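import Mathlib
import Fermat.Statements.S25
import Fermat.Prelude.Def_AlgebraicGeometry_RelativePicardFunctor
import Mathlib.AlgebraicGeometry.Modules.Tilde
import Mathlib.Algebra.Category.ModuleCat.ChangeOfRings
import Fermat.Agent.Pack.S43GC.G0E14L1
import Fermat.Agent.Pack.S44C.G0E21L3
import Fermat.Agent.Pack.S43MC.G1E0L0
import Fermat.Agent.Pack.S44C.G0E30L1
import Fermat.Agent.Pack.S44C.G0E30L3
import Fermat.Agent.Pack.S44C.G0E31L0

-- ===== PACK-BEGIN Lib/Newform/H23/EigLift.lean
section


/-!
# NEWFORM library (helper23) — linear algebra: an eigensystem of a quotient occurs in the module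

`exists_eigenvector_of_quotient`: let `T i` be commuting endomorphisms of a finite-dimensional
vector space, `F ≤ E` subspaces with `F ≠ E` and `(T i - a i) E ⊆ F` for all `i`
(so that the `T i` act on `E / F ≠ 0` through the scalars `a i`).  Then `E` contains a common
eigenvector of the `T i` with eigenvalues `a i`.  No algebraic closedness is needed.
-/

set_option autoImplicit false

namespace Fermat.Agent.Lib.Newform.H23

open Module

theorem exists_eigenvector_of_quotient {K V : Type*} [Field K] [AddCommGroup V]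
    [Module K V] [FiniteDimensional K V] {ι : Type*} (T : ι → Module.End K V)
    (hcomm : ∀ i j, Commute (T i) (T j)) (a : ι → K) :
    ∀ (E F : Submodule K V), F ≤ E → ¬ E ≤ F → (∀ i, ∀ v ∈ E, T i v - a i • v ∈ F) →
      ∃ v ∈ E, v ≠ 0 ∧ ∀ i, T i v = a i • v := by
  intro E
  induction h : finrank K E using Nat.strong_induction_on generalizing E with
  | _ d ih =>
    intro F hFE hEF hS
    by_cases hall : ∀ i, ∀ v ∈ E, T i v = a i • v
    · obtain ⟨v, hvE, hvF⟩ := Set.not_subset.mp hEF
      refine ⟨v, hvE, ?_, fun i => hall i v hvE⟩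
      rintro rfl
      exact hvF F.zero_mem
    · push Not at hall
      obtain ⟨i₀, w, hwE, hw⟩ := hall
      -- `S = T i₀ - a i₀`
      set S : Module.End K V := T i₀ - a i₀ • (1 : Module.End K V) with hSdef
      have hSapp : ∀ v, S v = T i₀ v - a i₀ • v := fun v => by simp [hSdef]
      have hScomm : ∀ i v, S (T i v) = T i (S v) := by
        intro i v
        have := congrArg (fun f : Module.End K V => f v) (hcomm i₀ i).eq
        simp only [Module.End.mul_apply] at this
        rw [hSapp, hSapp, this, map_sub, map_smul]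
      have hSE : ∀ v ∈ E, S v ∈ F := fun v hv => by rw [hSapp]; exact hS i₀ v hv
      have hSw : S w ≠ 0 := by
        rw [hSapp]
        exact fun h0 => hw (sub_eq_zero.mp h0)
      by_cases hker : E ⊓ LinearMap.ker S ≤ F
      · -- Case 2: pass to `S(E)`, `S(F)`
        have hlt : finrank K (E.map S) < finrank K E := by
          -- `S : E → E` is not surjective, hence not injective
          have hmaps : ∀ v ∈ E, S v ∈ E := fun v hv => hFE (hSE v hv)
          let SE : Module.End K E := S.restrict hmaps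
          have hnotsurj : ¬ Function.Surjective SE := by
            intro hsurj
            apply hEF
            intro v hv
            obtain ⟨u, hu⟩ := hsurj ⟨v, hv⟩
            have : S (u : V) = v := by
              have := congrArg (fun x : E => (x : V)) hu
              simpa [SE] using this
            rw [← this]
            exact hSE u u.2
          have hnotinj : ¬ Function.Injective SE := fun hinj =>
            hnotsurj (LinearMap.injective_iff_surjective.mp hinj)
          have hkerne : LinearMap.ker SE ≠ ⊥ := fun hbot =>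
            hnotinj (LinearMap.ker_eq_bot.mp hbot)
          have hrange : finrank K (LinearMap.range SE) + finrank K (LinearMap.ker SE) =
              finrank K E := LinearMap.finrank_range_add_finrank_ker SE
          have hkerpos : 0 < finrank K (LinearMap.ker SE) := by
            rw [Module.finrank_pos_iff]
            exact Submodule.nontrivial_iff_ne_bot.mpr hkerne
          have hmapeq : finrank K (E.map S) = finrank K (LinearMap.range SE) := by
            have hinj : Function.Injective (E.subtype) := E.injective_subtype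
            have : (LinearMap.range SE).map E.subtype = E.map S := by
              ext x
              constructor
              · rintro ⟨y, ⟨u, rfl⟩, rfl⟩
                exact ⟨u, u.2, by simp [SE]⟩
              · rintro ⟨u, hu, rfl⟩
                exact ⟨SE ⟨u, hu⟩, ⟨⟨u, hu⟩, rfl⟩, by simp [SE]⟩
            rw [← this]
            exact (LinearEquiv.finrank_eq (Submodule.equivMapOfInjective E.subtype hinj _)).symm
          omega
        have hFE' : F.map S ≤ E.map S := Submodule.map_mono hFE
        have hEF' : ¬ E.map S ≤ F.map S := by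
          intro hle
          apply hEF
          intro u hu
          obtain ⟨f, hf, hfu⟩ := hle (Submodule.mem_map_of_mem hu)
          have hmem : u - f ∈ E ⊓ LinearMap.ker S := by
            refine ⟨E.sub_mem hu (hFE hf), ?_⟩
            show u - f ∈ LinearMap.ker S
            rw [LinearMap.mem_ker, map_sub, hfu, sub_self]
          have := F.add_mem (hker hmem) hf
          simpa using this
        have hS' : ∀ i, ∀ v ∈ E.map S, T i v - a i • v ∈ F.map S := by
          rintro i _ ⟨u, hu, rfl⟩
          refine ⟨T i u - a i • u, hS i u hu, ?_⟩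
          rw [map_sub, map_smul]
          exact congrArg (· - a i • S u) (hScomm i u)
        obtain ⟨v, hv, hv0, hveig⟩ := ih (finrank K (E.map S)) (h ▸ hlt) (E.map S) rfl
          (F.map S) hFE' hEF' hS'
        obtain ⟨u, hu, rfl⟩ := hv
        exact ⟨S u, hFE (hSE u hu), hv0, hveig⟩
      · -- Case 1: pass to `E ∩ ker S`, `F ∩ ker S`
        have hlt : finrank K ↥(E ⊓ LinearMap.ker S) < finrank K E := by
          apply Submodule.finrank_lt_finrank_of_lt
          refine lt_of_le_of_ne inf_le_left ?_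
          intro heq
          have hw' : w ∈ E ⊓ LinearMap.ker S := by rw [heq]; exact hwE
          exact hSw (LinearMap.mem_ker.mp hw'.2)
        have hFE' : F ⊓ LinearMap.ker S ≤ E ⊓ LinearMap.ker S :=
          inf_le_inf hFE le_rfl
        have hEF' : ¬ E ⊓ LinearMap.ker S ≤ F ⊓ LinearMap.ker S := fun hle =>
          hker (hle.trans inf_le_left)
        have hS' : ∀ i, ∀ v ∈ E ⊓ LinearMap.ker S, T i v - a i • v ∈ F ⊓ LinearMap.ker S := by
          intro i v hv
          refine ⟨hS i v hv.1, ?_⟩
          have hv0 : S v = 0 := LinearMap.mem_ker.mp hv.2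
          show T i v - a i • v ∈ LinearMap.ker S
          rw [LinearMap.mem_ker, map_sub, map_smul, hScomm i v, hv0]
          simp
        obtain ⟨v, hv, hv0, hveig⟩ := ih _ (h ▸ hlt) (E ⊓ LinearMap.ker S) rfl
          (F ⊓ LinearMap.ker S) hFE' hEF' hS'
        exact ⟨v, hv.1, hv0, hveig⟩

end Fermat.Agent.Lib.Newform.H23

end
-- ===== PACK-END Lib/Newform/H23/EigLift.lean

-- ===== PACK-BEGIN S25/Defs.lean
section


/-!
# Row S25 (Jacobian of a curve): frozen interface, layer L1/L2

Everything here is a DEFINITION (mostly of `Prop`s).  Nothing is proved and nothing is assumed.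
A block "proves statement `Stmt.X`" by exhibiting a term of type `Stmt.X k c ε` (possibly from
hypotheses `Stmt.Y k c ε` of lower blocks).  Row-lead: helper985.  Board: coord/S25.md.
-/

set_option autoImplicit false
universe u
open CategoryTheory CategoryTheory.Limits AlgebraicGeometry AlgebraicGeometry.RelPicard
  NeronModelInfra GoodReductionJacobian

namespace Fermat.Agent.S25

noncomputable section

/-- Structure morphism `Spec A ⟶ Spec k` of a `k`-algebra `A`. -/
abbrev specStr (k : Type u) [CommRing k] (A : Type u) [CommRing A] [Algebra k A] :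
    Spec (CommRingCat.of A) ⟶ Spec (CommRingCat.of k) :=
  Spec.map (CommRingCat.ofHom (algebraMap k A))

/-- `Spec` of a `k`-algebra homomorphism `A → A'`, as a morphism over `Spec k`. -/
def specHomOver (k : Type u) [CommRing k] {A A' : Type u} [CommRing A] [CommRing A']
    [Algebra k A] [Algebra k A'] (φ : A →ₐ[k] A') :
    SchemeHomOver (specStr k A') (specStr k A) :=
  ⟨Spec.map (CommRingCat.ofHom φ.toRingHom), by
    rw [specStr, specStr, ← Spec.map_comp, ← CommRingCat.ofHom_comp]
    congr 2
    exact φ.comp_algebraMap⟩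

section Setup

variable {k : Type u} [Field k] {C : Scheme.{u}} (c : C ⟶ Spec (CommRingCat.of k))
  (ε : SchemeHomOver (𝟙 (Spec (CommRingCat.of k))) c)

/-- Restriction of a rigidified line bundle over `T` to an open subscheme `U ⊆ T`. -/
abbrev restrictOpen {c : C ⟶ Spec (CommRingCat.of k)}
    {ε : SchemeHomOver (𝟙 (Spec (CommRingCat.of k))) c}
    {T : Scheme.{u}} {t : T ⟶ Spec (CommRingCat.of k)}
    (M : RigidifiedLineBundle c ε t) (U : T.Opens) : RigidifiedLineBundle c ε (U.ι ≫ t) :=
  M.pullbackAlong (⟨U.ι, rfl⟩ : SchemeHomOver (U.ι ≫ t) t)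

/-- Restriction from an open `U` to a smaller open `V ≤ U`. -/
abbrev restrictLE {c : C ⟶ Spec (CommRingCat.of k)}
    {ε : SchemeHomOver (𝟙 (Spec (CommRingCat.of k))) c}
    {T : Scheme.{u}} {t : T ⟶ Spec (CommRingCat.of k)} {U V : T.Opens}
    (M : RigidifiedLineBundle c ε (U.ι ≫ t)) (h : V ≤ U) : RigidifiedLineBundle c ε (V.ι ≫ t) :=
  M.pullbackAlong (⟨T.homOfLE h, by rw [← Category.assoc, Scheme.homOfLE_ι]⟩ :
    SchemeHomOver (V.ι ≫ t) (U.ι ≫ t))

/-- Two rigidified line bundles are isomorphic (as line bundles; this is the Prelude's setoid). -/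
abbrev RIso {c : C ⟶ Spec (CommRingCat.of k)}
    {ε : SchemeHomOver (𝟙 (Spec (CommRingCat.of k))) c}
    {T : Scheme.{u}} {t : T ⟶ Spec (CommRingCat.of k)}
    (M M' : RigidifiedLineBundle c ε t) : Prop := Nonempty (M.L ≅ M'.L)

namespace Stmt

/-! ## L2: Zariski descent in the base `T` -/

/-- SHEAF-SEP: isomorphism of rigidified line bundles is Zariski-local on the base. -/
def SheafSep : Prop :=
  ∀ {T : Scheme.{u}} (t : T ⟶ Spec (CommRingCat.of k)) {ι : Type u} (U : ι → T.Opens),
    (⨆ i, U i) = ⊤ → ∀ M M' : RigidifiedLineBundle c ε t,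
      (∀ i, RIso (restrictOpen M (U i)) (restrictOpen M' (U i))) → RIso M M'

/-- SHEAF-GLUE: rigidified line bundles glue along a Zariski cover of the base as soon as they
are isomorphic on the pairwise overlaps (no cocycle condition: rigidified bundles have no
automorphisms). -/
def SheafGlue : Prop :=
  ∀ {T : Scheme.{u}} (t : T ⟶ Spec (CommRingCat.of k)) {ι : Type u} (U : ι → T.Opens),
    (⨆ i, U i) = ⊤ → ∀ M : ∀ i, RigidifiedLineBundle c ε ((U i).ι ≫ t),
      (∀ i j, RIso (restrictLE (M i) (inf_le_left : U i ⊓ U j ≤ U i))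
        (restrictLE (M j) (inf_le_right : U i ⊓ U j ≤ U j))) →
      ∃ M₀ : RigidifiedLineBundle c ε t, ∀ i, RIso (restrictOpen M₀ (U i)) (M i)

/-- LOCAL-P: degree zero (= the Prelude's `FibrewiseAlgEquivZero`) is Zariski-local on the
base.  (Formal: every geometric point of `T` factors through some `U i`.) -/
def LocalP : Prop :=
  ∀ {T : Scheme.{u}} (t : T ⟶ Spec (CommRingCat.of k)) {ι : Type u} (U : ι → T.Opens),
    (⨆ i, U i) = ⊤ → ∀ M : RigidifiedLineBundle c ε t,
      (∀ i, FibrewiseAlgEquivZero (restrictOpen M (U i))) → FibrewiseAlgEquivZero M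

/-! ## L1: the four pillars -/

/-- REP: the functor is representable by a scheme locally of finite type over `k`. -/
def Rep : Prop :=
  ∃ D : RelativePic0Designation k c,
    Nonempty (RepresentsRelSubPic c ε (algEquivZeroCut c ε) D) ∧ LocallyOfFiniteType D.toBase

/-- DEF: degree-zero rigidified line bundles lift along square-zero thickenings of affine
bases (`H²` of a curve vanishes).  Gives formal smoothness of `J`. -/
def Def : Prop :=
  ∀ (A : Type u) [CommRing A] [Algebra k A] (I : Ideal A), I ^ 2 = ⊥ →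
    ∀ M₀ : RigidifiedLineBundle c ε (specStr k (A ⧸ I)), FibrewiseAlgEquivZero M₀ →
      ∃ M : RigidifiedLineBundle c ε (specStr k A), FibrewiseAlgEquivZero M ∧
        RIso (M.pullbackAlong (specHomOver k (Ideal.Quotient.mkₐ k I))) M₀

/-- VAL: over a valuation ring, two degree-zero rigidified line bundles that are isomorphic
over the fraction field are isomorphic.  Gives separatedness of `J`. -/
def Val : Prop :=
  ∀ (V : Type u) [CommRing V] [IsDomain V] [ValuationRing V] [Algebra k V]
    (K : Type u) [Field K] [Algebra V K] [IsFractionRing V K] [Algebra k K]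
    [IsScalarTower k V K] (M M' : RigidifiedLineBundle c ε (specStr k V)),
    FibrewiseAlgEquivZero M → FibrewiseAlgEquivZero M' →
    RIso (M.pullbackAlong (specHomOver k (IsScalarTower.toAlgHom k V K)))
      (M'.pullbackAlong (specHomOver k (IsScalarTower.toAlgHom k V K))) → RIso M M'

/-- ABEL: there is a proper, geometrically integral `k`-scheme `X` (in practice `C^g`) and a
degree-zero rigidified line bundle on `C × X` such that every degree-zero rigidified line
bundle over an algebraically closed field `K ⊇ k` is one of its fibres.  Gives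
quasi-compactness, universal closedness and geometric connectedness of `J`. -/
def Abel : Prop :=
  ∃ (X : Scheme.{u}) (x : X ⟶ Spec (CommRingCat.of k)) (_ : IsProper x)
    (_ : GeometricallyIntegral x) (M : RigidifiedLineBundle c ε x),
    FibrewiseAlgEquivZero M ∧
      ∀ (K : Type u) [Field K] [IsAlgClosed K] [Algebra k K]
        (L : RigidifiedLineBundle c ε (specStr k K)), FibrewiseAlgEquivZero L →
        ∃ p : SchemeHomOver (specStr k K) x, RIso (M.pullbackAlong p) L

/-! ## L1: properties of a representing object (assembly statements) -/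

/-- SMOOTH (from `Def`): a representing object locally of finite type is smooth. -/
def SmoothOfRep : Prop :=
  ∀ D : RelativePic0Designation k c,
    Nonempty (RepresentsRelSubPic c ε (algEquivZeroCut c ε) D) →
      LocallyOfFiniteType D.toBase → Smooth D.toBase

/-- PROPER (from `Val` + `Abel`). -/
def ProperOfRep : Prop :=
  ∀ D : RelativePic0Designation k c,
    Nonempty (RepresentsRelSubPic c ε (algEquivZeroCut c ε) D) →
      LocallyOfFiniteType D.toBase → IsProper D.toBase

/-- GEOMCONN (from `Abel`). -/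
def GeomConnOfRep : Prop :=
  ∀ D : RelativePic0Designation k c,
    Nonempty (RepresentsRelSubPic c ε (algEquivZeroCut c ε) D) →
      LocallyOfFiniteType D.toBase → GeometricallyConnected D.toBase

end Stmt


/-! ## L2: affine charts of the functor -/

/-- A family of affine charts for the degree-zero rigidified Picard functor, tested on affine
`k`-schemes only.  `bundle i` is the universal bundle over the `i`-th chart `Spec (R i)`.
* `inj`: classifying maps into a chart are unique;
* `locus`: for a bundle `M` over `Spec A`, the locus of `Spec A` over which `M` lies in the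
  `i`-th chart is the open complement of `V(I i)`, compatibly with every base change
  `A → A'`, and these open sets cover `Spec A`. -/
structure ChartFamily where
  ι : Type u
  R : ι → Type u
  [commRing : ∀ i, CommRing (R i)]
  [algebra : ∀ i, Algebra k (R i)]
  finiteType : ∀ i, Algebra.FiniteType k (R i)
  bundle : ∀ i, RigidifiedLineBundle c ε (specStr k (R i))
  deg0 : ∀ i, FibrewiseAlgEquivZero (bundle i)
  inj : ∀ (i : ι) (A : Type u) [CommRing A] [Algebra k A] (φ ψ : R i →ₐ[k] A),
    RIso ((bundle i).pullbackAlong (specHomOver k φ))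
      ((bundle i).pullbackAlong (specHomOver k ψ)) → φ = ψ
  locus : ∀ (A : Type u) [CommRing A] [Algebra k A]
    (M : RigidifiedLineBundle c ε (specStr k A)), FibrewiseAlgEquivZero M →
    ∃ I : ι → Ideal A, (⨆ i, I i) = ⊤ ∧
      ∀ (i : ι) (A' : Type u) [CommRing A'] [Algebra k A'] (ψ : A →ₐ[k] A'),
        (∃ φ : R i →ₐ[k] A', RIso ((bundle i).pullbackAlong (specHomOver k φ))
            (M.pullbackAlong (specHomOver k ψ))) ↔ (I i).map ψ.toRingHom = ⊤

attribute [instance] ChartFamily.commRing ChartFamily.algebra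

namespace Stmt

/-- CHARTS: a chart family exists. -/
def Charts : Prop := Nonempty (ChartFamily c ε)

end Stmt

/-- TOP: the frozen statement S25 follows from the four L1 statements. -/
theorem result_of_stmts (hRep : Stmt.Rep c ε) (hS : Stmt.SmoothOfRep c ε)
    (hP : Stmt.ProperOfRep c ε) (hG : Stmt.GeomConnOfRep c ε) :
    ∃ D : RelativePic0Designation k c,
      Nonempty (RepresentsRelSubPic c ε (algEquivZeroCut c ε) D) ∧
        Smooth D.toBase ∧ IsProper D.toBase ∧ GeometricallyConnected D.toBase := by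
  obtain ⟨D, hD, hlft⟩ := hRep
  exact ⟨D, hD, hS D hD hlft, hP D hD hlft, hG D hD hlft⟩

end Setup

end

end Fermat.Agent.S25

end
-- ===== PACK-END S25/Defs.lean

-- ===== PACK-BEGIN S25/DefsAlg.lean
section


/-!
# Row S25: the algebraic model (frozen definitions, layer L3)

Pure commutative algebra; no schemes.  A line bundle on a scheme covered by two affine opens
`Spec R₀`, `Spec R₁` with affine intersection `Spec R₀₁` is a *gluing datum*
`(N₀, N₁, N₀₁, r₀, r₁)`.  For the curve `C = Spec B₀ ∪ Spec B₁` over `k` and a `k`-algebra `A`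
the rings are `A ⊗[k] B₀`, `A ⊗[k] B₁`, `A ⊗[k] B₀₁`.
Row-lead: helper985.  Board: coord/S25.md.
-/

set_option autoImplicit false
universe u
open scoped TensorProduct

namespace Fermat.Agent.S25

noncomputable section

/-! ## Gluing data over a cospan of rings `R₀ → R₀₁ ← R₁` of `A`-algebras -/

/-- A gluing datum of invertible modules over the cospan `R₀ → R₀₁ ← R₁` of `A`-algebras:
sections over the two charts and over their intersection, with the restriction maps, which
are base-change maps. -/
structure GlueDatum (A R₀ R₁ R₀₁ : Type u) [CommRing A] [CommRing R₀] [CommRing R₁]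
    [CommRing R₀₁] [Algebra A R₀] [Algebra A R₁] [Algebra A R₀₁] [Algebra R₀ R₀₁]
    [Algebra R₁ R₀₁] [IsScalarTower A R₀ R₀₁] [IsScalarTower A R₁ R₀₁] where
  N₀ : Type u
  N₁ : Type u
  N₀₁ : Type u
  [addCommGroup₀ : AddCommGroup N₀]
  [addCommGroup₁ : AddCommGroup N₁]
  [addCommGroup₀₁ : AddCommGroup N₀₁]
  [module₀ : Module R₀ N₀]
  [module₁ : Module R₁ N₁]
  [module₀₁ : Module R₀₁ N₀₁]
  [moduleL : Module R₀ N₀₁]
  [moduleR : Module R₁ N₀₁]
  [towerL : IsScalarTower R₀ R₀₁ N₀₁]
  [towerR : IsScalarTower R₁ R₀₁ N₀₁]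
  [baseModule₀ : Module A N₀]
  [baseModule₁ : Module A N₁]
  [baseModule₀₁ : Module A N₀₁]
  [baseTower₀ : IsScalarTower A R₀ N₀]
  [baseTower₁ : IsScalarTower A R₁ N₁]
  [baseTower₀₁ : IsScalarTower A R₀₁ N₀₁]
  /-- restriction from the chart `Spec R₀` to the intersection -/
  r₀ : N₀ →ₗ[R₀] N₀₁
  /-- restriction from the chart `Spec R₁` to the intersection -/
  r₁ : N₁ →ₗ[R₁] N₀₁
  isBaseChange₀ : IsBaseChange R₀₁ r₀
  isBaseChange₁ : IsBaseChange R₀₁ r₁
  invertible₀ : Module.Invertible R₀ N₀
  invertible₁ : Module.Invertible R₁ N₁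

namespace GlueDatum

attribute [instance] addCommGroup₀ addCommGroup₁ addCommGroup₀₁ module₀ module₁ module₀₁
  moduleL moduleR towerL towerR baseModule₀ baseModule₁ baseModule₀₁ baseTower₀ baseTower₁
  baseTower₀₁

section Basic

variable {A R₀ R₁ R₀₁ : Type u} [CommRing A] [CommRing R₀] [CommRing R₁]
    [CommRing R₀₁] [Algebra A R₀] [Algebra A R₁] [Algebra A R₀₁] [Algebra R₀ R₀₁]
    [Algebra R₁ R₀₁] [IsScalarTower A R₀ R₀₁] [IsScalarTower A R₁ R₀₁]

/-- An isomorphism of gluing data: compatible linear equivalences. -/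
structure Iso (G G' : GlueDatum A R₀ R₁ R₀₁) where
  e₀ : G.N₀ ≃ₗ[R₀] G'.N₀
  e₁ : G.N₁ ≃ₗ[R₁] G'.N₁
  e₀₁ : G.N₀₁ ≃ₗ[R₀₁] G'.N₀₁
  comm₀ : ∀ s, e₀₁ (G.r₀ s) = G'.r₀ (e₀ s)
  comm₁ : ∀ s, e₀₁ (G.r₁ s) = G'.r₁ (e₁ s)

/-- Two gluing data are isomorphic. -/
def IsIso (G G' : GlueDatum A R₀ R₁ R₀₁) : Prop := Nonempty (Iso G G')

instance towerBaseL (G : GlueDatum A R₀ R₁ R₀₁) : IsScalarTower A R₀ G.N₀₁ :=
  ⟨fun a r n => by
    rw [← algebraMap_smul R₀₁ (a • r) n, ← algebraMap_smul R₀₁ r n, Algebra.smul_def,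
      map_mul, ← IsScalarTower.algebraMap_apply A R₀ R₀₁, mul_smul, algebraMap_smul R₀₁ a]⟩

instance towerBaseR (G : GlueDatum A R₀ R₁ R₀₁) : IsScalarTower A R₁ G.N₀₁ :=
  ⟨fun a r n => by
    rw [← algebraMap_smul R₀₁ (a • r) n, ← algebraMap_smul R₀₁ r n, Algebra.smul_def,
      map_mul, ← IsScalarTower.algebraMap_apply A R₁ R₀₁, mul_smul, algebraMap_smul R₀₁ a]⟩

/-- The Čech differential `(s₀, s₁) ↦ r₀ s₀ - r₁ s₁`, an `A`-linear map. -/
def cech (G : GlueDatum A R₀ R₁ R₀₁) : (G.N₀ × G.N₁) →ₗ[A] G.N₀₁ :=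
  (G.r₀.restrictScalars A).coprod (-(G.r₁.restrictScalars A))

/-- `Ȟ⁰` of a gluing datum: compatible pairs of sections. -/
abbrev H0 (G : GlueDatum A R₀ R₁ R₀₁) : Submodule A (G.N₀ × G.N₁) := LinearMap.ker G.cech

/-- `Ȟ¹` of a gluing datum. -/
abbrev H1 (G : GlueDatum A R₀ R₁ R₀₁) : Type u := G.N₀₁ ⧸ LinearMap.range G.cech

/-- The unit gluing datum `(R₀, R₁, R₀₁)`. -/
def unit (A R₀ R₁ R₀₁ : Type u) [CommRing A] [CommRing R₀] [CommRing R₁]
    [CommRing R₀₁] [Algebra A R₀] [Algebra A R₁] [Algebra A R₀₁] [Algebra R₀ R₀₁]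
    [Algebra R₁ R₀₁] [IsScalarTower A R₀ R₀₁] [IsScalarTower A R₁ R₀₁] :
    GlueDatum A R₀ R₁ R₀₁ where
  N₀ := R₀
  N₁ := R₁
  N₀₁ := R₀₁
  r₀ := Algebra.linearMap R₀ R₀₁
  r₁ := Algebra.linearMap R₁ R₀₁
  isBaseChange₀ := IsBaseChange.linearMap R₀ R₀₁
  isBaseChange₁ := IsBaseChange.linearMap R₁ R₀₁
  invertible₀ := inferInstance
  invertible₁ := inferInstance

end Basic

section Field

variable {K R₀ R₁ R₀₁ : Type u} [Field K] [CommRing R₀] [CommRing R₁]
    [CommRing R₀₁] [Algebra K R₀] [Algebra K R₁] [Algebra K R₀₁] [Algebra R₀ R₀₁]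
    [Algebra R₁ R₀₁] [IsScalarTower K R₀ R₀₁] [IsScalarTower K R₁ R₀₁]

/-- Euler characteristic `dim Ȟ⁰ - dim Ȟ¹` of a gluing datum over a field (meaningful when
both are finite-dimensional, which is a theorem for curve charts). -/
def euler (G : GlueDatum K R₀ R₁ R₀₁) : ℤ :=
  (Module.finrank K G.H0 : ℤ) - (Module.finrank K G.H1 : ℤ)

/-- Degree of a gluing datum over a field: `χ(G) - χ(O)`. -/
def degree (G : GlueDatum K R₀ R₁ R₀₁) : ℤ := G.euler - (unit K R₀ R₁ R₀₁).euler

end Field

end GlueDatum

/-! ## Base change of gluing data along a morphism of cospans -/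

/-- `b : N → N'` is `ρ`-semilinear and exhibits `N'` as the base change `R' ⊗[R] N`. -/
def IsSemilinearBaseChange {R R' : Type u} [CommRing R] [CommRing R'] (ρ : R →+* R')
    {N N' : Type u} [AddCommGroup N] [Module R N] [AddCommGroup N'] [Module R' N']
    (b : N →ₛₗ[ρ] N') : Prop :=
  letI : Algebra R R' := ρ.toAlgebra
  letI : Module R N' := Module.compHom N' ρ
  haveI : IsScalarTower R R' N' := ⟨fun r r' n => by
    change (ρ r * r') • n = ρ r • (r' • n); rw [mul_smul]⟩
  IsBaseChange R' (show N →ₗ[R] N' from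
    { toFun := fun n => b n
      map_add' := fun m n => b.map_add m n
      map_smul' := fun r n => LinearMap.map_smulₛₗ b r n })

namespace GlueDatum

section BaseChange

variable {A R₀ R₁ R₀₁ : Type u} [CommRing A] [CommRing R₀] [CommRing R₁]
    [CommRing R₀₁] [Algebra A R₀] [Algebra A R₁] [Algebra A R₀₁] [Algebra R₀ R₀₁]
    [Algebra R₁ R₀₁] [IsScalarTower A R₀ R₀₁] [IsScalarTower A R₁ R₀₁]
    {A' R₀' R₁' R₀₁' : Type u} [CommRing A'] [CommRing R₀'] [CommRing R₁']
    [CommRing R₀₁'] [Algebra A' R₀'] [Algebra A' R₁'] [Algebra A' R₀₁'] [Algebra R₀' R₀₁']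
    [Algebra R₁' R₀₁'] [IsScalarTower A' R₀' R₀₁'] [IsScalarTower A' R₁' R₀₁']

/-- Maps exhibiting `G'` as the base change of `G` along the ring maps `ρ₀, ρ₁, ρ₀₁` (which
are assumed to form a morphism of cospans by whoever uses this). -/
structure BaseChangeMaps (ρ₀ : R₀ →+* R₀') (ρ₁ : R₁ →+* R₁') (ρ₀₁ : R₀₁ →+* R₀₁')
    (G : GlueDatum A R₀ R₁ R₀₁) (G' : GlueDatum A' R₀' R₁' R₀₁') where
  b₀ : G.N₀ →ₛₗ[ρ₀] G'.N₀
  b₁ : G.N₁ →ₛₗ[ρ₁] G'.N₁
  b₀₁ : G.N₀₁ →ₛₗ[ρ₀₁] G'.N₀₁
  comm₀ : ∀ s, b₀₁ (G.r₀ s) = G'.r₀ (b₀ s)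
  comm₁ : ∀ s, b₀₁ (G.r₁ s) = G'.r₁ (b₁ s)
  isBaseChange₀ : IsSemilinearBaseChange ρ₀ b₀
  isBaseChange₁ : IsSemilinearBaseChange ρ₁ b₁
  isBaseChange₀₁ : IsSemilinearBaseChange ρ₀₁ b₀₁

/-- `G'` is a base change of `G` along `(ρ₀, ρ₁, ρ₀₁)`. -/
def IsBC (ρ₀ : R₀ →+* R₀') (ρ₁ : R₁ →+* R₁') (ρ₀₁ : R₀₁ →+* R₀₁')
    (G : GlueDatum A R₀ R₁ R₀₁) (G' : GlueDatum A' R₀' R₁' R₀₁') : Prop :=
  Nonempty (BaseChangeMaps ρ₀ ρ₁ ρ₀₁ G G')

end BaseChange

end GlueDatum

/-! ## Curve charts -/

section Curve

variable (k : Type u) [Field k]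

/-- The map `A ⊗[k] B → A ⊗[k] B'` induced by an algebra `B → B'`. -/
def tensorMapRight (A B B' : Type u) [CommRing A] [Algebra k A] [CommRing B] [CommRing B']
    [Algebra k B] [Algebra k B'] [Algebra B B'] [IsScalarTower k B B'] :
    A ⊗[k] B →ₐ[A] A ⊗[k] B' :=
  Algebra.TensorProduct.map (AlgHom.id A A) (IsScalarTower.toAlgHom k B B')

/-- The map `A ⊗[k] B → A' ⊗[k] B` induced by `φ : A → A'`. -/
def tensorMapLeft {A A' : Type u} [CommRing A] [Algebra k A] [CommRing A'] [Algebra k A']
    (φ : A →ₐ[k] A') (B : Type u) [CommRing B] [Algebra k B] :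
    A ⊗[k] B →+* A' ⊗[k] B :=
  (Algebra.TensorProduct.map φ (AlgHom.id k B)).toRingHom

/-- `A ⊗[k] B'` as an algebra over `A ⊗[k] B` (scoped, low priority). -/
scoped instance (priority := 100) tensorAlgebraRight (A B B' : Type u) [CommRing A]
    [Algebra k A] [CommRing B] [CommRing B'] [Algebra k B] [Algebra k B'] [Algebra B B']
    [IsScalarTower k B B'] : Algebra (A ⊗[k] B) (A ⊗[k] B') :=
  (tensorMapRight k A B B').toRingHom.toAlgebra

scoped instance (priority := 100) tensorTowerRight (A B B' : Type u) [CommRing A]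
    [Algebra k A] [CommRing B] [CommRing B'] [Algebra k B] [Algebra k B'] [Algebra B B']
    [IsScalarTower k B B'] : IsScalarTower A (A ⊗[k] B) (A ⊗[k] B') :=
  IsScalarTower.of_algebraMap_eq' (tensorMapRight k A B B').comp_algebraMap.symm

variable (B₀ B₁ B₀₁ : Type u) [CommRing B₀] [CommRing B₁] [CommRing B₀₁]
  [Algebra k B₀] [Algebra k B₁] [Algebra k B₀₁] [Algebra B₀ B₀₁] [Algebra B₁ B₀₁]
  [IsScalarTower k B₀ B₀₁] [IsScalarTower k B₁ B₀₁]

/-- `(B₀, B₁, B₀₁, x, y, e)` is a two-chart presentation of a smooth proper curve over `k`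
with a marked point: `C = Spec B₀ ∪ Spec B₁`, `Spec B₀₁ = D(x) = D(y)`, `x y = 1`, the
function `x : C → P¹` is finite, and `e` is a `k`-point of `Spec B₁` with `y = 0`. -/
structure IsCurveChart (x : B₀) (y : B₁) (e : B₁ →ₐ[k] k) : Prop where
  isDomain₀ : IsDomain B₀
  isDomain₁ : IsDomain B₁
  away₀ : IsLocalization.Away x B₀₁
  away₁ : IsLocalization.Away y B₀₁
  mul_eq_one : algebraMap B₀ B₀₁ x * algebraMap B₁ B₀₁ y = 1
  finite₀ : (Polynomial.aeval x : Polynomial k →ₐ[k] B₀).Finite
  finite₁ : (Polynomial.aeval y : Polynomial k →ₐ[k] B₁).Finite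
  smooth₀ : Algebra.Smooth k B₀
  smooth₁ : Algebra.Smooth k B₁
  omega₀ : Module.Invertible B₀ Ω[B₀⁄k]
  omega₁ : Module.Invertible B₁ Ω[B₁⁄k]
  e_y : e y = 0

/-- Gluing data on `C_A` for the curve chart `(B₀, B₁, B₀₁)`. -/
abbrev CurveGD (A : Type u) [CommRing A] [Algebra k A] : Type (u + 1) :=
  GlueDatum A (A ⊗[k] B₀) (A ⊗[k] B₁) (A ⊗[k] B₀₁)

variable {k B₀ B₁ B₀₁}

/-- `G'` over `A'` is a base change of `G` over `A` along `φ : A → A'`. -/
def CurveGD.IsBC {A A' : Type u} [CommRing A] [Algebra k A] [CommRing A'] [Algebra k A']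
    (φ : A →ₐ[k] A') (G : CurveGD k B₀ B₁ B₀₁ A) (G' : CurveGD k B₀ B₁ B₀₁ A') : Prop :=
  GlueDatum.IsBC (tensorMapLeft k φ B₀) (tensorMapLeft k φ B₁) (tensorMapLeft k φ B₀₁) G G'

/-- The section `A ⊗[k] B₁ → A` of `C_A → Spec A` given by the marked point `e`. -/
def epsHom (e : B₁ →ₐ[k] k) (A : Type u) [CommRing A] [Algebra k A] : A ⊗[k] B₁ →ₐ[A] A :=
  Algebra.TensorProduct.lift (AlgHom.id A A) ((Algebra.ofId k A).comp e)
    (fun _ _ => Commute.all _ _)

/-- The gluing datum can be rigidified along the marked point: `e^* N₁ ≅ A`. -/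
def CurveGD.Rigidifiable (e : B₁ →ₐ[k] k) {A : Type u} [CommRing A] [Algebra k A]
    (G : CurveGD k B₀ B₁ B₀₁ A) : Prop :=
  ∃ b : G.N₁ →ₛₗ[(epsHom e A).toRingHom] A, IsSemilinearBaseChange _ b

/-- Degree zero on every fibre. -/
def CurveGD.Deg0 {A : Type u} [CommRing A] [Algebra k A]
    (G : CurveGD k B₀ B₁ B₀₁ A) : Prop :=
  ∀ (K : Type u) [Field K] [Algebra k K] (φ : A →ₐ[k] K) (G' : CurveGD k B₀ B₁ B₀₁ K),
    CurveGD.IsBC φ G G' → G'.degree = 0

variable (k B₀ B₁ B₀₁)

/-- A family of affine charts of the algebraic Picard functor (algebraic form of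
`ChartFamily`). -/
structure AlgChartFamily (e : B₁ →ₐ[k] k) where
  ι : Type u
  R : ι → Type u
  [commRing : ∀ i, CommRing (R i)]
  [algebra : ∀ i, Algebra k (R i)]
  finiteType : ∀ i, Algebra.FiniteType k (R i)
  datum : ∀ i, CurveGD k B₀ B₁ B₀₁ (R i)
  rig : ∀ i, (datum i).Rigidifiable e
  deg0 : ∀ i, (datum i).Deg0
  inj : ∀ (i : ι) (A : Type u) [CommRing A] [Algebra k A] (φ ψ : R i →ₐ[k] A)
    (G G' : CurveGD k B₀ B₁ B₀₁ A), CurveGD.IsBC φ (datum i) G →
      CurveGD.IsBC ψ (datum i) G' → G.IsIso G' → φ = ψ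
  locus : ∀ (A : Type u) [CommRing A] [Algebra k A] (G : CurveGD k B₀ B₁ B₀₁ A),
    G.Rigidifiable e → G.Deg0 →
    ∃ I : ι → Ideal A, (⨆ i, I i) = ⊤ ∧
      ∀ (i : ι) (A' : Type u) [CommRing A'] [Algebra k A'] (ψ : A →ₐ[k] A')
        (G' : CurveGD k B₀ B₁ B₀₁ A'), CurveGD.IsBC ψ G G' →
        ((∃ φ : R i →ₐ[k] A', CurveGD.IsBC φ (datum i) G') ↔ (I i).map ψ.toRingHom = ⊤)

attribute [instance] AlgChartFamily.commRing AlgChartFamily.algebra

namespace Stmt

/-- ALG-CHARTS: the algebraic Picard functor of a curve chart has an affine chart family. -/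
def AlgCharts : Prop :=
  ∀ (x : B₀) (y : B₁) (e : B₁ →ₐ[k] k), IsCurveChart k B₀ B₁ B₀₁ x y e →
    Nonempty (AlgChartFamily k B₀ B₁ B₀₁ e)

/-- ALG-DEF: gluing data lift along square-zero extensions. -/
def AlgDef : Prop :=
  ∀ (x : B₀) (y : B₁) (e : B₁ →ₐ[k] k), IsCurveChart k B₀ B₁ B₀₁ x y e →
    ∀ (A : Type u) [CommRing A] [Algebra k A] (I : Ideal A), I ^ 2 = ⊥ →
      ∀ G₀ : CurveGD k B₀ B₁ B₀₁ (A ⧸ I),
        ∃ G : CurveGD k B₀ B₁ B₀₁ A, CurveGD.IsBC (Ideal.Quotient.mkₐ k I) G G₀

/-- ALG-VAL: over a valuation ring, degree-zero gluing data that become isomorphic over the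
fraction field are isomorphic. -/
def AlgVal : Prop :=
  ∀ (x : B₀) (y : B₁) (e : B₁ →ₐ[k] k), IsCurveChart k B₀ B₁ B₀₁ x y e →
    ∀ (V : Type u) [CommRing V] [IsDomain V] [ValuationRing V] [Algebra k V]
      (K : Type u) [Field K] [Algebra V K] [IsFractionRing V K] [Algebra k K]
      [IsScalarTower k V K] (G G' : CurveGD k B₀ B₁ B₀₁ V) (GK GK' : CurveGD k B₀ B₁ B₀₁ K),
      G.Deg0 → G'.Deg0 → CurveGD.IsBC (IsScalarTower.toAlgHom k V K) G GK →
        CurveGD.IsBC (IsScalarTower.toAlgHom k V K) G' GK' → GK.IsIso GK' → G.IsIso G'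

end Stmt

end Curve

end

end Fermat.Agent.S25

end
-- ===== PACK-END S25/DefsAlg.lean

-- ===== PACK-BEGIN S25/H205/Box.lean
section



/-!
# S25 / block AFF / F4: affine "boxes" in a fibre product `C ×ₛ T` over an affine base

`c : C ⟶ S`, `t : T ⟶ S` with `S` affine, `U ⊆ C`, `V ⊆ T` opens.
`box c t U V := pr₁⁻¹ U ⊓ pr₂⁻¹ V ⊆ C ×ₛ T`.

* `isAffineOpen_box`: a box of affine opens is affine.
* `isPushout_box`: its ring of sections is the pushout (tensor product)
  `Γ(C, U) ⊗[Γ(S, ⊤)] Γ(T, V)`.
* `box_inf_box`, `iSup_box_left`, ... : lattice calculus of boxes (covers by boxes).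
* `box_basicOpen_left/right`: boxes of basic opens are basic opens of the box.
* compatibility with `RelPicard.baseChangeSnd` and `RelPicard.rigSection`.
-/

set_option autoImplicit false

universe u

open CategoryTheory CategoryTheory.Limits AlgebraicGeometry AlgebraicGeometry.RelPicard
  NeronModelInfra

namespace Fermat.Agent.S25.H205

section Box

variable {C T S : Scheme.{u}} (c : C ⟶ S) (t : T ⟶ S)

/-- The open `pr₁⁻¹ U ⊓ pr₂⁻¹ V` of the fibre product `C ×ₛ T`. -/
noncomputable def box (U : C.Opens) (V : T.Opens) : (pullback c t).Opens :=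
  (pullback.fst c t) ⁻¹ᵁ U ⊓ (pullback.snd c t) ⁻¹ᵁ V

variable {c t}

lemma box_def (U : C.Opens) (V : T.Opens) :
    box c t U V = (pullback.fst c t) ⁻¹ᵁ U ⊓ (pullback.snd c t) ⁻¹ᵁ V := rfl

lemma box_le_fst (U : C.Opens) (V : T.Opens) : box c t U V ≤ (pullback.fst c t) ⁻¹ᵁ U :=
  inf_le_left

lemma box_le_snd (U : C.Opens) (V : T.Opens) : box c t U V ≤ (pullback.snd c t) ⁻¹ᵁ V :=
  inf_le_right

@[simp] lemma box_top_top : box c t ⊤ ⊤ = ⊤ := by simp [box]

@[simp] lemma box_top_right (U : C.Opens) : box c t U ⊤ = (pullback.fst c t) ⁻¹ᵁ U := by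
  simp [box]

@[simp] lemma box_top_left (V : T.Opens) : box c t ⊤ V = (pullback.snd c t) ⁻¹ᵁ V := by
  simp [box]

lemma box_mono {U U' : C.Opens} {V V' : T.Opens} (hU : U ≤ U') (hV : V ≤ V') :
    box c t U V ≤ box c t U' V' :=
  inf_le_inf ((pullback.fst c t).preimage_mono hU) ((pullback.snd c t).preimage_mono hV)

lemma box_inf_box (U U' : C.Opens) (V V' : T.Opens) :
    box c t U V ⊓ box c t U' V' = box c t (U ⊓ U') (V ⊓ V') := by
  simp only [box, Scheme.Hom.preimage_inf]
  ac_rfl

lemma iSup_box_left {ι : Type*} (U : ι → C.Opens) (V : T.Opens) :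
    ⨆ i, box c t (U i) V = box c t (⨆ i, U i) V := by
  simp only [box, Scheme.Hom.preimage_iSup, iSup_inf_eq]

lemma iSup_box_right {ι : Type*} (U : C.Opens) (V : ι → T.Opens) :
    ⨆ i, box c t U (V i) = box c t U (⨆ i, V i) := by
  simp only [box, Scheme.Hom.preimage_iSup, inf_iSup_eq]

lemma iSup_box_left_eq_top {ι : Type*} (U : ι → C.Opens) (hU : ⨆ i, U i = ⊤) :
    ⨆ i, box c t (U i) ⊤ = ⊤ := by
  rw [iSup_box_left, hU, box_top_top]

lemma box_sup_left (U U' : C.Opens) (V : T.Opens) :
    box c t U V ⊔ box c t U' V = box c t (U ⊔ U') V := by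
  simp only [box, Scheme.Hom.preimage_sup, inf_sup_right]

lemma box_sup_right (U : C.Opens) (V V' : T.Opens) :
    box c t U V ⊔ box c t U V' = box c t U (V ⊔ V') := by
  simp only [box, Scheme.Hom.preimage_sup, inf_sup_left]

/-- Boxes of basic opens (left factor). -/
lemma box_basicOpen_left {U : C.Opens} (V : T.Opens) (x : Γ(C, U)) :
    box c t (C.basicOpen x) V =
      (pullback c t).basicOpen ((pullback.fst c t).appLE U (box c t U V) (box_le_fst U V) x) := by
  rw [Scheme.basicOpen_appLE]
  have h : (pullback.fst c t) ⁻¹ᵁ (C.basicOpen x) ≤ (pullback.fst c t) ⁻¹ᵁ U :=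
    (pullback.fst c t).preimage_mono (C.basicOpen_le x)
  simp only [box]
  apply le_antisymm
  · exact le_inf (le_inf (inf_le_left.trans h) inf_le_right) inf_le_left
  · exact le_inf inf_le_right (inf_le_left.trans inf_le_right)

/-- Boxes of basic opens (right factor). -/
lemma box_basicOpen_right (U : C.Opens) {V : T.Opens} (a : Γ(T, V)) :
    box c t U (T.basicOpen a) =
      (pullback c t).basicOpen ((pullback.snd c t).appLE V (box c t U V) (box_le_snd U V) a) := by
  rw [Scheme.basicOpen_appLE]
  have h : (pullback.snd c t) ⁻¹ᵁ (T.basicOpen a) ≤ (pullback.snd c t) ⁻¹ᵁ V :=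
    (pullback.snd c t).preimage_mono (T.basicOpen_le a)
  simp only [box]
  apply le_antisymm
  · exact le_inf (le_inf inf_le_left (inf_le_right.trans h)) inf_le_right
  · exact le_inf (inf_le_left.trans inf_le_left) inf_le_right

variable (c t)

/-- A box of affine opens lying over an affine open of the base is affine. -/
theorem isAffineOpen_box_of_le {US : S.Opens} (hUS : IsAffineOpen US) {U : C.Opens}
    {V : T.Opens} (hU : IsAffineOpen U) (hV : IsAffineOpen V) (hUSX : U ≤ c ⁻¹ᵁ US)
    (hUST : V ≤ t ⁻¹ᵁ US) : IsAffineOpen (box c t U V) := by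
  have H : IsPullback (pullback.fst c t) (pullback.snd c t) c t := IsPullback.of_hasPullback c t
  have : IsAffine US := hUS
  have : IsAffine U := hU
  have : IsAffine V := hV
  exact .of_isIso (Scheme.Hom.isPullback_resLE H hUST hUSX (box_def U V)).isoPullback.hom

/-- The sections over a box of affine opens (over an affine open of the base) form the pushout
`Γ(C, U) ⊗[Γ(S, US)] Γ(T, V)`. -/
theorem isPushout_box_of_le {US : S.Opens} (hUS : IsAffineOpen US) {U : C.Opens}
    {V : T.Opens} (hU : IsAffineOpen U) (hV : IsAffineOpen V) (hUSX : U ≤ c ⁻¹ᵁ US)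
    (hUST : V ≤ t ⁻¹ᵁ US) :
    IsPushout (c.appLE US U hUSX) (t.appLE US V hUST)
      ((pullback.fst c t).appLE U (box c t U V) (box_le_fst U V))
      ((pullback.snd c t).appLE V (box c t U V) (box_le_snd U V)) := by
  have H : IsPullback (pullback.fst c t) (pullback.snd c t) c t := IsPullback.of_hasPullback c t
  exact (isIso_pushoutSection_iff H hUST hUSX (box_def U V)).mp
    (isIso_pushoutSection_of_isAffineOpen H hUST hUSX (box_def U V) hUS hV hU)

section AffineBase

variable [IsAffine S]

/-- Over an affine base, a box of affine opens is affine. -/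
theorem isAffineOpen_box {U : C.Opens} {V : T.Opens} (hU : IsAffineOpen U)
    (hV : IsAffineOpen V) : IsAffineOpen (box c t U V) :=
  isAffineOpen_box_of_le c t (isAffineOpen_top S) hU hV (by simp) (by simp)

/-- Over an affine base `S`, the sections over a box of affine opens form the pushout
`Γ(C, U) ⊗[Γ(S, ⊤)] Γ(T, V)`. -/
theorem isPushout_box {U : C.Opens} {V : T.Opens} (hU : IsAffineOpen U)
    (hV : IsAffineOpen V) :
    IsPushout (c.appLE ⊤ U (by simp)) (t.appLE ⊤ V (by simp))
      ((pullback.fst c t).appLE U (box c t U V) (box_le_fst U V))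
      ((pullback.snd c t).appLE V (box c t U V) (box_le_snd U V)) :=
  isPushout_box_of_le c t (isAffineOpen_top S) hU hV (by simp) (by simp)

/-- If `T` is affine, the preimage in `C ×ₛ T` of an affine open of `C` is affine. -/
theorem isAffineOpen_fst_preimage [IsAffine T] {U : C.Opens} (hU : IsAffineOpen U) :
    IsAffineOpen ((pullback.fst c t) ⁻¹ᵁ U) := by
  rw [← box_top_right]
  exact isAffineOpen_box c t hU (isAffineOpen_top T)

/-- If `C` is affine, the preimage in `C ×ₛ T` of an affine open of `T` is affine. -/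
theorem isAffineOpen_snd_preimage [IsAffine C] {V : T.Opens} (hV : IsAffineOpen V) :
    IsAffineOpen ((pullback.snd c t) ⁻¹ᵁ V) := by
  rw [← box_top_left]
  exact isAffineOpen_box c t (isAffineOpen_top C) hV

end AffineBase

end Box

section Compat

/-- `appLE` only depends on the morphism up to equality. -/
lemma appLE_congr_hom {X Y : Scheme.{u}} {f g : X ⟶ Y} (h : f = g) (U : Y.Opens)
    (V : X.Opens) (e : V ≤ f ⁻¹ᵁ U) : f.appLE U V e = g.appLE U V (h ▸ e) := by
  subst h; rfl

variable {R : Type u} [CommRing R] {C T T' : Scheme.{u}} (c : C ⟶ Spec (CommRingCat.of R))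
  {t : T ⟶ Spec (CommRingCat.of R)} {t' : T' ⟶ Spec (CommRingCat.of R)}

@[reassoc (attr := simp)]
lemma baseChangeSnd_fst (s : SchemeHomOver t' t) :
    baseChangeSnd c s ≫ pullback.fst c t = pullback.fst c t' := by
  unfold baseChangeSnd
  exact (pullback.lift_fst _ _ _).trans (Category.comp_id _)

@[reassoc (attr := simp)]
lemma baseChangeSnd_snd (s : SchemeHomOver t' t) :
    baseChangeSnd c s ≫ pullback.snd c t = pullback.snd c t' ≫ s.1 := by
  unfold baseChangeSnd
  exact pullback.lift_snd _ _ _

/-- The base-change square `C ×ₖ T' ⟶ C ×ₖ T` over `T' ⟶ T` is cartesian. -/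
theorem isPullback_baseChangeSnd (s : SchemeHomOver t' t) :
    IsPullback (baseChangeSnd c s) (pullback.snd c t') (pullback.snd c t) s.1 := by
  have hbig : IsPullback (baseChangeSnd c s ≫ pullback.fst c t) (pullback.snd c t') c
      (s.1 ≫ t) := by
    rw [baseChangeSnd_fst, s.2]
    exact IsPullback.of_hasPullback c t'
  exact IsPullback.of_right hbig (baseChangeSnd_snd c s) (IsPullback.of_hasPullback c t)

lemma baseChangeSnd_preimage_box (s : SchemeHomOver t' t) (U : C.Opens) (V : T.Opens) :
    (baseChangeSnd c s) ⁻¹ᵁ (box c t U V) = box c t' U (s.1 ⁻¹ᵁ V) := by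
  simp only [box, Scheme.Hom.preimage_inf, ← Scheme.Hom.comp_preimage, baseChangeSnd_fst,
    baseChangeSnd_snd]

lemma box_le_baseChangeSnd_preimage (s : SchemeHomOver t' t) {U : C.Opens} {V : T.Opens}
    {V' : T'.Opens} (hV : V' ≤ s.1 ⁻¹ᵁ V) :
    box c t' U V' ≤ (baseChangeSnd c s) ⁻¹ᵁ (box c t U V) := by
  rw [baseChangeSnd_preimage_box]
  exact box_mono le_rfl hV

/-- On sections over boxes, `baseChangeSnd` is the identity on the `C`-factor ... -/
lemma fst_appLE_baseChangeSnd_appLE (s : SchemeHomOver t' t) {U : C.Opens} {V : T.Opens}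
    {V' : T'.Opens} (hV : V' ≤ s.1 ⁻¹ᵁ V) :
    (pullback.fst c t).appLE U (box c t U V) (box_le_fst U V) ≫
        (baseChangeSnd c s).appLE (box c t U V) (box c t' U V')
          (box_le_baseChangeSnd_preimage c s hV) =
      (pullback.fst c t').appLE U (box c t' U V') (box_le_fst U V') := by
  rw [Scheme.Hom.appLE_comp_appLE]
  exact appLE_congr_hom (baseChangeSnd_fst c s) _ _ _

/-- ... and the given map `T' ⟶ T` on the `T`-factor. -/
lemma snd_appLE_baseChangeSnd_appLE (s : SchemeHomOver t' t) {U : C.Opens} {V : T.Opens}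
    {V' : T'.Opens} (hV : V' ≤ s.1 ⁻¹ᵁ V) :
    (pullback.snd c t).appLE V (box c t U V) (box_le_snd U V) ≫
        (baseChangeSnd c s).appLE (box c t U V) (box c t' U V')
          (box_le_baseChangeSnd_preimage c s hV) =
      s.1.appLE V V' hV ≫ (pullback.snd c t').appLE V' (box c t' U V') (box_le_snd U V') := by
  rw [Scheme.Hom.appLE_comp_appLE, Scheme.Hom.appLE_comp_appLE]
  exact appLE_congr_hom (baseChangeSnd_snd c s) _ _ _

variable (t) (ε : SchemeHomOver (𝟙 (Spec (CommRingCat.of R))) c)

@[reassoc (attr := simp)]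
lemma rigSection_fst : rigSection c t ε ≫ pullback.fst c t = t ≫ ε.1 := by
  unfold rigSection
  exact pullback.lift_fst _ _ _

@[reassoc (attr := simp)]
lemma rigSection_snd : rigSection c t ε ≫ pullback.snd c t = 𝟙 T := by
  unfold rigSection
  exact pullback.lift_snd _ _ _

lemma rigSection_preimage_box (U : C.Opens) (V : T.Opens) :
    (rigSection c t ε) ⁻¹ᵁ (box c t U V) = (t ≫ ε.1) ⁻¹ᵁ U ⊓ V := by
  simp only [box, Scheme.Hom.preimage_inf, ← Scheme.Hom.comp_preimage, rigSection_fst,
    rigSection_snd]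
  rfl

lemma rigSection_preimage_snd_preimage (V : T.Opens) :
    (rigSection c t ε) ⁻¹ᵁ ((pullback.snd c t) ⁻¹ᵁ V) = V := by
  rw [← Scheme.Hom.comp_preimage, rigSection_snd]
  rfl

lemma le_rigSection_preimage_box {U : C.Opens} {V W : T.Opens} (hW : W ≤ V)
    (hU : W ≤ (t ≫ ε.1) ⁻¹ᵁ U) : W ≤ (rigSection c t ε) ⁻¹ᵁ (box c t U V) := by
  rw [rigSection_preimage_box]
  exact le_inf hU hW

/-- Pulling back along the rigidifying section, on the `C`-factor of a box: evaluation at `ε`. -/
lemma fst_appLE_rigSection_appLE {U : C.Opens} {V W : T.Opens} (hW : W ≤ V)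
    (hU : W ≤ (t ≫ ε.1) ⁻¹ᵁ U) :
    (pullback.fst c t).appLE U (box c t U V) (box_le_fst U V) ≫
        (rigSection c t ε).appLE (box c t U V) W (le_rigSection_preimage_box c t ε hW hU) =
      (t ≫ ε.1).appLE U W hU := by
  rw [Scheme.Hom.appLE_comp_appLE]
  exact appLE_congr_hom (rigSection_fst c t ε) _ _ _

/-- Pulling back along the rigidifying section, on the `T`-factor of a box: restriction. -/
lemma snd_appLE_rigSection_appLE {U : C.Opens} {V W : T.Opens} (hW : W ≤ V)
    (hU : W ≤ (t ≫ ε.1) ⁻¹ᵁ U) :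
    (pullback.snd c t).appLE V (box c t U V) (box_le_snd U V) ≫
        (rigSection c t ε).appLE (box c t U V) W (le_rigSection_preimage_box c t ε hW hU) =
      T.presheaf.map (homOfLE hW).op := by
  rw [Scheme.Hom.appLE_comp_appLE, appLE_congr_hom (rigSection_snd c t ε)]
  simp only [Scheme.Hom.appLE]
  exact Category.id_comp _

/-- The rigidifying section is a section of the projection, on sections of the structure sheaf. -/
lemma snd_app_rigSection_appLE (V : T.Opens) :
    (pullback.snd c t).app V ≫ (rigSection c t ε).appLE ((pullback.snd c t) ⁻¹ᵁ V) V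
        (rigSection_preimage_snd_preimage c t ε V).ge = 𝟙 _ := by
  rw [Scheme.Hom.app_eq_appLE, Scheme.Hom.appLE_comp_appLE,
    appLE_congr_hom (rigSection_snd c t ε)]
  simp only [Scheme.Hom.appLE]
  exact (Category.id_comp _).trans (T.presheaf.map_id _)

end Compat

end Fermat.Agent.S25.H205

end
-- ===== PACK-END S25/H205/Box.lean

-- ===== PACK-BEGIN S25/H626/SmulHom.lean
section
/-
S25 helper (helper626), block GLUE, leaf G4 (part 1): sectionwise toolkit for `𝒪_X`-modules and
the scalar-multiplication endomorphism `smulHom M r : M ⟶ M` for `r ∈ Γ(X, ⊤)`.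
-/


set_option autoImplicit false

universe u

noncomputable section

open CategoryTheory AlgebraicGeometry TopologicalSpace Opposite

namespace Fermat.Agent.S25.H626

variable {X : Scheme.{u}}

/-- Restriction of sections of a module. -/
def res (M : X.Modules) {U V : X.Opens} (h : V ≤ U) (s : Γ(M, U)) : Γ(M, V) :=
  M.presheaf.map (homOfLE h).op s

/-- Restriction of sections of the structure sheaf. -/
def resO {U V : X.Opens} (h : V ≤ U) (r : Γ(X, U)) : Γ(X, V) :=
  X.presheaf.map (homOfLE h).op r

section Basic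

variable (M N : X.Modules)

@[simp] theorem res_id {U : X.Opens} (s : Γ(M, U)) : res M (le_refl U) s = s := by
  simp [res]

theorem res_res {U V W : X.Opens} (h : V ≤ U) (h' : W ≤ V) (s : Γ(M, U)) :
    res M h' (res M h s) = res M (h'.trans h) s := by
  simp only [res, ← ConcreteCategory.comp_apply, ← Functor.map_comp]
  rfl

@[simp] theorem resO_id {U : X.Opens} (r : Γ(X, U)) : resO (le_refl U) r = r := by
  simp [resO]

theorem resO_resO {U V W : X.Opens} (h : V ≤ U) (h' : W ≤ V) (r : Γ(X, U)) :
    resO h' (resO h r) = resO (h'.trans h) r := by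
  simp only [resO, ← ConcreteCategory.comp_apply, ← Functor.map_comp]
  rfl

theorem res_smul {U V : X.Opens} (h : V ≤ U) (r : Γ(X, U)) (s : Γ(M, U)) :
    res M h (r • s) = resO h r • res M h s :=
  Scheme.Modules.map_smul M (homOfLE h) r s

theorem res_add {U V : X.Opens} (h : V ≤ U) (s t : Γ(M, U)) :
    res M h (s + t) = res M h s + res M h t :=
  map_add _ s t

theorem resO_mul {U V : X.Opens} (h : V ≤ U) (r r' : Γ(X, U)) :
    resO h (r * r') = resO h r * resO h r' :=
  map_mul _ r r'

theorem resO_one {U V : X.Opens} (h : V ≤ U) : resO h (1 : Γ(X, U)) = 1 :=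
  map_one _

variable {M N}

theorem app_res (φ : M ⟶ N) {U V : X.Opens} (h : V ≤ U) (s : Γ(M, U)) :
    φ.app V (res M h s) = res N h (φ.app U s) := by
  have := φ.mapPresheaf.naturality (homOfLE h).op
  exact congr($this s)

end Basic

/-! ### Scalar multiplication by a global function -/

section SmulHom

variable (M : X.Modules)

/-- The underlying morphism of abelian presheaves of `smulHom`. -/
def smulPresheafHom (r : Γ(X, ⊤)) : M.presheaf ⟶ M.presheaf where
  app U := M.smul (resO (le_top : U.unop ≤ ⊤) r)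
  naturality U V f := by
    have h := Scheme.Modules.map_comp_smul (M := M) f.unop (resO (le_top : U.unop ≤ ⊤) r)
    have h2 : X.presheaf.map f.unop.op (resO (le_top : U.unop ≤ ⊤) r) =
        resO (le_top : V.unop ≤ ⊤) r := by
      simp only [resO, ← ConcreteCategory.comp_apply, ← Functor.map_comp]
      rfl
    rw [h2] at h
    exact h.symm

theorem smul_smul_comm' {U : X.Opens} (r a : Γ(X, U)) (m : Γ(M, U)) :
    r • (a • m) = a • (r • m) := smul_comm r a m

/-- Multiplication by a global function `r ∈ Γ(X, ⊤)` as an endomorphism of `M`. -/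
def smulHom (r : Γ(X, ⊤)) : M ⟶ M :=
  ⟨PresheafOfModules.homMk (smulPresheafHom M r) (by
    intro U a m
    exact smul_smul_comm' M (U := U.unop) (resO (le_top : U.unop ≤ ⊤) r) a m)⟩

theorem smulHom_app (r : Γ(X, ⊤)) (U : X.Opens) (s : Γ(M, U)) :
    (smulHom M r).app U s = resO (le_top : U ≤ ⊤) r • s := rfl

theorem hom_ext_apply {M N : X.Modules} {f g : M ⟶ N}
    (h : ∀ (U : X.Opens) (s : Γ(M, U)), f.app U s = g.app U s) : f = g := by
  apply Scheme.Modules.hom_ext
  intro U
  ext s
  exact h U s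

theorem smulHom_one : smulHom M 1 = 𝟙 M := by
  apply hom_ext_apply
  intro U s
  rw [smulHom_app, resO_one, one_smul]
  rfl

theorem smulHom_zero : smulHom M 0 = 0 := by
  apply hom_ext_apply
  intro U s
  rw [smulHom_app]
  have : resO (le_top : U ≤ ⊤) (0 : Γ(X, ⊤)) = 0 := map_zero _
  rw [this, zero_smul]
  rfl

theorem smulHom_add (r r' : Γ(X, ⊤)) : smulHom M (r + r') = smulHom M r + smulHom M r' := by
  apply hom_ext_apply
  intro U s
  rw [smulHom_app]
  have : resO (le_top : U ≤ ⊤) (r + r') = resO le_top r + resO le_top r' := map_add _ _ _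
  rw [this, add_smul]
  rfl

theorem smulHom_mul (r r' : Γ(X, ⊤)) : smulHom M (r * r') = smulHom M r' ≫ smulHom M r := by
  apply hom_ext_apply
  intro U s
  rw [smulHom_app, resO_mul, mul_smul]
  rfl

theorem smulHom_comm (r r' : Γ(X, ⊤)) :
    smulHom M r ≫ smulHom M r' = smulHom M r' ≫ smulHom M r := by
  rw [← smulHom_mul, ← smulHom_mul, mul_comm]

/-- `smulHom` is natural: it commutes with every morphism of modules. -/
theorem smulHom_naturality {M N : X.Modules} (φ : M ⟶ N) (r : Γ(X, ⊤)) :
    smulHom M r ≫ φ = φ ≫ smulHom N r := by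
  apply hom_ext_apply
  intro U s
  change φ.app U ((smulHom M r).app U s) = (smulHom N r).app U (φ.app U s)
  rw [smulHom_app, smulHom_app, Scheme.Modules.Hom.app_smul]

/-- `smulHom` as a ring homomorphism `Γ(X, ⊤) →+* End M`. -/
def smulRingHom : Γ(X, ⊤) →+* End M where
  toFun := smulHom M
  map_one' := smulHom_one M
  map_mul' r r' := smulHom_mul M r r'
  map_zero' := smulHom_zero M
  map_add' r r' := smulHom_add M r r'

@[simp] theorem smulRingHom_apply (r : Γ(X, ⊤)) : smulRingHom M r = smulHom M r := rfl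

end SmulHom

end Fermat.Agent.S25.H626

end

end
-- ===== PACK-END S25/H626/SmulHom.lean

-- ===== PACK-BEGIN S25/H10/CechDefs.lean
section
/-
S25, block CECH (squad S25/S10, squad-lead helper10): operator-style core of the two-chart
Čech complex — DEFINITIONS (frozen).  Mathlib-only commutative algebra.

`CechOps` : the `A`-linear data of a two-chart gluing datum:
  `N0` (sections on `U0`), `N1` (sections on `U1`), `N01` (sections on `U0 ∩ U1`),
  `X0` = multiplication by `x` on `N0`, `Y1` = multiplication by `y = x⁻¹` on `N1`,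
  `T`, `Tinv` = multiplication by `x`, `y` on `N01`, and the restriction maps `r0`, `r1`.
`CechOps.d m` : the `m`-fold twisted Čech differential `(a, b) ↦ r0 a - T ^ m (r1 b)`,
  i.e. the Čech differential of `L(m·∞)`.
-/


set_option autoImplicit false

namespace Fermat.Agent.S25.H10

open Polynomial TensorProduct

universe u v w

/-- Operator-style two-chart Čech datum over `A`. -/
structure CechOps (A : Type u) [CommRing A] (N0 N1 N01 : Type v)
    [AddCommGroup N0] [AddCommGroup N1] [AddCommGroup N01]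
    [Module A N0] [Module A N1] [Module A N01] where
  /-- multiplication by `x` on `N0` -/
  X0 : Module.End A N0
  /-- multiplication by `y = x⁻¹` on `N1` -/
  Y1 : Module.End A N1
  /-- multiplication by `x` on `N01` -/
  T : Module.End A N01
  /-- multiplication by `y = x⁻¹` on `N01` -/
  Tinv : Module.End A N01
  /-- restriction from `U0` to `U0 ∩ U1` -/
  r0 : N0 →ₗ[A] N01
  /-- restriction from `U1` to `U0 ∩ U1` -/
  r1 : N1 →ₗ[A] N01
  T_mul_Tinv : T * Tinv = 1
  Tinv_mul_T : Tinv * T = 1
  r0_X0 : ∀ n, r0 (X0 n) = T (r0 n)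
  r1_Y1 : ∀ n, r1 (Y1 n) = Tinv (r1 n)
  /-- `N01` is `N0` localized away from `x`: surjectivity part. -/
  loc0 : ∀ z : N01, ∃ (k : ℕ) (n : N0), (T ^ k) z = r0 n
  /-- `N01` is `N1` localized away from `y`: surjectivity part. -/
  loc1 : ∀ z : N01, ∃ (k : ℕ) (n : N1), (Tinv ^ k) z = r1 n

/-- `N` with the operator `E` is a finitely generated projective `A[X]`-module, in elementary
form: an `X`-equivariant `A`-linear retract of `A[X]^n`. -/
def IsFGProj {A : Type u} [CommRing A] {N : Type v} [AddCommGroup N] [Module A N]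
    (E : Module.End A N) : Prop :=
  ∃ (n : ℕ) (ι : N →ₗ[A] (Fin n → A[X])) (π : (Fin n → A[X]) →ₗ[A] N),
    π ∘ₗ ι = LinearMap.id ∧ (∀ v, ι (E v) = (X : A[X]) • ι v) ∧
      (∀ w, π ((X : A[X]) • w) = E (π w))

/-- `N` with the operator `E` is a finitely generated `A[X]`-module, in elementary form. -/
def IsFG {A : Type u} [CommRing A] {N : Type v} [AddCommGroup N] [Module A N]
    (E : Module.End A N) : Prop :=
  ∃ s : Finset N, ∀ n : N, n ∈ Submodule.span A {m : N | ∃ e ∈ s, ∃ k : ℕ, m = (E ^ k) e}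

namespace CechOps

variable {A : Type u} [CommRing A] {N0 N1 N01 : Type v}
  [AddCommGroup N0] [AddCommGroup N1] [AddCommGroup N01]
  [Module A N0] [Module A N1] [Module A N01]

theorem T_Tinv_apply (D : CechOps A N0 N1 N01) (z : N01) : D.T (D.Tinv z) = z := by
  rw [← Module.End.mul_apply, D.T_mul_Tinv, Module.End.one_apply]

theorem Tinv_T_apply (D : CechOps A N0 N1 N01) (z : N01) : D.Tinv (D.T z) = z := by
  rw [← Module.End.mul_apply, D.Tinv_mul_T, Module.End.one_apply]

theorem commute_T_Tinv (D : CechOps A N0 N1 N01) : Commute D.T D.Tinv := by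
  show D.T * D.Tinv = D.Tinv * D.T
  rw [D.T_mul_Tinv, D.Tinv_mul_T]

theorem T_pow_mul_Tinv_pow (D : CechOps A N0 N1 N01) (k : ℕ) : D.T ^ k * D.Tinv ^ k = 1 := by
  rw [← D.commute_T_Tinv.mul_pow, D.T_mul_Tinv, one_pow]

theorem Tinv_pow_mul_T_pow (D : CechOps A N0 N1 N01) (k : ℕ) : D.Tinv ^ k * D.T ^ k = 1 := by
  rw [← D.commute_T_Tinv.symm.mul_pow, D.Tinv_mul_T, one_pow]

theorem T_pow_Tinv_pow_apply (D : CechOps A N0 N1 N01) (k : ℕ) (z : N01) :
    (D.T ^ k) ((D.Tinv ^ k) z) = z := by
  rw [← Module.End.mul_apply, D.T_pow_mul_Tinv_pow, Module.End.one_apply]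

theorem Tinv_pow_T_pow_apply (D : CechOps A N0 N1 N01) (k : ℕ) (z : N01) :
    (D.Tinv ^ k) ((D.T ^ k) z) = z := by
  rw [← Module.End.mul_apply, D.Tinv_pow_mul_T_pow, Module.End.one_apply]

theorem r0_X0_pow (D : CechOps A N0 N1 N01) (k : ℕ) (n : N0) :
    D.r0 ((D.X0 ^ k) n) = (D.T ^ k) (D.r0 n) := by
  induction k generalizing n with
  | zero => simp
  | succ k ih => rw [pow_succ', Module.End.mul_apply, D.r0_X0, ih, pow_succ', Module.End.mul_apply]

theorem r1_Y1_pow (D : CechOps A N0 N1 N01) (k : ℕ) (n : N1) :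
    D.r1 ((D.Y1 ^ k) n) = (D.Tinv ^ k) (D.r1 n) := by
  induction k generalizing n with
  | zero => simp
  | succ k ih => rw [pow_succ', Module.End.mul_apply, D.r1_Y1, ih, pow_succ', Module.End.mul_apply]

/-- The Čech differential of the `m`-fold twist `L(m·∞)`: `(a, b) ↦ r0 a - T ^ m (r1 b)`. -/
def d (D : CechOps A N0 N1 N01) (m : ℕ) : (N0 × N1) →ₗ[A] N01 :=
  D.r0.coprod (-((D.T ^ m) ∘ₗ D.r1))

@[simp] theorem d_apply (D : CechOps A N0 N1 N01) (m : ℕ) (p : N0 × N1) :
    D.d m p = D.r0 p.1 - (D.T ^ m) (D.r1 p.2) := by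
  simp [d, sub_eq_add_neg]

theorem mem_ker_d (D : CechOps A N0 N1 N01) (m : ℕ) (p : N0 × N1) :
    p ∈ LinearMap.ker (D.d m) ↔ D.r0 p.1 = (D.T ^ m) (D.r1 p.2) := by
  rw [LinearMap.mem_ker, d_apply, sub_eq_zero]

/-- `H⁰(L(m∞))`. -/
abbrev H0 (D : CechOps A N0 N1 N01) (m : ℕ) : Submodule A (N0 × N1) := LinearMap.ker (D.d m)

/-- `H¹(L(m∞))`. -/
abbrev H1 (D : CechOps A N0 N1 N01) (m : ℕ) : Type v := N01 ⧸ LinearMap.range (D.d m)

/-- The map `H⁰(L(m∞)) → N1 / y^m N1`, `(a, b) ↦ [b]`. -/
def δ (D : CechOps A N0 N1 N01) (m : ℕ) : D.H0 m →ₗ[A] (N1 ⧸ LinearMap.range (D.Y1 ^ m)) :=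
  (LinearMap.range (D.Y1 ^ m)).mkQ ∘ₗ (LinearMap.snd A N0 N1) ∘ₗ (D.H0 m).subtype

@[simp] theorem δ_apply (D : CechOps A N0 N1 N01) (m : ℕ) (p : D.H0 m) :
    D.δ m p = (LinearMap.range (D.Y1 ^ m)).mkQ (p : N0 × N1).2 := rfl

/-- The inclusion `H⁰(L) → H⁰(L(m∞))`, `(a, b) ↦ (a, y^m b)`. -/
def incl (D : CechOps A N0 N1 N01) (m : ℕ) : D.H0 0 →ₗ[A] D.H0 m :=
  LinearMap.codRestrict (D.H0 m)
    ((LinearMap.prodMap LinearMap.id (D.Y1 ^ m)) ∘ₗ (D.H0 0).subtype)
    (by
      rintro ⟨⟨a, b⟩, hab⟩
      rw [mem_ker_d] at hab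
      simp only [pow_zero, Module.End.one_apply] at hab
      rw [mem_ker_d]
      simp only [LinearMap.coe_comp, Submodule.coe_subtype, Function.comp_apply,
        LinearMap.prodMap_apply, LinearMap.id_coe, id_eq]
      rw [D.r1_Y1_pow, D.T_pow_Tinv_pow_apply, hab])

@[simp] theorem incl_apply_coe (D : CechOps A N0 N1 N01) (m : ℕ) (p : D.H0 0) :
    ((D.incl m p : D.H0 m) : N0 × N1) = ((p : N0 × N1).1, (D.Y1 ^ m) (p : N0 × N1).2) := rfl

/-- The connecting map `N1 / y^m N1 → H¹(L)`, `[b] ↦ [T^m (r1 b)]`. -/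
def conn (D : CechOps A N0 N1 N01) (m : ℕ) :
    (N1 ⧸ LinearMap.range (D.Y1 ^ m)) →ₗ[A] D.H1 0 :=
  Submodule.liftQ _ ((LinearMap.range (D.d 0)).mkQ ∘ₗ (D.T ^ m) ∘ₗ D.r1)
    (by
      rintro _ ⟨b, rfl⟩
      rw [LinearMap.mem_ker]
      simp only [LinearMap.coe_comp, Function.comp_apply, Submodule.mkQ_apply]
      rw [Submodule.Quotient.mk_eq_zero, D.r1_Y1_pow, D.T_pow_Tinv_pow_apply]
      refine ⟨(0, -b), ?_⟩
      simp)

@[simp] theorem conn_mk (D : CechOps A N0 N1 N01) (m : ℕ) (b : N1) :
    D.conn m (Submodule.Quotient.mk b) = Submodule.Quotient.mk ((D.T ^ m) (D.r1 b)) := rfl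

/-- Base change of a Čech datum along `A → A'`. -/
noncomputable def baseChange (A' : Type w) [CommRing A'] [Algebra A A']
    (D : CechOps A N0 N1 N01) : CechOps A' (A' ⊗[A] N0) (A' ⊗[A] N1) (A' ⊗[A] N01) where
  X0 := D.X0.baseChange A'
  Y1 := D.Y1.baseChange A'
  T := D.T.baseChange A'
  Tinv := D.Tinv.baseChange A'
  r0 := D.r0.baseChange A'
  r1 := D.r1.baseChange A'
  T_mul_Tinv := by
    rw [← LinearMap.baseChange_mul, D.T_mul_Tinv, LinearMap.baseChange_one]
  Tinv_mul_T := by
    rw [← LinearMap.baseChange_mul, D.Tinv_mul_T, LinearMap.baseChange_one]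
  r0_X0 := by
    intro n
    induction n using TensorProduct.induction_on with
    | zero => simp
    | tmul a n => simp [D.r0_X0]
    | add x y hx hy => simp only [map_add, hx, hy]
  r1_Y1 := by
    intro n
    induction n using TensorProduct.induction_on with
    | zero => simp
    | tmul a n => simp [D.r1_Y1]
    | add x y hx hy => simp only [map_add, hx, hy]
  loc0 := by
    have hpow : ∀ k : ℕ, (D.T.baseChange A') ^ k = (D.T ^ k).baseChange A' := by
      intro k
      induction k with
      | zero => simp [Module.End.one_eq_id]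
      | succ k ih => rw [pow_succ, ih, pow_succ, LinearMap.baseChange_mul]
    have key : ∀ z : A' ⊗[A] N01, ∃ (k : ℕ), ∀ j, k ≤ j →
        ∃ n : A' ⊗[A] N0, ((D.T ^ j).baseChange A') z = (D.r0.baseChange A') n := by
      intro z
      induction z using TensorProduct.induction_on with
      | zero => exact ⟨0, fun j _ => ⟨0, by simp⟩⟩
      | tmul a z =>
        obtain ⟨k, n, hk⟩ := D.loc0 z
        refine ⟨k, fun j hj => ⟨a ⊗ₜ ((D.X0 ^ (j - k)) n), ?_⟩⟩
        simp only [LinearMap.baseChange_tmul]
        rw [D.r0_X0_pow, ← hk, ← Module.End.mul_apply, ← pow_add, Nat.sub_add_cancel hj]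
      | add x y hx hy =>
        obtain ⟨kx, hx⟩ := hx
        obtain ⟨ky, hy⟩ := hy
        refine ⟨max kx ky, fun j hj => ?_⟩
        obtain ⟨nx, hnx⟩ := hx j (le_trans (le_max_left _ _) hj)
        obtain ⟨ny, hny⟩ := hy j (le_trans (le_max_right _ _) hj)
        exact ⟨nx + ny, by rw [map_add, map_add, hnx, hny]⟩
    intro z
    obtain ⟨k, hk⟩ := key z
    obtain ⟨n, hn⟩ := hk k le_rfl
    exact ⟨k, n, by rw [hpow, hn]⟩
  loc1 := by
    have hpow : ∀ k : ℕ, (D.Tinv.baseChange A') ^ k = (D.Tinv ^ k).baseChange A' := by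
      intro k
      induction k with
      | zero => simp [Module.End.one_eq_id]
      | succ k ih => rw [pow_succ, ih, pow_succ, LinearMap.baseChange_mul]
    have key : ∀ z : A' ⊗[A] N01, ∃ (k : ℕ), ∀ j, k ≤ j →
        ∃ n : A' ⊗[A] N1, ((D.Tinv ^ j).baseChange A') z = (D.r1.baseChange A') n := by
      intro z
      induction z using TensorProduct.induction_on with
      | zero => exact ⟨0, fun j _ => ⟨0, by simp⟩⟩
      | tmul a z =>
        obtain ⟨k, n, hk⟩ := D.loc1 z
        refine ⟨k, fun j hj => ⟨a ⊗ₜ ((D.Y1 ^ (j - k)) n), ?_⟩⟩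
        simp only [LinearMap.baseChange_tmul]
        rw [D.r1_Y1_pow, ← hk, ← Module.End.mul_apply, ← pow_add, Nat.sub_add_cancel hj]
      | add x y hx hy =>
        obtain ⟨kx, hx⟩ := hx
        obtain ⟨ky, hy⟩ := hy
        refine ⟨max kx ky, fun j hj => ?_⟩
        obtain ⟨nx, hnx⟩ := hx j (le_trans (le_max_left _ _) hj)
        obtain ⟨ny, hny⟩ := hy j (le_trans (le_max_right _ _) hj)
        exact ⟨nx + ny, by rw [map_add, map_add, hnx, hny]⟩
    intro z
    obtain ⟨k, hk⟩ := key z
    obtain ⟨n, hn⟩ := hk k le_rfl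
    exact ⟨k, n, by rw [hpow, hn]⟩

end CechOps

end Fermat.Agent.S25.H10

end
-- ===== PACK-END S25/H10/CechDefs.lean

-- ===== PACK-BEGIN S25/H505/TildePullback.lean
section
/-
S25, block AFF, leaf F2 (helper505): pullback of `tilde` along `Spec.map φ` is `tilde` of the
extension of scalars.  Mathlib only.
-/



open CategoryTheory AlgebraicGeometry Opposite

universe u

namespace Fermat.Agent.S25.H505

variable {R S : CommRingCat.{u}} (φ : R ⟶ S)

/-- Global sections of a pushforward along `Spec.map φ` are the restriction of scalars of the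
global sections. -/
noncomputable def pushforwardCompΓIso :
    Scheme.Modules.pushforward (Spec.map φ) ⋙ moduleSpecΓFunctor (R := R) ≅
      moduleSpecΓFunctor (R := S) ⋙ ModuleCat.restrictScalars φ.hom :=
  (Functor.associator _ _ _).symm ≪≫
  Functor.isoWhiskerRight (pushforwardCompModulesSpecToSheafIso φ)
    (TopCat.Sheaf.forget _ _ ⋙ (evaluation _ _).obj (.op ⊤)) ≪≫
  NatIso.ofComponents (fun M => Iso.refl _) (by
    intro M N f
    simp only [Iso.refl_hom]
    rfl)

/-- **F2** (functor form): `pullback (Spec.map φ) ∘ tilde ≅ tilde ∘ (S ⊗[R] -)`, by uniqueness of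
left adjoints. -/
noncomputable def tildeCompPullbackIso :
    tilde.functor R ⋙ Scheme.Modules.pullback (Spec.map φ) ≅
      ModuleCat.extendScalars φ.hom ⋙ tilde.functor S :=
  Adjunction.leftAdjointUniq
    ((tilde.adjunction (R := R)).comp
      (Scheme.Modules.pullbackPushforwardAdjunction (Spec.map φ)))
    (((ModuleCat.extendRestrictScalarsAdj φ.hom).comp (tilde.adjunction (R := S))).ofNatIsoRight
      (pushforwardCompΓIso φ).symm)

/-- **F2** (object form). -/
noncomputable def pullbackTildeIso (N : ModuleCat.{u} R) :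
    (Scheme.Modules.pullback (Spec.map φ)).obj (tilde N) ≅
      tilde ((ModuleCat.extendScalars φ.hom).obj N) :=
  (tildeCompPullbackIso φ).app N

/-- **F2** naturality in `N`. -/
theorem pullbackTildeIso_naturality {N N' : ModuleCat.{u} R} (f : N ⟶ N') :
    (Scheme.Modules.pullback (Spec.map φ)).map ((tilde.functor R).map f) ≫
        (pullbackTildeIso φ N').hom =
      (pullbackTildeIso φ N).hom ≫
        (tilde.functor S).map ((ModuleCat.extendScalars φ.hom).map f) :=
  (tildeCompPullbackIso φ).hom.naturality f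

end Fermat.Agent.S25.H505

end
-- ===== PACK-END S25/H505/TildePullback.lean

-- ===== PACK-BEGIN S25/H431/Diagonal.lean
section
/-
S25 / block HILB / leaf H2 (helper431).

The diagonal ideal `ker (B ⊗[k] B → B)` is an invertible `B ⊗[k] B`-module as soon as
`Ω[B⁄k]` is an invertible `B`-module, `B` is essentially of finite type over `k`
and `B ⊗[k] B` is a domain.

Also a general criterion: a nonzero ideal of a domain which is "locally principal at every
maximal ideal" (in the elementwise sense `LocPrincipal`) is an invertible module.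
-/


set_option autoImplicit false

namespace Fermat.Agent.S25.H431

open TensorProduct

section LocallyPrincipal

variable {R : Type*} [CommRing R]

/-- Elementwise form of "locally principal at every maximal ideal". -/
def LocPrincipal (I : Ideal R) : Prop :=
  ∀ m : Ideal R, m.IsMaximal → ∃ a ∈ I, ∃ s : R, s ∉ m ∧ ∀ x ∈ I, s * x ∈ Ideal.span {a}

/-- A nonzero ideal of a domain that is locally principal at every maximal ideal is an
invertible module. (No finiteness hypothesis is needed.) -/
theorem invertible_of_locPrincipal [IsDomain R] (I : Ideal R) (hI : I ≠ ⊥)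
    (h : LocPrincipal I) : Module.Invertible R I := by
  classical
  let K := FractionRing R
  have hinj : Function.Injective (Algebra.linearMap R K) :=
    FaithfulSMul.algebraMap_injective R K
  let It : Submodule R K := Submodule.map (Algebra.linearMap R K) I
  let J : Submodule R K := 1 / It
  have h1 : It * J = 1 := by
    refine le_antisymm Submodule.mul_one_div_le_one ?_
    rw [Submodule.one_le]
    by_contra hone
    let 𝔞 : Ideal R := Submodule.comap (Algebra.linearMap R K) (It * J)
    have h𝔞 : 𝔞 ≠ ⊤ := by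
      intro htop
      apply hone
      have : (1 : R) ∈ 𝔞 := by rw [htop]; trivial
      simpa [𝔞] using this
    obtain ⟨m, hm, hle⟩ := Ideal.exists_le_maximal 𝔞 h𝔞
    obtain ⟨a, ha, s, hs, hsx⟩ := h m hm
    have hs0 : s ≠ 0 := by
      rintro rfl
      exact hs m.zero_mem
    have ha0 : a ≠ 0 := by
      rintro rfl
      apply hI
      rw [eq_bot_iff]
      intro x hx
      have := hsx x hx
      rw [Ideal.span_singleton_zero, Ideal.mem_bot] at this
      rw [Ideal.mem_bot]
      exact (mul_eq_zero.mp this).resolve_left hs0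
    have haK : algebraMap R K a ≠ 0 := by
      rwa [Ne, map_eq_zero_iff _ (FaithfulSMul.algebraMap_injective R K)]
    have htJ : algebraMap R K s / algebraMap R K a ∈ J := by
      rw [Submodule.mem_div_iff_forall_mul_mem]
      rintro y ⟨x, hx, rfl⟩
      obtain ⟨c, hc⟩ := Ideal.mem_span_singleton'.mp (hsx x hx)
      rw [Submodule.mem_one]
      refine ⟨c, ?_⟩
      rw [Algebra.linearMap_apply, div_mul_eq_mul_div, ← map_mul, ← hc, map_mul,
        mul_div_assoc, div_self haK, mul_one]
    have haIt : algebraMap R K a ∈ It := ⟨a, ha, rfl⟩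
    have := Submodule.mul_mem_mul haIt htJ
    rw [mul_div_cancel₀ _ haK] at this
    exact hs (hle this)
  let u : (Submodule R K)ˣ := Units.mkOfMulEqOne It J h1
  have : Module.Invertible R (u : Submodule R K) := inferInstance
  have e : (u : Submodule R K) ≃ₗ[R] I :=
    (Submodule.equivMapOfInjective (Algebra.linearMap R K) hinj I).symm
  exact Module.Invertible.congr e

end LocallyPrincipal

section RankOne

variable {R : Type*} [CommRing R] {M : Type*} [AddCommGroup M] [Module R M]

/-- In an invertible module any two elements are "proportional": `f m • x = f x • m`. -/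
theorem dual_apply_smul_comm [Module.Invertible R M] (f : Module.Dual R M) (m x : M) :
    f m • x = f x • m := by
  have h := congrArg (fun t => (TensorProduct.lid R M) (f.rTensor M t))
    (Module.Invertible.tmul_comm (R := R) (m₁ := m) (m₂ := x))
  simpa using h

/-- For an invertible module and a proper ideal `n`, some value `f m` of a functional lies
outside `n`. -/
theorem exists_dual_apply_not_mem [Module.Invertible R M] (n : Ideal R) (hn : n ≠ ⊤) :
    ∃ (f : Module.Dual R M) (m : M), f m ∉ n := by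
  by_contra hcon
  push Not at hcon
  have hall : ∀ t : Module.Dual R M ⊗[R] M, contractLeft R M t ∈ n := by
    intro t
    induction t using TensorProduct.induction_on with
    | zero => simp
    | tmul f m => simpa using hcon f m
    | add x y hx hy => rw [map_add]; exact n.add_mem hx hy
  obtain ⟨t, ht⟩ := (Module.Invertible.bijective (R := R) (M := M)).2 1
  exact hn (n.eq_top_iff_one.mpr (ht ▸ hall t))

end RankOne

section Diagonal

variable (k B : Type*) [CommRing k] [CommRing B] [Algebra k B]

/-- Local generation of the diagonal ideal at a maximal ideal containing it. -/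
theorem diagonal_le_span_sup [Module.Invertible B Ω[B⁄k]]
    (m : Ideal (B ⊗[k] B)) (hm : m.IsMaximal) (hIm : KaehlerDifferential.ideal k B ≤ m) :
    ∃ a ∈ KaehlerDifferential.ideal k B,
      KaehlerDifferential.ideal k B ≤ Ideal.span {a} ⊔ m • KaehlerDifferential.ideal k B := by
  set I := KaehlerDifferential.ideal k B with hIdef
  let n : Ideal B := m.comap (algebraMap B (B ⊗[k] B))
  have hn : n ≠ ⊤ := by
    intro h
    apply hm.ne_top
    rw [Ideal.eq_top_iff_one]
    have : (1 : B) ∈ n := by rw [h]; trivial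
    have h2 : algebraMap B (B ⊗[k] B) 1 ∈ m := this
    rwa [map_one] at h2
  obtain ⟨f, ω, hfω⟩ := exists_dual_apply_not_mem (M := Ω[B⁄k]) n hn
  obtain ⟨⟨a, ha⟩, rfl⟩ := KaehlerDifferential.fromIdeal_surjective k B ω
  refine ⟨a, ha, ?_⟩
  set u : B := f (KaehlerDifferential.fromIdeal k B ⟨a, ha⟩) with hu
  have hum : algebraMap B (B ⊗[k] B) u ∉ m := hfω
  obtain ⟨v, i, hi, hvi⟩ := hm.exists_inv hum
  intro x hx
  set c : B := f (KaehlerDifferential.fromIdeal k B ⟨x, hx⟩) with hc
  have hcomm := dual_apply_smul_comm f (KaehlerDifferential.fromIdeal k B ⟨a, ha⟩)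
    (KaehlerDifferential.fromIdeal k B ⟨x, hx⟩)
  -- `u • [x] = c • [a]` in `Ω`
  have hsq : algebraMap B (B ⊗[k] B) u * x - algebraMap B (B ⊗[k] B) c * a ∈ I ^ 2 := by
    have h0 : KaehlerDifferential.fromIdeal k B
        (algebraMap B (B ⊗[k] B) u • (⟨x, hx⟩ : I) - algebraMap B (B ⊗[k] B) c • ⟨a, ha⟩) = 0 := by
      rw [map_sub, map_smul, map_smul, algebraMap_smul, algebraMap_smul, sub_eq_zero]
      exact hcomm
    have := (Ideal.toCotangent_eq_zero I _).mp h0
    simpa using this
  have hI2 : I ^ 2 ≤ m • I := by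
    rw [pow_two]
    exact Ideal.mul_mono_left hIm
  have hx_eq : x = v * (algebraMap B (B ⊗[k] B) c * a)
      + (v * (algebraMap B (B ⊗[k] B) u * x - algebraMap B (B ⊗[k] B) c * a) + i * x) := by
    have : x = (v * algebraMap B (B ⊗[k] B) u + i) * x := by rw [hvi, one_mul]
    calc x = (v * algebraMap B (B ⊗[k] B) u + i) * x := this
      _ = _ := by ring
  rw [hx_eq]
  refine Submodule.add_mem_sup ?_ ?_
  · rw [Ideal.mem_span_singleton']
    exact ⟨v * algebraMap B (B ⊗[k] B) c, by ring⟩
  · refine Submodule.add_mem _ ?_ ?_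
    · exact Ideal.mul_mem_left _ _ (hI2 hsq)
    · exact Submodule.smul_mem_smul hi hx

open scoped Pointwise in
/-- The diagonal ideal is locally principal at every maximal ideal. -/
theorem diagonal_locPrincipal [Algebra.EssFiniteType k B] [Module.Invertible B Ω[B⁄k]] :
    LocPrincipal (KaehlerDifferential.ideal k B) := by
  intro m hm
  by_cases hIm : KaehlerDifferential.ideal k B ≤ m
  · obtain ⟨a, ha, hle⟩ := diagonal_le_span_sup k B m hm hIm
    obtain ⟨r, hr1, hr⟩ := Submodule.exists_sub_one_mem_and_smul_le_of_fg_of_le_sup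
      (I := m) (N := Ideal.span {a}) (N' := KaehlerDifferential.ideal k B)
      (P := KaehlerDifferential.ideal k B) (KaehlerDifferential.ideal_fg k B) le_rfl hle
    refine ⟨a, ha, r, ?_, ?_⟩
    · intro hrm
      apply hm.ne_top
      rw [Ideal.eq_top_iff_one]
      have := m.sub_mem hrm hr1
      simpa using this
    · intro x hx
      have := hr (Submodule.smul_mem_pointwise_smul x r _ hx)
      simpa using this
  · obtain ⟨a, ha, ham⟩ := Set.not_subset.mp hIm
    exact ⟨a, ha, a, ham, fun x _ => Ideal.mem_span_singleton'.mpr ⟨x, mul_comm x a⟩⟩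

/-- **H2.** The diagonal ideal `ker (B ⊗[k] B → B)` is an invertible `B ⊗[k] B`-module,
provided `Ω[B⁄k]` is an invertible `B`-module, `B` is essentially of finite type over `k` and
`B ⊗[k] B` is a domain. -/
theorem diagonal_invertible [Algebra.EssFiniteType k B] [IsDomain (B ⊗[k] B)]
    [Module.Invertible B Ω[B⁄k]] :
    Module.Invertible (B ⊗[k] B) (KaehlerDifferential.ideal k B) := by
  refine invertible_of_locPrincipal _ ?_ (diagonal_locPrincipal k B)
  intro hbot
  -- if the diagonal ideal vanished, `Ω` would be trivial, hence `B` would be trivial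
  have hsub : Subsingleton Ω[B⁄k] := by
    refine ⟨fun x y => ?_⟩
    obtain ⟨⟨a, ha⟩, rfl⟩ := KaehlerDifferential.fromIdeal_surjective k B x
    obtain ⟨⟨b, hb⟩, rfl⟩ := KaehlerDifferential.fromIdeal_surjective k B y
    have ha0 : a = 0 := by rw [hbot] at ha; exact ha
    have hb0 : b = 0 := by rw [hbot] at hb; exact hb
    subst ha0 hb0
    rfl
  have h10 : (1 : B) = 0 := by
    apply FaithfulSMul.eq_of_smul_eq_smul (α := Ω[B⁄k])
    intro x
    exact Subsingleton.elim _ _
  have h2 : (1 : B ⊗[k] B) = 0 := by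
    have h3 := congrArg (algebraMap B (B ⊗[k] B)) h10
    rwa [map_one, map_zero] at h3
  exact one_ne_zero h2

end Diagonal

end Fermat.Agent.S25.H431

end
-- ===== PACK-END S25/H431/Diagonal.lean

-- ===== PACK-BEGIN S25/H611/RankOne.lean
section


/-!
# Finite projective of rank one ⇒ invertible (helper611, S25/HILB/H3)

* `rankAtStalk_dual`: the dual of a finite projective module has the same local ranks.
* `contractLeft_surjective_of_rankAtStalk_pos`: the trace ideal of a finite projective module of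
  everywhere positive rank is the unit ideal.
* `invertible_of_rankAtStalk_eq_one`: a finite projective module of constant rank one is
  `Module.Invertible`.
-/

namespace Fermat.Agent.S25.H611

open scoped TensorProduct

section RankOne

variable (R M : Type*) [CommRing R] [AddCommGroup M] [Module R M] [Module.Finite R M]
  [Module.Projective R M]

attribute [local instance] Module.free_of_flat_of_isLocalRing

theorem rankAtStalk_dual (p : PrimeSpectrum R) :
    Module.rankAtStalk (Module.Dual R M) p = Module.rankAtStalk M p := by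
  have : Module.FinitePresentation R M := Module.finitePresentation_of_projective R M
  have hbc := Module.FinitePresentation.isBaseChange_map R M R (Localization.AtPrime p.asIdeal)
  have e := hbc.equiv
  have e' : (Localization.AtPrime p.asIdeal ⊗[R] R) ≃ₗ[Localization.AtPrime p.asIdeal]
      Localization.AtPrime p.asIdeal := TensorProduct.AlgebraTensorModule.rid _ _ _
  have : Module.Free (Localization.AtPrime p.asIdeal) (Localization.AtPrime p.asIdeal ⊗[R] R) :=
    Module.Free.of_equiv e'.symm
  rw [Module.rankAtStalk_eq_finrank_tensorProduct, Module.rankAtStalk_eq_finrank_tensorProduct]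
  have h1 : Module.finrank (Localization.AtPrime p.asIdeal)
      (Localization.AtPrime p.asIdeal ⊗[R] Module.Dual R M) =
      Module.finrank (Localization.AtPrime p.asIdeal)
        (Localization.AtPrime p.asIdeal ⊗[R] M →ₗ[Localization.AtPrime p.asIdeal]
          Localization.AtPrime p.asIdeal ⊗[R] R) := e.finrank_eq
  rw [h1, Module.finrank_linearMap, e'.finrank_eq, Module.finrank_self, mul_one]

theorem contractLeft_surjective_of_rankAtStalk_pos
    (h : ∀ p : PrimeSpectrum R, 0 < Module.rankAtStalk M p) :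
    Function.Surjective (contractLeft R M) := by
  set Tr : Ideal R := LinearMap.range (contractLeft R M) with hTr
  have hle : (⊤ : Submodule R M) ≤ Tr • (⊤ : Submodule R M) := by
    intro m _
    obtain ⟨s, hs⟩ := (inferInstance : Module.Projective R M)
    have hm : m = Finsupp.linearCombination R id (s m) := (hs m).symm
    rw [hm, Finsupp.linearCombination_apply]
    refine Submodule.sum_mem _ fun x _ => ?_
    refine Submodule.smul_mem_smul ?_ Submodule.mem_top
    exact ⟨((Finsupp.lapply x) ∘ₗ s) ⊗ₜ m, by simp [contractLeft_apply]⟩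
  obtain ⟨r, hr1, hr0⟩ := Submodule.exists_sub_one_mem_and_smul_eq_zero_of_fg_of_le_smul Tr ⊤
    (Module.Finite.fg_top) hle
  by_contra hns
  have hne : Tr ≠ ⊤ := fun htop => hns (LinearMap.range_eq_top.mp htop)
  obtain ⟨𝔪, hmax, hTm⟩ := Ideal.exists_le_maximal Tr hne
  have hr : r ∉ 𝔪 := fun hrm => hmax.ne_top ((Ideal.eq_top_iff_one _).mpr (by
    have := 𝔪.sub_mem hrm (hTm hr1); simpa using this))
  have hp := h ⟨𝔪, hmax.isPrime⟩
  rw [Module.rankAtStalk_pos_iff_mem_support, Module.mem_support_iff'] at hp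
  obtain ⟨m, hm⟩ := hp
  exact hm r hr (hr0 m trivial)

/-- A finite projective module of constant rank one is invertible. -/
theorem invertible_of_rankAtStalk_eq_one
    (h : ∀ p : PrimeSpectrum R, Module.rankAtStalk M p = 1) : Module.Invertible R M := by
  have hsurj : Function.Surjective (contractLeft R M) :=
    contractLeft_surjective_of_rankAtStalk_pos R M fun p => by rw [h p]; exact one_pos
  have hb : Function.Bijective (contractLeft R M) := by
    refine @Module.bijective_of_surjective_of_rankAtStalk_eq R _ (Module.Dual R M ⊗[R] M) R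
      _ _ _ _ _ _ _ _ (contractLeft R M) hsurj ?_
    intro m hm
    have : Nontrivial R := ⟨0, 1, fun h01 => hm.ne_top ((Ideal.eq_top_iff_one _).mpr
      (h01 ▸ m.zero_mem))⟩
    rw [Module.rankAtStalk_tensorProduct, Pi.mul_apply, rankAtStalk_dual, h,
      Module.rankAtStalk_self, Pi.one_apply, mul_one]
  exact ⟨hb⟩

end RankOne

end Fermat.Agent.S25.H611

end
-- ===== PACK-END S25/H611/RankOne.lean

-- ===== PACK-BEGIN S25/H206/InvertibleLocal.lean
section



/-!
# S25 / block GLUE / leaf G3 (part 1): `IsInvertible` is local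

`Scheme.Modules.IsInvertible` is the Prelude's notion (local triviality of `pullback U.ι`).
-/

set_option autoImplicit false

universe u

open CategoryTheory CategoryTheory.Limits AlgebraicGeometry

namespace Fermat.Agent.S25.H206

/-- `IsInvertible` is invariant under isomorphism. -/
theorem isInvertible_of_iso {X : Scheme.{u}} {M N : X.Modules} (e : M ≅ N)
    (h : Scheme.Modules.IsInvertible M) : Scheme.Modules.IsInvertible N := by
  refine ⟨fun x => ?_⟩
  obtain ⟨U, hxU, ⟨t⟩⟩ := h.1 x
  exact ⟨U, hxU, ⟨((Scheme.Modules.pullback U.ι).mapIso e).symm ≪≫ t⟩⟩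

theorem isInvertible_iff_of_iso {X : Scheme.{u}} {M N : X.Modules} (e : M ≅ N) :
    Scheme.Modules.IsInvertible M ↔ Scheme.Modules.IsInvertible N :=
  ⟨isInvertible_of_iso e, isInvertible_of_iso e.symm⟩

/-- A trivialization of the pullback of `M` along an open immersion `j : U ⟶ X` yields a
trivialization of the pullback of `M` along the inclusion of the open subscheme `j.opensRange`. -/
noncomputable def trivializationOpensRange {X U : Scheme.{u}} (j : U ⟶ X) [IsOpenImmersion j]
    (M : X.Modules)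
    (t : (Scheme.Modules.pullback j).obj M ≅ SheafOfModules.unit U.ringCatSheaf) :
    (Scheme.Modules.pullback j.opensRange.ι).obj M ≅
      SheafOfModules.unit j.opensRange.toScheme.ringCatSheaf :=
  (Scheme.Modules.pullbackCongr (j.isoOpensRange_inv_comp).symm).app M ≪≫
    ((Scheme.Modules.pullbackComp j.isoOpensRange.inv j).app M).symm ≪≫
    (Scheme.Modules.pullback j.isoOpensRange.inv).mapIso t ≪≫
    Scheme.Modules.pullbackUnitIso j.isoOpensRange.inv

/-- Open-immersion form of the definition of `IsInvertible`: it suffices to trivialize the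
pullback of `M` along open immersions whose ranges cover `X`. -/
theorem isInvertible_of_openImmersions {X : Scheme.{u}} (M : X.Modules)
    (h : ∀ x : X, ∃ (U : Scheme.{u}) (j : U ⟶ X) (_ : IsOpenImmersion j),
      x ∈ Set.range j ∧
        Nonempty ((Scheme.Modules.pullback j).obj M ≅ SheafOfModules.unit U.ringCatSheaf)) :
    Scheme.Modules.IsInvertible M := by
  refine ⟨fun x => ?_⟩
  obtain ⟨U, j, hj, hx, ⟨t⟩⟩ := h x
  exact ⟨j.opensRange, hx, ⟨trivializationOpensRange j M t⟩⟩

/-- Converse: an invertible module is trivialized along open immersions covering `X`. -/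
theorem isInvertible_iff_openImmersions {X : Scheme.{u}} (M : X.Modules) :
    Scheme.Modules.IsInvertible M ↔
      ∀ x : X, ∃ (U : Scheme.{u}) (j : U ⟶ X) (_ : IsOpenImmersion j),
        x ∈ Set.range j ∧
          Nonempty ((Scheme.Modules.pullback j).obj M ≅ SheafOfModules.unit U.ringCatSheaf) := by
  refine ⟨fun h x => ?_, isInvertible_of_openImmersions M⟩
  obtain ⟨U, hxU, ht⟩ := h.1 x
  exact ⟨U.toScheme, U.ι, inferInstance, by simpa using hxU, ht⟩

/-- **G3 (part 1), open-immersion form.** If the pullbacks of `M` along a jointly surjective family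
of open immersions are invertible, then `M` is invertible. -/
theorem isInvertible_of_openImmersion_cover {X : Scheme.{u}} (M : X.Modules)
    {ι : Type*} (U : ι → Scheme.{u}) (j : ∀ i, U i ⟶ X) [∀ i, IsOpenImmersion (j i)]
    (hcov : ∀ x : X, ∃ i, x ∈ Set.range (j i))
    (h : ∀ i, Scheme.Modules.IsInvertible ((Scheme.Modules.pullback (j i)).obj M)) :
    Scheme.Modules.IsInvertible M := by
  refine isInvertible_of_openImmersions M fun x => ?_
  obtain ⟨i, y, rfl⟩ := hcov x
  obtain ⟨V, hyV, ⟨t⟩⟩ := (h i).1 y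
  refine ⟨V.toScheme, V.ι ≫ j i, inferInstance, ⟨⟨y, hyV⟩, rfl⟩, ⟨?_⟩⟩
  exact ((Scheme.Modules.pullbackComp V.ι (j i)).app M).symm ≪≫ t

/-- **G3 (part 1).** Invertibility is local: if `U i` is an open cover of `X` and the restriction
of `M` to every `U i` is invertible, then `M` is invertible. -/
theorem isInvertible_of_isOpenCover {X : Scheme.{u}} (M : X.Modules)
    {ι : Type*} (U : ι → X.Opens) (hU : ⨆ i, U i = ⊤)
    (h : ∀ i, Scheme.Modules.IsInvertible ((Scheme.Modules.pullback (U i).ι).obj M)) :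
    Scheme.Modules.IsInvertible M := by
  refine isInvertible_of_openImmersion_cover M (fun i => (U i).toScheme) (fun i => (U i).ι)
    (fun x => ?_) h
  have hx : x ∈ (⨆ i, U i : X.Opens) := by rw [hU]; trivial
  obtain ⟨i, hi⟩ := TopologicalSpace.Opens.mem_iSup.mp hx
  exact ⟨i, by simpa using hi⟩

/-- The same statement with the restriction functor in place of the pullback. -/
theorem isInvertible_of_isOpenCover_restrict {X : Scheme.{u}} (M : X.Modules)
    {ι : Type*} (U : ι → X.Opens) (hU : ⨆ i, U i = ⊤)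
    (h : ∀ i, Scheme.Modules.IsInvertible (M.restrict (U i).ι)) :
    Scheme.Modules.IsInvertible M :=
  isInvertible_of_isOpenCover M U hU fun i =>
    isInvertible_of_iso ((Scheme.Modules.restrictFunctorIsoPullback (U i).ι).app M) (h i)

/-- Restriction of an invertible module along an open immersion is invertible. -/
theorem isInvertible_restrict {X Y : Scheme.{u}} (f : X ⟶ Y) [IsOpenImmersion f]
    {M : Y.Modules} (h : Scheme.Modules.IsInvertible M) :
    Scheme.Modules.IsInvertible (M.restrict f) :=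
  isInvertible_of_iso ((Scheme.Modules.restrictFunctorIsoPullback f).app M).symm (h.pullback f)

end Fermat.Agent.S25.H206

end
-- ===== PACK-END S25/H206/InvertibleLocal.lean

-- ===== PACK-BEGIN S25/H491/HilbChart.lean
section


/-!
# S25, block HILB, leaf H1 (helper491): affine charts of the Hilbert functor of points

`k` a commutative ring, `B` a `k`-algebra, `β : Fin g → B`.  For a `k`-algebra `A` we describe the
ideals `I` of `A ⊗[k] B` such that the classes of `1 ⊗ β i` form an `A`-basis of `(A ⊗[k] B) ⧸ I`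
by "structure maps" `p : B →ₗ[k] (Fin g → A)`, and show that these are represented by an explicit
`k`-algebra `Rβ`, of finite type if `B` is.
-/

set_option autoImplicit false

open scoped TensorProduct

namespace Fermat.Agent.S25.H491

universe u v w

section StructMap

variable {k : Type u} [CommRing k] {B : Type v} [CommRing B] [Algebra k B]
variable {g : ℕ} (β : Fin g → B)
variable (A : Type w) [CommRing A] [Algebra k A]

/-- The predicate on `p : B →ₗ[k] (Fin g → A)`: "`p` is the coordinate map of a quotient algebra of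
`A ⊗[k] B` which is free with basis the classes of `β`". -/
structure IsStructMap (p : B →ₗ[k] (Fin g → A)) : Prop where
  unit : ∀ i, p (β i) = Pi.single i 1
  mul : ∀ b b' : B, p (b * b') = ∑ i, p b i • p (β i * b')

/-- Structure maps, as a type. -/
def StructMap : Type (max v w) := {p : B →ₗ[k] (Fin g → A) // IsStructMap β A p}

variable {β A}

/-- The `A`-linear extension `A ⊗[k] B → (Fin g → A)` of `p`. -/
noncomputable def ext (p : B →ₗ[k] (Fin g → A)) : A ⊗[k] B →ₗ[A] (Fin g → A) :=
  LinearMap.liftBaseChange A p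

@[simp]
theorem ext_tmul (p : B →ₗ[k] (Fin g → A)) (a : A) (b : B) :
    ext p (a ⊗ₜ[k] b) = a • p b := by
  simp [ext]

theorem ext_one_tmul_mul {p : B →ₗ[k] (Fin g → A)} (hp : IsStructMap β A p) (b' : B)
    (x : A ⊗[k] B) :
    ext p ((1 ⊗ₜ[k] b') * x) = ∑ i, ext p x i • p (β i * b') := by
  induction x using TensorProduct.induction_on with
  | zero => simp
  | tmul a b =>
    rw [Algebra.TensorProduct.tmul_mul_tmul, one_mul, ext_tmul, ext_tmul, mul_comm b' b, hp.mul,
      Finset.smul_sum]
    refine Finset.sum_congr rfl fun i _ => ?_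
    rw [Pi.smul_apply, smul_eq_mul, mul_smul]
  | add x y hx hy =>
    rw [mul_add, map_add, hx, hy, ← Finset.sum_add_distrib]
    refine Finset.sum_congr rfl fun i _ => ?_
    rw [map_add, Pi.add_apply, add_smul]

theorem ext_mul_eq_zero {p : B →ₗ[k] (Fin g → A)} (hp : IsStructMap β A p) (c x : A ⊗[k] B)
    (hx : ext p x = 0) : ext p (c * x) = 0 := by
  induction c using TensorProduct.induction_on with
  | zero => simp
  | tmul a b =>
    have h1 : (a ⊗ₜ[k] b) * x = a • ((1 ⊗ₜ[k] b) * x) := by
      rw [← smul_mul_assoc, TensorProduct.smul_tmul', smul_eq_mul, mul_one]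
    rw [h1, map_smul, ext_one_tmul_mul hp, hx]
    simp
  | add c d hc hd => rw [add_mul, map_add, hc, hd, add_zero]

/-- The ideal attached to a structure map: the kernel of `ext p`. -/
noncomputable def idealOf {p : B →ₗ[k] (Fin g → A)} (hp : IsStructMap β A p) :
    Ideal (A ⊗[k] B) where
  carrier := {x | ext p x = 0}
  zero_mem' := map_zero _
  add_mem' := fun {x y} hx hy => by
    change ext p x = 0 at hx
    change ext p y = 0 at hy
    change ext p (x + y) = 0
    rw [map_add, hx, hy, add_zero]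
  smul_mem' := fun c x hx => by
    change ext p x = 0 at hx
    change ext p (c * x) = 0
    exact ext_mul_eq_zero hp c x hx

theorem mem_idealOf {p : B →ₗ[k] (Fin g → A)} (hp : IsStructMap β A p) (x : A ⊗[k] B) :
    x ∈ idealOf hp ↔ ext p x = 0 := Iff.rfl

theorem ext_surjective {p : B →ₗ[k] (Fin g → A)} (hp : IsStructMap β A p) :
    Function.Surjective (ext p) := by
  intro v
  refine ⟨∑ i, v i ⊗ₜ[k] β i, ?_⟩
  rw [map_sum]
  simp only [ext_tmul, hp.unit]
  ext j
  simp [Finset.sum_apply, Pi.single_apply]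

/-- `I` lies in the chart of `β`: the classes of `1 ⊗ β i` form an `A`-basis of
`(A ⊗[k] B) ⧸ I` (stated through a linear equivalence with `Fin g → A`). -/
def IsChart (β : Fin g → B) (I : Ideal (A ⊗[k] B)) : Prop :=
  ∃ e : ((A ⊗[k] B) ⧸ I) ≃ₗ[A] (Fin g → A),
    ∀ i, e (Ideal.Quotient.mk I (1 ⊗ₜ[k] β i)) = Pi.single i 1

theorem restrictScalars_idealOf {p : B →ₗ[k] (Fin g → A)} (hp : IsStructMap β A p) :
    (idealOf hp).restrictScalars A = LinearMap.ker (ext p) := by
  ext x
  rfl

/-- The quotient by `idealOf hp` is identified with `Fin g → A` by `ext p`. -/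
noncomputable def quotEquiv {p : B →ₗ[k] (Fin g → A)} (hp : IsStructMap β A p) :
    ((A ⊗[k] B) ⧸ idealOf hp) ≃ₗ[A] (Fin g → A) :=
  (Submodule.Quotient.restrictScalarsEquiv A (idealOf hp)).symm ≪≫ₗ
    (Submodule.quotEquivOfEq _ _ (restrictScalars_idealOf hp)) ≪≫ₗ
    (ext p).quotKerEquivOfSurjective (ext_surjective hp)

@[simp]
theorem quotEquiv_mk {p : B →ₗ[k] (Fin g → A)} (hp : IsStructMap β A p) (x : A ⊗[k] B) :
    quotEquiv hp (Ideal.Quotient.mk (idealOf hp) x) = ext p x := by
  rfl

theorem isChart_idealOf {p : B →ₗ[k] (Fin g → A)} (hp : IsStructMap β A p) :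
    IsChart β (idealOf hp) :=
  ⟨quotEquiv hp, fun i => by rw [quotEquiv_mk, ext_tmul, one_smul, hp.unit]⟩

/-! ### From a chart ideal to its structure map -/

section Coord

variable {I : Ideal (A ⊗[k] B)}

/-- The coordinate map `b ↦ e [1 ⊗ b]` attached to a trivialisation `e` of the quotient. -/
noncomputable def coordOf (e : ((A ⊗[k] B) ⧸ I) ≃ₗ[A] (Fin g → A)) : B →ₗ[k] (Fin g → A) where
  toFun b := e (Ideal.Quotient.mk I (1 ⊗ₜ[k] b))
  map_add' b b' := by rw [TensorProduct.tmul_add, map_add, map_add]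
  map_smul' c b := by
    have h1 : (1 : A) ⊗ₜ[k] (c • b) = (algebraMap k A c) • ((1 : A) ⊗ₜ[k] b) := by
      rw [TensorProduct.smul_tmul', TensorProduct.tmul_smul, algebraMap_smul,
        TensorProduct.smul_tmul']
    have h2 : Ideal.Quotient.mk I ((algebraMap k A c) • ((1 : A) ⊗ₜ[k] b)) =
        (algebraMap k A c) • Ideal.Quotient.mk I ((1 : A) ⊗ₜ[k] b) := rfl
    rw [h1, h2, map_smul, RingHom.id_apply, algebraMap_smul]

@[simp]
theorem coordOf_apply (e : ((A ⊗[k] B) ⧸ I) ≃ₗ[A] (Fin g → A)) (b : B) :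
    coordOf e b = e (Ideal.Quotient.mk I (1 ⊗ₜ[k] b)) := rfl

theorem ext_coordOf (e : ((A ⊗[k] B) ⧸ I) ≃ₗ[A] (Fin g → A)) (x : A ⊗[k] B) :
    ext (coordOf e) x = e (Ideal.Quotient.mk I x) := by
  induction x using TensorProduct.induction_on with
  | zero => simp
  | tmul a b =>
    have h : Ideal.Quotient.mk I (a ⊗ₜ[k] b) = a • Ideal.Quotient.mk I ((1 : A) ⊗ₜ[k] b) := by
      have : a ⊗ₜ[k] b = a • ((1 : A) ⊗ₜ[k] b) := by
        rw [TensorProduct.smul_tmul', smul_eq_mul, mul_one]
      rw [this]; rfl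
    rw [ext_tmul, coordOf_apply, h, map_smul]
  | add x y hx hy => rw [map_add, hx, hy, map_add, map_add]

theorem isStructMap_coordOf (e : ((A ⊗[k] B) ⧸ I) ≃ₗ[A] (Fin g → A))
    (he : ∀ i, e (Ideal.Quotient.mk I (1 ⊗ₜ[k] β i)) = Pi.single i 1) :
    IsStructMap β A (coordOf e) where
  unit := he
  mul b b' := by
    -- `[1 ⊗ b] = [∑ i, p b i ⊗ β i]`
    have h1 : Ideal.Quotient.mk I ((1 : A) ⊗ₜ[k] b) =
        Ideal.Quotient.mk I (∑ i, coordOf e b i ⊗ₜ[k] β i) := by
      apply e.injective
      rw [← ext_coordOf, ← ext_coordOf, map_sum]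
      simp only [ext_tmul, coordOf_apply, he, one_smul]
      ext j
      simp [Finset.sum_apply, Pi.single_apply]
    have h2 : Ideal.Quotient.mk I ((1 : A) ⊗ₜ[k] (b * b')) =
        Ideal.Quotient.mk I (∑ i, coordOf e b i ⊗ₜ[k] (β i * b')) := by
      have e1 : (1 : A) ⊗ₜ[k] (b * b') = ((1 : A) ⊗ₜ[k] b) * ((1 : A) ⊗ₜ[k] b') := by
        rw [Algebra.TensorProduct.tmul_mul_tmul, one_mul]
      have e2 : (∑ i, coordOf e b i ⊗ₜ[k] (β i * b')) =
          (∑ i, coordOf e b i ⊗ₜ[k] β i) * ((1 : A) ⊗ₜ[k] b') := by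
        rw [Finset.sum_mul]
        refine Finset.sum_congr rfl fun i _ => ?_
        rw [Algebra.TensorProduct.tmul_mul_tmul, mul_one]
      rw [e1, e2, map_mul, map_mul, h1]
    rw [coordOf_apply, h2, ← ext_coordOf, map_sum]
    refine Finset.sum_congr rfl fun i _ => ?_
    rw [ext_tmul]

theorem idealOf_coordOf (e : ((A ⊗[k] B) ⧸ I) ≃ₗ[A] (Fin g → A))
    (he : ∀ i, e (Ideal.Quotient.mk I (1 ⊗ₜ[k] β i)) = Pi.single i 1) :
    idealOf (isStructMap_coordOf e he) = I := by
  ext x
  rw [mem_idealOf, ext_coordOf, map_eq_zero_iff e e.injective, Ideal.Quotient.eq_zero_iff_mem]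

/-- The trivialisation of a chart ideal is unique. -/
theorem trivialisation_unique (e e' : ((A ⊗[k] B) ⧸ I) ≃ₗ[A] (Fin g → A))
    (he : ∀ i, e (Ideal.Quotient.mk I (1 ⊗ₜ[k] β i)) = Pi.single i 1)
    (he' : ∀ i, e' (Ideal.Quotient.mk I (1 ⊗ₜ[k] β i)) = Pi.single i 1) : e = e' := by
  have h : e.symm = e'.symm := by
    apply LinearEquiv.toLinearMap_injective
    apply (Pi.basisFun A (Fin g)).ext
    intro i
    simp only [Pi.basisFun_apply, LinearEquiv.coe_coe]
    rw [← he i, e.symm_apply_apply, he i, ← he' i, e'.symm_apply_apply]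
  have := congrArg LinearEquiv.symm h
  simpa using this

theorem coordOf_quotEquiv {p : B →ₗ[k] (Fin g → A)} (hp : IsStructMap β A p) :
    coordOf (quotEquiv hp) = p := by
  ext b : 1
  rw [coordOf_apply, quotEquiv_mk, ext_tmul, one_smul]

end Coord

/-! ### The equivalence -/

/-- The structure map of a chart ideal. -/
noncomputable def structMapOf {I : Ideal (A ⊗[k] B)} (hI : IsChart β I) :
    StructMap (k := k) β A :=
  ⟨coordOf hI.choose, isStructMap_coordOf _ hI.choose_spec⟩

/-- **H1, part 1**: chart ideals of `A ⊗[k] B` are the same as structure maps. -/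
noncomputable def chartEquiv (β : Fin g → B) (A : Type w) [CommRing A] [Algebra k A] :
    {I : Ideal (A ⊗[k] B) // IsChart β I} ≃ StructMap (k := k) β A where
  toFun I := structMapOf I.2
  invFun p := ⟨idealOf p.2, isChart_idealOf p.2⟩
  left_inv I := Subtype.ext (idealOf_coordOf _ I.2.choose_spec)
  right_inv p := by
    apply Subtype.ext
    change coordOf (isChart_idealOf p.2).choose = p.1
    rw [trivialisation_unique _ (quotEquiv p.2) (isChart_idealOf p.2).choose_spec
      (fun i => by rw [quotEquiv_mk, ext_tmul, one_smul, p.2.unit])]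
    exact coordOf_quotEquiv p.2

end StructMap

/-! ### The representing algebra -/

section Rep

open MvPolynomial

variable (k : Type u) [CommRing k] {B : Type v} [CommRing B] [Algebra k B]
variable {g : ℕ} (β : Fin g → B)

/-- The relations defining `Rβ`: linearity in `b`, normalisation at `β`, multiplicativity. -/
def relSet : Set (MvPolynomial (B × Fin g) k) :=
  {f | (∃ b b' j, f = X (b + b', j) - X (b, j) - X (b', j)) ∨
       (∃ (c : k) (b : B) (j : Fin g), f = X (c • b, j) - C c * X (b, j)) ∨
       (∃ i j, f = X (β i, j) - C (if i = j then (1 : k) else 0)) ∨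
       (∃ b b' j, f = X (b * b', j) - ∑ i, X (b, i) * X (β i * b', j))}

/-- The coordinate ring of the chart of `β`. -/
abbrev Rβ : Type (max u v) := MvPolynomial (B × Fin g) k ⧸ Ideal.span (relSet k β)

/-- The universal coordinates `x b j ∈ Rβ`. -/
noncomputable def xgen (b : B) (j : Fin g) : Rβ k β :=
  Ideal.Quotient.mk (Ideal.span (relSet k β)) (X (b, j))

variable {k β}

theorem xgen_add (b b' : B) (j : Fin g) :
    xgen k β (b + b') j = xgen k β b j + xgen k β b' j := by
  have h : (X (b + b', j) - X (b, j) - X (b', j) : MvPolynomial (B × Fin g) k) ∈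
      Ideal.span (relSet k β) := Ideal.subset_span (Or.inl ⟨b, b', j, rfl⟩)
  have := Ideal.Quotient.eq_zero_iff_mem.mpr h
  rw [map_sub, map_sub, sub_sub, sub_eq_zero] at this
  exact this

theorem xgen_smul (c : k) (b : B) (j : Fin g) :
    xgen k β (c • b) j = c • xgen k β b j := by
  have h : (X (c • b, j) - C c * X (b, j) : MvPolynomial (B × Fin g) k) ∈
      Ideal.span (relSet k β) := Ideal.subset_span (Or.inr (Or.inl ⟨c, b, j, rfl⟩))
  have := Ideal.Quotient.eq_zero_iff_mem.mpr h
  rw [map_sub, sub_eq_zero, map_mul] at this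
  rw [xgen, this, ← map_mul, MvPolynomial.C_mul']
  rfl

theorem xgen_unit (i j : Fin g) :
    xgen k β (β i) j = if i = j then 1 else 0 := by
  have h : (X (β i, j) - C (if i = j then (1 : k) else 0) : MvPolynomial (B × Fin g) k) ∈
      Ideal.span (relSet k β) := Ideal.subset_span (Or.inr (Or.inr (Or.inl ⟨i, j, rfl⟩)))
  have := Ideal.Quotient.eq_zero_iff_mem.mpr h
  rw [map_sub, sub_eq_zero] at this
  rw [xgen, this]
  split_ifs
  · rw [map_one, map_one]
  · rw [map_zero, map_zero]

theorem xgen_mul (b b' : B) (j : Fin g) :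
    xgen k β (b * b') j = ∑ i, xgen k β b i * xgen k β (β i * b') j := by
  have h : (X (b * b', j) - ∑ i, X (b, i) * X (β i * b', j) : MvPolynomial (B × Fin g) k) ∈
      Ideal.span (relSet k β) := Ideal.subset_span (Or.inr (Or.inr (Or.inr ⟨b, b', j, rfl⟩)))
  have := Ideal.Quotient.eq_zero_iff_mem.mpr h
  rw [map_sub, sub_eq_zero, map_sum] at this
  rw [xgen, this]
  simp only [map_mul]
  rfl

variable (A : Type w) [CommRing A] [Algebra k A]

/-- The structure map attached to an algebra homomorphism `Rβ → A`. -/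
noncomputable def structMapOfAlgHom (φ : Rβ k β →ₐ[k] A) : StructMap (k := k) β A :=
  ⟨{ toFun := fun b j => φ (xgen k β b j)
     map_add' := fun b b' => by
       ext j
       simp only [xgen_add, map_add, Pi.add_apply]
     map_smul' := fun c b => by
       ext j
       simp only [xgen_smul, map_smul, RingHom.id_apply, Pi.smul_apply] },
   { unit := fun i => by
       ext j
       simp only [LinearMap.coe_mk, AddHom.coe_mk, xgen_unit, Pi.single_apply]
       split_ifs with h1 h2 h2
       · simp
       · exact absurd h1.symm h2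
       · exact absurd h2.symm h1
       · simp
     mul := fun b b' => by
       ext j
       simp only [LinearMap.coe_mk, AddHom.coe_mk, Finset.sum_apply, Pi.smul_apply, smul_eq_mul]
       rw [xgen_mul, map_sum]
       simp only [map_mul] }⟩

@[simp]
theorem structMapOfAlgHom_apply (φ : Rβ k β →ₐ[k] A) (b : B) (j : Fin g) :
    (structMapOfAlgHom A φ).1 b j = φ (xgen k β b j) := rfl

theorem aeval_relSet (p : StructMap (k := k) β A) (f : MvPolynomial (B × Fin g) k)
    (hf : f ∈ Ideal.span (relSet k β)) :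
    MvPolynomial.aeval (fun bj : B × Fin g => p.1 bj.1 bj.2) f = 0 := by
  have hle : Ideal.span (relSet k β) ≤
      RingHom.ker (MvPolynomial.aeval (fun bj : B × Fin g => p.1 bj.1 bj.2) :
        MvPolynomial (B × Fin g) k →ₐ[k] A).toRingHom := by
    rw [Ideal.span_le]
    rintro f (⟨b, b', j, rfl⟩ | ⟨c, b, j, rfl⟩ | ⟨i, j, rfl⟩ | ⟨b, b', j, rfl⟩)
    · simp [RingHom.mem_ker]
    · simp only [SetLike.mem_coe, RingHom.mem_ker, AlgHom.toRingHom_eq_coe, RingHom.coe_coe,
        map_sub, map_mul, aeval_X, aeval_C]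
      rw [p.1.map_smul c b, Pi.smul_apply, Algebra.smul_def, sub_self]
    · simp only [SetLike.mem_coe, RingHom.mem_ker, AlgHom.toRingHom_eq_coe, RingHom.coe_coe,
        map_sub, aeval_X, aeval_C, p.2.unit, Pi.single_apply]
      split_ifs with h1 h2 h2
      · simp
      · exact absurd h1.symm h2
      · exact absurd h2.symm h1
      · simp
    · simp only [SetLike.mem_coe, RingHom.mem_ker, AlgHom.toRingHom_eq_coe, RingHom.coe_coe,
        map_sub, aeval_X, map_sum, map_mul]
      rw [p.2.mul b b']
      simp only [Finset.sum_apply, Pi.smul_apply, smul_eq_mul, sub_self]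
  exact hle hf

/-- The algebra homomorphism `Rβ → A` attached to a structure map. -/
noncomputable def algHomOfStructMap (p : StructMap (k := k) β A) : Rβ k β →ₐ[k] A :=
  Ideal.Quotient.liftₐ (Ideal.span (relSet k β))
    (MvPolynomial.aeval fun bj : B × Fin g => p.1 bj.1 bj.2) (aeval_relSet A p)

@[simp]
theorem algHomOfStructMap_xgen (p : StructMap (k := k) β A) (b : B) (j : Fin g) :
    algHomOfStructMap A p (xgen k β b j) = p.1 b j := by
  change (MvPolynomial.aeval fun bj : B × Fin g => p.1 bj.1 bj.2) (X (b, j)) = p.1 b j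
  rw [aeval_X]

/-- Two algebra homomorphisms out of `Rβ` agreeing on the `xgen` are equal. -/
theorem algHom_ext_xgen {φ ψ : Rβ k β →ₐ[k] A}
    (h : ∀ b j, φ (xgen k β b j) = ψ (xgen k β b j)) : φ = ψ := by
  apply Ideal.Quotient.algHom_ext
  apply MvPolynomial.algHom_ext
  rintro ⟨b, j⟩
  exact h b j

/-- **H1, part 2**: `Rβ` represents structure maps. -/
noncomputable def repEquiv : (Rβ k β →ₐ[k] A) ≃ StructMap (k := k) β A where
  toFun := structMapOfAlgHom A
  invFun := algHomOfStructMap A
  left_inv φ := algHom_ext_xgen A fun b j => by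
    rw [algHomOfStructMap_xgen, structMapOfAlgHom_apply]
  right_inv p := by
    apply Subtype.ext
    ext b j
    rw [structMapOfAlgHom_apply, algHomOfStructMap_xgen]


/-- `Rβ` is generated by the universal coordinates: a subalgebra containing all `xgen b j` is `⊤`. -/
theorem subalgebra_eq_top_of_xgen_mem (T : Subalgebra k (Rβ k β))
    (h : ∀ b j, xgen k β b j ∈ T) : T = ⊤ := by
  rw [eq_top_iff]
  rintro r -
  obtain ⟨f, rfl⟩ := Ideal.Quotient.mk_surjective r
  induction f using MvPolynomial.induction_on with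
  | C a => exact T.algebraMap_mem a
  | add f f' hf hf' => rw [map_add]; exact T.add_mem hf hf'
  | mul_X f n hf =>
    rw [map_mul]
    exact T.mul_mem hf (h n.1 n.2)

/-- **H1, part 4** (finite type): if `S` generates `B` as a `k`-algebra, then `Rβ` is generated by
the `xgen 1 j` and the `xgen (β i * s) j`, `s ∈ S`. -/
theorem adjoin_xgen_eq_top (S : Set B) (hS : Algebra.adjoin k S = ⊤) :
    Algebra.adjoin k
      ({r : Rβ k β | ∃ j, r = xgen k β 1 j} ∪
        {r : Rβ k β | ∃ i, ∃ s ∈ S, ∃ j, r = xgen k β (β i * s) j}) = ⊤ := by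
  set T : Subalgebra k (Rβ k β) := Algebra.adjoin k
      ({r : Rβ k β | ∃ j, r = xgen k β 1 j} ∪
        {r : Rβ k β | ∃ i, ∃ s ∈ S, ∃ j, r = xgen k β (β i * s) j}) with hT
  -- `V`: the elements `b` such that all `xgen (β i * b) j` lie in `T`
  let V : Subalgebra k B :=
    { carrier := {b | ∀ i j, xgen k β (β i * b) j ∈ T}
      mul_mem' := fun {b b'} hb hb' i j => by
        rw [← mul_assoc, xgen_mul]
        exact T.sum_mem fun l _ => T.mul_mem (hb i l) (hb' l j)
      one_mem' := fun i j => by
        rw [mul_one, xgen_unit]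
        split_ifs
        · exact T.one_mem
        · exact T.zero_mem
      add_mem' := fun {b b'} hb hb' i j => by
        rw [mul_add, xgen_add]
        exact T.add_mem (hb i j) (hb' i j)
      zero_mem' := fun i j => by
        have h0 : xgen k β (β i * 0) j = 0 := by
          have := xgen_smul (β := β) (0 : k) (0 : B) j
          rw [zero_smul, zero_smul] at this
          rw [mul_zero, this]
        rw [h0]
        exact T.zero_mem
      algebraMap_mem' := fun c i j => by
        have h1 : β i * algebraMap k B c = c • β i := by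
          rw [Algebra.smul_def, mul_comm]
        rw [h1, xgen_smul, xgen_unit]
        split_ifs
        · exact T.smul_mem T.one_mem c
        · exact T.smul_mem T.zero_mem c }
  have hV : V = ⊤ := by
    rw [eq_top_iff, ← hS]
    apply Algebra.adjoin_le
    intro s hs i j
    exact Algebra.subset_adjoin (Or.inr ⟨i, s, hs, j, rfl⟩)
  apply subalgebra_eq_top_of_xgen_mem
  intro b j
  have hb : b ∈ V := by rw [hV]; exact Algebra.mem_top
  have h1 : xgen k β b j = ∑ i, xgen k β 1 i * xgen k β (β i * b) j := by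
    rw [← xgen_mul, one_mul]
  rw [h1]
  exact T.sum_mem fun i _ =>
    T.mul_mem (Algebra.subset_adjoin (Or.inl ⟨i, rfl⟩)) (hb i j)

/-- **H1, part 4**: if `B` is a `k`-algebra of finite type, so is `Rβ`. -/
theorem finiteType_Rβ [hB : Algebra.FiniteType k B] : Algebra.FiniteType k (Rβ k β) := by
  obtain ⟨S, hS⟩ := hB.out
  refine ⟨Subalgebra.fg_def.mpr ⟨_, ?_, adjoin_xgen_eq_top (β := β) (S : Set B) hS⟩⟩
  apply Set.Finite.union
  · have : {r : Rβ k β | ∃ j, r = xgen k β 1 j} = Set.range (fun j => xgen k β 1 j) := by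
      ext r; constructor
      · rintro ⟨j, rfl⟩; exact ⟨j, rfl⟩
      · rintro ⟨j, rfl⟩; exact ⟨j, rfl⟩
    rw [this]
    exact Set.finite_range _
  · have : {r : Rβ k β | ∃ i, ∃ s ∈ (S : Set B), ∃ j, r = xgen k β (β i * s) j} =
        Set.range (fun x : Fin g × S × Fin g => xgen k β (β x.1 * x.2.1.1) x.2.2) := by
      ext r; constructor
      · rintro ⟨i, s, hs, j, rfl⟩; exact ⟨(i, ⟨s, hs⟩, j), rfl⟩
      · rintro ⟨⟨i, s, j⟩, rfl⟩; exact ⟨i, s.1, s.2, j, rfl⟩
    rw [this]
    exact Set.finite_range _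

end Rep

/-! ### Naturality in `A` -/

section Naturality

universe w'

variable {k : Type u} [CommRing k] {B : Type v} [CommRing B] [Algebra k B]
variable {g : ℕ} {β : Fin g → B}
variable {A : Type w} [CommRing A] [Algebra k A] {A' : Type w'} [CommRing A'] [Algebra k A']

/-- Push a coordinate map forward along `φ : A →ₐ[k] A'`. -/
noncomputable def mapCoord (φ : A →ₐ[k] A') (p : B →ₗ[k] (Fin g → A)) :
    B →ₗ[k] (Fin g → A') :=
  (φ.toLinearMap.compLeft (Fin g)) ∘ₗ p

@[simp]
theorem mapCoord_apply (φ : A →ₐ[k] A') (p : B →ₗ[k] (Fin g → A)) (b : B) (j : Fin g) :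
    mapCoord φ p b j = φ (p b j) := rfl

theorem IsStructMap.map {p : B →ₗ[k] (Fin g → A)} (hp : IsStructMap β A p) (φ : A →ₐ[k] A') :
    IsStructMap β A' (mapCoord φ p) where
  unit i := by
    ext j
    rw [mapCoord_apply, hp.unit, Pi.single_apply, Pi.single_apply]
    split_ifs
    · exact map_one φ
    · exact map_zero φ
  mul b b' := by
    ext j
    rw [mapCoord_apply, hp.mul, Finset.sum_apply, Finset.sum_apply, map_sum]
    refine Finset.sum_congr rfl fun i _ => ?_
    rw [Pi.smul_apply, Pi.smul_apply, smul_eq_mul, smul_eq_mul, map_mul, mapCoord_apply,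
      mapCoord_apply]

/-- Base change of structure maps. -/
noncomputable def StructMap.map (φ : A →ₐ[k] A') (p : StructMap (k := k) β A) :
    StructMap (k := k) β A' :=
  ⟨mapCoord φ p.1, p.2.map φ⟩

@[simp]
theorem StructMap.map_apply (φ : A →ₐ[k] A') (p : StructMap (k := k) β A) (b : B) (j : Fin g) :
    (StructMap.map φ p).1 b j = φ (p.1 b j) := rfl

/-- The base change map `A ⊗[k] B → A' ⊗[k] B`. -/
noncomputable abbrev bc (B : Type v) [CommRing B] [Algebra k B] (φ : A →ₐ[k] A') :
    A ⊗[k] B →ₐ[k] A' ⊗[k] B :=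
  Algebra.TensorProduct.map φ (AlgHom.id k B)

theorem ext_mapCoord (φ : A →ₐ[k] A') (p : B →ₗ[k] (Fin g → A)) (x : A ⊗[k] B) (j : Fin g) :
    ext (mapCoord φ p) (bc B φ x) j = φ (ext p x j) := by
  induction x using TensorProduct.induction_on with
  | zero => simp
  | tmul a b =>
    rw [Algebra.TensorProduct.map_tmul, ext_tmul, ext_tmul, Pi.smul_apply, Pi.smul_apply,
      smul_eq_mul, smul_eq_mul, map_mul, mapCoord_apply, AlgHom.id_apply]
  | add x y hx hy =>
    rw [map_add, map_add, Pi.add_apply, hx, hy, map_add, Pi.add_apply, map_add]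

/-- Every element of `A ⊗[k] B` is congruent modulo `idealOf hp` to the combination of the
`1 ⊗ β i` with its coordinates as coefficients. -/
theorem sub_sum_mem_idealOf {p : B →ₗ[k] (Fin g → A)} (hp : IsStructMap β A p) (x : A ⊗[k] B) :
    x - ∑ i, ext p x i ⊗ₜ[k] β i ∈ idealOf hp := by
  rw [mem_idealOf, map_sub, map_sum, sub_eq_zero]
  simp only [ext_tmul, hp.unit]
  ext j
  simp [Finset.sum_apply, Pi.single_apply]

/-- **H1, part 3** (naturality): the ideal of the base-changed structure map is the extension of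
the ideal. -/
theorem idealOf_map {p : B →ₗ[k] (Fin g → A)} (hp : IsStructMap β A p) (φ : A →ₐ[k] A') :
    idealOf (hp.map φ) = Ideal.map (bc B φ) (idealOf hp) := by
  apply le_antisymm
  · intro x' hx'
    rw [mem_idealOf] at hx'
    -- every `x'` is congruent to `∑ i, ext p' x' i ⊗ β i` modulo the extended ideal
    have key : ∀ y : A' ⊗[k] B,
        y - ∑ i, ext (mapCoord φ p) y i ⊗ₜ[k] β i ∈ Ideal.map (bc B φ) (idealOf hp) := by
      intro y
      induction y using TensorProduct.induction_on with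
      | zero => simp
      | tmul a' b =>
        have h1 : bc B φ ((1 : A) ⊗ₜ[k] b - ∑ i, ext p ((1 : A) ⊗ₜ[k] b) i ⊗ₜ[k] β i) ∈
            Ideal.map (bc B φ) (idealOf hp) :=
          Ideal.mem_map_of_mem _ (sub_sum_mem_idealOf hp _)
        have h2 := Ideal.mul_mem_left _ (a' ⊗ₜ[k] (1 : B)) h1
        convert h2 using 1
        rw [map_sub, map_sum, mul_sub, Finset.mul_sum, Algebra.TensorProduct.map_tmul,
          Algebra.TensorProduct.tmul_mul_tmul, map_one, mul_one, one_mul, AlgHom.id_apply]
        congr 1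
        refine Finset.sum_congr rfl fun i _ => ?_
        rw [Algebra.TensorProduct.map_tmul, Algebra.TensorProduct.tmul_mul_tmul, one_mul,
          AlgHom.id_apply, ext_tmul, ext_tmul, one_smul, Pi.smul_apply, smul_eq_mul,
          mapCoord_apply]
      | add y z hy hz =>
        have := Ideal.add_mem _ hy hz
        convert this using 1
        simp only [map_add, Pi.add_apply, TensorProduct.add_tmul, Finset.sum_add_distrib]
        abel
    have := key x'
    rw [hx'] at this
    simpa using this
  · rw [Ideal.map_le_iff_le_comap]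
    intro x hx
    rw [mem_idealOf] at hx
    rw [Ideal.mem_comap, mem_idealOf]
    ext j
    rw [ext_mapCoord, hx, Pi.zero_apply, map_zero, Pi.zero_apply]

/-- Chart ideals are stable under base change. -/
theorem IsChart.map {I : Ideal (A ⊗[k] B)} (hI : IsChart β I) (φ : A →ₐ[k] A') :
    IsChart β (Ideal.map (bc B φ) I) := by
  obtain ⟨e, he⟩ := hI
  have h := idealOf_map (isStructMap_coordOf e he) φ
  rw [idealOf_coordOf e he] at h
  rw [← h]
  exact isChart_idealOf _

/-- **H1, part 3**: `chartEquiv` is natural in `A`. -/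
theorem chartEquiv_map {I : Ideal (A ⊗[k] B)} (hI : IsChart β I) (φ : A →ₐ[k] A') :
    chartEquiv β A' ⟨Ideal.map (bc B φ) I, hI.map φ⟩ =
      StructMap.map φ (chartEquiv β A ⟨I, hI⟩) := by
  rw [← Equiv.eq_symm_apply]
  apply Subtype.ext
  change Ideal.map (bc B φ) I = idealOf ((structMapOf hI).2.map φ)
  rw [idealOf_map]
  congr 1
  exact (idealOf_coordOf _ hI.choose_spec).symm

/-- **H1, part 3**: `repEquiv` is natural in `A`. -/
theorem repEquiv_comp (φ : A →ₐ[k] A') (ψ : Rβ k β →ₐ[k] A) :
    repEquiv A' (φ.comp ψ) = StructMap.map φ (repEquiv A ψ) := rfl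

end Naturality

end Fermat.Agent.S25.H491

end
-- ===== PACK-END S25/H491/HilbChart.lean

-- ===== PACK-BEGIN S25/H310/FlatQuotient.lean
section


/-!
# Flatness of a quotient of a flat module (ideal criterion)

For a submodule `N` of a flat module `P` over a commutative ring `A`, the quotient `P ⧸ N` is
flat as soon as `N ⊓ I • ⊤ ≤ I • N` for every finitely generated ideal `I`
(i.e. `Tor₁(A ⧸ I, P ⧸ N) = 0`).  The converse also holds.
-/

open TensorProduct

set_option autoImplicit false

namespace Fermat.Agent.S25.H310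

universe u v

variable {A : Type u} [CommRing A]

/-- The multiplication map `I ⊗ M → M`. -/
noncomputable abbrev idealMul (I : Ideal A) (M : Type v) [AddCommGroup M] [Module A M] :
    (I ⊗[A] M) →ₗ[A] M :=
  TensorProduct.lift ((LinearMap.lsmul A M).comp I.subtype)

theorem idealMul_tmul (I : Ideal A) (M : Type v) [AddCommGroup M] [Module A M] (r : I) (m : M) :
    idealMul I M (r ⊗ₜ m) = (r : A) • m := by
  simp [idealMul]

theorem idealMul_naturality (I : Ideal A) {M M' : Type v} [AddCommGroup M] [Module A M]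
    [AddCommGroup M'] [Module A M'] (g : M →ₗ[A] M') (z : I ⊗[A] M) :
    g (idealMul I M z) = idealMul I M' (LinearMap.lTensor I g z) := by
  induction z using TensorProduct.induction_on with
  | zero => simp
  | tmul r m => simp [idealMul]
  | add x y hx hy => simp only [map_add, hx, hy]

theorem exists_idealMul_eq_of_mem_smul (I : Ideal A) {P : Type v} [AddCommGroup P] [Module A P]
    (N : Submodule A P) {y : P} (hy : y ∈ I • N) :
    ∃ w : I ⊗[A] N, idealMul I P (LinearMap.lTensor I N.subtype w) = y := by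
  induction hy using Submodule.smul_induction_on' with
  | smul r hr n hn =>
    refine ⟨(⟨r, hr⟩ : I) ⊗ₜ (⟨n, hn⟩ : N), ?_⟩
    simp [idealMul]
  | add x hx y hy hx' hy' =>
    obtain ⟨w₁, h₁⟩ := hx'
    obtain ⟨w₂, h₂⟩ := hy'
    exact ⟨w₁ + w₂, by simp only [map_add, h₁, h₂]⟩

theorem idealMul_mem_smul_top (I : Ideal A) {P : Type v} [AddCommGroup P] [Module A P]
    (z : I ⊗[A] P) : idealMul I P z ∈ (I • ⊤ : Submodule A P) := by
  induction z using TensorProduct.induction_on with
  | zero => simp
  | tmul r m =>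
    rw [idealMul_tmul]
    exact Submodule.smul_mem_smul r.2 Submodule.mem_top
  | add x y hx hy =>
    rw [map_add]
    exact Submodule.add_mem _ hx hy

/-- **Ideal criterion for flatness of a quotient.**  If `P` is flat and `N ⊓ I P ≤ I N` for all
finitely generated ideals `I`, then `P ⧸ N` is flat. -/
theorem flat_quotient_of_inf_smul_le {P : Type v} [AddCommGroup P] [Module A P]
    [Module.Flat A P] (N : Submodule A P)
    (h : ∀ I : Ideal A, I.FG → N ⊓ (I • ⊤ : Submodule A P) ≤ I • N) :
    Module.Flat A (P ⧸ N) := by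
  rw [Module.Flat.iff_lift_lsmul_comp_subtype_injective]
  intro I hI
  have hP : Function.Injective (idealMul I P) :=
    Module.Flat.iff_lift_lsmul_comp_subtype_injective.mp inferInstance hI
  rw [injective_iff_map_eq_zero]
  intro z hz
  obtain ⟨z', rfl⟩ := LinearMap.lTensor_surjective I (Submodule.mkQ_surjective N) z
  have h1 : N.mkQ (idealMul I P z') = 0 := by
    rw [idealMul_naturality]
    exact hz
  have h2 : idealMul I P z' ∈ N := by
    simpa using h1
  have h3 : idealMul I P z' ∈ I • N := h I hI ⟨h2, idealMul_mem_smul_top I z'⟩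
  obtain ⟨w, hw⟩ := exists_idealMul_eq_of_mem_smul I N h3
  have h4 : z' = LinearMap.lTensor I N.subtype w := hP hw.symm
  rw [h4, ← LinearMap.lTensor_comp_apply]
  have h5 : N.mkQ ∘ₗ N.subtype = 0 := by
    ext x
    simp
  rw [h5, LinearMap.lTensor_zero, LinearMap.zero_apply]

end Fermat.Agent.S25.H310

end
-- ===== PACK-END S25/H310/FlatQuotient.lean

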