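import Mathlib
import Fermat.Prelude.Def_ModularForm_HeckeOperator
import Fermat.Prelude.Def_FLTPrelim_Modularity
import Fermat.Prelude.Thm_UpperHalfPlane_qExpansion_coeff_nat_mul
import Mathlib.RingTheory.PicardGroup
import Mathlib.RingTheory.LocalProperties.Exactness
import Mathlib.RingTheory.LocalProperties.FinitePresentation
import Mathlib.RingTheory.Localization.BaseChange
import Mathlib.Algebra.Module.FinitePresentation
import Fermat.Agent.Pack.S43MC.G0E0L0

-- ===== PACK-BEGIN A2/H348/KummerCoord.lean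
section


/-!
# A2 / piece E (ALG_ss), part 1: coordinates of integral elements in a Kummer algebra

Mathlib-only.  `F'` a commutative `F`-algebra (NOT necessarily a field: the case
`F' = F[X]/(X^m - ε)` with `X^m - ε` reducible is the important one) with a *Kummer basis*:
`ζ ^ m = ε ∈ F` and `1, ζ, …, ζ^(m-1)` is an `F`-basis of `F'`.  For a subalgebra `O ⊆ F` which is
integrally closed in `F` and contains `ε`, `(m ε)⁻¹`:

* `KummerBasis.isIntegral_iff` : `c ∈ F'` is integral over `O` iff all its coordinates in the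
  basis `ζ^i` lie in `O`
  (`⟸` trivial, `⟹` by the discrete Fourier transform over the `m` evaluations
  `ζ ↦ ω^k r` in an algebraic closure, `KummerBasis.sum_evalAt`).
* `KummerBasis.scale` : `ζ / h` is again a Kummer basis (for `ε / h^m`).
* `KummerBasis.evalAt` : the `F`-algebra map `F' → Ω`, `ζ ↦ y` for `y ^ m = ε`.
-/

set_option autoImplicit false
set_option linter.unusedSectionVars false
set_option linter.style.haveILetI false

open Module Polynomial

namespace Fermat.Agent.A2.H348

variable {A F F' : Type*} [CommRing A] [Field F] [CommRing F'] [Nontrivial F'] [Algebra A F]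
  [Algebra F F'] [Algebra A F'] [IsScalarTower A F F']

/-- Kummer basis: `ζ ^ m = ε` and `(ζ ^ i)_{i < m}` is an `F`-basis of `F'`. -/
structure KummerBasis (m : ℕ) (ε : F) (ζ : F') where
  pow_eq : ζ ^ m = algebraMap F F' ε
  basis : Basis (Fin m) F F'
  basis_apply : ∀ i : Fin m, basis i = ζ ^ (i : ℕ)

namespace KummerBasis

variable {m : ℕ} {ε : F} {ζ : F'} (kb : KummerBasis m ε ζ)

include kb

theorem finiteDimensional : FiniteDimensional F F' :=
  Module.Finite.of_basis kb.basis

theorem finrank_eq : Module.finrank F F' = m := by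
  rw [Module.finrank_eq_card_basis kb.basis, Fintype.card_fin]

theorem m_pos : 0 < m := by
  by_contra h
  have hm : m = 0 := by omega
  subst hm
  have h1 : (1 : F') = 0 := by
    have := kb.basis.repr.injective
    apply this
    ext i
    exact i.elim0
  exact one_ne_zero h1

/-- every element is the sum of its coordinates times the powers of `ζ`. -/
theorem sum_repr (c : F') :
    c = ∑ i : Fin m, algebraMap F F' (kb.basis.repr c i) * ζ ^ (i : ℕ) := by
  conv_lhs => rw [← kb.basis.sum_repr c]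
  refine Finset.sum_congr rfl fun i _ => ?_
  rw [kb.basis_apply, Algebra.smul_def]

/-- coordinates of a combination of powers of `ζ`. -/
theorem repr_sum (f : Fin m → F) (i : Fin m) :
    kb.basis.repr (∑ j : Fin m, algebraMap F F' (f j) * ζ ^ (j : ℕ)) i = f i := by
  have : (∑ j : Fin m, algebraMap F F' (f j) * ζ ^ (j : ℕ)) = ∑ j : Fin m, f j • kb.basis j := by
    refine Finset.sum_congr rfl fun j _ => ?_
    rw [kb.basis_apply, Algebra.smul_def]
  rw [this, kb.basis.repr_sum_self]

/-- rescaling a Kummer basis by a nonzero element of `F`. -/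
noncomputable def scale (h : F) (hh : h ≠ 0) :
    KummerBasis m (ε * (h ^ m)⁻¹) (ζ * algebraMap F F' h⁻¹) where
  pow_eq := by
    rw [mul_pow, kb.pow_eq, map_mul, ← map_pow, inv_pow]
  basis := kb.basis.unitsSMul fun i => Units.mk0 ((h ^ (i : ℕ))⁻¹) (inv_ne_zero (pow_ne_zero _ hh))
  basis_apply := by
    intro i
    rw [Basis.unitsSMul_apply, kb.basis_apply, Units.smul_def, Units.val_mk0, Algebra.smul_def,
      mul_pow, ← map_pow, inv_pow, mul_comm]

/-- the associated power basis. -/
noncomputable def powerBasis : PowerBasis F F' where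
  gen := ζ
  dim := m
  basis := kb.basis
  basis_eq_pow := kb.basis_apply

theorem minpoly_eq : minpoly F ζ = X ^ m - C ε := by
  have h1 : (minpoly F ζ).natDegree = m := kb.powerBasis.natDegree_minpoly
  have h2 : minpoly F ζ ∣ X ^ m - C ε := minpoly.dvd F ζ (by simp [kb.pow_eq])
  have h3 : IsIntegral F ζ := kb.powerBasis.isIntegral_gen
  exact (eq_of_monic_of_dvd_of_natDegree_le (minpoly.monic h3)
    (monic_X_pow_sub_C _ kb.m_pos.ne') h2 (by rw [h1, natDegree_X_pow_sub_C])).symm

section Eval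

variable {Ω : Type*} [Field Ω] [Algebra F Ω]

/-- evaluation `ζ ↦ y` at a root `y` of `X ^ m - ε`. -/
noncomputable def evalAt (y : Ω) (hy : y ^ m = algebraMap F Ω ε) : F' →ₐ[F] Ω :=
  kb.powerBasis.lift y (by
    rw [show kb.powerBasis.gen = ζ from rfl, kb.minpoly_eq]
    simp [hy])

theorem evalAt_zeta (y : Ω) (hy : y ^ m = algebraMap F Ω ε) : kb.evalAt y hy ζ = y :=
  kb.powerBasis.lift_gen _ _

theorem evalAt_apply (y : Ω) (hy : y ^ m = algebraMap F Ω ε) (c : F') :
    kb.evalAt y hy c = ∑ i : Fin m, algebraMap F Ω (kb.basis.repr c i) * y ^ (i : ℕ) := by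
  conv_lhs => rw [kb.sum_repr c]
  rw [map_sum]
  refine Finset.sum_congr rfl fun i _ => ?_
  rw [map_mul, map_pow, kb.evalAt_zeta, AlgHom.commutes]

omit kb in
theorem sum_pow_primitiveRoot {ω : Ω} (hω : IsPrimitiveRoot ω m) (n : ℕ) :
    ∑ k ∈ Finset.range m, (ω ^ n) ^ k = if m ∣ n then (m : Ω) else 0 := by
  split_ifs with h
  · have : ω ^ n = 1 := (hω.pow_eq_one_iff_dvd n).2 h
    simp [this]
  · have h1 : ω ^ n ≠ 1 := fun h1 => h ((hω.pow_eq_one_iff_dvd n).1 h1)
    have h2 : (ω ^ n - 1) * ∑ k ∈ Finset.range m, (ω ^ n) ^ k = 0 := by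
      rw [mul_geom_sum, ← pow_mul, mul_comm, pow_mul, hω.pow_eq_one, one_pow, sub_self]
    rcases mul_eq_zero.1 h2 with h3 | h3
    · exact absurd (sub_eq_zero.1 h3) h1
    · exact h3

omit kb in
theorem mul_pow_eq {ω r : Ω} (hω : IsPrimitiveRoot ω m) (hr : r ^ m = algebraMap F Ω ε) (k : ℕ) :
    (ω ^ k * r) ^ m = algebraMap F Ω ε := by
  rw [mul_pow, ← pow_mul, mul_comm k m, pow_mul, hω.pow_eq_one, one_pow, one_mul, hr]

/-- **discrete Fourier transform**: recover the `i`-th coordinate from the `m` evaluations. -/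
theorem sum_evalAt {ω r : Ω} (hω : IsPrimitiveRoot ω m) (hr : r ^ m = algebraMap F Ω ε)
    (c : F') (i : Fin m) :
    ∑ k ∈ Finset.range m, (ω ^ (m - (i : ℕ))) ^ k * kb.evalAt (ω ^ k * r) (mul_pow_eq hω hr k) c =
      (m : Ω) * (algebraMap F Ω (kb.basis.repr c i) * r ^ (i : ℕ)) := by
  classical
  have h1 : ∀ k ∈ Finset.range m,
      (ω ^ (m - (i : ℕ))) ^ k * kb.evalAt (ω ^ k * r) (mul_pow_eq hω hr k) c =
      ∑ j : Fin m, (algebraMap F Ω (kb.basis.repr c j) * r ^ (j : ℕ)) *
        (ω ^ (m - (i : ℕ) + (j : ℕ))) ^ k := by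
    intro k _
    rw [kb.evalAt_apply, Finset.mul_sum]
    refine Finset.sum_congr rfl fun j _ => ?_
    rw [mul_pow, pow_add, mul_pow, ← pow_mul ω (j : ℕ) k, ← pow_mul ω k (j : ℕ),
      mul_comm (j : ℕ) k]
    ring
  rw [Finset.sum_congr rfl h1, Finset.sum_comm]
  have h2 : ∀ j ∈ (Finset.univ : Finset (Fin m)),
      ∑ k ∈ Finset.range m, (algebraMap F Ω (kb.basis.repr c j) * r ^ (j : ℕ)) *
        (ω ^ (m - (i : ℕ) + (j : ℕ))) ^ k =
      if j = i then (m : Ω) * (algebraMap F Ω (kb.basis.repr c i) * r ^ (i : ℕ)) else 0 := by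
    intro j _
    rw [← Finset.mul_sum, sum_pow_primitiveRoot hω]
    have hi := i.2
    have hj := j.2
    by_cases hji : j = i
    · subst hji
      rw [if_pos rfl, if_pos ⟨1, by omega⟩, mul_comm]
    · rw [if_neg hji, if_neg, mul_zero]
      rintro ⟨q, hq⟩
      have hne : (j : ℕ) ≠ (i : ℕ) := fun h => hji (Fin.ext h)
      rcases Nat.lt_or_ge (j : ℕ) (i : ℕ) with h | h
      · have h1 : 0 < m - (i : ℕ) + (j : ℕ) := by omega
        have h2 : m - (i : ℕ) + (j : ℕ) < m := by omega
        rcases Nat.eq_zero_or_pos q with rfl | hq0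
        · omega
        · have : m ≤ m * q := Nat.le_mul_of_pos_right m hq0
          omega
      · have h1 : m < m - (i : ℕ) + (j : ℕ) := by omega
        have h2 : m - (i : ℕ) + (j : ℕ) < 2 * m := by omega
        rcases Nat.lt_or_ge q 2 with hq2 | hq2
        · interval_cases q <;> omega
        · have : m * 2 ≤ m * q := Nat.mul_le_mul_left m hq2
          omega
  rw [Finset.sum_congr rfl h2, Finset.sum_ite_eq' Finset.univ i]
  simp

end Eval

end KummerBasis

section Integral

variable {m : ℕ} {ε : F} {ζ : F'} (kb : KummerBasis m ε ζ) (O : Subalgebra A F)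

include kb

/-- `ζ` is integral over `O` if `ε ∈ O`. -/
theorem KummerBasis.isIntegral_zeta (hε : ε ∈ O) : IsIntegral O ζ := by
  refine ⟨Polynomial.X ^ m - Polynomial.C (⟨ε, hε⟩ : O), ?_, ?_⟩
  · exact Polynomial.monic_X_pow_sub_C _ kb.m_pos.ne'
  · rw [Polynomial.eval₂_sub, Polynomial.eval₂_pow, Polynomial.eval₂_X, Polynomial.eval₂_C,
      kb.pow_eq]
    exact sub_self _

omit kb [Nontrivial F'] in
/-- elements of `O` are integral over `O` (as elements of `F'`). -/
theorem isIntegral_algebraMap_of_mem' (O : Subalgebra A F) {a : F} (ha : a ∈ O) :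
    IsIntegral O (algebraMap F F' a) := by
  have : algebraMap F F' a = algebraMap O F' ⟨a, ha⟩ := rfl
  rw [this]
  exact isIntegral_algebraMap

/-- **Key lemma, easy direction.** -/
theorem KummerBasis.isIntegral_of_repr_mem (hε : ε ∈ O) {c : F'}
    (hc : ∀ i, kb.basis.repr c i ∈ O) : IsIntegral O c := by
  rw [kb.sum_repr c]
  refine IsIntegral.sum _ fun i _ => ?_
  exact (isIntegral_algebraMap_of_mem' O (hc i)).mul ((kb.isIntegral_zeta O hε).pow _)

/-- the evaluations of an integral element are integral. -/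
theorem KummerBasis.isIntegral_evalAt {Ω : Type*} [Field Ω] [Algebra F Ω]
    (y : Ω) (hy : y ^ m = algebraMap F Ω ε) {c : F'} (hc : IsIntegral O c) :
    IsIntegral O (kb.evalAt y hy c) := by
  obtain ⟨P, hP, hPc⟩ := hc
  refine ⟨P, hP, ?_⟩
  have h := congrArg (kb.evalAt y hy : F' →+* Ω) hPc
  rw [map_zero, Polynomial.hom_eval₂] at h
  have h2 : ((kb.evalAt y hy : F' →+* Ω).comp (algebraMap O F')) = algebraMap O Ω := by
    ext a
    exact (kb.evalAt y hy).commutes (a : F)
  rw [h2] at h
  exact h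

/-- **Key lemma, main direction**: the coordinates of an element integral over `O` lie in `O`,
if `O` is integrally closed in `F` and `ε`, `(m ε)⁻¹ ∈ O`. -/
theorem KummerBasis.repr_mem_of_isIntegral (hO : ∀ f : F, IsIntegral O f → f ∈ O)
    (hε : ε ∈ O) (hmε : ((m : F) * ε)⁻¹ ∈ O) (hmε0 : (m : F) * ε ≠ 0) {c : F'}
    (hc : IsIntegral O c) (i : Fin m) : kb.basis.repr c i ∈ O := by
  classical
  have hm0 : (m : F) ≠ 0 := left_ne_zero_of_mul hmε0
  have hε0 : ε ≠ 0 := right_ne_zero_of_mul hmε0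
  haveI : NeZero (m : F) := ⟨hm0⟩
  set Ω := AlgebraicClosure F with hΩ
  obtain ⟨ω, hω⟩ := HasEnoughRootsOfUnity.exists_primitiveRoot Ω m
  obtain ⟨r, hr⟩ := IsAlgClosed.exists_pow_nat_eq (algebraMap F Ω ε) kb.m_pos
  have hmO : (m : F) ∈ O := by
    have : (m : F) = algebraMap A F (m : A) := by simp
    rw [this]; exact O.algebraMap_mem _
  have hminv : ((m : F))⁻¹ ∈ O := by
    have : ((m : F))⁻¹ = ε * ((m : F) * ε)⁻¹ := by
      rw [mul_inv, mul_left_comm, mul_inv_cancel₀ hε0, mul_one]
    rw [this]; exact O.mul_mem hε hmε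
  have hεinv : ε⁻¹ ∈ O := by
    have : ε⁻¹ = (m : F) * ((m : F) * ε)⁻¹ := by
      rw [mul_inv, ← mul_assoc, mul_inv_cancel₀ hm0, one_mul]
    rw [this]; exact O.mul_mem hmO hmε
  have hr0 : r ≠ 0 := by
    intro h
    rw [h, zero_pow kb.m_pos.ne'] at hr
    exact hε0 ((map_eq_zero (algebraMap F Ω)).1 hr.symm)
  have hωint : IsIntegral O ω := by
    refine IsIntegral.of_pow kb.m_pos ?_
    rw [hω.pow_eq_one]; exact isIntegral_one
  have hrinv : IsIntegral O r⁻¹ := by
    refine IsIntegral.of_pow kb.m_pos ?_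
    rw [inv_pow, hr, ← map_inv₀]
    exact isIntegral_algebraMap_of_mem' O hεinv
  have hsum := kb.sum_evalAt hω hr c i
  have hint : IsIntegral O ((m : Ω) * (algebraMap F Ω (kb.basis.repr c i) * r ^ (i : ℕ))) := by
    rw [← hsum]
    refine IsIntegral.sum _ fun k _ => ?_
    exact ((hωint.pow _).pow _).mul (kb.isIntegral_evalAt O _ _ hc)
  have hminvΩ : IsIntegral O (algebraMap F Ω ((m : F))⁻¹) := isIntegral_algebraMap_of_mem' O hminv
  have h3 : algebraMap F Ω (kb.basis.repr c i) =
      algebraMap F Ω ((m : F))⁻¹ *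
        ((m : Ω) * (algebraMap F Ω (kb.basis.repr c i) * r ^ (i : ℕ))) * r⁻¹ ^ (i : ℕ) := by
    have hmΩ : (m : Ω) ≠ 0 := by
      have : (m : Ω) = algebraMap F Ω (m : F) := by simp
      rw [this]; exact (_root_.map_ne_zero _).2 hm0
    have : algebraMap F Ω ((m : F))⁻¹ = ((m : Ω))⁻¹ := by rw [map_inv₀]; simp
    rw [this, inv_pow, ← mul_assoc, inv_mul_cancel₀ hmΩ, one_mul, mul_assoc,
      mul_inv_cancel₀ (pow_ne_zero _ hr0), mul_one]
  have h4 : IsIntegral O (algebraMap F Ω (kb.basis.repr c i)) := by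
    rw [h3]
    exact (hminvΩ.mul hint).mul (hrinv.pow _)
  exact hO _ ((isIntegral_algebraMap_iff (algebraMap F Ω).injective).1 h4)

/-- **Key lemma.** -/
theorem KummerBasis.isIntegral_iff (hO : ∀ f : F, IsIntegral O f → f ∈ O)
    (hε : ε ∈ O) (hmε : ((m : F) * ε)⁻¹ ∈ O) (hmε0 : (m : F) * ε ≠ 0) (c : F') :
    IsIntegral O c ↔ ∀ i, kb.basis.repr c i ∈ O :=
  ⟨fun hc i => kb.repr_mem_of_isIntegral O hO hε hmε hmε0 hc i,
    fun h => kb.isIntegral_of_repr_mem O hε h⟩

end Integral

end Fermat.Agent.A2.H348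

end
-- ===== PACK-END A2/H348/KummerCoord.lean

-- ===== PACK-BEGIN Lib/Newform/H623/Cosets.lean
section


/-!
# NEWFORM lib (helper623), part 1: explicit cosets of `Γ₀(N)` in `Γ₀(M)` and trace formulas

For `M ∣ N` we parametrise `Γ₀(M) / Γ₀(N)` (in Mathlib's `GL₂(ℝ)` form, as used by
`SlashInvariantForm.trace`, `ModularForm.trace`, `CuspForm.trace`) by explicit representatives:

* `N = M * p`, `p ∣ M`:   `[1, 0; M j, 1]`, `j < p`;
* `N = M * p`, `p` prime, `p ∤ M`, `p x - M y = 1`:  `1` and `[x, x j + y; M, M j + p]`, `j < p`.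

Main results: `coe_trace_eq_sum_lowRep` and `coe_trace_eq_sum_newRep` (for slash invariant forms,
modular forms and cusp forms).
-/

set_option autoImplicit false
set_option linter.unusedSectionVars false

namespace Fermat.Agent.Lib.Newform.H623

open UpperHalfPlane ModularForm Matrix.SpecialLinearGroup SlashInvariantForm CongruenceSubgroup
open scoped MatrixGroups ModularForm Manifold

/-! ### Generalities -/

theorem gamma0_mem_iff_dvd (N : ℕ) {g : SL(2, ℤ)} :
    g ∈ Gamma0 N ↔ (N : ℤ) ∣ g 1 0 := by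
  rw [Gamma0_mem, ZMod.intCast_zmod_eq_zero_iff_dvd]

theorem gamma0_le_of_dvd {M N : ℕ} (h : M ∣ N) : Gamma0 N ≤ Gamma0 M := by
  intro g hg
  rw [gamma0_mem_iff_dvd] at hg ⊢
  exact (Int.natCast_dvd_natCast.mpr h).trans hg

theorem gamma0GL_le_of_dvd {M N : ℕ} (h : M ∣ N) :
    (Gamma0 N : Subgroup (GL (Fin 2) ℝ)) ≤ (Gamma0 M : Subgroup (GL (Fin 2) ℝ)) :=
  Subgroup.map_mono (gamma0_le_of_dvd h)

theorem mem_gamma0GL_iff (N : ℕ) (g : SL(2, ℤ)) :
    mapGL ℝ g ∈ (Gamma0 N : Subgroup (GL (Fin 2) ℝ)) ↔ g ∈ Gamma0 N := by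
  constructor
  · rintro ⟨x, hx, hxe⟩
    have : x = g := mapGL_injective hxe
    rwa [← this]
  · intro h
    exact Subgroup.mem_map_of_mem _ h

theorem mul_inv_apply_one_zero (g h : SL(2, ℤ)) :
    (g * h⁻¹) 1 0 = g 1 0 * h 1 1 - g 1 1 * h 1 0 := by
  rw [Matrix.SpecialLinearGroup.coe_mul, Matrix.SpecialLinearGroup.coe_inv,
    Matrix.adjugate_fin_two, Matrix.mul_apply, Fin.sum_univ_two]
  simp
  ring

theorem sl_det_eq (g : SL(2, ℤ)) : g 0 0 * g 1 1 - g 0 1 * g 1 0 = 1 := by
  have h := g.det_coe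
  rwa [Matrix.det_fin_two] at h

/-- The instance needed for traces from level `N` to level `M`. -/
theorem isFiniteRelIndex_gamma0 (N M : ℕ) [NeZero N] :
    (Gamma0 N : Subgroup (GL (Fin 2) ℝ)).IsFiniteRelIndex
      (Gamma0 M : Subgroup (GL (Fin 2) ℝ)) := by
  have hle : (Gamma0 M : Subgroup (GL (Fin 2) ℝ)) ≤ 𝒮ℒ := by
    rintro _ ⟨g, -, rfl⟩
    exact ⟨g, rfl⟩
  exact Subgroup.isFiniteRelIndex_of_le_right _ hle

section general

variable (N M : ℕ)

/-- The coset space `Γ₀(M) / (Γ₀(N) ⊓ Γ₀(M))` (in Mathlib's `GL₂(ℝ)`-form). -/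
abbrev Cosets : Type :=
  (Gamma0 M : Subgroup (GL (Fin 2) ℝ)) ⧸
    ((Gamma0 N : Subgroup (GL (Fin 2) ℝ)).subgroupOf (Gamma0 M : Subgroup (GL (Fin 2) ℝ)))

/-- The coset `g⁻¹ Γ₀(N)`, on which `quotientFunc F` is `F ∣[k] g`. -/
noncomputable def cosetOf (g : Gamma0 M) : Cosets N M :=
  ((⟨mapGL ℝ (g : SL(2, ℤ))⁻¹, ⟨(g : SL(2, ℤ))⁻¹, inv_mem g.2, rfl⟩⟩ :
    (Gamma0 M : Subgroup (GL (Fin 2) ℝ))) : Cosets N M)

theorem quotientFunc_cosetOf {k : ℤ} {F : Type*} [FunLike F ℍ ℂ]
    [SlashInvariantFormClass F (Gamma0 N : Subgroup (GL (Fin 2) ℝ)) k] (f : F)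
    (g : Gamma0 M) :
    quotientFunc (ℋ := (Gamma0 M : Subgroup (GL (Fin 2) ℝ))) f (cosetOf N M g) =
      (⇑f : ℍ → ℂ) ∣[k] (mapGL ℝ (g : SL(2, ℤ))) := by
  rw [cosetOf]
  show quotientFunc f ⟦_⟧ = _
  rw [quotientFunc_mk]
  simp

theorem cosetOf_eq_iff (g g' : Gamma0 M) :
    cosetOf N M g = cosetOf N M g' ↔ (g : SL(2, ℤ)) * (g' : SL(2, ℤ))⁻¹ ∈ Gamma0 N := by
  rw [cosetOf, cosetOf, QuotientGroup.eq, Subgroup.mem_subgroupOf]
  simp only [Subgroup.coe_mul, Subgroup.coe_inv]
  rw [← map_inv, ← map_mul, inv_inv]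
  exact mem_gamma0GL_iff N _

theorem cosetOf_surjective : Function.Surjective (cosetOf N M) := by
  intro q
  induction q using Quotient.inductionOn with
  | h r =>
    obtain ⟨r, γ₀, hγ₀, rfl⟩ := r
    refine ⟨⟨γ₀⁻¹, inv_mem hγ₀⟩, ?_⟩
    rw [cosetOf]
    simp only [inv_inv]

/-- **Trace via representatives.**  If `r : ι → Γ₀(M)` is a system of representatives for
`Γ₀(N) \ Γ₀(M)`, then the sum of `quotientFunc f` over the coset space is `∑ i, f ∣[k] r i`. -/
theorem sum_quotientFunc_eq_sum_reps {ι : Type*} [Fintype ι] (r : ι → Gamma0 M)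
    (hinj : ∀ i j, (r i : SL(2, ℤ)) * (r j : SL(2, ℤ))⁻¹ ∈ Gamma0 N → i = j)
    (hsurj : ∀ g : Gamma0 M, ∃ i, (r i : SL(2, ℤ)) * (g : SL(2, ℤ))⁻¹ ∈ Gamma0 N)
    {k : ℤ} {F : Type*} [FunLike F ℍ ℂ]
    [SlashInvariantFormClass F (Gamma0 N : Subgroup (GL (Fin 2) ℝ)) k] (f : F)
    [Fintype (Cosets N M)] :
    ∑ q : Cosets N M, quotientFunc (ℋ := (Gamma0 M : Subgroup (GL (Fin 2) ℝ))) f q =
      ∑ i, (⇑f : ℍ → ℂ) ∣[k] (mapGL ℝ (r i : SL(2, ℤ))) := by
  have hbij : Function.Bijective (fun i => cosetOf N M (r i)) := by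
    constructor
    · intro i j hij
      exact hinj i j ((cosetOf_eq_iff N M _ _).mp hij)
    · intro q
      obtain ⟨g, rfl⟩ := cosetOf_surjective N M q
      obtain ⟨i, hi⟩ := hsurj g
      exact ⟨i, (cosetOf_eq_iff N M _ _).mpr hi⟩
  rw [← Equiv.sum_comp (Equiv.ofBijective _ hbij)]
  refine Finset.sum_congr rfl fun i _ => ?_
  show quotientFunc f (cosetOf N M (r i)) = _
  rw [quotientFunc_cosetOf]

end general

/-! ### Representatives when `p ∣ M`: `Γ₀(M p) \ Γ₀(M)` has representatives `[1, 0; M j, 1]` -/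

/-- The matrix `[1, 0; c, 1]`. -/
def lowerUni (c : ℤ) : SL(2, ℤ) :=
  ⟨!![1, 0; c, 1], by rw [Matrix.det_fin_two_of]; ring⟩

@[simp] theorem coe_lowerUni (c : ℤ) :
    ((lowerUni c : SL(2, ℤ)) : Matrix (Fin 2) (Fin 2) ℤ) = !![1, 0; c, 1] := rfl

theorem lowerUni_mem_gamma0 (M : ℕ) (j : ℤ) : lowerUni (M * j) ∈ Gamma0 M := by
  rw [gamma0_mem_iff_dvd]
  exact ⟨j, by simp⟩

/-- Representatives of `Γ₀(M p) \ Γ₀(M)` for `p ∣ M`. -/
def lowRep (M p : ℕ) (j : Fin p) : Gamma0 M :=
  ⟨lowerUni (M * (j : ℕ)), lowerUni_mem_gamma0 M _⟩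

@[simp] theorem coe_lowRep (M p : ℕ) (j : Fin p) :
    ((lowRep M p j : Gamma0 M) : SL(2, ℤ)) = lowerUni (M * (j : ℕ)) := rfl

theorem lowRep_inj (M p : ℕ) [NeZero M] (i j : Fin p)
    (h : (lowRep M p i : SL(2, ℤ)) * (lowRep M p j : SL(2, ℤ))⁻¹ ∈ Gamma0 (M * p)) : i = j := by
  rw [gamma0_mem_iff_dvd, mul_inv_apply_one_zero] at h
  simp only [coe_lowRep, coe_lowerUni, Matrix.of_apply, Matrix.cons_val', Matrix.cons_val_one,
    Matrix.cons_val_zero, Matrix.cons_val_fin_one] at h
  have hM : (M : ℤ) ≠ 0 := by exact_mod_cast NeZero.ne M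
  have h2 : (p : ℤ) ∣ (i : ℕ) - (j : ℕ) := by
    have h3 : (M : ℤ) * p ∣ M * ((i : ℕ) - (j : ℕ)) := by
      have : (M : ℤ) * (i : ℕ) * 1 - 1 * (M * (j : ℕ)) = M * ((i : ℕ) - (j : ℕ)) := by ring
      rw [← this]
      exact_mod_cast h
    exact (mul_dvd_mul_iff_left hM).mp h3
  apply Fin.ext
  have hi := i.2
  have hj := j.2
  obtain ⟨c, hc⟩ := h2
  have hc0 : c = 0 := by
    by_contra hne
    have h1 : 1 ≤ |c| := Int.one_le_abs hne
    have h4 : |((i : ℕ) : ℤ) - (j : ℕ)| = p * |c| := by
      rw [hc, abs_mul, abs_of_nonneg (Int.natCast_nonneg p)]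
    have h5 : |((i : ℕ) : ℤ) - (j : ℕ)| < p := by
      rw [abs_lt]; constructor <;> omega
    nlinarith [Int.natCast_nonneg p]
  rw [hc0, mul_zero] at hc
  omega

theorem lowRep_surj (M p : ℕ) [NeZero p] (hpM : p ∣ M) (g : Gamma0 M) :
    ∃ i, (lowRep M p i : SL(2, ℤ)) * (g : SL(2, ℤ))⁻¹ ∈ Gamma0 (M * p) := by
  obtain ⟨g, hg⟩ := g
  have hg' := (gamma0_mem_iff_dvd M).mp hg
  obtain ⟨c', hc'⟩ := hg'
  have hdet := sl_det_eq g
  -- `a d ≡ 1 mod p`
  have hpc : (p : ℤ) ∣ g 1 0 := by
    rw [hc']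
    exact (Int.natCast_dvd_natCast.mpr hpM).mul_right c'
  have had : ((g 0 0 : ℤ) : ZMod p) * ((g 1 1 : ℤ) : ZMod p) = 1 := by
    have h0 : ((g 1 0 : ℤ) : ZMod p) = 0 := (ZMod.intCast_zmod_eq_zero_iff_dvd _ _).mpr hpc
    have := congrArg (fun z : ℤ => (z : ZMod p)) hdet
    simp only [Int.cast_sub, Int.cast_mul, Int.cast_one, h0, mul_zero, sub_zero] at this
    exact this
  set j : ZMod p := (c' : ZMod p) * ((g 0 0 : ℤ) : ZMod p) with hj
  refine ⟨⟨j.val, ZMod.val_lt j⟩, ?_⟩
  rw [gamma0_mem_iff_dvd, mul_inv_apply_one_zero]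
  simp only [coe_lowRep, coe_lowerUni, Matrix.of_apply, Matrix.cons_val', Matrix.cons_val_one,
    Matrix.cons_val_zero, Matrix.cons_val_fin_one]
  have : (M : ℤ) * (j.val : ℕ) * g 1 1 - 1 * g 1 0 = M * ((j.val : ℤ) * g 1 1 - c') := by
    rw [hc']; ring
  rw [this]
  push_cast
  apply mul_dvd_mul_left
  rw [← ZMod.intCast_zmod_eq_zero_iff_dvd]
  push_cast
  rw [ZMod.natCast_zmod_val, hj, mul_assoc, had, mul_one, sub_self]

/-! ### Representatives when `p` is prime and `p ∤ M` -/

/-- The matrix `[x, x j + y; M, M j + p]` (of determinant `p x - M y = 1`). -/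
def newMat (M p : ℕ) (x y : ℤ) (hxy : (p : ℤ) * x - M * y = 1) (j : ℤ) : SL(2, ℤ) :=
  ⟨!![x, x * j + y; (M : ℤ), M * j + p], by rw [Matrix.det_fin_two_of]; linear_combination hxy⟩

@[simp] theorem coe_newMat (M p : ℕ) (x y : ℤ) (hxy : (p : ℤ) * x - M * y = 1) (j : ℤ) :
    ((newMat M p x y hxy j : SL(2, ℤ)) : Matrix (Fin 2) (Fin 2) ℤ) =
      !![x, x * j + y; (M : ℤ), M * j + p] := rfl

theorem newMat_mem_gamma0 (M p : ℕ) (x y : ℤ) (hxy : (p : ℤ) * x - M * y = 1) (j : ℤ) :
    newMat M p x y hxy j ∈ Gamma0 M := by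
  rw [gamma0_mem_iff_dvd]
  exact ⟨1, by simp⟩

/-- Representatives of `Γ₀(M p) \ Γ₀(M)` for `p ∤ M` prime: `1` and `newMat j`, `j < p`. -/
def newRep (M p : ℕ) (x y : ℤ) (hxy : (p : ℤ) * x - M * y = 1) : Option (Fin p) → Gamma0 M
  | none => 1
  | some j => ⟨newMat M p x y hxy (j : ℕ), newMat_mem_gamma0 M p x y hxy _⟩

theorem newRep_inj (M p : ℕ) [hp : Fact p.Prime] (hpM : ¬ p ∣ M)
    (x y : ℤ) (hxy : (p : ℤ) * x - M * y = 1) (i j : Option (Fin p))
    (h : (newRep M p x y hxy i : SL(2, ℤ)) * (newRep M p x y hxy j : SL(2, ℤ))⁻¹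
      ∈ Gamma0 (M * p)) : i = j := by
  rw [gamma0_mem_iff_dvd, mul_inv_apply_one_zero] at h
  have hM0 : M ≠ 0 := fun h0 => hpM (h0 ▸ dvd_zero p)
  have hM : (M : ℤ) ≠ 0 := by exact_mod_cast hM0
  have hpM' : ¬ (p : ℤ) ∣ M := fun h => hpM (Int.natCast_dvd_natCast.mp h)
  have hpp : Prime (p : ℤ) := Nat.prime_iff_prime_int.mp hp.out
  have key : ∀ z : ℤ, ((M * p : ℕ) : ℤ) ∣ M * z → (p : ℤ) ∣ z := by
    intro z hz
    push_cast at hz
    exact (mul_dvd_mul_iff_left hM).mp hz
  rcases i with _ | i <;> rcases j with _ | j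
  · rfl
  · exfalso
    simp only [newRep, OneMemClass.coe_one, Matrix.SpecialLinearGroup.coe_one, coe_newMat,
      Matrix.of_apply, Matrix.cons_val', Matrix.cons_val_one, Matrix.cons_val_zero,
      Matrix.cons_val_fin_one, Matrix.one_apply_ne, Matrix.one_apply_eq, ne_eq, one_ne_zero,
      not_false_eq_true, zero_mul, one_mul, zero_sub] at h
    have := key (-1) (by simpa using h)
    exact hpp.not_isUnit (isUnit_of_dvd_unit this (by simp))
  · exfalso
    simp only [newRep, OneMemClass.coe_one, Matrix.SpecialLinearGroup.coe_one, coe_newMat,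
      Matrix.of_apply, Matrix.cons_val', Matrix.cons_val_one, Matrix.cons_val_zero,
      Matrix.cons_val_fin_one, Matrix.one_apply_ne, Matrix.one_apply_eq, ne_eq, one_ne_zero,
      not_false_eq_true, mul_zero, mul_one, sub_zero] at h
    have := key 1 (by simpa using h)
    exact hpp.not_isUnit (isUnit_of_dvd_unit this (by simp))
  · simp only [newRep, coe_newMat, Matrix.of_apply, Matrix.cons_val', Matrix.cons_val_one,
      Matrix.cons_val_zero, Matrix.cons_val_fin_one] at h
    have h1 : (M : ℤ) * (M * (j : ℕ) + p) - (M * (i : ℕ) + p) * M =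
        M * (M * ((j : ℕ) - (i : ℕ))) := by ring
    rw [h1] at h
    have h2 := key _ h
    have h3 : (p : ℤ) ∣ (j : ℕ) - (i : ℕ) := (hpp.dvd_or_dvd h2).resolve_left hpM'
    congr 1
    apply Fin.ext
    have hi := i.2
    have hj := j.2
    obtain ⟨c, hc⟩ := h3
    have hc0 : c = 0 := by
      by_contra hne
      have h1 : 1 ≤ |c| := Int.one_le_abs hne
      have h4 : |((j : ℕ) : ℤ) - (i : ℕ)| = p * |c| := by
        rw [hc, abs_mul, abs_of_nonneg (Int.natCast_nonneg p)]
      have h5 : |((j : ℕ) : ℤ) - (i : ℕ)| < p := by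
        rw [abs_lt]; constructor <;> omega
      nlinarith [Int.natCast_nonneg p]
    rw [hc0, mul_zero] at hc
    omega

theorem newRep_surj (M p : ℕ) [hp : Fact p.Prime] (hpM : ¬ p ∣ M)
    (x y : ℤ) (hxy : (p : ℤ) * x - M * y = 1) (g : Gamma0 M) :
    ∃ i, (newRep M p x y hxy i : SL(2, ℤ)) * (g : SL(2, ℤ))⁻¹ ∈ Gamma0 (M * p) := by
  obtain ⟨g, hg⟩ := g
  have hg' := (gamma0_mem_iff_dvd M).mp hg
  obtain ⟨c', hc'⟩ := hg'
  have : NeZero p := ⟨hp.out.ne_zero⟩
  by_cases hc : (p : ℤ) ∣ c'
  · refine ⟨none, ?_⟩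
    rw [gamma0_mem_iff_dvd, mul_inv_apply_one_zero]
    simp only [newRep, OneMemClass.coe_one, Matrix.SpecialLinearGroup.coe_one,
      Matrix.one_apply_ne, Matrix.one_apply_eq, ne_eq, one_ne_zero,
      not_false_eq_true, zero_mul, one_mul, zero_sub]
    rw [hc', dvd_neg]
    push_cast
    exact mul_dvd_mul_left _ hc
  · have hcz : (c' : ZMod p) ≠ 0 := by
      rwa [Ne, ZMod.intCast_zmod_eq_zero_iff_dvd]
    have hMz : ((M : ℤ) : ZMod p) ≠ 0 := by
      rw [Ne, ZMod.intCast_zmod_eq_zero_iff_dvd]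
      exact fun h => hpM (Int.natCast_dvd_natCast.mp h)
    set j : ZMod p := ((g 1 1 : ℤ) : ZMod p) * (((M : ℤ) : ZMod p) * (c' : ZMod p))⁻¹ with hj
    refine ⟨some ⟨j.val, ZMod.val_lt j⟩, ?_⟩
    rw [gamma0_mem_iff_dvd, mul_inv_apply_one_zero]
    simp only [newRep, coe_newMat, Matrix.of_apply, Matrix.cons_val', Matrix.cons_val_one,
      Matrix.cons_val_zero, Matrix.cons_val_fin_one]
    have h1 : (M : ℤ) * g 1 1 - (M * (j.val : ℕ) + p) * g 1 0 =
        M * (g 1 1 - (M * (j.val : ℕ) + p) * c') := by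
      rw [hc']; ring
    rw [h1]
    push_cast
    apply mul_dvd_mul_left
    rw [← ZMod.intCast_zmod_eq_zero_iff_dvd]
    push_cast
    rw [ZMod.natCast_zmod_val, ZMod.natCast_self, add_zero, hj]
    have hMc : ((M : ℤ) : ZMod p) * (c' : ZMod p) ≠ 0 := mul_ne_zero hMz hcz
    have : ((M : ℤ) : ZMod p) * (((g 1 1 : ℤ) : ZMod p) * (((M : ℤ) : ZMod p) * (c' : ZMod p))⁻¹)
        * (c' : ZMod p) = ((g 1 1 : ℤ) : ZMod p) := by
      field_simp
    simp only [Int.cast_natCast] at this ⊢
    rw [this, sub_self]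

/-! ### The trace formulas -/

section traceLow

variable (M p : ℕ) [NeZero M] [NeZero p] (hpM : p ∣ M) {k : ℤ}
  [hfin : (Gamma0 (M * p) : Subgroup (GL (Fin 2) ℝ)).IsFiniteRelIndex
    (Gamma0 M : Subgroup (GL (Fin 2) ℝ))]

include hpM

/-- **Trace formula, `p ∣ M`** (slash invariant forms):
`Tr^{Mp}_M f = ∑_{j<p} f ∣[k] [1, 0; M j, 1]`. -/
theorem SIF_coe_trace_eq_sum_lowRep {F : Type*} [FunLike F ℍ ℂ]
    [SlashInvariantFormClass F (Gamma0 (M * p) : Subgroup (GL (Fin 2) ℝ)) k] (f : F) :
    (⇑(SlashInvariantForm.trace (Gamma0 M : Subgroup (GL (Fin 2) ℝ)) f) : ℍ → ℂ) =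
      ∑ j ∈ Finset.range p, (⇑f : ℍ → ℂ) ∣[k] (mapGL ℝ (lowerUni (M * (j : ℕ)))) := by
  let _ : Fintype (Cosets (M * p) M) := Fintype.ofFinite _
  rw [SlashInvariantForm.coe_trace]
  rw [sum_quotientFunc_eq_sum_reps (M * p) M (lowRep M p) (lowRep_inj M p)
    (lowRep_surj M p hpM) f]
  rw [← Fin.sum_univ_eq_sum_range
    (fun j => (⇑f : ℍ → ℂ) ∣[k] (mapGL ℝ (lowerUni (M * (j : ℕ)))))]
  rfl

theorem MF_coe_trace_eq_sum_lowRep {F : Type*} [FunLike F ℍ ℂ]
    [ModularFormClass F (Gamma0 (M * p) : Subgroup (GL (Fin 2) ℝ)) k] (f : F) :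
    (⇑(ModularForm.trace (Gamma0 M : Subgroup (GL (Fin 2) ℝ)) f) : ℍ → ℂ) =
      ∑ j ∈ Finset.range p, (⇑f : ℍ → ℂ) ∣[k] (mapGL ℝ (lowerUni (M * (j : ℕ)))) :=
  SIF_coe_trace_eq_sum_lowRep M p hpM f

theorem CF_coe_trace_eq_sum_lowRep {F : Type*} [FunLike F ℍ ℂ]
    [CuspFormClass F (Gamma0 (M * p) : Subgroup (GL (Fin 2) ℝ)) k] (f : F) :
    (⇑(CuspForm.trace (Gamma0 M : Subgroup (GL (Fin 2) ℝ)) f) : ℍ → ℂ) =
      ∑ j ∈ Finset.range p, (⇑f : ℍ → ℂ) ∣[k] (mapGL ℝ (lowerUni (M * (j : ℕ)))) :=
  SIF_coe_trace_eq_sum_lowRep M p hpM f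

end traceLow

section traceNew

variable (M p : ℕ) [hp : Fact p.Prime] (hpM : ¬ p ∣ M) (x y : ℤ)
  (hxy : (p : ℤ) * x - M * y = 1) {k : ℤ}
  [hfin : (Gamma0 (M * p) : Subgroup (GL (Fin 2) ℝ)).IsFiniteRelIndex
    (Gamma0 M : Subgroup (GL (Fin 2) ℝ))]

include hpM

/-- **Trace formula, `p ∤ M` prime** (slash invariant forms):
`Tr^{Mp}_M f = f + ∑_{j<p} f ∣[k] [x, x j + y; M, M j + p]`. -/
theorem SIF_coe_trace_eq_sum_newRep {F : Type*} [FunLike F ℍ ℂ]
    [SlashInvariantFormClass F (Gamma0 (M * p) : Subgroup (GL (Fin 2) ℝ)) k] (f : F) :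
    (⇑(SlashInvariantForm.trace (Gamma0 M : Subgroup (GL (Fin 2) ℝ)) f) : ℍ → ℂ) =
      ⇑f + ∑ j ∈ Finset.range p,
        (⇑f : ℍ → ℂ) ∣[k] (mapGL ℝ (newMat M p x y hxy (j : ℕ))) := by
  let _ : Fintype (Cosets (M * p) M) := Fintype.ofFinite _
  rw [SlashInvariantForm.coe_trace]
  rw [sum_quotientFunc_eq_sum_reps (M * p) M (newRep M p x y hxy)
    (newRep_inj M p hpM x y hxy) (newRep_surj M p hpM x y hxy) f]
  rw [Fintype.sum_option]
  congr 1
  · show (⇑f : ℍ → ℂ) ∣[k] (mapGL ℝ (1 : SL(2, ℤ))) = _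
    simp
  · rw [← Fin.sum_univ_eq_sum_range
      (fun j => (⇑f : ℍ → ℂ) ∣[k] (mapGL ℝ (newMat M p x y hxy (j : ℕ))))]
    rfl

theorem MF_coe_trace_eq_sum_newRep {F : Type*} [FunLike F ℍ ℂ]
    [ModularFormClass F (Gamma0 (M * p) : Subgroup (GL (Fin 2) ℝ)) k] (f : F) :
    (⇑(ModularForm.trace (Gamma0 M : Subgroup (GL (Fin 2) ℝ)) f) : ℍ → ℂ) =
      ⇑f + ∑ j ∈ Finset.range p,
        (⇑f : ℍ → ℂ) ∣[k] (mapGL ℝ (newMat M p x y hxy (j : ℕ))) :=
  SIF_coe_trace_eq_sum_newRep M p hpM x y hxy f

theorem CF_coe_trace_eq_sum_newRep {F : Type*} [FunLike F ℍ ℂ]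
    [CuspFormClass F (Gamma0 (M * p) : Subgroup (GL (Fin 2) ℝ)) k] (f : F) :
    (⇑(CuspForm.trace (Gamma0 M : Subgroup (GL (Fin 2) ℝ)) f) : ℍ → ℂ) =
      ⇑f + ∑ j ∈ Finset.range p,
        (⇑f : ℍ → ℂ) ∣[k] (mapGL ℝ (newMat M p x y hxy (j : ℕ))) :=
  SIF_coe_trace_eq_sum_newRep M p hpM x y hxy f

end traceNew

end Fermat.Agent.Lib.Newform.H623

end
-- ===== PACK-END Lib/Newform/H623/Cosets.lean

-- ===== PACK-BEGIN Lib/Newform/H743/Periodic.lean
section





/-!
# NEWFORM library (helper743), part 1: vanishing of `q`-expansion coefficients vs. periodicity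

* `periodic_of_coeff_eq_zero` : if `a_n(F) = 0` for all `n` not divisible by `q`, then `F` has
  period `1/q`.
* `coeff_eq_zero_of_periodic` : conversely, if `F` has period `1/q`, then `a_n(F) = 0` unless
  `q ∣ n`.
-/

set_option autoImplicit false

open UpperHalfPlane ModularForm Function Complex
open scoped MatrixGroups ModularForm Manifold Topology Real

namespace Fermat.Agent.Lib.Newform.H743

noncomputable section

/-- `𝕢 1 (w + 1/q) ^ n = 𝕢 1 w ^ n` when `q ∣ n`. -/
lemma qParam_add_inv_pow {q : ℕ} (hq : q ≠ 0) (w : ℂ) {n : ℕ} (hn : q ∣ n) :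
    Function.Periodic.qParam 1 (w + ((1 / q : ℝ) : ℂ)) ^ n = Function.Periodic.qParam 1 w ^ n := by
  obtain ⟨m, rfl⟩ := hn
  have hq' : (q : ℂ) ≠ 0 := by exact_mod_cast hq
  simp only [Function.Periodic.qParam, ← Complex.exp_nat_mul]
  rw [show ((q * m : ℕ) : ℂ) * (2 * π * Complex.I * (w + ((1 / q : ℝ) : ℂ)) / ((1 : ℝ) : ℂ)) =
      ((q * m : ℕ) : ℂ) * (2 * π * Complex.I * w / ((1 : ℝ) : ℂ)) +
        (m : ℂ) * (2 * π * Complex.I) by
    push_cast
    field_simp]
  rw [Complex.exp_add, Complex.exp_nat_mul_two_pi_mul_I, mul_one]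

/-- If all `q`-expansion coefficients of index not divisible by `q` vanish, then the function has
period `1/q`. -/
theorem periodic_of_coeff_eq_zero {F : ℍ → ℂ} (hper : Periodic (F ∘ ofComplex) (1 : ℝ))
    (hhol : MDiff F) (hbdd : IsBoundedAtImInfty F) {q : ℕ} (hq : q ≠ 0)
    (h0 : ∀ n : ℕ, ¬ q ∣ n → (qExpansion 1 F).coeff n = 0) :
    Periodic (F ∘ ofComplex) ((1 / q : ℝ) : ℝ) := by
  intro w
  by_cases! hw : 0 < im w
  · have hw' : 0 < im (w + ((1 / q : ℝ) : ℂ)) := by simpa using hw
    simp only [comp_apply, ofComplex_apply_of_im_pos hw', ofComplex_apply_of_im_pos hw]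
    have h1 := hasSum_qExpansion one_pos hper hhol hbdd ⟨w + ((1 / q : ℝ) : ℂ), hw'⟩
    have h2 := hasSum_qExpansion one_pos hper hhol hbdd ⟨w, hw⟩
    refine h1.unique ?_
    convert h2 using 2 with n
    by_cases hn : q ∣ n
    · rw [UpperHalfPlane.coe_mk, UpperHalfPlane.coe_mk, qParam_add_inv_pow hq w hn]
    · rw [h0 n hn, zero_smul, zero_smul]
  · have : im (w + ((1 / q : ℝ) : ℂ)) ≤ 0 := by simpa using hw
    rw [comp_apply, comp_apply, ofComplex_apply_of_im_nonpos this,
      ofComplex_apply_of_im_nonpos hw]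

/-- If the function has period `1/q`, then all `q`-expansion coefficients of index not divisible by
`q` vanish. -/
theorem coeff_eq_zero_of_periodic {F : ℍ → ℂ} {q : ℕ} (hq : q ≠ 0)
    (hper : Periodic (F ∘ ofComplex) ((1 / q : ℝ) : ℝ))
    (hhol : MDiff F) (hbdd : IsBoundedAtImInfty F) {n : ℕ} (hn : ¬ q ∣ n) :
    (qExpansion 1 F).coeff n = 0 := by
  have hq' : (0 : ℝ) < 1 / q := by
    have : (0 : ℝ) < q := by exact_mod_cast Nat.pos_of_ne_zero hq
    positivity
  have h := UpperHalfPlane.qExpansion_coeff_nat_mul hq' hper hhol hbdd (Nat.pos_of_ne_zero hq) n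
  have e : ((q : ℝ) * (1 / q : ℝ)) = 1 := by
    have : (q : ℝ) ≠ 0 := by exact_mod_cast hq
    field_simp
  rw [e, if_neg hn] at h
  exact h

/-- Pointwise form of periodicity. -/
lemma apply_vadd_of_periodic {F : ℍ → ℂ} {h : ℝ} (hper : Periodic (F ∘ ofComplex) h) (τ : ℍ) :
    F (h +ᵥ τ) = F τ := by
  have := hper (τ : ℂ)
  simp only [comp_apply, ofComplex_apply] at this
  rw [← this]
  congr 1
  have h2 : 0 < im ((τ : ℂ) + (h : ℂ)) := by simpa using τ.im_pos
  rw [ofComplex_apply_of_im_pos h2]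
  ext
  simp [add_comm]

end

end Fermat.Agent.Lib.Newform.H743

end
-- ===== PACK-END Lib/Newform/H743/Periodic.lean

-- ===== PACK-BEGIN Lib/Newform/H683/LinAlg.lean
section
/-
NEWFORM library (helper683) — linear algebra: a commuting family of endomorphisms of a
finite-dimensional complex vector space has a common eigenvector in every nonzero stable subspace.
-/


set_option autoImplicit false

namespace Fermat.Agent.Lib.Newform.H683

open Module

/-- A commuting family of endomorphisms of a finite-dimensional vector space over an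
algebraically closed field has a common eigenvector in every nonzero stable subspace. -/
theorem exists_common_eigenvector {K V : Type*} [Field K] [IsAlgClosed K] [AddCommGroup V]
    [Module K V] [FiniteDimensional K V] {ι : Type*} (T : ι → Module.End K V)
    (hcomm : ∀ i j, Commute (T i) (T j)) :
    ∀ (E : Submodule K V), E ≠ ⊥ → (∀ i, ∀ v ∈ E, T i v ∈ E) →
      ∃ v ∈ E, v ≠ 0 ∧ ∀ i, ∃ c : K, T i v = c • v := by
  intro E
  induction h : finrank K E using Nat.strong_induction_on generalizing E with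
  | _ d ih =>
    intro hE hstab
    by_cases hsc : ∀ i, ∃ c : K, ∀ v ∈ E, T i v = c • v
    · obtain ⟨v, hv, hv0⟩ := Submodule.exists_mem_ne_zero_of_ne_bot hE
      exact ⟨v, hv, hv0, fun i => (hsc i).elim fun c hc => ⟨c, hc v hv⟩⟩
    · push Not at hsc
      obtain ⟨i, hi⟩ := hsc
      -- an eigenvalue of `T i` on `E`
      have hmaps : ∀ v ∈ E, T i v ∈ E := hstab i
      let Ti : Module.End K E := (T i).restrict hmaps
      haveI : Nontrivial E := Submodule.nontrivial_iff_ne_bot.mpr hE
      obtain ⟨c, hc⟩ := Module.End.exists_eigenvalue Ti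
      obtain ⟨w, hw⟩ := hc.exists_hasEigenvector
      -- the eigenspace inside `E`
      let E' : Submodule K V := E ⊓ LinearMap.ker (T i - c • (1 : Module.End K V))
      have hE'le : E' ≤ E := inf_le_left
      have hwE' : (w : V) ∈ E' := by
        refine ⟨w.2, ?_⟩
        have h1 : Ti w = c • w := hw.apply_eq_smul
        have h2 : T i (w : V) = c • (w : V) := by
          have := congrArg (fun x : E => (x : V)) h1
          simpa [Ti] using this
        simp [LinearMap.mem_ker, h2]
      have hw0 : (w : V) ≠ 0 := fun h0 => hw.2 (Subtype.ext h0)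
      have hE'ne : E' ≠ ⊥ := fun hbot => hw0 (by
        have : (w : V) ∈ (⊥ : Submodule K V) := hbot ▸ hwE'
        simpa using this)
      have hE'stab : ∀ j, ∀ v ∈ E', T j v ∈ E' := by
        intro j v hv
        refine ⟨hstab j v hv.1, ?_⟩
        have hv2 : T i v = c • v := by
          have := hv.2
          simpa [LinearMap.mem_ker, sub_eq_zero] using this
        have hcm : T i (T j v) = T j (T i v) := by
          have := congrArg (fun f : Module.End K V => f v) (hcomm i j).eq
          simpa using this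
        simp [LinearMap.mem_ker, hcm, hv2]
      have hlt : finrank K E' < finrank K E := by
        apply Submodule.finrank_lt_finrank_of_lt
        refine lt_of_le_of_ne hE'le ?_
        intro heq
        obtain ⟨v, hvE, hv⟩ := hi c
        apply hv
        have hv' : v ∈ E' := heq ▸ hvE
        have := hv'.2
        simpa [LinearMap.mem_ker, sub_eq_zero] using this
      obtain ⟨v, hv, hv0, hveig⟩ := ih (finrank K E') (h ▸ hlt) E' rfl hE'ne hE'stab
      exact ⟨v, hE'le hv, hv0, hveig⟩

end Fermat.Agent.Lib.Newform.H683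

end
-- ===== PACK-END Lib/Newform/H683/LinAlg.lean

-- ===== PACK-BEGIN S35/H558/FixCore.lean
section


/-!
# S35 / FROB — leaf FIX, abstract core (helper558), Mathlib only

*Nodes are fixed by the square of a Frobenius lift.*

Setting: two ring homomorphisms `α β : A →+* B` (the two degeneracy maps between the charts of
levels `M` and `Mq`), two ideals `P₁ P₂` of `B` (the two components of the special fibre), a ring
endomorphism `ψ` of `A` (the action of `σ⁻¹` on coefficients, `σ` a Frobenius lift) with the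
PRECISE semilinear Kronecker congruences

    β a ≡ (α (ψ a)) ^ q  mod P₁,        α a ≡ (β (ψ a)) ^ q  mod P₂,

ring endomorphisms `Φ` of `B` and `Φ₀` of `A` (the action of `σ²`) with `Φ ∘ α = α ∘ Φ₀`,
`ψ ∘ ψ ∘ Φ₀ = id`, `Φ P₁ ⊆ P₁`, and `B = α A + P₁` (the first component is parametrised by `α`).

Then for every ideal `n ⊇ P₁ + P₂` (a NODE):

* `frob_sq_sub_pow_mem`  : `Φ b - b ^ (q ^ 2) ∈ n` for every `b : B`
                           (`Φ` induces the `q²`-Frobenius on `B / n`);
* `frob_sq_mem`          : `b ∈ n → Φ b ∈ n`   (`Φ n ⊆ n`: the node is fixed);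
* `frob_sq_mem_iff`      : `Φ b ∈ n ↔ b ∈ n` for prime `n`.

No noetherian hypothesis, no normality, nothing about valuations.
-/

set_option autoImplicit false

namespace Fermat.Agent.S35.H558

variable {A B : Type*} [CommRing A] [CommRing B]

/-- `x - y ∈ n` implies `x ^ k - y ^ k ∈ n` (`x - y ∣ x ^ k - y ^ k`). -/
theorem pow_sub_pow_mem_fix {n : Ideal B} {x y : B} (h : x - y ∈ n) (k : ℕ) :
    x ^ k - y ^ k ∈ n := by
  obtain ⟨c, hc⟩ := sub_dvd_pow_sub_pow x y k
  rw [hc]
  exact n.mul_mem_right c h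

section Core

variable {q : ℕ} {α β : A →+* B} {P₁ P₂ n : Ideal B} {ψ Φ₀ : A →+* A} {Φ : B →+* B}

/-- **Two Kronecker steps at a node**: `α a ≡ (α (ψ (ψ a))) ^ (q ^ 2)` modulo `n ⊇ P₁ + P₂`. -/
theorem alpha_sub_pow_sq_mem (hP₁ : P₁ ≤ n) (hP₂ : P₂ ≤ n)
    (hK₁ : ∀ a : A, β a - (α (ψ a)) ^ q ∈ P₁) (hK₂ : ∀ a : A, α a - (β (ψ a)) ^ q ∈ P₂)
    (a : A) : α a - (α (ψ (ψ a))) ^ (q ^ 2) ∈ n := by
  have h1 : α a - (β (ψ a)) ^ q ∈ n := hP₂ (hK₂ a)
  have h2 : β (ψ a) - (α (ψ (ψ a))) ^ q ∈ n := hP₁ (hK₁ (ψ a))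
  have h3 : (β (ψ a)) ^ q - ((α (ψ (ψ a))) ^ q) ^ q ∈ n := pow_sub_pow_mem_fix h2 q
  have h4 : α a - (α (ψ (ψ a))) ^ (q ^ 2) =
      (α a - (β (ψ a)) ^ q) + ((β (ψ a)) ^ q - ((α (ψ (ψ a))) ^ q) ^ q) := by
    rw [pow_two, pow_mul]
    ring
  rw [h4]
  exact n.add_mem h1 h3

/-- **FIX, core.**  `Φ` (the square of a Frobenius lift) induces the `q²`-power map on `B / n`
for every ideal `n ⊇ P₁ + P₂` (the characteristic plays no role here). -/
theorem frob_sq_sub_pow_mem (hP₁ : P₁ ≤ n) (hP₂ : P₂ ≤ n)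
    (hK₁ : ∀ a : A, β a - (α (ψ a)) ^ q ∈ P₁) (hK₂ : ∀ a : A, α a - (β (ψ a)) ^ q ∈ P₂)
    (hΦα : ∀ a : A, Φ (α a) = α (Φ₀ a)) (hψΦ : ∀ a : A, ψ (ψ (Φ₀ a)) = a)
    (hΦP : ∀ p ∈ P₁, Φ p ∈ P₁) (hsurj : ∀ b : B, ∃ a : A, b - α a ∈ P₁) (b : B) :
    Φ b - b ^ (q ^ 2) ∈ n := by
  obtain ⟨a, ha⟩ := hsurj b
  -- `Φ b ≡ Φ (α a) = α (Φ₀ a) ≡ (α a) ^ (q²) ≡ b ^ (q²)`
  have h1 : Φ b - α (Φ₀ a) ∈ n := by
    have := hΦP _ ha
    rw [map_sub, hΦα] at this
    exact hP₁ this
  have h2 : α (Φ₀ a) - (α a) ^ (q ^ 2) ∈ n := by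
    have := alpha_sub_pow_sq_mem (q := q) hP₁ hP₂ hK₁ hK₂ (Φ₀ a)
    rwa [hψΦ] at this
  have h3 : b ^ (q ^ 2) - (α a) ^ (q ^ 2) ∈ n := by
    have hb : b - α a ∈ n := hP₁ ha
    exact pow_sub_pow_mem_fix hb (q ^ 2)
  have h4 : Φ b - b ^ (q ^ 2) =
      (Φ b - α (Φ₀ a)) + (α (Φ₀ a) - (α a) ^ (q ^ 2)) - (b ^ (q ^ 2) - (α a) ^ (q ^ 2)) := by ring
  rw [h4]
  exact n.sub_mem (n.add_mem h1 h2) h3

/-- **FIX.**  Every node `n ⊇ P₁ + P₂` is mapped into itself by `Φ`. -/
theorem frob_sq_mem (hq0 : 0 < q) (hP₁ : P₁ ≤ n) (hP₂ : P₂ ≤ n)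
    (hK₁ : ∀ a : A, β a - (α (ψ a)) ^ q ∈ P₁) (hK₂ : ∀ a : A, α a - (β (ψ a)) ^ q ∈ P₂)
    (hΦα : ∀ a : A, Φ (α a) = α (Φ₀ a)) (hψΦ : ∀ a : A, ψ (ψ (Φ₀ a)) = a)
    (hΦP : ∀ p ∈ P₁, Φ p ∈ P₁) (hsurj : ∀ b : B, ∃ a : A, b - α a ∈ P₁)
    {b : B} (hb : b ∈ n) : Φ b ∈ n := by
  have h1 := frob_sq_sub_pow_mem hP₁ hP₂ hK₁ hK₂ hΦα hψΦ hΦP hsurj b
  have h2 : b ^ (q ^ 2) ∈ n := n.pow_mem_of_mem hb _ (pow_pos hq0 2)
  have h3 : Φ b = (Φ b - b ^ (q ^ 2)) + b ^ (q ^ 2) := by ring
  rw [h3]
  exact n.add_mem h1 h2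

/-- **FIX, iff form** for a prime (e.g. maximal) node. -/
theorem frob_sq_mem_iff [n.IsPrime] (hP₁ : P₁ ≤ n) (hP₂ : P₂ ≤ n)
    (hK₁ : ∀ a : A, β a - (α (ψ a)) ^ q ∈ P₁) (hK₂ : ∀ a : A, α a - (β (ψ a)) ^ q ∈ P₂)
    (hΦα : ∀ a : A, Φ (α a) = α (Φ₀ a)) (hψΦ : ∀ a : A, ψ (ψ (Φ₀ a)) = a)
    (hΦP : ∀ p ∈ P₁, Φ p ∈ P₁) (hsurj : ∀ b : B, ∃ a : A, b - α a ∈ P₁) (b : B) :
    Φ b ∈ n ↔ b ∈ n := by
  refine ⟨fun h => ?_, fun h => ?_⟩
  swap
  · rcases Nat.eq_zero_or_pos q with h0 | hq0
    · -- `q = 0`: `b ^ (0 ^ 2) = 1`, so `Φ b - 1 ∈ n`; impossible for `b ∈ n` unless trivial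
      have h1 := frob_sq_sub_pow_mem hP₁ hP₂ hK₁ hK₂ hΦα hψΦ hΦP hsurj (0 : B)
      rw [h0] at h1
      simp at h1
      exact absurd ((Ideal.eq_top_iff_one n).mpr h1) (Ideal.IsPrime.ne_top inferInstance)
    · exact frob_sq_mem hq0 hP₁ hP₂ hK₁ hK₂ hΦα hψΦ hΦP hsurj h
  have h1 := frob_sq_sub_pow_mem hP₁ hP₂ hK₁ hK₂ hΦα hψΦ hΦP hsurj b
  have h2 : b ^ (q ^ 2) ∈ n := by
    have h3 : b ^ (q ^ 2) = Φ b - (Φ b - b ^ (q ^ 2)) := by ring
    rw [h3]
    exact n.sub_mem h h1
  exact Ideal.IsPrime.mem_of_pow_mem inferInstance _ h2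

/-- `Φ` maps `n` ONTO `n` when `Φ` is bijective: `Ideal.map`/`comap` form. -/
theorem frob_sq_comap_eq [n.IsPrime] (hP₁ : P₁ ≤ n) (hP₂ : P₂ ≤ n)
    (hK₁ : ∀ a : A, β a - (α (ψ a)) ^ q ∈ P₁) (hK₂ : ∀ a : A, α a - (β (ψ a)) ^ q ∈ P₂)
    (hΦα : ∀ a : A, Φ (α a) = α (Φ₀ a)) (hψΦ : ∀ a : A, ψ (ψ (Φ₀ a)) = a)
    (hΦP : ∀ p ∈ P₁, Φ p ∈ P₁) (hsurj : ∀ b : B, ∃ a : A, b - α a ∈ P₁) :
    n.comap Φ = n := by
  ext b
  rw [Ideal.mem_comap]
  exact frob_sq_mem_iff hP₁ hP₂ hK₁ hK₂ hΦα hψΦ hΦP hsurj b

end Core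

end Fermat.Agent.S35.H558

end
-- ===== PACK-END S35/H558/FixCore.lean

-- ===== PACK-BEGIN S25/H507/RegOpen.lean
section


/-!
# Regular locus of a rational function on an integral scheme

For an integral scheme `X` and `t` in its function field, `regOpen X t` is the open set of points
`P` such that `t` lies in the image of the stalk at `P`, and `regSection X t` is the unique
section over `regOpen X t` whose germ at the generic point is `t`.
-/

set_option autoImplicit false

universe u

open AlgebraicGeometry CategoryTheory TopologicalSpace Opposite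

namespace Fermat.Agent.S25.H507

variable (X : Scheme.{u}) [IsIntegral X]

/-- The set of points where the rational function `t` is regular. -/
def regSet (t : X.functionField) : Set X :=
  {P | t ∈ Set.range (algebraMap (X.presheaf.stalk P) X.functionField)}

lemma genericPoint_mem_of_mem {U : X.Opens} {P : X} (hP : P ∈ U) : genericPoint X ∈ U :=
  ((genericPoint_spec X).mem_open_set_iff U.isOpen).mpr ⟨P, trivial, hP⟩

lemma algebraMap_germ_eq_germ_genericPoint {U : X.Opens} {P : X} (hP : P ∈ U) (s : Γ(X, U)) :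
    algebraMap (X.presheaf.stalk P) X.functionField (X.presheaf.germ U P hP s) =
      X.presheaf.germ U (genericPoint X) (genericPoint_mem_of_mem X hP) s := by
  have : Nonempty U := ⟨⟨P, hP⟩⟩
  exact X.algebraMap_germ_eq_germToFunctionField hP s

lemma mem_regSet_iff (t : X.functionField) (P : X) :
    P ∈ regSet X t ↔ ∃ (U : X.Opens) (hP : P ∈ U) (s : Γ(X, U)),
      X.presheaf.germ U (genericPoint X) (genericPoint_mem_of_mem X hP) s = t := by
  constructor
  · rintro ⟨a, ha⟩
    obtain ⟨U, hP, s, rfl⟩ := X.presheaf.exists_germ_eq a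
    exact ⟨U, hP, s, by rw [← ha, algebraMap_germ_eq_germ_genericPoint]⟩
  · rintro ⟨U, hP, s, hs⟩
    exact ⟨X.presheaf.germ U P hP s, by rw [algebraMap_germ_eq_germ_genericPoint, hs]⟩

lemma isOpen_regSet (t : X.functionField) : IsOpen (regSet X t) := by
  rw [isOpen_iff_forall_mem_open]
  intro P hP
  obtain ⟨U, hPU, s, hs⟩ := (mem_regSet_iff X t P).mp hP
  refine ⟨U, fun Q hQ => (mem_regSet_iff X t Q).mpr ⟨U, hQ, s, hs⟩, U.isOpen, hPU⟩

/-- The open set of points where the rational function `t` is regular. -/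
def regOpen (t : X.functionField) : X.Opens := ⟨regSet X t, isOpen_regSet X t⟩

lemma mem_regOpen_iff (t : X.functionField) (P : X) :
    P ∈ regOpen X t ↔ t ∈ Set.range (algebraMap (X.presheaf.stalk P) X.functionField) :=
  Iff.rfl

lemma genericPoint_mem_regOpen (t : X.functionField) : genericPoint X ∈ regOpen X t := by
  rw [mem_regOpen_iff]
  refine ⟨t, ?_⟩
  simp [RingHom.algebraMap_toAlgebra]

/-- index type of local representatives of `t`. -/
def RegRep (t : X.functionField) : Type u :=
  {p : Σ U : X.Opens, Γ(X, U) // ∃ h : genericPoint X ∈ p.1, X.presheaf.germ p.1 (genericPoint X) h p.2 = t}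

lemma regOpen_eq_iSup (t : X.functionField) :
    regOpen X t = ⨆ i : RegRep X t, i.1.1 := by
  ext P
  simp only [SetLike.mem_coe, Opens.mem_iSup]
  rw [← SetLike.mem_coe]
  change P ∈ regSet X t ↔ _
  rw [mem_regSet_iff]
  constructor
  · rintro ⟨U, hP, s, hs⟩
    exact ⟨⟨⟨U, s⟩, ⟨_, hs⟩⟩, hP⟩
  · rintro ⟨⟨⟨U, s⟩, ⟨h, hs⟩⟩, hP⟩
    exact ⟨U, hP, s, hs⟩

theorem exists_regSection (t : X.functionField) :
    ∃ s : Γ(X, regOpen X t),
      X.presheaf.germ (regOpen X t) (genericPoint X) (genericPoint_mem_regOpen X t) s = t := by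
  have hle : ∀ i : RegRep X t, i.1.1 ≤ regOpen X t := fun i => by
    rw [regOpen_eq_iSup]; exact le_iSup (fun i : RegRep X t => i.1.1) i
  have hcompat : TopCat.Presheaf.IsCompatible X.sheaf.1 (fun i : RegRep X t => i.1.1)
      (fun i => i.1.2) := by
    intro i j
    obtain ⟨hi, hsi⟩ := i.2
    obtain ⟨hj, hsj⟩ := j.2
    have hij : genericPoint X ∈ i.1.1 ⊓ j.1.1 := ⟨hi, hj⟩
    apply germ_injective_of_isIntegral X (genericPoint X) hij
    erw [X.presheaf.germ_res_apply, X.presheaf.germ_res_apply]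
    rw [hsi, hsj]
  obtain ⟨s, hs, -⟩ := X.sheaf.existsUnique_gluing' (fun i : RegRep X t => i.1.1) (regOpen X t)
    (fun i => homOfLE (hle i)) (regOpen_eq_iSup X t).le (fun i => i.1.2) hcompat
  refine ⟨s, ?_⟩
  obtain ⟨U, hP, s', hs'⟩ := (mem_regSet_iff X t _).mp (genericPoint_mem_regOpen X t)
  have := hs ⟨⟨U, s'⟩, ⟨_, hs'⟩⟩
  refine Eq.trans ?_ hs'
  simp only at this
  rw [← this]
  erw [X.presheaf.germ_res_apply]

/-- The section over `regOpen X t` representing `t`. -/
noncomputable def regSection (t : X.functionField) : Γ(X, regOpen X t) :=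
  (exists_regSection X t).choose

lemma germ_genericPoint_regSection (t : X.functionField) :
    X.presheaf.germ (regOpen X t) (genericPoint X) (genericPoint_mem_regOpen X t)
      (regSection X t) = t :=
  (exists_regSection X t).choose_spec

lemma algebraMap_germ_regSection (t : X.functionField) {P : X} (hP : P ∈ regOpen X t) :
    algebraMap (X.presheaf.stalk P) X.functionField
      (X.presheaf.germ (regOpen X t) P hP (regSection X t)) = t := by
  rw [algebraMap_germ_eq_germ_genericPoint, germ_genericPoint_regSection]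

lemma algebraMap_stalk_injective (P : X) :
    Function.Injective (algebraMap (X.presheaf.stalk P) X.functionField) :=
  IsFractionRing.injective _ _

lemma regOpen_sup_regOpen_inv (t : X.functionField) (P : X)
    [ValuationRing (X.presheaf.stalk P)] :
    P ∈ regOpen X t ∨ P ∈ regOpen X t⁻¹ := by
  rcases ValuationRing.isInteger_or_isInteger (X.presheaf.stalk P) t with h | h
  · exact Or.inl h
  · exact Or.inr h

lemma mem_basicOpen_regSection_iff {t : X.functionField} (ht : t ≠ 0) (P : X) :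
    P ∈ X.basicOpen (regSection X t) ↔ P ∈ regOpen X t ⊓ regOpen X t⁻¹ := by
  constructor
  · intro hP
    have hP0 : P ∈ regOpen X t := X.basicOpen_le _ hP
    refine ⟨hP0, ?_⟩
    rw [Scheme.mem_basicOpen X _ P hP0] at hP
    obtain ⟨u, hu⟩ := hP
    refine ⟨((u⁻¹ : (X.presheaf.stalk P)ˣ) : X.presheaf.stalk P), ?_⟩
    have h1 := algebraMap_germ_regSection X t hP0
    rw [← hu] at h1
    apply eq_inv_of_mul_eq_one_left
    rw [← h1, ← map_mul, Units.inv_mul, map_one]
  · rintro ⟨hP0, a, ha⟩
    rw [Scheme.mem_basicOpen X _ P hP0]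
    have h1 := algebraMap_germ_regSection X t hP0
    refine IsUnit.of_mul_eq_one a ?_
    apply algebraMap_stalk_injective X P
    rw [map_mul, map_one, h1, ha]
    exact mul_inv_cancel₀ ht

lemma basicOpen_regSection {t : X.functionField} (ht : t ≠ 0) :
    X.basicOpen (regSection X t) = regOpen X t ⊓ regOpen X t⁻¹ := by
  ext P
  exact mem_basicOpen_regSection_iff X ht P

lemma basicOpen_regSection_inv {t : X.functionField} (ht : t ≠ 0) :
    X.basicOpen (regSection X t⁻¹) = regOpen X t ⊓ regOpen X t⁻¹ := by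
  rw [basicOpen_regSection X (inv_ne_zero ht), inv_inv, inf_comm]

lemma regSection_mul_regSection_inv {t : X.functionField} (ht : t ≠ 0) :
    X.presheaf.map (homOfLE (inf_le_left : regOpen X t ⊓ regOpen X t⁻¹ ≤ regOpen X t)).op
        (regSection X t) *
      X.presheaf.map (homOfLE (inf_le_right : regOpen X t ⊓ regOpen X t⁻¹ ≤ regOpen X t⁻¹)).op
        (regSection X t⁻¹) = 1 := by
  have hg : genericPoint X ∈ regOpen X t ⊓ regOpen X t⁻¹ :=
    ⟨genericPoint_mem_regOpen X t, genericPoint_mem_regOpen X t⁻¹⟩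
  apply germ_injective_of_isIntegral X (genericPoint X) hg
  rw [map_mul, map_one]
  erw [X.presheaf.germ_res_apply, X.presheaf.germ_res_apply]
  rw [germ_genericPoint_regSection, germ_genericPoint_regSection]
  exact mul_inv_cancel₀ ht

section AffineLine

variable {k : Type u} [Field k] {Y : Scheme.{u}}

/-- The ring homomorphism `k[T] → Γ(Y, ⊤)` attached to a `k`-scheme and a global section. -/
noncomputable def lineRingHom (g : Y ⟶ Spec (CommRingCat.of k)) (x : Γ(Y, ⊤)) :
    Polynomial k →+* Γ(Y, ⊤) :=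
  Polynomial.eval₂RingHom ((Scheme.ΓSpecIso (CommRingCat.of k)).inv ≫ g.appTop).hom x

/-- The morphism to the affine line attached to a global section. -/
noncomputable def toLine (g : Y ⟶ Spec (CommRingCat.of k)) (x : Γ(Y, ⊤)) :
    Y ⟶ Spec (CommRingCat.of (Polynomial k)) :=
  Y.toSpecΓ ≫ Spec.map (CommRingCat.ofHom (lineRingHom g x))

/-- The structure morphism of the affine line. -/
noncomputable def lineStr (k : Type u) [Field k] :
    Spec (CommRingCat.of (Polynomial k)) ⟶ Spec (CommRingCat.of k) :=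
  Spec.map (CommRingCat.ofHom (Polynomial.C : k →+* Polynomial k))

lemma toLine_lineStr (g : Y ⟶ Spec (CommRingCat.of k)) (x : Γ(Y, ⊤)) :
    toLine g x ≫ lineStr k = g := by
  apply ext_to_Spec
  simp only [toLine, lineStr, Category.assoc, ← Spec.map_comp]
  simp only [Scheme.Γ_obj, Scheme.Γ_map, Quiver.Hom.unop_op, Scheme.Hom.comp_appTop,
    Scheme.toSpecΓ_appTop, Scheme.ΓSpecIso_naturality, Iso.inv_hom_id_assoc]
  ext a
  simp [lineRingHom]

/-- the coordinate function on the affine line -/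
noncomputable def lineCoord (k : Type u) [Field k] :
    Γ(Spec (CommRingCat.of (Polynomial k)), ⊤) :=
  (Scheme.ΓSpecIso (CommRingCat.of (Polynomial k))).inv (Polynomial.X : Polynomial k)

lemma toLine_appTop_lineCoord (g : Y ⟶ Spec (CommRingCat.of k)) (x : Γ(Y, ⊤)) :
    (toLine g x).appTop (lineCoord k) = x := by
  simp only [toLine, lineCoord, Scheme.Hom.comp_appTop, Scheme.toSpecΓ_appTop,
    Scheme.ΓSpecIso_naturality]
  simp [lineRingHom]

end AffineLine

end Fermat.Agent.S25.H507

end
-- ===== PACK-END S25/H507/RegOpen.lean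

-- ===== PACK-BEGIN S25/H505/InvertibleLocal.lean
section
/-
S25, block AFF (helper505): local-to-global criterion for `Module.Invertible`.  Mathlib only.
-/






open TensorProduct

namespace Fermat.Agent.S25.H505

variable {R : Type*} [CommRing R]

section

variable (A : Type*) [CommRing A] [Algebra R A] (S : Submonoid R) [IsLocalization S A]

/-- the contraction `Hom_R(A, A) ⊗_R A → A` -/
noncomputable def contractA : (A →ₗ[R] A) ⊗[R] A →ₗ[R] A :=
  TensorProduct.lift LinearMap.id

@[simp] theorem contractA_tmul (φ : A →ₗ[R] A) (a : A) : contractA (R := R) A (φ ⊗ₜ a) = φ a := rfl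

include S in
theorem contractA_bijective : Function.Bijective (contractA (R := R) A) := by
  have hcompat : CompatibleSMul R A (A →ₗ[R] A) A := IsLocalization.tensorProduct_compatibleSMul S A _ _
  have hlin : ∀ (φ : A →ₗ[R] A) (a : A), φ a = a * φ 1 := by
    intro φ a
    have := (LinearMap.extendScalarsOfIsLocalization S A φ).map_smul a 1
    simpa using this
  refine ⟨?_, fun a => ⟨LinearMap.id ⊗ₜ a, rfl⟩⟩
  have key : ∀ x : (A →ₗ[R] A) ⊗[R] A, x = LinearMap.id ⊗ₜ[R] (contractA (R := R) A x) := by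
    intro x
    induction x using TensorProduct.induction_on with
    | zero => simp
    | tmul φ a =>
      have h1 : φ = (φ 1) • (LinearMap.id : A →ₗ[R] A) := by
        ext b
        simp [hlin φ b, mul_comm]
      rw [contractA_tmul]
      conv_lhs => rw [h1]
      rw [TensorProduct.smul_tmul, smul_eq_mul, hlin φ a, mul_comm]
    | add x y hx hy =>
      rw [map_add, tmul_add, ← hx, ← hy]
  intro x y hxy
  rw [key x, key y, hxy]

end

/-- **Local-to-global criterion for invertibility**: if `s` spans the unit ideal and for every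
`r ∈ s` the localization of `N` away from `r` is (isomorphic to) `R_r`, then `N` is an invertible
`R`-module. -/
theorem invertible_of_localizationSpan {N : Type*} [AddCommGroup N] [Module R N] (s : Set R)
    (hs : Ideal.span s = ⊤)
    (h : ∀ r : s, ∃ f : N →ₗ[R] Localization.Away r.1, IsLocalizedModule (.powers r.1) f) :
    Module.Invertible R N := by
  choose f hf using h
  have fp : Module.FinitePresentation R N :=
    Module.FinitePresentation.of_localizationSpan' s hs
      (Rₚ := fun r => Localization.Away r.1) f (fun r => inferInstance)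
  refine ⟨bijective_of_isLocalized_span s hs
    (fun r => (Localization.Away r.1 →ₗ[R] Localization.Away r.1) ⊗[R] Localization.Away r.1)
    (fun r => TensorProduct.map
      (IsLocalizedModule.map (.powers r.1) (f r) (Algebra.linearMap R (Localization.Away r.1)))
      (f r))
    (fun r => Localization.Away r.1) (fun r => Algebra.linearMap R (Localization.Away r.1))
    (contractLeft R N) fun r => ?_⟩
  have : IsLocalizedModule.map (.powers r.1)
      (TensorProduct.map
        (IsLocalizedModule.map (.powers r.1) (f r) (Algebra.linearMap R (Localization.Away r.1)))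
        (f r))
      (Algebra.linearMap R (Localization.Away r.1)) (contractLeft R N) =
      contractA (R := R) (Localization.Away r.1) := by
    apply IsLocalizedModule.linearMap_ext (.powers r.1)
      (TensorProduct.map
        (IsLocalizedModule.map (.powers r.1) (f r) (Algebra.linearMap R (Localization.Away r.1)))
        (f r)) (Algebra.linearMap R (Localization.Away r.1))
    rw [IsLocalizedModule.map_comp]
    ext φ n
    simp [IsLocalizedModule.map_apply]
  rw [this]
  exact contractA_bijective _ (.powers r.1)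

end Fermat.Agent.S25.H505

end
-- ===== PACK-END S25/H505/InvertibleLocal.lean

-- ===== PACK-BEGIN S25/H567/TensorDomain.lean
section


/-!
# Tensor products of domains over an algebraically closed field (helper567, S25 block CURVE, C2a)

`k` algebraically closed, `A`, `B` commutative `k`-algebras which are domains
⟹ `A ⊗[k] B` is a domain.
-/

set_option autoImplicit false
set_option linter.unusedSectionVars false
set_option linter.style.haveILetI false
set_option linter.unusedSimpArgs false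

noncomputable section

open TensorProduct

namespace Fermat.Agent.S25.H567

section Nullstellensatz

variable (k : Type*) [Field k] [IsAlgClosed k]
variable {A : Type*} [CommRing A] [Algebra k A]

/-- Weak Nullstellensatz, pointwise form: in a finitely generated reduced algebra over an
algebraically closed field, a nonzero element is nonzero at some `k`-point. -/
theorem exists_algHom_ne_zero [Algebra.FiniteType k A] [IsReduced A] {c : A} (hc : c ≠ 0) :
    ∃ φ : A →ₐ[k] k, φ c ≠ 0 := by
  haveI : IsJacobsonRing A := isJacobsonRing_of_finiteType (A := k) (B := A)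
  have hrad : (⊥ : Ideal A).IsRadical := by
    intro x hx
    obtain ⟨n, hn⟩ := hx
    exact (Ideal.mem_bot.mpr (IsReduced.eq_zero x ⟨n, Ideal.mem_bot.mp hn⟩))
  have hjac : (⊥ : Ideal A).jacobson = ⊥ := IsJacobsonRing.out ‹_› hrad
  have hcn : c ∉ (⊥ : Ideal A).jacobson := by
    rw [hjac]
    exact hc
  rw [Ideal.jacobson, Ideal.mem_sInf] at hcn
  push Not at hcn
  obtain ⟨𝔪, ⟨-, h𝔪⟩, hc𝔪⟩ := hcn
  haveI := h𝔪
  letI : Field (A ⧸ 𝔪) := Ideal.Quotient.field 𝔪
  haveI : Algebra.FiniteType k (A ⧸ 𝔪) :=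
    Algebra.FiniteType.of_surjective (Ideal.Quotient.mkₐ k 𝔪) Ideal.Quotient.mk_surjective
  haveI : Module.Finite k (A ⧸ 𝔪) := finite_of_finite_type_of_isJacobsonRing k (A ⧸ 𝔪)
  haveI : Algebra.IsIntegral k (A ⧸ 𝔪) := Algebra.IsIntegral.of_finite k (A ⧸ 𝔪)
  have hbij : Function.Bijective (algebraMap k (A ⧸ 𝔪)) :=
    IsAlgClosed.algebraMap_bijective_of_isIntegral
  let e : k ≃ₐ[k] (A ⧸ 𝔪) := AlgEquiv.ofBijective (Algebra.ofId k (A ⧸ 𝔪)) hbij
  refine ⟨e.symm.toAlgHom.comp (Ideal.Quotient.mkₐ k 𝔪), ?_⟩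
  intro h0
  apply hc𝔪
  have h1 : (Ideal.Quotient.mkₐ k 𝔪) c = 0 := by
    have : e.symm ((Ideal.Quotient.mkₐ k 𝔪) c) = 0 := h0
    simpa using this
  exact Ideal.Quotient.eq_zero_iff_mem.mp h1

end Nullstellensatz

section Domain

variable (k : Type*) [Field k] [IsAlgClosed k]
variable (A B : Type*) [CommRing A] [CommRing B] [Algebra k A] [Algebra k B]

/-- The finitely generated case. -/
theorem mul_eq_zero_of_finiteType [Algebra.FiniteType k A] [IsDomain A] [IsDomain B]
    (x y : A ⊗[k] B) (h : x * y = 0) : x = 0 ∨ y = 0 := by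
  classical
  let 𝒞 := Module.Free.chooseBasis k B
  obtain ⟨a, rfl⟩ := TensorProduct.eq_repr_basis_right 𝒞 x
  obtain ⟨a', rfl⟩ := TensorProduct.eq_repr_basis_right 𝒞 y
  by_contra hne
  push Not at hne
  have ha : a ≠ 0 := fun h0 => hne.1 (by rw [h0]; simp)
  have ha' : a' ≠ 0 := fun h0 => hne.2 (by rw [h0]; simp)
  obtain ⟨i₀, hi₀⟩ : ∃ i, a i ≠ 0 := by
    by_contra hall
    push Not at hall
    exact ha (Finsupp.ext hall)
  obtain ⟨j₀, hj₀⟩ : ∃ j, a' j ≠ 0 := by
    by_contra hall
    push Not at hall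
    exact ha' (Finsupp.ext hall)
  obtain ⟨φ, hφ⟩ := exists_algHom_ne_zero k (mul_ne_zero hi₀ hj₀)
  -- the specialization map
  let ψ : A ⊗[k] B →ₐ[k] B :=
    Algebra.TensorProduct.lift ((Algebra.ofId k B).comp φ) (AlgHom.id k B)
      (fun _ _ => Commute.all _ _)
  have hψ : ∀ (b : _ →₀ A), ψ (b.sum fun i m => m ⊗ₜ[k] 𝒞 i) =
      Finsupp.linearCombination k 𝒞 (b.mapRange φ (map_zero φ)) := by
    intro b
    rw [Finsupp.sum, map_sum, Finsupp.linearCombination_apply, Finsupp.sum_mapRange_index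
      (by intro i; simp)]
    rw [Finsupp.sum]
    refine Finset.sum_congr rfl fun i _ => ?_
    simp [ψ, Algebra.ofId_apply, Algebra.smul_def]
  have hprod : ψ (a.sum fun i m => m ⊗ₜ[k] 𝒞 i) * ψ (a'.sum fun i m => m ⊗ₜ[k] 𝒞 i) = 0 := by
    rw [← map_mul, h, map_zero]
  have key : ∀ (b : _ →₀ A), ψ (b.sum fun i m => m ⊗ₜ[k] 𝒞 i) = 0 → ∀ i, φ (b i) = 0 := by
    intro b hb i
    rw [hψ] at hb
    have := 𝒞.linearIndependent
    rw [linearIndependent_iff] at this
    have h0 := this _ hb
    have := DFunLike.congr_fun h0 i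
    simpa using this
  rcases mul_eq_zero.mp hprod with h1 | h1
  · exact hφ (by rw [map_mul, key a h1 i₀, zero_mul])
  · exact hφ (by rw [map_mul, key a' h1 j₀, mul_zero])

/-- **C2a.** Over an algebraically closed field the tensor product of two domains is a domain. -/
theorem isDomain_tensorProduct [IsDomain A] [IsDomain B] : IsDomain (A ⊗[k] B) := by
  classical
  haveI : Nontrivial (A ⊗[k] B) :=
    (Algebra.TensorProduct.includeLeft_injective (R := k) (S := k) (A := A) (B := B)
      (algebraMap k B).injective).nontrivial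
  haveI : NoZeroDivisors (A ⊗[k] B) := by
    refine ⟨fun {x y} h => ?_⟩
    let 𝒞 := Module.Free.chooseBasis k B
    obtain ⟨a, hx⟩ := TensorProduct.eq_repr_basis_right 𝒞 x
    obtain ⟨a', hy⟩ := TensorProduct.eq_repr_basis_right 𝒞 y
    -- the finitely generated subalgebra containing all coefficients
    let s : Finset A := a.support.image a ∪ a'.support.image a'
    let A' : Subalgebra k A := Algebra.adjoin k (s : Set A)
    haveI : Algebra.FiniteType k A' := by
      rw [← Subalgebra.fg_iff_finiteType]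
      exact ⟨s, rfl⟩
    have hmem : ∀ i, a i ∈ A' := by
      intro i
      by_cases hi : i ∈ a.support
      · exact Algebra.subset_adjoin (Finset.mem_coe.mpr
          (Finset.mem_union_left _ (Finset.mem_image_of_mem a hi)))
      · rw [Finsupp.notMem_support_iff.mp hi]
        exact zero_mem _
    have hmem' : ∀ i, a' i ∈ A' := by
      intro i
      by_cases hi : i ∈ a'.support
      · exact Algebra.subset_adjoin (Finset.mem_coe.mpr
          (Finset.mem_union_right _ (Finset.mem_image_of_mem a' hi)))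
      · rw [Finsupp.notMem_support_iff.mp hi]
        exact zero_mem _
    let ι' : A' ⊗[k] B →ₐ[k] A ⊗[k] B := Algebra.TensorProduct.map A'.val (AlgHom.id k B)
    have hι' : Function.Injective ι' := by
      have := Module.Flat.rTensor_preserves_injective_linearMap (M := B) A'.val.toLinearMap
        Subtype.val_injective
      intro u v huv
      apply this
      have e : ∀ w, LinearMap.rTensor B A'.val.toLinearMap w = ι' w := by
        intro w
        induction w using TensorProduct.induction_on with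
        | zero => simp
        | tmul p q => simp [ι']
        | add p q hp hq => rw [map_add, map_add, hp, hq]
      rw [e, e, huv]
    let x' : A' ⊗[k] B := ∑ i ∈ a.support, (⟨a i, hmem i⟩ : A') ⊗ₜ[k] 𝒞 i
    let y' : A' ⊗[k] B := ∑ i ∈ a'.support, (⟨a' i, hmem' i⟩ : A') ⊗ₜ[k] 𝒞 i
    have hx' : ι' x' = x := by
      rw [← hx, Finsupp.sum, map_sum]
      refine Finset.sum_congr rfl fun i _ => ?_
      simp [ι']
    have hy' : ι' y' = y := by
      rw [← hy, Finsupp.sum, map_sum]
      refine Finset.sum_congr rfl fun i _ => ?_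
      simp [ι']
    have hxy' : x' * y' = 0 := by
      apply hι'
      rw [map_mul, hx', hy', h, map_zero]
    rcases mul_eq_zero_of_finiteType k A' B x' y' hxy' with h1 | h1
    · left; rw [← hx', h1, map_zero]
    · right; rw [← hy', h1, map_zero]
  exact ⟨⟩

end Domain

/-- **A1** (exact frozen statement of the CURVE skeleton `Curve/Alg/TensorDomain.lean`). -/
theorem isDomain_tensorProduct_of_isAlgClosed (k : Type*) [Field k] [IsAlgClosed k]
    (A B : Type*) [CommRing A] [CommRing B] [Algebra k A] [Algebra k B]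
    [IsDomain A] [IsDomain B] : IsDomain (A ⊗[k] B) :=
  isDomain_tensorProduct k A B

end Fermat.Agent.S25.H567

end
end
-- ===== PACK-END S25/H567/TensorDomain.lean

-- ===== PACK-BEGIN S25/H747/HomBC.lean
section
/-
S25 / block ABEL, sub-block AB-ALG (helper747): base change of `Hom` for finitely generated
projective modules, and invertibility of `Hom` of invertible modules.  Mathlib only.
(Mathlib has `IsBaseChange.linearMapLeftRight` only for finite FREE sources.)
-/


set_option autoImplicit false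

namespace Fermat.Agent.S25.H747

open TensorProduct LinearMap Module

section HomBC

variable {R : Type*} [CommRing R] {S : Type*} [CommRing S] [Algebra R S]
  {M : Type*} [AddCommGroup M] [Module R M]
  {N : Type*} [AddCommGroup N] [Module R N]
  {P : Type*} [AddCommGroup P] [Module R P] [Module S P] [IsScalarTower R S P]

/-- Naturality of `IsBaseChange.linearMapRightBaseChangeHom` in the source. -/
theorem linearMapRightBaseChangeHom_lcomp {M' : Type*} [AddCommGroup M'] [Module R M']
    (u : M' →ₗ[R] M) (ε : N →ₗ[R] P) (z : S ⊗[R] (M →ₗ[R] N)) :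
    IsBaseChange.linearMapRightBaseChangeHom S M' ε ((u.lcomp R N).baseChange S z) =
      (IsBaseChange.linearMapRightBaseChangeHom S M ε z) ∘ₗ u := by
  induction z using TensorProduct.induction_on with
  | zero => simp
  | add x y hx hy => simp only [map_add, hx, hy, LinearMap.add_comp]
  | tmul s f =>
    ext m
    simp [IsBaseChange.linearMapRightBaseChangeHom]

/-- `S ⊗ Hom_R(M, N) → Hom_R(M, P)` is bijective for `M` finitely generated projective and
`P` a base change of `N`. -/
theorem linearMapRightBaseChangeHom_bijective [Module.Finite R M] [Projective R M]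
    {ε : N →ₗ[R] P} (ibc : IsBaseChange S ε) :
    Function.Bijective (IsBaseChange.linearMapRightBaseChangeHom S M ε) := by
  obtain ⟨n, f, g, -, -, eq⟩ := Finite.exists_comp_eq_id_of_projective R M
  -- `f : (Fin n → R) → M`, `g : M → (Fin n → R)`, `f ∘ g = id`
  have hfree : Function.Bijective
      (IsBaseChange.linearMapRightBaseChangeHom S (Fin n → R) ε) :=
    (IsBaseChange.linearMapRightBaseChangeEquiv (Fin n → R) ibc).bijective
  constructor
  · -- injective: precompose with `f`
    intro z₁ z₂ h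
    have h1 : (f.lcomp R N).baseChange S z₁ = (f.lcomp R N).baseChange S z₂ := by
      apply hfree.1
      rw [linearMapRightBaseChangeHom_lcomp, linearMapRightBaseChangeHom_lcomp, h]
    have h2 := congrArg ((g.lcomp R N).baseChange S) h1
    have key : ∀ z : S ⊗[R] (M →ₗ[R] N),
        (g.lcomp R N).baseChange S ((f.lcomp R N).baseChange S z) = z := by
      intro z
      rw [← LinearMap.comp_apply, ← LinearMap.baseChange_comp]
      have : (g.lcomp R N) ∘ₗ (f.lcomp R N) = LinearMap.id := by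
        ext φ m
        simp only [LinearMap.comp_apply, LinearMap.lcomp_apply, LinearMap.id_apply]
        exact congrArg φ (congr($eq m))
      rw [this, LinearMap.baseChange_id, LinearMap.id_apply]
    rwa [key, key] at h2
  · intro h
    obtain ⟨z, hz⟩ := hfree.2 (h ∘ₗ f)
    refine ⟨(g.lcomp R N).baseChange S z, ?_⟩
    rw [linearMapRightBaseChangeHom_lcomp, hz, LinearMap.comp_assoc, eq, LinearMap.comp_id]

/-- `Hom_R(M, P)` is a base change of `Hom_R(M, N)` when `M` is finitely generated projective. -/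
theorem isBaseChange_compRight [Module.Finite R M] [Projective R M]
    {ε : N →ₗ[R] P} (ibc : IsBaseChange S ε) :
    IsBaseChange S (LinearMap.compRight (M := M) R ε) := by
  apply IsBaseChange.of_equiv
    (LinearEquiv.ofBijective _ (linearMapRightBaseChangeHom_bijective (M := M) ibc))
  intro f
  simp [IsBaseChange.linearMapRightBaseChangeHom]

variable {Q : Type*} [AddCommGroup Q] [Module R Q] [Module S Q] [IsScalarTower R S Q]

/-- **Base change of `Hom`** for a finitely generated projective source: if `α : M → P` and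
`β : N → Q` are base changes along `R → S`, then so is
`IsBaseChange.linearMapLeftRightHom : Hom_R(M, N) → Hom_S(P, Q)`. -/
theorem isBaseChange_linearMapLeftRightHom [Module.Finite R M] [Projective R M]
    {α : M →ₗ[R] P} (j : IsBaseChange S α) {β : N →ₗ[R] Q} (k : IsBaseChange S β) :
    IsBaseChange S (IsBaseChange.linearMapLeftRightHom j β) := by
  apply IsBaseChange.of_equiv <|
      (isBaseChange_compRight (M := M) k).equiv ≪≫ₗ liftBaseChangeEquiv S ≪≫ₗ
        LinearEquiv.congrLeft Q S j.equiv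
  intro f
  ext p
  simp [IsBaseChange.equiv_tmul, LinearEquiv.congrLeft, IsBaseChange.linearMapLeftRightHom_apply]

end HomBC

section Inv

variable {R : Type*} [CommRing R] {M N : Type*} [AddCommGroup M] [Module R M]
  [AddCommGroup N] [Module R N]

/-- `Hom` of invertible modules is invertible. -/
theorem invertible_linearMap [Module.Invertible R M] [Module.Invertible R N] :
    Module.Invertible R (M →ₗ[R] N) :=
  Module.Invertible.congr (LinearEquiv.ofBijective (dualTensorHom R M N) dualTensorHom_bijective)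

end Inv

end Fermat.Agent.S25.H747

end
-- ===== PACK-END S25/H747/HomBC.lean

-- ===== PACK-BEGIN S25/H851/Contraction.lean
section


/-!
# S25 / block HILB, leaf H6 (helper851): contraction of a relative divisor to the second chart

Abstract two-chart situation: `R0`, `R1` commutative rings, `R01` a common localization
(`R01 = R0[1/x] = R1[1/y]`, `x * y = 1` in `R01`), everything over a base ring `A`.
For an ideal `I ⊆ R0` whose quotient is a finite `A`-module, the *contraction*
`contr I := (I · R01) ∩ R1` satisfies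

* `exists_mem_contr_isCoprime` : there is `u ∈ contr I` with `IsCoprime u y` (`I1 + (y) = R1`);
* `map_contr` : `contr I · R01 = I · R01`;
* `contr_fg` : `contr I` is finitely generated if `I` is;
* `contr_invertible` : `contr I` is an invertible `R1`-module if `I` is an invertible `R0`-module
  (and `R1 → R01` is injective);
* `map_contr_baseChange` : contraction commutes with base change.

Also: `invertible_of_contractLeft_surjective` (an ideal with surjective trace is an invertible
module) and `ideal_eq_of_map_eq_of_isCoprime` (an ideal is determined by its localization at `y`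
as soon as it contains an element coprime to `y`).
-/

set_option autoImplicit false

open TensorProduct Polynomial

namespace Fermat.Agent.S25.H851

/-! ## An ideal with surjective trace is an invertible module -/

section Trace

variable {R : Type*} [CommRing R] (I : Ideal R)

/-- For an ideal `I`, functionals are "symmetric": `φ m • m' = φ m' • m`. -/
theorem ideal_dual_symm (φ : Module.Dual R I) (m m' : I) : φ m • m' = φ m' • m := by
  apply Subtype.ext
  have h1 : φ m * (m' : R) = φ ((m' : R) • m) := by rw [map_smul, smul_eq_mul, mul_comm]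
  have h2 : φ m' * (m : R) = φ ((m : R) • m') := by rw [map_smul, smul_eq_mul, mul_comm]
  have h3 : (m' : R) • m = (m : R) • m' := by
    apply Subtype.ext
    simp [mul_comm]
  simp only [Submodule.coe_smul, smul_eq_mul]
  rw [h1, h2, h3]

/-- For an ideal `I`: `ev s • t = ev t • s` in `I^* ⊗ I`. -/
theorem ideal_contractLeft_smul_comm (s t : Module.Dual R I ⊗[R] I) :
    contractLeft R I s • t = contractLeft R I t • s := by
  induction s using TensorProduct.induction_on with
  | zero => simp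
  | add s₁ s₂ h₁ h₂ => rw [map_add, add_smul, h₁, h₂, smul_add]
  | tmul φ m =>
    induction t using TensorProduct.induction_on with
    | zero => simp
    | add t₁ t₂ h₁ h₂ => rw [map_add, add_smul, smul_add, h₁, h₂]
    | tmul φ' m' =>
      simp only [contractLeft_apply]
      -- `φ m • (φ' ⊗ m') = φ' m' • (φ ⊗ m)`
      have e1 : φ m • φ' = φ' m • φ := by
        ext z
        simp only [LinearMap.smul_apply, smul_eq_mul]
        have := congrArg φ' (ideal_dual_symm I φ m z)
        rw [map_smul, map_smul, smul_eq_mul, smul_eq_mul] at this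
        rw [this, mul_comm]
      calc φ m • (φ' ⊗ₜ[R] m') = (φ m • φ') ⊗ₜ[R] m' := by rw [TensorProduct.smul_tmul']
        _ = (φ' m • φ) ⊗ₜ[R] m' := by rw [e1]
        _ = φ ⊗ₜ[R] (φ' m • m') := by rw [TensorProduct.smul_tmul]
        _ = φ ⊗ₜ[R] (φ' m' • m) := by rw [ideal_dual_symm I φ' m m']
        _ = φ' m' • (φ ⊗ₜ[R] m) := by rw [TensorProduct.tmul_smul]

/-- **Trace criterion.** An ideal whose trace map `I^* ⊗ I → R` is surjective is an invertible
module. -/
theorem invertible_of_contractLeft_surjective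
    (h : Function.Surjective (contractLeft R I)) : Module.Invertible R I := by
  obtain ⟨t, ht⟩ := h 1
  refine ⟨⟨?_, h⟩⟩
  rw [injective_iff_map_eq_zero]
  intro s hs
  have := ideal_contractLeft_smul_comm I s t
  rw [hs, ht, zero_smul, one_smul] at this
  exact this.symm

/-- Variant of the trace criterion: it is enough that `1` is a sum of values `φ m`. -/
theorem invertible_of_one_mem_trace
    (h : (1 : R) ∈ Ideal.span {r : R | ∃ (φ : Module.Dual R I) (m : I), φ m = r}) :
    Module.Invertible R I := by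
  apply invertible_of_contractLeft_surjective
  rw [← LinearMap.range_eq_top]
  have hle : Ideal.span {r : R | ∃ (φ : Module.Dual R I) (m : I), φ m = r} ≤
      LinearMap.range (contractLeft R I) := by
    rw [Ideal.span_le]
    rintro r ⟨φ, m, rfl⟩
    exact ⟨φ ⊗ₜ[R] m, by simp [contractLeft_apply]⟩
  exact (Ideal.eq_top_iff_one _).mpr (hle h)

end Trace

/-! ## Uniqueness: an ideal containing an element coprime to `y` is determined by its
localization at `y` -/

section Unique

variable {R S : Type*} [CommRing R] [CommRing S] [Algebra R S] (y : R) [IsLocalization.Away y S]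

/-- If `j a ∈ J · S` (`S = R[1/y]`), then `y ^ n * a ∈ J` for some `n`. -/
theorem exists_pow_mul_mem_of_map_mem {J : Ideal R} {a : R}
    (h : algebraMap R S a ∈ J.map (algebraMap R S)) : ∃ n : ℕ, y ^ n * a ∈ J := by
  rw [IsLocalization.mem_map_algebraMap_iff (Submonoid.powers y)] at h
  obtain ⟨⟨⟨b, hb⟩, ⟨_, n, rfl⟩⟩, hbs⟩ := h
  simp only at hbs
  rw [← map_mul] at hbs
  obtain ⟨⟨_, m, rfl⟩, hm⟩ := (IsLocalization.eq_iff_exists (Submonoid.powers y) S).mp hbs
  simp only at hm
  refine ⟨m + n, ?_⟩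
  have : y ^ (m + n) * a = y ^ m * b := by
    rw [pow_add, mul_assoc, mul_comm (y ^ n) a, hm]
  rw [this]
  exact J.mul_mem_left _ hb

theorem le_of_map_le_of_isCoprime {J J' : Ideal R} {u : R} (hu' : u ∈ J') (hc : IsCoprime u y)
    (h : J.map (algebraMap R S) ≤ J'.map (algebraMap R S)) : J ≤ J' := by
  intro a ha
  obtain ⟨n, hn⟩ := exists_pow_mul_mem_of_map_mem (S := S) y (J := J') (a := a)
    (h (Ideal.mem_map_of_mem _ ha))
  obtain ⟨r, s, hrs⟩ := (hc.pow_right (n := n))
  have : a = r * (u * a) + s * (y ^ n * a) := by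
    calc a = (r * u + s * y ^ n) * a := by rw [hrs, one_mul]
      _ = _ := by ring
  rw [this]
  exact J'.add_mem (J'.mul_mem_left _ (J'.mul_mem_right _ hu')) (J'.mul_mem_left _ hn)

/-- **Uniqueness.** Two ideals with the same localization at `y`, both containing an element
coprime to `y`, are equal. -/
theorem ideal_eq_of_map_eq_of_isCoprime {J J' : Ideal R} {u u' : R} (hu : u ∈ J) (hu' : u' ∈ J')
    (hc : IsCoprime u y) (hc' : IsCoprime u' y)
    (h : J.map (algebraMap R S) = J'.map (algebraMap R S)) : J = J' :=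
  le_antisymm (le_of_map_le_of_isCoprime y hu' hc' h.le)
    (le_of_map_le_of_isCoprime y hu hc h.ge)

end Unique

/-! ## The contraction -/

section Contraction

variable {A R0 R1 R01 : Type*} [CommRing A] [CommRing R0] [CommRing R1] [CommRing R01]
  [Algebra R0 R01] [Algebra R1 R01]

/-- The contraction to `R1` of the extension to `R01` of an ideal of `R0`. -/
def contr (R1 : Type*) (R01 : Type*) [CommRing R1] [CommRing R01] [Algebra R0 R01]
    [Algebra R1 R01] (I : Ideal R0) : Ideal R1 :=
  (I.map (algebraMap R0 R01)).comap (algebraMap R1 R01)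

theorem mem_contr {I : Ideal R0} {b : R1} :
    b ∈ contr R1 R01 I ↔ algebraMap R1 R01 b ∈ I.map (algebraMap R0 R01) := Iff.rfl

/-- **T2.** `contr I · R01 = I · R01`. -/
theorem map_contr (y : R1) [IsLocalization.Away y R01] (I : Ideal R0) :
    (contr R1 R01 I).map (algebraMap R1 R01) = I.map (algebraMap R0 R01) :=
  IsLocalization.map_under (Submonoid.powers y) R01 _

variable [Algebra A R0] [Algebra A R1] [Algebra A R01] [IsScalarTower A R0 R01]
  [IsScalarTower A R1 R01]

/-- **T0.** If `R0 ⧸ I` is a finite `A`-module, every element of `R0` satisfies a monic equation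
over `A` modulo `I`. -/
theorem exists_monic_aeval_mem (I : Ideal R0) [Module.Finite A (R0 ⧸ I)] (x : R0) :
    ∃ p : A[X], p.Monic ∧ aeval x p ∈ I := by
  have hint : IsIntegral A (Ideal.Quotient.mk I x) :=
    Algebra.IsIntegral.isIntegral (R := A) _
  obtain ⟨p, hp, hp0⟩ := hint
  refine ⟨p, hp, ?_⟩
  rw [← Ideal.Quotient.eq_zero_iff_mem, ← hp0]
  have : (Ideal.Quotient.mk I) (aeval x p) = aeval (Ideal.Quotient.mk I x) p := by
    have := Polynomial.aeval_algHom_apply (Ideal.Quotient.mkₐ A I) x p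
    simpa using this.symm
  rw [this]
  rfl

/-- **T1.** The contraction contains an element `u` coprime to `y` (in fact `u ≡ 1 mod y`). -/
theorem exists_mem_contr_isCoprime (x : R0) (y : R1)
    (hxy : algebraMap R0 R01 x * algebraMap R1 R01 y = 1)
    (I : Ideal R0) [Module.Finite A (R0 ⧸ I)] :
    ∃ u ∈ contr R1 R01 I, ∃ r : R1, u = 1 + r * y := by
  obtain ⟨p, hp, hpI⟩ := exists_monic_aeval_mem (A := A) I x
  refine ⟨aeval y p.reverse, ?_, ?_⟩
  · rw [mem_contr]
    let _ : Invertible (algebraMap R0 R01 x) :=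
      ⟨algebraMap R1 R01 y, by rw [mul_comm]; exact hxy, hxy⟩
    have h1 := Polynomial.eval₂_reverse_mul_pow (algebraMap A R01) (algebraMap R0 R01 x) p
    have h2 : algebraMap R1 R01 (aeval y p.reverse) =
        eval₂ (algebraMap A R01) (⅟(algebraMap R0 R01 x)) p.reverse := by
      rw [aeval_def, hom_eval₂, ← IsScalarTower.algebraMap_eq]
      rfl
    have h3 : algebraMap R0 R01 (aeval x p) = eval₂ (algebraMap A R01) (algebraMap R0 R01 x) p := by
      rw [aeval_def, hom_eval₂, ← IsScalarTower.algebraMap_eq]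
    have h4 : algebraMap R1 R01 (aeval y p.reverse) =
        algebraMap R0 R01 (aeval x p) * (algebraMap R1 R01 y) ^ p.natDegree := by
      rw [h3, ← h1, h2, mul_assoc, ← mul_pow, hxy, one_pow, mul_one]
    rw [h4]
    exact Ideal.mul_mem_right _ _ (Ideal.mem_map_of_mem _ hpI)
  · have hdvd : (X : A[X]) ∣ p.reverse - C (p.reverse.coeff 0) := Polynomial.X_dvd_sub_C
    obtain ⟨q, hq⟩ := hdvd
    refine ⟨aeval y q, ?_⟩
    have h0 : p.reverse.coeff 0 = 1 := by rw [coeff_zero_reverse, hp.leadingCoeff]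
    have : p.reverse = 1 + X * q := by
      rw [← hq, h0, map_one]; ring
    conv_lhs => rw [this]
    simp [mul_comm]

end Contraction

/-! ## Finite generation and invertibility of the contraction -/

section Invertible

variable {R0 R1 R01 : Type*} [CommRing R0] [CommRing R1] [CommRing R01]
  [Algebra R0 R01] [Algebra R1 R01]

/-- **Finite generation.** If `I` is finitely generated and the contraction contains an element
coprime to `y`, then the contraction is finitely generated. -/
theorem contr_fg (y : R1) [IsLocalization.Away y R01] (I : Ideal R0) (hI : I.FG)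
    {u : R1} (hu : u ∈ contr R1 R01 I) (hc : IsCoprime u y) : (contr R1 R01 I).FG := by
  have hspan : Ideal.span ({u, y} : Set R1) = ⊤ := by
    rw [Ideal.eq_top_iff_one]
    obtain ⟨r, s, hrs⟩ := hc
    rw [← hrs]
    exact Ideal.add_mem _ (Ideal.mul_mem_left _ _ (Ideal.subset_span (by simp)))
      (Ideal.mul_mem_left _ _ (Ideal.subset_span (by simp)))
  refine Ideal.fg_of_localizationSpan ({u, y} : Set R1) hspan ?_
  rintro ⟨g, hg⟩
  rcases hg with rfl | hg
  · -- at `u` the ideal becomes the unit ideal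
    have : (contr R1 R01 I).map (algebraMap R1 (Localization.Away g)) = ⊤ := by
      apply Ideal.eq_top_of_isUnit_mem _ (Ideal.mem_map_of_mem _ hu)
      exact IsLocalization.Away.algebraMap_isUnit g
    rw [this]
    exact ⟨{1}, by simp⟩
  · -- at `y` the ideal becomes `I · R01`
    rw [Set.mem_singleton_iff] at hg
    subst hg
    let e : R01 ≃ₐ[R1] Localization.Away g :=
      IsLocalization.algEquiv (Submonoid.powers g) R01 (Localization.Away g)
    have h1 : (contr R1 R01 I).map (algebraMap R1 (Localization.Away g)) =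
        ((contr R1 R01 I).map (algebraMap R1 R01)).map (e : R01 →+* Localization.Away g) := by
      rw [Ideal.map_map]
      congr 1
      ext r
      simp [e]
    rw [h1, map_contr g I]
    exact (hI.map _).map _

variable (x : R0) (y : R1) [IsLocalization.Away x R01] [IsLocalization.Away y R01]

/-- The localization at `x` of a functional on `I`, as an `R01`-linear functional on `I · R01`. -/
noncomputable def locDual (I : Ideal R0) (ψ : Module.Dual R0 I) :
    Module.Dual R01 (I.map (algebraMap R0 R01)) :=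
  (IsLocalizedModule.map (Submonoid.powers x) (Algebra.idealMap R01 I)
    (Algebra.linearMap R0 R01) ψ).extendScalarsOfIsLocalization (Submonoid.powers x) R01

theorem locDual_apply (I : Ideal R0) (ψ : Module.Dual R0 I) (a : I) :
    locDual x I ψ (Algebra.idealMap R01 I a) = algebraMap R0 R01 (ψ a) := by
  simp only [locDual, LinearMap.extendScalarsOfIsLocalization_apply']
  rw [IsLocalizedModule.map_apply]
  rfl

/-- The inclusion of the contraction into `I · R01`, as an `R1`-linear map. -/
def contrIncl (I : Ideal R0) :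
    contr R1 R01 I →ₗ[R1] (I.map (algebraMap R0 R01)) where
  toFun c := ⟨algebraMap R1 R01 c.1, c.2⟩
  map_add' a b := by
    apply Subtype.ext
    simp
  map_smul' r a := by
    apply Subtype.ext
    simp [Algebra.smul_def]

@[simp] theorem contrIncl_coe (I : Ideal R0) (c : contr R1 R01 I) :
    ((contrIncl (R1 := R1) (R01 := R01) I c : I.map (algebraMap R0 R01)) : R01) =
      algebraMap R1 R01 c.1 := rfl

/-- The `R1`-linear map `contr I → R01` induced by a functional on `I`. -/
noncomputable def contrDualAux (I : Ideal R0) (ψ : Module.Dual R0 I) :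
    contr R1 R01 I →ₗ[R1] R01 :=
  ((locDual x I ψ).restrictScalars R1) ∘ₗ contrIncl I

theorem contrDualAux_apply (I : Ideal R0) (ψ : Module.Dual R0 I) (c : contr R1 R01 I) :
    contrDualAux (R1 := R1) x I ψ c = locDual x I ψ (contrIncl I c) := rfl

/-- Uniform denominators: for finitely generated `contr I`, some power of `y` moves all values of
`contrDualAux` into the image of `R1`. -/
theorem exists_pow_mul_contrDualAux_mem_range (I : Ideal R0) (hfg : (contr R1 R01 I).FG)
    (ψ : Module.Dual R0 I) :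
    ∃ N : ℕ, ∀ c : contr R1 R01 I,
      (y ^ N) • contrDualAux (R1 := R1) x I ψ c ∈ LinearMap.range (Algebra.linearMap R1 R01) := by
  classical
  have hfin : Module.Finite R1 (contr R1 R01 I) := Module.Finite.iff_fg.mpr hfg
  obtain ⟨T, hT⟩ := hfin.fg_top
  have hind : ∀ c : contr R1 R01 I, ∃ n : ℕ,
      (y ^ n) • contrDualAux (R1 := R1) x I ψ c ∈ LinearMap.range (Algebra.linearMap R1 R01) := by
    intro c
    obtain ⟨n, a, ha⟩ := IsLocalization.Away.surj y (contrDualAux (R1 := R1) x I ψ c)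
    refine ⟨n, a, ?_⟩
    rw [Algebra.linearMap_apply, ← ha, Algebra.smul_def, map_pow, mul_comm]
  choose Nf hNf using hind
  refine ⟨T.sup Nf, fun c => ?_⟩
  have hc : c ∈ Submodule.span R1 (T : Set (contr R1 R01 I)) := by rw [hT]; trivial
  induction hc using Submodule.span_induction with
  | mem c hcT =>
    have hle : Nf c ≤ T.sup Nf := Finset.le_sup (f := Nf) hcT
    obtain ⟨d, hd⟩ := Nat.exists_eq_add_of_le hle
    rw [hd, pow_add, mul_comm, mul_smul]
    exact Submodule.smul_mem _ _ (hNf c)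
  | zero => simp
  | add a b _ _ ha hb =>
    rw [map_add, smul_add]
    exact Submodule.add_mem _ ha hb
  | smul r a _ ha =>
    rw [map_smul, smul_comm]
    exact Submodule.smul_mem _ _ ha

variable {x y}

/-- The functional on the contraction induced by a functional `ψ` on `I` and a uniform
exponent `N`. -/
noncomputable def contrDual (hinj : Function.Injective (Algebra.linearMap R1 R01)) (I : Ideal R0)
    (ψ : Module.Dual R0 I) (N : ℕ)
    (hN : ∀ c : contr R1 R01 I,
      (y ^ N) • contrDualAux (R1 := R1) x I ψ c ∈ LinearMap.range (Algebra.linearMap R1 R01)) :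
    Module.Dual R1 (contr R1 R01 I) :=
  (LinearEquiv.ofInjective (Algebra.linearMap R1 R01) hinj).symm.toLinearMap ∘ₗ
    LinearMap.codRestrict (LinearMap.range (Algebra.linearMap R1 R01))
      ((y ^ N) • contrDualAux (R1 := R1) x I ψ) hN

omit [IsLocalization.Away y R01] in
theorem algebraMap_contrDual (hinj : Function.Injective (Algebra.linearMap R1 R01)) (I : Ideal R0)
    (ψ : Module.Dual R0 I) (N : ℕ)
    (hN : ∀ c : contr R1 R01 I,
      (y ^ N) • contrDualAux (R1 := R1) x I ψ c ∈ LinearMap.range (Algebra.linearMap R1 R01))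
    (c : contr R1 R01 I) :
    algebraMap R1 R01 (contrDual hinj I ψ N hN c) =
      algebraMap R1 R01 y ^ N * contrDualAux (R1 := R1) x I ψ c := by
  have h := (LinearEquiv.ofInjective (Algebra.linearMap R1 R01) hinj).apply_symm_apply
    (LinearMap.codRestrict (LinearMap.range (Algebra.linearMap R1 R01))
      ((y ^ N) • contrDualAux (R1 := R1) x I ψ) hN c)
  have h2 := congrArg Subtype.val h
  rw [LinearEquiv.ofInjective_apply] at h2
  simp only [LinearMap.codRestrict_apply, LinearMap.smul_apply, Algebra.linearMap_apply] at h2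
  rw [contrDual, LinearMap.comp_apply, LinearEquiv.coe_coe, h2, Algebra.smul_def, map_pow]

end Invertible

section Invertible2

variable {R0 R1 R01 : Type*} [CommRing R0] [CommRing R1] [CommRing R01]
  [Algebra R0 R01] [Algebra R1 R01]

/-- Key step: every value `ψ a` of a functional on `I` becomes, after multiplication by a power
of `y`, a value of a functional on the contraction. -/
theorem exists_contrDual_eq (x : R0) (y : R1) [IsLocalization.Away x R01]
    [IsLocalization.Away y R01] (hinj : Function.Injective (algebraMap R1 R01)) (I : Ideal R0)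
    (hfg : (contr R1 R01 I).FG) (ψ : Module.Dual R0 I) (a : I) :
    ∃ (M : ℕ) (Ψ : Module.Dual R1 (contr R1 R01 I)) (b : contr R1 R01 I),
      algebraMap R1 R01 (Ψ b) = algebraMap R1 R01 y ^ M * algebraMap R0 R01 (ψ a) := by
  obtain ⟨N, hN⟩ := exists_pow_mul_contrDualAux_mem_range x y I hfg ψ
  obtain ⟨n, b, hb⟩ := IsLocalization.Away.surj y (algebraMap R0 R01 (a : R0))
  have hbmem : b ∈ contr R1 R01 I := by
    rw [mem_contr, ← hb]
    exact Ideal.mul_mem_right _ _ (Ideal.mem_map_of_mem _ a.2)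
  have hinj' : Function.Injective (Algebra.linearMap R1 R01) := hinj
  refine ⟨N + n, contrDual hinj' I ψ N hN, ⟨b, hbmem⟩, ?_⟩
  rw [algebraMap_contrDual, contrDualAux_apply]
  have hincl : contrIncl (R1 := R1) (R01 := R01) I ⟨b, hbmem⟩ =
      (algebraMap R1 R01 y ^ n) • Algebra.idealMap R01 I a := by
    apply Subtype.ext
    simp only [contrIncl_coe, Submodule.coe_smul, smul_eq_mul]
    rw [← hb, mul_comm]
    rfl
  rw [hincl, map_smul, locDual_apply, smul_eq_mul, pow_add, mul_assoc]

/-- The trace ideal of the contraction contains a power of `y`. -/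
theorem exists_pow_mem_trace (x : R0) (y : R1) [IsLocalization.Away x R01]
    [IsLocalization.Away y R01] (hinj : Function.Injective (algebraMap R1 R01)) (I : Ideal R0)
    [Module.Invertible R0 I] (hfg : (contr R1 R01 I).FG) :
    ∃ M : ℕ, y ^ M ∈ Ideal.span
      {r : R1 | ∃ (φ : Module.Dual R1 (contr R1 R01 I)) (m : contr R1 R01 I), φ m = r} := by
  set τ : Ideal R1 := Ideal.span
      {r : R1 | ∃ (φ : Module.Dual R1 (contr R1 R01 I)) (m : contr R1 R01 I), φ m = r} with hτ
  have key : ∀ t : Module.Dual R0 I ⊗[R0] I, ∃ (M : ℕ) (v : R1), v ∈ τ ∧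
      algebraMap R1 R01 v = algebraMap R1 R01 y ^ M * algebraMap R0 R01 (contractLeft R0 I t) := by
    intro t
    induction t using TensorProduct.induction_on with
    | zero => exact ⟨0, 0, τ.zero_mem, by simp⟩
    | tmul ψ a =>
      obtain ⟨M, Ψ, b, h⟩ := exists_contrDual_eq x y hinj I hfg ψ a
      exact ⟨M, Ψ b, Ideal.subset_span ⟨Ψ, b, rfl⟩, by rw [h, contractLeft_apply]⟩
    | add t₁ t₂ h₁ h₂ =>
      obtain ⟨M₁, v₁, hv₁, e₁⟩ := h₁
      obtain ⟨M₂, v₂, hv₂, e₂⟩ := h₂
      refine ⟨M₁ + M₂, y ^ M₂ * v₁ + y ^ M₁ * v₂,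
        τ.add_mem (τ.mul_mem_left _ hv₁) (τ.mul_mem_left _ hv₂), ?_⟩
      simp only [map_add, map_mul, map_pow, e₁, e₂]
      ring
  obtain ⟨t, ht⟩ := (Module.Invertible.bijective (R := R0) (M := I)).2 1
  obtain ⟨M, v, hv, e⟩ := key t
  refine ⟨M, ?_⟩
  have : v = y ^ M := by
    apply hinj
    rw [e, ht, map_one, mul_one, map_pow]
  rw [← this]
  exact hv

/-- **T3.** The contraction of an invertible ideal is an invertible `R1`-module, provided it
contains an element coprime to `y` and `R1 → R01` is injective. -/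
theorem contr_invertible_of_isCoprime (x : R0) (y : R1) [IsLocalization.Away x R01]
    [IsLocalization.Away y R01] (hinj : Function.Injective (algebraMap R1 R01))
    (I : Ideal R0) [Module.Invertible R0 I] {u : R1} (hu : u ∈ contr R1 R01 I)
    (hc : IsCoprime u y) : Module.Invertible R1 (contr R1 R01 I) := by
  have hIfg : I.FG := Module.Finite.iff_fg.mp inferInstance
  have hfg : (contr R1 R01 I).FG := contr_fg y I hIfg hu hc
  obtain ⟨M, hM⟩ := exists_pow_mem_trace x y hinj I hfg
  apply invertible_of_one_mem_trace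
  obtain ⟨r, s, hrs⟩ := (hc.pow_right (n := M))
  rw [← hrs]
  refine Ideal.add_mem _ (Ideal.mul_mem_left _ _ ?_) (Ideal.mul_mem_left _ _ hM)
  exact Ideal.subset_span ⟨Submodule.subtype _, ⟨u, hu⟩, rfl⟩

/-- The contraction localizes (at `y`) to `I · R01`: together with Mathlib's
`Algebra.idealMap_isLocalizedModule` (localization of `I` at `x`) this is the gluing datum
`(I, contr I, I · R01)`. -/
instance contrIncl_isLocalizedModule (y : R1) [IsLocalization.Away y R01] (I : Ideal R0) :
    IsLocalizedModule (Submonoid.powers y) (contrIncl (R1 := R1) (R01 := R01) I) where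
  map_units s :=
    (Module.End.isUnit_iff _).mpr ⟨fun a b e ↦ Subtype.ext
      ((IsLocalization.map_units R01 s).mul_right_injective
        (by simpa [Algebra.smul_def] using congr(($e).1))),
      fun a ↦ ⟨⟨_, Ideal.mul_mem_left _ (IsLocalization.map_units R01 s).unit⁻¹.1 a.2⟩,
        Subtype.ext (by simp [Algebra.smul_def, ← mul_assoc])⟩⟩
  surj z := by
    have hz : (z : R01) ∈ (contr R1 R01 I).map (algebraMap R1 R01) := by
      rw [map_contr y I]; exact z.2
    obtain ⟨w, hw⟩ := (IsLocalization.mem_map_algebraMap_iff (Submonoid.powers y) R01).mp hz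
    exact ⟨w, Subtype.ext (by simp [Submonoid.smul_def, Algebra.smul_def, mul_comm, hw])⟩
  exists_of_eq h :=
    ⟨_, Subtype.ext (IsLocalization.exists_of_eq (M := Submonoid.powers y) congr(($h).1)).choose_spec⟩

/-- `R1 → R01 = R1[1/y]` is injective when `y` is a nonzerodivisor. -/
theorem algebraMap_injective_of_mem_nonZeroDivisors (y : R1) [IsLocalization.Away y R01]
    (hy : y ∈ nonZeroDivisors R1) : Function.Injective (algebraMap R1 R01) :=
  IsLocalization.injective R01 (M := Submonoid.powers y)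
    (Submonoid.powers_le.mpr hy)

/-- **T3 (final form).** In the two-chart situation over `A`: if `R0 ⧸ I` is a finite
`A`-module and `I` is an invertible `R0`-module, then the contraction of `I` is an invertible
`R1`-module. -/
theorem contr_invertible {A : Type*} [CommRing A] [Algebra A R0] [Algebra A R1] [Algebra A R01]
    [IsScalarTower A R0 R01] [IsScalarTower A R1 R01]
    (x : R0) (y : R1) [IsLocalization.Away x R01] [IsLocalization.Away y R01]
    (hxy : algebraMap R0 R01 x * algebraMap R1 R01 y = 1)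
    (hinj : Function.Injective (algebraMap R1 R01))
    (I : Ideal R0) [Module.Finite A (R0 ⧸ I)] [Module.Invertible R0 I] :
    Module.Invertible R1 (contr R1 R01 I) := by
  obtain ⟨u, hu, r, hr⟩ := exists_mem_contr_isCoprime (A := A) x y hxy I
  refine contr_invertible_of_isCoprime x y hinj I hu ⟨1, -r, ?_⟩
  rw [hr]; ring

end Invertible2

/-! ## Base change -/

section BaseChange

variable {R0 R1 R01 R0' R1' R01' : Type*} [CommRing R0] [CommRing R1] [CommRing R01]
  [CommRing R0'] [CommRing R1'] [CommRing R01']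
  [Algebra R0 R01] [Algebra R1 R01] [Algebra R0' R01'] [Algebra R1' R01']

/-- **T4.** Contraction commutes with base change: for compatible ring maps
`f0 : R0 → R0'`, `f1 : R1 → R1'`, `f01 : R01 → R01'` between two two-chart situations,
`contr I · R1' = contr (I · R0')`, as soon as `contr I` contains an element coprime to `y`. -/
theorem map_contr_baseChange (y : R1) [IsLocalization.Away y R01]
    (f0 : R0 →+* R0') (f1 : R1 →+* R1') (f01 : R01 →+* R01')
    (h0 : f01.comp (algebraMap R0 R01) = (algebraMap R0' R01').comp f0)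
    (h1 : f01.comp (algebraMap R1 R01) = (algebraMap R1' R01').comp f1)
    [IsLocalization.Away (f1 y) R01']
    (I : Ideal R0) {u : R1} (hu : u ∈ contr R1 R01 I) (hc : IsCoprime u y) :
    (contr R1 R01 I).map f1 = contr R1' R01' (I.map f0) := by
  have hmap : ((I.map (algebraMap R0 R01)).map f01) = (I.map f0).map (algebraMap R0' R01') := by
    rw [Ideal.map_map, Ideal.map_map, h0]
  have hu' : f1 u ∈ contr R1' R01' (I.map f0) := by
    rw [mem_contr, ← hmap]
    have : algebraMap R1' R01' (f1 u) = f01 (algebraMap R1 R01 u) := by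
      have := congrArg (fun g : R1 →+* R01' => g u) h1
      simpa using this.symm
    rw [this]
    exact Ideal.mem_map_of_mem _ hu
  refine ideal_eq_of_map_eq_of_isCoprime (S := R01') (f1 y) (Ideal.mem_map_of_mem _ hu) hu'
    (hc.map f1) (hc.map f1) ?_
  rw [map_contr (f1 y) (I.map f0), Ideal.map_map, ← h1, ← Ideal.map_map, map_contr y I, hmap]

end BaseChange

end Fermat.Agent.S25.H851

end
-- ===== PACK-END S25/H851/Contraction.lean

-- ===== PACK-BEGIN S25/H371/NilNakayama.lean
section


/-!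
# S25 / HILB / H4, part 1 (helper371): Nakayama for nilpotent ideals and base change along a
surjection `R → S` with nilpotent kernel

Everything is stated for `[Algebra R S]` with
`hsurj : Function.Surjective (algebraMap R S)` and
`hnil : IsNilpotent (RingHom.ker (algebraMap R S))` (ideal-nilpotent: `I ^ k = 0`; this covers the
square-zero case `I ^ 2 = 0`).  No finiteness or noetherian hypotheses.
-/

set_option autoImplicit false

open TensorProduct

namespace Fermat.Agent.S25.H371

section Nakayama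

variable {R : Type*} [CommRing R] {M : Type*} [AddCommGroup M] [Module R M]

/-- Nakayama for a nilpotent ideal (no finiteness): `N ≤ I • N` forces `N = ⊥`. -/
theorem eq_bot_of_le_smul_of_isNilpotent {I : Ideal R} (hI : IsNilpotent I)
    {N : Submodule R M} (h : N ≤ I • N) : N = ⊥ := by
  obtain ⟨k, hk⟩ := hI
  have key : ∀ j : ℕ, N ≤ I ^ j • N := by
    intro j
    induction j with
    | zero => simp
    | succ j ih =>
      calc N ≤ I • N := h
        _ ≤ I • (I ^ j • N) := Submodule.smul_mono le_rfl ih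
        _ = I ^ (j + 1) • N := by rw [← Submodule.mul_smul, ← pow_succ']
  have h2 := key k
  rw [hk] at h2
  have h3 : (0 : Ideal R) • N = ⊥ := by
    rw [Ideal.zero_eq_bot, Submodule.bot_smul]
  rw [h3] at h2
  exact le_bot_iff.mp h2

/-- Relative Nakayama for a nilpotent ideal (no finiteness): `N ⊔ I • ⊤ = ⊤` forces `N = ⊤`. -/
theorem eq_top_of_sup_smul_top_eq_top_of_isNilpotent {I : Ideal R} (hI : IsNilpotent I)
    {N : Submodule R M} (h : N ⊔ I • (⊤ : Submodule R M) = ⊤) : N = ⊤ := by
  obtain ⟨k, hk⟩ := hI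
  have key : ∀ j : ℕ, N ⊔ I ^ j • (⊤ : Submodule R M) = ⊤ := by
    intro j
    induction j with
    | zero => simp
    | succ j ih =>
      rw [eq_top_iff]
      calc (⊤ : Submodule R M) = N ⊔ I • (⊤ : Submodule R M) := h.symm
        _ = N ⊔ I • (N ⊔ I ^ j • (⊤ : Submodule R M)) := by rw [ih]
        _ = N ⊔ (I • N ⊔ I • (I ^ j • (⊤ : Submodule R M))) := by rw [Submodule.smul_sup]
        _ ≤ N ⊔ I ^ (j + 1) • (⊤ : Submodule R M) := by
          rw [← Submodule.mul_smul, ← pow_succ']
          refine sup_le le_sup_left (sup_le ?_ le_sup_right)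
          exact le_trans Submodule.smul_le_right le_sup_left
  have h2 := key k
  rw [hk, Ideal.zero_eq_bot, Submodule.bot_smul, sup_bot_eq] at h2
  exact h2

end Nakayama

section BaseChange

variable {R S : Type*} [CommRing R] [CommRing S] [Algebra R S]
variable {M : Type*} [AddCommGroup M] [Module R M]
variable {N : Type*} [AddCommGroup N] [Module R N]

/-- Elements of `I • M` die in `S ⊗[R] M`, `I = ker (R → S)`. -/
theorem one_tmul_eq_zero_of_mem_smul {m : M}
    (hm : m ∈ RingHom.ker (algebraMap R S) • (⊤ : Submodule R M)) :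
    (1 : S) ⊗ₜ[R] m = 0 := by
  refine Submodule.smul_induction_on hm ?_ ?_
  · intro a ha n _
    rw [RingHom.mem_ker] at ha
    rw [← TensorProduct.smul_tmul, Algebra.smul_def, ha, zero_mul, TensorProduct.zero_tmul]
  · intro x y hx hy
    rw [TensorProduct.tmul_add, hx, hy, add_zero]

/-- If `R → S` is surjective, every element of `S ⊗[R] M` is a pure tensor `1 ⊗ m`. -/
theorem exists_one_tmul_eq (hsurj : Function.Surjective (algebraMap R S)) (x : S ⊗[R] M) :
    ∃ m : M, (1 : S) ⊗ₜ[R] m = x := by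
  induction x using TensorProduct.induction_on with
  | zero => exact ⟨0, by simp⟩
  | tmul s m =>
    obtain ⟨r, rfl⟩ := hsurj s
    refine ⟨r • m, ?_⟩
    rw [← TensorProduct.smul_tmul, Algebra.smul_def, mul_one]
  | add x y hx hy =>
    obtain ⟨m, rfl⟩ := hx
    obtain ⟨m', rfl⟩ := hy
    exact ⟨m + m', by rw [TensorProduct.tmul_add]⟩

/-- If `R → S` is surjective with kernel `I`, then `1 ⊗ m = 0` in `S ⊗[R] M` iff `m ∈ I • M`. -/
theorem one_tmul_eq_zero_iff (hsurj : Function.Surjective (algebraMap R S)) {m : M} :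
    (1 : S) ⊗ₜ[R] m = 0 ↔ m ∈ RingHom.ker (algebraMap R S) • (⊤ : Submodule R M) := by
  refine ⟨fun h => ?_, one_tmul_eq_zero_of_mem_smul⟩
  set I := RingHom.ker (algebraMap R S) with hI
  -- `S ≃ R ⧸ I` as `R`-algebras
  let e : (R ⧸ RingHom.ker (Algebra.ofId R S)) ≃ₐ[R] S :=
    Ideal.quotientKerAlgEquivOfSurjective (f := Algebra.ofId R S) hsurj
  have hker : RingHom.ker (Algebra.ofId R S) = I := rfl
  let t : S ⊗[R] M ≃ₗ[R] (R ⧸ RingHom.ker (Algebra.ofId R S)) ⊗[R] M :=
    TensorProduct.congr e.symm.toLinearEquiv (LinearEquiv.refl R M)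
  have h1 : t ((1 : S) ⊗ₜ[R] m) = (1 : R ⧸ RingHom.ker (Algebra.ofId R S)) ⊗ₜ[R] m := by
    simp [t]
  have h2 : (1 : R ⧸ RingHom.ker (Algebra.ofId R S)) ⊗ₜ[R] m = 0 := by
    rw [← h1, h, map_zero]
  have h3 := congrArg (TensorProduct.quotTensorEquivQuotSMul M
    (RingHom.ker (Algebra.ofId R S))) h2
  rw [map_zero] at h3
  have h4 : (TensorProduct.quotTensorEquivQuotSMul M (RingHom.ker (Algebra.ofId R S)))
      ((1 : R ⧸ RingHom.ker (Algebra.ofId R S)) ⊗ₜ[R] m) =
      Submodule.Quotient.mk m := by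
    have : (1 : R ⧸ RingHom.ker (Algebra.ofId R S)) =
        Ideal.Quotient.mk (RingHom.ker (Algebra.ofId R S)) 1 := rfl
    rw [this, TensorProduct.quotTensorEquivQuotSMul_mk_tmul, one_smul]
  rw [h4, Submodule.Quotient.mk_eq_zero] at h3
  exact h3

/-- Surjectivity can be checked after base change along a surjection with nilpotent kernel. -/
theorem surjective_of_baseChange_surjective
    (hsurj : Function.Surjective (algebraMap R S))
    (hnil : IsNilpotent (RingHom.ker (algebraMap R S)))
    (g : M →ₗ[R] N) (hg : Function.Surjective (g.baseChange S)) : Function.Surjective g := by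
  rw [← LinearMap.range_eq_top]
  apply eq_top_of_sup_smul_top_eq_top_of_isNilpotent hnil
  rw [eq_top_iff]
  intro n _
  obtain ⟨x, hx⟩ := hg ((1 : S) ⊗ₜ[R] n)
  obtain ⟨m, rfl⟩ := exists_one_tmul_eq hsurj x
  rw [LinearMap.baseChange_tmul] at hx
  have h0 : (1 : S) ⊗ₜ[R] (n - g m) = 0 := by
    rw [TensorProduct.tmul_sub, hx, sub_self]
  have h1 := (one_tmul_eq_zero_iff hsurj).mp h0
  have : n = g m + (n - g m) := by abel
  rw [this]
  exact Submodule.add_mem_sup (LinearMap.mem_range_self g m) h1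

/-- Injectivity can be checked after base change along a surjection with nilpotent kernel,
for a surjective map onto a projective module. -/
theorem injective_of_baseChange_injective [Module.Projective R N]
    (hsurj : Function.Surjective (algebraMap R S))
    (hnil : IsNilpotent (RingHom.ker (algebraMap R S)))
    (g : M →ₗ[R] N) (hgs : Function.Surjective g)
    (hg : Function.Injective (g.baseChange S)) : Function.Injective g := by
  obtain ⟨s, hs⟩ := Module.projective_lifting_property g LinearMap.id hgs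
  rw [← LinearMap.ker_eq_bot]
  apply eq_bot_of_le_smul_of_isNilpotent hnil
  intro k hk
  rw [LinearMap.mem_ker] at hk
  -- the projection onto the kernel
  let π : M →ₗ[R] M := LinearMap.id - s ∘ₗ g
  have hπk : π k = k := by simp [π, hk]
  have hπ : ∀ m, π m ∈ LinearMap.ker g := by
    intro m
    have : g (s (g m)) = g m := by
      have := LinearMap.congr_fun hs (g m)
      simpa using this
    simp [π, LinearMap.mem_ker, this]
  have h0 : (1 : S) ⊗ₜ[R] k = 0 := by
    apply hg
    rw [LinearMap.baseChange_tmul, hk, TensorProduct.tmul_zero, map_zero]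
  have h1 := (one_tmul_eq_zero_iff hsurj).mp h0
  have h2 : π k ∈ Submodule.map π (RingHom.ker (algebraMap R S) • (⊤ : Submodule R M)) :=
    Submodule.mem_map_of_mem h1
  rw [Submodule.map_smul'', hπk] at h2
  refine Submodule.smul_mono le_rfl ?_ h2
  rintro _ ⟨m, -, rfl⟩
  exact hπ m

/-- Bijectivity can be checked after base change along a surjection with nilpotent kernel,
if the target is projective. -/
theorem bijective_of_baseChange_bijective [Module.Projective R N]
    (hsurj : Function.Surjective (algebraMap R S))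
    (hnil : IsNilpotent (RingHom.ker (algebraMap R S)))
    (g : M →ₗ[R] N) (hg : Function.Bijective (g.baseChange S)) : Function.Bijective g := by
  have h1 := surjective_of_baseChange_surjective hsurj hnil g hg.2
  exact ⟨injective_of_baseChange_injective hsurj hnil g h1 hg.1, h1⟩

/-- **H4 (c)**: any `R`-linear lift of an isomorphism `S ⊗ M ≃ S ⊗ N` (with `N` projective) is
an isomorphism. -/
theorem exists_linearEquiv_of_baseChange_eq [Module.Projective R N]
    (hsurj : Function.Surjective (algebraMap R S))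
    (hnil : IsNilpotent (RingHom.ker (algebraMap R S)))
    (g : M →ₗ[R] N) (φ : S ⊗[R] M ≃ₗ[S] S ⊗[R] N)
    (hg : g.baseChange S = (φ : S ⊗[R] M →ₗ[S] S ⊗[R] N)) :
    ∃ e : M ≃ₗ[R] N, (e : M →ₗ[R] N) = g := by
  have hb : Function.Bijective (g.baseChange S) := by
    rw [hg]
    exact φ.bijective
  exact ⟨LinearEquiv.ofBijective g (bijective_of_baseChange_bijective hsurj hnil g hb), rfl⟩

/-- Lifting of linear maps from a projective module along `R → S` surjective. -/
theorem exists_linearMap_baseChange_eq [Module.Projective R M]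
    (hsurj : Function.Surjective (algebraMap R S))
    (φ : S ⊗[R] M →ₗ[S] S ⊗[R] N) :
    ∃ g : M →ₗ[R] N, g.baseChange S = φ := by
  have hmk : Function.Surjective (TensorProduct.mk R S N 1) := by
    intro x
    obtain ⟨n, hn⟩ := exists_one_tmul_eq hsurj x
    exact ⟨n, hn⟩
  obtain ⟨g, hg⟩ := Module.projective_lifting_property (TensorProduct.mk R S N 1)
    ((φ.restrictScalars R) ∘ₗ (TensorProduct.mk R S M 1)) hmk
  refine ⟨g, ?_⟩
  apply TensorProduct.AlgebraTensorModule.ext
  intro s m
  have h1 := LinearMap.congr_fun hg m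
  simp only [LinearMap.coe_comp, Function.comp_apply, TensorProduct.mk_apply,
    LinearMap.coe_restrictScalars] at h1
  have h2 : s ⊗ₜ[R] m = s • ((1 : S) ⊗ₜ[R] m) := by
    rw [TensorProduct.smul_tmul', smul_eq_mul, mul_one]
  have h3 : s ⊗ₜ[R] g m = s • ((1 : S) ⊗ₜ[R] g m) := by
    rw [TensorProduct.smul_tmul', smul_eq_mul, mul_one]
  rw [LinearMap.baseChange_tmul, h2, map_smul, ← h1, h3]

/-- **H4 (b)**: isomorphisms between projective modules lift along a surjection `R → S` with
nilpotent kernel: every `S`-linear isomorphism `S ⊗ M ≃ S ⊗ N` is the base change of an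
`R`-linear isomorphism `M ≃ N`. -/
theorem exists_linearEquiv_baseChange_eq [Module.Projective R M] [Module.Projective R N]
    (hsurj : Function.Surjective (algebraMap R S))
    (hnil : IsNilpotent (RingHom.ker (algebraMap R S)))
    (φ : S ⊗[R] M ≃ₗ[S] S ⊗[R] N) :
    ∃ e : M ≃ₗ[R] N, (e : M →ₗ[R] N).baseChange S = (φ : S ⊗[R] M →ₗ[S] S ⊗[R] N) := by
  obtain ⟨g, hg⟩ := exists_linearMap_baseChange_eq hsurj (φ : S ⊗[R] M →ₗ[S] S ⊗[R] N)
  obtain ⟨e, he⟩ := exists_linearEquiv_of_baseChange_eq hsurj hnil g φ hg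
  exact ⟨e, by rw [he, hg]⟩

/-- Pointwise form of `exists_linearEquiv_baseChange_eq`. -/
theorem exists_linearEquiv_one_tmul [Module.Projective R M] [Module.Projective R N]
    (hsurj : Function.Surjective (algebraMap R S))
    (hnil : IsNilpotent (RingHom.ker (algebraMap R S)))
    (φ : S ⊗[R] M ≃ₗ[S] S ⊗[R] N) :
    ∃ e : M ≃ₗ[R] N, ∀ m : M, φ ((1 : S) ⊗ₜ[R] m) = (1 : S) ⊗ₜ[R] e m := by
  obtain ⟨e, he⟩ := exists_linearEquiv_baseChange_eq hsurj hnil φ
  refine ⟨e, fun m => ?_⟩
  have := LinearMap.congr_fun he ((1 : S) ⊗ₜ[R] m)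
  simpa using this.symm

end BaseChange

end Fermat.Agent.S25.H371

end
-- ===== PACK-END S25/H371/NilNakayama.lean

-- ===== PACK-BEGIN S25/H791/SupportBaseChange.lean
section


/-!
# S25 / ALGCHARTS helper (helper791): vanishing and surjectivity loci under base change

For a finitely generated `A`-module `M` and an `A`-algebra `A'`:
`A' ⊗[A] M = 0  ↔  (Ann_A M) A' = A'`.
For a linear map `f : E → F` with `F` finitely generated:
`f.baseChange A'` is surjective `↔ (Ann_A (F ⧸ range f)) A' = A'`.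

These give the ideals `I i` of the `locus` field of `AlgChartFamily` ("openness via supports
of finitely generated modules").
-/

set_option autoImplicit false

open TensorProduct

namespace Fermat.Agent.S25.H791

universe u v w

section Vanishing

variable {A : Type u} [CommRing A] (M : Type v) [AddCommGroup M] [Module A M]
  (A' : Type w) [CommRing A'] [Algebra A A']

/-- If the annihilator of `M` generates the unit ideal of `A'`, then `A' ⊗[A] M = 0`
(no finiteness needed). -/
theorem subsingleton_tensorProduct_of_annihilator_map_eq_top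
    (h : (Module.annihilator A M).map (algebraMap A A') = ⊤) : Subsingleton (A' ⊗[A] M) := by
  have h1 : (1 : A') ∈ (Module.annihilator A M).map (algebraMap A A') := by
    rw [h]; exact Submodule.mem_top
  -- every element of the ideal generated by the annihilator kills `A' ⊗ M`
  have key : ∀ c ∈ (Module.annihilator A M).map (algebraMap A A'),
      ∀ z : A' ⊗[A] M, c • z = 0 := by
    intro c hc
    refine Submodule.span_induction (p := fun c _ => ∀ z : A' ⊗[A] M, c • z = 0)
      ?_ ?_ ?_ ?_ hc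
    · rintro _ ⟨a, ha, rfl⟩ z
      induction z using TensorProduct.induction_on with
      | zero => simp
      | tmul b m =>
        rw [TensorProduct.smul_tmul', smul_eq_mul, ← Algebra.smul_def,
          TensorProduct.smul_tmul, Module.mem_annihilator.mp ha m, TensorProduct.tmul_zero]
      | add z w hz hw => rw [smul_add, hz, hw, add_zero]
    · intro z; simp
    · intro c c' _ _ hc hc' z
      rw [add_smul, hc z, hc' z, add_zero]
    · intro r c _ hc z
      rw [smul_eq_mul, mul_smul, hc z, smul_zero]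
  refine ⟨fun z w => ?_⟩
  rw [← one_smul A' z, ← one_smul A' w, key 1 h1 z, key 1 h1 w]

variable [Module.Finite A M]

/-- For a finitely generated module, `A' ⊗[A] M = 0` forces the annihilator of `M` to generate
the unit ideal of `A'`. -/
theorem annihilator_map_eq_top_of_subsingleton_tensorProduct
    (h : Subsingleton (A' ⊗[A] M)) : (Module.annihilator A M).map (algebraMap A A') = ⊤ := by
  by_contra hne
  obtain ⟨m', hm', hle⟩ := Ideal.exists_le_maximal _ hne
  -- the prime `p` of `A` below `m'`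
  let p : PrimeSpectrum A := ⟨m'.comap (algebraMap A A'), inferInstance⟩
  have hp : Module.annihilator A M ≤ p.asIdeal := fun a ha =>
    Ideal.mem_comap.mpr (hle (Ideal.mem_map_of_mem _ ha))
  have hsupp : p ∈ Module.support A M := by
    rw [Module.support_eq_zeroLocus]
    exact hp
  rw [Module.mem_support_iff_nontrivial_residueField_tensorProduct] at hsupp
  -- the residue field `κ' = A' / m'` is an algebra over `κ(p)`
  let κ' := A' ⧸ m'
  let _ : Field κ' := Ideal.Quotient.field m'
  -- `κ' ⊗[A] M` is a quotient of `A' ⊗[A] M`, hence zero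
  have h0 : Subsingleton (κ' ⊗[A] M) := by
    have hsurj : Function.Surjective
        (LinearMap.rTensor M ((Ideal.Quotient.mkₐ A m').toLinearMap)) :=
      LinearMap.rTensor_surjective M (Ideal.Quotient.mkₐ_surjective A m')
    exact hsurj.subsingleton
  -- ring hom `κ(p) → κ'`
  let φ : p.asIdeal.ResidueField →+* κ' :=
    Ideal.ResidueField.lift p.asIdeal (algebraMap A κ') (by
      intro a ha
      rw [RingHom.mem_ker, IsScalarTower.algebraMap_apply A A' κ',
        Ideal.Quotient.algebraMap_eq, Ideal.Quotient.eq_zero_iff_mem]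
      exact ha)
      (by
        intro a ha
        apply IsUnit.mk0
        intro h0
        apply ha
        rw [IsScalarTower.algebraMap_apply A A' κ',
          Ideal.Quotient.algebraMap_eq, Ideal.Quotient.eq_zero_iff_mem] at h0
        exact h0)
  let _ : Algebra p.asIdeal.ResidueField κ' := φ.toAlgebra
  have : IsScalarTower A p.asIdeal.ResidueField κ' := IsScalarTower.of_algebraMap_eq' (by
    ext a
    simp only [RingHom.algebraMap_toAlgebra, φ, RingHom.comp_apply]
    exact (Ideal.ResidueField.lift_algebraMap _ _ _ _ a).symm)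
  -- `κ' ⊗[A] M ≃ κ' ⊗[κ(p)] (κ(p) ⊗[A] M)` is nontrivial
  let e := AlgebraTensorModule.cancelBaseChange A p.asIdeal.ResidueField κ' κ' M
  have : Nontrivial (p.asIdeal.ResidueField ⊗[A] M) := hsupp
  have : Nontrivial (κ' ⊗[p.asIdeal.ResidueField] (p.asIdeal.ResidueField ⊗[A] M)) := by
    have : Module.Free p.asIdeal.ResidueField (p.asIdeal.ResidueField ⊗[A] M) :=
      Module.Free.of_divisionRing _ _
    infer_instance
  exact not_subsingleton _ (e.symm.toEquiv.subsingleton_congr.mp h0)

/-- **Support and base change.** For a finitely generated `A`-module `M` and an `A`-algebra `A'`,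
`A' ⊗[A] M = 0` iff the annihilator of `M` generates the unit ideal of `A'`. -/
theorem subsingleton_tensorProduct_iff :
    Subsingleton (A' ⊗[A] M) ↔ (Module.annihilator A M).map (algebraMap A A') = ⊤ :=
  ⟨annihilator_map_eq_top_of_subsingleton_tensorProduct M A',
    subsingleton_tensorProduct_of_annihilator_map_eq_top M A'⟩

end Vanishing

section Surjectivity

variable {A : Type u} [CommRing A] {E : Type v} {F : Type v} [AddCommGroup E] [Module A E]
  [AddCommGroup F] [Module A F] (f : E →ₗ[A] F)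
  (A' : Type w) [CommRing A'] [Algebra A A']

/-- `f.baseChange A'` is surjective iff `A' ⊗ coker f = 0` (right exactness of `⊗`). -/
theorem baseChange_surjective_iff_subsingleton :
    Function.Surjective (f.baseChange A') ↔
      Subsingleton (A' ⊗[A] (F ⧸ LinearMap.range f)) := by
  have hex : Function.Exact f (LinearMap.range f).mkQ := by
    intro y
    rw [Submodule.mkQ_apply, Submodule.Quotient.mk_eq_zero]
    exact Iff.rfl
  have hsurj : Function.Surjective (LinearMap.range f).mkQ := Submodule.mkQ_surjective _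
  have hex' := lTensor_exact A' hex hsurj
  have hsurj' : Function.Surjective ((LinearMap.range f).mkQ.lTensor A') :=
    LinearMap.lTensor_surjective A' hsurj
  have hfun : (f.baseChange A' : A' ⊗[A] E → A' ⊗[A] F) = f.lTensor A' :=
    LinearMap.baseChange_eq_ltensor f
  constructor
  · intro h
    refine ⟨fun z w => ?_⟩
    obtain ⟨z', rfl⟩ := hsurj' z
    obtain ⟨w', rfl⟩ := hsurj' w
    obtain ⟨z'', hz⟩ := h z'
    obtain ⟨w'', hw⟩ := h w'
    rw [hfun] at hz hw
    rw [(hex' z').mpr ⟨z'', hz⟩, (hex' w').mpr ⟨w'', hw⟩]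
  · intro h z
    have : ((LinearMap.range f).mkQ.lTensor A') z = 0 := Subsingleton.elim _ _
    obtain ⟨z', hz'⟩ := (hex' z).mp this
    exact ⟨z', by rw [hfun]; exact hz'⟩

variable [Module.Finite A F]

/-- **Surjectivity locus.** For `f : E → F` with `F` finitely generated, `f.baseChange A'` is
surjective iff the annihilator of `coker f` generates the unit ideal of `A'`. -/
theorem baseChange_surjective_iff :
    Function.Surjective (f.baseChange A') ↔
      (Module.annihilator A (F ⧸ LinearMap.range f)).map (algebraMap A A') = ⊤ := by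
  rw [baseChange_surjective_iff_subsingleton, subsingleton_tensorProduct_iff]

end Surjectivity

end Fermat.Agent.S25.H791

end
-- ===== PACK-END S25/H791/SupportBaseChange.lean

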