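import Mathlib
import Fermat.Prelude.Def_GoodReductionJacobian_RelativeGroupLawKernel
import Fermat.Agent.Pack.S43MC.G0E0L2

-- ===== PACK-BEGIN S25/H431/Schanuel.lean
section
/-
S25 / block HILB (helper431): Schanuel's lemma.
-/


set_option autoImplicit false

namespace Fermat.Agent.S25.H431

section Schanuel

variable {R : Type*} [Ring R] {N₁ N₂ Q : Type*} [AddCommGroup N₁] [AddCommGroup N₂]
  [AddCommGroup Q] [Module R N₁] [Module R N₂] [Module R Q]

/-- The fibre product of two linear maps, as a submodule of the product. -/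
def fibProd (f : N₁ →ₗ[R] Q) (g : N₂ →ₗ[R] Q) : Submodule R (N₁ × N₂) :=
  LinearMap.eqLocus (f ∘ₗ LinearMap.fst R N₁ N₂) (g ∘ₗ LinearMap.snd R N₁ N₂)

theorem mem_fibProd {f : N₁ →ₗ[R] Q} {g : N₂ →ₗ[R] Q} {x : N₁ × N₂} :
    x ∈ fibProd f g ↔ f x.1 = g x.2 := Iff.rfl

/-- Half of Schanuel: the fibre product is `ker g × N₁` when `N₁` is projective and `g` is
surjective. -/
theorem fibProdEquivLeft (f : N₁ →ₗ[R] Q) (g : N₂ →ₗ[R] Q)
    (hg : Function.Surjective g) [Module.Projective R N₁] :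
    Nonempty ((LinearMap.ker g × N₁) ≃ₗ[R] fibProd f g) := by
  classical
  -- the projection to `N₁`
  let p : fibProd f g →ₗ[R] N₁ := LinearMap.fst R N₁ N₂ ∘ₗ (fibProd f g).subtype
  have hp : Function.Surjective p := by
    intro x
    obtain ⟨y, hy⟩ := hg (f x)
    exact ⟨⟨(x, y), hy.symm⟩, rfl⟩
  obtain ⟨s, hs⟩ := Module.projective_lifting_property p (LinearMap.id : N₁ →ₗ[R] N₁) hp
  let j : LinearMap.ker g →ₗ[R] fibProd f g :=
    LinearMap.codRestrict (fibProd f g) (LinearMap.inr R N₁ N₂ ∘ₗ (LinearMap.ker g).subtype)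
      (fun y => by
        change f 0 = g y.1
        rw [map_zero, (LinearMap.mem_ker.mp y.2)])
  have hj : Function.Injective j := by
    intro y y' h
    have := congrArg (fun z : fibProd f g => (z : N₁ × N₂).2) h
    exact Subtype.ext this
  have hex : LinearMap.range j = LinearMap.ker p := by
    ext ⟨⟨x, y⟩, hxy⟩
    constructor
    · rintro ⟨z, hz⟩
      have := congrArg (fun z : fibProd f g => (z : N₁ × N₂).1) hz
      simp only [LinearMap.mem_ker]
      exact this.symm
    · intro h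
      have hx : x = 0 := h
      subst hx
      have hy : g y = 0 := by
        have := hxy
        change f 0 = g y at this
        rw [map_zero] at this
        exact this.symm
      exact ⟨⟨y, hy⟩, rfl⟩
  exact ⟨lequivProdOfRightSplitExact hj hex hs⟩

/-- **Schanuel's lemma.** -/
theorem schanuel (f : N₁ →ₗ[R] Q) (g : N₂ →ₗ[R] Q)
    (hf : Function.Surjective f) (hg : Function.Surjective g)
    [Module.Projective R N₁] [Module.Projective R N₂] :
    Nonempty ((LinearMap.ker f × N₂) ≃ₗ[R] (LinearMap.ker g × N₁)) := by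
  obtain ⟨e₁⟩ := fibProdEquivLeft f g hg
  obtain ⟨e₂⟩ := fibProdEquivLeft g f hf
  -- swap the factors of the fibre product
  let sw : fibProd g f ≃ₗ[R] fibProd f g :=
    { toFun := fun z => ⟨(z.1.2, z.1.1), (z.2 : g z.1.1 = f z.1.2).symm⟩
      invFun := fun z => ⟨(z.1.2, z.1.1), (z.2 : f z.1.1 = g z.1.2).symm⟩
      map_add' := fun _ _ => rfl
      map_smul' := fun _ _ => rfl
      left_inv := fun _ => rfl
      right_inv := fun _ => rfl }
  exact ⟨(e₂.trans sw).trans e₁.symm⟩

end Schanuel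

end Fermat.Agent.S25.H431

end
-- ===== PACK-END S25/H431/Schanuel.lean

-- ===== PACK-BEGIN S25/H431/RankInv.lean
section
/-
S25 / block HILB (helper431): rank of an invertible module over a finite projective algebra.
-/


set_option autoImplicit false

open TensorProduct

namespace Fermat.Agent.S25.H431

section RankInv

/-- Projectivity is transitive along a finite projective extension (finite case). -/
theorem projective_trans (R M P : Type*) [CommRing R] [CommRing M] [Algebra R M]
    [Module.Projective R M] [AddCommGroup P] [Module M P] [Module R P]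
    [IsScalarTower R M P] [Module.Finite M P] [Module.Projective M P] :
    Module.Projective R P := by
  obtain ⟨n, f, g, -, -, hfg⟩ := Module.Finite.exists_comp_eq_id_of_projective M P
  have : Module.Projective R (Fin n → M) :=
    Module.Projective.of_equiv
      (DFinsupp.linearEquivFunOnFintype (R := R) (M := fun _ : Fin n => M))
  refine Module.Projective.of_split (g.restrictScalars R) (f.restrictScalars R) ?_
  ext x
  exact LinearMap.congr_fun hfg x

attribute [local instance] Algebra.TensorProduct.rightAlgebra in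
/-- An invertible module over a finite projective `R`-algebra `M` has the same `R`-rank as `M`. -/
theorem rankAtStalk_eq_of_invertible (R M P : Type*) [CommRing R] [CommRing M] [Algebra R M]
    [Module.Finite R M] [Module.Projective R M] [AddCommGroup P] [Module M P] [Module R P]
    [IsScalarTower R M P] [Module.Invertible M P] (p : PrimeSpectrum R) :
    Module.rankAtStalk (R := R) P p = Module.rankAtStalk (R := R) M p := by
  classical
  have : Module.Finite R P := Module.Finite.trans M P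
  have : Module.Flat R P := Module.Flat.trans R M P
  rw [Module.rankAtStalk_eq, Module.rankAtStalk_eq]
  let κ := p.asIdeal.ResidueField
  change Module.finrank κ (κ ⊗[R] P) = Module.finrank κ (κ ⊗[R] M)
  have : IsArtinianRing (κ ⊗[R] M) := IsArtinianRing.of_finite κ _
  have : Module.Free (κ ⊗[R] M) ((κ ⊗[R] M) ⊗[M] P) := inferInstance
  obtain ⟨e⟩ := Module.Invertible.free_iff_linearEquiv.mp this
  have e1 : (κ ⊗[R] M) ⊗[M] P ≃ₗ[κ] κ ⊗[R] P :=
    Algebra.IsPushout.cancelBaseChange R κ M (κ ⊗[R] M) P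
  have e2 : (κ ⊗[R] M) ⊗[M] P ≃ₗ[κ] κ ⊗[R] M := e.restrictScalars κ
  rw [← e1.finrank_eq, e2.finrank_eq]

end RankInv

end Fermat.Agent.S25.H431

end
-- ===== PACK-END S25/H431/RankInv.lean

-- ===== PACK-BEGIN S25/H11/Schanuel.lean
section


/-!
# S25 / HILB / H0a (helper11): Schanuel's lemma

If `0 → K → P → M → 0` and `0 → K' → P' → M → 0` are exact with `P`, `P'` projective then
`K × P' ≃ K' × P`.

The kernel form `schanuel_ker` is stated for maps which are semilinear over a ring homomorphism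
`σ : R →+* S` (so that the common target `M` may be a module over another ring `S`, e.g. a
quotient ring of `R` regarded as a module over itself); `schanuel` is the usual linear form.
-/

set_option autoImplicit false
set_option linter.unusedVariables false

namespace Fermat.Agent.S25.H11

universe u v

variable {R : Type u} [Ring R]

section split

variable {X P : Type*} [AddCommGroup X] [Module R X] [AddCommGroup P] [Module R P]

/-- A surjection onto a projective module splits: `X ≃ ker f × P`. -/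
theorem nonempty_equiv_ker_prod [Module.Projective R P] (f : X →ₗ[R] P)
    (hf : Function.Surjective f) : Nonempty (X ≃ₗ[R] (LinearMap.ker f × P)) := by
  obtain ⟨s, hs⟩ := LinearMap.exists_rightInverse_of_surjective f (LinearMap.range_eq_top.mpr hf)
  have hs' : ∀ p, f (s p) = p := fun p => by
    have := congrArg (fun g : P →ₗ[R] P => g p) hs
    simpa using this
  refine ⟨LinearEquiv.ofLinearMap
    (LinearMap.prod
      (LinearMap.codRestrict (LinearMap.ker f) (LinearMap.id - s.comp f) (fun x => by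
        simp [LinearMap.mem_ker, hs']))
      f)
    (LinearMap.coprod (LinearMap.ker f).subtype s) ?_ ?_⟩
  · apply LinearMap.ext
    rintro ⟨⟨y, hy⟩, p⟩
    have hy' : f y = 0 := hy
    apply Prod.ext
    · apply Subtype.ext
      simp [hy', hs']
    · simp [hy', hs']
  · apply LinearMap.ext
    intro x
    simp

end split

section semilinear

variable {S : Type*} [Ring S] {σ : R →+* S} {P P' M : Type*}
  [AddCommGroup P] [Module R P] [AddCommGroup P'] [Module R P']
  [AddCommGroup M] [Module S M]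

/-- The pullback `P ×_M P'`. -/
def pullbackSub (π : P →ₛₗ[σ] M) (π' : P' →ₛₗ[σ] M) : Submodule R (P × P') where
  carrier := {x | π x.1 = π' x.2}
  add_mem' := fun {x y} hx hy => by
    simp only [Set.mem_ofPred_eq] at hx hy ⊢
    simp [hx, hy]
  zero_mem' := by simp
  smul_mem' := fun c x hx => by
    simp only [Set.mem_ofPred_eq] at hx ⊢
    simp [hx]

lemma mem_pullbackSub {π : P →ₛₗ[σ] M} {π' : P' →ₛₗ[σ] M} {x : P × P'} :
    x ∈ pullbackSub π π' ↔ π x.1 = π' x.2 := Iff.rfl

/-- First projection of the pullback. -/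
def pullbackFst (π : P →ₛₗ[σ] M) (π' : P' →ₛₗ[σ] M) : pullbackSub π π' →ₗ[R] P :=
  (LinearMap.fst R P P').comp (pullbackSub π π').subtype

lemma pullbackFst_surjective (π : P →ₛₗ[σ] M) {π' : P' →ₛₗ[σ] M}
    (hπ' : Function.Surjective π') : Function.Surjective (pullbackFst π π') := by
  intro p
  obtain ⟨p', hp'⟩ := hπ' (π p)
  exact ⟨⟨(p, p'), mem_pullbackSub.mpr hp'.symm⟩, rfl⟩

/-- The kernel of the first projection of the pullback is the kernel of `π'`. -/
def kerPullbackFstEquiv (π : P →ₛₗ[σ] M) (π' : P' →ₛₗ[σ] M) :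
    LinearMap.ker (pullbackFst π π') ≃ₗ[R] LinearMap.ker π' where
  toFun x := ⟨(x : pullbackSub π π').1.2, by
    have h1 : (x : pullbackSub π π').1.1 = 0 := x.2
    have h2 := mem_pullbackSub.mp (x : pullbackSub π π').2
    rw [h1, map_zero] at h2
    exact h2.symm⟩
  map_add' x y := rfl
  map_smul' c x := rfl
  invFun y := ⟨⟨(0, (y : P')), mem_pullbackSub.mpr (by
    have : π' (y : P') = 0 := y.2
    simp [this])⟩, rfl⟩
  left_inv x := by
    apply Subtype.ext
    apply Subtype.ext
    have h1 : (x : pullbackSub π π').1.1 = 0 := x.2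
    exact Prod.ext h1.symm rfl
  right_inv y := rfl

/-- Symmetry of the pullback. -/
def pullbackSwap (π : P →ₛₗ[σ] M) (π' : P' →ₛₗ[σ] M) :
    pullbackSub π π' ≃ₗ[R] pullbackSub π' π where
  toFun x := ⟨(x.1.2, x.1.1), mem_pullbackSub.mpr (mem_pullbackSub.mp x.2).symm⟩
  map_add' x y := rfl
  map_smul' c x := rfl
  invFun x := ⟨(x.1.2, x.1.1), mem_pullbackSub.mpr (mem_pullbackSub.mp x.2).symm⟩
  left_inv x := rfl
  right_inv x := rfl

/-- One half of Schanuel: the pullback is `ker π' × P`. -/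
theorem nonempty_pullback_equiv [Module.Projective R P] (π : P →ₛₗ[σ] M) {π' : P' →ₛₗ[σ] M}
    (hπ' : Function.Surjective π') :
    Nonempty (pullbackSub π π' ≃ₗ[R] (LinearMap.ker π' × P)) := by
  obtain ⟨e⟩ := nonempty_equiv_ker_prod (pullbackFst π π') (pullbackFst_surjective π hπ')
  exact ⟨e ≪≫ₗ LinearEquiv.prodCongr (kerPullbackFstEquiv π π') (LinearEquiv.refl R P)⟩

/-- **Schanuel's lemma**, kernel form, for semilinear maps. -/
theorem schanuel_ker [Module.Projective R P] [Module.Projective R P'] {π : P →ₛₗ[σ] M}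
    {π' : P' →ₛₗ[σ] M} (hπ : Function.Surjective π) (hπ' : Function.Surjective π') :
    Nonempty ((LinearMap.ker π × P') ≃ₗ[R] (LinearMap.ker π' × P)) := by
  obtain ⟨e⟩ := nonempty_pullback_equiv π hπ'
  obtain ⟨e'⟩ := nonempty_pullback_equiv π' hπ
  exact ⟨e'.symm ≪≫ₗ (pullbackSwap π π').symm ≪≫ₗ e⟩

end semilinear

variable {K K' P P' M : Type*}
  [AddCommGroup K] [Module R K] [AddCommGroup K'] [Module R K']
  [AddCommGroup P] [Module R P] [AddCommGroup P'] [Module R P']
  [AddCommGroup M] [Module R M]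

/-- **Schanuel's lemma.** -/
theorem schanuel [Module.Projective R P] [Module.Projective R P']
    (i : K →ₗ[R] P) (π : P →ₗ[R] M) (i' : K' →ₗ[R] P') (π' : P' →ₗ[R] M)
    (hi : Function.Injective i) (hπ : Function.Surjective π)
    (hex : LinearMap.range i = LinearMap.ker π)
    (hi' : Function.Injective i') (hπ' : Function.Surjective π')
    (hex' : LinearMap.range i' = LinearMap.ker π') :
    Nonempty ((K × P') ≃ₗ[R] (K' × P)) := by
  obtain ⟨e⟩ := schanuel_ker hπ hπ'
  let a : K ≃ₗ[R] LinearMap.ker π :=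
    (LinearEquiv.ofInjective i hi) ≪≫ₗ LinearEquiv.ofEq _ _ hex
  let a' : K' ≃ₗ[R] LinearMap.ker π' :=
    (LinearEquiv.ofInjective i' hi') ≪≫ₗ LinearEquiv.ofEq _ _ hex'
  exact ⟨LinearEquiv.prodCongr a (LinearEquiv.refl R P') ≪≫ₗ e ≪≫ₗ
    LinearEquiv.prodCongr a'.symm (LinearEquiv.refl R P)⟩

end Fermat.Agent.S25.H11

end
-- ===== PACK-END S25/H11/Schanuel.lean

-- ===== PACK-BEGIN S25/H251/RepAlg.lean
section


/-!
# S25 / block HILB / leaf H1 (helper251): the representing algebra of a Hilbert chart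

`k` a commutative ring, `B` a `k`-algebra, `β : Fin g → B`.

* `MatPt k B β A`: pairs `(ρ, v)` with `ρ : B →ₐ[k] Matrix (Fin g) (Fin g) A` and `v : Fin g → A`
  such that `ρ (β i) *ᵥ v = e_i` ("commuting matrices + cyclic vector").
* `RepAlg k B β`: the explicit `k`-algebra (generic matrix entries and vector entries modulo the
  obvious relations) representing `A ↦ MatPt k B β A`.
* `repEquiv : (RepAlg k B β →ₐ[k] A) ≃ MatPt k B β A`, natural in `A` (`repEquiv_comp`).
* `RepAlg.finiteType`: `RepAlg k B β` is a finitely generated `k`-algebra if `B` is.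
-/

set_option autoImplicit false

namespace Fermat.Agent.S25.H251

open MvPolynomial

universe u v w w'

section Defs

variable (k : Type u) [CommRing k] (B : Type v) [CommRing B] [Algebra k B] {g : ℕ}

/-- A matrix point of the chart attached to `β`: a `k`-algebra map `ρ` from `B` to `g × g`
matrices over `A` together with a vector `v` such that `ρ (β i) *ᵥ v` is the `i`-th standard
basis vector. -/
@[ext]
structure MatPt (β : Fin g → B) (A : Type w) [CommRing A] [Algebra k A] where
  /-- the action of `B` on `A ^ g` -/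
  ρ : B →ₐ[k] Matrix (Fin g) (Fin g) A
  /-- the cyclic vector (the image of `1`) -/
  v : Fin g → A
  /-- `β i • v = e_i` -/
  cyc : ∀ i, (ρ (β i)).mulVec v = Pi.single i 1

namespace MatPt

variable {k B} {β : Fin g → B} {A : Type w} [CommRing A] [Algebra k A]
  {A' : Type w'} [CommRing A'] [Algebra k A']

/-- Functoriality of matrix points in the test algebra. -/
def map (φ : A →ₐ[k] A') (P : MatPt k B β A) : MatPt k B β A' where
  ρ := φ.mapMatrix.comp P.ρ
  v := φ ∘ P.v
  cyc i := by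
    have h : (φ : A → A') ∘ ((P.ρ (β i)).mulVec P.v) = (φ : A → A') ∘ (Pi.single i 1) :=
      congrArg (fun w : Fin g → A => (φ : A → A') ∘ w) (P.cyc i)
    have h2 : ((φ.mapMatrix.comp P.ρ) (β i)).mulVec (φ ∘ P.v) =
        (φ : A → A') ∘ ((P.ρ (β i)).mulVec P.v) := by
      ext j
      simp [Matrix.mulVec, dotProduct, map_sum, map_mul]
    rw [h2, h]
    ext j
    simp only [Function.comp_apply, Pi.single_apply]
    split_ifs <;> simp

@[simp] lemma map_ρ_apply (φ : A →ₐ[k] A') (P : MatPt k B β A) (b : B) (i j : Fin g) :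
    (P.map φ).ρ b i j = φ (P.ρ b i j) := rfl

@[simp] lemma map_v (φ : A →ₐ[k] A') (P : MatPt k B β A) (i : Fin g) :
    (P.map φ).v i = φ (P.v i) := rfl

lemma map_id (P : MatPt k B β A) : P.map (AlgHom.id k A) = P := by
  ext <;> simp

lemma map_comp {A'' : Type*} [CommRing A''] [Algebra k A''] (φ : A →ₐ[k] A')
    (ψ : A' →ₐ[k] A'') (P : MatPt k B β A) : P.map (ψ.comp φ) = (P.map φ).map ψ := by
  ext <;> simp

end MatPt

/-- The generators of the representing algebra: matrix entries `x_{b,i,j}` and vector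
entries `v_i`. -/
abbrev Gen (B : Type v) (g : ℕ) : Type v := (B × Fin g × Fin g) ⊕ Fin g

/-- The polynomial ring on the generators. -/
abbrev GenPoly (g : ℕ) : Type (max u v) := MvPolynomial (Gen B g) k

variable (g) in
/-- The generic matrix attached to `b : B`. -/
noncomputable def genMat (b : B) : Matrix (Fin g) (Fin g) (GenPoly k B g) :=
  Matrix.of fun i j => X (Sum.inl (b, i, j))

variable (g) in
/-- The generic vector. -/
noncomputable def genVec : Fin g → GenPoly k B g := fun i => X (Sum.inr i)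

/-- The relations: `b ↦ genMat b` is additive, multiplicative, compatible with scalars, and
`genMat (β i) *ᵥ genVec = e_i`. -/
def relSet (β : Fin g → B) : Set (GenPoly k B g) :=
  {p | ∃ (b b' : B) (i j : Fin g),
      p = genMat k B g (b + b') i j - (genMat k B g b + genMat k B g b') i j} ∪
  {p | ∃ (b b' : B) (i j : Fin g),
      p = genMat k B g (b * b') i j - (genMat k B g b * genMat k B g b') i j} ∪
  {p | ∃ (c : k) (i j : Fin g),
      p = genMat k B g (algebraMap k B c) i j -
        (algebraMap k (Matrix (Fin g) (Fin g) (GenPoly k B g)) c) i j} ∪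
  {p | ∃ (i j : Fin g),
      p = (genMat k B g (β i)).mulVec (genVec k B g) j - (Pi.single i 1 : Fin g → GenPoly k B g) j}

/-- The representing algebra of the chart attached to `β`. -/
def RepAlg (β : Fin g → B) : Type (max u v) := GenPoly k B g ⧸ Ideal.span (relSet k B β)

noncomputable instance (β : Fin g → B) : CommRing (RepAlg k B β) :=
  inferInstanceAs (CommRing (GenPoly k B g ⧸ Ideal.span (relSet k B β)))

noncomputable instance (β : Fin g → B) : Algebra k (RepAlg k B β) :=
  inferInstanceAs (Algebra k (GenPoly k B g ⧸ Ideal.span (relSet k B β)))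

/-- The quotient map from the polynomial ring. -/
noncomputable def RepAlg.mk (β : Fin g → B) : GenPoly k B g →ₐ[k] RepAlg k B β :=
  Ideal.Quotient.mkₐ k (Ideal.span (relSet k B β))

lemma RepAlg.mk_surjective (β : Fin g → B) : Function.Surjective (RepAlg.mk k B β) :=
  Ideal.Quotient.mkₐ_surjective k _

lemma RepAlg.mk_eq_zero {β : Fin g → B} {p : GenPoly k B g} (hp : p ∈ relSet k B β) :
    RepAlg.mk k B β p = 0 :=
  Ideal.Quotient.eq_zero_iff_mem.mpr (Ideal.subset_span hp)

end Defs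

section Universal

variable (k : Type u) [CommRing k] {B : Type v} [CommRing B] [Algebra k B] {g : ℕ}
variable (β : Fin g → B)

/-- The universal matrix attached to `b : B`, over the representing algebra. -/
noncomputable def uMat (b : B) : Matrix (Fin g) (Fin g) (RepAlg k B β) :=
  (RepAlg.mk k B β).mapMatrix (genMat k B g b)

/-- The universal cyclic vector. -/
noncomputable def uVec : Fin g → RepAlg k B β := fun i => RepAlg.mk k B β (genVec k B g i)

variable {k} in
lemma uMat_apply (b : B) (i j : Fin g) :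
    uMat k β b i j = RepAlg.mk k B β (X (Sum.inl (b, i, j))) := rfl

lemma uMat_add (b b' : B) : uMat k β (b + b') = uMat k β b + uMat k β b' := by
  ext i j
  have h := RepAlg.mk_eq_zero k B (β := β)
    (p := genMat k B g (b + b') i j - (genMat k B g b + genMat k B g b') i j)
    (Or.inl (Or.inl (Or.inl ⟨b, b', i, j, rfl⟩)))
  rw [map_sub, sub_eq_zero] at h
  simpa [uMat, AlgHom.mapMatrix_apply, Matrix.map_apply] using h

lemma uMat_mul (b b' : B) : uMat k β (b * b') = uMat k β b * uMat k β b' := by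
  ext i j
  have h := RepAlg.mk_eq_zero k B (β := β)
    (p := genMat k B g (b * b') i j - (genMat k B g b * genMat k B g b') i j)
    (Or.inl (Or.inl (Or.inr ⟨b, b', i, j, rfl⟩)))
  rw [map_sub, sub_eq_zero] at h
  have h2 : uMat k β b * uMat k β b' =
      (RepAlg.mk k B β).mapMatrix (genMat k B g b * genMat k B g b') := by
    rw [map_mul]; rfl
  rw [h2]
  simpa [uMat, AlgHom.mapMatrix_apply, Matrix.map_apply] using h

lemma uMat_algebraMap (c : k) :
    uMat k β (algebraMap k B c) = algebraMap k (Matrix (Fin g) (Fin g) (RepAlg k B β)) c := by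
  ext i j
  have h := RepAlg.mk_eq_zero k B (β := β)
    (p := genMat k B g (algebraMap k B c) i j -
        (algebraMap k (Matrix (Fin g) (Fin g) (GenPoly k B g)) c) i j)
    (Or.inl (Or.inr ⟨c, i, j, rfl⟩))
  rw [map_sub, sub_eq_zero] at h
  rw [uMat_apply]
  rw [show genMat k B g (algebraMap k B c) i j = X (Sum.inl (algebraMap k B c, i, j)) from rfl] at h
  rw [h]
  simp only [Matrix.algebraMap_matrix_apply]
  split_ifs <;> simp

lemma uMat_mulVec_uVec (i : Fin g) : (uMat k β (β i)).mulVec (uVec k β) = Pi.single i 1 := by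
  ext j
  have h := RepAlg.mk_eq_zero k B (β := β)
    (p := (genMat k B g (β i)).mulVec (genVec k B g) j -
      (Pi.single i 1 : Fin g → GenPoly k B g) j)
    (Or.inr ⟨i, j, rfl⟩)
  rw [map_sub, sub_eq_zero] at h
  have h1 : (uMat k β (β i)).mulVec (uVec k β) j =
      RepAlg.mk k B β ((genMat k B g (β i)).mulVec (genVec k B g) j) := by
    simp [Matrix.mulVec, dotProduct, map_sum, map_mul, uMat, uVec]
  rw [h1, h]
  simp only [Pi.single_apply]
  split_ifs <;> simp

/-- The universal matrix point over the representing algebra. -/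
noncomputable def univPt : MatPt k B β (RepAlg k B β) where
  ρ :=
    { toFun := uMat k β
      map_one' := by
        have := uMat_algebraMap k β (1 : k)
        simpa using this
      map_mul' := uMat_mul k β
      map_zero' := by
        have := uMat_algebraMap k β (0 : k)
        simpa using this
      map_add' := uMat_add k β
      commutes' := uMat_algebraMap k β }
  v := uVec k β
  cyc := uMat_mulVec_uVec k β

@[simp] lemma univPt_ρ_apply (b : B) (i j : Fin g) :
    (univPt k β).ρ b i j = RepAlg.mk k B β (X (Sum.inl (b, i, j))) := rfl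

@[simp] lemma univPt_v (i : Fin g) : (univPt k β).v i = RepAlg.mk k B β (X (Sum.inr i)) := rfl

variable {k} {β}
variable {A : Type w} [CommRing A] [Algebra k A]

/-- The values of the generators at a matrix point. -/
def MatPt.val (P : MatPt k B β A) : Gen B g → A :=
  Sum.elim (fun x => P.ρ x.1 x.2.1 x.2.2) P.v

lemma MatPt.aeval_genMat (P : MatPt k B β A) (b : B) :
    (aeval P.val : GenPoly k B g →ₐ[k] A).mapMatrix (genMat k B g b) = P.ρ b := by
  ext i j
  simp [genMat, MatPt.val, AlgHom.mapMatrix_apply]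

lemma MatPt.aeval_mem_relSet (P : MatPt k B β A) {p : GenPoly k B g} (hp : p ∈ relSet k B β) :
    aeval P.val p = 0 := by
  rcases hp with ((⟨b, b', i, j, rfl⟩ | ⟨b, b', i, j, rfl⟩) | ⟨c, i, j, rfl⟩) | ⟨i, j, rfl⟩
  · have h1 := congrFun (congrFun (P.aeval_genMat (b + b')) i) j
    have h2 := congrFun (congrFun (P.aeval_genMat b) i) j
    have h3 := congrFun (congrFun (P.aeval_genMat b') i) j
    simp only [AlgHom.mapMatrix_apply, Matrix.map_apply] at h1 h2 h3
    rw [map_sub, Matrix.add_apply, map_add, h1, h2, h3, map_add, Matrix.add_apply, sub_self]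
  · have h1 := congrFun (congrFun (P.aeval_genMat (b * b')) i) j
    simp only [AlgHom.mapMatrix_apply, Matrix.map_apply] at h1
    have h2 : aeval P.val ((genMat k B g b * genMat k B g b') i j) = (P.ρ b * P.ρ b') i j := by
      rw [← P.aeval_genMat b, ← P.aeval_genMat b', ← map_mul]
      simp [AlgHom.mapMatrix_apply]
    rw [map_sub, h1, h2, map_mul, sub_self]
  · have h1 := congrFun (congrFun (P.aeval_genMat (algebraMap k B c)) i) j
    simp only [AlgHom.mapMatrix_apply, Matrix.map_apply] at h1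
    rw [map_sub, h1, AlgHom.commutes]
    simp only [Matrix.algebraMap_matrix_apply]
    split_ifs <;> simp
  · have h1 : aeval P.val ((genMat k B g (β i)).mulVec (genVec k B g) j) =
        (P.ρ (β i)).mulVec P.v j := by
      rw [← P.aeval_genMat (β i)]
      simp [Matrix.mulVec, dotProduct, map_sum, map_mul, genVec, MatPt.val,
        AlgHom.mapMatrix_apply]
    rw [map_sub, h1, P.cyc i]
    simp only [Pi.single_apply]
    split_ifs <;> simp

/-- The classifying map of a matrix point. -/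
noncomputable def MatPt.classify (P : MatPt k B β A) : RepAlg k B β →ₐ[k] A :=
  Ideal.Quotient.liftₐ (Ideal.span (relSet k B β)) (aeval P.val) (by
    intro p hp
    have hle : Ideal.span (relSet k B β) ≤ RingHom.ker (aeval P.val : GenPoly k B g →ₐ[k] A) := by
      rw [Ideal.span_le]
      intro q hq
      exact P.aeval_mem_relSet hq
    exact hle hp)

@[simp] lemma MatPt.classify_mk (P : MatPt k B β A) (p : GenPoly k B g) :
    P.classify (RepAlg.mk k B β p) = aeval P.val p := rfl

lemma MatPt.map_classify_univPt (P : MatPt k B β A) : (univPt k β).map P.classify = P := by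
  ext
  · simp [MatPt.val]
  · simp [MatPt.val]

lemma algHom_ext_mk {f f' : RepAlg k B β →ₐ[k] A}
    (h : ∀ x : Gen B g, f (RepAlg.mk k B β (X x)) = f' (RepAlg.mk k B β (X x))) : f = f' := by
  have h2 : f.comp (RepAlg.mk k B β) = f'.comp (RepAlg.mk k B β) :=
    MvPolynomial.algHom_ext fun x => h x
  ext y
  obtain ⟨p, rfl⟩ := RepAlg.mk_surjective k B β y
  exact DFunLike.congr_fun h2 p

lemma classify_map_univPt (f : RepAlg k B β →ₐ[k] A) : ((univPt k β).map f).classify = f := by
  refine algHom_ext_mk fun x => ?_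
  rcases x with ⟨b, i, j⟩ | i <;> simp [MatPt.val]

variable (k β) in
/-- **Representability of the chart functor**: `k`-algebra maps out of `RepAlg k B β` are the same
as matrix points. -/
noncomputable def repEquiv (A : Type w) [CommRing A] [Algebra k A] :
    (RepAlg k B β →ₐ[k] A) ≃ MatPt k B β A where
  toFun f := (univPt k β).map f
  invFun P := P.classify
  left_inv f := classify_map_univPt f
  right_inv P := P.map_classify_univPt

/-- Naturality of `repEquiv` in the test algebra. -/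
lemma repEquiv_comp {A' : Type w'} [CommRing A'] [Algebra k A'] (φ : A →ₐ[k] A')
    (f : RepAlg k B β →ₐ[k] A) : repEquiv k β A' (φ.comp f) = (repEquiv k β A f).map φ :=
  MatPt.map_comp f φ (univPt k β)

end Universal

section FiniteType

variable (k : Type u) [CommRing k] {B : Type v} [CommRing B] [Algebra k B] {g : ℕ}
variable (β : Fin g → B)

/-- If the entries of `uMat b` lie in a subalgebra for `b` in a generating set of `B`, they do so
for all `b`. -/
lemma uMat_mem_of_adjoin_eq_top {S : Set B} (hS : Algebra.adjoin k S = ⊤)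
    (R' : Subalgebra k (RepAlg k B β))
    (h : ∀ s ∈ S, ∀ i j, uMat k β s i j ∈ R') (b : B) (i j : Fin g) : uMat k β b i j ∈ R' := by
  have hb : b ∈ Algebra.adjoin k S := by rw [hS]; exact Algebra.mem_top
  revert i j
  induction hb using Algebra.adjoin_induction with
  | mem x hx => exact h x hx
  | algebraMap c =>
    intro i j
    rw [uMat_algebraMap, Matrix.algebraMap_matrix_apply]
    split_ifs
    · exact R'.algebraMap_mem c
    · exact R'.zero_mem
  | add x y _ _ hx hy =>
    intro i j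
    rw [uMat_add, Matrix.add_apply]
    exact R'.add_mem (hx i j) (hy i j)
  | mul x y _ _ hx hy =>
    intro i j
    rw [uMat_mul, Matrix.mul_apply]
    exact R'.sum_mem fun l _ => R'.mul_mem (hx i l) (hy l j)

/-- The representing algebra is generated by the entries of `uMat s`, `s` in a generating set
of `B`, and the entries of `uVec`. -/
lemma adjoin_uMat_uVec_eq_top {S : Set B} (hS : Algebra.adjoin k S = ⊤) :
    Algebra.adjoin k
      ({x | ∃ s ∈ S, ∃ i j, x = uMat k β s i j} ∪ Set.range (uVec k β)) = ⊤ := by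
  set G : Set (RepAlg k B β) :=
    {x | ∃ s ∈ S, ∃ i j, x = uMat k β s i j} ∪ Set.range (uVec k β) with hG
  rw [eq_top_iff]
  rintro y -
  obtain ⟨p, rfl⟩ := RepAlg.mk_surjective k B β y
  have hmat : ∀ (b : B) (i j : Fin g), uMat k β b i j ∈ Algebra.adjoin k G :=
    uMat_mem_of_adjoin_eq_top k β hS _ fun s hs i j =>
      Algebra.subset_adjoin (Or.inl ⟨s, hs, i, j, rfl⟩)
  induction p using MvPolynomial.induction_on with
  | C c =>
    have : RepAlg.mk k B β (C c) = algebraMap k _ c := (RepAlg.mk k B β).commutes c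
    rw [this]
    exact Subalgebra.algebraMap_mem _ c
  | add p q hp hq =>
    rw [map_add]
    exact Subalgebra.add_mem _ hp hq
  | mul_X p x hp =>
    rw [map_mul]
    refine Subalgebra.mul_mem _ hp ?_
    rcases x with ⟨b, i, j⟩ | i
    · exact hmat b i j
    · exact Algebra.subset_adjoin (Or.inr ⟨i, rfl⟩)

/-- The representing algebra of a chart is of finite type when `B` is. -/
theorem RepAlg.finiteType [Algebra.FiniteType k B] : Algebra.FiniteType k (RepAlg k B β) := by
  classical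
  obtain ⟨S, hS⟩ := (Algebra.FiniteType.out : (⊤ : Subalgebra k B).FG)
  refine ⟨⟨(S.biUnion fun s => Finset.univ.biUnion fun i : Fin g =>
      Finset.univ.image fun j : Fin g => uMat k β s i j) ∪ Finset.univ.image (uVec k β), ?_⟩⟩
  rw [← adjoin_uMat_uVec_eq_top k β hS]
  congr 1
  ext x
  simp only [Finset.coe_union, Finset.coe_biUnion, Finset.coe_image, Finset.coe_univ,
    Set.mem_union, Set.mem_iUnion, Set.mem_image, Set.mem_univ, true_and, Set.mem_ofPred_eq,
    Set.mem_range, Finset.mem_coe, exists_prop]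
  constructor
  · rintro (⟨s, hs, i, j, rfl⟩ | ⟨i, rfl⟩)
    · exact Or.inl ⟨s, hs, i, j, rfl⟩
    · exact Or.inr ⟨i, rfl⟩
  · rintro (⟨s, hs, i, j, rfl⟩ | ⟨i, rfl⟩)
    · exact Or.inl ⟨s, hs, i, j, rfl⟩
    · exact Or.inr ⟨i, rfl⟩

end FiniteType

end Fermat.Agent.S25.H251

end
-- ===== PACK-END S25/H251/RepAlg.lean

-- ===== PACK-BEGIN S25/H446/PtQuot.lean
section


/-!
# Row S25, block ALGCHARTS, shared sub-lemma SH2, part 1 (helper446): point ideals, algebra

Mathlib only.

* `ker_algHom_isMaximal`, `ker_algHom_ne_bot` : the kernel of a `k`-point `p : B →ₐ[k] k`.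
* `finrank_quotient_ker_mul` : in a Dedekind domain `B` over a field `k`,
  `dim_k B / (ker p · J) = dim_k B / J + 1` for a `k`-point `p` and a nonzero ideal `J`.
* `finrank_quotient_prod_ker` : `dim_k B / (∏ i, ker (q i)) = m` for `q : Fin m → (B →ₐ[k] k)`
  (repetitions allowed), `B` a Dedekind domain which is not a field.
* `ker_lift_eq_map` : for a `k`-algebra `A`, the kernel of the retraction
  `A ⊗[k] B → A`, `a ⊗ b ↦ a · p b` is the extension of `ker p` along `B → A ⊗[k] B`.
* `quotient_map_includeRight_free` etc.: `(A ⊗[k] B) ⧸ I·(A ⊗[k] B)` is a free `A`-module of rank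
  `dim_k B / I`.
-/

set_option autoImplicit false

open scoped TensorProduct

namespace Fermat.Agent.S25.H446

section Point

variable {k B : Type*} [Field k] [CommRing B] [Algebra k B]

/-- A `k`-point is surjective. -/
theorem algHom_point_surjective (p : B →ₐ[k] k) : Function.Surjective p := fun c =>
  ⟨algebraMap k B c, by simp⟩

/-- The kernel of a `k`-point is a maximal ideal. -/
theorem ker_algHom_isMaximal (p : B →ₐ[k] k) : (RingHom.ker p).IsMaximal :=
  RingHom.ker_isMaximal_of_surjective p (algHom_point_surjective p)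

/-- `b - p b ∈ ker p`. -/
theorem sub_algebraMap_mem_ker (p : B →ₐ[k] k) (b : B) :
    b - algebraMap k B (p b) ∈ RingHom.ker p := by
  rw [RingHom.mem_ker, map_sub, AlgHom.commutes, Algebra.algebraMap_self_apply, sub_self]

/-- The kernel of a `k`-point of a ring which is not a field is nonzero. -/
theorem ker_algHom_ne_bot (hB : ¬ IsField B) (p : B →ₐ[k] k) : RingHom.ker p ≠ ⊥ := by
  intro h
  apply hB
  have hinj : Function.Injective p := (RingHom.injective_iff_ker_eq_bot p.toRingHom).mpr h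
  exact (MulEquiv.ofBijective p ⟨hinj, algHom_point_surjective p⟩).isField
    (Field.toIsField k)

end Point

section Dedekind

variable {k B : Type*} [Field k] [CommRing B] [IsDedekindDomain B] [Algebra k B]

/-- In a Dedekind domain there is no ideal strictly between `m * J` and `J` (`m` maximal). -/
theorem eq_of_mul_le_of_le_of_ne {m J L : Ideal B} (hm : m.IsMaximal) (hJ : J ≠ ⊥)
    (h1 : m * J ≤ L) (h2 : L ≤ J) (h3 : L ≠ m * J) : L = J := by
  obtain ⟨L', rfl⟩ := Ideal.dvd_iff_le.mpr h2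
  have hd : J * L' ∣ J * m := by
    rw [mul_comm J m]; exact Ideal.dvd_iff_le.mpr h1
  have hd' : L' ∣ m := (mul_dvd_mul_iff_left (show J ≠ 0 from hJ)).mp hd
  have hle : m ≤ L' := Ideal.dvd_iff_le.mp hd'
  by_cases hL' : L' = ⊤
  · rw [hL', Ideal.mul_top]
  · exact absurd (by rw [hm.eq_of_le hL' hle, mul_comm]) h3

/-- Key dimension count: `dim_k B/(ker p · J) = dim_k B/J + 1` for a `k`-point `p` and a
nonzero ideal `J` of a Dedekind domain `B`. -/
theorem finrank_quotient_ker_mul (p : B →ₐ[k] k) (J : Ideal B) (hJ : J ≠ ⊥)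
    [Module.Finite k (B ⧸ J)] :
    Module.Finite k (B ⧸ (RingHom.ker p * J)) ∧
      Module.finrank k (B ⧸ (RingHom.ker p * J)) = Module.finrank k (B ⧸ J) + 1 := by
  classical
  have hmax : (RingHom.ker p).IsMaximal := ker_algHom_isMaximal p
  have hle : RingHom.ker p * J ≤ J := Ideal.mul_le_right
  have hne : RingHom.ker p * J ≠ J := by
    intro h
    have h' : J * RingHom.ker p = J * 1 := by rw [mul_comm, h, mul_one]
    have := mul_left_cancel₀ (show J ≠ 0 from hJ) h'
    exact hmax.ne_top (by rw [this, Ideal.one_eq_top])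
  let π : (B ⧸ (RingHom.ker p * J)) →ₗ[k] (B ⧸ J) := (Ideal.Quotient.factorₐ k hle).toLinearMap
  have hπ : Function.Surjective π := Ideal.Quotient.factor_surjective hle
  obtain ⟨t, htJ, htm⟩ : ∃ t ∈ J, t ∉ RingHom.ker p * J := by
    by_contra hcon
    push Not at hcon
    exact hne (le_antisymm hle hcon)
  have hL : RingHom.ker p * J ⊔ Ideal.span {t} = J := by
    apply eq_of_mul_le_of_le_of_ne hmax hJ le_sup_left
    · exact sup_le hle ((Ideal.span_singleton_le_iff_mem _).mpr htJ)
    · intro h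
      exact htm (h ▸ Ideal.mem_sup_right (Ideal.subset_span rfl))
  let τ : B ⧸ (RingHom.ker p * J) := Ideal.Quotient.mk _ t
  have hτ : τ ≠ 0 := fun h => htm (Ideal.Quotient.eq_zero_iff_mem.mp h)
  have hker : LinearMap.ker π = k ∙ τ := by
    apply le_antisymm
    · intro z hz
      obtain ⟨j, rfl⟩ := Ideal.Quotient.mk_surjective z
      have hj : j ∈ J := by
        have : (Ideal.Quotient.mk J) j = 0 := hz
        exact Ideal.Quotient.eq_zero_iff_mem.mp this
      rw [← hL] at hj
      obtain ⟨a, ha, b, hb, rfl⟩ := Submodule.mem_sup.mp hj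
      obtain ⟨r, rfl⟩ := Ideal.mem_span_singleton'.mp hb
      have hrc : r - algebraMap k B (p r) ∈ RingHom.ker p := sub_algebraMap_mem_ker p r
      rw [Submodule.mem_span_singleton]
      refine ⟨p r, ?_⟩
      rw [Algebra.smul_def, IsScalarTower.algebraMap_apply k B (B ⧸ (RingHom.ker p * J)),
        Ideal.Quotient.algebraMap_eq, ← map_mul, eq_comm, ← sub_eq_zero, ← map_sub,
        Ideal.Quotient.eq_zero_iff_mem]
      have : a + r * t - algebraMap k B (p r) * t = a + (r - algebraMap k B (p r)) * t := by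
        ring
      rw [this]
      exact add_mem ha (Ideal.mul_mem_mul hrc htJ)
    · rw [Submodule.span_singleton_le_iff_mem]
      show π τ = 0
      exact Ideal.Quotient.eq_zero_iff_mem.mpr htJ
  have hfk : Module.Finite k (LinearMap.ker π) := by
    rw [hker]; infer_instance
  have hfin : Module.Finite k (B ⧸ (RingHom.ker p * J)) := by
    have e := π.quotKerEquivOfSurjective hπ
    have : Module.Finite k ((B ⧸ (RingHom.ker p * J)) ⧸ LinearMap.ker π) :=
      Module.Finite.equiv e.symm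
    exact Module.Finite.of_submodule_quotient (LinearMap.ker π)
  refine ⟨hfin, ?_⟩
  have h1 := LinearMap.finrank_range_add_finrank_ker π
  rw [LinearMap.range_eq_top.mpr hπ, finrank_top, hker, finrank_span_singleton hτ] at h1
  exact h1.symm

/-- `dim_k B / ∏ ker (q i) = m` for `k`-points `q i` (repetitions allowed) of a Dedekind
domain `B` which is not a field. -/
theorem finrank_quotient_prod_ker (hB : ¬ IsField B) :
    ∀ {m : ℕ} (q : Fin m → (B →ₐ[k] k)),
      Module.Finite k (B ⧸ ∏ i, RingHom.ker (q i)) ∧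
        Module.finrank k (B ⧸ ∏ i, RingHom.ker (q i)) = m := by
  intro m
  induction m with
  | zero =>
    intro q
    have h : (∏ i, RingHom.ker (q i)) = ⊤ := by
      rw [Finset.univ_eq_empty, Finset.prod_empty, Ideal.one_eq_top]
    rw [h]
    have : Subsingleton (B ⧸ (⊤ : Ideal B)) := Ideal.Quotient.subsingleton_iff.mpr rfl
    exact ⟨inferInstance, Module.finrank_zero_of_subsingleton⟩
  | succ m ih =>
    intro q
    rw [Fin.prod_univ_succ]
    obtain ⟨hfin, hrk⟩ := ih (fun i => q i.succ)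
    have hJ : (∏ i : Fin m, RingHom.ker (q i.succ)) ≠ ⊥ := by
      rw [← Ideal.zero_eq_bot, Finset.prod_ne_zero_iff]
      intro i _
      exact ker_algHom_ne_bot hB (q i.succ)
    obtain ⟨h1, h2⟩ := finrank_quotient_ker_mul (q 0) _ hJ
    exact ⟨h1, by rw [h2, hrk]⟩

theorem prod_ker_ne_bot (hB : ¬ IsField B) {m : ℕ} (q : Fin m → (B →ₐ[k] k)) :
    (∏ i, RingHom.ker (q i)) ≠ ⊥ := by
  rw [← Ideal.zero_eq_bot, Finset.prod_ne_zero_iff]
  intro i _
  exact ker_algHom_ne_bot hB (q i)

end Dedekind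

section Tensor

variable {k : Type*} [Field k] {B : Type*} [CommRing B] [Algebra k B]
  (A : Type*) [CommRing A] [Algebra k A]

/-- The retraction `A ⊗[k] B → A`, `a ⊗ b ↦ a · p b`, attached to a `k`-point `p` of `B`. -/
noncomputable def ptRetr (p : B →ₐ[k] k) : A ⊗[k] B →ₐ[A] A :=
  Algebra.TensorProduct.lift (AlgHom.id A A) ((Algebra.ofId k A).comp p)
    (fun _ _ => Commute.all _ _)

@[simp] theorem ptRetr_tmul (p : B →ₐ[k] k) (a : A) (b : B) :
    ptRetr A p (a ⊗ₜ[k] b) = a * algebraMap k A (p b) := by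
  simp [ptRetr, Algebra.ofId_apply]

/-- `x ≡ (ptRetr x) ⊗ 1` modulo the extension of `ker p`. -/
theorem sub_ptRetr_tmul_one_mem (p : B →ₐ[k] k) (x : A ⊗[k] B) :
    x - (ptRetr A p x) ⊗ₜ[k] (1 : B) ∈
      (RingHom.ker p).map (Algebra.TensorProduct.includeRight : B →ₐ[k] A ⊗[k] B) := by
  induction x using TensorProduct.induction_on with
  | zero => simp
  | tmul a b =>
    have h : a ⊗ₜ[k] b - (ptRetr A p (a ⊗ₜ[k] b)) ⊗ₜ[k] (1 : B) =
        (a ⊗ₜ[k] (1 : B)) * (Algebra.TensorProduct.includeRight : B →ₐ[k] A ⊗[k] B)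
          (b - algebraMap k B (p b)) := by
      have h1 : (a * algebraMap k A (p b)) ⊗ₜ[k] (1 : B) = a ⊗ₜ[k] algebraMap k B (p b) := by
        rw [mul_comm, ← Algebra.smul_def, TensorProduct.smul_tmul,
          ← Algebra.algebraMap_eq_smul_one]
      rw [ptRetr_tmul, Algebra.TensorProduct.includeRight_apply,
        Algebra.TensorProduct.tmul_mul_tmul, mul_one, one_mul, TensorProduct.tmul_sub, h1]
    rw [h]
    exact Ideal.mul_mem_left _ _ (Ideal.mem_map_of_mem _ (sub_algebraMap_mem_ker p b))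
  | add x y hx hy =>
    have h : x + y - (ptRetr A p (x + y)) ⊗ₜ[k] (1 : B) =
        (x - (ptRetr A p x) ⊗ₜ[k] (1 : B)) + (y - (ptRetr A p y) ⊗ₜ[k] (1 : B)) := by
      rw [map_add, TensorProduct.add_tmul]; abel
    rw [h]
    exact add_mem hx hy

/-- The kernel of the retraction attached to `p` is the extension of `ker p`. -/
theorem ker_ptRetr_eq_map (p : B →ₐ[k] k) :
    RingHom.ker (ptRetr A p) =
      (RingHom.ker p).map (Algebra.TensorProduct.includeRight : B →ₐ[k] A ⊗[k] B) := by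
  apply le_antisymm
  · intro x hx
    rw [RingHom.mem_ker] at hx
    have h := sub_ptRetr_tmul_one_mem A p x
    rwa [hx, TensorProduct.zero_tmul, sub_zero] at h
  · rw [Ideal.map_le_iff_le_comap]
    intro b hb
    rw [RingHom.mem_ker] at hb
    rw [Ideal.mem_comap, RingHom.mem_ker, Algebra.TensorProduct.includeRight_apply, ptRetr_tmul,
      hb, map_zero, mul_zero]

/-- The product of the kernels of the retractions is the extension of the product of the
kernels. -/
theorem prod_ker_ptRetr_eq_map {m : ℕ} (q : Fin m → (B →ₐ[k] k)) :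
    (∏ i, RingHom.ker (ptRetr A (q i))) =
      (∏ i, RingHom.ker (q i)).map
        (Algebra.TensorProduct.includeRight : B →ₐ[k] A ⊗[k] B) := by
  have h := map_prod (Ideal.mapHom (Algebra.TensorProduct.includeRight : B →ₐ[k] A ⊗[k] B))
    (fun i => RingHom.ker (q i)) Finset.univ
  simp only [Ideal.mapHom_apply] at h
  rw [h]
  exact Finset.prod_congr rfl fun i _ => ker_ptRetr_eq_map A (q i)

end Tensor

end Fermat.Agent.S25.H446

end
-- ===== PACK-END S25/H446/PtQuot.lean

-- ===== PACK-BEGIN S25/H911/ACDim.lean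
section


/-!
# S25 / ALGCHARTS, COV3 (helper911): dimension counts for invertible modules and ideals

Mathlib-only.  `K` a field, `R` a commutative `K`-algebra.

* `finrank_tensor_quotient_invertible` : `dim_K (R/I ⊗ N) = dim_K R/I` for `N` invertible.
* `finrank_quotient_smul_top_invertible` : `dim_K N / I N = dim_K R/I` for `N` invertible.
* `finrank_quotient_mul_invertible` : `dim_K R/(I J) = dim_K R/I + dim_K R/J` for `J` an
  invertible ideal.
-/

set_option autoImplicit false

universe u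

open scoped TensorProduct

namespace Fermat.Agent.S25.H911

section Dim

variable {K R : Type u} [Field K] [CommRing R] [Algebra K R]

/-- `dim_K (R/I ⊗ N) = dim_K R/I` for an invertible `R`-module `N`. -/
theorem finrank_tensor_quotient_invertible {N : Type u} [AddCommGroup N] [Module R N]
    [Module.Invertible R N] (I : Ideal R) [Module.Finite K (R ⧸ I)] :
    Module.Finite K ((R ⧸ I) ⊗[R] N) ∧
      Module.finrank K ((R ⧸ I) ⊗[R] N) = Module.finrank K (R ⧸ I) := by
  have hfin : Module.Finite K ((R ⧸ I) ⊗[R] N) := Module.Finite.trans (R ⧸ I) _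
  refine ⟨hfin, ?_⟩
  rcases subsingleton_or_nontrivial (R ⧸ I) with h | h
  · have : Subsingleton ((R ⧸ I) ⊗[R] N) := Module.subsingleton (R ⧸ I) _
    rw [Module.finrank_zero_of_subsingleton, Module.finrank_zero_of_subsingleton]
  · have : IsArtinianRing (R ⧸ I) := IsArtinianRing.of_finite K _
    have h1 : Module.finrank (R ⧸ I) ((R ⧸ I) ⊗[R] N) = 1 :=
      Module.Invertible.finrank_eq_one _ _
    have h2 := Module.finrank_mul_finrank K (R ⧸ I) ((R ⧸ I) ⊗[R] N)
    rw [h1, mul_one] at h2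
    exact h2.symm

/-- `dim_K N / I N = dim_K R/I` for an invertible `R`-module `N`. -/
theorem finrank_quotient_smul_top_invertible {N : Type u} [AddCommGroup N] [Module R N]
    [Module K N] [IsScalarTower K R N] [Module.Invertible R N] (I : Ideal R)
    [Module.Finite K (R ⧸ I)] :
    Module.Finite K (N ⧸ (I • ⊤ : Submodule R N)) ∧
      Module.finrank K (N ⧸ (I • ⊤ : Submodule R N)) = Module.finrank K (R ⧸ I) := by
  obtain ⟨hfin, hrank⟩ := finrank_tensor_quotient_invertible (K := K) (N := N) I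
  have e1 : ((R ⧸ I) ⊗[R] N) ≃ₗ[K] N ⧸ (I • (⊤ : Submodule R N)) :=
    (TensorProduct.quotTensorEquivQuotSMul N I).restrictScalars K
  exact ⟨Module.Finite.equiv e1, by rw [← hrank]; exact e1.symm.finrank_eq⟩

/-- `dim_K R/(I J) = dim_K R/I + dim_K R/J` when `J` is invertible as a module. -/
theorem finrank_quotient_mul_invertible (I J : Ideal R) [Module.Invertible R J]
    [Module.Finite K (R ⧸ I)] [Module.Finite K (R ⧸ J)] :
    Module.Finite K (R ⧸ (I * J)) ∧
      Module.finrank K (R ⧸ (I * J)) = Module.finrank K (R ⧸ I) + Module.finrank K (R ⧸ J) := by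
  -- the projection `R/(IJ) → R/J`
  have hle : I * J ≤ J := Ideal.mul_le_right
  let π : (R ⧸ (I * J)) →ₗ[R] (R ⧸ J) := Submodule.mapQ (I * J) J LinearMap.id hle
  have hπ : Function.Surjective π := by
    intro z
    obtain ⟨r, rfl⟩ := Submodule.Quotient.mk_surjective _ z
    exact ⟨Submodule.Quotient.mk r, rfl⟩
  -- the map `J → R/(IJ)`
  let f : J →ₗ[R] (R ⧸ (I * J)) := (Submodule.mkQ (I * J)).comp J.subtype
  have hfker : LinearMap.ker f = (I • ⊤ : Submodule R J) := by
    ext j
    rw [LinearMap.mem_ker]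
    change Submodule.Quotient.mk (j : R) = 0 ↔ _
    rw [Submodule.Quotient.mk_eq_zero]
    have h1 : (I • (⊤ : Submodule R J)).map J.subtype = I * J := by
      rw [Submodule.map_smul'', Submodule.map_top, Submodule.range_subtype]
      rfl
    constructor
    · intro hj
      rw [← h1] at hj
      obtain ⟨j', hj', hjj'⟩ := hj
      have : j' = j := Subtype.ext hjj'
      rwa [this] at hj'
    · intro hj
      rw [← h1]
      exact ⟨j, hj, rfl⟩
  have hfrange : LinearMap.range f = LinearMap.ker π := by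
    ext z
    constructor
    · rintro ⟨j, rfl⟩
      rw [LinearMap.mem_ker]
      change Submodule.Quotient.mk (j : R) = 0
      rw [Submodule.Quotient.mk_eq_zero]
      exact j.2
    · intro hz
      obtain ⟨r, rfl⟩ := Submodule.Quotient.mk_surjective _ z
      rw [LinearMap.mem_ker] at hz
      change Submodule.Quotient.mk r = 0 at hz
      rw [Submodule.Quotient.mk_eq_zero] at hz
      exact ⟨⟨r, hz⟩, rfl⟩
  obtain ⟨hfin1, hrank1⟩ := finrank_quotient_smul_top_invertible (K := K) (N := J) I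
  -- `ker π ≃ J / I J`
  let e : (J ⧸ (I • ⊤ : Submodule R J)) ≃ₗ[R] LinearMap.ker π :=
    (Submodule.quotEquivOfEq _ _ hfker.symm).trans
      ((LinearMap.quotKerEquivRange f).trans (LinearEquiv.ofEq _ _ hfrange))
  let eK : (J ⧸ (I • ⊤ : Submodule R J)) ≃ₗ[K] LinearMap.ker π := e.restrictScalars K
  have hkerfin : Module.Finite K (LinearMap.ker π) := Module.Finite.equiv eK
  have hkerrank : Module.finrank K (LinearMap.ker π) = Module.finrank K (R ⧸ I) := by
    rw [← hrank1]; exact eK.symm.finrank_eq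
  let πK : (R ⧸ (I * J)) →ₗ[K] (R ⧸ J) := π.restrictScalars K
  have hkerK : Module.Finite K (LinearMap.ker πK) := hkerfin
  have hquotfin : Module.Finite K ((R ⧸ (I * J)) ⧸ LinearMap.ker πK) :=
    Module.Finite.equiv (πK.quotKerEquivOfSurjective hπ).symm
  have hfin : Module.Finite K (R ⧸ (I * J)) := Module.Finite.of_submodule_quotient
    (LinearMap.ker πK)
  refine ⟨hfin, ?_⟩
  have h := LinearMap.finrank_range_add_finrank_ker πK
  have hr : Module.finrank K (LinearMap.range πK) = Module.finrank K (R ⧸ J) := by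
    have hπK : Function.Surjective πK := hπ
    rw [LinearMap.range_eq_top.mpr hπK, finrank_top]
  rw [hr] at h
  have hk : Module.finrank K (LinearMap.ker πK) = Module.finrank K (R ⧸ I) := hkerrank
  rw [hk] at h
  rw [← h, add_comm]

end Dim

end Fermat.Agent.S25.H911

end
-- ===== PACK-END S25/H911/ACDim.lean

-- ===== PACK-BEGIN S25/H851/ACIsoCore.lean
section


/-!
# S25 / ALGCHARTS, leaf PT-ISO, abstract core (helper851)

Commutative algebra used to compare two invertible modules carrying sections with the same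
divisor.

* `dual_smul_comm` : on an invertible module, `l s • n = l n • s`.
* `ideal_le_of_smul_top_le` : cancellation `I N ≤ I' N → I ≤ I'` for an invertible module `N`.
* `secIdeal s` : the ideal `{l s}` of a section `s`; `secIdeal_smul_top : secIdeal s • ⊤ = R s`.
* `map_smul_top_eq_span` : base change of `I N = R s`.
* `exists_coprime_smul_mem` : Nakayama, `N = R s + y N → ∃ u, (u, y) = 1 ∧ u N ⊆ R s`.
* `exists_equiv_of_span_eq` : two modules with sections `s`, `s'` such that `J N = R s`,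
  `J N' = R s'` (and a regular element in `J`) are isomorphic by an isomorphism `s ↦ s'`.
-/

set_option autoImplicit false

open TensorProduct

namespace Fermat.Agent.S25.H851

section Core

variable {R : Type*} [CommRing R] {N : Type*} [AddCommGroup N] [Module R N]

/-- On an invertible module, `l s • n = l n • s`. -/
theorem dual_smul_comm [Module.Invertible R N] (l : Module.Dual R N) (s n : N) :
    l s • n = l n • s := by
  have h := congrArg (TensorProduct.lift ((LinearMap.lsmul R N).comp l))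
    (Module.Invertible.tmul_comm (R := R) (m₁ := s) (m₂ := n))
  simpa using h

/-- A functional maps `I N` into `I`. -/
theorem dual_mem_of_mem_smul_top {I : Ideal R} (l : Module.Dual R N) {m : N}
    (hm : m ∈ I • (⊤ : Submodule R N)) : l m ∈ I := by
  refine Submodule.smul_induction_on hm ?_ ?_
  · intro a ha n _
    rw [map_smul, smul_eq_mul]
    exact I.mul_mem_right _ ha
  · intro m₁ m₂ h₁ h₂
    rw [map_add]
    exact I.add_mem h₁ h₂

/-- **Cancellation.** For an invertible module `N`, `I N ≤ I' N` implies `I ≤ I'`. -/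
theorem ideal_le_of_smul_top_le [Module.Invertible R N] {I I' : Ideal R}
    (h : I • (⊤ : Submodule R N) ≤ I' • ⊤) : I ≤ I' := by
  intro a ha
  obtain ⟨z, hz⟩ := (Module.Invertible.bijective (R := R) (M := N)).2 1
  have key : ∀ z : Module.Dual R N ⊗[R] N, a * contractLeft R N z ∈ I' := by
    intro z
    induction z using TensorProduct.induction_on with
    | zero => simp
    | tmul l n =>
      rw [contractLeft_apply]
      have h1 : a • n ∈ I' • (⊤ : Submodule R N) := h (Submodule.smul_mem_smul ha trivial)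
      have := dual_mem_of_mem_smul_top l h1
      rwa [map_smul, smul_eq_mul] at this
    | add z w hz hw =>
      rw [map_add, mul_add]
      exact I'.add_mem hz hw
  have := key z
  rwa [hz, mul_one] at this

theorem ideal_eq_of_smul_top_eq [Module.Invertible R N] {I I' : Ideal R}
    (h : I • (⊤ : Submodule R N) = I' • ⊤) : I = I' :=
  le_antisymm (ideal_le_of_smul_top_le h.le) (ideal_le_of_smul_top_le h.ge)

/-- The ideal of values `l s` of the functionals on a section `s`. -/
def secIdeal (s : N) : Ideal R :=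
  LinearMap.range (LinearMap.applyₗ (R := R) s : Module.Dual R N →ₗ[R] R)

theorem mem_secIdeal {s : N} {a : R} : a ∈ secIdeal (R := R) s ↔ ∃ l : Module.Dual R N, l s = a :=
  Iff.rfl

/-- For an invertible module, `secIdeal s • N = R s`. -/
theorem secIdeal_smul_top [Module.Invertible R N] (s : N) :
    secIdeal (R := R) s • (⊤ : Submodule R N) = Submodule.span R {s} := by
  apply le_antisymm
  · rw [Submodule.smul_le]
    rintro a ⟨l, rfl⟩ n -
    change l s • n ∈ _
    rw [dual_smul_comm]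
    exact Submodule.smul_mem _ _ (Submodule.mem_span_singleton_self s)
  · rw [Submodule.span_singleton_le_iff_mem]
    obtain ⟨z, hz⟩ := (Module.Invertible.bijective (R := R) (M := N)).2 1
    have key : ∀ z : Module.Dual R N ⊗[R] N,
        contractLeft R N z • s ∈ secIdeal (R := R) s • (⊤ : Submodule R N) := by
      intro z
      induction z using TensorProduct.induction_on with
      | zero => simp
      | tmul l n =>
        rw [contractLeft_apply, ← dual_smul_comm]
        exact Submodule.smul_mem_smul ⟨l, rfl⟩ trivial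
      | add z w hz hw =>
        rw [map_add, add_smul]
        exact Submodule.add_mem _ hz hw
    have := key z
    rwa [hz, one_smul] at this

/-- A section of a faithful module whose multiples are `J N`, with `J` containing a
nonzerodivisor, is torsion-free. -/
theorem smul_eq_zero_of_span_eq [FaithfulSMul R N] {J : Ideal R} {t : R} (ht : t ∈ J)
    (htr : t ∈ nonZeroDivisors R) {s : N} (hs : Submodule.span R {s} = J • (⊤ : Submodule R N))
    {r : R} (hr : r • s = 0) : r = 0 := by
  have h1 : ∀ m ∈ Submodule.span R {s}, r • m = 0 := by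
    intro m hm
    obtain ⟨c, rfl⟩ := Submodule.mem_span_singleton.1 hm
    rw [smul_comm, hr, smul_zero]
  have h2 : ∀ n : N, (r * t) • n = 0 := by
    intro n
    rw [mul_smul]
    apply h1
    rw [hs]
    exact Submodule.smul_mem_smul ht trivial
  have h3 : r * t = 0 := by
    apply FaithfulSMul.eq_of_smul_eq_smul (α := N)
    intro n
    rw [h2, zero_smul]
  exact (mem_nonZeroDivisors_iff.1 htr).2 _ h3

end Core

section Nakayama

variable {R : Type*} [CommRing R] {N : Type*} [AddCommGroup N] [Module R N]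

/-- **Nakayama.** If `N = R s + y N` for a finite module `N`, there is `u` coprime to `y` with
`u N ⊆ R s`. -/
theorem exists_coprime_smul_mem [Module.Finite R N] (y : R) (s : N)
    (hgen : ∀ c : N, ∃ r : R, c - r • s ∈ (Ideal.span {y} • ⊤ : Submodule R N)) :
    ∃ u : R, IsCoprime u y ∧ ∀ n : N, u • n ∈ Submodule.span R {s} := by
  set P : Submodule R N := Submodule.span R {s} with hP
  have hle : (⊤ : Submodule R (N ⧸ P)) ≤ Ideal.span {y} • ⊤ := by
    rintro q -
    obtain ⟨c, rfl⟩ := Submodule.Quotient.mk_surjective P q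
    obtain ⟨r, hr⟩ := hgen c
    have h1 : Submodule.Quotient.mk (p := P) c = Submodule.Quotient.mk (p := P) (c - r • s) := by
      rw [Submodule.Quotient.eq]
      have : c - (c - r • s) = r • s := by abel
      rw [this]
      exact Submodule.smul_mem _ _ (Submodule.mem_span_singleton_self s)
    rw [h1]
    have h2 : P.mkQ (c - r • s) ∈ (Ideal.span {y} • (⊤ : Submodule R N)).map P.mkQ :=
      Submodule.mem_map_of_mem hr
    rw [Submodule.map_smul''] at h2
    exact Submodule.smul_mono le_rfl le_top h2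
  obtain ⟨u, hu1, hu2⟩ := Submodule.exists_sub_one_mem_and_smul_eq_zero_of_fg_of_le_smul
    (Ideal.span {y}) (⊤ : Submodule R (N ⧸ P)) Module.Finite.fg_top hle
  refine ⟨u, ?_, fun n => ?_⟩
  · obtain ⟨c, hc⟩ := Ideal.mem_span_singleton'.1 hu1
    exact ⟨1, -c, by rw [neg_mul, hc]; ring⟩
  · have := hu2 (Submodule.Quotient.mk n) trivial
    rwa [← Submodule.Quotient.mk_smul, Submodule.Quotient.mk_eq_zero] at this

end Nakayama

section BaseChange

variable {R S : Type*} [CommRing R] [CommRing S] [Algebra R S]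
  {N N' : Type*} [AddCommGroup N] [Module R N] [AddCommGroup N'] [Module R N'] [Module S N']
  [IsScalarTower R S N']

/-- Base change of `I N = R s`. -/
theorem map_smul_top_eq_span {f : N →ₗ[R] N'} (hf : IsBaseChange S f) (I : Ideal R) (s : N)
    (hs : Submodule.span R {s} = I • (⊤ : Submodule R N)) :
    (I.map (algebraMap R S)) • (⊤ : Submodule S N') = Submodule.span S {f s} := by
  apply le_antisymm
  · rw [Submodule.smul_le]
    intro a' ha' n' _
    revert a'
    refine hf.inductionOn n' (fun n' => ∀ a' ∈ I.map (algebraMap R S),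
      a' • n' ∈ Submodule.span S {f s}) ?_ ?_ ?_ ?_
    · intro a' _
      rw [smul_zero]
      exact Submodule.zero_mem _
    · intro m a' ha'
      refine Submodule.span_induction (p := fun a' _ => a' • f m ∈ Submodule.span S {f s})
        ?_ ?_ ?_ ?_ ha'
      · rintro _ ⟨a, ha, rfl⟩
        have h1 : a • m ∈ Submodule.span R {s} := by
          rw [hs]
          exact Submodule.smul_mem_smul ha trivial
        obtain ⟨c, hc⟩ := Submodule.mem_span_singleton.1 h1
        rw [algebraMap_smul, ← map_smul, ← hc, map_smul, ← algebraMap_smul S c (f s)]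
        exact Submodule.smul_mem _ _ (Submodule.mem_span_singleton_self _)
      · rw [zero_smul]
        exact Submodule.zero_mem _
      · intro a b _ _ ha hb
        rw [add_smul]
        exact Submodule.add_mem _ ha hb
      · intro b a _ ha
        rw [smul_eq_mul, mul_smul]
        exact Submodule.smul_mem _ _ ha
    · intro b n ih a' ha'
      rw [smul_comm]
      exact Submodule.smul_mem _ _ (ih a' ha')
    · intro n₁ n₂ h₁ h₂ a' ha'
      rw [smul_add]
      exact Submodule.add_mem _ (h₁ a' ha') (h₂ a' ha')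
  · rw [Submodule.span_singleton_le_iff_mem]
    have hmem : s ∈ I • (⊤ : Submodule R N) := by
      rw [← hs]
      exact Submodule.mem_span_singleton_self s
    refine Submodule.smul_induction_on hmem ?_ ?_
    · intro a ha n _
      rw [map_smul, ← algebraMap_smul S a (f n)]
      exact Submodule.smul_mem_smul (Ideal.mem_map_of_mem _ ha) trivial
    · intro m₁ m₂ h₁ h₂
      rw [map_add]
      exact Submodule.add_mem _ h₁ h₂

end BaseChange

section Equiv

variable {R : Type*} [CommRing R] {N : Type*} [AddCommGroup N] [Module R N]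

/-- The coordinate `c n` of `t • n` on a torsion-free generator `s` of `J N ∋ t n`. -/
theorem exists_coord {J : Ideal R} {t : R} (ht : t ∈ J) {s : N}
    (hs : Submodule.span R {s} = J • (⊤ : Submodule R N))
    (htf : ∀ r : R, r • s = 0 → r = 0) :
    ∃ c : N →ₗ[R] R, ∀ n, c n • s = t • n := by
  have hinj : Function.Injective (LinearMap.toSpanSingleton R N s) := by
    rw [injective_iff_map_eq_zero]
    intro r hr
    exact htf r (by simpa using hr)
  have hmem : ∀ n : N, t • n ∈ LinearMap.range (LinearMap.toSpanSingleton R N s) := by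
    intro n
    have : t • n ∈ Submodule.span R {s} := by
      rw [hs]
      exact Submodule.smul_mem_smul ht trivial
    obtain ⟨c, hc⟩ := Submodule.mem_span_singleton.1 this
    exact ⟨c, by simpa using hc⟩
  refine ⟨(LinearEquiv.ofInjective _ hinj).symm.toLinearMap ∘ₗ
    LinearMap.codRestrict _ (LinearMap.lsmul R N t) hmem, fun n => ?_⟩
  have h1 := (LinearEquiv.ofInjective _ hinj).apply_symm_apply
    (LinearMap.codRestrict _ (LinearMap.lsmul R N t) hmem n)
  have h2 := congrArg Subtype.val h1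
  rw [LinearEquiv.ofInjective_apply] at h2
  exact h2

/-- The range of the coordinate map is the ideal `(t : J)`. -/
theorem mem_range_coord_iff {J : Ideal R} {t : R} {s : N}
    (hs : Submodule.span R {s} = J • (⊤ : Submodule R N))
    (htf : ∀ r : R, r • s = 0 → r = 0) (d : N →ₗ[R] R) (hd : ∀ n, d n • s = t • n) (a : R) :
    a ∈ LinearMap.range d ↔ ∀ j ∈ J, ∃ b, a * j = t * b := by
  constructor
  · rintro ⟨n, rfl⟩ j hj
    have h1 : j • n ∈ Submodule.span R {s} := by
      rw [hs]
      exact Submodule.smul_mem_smul hj trivial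
    obtain ⟨b, hb⟩ := Submodule.mem_span_singleton.1 h1
    refine ⟨b, ?_⟩
    have h2 : (d n * j - t * b) • s = 0 := by
      rw [sub_smul, mul_comm (d n) j, mul_smul, mul_smul, hb, hd, smul_comm, sub_self]
    exact sub_eq_zero.1 (htf _ h2)
  · intro ha
    have h1 : ∀ m ∈ J • (⊤ : Submodule R N), ∃ n, a • m = t • n := by
      intro m hm
      refine Submodule.smul_induction_on hm ?_ ?_
      · intro j hj n _
        obtain ⟨b, hb⟩ := ha j hj
        exact ⟨b • n, by rw [← mul_smul, hb, mul_smul]⟩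
      · rintro m₁ m₂ ⟨n₁, hn₁⟩ ⟨n₂, hn₂⟩
        exact ⟨n₁ + n₂, by rw [smul_add, smul_add, hn₁, hn₂]⟩
    obtain ⟨n, hn⟩ := h1 s (by rw [← hs]; exact Submodule.mem_span_singleton_self s)
    refine ⟨n, ?_⟩
    have h2 : (d n - a) • s = 0 := by rw [sub_smul, hd, hn, sub_self]
    exact sub_eq_zero.1 (htf _ h2)

/-- **Comparison of two modules with sections of the same divisor.** -/
theorem exists_equiv_of_span_eq {N' : Type*} [AddCommGroup N'] [Module R N']
    (J : Ideal R) (t : R) (ht : t ∈ J) (s : N) (s' : N')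
    (hs : Submodule.span R {s} = J • (⊤ : Submodule R N))
    (hs' : Submodule.span R {s'} = J • (⊤ : Submodule R N'))
    (hreg : IsSMulRegular N t) (hreg' : IsSMulRegular N' t)
    (htf : ∀ r : R, r • s = 0 → r = 0) (htf' : ∀ r : R, r • s' = 0 → r = 0) :
    ∃ e : N ≃ₗ[R] N', e s = s' := by
  obtain ⟨c, hc⟩ := exists_coord ht hs htf
  obtain ⟨c', hc'⟩ := exists_coord ht hs' htf'
  have hcinj : Function.Injective c := by
    rw [injective_iff_map_eq_zero]
    intro n hn
    have := hc n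
    rw [hn, zero_smul] at this
    exact hreg (by simpa using this.symm)
  have hcinj' : Function.Injective c' := by
    rw [injective_iff_map_eq_zero]
    intro n hn
    have := hc' n
    rw [hn, zero_smul] at this
    exact hreg' (by simpa using this.symm)
  have hrr : LinearMap.range c = LinearMap.range c' := by
    ext a
    rw [mem_range_coord_iff hs htf c hc, mem_range_coord_iff hs' htf' c' hc']
  let E : N ≃ₗ[R] N' := (LinearEquiv.ofInjective c hcinj).trans
    ((LinearEquiv.ofEq _ _ hrr).trans (LinearEquiv.ofInjective c' hcinj').symm)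
  have hE : ∀ n, c' (E n) = c n := by
    intro n
    have h1 := (LinearEquiv.ofInjective c' hcinj').apply_symm_apply
      (LinearEquiv.ofEq _ _ hrr (LinearEquiv.ofInjective c hcinj n))
    have h2 := congrArg Subtype.val h1
    rw [LinearEquiv.ofInjective_apply] at h2
    exact h2
  refine ⟨E, ?_⟩
  apply hcinj'
  rw [hE]
  have h1 : c s = t := sub_eq_zero.1 (htf _ (by rw [sub_smul, hc, sub_self]))
  have h2 : c' s' = t := sub_eq_zero.1 (htf' _ (by rw [sub_smul, hc', sub_self]))
  rw [h1, h2]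

end Equiv

end Fermat.Agent.S25.H851

end
-- ===== PACK-END S25/H851/ACIsoCore.lean

-- ===== PACK-BEGIN S26/Soft/H746/Etale.lean
section



/-!
# Row S26, block SOFT, leaves S1a, S3, S4 (helper746): `[n]` is finite etale

`A` a scheme over a field `K` with a group law `L` on its functor of points, `n` invertible in `K`.
* `kerRed_unique_div` (S3-KEY): for a square-zero thickening `Spec S ⟶ Spec R` the kernel of
  reduction `A(R) → A(S)` is uniquely `n`-divisible (any `A`, any group law).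
  No differentials, no local rings: points of the kernel land in an affine open neighbourhood
  `U = Spec R₀` of the zero point, so they are ring homs `R₀ → R` congruent to the constant hom
  modulo the square-zero ideal; the group law on them is computed by the universal pair of
  points over the auxiliary ring `Aux ⊆ K × R × R` (`ZeroChart.mul_pt`).
* `formallyUnramified_schemeNsmul` : `[n]` is formally unramified (`L` commutative);
* `etale_schemeNsmul` (S3) : `[n]` is etale if moreover `A` is smooth over `K`;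
* `isFinite_schemeNsmul` (S4) : `[n]` is finite if moreover `A` is proper over `K`.
-/

set_option autoImplicit false
universe u

open CategoryTheory CategoryTheory.Limits AlgebraicGeometry NeronModelInfra GoodReductionJacobian

namespace Fermat.Agent.S26.Soft.H746

/-! # Part 1: square-zero ring calculus -/

section Alg

variable {K R₀ R S : Type u} [CommRing K] [CommRing R₀] [CommRing R] [CommRing S]
  (ev : R₀ →+* K) (τ : K →+* R) (φ : R →+* S)

/-- `ψ` is congruent to the constant hom `τ ∘ ev` modulo `ker φ`. -/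
def IsInf (ψ : R₀ →+* R) : Prop := ∀ r, φ (ψ r) = φ (τ (ev r))

/-- The kernel of `φ` has square zero (elementwise form). -/
def SqZero : Prop := ∀ a b : R, φ a = 0 → φ b = 0 → a * b = 0

variable {ev τ φ}

theorem sqZero_of_ker_sq (h : RingHom.ker φ ^ 2 = ⊥) : SqZero φ := by
  intro a b ha hb
  have : a * b ∈ RingHom.ker φ ^ 2 := by
    rw [pow_two]
    exact Ideal.mul_mem_mul ((RingHom.mem_ker).2 ha) ((RingHom.mem_ker).2 hb)
  rwa [h, Ideal.mem_bot] at this

theorem IsInf.sub_mem {ψ : R₀ →+* R} (h : IsInf ev τ φ ψ) (r : R₀) :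
    φ (ψ r - τ (ev r)) = 0 := by
  rw [map_sub, h r, sub_self]

/-- The "sum" of two infinitesimal homs. -/
def addHom (hφ : SqZero φ) (ψ₁ ψ₂ : R₀ →+* R) (h₁ : IsInf ev τ φ ψ₁) (h₂ : IsInf ev τ φ ψ₂) :
    R₀ →+* R where
  toFun r := ψ₁ r + ψ₂ r - τ (ev r)
  map_one' := by simp
  map_zero' := by simp
  map_add' a b := by simp only [map_add]; ring
  map_mul' a b := by
    have e₃ := hφ _ _ (h₁.sub_mem a) (h₂.sub_mem b)
    have e₄ := hφ _ _ (h₂.sub_mem a) (h₁.sub_mem b)
    simp only [map_mul]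
    linear_combination (-1 : R) * e₃ - e₄

@[simp] theorem addHom_apply (hφ : SqZero φ) (ψ₁ ψ₂ : R₀ →+* R) (h₁ : IsInf ev τ φ ψ₁)
    (h₂ : IsInf ev τ φ ψ₂) (r : R₀) :
    addHom hφ ψ₁ ψ₂ h₁ h₂ r = ψ₁ r + ψ₂ r - τ (ev r) := rfl

/-- Scaling an infinitesimal hom by a constant `c`. -/
def scaleHom (hφ : SqZero φ) (ψ : R₀ →+* R) (h : IsInf ev τ φ ψ) (c : K) : R₀ →+* R where
  toFun r := τ (ev r) + τ c * (ψ r - τ (ev r))
  map_one' := by simp
  map_zero' := by simp
  map_add' a b := by simp only [map_add]; ring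
  map_mul' a b := by
    have e₁ := hφ _ _ (h.sub_mem a) (h.sub_mem b)
    simp only [map_mul]
    linear_combination (τ c - τ c * τ c) * e₁

@[simp] theorem scaleHom_apply (hφ : SqZero φ) (ψ : R₀ →+* R) (h : IsInf ev τ φ ψ) (c : K)
    (r : R₀) : scaleHom hφ ψ h c r = τ (ev r) + τ c * (ψ r - τ (ev r)) := rfl

theorem isInf_const : IsInf ev τ φ (τ.comp ev) := fun _ => rfl

theorem isInf_addHom (hφ : SqZero φ) (ψ₁ ψ₂ : R₀ →+* R) (h₁ : IsInf ev τ φ ψ₁)
    (h₂ : IsInf ev τ φ ψ₂) : IsInf ev τ φ (addHom hφ ψ₁ ψ₂ h₁ h₂) := by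
  intro r
  simp only [addHom_apply, map_sub, map_add, h₁ r, h₂ r]
  ring

theorem isInf_scaleHom (hφ : SqZero φ) (ψ : R₀ →+* R) (h : IsInf ev τ φ ψ) (c : K) :
    IsInf ev τ φ (scaleHom hφ ψ h c) := by
  intro r
  simp only [scaleHom_apply, map_add, map_mul, map_sub, h r, sub_self, mul_zero, add_zero]

theorem scaleHom_one (hφ : SqZero φ) (ψ : R₀ →+* R) (h : IsInf ev τ φ ψ) :
    scaleHom hφ ψ h 1 = ψ := by
  ext r; simp

theorem scaleHom_zero (hφ : SqZero φ) (ψ : R₀ →+* R) (h : IsInf ev τ φ ψ) :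
    scaleHom hφ ψ h 0 = τ.comp ev := by
  ext r; simp

theorem addHom_scaleHom (hφ : SqZero φ) (ψ : R₀ →+* R) (h : IsInf ev τ φ ψ) (c c' : K) :
    addHom hφ (scaleHom hφ ψ h c) (scaleHom hφ ψ h c') (isInf_scaleHom hφ ψ h c)
      (isInf_scaleHom hφ ψ h c') = scaleHom hφ ψ h (c + c') := by
  ext r; simp only [addHom_apply, scaleHom_apply, map_add]; ring

theorem addHom_scaleHom_self (hφ : SqZero φ) (ψ : R₀ →+* R) (h : IsInf ev τ φ ψ) (c : K) :
    addHom hφ (scaleHom hφ ψ h c) ψ (isInf_scaleHom hφ ψ h c) h = scaleHom hφ ψ h (c + 1) := by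
  ext r; simp only [addHom_apply, scaleHom_apply, map_add, map_one]; ring

theorem scaleHom_congr (hφ : SqZero φ) {ψ ψ' : R₀ →+* R} (h : IsInf ev τ φ ψ)
    (h' : IsInf ev τ φ ψ') (e : ψ = ψ') (c : K) : scaleHom hφ ψ h c = scaleHom hφ ψ' h' c := by
  subst e; rfl

theorem scaleHom_scaleHom (hφ : SqZero φ) (ψ : R₀ →+* R) (h : IsInf ev τ φ ψ) (c c' : K) :
    scaleHom hφ (scaleHom hφ ψ h c) (isInf_scaleHom hφ ψ h c) c' = scaleHom hφ ψ h (c' * c) := by
  ext r; simp only [scaleHom_apply, map_mul]; ring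

theorem scaleHom_injective (hφ : SqZero φ) {ψ ψ' : R₀ →+* R} (h : IsInf ev τ φ ψ)
    (h' : IsInf ev τ φ ψ') {c : K} (hc : IsUnit c)
    (heq : scaleHom hφ ψ h c = scaleHom hφ ψ' h' c) : ψ = ψ' := by
  obtain ⟨u, rfl⟩ := hc
  have := congrArg (fun χ => scaleHom hφ χ.1 χ.2 (↑u⁻¹ : K))
    (Subtype.ext heq : (⟨_, isInf_scaleHom hφ ψ h u⟩ : {χ // IsInf ev τ φ χ}) =
      ⟨_, isInf_scaleHom hφ ψ' h' u⟩)
  simpa [scaleHom_scaleHom, scaleHom_one] using this

theorem scaleHom_comp_of_comp {κ : K →+* R₀} (hκ : ev.comp κ = RingHom.id K)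
    (hφ : SqZero φ) (ψ : R₀ →+* R) (h : IsInf ev τ φ ψ) (hψ : ψ.comp κ = τ) (c : K) :
    (scaleHom hφ ψ h c).comp κ = τ := by
  ext a
  have h1 : ev (κ a) = a := congrArg (fun g => g a) hκ
  have h2 : ψ (κ a) = τ a := congrArg (fun g => g a) hψ
  simp [h1, h2]

theorem addHom_comp_of_comp {κ : K →+* R₀} (hκ : ev.comp κ = RingHom.id K)
    (hφ : SqZero φ) (ψ₁ ψ₂ : R₀ →+* R) (h₁ : IsInf ev τ φ ψ₁) (h₂ : IsInf ev τ φ ψ₂)
    (hψ₁ : ψ₁.comp κ = τ) (hψ₂ : ψ₂.comp κ = τ) :
    (addHom hφ ψ₁ ψ₂ h₁ h₂).comp κ = τ := by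
  ext a
  have h0 : ev (κ a) = a := congrArg (fun g => g a) hκ
  have h1 : ψ₁ (κ a) = τ a := congrArg (fun g => g a) hψ₁
  have h2 : ψ₂ (κ a) = τ a := congrArg (fun g => g a) hψ₂
  simp [h0, h1, h2]

/-! ### The auxiliary ring -/

variable (τ φ) in
/-- The auxiliary ring `{(c, a, b) | a ≡ τ c ≡ b mod ker φ} ⊆ K × R × R`. -/
def Aux : Subring (K × R × R) :=
  RingHom.eqLocus (φ.comp ((RingHom.fst R R).comp (RingHom.snd K (R × R))))
      (φ.comp (τ.comp (RingHom.fst K (R × R)))) ⊓
    RingHom.eqLocus (φ.comp ((RingHom.snd R R).comp (RingHom.snd K (R × R))))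
      (φ.comp (τ.comp (RingHom.fst K (R × R))))

theorem mem_aux {z : K × R × R} :
    z ∈ Aux τ φ ↔ φ z.2.1 = φ (τ z.1) ∧ φ z.2.2 = φ (τ z.1) := Iff.rfl

variable (τ φ) in
/-- `Aux → K`. -/
def auxFst : Aux τ φ →+* K := (RingHom.fst K (R × R)).comp (Aux τ φ).subtype

variable (τ φ) in
/-- First projection `Aux → R`. -/
def auxP₁ : Aux τ φ →+* R :=
  ((RingHom.fst R R).comp (RingHom.snd K (R × R))).comp (Aux τ φ).subtype

variable (τ φ) in
/-- Second projection `Aux → R`. -/
def auxP₂ : Aux τ φ →+* R :=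
  ((RingHom.snd R R).comp (RingHom.snd K (R × R))).comp (Aux τ φ).subtype

variable (τ φ) in
/-- The structure map `K → Aux`. -/
def auxStr : K →+* Aux τ φ :=
  ((RingHom.id K).prod (τ.prod τ)).codRestrict (Aux τ φ) fun c => by
    rw [mem_aux]; exact ⟨rfl, rfl⟩

/-- A triple of homs into `Aux`. -/
def auxMk (χ₁ χ₂ : R₀ →+* R) (h₁ : IsInf ev τ φ χ₁) (h₂ : IsInf ev τ φ χ₂) :
    R₀ →+* Aux τ φ :=
  (ev.prod (χ₁.prod χ₂)).codRestrict (Aux τ φ) fun r => by
    rw [mem_aux]; exact ⟨h₁ r, h₂ r⟩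

@[simp] theorem auxFst_auxMk (χ₁ χ₂ : R₀ →+* R) (h₁ : IsInf ev τ φ χ₁)
    (h₂ : IsInf ev τ φ χ₂) : (auxFst τ φ).comp (auxMk χ₁ χ₂ h₁ h₂) = ev := rfl

@[simp] theorem auxP₁_auxMk (χ₁ χ₂ : R₀ →+* R) (h₁ : IsInf ev τ φ χ₁)
    (h₂ : IsInf ev τ φ χ₂) : (auxP₁ τ φ).comp (auxMk χ₁ χ₂ h₁ h₂) = χ₁ := rfl

@[simp] theorem auxP₂_auxMk (χ₁ χ₂ : R₀ →+* R) (h₁ : IsInf ev τ φ χ₁)
    (h₂ : IsInf ev τ φ χ₂) : (auxP₂ τ φ).comp (auxMk χ₁ χ₂ h₁ h₂) = χ₂ := rfl

@[simp] theorem auxFst_auxStr : (auxFst τ φ).comp (auxStr τ φ) = RingHom.id K := rfl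

@[simp] theorem auxP₁_auxStr : (auxP₁ τ φ).comp (auxStr τ φ) = τ := rfl

@[simp] theorem auxP₂_auxStr : (auxP₂ τ φ).comp (auxStr τ φ) = τ := rfl

theorem auxMk_comp {κ : K →+* R₀} (hκ : ev.comp κ = RingHom.id K) (χ₁ χ₂ : R₀ →+* R)
    (h₁ : IsInf ev τ φ χ₁) (h₂ : IsInf ev τ φ χ₂) (hχ₁ : χ₁.comp κ = τ) (hχ₂ : χ₂.comp κ = τ) :
    (auxMk χ₁ χ₂ h₁ h₂).comp κ = auxStr τ φ := by
  ext a
  · exact congrArg (fun g => g a) hκ
  · exact congrArg (fun g => g a) hχ₁
  · exact congrArg (fun g => g a) hχ₂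

/-- Homs into `Aux` are determined by their three components. -/
theorem aux_hom_ext {B : Type u} [CommRing B] {α β : B →+* Aux τ φ}
    (h₀ : (auxFst τ φ).comp α = (auxFst τ φ).comp β)
    (h₁ : (auxP₁ τ φ).comp α = (auxP₁ τ φ).comp β)
    (h₂ : (auxP₂ τ φ).comp α = (auxP₂ τ φ).comp β) : α = β := by
  ext b
  · exact congrArg (fun g => g b) h₀
  · exact congrArg (fun g => g b) h₁
  · exact congrArg (fun g => g b) h₂

theorem auxFst_surjective : Function.Surjective (auxFst τ φ) := fun c =>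
  ⟨auxStr τ φ c, rfl⟩

theorem auxFst_sqZero (hφ : SqZero φ) : SqZero (auxFst τ φ) := by
  rintro ⟨⟨c, a, b⟩, hz⟩ ⟨⟨c', a', b'⟩, hz'⟩ hc hc'
  rw [mem_aux] at hz hz'
  change c = 0 at hc
  change c' = 0 at hc'
  subst hc hc'
  simp only [map_zero] at hz hz'
  ext
  · simp
  · exact hφ _ _ hz.1 hz'.1
  · exact hφ _ _ hz.2 hz'.2

variable (τ φ) in
/-- The "sum" map `Aux → R`, `(c, a, b) ↦ a + b - τ c`. -/
def auxSum (hφ : SqZero φ) : Aux τ φ →+* R where
  toFun z := z.1.2.1 + z.1.2.2 - τ z.1.1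
  map_one' := by simp
  map_zero' := by simp
  map_add' z w := by
    simp only [Subring.coe_add, Prod.fst_add, Prod.snd_add, map_add]; ring
  map_mul' := by
    rintro ⟨⟨c, a, b⟩, hz⟩ ⟨⟨c', a', b'⟩, hz'⟩
    rw [mem_aux] at hz hz'
    have ha : φ (a - τ c) = 0 := by rw [map_sub, hz.1, sub_self]
    have hb : φ (b - τ c) = 0 := by rw [map_sub, hz.2, sub_self]
    have ha' : φ (a' - τ c') = 0 := by rw [map_sub, hz'.1, sub_self]
    have hb' : φ (b' - τ c') = 0 := by rw [map_sub, hz'.2, sub_self]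
    have e₁ := hφ _ _ ha hb'
    have e₂ := hφ _ _ hb ha'
    simp only [Subring.coe_mul, Prod.mk_mul_mk, map_mul]
    linear_combination (-1 : R) * e₁ - e₂

theorem auxSum_auxMk (hφ : SqZero φ) (χ₁ χ₂ : R₀ →+* R) (h₁ : IsInf ev τ φ χ₁)
    (h₂ : IsInf ev τ φ χ₂) :
    (auxSum τ φ hφ).comp (auxMk χ₁ χ₂ h₁ h₂) = addHom hφ χ₁ χ₂ h₁ h₂ := rfl

theorem auxSum_auxStr (hφ : SqZero φ) : (auxSum τ φ hφ).comp (auxStr τ φ) = τ := by
  ext c
  change τ c + τ c - τ c = τ c
  ring

theorem addHom_const_right (hφ : SqZero φ) (ψ : R₀ →+* R) (h : IsInf ev τ φ ψ) :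
    addHom hφ ψ (τ.comp ev) h isInf_const = ψ := by
  ext r; simp

theorem addHom_const_left (hφ : SqZero φ) (ψ : R₀ →+* R) (h : IsInf ev τ φ ψ) :
    addHom hφ (τ.comp ev) ψ isInf_const h = ψ := by
  ext r; simp

end Alg


/-! # Part 2: the kernel of reduction -/

noncomputable section

/-! ## Points of a scheme landing in an affine open -/

section AffPt

variable {A : Scheme.{u}} {V : A.Opens}

/-- The `R`-valued point of `A` given by a ring hom `Γ(A, V) ⟶ R`, `V` affine open. -/
def ptOf (hV : IsAffineOpen V) {R : CommRingCat.{u}} (ψ : Γ(A, V) ⟶ R) : Spec R ⟶ A :=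
  Spec.map ψ ≫ hV.fromSpec

theorem ptOf_injective (hV : IsAffineOpen V) {R : CommRingCat.{u}} :
    Function.Injective (ptOf hV (R := R)) := by
  intro ψ ψ' h
  exact Spec.map_injective ((cancel_mono hV.fromSpec).1 h)

theorem map_comp_ptOf (hV : IsAffineOpen V) {R R' : CommRingCat.{u}} (ψ : Γ(A, V) ⟶ R)
    (h : R ⟶ R') : Spec.map h ≫ ptOf hV ψ = ptOf hV (ψ ≫ h) := by
  rw [ptOf, ptOf, Spec.map_comp, Category.assoc]

theorem ptOf_mem (hV : IsAffineOpen V) {R : CommRingCat.{u}} (ψ : Γ(A, V) ⟶ R) (p : Spec R) :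
    ptOf hV ψ p ∈ V := by
  have : ptOf hV ψ p ∈ Set.range hV.fromSpec := ⟨Spec.map ψ p, rfl⟩
  rw [hV.range_fromSpec] at this
  exact this

theorem exists_eq_ptOf (hV : IsAffineOpen V) {R : CommRingCat.{u}} (g : Spec R ⟶ A)
    (hg : ∀ p, g p ∈ V) : ∃ ψ : Γ(A, V) ⟶ R, g = ptOf hV ψ := by
  have hr : Set.range g ⊆ Set.range hV.fromSpec := by
    rw [hV.range_fromSpec]
    rintro _ ⟨p, rfl⟩
    exact hg p
  refine ⟨Spec.preimage (IsOpenImmersion.lift hV.fromSpec g hr), ?_⟩
  rw [ptOf, Spec.map_preimage, IsOpenImmersion.lift_fac]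

/-- `Spec S ⟶ Spec R` is surjective for a surjection `R → S` with square-zero kernel. -/
theorem surjective_specMap_of_sq_zero {R S : CommRingCat.{u}} (φ : R ⟶ S)
    (hφ : Function.Surjective φ.hom) (hI : RingHom.ker φ.hom ^ 2 = ⊥) :
    Function.Surjective (Spec.map φ) := by
  intro p
  have hp : p.asIdeal.IsPrime := p.isPrime
  have hker : RingHom.ker φ.hom ≤ p.asIdeal := by
    apply Ideal.IsPrime.le_of_pow_le (n := 2)
    rw [hI]; exact bot_le
  have hprime : (p.asIdeal.map φ.hom).IsPrime := Ideal.map_isPrime_of_surjective hφ hker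
  refine ⟨⟨p.asIdeal.map φ.hom, hprime⟩, ?_⟩
  apply PrimeSpectrum.ext
  change (p.asIdeal.map φ.hom).comap φ.hom = p.asIdeal
  rw [Ideal.comap_map_of_surjective _ hφ]
  exact sup_eq_left.2 hker

/-- A point of `A` over a square-zero thickening lands in `V` as soon as its reduction does. -/
theorem exists_eq_ptOf_of_thickening (hV : IsAffineOpen V) {R S : CommRingCat.{u}} (φ : R ⟶ S)
    (hφ : Function.Surjective φ.hom) (hI : RingHom.ker φ.hom ^ 2 = ⊥) (g : Spec R ⟶ A)
    (hg : ∀ q, (Spec.map φ ≫ g) q ∈ V) : ∃ ψ : Γ(A, V) ⟶ R, g = ptOf hV ψ := by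
  refine exists_eq_ptOf hV g fun p => ?_
  obtain ⟨q, rfl⟩ := surjective_specMap_of_sq_zero φ hφ hI p
  exact hg q

end AffPt

/-! ## Group calculus -/

section Group

variable {K : Type u} [Field K] {A : Scheme.{u}} {f : A ⟶ Spec (CommRingCat.of K)}
  (L : RelativeGroupLaw K f)

/-- S1a: `[n] ∘ x = n • x` on `T`-valued points. -/
theorem comp_schemeNsmul {T : Scheme.{u}} (t : T ⟶ Spec (CommRingCat.of K)) (n : ℕ)
    (x : SchemeHomOver t f) : x.1 ≫ L.schemeNsmul n = (L.nsmul t n x).1 := by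
  have h := L.nsmul_natural f t x.1 x.2 n RelativeGroupLaw.idPoint
  have h2 : schemeHomOverComp x.1 x.2 (RelativeGroupLaw.idPoint (f := f)) = x :=
    Subtype.ext (Category.comp_id _)
  rw [h2] at h
  exact congrArg Subtype.val h

theorem one_val {T : Scheme.{u}} (t : T ⟶ Spec (CommRingCat.of K)) :
    (L.one t).1 = t ≫ (L.one (𝟙 (Spec (CommRingCat.of K)))).1 :=
  (congrArg Subtype.val (L.one_natural (𝟙 _) t t (Category.comp_id t))).symm

/-- The kernel of reduction along `Spec S ⟶ Spec R`. -/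
def kerRed {R S : CommRingCat.{u}} (φ : R ⟶ S) (t : Spec R ⟶ Spec (CommRingCat.of K)) :
    Set (SchemeHomOver t f) :=
  {x | schemeHomOverComp (Spec.map φ) rfl x = L.one (Spec.map φ ≫ t)}

theorem mem_kerRed_iff {R S : CommRingCat.{u}} (φ : R ⟶ S)
    (t : Spec R ⟶ Spec (CommRingCat.of K)) (x : SchemeHomOver t f) :
    x ∈ kerRed L φ t ↔ Spec.map φ ≫ x.1 = (L.one (Spec.map φ ≫ t)).1 :=
  Subtype.ext_iff

/-- An affine chart around the zero point. -/
structure ZeroChart where
  /-- an affine open neighbourhood of the zero point -/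
  U : A.Opens
  hU : IsAffineOpen U
  /-- evaluation at the zero point -/
  ev : Γ(A, U) ⟶ CommRingCat.of K
  /-- the `K`-algebra structure of `Γ(A, U)` -/
  κ : CommRingCat.of K ⟶ Γ(A, U)
  hev : ptOf hU ev = (L.one (𝟙 (Spec (CommRingCat.of K)))).1
  hκ : Spec.map κ = hU.fromSpec ≫ f

theorem exists_zeroChart : Nonempty (ZeroChart L) := by
  let e := (L.one (𝟙 (Spec (CommRingCat.of K)))).1
  let x₀ : A := e default
  obtain ⟨_, ⟨U, hU, rfl⟩, hxU, -⟩ :=
    A.isBasis_affineOpens.exists_subset_of_mem_open (Set.mem_univ x₀) isOpen_univ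
  have hmem : ∀ p, e p ∈ U := fun p => by
    rw [Subsingleton.elim p default]; exact hxU
  obtain ⟨ev, hev⟩ := exists_eq_ptOf hU e hmem
  exact ⟨⟨U, hU, ev, Spec.preimage (hU.fromSpec ≫ f), hev.symm, Spec.map_preimage _⟩⟩

variable {L}

namespace ZeroChart

variable (Z : ZeroChart L)

theorem κ_ev : Z.κ ≫ Z.ev = 𝟙 _ := by
  apply Spec.map_injective
  rw [Spec.map_comp, Z.hκ, ← Category.assoc, ← ptOf, Z.hev, Spec.map_id]
  exact (L.one (𝟙 (Spec (CommRingCat.of K)))).2

theorem ptOf_comp_f {R : CommRingCat.{u}} (ψ : Γ(A, Z.U) ⟶ R) :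
    ptOf Z.hU ψ ≫ f = Spec.map (Z.κ ≫ ψ) := by
  rw [ptOf, Category.assoc, ← Z.hκ, ← Spec.map_comp]

/-- The point of `A` over `Spec.map τ` given by a `K`-algebra hom `Γ(A, U) ⟶ R`. -/
def pt {R : CommRingCat.{u}} (τ : CommRingCat.of K ⟶ R) (ψ : Γ(A, Z.U) ⟶ R)
    (h : Z.κ ≫ ψ = τ) : SchemeHomOver (Spec.map τ) f :=
  ⟨ptOf Z.hU ψ, by rw [Z.ptOf_comp_f, h]⟩

@[simp] theorem pt_val {R : CommRingCat.{u}} (τ : CommRingCat.of K ⟶ R) (ψ : Γ(A, Z.U) ⟶ R)
    (h : Z.κ ≫ ψ = τ) : (Z.pt τ ψ h).1 = ptOf Z.hU ψ := rfl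

theorem pt_injective {R : CommRingCat.{u}} (τ : CommRingCat.of K ⟶ R)
    {ψ ψ' : Γ(A, Z.U) ⟶ R} {h : Z.κ ≫ ψ = τ} {h' : Z.κ ≫ ψ' = τ}
    (e : Z.pt τ ψ h = Z.pt τ ψ' h') : ψ = ψ' :=
  ptOf_injective Z.hU (congrArg Subtype.val e)

theorem κ_ev_comp {R : CommRingCat.{u}} (τ : CommRingCat.of K ⟶ R) :
    Z.κ ≫ Z.ev ≫ τ = τ := by
  rw [← Category.assoc, Z.κ_ev, Category.id_comp]

theorem one_val {R : CommRingCat.{u}} (τ : CommRingCat.of K ⟶ R) :
    (L.one (Spec.map τ)).1 = ptOf Z.hU (Z.ev ≫ τ) := by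
  rw [H746.one_val, ← Z.hev, map_comp_ptOf]

theorem one_eq {R : CommRingCat.{u}} (τ : CommRingCat.of K ⟶ R) :
    L.one (Spec.map τ) = Z.pt τ (Z.ev ≫ τ) (Z.κ_ev_comp τ) :=
  Subtype.ext (Z.one_val τ)

/-- Push-forward of a chart point along a ring hom. -/
theorem comp_pt {R R' : CommRingCat.{u}} (τ : CommRingCat.of K ⟶ R) (ψ : Γ(A, Z.U) ⟶ R)
    (h : Z.κ ≫ ψ = τ) (g : R ⟶ R') (τ' : CommRingCat.of K ⟶ R') (hg : τ ≫ g = τ') :
    schemeHomOverComp (Spec.map g) (by rw [← Spec.map_comp, hg]) (Z.pt τ ψ h) =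
      Z.pt τ' (ψ ≫ g) (by rw [← Category.assoc, h, hg]) :=
  Subtype.ext (map_comp_ptOf Z.hU ψ g)

theorem pt_congr {R : CommRingCat.{u}} (τ : CommRingCat.of K ⟶ R) {ψ ψ' : Γ(A, Z.U) ⟶ R}
    (h : Z.κ ≫ ψ = τ) (e : ψ = ψ') : Z.pt τ ψ h = Z.pt τ ψ' (e ▸ h) := by
  subst e; rfl

theorem ev_comp_κ : Z.ev.hom.comp Z.κ.hom = RingHom.id K := by
  have := congrArg CommRingCat.Hom.hom Z.κ_ev
  simpa using this

variable {R S : CommRingCat.{u}} (φ : R ⟶ S) (τ : CommRingCat.of K ⟶ R)

theorem mem_kerRed_pt_iff (ψ : Γ(A, Z.U) ⟶ R) (h : Z.κ ≫ ψ = τ) :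
    Z.pt τ ψ h ∈ kerRed L φ (Spec.map τ) ↔ IsInf Z.ev.hom τ.hom φ.hom ψ.hom := by
  rw [mem_kerRed_iff, pt_val, map_comp_ptOf, H746.one_val, ← Z.hev, Category.assoc,
    map_comp_ptOf, map_comp_ptOf]
  constructor
  · intro e r
    have := congrArg (fun χ => χ.hom r) (ptOf_injective Z.hU e)
    simpa using this
  · intro e
    congr 1
    ext r
    simpa using e r

theorem exists_pt_of_mem_kerRed (hφ : Function.Surjective φ.hom)
    (hI : RingHom.ker φ.hom ^ 2 = ⊥) (x : SchemeHomOver (Spec.map τ) f)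
    (hx : x ∈ kerRed L φ (Spec.map τ)) :
    ∃ (ψ : Γ(A, Z.U) ⟶ R) (h : Z.κ ≫ ψ = τ), x = Z.pt τ ψ h ∧
      IsInf Z.ev.hom τ.hom φ.hom ψ.hom := by
  have hx' := (mem_kerRed_iff L φ _ x).1 hx
  have hland : ∀ q, (Spec.map φ ≫ x.1) q ∈ Z.U := by
    intro q
    rw [hx', H746.one_val, ← Z.hev, Category.assoc, map_comp_ptOf, map_comp_ptOf]
    exact ptOf_mem Z.hU _ q
  obtain ⟨ψ, hψ⟩ := exists_eq_ptOf_of_thickening Z.hU φ hφ hI x.1 hland
  have h : Z.κ ≫ ψ = τ := by
    apply Spec.map_injective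
    rw [← Z.ptOf_comp_f, ← hψ]
    exact x.2
  have hxe : x = Z.pt τ ψ h := Subtype.ext hψ
  refine ⟨ψ, h, hxe, ?_⟩
  rw [← mem_kerRed_pt_iff Z φ τ ψ h, ← hxe]
  exact hx

/-- Naturality of the group law for chart points. -/
theorem comp_mul {R' : CommRingCat.{u}} (g : R ⟶ R') (τ' : CommRingCat.of K ⟶ R')
    (hg : τ ≫ g = τ') (x y : SchemeHomOver (Spec.map τ) f) :
    schemeHomOverComp (Spec.map g) (by rw [← Spec.map_comp, hg]) (L.mul (Spec.map τ) x y) =
      L.mul (Spec.map τ')
        (schemeHomOverComp (Spec.map g) (by rw [← Spec.map_comp, hg]) x)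
        (schemeHomOverComp (Spec.map g) (by rw [← Spec.map_comp, hg]) y) :=
  L.mul_natural _ _ _ _ x y

/-- **The group law on infinitesimal chart points is the "sum".** -/
theorem mul_pt (hsq : SqZero φ.hom) (ψ₁ ψ₂ : Γ(A, Z.U) ⟶ R) (h₁ : Z.κ ≫ ψ₁ = τ)
    (h₂ : Z.κ ≫ ψ₂ = τ) (i₁ : IsInf Z.ev.hom τ.hom φ.hom ψ₁.hom)
    (i₂ : IsInf Z.ev.hom τ.hom φ.hom ψ₂.hom) :
    ∃ h : Z.κ ≫ CommRingCat.ofHom (addHom hsq ψ₁.hom ψ₂.hom i₁ i₂) = τ,
      L.mul (Spec.map τ) (Z.pt τ ψ₁ h₁) (Z.pt τ ψ₂ h₂) =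
        Z.pt τ (CommRingCat.ofHom (addHom hsq ψ₁.hom ψ₂.hom i₁ i₂)) h := by
  have hκ₁ : ψ₁.hom.comp Z.κ.hom = τ.hom := by
    have := congrArg CommRingCat.Hom.hom h₁; simpa using this
  have hκ₂ : ψ₂.hom.comp Z.κ.hom = τ.hom := by
    have := congrArg CommRingCat.Hom.hom h₂; simpa using this
  have hκc : (τ.hom.comp Z.ev.hom).comp Z.κ.hom = τ.hom := by
    rw [RingHom.comp_assoc, Z.ev_comp_κ, RingHom.comp_id]
  have hadd : Z.κ ≫ CommRingCat.ofHom (addHom hsq ψ₁.hom ψ₂.hom i₁ i₂) = τ := by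
    apply CommRingCat.hom_ext
    simpa using addHom_comp_of_comp Z.ev_comp_κ hsq ψ₁.hom ψ₂.hom i₁ i₂ hκ₁ hκ₂
  refine ⟨hadd, ?_⟩
  -- the auxiliary ring and its maps
  let T : CommRingCat.{u} := CommRingCat.of (Aux τ.hom φ.hom)
  let τT : CommRingCat.of K ⟶ T := CommRingCat.ofHom (auxStr τ.hom φ.hom)
  let fstT : T ⟶ CommRingCat.of K := CommRingCat.ofHom (auxFst τ.hom φ.hom)
  let P₁ : T ⟶ R := CommRingCat.ofHom (auxP₁ τ.hom φ.hom)
  let P₂ : T ⟶ R := CommRingCat.ofHom (auxP₂ τ.hom φ.hom)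
  let Sg : T ⟶ R := CommRingCat.ofHom (auxSum τ.hom φ.hom hsq)
  have ic : IsInf Z.ev.hom τ.hom φ.hom (τ.hom.comp Z.ev.hom) := isInf_const
  let p₁ : Γ(A, Z.U) ⟶ T := CommRingCat.ofHom (auxMk ψ₁.hom (τ.hom.comp Z.ev.hom) i₁ ic)
  let p₂ : Γ(A, Z.U) ⟶ T := CommRingCat.ofHom (auxMk (τ.hom.comp Z.ev.hom) ψ₂.hom ic i₂)
  let p₁₂ : Γ(A, Z.U) ⟶ T := CommRingCat.ofHom (auxMk ψ₁.hom ψ₂.hom i₁ i₂)
  have hp₁ : Z.κ ≫ p₁ = τT := by
    apply CommRingCat.hom_ext
    simpa [p₁, τT] using auxMk_comp Z.ev_comp_κ ψ₁.hom (τ.hom.comp Z.ev.hom) i₁ ic hκ₁ hκc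
  have hp₂ : Z.κ ≫ p₂ = τT := by
    apply CommRingCat.hom_ext
    simpa [p₂, τT] using auxMk_comp Z.ev_comp_κ (τ.hom.comp Z.ev.hom) ψ₂.hom ic i₂ hκc hκ₂
  have hτP₁ : τT ≫ P₁ = τ := by apply CommRingCat.hom_ext; rfl
  have hτP₂ : τT ≫ P₂ = τ := by apply CommRingCat.hom_ext; rfl
  have hτS : τT ≫ Sg = τ := by
    apply CommRingCat.hom_ext
    simpa [τT, Sg] using auxSum_auxStr (τ := τ.hom) hsq
  have hsurj : Function.Surjective fstT.hom := auxFst_surjective
  have hsqT : SqZero fstT.hom := auxFst_sqZero hsq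
  have hIT : RingHom.ker fstT.hom ^ 2 = ⊥ := by
    rw [eq_bot_iff, pow_two, Ideal.mul_le]
    intro a ha b hb
    rw [Ideal.mem_bot]
    exact hsqT a b ((RingHom.mem_ker).1 ha) ((RingHom.mem_ker).1 hb)
  -- the product of the universal pair
  set Q := L.mul (Spec.map τT) (Z.pt τT p₁ hp₁) (Z.pt τT p₂ hp₂) with hQ
  have hinf₁ : IsInf Z.ev.hom τT.hom fstT.hom p₁.hom := fun _ => rfl
  have hinf₂ : IsInf Z.ev.hom τT.hom fstT.hom p₂.hom := fun _ => rfl
  have hQker : Q ∈ kerRed L fstT (Spec.map τT) := by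
    have e₁ := (Z.mem_kerRed_pt_iff fstT τT p₁ hp₁).2 hinf₁
    have e₂ := (Z.mem_kerRed_pt_iff fstT τT p₂ hp₂).2 hinf₂
    change schemeHomOverComp (Spec.map fstT) rfl Q = _
    rw [hQ, L.mul_natural _ _ (Spec.map fstT) rfl]
    change schemeHomOverComp (Spec.map fstT) rfl _ = _ at e₁ e₂
    rw [e₁, e₂, L.one_mul]
  obtain ⟨ψQ, hψQ, hQe, hQinf⟩ := Z.exists_pt_of_mem_kerRed fstT τT hsurj hIT Q hQker
  -- the two projections
  have hπ₁ : ψQ ≫ P₁ = ψ₁ := by
    have e := comp_mul (L := L) τT P₁ τ hτP₁ (Z.pt τT p₁ hp₁) (Z.pt τT p₂ hp₂)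
    rw [← hQ, hQe, Z.comp_pt τT ψQ hψQ P₁ τ hτP₁, Z.comp_pt τT p₁ hp₁ P₁ τ hτP₁,
      Z.comp_pt τT p₂ hp₂ P₁ τ hτP₁] at e
    have e₂ : Z.pt τ (p₂ ≫ P₁) (by rw [← Category.assoc, hp₂, hτP₁]) = L.one (Spec.map τ) := by
      rw [Z.one_eq τ]; exact Z.pt_congr τ _ (by apply CommRingCat.hom_ext; rfl)
    rw [e₂, L.mul_one] at e
    have := Z.pt_injective τ e
    rw [this]; apply CommRingCat.hom_ext; rfl
  have hπ₂ : ψQ ≫ P₂ = ψ₂ := by
    have e := comp_mul (L := L) τT P₂ τ hτP₂ (Z.pt τT p₁ hp₁) (Z.pt τT p₂ hp₂)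
    rw [← hQ, hQe, Z.comp_pt τT ψQ hψQ P₂ τ hτP₂, Z.comp_pt τT p₁ hp₁ P₂ τ hτP₂,
      Z.comp_pt τT p₂ hp₂ P₂ τ hτP₂] at e
    have e₁ : Z.pt τ (p₁ ≫ P₂) (by rw [← Category.assoc, hp₁, hτP₂]) = L.one (Spec.map τ) := by
      rw [Z.one_eq τ]; exact Z.pt_congr τ _ (by apply CommRingCat.hom_ext; rfl)
    rw [e₁, L.one_mul] at e
    have := Z.pt_injective τ e
    rw [this]; apply CommRingCat.hom_ext; rfl
  have hψQeq : ψQ = p₁₂ := by
    apply CommRingCat.hom_ext
    apply aux_hom_ext
    · ext r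
      exact hQinf r
    · have := congrArg CommRingCat.Hom.hom hπ₁
      simpa [P₁, p₁₂] using this
    · have := congrArg CommRingCat.Hom.hom hπ₂
      simpa [P₂, p₁₂] using this
  -- apply the sum map
  have e := comp_mul (L := L) τT Sg τ hτS (Z.pt τT p₁ hp₁) (Z.pt τT p₂ hp₂)
  rw [← hQ, hQe, Z.comp_pt τT ψQ hψQ Sg τ hτS, Z.comp_pt τT p₁ hp₁ Sg τ hτS,
    Z.comp_pt τT p₂ hp₂ Sg τ hτS] at e
  have e₁ : Z.pt τ (p₁ ≫ Sg) (by rw [← Category.assoc, hp₁, hτS]) = Z.pt τ ψ₁ h₁ := by
    refine (Z.pt_congr τ _ ?_)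
    apply CommRingCat.hom_ext
    exact addHom_const_right hsq ψ₁.hom i₁
  have e₂ : Z.pt τ (p₂ ≫ Sg) (by rw [← Category.assoc, hp₂, hτS]) = Z.pt τ ψ₂ h₂ := by
    refine (Z.pt_congr τ _ ?_)
    apply CommRingCat.hom_ext
    exact addHom_const_left hsq ψ₂.hom i₂
  rw [e₁, e₂] at e
  rw [← e]
  refine Z.pt_congr τ _ ?_
  rw [hψQeq]
  apply CommRingCat.hom_ext
  rfl

/-- `n • x` on infinitesimal chart points is scaling by `n`. -/
theorem nsmul_pt (hsq : SqZero φ.hom) (ψ : Γ(A, Z.U) ⟶ R) (h : Z.κ ≫ ψ = τ)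
    (i : IsInf Z.ev.hom τ.hom φ.hom ψ.hom) (n : ℕ) :
    ∃ h' : Z.κ ≫ CommRingCat.ofHom (scaleHom hsq ψ.hom i (n : K)) = τ,
      L.nsmul (Spec.map τ) n (Z.pt τ ψ h) =
        Z.pt τ (CommRingCat.ofHom (scaleHom hsq ψ.hom i (n : K))) h' := by
  have hκ : ψ.hom.comp Z.κ.hom = τ.hom := by
    have := congrArg CommRingCat.Hom.hom h; simpa using this
  have hcomp : ∀ c : K, Z.κ ≫ CommRingCat.ofHom (scaleHom hsq ψ.hom i c) = τ := fun c => by
    apply CommRingCat.hom_ext
    simpa using scaleHom_comp_of_comp Z.ev_comp_κ hsq ψ.hom i hκ c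
  refine ⟨hcomp _, ?_⟩
  induction n with
  | zero =>
    rw [RelativeGroupLaw.nsmul_zero, Z.one_eq τ]
    refine Z.pt_congr τ _ ?_
    apply CommRingCat.hom_ext
    simp only [Nat.cast_zero, scaleHom_zero]
    rfl
  | succ n ih =>
    rw [RelativeGroupLaw.nsmul_succ, ih]
    obtain ⟨h', e⟩ := Z.mul_pt φ τ hsq _ ψ (hcomp n) h
      (isInf_scaleHom hsq ψ.hom i (n : K)) i
    rw [e]
    refine Z.pt_congr τ _ ?_
    apply CommRingCat.hom_ext
    simp only [CommRingCat.hom_ofHom, Nat.cast_succ]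
    exact addHom_scaleHom_self hsq ψ.hom i (n : K)

end ZeroChart

/-- **S3-KEY.** For a square-zero thickening `Spec S ⟶ Spec R` the kernel of reduction
`A(R) → A(S)` is uniquely `n`-divisible, for `n` invertible in `K`. -/
theorem kerRed_unique_div (L : RelativeGroupLaw K f) (n : ℕ) (hn : (n : K) ≠ 0)
    {R S : CommRingCat.{u}} (φ : R ⟶ S)
    (hφ : Function.Surjective φ.hom) (hI : RingHom.ker φ.hom ^ 2 = ⊥)
    (t : Spec R ⟶ Spec (CommRingCat.of K)) (x : SchemeHomOver t f) (hx : x ∈ kerRed L φ t) :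
    ∃! y : SchemeHomOver t f, y ∈ kerRed L φ t ∧ L.nsmul t n y = x := by
  obtain ⟨Z⟩ := exists_zeroChart L
  obtain ⟨τ, rfl⟩ := Spec.map_surjective t
  have hsq : SqZero φ.hom := sqZero_of_ker_sq hI
  obtain ⟨ψ, h, rfl, i⟩ := Z.exists_pt_of_mem_kerRed φ τ hφ hI x hx
  have hκ : ψ.hom.comp Z.κ.hom = τ.hom := by
    have := congrArg CommRingCat.Hom.hom h; simpa using this
  set c : K := (n : K)⁻¹ with hc
  have hy : Z.κ ≫ CommRingCat.ofHom (scaleHom hsq ψ.hom i c) = τ := by
    apply CommRingCat.hom_ext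
    simpa using scaleHom_comp_of_comp Z.ev_comp_κ hsq ψ.hom i hκ c
  have iy : IsInf Z.ev.hom τ.hom φ.hom (CommRingCat.ofHom (scaleHom hsq ψ.hom i c)).hom :=
    isInf_scaleHom hsq ψ.hom i c
  refine ⟨Z.pt τ _ hy, ⟨(Z.mem_kerRed_pt_iff φ τ _ hy).2 iy, ?_⟩, ?_⟩
  · obtain ⟨h', e⟩ := Z.nsmul_pt φ τ hsq _ hy iy n
    rw [e]
    refine Z.pt_congr τ _ ?_
    apply CommRingCat.hom_ext
    simp only [CommRingCat.hom_ofHom]
    rw [scaleHom_scaleHom, hc, mul_inv_cancel₀ hn, scaleHom_one]
  · rintro y ⟨hyk, hyn⟩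
    obtain ⟨ψ', h', rfl, i'⟩ := Z.exists_pt_of_mem_kerRed φ τ hφ hI y hyk
    obtain ⟨h'', e⟩ := Z.nsmul_pt φ τ hsq ψ' h' i' n
    rw [e] at hyn
    have e₂ := congrArg CommRingCat.Hom.hom (Z.pt_injective τ hyn)
    simp only [CommRingCat.hom_ofHom] at e₂
    refine Z.pt_congr τ _ ?_
    apply CommRingCat.hom_ext
    simp only [CommRingCat.hom_ofHom]
    have e₃ := scaleHom_congr hsq (isInf_scaleHom hsq ψ'.hom i' (n : K)) i e₂ c
    rw [scaleHom_scaleHom, hc, inv_mul_cancel₀ hn, scaleHom_one] at e₃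
    exact e₃

end Group

end


/-! # Part 3: `[n]` is finite etale -/

noncomputable section

/-! ## Abstract group theory -/

section Abstract

variable {G G' : Type*} [CommGroup G] [Group G'] (r : G → G') (hr1 : r 1 = 1)
  (hrm : ∀ x y, r (x * y) = r x * r y) (n : ℕ)
  (hdiv : ∀ x, r x = 1 → ∃! y, r y = 1 ∧ y ^ n = x)

include hr1 hrm

omit hdiv in
theorem abstract_inv (x : G) : r x⁻¹ = (r x)⁻¹ := by
  apply eq_inv_of_mul_eq_one_left
  rw [← hrm, inv_mul_cancel, hr1]

include hdiv

theorem abstract_unramified {x₁ x₂ : G} (hr : r x₁ = r x₂) (hp : x₁ ^ n = x₂ ^ n) : x₁ = x₂ := by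
  have hd : r (x₁ * x₂⁻¹) = 1 := by
    rw [hrm, abstract_inv r hr1 hrm, hr, mul_inv_cancel]
  have hdn : (x₁ * x₂⁻¹) ^ n = 1 := by
    rw [mul_pow, inv_pow, hp, mul_inv_cancel]
  obtain ⟨y, -, hy⟩ := hdiv 1 hr1
  have e₁ := hy (x₁ * x₂⁻¹) ⟨hd, hdn⟩
  have e₂ := hy 1 ⟨hr1, one_pow n⟩
  rw [← e₂] at e₁
  exact mul_inv_eq_one.1 e₁

theorem abstract_smooth (x₀ h : G) (hr : r (x₀ ^ n) = r h) : ∃ g, r g = r x₀ ∧ g ^ n = h := by
  have hd : r (h * (x₀ ^ n)⁻¹) = 1 := by
    rw [hrm, abstract_inv r hr1 hrm, hr, mul_inv_cancel]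
  obtain ⟨ε, ⟨hε1, hεn⟩, -⟩ := hdiv _ hd
  refine ⟨x₀ * ε, by rw [hrm, hε1, mul_one], ?_⟩
  rw [mul_pow, hεn, mul_comm h, mul_inv_cancel_left]

end Abstract

/-! ## The groups of points -/

section Points

variable {K : Type u} [Field K] {A : Scheme.{u}} {f : A ⟶ Spec (CommRingCat.of K)}
  (L : RelativeGroupLaw K f)

/-- The commutative group of `T`-valued points. -/
@[reducible] def ptCommGroup (hc : L.IsCommutative) {T : Scheme.{u}}
    (t : T ⟶ Spec (CommRingCat.of K)) :
    CommGroup (SchemeHomOver t f) :=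
  { L.pointGroup t with mul_comm := hc t }

/-- Unramifiedness and smoothness of `[n]` on points of a square-zero thickening. -/
theorem points_thickening (hc : L.IsCommutative) (n : ℕ) (hn : (n : K) ≠ 0)
    {R S : CommRingCat.{u}} (φ : R ⟶ S)
    (hφ : Function.Surjective φ.hom) (hI : RingHom.ker φ.hom ^ 2 = ⊥)
    (t : Spec R ⟶ Spec (CommRingCat.of K)) :
    (∀ x₁ x₂ : SchemeHomOver t f, Spec.map φ ≫ x₁.1 = Spec.map φ ≫ x₂.1 →
      L.nsmul t n x₁ = L.nsmul t n x₂ → x₁ = x₂) ∧
    (∀ x₀ h : SchemeHomOver t f, Spec.map φ ≫ (L.nsmul t n x₀).1 = Spec.map φ ≫ h.1 →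
      ∃ g : SchemeHomOver t f, Spec.map φ ≫ g.1 = Spec.map φ ≫ x₀.1 ∧ L.nsmul t n g = h) := by
  let _ : CommGroup (SchemeHomOver t f) := ptCommGroup L hc t
  let _ : Group (SchemeHomOver (Spec.map φ ≫ t) f) := L.pointGroup (Spec.map φ ≫ t)
  let r : SchemeHomOver t f → SchemeHomOver (Spec.map φ ≫ t) f :=
    schemeHomOverComp (Spec.map φ) rfl
  have hr1 : r 1 = 1 := L.one_natural _ _ _ rfl
  have hrm : ∀ x y, r (x * y) = r x * r y := fun x y => L.mul_natural _ _ _ rfl x y
  have hpow : ∀ (k : ℕ) (x : SchemeHomOver t f), L.nsmul t k x = x ^ k := by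
    intro k x
    induction k with
    | zero => rw [pow_zero]; rfl
    | succ k ih => rw [pow_succ, ← ih]; rfl
  have hdiv : ∀ x, r x = 1 → ∃! y, r y = 1 ∧ y ^ n = x := by
    intro x hx
    obtain ⟨y, ⟨hy1, hyn⟩, hyu⟩ := kerRed_unique_div L n hn φ hφ hI t x hx
    refine ⟨y, ⟨hy1, by rw [← hpow]; exact hyn⟩, ?_⟩
    rintro y' ⟨hy'1, hy'n⟩
    exact hyu y' ⟨hy'1, by rw [hpow]; exact hy'n⟩
  have hr : ∀ x y : SchemeHomOver t f, Spec.map φ ≫ x.1 = Spec.map φ ≫ y.1 ↔ r x = r y :=
    fun x y => ⟨fun h => Subtype.ext h, fun h => congrArg Subtype.val h⟩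
  constructor
  · intro x₁ x₂ h₁ h₂
    rw [hpow, hpow] at h₂
    exact abstract_unramified r hr1 hrm n hdiv ((hr _ _).1 h₁) h₂
  · intro x₀ h h₁
    rw [hpow, hr] at h₁
    obtain ⟨g, hg1, hgn⟩ := abstract_smooth r hr1 hrm n hdiv x₀ h h₁
    exact ⟨g, (hr _ _).2 hg1, by rw [hpow]; exact hgn⟩

/-- S3-FU: `[n]` is formally unramified. -/
theorem formallyUnramified_schemeNsmul (hc : L.IsCommutative) (n : ℕ) (hn : (n : K) ≠ 0) :
    FormallyUnramified (L.schemeNsmul n) := by
  refine FormallyUnramified.of_hom_ext _ fun R S φ hφ hI g₁ g₂ h₁ h₂ => ?_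
  have hg₂ : g₂ ≫ f = g₁ ≫ f := by
    rw [← L.schemeNsmul_over n, ← Category.assoc, ← Category.assoc, h₂]
  let x₁ : SchemeHomOver (g₁ ≫ f) f := ⟨g₁, rfl⟩
  let x₂ : SchemeHomOver (g₁ ≫ f) f := ⟨g₂, hg₂⟩
  have key := (points_thickening L hc n hn φ hφ hI (g₁ ≫ f)).1 x₁ x₂ h₁ (by
    apply Subtype.ext
    rw [← comp_schemeNsmul, ← comp_schemeNsmul]
    exact h₂)
  exact congrArg Subtype.val key

end Points

/-! ## `[n]` is smooth, etale, finite -/

section Etale

variable {K : Type u} [Field K] {A : Scheme.{u}} {f : A ⟶ Spec (CommRingCat.of K)}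

/-- The `K`-algebra structure of the sections over an affine open. -/
def kStr {V : A.Opens} (hV : IsAffineOpen V) (f : A ⟶ Spec (CommRingCat.of K)) :
    CommRingCat.of K ⟶ Γ(A, V) :=
  Spec.preimage (hV.fromSpec ≫ f)

theorem map_kStr {V : A.Opens} (hV : IsAffineOpen V) :
    Spec.map (kStr hV f) = hV.fromSpec ≫ f := Spec.map_preimage _

theorem ptOf_comp_str {V : A.Opens} (hV : IsAffineOpen V) {R : CommRingCat.{u}}
    (ψ : Γ(A, V) ⟶ R) : ptOf hV ψ ≫ f = Spec.map (kStr hV f ≫ ψ) := by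
  rw [ptOf, Category.assoc, ← map_kStr, ← Spec.map_comp]

theorem ptOf_comp_hom (φ : A ⟶ A) {U V : A.Opens} (hU : IsAffineOpen U) (hV : IsAffineOpen V)
    (e : V ≤ φ ⁻¹ᵁ U) {R : CommRingCat.{u}} (ψ : Γ(A, V) ⟶ R) :
    ptOf hV ψ ≫ φ = ptOf hU (φ.appLE U V e ≫ ψ) := by
  rw [ptOf, ptOf, Category.assoc, ← hU.SpecMap_appLE_fromSpec φ hV e, Spec.map_comp,
    Category.assoc]

theorem kStr_comp_appLE (φ : A ⟶ A) (hφ : φ ≫ f = f) {U V : A.Opens} (hU : IsAffineOpen U)
    (hV : IsAffineOpen V) (e : V ≤ φ ⁻¹ᵁ U) : kStr hU f ≫ φ.appLE U V e = kStr hV f := by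
  apply Spec.map_injective
  rw [Spec.map_comp, map_kStr, ← Category.assoc, hU.SpecMap_appLE_fromSpec φ hV e,
    Category.assoc, hφ, map_kStr]

theorem kStr_smooth [Smooth f] {V : A.Opens} (hV : IsAffineOpen V) : (kStr hV f).hom.Smooth := by
  rw [← HasRingHomProperty.Spec_iff (P := @Smooth), map_kStr]
  infer_instance

/-- An endomorphism over `K` of a scheme locally of finite presentation over `K` is locally of
finite presentation. -/
theorem locallyOfFinitePresentation_of_over (φ : A ⟶ A) (hφ : φ ≫ f = f)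
    [LocallyOfFinitePresentation f] : LocallyOfFinitePresentation φ := by
  rw [locallyOfFinitePresentation_iff]
  intro U hU V hV e
  have h1 := kStr_comp_appLE φ hφ hU hV e
  have h2 : (kStr hV f).hom.FinitePresentation := by
    rw [← HasRingHomProperty.Spec_iff (P := @LocallyOfFinitePresentation), map_kStr]
    infer_instance
  have h3 : (kStr hU f).hom.FiniteType := by
    rw [← HasRingHomProperty.Spec_iff (P := @LocallyOfFiniteType), map_kStr]
    infer_instance
  refine RingHom.FinitePresentation.of_comp_finiteType (kStr hU f).hom ?_ h3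
  rw [← CommRingCat.hom_comp, h1]
  exact h2

variable (L : RelativeGroupLaw K f)

/-- The ring maps of `[n]` on affine opens are formally smooth. -/
theorem formallySmooth_appLE (hc : L.IsCommutative) [Smooth f] (n : ℕ) (hn : (n : K) ≠ 0)
    {U V : A.Opens} (hU : IsAffineOpen U) (hV : IsAffineOpen V)
    (e : V ≤ (L.schemeNsmul n) ⁻¹ᵁ U) :
    ((L.schemeNsmul n).appLE U V e).hom.FormallySmooth := by
  set a := (L.schemeNsmul n).appLE U V e with ha
  let _ : Algebra Γ(A, U) Γ(A, V) := a.hom.toAlgebra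
  show Algebra.FormallySmooth Γ(A, U) Γ(A, V)
  refine Algebra.FormallySmooth.of_comp_surjective ?_
  intro B _ _ I hI gbar
  -- the rings and maps as objects of `CommRingCat`
  let RB : CommRingCat.{u} := CommRingCat.of B
  let SB : CommRingCat.{u} := CommRingCat.of (B ⧸ I)
  let q : RB ⟶ SB := CommRingCat.ofHom (Ideal.Quotient.mk I)
  have hq : Function.Surjective q.hom := Ideal.Quotient.mk_surjective
  have hqI : RingHom.ker q.hom ^ 2 = ⊥ := by
    have : RingHom.ker q.hom = I := Ideal.mk_ker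
    rw [this, hI]
  let β : Γ(A, U) ⟶ RB := CommRingCat.ofHom (algebraMap Γ(A, U) B)
  let g' : Γ(A, V) ⟶ SB := CommRingCat.ofHom gbar.toRingHom
  have hcomm : a ≫ g' = β ≫ q := by
    apply CommRingCat.hom_ext
    ext p
    exact gbar.commutes p
  have hkV : kStr hU f ≫ a = kStr hV f := kStr_comp_appLE _ (L.schemeNsmul_over n) hU hV e
  -- step 1: lift over `K`, using smoothness of `A`
  let τ : CommRingCat.of K ⟶ RB := kStr hU f ≫ β
  let _ : Algebra K Γ(A, V) := (kStr hV f).hom.toAlgebra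
  let _ : Algebra K B := τ.hom.toAlgebra
  have : Algebra.FormallySmooth K Γ(A, V) := (kStr_smooth hV).formallySmooth
  let gK : Γ(A, V) →ₐ[K] B ⧸ I :=
    { gbar.toRingHom with
      commutes' := fun c => by
        have e₁ := congrArg (fun χ => χ.hom c) hkV
        have e₂ := congrArg (fun χ => χ.hom (kStr hU f c)) hcomm
        simp only [CommRingCat.hom_comp, RingHom.coe_comp, Function.comp_apply] at e₁ e₂
        change gbar (kStr hV f c) = _
        rw [← e₁]
        exact e₂ }
  obtain ⟨g₀', hg₀'⟩ := Algebra.FormallySmooth.comp_surjective K Γ(A, V) I hI gK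
  let g₀ : Γ(A, V) ⟶ RB := CommRingCat.ofHom g₀'.toRingHom
  have hg₀q : g₀ ≫ q = g' := by
    apply CommRingCat.hom_ext
    ext p
    exact congrArg (fun χ => χ p) hg₀'
  have hg₀K : kStr hV f ≫ g₀ = τ := by
    apply CommRingCat.hom_ext
    ext c
    exact g₀'.commutes c
  -- step 2: correct the lift inside the group of points
  let x₀ : SchemeHomOver (Spec.map τ) f := ⟨ptOf hV g₀, by rw [ptOf_comp_str, hg₀K]⟩
  let h : SchemeHomOver (Spec.map τ) f := ⟨ptOf hU β, by rw [ptOf_comp_str]⟩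
  have hyp : Spec.map q ≫ (L.nsmul (Spec.map τ) n x₀).1 = Spec.map q ≫ h.1 := by
    rw [← comp_schemeNsmul]
    change Spec.map q ≫ ptOf hV g₀ ≫ L.schemeNsmul n = Spec.map q ≫ ptOf hU β
    rw [ptOf_comp_hom _ hU hV e, map_comp_ptOf, map_comp_ptOf, Category.assoc, hg₀q, ← ha, hcomm]
  obtain ⟨g, hg1, hgn⟩ := (points_thickening L hc n hn q hq hqI (Spec.map τ)).2 x₀ h hyp
  -- step 3: back to rings
  have hred : Spec.map q ≫ g.1 = ptOf hV g' := by
    rw [hg1]
    change Spec.map q ≫ ptOf hV g₀ = _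
    rw [map_comp_ptOf, hg₀q]
  obtain ⟨γ, hγ⟩ := exists_eq_ptOf_of_thickening hV q hq hqI g.1 (fun p => by
    rw [hred]; exact ptOf_mem hV _ p)
  have hγq : γ ≫ q = g' := by
    apply ptOf_injective hV
    rw [← map_comp_ptOf, ← hγ, hred]
  have hγa : a ≫ γ = β := by
    apply ptOf_injective hU
    rw [ha, ← ptOf_comp_hom _ hU hV e, ← hγ, comp_schemeNsmul, hgn]
  refine ⟨{ γ.hom with commutes' := fun p => congrArg (fun χ => χ.hom p) hγa }, ?_⟩
  ext x
  exact congrArg (fun χ => χ.hom x) hγq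

/-- `[n]` is smooth. -/
theorem smooth_schemeNsmul (hc : L.IsCommutative) (hsm : Smooth f) (n : ℕ) (hn : (n : K) ≠ 0) :
    Smooth (L.schemeNsmul n) := by
  have := locallyOfFinitePresentation_of_over (L.schemeNsmul n) (L.schemeNsmul_over n)
  rw [smooth_iff]
  intro U hU V hV e
  rw [RingHom.smooth_def]
  exact ⟨formallySmooth_appLE L hc n hn hU hV e,
    (L.schemeNsmul n).finitePresentation_appLE hU hV e⟩

/-- **S3.** `[n]` is etale. -/
theorem etale_schemeNsmul (hc : L.IsCommutative) (hsm : Smooth f) (n : ℕ) (hn : (n : K) ≠ 0) :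
    Etale (L.schemeNsmul n) := by
  have := smooth_schemeNsmul L hc hsm n hn
  have := formallyUnramified_schemeNsmul L hc n hn
  exact Etale.of_formallyUnramified_of_flat _

/-- A formally unramified morphism locally of finite type is locally quasi-finite. -/
theorem locallyQuasiFinite_of_formallyUnramified {X Y : Scheme.{u}} (φ : X ⟶ Y)
    [FormallyUnramified φ] [LocallyOfFiniteType φ] : LocallyQuasiFinite φ := by
  rw [locallyQuasiFinite_iff]
  intro U hU V hV e
  have h1 := φ.formallyUnramified_appLE hU hV e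
  have h2 := φ.finiteType_appLE hU hV e
  algebraize [(φ.appLE U V e).hom]
  have : Algebra.EssFiniteType Γ(Y, U) Γ(X, V) := inferInstance
  exact (inferInstance : Algebra.QuasiFinite Γ(Y, U) Γ(X, V))

/-- **S4.** `[n]` is finite. -/
theorem isFinite_schemeNsmul (hpr : IsProper f) (n : ℕ) (het : Etale (L.schemeNsmul n)) :
    IsFinite (L.schemeNsmul n) := by
  have h1 : IsProper (L.schemeNsmul n ≫ f) := by rw [L.schemeNsmul_over]; exact hpr
  have h2 : IsProper (L.schemeNsmul n) := IsProper.of_comp _ f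
  have h3 : LocallyQuasiFinite (L.schemeNsmul n) := locallyQuasiFinite_of_formallyUnramified _
  exact IsFinite.of_isProper_of_locallyQuasiFinite _

end Etale

end

end Fermat.Agent.S26.Soft.H746

end
-- ===== PACK-END S26/Soft/H746/Etale.lean

-- ===== PACK-BEGIN S26/H714/Hartogs.lean
section
/-
S26 / block AMPLE / leaf HARTOGS (helper714), part 1: the algebraic Hartogs lemma.

A noetherian integrally closed domain is the intersection of its localisations at the primes of
height one (inside the fraction field).  Mathlib only.  No sorry.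

Main statements (`R` noetherian integrally closed domain, `K = Frac R`):
* `exists_height_one_denominators x (hx : x ∉ range)` : there is a prime `p` of height one with
  `{r | r • x ∈ R} ≤ p`;
* `mem_range_of_forall_height_one` : `x ∈ K` lying in `R_p` for all height one primes `p` lies in `R`;
* `iInf_localization_height_one_eq_bot` : `⨅_{ht p = 1} R_p = R` as subalgebras of `K`.
-/


set_option autoImplicit false
set_option linter.unusedSectionVars false

namespace Fermat.Agent.S26.H714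

open Ideal

variable {R K : Type*} [CommRing R] [IsDomain R] [Field K] [Algebra R K] [IsFractionRing R K]

/-- The ideal of denominators of `y ∈ K`: all `r ∈ R` with `r • y ∈ R`. -/
def denomIdeal (R : Type*) {K : Type*} [CommRing R] [Field K] [Algebra R K] (y : K) : Ideal R where
  carrier := {r | ∃ a : R, r • y = algebraMap R K a}
  add_mem' := by
    rintro r s ⟨a, ha⟩ ⟨b, hb⟩
    exact ⟨a + b, by rw [add_smul, ha, hb, map_add]⟩
  zero_mem' := ⟨0, by simp⟩
  smul_mem' := by
    rintro c r ⟨a, ha⟩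
    exact ⟨c * a, by rw [smul_eq_mul, mul_smul, ha, map_mul, Algebra.smul_def]⟩

theorem mem_denomIdeal {y : K} {r : R} :
    r ∈ denomIdeal R y ↔ ∃ a : R, r • y = algebraMap R K a := Iff.rfl

theorem denomIdeal_eq_top_iff {y : K} :
    denomIdeal R y = ⊤ ↔ y ∈ (algebraMap R K).range := by
  rw [Ideal.eq_top_iff_one, mem_denomIdeal]
  constructor
  · rintro ⟨a, ha⟩
    exact ⟨a, by rw [← ha, one_smul]⟩
  · rintro ⟨a, ha⟩
    exact ⟨a, by rw [one_smul, ← ha]⟩

theorem denomIdeal_ne_bot (y : K) : denomIdeal R y ≠ ⊥ := by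
  obtain ⟨a, s, hs, rfl⟩ := IsFractionRing.div_surjective (A := R) y
  have hs0 : algebraMap R K s ≠ 0 := by
    intro h
    exact nonZeroDivisors.ne_zero hs ((IsFractionRing.injective R K) (by rw [h, map_zero]))
  intro h
  have : s ∈ denomIdeal R (algebraMap R K a / algebraMap R K s) := by
    refine ⟨a, ?_⟩
    rw [Algebra.smul_def]
    field_simp
  rw [h, Ideal.mem_bot] at this
  exact nonZeroDivisors.ne_zero hs this

theorem denomIdeal_le_smul (y : K) (c : R) : denomIdeal R y ≤ denomIdeal R (c • y) := by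
  rintro r ⟨a, ha⟩
  exact ⟨c * a, by rw [smul_comm, ha, map_mul, Algebra.smul_def]⟩

theorem mem_denomIdeal_smul {y : K} {c r : R} :
    r ∈ denomIdeal R (c • y) ↔ r * c ∈ denomIdeal R y := by
  simp only [mem_denomIdeal, mul_smul]

variable [IsNoetherianRing R]

/-- Among the ideals of denominators of the elements `y ∉ R`, those containing the ideal of
denominators of a fixed `x ∉ R` have a maximal element, which is a prime ideal. -/
theorem exists_prime_denomIdeal (x : K) (hx : x ∉ (algebraMap R K).range) :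
    ∃ y : K, y ∉ (algebraMap R K).range ∧ denomIdeal R x ≤ denomIdeal R y ∧
      (denomIdeal R y).IsPrime := by
  obtain ⟨P, ⟨y, hy, hxy, rfl⟩, hmax⟩ := set_has_maximal_iff_noetherian.mpr
    (inferInstance : IsNoetherian R R)
    {P : Ideal R | ∃ y : K, y ∉ (algebraMap R K).range ∧ denomIdeal R x ≤ denomIdeal R y ∧
      P = denomIdeal R y} ⟨_, x, hx, le_rfl, rfl⟩
  refine ⟨y, hy, hxy, ?_⟩
  refine ⟨fun h => hy (denomIdeal_eq_top_iff.1 h), ?_⟩
  intro a b hab
  rw [or_iff_not_imp_left]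
  intro ha
  have hay : a • y ∉ (algebraMap R K).range := by
    rintro ⟨c, hc⟩
    exact ha ⟨c, hc.symm⟩
  have hle : denomIdeal R y ≤ denomIdeal R (a • y) := denomIdeal_le_smul y a
  have hnlt := hmax (denomIdeal R (a • y)) ⟨a • y, hay, hxy.trans hle, rfl⟩
  have heq : denomIdeal R y = denomIdeal R (a • y) := by
    by_contra hne
    exact hnlt (lt_of_le_of_ne hle hne)
  rw [heq, mem_denomIdeal_smul, mul_comm]
  exact hab

variable [IsIntegrallyClosed R]

/-- A prime ideal of denominators `p = {r | r • y ∈ R}` (`y ∉ R`) of a noetherian integrally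
closed domain has height one. -/
theorem height_denomIdeal_eq_one (y : K) (hy : y ∉ (algebraMap R K).range)
    (hp : (denomIdeal R y).IsPrime) : (denomIdeal R y).height = 1 := by
  classical
  set p := denomIdeal R y with hpdef
  -- for `r ∈ p`, the element `r • y` of `R`
  have hex : ∀ r : R, r ∈ p → ∃ a : R, r • y = algebraMap R K a := fun r hr => hr
  -- there is `t ∈ p` with `t • y ∉ p`
  have hB : ∃ t u : R, t ∈ p ∧ t • y = algebraMap R K u ∧ u ∉ p := by
    by_contra hcon
    have hcon' : ∀ t u : R, t ∈ p → t • y = algebraMap R K u → u ∈ p := by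
      intro t u ht htu
      by_contra hu
      exact hcon ⟨t, u, ht, htu, hu⟩
    -- then `y` stabilises the image of `p` in `K`, hence is integral over `R`
    let N : Submodule R K := Submodule.map (Algebra.linearMap R K) p
    have hN : N ≠ ⊥ := by
      intro h
      have hpb : p ≠ ⊥ := denomIdeal_ne_bot y
      obtain ⟨r, hr, hr0⟩ := Submodule.exists_mem_ne_zero_of_ne_bot hpb
      have : algebraMap R K r ∈ N := ⟨r, hr, rfl⟩
      rw [h, Submodule.mem_bot] at this
      exact hr0 ((IsFractionRing.injective R K) (by rw [this, map_zero]))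
    have hNfg : N.FG := (IsNoetherian.noetherian p).map _
    have hstab : ∀ n ∈ N, y • n ∈ N := by
      rintro n ⟨r, hr, rfl⟩
      obtain ⟨a, ha⟩ := hex r hr
      refine ⟨a, hcon' r a hr ha, ?_⟩
      rw [Algebra.linearMap_apply, Algebra.linearMap_apply, ← ha, Algebra.smul_def, smul_eq_mul,
        mul_comm]
    have hint : IsIntegral R y := isIntegral_of_smul_mem_submodule N hN hNfg y hstab
    obtain ⟨a, ha⟩ := (IsIntegrallyClosed.isIntegral_iff (R := R) (K := K)).1 hint
    exact hy ⟨a, ha⟩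
  obtain ⟨t, u, ht, htu, hu⟩ := hB
  -- `u • p ⊆ (t)`
  have hup : ∀ z ∈ p, u * z ∈ Ideal.span {t} := by
    intro z hz
    obtain ⟨a, ha⟩ := hex z hz
    rw [Ideal.mem_span_singleton']
    refine ⟨a, ?_⟩
    apply IsFractionRing.injective R K
    rw [map_mul, map_mul, ← ha, ← htu, Algebra.smul_def, Algebra.smul_def]
    ring
  -- `p` is minimal over `(t)`
  have hmin : p ∈ (Ideal.span {t}).minimalPrimes := by
    refine ⟨⟨hp, (Ideal.span_singleton_le_iff_mem _).2 ht⟩, ?_⟩
    rintro q ⟨hq, htq⟩ hqp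
    intro z hz
    have h1 : u * z ∈ q := htq (hup z hz)
    rcases hq.mem_or_mem h1 with h | h
    · exact absurd (hqp h) hu
    · exact h
  have hle : p.height ≤ 1 :=
    Ideal.height_le_one_of_isPrincipal_of_mem_minimalPrimes (Ideal.span {t}) p hmin
  have hne : p.height ≠ 0 := by
    rw [Ne, Ideal.height_eq_zero_iff_eq_bot]
    exact denomIdeal_ne_bot y
  exact le_antisymm hle (Order.one_le_iff_pos.2 (pos_iff_ne_zero.2 hne))

/-- **Algebraic Hartogs, existence form.**  If `x ∈ K` does not lie in the noetherian integrally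
closed domain `R`, then all denominators of `x` lie in one prime ideal of height one. -/
theorem exists_height_one_denominators (x : K) (hx : x ∉ (algebraMap R K).range) :
    ∃ p : Ideal R, p.IsPrime ∧ p.height = 1 ∧
      ∀ r a : R, r • x = algebraMap R K a → r ∈ p := by
  obtain ⟨y, hy, hxy, hp⟩ := exists_prime_denomIdeal x hx
  exact ⟨denomIdeal R y, hp, height_denomIdeal_eq_one y hy hp, fun r a h => hxy ⟨a, h⟩⟩

/-- **Algebraic Hartogs.**  An element of the fraction field of a noetherian integrally closed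
domain `R` which lies in `R_p` for every prime `p` of height one lies in `R`. -/
theorem mem_range_of_forall_height_one (x : K)
    (h : ∀ p : Ideal R, p.IsPrime → p.height = 1 →
      ∃ a s : R, s ∉ p ∧ x * algebraMap R K s = algebraMap R K a) :
    x ∈ (algebraMap R K).range := by
  by_contra hx
  obtain ⟨p, hp, hp1, hden⟩ := exists_height_one_denominators x hx
  obtain ⟨a, s, hs, hxs⟩ := h p hp hp1
  exact hs (hden s a (by rw [Algebra.smul_def, mul_comm, hxs]))

/-- **Algebraic Hartogs**, subalgebra form: `⨅_{ht p = 1} R_p = R` inside `K`. -/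
theorem iInf_localization_height_one_eq_bot :
    (⨅ p : {p : PrimeSpectrum R // p.asIdeal.height = 1},
      Localization.subalgebra.ofField K p.1.asIdeal.primeCompl
        p.1.asIdeal.primeCompl_le_nonZeroDivisors) = ⊥ := by
  refine le_antisymm ?_ bot_le
  intro x hx
  rw [Algebra.mem_bot]
  have hx' := Algebra.mem_iInf.1 hx
  have := mem_range_of_forall_height_one (R := R) x (fun p hp hp1 => by
    have h : x ∈ {x : K | ∃ (a s : R) (_ : s ∈ p.primeCompl),
        x = algebraMap R K a * (algebraMap R K s)⁻¹} := hx' ⟨⟨p, hp⟩, hp1⟩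
    obtain ⟨a, s, hs, rfl⟩ := h
    have hs0 : algebraMap R K s ≠ 0 := by
      intro h0
      have : s = 0 := (IsFractionRing.injective R K) (by rw [h0, map_zero])
      exact hs (by rw [this]; exact p.zero_mem)
    refine ⟨a, s, hs, ?_⟩
    rw [mul_assoc, inv_mul_cancel₀ hs0, mul_one])
  obtain ⟨a, ha⟩ := this
  exact ⟨a, ha⟩

end Fermat.Agent.S26.H714

end
-- ===== PACK-END S26/H714/Hartogs.lean

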