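import Mathlib
import Mathlib.AlgebraicGeometry.Scheme
import Fermat.Agent.Pack.S43MC.G0E1L0

-- ===== PACK-BEGIN S25/H431/Kernel.lean
section
/-
S25 / block HILB (helper431): the kernel lemma for H3 ("Hilb = Div").

For a `k`-algebra `B` whose diagonal ideal `D = ker (B ⊗ B → B)` is an invertible `B ⊗ B`-module
and any `B`-algebra `Q`, the kernel of `Q ⊗[k] B → Q`, `q ⊗ b ↦ q * b`, is an invertible
`Q ⊗[k] B`-module (it is the base change of `D`).
-/


set_option autoImplicit false

open TensorProduct

namespace Fermat.Agent.S25.H431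

section Kernel

variable (k B Q : Type*) [CommRing k] [CommRing B] [Algebra k B] [CommRing Q] [Algebra k Q]
  [Algebra B Q] [IsScalarTower k B Q]

/-- `φ : B ⊗ B → Q ⊗ B`, `b ⊗ b' ↦ [b] ⊗ b'`. -/
noncomputable def diagMap : B ⊗[k] B →ₐ[k] Q ⊗[k] B :=
  Algebra.TensorProduct.map (IsScalarTower.toAlgHom k B Q) (AlgHom.id k B)

/-- `μ : Q ⊗ B → Q`, `q ⊗ b ↦ q * [b]`. -/
noncomputable def graphMap : Q ⊗[k] B →ₐ[Q] Q :=
  Algebra.TensorProduct.lift (AlgHom.id Q Q) (IsScalarTower.toAlgHom k B Q)
    (fun _ _ => Commute.all _ _)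

@[simp] theorem diagMap_tmul (b b' : B) :
    diagMap k B Q (b ⊗ₜ b') = algebraMap B Q b ⊗ₜ b' := by
  simp [diagMap]

@[simp] theorem graphMap_tmul (q : Q) (b : B) :
    graphMap k B Q (q ⊗ₜ b) = q * algebraMap B Q b := by
  simp [graphMap]

theorem graphMap_diagMap (x : B ⊗[k] B) :
    graphMap k B Q (diagMap k B Q x) = algebraMap B Q (Algebra.TensorProduct.lmul' k x) := by
  induction x with
  | zero => simp
  | tmul b b' => simp
  | add x y hx hy => simp [hx, hy]

/-- `ρ(x) = x - mult(x) ⊗ 1`: retraction of `B ⊗ B` onto the diagonal ideal. -/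
noncomputable def diagRetract (x : B ⊗[k] B) : KaehlerDifferential.ideal k B :=
  ⟨x - (Algebra.TensorProduct.lmul' k x) ⊗ₜ[k] (1 : B), by
    simp [RingHom.mem_ker]⟩

theorem diagRetract_add (x y : B ⊗[k] B) :
    diagRetract k B (x + y) = diagRetract k B x + diagRetract k B y := by
  apply Subtype.ext
  simp only [diagRetract, map_add, add_tmul, Submodule.coe_add]
  abel

theorem diagRetract_zero : diagRetract k B 0 = 0 := by
  apply Subtype.ext
  simp [diagRetract]

theorem diagRetract_of_mem (d : KaehlerDifferential.ideal k B) :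
    diagRetract k B (d : B ⊗[k] B) = d := by
  apply Subtype.ext
  have h : Algebra.TensorProduct.lmul' k (d : B ⊗[k] B) = 0 := RingHom.mem_ker.mp d.2
  simp [diagRetract, h]

theorem diagRetract_left_mul (b : B) (x : B ⊗[k] B) :
    diagRetract k B ((b ⊗ₜ[k] (1 : B)) * x) = (b ⊗ₜ[k] (1 : B)) • diagRetract k B x := by
  apply Subtype.ext
  simp only [diagRetract, map_mul, Algebra.TensorProduct.lmul'_apply_tmul, mul_one,
    Submodule.coe_smul, smul_eq_mul, mul_sub, Algebra.TensorProduct.tmul_mul_tmul]

/-- the `B ⊗ B`-algebra structure on `Q ⊗ B` given by `diagMap` -/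
@[reducible] noncomputable def diagAlgebra : Algebra (B ⊗[k] B) (Q ⊗[k] B) :=
  (diagMap k B Q).toRingHom.toAlgebra

attribute [local instance] diagAlgebra

theorem diagAlgebra_smul_def (e : B ⊗[k] B) (m : Q ⊗[k] B) :
    e • m = diagMap k B Q e * m := rfl

theorem diagAlgebra_algebraMap (e : B ⊗[k] B) :
    algebraMap (B ⊗[k] B) (Q ⊗[k] B) e = diagMap k B Q e := rfl

/-- The retraction `r : Q ⊗ B → (Q ⊗ B) ⊗_{B ⊗ B} D`, `q ⊗ b ↦ (q ⊗ 1) ⊗ ρ(1 ⊗ b)`. -/
noncomputable def kerRetract :
    Q ⊗[k] B →+ (Q ⊗[k] B) ⊗[B ⊗[k] B] (KaehlerDifferential.ideal k B) :=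
  TensorProduct.liftAddHom
    (AddMonoidHom.mk' (fun q : Q => AddMonoidHom.mk' (fun b : B =>
        (q ⊗ₜ[k] (1 : B)) ⊗ₜ[B ⊗[k] B] diagRetract k B ((1 : B) ⊗ₜ[k] b))
        (fun b b' => by rw [tmul_add, diagRetract_add, tmul_add]))
      (fun q q' => by
        ext b
        simp only [AddMonoidHom.mk'_apply, AddMonoidHom.add_apply, add_tmul]))
    (fun c q b => by
      simp only [AddMonoidHom.mk'_apply]
      have h1 : ((1 : B) ⊗ₜ[k] (c • b) : B ⊗[k] B) =
          ((algebraMap k B c) ⊗ₜ[k] (1 : B)) * ((1 : B) ⊗ₜ[k] b) := by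
        rw [Algebra.TensorProduct.tmul_mul_tmul, mul_one, one_mul, Algebra.algebraMap_eq_smul_one,
          TensorProduct.smul_tmul]
      rw [h1, diagRetract_left_mul, ← TensorProduct.smul_tmul, diagAlgebra_smul_def,
        diagMap_tmul, Algebra.TensorProduct.tmul_mul_tmul, mul_one,
        ← IsScalarTower.algebraMap_apply, ← Algebra.smul_def])

theorem kerRetract_tmul (q : Q) (b : B) :
    kerRetract k B Q (q ⊗ₜ b) =
      (q ⊗ₜ[k] (1 : B)) ⊗ₜ[B ⊗[k] B] diagRetract k B ((1 : B) ⊗ₜ[k] b) := rfl

theorem kerRetract_mul_diagMap (q : Q) (b : B) (x : B ⊗[k] B) :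
    kerRetract k B Q ((q ⊗ₜ b) * diagMap k B Q x) =
      (q ⊗ₜ[k] (1 : B)) ⊗ₜ[B ⊗[k] B] diagRetract k B (((1 : B) ⊗ₜ[k] b) * x) := by
  induction x with
  | zero => simp [diagRetract_zero]
  | tmul b₁ b₂ =>
    have h1 : (((1 : B) ⊗ₜ[k] b) * (b₁ ⊗ₜ[k] b₂) : B ⊗[k] B) =
        (b₁ ⊗ₜ[k] (1 : B)) * ((1 : B) ⊗ₜ[k] (b * b₂)) := by
      simp only [Algebra.TensorProduct.tmul_mul_tmul, one_mul, mul_one]
    rw [diagMap_tmul, Algebra.TensorProduct.tmul_mul_tmul, kerRetract_tmul, h1,
      diagRetract_left_mul, ← TensorProduct.smul_tmul, diagAlgebra_smul_def, diagMap_tmul,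
      Algebra.TensorProduct.tmul_mul_tmul, mul_one, mul_comm]
  | add x y hx hy =>
    rw [map_add, mul_add, map_add, hx, hy, mul_add, diagRetract_add, tmul_add]

theorem kerRetract_mul_mem (m : Q ⊗[k] B) (d : KaehlerDifferential.ideal k B) :
    kerRetract k B Q (m * diagMap k B Q (d : B ⊗[k] B)) = m ⊗ₜ[B ⊗[k] B] d := by
  induction m with
  | zero => simp
  | tmul q b =>
    have h2 : diagRetract k B (((1 : B) ⊗ₜ[k] b) * (d : B ⊗[k] B)) =
        ((1 : B) ⊗ₜ[k] b) • d := by
      have := diagRetract_of_mem k B (((1 : B) ⊗ₜ[k] b) • d)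
      rwa [Submodule.coe_smul, smul_eq_mul] at this
    rw [kerRetract_mul_diagMap, h2, ← TensorProduct.smul_tmul, diagAlgebra_smul_def,
      diagMap_tmul, Algebra.TensorProduct.tmul_mul_tmul, map_one, one_mul, mul_one]
  | add x y hx hy =>
    rw [add_mul, map_add, hx, hy, add_tmul]

/-- The multiplication map `(Q ⊗ B) ⊗_{B ⊗ B} D → Q ⊗ B`. -/
noncomputable def kerMul :
    (Q ⊗[k] B) ⊗[B ⊗[k] B] (KaehlerDifferential.ideal k B) →ₗ[Q ⊗[k] B] Q ⊗[k] B :=
  LinearMap.liftBaseChange (Q ⊗[k] B)
    ((Algebra.linearMap (B ⊗[k] B) (Q ⊗[k] B)) ∘ₗ (KaehlerDifferential.ideal k B).subtype)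

theorem kerMul_tmul (m : Q ⊗[k] B) (d : KaehlerDifferential.ideal k B) :
    kerMul k B Q (m ⊗ₜ d) = m * diagMap k B Q (d : B ⊗[k] B) := by
  simp [kerMul, diagAlgebra_algebraMap]

theorem kerRetract_kerMul (t : (Q ⊗[k] B) ⊗[B ⊗[k] B] (KaehlerDifferential.ideal k B)) :
    kerRetract k B Q (kerMul k B Q t) = t := by
  induction t with
  | zero => simp
  | tmul m d => rw [kerMul_tmul, kerRetract_mul_mem]
  | add x y hx hy => rw [map_add, map_add, hx, hy]

theorem kerMul_injective : Function.Injective (kerMul k B Q) :=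
  Function.LeftInverse.injective (kerRetract_kerMul k B Q)

theorem range_kerMul :
    LinearMap.range (kerMul k B Q) = RingHom.ker (graphMap k B Q) := by
  apply le_antisymm
  · rintro _ ⟨t, rfl⟩
    induction t with
    | zero => simp
    | tmul m d =>
      have h : Algebra.TensorProduct.lmul' k (d : B ⊗[k] B) = 0 := RingHom.mem_ker.mp d.2
      rw [kerMul_tmul, RingHom.mem_ker, map_mul, graphMap_diagMap, h, map_zero, mul_zero]
    | add x y hx hy =>
      rw [map_add]
      exact Ideal.add_mem _ hx hy
  · intro m hm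
    have key : ∀ m : Q ⊗[k] B,
        m - (graphMap k B Q m) ⊗ₜ[k] (1 : B) ∈ LinearMap.range (kerMul k B Q) := by
      intro m
      induction m with
      | zero => simp
      | tmul q b =>
        refine ⟨(q ⊗ₜ[k] (1 : B)) ⊗ₜ[B ⊗[k] B]
          ⟨(1 : B) ⊗ₜ[k] b - b ⊗ₜ[k] (1 : B),
            KaehlerDifferential.one_smul_sub_smul_one_mem_ideal k b⟩, ?_⟩
        rw [kerMul_tmul, map_sub, diagMap_tmul, diagMap_tmul, mul_sub,
          Algebra.TensorProduct.tmul_mul_tmul, Algebra.TensorProduct.tmul_mul_tmul, map_one,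
          mul_one, one_mul, mul_one, graphMap_tmul]
      | add x y hx hy =>
        have : x + y - (graphMap k B Q (x + y)) ⊗ₜ[k] (1 : B) =
            (x - (graphMap k B Q x) ⊗ₜ[k] (1 : B)) + (y - (graphMap k B Q y) ⊗ₜ[k] (1 : B)) := by
          rw [map_add, add_tmul]; abel
        rw [this]
        exact Submodule.add_mem _ hx hy
    have := key m
    rwa [RingHom.mem_ker.mp hm, zero_tmul, sub_zero] at this

/-- **Kernel lemma.** If the diagonal ideal of `B` over `k` is an invertible `B ⊗ B`-module, then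
for every `B`-algebra `Q` the kernel of `Q ⊗[k] B → Q` is an invertible `Q ⊗[k] B`-module. -/
theorem ker_graphMap_invertible
    [Module.Invertible (B ⊗[k] B) (KaehlerDifferential.ideal k B)] :
    Module.Invertible (Q ⊗[k] B) (RingHom.ker (graphMap k B Q)) := by
  have e : (Q ⊗[k] B) ⊗[B ⊗[k] B] (KaehlerDifferential.ideal k B) ≃ₗ[Q ⊗[k] B]
      RingHom.ker (graphMap k B Q) :=
    (LinearEquiv.ofInjective (kerMul k B Q) (kerMul_injective k B Q)).trans
      (LinearEquiv.ofEq _ _ (range_kerMul k B Q))
  exact Module.Invertible.congr e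

theorem graphMap_surjective : Function.Surjective (graphMap k B Q) := fun q =>
  ⟨q ⊗ₜ 1, by simp⟩

end Kernel

end Fermat.Agent.S25.H431

end
-- ===== PACK-END S25/H431/Kernel.lean

-- ===== PACK-BEGIN S25/H551/Invertible.lean
section


/-!
# S25 / block HILB, leaves H0b and H0c (helper551)

* `invertible_of_locally_free_rank_one` (H0c): a finitely presented module which is free of rank
  one at every maximal ideal is invertible.
* `invertible_of_rankAtStalk_eq_one` (H0b): a finitely generated projective module of constant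
  rank one is invertible.

Method: bijectivity of `contractLeft R M` is checked at every maximal ideal; the localization of
`Dual R M ⊗[R] M` at `S` is `Dual Rₛ Mₛ ⊗[Rₛ] Mₛ` because `M` is finitely presented.
-/

set_option autoImplicit false

open TensorProduct

universe u

namespace Fermat.Agent.S25.H551

section Loc

variable {R : Type u} [CommRing R] (S : Submonoid R) (M : Type u) [AddCommGroup M] [Module R M]

/-- The comparison map `Dual R M → Dual Rₛ Mₛ`. -/
noncomputable def locDual :
    Module.Dual R M →ₗ[R] Module.Dual (Localization S) (LocalizedModule S M) :=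
  IsLocalizedModule.mapExtendScalars S (LocalizedModule.mkLinearMap S M)
    (Algebra.linearMap R (Localization S)) (Localization S)

theorem locDual_apply (f : Module.Dual R M) (m : M) :
    locDual S M f (LocalizedModule.mkLinearMap S M m) = algebraMap R (Localization S) (f m) := by
  rw [locDual, IsLocalizedModule.mapExtendScalars_apply_apply, IsLocalizedModule.map_apply]
  rfl

instance locDual_isLocalizedModule [Module.FinitePresentation R M] :
    IsLocalizedModule S (locDual S M) :=
  Module.FinitePresentation.isLocalizedModule_mapExtendScalars S _ _ _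

/-- The comparison map `Dual R M ⊗[R] M → Dual Rₛ Mₛ ⊗[Rₛ] Mₛ`. -/
noncomputable def locContract :
    Module.Dual R M ⊗[R] M →ₗ[R]
      Module.Dual (Localization S) (LocalizedModule S M) ⊗[Localization S] LocalizedModule S M :=
  ((IsLocalization.moduleTensorEquiv S (Localization S)
      (Module.Dual (Localization S) (LocalizedModule S M))
      (LocalizedModule S M)).symm.restrictScalars R).toLinearMap ∘ₗ
    TensorProduct.map (locDual S M) (LocalizedModule.mkLinearMap S M)

instance locContract_isLocalizedModule [Module.FinitePresentation R M] :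
    IsLocalizedModule S (locContract S M) :=
  IsLocalizedModule.of_linearEquiv S _ _

theorem locContract_tmul (f : Module.Dual R M) (m : M) :
    locContract S M (f ⊗ₜ[R] m) =
      (locDual S M f) ⊗ₜ[Localization S] (LocalizedModule.mkLinearMap S M m) := by
  rfl

theorem contract_comp_locContract :
    ((contractLeft (Localization S) (LocalizedModule S M)).restrictScalars R) ∘ₗ locContract S M =
      (Algebra.linearMap R (Localization S)) ∘ₗ contractLeft R M := by
  refine TensorProduct.ext' fun f m => ?_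
  simp only [LinearMap.comp_apply, LinearMap.restrictScalars_apply, locContract_tmul,
    contractLeft_apply, locDual_apply, Algebra.linearMap_apply]

theorem map_contractLeft [Module.FinitePresentation R M] :
    IsLocalizedModule.map S (locContract S M) (Algebra.linearMap R (Localization S))
        (contractLeft R M) =
      (contractLeft (Localization S) (LocalizedModule S M)).restrictScalars R := by
  refine IsLocalizedModule.linearMap_ext S (locContract S M)
    (Algebra.linearMap R (Localization S)) ?_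
  rw [IsLocalizedModule.map_comp, contract_comp_locContract]

end Loc

/-- **H0c.** A finitely presented module which is free of rank one at every maximal ideal is
invertible. -/
theorem invertible_of_locally_free_rank_one {R : Type u} [CommRing R] (M : Type u)
    [AddCommGroup M] [Module R M] [Module.FinitePresentation R M]
    (h : ∀ (m : Ideal R) [m.IsMaximal],
      Nonempty (LocalizedModule m.primeCompl M ≃ₗ[Localization.AtPrime m] Localization.AtPrime m)) :
    Module.Invertible R M := by
  refine ⟨bijective_of_isLocalized_maximal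
    (fun P _ => Module.Dual (Localization.AtPrime P) (LocalizedModule P.primeCompl M)
      ⊗[Localization.AtPrime P] LocalizedModule P.primeCompl M)
    (fun P _ => locContract P.primeCompl M)
    (fun P _ => Localization.AtPrime P)
    (fun P _ => Algebra.linearMap R (Localization.AtPrime P))
    (contractLeft R M) ?_⟩
  intro P _
  rw [map_contractLeft]
  obtain ⟨e⟩ := h P
  have : Module.Invertible (Localization.AtPrime P) (LocalizedModule P.primeCompl M) :=
    Module.Invertible.congr e.symm
  exact Module.Invertible.bijective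

/-- **H0b.** A finitely generated projective module of constant rank `1` is invertible. -/
theorem invertible_of_rankAtStalk_eq_one {R : Type u} [CommRing R] (M : Type u) [AddCommGroup M]
    [Module R M] [Module.Finite R M] [Module.Projective R M]
    (h : ∀ p : PrimeSpectrum R, Module.rankAtStalk (R := R) M p = 1) : Module.Invertible R M := by
  have : Module.FinitePresentation R M := Module.finitePresentation_of_projective R M
  refine invertible_of_locally_free_rank_one M fun m _ => ?_
  have : Module.Free (Localization.AtPrime m) (LocalizedModule m.primeCompl M) :=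
    Module.free_of_flat_of_isLocalRing
  have h1 : Module.finrank (Localization.AtPrime m) (LocalizedModule m.primeCompl M) = 1 :=
    h ⟨m, inferInstance⟩
  have h2 : Module.finrank (Localization.AtPrime m) (Localization.AtPrime m) = 1 :=
    Module.finrank_self _
  exact FiniteDimensional.nonempty_linearEquiv_of_finrank_eq (h1.trans h2.symm)

end Fermat.Agent.S25.H551

end
-- ===== PACK-END S25/H551/Invertible.lean

-- ===== PACK-BEGIN S25/H565/Chi.lean
section


/-!
# S25 / A4-DEG (helper565): Euler characteristic of two-term complexes over a field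

For a linear map `d : M → N` of (possibly infinite-dimensional) vector spaces over a field `K`
we write `h⁰ = dim ker d`, `h¹ = dim coker d` and `χ(d) = h⁰ - h¹` (when both are finite:
`FinCoh d`).  This file proves the additivity of `χ` for an injective morphism of complexes
with finite-dimensional cokernels:

```
   M  --d-->  N
   |f         |g          χ(d') = χ(d) + dim (M'/fM) - dim (N'/gN).
   v          v
   M' --d'--> N'
```
This is the Riemann–Roch bookkeeping for modifications of line bundles in Čech form.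
Mathlib only.
-/

set_option autoImplicit false

namespace Fermat.Agent.S25.H565

open Submodule

universe u v

section Defs

variable {K : Type*} [Field K] {M N : Type*} [AddCommGroup M] [AddCommGroup N]
  [Module K M] [Module K N]

/-- The two-term complex `d` has finite-dimensional cohomology. -/
def FinCoh (d : M →ₗ[K] N) : Prop :=
  FiniteDimensional K (LinearMap.ker d) ∧ FiniteDimensional K (N ⧸ LinearMap.range d)

/-- `h⁰ = dim ker d`. -/
noncomputable def hZero (d : M →ₗ[K] N) : ℕ := Module.finrank K (LinearMap.ker d)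

/-- `h¹ = dim coker d`. -/
noncomputable def hOne (d : M →ₗ[K] N) : ℕ := Module.finrank K (N ⧸ LinearMap.range d)

/-- The Euler characteristic `χ = h⁰ - h¹`. -/
noncomputable def chi (d : M →ₗ[K] N) : ℤ := (hZero d : ℤ) - (hOne d : ℤ)

theorem chi_def (d : M →ₗ[K] N) : chi d = (hZero d : ℤ) - (hOne d : ℤ) := rfl

/-- Riemann's inequality in its trivial form: `h⁰ ≥ χ`. -/
theorem chi_le_hZero (d : M →ₗ[K] N) : chi d ≤ hZero d := by
  rw [chi_def]; omega

theorem hOne_eq_zero_iff (d : M →ₗ[K] N) (h : FinCoh d) :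
    hOne d = 0 ↔ Function.Surjective d := by
  have := h.2
  rw [hOne, Module.finrank_zero_iff, ← LinearMap.range_eq_top,
    Submodule.Quotient.subsingleton_iff]

theorem hZero_eq_zero_iff (d : M →ₗ[K] N) (h : FinCoh d) :
    hZero d = 0 ↔ Function.Injective d := by
  have := h.1
  rw [hZero, Module.finrank_zero_iff, ← LinearMap.ker_eq_bot, Submodule.subsingleton_iff_eq_bot]

/-- If `h¹ = 0` then `h⁰ = χ`. -/
theorem hZero_eq_chi_of_surjective (d : M →ₗ[K] N) (h : FinCoh d)
    (hs : Function.Surjective d) : (hZero d : ℤ) = chi d := by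
  rw [chi_def, (hOne_eq_zero_iff d h).2 hs]; simp

end Defs

section Exact

variable {K : Type*} [Field K]

/-- Dimension count for a short exact sequence `0 → A → B → C → 0` given by maps. -/
theorem finrank_of_exact {A B C : Type*} [AddCommGroup A] [AddCommGroup B] [AddCommGroup C]
    [Module K A] [Module K B] [Module K C] (i : A →ₗ[K] B) (p : B →ₗ[K] C)
    (hi : Function.Injective i) (hp : Function.Surjective p)
    (hex : LinearMap.range i = LinearMap.ker p)
    [FiniteDimensional K A] [FiniteDimensional K C] :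
    FiniteDimensional K B ∧ Module.finrank K B = Module.finrank K A + Module.finrank K C := by
  have hB : FiniteDimensional K B :=
    Module.Finite.of_exact (LinearMap.exact_iff.2 hex.symm) hp
  refine ⟨hB, ?_⟩
  have h1 := LinearMap.finrank_range_add_finrank_ker p
  rw [LinearMap.range_eq_top.mpr hp, finrank_top, ← hex,
    LinearMap.finrank_range_of_inj hi] at h1
  omega

end Exact

section Morphism

variable {K : Type*} [Field K] {M M' N N' : Type*} [AddCommGroup M] [AddCommGroup M']
  [AddCommGroup N] [AddCommGroup N'] [Module K M] [Module K M'] [Module K N] [Module K N']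

/-- **Step A.** Post-composition with an injective map `g` with finite-dimensional cokernel:
`h⁰` is unchanged and `h¹` increases by `dim coker g`. -/
theorem finCoh_comp_left (d : M →ₗ[K] N) (g : N →ₗ[K] N') (hg : Function.Injective g)
    [FiniteDimensional K (N' ⧸ LinearMap.range g)] (hd : FinCoh d) :
    FinCoh (g ∘ₗ d) ∧ hZero (g ∘ₗ d) = hZero d ∧
      hOne (g ∘ₗ d) = hOne d + Module.finrank K (N' ⧸ LinearMap.range g) := by
  have hker : LinearMap.ker (g ∘ₗ d) = LinearMap.ker d :=
    LinearMap.ker_comp_of_ker_eq_bot d (LinearMap.ker_eq_bot.2 hg)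
  have h0 : FiniteDimensional K (LinearMap.ker (g ∘ₗ d)) := by rw [hker]; exact hd.1
  have hle1 : LinearMap.range d ≤ (LinearMap.range (g ∘ₗ d)).comap g := by
    rintro _ ⟨m, rfl⟩
    exact ⟨m, rfl⟩
  have hle2 : LinearMap.range (g ∘ₗ d) ≤ (LinearMap.range g).comap LinearMap.id := by
    rintro _ ⟨m, rfl⟩
    exact ⟨d m, rfl⟩
  let i : (N ⧸ LinearMap.range d) →ₗ[K] (N' ⧸ LinearMap.range (g ∘ₗ d)) :=
    Submodule.mapQ _ _ g hle1
  let p : (N' ⧸ LinearMap.range (g ∘ₗ d)) →ₗ[K] (N' ⧸ LinearMap.range g) :=
    Submodule.mapQ _ _ LinearMap.id hle2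
  have hi : Function.Injective i := by
    rw [← LinearMap.ker_eq_bot, LinearMap.ker_eq_bot']
    intro q hq
    obtain ⟨n, rfl⟩ := Submodule.Quotient.mk_surjective _ q
    rw [Submodule.mapQ_apply, Submodule.Quotient.mk_eq_zero] at hq
    obtain ⟨m, hm⟩ := hq
    rw [Submodule.Quotient.mk_eq_zero]
    exact ⟨m, hg hm⟩
  have hp : Function.Surjective p := by
    intro q
    obtain ⟨n, rfl⟩ := Submodule.Quotient.mk_surjective _ q
    exact ⟨Submodule.Quotient.mk n, rfl⟩
  have hex : LinearMap.range i = LinearMap.ker p := by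
    ext q
    obtain ⟨n', rfl⟩ := Submodule.Quotient.mk_surjective _ q
    constructor
    · rintro ⟨q0, hq0⟩
      obtain ⟨n, rfl⟩ := Submodule.Quotient.mk_surjective _ q0
      rw [LinearMap.mem_ker, ← hq0]
      show p (i (Submodule.Quotient.mk n)) = 0
      rw [Submodule.mapQ_apply, Submodule.mapQ_apply, Submodule.Quotient.mk_eq_zero]
      exact ⟨n, rfl⟩
    · intro h
      rw [LinearMap.mem_ker, Submodule.mapQ_apply, Submodule.Quotient.mk_eq_zero] at h
      obtain ⟨n, hn⟩ := h
      refine ⟨Submodule.Quotient.mk n, ?_⟩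
      rw [Submodule.mapQ_apply]
      exact congrArg _ hn
  have hd2 := hd.2
  obtain ⟨h1, h2⟩ := finrank_of_exact i p hi hp hex
  refine ⟨⟨h0, h1⟩, ?_, ?_⟩
  · rw [hZero, hZero, hker]
  · rw [hOne, hOne, h2]

variable (f : M →ₗ[K] M') (d' : M' →ₗ[K] N')

/-- `ker (d' ∘ f) → ker d'`, induced by `f`. -/
def kerMap : LinearMap.ker (d' ∘ₗ f) →ₗ[K] LinearMap.ker d' :=
  LinearMap.codRestrict _ (f ∘ₗ (LinearMap.ker (d' ∘ₗ f)).subtype) (by
    rintro ⟨m, hm⟩
    simpa using hm)

/-- `ker d' → M' / f M`. -/
def kerToCoker : LinearMap.ker d' →ₗ[K] M' ⧸ LinearMap.range f :=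
  (LinearMap.range f).mkQ ∘ₗ (LinearMap.ker d').subtype

/-- `M' / f M → N' / d' f M`, induced by `d'`. -/
def cokerMap : (M' ⧸ LinearMap.range f) →ₗ[K] N' ⧸ LinearMap.range (d' ∘ₗ f) :=
  Submodule.liftQ _ ((LinearMap.range (d' ∘ₗ f)).mkQ ∘ₗ d') (by
    rintro _ ⟨m, rfl⟩
    rw [LinearMap.mem_ker, LinearMap.comp_apply, mkQ_apply, Submodule.Quotient.mk_eq_zero]
    exact ⟨m, rfl⟩)

/-- `N' / d' f M → N' / d' M'`. -/
def cokerProj : (N' ⧸ LinearMap.range (d' ∘ₗ f)) →ₗ[K] N' ⧸ LinearMap.range d' :=
  Submodule.liftQ _ (LinearMap.range d').mkQ (by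
    rintro _ ⟨m, rfl⟩
    rw [LinearMap.mem_ker, mkQ_apply, Submodule.Quotient.mk_eq_zero]
    exact ⟨f m, rfl⟩)

theorem kerMap_injective (hf : Function.Injective f) : Function.Injective (kerMap f d') := by
  intro a b h
  apply Subtype.ext
  apply hf
  exact congrArg (fun z : LinearMap.ker d' => (z : M')) h

theorem range_kerMap : LinearMap.range (kerMap f d') = LinearMap.ker (kerToCoker f d') := by
  ext ⟨m', hm'⟩
  constructor
  · rintro ⟨m, hm⟩
    have h1 : f m = m' := congrArg (fun z : LinearMap.ker d' => (z : M')) hm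
    rw [LinearMap.mem_ker]
    show Submodule.Quotient.mk m' = (0 : M' ⧸ LinearMap.range f)
    rw [Submodule.Quotient.mk_eq_zero]
    exact ⟨m, h1⟩
  · intro h
    rw [LinearMap.mem_ker] at h
    have h' : Submodule.Quotient.mk m' = (0 : M' ⧸ LinearMap.range f) := h
    rw [Submodule.Quotient.mk_eq_zero] at h'
    obtain ⟨m, hm⟩ := h'
    refine ⟨⟨m, ?_⟩, ?_⟩
    · rw [LinearMap.mem_ker, LinearMap.comp_apply, hm]
      exact hm'
    · apply Subtype.ext
      exact hm

theorem range_kerToCoker : LinearMap.range (kerToCoker f d') = LinearMap.ker (cokerMap f d') := by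
  ext q
  obtain ⟨m', rfl⟩ := Submodule.Quotient.mk_surjective _ q
  constructor
  · rintro ⟨⟨z, hz⟩, hzq⟩
    have h1 : Submodule.Quotient.mk z = (Submodule.Quotient.mk m' : M' ⧸ LinearMap.range f) := hzq
    rw [LinearMap.mem_ker, ← h1]
    show Submodule.Quotient.mk (d' z) = (0 : N' ⧸ LinearMap.range (d' ∘ₗ f))
    rw [LinearMap.mem_ker.mp hz, Submodule.Quotient.mk_zero]
  · intro h
    rw [LinearMap.mem_ker] at h
    have h' : Submodule.Quotient.mk (d' m') = (0 : N' ⧸ LinearMap.range (d' ∘ₗ f)) := h
    rw [Submodule.Quotient.mk_eq_zero] at h'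
    obtain ⟨m, hm⟩ := h'
    rw [LinearMap.comp_apply] at hm
    refine ⟨⟨m' - f m, ?_⟩, ?_⟩
    · rw [LinearMap.mem_ker, map_sub, hm, sub_self]
    · show Submodule.Quotient.mk (m' - f m) = (Submodule.Quotient.mk m' : M' ⧸ LinearMap.range f)
      rw [Submodule.Quotient.mk_sub, sub_eq_self, Submodule.Quotient.mk_eq_zero]
      exact ⟨m, rfl⟩

theorem range_cokerMap : LinearMap.range (cokerMap f d') = LinearMap.ker (cokerProj f d') := by
  ext q
  obtain ⟨n, rfl⟩ := Submodule.Quotient.mk_surjective _ q
  constructor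
  · rintro ⟨p, hp⟩
    obtain ⟨m', rfl⟩ := Submodule.Quotient.mk_surjective _ p
    have h1 : Submodule.Quotient.mk (d' m') =
        (Submodule.Quotient.mk n : N' ⧸ LinearMap.range (d' ∘ₗ f)) := hp
    rw [LinearMap.mem_ker, ← h1]
    show Submodule.Quotient.mk (d' m') = (0 : N' ⧸ LinearMap.range d')
    rw [Submodule.Quotient.mk_eq_zero]
    exact ⟨m', rfl⟩
  · intro h
    rw [LinearMap.mem_ker] at h
    have h' : Submodule.Quotient.mk n = (0 : N' ⧸ LinearMap.range d') := h
    rw [Submodule.Quotient.mk_eq_zero] at h'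
    obtain ⟨m', hm'⟩ := h'
    exact ⟨Submodule.Quotient.mk m', congrArg _ hm'⟩

theorem cokerProj_surjective : Function.Surjective (cokerProj f d') := by
  intro q
  obtain ⟨n, rfl⟩ := Submodule.Quotient.mk_surjective _ q
  exact ⟨Submodule.Quotient.mk n, rfl⟩

/-- **Step B.** Pre-composition with an injective map `f` with finite-dimensional cokernel:
finiteness passes from `d' ∘ f` to `d'`, and `χ(d') = χ(d' ∘ f) + dim coker f`. -/
theorem finCoh_of_comp_right (hf : Function.Injective f)
    [FiniteDimensional K (M' ⧸ LinearMap.range f)] (hd : FinCoh (d' ∘ₗ f)) :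
    FinCoh d' ∧ chi d' = chi (d' ∘ₗ f) + Module.finrank K (M' ⧸ LinearMap.range f) := by
  have hd1 := hd.1
  have hd2 := hd.2
  -- finiteness of `ker d'`
  have hK : FiniteDimensional K (LinearMap.ker d') := by
    have e1 : FiniteDimensional K (LinearMap.ker (kerToCoker f d')) := by
      rw [← range_kerMap]
      exact Module.Finite.range _
    have e2 : FiniteDimensional K (LinearMap.range (kerToCoker f d')) := inferInstance
    exact Module.Finite.of_exact (f := (LinearMap.ker (kerToCoker f d')).subtype)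
      (g := (kerToCoker f d').rangeRestrict)
      (by
        rw [LinearMap.exact_iff, Submodule.range_subtype, LinearMap.ker_rangeRestrict])
      (LinearMap.surjective_rangeRestrict _)
  have hC : FiniteDimensional K (N' ⧸ LinearMap.range d') :=
    Module.Finite.of_surjective (cokerProj f d') (cokerProj_surjective f d')
  refine ⟨⟨hK, hC⟩, ?_⟩
  have h1 : Module.finrank K (LinearMap.ker (d' ∘ₗ f)) =
      Module.finrank K (LinearMap.ker (kerToCoker f d')) := by
    rw [← range_kerMap]
    exact (LinearMap.finrank_range_of_inj (kerMap_injective f d' hf)).symm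
  have h2 := LinearMap.finrank_range_add_finrank_ker (kerToCoker f d')
  have h3 := LinearMap.finrank_range_add_finrank_ker (cokerMap f d')
  have h4 := LinearMap.finrank_range_add_finrank_ker (cokerProj f d')
  rw [range_kerToCoker] at h2
  rw [range_cokerMap] at h3
  rw [LinearMap.range_eq_top.mpr (cokerProj_surjective f d'), finrank_top] at h4
  simp only [chi_def, hZero, hOne]
  omega

/-- Converse finiteness: from `d'` to `d' ∘ f`. -/
theorem finCoh_comp_right (hf : Function.Injective f)
    [FiniteDimensional K (M' ⧸ LinearMap.range f)] (hd : FinCoh d') : FinCoh (d' ∘ₗ f) := by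
  have hd1 := hd.1
  have hd2 := hd.2
  constructor
  · exact Module.Finite.of_injective (kerMap f d') (kerMap_injective f d' hf)
  · have e1 : FiniteDimensional K (LinearMap.ker (cokerProj f d')) := by
      rw [← range_cokerMap]
      exact Module.Finite.range _
    exact Module.Finite.of_exact (f := (LinearMap.ker (cokerProj f d')).subtype)
      (g := cokerProj f d')
      (by rw [LinearMap.exact_iff, Submodule.range_subtype])
      (cokerProj_surjective f d')

variable {f d'}

/-- **Euler characteristic of an injective morphism of two-term complexes** with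
finite-dimensional cokernels: `χ(d') = χ(d) + dim coker f - dim coker g`. -/
theorem chi_of_morphism {d : M →ₗ[K] N} {g : N →ₗ[K] N'} (hcomm : d' ∘ₗ f = g ∘ₗ d)
    (hf : Function.Injective f) (hg : Function.Injective g)
    [FiniteDimensional K (M' ⧸ LinearMap.range f)]
    [FiniteDimensional K (N' ⧸ LinearMap.range g)] (hd : FinCoh d) :
    FinCoh d' ∧ chi d' = chi d + Module.finrank K (M' ⧸ LinearMap.range f)
      - Module.finrank K (N' ⧸ LinearMap.range g) := by
  obtain ⟨hA, hA0, hA1⟩ := finCoh_comp_left d g hg hd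
  rw [← hcomm] at hA hA0 hA1
  obtain ⟨hB, hB1⟩ := finCoh_of_comp_right f d' hf hA
  refine ⟨hB, ?_⟩
  rw [hB1, chi_def, chi_def, hA0, hA1]
  push_cast
  ring

/-- Converse finiteness for a morphism of complexes. -/
theorem finCoh_of_morphism {d : M →ₗ[K] N} {g : N →ₗ[K] N'} (hcomm : d' ∘ₗ f = g ∘ₗ d)
    (hf : Function.Injective f) (hg : Function.Injective g)
    [FiniteDimensional K (M' ⧸ LinearMap.range f)] (hd' : FinCoh d') : FinCoh d := by
  have h1 := finCoh_comp_right f d' hf hd'
  rw [hcomm] at h1
  have h10 := h1.1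
  have h11 := h1.2
  have hker : LinearMap.ker (g ∘ₗ d) = LinearMap.ker d :=
    LinearMap.ker_comp_of_ker_eq_bot d (LinearMap.ker_eq_bot.2 hg)
  constructor
  · rw [← hker]; exact h10
  · have hle1 : LinearMap.range d ≤ (LinearMap.range (g ∘ₗ d)).comap g := by
      rintro _ ⟨m, rfl⟩
      exact ⟨m, rfl⟩
    refine Module.Finite.of_injective (Submodule.mapQ _ _ g hle1) ?_
    rw [← LinearMap.ker_eq_bot, LinearMap.ker_eq_bot']
    intro q hq
    obtain ⟨n, rfl⟩ := Submodule.Quotient.mk_surjective _ q
    rw [Submodule.mapQ_apply, Submodule.Quotient.mk_eq_zero] at hq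
    obtain ⟨m, hm⟩ := hq
    rw [Submodule.Quotient.mk_eq_zero]
    exact ⟨m, hg hm⟩

/-- `H¹(d) → H¹(d')` is onto as soon as `N' = g N + d' M'`; in particular `H¹(d) = 0` implies
`H¹(d') = 0`. -/
theorem surjective_of_morphism {d : M →ₗ[K] N} {g : N →ₗ[K] N'} (hcomm : d' ∘ₗ f = g ∘ₗ d)
    (hsup : LinearMap.range g ⊔ LinearMap.range d' = ⊤) (hd : Function.Surjective d) :
    Function.Surjective d' := by
  intro n'
  have hn' : n' ∈ LinearMap.range g ⊔ LinearMap.range d' := by rw [hsup]; trivial
  obtain ⟨_, ⟨n, rfl⟩, _, ⟨m', rfl⟩, rfl⟩ := Submodule.mem_sup.mp hn'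
  obtain ⟨m, rfl⟩ := hd n
  refine ⟨f m + m', ?_⟩
  rw [map_add]
  congr 1
  exact LinearMap.congr_fun hcomm m

end Morphism

end Fermat.Agent.S25.H565

end
-- ===== PACK-END S25/H565/Chi.lean

-- ===== PACK-BEGIN S25/H10/RRLite.lean
section
/-
S25, block CECH (helper10): RR-lite, pure linear algebra part.

* `Snake` section: for `j : M → M'` and `d' : M' → N`, `d = d' ∘ j`, the exact sequence
  `0 → ker d → ker d' → M'/jM → N/dM → N/d'M' → 0` (five-term sequence of a modification of a
  two-term complex; this is the long exact sequence of `0 → L → L' → L'/L → 0` in Čech form).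
* `pigeonhole`: Riemann's inequality in the form needed to produce a function with a pole at one
  point only.
-/


set_option autoImplicit false

namespace Fermat.Agent.S25.H10

open Submodule

section Snake

variable {A : Type*} [CommRing A] {M M' N : Type*}
  [AddCommGroup M] [AddCommGroup M'] [AddCommGroup N] [Module A M] [Module A M'] [Module A N]

/-- `ker (d' ∘ j) → ker d'`, induced by `j`. -/
def snakeα (j : M →ₗ[A] M') (d' : M' →ₗ[A] N) :
    LinearMap.ker (d' ∘ₗ j) →ₗ[A] LinearMap.ker d' :=
  LinearMap.codRestrict _ (j ∘ₗ (LinearMap.ker (d' ∘ₗ j)).subtype) (by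
    rintro ⟨m, hm⟩
    simpa using hm)

@[simp] theorem snakeα_coe (j : M →ₗ[A] M') (d' : M' →ₗ[A] N) (m : LinearMap.ker (d' ∘ₗ j)) :
    ((snakeα j d' m : LinearMap.ker d') : M') = j m := rfl

/-- `ker d' → M' / j M`. -/
def snakeβ (j : M →ₗ[A] M') (d' : M' →ₗ[A] N) :
    LinearMap.ker d' →ₗ[A] M' ⧸ LinearMap.range j :=
  (LinearMap.range j).mkQ ∘ₗ (LinearMap.ker d').subtype

@[simp] theorem snakeβ_apply (j : M →ₗ[A] M') (d' : M' →ₗ[A] N) (m : LinearMap.ker d') :
    snakeβ j d' m = Submodule.Quotient.mk (m : M') := rfl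

/-- `M' / j M → N / d M`, induced by `d'`. -/
def snakeγ (j : M →ₗ[A] M') (d' : M' →ₗ[A] N) :
    (M' ⧸ LinearMap.range j) →ₗ[A] N ⧸ LinearMap.range (d' ∘ₗ j) :=
  Submodule.liftQ _ ((LinearMap.range (d' ∘ₗ j)).mkQ ∘ₗ d') (by
    rintro _ ⟨m, rfl⟩
    rw [LinearMap.mem_ker, LinearMap.comp_apply, mkQ_apply, Submodule.Quotient.mk_eq_zero]
    exact ⟨m, rfl⟩)

@[simp] theorem snakeγ_mk (j : M →ₗ[A] M') (d' : M' →ₗ[A] N) (m : M') :
    snakeγ j d' (Submodule.Quotient.mk m) = Submodule.Quotient.mk (d' m) := rfl

/-- `N / d M → N / d' M'`. -/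
def snakeε (j : M →ₗ[A] M') (d' : M' →ₗ[A] N) :
    (N ⧸ LinearMap.range (d' ∘ₗ j)) →ₗ[A] N ⧸ LinearMap.range d' :=
  Submodule.liftQ _ (LinearMap.range d').mkQ (by
    rintro _ ⟨m, rfl⟩
    rw [LinearMap.mem_ker, mkQ_apply, Submodule.Quotient.mk_eq_zero]
    exact ⟨j m, rfl⟩)

@[simp] theorem snakeε_mk (j : M →ₗ[A] M') (d' : M' →ₗ[A] N) (n : N) :
    snakeε j d' (Submodule.Quotient.mk n) = Submodule.Quotient.mk n := rfl

theorem snakeα_injective (j : M →ₗ[A] M') (d' : M' →ₗ[A] N) (hj : Function.Injective j) :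
    Function.Injective (snakeα j d') := by
  intro a b h
  apply Subtype.ext
  apply hj
  have := congrArg (fun z : LinearMap.ker d' => (z : M')) h
  simpa using this

theorem range_snakeα (j : M →ₗ[A] M') (d' : M' →ₗ[A] N) :
    LinearMap.range (snakeα j d') = LinearMap.ker (snakeβ j d') := by
  ext ⟨m', hm'⟩
  constructor
  · rintro ⟨m, hm⟩
    rw [LinearMap.mem_ker, snakeβ_apply, Submodule.Quotient.mk_eq_zero]
    have := congrArg (fun z : LinearMap.ker d' => (z : M')) hm
    simp only [snakeα_coe] at this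
    exact ⟨m, this⟩
  · intro h
    rw [LinearMap.mem_ker, snakeβ_apply, Submodule.Quotient.mk_eq_zero] at h
    obtain ⟨m, hm⟩ := h
    simp only at hm
    refine ⟨⟨m, ?_⟩, ?_⟩
    · rw [LinearMap.mem_ker, LinearMap.comp_apply, hm]
      exact hm'
    · apply Subtype.ext
      simpa using hm

theorem range_snakeβ (j : M →ₗ[A] M') (d' : M' →ₗ[A] N) :
    LinearMap.range (snakeβ j d') = LinearMap.ker (snakeγ j d') := by
  ext q
  obtain ⟨m', rfl⟩ := Submodule.Quotient.mk_surjective _ q
  constructor
  · rintro ⟨⟨z, hz⟩, hzq⟩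
    rw [snakeβ_apply] at hzq
    rw [LinearMap.mem_ker, ← hzq, snakeγ_mk]
    simp only
    rw [LinearMap.mem_ker.mp hz, Submodule.Quotient.mk_zero]
  · intro h
    rw [LinearMap.mem_ker, snakeγ_mk, Submodule.Quotient.mk_eq_zero] at h
    obtain ⟨m, hm⟩ := h
    rw [LinearMap.comp_apply] at hm
    refine ⟨⟨m' - j m, ?_⟩, ?_⟩
    · rw [LinearMap.mem_ker, map_sub, hm, sub_self]
    · rw [snakeβ_apply]
      simp only
      rw [Submodule.Quotient.mk_sub, sub_eq_self, Submodule.Quotient.mk_eq_zero]
      exact ⟨m, rfl⟩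

theorem range_snakeγ (j : M →ₗ[A] M') (d' : M' →ₗ[A] N) :
    LinearMap.range (snakeγ j d') = LinearMap.ker (snakeε j d') := by
  ext q
  obtain ⟨n, rfl⟩ := Submodule.Quotient.mk_surjective _ q
  constructor
  · rintro ⟨p, hp⟩
    obtain ⟨m', rfl⟩ := Submodule.Quotient.mk_surjective _ p
    rw [snakeγ_mk] at hp
    rw [LinearMap.mem_ker, ← hp, snakeε_mk, Submodule.Quotient.mk_eq_zero]
    exact ⟨m', rfl⟩
  · intro h
    rw [LinearMap.mem_ker, snakeε_mk, Submodule.Quotient.mk_eq_zero] at h
    obtain ⟨m', hm'⟩ := h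
    exact ⟨Submodule.Quotient.mk m', by rw [snakeγ_mk, hm']⟩

theorem snakeε_surjective (j : M →ₗ[A] M') (d' : M' →ₗ[A] N) :
    Function.Surjective (snakeε j d') := by
  intro q
  obtain ⟨n, rfl⟩ := Submodule.Quotient.mk_surjective _ q
  exact ⟨Submodule.Quotient.mk n, rfl⟩

end Snake

section Euler

variable {K : Type*} [Field K] {M M' N : Type*}
  [AddCommGroup M] [AddCommGroup M'] [AddCommGroup N] [Module K M] [Module K M'] [Module K N]

/-- **Euler characteristic of a modification** (`χ(L') = χ(L) + dim (L'/L)`):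
`h⁰(L') + h¹(L) = h⁰(L) + dim (M'/jM) + h¹(L')`. -/
theorem finrank_ker_add_finrank_coker (j : M →ₗ[K] M') (d' : M' →ₗ[K] N)
    (hj : Function.Injective j)
    [FiniteDimensional K (LinearMap.ker d')] [FiniteDimensional K (M' ⧸ LinearMap.range j)]
    [FiniteDimensional K (N ⧸ LinearMap.range (d' ∘ₗ j))] :
    Module.finrank K (LinearMap.ker d') + Module.finrank K (N ⧸ LinearMap.range (d' ∘ₗ j)) =
      Module.finrank K (LinearMap.ker (d' ∘ₗ j)) + Module.finrank K (M' ⧸ LinearMap.range j) +
        Module.finrank K (N ⧸ LinearMap.range d') := by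
  have h1 : Module.finrank K (LinearMap.ker (d' ∘ₗ j)) =
      Module.finrank K (LinearMap.ker (snakeβ j d')) := by
    rw [← range_snakeα]
    exact (LinearMap.finrank_range_of_inj (snakeα_injective j d' hj)).symm
  have h2 := LinearMap.finrank_range_add_finrank_ker (snakeβ j d')
  have h3 := LinearMap.finrank_range_add_finrank_ker (snakeγ j d')
  have h4 := LinearMap.finrank_range_add_finrank_ker (snakeε j d')
  rw [range_snakeβ] at h2
  rw [range_snakeγ] at h3
  rw [LinearMap.range_eq_top.mpr (snakeε_surjective j d'), finrank_top] at h4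
  omega

/-- Riemann's inequality for a modification: `h⁰(L') ≥ h⁰(L) + dim (L'/L) - h¹(L)`. -/
theorem finrank_ker_ge (j : M →ₗ[K] M') (d' : M' →ₗ[K] N)
    (hj : Function.Injective j)
    [FiniteDimensional K (LinearMap.ker d')] [FiniteDimensional K (M' ⧸ LinearMap.range j)]
    [FiniteDimensional K (N ⧸ LinearMap.range (d' ∘ₗ j))] :
    Module.finrank K (LinearMap.ker (d' ∘ₗ j)) + Module.finrank K (M' ⧸ LinearMap.range j) ≤
      Module.finrank K (LinearMap.ker d') + Module.finrank K (N ⧸ LinearMap.range (d' ∘ₗ j)) := by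
  have := finrank_ker_add_finrank_coker j d' hj
  omega

end Euler

section Pigeonhole

variable {K : Type*} [Field K] {V : Type*} [AddCommGroup V] [Module K V]

/-- If `S : ℕ → Submodule K W` is strictly increasing on `{0, …, n}` then `n ≤ dim S n`. -/
theorem le_finrank_of_strictChain {W : Type*} [AddCommGroup W] [Module K W]
    [FiniteDimensional K W] (S : ℕ → Submodule K W) (n : ℕ)
    (hS : ∀ i < n, S i < S (i + 1)) : n ≤ Module.finrank K (S n) := by
  induction n with
  | zero => exact Nat.zero_le _
  | succ n ih =>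
    have h1 := ih (fun i hi => hS i (Nat.lt_succ_of_lt hi))
    have h2 := Submodule.finrank_lt_finrank_of_lt (hS n (Nat.lt_succ_self n))
    omega

/-- **Pigeonhole form of Riemann's inequality.**  `P0`, `P1` are the images of the sections on
the two charts in `V` (sections on the overlap), with `H¹ = V / (P0 + P1)` of finite dimension
`g`.  If `P1 = N 0 < N 1 < ⋯ < N (g+1)` (sections on `U1` with a pole of order `≤ i` at a point),
then there is `f ∈ P0 ∩ N (g+1)` with `f ∉ P1`: a section on `U0` which extends to `U1` with a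
genuine pole at the point. -/
theorem exists_mem_inf_notMem (P0 P1 : Submodule K V)
    [FiniteDimensional K (V ⧸ (P0 ⊔ P1))] (N : ℕ → Submodule K V) (hN0 : N 0 = P1)
    (hN : ∀ i, N i < N (i + 1)) :
    ∃ f : V, f ∈ P0 ∧ f ∈ N (Module.finrank K (V ⧸ (P0 ⊔ P1)) + 1) ∧ f ∉ P1 := by
  classical
  by_contra hcon
  push Not at hcon
  set g := Module.finrank K (V ⧸ (P0 ⊔ P1)) with hg
  have hmono : Monotone N := monotone_nat_of_le_succ fun i => (hN i).le
  set φ : V →ₗ[K] V ⧸ (P0 ⊔ P1) := (P0 ⊔ P1).mkQ with hφ
  -- the chain `φ (N i)`, `i ≤ g + 1`, is strictly increasing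
  have hker : ∀ v ∈ N (g + 1), φ v = 0 → v ∈ P1 := by
    intro v hv h0
    rw [hφ, mkQ_apply, Submodule.Quotient.mk_eq_zero] at h0
    obtain ⟨p0, hp0, p1, hp1, rfl⟩ := Submodule.mem_sup.mp h0
    have hp1N : p1 ∈ N (g + 1) := hmono (Nat.zero_le _) (hN0 ▸ hp1)
    have hp0N : p0 ∈ N (g + 1) := by
      have := (N (g + 1)).sub_mem hv hp1N
      simpa using this
    exact P1.add_mem (hcon p0 hp0 hp0N) hp1
  have hchain : ∀ i < g + 1, (N i).map φ < (N (i + 1)).map φ := by
    intro i hi
    refine lt_of_le_of_ne (Submodule.map_mono (hN i).le) ?_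
    intro heq
    apply (hN i).not_ge
    intro v hv
    have hvφ : φ v ∈ (N i).map φ := heq ▸ Submodule.mem_map_of_mem hv
    obtain ⟨w, hw, hwv⟩ := hvφ
    have hvN : v ∈ N (g + 1) := hmono (Nat.succ_le_of_lt hi) hv
    have hwN : w ∈ N (g + 1) := hmono (Nat.le_of_lt hi) hw
    have hd : v - w ∈ P1 := hker _ ((N (g + 1)).sub_mem hvN hwN) (by rw [map_sub, hwv, sub_self])
    have hdN : v - w ∈ N i := hmono (Nat.zero_le _) (hN0 ▸ hd)
    have := (N i).add_mem hdN hw
    simpa using this
  have h1 := le_finrank_of_strictChain (fun i => (N i).map φ) (g + 1) hchain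
  have h2 := Submodule.finrank_le ((N (g + 1)).map φ)
  omega

end Pigeonhole

end Fermat.Agent.S25.H10

end
-- ===== PACK-END S25/H10/RRLite.lean

-- ===== PACK-BEGIN S25/H325/HomBaseChange.lean
section
/-
S25 helper (helper325), block GDC item 7, leaf 0: `Hom` of finite projective modules commutes
with base change (Mathlib has the finite free case only).  Mathlib only.
-/


set_option autoImplicit false

open TensorProduct

namespace Fermat.Agent.S25.H325

section

variable {R : Type*} [CommRing R] {S : Type*} [CommRing S] [Algebra R S]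
  {M : Type*} [AddCommGroup M] [Module R M]
  {N : Type*} [AddCommGroup N] [Module R N]
  {P : Type*} [AddCommGroup P] [Module R P] [Module S P] [IsScalarTower R S P]
  {Q : Type*} [AddCommGroup Q] [Module R Q] [Module S Q] [IsScalarTower R S Q]

/-- A linear map is a base change map as soon as the induced map from the tensor product is
bijective. -/
theorem isBaseChange_of_bijective_liftBaseChange (f : M →ₗ[R] P)
    (h : Function.Bijective (f.liftBaseChange S)) : IsBaseChange S f :=
  IsBaseChange.of_equiv (LinearEquiv.ofBijective (f.liftBaseChange S) h) (fun x => by simp)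

theorem bijective_liftBaseChange_of_isBaseChange {f : M →ₗ[R] P} (h : IsBaseChange S f) :
    Function.Bijective (f.liftBaseChange S) := by
  have : f.liftBaseChange S = h.equiv.toLinearMap := by
    ext x
    simp
  rw [this]
  exact h.equiv.bijective

/-- **Base change of `Hom` for a finite projective source.**  If `P` is the base change of the
finite projective module `M` and `Q` is the base change of `N`, then `P →ₗ[S] Q` is the base
change of `M →ₗ[R] N` (via `g ↦ ` the unique `S`-linear extension of `β ∘ g`). -/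
theorem isBaseChange_linearMapLeftRightHom [Module.Finite R M] [Module.Projective R M]
    {α : M →ₗ[R] P} (j : IsBaseChange S α) {β : N →ₗ[R] Q} (k : IsBaseChange S β) :
    IsBaseChange S (IsBaseChange.linearMapLeftRightHom j β) := by
  classical
  obtain ⟨n, p, i, -, -, hpi⟩ := Module.Finite.exists_comp_eq_id_of_projective R M
  -- `p : (Fin n → R) → M`, `i : M → (Fin n → R)`, `p ∘ i = id`
  let F := Fin n → R
  have jF : IsBaseChange S (TensorProduct.mk R S F 1) := TensorProduct.isBaseChange R F S
  have hF : IsBaseChange S (IsBaseChange.linearMapLeftRightHom jF β) :=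
    IsBaseChange.linearMapLeftRight jF k
  have bF := bijective_liftBaseChange_of_isBaseChange hF
  -- base changes of `i` and `p`
  let iS : P →ₗ[S] S ⊗[R] F := j.lift ((TensorProduct.mk R S F 1) ∘ₗ i)
  let pS : S ⊗[R] F →ₗ[S] P := jF.lift (α ∘ₗ p)
  have hiS : ∀ m, iS (α m) = (1 : S) ⊗ₜ[R] i m := fun m => by
    simp only [iS, IsBaseChange.lift_eq]
    rfl
  have hpS : ∀ f : F, pS ((1 : S) ⊗ₜ[R] f) = α (p f) := fun f => by
    have := jF.lift_eq (α ∘ₗ p) f
    simpa [pS] using this
  have hpi' : ∀ m, p (i m) = m := fun m => by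
    have := congrArg (fun g => g m) hpi
    simpa using this
  have hpiS : ∀ x, pS (iS x) = x := by
    intro x
    have : pS ∘ₗ iS = LinearMap.id := by
      apply j.algHom_ext
      intro m
      simp only [LinearMap.comp_apply, hiS, hpS, hpi', LinearMap.id_apply]
    exact congrArg (fun g => g x) this
  -- naturality
  have N1 : ∀ g : M →ₗ[R] N, IsBaseChange.linearMapLeftRightHom jF β (g ∘ₗ p) =
      (IsBaseChange.linearMapLeftRightHom j β g) ∘ₗ pS := by
    intro g
    apply jF.algHom_ext
    intro f
    rw [IsBaseChange.linearMapLeftRightHom_comp_apply]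
    simp only [LinearMap.comp_apply, TensorProduct.mk_apply, hpS,
      IsBaseChange.linearMapLeftRightHom_comp_apply]
  have N2 : ∀ g : F →ₗ[R] N, IsBaseChange.linearMapLeftRightHom j β (g ∘ₗ i) =
      (IsBaseChange.linearMapLeftRightHom jF β g) ∘ₗ iS := by
    intro g
    apply j.algHom_ext
    intro m
    rw [IsBaseChange.linearMapLeftRightHom_comp_apply]
    simp only [LinearMap.comp_apply, hiS]
    have := IsBaseChange.linearMapLeftRightHom_comp_apply jF β g (i m)
    simpa using this.symm
  -- the maps induced on `S ⊗ Hom`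
  let cp : (M →ₗ[R] N) →ₗ[R] (F →ₗ[R] N) := LinearMap.lcomp R N p
  let ci : (F →ₗ[R] N) →ₗ[R] (M →ₗ[R] N) := LinearMap.lcomp R N i
  have hcicp : ∀ x : S ⊗[R] (M →ₗ[R] N), (ci.baseChange S) ((cp.baseChange S) x) = x := by
    intro x
    induction x using TensorProduct.induction_on with
    | zero => simp
    | tmul s g =>
      simp only [LinearMap.baseChange_tmul, cp, ci, LinearMap.lcomp_apply']
      congr 1
      ext m
      simp [hpi']
    | add x y hx hy => simp only [map_add, hx, hy]
  set ΨM := (IsBaseChange.linearMapLeftRightHom j β).liftBaseChange S with hΨM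
  set ΨF := (IsBaseChange.linearMapLeftRightHom jF β).liftBaseChange S with hΨF
  have E1 : ∀ x : S ⊗[R] (M →ₗ[R] N), ΨF ((cp.baseChange S) x) = (ΨM x) ∘ₗ pS := by
    intro x
    induction x using TensorProduct.induction_on with
    | zero => simp
    | tmul s g =>
      simp only [LinearMap.baseChange_tmul, hΨF, hΨM, LinearMap.liftBaseChange_tmul, cp,
        LinearMap.lcomp_apply', N1]
      rfl
    | add x y hx hy => simp only [map_add, hx, hy, LinearMap.add_comp]
  have E2 : ∀ z : S ⊗[R] (F →ₗ[R] N), ΨM ((ci.baseChange S) z) = (ΨF z) ∘ₗ iS := by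
    intro z
    induction z using TensorProduct.induction_on with
    | zero => simp
    | tmul s g =>
      simp only [LinearMap.baseChange_tmul, hΨF, hΨM, LinearMap.liftBaseChange_tmul, ci,
        LinearMap.lcomp_apply', N2]
      rfl
    | add x y hx hy => simp only [map_add, hx, hy, LinearMap.add_comp]
  apply isBaseChange_of_bijective_liftBaseChange
  constructor
  · rw [injective_iff_map_eq_zero]
    intro x hx
    have h1 : ΨF ((cp.baseChange S) x) = 0 := by
      rw [E1]
      change (ΨM x) ∘ₗ pS = 0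
      rw [show ΨM x = 0 from hx, LinearMap.zero_comp]
    have h2 : (cp.baseChange S) x = 0 := by
      apply bF.1
      rw [h1, map_zero]
    rw [← hcicp x, h2, map_zero]
  · intro y
    obtain ⟨z, hz⟩ := bF.2 (y ∘ₗ pS)
    refine ⟨(ci.baseChange S) z, ?_⟩
    change ΨM ((ci.baseChange S) z) = y
    rw [E2]
    change ΨF z ∘ₗ iS = y
    rw [show ΨF z = y ∘ₗ pS from hz]
    ext x
    simp [hpiS]

end

end Fermat.Agent.S25.H325

end
-- ===== PACK-END S25/H325/HomBaseChange.lean

-- ===== PACK-BEGIN S25/H687/Points.lean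
section
/-
S25, block CURVE, leaf C3-ALGEBRA, helper687.  Pure commutative algebra, Mathlib only.

* `exists_algHom_apply_ne_zero` : weak Nullstellensatz with a nonvanishing condition.
* `infinite_algHom` : a f.g. domain over an algebraically closed field which is not a field
  has infinitely many `k`-points.
* `finite_zeros_of_section` : a nonzero element of a f.g. projective module over a Dedekind
  domain lies in `m • ⊤` for only finitely many maximal ideals `m`.
-/


namespace Fermat.Agent.S25.H687

section Nullstellensatz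

variable (k : Type*) {B : Type*} [Field k] [IsAlgClosed k] [CommRing B] [Algebra k B]
  [Algebra.FiniteType k B]

/-- Every maximal ideal of a f.g. algebra over an algebraically closed field is the kernel of
a `k`-point. -/
theorem exists_algHom_ker_eq (m : Ideal B) [hm : m.IsMaximal] :
    ∃ φ : B →ₐ[k] k, RingHom.ker φ.toRingHom = m := by
  classical
  let _ : Field (B ⧸ m) := Ideal.Quotient.field m
  have : Module.Finite k (B ⧸ m) := finite_of_finite_type_of_isJacobsonRing k (B ⧸ m)
  have : Algebra.IsIntegral k (B ⧸ m) := Algebra.IsIntegral.of_finite k (B ⧸ m)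
  have hbij : Function.Bijective (algebraMap k (B ⧸ m)) :=
    IsAlgClosed.algebraMap_bijective_of_isIntegral
  let e : k ≃ₐ[k] (B ⧸ m) := AlgEquiv.ofBijective (Algebra.ofId k (B ⧸ m)) hbij
  refine ⟨(e.symm : (B ⧸ m) →ₐ[k] k).comp (Ideal.Quotient.mkₐ k m), ?_⟩
  ext b
  simp only [RingHom.mem_ker, AlgHom.toRingHom_eq_coe, RingHom.coe_coe, AlgHom.coe_comp,
    Function.comp_apply, Ideal.Quotient.mkₐ_eq_mk]
  rw [← Ideal.Quotient.eq_zero_iff_mem]
  exact map_eq_zero_iff _ e.symm.injective

/-- Weak Nullstellensatz: a non-nilpotent element of a f.g. algebra over an algebraically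
closed field is nonzero at some `k`-point. -/
theorem exists_algHom_apply_ne_zero {b : B} (hb : ¬ IsNilpotent b) :
    ∃ φ : B →ₐ[k] k, φ b ≠ 0 := by
  classical
  have : Nontrivial (Localization.Away b) := by
    rw [← not_subsingleton_iff_nontrivial]
    intro h
    apply hb
    have h0 : (algebraMap B (Localization.Away b)) b = 0 := Subsingleton.elim _ _
    have hunit : IsUnit ((algebraMap B (Localization.Away b)) b) :=
      IsLocalization.Away.algebraMap_isUnit b
    rw [h0] at hunit
    have h1 : (1 : Localization.Away b) = 0 := Subsingleton.elim _ _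
    have : (algebraMap B (Localization.Away b)) 1 = 0 := by rw [map_one]; exact h1
    obtain ⟨⟨_, n, rfl⟩, hn⟩ :=
      (IsLocalization.map_eq_zero_iff (Submonoid.powers b) (Localization.Away b) 1).mp this
    exact ⟨n, by simpa using hn⟩
  have hBL : Algebra.FiniteType B (Localization.Away b) :=
    IsLocalization.finiteType_of_monoid_fg (Submonoid.powers b) _
  have : Algebra.FiniteType k (Localization.Away b) :=
    Algebra.FiniteType.trans (S := B) inferInstance hBL
  obtain ⟨M, hM⟩ := Ideal.exists_maximal (Localization.Away b)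
  obtain ⟨ψ, hψ⟩ := exists_algHom_ker_eq k M
  refine ⟨ψ.comp (IsScalarTower.toAlgHom k B (Localization.Away b)), ?_⟩
  have hunit : IsUnit ((algebraMap B (Localization.Away b)) b) :=
    IsLocalization.Away.algebraMap_isUnit b
  have : IsUnit (ψ ((algebraMap B (Localization.Away b)) b)) := hunit.map ψ
  simpa using this.ne_zero

end Nullstellensatz

section Infinite

variable (k : Type*) {B : Type*} [Field k] [IsAlgClosed k] [CommRing B] [IsDomain B]
  [Algebra k B] [Algebra.FiniteType k B]

/-- For finitely many `k`-points of a f.g. domain which is not a field there is another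
`k`-point (in fact one at which a given nonzero `b` does not vanish). -/
theorem exists_algHom_notMem_finset (hB : ¬ IsField B) (s : Finset (B →ₐ[k] k)) {b : B}
    (hb : b ≠ 0) : ∃ φ : B →ₐ[k] k, φ ∉ s ∧ φ b ≠ 0 := by
  classical
  -- every `k`-point kills a nonzero element
  have hker : ∀ φ : B →ₐ[k] k, ∃ c : B, c ≠ 0 ∧ φ c = 0 := by
    intro φ
    by_contra hcon
    push Not at hcon
    apply hB
    have hinj : Function.Injective φ := by
      rw [injective_iff_map_eq_zero]
      intro c hc
      by_contra hc0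
      exact hcon c hc0 hc
    have hsurj : Function.Surjective φ := fun a => ⟨algebraMap k B a, by simp⟩
    exact (MulEquiv.ofBijective φ ⟨hinj, hsurj⟩).isField (Field.toIsField k)
  choose c hc0 hc using hker
  have hprod : b * ∏ φ ∈ s, c φ ≠ 0 :=
    mul_ne_zero hb (Finset.prod_ne_zero_iff.mpr fun φ _ => hc0 φ)
  obtain ⟨φ, hφ⟩ := exists_algHom_apply_ne_zero k (B := B)
    (fun h => hprod (IsNilpotent.eq_zero h))
  refine ⟨φ, ?_, ?_⟩
  · intro hmem
    apply hφ
    rw [map_mul, map_prod, Finset.prod_eq_zero hmem (hc φ), mul_zero]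
  · intro h0
    apply hφ
    rw [map_mul, h0, zero_mul]

/-- A f.g. domain over an algebraically closed field which is not a field has infinitely many
`k`-points. -/
theorem infinite_algHom (hB : ¬ IsField B) : Infinite (B →ₐ[k] k) := by
  classical
  refine Infinite.of_not_fintype fun hfin => ?_
  obtain ⟨φ, hφ, -⟩ := exists_algHom_notMem_finset k hB (Finset.univ) (one_ne_zero (α := B))
  exact hφ (Finset.mem_univ φ)

/-- The set of `k`-points at which a given nonzero `b` does not vanish is infinite. -/
theorem infinite_setOf_apply_ne_zero (hB : ¬ IsField B) {b : B} (hb : b ≠ 0) :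
    {φ : B →ₐ[k] k | φ b ≠ 0}.Infinite := by
  classical
  intro hfin
  obtain ⟨φ, hφ, hφb⟩ := exists_algHom_notMem_finset k hB hfin.toFinset hb
  exact hφ (hfin.mem_toFinset.mpr hφb)

end Infinite

section Zeros

variable {B N : Type*} [CommRing B] [IsDedekindDomain B] [AddCommGroup N] [Module B N]

/-- In a Dedekind domain a nonzero element lies in only finitely many maximal ideals. -/
theorem finite_setOf_isMaximal_mem {a : B} (ha : a ≠ 0) :
    {m : Ideal B | m.IsMaximal ∧ a ∈ m}.Finite := by
  classical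
  have hI : Ideal.span {a} ≠ (0 : Ideal B) := by
    rw [Ne, Ideal.zero_eq_bot, Ideal.span_singleton_eq_bot]
    exact ha
  have hfin := Ideal.finite_factors hI
  refine (hfin.image (fun v => v.asIdeal)).subset ?_
  rintro m ⟨hmax, ham⟩
  have hm0 : m ≠ ⊥ := by
    rintro rfl
    exact ha (by simpa using ham)
  refine ⟨⟨m, hmax.isPrime, hm0⟩, ?_, rfl⟩
  show m ∣ Ideal.span {a}
  rw [Ideal.dvd_iff_le, Ideal.span_singleton_le_iff_mem]
  exact ham

/-- A nonzero element `s` of a finite projective module over a Dedekind domain vanishes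
(i.e. `s ∈ m • ⊤`) at only finitely many maximal ideals `m`. -/
theorem finite_zeros_of_section [Module.Finite B N] [Module.Projective B N] {s : N}
    (hs : s ≠ 0) : {m : Ideal B | m.IsMaximal ∧ s ∈ (m • ⊤ : Submodule B N)}.Finite := by
  classical
  -- a linear form not vanishing on `s`
  obtain ⟨φ, hφ⟩ : ∃ φ : N →ₗ[B] B, φ s ≠ 0 := by
    by_contra hcon
    push Not at hcon
    apply hs
    have hinj : Function.Injective (Module.Dual.eval B N) :=
      (Module.IsReflexive.bijective_dual_eval' (R := B) (M := N)).1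
    apply hinj
    rw [map_zero]
    ext φ
    exact hcon φ
  refine (finite_setOf_isMaximal_mem hφ).subset ?_
  rintro m ⟨hmax, hsm⟩
  refine ⟨hmax, ?_⟩
  refine Submodule.smul_induction_on hsm ?_ ?_
  · intro r hr n _
    rw [map_smul, smul_eq_mul]
    exact m.mul_mem_right _ hr
  · intro x y hx hy
    rw [map_add]
    exact m.add_mem hx hy

end Zeros

end Fermat.Agent.S25.H687

end
-- ===== PACK-END S25/H687/Points.lean

-- ===== PACK-BEGIN S26/Pic/Defs.lean
section


/-!
# Row S26, block PIC, part P1: the Picard group by Čech cocycles indexed by points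

(sub-architect helper347; blueprint `coord/S26.md` §5, Mathlib only)

A *cocycle* on a scheme `X` is a family of opens `U x ∋ x` (one for every point) and units
`g x y ∈ Γ(X, U x ⊓ U y)ˣ` with `g x y * g y z = g x z` on `U x ⊓ U y ⊓ U z`.
Two cocycles are *equivalent* when they differ by a coboundary after shrinking the opens.
`PicGrp X` is the quotient (a commutative group), `PicGrp.map f` the pull-back.
Since covers indexed by points are cofinal among all open covers, `PicGrp X` is the Čech
`H¹(X, 𝒪ˣ)`, i.e. the Picard group of `X`.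
-/

set_option autoImplicit false

open AlgebraicGeometry CategoryTheory TopologicalSpace Opposite

universe u

namespace Fermat.Agent.S26.Pic

noncomputable section

variable {X Y Z : Scheme.{u}}

/-! ## Restriction and pull-back of units -/

/-- Pull-back of units along `f`, to an open contained in the preimage. -/
def pull (f : X ⟶ Y) {U : Y.Opens} {V : X.Opens} (e : V ≤ f ⁻¹ᵁ U) :
    Γ(Y, U)ˣ →* Γ(X, V)ˣ :=
  Units.map (f.appLE U V e).hom

/-- Restriction of units. -/
def res {U V : X.Opens} (h : V ≤ U) : Γ(X, U)ˣ →* Γ(X, V)ˣ :=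
  Units.map (X.presheaf.map (homOfLE h).op).hom

lemma res_res {U V W : X.Opens} (h : V ≤ U) (h' : W ≤ V) (a : Γ(X, U)ˣ) :
    res h' (res h a) = res (h'.trans h) a := by
  ext
  simp only [res, Units.coe_map, MonoidHom.coe_coe]
  rw [← CommRingCat.comp_apply, ← Functor.map_comp]
  rfl

lemma res_self {U : X.Opens} (h : U ≤ U) (a : Γ(X, U)ˣ) : res h a = a := by
  ext
  simp only [res, Units.coe_map, MonoidHom.coe_coe]
  have : (homOfLE h).op = 𝟙 (op U) := rfl
  rw [this, X.presheaf.map_id]
  rfl

lemma pull_res (f : X ⟶ Y) {U U' : Y.Opens} {V : X.Opens} (h : U' ≤ U) (e : V ≤ f ⁻¹ᵁ U')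
    (a : Γ(Y, U)ˣ) :
    pull f e (res h a) = pull f (e.trans (f.preimage_mono h)) a := by
  ext
  simp only [pull, res, Units.coe_map, MonoidHom.coe_coe]
  rw [← CommRingCat.comp_apply, Scheme.Hom.map_appLE]

lemma res_pull (f : X ⟶ Y) {U : Y.Opens} {V V' : X.Opens} (e : V ≤ f ⁻¹ᵁ U) (h : V' ≤ V)
    (a : Γ(Y, U)ˣ) :
    res h (pull f e a) = pull f (h.trans e) a := by
  ext
  simp only [pull, res, Units.coe_map, MonoidHom.coe_coe]
  rw [← CommRingCat.comp_apply, Scheme.Hom.appLE_map]

lemma pull_pull (f : X ⟶ Y) (g : Y ⟶ Z) {U : Z.Opens} {V : Y.Opens} {W : X.Opens}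
    (e₁ : V ≤ g ⁻¹ᵁ U) (e₂ : W ≤ f ⁻¹ᵁ V) (a : Γ(Z, U)ˣ) :
    pull f e₂ (pull g e₁ a) = pull (f ≫ g) (e₂.trans (f.preimage_mono e₁)) a := by
  ext
  simp only [pull, Units.coe_map, MonoidHom.coe_coe]
  rw [← CommRingCat.comp_apply, Scheme.Hom.appLE_comp_appLE]

lemma pull_id {U V : X.Opens} (e : V ≤ (𝟙 X) ⁻¹ᵁ U) (a : Γ(X, U)ˣ) :
    pull (𝟙 X) e a = res (show V ≤ U from e) a := by
  ext
  simp only [pull, res, Units.coe_map, MonoidHom.coe_coe]
  simp only [Scheme.Hom.appLE, Scheme.Hom.id_app]
  rfl

lemma pull_congr {f f' : X ⟶ Y} (hf : f = f') {U : Y.Opens} {V : X.Opens} (e : V ≤ f ⁻¹ᵁ U)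
    (a : Γ(Y, U)ˣ) : pull f e a = pull f' (hf ▸ e) a := by
  subst hf; rfl

/-! ## Cocycles -/

/-- A Čech 1-cocycle of `𝒪ˣ` for a cover indexed by the points of `X`. -/
structure Cocycle (X : Scheme.{u}) : Type u where
  /-- the open attached to a point -/
  U : X → X.Opens
  mem : ∀ x, x ∈ U x
  /-- the transition unit -/
  g : ∀ x y, Γ(X, U x ⊓ U y)ˣ
  cocycle : ∀ x y z,
    res (inf_le_left : U x ⊓ U y ⊓ U z ≤ U x ⊓ U y) (g x y) *
      res (le_inf (inf_le_left.trans inf_le_right) inf_le_right :
        U x ⊓ U y ⊓ U z ≤ U y ⊓ U z) (g y z) =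
      res (le_inf (inf_le_left.trans inf_le_left) inf_le_right :
        U x ⊓ U y ⊓ U z ≤ U x ⊓ U z) (g x z)

namespace Cocycle

variable (c c' c'' : Cocycle X)

/-- The cocycle identity on any open contained in the triple intersection. -/
lemma cocycle_on {x y z : X} {W : X.Opens} (hxy : W ≤ c.U x ⊓ c.U y) (hyz : W ≤ c.U y ⊓ c.U z)
    (hxz : W ≤ c.U x ⊓ c.U z) :
    res hxy (c.g x y) * res hyz (c.g y z) = res hxz (c.g x z) := by
  have hW : W ≤ c.U x ⊓ c.U y ⊓ c.U z := le_inf hxy (hyz.trans inf_le_right)
  have := congrArg (res hW) (c.cocycle x y z)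
  simpa only [map_mul, res_res] using this

lemma g_self_on {x : X} {W : X.Opens} (h : W ≤ c.U x ⊓ c.U x) : res h (c.g x x) = 1 := by
  have := c.cocycle_on h h h
  exact mul_eq_left.mp this

lemma g_symm_on {x y : X} {W : X.Opens} (hxy : W ≤ c.U x ⊓ c.U y) (hyx : W ≤ c.U y ⊓ c.U x) :
    res hxy (c.g x y) * res hyx (c.g y x) = 1 := by
  have hxx : W ≤ c.U x ⊓ c.U x := le_inf (hxy.trans inf_le_left) (hxy.trans inf_le_left)
  rw [c.cocycle_on hxy hyx hxx, c.g_self_on]

/-- Two cocycles are equivalent if they differ by a coboundary on a common refinement. -/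
def Rel (c c' : Cocycle X) : Prop :=
  ∃ (V : X → X.Opens) (_ : ∀ x, x ∈ V x) (hc : ∀ x, V x ≤ c.U x) (hc' : ∀ x, V x ≤ c'.U x)
    (h : ∀ x, Γ(X, V x)ˣ), ∀ x y,
      res (inf_le_inf (hc x) (hc y)) (c.g x y) * res (inf_le_right : V x ⊓ V y ≤ V y) (h y) =
        res (inf_le_left : V x ⊓ V y ≤ V x) (h x) * res (inf_le_inf (hc' x) (hc' y)) (c'.g x y)

/-- Criterion: equal after restriction to a common refinement. -/
lemma rel_of_eq_on (V : X → X.Opens) (hV : ∀ x, x ∈ V x) (hc : ∀ x, V x ≤ c.U x)
    (hc' : ∀ x, V x ≤ c'.U x)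
    (h : ∀ x y, res (inf_le_inf (hc x) (hc y)) (c.g x y) =
      res (inf_le_inf (hc' x) (hc' y)) (c'.g x y)) : Rel c c' :=
  ⟨V, hV, hc, hc', fun _ => 1, fun x y => by simp only [map_one, mul_one, one_mul, h x y]⟩

lemma Rel.refl : Rel c c :=
  rel_of_eq_on c c c.U c.mem (fun _ => le_rfl) (fun _ => le_rfl) fun _ _ => rfl

variable {c c' c''}

lemma Rel.symm (h : Rel c c') : Rel c' c := by
  obtain ⟨V, hV, hc, hc', h, H⟩ := h
  refine ⟨V, hV, hc', hc, fun x => (h x)⁻¹, fun x y => ?_⟩
  have := H x y
  simp only [map_inv]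
  rw [mul_inv_eq_iff_eq_mul, mul_assoc, this, ← mul_assoc, inv_mul_cancel, one_mul]

lemma Rel.trans (h₁ : Rel c c') (h₂ : Rel c' c'') : Rel c c'' := by
  obtain ⟨V, hV, hc, hc', h, H⟩ := h₁
  obtain ⟨V', hV', hd', hd'', h', H'⟩ := h₂
  refine ⟨fun x => V x ⊓ V' x, fun x => ⟨hV x, hV' x⟩, fun x => inf_le_left.trans (hc x),
    fun x => inf_le_right.trans (hd'' x),
    fun x => res inf_le_left (h x) * res inf_le_right (h' x), fun x y => ?_⟩
  have e₁ := congrArg (res (inf_le_inf inf_le_left inf_le_left :
    (V x ⊓ V' x) ⊓ (V y ⊓ V' y) ≤ V x ⊓ V y)) (H x y)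
  have e₂ := congrArg (res (inf_le_inf inf_le_right inf_le_right :
    (V x ⊓ V' x) ⊓ (V y ⊓ V' y) ≤ V' x ⊓ V' y)) (H' x y)
  simp only [map_mul, res_res] at e₁ e₂ ⊢
  rw [← mul_assoc, e₁, mul_assoc, e₂, mul_assoc]

end Cocycle

/-- The setoid of cohomologous cocycles. -/
instance cocycleSetoid (X : Scheme.{u}) : Setoid (Cocycle X) where
  r := Cocycle.Rel
  iseqv := ⟨Cocycle.Rel.refl, Cocycle.Rel.symm, Cocycle.Rel.trans⟩

/-- Preimages commute with intersections (as an inequality, to be used in `pull`). -/
lemma inf_preimage_le (f : X ⟶ Y) (U U' : Y.Opens) : f ⁻¹ᵁ U ⊓ f ⁻¹ᵁ U' ≤ f ⁻¹ᵁ (U ⊓ U') :=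
  le_of_eq rfl

namespace Cocycle

/-! ## Operations on cocycles -/

/-- The trivial cocycle. -/
@[reducible] def one (X : Scheme.{u}) : Cocycle X where
  U _ := ⊤
  mem _ := trivial
  g _ _ := 1
  cocycle _ _ _ := by simp only [map_one, mul_one]

/-- The product of two cocycles. -/
@[reducible] def mul (c c' : Cocycle X) : Cocycle X where
  U x := c.U x ⊓ c'.U x
  mem x := ⟨c.mem x, c'.mem x⟩
  g x y := res (inf_le_inf inf_le_left inf_le_left) (c.g x y) *
    res (inf_le_inf inf_le_right inf_le_right) (c'.g x y)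
  cocycle x y z := by
    simp only [map_mul, res_res]
    rw [mul_mul_mul_comm, c.cocycle_on, c'.cocycle_on]

/-- The inverse of a cocycle. -/
@[reducible] def inv (c : Cocycle X) : Cocycle X where
  U := c.U
  mem := c.mem
  g x y := (c.g x y)⁻¹
  cocycle x y z := by
    simp only [map_inv]
    rw [← mul_inv, c.cocycle]

/-- The pull-back of a cocycle. -/
@[reducible] def pullback (f : X ⟶ Y) (c : Cocycle Y) : Cocycle X where
  U x := f ⁻¹ᵁ c.U (f x)
  mem x := c.mem (f x)
  g x y := pull f (inf_preimage_le f _ _) (c.g (f x) (f y))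
  cocycle x y z := by
    have := congrArg (pull f ((inf_preimage_le f _ _).trans' (inf_le_inf_right _
      (inf_preimage_le f _ _)))) (c.cocycle (f x) (f y) (f z))
    simp only [map_mul, pull_res] at this
    rw [res_pull, res_pull, res_pull]
    exact this

variable (c c' : Cocycle X)

lemma res_one_g {x y : X} {W : X.Opens} (h : W ≤ (one X).U x ⊓ (one X).U y) :
    res h ((one X).g x y) = 1 :=
  map_one _

lemma res_mul_g {x y : X} {W : X.Opens} (h : W ≤ (c.mul c').U x ⊓ (c.mul c').U y) :
    res h ((c.mul c').g x y) =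
      res (h.trans (inf_le_inf inf_le_left inf_le_left)) (c.g x y) *
        res (h.trans (inf_le_inf inf_le_right inf_le_right)) (c'.g x y) := by
  rw [map_mul, res_res, res_res]

lemma res_inv_g {x y : X} {W : X.Opens} (h : W ≤ c.inv.U x ⊓ c.inv.U y) :
    res h (c.inv.g x y) = (res (U := c.U x ⊓ c.U y) h (c.g x y))⁻¹ :=
  map_inv _ _

lemma res_pullback_g (f : X ⟶ Y) (d : Cocycle Y) {x y : X} {W : X.Opens}
    (h : W ≤ (d.pullback f).U x ⊓ (d.pullback f).U y) :
    res h ((d.pullback f).g x y) =
      pull f (h.trans (inf_preimage_le f _ _)) (d.g (f x) (f y)) := by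
  rw [res_pull]

variable {c c'}

lemma mul_rel {a a' b b' : Cocycle X} (h₁ : Rel a a') (h₂ : Rel b b') :
    Rel (a.mul b) (a'.mul b') := by
  obtain ⟨V, hV, hc, hc', h, H⟩ := h₁
  obtain ⟨V', hV', hd, hd', h', H'⟩ := h₂
  refine ⟨fun x => V x ⊓ V' x, fun x => ⟨hV x, hV' x⟩, fun x => inf_le_inf (hc x) (hd x),
    fun x => inf_le_inf (hc' x) (hd' x),
    fun x => res inf_le_left (h x) * res inf_le_right (h' x), fun x y => ?_⟩
  have e₁ := congrArg (res (inf_le_inf inf_le_left inf_le_left :
    (V x ⊓ V' x) ⊓ (V y ⊓ V' y) ≤ V x ⊓ V y)) (H x y)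
  have e₂ := congrArg (res (inf_le_inf inf_le_right inf_le_right :
    (V x ⊓ V' x) ⊓ (V y ⊓ V' y) ≤ V' x ⊓ V' y)) (H' x y)
  simp only [map_mul, res_res] at e₁ e₂
  rw [res_mul_g, res_mul_g]
  simp only [map_mul, res_res]
  rw [mul_mul_mul_comm, e₁, e₂, mul_mul_mul_comm]

lemma inv_rel {a a' : Cocycle X} (h₁ : Rel a a') : Rel a.inv a'.inv := by
  obtain ⟨V, hV, hc, hc', h, H⟩ := h₁
  refine ⟨V, hV, hc, hc', fun x => (h x)⁻¹, fun x y => ?_⟩
  rw [res_inv_g, res_inv_g]
  simp only [map_inv]
  rw [← mul_inv, ← mul_inv, H x y]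

lemma pullback_rel (f : X ⟶ Y) {a a' : Cocycle Y} (h₁ : Rel a a') :
    Rel (a.pullback f) (a'.pullback f) := by
  obtain ⟨V, hV, hc, hc', h, H⟩ := h₁
  refine ⟨fun x => f ⁻¹ᵁ V (f x), fun x => hV (f x), fun x => f.preimage_mono (hc (f x)),
    fun x => f.preimage_mono (hc' (f x)), fun x => pull f le_rfl (h (f x)), fun x y => ?_⟩
  have := congrArg (pull f (inf_preimage_le f (V (f x)) (V (f y)))) (H (f x) (f y))
  simp only [map_mul, pull_res] at this
  rw [res_pullback_g, res_pullback_g]
  simp only [res_pull]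
  exact this

/-! ### The group axioms up to equivalence -/

lemma mul_assoc_rel (a b d : Cocycle X) : Rel ((a.mul b).mul d) (a.mul (b.mul d)) := by
  refine rel_of_eq_on _ _ (fun x => a.U x ⊓ b.U x ⊓ d.U x) (fun x => ⟨⟨a.mem x, b.mem x⟩, d.mem x⟩)
    (fun x => le_rfl) (fun x => le_of_eq (inf_assoc _ _ _)) fun x y => ?_
  simp only [map_mul, res_res, mul_assoc]

lemma mul_comm_rel (a b : Cocycle X) : Rel (a.mul b) (b.mul a) := by
  refine rel_of_eq_on _ _ (fun x => a.U x ⊓ b.U x) (fun x => ⟨a.mem x, b.mem x⟩)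
    (fun x => le_rfl) (fun x => le_of_eq (inf_comm _ _)) fun x y => ?_
  simp only [map_mul, res_res]
  exact mul_comm _ _

lemma one_mul_rel (a : Cocycle X) : Rel ((one X).mul a) a := by
  refine rel_of_eq_on _ _ a.U a.mem (fun x => le_inf le_top le_rfl) (fun x => le_rfl)
    fun x y => ?_
  simp only [map_one, res_res, one_mul]

lemma inv_mul_rel (a : Cocycle X) : Rel (a.inv.mul a) (one X) := by
  refine rel_of_eq_on _ _ a.U a.mem (fun x => le_inf le_rfl le_rfl) (fun x => le_top)
    fun x y => ?_
  simp only [map_one, map_inv, inv_mul_cancel]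

/-! ### Functoriality up to equivalence -/

lemma pullback_one_rel (f : X ⟶ Y) : Rel ((one Y).pullback f) (one X) := by
  refine rel_of_eq_on _ _ (fun _ => ⊤) (fun _ => trivial) (fun x => le_rfl) (fun x => le_rfl)
    fun x y => ?_
  simp only [map_one]

lemma pullback_mul_rel (f : X ⟶ Y) (a b : Cocycle Y) :
    Rel ((a.mul b).pullback f) ((a.pullback f).mul (b.pullback f)) := by
  refine rel_of_eq_on _ _ (fun x => f ⁻¹ᵁ (a.U (f x) ⊓ b.U (f x)))
    (fun x => ⟨a.mem (f x), b.mem (f x)⟩) (fun x => le_rfl) (fun x => le_of_eq rfl)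
    fun x y => ?_
  simp only [map_mul, res_pull, pull_res]

lemma pullback_id_rel (a : Cocycle X) : Rel (a.pullback (𝟙 X)) a := by
  refine rel_of_eq_on _ _ a.U a.mem (fun x => le_rfl) (fun x => le_rfl) fun x y => ?_
  rw [res_pull, pull_id]
  rfl

lemma pullback_comp_rel (f : X ⟶ Y) (g : Y ⟶ Z) (a : Cocycle Z) :
    Rel (a.pullback (f ≫ g)) ((a.pullback g).pullback f) := by
  refine rel_of_eq_on _ _ (fun x => (f ≫ g) ⁻¹ᵁ a.U ((f ≫ g) x)) (fun x => a.mem _)
    (fun x => le_rfl) (fun x => le_of_eq rfl) fun x y => ?_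
  simp only [res_pull, pull_pull]
  rfl

end Cocycle

/-! ## The Picard group -/

/-- The Picard group of a scheme, as Čech cohomology classes of cocycles indexed by points. -/
def PicGrp (X : Scheme.{u}) : Type u := Quotient (cocycleSetoid X)

namespace PicGrp

/-- The class of a cocycle. -/
def mk (c : Cocycle X) : PicGrp X := Quotient.mk _ c

lemma mk_eq_mk {c c' : Cocycle X} : mk c = mk c' ↔ Cocycle.Rel c c' :=
  Quotient.eq (r := cocycleSetoid X)

lemma mk_surjective : Function.Surjective (mk : Cocycle X → PicGrp X) :=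
  Quotient.mk_surjective

instance instCommGroup (X : Scheme.{u}) : CommGroup (PicGrp X) where
  mul := Quotient.map₂ Cocycle.mul fun _ _ h₁ _ _ h₂ => Cocycle.mul_rel h₁ h₂
  one := mk (Cocycle.one X)
  inv := Quotient.map Cocycle.inv fun _ _ h => Cocycle.inv_rel h
  mul_assoc := by
    rintro ⟨a⟩ ⟨b⟩ ⟨d⟩
    exact Quotient.sound (Cocycle.mul_assoc_rel a b d)
  one_mul := by
    rintro ⟨a⟩
    exact Quotient.sound (Cocycle.one_mul_rel a)
  mul_one := by
    rintro ⟨a⟩
    exact Quotient.sound ((Cocycle.mul_comm_rel a (Cocycle.one X)).trans (Cocycle.one_mul_rel a))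
  inv_mul_cancel := by
    rintro ⟨a⟩
    exact Quotient.sound (Cocycle.inv_mul_rel a)
  mul_comm := by
    rintro ⟨a⟩ ⟨b⟩
    exact Quotient.sound (Cocycle.mul_comm_rel a b)

lemma mk_mul (c c' : Cocycle X) : mk (c.mul c') = mk c * mk c' := rfl

lemma mk_one : mk (Cocycle.one X) = 1 := rfl

lemma mk_inv (c : Cocycle X) : mk c.inv = (mk c)⁻¹ := rfl

/-- Pull-back of Picard classes. -/
def map (f : X ⟶ Y) : PicGrp Y →* PicGrp X where
  toFun := Quotient.map (Cocycle.pullback f) fun _ _ h => Cocycle.pullback_rel f h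
  map_one' := Quotient.sound (Cocycle.pullback_one_rel f)
  map_mul' := by
    rintro ⟨a⟩ ⟨b⟩
    exact Quotient.sound (Cocycle.pullback_mul_rel f a b)

lemma map_mk (f : X ⟶ Y) (c : Cocycle Y) : map f (mk c) = mk (c.pullback f) := rfl

lemma map_id (a : PicGrp X) : map (𝟙 X) a = a := by
  obtain ⟨a, rfl⟩ := mk_surjective a
  exact Quotient.sound (Cocycle.pullback_id_rel a)

lemma map_comp (f : X ⟶ Y) (g : Y ⟶ Z) (a : PicGrp Z) :
    map (f ≫ g) a = map f (map g a) := by
  obtain ⟨a, rfl⟩ := mk_surjective a
  exact Quotient.sound (Cocycle.pullback_comp_rel f g a)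

end PicGrp

end

end Fermat.Agent.S26.Pic

end
-- ===== PACK-END S26/Pic/Defs.lean

-- ===== PACK-BEGIN S26/H507/DedekindSmooth.lean
section
/-
Row S26, block CUBE, leaf C4b / **T2** (helper507): regular ⇒ smooth for curves.

A Dedekind domain `R`, not a field, of finite type over an algebraically closed field `K` is
locally standard smooth of relative dimension one over `K`.

Route (Mathlib only): for a maximal ideal `m` choose `t ∈ m ∖ m²`; `K[X] → R`, `X ↦ t` is
injective (so `R` is flat over the PID `K[X]`), of finite presentation, and unramified at `m`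
(`κ(m) = K`, `t R_m = m R_m`); hence étale on a basic open neighbourhood `D(f)` of `m`, i.e.
standard smooth of relative dimension `0` over `K[X]`, which is standard smooth of relative
dimension `1` over `K`.

The statement `locally_isStandardSmooth_of_isDedekindDomain` is EXACTLY leaf T2 of
`origin/helper27:Fermat/Agent/S26/H27/C4bSpec.lean`.
-/


set_option autoImplicit false
universe u

open Polynomial

namespace Fermat.Agent.S26.H507

/-! ## The polynomial ring is standard smooth of relative dimension one -/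

theorem isStandardSmoothOfRelativeDimension_mvPolynomial_unit (K : Type u) [CommRing K]
    [Nontrivial K] :
    Algebra.IsStandardSmoothOfRelativeDimension 1 K (MvPolynomial Unit K) := by
  have : Algebra.IsStandardSmooth K (MvPolynomial Unit K) :=
    Algebra.IsStandardSmooth.of_basis_kaehlerDifferential
      (KaehlerDifferential.mvPolynomialBasis K Unit) (by
        rintro _ ⟨i, rfl⟩
        exact ⟨MvPolynomial.X i, (KaehlerDifferential.mvPolynomialBasis_apply K Unit i).symm⟩)
  rw [Algebra.IsStandardSmoothOfRelativeDimension.iff_of_isStandardSmooth]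
  rw [rank_eq_card_basis (KaehlerDifferential.mvPolynomialBasis K Unit)]
  simp

theorem isStandardSmoothOfRelativeDimension_polynomial (K : Type u) [CommRing K]
    [Nontrivial K] :
    Algebra.IsStandardSmoothOfRelativeDimension 1 K K[X] := by
  have := isStandardSmoothOfRelativeDimension_mvPolynomial_unit K
  exact Algebra.IsStandardSmoothOfRelativeDimension.of_algEquiv 1
    (MvPolynomial.uniqueAlgEquiv K Unit)

/-! ## Closed points of a finite type algebra over an algebraically closed field -/

section Nullstellensatz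

variable (K : Type u) [Field K] [IsAlgClosed K] (R : Type u) [CommRing R] [Algebra K R]
  [Algebra.FiniteType K R]

/-- Nullstellensatz: the residue field at a maximal ideal is `K`. -/
theorem bijective_algebraMap_quotient_of_isMaximal (m : Ideal R) [m.IsMaximal] :
    Function.Bijective (algebraMap K (R ⧸ m)) := by
  letI : Field (R ⧸ m) := Ideal.Quotient.field m
  have : Algebra.FiniteType K (R ⧸ m) :=
    Algebra.FiniteType.of_surjective (Ideal.Quotient.mkₐ K m) (Ideal.Quotient.mkₐ_surjective K m)
  have : Module.Finite K (R ⧸ m) := finite_of_finite_type_of_isJacobsonRing K (R ⧸ m)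
  exact IsAlgClosed.algebraMap_bijective_of_isIntegral

end Nullstellensatz

/-! ## Uniformisers in a Dedekind domain -/

section Dedekind

variable {R : Type u} [CommRing R] [IsDedekindDomain R]

theorem exists_mem_not_mem_sq (m : Ideal R) [m.IsMaximal] (h0 : m ≠ ⊥) :
    ∃ t ∈ m, t ∉ m ^ 2 := by
  have h := Ideal.pow_succ_lt_pow (P := m) h0 1
  obtain ⟨t, ht, ht'⟩ := SetLike.exists_of_lt h
  exact ⟨t, by simpa using ht, by simpa using ht'⟩

/-- `t ∈ m ∖ m²` generates `m` locally at `m`. -/
theorem exists_mul_eq_mul_of_mem (m : Ideal R) [m.IsMaximal] {t : R} (ht : t ∈ m)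
    (ht2 : t ∉ m ^ 2) : ∃ s, s ∉ m ∧ ∀ a ∈ m, ∃ b, s * a = t * b := by
  have hle : Ideal.span {t} ≤ m := (Ideal.span_singleton_le_iff_mem m).2 ht
  obtain ⟨J, hJ⟩ := Ideal.dvd_iff_le.2 hle
  have hJm : ¬ J ≤ m := by
    intro hJm
    apply ht2
    have : Ideal.span {t} ≤ m ^ 2 := by
      rw [hJ, pow_two]
      exact Ideal.mul_mono_right hJm
    exact this (Ideal.mem_span_singleton_self t)
  obtain ⟨s, hsJ, hsm⟩ := SetLike.not_le_iff_exists.1 hJm
  refine ⟨s, hsm, fun a ha => ?_⟩
  have : a * s ∈ Ideal.span {t} := by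
    rw [hJ]
    exact Ideal.mul_mem_mul ha hsJ
  obtain ⟨b, hb⟩ := Ideal.mem_span_singleton'.1 this
  exact ⟨b, by rw [mul_comm s a, ← hb, mul_comm]⟩

end Dedekind

/-! ## The coordinate `t : Spec R → 𝔸¹` is unramified at `m` -/

section Unramified

variable (K : Type u) [Field K] [IsAlgClosed K] (R : Type u) [CommRing R] [Algebra K R]
  [Algebra.FiniteType K R] [IsDedekindDomain R] [Algebra K[X] R] [IsScalarTower K K[X] R]

attribute [local instance] Ideal.Quotient.field in
theorem isUnramifiedAt_of_uniformizer (m : Ideal R) [m.IsMaximal]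
    (ht : algebraMap K[X] R X ∈ m) (ht2 : algebraMap K[X] R X ∉ m ^ 2) :
    Algebra.IsUnramifiedAt K[X] m := by
  set p : Ideal K[X] := m.under K[X] with hp
  have : m.LiesOver p := ⟨rfl⟩
  have hbij := bijective_algebraMap_quotient_of_isMaximal K R m
  have hpmax : p.IsMaximal := by
    have hsurj : Function.Surjective ((Ideal.Quotient.mk m).comp (algebraMap K[X] R)) := by
      intro y
      obtain ⟨c, rfl⟩ := hbij.2 y
      refine ⟨C c, ?_⟩
      simp only [RingHom.coe_comp, Function.comp_apply]
      rw [← Polynomial.algebraMap_eq, ← IsScalarTower.algebraMap_apply K K[X] R]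
      rfl
    have : p = RingHom.ker ((Ideal.Quotient.mk m).comp (algebraMap K[X] R)) := by
      ext x
      rw [RingHom.mem_ker, RingHom.comp_apply, Ideal.Quotient.eq_zero_iff_mem]
      rfl
    rw [this]
    exact RingHom.ker_isMaximal_of_surjective _ hsurj
  letI := Localization.AtPrime.algebraOfLiesOver p m
  have : Algebra.FiniteType K[X] R := .of_restrictScalars_finiteType K K[X] R
  rw [Algebra.isUnramifiedAt_iff_map_eq K[X] p m]
  refine ⟨?_, ?_⟩
  · have : Algebra.FiniteType K (R ⧸ m) :=
      Algebra.FiniteType.of_surjective (Ideal.Quotient.mkₐ K m) (Ideal.Quotient.mkₐ_surjective K m)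
    have : Module.Finite K (R ⧸ m) := finite_of_finite_type_of_isJacobsonRing K (R ⧸ m)
    have : Algebra.IsSeparable K (R ⧸ m) := Algebra.IsAlgebraic.isSeparable_of_perfectField
    have : Algebra.IsSeparable (K[X] ⧸ p) (R ⧸ m) :=
      Algebra.isSeparable_tower_top_of_isSeparable K (K[X] ⧸ p) (R ⧸ m)
    infer_instance
  · obtain ⟨s, hs, hsa⟩ := exists_mul_eq_mul_of_mem m ht ht2
    have hXp : (X : K[X]) ∈ p := ht
    apply le_antisymm
    · rw [IsScalarTower.algebraMap_eq K[X] R (Localization.AtPrime m), ← Ideal.map_map,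
        ← Localization.AtPrime.map_eq_maximalIdeal]
      exact Ideal.map_mono (Ideal.map_le_iff_le_comap.2 le_rfl)
    · rw [← Localization.AtPrime.map_eq_maximalIdeal, Ideal.map_le_iff_le_comap]
      intro a ha
      obtain ⟨b, hb⟩ := hsa a ha
      rw [Ideal.mem_comap]
      have hu : IsUnit (algebraMap R (Localization.AtPrime m) s) :=
        IsLocalization.map_units (M := m.primeCompl) _ ⟨s, hs⟩
      have h1 : algebraMap R (Localization.AtPrime m) a =
          (hu.unit⁻¹ : (Localization.AtPrime m)ˣ) * algebraMap R (Localization.AtPrime m) b *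
            algebraMap K[X] (Localization.AtPrime m) X := by
        rw [IsScalarTower.algebraMap_apply K[X] R (Localization.AtPrime m), mul_assoc,
          ← map_mul, mul_comm b, ← hb, map_mul, ← mul_assoc]
        simp
      rw [h1]
      exact Ideal.mul_mem_left _ _ (Ideal.mem_map_of_mem _ hXp)

end Unramified

/-! ## Main theorem -/

section Main

variable (K : Type u) [Field K] [IsAlgClosed K] (R : Type u) [CommRing R] [Algebra K R]
  [Algebra.FiniteType K R] [IsDedekindDomain R]

/-- An element of a domain over an algebraically closed field which is algebraic over the field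
is a constant. -/
theorem mem_range_algebraMap_of_isAlgebraic {t : R} (h : IsAlgebraic K t) :
    t ∈ (algebraMap K R).range := by
  have hint : IsIntegral K t := h.isIntegral
  exact minpoly.mem_range_of_degree_eq_one K t
    (IsAlgClosed.degree_eq_one_of_irreducible K (minpoly.irreducible hint))

/-- A non-unit `t ∉ m²` is transcendental over `K`. -/
theorem transcendental_of_mem_of_not_mem_sq (m : Ideal R) [hm : m.IsMaximal] {t : R}
    (ht : t ∈ m) (ht2 : t ∉ m ^ 2) : Transcendental K t := by
  intro halg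
  obtain ⟨c, rfl⟩ := mem_range_algebraMap_of_isAlgebraic K R halg
  by_cases hc : c = 0
  · subst hc
    exact ht2 (by simp)
  · have hu : IsUnit (algebraMap K R c) := (IsUnit.mk0 c hc).map (algebraMap K R)
    exact hm.ne_top (Ideal.eq_top_of_isUnit_mem m ht hu)

/-- Local form of T2: every maximal ideal has a basic open neighbourhood which is standard
smooth of relative dimension one over `K`. -/
theorem exists_notMem_isStandardSmoothOfRelativeDimension_one (hR : ¬ IsField R)
    (m : Ideal R) [hm : m.IsMaximal] :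
    ∃ f : R, f ∉ m ∧ Algebra.IsStandardSmoothOfRelativeDimension 1 K (Localization.Away f) := by
  have h0 : m ≠ ⊥ := by
    rintro rfl
    exact hR (Ring.isField_iff_maximal_bot.2 hm)
  obtain ⟨t, ht, ht2⟩ := exists_mem_not_mem_sq m h0
  letI alg : Algebra K[X] R := (Polynomial.aeval t).toRingHom.toAlgebra
  have hX : algebraMap K[X] R X = t := by
    change (Polynomial.aeval t).toRingHom X = t
    simp
  have : IsScalarTower K K[X] R := IsScalarTower.of_algebraMap_eq fun c => by
    change algebraMap K R c = (Polynomial.aeval t).toRingHom (algebraMap K K[X] c)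
    simp
  have hinj : Function.Injective (algebraMap K[X] R) :=
    transcendental_iff_injective.1 (transcendental_of_mem_of_not_mem_sq K R m ht ht2)
  have : Module.IsTorsionFree K[X] R := Module.isTorsionFree_iff_algebraMap_injective.mpr hinj
  have hflat : Module.Flat K[X] R := inferInstance
  have hft : Algebra.FiniteType K[X] R := .of_restrictScalars_finiteType K K[X] R
  have hfp : Algebra.FinitePresentation K[X] R := Algebra.FinitePresentation.of_finiteType.1 hft
  have hunr : Algebra.IsUnramifiedAt K[X] m :=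
    isUnramifiedAt_of_uniformizer K R m (hX ▸ ht) (hX ▸ ht2)
  obtain ⟨f, hf, hfu⟩ := Algebra.exists_formallyUnramified_of_isUnramifiedAt (R := K[X]) m
  refine ⟨f, hf, ?_⟩
  have : Algebra.FinitePresentation R (Localization.Away f) :=
    IsLocalization.Away.finitePresentation f
  have : Algebra.FinitePresentation K[X] (Localization.Away f) :=
    Algebra.FinitePresentation.trans K[X] R (Localization.Away f)
  have : Module.Flat R (Localization.Away f) := IsLocalization.flat _ (Submonoid.powers f)
  have : Module.Flat K[X] (Localization.Away f) := Module.Flat.trans K[X] R (Localization.Away f)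
  have het : Algebra.Etale K[X] (Localization.Away f) := Algebra.Etale.of_formallyUnramified_of_flat
  have h0' : Algebra.IsStandardSmoothOfRelativeDimension 0 K[X] (Localization.Away f) :=
    Algebra.Etale.iff_isStandardSmoothOfRelativeDimension_zero.1 het
  have h1 : Algebra.IsStandardSmoothOfRelativeDimension 1 K K[X] :=
    isStandardSmoothOfRelativeDimension_polynomial K
  have := Algebra.IsStandardSmoothOfRelativeDimension.trans 1 0 K K[X] (Localization.Away f)
  simpa using this

/-- **T2** (regular ⇒ smooth for curves): a Dedekind domain, not a field, of finite type over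
an algebraically closed field is smooth of relative dimension one. -/
theorem locally_isStandardSmooth_of_isDedekindDomain (K : Type u) [Field K] [IsAlgClosed K]
    (R : Type u) [CommRing R] [Algebra K R] [Algebra.FiniteType K R] [IsDedekindDomain R]
    (hR : ¬ IsField R) :
    RingHom.Locally (RingHom.IsStandardSmoothOfRelativeDimension 1) (algebraMap K R) := by
  refine ⟨{f : R | Algebra.IsStandardSmoothOfRelativeDimension 1 K (Localization.Away f)}, ?_, ?_⟩
  · by_contra hne
    obtain ⟨m, hm, hle⟩ := Ideal.exists_le_maximal _ hne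
    obtain ⟨f, hf, hsm⟩ := exists_notMem_isStandardSmoothOfRelativeDimension_one K R hR m
    exact hf (hle (Ideal.subset_span hsm))
  · intro f hf
    rw [← IsScalarTower.algebraMap_eq K R (Localization.Away f)]
    exact (RingHom.isStandardSmoothOfRelativeDimension_algebraMap 1).2 hf

end Main

end Fermat.Agent.S26.H507

end
-- ===== PACK-END S26/H507/DedekindSmooth.lean

-- ===== PACK-BEGIN S26/H626/FormalChart.lean
section


/-!
# S26, block AMPLE, leaf UFD, part U2 (helper626): the formal (Taylor) chart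

Let `R` be a noetherian local `K`-algebra, formally smooth over the field `K`, with residue
field `K`.  Then there is a `K`-algebra homomorphism `τ : R → K⟦x₁,…,x_g⟧`
(`g = dim 𝔪/𝔪²`) with `τ⁻¹ ((x)ⁿ) = 𝔪ⁿ` for all `n` and with dense image.
-/

set_option autoImplicit false
set_option linter.style.haveILetI false

universe u

open IsLocalRing

namespace Fermat.Agent.S26.H626

/-! ## Part A: adic completeness for `I ^ 2` -/

theorem isAdicComplete_sq {S : Type*} [CommRing S] (I : Ideal S) [hI : IsAdicComplete I S] :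
    IsAdicComplete (I ^ 2) S := by
  have hle : ∀ n, ((I ^ 2) ^ n • ⊤ : Submodule S S) ≤ (I ^ n • ⊤ : Submodule S S) := by
    intro n
    rw [← pow_mul]
    exact Submodule.smul_mono_left (Ideal.pow_le_pow_right (by omega))
  have hH : IsHausdorff (I ^ 2) S :=
    ⟨fun x hx => hI.toIsHausdorff.haus x fun n => (hx n).mono (hle n)⟩
  have hP : IsPrecomplete (I ^ 2) S := by
    refine ⟨fun f hf => ?_⟩
    obtain ⟨L, hL⟩ := hI.toIsPrecomplete.prec (f := f) (fun {m n} hmn => (hf hmn).mono (hle m))
    refine ⟨L, fun n => ?_⟩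
    have h1 : f n ≡ f (2 * n) [SMOD ((I ^ 2) ^ n • ⊤ : Submodule S S)] := hf (by omega)
    have h2 : f (2 * n) ≡ L [SMOD ((I ^ 2) ^ n • ⊤ : Submodule S S)] := by
      have := hL (2 * n)
      rwa [← pow_mul]
    exact h1.trans h2
  exact { toIsHausdorff := hH, toIsPrecomplete := hP }

/-! ## Part B: powers of the ideal of variables in a power series ring -/

section Vars

variable (σ : Type*) [Finite σ] (A : Type*) [CommRing A]

/-- The ideal of `A⟦x⟧` generated by the variables. -/
noncomputable abbrev varsIdeal : Ideal (MvPowerSeries σ A) :=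
  Ideal.span (Set.range (MvPowerSeries.X : σ → MvPowerSeries σ A))

variable {σ A}

omit [Finite σ] in
theorem coe_mem_varsIdeal_pow {n : ℕ} {p : MvPolynomial σ A}
    (hp : p ∈ MvPolynomial.idealOfVars σ A ^ n) :
    (p : MvPowerSeries σ A) ∈ varsIdeal σ A ^ n := by
  have h1 : Ideal.map (MvPolynomial.coeToMvPowerSeries.ringHom (σ := σ) (R := A))
      (MvPolynomial.idealOfVars σ A) = varsIdeal σ A := by
    rw [MvPolynomial.idealOfVars, Ideal.map_span, ← Set.range_comp]
    congr 2
    ext i
    simp
  have h2 := Ideal.mem_map_of_mem (MvPolynomial.coeToMvPowerSeries.ringHom (σ := σ) (R := A)) hp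
  rw [Ideal.map_pow, h1] at h2
  exact h2

theorem mem_varsIdeal_pow_iff (n : ℕ) (f : MvPowerSeries σ A) :
    f ∈ varsIdeal σ A ^ n ↔ ∀ d : σ →₀ ℕ, d.degree < n → MvPowerSeries.coeff d f = 0 := by
  have key : (∀ d : σ →₀ ℕ, d.degree < n → MvPowerSeries.coeff d f = 0) ↔
      MvPowerSeries.truncTotalAlgHom σ A n f = 0 := by
    rw [MvPowerSeries.truncTotalAlgHom_apply, Ideal.Quotient.eq_zero_iff_mem,
      MvPolynomial.mem_pow_idealOfVars_iff']
    refine forall_congr' fun d => forall_congr' fun hd => ?_
    rw [MvPowerSeries.coeff_truncTotal _ hd]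
  rw [key]
  constructor
  · intro hf
    have h1 : Ideal.map (MvPowerSeries.truncTotalAlgHom σ A n).toRingHom (varsIdeal σ A) ≤
        Ideal.map (Ideal.Quotient.mk (MvPolynomial.idealOfVars σ A ^ n))
          (MvPolynomial.idealOfVars σ A) := by
      rw [Ideal.map_span, Ideal.span_le]
      rintro _ ⟨_, ⟨i, rfl⟩, rfl⟩
      have : (MvPowerSeries.truncTotalAlgHom σ A n).toRingHom (MvPowerSeries.X i) =
          Ideal.Quotient.mk (MvPolynomial.idealOfVars σ A ^ n) (MvPolynomial.X i) := by
        rw [← MvPolynomial.coe_X]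
        exact (MvPowerSeries.truncTotalAlgHom σ A n).commutes (MvPolynomial.X i)
      rw [this]
      exact Ideal.mem_map_of_mem _ (Ideal.subset_span ⟨i, rfl⟩)
    have h2 := Ideal.mem_map_of_mem (MvPowerSeries.truncTotalAlgHom σ A n).toRingHom hf
    rw [Ideal.map_pow] at h2
    have h3 := Ideal.pow_right_mono h1 n h2
    rw [← Ideal.map_pow, Ideal.map_quotient_self] at h3
    simpa using h3
  · intro hf
    -- through the adic completion
    set e := MvPowerSeries.toAdicCompletionAlgEquiv σ A with he
    have h1 : e f ∈ (AdicCompletion.eval (MvPolynomial.idealOfVars σ A) (MvPolynomial σ A) n).ker := by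
      rw [LinearMap.mem_ker]
      have : (AdicCompletion.eval (MvPolynomial.idealOfVars σ A) (MvPolynomial σ A) n) (e f) =
          (MvPowerSeries.toAdicCompletion σ A f).val n := rfl
      rw [this, MvPowerSeries.toAdicCompletion_apply_eq_mk_truncTotal]
      have h0 := hf
      rw [MvPowerSeries.truncTotalAlgHom_apply] at h0
      rw [Ideal.Quotient.eq_zero_iff_mem] at h0 ⊢
      simpa [smul_eq_mul, Ideal.mul_top] using h0
    rw [← AdicCompletion.pow_smul_top_eq_ker_eval (MvPolynomial.idealOfVars_fg σ A)] at h1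
    let N : Submodule (MvPolynomial σ A) (MvPowerSeries σ A) :=
      (varsIdeal σ A ^ n).restrictScalars (MvPolynomial σ A)
    have h2 : Submodule.map e.symm.toLinearMap
        (MvPolynomial.idealOfVars σ A ^ n • ⊤ :
          Submodule (MvPolynomial σ A) (AdicCompletion (MvPolynomial.idealOfVars σ A)
            (MvPolynomial σ A))) ≤ N := by
      rw [Submodule.map_smul'', Submodule.smul_le]
      intro p hp y _
      change p • y ∈ varsIdeal σ A ^ n
      rw [Algebra.smul_def]
      exact Ideal.mul_mem_right _ _ (coe_mem_varsIdeal_pow hp)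
    have h3 := h2 (Submodule.mem_map_of_mem h1)
    simpa [N] using h3

end Vars


section Jet

variable {K : Type u} [Field K] {R : Type u} [CommRing R] [Algebra K R] [IsLocalRing R]

/-- The residue map `R → K` of a local `K`-algebra with residue field `K`. -/
noncomputable def resK (hres : Function.Bijective (algebraMap K (ResidueField R))) : R →ₐ[K] K :=
  ((AlgEquiv.ofBijective (Algebra.ofId K (ResidueField R)) hres).symm : ResidueField R →ₐ[K] K).comp
    (IsScalarTower.toAlgHom K R (ResidueField R))

variable (hres : Function.Bijective (algebraMap K (ResidueField R)))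

theorem algebraMap_resK (r : R) :
    algebraMap K (ResidueField R) (resK hres r) = residue R r := by
  have := (AlgEquiv.ofBijective (Algebra.ofId K (ResidueField R)) hres).apply_symm_apply
    (residue R r)
  exact this

theorem resK_eq_zero_iff (r : R) : resK hres r = 0 ↔ r ∈ maximalIdeal R := by
  rw [← residue_eq_zero_iff, ← algebraMap_resK hres]
  exact (map_eq_zero_iff _ hres.1).symm

theorem sub_resK_mem (r : R) : r - algebraMap K R (resK hres r) ∈ maximalIdeal R := by
  rw [← resK_eq_zero_iff hres, map_sub, AlgHom.commutes]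
  simp

/-- The class of `r - r(0)` in the cotangent space. -/
noncomputable def cotClass (r : R) : CotangentSpace R :=
  (maximalIdeal R).toCotangent ⟨r - algebraMap K R (resK hres r), sub_resK_mem hres r⟩

theorem cotClass_add (r s : R) : cotClass hres (r + s) = cotClass hres r + cotClass hres s := by
  unfold cotClass
  rw [← map_add]
  congr 1
  ext
  simp only [map_add, Submodule.coe_add]
  ring

theorem cotClass_algebraMap (a : K) : cotClass hres (algebraMap K R a) = 0 := by
  unfold cotClass
  rw [Ideal.toCotangent_eq_zero]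
  simp

theorem cotClass_of_mem {r : R} (hr : r ∈ maximalIdeal R) :
    cotClass hres r = (maximalIdeal R).toCotangent ⟨r, hr⟩ := by
  unfold cotClass
  congr 1
  ext
  simp [(resK_eq_zero_iff hres r).2 hr]

theorem cotClass_mul (r s : R) :
    cotClass hres (r * s) = r • cotClass hres s + s • cotClass hres r := by
  unfold cotClass
  rw [← map_smul, ← map_smul, ← map_add, Ideal.toCotangent_eq]
  simp only [map_mul, Submodule.coe_add, Submodule.coe_smul, smul_eq_mul]
  have h : r * s - algebraMap K R (resK hres r) * algebraMap K R (resK hres s) -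
      (r * (s - algebraMap K R (resK hres s)) + s * (r - algebraMap K R (resK hres r))) =
      -((r - algebraMap K R (resK hres r)) * (s - algebraMap K R (resK hres s))) := by ring
  rw [h, pow_two]
  exact neg_mem (Ideal.mul_mem_mul (sub_resK_mem hres r) (sub_resK_mem hres s))

/-- Local coordinates: elements of the maximal ideal inducing a basis of the cotangent space. -/
structure Coords (R : Type u) [CommRing R] [IsLocalRing R] (g : ℕ) where
  /-- the basis of the cotangent space -/
  b : Module.Basis (Fin g) (ResidueField R) (CotangentSpace R)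
  /-- the coordinates -/
  t : Fin g → R
  mem : ∀ i, t i ∈ maximalIdeal R
  spec : ∀ i, (maximalIdeal R).toCotangent ⟨t i, mem i⟩ = b i

theorem nonempty_coords (R : Type u) [CommRing R] [IsLocalRing R] [IsNoetherianRing R] :
    Nonempty (Coords R (Module.finrank (ResidueField R) (CotangentSpace R))) := by
  let b := Module.finBasis (ResidueField R) (CotangentSpace R)
  choose t ht using fun i => (maximalIdeal R).toCotangent_surjective (b i)
  exact ⟨⟨b, fun i => (t i : R), fun i => (t i).2, fun i => ht i⟩⟩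

variable {g : ℕ} (c : Coords R g)

/-- The coordinates of the first order part of `r`. -/
noncomputable def coordK (r : R) (i : Fin g) : K :=
  (AlgEquiv.ofBijective (Algebra.ofId K (ResidueField R)) hres).symm
    (c.b.repr (cotClass hres r) i)

theorem coordK_add (r s : R) (i : Fin g) :
    coordK hres c (r + s) i = coordK hres c r i + coordK hres c s i := by
  simp [coordK, cotClass_add]

theorem coordK_algebraMap (a : K) (i : Fin g) : coordK hres c (algebraMap K R a) i = 0 := by
  simp [coordK, cotClass_algebraMap]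

theorem coordK_mul (r s : R) (i : Fin g) :
    coordK hres c (r * s) i =
      resK hres r * coordK hres c s i + resK hres s * coordK hres c r i := by
  have h1 : ∀ (a : R) (v : CotangentSpace R), a • v = residue R a • v := fun a v =>
    (IsScalarTower.algebraMap_smul (ResidueField R) a v).symm
  simp only [coordK, cotClass_mul, h1, map_add, map_smul, Finsupp.coe_add, Pi.add_apply,
    Finsupp.coe_smul, Pi.smul_apply, smul_eq_mul, map_mul]
  rfl

theorem coordK_t (i j : Fin g) : coordK hres c (c.t j) i = if i = j then 1 else 0 := by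
  simp only [coordK, cotClass_of_mem hres (c.mem j), c.spec, Module.Basis.repr_self,
    Finsupp.single_apply]
  split_ifs with h1 h2 h2
  · simp
  · exact absurd h1.symm h2
  · exact absurd h2.symm h1
  · simp

/-- The `1`-jet of `r` as a power series. -/
noncomputable def jetFun (r : R) : MvPowerSeries (Fin g) K :=
  MvPowerSeries.C (resK hres r) + ∑ i, MvPowerSeries.C (coordK hres c r i) * MvPowerSeries.X i

theorem jetFun_t (j : Fin g) : jetFun hres c (c.t j) = MvPowerSeries.X j := by
  simp [jetFun, coordK_t, (resK_eq_zero_iff hres _).2 (c.mem j)]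

theorem jetFun_sub_C_mem (r : R) :
    jetFun hres c r - MvPowerSeries.C (resK hres r) ∈ varsIdeal (Fin g) K := by
  simp only [jetFun, add_sub_cancel_left]
  exact Ideal.sum_mem _ fun i _ => Ideal.mul_mem_left _ _ (Ideal.subset_span ⟨i, rfl⟩)

theorem jetFun_mul (r s : R) :
    jetFun hres c (r * s) - jetFun hres c r * jetFun hres c s ∈ varsIdeal (Fin g) K ^ 2 := by
  have h : jetFun hres c (r * s) - jetFun hres c r * jetFun hres c s =
      -((jetFun hres c r - MvPowerSeries.C (resK hres r)) *
        (jetFun hres c s - MvPowerSeries.C (resK hres s))) := by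
    simp only [jetFun, add_sub_cancel_left, coordK_mul, map_mul, map_add, add_mul,
      Finset.sum_add_distrib, mul_assoc, ← Finset.mul_sum]
    ring
  rw [h, pow_two]
  exact neg_mem (Ideal.mul_mem_mul (jetFun_sub_C_mem hres c r) (jetFun_sub_C_mem hres c s))

/-- The `1`-jet as an algebra homomorphism `R → K⟦x⟧ / (x)²`. -/
noncomputable def jet : R →ₐ[K] MvPowerSeries (Fin g) K ⧸ (varsIdeal (Fin g) K ^ 2) where
  toFun r := Ideal.Quotient.mk _ (jetFun hres c r)
  map_one' := by
    have : jetFun hres c (1 : R) = 1 := by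
      have h := coordK_algebraMap hres c (1 : K)
      simp only [map_one] at h
      simp [jetFun, h]
    rw [this, map_one]
  map_mul' r s := by
    rw [← map_mul, Ideal.Quotient.mk_eq_mk_iff_sub_mem]
    exact jetFun_mul hres c r s
  map_zero' := by
    have : jetFun hres c (0 : R) = 0 := by
      have h := coordK_algebraMap hres c (0 : K)
      simp only [map_zero] at h
      simp [jetFun, h]
    rw [this, map_zero]
  map_add' r s := by
    rw [← map_add]
    congr 1
    simp only [jetFun, coordK_add, map_add, add_mul, Finset.sum_add_distrib]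
    ring
  commutes' a := by
    have : jetFun hres c (algebraMap K R a) = MvPowerSeries.C a := by
      simp [jetFun, coordK_algebraMap]
    rw [this]
    rfl

end Jet


section Chart

variable {K : Type u} [Field K] {R : Type u} [CommRing R] [Algebra K R] [IsLocalRing R]
  (hres : Function.Bijective (algebraMap K (ResidueField R))) {g : ℕ} (c : Coords R g)

theorem exists_lift_jet [Algebra.FormallySmooth K R] :
    ∃ τ : R →ₐ[K] MvPowerSeries (Fin g) K,
      ∀ r, τ r - jetFun hres c r ∈ varsIdeal (Fin g) K ^ 2 := by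
  haveI : IsAdicComplete (varsIdeal (Fin g) K ^ 2) (MvPowerSeries (Fin g) K) :=
    isAdicComplete_sq _
  obtain ⟨τ, hτ⟩ := Algebra.FormallySmooth.exists_mkₐ_comp_eq_of_isAdicComplete
    (I := varsIdeal (Fin g) K ^ 2) (jet hres c)
  refine ⟨τ, fun r => ?_⟩
  have h := congrArg (fun f => f r) hτ
  simp only [AlgHom.comp_apply, Ideal.Quotient.mkₐ_eq_mk] at h
  rw [← Ideal.Quotient.mk_eq_mk_iff_sub_mem]
  exact h

variable {hres c} {τ : R →ₐ[K] MvPowerSeries (Fin g) K}
  (hτ : ∀ r, τ r - jetFun hres c r ∈ varsIdeal (Fin g) K ^ 2)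

include hτ

theorem tau_t_sub_X_mem (i : Fin g) :
    τ (c.t i) - MvPowerSeries.X i ∈ varsIdeal (Fin g) K ^ 2 := by
  have := hτ (c.t i)
  rwa [jetFun_t] at this

theorem tau_mem_of_mem {r : R} (hr : r ∈ maximalIdeal R) : τ r ∈ varsIdeal (Fin g) K := by
  have h1 := Ideal.pow_le_self (two_ne_zero) (hτ r)
  have h2 := jetFun_sub_C_mem hres c r
  rw [(resK_eq_zero_iff hres r).2 hr, map_zero, sub_zero] at h2
  have := add_mem h1 h2
  rwa [sub_add_cancel] at this

theorem tau_mem_pow_of_mem {n : ℕ} {r : R} (hr : r ∈ maximalIdeal R ^ n) :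
    τ r ∈ varsIdeal (Fin g) K ^ n := by
  have h1 : Ideal.map τ.toRingHom (maximalIdeal R) ≤ varsIdeal (Fin g) K := by
    rw [Ideal.map_le_iff_le_comap]
    exact fun r hr => tau_mem_of_mem hτ hr
  have h2 := Ideal.mem_map_of_mem τ.toRingHom hr
  rw [Ideal.map_pow] at h2
  exact Ideal.pow_right_mono h1 n h2

omit hτ in
theorem aeval_mem_pow {n : ℕ} {p : MvPolynomial (Fin g) K}
    (hp : p ∈ MvPolynomial.idealOfVars (Fin g) K ^ n) :
    MvPolynomial.aeval c.t p ∈ maximalIdeal R ^ n := by
  have h1 : Ideal.map (MvPolynomial.aeval (R := K) c.t).toRingHom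
      (MvPolynomial.idealOfVars (Fin g) K) ≤ maximalIdeal R := by
    rw [MvPolynomial.idealOfVars, Ideal.map_span, Ideal.span_le]
    rintro _ ⟨_, ⟨i, rfl⟩, rfl⟩
    simpa using c.mem i
  have h2 := Ideal.mem_map_of_mem (MvPolynomial.aeval (R := K) c.t).toRingHom hp
  rw [Ideal.map_pow] at h2
  exact Ideal.pow_right_mono h1 n h2

/-- The defect `τ (p(t)) - p(x)`. -/
theorem defect_mem (p : MvPolynomial (Fin g) K) :
    τ (MvPolynomial.aeval c.t p) - (p : MvPowerSeries (Fin g) K) ∈ varsIdeal (Fin g) K := by
  let q := Ideal.Quotient.mkₐ K (varsIdeal (Fin g) K)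
  have h : (q.comp τ).comp (MvPolynomial.aeval c.t) =
      q.comp (MvPolynomial.coeToMvPowerSeries.algHom K) := by
    apply MvPolynomial.algHom_ext
    intro i
    simp only [AlgHom.comp_apply, MvPolynomial.aeval_X, q, Ideal.Quotient.mkₐ_eq_mk,
      MvPolynomial.coeToMvPowerSeries.algHom_apply, MvPolynomial.coe_X, Algebra.algebraMap_self,
      MvPowerSeries.map_id, RingHom.id_apply]
    rw [Ideal.Quotient.eq_zero_iff_mem.2 (tau_mem_of_mem hτ (c.mem i)),
      Ideal.Quotient.eq_zero_iff_mem.2 (Ideal.subset_span (Set.mem_range_self i))]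
  have h2 := congrArg (fun f => f p) h
  simp only [AlgHom.comp_apply, q, Ideal.Quotient.mkₐ_eq_mk,
    MvPolynomial.coeToMvPowerSeries.algHom_apply, Algebra.algebraMap_self,
      MvPowerSeries.map_id, RingHom.id_apply] at h2
  rwa [Ideal.Quotient.mk_eq_mk_iff_sub_mem] at h2

omit hτ in
theorem defect_mul (p q : MvPolynomial (Fin g) K) :
    τ (MvPolynomial.aeval c.t (p * q)) - ((p * q : MvPolynomial (Fin g) K) : MvPowerSeries (Fin g) K) =
      (τ (MvPolynomial.aeval c.t p) - (p : MvPowerSeries (Fin g) K)) *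
          τ (MvPolynomial.aeval c.t q) +
        (p : MvPowerSeries (Fin g) K) *
          (τ (MvPolynomial.aeval c.t q) - (q : MvPowerSeries (Fin g) K)) := by
  rw [map_mul, map_mul, MvPolynomial.coe_mul]
  ring

theorem tau_aeval_mem {p : MvPolynomial (Fin g) K}
    (hp : p ∈ MvPolynomial.idealOfVars (Fin g) K) :
    τ (MvPolynomial.aeval c.t p) ∈ varsIdeal (Fin g) K := by
  have := aeval_mem_pow (c := c) (n := 1) (by simpa using hp)
  exact tau_mem_of_mem hτ (by simpa using this)

theorem defect_mem_sq {p : MvPolynomial (Fin g) K}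
    (hp : p ∈ MvPolynomial.idealOfVars (Fin g) K) :
    τ (MvPolynomial.aeval c.t p) - (p : MvPowerSeries (Fin g) K) ∈ varsIdeal (Fin g) K ^ 2 := by
  induction hp using Submodule.span_induction with
  | mem x hx =>
    obtain ⟨i, rfl⟩ := hx
    simpa using tau_t_sub_X_mem hτ i
  | zero => simp
  | add x y _ _ hx hy =>
    have := add_mem hx hy
    rw [map_add, map_add, MvPolynomial.coe_add]
    convert this using 1
    ring
  | smul a x hx ih =>
    rw [smul_eq_mul, defect_mul, pow_two]
    refine add_mem (Ideal.mul_mem_mul (defect_mem hτ a) (tau_aeval_mem hτ hx)) ?_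
    rw [← pow_two]
    exact Ideal.mul_mem_left _ _ ih

theorem defect_mem_pow (n : ℕ) {p : MvPolynomial (Fin g) K}
    (hp : p ∈ MvPolynomial.idealOfVars (Fin g) K ^ n) :
    τ (MvPolynomial.aeval c.t p) - (p : MvPowerSeries (Fin g) K) ∈
      varsIdeal (Fin g) K ^ (n + 1) := by
  induction n generalizing p with
  | zero => simpa using defect_mem hτ p
  | succ n ih =>
    rw [pow_succ] at hp
    refine Submodule.mul_induction_on hp (fun a ha b hb => ?_) (fun x y hx hy => ?_)
    · rw [defect_mul]
      refine add_mem ?_ ?_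
      · rw [pow_succ (varsIdeal (Fin g) K) (n + 1)]
        exact Ideal.mul_mem_mul (ih ha) (tau_aeval_mem hτ hb)
      · have : varsIdeal (Fin g) K ^ (n + 1 + 1) =
            varsIdeal (Fin g) K ^ n * varsIdeal (Fin g) K ^ 2 := by
          rw [← pow_add]
        rw [this]
        exact Ideal.mul_mem_mul (coe_mem_varsIdeal_pow ha) (defect_mem_sq hτ hb)
    · have := add_mem hx hy
      rw [map_add, map_add, MvPolynomial.coe_add]
      convert this using 1
      ring

end Chart


section Main

variable {K : Type u} [Field K] {R : Type u} [CommRing R] [Algebra K R] [IsLocalRing R]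
  (hres : Function.Bijective (algebraMap K (ResidueField R))) {g : ℕ} (c : Coords R g)

/-- Nakayama: coordinates generate the maximal ideal. -/
theorem maximalIdeal_eq_span [IsNoetherianRing R] :
    maximalIdeal R = Ideal.span (Set.range c.t) := by
  apply le_antisymm
  · have h := (CotangentSpace.span_image_eq_top_iff (R := R)
      (s := Set.range fun i => (⟨c.t i, c.mem i⟩ : maximalIdeal R))).1 (by
        rw [← Set.range_comp]
        have : ⇑(maximalIdeal R).toCotangent ∘ (fun i => (⟨c.t i, c.mem i⟩ : maximalIdeal R)) =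
            ⇑c.b := funext c.spec
        rw [this]
        exact c.b.span_eq)
    intro r hr
    have h1 : (⟨r, hr⟩ : maximalIdeal R) ∈
        Submodule.span R (Set.range fun i => (⟨c.t i, c.mem i⟩ : maximalIdeal R)) := by
      rw [h]; trivial
    have h2 := Submodule.apply_mem_span_image_of_mem_span (maximalIdeal R).subtype h1
    rw [← Set.range_comp] at h2
    exact h2
  · rw [Ideal.span_le]
    rintro _ ⟨i, rfl⟩
    exact c.mem i

theorem map_aeval_idealOfVars_pow [IsNoetherianRing R] (n : ℕ) :
    Ideal.map (MvPolynomial.aeval (R := K) c.t).toRingHom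
      (MvPolynomial.idealOfVars (Fin g) K ^ n) = maximalIdeal R ^ n := by
  rw [Ideal.map_pow, maximalIdeal_eq_span c, MvPolynomial.idealOfVars, Ideal.map_span,
    ← Set.range_comp]
  congr 3
  ext i
  simp

include hres in
/-- Every element of `𝔪ⁿ` is a polynomial of order `≥ n` in the coordinates, modulo `𝔪ⁿ⁺¹`. -/
theorem exists_poly_sub_mem [IsNoetherianRing R] (n : ℕ) {r : R} (hr : r ∈ maximalIdeal R ^ n) :
    ∃ p ∈ MvPolynomial.idealOfVars (Fin g) K ^ n,
      r - MvPolynomial.aeval c.t p ∈ maximalIdeal R ^ (n + 1) := by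
  rw [← map_aeval_idealOfVars_pow (K := K) c n, Ideal.map] at hr
  induction hr using Submodule.span_induction with
  | mem x hx =>
    obtain ⟨p, hp, rfl⟩ := hx
    exact ⟨p, hp, by simp⟩
  | zero => exact ⟨0, zero_mem _, by simp⟩
  | add x y _ _ hx hy =>
    obtain ⟨p, hp, hx⟩ := hx
    obtain ⟨q, hq, hy⟩ := hy
    refine ⟨p + q, add_mem hp hq, ?_⟩
    have := add_mem hx hy
    rw [map_add]
    convert this using 1
    ring
  | smul a x _ hx =>
    obtain ⟨p, hp, hx⟩ := hx
    refine ⟨MvPolynomial.C (resK hres a) * p, Ideal.mul_mem_left _ _ hp, ?_⟩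
    have h1 : a • x - MvPolynomial.aeval c.t (MvPolynomial.C (resK hres a) * p) =
        a * (x - MvPolynomial.aeval c.t p) +
          (a - algebraMap K R (resK hres a)) * MvPolynomial.aeval c.t p := by
      rw [map_mul, MvPolynomial.aeval_C, smul_eq_mul]
      ring
    rw [h1]
    refine add_mem (Ideal.mul_mem_left _ _ hx) ?_
    rw [pow_succ']
    exact Ideal.mul_mem_mul (sub_resK_mem hres a) (aeval_mem_pow (c := c) hp)

variable {hres c} {τ : R →ₐ[K] MvPowerSeries (Fin g) K}
  (hτ : ∀ r, τ r - jetFun hres c r ∈ varsIdeal (Fin g) K ^ 2)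

include hτ

omit hτ in
theorem poly_mem_of_coe_mem {n : ℕ} {p : MvPolynomial (Fin g) K}
    (hp : (p : MvPowerSeries (Fin g) K) ∈ varsIdeal (Fin g) K ^ n) :
    p ∈ MvPolynomial.idealOfVars (Fin g) K ^ n := by
  rw [mem_varsIdeal_pow_iff] at hp
  rw [MvPolynomial.mem_pow_idealOfVars_iff']
  intro d hd
  have := hp d hd
  rwa [MvPolynomial.coeff_coe] at this

theorem mem_pow_of_tau_mem [IsNoetherianRing R] (n : ℕ) {r : R}
    (hr : τ r ∈ varsIdeal (Fin g) K ^ n) : r ∈ maximalIdeal R ^ n := by
  induction n with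
  | zero => simp
  | succ n ih =>
    have hr' : r ∈ maximalIdeal R ^ n := ih (Ideal.pow_le_pow_right (Nat.le_succ n) hr)
    obtain ⟨p, hp, hrp⟩ := exists_poly_sub_mem hres c n hr'
    have h1 : (p : MvPowerSeries (Fin g) K) =
        τ r - (τ (MvPolynomial.aeval c.t p) - (p : MvPowerSeries (Fin g) K)) -
          τ (r - MvPolynomial.aeval c.t p) := by
      rw [map_sub]; ring
    have h2 : (p : MvPowerSeries (Fin g) K) ∈ varsIdeal (Fin g) K ^ (n + 1) := by
      rw [h1]
      exact sub_mem (sub_mem hr (defect_mem_pow hτ n hp)) (tau_mem_pow_of_mem hτ hrp)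
    have h3 := aeval_mem_pow (c := c) (poly_mem_of_coe_mem h2)
    have := add_mem hrp h3
    rwa [sub_add_cancel] at this

theorem comap_tau_pow [IsNoetherianRing R] (n : ℕ) :
    (varsIdeal (Fin g) K ^ n).comap τ = maximalIdeal R ^ n := by
  ext r
  exact ⟨fun h => mem_pow_of_tau_mem hτ n h, fun h => tau_mem_pow_of_mem hτ h⟩

theorem dense_tau (n : ℕ) (s : MvPowerSeries (Fin g) K) :
    ∃ r : R, s - τ r ∈ varsIdeal (Fin g) K ^ n := by
  induction n with
  | zero => exact ⟨0, by simp⟩
  | succ n ih =>
    obtain ⟨r, hr⟩ := ih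
    set u := s - τ r with hu
    set p := MvPowerSeries.truncTotal (n + 1) u with hp
    have h1 : u - (p : MvPowerSeries (Fin g) K) ∈ varsIdeal (Fin g) K ^ (n + 1) := by
      rw [mem_varsIdeal_pow_iff]
      intro d hd
      rw [map_sub, MvPolynomial.coeff_coe, hp, MvPowerSeries.coeff_truncTotal _ hd, sub_self]
    have h2 : p ∈ MvPolynomial.idealOfVars (Fin g) K ^ n := by
      rw [MvPolynomial.mem_pow_idealOfVars_iff']
      intro d hd
      rw [hp, MvPowerSeries.coeff_truncTotal _ (Nat.lt_succ_of_lt hd)]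
      exact (mem_varsIdeal_pow_iff n u).1 hr d hd
    refine ⟨r + MvPolynomial.aeval c.t p, ?_⟩
    have h3 : s - τ (r + MvPolynomial.aeval c.t p) =
        (u - (p : MvPowerSeries (Fin g) K)) -
          (τ (MvPolynomial.aeval c.t p) - (p : MvPowerSeries (Fin g) K)) := by
      rw [map_add, hu]; ring
    rw [h3]
    exact sub_mem h1 (defect_mem_pow hτ n h2)

end Main

/-- The maximal ideal of `K⟦x⟧` is the ideal of the variables. -/
theorem maximalIdeal_mvPowerSeries (K : Type u) [Field K] (σ : Type*) [Finite σ] :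
    maximalIdeal (MvPowerSeries σ K) = varsIdeal σ K := by
  ext f
  rw [mem_maximalIdeal, mem_nonunits_iff, MvPowerSeries.isUnit_iff_constantCoeff, isUnit_iff_ne_zero,
    not_not, ← pow_one (varsIdeal σ K), mem_varsIdeal_pow_iff]
  constructor
  · intro h d hd
    have : d = 0 := by
      rw [Nat.lt_one_iff] at hd
      exact (Finsupp.degree_eq_zero_iff d).1 hd
    rw [this]
    exact h
  · intro h
    exact h 0 (by simp)

/-- **U2, local form.**  The formal (Taylor) chart of a formally smooth noetherian local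
`K`-algebra with residue field `K`. -/
theorem exists_formalChart_of_isLocalRing (K : Type u) [Field K] (R : Type u) [CommRing R]
    [Algebra K R] [IsLocalRing R] [IsNoetherianRing R] [Algebra.FormallySmooth K R]
    (hres : Function.Bijective (algebraMap K (ResidueField R))) :
    ∃ τ : R →ₐ[K] MvPowerSeries (Fin (Module.finrank (ResidueField R) (CotangentSpace R))) K,
      (∀ n : ℕ, (maximalIdeal (MvPowerSeries
          (Fin (Module.finrank (ResidueField R) (CotangentSpace R))) K) ^ n).comap τ =
            maximalIdeal R ^ n) ∧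
        ∀ (n : ℕ) (s : MvPowerSeries (Fin (Module.finrank (ResidueField R) (CotangentSpace R))) K),
          ∃ r : R, s - τ r ∈ maximalIdeal (MvPowerSeries
            (Fin (Module.finrank (ResidueField R) (CotangentSpace R))) K) ^ n := by
  obtain ⟨c⟩ := nonempty_coords R
  obtain ⟨τ, hτ⟩ := exists_lift_jet hres c
  refine ⟨τ, fun n => ?_, fun n s => ?_⟩
  · rw [maximalIdeal_mvPowerSeries]
    exact comap_tau_pow hτ n
  · rw [maximalIdeal_mvPowerSeries]
    exact dense_tau hτ n s

end Fermat.Agent.S26.H626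

end
-- ===== PACK-END S26/H626/FormalChart.lean

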