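import Mathlib
import Mathlib.RingTheory.Ideal.UFD
import Mathlib.RingTheory.Ideal.Height
import Mathlib.RingTheory.Ideal.MinimalPrime.Localization
import Mathlib.RingTheory.Ideal.MinimalPrime.Noetherian
import Mathlib.RingTheory.Localization.AtPrime.Basic
import Mathlib.RingTheory.Localization.Ideal
import Fermat.Prelude.Def_ModularCurve_ReductionModL
import Fermat.Prelude.Thm_ModularForm_sturm_bound_Gamma0
import Mathlib.NumberTheory.ModularForms.LevelOne.GradedRing
import Fermat.Agent.Pack.S43MC.G0E1L2
import Fermat.Agent.Pack.Fast891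

-- ===== PACK-BEGIN S26/H925/UFDDescent.lean
section


/-!
# S26 / block AMPLE, leaf UFD, piece U3 (helper925): descent of unique factorisation along a
formal chart

`τ : R → S` is a *formal chart* of noetherian local rings if `τ⁻¹ (𝔪_S ^ n) = 𝔪_R ^ n` for all
`n` and the image of `τ` is dense for the `𝔪_S`-adic topology.  If `S` is a UFD then so is `R`
(Shafarevich, Basic Algebraic Geometry I, II.3.1; no flatness, no completion functor).

Main results, with the two chart conditions as explicit hypotheses `hcomap`, `hdense`: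
* `mem_of_forall_mem_sup_pow` : ideals of a noetherian local ring are closed;
* `chart_injective`, `comap_map_eq` (every ideal of `R` is contracted), `map_pow_eq`;
* `exists_reduced_pair` : gcd's descend;
* `prime_of_irreducible`;
* `ufd_of_chart` : `IsDomain R ∧ UniqueFactorizationMonoid R` (unbundled hypotheses);
* `ufd_of_isFormalChart` : the skeleton statement U3, for the structure `IsFormalChart`;
* `isPrincipal_of_height_eq_one_of_ufd` : height-one primes of a UFD are principal (for U4).
-/

set_option autoImplicit false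
set_option linter.unusedSectionVars false

universe u

open IsLocalRing

namespace Fermat.Agent.S26.H925

section Closed

variable {A : Type u} [CommRing A] [IsLocalRing A] [IsNoetherianRing A]

/-- Ideals of a noetherian local ring are closed in the adic topology. -/
theorem mem_of_forall_mem_sup_pow (J : Ideal A) (x : A)
    (h : ∀ n : ℕ, x ∈ J ⊔ maximalIdeal A ^ n) : x ∈ J := by
  have key : (Ideal.Quotient.mk J x : A ⧸ J) ∈
      (⨅ i : ℕ, (maximalIdeal A) ^ i • ⊤ : Submodule A (A ⧸ J)) := by
    rw [Submodule.mem_iInf]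
    intro n
    obtain ⟨y, hy, z, hz, hyz⟩ := Submodule.mem_sup.1 (h n)
    have : (Ideal.Quotient.mk J x : A ⧸ J) = z • (1 : A ⧸ J) := by
      rw [← hyz, map_add, Ideal.Quotient.eq_zero_iff_mem.2 hy, zero_add, Algebra.smul_def,
        mul_one]
      rfl
    rw [this]
    exact Submodule.smul_mem_smul hz Submodule.mem_top
  rw [Ideal.iInf_pow_smul_eq_bot_of_isLocalRing _ (maximalIdeal.isMaximal A).ne_top] at key
  exact Ideal.Quotient.eq_zero_iff_mem.1 ((Submodule.mem_bot A).1 key)

/-- A nonzero element of a noetherian local ring lies outside some power of the maximal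
ideal. -/
theorem exists_notMem_pow {x : A} (hx : x ≠ 0) : ∃ n : ℕ, x ∉ maximalIdeal A ^ n := by
  by_contra hcon
  have : x ∈ (⨅ i : ℕ, maximalIdeal A ^ i) := by
    rw [Ideal.mem_iInf]
    intro n
    by_contra hn
    exact hcon ⟨n, hn⟩
  rw [Ideal.iInf_pow_eq_bot_of_isLocalRing _ (maximalIdeal.isMaximal A).ne_top,
    Ideal.mem_bot] at this
  exact hx this

end Closed

section Chart

variable {R S : Type u} [CommRing R] [CommRing S] [IsLocalRing R] [IsLocalRing S]
  [IsNoetherianRing R] [IsNoetherianRing S] (τ : R →+* S)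

/-- A formal chart is injective (Krull's intersection theorem). -/
theorem chart_injective
    (hcomap : ∀ n : ℕ, (maximalIdeal S ^ n).comap τ = maximalIdeal R ^ n) :
    Function.Injective τ := by
  rw [injective_iff_map_eq_zero]
  intro r hr
  by_contra hr0
  obtain ⟨n, hn⟩ := exists_notMem_pow hr0
  apply hn
  rw [← hcomap n, Ideal.mem_comap, hr]
  exact zero_mem _

/-- The closure of the image of an ideal `I` of `R`, as an ideal of `S`. -/
def closureIdeal (hdense : ∀ (n : ℕ) (s : S), ∃ r : R, s - τ r ∈ maximalIdeal S ^ n)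
    (I : Ideal R) : Ideal S where
  carrier := {s | ∀ n : ℕ, ∃ r ∈ I, s - τ r ∈ maximalIdeal S ^ n}
  zero_mem' := fun n => ⟨0, I.zero_mem, by simp⟩
  add_mem' := by
    intro s₁ s₂ h₁ h₂ n
    obtain ⟨r₁, hr₁, h₁'⟩ := h₁ n
    obtain ⟨r₂, hr₂, h₂'⟩ := h₂ n
    refine ⟨r₁ + r₂, I.add_mem hr₁ hr₂, ?_⟩
    have : s₁ + s₂ - τ (r₁ + r₂) = (s₁ - τ r₁) + (s₂ - τ r₂) := by
      rw [map_add]; ring
    rw [this]
    exact Ideal.add_mem _ h₁' h₂'
  smul_mem' := by
    intro c s hs n
    obtain ⟨r, hr, hr'⟩ := hs n
    obtain ⟨c', hc'⟩ := hdense n c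
    refine ⟨c' * r, I.mul_mem_left c' hr, ?_⟩
    have : c • s - τ (c' * r) = c * (s - τ r) + (c - τ c') * τ r := by
      rw [map_mul, smul_eq_mul]; ring
    rw [this]
    exact Ideal.add_mem _ (Ideal.mul_mem_left _ _ hr') (Ideal.mul_mem_right _ _ hc')

/-- **3b.** Every ideal of `R` is contracted from `S`. -/
theorem comap_map_eq
    (hcomap : ∀ n : ℕ, (maximalIdeal S ^ n).comap τ = maximalIdeal R ^ n)
    (hdense : ∀ (n : ℕ) (s : S), ∃ r : R, s - τ r ∈ maximalIdeal S ^ n)
    (I : Ideal R) : (I.map τ).comap τ = I := by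
  refine le_antisymm ?_ Ideal.le_comap_map
  intro r hr
  have hle : I.map τ ≤ closureIdeal τ hdense I := by
    rw [Ideal.map_le_iff_le_comap]
    intro a ha
    exact fun n => ⟨a, ha, by simp⟩
  have hr' : τ r ∈ closureIdeal τ hdense I := hle (Ideal.mem_comap.1 hr)
  refine mem_of_forall_mem_sup_pow I r (fun n => ?_)
  obtain ⟨a, ha, han⟩ := hr' n
  have h1 : r - a ∈ maximalIdeal R ^ n := by
    rw [← hcomap n, Ideal.mem_comap, map_sub]
    exact han
  have : r = a + (r - a) := by ring
  rw [this]
  exact Submodule.add_mem_sup ha h1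

/-- An element of `R` divides another one as soon as it does so in `S`. -/
theorem dvd_of_map_dvd
    (hcomap : ∀ n : ℕ, (maximalIdeal S ^ n).comap τ = maximalIdeal R ^ n)
    (hdense : ∀ (n : ℕ) (s : S), ∃ r : R, s - τ r ∈ maximalIdeal S ^ n)
    {a b : R} (h : τ a ∣ τ b) : a ∣ b := by
  have h1 : τ b ∈ (Ideal.span {a}).map τ := by
    rw [Ideal.map_span, Set.image_singleton]
    exact Ideal.mem_span_singleton.2 h
  have h2 : b ∈ ((Ideal.span {a}).map τ).comap τ := Ideal.mem_comap.2 h1
  rw [comap_map_eq τ hcomap hdense] at h2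
  exact Ideal.mem_span_singleton.1 h2

/-- **3a.** The powers of the maximal ideal of `S` are extended from `R`. -/
theorem map_pow_eq
    (hcomap : ∀ n : ℕ, (maximalIdeal S ^ n).comap τ = maximalIdeal R ^ n)
    (hdense : ∀ (n : ℕ) (s : S), ∃ r : R, s - τ r ∈ maximalIdeal S ^ n)
    (n : ℕ) : (maximalIdeal R ^ n).map τ = maximalIdeal S ^ n := by
  refine le_antisymm ?_ ?_
  · rw [Ideal.map_le_iff_le_comap, hcomap n]
  · intro s hs
    refine mem_of_forall_mem_sup_pow _ s (fun N => ?_)
    obtain ⟨r, hr⟩ := hdense (max N n) s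
    have hrN : s - τ r ∈ maximalIdeal S ^ N := Ideal.pow_le_pow_right (le_max_left N n) hr
    have hrn : s - τ r ∈ maximalIdeal S ^ n := Ideal.pow_le_pow_right (le_max_right N n) hr
    have h1 : τ r ∈ maximalIdeal S ^ n := by
      have : τ r = s - (s - τ r) := by ring
      rw [this]
      exact Ideal.sub_mem _ hs hrn
    have h2 : r ∈ maximalIdeal R ^ n := by
      rw [← hcomap n]
      exact Ideal.mem_comap.2 h1
    have : s = τ r + (s - τ r) := by ring
    rw [this]
    exact Submodule.add_mem_sup (Ideal.mem_map_of_mem τ h2) hrN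

/-- Elements of `span {a, b} * I` are of the form `a t + b s` with `t, s ∈ I`. -/
theorem exists_of_mem_span_pair_mul {A : Type u} [CommRing A] {a b x : A} {I : Ideal A}
    (hx : x ∈ Ideal.span {a, b} * I) : ∃ t ∈ I, ∃ s ∈ I, x = a * t + b * s := by
  have h1 : Ideal.span {a, b} * I = Ideal.span {a} * I ⊔ Ideal.span {b} * I := by
    rw [← Ideal.sup_mul, ← Ideal.span_union]
    rfl
  rw [h1] at hx
  obtain ⟨y, hy, z, hz, rfl⟩ := Submodule.mem_sup.1 hx
  obtain ⟨t, ht, rfl⟩ := Ideal.mem_span_singleton_mul.1 hy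
  obtain ⟨s, hs, rfl⟩ := Ideal.mem_span_singleton_mul.1 hz
  exact ⟨t, ht, s, hs, rfl⟩

variable [IsDomain S] [UniqueFactorizationMonoid S]

/-- **3c.** gcd's descend: for `a ≠ 0` and `b` in `R` there are `a', b' ∈ R` with
`a * b' = b * a'`, `a' ∣ a`, and such that `τ a'`, `τ b'` are the reduced factors of `τ a`, `τ b`
up to a common unit. -/
theorem exists_reduced_pair
    (hcomap : ∀ n : ℕ, (maximalIdeal S ^ n).comap τ = maximalIdeal R ^ n)
    (hdense : ∀ (n : ℕ) (s : S), ∃ r : R, s - τ r ∈ maximalIdeal S ^ n)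
    {a : R} (ha : a ≠ 0) (b : R) :
    ∃ (a' b' : R) (α β d γ : S), IsRelPrime α β ∧ d * α = τ a ∧ d * β = τ b ∧ IsUnit γ ∧
      τ a' = α * γ ∧ τ b' = β * γ ∧ a * b' = b * a' := by
  have hinj := chart_injective τ hcomap
  have hτa : τ a ≠ 0 := fun h => ha (hinj (by rw [h, map_zero]))
  obtain ⟨α, β, d, hrel, hdα, hdβ⟩ := UniqueFactorizationMonoid.exists_reduced_factors (τ a) hτa (τ b)
  have hd : d ≠ 0 := by
    rintro rfl
    rw [zero_mul] at hdα
    exact hτa hdα.symm
  have hα : α ≠ 0 := by
    rintro rfl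
    rw [mul_zero] at hdα
    exact hτa hdα.symm
  obtain ⟨n, hn⟩ := exists_notMem_pow hα
  obtain ⟨αn, hαn⟩ := hdense n α
  obtain ⟨βn, hβn⟩ := hdense n β
  -- the key congruence
  have hx : τ (a * βn - b * αn) ∈ (Ideal.span {a, b} * maximalIdeal R ^ n).map τ := by
    have e : τ (a * βn - b * αn) = τ b * (α - τ αn) - τ a * (β - τ βn) := by
      rw [map_sub, map_mul, map_mul, ← hdα, ← hdβ]
      ring
    rw [e, Ideal.map_mul, map_pow_eq τ hcomap hdense n]
    refine Ideal.sub_mem _ (Ideal.mul_mem_mul ?_ hαn) (Ideal.mul_mem_mul ?_ hβn)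
    · exact Ideal.mem_map_of_mem τ (Ideal.subset_span (by simp))
    · exact Ideal.mem_map_of_mem τ (Ideal.subset_span (by simp))
  have hx' : a * βn - b * αn ∈ Ideal.span {a, b} * maximalIdeal R ^ n := by
    have := Ideal.mem_comap.2 hx
    rwa [comap_map_eq τ hcomap hdense] at this
  obtain ⟨t, ht, s, hs, hts⟩ := exists_of_mem_span_pair_mul hx'
  -- `a * (βn - t) = b * (αn + s)`
  have hab : a * (βn - t) = b * (αn + s) := by
    have : a * βn - b * αn = a * t + b * s := hts
    linear_combination this
  have hτt : τ t ∈ maximalIdeal S ^ n := by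
    have : t ∈ (maximalIdeal S ^ n).comap τ := by rw [hcomap n]; exact ht
    exact Ideal.mem_comap.1 this
  have hτs : τ s ∈ maximalIdeal S ^ n := by
    have : s ∈ (maximalIdeal S ^ n).comap τ := by rw [hcomap n]; exact hs
    exact Ideal.mem_comap.1 this
  -- in `S`
  have h1 : α * τ (βn - t) = β * τ (αn + s) := by
    have h2 : τ a * τ (βn - t) = τ b * τ (αn + s) := by
      rw [← map_mul, ← map_mul, hab]
    rw [← hdα, ← hdβ, mul_assoc, mul_assoc] at h2
    exact mul_left_cancel₀ hd h2
  have h3 : α ∣ τ (αn + s) := by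
    have : α ∣ β * τ (αn + s) := ⟨_, h1.symm⟩
    exact hrel.dvd_of_dvd_mul_left this
  obtain ⟨γ, hγ⟩ := h3
  have h4 : τ (βn - t) = β * γ := by
    rw [hγ] at h1
    have : α * τ (βn - t) = α * (β * γ) := by rw [h1]; ring
    exact mul_left_cancel₀ hα this
  -- `γ` is a unit
  have hγu : IsUnit γ := by
    by_contra hnu
    have hγm : γ ∈ maximalIdeal S := (mem_maximalIdeal γ).2 hnu
    have hu : IsUnit (1 - γ) := by
      by_contra h
      have h' : 1 - γ ∈ maximalIdeal S := (mem_maximalIdeal _).2 h
      have h1 : (1 - γ) + γ ∈ maximalIdeal S := Ideal.add_mem _ h' hγm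
      rw [sub_add_cancel] at h1
      exact (maximalIdeal.isMaximal S).ne_top ((Ideal.eq_top_iff_one _).2 h1)
    have h5 : α * (1 - γ) ∈ maximalIdeal S ^ n := by
      have : α * (1 - γ) = (α - τ αn) - τ s := by
        rw [mul_sub, mul_one, ← hγ, map_add]
        ring
      rw [this]
      exact Ideal.sub_mem _ hαn hτs
    apply hn
    obtain ⟨v, hv⟩ := hu
    have : α = α * (1 - γ) * (↑v⁻¹ : S) := by
      rw [← hv, mul_assoc, Units.mul_inv, mul_one]
    rw [this]
    exact Ideal.mul_mem_right _ _ h5
  exact ⟨αn + s, βn - t, α, β, d, γ, hrel, hdα, hdβ, hγu, hγ, h4, hab⟩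

/-- **3d.** Irreducible elements of `R` are prime. -/
theorem prime_of_irreducible
    (hcomap : ∀ n : ℕ, (maximalIdeal S ^ n).comap τ = maximalIdeal R ^ n)
    (hdense : ∀ (n : ℕ) (s : S), ∃ r : R, s - τ r ∈ maximalIdeal S ^ n)
    {p : R} (hp : Irreducible p) : Prime p := by
  have hinj := chart_injective τ hcomap
  have hp0 : p ≠ 0 := hp.ne_zero
  refine ⟨hp0, hp.not_isUnit, ?_⟩
  intro x y hxy
  by_contra hcon
  push Not at hcon
  obtain ⟨hx, hy⟩ := hcon
  obtain ⟨p', x', α, β, d, γ, hrel, hdα, hdβ, hγ, hp', hx', hpx⟩ :=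
    exists_reduced_pair τ hcomap hdense hp0 x
  -- `p' ∣ p`
  have hp'dvd : p' ∣ p := by
    apply dvd_of_map_dvd τ hcomap hdense
    obtain ⟨v, rfl⟩ := hγ
    refine ⟨d * ↑v⁻¹, ?_⟩
    rw [hp', ← hdα]
    calc d * α = d * α * (↑v * ↑v⁻¹) := by rw [Units.mul_inv, mul_one]
      _ = α * ↑v * (d * ↑v⁻¹) := by ring
  obtain ⟨d', hd'⟩ := hp'dvd
  rcases hp.isUnit_or_isUnit hd' with hu | hu
  · -- `p'` is a unit: then `p ∣ x`
    apply hx
    obtain ⟨v, rfl⟩ := hu
    refine ⟨x' * ↑v⁻¹, ?_⟩
    calc x = x * (↑v * ↑v⁻¹) := by rw [Units.mul_inv, mul_one]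
      _ = (x * ↑v) * ↑v⁻¹ := by ring
      _ = (p * x') * ↑v⁻¹ := by rw [hpx]
      _ = p * (x' * ↑v⁻¹) := by ring
  · -- `d'` is a unit: then `τ p` and `τ x` are relatively prime
    apply hy
    apply dvd_of_map_dvd τ hcomap hdense
    have hα : α ≠ 0 := by
      rintro rfl
      rw [mul_zero] at hdα
      exact hp0 (hinj (by rw [← hdα, map_zero]))
    -- `d` is a unit
    have hdu : IsUnit d := by
      have e : d * α = α * (γ * τ d') := by
        rw [hdα, hd', map_mul, hp']
        ring
      have e' : d = γ * τ d' := by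
        have : α * d = α * (γ * τ d') := by rw [← e]; ring
        exact mul_left_cancel₀ hα this
      rw [e']
      exact hγ.mul (hu.map τ)
    have hrel' : IsRelPrime (τ p) (τ x) := by
      rw [← hdα, ← hdβ]
      exact (isRelPrime_mul_unit_left hdu).2 hrel
    have hdvd : τ p ∣ τ x * τ y := by
      rw [← map_mul]
      exact map_dvd τ hxy
    exact hrel'.dvd_of_dvd_mul_left hdvd

/-- **U3.** Descent of unique factorisation along a formal chart (unbundled hypotheses). -/
theorem ufd_of_chart
    (hcomap : ∀ n : ℕ, (maximalIdeal S ^ n).comap τ = maximalIdeal R ^ n)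
    (hdense : ∀ (n : ℕ) (s : S), ∃ r : R, s - τ r ∈ maximalIdeal S ^ n) :
    IsDomain R ∧ UniqueFactorizationMonoid R := by
  have hinj := chart_injective τ hcomap
  have : IsDomain R := hinj.isDomain τ
  refine ⟨inferInstance, ?_⟩
  have : WfDvdMonoid R := IsNoetherianRing.wfDvdMonoid
  exact
    { irreducible_iff_prime := fun {a} =>
        ⟨fun h => prime_of_irreducible τ hcomap hdense h, Prime.irreducible⟩ }

end Chart

/-! ## The skeleton statement -/

/-- `τ : R → S` is a *formal chart* (verbatim copy of the structure of the UFD skeleton of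
helper445): it identifies the adic filtrations and has dense image. -/
structure IsFormalChart {R S : Type u} [CommRing R] [CommRing S] [IsLocalRing R] [IsLocalRing S]
    (τ : R →+* S) : Prop where
  comap_pow : ∀ n : ℕ, (maximalIdeal S ^ n).comap τ = maximalIdeal R ^ n
  dense : ∀ (n : ℕ) (s : S), ∃ r : R, s - τ r ∈ maximalIdeal S ^ n

/-- **U3.** Descent of unique factorisation along a formal chart (skeleton statement). -/
theorem ufd_of_isFormalChart {R S : Type u} [CommRing R] [CommRing S] [IsLocalRing R]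
    [IsLocalRing S] [IsNoetherianRing R] [IsNoetherianRing S] [IsDomain S]
    [UniqueFactorizationMonoid S] (τ : R →+* S) (h : IsFormalChart τ) :
    IsDomain R ∧ UniqueFactorizationMonoid R :=
  ufd_of_chart τ h.comap_pow h.dense

/-- Every prime ideal of height one of a unique factorisation domain is principal. -/
theorem isPrincipal_of_height_eq_one_of_ufd {R : Type u} [CommRing R] [IsDomain R]
    [UniqueFactorizationMonoid R] (P : Ideal R) [P.IsPrime] (hP : P.height = 1) :
    P.IsPrincipal := by
  have hP0 : P ≠ ⊥ := by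
    rintro rfl
    rw [Ideal.height_bot] at hP
    exact zero_ne_one hP
  obtain ⟨p, hpP, hp⟩ := Ideal.IsPrime.exists_mem_prime_of_ne_bot ‹P.IsPrime› hP0
  have hle : Ideal.span {p} ≤ P := (Ideal.span_singleton_le_iff_mem P).2 hpP
  have hprime : (Ideal.span {p}).IsPrime := (Ideal.span_singleton_prime hp.ne_zero).2 hp
  have hne : Ideal.span {p} ≠ ⊥ := by
    rw [Ne, Ideal.span_singleton_eq_bot]
    exact hp.ne_zero
  -- `span {p}` is a nonzero prime contained in the height-one prime `P`
  have hPfin : P.FiniteHeight := P.finiteHeight_iff.2 (Or.inr (by rw [hP]; exact ENat.one_ne_top))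
  have heq : Ideal.span {p} = P := by
    by_contra hne'
    have hlt : Ideal.span {p} < P := lt_of_le_of_ne hle hne'
    have h1 : (Ideal.span {p}).height < P.height :=
      Ideal.height_strict_mono_of_isPrime_of_isPrime hlt
    rw [hP] at h1
    have hfin : (Ideal.span {p}).FiniteHeight :=
      (Ideal.span {p}).finiteHeight_iff.2 (Or.inr (ne_top_of_lt h1))
    have hbot : (⊥ : Ideal R).IsPrime := Ideal.isPrime_bot
    have h2 : (⊥ : Ideal R).height < (Ideal.span {p}).height :=
      Ideal.height_strict_mono_of_isPrime_of_isPrime (bot_lt_iff_ne_bot.2 hne)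
    have h3 : (Ideal.span {p}).height = 0 := Order.lt_one_iff.1 h1
    rw [h3] at h2
    exact not_lt_zero h2
  exact ⟨⟨p, heq.symm⟩⟩

end Fermat.Agent.S26.H925

end
-- ===== PACK-END S26/H925/UFDDescent.lean

-- ===== PACK-BEGIN S26/H126/BoundaryAlg.lean
section







/-!
# Row S26, block AMPLE, leaf AM-BOUNDARY (helper126): the algebraic core

* `isPrincipal_of_isRadical_of_height_one` : in a noetherian factorial domain a radical ideal all
  of whose minimal primes have height one is principal.
* `exists_local_generator` : spreading out.  `B` a noetherian domain, `I` a radical ideal, `m` a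
  prime with `B_m` factorial, all minimal primes of `I` inside `m` of height one.  Then there are
  `b ∈ I` and `f ∉ m` with `f • I ⊆ (b)`, i.e. `I B_f = b B_f`.
-/

set_option autoImplicit false

namespace Fermat.Agent.S26.H126

open Ideal

section Core1

variable {R : Type*} [CommRing R] [IsDomain R]

/-- `(q) ∩ (x) = (q x)` for a prime element `q` not dividing `x`. -/
theorem span_singleton_inf_of_prime_not_dvd {q x : R} (hq : Prime q) (hqx : ¬ q ∣ x) :
    Ideal.span {q} ⊓ Ideal.span {x} = Ideal.span {q * x} := by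
  apply le_antisymm
  · rintro y ⟨hy1, hy2⟩
    rw [SetLike.mem_coe, Ideal.mem_span_singleton] at hy1 hy2
    obtain ⟨z, rfl⟩ := hy2
    have h : q ∣ z := (hq.dvd_or_dvd hy1).resolve_left hqx
    obtain ⟨w, rfl⟩ := h
    rw [Ideal.mem_span_singleton]
    exact ⟨w, by ring⟩
  · refine le_inf ?_ ?_
    · rw [Ideal.span_singleton_le_span_singleton]
      exact dvd_mul_right q x
    · rw [Ideal.span_singleton_le_span_singleton]
      exact dvd_mul_left x q

variable [UniqueFactorizationMonoid R]

/-- A finite intersection of prime ideals of height one in a factorial domain is principal. -/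
theorem exists_span_singleton_eq_inf_of_height_one (s : Finset (Ideal R))
    (hs : ∀ Q ∈ s, Q.IsPrime ∧ Q.height = 1) :
    ∃ x : R, x ≠ 0 ∧ s.inf id = Ideal.span {x} := by
  classical
  induction s using Finset.induction_on with
  | empty => exact ⟨1, one_ne_zero, by simp⟩
  | insert Q s hQs ih =>
    obtain ⟨x, hx0, hx⟩ := ih (fun Q' hQ' => hs Q' (Finset.mem_insert_of_mem hQ'))
    obtain ⟨hQp, hQh⟩ := hs Q (Finset.mem_insert_self Q s)
    have := hQp
    obtain ⟨q, hq⟩ := (UniqueFactorizationMonoid.isPrincipal_of_height_eq_one hQh).principal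
    rw [Ideal.submodule_span_eq] at hq
    have hQbot : Q ≠ ⊥ := Q.ne_bot_of_height_eq_one hQh
    have hq0 : q ≠ 0 := by
      rintro rfl
      apply hQbot
      rw [hq]
      simp
    have hqprime : Prime q := by
      rw [← Ideal.span_singleton_prime hq0, ← hq]
      exact hQp
    have hqx : ¬ q ∣ x := by
      intro hdvd
      have hxQ : Ideal.span {x} ≤ Q := by
        rw [hq, Ideal.span_singleton_le_span_singleton]
        exact hdvd
      rw [← hx] at hxQ
      obtain ⟨Q', hQ's, hQ'Q⟩ := hQp.inf_le'.1 hxQ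
      obtain ⟨hQ'p, hQ'h⟩ := hs Q' (Finset.mem_insert_of_mem hQ's)
      have := hQ'p
      have : Q'.FiniteHeight := by
        rw [Ideal.finiteHeight_iff]
        right
        rw [hQ'h]
        exact ENat.one_ne_top
      have hQ'Q' : Q' ≤ Q := hQ'Q
      have : Q' = Q := Ideal.eq_of_le_of_height_le (I := Q') hQ'Q' (by rw [hQh, hQ'h])
      exact hQs (this ▸ hQ's)
    refine ⟨q * x, mul_ne_zero hq0 hx0, ?_⟩
    rw [Finset.inf_insert, hx, id, hq]
    exact span_singleton_inf_of_prime_not_dvd hqprime hqx

variable [IsNoetherianRing R]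

/-- In a noetherian factorial domain, a radical ideal all of whose minimal primes have height
one is principal, generated by a nonzero element. -/
theorem exists_span_singleton_eq_of_isRadical_of_height_one (J : Ideal R) (hJ : J.IsRadical)
    (hht : ∀ Q ∈ J.minimalPrimes, Q.height = 1) :
    ∃ x : R, x ≠ 0 ∧ J = Ideal.span {x} := by
  classical
  have hfin : J.minimalPrimes.Finite := J.finite_minimalPrimes_of_isNoetherianRing
  obtain ⟨x, hx0, hx⟩ := exists_span_singleton_eq_inf_of_height_one hfin.toFinset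
    (fun Q hQ => ⟨((hfin.mem_toFinset).1 hQ).isPrime, hht Q ((hfin.mem_toFinset).1 hQ)⟩)
  refine ⟨x, hx0, ?_⟩
  have h : J = hfin.toFinset.inf id := by
    rw [Finset.inf_id_eq_sInf, Set.Finite.coe_toFinset, Ideal.sInf_minimalPrimes, hJ.radical]
  rw [h, hx]

end Core1

section Core2

variable {B : Type*} [CommRing B] [IsDomain B] [IsNoetherianRing B]

/-- **Spreading out of a local generator.** -/
theorem exists_local_generator (I : Ideal B) (hI : I.IsRadical) (m : Ideal B) [m.IsPrime]
    (R : Type*) [CommRing R] [Algebra B R] [IsLocalization.AtPrime R m] [IsDomain R]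
    [UniqueFactorizationMonoid R]
    (hht : ∀ P ∈ I.minimalPrimes, P ≤ m → P.height = 1) :
    ∃ b ∈ I, ∃ f : B, f ∉ m ∧ ∀ g ∈ I, ∃ c : B, f * g = c * b := by
  classical
  have : IsNoetherianRing R := IsLocalization.isNoetherianRing m.primeCompl R inferInstance
  have hinj : Function.Injective (algebraMap B R) :=
    IsLocalization.injective R (M := m.primeCompl) m.primeCompl_le_nonZeroDivisors
  set J : Ideal R := I.map (algebraMap B R) with hJdef
  have hJrad : J.IsRadical := by
    rw [← Ideal.radical_eq_iff, hJdef, ← IsLocalization.map_radical m.primeCompl, hI.radical]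
  have hJht : ∀ Q ∈ J.minimalPrimes, Q.height = 1 := by
    intro Q hQ
    have hQp : Q.IsPrime := hQ.isPrime
    rw [hJdef, IsLocalization.minimalPrimes_map m.primeCompl R I] at hQ
    have hle : Q.under B ≤ m := by
      have hdisj := ((IsLocalization.isPrime_iff_isPrime_disjoint m.primeCompl R Q).1 hQp).2
      intro y hy
      by_contra hym
      exact Set.disjoint_left.1 hdisj (show y ∈ (m.primeCompl : Set B) from hym) hy
    rw [← IsLocalization.height_under m.primeCompl Q]
    exact hht _ hQ hle
  obtain ⟨x, hx0, hx⟩ := exists_span_singleton_eq_of_isRadical_of_height_one J hJrad hJht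
  -- a generator coming from `I`
  have hxJ : x ∈ J := by rw [hx]; exact Ideal.mem_span_singleton_self x
  obtain ⟨⟨⟨b, hbI⟩, s⟩, hbs⟩ := (IsLocalization.mem_map_algebraMap_iff m.primeCompl R).1 hxJ
  simp only at hbs
  have hsu : IsUnit (algebraMap B R (s : B)) := IsLocalization.map_units R s
  have hJb : J = Ideal.span {algebraMap B R b} := by
    rw [hx, ← hbs]
    exact (Ideal.span_singleton_mul_right_unit hsu x).symm
  -- every element of `I` is a multiple of `b` after multiplication by some `s ∉ m`
  have key : ∀ g ∈ I, ∃ f : B, f ∉ m ∧ ∃ c : B, f * g = c * b := by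
    intro g hg
    have hgJ : algebraMap B R g ∈ J := Ideal.mem_map_of_mem _ hg
    rw [hJb, Ideal.mem_span_singleton] at hgJ
    obtain ⟨r, hr⟩ := hgJ
    obtain ⟨c, t, rfl⟩ := IsLocalization.exists_mk'_eq m.primeCompl r
    refine ⟨t, t.2, c, ?_⟩
    apply hinj
    rw [map_mul, map_mul, hr]
    have := IsLocalization.mk'_spec R c t
    calc algebraMap B R t * (algebraMap B R b * IsLocalization.mk' R c t)
        = algebraMap B R b * (IsLocalization.mk' R c t * algebraMap B R t) := by ring
      _ = algebraMap B R b * algebraMap B R c := by rw [this]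
      _ = algebraMap B R c * algebraMap B R b := by ring
  -- finitely many generators
  obtain ⟨S, hS⟩ := (isNoetherianRing_iff_ideal_fg B).1 inferInstance I
  choose! φ hφm hφ using key
  have hSI : ∀ g ∈ S, g ∈ I := fun g hg => hS ▸ Ideal.subset_span hg
  refine ⟨b, hbI, ∏ g ∈ S, φ g, ?_, ?_⟩
  · intro hmem
    obtain ⟨g, hgS, hg⟩ := (Ideal.IsPrime.prod_mem_iff).1 hmem
    exact hφm g (hSI g hgS) hg
  · intro g hg
    rw [← hS] at hg
    refine Submodule.span_induction (p := fun g _ => ∃ c : B, (∏ g ∈ S, φ g) * g = c * b)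
      ?_ ?_ ?_ ?_ hg
    · intro g hgS
      obtain ⟨c, hc⟩ := hφ g (hSI g hgS)
      refine ⟨(∏ g' ∈ S.erase g, φ g') * c, ?_⟩
      rw [← Finset.mul_prod_erase S φ hgS]
      calc (φ g * ∏ g' ∈ S.erase g, φ g') * g = (∏ g' ∈ S.erase g, φ g') * (φ g * g) := by ring
        _ = (∏ g' ∈ S.erase g, φ g') * c * b := by rw [hc]; ring
    · exact ⟨0, by simp⟩
    · rintro g₁ g₂ - - ⟨c₁, h₁⟩ ⟨c₂, h₂⟩
      exact ⟨c₁ + c₂, by rw [mul_add, h₁, h₂, add_mul]⟩
    · rintro a g₁ - ⟨c₁, h₁⟩
      refine ⟨a * c₁, ?_⟩
      rw [smul_eq_mul, mul_left_comm, h₁, mul_assoc]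

end Core2

end Fermat.Agent.S26.H126

end
-- ===== PACK-END S26/H126/BoundaryAlg.lean

-- ===== PACK-BEGIN S26/H277/A4.lean
section


/-!
# S26 / AMPLE / A4 (helper277): graded Noether normalisation by linear combinations

`K` an infinite field, `L` a field extension, `w : Fin n → L` not all zero.  Then there are
`g` and `K`-linear combinations `u_0, …, u_g` of the `w_i` (`u = lin a w`) such that
* `u` satisfies no nonzero homogeneous polynomial relation over `K` (`HomIndep`), hence
  `u_0 ≠ 0` and the affine coordinates `u_i / u_0` are algebraically independent over `K`;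
* every `w_i` is homogeneously integral over `K[u]` (`HomIntegral`):
  `w_i^m + c_1(u) w_i^(m-1) + ⋯ + c_m(u) = 0`, `c_j` homogeneous of degree `j`;
* every `w_i / u_0` is integral over `K[u_1/u_0, …, u_g/u_0]`.
Main statements: `graded_noether_ratios`, `graded_noether`, `graded_noether_rees`,
`linear_noether` (Noether normalisation by linear combinations in any `K`-algebra),
`exists_isUnit_of_homIntegral` (base point free criterion at a local ring).

Sections: 1. top coefficient of a linear substitution; 2. linear Noether normalisation;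
3. Rees trick; 4. consequences.
-/

set_option autoImplicit false

namespace Fermat.Agent.S26.H277

open Polynomial

/-! ## Part 1: top coefficient of a linear substitution -/

section TopCoeff

variable {S : Type*} [CommRing S]

/-- `Q` has degree at most `D` and coefficient `a` at `D`. -/
def TopCoeff (Q : S[X]) (D : ℕ) (a : S) : Prop := Q.natDegree ≤ D ∧ Q.coeff D = a

theorem TopCoeff.C (s : S) : TopCoeff (Polynomial.C s) 0 s := ⟨by simp, by simp⟩

theorem TopCoeff.one : TopCoeff (1 : S[X]) 0 1 := ⟨by simp, by simp⟩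

theorem TopCoeff.X : TopCoeff (Polynomial.X : S[X]) 1 1 := ⟨natDegree_X_le, by simp⟩

theorem TopCoeff.mul {Q Q' : S[X]} {D D' : ℕ} {a a' : S} (h : TopCoeff Q D a) (h' : TopCoeff Q' D' a') :
    TopCoeff (Q * Q') (D + D') (a * a') :=
  ⟨natDegree_mul_le.trans (add_le_add h.1 h'.1), by
    rw [coeff_mul_add_eq_of_natDegree_le h.1 h'.1, h.2, h'.2]⟩

theorem TopCoeff.add {Q Q' : S[X]} {D : ℕ} {a a' : S} (h : TopCoeff Q D a) (h' : TopCoeff Q' D a') :
    TopCoeff (Q + Q') D (a + a') :=
  ⟨(natDegree_add_le _ _).trans (max_le h.1 h'.1), by rw [coeff_add, h.2, h'.2]⟩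

theorem TopCoeff.zero (D : ℕ) : TopCoeff (0 : S[X]) D 0 := ⟨by simp, by simp⟩

theorem TopCoeff.of_lt {Q : S[X]} {D D' : ℕ} {a : S} (h : TopCoeff Q D a) (hlt : D < D') : TopCoeff Q D' 0 :=
  ⟨h.1.trans hlt.le, coeff_eq_zero_of_natDegree_lt (lt_of_le_of_lt h.1 hlt)⟩

theorem TopCoeff.pow {Q : S[X]} {D : ℕ} {a : S} (h : TopCoeff Q D a) (e : ℕ) :
    TopCoeff (Q ^ e) (e * D) (a ^ e) := by
  induction e with
  | zero => simpa using TopCoeff.one
  | succ e ih =>
    have := ih.mul h
    rw [pow_succ, pow_succ, Nat.succ_mul]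
    exact this

theorem TopCoeff.prod {ι : Type*} (s : Finset ι) (Q : ι → S[X]) (D : ι → ℕ) (a : ι → S)
    (h : ∀ i ∈ s, TopCoeff (Q i) (D i) (a i)) :
    TopCoeff (∏ i ∈ s, Q i) (∑ i ∈ s, D i) (∏ i ∈ s, a i) := by
  classical
  induction s using Finset.induction_on with
  | empty => simpa using TopCoeff.one
  | insert i s hi ih =>
    rw [Finset.prod_insert hi, Finset.sum_insert hi, Finset.prod_insert hi]
    exact (h i (Finset.mem_insert_self i s)).mul
      (ih fun j hj => h j (Finset.mem_insert_of_mem hj))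

theorem TopCoeff.sum {ι : Type*} (s : Finset ι) (Q : ι → S[X]) (D : ℕ) (a : ι → S)
    (h : ∀ i ∈ s, TopCoeff (Q i) D (a i)) :
    TopCoeff (∑ i ∈ s, Q i) D (∑ i ∈ s, a i) := by
  classical
  induction s using Finset.induction_on with
  | empty => simpa using TopCoeff.zero D
  | insert i s hi ih =>
    rw [Finset.sum_insert hi, Finset.sum_insert hi]
    exact (h i (Finset.mem_insert_self i s)).add
      (ih fun j hj => h j (Finset.mem_insert_of_mem hj))

end TopCoeff

section Subst

variable {K : Type*} [Field K] {S : Type*} [CommRing S] [Algebra K S] {n : ℕ}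

/-- The generators of the substitution `W_i ↦ s_i + μ_i T` (`i < n`), `W_n ↦ T`. -/
noncomputable def substGen (s : Fin n → S) (μ : Fin n → K) : Fin (n + 1) → S[X] :=
  Fin.snoc (fun i => Polynomial.C (s i) + Polynomial.C (algebraMap K S (μ i)) * Polynomial.X)
    Polynomial.X

/-- The substitution `W_i ↦ s_i + μ_i T` (`i < n`), `W_n ↦ T` as a `K`-algebra map. -/
noncomputable def substHom (s : Fin n → S) (μ : Fin n → K) :
    MvPolynomial (Fin (n + 1)) K →ₐ[K] S[X] :=
  MvPolynomial.aeval (substGen s μ)

/-- The point `(μ, 1)`. -/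
def pt (μ : Fin n → K) : Fin (n + 1) → K := Fin.snoc μ 1

theorem substGen_top (s : Fin n → S) (μ : Fin n → K) (i : Fin (n + 1)) :
    TopCoeff (substGen s μ i) 1 (algebraMap K S (pt μ i)) := by
  refine Fin.lastCases ?_ (fun j => ?_) i
  · simp only [substGen, pt, Fin.snoc_last, map_one]
    exact TopCoeff.X
  · simp only [substGen, pt, Fin.snoc_castSucc]
    constructor
    · refine (natDegree_add_le _ _).trans (max_le (by simp) ?_)
      exact (natDegree_C_mul_le _ _).trans natDegree_X_le
    · simp

theorem substHom_monomial_top (s : Fin n → S) (μ : Fin n → K) (e : Fin (n + 1) →₀ ℕ) (c : K) :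
    TopCoeff (substHom s μ (MvPolynomial.monomial e c)) (e.degree)
      (algebraMap K S (MvPolynomial.eval (pt μ) (MvPolynomial.monomial e c))) := by
  have h1 : substHom s μ (MvPolynomial.monomial e c) =
      Polynomial.C (algebraMap K S c) * ∏ i : Fin (n + 1), substGen s μ i ^ e i := by
    rw [substHom, MvPolynomial.aeval_monomial, Finsupp.prod_fintype _ _ (fun i => pow_zero _)]
    rfl
  have h2 : algebraMap K S (MvPolynomial.eval (pt μ) (MvPolynomial.monomial e c)) =
      algebraMap K S c * ∏ i : Fin (n + 1), algebraMap K S (pt μ i) ^ e i := by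
    rw [MvPolynomial.eval_monomial, Finsupp.prod_fintype _ _ (fun i => pow_zero _), map_mul,
      map_prod]
    simp
  have h3 : e.degree = 0 + ∑ i : Fin (n + 1), e i * 1 := by
    simp [Finsupp.degree_eq_sum]
  rw [h1, h2, h3]
  refine (TopCoeff.C _).mul (TopCoeff.prod _ _ _ _ fun i _ => ?_)
  exact (substGen_top s μ i).pow (e i)

/-- **TopCoeff coefficient of the substitution.**  If `p` has total degree `≤ D` then the image of
`p` has degree `≤ D` and its coefficient at `D` is `p_D(μ, 1)`. -/
theorem substHom_top (s : Fin n → S) (μ : Fin n → K) (p : MvPolynomial (Fin (n + 1)) K) (D : ℕ)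
    (hD : p.totalDegree ≤ D) :
    TopCoeff (substHom s μ p) D
      (algebraMap K S (MvPolynomial.eval (pt μ) (MvPolynomial.homogeneousComponent D p))) := by
  classical
  have hp : p = ∑ e ∈ p.support, MvPolynomial.monomial e (p.coeff e) :=
    (MvPolynomial.support_sum_monomial_coeff p).symm
  have hhc : MvPolynomial.homogeneousComponent D p =
      ∑ e ∈ p.support, if e.degree = D then MvPolynomial.monomial e (p.coeff e) else 0 := by
    rw [MvPolynomial.homogeneousComponent_apply, Finset.sum_filter]
  rw [hhc, map_sum, map_sum]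
  have key : TopCoeff (∑ e ∈ p.support, substHom s μ (MvPolynomial.monomial e (p.coeff e))) D
      (∑ e ∈ p.support, algebraMap K S (MvPolynomial.eval (pt μ)
        (if e.degree = D then MvPolynomial.monomial e (p.coeff e) else 0))) := by
    refine TopCoeff.sum _ _ _ _ fun e he => ?_
    have hle : e.degree ≤ D := by
      refine le_trans ?_ hD
      have := MvPolynomial.le_totalDegree he
      simpa [Finsupp.degree, Finsupp.sum] using this
    have ht := substHom_monomial_top s μ e (p.coeff e)
    rcases hle.eq_or_lt with h | h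
    · rw [if_pos h]
      rw [h] at ht
      exact ht
    · rw [if_neg h.ne]
      simpa using ht.of_lt h
  rw [← map_sum, ← hp] at key
  exact key

end Subst

/-! ## Part 2: Noether normalisation by linear combinations -/

section PartLinear

variable {K : Type*} [Field K]

/-- Value of a homogeneous polynomial at a rescaled point. -/
theorem eval_mul_of_isHomogeneous {σ : Type*} [Fintype σ] {d : ℕ} {p : MvPolynomial σ K}
    (hp : p.IsHomogeneous d) (c : K) (x : σ → K) :
    MvPolynomial.eval (fun i => c * x i) p = c ^ d * MvPolynomial.eval x p := by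
  rw [MvPolynomial.eval_eq', MvPolynomial.eval_eq', Finset.mul_sum]
  refine Finset.sum_congr rfl fun e he => ?_
  have hdeg : ∑ i, e i = d := by
    have := hp (MvPolynomial.mem_support_iff.mp he)
    simpa [Finsupp.weight_apply, Finsupp.sum_fintype] using this
  simp_rw [mul_pow, Finset.prod_mul_distrib, Finset.prod_pow_eq_pow_sum, hdeg]
  ring

/-- A nonzero homogeneous polynomial over an infinite field does not vanish at some point whose
last coordinate is `1`. -/
theorem exists_pt_eval_ne_zero [Infinite K] {n d : ℕ} (p : MvPolynomial (Fin (n + 1)) K)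
    (hp : p.IsHomogeneous d) (hp0 : p ≠ 0) :
    ∃ μ : Fin n → K, MvPolynomial.eval (pt μ) p ≠ 0 := by
  have hq : p * MvPolynomial.X (Fin.last n) ≠ 0 := mul_ne_zero hp0 (MvPolynomial.X_ne_zero _)
  obtain ⟨x, hx⟩ : ∃ x : Fin (n + 1) → K,
      MvPolynomial.eval x (p * MvPolynomial.X (Fin.last n)) ≠ 0 := by
    by_contra h
    push Not at h
    exact hq (MvPolynomial.funext fun x => by simpa using h x)
  rw [map_mul, MvPolynomial.eval_X] at hx
  have hx1 : MvPolynomial.eval x p ≠ 0 := left_ne_zero_of_mul hx
  have hx2 : x (Fin.last n) ≠ 0 := right_ne_zero_of_mul hx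
  refine ⟨fun i => (x (Fin.last n))⁻¹ * x (Fin.castSucc i), ?_⟩
  have hpt : pt (fun i => (x (Fin.last n))⁻¹ * x (Fin.castSucc i)) =
      fun i => (x (Fin.last n))⁻¹ * x i := by
    funext i
    refine Fin.lastCases ?_ (fun j => ?_) i
    · simp [pt, hx2]
    · simp [pt]
  rw [hpt, eval_mul_of_isHomogeneous hp]
  exact mul_ne_zero (pow_ne_zero _ (inv_ne_zero hx2)) hx1

/-- The top homogeneous component of a nonzero polynomial is nonzero. -/
theorem homogeneousComponent_totalDegree_ne_zero' {σ : Type*} {p : MvPolynomial σ K}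
    (hp : p ≠ 0) : MvPolynomial.homogeneousComponent p.totalDegree p ≠ 0 := by
  classical
  have hne : p.support.Nonempty := by
    rwa [Finset.nonempty_iff_ne_empty, Ne, MvPolynomial.support_eq_empty]
  obtain ⟨e, he, hsup⟩ := Finset.exists_mem_eq_sup p.support hne
    (fun s : σ →₀ ℕ => s.sum fun _ e => e)
  intro h0
  have hc := congrArg (MvPolynomial.coeff e) h0
  rw [MvPolynomial.coeff_homogeneousComponent, MvPolynomial.coeff_zero] at hc
  have hdeg : e.degree = p.totalDegree := by
    rw [MvPolynomial.totalDegree, hsup]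
    simp [Finsupp.degree, Finsupp.sum]
  rw [if_pos hdeg] at hc
  exact (MvPolynomial.mem_support_iff.mp he) hc

section Algebra

variable {R : Type*} [CommRing R] [Algebra K R]

/-- `K`-linear combinations of a family with a matrix of coefficients. -/
def lin {k n : ℕ} (a : Fin k → Fin n → K) (v : Fin n → R) : Fin k → R :=
  fun j => ∑ i, a j i • v i

/-- Transitivity of integrality for subalgebras of a fixed algebra. -/
theorem isIntegral_of_subalgebra_le {B A' : Subalgebra K R}
    (h : ∀ a ∈ A', IsIntegral B a) {x : R} (hx : IsIntegral A' x) : IsIntegral B x := by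
  let C : Subalgebra B R := integralClosure B R
  let φ : A' →+* C :=
    { toFun := fun a => ⟨a.1, h a.1 a.2⟩
      map_one' := rfl
      map_mul' := fun _ _ => rfl
      map_zero' := rfl
      map_add' := fun _ _ => rfl }
  have hC : IsIntegral C x := by
    have := IsIntegral.map_of_comp_eq (R := A') (S := R) (T := C) (U := R) φ (RingHom.id R)
      (by ext a; rfl) hx
    simpa using this
  exact isIntegral_trans (R := B) (A := C) x hC

/-- Every element of `K[S]` is integral over `B` if the elements of `S` are. -/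
theorem isIntegral_of_mem_adjoin {B : Subalgebra K R} {S : Set R}
    (h : ∀ s ∈ S, IsIntegral B s) : ∀ a ∈ Algebra.adjoin K S, IsIntegral B a := by
  intro a ha
  have hle : Algebra.adjoin K S ≤ (integralClosure B R).restrictScalars K :=
    Algebra.adjoin_le fun s hs => h s hs
  exact hle ha

/-- The key step: if `p(v) = 0` and the top component of `p` does not vanish at `(μ, 1)`, then
`v_n` is integral over `K[v_i - μ_i v_n]`. -/
theorem isIntegral_last_of_relation {n : ℕ} (v : Fin (n + 1) → R)
    (p : MvPolynomial (Fin (n + 1)) K) (hpv : MvPolynomial.aeval v p = 0) (μ : Fin n → K)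
    (hμ : MvPolynomial.eval (pt μ) (MvPolynomial.homogeneousComponent p.totalDegree p) ≠ 0) :
    IsIntegral (Algebra.adjoin K
      (Set.range fun i : Fin n => v (Fin.castSucc i) - μ i • v (Fin.last n)))
      (v (Fin.last n)) := by
  set v' : Fin n → R := fun i => v (Fin.castSucc i) - μ i • v (Fin.last n) with hv'
  set A' := Algebra.adjoin K (Set.range v') with hA'
  let s : Fin n → A' := fun i => ⟨v' i, Algebra.subset_adjoin ⟨i, rfl⟩⟩
  set c : K := MvPolynomial.eval (pt μ) (MvPolynomial.homogeneousComponent p.totalDegree p)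
    with hc
  have htop := substHom_top s μ p p.totalDegree le_rfl
  -- evaluation at `v_n`
  have hcomp : ((Polynomial.aeval (R := A') (v (Fin.last n))).restrictScalars K).comp
      (substHom s μ) = MvPolynomial.aeval v := by
    refine MvPolynomial.algHom_ext fun i => ?_
    simp only [AlgHom.coe_comp, AlgHom.coe_restrictScalars', Function.comp_apply, substHom,
      MvPolynomial.aeval_X]
    refine Fin.lastCases ?_ (fun j => ?_) i
    · simp [substGen]
    · simp only [substGen, Fin.snoc_castSucc, map_add, Polynomial.aeval_C, map_mul,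
        Polynomial.aeval_X]
      have h1 : algebraMap (↥A') R (s j) = v' j := rfl
      have h2 : algebraMap (↥A') R (algebraMap K (↥A') (μ j)) = algebraMap K R (μ j) :=
        (IsScalarTower.algebraMap_apply K A' R (μ j)).symm
      rw [h1, h2, hv', ← Algebra.smul_def]
      ring
  have hQ : Polynomial.aeval (v (Fin.last n)) (substHom s μ p) = 0 := by
    have := congrArg (fun f => f p) hcomp
    simpa [hpv] using this
  -- normalise
  set Q1 : A'[X] := Polynomial.C (algebraMap K A' c⁻¹) * substHom s μ p with hQ1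
  have htop1 : TopCoeff Q1 (0 + p.totalDegree) (algebraMap K A' c⁻¹ * algebraMap K A' c) :=
    (TopCoeff.C _).mul htop
  have hmonic : Q1.Monic := by
    refine Polynomial.monic_of_natDegree_le_of_coeff_eq_one p.totalDegree ?_ ?_
    · simpa using htop1.1
    · have := htop1.2
      rw [zero_add] at this
      rw [this, ← map_mul, inv_mul_cancel₀ hμ, map_one]
  refine ⟨Q1, hmonic, ?_⟩
  rw [← Polynomial.aeval_def, hQ1, map_mul, hQ, mul_zero]

/-- **Linear Noether normalisation** over an infinite field. -/
theorem linear_noether [Infinite K] [Nontrivial R] :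
    ∀ (n : ℕ) (v : Fin n → R), ∃ (k : ℕ) (a : Fin k → Fin n → K),
      AlgebraicIndependent K (lin a v) ∧
        ∀ i, IsIntegral (Algebra.adjoin K (Set.range (lin a v))) (v i) := by
  intro n
  induction n with
  | zero =>
    intro v
    exact ⟨0, fun j => j.elim0, algebraicIndependent_empty_type, fun i => i.elim0⟩
  | succ n ih =>
    intro v
    by_cases hv : AlgebraicIndependent K v
    · refine ⟨n + 1, fun j i => if j = i then 1 else 0, ?_, ?_⟩
      · have : lin (fun j i : Fin (n + 1) => if j = i then (1 : K) else 0) v = v := by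
          funext j
          simp [lin]
        rwa [this]
      · intro i
        have : lin (fun j i : Fin (n + 1) => if j = i then (1 : K) else 0) v = v := by
          funext j
          simp [lin]
        rw [this]
        have hmem : v i ∈ Algebra.adjoin K (Set.range v) := Algebra.subset_adjoin ⟨i, rfl⟩
        exact isIntegral_algebraMap (R := Algebra.adjoin K (Set.range v)) (x := ⟨v i, hmem⟩)
    · rw [algebraicIndependent_iff] at hv
      push Not at hv
      obtain ⟨p, hpv, hp0⟩ := hv
      obtain ⟨μ, hμ⟩ := exists_pt_eval_ne_zero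
        (MvPolynomial.homogeneousComponent p.totalDegree p)
        (MvPolynomial.homogeneousComponent_isHomogeneous _ _)
        (homogeneousComponent_totalDegree_ne_zero' hp0)
      have hlast := isIntegral_last_of_relation v p hpv μ hμ
      set v' : Fin n → R := fun i => v (Fin.castSucc i) - μ i • v (Fin.last n) with hv'
      obtain ⟨k, a', hind, hint⟩ := ih v'
      let a : Fin k → Fin (n + 1) → K :=
        fun j => Fin.snoc (a' j) (-∑ i, a' j i * μ i)
      have hlin : lin a v = lin a' v' := by
        funext j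
        simp only [lin, a, Fin.sum_univ_castSucc, Fin.snoc_castSucc, Fin.snoc_last, hv',
          smul_sub, Finset.sum_sub_distrib, neg_smul, Finset.sum_smul, mul_smul]
        ring
      refine ⟨k, a, by rwa [hlin], ?_⟩
      rw [hlin]
      set B := Algebra.adjoin K (Set.range (lin a' v')) with hB
      have hA' : ∀ x ∈ Algebra.adjoin K (Set.range v'), IsIntegral B x :=
        isIntegral_of_mem_adjoin (by rintro _ ⟨i, rfl⟩; exact hint i)
      have hl : IsIntegral B (v (Fin.last n)) := isIntegral_of_subalgebra_le hA' hlast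
      intro i
      refine Fin.lastCases hl (fun j => ?_) i
      have : v (Fin.castSucc j) = v' j + μ j • v (Fin.last n) := by
        simp [hv']
      rw [this]
      exact (hint j).add (IsIntegral.smul (μ j) hl)

end Algebra

end PartLinear

/-! ## Part 3: Rees trick, homogeneous integrality -/

section PartGraded

variable (K : Type*) [Field K] {L : Type*} [Field L] [Algebra K L]

/-- `z` is homogeneously integral over `K[u]`:
`z^m + c_1(u) z^(m-1) + ⋯ + c_m(u) = 0` with `c_j` homogeneous of degree `j`. -/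
def HomIntegral {k : ℕ} (u : Fin k → L) (z : L) : Prop :=
  ∃ m : ℕ, 0 < m ∧ ∃ c : ℕ → MvPolynomial (Fin k) K, (∀ j, (c j).IsHomogeneous j) ∧ c 0 = 1 ∧
    ∑ j ∈ Finset.range (m + 1), MvPolynomial.aeval u (c j) * z ^ (m - j) = 0

/-- The family `u` satisfies no nonzero homogeneous polynomial relation over `K`. -/
def HomIndep {k : ℕ} (u : Fin k → L) : Prop :=
  ∀ (d : ℕ) (p : MvPolynomial (Fin k) K), p.IsHomogeneous d →
    MvPolynomial.aeval u p = 0 → p = 0

variable {K}

/-- The Rees lift `u_j T` of a family. -/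
noncomputable def rees {k : ℕ} (u : Fin k → L) : Fin k → L[X] :=
  fun j => Polynomial.C (u j) * Polynomial.X

theorem lin_rees {k n : ℕ} (a : Fin k → Fin n → K) (w : Fin n → L) :
    lin a (rees w) = rees (lin a w) := by
  funext j
  simp only [lin, rees, map_sum, Finset.sum_mul]
  refine Finset.sum_congr rfl fun i _ => ?_
  rw [Algebra.smul_def, Algebra.smul_def, map_mul, mul_assoc]
  rfl

theorem aeval_rees_monomial {k : ℕ} (u : Fin k → L) (s : Fin k →₀ ℕ) (c : K) :
    MvPolynomial.aeval (rees u) (MvPolynomial.monomial s c) =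
      Polynomial.C (MvPolynomial.aeval u (MvPolynomial.monomial s c)) *
        Polynomial.X ^ s.degree := by
  rw [MvPolynomial.aeval_monomial, MvPolynomial.aeval_monomial,
    Finsupp.prod_fintype _ _ (fun i => pow_zero _),
    Finsupp.prod_fintype _ _ (fun i => pow_zero _), Finsupp.degree_eq_sum]
  simp only [rees, mul_pow, Finset.prod_mul_distrib, Finset.prod_pow_eq_pow_sum, map_mul,
    map_prod, map_pow]
  rw [mul_assoc]
  rfl

/-- The coefficients of `q(u_1 T, …, u_k T)` are the values at `u` of the homogeneous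
components of `q`. -/
theorem coeff_aeval_rees {k : ℕ} (u : Fin k → L) (q : MvPolynomial (Fin k) K) (e : ℕ) :
    (MvPolynomial.aeval (rees u) q).coeff e =
      MvPolynomial.aeval u (MvPolynomial.homogeneousComponent e q) := by
  induction q using MvPolynomial.induction_on' with
  | monomial s c =>
    rw [aeval_rees_monomial, Polynomial.coeff_C_mul_X_pow,
      MvPolynomial.homogeneousComponent_of_mem
        (MvPolynomial.isHomogeneous_monomial (n := s.degree) c rfl)]
    split_ifs <;> simp
  | add p q hp hq => simp [hp, hq]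

theorem aeval_rees_of_isHomogeneous {k : ℕ} (u : Fin k → L) {q : MvPolynomial (Fin k) K} {d : ℕ}
    (hq : q.IsHomogeneous d) :
    MvPolynomial.aeval (rees u) q = Polynomial.C (MvPolynomial.aeval u q) * Polynomial.X ^ d := by
  ext e
  rw [coeff_aeval_rees, Polynomial.coeff_C_mul_X_pow,
    MvPolynomial.homogeneousComponent_of_mem hq]
  split_ifs <;> simp

theorem homIndep_of_algebraicIndependent {k : ℕ} (u : Fin k → L)
    (h : AlgebraicIndependent K (rees u)) : HomIndep K u := by
  intro d p hp hpu
  rw [algebraicIndependent_iff] at h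
  refine h p ?_
  rw [aeval_rees_of_isHomogeneous u hp, hpu, map_zero, zero_mul]

theorem homIntegral_of_isIntegral {k : ℕ} (u : Fin k → L) (z : L)
    (h : IsIntegral (Algebra.adjoin K (Set.range (rees u))) (Polynomial.C z * Polynomial.X)) :
    HomIntegral K u z := by
  classical
  set B := Algebra.adjoin K (Set.range (rees u)) with hB
  obtain ⟨Q, hQm, hQ⟩ := h
  have hrange : ∀ b : B, ∃ q : MvPolynomial (Fin k) K, MvPolynomial.aeval (rees u) q = (b : L[X]) := by
    intro b
    have hb : (b : L[X]) ∈ Algebra.adjoin K (Set.range (rees u)) := b.2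
    rw [Algebra.adjoin_range_eq_range_aeval] at hb
    exact hb
  choose q0 hq0 using hrange
  set m := Q.natDegree with hm
  let q : ℕ → MvPolynomial (Fin k) K := fun i => if i = m then 1 else q0 (Q.coeff i)
  have hq : ∀ i, MvPolynomial.aeval (rees u) (q i) = ((Q.coeff i : B) : L[X]) := by
    intro i
    by_cases hi : i = m
    · simp only [q, if_pos hi, map_one]
      rw [hi, hm, ← Polynomial.leadingCoeff, hQm.leadingCoeff]
      rfl
    · simp only [q, if_neg hi]
      exact hq0 _
  have hmpos : 0 < m := by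
    rcases Nat.eq_zero_or_pos m with h0 | h0
    · exfalso
      have hQ1 : Q = 1 := by
        have := Polynomial.eq_C_of_natDegree_eq_zero (h0 ▸ hm.symm : Q.natDegree = 0)
        rw [this]
        have hc : Q.coeff 0 = 1 := by
          have := hQm.leadingCoeff
          rwa [Polynomial.leadingCoeff, ← hm, h0] at this
        rw [hc, map_one]
      rw [hQ1, Polynomial.eval₂_one] at hQ
      exact one_ne_zero hQ
    · exact h0
  refine ⟨m, hmpos, fun j => MvPolynomial.homogeneousComponent j (q (m - j)),
    fun j => MvPolynomial.homogeneousComponent_isHomogeneous _ _, ?_, ?_⟩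
  · simp only [Nat.sub_zero, q, if_true]
    rw [MvPolynomial.homogeneousComponent_zero]
    simp
  · rw [Polynomial.eval₂_eq_sum_range] at hQ
    have hcoef := congrArg (fun P : L[X] => P.coeff m) hQ
    simp only [Polynomial.finsetSum_coeff, Polynomial.coeff_zero] at hcoef
    rw [← Finset.sum_range_reflect]
    simp only [add_tsub_cancel_right]
    rw [← hcoef]
    refine Finset.sum_congr rfl fun i hi => ?_
    have hi' : i ≤ m := Nat.lt_succ_iff.mp (Finset.mem_range.mp hi)
    have h1 : m - (m - i) = i := Nat.sub_sub_self hi'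
    have h2 : (algebraMap B L[X]) (Q.coeff i) = MvPolynomial.aeval (rees u) (q i) := (hq i).symm
    rw [h1, h2, mul_pow, ← map_pow, ← mul_assoc, mul_comm _ (Polynomial.C (z ^ i)), mul_assoc,
      Polynomial.coeff_C_mul]
    have h3 : (MvPolynomial.aeval (rees u) (q i) * Polynomial.X ^ i).coeff m =
        (MvPolynomial.aeval (rees u) (q i)).coeff (m - i) := by
      conv_lhs => rw [← Nat.sub_add_cancel hi']
      exact Polynomial.coeff_mul_X_pow _ _ _
    rw [h3, coeff_aeval_rees, mul_comm]

/-- **Graded Noether normalisation** (homogeneous form). -/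
theorem graded_noether [Infinite K] {n : ℕ} (w : Fin n → L) :
    ∃ (k : ℕ) (a : Fin k → Fin n → K),
      HomIndep K (lin a w) ∧ ∀ i, HomIntegral K (lin a w) (w i) := by
  obtain ⟨k, a, hind, hint⟩ := linear_noether (K := K) (R := L[X]) n (rees w)
  refine ⟨k, a, ?_, fun i => ?_⟩
  · rw [lin_rees] at hind
    exact homIndep_of_algebraicIndependent _ hind
  · have := hint i
    rw [lin_rees] at this
    exact homIntegral_of_isIntegral _ _ this

end PartGraded

/-! ## Part 4: consequences (ratios, base point free criterion) -/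

section PartRatio

variable {K : Type*} [Field K] {L : Type*} [Field L] [Algebra K L]

/-- Value of a homogeneous polynomial at a rescaled point (algebra version). -/
theorem aeval_mul_of_isHomogeneous {S : Type*} [CommRing S] [Algebra K S] {σ : Type*} [Fintype σ]
    {d : ℕ} {p : MvPolynomial σ K} (hp : p.IsHomogeneous d) (t : S) (x : σ → S) :
    MvPolynomial.aeval (fun i => t * x i) p = t ^ d * MvPolynomial.aeval x p := by
  rw [MvPolynomial.aeval_def, MvPolynomial.aeval_def, MvPolynomial.eval₂_eq',
    MvPolynomial.eval₂_eq', Finset.mul_sum]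
  refine Finset.sum_congr rfl fun e he => ?_
  have hdeg : ∑ i, e i = d := by
    have := hp (MvPolynomial.mem_support_iff.mp he)
    simpa [Finsupp.weight_apply, Finsupp.sum_fintype] using this
  simp_rw [mul_pow, Finset.prod_mul_distrib, Finset.prod_pow_eq_pow_sum, hdeg]
  ring

theorem HomIndep.ne_zero {k : ℕ} {u : Fin k → L} (h : HomIndep K u) (j : Fin k) : u j ≠ 0 := by
  intro hj
  have := h 1 (MvPolynomial.X j) (MvPolynomial.isHomogeneous_X K j) (by simpa using hj)
  exact MvPolynomial.X_ne_zero j this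

theorem degree_cons {g : ℕ} (a : ℕ) (s : Fin g →₀ ℕ) :
    (Finsupp.cons a s).degree = a + s.degree := by
  rw [Finsupp.degree_eq_sum, Finsupp.degree_eq_sum, Fin.sum_univ_succ]
  simp [Finsupp.cons_zero, Finsupp.cons_succ]

/-- The affine coordinates `u_i / u_0` of a homogeneously independent family are algebraically
independent. -/
theorem HomIndep.algebraicIndependent_ratios {g : ℕ} {u : Fin (g + 1) → L} (h : HomIndep K u) :
    AlgebraicIndependent K (fun i : Fin g => u i.succ / u 0) := by
  classical
  have hu0 : u 0 ≠ 0 := h.ne_zero 0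
  rw [algebraicIndependent_iff]
  intro r hr
  by_contra hr0
  set D := r.totalDegree with hD
  have hle : ∀ s ∈ r.support, s.degree ≤ D := by
    intro s hs
    have := MvPolynomial.le_totalDegree hs
    simpa [Finsupp.degree, Finsupp.sum] using this
  let P : MvPolynomial (Fin (g + 1)) K :=
    ∑ s ∈ r.support, MvPolynomial.monomial (Finsupp.cons (D - s.degree) s) (r.coeff s)
  have hPhom : P.IsHomogeneous D := by
    refine MvPolynomial.IsHomogeneous.sum _ _ _ fun s hs => ?_
    refine MvPolynomial.isHomogeneous_monomial _ ?_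
    rw [degree_cons]
    exact Nat.sub_add_cancel (hle s hs)
  have hPu : MvPolynomial.aeval u P =
      u 0 ^ D * MvPolynomial.aeval (fun i : Fin g => u i.succ / u 0) r := by
    conv_rhs => rw [← MvPolynomial.support_sum_monomial_coeff r]
    rw [map_sum, map_sum, Finset.mul_sum]
    refine Finset.sum_congr rfl fun s hs => ?_
    rw [MvPolynomial.aeval_monomial, MvPolynomial.aeval_monomial,
      Finsupp.prod_fintype _ _ (fun i => pow_zero _),
      Finsupp.prod_fintype _ _ (fun i => pow_zero _), Fin.prod_univ_succ]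
    simp only [Finsupp.cons_zero, Finsupp.cons_succ, div_pow, Finset.prod_div_distrib,
      Finset.prod_pow_eq_pow_sum]
    have h1 : ∑ i, s i = s.degree := (Finsupp.degree_eq_sum s).symm
    rw [h1, pow_sub₀ _ hu0 (hle s hs)]
    field_simp
  have hP0 : P = 0 := h D P hPhom (by rw [hPu, hr, mul_zero])
  have hne : r.support.Nonempty := by
    rwa [Finset.nonempty_iff_ne_empty, Ne, MvPolynomial.support_eq_empty]
  obtain ⟨s0, hs0⟩ := hne
  have hcoef := congrArg (MvPolynomial.coeff (Finsupp.cons (D - s0.degree) s0)) hP0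
  simp only [P, MvPolynomial.coeff_sum, MvPolynomial.coeff_monomial,
    MvPolynomial.coeff_zero] at hcoef
  rw [Finset.sum_eq_single s0] at hcoef
  · rw [if_pos rfl] at hcoef
    exact (MvPolynomial.mem_support_iff.mp hs0) hcoef
  · intro s _ hne'
    rw [if_neg]
    intro heq
    apply hne'
    have := congrArg Finsupp.tail heq
    simpa [Finsupp.tail_cons] using this
  · intro h'
    exact absurd hs0 h'

/-- Transport of integrality from the Rees algebra to the affine chart `u_0 ≠ 0`:
`z / u_0` is integral over `K[u_1/u_0, …, u_g/u_0]`. -/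
theorem isIntegral_div_of_rees {g : ℕ} (u : Fin (g + 1) → L) (hu0 : u 0 ≠ 0) (z : L)
    (h : IsIntegral (Algebra.adjoin K (Set.range (rees u))) (Polynomial.C z * Polynomial.X)) :
    IsIntegral (Algebra.adjoin K (Set.range fun i : Fin g => u i.succ / u 0)) (z / u 0) := by
  set A := Algebra.adjoin K (Set.range fun i : Fin g => u i.succ / u 0) with hA
  set B := Algebra.adjoin K (Set.range (rees u)) with hB
  let ev : L[X] →ₐ[K] L := (Polynomial.aeval (R := L) (u 0)⁻¹).restrictScalars K
  have hev : ∀ b ∈ B, ev b ∈ A := by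
    intro b hb
    have hmap : B.map ev ≤ A := by
      rw [hB, AlgHom.map_adjoin]
      refine Algebra.adjoin_le ?_
      rintro _ ⟨_, ⟨j, rfl⟩, rfl⟩
      refine Fin.cases ?_ (fun i => ?_) j
      · have : ev (rees u 0) = 1 := by
          simp [ev, rees, hu0]
        rw [this]
        exact one_mem _
      · have : ev (rees u i.succ) = u i.succ / u 0 := by
          simp [ev, rees, div_eq_mul_inv]
        rw [this]
        exact Algebra.subset_adjoin ⟨i, rfl⟩
    exact hmap ⟨b, hb, rfl⟩
  let φ : B →+* A :=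
    { toFun := fun b => ⟨ev b.1, hev b.1 b.2⟩
      map_one' := Subtype.ext (map_one ev)
      map_mul' := fun x y => Subtype.ext (map_mul ev x.1 y.1)
      map_zero' := Subtype.ext (map_zero ev)
      map_add' := fun x y => Subtype.ext (map_add ev x.1 y.1) }
  have := IsIntegral.map_of_comp_eq (R := B) (S := L[X]) (T := A) (U := L) φ ev.toRingHom
    (by ext b; rfl) h
  have hz : ev.toRingHom (Polynomial.C z * Polynomial.X) = z / u 0 := by
    simp [ev, div_eq_mul_inv]
  rwa [hz] at this

/-- Values of polynomials without constant term lie in the ideal generated by the point. -/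
theorem aeval_mem_span_of_isHomogeneous {O : Type*} [CommRing O] [Algebra K O] {k : ℕ}
    (r : Fin k → O) {c : MvPolynomial (Fin k) K} {j : ℕ} (hj : 0 < j) (hc : c.IsHomogeneous j) :
    MvPolynomial.aeval r c ∈ Ideal.span (Set.range r) := by
  classical
  rw [← MvPolynomial.support_sum_monomial_coeff c, map_sum]
  refine Ideal.sum_mem _ fun s hs => ?_
  have hdeg : s.degree = j := by
    have := hc (MvPolynomial.mem_support_iff.mp hs)
    simpa [Finsupp.weight_apply, Finsupp.degree, Finsupp.sum] using this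
  have hs0 : s ≠ 0 := by
    rintro rfl
    simp at hdeg
    omega
  obtain ⟨i, hi⟩ : ∃ i, s i ≠ 0 := by
    by_contra hcon
    push Not at hcon
    exact hs0 (Finsupp.ext hcon)
  rw [MvPolynomial.aeval_monomial, Finsupp.prod_fintype _ _ (fun i => pow_zero _)]
  refine Ideal.mul_mem_left _ _ ?_
  rw [← Finset.mul_prod_erase _ _ (Finset.mem_univ i)]
  refine Ideal.mul_mem_right _ _ ?_
  obtain ⟨e, he⟩ := Nat.exists_eq_succ_of_ne_zero hi
  rw [he, pow_succ]
  exact Ideal.mul_mem_left _ _ (Ideal.subset_span ⟨i, rfl⟩)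

/-- **Base point free criterion.**  `O` a local ring inside `L` (e.g. the local ring of a point),
`z ≠ 0` homogeneously integral over `K[u]`, and `u_j / z ∈ O` for all `j`
(e.g. `z` generates the fractional ideal spanned by a system containing the `u_j`).
Then some `u_j / z` is a unit of `O` (so `u_j` generates as well). -/
theorem exists_isUnit_of_homIntegral {O : Type*} [CommRing O] [IsLocalRing O] [Algebra K O]
    [Algebra O L] [IsScalarTower K O L] (hinj : Function.Injective (algebraMap O L)) {k : ℕ}
    (u : Fin k → L) (z : L) (hz : z ≠ 0) (h : HomIntegral K u z) (r : Fin k → O)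
    (hr : ∀ j, algebraMap O L (r j) = u j / z) : ∃ j, IsUnit (r j) := by
  classical
  by_contra hcon
  push Not at hcon
  obtain ⟨m, hm, c, hc, hc0, hrel⟩ := h
  -- the relation inside `O`
  have hu : u = fun j => z * algebraMap O L (r j) := by
    funext j
    rw [hr j]
    field_simp
  have hterm : ∀ j ∈ Finset.range (m + 1), MvPolynomial.aeval u (c j) * z ^ (m - j) =
      z ^ m * algebraMap O L (MvPolynomial.aeval r (c j)) := by
    intro j hj
    have hj' : j ≤ m := Nat.lt_succ_iff.mp (Finset.mem_range.mp hj)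
    have h1 : MvPolynomial.aeval u (c j) =
        z ^ j * MvPolynomial.aeval (fun i => algebraMap O L (r i)) (c j) := by
      rw [hu]
      exact aeval_mul_of_isHomogeneous (hc j) z _
    have h2 : MvPolynomial.aeval (fun i => algebraMap O L (r i)) (c j) =
        algebraMap O L (MvPolynomial.aeval r (c j)) := by
      have := MvPolynomial.aeval_algebraMap_apply (R := K) (A := O) (B := L) r (c j)
      exact this
    rw [h1, h2, mul_assoc, mul_comm _ (z ^ (m - j)), ← mul_assoc, ← pow_add,
      Nat.add_sub_cancel' hj']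
  rw [Finset.sum_congr rfl hterm, ← Finset.mul_sum, ← map_sum] at hrel
  have hsum : ∑ j ∈ Finset.range (m + 1), MvPolynomial.aeval r (c j) = 0 := by
    have := (mul_eq_zero.mp hrel).resolve_left (pow_ne_zero _ hz)
    exact hinj (by rw [this, map_zero])
  rw [Finset.sum_range_succ'] at hsum
  simp only [hc0, map_one] at hsum
  have hmem : ∑ j ∈ Finset.range m, MvPolynomial.aeval r (c (j + 1)) ∈
      IsLocalRing.maximalIdeal O := by
    refine Ideal.sum_mem _ fun j _ => ?_
    have h1 := aeval_mem_span_of_isHomogeneous (K := K) r (Nat.succ_pos j) (hc (j + 1))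
    have h2 : Ideal.span (Set.range r) ≤ IsLocalRing.maximalIdeal O := by
      rw [Ideal.span_le]
      rintro _ ⟨i, rfl⟩
      exact (IsLocalRing.mem_maximalIdeal _).mpr (hcon i)
    exact h2 h1
  have h1 : (1 : O) ∈ IsLocalRing.maximalIdeal O := by
    have : (1 : O) = -(∑ j ∈ Finset.range m, MvPolynomial.aeval r (c (j + 1))) := by
      rw [eq_neg_iff_add_eq_zero, add_comm]
      exact hsum
    rw [this]
    exact neg_mem hmem
  exact (IsLocalRing.maximalIdeal.isMaximal O).ne_top
    ((Ideal.eq_top_iff_one _).mpr h1)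

/-- Master form of graded Noether normalisation (in the Rees algebra `L[T]`). -/
theorem graded_noether_rees [Infinite K] {n : ℕ} (w : Fin n → L) :
    ∃ (k : ℕ) (a : Fin k → Fin n → K),
      AlgebraicIndependent K (rees (lin a w)) ∧
        ∀ i, IsIntegral (Algebra.adjoin K (Set.range (rees (lin a w))))
          (Polynomial.C (w i) * Polynomial.X) := by
  obtain ⟨k, a, hind, hint⟩ := linear_noether (K := K) (R := L[X]) n (rees w)
  rw [lin_rees] at hind hint
  exact ⟨k, a, hind, hint⟩

/-- **A4, packaged.**  `K` infinite, `w : Fin n → L` not all zero.  There are `g` and `g + 1`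
`K`-linear combinations `u_0, …, u_g` of the `w_i` such that
* `u_0 ≠ 0` and `u_1/u_0, …, u_g/u_0` are algebraically independent over `K`;
* `u` satisfies no homogeneous relation;
* every `w_i` is homogeneously integral over `K[u]`;
* every `w_i / u_0` is integral over `K[u_1/u_0, …, u_g/u_0]`. -/
theorem graded_noether_ratios [Infinite K] {n : ℕ} (w : Fin n → L) (hw : ∃ i, w i ≠ 0) :
    ∃ (g : ℕ) (a : Fin (g + 1) → Fin n → K),
      lin a w 0 ≠ 0 ∧
      AlgebraicIndependent K (fun i : Fin g => lin a w i.succ / lin a w 0) ∧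
      HomIndep K (lin a w) ∧
      (∀ i, HomIntegral K (lin a w) (w i)) ∧
      ∀ i, IsIntegral (Algebra.adjoin K (Set.range fun i : Fin g => lin a w i.succ / lin a w 0))
        (w i / lin a w 0) := by
  obtain ⟨k, a, hind, hint⟩ := graded_noether_rees (K := K) w
  have hI : HomIndep K (lin a w) := homIndep_of_algebraicIndependent _ hind
  have hH : ∀ i, HomIntegral K (lin a w) (w i) := fun i => homIntegral_of_isIntegral _ _ (hint i)
  obtain ⟨i0, hi0⟩ := hw
  have hk : k ≠ 0 := by
    rintro rfl
    obtain ⟨m, hm, c, hc, hc0, hrel⟩ := hH i0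
    have hzero : ∀ j, 0 < j → c j = 0 := by
      intro j hj
      ext s
      have hs : s = 0 := Subsingleton.elim _ _
      subst hs
      by_contra hne
      have := hc j hne
      simp at this
      omega
    rw [Finset.sum_range_succ'] at hrel
    rw [Finset.sum_eq_zero (fun j _ => by rw [hzero (j + 1) (Nat.succ_pos j), map_zero,
      zero_mul])] at hrel
    simp only [hc0, map_one, Nat.sub_zero, one_mul, zero_add] at hrel
    exact hi0 (pow_eq_zero_iff hm.ne' |>.mp hrel)
  obtain ⟨g, rfl⟩ := Nat.exists_eq_succ_of_ne_zero hk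
  exact ⟨g, a, hI.ne_zero 0, hI.algebraicIndependent_ratios, hI, hH,
    fun i => isIntegral_div_of_rees _ (hI.ne_zero 0) _ (hint i)⟩

end PartRatio

end Fermat.Agent.S26.H277

end
-- ===== PACK-END S26/H277/A4.lean

-- ===== PACK-BEGIN S18/H694/PrimeRed.lean
section


/-!
# S18: reduction to PRIME `m` at the top level (helper694)

`reductionModL A N` is an additive group homomorphism, so the frozen statement S18 for all `m`
prime to `ℓ` follows from the case where `m` is a prime number different from `ℓ`
(strong induction on `m`: `z' := (m / p) • z` is killed by `p` and has zero reduction).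

Consequence for the row: every node below the top (CORE, d2, GLUE, ALG) is only needed for
PRIME `m`; no induction / rescaling is needed inside ALG.
-/

set_option autoImplicit false

namespace Fermat.Agent.S18.H694

/-- Abstract form: for an additive hom `red`, "`p`-torsion with zero reduction vanishes for all
primes `p ≠ ℓ`" implies the same for every `m` prime to `ℓ`. -/
theorem eq_zero_of_prime_case {G H : Type*} [AddCommGroup G] [AddCommGroup H] (red : G →+ H)
    {ℓ : ℕ} (hℓ : ℓ.Prime)
    (hprime : ∀ p : ℕ, p.Prime → p ≠ ℓ → ∀ z : G, p • z = 0 → red z = 0 → z = 0) :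
    ∀ m : ℕ, ¬ ℓ ∣ m → ∀ z : G, m • z = 0 → red z = 0 → z = 0 := by
  intro m
  induction m using Nat.strong_induction_on with
  | _ m ih =>
    intro hm z hmz hz
    rcases Nat.lt_or_ge m 2 with h2 | h2
    · interval_cases m
      · exact absurd (dvd_zero ℓ) hm
      · simpa using hmz
    · obtain ⟨p, hp, hpm⟩ := Nat.exists_prime_and_dvd (by omega : m ≠ 1)
      obtain ⟨m', rfl⟩ := hpm
      have hm'pos : 0 < m' := by
        rcases Nat.eq_zero_or_pos m' with h | h
        · subst h; simp at h2
        · exact h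
      have hpl : p ≠ ℓ := by
        rintro rfl
        exact hm (dvd_mul_right _ _)
      have hm' : ¬ ℓ ∣ m' := fun h => hm (h.mul_left p)
      have hz' : m' • z = 0 := by
        apply hprime p hp hpl (m' • z)
        · rw [smul_smul]; exact hmz
        · rw [map_nsmul, hz, smul_zero]
      have hlt : m' < p * m' := by
        have := hp.two_le
        nlinarith
      exact ih m' hlt hm' z hz' hz

open ModularCurve in
/-- The frozen S18 statement for all `m` from its PRIME case. -/
theorem s18_of_prime_case (N : ℕ) [NeZero N] {ℓ : ℕ} [Fact ℓ.Prime]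
    (A : ValuationSubring (AlgebraicClosure ℚ))
    (hprime : ∀ p : ℕ, p.Prime → ¬ ℓ ∣ p → ∀ z : ModularCurve.JZero N,
      p • z = 0 → ModularCurve.reductionModL A N z = 0 → z = 0)
    (m : ℕ) (hm : ¬ ℓ ∣ m) (z : ModularCurve.JZero N)
    (hmz : m • z = 0) (hz : ModularCurve.reductionModL A N z = 0) : z = 0 := by
  have hℓ : ℓ.Prime := Fact.out
  refine eq_zero_of_prime_case (ModularCurve.reductionModL A N) hℓ ?_ m hm z hmz hz
  intro p hp hpl
  exact hprime p hp (fun h => hpl ((Nat.prime_dvd_prime_iff_eq hℓ hp).mp h).symm)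

end Fermat.Agent.S18.H694

end
-- ===== PACK-END S18/H694/PrimeRed.lean

-- ===== PACK-BEGIN S30/H990/Quad.lean
section
/-
S30 top glue (helper990): pure algebra, part 1.

* `lucas`           : `h² - a h + b = 0`  ⟹  `(h^j)² - t (h^j) + b^j = 0` for some scalar `t`.
* `anticomm_of_rel` : quadratic relations for `x`, `x y` with `y² = 1` and "determinants" `d`, `-d`
                      give `x y + y x = a' + a y`.
* `Matrix` lemmas for `2 × 2` matrices satisfying a quadratic relation.
-/


set_option autoImplicit false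

namespace Fermat.Agent.S30.H990

section Lucas

variable {R A : Type*} [CommRing R] [Ring A] [Algebra R A]

/-- If `h` satisfies `X² - aX + b`, then `h ^ j` satisfies `X² - tX + b ^ j` for some `t`. -/
theorem lucas (h : A) (a b : R) (hrel : h * h - a • h + b • (1 : A) = 0) (j : ℕ) :
    ∃ t : R, h ^ j * h ^ j - t • h ^ j + (b ^ j) • (1 : A) = 0 := by
  -- the "conjugate" of `h`
  set k : A := a • (1 : A) - h with hk
  have hcomm : Commute h k := by
    have : Commute h (a • (1 : A)) := (Commute.one_right h).smul_right a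
    exact this.sub_right (Commute.refl h)
  have hhk : h * k = b • (1 : A) := by
    have : h * k = a • h - h * h := by
      rw [hk, mul_sub, mul_smul_comm, mul_one]
    rw [this]
    calc a • h - h * h = b • (1 : A) - (h * h - a • h + b • (1 : A)) := by abel
      _ = b • (1 : A) := by rw [hrel, sub_zero]
  have hsum : h + k = a • (1 : A) := by rw [hk]; abel
  -- power sums are scalars
  have key : ∀ n : ℕ, (∃ t : R, h ^ n + k ^ n = t • (1 : A)) ∧
      (∃ t : R, h ^ (n + 1) + k ^ (n + 1) = t • (1 : A)) := by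
    intro n
    induction n with
    | zero =>
      refine ⟨⟨2, ?_⟩, ⟨a, ?_⟩⟩
      · rw [pow_zero, pow_zero, two_smul]
      · rw [zero_add, pow_one, pow_one, hsum]
    | succ n ih =>
      obtain ⟨⟨t0, h0⟩, ⟨t1, h1⟩⟩ := ih
      refine ⟨⟨t1, h1⟩, ⟨a * t1 - b * t0, ?_⟩⟩
      have e1 : h ^ (n + 1 + 1) + k ^ (n + 1 + 1)
          = (h + k) * (h ^ (n + 1) + k ^ (n + 1)) - (h * k) * (h ^ n + k ^ n) := by
        have c1 : k * h ^ (n + 1) = (h * k) * h ^ n := by
          rw [pow_succ', ← mul_assoc, hcomm.eq]
        have c2 : h * k ^ (n + 1) = (h * k) * k ^ n := by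
          rw [pow_succ', ← mul_assoc]
        rw [add_mul, mul_add, mul_add, mul_add, c1, c2, pow_succ' h (n + 1), pow_succ' k (n + 1)]
        abel
      rw [e1, hsum, hhk, h1, h0]
      simp only [mul_smul_comm, mul_one, smul_smul, sub_smul]
      rw [mul_comm t1 a, mul_comm t0 b]
  obtain ⟨t, ht⟩ := (key j).1
  refine ⟨t, ?_⟩
  have hprod : h ^ j * k ^ j = (b ^ j) • (1 : A) := by
    rw [← hcomm.mul_pow, hhk, smul_pow, one_pow]
  have : h ^ j * h ^ j - t • h ^ j + (b ^ j) • (1 : A) = h ^ j * (h ^ j + k ^ j - t • (1 : A)) := by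
    rw [mul_sub, mul_add, hprod, mul_smul_comm, mul_one]
    abel
  rw [this, ht, sub_self, mul_zero]

end Lucas

section Anticomm

variable {R A : Type*} [CommRing R] [Ring A] [Algebra R A]

/-- The anticommutator identity. -/
theorem anticomm_of_rel (x y : A) (a a' : R) (d : Rˣ) (hy : y * y = 1)
    (hx : x * x - a • x + (d : R) • (1 : A) = 0)
    (hxy : (x * y) * (x * y) - a' • (x * y) + (-(d : R)) • (1 : A) = 0) :
    x * y + y * x = a' • (1 : A) + a • y := by
  -- `x y x = a' x + d y`
  have h1 : x * y * x = a' • x + (d : R) • y := by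
    have := congrArg (· * y) hxy
    simp only [zero_mul, add_mul, sub_mul, smul_mul_assoc, neg_smul, neg_mul, one_mul] at this
    have e : x * y * (x * y) * y = x * y * x := by
      rw [mul_assoc (x * y) (x * y) y, mul_assoc x y y, hy, mul_one]
    have e' : x * y * y = x := by rw [mul_assoc, hy, mul_one]
    rw [e, e'] at this
    calc x * y * x = (x * y * x - a' • x + -((d : R) • y)) + (a' • x + (d : R) • y) := by abel
      _ = a' • x + (d : R) • y := by rw [this, zero_add]
  -- `(a - x) x = d`
  have h2 : (a • (1 : A) - x) * x = (d : R) • (1 : A) := by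
    rw [sub_mul, smul_mul_assoc, one_mul]
    calc a • x - x * x = (d : R) • (1 : A) - (x * x - a • x + (d : R) • (1 : A)) := by abel
      _ = (d : R) • (1 : A) := by rw [hx, sub_zero]
  have h3 : (d : R) • (y * x) = (d : R) • (a' • (1 : A) + a • y - x * y) := by
    have : (a • (1 : A) - x) * (x * y * x) = (d : R) • (y * x) := by
      rw [← mul_assoc, ← mul_assoc, h2, smul_mul_assoc, one_mul, smul_mul_assoc]
    rw [← this, h1, mul_add, mul_smul_comm, mul_smul_comm, h2, sub_mul, smul_mul_assoc, one_mul]
    simp only [smul_add, smul_sub, smul_smul]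
    rw [mul_comm a' (d : R), mul_comm (d : R) a]
    abel
  have h4 : y * x = a' • (1 : A) + a • y - x * y := by
    have := congrArg (fun z => ((d⁻¹ : Rˣ) : R) • z) h3
    simpa only [smul_smul, Units.inv_mul, one_smul] using this
  rw [h4]; abel

end Anticomm

end Fermat.Agent.S30.H990

namespace Fermat.Agent.S30.H990

section Mat2

open Matrix

variable {R : Type*} [CommRing R]

/-- Cayley–Hamilton for `2 × 2` matrices, by hand. -/
theorem mat2_cayley (X : Matrix (Fin 2) (Fin 2) R) :
    X * X - X.trace • X + X.det • (1 : Matrix (Fin 2) (Fin 2) R) = 0 := by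
  ext i j
  fin_cases i <;> fin_cases j <;>
    simp [Matrix.mul_apply, Fin.sum_univ_two, Matrix.trace_fin_two, Matrix.det_fin_two] <;> ring

variable [IsDomain R]

/-- A `2 × 2` matrix satisfying `X² - aX + d = 0` has trace `a` and determinant `d`,
or it is a scalar matrix. -/
theorem mat2_dichotomy (X : Matrix (Fin 2) (Fin 2) R) (a d : R)
    (h : X * X - a • X + d • (1 : Matrix (Fin 2) (Fin 2) R) = 0) :
    (X.trace = a ∧ X.det = d) ∨ ∃ l : R, X = l • (1 : Matrix (Fin 2) (Fin 2) R) := by
  have hc := mat2_cayley X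
  have key : (X.trace - a) • X = (X.det - d) • (1 : Matrix (Fin 2) (Fin 2) R) := by
    have : (X.trace - a) • X - (X.det - d) • (1 : Matrix (Fin 2) (Fin 2) R)
        = (X * X - a • X + d • (1 : Matrix (Fin 2) (Fin 2) R))
          - (X * X - X.trace • X + X.det • (1 : Matrix (Fin 2) (Fin 2) R)) := by
      simp only [sub_smul]; abel
    rw [h, hc, sub_zero] at this
    exact sub_eq_zero.mp this
  by_cases ht : X.trace = a
  · left
    refine ⟨ht, ?_⟩
    have h00 := congrFun (congrFun key 0) 0
    simp only [ht, sub_self, Matrix.smul_apply, Matrix.one_apply_eq,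
      smul_eq_mul, mul_one, zero_mul] at h00
    exact (sub_eq_zero.mp h00.symm)
  · right
    have hne : X.trace - a ≠ 0 := sub_ne_zero.mpr ht
    have h00 := congrFun (congrFun key 0) 0
    have h01 := congrFun (congrFun key 0) 1
    have h10 := congrFun (congrFun key 1) 0
    have h11 := congrFun (congrFun key 1) 1
    simp only [Matrix.smul_apply, smul_eq_mul, Matrix.one_apply_eq, mul_one] at h00 h11
    simp only [Matrix.smul_apply, smul_eq_mul, ne_eq, zero_ne_one, not_false_eq_true,
      Matrix.one_apply_ne, mul_zero, mul_eq_zero, hne, false_or] at h01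
    simp only [Matrix.smul_apply, smul_eq_mul, ne_eq, one_ne_zero, not_false_eq_true,
      Matrix.one_apply_ne, mul_zero, mul_eq_zero, hne, false_or] at h10
    have hd : X 0 0 = X 1 1 := mul_left_cancel₀ hne (h00.trans h11.symm)
    refine ⟨X 0 0, ?_⟩
    ext i j
    fin_cases i <;> fin_cases j <;> simp [h01, h10, hd]

/-- If `l • C` is scalar with `l ≠ 0`, then `C` is scalar. -/
theorem mat2_scalar_of_smul_scalar (C : Matrix (Fin 2) (Fin 2) R) (l m : R) (hl : l ≠ 0)
    (h : l • C = m • (1 : Matrix (Fin 2) (Fin 2) R)) :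
    ∃ n : R, C = n • (1 : Matrix (Fin 2) (Fin 2) R) := by
  have h00 := congrFun (congrFun h 0) 0
  have h01 := congrFun (congrFun h 0) 1
  have h10 := congrFun (congrFun h 1) 0
  have h11 := congrFun (congrFun h 1) 1
  simp only [Matrix.smul_apply, smul_eq_mul, Matrix.one_apply_eq, mul_one] at h00 h11
  simp only [Matrix.smul_apply, smul_eq_mul, ne_eq, zero_ne_one, not_false_eq_true,
    Matrix.one_apply_ne, mul_zero, mul_eq_zero, hl, false_or] at h01
  simp only [Matrix.smul_apply, smul_eq_mul, ne_eq, one_ne_zero, not_false_eq_true,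
    Matrix.one_apply_ne, mul_zero, mul_eq_zero, hl, false_or] at h10
  have hd : C 0 0 = C 1 1 := mul_left_cancel₀ hl (h00.trans h11.symm)
  refine ⟨C 0 0, ?_⟩
  ext i j
  fin_cases i <;> fin_cases j <;> simp [h01, h10, hd]

/-- Trace and determinant of a two-dimensional matrix representation all of whose elements
satisfy quadratic relations with multiplicative constant term, in the presence of a non-scalar
element `c` with `d c = -1`. -/
theorem mat2_trace_det_of_rel {G : Type*} [Group G] (A : G →* Matrix (Fin 2) (Fin 2) R)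
    (d : G →* Rˣ)
    (hrel : ∀ g, ∃ a : R, A g * A g - a • A g + ((d g : Rˣ) : R) • 1 = 0)
    (c : G) (hdc : d c = -1) (hcns : ¬ ∃ l : R, A c = l • (1 : Matrix (Fin 2) (Fin 2) R))
    (g : G) (a : R) (hg : A g * A g - a • A g + ((d g : Rˣ) : R) • 1 = 0) :
    (A g).trace = a ∧ (A g).det = ((d g : Rˣ) : R) := by
  rcases mat2_dichotomy (A g) a _ hg with h | ⟨l, hl⟩
  · exact h
  -- scalar case
  have hdetc : (A c).det = -1 := by
    obtain ⟨ac, hac⟩ := hrel c
    rcases mat2_dichotomy (A c) ac _ hac with h | h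
    · rw [h.2, hdc]; simp
    · exact absurd h hcns
  have hl0 : l ≠ 0 := by
    intro h0
    have h1 : A g * A g⁻¹ = 1 := by rw [← map_mul, mul_inv_cancel, map_one]
    rw [hl, h0, zero_smul, zero_mul] at h1
    exact zero_ne_one h1
  have hgc : A (g * c) = l • A c := by rw [map_mul, hl, smul_mul_assoc, one_mul]
  obtain ⟨a', ha'⟩ := hrel (g * c)
  have hdetgc : (A (g * c)).det = -((d g : Rˣ) : R) := by
    rcases mat2_dichotomy (A (g * c)) a' _ ha' with h | ⟨m, hm⟩
    · rw [h.2, map_mul, hdc]; simp
    · rw [hgc] at hm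
      exact absurd (mat2_scalar_of_smul_scalar (A c) l m hl0 hm) hcns
  have hd : ((d g : Rˣ) : R) = l ^ 2 := by
    rw [hgc, Matrix.det_smul, hdetc, Fintype.card_fin] at hdetgc
    linear_combination hdetgc
  have ha : a = 2 * l := by
    have h00 := congrFun (congrFun hg 0) 0
    rw [hl, hd] at h00
    simp only [Matrix.add_apply, Matrix.sub_apply, Matrix.mul_apply, Fin.sum_univ_two,
      Matrix.smul_apply, Matrix.one_apply_eq, smul_eq_mul, mul_one, Matrix.zero_apply, ne_eq,
      zero_ne_one, not_false_eq_true, Matrix.one_apply_ne, mul_zero, add_zero] at h00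
    have : l * (2 * l - a) = 0 := by linear_combination h00
    rcases mul_eq_zero.mp this with h | h
    · exact absurd h hl0
    · exact (sub_eq_zero.mp h).symm
  constructor
  · rw [hl, Matrix.trace_fin_two]; simp [ha]; ring
  · rw [hl, hd, Matrix.det_fin_two]; simp; ring

end Mat2

end Fermat.Agent.S30.H990

end
-- ===== PACK-END S30/H990/Quad.lean

-- ===== PACK-BEGIN S30/H990/Sat.lean
section
/-
S30 top glue (helper990): pure algebra, part 2: saturation of a submodule of a torsion-free module
and the rank of the saturation of a free submodule.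
-/


set_option autoImplicit false

namespace Fermat.Agent.S30.H990

open Module

section Sat

variable {R M : Type*} [CommRing R] [IsDomain R] [AddCommGroup M] [Module R M]

/-- The saturation of a submodule: all `m` some nonzero multiple of which lies in `N`. -/
def sat (N : Submodule R M) : Submodule R M where
  carrier := {m | ∃ r : R, r ≠ 0 ∧ r • m ∈ N}
  zero_mem' := ⟨1, one_ne_zero, by simp⟩
  add_mem' := by
    rintro x y ⟨r, hr, hx⟩ ⟨s, hs, hy⟩
    refine ⟨r * s, mul_ne_zero hr hs, ?_⟩
    rw [smul_add]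
    refine N.add_mem ?_ ?_
    · rw [mul_comm, mul_smul]; exact N.smul_mem s hx
    · rw [mul_smul]; exact N.smul_mem r hy
  smul_mem' := by
    rintro c x ⟨r, hr, hx⟩
    exact ⟨r, hr, by rw [smul_comm]; exact N.smul_mem c hx⟩

theorem mem_sat {N : Submodule R M} {m : M} : m ∈ sat N ↔ ∃ r : R, r ≠ 0 ∧ r • m ∈ N := Iff.rfl

theorem le_sat (N : Submodule R M) : N ≤ sat N := fun x hx => ⟨1, one_ne_zero, by simpa using hx⟩

/-- The saturation is saturated. -/
theorem mem_sat_of_smul_mem {N : Submodule R M} {r : R} (hr : r ≠ 0) {m : M}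
    (h : r • m ∈ sat N) : m ∈ sat N := by
  obtain ⟨s, hs, hm⟩ := h
  exact ⟨s * r, mul_ne_zero hs hr, by rwa [mul_smul]⟩

/-- A linear map sending `N` into `sat N` preserves `sat N`. -/
theorem map_mem_sat {N : Submodule R M} (f : M →ₗ[R] M) (hf : ∀ x ∈ N, f x ∈ sat N)
    {m : M} (hm : m ∈ sat N) : f m ∈ sat N := by
  obtain ⟨r, hr, hrm⟩ := hm
  have := hf _ hrm
  rw [map_smul] at this
  exact mem_sat_of_smul_mem hr this

/-- To check that `f` maps `span s` into `sat (span s)` it suffices to check generators. -/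
theorem map_span_le_sat {s : Set M} (f : M →ₗ[R] M) (hf : ∀ x ∈ s, f x ∈ sat (Submodule.span R s))
    {x : M} (hx : x ∈ Submodule.span R s) : f x ∈ sat (Submodule.span R s) := by
  induction hx using Submodule.span_induction with
  | mem x hx => exact hf x hx
  | zero => rw [map_zero]; exact Submodule.zero_mem _
  | add x y _ _ hx hy => rw [map_add]; exact Submodule.add_mem _ hx hy
  | smul a x _ hx => rw [map_smul]; exact Submodule.smul_mem _ a hx

/-- A finitely generated submodule of `sat N` is carried into `N` by a single nonzero scalar. -/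
theorem exists_smul_le_of_fg {N : Submodule R M} {P : Submodule R M} (hP : P.FG) (hle : P ≤ sat N) :
    ∃ r : R, r ≠ 0 ∧ ∀ x ∈ P, r • x ∈ N := by
  classical
  obtain ⟨S, rfl⟩ := hP
  induction S using Finset.induction_on with
  | empty =>
    refine ⟨1, one_ne_zero, fun x hx => ?_⟩
    simp only [Finset.coe_empty, Submodule.span_empty, Submodule.mem_bot] at hx
    rw [hx, smul_zero]; exact N.zero_mem
  | insert a S _ ih =>
    have hS : Submodule.span R (S : Set M) ≤ sat N :=
      (Submodule.span_mono (by simp)).trans hle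
    obtain ⟨r, hr, hrS⟩ := ih hS
    have ha : a ∈ sat N := hle (Submodule.subset_span (by simp))
    obtain ⟨s, hs, hsa⟩ := ha
    refine ⟨r * s, mul_ne_zero hr hs, fun x hx => ?_⟩
    rw [Finset.coe_insert, Submodule.mem_span_insert] at hx
    obtain ⟨c, y, hy, rfl⟩ := hx
    rw [smul_add]
    refine N.add_mem ?_ ?_
    · rw [smul_comm, mul_smul]
      exact N.smul_mem _ (N.smul_mem _ hsa)
    · rw [mul_comm, mul_smul]
      exact N.smul_mem _ (hrS y hy)

end Sat

section Rank

variable {R M : Type*} [CommRing R] [IsDomain R] [IsPrincipalIdealRing R]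
  [AddCommGroup M] [Module R M] [Module.Finite R M] [Module.Free R M]

/-- The saturation of the span of a linearly independent family of `n` vectors is free of
rank `n`. -/
theorem finrank_sat_span {n : ℕ} (v : Fin n → M) (hv : LinearIndependent R v) :
    Module.finrank R (sat (Submodule.span R (Set.range v))) = n := by
  set N := Submodule.span R (Set.range v) with hN
  set Λ := sat N with hΛ
  have hvN : ∀ i, v i ∈ N := fun i => Submodule.subset_span (Set.mem_range_self i)
  apply le_antisymm
  · -- upper bound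
    have hfg : Λ.FG := IsNoetherian.noetherian Λ
    obtain ⟨r, hr, hrΛ⟩ := exists_smul_le_of_fg hfg (le_refl Λ)
    let f : Λ →ₗ[R] N :=
      { toFun := fun x => ⟨r • (x : M), hrΛ x x.2⟩
        map_add' := fun x y => by ext; simp [smul_add]
        map_smul' := fun c x => by ext; simp [smul_comm r c] }
    have hf : Function.Injective f := by
      intro x y hxy
      have : r • (x : M) = r • (y : M) := congrArg Subtype.val hxy
      exact Subtype.ext (smul_right_injective M hr this)
    have h1 := LinearMap.finrank_le_finrank_of_injective hf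
    have h2 : Module.finrank R N = n := by
      rw [hN, finrank_span_eq_card hv, Fintype.card_fin]
    omega
  · -- lower bound
    let v' : Fin n → Λ := fun i => ⟨v i, le_sat N (hvN i)⟩
    have hv' : LinearIndependent R v' := by
      apply LinearIndependent.of_comp Λ.subtype
      exact hv
    have := hv'.fintype_card_le_finrank
    simpa using this

end Rank

end Fermat.Agent.S30.H990

end
-- ===== PACK-END S30/H990/Sat.lean

-- ===== PACK-BEGIN S22/H262/WeightNonpos.lean
section



set_option autoImplicit false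

/-! Function-level vanishing in weight `≤ 0` (proof by helper442). -/

namespace Fermat.Agent.S22.H262

open UpperHalfPlane ModularForm CongruenceSubgroup Matrix.SpecialLinearGroup
open scoped MatrixGroups Manifold

/-- Function-level vanishing in weight `≤ 0`: a holomorphic function on `ℍ`, invariant under
`Γ₀(N)` for the weight `k ≤ 0` slash action, and such that every `SL(2,ℤ)`-translate is zero at
`i∞`, vanishes identically. -/
theorem eq_zero_of_weight_nonpos (N : ℕ) [NeZero N] {k : ℤ} (hk : k ≤ 0) (G : ℍ → ℂ)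
    (hol : MDiff G)
    (inv : ∀ γ ∈ (Gamma0 N : Subgroup (GL (Fin 2) ℝ)), G ∣[k] γ = G)
    (cusp : ∀ g : SL(2, ℤ), IsZeroAtImInfty (G ∣[k] g)) : G = 0 := by
  have hG0 : IsZeroAtImInfty G := by
    have := cusp 1
    simpa using this
  let F : ModularForm (Gamma0 N : Subgroup (GL (Fin 2) ℝ)) k :=
    { toFun := G
      slash_action_eq' := inv
      holo' := hol
      bdd_at_cusps' := fun {c} hc => by
        have hc' : IsCusp c 𝒮ℒ := (Subgroup.IsArithmetic.isCusp_iff_isCusp_SL2Z _).mp hc
        rw [OnePoint.isBoundedAt_iff_forall_SL2Z hc']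
        intro γ _
        exact (cusp γ).isBoundedAtImInfty }
  have hF : F = 0 := by
    apply ModularForm.sturm_bound_Gamma0 N F
    intro n hn
    have h0 : (k * ((Gamma0 N).index : ℤ)).toNat = 0 := by
      apply Int.toNat_of_nonpos
      exact mul_nonpos_of_nonpos_of_nonneg hk (by positivity)
    rw [h0] at hn
    have hn0 : n = 0 := by omega
    subst hn0
    have h1 : (1 : ℝ) ∈ (Gamma0 N : Subgroup (GL (Fin 2) ℝ)).strictPeriods := by
      simp
    have hper : Function.Periodic ((F : ℍ → ℂ) ∘ UpperHalfPlane.ofComplex) 1 := by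
      have := SlashInvariantFormClass.periodic_comp_ofComplex F h1
      simpa using this
    have han : AnalyticAt ℂ (cuspFunction 1 (F : ℍ → ℂ)) 0 :=
      ModularFormClass.analyticAt_cuspFunction_zero F one_pos h1
    rw [UpperHalfPlane.qExpansion_coeff_zero one_pos han hper]
    exact hG0.valueAtInfty_eq_zero
  have : (F : ℍ → ℂ) = 0 := by rw [hF]; rfl
  exact this

end Fermat.Agent.S22.H262

end
-- ===== PACK-END S22/H262/WeightNonpos.lean

-- ===== PACK-BEGIN S24/D5/H108Poly.lean
section


/-!
# D5: level-one modular functions are polynomials in `J = E₄³ / Δ`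

Mathlib-only.  Main results (namespace `Fermat.Agent.S24.H108`):

* `modularForm_eq_discriminant_pow_mul_eval` : every `g : ModularForm 𝒮ℒ (12 * m)` is
  `Δ ^ m * P (E₄³ / Δ)` for a polynomial `P` of degree `≤ m`.
* `exists_polynomial_of_invariant` : an `SL(2,ℤ)`-invariant holomorphic `f : ℍ → ℂ` with
  `f * Δ ^ m` bounded at `i∞` is `P (E₄³ / Δ)` for a polynomial `P` of degree `≤ m`.
-/

noncomputable section

open UpperHalfPlane ModularForm SlashInvariantForm SlashInvariantFormClass ModularFormClass
  CuspFormClass MatrixGroups OnePoint Filter EisensteinSeries Asymptotics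

open scoped Topology Manifold

namespace Fermat.Agent.S24.H108

local notation "Δ" => ModularForm.discriminant

/-- The (un-normalised) `J`-function `E₄³ / Δ` on the upper half plane. -/
def jFun (τ : ℍ) : ℂ := E₄ τ ^ 3 / Δ τ

lemma jFun_def (τ : ℍ) : jFun τ = E₄ τ ^ 3 / Δ τ := rfl

/-- `E₄ ^ (3 * m)` as a modular form of weight `12 * m`. -/
def e4Pow (m : ℕ) : ModularForm 𝒮ℒ (12 * (m : ℤ)) :=
  ModularForm.mcast (by push_cast; ring) (E₄.pow (3 * m))

lemma e4Pow_coe (m : ℕ) : (e4Pow m : ℍ → ℂ) = (E₄.pow (3 * m) : ℍ → ℂ) := by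
  simp [e4Pow, coe_mcast]

lemma e4Pow_apply (m : ℕ) (τ : ℍ) : e4Pow m τ = E₄ τ ^ (3 * m) := by
  rw [e4Pow_coe, coe_pow, Pi.pow_apply]

lemma e4Pow_qExpansion_coeff_zero (m : ℕ) : (qExpansion 1 (e4Pow m)).coeff 0 = 1 := by
  rw [e4Pow_coe, ModularForm.qExpansion_pow one_pos one_mem_strictPeriods_SL]
  have h1 : (qExpansion 1 E₄).coeff 0 = 1 := E_qExpansion_coeff_zero _ ⟨2, rfl⟩
  rw [PowerSeries.coeff_zero_eq_constantCoeff_apply] at h1 ⊢
  rw [map_pow, h1, one_pow]

/-- Core statement: every level one modular form of weight `12 * m` is `Δ ^ m` times a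
polynomial of degree `≤ m` in `E₄³ / Δ`. -/
theorem modularForm_eq_discriminant_pow_mul_eval (m : ℕ) (g : ModularForm 𝒮ℒ (12 * (m : ℤ))) :
    ∃ P : Polynomial ℂ, P.natDegree ≤ m ∧ ∀ τ : ℍ, g τ = Δ τ ^ m * P.eval (jFun τ) := by
  induction m with
  | zero =>
    obtain ⟨c, hc⟩ := ModularFormClass.levelOne_weight_zero_const
      (ModularForm.mcast (show (12 * ((0 : ℕ) : ℤ)) = 0 by simp) g)
    refine ⟨Polynomial.C c, by simp, fun τ => ?_⟩
    have := congrFun hc τ
    simpa [coe_mcast] using this
  | succ m ih =>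
    set c : ℂ := (qExpansion 1 g).coeff 0 with hc
    -- h = g - c • E₄^(3(m+1)) has vanishing constant term
    set h : ModularForm 𝒮ℒ (12 * ((m + 1 : ℕ) : ℤ)) := g - c • e4Pow (m + 1) with hh
    have hcoeff : (qExpansion 1 h).coeff 0 = 0 := by
      have : (h : ℍ → ℂ) = (g : ℍ → ℂ) - ((c • e4Pow (m + 1) : ModularForm 𝒮ℒ _) : ℍ → ℂ) := rfl
      rw [this, ModularForm.qExpansion_sub one_pos one_mem_strictPeriods_SL]
      have h2 : ((c • e4Pow (m + 1) : ModularForm 𝒮ℒ _) : ℍ → ℂ) = c • (e4Pow (m + 1) : ℍ → ℂ) :=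
        rfl
      rw [h2, ModularForm.qExpansion_smul one_pos one_mem_strictPeriods_SL, map_sub,
        PowerSeries.coeff_smul, e4Pow_qExpansion_coeff_zero, smul_eq_mul, mul_one, sub_self]
    -- divide by Δ
    set h' : ModularForm 𝒮ℒ (12 * ((m + 1 : ℕ) : ℤ) - 12) :=
      CuspForm.discriminantEquiv (toCuspForm h hcoeff) with hh'
    obtain ⟨P', hP'deg, hP'⟩ := ih (ModularForm.mcast (by push_cast; ring) h')
    refine ⟨Polynomial.C c * Polynomial.X ^ (m + 1) + P', ?_, fun τ => ?_⟩
    · refine (Polynomial.natDegree_add_le _ _).trans (max_le ?_ (hP'deg.trans (Nat.le_succ m)))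
      exact (Polynomial.natDegree_C_mul_le _ _).trans (Polynomial.natDegree_X_pow_le _)
    · have hΔ : Δ τ ≠ 0 := discriminant_ne_zero τ
      have e1 : Δ τ * h' τ = h τ :=
        discriminant_mul_discriminantEquiv_apply (toCuspForm h hcoeff) τ
      have e2 : h' τ = Δ τ ^ m * P'.eval (jFun τ) := by
        have := hP' τ
        simpa [coe_mcast] using this
      have e3 : h τ = g τ - c * E₄ τ ^ (3 * (m + 1)) := by
        rw [← e4Pow_apply]; rfl
      have hJ : Δ τ ^ (m + 1) * jFun τ ^ (m + 1) = E₄ τ ^ (3 * (m + 1)) := by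
        rw [← mul_pow, jFun_def, mul_div_cancel₀ _ hΔ, ← pow_mul]
      simp only [Polynomial.eval_add, Polynomial.eval_mul, Polynomial.eval_C, Polynomial.eval_pow,
        Polynomial.eval_X]
      rw [e2] at e1
      linear_combination -e3 - e1 - c * hJ

/-! ### From invariant functions to modular forms -/

/-- `Δ ^ m` as a modular form of weight `12 * m`. -/
def deltaPow (m : ℕ) : ModularForm 𝒮ℒ (12 * (m : ℤ)) :=
  ModularForm.mcast (by ring)
    ((ModularFormClass.modularForm CuspForm.discriminant).pow m)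

lemma deltaPow_coe (m : ℕ) : (deltaPow m : ℍ → ℂ) = fun τ => Δ τ ^ m := by
  ext τ
  simp [deltaPow, coe_mcast, coe_pow]

lemma deltaPow_apply (m : ℕ) (τ : ℍ) : deltaPow m τ = Δ τ ^ m := by
  rw [deltaPow_coe]

/-- A function invariant under `SL(2,ℤ)` is weight-0 slash invariant. -/
lemma slash_zero_eq_of_invariant {f : ℍ → ℂ}
    (hinv : ∀ (γ : SL(2, ℤ)) (τ : ℍ), f (γ • τ) = f τ) (γ : SL(2, ℤ)) :
    f ∣[(0 : ℤ)] γ = f := by
  ext τ
  rw [SL_slash_apply, hinv]
  simp

lemma mul_deltaPow_slash {f : ℍ → ℂ}
    (hinv : ∀ (γ : SL(2, ℤ)) (τ : ℍ), f (γ • τ) = f τ) (m : ℕ) (γ : SL(2, ℤ)) :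
    (fun τ => f τ * Δ τ ^ m) ∣[(12 * (m : ℤ))] γ = fun τ => f τ * Δ τ ^ m := by
  have h1 : (fun τ => f τ * Δ τ ^ m) = f * (deltaPow m : ℍ → ℂ) := by
    ext τ; simp [deltaPow_apply]
  have h2 := mul_slash_SL2 0 (12 * (m : ℤ)) γ f (deltaPow m)
  rw [zero_add] at h2
  have hγ : (γ : GL (Fin 2) ℝ) ∈ 𝒮ℒ := ⟨γ, rfl⟩
  have h3 : (deltaPow m : ℍ → ℂ) ∣[(12 * (m : ℤ))] γ = deltaPow m := by
    rw [SL_slash]
    exact slash_action_eqn (deltaPow m) _ hγ
  rw [h1, h2, slash_zero_eq_of_invariant hinv, h3]

/-- An `SL(2,ℤ)`-invariant holomorphic function `f` with `f * Δ ^ m` bounded at `i∞`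
gives the modular form `f * Δ ^ m` of weight `12 * m`. -/
def ofInvariant (f : ℍ → ℂ) (hf : MDiff f)
    (hinv : ∀ (γ : SL(2, ℤ)) (τ : ℍ), f (γ • τ) = f τ) (m : ℕ)
    (hbd : IsBoundedAtImInfty (fun τ => f τ * Δ τ ^ m)) : ModularForm 𝒮ℒ (12 * (m : ℤ)) where
  toFun τ := f τ * Δ τ ^ m
  slash_action_eq' := fun _ ⟨γ, hγ⟩ => hγ ▸ mul_deltaPow_slash hinv m γ
  holo' := by
    have h1 : (fun τ => f τ * Δ τ ^ m) = f * (deltaPow m : ℍ → ℂ) := by
      ext τ; simp [deltaPow_apply]
    change MDiff (fun τ => f τ * Δ τ ^ m)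
    rw [h1]
    exact hf.mul (ModularFormClass.holo (deltaPow m))
  bdd_at_cusps' {c} hc := by
    rw [Subgroup.IsArithmetic.isCusp_iff_isCusp_SL2Z] at hc
    rw [isBoundedAt_iff_forall_SL2Z hc]
    intro γ _
    rw [mul_deltaPow_slash hinv m γ]
    exact hbd

lemma ofInvariant_apply (f : ℍ → ℂ) (hf : MDiff f)
    (hinv : ∀ (γ : SL(2, ℤ)) (τ : ℍ), f (γ • τ) = f τ) (m : ℕ)
    (hbd : IsBoundedAtImInfty (fun τ => f τ * Δ τ ^ m)) (τ : ℍ) :
    ofInvariant f hf hinv m hbd τ = f τ * Δ τ ^ m := rfl

/-- **D5a.** An `SL(2,ℤ)`-invariant holomorphic function `f : ℍ → ℂ` such that `f * Δ ^ m` is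
bounded at `i∞` is a polynomial of degree `≤ m` in `J = E₄³ / Δ`. -/
theorem exists_polynomial_of_invariant (f : ℍ → ℂ) (hf : MDiff f)
    (hinv : ∀ (γ : SL(2, ℤ)) (τ : ℍ), f (γ • τ) = f τ) (m : ℕ)
    (hbd : IsBoundedAtImInfty (fun τ => f τ * Δ τ ^ m)) :
    ∃ P : Polynomial ℂ, P.natDegree ≤ m ∧ ∀ τ : ℍ, f τ = P.eval (E₄ τ ^ 3 / Δ τ) := by
  obtain ⟨P, hdeg, hP⟩ :=
    modularForm_eq_discriminant_pow_mul_eval m (ofInvariant f hf hinv m hbd)
  refine ⟨P, hdeg, fun τ => ?_⟩
  have h := hP τ
  rw [ofInvariant_apply, mul_comm] at h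
  exact mul_left_cancel₀ (pow_ne_zero m (discriminant_ne_zero τ)) h

end Fermat.Agent.S24.H108

end
end
-- ===== PACK-END S24/D5/H108Poly.lean

-- ===== PACK-BEGIN A2/Mod/H994/S2Abs.lean
section


/-!
# WALL A2 / MODASM — S2 (components normal), abstract core (helper994)

Mathlib only.  `K ⊆ L` fields with valuation subrings `VM`, `V`, an `R`-algebra map `φ : K → L`
(`α` or `β`), coordinates `yM ∈ K`, `y ∈ L` with `y ≡ φ(yM)^e` modulo the maximal ideal of `V`,
`B` = integral closure of `R[y]` in `L`, `p = B ∩ 𝔪_V`.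

`isIntegrallyClosed_quotient_of_residue`: if every element of `V` is congruent to some `φ g`,
`g ∈ VM` (residue degree one), and the level-`K` chart is normal modulo `𝔪_VM` (elementwise), then
`B ⧸ p` is integrally closed.

NOTE: `B` is in general NOT integral over `φ(B_K)` (chart at infinity), only modulo `p`; this is
why the statement is phrased through the residue field of `V`.
-/

set_option autoImplicit false
set_option linter.style.haveILetI false
set_option linter.unusedSectionVars false

namespace Fermat.Agent.A2.Mod.H994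

open Polynomial

section Abs

variable {R K L : Type*} [CommRing R] [Field K] [Field L] [Algebra R K] [Algebra R L]

/-- An element integral over `R[y]` lies in every valuation subring containing `R` and `y`. -/
theorem mem_valuationSubring_of_isIntegral_adjoin (V : ValuationSubring L)
    (hRV : ∀ r : R, algebraMap R L r ∈ V) {y : L} (hy : y ∈ V) {b : L}
    (hb : IsIntegral (Algebra.adjoin R ({y} : Set L)) b) : b ∈ V := by
  obtain ⟨p, hp, hpb⟩ := hb
  let V' : Subalgebra R L :=
    { V.toSubring with
      algebraMap_mem' := hRV }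
  have hle : Algebra.adjoin R ({y} : Set L) ≤ V' :=
    Algebra.adjoin_le (by
      intro z hz
      rw [Set.mem_singleton_iff] at hz
      subst hz
      exact hy)
  let j : ↥(Algebra.adjoin R ({y} : Set L)) →+* ↥V :=
    { toFun := fun a => ⟨a.1, hle a.2⟩
      map_one' := rfl
      map_mul' := fun _ _ => rfl
      map_zero' := rfl
      map_add' := fun _ _ => rfl }
  have hint : IsIntegral V b := by
    refine ⟨p.map j, hp.map j, ?_⟩
    rw [Polynomial.eval₂_map]
    exact hpb
  obtain ⟨v, hv⟩ := (IsIntegrallyClosed.isIntegral_iff (R := V) (K := L)).mp hint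
  rw [← hv]
  exact v.2

/-- Integrality over `R[y]` in polynomial form. -/
theorem exists_monic_eval₂_aeval_of_isIntegral_adjoin {y b : L}
    (hb : IsIntegral (Algebra.adjoin R ({y} : Set L)) b) :
    ∃ p : Polynomial (Polynomial R), p.Monic ∧
      p.eval₂ (Polynomial.aeval (R := R) y).toRingHom b = 0 := by
  obtain ⟨p, hp, hpb⟩ := hb
  set ψ : Polynomial R →ₐ[R] L := Polynomial.aeval (R := R) y with hψ
  have hrange : Algebra.adjoin R ({y} : Set L) = ψ.range :=
    Algebra.adjoin_singleton_eq_range_aeval R y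
  have hsurj : ∀ a : ↥(Algebra.adjoin R ({y} : Set L)), ∃ c : Polynomial R, ψ c = a.1 := by
    intro a
    have h1 : a.1 ∈ ψ.range := hrange ▸ a.2
    exact h1
  choose c hc using hsurj
  -- lift the coefficients
  let q : Polynomial (Polynomial R) :=
    Polynomial.X ^ p.natDegree + ∑ i ∈ Finset.range p.natDegree, Polynomial.C (c (p.coeff i)) *
      Polynomial.X ^ i
  have hdeg : (∑ i ∈ Finset.range p.natDegree, Polynomial.C (c (p.coeff i)) *
      (Polynomial.X : Polynomial (Polynomial R)) ^ i).degree < (p.natDegree : WithBot ℕ) := by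
    refine lt_of_le_of_lt (Polynomial.degree_sum_le _ _) ?_
    rw [Finset.sup_lt_iff (WithBot.bot_lt_coe _)]
    intro i hi
    refine lt_of_le_of_lt (Polynomial.degree_C_mul_X_pow_le _ _) ?_
    exact_mod_cast Finset.mem_range.1 hi
  have hq : q.Monic := Polynomial.monic_X_pow_add hdeg
  refine ⟨q, hq, ?_⟩
  have hp' := hp.as_sum
  have hpb' : Polynomial.eval₂ (algebraMap (↥(Algebra.adjoin R ({y} : Set L))) L) b p = 0 := hpb
  rw [hp'] at hpb'
  simp only [q, Polynomial.eval₂_add, Polynomial.eval₂_pow, Polynomial.eval₂_X,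
    Polynomial.eval₂_finsetSum, Polynomial.eval₂_mul, Polynomial.eval₂_C] at hpb' ⊢
  rw [← hpb']
  congr 1
  refine Finset.sum_congr rfl fun i _ => ?_
  congr 1
  exact hc _

/-- Transitivity: `z` integral over `R[y]` and `b` a root of a monic polynomial with coefficients
in `R[z]` ⟹ `b` integral over `R[y]`. -/
theorem isIntegral_adjoin_of_eval₂ {y z b : L}
    (hz : IsIntegral (Algebra.adjoin R ({y} : Set L)) z)
    (p : Polynomial (Polynomial R)) (hp : p.Monic)
    (hpb : p.eval₂ (Polynomial.aeval (R := R) z).toRingHom b = 0) :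
    IsIntegral (Algebra.adjoin R ({y} : Set L)) b := by
  let A := integralClosure (Algebra.adjoin R ({y} : Set L)) L
  have hmem : ∀ a : Polynomial R, Polynomial.aeval (R := R) z a ∈ A := by
    intro a
    have hle : Algebra.adjoin R ({z} : Set L) ≤ A.restrictScalars R :=
      Algebra.adjoin_le (by
        intro t ht
        rw [Set.mem_singleton_iff] at ht
        subst ht
        exact hz)
    exact hle (Polynomial.aeval_mem_adjoin_singleton R z)
  let ψA : Polynomial R →+* A :=
    (Polynomial.aeval (R := R) z).toRingHom.codRestrict A.toSubring hmem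
  have h1 : IsIntegral A b := by
    refine ⟨p.map ψA, hp.map ψA, ?_⟩
    rw [Polynomial.eval₂_map]
    exact hpb
  exact isIntegral_trans (R := ↥(Algebra.adjoin R ({y} : Set L))) (A := A) b h1

/-- An element of `R[y]`-root form is integral over `R[y]`. -/
theorem isIntegral_adjoin_of_eval₂_self {y b : L}
    (p : Polynomial (Polynomial R)) (hp : p.Monic)
    (hpb : p.eval₂ (Polynomial.aeval (R := R) y).toRingHom b = 0) :
    IsIntegral (Algebra.adjoin R ({y} : Set L)) b :=
  isIntegral_adjoin_of_eval₂
    (isIntegral_algebraMap (R := ↥(Algebra.adjoin R ({y} : Set L)))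
      (x := (⟨y, Algebra.subset_adjoin (Set.mem_singleton y)⟩ :
        ↥(Algebra.adjoin R ({y} : Set L))))) p hp hpb

/-- A monic polynomial relation in elementwise form. -/
theorem monic_eval₂_eq_sum (ψ : Polynomial R →+* L) (Q : Polynomial (Polynomial R))
    (hQ : Q.Monic) (g : L) :
    Q.eval₂ ψ g = g ^ Q.natDegree + ∑ i : Fin Q.natDegree, ψ (Q.coeff i) * g ^ (i : ℕ) := by
  conv_lhs => rw [hQ.as_sum]
  simp only [Polynomial.eval₂_add, Polynomial.eval₂_pow, Polynomial.eval₂_X,
    Polynomial.eval₂_finsetSum, Polynomial.eval₂_mul, Polynomial.eval₂_C]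
  rw [Finset.sum_range]

/-- **S2, abstract core.** -/
theorem isIntegrallyClosed_quotient_of_residue
    (VM : ValuationSubring K) (V : ValuationSubring L) (φ : K →ₐ[R] L)
    (yM : K) (y : L) (e : ℕ)
    (B : Subalgebra R L)
    (hB : ∀ f : L, f ∈ B ↔ IsIntegral (Algebra.adjoin R ({y} : Set L)) f)
    (p : Ideal B) (hp : ∀ b : B, b ∈ p ↔ V.valuation (b : L) < 1)
    (hRVM : ∀ r : R, algebraMap R K r ∈ VM) (hyM : yM ∈ VM)
    (hRV : ∀ r : R, algebraMap R L r ∈ V) (hyV : y ∈ V)
    (hφV : ∀ g ∈ VM, φ g ∈ V)
    (hφm : ∀ g : K, VM.valuation g < 1 → V.valuation (φ g) < 1)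
    (hkron : V.valuation (y - φ yM ^ e) < 1)
    (hres : ∀ f ∈ V, ∃ g ∈ VM, V.valuation (f - φ g) < 1)
    (hnormM : ∀ g ∈ VM, ∀ Q : Polynomial (Polynomial R), Q.Monic →
      VM.valuation (Q.eval₂ (Polynomial.aeval (R := R) yM).toRingHom g) < 1 →
      ∃ b : K, φ b ∈ B ∧ VM.valuation (g - b) < 1) :
    IsIntegrallyClosed (B ⧸ p) := by
  classical
  have hBV : ∀ b ∈ B, b ∈ V := fun b hb =>
    mem_valuationSubring_of_isIntegral_adjoin V hRV hyV ((hB b).1 hb)
  -- the residue map of `V`
  set ρ : V →+* IsLocalRing.ResidueField V := IsLocalRing.residue V with hρdef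
  have hρ : ∀ v : V, ρ v = 0 ↔ V.valuation (v : L) < 1 := fun v => by
    rw [hρdef, IsLocalRing.residue_eq_zero_iff, ValuationSubring.valuation_lt_one_iff]
  have hρeq : ∀ u v : V, V.valuation ((u : L) - v) < 1 → ρ u = ρ v := by
    intro u v h
    have : ρ (u - v) = 0 := (hρ _).2 h
    rwa [map_sub, sub_eq_zero] at this
  -- `B → V → κ`
  let ιB : B →+* V :=
    { toFun := fun b => ⟨b.1, hBV b.1 b.2⟩
      map_one' := rfl
      map_mul' := fun _ _ => rfl
      map_zero' := rfl
      map_add' := fun _ _ => rfl }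
  set ψ : B →+* IsLocalRing.ResidueField V := ρ.comp ιB with hψdef
  have hψ : ∀ b : B, ψ b = 0 ↔ b ∈ p := fun b => by
    rw [hp]
    exact hρ _
  have hker : RingHom.ker ψ = p := by
    ext b
    rw [RingHom.mem_ker, hψ]
  have hprime : p.IsPrime := hker ▸ RingHom.ker_isPrime ψ
  let ι : B ⧸ p →+* IsLocalRing.ResidueField V :=
    Ideal.Quotient.lift p ψ (fun b hb => (hψ b).2 hb)
  have hι : Function.Injective ι := by
    rw [injective_iff_map_eq_zero]
    intro z hz
    obtain ⟨b, rfl⟩ := Ideal.Quotient.mk_surjective z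
    rw [Ideal.Quotient.lift_mk] at hz
    exact Ideal.Quotient.eq_zero_iff_mem.2 ((hψ b).1 hz)
  let ι' : FractionRing (B ⧸ p) →+* IsLocalRing.ResidueField V := IsFractionRing.lift hι
  have hι' : ∀ z : B ⧸ p, ι' (algebraMap (B ⧸ p) (FractionRing (B ⧸ p)) z) = ι z :=
    fun z => IsFractionRing.lift_algebraMap hι z
  refine (isIntegrallyClosed_iff (FractionRing (B ⧸ p))).2 fun {x} hx => ?_
  -- `ξ = ι' x` is integral over `ψ(B)`
  set ξ := ι' x with hξ
  obtain ⟨P, hP, hPx⟩ := hx
  have hPξ : P.eval₂ ι ξ = 0 := by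
    have h1 := congrArg ι' hPx
    rw [Polynomial.hom_eval₂, map_zero] at h1
    have h2 : ι'.comp (algebraMap (B ⧸ p) (FractionRing (B ⧸ p))) = ι :=
      RingHom.ext hι'
    rwa [h2] at h1
  obtain ⟨P', hP'map, -, hP'monic⟩ :=
    Polynomial.lifts_and_natDegree_eq_and_monic (f := Ideal.Quotient.mk p)
      ((Polynomial.mem_lifts _).2
        (Polynomial.map_surjective _ Ideal.Quotient.mk_surjective P)) hP
  have hP'ξ : P'.eval₂ ψ ξ = 0 := by
    rw [← hP'map, Polynomial.eval₂_map] at hPξ
    exact hPξ
  -- the structure map `R[X] → V → κ`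
  let cR : R →+* V := (algebraMap R L).codRestrict V.toSubring hRV
  let evV : Polynomial R →+* V := Polynomial.eval₂RingHom cR ⟨y, hyV⟩
  set ε : Polynomial R →+* IsLocalRing.ResidueField V := ρ.comp evV with hεdef
  have hsub : V.subtype.comp evV = (Polynomial.aeval (R := R) y).toRingHom := by
    apply Polynomial.ringHom_ext
    · intro r
      simp [evV, cR]
    · simp [evV]
  -- every `ψ b` is integral over `ε`
  have hint : ∀ b : B, ε.IsIntegralElem (ψ b) := by
    intro b
    obtain ⟨q, hq, hqb⟩ := exists_monic_eval₂_aeval_of_isIntegral_adjoin ((hB b.1).1 b.2)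
    refine ⟨q, hq, ?_⟩
    have h1 : q.eval₂ evV (ιB b) = 0 := by
      apply V.subtype_injective
      rw [Polynomial.hom_eval₂, hsub, map_zero]
      exact hqb
    have h2 := congrArg ρ h1
    rw [Polynomial.hom_eval₂, map_zero] at h2
    exact h2
  -- transitivity
  have hξint : ε.IsIntegralElem ξ := by
    letI : Algebra (Polynomial R) (IsLocalRing.ResidueField V) := ε.toAlgebra
    let A := integralClosure (Polynomial R) (IsLocalRing.ResidueField V)
    let ψA : B →+* A := ψ.codRestrict A.toSubring (fun b => hint b)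
    have h1 : IsIntegral A ξ := by
      refine ⟨P'.map ψA, hP'monic.map ψA, ?_⟩
      rw [Polynomial.eval₂_map]
      exact hP'ξ
    exact isIntegral_trans (R := Polynomial R) (A := A) ξ h1
  obtain ⟨Pε, hPε, hPεξ⟩ := hξint
  -- lift `ξ`
  obtain ⟨f, hf⟩ := IsLocalRing.residue_surjective (R := V) ξ
  obtain ⟨g, hg, hfg⟩ := hres f.1 f.2
  have hξg : ρ ⟨φ g, hφV g hg⟩ = ξ := by
    rw [← hf]
    refine (hρeq f ⟨φ g, hφV g hg⟩ hfg).symm
  -- level `K`
  let cRM : R →+* VM := (algebraMap R K).codRestrict VM.toSubring hRVM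
  let evVM : Polynomial R →+* VM := Polynomial.eval₂RingHom cRM ⟨yM, hyM⟩
  have hsubM : VM.subtype.comp evVM = (Polynomial.aeval (R := R) yM).toRingHom := by
    apply Polynomial.ringHom_ext
    · intro r
      simp [evVM, cRM]
    · simp [evVM]
  let φV : VM →+* V := (φ.toRingHom.comp VM.subtype).codRestrict V.toSubring
    (fun g => hφV g.1 g.2)
  set Q : Polynomial (Polynomial R) := Pε.map (Polynomial.expand R e : _ →ₐ[R] _).toRingHom
    with hQ
  have hQmonic : Q.Monic := hPε.map _
  set zM : VM := Q.eval₂ evVM ⟨g, hg⟩ with hzM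
  have hcomp : (ρ.comp (φV.comp evVM)).comp (Polynomial.expand R e : _ →ₐ[R] _).toRingHom = ε := by
    apply Polynomial.ringHom_ext
    · intro r
      simp only [RingHom.coe_comp, Function.comp_apply, AlgHom.toRingHom_eq_coe,
        RingHom.coe_coe, Polynomial.expand_C, hεdef]
      congr 1
      apply Subtype.ext
      simp [φV, evVM, evV, cR, cRM]
    · simp only [RingHom.coe_comp, Function.comp_apply, AlgHom.toRingHom_eq_coe,
        RingHom.coe_coe, Polynomial.expand_X, hεdef, map_pow]
      have h1 : evVM Polynomial.X = ⟨yM, hyM⟩ := by simp [evVM]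
      have h2 : evV Polynomial.X = ⟨y, hyV⟩ := by simp [evV]
      rw [h1, h2, ← map_pow]
      refine (hρeq _ _ ?_).symm
      have h3 : ((φV ⟨yM, hyM⟩ ^ e : V) : L) = φ yM ^ e := by
        simp [φV]
      rw [h3]
      exact hkron
  have hzero : ρ (φV zM) = 0 := by
    rw [hzM, Polynomial.hom_eval₂, Polynomial.hom_eval₂, hQ, Polynomial.eval₂_map, hcomp]
    have h1 : ρ (φV ⟨g, hg⟩) = ξ := hξg
    rw [h1]
    exact hPεξ
  have hzval : V.valuation (φ (zM : K)) < 1 := (hρ (φV zM)).1 hzero
  have hzM1 : VM.valuation (zM : K) < 1 := by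
    by_contra hcon
    have hle : VM.valuation (zM : K) ≤ 1 := (VM.valuation_le_one_iff _).2 zM.2
    have heq : VM.valuation (zM : K) = 1 := le_antisymm hle (not_lt.1 hcon)
    have hz0 : (zM : K) ≠ 0 := by
      intro h0
      rw [h0, map_zero] at heq
      exact zero_ne_one heq
    have hinv : (zM : K)⁻¹ ∈ VM := by
      rw [← VM.valuation_le_one_iff, map_inv₀, heq, inv_one]
    have h1 : V.valuation (φ (zM : K)⁻¹) ≤ 1 := (V.valuation_le_one_iff _).2 (hφV _ hinv)
    have h2 : V.valuation (φ (zM : K)) * V.valuation (φ (zM : K)⁻¹) = 1 := by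
      rw [← map_mul, ← map_mul, mul_inv_cancel₀ hz0, map_one, map_one]
    have h3 : V.valuation (φ (zM : K)) * V.valuation (φ (zM : K)⁻¹) < 1 := by
      calc V.valuation (φ (zM : K)) * V.valuation (φ (zM : K)⁻¹)
          ≤ V.valuation (φ (zM : K)) * 1 := mul_le_mul' le_rfl h1
        _ = V.valuation (φ (zM : K)) := mul_one _
        _ < 1 := hzval
    rw [h2] at h3
    exact lt_irrefl _ h3
  have hzMK : (zM : K) = Q.eval₂ (Polynomial.aeval (R := R) yM).toRingHom g := by
    have h1 : VM.subtype zM = Q.eval₂ (VM.subtype.comp evVM) (VM.subtype ⟨g, hg⟩) := by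
      rw [hzM, Polynomial.hom_eval₂]
    rw [hsubM] at h1
    exact h1
  rw [hzMK] at hzM1
  obtain ⟨b₀, hb₀B, hb₀⟩ := hnormM g hg Q hQmonic hzM1
  have hb₁ : V.valuation (φ g - φ b₀) < 1 := by
    rw [← map_sub]
    exact hφm _ hb₀
  have hb₂ : V.valuation ((f : L) - φ b₀) < 1 := by
    have : (f : L) - φ b₀ = ((f : L) - φ g) + (φ g - φ b₀) := by ring
    rw [this]
    exact Valuation.map_add_lt _ hfg hb₁
  refine ⟨Ideal.Quotient.mk p ⟨φ b₀, hb₀B⟩, ?_⟩
  apply ι'.injective
  rw [hι', ← hξ, ← hf]
  show ψ ⟨φ b₀, hb₀B⟩ = _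
  exact (hρeq f (ιB ⟨φ b₀, hb₀B⟩) hb₂).symm

end Abs

end Fermat.Agent.A2.Mod.H994

end
-- ===== PACK-END A2/Mod/H994/S2Abs.lean

-- ===== PACK-BEGIN S28/H865Integral.lean
section
/-
S28 helper (helper865): abstract integrality lemma (c).

If `P` is an integrally closed domain, `ℓ ∈ P` is prime, `s ∈ P` is not divisible by `ℓ`, and
both `ℓ • a` and `s • a` are integral over `P`, then `a` is integral over `P`.
-/


set_option autoImplicit false

noncomputable section

namespace Fermat.Agent.S28.H865

open Polynomial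

/-- A monic polynomial all of whose coefficients are suitably divisible is a `scaleRoots`. -/
theorem exists_monic_scaleRoots_eq {P : Type*} [CommRing P] [IsDomain P] {ν : P[X]}
    (hν : ν.Monic) {ℓ : P} (h : ∀ i, ℓ ^ (ν.natDegree - i) ∣ ν.coeff i) :
    ∃ μ : P[X], μ.Monic ∧ μ.scaleRoots ℓ = ν := by
  classical
  choose c hc using h
  set m := ν.natDegree with hm
  by_cases hℓ : ℓ = 0
  · -- then all lower coefficients vanish, `ν = X ^ m`
    refine ⟨ν, hν, ?_⟩
    ext i
    rw [coeff_scaleRoots]
    rcases lt_trichotomy i m with hi | hi | hi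
    · have h0 : ν.coeff i = 0 := by
        rw [hc i, hℓ, zero_pow (by omega), zero_mul]
      rw [h0, zero_mul]
    · rw [hi, ← hm, Nat.sub_self, pow_zero, mul_one]
    · rw [coeff_eq_zero_of_natDegree_lt (by omega), zero_mul]
  set μ : P[X] := ∑ i ∈ Finset.range (m + 1), monomial i (c i) with hμ
  have hμcoeff : ∀ i, μ.coeff i = if i ≤ m then c i else 0 := by
    intro i
    rw [hμ, finsetSum_coeff]
    simp only [coeff_monomial]
    rw [Finset.sum_ite_eq' (Finset.range (m + 1)) i]
    simp
  have hcm : c m = 1 := by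
    have h1 := hc m
    rw [Nat.sub_self, pow_zero, one_mul] at h1
    rw [← h1]
    exact hν.coeff_natDegree
  have hμdeg : μ.natDegree ≤ m := by
    rw [hμ]
    refine natDegree_sum_le_of_forall_le _ _ fun i hi => ?_
    exact (natDegree_monomial_le _).trans (Nat.lt_succ_iff.mp (Finset.mem_range.mp hi))
  have hμmonic : μ.Monic := by
    refine monic_of_natDegree_le_of_coeff_eq_one m hμdeg ?_
    rw [hμcoeff, if_pos le_rfl, hcm]
  have hμdeg' : μ.natDegree = m := by
    refine le_antisymm hμdeg ?_
    refine le_natDegree_of_ne_zero ?_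
    rw [hμcoeff, if_pos le_rfl, hcm]
    exact one_ne_zero
  refine ⟨μ, hμmonic, ?_⟩
  ext i
  rw [coeff_scaleRoots, hμdeg', hμcoeff]
  by_cases hi : i ≤ m
  · rw [if_pos hi, hc i, mul_comm]
  · rw [if_neg hi, zero_mul, coeff_eq_zero_of_natDegree_lt (by omega)]

/-- **Abstract integrality lemma.** -/
theorem isIntegral_of_smul_of_smul {P F : Type*} [CommRing P] [IsDomain P]
    [IsIntegrallyClosed P] [CommRing F] [IsDomain F] [Algebra P F] [FaithfulSMul P F]
    {ℓ s : P} (hℓ : Prime ℓ) (hs : ¬ ℓ ∣ s) {a : F}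
    (h1 : IsIntegral P (ℓ • a)) (h2 : IsIntegral P (s • a)) : IsIntegral P a := by
  have hs0 : s ≠ 0 := fun h => hs (h ▸ dvd_zero ℓ)
  have hℓ0 : ℓ ≠ 0 := hℓ.ne_zero
  have key : (minpoly P (ℓ • a)).scaleRoots s = (minpoly P (s • a)).scaleRoots ℓ := by
    rw [← IsIntegrallyClosed.minpoly_smul hs0 h1, ← IsIntegrallyClosed.minpoly_smul hℓ0 h2,
      smul_smul, smul_smul, mul_comm]
  have hdeg : (minpoly P (ℓ • a)).natDegree = (minpoly P (s • a)).natDegree := by
    have := congrArg Polynomial.natDegree key
    simpa [Polynomial.natDegree_scaleRoots] using this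
  have hcoeff : ∀ i, ℓ ^ ((minpoly P (ℓ • a)).natDegree - i) ∣ (minpoly P (ℓ • a)).coeff i := by
    intro i
    have h3 := congrArg (fun p => Polynomial.coeff p i) key
    simp only [Polynomial.coeff_scaleRoots] at h3
    rw [← hdeg] at h3
    refine hℓ.pow_dvd_of_dvd_mul_right (b := s ^ ((minpoly P (ℓ • a)).natDegree - i)) _
      (fun h => hs (hℓ.dvd_of_dvd_pow h)) ?_
    rw [h3]
    exact dvd_mul_left _ _
  obtain ⟨μ, hμ, hμν⟩ := exists_monic_scaleRoots_eq (minpoly.monic h1) hcoeff
  refine ⟨μ, hμ, ?_⟩
  have h4 : Polynomial.eval₂ (algebraMap P F) (algebraMap P F ℓ * a) (μ.scaleRoots ℓ) = 0 := by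
    rw [hμν, ← Algebra.smul_def, ← Polynomial.aeval_def]
    exact minpoly.aeval P _
  rw [Polynomial.scaleRoots_eval₂_mul] at h4
  have h5 : (algebraMap P F ℓ) ^ μ.natDegree ≠ 0 :=
    pow_ne_zero _ (by
      rw [Ne, FaithfulSMul.algebraMap_eq_zero_iff]
      exact hℓ0)
  exact (mul_eq_zero.mp h4).resolve_left h5

end Fermat.Agent.S28.H865

end
end
-- ===== PACK-END S28/H865Integral.lean

-- ===== PACK-BEGIN S35/H991/BadFrobAlg.lean
section
/-
S35 top glue, pure algebra (helper991).

`eq_or_eq_neg_of_rel_of_badFrob`: on a nontrivial torsion-free module over a domain in which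
`q ≠ 0`, an endomorphism `s` with `s² - a s + q = 0` and `(s² - 1)(s² - q²) = 0` has
`a = q + 1` or `a = -(q + 1)`.
Mathlib only.
-/


set_option autoImplicit false

namespace Fermat.Agent.S35.H991

section

variable {𝒪 M : Type*} [CommRing 𝒪] [IsDomain 𝒪] [AddCommGroup M] [Module 𝒪 M]
  [Module.IsTorsionFree 𝒪 M]

/-- The bad-Frobenius relation `(s² - 1)(s² - q²) = 0`, in factored form
`(s - 1)(s + 1)(s - q)(s + q) = 0`, applied to vectors. -/
def BadFrobRel (q : 𝒪) (s : Module.End 𝒪 M) : Prop :=
  ∀ v : M, s (s (s (s v))) - (1 + q ^ 2) • s (s v) + (q ^ 2) • v = 0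

/-- An eigenvector of `s` for the eigenvalue `c` forces `c² - a c + q = 0`. -/
theorem quad_of_eigen {q a c : 𝒪} {s : Module.End 𝒪 M}
    (hrel : ∀ v : M, s (s v) - a • s v + q • v = 0) {v : M} (hv : v ≠ 0) (hsv : s v = c • v) :
    c * c - a * c + q = 0 := by
  have h := hrel v
  rw [hsv, map_smul, hsv, smul_smul, smul_smul, ← sub_smul, ← add_smul] at h
  rcases smul_eq_zero.mp h with h0 | h0
  · exact h0
  · exact absurd h0 hv

/-- **Algebraic core of S35.**  A quadratic relation with constant term `q` together with the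
bad-Frobenius relation pins the trace down to `± (q + 1)`. -/
theorem eq_or_eq_neg_of_rel_of_badFrob [Nontrivial M] {q a : 𝒪} (hq : q ≠ 0)
    {s : Module.End 𝒪 M}
    (hrel : ∀ v : M, s (s v) - a • s v + q • v = 0) (hbad : BadFrobRel q s) :
    a = q + 1 ∨ a = -(q + 1) := by
  obtain ⟨v, hv⟩ := exists_ne (0 : M)
  -- the four factors
  set v₃ : M := s v + q • v with hv₃
  set v₂ : M := s v₃ - q • v₃ with hv₂
  set v₁ : M := s v₂ + v₂ with hv₁
  have h4 : s v₁ - v₁ = 0 := by
    have := hbad v
    rw [hv₁, hv₂, hv₃]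
    simp only [map_add, map_sub, map_smul]
    rw [← this]
    module
  by_cases h1 : v₁ = 0
  · by_cases h2 : v₂ = 0
    · by_cases h3 : v₃ = 0
      · -- `s v = -q v`
        have hsv : s v = (-q) • v := by
          rw [neg_smul]
          exact eq_neg_of_add_eq_zero_left h3
        have := quad_of_eigen hrel hv hsv
        right
        have h5 : q * (q + a + 1) = 0 := by linear_combination this
        rcases mul_eq_zero.mp h5 with h6 | h6
        · exact absurd h6 hq
        · linear_combination h6
      · -- `s v₃ = q v₃`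
        have hsv : s v₃ = q • v₃ := sub_eq_zero.mp h2
        have := quad_of_eigen hrel h3 hsv
        left
        have h5 : q * (q - a + 1) = 0 := by linear_combination this
        rcases mul_eq_zero.mp h5 with h6 | h6
        · exact absurd h6 hq
        · linear_combination -h6
    · -- `s v₂ = - v₂`
      have hsv : s v₂ = (-1 : 𝒪) • v₂ := by
        rw [neg_smul, one_smul]
        exact eq_neg_of_add_eq_zero_left h1
      have := quad_of_eigen hrel h2 hsv
      right
      linear_combination this
  · -- `s v₁ = v₁`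
    have hsv : s v₁ = (1 : 𝒪) • v₁ := by
      rw [one_smul]
      exact sub_eq_zero.mp h4
    have := quad_of_eigen hrel h1 hsv
    left
    linear_combination -this

end

end Fermat.Agent.S35.H991

end
-- ===== PACK-END S35/H991/BadFrobAlg.lean

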