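import Mathlib
import Fermat.Prelude.Def_ModularCurve_ReductionModL
import Mathlib.RingTheory.Valuation.Basic
import Mathlib.Tactic
import Fermat.Prelude.Def_FLTPrelim_FreyPackage
import Fermat.Prelude.Def_CuspForm_HeckeGaloisRepDatum
import Fermat.Prelude.Def_CuspForm_HeckeAlgebra
import Fermat.Prelude.Thm_IsLocalRing_isAdicComplete_of_module_finite
import Fermat.Prelude.Thm_Algebra_finite_maximalSpectrum_and_bijective_localization_of_module_finite
import Fermat.Statements.S22
import Fermat.Prelude.Thm_ModularForm_sturm_bound_Gamma0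
import Fermat.Prelude.Thm_CongruenceSubgroup_one_mem_strictPeriods_Gamma0
import Fermat.Prelude.Def_ModularForm_HeckeOperator
import Fermat.Agent.Pack.S43MC.G0E2L0
import Fermat.Agent.Pack.Fast891

-- ===== PACK-BEGIN S26/H87/TMap.lean
section


/-!
# Row S26, block BETA, leaf B2 (helper87) — part 1: the morphism `U ⟶ 𝔸^σ` of a tuple of sections

`Y` is a scheme over an affine base `Spec R₀`, `U ⊆ Y` an open and `t : σ → Γ(Y, U)` a tuple of
functions on `U`.  We define `tMap f U t : U ⟶ Spec R₀[X_i : i ∈ σ]` (`X_i ↦ t i`), show that it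
is a morphism over `Spec R₀`, and prove the valuative pole lemma.  Mathlib only.
-/

set_option autoImplicit false

universe u

open CategoryTheory AlgebraicGeometry TopologicalSpace

namespace Fermat.Agent.S26.H87

noncomputable section

variable {R₀ : Type u} [CommRing R₀] {Y : Scheme.{u}} (f : Y ⟶ Spec (CommRingCat.of R₀))

/-- The ring homomorphism `R₀ → Γ(Y, U)` induced by the structure morphism `f`. -/
def strHom (U : Y.Opens) : R₀ →+* Γ(Y, U) :=
  ((Y.presheaf.map (homOfLE (le_top : U ≤ ⊤)).op).hom.comp f.appTop.hom).comp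
    (Scheme.ΓSpecIso (CommRingCat.of R₀)).inv.hom

/-- Restriction of sections is compatible with the structure maps. -/
theorem map_strHom {U V : Y.Opens} (h : U ≤ V) (a : R₀) :
    Y.presheaf.map (homOfLE h).op (strHom f V a) = strHom f U a := by
  simp only [strHom, RingHom.comp_apply]
  rw [← CommRingCat.comp_apply, ← Functor.map_comp]
  rfl

variable {σ : Type}

/-- The ring homomorphism `R₀[X_i] → Γ(Y, U)`, `X_i ↦ t i`. -/
def tRingHom (U : Y.Opens) (t : σ → Γ(Y, U)) : MvPolynomial σ R₀ →+* Γ(Y, U) :=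
  MvPolynomial.eval₂Hom (strHom f U) t

@[simp] theorem tRingHom_X (U : Y.Opens) (t : σ → Γ(Y, U)) (i : σ) :
    tRingHom f U t (MvPolynomial.X i) = t i := by
  simp [tRingHom]

@[simp] theorem tRingHom_C (U : Y.Opens) (t : σ → Γ(Y, U)) (a : R₀) :
    tRingHom f U t (MvPolynomial.C a) = strHom f U a := by
  simp [tRingHom]

theorem tRingHom_comp_C (U : Y.Opens) (t : σ → Γ(Y, U)) :
    (tRingHom f U t).comp MvPolynomial.C = strHom f U := by
  ext a
  simp

variable (R₀ σ) in
/-- Affine space over `R₀`, as `Spec R₀[X_i]`, with its structure map. -/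
abbrev affStr : Spec (CommRingCat.of (MvPolynomial σ R₀)) ⟶ Spec (CommRingCat.of R₀) :=
  Spec.map (CommRingCat.ofHom (MvPolynomial.C : R₀ →+* MvPolynomial σ R₀))

/-- The morphism `U ⟶ 𝔸^σ` defined by a tuple of sections `t i ∈ Γ(Y, U)`. -/
def tMap (U : Y.Opens) (t : σ → Γ(Y, U)) :
    U.toScheme ⟶ Spec (CommRingCat.of (MvPolynomial σ R₀)) :=
  U.toSpecΓ ≫ Spec.map (CommRingCat.ofHom (tRingHom f U t))

/-- `Spec` of `strHom` is the structure map of `U`. -/
theorem toSpecΓ_strHom (U : Y.Opens) :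
    U.toSpecΓ ≫ Spec.map (CommRingCat.ofHom (strHom f U)) = U.ι ≫ f := by
  have h : CommRingCat.ofHom (strHom f U) =
      (Scheme.ΓSpecIso (CommRingCat.of R₀)).inv ≫ f.appTop ≫
        Y.presheaf.map (homOfLE (le_top : U ≤ ⊤)).op := rfl
  rw [h, Spec.map_comp, Spec.map_comp, Category.assoc,
    Scheme.Opens.toSpecΓ_SpecMap_presheaf_map_top_assoc,
    ← Scheme.toSpecΓ_naturality_assoc, toSpecΓ_SpecMap_ΓSpecIso_inv, Category.comp_id]

/-- `tMap` is a morphism over `Spec R₀`. -/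
theorem tMap_affStr (U : Y.Opens) (t : σ → Γ(Y, U)) :
    tMap f U t ≫ affStr R₀ σ = U.ι ≫ f := by
  rw [tMap, affStr, Category.assoc, ← Spec.map_comp, ← CommRingCat.ofHom_comp,
    tRingHom_comp_C, toSpecΓ_strHom]

/-- Global sections of `tMap`. -/
theorem tMap_appTop (U : Y.Opens) (t : σ → Γ(Y, U)) :
    (tMap f U t).appTop = (Scheme.ΓSpecIso (CommRingCat.of (MvPolynomial σ R₀))).hom ≫
      CommRingCat.ofHom (tRingHom f U t) ≫ U.topIso.inv := by
  rw [tMap, Scheme.Hom.comp_appTop, Scheme.Opens.toSpecΓ_appTop, ← Category.assoc,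
    Scheme.ΓSpecIso_naturality, Category.assoc]

/-! ## The valuative pole lemma -/

theorem appLE_eq_of_eq {X Z : Scheme.{u}} {a b : X ⟶ Z} (h : a = b) (U : Z.Opens) (V : X.Opens)
    (e : V ≤ a ⁻¹ᵁ U) : a.appLE U V e = b.appLE U V (h ▸ e) := by
  subst h
  rfl

/-- A morphism from the spectrum of a local ring whose closed point lands in an open `W`
factors through `W`. -/
theorem preimage_eq_top_of_closedPoint_mem {X : Scheme.{u}} {R : Type u} [CommRing R]
    [IsLocalRing R] (l : Spec (CommRingCat.of R) ⟶ X) (W : X.Opens)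
    (h : l (IsLocalRing.closedPoint R) ∈ W) : l ⁻¹ᵁ W = ⊤ :=
  IsLocalRing.closed_point_mem_iff.mp h

/-- The pulled back function `t_R` is not a unit if `t` vanishes at the image of the closed
point. -/
theorem not_isUnit_appLE_of_notMem_basicOpen {X : Scheme.{u}} {R : Type u} [CommRing R]
    [IsLocalRing R] (l : Spec (CommRingCat.of R) ⟶ X) (W : X.Opens) (t : Γ(X, W))
    (hW : (⊤ : (Spec (CommRingCat.of R)).Opens) ≤ l ⁻¹ᵁ W)
    (ht : l (IsLocalRing.closedPoint R) ∉ X.basicOpen t) :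
    ¬ IsUnit (l.appLE W ⊤ hW t) := by
  intro hu
  apply ht
  have h1 : (Spec (CommRingCat.of R)).basicOpen (l.appLE W ⊤ hW t) = ⊤ :=
    Scheme.basicOpen_of_isUnit _ hu
  have h2 : (Spec (CommRingCat.of R)).basicOpen (l.appLE W ⊤ hW t) ≤ l ⁻¹ᵁ X.basicOpen t := by
    rw [Scheme.Hom.appLE, CommRingCat.comp_apply, Scheme.basicOpen_res,
      ← Scheme.preimage_basicOpen]
    exact inf_le_right
  have h3 : IsLocalRing.closedPoint R ∈
      (Spec (CommRingCat.of R)).basicOpen (l.appLE W ⊤ hW t) := by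
    rw [h1]
    trivial
  exact h2 h3

/-- **Valuative pole lemma.**  Let `l : Spec R ⟶ X` with `R` local, `j : Z ⟶ Spec R` with
`j.appTop` injective, such that `j ≫ l` lands in the open `U`.  Let `s ∈ Γ(X, U)`.  If the
image `P` of the closed point has a neighbourhood `W` with a function `t`, `t(P) = 0`,
`s · t = 1` on `U ⊓ W`, then the pull back of `s` to `Z` is not the pull back of a function on
`Spec R`. -/
theorem not_exists_appTop_eq_of_pole {X Z : Scheme.{u}} {R : Type u} [CommRing R]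
    [IsLocalRing R] (l : Spec (CommRingCat.of R) ⟶ X) (j : Z ⟶ Spec (CommRingCat.of R))
    (hj : Function.Injective j.appTop)
    (U : X.Opens) (hU : (⊤ : Z.Opens) ≤ (j ≫ l) ⁻¹ᵁ U) (s : Γ(X, U))
    (W : X.Opens) (t : Γ(X, W))
    (hPW : l (IsLocalRing.closedPoint R) ∈ W)
    (hPt : l (IsLocalRing.closedPoint R) ∉ X.basicOpen t)
    (hst : X.presheaf.map (homOfLE (inf_le_left : U ⊓ W ≤ U)).op s *
        X.presheaf.map (homOfLE (inf_le_right : U ⊓ W ≤ W)).op t = 1) :
    ¬ ∃ sR : Γ(Spec (CommRingCat.of R), ⊤), j.appTop sR = (j ≫ l).appLE U ⊤ hU s := by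
  rintro ⟨sR, hsR⟩
  have hW : (⊤ : (Spec (CommRingCat.of R)).Opens) ≤ l ⁻¹ᵁ W :=
    (preimage_eq_top_of_closedPoint_mem l W hPW).ge
  have hW' : (⊤ : Z.Opens) ≤ (j ≫ l) ⁻¹ᵁ W := fun y _ => by
    change l (j y) ∈ W
    exact hW (show j y ∈ (⊤ : (Spec (CommRingCat.of R)).Opens) from trivial)
  have hUW : (⊤ : Z.Opens) ≤ (j ≫ l) ⁻¹ᵁ (U ⊓ W) := fun y hy => ⟨hU hy, hW' hy⟩
  apply not_isUnit_appLE_of_notMem_basicOpen l W t hW hPt
  -- pull back the relation `s * t = 1` to `Z`
  have h1 := congrArg ((j ≫ l).appLE (U ⊓ W) ⊤ hUW) hst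
  rw [map_mul, map_one, ← CommRingCat.comp_apply, ← CommRingCat.comp_apply,
    Scheme.Hom.map_appLE, Scheme.Hom.map_appLE] at h1
  have h2 : (j ≫ l).appLE W ⊤ hW' t = j.appTop (l.appLE W ⊤ hW t) := by
    rw [← CommRingCat.comp_apply]
    congr 2
    have h := Scheme.Hom.appLE_comp_appLE j l W ⊤ ⊤ hW le_top
    rw [← h]
    congr 1
    exact Scheme.Hom.appLE_eq_app j (U := ⊤)
  rw [h2, ← hsR, ← map_mul] at h1
  have h3 : sR * l.appLE W ⊤ hW t = 1 := hj (by rw [h1, map_one])
  exact IsUnit.of_mul_eq_one _ (by rw [mul_comm]; exact h3)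

/-- `Spec` of an injective ring homomorphism is an epimorphism with respect to affine targets. -/
theorem eq_of_specMap_comp_eq {R K A : CommRingCat.{u}} (φ : R ⟶ K)
    (hφ : Function.Injective φ.hom) (a b : Spec R ⟶ Spec A)
    (h : Spec.map φ ≫ a = Spec.map φ ≫ b) : a = b := by
  obtain ⟨α, rfl⟩ := Spec.map_surjective a
  obtain ⟨β, rfl⟩ := Spec.map_surjective b
  rw [← Spec.map_comp, ← Spec.map_comp] at h
  have h' := Spec.map_injective h
  congr 1
  ext x
  apply hφ
  have := congrArg (fun f => f.hom x) h'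
  simpa using this

/-- Global sections of `Spec.map φ` are injective if `φ` is. -/
theorem injective_appTop_specMap {R K : CommRingCat.{u}} (φ : R ⟶ K)
    (hφ : Function.Injective φ.hom) : Function.Injective (Spec.map φ).appTop := by
  have h : (Spec.map φ).appTop = (Scheme.ΓSpecIso R).hom ≫ φ ≫ (Scheme.ΓSpecIso K).inv := by
    rw [← Category.assoc, ← Scheme.ΓSpecIso_naturality, Category.assoc, Iso.hom_inv_id,
      Category.comp_id]
  rw [h]
  intro x y hxy
  simp only [CommRingCat.comp_apply] at hxy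
  have h1 := (ConcreteCategory.bijective_of_isIso (Scheme.ΓSpecIso K).inv).1 hxy
  have h2 := hφ h1
  exact (ConcreteCategory.bijective_of_isIso (Scheme.ΓSpecIso R).hom).1 h2

/-- The section `s` pulled back along `U.ι`, in terms of `topIso`. -/
theorem ι_appLE_self (U : Y.Opens) (e : (⊤ : U.toScheme.Opens) ≤ U.ι ⁻¹ᵁ U) :
    U.ι.appLE U ⊤ e = U.topIso.inv := by
  rw [Scheme.Opens.ι_appLE, Scheme.Opens.topIso_inv]
  rfl

end

end Fermat.Agent.S26.H87

end
-- ===== PACK-END S26/H87/TMap.lean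

-- ===== PACK-BEGIN S27/H325/TensorDegAlg.lean
section
/-
S27 / GRP, sub-leaf TENSOR-DEG (helper325): pure algebra.  Mathlib only.

* `nonempty_tensor_invertible_equiv` : `Q ⊗[R] N ≃ₗ[R] Q` for `Q` finite-dimensional over a
  field `K`, `R` a `K`-algebra, `N` an invertible `R`-module.
* `cokerMkEquiv` : the cokernel of `n ↦ s ⊗ n : N → M ⊗[R] N` is `(M / R s) ⊗[R] N`.
* `finrank_coker_mk_eq` : for `N` invertible and `M / R s` finite-dimensional over `K`, the
  cokernel of `n ↦ s ⊗ n` has the same dimension as `M / R s`.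
-/


set_option autoImplicit false
set_option linter.style.haveILetI false

universe u

open scoped TensorProduct

namespace Fermat.Agent.S27.H325

noncomputable section

section Annihilator

variable {K R : Type u} [Field K] [CommRing R] [Algebra K R]
  (Q : Type u) [AddCommGroup Q] [Module R Q] [Module K Q] [IsScalarTower K R Q]

/-- The quotient of `R` by the annihilator of a finite-dimensional module is
finite-dimensional. -/
theorem finite_quotient_annihilator [Module.Finite K Q] :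
    Module.Finite K (R ⧸ Module.annihilator R Q) := by
  let φ : R →ₗ[K] Module.End K Q := (Algebra.lsmul K K Q).toLinearMap
  have hle : (Module.annihilator R Q).restrictScalars K ≤ LinearMap.ker φ := by
    intro r hr
    rw [Submodule.restrictScalars_mem, Module.mem_annihilator] at hr
    rw [LinearMap.mem_ker]
    ext q
    simpa [φ] using hr q
  let ψ : (R ⧸ (Module.annihilator R Q).restrictScalars K) →ₗ[K] Module.End K Q :=
    Submodule.liftQ _ φ hle
  have hψ : Function.Injective ψ := by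
    rw [← LinearMap.ker_eq_bot, Submodule.ker_liftQ, eq_bot_iff]
    rintro _ ⟨r, hr, rfl⟩
    have hr' : φ r = 0 := hr
    have hmem : r ∈ (Module.annihilator R Q).restrictScalars K := by
      rw [Submodule.restrictScalars_mem, Module.mem_annihilator]
      intro q
      have := congrArg (fun f : Module.End K Q => f q) hr'
      simpa [φ] using this
    simpa using hmem
  haveI : Module.Finite K (R ⧸ (Module.annihilator R Q).restrictScalars K) :=
    Module.Finite.of_injective ψ hψ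
  exact Module.Finite.equiv
    (Submodule.Quotient.restrictScalarsEquiv K (Module.annihilator R Q))

/-- A module is the tensor product of itself with the quotient by its annihilator. -/
def tensorQuotAnnihilatorEquiv : Q ⊗[R] (R ⧸ Module.annihilator R Q) ≃ₗ[R] Q :=
  (TensorProduct.tensorQuotEquivQuotSMul Q (Module.annihilator R Q)).trans
    ((Submodule.quotEquivOfEqBot _ (by
      rw [← Submodule.annihilator_top, Submodule.annihilator_smul])))

end Annihilator

section Invertible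

variable {K R : Type u} [Field K] [CommRing R] [Algebra K R]

/-- Tensoring a finite-dimensional module with an invertible module does not change it, up
to an `R`-linear isomorphism. -/
theorem nonempty_tensor_invertible_equiv (Q : Type u) [AddCommGroup Q] [Module R Q]
    [Module K Q] [IsScalarTower K R Q] [Module.Finite K Q]
    (N : Type u) [AddCommGroup N] [Module R N] [Module.Invertible R N] :
    Nonempty (Q ⊗[R] N ≃ₗ[R] Q) := by
  haveI := finite_quotient_annihilator (K := K) (R := R) Q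
  set I := Module.annihilator R Q with hI
  have hart : IsArtinianRing (R ⧸ I) := IsArtinianRing.of_finite K (R ⧸ I)
  have hfree : Module.Free (R ⧸ I) ((R ⧸ I) ⊗[R] N) :=
    CommRing.Pic.subsingleton_iff.mp inferInstance ((R ⧸ I) ⊗[R] N) inferInstance
  obtain ⟨e2⟩ := Module.Invertible.free_iff_linearEquiv.mp hfree
  let eQ : Q ⊗[R] (R ⧸ I) ≃ₗ[R] Q := tensorQuotAnnihilatorEquiv Q
  exact ⟨(TensorProduct.congr eQ.symm (LinearEquiv.refl R N)).trans
    ((TensorProduct.assoc R Q (R ⧸ I) N).trans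
      ((TensorProduct.congr (LinearEquiv.refl R Q) (e2.restrictScalars R)).trans eQ))⟩

end Invertible

section Coker

variable {R : Type u} [CommRing R] {M N : Type u} [AddCommGroup M] [Module R M]
  [AddCommGroup N] [Module R N]

/-- The map `n ↦ s ⊗ n`. -/
def mkLeft (s : M) : N →ₗ[R] M ⊗[R] N := TensorProduct.mk R M N s

@[simp] theorem mkLeft_apply (s : M) (n : N) : mkLeft (R := R) s n = s ⊗ₜ[R] n := rfl

theorem mkLeft_eq (s : M) :
    mkLeft (R := R) (N := N) s =
      ((LinearMap.toSpanSingleton R M s).rTensor N).comp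
        (TensorProduct.lid R N).symm.toLinearMap := by
  ext n
  simp [mkLeft]

theorem range_mkLeft (s : M) :
    LinearMap.range (mkLeft (R := R) (N := N) s) =
      LinearMap.range ((LinearMap.toSpanSingleton R M s).rTensor N) := by
  rw [mkLeft_eq, LinearMap.range_comp_of_range_eq_top]
  exact LinearEquiv.range _

/-- The cokernel of `n ↦ s ⊗ n` is `(M / R s) ⊗ N`. -/
def cokerMkEquiv (s : M) :
    ((M ⊗[R] N) ⧸ LinearMap.range (mkLeft (R := R) (N := N) s)) ≃ₗ[R]
      (M ⧸ LinearMap.range (LinearMap.toSpanSingleton R M s)) ⊗[R] N :=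
  (Submodule.quotEquivOfEq _ _ (range_mkLeft s)).trans
    (rTensor.equiv N (LinearMap.exact_map_mkQ_range (LinearMap.toSpanSingleton R M s))
      (Submodule.mkQ_surjective _))

theorem mkLeft_injective [Module.Flat R N] (s : M)
    (hs : Function.Injective (LinearMap.toSpanSingleton R M s)) :
    Function.Injective (mkLeft (R := R) (N := N) s) := by
  rw [mkLeft_eq]
  exact (Module.Flat.rTensor_preserves_injective_linearMap _ hs).comp
    (TensorProduct.lid R N).symm.injective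

end Coker

section Finrank

variable {K R : Type u} [Field K] [CommRing R] [Algebra K R]
  {M N : Type u} [AddCommGroup M] [Module R M] [Module K M] [IsScalarTower K R M]
  [AddCommGroup N] [Module R N] [Module.Invertible R N]

/-- For `N` invertible and `M / R s` finite-dimensional over `K`, the cokernel of
`n ↦ s ⊗ n : N → M ⊗ N` is finite-dimensional of the same dimension. -/
theorem finrank_coker_mk_eq (s : M)
    [Module.Finite K (M ⧸ LinearMap.range (LinearMap.toSpanSingleton R M s))] :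
    Module.Finite K ((M ⊗[R] N) ⧸ LinearMap.range (mkLeft (R := R) (N := N) s)) ∧
      Module.finrank K ((M ⊗[R] N) ⧸ LinearMap.range (mkLeft (R := R) (N := N) s)) =
        Module.finrank K (M ⧸ LinearMap.range (LinearMap.toSpanSingleton R M s)) := by
  obtain ⟨e⟩ := nonempty_tensor_invertible_equiv (K := K) (R := R)
    (M ⧸ LinearMap.range (LinearMap.toSpanSingleton R M s)) N
  let E : ((M ⊗[R] N) ⧸ LinearMap.range (mkLeft (R := R) (N := N) s)) ≃ₗ[K]
      (M ⧸ LinearMap.range (LinearMap.toSpanSingleton R M s)) :=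
    ((cokerMkEquiv (R := R) (N := N) s).trans e).restrictScalars K
  exact ⟨Module.Finite.equiv E.symm, E.finrank_eq⟩

end Finrank

end

end Fermat.Agent.S27.H325

end
-- ===== PACK-END S27/H325/TensorDegAlg.lean

-- ===== PACK-BEGIN S27/H358/CotangentKaehler.lean
section


/-!
# Row S27, block DIM, leaf D1 (helper358) — algebra core

* `finrank_cotangentSpace_eq_finrank_kaehler` : for a local `k`-algebra `R` (`k` a field) whose
  residue field is `k` (i.e. `k → R/𝔪` is surjective), `𝔪/𝔪² ≃ κ ⊗_R Ω[R⁄k]`; hence if `Ω[R⁄k]`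
  is free, `dim_κ 𝔪/𝔪² = rank_R Ω[R⁄k]`.
* `finrank_kaehler_of_formallyEtale` : `Ω` of a standard smooth algebra of relative dimension `n`
  stays free of rank `n` after a formally etale extension (e.g. a localization).
Mathlib only.
-/

set_option autoImplicit false

namespace Fermat.Agent.S27.H358

open TensorProduct KaehlerDifferential IsLocalRing

section Local

variable (k : Type*) [Field k] (R : Type*) [CommRing R] [IsLocalRing R] [Algebra k R]

/-- For a local `k`-algebra with residue field `k`, the conormal map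
`𝔪/𝔪² → κ ⊗ Ω[R⁄k]` is bijective. -/
theorem kerCotangentToTensor_residueField_bijective
    (h : Function.Surjective (algebraMap k (ResidueField R))) :
    Function.Bijective (kerCotangentToTensor k R (ResidueField R)) := by
  have hsurj : Function.Surjective (algebraMap R (ResidueField R)) := residue_surjective
  constructor
  · let e : k ≃ₐ[k] ResidueField R :=
      AlgEquiv.ofBijective (Algebra.ofId k _) ⟨(algebraMap k _).injective, h⟩
    let g : ResidueField R →ₐ[k] R ⧸ (RingHom.ker (algebraMap R (ResidueField R)) ^ 2) :=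
      (Algebra.ofId k _).comp e.symm.toAlgHom
    have hg : (IsScalarTower.toAlgHom k R (ResidueField R)).kerSquareLift.comp g =
        AlgHom.id k _ := by
      ext x
      obtain ⟨c, rfl⟩ := h x
      simp only [AlgHom.commutes]
    obtain ⟨l, hl⟩ := (retractionKerCotangentToTensorEquivSection (R := k) hsurj).symm ⟨g, hg⟩
    exact Function.LeftInverse.injective (g := l) (fun x => LinearMap.congr_fun hl x)
  · intro y
    have hex := exact_kerCotangentToTensor_mapBaseChange k R (ResidueField R) hsurj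
    have : Subsingleton Ω[ResidueField R⁄k] := subsingleton_of_surjective k _ h
    exact (hex y).mp (Subsingleton.elim _ _)

/-- Cotangent modules of equal ideals. -/
theorem nonempty_cotangent_linearEquiv_of_eq {A : Type*} [CommRing A] (I J : Ideal A)
    (h : I = J) : Nonempty (I.Cotangent ≃ₗ[A] J.Cotangent) := by
  subst h
  exact ⟨LinearEquiv.refl _ _⟩

/-- For a local `k`-algebra with residue field `k`: `𝔪/𝔪² ≃ κ ⊗ Ω[R⁄k]`, `κ`-linearly. -/
theorem nonempty_cotangentSpace_linearEquiv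
    (h : Function.Surjective (algebraMap k (ResidueField R))) :
    Nonempty (CotangentSpace R ≃ₗ[ResidueField R] ResidueField R ⊗[R] Ω[R⁄k]) := by
  have hker : maximalIdeal R = RingHom.ker (algebraMap R (ResidueField R)) :=
    (Ideal.mk_ker (I := maximalIdeal R)).symm
  obtain ⟨e₀⟩ := nonempty_cotangent_linearEquiv_of_eq _ _ hker
  let e₁ := LinearEquiv.ofBijective _ (kerCotangentToTensor_residueField_bijective k R h)
  exact ⟨LinearEquiv.extendScalarsOfSurjective residue_surjective (e₀.trans e₁)⟩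

/-- **Cotangent space = Kähler differentials** at a rational point: for a local `k`-algebra `R`
with residue field `k` and `Ω[R⁄k]` free, `dim_κ 𝔪/𝔪² = rank_R Ω[R⁄k]`. -/
theorem finrank_cotangentSpace_eq_finrank_kaehler [Module.Free R Ω[R⁄k]]
    (h : Function.Surjective (algebraMap k (ResidueField R))) :
    Module.finrank (ResidueField R) (CotangentSpace R) = Module.finrank R Ω[R⁄k] := by
  obtain ⟨e⟩ := nonempty_cotangentSpace_linearEquiv k R h
  rw [e.finrank_eq, Module.finrank_baseChange]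

end Local

section Etale

variable (k : Type*) [CommRing k] (B : Type*) [CommRing B] [Algebra k B]
  (T : Type*) [CommRing T] [Algebra k T] [Algebra B T] [IsScalarTower k B T]

/-- `Ω` of a standard smooth algebra stays free after a formally etale extension. -/
theorem free_kaehler_of_formallyEtale [Algebra.IsStandardSmooth k B]
    [Algebra.FormallyEtale B T] : Module.Free T Ω[T⁄k] :=
  Module.Free.of_equiv (tensorKaehlerEquivOfFormallyEtale k B T)

/-- `Ω` of a standard smooth algebra of relative dimension `n` has rank `n` after a formally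
etale extension (e.g. a localization). -/
theorem finrank_kaehler_of_formallyEtale (n : ℕ) [Algebra.IsStandardSmoothOfRelativeDimension n k B]
    [Algebra.FormallyEtale B T] [Nontrivial T] : Module.finrank T Ω[T⁄k] = n := by
  have : Nontrivial B := (algebraMap B T).domain_nontrivial
  have : Algebra.IsStandardSmooth k B :=
    Algebra.IsStandardSmoothOfRelativeDimension.isStandardSmooth n
  rw [← (tensorKaehlerEquivOfFormallyEtale k B T).finrank_eq, Module.finrank_baseChange]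
  have h := Algebra.IsStandardSmoothOfRelativeDimension.rank_kaehlerDifferential (R := k) (S := B) n
  exact Module.finrank_eq_of_rank_eq h

end Etale

end Fermat.Agent.S27.H358

end
-- ===== PACK-END S27/H358/CotangentKaehler.lean

-- ===== PACK-BEGIN S18/H665/StepA.lean
section
/-
S18 / Step a (helper665): Prelude unfolding.

`S18  ⇐  Core N A m  +  ConstLemma (residue field) N`, using ALL THREE parts of the hypothesis
`ReductionInputsModL A N` (degree preservation, (ii) compatibility of `r_*` with divisors of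
integral functions, (iii) PGI).  No `HasPrincipalDivisors`, no QEP, no scaling argument is needed.

* `Good A N U`     : `U ∈ A((q))`, its image in `ℚ̄((q))` lies in `F = modularFunctionFieldBar N`,
                     its reduction lies in `F_k = modularFunctionFieldFullC k N` and is nonzero.
* `Core N A m`     : for good `U₁, U₂` with equal reductions such that `m ∣ ord_P (U₁ / U₂)` at every
                     place `P` of `F`, the quotient `U₁ / U₂` is an `m`-th power in `F`.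
* `ConstLemma k N` : a nonzero element of `F_k` all of whose orders vanish is a constant.
-/


set_option autoImplicit false
set_option synthInstance.maxHeartbeats 400000

noncomputable section

namespace Fermat.Agent.S18.H665

open HahnSeries IntermediateField AlgebraicCurve ModularCurve

/-- `ℚ̄`. -/
abbrev Kb : Type := AlgebraicClosure ℚ

variable (A : ValuationSubring Kb) (N : ℕ)

/-- The residue field of `A`. -/
abbrev kA : Type := IsLocalRing.ResidueField A

/-- The function field of `X₀(N)` over `ℚ̄`, as a type. -/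
abbrev FN : Type := ↥(modularFunctionFieldBar N)

/-- The mod-`ℓ` function field, as a type. -/
abbrev FkN : Type := ↥(modularFunctionFieldFullC (kA A) N)

/-- Integral Laurent series with image in `F` and nonzero reduction in `F_k`. -/
structure Good (U : LaurentSeries A) : Prop where
  memF : coeffMap A.subtype U ∈ modularFunctionFieldBar N
  memFk : coeffMap (IsLocalRing.residue A) U ∈ modularFunctionFieldFullC (kA A) N
  ne : coeffMap (IsLocalRing.residue A) U ≠ 0

variable {A N}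

/-- The element of `F` defined by a good series. -/
def Good.toF {U : LaurentSeries A} (h : Good A N U) : FN N := ⟨coeffMap A.subtype U, h.memF⟩

/-- The element of `F_k` defined by a good series. -/
def Good.toFk {U : LaurentSeries A} (h : Good A N U) : FkN A N :=
  ⟨coeffMap (IsLocalRing.residue A) U, h.memFk⟩

theorem coeffMap_subtype_injective :
    Function.Injective (coeffMap (A.subtype) : LaurentSeries A → LaurentSeries Kb) := by
  intro x y hxy
  ext n
  have := congrArg (fun z => z.coeff n) hxy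
  simpa using this

theorem Good.ne_zero {U : LaurentSeries A} (h : Good A N U) : U ≠ 0 := by
  rintro rfl
  exact h.ne (map_zero _)

theorem Good.toF_ne_zero {U : LaurentSeries A} (h : Good A N U) : h.toF ≠ 0 := by
  intro h0
  have h1 : coeffMap A.subtype U = 0 := congrArg Subtype.val h0
  exact h.ne_zero (coeffMap_subtype_injective (h1.trans (map_zero _).symm))

theorem Good.toFk_ne_zero {U : LaurentSeries A} (h : Good A N U) : h.toFk ≠ 0 := by
  intro h0
  exact h.ne (congrArg Subtype.val h0)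

theorem Good.one : Good A N (1 : LaurentSeries A) where
  memF := by rw [map_one]; exact one_mem _
  memFk := by rw [map_one]; exact one_mem _
  ne := by rw [map_one]; exact one_ne_zero

theorem Good.mul {U V : LaurentSeries A} (hU : Good A N U) (hV : Good A N V) :
    Good A N (U * V) where
  memF := by rw [map_mul]; exact mul_mem hU.memF hV.memF
  memFk := by rw [map_mul]; exact mul_mem hU.memFk hV.memFk
  ne := by rw [map_mul]; exact mul_ne_zero hU.ne hV.ne

theorem Good.pow {U : LaurentSeries A} (hU : Good A N U) (n : ℕ) : Good A N (U ^ n) := by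
  induction n with
  | zero => rw [pow_zero]; exact Good.one
  | succ n ih => rw [pow_succ]; exact ih.mul hU

@[simp] theorem Good.toF_one : (Good.one : Good A N 1).toF = 1 :=
  Subtype.ext (map_one _)

@[simp] theorem Good.toFk_one : (Good.one : Good A N 1).toFk = 1 :=
  Subtype.ext (map_one _)

theorem Good.toF_mul {U V : LaurentSeries A} (hU : Good A N U) (hV : Good A N V) :
    (hU.mul hV).toF = hU.toF * hV.toF :=
  Subtype.ext (map_mul _ _ _)

theorem Good.toFk_mul {U V : LaurentSeries A} (hU : Good A N U) (hV : Good A N V) :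
    (hU.mul hV).toFk = hU.toFk * hV.toFk :=
  Subtype.ext (map_mul _ _ _)

theorem Good.toF_pow {U : LaurentSeries A} (hU : Good A N U) (n : ℕ) :
    (hU.pow n).toF = hU.toF ^ n :=
  Subtype.ext (map_pow _ _ _)

theorem Good.toFk_pow {U : LaurentSeries A} (hU : Good A N U) (n : ℕ) :
    (hU.pow n).toFk = hU.toFk ^ n :=
  Subtype.ext (map_pow _ _ _)

/-- The two target statements. -/
def Core (N : ℕ) (A : ValuationSubring Kb) (m : ℕ) : Prop :=
  ∀ (U₁ U₂ : LaurentSeries A) (h₁ : Good A N U₁) (h₂ : Good A N U₂),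
    coeffMap (IsLocalRing.residue A) U₁ = coeffMap (IsLocalRing.residue A) U₂ →
    (∀ P : Place Kb (FN N), (m : ℤ) ∣ P.ord (h₁.toF / h₂.toF)) →
    ∃ y : FN N, y ^ m = h₁.toF / h₂.toF

/-- A nonzero element of `F_k` without zeros and poles is constant. -/
def ConstLemma (N : ℕ) (A : ValuationSubring Kb) : Prop :=
  ∀ f : FkN A N, f ≠ 0 → (∀ Q : Place (kA A) (FkN A N), Q.ord f = 0) →
    ∃ c : kA A, f = algebraMap (kA A) (FkN A N) c

/-! ### Orders -/

section ord

variable {K F : Type*} [Field K] [Field F] [Algebra K F] (P : Place K F)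

theorem ord_algebraMap_eq_zero (c : K) : P.ord (algebraMap K F c) = 0 := by
  rcases eq_or_ne c 0 with rfl | hc
  · rw [map_zero, Place.ord_zero]
  · have h1 : algebraMap K F c ∈ P.toValuationSubring := P.algebraMap_mem' c
    have h2 : algebraMap K F c⁻¹ ∈ P.toValuationSubring := P.algebraMap_mem' c⁻¹
    let u : P.toValuationSubringˣ :=
      { val := ⟨algebraMap K F c, h1⟩
        inv := ⟨algebraMap K F c⁻¹, h2⟩
        val_inv := by
          apply Subtype.ext
          show algebraMap K F c * algebraMap K F c⁻¹ = 1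
          rw [← map_mul, mul_inv_cancel₀ hc, map_one]
        inv_val := by
          apply Subtype.ext
          show algebraMap K F c⁻¹ * algebraMap K F c = 1
          rw [← map_mul, inv_mul_cancel₀ hc, map_one] }
    exact P.ord_coe_unit u

theorem ord_div' {f g : F} (hf : f ≠ 0) (hg : g ≠ 0) : P.ord (f / g) = P.ord f - P.ord g := by
  rw [div_eq_mul_inv, P.ord_mul hf (inv_ne_zero hg), P.ord_inv, sub_eq_add_neg]

theorem ord_pow' (f : F) (n : ℕ) : P.ord (f ^ n) = n * P.ord f := by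
  have := P.ord_zpow f (n : ℤ)
  rwa [zpow_natCast] at this

end ord

/-! ### PGI closure -/

theorem exists_good_of_mem_closure
    {r : Place Kb (FN N) → Place (kA A) (FkN A N)}
    (hr : IsPlaceReductionModL A N r)
    {E : Divisor Kb (FN N)}
    (hE : E ∈ AddSubgroup.closure (integralPrincipalDivisors A (IsLocalRing.residue A) N)) :
    ∃ (U₁ U₂ : LaurentSeries A) (h₁ : Good A N U₁) (h₂ : Good A N U₂),
      (∀ P : Place Kb (FN N), E P = P.ord h₁.toF - P.ord h₂.toF) ∧
      (∀ Q : Place (kA A) (FkN A N),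
        Finsupp.mapDomain r E Q = Q.ord h₁.toFk - Q.ord h₂.toFk) := by
  induction hE using AddSubgroup.closure_induction with
  | mem E hE =>
    obtain ⟨y, hy, hyk, hne, hEy⟩ := hE
    refine ⟨y, 1, ⟨hy, hyk, hne⟩, Good.one, fun P => ?_, fun Q => ?_⟩
    · rw [Good.toF_one, Place.ord_one, sub_zero]; exact hEy P
    · rw [Good.toFk_one, Place.ord_one, sub_zero]
      exact hr.2 y hy hyk hne E hEy Q
  | zero =>
    refine ⟨1, 1, Good.one, Good.one, fun P => ?_, fun Q => ?_⟩
    · rw [sub_self]; rfl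
    · rw [sub_self, Finsupp.mapDomain_zero]; rfl
  | add E E' _ _ hE hE' =>
    obtain ⟨U₁, U₂, h₁, h₂, hP, hQ⟩ := hE
    obtain ⟨U₁', U₂', h₁', h₂', hP', hQ'⟩ := hE'
    refine ⟨U₁ * U₁', U₂ * U₂', h₁.mul h₁', h₂.mul h₂', fun P => ?_, fun Q => ?_⟩
    · rw [Finsupp.add_apply, hP P, hP' P, Good.toF_mul h₁ h₁', Good.toF_mul h₂ h₂',
        P.ord_mul h₁.toF_ne_zero h₁'.toF_ne_zero, P.ord_mul h₂.toF_ne_zero h₂'.toF_ne_zero]
      ring
    · rw [Finsupp.mapDomain_add, Finsupp.add_apply, hQ Q, hQ' Q, Good.toFk_mul h₁ h₁',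
        Good.toFk_mul h₂ h₂',
        Q.ord_mul h₁.toFk_ne_zero h₁'.toFk_ne_zero, Q.ord_mul h₂.toFk_ne_zero h₂'.toFk_ne_zero]
      ring
  | neg E _ hE =>
    obtain ⟨U₁, U₂, h₁, h₂, hP, hQ⟩ := hE
    refine ⟨U₂, U₁, h₂, h₁, fun P => ?_, fun Q => ?_⟩
    · rw [Finsupp.neg_apply, hP P]; ring
    · have : Finsupp.mapDomain r (-E) = -Finsupp.mapDomain r E := by
        rw [← Finsupp.mapDomain.addMonoidHom_apply, map_neg, Finsupp.mapDomain.addMonoidHom_apply]
      rw [this, Finsupp.neg_apply, hQ Q]; ring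

/-! ### Lifting elements of `F_k` -/

theorem qExpand_jqModC_mem_bar {d : ℕ} [NeZero d] (hd : d ∣ N) :
    qExpand Kb d (jqModC Kb) ∈ modularFunctionFieldBar N := by
  have h : qExpand Kb d (jqModC Kb) = coeffEmb Kb (qExpand ℚ d jq) := by
    rw [coeffEmb, coeffMap_qExpand, ← jqModC_rat, coeffMap_jqModC]
  rw [h]
  exact coeffEmb_mem_laurentBaseChange Kb (jqd_mem_full N hd)

theorem const_mem_bar (c : Kb) :
    (HahnSeries.single (0 : ℤ) c : LaurentSeries Kb) ∈ modularFunctionFieldBar N := by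
  rw [← algebraMap_laurentSeries_eq_single]
  exact (modularFunctionFieldBar N).algebraMap_mem c

theorem const_mem_Fk (c : kA A) :
    (HahnSeries.single (0 : ℤ) c : LaurentSeries (kA A)) ∈
      modularFunctionFieldFullC (kA A) N := by
  rw [← algebraMap_laurentSeries_eq_single]
  exact (modularFunctionFieldFullC (kA A) N).algebraMap_mem c

theorem exists_lift_of_mem_algebra_adjoin {x : LaurentSeries (kA A)}
    (hx : x ∈ Algebra.adjoin (kA A) (divisorExpansionsC (kA A) N)) :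
    ∃ a : LaurentSeries A, coeffMap A.subtype a ∈ modularFunctionFieldBar N ∧
      coeffMap (IsLocalRing.residue A) a = x := by
  induction hx using Algebra.adjoin_induction with
  | mem x hx =>
    obtain ⟨d, hd0, hdN, rfl⟩ := hx
    have := hd0
    refine ⟨qExpand A d (jqModC A), ?_, ?_⟩
    · rw [coeffMap_qExpand, coeffMap_jqModC]
      exact qExpand_jqModC_mem_bar hdN
    · rw [coeffMap_qExpand, coeffMap_jqModC]
  | algebraMap c =>
    obtain ⟨c', rfl⟩ := IsLocalRing.residue_surjective c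
    refine ⟨HahnSeries.single (0 : ℤ) c', ?_, ?_⟩
    · rw [coeffMap_single]
      exact const_mem_bar _
    · rw [coeffMap_single, algebraMap_laurentSeries_eq_single]
  | add x y _ _ hx hy =>
    obtain ⟨a, ha, rfl⟩ := hx
    obtain ⟨b, hb, rfl⟩ := hy
    exact ⟨a + b, by rw [map_add]; exact add_mem ha hb, map_add _ _ _⟩
  | mul x y _ _ hx hy =>
    obtain ⟨a, ha, rfl⟩ := hx
    obtain ⟨b, hb, rfl⟩ := hy
    exact ⟨a * b, by rw [map_mul]; exact mul_mem ha hb, map_mul _ _ _⟩

/-- Every nonzero element of `F_k` is a quotient of reductions of good series. -/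
theorem exists_good_div (g : FkN A N) (hg : g ≠ 0) :
    ∃ (a b : LaurentSeries A) (ha : Good A N a) (hb : Good A N b), g = ha.toFk / hb.toFk := by
  obtain ⟨r, hr, s, hs, hgrs⟩ := IntermediateField.mem_adjoin_iff_div.mp g.2
  have hle : ∀ {x : LaurentSeries (kA A)},
      x ∈ Algebra.adjoin (kA A) (divisorExpansionsC (kA A) N) →
      x ∈ modularFunctionFieldFullC (kA A) N := fun {x} hx =>
    IntermediateField.algebra_adjoin_le_adjoin _ _ hx
  have hg' : (g : LaurentSeries (kA A)) ≠ 0 := fun h => hg (Subtype.ext h)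
  have hs0 : s ≠ 0 := by
    rintro rfl
    rw [div_zero] at hgrs
    exact hg' hgrs
  have hr0 : r ≠ 0 := by
    rintro rfl
    rw [zero_div] at hgrs
    exact hg' hgrs
  obtain ⟨a, haF, rfl⟩ := exists_lift_of_mem_algebra_adjoin hr
  obtain ⟨b, hbF, rfl⟩ := exists_lift_of_mem_algebra_adjoin hs
  refine ⟨a, b, ⟨haF, hle hr, hr0⟩, ⟨hbF, hle hs, hs0⟩, ?_⟩
  apply Subtype.ext
  rw [hgrs]
  rfl

/-! ### Assembly -/

theorem good_const {c : A} (hc : IsLocalRing.residue A c ≠ 0) :
    Good A N (HahnSeries.single (0 : ℤ) c : LaurentSeries A) where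
  memF := by rw [coeffMap_single]; exact const_mem_bar _
  memFk := by rw [coeffMap_single]; exact const_mem_Fk _
  ne := by
    rw [coeffMap_single]
    intro h0
    have := congrArg (fun z => z.coeff 0) h0
    simp only [HahnSeries.coeff_single_same, HahnSeries.coeff_zero] at this
    exact hc this

theorem good_const_toF {c : A} (hc : IsLocalRing.residue A c ≠ 0) :
    (good_const (N := N) hc).toF = algebraMap Kb (FN N) (c : Kb) := by
  apply Subtype.ext
  show coeffMap A.subtype (HahnSeries.single (0 : ℤ) c) = algebraMap Kb (LaurentSeries Kb) (c : Kb)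
  rw [coeffMap_single, algebraMap_laurentSeries_eq_single]
  rfl

theorem good_const_toFk {c : A} (hc : IsLocalRing.residue A c ≠ 0) :
    (good_const (N := N) hc).toFk = algebraMap (kA A) (FkN A N) (IsLocalRing.residue A c) := by
  apply Subtype.ext
  show coeffMap (IsLocalRing.residue A) (HahnSeries.single (0 : ℤ) c) =
    algebraMap (kA A) (LaurentSeries (kA A)) (IsLocalRing.residue A c)
  rw [coeffMap_single, algebraMap_laurentSeries_eq_single]

set_option maxHeartbeats 3200000 in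
/-- **Step a**: `S18` follows from `Core` and `ConstLemma`. -/
theorem S18_of_core (h : ReductionInputsModL A N) {m : ℕ} (hm0 : m ≠ 0)
    (hconst : ConstLemma N A) (hcore : Core N A m)
    (z : JZero N) (hmz : m • z = 0) (hz : reductionModL A N z = 0) : z = 0 := by
  obtain ⟨D, rfl⟩ := Pic0.mk_surjective z
  have hr : IsPlaceReductionModL A N (placeReductionModL h) :=
    isPlaceReductionModL_placeReductionModL h
  have hgen : PrincipalGeneratedByIntegral A (IsLocalRing.residue A) N := h.choose_spec.2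
  set r := placeReductionModL h with hr_def
  -- `m • D` is principal
  have h1 : (m • (D : Divisor Kb (FN N))) ∈ Divisor.principal (K := Kb) (F := FN N) := by
    have h0 : Pic0.mk (m • D) = 0 := by
      rw [← hmz]; rfl
    have := (QuotientAddGroup.eq_zero_iff _).mp h0
    simpa [AddSubgroup.mem_addSubgroupOf] using this
  -- `r_* D` is principal
  have h2 : Finsupp.mapDomain r (D : Divisor Kb (FN N)) ∈
      Divisor.principal (K := kA A) (F := FkN A N) := by
    rw [reductionModL_mk h D] at hz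
    have := (QuotientAddGroup.eq_zero_iff _).mp hz
    simpa [AddSubgroup.mem_addSubgroupOf] using this
  obtain ⟨U₁, U₂, hU₁, hU₂, hP, hQ⟩ := exists_good_of_mem_closure hr (hgen h1)
  obtain ⟨g, hg0, hg⟩ := h2
  obtain ⟨a, b, ha, hb, hgab⟩ := exists_good_div g hg0
  -- orders on `F_k`
  have hQm : ∀ Q : Place (kA A) (FkN A N),
      (m : ℤ) * Q.ord g = Q.ord hU₁.toFk - Q.ord hU₂.toFk := by
    intro Q
    rw [← hQ Q, ← hg Q]
    have : Finsupp.mapDomain r (m • (D : Divisor Kb (FN N))) =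
        m • Finsupp.mapDomain r (D : Divisor Kb (FN N)) := by
      rw [← Finsupp.mapDomain.addMonoidHom_apply, map_nsmul,
        Finsupp.mapDomain.addMonoidHom_apply]
    rw [this, Finsupp.smul_apply, nsmul_eq_mul]
  -- the constant
  have hV₁ : Good A N (U₁ * b ^ m) := hU₁.mul (hb.pow m)
  have hW : Good A N (U₂ * a ^ m) := hU₂.mul (ha.pow m)
  have hV₁k : hV₁.toFk = hU₁.toFk * hb.toFk ^ m := by
    rw [← Good.toFk_pow hb m]; exact Good.toFk_mul hU₁ (hb.pow m)
  have hWk : hW.toFk = hU₂.toFk * ha.toFk ^ m := by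
    rw [← Good.toFk_pow ha m]; exact Good.toFk_mul hU₂ (ha.pow m)
  have hV₁F : hV₁.toF = hU₁.toF * hb.toF ^ m := by
    rw [← Good.toF_pow hb m]; exact Good.toF_mul hU₁ (hb.pow m)
  have hWF : hW.toF = hU₂.toF * ha.toF ^ m := by
    rw [← Good.toF_pow ha m]; exact Good.toF_mul hU₂ (ha.pow m)
  have hf0 : hV₁.toFk / hW.toFk ≠ 0 := div_ne_zero hV₁.toFk_ne_zero hW.toFk_ne_zero
  have hford : ∀ Q : Place (kA A) (FkN A N), Q.ord (hV₁.toFk / hW.toFk) = 0 := by
    intro Q
    rw [ord_div' Q hV₁.toFk_ne_zero hW.toFk_ne_zero, hV₁k, hWk,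
      Q.ord_mul hU₁.toFk_ne_zero (pow_ne_zero _ hb.toFk_ne_zero),
      Q.ord_mul hU₂.toFk_ne_zero (pow_ne_zero _ ha.toFk_ne_zero), ord_pow', ord_pow']
    have h3 := hQm Q
    rw [hgab, ord_div' Q ha.toFk_ne_zero hb.toFk_ne_zero] at h3
    linarith
  obtain ⟨cbar, hc⟩ := hconst _ hf0 hford
  have hcbar0 : cbar ≠ 0 := by
    rintro rfl
    rw [map_zero] at hc
    exact hf0 hc
  obtain ⟨c, rfl⟩ := IsLocalRing.residue_surjective cbar
  have hCc : Good A N (HahnSeries.single (0 : ℤ) c : LaurentSeries A) := good_const hcbar0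
  have hV₂ : Good A N (HahnSeries.single (0 : ℤ) c * (U₂ * a ^ m)) := hCc.mul hW
  have hV₂k : hV₂.toFk = algebraMap (kA A) (FkN A N) (IsLocalRing.residue A c) * hW.toFk := by
    rw [← good_const_toFk (N := N) hcbar0]; exact Good.toFk_mul hCc hW
  have hV₂F : hV₂.toF = algebraMap Kb (FN N) (c : Kb) * hW.toF := by
    rw [← good_const_toF (N := N) hcbar0]; exact Good.toF_mul hCc hW
  have hred : coeffMap (IsLocalRing.residue A) (U₁ * b ^ m) =
      coeffMap (IsLocalRing.residue A) (HahnSeries.single (0 : ℤ) c * (U₂ * a ^ m)) := by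
    have : hV₁.toFk = hV₂.toFk := by
      rw [hV₂k, ← hc, div_mul_cancel₀ _ hW.toFk_ne_zero]
    exact congrArg Subtype.val this
  have hc0 : algebraMap Kb (FN N) (c : Kb) ≠ 0 := by
    intro h0
    apply hV₂.toF_ne_zero
    rw [hV₂F, h0, zero_mul]
  have hPm : ∀ P : Place Kb (FN N),
      P.ord (hV₁.toF / hV₂.toF) =
        (m : ℤ) * ((D : Divisor Kb (FN N)) P + P.ord hb.toF - P.ord ha.toF) := by
    intro P
    rw [ord_div' P hV₁.toF_ne_zero hV₂.toF_ne_zero, hV₂F, P.ord_mul hc0 hW.toF_ne_zero,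
      ord_algebraMap_eq_zero, hV₁F, hWF,
      P.ord_mul hU₁.toF_ne_zero (pow_ne_zero _ hb.toF_ne_zero),
      P.ord_mul hU₂.toF_ne_zero (pow_ne_zero _ ha.toF_ne_zero), ord_pow', ord_pow']
    have h3 := hP P
    rw [Finsupp.smul_apply, nsmul_eq_mul] at h3
    linarith
  obtain ⟨y, hy⟩ := hcore _ _ hV₁ hV₂ hred (fun P => ⟨_, hPm P⟩)
  have hy0 : y ≠ 0 := by
    rintro rfl
    rw [zero_pow hm0] at hy
    exact div_ne_zero hV₁.toF_ne_zero hV₂.toF_ne_zero hy.symm
  -- `D = div (y * a / b)`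
  have hDprin : (D : Divisor Kb (FN N)) ∈ Divisor.principal (K := Kb) (F := FN N) := by
    refine ⟨y * ha.toF / hb.toF,
      div_ne_zero (mul_ne_zero hy0 ha.toF_ne_zero) hb.toF_ne_zero, fun P => ?_⟩
    rw [ord_div' P (mul_ne_zero hy0 ha.toF_ne_zero) hb.toF_ne_zero,
      P.ord_mul hy0 ha.toF_ne_zero]
    have h4 : (m : ℤ) * P.ord y =
        (m : ℤ) * ((D : Divisor Kb (FN N)) P + P.ord hb.toF - P.ord ha.toF) := by
      rw [← hPm P, ← hy, ord_pow']
    have hm0' : (m : ℤ) ≠ 0 := by exact_mod_cast hm0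
    have h5 := mul_left_cancel₀ hm0' h4
    linarith
  exact (QuotientAddGroup.eq_zero_iff _).mpr (by
    simpa [AddSubgroup.mem_addSubgroupOf] using hDprin)

/-- `S18` in the shape of the frozen statement, from `Core` and `ConstLemma`. -/
theorem S18_of_core_frozen_shape {ℓ : ℕ} [Fact ℓ.Prime]
    (h : ReductionInputsModL A N) (m : ℕ) (hm : ¬ ℓ ∣ m)
    (hconst : ConstLemma N A) (hcore : Core N A m)
    (z : JZero N) (hmz : m • z = 0) (hz : reductionModL A N z = 0) : z = 0 :=
  S18_of_core h (fun h0 => hm (by rw [h0]; exact dvd_zero ℓ)) hconst hcore z hmz hz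

end Fermat.Agent.S18.H665

end
end
-- ===== PACK-END S18/H665/StepA.lean

-- ===== PACK-BEGIN S13/H365/NodeCore.lean
section



/-!
# Core valuation lemmas for the component homomorphism at a node (any residue characteristic)

Abstract setting: a field `K` with a valuation `v`, a cubic
`(y - γ₁ x) (y - γ₂ x) = x ^ 3 + a x` with `v a < 1`, `a ≠ 0`, `v (γ₁ - γ₂) = 1`.
Three collinear points `(xᵢ, yᵢ)` on the line `y = l x + n` satisfy Vieta's relations.
No hypothesis on `v 2`.
-/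

set_option autoImplicit false

namespace Fermat.Agent.S13.H365

variable {K : Type*} [Field K] {Γ₀ : Type*} [LinearOrderedCommGroupWithZero Γ₀]
  {v : Valuation K Γ₀}

/-- The data of three collinear points on the cubic `(y - γ₁ x)(y - γ₂ x) = x³ + a x`. -/
structure Coll (a γ₁ γ₂ : K) (x₁ y₁ x₂ y₂ x₃ y₃ l n : K) : Prop where
  L1 : y₁ = l * x₁ + n
  L2 : y₂ = l * x₂ + n
  L3 : y₃ = l * x₃ + n
  E1 : (y₁ - γ₁ * x₁) * (y₁ - γ₂ * x₁) = x₁ ^ 3 + a * x₁
  E2 : (y₂ - γ₁ * x₂) * (y₂ - γ₂ * x₂) = x₂ ^ 3 + a * x₂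
  E3 : (y₃ - γ₁ * x₃) * (y₃ - γ₂ * x₃) = x₃ ^ 3 + a * x₃
  V1 : x₁ + x₂ + x₃ = (l - γ₁) * (l - γ₂)
  V2 : x₁ * x₂ + x₁ * x₃ + x₂ * x₃ = a - ((l - γ₁) + (l - γ₂)) * n
  V3 : x₁ * x₂ * x₃ = n ^ 2

namespace Coll

variable {a γ₁ γ₂ x₁ y₁ x₂ y₂ x₃ y₃ l n : K}

lemma swap12 (h : Coll a γ₁ γ₂ x₁ y₁ x₂ y₂ x₃ y₃ l n) : Coll a γ₁ γ₂ x₂ y₂ x₁ y₁ x₃ y₃ l n where
  L1 := h.L2
  L2 := h.L1
  L3 := h.L3
  E1 := h.E2
  E2 := h.E1
  E3 := h.E3
  V1 := by rw [← h.V1]; ring
  V2 := by rw [← h.V2]; ring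
  V3 := by rw [← h.V3]; ring

lemma swap23 (h : Coll a γ₁ γ₂ x₁ y₁ x₂ y₂ x₃ y₃ l n) : Coll a γ₁ γ₂ x₁ y₁ x₃ y₃ x₂ y₂ l n where
  L1 := h.L1
  L2 := h.L3
  L3 := h.L2
  E1 := h.E1
  E2 := h.E3
  E3 := h.E2
  V1 := by rw [← h.V1]; ring
  V2 := by rw [← h.V2]; ring
  V3 := by rw [← h.V3]; ring

lemma swap13 (h : Coll a γ₁ γ₂ x₁ y₁ x₂ y₂ x₃ y₃ l n) : Coll a γ₁ γ₂ x₃ y₃ x₂ y₂ x₁ y₁ l n where
  L1 := h.L3
  L2 := h.L2
  L3 := h.L1
  E1 := h.E3
  E2 := h.E2
  E3 := h.E1
  V1 := by rw [← h.V1]; ring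
  V2 := by rw [← h.V2]; ring
  V3 := by rw [← h.V3]; ring

lemma rot (h : Coll a γ₁ γ₂ x₁ y₁ x₂ y₂ x₃ y₃ l n) : Coll a γ₁ γ₂ x₂ y₂ x₃ y₃ x₁ y₁ l n :=
  h.swap12.swap23

lemma rot' (h : Coll a γ₁ γ₂ x₁ y₁ x₂ y₂ x₃ y₃ l n) : Coll a γ₁ γ₂ x₃ y₃ x₁ y₁ x₂ y₂ l n :=
  h.swap23.swap12

/-- Exchanging the two branches. -/
lemma swapγ (h : Coll a γ₁ γ₂ x₁ y₁ x₂ y₂ x₃ y₃ l n) : Coll a γ₂ γ₁ x₁ y₁ x₂ y₂ x₃ y₃ l n where
  L1 := h.L1
  L2 := h.L2
  L3 := h.L3
  E1 := by rw [mul_comm]; exact h.E1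
  E2 := by rw [mul_comm]; exact h.E2
  E3 := by rw [mul_comm]; exact h.E3
  V1 := by rw [h.V1]; ring
  V2 := by rw [h.V2]; ring
  V3 := h.V3

end Coll

variable {a γ₁ γ₂ x₁ y₁ x₂ y₂ x₃ y₃ l n : K}

lemma val_add3_le {a b c : K} {g : Γ₀} (ha : v a ≤ g) (hb : v b ≤ g) (hc : v c ≤ g) :
    v (a + b + c) ≤ g :=
  Valuation.map_add_le _ (Valuation.map_add_le _ ha hb) hc

lemma val_add3_lt {a b c : K} {g : Γ₀} (ha : v a < g) (hb : v b < g) (hc : v c < g) :
    v (a + b + c) < g :=
  Valuation.map_add_lt _ (Valuation.map_add_lt _ ha hb) hc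

lemma val_two_le_one : v (2 : K) ≤ 1 := by
  have : (2 : K) = 1 + 1 := by norm_num
  rw [this]
  exact Valuation.map_add_le _ (le_of_eq (map_one v)) (le_of_eq (map_one v))

lemma val_four_le_one : v (4 : K) ≤ 1 := by
  have : (4 : K) = 2 * 2 := by norm_num
  rw [this, map_mul]
  exact mul_le_one' val_two_le_one val_two_le_one

lemma Coll.vs_vn (h : Coll a γ₁ γ₂ x₁ y₁ x₂ y₂ x₃ y₃ l n) :
    v ((l - γ₁) + (l - γ₂)) * v n = v (a - (x₁ * x₂ + x₁ * x₃ + x₂ * x₃)) := by
  rw [h.V2]
  have e : a - (a - ((l - γ₁) + (l - γ₂)) * n) = ((l - γ₁) + (l - γ₂)) * n := by ring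
  rw [e, map_mul]

lemma Coll.vn_sq (h : Coll a γ₁ γ₂ x₁ y₁ x₂ y₂ x₃ y₃ l n) :
    v n ^ 2 = v x₁ * v x₂ * v x₃ := by
  rw [← map_pow, ← h.V3, map_mul, map_mul]

/-- `v (κ₁ + κ₂) ^ 2 ≤ max 1 (v (κ₁ κ₂))`. -/
lemma val_sum_sq_le {κ₁ κ₂ : K} {g : Γ₀} (hδ : v (κ₁ - κ₂) = 1) (hg : 1 ≤ g)
    (hp : v (κ₁ * κ₂) ≤ g) : v (κ₁ + κ₂) ^ 2 ≤ g := by
  have e : (κ₁ + κ₂) ^ 2 = (κ₁ - κ₂) ^ 2 + 4 * (κ₁ * κ₂) := by ring
  rw [← map_pow, e]
  apply Valuation.map_add_le
  · rw [map_pow, hδ, one_pow]; exact hg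
  · rw [map_mul]
    calc v 4 * v (κ₁ * κ₂) ≤ 1 * g := mul_le_mul' val_four_le_one hp
      _ = g := one_mul _

/-- When all three points are at the node, the slope is congruent to exactly one of `γ₁, γ₂`. -/
lemma Coll.kappa_dichotomy (h : Coll a γ₁ γ₂ x₁ y₁ x₂ y₂ x₃ y₃ l n)
    (hδ : v (γ₁ - γ₂) = 1)
    (h1 : v x₁ < 1) (h2' : v x₂ < 1) (h3 : v x₃ < 1) :
    (v (l - γ₁) < 1 ∧ v (l - γ₂) = 1) ∨ (v (l - γ₁) = 1 ∧ v (l - γ₂) < 1) := by
  have hprod : v ((l - γ₁) * (l - γ₂)) < 1 := by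
    rw [← h.V1]
    exact val_add3_lt h1 h2' h3
  rcases lt_or_ge (v (l - γ₁)) 1 with hk | hk
  · left
    refine ⟨hk, ?_⟩
    have e : l - γ₂ = (l - γ₁) + (γ₁ - γ₂) := by ring
    rw [e, Valuation.map_add_eq_of_lt_right _ (by rw [hδ]; exact hk), hδ]
  · right
    have hk' : v (l - γ₂) < 1 := by
      by_contra hcon
      rw [not_lt] at hcon
      rw [map_mul] at hprod
      exact absurd (one_le_mul_of_one_le_of_one_le hk hcon) (not_le.mpr hprod)
    refine ⟨?_, hk'⟩
    have e : l - γ₁ = (l - γ₂) - (γ₁ - γ₂) := by ring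
    rw [e, Valuation.map_sub_eq_of_lt_right _ (by rw [hδ]; exact hk'), hδ]

/-- If all three points are at the node then `v (κ₁ + κ₂) = 1`. -/
lemma Coll.vs_eq_one (h : Coll a γ₁ γ₂ x₁ y₁ x₂ y₂ x₃ y₃ l n) (hδ : v (γ₁ - γ₂) = 1)
    (h1 : v x₁ < 1) (h2 : v x₂ < 1) (h3 : v x₃ < 1) : v ((l - γ₁) + (l - γ₂)) = 1 := by
  rcases h.kappa_dichotomy hδ h1 h2 h3 with ⟨hk, hk'⟩ | ⟨hk, hk'⟩
  · rw [Valuation.map_add_eq_of_lt_right _ (by rw [hk']; exact hk), hk']
  · rw [Valuation.map_add_eq_of_lt_left _ (by rw [hk]; exact hk'), hk]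

/-- Key inequality: if `x₁` is strictly smaller than `x₂, x₃`, `x₃` is not at the node and
`v a < v x₂ * v x₃`, contradiction. -/
lemma factD (h : Coll a γ₁ γ₂ x₁ y₁ x₂ y₂ x₃ y₃ l n) (hδ : v (γ₁ - γ₂) = 1)
    (h12 : v x₁ < v x₂) (h13 : v x₁ < v x₃) (h23 : v x₂ ≤ v x₃) (h3 : 1 ≤ v x₃)
    (hμ : v a < v x₂ * v x₃) : False := by
  have hr2 : 0 < v x₂ := lt_of_le_of_lt zero_le h12
  have hr3 : 0 < v x₃ := lt_of_lt_of_le zero_lt_one h3
  have hne : v x₂ * v x₃ ≠ 0 := (mul_pos hr2 hr3).ne'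
  have hd1 : v (x₁ * x₂) < v (x₂ * x₃) := by
    rw [map_mul, map_mul, mul_comm (v x₁)]
    exact mul_lt_mul_of_pos_left h13 hr2
  have hd2 : v (x₁ * x₃) < v (x₂ * x₃) := by
    rw [map_mul, map_mul]
    exact mul_lt_mul_of_pos_right h12 hr3
  have hαβ : v a < v (x₂ * x₃) := by
    rw [map_mul]; exact hμ
  have hln : v ((l - γ₁) + (l - γ₂)) * v n = v x₂ * v x₃ := by
    rw [h.vs_vn, ← map_mul]
    have e : a - (x₁ * x₂ + x₁ * x₃ + x₂ * x₃) = (a - (x₁ * x₂ + x₁ * x₃)) - x₂ * x₃ := by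
      ring
    rw [e]
    apply Valuation.map_sub_eq_of_lt_right
    exact Valuation.map_sub_lt _ hαβ (Valuation.map_add_lt _ hd1 hd2)
  have hl2 : v ((l - γ₁) + (l - γ₂)) ^ 2 * v x₁ = v x₂ * v x₃ := by
    have e1 : (v ((l - γ₁) + (l - γ₂)) * v n) ^ 2 = (v x₂ * v x₃) ^ 2 := by rw [hln]
    rw [mul_pow, h.vn_sq] at e1
    have e2 : (v ((l - γ₁) + (l - γ₂)) ^ 2 * v x₁) * (v x₂ * v x₃) =
        (v x₂ * v x₃) * (v x₂ * v x₃) := by
      rw [← pow_two, ← e1]; simp only [mul_assoc]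
    exact mul_right_cancel₀ hne e2
  have hl2le : v ((l - γ₁) + (l - γ₂)) ^ 2 ≤ v x₃ := by
    have hδ' : v ((l - γ₁) - (l - γ₂)) = 1 := by
      have e : (l - γ₁) - (l - γ₂) = -(γ₁ - γ₂) := by ring
      rw [e, Valuation.map_neg, hδ]
    apply val_sum_sq_le hδ' h3
    rw [← h.V1]
    exact val_add3_le h13.le h23 le_rfl
  have : v ((l - γ₁) + (l - γ₂)) ^ 2 * v x₁ < v x₂ * v x₃ := by
    rcases eq_or_ne (v ((l - γ₁) + (l - γ₂)) ^ 2) 0 with h0 | h0
    · rw [h0, zero_mul]; exact mul_pos hr2 hr3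
    · calc v ((l - γ₁) + (l - γ₂)) ^ 2 * v x₁
          < v ((l - γ₁) + (l - γ₂)) ^ 2 * v x₂ :=
            mul_lt_mul_of_pos_left h12 (zero_lt_iff.mpr h0)
        _ ≤ v x₃ * v x₂ := mul_le_mul_left hl2le _
        _ = v x₂ * v x₃ := mul_comm _ _
  exact absurd hl2 this.ne


/-- Exactly one point at the node is impossible. -/
lemma factC (h : Coll a γ₁ γ₂ x₁ y₁ x₂ y₂ x₃ y₃ l n) (hδ : v (γ₁ - γ₂) = 1) (ha : v a < 1)
    (h1 : v x₁ < 1) (h2' : 1 ≤ v x₂) (h3 : 1 ≤ v x₃) : False := by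
  have h23 : 1 ≤ v x₂ * v x₃ := one_le_mul_of_one_le_of_one_le h2' h3
  rcases le_total (v x₂) (v x₃) with h' | h'
  · exact factD h hδ (lt_of_lt_of_le h1 h2') (lt_of_lt_of_le h1 h3) h' h3
      (lt_of_lt_of_le ha h23)
  · exact factD h.swap23 hδ (lt_of_lt_of_le h1 h3) (lt_of_lt_of_le h1 h2') h' h2'
      (lt_of_lt_of_le ha (by rwa [mul_comm]))

/-- All three points in the `M`-range (`v x ≤ v a`) is impossible. -/
lemma factMMM (h : Coll a γ₁ γ₂ x₁ y₁ x₂ y₂ x₃ y₃ l n) (hδ : v (γ₁ - γ₂) = 1) (ha : v a < 1)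
    (ha0 : a ≠ 0)
    (h1 : v x₁ ≤ v a) (h2' : v x₂ ≤ v a) (h3 : v x₃ ≤ v a) : False := by
  have hμ : 0 < v a := by rw [Valuation.pos_iff]; exact ha0
  have hl := h.vs_eq_one hδ (h1.trans_lt ha) (h2'.trans_lt ha) (h3.trans_lt ha)
  have hn : v n < v a := by
    by_contra hcon
    rw [not_lt] at hcon
    have e1 : v a ^ 2 ≤ v n ^ 2 := pow_le_pow_left₀ zero_le hcon 2
    rw [h.vn_sq] at e1
    have e2 : v x₁ * v x₂ * v x₃ ≤ v a * v a * v a :=
      mul_le_mul' (mul_le_mul' h1 h2') h3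
    have e3 : v a * v a * v a < v a ^ 2 := by
      rw [pow_two]
      calc v a * v a * v a < v a * v a * 1 := mul_lt_mul_of_pos_left ha (mul_pos hμ hμ)
        _ = v a * v a := mul_one _
    exact absurd (e1.trans e2) (not_le.mpr e3)
  have hln := h.vs_vn (v := v)
  rw [hl, one_mul] at hln
  have hs : v (x₁ * x₂ + x₁ * x₃ + x₂ * x₃) < v a := by
    have hh : ∀ b c : K, v b ≤ v a → v c ≤ v a → v (b * c) < v a := by
      intro b c hb hc
      rw [map_mul]
      calc v b * v c ≤ v a * v a := mul_le_mul' hb hc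
        _ < v a * 1 := mul_lt_mul_of_pos_left ha hμ
        _ = v a := mul_one _
    exact val_add3_lt (hh _ _ h1 h2') (hh _ _ h1 h3) (hh _ _ h2' h3)
  rw [Valuation.map_sub_eq_of_lt_left _ hs] at hln
  exact absurd hln hn.ne

/-- Two points in the `M`-range and one more at the node is impossible. -/
lemma factMMmid (h : Coll a γ₁ γ₂ x₁ y₁ x₂ y₂ x₃ y₃ l n) (hδ : v (γ₁ - γ₂) = 1)
    (ha : v a < 1) (ha0 : a ≠ 0)
    (h1 : v x₁ ≤ v a) (h2' : v x₂ ≤ v a) (h3 : v x₃ < 1) : False := by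
  have hμ : 0 < v a := by rw [Valuation.pos_iff]; exact ha0
  have hl := h.vs_eq_one hδ (h1.trans_lt ha) (h2'.trans_lt ha) h3
  have hln := h.vs_vn (v := v)
  rw [hl, one_mul] at hln
  have hh : ∀ b c : K, v b ≤ v a → v c < 1 → v (b * c) < v a := by
    intro b c hb hc
    rw [map_mul]
    calc v b * v c ≤ v a * v c := mul_le_mul' hb le_rfl
      _ < v a * 1 := mul_lt_mul_of_pos_left hc hμ
      _ = v a := mul_one _
  have hs : v (x₁ * x₂ + x₁ * x₃ + x₂ * x₃) < v a :=
    val_add3_lt (hh _ _ h1 (h2'.trans_lt ha)) (hh _ _ h1 h3) (hh _ _ h2' h3)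
  rw [Valuation.map_sub_eq_of_lt_left _ hs] at hln
  have e1 := h.vn_sq (v := v)
  rw [hln] at e1
  have e2 : v x₁ * v x₂ * v x₃ < v a ^ 2 := by
    rw [pow_two]
    calc v x₁ * v x₂ * v x₃ ≤ v a * v a * v x₃ := mul_le_mul' (mul_le_mul' h1 h2') le_rfl
      _ < v a * v a * 1 := mul_lt_mul_of_pos_left h3 (mul_pos hμ hμ)
      _ = v a * v a := mul_one _
  exact absurd e1.symm e2.ne

/-- In the middle range, one of the two branches of the node is chosen. -/
lemma sign_exists {x y : K}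
    (hE : (y - γ₁ * x) * (y - γ₂ * x) = x ^ 3 + a * x) (hlo : v a < v x) (hhi : v x < 1) :
    v (y - γ₁ * x) < v x ∨ v (y - γ₂ * x) < v x := by
  have hx : 0 < v x := lt_of_le_of_lt zero_le hlo
  have e : (y - γ₁ * x) * (y - γ₂ * x) = x * (x ^ 2 + a) := by rw [hE]; ring
  have h1 : v (x ^ 2 + a) < v x := by
    apply Valuation.map_add_lt _ _ hlo
    rw [map_pow, pow_two]
    calc v x * v x < v x * 1 := mul_lt_mul_of_pos_left hhi hx
      _ = v x := mul_one _
  by_contra hcon
  rw [not_or, not_lt, not_lt] at hcon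
  have h2 : v x * v x ≤ v ((y - γ₁ * x) * (y - γ₂ * x)) := by
    rw [map_mul]; exact mul_le_mul' hcon.1 hcon.2
  rw [e, map_mul] at h2
  exact absurd h2 (not_le.mpr (mul_lt_mul_of_pos_left h1 hx))

/-- The two branches of the node are exclusive. -/
lemma sign_exclusive {x y : K} (hδ : v (γ₁ - γ₂) = 1) :
    ¬ (v (y - γ₁ * x) < v x ∧ v (y - γ₂ * x) < v x) := by
  rintro ⟨h1, h3⟩
  have e : (γ₁ - γ₂) * x = (y - γ₂ * x) - (y - γ₁ * x) := by ring
  have h4 : v ((γ₁ - γ₂) * x) < v x := by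
    rw [e]; exact Valuation.map_sub_lt _ h3 h1
  rw [map_mul, hδ, one_mul] at h4
  exact lt_irrefl _ h4

/-- A point in the `M`-range has `v (y - γ₁ x) ≤ v a`. -/
lemma val_w_le_of_M {x y : K} (hδ : v (γ₁ - γ₂) = 1) (ha : v a < 1) (ha0 : a ≠ 0)
    (hE : (y - γ₁ * x) * (y - γ₂ * x) = x ^ 3 + a * x) (hx : v x ≤ v a) :
    v (y - γ₁ * x) ≤ v a := by
  have hμ : 0 < v a := by rw [Valuation.pos_iff]; exact ha0
  by_contra hcon
  rw [not_le] at hcon
  -- then `v (y - γ₂ x) = v (y - γ₁ x) > v a`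
  have e : y - γ₂ * x = (y - γ₁ * x) + (γ₁ - γ₂) * x := by ring
  have hsmall : v ((γ₁ - γ₂) * x) < v (y - γ₁ * x) := by
    rw [map_mul, hδ, one_mul]; exact hx.trans_lt hcon
  have h2 : v (y - γ₂ * x) = v (y - γ₁ * x) := by
    rw [e, Valuation.map_add_eq_of_lt_left _ hsmall]
  have h3 : v a * v a < v ((y - γ₁ * x) * (y - γ₂ * x)) := by
    rw [map_mul, h2]
    calc v a * v a < v a * v (y - γ₁ * x) := mul_lt_mul_of_pos_left hcon hμ
      _ < v (y - γ₁ * x) * v (y - γ₁ * x) := mul_lt_mul_of_pos_right hcon (hμ.trans hcon)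
  have e2 : x ^ 3 + a * x = x * (x ^ 2 + a) := by ring
  have h4 : v (x ^ 3 + a * x) ≤ v a * v a := by
    rw [e2, map_mul]
    apply mul_le_mul' hx
    apply Valuation.map_add_le _ _ le_rfl
    rw [map_pow, pow_two]
    calc v x * v x ≤ v a * 1 := mul_le_mul' hx ((hx.trans ha.le))
      _ = v a := mul_one _
  rw [hE] at h3
  exact absurd h4 (not_le.mpr h3)

/-- `M`, mid, mid: the two middle points have `v x₂ * v x₃ = v a`. -/
lemma factA'_val (h : Coll a γ₁ γ₂ x₁ y₁ x₂ y₂ x₃ y₃ l n) (hδ : v (γ₁ - γ₂) = 1)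
    (ha : v a < 1) (ha0 : a ≠ 0)
    (h1 : v x₁ ≤ v a) (h2lo : v a < v x₂) (h2hi : v x₂ < 1) (h3lo : v a < v x₃)
    (h3hi : v x₃ < 1) : v x₂ * v x₃ = v a := by
  have hμ : 0 < v a := by rw [Valuation.pos_iff]; exact ha0
  have hr2 : 0 < v x₂ := hμ.trans h2lo
  have hr3 : 0 < v x₃ := hμ.trans h3lo
  have hl := h.vs_eq_one hδ (h1.trans_lt ha) h2hi h3hi
  have hk1 : v (l - γ₁) ≤ 1 := by
    rcases h.kappa_dichotomy hδ (h1.trans_lt ha) h2hi h3hi with ⟨hk, -⟩ | ⟨hk, -⟩
    · exact hk.le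
    · exact hk.le
  have hw1 : v (y₁ - γ₁ * x₁) ≤ v a := val_w_le_of_M hδ ha ha0 h.E1 h1
  have hn : v n ≤ v a := by
    have e : n = (y₁ - γ₁ * x₁) - (l - γ₁) * x₁ := by rw [h.L1]; ring
    rw [e]
    apply Valuation.map_sub_le _ hw1
    rw [map_mul]
    calc v (l - γ₁) * v x₁ ≤ 1 * v a := mul_le_mul' hk1 h1
      _ = v a := one_mul _
  have h12 : v (x₁ * x₂) < v a := by
    rw [map_mul]
    calc v x₁ * v x₂ ≤ v a * v x₂ := mul_le_mul' h1 le_rfl
      _ < v a * 1 := mul_lt_mul_of_pos_left h2hi hμ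
      _ = v a := mul_one _
  have h13 : v (x₁ * x₃) < v a := by
    rw [map_mul]
    calc v x₁ * v x₃ ≤ v a * v x₃ := mul_le_mul' h1 le_rfl
      _ < v a * 1 := mul_lt_mul_of_pos_left h3hi hμ
      _ = v a := mul_one _
  have hle : v x₂ * v x₃ ≤ v a := by
    have e : x₂ * x₃ = a - ((l - γ₁) + (l - γ₂)) * n - x₁ * x₂ - x₁ * x₃ := by
      rw [← h.V2]; ring
    rw [← map_mul, e]
    apply Valuation.map_sub_le _ (Valuation.map_sub_le _ (Valuation.map_sub_le _ le_rfl _) h12.le)
      h13.le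
    rw [map_mul, hl, one_mul]; exact hn
  rcases hle.lt_or_eq with hlt | heq
  · exfalso
    have hln := h.vs_vn (v := v)
    rw [hl, one_mul] at hln
    have hs : v (x₁ * x₂ + x₁ * x₃ + x₂ * x₃) < v a :=
      val_add3_lt h12 h13 (by rw [map_mul]; exact hlt)
    rw [Valuation.map_sub_eq_of_lt_left _ hs] at hln
    have e1 := h.vn_sq (v := v)
    rw [hln] at e1
    have e2 : v x₁ * v x₂ * v x₃ < v a ^ 2 := by
      rw [pow_two, mul_assoc]
      calc v x₁ * (v x₂ * v x₃) ≤ v a * (v x₂ * v x₃) := mul_le_mul' h1 le_rfl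
        _ < v a * v a := mul_lt_mul_of_pos_left hlt hμ
    exact absurd e1.symm e2.ne
  · exact heq

/-- `M`, mid, mid: the two middle points lie on the same branch. -/
lemma factA'_sign (h : Coll a γ₁ γ₂ x₁ y₁ x₂ y₂ x₃ y₃ l n) (hδ : v (γ₁ - γ₂) = 1)
    (ha : v a < 1) (ha0 : a ≠ 0)
    (h1 : v x₁ ≤ v a) (h2lo : v a < v x₂) (h2hi : v x₂ < 1) (h3lo : v a < v x₃)
    (h3hi : v x₃ < 1)
    (hP2 : v (y₂ - γ₁ * x₂) < v x₂) (hN3 : v (y₃ - γ₂ * x₃) < v x₃) : False := by
  have hr2 : 0 < v x₂ := lt_of_le_of_lt zero_le h2lo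
  have hr3 : 0 < v x₃ := lt_of_le_of_lt zero_le h3lo
  have hk1 : v (l - γ₁) ≤ 1 := by
    rcases h.kappa_dichotomy hδ (h1.trans_lt ha) h2hi h3hi with ⟨hk, -⟩ | ⟨hk, -⟩
    · exact hk.le
    · exact hk.le
  have hw1 : v (y₁ - γ₁ * x₁) ≤ v a := val_w_le_of_M hδ ha ha0 h.E1 h1
  have hn : v n ≤ v a := by
    have e : n = (y₁ - γ₁ * x₁) - (l - γ₁) * x₁ := by rw [h.L1]; ring
    rw [e]
    apply Valuation.map_sub_le _ hw1
    rw [map_mul]
    calc v (l - γ₁) * v x₁ ≤ 1 * v a := mul_le_mul' hk1 h1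
      _ = v a := one_mul _
  have hk : v (l - γ₁) < 1 := by
    have e : (l - γ₁) * x₂ = (y₂ - γ₁ * x₂) - n := by rw [h.L2]; ring
    have : v ((l - γ₁) * x₂) < v x₂ := by
      rw [e]; exact Valuation.map_sub_lt _ hP2 (hn.trans_lt h2lo)
    rw [map_mul] at this
    by_contra hcon
    rw [not_lt] at hcon
    exact absurd (le_mul_of_one_le_left hr2.le hcon) (not_le.mpr this)
  have hk' : v (l - γ₂) < 1 := by
    have e : (l - γ₂) * x₃ = (y₃ - γ₂ * x₃) - n := by rw [h.L3]; ring
    have : v ((l - γ₂) * x₃) < v x₃ := by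
      rw [e]; exact Valuation.map_sub_lt _ hN3 (hn.trans_lt h3lo)
    rw [map_mul] at this
    by_contra hcon
    rw [not_lt] at hcon
    exact absurd (le_mul_of_one_le_left hr3.le hcon) (not_le.mpr this)
  have e : γ₁ - γ₂ = (l - γ₂) - (l - γ₁) := by ring
  have : v (γ₁ - γ₂) < 1 := by rw [e]; exact Valuation.map_sub_lt _ hk' hk
  rw [hδ] at this
  exact lt_irrefl _ this

/-- If `v κ < 1` and `v (κ x + n) < v x` then `v n < v x`. -/
lemma val_n_lt_of_small {κ x n : K} (hκ : v κ < 1) (hx : 0 < v x)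
    (h : v (κ * x + n) < v x) : v n < v x := by
  have e : n = (κ * x + n) - κ * x := by ring
  rw [e]
  apply Valuation.map_sub_lt _ h
  rw [map_mul]
  calc v κ * v x < 1 * v x := mul_lt_mul_of_pos_right hκ hx
    _ = v x := one_mul _

/-- If `v κ = 1` and `v (κ x + n) < v x` then `v n = v x`. -/
lemma val_n_eq_of_unit {κ x n : K} (hκ : v κ = 1)
    (h : v (κ * x + n) < v x) : v n = v x := by
  have e : n = (κ * x + n) - κ * x := by ring
  have hκx : v (κ * x) = v x := by rw [map_mul, hκ, one_mul]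
  rw [e, Valuation.map_sub_eq_of_lt_right _ (by rw [hκx]; exact h), hκx]

/-- mid, mid, mid, all on the same branch: `v x₁ * v x₂ * v x₃ = v a ^ 2`. -/
lemma factA_same (h : Coll a γ₁ γ₂ x₁ y₁ x₂ y₂ x₃ y₃ l n) (hδ : v (γ₁ - γ₂) = 1)
    (h1lo : v a < v x₁) (h1hi : v x₁ < 1)
    (h2lo : v a < v x₂) (h2hi : v x₂ < 1) (h3lo : v a < v x₃) (h3hi : v x₃ < 1)
    (hP1 : v (y₁ - γ₁ * x₁) < v x₁) (hP2 : v (y₂ - γ₁ * x₂) < v x₂)
    (hP3 : v (y₃ - γ₁ * x₃) < v x₃) : v x₁ * v x₂ * v x₃ = v a ^ 2 := by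
  have hr1 : 0 < v x₁ := lt_of_le_of_lt zero_le h1lo
  have hr2 : 0 < v x₂ := lt_of_le_of_lt zero_le h2lo
  have hr3 : 0 < v x₃ := lt_of_le_of_lt zero_le h3lo
  have hl := h.vs_eq_one hδ h1hi h2hi h3hi
  have e1 : y₁ - γ₁ * x₁ = (l - γ₁) * x₁ + n := by rw [h.L1]; ring
  have e2 : y₂ - γ₁ * x₂ = (l - γ₁) * x₂ + n := by rw [h.L2]; ring
  have e3 : y₃ - γ₁ * x₃ = (l - γ₁) * x₃ + n := by rw [h.L3]; ring
  rw [e1] at hP1
  rw [e2] at hP2
  rw [e3] at hP3
  rcases h.kappa_dichotomy hδ h1hi h2hi h3hi with ⟨hk, -⟩ | ⟨hk, -⟩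
  · have hn1 := val_n_lt_of_small hk hr1 hP1
    have hn2 := val_n_lt_of_small hk hr2 hP2
    have hn3 := val_n_lt_of_small hk hr3 hP3
    have hnsq := h.vn_sq (v := v)
    have key : ∀ b c d : Γ₀, 0 < b → 0 < c → v n ^ 2 = b * c * d → v n < d → b * c < v n := by
      intro b c d hb hc hbcd hd
      by_contra hcon
      rw [not_lt] at hcon
      have : v n ^ 2 < b * c * d := by
        rw [pow_two]
        calc v n * v n ≤ b * c * v n := mul_le_mul' hcon le_rfl
          _ < b * c * d := mul_lt_mul_of_pos_left hd (mul_pos hb hc)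
      exact absurd hbcd this.ne
    have k12 : v (x₁ * x₂) < v n := by
      rw [map_mul]; exact key _ _ _ hr1 hr2 hnsq hn3
    have k13 : v (x₁ * x₃) < v n := by
      rw [map_mul]; exact key _ _ _ hr1 hr3 (by rw [hnsq]; exact mul_right_comm _ _ _) hn2
    have k23 : v (x₂ * x₃) < v n := by
      rw [map_mul]
      exact key _ _ _ hr2 hr3 (by rw [hnsq]; exact mul_rotate _ _ _) hn1
    have hs : v (x₁ * x₂ + x₁ * x₃ + x₂ * x₃) < v n := val_add3_lt k12 k13 k23
    have h2ln : v (((l - γ₁) + (l - γ₂)) * n) = v n := by rw [map_mul, hl, one_mul]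
    have : v a = v (((l - γ₁) + (l - γ₂)) * n) := by
      have e : a = (a - ((l - γ₁) + (l - γ₂)) * n) + ((l - γ₁) + (l - γ₂)) * n := by ring
      conv_lhs => rw [e]
      apply Valuation.map_add_eq_of_lt_right
      rw [← h.V2, h2ln]; exact hs
    rw [h2ln] at this
    rw [← hnsq, this]
  · exfalso
    have hn1 := val_n_eq_of_unit hk hP1
    have hn2 := val_n_eq_of_unit hk hP2
    have hn3 := val_n_eq_of_unit hk hP3
    have hnsq := h.vn_sq (v := v)
    rw [← hn1, ← hn2, ← hn3, pow_two] at hnsq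
    have hnpos : 0 < v n := hn1 ▸ hr1
    have : v n * v n * 1 = v n * v n * v n := by rw [mul_one]; exact hnsq
    have := mul_left_cancel₀ (mul_pos hnpos hnpos).ne' this
    rw [← this] at hn1
    exact absurd hn1.symm h1hi.ne

/-- mid, mid, mid, two on one branch and the third on the other: `v x₃ = v x₁ * v x₂`. -/
lemma factA_mixed (h : Coll a γ₁ γ₂ x₁ y₁ x₂ y₂ x₃ y₃ l n) (hδ : v (γ₁ - γ₂) = 1)
    (h1lo : v a < v x₁) (h1hi : v x₁ < 1)
    (h2lo : v a < v x₂) (h2hi : v x₂ < 1) (h3lo : v a < v x₃) (h3hi : v x₃ < 1)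
    (hP1 : v (y₁ - γ₁ * x₁) < v x₁) (hP2 : v (y₂ - γ₁ * x₂) < v x₂)
    (hN3 : v (y₃ - γ₂ * x₃) < v x₃) : v x₃ = v x₁ * v x₂ := by
  have hr1 : 0 < v x₁ := lt_of_le_of_lt zero_le h1lo
  have hr2 : 0 < v x₂ := lt_of_le_of_lt zero_le h2lo
  have hr3 : 0 < v x₃ := lt_of_le_of_lt zero_le h3lo
  have e1 : y₁ - γ₁ * x₁ = (l - γ₁) * x₁ + n := by rw [h.L1]; ring
  have e2 : y₂ - γ₁ * x₂ = (l - γ₁) * x₂ + n := by rw [h.L2]; ring
  have e3 : y₃ - γ₂ * x₃ = (l - γ₂) * x₃ + n := by rw [h.L3]; ring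
  rw [e1] at hP1
  rw [e2] at hP2
  rw [e3] at hN3
  have hnsq := h.vn_sq (v := v)
  rcases h.kappa_dichotomy hδ h1hi h2hi h3hi with ⟨-, hk'⟩ | ⟨hk, hk'⟩
  · have hn3 := val_n_eq_of_unit hk' hN3
    rw [hn3, pow_two] at hnsq
    have : v x₃ * v x₃ = v x₁ * v x₂ * v x₃ := hnsq
    exact mul_right_cancel₀ hr3.ne' this
  · exfalso
    have hn1 := val_n_eq_of_unit hk hP1
    have hn2 := val_n_eq_of_unit hk hP2
    rw [← hn1, ← hn2, pow_two] at hnsq
    have hnpos : 0 < v n := hn1 ▸ hr1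
    have : v n * v n * 1 = v n * v n * v x₃ := by rw [mul_one]; exact hnsq
    have := mul_left_cancel₀ (mul_pos hnpos hnpos).ne' this
    exact absurd this.symm h3hi.ne

/-- Two points at the node with the same valuation `< 1` and third point away from the
node cannot lie on the same branch. -/
lemma factBsign (h : Coll a γ₁ γ₂ x₁ y₁ x₂ y₂ x₃ y₃ l n) (hδ : v (γ₁ - γ₂) = 1)
    (h12 : v x₁ = v x₂) (h1 : v x₁ < 1) (hx1 : x₁ ≠ 0) (h3 : 1 ≤ v x₃)
    (hP1 : v (y₁ - γ₁ * x₁) < v x₁) (hP2 : v (y₂ - γ₁ * x₂) < v x₂) : False := by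
  have hr : 0 < v x₁ := by rw [Valuation.pos_iff]; exact hx1
  set κ := l - γ₁ with hκ
  set θ₁ := y₁ - γ₁ * x₁ with hθ₁
  set θ₂ := y₂ - γ₁ * x₂ with hθ₂
  set δ := -x₁ - x₂ with hδdef
  have hθ₁' : θ₁ = κ * x₁ + n := by rw [hθ₁, h.L1, hκ]; ring
  have hθ₂' : θ₂ = κ * x₂ + n := by rw [hθ₂, h.L2, hκ]; ring
  have hx3 : x₃ = κ ^ 2 + (γ₁ - γ₂) * κ + δ := by
    have := h.V1
    have e : x₃ = (l - γ₁) * (l - γ₂) - x₁ - x₂ := by rw [← this]; ring
    rw [e, hκ, hδdef]; ring
  have hid : θ₁ * θ₂ - κ * (x₁ * θ₂ + x₂ * θ₁) = x₁ * x₂ * ((γ₁ - γ₂) * κ + δ) := by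
    have e3 := h.V3
    rw [hx3] at e3
    have : θ₁ * θ₂ - κ * (x₁ * θ₂ + x₂ * θ₁) = n ^ 2 - κ ^ 2 * (x₁ * x₂) := by
      rw [hθ₁', hθ₂']; ring
    rw [this, ← e3]; ring
  have hδ1 : v δ < 1 := by
    rw [hδdef]
    exact Valuation.map_sub_lt _ (by rw [Valuation.map_neg]; exact h1) (h12 ▸ h1)
  have hκ1 : 1 ≤ v κ := by
    by_contra hcon
    rw [not_le] at hcon
    have hn : v n < v x₁ := by
      have e : n = θ₁ - κ * x₁ := by rw [hθ₁']; ring
      rw [e]
      apply Valuation.map_sub_lt _ hP1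
      rw [map_mul]
      calc v κ * v x₁ < 1 * v x₁ := mul_lt_mul_of_pos_right hcon hr
        _ = v x₁ := one_mul _
    have e1 := h.vn_sq (v := v)
    have e2 : v n ^ 2 < v x₁ * v x₂ * v x₃ := by
      rw [← h12, pow_two]
      calc v n * v n ≤ v n * v x₁ := mul_le_mul' le_rfl hn.le
        _ < v x₁ * v x₁ := mul_lt_mul_of_pos_right hn hr
        _ = v x₁ * v x₁ * 1 := (mul_one _).symm
        _ ≤ v x₁ * v x₁ * v x₃ := mul_le_mul' le_rfl h3
    exact absurd e1 e2.ne
  have hκpos : 0 < v κ := lt_of_lt_of_le zero_lt_one hκ1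
  have hR : v (x₁ * x₂ * ((γ₁ - γ₂) * κ + δ)) = v x₁ * v x₁ * v κ := by
    rw [map_mul, map_mul, ← h12]
    congr 1
    have : v δ < v ((γ₁ - γ₂) * κ) := by
      rw [map_mul, hδ, one_mul]; exact lt_of_lt_of_le hδ1 hκ1
    rw [Valuation.map_add_eq_of_lt_left _ this, map_mul, hδ, one_mul]
  have hL : v (θ₁ * θ₂ - κ * (x₁ * θ₂ + x₂ * θ₁)) < v x₁ * v x₁ * v κ := by
    apply Valuation.map_sub_lt
    · rw [map_mul]
      calc v θ₁ * v θ₂ ≤ v θ₁ * v x₁ := mul_le_mul' le_rfl (h12 ▸ hP2.le)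
        _ < v x₁ * v x₁ := mul_lt_mul_of_pos_right hP1 hr
        _ = v x₁ * v x₁ * 1 := (mul_one _).symm
        _ ≤ v x₁ * v x₁ * v κ := mul_le_mul' le_rfl hκ1
    · rw [map_mul, mul_comm]
      apply mul_lt_mul_of_pos_right _ hκpos
      apply Valuation.map_add_lt
      · rw [map_mul]
        exact mul_lt_mul_of_pos_left (h12 ▸ hP2) hr
      · rw [map_mul, ← h12]
        exact mul_lt_mul_of_pos_left hP1 hr
  rw [hid, hR] at hL
  exact lt_irrefl _ hL

end Fermat.Agent.S13.H365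

end
-- ===== PACK-END S13/H365/NodeCore.lean

-- ===== PACK-BEGIN S13/H365/FreyArith.lean
section



/-!
# 2-adic arithmetic of a Frey package

`a ≡ 3 mod 4`, `2 ∣ b`, `p ≥ 5` odd: `4 ∣ b^p - 1 - a^p`, `32 ∣ b^p`, `b^p - a^p` is odd.
-/

set_option autoImplicit false

namespace Fermat.Agent.S13.H365

variable (P : FreyPackage)

lemma frey_two_dvd_b : (2 : ℤ) ∣ P.b :=
  (ZMod.intCast_zmod_eq_zero_iff_dvd P.b 2).1 P.hb2

lemma frey_four_dvd_a_sub : (4 : ℤ) ∣ P.a - 3 := by
  have h : ((P.a - 3 : ℤ) : ZMod 4) = 0 := by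
    push_cast
    rw [P.ha4]
    decide
  exact (ZMod.intCast_zmod_eq_zero_iff_dvd _ 4).1 h

lemma frey_a_odd : ¬ (2 : ℤ) ∣ P.a := by
  intro h
  obtain ⟨k, hk⟩ := frey_four_dvd_a_sub P
  obtain ⟨m, hm⟩ := h
  omega

/-- `b ^ p = 32 * m`. -/
lemma frey_exists_b_pow : ∃ m : ℤ, P.b ^ P.p = 32 * m := by
  obtain ⟨c, hc⟩ := frey_two_dvd_b P
  obtain ⟨k, hk⟩ := Nat.exists_eq_add_of_le P.hp5
  refine ⟨2 ^ k * c ^ P.p, ?_⟩
  rw [hc, mul_pow, hk, pow_add]
  norm_num
  ring

/-- `b ^ p - 1 - a ^ p = 4 * k`. -/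
lemma frey_exists_a₂ : ∃ k : ℤ, P.b ^ P.p - 1 - P.a ^ P.p = 4 * k := by
  obtain ⟨m, hm⟩ := frey_exists_b_pow P
  have h : ((P.b ^ P.p - 1 - P.a ^ P.p : ℤ) : ZMod 4) = 0 := by
    have h32 : ((32 : ℤ) : ZMod 4) = 0 := by decide
    have h3 : (3 : ZMod 4) = -1 := by decide
    rw [hm]
    push_cast
    rw [P.ha4, h3, P.hp_odd.neg_one_pow]
    have : ((32 : ZMod 4)) = 0 := by decide
    rw [this]
    ring
  obtain ⟨k, hk⟩ := (ZMod.intCast_zmod_eq_zero_iff_dvd _ 4).1 h
  exact ⟨k, hk⟩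

/-- `b ^ p - a ^ p` is odd. -/
lemma frey_b₂_odd : ¬ (2 : ℤ) ∣ P.b ^ P.p - P.a ^ P.p := by
  intro h
  have hb : (2 : ℤ) ∣ P.b ^ P.p := dvd_pow (frey_two_dvd_b P) P.hp0
  have ha : (2 : ℤ) ∣ P.a ^ P.p := by
    have := dvd_sub hb h
    simpa using this
  exact frey_a_odd P (Int.prime_two.dvd_of_dvd_pow ha)

end Fermat.Agent.S13.H365

end
-- ===== PACK-END S13/H365/FreyArith.lean

-- ===== PACK-BEGIN S15/H962/NewtonVal.lean
section


/-!
# Row S15, node GEO (helper962): Newton polygon of a polynomial of "modular shape"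

Mathlib-only.  Let `Φ ∈ ℤ[X][Y]` have the shape of the classical modular polynomial of prime level
`N`:  `Φ = Y^{N+1} + c_N(X) Y^N + … + c_1(X) Y + c_0(X)` with
`c_0 = ± X^{N+1} + (lower)`, `c_N = ± X^N + (lower)`, `deg c_k ≤ N` for `0 < k < N`.

`val_root_of_isModularShape`: for a valuation `v` on a field `K` and `a, b ∈ K` with `Φ(a, b) = 0`
and `1 < v a` (i.e. `a` is not `v`-integral):  `v b = (v a)^N`  or  `(v b)^N = v a`.

`val_propagate_zero`, `val_propagate_infty`: the resulting propagation of the two residue discs of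
the cusps along a Hecke correspondence `T_ℓ` (values `(a, a_p)` at a place `P'` of `X₀(pℓ)`,
values `(a_ℓ, a_{pℓ})` at its image): if `(v a_p)^p = v a` then `(v a_{pℓ})^p = v a_ℓ`, and if
`v a_p = (v a)^p` then `v a_{pℓ} = (v a_ℓ)^p`.
-/

set_option autoImplicit false

open Polynomial

namespace Fermat.Agent.S15.H962

section Valuation

variable {K : Type*} [Field K] {Γ₀ : Type*} [LinearOrderedCommGroupWithZero Γ₀]
  (v : Valuation K Γ₀)

theorem val_natCast_le_one (n : ℕ) : v (n : K) ≤ 1 := by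
  induction n with
  | zero => simp
  | succ n ih =>
    rw [Nat.cast_succ]
    exact (v.map_add _ _).trans (max_le ih (by rw [map_one]))

theorem val_intCast_le_one (n : ℤ) : v (n : K) ≤ 1 := by
  obtain ⟨m, rfl | rfl⟩ := n.eq_nat_or_neg
  · simpa using val_natCast_le_one v m
  · rw [Int.cast_neg, Valuation.map_neg]
    simpa using val_natCast_le_one v m

theorem val_intCast_unit {n : ℤ} (hn : IsUnit n) : v (n : K) = 1 := by
  rcases Int.isUnit_iff.mp hn with rfl | rfl
  · simp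
  · simp

/-- `v (P(a)) ≤ (v a)^d` for `P ∈ ℤ[X]` of degree `≤ d` and `1 ≤ v a`. -/
theorem val_eval_le {a : K} (ha : 1 ≤ v a) (P : ℤ[X]) {d : ℕ} (hd : P.natDegree ≤ d) :
    v (P.eval₂ (Int.castRingHom K) a) ≤ v a ^ d := by
  rw [Polynomial.eval₂_eq_sum_range]
  refine Valuation.map_sum_le v fun i hi => ?_
  have hi' : i ≤ d := (Nat.lt_succ_iff.mp (Finset.mem_range.mp hi)).trans hd
  rw [map_mul, map_pow, eq_intCast]
  calc v ((P.coeff i : ℤ) : K) * v a ^ i ≤ 1 * v a ^ i := by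
        gcongr
        exact val_intCast_le_one v _
    _ = v a ^ i := one_mul _
    _ ≤ v a ^ d := pow_le_pow_right₀ ha hi'

/-- `v (P(a)) = (v a)^d` for `P ∈ ℤ[X]` of degree `d` with leading coefficient `± 1`, `1 < v a`. -/
theorem val_eval_eq {a : K} (ha : 1 < v a) (P : ℤ[X]) {d : ℕ} (hd : P.natDegree = d)
    (hu : IsUnit P.leadingCoeff) :
    v (P.eval₂ (Int.castRingHom K) a) = v a ^ d := by
  have hP : P = P.eraseLead + C P.leadingCoeff * X ^ d := by
    rw [← hd]; exact (Polynomial.eraseLead_add_C_mul_X_pow P).symm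
  have hlead : v ((C P.leadingCoeff * X ^ d : ℤ[X]).eval₂ (Int.castRingHom K) a) = v a ^ d := by
    rw [Polynomial.eval₂_mul, Polynomial.eval₂_C, Polynomial.eval₂_pow, Polynomial.eval₂_X,
      map_mul, map_pow, eq_intCast, val_intCast_unit v hu, one_mul]
  have hlow : v (P.eraseLead.eval₂ (Int.castRingHom K) a) < v a ^ d := by
    rcases Nat.eq_zero_or_pos d with h0 | hpos
    · subst h0
      have : P.eraseLead = 0 := by
        have h1 : P.natDegree = 0 := hd
        rw [Polynomial.eq_C_of_natDegree_eq_zero h1]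
        exact Polynomial.eraseLead_C _
      rw [this, Polynomial.eval₂_zero, map_zero, pow_zero]
      exact zero_lt_one
    · have h1 : P.eraseLead.natDegree ≤ d - 1 := by
        rw [← hd]; exact Polynomial.eraseLead_natDegree_le P
      calc v (P.eraseLead.eval₂ (Int.castRingHom K) a) ≤ v a ^ (d - 1) :=
            val_eval_le v ha.le _ h1
        _ < v a ^ d := pow_lt_pow_right₀ ha (by omega)
  rw [hP, Polynomial.eval₂_add, Valuation.map_add_eq_of_lt_right v (by rw [hlead]; exact hlow),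
    hlead]

/-- A finite sum with a strictly dominant term is nonzero. -/
theorem sum_ne_zero_of_dominant {ι : Type*} [DecidableEq ι] (s : Finset ι) (f : ι → K) (m : ι)
    (hm : m ∈ s) (hfm : f m ≠ 0) (hdom : ∀ i ∈ s, i ≠ m → v (f i) < v (f m)) :
    ∑ i ∈ s, f i ≠ 0 := by
  have hsplit : ∑ i ∈ s, f i = ∑ i ∈ s.erase m, f i + f m := by
    rw [Finset.sum_erase_add _ _ hm]
  have hlt : v (∑ i ∈ s.erase m, f i) < v (f m) :=
    Valuation.map_sum_lt v ((Valuation.ne_zero_iff v).mpr hfm) fun i hi =>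
      hdom i (Finset.mem_of_mem_erase hi) (Finset.ne_of_mem_erase hi)
  intro h0
  have h1 := Valuation.map_add_eq_of_lt_right v hlt
  rw [← hsplit, h0, map_zero] at h1
  exact (Valuation.ne_zero_iff v).mpr hfm h1.symm

end Valuation

/-- The shape of the classical modular polynomial of prime level `N`, as a polynomial in the
outer variable `Y` with coefficients in `ℤ[X]`. -/
structure IsModularShape (N : ℕ) (Φ : ℤ[X][X]) : Prop where
  natDegree_eq : Φ.natDegree = N + 1
  monic : Φ.Monic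
  coeff_zero_natDegree : (Φ.coeff 0).natDegree = N + 1
  coeff_zero_unit : IsUnit (Φ.coeff 0).leadingCoeff
  coeff_top_natDegree : (Φ.coeff N).natDegree = N
  coeff_top_unit : IsUnit (Φ.coeff N).leadingCoeff
  coeff_mid : ∀ k, 0 < k → k < N → (Φ.coeff k).natDegree ≤ N

section Newton

variable {K : Type*} [Field K] {Γ₀ : Type*} [LinearOrderedCommGroupWithZero Γ₀]
  (v : Valuation K Γ₀)

/-- Evaluation of a two-variable integer polynomial at `(a, b)`. -/
noncomputable def eval2 (Φ : ℤ[X][X]) (a b : K) : K :=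
  Φ.eval₂ (Polynomial.eval₂RingHom (Int.castRingHom K) a) b

theorem eval2_eq_sum (Φ : ℤ[X][X]) (a b : K) :
    eval2 Φ a b = ∑ k ∈ Finset.range (Φ.natDegree + 1),
      (Φ.coeff k).eval₂ (Int.castRingHom K) a * b ^ k := by
  unfold eval2
  rw [Polynomial.eval₂_eq_sum_range]
  rfl

/-- **Newton polygon of a polynomial of modular shape.** -/
theorem val_root_of_isModularShape {N : ℕ} (hN : 0 < N) {Φ : ℤ[X][X]} (hΦ : IsModularShape N Φ)
    {a b : K} (ha : 1 < v a) (h : eval2 Φ a b = 0) :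
    v b = v a ^ N ∨ v b ^ N = v a := by
  classical
  set A := v a with hA
  set B := v b with hB
  have hA0 : 0 < A := lt_trans zero_lt_one ha
  have hAN : 1 < A ^ N := one_lt_pow₀ ha hN.ne'
  -- the terms
  set f : ℕ → K := fun k => (Φ.coeff k).eval₂ (Int.castRingHom K) a * b ^ k with hf
  have hsum : ∑ k ∈ Finset.range (N + 2), f k = 0 := by
    rw [← h, eval2_eq_sum, hΦ.natDegree_eq]
  have hvf : ∀ k, v (f k) = v ((Φ.coeff k).eval₂ (Int.castRingHom K) a) * B ^ k := by
    intro k; simp only [hf, map_mul, map_pow]; rfl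
  have hf0 : v (f 0) = A ^ (N + 1) := by
    rw [hvf, pow_zero, mul_one]
    exact val_eval_eq v ha _ hΦ.coeff_zero_natDegree hΦ.coeff_zero_unit
  have hfN : v (f N) = A ^ N * B ^ N := by
    rw [hvf, val_eval_eq v ha _ hΦ.coeff_top_natDegree hΦ.coeff_top_unit]
  have hftop : v (f (N + 1)) = B ^ (N + 1) := by
    rw [hvf]
    have : Φ.coeff (N + 1) = 1 := by
      have := hΦ.monic
      rwa [Polynomial.Monic, Polynomial.leadingCoeff, hΦ.natDegree_eq] at this
    rw [this, Polynomial.eval₂_one, map_one, one_mul]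
  have hfmid : ∀ k, 0 < k → k < N → v (f k) ≤ A ^ N * B ^ k := by
    intro k hk0 hkN
    rw [hvf]
    gcongr
    exact val_eval_le v ha.le _ (hΦ.coeff_mid k hk0 hkN)
  -- `b ≠ 0`
  have hb0 : b ≠ 0 := by
    rintro rfl
    have h1 : ∑ k ∈ Finset.range (N + 2), f k = f 0 := by
      refine Finset.sum_eq_single 0 (fun k _ hk => ?_) (fun h => absurd (Finset.mem_range.mpr
        (by omega)) h)
      simp only [hf, zero_pow hk, mul_zero]
    rw [h1] at hsum
    have : v (f 0) = 0 := by rw [hsum, map_zero]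
    rw [hf0] at this
    exact (pow_ne_zero _ hA0.ne') this
  have hB0 : 0 < B := zero_lt_iff.mpr ((Valuation.ne_zero_iff v).mpr hb0)
  have hAN0 : 0 < A ^ N := pow_pos hA0 N
  have hBk0 : ∀ k, 0 < B ^ k := fun k => pow_pos hB0 k
  by_contra hcon
  push Not at hcon
  obtain ⟨h1, h2⟩ := hcon
  -- three cases
  rcases lt_or_gt_of_ne h1 with hlt | hgt
  · rcases lt_or_gt_of_ne h2 with hlt2 | hgt2
    · -- `B ^ N < A`: the term `k = 0` dominates
      have hBk : ∀ k, k ≤ N → B ^ k < A := by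
        intro k hk
        rcases le_or_gt B 1 with hB1 | hB1
        · exact lt_of_le_of_lt (pow_le_one₀ hB0.le hB1) ha
        · exact lt_of_le_of_lt (pow_le_pow_right₀ hB1.le hk) hlt2
      refine sum_ne_zero_of_dominant v (Finset.range (N + 2)) f 0 (Finset.mem_range.mpr (by omega))
        ?_ ?_ hsum
      · intro h0
        have : v (f 0) = 0 := by rw [h0, map_zero]
        rw [hf0] at this
        exact (pow_ne_zero _ hA0.ne') this
      · intro k hk hk0
        rw [hf0]
        have hk' : k < N + 2 := Finset.mem_range.mp hk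
        rcases Nat.lt_or_ge k N with hkN | hkN
        · calc v (f k) ≤ A ^ N * B ^ k := hfmid k (Nat.pos_of_ne_zero hk0) hkN
            _ < A ^ N * A := mul_lt_mul_of_pos_left (hBk k hkN.le) hAN0
            _ = A ^ (N + 1) := (pow_succ A N).symm
        · rcases Nat.eq_or_lt_of_le hkN with rfl | hkN'
          · rw [hfN]
            calc A ^ N * B ^ N < A ^ N * A := mul_lt_mul_of_pos_left hlt2 hAN0
              _ = A ^ (N + 1) := (pow_succ A N).symm
          · have hkk : k = N + 1 := by omega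
            subst hkk
            rw [hftop]
            calc B ^ (N + 1) = B ^ N * B := pow_succ B N
              _ < A * A := by
                have hB1 : B < A := by simpa using hBk 1 hN
                exact mul_lt_mul'' hlt2 hB1 (pow_nonneg hB0.le _) hB0.le
              _ = A ^ 2 := (sq A).symm
              _ ≤ A ^ (N + 1) := pow_le_pow_right₀ ha.le (by omega)
    · -- `A < B ^ N` and `B < A ^ N`: the term `k = N` dominates
      have hB1 : 1 < B := by
        by_contra hle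
        push Not at hle
        exact absurd (lt_of_lt_of_le hgt2 (pow_le_one₀ hB0.le hle)) (not_lt.mpr ha.le)
      refine sum_ne_zero_of_dominant v (Finset.range (N + 2)) f N (Finset.mem_range.mpr (by omega))
        ?_ ?_ hsum
      · intro h0
        have : v (f N) = 0 := by rw [h0, map_zero]
        rw [hfN] at this
        exact (mul_ne_zero (pow_ne_zero _ hA0.ne') (pow_ne_zero _ hB0.ne')) this
      · intro k hk hkN
        rw [hfN]
        have hk' : k < N + 2 := Finset.mem_range.mp hk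
        rcases Nat.lt_or_ge k N with hkN' | hkN'
        · rcases Nat.eq_zero_or_pos k with rfl | hk0
          · rw [hf0]
            calc A ^ (N + 1) = A ^ N * A := pow_succ A N
              _ < A ^ N * B ^ N := mul_lt_mul_of_pos_left hgt2 hAN0
          · calc v (f k) ≤ A ^ N * B ^ k := hfmid k hk0 hkN'
              _ < A ^ N * B ^ N := mul_lt_mul_of_pos_left (pow_lt_pow_right₀ hB1 hkN') hAN0
        · have hkk : k = N + 1 := by omega
          subst hkk
          rw [hftop]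
          calc B ^ (N + 1) = B * B ^ N := pow_succ' B N
            _ < A ^ N * B ^ N := mul_lt_mul_of_pos_right hlt (hBk0 N)
  · -- `A ^ N < B`: the term `k = N + 1` dominates
    have hB1 : 1 < B := lt_trans hAN hgt
    have hAB : A < B := lt_of_le_of_lt (le_self_pow₀ ha.le hN.ne') hgt
    refine sum_ne_zero_of_dominant v (Finset.range (N + 2)) f (N + 1)
      (Finset.mem_range.mpr (by omega)) ?_ ?_ hsum
    · intro h0
      have : v (f (N + 1)) = 0 := by rw [h0, map_zero]
      rw [hftop] at this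
      exact (pow_ne_zero _ hB0.ne') this
    · intro k hk hkN
      rw [hftop]
      have hk' : k < N + 2 := Finset.mem_range.mp hk
      have hkN1 : k ≤ N := by omega
      rcases Nat.eq_zero_or_pos k with rfl | hk0
      · rw [hf0]
        exact pow_lt_pow_left₀ hAB hA0.le (by omega)
      · rcases Nat.eq_or_lt_of_le hkN1 with rfl | hkN'
        · rw [hfN]
          calc A ^ k * B ^ k < B * B ^ k := mul_lt_mul_of_pos_right hgt (hBk0 k)
            _ = B ^ (k + 1) := (pow_succ' B k).symm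
        · calc v (f k) ≤ A ^ N * B ^ k := hfmid k hk0 hkN'
            _ < B * B ^ k := mul_lt_mul_of_pos_right hgt (hBk0 k)
            _ = B ^ (k + 1) := (pow_succ' B k).symm
            _ ≤ B ^ (N + 1) := pow_le_pow_right₀ hB1.le (by omega)

end Newton

section Propagate

variable {Γ₀ : Type*} [LinearOrderedCommGroupWithZero Γ₀]

theorem pow_eq_pow_iff_of_one_lt {A : Γ₀} (hA : 1 < A) {m n : ℕ} : A ^ m = A ^ n ↔ m = n :=
  (pow_right_strictMono₀ hA).injective.eq_iff

theorem one_lt_of_pow_eq {A X : Γ₀} (hA : 1 < A) {k : ℕ} (h : X ^ k = A) : 1 < X := by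
  by_contra hle
  push Not at hle
  have : X ^ k ≤ 1 := pow_le_one₀ zero_le hle
  rw [h] at this
  exact absurd hA (not_lt.mpr this)

/-- `a * b ≠ a` for `a > 0`, `b ≥ 2`. -/
theorem mul_ne_self_of_two_le {a b : ℕ} (ha : 0 < a) (hb : 2 ≤ b) : a * b ≠ a := by
  intro h
  have : a * 2 ≤ a * b := Nat.mul_le_mul_left a hb
  omega

/-- `a * b ≠ 1` for `b ≥ 2`. -/
theorem mul_ne_one_of_two_le {a b : ℕ} (hb : 2 ≤ b) : a * b ≠ 1 := by
  intro h
  have := Nat.eq_one_of_mul_eq_one_left h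
  omega

/-- **Propagation of the residue disc of the cusp `0`** along a Hecke correspondence.
`A = v(j)`, `Ap = v(j_p)` at a place of `X₀(pℓ)`; `B = v(j_ℓ)`, `C = v(j_{pℓ})`. -/
theorem val_propagate_zero {p ℓ : ℕ} (hp : 2 ≤ p) (hℓ : 2 ≤ ℓ) (hpℓ : p ≠ ℓ) {A Ap B C : Γ₀}
    (hA : 1 < A) (hAp : Ap ^ p = A)
    (hB : B = A ^ ℓ ∨ B ^ ℓ = A)
    (hC₁ : C = Ap ^ ℓ ∨ C ^ ℓ = Ap)
    (hC₂ : C = B ^ p ∨ C ^ p = B) : C ^ p = B := by
  have hAp1 : 1 < Ap := one_lt_of_pow_eq hA hAp
  have hp0 : 0 < p := by omega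
  have hℓ0 : 0 < ℓ := by omega
  rcases hC₂ with hC | hC
  swap
  · exact hC
  exfalso
  rcases hB with hB | hB
  · -- `C = Ap ^ (ℓ * (p * p))`
    have hCp : C = Ap ^ (ℓ * (p * p)) := by
      rw [hC, hB, ← hAp, ← pow_mul, ← pow_mul]
      congr 1
      ring
    rcases hC₁ with h1 | h1
    · rw [hCp] at h1
      have := (pow_eq_pow_iff_of_one_lt hAp1).mp h1
      exact mul_ne_self_of_two_le hℓ0 (le_trans hp (Nat.le_mul_of_pos_left p hp0)) this
    · rw [hCp, ← pow_mul] at h1
      have := (pow_eq_pow_iff_of_one_lt hAp1).mp (h1.trans (pow_one Ap).symm)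
      exact mul_ne_one_of_two_le hℓ this
  · rcases hC₁ with h1 | h1
    · -- `C ^ (p * ℓ)` computed in two ways
      have e1 : C ^ (p * ℓ) = Ap ^ (p * (p * p)) := by
        rw [hC, ← pow_mul, show p * (p * ℓ) = ℓ * (p * p) by ring, pow_mul, hB, ← hAp, ← pow_mul]
      have e2 : C ^ (p * ℓ) = Ap ^ (p * (ℓ * ℓ)) := by
        rw [h1, ← pow_mul]
        congr 1
        ring
      have := (pow_eq_pow_iff_of_one_lt hAp1).mp (e1.symm.trans e2)
      have h3 : p * p = ℓ * ℓ := Nat.eq_of_mul_eq_mul_left hp0 this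
      exact hpℓ (Nat.mul_self_inj.mp h3)
    · have e1 : C ^ ℓ = Ap ^ (p * p) := by
        rw [hC, ← pow_mul, mul_comm, pow_mul, hB, ← hAp, ← pow_mul]
      have := (pow_eq_pow_iff_of_one_lt hAp1).mp (e1.symm.trans (h1.trans (pow_one Ap).symm))
      exact mul_ne_one_of_two_le hp this

/-- **Propagation of the residue disc of the cusp `∞`** along a Hecke correspondence. -/
theorem val_propagate_infty {p ℓ : ℕ} (hp : 2 ≤ p) (hℓ : 2 ≤ ℓ) (hpℓ : p ≠ ℓ) {A Ap B C : Γ₀}
    (hA : 1 < A) (hAp : Ap = A ^ p)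
    (hB : B = A ^ ℓ ∨ B ^ ℓ = A)
    (hC₁ : C = Ap ^ ℓ ∨ C ^ ℓ = Ap)
    (hC₂ : C = B ^ p ∨ C ^ p = B) : C = B ^ p := by
  have hp0 : 0 < p := by omega
  have hℓ0 : 0 < ℓ := by omega
  rcases hC₂ with hC | hC
  · exact hC
  exfalso
  rcases hB with hB | hB
  · rcases hC₁ with h1 | h1
    · -- `C ^ p = A ^ ℓ` and `C = A ^ (p ℓ)`
      have e1 : C ^ p = A ^ (ℓ * (p * p)) := by
        rw [h1, hAp, ← pow_mul, ← pow_mul]
        congr 1
        ring
      have := (pow_eq_pow_iff_of_one_lt hA).mp (e1.symm.trans (hC.trans hB))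
      exact mul_ne_self_of_two_le hℓ0 (le_trans hp (Nat.le_mul_of_pos_left p hp0)) this
    · have e1 : C ^ (p * ℓ) = A ^ (ℓ * ℓ) := by rw [pow_mul, hC, hB, ← pow_mul]
      have e2 : C ^ (p * ℓ) = A ^ (p * p) := by rw [mul_comm, pow_mul, h1, hAp, ← pow_mul]
      have := (pow_eq_pow_iff_of_one_lt hA).mp (e1.symm.trans e2)
      exact hpℓ (Nat.mul_self_inj.mp this.symm)
  · have e0 : C ^ (p * ℓ) = A := by rw [pow_mul, hC, hB]
    rcases hC₁ with h1 | h1
    · have e1 : C ^ (p * ℓ) = A ^ (p * ℓ * (p * ℓ)) := by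
        rw [h1, hAp, ← pow_mul, ← pow_mul]
        congr 1
        ring
      have := (pow_eq_pow_iff_of_one_lt hA).mp (e1.symm.trans (e0.trans (pow_one A).symm))
      exact mul_ne_one_of_two_le (le_trans hℓ (Nat.le_mul_of_pos_left ℓ hp0)) this
    · have e1 : C ^ (p * ℓ) = A ^ (p * p) := by rw [mul_comm, pow_mul, h1, hAp, ← pow_mul]
      have := (pow_eq_pow_iff_of_one_lt hA).mp (e1.symm.trans (e0.trans (pow_one A).symm))
      exact mul_ne_one_of_two_le hp this

end Propagate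

end Fermat.Agent.S15.H962

end
-- ===== PACK-END S15/H962/NewtonVal.lean

-- ===== PACK-BEGIN S30/H990/Interface.lean
section
/-
S30 top glue (helper990): interface.

`ChebWeak`       : weak qualitative Chebotarev (hypothesis, to be supplied by the CHEB library).
`AdicEigenModule`: the output expected from the Galois tower for an eigencharacter `χ`:
                   a nonzero finite free `𝒪`-module with continuous Galois action, unramified
                   outside `N p`, on which Frobenius elements satisfy the Eichler–Shimura relation.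
-/


set_option autoImplicit false

namespace Fermat.Agent.S30.H990

/-- The absolute Galois group of `ℚ`. -/
abbrev GQ : Type := AlgebraicClosure ℚ ≃ₐ[ℚ] AlgebraicClosure ℚ

/-- Weak qualitative Chebotarev: for every finite subextension `L`, every `σ` and every finite set
`T` of primes there is a Frobenius element `τ` at a prime `ℓ ∉ T` such that `σ` agrees on `L`
with a power of `τ`.  (The usual qualitative Chebotarev theorem gives `j = 1`.) -/
def ChebWeak : Prop :=
  ∀ L : IntermediateField ℚ (AlgebraicClosure ℚ), FiniteDimensional ℚ L →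
    ∀ (σ : GQ) (T : Finset ℕ),
      ∃ ℓ : ℕ, ℓ.Prime ∧ ℓ ∉ T ∧
        ∃ A : ValuationSubring (AlgebraicClosure ℚ), A.LiesOverPrime ℓ ∧
          ∃ τ : GQ, A.IsFrobeniusAt τ ℓ ∧ ∃ j : ℕ, ∀ x ∈ L, σ x = (τ ^ j) x

/-- The adic eigenmodule attached to an eigencharacter `χ` of the Hecke algebra away from `S`. -/
structure AdicEigenModule (p N : ℕ) [NeZero N] (S : Finset ℕ)
    (𝒪 : Type) [CommRing 𝒪] [IsLocalRing 𝒪]
    (χ : CuspForm.heckeAlgebra N 2 (↑S : Set ℕ) →+* 𝒪) : Type 1 where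
  M : Type
  [instAddCommGroup : AddCommGroup M]
  [instModule : Module 𝒪 M]
  [instFree : Module.Free 𝒪 M]
  [instFinite : Module.Finite 𝒪 M]
  [instNontrivial : Nontrivial M]
  ρ : GQ →* Module.End 𝒪 M
  cont : GaloisActionIsAdicContinuous 𝒪 ρ
  unram : ∀ q : ℕ, q.Prime → ¬ q ∣ N → q ≠ p →
    ∀ P : ValuationSubring (AlgebraicClosure ℚ), P.LiesOverPrime q →
      ∀ σ ∈ P.inertiaSubgroupIn ℚ, ρ σ = 1
  frob : ∀ (ℓ : ℕ) (hℓ : ℓ.Prime) (hℓN : ¬ ℓ ∣ N) (hℓS : ℓ ∉ (↑S : Set ℕ)),
    ∀ A : ValuationSubring (AlgebraicClosure ℚ), A.LiesOverPrime ℓ →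
      ∀ σ : GQ, A.IsFrobeniusAt σ ℓ →
        ρ σ * ρ σ - χ (CuspForm.heckeAlgebra.T hℓ hℓN hℓS) • ρ σ + (ℓ : 𝒪) • 1 = 0

attribute [instance] AdicEigenModule.instAddCommGroup AdicEigenModule.instModule
  AdicEigenModule.instFree AdicEigenModule.instFinite AdicEigenModule.instNontrivial

/-- The tower hypothesis: every eigencharacter has an adic eigenmodule. -/
def HasAdicEigenModules : Prop :=
  ∀ (p : ℕ) [Fact p.Prime] (N : ℕ) [NeZero N] (S : Finset ℕ)
    (_hpS : p ∈ S) (_hNS : ∀ q : ℕ, q.Prime → q ∣ N → q ∈ S)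
    (𝒪' : Type) [CommRing 𝒪'] [IsDomain 𝒪'] [IsDiscreteValuationRing 𝒪']
    [IsAdicComplete (IsLocalRing.maximalIdeal 𝒪') 𝒪'] [Finite (IsLocalRing.ResidueField 𝒪')]
    [CharZero 𝒪'] (_hp𝒪' : (p : 𝒪') ∈ IsLocalRing.maximalIdeal 𝒪')
    (χ : CuspForm.heckeAlgebra N 2 (↑S : Set ℕ) →+* 𝒪'),
    Nonempty (AdicEigenModule p N S 𝒪' χ)

end Fermat.Agent.S30.H990

end
-- ===== PACK-END S30/H990/Interface.lean

-- ===== PACK-BEGIN S31/H22/SSAlg.lean
section



/-!
# S31 piece SS, algebraic half (helper22): anisotropic Hecke-symmetric pairing ⟹ reduced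

`PeterssonData N` is the ONLY thing the analytic owners of piece SS have to deliver:
a biadditive pairing `B` on `S₂(Γ₀(N))` with `B f f = 0 → f = 0` for which every `T_ℓ` (`ℓ ∤ N`)
is symmetric.  (No linearity over `ℂ`, no positivity, no conjugate symmetry is needed.)

`isReduced_of_petersson` : `PeterssonData N` ⟹ `IsReduced (heckeAlgebra N 2 S)` whenever `S` contains
the primes dividing `N`.
-/

set_option autoImplicit false

namespace Fermat.Agent.S31.H22

/-- The interface of the analytic part of SS. -/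
structure PeterssonData (N : ℕ) [NeZero N] where
  /-- the pairing (e.g. the Petersson inner product) -/
  B : CuspForm (CongruenceSubgroup.Gamma0 N) 2 →+ CuspForm (CongruenceSubgroup.Gamma0 N) 2 →+ ℂ
  /-- anisotropy -/
  definite : ∀ f, B f f = 0 → f = 0
  /-- `T_ℓ` is symmetric for `ℓ ∤ N` -/
  symm_T : ∀ (ℓ : ℕ) (hℓ : ℓ.Prime) (hℓN : ¬ ℓ ∣ N)
    (f g : CuspForm (CongruenceSubgroup.Gamma0 N) 2),
    B (CuspForm.heckeTLin 2 hℓ hℓN f) g = B f (CuspForm.heckeTLin 2 hℓ hℓN g)

section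

variable {N : ℕ} [NeZero N]

/-- every element of the anemic Hecke algebra is symmetric for `B` -/
theorem symm_of_mem_heckeAlgebra (P : PeterssonData N) (S : Set ℕ)
    (hNS : ∀ q : ℕ, q.Prime → q ∣ N → q ∈ S)
    {t : Module.End ℂ (CuspForm (CongruenceSubgroup.Gamma0 N) 2)}
    (ht : t ∈ CuspForm.heckeAlgebra N 2 S) (f g : CuspForm (CongruenceSubgroup.Gamma0 N) 2) :
    P.B (t f) g = P.B f (t g) := by
  induction ht using Algebra.adjoin_induction generalizing f g with
  | mem x hx =>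
    rcases hx with ⟨ℓ, hℓ, hℓN, -, rfl⟩ | ⟨q, hqN, hq, hqS, rfl⟩
    · exact P.symm_T ℓ hℓ hℓN f g
    · exact absurd (hNS q hq hqN) hqS
  | algebraMap r =>
    simp only [Algebra.algebraMap_eq_smul_one, LinearMap.smul_apply, Module.End.one_apply]
    rw [map_zsmul, map_zsmul, AddMonoidHom.coe_smul, Pi.smul_apply]
  | add x y _ _ hx hy =>
    rw [LinearMap.add_apply, LinearMap.add_apply, map_add, map_add, AddMonoidHom.add_apply,
      hx, hy]
  | mul x y hxm hym hx hy =>
    have hcomm : x * y = y * x := by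
      have := mul_comm (⟨x, hxm⟩ : CuspForm.heckeAlgebra N 2 S) ⟨y, hym⟩
      exact congrArg Subtype.val this
    rw [Module.End.mul_apply, hx, hy, ← Module.End.mul_apply, hcomm]

/-- **SS from the analytic input.** -/
theorem isReduced_of_petersson (P : PeterssonData N) (S : Set ℕ)
    (hNS : ∀ q : ℕ, q.Prime → q ∣ N → q ∈ S) : IsReduced (CuspForm.heckeAlgebra N 2 S) := by
  -- a symmetric endomorphism with `y * y = 0` vanishes
  have hsq : ∀ y : Module.End ℂ (CuspForm (CongruenceSubgroup.Gamma0 N) 2),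
      y ∈ CuspForm.heckeAlgebra N 2 S → y * y = 0 → y = 0 := by
    intro y hy hyy
    refine LinearMap.ext fun f => ?_
    apply P.definite
    rw [symm_of_mem_heckeAlgebra P S hNS hy, ← Module.End.mul_apply, hyy]
    simp
  -- nilpotent elements vanish, by strong induction on the exponent
  have hnil : ∀ n : ℕ, ∀ x : Module.End ℂ (CuspForm (CongruenceSubgroup.Gamma0 N) 2),
      x ∈ CuspForm.heckeAlgebra N 2 S → x ^ n = 0 → x = 0 := by
    intro n
    induction n using Nat.strong_induction_on with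
    | _ n ih =>
      intro x hx hxn
      rcases Nat.lt_or_ge n 2 with hn | hn
      · interval_cases n
        · -- `1 = 0`
          rw [pow_zero] at hxn
          calc x = x * 1 := (mul_one x).symm
            _ = 0 := by rw [hxn, mul_zero]
        · simpa using hxn
      · -- `m = ⌈n/2⌉ < n`
        set m := (n + 1) / 2 with hm
        have hmn : m < n := by omega
        have h2m : n ≤ m + m := by omega
        have hy : x ^ m * x ^ m = 0 := by
          rw [← pow_add]
          obtain ⟨c, hc⟩ := Nat.exists_eq_add_of_le h2m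
          rw [hc, pow_add, hxn, zero_mul]
        exact ih m hmn x hx (hsq _ (Subalgebra.pow_mem _ hx m) hy)
  refine ⟨fun x hx => ?_⟩
  obtain ⟨n, hn⟩ := hx
  apply Subtype.ext
  refine hnil n x.1 x.2 ?_
  have := congrArg Subtype.val hn
  simpa using this

end

end Fermat.Agent.S31.H22

end
-- ===== PACK-END S31/H22/SSAlg.lean

-- ===== PACK-BEGIN S31/H262/PadicDVR.lean
section




/-!
# S31 / SS6 (helper262): the ring of integers of a finite extension of `ℚ_p` is a complete DVR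

For a field `L : Type` which is a finite extension of `ℚ_[p]`, the integral closure
`C = integralClosure ℤ_[p] L` is a complete discrete valuation ring of characteristic zero with
finite residue field, and `p` lies in its maximal ideal.  Everything is derived algebraically
(Dedekind + the Prelude decomposition of finite algebras over complete local rings).
-/

set_option autoImplicit false
set_option linter.unusedSectionVars false
set_option linter.style.haveILetI false

noncomputable section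

namespace Fermat.Agent.S31.H262

open IsLocalRing

section PadicDVR

variable (p : ℕ) [Fact p.Prime]
variable (L : Type) [Field L] [Algebra ℚ_[p] L] [Algebra ℤ_[p] L] [IsScalarTower ℤ_[p] ℚ_[p] L]
  [FiniteDimensional ℚ_[p] L]

/-- The ring of integers of `L`. -/
abbrev intRing : Subalgebra ℤ_[p] L := integralClosure ℤ_[p] L

instance intRing_isDedekindDomain : IsDedekindDomain (intRing p L) :=
  integralClosure.isDedekindDomain ℤ_[p] ℚ_[p] L

instance intRing_moduleFinite : Module.Finite ℤ_[p] (intRing p L) :=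
  IsIntegralClosure.finite ℤ_[p] ℚ_[p] L (intRing p L)

instance intRing_isNoetherianRing : IsNoetherianRing (intRing p L) :=
  IsIntegralClosure.isNoetherianRing ℤ_[p] ℚ_[p] L (intRing p L)

theorem algebraMap_padicInt_injective : Function.Injective (algebraMap ℤ_[p] L) := by
  rw [IsScalarTower.algebraMap_eq ℤ_[p] ℚ_[p] L]
  exact (algebraMap ℚ_[p] L).injective.comp (IsFractionRing.injective ℤ_[p] ℚ_[p])

instance intRing_charZero : CharZero (intRing p L) := by
  haveI : CharZero L := charZero_of_injective_algebraMap (algebraMap ℚ_[p] L).injective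
  exact charZero_of_injective_algebraMap (R := ℤ) (A := intRing p L)
    (fun a b h => by
      have h' := congrArg (fun x : intRing p L => (x : L)) h
      simp only [eq_intCast] at h'
      exact_mod_cast h')

/-- `p` is not a unit of the ring of integers. -/
theorem not_isUnit_p : ¬ IsUnit ((p : ℕ) : intRing p L) := by
  intro hu
  obtain ⟨u, hu⟩ := hu
  -- the inverse is integral over `ℤ_[p]` and lies in `ℚ_[p]`
  have hinv : IsIntegral ℤ_[p] ((↑u⁻¹ : intRing p L) : L) := (↑u⁻¹ : intRing p L).2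
  have hmul : ((↑u⁻¹ : intRing p L) : L) * (p : L) = 1 := by
    have h1 : (↑u⁻¹ : intRing p L) * (↑u : intRing p L) = 1 := by simp
    rw [hu] at h1
    have h2 := congrArg (fun x : intRing p L => (x : L)) h1
    simpa using h2
  have hp0 : (p : L) ≠ 0 := by
    haveI : CharZero L := charZero_of_injective_algebraMap (algebraMap ℚ_[p] L).injective
    exact_mod_cast (Fact.out : p.Prime).ne_zero
  have heq : ((↑u⁻¹ : intRing p L) : L) = algebraMap ℚ_[p] L ((p : ℚ_[p])⁻¹) := by
    rw [map_inv₀, map_natCast]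
    exact eq_inv_of_mul_eq_one_left hmul
  rw [heq] at hinv
  have hinv' : IsIntegral ℤ_[p] ((p : ℚ_[p])⁻¹) :=
    (isIntegral_algebraMap_iff (algebraMap ℚ_[p] L).injective).mp hinv
  obtain ⟨y, hy⟩ := (IsIntegrallyClosed.isIntegral_iff (R := ℤ_[p]) (K := ℚ_[p])).mp hinv'
  have hpy : (p : ℤ_[p]) * y = 1 := by
    apply IsFractionRing.injective ℤ_[p] ℚ_[p]
    rw [map_mul, hy, map_natCast, map_one]
    have : (p : ℚ_[p]) ≠ 0 := by exact_mod_cast (Fact.out : p.Prime).ne_zero
    field_simp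
  have : IsUnit (p : ℤ_[p]) := IsUnit.of_mul_eq_one _ hpy
  exact PadicInt.prime_p.not_isUnit this

theorem intRing_not_isField : ¬ IsField (intRing p L) := by
  intro hF
  apply not_isUnit_p p L
  have hp0 : ((p : ℕ) : intRing p L) ≠ 0 := by
    exact_mod_cast (Fact.out : p.Prime).ne_zero
  obtain ⟨b, hb⟩ := hF.mul_inv_cancel hp0
  exact IsUnit.of_mul_eq_one _ hb

/-- The ring of integers is a local ring (it is a domain, finite over the complete local ring
`ℤ_[p]`, hence it is the product of its localisations at its finitely many maximal ideals). -/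
instance intRing_isLocalRing : IsLocalRing (intRing p L) := by
  classical
  obtain ⟨-, hbij, -, -⟩ :=
    Algebra.finite_maximalSpectrum_and_bijective_localization_of_module_finite (𝒪 := ℤ_[p])
      (intRing p L)
  -- at most one maximal ideal
  have huniq : ∀ I J : MaximalSpectrum (intRing p L), I = J := by
    intro I J
    by_contra hIJ
    obtain ⟨e, he⟩ := hbij.2 (Function.update
      (0 : ∀ K : MaximalSpectrum (intRing p L), Localization.AtPrime K.asIdeal) I 1)
    have hI : algebraMap (intRing p L) (Localization.AtPrime I.asIdeal) e = 1 := by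
      have := congrFun he I
      simpa using this
    have hJ : algebraMap (intRing p L) (Localization.AtPrime J.asIdeal) e = 0 := by
      have := congrFun he J
      simpa [Function.update_of_ne (Ne.symm hIJ)] using this
    have hprod : e * (1 - e) = 0 := by
      apply hbij.1
      funext K
      simp only [RingHom.pi_apply, map_mul, map_sub, map_one, map_zero]
      by_cases hK : K = I
      · subst hK; rw [hI]; simp
      · have : algebraMap (intRing p L) (Localization.AtPrime K.asIdeal) e = 0 := by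
          have := congrFun he K
          simpa [Function.update_of_ne hK] using this
        rw [this]; simp
    rcases mul_eq_zero.mp hprod with h0 | h1
    · rw [h0, map_zero] at hI
      exact zero_ne_one hI
    · have : e = 1 := (sub_eq_zero.mp h1).symm
      rw [this, map_one] at hJ
      exact one_ne_zero hJ
  obtain ⟨M, hM⟩ := Ideal.exists_maximal (intRing p L)
  refine IsLocalRing.of_unique_max_ideal ⟨M, hM, fun J hJ => ?_⟩
  exact congrArg MaximalSpectrum.asIdeal (huniq ⟨J, hJ⟩ ⟨M, hM⟩)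

instance intRing_isDiscreteValuationRing : IsDiscreteValuationRing (intRing p L) :=
  ((IsDiscreteValuationRing.TFAE (intRing p L) (intRing_not_isField p L)).out 0 2).mpr
    (intRing_isDedekindDomain p L)

theorem natCast_p_mem_maximalIdeal : ((p : ℕ) : intRing p L) ∈ maximalIdeal (intRing p L) :=
  (IsLocalRing.mem_maximalIdeal _).mpr (not_isUnit_p p L)

instance intRing_isLocalHom : IsLocalHom (algebraMap ℤ_[p] (intRing p L)) := by
  constructor
  intro a ha
  by_contra hna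
  -- `a` is a non-unit of `ℤ_[p]`, so `p ∣ a`, hence the image is in the maximal ideal
  have hmem : a ∈ maximalIdeal ℤ_[p] := (IsLocalRing.mem_maximalIdeal _).mpr hna
  rw [PadicInt.maximalIdeal_eq_span_p, Ideal.mem_span_singleton] at hmem
  obtain ⟨b, rfl⟩ := hmem
  rw [map_mul, map_natCast] at ha
  exact not_isUnit_p p L (isUnit_of_mul_isUnit_left ha)

instance intRing_isAdicComplete :
    IsAdicComplete (maximalIdeal (intRing p L)) (intRing p L) :=
  IsLocalRing.isAdicComplete_of_module_finite (𝒪 := ℤ_[p])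

instance intRing_finite_residueField : Finite (ResidueField (intRing p L)) :=
  Module.finite_of_finite (ResidueField ℤ_[p])

/-- Powers of the maximal ideal are cofinal with powers of `p`. -/
theorem exists_maximalIdeal_pow_le_span_p_pow (n : ℕ) :
    ∃ m : ℕ, maximalIdeal (intRing p L) ^ m ≤ Ideal.span {((p : ℕ) : intRing p L) ^ n} := by
  have hp0 : ((p : ℕ) : intRing p L) ≠ 0 := by
    exact_mod_cast (Fact.out : p.Prime).ne_zero
  have hne : Ideal.span {((p : ℕ) : intRing p L)} ≠ ⊥ := by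
    rw [Ne, Ideal.span_singleton_eq_bot]
    exact hp0
  have hall : ∀ I : Ideal (intRing p L), I ≠ ⊥ → ∃ n, I = maximalIdeal (intRing p L) ^ n :=
    ((IsDiscreteValuationRing.TFAE (intRing p L) (intRing_not_isField p L)).out 0 6).mp
      (intRing_isDiscreteValuationRing p L)
  obtain ⟨e, he⟩ := hall _ hne
  refine ⟨e * n, ?_⟩
  rw [pow_mul, ← he, Ideal.span_singleton_pow]

end PadicDVR

end Fermat.Agent.S31.H262

end
end
-- ===== PACK-END S31/H262/PadicDVR.lean

-- ===== PACK-BEGIN S22/H262/EasyCases.lean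
section




set_option autoImplicit false

/-!
# S22: cusp forms of weight `k ≤ 1` on `Γ₀(N)` vanish.
-/

namespace Fermat.Agent.S22.H262

open CuspForm UpperHalfPlane
open scoped MatrixGroups

/-- Cusp forms of non-positive weight on `Γ₀(N)` vanish (Sturm bound from the prelude). -/
theorem cuspForm_eq_zero_of_nonpos {N : ℕ} [NeZero N] {k : ℤ} (hk : k ≤ 0)
    (f : CuspForm (CongruenceSubgroup.Gamma0 N) k) : f = 0 := by
  have h0 : (CuspForm.toModularFormₗ f) = 0 := by
    apply ModularForm.sturm_bound_Gamma0 N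
    intro n hn
    have hz : (k * ((CongruenceSubgroup.Gamma0 N).index : ℤ)).toNat = 0 := by
      rw [Int.toNat_eq_zero]
      exact mul_nonpos_of_nonpos_of_nonneg hk (by positivity)
    rw [hz, Nat.zero_div, Nat.le_zero] at hn
    subst hn
    exact CuspFormClass.qExpansion_coeff_zero (f := f) one_pos
      (CongruenceSubgroup.one_mem_strictPeriods_Gamma0 N)
  exact CuspForm.toModularFormₗ_injective (by rw [h0, map_zero])

/-- Cusp forms of odd weight on `Γ₀(N)` vanish, since `-1 ∈ Γ₀(N)`. -/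
theorem cuspForm_eq_zero_of_odd {N : ℕ} {k : ℤ} (hk : Odd k)
    (f : CuspForm (CongruenceSubgroup.Gamma0 N) k) : f = 0 := by
  have hmem : (-1 : GL (Fin 2) ℝ) ∈
      (Subgroup.map (Matrix.SpecialLinearGroup.mapGL ℝ) (CongruenceSubgroup.Gamma0 N)) := by
    refine ⟨-1, ?_, ?_⟩
    · simp [CongruenceSubgroup.Gamma0_mem]
    · ext i j
      simp
  have h0 : (CuspForm.toModularFormₗ f) = 0 :=
    ModularForm.eq_zero_of_neg_one_mem hmem hk _
  exact CuspForm.toModularFormₗ_injective (by rw [h0, map_zero])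

/-- Cusp forms of weight `k ≤ 1` on `Γ₀(N)` vanish. -/
theorem cuspForm_eq_zero_of_le_one {N : ℕ} [NeZero N] {k : ℤ} (hk : k ≤ 1)
    (f : CuspForm (CongruenceSubgroup.Gamma0 N) k) : f = 0 := by
  rcases hk.lt_or_eq with h | h
  · exact cuspForm_eq_zero_of_nonpos (by omega) f
  · exact cuspForm_eq_zero_of_odd (by rw [h]; exact odd_one) f

end Fermat.Agent.S22.H262

end
-- ===== PACK-END S22/H262/EasyCases.lean

-- ===== PACK-BEGIN Lib/Pet695/Cosets.lean
section



/-!
# The Hecke double coset of a prime `ℓ ∤ N` for `Γ₀(N)`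

`DeltaZ N ℓ = {M ∈ M₂(ℤ) : det M = ℓ, N ∣ M 1 0}` is the disjoint union of the cosets
`Γ₀(N) · r`, `r ∈ {[[1,j],[0,ℓ]] : j < ℓ} ∪ {[[ℓ,0],[0,1]]}`, and it is stable under the adjugate.
-/

set_option autoImplicit false

open Matrix
open scoped MatrixGroups

noncomputable section

namespace Fermat.Agent.Lib.Pet695

variable (N ℓ : ℕ)

/-- integer matrices of determinant `ℓ` with lower left entry divisible by `N` -/
def DeltaZ : Set (Matrix (Fin 2) (Fin 2) ℤ) := {M | M.det = (ℓ : ℤ) ∧ (N : ℤ) ∣ M 1 0}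

/-- the standard representatives -/
def repZ : Option (Fin ℓ) → Matrix (Fin 2) (Fin 2) ℤ
  | none => !![(ℓ : ℤ), 0; 0, 1]
  | some j => !![1, ((j : ℕ) : ℤ); 0, (ℓ : ℤ)]

variable {N ℓ}

theorem det_repZ (x : Option (Fin ℓ)) : (repZ ℓ x).det = (ℓ : ℤ) := by
  cases x <;> simp [repZ, Matrix.det_fin_two_of]

theorem sl_det_eq (g : SL(2, ℤ)) : g 0 0 * g 1 1 - g 0 1 * g 1 0 = 1 := by
  have h := g.det_coe
  rwa [Matrix.det_fin_two] at h

theorem gamma0_dvd {g : SL(2, ℤ)} (hg : g ∈ CongruenceSubgroup.Gamma0 N) : (N : ℤ) ∣ g 1 0 :=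
  (ZMod.intCast_zmod_eq_zero_iff_dvd _ _).mp (CongruenceSubgroup.Gamma0_mem.mp hg)

theorem mem_gamma0_of_dvd {g : SL(2, ℤ)} (hg : (N : ℤ) ∣ g 1 0) :
    g ∈ CongruenceSubgroup.Gamma0 N :=
  CongruenceSubgroup.Gamma0_mem.mpr ((ZMod.intCast_zmod_eq_zero_iff_dvd _ _).mpr hg)

theorem mul_repZ_none (A : Matrix (Fin 2) (Fin 2) ℤ) :
    A * repZ ℓ none = !![A 0 0 * ℓ, A 0 1; A 1 0 * ℓ, A 1 1] := by
  ext i j
  fin_cases i <;> fin_cases j <;> simp [repZ, Matrix.mul_apply, Fin.sum_univ_two]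

theorem mul_repZ_some (A : Matrix (Fin 2) (Fin 2) ℤ) (j : Fin ℓ) :
    A * repZ ℓ (some j) =
      !![A 0 0, A 0 0 * ((j : ℕ) : ℤ) + A 0 1 * ℓ; A 1 0, A 1 0 * ((j : ℕ) : ℤ) + A 1 1 * ℓ] := by
  ext i j'
  fin_cases i <;> fin_cases j' <;> simp [repZ, Matrix.mul_apply, Fin.sum_univ_two]

theorem mul_repZ_mem (g : CongruenceSubgroup.Gamma0 N) (x : Option (Fin ℓ)) :
    (g : SL(2, ℤ)).val * repZ ℓ x ∈ DeltaZ N ℓ := by
  refine ⟨by rw [Matrix.det_mul, det_repZ, (g : SL(2, ℤ)).det_coe, one_mul], ?_⟩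
  have h := gamma0_dvd g.2
  cases x with
  | none => rw [mul_repZ_none]; simpa using h.mul_right _
  | some j => rw [mul_repZ_some]; simpa using h

/-- the map `(γ, r) ↦ γ r` -/
def mulRep (p : CongruenceSubgroup.Gamma0 N × Option (Fin ℓ)) : DeltaZ N ℓ :=
  ⟨(p.1 : SL(2, ℤ)).val * repZ ℓ p.2, mul_repZ_mem p.1 p.2⟩

theorem sl_ext {g h : SL(2, ℤ)} (h00 : g 0 0 = h 0 0) (h01 : g 0 1 = h 0 1)
    (h10 : g 1 0 = h 1 0) (h11 : g 1 1 = h 1 1) : g = h := by
  ext i j
  fin_cases i <;> fin_cases j <;> assumption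

theorem not_dvd_col (hℓ : ℓ.Prime) (g : SL(2, ℤ)) : ¬ ((ℓ : ℤ) ∣ g 0 0 ∧ (ℓ : ℤ) ∣ g 1 0) := by
  rintro ⟨h1, h2⟩
  have h3 : (ℓ : ℤ) ∣ g 0 0 * g 1 1 - g 0 1 * g 1 0 :=
    dvd_sub (h1.mul_right _) (h2.mul_left _)
  rw [sl_det_eq] at h3
  have := Int.natAbs_dvd_natAbs.mpr h3
  simp at this
  exact hℓ.one_lt.ne' this

theorem mulRep_injective (hℓ : ℓ.Prime) : Function.Injective (mulRep (N := N) (ℓ := ℓ)) := by
  have hℓ0 : (ℓ : ℤ) ≠ 0 := by exact_mod_cast hℓ.ne_zero
  rintro ⟨⟨g, hg⟩, x⟩ ⟨⟨g', hg'⟩, x'⟩ h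
  have hM : g.val * repZ ℓ x = g'.val * repZ ℓ x' := congrArg Subtype.val h
  have e00 := congrFun (congrFun hM 0) 0
  have e01 := congrFun (congrFun hM 0) 1
  have e10 := congrFun (congrFun hM 1) 0
  have e11 := congrFun (congrFun hM 1) 1
  cases x with
  | none =>
    cases x' with
    | none =>
      simp only [mul_repZ_none, Matrix.of_apply, Matrix.cons_val', Matrix.cons_val_zero,
        Matrix.cons_val_one, Matrix.cons_val_fin_one] at e00 e01 e10 e11
      have : g = g' := sl_ext (mul_right_cancel₀ hℓ0 e00) e01 (mul_right_cancel₀ hℓ0 e10) e11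
      subst this
      rfl
    | some j' =>
      simp only [mul_repZ_none, mul_repZ_some, Matrix.of_apply, Matrix.cons_val',
        Matrix.cons_val_zero, Matrix.cons_val_one, Matrix.cons_val_fin_one] at e00 e01 e10 e11
      exact absurd ⟨⟨_, by rw [← e00, mul_comm]⟩, ⟨_, by rw [← e10, mul_comm]⟩⟩
        (not_dvd_col hℓ g')
  | some j =>
    cases x' with
    | none =>
      simp only [mul_repZ_none, mul_repZ_some, Matrix.of_apply, Matrix.cons_val',
        Matrix.cons_val_zero, Matrix.cons_val_one, Matrix.cons_val_fin_one] at e00 e01 e10 e11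
      exact absurd ⟨⟨_, by rw [e00, mul_comm]⟩, ⟨_, by rw [e10, mul_comm]⟩⟩
        (not_dvd_col hℓ g)
    | some j' =>
      simp only [mul_repZ_some, Matrix.of_apply, Matrix.cons_val',
        Matrix.cons_val_zero, Matrix.cons_val_one, Matrix.cons_val_fin_one] at e00 e01 e10 e11
      -- ℓ ∣ a (j - j'), ℓ ∣ c (j - j')
      have d1 : (ℓ : ℤ) ∣ g 0 0 * (((j : ℕ) : ℤ) - ((j' : ℕ) : ℤ)) :=
        ⟨g' 0 1 - g 0 1, by rw [e00] at e01 ⊢; linear_combination e01⟩
      have d2 : (ℓ : ℤ) ∣ g 1 0 * (((j : ℕ) : ℤ) - ((j' : ℕ) : ℤ)) :=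
        ⟨g' 1 1 - g 1 1, by rw [e10] at e11 ⊢; linear_combination e11⟩
      have hp : Prime (ℓ : ℤ) := Nat.prime_iff_prime_int.mp hℓ
      have hjj : (ℓ : ℤ) ∣ ((j : ℕ) : ℤ) - ((j' : ℕ) : ℤ) := by
        by_contra hn
        exact not_dvd_col hℓ g ⟨(hp.dvd_or_dvd d1).resolve_right hn,
          (hp.dvd_or_dvd d2).resolve_right hn⟩
      have hjeq : (j : ℕ) = (j' : ℕ) := by
        have h1 : ((j : ℕ) : ℤ) ≡ ((j' : ℕ) : ℤ) [ZMOD (ℓ : ℤ)] :=
          (Int.modEq_iff_dvd.mpr hjj).symm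
        have h2 : (j : ℕ) ≡ (j' : ℕ) [MOD ℓ] := Int.natCast_modEq_iff.mp h1
        exact Nat.ModEq.eq_of_lt_of_lt h2 j.2 j'.2
      have hj : j = j' := Fin.ext hjeq
      subst hj
      have : g = g' := sl_ext e00
        (mul_right_cancel₀ hℓ0 (by rw [e00] at e01; linear_combination e01)) e10
        (mul_right_cancel₀ hℓ0 (by rw [e10] at e11; linear_combination e11))
      subst this
      rfl

theorem mulRep_surjective (hℓ : ℓ.Prime) (hℓN : ¬ ℓ ∣ N) :
    Function.Surjective (mulRep (N := N) (ℓ := ℓ)) := by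
  have : Fact ℓ.Prime := ⟨hℓ⟩
  have hℓ0 : (ℓ : ℤ) ≠ 0 := by exact_mod_cast hℓ.ne_zero
  rintro ⟨M, hdet, hN⟩
  rw [Matrix.det_fin_two] at hdet
  by_cases hcase : (ℓ : ℤ) ∣ M 0 0 ∧ (ℓ : ℤ) ∣ M 1 0
  · obtain ⟨⟨a', ha'⟩, ⟨c', hc'⟩⟩ := hcase
    have hdet1 : a' * M 1 1 - M 0 1 * c' = 1 := by
      apply mul_left_cancel₀ hℓ0
      rw [ha', hc'] at hdet
      linear_combination hdet
    have hNc : (N : ℤ) ∣ c' := by
      have hcop : IsCoprime (N : ℤ) (ℓ : ℤ) := by
        rw [Int.isCoprime_iff_gcd_eq_one, Int.gcd_natCast_natCast]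
        exact (Nat.coprime_comm.mp ((Nat.Prime.coprime_iff_not_dvd hℓ).mpr hℓN))
      rw [hc'] at hN
      exact hcop.dvd_of_dvd_mul_left hN
    let g : SL(2, ℤ) := ⟨!![a', M 0 1; c', M 1 1], by rw [Matrix.det_fin_two_of]; exact hdet1⟩
    have hg : g ∈ CongruenceSubgroup.Gamma0 N := mem_gamma0_of_dvd (by simpa [g] using hNc)
    refine ⟨(⟨g, hg⟩, none), Subtype.ext ?_⟩
    show g.val * repZ ℓ none = M
    rw [mul_repZ_none]
    ext i j
    fin_cases i <;> fin_cases j <;> simp [g, ha', hc', mul_comm]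
  · -- find `j`
    have hz : ((M 0 0 : ℤ) : ZMod ℓ) * ((M 1 1 : ℤ) : ZMod ℓ)
        = ((M 0 1 : ℤ) : ZMod ℓ) * ((M 1 0 : ℤ) : ZMod ℓ) := by
      have h := congrArg (fun x : ℤ => (x : ZMod ℓ)) hdet
      simp only [Int.cast_sub, Int.cast_mul, Int.cast_natCast, ZMod.natCast_self] at h
      exact sub_eq_zero.mp h
    obtain ⟨t, ht1, ht2⟩ : ∃ t : ZMod ℓ, ((M 0 1 : ℤ) : ZMod ℓ) = ((M 0 0 : ℤ) : ZMod ℓ) * t ∧
        ((M 1 1 : ℤ) : ZMod ℓ) = ((M 1 0 : ℤ) : ZMod ℓ) * t := by
      by_cases ha : ((M 0 0 : ℤ) : ZMod ℓ) = 0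
      · have hc : ((M 1 0 : ℤ) : ZMod ℓ) ≠ 0 := by
          intro hc
          exact hcase ⟨(ZMod.intCast_zmod_eq_zero_iff_dvd _ _).mp ha,
            (ZMod.intCast_zmod_eq_zero_iff_dvd _ _).mp hc⟩
        refine ⟨((M 1 1 : ℤ) : ZMod ℓ) / ((M 1 0 : ℤ) : ZMod ℓ), ?_, ?_⟩
        · rw [ha, zero_mul] at hz ⊢
          exact (mul_eq_zero.mp hz.symm).resolve_right hc
        · field_simp
      · refine ⟨((M 0 1 : ℤ) : ZMod ℓ) / ((M 0 0 : ℤ) : ZMod ℓ), ?_, ?_⟩
        · field_simp
        · field_simp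
          rw [mul_comm, hz, mul_comm]
    have hj1 : (ℓ : ℤ) ∣ M 0 1 - M 0 0 * ((t.val : ℕ) : ℤ) := by
      rw [← ZMod.intCast_zmod_eq_zero_iff_dvd]
      push_cast
      rw [ZMod.natCast_zmod_val, ht1, sub_self]
    have hj2 : (ℓ : ℤ) ∣ M 1 1 - M 1 0 * ((t.val : ℕ) : ℤ) := by
      rw [← ZMod.intCast_zmod_eq_zero_iff_dvd]
      push_cast
      rw [ZMod.natCast_zmod_val, ht2, sub_self]
    obtain ⟨b', hb'⟩ := hj1
    obtain ⟨d', hd'⟩ := hj2
    have hdet1 : M 0 0 * d' - b' * M 1 0 = 1 := by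
      apply mul_left_cancel₀ hℓ0
      linear_combination hdet - M 0 0 * hd' + M 1 0 * hb'
    let g : SL(2, ℤ) := ⟨!![M 0 0, b'; M 1 0, d'], by rw [Matrix.det_fin_two_of]; exact hdet1⟩
    have hg : g ∈ CongruenceSubgroup.Gamma0 N := mem_gamma0_of_dvd (by simpa [g] using hN)
    refine ⟨(⟨g, hg⟩, some ⟨t.val, ZMod.val_lt t⟩), Subtype.ext ?_⟩
    show g.val * repZ ℓ (some ⟨t.val, ZMod.val_lt t⟩) = M
    rw [mul_repZ_some]
    ext i j
    fin_cases i <;> fin_cases j
    · simp [g]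
    · simp only [g, Fin.mk_one, Matrix.of_apply, Matrix.cons_val', Matrix.cons_val_zero,
        Matrix.cons_val_one, Matrix.cons_val_fin_one]
      show M 0 0 * ((t.val : ℕ) : ℤ) + b' * ℓ = M 0 1
      linear_combination -hb'
    · simp [g]
    · simp only [g, Fin.mk_one, Matrix.of_apply, Matrix.cons_val', Matrix.cons_val_zero,
        Matrix.cons_val_one, Matrix.cons_val_fin_one]
      show M 1 0 * ((t.val : ℕ) : ℤ) + d' * ℓ = M 1 1
      linear_combination -hd'

/-- The coset decomposition `Γ₀(N) × R ≃ Δ`. -/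
def eZ (hℓ : ℓ.Prime) (hℓN : ¬ ℓ ∣ N) :
    CongruenceSubgroup.Gamma0 N × Option (Fin ℓ) ≃ DeltaZ N ℓ :=
  Equiv.ofBijective mulRep ⟨mulRep_injective hℓ, mulRep_surjective hℓ hℓN⟩

theorem eZ_apply (hℓ : ℓ.Prime) (hℓN : ¬ ℓ ∣ N) (g : CongruenceSubgroup.Gamma0 N)
    (x : Option (Fin ℓ)) : ((eZ hℓ hℓN (g, x) : DeltaZ N ℓ) : Matrix (Fin 2) (Fin 2) ℤ)
      = (g : SL(2, ℤ)).val * repZ ℓ x := rfl

theorem adjugate_mem {M : Matrix (Fin 2) (Fin 2) ℤ} (hM : M ∈ DeltaZ N ℓ) :
    M.adjugate ∈ DeltaZ N ℓ := by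
  refine ⟨?_, ?_⟩
  · rw [Matrix.det_adjugate, hM.1]; simp
  · rw [Matrix.adjugate_fin_two]
    simpa using hM.2

/-- The adjugate involution of `Δ`. -/
def starZ : DeltaZ N ℓ ≃ DeltaZ N ℓ where
  toFun M := ⟨M.1.adjugate, adjugate_mem M.2⟩
  invFun M := ⟨M.1.adjugate, adjugate_mem M.2⟩
  left_inv M := Subtype.ext (by
    show M.1.adjugate.adjugate = M.1
    rw [Matrix.adjugate_adjugate _ (by simp)]; simp)
  right_inv M := Subtype.ext (by
    show M.1.adjugate.adjugate = M.1
    rw [Matrix.adjugate_adjugate _ (by simp)]; simp)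

end Fermat.Agent.Lib.Pet695

end
end
-- ===== PACK-END Lib/Pet695/Cosets.lean

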