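import Mathlib.Algebra.Polynomial.Degree.Lemmas
import Mathlib.Algebra.Polynomial.Coeff
import Mathlib.Analysis.Complex.Basic
import Mathlib.Tactic.LinearCombination
import Mathlib.Tactic.Ring
import Mathlib
import Fermat.Prelude.Def_GaloisRep_Residual
import Fermat.Agent.Pack.S43MC.G0E2L2

-- ===== PACK-BEGIN Lib/Newform/H863/X8Poly.lean
section






/-!
# NEWFORM block X, piece X8 (helper863): the polynomial identities

The local identity `X^{e'} P~_f P_g = c X^e P_f P~_g` of block X, in each of the possible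
shapes of the local Euler factors of two newforms at a prime `q` (`e = v_q(N)`, `e' = v_q(N')`):

* `caseA` (`e ≥ 2`, `e' = 0`) and `caseB` (`e ≥ 2`, `e' = 1`) are impossible;
* `caseC` (`e, e' ≥ 2`) gives `e = e'`;
* `caseD` (`e = 1`, `e' = 0`) gives `a_q(g)² = (q + 1)²`;
* `caseE` (`e = e' = 0`) gives `a_q(f) = a_q(g)`;
* `caseF` (`e = e' = 1`) gives `a_q(f) = a_q(g)`.

Pure algebra in `ℂ[X]`.
-/

set_option autoImplicit false

open Polynomial

namespace Fermat.Agent.Lib.Newform.H863.X8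

/-- Coefficients of an explicit polynomial of degree `≤ 4`. -/
theorem coeff_quartic (c0 c1 c2 c3 c4 : ℂ) (n : ℕ) :
    (C c0 + C c1 * X + C c2 * X ^ 2 + C c3 * X ^ 3 + C c4 * X ^ 4 : ℂ[X]).coeff n =
      if n = 0 then c0 else if n = 1 then c1 else if n = 2 then c2 else if n = 3 then c3
        else if n = 4 then c4 else 0 := by
  simp only [coeff_add, coeff_C_mul, coeff_X_pow, coeff_C, coeff_X]
  rcases n with _ | _ | _ | _ | _ | n <;> simp

/-- (A) `e ≥ 2`, `e' = 0` is impossible. -/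
theorem caseA (q a' c : ℂ) (hq : q ≠ 0) (hq2 : q ^ 2 ≠ 1) (e : ℕ) (he : 2 ≤ e)
    (h : X ^ 0 * X ^ 2 * (1 - C a' * X + C q * X ^ 2)
      = C c * (X ^ e * (1 : ℂ[X]) * (X ^ 2 - C (a' * (q ^ 2)⁻¹) * X + C ((q ^ 3)⁻¹)))) :
    False := by
  have hL : (X ^ 0 * X ^ 2 * (1 - C a' * X + C q * X ^ 2) : ℂ[X])
      = X ^ 2 * (C 1 + C (-a') * X + C q * X ^ 2 + C 0 * X ^ 3 + C 0 * X ^ 4) := by
    simp only [map_neg, map_one, map_zero]; ring
  have hR : (C c * (X ^ e * (1 : ℂ[X]) * (X ^ 2 - C (a' * (q ^ 2)⁻¹) * X + C ((q ^ 3)⁻¹))) : ℂ[X])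
      = X ^ e * (C (c * (q ^ 3)⁻¹) + C (-(c * (a' * (q ^ 2)⁻¹))) * X + C c * X ^ 2 + C 0 * X ^ 3
          + C 0 * X ^ 4) := by
    simp only [map_neg, map_mul, map_zero]; ring
  rw [hL, hR] at h
  have h2 := congrArg (fun p => p.coeff 2) h
  have h4 := congrArg (fun p => p.coeff 4) h
  simp only [coeff_X_pow_mul', coeff_quartic] at h2 h4
  set u := q⁻¹ with hu_def
  have hu : q * u = 1 := mul_inv_cancel₀ hq
  have h3i : (q ^ 3)⁻¹ = u ^ 3 := by rw [hu_def, inv_pow]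
  rcases Nat.eq_or_lt_of_le he with rfl | he'
  · have h2' : (1 : ℂ) = c * (q ^ 3)⁻¹ := by simpa using h2
    have h4' : q = c := by simpa using h4
    rw [h3i] at h2'
    apply hq2
    linear_combination (q ^ 2) * h2' - (q ^ 2 * u ^ 3) * h4' + ((q * u) ^ 2 + q * u + 1) * hu
  · have : ¬ e ≤ 2 := by omega
    simp [this] at h2

/-- (B) `e ≥ 2`, `e' = 1` is impossible. -/
theorem caseB (q ε' c : ℂ) (hq : q ≠ 0) (hq2 : q ^ 2 ≠ 1) (hε : ε' ^ 2 = 1) (e : ℕ)
    (he : 2 ≤ e)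
    (h : X ^ 1 * X ^ 2 * (1 - C ε' * X)
      = C c * (X ^ e * (1 : ℂ[X]) * (X ^ 2 - C (ε' * (q ^ 2)⁻¹) * X))) : False := by
  have hL : (X ^ 1 * X ^ 2 * (1 - C ε' * X) : ℂ[X])
      = X ^ 2 * (C 0 + C 1 * X + C (-ε') * X ^ 2 + C 0 * X ^ 3 + C 0 * X ^ 4) := by
    simp only [map_neg, map_one, map_zero]; ring
  have hR : (C c * (X ^ e * (1 : ℂ[X]) * (X ^ 2 - C (ε' * (q ^ 2)⁻¹) * X)) : ℂ[X])
      = X ^ e * (C 0 + C (-(c * (ε' * (q ^ 2)⁻¹))) * X + C c * X ^ 2 + C 0 * X ^ 3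
          + C 0 * X ^ 4) := by
    simp only [map_neg, map_mul, map_zero]; ring
  rw [hL, hR] at h
  have h3 := congrArg (fun p => p.coeff 3) h
  have h4 := congrArg (fun p => p.coeff 4) h
  simp only [coeff_X_pow_mul', coeff_quartic] at h3 h4
  set u := q⁻¹ with hu_def
  have hu : q * u = 1 := mul_inv_cancel₀ hq
  have h2i : (q ^ 2)⁻¹ = u ^ 2 := by rw [hu_def, inv_pow]
  rcases Nat.eq_or_lt_of_le he with rfl | he'
  · have h3' : (1 : ℂ) = -(c * (ε' * (q ^ 2)⁻¹)) := by simpa using h3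
    have h4' : -ε' = c := by simpa using h4
    rw [h2i] at h3'
    apply hq2
    linear_combination (q ^ 2) * h3' + (q ^ 2 * u ^ 2) * hε + (q ^ 2 * u ^ 2 * ε') * h4'
      + (q * u + 1) * hu
  · rcases Nat.eq_or_lt_of_le he' with rfl | he''
    · have h3' : (1 : ℂ) = 0 := by simpa using h3
      exact one_ne_zero h3'
    · have : ¬ e ≤ 3 := by omega
      simp [this] at h3

/-- (C) `e, e' ≥ 2` gives `e = e'`. -/
theorem caseC (c : ℂ) (hc : c ≠ 0) (e e' : ℕ)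
    (h : X ^ e' * X ^ 2 * (1 : ℂ[X]) = C c * (X ^ e * (1 : ℂ[X]) * X ^ 2)) : e = e' := by
  have h1 := congrArg Polynomial.natDegree h
  rw [mul_one, mul_one, ← pow_add, ← pow_add, natDegree_X_pow, natDegree_C_mul_X_pow _ _ hc]
    at h1
  omega

/-- (D) `e = 1`, `e' = 0` forces `a_q(g)² = (q + 1)²`. -/
theorem caseD (q ε a' c : ℂ) (hq : q ≠ 0) (hq1 : q ≠ 1) (hε : ε ^ 2 = 1)
    (h : X ^ 0 * (X ^ 2 - C (ε * (q ^ 2)⁻¹) * X) * (1 - C a' * X + C q * X ^ 2)
      = C c * (X ^ 1 * (1 - C ε * X) * (X ^ 2 - C (a' * (q ^ 2)⁻¹) * X + C ((q ^ 3)⁻¹)))) :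
    a' ^ 2 = (q + 1) ^ 2 := by
  have hL : (X ^ 0 * (X ^ 2 - C (ε * (q ^ 2)⁻¹) * X) * (1 - C a' * X + C q * X ^ 2) : ℂ[X])
      = (C 0 + C (-(ε * (q ^ 2)⁻¹)) * X + C (1 + ε * (q ^ 2)⁻¹ * a') * X ^ 2
          + C (-a' - ε * (q ^ 2)⁻¹ * q) * X ^ 3 + C q * X ^ 4) := by
    simp only [map_neg, map_one, map_zero, map_mul, map_add, map_sub]; ring
  have hR : (C c * (X ^ 1 * (1 - C ε * X) *
        (X ^ 2 - C (a' * (q ^ 2)⁻¹) * X + C ((q ^ 3)⁻¹))) : ℂ[X])
      = (C 0 + C (c * (q ^ 3)⁻¹) * X + C (c * (-(a' * (q ^ 2)⁻¹) - ε * (q ^ 3)⁻¹)) * X ^ 2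
          + C (c * (1 + ε * (a' * (q ^ 2)⁻¹))) * X ^ 3 + C (-(c * ε)) * X ^ 4) := by
    simp only [map_neg, map_one, map_zero, map_mul, map_add, map_sub]; ring
  rw [hL, hR] at h
  have h2 := congrArg (fun p => p.coeff 2) h
  have h4 := congrArg (fun p => p.coeff 4) h
  simp only [coeff_quartic] at h2 h4
  have h2' : 1 + ε * (q ^ 2)⁻¹ * a' = c * (-(a' * (q ^ 2)⁻¹) - ε * (q ^ 3)⁻¹) := by
    simpa using h2
  have h4' : q = -(c * ε) := by simpa using h4
  set u := q⁻¹ with hu_def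
  have hu : q * u = 1 := mul_inv_cancel₀ hq
  have h2i : (q ^ 2)⁻¹ = u ^ 2 := by rw [hu_def, inv_pow]
  have h3i : (q ^ 3)⁻¹ = u ^ 3 := by rw [hu_def, inv_pow]
  rw [h2i, h3i] at h2'
  have hqu2 : q ^ 2 * u ^ 2 = 1 := by linear_combination (q * u + 1) * hu
  have hqu3 : q ^ 3 * u ^ 3 = 1 := by linear_combination ((q * u) ^ 2 + q * u + 1) * hu
  have hc : c = -(q * ε) := by linear_combination ε * h4' - c * hε
  rw [hc] at h2'
  have E1 : 1 + ε * u ^ 2 * a' = q * ε * a' * u ^ 2 + q * u ^ 3 := by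
    linear_combination h2' + (q * u ^ 3) * hε
  have E2 : q ^ 2 + ε * a' = q * ε * a' + 1 := by
    linear_combination (q ^ 2) * E1 + (-(ε * a') + q * ε * a') * hqu2 + hqu3
  have hq1' : q - 1 ≠ 0 := sub_ne_zero.mpr hq1
  have key : ε * a' = q + 1 := by
    apply mul_left_cancel₀ hq1'
    linear_combination (-1 : ℂ) * E2
  calc a' ^ 2 = (ε * a') ^ 2 := by rw [mul_pow, hε, one_mul]
    _ = (q + 1) ^ 2 := by rw [key]

/-- (E) `e = e' = 0` gives `a_q(f) = a_q(g)`. -/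
theorem caseE (q a a' c : ℂ) (hq : q ≠ 0) (hq1 : q ≠ 1)
    (h : X ^ 0 * (X ^ 2 - C (a * (q ^ 2)⁻¹) * X + C ((q ^ 3)⁻¹)) *
          (1 - C a' * X + C q * X ^ 2)
      = C c * (X ^ 0 * (1 - C a * X + C q * X ^ 2) *
          (X ^ 2 - C (a' * (q ^ 2)⁻¹) * X + C ((q ^ 3)⁻¹)))) :
    a = a' := by
  have hL : (X ^ 0 * (X ^ 2 - C (a * (q ^ 2)⁻¹) * X + C ((q ^ 3)⁻¹)) *
        (1 - C a' * X + C q * X ^ 2) : ℂ[X])
      = (C ((q ^ 3)⁻¹) + C (-(a * (q ^ 2)⁻¹) - (q ^ 3)⁻¹ * a') * X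
          + C (1 + a * (q ^ 2)⁻¹ * a' + (q ^ 3)⁻¹ * q) * X ^ 2
          + C (-a' - a * (q ^ 2)⁻¹ * q) * X ^ 3 + C q * X ^ 4) := by
    simp only [map_neg, map_one, map_zero, map_mul, map_add, map_sub]; ring
  have hR : (C c * (X ^ 0 * (1 - C a * X + C q * X ^ 2) *
          (X ^ 2 - C (a' * (q ^ 2)⁻¹) * X + C ((q ^ 3)⁻¹))) : ℂ[X])
      = (C (c * (q ^ 3)⁻¹) + C (c * (-(a' * (q ^ 2)⁻¹) - (q ^ 3)⁻¹ * a)) * X
          + C (c * (1 + a' * (q ^ 2)⁻¹ * a + (q ^ 3)⁻¹ * q)) * X ^ 2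
          + C (c * (-a - a' * (q ^ 2)⁻¹ * q)) * X ^ 3 + C (c * q) * X ^ 4) := by
    simp only [map_neg, map_one, map_zero, map_mul, map_add, map_sub]; ring
  rw [hL, hR] at h
  have h3 := congrArg (fun p => p.coeff 3) h
  have h4 := congrArg (fun p => p.coeff 4) h
  simp only [coeff_quartic] at h3 h4
  have h3' : -a' - a * (q ^ 2)⁻¹ * q = c * (-a - a' * (q ^ 2)⁻¹ * q) := by simpa using h3
  have h4' : q = c * q := by simpa using h4
  set u := q⁻¹ with hu_def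
  have hu : q * u = 1 := mul_inv_cancel₀ hq
  have h2i : (q ^ 2)⁻¹ = u ^ 2 := by rw [hu_def, inv_pow]
  rw [h2i] at h3'
  have hqu2 : q ^ 2 * u ^ 2 = 1 := by linear_combination (q * u + 1) * hu
  have hc : c = 1 := by
    have := mul_right_cancel₀ hq (show 1 * q = c * q by rw [one_mul]; exact h4')
    exact this.symm
  rw [hc, one_mul] at h3'
  have hq1' : q - 1 ≠ 0 := sub_ne_zero.mpr hq1
  apply mul_left_cancel₀ hq1'
  linear_combination q * h3' + (a - a') * hqu2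

/-- (F) `e = e' = 1` gives `a_q(f) = a_q(g)`. -/
theorem caseF (q ε ε' c : ℂ) (hq : q ≠ 0) (hq2 : q ^ 2 ≠ 1)
    (hε : ε ^ 2 = 1) (hε' : ε' ^ 2 = 1)
    (h : X ^ 1 * (X ^ 2 - C (ε * (q ^ 2)⁻¹) * X) * (1 - C ε' * X)
      = C c * (X ^ 1 * (1 - C ε * X) * (X ^ 2 - C (ε' * (q ^ 2)⁻¹) * X))) :
    ε = ε' := by
  have hL : (X ^ 1 * (X ^ 2 - C (ε * (q ^ 2)⁻¹) * X) * (1 - C ε' * X) : ℂ[X])
      = (C 0 + C 0 * X + C (-(ε * (q ^ 2)⁻¹)) * X ^ 2
          + C (1 + ε * (q ^ 2)⁻¹ * ε') * X ^ 3 + C (-ε') * X ^ 4) := by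
    simp only [map_neg, map_one, map_zero, map_mul, map_add, map_sub]; ring
  have hR : (C c * (X ^ 1 * (1 - C ε * X) * (X ^ 2 - C (ε' * (q ^ 2)⁻¹) * X)) : ℂ[X])
      = (C 0 + C 0 * X + C (-(c * (ε' * (q ^ 2)⁻¹))) * X ^ 2
          + C (c * (1 + ε' * (q ^ 2)⁻¹ * ε)) * X ^ 3 + C (-(c * ε)) * X ^ 4) := by
    simp only [map_neg, map_one, map_zero, map_mul, map_add, map_sub]; ring
  rw [hL, hR] at h
  have h3 := congrArg (fun p => p.coeff 3) h
  have h4 := congrArg (fun p => p.coeff 4) h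
  simp only [coeff_quartic] at h3 h4
  have h3' : 1 + ε * (q ^ 2)⁻¹ * ε' = c * (1 + ε' * (q ^ 2)⁻¹ * ε) := by simpa using h3
  have h4' : -ε' = -(c * ε) := by simpa using h4
  set u := q⁻¹ with hu_def
  have hu : q * u = 1 := mul_inv_cancel₀ hq
  have h2i : (q ^ 2)⁻¹ = u ^ 2 := by rw [hu_def, inv_pow]
  rw [h2i] at h3'
  have hqu2 : q ^ 2 * u ^ 2 = 1 := by linear_combination (q * u + 1) * hu
  rcases sq_eq_one_iff.mp hε with h1 | h1 <;> rcases sq_eq_one_iff.mp hε' with h1' | h1'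
  · rw [h1, h1']
  · exfalso
    subst h1 h1'
    have hc : c = -1 := by linear_combination h4'
    subst hc
    apply hq2
    -- `h3' : 1 - u² = -(1 - u²)`
    linear_combination (q ^ 2 / 2) * h3' + hqu2
  · exfalso
    subst h1 h1'
    have hc : c = -1 := by linear_combination (-1 : ℂ) * h4'
    subst hc
    apply hq2
    linear_combination (q ^ 2 / 2) * h3' + hqu2
  · rw [h1, h1']

end Fermat.Agent.Lib.Newform.H863.X8

end
-- ===== PACK-END Lib/Newform/H863/X8Poly.lean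

-- ===== PACK-BEGIN Lib/Newform/H263/MaxPrinciple.lean
section
/-
NEWFORM library (helper263) — part 1: a maximum principle for invariant functions on `ℍ`.

A continuous nonnegative function on the upper half plane which is invariant under an arithmetic
subgroup and tends to `0` at every cusp attains its maximum.  (Compactness of the truncated
fundamental domain of `SL(2, ℤ)`; no integration.)
-/


set_option autoImplicit false

open Filter Topology UpperHalfPlane Matrix.SpecialLinearGroup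
open scoped Modular MatrixGroups

namespace Fermat.Agent.Lib.Newform.H263

/-- A finite family of continuous nonnegative functions on `ℍ`, permuted by `SL(2, ℤ)` and all
tending to `0` at `i∞`, has a global maximum. -/
theorem exists_max_of_family {ι : Type*} [Finite ι] [Nonempty ι] [MulAction SL(2, ℤ) ι]
    (F : ℍ → ι → ℝ) (hc : ∀ c, Continuous (F · c)) (hnn : ∀ τ c, 0 ≤ F τ c)
    (h0 : ∀ c, Tendsto (F · c) atImInfty (𝓝 0))
    (hinv : ∀ (g : SL(2, ℤ)) τ c, F (g • τ) (g • c) = F τ c) :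
    ∃ τ₀ c₀, ∀ τ c, F τ c ≤ F τ₀ c₀ := by
  classical
  by_cases hz : ∀ τ c, F τ c ≤ 0
  · exact ⟨UpperHalfPlane.I, Classical.arbitrary ι, fun τ c ↦ (hz τ c).trans (hnn _ _)⟩
  push Not at hz
  obtain ⟨τ₁, c₁, hpos⟩ := hz
  -- a uniform height above which everything is smaller than `F τ₁ c₁`
  have hY : ∀ c, ∃ Y : ℝ, ∀ τ : ℍ, Y ≤ τ.im → F τ c < F τ₁ c₁ := fun c ↦ by
    have := (h0 c).eventually (gt_mem_nhds hpos)
    exact (atImInfty_mem _).mp this
  choose Yc hYc using hY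
  obtain ⟨Y, hYub⟩ : ∃ Y : ℝ, ∀ c, Yc c < Y := by
    obtain ⟨B, hB⟩ := (Set.finite_range Yc).bddAbove
    exact ⟨B + 1, fun c ↦ lt_of_le_of_lt (hB (Set.mem_range_self c)) (lt_add_one B)⟩
  have hsmall : ∀ τ : ℍ, Y ≤ τ.im → ∀ c, F τ c < F τ₁ c₁ := fun τ hτ c ↦
    hYc c τ ((hYub c).le.trans hτ)
  -- the truncated fundamental domain is compact and contains a translate of `τ₁`
  obtain ⟨g₁, hg₁⟩ := ModularGroup.exists_smul_mem_fd τ₁
  have hmem₁ : g₁ • τ₁ ∈ ModularGroup.truncatedFundamentalDomain Y := by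
    refine ⟨hg₁, ?_⟩
    by_contra hlt
    have := hsmall (g₁ • τ₁) (not_le.mp hlt).le (g₁ • c₁)
    rw [hinv] at this
    exact lt_irrefl _ this
  have hne : (ModularGroup.truncatedFundamentalDomain Y).Nonempty := ⟨_, hmem₁⟩
  have hmax : ∀ c, ∃ τ ∈ ModularGroup.truncatedFundamentalDomain Y,
      ∀ τ' ∈ ModularGroup.truncatedFundamentalDomain Y, F τ' c ≤ F τ c := fun c ↦ by
    obtain ⟨τ, hτ, hτmax⟩ := (ModularGroup.isCompact_truncatedFundamentalDomain Y).exists_isMaxOn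
      hne (hc c).continuousOn
    exact ⟨τ, hτ, fun τ' hτ' ↦ hτmax hτ'⟩
  choose τc hτc hτcmax using hmax
  obtain ⟨c₀, hc₀⟩ := Finite.exists_max (fun c ↦ F (τc c) c)
  have key : ∀ τ ∈ ModularGroup.truncatedFundamentalDomain Y, ∀ c, F τ c ≤ F (τc c₀) c₀ :=
    fun τ hτ c ↦ (hτcmax c τ hτ).trans (hc₀ c)
  refine ⟨τc c₀, c₀, fun τ c ↦ ?_⟩
  obtain ⟨g, hg⟩ := ModularGroup.exists_smul_mem_fd τ
  rw [← hinv g τ c]
  by_cases hle : (g • τ).im ≤ Y
  · exact key _ ⟨hg, hle⟩ _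
  · refine (hsmall (g • τ) (not_le.mp hle).le (g • c)).le.trans ?_
    rw [← hinv g₁ τ₁ c₁]
    exact key _ hmem₁ _

/-- A continuous nonnegative function on `ℍ`, invariant under a finite-index subgroup of
`SL(2, ℤ)` and tending to `0` at every cusp, attains its maximum. -/
theorem exists_max_of_subgroup_invariant_SL {φ : ℍ → ℝ} (hc : Continuous φ) (hnn : ∀ τ, 0 ≤ φ τ)
    (h0 : ∀ g : SL(2, ℤ), Tendsto (fun τ ↦ φ (g • τ)) atImInfty (𝓝 0))
    {Γ : Subgroup SL(2, ℤ)} [Γ.FiniteIndex] (hinv : ∀ g ∈ Γ, ∀ τ, φ (g • τ) = φ τ) :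
    ∃ τ₀, ∀ τ, φ τ ≤ φ τ₀ := by
  let F τ : SL(2, ℤ) ⧸ Γ → ℝ := Quotient.lift (fun g ↦ φ (g⁻¹ • τ)) fun g h hgh ↦ by
    obtain ⟨j, hj, hj'⟩ : ∃ j ∈ Γ, h = g * j := by
      rw [← Quotient.eq_iff_equiv, Quotient.eq, QuotientGroup.leftRel_apply] at hgh
      exact ⟨g⁻¹ * h, hgh, (mul_inv_cancel_left g h).symm⟩
    simp [-ModularGroup.sl_moeb, hj', mul_smul, hinv j⁻¹ (inv_mem hj)]
  have hF_cont γ : Continuous (F · γ) := QuotientGroup.induction_on γ fun g ↦ by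
    simp only [ModularGroup.sl_moeb, F]
    fun_prop
  have hF_inv (g : SL(2, ℤ)) τ γ : F (g • τ) (g • γ) = F τ γ := by
    induction γ using QuotientGroup.induction_on
    simp [-ModularGroup.sl_moeb, F, mul_smul]
  have hF_infty γ : Tendsto (F · γ) atImInfty (𝓝 0) := γ.induction_on fun h ↦ h0 h⁻¹
  have hF_nn τ γ : 0 ≤ F τ γ := by
    induction γ using QuotientGroup.induction_on
    exact hnn _
  have : Finite (SL(2, ℤ) ⧸ Γ) := Subgroup.finite_quotient_of_finiteIndex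
  obtain ⟨τ₀, c₀, hmax⟩ := exists_max_of_family F hF_cont hF_nn hF_infty hF_inv
  induction c₀ using QuotientGroup.induction_on with
  | H g₀ =>
    refine ⟨g₀⁻¹ • τ₀, fun τ ↦ ?_⟩
    have := hmax τ ((1 : SL(2, ℤ)) : SL(2, ℤ) ⧸ Γ)
    simpa [-ModularGroup.sl_moeb, F] using this

/-- A continuous nonnegative function on `ℍ`, invariant under an arithmetic subgroup of
`GL(2, ℝ)` and tending to `0` at every cusp, attains its maximum. -/
theorem exists_max_of_subgroup_invariant {φ : ℍ → ℝ} (hc : Continuous φ) (hnn : ∀ τ, 0 ≤ φ τ)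
    (h0 : ∀ g : SL(2, ℤ), Tendsto (fun τ ↦ φ (g • τ)) atImInfty (𝓝 0))
    {Γ : Subgroup (GL (Fin 2) ℝ)} [Γ.IsArithmetic] (hinv : ∀ g ∈ Γ, ∀ τ, φ (g • τ) = φ τ) :
    ∃ τ₀, ∀ τ, φ τ ≤ φ τ₀ :=
  exists_max_of_subgroup_invariant_SL hc hnn h0 (Γ := Γ.comap (mapGL ℝ)) (hinv ·)

end Fermat.Agent.Lib.Newform.H263

end
-- ===== PACK-END Lib/Newform/H263/MaxPrinciple.lean

-- ===== PACK-BEGIN S36/H586/StepAB.lean
section


/-!
# S36 engine, ALG3 cell NR2-ASM (helper586): norms ⇒ the Kummer function is completely split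

Mathlib only.  Abstract setting of the three vertical valuations of `F = K(X₀(q² M'))` over the
two vertical valuations of `F' = K(X₀(q M'))` along the two degeneracy embeddings `α`, `β`.

* `PU V u`         : `u ∈ 1 + 𝔪_V` (principal unit of the valuation ring `V`);
* `IsOrd V t y a`  : `v_V(y) = v_V(t) ^ a` (`y` has order `a` with respect to `t`);
* `NormTable φ N q w' π Os Oi Vu Vr Vi` : the norm calculus of ONE embedding `φ : F' → F` of
  degree `q` (norm `N`): over `Os` lie `Vu` (`e = f = 1`) and `Vr` (`e = q - 1`, `f = 1`,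
  uniformiser `π`), over `Oi` lies `Vi` alone (`e = 1`, `f = q` purely inseparable).
  The fields are exactly the outputs of the cells MOD3 (lying over, residue degrees) and
  NV / NR (norm–valuation and norm–residue formulas);
* `stepAB` : if `N_α f` and `N_β f` are of the form `w' ^ s * g ^ m` with `gcd(q, m) = 1`, then
  `f ^ (q² - 1) = w ^ s * G ^ m * u` with `u ≡ 1` at `V_FF`, `V_mid`, `V_VV`.

For `α` the table is `(Os, Oi | Vu, Vr, Vi) = (V₁', V₂' | V_FF, V_mid, V_VV)`, for `β` it is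
`(V₂', V₁' | V_VV, V_mid, V_FF)`.
-/

set_option autoImplicit false

namespace Fermat.Agent.S36.H586

/-! ## Principal units -/

section PUnit

variable {F : Type*} [Field F] (V : ValuationSubring F)

/-- `u ∈ 1 + 𝔪_V`. -/
def PU (u : F) : Prop := V.valuation (u - 1) < 1

variable {V}

theorem PU.val_eq_one {u : F} (h : PU V u) : V.valuation u = 1 := by
  have h1 : u = 1 + (u - 1) := by ring
  rw [h1]
  exact Valuation.map_one_add_of_lt _ h

theorem PU.ne_zero {u : F} (h : PU V u) : u ≠ 0 := by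
  rintro rfl
  have := h.val_eq_one
  rw [map_zero] at this
  exact zero_ne_one this

theorem PU.one : PU V (1 : F) := by
  unfold PU
  rw [sub_self, map_zero]
  exact zero_lt_one

theorem PU.mul {u v : F} (hu : PU V u) (hv : PU V v) : PU V (u * v) := by
  unfold PU
  have h1 : u * v - 1 = (u - 1) * v + (v - 1) := by ring
  rw [h1]
  refine Valuation.map_add_lt _ ?_ hv
  rw [map_mul, hv.val_eq_one, mul_one]
  exact hu

theorem PU.inv {u : F} (hu : PU V u) : PU V u⁻¹ := by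
  unfold PU
  have hu0 := hu.ne_zero
  have h1 : u⁻¹ - 1 = -((u - 1) * u⁻¹) := by
    field_simp
    ring
  rw [h1, Valuation.map_neg, map_mul, map_inv₀, hu.val_eq_one, inv_one, mul_one]
  exact hu

theorem PU.div {u v : F} (hu : PU V u) (hv : PU V v) : PU V (u / v) := by
  rw [div_eq_mul_inv]
  exact hu.mul hv.inv

theorem PU.pow {u : F} (hu : PU V u) (n : ℕ) : PU V (u ^ n) := by
  induction n with
  | zero => rw [pow_zero]; exact PU.one
  | succ n ih => rw [pow_succ]; exact ih.mul hu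

theorem PU.zpow {u : F} (hu : PU V u) (n : ℤ) : PU V (u ^ n) := by
  cases n with
  | ofNat n => rw [Int.ofNat_eq_natCast, zpow_natCast]; exact hu.pow n
  | negSucc n => rw [zpow_negSucc]; exact (hu.pow _).inv

/-- `x ≡ y mod 𝔪_V`, `y` a unit  ⟹  `x / y ∈ 1 + 𝔪_V`. -/
theorem pu_div_of_sub {x y : F} (hy : V.valuation y = 1) (h : V.valuation (x - y) < 1) :
    PU V (x / y) := by
  unfold PU
  have hy0 : y ≠ 0 := by
    rintro rfl
    rw [map_zero] at hy
    exact zero_ne_one hy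
  have h1 : x / y - 1 = (x - y) * y⁻¹ := by
    field_simp
  rw [h1, map_mul, map_inv₀, hy, inv_one, mul_one]
  exact h

/-- `x / y ∈ 1 + 𝔪_V`, `y` a unit  ⟹  `x ≡ y mod 𝔪_V`. -/
theorem sub_of_pu_div {x y : F} (hy : V.valuation y = 1) (h : PU V (x / y)) :
    V.valuation (x - y) < 1 := by
  unfold PU at h
  have hy0 : y ≠ 0 := by
    rintro rfl
    rw [map_zero] at hy
    exact zero_ne_one hy
  have h1 : x - y = (x / y - 1) * y := by
    field_simp
  rw [h1, map_mul, hy, mul_one]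
  exact h

theorem PU.congr_mul {u x y : F} (hu : PU V u) (hxy : PU V (x / y)) (hy : y ≠ 0) :
    PU V (u * x / y) := by
  have : u * x / y = u * (x / y) := by field_simp
  rw [this]
  exact hu.mul hxy

end PUnit

/-! ## Orders with respect to a uniformiser -/

section Ord

variable {F : Type*} [Field F] (V : ValuationSubring F)

/-- `v_V(y) = v_V(t) ^ a`. -/
def IsOrd (t y : F) (a : ℤ) : Prop := V.valuation y = V.valuation t ^ a

variable {V} {t : F}

theorem val_ne_zero_of_ne_zero {x : F} (hx : x ≠ 0) : V.valuation x ≠ 0 :=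
  (Valuation.ne_zero_iff _).2 hx

theorem IsOrd.ne_zero (ht0 : t ≠ 0) {y : F} {a : ℤ} (h : IsOrd V t y a) : y ≠ 0 := by
  rintro rfl
  unfold IsOrd at h
  rw [map_zero] at h
  exact zpow_ne_zero a (val_ne_zero_of_ne_zero ht0) h.symm

theorem IsOrd.unique (ht0 : t ≠ 0) (ht : V.valuation t < 1) {y : F} {a b : ℤ}
    (ha : IsOrd V t y a) (hb : IsOrd V t y b) : a = b := by
  unfold IsOrd at ha hb
  have h0 : 0 < V.valuation t := zero_lt_iff.2 (val_ne_zero_of_ne_zero ht0)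
  exact zpow_right_injective₀ h0 ht.ne (ha.symm.trans hb)

theorem IsOrd.self : IsOrd V t t 1 := by
  unfold IsOrd
  rw [zpow_one]

theorem IsOrd.one : IsOrd V t 1 0 := by
  unfold IsOrd
  rw [map_one, zpow_zero]

theorem IsOrd.mul (ht0 : t ≠ 0) {x y : F} {a b : ℤ} (hx : IsOrd V t x a) (hy : IsOrd V t y b) :
    IsOrd V t (x * y) (a + b) := by
  unfold IsOrd at *
  rw [map_mul, hx, hy, zpow_add₀ (val_ne_zero_of_ne_zero ht0)]

theorem IsOrd.inv {x : F} {a : ℤ} (hx : IsOrd V t x a) : IsOrd V t x⁻¹ (-a) := by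
  unfold IsOrd at *
  rw [map_inv₀, hx, zpow_neg]

theorem IsOrd.pow {x : F} {a : ℤ} (hx : IsOrd V t x a) (n : ℕ) :
    IsOrd V t (x ^ n) (n * a) := by
  unfold IsOrd at *
  rw [map_pow, hx, ← zpow_natCast, ← zpow_mul, mul_comm]

theorem IsOrd.zpow {x : F} {a : ℤ} (hx : IsOrd V t x a) (n : ℤ) :
    IsOrd V t (x ^ n) (n * a) := by
  unfold IsOrd at *
  rw [map_zpow₀, hx, ← zpow_mul, mul_comm]

theorem IsOrd.congr {x : F} {a b : ℤ} (hx : IsOrd V t x a) (hab : a = b) : IsOrd V t x b :=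
  hab ▸ hx

theorem IsOrd.val_eq_one {x : F} (hx : IsOrd V t x 0) : V.valuation x = 1 := by
  unfold IsOrd at hx
  rw [hx, zpow_zero]

theorem isOrd_zero_of_val {x : F} (hx : V.valuation x = 1) : IsOrd V t x 0 := by
  unfold IsOrd
  rw [hx, zpow_zero]

/-- change of uniformiser: `v(s) = v(t) ^ e`. -/
theorem IsOrd.of_ram {s x : F} {e : ℤ} (hs : IsOrd V t s e) {a : ℤ} (hx : IsOrd V s x a) :
    IsOrd V t x (a * e) := by
  unfold IsOrd at *
  rw [hx, hs, ← zpow_mul, mul_comm]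

end Ord

/-! ## Lying over -/

section Over

variable {F' F : Type*} [Field F'] [Field F] {φ : F' →+* F} {O : ValuationSubring F'}
  {V : ValuationSubring F}

theorem over_val_le_one (hov : ∀ a : F', φ a ∈ V ↔ a ∈ O) (a : F') :
    V.valuation (φ a) ≤ 1 ↔ O.valuation a ≤ 1 := by
  rw [ValuationSubring.valuation_le_one_iff, ValuationSubring.valuation_le_one_iff]
  exact hov a

theorem over_val_lt_one (hov : ∀ a : F', φ a ∈ V ↔ a ∈ O) (a : F') :
    V.valuation (φ a) < 1 ↔ O.valuation a < 1 := by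
  rw [← ValuationSubring.mem_nonunits_iff, ← ValuationSubring.mem_nonunits_iff,
    ValuationSubring.mem_nonunits_iff_or, ValuationSubring.mem_nonunits_iff_or, ← map_inv₀,
    hov, map_eq_zero]

theorem over_val_eq_one (hov : ∀ a : F', φ a ∈ V ↔ a ∈ O) (a : F') :
    V.valuation (φ a) = 1 ↔ O.valuation a = 1 := by
  constructor
  · intro h
    exact le_antisymm ((over_val_le_one hov a).1 h.le)
      (not_lt.1 fun h' => (ne_of_lt ((over_val_lt_one hov a).2 h')) h)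
  · intro h
    exact le_antisymm ((over_val_le_one hov a).2 h.le)
      (not_lt.1 fun h' => (ne_of_lt ((over_val_lt_one hov a).1 h')) h)

theorem over_pu (hov : ∀ a : F', φ a ∈ V ↔ a ∈ O) (a : F') : PU V (φ a) ↔ PU O a := by
  unfold PU
  rw [← map_one φ, ← map_sub]
  exact over_val_lt_one hov _

theorem over_isOrd (hov : ∀ a : F', φ a ∈ V ↔ a ∈ O) {t : F'} (a : F') (n : ℤ) :
    IsOrd O t a n → IsOrd V (φ t) (φ a) n := by
  intro h
  unfold IsOrd at *
  by_cases ht : t = 0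
  · subst ht
    rw [map_zero, map_zero] at *
    by_cases hn : n = 0
    · subst hn
      rw [zpow_zero] at *
      exact (over_val_eq_one hov a).2 h
    · rw [zero_zpow n hn] at *
      rw [(Valuation.zero_iff _).1 h, map_zero, map_zero]
  have h1 : O.valuation (a * (t ^ n)⁻¹) = 1 := by
    rw [map_mul, map_inv₀, map_zpow₀, h]
    exact mul_inv_cancel₀ (zpow_ne_zero n (val_ne_zero_of_ne_zero ht))
  have h2 := (over_val_eq_one hov _).2 h1
  rw [map_mul, map_inv₀, map_zpow₀, map_mul, map_inv₀, map_zpow₀] at h2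
  have h3 : V.valuation (φ t) ^ n ≠ 0 :=
    zpow_ne_zero n (val_ne_zero_of_ne_zero ((map_ne_zero φ).2 ht))
  field_simp at h2
  exact h2

end Over

/-! ## Multiplicative functions `N : F → F'` -/

section NormFn

variable {F' F : Type*} [Field F'] [Field F] {N : F → F'}

theorem nfn_ne_zero (h1 : N 1 = 1) (hmul : ∀ x y, N (x * y) = N x * N y) {x : F} (hx : x ≠ 0) :
    N x ≠ 0 := by
  intro h
  have h2 : N (x * x⁻¹) = N x * N x⁻¹ := hmul x x⁻¹
  rw [mul_inv_cancel₀ hx, h1, h, zero_mul] at h2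
  exact one_ne_zero h2

theorem nfn_inv (h1 : N 1 = 1) (hmul : ∀ x y, N (x * y) = N x * N y) {x : F} (hx : x ≠ 0) :
    N x⁻¹ = (N x)⁻¹ := by
  have h2 : N (x * x⁻¹) = N x * N x⁻¹ := hmul x x⁻¹
  rw [mul_inv_cancel₀ hx, h1] at h2
  exact eq_inv_of_mul_eq_one_right h2.symm

theorem nfn_pow (h1 : N 1 = 1) (hmul : ∀ x y, N (x * y) = N x * N y) (x : F) (n : ℕ) :
    N (x ^ n) = N x ^ n := by
  induction n with
  | zero => rw [pow_zero, pow_zero, h1]
  | succ n ih => rw [pow_succ, pow_succ, hmul, ih]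

theorem nfn_zpow (h1 : N 1 = 1) (hmul : ∀ x y, N (x * y) = N x * N y) {x : F} (hx : x ≠ 0)
    (n : ℤ) : N (x ^ n) = N x ^ n := by
  cases n with
  | ofNat n => rw [Int.ofNat_eq_natCast, zpow_natCast, zpow_natCast, nfn_pow h1 hmul]
  | negSucc n =>
    rw [zpow_negSucc, zpow_negSucc, nfn_inv h1 hmul (pow_ne_zero _ hx), nfn_pow h1 hmul]

end NormFn

/-! ## Small lemmas -/

section Small

variable {F : Type*} [Field F] {V : ValuationSubring F}

theorem val_eq_one_of_pow {x : F} {m : ℕ} (hm : 0 < m) (h : V.valuation (x ^ m) = 1) :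
    V.valuation x = 1 := by
  rw [map_pow] at h
  exact (pow_eq_one_iff_of_nonneg zero_le hm.ne').1 h

/-- A unit of order `0` of the form `w ^ e * G ^ m` is an `m`-th power. -/
theorem exists_pow_eq_of_isOrd_zero {w : F} (hw0 : w ≠ 0) (hw : V.valuation w < 1)
    (hord : ∀ y : F, y ≠ 0 → ∃ a : ℤ, IsOrd V w y a) {m : ℕ}
    {x : F} (hx : IsOrd V w x 0) {e : ℤ} {G : F} (hG : G ≠ 0) (hxe : x = w ^ e * G ^ m) :
    ∃ h : F, h ≠ 0 ∧ x = h ^ m := by
  obtain ⟨c, hc⟩ := hord G hG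
  have h1 : IsOrd V w x (e * 1 + m * c) := by
    rw [hxe]
    exact ((IsOrd.self).zpow e).mul hw0 (hc.pow m)
  have h2 : (0 : ℤ) = e * 1 + m * c := IsOrd.unique hw0 hw hx h1
  have h3 : e = (-c) * (m : ℤ) := by linear_combination -h2
  refine ⟨w ^ (-c) * G, mul_ne_zero (zpow_ne_zero _ hw0) hG, ?_⟩
  rw [hxe, mul_pow, ← zpow_natCast (w ^ (-c)) m, ← zpow_mul, ← h3]

/-- `x ^ q ∈ (Fˣ)^m · (1 + 𝔪)`, `gcd(q, m) = 1`  ⟹  `x ∈ (Fˣ)^m · (1 + 𝔪)`. -/
theorem exists_pu_div_pow_of_coprime {q m : ℕ} (hqm : Nat.Coprime q m) {x y : F}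
    (hx : x ≠ 0) (hy : y ≠ 0) (h : PU V (x ^ q / y ^ m)) :
    ∃ G : F, G ≠ 0 ∧ PU V (x / G ^ m) := by
  obtain ⟨a, b, hab⟩ := Nat.isCoprime_iff_coprime.2 hqm
  refine ⟨y ^ a * x ^ b, mul_ne_zero (zpow_ne_zero _ hy) (zpow_ne_zero _ hx), ?_⟩
  have h1 : x / (y ^ a * x ^ b) ^ m = (x ^ q / y ^ m) ^ a := by
    have hx1 : x = (x ^ q) ^ a * (x ^ b) ^ m := by
      rw [← zpow_natCast x q, ← zpow_natCast (x ^ b) m, ← zpow_mul, ← zpow_mul,
        ← zpow_add₀ hx, mul_comm (q : ℤ) a, hab, zpow_one]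
    have hyb : (y ^ a * x ^ b) ^ m = (y ^ m) ^ a * (x ^ b) ^ m := by
      rw [mul_pow, ← zpow_natCast (y ^ a) m, ← zpow_mul, mul_comm a (m : ℤ), zpow_mul,
        zpow_natCast]
    rw [hyb, div_zpow]
    have h2 : (y ^ m) ^ a ≠ 0 := zpow_ne_zero _ (pow_ne_zero _ hy)
    have h3 : (x ^ b) ^ m ≠ 0 := pow_ne_zero _ (zpow_ne_zero _ hx)
    rw [div_eq_div_iff (mul_ne_zero h2 h3) h2]
    calc x * (y ^ m) ^ a = ((x ^ q) ^ a * (x ^ b) ^ m) * (y ^ m) ^ a := by rw [← hx1]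
      _ = (x ^ q) ^ a * ((y ^ m) ^ a * (x ^ b) ^ m) := by ring
  rw [h1]
  exact h.zpow a

end Small

/-! ## The norm table of one embedding -/

section Table

variable {F' F : Type*} [Field F'] [Field F]

/-- The norm calculus of one embedding `φ : F' → F` of degree `q` with norm `N`.
Over `Os` lie `Vu` (`e = f = 1`) and `Vr` (`e = q - 1`, `f = 1`, uniformiser `π`); over `Oi`
lies `Vi` alone (`e = 1`, `f = q`, purely inseparable).  `w'` is a common uniformiser of `Os`,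
`Oi` (and `φ w'` of `Vu`, `Vi`). -/
structure NormTable (φ : F' →+* F) (N : F → F') (q : ℕ) (w' : F') (π : F)
    (Os Oi : ValuationSubring F') (Vu Vr Vi : ValuationSubring F) : Prop where
  norm_one : N 1 = 1
  norm_mul : ∀ x y : F, N (x * y) = N x * N y
  norm_w : N (φ w') = w' ^ q
  over_u : ∀ a : F', φ a ∈ Vu ↔ a ∈ Os
  over_r : ∀ a : F', φ a ∈ Vr ↔ a ∈ Os
  over_i : ∀ a : F', φ a ∈ Vi ↔ a ∈ Oi
  res_u : ∀ y : F, Vu.valuation y = 1 → ∃ a : F', Vu.valuation (y - φ a) < 1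
  res_r : ∀ y : F, Vr.valuation y = 1 → ∃ a : F', Vr.valuation (y - φ a) < 1
  res_i : ∀ y : F, Vi.valuation y = 1 → ∃ c : F', Vi.valuation (y ^ q - φ c) < 1
  norm_s : ∀ (y : F) (a b : F'), Vu.valuation y = 1 → Vr.valuation y = 1 →
    Vu.valuation (y - φ a) < 1 → Vr.valuation (y - φ b) < 1 →
    Os.valuation (N y - a * b ^ (q - 1)) < 1
  norm_i : ∀ (y : F) (c : F'), Vi.valuation y = 1 → Vi.valuation (y ^ q - φ c) < 1 →
    Oi.valuation (N y - c) < 1
  val_s : ∀ (y : F) (a b : ℤ), IsOrd Vu (φ w') y a → IsOrd Vr π y b →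
    IsOrd Os w' (N y) (a + b)
  val_i : ∀ (y : F) (c : ℤ), IsOrd Vi (φ w') y c → IsOrd Oi w' (N y) (q * c)

variable {φ : F' →+* F} {N : F → F'} {q : ℕ} {w' : F'} {π : F}
  {Os Oi : ValuationSubring F'} {Vu Vr Vi : ValuationSubring F}

theorem ne_of_val {K : Type*} [Field K] {W : ValuationSubring K} {z : K}
    (hz : W.valuation z = 1) : z ≠ 0 := by
  intro h0
  rw [h0, map_zero] at hz
  exact zero_ne_one hz

theorem val_eq_one_of_sub_lt {V : ValuationSubring F} {x y : F} (hx : V.valuation x = 1)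
    (h : V.valuation (x - y) < 1) : V.valuation y = 1 := by
  have h1 : y = x + -(x - y) := by ring
  rw [h1]
  have h2 : V.valuation (-(x - y)) < V.valuation x := by
    rw [Valuation.map_neg, hx]
    exact h
  rw [Valuation.map_add_eq_of_lt_left _ h2, hx]

/-- The purely inseparable place: if `N y` is an `m`-th power of a unit then the residue of `y`
at `Vi` is an `m`-th power (`gcd(q, m) = 1`). -/
theorem NormTable.pu_insep (T : NormTable φ N q w' π Os Oi Vu Vr Vi) {m : ℕ}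
    (hqm : Nat.Coprime q m) {y : F} (hy : Vi.valuation y = 1) {h : F'}
    (hh : Oi.valuation h = 1) (hN : N y = h ^ m) :
    ∃ G : F, G ≠ 0 ∧ PU Vi (y / G ^ m) := by
  obtain ⟨c, hc⟩ := T.res_i y hy
  have h1 := T.norm_i y c hy hc
  rw [hN] at h1
  have h2 : Vi.valuation (φ (h ^ m - c)) < 1 := (over_val_lt_one T.over_i _).2 h1
  have h3 : Vi.valuation (y ^ q - (φ h) ^ m) < 1 := by
    have e : y ^ q - (φ h) ^ m = (y ^ q - φ c) + -(φ (h ^ m - c)) := by
      rw [map_sub, map_pow]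
      ring
    rw [e]
    refine Valuation.map_add_lt _ hc ?_
    rw [Valuation.map_neg]
    exact h2
  have hφh : Vi.valuation (φ h) = 1 := (over_val_eq_one T.over_i h).2 hh
  have hφhm : Vi.valuation ((φ h) ^ m) = 1 := by rw [map_pow, hφh, one_pow]
  have hy0 : y ≠ 0 := by
    rintro rfl
    rw [map_zero] at hy
    exact zero_ne_one hy
  have hφh0 : φ h ≠ 0 := by
    intro h0
    rw [h0, map_zero] at hφh
    exact zero_ne_one hφh
  exact exists_pu_div_pow_of_coprime hqm hy0 hφh0 (pu_div_of_sub hφhm h3)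

/-- The split place: if `N y = h ^ m` and the residue of `y` at `Vu` is an `m`-th power, then the
residue of `y ^ (q - 1)` at `Vr` is an `m`-th power. -/
theorem NormTable.pu_split (T : NormTable φ N q w' π Os Oi Vu Vr Vi) {m : ℕ}
    {y : F} (hyu : Vu.valuation y = 1) (hyr : Vr.valuation y = 1) {h : F'}
    (hh : Os.valuation h = 1) (hN : N y = h ^ m)
    {Gu : F} (hGu1 : Vu.valuation Gu = 1) (hGu : PU Vu (y / Gu ^ m)) :
    ∃ G : F, G ≠ 0 ∧ Vr.valuation G = 1 ∧ PU Vr (y ^ (q - 1) / G ^ m) := by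
  obtain ⟨a, ha⟩ := T.res_u y hyu
  obtain ⟨b, hb⟩ := T.res_r y hyr
  obtain ⟨g', hg'⟩ := T.res_u Gu hGu1
  have h1 := T.norm_s y a b hyu hyr ha hb
  rw [hN] at h1
  -- units
  have hφa : Vu.valuation (φ a) = 1 := val_eq_one_of_sub_lt hyu ha
  have hφb : Vr.valuation (φ b) = 1 := val_eq_one_of_sub_lt hyr hb
  have hφg : Vu.valuation (φ g') = 1 := val_eq_one_of_sub_lt hGu1 hg'
  have ha1 : Os.valuation a = 1 := (over_val_eq_one T.over_u a).1 hφa
  have hb1 : Os.valuation b = 1 := (over_val_eq_one T.over_r b).1 hφb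
  have hg1 : Os.valuation g' = 1 := (over_val_eq_one T.over_u g').1 hφg
  have ha0 : a ≠ 0 := ne_of_val ha1
  have hb0 : b ≠ 0 := ne_of_val hb1
  have hg0 : g' ≠ 0 := ne_of_val hg1
  have hh0 : h ≠ 0 := ne_of_val hh
  have hy0 : y ≠ 0 := ne_of_val hyu
  have hGu0 : Gu ≠ 0 := ne_of_val hGu1
  have hφa0 : φ a ≠ 0 := ne_of_val hφa
  have hφg0 : φ g' ≠ 0 := ne_of_val hφg
  -- `a ≡ g' ^ m` at `Os`
  have p1 : PU Vu (y / φ a) := pu_div_of_sub hφa ha
  have p2 : PU Vu (Gu / φ g') := pu_div_of_sub hφg hg'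
  have p3 : PU Vu (φ (a / g' ^ m)) := by
    have e : φ (a / g' ^ m) = (y / φ a)⁻¹ * (y / Gu ^ m) * (Gu / φ g') ^ m := by
      rw [map_div₀, map_pow, div_pow]
      field_simp
    rw [e]
    exact (p1.inv.mul hGu).mul (p2.pow m)
  have p4 : PU Os (a / g' ^ m) := (over_pu T.over_u _).1 p3
  -- `h ^ m ≡ a * b ^ (q - 1)` at `Os`
  have hab1 : Os.valuation (a * b ^ (q - 1)) = 1 := by
    rw [map_mul, map_pow, ha1, hb1, one_pow, one_mul]
  have p5 : PU Os (h ^ m / (a * b ^ (q - 1))) := pu_div_of_sub hab1 h1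
  -- `b ^ (q - 1) ≡ (h / g') ^ m` at `Os`
  have p6 : PU Os (b ^ (q - 1) / (h / g') ^ m) := by
    have e : b ^ (q - 1) / (h / g') ^ m = (h ^ m / (a * b ^ (q - 1)))⁻¹ * (a / g' ^ m)⁻¹ := by
      rw [div_pow]
      field_simp
    rw [e]
    exact p5.inv.mul p4.inv
  have p7 : PU Vr (φ (b ^ (q - 1) / (h / g') ^ m)) := (over_pu T.over_r _).2 p6
  have p8 : PU Vr (y / φ b) := pu_div_of_sub hφb hb
  refine ⟨φ (h / g'), (map_ne_zero φ).2 (div_ne_zero hh0 hg0), ?_, ?_⟩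
  · rw [over_val_eq_one T.over_r, map_div₀, hh, hg1, div_one]
  · have hφb0 : φ b ≠ 0 := ne_of_val hφb
    have hφh0 : φ h ≠ 0 := (map_ne_zero φ).2 hh0
    have hZ0 : φ (h / g') ≠ 0 := (map_ne_zero φ).2 (div_ne_zero hh0 hg0)
    have e : y ^ (q - 1) / φ (h / g') ^ m =
        (y / φ b) ^ (q - 1) * φ (b ^ (q - 1) / (h / g') ^ m) := by
      rw [map_div₀ φ (b ^ (q - 1)), map_pow, map_pow, div_pow]
      field_simp
    rw [e]
    exact (p8.pow _).mul p7

/-- Normalisation of the norm: `f₁ = f ^ k / (w ^ t * g₀ ^ m)` a unit at the split places and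
`N f = w' ^ s * g ^ m`  ⟹  `N f₁` is the `m`-th power of a unit of `Os` and of `Oi`. -/
theorem NormTable.norm_unit_pow (T : NormTable φ N q w' π Os Oi Vu Vr Vi) {m : ℕ} (hm : 0 < m)
    (hw'0 : w' ≠ 0) (hwOs : Os.valuation w' < 1)
    (hordOs : ∀ y : F', y ≠ 0 → ∃ a : ℤ, IsOrd Os w' y a)
    {f g₀ : F} (hg₀ : g₀ ≠ 0) {s : ℤ} {g : F'} (hg : g ≠ 0)
    (hN : N f = w' ^ s * g ^ m) (k : ℕ) (t : ℤ)
    (hu : Vu.valuation (f ^ k * ((φ w') ^ t)⁻¹ * (g₀ ^ m)⁻¹) = 1)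
    (hr : Vr.valuation (f ^ k * ((φ w') ^ t)⁻¹ * (g₀ ^ m)⁻¹) = 1)
    (hi : Vi.valuation (f ^ k * ((φ w') ^ t)⁻¹ * (g₀ ^ m)⁻¹) = 1) :
    ∃ h : F', Os.valuation h = 1 ∧ Oi.valuation h = 1 ∧
      N (f ^ k * ((φ w') ^ t)⁻¹ * (g₀ ^ m)⁻¹) = h ^ m := by
  have hφw0 : φ w' ≠ 0 := (map_ne_zero φ).2 hw'0
  have hNg₀ : N g₀ ≠ 0 := nfn_ne_zero T.norm_one T.norm_mul hg₀
  have hNf₁ : N (f ^ k * ((φ w') ^ t)⁻¹ * (g₀ ^ m)⁻¹) =
      w' ^ (s * k - q * t) * (g ^ k * (N g₀)⁻¹) ^ m := by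
    rw [T.norm_mul, T.norm_mul, nfn_pow T.norm_one T.norm_mul,
      nfn_inv T.norm_one T.norm_mul (zpow_ne_zero _ hφw0),
      nfn_zpow T.norm_one T.norm_mul hφw0,
      nfn_inv T.norm_one T.norm_mul (pow_ne_zero _ hg₀), nfn_pow T.norm_one T.norm_mul,
      T.norm_w, hN, zpow_sub₀ hw'0, mul_pow, mul_pow, inv_pow, ← zpow_natCast (w' ^ s) k,
      ← zpow_mul]
    have e1 : (w' ^ q) ^ t = w' ^ ((q : ℤ) * t) := by
      rw [← zpow_natCast w' q, ← zpow_mul]
    rw [e1]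
    have h1 : w' ^ ((q : ℤ) * t) ≠ 0 := zpow_ne_zero _ hw'0
    have h2 : N g₀ ^ m ≠ 0 := pow_ne_zero _ hNg₀
    field_simp
    rw [← pow_mul, ← pow_mul, mul_comm m k]
  have h0 : IsOrd Os w' (N (f ^ k * ((φ w') ^ t)⁻¹ * (g₀ ^ m)⁻¹)) 0 := by
    have := T.val_s _ 0 0 (isOrd_zero_of_val hu) (isOrd_zero_of_val hr)
    rwa [add_zero] at this
  obtain ⟨h, hh0, hh⟩ := exists_pow_eq_of_isOrd_zero hw'0 hwOs hordOs h0
    (mul_ne_zero (pow_ne_zero k hg) (inv_ne_zero hNg₀)) hNf₁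
  refine ⟨h, ?_, ?_, hh⟩
  · apply val_eq_one_of_pow hm
    rw [← hh]
    exact h0.val_eq_one
  · apply val_eq_one_of_pow hm
    rw [← hh]
    have := T.val_i _ 0 (isOrd_zero_of_val hi)
    rw [mul_zero] at this
    exact this.val_eq_one

end Table

/-! ## The theorem -/

section Main

variable {F' F : Type*} [Field F'] [Field F]

/-- **NR2-ASM.**  Three vertical valuations `V_FF`, `V_mid`, `V_VV` of `F` over the two vertical
valuations `V₁`, `V₂` of `F'`, with the norm tables of `α` and `β`.  If the norms of `f` along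
`α` and `β` are of the form `w' ^ s * g ^ m`, `gcd(q, m) = 1`, then
`f ^ (q² - 1) = w ^ s * G ^ m * u` with `u ≡ 1` at the three vertical valuations. -/
theorem stepAB
    (α β : F' →+* F) (Nα Nβ : F → F') (q m : ℕ) (hq : 0 < q) (hm : 0 < m)
    (hqm : Nat.Coprime q m)
    (w' : F') (w π : F) (hαw : α w' = w) (hβw : β w' = w)
    (V1 V2 : ValuationSubring F') (VFF Vmid VVV : ValuationSubring F)
    (Tα : NormTable α Nα q w' π V1 V2 VFF Vmid VVV)
    (Tβ : NormTable β Nβ q w' π V2 V1 VVV Vmid VFF)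
    (hw'0 : w' ≠ 0) (hw1 : V1.valuation w' < 1) (hw2 : V2.valuation w' < 1)
    (hπ0 : π ≠ 0)
    (hram : IsOrd Vmid π w ((q : ℤ) - 1))
    (hordFF : ∀ y : F, y ≠ 0 → ∃ a : ℤ, IsOrd VFF w y a)
    (hordmid : ∀ y : F, y ≠ 0 → ∃ a : ℤ, IsOrd Vmid π y a)
    (hordVV : ∀ y : F, y ≠ 0 → ∃ a : ℤ, IsOrd VVV w y a)
    (hord1 : ∀ y : F', y ≠ 0 → ∃ a : ℤ, IsOrd V1 w' y a)
    (hord2 : ∀ y : F', y ≠ 0 → ∃ a : ℤ, IsOrd V2 w' y a)
    (hap_ord : ∀ a b c : ℤ, ∃ g : F, IsOrd VFF w g a ∧ IsOrd Vmid π g b ∧ IsOrd VVV w g c)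
    (hap_res : ∀ g₁ g₂ g₃ : F, VFF.valuation g₁ = 1 → Vmid.valuation g₂ = 1 →
      VVV.valuation g₃ = 1 → ∃ g : F, PU VFF (g / g₁) ∧ PU Vmid (g / g₂) ∧ PU VVV (g / g₃))
    (f : F) (hf : f ≠ 0)
    (hNα : ∃ (s : ℤ) (g : F'), g ≠ 0 ∧ Nα f = w' ^ s * g ^ m)
    (hNβ : ∃ (s : ℤ) (g : F'), g ≠ 0 ∧ Nβ f = w' ^ s * g ^ m) :
    ∃ (s : ℤ) (G u : F), G ≠ 0 ∧ f ^ (q ^ 2 - 1) = w ^ s * G ^ m * u ∧
      PU VFF u ∧ PU Vmid u ∧ PU VVV u ∧
      (∃ k₁ : F', Nα u = k₁ ^ m) ∧ (∃ k₂ : F', Nβ u = k₂ ^ m) := by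
  have hw0 : w ≠ 0 := by
    rw [← hαw]
    exact (map_ne_zero α).2 hw'0
  have hwFF : VFF.valuation w < 1 := by
    rw [← hαw]
    exact (over_val_lt_one Tα.over_u w').2 hw1
  have hwVV : VVV.valuation w < 1 := by
    rw [← hαw]
    exact (over_val_lt_one Tα.over_i w').2 hw2
  -- orders of `f`
  obtain ⟨aFF, hFF⟩ := hordFF f hf
  obtain ⟨amid, hmid⟩ := hordmid f hf
  obtain ⟨aVV, hVV⟩ := hordVV f hf
  obtain ⟨sα, gα, hgα0, hNα⟩ := hNα
  obtain ⟨sβ, gβ, hgβ0, hNβ⟩ := hNβ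
  obtain ⟨cα1, hcα1⟩ := hord1 gα hgα0
  obtain ⟨cα2, hcα2⟩ := hord2 gα hgα0
  obtain ⟨cβ1, hcβ1⟩ := hord1 gβ hgβ0
  obtain ⟨cβ2, hcβ2⟩ := hord2 gβ hgβ0
  -- the four norm–valuation equations
  have E1 : aFF + amid = sα * 1 + m * cα1 := by
    have e1a : IsOrd V1 w' (Nα f) (aFF + amid) := Tα.val_s f aFF amid (hαw ▸ hFF) hmid
    have e1b : IsOrd V1 w' (Nα f) (sα * 1 + m * cα1) := by
      rw [hNα]
      exact ((IsOrd.self).zpow sα).mul hw'0 (hcα1.pow m)
    exact IsOrd.unique hw'0 hw1 e1a e1b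
  have E2 : (q : ℤ) * aVV = sα * 1 + m * cα2 := by
    have e2a : IsOrd V2 w' (Nα f) (q * aVV) := Tα.val_i f aVV (hαw ▸ hVV)
    have e2b : IsOrd V2 w' (Nα f) (sα * 1 + m * cα2) := by
      rw [hNα]
      exact ((IsOrd.self).zpow sα).mul hw'0 (hcα2.pow m)
    exact IsOrd.unique hw'0 hw2 e2a e2b
  have E3 : aVV + amid = sβ * 1 + m * cβ2 := by
    have e3a : IsOrd V2 w' (Nβ f) (aVV + amid) := Tβ.val_s f aVV amid (hβw ▸ hVV) hmid
    have e3b : IsOrd V2 w' (Nβ f) (sβ * 1 + m * cβ2) := by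
      rw [hNβ]
      exact ((IsOrd.self).zpow sβ).mul hw'0 (hcβ2.pow m)
    exact IsOrd.unique hw'0 hw2 e3a e3b
  have E4 : (q : ℤ) * aFF = sβ * 1 + m * cβ1 := by
    have e4a : IsOrd V1 w' (Nβ f) (q * aFF) := Tβ.val_i f aFF (hβw ▸ hFF)
    have e4b : IsOrd V1 w' (Nβ f) (sβ * 1 + m * cβ1) := by
      rw [hNβ]
      exact ((IsOrd.self).zpow sβ).mul hw'0 (hcβ1.pow m)
    exact IsOrd.unique hw'0 hw1 e4a e4b
  -- normalisation of the vertical orders
  set t : ℤ := ((q : ℤ) + 1) * aVV with ht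
  set d₁ : ℤ := cα1 - cα2 - cβ2 + cβ1 with hd₁
  set d₂ : ℤ := ((q : ℤ) + 1) * (cα1 - cα2) - d₁ with hd₂
  have key1 : ((q : ℤ) + 1) * aFF = t + m * d₁ := by
    rw [ht, hd₁]
    linear_combination E1 - E2 - E3 + E4
  have key2 : ((q : ℤ) + 1) * amid = ((q : ℤ) - 1) * t + m * d₂ := by
    rw [hd₂]
    linear_combination ((q : ℤ) + 1) * (E1 - E2) - key1
  obtain ⟨g₀, hg₀FF, hg₀mid, hg₀VV⟩ := hap_ord d₁ d₂ 0
  have hg₀0 : g₀ ≠ 0 := hg₀FF.ne_zero hw0
  -- `f₁`
  set f₁ : F := f ^ (q + 1) * (w ^ t)⁻¹ * (g₀ ^ m)⁻¹ with hf₁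
  have hf₁FF : VFF.valuation f₁ = 1 := by
    have h1 : IsOrd VFF w f₁ (((q + 1 : ℕ) : ℤ) * aFF + -(t * 1) + -(m * d₁)) :=
      ((hFF.pow (q + 1)).mul hw0 ((IsOrd.self).zpow t).inv).mul hw0 (hg₀FF.pow m).inv
    refine (h1.congr ?_).val_eq_one
    push_cast
    linear_combination key1
  have hf₁mid : Vmid.valuation f₁ = 1 := by
    have h1 : IsOrd Vmid π f₁ (((q + 1 : ℕ) : ℤ) * amid + -(t * ((q : ℤ) - 1)) + -(m * d₂)) :=
      ((hmid.pow (q + 1)).mul hπ0 (hram.zpow t).inv).mul hπ0 (hg₀mid.pow m).inv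
    refine (h1.congr ?_).val_eq_one
    push_cast
    linear_combination key2
  have hf₁VV : VVV.valuation f₁ = 1 := by
    have h1 : IsOrd VVV w f₁ (((q + 1 : ℕ) : ℤ) * aVV + -(t * 1) + -(m * 0)) :=
      ((hVV.pow (q + 1)).mul hw0 ((IsOrd.self).zpow t).inv).mul hw0 (hg₀VV.pow m).inv
    refine (h1.congr ?_).val_eq_one
    push_cast
    rw [ht]
    ring
  have hf₁0 : f₁ ≠ 0 := ne_of_val hf₁FF
  -- norms of `f₁`
  obtain ⟨hα, hα1, hα2, hNα₁⟩ : ∃ h : F', V1.valuation h = 1 ∧ V2.valuation h = 1 ∧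
      Nα f₁ = h ^ m := by
    have := Tα.norm_unit_pow hm hw'0 hw1 hord1 hg₀0 hgα0 hNα (q + 1) t
      (by rw [hαw]; exact hf₁FF) (by rw [hαw]; exact hf₁mid) (by rw [hαw]; exact hf₁VV)
    rw [hαw] at this
    exact this
  obtain ⟨hβ, hβ2, hβ1, hNβ₁⟩ : ∃ h : F', V2.valuation h = 1 ∧ V1.valuation h = 1 ∧
      Nβ f₁ = h ^ m := by
    have := Tβ.norm_unit_pow hm hw'0 hw2 hord2 hg₀0 hgβ0 hNβ (q + 1) t
      (by rw [hβw]; exact hf₁VV) (by rw [hβw]; exact hf₁mid) (by rw [hβw]; exact hf₁FF)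
    rw [hβw] at this
    exact this
  -- residues
  obtain ⟨GVV, hGVV0, hGVV⟩ := Tα.pu_insep hqm hf₁VV hα2 hNα₁
  obtain ⟨GFF, hGFF0, hGFF⟩ := Tβ.pu_insep hqm hf₁FF hβ1 hNβ₁
  have hGFF1 : VFF.valuation GFF = 1 := by
    apply val_eq_one_of_pow hm
    have h1 := hGFF.val_eq_one
    rw [map_div₀, hf₁FF] at h1
    have h2 : VFF.valuation (GFF ^ m) ≠ 0 := val_ne_zero_of_ne_zero (pow_ne_zero _ hGFF0)
    field_simp at h1
    exact h1.symm
  have hGVV1 : VVV.valuation GVV = 1 := by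
    apply val_eq_one_of_pow hm
    have h1 := hGVV.val_eq_one
    rw [map_div₀, hf₁VV] at h1
    have h2 : VVV.valuation (GVV ^ m) ≠ 0 := val_ne_zero_of_ne_zero (pow_ne_zero _ hGVV0)
    field_simp at h1
    exact h1.symm
  obtain ⟨Gmid, hGmid0, hGmid1, hGmid⟩ := Tα.pu_split hf₁FF hf₁mid hα1 hNα₁ hGFF1 hGFF
  -- approximation
  obtain ⟨G, hGa, hGb, hGc⟩ := hap_res (GFF ^ (q - 1)) Gmid (GVV ^ (q - 1))
    (by rw [map_pow, hGFF1, one_pow]) hGmid1 (by rw [map_pow, hGVV1, one_pow])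
  have hG0 : G ≠ 0 := by
    intro h0
    rw [h0, zero_div] at hGa
    exact hGa.ne_zero rfl
  have hq2 : q ^ 2 - 1 = (q + 1) * (q - 1) := by
    obtain ⟨k, rfl⟩ : ∃ k, q = k + 1 := ⟨q - 1, by omega⟩
    rw [Nat.add_sub_cancel]
    have : (k + 1) ^ 2 = (k + 1 + 1) * k + 1 := by ring
    rw [this, Nat.add_sub_cancel]
  refine ⟨t * ((q - 1 : ℕ) : ℤ), g₀ ^ (q - 1) * G, f₁ ^ (q - 1) / G ^ m,
    mul_ne_zero (pow_ne_zero _ hg₀0) hG0, ?_, ?_, ?_, ?_, ?_, ?_⟩
  · rw [hq2, hf₁]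
    have h1 : w ^ t ≠ 0 := zpow_ne_zero _ hw0
    have h2 : g₀ ^ m ≠ 0 := pow_ne_zero _ hg₀0
    have h3 : G ^ m ≠ 0 := pow_ne_zero _ hG0
    rw [zpow_mul, zpow_natCast, mul_pow, mul_pow, mul_pow, inv_pow, inv_pow, pow_mul,
      ← pow_mul g₀ (q - 1) m, ← pow_mul g₀ m (q - 1), mul_comm (q - 1) m]
    field_simp
  · have e : f₁ ^ (q - 1) / G ^ m = (f₁ / GFF ^ m) ^ (q - 1) * ((G / GFF ^ (q - 1)) ^ m)⁻¹ := by
      rw [div_pow, div_pow, ← pow_mul, ← pow_mul, mul_comm m (q - 1)]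
      have h3 : G ^ m ≠ 0 := pow_ne_zero _ hG0
      have h4 : GFF ^ ((q - 1) * m) ≠ 0 := pow_ne_zero _ hGFF0
      field_simp
    rw [e]
    exact (hGFF.pow _).mul (hGa.pow m).inv
  · have e : f₁ ^ (q - 1) / G ^ m = (f₁ ^ (q - 1) / Gmid ^ m) * ((G / Gmid) ^ m)⁻¹ := by
      rw [div_pow]
      have h3 : G ^ m ≠ 0 := pow_ne_zero _ hG0
      have h4 : Gmid ^ m ≠ 0 := pow_ne_zero _ hGmid0
      field_simp
    rw [e]
    exact hGmid.mul (hGb.pow m).inv
  · have e : f₁ ^ (q - 1) / G ^ m = (f₁ / GVV ^ m) ^ (q - 1) * ((G / GVV ^ (q - 1)) ^ m)⁻¹ := by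
      rw [div_pow, div_pow, ← pow_mul, ← pow_mul, mul_comm m (q - 1)]
      have h3 : G ^ m ≠ 0 := pow_ne_zero _ hG0
      have h4 : GVV ^ ((q - 1) * m) ≠ 0 := pow_ne_zero _ hGVV0
      field_simp
    rw [e]
    exact (hGVV.pow _).mul (hGc.pow m).inv
  · refine ⟨hα ^ (q - 1) * (Nα G)⁻¹, ?_⟩
    rw [div_eq_mul_inv, Tα.norm_mul, nfn_pow Tα.norm_one Tα.norm_mul, hNα₁,
      nfn_inv Tα.norm_one Tα.norm_mul (pow_ne_zero _ hG0), nfn_pow Tα.norm_one Tα.norm_mul,
      mul_pow, inv_pow, ← pow_mul, ← pow_mul, mul_comm m (q - 1)]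
  · refine ⟨hβ ^ (q - 1) * (Nβ G)⁻¹, ?_⟩
    rw [div_eq_mul_inv, Tβ.norm_mul, nfn_pow Tβ.norm_one Tβ.norm_mul, hNβ₁,
      nfn_inv Tβ.norm_one Tβ.norm_mul (pow_ne_zero _ hG0), nfn_pow Tβ.norm_one Tβ.norm_mul,
      mul_pow, inv_pow, ← pow_mul, ← pow_mul, mul_comm m (q - 1)]

end Main

end Fermat.Agent.S36.H586

end
-- ===== PACK-END S36/H586/StepAB.lean

-- ===== PACK-BEGIN S36/H922/ResAbs.lean
section


/-!
# S36 engine / cell REG, route R4 (MID-UNIT): the residue of `π^N / U` — abstract form (helper922)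

Mathlib only.  `V` a valuation subring of a field `L` (in the application `V = V_mid`, the
valuation of the component `mid` of `X₀(q² M')`), `π ∈ 𝔪_V`.  Data:

* `π ^ n = ϖ · (ρ + π z₁)`             (Eisenstein: `π^(q-1)/q ≡ ρ`, `ρ = G(j)/(j^(q²) - j)`);
* `U · b = ϖ ^ 12 · u`, `u ∈ Vˣ`, `b = u⁻¹ + π z₂`
                                          (`U = U_m = α(U')/β(U')`, `u = Δ(t^q)/Δ(t)`, `b = β(U')`);
* `e · u ^ 2 = ρ ^ 12 + π z₃`            (`θ`-identity modulo `q`).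

Then `(π ^ (12 n) - e U) / U ∈ π V ⊆ 𝔪_V`: this is hypothesis `hres` of
`S36.H878.principal_of_unit_self` (and `hω` of `S36.H922.principal_of_unit_quot`), with
`N = 12 n`, `x = π`, `g = e`.
-/

set_option autoImplicit false

namespace Fermat.Agent.S36.H922

variable {L : Type*} [Field L]

/-- **Residue of `π^N / U` along `V`.**  Conclusion in the form `= π · Z`, `Z ∈ V`. -/
theorem h922_hres_abs_mul (V : ValuationSubring L) (π ϖ ρ u b e U : L) (n : ℕ)
    (hϖ : ϖ ≠ 0) (hπ : π ∈ V) (hρ : ρ ∈ V) (hu0 : u ≠ 0) (hu' : u⁻¹ ∈ V)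
    (h1 : ∃ z ∈ V, π ^ n = ϖ * (ρ + π * z))
    (h2 : U * b = ϖ ^ 12 * u)
    (h2' : ∃ z ∈ V, b = u⁻¹ + π * z)
    (h3 : ∃ z ∈ V, e * u ^ 2 = ρ ^ 12 + π * z) :
    ∃ Z ∈ V, (π ^ (12 * n) - e * U) * U⁻¹ = π * Z := by
  obtain ⟨z₁, hz₁, h1⟩ := h1
  obtain ⟨z₂, hz₂, h2'⟩ := h2'
  obtain ⟨z₃, hz₃, h3⟩ := h3
  have hU0 : U ≠ 0 := by
    intro h
    rw [h, zero_mul] at h2
    exact (mul_ne_zero (pow_ne_zero _ hϖ) hu0) h2.symm
  have hb0 : b ≠ 0 := by
    intro h
    rw [h, mul_zero] at h2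
    exact (mul_ne_zero (pow_ne_zero _ hϖ) hu0) h2.symm
  -- `(ρ + π z₁)^12 = ρ^12 + π z₁ S`
  set X := ρ + π * z₁ with hX
  set S := ∑ i ∈ Finset.range 12, X ^ i * ρ ^ (12 - 1 - i) with hS
  have hSV : S ∈ V := by
    apply sum_mem
    intro i _
    exact V.mul_mem _ _ (pow_mem (V.add_mem _ _ hρ (V.mul_mem _ _ hπ hz₁)) _) (pow_mem hρ _)
  have hgeom : X ^ 12 = ρ ^ 12 + π * (z₁ * S) := by
    have h := Commute.geom_sum₂_mul (Commute.all X ρ) 12
    rw [← hS] at h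
    have hXρ : X - ρ = π * z₁ := by rw [hX]; ring
    rw [hXρ] at h
    linear_combination -h
  have hpow : π ^ (12 * n) = ϖ ^ 12 * X ^ 12 := by
    rw [mul_comm 12 n, pow_mul, h1, mul_pow]
  refine ⟨z₁ * S * (u⁻¹) ^ 2 + ρ ^ 12 * z₂ * u⁻¹ + π * (z₁ * S * z₂ * u⁻¹) - z₃ * (u⁻¹) ^ 2,
    ?_, ?_⟩
  · refine sub_mem (V.add_mem _ _ (V.add_mem _ _ ?_ ?_) ?_) ?_
    · exact V.mul_mem _ _ (V.mul_mem _ _ hz₁ hSV) (pow_mem hu' _)
    · exact V.mul_mem _ _ (V.mul_mem _ _ (pow_mem hρ _) hz₂) hu'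
    · exact V.mul_mem _ _ hπ (V.mul_mem _ _ (V.mul_mem _ _ (V.mul_mem _ _ hz₁ hSV) hz₂) hu')
    · exact V.mul_mem _ _ hz₃ (pow_mem hu' _)
  · -- `U = ϖ^12 u / b`, `e = (ρ^12 + π z₃) / u^2`
    have hUeq : U = ϖ ^ 12 * u * b⁻¹ := by
      rw [← h2, mul_assoc, mul_inv_cancel₀ hb0, mul_one]
    have heeq : e = (ρ ^ 12 + π * z₃) * (u⁻¹) ^ 2 := by
      rw [← h3, inv_pow, mul_assoc, mul_inv_cancel₀ (pow_ne_zero _ hu0), mul_one]
    have hϖ12 : ϖ ^ 12 ≠ 0 := pow_ne_zero _ hϖ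
    have hquot : (π ^ (12 * n) - e * U) * U⁻¹ = X ^ 12 * b * u⁻¹ - e := by
      rw [sub_mul, mul_assoc e, mul_inv_cancel₀ hU0, mul_one, hpow, hUeq]
      field_simp
    rw [hquot, hgeom, h2', heeq]
    have huu : u⁻¹ * u = 1 := inv_mul_cancel₀ hu0
    ring

/-- **Residue of `π^N / U` along `V`**, conclusion in `V.nonunits` (the form `hres` of
`S36.H878.principal_of_unit_self`). -/
theorem h922_hres_abs (V : ValuationSubring L) (π ϖ ρ u b e U : L) (n : ℕ)
    (hϖ : ϖ ≠ 0) (hπ : π ∈ V.nonunits) (hρ : ρ ∈ V) (hu0 : u ≠ 0) (hu' : u⁻¹ ∈ V)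
    (h1 : ∃ z ∈ V, π ^ n = ϖ * (ρ + π * z))
    (h2 : U * b = ϖ ^ 12 * u)
    (h2' : ∃ z ∈ V, b = u⁻¹ + π * z)
    (h3 : ∃ z ∈ V, e * u ^ 2 = ρ ^ 12 + π * z) :
    (π ^ (12 * n) - e * U) * U⁻¹ ∈ V.nonunits := by
  have hπV : π ∈ V := (V.valuation_le_one_iff π).1 ((V.mem_nonunits_iff).1 hπ).le
  obtain ⟨Z, hZ, h⟩ := h922_hres_abs_mul V π ϖ ρ u b e U n hϖ hπV hρ hu0 hu' h1 h2 h2' h3
  rw [h, ValuationSubring.mem_nonunits_iff, map_mul]
  exact mul_lt_one_of_lt_of_le ((V.mem_nonunits_iff).1 hπ) ((V.valuation_le_one_iff Z).2 hZ)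

/-- **Residue of `π^N / U` along `V`**, all congruences modulo `𝔪_V = V.nonunits`
(no uniformiser needed):
`π^n = ϖ · uπ`, `uπ ≡ ρ`, `U · b = ϖ^12 · u`, `b ≡ u⁻¹`, `e · u² ≡ ρ^12`  ⟹  `π^(12 n)/U ≡ e`. -/
theorem h922_hres_abs_nonunits (V : ValuationSubring L) (π ϖ uπ ρ u b e U : L) (n : ℕ)
    (hϖ : ϖ ≠ 0) (hρ : ρ ∈ V) (hu0 : u ≠ 0) (hu' : u⁻¹ ∈ V)
    (h1 : π ^ n = ϖ * uπ) (h1' : uπ - ρ ∈ V.nonunits)
    (h2 : U * b = ϖ ^ 12 * u) (h2' : b - u⁻¹ ∈ V.nonunits)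
    (h3 : e * u ^ 2 - ρ ^ 12 ∈ V.nonunits) :
    (π ^ (12 * n) - e * U) * U⁻¹ ∈ V.nonunits := by
  have hmemV : ∀ x : L, x ∈ V.nonunits → x ∈ V := fun x hx =>
    (V.valuation_le_one_iff x).1 ((V.mem_nonunits_iff).1 hx).le
  have hmul : ∀ x y : L, x ∈ V.nonunits → y ∈ V → x * y ∈ V.nonunits := by
    intro x y hx hy
    rw [ValuationSubring.mem_nonunits_iff, map_mul]
    exact mul_lt_one_of_lt_of_le ((V.mem_nonunits_iff).1 hx) ((V.valuation_le_one_iff y).2 hy)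
  have hadd : ∀ x y : L, x ∈ V.nonunits → y ∈ V.nonunits → x + y ∈ V.nonunits := by
    intro x y hx hy
    rw [ValuationSubring.mem_nonunits_iff]
    exact lt_of_le_of_lt (V.valuation.map_add x y)
      (max_lt ((V.mem_nonunits_iff).1 hx) ((V.mem_nonunits_iff).1 hy))
  have hneg : ∀ x : L, x ∈ V.nonunits → -x ∈ V.nonunits := by
    intro x hx
    rw [ValuationSubring.mem_nonunits_iff, Valuation.map_neg]
    exact (V.mem_nonunits_iff).1 hx
  set d₁ := uπ - ρ with hd₁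
  set d₂ := b - u⁻¹ with hd₂
  set d₃ := e * u ^ 2 - ρ ^ 12 with hd₃
  have huπV : uπ ∈ V := by
    have : uπ = ρ + d₁ := by rw [hd₁]; ring
    rw [this]
    exact V.add_mem _ _ hρ (hmemV _ h1')
  have hU0 : U ≠ 0 := by
    intro h
    rw [h, zero_mul] at h2
    exact (mul_ne_zero (pow_ne_zero _ hϖ) hu0) h2.symm
  have hb0 : b ≠ 0 := by
    intro h
    rw [h, mul_zero] at h2
    exact (mul_ne_zero (pow_ne_zero _ hϖ) hu0) h2.symm
  set S := ∑ i ∈ Finset.range 12, uπ ^ i * ρ ^ (12 - 1 - i) with hS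
  have hSV : S ∈ V := by
    apply sum_mem
    intro i _
    exact V.mul_mem _ _ (pow_mem huπV _) (pow_mem hρ _)
  have hgeom : uπ ^ 12 = ρ ^ 12 + d₁ * S := by
    have h := Commute.geom_sum₂_mul (Commute.all uπ ρ) 12
    rw [← hS] at h
    rw [hd₁]
    linear_combination -h
  have hpow : π ^ (12 * n) = ϖ ^ 12 * uπ ^ 12 := by
    rw [mul_comm 12 n, pow_mul, h1, mul_pow]
  have hUeq : U = ϖ ^ 12 * u * b⁻¹ := by
    rw [← h2, mul_assoc, mul_inv_cancel₀ hb0, mul_one]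
  have hquot : (π ^ (12 * n) - e * U) * U⁻¹ = uπ ^ 12 * b * u⁻¹ - e := by
    have hϖ12 : ϖ ^ 12 ≠ 0 := pow_ne_zero _ hϖ
    rw [sub_mul, mul_assoc e, mul_inv_cancel₀ hU0, mul_one, hpow, hUeq]
    field_simp
  have hb : b = u⁻¹ + d₂ := by rw [hd₂]; ring
  have he : e = (ρ ^ 12 + d₃) * (u⁻¹) ^ 2 := by
    rw [hd₃, add_sub_cancel, inv_pow, mul_assoc, mul_inv_cancel₀ (pow_ne_zero _ hu0), mul_one]
  have hfinal : (π ^ (12 * n) - e * U) * U⁻¹
      = d₁ * (S * (u⁻¹) ^ 2) + d₂ * ((ρ ^ 12 + d₁ * S) * u⁻¹) + (-d₃) * (u⁻¹) ^ 2 := by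
    rw [hquot, hgeom]
    conv_lhs => rw [hb, he]
    ring
  rw [hfinal]
  refine hadd _ _ (hadd _ _ (hmul _ _ h1' ?_) (hmul _ _ h2' ?_)) (hmul _ _ (hneg _ h3) ?_)
  · exact V.mul_mem _ _ hSV (pow_mem hu' _)
  · exact V.mul_mem _ _ (V.add_mem _ _ (pow_mem hρ _) (V.mul_mem _ _ (hmemV _ h1') hSV)) hu'
  · exact pow_mem hu' _

end Fermat.Agent.S36.H922

end
-- ===== PACK-END S36/H922/ResAbs.lean

-- ===== PACK-BEGIN S21/H585/Presentation.lean
section


/-!
# A universal property of `SL(2, ℤ)` (presentation of `PSL(2, ℤ) ≅ C₂ * C₃`)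

For every group `H` and `s u : H` with `s ^ 2 = 1`, `u ^ 3 = 1` there is a group homomorphism
`Φ : SL(2, ℤ) →* H` with `Φ S = s` and `Φ (S * T) = u`.

Proof: ping-pong (Mathlib `Monoid.CoprodI.lift_injective_of_ping_pong`) for the action of
`SL(2, ℤ)` on integral `2 × 2` matrices by `Q ↦ g Q gᵀ`.
-/

set_option autoImplicit false

namespace Fermat.Agent.S21.H585

open Matrix ModularGroup
open scoped MatrixGroups Pointwise

lemma qf_conj_conj (A B Q : Matrix (Fin 2) (Fin 2) ℤ) :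
    A * (B * Q * Bᵀ) * Aᵀ = (A * B) * Q * (A * B)ᵀ := by
  rw [transpose_mul]; simp only [Matrix.mul_assoc]

/-- The action of `SL(2,ℤ)` on integral `2×2` matrices `Q ↦ g Q gᵀ`, as a hom to permutations. -/
def qfRho : SL(2, ℤ) →* Equiv.Perm (Matrix (Fin 2) (Fin 2) ℤ) where
  toFun g :=
    { toFun := fun Q => (g : Matrix (Fin 2) (Fin 2) ℤ) * Q * (g : Matrix (Fin 2) (Fin 2) ℤ)ᵀ
      invFun := fun Q => ((g⁻¹ : SL(2, ℤ)) : Matrix (Fin 2) (Fin 2) ℤ) * Q *
        ((g⁻¹ : SL(2, ℤ)) : Matrix (Fin 2) (Fin 2) ℤ)ᵀ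
      left_inv := fun Q => by
        have h : ((g⁻¹ : SL(2, ℤ)) : Matrix (Fin 2) (Fin 2) ℤ) * (g : Matrix _ _ ℤ) = 1 := by
          rw [← Matrix.SpecialLinearGroup.coe_mul, inv_mul_cancel, Matrix.SpecialLinearGroup.coe_one]
        simp only [qf_conj_conj, h, Matrix.one_mul, Matrix.transpose_one, Matrix.mul_one]
      right_inv := fun Q => by
        have h : (g : Matrix _ _ ℤ) * ((g⁻¹ : SL(2, ℤ)) : Matrix (Fin 2) (Fin 2) ℤ) = 1 := by
          rw [← Matrix.SpecialLinearGroup.coe_mul, mul_inv_cancel, Matrix.SpecialLinearGroup.coe_one]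
        simp only [qf_conj_conj, h, Matrix.one_mul, Matrix.transpose_one, Matrix.mul_one] }
  map_one' := by
    ext Q : 2
    simp
  map_mul' g h := by
    ext Q : 2
    simp only [Equiv.coe_fn_mk, Equiv.Perm.coe_mul, Function.comp_apply,
      Matrix.SpecialLinearGroup.coe_mul, qf_conj_conj]

lemma qfRho_apply (g : SL(2, ℤ)) (Q : Matrix (Fin 2) (Fin 2) ℤ) :
    qfRho g Q = (g : Matrix (Fin 2) (Fin 2) ℤ) * Q * (g : Matrix (Fin 2) (Fin 2) ℤ)ᵀ := rfl


lemma qfRho_S_apply (Q : Matrix (Fin 2) (Fin 2) ℤ) :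
    qfRho S Q = !![Q 1 1, -Q 1 0; -Q 0 1, Q 0 0] := by
  rw [qfRho_apply, coe_S]
  ext i j
  fin_cases i <;> fin_cases j <;>
    simp [Matrix.mul_apply, Fin.sum_univ_two, Matrix.transpose_apply, Matrix.vecMul, dotProduct]

lemma coe_S_mul_T : ((S * T : SL(2, ℤ)) : Matrix (Fin 2) (Fin 2) ℤ) = !![0, -1; 1, 1] := by
  rw [Matrix.SpecialLinearGroup.coe_mul, coe_S, coe_T]
  ext i j
  fin_cases i <;> fin_cases j <;> simp [Matrix.mul_apply, Fin.sum_univ_two]

lemma qfRho_ST_apply (Q : Matrix (Fin 2) (Fin 2) ℤ) :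
    qfRho (S * T) Q =
      !![Q 1 1, -Q 1 0 - Q 1 1; -Q 0 1 - Q 1 1, Q 0 0 + Q 0 1 + Q 1 0 + Q 1 1] := by
  rw [qfRho_apply, coe_S_mul_T]
  ext i j
  fin_cases i <;> fin_cases j <;>
    simp [Matrix.mul_apply, Fin.sum_univ_two, Matrix.transpose_apply, Matrix.vecMul, dotProduct]
      <;> ring

lemma qfRho_S_sq : qfRho S ^ 2 = 1 := by
  ext Q i j
  rw [pow_two, Equiv.Perm.mul_apply, qfRho_S_apply, qfRho_S_apply]
  fin_cases i <;> fin_cases j <;> simp

lemma qfRho_ST_cube : qfRho (S * T) ^ 3 = 1 := by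
  ext Q i j
  rw [pow_succ, pow_two, Equiv.Perm.mul_apply, Equiv.Perm.mul_apply, qfRho_ST_apply,
    qfRho_ST_apply, qfRho_ST_apply]
  fin_cases i <;> fin_cases j <;> simp <;> ring


/-- The two generators `ρ(S)`, `ρ(ST)`. -/
def qfGen : Fin 2 → Equiv.Perm (Matrix (Fin 2) (Fin 2) ℤ) := ![qfRho S, qfRho (S * T)]

/-- The two cyclic groups `⟨ρ(S)⟩ ≅ C₂`, `⟨ρ(ST)⟩ ≅ C₃`. -/
abbrev QfH (i : Fin 2) : Type := Subgroup.zpowers (qfGen i)

/-- The inclusions. -/
def qfF (i : Fin 2) : QfH i →* Equiv.Perm (Matrix (Fin 2) (Fin 2) ℤ) :=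
  (Subgroup.zpowers (qfGen i)).subtype

/-- The ping-pong sets. -/
def qfX : Fin 2 → Set (Matrix (Fin 2) (Fin 2) ℤ) :=
  ![{Q | 0 < Q 0 0 ∧ 0 < Q 1 1 ∧ 0 < Q 0 1 ∧ Q 1 0 = Q 0 1},
    {Q | 0 < Q 0 0 ∧ 0 < Q 1 1 ∧ Q 0 1 < 0 ∧ Q 1 0 = Q 0 1}]

lemma qfX_nonempty (i : Fin 2) : (qfX i).Nonempty := by
  fin_cases i
  · exact ⟨!![1, 1; 1, 1], by simp [qfX]⟩
  · exact ⟨!![1, -1; -1, 1], by simp [qfX]⟩

lemma qfX_disjoint : Pairwise (Function.onFun Disjoint qfX) := by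
  intro i j hij
  rw [Function.onFun, Set.disjoint_left]
  fin_cases i <;> fin_cases j
  · exact absurd rfl hij
  · rintro Q ⟨-, -, h1, -⟩ ⟨-, -, h2, -⟩; exact absurd h1 (not_lt.mpr h2.le)
  · rintro Q ⟨-, -, h1, -⟩ ⟨-, -, h2, -⟩; exact absurd h1 (not_lt.mpr h2.le)
  · exact absurd rfl hij

lemma qf_eq_pow_of_mem_zpowers {G : Type*} [Group G] {g : G} {n : ℕ} (hn : 0 < n)
    (hg : g ^ n = 1) {h : G} (hh : h ∈ Subgroup.zpowers g) : ∃ k : ℕ, k < n ∧ h = g ^ k := by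
  obtain ⟨m, rfl⟩ := Subgroup.mem_zpowers_iff.mp hh
  refine ⟨(m % n).toNat, ?_, ?_⟩
  · have h1 : m % (n : ℤ) < n := Int.emod_lt_of_pos m (by exact_mod_cast hn)
    have h0 : 0 ≤ m % (n : ℤ) := Int.emod_nonneg m (by exact_mod_cast hn.ne')
    omega
  · have h0 : 0 ≤ m % (n : ℤ) := Int.emod_nonneg m (by exact_mod_cast hn.ne')
    rw [← zpow_natCast, Int.toNat_of_nonneg h0]
    conv_lhs => rw [← Int.emod_add_mul_ediv m n]
    rw [_root_.zpow_add, _root_.zpow_mul, zpow_natCast, hg, _root_.one_zpow, mul_one]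

lemma qf_pingpong_zero (h : QfH 0) (hh : h ≠ 1) : qfF 0 h • qfX 1 ⊆ qfX 0 := by
  obtain ⟨k, hk, hk'⟩ := qf_eq_pow_of_mem_zpowers (n := 2) (by norm_num) qfRho_S_sq h.2
  have hk1 : k = 1 := by
    interval_cases k
    · exact absurd (Subtype.ext (by simpa using hk')) hh
    · rfl
  subst hk1
  rintro _ ⟨Q, ⟨h0, h1, h2, h3⟩, rfl⟩
  have : qfF 0 h = qfRho S := by
    show h.1 = _
    rw [hk', pow_one]
  show qfF 0 h • Q ∈ qfX 0
  rw [this, Equiv.Perm.smul_def, qfRho_S_apply]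
  simp only [qfX, Matrix.cons_val_zero, Set.mem_ofPred_eq, Matrix.of_apply, Matrix.cons_val',
    Matrix.cons_val_fin_one, Matrix.cons_val_one]
  refine ⟨h1, h0, ?_, ?_⟩ <;> omega

lemma qf_pingpong_one (h : QfH 1) (hh : h ≠ 1) : qfF 1 h • qfX 0 ⊆ qfX 1 := by
  obtain ⟨k, hk, hk'⟩ := qf_eq_pow_of_mem_zpowers (n := 3) (by norm_num) qfRho_ST_cube h.2
  rintro _ ⟨Q, ⟨h0, h1, h2, h3⟩, rfl⟩
  show qfF 1 h • Q ∈ qfX 1
  have hf : qfF 1 h = h.1 := rfl
  interval_cases k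
  · exact absurd (Subtype.ext (by simpa using hk')) hh
  · have : h.1 = qfRho (S * T) := by rw [hk', pow_one]
    rw [hf, this, Equiv.Perm.smul_def, qfRho_ST_apply]
    simp only [qfX, Matrix.cons_val_one, Matrix.cons_val_zero, Set.mem_ofPred_eq,
      Matrix.of_apply, Matrix.cons_val', Matrix.cons_val_fin_one]
    refine ⟨h1, ?_, ?_, ?_⟩ <;> omega
  · have : h.1 = qfRho (S * T) * qfRho (S * T) := by rw [hk', pow_two]
    rw [hf, this, Equiv.Perm.smul_def, Equiv.Perm.mul_apply, qfRho_ST_apply, qfRho_ST_apply]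
    simp only [qfX, Matrix.cons_val_one, Matrix.cons_val_zero, Set.mem_ofPred_eq,
      Matrix.of_apply, Matrix.cons_val', Matrix.cons_val_fin_one]
    refine ⟨?_, ?_, ?_, ?_⟩ <;> omega

lemma qf_pingpong : Pairwise fun i j => ∀ h : QfH i, h ≠ 1 → qfF i h • qfX j ⊆ qfX i := by
  intro i j hij
  fin_cases i <;> fin_cases j
  · exact absurd rfl hij
  · exact qf_pingpong_zero
  · exact qf_pingpong_one
  · exact absurd rfl hij


lemma qfRho_S_ne_one : qfRho S ≠ 1 := by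
  intro h
  have h1 := DFunLike.congr_fun h !![1, 1; 1, 1]
  rw [qfRho_S_apply] at h1
  have := congrFun (congrFun h1 0) 1
  simp at this

lemma qfRho_ST_ne_one : qfRho (S * T) ≠ 1 := by
  intro h
  have h1 := DFunLike.congr_fun h !![1, 0; 0, 0]
  rw [qfRho_ST_apply] at h1
  have := congrFun (congrFun h1 0) 0
  simp at this

lemma orderOf_qfRho_S : orderOf (qfRho S) = 2 :=
  haveI : Fact (Nat.Prime 2) := ⟨Nat.prime_two⟩
  orderOf_eq_prime qfRho_S_sq qfRho_S_ne_one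

lemma orderOf_qfRho_ST : orderOf (qfRho (S * T)) = 3 :=
  haveI : Fact (Nat.Prime 3) := ⟨Nat.prime_three⟩
  orderOf_eq_prime qfRho_ST_cube qfRho_ST_ne_one

lemma orderOf_qfGen (i : Fin 2) : orderOf (qfGen i) = (i : ℕ) + 2 := by
  fin_cases i
  · exact orderOf_qfRho_S
  · exact orderOf_qfRho_ST

open Cardinal in
lemma three_le_card_QfH_one : (3 : Cardinal) ≤ #(QfH 1) := by
  have h3 : orderOf (qfGen 1) = 3 := orderOf_qfGen 1
  have : Finite (QfH 1) := by
    apply Nat.finite_of_card_ne_zero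
    rw [Nat.card_zpowers, h3]; norm_num
  rw [← Nat.cast_card, Nat.card_zpowers, h3]
  norm_num

open Monoid in
theorem qf_lift_injective : Function.Injective (CoprodI.lift qfF) :=
  CoprodI.lift_injective_of_ping_pong qfF (Or.inr ⟨1, three_le_card_QfH_one⟩) qfX qfX_nonempty
    qfX_disjoint qf_pingpong

/-- the generator of `QfH i` -/
def qfGenH (i : Fin 2) : QfH i := ⟨qfGen i, Subgroup.mem_zpowers _⟩

lemma qfGenH_generates (i : Fin 2) (x : QfH i) : x ∈ Subgroup.zpowers (qfGenH i) := by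
  obtain ⟨k, hk⟩ := Subgroup.mem_zpowers_iff.mp x.2
  exact Subgroup.mem_zpowers_iff.mpr ⟨k, Subtype.ext (by simpa [qfGenH] using hk)⟩

lemma orderOf_qfGenH (i : Fin 2) : orderOf (qfGenH i) = (i : ℕ) + 2 := by
  rw [← orderOf_qfGen i, ← Subgroup.orderOf_coe]; rfl

open Monoid in
lemma qfRho_mem_range (g : SL(2, ℤ)) : qfRho g ∈ (CoprodI.lift qfF).range := by
  have hS : qfRho S ∈ (CoprodI.lift qfF).range :=
    ⟨CoprodI.of (qfGenH 0), by rw [CoprodI.lift_of]; rfl⟩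
  have hST : qfRho (S * T) ∈ (CoprodI.lift qfF).range :=
    ⟨CoprodI.of (qfGenH 1), by rw [CoprodI.lift_of]; rfl⟩
  have hT : qfRho T ∈ (CoprodI.lift qfF).range := by
    have : qfRho T = (qfRho S)⁻¹ * qfRho (S * T) := by
      rw [map_mul, inv_mul_cancel_left]
    rw [this]
    exact mul_mem (inv_mem hS) hST
  have hg : g ∈ Subgroup.closure ({S, T} : Set SL(2, ℤ)) := by
    rw [_root_.SpecialLinearGroup.SL2Z_generators]; trivial
  have hle : Subgroup.closure ({S, T} : Set SL(2, ℤ)) ≤ (CoprodI.lift qfF).range.comap qfRho := by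
    rw [Subgroup.closure_le]
    rintro x (rfl | rfl)
    · exact hS
    · exact hT
  exact hle hg

open Monoid in
/-- The homomorphism `SL(2,ℤ) → C₂ * C₃`. -/
noncomputable def qfKappa : SL(2, ℤ) →* CoprodI QfH :=
  (MonoidHom.ofInjective qf_lift_injective).symm.toMonoidHom.comp
    (qfRho.codRestrict (CoprodI.lift qfF).range qfRho_mem_range)

open Monoid in
lemma lift_qfKappa (g : SL(2, ℤ)) : CoprodI.lift qfF (qfKappa g) = qfRho g := by
  simp only [qfKappa, MonoidHom.coe_comp, MulEquiv.coe_toMonoidHom, Function.comp_apply]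
  rw [MonoidHom.apply_ofInjective_symm]
  rfl

open Monoid in
lemma qfKappa_S : qfKappa S = CoprodI.of (qfGenH 0) := by
  apply qf_lift_injective
  rw [lift_qfKappa, CoprodI.lift_of]; rfl

open Monoid in
lemma qfKappa_ST : qfKappa (S * T) = CoprodI.of (qfGenH 1) := by
  apply qf_lift_injective
  rw [lift_qfKappa, CoprodI.lift_of]; rfl

open Monoid in
/-- **Universal property of `SL(2, ℤ)`** (equivalently: `PSL(2, ℤ) ≅ C₂ * C₃`):
any `s`, `u` in a group with `s ^ 2 = 1`, `u ^ 3 = 1` are the images of `S`, `S * T`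
under a group homomorphism. -/
theorem exists_hom_of_sq_cube {H : Type*} [Group H] (s u : H) (hs : s ^ 2 = 1) (hu : u ^ 3 = 1) :
    ∃ Φ : SL(2, ℤ) →* H, Φ S = s ∧ Φ (S * T) = u := by
  let t : Fin 2 → H := ![s, u]
  have ht : ∀ i : Fin 2, orderOf (t i) ∣ orderOf (qfGenH i) := by
    intro i
    rw [orderOf_qfGenH]
    fin_cases i
    · exact orderOf_dvd_of_pow_eq_one hs
    · exact orderOf_dvd_of_pow_eq_one hu
  let hI : ∀ i : Fin 2, QfH i →* H := fun i =>
    monoidHomOfForallMemZpowers (qfGenH_generates i) (ht i)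
  refine ⟨(CoprodI.lift hI).comp qfKappa, ?_, ?_⟩
  · rw [MonoidHom.comp_apply, qfKappa_S, CoprodI.lift_of]
    exact monoidHomOfForallMemZpowers_apply_gen (qfGenH_generates 0) (ht 0)
  · rw [MonoidHom.comp_apply, qfKappa_ST, CoprodI.lift_of]
    exact monoidHomOfForallMemZpowers_apply_gen (qfGenH_generates 1) (ht 1)

end Fermat.Agent.S21.H585

end
-- ===== PACK-END S21/H585/Presentation.lean

-- ===== PACK-BEGIN S41/H585/PDCobd.lean
section


/-!
# S41 / PD helper (helper585): coboundaries of a permutation with values in an abelian group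

`exists_cobd_of_cycle_sum_zero`: for a permutation `σ` of a finite type `X` and `b : X → A`
(`A` any abelian group) whose sums along all closed `σ`-paths vanish, there is `h : X → A` with
`b x = h (σ x) - h x`.  (The field-valued version by dimension count is
`Fermat.Agent.S21.H585.exists_cobd_of_osum_eq_zero`.)
-/

set_option autoImplicit false

namespace Fermat.Agent.S41.H585

open Equiv

section

variable {X : Type*} {A : Type*} [AddCommGroup A]

/-- Partial sums of `b` along the `σ`-path starting at `r`. -/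
def pathSum (σ : Perm X) (b : X → A) (r : X) (k : ℕ) : A :=
  ∑ j ∈ Finset.range k, b ((σ ^ j) r)

@[simp] lemma pathSum_zero (σ : Perm X) (b : X → A) (r : X) : pathSum σ b r 0 = 0 := by
  simp [pathSum]

lemma pathSum_succ (σ : Perm X) (b : X → A) (r : X) (k : ℕ) :
    pathSum σ b r (k + 1) = pathSum σ b r k + b ((σ ^ k) r) := by
  simp [pathSum, Finset.sum_range_succ]

lemma pathSum_add (σ : Perm X) (b : X → A) (r : X) (k n : ℕ) :
    pathSum σ b r (k + n) = pathSum σ b r k + pathSum σ b ((σ ^ k) r) n := by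
  unfold pathSum
  rw [Finset.sum_range_add]
  congr 1
  refine Finset.sum_congr rfl fun j _ => ?_
  rw [add_comm k j, pow_add, Perm.mul_apply]

lemma pathSum_eq_of_le (σ : Perm X) (b : X → A)
    (hb : ∀ x (n : ℕ), (σ ^ n) x = x → pathSum σ b x n = 0) (r : X) {k k' : ℕ} (hk : k ≤ k')
    (h : (σ ^ k) r = (σ ^ k') r) : pathSum σ b r k = pathSum σ b r k' := by
  obtain ⟨n, rfl⟩ := Nat.exists_eq_add_of_le hk
  rw [pathSum_add, hb ((σ ^ k) r) n, add_zero]
  rw [← Perm.mul_apply, ← pow_add, add_comm n k]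
  exact h.symm

lemma pathSum_eq (σ : Perm X) (b : X → A)
    (hb : ∀ x (n : ℕ), (σ ^ n) x = x → pathSum σ b x n = 0) (r : X) {k k' : ℕ}
    (h : (σ ^ k) r = (σ ^ k') r) : pathSum σ b r k = pathSum σ b r k' := by
  rcases le_total k k' with hk | hk
  · exact pathSum_eq_of_le σ b hb r hk h
  · exact (pathSum_eq_of_le σ b hb r hk h.symm).symm

/-- **Cycle sums zero ⇒ coboundary** (values in an arbitrary abelian group). -/
theorem exists_cobd_of_cycle_sum_zero [Finite X] (σ : Perm X) (b : X → A)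
    (hb : ∀ x (n : ℕ), (σ ^ n) x = x → ∑ j ∈ Finset.range n, b ((σ ^ j) x) = 0) :
    ∃ h : X → A, ∀ x, b x = h (σ x) - h x := by
  classical
  let s : Setoid X := Perm.SameCycle.setoid σ
  let rep : X → X := fun x => Quotient.out (Quotient.mk s x)
  have hrep : ∀ x, Perm.SameCycle σ (rep x) x := fun x => Quotient.mk_out (s := s) x
  have hk : ∀ x, ∃ k : ℕ, (σ ^ k) (rep x) = x := fun x => (hrep x).exists_nat_pow_eq
  choose k hkx using hk
  have hrepσ : ∀ x, rep (σ x) = rep x := by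
    intro x
    have : Quotient.mk s (σ x) = Quotient.mk s x :=
      Quotient.sound (Perm.sameCycle_apply_left.mpr (Perm.SameCycle.refl σ x))
    show Quotient.out (Quotient.mk s (σ x)) = Quotient.out (Quotient.mk s x)
    rw [this]
  refine ⟨fun x => pathSum σ b (rep x) (k x), fun x => ?_⟩
  have h1 : (σ ^ (k (σ x))) (rep x) = (σ ^ (k x + 1)) (rep x) := by
    have := hkx (σ x)
    rw [hrepσ] at this
    rw [this, pow_succ', Perm.mul_apply, hkx]
  have h2 : pathSum σ b (rep (σ x)) (k (σ x)) = pathSum σ b (rep x) (k x + 1) := by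
    rw [hrepσ]
    exact pathSum_eq σ b hb (rep x) h1
  show b x = pathSum σ b (rep (σ x)) (k (σ x)) - pathSum σ b (rep x) (k x)
  rw [h2, pathSum_succ, hkx]
  abel

end

end Fermat.Agent.S41.H585

end
-- ===== PACK-END S41/H585/PDCobd.lean

-- ===== PACK-BEGIN S59/H307/GlueMat.lean
section


/-!
# S59 / layer G4, piece GLUE (helper307): descent of a 2-dimensional representation to a subring
# of a product — matrix level

Setting (Wiles, Carayol): `T` a local ring in which `2` is a unit, `ψ i : T →+* O i` a jointly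
injective family of local homomorphisms to local rings, `m i : G →* M₂(O i)` representations whose
traces come from `T` (`ψ i (τ σ) = tr (m i σ)`), `c ∈ G` an involution with `τ c = 0` (complex
conjugation), and one of the `m i` "residually irreducible" in the weak matrix form `hirr` (in every
basis the two off-diagonal entries are units for suitable group elements).

Conclusion (`exists_glued`): there is `M : G →* M₂(T)` with `tr (M σ) = τ σ` and invertible `P i`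
with `ψ i (M σ) = (P i)⁻¹ m i σ (P i)` for all `i`, `σ`.

Everything is explicit `2 × 2` matrix algebra: in an eigenbasis of `c` the diagonal entries of
`m i σ` are `(tr σ ± tr cσ)/2`, the products `b(σ) c(σ')` are `a(σσ') - a(σ) a(σ')`, and after
normalising `b(σ₁) = 1` all entries are images of elements of `T`.
-/

set_option autoImplicit false
set_option linter.unusedSectionVars false
set_option linter.unusedVariables false

namespace Fermat.Agent.S59.H307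

open Matrix

section Mat2

variable {A : Type*} [CommRing A]

theorem mat2_ext {M N : Matrix (Fin 2) (Fin 2) A} (h00 : M 0 0 = N 0 0) (h01 : M 0 1 = N 0 1)
    (h10 : M 1 0 = N 1 0) (h11 : M 1 1 = N 1 1) : M = N := by
  ext i j
  fin_cases i <;> fin_cases j
  · exact h00
  · exact h01
  · exact h10
  · exact h11

theorem mat2_mul_apply (M N : Matrix (Fin 2) (Fin 2) A) (i j : Fin 2) :
    (M * N) i j = M i 0 * N 0 j + M i 1 * N 1 j := by
  rw [Matrix.mul_apply, Fin.sum_univ_two]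

theorem mat2_of_00 (a b c d : A) : (!![a, b; c, d] : Matrix (Fin 2) (Fin 2) A) 0 0 = a := rfl
theorem mat2_of_01 (a b c d : A) : (!![a, b; c, d] : Matrix (Fin 2) (Fin 2) A) 0 1 = b := rfl
theorem mat2_of_10 (a b c d : A) : (!![a, b; c, d] : Matrix (Fin 2) (Fin 2) A) 1 0 = c := rfl
theorem mat2_of_11 (a b c d : A) : (!![a, b; c, d] : Matrix (Fin 2) (Fin 2) A) 1 1 = d := rfl

theorem mat2_one_00 : (1 : Matrix (Fin 2) (Fin 2) A) 0 0 = 1 := rfl
theorem mat2_one_01 : (1 : Matrix (Fin 2) (Fin 2) A) 0 1 = 0 := rfl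
theorem mat2_one_10 : (1 : Matrix (Fin 2) (Fin 2) A) 1 0 = 0 := rfl
theorem mat2_one_11 : (1 : Matrix (Fin 2) (Fin 2) A) 1 1 = 1 := rfl

/-- The diagonal matrix `diag(1, u)`. -/
def dg (u : A) : Matrix (Fin 2) (Fin 2) A := !![1, 0; 0, u]

theorem dg_mul_dg (u v : A) : dg u * dg v = dg (u * v) := by
  apply mat2_ext <;> simp only [dg, mat2_mul_apply, mat2_of_00, mat2_of_01, mat2_of_10,
    mat2_of_11] <;> ring

theorem dg_one : dg (1 : A) = 1 := by
  apply mat2_ext <;> simp only [dg, mat2_of_00, mat2_of_01, mat2_of_10,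
    mat2_of_11, mat2_one_00, mat2_one_01, mat2_one_10, mat2_one_11]

theorem dg_mul_mul_dg (v u : A) (M : Matrix (Fin 2) (Fin 2) A) :
    dg v * M * dg u = !![M 0 0, M 0 1 * u; v * M 1 0, v * M 1 1 * u] := by
  apply mat2_ext <;> simp only [dg, mat2_mul_apply, mat2_of_00, mat2_of_01, mat2_of_10,
    mat2_of_11] <;> ring

theorem dgneg_mul (M : Matrix (Fin 2) (Fin 2) A) :
    dg (-1) * M = !![M 0 0, M 0 1; - M 1 0, - M 1 1] := by
  apply mat2_ext <;> simp only [dg, mat2_mul_apply, mat2_of_00, mat2_of_01, mat2_of_10,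
    mat2_of_11] <;> ring

/-- A trace-zero involution in `M₂(A)`, `A` local with `2` invertible, is conjugate to
`diag(1, -1)`. -/
theorem exists_conj_diag [IsLocalRing A] (h2 : IsUnit (2 : A)) (C : Matrix (Fin 2) (Fin 2) A)
    (hC : C * C = 1) (htr : C.trace = 0) :
    ∃ P Q : Matrix (Fin 2) (Fin 2) A, P * Q = 1 ∧ Q * P = 1 ∧ Q * C * P = dg (-1) := by
  have hw : C 1 1 = - C 0 0 := by
    have := htr
    rw [Matrix.trace_fin_two] at this
    linear_combination this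
  have h00 : C 0 0 * C 0 0 + C 0 1 * C 1 0 = 1 := by
    have := congrFun (congrFun hC 0) 0
    rw [mat2_mul_apply] at this
    exact this
  have key : ∀ P : Matrix (Fin 2) (Fin 2) A, IsUnit P.det → C * P = P * dg (-1) →
      ∃ P Q : Matrix (Fin 2) (Fin 2) A, P * Q = 1 ∧ Q * P = 1 ∧ Q * C * P = dg (-1) := by
    intro P hP hCP
    refine ⟨P, P⁻¹, Matrix.mul_nonsing_inv P hP, Matrix.nonsing_inv_mul P hP, ?_⟩
    rw [Matrix.mul_assoc, hCP, ← Matrix.mul_assoc, Matrix.nonsing_inv_mul P hP, Matrix.one_mul]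
  have hsum : IsUnit ((1 + C 0 0) + (1 - C 0 0)) := by
    have : (1 + C 0 0) + (1 - C 0 0) = 2 := by ring
    rw [this]; exact h2
  rcases IsLocalRing.isUnit_or_isUnit_of_isUnit_add hsum with hu | hu
  · -- `1 + x` is a unit
    refine key !![1 + C 0 0, -C 0 1; C 1 0, 1 + C 0 0] ?_ ?_
    · rw [Matrix.det_fin_two_of]
      have : (1 + C 0 0) * (1 + C 0 0) - -C 0 1 * C 1 0 = 2 * (1 + C 0 0) := by
        linear_combination h00
      rw [this]; exact h2.mul hu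
    · apply mat2_ext <;> simp only [dg, mat2_mul_apply, mat2_of_00, mat2_of_01, mat2_of_10,
        mat2_of_11, hw]
      · linear_combination h00
      · ring
      · ring
      · linear_combination (-1 : A) * h00
  · -- `1 - x` is a unit
    refine key !![C 0 1, 1 - C 0 0; 1 - C 0 0, -C 1 0] ?_ ?_
    · rw [Matrix.det_fin_two_of]
      have : C 0 1 * -C 1 0 - (1 - C 0 0) * (1 - C 0 0) = -(2 * (1 - C 0 0)) := by
        linear_combination (-1 : A) * h00
      rw [this]; exact (h2.mul hu).neg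
    · apply mat2_ext <;> simp only [dg, mat2_mul_apply, mat2_of_00, mat2_of_01, mat2_of_10,
        mat2_of_11, hw]
      · ring
      · linear_combination (-1 : A) * h00
      · linear_combination h00
      · ring

end Mat2

section Conj

variable {G : Type*} [Monoid G] {A : Type*} [CommRing A]

/-- Conjugate of a matrix representation by an invertible matrix. -/
def conjHom (m : G →* Matrix (Fin 2) (Fin 2) A) (P Q : Matrix (Fin 2) (Fin 2) A)
    (hPQ : P * Q = 1) (hQP : Q * P = 1) : G →* Matrix (Fin 2) (Fin 2) A where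
  toFun σ := Q * m σ * P
  map_one' := by rw [map_one, Matrix.mul_one, hQP]
  map_mul' σ σ' := by
    rw [map_mul]
    calc Q * (m σ * m σ') * P = Q * m σ * (1 : Matrix (Fin 2) (Fin 2) A) * (m σ' * P) := by
          simp only [Matrix.mul_assoc, Matrix.one_mul]
      _ = Q * m σ * P * (Q * m σ' * P) := by
          rw [← hPQ]; simp only [Matrix.mul_assoc]

theorem conjHom_apply (m : G →* Matrix (Fin 2) (Fin 2) A) (P Q : Matrix (Fin 2) (Fin 2) A)
    (hPQ : P * Q = 1) (hQP : Q * P = 1) (σ : G) : conjHom m P Q hPQ hQP σ = Q * m σ * P := rfl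

theorem trace_conj (M P Q : Matrix (Fin 2) (Fin 2) A) (hPQ : P * Q = 1) :
    (Q * M * P).trace = M.trace := by
  rw [Matrix.trace_mul_comm, ← Matrix.mul_assoc, hPQ, Matrix.one_mul]

end Conj

section Glue

variable {G : Type*} [Group G] {T : Type*} [CommRing T] [IsLocalRing T]
  {ι : Type*} {O : ι → Type*} [∀ i, CommRing (O i)] [∀ i, IsLocalRing (O i)]

/-- Joint injectivity passes to matrices. -/
theorem mat_eq_of_forall_map_eq (ψ : ∀ i, T →+* O i)
    (hinj : ∀ t : T, (∀ i, ψ i t = 0) → t = 0) {X Y : Matrix (Fin 2) (Fin 2) T}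
    (h : ∀ i, X.map (ψ i) = Y.map (ψ i)) : X = Y := by
  ext j k
  rw [← sub_eq_zero]
  refine hinj _ fun i => ?_
  have := congrFun (congrFun (h i) j) k
  rw [Matrix.map_apply, Matrix.map_apply] at this
  rw [map_sub, this, sub_self]

/-- **Gluing, diagonalised form.**  If all `m i c` are equal to `diag(1, -1)` and the off-diagonal
entries of `m i₀` take unit values, then the `m i` descend, after rescaling the second basis
vector, to a representation over `T`. -/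
theorem exists_glued_of_diag (ψ : ∀ i, T →+* O i) (hloc : ∀ i, IsLocalHom (ψ i))
    (hinj : ∀ t : T, (∀ i, ψ i t = 0) → t = 0) (h2 : IsUnit (2 : T))
    (m : ∀ i, G →* Matrix (Fin 2) (Fin 2) (O i)) (τ : G → T)
    (hτ : ∀ i σ, ψ i (τ σ) = (m i σ).trace) (c : G) (hc : ∀ i, m i c = dg (-1))
    (i₀ : ι) (σ₁ σ₂ : G) (h₁ : IsUnit (m i₀ σ₁ 0 1)) (h₂ : IsUnit (m i₀ σ₂ 1 0)) :
    ∃ M : G →* Matrix (Fin 2) (Fin 2) T, (∀ σ, (M σ).trace = τ σ) ∧
      ∀ i, ∃ u v : O i, u * v = 1 ∧ ∀ σ, (M σ).map (ψ i) = dg v * m i σ * dg u := by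
  classical
  obtain ⟨h, hh⟩ := h2.exists_right_inv
  -- entries of `m i (c σ)`
  have hcσ : ∀ i σ, m i (c * σ) = !![m i σ 0 0, m i σ 0 1; - m i σ 1 0, - m i σ 1 1] := by
    intro i σ
    rw [map_mul, hc i, dgneg_mul]
  have htr1 : ∀ i σ, ψ i (τ σ) = m i σ 0 0 + m i σ 1 1 := by
    intro i σ; rw [hτ, Matrix.trace_fin_two]
  have htr2 : ∀ i σ, ψ i (τ (c * σ)) = m i σ 0 0 - m i σ 1 1 := by
    intro i σ
    rw [hτ, Matrix.trace_fin_two, hcσ, mat2_of_00, mat2_of_11]; ring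
  have hψh : ∀ i, 2 * ψ i h = 1 := by
    intro i
    have := congrArg (ψ i) hh
    rwa [map_mul, map_one, map_ofNat] at this
  -- the diagonal entries
  obtain ⟨aT, haT⟩ : ∃ aT : G → T, ∀ σ, aT σ = h * (τ σ + τ (c * σ)) := ⟨_, fun _ => rfl⟩
  obtain ⟨dT, hdT⟩ : ∃ dT : G → T, ∀ σ, dT σ = h * (τ σ - τ (c * σ)) := ⟨_, fun _ => rfl⟩
  have hA : ∀ i σ, ψ i (aT σ) = m i σ 0 0 := by
    intro i σ
    rw [haT, map_mul, map_add, htr2, htr1]
    linear_combination (m i σ 0 0) * hψh i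
  have hD : ∀ i σ, ψ i (dT σ) = m i σ 1 1 := by
    intro i σ
    rw [hdT, map_mul, map_sub, htr2, htr1]
    linear_combination (m i σ 1 1) * hψh i
  -- products of off-diagonal entries
  obtain ⟨xT, hxT⟩ : ∃ xT : G → G → T, ∀ σ σ', xT σ σ' = aT (σ * σ') - aT σ * aT σ' :=
    ⟨_, fun _ _ => rfl⟩
  have hX : ∀ i σ σ', ψ i (xT σ σ') = m i σ 0 1 * m i σ' 1 0 := by
    intro i σ σ'
    rw [hxT, map_sub, map_mul, hA, hA, hA, map_mul, mat2_mul_apply]; ring
  -- the unit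
  have hunit : IsUnit (xT σ₁ σ₂) := by
    have := hloc i₀
    apply isUnit_of_map_unit (ψ i₀)
    rw [hX]; exact h₁.mul h₂
  obtain ⟨w, hw⟩ := hunit.exists_right_inv
  have hw' : ∀ i, m i σ₁ 0 1 * (m i σ₂ 1 0 * ψ i w) = 1 := by
    intro i
    have := congrArg (ψ i) hw
    rw [map_mul, map_one, hX] at this
    rw [← mul_assoc]; exact this
  obtain ⟨bT, hbT⟩ : ∃ bT : G → T, ∀ σ, bT σ = xT σ σ₂ * w := ⟨_, fun _ => rfl⟩
  obtain ⟨cT, hcT⟩ : ∃ cT : G → T, ∀ σ, cT σ = xT σ₁ σ := ⟨_, fun _ => rfl⟩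
  have hB : ∀ i σ, ψ i (bT σ) = m i σ 0 1 * (m i σ₂ 1 0 * ψ i w) := by
    intro i σ
    rw [hbT, map_mul, hX]; ring
  have hCc : ∀ i σ, ψ i (cT σ) = m i σ₁ 0 1 * m i σ 1 0 := by
    intro i σ
    rw [hcT, hX]
  obtain ⟨Mf, hMf⟩ : ∃ Mf : G → Matrix (Fin 2) (Fin 2) T,
      ∀ σ, Mf σ = !![aT σ, bT σ; cT σ, dT σ] := ⟨_, fun _ => rfl⟩
  have hM : ∀ i σ, (Mf σ).map (ψ i) =
      dg (m i σ₁ 0 1) * m i σ * dg (m i σ₂ 1 0 * ψ i w) := by
    intro i σ
    rw [dg_mul_mul_dg]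
    apply mat2_ext
    · rw [Matrix.map_apply, mat2_of_00, hMf, mat2_of_00, hA]
    · rw [Matrix.map_apply, mat2_of_01, hMf, mat2_of_01, hB]
    · rw [Matrix.map_apply, mat2_of_10, hMf, mat2_of_10, hCc]
    · rw [Matrix.map_apply, mat2_of_11, hMf, mat2_of_11, hD]
      linear_combination (-(m i σ 1 1)) * hw' i
  have hUV : ∀ i, dg (m i σ₂ 1 0 * ψ i w) * dg (m i σ₁ 0 1) = 1 := by
    intro i
    rw [dg_mul_dg, mul_comm, hw' i, dg_one]
  have hVU : ∀ i, dg (m i σ₁ 0 1) * dg (m i σ₂ 1 0 * ψ i w) = 1 := by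
    intro i
    rw [dg_mul_dg, hw' i, dg_one]
  have hone : Mf 1 = 1 := by
    apply mat_eq_of_forall_map_eq ψ hinj
    intro i
    rw [hM, map_one, Matrix.mul_one, hVU]
    exact (Matrix.map_one (ψ i) (map_zero _) (map_one _)).symm
  have hmul : ∀ σ σ', Mf (σ * σ') = Mf σ * Mf σ' := by
    intro σ σ'
    apply mat_eq_of_forall_map_eq ψ hinj
    intro i
    rw [Matrix.map_mul, hM, hM, hM, map_mul]
    calc dg (m i σ₁ 0 1) * (m i σ * m i σ') * dg (m i σ₂ 1 0 * ψ i w)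
        = dg (m i σ₁ 0 1) * m i σ * (1 : Matrix (Fin 2) (Fin 2) (O i)) *
            (m i σ' * dg (m i σ₂ 1 0 * ψ i w)) := by
          simp only [Matrix.mul_assoc, Matrix.one_mul]
      _ = _ := by
          rw [← hUV i]; simp only [Matrix.mul_assoc]
  refine ⟨{ toFun := Mf, map_one' := hone, map_mul' := hmul }, ?_, ?_⟩
  · intro σ
    show (Mf σ).trace = τ σ
    rw [Matrix.trace_fin_two, hMf, mat2_of_00, mat2_of_11, haT, hdT]
    linear_combination (τ σ) * hh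
  · intro i
    exact ⟨m i σ₂ 1 0 * ψ i w, m i σ₁ 0 1, by rw [mul_comm]; exact hw' i, fun σ => hM i σ⟩

/-- **Gluing, matrix form.** -/
theorem exists_glued (ψ : ∀ i, T →+* O i) (hloc : ∀ i, IsLocalHom (ψ i))
    (hinj : ∀ t : T, (∀ i, ψ i t = 0) → t = 0) (h2 : IsUnit (2 : T))
    (m : ∀ i, G →* Matrix (Fin 2) (Fin 2) (O i)) (τ : G → T)
    (hτ : ∀ i σ, ψ i (τ σ) = (m i σ).trace) (c : G) (hcc : c * c = 1) (hτc : τ c = 0)
    (i₀ : ι)
    (hirr : ∀ P Q : Matrix (Fin 2) (Fin 2) (O i₀), P * Q = 1 → Q * P = 1 →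
      (∃ σ, IsUnit ((Q * m i₀ σ * P) 0 1)) ∧ (∃ σ, IsUnit ((Q * m i₀ σ * P) 1 0))) :
    ∃ M : G →* Matrix (Fin 2) (Fin 2) T, (∀ σ, (M σ).trace = τ σ) ∧
      ∀ i, ∃ P Q : Matrix (Fin 2) (Fin 2) (O i), P * Q = 1 ∧ Q * P = 1 ∧
        ∀ σ, (M σ).map (ψ i) = Q * m i σ * P := by
  classical
  have h2' : ∀ i, IsUnit (2 : O i) := by
    intro i
    have := h2.map (ψ i)
    rwa [map_ofNat] at this
  have hex : ∀ i, ∃ P Q : Matrix (Fin 2) (Fin 2) (O i),
      P * Q = 1 ∧ Q * P = 1 ∧ Q * m i c * P = dg (-1) := by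
    intro i
    refine exists_conj_diag (h2' i) (m i c) ?_ ?_
    · rw [← map_mul, hcc, map_one]
    · rw [← hτ, hτc, map_zero]
  choose P Q hPQ hQP hD using hex
  obtain ⟨⟨σ₁, h₁⟩, ⟨σ₂, h₂⟩⟩ := hirr (P i₀) (Q i₀) (hPQ i₀) (hQP i₀)
  obtain ⟨M, hMtr, hM⟩ := exists_glued_of_diag ψ hloc hinj h2
    (fun i => conjHom (m i) (P i) (Q i) (hPQ i) (hQP i)) τ
    (fun i σ => by rw [conjHom_apply, trace_conj _ _ _ (hPQ i)]; exact hτ i σ) c
    (fun i => hD i) i₀ σ₁ σ₂ h₁ h₂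
  refine ⟨M, hMtr, fun i => ?_⟩
  obtain ⟨u, v, huv, hMi⟩ := hM i
  refine ⟨P i * dg u, dg v * Q i, ?_, ?_, fun σ => ?_⟩
  · calc P i * dg u * (dg v * Q i) = P i * (dg u * dg v) * Q i := by
          simp only [Matrix.mul_assoc]
      _ = 1 := by rw [dg_mul_dg, huv, dg_one, Matrix.mul_one, hPQ]
  · calc dg v * Q i * (P i * dg u) = dg v * (Q i * P i) * dg u := by
          simp only [Matrix.mul_assoc]
      _ = 1 := by rw [hQP, Matrix.mul_one, dg_mul_dg, mul_comm, huv, dg_one]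
  · rw [hMi σ, conjHom_apply]
    simp only [Matrix.mul_assoc]

end Glue

end Fermat.Agent.S59.H307

end
-- ===== PACK-END S59/H307/GlueMat.lean

-- ===== PACK-BEGIN S58/H273/AbsIrrOdd.lean
section



/-!
# Row S58, leaf HRES, part 1 (helper273): irreducible + odd ⇒ absolutely irreducible

Pure linear algebra.  Let `V` be a vector space of dimension two over a field `k` with `2 ≠ 0`,
let a monoid `G` act on `V` through `r : G →* End_k(V)` without nontrivial stable `k`-subspace,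
and let `c ∈ G` satisfy `r(c)² = 1`, `det r(c) = -1`.  Then for every field extension `K / k`
the module `K ⊗ V` has no nontrivial `G`-stable `K`-subspace
(`eq_bot_or_eq_top_of_involution`).

Consequence for the Prelude's residual representations: an irreducible `ρ̄` which has determinant
`-1` at some involution is absolutely irreducible (`absIrr_of_irr_of_involution`).
-/

set_option autoImplicit false

open scoped TensorProduct

namespace Fermat.Agent.S58.H273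

section LinAlg

variable {k : Type*} [Field k] {V : Type*} [AddCommGroup V] [Module k V]

/-- An involution of determinant `-1` of a plane (`2 ≠ 0`) has an eigenvector for `1` and an
eigenvector for `-1`. -/
theorem exists_eigenvectors_of_involution (h2 : (2 : k) ≠ 0) (hV : Module.finrank k V = 2)
    (T : Module.End k V) (hT : T * T = 1) (hdet : LinearMap.det T = -1) :
    ∃ v w : V, v ≠ 0 ∧ w ≠ 0 ∧ T v = v ∧ T w = -w := by
  have hTT : ∀ x, T (T x) = x := fun x => by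
    have := congrArg (fun f : Module.End k V => f x) hT
    simpa using this
  have hne : (1 : k) ≠ -1 := by
    intro h
    apply h2
    have : (2 : k) = 1 + 1 := by norm_num
    rw [this]
    nth_rewrite 1 [h]
    ring
  -- `T ≠ -1`
  have h1 : ∃ x, T x + x ≠ 0 := by
    by_contra hcon
    have hcon' : ∀ x, T x + x = 0 := fun x => by
      by_contra hx
      exact hcon ⟨x, hx⟩
    have hTe : T = (-1 : k) • (1 : Module.End k V) := by
      ext x
      have := hcon' x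
      rw [neg_smul, one_smul]
      exact eq_neg_of_add_eq_zero_left this
    rw [hTe, LinearMap.det_smul, hV, map_one] at hdet
    apply hne
    rw [← hdet]
    ring
  -- `T ≠ 1`
  have h2' : ∃ y, T y - y ≠ 0 := by
    by_contra hcon
    have hcon' : ∀ x, T x - x = 0 := fun x => by
      by_contra hx
      exact hcon ⟨x, hx⟩
    have hTe : T = 1 := by
      ext x
      have := hcon' x
      rw [Module.End.one_apply]
      exact sub_eq_zero.mp this
    rw [hTe, map_one] at hdet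
    exact hne hdet
  obtain ⟨x, hx⟩ := h1
  obtain ⟨y, hy⟩ := h2'
  refine ⟨T x + x, T y - y, hx, hy, ?_, ?_⟩
  · rw [map_add, hTT, add_comm]
  · rw [map_sub, hTT, neg_sub]

/-- The two eigenvectors form a basis. -/
theorem linearIndependent_eigenvectors (h2 : (2 : k) ≠ 0) (T : Module.End k V) {v w : V}
    (hv : v ≠ 0) (hw : w ≠ 0) (hTv : T v = v) (hTw : T w = -w) :
    LinearIndependent k ![v, w] := by
  rw [LinearIndependent.pair_iff]
  intro s t hst
  have h1 : s • v - t • w = 0 := by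
    have := congrArg T hst
    rw [map_add, map_smul, map_smul, hTv, hTw, map_zero, smul_neg, ← sub_eq_add_neg] at this
    exact this
  have h3 : (2 * s) • v = 0 := by
    have : (2 * s) • v = (s • v + t • w) + (s • v - t • w) := by
      rw [mul_smul, two_smul]; abel
    rw [this, hst, h1, add_zero]
  have hs : s = 0 := by
    rcases smul_eq_zero.mp h3 with h | h
    · rcases mul_eq_zero.mp h with h' | h'
      · exact absurd h' h2
      · exact h'
    · exact absurd h hv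
  refine ⟨hs, ?_⟩
  rw [hs, zero_smul, zero_add] at hst
  rcases smul_eq_zero.mp hst with h | h
  · exact h
  · exact absurd h hw

variable {G : Type*} [Monoid G]

/-- **Irreducible + odd ⇒ absolutely irreducible**, linear algebra form. -/
theorem eq_bot_or_eq_top_of_involution (h2 : (2 : k) ≠ 0) (hV : Module.finrank k V = 2)
    (r : G →* Module.End k V)
    (hirr : ∀ W : Submodule k V, (∀ σ : G, ∀ x ∈ W, r σ x ∈ W) → W = ⊥ ∨ W = ⊤)
    (c : G) (hc : c * c = 1) (hdet : LinearMap.det (r c) = -1)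
    (K : Type*) [Field K] [Algebra k K]
    (L : Submodule K (K ⊗[k] V))
    (hL : ∀ σ : G, ∀ x ∈ L, (r σ).baseChange K x ∈ L) :
    L = ⊥ ∨ L = ⊤ := by
  classical
  have hT : r c * r c = 1 := by rw [← map_mul, hc, map_one]
  obtain ⟨v, w, hv, hw, hTv, hTw⟩ := exists_eigenvectors_of_involution h2 hV (r c) hT hdet
  have hli := linearIndependent_eigenvectors h2 (r c) hv hw hTv hTw
  have hcard : Fintype.card (Fin 2) = Module.finrank k V := by rw [hV]; rfl
  let b : Module.Basis (Fin 2) k V := basisOfLinearIndependentOfCardEqFinrank hli hcard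
  have hb0 : b 0 = v := by
    simp [b, coe_basisOfLinearIndependentOfCardEqFinrank]
  have hb1 : b 1 = w := by
    simp [b, coe_basisOfLinearIndependentOfCardEqFinrank]
  let bK : Module.Basis (Fin 2) K (K ⊗[k] V) := Algebra.TensorProduct.basis K b
  have hbK0 : bK 0 = (1 : K) ⊗ₜ[k] v := by
    rw [← hb0]; exact Algebra.TensorProduct.basis_apply b 0
  have hbK1 : bK 1 = (1 : K) ⊗ₜ[k] w := by
    rw [← hb1]; exact Algebra.TensorProduct.basis_apply b 1
  -- the `k`-subspace of the `x` with `1 ⊗ x ∈ L`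
  let L₀ : Submodule k V :=
    { carrier := {x | (1 : K) ⊗ₜ[k] x ∈ L}
      add_mem' := by
        intro x y hx hy
        change (1 : K) ⊗ₜ[k] (x + y) ∈ L
        rw [TensorProduct.tmul_add]
        exact L.add_mem hx hy
      zero_mem' := by
        change (1 : K) ⊗ₜ[k] (0 : V) ∈ L
        rw [TensorProduct.tmul_zero]
        exact L.zero_mem
      smul_mem' := by
        intro a x hx
        change (1 : K) ⊗ₜ[k] (a • x) ∈ L
        have : (1 : K) ⊗ₜ[k] (a • x) = (algebraMap k K a) • ((1 : K) ⊗ₜ[k] x) := by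
          rw [TensorProduct.tmul_smul, TensorProduct.smul_tmul', TensorProduct.smul_tmul',
            Algebra.smul_def, mul_one, smul_eq_mul, mul_one]
        rw [this]
        exact L.smul_mem _ hx }
  have hL₀mem : ∀ x, x ∈ L₀ ↔ (1 : K) ⊗ₜ[k] x ∈ L := fun x => Iff.rfl
  have hL₀ : ∀ σ : G, ∀ x ∈ L₀, r σ x ∈ L₀ := by
    intro σ x hx
    rw [hL₀mem] at hx ⊢
    have := hL σ _ hx
    rwa [LinearMap.baseChange_tmul] at this
  rcases hirr L₀ hL₀ with hbot | htop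
  · -- `L = ⊥`
    left
    rw [eq_bot_iff]
    intro u hu
    rw [Submodule.mem_bot]
    obtain ⟨α, β, hexp⟩ : ∃ α β : K, u = α • bK 0 + β • bK 1 :=
      ⟨bK.repr u 0, bK.repr u 1, by
        rw [← Fin.sum_univ_two (f := fun i => bK.repr u i • bK i)]
        exact (bK.sum_repr u).symm⟩
    have hTu : (r c).baseChange K u = α • bK 0 - β • bK 1 := by
      rw [hexp, map_add, map_smul, map_smul, hbK0, hbK1, LinearMap.baseChange_tmul,
        LinearMap.baseChange_tmul, hTv, hTw, TensorProduct.tmul_neg, smul_neg, sub_eq_add_neg]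
    have hTuL : (r c).baseChange K u ∈ L := hL c u hu
    have h2K : (2 : K) ≠ 0 := by
      have : (2 : K) = algebraMap k K 2 := (map_ofNat (algebraMap k K) 2).symm
      rw [this]
      exact (map_ne_zero (algebraMap k K)).mpr h2
    have hα : α = 0 := by
      by_contra hα
      have hmem : (2 * α) • bK 0 ∈ L := by
        have : (2 * α) • bK 0 = u + (r c).baseChange K u := by
          rw [hTu, hexp, mul_smul, two_smul]; abel
        rw [this]
        exact L.add_mem hu hTuL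
      have hmem' : bK 0 ∈ L := by
        have := L.smul_mem (2 * α)⁻¹ hmem
        rwa [smul_smul, inv_mul_cancel₀ (mul_ne_zero h2K hα), one_smul] at this
      rw [hbK0, ← hL₀mem, hbot, Submodule.mem_bot] at hmem'
      exact hv hmem'
    have hβ : β = 0 := by
      by_contra hβ
      have hmem : (2 * β) • bK 1 ∈ L := by
        have : (2 * β) • bK 1 = u - (r c).baseChange K u := by
          rw [hTu, hexp, mul_smul, two_smul]; abel
        rw [this]
        exact L.sub_mem hu hTuL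
      have hmem' : bK 1 ∈ L := by
        have := L.smul_mem (2 * β)⁻¹ hmem
        rwa [smul_smul, inv_mul_cancel₀ (mul_ne_zero h2K hβ), one_smul] at this
      rw [hbK1, ← hL₀mem, hbot, Submodule.mem_bot] at hmem'
      exact hw hmem'
    rw [hexp, hα, hβ, zero_smul, zero_smul, add_zero]
  · -- `L = ⊤`
    right
    have hall : ∀ u : K ⊗[k] V, u ∈ L := by
      intro u
      induction u using TensorProduct.induction_on with
      | zero => exact L.zero_mem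
      | tmul a x =>
        have hx : (1 : K) ⊗ₜ[k] x ∈ L := by
          rw [← hL₀mem, htop]; trivial
        have : a ⊗ₜ[k] x = a • ((1 : K) ⊗ₜ[k] x) := by
          rw [TensorProduct.smul_tmul', smul_eq_mul, mul_one]
        rw [this]
        exact L.smul_mem _ hx
      | add x y hx hy => exact L.add_mem hx hy
    rw [eq_top_iff]
    intro u _
    exact hall u

end LinAlg

/-- **Irreducible + odd ⇒ absolutely irreducible** for the Prelude's residual representations: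
if `ρ̄` is irreducible, `2 ≠ 0` in `k`, and `det ρ̄(c) = -1` for some involution `c`, then `ρ̄` is
absolutely irreducible. -/
theorem absIrr_of_irr_of_involution {k : Type} [Field k] (h2 : (2 : k) ≠ 0)
    (ρbar : ResidualGaloisRep k) (hirr : ρbar.IsIrreducible)
    (c : AlgebraicClosure ℚ ≃ₐ[ℚ] AlgebraicClosure ℚ) (hc : c * c = 1)
    (hdet : LinearMap.det (ρbar.ρ c) = -1) :
    ρbar.IsAbsolutelyIrreducible := by
  intro L hL
  exact eq_bot_or_eq_top_of_involution h2 ρbar.finrank_eq ρbar.ρ hirr c hc hdet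
    (AlgebraicClosure k) L hL

end Fermat.Agent.S58.H273

end
-- ===== PACK-END S58/H273/AbsIrrOdd.lean

-- ===== PACK-BEGIN S59/G4/H178/Involution.lean
section


/-!
# S59 / G4 / ODD, field-theoretic core (helper178) — Mathlib only

An involution `c ≠ 1` of an algebraically closed field `K` with `2 ≠ 0` inverts every root of
unity of odd prime-power order (a fragment of Artin–Schreier theory, proved by hand):

* `K = F ⊕ F θ` with `F` the fixed field, `c θ = -θ`;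
* `-1` is not a square in `F` (`neg_one_not_sq_fixed`);
* sums of squares of fixed elements are squares of fixed elements (`exists_fixed_sq_eq_sum`);
* a `p`-th root of unity `ζ ≠ 1` (`p` odd) is not fixed: otherwise `-1 = ζ + ⋯ + ζ^(p-1)` is a sum
  of squares of fixed elements (`ne_of_primitive`);
* hence `μ * c μ = 1` whenever `μ ^ p ^ n = 1` (`involution_mul_self_eq_one`).
-/

set_option autoImplicit false

namespace Fermat.Agent.S59.G4.H178

open Finset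

section Core

variable {K : Type*} [Field K] [IsAlgClosed K]

omit [IsAlgClosed K] in
/-- The norm `w * c w` of an involution is fixed. -/
theorem norm_fixed (c : K ≃+* K) (hc : ∀ x, c (c x) = x) (w : K) : c (w * c w) = w * c w := by
  rw [map_mul, hc, mul_comm]

/-- For an involution `c ≠ 1` of an algebraically closed field with `2 ≠ 0`, a square root of
`-1` is not fixed. -/
theorem neg_one_not_sq_fixed (h2 : (2 : K) ≠ 0) (c : K ≃+* K) (hc : ∀ x, c (c x) = x)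
    (hne : ∃ x, c x ≠ x) (i : K) (hi : i * i = -1) : c i ≠ i := by
  intro hfix
  obtain ⟨x, hx⟩ := hne
  -- `θ` is anti-fixed and nonzero
  set θ : K := x - c x with hθ
  have hθ0 : θ ≠ 0 := fun h => hx (by rw [hθ, sub_eq_zero] at h; exact h.symm)
  have hcθ : c θ = -θ := by rw [hθ, map_sub, hc]; ring
  -- a square root `w` of `θ`
  obtain ⟨w, hw⟩ := IsAlgClosed.exists_pow_nat_eq θ (n := 2) (by norm_num)
  have hN : c (w * c w) = w * c w := norm_fixed c hc w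
  have hN2 : (w * c w) ^ 2 = -(θ ^ 2) := by
    have : c w ^ 2 = -θ := by rw [← map_pow, hw, hcθ]
    calc (w * c w) ^ 2 = w ^ 2 * c w ^ 2 := by ring
      _ = θ * -θ := by rw [hw, this]
      _ = -(θ ^ 2) := by ring
  -- `θ ^ 2 = (i * N) ^ 2`
  have h3 : θ ^ 2 = (i * (w * c w)) ^ 2 := by
    have : (i * (w * c w)) ^ 2 = (i * i) * (w * c w) ^ 2 := by ring
    rw [this, hi, hN2]; ring
  have h4 : c (i * (w * c w)) = i * (w * c w) := by rw [map_mul, hfix, hN]
  -- hence `θ = ± i N` is fixed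
  have h5 : θ = i * (w * c w) ∨ θ = -(i * (w * c w)) := sq_eq_sq_iff_eq_or_eq_neg.mp h3
  have h6 : c θ = θ := by
    rcases h5 with h | h
    · rw [h, h4]
    · rw [h, map_neg, h4]
  have h7 : (2 : K) * θ = 0 := by
    have : θ = -θ := h6.symm.trans hcθ
    linear_combination this
  rcases mul_eq_zero.mp h7 with h | h
  · exact h2 h
  · exact hθ0 h

/-- The sum of two squares of fixed elements is the square of a fixed element. -/
theorem exists_fixed_sq_eq_add (h2 : (2 : K) ≠ 0) (c : K ≃+* K) (hc : ∀ x, c (c x) = x)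
    (hne : ∃ x, c x ≠ x) (a b : K) (ha : c a = a) (hb : c b = b) :
    ∃ s : K, c s = s ∧ s ^ 2 = a ^ 2 + b ^ 2 := by
  obtain ⟨i, hi⟩ := IsAlgClosed.exists_pow_nat_eq (-1 : K) (n := 2) (by norm_num)
  have hi' : i * i = -1 := by rw [← sq]; exact hi
  have hci : c i = -i := by
    have h1 : c i ≠ i := neg_one_not_sq_fixed h2 c hc hne i hi'
    have h3 : c i ^ 2 = i ^ 2 := by rw [← map_pow, hi, map_neg, map_one]
    rcases sq_eq_sq_iff_eq_or_eq_neg.mp h3 with h | h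
    · exact absurd h h1
    · exact h
  obtain ⟨w, hw⟩ := IsAlgClosed.exists_pow_nat_eq (a + b * i) (n := 2) (by norm_num)
  refine ⟨w * c w, norm_fixed c hc w, ?_⟩
  have hcw : c w ^ 2 = a - b * i := by
    rw [← map_pow, hw, map_add, map_mul, ha, hb, hci]; ring
  calc (w * c w) ^ 2 = w ^ 2 * c w ^ 2 := by ring
    _ = (a + b * i) * (a - b * i) := by rw [hw, hcw]
    _ = a ^ 2 - b ^ 2 * (i * i) := by ring
    _ = a ^ 2 + b ^ 2 := by rw [hi']; ring

/-- A finite sum of squares of fixed elements is the square of a fixed element. -/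
theorem exists_fixed_sq_eq_sum (h2 : (2 : K) ≠ 0) (c : K ≃+* K) (hc : ∀ x, c (c x) = x)
    (hne : ∃ x, c x ≠ x) {ι : Type*} (s : Finset ι) (f : ι → K) (hf : ∀ j ∈ s, c (f j) = f j) :
    ∃ t : K, c t = t ∧ t ^ 2 = ∑ j ∈ s, f j ^ 2 := by
  classical
  induction s using Finset.induction_on with
  | empty => exact ⟨0, map_zero c, by simp⟩
  | insert a s ha ih =>
    obtain ⟨t, ht, ht2⟩ := ih (fun j hj => hf j (Finset.mem_insert_of_mem hj))
    obtain ⟨u, hu, hu2⟩ := exists_fixed_sq_eq_add h2 c hc hne (f a) t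
      (hf a (Finset.mem_insert_self a s)) ht
    refine ⟨u, hu, ?_⟩
    rw [Finset.sum_insert ha, hu2, ht2]

/-- A nontrivial `p`-th root of unity, `p` odd, is not fixed by an involution `c ≠ 1`. -/
theorem ne_of_pow_prime_eq_one (h2 : (2 : K) ≠ 0) (c : K ≃+* K) (hc : ∀ x, c (c x) = x)
    (hne : ∃ x, c x ≠ x) (p : ℕ) (hp : Odd p) (ζ : K) (hζ : ζ ^ p = 1) (hζ1 : ζ ≠ 1) :
    c ζ ≠ ζ := by
  intro hfix
  obtain ⟨m, hm⟩ := hp
  -- `ζ ^ k = (ζ ^ (k * (m + 1))) ^ 2`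
  have hsq : ∀ k : ℕ, ζ ^ k = (ζ ^ (k * (m + 1))) ^ 2 := by
    intro k
    rw [← pow_mul]
    have : k * (m + 1) * 2 = k + p * k := by rw [hm]; ring
    rw [this, pow_add, pow_mul, hζ, one_pow, mul_one]
  -- the geometric sum
  have hgeom : ∑ k ∈ Finset.range p, ζ ^ k = 0 := by
    have h := mul_geom_sum ζ p
    rw [hζ, sub_self] at h
    rcases mul_eq_zero.mp h with h | h
    · exact absurd (sub_eq_zero.mp h) hζ1
    · exact h
  have hp1 : p = (2 * m) + 1 := hm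
  have hsum : ∑ k ∈ Finset.range (2 * m), ζ ^ (k + 1) = -1 := by
    rw [hp1, Finset.sum_range_succ'] at hgeom
    rw [pow_zero] at hgeom
    linear_combination hgeom
  have hsum' : ∑ k ∈ Finset.range (2 * m), (ζ ^ ((k + 1) * (m + 1))) ^ 2 = -1 := by
    rw [← hsum]
    exact Finset.sum_congr rfl (fun k _ => (hsq (k + 1)).symm)
  obtain ⟨t, ht, ht2⟩ := exists_fixed_sq_eq_sum h2 c hc hne (Finset.range (2 * m))
    (fun k => ζ ^ ((k + 1) * (m + 1))) (fun k _ => by rw [map_pow, hfix])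
  rw [hsum'] at ht2
  exact neg_one_not_sq_fixed h2 c hc hne t (by rw [← sq]; exact ht2) ht

/-- **An involution `c ≠ 1` of an algebraically closed field inverts the roots of unity of odd
prime-power order.** -/
theorem involution_mul_self_eq_one (h2 : (2 : K) ≠ 0) (c : K ≃+* K) (hc : ∀ x, c (c x) = x)
    (hne : ∃ x, c x ≠ x) (p : ℕ) (hp : p.Prime) (hp2 : p ≠ 2) (n : ℕ) (μ : K)
    (hμ : μ ^ p ^ n = 1) : μ * c μ = 1 := by
  by_contra hν
  set ν : K := μ * c μ with hνdef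
  have hνfix : c ν = ν := norm_fixed c hc μ
  have hνpow : ν ^ p ^ n = 1 := by
    rw [hνdef, mul_pow, ← map_pow, hμ, map_one, mul_one]
  -- the order of `ν` is `p ^ (j + 1)`
  have hord : orderOf ν ∣ p ^ n := orderOf_dvd_of_pow_eq_one hνpow
  obtain ⟨j, -, hj⟩ := (Nat.dvd_prime_pow hp).mp hord
  have hj0 : j ≠ 0 := by
    rintro rfl
    rw [pow_zero, orderOf_eq_one_iff] at hj
    exact hν hj
  obtain ⟨i, rfl⟩ := Nat.exists_eq_succ_of_ne_zero hj0
  set ζ : K := ν ^ p ^ i with hζdef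
  have hζp : ζ ^ p = 1 := by
    rw [hζdef, ← pow_mul, ← pow_succ, ← hj]
    exact pow_orderOf_eq_one ν
  have hζ1 : ζ ≠ 1 := by
    intro h
    have h1 : orderOf ν ∣ p ^ i := orderOf_dvd_of_pow_eq_one h
    rw [hj] at h1
    have h2' : p ^ (i + 1) ≤ p ^ i := Nat.le_of_dvd (pow_pos hp.pos i) h1
    have h3 : p ^ i < p ^ (i + 1) := Nat.pow_lt_pow_right hp.one_lt (Nat.lt_succ_self i)
    omega
  have hζfix : c ζ = ζ := by rw [hζdef, map_pow, hνfix]
  exact ne_of_pow_prime_eq_one h2 c hc hne p (hp.odd_of_ne_two hp2) ζ hζp hζ1 hζfix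

end Core

end Fermat.Agent.S59.G4.H178

end
-- ===== PACK-END S59/G4/H178/Involution.lean

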