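import Mathlib
import Fermat.Prelude.Def_CuspForm_Newforms
import Fermat.Prelude.Def_ModularForm_HeckeOperatorForms
import Fermat.Prelude.Thm_ModularFormClass_qCoeff_heckeT
import Fermat.Prelude.Thm_ModularFormClass_qCoeff_heckeU
import Fermat.Prelude.Thm_CongruenceSubgroup_one_mem_strictPeriods_Gamma0
import Fermat.Prelude.Thm_UpperHalfPlane_eq_of_forall_qCoeff_eq
import Fermat.Prelude.Def_ModularForm_HeckeOperator
import Fermat.Prelude.Def_AlgebraicGeometry_RelativePicardFunctor
import Fermat.Agent.Pack.S43MC.G0E0L1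

-- ===== PACK-BEGIN Lib/Newform/H683/Coeff.lean
section
/-
NEWFORM library (helper683) — part 1: q-coefficient calculus of the Prelude Hecke operators on
`CuspForm (Gamma0 N) k`, and the dictionary

  `IsNormalizedEigenform f`  ⟺  `a₁ = 1` and `f` is an eigenvector of all `T_p` (`p ∤ N`) and
                                  all `U_p` (`p ∣ N`).
-/







set_option autoImplicit false

open CongruenceSubgroup ModularFormClass ModularForm UpperHalfPlane

namespace Fermat.Agent.Lib.Newform.H683

variable {N : ℕ}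

/-- The constant coefficient of a cusp form vanishes. -/
theorem qCoeff_zero_cusp (k : ℤ) (f : CuspForm (Gamma0 N) k) : qCoeff ⇑f 0 = 0 := by
  unfold qCoeff
  have h1 := CongruenceSubgroup.one_mem_strictPeriods_Gamma0 N
  exact CuspFormClass.qExpansion_coeff_zero f (by norm_num) h1

theorem qCoeff_heckeT_cusp (k : ℤ) (f : CuspForm (Gamma0 N) k) {p : ℕ} (hp : p ≠ 0) (n : ℕ) :
    qCoeff (heckeT k p ⇑f) n = coeffHeckeT k p (qCoeff ⇑f) n :=
  ModularFormClass.qCoeff_heckeT f (CongruenceSubgroup.one_mem_strictPeriods_Gamma0 N) hp n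

theorem qCoeff_heckeU_cusp (k : ℤ) (f : CuspForm (Gamma0 N) k) {p : ℕ} (hp : p ≠ 0) (n : ℕ) :
    qCoeff (heckeU k p ⇑f) n = coeffHeckeU p (qCoeff ⇑f) n :=
  ModularFormClass.qCoeff_heckeU f (CongruenceSubgroup.one_mem_strictPeriods_Gamma0 N) hp n

/-- `q`-expansion principle for cusp forms on `Γ₀(N)`. -/
theorem cusp_eq_zero_of_qCoeff (k : ℤ) (f : CuspForm (Gamma0 N) k)
    (h : ∀ n, qCoeff ⇑f n = 0) : f = 0 := by
  have h1 := CongruenceSubgroup.one_mem_strictPeriods_Gamma0 N
  haveI : Fact (IsCusp OnePoint.infty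
      (Subgroup.map (Matrix.SpecialLinearGroup.mapGL ℝ) (Gamma0 N))) :=
    ⟨Subgroup.isCusp_of_mem_strictPeriods one_pos h1⟩
  have hq : qExpansion 1 ⇑f = 0 := by
    ext n
    simpa [qCoeff] using h n
  have := (UpperHalfPlane.qExpansion_eq_zero_iff (h := 1) one_pos
    (SlashInvariantFormClass.periodic_comp_ofComplex f h1) (CuspFormClass.holo f)
    (ModularFormClass.bdd_at_infty f)).mp hq
  exact DFunLike.coe_injective (by simpa using this)

theorem qCoeff_sub_cusp (k : ℤ) (f g : CuspForm (Gamma0 N) k) (n : ℕ) :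
    qCoeff ⇑(f - g) n = qCoeff ⇑f n - qCoeff ⇑g n := by
  have h1 := CongruenceSubgroup.one_mem_strictPeriods_Gamma0 N
  unfold qCoeff
  rw [FunLike.coe_sub, UpperHalfPlane.qExpansion_sub
    (ModularFormClass.analyticAt_cuspFunction_zero f one_pos h1)
    (ModularFormClass.analyticAt_cuspFunction_zero g one_pos h1)]
  simp

theorem qCoeff_smul_cusp (k : ℤ) (c : ℂ) (f : CuspForm (Gamma0 N) k) (n : ℕ) :
    qCoeff ⇑(c • f) n = c * qCoeff ⇑f n := by
  have h1 := CongruenceSubgroup.one_mem_strictPeriods_Gamma0 N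
  unfold qCoeff
  rw [FunLike.coe_smul, UpperHalfPlane.qExpansion_smul
    (ModularFormClass.analyticAt_cuspFunction_zero f one_pos h1)]
  simp

theorem cusp_ext_qCoeff (k : ℤ) (f g : CuspForm (Gamma0 N) k)
    (h : ∀ n, qCoeff ⇑f n = qCoeff ⇑g n) : f = g := by
  have := cusp_eq_zero_of_qCoeff k (f - g) (fun n => by rw [qCoeff_sub_cusp, h n, sub_self])
  exact sub_eq_zero.mp this

end Fermat.Agent.Lib.Newform.H683

end
-- ===== PACK-END Lib/Newform/H683/Coeff.lean

-- ===== PACK-BEGIN Lib/Newform/H563/Basic.lean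
section








/-!
# NEWFORM library (helper563): basic facts

* `lowerLevel` : a cusp form of level `N` whose underlying function is `Γ₀(M)`-invariant is a cusp
  form of level `M`.
* coefficient facts for Prelude-normalised eigenforms.
-/

set_option autoImplicit false

noncomputable section

namespace Fermat.Agent.Lib.Newform.H563

open UpperHalfPlane ModularForm CongruenceSubgroup ModularFormClass
open scoped MatrixGroups Manifold

/-- A cusp form of level `N` whose underlying function is invariant under `Γ₀(M)` is a cusp form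
of level `M` (for `M`, `N` both nonzero: the cusps are the same). -/
def lowerLevel {N M : ℕ} [NeZero N] [NeZero M] {k : ℤ} (f : CuspForm (Gamma0 N) k)
    (hf : ∀ γ ∈ (Gamma0 M : Subgroup (GL (Fin 2) ℝ)), (⇑f) ∣[k] γ = ⇑f) :
    CuspForm (Gamma0 M) k where
  toFun := f
  slash_action_eq' := hf
  holo' := CuspFormClass.holo f
  zero_at_cusps' := fun {c} hc => by
    have hc' : IsCusp c (Gamma0 N : Subgroup (GL (Fin 2) ℝ)) := by
      rw [Subgroup.IsArithmetic.isCusp_iff_isCusp_SL2Z] at hc ⊢
      exact hc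
    exact CuspFormClass.zero_at_cusps f hc'

@[simp] lemma coe_lowerLevel {N M : ℕ} [NeZero N] [NeZero M] {k : ℤ} (f : CuspForm (Gamma0 N) k)
    (hf : ∀ γ ∈ (Gamma0 M : Subgroup (GL (Fin 2) ℝ)), (⇑f) ∣[k] γ = ⇑f) :
    ⇑(lowerLevel f hf) = ⇑f := rfl

lemma qCoeff_lowerLevel {N M : ℕ} [NeZero N] [NeZero M] {k : ℤ} (f : CuspForm (Gamma0 N) k)
    (hf : ∀ γ ∈ (Gamma0 M : Subgroup (GL (Fin 2) ℝ)), (⇑f) ∣[k] γ = ⇑f) (n : ℕ) :
    qCoeff (lowerLevel f hf) n = qCoeff f n := rfl

variable {N : ℕ} {k : ℤ}

lemma qCoeff_zero_cusp (f : CuspForm (Gamma0 N) k) : qCoeff f 0 = 0 :=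
  CuspFormClass.qExpansion_coeff_zero f one_pos (one_mem_strictPeriods_Gamma0 N)

lemma periodic_cusp (f : CuspForm (Gamma0 N) k) : Function.Periodic (⇑f ∘ ofComplex) 1 :=
  SlashInvariantFormClass.periodic_comp_ofComplex f (one_mem_strictPeriods_Gamma0 N)

lemma bdd_cusp (f : CuspForm (Gamma0 N) k) : IsBoundedAtImInfty (⇑f) := by
  have : Fact (IsCusp OnePoint.infty (Gamma0 N : Subgroup (GL (Fin 2) ℝ))) :=
    ⟨Subgroup.isCusp_of_mem_strictPeriods one_pos (one_mem_strictPeriods_Gamma0 N)⟩
  exact (CuspFormClass.zero_at_infty f).isBoundedAtImInfty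

/-- Two cusp forms (possibly of different levels) with the same `q`-coefficients have the same
underlying function. -/
lemma coe_eq_of_qCoeff_eq {N M : ℕ} (f : CuspForm (Gamma0 N) k) (g : CuspForm (Gamma0 M) k)
    (h : ∀ n, qCoeff f n = qCoeff g n) : (⇑f : ℍ → ℂ) = ⇑g :=
  UpperHalfPlane.eq_of_forall_qCoeff_eq (periodic_cusp f) (CuspFormClass.holo f) (bdd_cusp f)
    (periodic_cusp g) (CuspFormClass.holo g) (bdd_cusp g) h

lemma qCoeff_smul_cusp (c : ℂ) (f : CuspForm (Gamma0 N) k) (n : ℕ) :
    qCoeff (c • ⇑f) n = c * qCoeff f n := by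
  unfold qCoeff
  rw [ModularForm.qExpansion_smul one_pos (one_mem_strictPeriods_Gamma0 N) c f]
  simp

lemma qCoeff_heckeU_cusp (f : CuspForm (Gamma0 N) k) {p : ℕ} (hp : p ≠ 0) (n : ℕ) :
    qCoeff (heckeU k p ⇑f) n = qCoeff f (n * p) := by
  rw [ModularFormClass.qCoeff_heckeU f (one_mem_strictPeriods_Gamma0 N) hp n]
  rfl

lemma qCoeff_heckeT_cusp (f : CuspForm (Gamma0 N) k) {p : ℕ} (hp : p ≠ 0) (n : ℕ) :
    qCoeff (heckeT k p ⇑f) n
      = qCoeff f (n * p) + if p ∣ n then (p : ℂ) ^ (k - 1) * qCoeff f (n / p) else 0 := by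
  rw [ModularFormClass.qCoeff_heckeT f (one_mem_strictPeriods_Gamma0 N) hp n]
  rfl

section Eigen

variable {f : CuspForm (Gamma0 N) 2}

lemma qCoeff_prime_pow_of_dvd (hf : f.IsNormalizedEigenform) {q : ℕ} (hq : q.Prime)
    (hqN : q ∣ N) (r : ℕ) : qCoeff f (q ^ r) = qCoeff f q ^ r := by
  induction r using Nat.strong_induction_on with
  | _ r ih =>
    match r with
    | 0 => simpa using hf.qCoeff_one
    | 1 => simp
    | (r + 2) =>
      rw [hf.qCoeff_prime_pow_of_dvd q r hq hqN, ih (r + 1) (by omega)]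
      ring

/-- For a Prelude-normalised eigenform and a prime `q` dividing the level, `a_{nq} = a_q a_n`
for every `n`. -/
lemma qCoeff_mul_prime_of_dvd (hf : f.IsNormalizedEigenform) {q : ℕ} (hq : q.Prime)
    (hqN : q ∣ N) (n : ℕ) : qCoeff f (n * q) = qCoeff f q * qCoeff f n := by
  rcases Nat.eq_zero_or_pos n with rfl | hn
  · simp [qCoeff_zero_cusp]
  obtain ⟨r, m, hm, rfl⟩ := Nat.exists_eq_pow_mul_and_not_dvd hn.ne' q hq.ne_one
  have hcop : ∀ s : ℕ, (q ^ s).Coprime m := fun s =>
    Nat.Coprime.pow_left s ((Nat.Prime.coprime_iff_not_dvd hq).2 hm)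
  have h1 : q ^ r * m * q = q ^ (r + 1) * m := by ring
  rw [h1, hf.qCoeff_mul_of_coprime _ _ (hcop (r + 1)), hf.qCoeff_mul_of_coprime _ _ (hcop r),
    qCoeff_prime_pow_of_dvd hf hq hqN, qCoeff_prime_pow_of_dvd hf hq hqN]
  ring

/-- For a Prelude-normalised eigenform and a prime `q` dividing the level, `U_q f = a_q f`. -/
theorem heckeU_eq_smul [NeZero N] (hf : f.IsNormalizedEigenform) {q : ℕ} (hq : q.Prime)
    (hqN : q ∣ N) : heckeU 2 q ⇑f = qCoeff f q • ⇑f := by
  have h1 : (⇑(CuspForm.heckeULin 2 hqN f) : ℍ → ℂ) = ⇑(qCoeff f q • f) := by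
    refine coe_eq_of_qCoeff_eq _ _ fun n => ?_
    rw [CuspForm.coe_heckeULin_apply, qCoeff_heckeU_cusp f hq.ne_zero,
      qCoeff_mul_prime_of_dvd hf hq hqN]
    exact (qCoeff_smul_cusp _ f n).symm
  exact h1

end Eigen

end Fermat.Agent.Lib.Newform.H563

end
end
-- ===== PACK-END Lib/Newform/H563/Basic.lean

-- ===== PACK-BEGIN Lib/Newform/H923/HeckeInt.lean
section



/-!
# Hecke representatives versus integer matrices of determinant prime to `ℓ`

For a prime `ℓ`, the `ℓ + 1` matrices `hRep ℓ x` (`x ∈ ℙ¹(𝔽_ℓ)`) are the standard representatives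
used in the Prelude definition of `heckeT`.  For every real matrix `A` with integer entries
`a b c d` and determinant prime to `ℓ` we show
`hRep ℓ x * A = A' * hRep ℓ (σ x)` with `A'` integral of the same determinant, `σ` a permutation
of `ℙ¹(𝔽_ℓ)`, and we keep track of divisibility properties of the entries of `A'`.
-/

set_option autoImplicit false

noncomputable section

namespace Fermat.Agent.Lib.Newform.H923

open Matrix UpperHalfPlane ModularForm
open scoped MatrixGroups ModularForm OnePoint

/-- `IsInt A a b c d` : the real matrix `A` is `!![a, b; c, d]` with integers `a b c d`. -/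
def IsInt (A : GL (Fin 2) ℝ) (a b c d : ℤ) : Prop :=
  (A : Matrix (Fin 2) (Fin 2) ℝ) = !![(a : ℝ), (b : ℝ); (c : ℝ), (d : ℝ)]

/-- The real `2 × 2` matrix with integer entries `a b c d` and nonzero determinant. -/
def intGL (a b c d : ℤ) (h : a * d - b * c ≠ 0) : GL (Fin 2) ℝ :=
  Matrix.GeneralLinearGroup.mkOfDetNeZero !![(a : ℝ), (b : ℝ); (c : ℝ), (d : ℝ)]
    (by rw [Matrix.det_fin_two_of]; exact_mod_cast h)

theorem isInt_intGL (a b c d : ℤ) (h : a * d - b * c ≠ 0) : IsInt (intGL a b c d h) a b c d := rfl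

theorem IsInt.det_ne_zero {A : GL (Fin 2) ℝ} {a b c d : ℤ} (hA : IsInt A a b c d) :
    a * d - b * c ≠ 0 := by
  have h := A.det_ne_zero
  rw [hA, Matrix.det_fin_two_of] at h
  exact_mod_cast h

theorem IsInt.eq_intGL {A : GL (Fin 2) ℝ} {a b c d : ℤ} (hA : IsInt A a b c d) :
    A = intGL a b c d hA.det_ne_zero :=
  Units.ext hA

theorem IsInt.det {A : GL (Fin 2) ℝ} {a b c d : ℤ} (hA : IsInt A a b c d) :
    (A.det : ℝ) = ((a * d - b * c : ℤ) : ℝ) := by
  rw [Matrix.GeneralLinearGroup.val_det_apply, hA, Matrix.det_fin_two_of]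
  push_cast
  ring

theorem isInt_mapGL (g : SL(2, ℤ)) :
    IsInt (Matrix.SpecialLinearGroup.mapGL ℝ g) (g 0 0) (g 0 1) (g 1 0) (g 1 1) := by
  unfold IsInt
  ext i j
  fin_cases i <;> fin_cases j <;> simp

theorem isInt_heckeMatrix {p : ℕ} (hp : p ≠ 0) (j : ℕ) : IsInt (heckeMatrix p j) 1 j 0 p := by
  unfold IsInt
  rw [val_heckeMatrix hp]
  simp

theorem isInt_heckeDiagMatrix {p : ℕ} (hp : p ≠ 0) : IsInt (heckeDiagMatrix p) p 0 0 1 := by
  unfold IsInt
  rw [val_heckeDiagMatrix hp]
  simp

/-- product of integer matrices -/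
theorem IsInt.mul {A B : GL (Fin 2) ℝ} {a b c d a' b' c' d' : ℤ} (hA : IsInt A a b c d)
    (hB : IsInt B a' b' c' d') :
    IsInt (A * B) (a * a' + b * c') (a * b' + b * d') (c * a' + d * c') (c * b' + d * d') := by
  unfold IsInt at *
  rw [Units.val_mul, hA, hB]
  ext i j
  fin_cases i <;> fin_cases j <;> simp [Matrix.mul_apply, Fin.sum_univ_two]

/-- Two elements of `GL(2,ℝ)` with the same integer entries are equal. -/
theorem IsInt.ext {A B : GL (Fin 2) ℝ} {a b c d a' b' c' d' : ℤ} (hA : IsInt A a b c d)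
    (hB : IsInt B a' b' c' d') (h1 : a = a') (h2 : b = b') (h3 : c = c') (h4 : d = d') : A = B := by
  subst h1 h2 h3 h4
  exact Units.ext (hA.trans hB.symm)

section commutation

variable {p : ℕ} (hp : p ≠ 0)
include hp

theorem heckeMatrix_mul_isInt {A A' : GL (Fin 2) ℝ} {a b c d : ℤ} (hA : IsInt A a b c d)
    (j j' : ℕ) (e : ℤ) (he : b + j * d = j' * (a + j * c) + p * e)
    (hA' : IsInt A' (a + j * c) e (p * c) (d - c * j')) :
    heckeMatrix p j * A = A' * heckeMatrix p j' := by
  refine ((isInt_heckeMatrix hp j).mul hA).ext (hA'.mul (isInt_heckeMatrix hp j')) ?_ ?_ ?_ ?_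
  · ring
  · linear_combination he
  · ring
  · ring

theorem heckeMatrix_mul_isInt' {A A' : GL (Fin 2) ℝ} {a b c d : ℤ} (hA : IsInt A a b c d)
    (j : ℕ) (e : ℤ) (he : a + j * c = p * e)
    (hA' : IsInt A' e (b + j * d) c (p * d)) :
    heckeMatrix p j * A = A' * heckeDiagMatrix p := by
  refine ((isInt_heckeMatrix hp j).mul hA).ext (hA'.mul (isInt_heckeDiagMatrix hp)) ?_ ?_ ?_ ?_
  · linear_combination he
  · ring
  · ring
  · ring

theorem heckeDiagMatrix_mul_isInt {A A' : GL (Fin 2) ℝ} {a b c d : ℤ} (hA : IsInt A a b c d)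
    (j' : ℕ) (e : ℤ) (he : d = c * j' + p * e)
    (hA' : IsInt A' (p * a) (b - a * j') c e) :
    heckeDiagMatrix p * A = A' * heckeMatrix p j' := by
  refine ((isInt_heckeDiagMatrix hp).mul hA).ext (hA'.mul (isInt_heckeMatrix hp j')) ?_ ?_ ?_ ?_
  · ring
  · ring
  · ring
  · linear_combination he

theorem heckeDiagMatrix_mul_isInt' {A A' : GL (Fin 2) ℝ} {a b c d : ℤ} (hA : IsInt A a b c d)
    (e : ℤ) (he : c = p * e)
    (hA' : IsInt A' a (p * b) e d) :
    heckeDiagMatrix p * A = A' * heckeDiagMatrix p := by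
  refine ((isInt_heckeDiagMatrix hp).mul hA).ext (hA'.mul (isInt_heckeDiagMatrix hp)) ?_ ?_ ?_ ?_
  · ring
  · ring
  · linear_combination he
  · ring

end commutation


section reindex

variable {p : ℕ} [NeZero p]

theorem sum_range_eq_sum_zmod' {M : Type*} [AddCommMonoid M] (F : ℕ → M) :
    ∑ j ∈ Finset.range p, F j = ∑ x : ZMod p, F x.val := by
  refine Finset.sum_nbij' (fun j : ℕ ↦ (j : ZMod p)) (fun x : ZMod p ↦ x.val)
    (fun _ _ ↦ Finset.mem_univ _)
    (fun x _ ↦ Finset.mem_range.mpr x.val_lt) (fun j hj ↦ ?_) (fun x _ ↦ ?_) (fun j hj ↦ ?_)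
  · exact ZMod.val_cast_of_lt (Finset.mem_range.mp hj)
  · exact ZMod.natCast_zmod_val x
  · rw [ZMod.val_cast_of_lt (Finset.mem_range.mp hj)]

theorem heckeU_eq_sum_zmod' (k : ℤ) (f : ℍ → ℂ) :
    heckeU k p f = ∑ x : ZMod p, f ∣[k] heckeMatrix p x.val := by
  rw [heckeU_def]
  exact sum_range_eq_sum_zmod' _

end reindex

/-- The standard representatives of the Hecke operator `T_p`, indexed by `ℙ¹(𝔽_p)`. -/
def hRep (p : ℕ) (x : OnePoint (ZMod p)) : GL (Fin 2) ℝ :=
  x.elim (heckeDiagMatrix p) (fun j ↦ heckeMatrix p j.val)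

@[simp] theorem hRep_infty (p : ℕ) : hRep p ∞ = heckeDiagMatrix p := rfl

@[simp] theorem hRep_coe (p : ℕ) (j : ZMod p) : hRep p j = heckeMatrix p j.val := rfl

theorem heckeT_eq_sum_hRep {p : ℕ} [NeZero p] (k : ℤ) (f : ℍ → ℂ) :
    heckeT k p f = ∑ x : OnePoint (ZMod p), f ∣[k] hRep p x := by
  rw [heckeT_eq_heckeU_add, heckeU_eq_sum_zmod', add_comm]
  exact (Fintype.sum_option (fun x : OnePoint (ZMod p) ↦ f ∣[k] hRep p x)).symm

section main

variable {p : ℕ} [Fact p.Prime]

/-- The reduction mod `p` (in the convention of the Prelude) of an integer matrix of determinant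
prime to `p`. -/
def redGL (p : ℕ) [Fact p.Prime] (a b c d : ℤ) (h : ¬ (p : ℤ) ∣ a * d - b * c) :
    GL (Fin 2) (ZMod p) :=
  Matrix.GeneralLinearGroup.mkOfDetNeZero
    !![(d : ZMod p), (b : ZMod p); (c : ZMod p), (a : ZMod p)]
    (by
      rw [Matrix.det_fin_two_of]
      intro h0
      apply h
      rw [← ZMod.intCast_zmod_eq_zero_iff_dvd]
      push_cast
      linear_combination h0)

@[simp] theorem redGL_apply_zero_zero (a b c d : ℤ) (h : ¬ (p : ℤ) ∣ a * d - b * c) :
    redGL p a b c d h 0 0 = (d : ZMod p) := by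
  simp [redGL]

@[simp] theorem redGL_apply_zero_one (a b c d : ℤ) (h : ¬ (p : ℤ) ∣ a * d - b * c) :
    redGL p a b c d h 0 1 = (b : ZMod p) := by
  simp [redGL]

@[simp] theorem redGL_apply_one_zero (a b c d : ℤ) (h : ¬ (p : ℤ) ∣ a * d - b * c) :
    redGL p a b c d h 1 0 = (c : ZMod p) := by
  simp [redGL]

@[simp] theorem redGL_apply_one_one (a b c d : ℤ) (h : ¬ (p : ℤ) ∣ a * d - b * c) :
    redGL p a b c d h 1 1 = (a : ZMod p) := by
  simp [redGL]

/-- The key matrix lemma: `hRep p x * A = A' * hRep p (σ x)` for integral `A` of determinant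
prime to `p`, with control of the entries of `A'`. -/
theorem exists_hRep_mul {A : GL (Fin 2) ℝ} {a b c d : ℤ} (hA : IsInt A a b c d)
    (hdet : ¬ (p : ℤ) ∣ a * d - b * c) (x : OnePoint (ZMod p)) :
    ∃ (A' : GL (Fin 2) ℝ) (a' b' c' d' : ℤ), IsInt A' a' b' c' d' ∧
      a' * d' - b' * c' = a * d - b * c ∧
      (∀ m : ℤ, IsCoprime m (p : ℤ) → m ∣ c → m ∣ c') ∧
      (∀ m : ℤ, IsCoprime m (p : ℤ) → m ∣ a → m ∣ c → m ∣ a') ∧
      (∀ m : ℤ, IsCoprime m (p : ℤ) → m ∣ d → m ∣ c → m ∣ d') ∧
      hRep p x * A = A' * hRep p (redGL p a b c d hdet • x) := by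
  have hp : p ≠ 0 := (Fact.out : p.Prime).ne_zero
  have : NeZero p := ⟨hp⟩
  have hD : a * d - b * c ≠ 0 := hA.det_ne_zero
  induction x using OnePoint.rec with
  | infty =>
    rw [OnePoint.smul_infty_eq_ite]
    by_cases hc : ((c : ℤ) : ZMod p) = 0
    · rw [if_pos (by simpa using hc), hRep_infty]
      obtain ⟨e, he⟩ := (ZMod.intCast_zmod_eq_zero_iff_dvd _ _).mp hc
      have hdet' : a * d - (p * b) * e = a * d - b * c := by rw [he]; ring
      refine ⟨intGL a (p * b) e d (by rw [hdet']; exact hD), a, p * b, e, d, isInt_intGL _ _ _ _ _,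
        hdet', ?_, ?_, ?_, ?_⟩
      · intro m hm hmc
        rw [he] at hmc
        exact hm.dvd_of_dvd_mul_left hmc
      · intro m _ hma _
        exact hma
      · intro m _ hmd _
        exact hmd
      · exact heckeDiagMatrix_mul_isInt' hp hA e he (isInt_intGL _ _ _ _ _)
    · rw [if_neg (by simpa using hc), hRep_infty, hRep_coe]
      set y : ZMod p := redGL p a b c d hdet 0 0 / redGL p a b c d hdet 1 0 with hy
      obtain ⟨e, he⟩ : (p : ℤ) ∣ d - c * y.val := by
        rw [← ZMod.intCast_zmod_eq_zero_iff_dvd]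
        push_cast
        rw [ZMod.natCast_zmod_val, hy, redGL_apply_zero_zero, redGL_apply_one_zero,
          mul_div_cancel₀ _ hc, sub_self]
      have he' : d = c * y.val + p * e := by linear_combination he
      have hdet' : (p * a) * e - (b - a * y.val) * c = a * d - b * c := by
        linear_combination (-a) * he'
      refine ⟨intGL (p * a) (b - a * y.val) c e (by rw [hdet']; exact hD), p * a, b - a * y.val,
        c, e, isInt_intGL _ _ _ _ _, hdet', ?_, ?_, ?_, ?_⟩
      · intro m _ hmc
        exact hmc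
      · intro m _ hma _
        exact Dvd.dvd.mul_left hma _
      · intro m hm hmd hmc
        have : m ∣ (p : ℤ) * e := by
          have h1 : (p : ℤ) * e = d - c * y.val := by linear_combination -he'
          rw [h1]
          exact dvd_sub hmd (Dvd.dvd.mul_right hmc _)
        exact hm.dvd_of_dvd_mul_left this
      · exact heckeDiagMatrix_mul_isInt hp hA y.val e he' (isInt_intGL _ _ _ _ _)
  | coe j =>
    rw [OnePoint.smul_some_eq_ite]
    by_cases h : redGL p a b c d hdet 1 0 * j + redGL p a b c d hdet 1 1 = 0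
    · rw [if_pos h, hRep_infty, hRep_coe]
      rw [redGL_apply_one_zero, redGL_apply_one_one] at h
      obtain ⟨e, he⟩ : (p : ℤ) ∣ a + j.val * c := by
        rw [← ZMod.intCast_zmod_eq_zero_iff_dvd]
        push_cast
        rw [ZMod.natCast_zmod_val]
        linear_combination h
      have hdet' : e * (p * d) - (b + j.val * d) * c = a * d - b * c := by
        linear_combination (-d) * he
      refine ⟨intGL e (b + j.val * d) c (p * d) (by rw [hdet']; exact hD), e, b + j.val * d, c,
        p * d, isInt_intGL _ _ _ _ _, hdet', ?_, ?_, ?_, ?_⟩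
      · intro m _ hmc
        exact hmc
      · intro m hm hma hmc
        have : m ∣ (p : ℤ) * e := by
          rw [← he]
          exact dvd_add hma (Dvd.dvd.mul_left hmc _)
        exact hm.dvd_of_dvd_mul_left this
      · intro m _ hmd _
        exact Dvd.dvd.mul_left hmd _
      · exact heckeMatrix_mul_isInt' hp hA j.val e he (isInt_intGL _ _ _ _ _)
    · rw [if_neg h, hRep_coe, hRep_coe]
      set y : ZMod p := (redGL p a b c d hdet 0 0 * j + redGL p a b c d hdet 0 1) /
        (redGL p a b c d hdet 1 0 * j + redGL p a b c d hdet 1 1) with hy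
      obtain ⟨e, he⟩ : (p : ℤ) ∣ b + j.val * d - y.val * (a + j.val * c) := by
        rw [← ZMod.intCast_zmod_eq_zero_iff_dvd]
        push_cast
        rw [ZMod.natCast_zmod_val, ZMod.natCast_zmod_val,
          show ((a : ℤ) : ZMod p) + j * ((c : ℤ) : ZMod p)
            = redGL p a b c d hdet 1 0 * j + redGL p a b c d hdet 1 1 by
              rw [redGL_apply_one_zero, redGL_apply_one_one]; ring,
          hy, div_mul_cancel₀ _ h, redGL_apply_zero_zero, redGL_apply_zero_one]
        ring
      have he' : b + j.val * d = y.val * (a + j.val * c) + p * e := by linear_combination he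
      have hdet' : (a + j.val * c) * (d - c * y.val) - e * (p * c) = a * d - b * c := by
        linear_combination c * he'
      refine ⟨intGL (a + j.val * c) e (p * c) (d - c * y.val) (by rw [hdet']; exact hD),
        a + j.val * c, e, p * c, d - c * y.val, isInt_intGL _ _ _ _ _, hdet', ?_, ?_, ?_, ?_⟩
      · intro m _ hmc
        exact Dvd.dvd.mul_left hmc _
      · intro m _ hma hmc
        exact dvd_add hma (Dvd.dvd.mul_left hmc _)
      · intro m _ hmd hmc
        exact dvd_sub hmd (Dvd.dvd.mul_right hmc _)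
      · exact heckeMatrix_mul_isInt hp hA j.val y.val e he' (isInt_intGL _ _ _ _ _)

end main

end Fermat.Agent.Lib.Newform.H923

end
end
-- ===== PACK-END Lib/Newform/H923/HeckeInt.lean

-- ===== PACK-BEGIN S25/H971/Lift.lean
section


/-!
# S25 / block HILB / leaf H4: lifting along surjections with nil kernel

`R → S` a surjective ring homomorphism of commutative rings whose kernel consists of nilpotent
elements (e.g. `R → R ⧸ I` with `I ^ 2 = ⊥`).

* `bijective_of_bijective_mod` : a linear map between finite modules with finite projective target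
  which is bijective modulo a nil ideal is bijective.
* `ker_tensorProductMk_of_surjective` : kernel of `M → S ⊗[R] M`.
* `exists_linearEquiv_lift` : isomorphisms `S ⊗ P ≃ S ⊗ P'` lift to isomorphisms `P ≃ P'`
  (`P`, `P'` finite projective).
* `exists_projective_lift` : every finite projective `S`-module is `S ⊗[R] P` for a finite
  projective `R`-module `P`.
* `exists_invertible_lift` : the same for invertible modules.
-/

set_option autoImplicit false
set_option linter.style.haveILetI false

open TensorProduct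

namespace Fermat.Agent.S25.H971

universe u v w

section Nakayama

variable {R : Type*} [CommRing R]

/-- A linear map `f : P → P'` (`P` finite, `P'` finite projective) which is bijective modulo an
ideal `I` contained in the nilradical (more generally: in the Jacobson radical) is bijective. -/
theorem bijective_of_bijective_mod {I : Ideal R} (hI : I ≤ (⊥ : Ideal R).jacobson)
    {P P' : Type*} [AddCommGroup P] [Module R P] [AddCommGroup P'] [Module R P']
    [Module.Finite R P] [Module.Finite R P'] [Module.Projective R P']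
    (f : P →ₗ[R] P')
    (hsurj : ∀ y : P', ∃ x : P, y - f x ∈ I • (⊤ : Submodule R P'))
    (hinj : ∀ x : P, f x ∈ I • (⊤ : Submodule R P') → x ∈ I • (⊤ : Submodule R P)) :
    Function.Bijective f := by
  have hs : Function.Surjective f := by
    apply LinearMap.surjective_of_surjective_comp_mkQ f I hI
    intro z
    obtain ⟨y, rfl⟩ := Submodule.mkQ_surjective _ z
    obtain ⟨x, hx⟩ := hsurj y
    refine ⟨x, ?_⟩
    simp only [LinearMap.coe_comp, Function.comp_apply]
    rw [eq_comm, ← sub_eq_zero, ← map_sub]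
    exact (Submodule.Quotient.mk_eq_zero _).mpr hx
  refine ⟨?_, hs⟩
  obtain ⟨s, hsf⟩ := Module.projective_lifting_property f LinearMap.id hs
  -- the projection onto the kernel
  let π : P →ₗ[R] P := LinearMap.id - s ∘ₗ f
  have hπker : ∀ x, f (π x) = 0 := by
    intro x
    have h1 : f (s (f x)) = f x := by
      have := congrArg (fun g => g (f x)) hsf
      simpa using this
    simp [π, h1]
  have hπfix : ∀ x, f x = 0 → π x = x := by
    intro x hx
    simp [π, hx]
  have hrange : LinearMap.range π = LinearMap.ker f := by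
    apply le_antisymm
    · rintro _ ⟨x, rfl⟩
      exact hπker x
    · intro x hx
      exact ⟨x, hπfix x hx⟩
  have hfg : (LinearMap.ker f).FG := by
    rw [← hrange, LinearMap.range_eq_map]
    exact (Module.finite_def.mp ‹Module.Finite R P›).map π
  have hle : LinearMap.ker f ≤ I • LinearMap.ker f := by
    intro x hx
    have hx' : x ∈ I • (⊤ : Submodule R P) := hinj x (by rw [LinearMap.mem_ker.mp hx]; exact zero_mem _)
    have h2 : π x ∈ (I • (⊤ : Submodule R P)).map π := Submodule.mem_map_of_mem hx'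
    rw [Submodule.map_smul'', Submodule.map_top, hrange, hπfix x hx] at h2
    exact h2
  have hbot : LinearMap.ker f = ⊥ :=
    Submodule.eq_bot_of_le_smul_of_le_jacobson_bot I _ hfg hle hI
  exact LinearMap.ker_eq_bot.mp hbot

end Nakayama

section BaseChange

variable {R : Type*} {S : Type*} [CommRing R] [CommRing S] [Algebra R S]

/-- Every element of `S ⊗[R] M` is of the form `1 ⊗ m` when `R → S` is surjective. -/
theorem exists_one_tmul_eq (hsurj : Function.Surjective (algebraMap R S))
    {M : Type*} [AddCommGroup M] [Module R M] (z : S ⊗[R] M) : ∃ m : M, (1 : S) ⊗ₜ[R] m = z := by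
  induction z using TensorProduct.induction_on with
  | zero => exact ⟨0, by simp⟩
  | tmul s m =>
    obtain ⟨r, rfl⟩ := hsurj s
    refine ⟨r • m, ?_⟩
    rw [TensorProduct.tmul_smul, TensorProduct.smul_tmul', Algebra.smul_def, mul_one]
  | add x y hx hy =>
    obtain ⟨a, rfl⟩ := hx
    obtain ⟨b, rfl⟩ := hy
    exact ⟨a + b, by rw [TensorProduct.tmul_add]⟩

/-- The kernel of `M → S ⊗[R] M` is `I • M`, `I = ker (R → S)`, when `R → S` is surjective. -/
theorem one_tmul_eq_zero_iff (hsurj : Function.Surjective (algebraMap R S))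
    {M : Type*} [AddCommGroup M] [Module R M] (m : M) :
    (1 : S) ⊗ₜ[R] m = 0 ↔ m ∈ RingHom.ker (algebraMap R S) • (⊤ : Submodule R M) := by
  set I := RingHom.ker (algebraMap R S) with hIdef
  -- the `R`-linear equivalence `R ⧸ I ≃ S`
  let e : (R ⧸ I) ≃ₐ[R] S := Ideal.quotientKerAlgEquivOfSurjective (f := Algebra.ofId R S) hsurj
  let E : (R ⧸ I) ⊗[R] M ≃ₗ[R] S ⊗[R] M := TensorProduct.congr e.toLinearEquiv (LinearEquiv.refl R M)
  have hE : E ((1 : R ⧸ I) ⊗ₜ[R] m) = (1 : S) ⊗ₜ[R] m := by
    simp [E]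
  have hk := LinearMap.ker_tensorProductMk (R := R) (Q := M) (I := I)
  constructor
  · intro h
    rw [← hk, LinearMap.mem_ker, TensorProduct.mk_apply]
    apply E.injective
    rw [hE, h, map_zero]
  · intro h
    rw [← hk, LinearMap.mem_ker, TensorProduct.mk_apply] at h
    rw [← hE, h, map_zero]

/-- **Isomorphisms lift.** `R → S` surjective with nil kernel, `P`, `P'` finite projective
`R`-modules. Every `S`-linear isomorphism `S ⊗ P ≃ S ⊗ P'` is induced by an `R`-linear
isomorphism `P ≃ P'`. -/
theorem exists_linearEquiv_lift (hsurj : Function.Surjective (algebraMap R S))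
    (hnil : ∀ x ∈ RingHom.ker (algebraMap R S), IsNilpotent x)
    {P P' : Type*} [AddCommGroup P] [Module R P] [AddCommGroup P'] [Module R P']
    [Module.Finite R P] [Module.Projective R P] [Module.Finite R P'] [Module.Projective R P']
    (φ : S ⊗[R] P ≃ₗ[S] S ⊗[R] P') :
    ∃ ψ : P ≃ₗ[R] P', ∀ x : P, φ ((1 : S) ⊗ₜ[R] x) = (1 : S) ⊗ₜ[R] ψ x := by
  set I := RingHom.ker (algebraMap R S) with hIdef
  have hI : I ≤ (⊥ : Ideal R).jacobson := by
    intro x hx
    have : x ∈ nilradical R := mem_nilradical.mpr (hnil x hx)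
    rw [Ideal.jacobson_bot]
    exact nilradical_le_jacobson R this
  -- the two `R`-linear maps into `S ⊗ P'`
  let g : P' →ₗ[R] S ⊗[R] P' := TensorProduct.mk R S P' 1
  let h : P →ₗ[R] S ⊗[R] P' := (φ.toLinearMap.restrictScalars R) ∘ₗ TensorProduct.mk R S P 1
  have hg : Function.Surjective g := fun z => exists_one_tmul_eq hsurj z
  obtain ⟨ψ₀, hψ₀⟩ := Module.projective_lifting_property g h hg
  have hψ : ∀ x : P, φ ((1 : S) ⊗ₜ[R] x) = (1 : S) ⊗ₜ[R] ψ₀ x := by
    intro x
    have := congrArg (fun k => k x) hψ₀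
    simpa [g, h] using this.symm
  have hbij : Function.Bijective ψ₀ := by
    apply bijective_of_bijective_mod hI ψ₀
    · intro y
      obtain ⟨x, hx⟩ := exists_one_tmul_eq hsurj (φ.symm ((1 : S) ⊗ₜ[R] y))
      refine ⟨x, ?_⟩
      rw [← one_tmul_eq_zero_iff hsurj, TensorProduct.tmul_sub, ← hψ, hx,
        LinearEquiv.apply_symm_apply, sub_self]
    · intro x hx
      rw [← one_tmul_eq_zero_iff hsurj] at hx ⊢
      rw [← hψ] at hx
      exact φ.injective (by rw [hx, map_zero])
  exact ⟨LinearEquiv.ofBijective ψ₀ hbij, hψ⟩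

end BaseChange

section Matrix

variable {R : Type*} [CommRing R]

theorem matrix_pow_apply_mem {n : Type*} [Fintype n] [DecidableEq n] (J : Ideal R)
    (M : Matrix n n R) (hM : ∀ i j, M i j ∈ J) (m : ℕ) : ∀ i j, (M ^ m) i j ∈ J ^ m := by
  induction m with
  | zero => intro i j; simp
  | succ m ih =>
    intro i j
    rw [pow_succ M, Matrix.mul_apply, pow_succ J]
    exact Ideal.sum_mem _ fun l _ => Ideal.mul_mem_mul (ih i l) (hM l j)

/-- A square matrix over a commutative ring with nilpotent entries is nilpotent. -/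
theorem matrix_isNilpotent_of_entries {n : Type*} [Fintype n] [DecidableEq n]
    (M : Matrix n n R) (hM : ∀ i j, IsNilpotent (M i j)) : IsNilpotent M := by
  classical
  let J : Ideal R := Ideal.span (Set.range fun ij : n × n => M ij.1 ij.2)
  have hJfg : J.FG := by
    refine ⟨Finset.univ.image fun ij : n × n => M ij.1 ij.2, ?_⟩
    simp [J]
  have hJle : J ≤ nilradical R :=
    Ideal.span_le.mpr (by rintro _ ⟨ij, rfl⟩; exact mem_nilradical.mpr (hM _ _))
  obtain ⟨k, hk⟩ := hJfg.isNilpotent_iff_le_nilradical.mpr hJle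
  refine ⟨k, ?_⟩
  ext i j
  have h := matrix_pow_apply_mem J M (fun i j => Ideal.subset_span ⟨(i, j), rfl⟩) k i j
  rw [hk] at h
  simpa using h

end Matrix

section Existence

variable {R : Type u} {S : Type v} [CommRing R] [CommRing S] [Algebra R S]

/-- **Finite projective modules lift.** `R → S` surjective with nil kernel. Every finite
projective `S`-module `Q` is isomorphic to `S ⊗[R] P` for a finite projective `R`-module `P`. -/
theorem exists_projective_lift (hsurj : Function.Surjective (algebraMap R S))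
    (hnil : ∀ x ∈ RingHom.ker (algebraMap R S), IsNilpotent x)
    (Q : Type w) [AddCommGroup Q] [Module S Q] [Module.Finite S Q] [Module.Projective S Q] :
    ∃ (P : Type u) (_ : AddCommGroup P) (_ : Module R P),
      Module.Finite R P ∧ Module.Projective R P ∧ Nonempty (S ⊗[R] P ≃ₗ[S] Q) := by
  classical
  obtain ⟨n, π, s, hπ, hs, hπs⟩ := Module.Finite.exists_comp_eq_id_of_projective S Q
  have hπs' : ∀ q, π (s q) = q := fun q => by
    have := congrArg (fun g => g q) hπs
    simpa using this
  -- the idempotent matrix over `S`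
  let E : Matrix (Fin n) (Fin n) S := LinearMap.toMatrix' (s ∘ₗ π)
  have hEmul : ∀ w : Fin n → S, E.mulVec w = s (π w) := fun w => by
    simp only [E, LinearMap.toMatrix'_mulVec, LinearMap.coe_comp, Function.comp_apply]
  have hE : IsIdempotentElem E := by
    show LinearMap.toMatrix' (s ∘ₗ π) * LinearMap.toMatrix' (s ∘ₗ π) =
      LinearMap.toMatrix' (s ∘ₗ π)
    rw [← LinearMap.toMatrix'_comp]
    congr 1
    apply LinearMap.ext
    intro w
    simp [hπs']
  let f : Matrix (Fin n) (Fin n) R →+* Matrix (Fin n) (Fin n) S := (algebraMap R S).mapMatrix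
  have hker : ∀ x ∈ RingHom.ker f, IsNilpotent x := by
    intro x hx
    apply matrix_isNilpotent_of_entries
    intro i j
    apply hnil
    rw [RingHom.mem_ker] at hx ⊢
    have := congrFun (congrFun hx i) j
    simpa [f] using this
  have hrange : E ∈ f.range := by
    refine ⟨Matrix.of fun i j => (hsurj (E i j)).choose, ?_⟩
    ext i j
    simp only [f, RingHom.mapMatrix_apply, Matrix.map_apply, Matrix.of_apply]
    exact (hsurj (E i j)).choose_spec
  obtain ⟨e, he, hfe⟩ := exists_isIdempotentElem_eq_of_ker_isNilpotent f hker E hrange hE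
  have hfe' : e.map (algebraMap R S) = E := hfe
  have hee : ∀ v : Fin n → R, e.mulVec (e.mulVec v) = e.mulVec v := fun v => by
    rw [Matrix.mulVec_mulVec, he.eq]
  -- the lift
  let P : Submodule R (Fin n → R) := LinearMap.range (Matrix.toLin' e)
  have hPfix : ∀ v ∈ P, e.mulVec v = v := by
    rintro _ ⟨w, rfl⟩
    simp only [Matrix.toLin'_apply]
    exact hee w
  let proj : (Fin n → R) →ₗ[R] P := (Matrix.toLin' e).rangeRestrict
  have hproj : ∀ v : P, proj v.1 = v := by
    intro v
    apply Subtype.ext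
    simp only [proj, LinearMap.codRestrict_apply, Matrix.toLin'_apply, LinearMap.rangeRestrict]
    exact hPfix v.1 v.2
  have hPfin : Module.Finite R P := Module.Finite.range _
  have hPproj : Module.Projective R P :=
    Module.Projective.of_split P.subtype proj (LinearMap.ext fun v => by simpa using hproj v)
  refine ⟨P, inferInstance, inferInstance, hPfin, hPproj, ?_⟩
  -- `Q` as an `R`-module
  letI : Module R Q := Module.compHom Q (algebraMap R S)
  haveI : IsScalarTower R S Q := IsScalarTower.of_algebraMap_smul fun r q => rfl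
  let ι : (Fin n → R) →ₗ[R] (Fin n → S) := (Algebra.linearMap R S).compLeft (Fin n)
  have hι : ∀ v : Fin n → R, ι (e.mulVec v) = E.mulVec (ι v) := by
    intro v
    ext i
    simp only [ι, LinearMap.compLeft_apply, Function.comp_apply, Algebra.linearMap_apply, ← hfe']
    rw [Matrix.mulVec, Matrix.mulVec, dotProduct, dotProduct, map_sum]
    simp [Matrix.map_apply]
  let θ : P →ₗ[R] Q := (π.restrictScalars R) ∘ₗ ι ∘ₗ P.subtype
  let Φ : S ⊗[R] P →ₗ[S] Q := θ.liftBaseChange S
  have hΦ : ∀ v : P, Φ ((1 : S) ⊗ₜ[R] v) = π (ι v.1) := fun v => by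
    simp [Φ, θ]
  have hΦbij : Function.Bijective Φ := by
    constructor
    · -- injective
      rw [injective_iff_map_eq_zero]
      intro z hz
      obtain ⟨v, rfl⟩ := exists_one_tmul_eq hsurj z
      rw [hΦ] at hz
      rw [one_tmul_eq_zero_iff hsurj]
      have hιv : ι v.1 = 0 := by
        have h1 : ι v.1 = E.mulVec (ι v.1) := by
          conv_lhs => rw [← hPfix v.1 v.2]
          exact hι v.1
        rw [h1, hEmul, hz, map_zero]
      have hmem : ∀ j, v.1 j ∈ RingHom.ker (algebraMap R S) := by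
        intro j
        have := congrFun hιv j
        simpa [ι, RingHom.mem_ker] using this
      have hv : v = ∑ j, (v.1 j) • proj (Pi.single j (1 : R)) := by
        rw [← hproj v]
        conv_lhs => rw [pi_eq_sum_univ' v.1]
        simp only [map_sum, map_smul]
        congr 1
        ext j : 1
        congr 2
        rw [hproj]
      rw [hv]
      exact Submodule.sum_mem _ fun j _ =>
        Submodule.smul_mem_smul (hmem j) Submodule.mem_top
    · -- surjective
      intro q
      have hw : ∃ v : Fin n → R, ι v = s q := by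
        refine ⟨fun i => (hsurj (s q i)).choose, ?_⟩
        ext i
        simp only [ι, LinearMap.compLeft_apply, Function.comp_apply, Algebra.linearMap_apply]
        exact (hsurj (s q i)).choose_spec
      obtain ⟨v, hv⟩ := hw
      refine ⟨(1 : S) ⊗ₜ[R] proj v, ?_⟩
      rw [hΦ]
      have : (proj v).1 = e.mulVec v := by
        simp [proj, LinearMap.rangeRestrict]
      rw [this, hι, hv, hEmul, hπs', hπs']
  exact ⟨LinearEquiv.ofBijective Φ hΦbij⟩

/-- **Invertible modules lift.** `R → S` surjective with nil kernel. Every invertible `S`-module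
`Q` is isomorphic to `S ⊗[R] P` for an invertible `R`-module `P`. -/
theorem exists_invertible_lift (hsurj : Function.Surjective (algebraMap R S))
    (hnil : ∀ x ∈ RingHom.ker (algebraMap R S), IsNilpotent x)
    (Q : Type w) [AddCommGroup Q] [Module S Q] [Module.Invertible S Q] :
    ∃ (P : Type u) (_ : AddCommGroup P) (_ : Module R P),
      Module.Invertible R P ∧ Nonempty (S ⊗[R] P ≃ₗ[S] Q) := by
  obtain ⟨P, _, _, hPf, hPp, ⟨φ⟩⟩ := exists_projective_lift hsurj hnil Q
  obtain ⟨P', _, _, hP'f, hP'p, ⟨φ'⟩⟩ := exists_projective_lift hsurj hnil (Module.Dual S Q)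
  let Ψ : S ⊗[R] (P' ⊗[R] P) ≃ₗ[S] S ⊗[R] R :=
    (AlgebraTensorModule.distribBaseChange R S P' P) ≪≫ₗ (TensorProduct.congr φ' φ) ≪≫ₗ
      (Module.Invertible.linearEquiv S Q) ≪≫ₗ (AlgebraTensorModule.rid R S S).symm
  obtain ⟨ψ, -⟩ := exists_linearEquiv_lift hsurj hnil Ψ
  exact ⟨P, inferInstance, inferInstance, Module.Invertible.right ψ, ⟨φ⟩⟩

/-- A finite projective lift of an invertible module is invertible. -/
theorem invertible_of_baseChange (hsurj : Function.Surjective (algebraMap R S))
    (hnil : ∀ x ∈ RingHom.ker (algebraMap R S), IsNilpotent x)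
    (P : Type*) [AddCommGroup P] [Module R P] [Module.Finite R P] [Module.Projective R P]
    [Module.Invertible S (S ⊗[R] P)] : Module.Invertible R P := by
  obtain ⟨P', _, _, hP'f, hP'p, ⟨φ'⟩⟩ :=
    exists_projective_lift hsurj hnil (Module.Dual S (S ⊗[R] P))
  let Ψ : S ⊗[R] (P' ⊗[R] P) ≃ₗ[S] S ⊗[R] R :=
    (AlgebraTensorModule.distribBaseChange R S P' P) ≪≫ₗ
      (TensorProduct.congr φ' (LinearEquiv.refl S (S ⊗[R] P))) ≪≫ₗ
      (Module.Invertible.linearEquiv S (S ⊗[R] P)) ≪≫ₗ (AlgebraTensorModule.rid R S S).symm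
  obtain ⟨ψ, -⟩ := exists_linearEquiv_lift hsurj hnil Ψ
  exact Module.Invertible.right ψ

end Existence

section Quotient

variable {R : Type u} [CommRing R] (I : Ideal R)

theorem quotient_hyps (hI : I ≤ nilradical R) :
    Function.Surjective (algebraMap R (R ⧸ I)) ∧
      ∀ x ∈ RingHom.ker (algebraMap R (R ⧸ I)), IsNilpotent x := by
  refine ⟨Ideal.Quotient.mk_surjective, fun x hx => ?_⟩
  rw [Ideal.Quotient.algebraMap_eq, Ideal.mk_ker] at hx
  exact mem_nilradical.mp (hI hx)

theorem le_nilradical_of_pow_eq_bot {n : ℕ} (hI : I ^ n = ⊥) : I ≤ nilradical R := by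
  intro x hx
  refine mem_nilradical.mpr ⟨n, ?_⟩
  have : x ^ n ∈ I ^ n := Ideal.pow_mem_pow hx n
  rw [hI] at this
  simpa using this

/-- H4, quotient form, objects: invertible modules over `R ⧸ I` (`I` nil, e.g. `I ^ 2 = ⊥`) lift
to invertible modules over `R`. -/
theorem exists_invertible_lift_quotient (hI : I ≤ nilradical R)
    (Q : Type w) [AddCommGroup Q] [Module (R ⧸ I) Q] [Module.Invertible (R ⧸ I) Q] :
    ∃ (P : Type u) (_ : AddCommGroup P) (_ : Module R P),
      Module.Invertible R P ∧ Nonempty ((R ⧸ I) ⊗[R] P ≃ₗ[R ⧸ I] Q) :=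
  exists_invertible_lift (quotient_hyps I hI).1 (quotient_hyps I hI).2 Q

/-- H4, quotient form, objects: finite projective modules over `R ⧸ I` lift. -/
theorem exists_projective_lift_quotient (hI : I ≤ nilradical R)
    (Q : Type w) [AddCommGroup Q] [Module (R ⧸ I) Q] [Module.Finite (R ⧸ I) Q]
    [Module.Projective (R ⧸ I) Q] :
    ∃ (P : Type u) (_ : AddCommGroup P) (_ : Module R P),
      Module.Finite R P ∧ Module.Projective R P ∧ Nonempty ((R ⧸ I) ⊗[R] P ≃ₗ[R ⧸ I] Q) :=
  exists_projective_lift (quotient_hyps I hI).1 (quotient_hyps I hI).2 Q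

/-- H4, quotient form, morphisms: isomorphisms between base changes of finite projective modules
lift. -/
theorem exists_linearEquiv_lift_quotient (hI : I ≤ nilradical R)
    {P P' : Type*} [AddCommGroup P] [Module R P] [AddCommGroup P'] [Module R P']
    [Module.Finite R P] [Module.Projective R P] [Module.Finite R P'] [Module.Projective R P']
    (φ : (R ⧸ I) ⊗[R] P ≃ₗ[R ⧸ I] (R ⧸ I) ⊗[R] P') :
    ∃ ψ : P ≃ₗ[R] P', ∀ x : P, φ ((1 : R ⧸ I) ⊗ₜ[R] x) = (1 : R ⧸ I) ⊗ₜ[R] ψ x :=
  exists_linearEquiv_lift (quotient_hyps I hI).1 (quotient_hyps I hI).2 φ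

end Quotient

/-! ## The leaves H4a, H4b, H4c in the exact shape of the squad skeleton
(`origin/helper11:coord/S25-HILB-skeleton.lean`) -/

section Skeleton

theorem le_nilradical_of_isNilpotent {R : Type u} [CommRing R] (I : Ideal R)
    (hI : IsNilpotent I) : I ≤ nilradical R := by
  obtain ⟨n, hn⟩ := hI
  exact le_nilradical_of_pow_eq_bot I hn

/-- **H4a.** Finite projective modules lift along a surjection with nilpotent kernel. -/
theorem H4a {R : Type u} [CommRing R] (I : Ideal R) (hI : IsNilpotent I)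
    (M : Type u) [AddCommGroup M] [Module (R ⧸ I) M] [Module.Finite (R ⧸ I) M]
    [Module.Projective (R ⧸ I) M] :
    ∃ (N : Type u) (_ : AddCommGroup N) (_ : Module R N), Module.Finite R N ∧
      Module.Projective R N ∧ Nonempty (((R ⧸ I) ⊗[R] N) ≃ₗ[R ⧸ I] M) :=
  exists_projective_lift_quotient I (le_nilradical_of_isNilpotent I hI) M

/-- **H4b.** Isomorphisms between finite projective modules lift along a surjection with
nilpotent kernel. -/
theorem H4b {R : Type u} [CommRing R] (I : Ideal R) (hI : IsNilpotent I)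
    (N N' : Type u) [AddCommGroup N] [Module R N] [AddCommGroup N'] [Module R N']
    [Module.Finite R N] [Module.Projective R N] [Module.Finite R N'] [Module.Projective R N']
    (e : ((R ⧸ I) ⊗[R] N) ≃ₗ[R ⧸ I] ((R ⧸ I) ⊗[R] N')) :
    ∃ e' : N ≃ₗ[R] N', ∀ n : N, e ((1 : R ⧸ I) ⊗ₜ[R] n) = (1 : R ⧸ I) ⊗ₜ[R] e' n :=
  exists_linearEquiv_lift_quotient I (le_nilradical_of_isNilpotent I hI) e

/-- **H4c.** A finite projective lift of an invertible module is invertible. -/
theorem H4c {R : Type u} [CommRing R] (I : Ideal R)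
    (hI : IsNilpotent I) (N : Type u) [AddCommGroup N] [Module R N] [Module.Finite R N]
    [Module.Projective R N] [Module.Invertible (R ⧸ I) ((R ⧸ I) ⊗[R] N)] :
    Module.Invertible R N :=
  invertible_of_baseChange (quotient_hyps I (le_nilradical_of_isNilpotent I hI)).1
    (quotient_hyps I (le_nilradical_of_isNilpotent I hI)).2 N

end Skeleton

end Fermat.Agent.S25.H971

end
-- ===== PACK-END S25/H971/Lift.lean

-- ===== PACK-BEGIN S25/H627/CurveAlg.lean
section


/-!
# S25, block CURVE, leaf C1 (algebra core) — helper627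

`B` a standard smooth algebra of relative dimension one over an algebraically closed field `k`,
`B` a domain.  Then `B` is a Dedekind domain, not a field; its localizations at maximal ideals
are discrete valuation rings; all its localizations at primes are valuation rings; proper closed
subsets of its spectrum are finite.

Method: Jacobian criterion (`Algebra.FormallySmooth.iff_injective_cotangentComplexBaseChange`)
applied to `B → B ⧸ m` gives `dim (m / m²) ≤ rank Ω[B⁄k] = 1`; Nakayama; DVR TFAE.
-/

set_option autoImplicit false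
set_option linter.style.haveILetI false

open TensorProduct

namespace Fermat.Agent.S25.H627

/-- Every element of `(R ⧸ I) ⊗[R] M` is of the form `1 ⊗ x`. -/
theorem exists_one_tmul_eq {R M : Type*} [CommRing R] [AddCommGroup M] [Module R M]
    (I : Ideal R) (v : (R ⧸ I) ⊗[R] M) : ∃ x : M, (1 : R ⧸ I) ⊗ₜ[R] x = v := by
  induction v using TensorProduct.induction_on with
  | zero => exact ⟨0, by simp⟩
  | tmul a x =>
    obtain ⟨r, rfl⟩ := Ideal.Quotient.mk_surjective a
    refine ⟨r • x, ?_⟩
    rw [TensorProduct.tmul_smul, TensorProduct.smul_tmul', ← Ideal.Quotient.algebraMap_eq,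
      Algebra.smul_def, mul_one]
  | add a b ha hb =>
    obtain ⟨x, rfl⟩ := ha
    obtain ⟨y, rfl⟩ := hb
    exact ⟨x + y, TensorProduct.tmul_add _ _ _⟩

/-- `1 ⊗ x = 0` in `(R ⧸ I) ⊗[R] M` iff `x ∈ I • ⊤`. -/
theorem one_tmul_eq_zero_iff {R M : Type*} [CommRing R] [AddCommGroup M] [Module R M]
    (I : Ideal R) (x : M) : (1 : R ⧸ I) ⊗ₜ[R] x = 0 ↔ x ∈ (I • ⊤ : Submodule R M) := by
  rw [← Submodule.Quotient.mk_eq_zero, ← (quotTensorEquivQuotSMul M I).map_eq_zero_iff]
  have := quotTensorEquivQuotSMul_mk_tmul I (1 : R) x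
  rw [map_one, one_smul] at this
  rw [this]

/-- Cotangent bound at a maximal ideal of a standard smooth curve algebra: `m = (t) + m²`. -/
theorem exists_mem_le_span_sup_sq (k : Type*) {B : Type*} [Field k] [IsAlgClosed k] [CommRing B]
    [Algebra k B] [Algebra.IsStandardSmoothOfRelativeDimension 1 k B]
    (m : Ideal B) [hm : m.IsMaximal] :
    ∃ t ∈ m, m ≤ Ideal.span {t} ⊔ m ^ 2 := by
  classical
  letI : Field (B ⧸ m) := Ideal.Quotient.field m
  haveI : Algebra.IsStandardSmooth k B :=
    Algebra.IsStandardSmoothOfRelativeDimension.isStandardSmooth 1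
  haveI : Nontrivial B :=
    ⟨⟨0, 1, fun h => hm.ne_top ((Ideal.eq_top_iff_one m).mpr (h ▸ m.zero_mem))⟩⟩
  haveI : IsNoetherianRing B := Algebra.FiniteType.isNoetherianRing k B
  haveI : Algebra.FormallySmooth k (B ⧸ m) := inferInstance
  have hinj := (Algebra.FormallySmooth.iff_injective_cotangentComplexBaseChange
    (R := k) (S := B ⧸ m) B (B ⧸ m) Ideal.Quotient.mk_surjective
    (IsNoetherian.noetherian _) (by rw [IsLocalRing.maximalIdeal_eq_bot]; exact bot_le)).mp
    inferInstance
  -- dimension count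
  have hrank : Module.finrank (B ⧸ m) ((B ⧸ m) ⊗[B] Ω[B⁄k]) = 1 := by
    rw [Module.finrank_baseChange]
    have := Algebra.IsStandardSmoothOfRelativeDimension.rank_kaehlerDifferential
      (R := k) (S := B) 1
    exact Module.finrank_eq_of_rank_eq (by simpa using this)
  haveI : Module.Finite (B ⧸ m) ((B ⧸ m) ⊗[B] Ω[B⁄k]) := inferInstance
  have hle := LinearMap.finrank_le_finrank_of_injective hinj
  rw [hrank] at hle
  generalize hJ : RingHom.ker (algebraMap B (B ⧸ m)) = J at hle
  have hJm : J = m := hJ ▸ Ideal.mk_ker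
  subst hJm
  haveI : Module.Finite (B ⧸ J) ((B ⧸ J) ⊗[B] J) := inferInstance
  obtain ⟨v, hv⟩ := finrank_le_one_iff.mp hle
  obtain ⟨t, rfl⟩ := exists_one_tmul_eq J v
  refine ⟨(t : B), t.2, fun x hx => ?_⟩
  obtain ⟨c, hc⟩ := hv ((1 : B ⧸ J) ⊗ₜ[B] (⟨x, hx⟩ : J))
  obtain ⟨b, rfl⟩ := Ideal.Quotient.mk_surjective c
  have h0 : (1 : B ⧸ J) ⊗ₜ[B] ((⟨x, hx⟩ : J) - b • t) = 0 := by
    rw [TensorProduct.tmul_sub, ← hc, TensorProduct.tmul_smul, ← Ideal.Quotient.algebraMap_eq,
      algebraMap_smul, sub_self]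
  rw [one_tmul_eq_zero_iff] at h0
  have h1 : (((⟨x, hx⟩ : J) - b • t : J) : B) ∈ J ^ 2 := by
    have := Submodule.mem_map_of_mem (f := J.subtype) h0
    rw [Submodule.map_smul'', Submodule.map_top, Submodule.range_subtype] at this
    simpa [pow_two] using this
  have hx_eq : x = b * (t : B) + (x - b * (t : B)) := by ring
  rw [hx_eq]
  refine Ideal.add_mem _ (Ideal.mem_sup_left ?_) (Ideal.mem_sup_right ?_)
  · exact Ideal.mul_mem_left _ _ (Ideal.subset_span rfl)
  · simpa using h1

/-- A standard smooth algebra of relative dimension one over an algebraically closed field is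
not a field. -/
theorem not_isField_of_standardSmooth (k : Type*) {B : Type*} [Field k] [IsAlgClosed k]
    [CommRing B] [Algebra k B] [Algebra.IsStandardSmoothOfRelativeDimension 1 k B] :
    ¬ IsField B := by
  intro hB
  letI : Field B := hB.toField
  haveI : Algebra.IsStandardSmooth k B :=
    Algebra.IsStandardSmoothOfRelativeDimension.isStandardSmooth 1
  haveI : Module.Finite k B := finite_of_finite_type_of_isJacobsonRing k B
  have hbij : Function.Bijective (algebraMap k B) :=
    IsAlgClosed.algebraMap_bijective_of_isIntegral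
  haveI := KaehlerDifferential.subsingleton_of_surjective k B hbij.2
  have h1 := Algebra.IsStandardSmoothOfRelativeDimension.rank_kaehlerDifferential
    (R := k) (S := B) 1
  rw [rank_subsingleton'] at h1
  simp at h1

/-- The localization of a standard smooth curve algebra (a domain) at a maximal ideal is a
discrete valuation ring. -/
theorem isDiscreteValuationRing_of_isMaximal (k : Type*) {B : Type*} [Field k] [IsAlgClosed k]
    [CommRing B] [IsDomain B] [Algebra k B] [Algebra.IsStandardSmoothOfRelativeDimension 1 k B]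
    (m : Ideal B) [hm : m.IsMaximal] (S : Type*) [CommRing S] [IsDomain S] [Algebra B S]
    [IsLocalization.AtPrime S m] : IsDiscreteValuationRing S := by
  haveI : Algebra.IsStandardSmooth k B :=
    Algebra.IsStandardSmoothOfRelativeDimension.isStandardSmooth 1
  haveI : IsNoetherianRing B := Algebra.FiniteType.isNoetherianRing k B
  haveI : IsLocalRing S := IsLocalization.AtPrime.isLocalRing S m
  haveI : IsNoetherianRing S := IsLocalization.isNoetherianRing m.primeCompl S inferInstance
  have hm0 : m ≠ ⊥ :=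
    Ring.ne_bot_of_isMaximal_of_not_isField hm (not_isField_of_standardSmooth k)
  have hnf : ¬ IsField S := IsLocalization.AtPrime.not_isField B hm0 S
  obtain ⟨t, ht, hle⟩ := exists_mem_le_span_sup_sq k m
  have hM : Ideal.map (algebraMap B S) m = IsLocalRing.maximalIdeal S :=
    IsLocalization.AtPrime.map_eq_maximalIdeal m S
  have hle' : IsLocalRing.maximalIdeal S ≤
      Ideal.span {algebraMap B S t} ⊔
        IsLocalRing.maximalIdeal S • IsLocalRing.maximalIdeal S := by
    have := Ideal.map_mono (f := algebraMap B S) hle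
    rw [Ideal.map_sup, Ideal.map_span, Ideal.map_pow, hM, Set.image_singleton, pow_two] at this
    exact this
  have hprin : IsLocalRing.maximalIdeal S ≤ Ideal.span {algebraMap B S t} :=
    Submodule.le_of_le_smul_of_le_jacobson_bot (IsNoetherian.noetherian _)
      (IsLocalRing.maximalIdeal_le_jacobson _) hle'
  have heq : IsLocalRing.maximalIdeal S = Ideal.span {algebraMap B S t} := by
    refine le_antisymm hprin ?_
    rw [Ideal.span_singleton_le_iff_mem, ← hM]
    exact Ideal.mem_map_of_mem _ ht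
  have hP : (IsLocalRing.maximalIdeal S).IsPrincipal := ⟨⟨_, heq⟩⟩
  exact ((IsDiscreteValuationRing.TFAE S hnf).out 0 4).mpr hP

/-- In a domain whose localizations at all maximal ideals are DVRs, every nonzero prime is
maximal. -/
theorem isMaximal_of_forall_isMaximal_dvr {A : Type*} [CommRing A] [IsDomain A]
    (h : ∀ (m : Ideal A) [m.IsMaximal], IsDiscreteValuationRing (Localization.AtPrime m))
    (p : Ideal A) (hp : p ≠ ⊥) [hpp : p.IsPrime] : p.IsMaximal := by
  rcases p.exists_le_maximal (Ideal.IsPrime.ne_top hpp) with ⟨q, hq, hpq⟩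
  haveI := hq
  let f := (IsLocalization.orderIsoOfPrime q.primeCompl (Localization.AtPrime q)).symm
  let P := f ⟨p, hpp, hpq.disjoint_compl_left⟩
  let Q := f ⟨q, hq.isPrime, Set.disjoint_left.mpr fun _ a => a⟩
  have hinj : Function.Injective (algebraMap A (Localization.AtPrime q)) :=
    IsLocalization.injective (Localization.AtPrime q) q.primeCompl_le_nonZeroDivisors
  have hp1 : P.1 ≠ ⊥ := fun x => hp ((p.map_eq_bot_iff_of_injective hinj).mp x)
  have hq1 : Q.1 ≠ ⊥ :=
    fun x => (ne_bot_of_le_ne_bot hp hpq) ((q.map_eq_bot_iff_of_injective hinj).mp x)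
  rcases (IsDiscreteValuationRing.iff_pid_with_one_nonzero_prime (Localization.AtPrime q)).mp
    (h q) with ⟨_, huq⟩
  rw [show p = q from Subtype.val_inj.mpr <| f.injective <|
    Subtype.val_inj.mp (huq.unique ⟨hp1, P.2⟩ ⟨hq1, Q.2⟩)]
  exact hq

/-- A noetherian domain whose localizations at all maximal ideals are DVRs is Dedekind. -/
theorem isDedekindDomain_of_forall_isMaximal_dvr {A : Type*} [CommRing A] [IsDomain A]
    [IsNoetherianRing A]
    (h : ∀ (m : Ideal A) [m.IsMaximal], IsDiscreteValuationRing (Localization.AtPrime m)) :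
    IsDedekindDomain A := by
  haveI : IsDedekindDomainDvr A :=
    { is_dvr_at_nonzero_prime := fun P hP hPp => by
        haveI := hPp
        haveI := isMaximal_of_forall_isMaximal_dvr h P hP
        exact h P }
  infer_instance

/-- **C1a.** A standard smooth algebra of relative dimension one over an algebraically closed
field which is a domain is a Dedekind domain. -/
theorem isDedekindDomain_of_standardSmooth (k : Type*) {B : Type*} [Field k] [IsAlgClosed k]
    [CommRing B] [IsDomain B] [Algebra k B] [Algebra.IsStandardSmoothOfRelativeDimension 1 k B] :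
    IsDedekindDomain B := by
  haveI : Algebra.IsStandardSmooth k B :=
    Algebra.IsStandardSmoothOfRelativeDimension.isStandardSmooth 1
  haveI : IsNoetherianRing B := Algebra.FiniteType.isNoetherianRing k B
  exact isDedekindDomain_of_forall_isMaximal_dvr fun m _ =>
    isDiscreteValuationRing_of_isMaximal k m _

/-- Localizations of a Dedekind domain at primes are valuation rings (fields at `⊥`, DVRs
otherwise). -/
theorem valuationRing_of_isDedekindDomain_of_isLocalization {A : Type*} [CommRing A]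
    [IsDedekindDomain A] (p : Ideal A) [p.IsPrime] (S : Type*) [CommRing S]
    [IsDomain S] [Algebra A S] [IsLocalization.AtPrime S p] : ValuationRing S := by
  by_cases hp : p = ⊥
  · -- `S` is the fraction field
    subst hp
    haveI : IsFractionRing A S := by
      have : (⊥ : Ideal A).primeCompl = nonZeroDivisors A := by
        ext x
        simp [Ideal.primeCompl, mem_nonZeroDivisors_iff_ne_zero]
      unfold IsFractionRing
      rw [← this]
      infer_instance
    letI : Field S := IsFractionRing.toField A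
    infer_instance
  · haveI := IsLocalization.AtPrime.isDiscreteValuationRing_of_dedekind_domain A hp S
    infer_instance

/-- In a Dedekind domain, the set of primes containing a nonzero ideal is finite. -/
theorem finite_zeroLocus_of_ne_bot {A : Type*} [CommRing A] [IsDedekindDomain A]
    (I : Ideal A) (hI : I ≠ ⊥) : (PrimeSpectrum.zeroLocus (I : Set A)).Finite := by
  have hfin := Ideal.finite_minimalPrimes_of_isNoetherianRing A I
  have hsub : PrimeSpectrum.zeroLocus (I : Set A) ⊆
      PrimeSpectrum.asIdeal ⁻¹' I.minimalPrimes := by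
    intro P hP
    rw [PrimeSpectrum.mem_zeroLocus] at hP
    obtain ⟨q, hq, hqP⟩ := Ideal.exists_minimalPrimes_le (I := I) (J := P.asIdeal) hP
    have hq0 : q ≠ ⊥ := fun h => hI (le_bot_iff.mp (h ▸ hq.1.2))
    haveI := hq.1.1
    have hqmax : q.IsMaximal := Ring.DimensionLEOne.maximalOfPrime hq0 hq.1.1
    have : q = P.asIdeal := hqmax.eq_of_le P.isPrime.ne_top hqP
    simpa [← this] using hq
  have hinj : Function.Injective (PrimeSpectrum.asIdeal (R := A)) :=
    fun _ _ h => PrimeSpectrum.ext h
  exact (hfin.preimage hinj.injOn).subset hsub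

end Fermat.Agent.S25.H627

end
-- ===== PACK-END S25/H627/CurveAlg.lean

-- ===== PACK-BEGIN S25/H747/Bridge.lean
section
/-
S25 (Jacobian) -- helper747 -- block CURVE, leaf C1-SCHEME: the scheme -> algebra bridge.

For `c : C ⟶ Spec k` proper, smooth of relative dimension 1, `C` integral, `k` a field:
sections over affine opens are finitely generated noetherian domains, smooth over `k`,
locally standard smooth of relative dimension one, and stalks are localizations.
-/


set_option autoImplicit false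
set_option linter.style.haveILetI false

universe u

open CategoryTheory CategoryTheory.Limits AlgebraicGeometry

noncomputable section

namespace Fermat.Agent.S25.H747

variable {k : Type u} [Field k] {C : Scheme.{u}} (c : C ⟶ Spec (CommRingCat.of k))

theorem le_preimage_top (U : C.Opens) : U ≤ c ⁻¹ᵁ ⊤ := fun _ _ => trivial

/-- The structure map `k → Γ(C, U)` of a `k`-scheme. -/
def sectionMap (U : C.Opens) : k →+* Γ(C, U) :=
  (c.appLE ⊤ U (le_preimage_top c U)).hom.comp (Scheme.ΓSpecIso (CommRingCat.of k)).inv.hom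

/-- `Γ(C, U)` as a `k`-algebra (not an instance; use `letI`). -/
abbrev sectionAlgebra (U : C.Opens) : Algebra k Γ(C, U) := (sectionMap c U).toAlgebra

theorem sectionMap_comp_ΓSpecIso (U : C.Opens) :
    (sectionMap c U).comp (Scheme.ΓSpecIso (CommRingCat.of k)).hom.hom
      = (c.appLE ⊤ U (le_preimage_top c U)).hom := by
  ext x
  simp [sectionMap]

/-- The structure maps are compatible with restriction. -/
theorem sectionMap_map {U V : C.Opens} (h : V ≤ U) :
    (C.presheaf.map (homOfLE h).op).hom.comp (sectionMap c U) = sectionMap c V := by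
  ext x
  simp only [sectionMap, RingHom.coe_comp, Function.comp_apply]
  rw [← CommRingCat.comp_apply, Scheme.Hom.appLE_map]

section FiniteType

variable [LocallyOfFiniteType c]
include c

/-- (C1) sections over affine opens are finitely generated `k`-algebras. -/
theorem sectionMap_finiteType {U : C.Opens} (hU : IsAffineOpen U) :
    (sectionMap c U).FiniteType := by
  have h := c.finiteType_appLE (isAffineOpen_top (Spec (CommRingCat.of k))) hU
    (le_preimage_top c U)
  rw [sectionMap]
  exact RingHom.FiniteType.comp h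
    (RingHom.FiniteType.of_surjective _
      (ConcreteCategory.bijective_of_isIso (Scheme.ΓSpecIso (CommRingCat.of k)).inv).2)

theorem algebra_finiteType {U : C.Opens} (hU : IsAffineOpen U) :
    @Algebra.FiniteType k Γ(C, U) _ _ (sectionAlgebra c U) := by
  letI := sectionAlgebra c U
  exact sectionMap_finiteType c hU

/-- (C1) `C` is locally noetherian. -/
theorem isLocallyNoetherian : IsLocallyNoetherian C :=
  LocallyOfFiniteType.isLocallyNoetherian c

/-- (C1) sections over affine opens are noetherian rings. -/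
theorem isNoetherianRing_section {U : C.Opens} (hU : IsAffineOpen U) :
    IsNoetherianRing Γ(C, U) := by
  haveI := isLocallyNoetherian c
  exact IsLocallyNoetherian.component_noetherian ⟨U, hU⟩

/-- (C1) `C` is a Jacobson space: closed points are dense in every closed subset. -/
theorem jacobsonSpace : JacobsonSpace C :=
  LocallyOfFiniteType.jacobsonSpace c

end FiniteType

/-- (C1) sections over nonempty opens of an integral scheme are domains. -/
theorem isDomain_section [IsIntegral C] (U : C.Opens) (hU : (U : Set C).Nonempty) :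
    IsDomain Γ(C, U) := by
  haveI : Nonempty U := hU.to_subtype
  infer_instance

section Smooth

/-- (C1) sections over affine opens are smooth `k`-algebras. -/
theorem sectionMap_smooth [Smooth c] {U : C.Opens} (hU : IsAffineOpen U) :
    (sectionMap c U).Smooth := by
  have h := c.smooth_appLE (isAffineOpen_top (Spec (CommRingCat.of k))) hU
    (le_preimage_top c U)
  rw [sectionMap]
  exact RingHom.Smooth.comp
    (RingHom.Smooth.of_bijective
      (ConcreteCategory.bijective_of_isIso (Scheme.ΓSpecIso (CommRingCat.of k)).inv)) h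

/-- `Spec k` has only one open containing a given point. -/
theorem opens_spec_field_eq_top (U : (Spec (CommRingCat.of k)).Opens)
    (y : Spec (CommRingCat.of k)) (hy : y ∈ U) : U = ⊤ := by
  haveI : Subsingleton (Spec (CommRingCat.of k)) :=
    inferInstanceAs (Subsingleton (PrimeSpectrum k))
  ext z
  simp only [TopologicalSpace.Opens.coe_top, Set.mem_univ, iff_true, SetLike.mem_coe]
  rwa [Subsingleton.elim z y]

/-- (C1) every point of `C` has an affine open neighbourhood which is standard smooth of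
relative dimension one over `k`. -/
theorem exists_isStandardSmoothOfRelativeDimension [SmoothOfRelativeDimension 1 c] (x : C) :
    ∃ V : C.Opens, IsAffineOpen V ∧ x ∈ V ∧
      (sectionMap c V).IsStandardSmoothOfRelativeDimension 1 := by
  obtain ⟨U', hU', V, hV, hxV, e, h⟩ :=
    SmoothOfRelativeDimension.exists_isStandardSmoothOfRelativeDimension (n := 1) (f := c) x
  obtain rfl : U' = ⊤ := opens_spec_field_eq_top U' (c x) (e hxV)
  refine ⟨V, hV, hxV, ?_⟩
  have h2 := RingHom.isStandardSmoothOfRelativeDimension_respectsIso.2 _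
    (Scheme.ΓSpecIso (CommRingCat.of k)).symm.commRingCatIsoToRingEquiv h
  exact h2

/-- (C1) for EVERY affine open `U`, `k → Γ(C, U)` is locally (on principal opens of `U`)
standard smooth of relative dimension one. -/
theorem sectionMap_locally_isStandardSmoothOfRelativeDimension [SmoothOfRelativeDimension 1 c]
    {U : C.Opens} (hU : IsAffineOpen U) :
    RingHom.Locally (RingHom.IsStandardSmoothOfRelativeDimension 1) (sectionMap c U) := by
  have h := HasRingHomProperty.appLE (P := @SmoothOfRelativeDimension 1) c inferInstance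
    ⟨⊤, isAffineOpen_top (Spec (CommRingCat.of k))⟩ ⟨U, hU⟩ (le_preimage_top c U)
  exact (RingHom.locally_respectsIso RingHom.isStandardSmoothOfRelativeDimension_respectsIso).2 _
    (Scheme.ΓSpecIso (CommRingCat.of k)).symm.commRingCatIsoToRingEquiv h

end Smooth

end Fermat.Agent.S25.H747

end
end
-- ===== PACK-END S25/H747/Bridge.lean

-- ===== PACK-BEGIN S25/H986/InvertibleLocal.lean
section



/-!
# S25 / block GLUE / leaf G3 (a): `Scheme.Modules.IsInvertible` is local

All statements are about the Prelude predicate `AlgebraicGeometry.Scheme.Modules.IsInvertible`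
(local triviality of `(Scheme.Modules.pullback U.ι).obj M`).

Main results (namespace `Fermat.Agent.S25.H986`):

* `isInvertible_of_iso`, `isInvertible_iff_of_iso` : invariance under isomorphism.
* `pullbackIsoUnit_of_restrictIsoUnit`, `restrictIsoUnit_of_pullbackIsoUnit` : trivialisations
  with respect to `restrictFunctor` and `pullback` correspond.
* `isInvertible_iff_restrict` : `IsInvertible M` iff every point has an open neighbourhood `U`
  with `(restrictFunctor U.ι).obj M ≅ unit`.
* `isInvertible_of_isOpenImmersion_cover` : if `f i : Y i ⟶ X` are jointly surjective open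
  immersions and every `(pullback (f i)).obj M` is invertible, then `M` is invertible.
* `isInvertible_of_iSup_eq_top` : the same for a family of opens `U i` with `⨆ i, U i = ⊤`
  (this is G3 (a) verbatim), `isInvertible_of_openCover` for a `Scheme.OpenCover`.
* `isInvertible_restrictFunctor`: restriction along an open immersion preserves invertibility.
-/

set_option autoImplicit false

universe u

open CategoryTheory AlgebraicGeometry

namespace Fermat.Agent.S25.H986

/-- Invertibility is invariant under isomorphism. -/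
theorem isInvertible_of_iso {X : Scheme.{u}} {M N : X.Modules} (e : M ≅ N)
    (hM : Scheme.Modules.IsInvertible M) : Scheme.Modules.IsInvertible N := by
  refine ⟨fun x => ?_⟩
  obtain ⟨U, hxU, ⟨eU⟩⟩ := hM.1 x
  exact ⟨U, hxU, ⟨(Scheme.Modules.pullback U.ι).mapIso e.symm ≪≫ eU⟩⟩

theorem isInvertible_iff_of_iso {X : Scheme.{u}} {M N : X.Modules} (e : M ≅ N) :
    Scheme.Modules.IsInvertible M ↔ Scheme.Modules.IsInvertible N :=
  ⟨isInvertible_of_iso e, isInvertible_of_iso e.symm⟩

/-- A trivialisation of the restriction gives a trivialisation of the pullback. -/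
noncomputable def pullbackIsoUnit_of_restrictIsoUnit {X Y : Scheme.{u}} (f : Y ⟶ X)
    [IsOpenImmersion f] {M : X.Modules}
    (e : (Scheme.Modules.restrictFunctor f).obj M ≅ SheafOfModules.unit Y.ringCatSheaf) :
    (Scheme.Modules.pullback f).obj M ≅ SheafOfModules.unit Y.ringCatSheaf :=
  ((Scheme.Modules.restrictFunctorIsoPullback f).app M).symm ≪≫ e

/-- A trivialisation of the pullback gives a trivialisation of the restriction. -/
noncomputable def restrictIsoUnit_of_pullbackIsoUnit {X Y : Scheme.{u}} (f : Y ⟶ X)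
    [IsOpenImmersion f] {M : X.Modules}
    (e : (Scheme.Modules.pullback f).obj M ≅ SheafOfModules.unit Y.ringCatSheaf) :
    (Scheme.Modules.restrictFunctor f).obj M ≅ SheafOfModules.unit Y.ringCatSheaf :=
  (Scheme.Modules.restrictFunctorIsoPullback f).app M ≪≫ e

/-- `IsInvertible` can be tested with `restrictFunctor` instead of `pullback`. -/
theorem isInvertible_iff_restrict {X : Scheme.{u}} (M : X.Modules) :
    Scheme.Modules.IsInvertible M ↔
      ∀ x : X, ∃ U : X.Opens, x ∈ U ∧
        Nonempty ((Scheme.Modules.restrictFunctor U.ι).obj M ≅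
          SheafOfModules.unit U.toScheme.ringCatSheaf) := by
  constructor
  · intro h x
    obtain ⟨U, hxU, ⟨e⟩⟩ := h.1 x
    exact ⟨U, hxU, ⟨restrictIsoUnit_of_pullbackIsoUnit U.ι e⟩⟩
  · intro h
    refine ⟨fun x => ?_⟩
    obtain ⟨U, hxU, ⟨e⟩⟩ := h x
    exact ⟨U, hxU, ⟨pullbackIsoUnit_of_restrictIsoUnit U.ι e⟩⟩

/-- Transport of a trivialisation on `V ⊆ Y` along an open immersion `f : Y ⟶ X` to a
trivialisation on the image open `f ''ᵁ V ⊆ X`. -/
noncomputable def pullbackImageIsoUnit {X Y : Scheme.{u}} (f : Y ⟶ X) [IsOpenImmersion f]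
    (M : X.Modules) (V : Y.Opens)
    (e : (Scheme.Modules.pullback V.ι).obj ((Scheme.Modules.pullback f).obj M) ≅
      SheafOfModules.unit V.toScheme.ringCatSheaf) :
    (Scheme.Modules.pullback (f ''ᵁ V).ι).obj M ≅
      SheafOfModules.unit (f ''ᵁ V).toScheme.ringCatSheaf :=
  have hfact : (f.isoImage V).inv ≫ V.ι ≫ f = (f ''ᵁ V).ι := by
    rw [← Scheme.Hom.isoImage_hom_ι, Iso.inv_hom_id_assoc]
  ((Scheme.Modules.pullbackCongr hfact).app M).symm ≪≫
    ((Scheme.Modules.pullbackComp _ _).app M).symm ≪≫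
    (Scheme.Modules.pullback (f.isoImage V).inv).mapIso
      (((Scheme.Modules.pullbackComp _ _).app M).symm ≪≫ e) ≪≫
    Scheme.Modules.pullbackUnitIso (f.isoImage V).inv

/-- **G3 (a), general form.** Invertibility can be checked on a jointly surjective family of
open immersions. -/
theorem isInvertible_of_isOpenImmersion_cover {X : Scheme.{u}} {ι : Type*}
    {Y : ι → Scheme.{u}} (f : ∀ i, Y i ⟶ X) [∀ i, IsOpenImmersion (f i)]
    (hf : ∀ x : X, ∃ i, x ∈ Set.range (f i)) (M : X.Modules)
    (h : ∀ i, Scheme.Modules.IsInvertible ((Scheme.Modules.pullback (f i)).obj M)) :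
    Scheme.Modules.IsInvertible M := by
  refine ⟨fun x => ?_⟩
  obtain ⟨i, y, rfl⟩ := hf x
  obtain ⟨V, hyV, ⟨e⟩⟩ := (h i).1 y
  exact ⟨f i ''ᵁ V, ⟨y, hyV, rfl⟩, ⟨pullbackImageIsoUnit (f i) M V e⟩⟩

/-- **G3 (a).** Invertibility is local on an open cover `U i` of `X`
(restriction = `pullback (U i).ι`). -/
theorem isInvertible_of_iSup_eq_top {X : Scheme.{u}} {ι : Type*} (U : ι → X.Opens)
    (hU : ⨆ i, U i = ⊤) (M : X.Modules)
    (h : ∀ i, Scheme.Modules.IsInvertible ((Scheme.Modules.pullback (U i).ι).obj M)) :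
    Scheme.Modules.IsInvertible M := by
  refine isInvertible_of_isOpenImmersion_cover (fun i => (U i).ι) (fun x => ?_) M h
  have hx : x ∈ ⨆ i, U i := hU ▸ TopologicalSpace.Opens.mem_top x
  obtain ⟨i, hi⟩ := TopologicalSpace.Opens.mem_iSup.mp hx
  exact ⟨i, by simpa using hi⟩

/-- **G3 (a)** for a Zariski cover in the sense of `Scheme.OpenCover`. -/
theorem isInvertible_of_openCover {X : Scheme.{u}} (𝒰 : X.OpenCover) (M : X.Modules)
    (h : ∀ i, Scheme.Modules.IsInvertible ((Scheme.Modules.pullback (𝒰.f i)).obj M)) :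
    Scheme.Modules.IsInvertible M :=
  isInvertible_of_isOpenImmersion_cover 𝒰.f (fun x => ⟨𝒰.idx x, 𝒰.covers x⟩) M h

/-- Restriction (`restrictFunctor`) along an open immersion preserves invertibility. -/
theorem isInvertible_restrictFunctor {X Y : Scheme.{u}} (f : Y ⟶ X) [IsOpenImmersion f]
    {M : X.Modules} (hM : Scheme.Modules.IsInvertible M) :
    Scheme.Modules.IsInvertible ((Scheme.Modules.restrictFunctor f).obj M) :=
  isInvertible_of_iso ((Scheme.Modules.restrictFunctorIsoPullback f).app M).symm (hM.pullback f)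

/-- **G3 (a)**, `restrictFunctor` form. -/
theorem isInvertible_of_iSup_eq_top_restrict {X : Scheme.{u}} {ι : Type*} (U : ι → X.Opens)
    (hU : ⨆ i, U i = ⊤) (M : X.Modules)
    (h : ∀ i, Scheme.Modules.IsInvertible ((Scheme.Modules.restrictFunctor (U i).ι).obj M)) :
    Scheme.Modules.IsInvertible M :=
  isInvertible_of_iSup_eq_top U hU M fun i =>
    isInvertible_of_iso ((Scheme.Modules.restrictFunctorIsoPullback (U i).ι).app M) (h i)

/-- Invertibility is local: iff version. -/
theorem isInvertible_iff_of_iSup_eq_top {X : Scheme.{u}} {ι : Type*} (U : ι → X.Opens)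
    (hU : ⨆ i, U i = ⊤) (M : X.Modules) :
    Scheme.Modules.IsInvertible M ↔
      ∀ i, Scheme.Modules.IsInvertible ((Scheme.Modules.pullback (U i).ι).obj M) :=
  ⟨fun h _ => h.pullback _, isInvertible_of_iSup_eq_top U hU M⟩

end Fermat.Agent.S25.H986

end
-- ===== PACK-END S25/H986/InvertibleLocal.lean

-- ===== PACK-BEGIN S25/H986/AffineHom.lean
section


/-!
# S25 / block DICT: morphisms out of a quasi-coherent module on `Spec R`

* `map_bijective_of_isIso_counit_app` : for an adjunction `L ⊣ R` and an object `N` at which the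
  counit is an isomorphism, `R.map : (N ⟶ N') → (R.obj N ⟶ R.obj N')` is bijective.
* `moduleSpecΓ_map_bijective` : for a quasi-coherent module `N` on `Spec R` and any module `N'`,
  morphisms `N ⟶ N'` are the same as `R`-linear maps on global sections.
* `isIso_of_isIso_moduleSpecΓ_map` : a morphism of quasi-coherent modules on `Spec R` which is
  bijective on global sections is an isomorphism.
-/

set_option autoImplicit false

universe u

open CategoryTheory AlgebraicGeometry TopologicalSpace Opposite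

namespace Fermat.Agent.S25.H986

/-- For an adjunction `L ⊣ R` and an object `N` at which the counit is an isomorphism,
`R.map` is bijective on morphisms out of `N`. -/
theorem map_bijective_of_isIso_counit_app {C D : Type*} [Category C] [Category D]
    {L : C ⥤ D} {R : D ⥤ C} (adj : L ⊣ R) (N N' : D) [IsIso (adj.counit.app N)] :
    Function.Bijective (fun φ : N ⟶ N' => R.map φ) := by
  have h : (fun φ : N ⟶ N' => R.map φ) =
      (adj.homEquiv (R.obj N) N') ∘ (fun φ : N ⟶ N' => adj.counit.app N ≫ φ) := by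
    funext φ
    simp only [Function.comp_apply, Adjunction.homEquiv_unit, Functor.map_comp,
      Adjunction.right_triangle_components_assoc]
  rw [h]
  refine (adj.homEquiv (R.obj N) N').bijective.comp ⟨fun φ φ' hφ => ?_, fun ψ => ?_⟩
  · exact (cancel_epi (adj.counit.app N)).mp hφ
  · exact ⟨inv (adj.counit.app N) ≫ ψ, by simp⟩

noncomputable section

variable {R : CommRingCat.{u}}

/-- For a quasi-coherent module `N` on `Spec R`, morphisms `N ⟶ N'` are the same as `R`-linear
maps `Γ(N) → Γ(N')`. -/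
theorem moduleSpecΓ_map_bijective (N N' : (Spec R).Modules) [N.IsQuasicoherent] :
    Function.Bijective (fun φ : N ⟶ N' => moduleSpecΓFunctor.map φ) := by
  have : IsIso ((tilde.adjunction (R := R)).counit.app N) :=
    inferInstanceAs (IsIso N.fromTildeΓ)
  exact map_bijective_of_isIso_counit_app tilde.adjunction N N'

/-- The map on global sections of a morphism of modules on `Spec R`, as an `R`-linear map. -/
def ΓLinearMap {N N' : (Spec R).Modules} (φ : N ⟶ N') :
    Γ(N, ⊤) →ₗ[R] Γ(N', ⊤) :=
  (moduleSpecΓFunctor.map φ).hom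

@[simp]
theorem ΓLinearMap_apply {N N' : (Spec R).Modules} (φ : N ⟶ N') (s : Γ(N, ⊤)) :
    ΓLinearMap φ s = φ.app ⊤ s := rfl

/-- **AD1 on `Spec R`.** For a quasi-coherent module `N` on `Spec R`, every `R`-linear map on
global sections comes from a unique morphism of modules. -/
theorem existsUnique_hom_of_ΓLinearMap (N N' : (Spec R).Modules) [N.IsQuasicoherent]
    (h : Γ(N, ⊤) →ₗ[R] Γ(N', ⊤)) :
    ∃! φ : N ⟶ N', ∀ s : Γ(N, ⊤), φ.app ⊤ s = h s := by
  let h0 := ModuleCat.ofHom h
  let h' : moduleSpecΓFunctor.obj N ⟶ moduleSpecΓFunctor.obj N' := h0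
  obtain ⟨φ, hφ⟩ := (moduleSpecΓ_map_bijective N N').2 h'
  have hφ' : moduleSpecΓFunctor.map φ = h' := hφ
  refine ⟨φ, fun s => ?_, fun ψ hψ => ?_⟩
  · have := congr($(hφ').hom s)
    exact this
  · apply (moduleSpecΓ_map_bijective N N').1
    change moduleSpecΓFunctor.map ψ = moduleSpecΓFunctor.map φ
    rw [hφ']
    ext s
    exact hψ s

/-- A morphism of modules on `Spec R` out of a quasi-coherent module is determined by its
effect on global sections. -/
theorem hom_ext_of_app_top {N N' : (Spec R).Modules} [N.IsQuasicoherent] (φ ψ : N ⟶ N')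
    (h : ∀ s : Γ(N, ⊤), φ.app ⊤ s = ψ.app ⊤ s) : φ = ψ := by
  apply (moduleSpecΓ_map_bijective N N').1
  change moduleSpecΓFunctor.map φ = moduleSpecΓFunctor.map ψ
  ext s
  exact h s

end

end Fermat.Agent.S25.H986

end
-- ===== PACK-END S25/H986/AffineHom.lean

-- ===== PACK-BEGIN S25/H207/TensorDomain.lean
section


/-!
# Tensor products of domains over an algebraically closed field are domains

Block CURVE, leaf C2 (pure algebra): if `k` is algebraically closed and `A`, `B` are `k`-algebras
which are domains, then `A ⊗[k] B` is a domain.  In particular `K ⊗[k] Γ(C, U)` is a domain for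
every field extension `K / k`.
-/

set_option autoImplicit false

open TensorProduct

namespace Fermat.Agent.S25.H207

/-- Weak Nullstellensatz: a nonzero element of a reduced finite type algebra over an
algebraically closed field is nonzero at some `k`-point. -/
theorem exists_algHom_ne_zero {k A : Type*} [Field k] [IsAlgClosed k] [CommRing A] [Algebra k A]
    [Algebra.FiniteType k A] [IsReduced A] {a : A} (ha : a ≠ 0) :
    ∃ φ : A →ₐ[k] k, φ a ≠ 0 := by
  have hJ : IsJacobsonRing A := isJacobsonRing_of_finiteType (A := k)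
  have hrad : (⊥ : Ideal A).IsRadical := by
    intro x hx
    obtain ⟨n, hn⟩ := hx
    rw [Ideal.mem_bot] at hn ⊢
    exact IsReduced.eq_zero _ ⟨n, hn⟩
  have hjac : (⊥ : Ideal A).jacobson = ⊥ := hJ.out hrad
  have hnot : a ∉ (⊥ : Ideal A).jacobson := by
    rw [hjac, Ideal.mem_bot]; exact ha
  rw [Ideal.jacobson, Ideal.mem_sInf] at hnot
  push Not at hnot
  obtain ⟨m, ⟨-, hm⟩, ham⟩ := hnot
  let _ := Ideal.Quotient.field m
  have hfin : Module.Finite k (A ⧸ m) := finite_of_finite_type_of_isJacobsonRing k (A ⧸ m)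
  have hbij : Function.Bijective (algebraMap k (A ⧸ m)) :=
    IsAlgClosed.algebraMap_bijective_of_isIntegral
  let e : k ≃ₐ[k] (A ⧸ m) := AlgEquiv.ofBijective (Algebra.ofId k (A ⧸ m)) hbij
  refine ⟨(e.symm : (A ⧸ m) →ₐ[k] k).comp (Ideal.Quotient.mkₐ k m), ?_⟩
  intro h
  apply ham
  have h2 : e.symm (Ideal.Quotient.mkₐ k m a) = 0 := h
  have h3 : Ideal.Quotient.mkₐ k m a = 0 := by
    have := congrArg e h2
    simpa using this
  exact Ideal.Quotient.eq_zero_iff_mem.mp h3

section

variable {k A B : Type*} [Field k] [CommRing A] [Algebra k A] [CommRing B] [Algebra k B]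

/-- The ring hom `A ⊗[k] B → B` induced by a `k`-point `φ : A → k`. -/
noncomputable def evalLeft (φ : A →ₐ[k] k) : A ⊗[k] B →ₐ[k] B :=
  Algebra.TensorProduct.lift ((Algebra.ofId k B).comp φ) (AlgHom.id k B) (fun _ _ => Commute.all _ _)

@[simp] theorem evalLeft_tmul (φ : A →ₐ[k] k) (a : A) (b : B) :
    evalLeft φ (a ⊗ₜ[k] b) = φ a • b := by
  simp [evalLeft, Algebra.smul_def]

theorem evalLeft_smul (φ : A →ₐ[k] k) (a : A) (z : A ⊗[k] B) :
    evalLeft φ (a • z) = φ a • evalLeft φ z := by
  induction z using TensorProduct.induction_on with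
  | zero => simp
  | tmul x y => rw [TensorProduct.smul_tmul', evalLeft_tmul, evalLeft_tmul, smul_eq_mul, map_mul,
      mul_smul]
  | add x y hx hy => rw [smul_add, map_add, map_add, hx, hy, smul_add]

/-- In terms of the `A`-basis `1 ⊗ b i` of `A ⊗[k] B`: if `evalLeft φ z = 0` then all coordinates
of `z` are killed by `φ`. -/
theorem evalLeft_eq_zero_iff {ι : Type*} (b : Module.Basis ι k B) (φ : A →ₐ[k] k)
    (z : A ⊗[k] B) :
    evalLeft φ z = 0 ↔ ∀ i, φ ((Algebra.TensorProduct.basis A b).repr z i) = 0 := by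
  classical
  have hz : z = ((Algebra.TensorProduct.basis A b).repr z).sum
      (fun i c => c • (Algebra.TensorProduct.basis A b) i) :=
    ((Algebra.TensorProduct.basis A b).linearCombination_repr z).symm
  have h1 : evalLeft φ z = ((Algebra.TensorProduct.basis A b).repr z).sum
      (fun i c => φ c • b i) := by
    conv_lhs => rw [hz]
    rw [Finsupp.sum, map_sum]
    refine Finset.sum_congr rfl ?_
    intro i _
    rw [evalLeft_smul, Algebra.TensorProduct.basis_apply, evalLeft_tmul, map_one, one_smul]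
  rw [h1]
  constructor
  · intro h i
    have hli := b.linearIndependent
    rw [linearIndependent_iff'] at hli
    by_cases hi : i ∈ ((Algebra.TensorProduct.basis A b).repr z).support
    · exact hli _ (fun i => φ ((Algebra.TensorProduct.basis A b).repr z i)) h i hi
    · rw [Finsupp.notMem_support_iff] at hi
      rw [hi, map_zero]
  · intro h
    rw [Finsupp.sum]
    refine Finset.sum_eq_zero ?_
    intro i _
    rw [h i, zero_smul]

end

/-- Finite type case. -/
theorem noZeroDivisors_tensorProduct_of_finiteType {k A B : Type*} [Field k] [IsAlgClosed k]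
    [CommRing A] [IsDomain A] [Algebra k A] [Algebra.FiniteType k A]
    [CommRing B] [IsDomain B] [Algebra k B] :
    NoZeroDivisors (A ⊗[k] B) := by
  classical
  refine ⟨?_⟩
  intro x y hxy
  by_contra hcon
  push Not at hcon
  obtain ⟨hx, hy⟩ := hcon
  let b := Module.Free.chooseBasis k B
  let T := Algebra.TensorProduct.basis A b
  have hx' : T.repr x ≠ 0 := fun h => hx (by simpa using congrArg T.repr.symm h)
  have hy' : T.repr y ≠ 0 := fun h => hy (by simpa using congrArg T.repr.symm h)
  obtain ⟨i₀, hi₀⟩ := Finsupp.ne_iff.mp hx'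
  obtain ⟨i₁, hi₁⟩ := Finsupp.ne_iff.mp hy'
  simp only [Finsupp.coe_zero, Pi.zero_apply] at hi₀ hi₁
  have ha : T.repr x i₀ * T.repr y i₁ ≠ 0 := mul_ne_zero hi₀ hi₁
  obtain ⟨φ, hφ⟩ := exists_algHom_ne_zero (k := k) ha
  rw [map_mul] at hφ
  have h0 : evalLeft (B := B) φ x * evalLeft φ y = 0 := by
    rw [← map_mul, hxy, map_zero]
  rcases mul_eq_zero.mp h0 with h | h
  · exact hφ (by rw [(evalLeft_eq_zero_iff b φ x).mp h i₀, zero_mul])
  · exact hφ (by rw [(evalLeft_eq_zero_iff b φ y).mp h i₁, mul_zero])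

/-- **Tensor products of domains over an algebraically closed field have no zero divisors.** -/
theorem noZeroDivisors_tensorProduct {k A B : Type*} [Field k] [IsAlgClosed k]
    [CommRing A] [IsDomain A] [Algebra k A] [CommRing B] [IsDomain B] [Algebra k B] :
    NoZeroDivisors (A ⊗[k] B) := by
  classical
  refine ⟨?_⟩
  intro x y hxy
  obtain ⟨M', hM', hsub⟩ :=
    TensorProduct.exists_finite_submodule_left_of_setFinite ({x, y} : Set (A ⊗[k] B))
      (Set.toFinite _)
  obtain ⟨S, hS⟩ := (Module.Finite.iff_fg.mp hM')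
  let A' : Subalgebra k A := Algebra.adjoin k (S : Set A)
  have hA'fg : A'.FG := ⟨S, rfl⟩
  have hft : Algebra.FiniteType k A' := (Subalgebra.fg_iff_finiteType A').mp hA'fg
  have hle : M' ≤ Subalgebra.toSubmodule A' := by
    rw [← hS, Submodule.span_le]
    exact Algebra.subset_adjoin
  let ι : A' ⊗[k] B →ₐ[k] A ⊗[k] B := Algebra.TensorProduct.map A'.val (AlgHom.id k B)
  have hι_inj : Function.Injective ι := by
    have h1 : Function.Injective (A'.val.toLinearMap.rTensor B) :=
      Module.Flat.rTensor_preserves_injective_linearMap _ Subtype.val_injective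
    intro u v huv
    apply h1
    have h2 : ∀ w : A' ⊗[k] B, ι w = A'.val.toLinearMap.rTensor B w := by
      intro w
      induction w using TensorProduct.induction_on with
      | zero => simp
      | tmul a b => simp [ι]
      | add a b ha hb => rw [map_add, map_add, ha, hb]
    rw [← h2, ← h2, huv]
  have hgen : ∀ w : M' ⊗[k] B,
      ι ((Submodule.inclusion hle).rTensor B w) = M'.subtype.rTensor B w := by
    intro w
    induction w using TensorProduct.induction_on with
    | zero => simp
    | tmul a b => simp [ι]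
    | add a b ha hb => rw [map_add, map_add, map_add, ha, hb]
  have hrange : ∀ z ∈ ({x, y} : Set (A ⊗[k] B)), ∃ z' : A' ⊗[k] B, ι z' = z := by
    intro z hz
    obtain ⟨w, hw⟩ := hsub hz
    exact ⟨(Submodule.inclusion hle).rTensor B w, (hgen w).trans hw⟩
  obtain ⟨x', hx'⟩ := hrange x (by simp)
  obtain ⟨y', hy'⟩ := hrange y (by simp)
  have hxy' : x' * y' = 0 := by
    apply hι_inj
    rw [map_mul, hx', hy', hxy, map_zero]
  have := noZeroDivisors_tensorProduct_of_finiteType (k := k) (A := A') (B := B)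
  rcases mul_eq_zero.mp hxy' with h | h
  · left; rw [← hx', h, map_zero]
  · right; rw [← hy', h, map_zero]

/-- **Tensor products of domains over an algebraically closed field are domains.** -/
theorem isDomain_tensorProduct {k A B : Type*} [Field k] [IsAlgClosed k]
    [CommRing A] [IsDomain A] [Algebra k A] [CommRing B] [IsDomain B] [Algebra k B] :
    IsDomain (A ⊗[k] B) := by
  have h1 := noZeroDivisors_tensorProduct (k := k) (A := A) (B := B)
  have h2 : Nontrivial (A ⊗[k] B) :=
    Algebra.TensorProduct.nontrivial_of_algebraMap_injective_of_isDomain k A B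
      (algebraMap k A).injective (algebraMap k B).injective
  exact NoZeroDivisors.to_isDomain _

/-- Field-extension form used in block CURVE (C2): `K ⊗[k] B` is a domain. -/
theorem isDomain_field_tensorProduct {k K B : Type*} [Field k] [IsAlgClosed k]
    [Field K] [Algebra k K] [CommRing B] [IsDomain B] [Algebra k B] :
    IsDomain (K ⊗[k] B) :=
  isDomain_tensorProduct

end Fermat.Agent.S25.H207

end
-- ===== PACK-END S25/H207/TensorDomain.lean

-- ===== PACK-BEGIN S25/H611/Schanuel.lean
section


/-!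
# Schanuel's lemma (helper611, S25 block HILB, leaf H3 prerequisites)

`schanuel`: for surjections `π : F → Q`, `ν : P → Q` of `R`-modules with `F`, `P` projective,
`ker π × P ≃ₗ[R] ker ν × F`.
-/

namespace Fermat.Agent.S25.H611

section Schanuel

variable {R : Type*} [Ring R] {F P Q : Type*} [AddCommGroup F] [AddCommGroup P] [AddCommGroup Q]
  [Module R F] [Module R P] [Module R Q]

/-- Explicit form of Schanuel's lemma, given lifts `g : P → F` and `h : F → P` of the two
surjections through each other. -/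
def schanuelEquivOfLifts (π : F →ₗ[R] Q) (ν : P →ₗ[R] Q) (g : P →ₗ[R] F) (h : F →ₗ[R] P)
    (hg : ∀ p, π (g p) = ν p) (hh : ∀ a, ν (h a) = π a) :
    (LinearMap.ker π × P) ≃ₗ[R] (LinearMap.ker ν × F) where
  toFun x := (⟨x.2 - h (x.1 + g x.2), by
      have h3 : π (x.1 : F) = 0 := x.1.2
      simp [LinearMap.mem_ker, map_sub, hh, map_add, hg, h3]⟩, x.1 + g x.2)
  invFun y := (⟨y.2 - g (y.1 + h y.2), by
      have h3 : ν (y.1 : P) = 0 := y.1.2
      simp [LinearMap.mem_ker, map_sub, hh, map_add, hg, h3]⟩, y.1 + h y.2)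
  map_add' x y := by
    ext
    · simp only [Prod.fst_add, Prod.snd_add, Submodule.coe_add, map_add]
      abel
    · simp only [Prod.fst_add, Prod.snd_add, Submodule.coe_add, map_add]
      abel
  map_smul' c x := by
    ext
    · simp [smul_sub]
    · simp
  left_inv x := by
    ext
    · simp
    · simp
  right_inv y := by
    ext
    · simp
    · simp

/-- **Schanuel's lemma.** -/
theorem schanuel (π : F →ₗ[R] Q) (ν : P →ₗ[R] Q) (hπ : Function.Surjective π)
    (hν : Function.Surjective ν) [Module.Projective R F] [Module.Projective R P] :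
    Nonempty ((LinearMap.ker π × P) ≃ₗ[R] (LinearMap.ker ν × F)) := by
  obtain ⟨g, hg⟩ := Module.projective_lifting_property π ν hπ
  obtain ⟨h, hh⟩ := Module.projective_lifting_property ν π hν
  exact ⟨schanuelEquivOfLifts π ν g h (fun p => LinearMap.congr_fun hg p)
    (fun a => LinearMap.congr_fun hh a)⟩

end Schanuel

end Fermat.Agent.S25.H611

end
-- ===== PACK-END S25/H611/Schanuel.lean

-- ===== PACK-BEGIN S25/H790/CechE1.lean
section
/-
S25, block CECH, leaf E1 (helper790).

Finiteness of the Čech `H^1` of the standard two-chart cover: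
`N01 ⧸ (r0 N0 + r1 N1)` is a finitely generated `A`-module as soon as `N0` is finitely generated
over `A[x]`, and `N01` is the localization of `N0` away from `x` and of `N1` away from `y = x⁻¹`.

* `cechH1_finite_core`  : unbundled core (only `A`-linear data: the operators "multiplication by
  `x`" on `N0`, "multiplication by `y`" on `N1`, and the mutually inverse operators `T`, `Tinv` on
  `N01`).  No finiteness hypothesis on `N1` is needed.
* `cechH1_finite`       : bundled corollary for algebras `R0 = A[x]`, `R1`, `R01` with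
  `x * y = 1` in `R01` and `IsLocalizedModule (Submonoid.powers _)` hypotheses.
-/


namespace Fermat.Agent.S25.H790

open Submodule

section Core

variable {A : Type*} [CommRing A]
variable {N0 N1 N01 : Type*} [AddCommGroup N0] [AddCommGroup N1] [AddCommGroup N01]
variable [Module A N0] [Module A N1] [Module A N01]

/-- If `T * Tinv = 1` then `T ^ i * Tinv ^ i = 1`. -/
theorem pow_mul_pow_eq_one_of_mul_eq_one {M : Type*} [Monoid M] {T Tinv : M}
    (h : T * Tinv = 1) (h' : Tinv * T = 1) (i : ℕ) : T ^ i * Tinv ^ i = 1 := by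
  have hc : Commute T Tinv := by
    show T * Tinv = Tinv * T
    rw [h, h']
  rw [← hc.mul_pow, h, one_pow]

/-- **E1, unbundled core.**  `X0`, `Y1` are the `A`-linear operators "multiplication by `x`" on
`N0` and "multiplication by `y`" on `N1`; `T` and `Tinv` are mutually inverse operators on `N01`
(multiplication by `x` and by `y = x⁻¹`).  `r0`, `r1` intertwine them.  `N0` is generated over
`A[X0]` by the finite set `s0`; every element of `N01` is of the form `Tinv ^ k (r0 n)` and of the
form `T ^ k (r1 n)`.  Then the Čech `H^1` is a finitely generated `A`-module. -/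
theorem cechH1_finite_core
    (X0 : Module.End A N0) (Y1 : Module.End A N1) (T Tinv : Module.End A N01)
    (hT : T * Tinv = 1) (hT' : Tinv * T = 1)
    (r0 : N0 →ₗ[A] N01) (r1 : N1 →ₗ[A] N01)
    (h0 : ∀ n, r0 (X0 n) = T (r0 n))
    (h1 : ∀ n, r1 (Y1 n) = Tinv (r1 n))
    (s0 : Finset N0)
    (hs0 : ∀ n : N0, n ∈ span A {m : N0 | ∃ e ∈ s0, ∃ k : ℕ, m = (X0 ^ k) e})
    (hloc0 : ∀ z : N01, ∃ (k : ℕ) (n : N0), (T ^ k) z = r0 n)
    (hloc1 : ∀ z : N01, ∃ (k : ℕ) (n : N1), (Tinv ^ k) z = r1 n) :
    Module.Finite A (N01 ⧸ (LinearMap.range r0 ⊔ LinearMap.range r1)) := by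
  classical
  set P : Submodule A N01 := LinearMap.range r0 ⊔ LinearMap.range r1 with hP
  -- powers intertwine
  have h0pow : ∀ (i : ℕ) (n : N0), r0 ((X0 ^ i) n) = (T ^ i) (r0 n) := by
    intro i
    induction i with
    | zero => intro n; simp
    | succ i ih =>
      intro n
      rw [pow_succ', Module.End.mul_apply, h0, ih, pow_succ', Module.End.mul_apply]
  have h1pow : ∀ (i : ℕ) (n : N1), r1 ((Y1 ^ i) n) = (Tinv ^ i) (r1 n) := by
    intro i
    induction i with
    | zero => intro n; simp
    | succ i ih =>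
      intro n
      rw [pow_succ', Module.End.mul_apply, h1, ih, pow_succ', Module.End.mul_apply]
  have hTT : ∀ (i : ℕ) (z : N01), (Tinv ^ i) ((T ^ i) z) = z := by
    intro i z
    have := pow_mul_pow_eq_one_of_mul_eq_one hT' hT i
    rw [← Module.End.mul_apply, this, Module.End.one_apply]
  -- the exponents
  choose D w hD using fun e : N0 => hloc1 (r0 e)
  set Dmax : ℕ := s0.sup D with hDmax
  set G : Finset N01 :=
    (s0 ×ˢ Finset.range Dmax).image (fun ej : N0 × ℕ => (Tinv ^ ej.2) (r0 ej.1)) with hG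
  set Q : Submodule A N01 := P ⊔ span A (G : Set N01) with hQ
  have hPQ : P ≤ Q := le_sup_left
  have hr0Q : ∀ n, r0 n ∈ Q := fun n => hPQ (mem_sup_left (LinearMap.mem_range_self r0 n))
  have hr1Q : ∀ n, r1 n ∈ Q := fun n => hPQ (mem_sup_right (LinearMap.mem_range_self r1 n))
  -- step a
  have stepa : ∀ e ∈ s0, ∀ j : ℕ, (Tinv ^ j) (r0 e) ∈ Q := by
    intro e he j
    by_cases hj : j < Dmax
    · refine mem_sup_right (subset_span ?_)
      rw [hG, Finset.coe_image]
      exact ⟨(e, j), by simpa using ⟨he, hj⟩, rfl⟩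
    · have hDe : D e ≤ j := le_trans (Finset.le_sup (f := D) he) (not_lt.mp hj)
      obtain ⟨d, rfl⟩ := Nat.exists_eq_add_of_le hDe
      rw [add_comm, pow_add, Module.End.mul_apply, hD e, ← h1pow]
      exact hr1Q _
  -- step c
  have stepc : ∀ (k : ℕ) (n : N0), (Tinv ^ k) (r0 n) ∈ Q := by
    intro k n
    have hn := hs0 n
    induction hn using Submodule.span_induction with
    | mem m hm =>
      obtain ⟨e, he, i, rfl⟩ := hm
      rw [h0pow]
      rcases le_total k i with hki | hik
      · obtain ⟨d, rfl⟩ := Nat.exists_eq_add_of_le hki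
        rw [pow_add, Module.End.mul_apply, hTT, ← h0pow]
        exact hr0Q _
      · obtain ⟨d, rfl⟩ := Nat.exists_eq_add_of_le hik
        rw [add_comm, pow_add, Module.End.mul_apply, hTT]
        exact stepa e he d
    | zero => simp
    | add a b _ _ ha hb => rw [map_add, map_add]; exact Q.add_mem ha hb
    | smul c a _ ha => rw [map_smul, map_smul]; exact Q.smul_mem c ha
  have htop : ∀ z : N01, z ∈ Q := by
    intro z
    obtain ⟨k, n, hkn⟩ := hloc0 z
    have := stepc k n
    rwa [← hkn, hTT] at this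
  -- conclude
  have hfin : Module.Finite A (span A (G : Set N01)) :=
    Module.Finite.span_of_finite A G.finite_toSet
  refine Module.Finite.of_surjective
    ((mkQ P).comp (span A (G : Set N01)).subtype) ?_
  intro q
  obtain ⟨z, rfl⟩ := mkQ_surjective P q
  obtain ⟨p, hp, g, hg, rfl⟩ := mem_sup.mp (htop z)
  refine ⟨⟨g, hg⟩, ?_⟩
  simp only [LinearMap.coe_comp, Function.comp_apply, subtype_apply, mkQ_apply, map_add]
  rw [(Quotient.mk_eq_zero P).mpr hp, zero_add]

end Core

section Bundled

variable (A : Type*) [CommRing A]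
variable {R0 R1 : Type*} [CommRing R0] [CommRing R1] [Algebra A R0] [Algebra A R1]
variable {N0 N1 N01 : Type*} [AddCommGroup N0] [AddCommGroup N1] [AddCommGroup N01]
variable [Module A N0] [Module R0 N0] [IsScalarTower A R0 N0]
variable [Module A N1] [Module R1 N1] [IsScalarTower A R1 N1]
variable [Module A N01] [Module R0 N01] [Module R1 N01]
variable [IsScalarTower A R0 N01] [IsScalarTower A R1 N01]

/-- Finite generation of `N0` over `A[x]` in the unbundled shape used by `cechH1_finite_core`,
from: `N0` finite over `R0`, and `R0` spanned over `A` by the `x ^ k * c`, `c` in a finite set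
(i.e. `R0` is a finite `A[x]`-module). -/
theorem exists_finset_span_pow_smul (x : R0) [Module.Finite R0 N0]
    (hR : ∃ b : Finset R0, ∀ r : R0,
      r ∈ span A {m : R0 | ∃ c ∈ b, ∃ k : ℕ, m = x ^ k * c}) :
    ∃ s0 : Finset N0, ∀ n : N0,
      n ∈ span A {m : N0 | ∃ e ∈ s0, ∃ k : ℕ, m = x ^ k • e} := by
  classical
  obtain ⟨b, hb⟩ := hR
  obtain ⟨t, ht⟩ := (Module.Finite.fg_top : (⊤ : Submodule R0 N0).FG)
  refine ⟨(b ×ˢ t).image (fun ce : R0 × N0 => ce.1 • ce.2), fun n => ?_⟩
  set W : Submodule A N0 :=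
    span A {m : N0 | ∃ e ∈ (b ×ˢ t).image (fun ce : R0 × N0 => ce.1 • ce.2),
      ∃ k : ℕ, m = x ^ k • e} with hW
  have key : ∀ (r : R0) (e : N0), e ∈ t → r • e ∈ W := by
    intro r e he
    have hr := hb r
    induction hr using Submodule.span_induction with
    | mem m hm =>
      obtain ⟨c, hc, k, rfl⟩ := hm
      refine subset_span ⟨c • e, ?_, k, ?_⟩
      · exact Finset.mem_image.mpr ⟨(c, e), by simpa using ⟨hc, he⟩, rfl⟩
      · rw [mul_smul]
    | zero => rw [zero_smul]; exact W.zero_mem
    | add a c _ _ ha hc => rw [add_smul]; exact W.add_mem ha hc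
    | smul a c _ hc => rw [smul_assoc]; exact W.smul_mem a hc
  have key2 : ∀ n ∈ span R0 (t : Set N0), ∀ r : R0, r • n ∈ W := by
    intro n hn
    induction hn using Submodule.span_induction with
    | mem m hm => intro r; exact key r m hm
    | zero => intro r; rw [smul_zero]; exact W.zero_mem
    | add a c _ _ ha hc => intro r; rw [smul_add]; exact W.add_mem (ha r) (hc r)
    | smul r' a _ ha => intro r; rw [smul_smul]; exact ha (r * r')
  have hn : n ∈ span R0 (t : Set N0) := by rw [ht]; exact mem_top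
  simpa using key2 n hn 1

/-- **E1, bundled.**  `R0`, `R1` are `A`-algebras, `x : R0`, `y : R1`; `N01` is a module over both
with `x • y • z = z`; `r0 : N0 → N01` is the localization away from `x`, `r1 : N1 → N01` the
localization away from `y`; `N0` is finitely generated over `A[x]` (in the shape produced by
`exists_finset_span_pow_smul`).  Then `N01 ⧸ (r0 N0 + r1 N1)` is a finitely generated
`A`-module. -/
theorem cechH1_finite (x : R0) (y : R1) (hxy : ∀ z : N01, x • y • z = z)
    (r0 : N0 →ₗ[R0] N01) (r1 : N1 →ₗ[R1] N01)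
    [IsLocalizedModule (Submonoid.powers x) r0] [IsLocalizedModule (Submonoid.powers y) r1]
    (hfg : ∃ s0 : Finset N0, ∀ n : N0,
      n ∈ span A {m : N0 | ∃ e ∈ s0, ∃ k : ℕ, m = x ^ k • e}) :
    Module.Finite A (N01 ⧸ (LinearMap.range (r0.restrictScalars A) ⊔
      LinearMap.range (r1.restrictScalars A))) := by
  classical
  obtain ⟨s0, hs0⟩ := hfg
  -- the operators
  let X0 : Module.End A N0 := Algebra.lsmul A A N0 x
  let Y1 : Module.End A N1 := Algebra.lsmul A A N1 y
  let T : Module.End A N01 := Algebra.lsmul A A N01 x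
  let Tinv : Module.End A N01 := Algebra.lsmul A A N01 y
  have hXpow : ∀ (k : ℕ) (n : N0), (X0 ^ k) n = x ^ k • n := by
    intro k n
    show ((Algebra.lsmul A A N0 x) ^ k) n = _
    rw [← map_pow]; rfl
  have hTpow : ∀ (k : ℕ) (z : N01), (T ^ k) z = x ^ k • z := by
    intro k n
    show ((Algebra.lsmul A A N01 x) ^ k) n = _
    rw [← map_pow]; rfl
  have hTinvpow : ∀ (k : ℕ) (z : N01), (Tinv ^ k) z = y ^ k • z := by
    intro k n
    show ((Algebra.lsmul A A N01 y) ^ k) n = _
    rw [← map_pow]; rfl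
  -- `x` acts bijectively on `N01`
  have hxbij : Function.Bijective (fun z : N01 => x • z) := by
    have hu := IsLocalizedModule.map_units r0 (⟨x, Submonoid.mem_powers x⟩ : Submonoid.powers x)
    have := (Module.End.isUnit_iff _).mp hu
    exact this
  have hT : T * Tinv = 1 := by
    ext z
    exact hxy z
  have hT' : Tinv * T = 1 := by
    ext z
    apply hxbij.1
    show x • (y • (x • z)) = x • z
    exact hxy (x • z)
  refine cechH1_finite_core X0 Y1 T Tinv hT hT' (r0.restrictScalars A) (r1.restrictScalars A)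
    (fun n => ?_) (fun n => ?_) s0 (fun n => ?_) (fun z => ?_) (fun z => ?_)
  · exact r0.map_smul x n
  · exact r1.map_smul y n
  · have := hs0 n
    simpa only [hXpow] using this
  · obtain ⟨⟨n, ⟨_, k, rfl⟩⟩, hn⟩ := IsLocalizedModule.surj (Submonoid.powers x) r0 z
    exact ⟨k, n, by rw [hTpow]; exact hn⟩
  · obtain ⟨⟨n, ⟨_, k, rfl⟩⟩, hn⟩ := IsLocalizedModule.surj (Submonoid.powers y) r1 z
    exact ⟨k, n, by rw [hTinvpow]; exact hn⟩

/-- The finite-generation hypothesis of `cechH1_finite` for `R0 = A[X]`, `x = X`. -/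
theorem exists_finset_span_pow_smul_polynomial {N0 : Type*} [AddCommGroup N0] [Module A N0]
    [Module (Polynomial A) N0] [IsScalarTower A (Polynomial A) N0]
    [Module.Finite (Polynomial A) N0] :
    ∃ s0 : Finset N0, ∀ n : N0,
      n ∈ span A {m : N0 | ∃ e ∈ s0, ∃ k : ℕ, m = (Polynomial.X : Polynomial A) ^ k • e} := by
  classical
  refine exists_finset_span_pow_smul A (Polynomial.X : Polynomial A) ⟨{1}, fun r => ?_⟩
  induction r using Polynomial.induction_on' with
  | add p q hp hq => exact add_mem hp hq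
  | monomial k a =>
    rw [← Polynomial.C_mul_X_pow_eq_monomial, ← Polynomial.algebraMap_eq, ← Algebra.smul_def]
    exact smul_mem _ _ (subset_span ⟨1, by simp, k, by simp⟩)

end Bundled

end Fermat.Agent.S25.H790

end
-- ===== PACK-END S25/H790/CechE1.lean

-- ===== PACK-BEGIN S25/H791/TwoChartFinite.lean
section


/-!
# S25 / ALGCHARTS, leaf C2 (core commutative algebra): finiteness of the divisor of a section

Abstract two-chart situation over a base ring `A`: rings `R₀ → R₀₁ ← R₁`, elements `x : R₀`,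
`y : R₁` with `x * y = 1` in `R₀₁`, `R₀` finite over `A[x]` and `R₁` finite over `A[y]`.
Let `Q₀`, `Q₁` be finitely generated modules over `R₀`, `R₁` with a common localization
`Q₀[1/x] = Q₀₁ = Q₁[1/y]` (think: the cokernels of a section `s = (s₀, s₁)` of a gluing datum).
If `Q₁ = y Q₁` (the section generates along `y = 0`), then

* `exists_aeval_smul_eq_zero_of_smul_surjective` : some `p(y)`, `p ∈ 1 + X A[X]`, kills `Q₁`;
* `bijective_of_smul_surjective` : `Q₁ → Q₀₁` is bijective;
* `exists_monic_aeval_smul_eq_zero_of_two_charts` : a monic polynomial in `x` kills `Q₀`;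
* `finite_of_two_charts` : `Q₀` is a finite `A`-module (the divisor of `s` is finite over the base);
* `finitePresentation_of_monic_aeval_smul_eq_zero` : a finitely presented `R₀`-module killed by
  a monic polynomial in `x` is finitely presented over `A` (if `R₀` is f.p. over `A[x]`), hence
* `projective_of_two_charts` : if moreover `Q₀` is `A`-flat, it is finite projective over `A`.
-/

set_option autoImplicit false

namespace Fermat.Agent.S25.H791

open Polynomial

/-! ## Modules over `A[X]` killed by a monic polynomial -/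

section Monic

variable {A M : Type*} [CommRing A] [AddCommGroup M] [Module A M]
  [Module A[X] M] [IsScalarTower A A[X] M]

/-- A finitely generated `A[X]`-module killed by a monic polynomial is finite over `A`. -/
theorem finite_of_monic_smul_eq_zero [Module.Finite A[X] M]
    (F : A[X]) (hF : F.Monic) (hkill : ∀ m : M, F • m = 0) : Module.Finite A M := by
  have htor : Module.IsTorsionBySet A[X] M (Ideal.span {F} : Ideal A[X]) := by
    intro m a
    obtain ⟨c, hc⟩ := Ideal.mem_span_singleton'.mp a.2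
    rw [← hc, mul_smul, hkill, smul_zero]
  let _ : Module (A[X] ⧸ (Ideal.span {F} : Ideal A[X])) M := htor.module
  have : IsScalarTower A (A[X] ⧸ (Ideal.span {F} : Ideal A[X])) M := htor.isScalarTower
  have : IsScalarTower A[X] (A[X] ⧸ (Ideal.span {F} : Ideal A[X])) M := htor.isScalarTower
  have : Module.Finite (A[X] ⧸ (Ideal.span {F} : Ideal A[X])) M :=
    Module.Finite.of_restrictScalars_finite A[X] _ M
  have : Module.Finite A (A[X] ⧸ (Ideal.span {F} : Ideal A[X])) := hF.finite_adjoinRoot
  exact Module.Finite.trans (A[X] ⧸ (Ideal.span {F} : Ideal A[X])) M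

/-- A finitely presented `A[X]`-module killed by a monic polynomial is finitely presented
over `A`. -/
theorem finitePresentation_of_monic_smul_eq_zero [Module.FinitePresentation A[X] M]
    (F : A[X]) (hF : F.Monic) (hkill : ∀ m : M, F • m = 0) : Module.FinitePresentation A M := by
  have htor : Module.IsTorsionBySet A[X] M (Ideal.span {F} : Ideal A[X]) := by
    intro m a
    obtain ⟨c, hc⟩ := Ideal.mem_span_singleton'.mp a.2
    rw [← hc, mul_smul, hkill, smul_zero]
  let _ : Module (A[X] ⧸ (Ideal.span {F} : Ideal A[X])) M := htor.module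
  have : IsScalarTower A (A[X] ⧸ (Ideal.span {F} : Ideal A[X])) M := htor.isScalarTower
  have : IsScalarTower A[X] (A[X] ⧸ (Ideal.span {F} : Ideal A[X])) M := htor.isScalarTower
  have hbc : IsBaseChange (A[X] ⧸ (Ideal.span {F} : Ideal A[X]))
      (LinearMap.id : M →ₗ[A[X]] M) := by
    apply IsBaseChange.of_lift_unique
    intro Q _ _ _ _ g
    have hg : ∀ (c : A[X] ⧸ (Ideal.span {F} : Ideal A[X])) (m : M), g (c • m) = c • g m := by
      intro c m
      obtain ⟨c, rfl⟩ := Ideal.Quotient.mk_surjective c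
      have h1 : (Ideal.Quotient.mk (Ideal.span {F} : Ideal A[X]) c) • m = c • m := rfl
      have h2 : (Ideal.Quotient.mk (Ideal.span {F} : Ideal A[X]) c) • g m = c • g m := by
        rw [← Ideal.Quotient.algebraMap_eq, algebraMap_smul]
      rw [h1, h2, map_smul]
    refine ⟨{ toFun := g, map_add' := g.map_add, map_smul' := hg }, ?_, ?_⟩
    · ext m; rfl
    · intro g' hg'
      ext m
      have := congrArg (fun φ => φ m) hg'
      simpa using this
  have : Module.FinitePresentation (A[X] ⧸ (Ideal.span {F} : Ideal A[X])) M :=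
    FinitePresentation.of_isBaseChange _ hbc
  have : Module.Finite A (A[X] ⧸ (Ideal.span {F} : Ideal A[X])) := hF.finite_adjoinRoot
  have : Module.Free A (A[X] ⧸ (Ideal.span {F} : Ideal A[X])) := hF.free_adjoinRoot
  have : Module.FinitePresentation A (A[X] ⧸ (Ideal.span {F} : Ideal A[X])) :=
    Module.finitePresentation_of_projective _ _
  exact Module.FinitePresentation.trans A M (A[X] ⧸ (Ideal.span {F} : Ideal A[X]))

end Monic

/-! ## Modules over an algebra `R` which is finite over `A[x]` -/

section Ring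

variable {A R M : Type*} [CommRing A] [CommRing R] [Algebra A R]
  [AddCommGroup M] [Module R M]

/-- The `A[X]`-module structure on an `R`-module given by `X ↦ x`. -/
noncomputable abbrev polyModule (A : Type*) {R : Type*} (M : Type*) [CommRing A] [CommRing R] [Algebra A R]
    [AddCommGroup M] [Module R M] (x : R) : Module A[X] M :=
  Module.compHom M ((aeval x : A[X] →ₐ[A] R) : A[X] →+* R)

/-- **Nakayama along `y`.** If `R` is finite over `A[y]`, `M` is a finitely generated
`R`-module and `M = y M`, then some `p(y)` with `p ∈ 1 + X A[X]` kills `M`. -/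
theorem exists_aeval_smul_eq_zero_of_smul_surjective [Module.Finite R M]
    (y : R) (hfin : (aeval y : A[X] →ₐ[A] R).Finite) (hy : ∀ m : M, ∃ m', y • m' = m) :
    ∃ p : A[X], p.coeff 0 = 1 ∧ ∀ m : M, aeval y p • m = 0 := by
  let _ : Algebra A[X] R := ((aeval y : A[X] →ₐ[A] R) : A[X] →+* R).toAlgebra
  let _ : Module A[X] M := polyModule A M y
  have htower : IsScalarTower A[X] R M :=
    IsScalarTower.of_algebraMap_smul (fun _ _ => rfl)
  have : Module.Finite A[X] R := hfin
  have : Module.Finite A[X] M := Module.Finite.trans R M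
  obtain ⟨p, hp1, hp⟩ := Submodule.exists_sub_one_mem_and_smul_eq_zero_of_fg_of_le_smul
    (Ideal.span {(X : A[X])}) (⊤ : Submodule A[X] M) Module.Finite.fg_top (by
      intro m _
      obtain ⟨m', rfl⟩ := hy m
      have : y • m' = (X : A[X]) • m' := by
        change y • m' = (aeval y (X : A[X])) • m'
        rw [aeval_X]
      rw [this]
      exact Submodule.smul_mem_smul (Ideal.subset_span rfl) Submodule.mem_top)
  refine ⟨p, ?_, fun m => hp m Submodule.mem_top⟩
  obtain ⟨c, hc⟩ := Ideal.mem_span_singleton.mp hp1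
  have h0 : (p - 1).coeff 0 = 0 := by rw [hc]; simp
  rw [coeff_sub, coeff_one_zero, sub_eq_zero] at h0
  exact h0

variable [Module A M] [IsScalarTower A R M]

/-- A finitely generated `R`-module killed by a monic polynomial in `x` is finite over `A`, if
`R` is finite over `A[x]`. -/
theorem finite_of_monic_aeval_smul_eq_zero [Module.Finite R M]
    (x : R) (hfin : (aeval x : A[X] →ₐ[A] R).Finite) (F : A[X]) (hF : F.Monic)
    (hkill : ∀ m : M, aeval x F • m = 0) : Module.Finite A M := by
  let _ : Algebra A[X] R := ((aeval x : A[X] →ₐ[A] R) : A[X] →+* R).toAlgebra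
  let _ : Module A[X] M := polyModule A M x
  have htower : IsScalarTower A[X] R M :=
    IsScalarTower.of_algebraMap_smul (fun _ _ => rfl)
  have htower' : IsScalarTower A A[X] M := ⟨fun a p m => by
    change (aeval x (a • p)) • m = a • (aeval x p • m)
    rw [map_smul, smul_assoc]⟩
  have : Module.Finite A[X] R := hfin
  have : Module.Finite A[X] M := Module.Finite.trans R M
  exact finite_of_monic_smul_eq_zero F hF hkill

/-- A finitely presented `R`-module killed by a monic polynomial in `x` is finitely presented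
over `A`, if `R` is finitely presented as a module over `A[x]`. -/
theorem finitePresentation_of_monic_aeval_smul_eq_zero [Module.FinitePresentation R M]
    (x : R)
    (hfp : letI : Algebra A[X] R := ((aeval x : A[X] →ₐ[A] R) : A[X] →+* R).toAlgebra
      Module.FinitePresentation A[X] R)
    (F : A[X]) (hF : F.Monic)
    (hkill : ∀ m : M, aeval x F • m = 0) : Module.FinitePresentation A M := by
  let _ : Algebra A[X] R := ((aeval x : A[X] →ₐ[A] R) : A[X] →+* R).toAlgebra
  let _ : Module A[X] M := polyModule A M x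
  have htower : IsScalarTower A[X] R M :=
    IsScalarTower.of_algebraMap_smul (fun _ _ => rfl)
  have htower' : IsScalarTower A A[X] M := ⟨fun a p m => by
    change (aeval x (a • p)) • m = a • (aeval x p • m)
    rw [map_smul, smul_assoc]⟩
  have : Module.FinitePresentation A[X] R := hfp
  have : Module.FinitePresentation A[X] M := Module.FinitePresentation.trans A[X] M R
  exact finitePresentation_of_monic_smul_eq_zero F hF hkill

end Ring

/-! ## The two-chart situation -/

section TwoCharts

variable {A R₀ R₁ R₀₁ Q₀ Q₁ Q₀₁ : Type*} [CommRing A] [CommRing R₀] [CommRing R₁]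
  [CommRing R₀₁] [Algebra A R₀] [Algebra A R₁] [Algebra R₀ R₀₁] [Algebra R₁ R₀₁]
  [AddCommGroup Q₀] [Module R₀ Q₀]
  [AddCommGroup Q₁] [Module R₁ Q₁]
  [AddCommGroup Q₀₁] [Module R₀₁ Q₀₁] [Module R₀ Q₀₁] [Module R₁ Q₀₁]
  [IsScalarTower R₀ R₀₁ Q₀₁] [IsScalarTower R₁ R₀₁ Q₀₁]

omit [Algebra A R₀] [Algebra A R₁] [Algebra R₀ R₀₁] [Module R₀ Q₀₁]
  [IsScalarTower R₀ R₀₁ Q₀₁] in
/-- If `Q₁ = y Q₁` for a finitely generated `R₁`-module, then `Q₁ → Q₁[1/y]` is bijective. -/
theorem bijective_of_smul_surjective [Module.Finite R₁ Q₁] (y : R₁)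
    (f₁ : Q₁ →ₗ[R₁] Q₀₁) [IsLocalizedModule (Submonoid.powers y) f₁]
    (hy : ∀ q : Q₁, ∃ q', y • q' = q) : Function.Bijective f₁ := by
  obtain ⟨r, hr1, hr⟩ := Submodule.exists_sub_one_mem_and_smul_eq_zero_of_fg_of_le_smul
    (Ideal.span {y}) (⊤ : Submodule R₁ Q₁) Module.Finite.fg_top (by
      intro m _
      obtain ⟨m', rfl⟩ := hy m
      exact Submodule.smul_mem_smul (Ideal.subset_span rfl) Submodule.mem_top)
  obtain ⟨t, ht⟩ := Ideal.mem_span_singleton.mp hr1
  -- `y * (-t)` acts as the identity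
  have hinv : ∀ q : Q₁, (y * (-t)) • q = q := by
    intro q
    have h1 : r • q = 0 := hr q Submodule.mem_top
    have h2 : r = 1 + y * t := by rw [← ht]; ring
    rw [h2, add_smul, one_smul] at h1
    have h3 : (y * t) • q = -q := eq_neg_of_add_eq_zero_right h1
    rw [mul_neg, neg_smul, h3, neg_neg]
  have hinvn : ∀ (n : ℕ) (q : Q₁), y ^ n • ((-t) ^ n • q) = q := by
    intro n
    induction n with
    | zero => intro q; simp
    | succ n ih =>
      intro q
      have : y ^ (n + 1) • (-t) ^ (n + 1) • q = y ^ n • (-t) ^ n • ((y * (-t)) • q) := by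
        simp only [← mul_smul]
        congr 1
        ring
      rw [this, hinv, ih]
  have hpowinj : ∀ (n : ℕ) (q : Q₁), y ^ n • q = 0 → q = 0 := by
    intro n q hq
    have := hinvn n q
    rw [smul_comm, hq, smul_zero] at this
    exact this.symm
  constructor
  · rw [injective_iff_map_eq_zero]
    intro q hq
    obtain ⟨⟨_, n, rfl⟩, hc⟩ := IsLocalizedModule.exists_of_eq (S := Submonoid.powers y)
      (f := f₁) (x₁ := q) (x₂ := 0) (by rw [hq, map_zero])
    rw [smul_zero] at hc
    exact hpowinj n q hc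
  · intro z
    obtain ⟨⟨q, ⟨_, n, rfl⟩⟩, hq⟩ := IsLocalizedModule.surj (Submonoid.powers y) f₁ z
    refine ⟨(-t) ^ n • q, ?_⟩
    have hu := IsLocalizedModule.map_units f₁ (⟨y ^ n, n, rfl⟩ : Submonoid.powers y)
    apply (Module.End.isUnit_iff _).mp hu |>.injective
    simp only [Module.algebraMap_end_apply]
    rw [← map_smul, hinvn]
    exact hq.symm

variable [Algebra A R₀₁] [IsScalarTower A R₀ R₀₁] [IsScalarTower A R₁ R₀₁]

omit [Module R₀ Q₀₁] [IsScalarTower R₀ R₀₁ Q₀₁] [AddCommGroup Q₀] [Module R₀ Q₀] in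
/-- In the two-chart situation, a polynomial `p(y)` killing `Q₁` gives the polynomial
`(reflect p)(x)` killing `Q₀₁ = Q₁[1/y]`. -/
theorem aeval_reflect_smul_eq_zero (x : R₀) (y : R₁)
    (hxy : algebraMap R₀ R₀₁ x * algebraMap R₁ R₀₁ y = 1)
    (f₁ : Q₁ →ₗ[R₁] Q₀₁) (hf₁ : ∀ z : Q₀₁, ∃ (n : ℕ) (q : Q₁), y ^ n • z = f₁ q)
    (p : A[X]) (hp : ∀ q : Q₁, aeval y p • q = 0) (z : Q₀₁) :
    algebraMap R₀ R₀₁ (aeval x (reflect p.natDegree p)) • z = 0 := by
  set X' : R₀₁ := algebraMap R₀ R₀₁ x with hX'
  set Y' : R₀₁ := algebraMap R₁ R₀₁ y with hY'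
  have hYX : Y' * X' = 1 := by rw [mul_comm]; exact hxy
  -- `p(Y')` kills `Q₀₁`
  have hpY : ∀ z : Q₀₁, (aeval Y' p) • z = 0 := by
    intro z
    obtain ⟨n, q, hq⟩ := hf₁ z
    have h1 : z = X' ^ n • (Y' ^ n • z) := by
      rw [← mul_smul, ← mul_pow, hxy, one_pow, one_smul]
    have h2 : Y' ^ n • z = f₁ q := by
      rw [← hq, hY', ← map_pow, algebraMap_smul]
    have h3 : aeval Y' p • f₁ q = 0 := by
      have : aeval Y' p = algebraMap R₁ R₀₁ (aeval y p) := by
        rw [hY']
        exact aeval_algebraMap_apply R₀₁ y p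
      rw [this, algebraMap_smul, ← map_smul, hp, map_zero]
    rw [h1, h2, smul_comm, h3, smul_zero]
  let _ : Invertible Y' := ⟨X', hxy, hYX⟩
  have hrefl := eval₂_reflect_mul_pow (algebraMap A R₀₁) Y' p.natDegree p le_rfl
  have hXe : algebraMap R₀ R₀₁ (aeval x (reflect p.natDegree p)) =
      eval₂ (algebraMap A R₀₁) (⅟Y') (reflect p.natDegree p) := by
    have : (⅟Y' : R₀₁) = X' := rfl
    rw [this, hX', ← aeval_def, aeval_algebraMap_apply]
  have hz : z = Y' ^ p.natDegree • (X' ^ p.natDegree • z) := by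
    rw [← mul_smul, ← mul_pow, hYX, one_pow, one_smul]
  rw [hz, ← mul_smul, hXe, hrefl, ← aeval_def, hpY]

variable [Module A Q₀] [IsScalarTower A R₀ Q₀]

omit [Module A Q₀] [IsScalarTower A R₀ Q₀] in
/-- **C2, core.** In the two-chart situation with `Q₁ = y Q₁`, a monic polynomial in `x`
kills `Q₀`. -/
theorem exists_monic_aeval_smul_eq_zero_of_two_charts [Module.Finite R₀ Q₀]
    [Module.Finite R₁ Q₁] (x : R₀) (y : R₁)
    (hxy : algebraMap R₀ R₀₁ x * algebraMap R₁ R₀₁ y = 1)
    (hfin₁ : (aeval y : A[X] →ₐ[A] R₁).Finite)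
    (f₀ : Q₀ →ₗ[R₀] Q₀₁) (f₁ : Q₁ →ₗ[R₁] Q₀₁)
    (hf₀ : ∀ q : Q₀, f₀ q = 0 → ∃ n : ℕ, x ^ n • q = 0)
    (hf₁ : ∀ z : Q₀₁, ∃ (n : ℕ) (q : Q₁), y ^ n • z = f₁ q)
    (hy : ∀ q : Q₁, ∃ q', y • q' = q) :
    ∃ F : A[X], F.Monic ∧ ∀ q : Q₀, aeval x F • q = 0 := by
  classical
  obtain ⟨p, hp0, hp⟩ := exists_aeval_smul_eq_zero_of_smul_surjective (A := A) y hfin₁ hy
  set P₂ : A[X] := reflect p.natDegree p with hP₂
  have hP₂monic : P₂.Monic := by
    apply monic_of_natDegree_le_of_coeff_eq_one p.natDegree
    · exact natDegree_reflect_le.trans (by simp)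
    · rw [hP₂, coeff_reflect, revAt_le le_rfl, Nat.sub_self, hp0]
  have hkill01 := aeval_reflect_smul_eq_zero (A := A) x y hxy f₁ hf₁ p hp
  -- for every element of `Q₀` some `x ^ n * P₂(x)` kills it
  have hloc : ∀ q : Q₀, ∃ n : ℕ, x ^ n • (aeval x P₂ • q) = 0 := by
    intro q
    apply hf₀
    rw [map_smul, ← algebraMap_smul R₀₁ (aeval x P₂) (f₀ q)]
    exact hkill01 (f₀ q)
  obtain ⟨S, hS⟩ := (Module.Finite.fg_top : (⊤ : Submodule R₀ Q₀).FG)
  choose n hn using hloc
  refine ⟨X ^ (S.sup n) * P₂, (monic_X_pow _).mul hP₂monic, fun q => ?_⟩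
  have hq : q ∈ Submodule.span R₀ (S : Set Q₀) := hS ▸ Submodule.mem_top
  induction hq using Submodule.span_induction with
  | mem s hs =>
    rw [map_mul, map_pow, aeval_X, mul_smul,
      ← Nat.sub_add_cancel (Finset.le_sup (f := n) hs), pow_add, mul_smul, hn, smul_zero]
  | zero => rw [smul_zero]
  | add a b _ _ ha hb => rw [smul_add, ha, hb, add_zero]
  | smul r a _ ha => rw [smul_comm, ha, smul_zero]

/-- **C2, core.** In the two-chart situation with `Q₁ = y Q₁`, the module `Q₀` is finite
over the base ring `A`. -/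
theorem finite_of_two_charts [Module.Finite R₀ Q₀] [Module.Finite R₁ Q₁] (x : R₀) (y : R₁)
    (hxy : algebraMap R₀ R₀₁ x * algebraMap R₁ R₀₁ y = 1)
    (hfin₀ : (aeval x : A[X] →ₐ[A] R₀).Finite) (hfin₁ : (aeval y : A[X] →ₐ[A] R₁).Finite)
    (f₀ : Q₀ →ₗ[R₀] Q₀₁) (f₁ : Q₁ →ₗ[R₁] Q₀₁)
    (hf₀ : ∀ q : Q₀, f₀ q = 0 → ∃ n : ℕ, x ^ n • q = 0)
    (hf₁ : ∀ z : Q₀₁, ∃ (n : ℕ) (q : Q₁), y ^ n • z = f₁ q)
    (hy : ∀ q : Q₁, ∃ q', y • q' = q) : Module.Finite A Q₀ := by
  obtain ⟨F, hF, hkill⟩ := exists_monic_aeval_smul_eq_zero_of_two_charts (A := A) x y hxy hfin₁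
    f₀ f₁ hf₀ hf₁ hy
  exact finite_of_monic_aeval_smul_eq_zero x hfin₀ F hF hkill

/-- **C2, core.** In the two-chart situation with `Q₁ = y Q₁`: if `Q₀` is finitely presented
over `R₀`, flat over `A`, and `R₀` is finitely presented as an `A[x]`-module, then `Q₀` is a
finite projective `A`-module. -/
theorem projective_of_two_charts [Module.FinitePresentation R₀ Q₀] [Module.Finite R₁ Q₁]
    [Module.Flat A Q₀] (x : R₀) (y : R₁)
    (hxy : algebraMap R₀ R₀₁ x * algebraMap R₁ R₀₁ y = 1)
    (hfp₀ : letI : Algebra A[X] R₀ := ((aeval x : A[X] →ₐ[A] R₀) : A[X] →+* R₀).toAlgebra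
      Module.FinitePresentation A[X] R₀)
    (hfin₁ : (aeval y : A[X] →ₐ[A] R₁).Finite)
    (f₀ : Q₀ →ₗ[R₀] Q₀₁) (f₁ : Q₁ →ₗ[R₁] Q₀₁)
    (hf₀ : ∀ q : Q₀, f₀ q = 0 → ∃ n : ℕ, x ^ n • q = 0)
    (hf₁ : ∀ z : Q₀₁, ∃ (n : ℕ) (q : Q₁), y ^ n • z = f₁ q)
    (hy : ∀ q : Q₁, ∃ q', y • q' = q) :
    Module.Finite A Q₀ ∧ Module.Projective A Q₀ := by
  obtain ⟨F, hF, hkill⟩ := exists_monic_aeval_smul_eq_zero_of_two_charts (A := A) x y hxy hfin₁
    f₀ f₁ hf₀ hf₁ hy
  have hfp : Module.FinitePresentation A Q₀ :=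
    finitePresentation_of_monic_aeval_smul_eq_zero x hfp₀ F hF hkill
  exact ⟨inferInstance, Module.Flat.projective_of_finitePresentation⟩

end TwoCharts

/-! ## Bridges: localized-module form, equivariant trivialisations -/

section Bridges

variable {A R₀ R₁ R₀₁ Q₀ Q₁ Q₀₁ : Type*} [CommRing A] [CommRing R₀] [CommRing R₁]
  [CommRing R₀₁] [Algebra A R₀] [Algebra A R₁] [Algebra R₀ R₀₁] [Algebra R₁ R₀₁]
  [AddCommGroup Q₀] [Module R₀ Q₀]
  [AddCommGroup Q₁] [Module R₁ Q₁]
  [AddCommGroup Q₀₁] [Module R₀₁ Q₀₁] [Module R₀ Q₀₁] [Module R₁ Q₀₁]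
  [IsScalarTower R₀ R₀₁ Q₀₁] [IsScalarTower R₁ R₀₁ Q₀₁]
  [Algebra A R₀₁] [IsScalarTower A R₀ R₀₁] [IsScalarTower A R₁ R₀₁]
  [Module A Q₀] [IsScalarTower A R₀ Q₀]

omit [Algebra A R₀] [Algebra A R₁] [Algebra R₀ R₀₁] [Algebra R₁ R₀₁] [Module R₀₁ Q₀₁]
  [Module R₁ Q₀₁] [IsScalarTower R₀ R₀₁ Q₀₁] [IsScalarTower R₁ R₀₁ Q₀₁] [Algebra A R₀₁]
  [IsScalarTower A R₀ R₀₁] [IsScalarTower A R₁ R₀₁] [Module A Q₀] [IsScalarTower A R₀ Q₀]
  [CommRing A] [CommRing R₁] [CommRing R₀₁] in
/-- The kernel of a localization map at the powers of `x` is `x`-power torsion. -/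
theorem exists_pow_smul_eq_zero_of_isLocalizedModule (x : R₀) (f₀ : Q₀ →ₗ[R₀] Q₀₁)
    [IsLocalizedModule (Submonoid.powers x) f₀] (q : Q₀) (hq : f₀ q = 0) :
    ∃ n : ℕ, x ^ n • q = 0 := by
  obtain ⟨⟨_, n, rfl⟩, hc⟩ := IsLocalizedModule.exists_of_eq (S := Submonoid.powers x)
    (f := f₀) (x₁ := q) (x₂ := 0) (by rw [hq, map_zero])
  rw [smul_zero] at hc
  exact ⟨n, hc⟩

omit [Algebra A R₀] [Algebra A R₁] [Algebra R₀ R₀₁] [Algebra R₁ R₀₁] [Module R₀₁ Q₀₁]
  [Module R₀ Q₀₁] [IsScalarTower R₀ R₀₁ Q₀₁] [IsScalarTower R₁ R₀₁ Q₀₁] [Algebra A R₀₁]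
  [IsScalarTower A R₀ R₀₁] [IsScalarTower A R₁ R₀₁] [Module A Q₀] [IsScalarTower A R₀ Q₀]
  [CommRing A] [CommRing R₀] [CommRing R₀₁] [AddCommGroup Q₀] [Module R₀ Q₀] in
/-- Every element of a localization at the powers of `y` has a multiple by a power of `y` in
the image. -/
theorem exists_pow_smul_eq_of_isLocalizedModule (y : R₁) (f₁ : Q₁ →ₗ[R₁] Q₀₁)
    [IsLocalizedModule (Submonoid.powers y) f₁] (z : Q₀₁) :
    ∃ (n : ℕ) (q : Q₁), y ^ n • z = f₁ q := by
  obtain ⟨⟨q, ⟨_, n, rfl⟩⟩, hq⟩ := IsLocalizedModule.surj (Submonoid.powers y) f₁ z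
  exact ⟨n, q, hq⟩

/-- **C2, core**, localized-module form of `finite_of_two_charts`. -/
theorem finite_of_two_charts_of_isLocalizedModule [Module.Finite R₀ Q₀] [Module.Finite R₁ Q₁]
    (x : R₀) (y : R₁) (hxy : algebraMap R₀ R₀₁ x * algebraMap R₁ R₀₁ y = 1)
    (hfin₀ : (aeval x : A[X] →ₐ[A] R₀).Finite) (hfin₁ : (aeval y : A[X] →ₐ[A] R₁).Finite)
    (f₀ : Q₀ →ₗ[R₀] Q₀₁) (f₁ : Q₁ →ₗ[R₁] Q₀₁)
    [IsLocalizedModule (Submonoid.powers x) f₀] [IsLocalizedModule (Submonoid.powers y) f₁]
    (hy : ∀ q : Q₁, ∃ q', y • q' = q) : Module.Finite A Q₀ :=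
  finite_of_two_charts x y hxy hfin₀ hfin₁ f₀ f₁
    (exists_pow_smul_eq_zero_of_isLocalizedModule x f₀)
    (exists_pow_smul_eq_of_isLocalizedModule y f₁) hy

/-- **C2, core**, localized-module form of `projective_of_two_charts`. -/
theorem projective_of_two_charts_of_isLocalizedModule [Module.FinitePresentation R₀ Q₀]
    [Module.Finite R₁ Q₁] [Module.Flat A Q₀] (x : R₀) (y : R₁)
    (hxy : algebraMap R₀ R₀₁ x * algebraMap R₁ R₀₁ y = 1)
    (hfp₀ : letI : Algebra A[X] R₀ := ((aeval x : A[X] →ₐ[A] R₀) : A[X] →+* R₀).toAlgebra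
      Module.FinitePresentation A[X] R₀)
    (hfin₁ : (aeval y : A[X] →ₐ[A] R₁).Finite)
    (f₀ : Q₀ →ₗ[R₀] Q₀₁) (f₁ : Q₁ →ₗ[R₁] Q₀₁)
    [IsLocalizedModule (Submonoid.powers x) f₀] [IsLocalizedModule (Submonoid.powers y) f₁]
    (hy : ∀ q : Q₁, ∃ q', y • q' = q) :
    Module.Finite A Q₀ ∧ Module.Projective A Q₀ :=
  projective_of_two_charts x y hxy hfp₀ hfin₁ f₀ f₁
    (exists_pow_smul_eq_zero_of_isLocalizedModule x f₀)
    (exists_pow_smul_eq_of_isLocalizedModule y f₁) hy

end Bridges

section Equivariant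

variable {A R : Type*} [CommRing A] [CommRing R] [Algebra A R]

/-- An `A`-linear trivialisation `R ≃ A[X]^n` which is equivariant for `x ↔ X` is linear over
`A[X]` (acting on `R` through `X ↦ x`). -/
theorem equivariant_map_aeval_mul (x : R) {n : ℕ} (Φ : R ≃ₗ[A] (Fin n → A[X]))
    (hΦ : ∀ z, Φ (x * z) = (X : A[X]) • Φ z) (p : A[X]) (z : R) :
    Φ (aeval x p * z) = p • Φ z := by
  induction p using Polynomial.induction_on' with
  | add p q hp hq => rw [map_add, add_mul, map_add, hp, hq, add_smul]
  | monomial m a =>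
    have hpow : ∀ (m : ℕ) (z : R), Φ (x ^ m * z) = (X : A[X]) ^ m • Φ z := by
      intro m
      induction m with
      | zero => intro z; simp
      | succ m ih => intro z; rw [pow_succ, mul_assoc, ih, hΦ, pow_succ, mul_smul]
    have h1 : aeval x (monomial m a) * z = a • (x ^ m * z) := by
      rw [← C_mul_X_pow_eq_monomial, map_mul, aeval_C, map_pow, aeval_X, mul_assoc,
        ← Algebra.smul_def]
    have h2 : (monomial m a : A[X]) • Φ z = a • ((X : A[X]) ^ m • Φ z) := by
      rw [← C_mul_X_pow_eq_monomial, mul_smul]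
      funext i
      simp only [Pi.smul_apply, smul_eq_mul, Polynomial.smul_eq_C_mul]
    rw [h1, map_smul, hpow, h2]

/-- If `R ≃ A[X]^n` equivariantly, then `R` is finite over `A[x]`. -/
theorem finite_aeval_of_equivariant (x : R) {n : ℕ} (Φ : R ≃ₗ[A] (Fin n → A[X]))
    (hΦ : ∀ z, Φ (x * z) = (X : A[X]) • Φ z) : (aeval x : A[X] →ₐ[A] R).Finite := by
  let _ : Algebra A[X] R := ((aeval x : A[X] →ₐ[A] R) : A[X] →+* R).toAlgebra
  let Φ' : R ≃ₗ[A[X]] (Fin n → A[X]) :=
    { Φ with
      map_smul' := fun p z => by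
        change Φ (aeval x p * z) = p • Φ z
        exact equivariant_map_aeval_mul x Φ hΦ p z }
  exact Module.Finite.equiv Φ'.symm

/-- If `R ≃ A[X]^n` equivariantly, then `R` is finitely presented over `A[x]`. -/
theorem finitePresentation_aeval_of_equivariant (x : R) {n : ℕ} (Φ : R ≃ₗ[A] (Fin n → A[X]))
    (hΦ : ∀ z, Φ (x * z) = (X : A[X]) • Φ z) :
    letI : Algebra A[X] R := ((aeval x : A[X] →ₐ[A] R) : A[X] →+* R).toAlgebra
    Module.FinitePresentation A[X] R := by
  let _ : Algebra A[X] R := ((aeval x : A[X] →ₐ[A] R) : A[X] →+* R).toAlgebra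
  let Φ' : R ≃ₗ[A[X]] (Fin n → A[X]) :=
    { Φ with
      map_smul' := fun p z => by
        change Φ (aeval x p * z) = p • Φ z
        exact equivariant_map_aeval_mul x Φ hΦ p z }
  exact Module.FinitePresentation.of_equiv Φ'.symm

end Equivariant

end Fermat.Agent.S25.H791

end
-- ===== PACK-END S25/H791/TwoChartFinite.lean

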