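import Mathlib
import Mathlib.RingTheory.Flat.Basic
import Mathlib.LinearAlgebra.TensorProduct.Pi
import Mathlib.Algebra.Exact.Basic
import Fermat.Agent.Pack.S43MC.G0E0L3

-- ===== PACK-BEGIN S25/H206/SurjAlg.lean
section
/-
S25 / block ABEL / AB-ALG leaf AA6 (helper206): module-level lemmas about invertible modules
used for the "divisor of a section" construction.  Mathlib only.
-/


set_option autoImplicit false
set_option linter.style.haveILetI false

namespace Fermat.Agent.S25.H206

open TensorProduct Module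

section Invertible

variable {R : Type*} [CommRing R] {M N : Type*} [AddCommGroup M] [Module R M]
  [AddCommGroup N] [Module R N]

/-- `Hom` of invertible modules is invertible (local copy, Mathlib only). -/
theorem surj_invertible_hom [Module.Invertible R M] [Module.Invertible R N] :
    Module.Invertible R (M →ₗ[R] N) :=
  Module.Invertible.congr (LinearEquiv.ofBijective (dualTensorHom R M N) dualTensorHom_bijective)

/-- The rank-one identity in an invertible module. -/
theorem dual_apply_smul_comm [Module.Invertible R M] (l : Module.Dual R M) (m m' : M) :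
    l m • m' = l m' • m := by
  have h := Module.Invertible.tmul_comm (R := R) (m₁ := m) (m₂ := m')
  have h2 := congrArg (fun z => TensorProduct.lid R M (l.rTensor M z)) h
  simpa using h2

variable (R M N) in
/-- The evaluation pairing `M ⊗ Hom(M, N) → N`. -/
noncomputable def evalPair : M ⊗[R] (M →ₗ[R] N) →ₗ[R] N :=
  TensorProduct.lift (LinearMap.applyₗ (R := R) (M := M) (M₂ := N))

@[simp] theorem evalPair_tmul (m : M) (t : M →ₗ[R] N) : evalPair R M N (m ⊗ₜ t) = t m := by
  simp [evalPair]

/-- Every element of `N` is a sum of values `t m` when `M` is invertible. -/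
theorem evalPair_surjective [Module.Invertible R M] : Function.Surjective (evalPair R M N) := by
  intro n
  obtain ⟨z, hz⟩ := (Module.Invertible.bijective (R := R) (M := M)).2 (1 : R)
  let Ψ : Module.Dual R M ⊗[R] M →ₗ[R] M ⊗[R] (M →ₗ[R] N) :=
    (TensorProduct.comm R (M →ₗ[R] N) M).toLinearMap ∘ₗ
      TensorProduct.map ((LinearMap.smulRightₗ (R := R) (M := N) (M₂ := M)).flip n) LinearMap.id
  have key : ∀ w, evalPair R M N (Ψ w) = contractLeft R M w • n := by
    intro w
    induction w using TensorProduct.induction_on with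
    | zero => simp
    | tmul l m => simp [Ψ]
    | add a b ha hb => simp only [map_add, ha, hb, add_smul]
  exact ⟨Ψ z, by rw [key, hz, one_smul]⟩

theorem evalPair_bijective [Module.Invertible R M] [Module.Invertible R N] :
    Function.Bijective (evalPair R M N) := by
  haveI : Module.Invertible R (M →ₗ[R] N) := surj_invertible_hom
  exact Module.Invertible.bijective_of_surjective evalPair_surjective

/-- Reflexivity: `M → Hom(Hom(M, N), N)` is bijective for invertible `M`, `N`. -/
theorem applyₗ_bijective [Module.Invertible R M] [Module.Invertible R N] :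
    Function.Bijective (LinearMap.applyₗ (R := R) (M := M) (M₂ := N)) := by
  haveI : Module.Invertible R (M →ₗ[R] N) := surj_invertible_hom
  haveI : Module.Invertible R ((M →ₗ[R] N) →ₗ[R] N) := surj_invertible_hom
  apply Module.Invertible.bijective_of_surjective
  intro Θ
  let P := M →ₗ[R] N
  let e : M ⊗[R] P ≃ₗ[R] N := LinearEquiv.ofBijective (evalPair R M N) evalPair_bijective
  let eP : P ⊗[R] Module.Dual R P ≃ₗ[R] R :=
    TensorProduct.comm R P (Module.Dual R P) ≪≫ₗ Module.Invertible.linearEquiv R P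
  let f' : R ⊗[R] P →ₗ[R] M ⊗[R] P :=
    e.symm.toLinearMap ∘ₗ Θ ∘ₗ (TensorProduct.lid R P).toLinearMap
  let f : R →ₗ[R] M := (Module.Invertible.rTensorEquiv R M eP).symm f'
  have hf : f.rTensor P = f' := (Module.Invertible.rTensorEquiv R M eP).apply_symm_apply f'
  refine ⟨f 1, ?_⟩
  ext p
  have h1 : f' ((1 : R) ⊗ₜ p) = f 1 ⊗ₜ p := by rw [← hf]; simp
  have h2 : e (f' ((1 : R) ⊗ₜ p)) = Θ p := by simp [f']
  rw [h1] at h2
  have h3 : e (f 1 ⊗ₜ p) = p (f 1) := evalPair_tmul _ _
  exact h3.symm.trans h2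

/-- An invertible module over a domain is torsion-free. -/
theorem smul_eq_zero_of_invertible [IsDomain R] [Module.Invertible R N] {r : R} {n : N}
    (h : r • n = 0) (hr : r ≠ 0) : n = 0 := by
  apply (Module.bijective_dual_eval R N).injective
  rw [map_zero]
  ext l
  have h1 : l (r • n) = 0 := by rw [h, map_zero]
  rw [map_smul, smul_eq_mul] at h1
  simpa using (mul_eq_zero.mp h1).resolve_left hr

/-- A nonzero linear map between invertible modules over a domain is injective. -/
theorem injective_of_ne_zero_of_invertible [IsDomain R] [Module.Invertible R M]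
    [Module.Invertible R N] (f : M →ₗ[R] N) (hf : f ≠ 0) : Function.Injective f := by
  rw [injective_iff_map_eq_zero]
  intro m hm
  by_contra hne
  have hl : ∃ l : Module.Dual R M, l m ≠ 0 := by
    by_contra hcon
    push Not at hcon
    apply hne
    apply (Module.bijective_dual_eval R M).injective
    rw [map_zero]
    ext l
    simpa using hcon l
  obtain ⟨l, hl⟩ := hl
  apply hf
  ext m₀
  have h1 : l m • f m₀ = 0 := by
    rw [← map_smul, dual_apply_smul_comm l m m₀, map_smul, hm, smul_zero]
  simpa using smul_eq_zero_of_invertible h1 hl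

theorem lsmul_bijective (E : Type*) [AddCommGroup E] [Module R E] [Module.Invertible R E] :
    Function.Bijective (LinearMap.lsmul R E) := by
  have h : ⇑(LinearMap.lsmul R E) = ⇑(Module.toModuleEnd R (S := R) E) := by
    funext r
    ext a
    rfl
  rw [h]
  exact Module.Invertible.toModuleEnd_bijective R E

/-- The scalar by which an endomorphism of an invertible module acts. -/
noncomputable def endScalar (E : Type*) [AddCommGroup E] [Module R E] [Module.Invertible R E] :
    (E →ₗ[R] E) ≃ₗ[R] R :=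
  (LinearEquiv.ofBijective (LinearMap.lsmul R E) (lsmul_bijective E)).symm

theorem endScalar_smul {E : Type*} [AddCommGroup E] [Module R E] [Module.Invertible R E]
    (f : E →ₗ[R] E) (a : E) : endScalar (R := R) E f • a = f a := by
  have h : (LinearEquiv.ofBijective (LinearMap.lsmul R E) (lsmul_bijective E))
      (endScalar (R := R) E f) = f :=
    LinearEquiv.apply_symm_apply _ f
  have h2 := congrArg (fun g : E →ₗ[R] E => g a) h
  simpa using h2

theorem endScalar_unique {E : Type*} [AddCommGroup E] [Module R E] [Module.Invertible R E]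
    (f : E →ₗ[R] E) (r : R) (h : ∀ a, r • a = f a) : endScalar (R := R) E f = r := by
  have hf : f = (LinearEquiv.ofBijective (LinearMap.lsmul R E) (lsmul_bijective E)) r := by
    ext a
    simpa using (h a).symm
  rw [hf]
  exact LinearEquiv.symm_apply_apply _ r

/-- If `t ∘ s` is multiplication by `r` then so is `s ∘ t` (invertible modules over a reduced
ring). -/
theorem comp_eq_smul_of_comp_eq_smul {E G : Type*} [AddCommGroup E] [Module R E]
    [AddCommGroup G] [Module R G] [IsReduced R] [Module.Invertible R E] [Module.Invertible R G]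
    (s : E →ₗ[R] G) (t : G →ₗ[R] E) (r : R) (h : ∀ a, t (s a) = r • a) (γ : G) :
    s (t γ) = r • γ := by
  set u : R := endScalar (R := R) G (s ∘ₗ t) with hu
  have hu' : ∀ γ, u • γ = s (t γ) := fun γ => endScalar_smul (s ∘ₗ t) γ
  have h1 : ∀ γ : G, (u * u) • γ = (r * u) • γ := by
    intro γ
    calc (u * u) • γ = u • (s (t γ)) := by rw [mul_smul, hu' γ]
      _ = s (t (s (t γ))) := hu' _
      _ = s (r • t γ) := by rw [h (t γ)]
      _ = r • s (t γ) := map_smul _ _ _
      _ = (r * u) • γ := by rw [mul_smul, hu' γ]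
  have h2 : ∀ a : E, (r * r) • a = (u * r) • a := by
    intro a
    calc (r * r) • a = r • t (s a) := by rw [mul_smul, h a]
      _ = t (s (r • a)) := by rw [map_smul, map_smul]
      _ = t (s (t (s a))) := by rw [h a]
      _ = t (u • s a) := by rw [hu' (s a)]
      _ = u • t (s a) := map_smul _ _ _
      _ = (u * r) • a := by rw [mul_smul, h a]
  have e1 : u * u = r * u :=
    (lsmul_bijective (R := R) G).injective (LinearMap.ext h1)
  have e2 : r * r = u * r :=
    (lsmul_bijective (R := R) E).injective (LinearMap.ext h2)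
  have e3 : (u - r) ^ 2 = 0 := by
    have : (u - r) ^ 2 = u * u - r * u - (u * r - r * r) := by ring
    rw [this, e1, e2]; ring
  have e4 : u = r := sub_eq_zero.mp (pow_eq_zero_iff (two_ne_zero) |>.mp e3)
  rw [← hu' γ, e4]

/-- An invertible module over a nontrivial ring is nontrivial. -/
theorem exists_ne_zero_of_invertible [Nontrivial R] (E : Type*) [AddCommGroup E] [Module R E]
    [Module.Invertible R E] : ∃ a : E, a ≠ 0 := by
  by_contra hcon
  push Not at hcon
  have h : (1 : R) = 0 := by
    apply (lsmul_bijective (R := R) E).injective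
    ext a
    simp [hcon a]
  exact one_ne_zero h

/-- The scalar of `t ∘ s`, as a linear map in `t`. -/
noncomputable def compScalar {E G : Type*} [AddCommGroup E] [Module R E]
    [AddCommGroup G] [Module R G] [Module.Invertible R E] (s : E →ₗ[R] G) :
    (G →ₗ[R] E) →ₗ[R] R :=
  (endScalar (R := R) E).toLinearMap ∘ₗ LinearMap.lcomp R E s

theorem compScalar_smul {E G : Type*} [AddCommGroup E] [Module R E]
    [AddCommGroup G] [Module R G] [Module.Invertible R E] (s : E →ₗ[R] G) (t : G →ₗ[R] E)
    (a : E) : compScalar s t • a = t (s a) :=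
  endScalar_smul (t ∘ₗ s) a

theorem compScalar_unique {E G : Type*} [AddCommGroup E] [Module R E]
    [AddCommGroup G] [Module R G] [Module.Invertible R E] (s : E →ₗ[R] G) (t : G →ₗ[R] E)
    (r : R) (h : ∀ a, r • a = t (s a)) : compScalar s t = r :=
  endScalar_unique (t ∘ₗ s) r h

theorem compScalar_injective {E G : Type*} [AddCommGroup E] [Module R E]
    [AddCommGroup G] [Module R G] [IsDomain R] [Module.Invertible R E] [Module.Invertible R G]
    (s : E →ₗ[R] G) (hs : Function.Injective s) : Function.Injective (compScalar s) := by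
  rw [injective_iff_map_eq_zero]
  intro t ht
  by_contra hne
  have hinj := injective_of_ne_zero_of_invertible t hne
  obtain ⟨a, ha⟩ := exists_ne_zero_of_invertible (R := R) E
  apply ha
  apply hs
  apply hinj
  rw [← compScalar_smul, ht, zero_smul, map_zero, map_zero]

/-- `s (t γ) = c(t) • γ`. -/
theorem apply_apply_eq_compScalar_smul {E G : Type*} [AddCommGroup E] [Module R E]
    [AddCommGroup G] [Module R G] [IsReduced R] [Module.Invertible R E] [Module.Invertible R G]
    (s : E →ₗ[R] G) (t : G →ₗ[R] E) (γ : G) : s (t γ) = compScalar s t • γ :=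
  comp_eq_smul_of_comp_eq_smul s t _ (fun a => (compScalar_smul s t a).symm) γ

/-- The image of `s` is `I • G`, where `I` is the ideal of scalars `c(t)`. -/
theorem range_eq_range_compScalar_smul_top {E G : Type*} [AddCommGroup E] [Module R E]
    [AddCommGroup G] [Module R G] [IsReduced R] [Module.Invertible R E] [Module.Invertible R G]
    (s : E →ₗ[R] G) :
    LinearMap.range s = (LinearMap.range (compScalar s) : Ideal R) • (⊤ : Submodule R G) := by
  apply le_antisymm
  · rintro _ ⟨a, rfl⟩
    obtain ⟨z, rfl⟩ := evalPair_surjective (R := R) (M := G) (N := E) a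
    induction z using TensorProduct.induction_on with
    | zero => simp
    | tmul γ t =>
      rw [evalPair_tmul, apply_apply_eq_compScalar_smul]
      exact Submodule.smul_mem_smul ⟨t, rfl⟩ Submodule.mem_top
    | add z w hz hw =>
      rw [map_add, map_add]
      exact Submodule.add_mem _ hz hw
  · rw [Submodule.smul_le]
    rintro _ ⟨t, rfl⟩ γ _
    exact ⟨t γ, apply_apply_eq_compScalar_smul s t γ⟩

/-- The isomorphism `G ≃ Hom(I, E)`, `γ ↦ (c(t) ↦ t γ)`, for an injective `c : Hom(G, E) → R`
with image `I`. -/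
noncomputable def divEquiv {E G : Type*} [AddCommGroup E] [Module R E]
    [AddCommGroup G] [Module R G] [Module.Invertible R E] [Module.Invertible R G]
    (c : (G →ₗ[R] E) →ₗ[R] R) (hc : Function.Injective c) :
    G ≃ₗ[R] (LinearMap.range c →ₗ[R] E) :=
  (LinearEquiv.ofBijective (LinearMap.applyₗ (R := R) (M := G) (M₂ := E)) applyₗ_bijective) ≪≫ₗ
    LinearEquiv.congrLeft E R (LinearEquiv.ofInjective c hc)

theorem divEquiv_apply {E G : Type*} [AddCommGroup E] [Module R E]
    [AddCommGroup G] [Module R G] [Module.Invertible R E] [Module.Invertible R G]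
    (c : (G →ₗ[R] E) →ₗ[R] R) (hc : Function.Injective c) (γ : G) (t : G →ₗ[R] E)
    (j : LinearMap.range c) (hj : (j : R) = c t) :
    divEquiv c hc γ j = t γ := by
  have hj' : j = LinearEquiv.ofInjective c hc t := Subtype.ext hj
  subst hj'
  simp [divEquiv, LinearEquiv.congrLeft]

end Invertible

section Ideal

variable {R : Type*} [CommRing R] {N : Type*} [AddCommGroup N] [Module R N]

/-- The map `N → Hom(I, N)`, `γ ↦ (a ↦ a • γ)`, for an ideal `I`. -/
noncomputable def idealSmulHom (I : Ideal R) (N : Type*) [AddCommGroup N] [Module R N] :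
    N →ₗ[R] (I →ₗ[R] N) :=
  LinearMap.smulRightₗ (R := R) (M := N) (M₂ := I) (Submodule.subtype I)

@[simp] theorem idealSmulHom_apply (I : Ideal R) (γ : N) (a : I) :
    idealSmulHom I N γ a = (a : R) • γ := rfl

/-- The image of `N` in `Hom(I, N)` is `I • Hom(I, N)` when `I` is invertible. -/
theorem range_idealSmulHom (I : Ideal R) [Module.Invertible R I] :
    LinearMap.range (idealSmulHom I N) = I • (⊤ : Submodule R (I →ₗ[R] N)) := by
  have key : ∀ (a : I) (φ : I →ₗ[R] N), (a : R) • φ = idealSmulHom I N (φ a) := by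
    intro a φ
    ext b
    simp only [LinearMap.smul_apply, idealSmulHom_apply]
    rw [← map_smul, ← map_smul]
    congr 1
    ext
    simp [mul_comm]
  apply le_antisymm
  · rintro _ ⟨γ, rfl⟩
    obtain ⟨z, rfl⟩ := evalPair_surjective (R := R) (M := I) (N := N) γ
    induction z using TensorProduct.induction_on with
    | zero => simp
    | tmul a φ =>
      rw [evalPair_tmul, ← key]
      exact Submodule.smul_mem_smul a.2 Submodule.mem_top
    | add z w hz hw =>
      rw [map_add, map_add]
      exact Submodule.add_mem _ hz hw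
  · rw [Submodule.smul_le]
    intro a ha φ _
    exact ⟨φ ⟨a, ha⟩, (key ⟨a, ha⟩ φ).symm⟩

end Ideal

section Finrank

variable {K R : Type*} [Field K] [CommRing R] [Algebra K R]

/-- `N / I N ≃ R / I` as `K`-vector spaces, for an invertible module `N` when `R / I` is
finite-dimensional. -/
theorem nonempty_quotient_smul_top_equiv (I : Ideal R) (N : Type*) [AddCommGroup N] [Module R N]
    [Module K N] [IsScalarTower K R N] [Module.Invertible R N] [Module.Finite K (R ⧸ I)] :
    Nonempty ((N ⧸ (I • ⊤ : Submodule R N)) ≃ₗ[K] (R ⧸ I)) := by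
  haveI : IsArtinianRing (R ⧸ I) := IsArtinianRing.of_finite K (R ⧸ I)
  haveI : Module.Free (R ⧸ I) ((R ⧸ I) ⊗[R] N) := inferInstance
  obtain ⟨e⟩ := Module.Invertible.free_iff_linearEquiv.mp this
  let e1 : (N ⧸ (I • ⊤ : Submodule R N)) ≃ₗ[R] (R ⧸ I) ⊗[R] N :=
    (TensorProduct.quotTensorEquivQuotSMul N I).symm
  let e2 : (N ⧸ (I • ⊤ : Submodule R N)) ≃ₗ[K] (R ⧸ I) ⊗[R] N := e1.restrictScalars K
  let e3 : ((R ⧸ I) ⊗[R] N) ≃ₗ[K] (R ⧸ I) := e.restrictScalars K
  exact ⟨e2 ≪≫ₗ e3⟩

/-- The same for any submodule equal to `I • ⊤`. -/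
theorem nonempty_quotient_equiv_of_eq (I : Ideal R) (N : Type*) [AddCommGroup N] [Module R N]
    [Module K N] [IsScalarTower K R N] [Module.Invertible R N] [Module.Finite K (R ⧸ I)]
    (p : Submodule R N) (hp : p = I • ⊤) : Nonempty ((N ⧸ p) ≃ₗ[K] (R ⧸ I)) := by
  subst hp
  exact nonempty_quotient_smul_top_equiv I N

theorem finite_quotient_of_eq (I : Ideal R) (N : Type*) [AddCommGroup N] [Module R N]
    [Module K N] [IsScalarTower K R N] [Module.Invertible R N] [Module.Finite K (R ⧸ I)]
    (p : Submodule R N) (hp : p = I • ⊤) : Module.Finite K (N ⧸ p) := by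
  obtain ⟨e⟩ := nonempty_quotient_equiv_of_eq (K := K) I N p hp
  exact Module.Finite.equiv e.symm

theorem finrank_quotient_of_eq (I : Ideal R) (N : Type*) [AddCommGroup N] [Module R N]
    [Module K N] [IsScalarTower K R N] [Module.Invertible R N] [Module.Finite K (R ⧸ I)]
    (p : Submodule R N) (hp : p = I • ⊤) : finrank K (N ⧸ p) = finrank K (R ⧸ I) := by
  obtain ⟨e⟩ := nonempty_quotient_equiv_of_eq (K := K) I N p hp
  exact e.finrank_eq

end Finrank

end Fermat.Agent.S25.H206

end
-- ===== PACK-END S25/H206/SurjAlg.lean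

-- ===== PACK-BEGIN S25/H206/SurjPts.lean
section


/-!
# Row S25, block ABEL (AB-ALG, `surj`), leaf PTS

Private copy (namespace `Fermat.Agent.S25.H206.Pts`) of helper627's `H627/DivPoints.lean`
(origin/helper627 @7cdfd3ea), so that `H206/SurjMain.lean` does not depend on the landing order.

Pure commutative algebra, Mathlib only.

* `finrank_quotient_mul_of_isMaximal`, `finrank_quotient_mul`: in a Dedekind domain `R` over a
  field `K`, `dim_K R/(m J) = dim_K R/J + 1` for a maximal ideal `m` with residue field `K` and a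
  nonzero ideal `J`.
* `finite_quotient_of_ne_bot`: `R/J` is finite-dimensional (`R` of finite type over an
  algebraically closed `K`).
* `ptIdeal₀`, `ptIdeal₁`, `ptIdeal₀₁`: the ideals on the two charts `Spec R₀`, `Spec R₁` and on
  their intersection `Spec R₀₁` of a *chart point* `(R₀ →ₐ[K] K) ⊕ (R₁ →ₐ[K] K)`.
* `exists_points_of_compatible` (**PTS**): a compatible pair of nonzero ideals `(I₀, I₁)`
  (`I₀ R₀₁ = I₁ R₀₁`) is the pair of products of the ideals of `n` chart points, where
  `n = dim R₀/I₀ + dim R₁/I₁ - dim R₀₁/I₀ R₀₁`.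
-/

set_option autoImplicit false
set_option linter.style.haveILetI false

namespace Fermat.Agent.S25.H206.Pts

open Module

section Core

variable {K R : Type*} [Field K] [CommRing R] [IsDedekindDomain R] [Algebra K R]

/-- In a Dedekind domain there is no ideal strictly between `m * J` and `J` (`m` maximal). -/
theorem eq_of_mul_le_of_le {m J L : Ideal R} [hm : m.IsMaximal] (hJ : J ≠ ⊥)
    (h1 : m * J ≤ L) (h2 : L ≤ J) (h3 : L ≠ m * J) : L = J := by
  obtain ⟨L', rfl⟩ := Ideal.dvd_iff_le.mpr h2
  have hd : J * L' ∣ J * m := by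
    rw [mul_comm J m]; exact Ideal.dvd_iff_le.mpr h1
  have hd' : L' ∣ m := (mul_dvd_mul_iff_left (show J ≠ 0 from hJ)).mp hd
  have hle : m ≤ L' := Ideal.dvd_iff_le.mp hd'
  by_cases hL' : L' = ⊤
  · rw [hL', Ideal.mul_top]
  · exact absurd (by rw [hm.eq_of_le hL' hle, mul_comm]) h3

/-- `m * J ≠ J` for a maximal ideal `m` and a nonzero ideal `J` of a Dedekind domain. -/
theorem mul_ne_self_of_isMaximal {m J : Ideal R} [hm : m.IsMaximal] (hJ : J ≠ ⊥) :
    m * J ≠ J := by
  intro h
  have h' : J * m = J * 1 := by rw [mul_comm, h, mul_one]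
  have := mul_left_cancel₀ (show J ≠ 0 from hJ) h'
  exact hm.ne_top (by rw [this, Ideal.one_eq_top])

/-- Key dimension count: `dim_K R/(mJ) = dim_K R/J + 1` for a maximal ideal `m` with residue
field `K` and a nonzero ideal `J` of a Dedekind domain `R`. -/
theorem finrank_quotient_mul_of_isMaximal (m J : Ideal R) [hm : m.IsMaximal]
    (hres : Function.Surjective (algebraMap K (R ⧸ m))) (hJ : J ≠ ⊥)
    [Module.Finite K (R ⧸ J)] :
    Module.Finite K (R ⧸ (m * J)) ∧ finrank K (R ⧸ (m * J)) = finrank K (R ⧸ J) + 1 := by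
  classical
  have hle : m * J ≤ J := Ideal.mul_le_right
  let π : (R ⧸ (m * J)) →ₗ[K] (R ⧸ J) := (Ideal.Quotient.factorₐ K hle).toLinearMap
  have hπ : Function.Surjective π := Ideal.Quotient.factor_surjective hle
  -- an element of `J` not in `m * J`
  obtain ⟨t, htJ, htm⟩ : ∃ t ∈ J, t ∉ m * J := by
    by_contra hcon
    push Not at hcon
    exact mul_ne_self_of_isMaximal hJ (le_antisymm hle hcon)
  have hL : m * J ⊔ Ideal.span {t} = J := by
    apply eq_of_mul_le_of_le (m := m) hJ le_sup_left
    · exact sup_le hle ((Ideal.span_singleton_le_iff_mem _).mpr htJ)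
    · intro h
      exact htm (h ▸ Ideal.mem_sup_right (Ideal.subset_span rfl))
  let τ : R ⧸ (m * J) := Ideal.Quotient.mk _ t
  have hτ : τ ≠ 0 := by
    intro h
    exact htm (Ideal.Quotient.eq_zero_iff_mem.mp h)
  have hker : LinearMap.ker π = K ∙ τ := by
    apply le_antisymm
    · intro z hz
      obtain ⟨j, rfl⟩ := Ideal.Quotient.mk_surjective z
      have hj : j ∈ J := by
        have : (Ideal.Quotient.mk J) j = 0 := hz
        exact Ideal.Quotient.eq_zero_iff_mem.mp this
      rw [← hL] at hj
      obtain ⟨a, ha, b, hb, rfl⟩ := Submodule.mem_sup.mp hj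
      obtain ⟨r, rfl⟩ := Ideal.mem_span_singleton'.mp hb
      obtain ⟨c, hc⟩ := hres (Ideal.Quotient.mk m r)
      have hrc : r - algebraMap K R c ∈ m := by
        rw [← Ideal.Quotient.eq_zero_iff_mem, map_sub, sub_eq_zero, ← hc]
        rfl
      rw [Submodule.mem_span_singleton]
      refine ⟨c, ?_⟩
      rw [Algebra.smul_def, IsScalarTower.algebraMap_apply K R (R ⧸ (m * J)),
        Ideal.Quotient.algebraMap_eq, ← map_mul, eq_comm, ← sub_eq_zero, ← map_sub,
        Ideal.Quotient.eq_zero_iff_mem]
      have : a + r * t - algebraMap K R c * t = a + (r - algebraMap K R c) * t := by ring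
      rw [this]
      exact add_mem ha (Ideal.mul_mem_mul hrc htJ)
    · rw [Submodule.span_singleton_le_iff_mem]
      show π τ = 0
      exact Ideal.Quotient.eq_zero_iff_mem.mpr htJ
  have hfk : Module.Finite K (LinearMap.ker π) := by
    rw [hker]; infer_instance
  have hfin : Module.Finite K (R ⧸ (m * J)) := by
    have e := π.quotKerEquivOfSurjective hπ
    have : Module.Finite K ((R ⧸ (m * J)) ⧸ LinearMap.ker π) := Module.Finite.equiv e.symm
    exact Module.Finite.of_submodule_quotient (LinearMap.ker π)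
  refine ⟨hfin, ?_⟩
  have h1 := LinearMap.finrank_range_add_finrank_ker π
  rw [LinearMap.range_eq_top.mpr hπ, finrank_top, hker, finrank_span_singleton hτ] at h1
  exact h1.symm

end Core

section Trivial

variable {K R : Type*} [Field K] [CommRing R] [Algebra K R]

theorem finrank_quotient_top : finrank K (R ⧸ (⊤ : Ideal R)) = 0 := by
  haveI : Subsingleton (R ⧸ (⊤ : Ideal R)) := Ideal.Quotient.subsingleton_iff.mpr rfl
  exact finrank_zero_of_subsingleton

theorem finrank_quotient_congr {I J : Ideal R} (h : I = J) :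
    finrank K (R ⧸ I) = finrank K (R ⧸ J) := by
  subst h; rfl

end Trivial

section Points

variable {K R : Type*} [Field K] [IsAlgClosed K] [CommRing R] [Algebra K R]
  [Algebra.FiniteType K R]

/-- Nullstellensatz: residue fields of a f.g. algebra over an algebraically closed field. -/
theorem surjective_algebraMap_quotient (m : Ideal R) [m.IsMaximal] :
    Function.Surjective (algebraMap K (R ⧸ m)) := by
  let _ : Field (R ⧸ m) := Ideal.Quotient.field m
  have hft : Algebra.FiniteType K (R ⧸ m) :=
    Algebra.FiniteType.of_surjective (Ideal.Quotient.mkₐ K m) (Ideal.Quotient.mkₐ_surjective K m)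
  have hfin : Module.Finite K (R ⧸ m) := finite_of_finite_type_of_isJacobsonRing K (R ⧸ m)
  have : Algebra.IsIntegral K (R ⧸ m) := Algebra.IsIntegral.of_finite K (R ⧸ m)
  exact (IsAlgClosed.algebraMap_bijective_of_isIntegral (k := K) (K := R ⧸ m)).2

/-- Every maximal ideal is the kernel of a `K`-point. -/
theorem exists_algHom_ker_eq_of_isMaximal (m : Ideal R) [m.IsMaximal] :
    ∃ φ : R →ₐ[K] K, RingHom.ker φ = m := by
  classical
  let _ : Field (R ⧸ m) := Ideal.Quotient.field m
  have hft : Algebra.FiniteType K (R ⧸ m) :=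
    Algebra.FiniteType.of_surjective (Ideal.Quotient.mkₐ K m) (Ideal.Quotient.mkₐ_surjective K m)
  have hfin : Module.Finite K (R ⧸ m) := finite_of_finite_type_of_isJacobsonRing K (R ⧸ m)
  have : Algebra.IsIntegral K (R ⧸ m) := Algebra.IsIntegral.of_finite K (R ⧸ m)
  have hbij : Function.Bijective (algebraMap K (R ⧸ m)) :=
    IsAlgClosed.algebraMap_bijective_of_isIntegral
  let e : K ≃ₐ[K] (R ⧸ m) := AlgEquiv.ofBijective (Algebra.ofId K (R ⧸ m)) hbij
  refine ⟨(e.symm : (R ⧸ m) →ₐ[K] K).comp (Ideal.Quotient.mkₐ K m), ?_⟩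
  ext b
  simp only [RingHom.mem_ker, AlgHom.coe_comp, Function.comp_apply, Ideal.Quotient.mkₐ_eq_mk]
  rw [← Ideal.Quotient.eq_zero_iff_mem]
  exact map_eq_zero_iff _ e.symm.injective

variable [IsDedekindDomain R]

/-- Quotients of a Dedekind f.g. algebra by nonzero ideals are finite-dimensional. -/
theorem finite_quotient_of_ne_bot (J : Ideal R) (hJ : J ≠ ⊥) : Module.Finite K (R ⧸ J) := by
  classical
  revert hJ
  refine UniqueFactorizationMonoid.induction_on_prime
    (P := fun J : Ideal R => J ≠ ⊥ → Module.Finite K (R ⧸ J)) J ?_ ?_ ?_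
  · intro h; exact absurd rfl h
  · intro I hI _
    rw [Ideal.isUnit_iff] at hI
    subst hI
    infer_instance
  · intro a p ha hp IH _
    have hpm : p.IsMaximal := (Ideal.isPrime_of_prime hp).isMaximal hp.ne_zero
    haveI := IH ha
    exact (finrank_quotient_mul_of_isMaximal p a (surjective_algebraMap_quotient p) ha).1

/-- Dimension count for a product with a maximal ideal. -/
theorem finrank_quotient_mul (m J : Ideal R) [m.IsMaximal] (hJ : J ≠ ⊥) :
    finrank K (R ⧸ (m * J)) = finrank K (R ⧸ J) + 1 := by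
  haveI := finite_quotient_of_ne_bot (K := K) J hJ
  exact (finrank_quotient_mul_of_isMaximal m J (surjective_algebraMap_quotient m) hJ).2

/-- `dim_K R / m ^ n = n` for a nonzero maximal ideal `m`. -/
theorem finrank_quotient_pow (m : Ideal R) [m.IsMaximal] (hm : m ≠ ⊥) (n : ℕ) :
    finrank K (R ⧸ m ^ n) = n := by
  induction n with
  | zero =>
    rw [finrank_quotient_congr (K := K) (pow_zero m), finrank_quotient_congr (K := K)
      (Ideal.one_eq_top (R := R)), finrank_quotient_top]
  | succ n ih =>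
    rw [finrank_quotient_congr (K := K) (pow_succ' m n),
      finrank_quotient_mul m (m ^ n) (pow_ne_zero n (show m ≠ 0 from hm)), ih]

end Points

section Main

variable {K R₀ R₁ : Type*} (R₀₁ : Type*) [Field K]
  [CommRing R₀] [CommRing R₁] [CommRing R₀₁]
  [Algebra K R₀] [Algebra K R₁] [Algebra R₀ R₀₁] [Algebra R₁ R₀₁]

/-- The ideal on the chart `Spec R₀` of a chart point (a `K`-point of `Spec R₀` or of
`Spec R₁`): the kernel, resp. the contraction of the extension of the kernel. -/
def ptIdeal₀ (P : (R₀ →ₐ[K] K) ⊕ (R₁ →ₐ[K] K)) : Ideal R₀ :=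
  P.elim (fun φ => RingHom.ker φ)
    (fun ψ => ((RingHom.ker ψ).map (algebraMap R₁ R₀₁)).comap (algebraMap R₀ R₀₁))

/-- The ideal on the chart `Spec R₁` of a chart point. -/
def ptIdeal₁ (P : (R₀ →ₐ[K] K) ⊕ (R₁ →ₐ[K] K)) : Ideal R₁ :=
  P.elim (fun φ => ((RingHom.ker φ).map (algebraMap R₀ R₀₁)).comap (algebraMap R₁ R₀₁))
    (fun ψ => RingHom.ker ψ)

/-- The ideal on the intersection `Spec R₀₁` of a chart point. -/
def ptIdeal₀₁ (P : (R₀ →ₐ[K] K) ⊕ (R₁ →ₐ[K] K)) : Ideal R₀₁ :=
  P.elim (fun φ => (RingHom.ker φ).map (algebraMap R₀ R₀₁))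
    (fun ψ => (RingHom.ker ψ).map (algebraMap R₁ R₀₁))

@[simp] theorem ptIdeal₀_inl (φ : R₀ →ₐ[K] K) :
    ptIdeal₀ (R₁ := R₁) R₀₁ (Sum.inl φ) = RingHom.ker φ := rfl

@[simp] theorem ptIdeal₀_inr (ψ : R₁ →ₐ[K] K) :
    ptIdeal₀ (R₀ := R₀) R₀₁ (Sum.inr ψ) =
      ((RingHom.ker ψ).map (algebraMap R₁ R₀₁)).comap (algebraMap R₀ R₀₁) := rfl

@[simp] theorem ptIdeal₁_inl (φ : R₀ →ₐ[K] K) :
    ptIdeal₁ (R₁ := R₁) R₀₁ (Sum.inl φ) =
      ((RingHom.ker φ).map (algebraMap R₀ R₀₁)).comap (algebraMap R₁ R₀₁) := rfl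

@[simp] theorem ptIdeal₁_inr (ψ : R₁ →ₐ[K] K) :
    ptIdeal₁ (R₀ := R₀) R₀₁ (Sum.inr ψ) = RingHom.ker ψ := rfl

variable [IsAlgClosed K] [IsDedekindDomain R₁] [Algebra.FiniteType K R₁]

/-- Points at infinity only: an ideal of `R₁` that becomes the unit ideal on the intersection
is a product of ideals of chart points. -/
theorem exists_points_of_map_eq_top (I₁ : Ideal R₁) (h₁ : I₁ ≠ ⊥)
    (hc : I₁.map (algebraMap R₁ R₀₁) = ⊤) :
    ∃ (n : ℕ) (P : Fin n → (R₀ →ₐ[K] K) ⊕ (R₁ →ₐ[K] K)),
      (⊤ : Ideal R₀) = ∏ j, ptIdeal₀ R₀₁ (P j) ∧ I₁ = ∏ j, ptIdeal₁ R₀₁ (P j) ∧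
      n = finrank K (R₁ ⧸ I₁) := by
  classical
  revert h₁ hc
  refine UniqueFactorizationMonoid.induction_on_prime
    (P := fun I₁ : Ideal R₁ => I₁ ≠ ⊥ → I₁.map (algebraMap R₁ R₀₁) = ⊤ →
      ∃ (n : ℕ) (P : Fin n → (R₀ →ₐ[K] K) ⊕ (R₁ →ₐ[K] K)),
        (⊤ : Ideal R₀) = ∏ j, ptIdeal₀ R₀₁ (P j) ∧ I₁ = ∏ j, ptIdeal₁ R₀₁ (P j) ∧
        n = finrank K (R₁ ⧸ I₁)) I₁ ?_ ?_ ?_
  · intro h; exact absurd rfl h
  · intro I hI _ _
    rw [Ideal.isUnit_iff] at hI
    subst hI
    refine ⟨0, Fin.elim0, ?_, ?_, ?_⟩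
    · simp
    · simp
    · rw [finrank_quotient_top]
  · intro b q hb hq IH _ hmap
    have hqm : q.IsMaximal := (Ideal.isPrime_of_prime hq).isMaximal hq.ne_zero
    rw [Ideal.map_mul] at hmap
    have hq1 : q.map (algebraMap R₁ R₀₁) = ⊤ := by
      rw [eq_top_iff, ← hmap]; exact Ideal.mul_le_left
    have hb1 : b.map (algebraMap R₁ R₀₁) = ⊤ := by
      rw [eq_top_iff, ← hmap]; exact Ideal.mul_le_right
    obtain ⟨n, P, e0, e1, en⟩ := IH hb hb1
    obtain ⟨ψ, hψ⟩ := exists_algHom_ker_eq_of_isMaximal (K := K) q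
    refine ⟨n + 1, Fin.cons (Sum.inr ψ) P, ?_, ?_, ?_⟩
    · rw [Fin.prod_univ_succ]
      simp only [Fin.cons_zero, Fin.cons_succ, ptIdeal₀_inr, hψ, hq1, Ideal.comap_top, ← e0,
        Ideal.top_mul]
    · rw [Fin.prod_univ_succ]
      simp only [Fin.cons_zero, Fin.cons_succ, ptIdeal₁_inr, hψ, ← e1]
    · rw [finrank_quotient_mul q b hb, ← en]

/-- **PTS.**  A compatible pair of nonzero ideals on the two charts of a curve over an
algebraically closed field is the pair of ideals of a finite family of chart points, and the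
number of points is the degree `dim R₀/I₀ + dim R₁/I₁ - dim R₀₁/I₀₁`. -/
theorem exists_points_of_compatible [IsDedekindDomain R₀] [Algebra.FiniteType K R₀]
    [Algebra K R₀₁] [IsScalarTower K R₀ R₀₁]
    (x : R₀) (y : R₁) [IsLocalization.Away x R₀₁] [IsLocalization.Away y R₀₁] (hx : x ≠ 0)
    (I₀ : Ideal R₀) (I₁ : Ideal R₁) (h₀ : I₀ ≠ ⊥) (h₁ : I₁ ≠ ⊥)
    (hc : I₀.map (algebraMap R₀ R₀₁) = I₁.map (algebraMap R₁ R₀₁)) :
    ∃ (n : ℕ) (P : Fin n → (R₀ →ₐ[K] K) ⊕ (R₁ →ₐ[K] K)),
      I₀ = ∏ j, ptIdeal₀ R₀₁ (P j) ∧ I₁ = ∏ j, ptIdeal₁ R₀₁ (P j) ∧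
      (n : ℤ) = finrank K (R₀ ⧸ I₀) + finrank K (R₁ ⧸ I₁)
        - finrank K (R₀₁ ⧸ I₀.map (algebraMap R₀ R₀₁)) := by
  classical
  have hM₀ : Submonoid.powers x ≤ nonZeroDivisors R₀ :=
    Submonoid.powers_le.mpr (mem_nonZeroDivisors_of_ne_zero hx)
  haveI : IsDomain R₀₁ := IsLocalization.isDomain_of_le_nonZeroDivisors (S := R₀₁) hM₀
  haveI : IsDedekindDomain R₀₁ := IsLocalization.isDedekindDomain R₀ hM₀ R₀₁
  haveI : Algebra.FiniteType K R₀₁ :=
    Algebra.FiniteType.trans (S := R₀) inferInstance
      (IsLocalization.finiteType_of_monoid_fg (Submonoid.powers x) R₀₁)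
  have hinj₀ : Function.Injective (algebraMap R₀ R₀₁) := IsLocalization.injective R₀₁ hM₀
  revert I₁
  revert h₀
  refine UniqueFactorizationMonoid.induction_on_prime
    (P := fun I₀ : Ideal R₀ => I₀ ≠ ⊥ → ∀ I₁ : Ideal R₁, I₁ ≠ ⊥ →
      I₀.map (algebraMap R₀ R₀₁) = I₁.map (algebraMap R₁ R₀₁) →
      ∃ (n : ℕ) (P : Fin n → (R₀ →ₐ[K] K) ⊕ (R₁ →ₐ[K] K)),
        I₀ = ∏ j, ptIdeal₀ R₀₁ (P j) ∧ I₁ = ∏ j, ptIdeal₁ R₀₁ (P j) ∧
        (n : ℤ) = finrank K (R₀ ⧸ I₀) + finrank K (R₁ ⧸ I₁)
          - finrank K (R₀₁ ⧸ I₀.map (algebraMap R₀ R₀₁))) I₀ ?_ ?_ ?_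
  · intro h; exact absurd rfl h
  · intro I hI _ I₁ h₁ hc
    rw [Ideal.isUnit_iff] at hI
    subst hI
    rw [Ideal.map_top] at hc
    obtain ⟨n, P, e0, e1, en⟩ := exists_points_of_map_eq_top (K := K) (R₀ := R₀) R₀₁ I₁ h₁ hc.symm
    refine ⟨n, P, e0, e1, ?_⟩
    rw [finrank_quotient_top, finrank_quotient_congr (K := K) (Ideal.map_top (algebraMap R₀ R₀₁)),
      finrank_quotient_top, ← en]
    simp
  · intro a p ha hp IH _ I₁ h₁ hc
    have hpp : p.IsPrime := Ideal.isPrime_of_prime hp
    have hpm : p.IsMaximal := hpp.isMaximal hp.ne_zero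
    obtain ⟨φ, hφ⟩ := exists_algHom_ker_eq_of_isMaximal (K := K) p
    have hmapa : a.map (algebraMap R₀ R₀₁) ≠ ⊥ := by
      rwa [Ne, Ideal.map_eq_bot_iff_of_injective hinj₀]
    rw [Ideal.map_mul] at hc
    by_cases hp1 : p.map (algebraMap R₀ R₀₁) = ⊤
    · -- the point is not on the intersection
      rw [hp1, Ideal.top_mul] at hc
      obtain ⟨n, P, e0, e1, en⟩ := IH ha I₁ h₁ hc
      refine ⟨n + 1, Fin.cons (Sum.inl φ) P, ?_, ?_, ?_⟩
      · rw [Fin.prod_univ_succ]
        simp only [Fin.cons_zero, Fin.cons_succ, ptIdeal₀_inl, hφ, ← e0]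
      · rw [Fin.prod_univ_succ]
        simp only [Fin.cons_zero, Fin.cons_succ, ptIdeal₁_inl, hφ, hp1, Ideal.comap_top, ← e1,
          Ideal.top_mul]
      · have h1 : finrank K (R₀₁ ⧸ (p * a).map (algebraMap R₀ R₀₁)) =
            finrank K (R₀₁ ⧸ a.map (algebraMap R₀ R₀₁)) :=
          finrank_quotient_congr (by rw [Ideal.map_mul, hp1, Ideal.top_mul])
        rw [h1, finrank_quotient_mul p a ha]
        push_cast
        linarith
    · -- the point lies on the intersection
      have hdisj : Disjoint (Submonoid.powers x : Set R₀) (p : Set R₀) :=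
        (IsLocalization.map_algebraMap_ne_top_iff_disjoint (Submonoid.powers x) R₀₁ p).mp hp1
      have hp'p : (p.map (algebraMap R₀ R₀₁)).IsPrime :=
        IsLocalization.isPrime_of_isPrime_disjoint (Submonoid.powers x) R₀₁ p hpp hdisj
      have hp'0 : p.map (algebraMap R₀ R₀₁) ≠ ⊥ := by
        rw [Ne, Ideal.map_eq_bot_iff_of_injective hinj₀]; exact hp.ne_zero
      have hp'm : (p.map (algebraMap R₀ R₀₁)).IsMaximal := hp'p.isMaximal hp'0
      set q : Ideal R₁ := (p.map (algebraMap R₀ R₀₁)).comap (algebraMap R₁ R₀₁) with hq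
      have hqmap : q.map (algebraMap R₁ R₀₁) = p.map (algebraMap R₀ R₀₁) :=
        IsLocalization.map_under (Submonoid.powers y) R₀₁ _
      have hqp : q.IsPrime := Ideal.comap_isPrime _ _
      have hq0 : q ≠ ⊥ := by
        intro h
        rw [h, Ideal.map_bot] at hqmap
        exact hp'0 hqmap.symm
      have hqm : q.IsMaximal := hqp.isMaximal hq0
      have hle : I₁ ≤ q := by
        refine Ideal.le_comap_map.trans (Ideal.comap_mono ?_)
        rw [← hc]
        exact Ideal.mul_le_left
      obtain ⟨b, rfl⟩ := Ideal.dvd_iff_le.mpr hle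
      have hb : b ≠ ⊥ := right_ne_zero_of_mul h₁
      rw [Ideal.map_mul, hqmap] at hc
      have hab : a.map (algebraMap R₀ R₀₁) = b.map (algebraMap R₁ R₀₁) :=
        mul_left_cancel₀ (show p.map (algebraMap R₀ R₀₁) ≠ 0 from hp'0) hc
      obtain ⟨n, P, e0, e1, en⟩ := IH ha b hb hab
      refine ⟨n + 1, Fin.cons (Sum.inl φ) P, ?_, ?_, ?_⟩
      · rw [Fin.prod_univ_succ]
        simp only [Fin.cons_zero, Fin.cons_succ, ptIdeal₀_inl, hφ, ← e0]
      · rw [Fin.prod_univ_succ]
        simp only [Fin.cons_zero, Fin.cons_succ, ptIdeal₁_inl, hφ, ← e1, ← hq]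
      · have h1 : finrank K (R₀₁ ⧸ (p * a).map (algebraMap R₀ R₀₁)) =
            finrank K (R₀₁ ⧸ a.map (algebraMap R₀ R₀₁)) + 1 := by
          rw [finrank_quotient_congr (K := K) (Ideal.map_mul (algebraMap R₀ R₀₁) p a)]
          exact finrank_quotient_mul _ _ hmapa
        rw [h1, finrank_quotient_mul p a ha, finrank_quotient_mul q b hb]
        push_cast
        linarith

end Main

end Fermat.Agent.S25.H206.Pts

end
-- ===== PACK-END S25/H206/SurjPts.lean

-- ===== PACK-BEGIN S25/H611/ACRankOne.lean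
section


/-!
# Rank-one calculus in an invertible module (helper611, S25/ALGCHARTS, leaf ST3 core, part A)

For an invertible module `M` over a commutative ring `R`:

* `invertible_dual_smul_comm` : `φ m • m' = φ m' • m` for `φ : Module.Dual R M`;
* `colon_smul_top_eq_span` : for `s : M`, the colon ideal `I' = (R s : M)` satisfies
  `I' • ⊤ = R s`;
* `exists_retract_quotient_colon` : `R ⧸ I'` is a retract of a finite power of `M ⧸ R s`.
-/

namespace Fermat.Agent.S25.H611

open scoped TensorProduct

section RankOneCalc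

variable {R : Type*} [CommRing R] {M : Type*} [AddCommGroup M] [Module R M]

/-- In `Dual M ⊗ M ≅ R` any two elements are proportional. -/
theorem contractLeft_smul_comm [Module.Invertible R M] (a b : Module.Dual R M ⊗[R] M) :
    contractLeft R M a • b = contractLeft R M b • a := by
  apply (Module.Invertible.bijective (R := R) (M := M)).injective
  rw [map_smul, map_smul, smul_eq_mul, smul_eq_mul, mul_comm]

/-- `φ m • ψ m' • z = ψ z • φ m' • m`. -/
theorem invertible_dual_smul_smul [Module.Invertible R M] (φ ψ : Module.Dual R M) (m m' z : M) :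
    φ m • ψ m' • z = ψ z • φ m' • m := by
  have h := contractLeft_smul_comm (R := R) (M := M) (φ ⊗ₜ[R] m) (ψ ⊗ₜ[R] z)
  rw [contractLeft_apply, contractLeft_apply] at h
  have h2 := congrArg (fun t => dualTensorHom R M M t m') h
  simp only [map_smul, LinearMap.smul_apply, dualTensorHom_apply] at h2
  exact h2

/-- There are finitely many `fᵢ, mᵢ` with `∑ fᵢ mᵢ = 1`. -/
theorem exists_dual_sum_eq_one [Module.Invertible R M] :
    ∃ S : Finset (Module.Dual R M × M), ∑ i ∈ S, i.1 i.2 = 1 := by
  classical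
  obtain ⟨t, ht⟩ := (Module.Invertible.bijective (R := R) (M := M)).surjective 1
  obtain ⟨S, hS⟩ := t.exists_finset
  refine ⟨S, ?_⟩
  rw [← ht, hS, map_sum]
  exact Finset.sum_congr rfl fun i _ => (contractLeft_apply i.1 i.2).symm

/-- The "2 × 2 minor" `φ m • m' - φ m' • m` is killed by `ψ w ^ 2`. -/
theorem sq_smul_minor_eq_zero [Module.Invertible R M] (φ ψ : Module.Dual R M) (m m' w : M) :
    (ψ w ^ 2) • (φ m • m' - φ m' • m) = 0 := by
  -- `d a b := φ a • b - φ b • a`; first `ψ b • d a b = 0`
  have h1 : ∀ a b : M, ψ b • (φ a • b - φ b • a) = 0 := by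
    intro a b
    have h := invertible_dual_smul_smul φ ψ a b b
    rw [smul_sub, sub_eq_zero, smul_smul, smul_smul, mul_comm]
    rw [smul_smul, smul_smul] at h
    exact h
  -- polarization in the second variable
  have h2 : ∀ a b c : M, ψ b • (φ a • c - φ c • a) + ψ c • (φ a • b - φ b • a) = 0 := by
    intro a b c
    have hb := h1 a b
    have hc := h1 a c
    have hbc := h1 a (b + c)
    rw [map_add, map_add] at hbc
    linear_combination (norm := module) hbc - hb - hc
  -- antisymmetry: also `ψ a • d a b = 0`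
  have h3 : ∀ a b : M, ψ a • (φ a • b - φ b • a) = 0 := by
    intro a b
    have h := h1 b a
    linear_combination (norm := module) -h
  have hA := h2 m w m'
  have hB := h1 m w
  have hC := h3 m w  -- not needed, kept for symmetry
  -- `ψ w • d m m' = - ψ m' • d m w`, hence `ψ w ^ 2 • d m m' = - ψ m' • (ψ w • d m w) = 0`
  have hD : ψ w • (φ m • m' - φ m' • m) = -(ψ m' • (φ m • w - φ w • m)) := by
    linear_combination (norm := module) hA
  rw [pow_two, mul_smul, hD, smul_neg, smul_comm, hB, smul_zero, neg_zero]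

/-- **Rank-one symmetry**: in an invertible module, `φ m • m' = φ m' • m`. -/
theorem invertible_dual_smul_comm [Module.Invertible R M] (φ : Module.Dual R M) (m m' : M) :
    φ m • m' = φ m' • m := by
  classical
  obtain ⟨S, hS⟩ := exists_dual_sum_eq_one (R := R) (M := M)
  rw [← sub_eq_zero]
  set d := φ m • m' - φ m' • m with hd
  -- the annihilator of `d` contains the squares of the `fᵢ mᵢ`, which span the unit ideal
  have hspan : Ideal.span ((fun i : Module.Dual R M × M => i.1 i.2) '' (S : Set _)) = ⊤ := by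
    rw [Ideal.eq_top_iff_one, ← hS]
    exact Ideal.sum_mem _ fun i hi => Ideal.subset_span ⟨i, hi, rfl⟩
  have hspan2 := Ideal.span_pow_eq_top _ hspan 2
  have hle : Ideal.span ((fun r : R => r ^ 2) ''
      ((fun i : Module.Dual R M × M => i.1 i.2) '' (S : Set _))) ≤
      (Submodule.span R {d}).annihilator := by
    rw [Ideal.span_le]
    rintro _ ⟨_, ⟨i, -, rfl⟩, rfl⟩
    rw [SetLike.mem_coe, Submodule.mem_annihilator_span_singleton]
    exact sq_smul_minor_eq_zero φ i.1 m m' i.2
  rw [hspan2] at hle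
  have h1 : (1 : R) ∈ (Submodule.span R {d}).annihilator := hle Submodule.mem_top
  rw [Submodule.mem_annihilator_span_singleton, one_smul] at h1
  exact h1

/-- The colon ideal `(R s : M) = {r | r • M ⊆ R s}`. -/
def colonIdeal (s : M) : Ideal R where
  carrier := {r | ∀ m : M, r • m ∈ Submodule.span R {s}}
  add_mem' := fun {a b} ha hb m => by
    rw [add_smul]
    exact Submodule.add_mem _ (ha m) (hb m)
  zero_mem' := fun m => by
    rw [zero_smul]
    exact Submodule.zero_mem _
  smul_mem' := fun c {a} ha m => by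
    rw [smul_eq_mul, mul_smul]
    exact Submodule.smul_mem _ c (ha m)

theorem mem_colonIdeal {s : M} {r : R} :
    r ∈ colonIdeal (R := R) s ↔ ∀ m : M, r • m ∈ Submodule.span R {s} := Iff.rfl

/-- Values of functionals at `s` lie in the colon ideal. -/
theorem dual_apply_mem_colonIdeal [Module.Invertible R M] (φ : Module.Dual R M) (s : M) :
    φ s ∈ colonIdeal (R := R) s := by
  intro m
  rw [invertible_dual_smul_comm φ s m]
  exact Submodule.smul_mem _ _ (Submodule.mem_span_singleton_self s)

/-- **Colon identity**: `(R s : M) • M = R s` in an invertible module `M`. -/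
theorem colonIdeal_smul_top [Module.Invertible R M] (s : M) :
    colonIdeal (R := R) s • (⊤ : Submodule R M) = Submodule.span R {s} := by
  classical
  apply le_antisymm
  · rw [Submodule.smul_le]
    intro r hr m _
    exact hr m
  · rw [Submodule.span_singleton_le_iff_mem]
    obtain ⟨S, hS⟩ := exists_dual_sum_eq_one (R := R) (M := M)
    have h1 : s = ∑ i ∈ S, i.1 s • i.2 := by
      calc s = (1 : R) • s := (one_smul R s).symm
        _ = (∑ i ∈ S, i.1 i.2) • s := by rw [hS]
        _ = ∑ i ∈ S, i.1 i.2 • s := Finset.sum_smul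
        _ = ∑ i ∈ S, i.1 s • i.2 :=
          Finset.sum_congr rfl fun i _ => invertible_dual_smul_comm i.1 i.2 s
    have h2 : ∑ i ∈ S, i.1 s • i.2 ∈ colonIdeal (R := R) s • (⊤ : Submodule R M) :=
      Submodule.sum_mem _ fun i _ =>
        Submodule.smul_mem_smul (dual_apply_mem_colonIdeal i.1 s) Submodule.mem_top
    rwa [← h1] at h2

end RankOneCalc

end Fermat.Agent.S25.H611

end
-- ===== PACK-END S25/H611/ACRankOne.lean

-- ===== PACK-BEGIN S25/H11/GraphIdeal.lean
section


/-!
# S25 / HILB / H3, part 1 (helper11): base change of the diagonal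

`k` a commutative ring, `B`, `Q` commutative `k`-algebras, `φ : B →ₐ[k] Q`.
If the diagonal ideal `J = ker (B ⊗ B → B)` is an invertible `B ⊗ B`-module, then the ideal
`graphIdeal φ = ker (Q ⊗ B → Q, q ⊗ b ↦ q φ(b))` of the graph of `φ` is an invertible
`Q ⊗ B`-module: it is the base change `(Q ⊗ B) ⊗_{B ⊗ B} J` along `φ ⊗ id`.
-/

set_option autoImplicit false
set_option linter.style.haveILetI false

open TensorProduct

namespace Fermat.Agent.S25.H11

universe u

variable {k : Type u} [CommRing k] {B : Type u} [CommRing B] [Algebra k B]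
  {Q : Type u} [CommRing Q] [Algebra k Q] (φ : B →ₐ[k] Q)

/-- The retraction `Q ⊗ B → Q`, `q ⊗ b ↦ q φ(b)`. -/
noncomputable def graphHom : Q ⊗[k] B →ₐ[Q] Q :=
  Algebra.TensorProduct.lift (AlgHom.id Q Q) φ (fun _ _ => Commute.all _ _)

@[simp] lemma graphHom_tmul (q : Q) (b : B) : graphHom φ (q ⊗ₜ[k] b) = q * φ b := by
  simp [graphHom]

/-- The ideal of the graph of `φ`. -/
noncomputable def graphIdeal : Ideal (Q ⊗[k] B) := RingHom.ker (graphHom φ)

lemma mem_graphIdeal {x : Q ⊗[k] B} : x ∈ graphIdeal φ ↔ graphHom φ x = 0 := Iff.rfl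

/-- `φ ⊗ id : B ⊗ B → Q ⊗ B`. -/
noncomputable def psi : B ⊗[k] B →ₐ[k] Q ⊗[k] B :=
  Algebra.TensorProduct.map φ (AlgHom.id k B)

@[simp] lemma psi_tmul (x y : B) : psi φ (x ⊗ₜ[k] y) = φ x ⊗ₜ[k] y := by
  simp [psi]

lemma graphHom_psi (e : B ⊗[k] B) :
    graphHom φ (psi φ e) = φ (Algebra.TensorProduct.lmul' k e) := by
  induction e using TensorProduct.induction_on with
  | zero => simp
  | tmul x y => simp
  | add x y hx hy => simp only [map_add, hx, hy]

/-- The diagonal ideal. -/
local notation "J" => KaehlerDifferential.ideal k B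

/-- `d b = 1 ⊗ b - b ⊗ 1` as an element of the diagonal ideal. -/
noncomputable def dElem (b : B) : KaehlerDifferential.ideal k B :=
  ⟨(1 : B) ⊗ₜ[k] b - b ⊗ₜ[k] (1 : B), KaehlerDifferential.one_smul_sub_smul_one_mem_ideal k b⟩

@[simp] lemma dElem_coe (b : B) :
    ((dElem (k := k) b : KaehlerDifferential.ideal k B) : B ⊗[k] B) =
      (1 : B) ⊗ₜ[k] b - b ⊗ₜ[k] (1 : B) := rfl

lemma dElem_add (b b' : B) : dElem (k := k) (b + b') = dElem b + dElem b' := by
  apply Subtype.ext
  simp [dElem, TensorProduct.tmul_add, TensorProduct.add_tmul]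
  abel

lemma dElem_smul (c : k) (b : B) : dElem (k := k) (c • b) = c • dElem b := by
  apply Subtype.ext
  simp [dElem, TensorProduct.tmul_smul, TensorProduct.smul_tmul', smul_sub]

/-- `ρ_{b'} e = (1 ⊗ b') e - (b' μ(e)) ⊗ 1`, an element of the diagonal ideal. -/
noncomputable def rhoElem (b' : B) (e : B ⊗[k] B) : KaehlerDifferential.ideal k B :=
  ⟨((1 : B) ⊗ₜ[k] b') * e - (b' * Algebra.TensorProduct.lmul' k e) ⊗ₜ[k] (1 : B), by
    simp [RingHom.mem_ker]⟩

lemma rhoElem_add (b' : B) (e e' : B ⊗[k] B) :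
    rhoElem (k := k) b' (e + e') = rhoElem b' e + rhoElem b' e' := by
  apply Subtype.ext
  simp [rhoElem, mul_add, TensorProduct.add_tmul]
  abel

lemma rhoElem_zero (b' : B) : rhoElem (k := k) b' 0 = 0 := by
  apply Subtype.ext
  simp [rhoElem]

lemma rhoElem_tmul (b' x y : B) :
    rhoElem (k := k) b' (x ⊗ₜ[k] y) = (x ⊗ₜ[k] (1 : B)) • dElem (b' * y) := by
  apply Subtype.ext
  simp [rhoElem, dElem, mul_sub, Algebra.TensorProduct.tmul_mul_tmul]
  ring_nf

lemma rhoElem_of_mem (b' : B) (j : KaehlerDifferential.ideal k B) :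
    rhoElem (k := k) b' (j : B ⊗[k] B) = ((1 : B) ⊗ₜ[k] b') • j := by
  apply Subtype.ext
  have hj : Algebra.TensorProduct.lmul' k (j : B ⊗[k] B) = 0 := j.2
  simp [rhoElem, hj]


section withAlgebra

variable [Algebra (B ⊗[k] B) (Q ⊗[k] B)]
  (hψ : ∀ e : B ⊗[k] B, algebraMap (B ⊗[k] B) (Q ⊗[k] B) e = psi φ e)

include hψ in
lemma smul_eq_psi_mul (e : B ⊗[k] B) (m : Q ⊗[k] B) : e • m = psi φ e * m := by
  rw [Algebra.smul_def, hψ]

/-- `Θ : (Q ⊗ B) ⊗_{B ⊗ B} J → Q ⊗ B`, `m ⊗ j ↦ j • m`. -/
noncomputable def theta :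
    (Q ⊗[k] B) ⊗[B ⊗[k] B] (KaehlerDifferential.ideal k B) →ₗ[Q ⊗[k] B] (Q ⊗[k] B) :=
  (TensorProduct.AlgebraTensorModule.rid (B ⊗[k] B) (Q ⊗[k] B) (Q ⊗[k] B)).toLinearMap ∘ₗ
    TensorProduct.AlgebraTensorModule.lTensor (Q ⊗[k] B) (Q ⊗[k] B)
      (Submodule.subtype (KaehlerDifferential.ideal k B))

lemma theta_tmul (m : Q ⊗[k] B) (j : KaehlerDifferential.ideal k B) :
    theta (k := k) (B := B) (Q := Q) (m ⊗ₜ[B ⊗[k] B] j) = (j : B ⊗[k] B) • m := by
  simp [theta]


/-- `Ξ : Q ⊗ B → (Q ⊗ B) ⊗_{B ⊗ B} J`, `q ⊗ b ↦ (q ⊗ 1) ⊗ d b`. -/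
noncomputable def xi (hψ : ∀ e : B ⊗[k] B, algebraMap (B ⊗[k] B) (Q ⊗[k] B) e = psi φ e) :
    Q ⊗[k] B →+ (Q ⊗[k] B) ⊗[B ⊗[k] B] (KaehlerDifferential.ideal k B) :=
  TensorProduct.liftAddHom
    { toFun := fun q =>
        { toFun := fun b => (q ⊗ₜ[k] (1 : B)) ⊗ₜ[B ⊗[k] B] dElem b
          map_zero' := by
            have : dElem (k := k) (0 : B) = 0 := by
              apply Subtype.ext; simp [dElem]
            rw [this, TensorProduct.tmul_zero]
          map_add' := fun b b' => by rw [dElem_add, TensorProduct.tmul_add] }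
      map_zero' := by
        ext b
        simp
      map_add' := fun q q' => by
        ext b
        simp [TensorProduct.add_tmul] }
    (by
      intro c q b
      simp only [AddMonoidHom.coe_mk, ZeroHom.coe_mk]
      rw [dElem_smul]
      have h1 : c • dElem (k := k) b = (algebraMap k (B ⊗[k] B) c) • dElem b := by
        rw [algebraMap_smul]
      rw [h1, ← TensorProduct.smul_tmul, smul_eq_psi_mul φ hψ]
      congr 1
      rw [AlgHom.commutes, Algebra.TensorProduct.algebraMap_apply, Algebra.TensorProduct.tmul_mul_tmul,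
        one_mul, ← Algebra.smul_def])

lemma xi_tmul (q : Q) (b : B) :
    xi φ hψ (q ⊗ₜ[k] b) = (q ⊗ₜ[k] (1 : B)) ⊗ₜ[B ⊗[k] B] dElem b := by
  simp [xi]


include hψ in
lemma xi_psi_mul (q : Q) (b' : B) (e : B ⊗[k] B) :
    xi φ hψ (psi φ e * (q ⊗ₜ[k] b')) = (q ⊗ₜ[k] (1 : B)) ⊗ₜ[B ⊗[k] B] rhoElem b' e := by
  induction e using TensorProduct.induction_on with
  | zero => simp [rhoElem_zero]
  | tmul x y =>
    rw [psi_tmul, Algebra.TensorProduct.tmul_mul_tmul, xi_tmul, rhoElem_tmul,
      ← TensorProduct.smul_tmul, smul_eq_psi_mul φ hψ, psi_tmul,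
      Algebra.TensorProduct.tmul_mul_tmul, one_mul, mul_comm y b']
  | add x y hx hy =>
    rw [map_add, add_mul, map_add, hx, hy, rhoElem_add, TensorProduct.tmul_add]

include hψ in
/-- `Ξ ∘ Θ = id`. -/
lemma xi_theta (x : (Q ⊗[k] B) ⊗[B ⊗[k] B] (KaehlerDifferential.ideal k B)) :
    xi φ hψ (theta x) = x := by
  induction x using TensorProduct.induction_on with
  | zero => simp
  | tmul m j =>
    rw [theta_tmul, smul_eq_psi_mul φ hψ]
    induction m using TensorProduct.induction_on with
    | zero => simp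
    | tmul q b' =>
      rw [xi_psi_mul φ hψ, rhoElem_of_mem, ← TensorProduct.smul_tmul, smul_eq_psi_mul φ hψ,
        psi_tmul, Algebra.TensorProduct.tmul_mul_tmul, map_one, one_mul, mul_one]
    | add m m' hm hm' =>
      rw [mul_add, map_add, hm, hm', TensorProduct.add_tmul]
  | add x y hx hy => rw [map_add, map_add, hx, hy]

include hψ in
lemma theta_injective : Function.Injective
    (theta (k := k) (B := B) (Q := Q)) :=
  Function.LeftInverse.injective (g := xi φ hψ) (xi_theta φ hψ)

include hψ in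
lemma theta_mem_graphIdeal (x : (Q ⊗[k] B) ⊗[B ⊗[k] B] (KaehlerDifferential.ideal k B)) :
    theta x ∈ graphIdeal φ := by
  induction x using TensorProduct.induction_on with
  | zero => simp
  | tmul m j =>
    rw [theta_tmul, smul_eq_psi_mul φ hψ, mem_graphIdeal, map_mul, graphHom_psi]
    have hj : Algebra.TensorProduct.lmul' k (j : B ⊗[k] B) = 0 := j.2
    rw [hj, map_zero, zero_mul]
  | add x y hx hy => rw [map_add]; exact (graphIdeal φ).add_mem hx hy

include hψ in
/-- `Θ ∘ Ξ = id - ι ∘ μ_φ`. -/
lemma theta_xi (m : Q ⊗[k] B) :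
    theta (xi φ hψ m) = m - (graphHom φ m) ⊗ₜ[k] (1 : B) := by
  induction m using TensorProduct.induction_on with
  | zero => simp
  | tmul q b =>
    rw [xi_tmul, theta_tmul, smul_eq_psi_mul φ hψ, dElem_coe, map_sub, psi_tmul, psi_tmul,
      map_one, sub_mul, Algebra.TensorProduct.tmul_mul_tmul, Algebra.TensorProduct.tmul_mul_tmul,
      graphHom_tmul, one_mul, mul_one, one_mul, mul_comm]
  | add m m' hm hm' =>
    rw [map_add, map_add, hm, hm', map_add, TensorProduct.add_tmul]
    abel

include hψ in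
lemma theta_xi_of_mem {m : Q ⊗[k] B} (hm : m ∈ graphIdeal φ) : theta (xi φ hψ m) = m := by
  rw [theta_xi φ hψ, (mem_graphIdeal φ).mp hm, TensorProduct.zero_tmul, sub_zero]

/-- `Θ` as an equivalence onto the graph ideal. -/
noncomputable def thetaEquiv
    (hψ : ∀ e : B ⊗[k] B, algebraMap (B ⊗[k] B) (Q ⊗[k] B) e = psi φ e) :
    (Q ⊗[k] B) ⊗[B ⊗[k] B] (KaehlerDifferential.ideal k B) ≃ₗ[Q ⊗[k] B] graphIdeal φ :=
  LinearEquiv.ofBijective
    (LinearMap.codRestrict (graphIdeal φ) theta (theta_mem_graphIdeal φ hψ))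
    ⟨fun _ _ h => theta_injective φ hψ (congrArg Subtype.val h),
     fun y => ⟨xi φ hψ y, Subtype.ext (theta_xi_of_mem φ hψ y.2)⟩⟩

end withAlgebra

/-- **Base change of the diagonal.** If the diagonal ideal of `B` is invertible, so is the
ideal of the graph of any `φ : B → Q`. -/
theorem graphIdeal_invertible
    [Module.Invertible (B ⊗[k] B) (KaehlerDifferential.ideal k B)] :
    Module.Invertible (Q ⊗[k] B) (graphIdeal φ) := by
  letI : Algebra (B ⊗[k] B) (Q ⊗[k] B) := (psi φ).toRingHom.toAlgebra
  have hψ : ∀ e : B ⊗[k] B, algebraMap (B ⊗[k] B) (Q ⊗[k] B) e = psi φ e := fun _ => rfl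
  exact Module.Invertible.congr (thetaEquiv φ hψ)

end Fermat.Agent.S25.H11

end
-- ===== PACK-END S25/H11/GraphIdeal.lean

-- ===== PACK-BEGIN S25/H671/ACCancel.lean
section


/-!
# S25 / ALGCHARTS (helper671): cancellation lemmas for invertible modules and ideals

* `ideal_le_of_smul_top_le` : for an invertible module `N`, `I₁ • N ≤ I₂ • N → I₁ ≤ I₂`;
* `ideal_le_of_mul_le_mul` : for an ideal `K` which is an invertible module,
  `I₁ * K ≤ I₂ * K → I₁ ≤ I₂`;
* `ideal_le_of_smul_le_smul` : for a submodule `M` of `N` which is an invertible module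
  (e.g. `M = K • ⊤` …), `I₁ • M ≤ I₂ • M → I₁ ≤ I₂`.
-/

set_option autoImplicit false

open TensorProduct

namespace Fermat.Agent.S25.H671

variable {R : Type*} [CommRing R]

/-- A linear form maps `I • M` into `I`. -/
theorem dual_apply_mem_of_mem_smul {N : Type*} [AddCommGroup N] [Module R N] (I : Ideal R)
    (M : Submodule R N) (φ : N →ₗ[R] R) {n : N} (hn : n ∈ I • M) : φ n ∈ I := by
  refine Submodule.smul_induction_on hn ?_ ?_
  · intro a ha m _
    rw [map_smul, smul_eq_mul]
    exact I.mul_mem_right _ ha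
  · intro x y hx hy
    rw [map_add]
    exact I.add_mem hx hy

/-- **Cancellation of an invertible module.** -/
theorem ideal_le_of_smul_top_le {N : Type*} [AddCommGroup N] [Module R N] [Module.Invertible R N]
    {I₁ I₂ : Ideal R} (h : I₁ • (⊤ : Submodule R N) ≤ I₂ • ⊤) : I₁ ≤ I₂ := by
  intro r hr
  have key : ∀ z : Module.Dual R N ⊗[R] N, contractLeft R N z * r ∈ I₂ := by
    intro z
    induction z with
    | zero => simp
    | tmul φ n =>
      rw [contractLeft_apply]
      have : φ n * r = φ (r • n) := by rw [map_smul, smul_eq_mul, mul_comm]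
      rw [this]
      exact dual_apply_mem_of_mem_smul I₂ ⊤ φ
        (h (Submodule.smul_mem_smul hr Submodule.mem_top))
    | add x y hx hy =>
      rw [map_add, add_mul]
      exact I₂.add_mem hx hy
  obtain ⟨z, hz⟩ := (Module.Invertible.bijective (R := R) (M := N)).2 1
  have := key z
  rwa [hz, one_mul] at this

theorem ideal_eq_of_smul_top_eq {N : Type*} [AddCommGroup N] [Module R N]
    [Module.Invertible R N] {I₁ I₂ : Ideal R}
    (h : I₁ • (⊤ : Submodule R N) = I₂ • ⊤) : I₁ = I₂ :=
  le_antisymm (ideal_le_of_smul_top_le h.le) (ideal_le_of_smul_top_le h.ge)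

theorem exists_mem_smul_top_of_mem_mul {I K : Ideal R} {t : R} (ht : t ∈ I * K) :
    ∃ z : K, z ∈ I • (⊤ : Submodule R K) ∧ (z : R) = t := by
  refine Submodule.mul_induction_on ht ?_ ?_
  · intro b hb c hc
    exact ⟨b • (⟨c, hc⟩ : K), Submodule.smul_mem_smul hb Submodule.mem_top, by simp⟩
  · rintro u v ⟨zu, hzu, rfl⟩ ⟨zv, hzv, rfl⟩
    exact ⟨zu + zv, Submodule.add_mem _ hzu hzv, by simp⟩

/-- **Cancellation of an invertible ideal.** -/
theorem ideal_le_of_mul_le_mul {I₁ I₂ K : Ideal R} [Module.Invertible R K]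
    (h : I₁ * K ≤ I₂ * K) : I₁ ≤ I₂ := by
  apply ideal_le_of_smul_top_le (N := K)
  intro n hn
  refine Submodule.smul_induction_on hn ?_ ?_
  · intro a ha m _
    have hm : a * (m : R) ∈ I₂ * K := h (Ideal.mul_mem_mul ha m.2)
    obtain ⟨z, hz, hzt⟩ := exists_mem_smul_top_of_mem_mul hm
    have : a • m = z := Subtype.ext (by rw [hzt]; simp)
    rw [this]
    exact hz
  · intro x y hx hy
    exact Submodule.add_mem _ hx hy

theorem ideal_eq_of_mul_eq_mul {I₁ I₂ K : Ideal R} [Module.Invertible R K]
    (h : I₁ * K = I₂ * K) : I₁ = I₂ :=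
  le_antisymm (ideal_le_of_mul_le_mul h.le) (ideal_le_of_mul_le_mul h.ge)

/-! ### Rank-one symmetry and colon ideals -/

/-- **Rank-one symmetry**: on an invertible module, `φ m • m' = φ m' • m`. -/
theorem dual_apply_smul_comm {N : Type*} [AddCommGroup N] [Module R N] [Module.Invertible R N]
    (φ : Module.Dual R N) (m m' : N) : φ m • m' = φ m' • m := by
  have h := congrArg (TensorProduct.lift ((LinearMap.lsmul R N).comp φ))
    (Module.Invertible.tmul_comm (R := R) (m₁ := m) (m₂ := m'))
  simpa using h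

/-- Every submodule `M'` of an invertible module `N` is of the form `I • N`, with
`I = (M' : N)`. -/
theorem submodule_eq_colon_smul_top {N : Type*} [AddCommGroup N] [Module R N]
    [Module.Invertible R N] (M' : Submodule R N) :
    M' = M'.colon (Set.univ : Set N) • (⊤ : Submodule R N) := by
  apply le_antisymm
  · intro t ht
    have key : ∀ z : Module.Dual R N ⊗[R] N,
        contractLeft R N z • t ∈ M'.colon (Set.univ : Set N) • (⊤ : Submodule R N) := by
      intro z
      induction z with
      | zero => simp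
      | tmul φ n =>
        rw [contractLeft_apply, dual_apply_smul_comm φ n t]
        refine Submodule.smul_mem_smul ?_ Submodule.mem_top
        rw [Submodule.mem_colon]
        intro c _
        rw [dual_apply_smul_comm φ t c]
        exact M'.smul_mem _ ht
      | add x y hx hy =>
        rw [map_add, add_smul]
        exact Submodule.add_mem _ hx hy
    obtain ⟨z, hz⟩ := (Module.Invertible.bijective (R := R) (M := N)).2 1
    have := key z
    rwa [hz, one_smul] at this
  · rw [Submodule.smul_le]
    intro r hr n _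
    exact Submodule.mem_colon.1 hr n (Set.mem_univ n)

/-- Every ideal `I₀` contained in an invertible ideal `K` is of the form `(I₀ : K) * K`. -/
theorem ideal_eq_colon_mul {I₀ K : Ideal R} [Module.Invertible R K] (h : I₀ ≤ K) :
    I₀ = I₀.colon (K : Set R) * K := by
  apply le_antisymm
  · intro t ht
    have key : ∀ z : Module.Dual R K ⊗[R] K,
        contractLeft R K z * t ∈ I₀.colon (K : Set R) * K := by
      intro z
      induction z with
      | zero => simp
      | tmul φ n =>
        rw [contractLeft_apply]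
        have h1 : φ n • (⟨t, h ht⟩ : K) = φ ⟨t, h ht⟩ • n := dual_apply_smul_comm φ n _
        have h2 : φ n * t = φ ⟨t, h ht⟩ * (n : R) := by
          have := congrArg Subtype.val h1
          simpa using this
        rw [h2]
        refine Ideal.mul_mem_mul ?_ n.2
        rw [Submodule.mem_colon]
        intro c hc
        have h3 : φ ⟨t, h ht⟩ • (⟨c, hc⟩ : K) = φ ⟨c, hc⟩ • (⟨t, h ht⟩ : K) :=
          dual_apply_smul_comm φ _ _
        have h4 : φ ⟨t, h ht⟩ * c = φ ⟨c, hc⟩ * t := by
          have := congrArg Subtype.val h3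
          simpa using this
        rw [smul_eq_mul, h4]
        exact I₀.mul_mem_left _ ht
      | add x y hx hy =>
        rw [map_add, add_mul]
        exact Ideal.add_mem _ hx hy
    obtain ⟨z, hz⟩ := (Module.Invertible.bijective (R := R) (M := K)).2 1
    have := key z
    rwa [hz, one_mul] at this
  · rw [Ideal.mul_le]
    intro r hr c hc
    exact Submodule.mem_colon.1 hr c hc

/-- **Divisor of a section vanishing on an invertible ideal.**  If `N` is an invertible module,
`K` an invertible ideal and `M' ≤ K • N`, then `M' = ((M' : K • N) * K) • N`. -/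
theorem submodule_eq_colon_mul_smul_top {N : Type*} [AddCommGroup N] [Module R N]
    [Module.Invertible R N] {K : Ideal R} [Module.Invertible R K] {M' : Submodule R N}
    (h : M' ≤ K • (⊤ : Submodule R N)) :
    M' = (M'.colon ((K • (⊤ : Submodule R N) : Submodule R N) : Set N) * K) •
      (⊤ : Submodule R N) := by
  apply le_antisymm
  · have h1 : M' = M'.colon (Set.univ : Set N) • (⊤ : Submodule R N) :=
      submodule_eq_colon_smul_top M'
    have h2 : M'.colon (Set.univ : Set N) ≤ K := by
      apply ideal_le_of_smul_top_le (N := N)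
      rw [← h1]
      exact h
    have h3 := ideal_eq_colon_mul h2
    have h4 : (M'.colon (Set.univ : Set N)).colon (K : Set R) ≤
        M'.colon ((K • (⊤ : Submodule R N) : Submodule R N) : Set N) := by
      intro r hr
      rw [Submodule.mem_colon] at hr ⊢
      intro n hn
      refine Submodule.smul_induction_on hn ?_ ?_
      · intro c hc n' _
        rw [← mul_smul]
        have := hr c hc
        rw [smul_eq_mul] at this
        exact Submodule.mem_colon.1 this n' (Set.mem_univ _)
      · intro a b ha hb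
        rw [smul_add]
        exact M'.add_mem ha hb
    calc M' = M'.colon (Set.univ : Set N) • (⊤ : Submodule R N) := h1
      _ = ((M'.colon (Set.univ : Set N)).colon (K : Set R) * K) • (⊤ : Submodule R N) := by
          rw [← h3]
      _ ≤ _ := Submodule.smul_mono_left (Ideal.mul_mono_left h4)
  · rw [Submodule.smul_le]
    intro r hr n _
    refine Submodule.mul_induction_on hr ?_ ?_
    · intro a ha c hc
      rw [mul_smul]
      exact Submodule.mem_colon.1 ha _ (Submodule.smul_mem_smul hc Submodule.mem_top)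
    · intro a b ha hb
      rw [add_smul]
      exact M'.add_mem ha hb

/-- The colon ideal in `submodule_eq_colon_mul_smul_top` is the unique ideal `I'` with
`M' = (I' * K) • N`. -/
theorem eq_colon_of_eq_mul_smul_top {N : Type*} [AddCommGroup N] [Module R N]
    [Module.Invertible R N] {K : Ideal R} [Module.Invertible R K] {M' : Submodule R N}
    {I' : Ideal R} (h : M' = (I' * K) • (⊤ : Submodule R N)) :
    I' = M'.colon ((K • (⊤ : Submodule R N) : Submodule R N) : Set N) := by
  have hle : M' ≤ K • (⊤ : Submodule R N) := by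
    rw [h]
    exact Submodule.smul_mono_left Ideal.mul_le_right
  have h1 := submodule_eq_colon_mul_smul_top hle
  rw [h] at h1
  have h2 := ideal_eq_of_smul_top_eq h1
  rw [← h] at h2
  exact ideal_eq_of_mul_eq_mul h2

end Fermat.Agent.S25.H671

end
-- ===== PACK-END S25/H671/ACCancel.lean

-- ===== PACK-BEGIN S26/H147/SoftAlg.lean
section
/-
Row S26, block SOFT (architect helper987), leaf S6 (algebra): over a separably closed field `K`,
a finite etale `K`-algebra `E` has exactly `dim_K E` `K`-points.  Mathlib only.  (helper147)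
-/


set_option autoImplicit false
set_option linter.style.haveILetI false
set_option linter.unusedSimpArgs false
universe u

namespace Fermat.Agent.S26.H147

section Pi

variable (K : Type u) [Field K] (I : Type u) [Finite I]

/-- Every `K`-algebra homomorphism `K^I → K` is an evaluation. -/
theorem exists_eval_eq_of_algHom_pi (φ : (I → K) →ₐ[K] K) :
    ∃ i : I, ∀ f : I → K, φ f = f i := by
  classical
  haveI := Fintype.ofFinite I
  have hsum : ∀ f : I → K, φ f = ∑ i, f i * φ (Pi.single i 1) := by
    intro f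
    have hf : f = ∑ i, f i • (Pi.single i (1 : K) : I → K) := by
      ext j
      simp [Finset.sum_apply, Pi.single_apply]
    conv_lhs => rw [hf]
    simp [map_sum, smul_eq_mul]
  have h1 : ∑ i, φ (Pi.single i (1 : K)) = 1 := by
    have := hsum 1
    simpa using this.symm
  have hidem : ∀ i, φ (Pi.single i (1 : K)) = 0 ∨ φ (Pi.single i (1 : K)) = 1 := by
    intro i
    have : φ (Pi.single i (1 : K)) * φ (Pi.single i (1 : K)) = φ (Pi.single i (1 : K)) := by
      rw [← map_mul]
      congr 1
      ext j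
      by_cases h : j = i
      · subst h; simp
      · simp [Pi.single_apply, h]
    rcases eq_or_ne (φ (Pi.single i (1 : K))) 0 with h0 | h0
    · exact Or.inl h0
    · right
      exact mul_left_cancel₀ h0 (by rw [this, mul_one])
  have horth : ∀ i j, i ≠ j → φ (Pi.single i (1 : K)) * φ (Pi.single j (1 : K)) = 0 := by
    intro i j hij
    rw [← map_mul]
    have : (Pi.single i (1 : K) : I → K) * Pi.single j (1 : K) = 0 := by
      ext l
      by_cases h : l = i
      · subst h; simp [Pi.single_apply, hij]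
      · simp [Pi.single_apply, h]
    rw [this, map_zero]
  obtain ⟨i, hi⟩ : ∃ i, φ (Pi.single i (1 : K)) = 1 := by
    by_contra hne
    push Not at hne
    have : ∀ i, φ (Pi.single i (1 : K)) = 0 := fun i => (hidem i).resolve_right (hne i)
    simp [this] at h1
  refine ⟨i, fun f => ?_⟩
  rw [hsum f]
  have hz : ∀ j, j ≠ i → φ (Pi.single j (1 : K)) = 0 := by
    intro j hj
    have := horth j i hj
    rwa [hi, mul_one] at this
  rw [Finset.sum_eq_single i]
  · rw [hi, mul_one]
  · intro j _ hj
    rw [hz j hj, mul_zero]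
  · intro h
    exact absurd (Finset.mem_univ i) h

/-- The `K`-points of `K^I` are the evaluations. -/
noncomputable def algHomPiEquiv : ((I → K) →ₐ[K] K) ≃ I :=
  Equiv.symm <| Equiv.ofBijective (fun i => Pi.evalAlgHom K (fun _ : I => K) i) <| by
    classical
    constructor
    · intro i j hij
      by_contra hne
      have := congrArg (fun ψ : (I → K) →ₐ[K] K => ψ (Pi.single i 1)) hij
      simp [Pi.single_apply, hne] at this
    · intro φ
      obtain ⟨i, hi⟩ := exists_eval_eq_of_algHom_pi K I φ
      exact ⟨i, AlgHom.ext fun f => (hi f).symm⟩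

theorem natCard_algHom_pi : Nat.card ((I → K) →ₐ[K] K) = Nat.card I :=
  Nat.card_congr (algHomPiEquiv K I)

end Pi

section Etale

theorem finite_primeSpectrum_of_etale (K : Type u) [Field K] (E : Type u) [CommRing E]
    [Algebra K E] [Algebra.Etale K E] : Finite (PrimeSpectrum E) := by
  haveI := Algebra.FormallyUnramified.finite_of_free K E
  haveI : IsArtinianRing E := isArtinian_of_tower K inferInstance
  infer_instance

variable (K : Type u) [Field K] [IsSepClosed K] (E : Type u) [CommRing E] [Algebra K E]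
  [Algebra.Etale K E]

/-- **SOFT S6 (algebra).** A finite etale algebra over a separably closed field has exactly
`dim_K E` points with values in `K`. -/
theorem natCard_algHom_eq_finrank_of_etale :
    Nat.card (E →ₐ[K] K) = Module.finrank K E := by
  classical
  haveI := finite_primeSpectrum_of_etale K E
  haveI := Fintype.ofFinite (PrimeSpectrum E)
  let e : E ≃ₐ[K] (PrimeSpectrum E → K) := Algebra.FormallyEtale.equivPiOfIsSepClosed K E
  have h1 : Nat.card (E →ₐ[K] K) = Nat.card ((PrimeSpectrum E → K) →ₐ[K] K) :=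
    Nat.card_congr (e.arrowCongr AlgEquiv.refl)
  rw [h1, natCard_algHom_pi, e.toLinearEquiv.finrank_eq, Module.finrank_fintype_fun_eq_card,
    Nat.card_eq_fintype_card]

end Etale

end Fermat.Agent.S26.H147

end
-- ===== PACK-END S26/H147/SoftAlg.lean

-- ===== PACK-BEGIN S26/Beta/H867/BetaAlg.lean
section
/-
Row S26, block BETA (helper867): pure algebra (Mathlib only).

Main result `finrank_coordSub_eq`: let `F / K` be a field extension and `w, w' : Fin (g+1) → F`
two systems of "homogeneous coordinates" such that every valuation ring of `F` containing `K`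
contains all `w' j / w b` for some `b` (and symmetrically), with algebraically independent
affine coordinates.  Then `[F : K(w_i / w_0)] = [F : K(w'_i / w'_0)]`.

Proof: (1) valuative criterion of integrality in `F(z)`: `w' j z` is integral over the Rees
algebra `K[w z]`, so `N = span w` is a *reduction* of `M = span w + span w'`
(`M ^ (d+1) ≤ N * M ^ d`);  (2) Hilbert-function sandwich
`r * h (s) ≤ ρ' * h (s + n)` with `h` the Hilbert function of the polynomial ring, which has
polynomial growth, hence `r ≤ ρ'`.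
-/


set_option autoImplicit false

open Polynomial

namespace Fermat.Agent.S26.Beta.H867

section Growth

/-- Exponential growth is incompatible with a polynomial bound. -/
theorem le_of_growth (g : ℕ) (h : ℕ → ℕ) (h1 : ∀ m, 1 ≤ h m) (h2 : ∀ m, h m ≤ (m + 1) ^ g)
    (r ρ δ : ℕ) (H : ∀ s, r * h s ≤ ρ * h (s + δ)) : r ≤ ρ := by
  by_contra hlt
  rw [not_le] at hlt
  have hρ : 0 < ρ := by
    rcases Nat.eq_zero_or_pos ρ with h0 | h0
    · subst h0
      have := H 0
      have := h1 0
      nlinarith
    · exact h0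
  have H' : ∀ s, (ρ + 1) * h s ≤ ρ * h (s + δ) := fun s =>
    (Nat.mul_le_mul_right _ hlt).trans (H s)
  have key : ∀ k : ℕ, (ρ + 1) ^ k ≤ ρ ^ k * h (k * δ) := by
    intro k
    induction k with
    | zero => simpa using h1 0
    | succ k ih =>
      calc (ρ + 1) ^ (k + 1) = (ρ + 1) ^ k * (ρ + 1) := pow_succ _ _
        _ ≤ ρ ^ k * h (k * δ) * (ρ + 1) := Nat.mul_le_mul_right _ ih
        _ = ρ ^ k * ((ρ + 1) * h (k * δ)) := by ring
        _ ≤ ρ ^ k * (ρ * h (k * δ + δ)) := Nat.mul_le_mul_left _ (H' _)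
        _ = ρ ^ (k + 1) * h ((k + 1) * δ) := by rw [pow_succ, Nat.succ_mul]; ring
  -- real analysis
  set a : ℝ := ((ρ : ℝ) + 1) / ρ with ha
  have hρ' : (0 : ℝ) < ρ := by exact_mod_cast hρ
  have ha1 : 1 < a := by
    rw [ha, lt_div_iff₀ hρ']
    linarith
  have hbound : ∀ k : ℕ, 1 ≤ k → a ^ k ≤ ((δ : ℝ) + 1) ^ g * (k : ℝ) ^ g := by
    intro k hk
    have e1 : a ^ k = ((ρ : ℝ) + 1) ^ k / (ρ : ℝ) ^ k := by rw [ha, div_pow]
    rw [e1, div_le_iff₀ (pow_pos hρ' k)]
    have e2 : (((ρ + 1) ^ k : ℕ) : ℝ) ≤ ((ρ ^ k * h (k * δ) : ℕ) : ℝ) := by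
      exact_mod_cast key k
    push_cast at e2
    have e3 : ((h (k * δ) : ℕ) : ℝ) ≤ ((δ : ℝ) + 1) ^ g * (k : ℝ) ^ g := by
      have := h2 (k * δ)
      have e4 : ((h (k * δ) : ℕ) : ℝ) ≤ (((k * δ + 1) ^ g : ℕ) : ℝ) := by exact_mod_cast this
      refine e4.trans ?_
      push_cast
      rw [← mul_pow]
      apply pow_le_pow_left₀ (by positivity)
      have hk' : (1 : ℝ) ≤ k := by exact_mod_cast hk
      nlinarith [Nat.cast_nonneg (α := ℝ) δ]
    calc ((ρ : ℝ) + 1) ^ k ≤ (ρ : ℝ) ^ k * (h (k * δ) : ℝ) := e2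
      _ ≤ (ρ : ℝ) ^ k * (((δ : ℝ) + 1) ^ g * (k : ℝ) ^ g) := by gcongr
      _ = ((δ : ℝ) + 1) ^ g * (k : ℝ) ^ g * (ρ : ℝ) ^ k := by ring
  have htend := tendsto_pow_const_div_const_pow_of_one_lt g ha1
  have hpos : (0 : ℝ) < 1 / ((δ : ℝ) + 1) ^ g := by positivity
  have hev := (htend.eventually (gt_mem_nhds hpos)).and (Filter.eventually_ge_atTop 1)
  obtain ⟨k, hk, hk1⟩ := hev.exists
  have hak : (0 : ℝ) < a ^ k := pow_pos (lt_trans zero_lt_one ha1) k
  have hb := hbound k hk1
  rw [div_lt_div_iff₀ hak (by positivity), one_mul] at hk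
  linarith [mul_comm ((k : ℝ) ^ g) (((δ : ℝ) + 1) ^ g)]

end Growth

section T1sec

variable (K : Type*) {A B : Type*} [Field K] [CommRing A] [Algebra K A] [CommRing B] [Algebra K B]
  {g : ℕ}

/-- The `K`-span of `1, t_1, …, t_g`. -/
def T1 (t : Fin g → A) : Submodule K A := Submodule.span K (insert 1 (Set.range t))

variable {K}

theorem one_mem_T1 (t : Fin g → A) : (1 : A) ∈ T1 K t :=
  Submodule.subset_span (Set.mem_insert _ _)

theorem mem_T1 (t : Fin g → A) (i : Fin g) : t i ∈ T1 K t :=
  Submodule.subset_span (Set.mem_insert_of_mem _ ⟨i, rfl⟩)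

theorem one_le_T1 (t : Fin g → A) : (1 : Submodule K A) ≤ T1 K t :=
  Submodule.one_le.mpr (one_mem_T1 t)

theorem T1_pow_mono (t : Fin g → A) {m n : ℕ} (h : m ≤ n) : T1 K t ^ m ≤ T1 K t ^ n :=
  pow_le_pow_right' (one_le_T1 t) h

theorem T1_fg (t : Fin g → A) : (T1 K t).FG :=
  Submodule.fg_span ((Set.finite_range t).insert 1)

instance finite_T1_pow (t : Fin g → A) (m : ℕ) : Module.Finite K ↥(T1 K t ^ m) :=
  Module.Finite.iff_fg.mpr ((T1_fg t).pow m)

theorem one_mem_T1_pow (t : Fin g → A) (m : ℕ) : (1 : A) ∈ T1 K t ^ m := by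
  have := Submodule.pow_mem_pow (T1 K t) (one_mem_T1 t) m
  rwa [one_pow] at this

theorem T1_pow_le_span (t : Fin g → A) (m : ℕ) :
    T1 K t ^ m ≤ Submodule.span K
      (Set.range fun α : Fin g → Fin (m + 1) => ∏ i, t i ^ (α i : ℕ)) := by
  induction m with
  | zero =>
    rw [pow_zero, Submodule.one_eq_span]
    apply Submodule.span_mono
    rintro _ rfl
    exact ⟨fun _ => 0, by simp⟩
  | succ m ih =>
    rw [pow_succ]
    refine (mul_le_mul' ih le_rfl).trans ?_
    rw [T1, Submodule.span_mul_span]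
    apply Submodule.span_mono
    rintro _ ⟨_, ⟨α, rfl⟩, y, hy, rfl⟩
    rcases hy with rfl | ⟨j, rfl⟩
    · refine ⟨fun i => (α i).castSucc, ?_⟩
      simp
    · refine ⟨fun i => if i = j then (α i).succ else (α i).castSucc, ?_⟩
      have : ∀ i, t i ^ ((if i = j then (α i).succ else (α i).castSucc : Fin (m + 1 + 1)) : ℕ) =
          t i ^ (α i : ℕ) * (if i = j then t i else 1) := by
        intro i
        split_ifs with h
        · simp [pow_succ]
        · simp
      simp only [this, Finset.prod_mul_distrib, Finset.prod_ite_eq', Finset.mem_univ, if_true]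

theorem finrank_T1_pow_le (t : Fin g → A) (m : ℕ) :
    Module.finrank K ↥(T1 K t ^ m) ≤ (m + 1) ^ g := by
  have h1 := T1_pow_le_span (K := K) t m
  have h2 := finrank_range_le_card (R := K)
    (fun α : Fin g → Fin (m + 1) => ∏ i, t i ^ (α i : ℕ))
  simp only [Fintype.card_pi, Fintype.card_fin, Finset.prod_const, Finset.card_univ] at h2
  have : Module.Finite K ↥(Submodule.span K
      (Set.range fun α : Fin g → Fin (m + 1) => ∏ i, t i ^ (α i : ℕ))) :=
    Module.Finite.iff_fg.mpr (Submodule.fg_span (Set.finite_range _))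
  exact (Submodule.finrank_mono h1).trans h2

theorem one_le_finrank_T1_pow [Nontrivial A] (t : Fin g → A) (m : ℕ) :
    1 ≤ Module.finrank K ↥(T1 K t ^ m) := by
  rw [Nat.one_le_iff_ne_zero, Ne, Submodule.finrank_eq_zero]
  intro h
  have := one_mem_T1_pow (K := K) t m
  rw [h, Submodule.mem_bot] at this
  exact one_ne_zero this

theorem map_T1 (a : A →ₐ[K] B) (t : Fin g → A) :
    (T1 K t).map a.toLinearMap = T1 K (fun i => a (t i)) := by
  rw [T1, T1, Submodule.map_span, Set.image_insert_eq]
  congr 2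
  · simp
  · ext x
    simp [Set.mem_image]

theorem map_T1_pow (a : A →ₐ[K] B) (t : Fin g → A) (m : ℕ) :
    (T1 K t ^ m).map a.toLinearMap = T1 K (fun i => a (t i)) ^ m := by
  rw [Submodule.map_pow, map_T1]

theorem finrank_T1_pow_map (a : A →ₐ[K] B) (ha : Function.Injective a) (t : Fin g → A)
    (m : ℕ) :
    Module.finrank K ↥(T1 K (fun i => a (t i)) ^ m) = Module.finrank K ↥(T1 K t ^ m) := by
  rw [← map_T1_pow]
  exact (LinearEquiv.finrank_eq
    (Submodule.equivMapOfInjective a.toLinearMap ha (T1 K t ^ m))).symm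

variable (K) in
/-- The Hilbert function of the polynomial ring in `g` variables (by degree `≤ m`). -/
noncomputable def hfun (g m : ℕ) : ℕ :=
  Module.finrank K ↥(T1 K (MvPolynomial.X : Fin g → MvPolynomial (Fin g) K) ^ m)

theorem finrank_T1_pow_of_indep (t : Fin g → A)
    (hi : ∀ p : MvPolynomial (Fin g) K, MvPolynomial.eval₂ (algebraMap K A) t p = 0 → p = 0)
    (m : ℕ) : Module.finrank K ↥(T1 K t ^ m) = hfun K g m := by
  have hinj : Function.Injective (MvPolynomial.aeval t : MvPolynomial (Fin g) K →ₐ[K] A) := by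
    rw [injective_iff_map_eq_zero]
    intro p hp
    exact hi p (by rwa [MvPolynomial.aeval_def] at hp)
  have := finrank_T1_pow_map (MvPolynomial.aeval t : MvPolynomial (Fin g) K →ₐ[K] A) hinj
    MvPolynomial.X m
  have e : (fun i => (MvPolynomial.aeval t : MvPolynomial (Fin g) K →ₐ[K] A)
      (MvPolynomial.X i)) = t := funext fun i => MvPolynomial.aeval_X t i
  rw [e] at this
  exact this

theorem one_le_hfun (g m : ℕ) : 1 ≤ hfun K g m := one_le_finrank_T1_pow _ m

theorem hfun_le (g m : ℕ) : hfun K g m ≤ (m + 1) ^ g := finrank_T1_pow_le _ m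

theorem hfun_mono (g : ℕ) {m n : ℕ} (h : m ≤ n) : hfun K g m ≤ hfun K g n :=
  Submodule.finrank_mono (T1_pow_mono _ h)

end T1sec

section Field

variable {K F : Type*} [Field K] [Field F] [Algebra K F]

/-- The Rees algebra of a `K`-subspace `N` of `F`, inside `F[X]`. -/
def rees (N : Submodule K F) : Subalgebra K F[X] where
  carrier := {p | ∀ i, p.coeff i ∈ N ^ i}
  mul_mem' := by
    intro p q hp hq n
    rw [Polynomial.coeff_mul]
    refine Submodule.sum_mem _ fun x hx => ?_
    have h := Finset.HasAntidiagonal.mem_antidiagonal.mp hx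
    rw [← h, pow_add]
    exact Submodule.mul_mem_mul (hp _) (hq _)
  add_mem' := by
    intro p q hp hq n
    rw [Polynomial.coeff_add]
    exact Submodule.add_mem _ (hp n) (hq n)
  algebraMap_mem' := by
    intro c n
    rw [Polynomial.algebraMap_apply, Polynomial.coeff_C]
    split_ifs with h
    · subst h
      rw [pow_zero]
      exact Submodule.algebraMap_mem c
    · exact Submodule.zero_mem _

theorem mem_rees {N : Submodule K F} {p : F[X]} : p ∈ rees N ↔ ∀ i, p.coeff i ∈ N ^ i := Iff.rfl

theorem C_mul_X_mem_rees {N : Submodule K F} {a : F} (ha : a ∈ N) : C a * X ∈ rees N := by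
  intro i
  rw [Polynomial.coeff_C_mul, Polynomial.coeff_X]
  split_ifs with h
  · subst h
    simpa using ha
  · simp

/-- VAL hypothesis: every valuation ring of `F` containing `K` contains all `w' j / w b` for
some `b` with `w b ≠ 0`. -/
def ValBPF (K : Type*) {F : Type*} [Field K] [Field F] [Algebra K F] {ι ι' : Type*}
    (w : ι → F) (w' : ι' → F) : Prop :=
  ∀ V : ValuationSubring F, (∀ c : K, algebraMap K F c ∈ V) →
    ∃ b, w b ≠ 0 ∧ ∀ j, w' j / w b ∈ V

theorem isIntegral_rees {ι ι' : Type*} (w : ι → F) (w' : ι' → F) (h : ValBPF K w w') (j : ι') :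
    algebraMap F[X] (RatFunc F) (C (w' j) * X) ∈
      (integralClosure ((rees (Submodule.span K (Set.range w))).toSubring.map
        (algebraMap F[X] (RatFunc F))) (RatFunc F)).toSubring := by
  set N := Submodule.span K (Set.range w) with hN
  set S : Subring (RatFunc F) := (rees N).toSubring.map (algebraMap F[X] (RatFunc F)) with hS
  have key := iInf_valuationSubring_superset (K := RatFunc F) (s := (S : Set (RatFunc F)))
  rw [Subring.closure_eq] at key
  rw [← key, Subring.mem_iInf]
  rintro ⟨V, hV⟩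
  have hV' : ∀ p ∈ rees N, algebraMap F[X] (RatFunc F) p ∈ V := fun p hp =>
    hV ⟨p, hp, rfl⟩
  have e : ∀ a : F, algebraMap F[X] (RatFunc F) (C a) = algebraMap F (RatFunc F) a := fun a => by
    rw [IsScalarTower.algebraMap_apply F F[X] (RatFunc F), Polynomial.algebraMap_apply,
      Algebra.algebraMap_self_apply]
  let VF : ValuationSubring F := V.comap (algebraMap F (RatFunc F))
  have hK : ∀ c : K, algebraMap K F c ∈ VF := by
    intro c
    change algebraMap F (RatFunc F) (algebraMap K F c) ∈ V
    have := hV' (algebraMap K F[X] c) ((rees N).algebraMap_mem c)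
    rwa [Polynomial.algebraMap_apply, e] at this
  obtain ⟨b, hb, hj⟩ := h VF hK
  have h1 : algebraMap F (RatFunc F) (w' j / w b) ∈ V := hj j
  have h2 : algebraMap F[X] (RatFunc F) (C (w b) * X) ∈ V :=
    hV' _ (C_mul_X_mem_rees (Submodule.subset_span ⟨b, rfl⟩))
  have h3 : algebraMap F[X] (RatFunc F) (C (w' j) * X) =
      algebraMap F (RatFunc F) (w' j / w b) * algebraMap F[X] (RatFunc F) (C (w b) * X) := by
    rw [← e, ← map_mul, ← mul_assoc, ← C_mul, div_mul_cancel₀ _ hb]
  change algebraMap F[X] (RatFunc F) (C (w' j) * X) ∈ V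
  rw [h3]
  exact V.mul_mem _ _ h1 h2

theorem exists_hom_relation {ι ι' : Type*} (w : ι → F) (w' : ι' → F) (h : ValBPF K w w')
    (j : ι') :
    ∃ (n : ℕ) (c : ℕ → F), (∀ k < n, c k ∈ (Submodule.span K (Set.range w)) ^ (n - k)) ∧
      (w' j) ^ n = ∑ k ∈ Finset.range n, c k * (w' j) ^ k := by
  set N := Submodule.span K (Set.range w) with hN
  have hint := isIntegral_rees w w' h j
  rw [← hN] at hint
  set S : Subring (RatFunc F) := (rees N).toSubring.map (algebraMap F[X] (RatFunc F)) with hS
  set φ := algebraMap F[X] (RatFunc F) with hφ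
  have hφinj : Function.Injective φ := IsFractionRing.injective F[X] (RatFunc F)
  obtain ⟨Q, hQm, hQ⟩ : IsIntegral S (φ (C (w' j) * X)) := hint
  have hmem : ∀ k, ∃ p ∈ rees N, φ p = (Q.coeff k : RatFunc F) := by
    intro k
    obtain ⟨p, hp, hpe⟩ := (Q.coeff k).2
    exact ⟨p, hp, hpe⟩
  choose p hp hpe using hmem
  set n := Q.natDegree with hn
  have hpn : p n = 1 := by
    apply hφinj
    rw [hpe, hn, hQm.coeff_natDegree, map_one]
    rfl
  rw [Polynomial.eval₂_eq_sum_range] at hQ
  have h1 : φ (∑ k ∈ Finset.range (n + 1), p k * (C (w' j) * X) ^ k) = 0 := by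
    rw [map_sum, ← hQ]
    refine Finset.sum_congr rfl fun k _ => ?_
    rw [map_mul, map_pow, hpe]
    rfl
  have h2 : ∑ k ∈ Finset.range (n + 1), p k * (C (w' j) * X) ^ k = 0 :=
    hφinj (h1.trans (map_zero φ).symm)
  have h3 := congrArg (fun q => Polynomial.coeff q n) h2
  simp only [Polynomial.finsetSum_coeff, Polynomial.coeff_zero] at h3
  have h4 : ∀ k ∈ Finset.range (n + 1),
      (p k * (C (w' j) * X) ^ k).coeff n = (p k).coeff (n - k) * (w' j) ^ k := by
    intro k hk
    have hk' : k ≤ n := Nat.lt_succ_iff.mp (Finset.mem_range.mp hk)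
    rw [mul_pow, ← C_pow, ← mul_assoc, Polynomial.coeff_mul_X_pow', if_pos hk',
      Polynomial.coeff_mul_C]
  rw [Finset.sum_congr rfl h4, Finset.sum_range_succ, hpn] at h3
  simp only [Nat.sub_self, Polynomial.coeff_one_zero, one_mul] at h3
  refine ⟨n, fun k => -(p k).coeff (n - k), fun k _ => ?_, ?_⟩
  · exact Submodule.neg_mem _ (hp k (n - k))
  · rw [eq_neg_of_add_eq_zero_right h3]
    simp only [neg_mul, Finset.sum_neg_distrib]

/-! ## Reductions -/

/-- `N` is a reduction of `M` with reduction number at most `d`. -/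
def IsRed (N M : Submodule K F) (d : ℕ) : Prop := N ≤ M ∧ M ^ (d + 1) ≤ N * M ^ d

theorem IsRed.pow_le {N M : Submodule K F} {d : ℕ} (h : IsRed N M d) (s : ℕ) :
    M ^ (s + d) ≤ N ^ s * M ^ d := by
  induction s with
  | zero => simp
  | succ s ih =>
    calc M ^ (s + 1 + d) = M ^ (s + d) * M := by rw [← pow_succ]; congr 1; omega
      _ ≤ N ^ s * M ^ d * M := by gcongr
      _ = N ^ s * M ^ (d + 1) := by rw [mul_assoc, ← pow_succ]
      _ ≤ N ^ s * (N * M ^ d) := by gcongr; exact h.2
      _ = N ^ (s + 1) * M ^ d := by rw [← mul_assoc, ← pow_succ]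

theorem IsRed.trans {N M₁ M₂ : Submodule K F} {d₁ d₂ : ℕ} (h₁ : IsRed N M₁ d₁)
    (h₂ : IsRed M₁ M₂ d₂) : IsRed N M₂ (d₁ + d₂) := by
  refine ⟨h₁.1.trans h₂.1, ?_⟩
  calc M₂ ^ (d₁ + d₂ + 1) = M₂ ^ (d₁ + 1 + d₂) := by congr 1; omega
    _ ≤ M₁ ^ (d₁ + 1) * M₂ ^ d₂ := h₂.pow_le (d₁ + 1)
    _ ≤ N * M₁ ^ d₁ * M₂ ^ d₂ := by gcongr; exact h₁.2
    _ ≤ N * M₂ ^ d₁ * M₂ ^ d₂ := by gcongr; exact h₂.1
    _ = N * M₂ ^ (d₁ + d₂) := by rw [mul_assoc, ← pow_add]

theorem pow_succ_le_sup_span (N₁ : Submodule K F) (x : F) (m : ℕ) :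
    (N₁ ⊔ Submodule.span K {x}) ^ (m + 1) ≤
      N₁ * (N₁ ⊔ Submodule.span K {x}) ^ m ⊔ Submodule.span K {x ^ (m + 1)} := by
  set M₁ := N₁ ⊔ Submodule.span K {x} with hM₁
  have hN : N₁ ≤ M₁ := le_sup_left
  have hx : Submodule.span K {x} ≤ M₁ := le_sup_right
  have hxp : ∀ k : ℕ, Submodule.span K {x ^ k} ≤ M₁ ^ k := by
    intro k
    rw [Submodule.span_le, Set.singleton_subset_iff]
    exact Submodule.pow_mem_pow M₁ (hx (Submodule.mem_span_singleton_self x)) k
  induction m with
  | zero =>
    simp only [zero_add, pow_one, pow_zero, mul_one]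
    exact le_rfl
  | succ m ih =>
    calc M₁ ^ (m + 1 + 1) = M₁ ^ (m + 1) * M₁ := pow_succ _ _
      _ ≤ (N₁ * M₁ ^ m ⊔ Submodule.span K {x ^ (m + 1)}) * (N₁ ⊔ Submodule.span K {x}) := by
          gcongr
      _ = N₁ * M₁ ^ m * N₁ ⊔ N₁ * M₁ ^ m * Submodule.span K {x} ⊔
            (Submodule.span K {x ^ (m + 1)} * N₁ ⊔
              Submodule.span K {x ^ (m + 1)} * Submodule.span K {x}) := by
          rw [Submodule.sup_mul, Submodule.mul_sup, Submodule.mul_sup]
      _ ≤ N₁ * M₁ ^ (m + 1) ⊔ Submodule.span K {x ^ (m + 1 + 1)} := by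
          refine sup_le (sup_le ?_ ?_) (sup_le ?_ ?_)
          · refine le_sup_of_le_left ?_
            rw [mul_assoc, pow_succ]
            gcongr
          · refine le_sup_of_le_left ?_
            rw [mul_assoc, pow_succ]
            gcongr
          · refine le_sup_of_le_left ?_
            rw [mul_comm]
            gcongr
            exact hxp (m + 1)
          · refine le_sup_of_le_right ?_
            rw [Submodule.span_mul_span, Set.singleton_mul_singleton, ← pow_succ]

theorem isRed_sup_span_singleton (N₁ : Submodule K F) (x : F) (n : ℕ) (c : ℕ → F)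
    (hc : ∀ k < n, c k ∈ N₁ ^ (n - k)) (hx : x ^ n = ∑ k ∈ Finset.range n, c k * x ^ k) :
    IsRed N₁ (N₁ ⊔ Submodule.span K {x}) (n - 1) := by
  set M₁ := N₁ ⊔ Submodule.span K {x} with hM₁
  have hN : N₁ ≤ M₁ := le_sup_left
  have hxM : x ∈ M₁ := (le_sup_right : Submodule.span K {x} ≤ M₁)
    (Submodule.mem_span_singleton_self x)
  have hn : 1 ≤ n := by
    rcases Nat.eq_zero_or_pos n with h0 | h0
    · subst h0
      simp at hx
    · exact h0
  refine ⟨hN, ?_⟩
  have h1 : n - 1 + 1 = n := Nat.sub_add_cancel hn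
  have h2 := pow_succ_le_sup_span N₁ x (n - 1)
  rw [h1] at h2 ⊢
  refine h2.trans (sup_le le_rfl ?_)
  rw [Submodule.span_le, Set.singleton_subset_iff, hx]
  refine Submodule.sum_mem _ fun k hk => ?_
  have hk' : k < n := Finset.mem_range.mp hk
  have h3 : c k ∈ N₁ * M₁ ^ (n - k - 1) := by
    have : N₁ ^ (n - k) ≤ N₁ * M₁ ^ (n - k - 1) := by
      have e : n - k = (n - k - 1) + 1 := by omega
      rw [e, pow_succ', Nat.add_sub_cancel]
      gcongr
    exact this (hc k hk')
  have h4 : x ^ k ∈ M₁ ^ k := Submodule.pow_mem_pow M₁ hxM k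
  have h5 : c k * x ^ k ∈ N₁ * M₁ ^ (n - k - 1) * M₁ ^ k := Submodule.mul_mem_mul h3 h4
  rwa [mul_assoc, ← pow_add, show n - k - 1 + k = n - 1 by omega] at h5

theorem exists_isRed {ι ι' : Type*} [Finite ι'] (w : ι → F) (w' : ι' → F)
    (h : ValBPF K w w') :
    ∃ d, IsRed (Submodule.span K (Set.range w))
      (Submodule.span K (Set.range w) ⊔ Submodule.span K (Set.range w')) d := by
  classical
  set N := Submodule.span K (Set.range w) with hN
  have key : ∀ J : Finset ι', ∃ d, IsRed N (N ⊔ Submodule.span K (w' '' (J : Set ι'))) d := by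
    intro J
    induction J using Finset.induction_on with
    | empty =>
      refine ⟨0, ?_⟩
      simp only [Finset.coe_empty, Set.image_empty, Submodule.span_empty, sup_bot_eq]
      exact ⟨le_rfl, by simp⟩
    | insert j J _ ih =>
      obtain ⟨d, hd⟩ := ih
      obtain ⟨n, c, hc, hx⟩ := exists_hom_relation w w' h j
      have hc' : ∀ k < n, c k ∈ (N ⊔ Submodule.span K (w' '' (J : Set ι'))) ^ (n - k) :=
        fun k hk => (pow_le_pow_left' (le_sup_left : N ≤ _) (n - k)) (hc k hk)
      have := isRed_sup_span_singleton _ (w' j) n c hc' hx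
      refine ⟨d + (n - 1), ?_⟩
      have e : N ⊔ Submodule.span K (w' '' ((insert j J : Finset ι') : Set ι')) =
          N ⊔ Submodule.span K (w' '' (J : Set ι')) ⊔ Submodule.span K {w' j} := by
        rw [Finset.coe_insert, Set.image_insert_eq, Set.insert_eq, Submodule.span_union,
          sup_assoc, sup_comm (Submodule.span K {w' j})]
      rw [e]
      exact hd.trans this
  have := Fintype.ofFinite ι'
  obtain ⟨d, hd⟩ := key Finset.univ
  refine ⟨d, ?_⟩
  simpa using hd

/-! ## Dimension of products of subspaces -/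

theorem finrank_mul_le (M N : Submodule K F) [Module.Finite K M] [Module.Finite K N] :
    Module.finrank K ↥(M * N) ≤ Module.finrank K M * Module.finrank K N := by
  rw [← Submodule.mulMap_range, ← Module.finrank_tensorProduct (R := K) (S := K)]
  exact LinearMap.finrank_range_le _

theorem span_singleton_mul_eq_map (a : F) (V : Submodule K F) :
    Submodule.span K {a} * V = V.map (LinearMap.mulLeft K a) := by
  apply le_antisymm
  · rw [Submodule.mul_le]
    intro x hx v hv
    obtain ⟨c, rfl⟩ := Submodule.mem_span_singleton.mp hx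
    refine ⟨c • v, V.smul_mem c hv, ?_⟩
    simp [LinearMap.mulLeft_apply]
  · rintro _ ⟨v, hv, rfl⟩
    exact Submodule.mul_mem_mul (Submodule.mem_span_singleton_self a) hv

theorem finrank_span_singleton_mul {a : F} (ha : a ≠ 0) (V : Submodule K F) :
    Module.finrank K ↥(Submodule.span K {a} * V) = Module.finrank K V := by
  rw [span_singleton_mul_eq_map]
  have hinj : Function.Injective (LinearMap.mulLeft K a) := by
    intro x y hxy
    exact mul_left_cancel₀ ha hxy
  exact (LinearEquiv.finrank_eq (Submodule.equivMapOfInjective _ hinj V)).symm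

theorem fg_of_finite (V : Submodule K F) [Module.Finite K V] : V.FG :=
  Module.Finite.iff_fg.mp inferInstance

theorem finite_mul (M N : Submodule K F) [Module.Finite K M] [Module.Finite K N] :
    Module.Finite K ↥(M * N) :=
  Module.Finite.iff_fg.mpr ((fg_of_finite M).mul (fg_of_finite N))

theorem finite_pow (M : Submodule K F) [Module.Finite K M] (n : ℕ) :
    Module.Finite K ↥(M ^ n) :=
  Module.Finite.iff_fg.mpr ((fg_of_finite M).pow n)
section Coord

variable {g : ℕ}

variable (K) in
/-- The subfield `K(t_1, …, t_g)` of `F`. -/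
def coordSub (t : Fin g → F) : Subfield F :=
  Subfield.closure (Set.range (algebraMap K F) ∪ Set.range t)

theorem exists_mem_T1_pow_of_mem_closure (t : Fin g → F) {y : F}
    (hy : y ∈ Subring.closure (Set.range (algebraMap K F) ∪ Set.range t)) :
    ∃ n, y ∈ T1 K t ^ n := by
  induction hy using Subring.closure_induction with
  | mem x hx =>
    rcases hx with ⟨c, rfl⟩ | ⟨i, rfl⟩
    · refine ⟨0, ?_⟩
      rw [pow_zero]
      exact Submodule.algebraMap_mem c
    · exact ⟨1, by rw [pow_one]; exact mem_T1 t i⟩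
  | zero => exact ⟨0, Submodule.zero_mem _⟩
  | one => exact ⟨0, by rw [pow_zero]; exact Submodule.one_le.mp le_rfl⟩
  | add x y _ _ hx hy =>
    obtain ⟨n, hn⟩ := hx
    obtain ⟨m, hm⟩ := hy
    exact ⟨n + m, Submodule.add_mem _ (T1_pow_mono t (Nat.le_add_right n m) hn)
      (T1_pow_mono t (Nat.le_add_left m n) hm)⟩
  | neg x _ hx =>
    obtain ⟨n, hn⟩ := hx
    exact ⟨n, Submodule.neg_mem _ hn⟩
  | mul x y _ _ hx hy =>
    obtain ⟨n, hn⟩ := hx
    obtain ⟨m, hm⟩ := hy
    exact ⟨n + m, by rw [pow_add]; exact Submodule.mul_mem_mul hn hm⟩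

theorem mem_coordSub_of_mem_T1_pow (t : Fin g → F) {m : ℕ} {x : F} (hx : x ∈ T1 K t ^ m) :
    x ∈ coordSub K t := by
  have hK : ∀ c : K, algebraMap K F c ∈ coordSub K t := fun c =>
    Subfield.subset_closure (Or.inl ⟨c, rfl⟩)
  have ht : ∀ i, t i ∈ coordSub K t := fun i => Subfield.subset_closure (Or.inr ⟨i, rfl⟩)
  have h1 : ∀ y ∈ T1 K t, y ∈ coordSub K t := by
    intro y hy
    induction hy using Submodule.span_induction with
    | mem y hy =>
      rcases hy with rfl | ⟨i, rfl⟩
      · exact one_mem _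
      · exact ht i
    | zero => exact zero_mem _
    | add y z _ _ hy hz => exact add_mem hy hz
    | smul c y _ hy =>
      rw [Algebra.smul_def]
      exact mul_mem (hK c) hy
  exact Submodule.pow_induction_on_left (T1 K t) (C := fun y => y ∈ coordSub K t) hK
    (fun y z hy hz => add_mem hy hz) (fun y hy z hz => mul_mem (h1 y hy) hz) hx

theorem exists_frac_of_mem_coordSub (t : Fin g → F) {x : F} (hx : x ∈ coordSub K t) :
    ∃ (n : ℕ) (y z : F), y ∈ T1 K t ^ n ∧ z ∈ T1 K t ^ n ∧ z ≠ 0 ∧ x = y / z := by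
  obtain ⟨y, hy, z, hz, rfl⟩ := Subfield.mem_closure_iff.mp hx
  by_cases hz0 : z = 0
  · refine ⟨0, 0, 1, Submodule.zero_mem _, ?_, one_ne_zero, ?_⟩
    · rw [pow_zero]; exact Submodule.one_le.mp le_rfl
    · simp [hz0]
  · obtain ⟨n, hn⟩ := exists_mem_T1_pow_of_mem_closure t hy
    obtain ⟨m, hm⟩ := exists_mem_T1_pow_of_mem_closure t hz
    exact ⟨n + m, y, z, T1_pow_mono t (Nat.le_add_right n m) hn,
      T1_pow_mono t (Nat.le_add_left m n) hm, hz0, rfl⟩

/-- Clearing denominators of finitely many elements of `K(t)`. -/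
theorem exists_common_denominator (t : Fin g → F) (C : Finset F)
    (hC : ∀ x ∈ C, x ∈ coordSub K t) :
    ∃ (D : F) (n : ℕ), D ≠ 0 ∧ D ∈ T1 K t ^ n ∧ ∀ x ∈ C, D * x ∈ T1 K t ^ n := by
  classical
  induction C using Finset.induction_on with
  | empty => exact ⟨1, 0, one_ne_zero, by rw [pow_zero]; exact Submodule.one_le.mp le_rfl, by simp⟩
  | insert x C _ ih =>
    obtain ⟨D, n, hD0, hD, hDC⟩ := ih fun y hy => hC y (Finset.mem_insert_of_mem hy)
    obtain ⟨m, y, z, hy, hz, hz0, rfl⟩ :=
      exists_frac_of_mem_coordSub t (hC x (Finset.mem_insert_self _ _))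
    refine ⟨D * z, n + m, mul_ne_zero hD0 hz0, ?_, ?_⟩
    · rw [pow_add]; exact Submodule.mul_mem_mul hD hz
    · intro u hu
      rcases Finset.mem_insert.mp hu with rfl | hu
      · have : D * z * (y / z) = D * y := by field_simp
        rw [this, pow_add]
        exact Submodule.mul_mem_mul hD hy
      · have : D * z * u = D * u * z := by ring
        rw [this, pow_add]
        exact Submodule.mul_mem_mul (hDC u hu) hz


theorem span_range_eq_mul_T1 (w : Fin (g + 1) → F) (hw0 : w 0 ≠ 0) :
    Submodule.span K (Set.range w) =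
      Submodule.span K {w 0} * T1 K (fun i : Fin g => w i.succ / w 0) := by
  rw [T1, Submodule.span_mul_span]
  congr 1
  ext x
  simp only [Set.mem_range, Set.singleton_mul, Set.mem_image, Set.mem_insert_iff]
  constructor
  · rintro ⟨i, rfl⟩
    refine Fin.cases ?_ (fun j => ?_) i
    · exact ⟨1, Or.inl rfl, mul_one _⟩
    · exact ⟨w j.succ / w 0, Or.inr ⟨j, rfl⟩, mul_div_cancel₀ _ hw0⟩
  · rintro ⟨y, hy | ⟨j, rfl⟩, rfl⟩
    · exact ⟨0, by rw [hy, mul_one]⟩
    · exact ⟨j.succ, (mul_div_cancel₀ _ hw0).symm⟩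

theorem span_singleton_pow' (a : F) (n : ℕ) :
    Submodule.span K {a} ^ n = Submodule.span K {a ^ n} := by
  rw [Submodule.span_pow, Set.singleton_pow]

/-- Lower bound: `r * dim (T ^ m) ≤ dim (T ^ m * Φ)` if `φ` is linearly independent over
`K(t)`. -/
theorem card_mul_finrank_le (t : Fin g → F) {ι : Type*} [Fintype ι] (φ : ι → F)
    (hφ : LinearIndependent (coordSub K t) φ) (m : ℕ) :
    Fintype.card ι * Module.finrank K ↥(T1 K t ^ m) ≤
      Module.finrank K ↥(T1 K t ^ m * Submodule.span K (Set.range φ)) := by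
  classical
  set T := T1 K t ^ m with hT
  set Φ := Submodule.span K (Set.range φ) with hΦ
  have hTfg : T.FG := (T1_fg t).pow m
  have hΦfg : Φ.FG := Submodule.fg_span (Set.finite_range φ)
  have : Module.Finite K ↥(T * Φ) := Module.Finite.iff_fg.mpr (hTfg.mul hΦfg)
  let Λ : (ι → ↥T) →ₗ[K] F :=
    ∑ i, (LinearMap.mulRight K (φ i)).comp (T.subtype.comp (LinearMap.proj i))
  have hΛ : ∀ v : ι → ↥T, Λ v = ∑ i, (v i : F) * φ i := by
    intro v
    simp [Λ, LinearMap.sum_apply]
  have hmem : ∀ v, Λ v ∈ T * Φ := by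
    intro v
    rw [hΛ]
    exact Submodule.sum_mem _ fun i _ =>
      Submodule.mul_mem_mul (v i).2 (Submodule.subset_span ⟨i, rfl⟩)
  let Λ' : (ι → ↥T) →ₗ[K] ↥(T * Φ) := Λ.codRestrict _ hmem
  have hinj : Function.Injective Λ' := by
    rw [injective_iff_map_eq_zero]
    intro v hv
    have hv' : Λ v = 0 := congrArg Subtype.val hv
    rw [hΛ] at hv'
    have hc : ∀ i, (v i : F) ∈ coordSub K t := fun i =>
      mem_coordSub_of_mem_T1_pow t (v i).2
    have := Fintype.linearIndependent_iff.mp hφ (fun i => ⟨(v i : F), hc i⟩) (by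
      simpa [Subfield.smul_def] using hv')
    funext i
    have hi : (v i : F) = 0 := congrArg Subtype.val (this i)
    exact Subtype.ext hi
  have := LinearMap.finrank_le_finrank_of_injective hinj
  rwa [Module.finrank_pi_fintype, Finset.sum_const, Finset.card_univ, smul_eq_mul] at this

/-- The main inequality of the sandwich argument. -/
theorem card_le_finrank_of_isRed (w w' : Fin (g + 1) → F) (hw0 : w 0 ≠ 0) (hw0' : w' 0 ≠ 0)
    (hi : ∀ p : MvPolynomial (Fin g) K,
      MvPolynomial.eval₂ (algebraMap K F) (fun i : Fin g => w i.succ / w 0) p = 0 → p = 0)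
    (hi' : ∀ p : MvPolynomial (Fin g) K,
      MvPolynomial.eval₂ (algebraMap K F) (fun i : Fin g => w' i.succ / w' 0) p = 0 → p = 0)
    {d : ℕ} (hred : IsRed (Submodule.span K (Set.range w'))
      (Submodule.span K (Set.range w') ⊔ Submodule.span K (Set.range w)) d)
    [Module.Finite (coordSub K (fun i : Fin g => w' i.succ / w' 0)) F]
    {ι : Type*} [Fintype ι] (φ : ι → F)
    (hφ : LinearIndependent (coordSub K (fun i : Fin g => w i.succ / w 0)) φ) :
    Fintype.card ι ≤ Module.finrank (coordSub K (fun i : Fin g => w' i.succ / w' 0)) F := by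
  classical
  set t := fun i : Fin g => w i.succ / w 0 with ht
  set t' := fun i : Fin g => w' i.succ / w' 0 with ht'
  set N := Submodule.span K (Set.range w) with hN
  set N' := Submodule.span K (Set.range w') with hN'
  set M := N' ⊔ N with hM
  set ρ' := Module.finrank (coordSub K t') F with hρ'
  let b := Module.finBasis (coordSub K t') F
  set Φ := Submodule.span K (Set.range φ) with hΦ
  set B := Submodule.span K (Set.range b) with hB
  have hΦfg : Φ.FG := Submodule.fg_span (Set.finite_range φ)
  have hBfg : B.FG := Submodule.fg_span (Set.finite_range b)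
  have hMfg : M.FG :=
    (Submodule.fg_span (Set.finite_range w')).sup (Submodule.fg_span (Set.finite_range w))
  have hΨfg : (M ^ d * Φ).FG := (hMfg.pow d).mul hΦfg
  obtain ⟨Sg, hSg⟩ := hΨfg
  let C : Finset F := Sg.biUnion fun ψ =>
    Finset.univ.image fun j => ((b.repr ψ j : coordSub K t') : F)
  have hC : ∀ x ∈ C, x ∈ coordSub K t' := by
    intro x hx
    obtain ⟨ψ, _, hx⟩ := Finset.mem_biUnion.mp hx
    obtain ⟨j, _, rfl⟩ := Finset.mem_image.mp hx
    exact (b.repr ψ j).2
  obtain ⟨D, n, hD0, hD, hDC⟩ := exists_common_denominator t' C hC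
  have claim1 : Submodule.span K {D} * (M ^ d * Φ) ≤ T1 K t' ^ n * B := by
    rw [← hSg, Submodule.span_mul_span, Submodule.span_le]
    rintro _ ⟨a, ha, ψ, hψ, rfl⟩
    rw [Set.mem_singleton_iff] at ha
    rw [ha]
    have hψe : ψ = ∑ j, ((b.repr ψ j : coordSub K t') : F) * b j := by
      conv_lhs => rw [← b.sum_repr ψ]
      rfl
    change D * ψ ∈ T1 K t' ^ n * B
    rw [hψe, Finset.mul_sum]
    refine Submodule.sum_mem _ fun j _ => ?_
    rw [← mul_assoc]
    refine Submodule.mul_mem_mul (hDC _ ?_) (Submodule.subset_span ⟨j, rfl⟩)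
    exact Finset.mem_biUnion.mpr ⟨ψ, hψ, Finset.mem_image.mpr ⟨j, Finset.mem_univ _, rfl⟩⟩
  have hNeq : N = Submodule.span K {w 0} * T1 K t := span_range_eq_mul_T1 w hw0
  have hN'eq : N' = Submodule.span K {w' 0} * T1 K t' := span_range_eq_mul_T1 w' hw0'
  have claim2 : ∀ s, Submodule.span K {D * w 0 ^ (s + d)} * (T1 K t ^ (s + d) * Φ) ≤
      Submodule.span K {w' 0 ^ s} * (T1 K t' ^ (s + n) * B) := by
    intro s
    calc Submodule.span K {D * w 0 ^ (s + d)} * (T1 K t ^ (s + d) * Φ)
        = Submodule.span K {D} * (N ^ (s + d) * Φ) := by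
          rw [hNeq, mul_pow, span_singleton_pow', ← Set.singleton_mul_singleton,
            ← Submodule.span_mul_span]
          simp only [mul_assoc]
      _ ≤ Submodule.span K {D} * (N' ^ s * M ^ d * Φ) := by
          gcongr
          exact (pow_le_pow_left' (le_sup_right : N ≤ M) _).trans (hred.pow_le s)
      _ = N' ^ s * (Submodule.span K {D} * (M ^ d * Φ)) := by
          simp only [mul_assoc, mul_left_comm]
      _ ≤ N' ^ s * (T1 K t' ^ n * B) := by gcongr
      _ = Submodule.span K {w' 0 ^ s} * (T1 K t' ^ (s + n) * B) := by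
          rw [hN'eq, mul_pow, span_singleton_pow', pow_add]
          simp only [mul_assoc]
  have key : ∀ s, Fintype.card ι * hfun K g s ≤ ρ' * hfun K g (s + n) := by
    intro s
    have e1 := card_mul_finrank_le t φ hφ (s + d)
    rw [finrank_T1_pow_of_indep t hi] at e1
    have e2 := finrank_span_singleton_mul (K := K) (a := D * w 0 ^ (s + d))
      (mul_ne_zero hD0 (pow_ne_zero _ hw0)) (T1 K t ^ (s + d) * Φ)
    have e3 := finrank_span_singleton_mul (K := K) (a := w' 0 ^ s) (pow_ne_zero _ hw0')
      (T1 K t' ^ (s + n) * B)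
    have hfin1 : Module.Finite K ↥B := Module.Finite.iff_fg.mpr hBfg
    have hfin2 : Module.Finite K ↥(Submodule.span K {w' 0 ^ s} * (T1 K t' ^ (s + n) * B)) :=
      Module.Finite.iff_fg.mpr ((Submodule.fg_span (Set.finite_singleton _)).mul
        (((T1_fg t').pow _).mul hBfg))
    have e4 := Submodule.finrank_mono (claim2 s)
    have e5 := finrank_mul_le (T1 K t' ^ (s + n)) B
    have e6 : Module.finrank K ↥B ≤ ρ' := by
      have := finrank_range_le_card (R := K) (b : Fin ρ' → F)
      rw [Fintype.card_fin] at this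
      exact this
    calc Fintype.card ι * hfun K g s
        ≤ Fintype.card ι * hfun K g (s + d) :=
          Nat.mul_le_mul_left _ (hfun_mono g (Nat.le_add_right s d))
      _ ≤ Module.finrank K ↥(T1 K t ^ (s + d) * Φ) := e1
      _ = Module.finrank K ↥(Submodule.span K {D * w 0 ^ (s + d)} * (T1 K t ^ (s + d) * Φ)) :=
          e2.symm
      _ ≤ Module.finrank K ↥(Submodule.span K {w' 0 ^ s} * (T1 K t' ^ (s + n) * B)) := e4
      _ = Module.finrank K ↥(T1 K t' ^ (s + n) * B) := e3
      _ ≤ Module.finrank K ↥(T1 K t' ^ (s + n)) * Module.finrank K ↥B := e5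
      _ = hfun K g (s + n) * Module.finrank K ↥B := by rw [finrank_T1_pow_of_indep t' hi']
      _ ≤ hfun K g (s + n) * ρ' := Nat.mul_le_mul_left _ e6
      _ = ρ' * hfun K g (s + n) := mul_comm _ _
  exact le_of_growth g (hfun K g) (one_le_hfun g) (hfun_le g) _ _ n key

theorem ne_zero_of_valBPF_of_indep (w w' : Fin (g + 1) → F) (h : ValBPF K w w')
    (hi : ∀ p : MvPolynomial (Fin g) K,
      MvPolynomial.eval₂ (algebraMap K F) (fun i : Fin g => w i.succ / w 0) p = 0 → p = 0) :
    w 0 ≠ 0 := by
  intro h0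
  obtain ⟨b, hb, -⟩ := h ⊤ (fun _ => trivial)
  rcases g with _ | g
  · apply hb
    have : b = 0 := Fin.ext (by omega)
    rw [this, h0]
  · have := hi (MvPolynomial.X 0) (by simp [h0])
    exact MvPolynomial.X_ne_zero (R := K) (0 : Fin (g + 1)) this

theorem finite_and_finrank_le (w w' : Fin (g + 1) → F) (hw0 : w 0 ≠ 0) (hw0' : w' 0 ≠ 0)
    (hi : ∀ p : MvPolynomial (Fin g) K,
      MvPolynomial.eval₂ (algebraMap K F) (fun i : Fin g => w i.succ / w 0) p = 0 → p = 0)
    (hi' : ∀ p : MvPolynomial (Fin g) K,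
      MvPolynomial.eval₂ (algebraMap K F) (fun i : Fin g => w' i.succ / w' 0) p = 0 → p = 0)
    (h' : ValBPF K w' w)
    [Module.Finite (coordSub K (fun i : Fin g => w' i.succ / w' 0)) F] :
    Module.Finite (coordSub K (fun i : Fin g => w i.succ / w 0)) F ∧
      Module.finrank (coordSub K (fun i : Fin g => w i.succ / w 0)) F ≤
        Module.finrank (coordSub K (fun i : Fin g => w' i.succ / w' 0)) F := by
  obtain ⟨d, hd⟩ := exists_isRed w' w h'
  have hrank : Module.rank (coordSub K (fun i : Fin g => w i.succ / w 0)) F ≤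
      (Module.finrank (coordSub K (fun i : Fin g => w' i.succ / w' 0)) F : ℕ) := by
    refine rank_le fun s hs => ?_
    have := card_le_finrank_of_isRed w w' hw0 hw0' hi hi' hd (fun i : s => (i : F)) hs
    rwa [Fintype.card_coe] at this
  refine ⟨?_, Module.finrank_le_of_rank_le hrank⟩
  rw [← Module.rank_lt_aleph0_iff]
  exact lt_of_le_of_lt hrank (Cardinal.natCast_lt_aleph0)

/-- **BETA, algebraic form.**  Two systems of homogeneous coordinates which dominate each
other at every valuation ring of `F / K` and have algebraically independent affine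
coordinates have the same degree. -/
theorem finrank_coordSub_eq (w w' : Fin (g + 1) → F) (h : ValBPF K w w') (h' : ValBPF K w' w)
    (hi : ∀ p : MvPolynomial (Fin g) K,
      MvPolynomial.eval₂ (algebraMap K F) (fun i : Fin g => w i.succ / w 0) p = 0 → p = 0)
    (hi' : ∀ p : MvPolynomial (Fin g) K,
      MvPolynomial.eval₂ (algebraMap K F) (fun i : Fin g => w' i.succ / w' 0) p = 0 → p = 0) :
    Module.finrank (coordSub K (fun i : Fin g => w i.succ / w 0)) F =
      Module.finrank (coordSub K (fun i : Fin g => w' i.succ / w' 0)) F := by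
  have hw0 := ne_zero_of_valBPF_of_indep w w' h hi
  have hw0' := ne_zero_of_valBPF_of_indep w' w h' hi'
  by_cases hf' : Module.Finite (coordSub K (fun i : Fin g => w' i.succ / w' 0)) F
  · obtain ⟨hf, hle⟩ := finite_and_finrank_le w w' hw0 hw0' hi hi' h'
    obtain ⟨-, hle'⟩ := finite_and_finrank_le w' w hw0' hw0 hi' hi h
    exact le_antisymm hle hle'
  · by_cases hf : Module.Finite (coordSub K (fun i : Fin g => w i.succ / w 0)) F
    · exact absurd (finite_and_finrank_le w' w hw0' hw0 hi' hi h).1 hf'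
    · rw [Module.finrank_of_not_finite hf, Module.finrank_of_not_finite hf']

end Coord

end Field

end Fermat.Agent.S26.Beta.H867

end
-- ===== PACK-END S26/Beta/H867/BetaAlg.lean

-- ===== PACK-BEGIN S26/H605/FlatKer.lean
section




/-!
# Row S26, block PIC, leaf P5 (helper605): flat base change of a kernel (pure algebra)

`A → R'` flat, `φ : P → Q` an `A`-linear map.  If `P'`, `Q'`, `φ'` is a "base change" of the
situation in the weak sense that `R' ⊗ P → P'` is surjective and `R' ⊗ Q → Q'` is injective,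
then every element of `ker φ'` is the image of an element of `R' ⊗ ker φ`, i.e. a finite sum
`∑ c_k · β (m_k)` with `m_k ∈ ker φ`.
-/

set_option autoImplicit false

open TensorProduct

namespace Fermat.Agent.S26.H605

variable {A R' P Q P' Q' : Type*} [CommRing A] [CommRing R'] [Algebra A R'] [Module.Flat A R']
  [AddCommGroup P] [Module A P] [AddCommGroup Q] [Module A Q] [AddCommGroup P'] [AddCommGroup Q']

theorem exists_tensor_ker_of_flat (φ : P →ₗ[A] Q) (βt : R' ⊗[A] P →+ P') (γt : R' ⊗[A] Q →+ Q')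
    (φ' : P' →+ Q') (hcomm : ∀ z, φ' (βt z) = γt (φ.lTensor R' z))
    (hβ : Function.Surjective βt) (hγ : Function.Injective γt) (p' : P') (hp' : φ' p' = 0) :
    ∃ w : R' ⊗[A] (LinearMap.ker φ), βt ((LinearMap.ker φ).subtype.lTensor R' w) = p' := by
  obtain ⟨z, rfl⟩ := hβ p'
  have hz : φ.lTensor R' z = 0 := by
    apply hγ
    rw [← hcomm, hp', map_zero]
  have hex := Module.Flat.lTensor_exact R' (LinearMap.exact_subtype_ker_map φ)
  obtain ⟨w, hw⟩ := (hex z).mp hz
  exact ⟨w, by rw [hw]⟩

/-- The same in terms of finite sums. -/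
theorem exists_sum_ker_of_flat (φ : P →ₗ[A] Q) (βt : R' ⊗[A] P →+ P') (γt : R' ⊗[A] Q →+ Q')
    (φ' : P' →+ Q') (hcomm : ∀ z, φ' (βt z) = γt (φ.lTensor R' z))
    (hβ : Function.Surjective βt) (hγ : Function.Injective γt) (p' : P') (hp' : φ' p' = 0) :
    ∃ S : Finset (R' × LinearMap.ker φ), p' = ∑ i ∈ S, βt (i.1 ⊗ₜ[A] (i.2 : P)) := by
  obtain ⟨w, rfl⟩ := exists_tensor_ker_of_flat φ βt γt φ' hcomm hβ hγ p' hp'
  obtain ⟨S, rfl⟩ := TensorProduct.exists_finset w
  refine ⟨S, ?_⟩
  simp only [map_sum, LinearMap.lTensor_tmul, Submodule.subtype_apply]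

end Fermat.Agent.S26.H605

end
-- ===== PACK-END S26/H605/FlatKer.lean

-- ===== PACK-BEGIN S26/H626/FiniteIntegralClosure.lean
section


/-!
# S26, block CUBE, leaf C4b, part T1 (helper626): finiteness of integral closure over a
perfect field (E. Noether)

`finite_integralClosure`: the integral closure of a finitely generated domain `R` over a perfect
field `K` in a finitely generated algebraic field extension `L` is a finite `R`-module.
-/

set_option autoImplicit false
set_option linter.style.haveILetI false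

universe u

namespace Fermat.Agent.S26.H626

section Core

/-- Finiteness of the integral closure in a finite (possibly inseparable) extension of the
fraction field, for an integrally closed noetherian domain whose iterated Frobenius maps are
finite. -/
theorem finite_integralClosure_of_frobenius_finite
    (A : Type u) [CommRing A] [IsDomain A] [IsIntegrallyClosed A] [IsNoetherianRing A]
    (F : Type u) [Field F] [Algebra A F] [IsFractionRing A F]
    (L : Type u) [Field L] [Algebra F L] [Algebra A L] [IsScalarTower A F L]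
    [FiniteDimensional F L] (q : ℕ) [ExpChar A q]
    (hfrob : ∀ n, (iterateFrobenius A q n).Finite) :
    Module.Finite A (integralClosure A L) := by
  classical
  have hAF : Function.Injective (algebraMap A F) := IsFractionRing.injective A F
  haveI : ExpChar F q := expChar_of_injective_algebraMap hAF q
  let E := separableClosure F L
  haveI : ExpChar E q := expChar_of_injective_algebraMap (algebraMap F E).injective q
  haveI : ExpChar L q := expChar_of_injective_algebraMap (algebraMap F L).injective q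
  haveI : IsScalarTower A E L := IsScalarTower.of_algebraMap_eq (fun a => by
    rw [IsScalarTower.algebraMap_apply A F L, IsScalarTower.algebraMap_apply A F E,
      ← IsScalarTower.algebraMap_apply F E L])
  set n := IsPurelyInseparable.exponent E L with hn
  let Φ : L →+* E := IsPurelyInseparable.iterateFrobenius E L q (le_refl n)
  have hΦ : ∀ a : L, algebraMap E L (Φ a) = a ^ q ^ n := fun a =>
    IsPurelyInseparable.algebraMap_iterateFrobenius E q (le_refl n) a
  haveI hCE : Module.Finite A (integralClosure A E) :=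
    IsIntegralClosure.finite A F E (integralClosure A E)
  let ι := iterateFrobenius A q n
  have hι : Function.Injective ι := iterateFrobenius_inj A q n
  let A' : Subring A := ι.range
  let σ : A ≃+* A' := RingEquiv.ofBijective ι.rangeRestrict
    ⟨fun a b h => hι (congrArg Subtype.val h), ι.rangeRestrict_surjective⟩
  haveI : IsNoetherianRing A' := isNoetherianRing_of_ringEquiv A σ
  haveI : Module.Finite A' A := by
    refine @Module.Finite.of_equiv_equiv A A A' A _ _ _ _ ι.toAlgebra _ σ (RingEquiv.refl A) ?_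
      (hfrob n)
    ext a
    rfl
  haveI : Module.Finite A' (integralClosure A E) := Module.Finite.trans A _
  haveI : IsNoetherian A' (integralClosure A E) := isNoetherian_of_isNoetherianRing_of_finite _ _
  have hmem : ∀ x : integralClosure A L, Φ x ∈ integralClosure A E := by
    intro x
    have h1 : IsIntegral A ((x : L) ^ q ^ n) := x.2.pow _
    rw [← hΦ] at h1
    exact (isIntegral_algHom_iff (IsScalarTower.toAlgHom A E L)
      (algebraMap E L).injective).1 h1
  have hΦalg : ∀ a : A, Φ (algebraMap A L a) = algebraMap A E (a ^ q ^ n) := by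
    intro a
    apply (algebraMap E L).injective
    rw [hΦ, ← IsScalarTower.algebraMap_apply A E L, map_pow]
  let f : integralClosure A L →ₛₗ[(σ : A →+* A')] integralClosure A E :=
    { toFun := fun x => ⟨Φ x, hmem x⟩
      map_add' := fun x y => Subtype.ext (by simp)
      map_smul' := fun a x => Subtype.ext (by
        change Φ ((a • x : integralClosure A L) : L) = _
        have h1 : ((a • x : integralClosure A L) : L) = algebraMap A L a * (x : L) := by
          rw [Algebra.smul_def]; rfl
        rw [h1, map_mul, hΦalg]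
        have h2 : (((σ : A →+* A') a • (⟨Φ x, hmem x⟩ : integralClosure A E) :
            integralClosure A E) : E) = algebraMap A E (a ^ q ^ n) * Φ x := by
          change ((σ a : A) • (⟨Φ x, hmem x⟩ : integralClosure A E) : integralClosure A E).1 = _
          rw [Algebra.smul_def]
          rfl
        exact h2.symm) }
  have hf : Function.Injective f := by
    intro x y h
    have := congrArg Subtype.val h
    exact Subtype.ext (Φ.injective this)
  haveI i1 : RingHomInvPair (σ : A →+* A') (σ.symm : A' →+* A) := RingHomInvPair.of_ringEquiv σ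
  haveI i2 : RingHomInvPair (σ.symm : A' →+* A) (σ : A →+* A') := RingHomInvPair.symm _ _
  exact Module.Finite.of_injective (σ' := (σ.symm : A' →+* A)) f hf

end Core

section Poly

/-- Over a perfect field, the iterated Frobenius of a polynomial ring is a finite ring
homomorphism. -/
theorem iterateFrobenius_mvPolynomial_finite (K : Type u) [Field K] [PerfectField K] (d : ℕ)
    (q : ℕ) [ExpChar K q] (n : ℕ) :
    (iterateFrobenius (MvPolynomial (Fin d) K) q n).Finite := by
  classical
  rw [RingHom.finite_iff_isIntegral_and_finiteType]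
  constructor
  · intro x
    refine ⟨Polynomial.X ^ (q ^ n) - Polynomial.C x,
      Polynomial.monic_X_pow_sub_C _ (pow_ne_zero _ (expChar_ne_zero K q)), ?_⟩
    rw [Polynomial.eval₂_sub, Polynomial.eval₂_pow, Polynomial.eval₂_X, Polynomial.eval₂_C,
      iterateFrobenius_def, sub_self]
  · letI : Algebra (MvPolynomial (Fin d) K) (MvPolynomial (Fin d) K) :=
      (iterateFrobenius (MvPolynomial (Fin d) K) q n).toAlgebra
    refine ⟨⟨Finset.univ.image MvPolynomial.X, ?_⟩⟩
    rw [eq_top_iff]
    have key : ∀ p : MvPolynomial (Fin d) K, p ∈ Algebra.adjoin (MvPolynomial (Fin d) K)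
        ((Finset.univ.image MvPolynomial.X : Finset (MvPolynomial (Fin d) K)) :
          Set (MvPolynomial (Fin d) K)) := by
      intro p
      induction p using MvPolynomial.induction_on with
      | C a =>
        obtain ⟨b, hb⟩ := (bijective_iterateFrobenius K q n).2 a
        have h : (MvPolynomial.C a : MvPolynomial (Fin d) K) =
            iterateFrobenius (MvPolynomial (Fin d) K) q n (MvPolynomial.C b) := by
          rw [iterateFrobenius_def, ← map_pow, ← iterateFrobenius_def, hb]
        rw [h]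
        exact Subalgebra.algebraMap_mem _ (MvPolynomial.C b)
      | add p q hp hq => exact add_mem hp hq
      | mul_X p i hp =>
        exact mul_mem hp (Algebra.subset_adjoin (by simp))
    exact fun p _ => key p

end Poly

/-- **T1** (E. Noether): the integral closure of a finitely generated domain over a perfect
field in a finitely generated algebraic field extension is a finite module.
(Exact statement of the skeleton `H27/C4bSpec.lean` of helper27.) -/
theorem finite_integralClosure (K : Type u) [Field K] [PerfectField K]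
    (R : Type u) [CommRing R] [IsDomain R] [Algebra K R] [Algebra.FiniteType K R]
    (L : Type u) [Field L] [Algebra R L] [Module.IsTorsionFree R L]
    [Algebra K L] [IsScalarTower K R L]
    (hL : Algebra.IsAlgebraic R L) (hfg : Algebra.EssFiniteType K L) :
    Module.Finite R (integralClosure R L) := by
  obtain ⟨d, g, hginj, hgfin⟩ := exists_finite_inj_algHom_of_fg K R
  letI : Algebra (MvPolynomial (Fin d) K) R := g.toRingHom.toAlgebra
  haveI : IsScalarTower K (MvPolynomial (Fin d) K) R :=
    IsScalarTower.of_algebraMap_eq (fun a => (g.commutes a).symm)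
  haveI : Module.Finite (MvPolynomial (Fin d) K) R := hgfin
  letI : Algebra (MvPolynomial (Fin d) K) L := ((algebraMap R L).comp g.toRingHom).toAlgebra
  haveI : IsScalarTower (MvPolynomial (Fin d) K) R L := IsScalarTower.of_algebraMap_eq (fun _ => rfl)
  haveI : IsScalarTower K (MvPolynomial (Fin d) K) L := IsScalarTower.of_algebraMap_eq (fun a => by
    rw [IsScalarTower.algebraMap_apply K R L, IsScalarTower.algebraMap_apply K (MvPolynomial (Fin d) K) R,
      ← IsScalarTower.algebraMap_apply (MvPolynomial (Fin d) K) R L])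
  have hRL : Function.Injective (algebraMap R L) := FaithfulSMul.algebraMap_injective R L
  have hPL : Function.Injective (algebraMap (MvPolynomial (Fin d) K) L) := hRL.comp hginj
  -- the fraction field of the polynomial ring
  letI : Algebra (FractionRing (MvPolynomial (Fin d) K)) L := (IsFractionRing.lift hPL).toAlgebra
  haveI : IsScalarTower (MvPolynomial (Fin d) K) (FractionRing (MvPolynomial (Fin d) K)) L :=
    IsScalarTower.of_algebraMap_eq (fun a => (IsFractionRing.lift_algebraMap hPL a).symm)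
  haveI : IsScalarTower K (FractionRing (MvPolynomial (Fin d) K)) L :=
    IsScalarTower.of_algebraMap_eq (fun a => by
      rw [IsScalarTower.algebraMap_apply K (MvPolynomial (Fin d) K)
          (FractionRing (MvPolynomial (Fin d) K)),
        ← IsScalarTower.algebraMap_apply (MvPolynomial (Fin d) K)
          (FractionRing (MvPolynomial (Fin d) K)) L,
        ← IsScalarTower.algebraMap_apply K (MvPolynomial (Fin d) K) L])
  haveI : Algebra.EssFiniteType (FractionRing (MvPolynomial (Fin d) K)) L :=
    Algebra.EssFiniteType.of_comp K (FractionRing (MvPolynomial (Fin d) K)) L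
  haveI : Algebra.IsAlgebraic (MvPolynomial (Fin d) K) R := inferInstance
  haveI : Algebra.IsAlgebraic (MvPolynomial (Fin d) K) L :=
    Algebra.IsAlgebraic.trans (MvPolynomial (Fin d) K) R L
  haveI : Algebra.IsAlgebraic (FractionRing (MvPolynomial (Fin d) K)) L :=
    Algebra.IsAlgebraic.extendScalars (R := MvPolynomial (Fin d) K)
      (IsFractionRing.injective (MvPolynomial (Fin d) K) (FractionRing (MvPolynomial (Fin d) K)))
  haveI : Module.Finite (FractionRing (MvPolynomial (Fin d) K)) L :=
    Algebra.finite_of_essFiniteType_of_isAlgebraic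
  haveI : ExpChar K (ringExpChar K) := ringExpChar.expChar K
  have hcore : Module.Finite (MvPolynomial (Fin d) K)
      (integralClosure (MvPolynomial (Fin d) K) L) :=
    finite_integralClosure_of_frobenius_finite (MvPolynomial (Fin d) K)
      (FractionRing (MvPolynomial (Fin d) K)) L (ringExpChar K)
      (iterateFrobenius_mvPolynomial_finite K d (ringExpChar K))
  -- transfer to `R`
  have hint : ∀ x : L, IsIntegral (MvPolynomial (Fin d) K) x → IsIntegral R x :=
    fun x hx => hx.tower_top
  let φ : integralClosure (MvPolynomial (Fin d) K) L →ₗ[MvPolynomial (Fin d) K]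
      integralClosure R L :=
    { toFun := fun x => ⟨x.1, hint x.1 x.2⟩
      map_add' := fun _ _ => rfl
      map_smul' := fun a x => Subtype.ext (by
        change (a • x : integralClosure (MvPolynomial (Fin d) K) L).1 = a • x.1
        rfl) }
  have hφ : Function.Surjective φ := by
    rintro ⟨x, hx⟩
    exact ⟨⟨x, isIntegral_trans x hx⟩, rfl⟩
  haveI : Module.Finite (MvPolynomial (Fin d) K) (integralClosure R L) :=
    Module.Finite.of_surjective φ hφ
  exact Module.Finite.of_restrictScalars_finite (MvPolynomial (Fin d) K) R _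

end Fermat.Agent.S26.H626

end
-- ===== PACK-END S26/H626/FiniteIntegralClosure.lean

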