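import Mathlib
import Fermat.Prelude.Def_JacJ1Iface
import Fermat.Prelude.Def_GoodReductionJacobian_RelativeGroupLawKernel
import Mathlib.AlgebraicGeometry.Group.Abelian
import Fermat.Agent.Pack.S43MC.G0E1L1

-- ===== PACK-BEGIN S25/H490/DivIso.lean
section
/-
S25, block ALGCHARTS (helper490): abstract core of PT-ISO.  Mathlib-only.

`DivGen J s` : the element `s` of the `R`-module `N` is a "section with divisor `J`":
`R s = J N`, `s` is torsion-free, and `J` acts faithfully on elements of `N`.
Two modules with sections of the same divisor are canonically isomorphic (`DivGen.equiv`),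
by an isomorphism matching the sections.  No localisation is used.
-/


set_option autoImplicit false

namespace Fermat.Agent.S25.H490

section DivGen

variable {R : Type*} [CommRing R] {N N' : Type*} [AddCommGroup N] [Module R N]
  [AddCommGroup N'] [Module R N']

/-- `s` is a section of `N` with divisor `J`. -/
structure DivGen (J : Ideal R) (s : N) : Prop where
  span_eq : Submodule.span R {s} = J • (⊤ : Submodule R N)
  tf : ∀ r : R, r • s = 0 → r = 0
  sep : ∀ m : N, (∀ j ∈ J, j • m = 0) → m = 0

/-- The graph of the canonical isomorphism. -/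
def DivRel (J : Ideal R) (s : N) (s' : N') (n : N) (n' : N') : Prop :=
  ∀ j ∈ J, ∀ r : R, j • n = r • s → j • n' = r • s'

namespace DivGen

variable {J : Ideal R} {s : N} {s' : N'}

theorem exists_coeff (h : DivGen J s) (n : N) {j : R} (hj : j ∈ J) : ∃ r : R, j • n = r • s := by
  have hmem : j • n ∈ J • (⊤ : Submodule R N) := Submodule.smul_mem_smul hj Submodule.mem_top
  rw [← h.span_eq, Submodule.mem_span_singleton] at hmem
  obtain ⟨r, hr⟩ := hmem
  exact ⟨r, hr.symm⟩

theorem self_mem (h : DivGen J s) : s ∈ J • (⊤ : Submodule R N) := by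
  rw [← h.span_eq]
  exact Submodule.mem_span_singleton_self s

theorem rel_exists (h : DivGen J s) (h' : DivGen J s') (n : N) : ∃ n' : N', DivRel J s s' n n' := by
  have key : ∀ z ∈ J • (⊤ : Submodule R N'), ∃ n' : N', ∀ j ∈ J, ∀ r : R, j • n = r • s →
      j • n' = r • z := by
    intro z hz
    refine Submodule.smul_induction_on hz ?_ ?_
    · intro j₀ hj₀ m' _
      obtain ⟨r₀, hr₀⟩ := h.exists_coeff n hj₀
      refine ⟨r₀ • m', fun j hj r hr => ?_⟩
      have h1 : j * r₀ = r * j₀ := by
        have : (j * r₀ - r * j₀) • s = 0 := by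
          rw [sub_smul, mul_smul, mul_comm r j₀, mul_smul, ← hr₀, ← hr, smul_comm]
          exact sub_self _
        exact sub_eq_zero.mp (h.tf _ this)
      rw [smul_smul, smul_smul, h1]
    · rintro z₁ z₂ ⟨n₁, hn₁⟩ ⟨n₂, hn₂⟩
      exact ⟨n₁ + n₂, fun j hj r hr => by rw [smul_add, hn₁ j hj r hr, hn₂ j hj r hr, smul_add]⟩
  exact key s' h'.self_mem

theorem rel_unique (h : DivGen J s) (h' : DivGen J s') {n : N} {n₁ n₂ : N'}
    (h₁ : DivRel J s s' n n₁) (h₂ : DivRel J s s' n n₂) : n₁ = n₂ := by
  rw [← sub_eq_zero]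
  refine h'.sep _ fun j hj => ?_
  obtain ⟨r, hr⟩ := h.exists_coeff n hj
  rw [smul_sub, h₁ j hj r hr, h₂ j hj r hr, sub_self]

theorem rel_symm (h : DivGen J s) (h' : DivGen J s') {n : N} {n' : N'}
    (hr : DivRel J s s' n n') : DivRel J s' s n' n := by
  intro j hj r' hr'
  obtain ⟨r, hr₁⟩ := h.exists_coeff n hj
  have h2 := hr j hj r hr₁
  have : (r - r') • s' = 0 := by rw [sub_smul, ← h2, ← hr', sub_self]
  rw [hr₁, sub_eq_zero.mp (h'.tf _ this)]

theorem rel_add (h : DivGen J s) {n₁ n₂ : N} {n₁' n₂' : N'}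
    (h₁ : DivRel J s s' n₁ n₁') (h₂ : DivRel J s s' n₂ n₂') :
    DivRel J s s' (n₁ + n₂) (n₁' + n₂') := by
  intro j hj r hr
  obtain ⟨r₁, hr₁⟩ := h.exists_coeff n₁ hj
  obtain ⟨r₂, hr₂⟩ := h.exists_coeff n₂ hj
  have : (r₁ + r₂ - r) • s = 0 := by
    rw [sub_smul, add_smul, ← hr₁, ← hr₂, ← hr, smul_add, sub_self]
  have hr' : r = r₁ + r₂ := (sub_eq_zero.mp (h.tf _ this)).symm
  rw [smul_add, h₁ j hj r₁ hr₁, h₂ j hj r₂ hr₂, hr', add_smul]

theorem rel_smul (h : DivGen J s) (c : R) {n : N} {n' : N'}
    (h₁ : DivRel J s s' n n') : DivRel J s s' (c • n) (c • n') := by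
  intro j hj r hr
  obtain ⟨r₁, hr₁⟩ := h.exists_coeff n hj
  have : (c * r₁ - r) • s = 0 := by
    rw [sub_smul, mul_smul, ← hr₁, ← hr, smul_comm, sub_self]
  have hr' : r = c * r₁ := (sub_eq_zero.mp (h.tf _ this)).symm
  rw [smul_comm, h₁ j hj r₁ hr₁, hr', mul_smul]

theorem rel_self (h : DivGen J s) : DivRel J s s' s s' := by
  intro j hj r hr
  have : (j - r) • s = 0 := by rw [sub_smul, hr, sub_self]
  rw [sub_eq_zero.mp (h.tf _ this)]

/-- The canonical map `N → N'`. -/
noncomputable def toFun (h : DivGen J s) (h' : DivGen J s') (n : N) : N' :=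
  (h.rel_exists h' n).choose

theorem toFun_rel (h : DivGen J s) (h' : DivGen J s') (n : N) :
    DivRel J s s' n (h.toFun h' n) :=
  (h.rel_exists h' n).choose_spec

/-- The canonical linear map `N → N'`. -/
noncomputable def toLin (h : DivGen J s) (h' : DivGen J s') : N →ₗ[R] N' where
  toFun := h.toFun h'
  map_add' n₁ n₂ := h.rel_unique h' (h.toFun_rel h' _)
    (h.rel_add (h.toFun_rel h' n₁) (h.toFun_rel h' n₂))
  map_smul' c n := h.rel_unique h' (h.toFun_rel h' _) (h.rel_smul c (h.toFun_rel h' n))

theorem toLin_rel (h : DivGen J s) (h' : DivGen J s') (n : N) :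
    DivRel J s s' n (h.toLin h' n) := h.toFun_rel h' n

/-- **Canonical isomorphism** of two modules carrying sections with the same divisor. -/
noncomputable def equiv (h : DivGen J s) (h' : DivGen J s') : N ≃ₗ[R] N' :=
  LinearEquiv.ofLinearMap (h.toLin h') (h'.toLin h)
    (by
      ext n'
      exact h.rel_unique h' (h.toLin_rel h' _) (h'.rel_symm h (h'.toLin_rel h n')))
    (by
      ext n
      exact h'.rel_unique h (h'.toLin_rel h _) (h.rel_symm h' (h.toLin_rel h' n)))

theorem equiv_rel (h : DivGen J s) (h' : DivGen J s') (n : N) :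
    DivRel J s s' n (h.equiv h' n) := h.toLin_rel h' n

theorem equiv_apply_self (h : DivGen J s) (h' : DivGen J s') : h.equiv h' s = s' :=
  h.rel_unique h' (h.equiv_rel h' s) h.rel_self

end DivGen

end DivGen

section BaseChange

variable {R S : Type*} [CommRing R] [CommRing S] [Algebra R S]
  {M M' P P' : Type*} [AddCommGroup M] [AddCommGroup M'] [AddCommGroup P] [AddCommGroup P']
  [Module R M] [Module R M'] [Module R P] [Module R P'] [Module S P] [Module S P']
  [IsScalarTower R S P] [IsScalarTower R S P']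

/-- An isomorphism of modules extends to their base changes. -/
noncomputable def bcEquiv {f : M →ₗ[R] P} {f' : M' →ₗ[R] P'} (hf : IsBaseChange S f)
    (hf' : IsBaseChange S f') (e : M ≃ₗ[R] M') : P ≃ₗ[S] P' :=
  LinearEquiv.ofLinearMap (hf.lift (f' ∘ₗ e.toLinearMap)) (hf'.lift (f ∘ₗ e.symm.toLinearMap))
    (hf'.algHom_ext _ _ fun x => by simp [IsBaseChange.lift_eq])
    (hf.algHom_ext _ _ fun x => by simp [IsBaseChange.lift_eq])

theorem bcEquiv_apply {f : M →ₗ[R] P} {f' : M' →ₗ[R] P'} (hf : IsBaseChange S f)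
    (hf' : IsBaseChange S f') (e : M ≃ₗ[R] M') (m : M) :
    bcEquiv hf hf' e (f m) = f' (e m) := by
  simp [bcEquiv, IsBaseChange.lift_eq]

theorem bcEquiv_symm_apply {f : M →ₗ[R] P} {f' : M' →ₗ[R] P'} (hf : IsBaseChange S f)
    (hf' : IsBaseChange S f') (e : M ≃ₗ[R] M') (m' : M') :
    (bcEquiv hf hf' e).symm (f' m') = f (e.symm m') := by
  rw [LinearEquiv.symm_apply_eq, bcEquiv_apply, LinearEquiv.apply_symm_apply]

/-- An isomorphism of the ambient modules which matches two submodules (given as images of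
injective maps) restricts to an isomorphism. -/
noncomputable def restrictEquiv {f : M →ₗ[R] P} {f' : M' →ₗ[R] P'}
    (hinj' : Function.Injective f') (E : P ≃ₗ[S] P')
    (h₁ : ∀ m, E (f m) ∈ LinearMap.range f') : M →ₗ[R] M' :=
  (LinearEquiv.ofInjective f' hinj').symm.toLinearMap ∘ₗ
    LinearMap.codRestrict (LinearMap.range f') ((E.restrictScalars R).toLinearMap ∘ₗ f) h₁

theorem restrictEquiv_apply {f : M →ₗ[R] P} {f' : M' →ₗ[R] P'}
    (hinj' : Function.Injective f') (E : P ≃ₗ[S] P')
    (h₁ : ∀ m, E (f m) ∈ LinearMap.range f') (m : M) :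
    f' (restrictEquiv hinj' E h₁ m) = E (f m) := by
  have := (LinearEquiv.ofInjective f' hinj').apply_symm_apply
    (LinearMap.codRestrict (LinearMap.range f') ((E.restrictScalars R).toLinearMap ∘ₗ f) h₁ m)
  have h2 := congrArg Subtype.val this
  simp only [LinearEquiv.ofInjective_apply, LinearMap.codRestrict_apply, LinearMap.coe_comp,
    LinearEquiv.coe_coe, Function.comp_apply, LinearEquiv.restrictScalars_apply] at h2
  exact h2

/-- The restricted isomorphism. -/
noncomputable def restrictLinearEquiv {f : M →ₗ[R] P} {f' : M' →ₗ[R] P'}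
    (hinj : Function.Injective f) (hinj' : Function.Injective f') (E : P ≃ₗ[S] P')
    (h₁ : ∀ m, E (f m) ∈ LinearMap.range f')
    (h₂ : ∀ m', E.symm (f' m') ∈ LinearMap.range f) : M ≃ₗ[R] M' :=
  LinearEquiv.ofLinearMap (restrictEquiv hinj' E h₁) (restrictEquiv hinj E.symm h₂)
    (by
      ext m'
      apply hinj'
      simp [restrictEquiv_apply])
    (by
      ext m
      apply hinj
      simp [restrictEquiv_apply])

theorem restrictLinearEquiv_apply {f : M →ₗ[R] P} {f' : M' →ₗ[R] P'}
    (hinj : Function.Injective f) (hinj' : Function.Injective f') (E : P ≃ₗ[S] P')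
    (h₁ : ∀ m, E (f m) ∈ LinearMap.range f')
    (h₂ : ∀ m', E.symm (f' m') ∈ LinearMap.range f) (m : M) :
    f' (restrictLinearEquiv hinj hinj' E h₁ h₂ m) = E (f m) :=
  restrictEquiv_apply hinj' E h₁ m

end BaseChange

section Range

variable {R₁ : Type*} [CommRing R₁] {N₁ N₀₁ : Type*} [AddCommGroup N₁] [Module R₁ N₁]
  [AddCommGroup N₀₁] [Module R₁ N₀₁]

/-- Sheaf property for the cover `D(y) ∪ D(v)`, `v ≡ 1 mod y`: an element of the localisation
`N₀₁ = N₁[1/y]` lies in `N₁` iff `v` times it lies in `R₁ s₁`, when `v N₁ ⊆ R₁ s₁`. -/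
theorem mem_range_iff_of_sub_one_mem (r₁ : N₁ →ₗ[R₁] N₀₁) (y v : R₁)
    (hv : v - 1 ∈ Ideal.span {y}) (s₁ : N₁)
    (hloc : ∀ z : N₀₁, ∃ (a : ℕ) (n : N₁), y ^ a • z = r₁ n)
    (hgen : ∀ n : N₁, ∃ ρ : R₁, v • n = ρ • s₁) (z : N₀₁) :
    z ∈ LinearMap.range r₁ ↔ ∃ ρ : R₁, v • z = ρ • r₁ s₁ := by
  constructor
  · rintro ⟨n, rfl⟩
    obtain ⟨ρ, hρ⟩ := hgen n
    exact ⟨ρ, by rw [← map_smul, hρ, map_smul]⟩
  · rintro ⟨ρ, hρ⟩
    obtain ⟨a, n, hn⟩ := hloc z
    obtain ⟨c, hc⟩ := Ideal.mem_span_singleton'.mp hv
    have hcop : IsCoprime v (y ^ a) := by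
      apply IsCoprime.pow_right
      exact ⟨1, -c, by rw [one_mul, neg_mul, hc]; ring⟩
    obtain ⟨α, β, hαβ⟩ := hcop
    refine ⟨α • ρ • s₁ + β • n, ?_⟩
    rw [map_add, map_smul, map_smul, map_smul, ← hρ, ← hn, smul_smul, smul_smul, ← add_smul, hαβ,
      one_smul]

/-- Nakayama: if `s₁` generates `N₁` modulo `y`, some `v ≡ 1 mod y` maps `N₁` into `R₁ s₁`. -/
theorem exists_sub_one_mem_forall_smul_eq [Module.Finite R₁ N₁] (y : R₁) (s₁ : N₁)
    (hgen : ∀ c : N₁, ∃ r : R₁, c - r • s₁ ∈ (Ideal.span {y} • ⊤ : Submodule R₁ N₁)) :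
    ∃ v : R₁, v - 1 ∈ Ideal.span {y} ∧ ∀ n : N₁, ∃ ρ : R₁, v • n = ρ • s₁ := by
  set Q := N₁ ⧸ Submodule.span R₁ {s₁} with hQ
  have hle : (⊤ : Submodule R₁ Q) ≤ Ideal.span {y} • (⊤ : Submodule R₁ Q) := by
    rintro q -
    obtain ⟨c, rfl⟩ := Submodule.Quotient.mk_surjective _ q
    obtain ⟨r, hr⟩ := hgen c
    have h1 : (Submodule.span R₁ {s₁}).mkQ (c - r • s₁) ∈
        Submodule.map (Submodule.span R₁ {s₁}).mkQ (Ideal.span {y} • ⊤) :=
      Submodule.mem_map_of_mem hr
    rw [Submodule.map_smul'', Submodule.map_top, Submodule.range_mkQ] at h1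
    have h2 : (Submodule.span R₁ {s₁}).mkQ (c - r • s₁) = Submodule.Quotient.mk c := by
      rw [map_sub, Submodule.mkQ_apply, Submodule.mkQ_apply, sub_eq_self,
        Submodule.Quotient.mk_eq_zero]
      exact Submodule.smul_mem _ _ (Submodule.mem_span_singleton_self s₁)
    rwa [h2] at h1
  obtain ⟨v, hv, hvq⟩ := Submodule.exists_sub_one_mem_and_smul_eq_zero_of_fg_of_le_smul
    (Ideal.span {y}) (⊤ : Submodule R₁ Q) Module.Finite.fg_top hle
  refine ⟨v, hv, fun n => ?_⟩
  have h3 := hvq (Submodule.Quotient.mk n) Submodule.mem_top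
  rw [← Submodule.Quotient.mk_smul, Submodule.Quotient.mk_eq_zero,
    Submodule.mem_span_singleton] at h3
  obtain ⟨ρ, hρ⟩ := h3
  exact ⟨ρ, hρ.symm⟩

end Range

section Separated

open Polynomial

variable {A : Type*} [CommRing A] {R₁ : Type*} [CommRing R₁] [Algebra A R₁]

theorem pi_eq_zero_of_forall_X_pow_smul {d : ℕ} (w : Fin d → A[X])
    (h : ∀ j : ℕ, ∃ w' : Fin d → A[X], w = (X : A[X]) ^ j • w') : w = 0 := by
  funext i
  by_contra hne
  obtain ⟨N, hN⟩ : ∃ N, N = (w i).natDegree + 1 := ⟨_, rfl⟩
  obtain ⟨w', hw'⟩ := h N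
  have hwi := congrFun hw' i
  rw [Pi.smul_apply, smul_eq_mul] at hwi
  have hdvd : (X : A[X]) ^ N ∣ w i := ⟨w' i, hwi⟩
  rw [Polynomial.X_pow_dvd_iff] at hdvd
  apply hne
  ext n
  by_cases hn : n < N
  · simpa using hdvd n hn
  · simp only [Pi.zero_apply, coeff_zero]
    exact Polynomial.coeff_eq_zero_of_natDegree_lt (by omega)

/-- In a ring which is `y`-equivariantly a polynomial module `A[X]^d`, elements `≡ 1 mod y`
are nonzerodivisors. -/
theorem eq_zero_of_mul_eq_zero_of_sub_one_mem {d : ℕ} (y : R₁)
    (Φ : R₁ ≃ₗ[A] (Fin d → A[X])) (hΦ : ∀ z, Φ (y * z) = (X : A[X]) • Φ z) (v r : R₁)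
    (hv : v - 1 ∈ Ideal.span {y}) (h : v * r = 0) : r = 0 := by
  obtain ⟨c, hc⟩ := Ideal.mem_span_singleton'.mp hv
  have hr : r = y * (-c * r) := by
    have : v = 1 + c * y := by rw [hc]; ring
    rw [this] at h
    linear_combination h
  have key : ∀ j : ℕ, ∃ r' : R₁, r = y ^ j * r' := by
    intro j
    induction j with
    | zero => exact ⟨r, by simp⟩
    | succ j ih =>
      obtain ⟨r', hr'⟩ := ih
      refine ⟨-c * r', ?_⟩
      calc r = y * (-c * r) := hr
        _ = y * (-c * (y ^ j * r')) := by rw [← hr']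
        _ = y ^ (j + 1) * (-c * r') := by ring
  have hpow : ∀ (j : ℕ) (z : R₁), Φ (y ^ j * z) = (X : A[X]) ^ j • Φ z := by
    intro j
    induction j with
    | zero => intro z; simp
    | succ j ih =>
      intro z
      rw [pow_succ', mul_assoc, hΦ, ih, pow_succ', mul_smul]
  apply Φ.injective
  rw [map_zero]
  refine pi_eq_zero_of_forall_X_pow_smul _ fun j => ?_
  obtain ⟨r', hr'⟩ := key j
  exact ⟨Φ r', by rw [← hpow, ← hr']⟩

end Separated

section Faithful

variable {R : Type*} [CommRing R] {M : Type*} [AddCommGroup M] [Module R M]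

/-- An invertible module is faithful. -/
theorem eq_zero_of_forall_smul_eq_zero [Module.Invertible R M] (r : R)
    (h : ∀ m : M, r • m = 0) : r = 0 := by
  obtain ⟨t, ht⟩ := (Module.Invertible.bijective (R := R) (M := M)).2 1
  have h1 : ∀ t : TensorProduct R (Module.Dual R M) M,
      r • (contractLeft R M t) = 0 := by
    intro t
    induction t using TensorProduct.induction_on with
    | zero => simp
    | tmul φ m =>
      rw [contractLeft_apply, smul_eq_mul, ← smul_eq_mul, ← map_smul, h, map_zero]
    | add t t' ht ht' => rw [map_add, smul_add, ht, ht', add_zero]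
  have := h1 t
  rwa [ht, smul_eq_mul, mul_one] at this

end Faithful

end Fermat.Agent.S25.H490

end
-- ===== PACK-END S25/H490/DivIso.lean

-- ===== PACK-BEGIN S25/H565/RankOne.lean
section


/-!
# S25 / DEGREE D5, algebra part (helper565): invertible modules over a one-dimensional domain

* `dual_smul_comm`: for an invertible module `N` over a domain, `ℓ a • b = ℓ b • a`
  (rank one).
* `exists_ne_zero_smul_mem_span`: for `s ≠ 0` in `N` there is `r ≠ 0` with `r • N ⊆ R s`.
* `exists_polynomial_dvd`: if `R` is a domain, finite over `K[x]`, every `r ≠ 0` divides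
  `c(x)` for some nonzero polynomial `c`.
* `finiteDimensional_quotient_of_aeval_smul_mem`: a finitely generated `R`-module killed
  modulo `W` by `c(x)`, `c ≠ 0`, has `N/W` finite-dimensional over `K`.
* `finiteDimensional_quotient_span_singleton`: `N / R s` is finite-dimensional over `K`.
Mathlib only.
-/

set_option autoImplicit false

namespace Fermat.Agent.S25.H565

open Polynomial

section RankOne

variable {R : Type*} [CommRing R] [IsDomain R] {N : Type*} [AddCommGroup N] [Module R N]
  [Module.Invertible R N]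

/-- **Rank one.** In an invertible module over a domain, `ℓ a • b = ℓ b • a` for every linear
form `ℓ`. -/
theorem dual_smul_comm (ℓ : Module.Dual R N) (a b : N) : ℓ a • b = ℓ b • a := by
  by_cases ha : a = 0
  · subst ha; simp
  let E : Module.End R N := (LinearMap.toSpanSingleton R N a) ∘ₗ ℓ
  obtain ⟨c, hc⟩ := (Module.Invertible.toModuleEnd_bijective R N).2 E
  have hE : ∀ v : N, c • v = ℓ v • a := fun v => by
    have := LinearMap.congr_fun hc v
    simpa [E] using this
  have h1 : c = ℓ a := by
    have h2 := hE a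
    have h3 : (c - ℓ a) • a = 0 := by rw [sub_smul, h2, sub_self]
    rcases smul_eq_zero.mp h3 with h | h
    · exact sub_eq_zero.mp h
    · exact absurd h ha
  rw [← h1, hE b]

/-- A nonzero element of an invertible module over a domain is detected by a linear form. -/
theorem exists_dual_ne_zero (s : N) (hs : s ≠ 0) : ∃ ℓ : Module.Dual R N, ℓ s ≠ 0 := by
  by_contra hcon
  push Not at hcon
  let Θ : TensorProduct R (Module.Dual R N) N →ₗ[R] N :=
    (LinearMap.toSpanSingleton R N s) ∘ₗ (contractLeft R N)
  have hΘ : Θ = 0 := by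
    apply TensorProduct.ext'
    intro ℓ a
    simp only [Θ, LinearMap.coe_comp, Function.comp_apply, contractLeft_apply,
      LinearMap.toSpanSingleton_apply, LinearMap.zero_apply]
    rw [dual_smul_comm ℓ a s, hcon ℓ, zero_smul]
  obtain ⟨t, ht⟩ := (Module.Invertible.bijective : Function.Bijective (contractLeft R N)).2 1
  have h1 : Θ t = s := by
    simp only [Θ, LinearMap.coe_comp, Function.comp_apply, ht,
      LinearMap.toSpanSingleton_apply, one_smul]
  rw [hΘ] at h1
  exact hs h1.symm

/-- For `s ≠ 0` in an invertible module over a domain there is `r ≠ 0` with `r • N ⊆ R s`. -/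
theorem exists_ne_zero_smul_mem_span (s : N) (hs : s ≠ 0) :
    ∃ r : R, r ≠ 0 ∧ ∀ n : N, ∃ a : R, r • n = a • s := by
  obtain ⟨ℓ, hℓ⟩ := exists_dual_ne_zero (R := R) s hs
  exact ⟨ℓ s, hℓ, fun n => ⟨ℓ n, dual_smul_comm ℓ s n⟩⟩

end RankOne

section Finite

variable {K : Type*} [Field K] {R : Type*} [CommRing R] [Algebra K R]

/-- If the domain `R` is finite over `K[x]`, every nonzero `r` divides `c(x)` for some nonzero
polynomial `c`. -/
theorem exists_polynomial_dvd [IsDomain R] (x : R)
    (hfin : (Polynomial.aeval x : K[X] →ₐ[K] R).Finite) (r : R) (hr : r ≠ 0) :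
    ∃ c : K[X], c ≠ 0 ∧ r ∣ Polynomial.aeval x c := by
  let _ : Algebra K[X] R := (Polynomial.aeval x : K[X] →ₐ[K] R).toRingHom.toAlgebra
  have hint : IsIntegral K[X] r := hfin.to_isIntegral r
  have halg : IsAlgebraic K[X] r := hint.isAlgebraic
  obtain ⟨c, hc0, hc⟩ := halg.exists_nonzero_dvd (mem_nonZeroDivisors_of_ne_zero hr)
  exact ⟨c, hc0, hc⟩

/-- **Finite-dimensionality of torsion quotients.**  `R` finite over `K[x]`, `N` a finitely
generated `R`-module, `W` a `K`-subspace with `c(x) • N ⊆ W` for a nonzero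
polynomial `c`: then `N / W` is finite-dimensional over `K`. -/
theorem finiteDimensional_quotient_of_aeval_smul_mem (x : R)
    (hfin : (Polynomial.aeval x : K[X] →ₐ[K] R).Finite)
    {N : Type*} [AddCommGroup N] [Module R N] [Module K N] [IsScalarTower K R N]
    [Module.Finite R N] (W : Submodule K N)
    (c : K[X]) (hc : c ≠ 0) (hcW : ∀ n : N, (Polynomial.aeval x c) • n ∈ W) :
    FiniteDimensional K (N ⧸ W) := by
  classical
  -- generators of `R` over `K[x]`
  have hR : ∃ SR : Finset R, ∀ b : R, ∃ p : R → K[X],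
      b = ∑ e ∈ SR, Polynomial.aeval x (p e) * e := by
    let _ : Algebra K[X] R := (Polynomial.aeval x : K[X] →ₐ[K] R).toRingHom.toAlgebra
    have h1 : Module.Finite K[X] R := hfin
    obtain ⟨SR, hSR⟩ := h1.fg_top
    refine ⟨SR, fun b => ?_⟩
    have hb : b ∈ Submodule.span K[X] (SR : Set R) := by rw [hSR]; trivial
    obtain ⟨p, -, hp⟩ := Submodule.mem_span_finset.mp hb
    exact ⟨p, hp.symm⟩
  obtain ⟨SR, hSR⟩ := hR
  -- generators of `N` over `R`
  obtain ⟨SN, hSN⟩ := (inferInstance : Module.Finite R N).fg_top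
  have hN : ∀ n : N, ∃ b : N → R, n = ∑ m ∈ SN, b m • m := by
    intro n
    have hn : n ∈ Submodule.span R (SN : Set N) := by rw [hSN]; trivial
    obtain ⟨b, -, hb⟩ := Submodule.mem_span_finset.mp hn
    exact ⟨b, hb.symm⟩
  set d := c.natDegree with hd
  -- the finite spanning set
  let T : Finset (N ⧸ W) := (Finset.range d ×ˢ (SR ×ˢ SN)).image
    (fun t => W.mkQ (x ^ t.1 • (t.2.1 • t.2.2)))
  have hkey : ∀ (p : K[X]) (e : R) (m : N), e ∈ SR → m ∈ SN →
      W.mkQ ((Polynomial.aeval x p * e) • m) ∈ Submodule.span K (T : Set (N ⧸ W)) := by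
    intro p e m he hm
    have hdiv : p = c * (p / c) + p % c := (EuclideanDomain.div_add_mod p c).symm
    have hdeg : (p % c).natDegree < d ∨ p % c = 0 := by
      by_cases h0 : p % c = 0
      · exact Or.inr h0
      · left
        have := Polynomial.degree_mod_lt p hc
        exact (Polynomial.natDegree_lt_natDegree_iff h0).mpr this
    have h1 : (Polynomial.aeval x p * e) • m =
        Polynomial.aeval x c • ((Polynomial.aeval x (p / c) * e) • m) +
          (Polynomial.aeval x (p % c) * e) • m := by
      conv_lhs => rw [hdiv]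
      rw [map_add, map_mul, add_mul, add_smul, mul_assoc, mul_smul]
    rw [h1, map_add]
    have h2 : W.mkQ (Polynomial.aeval x c • ((Polynomial.aeval x (p / c) * e) • m)) = 0 := by
      rw [Submodule.mkQ_apply, Submodule.Quotient.mk_eq_zero]
      exact hcW _
    rw [h2, zero_add]
    have h3 : Polynomial.aeval x (p % c) = ∑ i ∈ Finset.range d,
        (p % c).coeff i • x ^ i := by
      rcases hdeg with h | h
      · exact Polynomial.aeval_eq_sum_range' h x
      · rw [h]; simp
    rw [h3, Finset.sum_mul, Finset.sum_smul, map_sum]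
    refine Submodule.sum_mem _ fun i hi => ?_
    have h4 : ((p % c).coeff i • x ^ i * e) • m = (p % c).coeff i • (x ^ i • (e • m)) := by
      rw [smul_mul_assoc, smul_assoc, mul_smul]
    rw [h4, map_smul]
    refine Submodule.smul_mem _ _ (Submodule.subset_span ?_)
    rw [Finset.mem_coe, Finset.mem_image]
    exact ⟨(i, (e, m)), by simp [hi, he, hm], rfl⟩
  refine Module.finite_def.2 ?_
  refine ⟨T, ?_⟩
  rw [eq_top_iff]
  intro q _
  obtain ⟨n, rfl⟩ := Submodule.mkQ_surjective W q
  obtain ⟨b, hb⟩ := hN n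
  rw [hb, map_sum]
  refine Submodule.sum_mem _ fun m hm => ?_
  obtain ⟨p, hp⟩ := hSR (b m)
  rw [hp, Finset.sum_smul, map_sum]
  exact Submodule.sum_mem _ fun e he => hkey (p e) e m he hm

/-- For `s ≠ 0` in an invertible module `N` over a domain `R` finite over `K[x]`, the
quotient `N / R s` is finite-dimensional over `K`. -/
theorem finiteDimensional_quotient_span_singleton [IsDomain R] (x : R)
    (hfin : (Polynomial.aeval x : K[X] →ₐ[K] R).Finite)
    {N : Type*} [AddCommGroup N] [Module R N] [Module K N] [IsScalarTower K R N]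
    [Module.Invertible R N] (s : N) (hs : s ≠ 0) :
    FiniteDimensional K
      (N ⧸ LinearMap.range ((LinearMap.toSpanSingleton R N s).restrictScalars K)) := by
  obtain ⟨r, hr, hrN⟩ := exists_ne_zero_smul_mem_span (R := R) s hs
  obtain ⟨c, hc, b, hb⟩ := exists_polynomial_dvd (K := K) x hfin r hr
  refine finiteDimensional_quotient_of_aeval_smul_mem x hfin _ c hc ?_
  intro n
  obtain ⟨a, ha⟩ := hrN n
  refine ⟨b * a, ?_⟩
  simp only [LinearMap.restrictScalars_apply, LinearMap.toSpanSingleton_apply]
  rw [hb, mul_comm r b, mul_smul b r n, ha, mul_smul]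

end Finite

end Fermat.Agent.S25.H565

end
-- ===== PACK-END S25/H565/RankOne.lean

-- ===== PACK-BEGIN S25/H11/ProjAlg.lean
section


/-!
# S25 / HILB / H3, part 2 (helper11): modules over a finite projective algebra

* `projective_of_tower` : projectivity is transitive along `R → M` with `M` projective over `R`;
* `finrank_fiber_eq` : an invertible module over a finite `R`-algebra `M` has the same fibre
  dimensions over `R` as `M` itself (finite-dimensional algebras are semilocal);
* `rankAtStalk_eq_of_invertible` : hence the same ranks.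
-/

set_option autoImplicit false
set_option linter.style.haveILetI false
set_option linter.unusedVariables false

open TensorProduct

namespace Fermat.Agent.S25.H11

universe u v w

section trans

variable (R : Type u) (M : Type v) (K : Type w) [CommRing R] [CommRing M] [Algebra R M]
  [AddCommGroup K] [Module M K] [Module R K] [IsScalarTower R M K]

/-- Projectivity is transitive. -/
theorem projective_of_tower [Module.Projective R M] [Module.Projective M K] :
    Module.Projective R K := by
  classical
  obtain ⟨s, hs⟩ := (Module.projective_def' (R := M) (P := K)).mp inferInstance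
  haveI : Module.Projective R (K →₀ M) :=
    Module.Projective.of_equiv (finsuppLequivDFinsupp (ι := K) (M := M) R).symm
  refine Module.Projective.of_split (s.restrictScalars R)
    ((Finsupp.linearCombination M (id : K → K)).restrictScalars R) ?_
  apply LinearMap.ext
  intro x
  have := congrArg (fun f : K →ₗ[M] K => f x) hs
  simpa using this

/-- Finiteness is transitive (restatement of `Module.Finite.trans`). -/
theorem finite_of_tower [Module.Finite R M] [Module.Finite M K] : Module.Finite R K :=
  Module.Finite.trans M K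

end trans


section fiber

variable (R : Type u) (M : Type u) (K : Type u) [CommRing R] [CommRing M] [Algebra R M]
  [AddCommGroup K] [Module M K] [Module R K] [IsScalarTower R M K]

attribute [local instance] Algebra.TensorProduct.rightAlgebra

/-- An invertible module over a finite `R`-algebra `M` has the same fibre dimension over every
field `κ` over `R` as `M`. -/
theorem finrank_fiber_eq [Module.Finite R M] [Module.Invertible M K]
    (κ : Type u) [Field κ] [Algebra R κ] :
    Module.finrank κ (κ ⊗[R] K) = Module.finrank κ (κ ⊗[R] M) := by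
  haveI : IsArtinianRing (κ ⊗[R] M) := IsArtinianRing.of_finite κ (κ ⊗[R] M)
  haveI : Module.Free (κ ⊗[R] M) ((κ ⊗[R] M) ⊗[M] K) := inferInstance
  obtain ⟨e⟩ := Module.Invertible.free_iff_linearEquiv.mp
    (inferInstance : Module.Free (κ ⊗[R] M) ((κ ⊗[R] M) ⊗[M] K))
  have e' : (κ ⊗[R] M) ⊗[M] K ≃ₗ[κ] κ ⊗[R] K :=
    Algebra.IsPushout.cancelBaseChange R κ M (κ ⊗[R] M) K
  rw [← e'.finrank_eq]
  exact (e.restrictScalars κ).finrank_eq


/-- An invertible module over a finite projective `R`-algebra `M` has the same rank over `R`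
as `M` at every prime. -/
theorem rankAtStalk_eq_of_invertible [Module.Finite R M] [Module.Projective R M]
    [Module.Invertible M K] :
    Module.rankAtStalk (R := R) K = Module.rankAtStalk (R := R) M := by
  haveI : Module.Projective R K := projective_of_tower R M K
  haveI : Module.Finite R K := finite_of_tower R M K
  ext p
  rw [Module.rankAtStalk_eq, Module.rankAtStalk_eq]
  exact finrank_fiber_eq R M K p.asIdeal.ResidueField

end fiber

end Fermat.Agent.S25.H11

end
-- ===== PACK-END S25/H11/ProjAlg.lean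

-- ===== PACK-BEGIN S25/H791/GenericPoints.lean
section


/-!
# S25 / ALGCHARTS, leaf C6 (core linear algebra): generic choice of points

Let `V` be a `K`-vector space of dimension `m + 1` (think: `V = H⁰(G(n))`), let `ev q : V → K`
(`q : Q`, `Q` infinite) be "evaluation at the point `q`" such that every nonzero `v` vanishes at
only finitely many points, and let `H j` (`j` in a finite type) be finitely many proper subspaces
(think: sections vanishing at a point of `E₀`).  Then there are `m` distinct points
`q 0, …, q (m-1)`, outside any given finite set, such that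

* the sections vanishing at all `q i` form a line `K ∙ s`,
* `s` lies in none of the `H j`,
* the evaluation map `V → K^m` is surjective.

Main statements: `exists_points_line` (functionals), `exists_points_line_of_finrank_eq_one`
(evaluation maps with values in one-dimensional spaces `L q`).
-/

set_option autoImplicit false

namespace Fermat.Agent.S25.H791

open Module

section

variable {K : Type*} [Field K] {V : Type*} [AddCommGroup V] [Module K V]

/-- Cutting a subspace with the kernel of a functional drops the dimension by at most one. -/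
theorem finrank_le_finrank_inf_ker_add_one [FiniteDimensional K V] (W : Submodule K V)
    (φ : V →ₗ[K] K) : finrank K W ≤ finrank K ↥(W ⊓ LinearMap.ker φ) + 1 := by
  by_cases h : W ≤ LinearMap.ker φ
  · rw [inf_eq_left.mpr h]; omega
  · obtain ⟨w, hwW, hw⟩ := Set.not_subset.mp h
    have hw' : φ w ≠ 0 := hw
    have hsup : W ≤ (W ⊓ LinearMap.ker φ) ⊔ K ∙ w := by
      intro v hv
      have hdec : v = (v - (φ v / φ w) • w) + (φ v / φ w) • w := by abel
      rw [hdec]
      refine Submodule.add_mem_sup ⟨W.sub_mem hv (W.smul_mem _ hwW), ?_⟩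
        (Submodule.smul_mem _ _ (Submodule.mem_span_singleton_self w))
      simp only [SetLike.mem_coe, LinearMap.mem_ker, map_sub, map_smul, smul_eq_mul]
      field_simp
      ring
    calc finrank K W ≤ finrank K ↥((W ⊓ LinearMap.ker φ) ⊔ K ∙ w) :=
          Submodule.finrank_mono hsup
      _ ≤ finrank K ↥(W ⊓ LinearMap.ker φ) + finrank K ↥(K ∙ w) :=
          Submodule.finrank_add_le_finrank_add_finrank _ _
      _ ≤ finrank K ↥(W ⊓ LinearMap.ker φ) + 1 := by
          have hw0 : w ≠ 0 := fun h0 => hw' (by rw [h0, map_zero])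
          rw [finrank_span_singleton hw0]

/-- Cutting a subspace with the kernel of a functional which is nonzero on it drops the
dimension by exactly one. -/
theorem finrank_inf_ker_add_one [FiniteDimensional K V] (W : Submodule K V)
    (φ : V →ₗ[K] K) (h : ¬ W ≤ LinearMap.ker φ) :
    finrank K ↥(W ⊓ LinearMap.ker φ) + 1 = finrank K W := by
  refine le_antisymm ?_ (finrank_le_finrank_inf_ker_add_one W φ)
  have hlt : W ⊓ LinearMap.ker φ < W := lt_of_le_of_ne inf_le_left (fun e => h (inf_eq_left.mp e))
  exact Nat.succ_le_of_lt (Submodule.finrank_lt_finrank_of_lt hlt)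

end

section

variable {K : Type*} [Field K] {V : Type*} [AddCommGroup V] [Module K V]
  [FiniteDimensional K V] {Q : Type*} [Infinite Q] (ev : Q → V →ₗ[K] K)
  {t : Type*} [Finite t] (H : t → Submodule K V)

omit [Infinite Q] in
/-- The set of points `q` such that `W ∩ ker (ev q)` falls into the proper subspace `H` is
finite (if `dim W ≥ 2`). -/
theorem finite_setOf_inf_ker_le (hev : ∀ v : V, v ≠ 0 → {q | ev q v = 0}.Finite)
    (W H : Submodule K V) (hW : 2 ≤ finrank K W) (hWH : ¬ W ≤ H) :
    {q | W ⊓ LinearMap.ker (ev q) ≤ H}.Finite := by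
  by_cases hbot : W ⊓ H = ⊥
  · -- no such point
    convert Set.finite_empty
    ext q
    simp only [Set.mem_ofPred_eq, Set.mem_empty_iff_false, iff_false]
    intro hq
    have hle : W ⊓ LinearMap.ker (ev q) ≤ W ⊓ H := le_inf inf_le_left hq
    rw [hbot, le_bot_iff] at hle
    have h1 := finrank_le_finrank_inf_ker_add_one W (ev q)
    rw [hle, finrank_bot] at h1
    omega
  · obtain ⟨v, hv, hv0⟩ := (Submodule.ne_bot_iff _).mp hbot
    refine (hev v hv0).subset ?_
    intro q hq
    simp only [Set.mem_ofPred_eq] at hq ⊢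
    by_contra hne
    apply hWH
    intro w hw
    have hdec : w = (w - (ev q w / ev q v) • v) + (ev q w / ev q v) • v := by abel
    rw [hdec]
    refine H.add_mem (hq ⟨W.sub_mem hw (W.smul_mem _ hv.1), ?_⟩) (H.smul_mem _ hv.2)
    simp only [SetLike.mem_coe, LinearMap.mem_ker, map_sub, map_smul, smul_eq_mul]
    field_simp
    ring

/-- Inductive core of `exists_points_line`, for a subspace `W` of dimension `m + 1`. -/
theorem exists_points_line_aux (hev : ∀ v : V, v ≠ 0 → {q | ev q v = 0}.Finite) :
    ∀ (m : ℕ) (W : Submodule K V) (F : Set Q), F.Finite → finrank K W = m + 1 →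
      (∀ j, ¬ W ≤ H j) →
      ∃ q : Fin m → Q, Function.Injective q ∧ (∀ i, q i ∉ F) ∧
        ∃ s : V, s ≠ 0 ∧ (∀ v : V, (v ∈ W ∧ ∀ i, ev (q i) v = 0) ↔ v ∈ K ∙ s) ∧
          ∀ j, s ∉ H j := by
  intro m
  induction m with
  | zero =>
    intro W F _ hdim hH
    obtain ⟨s, hsW, hs0, hs⟩ : ∃ s ∈ W, s ≠ 0 ∧ ∀ w ∈ W, ∃ c : K, c • s = w := by
      obtain ⟨⟨s, hsW⟩, hs0, hs⟩ := finrank_eq_one_iff'.mp (by simpa using hdim)
      refine ⟨s, hsW, fun h => hs0 (Subtype.ext h), fun w hw => ?_⟩
      obtain ⟨c, hc⟩ := hs ⟨w, hw⟩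
      exact ⟨c, congrArg Subtype.val hc⟩
    have hWs : ∀ v : V, v ∈ W ↔ v ∈ K ∙ s := by
      intro v
      rw [Submodule.mem_span_singleton]
      exact ⟨hs v, fun ⟨c, hc⟩ => hc ▸ W.smul_mem c hsW⟩
    refine ⟨Fin.elim0, fun i => i.elim0, fun i => i.elim0, s, hs0, fun v => ?_, fun j hj => ?_⟩
    · rw [← hWs]
      exact ⟨fun h => h.1, fun h => ⟨h, fun i => i.elim0⟩⟩
    · apply hH j
      intro w hw
      obtain ⟨c, rfl⟩ := hs w hw
      exact (H j).smul_mem c hj
  | succ m ih =>
    intro W F hF hdim hH
    -- the bad points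
    have hW0 : ∃ v ∈ W, v ≠ 0 := by
      have : W ≠ ⊥ := by
        intro h
        rw [h, finrank_bot] at hdim
        omega
      exact (Submodule.ne_bot_iff _).mp this
    obtain ⟨v₀, hv₀W, hv₀⟩ := hW0
    have hB0 : {q | W ≤ LinearMap.ker (ev q)}.Finite :=
      (hev v₀ hv₀).subset (fun q hq => hq hv₀W)
    have hBj : ∀ j, {q | W ⊓ LinearMap.ker (ev q) ≤ H j}.Finite := fun j =>
      finite_setOf_inf_ker_le ev hev W (H j) (by omega) (hH j)
    have hbad : (F ∪ {q | W ≤ LinearMap.ker (ev q)} ∪
        ⋃ j, {q | W ⊓ LinearMap.ker (ev q) ≤ H j}).Finite :=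
      (hF.union hB0).union (Set.finite_iUnion hBj)
    obtain ⟨q₀, hq₀⟩ := hbad.exists_notMem
    simp only [Set.mem_union, Set.mem_ofPred_eq, Set.mem_iUnion, not_or, not_exists] at hq₀
    obtain ⟨⟨hq₀F, hq₀W⟩, hq₀H⟩ := hq₀
    have hdim' : finrank K ↥(W ⊓ LinearMap.ker (ev q₀)) = m + 1 := by
      have := finrank_inf_ker_add_one W (ev q₀) hq₀W
      omega
    obtain ⟨q, hqinj, hqF, s, hs0, hs, hsH⟩ :=
      ih (W ⊓ LinearMap.ker (ev q₀)) (F ∪ {q₀}) (hF.union (Set.finite_singleton q₀)) hdim' hq₀H
    refine ⟨Fin.cons q₀ q, ?_, ?_, s, hs0, fun v => ?_, hsH⟩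
    · rw [Fin.cons_injective_iff]
      refine ⟨?_, hqinj⟩
      rintro ⟨i, hi⟩
      exact hqF i (Or.inr (by simpa using hi))
    · intro i
      refine Fin.cases ?_ (fun i => ?_) i
      · simpa using hq₀F
      · simpa using fun h => hqF i (Or.inl h)
    · rw [← hs v, Fin.forall_fin_succ]
      simp only [Fin.cons_zero, Fin.cons_succ, Submodule.mem_inf, LinearMap.mem_ker]
      tauto

/-- **C6, core.** Generic choice of points: see the module docstring. -/
theorem exists_points_line (hev : ∀ v : V, v ≠ 0 → {q | ev q v = 0}.Finite)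
    (hH : ∀ j, H j ≠ ⊤) (m : ℕ) (hdim : finrank K V = m + 1) (F : Set Q) (hF : F.Finite) :
    ∃ q : Fin m → Q, Function.Injective q ∧ (∀ i, q i ∉ F) ∧
      ∃ s : V, s ≠ 0 ∧ (∀ v : V, (∀ i, ev (q i) v = 0) ↔ v ∈ K ∙ s) ∧ (∀ j, s ∉ H j) ∧
        Function.Surjective (LinearMap.pi fun i => ev (q i)) := by
  obtain ⟨q, hqinj, hqF, s, hs0, hs, hsH⟩ :=
    exists_points_line_aux ev H hev m ⊤ F hF (by rw [finrank_top]; exact hdim)
      (fun j h => hH j (top_le_iff.mp h))
  have hs' : ∀ v : V, (∀ i, ev (q i) v = 0) ↔ v ∈ K ∙ s := fun v => by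
    rw [← hs v]; simp
  refine ⟨q, hqinj, hqF, s, hs0, hs', hsH, ?_⟩
  -- surjectivity by rank-nullity
  set Φ : V →ₗ[K] (Fin m → K) := LinearMap.pi fun i => ev (q i) with hΦ
  have hker : LinearMap.ker Φ = K ∙ s := by
    ext v
    rw [← hs' v, LinearMap.mem_ker, hΦ]
    constructor
    · intro h i
      simpa using congrFun h i
    · intro h
      ext i
      simpa using h i
  have hrk := LinearMap.finrank_range_add_finrank_ker Φ
  rw [hker, finrank_span_singleton hs0, hdim] at hrk
  rw [← LinearMap.range_eq_top]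
  apply Submodule.eq_top_of_finrank_eq
  rw [finrank_fin_fun]
  omega

end

section

variable {K : Type*} [Field K] {V : Type*} [AddCommGroup V] [Module K V]
  [FiniteDimensional K V] {Q : Type*} [Infinite Q]
  {L : Q → Type*} [∀ q, AddCommGroup (L q)] [∀ q, Module K (L q)]
  (ev : ∀ q, V →ₗ[K] L q) {t : Type*} [Finite t] (H : t → Submodule K V)

/-- **C6, core**, for evaluation maps with values in one-dimensional spaces (fibres of an
invertible module at the points). -/
theorem exists_points_line_of_finrank_eq_one (hL : ∀ q, finrank K (L q) = 1)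
    (hev : ∀ v : V, v ≠ 0 → {q | ev q v = 0}.Finite)
    (hH : ∀ j, H j ≠ ⊤) (m : ℕ) (hdim : finrank K V = m + 1) (F : Set Q) (hF : F.Finite) :
    ∃ q : Fin m → Q, Function.Injective q ∧ (∀ i, q i ∉ F) ∧
      ∃ s : V, s ≠ 0 ∧ (∀ v : V, (∀ i, ev (q i) v = 0) ↔ v ∈ K ∙ s) ∧ (∀ j, s ∉ H j) ∧
        Function.Surjective (fun (v : V) (i : Fin m) => ev (q i) v) := by
  have hfd : ∀ q, FiniteDimensional K (L q) := fun q =>
    Module.finite_of_finrank_pos (by rw [hL q]; exact Nat.one_pos)
  have he : ∀ q, Nonempty (L q ≃ₗ[K] K) := fun q =>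
    haveI := hfd q
    FiniteDimensional.nonempty_linearEquiv_of_finrank_eq (by rw [hL q, finrank_self])
  choose e _ using fun q => (⟨(he q).some, trivial⟩ : ∃ _ : L q ≃ₗ[K] K, True)
  obtain ⟨q, hqinj, hqF, s, hs0, hs, hsH, hsurj⟩ :=
    exists_points_line (fun q => (e q).toLinearMap ∘ₗ ev q)
      H (fun v hv => by simpa using hev v hv) hH m hdim F hF
  refine ⟨q, hqinj, hqF, s, hs0, fun v => ?_, hsH, fun w => ?_⟩
  · rw [← hs v]
    simp
  · obtain ⟨v, hv⟩ := hsurj (fun i => e (q i) (w i))
    refine ⟨v, funext fun i => (e (q i)).injective ?_⟩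
    simpa using congrFun hv i

end

end Fermat.Agent.S25.H791

end
-- ===== PACK-END S25/H791/GenericPoints.lean

-- ===== PACK-BEGIN S26/Spec.lean
section




/-!
# Row S26 (torsion of abelian varieties): frozen top-level interface

Architect: helper987.  Blueprint: `coord/S26.md` (same branch).  Only definitions here.

S26 : for an abelian variety `A` of dimension `g` over an algebraically closed field `K` and
`n` invertible in `K`, `#A(K)[n] = n ^ (2 g)`.

Top split:  `Stmt.Soft` (`[n]` is finite etale and `#A(K)[n]` is its rank) and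
`Stmt.Deg` (the rank of `[n]` is `n ^ (2 g)`).
-/

set_option autoImplicit false
universe u

open CategoryTheory CategoryTheory.Limits AlgebraicGeometry NeronModelInfra GoodReductionJacobian

namespace Fermat.Agent.S26

/-- An abelian variety over `K`, bundled with exactly the hypotheses of S26. -/
structure AbVar (K : Type u) [Field K] where
  /-- the underlying scheme -/
  A : Scheme.{u}
  /-- the structure morphism -/
  str : A ⟶ Spec (CommRingCat.of K)
  /-- the group law on the functor of points -/
  law : RelativeGroupLaw K str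
  comm : law.IsCommutative
  bundle : AbelianSchemePropertyBundle K str
  /-- the dimension `g` -/
  dim : ℕ
  smoothDim : SmoothOfRelativeDimension dim str

namespace AbVar

variable {K : Type u} [Field K] (X : AbVar K)

/-- Multiplication by `n` as a morphism of schemes. -/
noncomputable def nsmulHom (n : ℕ) : X.A ⟶ X.A := X.law.schemeNsmul n

/-- The `K`-points of `A`. -/
abbrev Pt : Type u := SchemeHomOver (𝟙 (Spec (CommRingCat.of K))) X.str

/-- The zero point. -/
noncomputable def zero : X.Pt := X.law.one (𝟙 (Spec (CommRingCat.of K)))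

/-- The `n`-torsion `K`-points (the set counted by S26). -/
abbrev Torsion (n : ℕ) : Type u :=
  {x : X.Pt // X.law.IsTorsionPoint (𝟙 (Spec (CommRingCat.of K))) n x}

end AbVar

namespace Stmt

variable (K : Type u) [Field K] [IsAlgClosed K]

/-- SOFT: for `n` invertible in `K`, `[n]` is finite etale, and the number of `n`-torsion
`K`-points is the rank of `[n]` at every point of `A`. -/
def Soft : Prop :=
  ∀ (X : AbVar K) (n : ℕ), (n : K) ≠ 0 →
    IsFinite (X.nsmulHom n) ∧ Etale (X.nsmulHom n) ∧
      ∀ a : X.A, Nat.card (X.Torsion n) = (X.nsmulHom n).finrank a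

/-- DEG: for `n` invertible in `K`, if `[n]` is finite etale then its rank at some point is
`n ^ (2 g)`. -/
def Deg : Prop :=
  ∀ (X : AbVar K) (n : ℕ), (n : K) ≠ 0 → IsFinite (X.nsmulHom n) → Etale (X.nsmulHom n) →
    ∃ a : X.A, (X.nsmulHom n).finrank a = n ^ (2 * X.dim)

end Stmt

end Fermat.Agent.S26

end
-- ===== PACK-END S26/Spec.lean

-- ===== PACK-BEGIN S26/LS/H798/FieldPow.lean
section


/-!
# S26, block LS/FF4 (helper798): `[K(t_1,…,t_g) : K(t_1^r,…,t_g^r)] = r^g`

Pure field theory, Mathlib only, any characteristic.  For an algebraically independent family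
`t : ι → E` over `K` and `0 < r`,
`finrank K(t^r) E = r ^ card ι * finrank K(t) E` (both sides `0` when `E / K(t)` is infinite).

Route: lower one variable at a time (`finrank_adjoin_insert_pow`); the one-variable statement is
that a nonzero polynomial over `K(S, t^r)` vanishing at `t` has degree `≥ r` whenever `t` is
transcendental over `K(S)` (`natDegree_ge_of_aeval_eq_zero`, by clearing denominators and
comparing coefficients in residue classes mod `r`).
-/

set_option autoImplicit false

namespace Fermat.Agent.S26.LS.H798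

open Polynomial IntermediateField

/-- In `∑_{j ≤ d} (expand r (p j)) * X ^ j` with `d < r`, the coefficient at `r * m + d` is the
coefficient of `p d` at `m`. -/
theorem coeff_sum_expand_mul_X_pow {A : Type*} [CommRing A] (r d : ℕ) (hd : d < r)
    (p : ℕ → A[X]) (m : ℕ) :
    (∑ j ∈ Finset.range (d + 1), expand A r (p j) * X ^ j).coeff (r * m + d) =
      (p d).coeff m := by
  have hr : 0 < r := lt_of_le_of_lt (Nat.zero_le _) hd
  rw [Polynomial.finsetSum_coeff]
  rw [Finset.sum_eq_single d]
  · rw [coeff_mul_X_pow', if_pos (Nat.le_add_left _ _), Nat.add_sub_cancel,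
      coeff_expand hr, if_pos (Dvd.intro _ rfl), Nat.mul_div_cancel_left _ hr]
  · intro j hj hjd
    have hj' : j < d + 1 := Finset.mem_range.mp hj
    have hjlt : j < d := lt_of_le_of_ne (Nat.lt_succ_iff.mp hj') hjd
    rw [coeff_mul_X_pow', if_pos (by omega), coeff_expand hr, if_neg]
    intro hdvd
    have h1 : r * m + d - j = r * m + (d - j) := by omega
    rw [h1] at hdvd
    have h2 : r ∣ d - j := (Nat.dvd_add_right (Dvd.intro _ rfl)).mp hdvd
    have h3 : d - j < r := by omega
    have h4 : 0 < d - j := by omega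
    exact absurd (Nat.le_of_dvd h4 h2) (by omega)
  · intro h
    exact absurd (Finset.mem_range.mpr (Nat.lt_succ_self d)) h


variable {K E : Type*} [Field K] [Field E] [Algebra K E]

/-- Every element of `K[S, x]` is a polynomial in `x` with coefficients in `K[S]`. -/
theorem exists_aeval_eq_of_mem_adjoin_insert (S : Set E) (x : E) {y : E}
    (hy : y ∈ Algebra.adjoin K (insert x S)) :
    ∃ p : (Algebra.adjoin K S)[X], aeval x p = y := by
  induction hy using Algebra.adjoin_induction with
  | mem z hz =>
    rcases hz with rfl | hz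
    · exact ⟨X, by simp⟩
    · exact ⟨C ⟨z, Algebra.subset_adjoin hz⟩, by simp⟩
  | algebraMap c =>
    exact ⟨C (algebraMap K _ c), by simp⟩
  | add a b _ _ ha hb =>
    obtain ⟨p, rfl⟩ := ha
    obtain ⟨q, rfl⟩ := hb
    exact ⟨p + q, by simp⟩
  | mul a b _ _ ha hb =>
    obtain ⟨p, rfl⟩ := ha
    obtain ⟨q, rfl⟩ := hb
    exact ⟨p * q, by simp⟩

open scoped IntermediateField.algebraAdjoinAdjoin in
theorem natDegree_ge_of_aeval_eq_zero (S : Set E) (t : E) (r : ℕ)
    (ht : Transcendental (Algebra.adjoin K S) t)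
    (q : (adjoin K (insert (t ^ r) S))[X]) (hq : q ≠ 0) (hroot : aeval t q = 0) :
    r ≤ q.natDegree := by
  by_contra hlt
  rw [not_le] at hlt
  set d := q.natDegree with hd
  obtain ⟨b, hb⟩ := IsLocalization.exist_integer_multiples
    (nonZeroDivisors (Algebra.adjoin K (insert (t ^ r) S))) (Finset.range (d + 1))
    (fun j => q.coeff j)
  have hb' : ∀ j ∈ Finset.range (d + 1), ∃ p : (Algebra.adjoin K S)[X],
      aeval (t ^ r) p = ((b : Algebra.adjoin K (insert (t ^ r) S)) : E) *
        ((q.coeff j : adjoin K (insert (t ^ r) S)) : E) := by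
    intro j hj
    obtain ⟨β, hβ⟩ := hb j hj
    obtain ⟨p, hp⟩ := exists_aeval_eq_of_mem_adjoin_insert S (t ^ r) β.2
    refine ⟨p, hp.trans ?_⟩
    have := congrArg (fun z : adjoin K (insert (t ^ r) S) => (z : E)) hβ
    simpa [Algebra.smul_def] using this
  choose! p hp using hb'
  have hP : aeval t (∑ j ∈ Finset.range (d + 1), expand (Algebra.adjoin K S) r (p j) * X ^ j)
      = 0 := by
    rw [map_sum]
    have h1 : ∀ j ∈ Finset.range (d + 1),
        aeval t (expand (Algebra.adjoin K S) r (p j) * X ^ j) =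
          ((b : Algebra.adjoin K (insert (t ^ r) S)) : E) *
            (((q.coeff j : adjoin K (insert (t ^ r) S)) : E) * t ^ j) := by
      intro j hj
      rw [map_mul, expand_aeval, hp j hj, map_pow, aeval_X, mul_assoc]
    rw [Finset.sum_congr rfl h1, ← Finset.mul_sum]
    have h2 : aeval t q = ∑ j ∈ Finset.range (d + 1),
        ((q.coeff j : adjoin K (insert (t ^ r) S)) : E) * t ^ j := by
      rw [aeval_eq_sum_range]
      refine Finset.sum_congr rfl (fun j _ => ?_)
      rw [Algebra.smul_def]
      rfl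
    rw [← h2, hroot, mul_zero]
  have hP0 := (transcendental_iff.mp ht) _ hP
  have hpd : p d = 0 := by
    ext m
    rw [← coeff_sum_expand_mul_X_pow r d hlt p m, hP0]
    simp
  have h3 := hp d (Finset.mem_range.mpr (Nat.lt_succ_self d))
  rw [hpd, map_zero] at h3
  have hb0 : ((b : Algebra.adjoin K (insert (t ^ r) S)) : E) ≠ 0 := by
    intro h
    have : (b : Algebra.adjoin K (insert (t ^ r) S)) = 0 := Subtype.ext h
    exact nonZeroDivisors.coe_ne_zero b this
  have hq0 : ((q.coeff d : adjoin K (insert (t ^ r) S)) : E) ≠ 0 := by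
    intro h
    have : q.coeff d = 0 := Subtype.ext h
    rw [hd] at this
    exact hq (leadingCoeff_eq_zero.mp this)
  exact (mul_ne_zero hb0 hq0) h3.symm

theorem finrank_adjoin_insert_pow (S : Set E) (t : E) (r : ℕ) (hr : 0 < r)
    (ht : Transcendental (Algebra.adjoin K S) t) :
    Module.finrank (adjoin K (insert (t ^ r) S)) E =
      r * Module.finrank (adjoin K (insert t S)) E := by
  have hle : adjoin K (insert (t ^ r) S) ≤ adjoin K (insert t S) := by
    rw [adjoin_le_iff]
    rintro x (rfl | hx)
    · exact pow_mem (subset_adjoin K _ (Set.mem_insert _ _)) r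
    · exact subset_adjoin K _ (Set.mem_insert_of_mem _ hx)
  rw [← relfinrank_mul_finrank_top hle, relfinrank_eq_finrank_of_le hle]
  congr 1
  -- the extension `K(S, t) / K(S, t^r)` is simple, generated by `t`
  have hext : extendScalars hle = (adjoin K (insert (t ^ r) S))⟮t⟯ := by
    apply restrictScalars_injective K
    rw [adjoin_adjoin_left]
    apply le_antisymm
    · change adjoin K (insert t S) ≤ _
      rw [adjoin_le_iff]
      rintro x (rfl | hx)
      · exact subset_adjoin K _ (Or.inr rfl)
      · exact subset_adjoin K _ (Or.inl (Set.mem_insert_of_mem _ hx))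
    · rw [adjoin_le_iff]
      rintro x (hx | hx)
      · exact hle (subset_adjoin K _ hx)
      · rw [Set.mem_singleton_iff] at hx
        subst hx
        exact subset_adjoin K _ (Set.mem_insert _ _)
  rw [hext]
  have hmem : t ^ r ∈ adjoin K (insert (t ^ r) S) := subset_adjoin K _ (Set.mem_insert _ _)
  have hmonic : (X ^ r - C (⟨t ^ r, hmem⟩ : adjoin K (insert (t ^ r) S))).Monic :=
    monic_X_pow_sub_C _ hr.ne'
  have hroot : aeval t (X ^ r - C (⟨t ^ r, hmem⟩ : adjoin K (insert (t ^ r) S))) = 0 := by
    simp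
  have hint : IsIntegral (adjoin K (insert (t ^ r) S)) t := ⟨_, hmonic, hroot⟩
  rw [adjoin.finrank hint]
  apply le_antisymm
  · have := natDegree_le_natDegree (minpoly.min _ t hmonic hroot)
    rwa [natDegree_X_pow_sub_C] at this
  · exact natDegree_ge_of_aeval_eq_zero S t r ht _ (minpoly.ne_zero hint) (minpoly.aeval _ _)

/-- Transcendence over a subalgebra passes to smaller subalgebras. -/
theorem transcendental_of_subalgebra_le {A B : Subalgebra K E} (h : A ≤ B) {x : E}
    (hx : Transcendental B x) : Transcendental A x := by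
  rw [transcendental_iff] at hx ⊢
  intro p hp
  have hinj : Function.Injective (Subalgebra.inclusion h).toRingHom :=
    Subalgebra.inclusion_injective h
  have h1 : aeval x (p.map (Subalgebra.inclusion h).toRingHom) = 0 := by
    rw [← hp, aeval_def, aeval_def, eval₂_map]
    rfl
  have h2 := hx _ h1
  exact (Polynomial.map_eq_zero_iff hinj).mp h2

theorem finrank_adjoin_mixed {ι : Type*} (t : ι → E) (ht : AlgebraicIndependent K t) (r : ℕ)
    (hr : 0 < r) (s : Finset ι) :
    Module.finrank (adjoin K (t '' ((s : Set ι)ᶜ) ∪ (fun i => t i ^ r) '' (s : Set ι))) E =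
      r ^ s.card * Module.finrank (adjoin K (Set.range t)) E := by
  classical
  induction s using Finset.induction_on with
  | empty =>
    have h0 : t '' (((∅ : Finset ι) : Set ι)ᶜ) ∪ (fun i => t i ^ r) '' ((∅ : Finset ι) : Set ι) =
        Set.range t := by simp
    rw [h0]
    simp
  | insert i s hi ih =>
    set S' : Set E := t '' (((insert i s : Finset ι) : Set ι)ᶜ) ∪ (fun j => t j ^ r) '' (s : Set ι)
      with hS'
    have h1 : t '' (((insert i s : Finset ι) : Set ι)ᶜ) ∪
        (fun j => t j ^ r) '' ((insert i s : Finset ι) : Set ι) = insert (t i ^ r) S' := by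
      rw [hS', Finset.coe_insert, Set.image_insert_eq, Set.union_insert]
    have h2 : t '' ((s : Set ι)ᶜ) ∪ (fun j => t j ^ r) '' (s : Set ι) = insert (t i) S' := by
      rw [hS', ← Set.insert_union, ← Set.image_insert_eq]
      congr 2
      ext j
      simp only [Set.mem_compl_iff, Finset.coe_insert, Set.mem_insert_iff, Finset.mem_coe,
        not_or]
      constructor
      · intro hj
        by_cases hji : j = i
        · exact Or.inl hji
        · exact Or.inr ⟨hji, hj⟩
      · rintro (rfl | ⟨_, hj⟩)
        · exact hi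
        · exact hj
    have htr : Transcendental (Algebra.adjoin K S') (t i) := by
      have h3 := ht.transcendental_adjoin (s := ({i}ᶜ : Set ι)) (i := i) (by simp)
      refine transcendental_of_subalgebra_le ?_ h3
      rw [Algebra.adjoin_le_iff]
      rintro x (⟨j, hj, rfl⟩ | ⟨j, hj, rfl⟩)
      · refine Algebra.subset_adjoin ⟨j, ?_, rfl⟩
        simp only [Finset.coe_insert, Set.mem_compl_iff, Set.mem_insert_iff, Finset.mem_coe,
          not_or] at hj
        exact hj.1
      · have hmem : t j ∈ Algebra.adjoin K (t '' ({i}ᶜ : Set ι)) := by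
          refine Algebra.subset_adjoin ⟨j, ?_, rfl⟩
          rintro rfl
          exact hi hj
        exact pow_mem hmem r
    rw [h1, finrank_adjoin_insert_pow S' (t i) r hr htr, ← h2, ih, Finset.card_insert_of_notMem hi]
    ring

/-- **FF4.** For an algebraically independent finite family `t` over `K` and `0 < r`:
`[E : K(t_i ^ r)] = r ^ (number of variables) * [E : K(t_i)]`. -/
theorem finrank_adjoin_range_pow {ι : Type*} [Fintype ι] (t : ι → E)
    (ht : AlgebraicIndependent K t) (r : ℕ) (hr : 0 < r) :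
    Module.finrank (adjoin K (Set.range fun i => t i ^ r)) E =
      r ^ Fintype.card ι * Module.finrank (adjoin K (Set.range t)) E := by
  have h0 : t '' (((Finset.univ : Finset ι) : Set ι)ᶜ) ∪
      (fun i => t i ^ r) '' ((Finset.univ : Finset ι) : Set ι) = Set.range fun i => t i ^ r := by
    simp
  have := finrank_adjoin_mixed t ht r hr Finset.univ
  rw [h0] at this
  simpa using this

/-- Subfield / ring-hom form of FF4, in the shape used by `LS.coordField` and `LS.Indep`. -/
theorem finrank_closure_range_pow {K E : Type*} [Field K] [Field E] (f : K →+* E) {g : ℕ}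
    (t : Fin g → E)
    (ht : ∀ p : MvPolynomial (Fin g) K, MvPolynomial.eval₂ f t p = 0 → p = 0) (r : ℕ)
    (hr : 0 < r) :
    Module.finrank (Subfield.closure (Set.range f ∪ Set.range fun i => t i ^ r)) E =
      r ^ g * Module.finrank (Subfield.closure (Set.range f ∪ Set.range t)) E := by
  let _ : Algebra K E := f.toAlgebra
  have hind : AlgebraicIndependent K t := by
    rw [algebraicIndependent_iff]
    intro p hp
    exact ht p (by rw [← hp, MvPolynomial.aeval_def]; rfl)
  have := finrank_adjoin_range_pow (K := K) t hind r hr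
  rw [Fintype.card_fin] at this
  exact this

end Fermat.Agent.S26.LS.H798

end
-- ===== PACK-END S26/LS/H798/FieldPow.lean

-- ===== PACK-BEGIN S26/H566/Regular.lean
section


/-!
# Row S26, block LS (helper566): rational functions regular on an open set are sections

`X` an integral scheme.  A rational function `f ∈ K(X)` is *regular at* `x` if it lies in the
image of the stalk `O_x → K(X)`.

* `exists_section_of_regularAt_affine` / `exists_section_of_regularAt` : a rational function
  regular at every point of an open `V` is (the germ of) a section over `V`.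
-/

set_option autoImplicit false
set_option linter.style.haveILetI false
universe u

open CategoryTheory AlgebraicGeometry TopologicalSpace Opposite

namespace Fermat.Agent.S26.H566

variable {X : Scheme.{u}} [IsIntegral X]

/-- The rational function `f` is regular at `x`. -/
def RegularAt (f : X.functionField) (x : X) : Prop :=
  f ∈ Set.range (algebraMap (X.presheaf.stalk x) X.functionField)

theorem regularAt_germ {U : X.Opens} (s : Γ(X, U)) (x : X) (hx : x ∈ U) :
    RegularAt (algebraMap (X.presheaf.stalk x) X.functionField (X.presheaf.germ U x hx s)) x :=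
  ⟨_, rfl⟩

/-- The germ at the generic point of a section over a nonempty open is the image of its germ at
any point. -/
theorem algebraMap_germ {U : X.Opens} (s : Γ(X, U)) (x : X) (hx : x ∈ U) :
    algebraMap (X.presheaf.stalk x) X.functionField (X.presheaf.germ U x hx s) =
      X.presheaf.germ U (genericPoint X)
        (((genericPoint_spec X).mem_open_set_iff U.isOpen).mpr ⟨x, Set.mem_univ x, hx⟩) s := by
  haveI : Nonempty U := ⟨⟨x, hx⟩⟩
  exact Scheme.algebraMap_germ_eq_germToFunctionField X hx s

theorem exists_section_of_regularAt_affine {U : X.Opens} (hU : IsAffineOpen U)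
    (f : X.functionField) (hf : ∀ x ∈ U, RegularAt f x) :
    ∃ s : Γ(X, U), ∀ (x : X) (hx : x ∈ U),
      algebraMap (X.presheaf.stalk x) X.functionField (X.presheaf.germ U x hx s) = f := by
  by_cases hne : Nonempty U
  swap
  · exact ⟨0, fun x hx => absurd ⟨⟨x, hx⟩⟩ hne⟩
  haveI := hne
  haveI := functionField_isFractionRing_of_isAffineOpen X U hU
  -- the ideal of denominators
  let denom : Ideal Γ(X, U) :=
    (1 : Submodule Γ(X, U) X.functionField).comap
      (LinearMap.toSpanSingleton Γ(X, U) X.functionField f)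
  have hmem : ∀ r : Γ(X, U), r ∈ denom ↔
      ∃ s : Γ(X, U), algebraMap Γ(X, U) X.functionField s = r • f := by
    intro r
    simp only [denom, Submodule.mem_comap, LinearMap.toSpanSingleton_apply, Submodule.mem_one]
  suffices h1 : (1 : Γ(X, U)) ∈ denom by
    obtain ⟨s, hs⟩ := (hmem 1).1 h1
    rw [one_smul] at hs
    refine ⟨s, fun x hx => ?_⟩
    rw [Scheme.algebraMap_germ_eq_germToFunctionField X hx s]
    exact hs
  by_contra h1
  obtain ⟨m, hm, hle⟩ := denom.exists_le_maximal ((Ideal.ne_top_iff_one _).mpr h1)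
  let y : PrimeSpectrum Γ(X, U) := ⟨m, hm.isPrime⟩
  obtain ⟨x₀, hx₀⟩ : ∃ x₀ : U, hU.primeIdealOf x₀ = y := by
    refine ⟨hU.isoSpec.inv y, ?_⟩
    show hU.isoSpec.hom (hU.isoSpec.inv y) = y
    rw [← Scheme.Hom.comp_apply, Iso.inv_hom_id]
    rfl
  haveI hloc : IsLocalization.AtPrime (X.presheaf.stalk (x₀ : X)) (hU.primeIdealOf x₀).asIdeal :=
    hU.isLocalization_stalk x₀
  obtain ⟨g, hg⟩ := hf _ x₀.2
  obtain ⟨⟨a, s⟩, has⟩ := IsLocalization.surj (M := (hU.primeIdealOf x₀).asIdeal.primeCompl)
    (S := X.presheaf.stalk (x₀ : X)) g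
  have hs : (s : Γ(X, U)) ∈ denom := by
    rw [hmem]
    refine ⟨a, ?_⟩
    have h3 := congrArg (algebraMap (X.presheaf.stalk (x₀ : X)) X.functionField) has
    rw [map_mul, hg] at h3
    have e1 : ∀ r : Γ(X, U), algebraMap (X.presheaf.stalk (x₀ : X)) X.functionField
        (algebraMap Γ(X, U) (X.presheaf.stalk (x₀ : X)) r) =
          algebraMap Γ(X, U) X.functionField r := fun r =>
      (IsScalarTower.algebraMap_apply Γ(X, U)
        (X.presheaf.stalk (x₀ : X)) X.functionField r).symm
    rw [e1, e1] at h3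
    rw [Algebra.smul_def, mul_comm, h3]
  have hs' : (s : Γ(X, U)) ∉ y.asIdeal := by
    have h4 : (s : Γ(X, U)) ∉ (hU.primeIdealOf x₀).asIdeal := s.2
    have h6 : ∀ t : Γ(X, U), t ∈ y.asIdeal → t ∈ (hU.primeIdealOf x₀).asIdeal :=
      fun t ht => by rw [hx₀]; exact ht
    exact fun h5 => h4 (h6 _ h5)
  exact hs' (hle hs)

theorem genericPoint_mem {U : X.Opens} {x : X} (hx : x ∈ U) : genericPoint X ∈ U :=
  ((genericPoint_spec X).mem_open_set_iff U.isOpen).mpr ⟨x, Set.mem_univ x, hx⟩

theorem algebraMap_stalk_injective (x : X) :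
    Function.Injective (algebraMap (X.presheaf.stalk x) X.functionField) :=
  IsFractionRing.injective (X.presheaf.stalk x) X.functionField

/-- Two sections over `U` with the same image in the function field (at some point) agree. -/
theorem section_ext {U : X.Opens} (s t : Γ(X, U)) (x : X) (hx : x ∈ U)
    (h : algebraMap (X.presheaf.stalk x) X.functionField (X.presheaf.germ U x hx s) =
      algebraMap (X.presheaf.stalk x) X.functionField (X.presheaf.germ U x hx t)) : s = t :=
  germ_injective_of_isIntegral X x hx (algebraMap_stalk_injective x h)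

theorem algebraMap_germ_res {U V : X.Opens} (h : U ≤ V) (s : Γ(X, V)) (x : X) (hx : x ∈ U) :
    algebraMap (X.presheaf.stalk x) X.functionField
        (X.presheaf.germ U x hx (X.presheaf.map (homOfLE h).op s)) =
      algebraMap (X.presheaf.stalk x) X.functionField (X.presheaf.germ V x (h hx) s) := by
  rw [TopCat.Presheaf.germ_res_apply]

/-- A rational function which is regular at every point of the open `V` is a section
over `V`. -/
theorem exists_section_of_regularAt (V : X.Opens) (f : X.functionField)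
    (hf : ∀ x ∈ V, RegularAt f x) :
    ∃ s : Γ(X, V), ∀ (x : X) (hx : x ∈ V),
      algebraMap (X.presheaf.stalk x) X.functionField (X.presheaf.germ V x hx s) = f := by
  have hcov : ∀ x : V, ∃ W : X.Opens, IsAffineOpen W ∧ (x : X) ∈ W ∧ W ≤ V := by
    intro x
    obtain ⟨_, ⟨W, hW, rfl⟩, hxW, hWV⟩ :=
      X.isBasis_affineOpens.exists_subset_of_mem_open x.2 V.2
    exact ⟨W, hW, hxW, hWV⟩
  choose W hW hxW hWV using hcov
  have hsec : ∀ x : V, ∃ s : Γ(X, W x), ∀ (z : X) (hz : z ∈ W x),
      algebraMap (X.presheaf.stalk z) X.functionField (X.presheaf.germ (W x) z hz s) = f :=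
    fun x => exists_section_of_regularAt_affine (hW x) f (fun z hz => hf z (hWV x hz))
  choose sf hsf using hsec
  have hcompat : TopCat.Presheaf.IsCompatible X.presheaf W sf := by
    intro x y
    have hz : genericPoint X ∈ W x ⊓ W y := ⟨genericPoint_mem (hxW x), genericPoint_mem (hxW y)⟩
    apply section_ext _ _ (genericPoint X) hz
    rw [TopCat.Presheaf.germ_res_apply, TopCat.Presheaf.germ_res_apply, hsf x, hsf y]
  obtain ⟨s, hs, -⟩ := X.sheaf.existsUnique_gluing' W V (fun x => homOfLE (hWV x))
    (fun z hz => Opens.mem_iSup.mpr ⟨⟨z, hz⟩, hxW ⟨z, hz⟩⟩) sf hcompat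
  refine ⟨s, fun x hx => ?_⟩
  have h1 := hs ⟨x, hx⟩
  rw [← hsf ⟨x, hx⟩ x (hxW ⟨x, hx⟩), ← h1]
  exact (algebraMap_germ_res (hWV ⟨x, hx⟩) s x (hxW ⟨x, hx⟩)).symm

end Fermat.Agent.S26.H566

end
-- ===== PACK-END S26/H566/Regular.lean

-- ===== PACK-BEGIN S26/H686/Rigidity.lean
section


/-!
# S26 / CUBE, leaf C0 (helper686): the rigidity lemma

`K` algebraically closed.  `Y` proper over `K` with a `K`-point `y₀`, `Z` locally of finite type
over `K` with a `K`-point `z₀`, `Y ×_K Z` integral, `J` separated and locally of finite type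
over `K`.  If `φ : Y ×_K Z ⟶ J` is constant on `Y × z₀`, then `φ (y, z) = φ (y₀, z)`.
-/

set_option autoImplicit false
set_option backward.isDefEq.respectTransparency false

universe u

open CategoryTheory CategoryTheory.Limits AlgebraicGeometry

namespace Fermat.Agent.S26.H686

variable {K : Type u} [Field K] {Y Z J : Scheme.{u}}

/-- The fibre of `pullback.snd` over a `K`-point is the range of the section `(id, y ≫ z₀)`. -/
theorem range_lift_id (y : Y ⟶ Spec (.of K)) (z : Z ⟶ Spec (.of K))
    (z₀ : Spec (.of K) ⟶ Z) (hz₀ : z₀ ≫ z = 𝟙 _) :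
    Set.range (pullback.lift (𝟙 Y) (y ≫ z₀) (by simp [hz₀]) : Y ⟶ pullback y z) =
      pullback.snd y z ⁻¹' {z₀ (IsLocalRing.closedPoint K)} := by
  have h1 : (pullback.lift (𝟙 Y) (y ≫ z₀) (by simp [hz₀]) : Y ⟶ pullback y z) =
      pullback.lift (𝟙 Y) y (by simp) ≫
        pullback.map y (𝟙 _) y z (𝟙 Y) z₀ (𝟙 _) (by simp) (by simp [hz₀]) := by
    apply pullback.hom_ext <;> simp
  have h2 : IsIso (pullback.lift (𝟙 Y) y (by simp) : Y ⟶ pullback y (𝟙 (Spec (.of K)))) := by
    refine ⟨pullback.fst _ _, by simp, ?_⟩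
    apply pullback.hom_ext
    · simp
    · simp [pullback.condition]
  have h3 : Function.Surjective
      (pullback.lift (𝟙 Y) y (by simp) : Y ⟶ pullback y (𝟙 (Spec (.of K)))) :=
    (pullback.lift (𝟙 Y) y (by simp) : Y ⟶ pullback y (𝟙 (Spec (.of K)))).surjective
  have h4 : Set.range z₀ = {z₀ (IsLocalRing.closedPoint K)} := by
    ext w
    constructor
    · rintro ⟨a, rfl⟩
      rw [Subsingleton.elim a (IsLocalRing.closedPoint K)]
      rfl
    · rintro rfl
      exact ⟨_, rfl⟩
  rw [h1, Scheme.Hom.comp_base, TopCat.coe_comp, Set.range_comp, h3.range_eq, Set.image_univ,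
    Scheme.Pullback.range_map, h4]
  simp


variable [IsAlgClosed K]

/-- **Rigidity lemma** (integral form).  `Y` proper and irreducible over the algebraically closed
field `K` with a `K`-point `y₀`; `Z` locally of finite type over `K` with a `K`-point `z₀`;
`Y ×_K Z` integral; `J` separated and locally of finite type over `K`.  A `K`-morphism
`φ : Y ×_K Z ⟶ J` which is constant on `Y × z₀` factors through the projection to `Z`:
`φ = p₂ ≫ (y₀, id) ≫ φ`. -/
theorem rigidity_of_isIntegral
    (y : Y ⟶ Spec (.of K)) (z : Z ⟶ Spec (.of K)) (j : J ⟶ Spec (.of K))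
    [IsProper y] [IrreducibleSpace Y] [IsIntegral (pullback y z)] [LocallyOfFiniteType z]
    [IsSeparated j] [LocallyOfFiniteType j]
    (y₀ : Spec (.of K) ⟶ Y) (hy₀ : y₀ ≫ y = 𝟙 _)
    (z₀ : Spec (.of K) ⟶ Z) (hz₀ : z₀ ≫ z = 𝟙 _)
    (j₀ : Spec (.of K) ⟶ J)
    (φ : pullback y z ⟶ J) (hφ : φ ≫ j = pullback.fst y z ≫ y)
    (hconst : pullback.lift (𝟙 Y) (y ≫ z₀) (by simp [hz₀]) ≫ φ = y ≫ j₀) :
    φ = pullback.snd y z ≫ pullback.lift (z ≫ y₀) (𝟙 Z) (by simp [hy₀]) ≫ φ := by
  let point : Spec (.of K) := IsLocalRing.closedPoint K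
  have hLFT : LocallyOfFiniteType (φ ≫ j) := by rw [hφ]; infer_instance
  have : JacobsonSpace ↥(pullback y z : Scheme.{u}) := LocallyOfFiniteType.jacobsonSpace (φ ≫ j)
  have hcond : pullback.snd y z ≫ z = φ ≫ j := by rw [hφ, pullback.condition]
  let γ : pullback y z ⟶ pullback z j := pullback.lift (pullback.snd y z) φ hcond
  let g : pullback z j ⟶ Z := pullback.fst z j
  have hγg : γ ≫ g = pullback.snd y z := pullback.lift_fst _ _ _
  have hγφ : γ ≫ pullback.snd z j = φ := pullback.lift_snd _ _ _
  have : IsProper (γ ≫ g) := by rw [hγg]; infer_instance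
  have : IsProper γ := .of_comp γ g
  have hj₀ : j₀ ≫ j = 𝟙 _ := by
    have h := congr(y₀ ≫ $hconst ≫ j)
    simp only [Category.assoc, hφ, pullback.lift_fst_assoc, Category.id_comp] at h
    rw [reassoc_of% hy₀, hy₀] at h
    exact h.symm
  -- the image of the fibre over `z₀` is a point
  let q : ↥(pullback z j : Scheme.{u}) := (pullback.lift z₀ j₀ (by rw [hz₀, hj₀])) point
  have H : γ '' ((γ ≫ g) ⁻¹' {z₀ point}) ⊆ {q} := by
    rintro _ ⟨x, hx, rfl⟩
    rw [hγg, ← range_lift_id y z z₀ hz₀] at hx
    obtain ⟨a, rfl⟩ := hx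
    have h1 : (pullback.lift (𝟙 Y) (y ≫ z₀) (by simp [hz₀]) : Y ⟶ pullback y z) ≫ γ =
        y ≫ pullback.lift z₀ j₀ (by rw [hz₀, hj₀]) := by
      apply pullback.hom_ext
      · simp [γ]
      · simp [γ, hconst]
    rw [Set.mem_singleton_iff, ← Scheme.Hom.comp_apply, h1, Scheme.Hom.comp_apply]
    exact congrArg _ (Subsingleton.elim _ _)
  obtain ⟨U, hU, HU⟩ := exists_finite_imageι_comp_morphismRestrict_of_finite_image_preimage
    γ g (z₀ point) ((Set.finite_singleton _).subset H)
  -- over `U` the fibres of `image γ → Z` are finite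
  have Hfib (x : U) : (g ⁻¹' {x.1} ∩ Set.range γ).Finite := by
    refine ((((γ.imageι ≫ g) ∣_ U).finite_preimage_singleton x).image
      (Scheme.Opens.ι _ ≫ γ.imageι)).subset ?_
    rintro _ ⟨hw, t, rfl⟩
    have hw' : (γ.imageι ≫ g) (γ.toImage t) = x.1 := by
      rw [← Scheme.Hom.comp_apply, Scheme.Hom.toImage_imageι_assoc]
      exact hw
    have hmem : γ.toImage t ∈ (γ.imageι ≫ g) ⁻¹ᵁ U := by
      show (γ.imageι ≫ g) (γ.toImage t) ∈ U
      rw [hw']
      exact x.2
    refine ⟨⟨γ.toImage t, hmem⟩, ?_, ?_⟩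
    · apply Subtype.ext
      have := congr($(morphismRestrict_ι (γ.imageι ≫ g) U) ⟨γ.toImage t, hmem⟩)
      simp only [Scheme.Hom.comp_apply] at this
      exact this.trans hw'
    · rw [Scheme.Hom.comp_apply]
      show γ.imageι (γ.toImage t) = γ t
      rw [← Scheme.Hom.comp_apply, Scheme.Hom.toImage_imageι]
  -- the retraction `(y, z) ↦ (y₀, z)`
  let r : pullback y z ⟶ pullback y z :=
    pullback.snd y z ≫ pullback.lift (z ≫ y₀) (𝟙 Z) (by simp [hy₀])
  have hr : r ≫ pullback.snd y z = pullback.snd y z := by simp [r]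
  show φ = r ≫ φ
  refine ext_of_apply_eq j (((pullback.snd y z) ⁻¹ᵁ U : (pullback y z).Opens) : Set ↥(pullback y z))
    ((pullback.snd y z) ⁻¹ᵁ U).isOpen.isLocallyClosed
    (((pullback.snd y z) ⁻¹ᵁ U).isOpen.dense ?_) ?_ ?_
  · refine ⟨(pullback.lift y₀ z₀ (by rw [hy₀, hz₀]) : Spec (.of K) ⟶ pullback y z) point, ?_⟩
    show pullback.snd y z _ ∈ U
    rw [← Scheme.Hom.comp_apply, pullback.lift_snd]
    exact hU
  · intro p hpU hp
    have hx : IsClosed {pullback.snd y z p} := by
      simpa using (pullback.snd y z).isClosedMap _ hp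
    let xp : Spec (.of K) ⟶ Z := pointOfClosedPoint z _ hx
    have hxp : xp ≫ z = 𝟙 _ := pointOfClosedPoint_comp z _ hx
    have hxp' : xp point = pullback.snd y z p := pointOfClosedPoint_apply z _ hx point
    have hS : pullback.snd y z ⁻¹' {pullback.snd y z p} =
        Set.range (pullback.lift (𝟙 Y) (y ≫ xp) (by simp [hxp]) : Y ⟶ pullback y z) := by
      rw [range_lift_id y z xp hxp, hxp']
    have hsub := subsingleton_image_closure_of_finite_of_isPreirreducible
      (f := γ) (S := pullback.snd y z ⁻¹' {pullback.snd y z p})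
      (hx.preimage (pullback.snd y z).continuous).isLocallyClosed ?_ γ.continuous
      γ.isClosedMap ((Hfib ⟨_, hpU⟩).subset ?_)
    · have h1 : γ p = γ (r p) := by
        refine hsub ⟨p, subset_closure rfl, rfl⟩ ⟨r p, subset_closure ?_, rfl⟩
        show pullback.snd y z (r p) = pullback.snd y z p
        rw [← Scheme.Hom.comp_apply, hr]
      have h2 := congr((pullback.snd z j) $h1)
      rw [← Scheme.Hom.comp_apply, ← Scheme.Hom.comp_apply, hγφ] at h2
      rw [h2, Scheme.Hom.comp_apply]
      rfl
    · rw [hS, ← Set.image_univ]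
      exact ((IrreducibleSpace.isIrreducible_univ Y).image _
        (Scheme.Hom.continuous _).continuousOn).isPreirreducible
    · rintro _ ⟨w, hw, rfl⟩
      refine ⟨?_, w, rfl⟩
      show g (γ w) = pullback.snd y z p
      rw [← Scheme.Hom.comp_apply, hγg]
      exact hw
  · simp only [r, Category.assoc, hφ, pullback.lift_fst_assoc]
    rw [pullback.condition, hy₀, Category.comp_id]


/-- **Rigidity lemma** (C0).  `Y` proper and geometrically integral over the algebraically
closed field `K` with a `K`-point `y₀`; `Z` integral and locally of finite type over `K` with a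
`K`-point `z₀`; `J` separated and locally of finite type over `K`.  A `K`-morphism
`φ : Y ×_K Z ⟶ J` which is constant on `Y × z₀` satisfies `φ = p₂ ≫ (y₀, id) ≫ φ`. -/
theorem rigidity
    (y : Y ⟶ Spec (.of K)) (z : Z ⟶ Spec (.of K)) (j : J ⟶ Spec (.of K))
    [IsProper y] [GeometricallyIntegral y] [IsIntegral Z] [LocallyOfFiniteType z]
    [IsSeparated j] [LocallyOfFiniteType j]
    (y₀ : Spec (.of K) ⟶ Y) (hy₀ : y₀ ≫ y = 𝟙 _)
    (z₀ : Spec (.of K) ⟶ Z) (hz₀ : z₀ ≫ z = 𝟙 _)
    (j₀ : Spec (.of K) ⟶ J)
    (φ : pullback y z ⟶ J) (hφ : φ ≫ j = pullback.fst y z ≫ y)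
    (hconst : pullback.lift (𝟙 Y) (y ≫ z₀) (by simp [hz₀]) ≫ φ = y ≫ j₀) :
    φ = pullback.snd y z ≫ pullback.lift (z ≫ y₀) (𝟙 Z) (by simp [hy₀]) ≫ φ := by
  have : IsIntegral Y := GeometricallyIntegral.isIntegral_of_subsingleton y
  have : IsLocallyNoetherian Z := LocallyOfFiniteType.isLocallyNoetherian z
  have : IsIntegral (pullback y z) := inferInstance
  exact rigidity_of_isIntegral y z j y₀ hy₀ z₀ hz₀ j₀ φ hφ hconst

/-- **Rigidity lemma, constant form.**  If moreover `φ` is constant on `y₀ × Z`, then `φ` is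
constant. -/
theorem rigidity_const
    (y : Y ⟶ Spec (.of K)) (z : Z ⟶ Spec (.of K)) (j : J ⟶ Spec (.of K))
    [IsProper y] [GeometricallyIntegral y] [IsIntegral Z] [LocallyOfFiniteType z]
    [IsSeparated j] [LocallyOfFiniteType j]
    (y₀ : Spec (.of K) ⟶ Y) (hy₀ : y₀ ≫ y = 𝟙 _)
    (z₀ : Spec (.of K) ⟶ Z) (hz₀ : z₀ ≫ z = 𝟙 _)
    (j₀ : Spec (.of K) ⟶ J)
    (φ : pullback y z ⟶ J) (hφ : φ ≫ j = pullback.fst y z ≫ y)
    (hY : pullback.lift (𝟙 Y) (y ≫ z₀) (by simp [hz₀]) ≫ φ = y ≫ j₀)
    (hZ : pullback.lift (z ≫ y₀) (𝟙 Z) (by simp [hy₀]) ≫ φ = z ≫ j₀) :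
    φ = (pullback.fst y z ≫ y) ≫ j₀ := by
  rw [rigidity y z j y₀ hy₀ z₀ hz₀ j₀ φ hφ hY, hZ, pullback.condition, Category.assoc]

end Fermat.Agent.S26.H686

end
-- ===== PACK-END S26/H686/Rigidity.lean

-- ===== PACK-BEGIN S26/H126/GroupCalc.lean
section


/-!
# Row S26, block SOFT, leaf S1 (helper126): group calculus from `RelativeGroupLaw`

Everything is Yoneda: a `RelativeGroupLaw R f` is a natural group structure on the functor of
points `T ↦ SchemeHomOver t f` of `f : A ⟶ Spec R`.  We extract the morphisms of schemes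

* `addHom G : pullback f f ⟶ A` (addition `m`),
* `negHom G : A ⟶ A` (`[-1]`),
* `G.schemeNsmul n : A ⟶ A` (`[n]`, from the prelude),
* `transl G x : A ⟶ A` (translation `T_x : a ↦ a + x` by an `R`-point `x`),

and prove that they compute the group law on `T`-points, together with the usual identities.
The last section identifies the `T`-points of `G.schemeKer n` with the `n`-torsion `T`-points.

Only the prelude and Mathlib are used; the base is an arbitrary commutative ring `R`.
-/

set_option autoImplicit false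

noncomputable section

universe u

open CategoryTheory CategoryTheory.Limits AlgebraicGeometry NeronModelInfra GoodReductionJacobian

namespace Fermat.Agent.S26.H126

variable {R : Type u} [CommRing R] {A : Scheme.{u}} {f : A ⟶ Spec (CommRingCat.of R)}

/-! ## Points -/

section Points

variable {T T' T'' : Scheme.{u}} {t : T ⟶ Spec (CommRingCat.of R)}
  {t' : T' ⟶ Spec (CommRingCat.of R)} {t'' : T'' ⟶ Spec (CommRingCat.of R)}

/-- Yoneda: every `T`-point is the pull-back of the universal point `idPoint`. -/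
theorem comp_idPoint (x : SchemeHomOver t f) :
    schemeHomOverComp x.1 x.2 (RelativeGroupLaw.idPoint (f := f)) = x :=
  Subtype.ext (Category.comp_id _)

theorem schemeHomOverComp_id (x : SchemeHomOver t f) :
    schemeHomOverComp (𝟙 T) (Category.id_comp t) x = x :=
  Subtype.ext (Category.id_comp _)

theorem schemeHomOverComp_comp (ψ : T' ⟶ T) (hψ : ψ ≫ t = t') (φ : T'' ⟶ T')
    (hφ : φ ≫ t' = t'') (x : SchemeHomOver t f) :
    schemeHomOverComp φ hφ (schemeHomOverComp ψ hψ x) =
      schemeHomOverComp (φ ≫ ψ) (by rw [Category.assoc, hψ, hφ]) x :=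
  Subtype.ext (Category.assoc _ _ _).symm

/-- The constant `T`-point with value the `R`-point `x`. -/
def constPt (t : T ⟶ Spec (CommRingCat.of R))
    (x : SchemeHomOver (𝟙 (Spec (CommRingCat.of R))) f) : SchemeHomOver t f :=
  schemeHomOverComp t (Category.comp_id t) x

@[simp]
theorem constPt_coe (t : T ⟶ Spec (CommRingCat.of R))
    (x : SchemeHomOver (𝟙 (Spec (CommRingCat.of R))) f) : (constPt t x).1 = t ≫ x.1 :=
  rfl

theorem constPt_id (x : SchemeHomOver (𝟙 (Spec (CommRingCat.of R))) f) :
    constPt (𝟙 (Spec (CommRingCat.of R))) x = x :=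
  Subtype.ext (Category.id_comp _)

theorem schemeHomOverComp_constPt (ψ : T' ⟶ T) (hψ : ψ ≫ t = t')
    (x : SchemeHomOver (𝟙 (Spec (CommRingCat.of R))) f) :
    schemeHomOverComp ψ hψ (constPt t x) = constPt t' x :=
  Subtype.ext (by simp [← hψ])

end Points

/-! ## The group law on `T`-points -/

section Law

variable (G : RelativeGroupLaw R f)
variable {T T' : Scheme.{u}} {t : T ⟶ Spec (CommRingCat.of R)}
  {t' : T' ⟶ Spec (CommRingCat.of R)}

/-- Uniqueness of inverses. -/
theorem law_eq_inv_of_mul_eq_one {x y : SchemeHomOver t f} (h : G.mul t y x = G.one t) :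
    y = G.inv t x := by
  calc y = G.mul t y (G.one t) := (G.mul_one t y).symm
    _ = G.mul t y (G.mul t x (G.inv t x)) := by rw [G.mul_inv_cancel]
    _ = G.mul t (G.mul t y x) (G.inv t x) := (G.mul_assoc t _ _ _).symm
    _ = G.mul t (G.one t) (G.inv t x) := by rw [h]
    _ = G.inv t x := G.one_mul t _

/-- The inverse is natural in `T` (a consequence of the naturality of the product). -/
theorem law_inv_natural (ψ : T' ⟶ T) (hψ : ψ ≫ t = t') (x : SchemeHomOver t f) :
    schemeHomOverComp ψ hψ (G.inv t x) = G.inv t' (schemeHomOverComp ψ hψ x) := by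
  apply law_eq_inv_of_mul_eq_one
  rw [← G.mul_natural t t' ψ hψ, G.inv_mul_cancel, G.one_natural t t' ψ hψ]

/-- `G.nsmul` is the power of the group `G.pointGroup t`. -/
theorem law_nsmul_eq_pow (n : ℕ) (x : SchemeHomOver t f) :
    letI := G.pointGroup t
    G.nsmul t n x = x ^ n := by
  letI := G.pointGroup t
  induction n with
  | zero => exact (pow_zero x).symm
  | succ n ih =>
      rw [pow_succ, ← ih]
      rfl

theorem law_nsmul_add (m n : ℕ) (x : SchemeHomOver t f) :
    G.nsmul t (m + n) x = G.mul t (G.nsmul t m x) (G.nsmul t n x) := by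
  letI := G.pointGroup t
  rw [law_nsmul_eq_pow, law_nsmul_eq_pow, law_nsmul_eq_pow]
  exact pow_add x m n

theorem law_nsmul_mul (m n : ℕ) (x : SchemeHomOver t f) :
    G.nsmul t (m * n) x = G.nsmul t n (G.nsmul t m x) := by
  letI := G.pointGroup t
  rw [law_nsmul_eq_pow, law_nsmul_eq_pow, law_nsmul_eq_pow]
  exact pow_mul x m n

theorem law_nsmul_inv (n : ℕ) (x : SchemeHomOver t f) :
    G.nsmul t n (G.inv t x) = G.inv t (G.nsmul t n x) := by
  letI := G.pointGroup t
  rw [law_nsmul_eq_pow, law_nsmul_eq_pow]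
  exact inv_pow x n

/-- `[n]` is additive on `T`-points when the law is commutative. -/
theorem law_nsmul_mul_distrib (hc : G.IsCommutative) (n : ℕ) (x y : SchemeHomOver t f) :
    G.nsmul t n (G.mul t x y) = G.mul t (G.nsmul t n x) (G.nsmul t n y) := by
  letI := G.pointGroup t
  rw [law_nsmul_eq_pow, law_nsmul_eq_pow, law_nsmul_eq_pow]
  have h : Commute x y := hc t x y
  exact h.mul_pow n

theorem law_inv_mul_distrib (hc : G.IsCommutative) (x y : SchemeHomOver t f) :
    G.inv t (G.mul t x y) = G.mul t (G.inv t x) (G.inv t y) := by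
  letI := G.pointGroup t
  have h : Commute x y := hc t x y
  show (x * y)⁻¹ = x⁻¹ * y⁻¹
  rw [mul_inv_rev]
  exact (h.inv_inv.eq).symm

theorem law_inv_inv (x : SchemeHomOver t f) : G.inv t (G.inv t x) = x := by
  letI := G.pointGroup t
  exact _root_.inv_inv x

theorem law_inv_one : G.inv t (G.one t) = G.one t := by
  letI := G.pointGroup t
  exact _root_.inv_one

/-! ### constant points -/

theorem constPt_mul (t : T ⟶ Spec (CommRingCat.of R))
    (x y : SchemeHomOver (𝟙 (Spec (CommRingCat.of R))) f) :
    constPt t (G.mul _ x y) = G.mul t (constPt t x) (constPt t y) :=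
  G.mul_natural _ t t (Category.comp_id t) x y

theorem constPt_one (t : T ⟶ Spec (CommRingCat.of R)) :
    constPt t (G.one (𝟙 (Spec (CommRingCat.of R)))) = G.one t :=
  G.one_natural _ t t (Category.comp_id t)

theorem constPt_inv (t : T ⟶ Spec (CommRingCat.of R))
    (x : SchemeHomOver (𝟙 (Spec (CommRingCat.of R))) f) :
    constPt t (G.inv _ x) = G.inv t (constPt t x) :=
  law_inv_natural G t (Category.comp_id t) x

theorem constPt_nsmul (t : T ⟶ Spec (CommRingCat.of R)) (n : ℕ)
    (x : SchemeHomOver (𝟙 (Spec (CommRingCat.of R))) f) :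
    constPt t (G.nsmul _ n x) = G.nsmul t n (constPt t x) :=
  G.nsmul_natural _ t t (Category.comp_id t) n x

/-- The zero section composed with the structure map is the zero `T`-point. -/
theorem law_one_coe (t : T ⟶ Spec (CommRingCat.of R)) :
    (G.one t).1 = t ≫ (G.one (𝟙 (Spec (CommRingCat.of R)))).1 :=
  (congrArg Subtype.val (constPt_one G t)).symm

end Law

/-! ## The morphisms `[-1]`, `[n]`, `m` -/

section Morphisms

variable (G : RelativeGroupLaw R f)
variable {T T' : Scheme.{u}} {t : T ⟶ Spec (CommRingCat.of R)}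
  {t' : T' ⟶ Spec (CommRingCat.of R)}

/-- The zero section `Spec R ⟶ A`. -/
def zeroSec : Spec (CommRingCat.of R) ⟶ A := (G.one (𝟙 (Spec (CommRingCat.of R)))).1

@[reassoc (attr := simp)]
theorem zeroSec_over : zeroSec G ≫ f = 𝟙 _ := (G.one (𝟙 (Spec (CommRingCat.of R)))).2

theorem law_one_coe' (t : T ⟶ Spec (CommRingCat.of R)) : (G.one t).1 = t ≫ zeroSec G :=
  law_one_coe G t

/-- The inverse `[-1] : A ⟶ A`. -/
def negHom : A ⟶ A := (G.inv f RelativeGroupLaw.idPoint).1

@[reassoc (attr := simp)]
theorem negHom_over : negHom G ≫ f = f := (G.inv f RelativeGroupLaw.idPoint).2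

/-- Yoneda for `[-1]`. -/
theorem law_inv_coe (x : SchemeHomOver t f) : (G.inv t x).1 = x.1 ≫ negHom G := by
  have h := law_inv_natural G x.1 x.2 RelativeGroupLaw.idPoint
  rw [comp_idPoint] at h
  exact (congrArg Subtype.val h).symm

/-- Yoneda for `[n]`. -/
theorem law_nsmul_coe (n : ℕ) (x : SchemeHomOver t f) :
    (G.nsmul t n x).1 = x.1 ≫ G.schemeNsmul n := by
  have h := G.nsmul_natural f t x.1 x.2 n RelativeGroupLaw.idPoint
  rw [comp_idPoint] at h
  exact (congrArg Subtype.val h).symm

@[reassoc (attr := simp)]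
theorem negHom_negHom : negHom G ≫ negHom G = 𝟙 A := by
  have h := law_inv_coe G (G.inv f RelativeGroupLaw.idPoint)
  rw [law_inv_inv] at h
  exact h.symm

/-- `[-1]` as an automorphism of `A`. -/
def negIso : A ≅ A where
  hom := negHom G
  inv := negHom G
  hom_inv_id := negHom_negHom G
  inv_hom_id := negHom_negHom G

instance negHom_isIso : IsIso (negHom G) := (negIso G).isIso_hom

theorem schemeNsmul_zero : G.schemeNsmul 0 = f ≫ zeroSec G :=
  law_one_coe' G f

theorem schemeNsmul_one : G.schemeNsmul 1 = 𝟙 A :=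
  congrArg Subtype.val (G.nsmul_one_apply f RelativeGroupLaw.idPoint)

theorem schemeNsmul_mul (m n : ℕ) :
    G.schemeNsmul (m * n) = G.schemeNsmul m ≫ G.schemeNsmul n := by
  have h := congrArg Subtype.val (law_nsmul_mul G m n (RelativeGroupLaw.idPoint (f := f)))
  rw [law_nsmul_coe G n] at h
  exact h

theorem schemeNsmul_comm (m n : ℕ) :
    G.schemeNsmul m ≫ G.schemeNsmul n = G.schemeNsmul n ≫ G.schemeNsmul m := by
  rw [← schemeNsmul_mul, ← schemeNsmul_mul, Nat.mul_comm]

theorem negHom_comp_schemeNsmul (n : ℕ) :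
    negHom G ≫ G.schemeNsmul n = G.schemeNsmul n ≫ negHom G := by
  have h := congrArg Subtype.val (law_nsmul_inv G n (RelativeGroupLaw.idPoint (f := f)))
  rw [law_nsmul_coe, law_inv_coe G (G.nsmul f n RelativeGroupLaw.idPoint)] at h
  exact h

@[reassoc (attr := simp)]
theorem zeroSec_comp_schemeNsmul (n : ℕ) : zeroSec G ≫ G.schemeNsmul n = zeroSec G := by
  have h := congrArg Subtype.val (G.nsmul_unit (𝟙 (Spec (CommRingCat.of R))) n)
  rw [law_nsmul_coe] at h
  exact h

@[reassoc (attr := simp)]
theorem zeroSec_comp_negHom : zeroSec G ≫ negHom G = zeroSec G := by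
  have h := congrArg Subtype.val (law_inv_one G (t := 𝟙 (Spec (CommRingCat.of R))))
  rw [law_inv_coe] at h
  exact h

/-! ### addition -/

variable (f) in
/-- The structure morphism of `A ×_R A`. -/
abbrev prodStr : pullback f f ⟶ Spec (CommRingCat.of R) := pullback.fst f f ≫ f

variable (f) in
/-- The first projection as an `A ×_R A`-point of `A`. -/
def fstPt : SchemeHomOver (_root_.Fermat.Agent.S26.H126.prodStr f) f := ⟨pullback.fst f f, rfl⟩

variable (f) in
/-- The second projection as an `A ×_R A`-point of `A`. -/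
def sndPt : SchemeHomOver (_root_.Fermat.Agent.S26.H126.prodStr f) f := ⟨pullback.snd f f, pullback.condition.symm⟩

/-- The addition `m : A ×_R A ⟶ A`. -/
def addHom : pullback f f ⟶ A := (G.mul (_root_.Fermat.Agent.S26.H126.prodStr f) (fstPt f) (sndPt f)).1

@[reassoc]
theorem addHom_over : addHom G ≫ f = _root_.Fermat.Agent.S26.H126.prodStr f := (G.mul (_root_.Fermat.Agent.S26.H126.prodStr f) (fstPt f) (sndPt f)).2

/-- The pair `(x, y) : T ⟶ A ×_R A` of two `T`-points. -/
def pairHom (x y : SchemeHomOver t f) : T ⟶ pullback f f :=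
  pullback.lift x.1 y.1 (x.2.trans y.2.symm)

@[reassoc (attr := simp)]
theorem pairHom_fst (x y : SchemeHomOver t f) : pairHom x y ≫ pullback.fst f f = x.1 :=
  pullback.lift_fst _ _ _

@[reassoc (attr := simp)]
theorem pairHom_snd (x y : SchemeHomOver t f) : pairHom x y ≫ pullback.snd f f = y.1 :=
  pullback.lift_snd _ _ _

@[reassoc]
theorem pairHom_over (x y : SchemeHomOver t f) : pairHom x y ≫ _root_.Fermat.Agent.S26.H126.prodStr f = t := by
  rw [_root_.Fermat.Agent.S26.H126.prodStr, pairHom_fst_assoc, x.2]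

theorem comp_pairHom (ψ : T' ⟶ T) (hψ : ψ ≫ t = t') (x y : SchemeHomOver t f) :
    ψ ≫ pairHom x y = pairHom (schemeHomOverComp ψ hψ x) (schemeHomOverComp ψ hψ y) := by
  apply pullback.hom_ext <;> simp

/-- Yoneda for the addition. -/
theorem law_mul_coe (x y : SchemeHomOver t f) : (G.mul t x y).1 = pairHom x y ≫ addHom G := by
  have h := G.mul_natural (_root_.Fermat.Agent.S26.H126.prodStr f) t (pairHom x y) (pairHom_over x y) (fstPt f) (sndPt f)
  have h1 : schemeHomOverComp (pairHom x y) (pairHom_over x y) (fstPt f) = x :=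
    Subtype.ext (pairHom_fst x y)
  have h2 : schemeHomOverComp (pairHom x y) (pairHom_over x y) (sndPt f) = y :=
    Subtype.ext (pairHom_snd x y)
  rw [h1, h2] at h
  exact (congrArg Subtype.val h).symm

/-- Commutativity of the addition as an identity of morphisms. -/
theorem symmetry_comp_addHom (hc : G.IsCommutative) :
    pairHom (sndPt f) (fstPt f) ≫ addHom G = addHom G := by
  rw [← law_mul_coe, hc (_root_.Fermat.Agent.S26.H126.prodStr f) (sndPt f) (fstPt f)]
  rfl

/-- `[n]` is a homomorphism: `m ≫ [n] = ([n] × [n]) ≫ m`. -/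
theorem addHom_comp_schemeNsmul (hc : G.IsCommutative) (n : ℕ) :
    addHom G ≫ G.schemeNsmul n =
      pairHom (G.nsmul (_root_.Fermat.Agent.S26.H126.prodStr f) n (fstPt f)) (G.nsmul (_root_.Fermat.Agent.S26.H126.prodStr f) n (sndPt f)) ≫ addHom G := by
  rw [← law_mul_coe, ← law_nsmul_mul_distrib G hc, law_nsmul_coe]
  rfl

/-- `[-1]` is a homomorphism: `m ≫ [-1] = ([-1] × [-1]) ≫ m`. -/
theorem addHom_comp_negHom (hc : G.IsCommutative) :
    addHom G ≫ negHom G =
      pairHom (G.inv (_root_.Fermat.Agent.S26.H126.prodStr f) (fstPt f)) (G.inv (_root_.Fermat.Agent.S26.H126.prodStr f) (sndPt f)) ≫ addHom G := by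
  rw [← law_mul_coe, ← law_inv_mul_distrib G hc, law_inv_coe]
  rfl

end Morphisms

/-! ## Translations -/

section Translations

variable (G : RelativeGroupLaw R f)
variable {T : Scheme.{u}} {t : T ⟶ Spec (CommRingCat.of R)}

/-- The `R`-points of `A`. -/
abbrev RPt (f : A ⟶ Spec (CommRingCat.of R)) : Type u :=
  SchemeHomOver (𝟙 (Spec (CommRingCat.of R))) f

/-- The translation `T_x : a ↦ a + x` by the `R`-point `x`. -/
def transl (x : RPt f) : A ⟶ A := (G.mul f RelativeGroupLaw.idPoint (constPt f x)).1

@[reassoc (attr := simp)]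
theorem transl_over (x : RPt f) : transl G x ≫ f = f :=
  (G.mul f RelativeGroupLaw.idPoint (constPt f x)).2

/-- Yoneda for translations: `T_x ∘ y = y + x`. -/
theorem comp_transl (y : SchemeHomOver t f) (x : RPt f) :
    y.1 ≫ transl G x = (G.mul t y (constPt t x)).1 := by
  have h := G.mul_natural f t y.1 y.2 RelativeGroupLaw.idPoint (constPt f x)
  rw [comp_idPoint, schemeHomOverComp_constPt] at h
  exact congrArg Subtype.val h

/-- Translations act on `R`-points by addition. -/
theorem pt_comp_transl (y x : RPt f) : y.1 ≫ transl G x = (G.mul _ y x).1 := by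
  rw [comp_transl, constPt_id]

theorem transl_one : transl G (G.one _) = 𝟙 A := by
  show (G.mul f RelativeGroupLaw.idPoint (constPt f (G.one _))).1 = 𝟙 A
  rw [constPt_one, G.mul_one]

theorem transl_mul (x y : RPt f) :
    transl G (G.mul _ x y) = transl G x ≫ transl G y := by
  have h := comp_transl G (G.mul f RelativeGroupLaw.idPoint (constPt f x)) y
  rw [G.mul_assoc, ← constPt_mul] at h
  exact h.symm

@[reassoc (attr := simp)]
theorem transl_comp_transl_inv (x : RPt f) :
    transl G x ≫ transl G (G.inv _ x) = 𝟙 A := by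
  rw [← transl_mul, G.mul_inv_cancel, transl_one]

@[reassoc (attr := simp)]
theorem transl_inv_comp_transl (x : RPt f) :
    transl G (G.inv _ x) ≫ transl G x = 𝟙 A := by
  rw [← transl_mul, G.inv_mul_cancel, transl_one]

/-- The translation `T_x` as an automorphism of `A`. -/
def translIso (x : RPt f) : A ≅ A where
  hom := transl G x
  inv := transl G (G.inv _ x)
  hom_inv_id := transl_comp_transl_inv G x
  inv_hom_id := transl_inv_comp_transl G x

instance transl_isIso (x : RPt f) : IsIso (transl G x) := (translIso G x).isIso_hom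

/-- `T_x` maps `0` to `x`. -/
@[reassoc]
theorem zeroSec_comp_transl (x : RPt f) : zeroSec G ≫ transl G x = x.1 := by
  have h := pt_comp_transl G (G.one _) x
  rw [G.one_mul] at h
  exact h

/-- Translations are transitive on `R`-points. -/
theorem exists_transl (y z : RPt f) : ∃ x : RPt f, y.1 ≫ transl G x = z.1 := by
  refine ⟨G.mul _ (G.inv _ y) z, ?_⟩
  rw [pt_comp_transl, ← G.mul_assoc, G.mul_inv_cancel, G.one_mul]

theorem transl_comm (hc : G.IsCommutative) (x y : RPt f) :
    transl G x ≫ transl G y = transl G y ≫ transl G x := by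
  rw [← transl_mul, ← transl_mul, hc _ x y]

/-- `[n] ∘ T_x = T_{n x} ∘ [n]`. -/
theorem transl_comp_schemeNsmul (hc : G.IsCommutative) (n : ℕ) (x : RPt f) :
    transl G x ≫ G.schemeNsmul n = G.schemeNsmul n ≫ transl G (G.nsmul _ n x) := by
  have h1 : transl G x ≫ G.schemeNsmul n =
      (G.nsmul f n (G.mul f RelativeGroupLaw.idPoint (constPt f x))).1 :=
    (law_nsmul_coe G n _).symm
  have h2 := comp_transl G (G.nsmul f n RelativeGroupLaw.idPoint) (G.nsmul _ n x)
  rw [h1, law_nsmul_mul_distrib G hc, ← constPt_nsmul]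
  exact h2.symm

/-- `[-1] ∘ T_x = T_{-x} ∘ [-1]`. -/
theorem transl_comp_negHom (hc : G.IsCommutative) (x : RPt f) :
    transl G x ≫ negHom G = negHom G ≫ transl G (G.inv _ x) := by
  have h1 : transl G x ≫ negHom G =
      (G.inv f (G.mul f RelativeGroupLaw.idPoint (constPt f x))).1 :=
    (law_inv_coe G _).symm
  have h2 := comp_transl G (G.inv f RelativeGroupLaw.idPoint) (G.inv _ x)
  rw [h1, law_inv_mul_distrib G hc, ← constPt_inv]
  exact h2.symm

/-- The translation in terms of the addition morphism: `T_x = (id, x) ≫ m`. -/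
theorem transl_eq_pairHom_comp_addHom (x : RPt f) :
    transl G x = pairHom RelativeGroupLaw.idPoint (constPt f x) ≫ addHom G :=
  law_mul_coe G _ _

/-- For a commutative law also `T_x = (x, id) ≫ m`. -/
theorem transl_eq_pairHom_comp_addHom' (hc : G.IsCommutative) (x : RPt f) :
    transl G x = pairHom (constPt f x) RelativeGroupLaw.idPoint ≫ addHom G := by
  rw [← law_mul_coe, hc f (constPt f x) RelativeGroupLaw.idPoint]
  rfl

/-- Translations are transitive on the points of the underlying space that come from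
`R`-points. -/
theorem exists_transl_base (y z : RPt f) (s : Spec (CommRingCat.of R)) :
    ∃ x : RPt f, (transl G x) (y.1 s) = z.1 s := by
  obtain ⟨x, hx⟩ := exists_transl G y z
  refine ⟨x, ?_⟩
  rw [← hx]
  rfl

end Translations

/-! ## The kernel of `[n]` -/

section Kernel

variable (G : RelativeGroupLaw R f) (n : ℕ)
variable {T : Scheme.{u}} (t : T ⟶ Spec (CommRingCat.of R))

/-- The first projection of `G.schemeKer n` lies over the structure map. -/
theorem schemeKer_fst_over :
    pullback.fst (G.schemeNsmul n) (G.one (𝟙 (Spec (CommRingCat.of R)))).1 ≫ f =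
      G.schemeKerStr n := by
  have h := pullback.condition (f := G.schemeNsmul n)
    (g := (G.one (𝟙 (Spec (CommRingCat.of R)))).1)
  have h2 := congrArg (· ≫ f) h
  simp only [Category.assoc] at h2
  rw [G.schemeNsmul_over, (G.one (𝟙 (Spec (CommRingCat.of R)))).2, Category.comp_id] at h2
  exact h2

/-- A `T`-point of `A` is `n`-torsion iff `x ≫ [n]` is the zero `T`-point. -/
theorem isTorsionPoint_iff (x : SchemeHomOver t f) :
    G.IsTorsionPoint t n x ↔ x.1 ≫ G.schemeNsmul n = t ≫ zeroSec G := by
  rw [RelativeGroupLaw.isTorsionPoint_def, ← law_nsmul_coe, ← law_one_coe']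
  exact Subtype.ext_iff

/-- The `T`-points of the scheme-theoretic kernel of `[n]` are the `n`-torsion `T`-points. -/
def kerPtEquiv :
    SchemeHomOver t (G.schemeKerStr n) ≃ {x : SchemeHomOver t f // G.IsTorsionPoint t n x} where
  toFun s :=
    ⟨⟨s.1 ≫ pullback.fst _ _, by rw [Category.assoc, schemeKer_fst_over, s.2]⟩, by
      rw [isTorsionPoint_iff]
      show (s.1 ≫ pullback.fst _ _) ≫ G.schemeNsmul n = t ≫ zeroSec G
      rw [Category.assoc, pullback.condition, ← Category.assoc]
      have := s.2
      rw [this]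
      rfl⟩
  invFun x :=
    ⟨pullback.lift x.1.1 t ((isTorsionPoint_iff G n t x.1).1 x.2), pullback.lift_snd _ _ _⟩
  left_inv s := by
    apply Subtype.ext
    apply pullback.hom_ext
    · exact pullback.lift_fst _ _ _
    · exact (pullback.lift_snd _ _ _).trans s.2.symm
  right_inv x := by
    apply Subtype.ext
    apply Subtype.ext
    exact pullback.lift_fst _ _ _

@[simp]
theorem kerPtEquiv_apply_coe (s : SchemeHomOver t (G.schemeKerStr n)) :
    ((kerPtEquiv G n t s).1).1 = s.1 ≫ pullback.fst _ _ :=
  rfl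

@[simp]
theorem kerPtEquiv_symm_apply_fst (x : {x : SchemeHomOver t f // G.IsTorsionPoint t n x}) :
    ((kerPtEquiv G n t).symm x).1 ≫ pullback.fst _ _ = x.1.1 :=
  pullback.lift_fst _ _ _

/-- The number of `R`-points of the kernel of `[n]` is the number of `n`-torsion `R`-points. -/
theorem card_kerPt :
    Nat.card (SchemeHomOver (𝟙 (Spec (CommRingCat.of R))) (G.schemeKerStr n)) =
      Nat.card {x : RPt f // G.IsTorsionPoint (𝟙 (Spec (CommRingCat.of R))) n x} :=
  Nat.card_congr (kerPtEquiv G n _)

end Kernel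

end Fermat.Agent.S26.H126

end
end
-- ===== PACK-END S26/H126/GroupCalc.lean

-- ===== PACK-BEGIN S26/H445/UFDPowerSeries.lean
section


/-!
# S26 / leaf UFD / U1 : `K⟦x₁, …, x_g⟧` is a unique factorisation domain (helper445)

For an infinite field `K`, the ring of formal power series in finitely many variables over `K`
is a UFD.  Proof by induction on the number of variables via Weierstrass preparation:

* (α) `K⟦x₁, …, x_n⟧` is complete for its maximal ideal;
* (β) over a complete local UFD `A`, an irreducible `g ∈ A⟦X⟧` that is nonzero modulo the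
  maximal ideal of `A` is prime (Weierstrass preparation + Gauss);
* (γ) a linear change of variables makes any nonzero series regular in `x₀`;
* (δ) induction.
-/

set_option autoImplicit false

universe u

open IsLocalRing

namespace Fermat.Agent.S26.H445

section Alpha

variable {σ : Type*} [Finite σ] {R : Type*} [CommRing R]

/-- a power series in finitely many variables with vanishing constant coefficient lies in the
ideal generated by the variables. -/
theorem mem_span_range_X_of_constantCoeff_eq_zero (f : MvPowerSeries σ R)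
    (hf : MvPowerSeries.constantCoeff f = 0) :
    f ∈ Ideal.span (Set.range (MvPowerSeries.X : σ → MvPowerSeries σ R)) := by
  classical
  let e := (MvPowerSeries.toAdicCompletionAlgEquiv σ R).toRingEquiv
  have hmap : Ideal.map e (Ideal.span (Set.range MvPowerSeries.X)) =
      (MvPolynomial.idealOfVars σ R).map (algebraMap _ _) := by
    simp_rw [Ideal.map_span, ← Set.range_comp]
    congr 2; ext1
    simp [e, AdicCompletion.algebraMap_apply, ← MvPolynomial.coe_X,
      MvPowerSeries.toAdicCompletion_coe]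
  have hef : e f ∈ Ideal.map e (Ideal.span (Set.range MvPowerSeries.X)) := by
    rw [hmap, ← AdicCompletion.ker_evalOneₐ_eq_map _ (MvPolynomial.idealOfVars_fg σ R)]
    rw [RingHom.mem_ker]
    change AdicCompletion.evalOneₐ _ (MvPowerSeries.toAdicCompletion σ R f) = 0
    have h0 : MvPowerSeries.truncTotal 1 f = 0 := by
      ext x
      rw [MvPowerSeries.coeff_truncTotal_eq_ite]
      split_ifs with h
      · have hx : x = 0 := by
          have : x.degree = 0 := by omega
          exact (Finsupp.degree_eq_zero_iff x).1 this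
        subst hx
        simpa using hf
      · simp
    have key : AdicCompletion.evalOneₐ _ (MvPowerSeries.toAdicCompletion σ R f) =
        Ideal.Quotient.factorₐ (MvPolynomial σ R) (by simp)
          (MvPowerSeries.truncTotalAlgHom σ R 1 f) := rfl
    rw [key, MvPowerSeries.truncTotalAlgHom_apply, h0]
    simp
  obtain ⟨x, hx, hxe⟩ := (Ideal.mem_map_of_equiv e _).1 hef
  rwa [e.injective hxe] at hx

theorem maximalIdeal_eq_span_range_X (K : Type*) [Field K] :
    maximalIdeal (MvPowerSeries σ K) =
      Ideal.span (Set.range (MvPowerSeries.X : σ → MvPowerSeries σ K)) := by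
  apply le_antisymm
  · intro f hf
    apply mem_span_range_X_of_constantCoeff_eq_zero
    by_contra h
    have hu : IsUnit f := MvPowerSeries.isUnit_iff_constantCoeff.2 (isUnit_iff_ne_zero.2 h)
    exact (IsLocalRing.mem_maximalIdeal _).1 hf hu
  · rw [Ideal.span_le]
    rintro _ ⟨i, rfl⟩
    rw [SetLike.mem_coe, IsLocalRing.mem_maximalIdeal, mem_nonunits_iff,
      MvPowerSeries.isUnit_iff_constantCoeff]
    simp

/-- `K⟦x₁, …, x_n⟧` is complete for its maximal ideal. -/
theorem isAdicComplete_maximalIdeal_mvPowerSeries (K : Type*) [Field K] :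
    IsAdicComplete (maximalIdeal (MvPowerSeries σ K)) (MvPowerSeries σ K) := by
  rw [maximalIdeal_eq_span_range_X]
  infer_instance

end Alpha

section Beta

open PowerSeries Polynomial

variable {A : Type u} [CommRing A] [IsDomain A] [IsLocalRing A]

/-- A polynomial factor `a` of a distinguished polynomial `P = a * b` over a local domain whose
constant coefficient is a unit is a unit of `A[X]`. -/
theorem isUnit_of_mul_eq_distinguished {P a b : A[X]}
    (hP : P.IsDistinguishedAt (maximalIdeal A)) (hab : P = a * b)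
    (ha : IsUnit (a.coeff 0)) : IsUnit a := by
  classical
  have hP0 : P ≠ 0 := hP.monic.ne_zero
  have ha0 : a ≠ 0 := fun h => hP0 (by rw [hab, h, zero_mul])
  have hb0 : b ≠ 0 := fun h => hP0 (by rw [hab, h, mul_zero])
  set φ := Ideal.Quotient.mk (maximalIdeal A) with hφ
  have hmap : a.map φ * b.map φ = Polynomial.X ^ P.natDegree := by
    rw [← Polynomial.map_mul, ← hab, hP.map_eq_X_pow]
  have hφa : φ (a.coeff 0) ≠ 0 := by
    intro h
    rw [Ideal.Quotient.eq_zero_iff_mem] at h
    exact (IsLocalRing.mem_maximalIdeal _).1 h ha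
  -- `a.map φ` is a unit
  have hunit : IsUnit (a.map φ) := by
    obtain ⟨i, -, hi⟩ := (dvd_prime_pow (Polynomial.prime_X (R := A ⧸ maximalIdeal A))
      P.natDegree).1 (Dvd.intro _ hmap)
    rcases Nat.eq_zero_or_pos i with rfl | hipos
    · rw [pow_zero] at hi
      exact (associated_one_iff_isUnit).1 hi
    · exfalso
      have hX : (Polynomial.X : (A ⧸ maximalIdeal A)[X]) ∣ a.map φ :=
        (dvd_pow_self _ hipos.ne').trans hi.symm.dvd
      rw [Polynomial.X_dvd_iff, Polynomial.coeff_map] at hX
      exact hφa hX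
  have hdega : (a.map φ).natDegree = 0 := Polynomial.natDegree_eq_zero_of_isUnit hunit
  have hdegb : (b.map φ).natDegree = P.natDegree := by
    have h1 := congrArg Polynomial.natDegree hmap
    rw [Polynomial.natDegree_mul hunit.ne_zero (fun h => by
      rw [h, mul_zero] at hmap
      exact (pow_ne_zero _ Polynomial.X_ne_zero) hmap.symm), hdega, zero_add,
      Polynomial.natDegree_X_pow] at h1
    exact h1
  have hsum : P.natDegree = a.natDegree + b.natDegree := by
    rw [hab, Polynomial.natDegree_mul ha0 hb0]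
  have hble : P.natDegree ≤ b.natDegree := hdegb ▸ Polynomial.natDegree_map_le
  have hdeg0 : a.natDegree = 0 := by omega
  rw [Polynomial.eq_C_of_natDegree_eq_zero hdeg0]
  exact Polynomial.isUnit_C.2 ha

/-- **(β)** Over a complete local UFD `A`, an irreducible power series in `A⟦X⟧` which is
regular (nonzero modulo the maximal ideal of `A`) is prime. -/
theorem prime_of_irreducible_of_map_residue_ne_zero [IsAdicComplete (maximalIdeal A) A]
    [UniqueFactorizationMonoid A] {g : A⟦X⟧} (hirr : Irreducible g)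
    (hg : g.map (residue A) ≠ 0) : Prime g := by
  obtain ⟨P, u, H⟩ := g.exists_isWeierstrassFactorization hg
  have hg0 : g ≠ 0 := hirr.ne_zero
  have hP0 : P ≠ 0 := H.isDistinguishedAt.monic.ne_zero
  have hassoc : Associated (P : A⟦X⟧) g := by
    obtain ⟨u', hu'⟩ := H.isUnit
    exact ⟨u', by rw [hu', ← H.eq_mul]⟩
  have hPirrS : Irreducible (P : A⟦X⟧) := hassoc.symm.irreducible hirr
  have hcoe_unit : ∀ a : A[X], IsUnit (a : A⟦X⟧) → IsUnit (a.coeff 0) := fun a ha => by
    have := (PowerSeries.isUnit_iff_constantCoeff).1 ha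
    simpa using this
  have hPirr : Irreducible P := by
    refine ⟨fun hu => hPirrS.not_isUnit ?_, fun a b hab => ?_⟩
    · exact hu.map (Polynomial.coeToPowerSeries.ringHom (R := A))
    · have hab' : (P : A⟦X⟧) = (a : A⟦X⟧) * (b : A⟦X⟧) := by
        rw [hab, Polynomial.coe_mul]
      rcases hPirrS.isUnit_or_isUnit hab' with h | h
      · exact Or.inl (isUnit_of_mul_eq_distinguished H.isDistinguishedAt hab (hcoe_unit a h))
      · exact Or.inr (isUnit_of_mul_eq_distinguished H.isDistinguishedAt
          (hab.trans (mul_comm a b)) (hcoe_unit b h))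
  have hPprime : Prime P := UniqueFactorizationMonoid.irreducible_iff_prime.1 hPirr
  have hIP : (Ideal.span {P}).IsPrime := (Ideal.span_singleton_prime hP0).2 hPprime
  have hdom : IsDomain (A[X] ⧸ Ideal.span {P}) := (Ideal.Quotient.isDomain_iff_prime _).2 hIP
  have hdom' : IsDomain (A⟦X⟧ ⧸ Ideal.span {g}) :=
    H.algEquivQuotient.toRingEquiv.symm.toMulEquiv.isDomain _
  exact (Ideal.span_singleton_prime hg0).1 ((Ideal.Quotient.isDomain_iff_prime _).1 hdom')

end Beta

noncomputable section

section Gamma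

variable (K : Type u) [Field K] (n : ℕ)

/-- restriction of a power series in `x₀, …, x_n` to the `x₀`-axis. -/
def axisHom : MvPowerSeries (Fin (n + 1)) K →+* PowerSeries K :=
  (PowerSeries.map (MvPowerSeries.constantCoeff (σ := Fin n) (R := K))).comp
    (MvPowerSeries.finSuccEquiv K n).toRingEquiv.toRingHom

variable {K n}

theorem coeff_axisHom (h : MvPowerSeries (Fin (n + 1)) K) (k : ℕ) :
    PowerSeries.coeff k (axisHom K n h) = MvPowerSeries.coeff (Finsupp.single 0 k) h := by
  have h1 : PowerSeries.coeff k (axisHom K n h) =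
      MvPowerSeries.coeff (0 : Fin n →₀ ℕ)
        (PowerSeries.coeff k (MvPowerSeries.finSuccEquiv K n h)) := by
    simp [axisHom]
  rw [h1, MvPowerSeries.coeff_coeff_finSuccEquiv]
  have : (Finsupp.cons k (0 : Fin n →₀ ℕ)) = Finsupp.single 0 k := by
    ext i
    refine Fin.cases ?_ (fun j => ?_) i
    · simp
    · simp
  rw [this]

theorem axisHom_X_zero : axisHom K n (MvPowerSeries.X 0) = PowerSeries.X := by
  simp [axisHom]

theorem axisHom_X_succ (j : Fin n) : axisHom K n (MvPowerSeries.X j.succ) = 0 := by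
  simp [axisHom]

theorem axisHom_C (r : K) : axisHom K n (MvPowerSeries.C r) = PowerSeries.C r := by
  simp [axisHom]

/-- the linear change of variables `x₀ ↦ c₀ x₀`, `x_i ↦ x_i + c_i x₀` (`i ≠ 0`). -/
def shear (c : Fin (n + 1) → K) : Fin (n + 1) → MvPowerSeries (Fin (n + 1)) K :=
  fun i => (if i = 0 then 0 else MvPowerSeries.X i) + MvPowerSeries.C (c i) * MvPowerSeries.X 0

theorem hasSubst_shear (c : Fin (n + 1) → K) : MvPowerSeries.HasSubst (shear c) := by
  apply MvPowerSeries.hasSubst_of_constantCoeff_zero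
  intro i
  simp only [shear, map_add, map_mul, MvPowerSeries.constantCoeff_X, mul_zero, add_zero]
  split_ifs <;> simp

theorem axisHom_shear (c : Fin (n + 1) → K) (i : Fin (n + 1)) :
    axisHom K n (shear c i) = PowerSeries.C (c i) * PowerSeries.X := by
  simp only [shear, map_add, map_mul, axisHom_C, axisHom_X_zero]
  refine Fin.cases ?_ (fun j => ?_) i
  · simp
  · simp [Fin.succ_ne_zero, axisHom_X_succ]

theorem axisHom_prod_shear (c : Fin (n + 1) → K) (d : Fin (n + 1) →₀ ℕ) :
    axisHom K n (d.prod fun s e => shear c s ^ e) =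
      PowerSeries.C (d.prod fun s e => c s ^ e) * PowerSeries.X ^ d.degree := by
  rw [map_finsuppProd]
  simp only [map_pow, axisHom_shear, mul_pow]
  rw [Finsupp.prod_mul]
  congr 1
  · simp [Finsupp.prod, map_prod]
  · simp only [Finsupp.prod, Finset.prod_pow_eq_pow_sum]
    rfl

theorem coeff_axisHom_subst_shear (c : Fin (n + 1) → K) (f : MvPowerSeries (Fin (n + 1)) K)
    (k : ℕ) :
    PowerSeries.coeff k (axisHom K n (MvPowerSeries.subst (shear c) f)) =
      finsum (fun d : Fin (n + 1) →₀ ℕ => MvPowerSeries.coeff d f *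
        (if d.degree = k then d.prod (fun s e => c s ^ e) else 0)) := by
  rw [coeff_axisHom, MvPowerSeries.coeff_subst (hasSubst_shear c)]
  congr 1
  funext d
  rw [smul_eq_mul, ← coeff_axisHom, axisHom_prod_shear, PowerSeries.coeff_C_mul,
    PowerSeries.coeff_X_pow]
  split_ifs with h1 h2 h2
  · simp
  · exact absurd h1.symm h2
  · exact absurd h2.symm h1
  · simp

/-- the homogeneous component of degree `k` as a polynomial. -/
def homPart (f : MvPowerSeries (Fin (n + 1)) K) (k : ℕ) : MvPolynomial (Fin (n + 1)) K :=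
  MvPowerSeries.truncTotal (k + 1) f - MvPowerSeries.truncTotal k f

theorem coeff_homPart (f : MvPowerSeries (Fin (n + 1)) K) (k : ℕ) (d : Fin (n + 1) →₀ ℕ) :
    (homPart f k).coeff d = if d.degree = k then MvPowerSeries.coeff d f else 0 := by
  rw [homPart, MvPolynomial.coeff_sub, MvPowerSeries.coeff_truncTotal_eq_ite,
    MvPowerSeries.coeff_truncTotal_eq_ite]
  by_cases h1 : d.degree = k
  · rw [if_pos h1, if_pos (by omega), if_neg (by omega), sub_zero]
  · rw [if_neg h1]
    by_cases h2 : d.degree < k
    · rw [if_pos (by omega), if_pos h2, sub_self]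
    · rw [if_neg (by omega), if_neg h2, sub_self]

theorem coeff_axisHom_subst_shear_eq_eval (c : Fin (n + 1) → K)
    (f : MvPowerSeries (Fin (n + 1)) K) (k : ℕ) :
    PowerSeries.coeff k (axisHom K n (MvPowerSeries.subst (shear c) f)) =
      MvPolynomial.eval c (homPart f k) := by
  rw [coeff_axisHom_subst_shear, MvPolynomial.eval_eq]
  rw [finsum_eq_sum_of_support_subset (s := (homPart f k).support)]
  · refine Finset.sum_congr rfl fun d _ => ?_
    rw [coeff_homPart]
    split_ifs with h
    · rfl
    · simp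
  · intro d hd
    rw [Function.mem_support] at hd
    rw [Finset.mem_coe, MvPolynomial.mem_support_iff, coeff_homPart]
    by_cases h : d.degree = k
    · rw [if_pos h]
      rw [if_pos h] at hd
      exact left_ne_zero_of_mul hd
    · rw [if_neg h, mul_zero] at hd
      exact absurd rfl hd

theorem exists_shear_regular [Infinite K] (f : MvPowerSeries (Fin (n + 1)) K) (hf : f ≠ 0) :
    ∃ c : Fin (n + 1) → K, c 0 ≠ 0 ∧ axisHom K n (MvPowerSeries.subst (shear c) f) ≠ 0 := by
  obtain ⟨d, hd⟩ : ∃ d, MvPowerSeries.coeff d f ≠ 0 := by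
    by_contra h
    simp only [not_exists, not_not] at h
    exact hf (MvPowerSeries.ext fun d => by simpa using h d)
  have hQ : homPart f d.degree ≠ 0 := by
    intro h
    have := congrArg (MvPolynomial.coeff d) h
    rw [coeff_homPart, if_pos rfl, MvPolynomial.coeff_zero] at this
    exact hd this
  have hQX : homPart f d.degree * MvPolynomial.X 0 ≠ 0 :=
    mul_ne_zero hQ (MvPolynomial.X_ne_zero 0)
  obtain ⟨c, hc⟩ : ∃ c : Fin (n + 1) → K,
      MvPolynomial.eval c (homPart f d.degree * MvPolynomial.X 0) ≠ 0 := by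
    by_contra h
    simp only [not_exists, not_not] at h
    exact hQX (MvPolynomial.funext fun c => by rw [h c, map_zero])
  rw [map_mul, MvPolynomial.eval_X] at hc
  refine ⟨c, right_ne_zero_of_mul hc, fun h0 => ?_⟩
  have := coeff_axisHom_subst_shear_eq_eval c f d.degree
  rw [h0, map_zero] at this
  exact left_ne_zero_of_mul hc this.symm


/-! ### the shear is an automorphism -/

/-- parameters of the inverse shear. -/
def shearInv (c : Fin (n + 1) → K) : Fin (n + 1) → K :=
  fun i => if i = 0 then (c 0)⁻¹ else -c i * (c 0)⁻¹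

theorem shearInv_zero (c : Fin (n + 1) → K) : shearInv c 0 = (c 0)⁻¹ := by
  simp [shearInv]

theorem shearInv_shearInv (c : Fin (n + 1) → K) (hc : c 0 ≠ 0) :
    shearInv (shearInv c) = c := by
  funext i
  by_cases hi : i = 0
  · subst hi
    simp [shearInv]
  · simp only [shearInv, if_neg hi, if_true, inv_inv]
    field_simp

theorem subst_shear_shear_shearInv (c : Fin (n + 1) → K) (hc : c 0 ≠ 0) (i : Fin (n + 1)) :
    MvPowerSeries.subst (shear c) (shear (shearInv c) i) = MvPowerSeries.X i := by
  have hs := hasSubst_shear c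
  have hX : ∀ j, MvPowerSeries.subst (shear c) (MvPowerSeries.X j : MvPowerSeries _ K) =
      shear c j := fun j => MvPowerSeries.subst_X hs j
  have hmul : ∀ (r : K) (j : Fin (n + 1)),
      MvPowerSeries.subst (shear c) (MvPowerSeries.C r * MvPowerSeries.X j :
        MvPowerSeries (Fin (n + 1)) K) = MvPowerSeries.C r * shear c j := by
    intro r j
    rw [MvPowerSeries.subst_mul hs, hX, MvPowerSeries.subst_C]
  by_cases hi : i = 0
  · subst hi
    have : shear (shearInv c) (0 : Fin (n + 1)) =
        MvPowerSeries.C (c 0)⁻¹ * MvPowerSeries.X 0 := by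
      simp [shear, shearInv]
    rw [this, hmul]
    simp only [shear, if_true, zero_add]
    rw [← mul_assoc, ← map_mul, inv_mul_cancel₀ hc, map_one, one_mul]
  · have : shear (shearInv c) i =
        MvPowerSeries.X i + MvPowerSeries.C (-c i * (c 0)⁻¹) * MvPowerSeries.X 0 := by
      simp [shear, shearInv, hi]
    rw [this, MvPowerSeries.subst_add hs, hX, hmul]
    simp only [shear, if_neg hi, if_true, zero_add]
    have h1 : -c i * (c 0)⁻¹ * c 0 = -c i := by
      rw [mul_assoc, inv_mul_cancel₀ hc, mul_one]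
    rw [← mul_assoc, ← map_mul, h1, map_neg, neg_mul, add_neg_cancel_right]

theorem subst_shear_subst_shearInv (c : Fin (n + 1) → K) (hc : c 0 ≠ 0)
    (f : MvPowerSeries (Fin (n + 1)) K) :
    MvPowerSeries.subst (shear c) (MvPowerSeries.subst (shear (shearInv c)) f) = f := by
  rw [MvPowerSeries.subst_comp_subst_apply (hasSubst_shear _) (hasSubst_shear _)]
  have : (fun s => MvPowerSeries.subst (shear c) (shear (shearInv c) s)) =
      (MvPowerSeries.X : Fin (n + 1) → MvPowerSeries (Fin (n + 1)) K) :=
    funext fun s => subst_shear_shear_shearInv c hc s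
  rw [this, MvPowerSeries.subst_self]
  rfl

theorem subst_shearInv_subst_shear (c : Fin (n + 1) → K) (hc : c 0 ≠ 0)
    (f : MvPowerSeries (Fin (n + 1)) K) :
    MvPowerSeries.subst (shear (shearInv c)) (MvPowerSeries.subst (shear c) f) = f := by
  have hc' : shearInv c 0 ≠ 0 := by
    rw [shearInv_zero]
    exact inv_ne_zero hc
  have := subst_shear_subst_shearInv (shearInv c) hc' f
  rwa [shearInv_shearInv c hc] at this

/-- the shear as a ring automorphism of `K⟦x₀, …, x_n⟧`. -/
def shearEquiv (c : Fin (n + 1) → K) (hc : c 0 ≠ 0) :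
    MvPowerSeries (Fin (n + 1)) K ≃+* MvPowerSeries (Fin (n + 1)) K :=
  RingEquiv.ofRingHom (MvPowerSeries.substAlgHom (hasSubst_shear c)).toRingHom
    (MvPowerSeries.substAlgHom (hasSubst_shear (shearInv c))).toRingHom
    (RingHom.ext fun f => by
      change MvPowerSeries.substAlgHom (hasSubst_shear c)
        (MvPowerSeries.substAlgHom (hasSubst_shear (shearInv c)) f) = f
      rw [MvPowerSeries.coe_substAlgHom, MvPowerSeries.coe_substAlgHom]
      exact subst_shear_subst_shearInv c hc f)
    (RingHom.ext fun f => by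
      change MvPowerSeries.substAlgHom (hasSubst_shear (shearInv c))
        (MvPowerSeries.substAlgHom (hasSubst_shear c) f) = f
      rw [MvPowerSeries.coe_substAlgHom, MvPowerSeries.coe_substAlgHom]
      exact subst_shearInv_subst_shear c hc f)

theorem shearEquiv_apply (c : Fin (n + 1) → K) (hc : c 0 ≠ 0)
    (f : MvPowerSeries (Fin (n + 1)) K) :
    shearEquiv c hc f = MvPowerSeries.subst (shear c) f := by
  change MvPowerSeries.substAlgHom (hasSubst_shear c) f = _
  rw [MvPowerSeries.coe_substAlgHom]

/-- regularity bridge: a series which is nonzero on the `x₀`-axis is regular in `x₀`, i.e. its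
image in `(K⟦x₁, …, x_n⟧)⟦x₀⟧` is nonzero modulo the maximal ideal of the coefficient ring. -/
theorem map_residue_finSuccEquiv_ne_zero (h : MvPowerSeries (Fin (n + 1)) K)
    (hh : axisHom K n h ≠ 0) :
    (MvPowerSeries.finSuccEquiv K n h).map (residue (MvPowerSeries (Fin n) K)) ≠ 0 := by
  intro h0
  apply hh
  ext k
  have hk := congrArg (PowerSeries.coeff k) h0
  rw [PowerSeries.coeff_map, map_zero, residue_eq_zero_iff] at hk
  have hnu : ¬ IsUnit (PowerSeries.coeff k (MvPowerSeries.finSuccEquiv K n h)) :=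
    (IsLocalRing.mem_maximalIdeal _).1 hk
  rw [MvPowerSeries.isUnit_iff_constantCoeff, isUnit_iff_ne_zero, not_not] at hnu
  rw [map_zero]
  change PowerSeries.coeff k (PowerSeries.map MvPowerSeries.constantCoeff
    (MvPowerSeries.finSuccEquiv K n h)) = 0
  rw [PowerSeries.coeff_map]
  exact hnu

end Gamma

section Delta

variable (K : Type u) [Field K] [Infinite K]

/-- **U1 (Fin-indexed form).** For an infinite field `K`, the power series ring
`K⟦x₁, …, x_n⟧` is a unique factorisation domain. -/
theorem uniqueFactorizationMonoid_mvPowerSeries_fin (n : ℕ) :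
    UniqueFactorizationMonoid (MvPowerSeries (Fin n) K) := by
  induction n with
  | zero =>
    exact MulEquiv.uniqueFactorizationMonoid
      (MvPowerSeries.isEmptyEquiv (Fin 0) K).symm.toMulEquiv inferInstance
  | succ n ih =>
    have := ih
    have : IsDomain (MvPowerSeries (Fin n) K) := NoZeroDivisors.to_isDomain _
    have : IsDomain (MvPowerSeries (Fin (n + 1)) K) := NoZeroDivisors.to_isDomain _
    have : IsAdicComplete (maximalIdeal (MvPowerSeries (Fin n) K)) (MvPowerSeries (Fin n) K) :=
      isAdicComplete_maximalIdeal_mvPowerSeries K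
    have : WfDvdMonoid (MvPowerSeries (Fin (n + 1)) K) := IsNoetherianRing.wfDvdMonoid
    refine { (inferInstance : WfDvdMonoid (MvPowerSeries (Fin (n + 1)) K)) with
      irreducible_iff_prime := fun {f} => ⟨fun hf => ?_, Prime.irreducible⟩ }
    obtain ⟨c, hc, hreg⟩ := exists_shear_regular f hf.ne_zero
    let e : MvPowerSeries (Fin (n + 1)) K ≃+* PowerSeries (MvPowerSeries (Fin n) K) :=
      (shearEquiv c hc).trans (MvPowerSeries.finSuccEquiv K n).toRingEquiv
    have he : e f = MvPowerSeries.finSuccEquiv K n (MvPowerSeries.subst (shear c) f) := by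
      change MvPowerSeries.finSuccEquiv K n (shearEquiv c hc f) = _
      rw [shearEquiv_apply]
    have hirr : Irreducible (e f) := (MulEquiv.irreducible_iff e.toMulEquiv).2 hf
    have hprime : Prime (e f) := by
      apply prime_of_irreducible_of_map_residue_ne_zero hirr
      rw [he]
      exact map_residue_finSuccEquiv_ne_zero _ hreg
    exact (MulEquiv.prime_iff e.toMulEquiv).1 hprime

/-- **U1.** For an infinite field `K` and a finite index type `σ`, the power series ring
`MvPowerSeries σ K` is a unique factorisation domain. -/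
theorem uniqueFactorizationMonoid_mvPowerSeries (σ : Type*) [Finite σ] :
    UniqueFactorizationMonoid (MvPowerSeries σ K) := by
  obtain ⟨n, ⟨e⟩⟩ := Finite.exists_equiv_fin σ
  have := uniqueFactorizationMonoid_mvPowerSeries_fin K n
  exact MulEquiv.uniqueFactorizationMonoid
    (MvPowerSeries.renameEquiv K e).symm.toMulEquiv inferInstance

end Delta

end

end Fermat.Agent.S26.H445

end
-- ===== PACK-END S26/H445/UFDPowerSeries.lean

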