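import Mathlib
import Mathlib.RingTheory.Valuation.RamificationGroup
import Mathlib.FieldTheory.IsAlgClosed.AlgebraicClosure
import Mathlib.FieldTheory.Minpoly.Field
import Mathlib.Tactic
import Fermat.Prelude.Def_CuspForm_HeckeAlgebra
import Fermat.Agent.Pack.S43MC.G0E1L3

-- ===== PACK-BEGIN S26/H87/Sections.lean
section


/-!
# Row S26, block BETA (helper87): sections of the structure sheaf of an integral scheme

On an integral scheme `Y`, a rational function which lies in the local ring of every point of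
an open `U` is (the germ of) a unique section over `U`:  `Γ(Y, U) = ⋂_{x ∈ U} O_{Y,x} ⊆ K(Y)`.
Mathlib only.
-/

set_option autoImplicit false

universe u

open CategoryTheory AlgebraicGeometry TopologicalSpace Opposite

namespace Fermat.Agent.S26.H87

noncomputable section

variable {Y : Scheme.{u}} [IsIntegral Y]

/-- The generic point lies in every nonempty open. -/
theorem genericPoint_mem_of_mem {U : Y.Opens} {x : Y} (hx : x ∈ U) : genericPoint Y ∈ U :=
  ((genericPoint_spec Y).mem_open_set_iff U.isOpen).mpr ⟨x, trivial, hx⟩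

/-- The germ at the generic point of a section, through the local ring at a point. -/
theorem algebraMap_germ {U : Y.Opens} {x : Y} (hx : x ∈ U) (s : Γ(Y, U)) :
    algebraMap (Y.presheaf.stalk x) Y.functionField (Y.presheaf.germ U x hx s) =
      Y.presheaf.germ U (genericPoint Y) (genericPoint_mem_of_mem hx) s := by
  have : Nonempty U := ⟨⟨x, hx⟩⟩
  exact Scheme.algebraMap_germ_eq_germToFunctionField Y hx s

/-- Sections are determined by their germ at the generic point. -/
theorem eq_of_germ_genericPoint_eq {U : Y.Opens} (hη : genericPoint Y ∈ U) (s s' : Γ(Y, U))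
    (h : Y.presheaf.germ U (genericPoint Y) hη s = Y.presheaf.germ U (genericPoint Y) hη s') :
    s = s' :=
  germ_injective_of_isIntegral Y (genericPoint Y) hη h

/-- The germ at the generic point is compatible with restriction. -/
theorem germ_genericPoint_res {U V : Y.Opens} (h : U ≤ V) (hη : genericPoint Y ∈ U)
    (s : Γ(Y, V)) :
    Y.presheaf.germ U (genericPoint Y) hη (Y.presheaf.map (homOfLE h).op s) =
      Y.presheaf.germ V (genericPoint Y) (h hη) s :=
  Y.presheaf.germ_res_apply (homOfLE h) (genericPoint Y) hη s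

/-- **Sections are the rational functions regular at every point.**  If the rational function
`r` lies in the local ring of every point of `U`, it is the germ of a section over `U`. -/
theorem exists_section_of_forall_mem_range (U : Y.Opens) (r : Y.functionField)
    (hr : ∀ x ∈ U, r ∈ Set.range (algebraMap (Y.presheaf.stalk x) Y.functionField)) :
    ∃ s : Γ(Y, U), ∀ hη : genericPoint Y ∈ U, Y.presheaf.germ U (genericPoint Y) hη s = r := by
  -- local representatives
  have hloc : ∀ x : U, ∃ (V : Y.Opens) (hV : V ≤ U) (hxV : (x : Y) ∈ V) (g : Γ(Y, V)),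
      Y.presheaf.germ V (genericPoint Y) (genericPoint_mem_of_mem hxV) g = r := by
    rintro ⟨x, hx⟩
    obtain ⟨a, ha⟩ := hr x hx
    obtain ⟨V, hxV, g, hg⟩ := Y.presheaf.exists_germ_eq a
    refine ⟨V ⊓ U, inf_le_right, ⟨hxV, hx⟩, Y.presheaf.map (homOfLE inf_le_left).op g, ?_⟩
    rw [germ_genericPoint_res, ← algebraMap_germ hxV, hg, ha]
  choose V hVU hxV g hg using hloc
  have hcompat : TopCat.Presheaf.IsCompatible Y.sheaf.1 V g := by
    intro x y
    have hη : genericPoint Y ∈ V x ⊓ V y :=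
      ⟨genericPoint_mem_of_mem (hxV x), genericPoint_mem_of_mem (hxV y)⟩
    apply eq_of_germ_genericPoint_eq hη
    have h1 := germ_genericPoint_res (inf_le_left : V x ⊓ V y ≤ V x) hη (g x)
    have h2 := germ_genericPoint_res (inf_le_right : V x ⊓ V y ≤ V y) hη (g y)
    exact (h1.trans (hg x)).trans ((h2.trans (hg y)).symm)
  have hcover : U ≤ iSup V := fun x hx =>
    Opens.mem_iSup.mpr ⟨⟨x, hx⟩, hxV ⟨x, hx⟩⟩
  obtain ⟨s, hs, -⟩ := Y.sheaf.existsUnique_gluing' V U (fun x => homOfLE (hVU x)) hcover g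
    hcompat
  refine ⟨s, fun hη => ?_⟩
  have h1 := germ_genericPoint_res (hVU ⟨_, hη⟩) (genericPoint_mem_of_mem (hxV ⟨_, hη⟩)) s
  rw [← h1]
  have h2 : Y.presheaf.map (homOfLE (hVU ⟨_, hη⟩)).op s = g ⟨_, hη⟩ := hs ⟨_, hη⟩
  rw [h2, hg]

end

end Fermat.Agent.S26.H87

end
-- ===== PACK-END S26/H87/Sections.lean

-- ===== PACK-BEGIN S27/H566/TangentRank.lean
section


/-!
# S27 / J-DIM, algebra core (helper566): relative dimension from the tangent space at a point

`k` a field, `S` a standard smooth `k`-algebra, `x : S →ₐ[k] k` a `k`-point.  The tangent space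
at `x` is `Der_k(S, k_x)` (`k_x` = `k` as an `S`-module through `x`).

* `finrank_derivation_eq_finrank_kaehler` : `dim_k Der_k(S, k_x) = rank_S Ω[S/k]` if `Ω` is
  finite free.
* `isStandardSmoothOfRelativeDimension_of_finrank_derivation` : if `S` is standard smooth and
  the tangent space at one `k`-point has dimension `g`, then `S` is standard smooth of relative
  dimension `g`.
-/

set_option autoImplicit false
set_option linter.style.haveILetI false

namespace Fermat.Agent.S27.H566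

open Algebra

variable {k S : Type*} [Field k] [CommRing S] [Algebra k S]

/-- `k` as an `S`-module through the `k`-point `x`. -/
@[reducible] def pointModule (x : S →ₐ[k] k) : Module S k := Module.compHom k x.toRingHom

theorem pointModule_smul (x : S →ₐ[k] k) (s : S) (a : k) :
    letI := pointModule x
    s • a = x s * a := rfl

theorem pointModule_isScalarTower (x : S →ₐ[k] k) :
    letI := pointModule x
    IsScalarTower k S k := by
  letI := pointModule x
  refine ⟨fun a s m => ?_⟩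
  show x (a • s) * m = a • (x s * m)
  rw [map_smul, smul_mul_assoc]

theorem pointModule_smulCommClass (x : S →ₐ[k] k) :
    letI := pointModule x
    SMulCommClass S k k := by
  letI := pointModule x
  refine ⟨fun s a m => ?_⟩
  show x s * (a • m) = a • (x s * m)
  rw [mul_smul_comm]

/-- The tangent space at a `k`-point of an algebra with finite free differentials has
dimension the rank of the differentials. -/
theorem finrank_derivation_eq_finrank_kaehler (x : S →ₐ[k] k) [Module.Free S Ω[S⁄k]]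
    [Module.Finite S Ω[S⁄k]] :
    letI := pointModule x
    haveI := pointModule_isScalarTower x
    Module.finrank k (Derivation k S k) = Module.finrank S Ω[S⁄k] := by
  letI := pointModule x
  haveI := pointModule_isScalarTower x
  haveI := pointModule_smulCommClass x
  haveI : Nontrivial S := x.toRingHom.domain_nontrivial
  classical
  let b := Module.Free.chooseBasis S Ω[S⁄k]
  -- `Der ≃ Hom_S(Ω, k)` is `k`-linear
  let e1 : (Ω[S⁄k] →ₗ[S] k) ≃ₗ[k] Derivation k S k :=
    { toFun := fun f => (KaehlerDifferential.linearMapEquivDerivation k S) f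
      invFun := fun d => (KaehlerDifferential.linearMapEquivDerivation k S).symm d
      left_inv := fun f => (KaehlerDifferential.linearMapEquivDerivation k S).symm_apply_apply f
      right_inv := fun d => (KaehlerDifferential.linearMapEquivDerivation k S).apply_symm_apply d
      map_add' := fun f g => map_add _ f g
      map_smul' := fun a f => by
        ext s
        simp only [KaehlerDifferential.linearMapEquivDerivation, RingHom.id_apply]
        rfl }
  let e2 : (Module.Free.ChooseBasisIndex S Ω[S⁄k] → k) ≃ₗ[k] (Ω[S⁄k] →ₗ[S] k) := b.constr k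
  rw [← e1.finrank_eq, ← e2.finrank_eq, Module.finrank_pi, Module.finrank_eq_card_chooseBasisIndex]

/-- **Relative dimension from one tangent space.**  A nontrivial standard smooth `k`-algebra
whose tangent space at some `k`-point has dimension `g` is standard smooth of relative
dimension `g`. -/
theorem isStandardSmoothOfRelativeDimension_of_finrank_derivation [IsStandardSmooth k S]
    (x : S →ₐ[k] k) (g : ℕ)
    (h : letI := pointModule x
      haveI := pointModule_isScalarTower x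
      Module.finrank k (Derivation k S k) = g) :
    IsStandardSmoothOfRelativeDimension g k S := by
  haveI : Nontrivial S := x.toRingHom.domain_nontrivial
  haveI : Module.Finite S Ω[S⁄k] := inferInstance
  rw [IsStandardSmoothOfRelativeDimension.iff_of_isStandardSmooth]
  rw [finrank_derivation_eq_finrank_kaehler x] at h
  rw [← Module.finrank_eq_rank, h]

end Fermat.Agent.S27.H566

end
-- ===== PACK-END S27/H566/TangentRank.lean

-- ===== PACK-BEGIN S18/H905/ValChain.lean
section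


/-!
# S18 / H905 — valuations on a function field: the chain lemma (Mathlib only, char-free)

`K ⊆ F` fields, `v` a valuation on `F` which is trivial on `K`, `x ∈ F` with `0 < v x < 1`.

* `exists_val_aeval_eq_pow`  : `v (p(x)) = (v x)^a` for every nonzero polynomial `p ∈ K[X]`;
* `exists_val_eq_zpow_of_mem_adjoin` : the value group of `K(x)` is generated by `v x`;
* `linearIndependent_of_val` : elements whose values lie in pairwise distinct cosets of `(v x)^ℤ`
  are linearly independent over `K(x)`;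
* `card_le_finrank_of_val_chain` : a family with pairwise distinct values in `[v x, 1)` has at most
  `[F : K(x)]` members (Stichtenoth, Algebraic function fields and codes, proof of Thm 1.1.6).
-/

set_option autoImplicit false

open Polynomial IntermediateField

namespace Fermat.Agent.S18.H905

variable {K F : Type*} [Field K] [Field F] [Algebra K F]
variable {Γ : Type*} [LinearOrderedCommGroupWithZero Γ] (v : Valuation F Γ)

/-- A valuation which is trivial on `K` takes values `≤ 1` on `K[x]` when `v x ≤ 1`. -/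
theorem val_aeval_le_one (hK : ∀ c : K, v (algebraMap K F c) ≤ 1) {x : F} (hx : v x ≤ 1)
    (p : K[X]) : v (aeval x p) ≤ 1 := by
  induction p using Polynomial.induction_on' with
  | add p q hp hq =>
    rw [map_add]
    exact v.map_add_le hp hq
  | monomial n a =>
    rw [aeval_monomial, map_mul, map_pow]
    exact mul_le_one' (hK a) (pow_le_one' hx n)

/-- `v (p(x)) = (v x)^a` for a nonzero polynomial `p` over `K`, if `v` is trivial on `K` and
`v x < 1`. -/
theorem exists_val_aeval_eq_pow (hK : ∀ c : K, c ≠ 0 → v (algebraMap K F c) = 1) {x : F}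
    (hx : v x < 1) {p : K[X]} (hp : p ≠ 0) : ∃ a : ℕ, v (aeval x p) = v x ^ a := by
  have hK' : ∀ c : K, v (algebraMap K F c) ≤ 1 := by
    intro c
    rcases eq_or_ne c 0 with rfl | hc
    · simp
    · exact (hK c hc).le
  obtain ⟨q, hpq, hq⟩ := Polynomial.exists_eq_pow_rootMultiplicity_mul_and_not_dvd p hp 0
  refine ⟨p.rootMultiplicity 0, ?_⟩
  have hq0 : q.coeff 0 ≠ 0 := by
    intro h0
    apply hq
    rw [map_zero, sub_zero]
    exact Polynomial.X_dvd_iff.mpr h0
  have hqv : v (aeval x q) = 1 := by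
    have hsplit : q = q.divX * X + C (q.coeff 0) := (Polynomial.divX_mul_X_add q).symm
    have h1 : aeval x q = aeval x q.divX * x + algebraMap K F (q.coeff 0) := by
      conv_lhs => rw [hsplit]
      simp
    rw [h1]
    have h2 : v (aeval x q.divX * x) < 1 := by
      rw [map_mul]
      calc v (aeval x q.divX) * v x ≤ 1 * v x :=
            mul_le_mul_left (val_aeval_le_one v hK' hx.le _) _
        _ = v x := one_mul _
        _ < 1 := hx
    have h3 : v (algebraMap K F (q.coeff 0)) = 1 := hK _ hq0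
    rw [v.map_add_eq_of_lt_right (by rw [h3]; exact h2), h3]
  conv_lhs => rw [hpq]
  rw [map_mul, map_pow, map_mul, map_pow, hqv, mul_one]
  simp

/-- A valuation with values `≤ 1` on `K` is trivial on `K`. -/
theorem val_algebraMap_eq_one_of_le (hK : ∀ c : K, v (algebraMap K F c) ≤ 1) (c : K) (hc : c ≠ 0) :
    v (algebraMap K F c) = 1 := by
  have h1 := hK c
  have h2 := hK c⁻¹
  rw [map_inv₀, map_inv₀] at h2
  have h0 : v (algebraMap K F c) ≠ 0 := (v.ne_zero_iff).mpr (by simpa using hc)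
  refine le_antisymm h1 ?_
  rwa [inv_le_one₀ (zero_lt_iff.mpr h0)] at h2

/-- If `v` is trivial on `K` then every nonzero `x` with `v x < 1` is transcendental over `K`. -/
theorem transcendental_of_val_lt_one (hK : ∀ c : K, c ≠ 0 → v (algebraMap K F c) = 1) {x : F}
    (hx0 : x ≠ 0) (hx : v x < 1) : Transcendental K x := by
  rintro ⟨p, hp, hpx⟩
  obtain ⟨a, ha⟩ := exists_val_aeval_eq_pow v hK hx hp
  rw [hpx, map_zero] at ha
  exact (v.ne_zero_iff).mpr hx0 (pow_eq_zero_iff (n := a + 1) (by omega) |>.mp (by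
    rw [pow_succ, ← ha, zero_mul]))

/-- The value group of `K(x)` is generated by `v x`. -/
theorem exists_val_eq_zpow_of_mem_adjoin (hK : ∀ c : K, c ≠ 0 → v (algebraMap K F c) = 1) {x : F}
    (hx0 : x ≠ 0) (hx : v x < 1) {e : F} (he : e ∈ K⟮x⟯) (he0 : e ≠ 0) :
    ∃ a : ℤ, v e = v x ^ a := by
  obtain ⟨r, s, rfl⟩ := (mem_adjoin_simple_iff K e).mp he
  have hr : aeval x r ≠ 0 := fun h => he0 (by rw [h, zero_div])
  have hs : aeval x s ≠ 0 := fun h => he0 (by rw [h, div_zero])
  have hr0 : r ≠ 0 := fun h => hr (by rw [h, map_zero])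
  have hs0 : s ≠ 0 := fun h => hs (by rw [h, map_zero])
  obtain ⟨a, ha⟩ := exists_val_aeval_eq_pow v hK hx hr0
  obtain ⟨b, hb⟩ := exists_val_aeval_eq_pow v hK hx hs0
  refine ⟨a - b, ?_⟩
  have hvx0 : v x ≠ 0 := (v.ne_zero_iff).mpr hx0
  rw [map_div₀, ha, hb, zpow_sub₀ hvx0, zpow_natCast, zpow_natCast]

/-- Elements whose values lie in pairwise distinct cosets of `(v x)^ℤ` are linearly independent
over `K(x)`. -/
theorem linearIndependent_of_val (hK : ∀ c : K, c ≠ 0 → v (algebraMap K F c) = 1) {x : F}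
    (hx0 : x ≠ 0) (hx : v x < 1) {ι : Type*} (y : ι → F) (hy0 : ∀ i, y i ≠ 0)
    (hy : ∀ i j, i ≠ j → ∀ a : ℤ, v (y i) ≠ v x ^ a * v (y j)) :
    LinearIndependent K⟮x⟯ y := by
  classical
  rw [linearIndependent_iff']
  intro s g hsum
  by_contra hne
  push Not at hne
  obtain ⟨i₀, hi₀s, hi₀⟩ := hne
  -- the nonzero terms
  set s' := s.filter (fun i => g i ≠ 0) with hs'
  have hs'ne : s'.Nonempty := ⟨i₀, Finset.mem_filter.mpr ⟨hi₀s, hi₀⟩⟩
  obtain ⟨j, hjs', hjmax⟩ := Finset.exists_max_image s' (fun i => v ((g i : F) * y i)) hs'ne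
  have hjs : j ∈ s := (Finset.mem_filter.mp hjs').1
  have hgj : g j ≠ 0 := (Finset.mem_filter.mp hjs').2
  have hgjF : (g j : F) ≠ 0 := fun h => hgj (Subtype.ext h)
  have hvx0 : v x ≠ 0 := (v.ne_zero_iff).mpr hx0
  have hlt : ∀ i ∈ s \ {j}, v ((g i : F) * y i) < v ((g j : F) * y j) := by
    intro i hi
    rw [Finset.mem_sdiff, Finset.mem_singleton] at hi
    obtain ⟨his, hij⟩ := hi
    by_cases hgi : g i = 0
    · rw [hgi]
      simp only [ZeroMemClass.coe_zero, zero_mul, map_zero]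
      exact zero_lt_iff.mpr ((v.ne_zero_iff).mpr (mul_ne_zero hgjF (hy0 j)))
    · have hgiF : (g i : F) ≠ 0 := fun h => hgi (Subtype.ext h)
      have hle := hjmax i (Finset.mem_filter.mpr ⟨his, hgi⟩)
      refine lt_of_le_of_ne hle ?_
      intro heq
      obtain ⟨a, ha⟩ := exists_val_eq_zpow_of_mem_adjoin v hK hx0 hx (g i).2 hgiF
      obtain ⟨b, hb⟩ := exists_val_eq_zpow_of_mem_adjoin v hK hx0 hx (g j).2 hgjF
      rw [map_mul, map_mul, ha, hb] at heq
      apply hy i j hij (b - a)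
      have hxa : v x ^ a ≠ 0 := zpow_ne_zero _ hvx0
      rw [zpow_sub₀ hvx0]
      field_simp
      rw [mul_comm, heq, mul_comm]
  have hval := v.map_sum_eq_of_lt hjs hlt
  have hsum' : ∑ i ∈ s, (g i : F) * y i = 0 := by
    have := hsum
    simpa [IntermediateField.smul_def] using this
  rw [hsum', map_zero] at hval
  exact (v.ne_zero_iff).mpr (mul_ne_zero hgjF (hy0 j)) hval.symm

/-- **Chain lemma.** A family with pairwise distinct values in `[v x, 1)` has at most
`[F : K(x)]` members. -/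
theorem card_le_finrank_of_val_chain (hK : ∀ c : K, c ≠ 0 → v (algebraMap K F c) = 1) {x : F}
    (hx0 : x ≠ 0) (hx : v x < 1) [FiniteDimensional K⟮x⟯ F] {ι : Type*} [Fintype ι] (y : ι → F)
    (hinj : Function.Injective fun i => v (y i)) (hlo : ∀ i, v x ≤ v (y i))
    (hhi : ∀ i, v (y i) < 1) : Fintype.card ι ≤ Module.finrank K⟮x⟯ F := by
  have hvx0 : v x ≠ 0 := (v.ne_zero_iff).mpr hx0
  have hy0 : ∀ i, y i ≠ 0 := fun i h => by
    have := hlo i
    rw [h, map_zero] at this
    exact hvx0 (le_antisymm this zero_le)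
  have key : ∀ i j, i ≠ j → ∀ a : ℕ, v (y i) ≠ v x ^ a * v (y j) := by
    intro i j hij a h
    rcases Nat.eq_zero_or_pos a with rfl | ha
    · rw [pow_zero, one_mul] at h
      exact hij (hinj h)
    · have h1 : v x ^ a ≤ v x := by
        calc v x ^ a = v x ^ (a - 1) * v x := by rw [← pow_succ, Nat.sub_add_cancel ha]
          _ ≤ 1 * v x := mul_le_mul_left (pow_le_one' hx.le _) _
          _ = v x := one_mul _
      have h2 : v (y i) < v x := by
        rw [h]
        calc v x ^ a * v (y j) < v x ^ a * 1 := by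
              exact mul_lt_mul_of_pos_left (hhi j) (zero_lt_iff.mpr (pow_ne_zero _ hvx0))
          _ = v x ^ a := mul_one _
          _ ≤ v x := h1
      exact absurd (hlo i) (not_le.mpr h2)
  have hli := linearIndependent_of_val v hK hx0 hx y hy0 (by
    intro i j hij a h
    rcases le_or_gt 0 a with ha | ha
    · obtain ⟨n, rfl⟩ := Int.eq_ofNat_of_zero_le ha
      rw [zpow_natCast] at h
      exact key i j hij n h
    · obtain ⟨n, hn⟩ := Int.eq_ofNat_of_zero_le (show 0 ≤ -a by omega)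
      have ha' : a = -(n : ℤ) := by omega
      rw [ha', zpow_neg, zpow_natCast] at h
      apply key j i (Ne.symm hij) n
      rw [h, ← mul_assoc, mul_inv_cancel₀ (pow_ne_zero _ hvx0), one_mul])
  exact hli.fintype_card_le_finrank

end Fermat.Agent.S18.H905

end
-- ===== PACK-END S18/H905/ValChain.lean

-- ===== PACK-BEGIN S13/ValInv511.lean
section





/-!
# The decomposition group preserves the valuation

For an algebraic field extension `L / K`, a valuation subring `A` of `L` and `σ` in the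
decomposition group of `A`, we have `A.valuation (σ t) = A.valuation t` for every `t`.
-/

set_option autoImplicit false

namespace Fermat.Agent.S13.ValInv511

open scoped Pointwise

variable {K L : Type*} [Field K] [Field L] [Algebra K L]

lemma map_mem_iff (A : ValuationSubring L) {σ : L ≃ₐ[K] L}
    (hσ : σ ∈ A.decompositionSubgroup K) (z : L) : σ z ∈ A ↔ z ∈ A := by
  have h : σ • A = A := hσ
  have := ValuationSubring.smul_mem_pointwise_smul_iff (g := σ) (S := A) (x := z)
  rw [h] at this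
  exact this

lemma val_map_le_map (A : ValuationSubring L) {σ : L ≃ₐ[K] L}
    (hσ : σ ∈ A.decompositionSubgroup K) {z z' : L}
    (h : A.valuation z ≤ A.valuation z') : A.valuation (σ z) ≤ A.valuation (σ z') := by
  by_cases hz' : z' = 0
  · rw [hz', map_zero, le_zero_iff, map_eq_zero] at h
    rw [h, map_zero, map_zero]
    exact zero_le
  · have hpos : 0 < A.valuation z' := by rw [Valuation.pos_iff]; exact hz'
    have hσz' : σ z' ≠ 0 := fun h0 => hz' ((map_eq_zero σ).mp h0)
    have hpos' : 0 < A.valuation (σ z') := by rw [Valuation.pos_iff]; exact hσz'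
    have h1 : A.valuation (z / z') ≤ 1 := by
      rw [map_div₀]; exact (div_le_one₀ hpos).mpr h
    have h2 : z / z' ∈ A := (A.valuation_le_one_iff _).mp h1
    have h3 : σ (z / z') ∈ A := (map_mem_iff A hσ _).mpr h2
    have h4 : A.valuation (σ z / σ z') ≤ 1 := by
      rw [← map_div₀]; exact (A.valuation_le_one_iff _).mpr h3
    rw [map_div₀] at h4
    exact (div_le_one₀ hpos').mp h4

/-- Some positive power of `σ` fixes a given algebraic element. -/
lemma exists_pow_apply_eq [Algebra.IsAlgebraic K L] (σ : L ≃ₐ[K] L) (t : L) :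
    ∃ m : ℕ, 0 < m ∧ (σ ^ m) t = t := by
  have halg : IsAlgebraic K t := Algebra.IsAlgebraic.isAlgebraic t
  have hint : IsIntegral K t := halg.isIntegral
  have hfin : ((minpoly K t).rootSet L).Finite := Polynomial.rootSet_finite _ _
  have hmem : ∀ k : ℕ, (σ ^ k) t ∈ (minpoly K t).rootSet L := by
    intro k
    rw [Polynomial.mem_rootSet]
    refine ⟨minpoly.ne_zero hint, ?_⟩
    have : Polynomial.aeval ((σ ^ k) t) (minpoly K t) =
        (σ ^ k) (Polynomial.aeval t (minpoly K t)) :=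
      Polynomial.aeval_algHom_apply ((σ ^ k : L ≃ₐ[K] L) : L →ₐ[K] L) t (minpoly K t)
    rw [this, minpoly.aeval, map_zero]
  have : Finite ((minpoly K t).rootSet L) := hfin
  obtain ⟨i, j, hij, he⟩ := Finite.exists_ne_map_eq_of_infinite
    (fun k : ℕ => (⟨(σ ^ k) t, hmem k⟩ : (minpoly K t).rootSet L))
  have he' : (σ ^ i) t = (σ ^ j) t := congrArg Subtype.val he
  have key : ∀ a b : ℕ, a < b → (σ ^ a) t = (σ ^ b) t → ∃ m : ℕ, 0 < m ∧ (σ ^ m) t = t := by
    intro a b hab h
    refine ⟨b - a, Nat.sub_pos_of_lt hab, ?_⟩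
    have e : σ ^ b = σ ^ a * σ ^ (b - a) := by
      rw [← pow_add]; congr 1; omega
    rw [e, AlgEquiv.mul_apply] at h
    exact ((σ ^ a).injective h).symm
  rcases lt_or_gt_of_ne hij with h | h
  · exact key i j h he'
  · exact key j i h he'.symm

/-- **The decomposition group preserves the valuation.** -/
theorem val_map_eq [Algebra.IsAlgebraic K L] (A : ValuationSubring L) {σ : L ≃ₐ[K] L}
    (hσ : σ ∈ A.decompositionSubgroup K) (t : L) :
    A.valuation (σ t) = A.valuation t := by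
  obtain ⟨m, hm, hfix⟩ := exists_pow_apply_eq σ t
  have hsucc : ∀ k : ℕ, (σ ^ (k + 1)) t = σ ((σ ^ k) t) := by
    intro k
    rw [pow_succ', AlgEquiv.mul_apply]
  rcases le_total (A.valuation (σ t)) (A.valuation t) with h | h
  · -- the sequence is antitone
    have hstep : ∀ k : ℕ, A.valuation ((σ ^ (k + 1)) t) ≤ A.valuation ((σ ^ k) t) := by
      intro k
      induction k with
      | zero => simpa using h
      | succ k ih =>
        have := val_map_le_map A hσ ih
        rwa [← hsucc (k + 1), ← hsucc k] at this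
    have hanti : ∀ k : ℕ, A.valuation ((σ ^ (k + 1)) t) ≤ A.valuation (σ t) := by
      intro k
      induction k with
      | zero => simp
      | succ k ih => exact (hstep (k + 1)).trans ih
    obtain ⟨m', rfl⟩ : ∃ m', m = m' + 1 := ⟨m - 1, by omega⟩
    have := hanti m'
    rw [hfix] at this
    exact le_antisymm h this
  · have hstep : ∀ k : ℕ, A.valuation ((σ ^ k) t) ≤ A.valuation ((σ ^ (k + 1)) t) := by
      intro k
      induction k with
      | zero => simpa using h
      | succ k ih =>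
        have := val_map_le_map A hσ ih
        rwa [← hsucc (k + 1), ← hsucc k] at this
    have hmono : ∀ k : ℕ, A.valuation (σ t) ≤ A.valuation ((σ ^ (k + 1)) t) := by
      intro k
      induction k with
      | zero => simp
      | succ k ih => exact ih.trans (hstep (k + 1))
    obtain ⟨m', rfl⟩ : ∃ m', m = m' + 1 := ⟨m - 1, by omega⟩
    have := hmono m'
    rw [hfix] at this
    exact le_antisymm this h

end Fermat.Agent.S13.ValInv511

end
-- ===== PACK-END S13/ValInv511.lean

-- ===== PACK-BEGIN S30/H709/EigenAlg.lean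
section


/-!
# S30-OCC, algebra: a ring homomorphism from a faithfully acting commutative ring occurs

`T` a commutative ring acting faithfully on a finitely generated module `L`, `χ : T →+* K` a ring
homomorphism to a field: there is a nonzero additive `μ : L → K` with `μ (t • x) = χ t * μ x`.
No hypothesis on the kernel of `χ` (maximality is not needed), no characteristic hypothesis.

Lattice form: if `L` is a free `ℤ`-module of finite rank with basis `b`, and `χ` takes values in a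
domain `A`, there is a nonzero vector `w` of elements of `A` which is a left eigenvector with
eigenvalue `χ t` of the integer matrix of every `t` in the basis `b`.
-/

set_option autoImplicit false

namespace Fermat.Agent.S30.H709

open scoped TensorProduct

/-- A ring homomorphism `χ : T →+* K` to a field occurs in every faithful finitely generated
`T`-module: there is a nonzero `χ`-semilinear additive functional. -/
theorem exists_semilinear_functional {T : Type*} [CommRing T] {L : Type*} [AddCommGroup L]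
    [Module T L] [Module.Finite T L] (hfaith : ∀ t : T, (∀ x : L, t • x = 0) → t = 0)
    {K : Type*} [Field K] (χ : T →+* K) :
    ∃ μ : L →+ K, μ ≠ 0 ∧ ∀ (t : T) (x : L), μ (t • x) = χ t * μ x := by
  classical
  let 𝔭 : Ideal T := RingHom.ker χ
  have h𝔭 : 𝔭.IsPrime := RingHom.ker_isPrime χ
  let P : PrimeSpectrum T := ⟨𝔭, h𝔭⟩
  have hsupp : P ∈ Module.support T L := by
    rw [Module.mem_support_iff_of_finite]
    intro t ht
    rw [Module.mem_annihilator] at ht
    rw [hfaith t ht]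
    exact zero_mem _
  have hnt : Nontrivial (𝔭.ResidueField ⊗[T] L) :=
    (Module.mem_support_iff_nontrivial_residueField_tensorProduct P).mp hsupp
  obtain ⟨v, hv⟩ := exists_ne (0 : 𝔭.ResidueField ⊗[T] L)
  obtain ⟨φ, hφ⟩ := Module.Projective.exists_dual_ne_zero 𝔭.ResidueField hv
  have hunit : 𝔭.primeCompl ≤ (IsUnit.submonoid K).comap χ := by
    intro t ht
    rw [Submonoid.mem_comap, IsUnit.mem_submonoid_iff]
    exact IsUnit.mk0 _ (fun h => ht (RingHom.mem_ker.mpr h))
  let ι : 𝔭.ResidueField →+* K := Ideal.ResidueField.lift 𝔭 χ le_rfl hunit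
  have hι : ∀ t : T, ι (algebraMap T 𝔭.ResidueField t) = χ t := fun t =>
    Ideal.ResidueField.lift_algebraMap 𝔭 χ le_rfl hunit t
  let μ : L →+ K :=
    { toFun := fun x => ι (φ ((1 : 𝔭.ResidueField) ⊗ₜ[T] x))
      map_zero' := by rw [TensorProduct.tmul_zero, map_zero, map_zero]
      map_add' := fun x y => by rw [TensorProduct.tmul_add, map_add, map_add] }
  have hμ : ∀ x, μ x = ι (φ ((1 : 𝔭.ResidueField) ⊗ₜ[T] x)) := fun _ => rfl
  refine ⟨μ, ?_, ?_⟩
  · intro h0
    apply hφ
    have hzero : ∀ x : L, φ ((1 : 𝔭.ResidueField) ⊗ₜ[T] x) = 0 := by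
      intro x
      have := congrArg (fun m : L →+ K => m x) h0
      simp only [hμ, AddMonoidHom.zero_apply] at this
      exact (map_eq_zero ι).mp this
    have hall : ∀ w : 𝔭.ResidueField ⊗[T] L, φ w = 0 := by
      intro w
      induction w using TensorProduct.induction_on with
      | zero => exact map_zero φ
      | tmul a x =>
        have : a ⊗ₜ[T] x = a • ((1 : 𝔭.ResidueField) ⊗ₜ[T] x) := by
          rw [TensorProduct.smul_tmul', smul_eq_mul, mul_one]
        rw [this, map_smul, hzero, smul_zero]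
      | add x y hx hy => rw [map_add, hx, hy, add_zero]
    exact hall v
  · intro t x
    rw [hμ, hμ, ← hι t, ← map_mul]
    congr 1
    have : (1 : 𝔭.ResidueField) ⊗ₜ[T] (t • x)
        = (algebraMap T 𝔭.ResidueField t) • ((1 : 𝔭.ResidueField) ⊗ₜ[T] x) := by
      rw [TensorProduct.tmul_smul, TensorProduct.smul_tmul', TensorProduct.smul_tmul',
        smul_eq_mul, mul_one, Algebra.smul_def, mul_one]
    rw [this, map_smul, smul_eq_mul]

/-- Auxiliary form of `exists_eigen_coeffs` with an arbitrary fraction field. -/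
theorem exists_eigen_coeffs_aux {T : Type*} [CommRing T] {L : Type*} [AddCommGroup L]
    (ρ : T →+* Module.End ℤ L) (hρ : Function.Injective ρ)
    {ι : Type*} [Fintype ι] (b : Module.Basis ι ℤ L)
    {A : Type*} [CommRing A] [IsDomain A] (K : Type*) [Field K] [Algebra A K]
    [IsFractionRing A K] (χ : T →+* A) :
    ∃ w : ι → A, w ≠ 0 ∧
      ∀ (t : T) (k : ι), ∑ j, w j * ((b.repr (ρ t (b k)) j : ℤ) : A) = χ t * w k := by
  classical
  let _ : Module T L := Module.compHom L ρ
  have hsmul : ∀ (t : T) (x : L), t • x = ρ t x := fun _ _ => rfl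
  have : Module.Finite T L := by
    refine ⟨⟨Finset.univ.image b, ?_⟩⟩
    rw [eq_top_iff]
    intro x _
    rw [← b.sum_repr x]
    refine Submodule.sum_mem _ fun j _ => ?_
    have hb : b j ∈ Submodule.span T ((Finset.univ.image b : Finset L) : Set L) :=
      Submodule.subset_span (by simp)
    have : (b.repr x j) • b j = ((b.repr x j : ℤ) : T) • b j := by
      rw [hsmul, map_intCast]
      rfl
    rw [this]
    exact Submodule.smul_mem _ _ hb
  have hfaith : ∀ t : T, (∀ x : L, t • x = 0) → t = 0 := by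
    intro t ht
    apply hρ
    rw [map_zero]
    exact LinearMap.ext fun x => ht x
  obtain ⟨μ, hμ0, hμ⟩ := exists_semilinear_functional hfaith ((algebraMap A K).comp χ)
  obtain ⟨d, hd⟩ := IsLocalization.exist_integer_multiples_of_finite (nonZeroDivisors A)
    (fun j : ι => μ (b j))
  choose w hw using hd
  have hd0 : algebraMap A K (d : A) ≠ 0 := by
    intro h
    exact nonZeroDivisors.coe_ne_zero d ((IsFractionRing.injective A K) (by rw [h, map_zero]))
  have hw' : ∀ j, algebraMap A K (w j) = algebraMap A K (d : A) * μ (b j) := by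
    intro j
    rw [hw j, Algebra.smul_def]
  refine ⟨w, ?_, ?_⟩
  · intro hw0
    apply hμ0
    have hb0 : ∀ j, μ (b j) = 0 := by
      intro j
      have h1 := hw' j
      rw [hw0, Pi.zero_apply, map_zero] at h1
      rcases mul_eq_zero.mp h1.symm with h | h
      · exact absurd h hd0
      · exact h
    have hall : ∀ x : L, μ x = 0 := by
      intro x
      rw [← b.sum_repr x, map_sum]
      refine Finset.sum_eq_zero fun j _ => ?_
      rw [map_zsmul, hb0, smul_zero]
    exact AddMonoidHom.ext hall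
  · intro t k
    apply IsFractionRing.injective A K
    have h1 : μ (ρ t (b k)) = algebraMap A K (χ t) * μ (b k) := hμ t (b k)
    have h2 : μ (ρ t (b k)) = ∑ j, ((b.repr (ρ t (b k)) j : ℤ) : K) * μ (b j) := by
      conv_lhs => rw [← b.sum_repr (ρ t (b k))]
      rw [map_sum]
      refine Finset.sum_congr rfl fun j _ => ?_
      rw [map_zsmul, zsmul_eq_mul]
    rw [map_sum, map_mul, hw' k]
    calc ∑ j, algebraMap A K (w j * ((b.repr (ρ t (b k)) j : ℤ) : A))
        = ∑ j, algebraMap A K (d : A) * (((b.repr (ρ t (b k)) j : ℤ) : K) * μ (b j)) := by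
          refine Finset.sum_congr rfl fun j _ => ?_
          rw [map_mul, hw' j, map_intCast]
          ring
      _ = algebraMap A K (d : A) * μ (ρ t (b k)) := by rw [h2, Finset.mul_sum]
      _ = algebraMap A K (χ t) * (algebraMap A K (d : A) * μ (b k)) := by rw [h1]; ring

/-- Lattice form of `exists_semilinear_functional`: a commutative ring `T` acting faithfully
(through `ρ`) on a free abelian group `L` of finite rank with basis `b`, and a ring homomorphism
`χ` from `T` to a domain `A`.  There is a nonzero `w : ι → A` with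
`∑ j, w j * [ρ t]_{j k} = χ t * w k` for all `t`, where `[ρ t]_{j k} = b.repr (ρ t (b k)) j`. -/
theorem exists_eigen_coeffs {T : Type*} [CommRing T] {L : Type*} [AddCommGroup L]
    (ρ : T →+* Module.End ℤ L) (hρ : Function.Injective ρ)
    {ι : Type*} [Fintype ι] (b : Module.Basis ι ℤ L)
    {A : Type*} [CommRing A] [IsDomain A] (χ : T →+* A) :
    ∃ w : ι → A, w ≠ 0 ∧
      ∀ (t : T) (k : ι), ∑ j, w j * ((b.repr (ρ t (b k)) j : ℤ) : A) = χ t * w k :=
  exists_eigen_coeffs_aux ρ hρ b (FractionRing A) χ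

end Fermat.Agent.S30.H709

end
-- ===== PACK-END S30/H709/EigenAlg.lean

-- ===== PACK-BEGIN S31/H202/MatOrth.lean
section


/-!
# S31 / ALG-1, matrix core (helper202)

`A` a local ring, `r : A →+* K` a ring hom to a field killing the maximal ideal, `F : G → Mₙ(A)` a
family of matrices whose reductions span `Mₙ(K)`.  Then

* `mat_eq_zero_of_trace_orth`: `tr (F g * X) = 0` for all `g` implies `X = 0`;
* `span_eq_top_of_span_map_eq_top`: the `F g` span `Mₙ(A)` over `A`.
-/

set_option autoImplicit false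

namespace Fermat.Agent.S31.H202

open Matrix

section Core

variable {A K : Type*} [CommRing A] [IsLocalRing A] [Field K] (r : A →+* K)
variable {ι G : Type*} [Fintype ι] [DecidableEq ι]

/-- the reductions of a spanning family contain a family indexed by `ι × ι` whose coefficient matrix
is invertible. -/
theorem exists_invertible_coeff (hr : ∀ a ∈ IsLocalRing.maximalIdeal A, r a = 0)
    (F : G → Matrix ι ι A)
    (hspan : Submodule.span K (Set.range fun g => (F g).map r) = ⊤) :
    ∃ f : ι × ι → G, IsUnit (Matrix.of fun (a b : ι × ι) => F (f a) b.1 b.2) := by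
  classical
  set s : Set (Matrix ι ι K) := Set.range fun g => (F g).map r with hs
  obtain ⟨f0, hf0, -, hli⟩ := Submodule.exists_fun_fin_finrank_span_eq K s
  have hcard : Module.finrank K (Submodule.span K s) = Fintype.card (ι × ι) := by
    rw [hspan, finrank_top, Module.finrank_matrix, Module.finrank_self, mul_one,
      Fintype.card_prod]
  let e : ι × ι ≃ Fin (Module.finrank K (Submodule.span K s)) :=
    (Fintype.equivFinOfCardEq hcard.symm)
  choose f1 hf1 using hf0
  refine ⟨fun a => f1 (e a), ?_⟩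
  set P : Matrix (ι × ι) (ι × ι) A := Matrix.of fun (a b : ι × ι) => F (f1 (e a)) b.1 b.2 with hP
  -- the reduction of `P` has linearly independent rows
  have hrow : LinearIndependent K (P.map r).row := by
    have h1 : LinearIndependent K (f0 ∘ e) := hli.comp _ e.injective
    have h2 := h1.map' ((LinearEquiv.curry K K ι ι).symm : (ι → ι → K) →ₗ[K] (ι × ι → K))
      (LinearEquiv.ker _)
    have heq : (P.map r).row
        = ((LinearEquiv.curry K K ι ι).symm : (ι → ι → K) →ₗ[K] (ι × ι → K)) ∘ (f0 ∘ e) := by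
      funext a
      funext b
      have := hf1 (e a)
      show r (F (f1 (e a)) b.1 b.2) = (f0 (e a)) b.1 b.2
      rw [← this]
      rfl
    rw [heq]
    exact h2
  have hunit : IsUnit (P.map r) := Matrix.linearIndependent_rows_iff_isUnit.mp hrow
  rw [Matrix.isUnit_iff_isUnit_det] at hunit ⊢
  have hdet : (P.map r).det = r P.det := by
    rw [← RingHom.mapMatrix_apply, ← RingHom.map_det]
  rw [hdet] at hunit
  by_contra hnu
  have : P.det ∈ IsLocalRing.maximalIdeal A := (IsLocalRing.mem_maximalIdeal _).mpr hnu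
  exact hunit.ne_zero (hr _ this)

/-- **Trace orthogonality**: if the reductions of `F g` span `Mₙ(K)` and `tr (F g * X) = 0` for all
`g`, then `X = 0`. -/
theorem mat_eq_zero_of_trace_orth (hr : ∀ a ∈ IsLocalRing.maximalIdeal A, r a = 0)
    (F : G → Matrix ι ι A)
    (hspan : Submodule.span K (Set.range fun g => (F g).map r) = ⊤)
    (X : Matrix ι ι A) (hX : ∀ g, Matrix.trace (F g * X) = 0) : X = 0 := by
  classical
  obtain ⟨f, hf⟩ := exists_invertible_coeff r hr F hspan
  set P : Matrix (ι × ι) (ι × ι) A := Matrix.of fun (a b : ι × ι) => F (f a) b.1 b.2 with hP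
  have hPx : P *ᵥ (fun b : ι × ι => X b.2 b.1) = 0 := by
    funext a
    have := hX (f a)
    simp only [Matrix.trace, Matrix.diag, Matrix.mul_apply] at this
    simp only [Matrix.mulVec, dotProduct, hP, Matrix.of_apply, Pi.zero_apply]
    rw [Fintype.sum_prod_type]
    exact this
  have hx : (fun b : ι × ι => X b.2 b.1) = 0 := by
    have := Matrix.mulVec_injective_of_isUnit hf
    exact this (by rw [hPx, Matrix.mulVec_zero])
  ext i j
  have := congrFun hx (j, i)
  simpa using this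

/-- **Lifting a spanning family**: if the reductions of `F g` span `Mₙ(K)` over `K`, then the
`F g` span `Mₙ(A)` over `A`. -/
theorem span_eq_top_of_span_map_eq_top (hr : ∀ a ∈ IsLocalRing.maximalIdeal A, r a = 0)
    (F : G → Matrix ι ι A)
    (hspan : Submodule.span K (Set.range fun g => (F g).map r) = ⊤) :
    Submodule.span A (Set.range F) = ⊤ := by
  classical
  obtain ⟨f, hf⟩ := exists_invertible_coeff r hr F hspan
  set P : Matrix (ι × ι) (ι × ι) A := Matrix.of fun (a b : ι × ι) => F (f a) b.1 b.2 with hP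
  obtain ⟨Q, hQ⟩ : ∃ Q : Matrix (ι × ι) (ι × ι) A, Q * P = 1 := by
    obtain ⟨u, hu⟩ := hf
    exact ⟨(u⁻¹ : (Matrix (ι × ι) (ι × ι) A)ˣ), by rw [← hu]; exact Units.inv_mul u⟩
  rw [eq_top_iff]
  intro M _
  -- `M = ∑_a (∑_b M b * Q b a) • F (f a)`
  have hM : M = ∑ a : ι × ι, (∑ b : ι × ι, M b.1 b.2 * Q b a) • F (f a) := by
    ext i j
    rw [Matrix.sum_apply]
    simp only [Matrix.smul_apply, smul_eq_mul]
    have h1 : ∀ a : ι × ι, (∑ b : ι × ι, M b.1 b.2 * Q b a) * F (f a) i j
        = ∑ b : ι × ι, M b.1 b.2 * (Q b a * P a (i, j)) := by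
      intro a
      rw [Finset.sum_mul]
      refine Finset.sum_congr rfl fun b _ => ?_
      rw [hP, Matrix.of_apply, mul_assoc]
    simp_rw [h1]
    rw [Finset.sum_comm]
    have h2 : ∀ b : ι × ι, ∑ a : ι × ι, M b.1 b.2 * (Q b a * P a (i, j))
        = M b.1 b.2 * (1 : Matrix (ι × ι) (ι × ι) A) b (i, j) := by
      intro b
      rw [← hQ, Matrix.mul_apply, Finset.mul_sum]
    simp_rw [h2]
    rw [Finset.sum_eq_single (i, j)]
    · simp
    · intro b _ hb
      rw [Matrix.one_apply_ne hb, mul_zero]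
    · intro h
      exact absurd (Finset.mem_univ _) h
  rw [hM]
  refine Submodule.sum_mem _ fun a _ => Submodule.smul_mem _ _ (Submodule.subset_span ⟨f a, rfl⟩)

end Core

end Fermat.Agent.S31.H202

end
-- ===== PACK-END S31/H202/MatOrth.lean

-- ===== PACK-BEGIN S31/H262/Reduced.lean
section


/-!
# S31 / SS6 (helper262): `ℚ_[p] ⊗[ℤ] B` is reduced for a reduced ring `B`, finite over `ℤ`

Route: `ℚ ⊗[ℤ] B` is a localisation of `B`, hence reduced; it is a finite-dimensional reduced
`ℚ`-algebra, hence a finite product of (separable) field extensions of `ℚ`, hence formally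
unramified over `ℚ`; base change to `ℚ_[p]` stays formally unramified, hence reduced.
-/

set_option autoImplicit false
set_option linter.unusedSectionVars false
set_option linter.style.haveILetI false

noncomputable section

namespace Fermat.Agent.S31.H262

open scoped TensorProduct

section Reduced

variable (B : Type) [CommRing B] [Module.Finite ℤ B] [IsReduced B]

attribute [local instance] Algebra.TensorProduct.rightAlgebra in
theorem isReduced_rat_tensor : IsReduced (ℚ ⊗[ℤ] B) := by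
  haveI : IsLocalization (Algebra.algebraMapSubmonoid B (nonZeroDivisors ℤ)) (ℚ ⊗[ℤ] B) :=
    IsLocalization.tensorRight (R := ℤ) (S := B) ℚ (nonZeroDivisors ℤ)
  exact isReduced_localizationPreserves
    (Algebra.algebraMapSubmonoid B (nonZeroDivisors ℤ)) (ℚ ⊗[ℤ] B) inferInstance

theorem isArtinianRing_rat_tensor : IsArtinianRing (ℚ ⊗[ℤ] B) :=
  isArtinian_of_tower ℚ inferInstance

attribute [local instance] IsArtinianRing.fieldOfSubtypeIsMaximal in
theorem formallyEtale_rat_tensor : Algebra.FormallyEtale ℚ (ℚ ⊗[ℤ] B) := by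
  haveI := isReduced_rat_tensor B
  haveI := isArtinianRing_rat_tensor B
  rw [Algebra.FormallyEtale.iff_exists_algEquiv_prod]
  exact ⟨MaximalSpectrum (ℚ ⊗[ℤ] B), inferInstance, fun I => (ℚ ⊗[ℤ] B) ⧸ I.asIdeal,
    inferInstance, inferInstance, (IsArtinianRing.equivPi (ℚ ⊗[ℤ] B)).restrictScalars ℚ,
    fun I => inferInstance⟩

variable (K : Type) [Field K] [CharZero K]

/-- `K ⊗[ℤ] B` is reduced for every field `K` of characteristic zero. -/
theorem isReduced_field_tensor : IsReduced (K ⊗[ℤ] B) := by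
  letI : Algebra ℚ K := DivisionRing.toRatAlgebra
  haveI := formallyEtale_rat_tensor B
  haveI : Algebra.FormallyUnramified K (K ⊗[ℚ] (ℚ ⊗[ℤ] B)) := inferInstance
  haveI : IsReduced (K ⊗[ℚ] (ℚ ⊗[ℤ] B)) :=
    Algebra.FormallyUnramified.isReduced_of_field K (K ⊗[ℚ] (ℚ ⊗[ℤ] B))
  exact isReduced_of_injective
    (Algebra.TensorProduct.cancelBaseChange ℤ ℚ K K B).symm.toRingEquiv
    (Algebra.TensorProduct.cancelBaseChange ℤ ℚ K K B).symm.injective

end Reduced

end Fermat.Agent.S31.H262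

end
end
-- ===== PACK-END S31/H262/Reduced.lean

-- ===== PACK-BEGIN S22/H262/Prim.lean
section


set_option autoImplicit false

/-!
# Primitive towers on the upper half plane

For a holomorphic periodic function `h` on `ℍ` vanishing at `i∞` we construct the tower
`E 0 = h`, `(E (r+1))' = E r`, with every `E (r+1)` vanishing at `i∞`, and prove uniqueness.
(The one-step primitive lemma is due to helper502.)
-/

open Complex Filter Function Metric Set
open UpperHalfPlane hiding I
open scoped Real Topology Manifold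

namespace Fermat.Agent.S22.H262

/-- One-step primitive: a holomorphic `h`-periodic function on `ℍ` that is zero at `i∞` has a
holomorphic `h`-periodic primitive that is zero at `i∞`. -/
theorem exists_primitive_isZeroAtImInfty {f : ℍ → ℂ} {h : ℝ} (hh : 0 < h)
    (hfper : Periodic (f ∘ ofComplex) h) (hfhol : MDiff f) (hfzero : IsZeroAtImInfty f) :
    ∃ F : ℍ → ℂ, Periodic (F ∘ ofComplex) h ∧ MDiff F ∧ IsZeroAtImInfty F ∧
      ∀ τ : ℍ, HasDerivAt (F ∘ ofComplex) (f τ) (τ : ℂ) := by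
  set φ := cuspFunction h f with hφ
  have hφd : DifferentiableOn ℂ φ (ball 0 1) :=
    differentiableOn_cuspFunction_ball hh hfper hfhol hfzero.isBoundedAtImInfty
  have hφ0 : φ 0 = 0 := hfzero.cuspFunction_apply_zero hh
  have hball : ball (0 : ℂ) 1 ∈ 𝓝 (0 : ℂ) := ball_mem_nhds _ one_pos
  have hψd : DifferentiableOn ℂ (dslope φ 0) (ball 0 1) :=
    (differentiableOn_dslope hball).2 hφd
  obtain ⟨Ψ, hΨ0, hΨ⟩ := (hψd.isExactOn_ball).with_val_at 0 0
  have hq : ∀ z : ℂ, 0 < z.im → Periodic.qParam h z ∈ ball (0 : ℂ) 1 := fun z hz ↦ by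
    simpa using Periodic.norm_qParam_lt_one hh hz
  -- the primitive as a function on `ℂ`
  set G : ℂ → ℂ := fun z ↦ (h / (2 * π * I)) * Ψ (Periodic.qParam h z) with hG
  have hGderiv : ∀ τ : ℍ, HasDerivAt G (f τ) (τ : ℂ) := by
    intro τ
    have hqτ := hq τ τ.im_pos
    have h1 : HasDerivAt (Periodic.qParam h) (Periodic.qParam h τ * (2 * π * I / h)) (τ : ℂ) := by
      simpa only [id_eq, mul_one] using!
        (((hasDerivAt_id (τ : ℂ)).const_mul (2 * π * I)).div_const (h : ℂ)).cexp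
    have h2 := (hΨ _ hqτ).comp (τ : ℂ) h1
    have h3 := h2.const_mul ((h : ℂ) / (2 * π * I))
    have hne : Periodic.qParam h (τ : ℂ) ≠ 0 := Periodic.qParam_ne_zero _
    have hval : (h : ℂ) / (2 * π * I) *
        (dslope φ 0 (Periodic.qParam h τ) * (Periodic.qParam h τ * (2 * π * I / h))) = f τ := by
      rw [dslope_of_ne _ hne, slope_def_field, hφ0, sub_zero, sub_zero]
      have hh' : (h : ℂ) ≠ 0 := by exact_mod_cast hh.ne'
      have : φ (Periodic.qParam h τ) = f τ := eq_cuspFunction τ hh.ne' hfper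
      rw [this]
      field_simp [two_pi_I_ne_zero]
    rw [← hval]
    exact h3
  refine ⟨fun τ ↦ G τ, ?_, ?_, ?_, ?_⟩
  · intro w
    by_cases hw : 0 < im w
    · have hw' : 0 < im (w + h) := by simpa using hw
      simp only [comp_apply, ofComplex_apply_of_im_pos hw', ofComplex_apply_of_im_pos hw, hG]
      congr 2
      simp only [Periodic.qParam]
      have hh' : (h : ℂ) ≠ 0 := by exact_mod_cast hh.ne'
      rw [show 2 * π * I * (w + h) / h = 2 * π * I * w / h + 2 * π * I by field_simp,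
        Complex.exp_add, Complex.exp_two_pi_mul_I, mul_one]
    · have hw' : im (w + h) ≤ 0 := by simpa using not_lt.mp hw
      simp [ofComplex_apply_of_im_nonpos hw', ofComplex_apply_of_im_nonpos (not_lt.mp hw)]
  · rw [UpperHalfPlane.mdifferentiable_iff]
    intro z hz
    have := hGderiv ⟨z, hz⟩
    refine (this.differentiableAt.differentiableWithinAt).congr ?_ ?_
    · intro w hw
      simp [ofComplex_apply_of_im_pos hw]
    · simp [ofComplex_apply_of_im_pos hz]
  · have hΨc : ContinuousAt Ψ 0 := (hΨ 0 (mem_ball_self one_pos)).continuousAt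
    have h1 : Tendsto (fun τ : ℍ ↦ Ψ (Periodic.qParam h τ)) atImInfty (𝓝 0) := by
      have := hΨc.tendsto.comp (qParam_tendsto_atImInfty hh)
      rwa [hΨ0] at this
    have h2 := h1.const_mul ((h : ℂ) / (2 * π * I))
    rw [mul_zero] at h2
    exact h2
  · intro τ
    refine (hGderiv τ).congr_of_eventuallyEq ?_
    have hopen : {z : ℂ | 0 < z.im} ∈ 𝓝 (τ : ℂ) :=
      (isOpen_lt continuous_const Complex.continuous_im).mem_nhds τ.im_pos
    filter_upwards [hopen] with z hz
    simp [ofComplex_apply_of_im_pos hz]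

/-- A *primitive tower* of `h`: `E 0 = h`, `E (r+1)` is a primitive of `E r` on `ℍ`
which vanishes at `i∞`. -/
structure IsTower (h : ℍ → ℂ) (E : ℕ → ℍ → ℂ) : Prop where
  zero : E 0 = h
  hasDeriv : ∀ (r : ℕ) (z : ℍ), HasDerivAt (E (r + 1) ∘ ofComplex) (E r z) (z : ℂ)
  isZero : ∀ r : ℕ, IsZeroAtImInfty (E (r + 1))

/-- A function on `ℍ` with vanishing derivative everywhere is constant. -/
theorem const_of_hasDerivAt_zero {D : ℍ → ℂ}
    (hD : ∀ z : ℍ, HasDerivAt (D ∘ ofComplex) 0 (z : ℂ)) (z w : ℍ) : D z = D w := by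
  have hopen : IsOpen {z : ℂ | 0 < z.im} := isOpen_lt continuous_const Complex.continuous_im
  have hconv : Convex ℝ {z : ℂ | 0 < z.im} := by
    intro x hx y hy a b ha hb hab
    simp only [Set.mem_ofPred_eq, add_im, smul_im] at *
    rcases ha.eq_or_lt with rfl | ha'
    · simp only [zero_add] at hab
      subst hab
      simpa using hy
    · have : 0 < a * x.im := mul_pos ha' hx
      have : 0 ≤ b * y.im := mul_nonneg hb hy.le
      simpa using by linarith
  have hdiff : DifferentiableOn ℂ (D ∘ ofComplex) {z : ℂ | 0 < z.im} := fun z hz =>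
    (hD ⟨z, hz⟩).differentiableAt.differentiableWithinAt
  have hderiv : EqOn (deriv (D ∘ ofComplex)) 0 {z : ℂ | 0 < z.im} := fun z hz =>
    (hD ⟨z, hz⟩).deriv
  have := hopen.is_const_of_deriv_eq_zero hconv.isPreconnected hdiff hderiv z.im_pos w.im_pos
  simpa using this

/-- A function on `ℍ` with vanishing derivative which tends to zero at `i∞` is zero. -/
theorem eq_zero_of_hasDerivAt_zero_of_isZero {D : ℍ → ℂ}
    (hD : ∀ z : ℍ, HasDerivAt (D ∘ ofComplex) 0 (z : ℂ)) (h0 : IsZeroAtImInfty D) : D = 0 := by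
  funext z
  have hconst : D = fun _ => D z := funext fun w => const_of_hasDerivAt_zero hD w z
  have h1 : Tendsto D atImInfty (𝓝 0) := h0
  have h2 : Tendsto D atImInfty (𝓝 (D z)) := by
    conv => enter [1]; rw [hconst]
    exact tendsto_const_nhds
  exact tendsto_nhds_unique h2 h1

theorem IsTower.unique {h : ℍ → ℂ} {E E' : ℕ → ℍ → ℂ} (hE : IsTower h E) (hE' : IsTower h E') :
    E = E' := by
  funext r
  induction r with
  | zero => rw [hE.zero, hE'.zero]
  | succ r ih =>
    have hD : ∀ z : ℍ, HasDerivAt ((E (r + 1) - E' (r + 1)) ∘ ofComplex) 0 (z : ℂ) := by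
      intro z
      have := (hE.hasDeriv r z).sub (hE'.hasDeriv r z)
      rw [ih, sub_self] at this
      exact this
    have h0 : IsZeroAtImInfty (E (r + 1) - E' (r + 1)) := by
      have : Tendsto (fun z => E (r + 1) z - E' (r + 1) z) atImInfty (𝓝 (0 - 0)) :=
        Tendsto.sub (hE.isZero r) (hE'.isZero r)
      rw [sub_zero] at this
      exact this
    have := eq_zero_of_hasDerivAt_zero_of_isZero hD h0
    exact sub_eq_zero.mp this

theorem IsTower.mdiff {h : ℍ → ℂ} {E : ℕ → ℍ → ℂ} (hE : IsTower h E) (r : ℕ) :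
    MDiff (E (r + 1)) := by
  rw [UpperHalfPlane.mdifferentiable_iff]
  intro z hz
  exact (hE.hasDeriv r ⟨z, hz⟩).differentiableAt.differentiableWithinAt

theorem IsTower.add {h₁ h₂ : ℍ → ℂ} {E₁ E₂ : ℕ → ℍ → ℂ} (h1 : IsTower h₁ E₁)
    (h2 : IsTower h₂ E₂) : IsTower (h₁ + h₂) (E₁ + E₂) where
  zero := by rw [Pi.add_apply, h1.zero, h2.zero]
  hasDeriv r z := (h1.hasDeriv r z).add (h2.hasDeriv r z)
  isZero r := by
    have : Tendsto (fun z => E₁ (r + 1) z + E₂ (r + 1) z) atImInfty (𝓝 (0 + 0)) :=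
      Tendsto.add (h1.isZero r) (h2.isZero r)
    rw [add_zero] at this
    exact this

theorem IsTower.smul {h : ℍ → ℂ} {E : ℕ → ℍ → ℂ} (hE : IsTower h E) (c : ℂ) :
    IsTower (c • h) (c • E) where
  zero := by rw [Pi.smul_apply, hE.zero]
  hasDeriv r z := (hE.hasDeriv r z).const_smul c
  isZero r := by
    have : Tendsto (fun z => c * E (r + 1) z) atImInfty (𝓝 (c * 0)) :=
      (hE.isZero r).const_mul c
    rw [mul_zero] at this
    exact this

theorem isTower_zero : IsTower 0 0 where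
  zero := rfl
  hasDeriv _ z := by
    have : ((0 : ℕ → ℍ → ℂ) 0 ∘ ofComplex) = fun _ => (0 : ℂ) := rfl
    simp
  isZero _ := tendsto_const_nhds

/-- Existence of towers for holomorphic periodic functions vanishing at `i∞`. -/
theorem exists_isTower {h : ℍ → ℂ} {p : ℝ} (hp : 0 < p)
    (hper : Periodic (h ∘ ofComplex) p) (hhol : MDiff h) (hzero : IsZeroAtImInfty h) :
    ∃ E : ℕ → ℍ → ℂ, IsTower h E := by
  classical
  let X := {F : ℍ → ℂ // Periodic (F ∘ ofComplex) p ∧ MDiff F ∧ IsZeroAtImInfty F}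
  have step : ∀ F : X, ∃ F' : X, ∀ τ : ℍ, HasDerivAt (F'.1 ∘ ofComplex) (F.1 τ) (τ : ℂ) := by
    rintro ⟨F, h1, h2, h3⟩
    obtain ⟨F', h1', h2', h3', h4'⟩ := exists_primitive_isZeroAtImInfty hp h1 h2 h3
    exact ⟨⟨F', h1', h2', h3'⟩, h4'⟩
  choose next hnext using step
  let E : ℕ → X := fun r => Nat.rec ⟨h, hper, hhol, hzero⟩ (fun _ F => next F) r
  refine ⟨fun r => (E r).1, rfl, fun r z => ?_, fun r => ?_⟩
  · exact hnext (E r) z
  · exact (E (r + 1)).2.2.2

/-- The chosen tower of a function (junk value `0` if no tower exists). -/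
noncomputable def tower (h : ℍ → ℂ) : ℕ → ℍ → ℂ :=
  open Classical in if hex : ∃ E, IsTower h E then hex.choose else 0

/-- `h` admits a tower. -/
def HasTower (h : ℍ → ℂ) : Prop := ∃ E, IsTower h E

theorem HasTower.isTower {h : ℍ → ℂ} (hh : HasTower h) : IsTower h (tower h) := by
  unfold tower
  have hh' : ∃ E, IsTower h E := hh
  rw [dif_pos hh']
  exact hh'.choose_spec

theorem IsTower.tower_eq {h : ℍ → ℂ} {E : ℕ → ℍ → ℂ} (hE : IsTower h E) : tower h = E :=
  (HasTower.isTower ⟨E, hE⟩).unique hE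

theorem HasTower.add {h₁ h₂ : ℍ → ℂ} (h1 : HasTower h₁) (h2 : HasTower h₂) :
    HasTower (h₁ + h₂) := ⟨_, h1.isTower.add h2.isTower⟩

theorem HasTower.smul {h : ℍ → ℂ} (hh : HasTower h) (c : ℂ) : HasTower (c • h) :=
  ⟨_, hh.isTower.smul c⟩

theorem hasTower_zero : HasTower 0 := ⟨_, isTower_zero⟩

theorem tower_add {h₁ h₂ : ℍ → ℂ} (h1 : HasTower h₁) (h2 : HasTower h₂) :
    tower (h₁ + h₂) = tower h₁ + tower h₂ :=
  (h1.isTower.add h2.isTower).tower_eq

theorem tower_smul {h : ℍ → ℂ} (hh : HasTower h) (c : ℂ) : tower (c • h) = c • tower h :=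
  (hh.isTower.smul c).tower_eq

theorem tower_zero_fun : tower 0 = 0 := isTower_zero.tower_eq

theorem tower_sum {ι : Type*} (s : Finset ι) (h : ι → ℍ → ℂ) (hh : ∀ i ∈ s, HasTower (h i)) :
    HasTower (∑ i ∈ s, h i) ∧ tower (∑ i ∈ s, h i) = ∑ i ∈ s, tower (h i) := by
  classical
  induction s using Finset.induction_on with
  | empty => exact ⟨by simpa using hasTower_zero, by simpa using tower_zero_fun⟩
  | insert a s ha ih =>
    have ih' := ih fun i hi => hh i (Finset.mem_insert_of_mem hi)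
    have ha' := hh a (Finset.mem_insert_self a s)
    rw [Finset.sum_insert ha, Finset.sum_insert ha]
    exact ⟨ha'.add ih'.1, by rw [tower_add ha' ih'.1, ih'.2]⟩

end Fermat.Agent.S22.H262

end
-- ===== PACK-END S22/H262/Prim.lean

-- ===== PACK-BEGIN S31/H862/Cosets.lean
section



/-!
# S31 / SS (helper862) — coset combinatorics of the Hecke double coset `Γ₀(N) diag(1,p) Γ₀(N)`

`Φ (γ, x) = γ · β_x` (`β_x` the Prelude representatives `heckeRep p x`, `x ∈ ℙ¹(𝔽_p)`) is
injective, and there is an involution `σ` of `Γ₀(N) × ℙ¹(𝔽_p)` with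
`Φ (σ y) * Φ y = p · 1` (the adjugate).
-/

set_option autoImplicit false

open UpperHalfPlane CongruenceSubgroup Matrix.SpecialLinearGroup
open scoped MatrixGroups ModularForm

open P2MW.S_ModularForm_heckeT_slash_eq_self_of_mem_Gamma0.ModularForm.HeckeSlashInvariance

namespace Fermat.Agent.S31.H862

variable {p : ℕ} [Fact p.Prime] {N : ℕ}

/-- `Φ (γ, x) = γ · β_x`. -/
noncomputable def cosetMap (p N : ℕ) (y : Gamma0 N × OnePoint (ZMod p)) : GL (Fin 2) ℝ :=
  mapGL ℝ (y.1 : SL(2, ℤ)) * heckeRep p y.2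

theorem p_ne_zero' : p ≠ 0 := (Fact.out : p.Prime).ne_zero

theorem mapGL_val_apply (g : SL(2, ℤ)) (i j : Fin 2) :
    ((mapGL ℝ g : GL (Fin 2) ℝ) : Matrix (Fin 2) (Fin 2) ℝ) i j = ((g i j : ℤ) : ℝ) := by
  simp

theorem sl_det_eq (g : SL(2, ℤ)) : g 0 0 * g 1 1 - g 0 1 * g 1 0 = 1 := by
  have h := g.det_coe
  rwa [Matrix.det_fin_two] at h

theorem sl_ext_entries {g h : SL(2, ℤ)} (h00 : g 0 0 = h 0 0) (h01 : g 0 1 = h 0 1)
    (h10 : g 1 0 = h 1 0) (h11 : g 1 1 = h 1 1) : g = h := by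
  ext i j
  fin_cases i <;> fin_cases j <;> assumption

/-- entries of `g · β_j` -/
theorem entries_mul_heckeMatrix (g : SL(2, ℤ)) (j : ℕ) (a b : Fin 2) :
    ((mapGL ℝ g * ModularForm.heckeMatrix p j : GL (Fin 2) ℝ) : Matrix (Fin 2) (Fin 2) ℝ) a b =
      (((!![g 0 0, g 0 0 * j + g 0 1 * p; g 1 0, g 1 0 * j + g 1 1 * p] :
        Matrix (Fin 2) (Fin 2) ℤ) a b : ℤ) : ℝ) := by
  have hp : p ≠ 0 := p_ne_zero'
  fin_cases a <;> fin_cases b <;>
    simp [Matrix.mul_apply, Fin.sum_univ_two, ModularForm.val_heckeMatrix hp]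

/-- entries of `g · β_∞` -/
theorem entries_mul_heckeDiagMatrix (g : SL(2, ℤ)) (a b : Fin 2) :
    ((mapGL ℝ g * ModularForm.heckeDiagMatrix p : GL (Fin 2) ℝ) : Matrix (Fin 2) (Fin 2) ℝ) a b =
      (((!![g 0 0 * p, g 0 1; g 1 0 * p, g 1 1] :
        Matrix (Fin 2) (Fin 2) ℤ) a b : ℤ) : ℝ) := by
  have hp : p ≠ 0 := p_ne_zero'
  fin_cases a <;> fin_cases b <;>
    simp [Matrix.mul_apply, Fin.sum_univ_two, ModularForm.val_heckeDiagMatrix hp]

theorem entries_heckeMatrix (j : ℕ) (a b : Fin 2) :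
    ((ModularForm.heckeMatrix p j : GL (Fin 2) ℝ) : Matrix (Fin 2) (Fin 2) ℝ) a b =
      (((!![1, (j : ℤ); 0, (p : ℤ)] : Matrix (Fin 2) (Fin 2) ℤ) a b : ℤ) : ℝ) := by
  have hp : p ≠ 0 := p_ne_zero'
  fin_cases a <;> fin_cases b <;> simp [ModularForm.val_heckeMatrix hp]

theorem entries_heckeDiagMatrix (a b : Fin 2) :
    ((ModularForm.heckeDiagMatrix p : GL (Fin 2) ℝ) : Matrix (Fin 2) (Fin 2) ℝ) a b =
      (((!![(p : ℤ), 0; 0, 1] : Matrix (Fin 2) (Fin 2) ℤ) a b : ℤ) : ℝ) := by
  have hp : p ≠ 0 := p_ne_zero'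
  fin_cases a <;> fin_cases b <;> simp [ModularForm.val_heckeDiagMatrix hp]

theorem p_two_le : (2 : ℤ) ≤ p := by exact_mod_cast (Fact.out : p.Prime).two_le

/-- `g β_j = β_j'` forces `g = 1`, `j = j'`. -/
theorem eq_of_mul_heckeMatrix_eq (g : SL(2, ℤ)) (j j' : ZMod p)
    (h : mapGL ℝ g * ModularForm.heckeMatrix p j.val = ModularForm.heckeMatrix p j'.val) :
    g = 1 ∧ j = j' := by
  have hp2 := p_two_le (p := p)
  have hE : ∀ a b : Fin 2,
      (!![g 0 0, g 0 0 * (j.val : ℤ) + g 0 1 * p; g 1 0, g 1 0 * (j.val : ℤ) + g 1 1 * p] :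
        Matrix (Fin 2) (Fin 2) ℤ) a b =
      (!![1, (j'.val : ℤ); 0, (p : ℤ)] : Matrix (Fin 2) (Fin 2) ℤ) a b := by
    intro a b
    have h1 := congrArg (fun M : GL (Fin 2) ℝ => (M : Matrix (Fin 2) (Fin 2) ℝ) a b) h
    simp only [entries_mul_heckeMatrix, entries_heckeMatrix] at h1
    exact_mod_cast h1
  have h00 : g 0 0 = 1 := by simpa using hE 0 0
  have h10 : g 1 0 = 0 := by simpa using hE 1 0
  have h01 : g 0 0 * (j.val : ℤ) + g 0 1 * p = j'.val := by simpa using hE 0 1
  have h11 : g 1 0 * (j.val : ℤ) + g 1 1 * p = p := by simpa using hE 1 1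
  rw [h00, one_mul] at h01
  rw [h10, zero_mul, zero_add] at h11
  have hp0 : (p : ℤ) ≠ 0 := by positivity
  have h11' : g 1 1 = 1 := by
    have : (g 1 1 - 1) * (p : ℤ) = 0 := by linear_combination h11
    rcases mul_eq_zero.mp this with h | h
    · linarith
    · exact absurd h hp0
  have hjj : j = j' := by
    have h2 := congrArg (Int.cast : ℤ → ZMod p) h01
    push_cast at h2
    rw [ZMod.natCast_zmod_val, ZMod.natCast_zmod_val, ZMod.natCast_self, mul_zero, add_zero] at h2
    exact h2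
  subst hjj
  have h01' : g 0 1 = 0 := by
    have : g 0 1 * (p : ℤ) = 0 := by linear_combination h01
    rcases mul_eq_zero.mp this with h | h
    · exact h
    · exact absurd h hp0
  refine ⟨sl_ext_entries ?_ ?_ ?_ ?_, rfl⟩ <;> simp [h00, h01', h10, h11']

/-- `g β_∞ = β_∞` forces `g = 1`. -/
theorem eq_of_mul_heckeDiagMatrix_eq (g : SL(2, ℤ))
    (h : mapGL ℝ g * ModularForm.heckeDiagMatrix p = ModularForm.heckeDiagMatrix p) :
    g = 1 := by
  have hp2 := p_two_le (p := p)
  have hE : ∀ a b : Fin 2,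
      (!![g 0 0 * p, g 0 1; g 1 0 * p, g 1 1] : Matrix (Fin 2) (Fin 2) ℤ) a b =
      (!![(p : ℤ), 0; 0, 1] : Matrix (Fin 2) (Fin 2) ℤ) a b := by
    intro a b
    have h1 := congrArg (fun M : GL (Fin 2) ℝ => (M : Matrix (Fin 2) (Fin 2) ℝ) a b) h
    simp only [entries_mul_heckeDiagMatrix, entries_heckeDiagMatrix] at h1
    exact_mod_cast h1
  have h00 : g 0 0 * p = p := by simpa using hE 0 0
  have h10 : g 1 0 * p = 0 := by simpa using hE 1 0
  have h01 : g 0 1 = 0 := by simpa using hE 0 1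
  have h11 : g 1 1 = 1 := by simpa using hE 1 1
  have hp0 : (p : ℤ) ≠ 0 := by positivity
  have h00' : g 0 0 = 1 := by
    have : (g 0 0 - 1) * (p : ℤ) = 0 := by linear_combination h00
    rcases mul_eq_zero.mp this with h | h
    · linarith
    · exact absurd h hp0
  have h10' : g 1 0 = 0 := by
    rcases mul_eq_zero.mp h10 with h | h
    · exact h
    · exact absurd h hp0
  exact sl_ext_entries (by simp [h00']) (by simp [h01]) (by simp [h10']) (by simp [h11])

/-- `g β_j ≠ β_∞`. -/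
theorem mul_heckeMatrix_ne (g : SL(2, ℤ)) (j : ℕ) :
    mapGL ℝ g * ModularForm.heckeMatrix p j ≠ ModularForm.heckeDiagMatrix p := by
  intro h
  have hp2 := p_two_le (p := p)
  have hE : ∀ a b : Fin 2,
      (!![g 0 0, g 0 0 * (j : ℤ) + g 0 1 * p; g 1 0, g 1 0 * (j : ℤ) + g 1 1 * p] :
        Matrix (Fin 2) (Fin 2) ℤ) a b =
      (!![(p : ℤ), 0; 0, 1] : Matrix (Fin 2) (Fin 2) ℤ) a b := by
    intro a b
    have h1 := congrArg (fun M : GL (Fin 2) ℝ => (M : Matrix (Fin 2) (Fin 2) ℝ) a b) h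
    simp only [entries_mul_heckeMatrix, entries_heckeDiagMatrix] at h1
    exact_mod_cast h1
  have h00 : g 0 0 = p := by simpa using hE 0 0
  have h10 : g 1 0 = 0 := by simpa using hE 1 0
  have hdet := sl_det_eq g
  rw [h00, h10, mul_zero, sub_zero] at hdet
  have hdvd : (p : ℤ) ∣ 1 := ⟨g 1 1, hdet.symm⟩
  have := Int.le_of_dvd one_pos hdvd
  omega

/-- `g β_∞ ≠ β_j`. -/
theorem mul_heckeDiagMatrix_ne (g : SL(2, ℤ)) (j : ℕ) :
    mapGL ℝ g * ModularForm.heckeDiagMatrix p ≠ ModularForm.heckeMatrix p j := by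
  intro h
  have hp2 := p_two_le (p := p)
  have hE : ∀ a b : Fin 2,
      (!![g 0 0 * p, g 0 1; g 1 0 * p, g 1 1] : Matrix (Fin 2) (Fin 2) ℤ) a b =
      (!![1, (j : ℤ); 0, (p : ℤ)] : Matrix (Fin 2) (Fin 2) ℤ) a b := by
    intro a b
    have h1 := congrArg (fun M : GL (Fin 2) ℝ => (M : Matrix (Fin 2) (Fin 2) ℝ) a b) h
    simp only [entries_mul_heckeDiagMatrix, entries_heckeMatrix] at h1
    exact_mod_cast h1
  have h00 : g 0 0 * p = 1 := by simpa using hE 0 0
  have hdvd : (p : ℤ) ∣ 1 := ⟨g 0 0, by rw [mul_comm]; exact h00.symm⟩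
  have := Int.le_of_dvd one_pos hdvd
  omega

theorem eq_of_mul_heckeRep_eq (g : SL(2, ℤ)) (x x' : OnePoint (ZMod p))
    (h : mapGL ℝ g * heckeRep p x = heckeRep p x') : g = 1 ∧ x = x' := by
  induction x using OnePoint.rec with
  | infty =>
    induction x' using OnePoint.rec with
    | infty => exact ⟨eq_of_mul_heckeDiagMatrix_eq g h, rfl⟩
    | coe j' => exact absurd h (mul_heckeDiagMatrix_ne g _)
  | coe j =>
    induction x' using OnePoint.rec with
    | infty => exact absurd h (mul_heckeMatrix_ne g _)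
    | coe j' =>
      obtain ⟨h1, h2⟩ := eq_of_mul_heckeMatrix_eq g j j' h
      exact ⟨h1, by rw [h2]⟩

theorem cosetMap_injective : Function.Injective (cosetMap p N) := by
  rintro ⟨γ, x⟩ ⟨γ', x'⟩ h
  simp only [cosetMap] at h
  have h2 : mapGL ℝ ((γ' : SL(2, ℤ))⁻¹ * (γ : SL(2, ℤ))) * heckeRep p x = heckeRep p x' := by
    rw [map_mul, map_inv, mul_assoc, h, ← mul_assoc, inv_mul_cancel, one_mul]
  obtain ⟨h3, h4⟩ := eq_of_mul_heckeRep_eq _ x x' h2
  have h5 : (γ : SL(2, ℤ)) = γ' := by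
    have := congrArg (fun t => (γ' : SL(2, ℤ)) * t) h3
    simpa using this
  exact Prod.ext (Subtype.ext h5) h4

/-- The scalar matrix `p · 1`. -/
noncomputable def scalarP (p : ℕ) [Fact p.Prime] : GL (Fin 2) ℝ :=
  Matrix.GeneralLinearGroup.scalar (Fin 2)
    (Units.mk0 (p : ℝ) (Nat.cast_ne_zero.mpr (Fact.out : p.Prime).ne_zero))

theorem entries_scalarP (a b : Fin 2) :
    ((scalarP p : GL (Fin 2) ℝ) : Matrix (Fin 2) (Fin 2) ℝ) a b =
      (((!![(p : ℤ), 0; 0, (p : ℤ)] : Matrix (Fin 2) (Fin 2) ℤ) a b : ℤ) : ℝ) := by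
  rw [scalarP, Matrix.GeneralLinearGroup.coe_scalar, Matrix.scalar_apply,
    Matrix.diagonal_apply]
  fin_cases a <;> fin_cases b <;> simp

/-- the unipotent matrix `(1, -j; 0, 1)` -/
def unipNeg (j : ℤ) : SL(2, ℤ) :=
  ⟨!![1, -j; 0, 1], by simp [Matrix.det_fin_two_of]⟩

theorem unipNeg_apply_zero_zero (j : ℤ) : unipNeg j 0 0 = 1 := rfl

theorem unipNeg_apply_zero_one (j : ℤ) : unipNeg j 0 1 = -j := rfl

theorem unipNeg_apply_one_zero (j : ℤ) : unipNeg j 1 0 = 0 := rfl

theorem unipNeg_apply_one_one (j : ℤ) : unipNeg j 1 1 = 1 := rfl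

theorem unipNeg_mem (N : ℕ) (j : ℤ) : unipNeg j ∈ Gamma0 N := by
  rw [Gamma0_mem, unipNeg_apply_one_zero]
  simp

theorem heckeRep_zero_mul_diag :
    heckeRep p ((0 : ZMod p) : OnePoint (ZMod p)) * ModularForm.heckeDiagMatrix p = scalarP p := by
  have hp : p ≠ 0 := p_ne_zero'
  ext a b
  rw [entries_scalarP]
  fin_cases a <;> fin_cases b <;>
    simp [Matrix.mul_apply, Fin.sum_univ_two, ModularForm.val_heckeDiagMatrix hp,
      ModularForm.val_heckeMatrix hp]

theorem unipNeg_mul_diag_mul_heckeMatrix (j : ℕ) :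
    mapGL ℝ (unipNeg (j : ℤ)) * ModularForm.heckeDiagMatrix p * ModularForm.heckeMatrix p j
      = scalarP p := by
  have hp : p ≠ 0 := p_ne_zero'
  ext a b
  rw [entries_scalarP]
  rw [mul_assoc]
  have h : ∀ a b : Fin 2, ((mapGL ℝ (unipNeg (j : ℤ)) *
      (ModularForm.heckeDiagMatrix p * ModularForm.heckeMatrix p j) : GL (Fin 2) ℝ) :
        Matrix (Fin 2) (Fin 2) ℝ) a b =
      ((unipNeg (j : ℤ) a 0 : ℤ) : ℝ) * ((ModularForm.heckeDiagMatrix p *
        ModularForm.heckeMatrix p j : GL (Fin 2) ℝ) : Matrix (Fin 2) (Fin 2) ℝ) 0 b +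
      ((unipNeg (j : ℤ) a 1 : ℤ) : ℝ) * ((ModularForm.heckeDiagMatrix p *
        ModularForm.heckeMatrix p j : GL (Fin 2) ℝ) : Matrix (Fin 2) (Fin 2) ℝ) 1 b := by
    intro a b
    rw [Units.val_mul, Matrix.mul_apply, Fin.sum_univ_two, mapGL_val_apply, mapGL_val_apply]
  rw [h]
  fin_cases a <;> fin_cases b <;>
    simp [Matrix.mul_apply, Fin.sum_univ_two, ModularForm.val_heckeDiagMatrix hp,
      ModularForm.val_heckeMatrix hp, unipNeg_apply_zero_zero, unipNeg_apply_zero_one,
      unipNeg_apply_one_zero, unipNeg_apply_one_one]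
  ring

/-- the adjugate of `β_x` is `τ β_{x₀}` with `τ` unipotent upper triangular -/
theorem exists_adj_heckeRep (N : ℕ) (x : OnePoint (ZMod p)) :
    ∃ (τ : SL(2, ℤ)) (x₀ : OnePoint (ZMod p)), τ ∈ Gamma0 N ∧
      mapGL ℝ τ * heckeRep p x₀ * heckeRep p x = scalarP p := by
  induction x using OnePoint.rec with
  | infty =>
    refine ⟨1, ((0 : ZMod p) : OnePoint (ZMod p)), one_mem _, ?_⟩
    rw [map_one, one_mul]
    exact heckeRep_zero_mul_diag
  | coe j =>
    exact ⟨unipNeg (j.val : ℤ), OnePoint.infty, unipNeg_mem N _,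
      unipNeg_mul_diag_mul_heckeMatrix j.val⟩

theorem Gamma0_dvd {N : ℕ} {g : SL(2, ℤ)} : g ∈ Gamma0 N ↔ (N : ℤ) ∣ g 1 0 := by
  rw [Gamma0_mem, ZMod.intCast_zmod_eq_zero_iff_dvd]

theorem exists_adj_partner (hpN : ¬ p ∣ N) (y : Gamma0 N × OnePoint (ZMod p)) :
    ∃ y' : Gamma0 N × OnePoint (ZMod p), cosetMap p N y' * cosetMap p N y = scalarP p := by
  obtain ⟨γ, x⟩ := y
  obtain ⟨τ, x₀, hτ, hτx⟩ := exists_adj_heckeRep N x
  have hγinv : ((γ : SL(2, ℤ))⁻¹) ∈ Gamma0 N := inv_mem γ.2
  obtain ⟨g', hg', hmul⟩ := heckeRep_mul hpN ((γ : SL(2, ℤ))⁻¹) (Gamma0_dvd.mp hγinv) x₀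
  have hg'mem : g' ∈ Gamma0 N := Gamma0_dvd.mpr hg'
  refine ⟨(⟨τ * g', mul_mem hτ hg'mem⟩, redMatrix p ((γ : SL(2, ℤ))⁻¹) • x₀), ?_⟩
  simp only [cosetMap]
  calc mapGL ℝ (τ * g') * heckeRep p (redMatrix p ((γ : SL(2, ℤ))⁻¹) • x₀)
        * (mapGL ℝ (γ : SL(2, ℤ)) * heckeRep p x)
      = mapGL ℝ τ * (mapGL ℝ g' * heckeRep p (redMatrix p ((γ : SL(2, ℤ))⁻¹) • x₀))
        * mapGL ℝ (γ : SL(2, ℤ)) * heckeRep p x := by
        rw [map_mul]; group
    _ = mapGL ℝ τ * (heckeRep p x₀ * mapGL ℝ ((γ : SL(2, ℤ))⁻¹))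
        * mapGL ℝ (γ : SL(2, ℤ)) * heckeRep p x := by rw [hmul]
    _ = mapGL ℝ τ * heckeRep p x₀ * heckeRep p x := by
        rw [map_inv]; group
    _ = scalarP p := hτx

/-- The adjugate involution on `Γ₀(N) × ℙ¹(𝔽_p)`. -/
noncomputable def adjFun (hpN : ¬ p ∣ N) (y : Gamma0 N × OnePoint (ZMod p)) :
    Gamma0 N × OnePoint (ZMod p) :=
  Classical.choose (exists_adj_partner hpN y)

theorem adjFun_spec (hpN : ¬ p ∣ N) (y : Gamma0 N × OnePoint (ZMod p)) :
    cosetMap p N (adjFun hpN y) * cosetMap p N y = scalarP p :=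
  Classical.choose_spec (exists_adj_partner hpN y)

theorem adjFun_involutive (hpN : ¬ p ∣ N) : Function.Involutive (adjFun (N := N) hpN) := by
  intro y
  apply cosetMap_injective
  have h1 := adjFun_spec hpN y
  have h2 := adjFun_spec hpN (adjFun hpN y)
  have hc : scalarP p * cosetMap p N y = cosetMap p N y * scalarP p :=
    Matrix.GeneralLinearGroup.scalar_commute _ _
  have h3 : cosetMap p N (adjFun hpN (adjFun hpN y)) * scalarP p
      = cosetMap p N y * scalarP p := by
    calc cosetMap p N (adjFun hpN (adjFun hpN y)) * scalarP p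
        = cosetMap p N (adjFun hpN (adjFun hpN y)) *
            (cosetMap p N (adjFun hpN y) * cosetMap p N y) := by rw [h1]
      _ = (cosetMap p N (adjFun hpN (adjFun hpN y)) * cosetMap p N (adjFun hpN y)) *
            cosetMap p N y := (mul_assoc _ _ _).symm
      _ = scalarP p * cosetMap p N y := by rw [h2]
      _ = cosetMap p N y * scalarP p := hc
  exact mul_right_cancel h3

/-- The adjugate involution as a permutation. -/
noncomputable def adjPerm (hpN : ¬ p ∣ N) : Equiv.Perm (Gamma0 N × OnePoint (ZMod p)) :=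
  (adjFun_involutive hpN).toPerm

theorem adjPerm_apply (hpN : ¬ p ∣ N) (y : Gamma0 N × OnePoint (ZMod p)) :
    adjPerm hpN y = adjFun hpN y := rfl

omit [Fact p.Prime] in
theorem det_cosetMap_pos (y : Gamma0 N × OnePoint (ZMod p)) : 0 < (cosetMap p N y).det.val := by
  obtain ⟨γ, x⟩ := y
  simp only [cosetMap, map_mul, Units.val_mul]
  have h1 : ((mapGL ℝ (γ : SL(2, ℤ))).det : ℝˣ) = 1 := by simp
  rw [h1, Units.val_one, one_mul]
  induction x using OnePoint.rec with
  | infty => exact ModularForm.det_heckeDiagMatrix_pos p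
  | coe j => exact ModularForm.det_heckeMatrix_pos p _

end Fermat.Agent.S31.H862

end
-- ===== PACK-END S31/H862/Cosets.lean

-- ===== PACK-BEGIN S30/H529/TateCore.lean
section


/-!
# S30 helper (helper529): abstract Tate modules, core algebra

For a module `X` over a complete discrete valuation ring `O`, an element `ϖ ≠ 0` of the maximal
ideal, `O`-linear operators `t i` and scalars `a i`, the module `tateEigen ϖ t a` of compatible
sequences `v n ∈ X[ϖ ^ (n + 1)]`, `ϖ • v (n + 1) = v n`, `t i (v n) = a i • v n` is torsion free,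
separated, and finitely generated (hence free) as soon as `X[ϖ]` is finitely generated.
-/

set_option autoImplicit false
set_option linter.unusedSectionVars false

namespace Fermat.Agent.S30.H529

open IsLocalRing

noncomputable section

/-! ### Precompleteness of finite free modules -/

section Pi

variable {R : Type*} [CommRing R] (I : Ideal R) {r : ℕ}

theorem mem_smul_top_pi (x : Fin r → R) :
    x ∈ (I • ⊤ : Submodule R (Fin r → R)) ↔ ∀ i, x i ∈ I := by
  constructor
  · intro hx i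
    refine Submodule.smul_induction_on hx ?_ ?_
    · intro a ha m _
      simp only [Pi.smul_apply, smul_eq_mul]
      exact Ideal.mul_mem_right _ _ ha
    · intro y z hy hz
      simp only [Pi.add_apply]
      exact I.add_mem hy hz
  · intro hx
    have h1 : x = ∑ i, x i • (Pi.single i (1 : R) : Fin r → R) := by
      funext j
      simp [Finset.sum_apply, Pi.single_apply]
    rw [h1]
    exact Submodule.sum_mem _ fun i _ => Submodule.smul_mem_smul (hx i) Submodule.mem_top

theorem isPrecomplete_pi [IsPrecomplete I R] : IsPrecomplete I (Fin r → R) := by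
  constructor
  intro f hf
  have hcomp : ∀ i : Fin r, ∃ L : R, ∀ n, f n i ≡ L [SMOD (I ^ n • ⊤ : Submodule R R)] := by
    intro i
    apply IsPrecomplete.prec' (fun n => f n i)
    intro m n hmn
    have h1 := hf hmn
    rw [SModEq.sub_mem] at h1 ⊢
    rw [mem_smul_top_pi] at h1
    have h2 := h1 i
    simp only [smul_eq_mul, Ideal.mul_top]
    simpa using h2
  choose L hL using hcomp
  refine ⟨L, fun n => ?_⟩
  rw [SModEq.sub_mem, mem_smul_top_pi]
  intro i
  have h1 := hL i n
  rw [SModEq.sub_mem] at h1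
  simpa using h1

/-- Topological Nakayama: a Hausdorff module over a precomplete ring is finitely generated
if its reduction is. -/
theorem finite_of_finite_quotient (M : Type*) [AddCommGroup M] [Module R M] [IsPrecomplete I R]
    [IsHausdorff I M] (h : Module.Finite R (M ⧸ (I • ⊤ : Submodule R M))) :
    Module.Finite R M := by
  obtain ⟨r, g, hg⟩ := Module.Finite.exists_fin' R (M ⧸ (I • ⊤ : Submodule R M))
  have hlift : ∀ i : Fin r, ∃ m : M, (I • ⊤ : Submodule R M).mkQ m
      = g (Pi.single i (1 : R)) :=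
    fun i => Submodule.mkQ_surjective _ _
  choose m hm using hlift
  let f : (Fin r → R) →ₗ[R] M := (Pi.basisFun R (Fin r)).constr R m
  have hfg : (I • ⊤ : Submodule R M).mkQ ∘ₗ f = g := by
    apply (Pi.basisFun R (Fin r)).ext
    intro i
    have h1 : f ((Pi.basisFun R (Fin r)) i) = m i := Module.Basis.constr_basis _ _ _ _
    rw [LinearMap.comp_apply, h1, hm i, Pi.basisFun_apply]
  have := isPrecomplete_pi (r := r) I
  have hsurj : Function.Surjective f := by
    apply surjective_of_mkQ_comp_surjective (I := I)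
    rw [hfg]
    exact hg
  exact Module.Finite.of_surjective f hsurj

end Pi

/-! ### Discrete valuation rings -/

section DVR

variable {O : Type*} [CommRing O] [IsDomain O] [IsDiscreteValuationRing O]

theorem exists_pow_maximalIdeal_le_span {x : O} (hx : x ≠ 0) :
    ∃ N : ℕ, maximalIdeal O ^ N ≤ Ideal.span {x} := by
  obtain ⟨π, hπ⟩ := IsDiscreteValuationRing.exists_irreducible O
  obtain ⟨n, u, rfl⟩ := IsDiscreteValuationRing.eq_unit_mul_pow_irreducible hx hπ
  refine ⟨n, ?_⟩
  rw [hπ.maximalIdeal_eq, Ideal.span_singleton_pow, Ideal.span_singleton_le_span_singleton]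
  exact ⟨(u⁻¹ : Oˣ), by rw [mul_comm, ← mul_assoc, Units.inv_mul, one_mul]⟩

theorem exists_dvd_pow_of_mem_maximalIdeal {ϖ : O} (hϖ : ϖ ∈ maximalIdeal O) {r : O}
    (hr : r ≠ 0) : ∃ k : ℕ, r ∣ ϖ ^ k := by
  obtain ⟨π, hπ⟩ := IsDiscreteValuationRing.exists_irreducible O
  obtain ⟨n, u, rfl⟩ := IsDiscreteValuationRing.eq_unit_mul_pow_irreducible hr hπ
  rw [hπ.maximalIdeal_eq, Ideal.mem_span_singleton] at hϖ
  refine ⟨n, ?_⟩
  obtain ⟨c, hc⟩ := pow_dvd_pow_of_dvd hϖ n
  refine ⟨(u⁻¹ : Oˣ) * c, ?_⟩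
  have h1 : (u : O) * π ^ n * (((u⁻¹ : Oˣ) : O) * c) = ((u : O) * ((u⁻¹ : Oˣ) : O)) * (π ^ n * c) := by
    ring
  rw [h1, Units.mul_inv, one_mul, hc]

end DVR

/-! ### The Tate module -/

section Tate

variable {O : Type*} [CommRing O]
variable {X : Type*} [AddCommGroup X] [Module O X]
variable {ι : Type*}
variable (ϖ : O) (t : ι → X →ₗ[O] X) (a : ι → O)

/-- The eigen-part of the Tate module of `X` with respect to `ϖ`: compatible sequences
`v n ∈ X[ϖ ^ (n + 1)]` with `t i (v n) = a i • v n`. -/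
def tateEigen : Submodule O (ℕ → X) where
  carrier := {v | ϖ • v 0 = 0 ∧ (∀ n, ϖ • v (n + 1) = v n) ∧ ∀ i n, t i (v n) = a i • v n}
  zero_mem' := by simp
  add_mem' := by
    rintro v w ⟨hv0, hv1, hv2⟩ ⟨hw0, hw1, hw2⟩
    refine ⟨?_, ?_, ?_⟩
    · simp [smul_add, hv0, hw0]
    · intro n
      simp [smul_add, hv1 n, hw1 n]
    · intro i n
      simp [map_add, hv2 i n, hw2 i n, smul_add]
  smul_mem' := by
    rintro c v ⟨hv0, hv1, hv2⟩
    refine ⟨?_, ?_, ?_⟩
    · simp [smul_comm ϖ c, hv0]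
    · intro n
      simp [smul_comm ϖ c, hv1 n]
    · intro i n
      simp [map_smul, hv2 i n, smul_comm (a i) c]

variable {ϖ t a}

theorem mem_tateEigen {v : ℕ → X} :
    v ∈ tateEigen ϖ t a ↔
      ϖ • v 0 = 0 ∧ (∀ n, ϖ • v (n + 1) = v n) ∧ ∀ i n, t i (v n) = a i • v n :=
  Iff.rfl

theorem tate_pow_smul {v : ℕ → X} (hv : v ∈ tateEigen ϖ t a) (k n : ℕ) :
    ϖ ^ k • v (n + k) = v n := by
  induction k with
  | zero => simp
  | succ k ih =>
    rw [pow_succ, mul_smul, ← add_assoc, hv.2.1 (n + k), ih]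

theorem tate_pow_succ_smul {v : ℕ → X} (hv : v ∈ tateEigen ϖ t a) (n : ℕ) :
    ϖ ^ (n + 1) • v n = 0 := by
  have h := tate_pow_smul hv n 0
  rw [zero_add] at h
  rw [pow_succ', mul_smul, h, hv.1]

theorem tate_pow_smul_eq_zero {v : ℕ → X} (hv : v ∈ tateEigen ϖ t a) {m n : ℕ} (hmn : m < n) :
    ϖ ^ n • v m = 0 := by
  obtain ⟨k, rfl⟩ : ∃ k, n = k + (m + 1) := ⟨n - (m + 1), by omega⟩
  rw [pow_add, mul_smul, tate_pow_succ_smul hv, smul_zero]

/-- The shifted sequence. -/
theorem tate_shift_mem {v : ℕ → X} (hv : v ∈ tateEigen ϖ t a) (k : ℕ)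
    (hk : ∀ m, m < k → v m = 0) : (fun n => v (n + k)) ∈ tateEigen ϖ t a := by
  refine ⟨?_, ?_, ?_⟩
  · rcases Nat.eq_zero_or_pos k with rfl | hk0
    · exact hv.1
    · obtain ⟨j, rfl⟩ : ∃ j, k = j + 1 := ⟨k - 1, by omega⟩
      show ϖ • v (0 + (j + 1)) = 0
      rw [zero_add, hv.2.1 j]
      exact hk j (by omega)
  · intro n
    show ϖ • v (n + 1 + k) = v (n + k)
    rw [show n + 1 + k = (n + k) + 1 by omega]
    exact hv.2.1 (n + k)
  · intro i n
    exact hv.2.2 i (n + k)

theorem tate_eq_pow_smul_shift {v : ℕ → X} (hv : v ∈ tateEigen ϖ t a) (k : ℕ) :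
    v = ϖ ^ k • (fun n => v (n + k)) := by
  funext n
  simp only [Pi.smul_apply]
  exact (tate_pow_smul hv k n).symm

/-- Elements vanishing in degrees `< k` are divisible by `ϖ ^ k`. -/
theorem tate_exists_eq_pow_smul {v : ℕ → X} (hv : v ∈ tateEigen ϖ t a) (k : ℕ)
    (hk : ∀ m, m < k → v m = 0) : ∃ w ∈ tateEigen ϖ t a, v = ϖ ^ k • w :=
  ⟨_, tate_shift_mem hv k hk, tate_eq_pow_smul_shift hv k⟩

end Tate

/-! ### Structure of the Tate module over a complete discrete valuation ring -/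

section Structure

variable {O : Type*} [CommRing O] [IsDomain O] [IsDiscreteValuationRing O]
variable {X : Type*} [AddCommGroup X] [Module O X]
variable {ι : Type*}
variable {ϖ : O} {t : ι → X →ₗ[O] X} {a : ι → O}

theorem tateEigen_isTorsionFree (hϖ : ϖ ∈ maximalIdeal O) :
    Module.IsTorsionFree O (tateEigen ϖ t a) := by
  apply Module.IsTorsionFree.of_smul_eq_zero
  intro r v hrv
  by_cases hr : r = 0
  · exact Or.inl hr
  right
  obtain ⟨k, c, hc⟩ := exists_dvd_pow_of_mem_maximalIdeal hϖ hr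
  have h1 : (ϖ ^ k) • (v : ℕ → X) = 0 := by
    have h2 : r • (v : ℕ → X) = 0 := by
      have := congrArg (Subtype.val) hrv
      simpa using this
    rw [hc, mul_comm, mul_smul, h2, smul_zero]
  apply Subtype.ext
  funext n
  have h3 := tate_pow_smul v.2 k n
  have h4 := congrFun h1 (n + k)
  simp only [Pi.smul_apply, Pi.zero_apply] at h4
  rw [← h3, h4]
  rfl

/-- Evaluation at the `m`-th component. -/
def tateEval (ϖ : O) (t : ι → X →ₗ[O] X) (a : ι → O) (m : ℕ) : tateEigen ϖ t a →ₗ[O] X :=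
  (LinearMap.proj m).comp (tateEigen ϖ t a).subtype

@[simp] theorem tateEval_apply (m : ℕ) (v : tateEigen ϖ t a) :
    tateEval ϖ t a m v = (v : ℕ → X) m := rfl

theorem tateEigen_isHausdorff (hϖ0 : ϖ ≠ 0) :
    IsHausdorff (maximalIdeal O) (tateEigen ϖ t a) := by
  constructor
  intro x hx
  apply Subtype.ext
  funext m
  obtain ⟨N, hN⟩ := exists_pow_maximalIdeal_le_span (pow_ne_zero (m + 1) hϖ0)
  have h1 : (maximalIdeal O ^ N • ⊤ : Submodule O (tateEigen ϖ t a))
      ≤ LinearMap.ker (tateEval ϖ t a m) := by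
    rw [Submodule.smul_le]
    intro c hc v _
    obtain ⟨b, rfl⟩ := Ideal.mem_span_singleton'.mp (hN hc)
    rw [LinearMap.mem_ker, map_smul, tateEval_apply, mul_smul, tate_pow_succ_smul v.2,
      smul_zero]
  have h2 := hx N
  rw [SModEq.zero] at h2
  exact LinearMap.mem_ker.mp (h1 h2)

theorem tateEval_zero_ker_le (hϖ : ϖ ∈ maximalIdeal O) :
    LinearMap.ker (tateEval ϖ t a 0)
      ≤ (maximalIdeal O • ⊤ : Submodule O (tateEigen ϖ t a)) := by
  intro v hv
  rw [LinearMap.mem_ker, tateEval_apply] at hv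
  obtain ⟨w, hw, hvw⟩ := tate_exists_eq_pow_smul v.2 1 (fun m hm => by
    obtain rfl : m = 0 := by omega
    exact hv)
  have h1 : v = ϖ • (⟨w, hw⟩ : tateEigen ϖ t a) := by
    apply Subtype.ext
    rw [hvw, pow_one]
    rfl
  rw [h1]
  exact Submodule.smul_mem_smul hϖ Submodule.mem_top

theorem tateEigen_finite [IsAdicComplete (maximalIdeal O) O] (hϖ : ϖ ∈ maximalIdeal O)
    (hϖ0 : ϖ ≠ 0) (hX : ∃ Y : Submodule O X, Y.FG ∧ ∀ x : X, ϖ • x = 0 → x ∈ Y) :
    Module.Finite O (tateEigen ϖ t a) := by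
  obtain ⟨Y, hY, hYX⟩ := hX
  have := tateEigen_isHausdorff (t := t) (a := a) hϖ0
  apply finite_of_finite_quotient (maximalIdeal O)
  -- the range of the evaluation at `0` is finitely generated
  have hrange : LinearMap.range (tateEval ϖ t a 0) ≤ Y := by
    rintro _ ⟨v, rfl⟩
    exact hYX _ v.2.1
  have hYn : IsNoetherian O Y := isNoetherian_of_fg_of_noetherian Y hY
  have hfg : (LinearMap.range (tateEval ϖ t a 0)).FG := by
    have h1 : (Submodule.comap Y.subtype (LinearMap.range (tateEval ϖ t a 0))).FG :=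
      IsNoetherian.noetherian _
    have h2 := h1.map Y.subtype
    rwa [Submodule.map_comap_subtype, inf_eq_right.mpr hrange] at h2
  have hfin1 : Module.Finite O (LinearMap.range (tateEval ϖ t a 0)) :=
    Module.Finite.of_fg hfg
  have hfin2 : Module.Finite O (tateEigen ϖ t a ⧸ LinearMap.ker (tateEval ϖ t a 0)) :=
    Module.Finite.equiv (LinearMap.quotKerEquivRange (tateEval ϖ t a 0)).symm
  exact Module.Finite.of_surjective
    (Submodule.factor (tateEval_zero_ker_le (t := t) (a := a) hϖ))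
    (Submodule.factor_surjective _)

theorem tateEigen_free [IsAdicComplete (maximalIdeal O) O] (hϖ : ϖ ∈ maximalIdeal O)
    (hϖ0 : ϖ ≠ 0) (hX : ∃ Y : Submodule O X, Y.FG ∧ ∀ x : X, ϖ • x = 0 → x ∈ Y) :
    Module.Free O (tateEigen ϖ t a) := by
  have := tateEigen_finite (t := t) (a := a) hϖ hϖ0 hX
  have := tateEigen_isTorsionFree (t := t) (a := a) hϖ
  exact Module.free_of_finite_type_torsion_free'

end Structure

/-! ### The induced action -/

section Action

variable {O : Type*} [CommRing O]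
variable {X : Type*} [AddCommGroup X] [Module O X]
variable {ι : Type*}
variable {ϖ : O} {t : ι → X →ₗ[O] X} {a : ι → O}

/-- The map induced on the Tate module by an endomorphism commuting with the operators. -/
def tateMap (g : X →ₗ[O] X) (hg : ∀ i x, g (t i x) = t i (g x)) :
    tateEigen ϖ t a →ₗ[O] tateEigen ϖ t a where
  toFun v := ⟨fun n => g ((v : ℕ → X) n), by
    refine ⟨?_, ?_, ?_⟩
    · rw [← map_smul, v.2.1, map_zero]
    · intro n
      rw [← map_smul, v.2.2.1 n]
    · intro i n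
      rw [← hg, v.2.2.2 i n, map_smul]⟩
  map_add' v w := by
    apply Subtype.ext
    funext n
    simp
  map_smul' c v := by
    apply Subtype.ext
    funext n
    simp

@[simp] theorem tateMap_apply_coe (g : X →ₗ[O] X) (hg : ∀ i x, g (t i x) = t i (g x))
    (v : tateEigen ϖ t a) (n : ℕ) :
    ((tateMap g hg v : tateEigen ϖ t a) : ℕ → X) n = g ((v : ℕ → X) n) := rfl

variable {G : Type*} [Monoid G] (ρ : G →* Module.End O X)
  (hρ : ∀ (γ : G) (i : ι) (x : X), ρ γ (t i x) = t i (ρ γ x))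

/-- The representation on the Tate module. -/
def tateRep : G →* Module.End O (tateEigen ϖ t a) where
  toFun γ := tateMap (ρ γ) (hρ γ)
  map_one' := by
    apply LinearMap.ext
    intro v
    apply Subtype.ext
    funext n
    simp
  map_mul' γ δ := by
    apply LinearMap.ext
    intro v
    apply Subtype.ext
    funext n
    simp

@[simp] theorem tateRep_apply_coe (γ : G) (v : tateEigen ϖ t a) (n : ℕ) :
    ((tateRep ρ hρ γ v : tateEigen ϖ t a) : ℕ → X) n = ρ γ ((v : ℕ → X) n) := rfl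

theorem tateRep_eq_one (γ : G) (hγ : ∀ x : X, (∃ n : ℕ, ϖ ^ n • x = 0) → ρ γ x = x) :
    tateRep (ϖ := ϖ) (a := a) ρ hρ γ = 1 := by
  apply LinearMap.ext
  intro v
  apply Subtype.ext
  funext n
  rw [tateRep_apply_coe]
  exact hγ _ ⟨n + 1, tate_pow_succ_smul v.2 n⟩

theorem tateRep_quadratic (γ : G) (i : ι) (c : O)
    (hγ : ∀ x : X, (∃ n : ℕ, ϖ ^ n • x = 0) → ρ γ (ρ γ x) - t i (ρ γ x) + c • x = 0) :
    tateRep (ϖ := ϖ) (a := a) ρ hρ γ * tateRep ρ hρ γ - a i • tateRep ρ hρ γ
      + c • (1 : Module.End O (tateEigen ϖ t a)) = 0 := by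
  apply LinearMap.ext
  intro v
  apply Subtype.ext
  funext n
  have h1 := hγ ((v : ℕ → X) n) ⟨n + 1, tate_pow_succ_smul v.2 n⟩
  have h2 : t i (ρ γ ((v : ℕ → X) n)) = a i • ρ γ ((v : ℕ → X) n) := by
    rw [← hρ, v.2.2.2 i n, map_smul]
  rw [h2] at h1
  simpa using h1

theorem tateRep_sub_mem [IsLocalRing O] (hϖ : ϖ ∈ maximalIdeal O) (n : ℕ) (γ : G)
    (hγ : ∀ x : X, ϖ ^ n • x = 0 → ρ γ x = x) (v : tateEigen ϖ t a) :
    tateRep ρ hρ γ v - v ∈ (maximalIdeal O ^ n • ⊤ : Submodule O (tateEigen ϖ t a)) := by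
  set w : tateEigen ϖ t a := tateRep ρ hρ γ v - v with hw
  have hw0 : ∀ m, m < n → (w : ℕ → X) m = 0 := by
    intro m hm
    have h1 : (w : ℕ → X) m = ρ γ ((v : ℕ → X) m) - (v : ℕ → X) m := rfl
    rw [h1, hγ _ (tate_pow_smul_eq_zero v.2 hm), sub_self]
  obtain ⟨w', hw', hww'⟩ := tate_exists_eq_pow_smul w.2 n hw0
  have h2 : w = ϖ ^ n • (⟨w', hw'⟩ : tateEigen ϖ t a) := by
    apply Subtype.ext
    rw [hww']
    rfl
  rw [h2]
  exact Submodule.smul_mem_smul (Ideal.pow_mem_pow hϖ n) Submodule.mem_top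

end Action

end

end Fermat.Agent.S30.H529

end
-- ===== PACK-END S30/H529/TateCore.lean

-- ===== PACK-BEGIN S35/H253/NormRed2.lean
section


/-!
# Norms commute with reduction: TWO extensions of a valuation ring (helper253)

Mathlib only.  `F / K` a finite field extension, `O` a valuation subring of `K`, `V₁`, `V₂`
valuation subrings of `F` lying over `O` (`V_i ∩ K = O`), with reductions
`π : O → k`, `ρ₁ : V₁ → κ₁`, `ρ₂ : V₂ → κ₂` onto fields.  If the two residue degrees add up to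
`[F : K]` (so `V₁`, `V₂` are the only extensions and both are unramified), then for every
`y ∈ V₁ ∩ V₂`

  `N_{F/K} y ∈ O`   and   `π (N_{F/K} y) = N_{κ₁/k} (ρ₁ y) * N_{κ₂/k} (ρ₂ y)`.

* `GoodFamily`        : an adapted family `m : ι₁ ⊕ ι₂ → F` (first block: residually independent
                        at `V₁`, in the maximal ideal of `V₂`; second block: the other way round);
* `GoodFamily.coeff_mem`, `GoodFamily.linearIndependent` : the lattice lemma;
* `GoodFamily.norm_red` : the norm formula for an adapted family whose residues are bases;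
* `exists_approx`     : weak approximation for two incomparable valuation rings (any rank);
* `norm_red_two`      : the norm formula from surjective reductions and the degree equality.

Intended use (S35 / S36 / toric package): `K = α(F_M) ⊆ F = F_{qM}`, `O` the Gauss valuation of
level `M`, `V₁ = V∞`, `V₂ = V₀` the two Gauss valuations of level `qM`; residue degrees `1` and `q`
(purely inseparable), see `NormInsep.lean`.
-/

set_option autoImplicit false

namespace Fermat.Agent.S35.H253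

open scoped BigOperators

section Basic

variable {K F : Type*} [Field K] [Field F] [Algebra K F]

/-- `V` lies over `O`: `V ∩ K = O`. -/
def Over (O : ValuationSubring K) (V : ValuationSubring F) : Prop :=
  ∀ a : K, algebraMap K F a ∈ V ↔ a ∈ O

theorem Over.val_lt_one_iff {O : ValuationSubring K} {V : ValuationSubring F}
    (h : Over O V) (a : K) :
    V.valuation (algebraMap K F a) < 1 ↔ O.valuation a < 1 := by
  rw [← ValuationSubring.mem_nonunits_iff, ← ValuationSubring.mem_nonunits_iff,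
    ValuationSubring.mem_nonunits_iff_or, ValuationSubring.mem_nonunits_iff_or,
    ← map_inv₀, h a⁻¹, map_eq_zero]

theorem Over.val_le_one_iff {O : ValuationSubring K} {V : ValuationSubring F}
    (h : Over O V) (a : K) :
    V.valuation (algebraMap K F a) ≤ 1 ↔ O.valuation a ≤ 1 := by
  rw [ValuationSubring.valuation_le_one_iff, ValuationSubring.valuation_le_one_iff, h a]

/-- A finite sum of elements of valuation `< 1` has valuation `< 1`. -/
theorem val_sum_lt_one {ι : Type*} (s : Finset ι) (V : ValuationSubring F) (f : ι → F)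
    (hf : ∀ i ∈ s, V.valuation (f i) < 1) : V.valuation (∑ i ∈ s, f i) < 1 := by
  classical
  induction s using Finset.induction_on with
  | empty => simp
  | insert a s ha ih =>
    rw [Finset.sum_insert ha]
    exact Valuation.map_add_lt _ (hf a (Finset.mem_insert_self a s))
      (ih fun i hi => hf i (Finset.mem_insert_of_mem hi))

theorem val_mul_lt_one_left (V : ValuationSubring F) {x y : F} (hx : V.valuation x < 1)
    (hy : V.valuation y ≤ 1) : V.valuation (x * y) < 1 := by
  rw [map_mul]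
  calc V.valuation x * V.valuation y ≤ V.valuation x * 1 := by gcongr
    _ = V.valuation x := mul_one _
    _ < 1 := hx

theorem val_mul_lt_one_right (V : ValuationSubring F) {x y : F} (hx : V.valuation x ≤ 1)
    (hy : V.valuation y < 1) : V.valuation (x * y) < 1 := by
  rw [mul_comm]; exact val_mul_lt_one_left V hy hx

end Basic

section Family

variable {K F : Type*} [Field K] [Field F] [Algebra K F]

/-- An adapted family for two extensions `V₁`, `V₂` of `O`: the members `m (inl i)` lie in `V₁`,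
in the maximal ideal of `V₂`, and are residually independent at `V₁`; the members `m (inr j)` lie
in `V₂`, in the maximal ideal of `V₁`, and are residually independent at `V₂`. -/
structure GoodFamily (O : ValuationSubring K) (V₁ V₂ : ValuationSubring F)
    {ι₁ ι₂ : Type*} [Fintype ι₁] [Fintype ι₂] (m : ι₁ ⊕ ι₂ → F) : Prop where
  over₁ : Over O V₁
  over₂ : Over O V₂
  mem₁ : ∀ i, m (Sum.inl i) ∈ V₁
  small₂ : ∀ i, V₂.valuation (m (Sum.inl i)) < 1
  mem₂ : ∀ j, m (Sum.inr j) ∈ V₂
  small₁ : ∀ j, V₁.valuation (m (Sum.inr j)) < 1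
  indep₁ : ∀ a : ι₁ → K, (∀ i, a i ∈ O) →
    V₁.valuation (∑ i, algebraMap K F (a i) * m (Sum.inl i)) < 1 → ∀ i, O.valuation (a i) < 1
  indep₂ : ∀ a : ι₂ → K, (∀ j, a j ∈ O) →
    V₂.valuation (∑ j, algebraMap K F (a j) * m (Sum.inr j)) < 1 → ∀ j, O.valuation (a j) < 1

namespace GoodFamily

variable {O : ValuationSubring K} {V₁ V₂ : ValuationSubring F}
  {ι₁ ι₂ : Type*} [Fintype ι₁] [Fintype ι₂] {m : ι₁ ⊕ ι₂ → F}

theorem mem₁' (h : GoodFamily O V₁ V₂ m) (l : ι₁ ⊕ ι₂) : m l ∈ V₁ := by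
  rcases l with i | j
  · exact h.mem₁ i
  · exact (V₁.valuation_le_one_iff _).1 (h.small₁ j).le

theorem mem₂' (h : GoodFamily O V₁ V₂ m) (l : ι₁ ⊕ ι₂) : m l ∈ V₂ := by
  rcases l with i | j
  · exact (V₂.valuation_le_one_iff _).1 (h.small₂ i).le
  · exact h.mem₂ j

theorem sum_split (a : ι₁ ⊕ ι₂ → K) (m : ι₁ ⊕ ι₂ → F) :
    ∑ l, algebraMap K F (a l) * m l =
      (∑ i, algebraMap K F (a (Sum.inl i)) * m (Sum.inl i)) +
        ∑ j, algebraMap K F (a (Sum.inr j)) * m (Sum.inr j) := by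
  rw [Fintype.sum_sum_type]

/-- For integral coefficients: if the combination is small at `V₁`, the first block of
coefficients is small. -/
theorem small_inl (h : GoodFamily O V₁ V₂ m) (a : ι₁ ⊕ ι₂ → K) (ha : ∀ l, a l ∈ O)
    (hz : V₁.valuation (∑ l, algebraMap K F (a l) * m l) < 1) (i : ι₁) :
    O.valuation (a (Sum.inl i)) < 1 := by
  refine h.indep₁ (fun i => a (Sum.inl i)) (fun i => ha _) ?_ i
  have e : (∑ i, algebraMap K F (a (Sum.inl i)) * m (Sum.inl i)) =
      (∑ l, algebraMap K F (a l) * m l) -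
        ∑ j, algebraMap K F (a (Sum.inr j)) * m (Sum.inr j) := by
    rw [sum_split]; ring
  rw [e]
  refine Valuation.map_sub_lt _ hz (val_sum_lt_one _ _ _ fun j _ => ?_)
  exact val_mul_lt_one_right V₁ ((h.over₁.val_le_one_iff _).2
    ((O.valuation_le_one_iff _).2 (ha _))) (h.small₁ j)

/-- For integral coefficients: if the combination is small at `V₂`, the second block of
coefficients is small. -/
theorem small_inr (h : GoodFamily O V₁ V₂ m) (a : ι₁ ⊕ ι₂ → K) (ha : ∀ l, a l ∈ O)
    (hz : V₂.valuation (∑ l, algebraMap K F (a l) * m l) < 1) (j : ι₂) :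
    O.valuation (a (Sum.inr j)) < 1 := by
  refine h.indep₂ (fun j => a (Sum.inr j)) (fun j => ha _) ?_ j
  have e : (∑ j, algebraMap K F (a (Sum.inr j)) * m (Sum.inr j)) =
      (∑ l, algebraMap K F (a l) * m l) -
        ∑ i, algebraMap K F (a (Sum.inl i)) * m (Sum.inl i) := by
    rw [sum_split]; ring
  rw [e]
  refine Valuation.map_sub_lt _ hz (val_sum_lt_one _ _ _ fun i _ => ?_)
  exact val_mul_lt_one_right V₂ ((h.over₂.val_le_one_iff _).2
    ((O.valuation_le_one_iff _).2 (ha _))) (h.small₂ i)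

/-- **Lattice lemma.**  A combination of an adapted family lying in `V₁ ∩ V₂` has its
coefficients in `O`. -/
theorem coeff_mem (h : GoodFamily O V₁ V₂ m) (a : ι₁ ⊕ ι₂ → K)
    (hz₁ : (∑ l, algebraMap K F (a l) * m l) ∈ V₁)
    (hz₂ : (∑ l, algebraMap K F (a l) * m l) ∈ V₂) (l : ι₁ ⊕ ι₂) : a l ∈ O := by
  classical
  by_contra hl
  have : Nonempty (ι₁ ⊕ ι₂) := ⟨l⟩
  obtain ⟨l₀, hl₀⟩ := Finite.exists_max (fun l => O.valuation (a l))
  have hbig : 1 < O.valuation (a l₀) := by
    have : ¬ O.valuation (a l) ≤ 1 := fun hh => hl ((O.valuation_le_one_iff _).1 hh)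
    exact lt_of_lt_of_le (not_le.1 this) (hl₀ l)
  have h0 : a l₀ ≠ 0 := by
    intro h0; rw [h0, map_zero] at hbig; exact not_lt.2 zero_le_one hbig
  have hinv : O.valuation (a l₀)⁻¹ < 1 := by
    rw [map_inv₀]; exact inv_lt_one_of_one_lt₀ hbig
  set c : ι₁ ⊕ ι₂ → K := fun l => a l * (a l₀)⁻¹ with hc
  have hcO : ∀ l, c l ∈ O := fun l => by
    rw [← O.valuation_le_one_iff, hc, map_mul, map_inv₀]
    have hpos : 0 < O.valuation (a l₀) := lt_trans zero_lt_one hbig
    calc O.valuation (a l) * (O.valuation (a l₀))⁻¹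
        ≤ O.valuation (a l₀) * (O.valuation (a l₀))⁻¹ := by gcongr; exact hl₀ l
      _ = 1 := mul_inv_cancel₀ hpos.ne'
  have hsum : (∑ l, algebraMap K F (c l) * m l) =
      (∑ l, algebraMap K F (a l) * m l) * algebraMap K F (a l₀)⁻¹ := by
    rw [Finset.sum_mul]
    refine Finset.sum_congr rfl fun l _ => ?_
    rw [hc, map_mul]; ring
  have hs₁ : V₁.valuation (∑ l, algebraMap K F (c l) * m l) < 1 := by
    rw [hsum]
    exact val_mul_lt_one_right V₁ ((V₁.valuation_le_one_iff _).2 hz₁)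
      ((h.over₁.val_lt_one_iff _).2 hinv)
  have hs₂ : V₂.valuation (∑ l, algebraMap K F (c l) * m l) < 1 := by
    rw [hsum]
    exact val_mul_lt_one_right V₂ ((V₂.valuation_le_one_iff _).2 hz₂)
      ((h.over₂.val_lt_one_iff _).2 hinv)
  have hc₀ : c l₀ = 1 := by rw [hc]; exact mul_inv_cancel₀ h0
  have hlt : O.valuation (c l₀) < 1 := by
    rcases l₀ with i | j
    · exact h.small_inl c hcO hs₁ i
    · exact h.small_inr c hcO hs₂ j
  rw [hc₀, map_one] at hlt
  exact lt_irrefl _ hlt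

/-- A combination of an adapted family which is small at `V₁` and at `V₂` has small
coefficients. -/
theorem coeff_small (h : GoodFamily O V₁ V₂ m) (a : ι₁ ⊕ ι₂ → K)
    (hz₁ : V₁.valuation (∑ l, algebraMap K F (a l) * m l) < 1)
    (hz₂ : V₂.valuation (∑ l, algebraMap K F (a l) * m l) < 1) (l : ι₁ ⊕ ι₂) :
    O.valuation (a l) < 1 := by
  have ha : ∀ l, a l ∈ O := h.coeff_mem a ((V₁.valuation_le_one_iff _).1 hz₁.le)
    ((V₂.valuation_le_one_iff _).1 hz₂.le)
  rcases l with i | j
  · exact h.small_inl a ha hz₁ i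
  · exact h.small_inr a ha hz₂ j

/-- An adapted family is linearly independent. -/
theorem eq_zero_of_sum_eq_zero (h : GoodFamily O V₁ V₂ m) (a : ι₁ ⊕ ι₂ → K)
    (hz : (∑ l, algebraMap K F (a l) * m l) = 0) (l : ι₁ ⊕ ι₂) : a l = 0 := by
  classical
  by_contra hl
  have : Nonempty (ι₁ ⊕ ι₂) := ⟨l⟩
  obtain ⟨l₀, hl₀⟩ := Finite.exists_max (fun l => O.valuation (a l))
  have hpos : 0 < O.valuation (a l₀) :=
    lt_of_lt_of_le (by rw [Valuation.pos_iff]; exact hl) (hl₀ l)
  have h0 : a l₀ ≠ 0 := by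
    intro h0; rw [h0, map_zero] at hpos; exact lt_irrefl _ hpos
  set c : ι₁ ⊕ ι₂ → K := fun l => a l * (a l₀)⁻¹ with hc
  have hsum : (∑ l, algebraMap K F (c l) * m l) =
      (∑ l, algebraMap K F (a l) * m l) * algebraMap K F (a l₀)⁻¹ := by
    rw [Finset.sum_mul]
    refine Finset.sum_congr rfl fun l _ => ?_
    rw [hc, map_mul]; ring
  rw [hz, zero_mul] at hsum
  have hlt : O.valuation (c l₀) < 1 :=
    h.coeff_small c (by rw [hsum, map_zero]; exact zero_lt_one)
      (by rw [hsum, map_zero]; exact zero_lt_one) l₀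
  have hc₀ : c l₀ = 1 := by rw [hc]; exact mul_inv_cancel₀ h0
  rw [hc₀, map_one] at hlt
  exact lt_irrefl _ hlt

theorem linearIndependent (h : GoodFamily O V₁ V₂ m) : LinearIndependent K m := by
  rw [Fintype.linearIndependent_iff]
  intro a ha l
  refine h.eq_zero_of_sum_eq_zero a ?_ l
  rw [← ha]
  exact Finset.sum_congr rfl fun l _ => (Algebra.smul_def _ _).symm

/-- Coordinates of elements of `V₁ ∩ V₂` in an adapted basis lie in `O`. -/
theorem repr_mem (h : GoodFamily O V₁ V₂ m) (b : Module.Basis (ι₁ ⊕ ι₂) K F) (hb : ⇑b = m)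
    {z : F} (hz₁ : z ∈ V₁) (hz₂ : z ∈ V₂) (l : ι₁ ⊕ ι₂) : b.repr z l ∈ O := by
  have hz : (∑ l, algebraMap K F (b.repr z l) * m l) = z := by
    conv_rhs => rw [← b.sum_repr z]
    refine Finset.sum_congr rfl fun l _ => ?_
    rw [Algebra.smul_def, hb]
  exact h.coeff_mem (fun l => b.repr z l) (by rw [hz]; exact hz₁) (by rw [hz]; exact hz₂) l

theorem sum_repr_eq (b : Module.Basis (ι₁ ⊕ ι₂) K F) (hb : ⇑b = m) (z : F) :
    (∑ l, algebraMap K F (b.repr z l) * m l) = z := by
  conv_rhs => rw [← b.sum_repr z]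
  refine Finset.sum_congr rfl fun l _ => ?_
  rw [Algebra.smul_def, hb]

/-- The matrix, with entries in `O`, of multiplication by `y ∈ V₁ ∩ V₂` in an adapted basis. -/
noncomputable def intMatrix (h : GoodFamily O V₁ V₂ m) (b : Module.Basis (ι₁ ⊕ ι₂) K F)
    (hb : ⇑b = m) {y : F} (hy₁ : y ∈ V₁) (hy₂ : y ∈ V₂) : Matrix (ι₁ ⊕ ι₂) (ι₁ ⊕ ι₂) O :=
  fun k l => ⟨b.repr (y * m l) k,
    h.repr_mem b hb (mul_mem hy₁ (h.mem₁' l)) (mul_mem hy₂ (h.mem₂' l)) k⟩

theorem intMatrix_apply (h : GoodFamily O V₁ V₂ m) (b : Module.Basis (ι₁ ⊕ ι₂) K F)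
    (hb : ⇑b = m) {y : F} (hy₁ : y ∈ V₁) (hy₂ : y ∈ V₂) (k l : ι₁ ⊕ ι₂) :
    ((h.intMatrix b hb hy₁ hy₂ k l : O) : K) = b.repr (y * m l) k := rfl

theorem intMatrix_map [DecidableEq ι₁] [DecidableEq ι₂] (h : GoodFamily O V₁ V₂ m)
    (b : Module.Basis (ι₁ ⊕ ι₂) K F) (hb : ⇑b = m) {y : F} (hy₁ : y ∈ V₁) (hy₂ : y ∈ V₂) :
    (h.intMatrix b hb hy₁ hy₂).map O.subtype = Algebra.leftMulMatrix b y := by
  ext k l
  rw [Matrix.map_apply, Algebra.leftMulMatrix_eq_repr_mul, hb]
  rfl

/-- The norm of `y ∈ V₁ ∩ V₂` is the determinant of the integral matrix. -/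
theorem norm_eq_det_intMatrix [DecidableEq ι₁] [DecidableEq ι₂] (h : GoodFamily O V₁ V₂ m)
    (b : Module.Basis (ι₁ ⊕ ι₂) K F) (hb : ⇑b = m) {y : F} (hy₁ : y ∈ V₁) (hy₂ : y ∈ V₂) :
    Algebra.norm K y = (((h.intMatrix b hb hy₁ hy₂).det : O) : K) := by
  rw [Algebra.norm_eq_matrix_det b, ← h.intMatrix_map b hb hy₁ hy₂]
  have := RingHom.map_det O.subtype (h.intMatrix b hb hy₁ hy₂)
  rw [RingHom.mapMatrix_apply] at this
  rw [← this]
  rfl

/-- In the expansion of `z = ∑ a_l m_l` (integral coefficients), the reduction at `V₁` only sees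
the first block. -/
theorem rho_sum₁ (h : GoodFamily O V₁ V₂ m) {k κ₁ : Type*} [Field k] [Field κ₁] [Algebra k κ₁]
    (π : O →+* k) (ρ₁ : V₁ →+* κ₁) (hρ₁ : ∀ z : V₁, V₁.valuation (z : F) < 1 → ρ₁ z = 0)
    (hc₁ : ∀ a : O, ρ₁ ⟨algebraMap K F a, (h.over₁ a).2 a.2⟩ = algebraMap k κ₁ (π a))
    (a : ι₁ ⊕ ι₂ → O) {z : F} (hz : z ∈ V₁)
    (hza : (∑ l, algebraMap K F (a l : K) * m l) = z) :
    ρ₁ ⟨z, hz⟩ = ∑ i, π (a (Sum.inl i)) • ρ₁ ⟨m (Sum.inl i), h.mem₁ i⟩ := by
  have e : (⟨z, hz⟩ : V₁) =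
      ∑ l, (⟨algebraMap K F (a l : K), (h.over₁ (a l : K)).2 (a l).2⟩ : V₁) *
        ⟨m l, h.mem₁' l⟩ := by
    apply Subtype.ext
    rw [AddSubmonoidClass.coe_finsetSum]
    simp only [MulMemClass.coe_mul]
    exact hza.symm
  rw [e, map_sum, Fintype.sum_sum_type]
  have h2 : (∑ j, ρ₁ ((⟨algebraMap K F (a (Sum.inr j) : K),
      (h.over₁ (a (Sum.inr j) : K)).2 (a _).2⟩ : V₁) *
      ⟨m (Sum.inr j), h.mem₁' (Sum.inr j)⟩)) = 0 := by
    refine Finset.sum_eq_zero fun j _ => ?_
    rw [map_mul, hρ₁ ⟨m (Sum.inr j), h.mem₁' (Sum.inr j)⟩ (h.small₁ j), mul_zero]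
  rw [h2, add_zero]
  refine Finset.sum_congr rfl fun i _ => ?_
  rw [map_mul, hc₁, Algebra.smul_def]

/-- In the expansion of `z = ∑ a_l m_l` (integral coefficients), the reduction at `V₂` only sees
the second block. -/
theorem rho_sum₂ (h : GoodFamily O V₁ V₂ m) {k κ₂ : Type*} [Field k] [Field κ₂] [Algebra k κ₂]
    (π : O →+* k) (ρ₂ : V₂ →+* κ₂) (hρ₂ : ∀ z : V₂, V₂.valuation (z : F) < 1 → ρ₂ z = 0)
    (hc₂ : ∀ a : O, ρ₂ ⟨algebraMap K F a, (h.over₂ a).2 a.2⟩ = algebraMap k κ₂ (π a))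
    (a : ι₁ ⊕ ι₂ → O) {z : F} (hz : z ∈ V₂)
    (hza : (∑ l, algebraMap K F (a l : K) * m l) = z) :
    ρ₂ ⟨z, hz⟩ = ∑ j, π (a (Sum.inr j)) • ρ₂ ⟨m (Sum.inr j), h.mem₂ j⟩ := by
  have e : (⟨z, hz⟩ : V₂) =
      ∑ l, (⟨algebraMap K F (a l : K), (h.over₂ (a l : K)).2 (a l).2⟩ : V₂) *
        ⟨m l, h.mem₂' l⟩ := by
    apply Subtype.ext
    rw [AddSubmonoidClass.coe_finsetSum]
    simp only [MulMemClass.coe_mul]
    exact hza.symm
  rw [e, map_sum, Fintype.sum_sum_type]
  have h2 : (∑ i, ρ₂ ((⟨algebraMap K F (a (Sum.inl i) : K),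
      (h.over₂ (a (Sum.inl i) : K)).2 (a _).2⟩ : V₂) *
      ⟨m (Sum.inl i), h.mem₂' (Sum.inl i)⟩)) = 0 := by
    refine Finset.sum_eq_zero fun i _ => ?_
    rw [map_mul, hρ₂ ⟨m (Sum.inl i), h.mem₂' (Sum.inl i)⟩ (h.small₂ i), mul_zero]
  rw [h2, zero_add]
  refine Finset.sum_congr rfl fun j _ => ?_
  rw [map_mul, hc₂, Algebra.smul_def]

/-- **Norms commute with reduction, two extensions** (adapted-family form). -/
theorem norm_red (h : GoodFamily O V₁ V₂ m)
    (hcard : Fintype.card ι₁ + Fintype.card ι₂ = Module.finrank K F)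
    {k κ₁ κ₂ : Type*} [Field k] [Field κ₁] [Field κ₂] [Algebra k κ₁] [Algebra k κ₂]
    (π : O →+* k) (ρ₁ : V₁ →+* κ₁) (ρ₂ : V₂ →+* κ₂)
    (hπ : ∀ a : O, O.valuation (a : K) < 1 → π a = 0)
    (hρ₁ : ∀ z : V₁, V₁.valuation (z : F) < 1 → ρ₁ z = 0)
    (hρ₂ : ∀ z : V₂, V₂.valuation (z : F) < 1 → ρ₂ z = 0)
    (hc₁ : ∀ a : O, ρ₁ ⟨algebraMap K F a, (h.over₁ a).2 a.2⟩ = algebraMap k κ₁ (π a))
    (hc₂ : ∀ a : O, ρ₂ ⟨algebraMap K F a, (h.over₂ a).2 a.2⟩ = algebraMap k κ₂ (π a))
    (b₁ : Module.Basis ι₁ k κ₁) (hb₁ : ∀ i, ρ₁ ⟨m (Sum.inl i), h.mem₁ i⟩ = b₁ i)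
    (b₂ : Module.Basis ι₂ k κ₂) (hb₂ : ∀ j, ρ₂ ⟨m (Sum.inr j), h.mem₂ j⟩ = b₂ j)
    {y : F} (hy₁ : y ∈ V₁) (hy₂ : y ∈ V₂) :
    ∃ hN : Algebra.norm K y ∈ O,
      π ⟨Algebra.norm K y, hN⟩ =
        Algebra.norm k (ρ₁ ⟨y, hy₁⟩) * Algebra.norm k (ρ₂ ⟨y, hy₂⟩) := by
  classical
  have hne : Nonempty (ι₁ ⊕ ι₂) := by
    by_contra hemp
    rw [not_nonempty_iff] at hemp
    have : IsEmpty ι₁ := ⟨fun i => hemp.false (Sum.inl i)⟩
    have : Subsingleton κ₁ := by
      refine ⟨fun x y => b₁.ext_elem fun i => (IsEmpty.false i).elim⟩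
    exact one_ne_zero (Subsingleton.elim (1 : κ₁) 0)
  have hcard' : Fintype.card (ι₁ ⊕ ι₂) = Module.finrank K F := by
    rw [Fintype.card_sum]; exact hcard
  set b : Module.Basis (ι₁ ⊕ ι₂) K F :=
    basisOfLinearIndependentOfCardEqFinrank h.linearIndependent hcard' with hbdef
  have hb : ⇑b = m := coe_basisOfLinearIndependentOfCardEqFinrank _ _
  set A := h.intMatrix b hb hy₁ hy₂ with hA
  have hnorm := h.norm_eq_det_intMatrix b hb hy₁ hy₂
  have hcol : ∀ l, (∑ k, algebraMap K F ((A k l : O) : K) * m k) = y * m l := fun l =>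
    sum_repr_eq b hb (y * m l)
  -- the reduced matrix is block diagonal
  have hred : π.mapMatrix A =
      Matrix.fromBlocks (Algebra.leftMulMatrix b₁ (ρ₁ ⟨y, hy₁⟩)) 0 0
        (Algebra.leftMulMatrix b₂ (ρ₂ ⟨y, hy₂⟩)) := by
    ext k l
    rw [RingHom.mapMatrix_apply, Matrix.map_apply]
    rcases l with i | j
    · -- column `inl i`
      have hz₁ : y * m (Sum.inl i) ∈ V₁ := mul_mem hy₁ (h.mem₁ i)
      have hsmall : V₂.valuation (y * m (Sum.inl i)) < 1 :=
        val_mul_lt_one_right V₂ ((V₂.valuation_le_one_iff _).2 hy₂) (h.small₂ i)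
      rcases k with i' | j'
      · rw [Matrix.fromBlocks_apply₁₁, Algebra.leftMulMatrix_eq_repr_mul]
        have e1 := h.rho_sum₁ π ρ₁ hρ₁ hc₁ (fun k => A k (Sum.inl i)) hz₁ (hcol (Sum.inl i))
        have e2 : ρ₁ ⟨y * m (Sum.inl i), hz₁⟩ = ρ₁ ⟨y, hy₁⟩ * b₁ i := by
          rw [← hb₁ i, ← map_mul]; rfl
        rw [← e2, e1]
        simp only [hb₁]
        rw [b₁.repr_sum_self]
      · rw [Matrix.fromBlocks_apply₂₁, Matrix.zero_apply]
        refine hπ _ ?_
        refine h.small_inr (fun k => ((A k (Sum.inl i) : O) : K)) (fun k => (A k _).2) ?_ j'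
        rw [hcol]; exact hsmall
    · -- column `inr j`
      have hz₂ : y * m (Sum.inr j) ∈ V₂ := mul_mem hy₂ (h.mem₂ j)
      have hsmall : V₁.valuation (y * m (Sum.inr j)) < 1 :=
        val_mul_lt_one_right V₁ ((V₁.valuation_le_one_iff _).2 hy₁) (h.small₁ j)
      rcases k with i' | j'
      · rw [Matrix.fromBlocks_apply₁₂, Matrix.zero_apply]
        refine hπ _ ?_
        refine h.small_inl (fun k => ((A k (Sum.inr j) : O) : K)) (fun k => (A k _).2) ?_ i'
        rw [hcol]; exact hsmall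
      · rw [Matrix.fromBlocks_apply₂₂, Algebra.leftMulMatrix_eq_repr_mul]
        have e1 := h.rho_sum₂ π ρ₂ hρ₂ hc₂ (fun k => A k (Sum.inr j)) hz₂ (hcol (Sum.inr j))
        have e2 : ρ₂ ⟨y * m (Sum.inr j), hz₂⟩ = ρ₂ ⟨y, hy₂⟩ * b₂ j := by
          rw [← hb₂ j, ← map_mul]; rfl
        rw [← e2, e1]
        simp only [hb₂]
        rw [b₂.repr_sum_self]
  have hN : Algebra.norm K y ∈ O := by rw [hnorm]; exact (A.det).2
  refine ⟨hN, ?_⟩
  have e : (⟨Algebra.norm K y, hN⟩ : O) = A.det := Subtype.ext hnorm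
  rw [e, RingHom.map_det, hred, Matrix.det_fromBlocks_zero₂₁,
    Algebra.norm_eq_matrix_det b₁, Algebra.norm_eq_matrix_det b₂]

end GoodFamily

end Family

section Approx

variable {F : Type*} [Field F]

/-- Two incomparable valuation rings: there is `t` in the maximal ideal of `V₁` whose inverse
lies in the maximal ideal of `V₂`. -/
theorem exists_separating {V₁ V₂ : ValuationSubring F} (hne₁ : ¬ V₁ ≤ V₂) (hne₂ : ¬ V₂ ≤ V₁) :
    ∃ t : F, t ≠ 0 ∧ V₁.valuation t < 1 ∧ V₂.valuation t⁻¹ < 1 := by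
  obtain ⟨a, ha1, ha2⟩ := SetLike.not_le_iff_exists.1 hne₁
  obtain ⟨b, hb2, hb1⟩ := SetLike.not_le_iff_exists.1 hne₂
  have ha0 : a ≠ 0 := by rintro rfl; exact ha2 (zero_mem _)
  have hb0 : b ≠ 0 := by rintro rfl; exact hb1 (zero_mem _)
  have hv1a : V₁.valuation a ≤ 1 := (V₁.valuation_le_one_iff a).2 ha1
  have hv2b : V₂.valuation b ≤ 1 := (V₂.valuation_le_one_iff b).2 hb2
  have hv1b : 1 < V₁.valuation b := by
    rw [← not_le, V₁.valuation_le_one_iff]; exact hb1
  have hv2a : 1 < V₂.valuation a := by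
    rw [← not_le, V₂.valuation_le_one_iff]; exact ha2
  refine ⟨a * b⁻¹, mul_ne_zero ha0 (inv_ne_zero hb0), ?_, ?_⟩
  · refine val_mul_lt_one_right V₁ hv1a ?_
    rw [map_inv₀]; exact inv_lt_one_of_one_lt₀ hv1b
  · rw [mul_inv, inv_inv]
    refine val_mul_lt_one_left V₂ ?_ hv2b
    rw [map_inv₀]; exact inv_lt_one_of_one_lt₀ hv2a

/-- Two incomparable valuation rings: there is `e` with `e ≡ 0` at `V₁` and `e ≡ 1` at `V₂`. -/
theorem exists_idem {V₁ V₂ : ValuationSubring F} (hne₁ : ¬ V₁ ≤ V₂) (hne₂ : ¬ V₂ ≤ V₁) :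
    ∃ e : F, V₁.valuation e < 1 ∧ V₂.valuation (1 - e) < 1 := by
  obtain ⟨t, ht0, ht1, ht2⟩ := exists_separating hne₁ hne₂
  have hu1 : V₁.valuation (1 + t) = 1 := Valuation.map_one_add_of_lt _ ht1
  have hne : 1 + t ≠ 0 := by
    intro h; rw [h, map_zero] at hu1; exact zero_ne_one hu1
  have hpos : 0 < V₂.valuation t := by rw [Valuation.pos_iff]; exact ht0
  have ht2' : 1 < V₂.valuation t := by
    rw [map_inv₀] at ht2
    exact (inv_lt_one₀ hpos).1 ht2
  have hu2 : V₂.valuation (1 + t) = V₂.valuation t := by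
    rw [add_comm]
    exact Valuation.map_add_eq_of_lt_left _ (by rw [map_one]; exact ht2')
  refine ⟨t * (1 + t)⁻¹, ?_, ?_⟩
  · rw [map_mul, map_inv₀, hu1, inv_one, mul_one]; exact ht1
  · have e : 1 - t * (1 + t)⁻¹ = (1 + t)⁻¹ := by field_simp; ring
    rw [e, map_inv₀, hu2, ← map_inv₀]; exact ht2

/-- **Weak approximation** for two incomparable valuation rings (any rank): every `b ∈ V₁` is
congruent modulo the maximal ideal of `V₁` to an element of the maximal ideal of `V₂`. -/
theorem exists_approx {V₁ V₂ : ValuationSubring F} (hne₁ : ¬ V₁ ≤ V₂) (hne₂ : ¬ V₂ ≤ V₁)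
    {b : F} (hb : b ∈ V₁) :
    ∃ g : F, g ∈ V₁ ∧ V₁.valuation (g - b) < 1 ∧ V₂.valuation g < 1 := by
  obtain ⟨e, he1, he2⟩ := exists_idem hne₁ hne₂
  have hb1 : V₁.valuation b ≤ 1 := (V₁.valuation_le_one_iff b).2 hb
  have he2' : V₂.valuation e = 1 := by
    have : e = 1 - (1 - e) := by ring
    rw [this]
    exact Valuation.map_one_sub_of_lt _ he2
  -- step 1: an element `b'` of `V₁ ∩ V₂` congruent to `b` at `V₁`
  obtain ⟨b', hb'1, hb'd, hb'2⟩ : ∃ b' : F, V₁.valuation b' ≤ 1 ∧ V₁.valuation (b' - b) < 1 ∧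
      V₂.valuation b' ≤ 1 := by
    by_cases hb2 : V₂.valuation b ≤ 1
    · exact ⟨b, hb1, by rw [sub_self, map_zero]; exact zero_lt_one, hb2⟩
    · rw [not_le] at hb2
      have hbe1 : V₁.valuation (b * e) < 1 := val_mul_lt_one_right V₁ hb1 he1
      have hu1 : V₁.valuation (1 + b * e) = 1 := Valuation.map_one_add_of_lt _ hbe1
      have hne : 1 + b * e ≠ 0 := by
        intro h; rw [h, map_zero] at hu1; exact zero_ne_one hu1
      have hbe2 : V₂.valuation (b * e) = V₂.valuation b := by rw [map_mul, he2', mul_one]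
      have hu2 : V₂.valuation (1 + b * e) = V₂.valuation b := by
        rw [add_comm, ← hbe2]
        exact Valuation.map_add_eq_of_lt_left _ (by rw [map_one, hbe2]; exact hb2)
      have hb0 : V₂.valuation b ≠ 0 := (lt_trans zero_lt_one hb2).ne'
      refine ⟨b * (1 + b * e)⁻¹, ?_, ?_, ?_⟩
      · rw [map_mul, map_inv₀, hu1, inv_one, mul_one]; exact hb1
      · have e' : b * (1 + b * e)⁻¹ - b = -(b * (b * e)) * (1 + b * e)⁻¹ := by
          field_simp; ring
        rw [e', map_mul, map_inv₀, hu1, inv_one, mul_one, Valuation.map_neg]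
        exact val_mul_lt_one_right V₁ hb1 hbe1
      · rw [map_mul, map_inv₀, hu2, mul_inv_cancel₀ hb0]
  -- step 2: multiply by `1 - e`
  refine ⟨b' * (1 - e), ?_, ?_, ?_⟩
  · rw [← V₁.valuation_le_one_iff, map_mul]
    have : V₁.valuation (1 - e) = 1 := Valuation.map_one_sub_of_lt _ he1
    rw [this, mul_one]; exact hb'1
  · have e' : b' * (1 - e) - b = (b' - b) - b' * e := by ring
    rw [e']
    exact Valuation.map_sub_lt _ hb'd (val_mul_lt_one_right V₁ hb'1 he1)
  · exact val_mul_lt_one_right V₂ hb'2 he2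

end Approx

section Main

variable {K F : Type*} [Field K] [Field F] [Algebra K F]

/-- The kernel of a surjective ring homomorphism from a valuation ring onto a field is the
maximal ideal. -/
theorem map_eq_zero_iff_val_lt_one {k : Type*} [Field k] {V : ValuationSubring F}
    (ρ : V →+* k) (hρ : Function.Surjective ρ) (z : V) :
    ρ z = 0 ↔ V.valuation (z : F) < 1 := by
  have h := IsLocalRing.eq_maximalIdeal (RingHom.ker_isMaximal_of_surjective ρ hρ)
  rw [← ValuationSubring.valuation_lt_one_iff, ← h, RingHom.mem_ker]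

/-- **Norms commute with reduction, two extensions.**  `V₁`, `V₂` incomparable valuation rings of
`F` over `O ⊆ K`, with surjective reductions onto fields `κ₁`, `κ₂` finite over the residue field
`k` of `O`, and `[κ₁ : k] + [κ₂ : k] = [F : K]`.  Then for `y ∈ V₁ ∩ V₂` the norm `N_{F/K} y` lies
in `O` and reduces to `N_{κ₁/k} (ρ₁ y) * N_{κ₂/k} (ρ₂ y)`. -/
theorem norm_red_two {O : ValuationSubring K} {V₁ V₂ : ValuationSubring F}
    (h₁ : Over O V₁) (h₂ : Over O V₂) (hne₁ : ¬ V₁ ≤ V₂) (hne₂ : ¬ V₂ ≤ V₁)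
    {k κ₁ κ₂ : Type*} [Field k] [Field κ₁] [Field κ₂] [Algebra k κ₁] [Algebra k κ₂]
    [Module.Finite k κ₁] [Module.Finite k κ₂]
    (π : O →+* k) (ρ₁ : V₁ →+* κ₁) (ρ₂ : V₂ →+* κ₂)
    (hπ : Function.Surjective π) (hρ₁ : Function.Surjective ρ₁) (hρ₂ : Function.Surjective ρ₂)
    (hc₁ : ∀ a : O, ρ₁ ⟨algebraMap K F a, (h₁ a).2 a.2⟩ = algebraMap k κ₁ (π a))
    (hc₂ : ∀ a : O, ρ₂ ⟨algebraMap K F a, (h₂ a).2 a.2⟩ = algebraMap k κ₂ (π a))
    (hdeg : Module.finrank k κ₁ + Module.finrank k κ₂ = Module.finrank K F)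
    {y : F} (hy₁ : y ∈ V₁) (hy₂ : y ∈ V₂) :
    ∃ hN : Algebra.norm K y ∈ O,
      π ⟨Algebra.norm K y, hN⟩ =
        Algebra.norm k (ρ₁ ⟨y, hy₁⟩) * Algebra.norm k (ρ₂ ⟨y, hy₂⟩) := by
  classical
  set b₁ := Module.finBasis k κ₁ with hb₁def
  set b₂ := Module.finBasis k κ₂ with hb₂def
  choose e₁ he₁ using fun i => hρ₁ (b₁ i)
  choose e₂ he₂ using fun j => hρ₂ (b₂ j)
  choose g₁ hg₁m hg₁d hg₁s using fun i => exists_approx hne₁ hne₂ (e₁ i).2
  choose g₂ hg₂m hg₂d hg₂s using fun j => exists_approx hne₂ hne₁ (e₂ j).2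
  have hρg₁ : ∀ i, ρ₁ ⟨g₁ i, hg₁m i⟩ = b₁ i := fun i => by
    rw [← he₁ i, ← sub_eq_zero, ← map_sub, map_eq_zero_iff_val_lt_one ρ₁ hρ₁]
    exact hg₁d i
  have hρg₂ : ∀ j, ρ₂ ⟨g₂ j, hg₂m j⟩ = b₂ j := fun j => by
    rw [← he₂ j, ← sub_eq_zero, ← map_sub, map_eq_zero_iff_val_lt_one ρ₂ hρ₂]
    exact hg₂d j
  have hπ0 : ∀ a : O, π a = 0 ↔ O.valuation (a : K) < 1 :=
    fun a => map_eq_zero_iff_val_lt_one π hπ a
  have hgood : GoodFamily O V₁ V₂ (Sum.elim g₁ g₂) :=
    { over₁ := h₁
      over₂ := h₂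
      mem₁ := fun i => hg₁m i
      small₂ := fun i => hg₁s i
      mem₂ := fun j => hg₂m j
      small₁ := fun j => hg₂s j
      indep₁ := by
        intro a ha hsmall i
        simp only [Sum.elim_inl] at hsmall
        have hmem : (∑ i, algebraMap K F (a i) * g₁ i) ∈ V₁ :=
          (V₁.valuation_le_one_iff _).1 hsmall.le
        have h0 : ρ₁ ⟨_, hmem⟩ = 0 := (map_eq_zero_iff_val_lt_one ρ₁ hρ₁ ⟨_, hmem⟩).2 hsmall
        have e : (⟨_, hmem⟩ : V₁) =
            ∑ i, (⟨algebraMap K F (a i), (h₁ (a i)).2 (ha i)⟩ : V₁) * ⟨g₁ i, hg₁m i⟩ := by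
          apply Subtype.ext
          rw [AddSubmonoidClass.coe_finsetSum]
          simp only [MulMemClass.coe_mul]
        rw [e, map_sum] at h0
        have h0' : ∑ i, π ⟨a i, ha i⟩ • b₁ i = 0 := by
          rw [← h0]
          refine Finset.sum_congr rfl fun i _ => ?_
          rw [map_mul, hρg₁, Algebra.smul_def, ← hc₁]
        have := Fintype.linearIndependent_iff.1 b₁.linearIndependent _ h0' i
        exact (hπ0 ⟨a i, ha i⟩).1 this
      indep₂ := by
        intro a ha hsmall j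
        simp only [Sum.elim_inr] at hsmall
        have hmem : (∑ j, algebraMap K F (a j) * g₂ j) ∈ V₂ :=
          (V₂.valuation_le_one_iff _).1 hsmall.le
        have h0 : ρ₂ ⟨_, hmem⟩ = 0 := (map_eq_zero_iff_val_lt_one ρ₂ hρ₂ ⟨_, hmem⟩).2 hsmall
        have e : (⟨_, hmem⟩ : V₂) =
            ∑ j, (⟨algebraMap K F (a j), (h₂ (a j)).2 (ha j)⟩ : V₂) * ⟨g₂ j, hg₂m j⟩ := by
          apply Subtype.ext
          rw [AddSubmonoidClass.coe_finsetSum]
          simp only [MulMemClass.coe_mul]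
        rw [e, map_sum] at h0
        have h0' : ∑ j, π ⟨a j, ha j⟩ • b₂ j = 0 := by
          rw [← h0]
          refine Finset.sum_congr rfl fun j _ => ?_
          rw [map_mul, hρg₂, Algebra.smul_def, ← hc₂]
        have := Fintype.linearIndependent_iff.1 b₂.linearIndependent _ h0' j
        exact (hπ0 ⟨a j, ha j⟩).1 this }
  refine hgood.norm_red (by simpa using hdeg) π ρ₁ ρ₂ (fun a ha => (hπ0 a).2 ha)
    (fun z hz => (map_eq_zero_iff_val_lt_one ρ₁ hρ₁ z).2 hz)
    (fun z hz => (map_eq_zero_iff_val_lt_one ρ₂ hρ₂ z).2 hz) hc₁ hc₂ b₁ hρg₁ b₂ hρg₂ hy₁ hy₂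

end Main

section Insep

variable {k κ : Type*} [Field k] [Field κ] [Algebra k κ]

/-- Norm in a residue extension of degree one. -/
theorem algebraMap_norm_of_finrank_eq_one (hdeg : Module.finrank k κ = 1) (z : κ) :
    algebraMap k κ (Algebra.norm k z) = z := by
  have hfin : FiniteDimensional k κ := Module.finite_of_finrank_pos (by rw [hdeg]; exact one_pos)
  have htop : (⊥ : Subalgebra k κ) = ⊤ := Subalgebra.bot_eq_top_of_finrank_eq_one hdeg
  have hz : z ∈ (⊥ : Subalgebra k κ) := by rw [htop]; exact Algebra.mem_top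
  obtain ⟨a, rfl⟩ := Algebra.mem_bot.1 hz
  rw [Algebra.norm_algebraMap, hdeg, pow_one]

/-- Norm in a purely inseparable residue extension of degree `q = char`: if `z ^ q` comes from
`a ∈ k`, then `N z = a`. -/
theorem norm_eq_of_pow_eq (q : ℕ) [Fact q.Prime] [CharP k q] (hdeg : Module.finrank k κ = q)
    {z : κ} {a : k} (ha : algebraMap k κ a = z ^ q) : Algebra.norm k z = a := by
  have h1 : (Algebra.norm k z) ^ q = a ^ q := by
    rw [← map_pow, ← ha, Algebra.norm_algebraMap, hdeg]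
  exact frobenius_inj k q h1

theorem algebraMap_norm_eq_pow (q : ℕ) [Fact q.Prime] [CharP k q]
    (hdeg : Module.finrank k κ = q) (hpow : ∀ z : κ, z ^ q ∈ (algebraMap k κ).range) (z : κ) :
    algebraMap k κ (Algebra.norm k z) = z ^ q := by
  obtain ⟨a, ha⟩ := hpow z
  rw [norm_eq_of_pow_eq q hdeg ha, ha]

end Insep

section Hecke

variable {K F : Type*} [Field K] [Field F] [Algebra K F]

/-- **Norm reduction for a degeneracy map at a prime of bad reduction.**
`[F : K] = q + 1`, two extensions `V₁` (residue degree `1`) and `V₂` (residue degree `q`, with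
`κ₂ ^ q ⊆ k`).  For `y ∈ V₁ ∩ V₂` the norm is integral and
`red (N y) = red₁ y * a`, where `a ∈ k` is the element with `a = (red₂ y) ^ q` in `κ₂`. -/
theorem norm_red_insep {O : ValuationSubring K} {V₁ V₂ : ValuationSubring F}
    (h₁ : Over O V₁) (h₂ : Over O V₂) (hne₁ : ¬ V₁ ≤ V₂) (hne₂ : ¬ V₂ ≤ V₁)
    {k κ₁ κ₂ : Type*} [Field k] [Field κ₁] [Field κ₂] [Algebra k κ₁] [Algebra k κ₂]
    (q : ℕ) [Fact q.Prime] [CharP k q]
    (π : O →+* k) (ρ₁ : V₁ →+* κ₁) (ρ₂ : V₂ →+* κ₂)
    (hπ : Function.Surjective π) (hρ₁ : Function.Surjective ρ₁) (hρ₂ : Function.Surjective ρ₂)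
    (hc₁ : ∀ a : O, ρ₁ ⟨algebraMap K F a, (h₁ a).2 a.2⟩ = algebraMap k κ₁ (π a))
    (hc₂ : ∀ a : O, ρ₂ ⟨algebraMap K F a, (h₂ a).2 a.2⟩ = algebraMap k κ₂ (π a))
    (hdeg₁ : Module.finrank k κ₁ = 1) (hdeg₂ : Module.finrank k κ₂ = q)
    (hdeg : Module.finrank K F = q + 1)
    {y : F} (hy₁ : y ∈ V₁) (hy₂ : y ∈ V₂) {a : k}
    (ha : algebraMap k κ₂ a = ρ₂ ⟨y, hy₂⟩ ^ q) :
    ∃ hN : Algebra.norm K y ∈ O,
      algebraMap k κ₁ (π ⟨Algebra.norm K y, hN⟩) = ρ₁ ⟨y, hy₁⟩ * algebraMap k κ₁ a := by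
  have hq : 0 < q := (Fact.out : q.Prime).pos
  have : Module.Finite k κ₁ := Module.finite_of_finrank_pos (by rw [hdeg₁]; exact one_pos)
  have : Module.Finite k κ₂ := Module.finite_of_finrank_pos (by rw [hdeg₂]; exact hq)
  obtain ⟨hN, hred⟩ := norm_red_two h₁ h₂ hne₁ hne₂ π ρ₁ ρ₂ hπ hρ₁ hρ₂ hc₁ hc₂
    (by rw [hdeg₁, hdeg₂, hdeg, add_comm]) hy₁ hy₂
  refine ⟨hN, ?_⟩
  rw [hred, map_mul, algebraMap_norm_of_finrank_eq_one hdeg₁, norm_eq_of_pow_eq q hdeg₂ ha]

end Hecke

end Fermat.Agent.S35.H253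

end
-- ===== PACK-END S35/H253/NormRed2.lean

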