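import Mathlib
import Fermat.Prelude.Def_GaloisRep_Adic
import Fermat.Statements.S22
import Mathlib.RingTheory.Valuation.ValuationSubring
import Mathlib.Algebra.Field.Subfield.Basic
import Fermat.Prelude.Def_ModularCurve_HeckeModule
import Fermat.Prelude.Def_CuspForm_HeckeEvalForms
import Fermat.Prelude.Def_CuspForm_Newforms
import Fermat.Agent.Pack.S43MC.G0E2L1
import Fermat.Agent.Pack.Fast891

-- ===== PACK-BEGIN S27/H443/FFSep.lean
section


/-!
# Row S27, leaf FF-ALG, step A: a separating variable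

Let `F / K` be a field extension, essentially of finite type, with `K` algebraically closed and
`Ω[F⁄K]` of dimension one.  If `x ∈ F` has `dx ≠ 0`, then

* `x` is transcendental over `K` (`ffsep_transcendental`);
* `F` is formally unramified over `K[x]` (`ffsep_formallyUnramified_adjoin`), hence finite and
  separable over `K(x)` (`ffsep_finite`, `ffsep_isSeparable`).

Such an `x` exists (`ffsep_exists_D_ne_zero`).  No assumption on the characteristic.
Mathlib only.  Author: helper443.
-/

set_option autoImplicit false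
set_option linter.style.haveILetI false

open scoped IntermediateField.algebraAdjoinAdjoin

namespace Fermat.Agent.S27.H443

section

variable (K F : Type*) [Field K] [Field F] [Algebra K F]

/-- If `Ω[F⁄K]` is nonzero, some element has a nonzero differential. -/
theorem ffsep_exists_D_ne_zero (h : Module.finrank F Ω[F⁄K] = 1) :
    ∃ x : F, KaehlerDifferential.D K F x ≠ 0 := by
  by_contra hcon
  push Not at hcon
  have htop : (⊤ : Submodule F Ω[F⁄K]) = ⊥ := by
    rw [← KaehlerDifferential.span_range_derivation, Submodule.span_eq_bot]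
    rintro _ ⟨x, rfl⟩
    exact hcon x
  have hsub : Subsingleton Ω[F⁄K] :=
    (Submodule.subsingleton_iff F).mp (subsingleton_of_bot_eq_top htop.symm)
  have h0 : Module.finrank F Ω[F⁄K] = 0 := Module.finrank_zero_of_subsingleton
  omega

variable {K F}

/-- Over an algebraically closed field, an element with nonzero differential is
transcendental. -/
theorem ffsep_transcendental [IsAlgClosed K] {x : F} (hx : KaehlerDifferential.D K F x ≠ 0) :
    Transcendental K x := by
  intro halg
  have hint : IsIntegral K x := halg.isIntegral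
  have hdeg : (minpoly K x).degree = 1 :=
    IsAlgClosed.degree_eq_one_of_irreducible K (minpoly.irreducible hint)
  obtain ⟨c, rfl⟩ := minpoly.mem_range_of_degree_eq_one K x hdeg
  exact hx (Derivation.map_algebraMap _ c)

/-- If `Ω[F⁄K]` is one-dimensional and `dx ≠ 0`, then `F` is formally unramified over `K[x]`. -/
theorem ffsep_formallyUnramified_adjoin (h : Module.finrank F Ω[F⁄K] = 1) {x : F}
    (hx : KaehlerDifferential.D K F x ≠ 0) :
    Algebra.FormallyUnramified (Algebra.adjoin K {x}) F := by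
  rw [Algebra.formallyUnramified_iff]
  set A := Algebra.adjoin K {x} with hA
  refine subsingleton_of_forall_eq 0 fun ω => ?_
  obtain ⟨ω', rfl⟩ := KaehlerDifferential.map_surjective K A F ω
  obtain ⟨c, rfl⟩ := (finrank_eq_one_iff_of_nonzero' _ hx).mp h ω'
  have hxA : x ∈ A := Algebra.self_mem_adjoin_singleton K x
  have h1 : KaehlerDifferential.map K A F F (KaehlerDifferential.D K F x) = 0 := by
    rw [KaehlerDifferential.map_D, Algebra.algebraMap_self, RingHom.id_apply]
    exact Derivation.map_algebraMap (KaehlerDifferential.D A F) ⟨x, hxA⟩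
  rw [map_smul, h1, smul_zero]

variable (K F)

/-- The extension `F / K(x)` is finite, if `dx ≠ 0`. -/
theorem ffsep_finite [Algebra.EssFiniteType K F] (h : Module.finrank F Ω[F⁄K] = 1) {x : F}
    (hx : KaehlerDifferential.D K F x ≠ 0) :
    Module.Finite (IntermediateField.adjoin K {x}) F := by
  haveI := ffsep_formallyUnramified_adjoin h hx
  haveI : Algebra.FormallyUnramified (IntermediateField.adjoin K {x}) F :=
    Algebra.FormallyUnramified.of_restrictScalars (Algebra.adjoin K {x}) _ F
  haveI : Algebra.EssFiniteType (IntermediateField.adjoin K {x}) F :=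
    Algebra.EssFiniteType.of_comp K _ F
  exact Algebra.FormallyUnramified.finite_of_free _ _

/-- The extension `F / K(x)` is separable, if `dx ≠ 0`. -/
theorem ffsep_isSeparable [Algebra.EssFiniteType K F] (h : Module.finrank F Ω[F⁄K] = 1) {x : F}
    (hx : KaehlerDifferential.D K F x ≠ 0) :
    Algebra.IsSeparable (IntermediateField.adjoin K {x}) F := by
  haveI := ffsep_formallyUnramified_adjoin h hx
  haveI : Algebra.FormallyUnramified (IntermediateField.adjoin K {x}) F :=
    Algebra.FormallyUnramified.of_restrictScalars (Algebra.adjoin K {x}) _ F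
  haveI : Algebra.EssFiniteType (IntermediateField.adjoin K {x}) F :=
    Algebra.EssFiniteType.of_comp K _ F
  exact Algebra.FormallyUnramified.isSeparable _ _

end

end Fermat.Agent.S27.H443

end
-- ===== PACK-END S27/H443/FFSep.lean

-- ===== PACK-BEGIN S27/H443/DS.lean
section


/-!
# Row S27 / S26-C4b, leaf DS: Dedekind domains of finite type over an algebraically closed field
are smooth curves

Mathlib only, no characteristic assumption.  For a Dedekind domain `B` of finite type over an
algebraically closed field `K`: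

* `ds_exists_isStandardSmooth_away`: around every nonzero maximal ideal there is a basic open
  `B[1/f]` which is standard smooth of relative dimension one over `K`
  (a uniformiser `t` makes `B_m` unramified and flat, hence etale, over `K[t]`);
* `ds_locally_isStandardSmooth`: if `B` is not a field, `K → B` is locally standard smooth of
  relative dimension one (this is leaf T2 of `S26/H27/C4bSpec`);
* `ds_smooth`: `B` is a smooth `K`-algebra (also when `B` is a field).

Author: helper443.
-/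

set_option autoImplicit false
set_option linter.style.haveILetI false
universe u

open Polynomial IsLocalRing

namespace Fermat.Agent.S27.H443

section Residue

variable (K : Type*) [Field K] [IsAlgClosed K] {B : Type*} [CommRing B] [Algebra K B]
  [Algebra.FiniteType K B]

/-- Nullstellensatz: the residue field at a maximal ideal of a finitely generated algebra over an
algebraically closed field is the base field. -/
theorem ds_algebraMap_quotient_bijective (m : Ideal B) [hm : m.IsMaximal] :
    Function.Bijective (algebraMap K (B ⧸ m)) := by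
  letI : Field (B ⧸ m) := Ideal.Quotient.field m
  haveI : Algebra.FiniteType K (B ⧸ m) :=
    Algebra.FiniteType.of_surjective (Ideal.Quotient.mkₐ K m) (Ideal.Quotient.mkₐ_surjective K m)
  haveI : Module.Finite K (B ⧸ m) := finite_of_finite_type_of_isJacobsonRing K (B ⧸ m)
  exact IsAlgClosed.algebraMap_bijective_of_isIntegral

/-- Every element of `B` is congruent to a constant modulo a maximal ideal. -/
theorem ds_exists_sub_mem (m : Ideal B) [hm : m.IsMaximal] (b : B) :
    ∃ c : K, b - algebraMap K B c ∈ m := by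
  obtain ⟨c, hc⟩ := (ds_algebraMap_quotient_bijective K m).2 (Ideal.Quotient.mk m b)
  refine ⟨c, ?_⟩
  rw [← Ideal.Quotient.eq_zero_iff_mem, map_sub, ← hc,
    IsScalarTower.algebraMap_apply K B (B ⧸ m), Ideal.Quotient.algebraMap_eq, sub_self]

/-- Every element of the localisation at a maximal ideal is congruent to a constant modulo the
maximal ideal. -/
theorem ds_exists_sub_mem_maximalIdeal (m : Ideal B) [hm : m.IsMaximal]
    (s : Localization.AtPrime m) :
    ∃ c : K, s - algebraMap K (Localization.AtPrime m) c ∈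
      maximalIdeal (Localization.AtPrime m) := by
  obtain ⟨b, hb⟩ := (IsLocalization.AtPrime.equivQuotMaximalIdeal m
    (Localization.AtPrime m)).surjective (Ideal.Quotient.mk _ s)
  obtain ⟨b, rfl⟩ := Ideal.Quotient.mk_surjective b
  rw [IsLocalization.AtPrime.equivQuotMaximalIdeal_apply_mk, Ideal.Quotient.eq] at hb
  obtain ⟨c, hc⟩ := ds_exists_sub_mem K m b
  refine ⟨c, ?_⟩
  have h1 : algebraMap B (Localization.AtPrime m) (b - algebraMap K B c) ∈
      maximalIdeal (Localization.AtPrime m) :=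
    (IsLocalization.AtPrime.to_map_mem_maximal_iff (Localization.AtPrime m) m _).mpr hc
  rw [map_sub, ← IsScalarTower.algebraMap_apply] at h1
  have h2 := Ideal.sub_mem _ h1 hb
  have h3 : s - algebraMap K (Localization.AtPrime m) c =
      algebraMap B (Localization.AtPrime m) b - algebraMap K (Localization.AtPrime m) c -
        (algebraMap B (Localization.AtPrime m) b - s) := by ring
  rw [h3]
  exact h2

end Residue

section Unramified

/-- If the maximal ideal of `B_m` is generated by the image of an element of `P`, then `B_m` is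
formally unramified over `P` (the residue field being the algebraically closed base field). -/
theorem ds_formallyUnramified_localization (K : Type*) [Field K] [IsAlgClosed K] (P : Type*)
    [CommRing P] [Algebra K P] {B : Type*} [CommRing B] [Algebra K B] [Algebra P B]
    [IsScalarTower K P B] [Algebra.FiniteType K B] (m : Ideal B) [hm : m.IsMaximal] (x : P)
    (hx : maximalIdeal (Localization.AtPrime m) =
      Ideal.span {algebraMap B (Localization.AtPrime m) (algebraMap P B x)}) :
    Algebra.FormallyUnramified P (Localization.AtPrime m) := by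
  have hft : Algebra.FiniteType P B := Algebra.FiniteType.of_restrictScalars_finiteType K P B
  have hfin : Module.Finite (Localization.AtPrime m) Ω[Localization.AtPrime m⁄P] :=
    inferInstance
  rw [Algebra.formallyUnramified_iff]
  set S := Localization.AtPrime m with hS
  have hD : ∀ s : S, KaehlerDifferential.D P S s ∈ maximalIdeal S • (⊤ : Submodule S Ω[S⁄P]) := by
    intro s
    obtain ⟨c, hc⟩ := ds_exists_sub_mem_maximalIdeal K m s
    rw [hx, Ideal.mem_span_singleton'] at hc
    obtain ⟨a, ha⟩ := hc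
    have hs : s = a * algebraMap P S x + algebraMap P S (algebraMap K P c) := by
      rw [← IsScalarTower.algebraMap_apply K P S, IsScalarTower.algebraMap_apply P B S, ha]
      ring
    rw [hs, map_add, Derivation.map_algebraMap, add_zero, Derivation.leibniz,
      Derivation.map_algebraMap, smul_zero, zero_add]
    refine Submodule.smul_mem_smul ?_ Submodule.mem_top
    rw [hx, IsScalarTower.algebraMap_apply P B S]
    exact Ideal.mem_span_singleton_self _
  have hle : (⊤ : Submodule S Ω[S⁄P]) ≤ maximalIdeal S • ⊤ := by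
    conv_lhs => rw [← KaehlerDifferential.span_range_derivation]
    rw [Submodule.span_le]
    rintro _ ⟨s, rfl⟩
    exact hD s
  have hbot : (⊤ : Submodule S Ω[S⁄P]) = ⊥ :=
    Submodule.eq_bot_of_le_smul_of_le_jacobson_bot (maximalIdeal S) ⊤
      (Module.finite_def.mp hfin) hle
      (by rw [jacobson_eq_maximalIdeal ⊥ bot_ne_top])
  exact (Submodule.subsingleton_iff S).mp (subsingleton_of_bot_eq_top hbot.symm)

end Unramified
/-- The presentation of `MvPolynomial ι R` with generators the variables and no relations. -/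
noncomputable def mvPolyPresentation (R : Type*) [CommRing R] (ι : Type*) :
    Algebra.Presentation R (MvPolynomial ι R) ι PEmpty.{1} where
  __ := Algebra.Generators.mvPolynomial R ι
  relation := PEmpty.elim
  span_range_relation_eq_ker := by
    simp only [Set.range_eq_empty, Ideal.span_empty]
    symm
    rw [Algebra.Generators.ker_eq_ker_aeval_val, ← RingHom.injective_iff_ker_eq_bot]
    intro a b hab
    simpa using hab

/-- The submersive presentation of `MvPolynomial ι R` with no relations. -/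
noncomputable def mvPolySubmersive (R : Type*) [CommRing R] (ι : Type*) :
    Algebra.SubmersivePresentation R (MvPolynomial ι R) ι PEmpty.{1} where
  __ := mvPolyPresentation R ι
  map := PEmpty.elim
  map_inj (a b : PEmpty) h := by contradiction
  jacobian_isUnit := by
    classical
    rw [Algebra.PreSubmersivePresentation.jacobian_eq_jacobiMatrix_det, Matrix.det_isEmpty,
      map_one]
    exact isUnit_one

theorem mvPoly_isStandardSmoothOfRelativeDimension (R : Type*) [CommRing R] (ι : Type*)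
    [Finite ι] :
    Algebra.IsStandardSmoothOfRelativeDimension (Nat.card ι) R (MvPolynomial ι R) :=
  (mvPolySubmersive R ι).isStandardSmoothOfRelativeDimension (by
    simp [Algebra.Presentation.dimension])

theorem polynomial_isStandardSmoothOfRelativeDimension (R : Type*) [CommRing R] :
    Algebra.IsStandardSmoothOfRelativeDimension 1 R R[X] := by
  have h := mvPoly_isStandardSmoothOfRelativeDimension R Unit
  rw [Nat.card_unique] at h
  exact Algebra.IsStandardSmoothOfRelativeDimension.of_algEquiv 1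
    (MvPolynomial.uniqueAlgEquiv R Unit)


section Main

/-- A global uniformiser at a nonzero maximal ideal of a Dedekind domain. -/
theorem ds_exists_uniformizer {B : Type*} [CommRing B] [IsDedekindDomain B] (m : Ideal B)
    [hm : m.IsMaximal] (hm0 : m ≠ ⊥) :
    ∃ t ∈ m, maximalIdeal (Localization.AtPrime m) =
      Ideal.span {algebraMap B (Localization.AtPrime m) t} := by
  haveI : IsDiscreteValuationRing (Localization.AtPrime m) :=
    IsLocalization.AtPrime.isDiscreteValuationRing_of_dedekind_domain B hm0 _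
  obtain ⟨ϖ, hϖ⟩ := IsDiscreteValuationRing.exists_irreducible (Localization.AtPrime m)
  obtain ⟨a, s, rfl⟩ := IsLocalization.exists_mk'_eq m.primeCompl ϖ
  have hunit : IsUnit (algebraMap B (Localization.AtPrime m) (s : B)) :=
    IsLocalization.map_units _ s
  have hassoc : Associated (IsLocalization.mk' (Localization.AtPrime m) a s)
      (algebraMap B (Localization.AtPrime m) a) := by
    refine ⟨hunit.unit, ?_⟩
    rw [IsUnit.unit_spec, IsLocalization.mk'_spec]
  have hirr : Irreducible (algebraMap B (Localization.AtPrime m) a) := hassoc.irreducible hϖ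
  refine ⟨a, ?_, hirr.maximalIdeal_eq⟩
  rw [← IsLocalization.AtPrime.to_map_mem_maximal_iff (Localization.AtPrime m) m a,
    hirr.maximalIdeal_eq]
  exact Ideal.mem_span_singleton_self _


/-- An element of a proper ideal of a domain over an algebraically closed field which is algebraic
over the base field vanishes. -/
theorem ds_eq_zero_of_isAlgebraic (K : Type*) [Field K] [IsAlgClosed K] {B : Type*} [CommRing B]
    [IsDomain B] [Algebra K B] (m : Ideal B) (hm : m ≠ ⊤) {t : B} (ht : t ∈ m)
    (halg : IsAlgebraic K t) : t = 0 := by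
  have hint : IsIntegral K t := halg.isIntegral
  have hdeg : (minpoly K t).degree = 1 :=
    IsAlgClosed.degree_eq_one_of_irreducible K (minpoly.irreducible hint)
  obtain ⟨c, rfl⟩ := minpoly.mem_range_of_degree_eq_one K t hdeg
  by_contra h0
  have hc : c ≠ 0 := by
    rintro rfl
    exact h0 (map_zero _)
  apply hm
  rw [Ideal.eq_top_iff_one]
  have : (1 : B) = algebraMap K B c⁻¹ * algebraMap K B c := by
    rw [← map_mul, inv_mul_cancel₀ hc, map_one]
  rw [this]
  exact Ideal.mul_mem_left _ _ ht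

/-- **Étale chart at a closed point.**  Around every nonzero maximal ideal of a Dedekind domain
of finite type over an algebraically closed field there is a basic open which is standard smooth
of relative dimension one. -/
theorem ds_exists_isStandardSmooth_away (K : Type*) [Field K] [IsAlgClosed K] {B : Type*}
    [CommRing B] [Algebra K B] [Algebra.FiniteType K B] [IsDedekindDomain B]
    (m : Ideal B) [hm : m.IsMaximal] (hm0 : m ≠ ⊥) :
    ∃ f ∉ m, Algebra.IsStandardSmoothOfRelativeDimension 1 K (Localization.Away f) := by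
  obtain ⟨t, htm, ht⟩ := ds_exists_uniformizer m hm0
  haveI hdvr : IsDiscreteValuationRing (Localization.AtPrime m) :=
    IsLocalization.AtPrime.isDiscreteValuationRing_of_dedekind_domain B hm0 _
  have htr : Transcendental K t := by
    intro halg
    have h0 := ds_eq_zero_of_isAlgebraic K m hm.ne_top htm halg
    rw [h0, map_zero, Ideal.span_singleton_eq_bot.mpr rfl] at ht
    exact IsDiscreteValuationRing.not_a_field (Localization.AtPrime m) ht
  letI alg : Algebra K[X] B := (Polynomial.aeval (R := K) t).toRingHom.toAlgebra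
  have hmap : ∀ p : K[X], algebraMap K[X] B p = Polynomial.aeval t p := fun _ => rfl
  haveI tower : IsScalarTower K K[X] B := IsScalarTower.of_algebraMap_eq fun c => by
    rw [hmap, Polynomial.algebraMap_eq, Polynomial.aeval_C]
  haveI htf : Module.IsTorsionFree K[X] B :=
    Module.isTorsionFree_iff_algebraMap_injective.mpr (transcendental_iff_injective.mp htr)
  haveI hflat : Module.Flat K[X] B := inferInstance
  haveI hft : Algebra.FiniteType K[X] B := Algebra.FiniteType.of_restrictScalars_finiteType K K[X] B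
  haveI hfp : Algebra.FinitePresentation K[X] B := Algebra.FinitePresentation.of_finiteType.mp hft
  haveI hunr : Algebra.IsUnramifiedAt K[X] m :=
    ds_formallyUnramified_localization K K[X] m Polynomial.X (by
      rw [hmap, Polynomial.aeval_X]; exact ht)
  haveI het : Algebra.IsEtaleAt K[X] m := Algebra.IsEtaleAt.of_isUnramifiedAt_of_flat m
  obtain ⟨f, hfm, hf⟩ := Algebra.exists_etale_of_isEtaleAt (R := K[X]) m
  refine ⟨f, hfm, ?_⟩
  haveI h0 : Algebra.IsStandardSmoothOfRelativeDimension 0 K[X] (Localization.Away f) :=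
    Algebra.Etale.iff_isStandardSmoothOfRelativeDimension_zero.mp hf
  haveI h1 : Algebra.IsStandardSmoothOfRelativeDimension 1 K K[X] :=
    polynomial_isStandardSmoothOfRelativeDimension K
  have := Algebra.IsStandardSmoothOfRelativeDimension.trans 1 0 K K[X] (Localization.Away f)
  simpa using this

/-- A maximal ideal of a domain which is not a field is nonzero. -/
theorem ds_maximal_ne_bot {B : Type*} [CommRing B] [IsDomain B] (hB : ¬ IsField B)
    (m : Ideal B) [hm : m.IsMaximal] : m ≠ ⊥ := by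
  rintro rfl
  exact hB (Ring.isField_iff_maximal_bot.mpr hm) 

/-- **Leaf T2** (regular ⇒ smooth for curves): a Dedekind domain, not a field, of finite type
over an algebraically closed field is locally standard smooth of relative dimension one. -/
theorem ds_locally_isStandardSmooth (K : Type u) [Field K] [IsAlgClosed K]
    (B : Type u) [CommRing B] [Algebra K B] [Algebra.FiniteType K B] [IsDedekindDomain B]
    (hB : ¬ IsField B) :
    RingHom.Locally (RingHom.IsStandardSmoothOfRelativeDimension 1) (algebraMap K B) := by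
  refine ⟨{f | Algebra.IsStandardSmoothOfRelativeDimension 1 K (Localization.Away f)}, ?_, ?_⟩
  · by_contra hne
    obtain ⟨m, hm, hle⟩ := Ideal.exists_le_maximal _ hne
    obtain ⟨f, hfm, hf⟩ := ds_exists_isStandardSmooth_away K m (ds_maximal_ne_bot hB m)
    exact hfm (hle (Ideal.subset_span hf))
  · intro t ht
    rw [← IsScalarTower.algebraMap_eq, RingHom.isStandardSmoothOfRelativeDimension_algebraMap]
    exact ht

/-- A Dedekind domain of finite type over an algebraically closed field is smooth. -/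
theorem ds_smooth (K : Type*) [Field K] [IsAlgClosed K]
    (B : Type*) [CommRing B] [Algebra K B] [Algebra.FiniteType K B] [IsDedekindDomain B] :
    Algebra.Smooth K B := by
  haveI hfp : Algebra.FinitePresentation K B := Algebra.FinitePresentation.of_finiteType.mp ‹_›
  by_cases hB : IsField B
  · letI : Field B := hB.toField
    haveI : Algebra.FormallySmooth K B := inferInstance
    exact ⟨inferInstance, hfp⟩
  · refine ⟨Algebra.smoothLocus_eq_univ_iff.mp (Set.eq_univ_iff_forall.mpr fun p => ?_), hfp⟩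
    obtain ⟨m, hm, hle⟩ := Ideal.exists_le_maximal p.asIdeal p.2.ne_top
    obtain ⟨f, hfm, hf⟩ := ds_exists_isStandardSmooth_away K m (ds_maximal_ne_bot hB m)
    haveI : Algebra.IsStandardSmooth K (Localization.Away f) :=
      Algebra.IsStandardSmoothOfRelativeDimension.isStandardSmooth 1
    have hsm : Algebra.Smooth K (Localization.Away f) := inferInstance
    exact (Algebra.basicOpen_subset_smoothLocus_iff_smooth (R := K) (f := f)).mpr hsm
      (fun hfp' => hfm (hle hfp'))

end Main

end Fermat.Agent.S27.H443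

end
-- ===== PACK-END S27/H443/DS.lean

-- ===== PACK-BEGIN S27/H866/Pushout.lean
section


/-!
# Row S27, leaf SCHEME (helper866): gluing two affine schemes along a common open

Mathlib-only.  Part 1: pull-back of functions along a chart `j : Spec R ⟶ X`
(`pullHom`, `secEquiv`).  Part 2: the pushout of two open immersions `X ⟵ Z ⟶ Y` of schemes
(existence, the two inclusions are open immersions, points).
-/

set_option autoImplicit false

open CategoryTheory CategoryTheory.Limits AlgebraicGeometry Opposite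

universe u

namespace Fermat.Agent.S27.H866

noncomputable section

section PullHom
variable {X : Scheme.{u}} {R R' : CommRingCat.{u}}

lemma appLE_top_top {Y Z : Scheme.{u}} (j : Z ⟶ Y) (h : (⊤ : Z.Opens) ≤ j ⁻¹ᵁ ⊤) :
    j.appLE ⊤ ⊤ h = j.appTop := by
  rw [Scheme.Hom.appTop, Scheme.Hom.app_eq_appLE]
  rfl

/-- Pullback of functions on `V` along `j : Spec R ⟶ X` when `j` lands in `V`. -/
def pullHom (j : Spec R ⟶ X) (V : X.Opens) (h : ⊤ ≤ j ⁻¹ᵁ V) : Γ(X, V) ⟶ R :=
  j.appLE V ⊤ h ≫ (Scheme.ΓSpecIso R).hom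

lemma pullHom_res (j : Spec R ⟶ X) {V V' : X.Opens} (hVV' : V' ≤ V) (h' : ⊤ ≤ j ⁻¹ᵁ V') :
    X.presheaf.map (homOfLE hVV').op ≫ pullHom j V' h' =
      pullHom j V (h'.trans (j.preimage_mono hVV')) := by
  rw [pullHom, pullHom, Scheme.Hom.map_appLE_assoc]

lemma pullHom_comp (j : Spec R ⟶ X) (φ : R ⟶ R') (V : X.Opens) (h : ⊤ ≤ j ⁻¹ᵁ V)
    (h' : ⊤ ≤ (Spec.map φ ≫ j) ⁻¹ᵁ V) :
    pullHom (Spec.map φ ≫ j) V h' = pullHom j V h ≫ φ := by
  rw [pullHom, pullHom, Category.assoc, ← Scheme.ΓSpecIso_naturality, ← Category.assoc]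
  congr 1

lemma pullHom_congr {j j' : Spec R ⟶ X} (e : j = j') (V : X.Opens) (h : ⊤ ≤ j ⁻¹ᵁ V) :
    pullHom j V h = pullHom j' V (e ▸ h) := by
  subst e; rfl

/-- Compatibility with a structure morphism. -/
lemma pullHom_str {A : CommRingCat.{u}} (j : Spec R ⟶ X) (c : X ⟶ Spec A) (ψ : A ⟶ R)
    (hc : j ≫ c = Spec.map ψ) (V : X.Opens) (h : ⊤ ≤ j ⁻¹ᵁ V) :
    (Scheme.ΓSpecIso A).inv ≫ c.appTop ≫ X.presheaf.map (homOfLE (le_top : V ≤ ⊤)).op ≫
      pullHom j V h = ψ := by
  rw [pullHom_res, pullHom, ← Category.assoc c.appTop, appLE_top_top,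
    ← Scheme.Hom.comp_appTop, hc, Scheme.ΓSpecIso_naturality, Iso.inv_hom_id_assoc]

lemma top_le_preimage_of_opensRange_eq {Y Z : Scheme.{u}} (j : Z ⟶ Y) [IsOpenImmersion j]
    (V : Y.Opens)
    (hV : j.opensRange = V) : (⊤ : Z.Opens) ≤ j ⁻¹ᵁ V := by
  subst hV
  intro x _
  exact ⟨x, rfl⟩

/-- For an open immersion with range `V`, `pullHom` is an isomorphism. -/
lemma isIso_pullHom (j : Spec R ⟶ X) [IsOpenImmersion j] (V : X.Opens) (hV : j.opensRange = V) :
    IsIso (pullHom j V (top_le_preimage_of_opensRange_eq j V hV)) := by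
  subst hV
  have h1 : j.appLE j.opensRange ⊤ (top_le_preimage_of_opensRange_eq j _ rfl) =
      X.presheaf.map (eqToHom j.image_top_eq_opensRange).op ≫ (j.appIso ⊤).hom := by
    rw [Scheme.Hom.appIso_hom', Scheme.Hom.map_appLE]
  rw [pullHom, h1]
  infer_instance

/-- The ring isomorphism `Γ(X, V) ≃+* R` of a chart `j : Spec R ⟶ X` with range `V`. -/
def secEquiv (j : Spec R ⟶ X) [IsOpenImmersion j] (V : X.Opens) (hV : j.opensRange = V) :
    Γ(X, V) ≃+* R :=
  haveI := isIso_pullHom j V hV
  (asIso (pullHom j V (top_le_preimage_of_opensRange_eq j V hV))).commRingCatIsoToRingEquiv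

lemma secEquiv_apply (j : Spec R ⟶ X) [IsOpenImmersion j] (V : X.Opens) (hV : j.opensRange = V)
    (s : Γ(X, V)) :
    secEquiv j V hV s = (pullHom j V (top_le_preimage_of_opensRange_eq j V hV)).hom s := rfl


lemma secEquiv_symm_apply (j : Spec R ⟶ X) [IsOpenImmersion j] (V : X.Opens)
    (hV : j.opensRange = V) (r : R) :
    (pullHom j V (top_le_preimage_of_opensRange_eq j V hV)).hom ((secEquiv j V hV).symm r) = r :=
  (secEquiv j V hV).apply_symm_apply r

/-- The preimage under `j` of the basic open of a function on `V`. -/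
lemma preimage_basicOpen_eq (j : Spec R ⟶ X) (V : X.Opens) (h : ⊤ ≤ j ⁻¹ᵁ V) (s : Γ(X, V)) :
    j ⁻¹ᵁ X.basicOpen s = PrimeSpectrum.basicOpen ((pullHom j V h).hom s) := by
  have h1 : (Spec R).basicOpen ((j.appLE V ⊤ h).hom s) =
      PrimeSpectrum.basicOpen ((pullHom j V h).hom s) :=
    basicOpen_eq_of_affine' _
  rw [← h1, Scheme.preimage_basicOpen]
  have h2 : (j.appLE V ⊤ h).hom s =
      ((Spec R).presheaf.map (homOfLE h).op).hom ((j.app V).hom s) := rfl
  rw [h2, Scheme.basicOpen_res, top_inf_eq]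

/-- The basic open of the function corresponding to `r` is the image of `D(r)`. -/
lemma basicOpen_secEquiv_symm (j : Spec R ⟶ X) [IsOpenImmersion j] (V : X.Opens)
    (hV : j.opensRange = V) (r : R) :
    X.basicOpen ((secEquiv j V hV).symm r) = j ''ᵁ (PrimeSpectrum.basicOpen r) := by
  have h1 := preimage_basicOpen_eq j V (top_le_preimage_of_opensRange_eq j V hV)
    ((secEquiv j V hV).symm r)
  rw [secEquiv_symm_apply] at h1
  rw [← h1, Scheme.Hom.image_preimage_eq_opensRange_inf, hV]
  exact (inf_eq_right.mpr (X.basicOpen_le _)).symm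

end PullHom

section Pushout

variable {X Y Z : Scheme.{u}} (f : Z ⟶ X) (g : Z ⟶ Y) [IsOpenImmersion f] [IsOpenImmersion g]

instance isOpenImmersion_span_map {i j : WalkingSpan} (h : i ⟶ j) :
    IsOpenImmersion ((span f g).map h) := by
  rcases h with _ | a
  · simp only [WidePushoutShape.hom_id, CategoryTheory.Functor.map_id]; infer_instance
  · rcases a with _ | _
    · exact inferInstanceAs (IsOpenImmersion f)
    · exact inferInstanceAs (IsOpenImmersion g)

instance hasPushout_of_isOpenImmersion : HasPushout f g :=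
  inferInstanceAs (HasColimit (span f g))

instance isOpenImmersion_pushout_inl : IsOpenImmersion (pushout.inl f g) :=
  inferInstanceAs (IsOpenImmersion (colimit.ι (span f g) WalkingSpan.left))

instance isOpenImmersion_pushout_inr : IsOpenImmersion (pushout.inr f g) :=
  inferInstanceAs (IsOpenImmersion (colimit.ι (span f g) WalkingSpan.right))

lemma pushout_jointly_surjective (p : ↥(pushout f g)) :
    (∃ x : X, pushout.inl f g x = p) ∨ (∃ y : Y, pushout.inr f g y = p) := by
  obtain ⟨i, xi, h⟩ := Scheme.IsLocallyDirected.ι_jointly_surjective (span f g) p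
  rcases i with _ | _ | _
  · right
    refine ⟨g xi, ?_⟩
    rw [← h, ← Scheme.Hom.comp_apply]
    have : g ≫ pushout.inr f g = colimit.ι (span f g) WalkingSpan.zero :=
      colimit.w (span f g) WalkingSpan.Hom.snd
    rw [this]
    rfl
  · left; exact ⟨xi, h⟩
  · right; exact ⟨xi, h⟩

lemma pushout_inl_eq_inr_iff {x : X} {y : Y} :
    pushout.inl f g x = pushout.inr f g y ↔ ∃ z : Z, f z = x ∧ g z = y := by
  constructor
  · intro h
    obtain ⟨k, fi, fj, z, h1, h2⟩ :=
      (Scheme.IsLocallyDirected.ι_eq_ι_iff (span f g) (i := WalkingSpan.left)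
        (j := WalkingSpan.right)).mp h
    rcases k with _ | _ | _
    · have e1 : fi = WalkingSpan.Hom.fst := Subsingleton.elim _ _
      have e2 : fj = WalkingSpan.Hom.snd := Subsingleton.elim _ _
      subst e1 e2
      exact ⟨z, h1, h2⟩
    · have fj' : WidePushoutShape.Hom (some WalkingPair.left) (some WalkingPair.right) := fj
      cases fj'
    · have fi' : WidePushoutShape.Hom (some WalkingPair.right) (some WalkingPair.left) := fi
      cases fi'
  · rintro ⟨z, rfl, rfl⟩
    rw [← Scheme.Hom.comp_apply, ← Scheme.Hom.comp_apply, pushout.condition]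

lemma pushout_opensRange_sup :
    (pushout.inl f g).opensRange ⊔ (pushout.inr f g).opensRange = ⊤ := by
  rw [eq_top_iff]
  intro p _
  rcases pushout_jointly_surjective f g p with ⟨x, rfl⟩ | ⟨y, rfl⟩
  · exact Or.inl ⟨x, rfl⟩
  · exact Or.inr ⟨y, rfl⟩

lemma pushout_opensRange_inf :
    (f ≫ pushout.inl f g).opensRange =
      (pushout.inl f g).opensRange ⊓ (pushout.inr f g).opensRange := by
  apply le_antisymm
  · rintro _ ⟨z, rfl⟩
    refine ⟨⟨f z, ?_⟩, ⟨g z, ?_⟩⟩
    · rw [Scheme.Hom.comp_apply]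
    · rw [← Scheme.Hom.comp_apply, pushout.condition]
  · rintro _ ⟨⟨x, rfl⟩, ⟨y, hy⟩⟩
    obtain ⟨z, rfl, rfl⟩ := (pushout_inl_eq_inr_iff f g).mp hy.symm
    exact ⟨z, by rw [Scheme.Hom.comp_apply]⟩

end Pushout

end

end Fermat.Agent.S27.H866

end
-- ===== PACK-END S27/H866/Pushout.lean

-- ===== PACK-BEGIN Lib/RR/H638/LinAlg.lean
section


/-!
# Linear algebra for the Čech formula (helper638)

`finrank_map_mkQ_of_exhaust`: if `V` is exhausted by an increasing chain of finite-dimensional
subspaces `Vₙ` with `dim Vₙ = dim (W ⊓ Vₙ) + g` for `n ≥ n₀`, then the image of `V` in `E ⧸ W`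
has dimension `g`.
-/

set_option autoImplicit false

namespace Fermat.Agent.Lib.RR.H638

variable {K E : Type*} [Field K] [AddCommGroup E] [Module K E]

theorem finrank_map_mkQ_add (W U : Submodule K E) [Module.Finite K U] :
    Module.finrank K ↥(U.map W.mkQ) + Module.finrank K ↥(W ⊓ U) = Module.finrank K U := by
  have h := LinearMap.finrank_range_add_finrank_ker (W.mkQ.comp U.subtype)
  have hr : LinearMap.range (W.mkQ.comp U.subtype) = U.map W.mkQ := by
    rw [LinearMap.range_comp, Submodule.range_subtype]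
  have hk : LinearMap.ker (W.mkQ.comp U.subtype) = Submodule.comap U.subtype (W ⊓ U) := by
    rw [LinearMap.ker_comp, Submodule.ker_mkQ, Submodule.comap_inf, Submodule.comap_subtype_self,
      inf_top_eq]
  rw [hr, hk] at h
  have e := Submodule.comapSubtypeEquivOfLe (inf_le_right : W ⊓ U ≤ U)
  rw [← h, e.finrank_eq]

theorem finrank_map_mkQ_of_exhaust (V W : Submodule K E) (Vn : ℕ → Submodule K E)
    (hmono : Monotone Vn) (hfin : ∀ n, Module.Finite K (Vn n)) (hVn : ∀ n, Vn n ≤ V)
    (hex : ∀ f ∈ V, ∃ n, f ∈ Vn n) (g n0 : ℕ)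
    (hdim : ∀ n, n0 ≤ n → Module.finrank K (Vn n) = Module.finrank K ↥(W ⊓ Vn n) + g) :
    Module.Finite K ↥(V.map W.mkQ) ∧ Module.finrank K ↥(V.map W.mkQ) = g := by
  have hI : ∀ n, n0 ≤ n → Module.finrank K ↥((Vn n).map W.mkQ) = g := by
    intro n hn
    have := hfin n
    have h1 := finrank_map_mkQ_add W (Vn n)
    have h2 := hdim n hn
    omega
  have hfinI : ∀ n, Module.Finite K ↥((Vn n).map W.mkQ) := fun n => by
    have := hfin n
    infer_instance
  have heq : ∀ n, n0 ≤ n → (Vn n0).map W.mkQ = (Vn n).map W.mkQ := by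
    intro n hn
    have := hfinI n
    exact Submodule.eq_of_le_of_finrank_eq (Submodule.map_mono (hmono hn))
      ((hI n0 le_rfl).trans (hI n hn).symm)
  have htop : V.map W.mkQ = (Vn n0).map W.mkQ := by
    apply le_antisymm
    · rintro _ ⟨f, hf, rfl⟩
      obtain ⟨n, hn⟩ := hex f hf
      have hle : Vn n ≤ Vn (max n n0) := hmono (le_max_left _ _)
      rw [heq (max n n0) (le_max_right _ _)]
      exact ⟨f, hle hn, rfl⟩
    · exact Submodule.map_mono (hVn n0)
  rw [htop]
  exact ⟨hfinI n0, hI n0 le_rfl⟩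

end Fermat.Agent.Lib.RR.H638

end
-- ===== PACK-END Lib/RR/H638/LinAlg.lean

-- ===== PACK-BEGIN S15/H386/LeadTerm.lean
section
/-
Row S15, node GEO (helper386): leading terms of Laurent series.

`IsLead x n a` : `x = a q^n + (higher order terms)` (`a = 0` is allowed).  This predicate is
closed under sums, products and weakening of the exponent, so that estimates of the orders of
polynomial expressions need no case distinction on vanishing.  Mathlib-only.
-/


set_option autoImplicit false

noncomputable section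

open HahnSeries

namespace Fermat.Agent.S15.H386

variable {k : Type*} [Field k]

/-- `x = a q^n + (higher order terms)`; `a = 0` is allowed. -/
def IsLead (x : LaurentSeries k) (n : ℤ) (a : k) : Prop :=
  x.coeff n = a ∧ ∀ m < n, x.coeff m = 0

theorem IsLead.coeff_eq {x : LaurentSeries k} {n : ℤ} {a : k} (h : IsLead x n a) :
    x.coeff n = a := h.1

theorem IsLead.coeff_eq_zero {x : LaurentSeries k} {n : ℤ} {a : k} (h : IsLead x n a) {m : ℤ}
    (hm : m < n) : x.coeff m = 0 := h.2 m hm

theorem IsLead.le_orderTop {x : LaurentSeries k} {n : ℤ} {a : k} (h : IsLead x n a) :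
    (n : WithTop ℤ) ≤ x.orderTop :=
  le_orderTop_iff_forall.mpr fun j hj => h.2 j (by exact_mod_cast hj)

theorem isLead_iff_lt_orderTop (x : LaurentSeries k) (n : ℤ) (a : k) :
    IsLead x n a ↔ (n : WithTop ℤ) < (x - single n a).orderTop := by
  constructor
  · intro h
    have h1 : ((n + 1 : ℤ) : WithTop ℤ) ≤ (x - single n a).orderTop := by
      refine le_orderTop_iff_forall.mpr fun j hj => ?_
      have hj' : j < n + 1 := by exact_mod_cast hj
      rw [HahnSeries.coeff_sub, HahnSeries.coeff_single]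
      rcases eq_or_lt_of_le (Int.lt_add_one_iff.mp hj') with rfl | hlt
      · rw [if_pos rfl, h.1, sub_self]
      · rw [if_neg hlt.ne, h.2 j hlt, sub_zero]
    refine lt_of_lt_of_le ?_ h1
    exact_mod_cast Int.lt_add_one_iff.mpr le_rfl
  · intro h
    refine ⟨?_, fun m hm => ?_⟩
    · have := coeff_eq_zero_of_lt_orderTop h
      rw [HahnSeries.coeff_sub, HahnSeries.coeff_single, if_pos rfl] at this
      exact sub_eq_zero.mp this
    · have := coeff_eq_zero_of_lt_orderTop (lt_trans (by exact_mod_cast hm) h)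
      rw [HahnSeries.coeff_sub, HahnSeries.coeff_single, if_neg hm.ne, sub_zero] at this
      exact this

theorem isLead_zero (n : ℤ) : IsLead (0 : LaurentSeries k) n 0 :=
  ⟨rfl, fun _ _ => rfl⟩

theorem isLead_single (n : ℤ) (a : k) : IsLead (single n a : LaurentSeries k) n a :=
  ⟨by rw [HahnSeries.coeff_single, if_pos rfl], fun m hm => by
    rw [HahnSeries.coeff_single, if_neg hm.ne]⟩

theorem isLead_one : IsLead (1 : LaurentSeries k) 0 1 := by
  rw [← HahnSeries.single_zero_one]
  exact isLead_single 0 1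

theorem isLead_intCast (z : ℤ) : IsLead ((z : ℤ) : LaurentSeries k) 0 (z : k) := by
  rw [← HahnSeries.single_zero_intCast]
  exact isLead_single 0 _

theorem IsLead.add {x y : LaurentSeries k} {n : ℤ} {a b : k} (hx : IsLead x n a)
    (hy : IsLead y n b) : IsLead (x + y) n (a + b) :=
  ⟨by rw [HahnSeries.coeff_add, hx.1, hy.1], fun m hm => by
    rw [HahnSeries.coeff_add, hx.2 m hm, hy.2 m hm, add_zero]⟩

theorem IsLead.neg {x : LaurentSeries k} {n : ℤ} {a : k} (hx : IsLead x n a) :
    IsLead (-x) n (-a) :=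
  ⟨by rw [HahnSeries.coeff_neg, hx.1], fun m hm => by
    rw [HahnSeries.coeff_neg, hx.2 m hm, neg_zero]⟩

theorem IsLead.sub {x y : LaurentSeries k} {n : ℤ} {a b : k} (hx : IsLead x n a)
    (hy : IsLead y n b) : IsLead (x - y) n (a - b) := by
  rw [sub_eq_add_neg, sub_eq_add_neg]
  exact hx.add hy.neg

/-- Weakening of the exponent. -/
theorem IsLead.of_lt {x : LaurentSeries k} {n : ℤ} {a : k} (hx : IsLead x n a) {n' : ℤ}
    (h : n' < n) : IsLead x n' 0 :=
  ⟨hx.2 n' h, fun m hm => hx.2 m (lt_trans hm h)⟩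

theorem IsLead.of_le {x : LaurentSeries k} {n : ℤ} {a : k} (hx : IsLead x n a) {n' : ℤ}
    (h : n' ≤ n) : ∃ a', IsLead x n' a' := by
  rcases eq_or_lt_of_le h with rfl | hlt
  · exact ⟨a, hx⟩
  · exact ⟨0, hx.of_lt hlt⟩

theorem IsLead.mul {x y : LaurentSeries k} {n m : ℤ} {a b : k} (hx : IsLead x n a)
    (hy : IsLead y m b) : IsLead (x * y) (n + m) (a * b) := by
  rw [isLead_iff_lt_orderTop]
  have hx' := (isLead_iff_lt_orderTop x n a).mp hx
  have hy' := (isLead_iff_lt_orderTop y m b).mp hy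
  have hsplit : x * y - single (n + m) (a * b) =
      (x - single n a) * y + single n a * (y - single m b) := by
    rw [← HahnSeries.single_mul_single]
    ring
  rw [hsplit]
  refine lt_of_lt_of_le (lt_min ?_ ?_) min_orderTop_le_orderTop_add
  · refine lt_of_lt_of_le ?_ orderTop_add_le_mul
    rw [WithTop.coe_add]
    exact WithTop.add_lt_add_of_lt_of_le (WithTop.coe_ne_top) hx' hy.le_orderTop
  · refine lt_of_lt_of_le ?_ orderTop_add_le_mul
    rw [WithTop.coe_add]
    exact WithTop.add_lt_add_of_le_of_lt (WithTop.coe_ne_top) orderTop_single_le hy'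

theorem IsLead.pow {x : LaurentSeries k} {n : ℤ} {a : k} (hx : IsLead x n a) (i : ℕ) :
    IsLead (x ^ i) (i * n) (a ^ i) := by
  induction i with
  | zero =>
    rw [pow_zero, pow_zero, Nat.cast_zero, zero_mul]
    exact isLead_one
  | succ i ih =>
    rw [pow_succ, pow_succ, Nat.cast_succ, add_mul, one_mul]
    exact ih.mul hx

theorem isLead_sum {ι : Type*} (s : Finset ι) (f : ι → LaurentSeries k) (n : ℤ) (a : ι → k)
    (h : ∀ i ∈ s, IsLead (f i) n (a i)) : IsLead (∑ i ∈ s, f i) n (∑ i ∈ s, a i) := by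
  classical
  induction s using Finset.induction_on with
  | empty => simpa using isLead_zero (k := k) n
  | insert j s hj ih =>
    rw [Finset.sum_insert hj, Finset.sum_insert hj]
    exact (h j (Finset.mem_insert_self j s)).add
      (ih fun i hi => h i (Finset.mem_insert_of_mem hi))

theorem isLead_multiset_prod {ι : Type*} (s : Multiset ι) (f : ι → LaurentSeries k) (n : ι → ℤ)
    (a : ι → k) (h : ∀ i ∈ s, IsLead (f i) (n i) (a i)) :
    IsLead (s.map f).prod (s.map n).sum (s.map a).prod := by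
  induction s using Multiset.induction_on with
  | empty => simpa using isLead_one (k := k)
  | cons j s ih =>
    rw [Multiset.map_cons, Multiset.prod_cons, Multiset.map_cons, Multiset.sum_cons,
      Multiset.map_cons, Multiset.prod_cons]
    exact (h j (Multiset.mem_cons_self j s)).mul
      (ih fun i hi => h i (Multiset.mem_cons_of_mem hi))

/-- Uniqueness of the leading term. -/
theorem IsLead.unique {x : LaurentSeries k} {n n' : ℤ} {a a' : k} (h : IsLead x n a)
    (h' : IsLead x n' a') (ha : a ≠ 0) (ha' : a' ≠ 0) : n = n' ∧ a = a' := by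
  have hn : n = n' := by
    rcases lt_trichotomy n n' with hlt | heq | hgt
    · exact absurd (h.1.symm.trans (h'.2 n hlt)) ha
    · exact heq
    · exact absurd (h'.1.symm.trans (h.2 n' hgt)) ha'
  subst hn
  exact ⟨rfl, h.1.symm.trans h'.1⟩

/-- A series with a nonzero leading term at `n` has no leading term at a bigger exponent. -/
theorem IsLead.le_of_ne_zero {x : LaurentSeries k} {n n' : ℤ} {a a' : k} (h : IsLead x n a)
    (ha : a ≠ 0) (h' : IsLead x n' a') : n' ≤ n := by
  by_contra hlt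
  exact ha (h.1.symm.trans (h'.2 n (not_le.mp hlt)))

end Fermat.Agent.S15.H386

end
end
-- ===== PACK-END S15/H386/LeadTerm.lean

-- ===== PACK-BEGIN S30/H330/AdicAlg.lean
section
/-
S30 -- ADIC MODULE LAYER, piece 1 (pure algebra).  helper330.

For a complete discrete valuation ring `O` (char 0, residue characteristic `p`, finite residue
field), `L = Frac O`, and an abelian group `J` with finite `p`-torsion, the group
`Hom_ℤ(L/O, J)` with `O` acting through the source is a finite free `O`-module.  Its simultaneous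
eigen-submodule `M` for a family of endomorphisms of `J` inherits a Galois action which is
adically continuous, and relations valid on `J[p^∞]` pass to `M`.
-/



set_option autoImplicit false

noncomputable section

namespace Fermat.Agent.S30.H330

/-! ### `Hom_ℤ(Frac O, J)` as an `O`-module through the source -/

section SrcHom

variable (O : Type) [CommRing O] (J : Type) [AddCommGroup J]

/-- `Hom_ℤ(Frac O, J)`, with `O` acting by multiplication on the source. -/
def SrcHom : Type := FractionRing O →+ J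

namespace SrcHom

variable {O J}

/-- The underlying additive map. -/
def hom (g : SrcHom O J) : FractionRing O →+ J := g

/-- Constructor. -/
def of (g : FractionRing O →+ J) : SrcHom O J := g

@[simp] theorem hom_of (g : FractionRing O →+ J) : (of g : SrcHom O J).hom = g := rfl

@[ext] theorem ext {g h : SrcHom O J} (H : ∀ x, g.hom x = h.hom x) : g = h :=
  AddMonoidHom.ext H

instance : AddCommGroup (SrcHom O J) := inferInstanceAs (AddCommGroup (FractionRing O →+ J))

@[simp] theorem hom_add (g h : SrcHom O J) (x : FractionRing O) :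
    (g + h).hom x = g.hom x + h.hom x := rfl

@[simp] theorem hom_zero (x : FractionRing O) : (0 : SrcHom O J).hom x = 0 := rfl

@[simp] theorem hom_neg (g : SrcHom O J) (x : FractionRing O) : (-g).hom x = -g.hom x := rfl

@[simp] theorem hom_sub (g h : SrcHom O J) (x : FractionRing O) :
    (g - h).hom x = g.hom x - h.hom x := rfl

instance : SMul O (SrcHom O J) :=
  ⟨fun a g => of (g.hom.comp (AddMonoidHom.mulLeft (algebraMap O (FractionRing O) a)))⟩

@[simp] theorem hom_smul (a : O) (g : SrcHom O J) (x : FractionRing O) :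
    (a • g).hom x = g.hom (algebraMap O (FractionRing O) a * x) := rfl

instance : Module O (SrcHom O J) where
  one_smul g := by ext x; simp
  mul_smul a b g := by
    ext x
    simp only [hom_smul, map_mul]
    congr 1
    ring
  smul_zero a := by ext x; simp
  smul_add a g h := by ext x; simp
  add_smul a b g := by ext x; simp [add_mul]
  zero_smul g := by ext x; simp

end SrcHom

end SrcHom

/-! ### Precompleteness of finite powers -/

open Submodule in
/-- Finite powers of a precomplete ring are precomplete. -/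
theorem isPrecomplete_pi {R : Type*} [CommRing R] (I : Ideal R) [IsPrecomplete I R]
    (k : ℕ) : IsPrecomplete I (Fin k → R) := by
  refine ⟨fun f hf => ?_⟩
  have hcomp : ∀ (n : ℕ) (g : Fin k → R), g ∈ (I ^ n • ⊤ : Submodule R (Fin k → R)) →
      ∀ i, g i ∈ (I ^ n • ⊤ : Submodule R R) := by
    intro n g hg i
    refine Submodule.smul_induction_on hg (fun r hr m _ => ?_) (fun x y hx hy => ?_)
    · exact Submodule.smul_mem_smul hr trivial
    · exact Submodule.add_mem _ hx hy
  have hC : ∀ i, ∃ L : R, ∀ n, f n i ≡ L [SMOD (I ^ n • ⊤ : Submodule R R)] := by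
    intro i
    refine IsPrecomplete.prec ‹_› (f := fun n => f n i) ?_
    intro m n hmn
    have := hf hmn
    rw [SModEq.sub_mem] at this ⊢
    exact hcomp m _ this i
  choose L hL using hC
  refine ⟨L, fun n => ?_⟩
  rw [SModEq.sub_mem]
  have hsum : f n - L = ∑ i, (f n i - L i) • (Pi.single i (1 : R) : Fin k → R) := by
    funext j
    simp [Finset.sum_apply, Pi.single_apply]
  rw [hsum]
  refine Submodule.sum_mem _ fun i _ => ?_
  have hi := hL i n
  rw [SModEq.sub_mem] at hi
  have hi' : f n i - L i ∈ I ^ n := by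
    simpa using hi
  exact Submodule.smul_mem_smul hi' trivial

/-! ### The eigen-submodule -/

section Main

variable {O : Type} [CommRing O]
variable {J : Type} [AddCommGroup J]
variable {ι : Type} (t : ι → J →+ J) (a : ι → O)

/-- The simultaneous eigen-submodule of `Hom_ℤ(L/O, J)`. -/
def eigenSub : Submodule O (SrcHom O J) where
  carrier := {g | (∀ r : O, g.hom (algebraMap O (FractionRing O) r) = 0) ∧
    ∀ i x, t i (g.hom x) = g.hom (algebraMap O (FractionRing O) (a i) * x)}
  add_mem' := by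
    rintro g h ⟨g0, ge⟩ ⟨h0, he⟩
    refine ⟨fun r => by simp [g0, h0], fun i x => ?_⟩
    simp only [SrcHom.hom_add, map_add, ge, he]
  zero_mem' := ⟨fun r => rfl, fun i x => by simp⟩
  smul_mem' := by
    rintro c g ⟨g0, ge⟩
    refine ⟨fun r => ?_, fun i x => ?_⟩
    · rw [SrcHom.hom_smul, ← map_mul]; exact g0 _
    · rw [SrcHom.hom_smul, SrcHom.hom_smul, ge]
      congr 1
      ring

theorem mem_eigenSub {g : SrcHom O J} : g ∈ eigenSub t a ↔
    (∀ r : O, g.hom (algebraMap O (FractionRing O) r) = 0) ∧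
    ∀ i x, t i (g.hom x) = g.hom (algebraMap O (FractionRing O) (a i) * x) := Iff.rfl

variable {t a}
variable [IsDomain O] [IsDiscreteValuationRing O]

/-- Every element of `L` is `y / ϖ ^ n`. -/
theorem exists_eq_div_pow {ϖ : O} (hϖ : Irreducible ϖ) (x : FractionRing O) :
    ∃ (n : ℕ) (y : O), x = algebraMap O (FractionRing O) y /
      algebraMap O (FractionRing O) ϖ ^ n := by
  obtain ⟨c, d, hd, rfl⟩ := IsFractionRing.div_surjective O x
  have hd0 : d ≠ 0 := nonZeroDivisors.ne_zero hd
  obtain ⟨n, u, hu⟩ := IsDiscreteValuationRing.associated_pow_irreducible hd0 hϖ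
  refine ⟨n, c * u, ?_⟩
  have hϖ0 : algebraMap O (FractionRing O) ϖ ≠ 0 := by
    simpa using hϖ.ne_zero
  have hd0' : algebraMap O (FractionRing O) d ≠ 0 := by
    simpa using hd0
  rw [div_eq_div_iff hd0' (pow_ne_zero _ hϖ0), ← map_pow, ← hu]
  simp only [map_mul]
  ring

/-- Division lemma: an element of the eigen-submodule killing `ϖ⁻ⁿ O` is divisible by `ϖ ^ n`. -/
theorem exists_eq_pow_smul {ϖ : O} (hϖ : Irreducible ϖ) (n : ℕ) {g : SrcHom O J}
    (hg : g ∈ eigenSub t a)
    (hkill : ∀ y : O, g.hom (algebraMap O (FractionRing O) y /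
      algebraMap O (FractionRing O) ϖ ^ n) = 0) :
    ∃ g' ∈ eigenSub t a, g = ϖ ^ n • g' := by
  have hϖ0 : algebraMap O (FractionRing O) ϖ ≠ 0 := by
    simpa using hϖ.ne_zero
  have hpow : algebraMap O (FractionRing O) ϖ ^ n ≠ 0 := pow_ne_zero _ hϖ0
  refine ⟨SrcHom.of (g.hom.comp (AddMonoidHom.mulLeft ((algebraMap O (FractionRing O) ϖ ^ n)⁻¹))),
    ⟨fun r => ?_, fun i x => ?_⟩, ?_⟩
  · show g.hom ((algebraMap O (FractionRing O) ϖ ^ n)⁻¹ * algebraMap O (FractionRing O) r) = 0
    rw [mul_comm, ← div_eq_mul_inv]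
    exact hkill r
  · show t i (g.hom ((algebraMap O (FractionRing O) ϖ ^ n)⁻¹ * x)) =
      g.hom ((algebraMap O (FractionRing O) ϖ ^ n)⁻¹ * (algebraMap O (FractionRing O) (a i) * x))
    rw [hg.2]
    congr 1
    ring
  · ext x
    show g.hom x = g.hom ((algebraMap O (FractionRing O) ϖ ^ n)⁻¹ *
      (algebraMap O (FractionRing O) (ϖ ^ n) * x))
    congr 1
    rw [map_pow]
    field_simp

end Main

/-! ### Separatedness and torsion-freeness -/

section Finite

variable {O : Type} [CommRing O] [IsDomain O] [IsDiscreteValuationRing O]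
variable {J : Type} [AddCommGroup J]
variable {ι : Type} {t : ι → J →+ J} {a : ι → O}

omit [IsDomain O] [IsDiscreteValuationRing O] in
theorem algebraMap_irreducible_ne_zero {ϖ : O} (hϖ : Irreducible ϖ) :
    algebraMap O (FractionRing O) ϖ ≠ 0 := by
  simpa using hϖ.ne_zero

/-- Elements of `𝔪ⁿ M` kill `ϖ⁻ⁿ O`. -/
theorem kill_of_mem_pow_smul_top {ϖ : O} (hϖ : Irreducible ϖ) (n : ℕ)
    {x : eigenSub t a}
    (hx : x ∈ (IsLocalRing.maximalIdeal O ^ n • ⊤ : Submodule O (eigenSub t a))) (y : O) :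
    x.1.hom (algebraMap O (FractionRing O) y / algebraMap O (FractionRing O) ϖ ^ n) = 0 := by
  have hϖ0 := algebraMap_irreducible_ne_zero hϖ
  revert y
  refine Submodule.smul_induction_on hx (fun r hr m _ y => ?_) (fun u v hu hv y => ?_)
  · rw [hϖ.maximalIdeal_eq, Ideal.span_singleton_pow, Ideal.mem_span_singleton'] at hr
    obtain ⟨b, rfl⟩ := hr
    show (m.1).hom (algebraMap O (FractionRing O) (b * ϖ ^ n) *
      (algebraMap O (FractionRing O) y / algebraMap O (FractionRing O) ϖ ^ n)) = 0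
    have : algebraMap O (FractionRing O) (b * ϖ ^ n) *
        (algebraMap O (FractionRing O) y / algebraMap O (FractionRing O) ϖ ^ n) =
        algebraMap O (FractionRing O) (b * y) := by
      simp only [map_mul, map_pow]
      field_simp
    rw [this]
    exact m.2.1 _
  · show (u.1 + v.1).hom _ = 0
    rw [SrcHom.hom_add, hu y, hv y, add_zero]

/-- Conversely, elements killing `ϖ⁻ⁿ O` lie in `𝔪ⁿ M`. -/
theorem mem_pow_smul_top_of_kill {ϖ : O} (hϖ : Irreducible ϖ) (n : ℕ)
    {x : eigenSub t a}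
    (hx : ∀ y : O, x.1.hom (algebraMap O (FractionRing O) y /
      algebraMap O (FractionRing O) ϖ ^ n) = 0) :
    x ∈ (IsLocalRing.maximalIdeal O ^ n • ⊤ : Submodule O (eigenSub t a)) := by
  obtain ⟨g', hg', hgg'⟩ := exists_eq_pow_smul hϖ n x.2 hx
  have hxe : x = ϖ ^ n • (⟨g', hg'⟩ : eigenSub t a) := Subtype.ext hgg'
  rw [hxe]
  refine Submodule.smul_mem_smul ?_ trivial
  exact Ideal.pow_mem_pow (hϖ.maximalIdeal_eq ▸ Ideal.mem_span_singleton_self ϖ) n

/-- The eigen-submodule is `𝔪`-adically separated. -/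
theorem isHausdorff_eigenSub : IsHausdorff (IsLocalRing.maximalIdeal O) (eigenSub t a) := by
  obtain ⟨ϖ, hϖ⟩ := IsDiscreteValuationRing.exists_irreducible O
  refine ⟨fun x hx => ?_⟩
  apply Subtype.ext
  apply SrcHom.ext
  intro z
  obtain ⟨n, y, rfl⟩ := exists_eq_div_pow hϖ z
  have h := hx n
  rw [SModEq.zero] at h
  exact kill_of_mem_pow_smul_top hϖ n h y

/-- The eigen-submodule is torsion-free. -/
theorem isTorsionFree_eigenSub : Module.IsTorsionFree O (eigenSub t a) := by
  refine ⟨fun r hr x y hxy => ?_⟩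
  have hr0 : r ≠ 0 := hr.ne_zero
  have hr0' : algebraMap O (FractionRing O) r ≠ 0 := by simpa using hr0
  apply Subtype.ext
  apply SrcHom.ext
  intro z
  have h := congrArg (fun w : eigenSub t a => w.1.hom ((algebraMap O (FractionRing O) r)⁻¹ * z)) hxy
  simp only [Submodule.coe_smul, SrcHom.hom_smul] at h
  rwa [mul_inv_cancel_left₀ hr0'] at h

end Finite

/-! ### Finiteness of `M / 𝔪 M` -/

section Finiteness

variable {O : Type} [CommRing O] [IsDomain O] [IsDiscreteValuationRing O]
variable {J : Type} [AddCommGroup J]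
variable {ι : Type} {t : ι → J →+ J} {a : ι → O}

/-- Values on `ϖ⁻ⁿ O` are killed by `pⁿ`. -/
theorem pow_smul_hom_div_eq_zero {p : ℕ} (hpO : (p : O) ∈ IsLocalRing.maximalIdeal O)
    {ϖ : O} (hϖ : Irreducible ϖ) (n : ℕ) {g : SrcHom O J} (hg : g ∈ eigenSub t a) (y : O) :
    p ^ n • g.hom (algebraMap O (FractionRing O) y / algebraMap O (FractionRing O) ϖ ^ n) = 0 := by
  have hϖ0 := algebraMap_irreducible_ne_zero hϖ
  rw [hϖ.maximalIdeal_eq, Ideal.mem_span_singleton'] at hpO
  obtain ⟨b, hb⟩ := hpO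
  rw [← map_nsmul]
  have : p ^ n • (algebraMap O (FractionRing O) y / algebraMap O (FractionRing O) ϖ ^ n) =
      algebraMap O (FractionRing O) (b ^ n * y) := by
    rw [nsmul_eq_mul]
    have hp : ((p ^ n : ℕ) : FractionRing O) = algebraMap O (FractionRing O) ((b * ϖ) ^ n) := by
      rw [hb]; simp
    rw [hp]
    simp only [map_mul, map_pow]
    field_simp
    ring
  rw [this]
  exact hg.1 _

/-- Every value of an element of the eigen-submodule is `p`-power torsion. -/
theorem exists_pow_smul_hom_eq_zero {p : ℕ} (hpO : (p : O) ∈ IsLocalRing.maximalIdeal O)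
    {g : SrcHom O J} (hg : g ∈ eigenSub t a) (z : FractionRing O) :
    ∃ n : ℕ, p ^ n • g.hom z = 0 := by
  obtain ⟨ϖ, hϖ⟩ := IsDiscreteValuationRing.exists_irreducible O
  obtain ⟨n, y, rfl⟩ := exists_eq_div_pow hϖ z
  exact ⟨n, pow_smul_hom_div_eq_zero hpO hϖ n hg y⟩

variable [Finite (IsLocalRing.ResidueField O)]

/-- `M / 𝔪 M` is finite when `J[p]` is. -/
theorem finite_quotient_eigenSub {p : ℕ} (hpO : (p : O) ∈ IsLocalRing.maximalIdeal O)
    (hfin : {x : J | p • x = 0}.Finite) :
    Finite ((eigenSub t a) ⧸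
      (IsLocalRing.maximalIdeal O • ⊤ : Submodule O (eigenSub t a))) := by
  classical
  obtain ⟨ϖ, hϖ⟩ := IsDiscreteValuationRing.exists_irreducible O
  have hϖ0 := algebraMap_irreducible_ne_zero hϖ
  have : Finite {x : J | p • x = 0} := hfin.to_subtype
  -- a section of the residue map
  let sec : IsLocalRing.ResidueField O → O := Function.surjInv IsLocalRing.residue_surjective
  have hsec : ∀ x, IsLocalRing.residue O (sec x) = x :=
    Function.surjInv_eq IsLocalRing.residue_surjective
  -- the restriction map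
  let res : eigenSub t a → (IsLocalRing.ResidueField O → {x : J | p • x = 0}) := fun g x =>
    ⟨g.1.hom (algebraMap O (FractionRing O) (sec x) / algebraMap O (FractionRing O) ϖ ^ 1), by
      have := pow_smul_hom_div_eq_zero hpO hϖ 1 g.2 (sec x)
      simpa using this⟩
  have hres : ∀ g h : eigenSub t a, res g = res h →
      (Submodule.Quotient.mk g : (eigenSub t a) ⧸
        (IsLocalRing.maximalIdeal O • ⊤ : Submodule O (eigenSub t a))) =
        Submodule.Quotient.mk h := by
    intro g h hgh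
    rw [Submodule.Quotient.eq]
    have hpow : (IsLocalRing.maximalIdeal O • ⊤ : Submodule O (eigenSub t a)) =
        (IsLocalRing.maximalIdeal O ^ 1 • ⊤ : Submodule O (eigenSub t a)) := by
      rw [pow_one]
    rw [hpow]
    apply mem_pow_smul_top_of_kill hϖ 1
    intro y
    -- y = sec (residue y) + ϖ z
    have hy : y - sec (IsLocalRing.residue O y) ∈ IsLocalRing.maximalIdeal O := by
      rw [← Ideal.Quotient.eq_zero_iff_mem]
      change IsLocalRing.residue O (y - sec (IsLocalRing.residue O y)) = 0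
      rw [map_sub, hsec, sub_self]
    rw [hϖ.maximalIdeal_eq, Ideal.mem_span_singleton'] at hy
    obtain ⟨z, hz⟩ := hy
    have hyz : algebraMap O (FractionRing O) y / algebraMap O (FractionRing O) ϖ ^ 1 =
        algebraMap O (FractionRing O) (sec (IsLocalRing.residue O y)) /
          algebraMap O (FractionRing O) ϖ ^ 1 + algebraMap O (FractionRing O) z := by
      have : y = sec (IsLocalRing.residue O y) + z * ϖ := by rw [hz]; ring
      conv_lhs => rw [this]
      simp only [map_add, map_mul, pow_one]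
      field_simp
    have hval := congrArg (fun F => (F (IsLocalRing.residue O y) : J)) hgh
    simp only [res] at hval
    show ((g : SrcHom O J) - (h : SrcHom O J)).hom _ = 0
    rw [SrcHom.hom_sub, hyz, map_add, map_add, g.2.1, h.2.1, hval]
    simp
  let F : Set.range res → (eigenSub t a) ⧸
      (IsLocalRing.maximalIdeal O • ⊤ : Submodule O (eigenSub t a)) :=
    fun v => Submodule.Quotient.mk (Classical.choose v.2)
  refine Finite.of_surjective F ?_
  intro q
  obtain ⟨g, rfl⟩ := Submodule.Quotient.mk_surjective _ q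
  refine ⟨⟨res g, g, rfl⟩, ?_⟩
  exact hres _ _ (Classical.choose_spec (⟨g, rfl⟩ : res g ∈ Set.range res))

end Finiteness

/-! ### Finite generation and freeness -/

section FiniteFree

variable {O : Type} [CommRing O] [IsDomain O] [IsDiscreteValuationRing O]
  [IsAdicComplete (IsLocalRing.maximalIdeal O) O] [Finite (IsLocalRing.ResidueField O)]
variable {J : Type} [AddCommGroup J]
variable {ι : Type} {t : ι → J →+ J} {a : ι → O}

/-- The eigen-submodule is a finitely generated `O`-module. -/
theorem finite_eigenSub {p : ℕ} (hpO : (p : O) ∈ IsLocalRing.maximalIdeal O)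
    (hfin : {x : J | p • x = 0}.Finite) : Module.Finite O (eigenSub t a) := by
  classical
  have hq := finite_quotient_eigenSub (t := t) (a := a) hpO hfin
  obtain ⟨k, ⟨e⟩⟩ := Finite.exists_equiv_fin ((eigenSub t a) ⧸
      (IsLocalRing.maximalIdeal O • ⊤ : Submodule O (eigenSub t a)))
  let s : Fin k → eigenSub t a := fun i => Quotient.out (e.symm i)
  have hs : ∀ i, (Submodule.Quotient.mk (s i) : (eigenSub t a) ⧸
      (IsLocalRing.maximalIdeal O • ⊤ : Submodule O (eigenSub t a))) = e.symm i := fun i =>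
    Quotient.out_eq (e.symm i)
  let φ : (Fin k → O) →ₗ[O] eigenSub t a := Fintype.linearCombination O s
  have hsurj : Function.Surjective
      ((IsLocalRing.maximalIdeal O • ⊤ : Submodule O (eigenSub t a)).mkQ ∘ₗ φ) := by
    intro q
    refine ⟨Pi.single (e q) 1, ?_⟩
    simp only [LinearMap.coe_comp, Function.comp_apply, Submodule.mkQ_apply, φ]
    rw [Fintype.linearCombination_apply_single, one_smul, hs, Equiv.symm_apply_apply]
  have h1 : IsPrecomplete (IsLocalRing.maximalIdeal O) (Fin k → O) :=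
    isPrecomplete_pi (IsLocalRing.maximalIdeal O) k
  have h2 : IsHausdorff (IsLocalRing.maximalIdeal O) (eigenSub t a) := isHausdorff_eigenSub
  have := surjective_of_mkQ_comp_surjective (I := IsLocalRing.maximalIdeal O) hsurj
  exact Module.Finite.of_surjective φ this

/-- The eigen-submodule is free. -/
theorem free_eigenSub {p : ℕ} (hpO : (p : O) ∈ IsLocalRing.maximalIdeal O)
    (hfin : {x : J | p • x = 0}.Finite) : Module.Free O (eigenSub t a) := by
  have h1 : Module.Finite O (eigenSub t a) := finite_eigenSub hpO hfin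
  have h2 : Module.IsTorsionFree O (eigenSub t a) := isTorsionFree_eigenSub
  exact Module.free_of_finite_type_torsion_free'

end FiniteFree

/-- Finiteness of `J[pⁿ]` from finiteness of `J[p]`. -/
theorem finite_pow_torsion {J : Type} [AddCommGroup J] {p : ℕ}
    (hfin : {x : J | p • x = 0}.Finite) (n : ℕ) : {x : J | p ^ n • x = 0}.Finite := by
  induction n with
  | zero =>
    refine (Set.finite_singleton (0 : J)).subset ?_
    intro x hx
    simpa using hx
  | succ n ih =>
    have hsub : {x : J | p ^ (n + 1) • x = 0} ⊆ (fun x : J => p • x) ⁻¹' {x : J | p ^ n • x = 0} := by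
      intro x hx
      simp only [Set.mem_preimage, Set.mem_ofPred_eq] at hx ⊢
      rw [← mul_smul, ← pow_succ]
      exact hx
    refine (Set.Finite.preimage' ih fun b _ => ?_).subset hsub
    by_cases hb : ∃ x₀ : J, p • x₀ = b
    · obtain ⟨x₀, hx₀⟩ := hb
      refine (hfin.image (fun z => x₀ + z)).subset ?_
      intro x hx
      simp only [Set.mem_preimage, Set.mem_singleton_iff] at hx
      refine ⟨x - x₀, ?_, by simp⟩
      simp only [Set.mem_ofPred_eq, smul_sub, hx, hx₀, sub_self]
    · refine Set.Finite.subset Set.finite_empty ?_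
      intro x hx
      exact (hb ⟨x, hx⟩).elim

/-! ### The Galois action and the main theorem -/

section Galois

variable {O : Type} [CommRing O]
variable {J : Type} [AddCommGroup J]
variable {G : Type} [Monoid G] [DistribMulAction G J]
variable {ι : Type} {t : ι → J →+ J} {a : ι → O}

/-- The action of `G` on `Hom_ℤ(L, J)` through the target. -/
def galSrc (σ : G) (g : SrcHom O J) : SrcHom O J :=
  SrcHom.of ((DistribSMul.toAddMonoidHom J σ).comp g.hom)

@[simp] theorem galSrc_hom (σ : G) (g : SrcHom O J) (x : FractionRing O) :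
    (galSrc σ g).hom x = σ • g.hom x := rfl

theorem galSrc_mem (ht : ∀ i (σ : G) (x : J), σ • t i x = t i (σ • x)) (σ : G)
    {g : SrcHom O J} (hg : g ∈ eigenSub t a) : galSrc σ g ∈ eigenSub t a := by
  refine ⟨fun r => ?_, fun i x => ?_⟩
  · rw [galSrc_hom, hg.1, smul_zero]
  · rw [galSrc_hom, galSrc_hom, ← ht, hg.2]

/-- The action of `G` on the eigen-submodule, as `O`-linear endomorphisms. -/
def galEnd (ht : ∀ i (σ : G) (x : J), σ • t i x = t i (σ • x)) (σ : G) :
    Module.End O (eigenSub t a) where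
  toFun g := ⟨galSrc σ g.1, galSrc_mem ht σ g.2⟩
  map_add' g h := by
    apply Subtype.ext
    apply SrcHom.ext
    intro x
    simp [smul_add]
  map_smul' c g := by
    apply Subtype.ext
    apply SrcHom.ext
    intro x
    simp

@[simp] theorem galEnd_hom (ht : ∀ i (σ : G) (x : J), σ • t i x = t i (σ • x)) (σ : G)
    (g : eigenSub t a) (x : FractionRing O) :
    ((galEnd ht σ g : eigenSub t a) : SrcHom O J).hom x = σ • (g : SrcHom O J).hom x := rfl

/-- The representation of `G` on the eigen-submodule. -/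
def galRep (ht : ∀ i (σ : G) (x : J), σ • t i x = t i (σ • x)) :
    G →* Module.End O (eigenSub t a) where
  toFun := galEnd ht
  map_one' := by
    apply LinearMap.ext
    intro g
    apply Subtype.ext
    apply SrcHom.ext
    intro x
    simp
  map_mul' σ τ := by
    apply LinearMap.ext
    intro g
    apply Subtype.ext
    apply SrcHom.ext
    intro x
    simp [mul_smul]

@[simp] theorem galRep_hom (ht : ∀ i (σ : G) (x : J), σ • t i x = t i (σ • x)) (σ : G)
    (g : eigenSub t a) (x : FractionRing O) :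
    ((galRep ht σ g : eigenSub t a) : SrcHom O J).hom x = σ • (g : SrcHom O J).hom x := rfl

end Galois

/-- PIECE 1 of the adic module layer (pure algebra). -/
theorem adicModule_of_torsion
    {p : ℕ} (_hp : p.Prime)
    {O : Type} [CommRing O] [IsDomain O] [IsDiscreteValuationRing O]
    [IsAdicComplete (IsLocalRing.maximalIdeal O) O] [Finite (IsLocalRing.ResidueField O)]
    [CharZero O] (hpO : (p : O) ∈ IsLocalRing.maximalIdeal O)
    {J : Type} [AddCommGroup J]
    [DistribMulAction (AlgebraicClosure ℚ ≃ₐ[ℚ] AlgebraicClosure ℚ) J]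
    (hsm : ∀ x : J, ∃ L : IntermediateField ℚ (AlgebraicClosure ℚ), FiniteDimensional ℚ L ∧
      ∀ σ : AlgebraicClosure ℚ ≃ₐ[ℚ] AlgebraicClosure ℚ, (∀ y ∈ L, σ y = y) → σ • x = x)
    (hfin : {x : J | p • x = 0}.Finite)
    {ι : Type} (t : ι → J →+ J)
    (ht : ∀ i (σ : AlgebraicClosure ℚ ≃ₐ[ℚ] AlgebraicClosure ℚ) (x : J), σ • t i x = t i (σ • x))
    (a : ι → O)
    (f : FractionRing O →+ J) (hf0 : ∀ r : O, f (algebraMap O (FractionRing O) r) = 0)
    (hf : f ≠ 0)
    (hfe : ∀ i x, t i (f x) = f (algebraMap O (FractionRing O) (a i) * x)) :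
    ∃ (M : Type) (_ : AddCommGroup M) (_ : Module O M) (_ : Module.Free O M)
      (_ : Module.Finite O M)
      (ρ : (AlgebraicClosure ℚ ≃ₐ[ℚ] AlgebraicClosure ℚ) →* Module.End O M),
      Nontrivial M ∧ GaloisActionIsAdicContinuous O ρ ∧
      (∀ σ : AlgebraicClosure ℚ ≃ₐ[ℚ] AlgebraicClosure ℚ,
        (∀ x : J, (∃ n : ℕ, p ^ n • x = 0) → σ • x = x) → ρ σ = 1) ∧
      (∀ (i : ι) (n : ℕ) (σ : AlgebraicClosure ℚ ≃ₐ[ℚ] AlgebraicClosure ℚ),
        (∀ x : J, (∃ k : ℕ, p ^ k • x = 0) → σ • σ • x - t i (σ • x) + n • x = 0) →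
        ρ σ * ρ σ - a i • ρ σ + (n : O) • (1 : Module.End O M) = 0) := by
  classical
  obtain ⟨ϖ, hϖ⟩ := IsDiscreteValuationRing.exists_irreducible O
  refine ⟨eigenSub t a, inferInstance, inferInstance, free_eigenSub hpO hfin,
    finite_eigenSub hpO hfin, galRep ht, ?_, ?_, ?_, ?_⟩
  · -- nontrivial
    have hfm : SrcHom.of f ∈ eigenSub t a := ⟨hf0, hfe⟩
    refine ⟨⟨⟨SrcHom.of f, hfm⟩, 0, ?_⟩⟩
    intro h
    apply hf
    have := congrArg (fun w : eigenSub t a => (w : SrcHom O J)) h
    exact this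
  · -- adic continuity
    intro n
    have hfinn := finite_pow_torsion hfin n
    choose Lx hLx using hsm
    have hfd : ∀ x, FiniteDimensional ℚ (Lx x) := fun x => (hLx x).1
    refine ⟨⨆ x ∈ hfinn.toFinset, Lx x,
      IntermediateField.finiteDimensional_iSup_of_finset, ?_⟩
    intro σ hσ v
    have hfix : ∀ x : J, p ^ n • x = 0 → σ • x = x := by
      intro x hx
      refine (hLx x).2 σ fun y hy => hσ y ?_
      have hle : Lx x ≤ ⨆ x ∈ hfinn.toFinset, Lx x := by
        refine le_iSup₂_of_le x ?_ le_rfl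
        simpa using hx
      exact hle hy
    have hmem : galRep ht σ v - v ∈
        (IsLocalRing.maximalIdeal O ^ n • ⊤ : Submodule O (eigenSub t a)) := by
      apply mem_pow_smul_top_of_kill hϖ n
      intro y
      show ((galRep ht σ v : eigenSub t a) : SrcHom O J).hom _ - (v : SrcHom O J).hom _ = 0
      rw [galRep_hom, hfix _ (pow_smul_hom_div_eq_zero hpO hϖ n v.2 y), sub_self]
    exact hmem
  · -- unramified
    intro σ hσ
    apply LinearMap.ext
    intro g
    apply Subtype.ext
    apply SrcHom.ext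
    intro x
    rw [galRep_hom]
    exact hσ _ (exists_pow_smul_hom_eq_zero hpO g.2 x)
  · -- quadratic relation
    intro i n σ hσ
    apply LinearMap.ext
    intro g
    simp only [LinearMap.add_apply, LinearMap.sub_apply, LinearMap.smul_apply,
      Module.End.mul_apply, Module.End.one_apply, LinearMap.zero_apply]
    apply Subtype.ext
    apply SrcHom.ext
    intro x
    have h := hσ _ (exists_pow_smul_hom_eq_zero hpO g.2 x)
    show σ • σ • (g : SrcHom O J).hom x -
          σ • (g : SrcHom O J).hom (algebraMap O (FractionRing O) (a i) * x) +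
          (g : SrcHom O J).hom (algebraMap O (FractionRing O) (n : O) * x) = 0
    rw [← g.2.2, ht]
    have e2 : (g : SrcHom O J).hom (algebraMap O (FractionRing O) (n : O) * x) =
        n • (g : SrcHom O J).hom x := by
      rw [map_natCast, ← nsmul_eq_mul, map_nsmul]
    rw [e2]
    exact h

end Fermat.Agent.S30.H330

end
end
-- ===== PACK-END S30/H330/AdicAlg.lean

-- ===== PACK-BEGIN S22/H262/Glue.lean
section


set_option autoImplicit false

/-!
# S22 glue: a finitely generated, Hecke-stable, separating lattice of functionals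
forces the Hecke algebra to be a finite `ℤ`-module.
-/

namespace Fermat.Agent.S22.H262

open CuspForm

section Abstract

variable {V : Type*} [AddCommGroup V] [Module ℂ V]

/-- The `ℤ`-subalgebra of endomorphisms `t` such that `l ∘ t ∈ Λ` for all `l ∈ Λ`. -/
def stabAlg (Λ : Submodule ℤ (Module.Dual ℂ V)) : Subalgebra ℤ (Module.End ℂ V) where
  carrier := {t | ∀ l ∈ Λ, l ∘ₗ t ∈ Λ}
  mul_mem' := by
    intro a b ha hb l hl
    have : l ∘ₗ (a * b) = (l ∘ₗ a) ∘ₗ b := rfl
    rw [this]
    exact hb _ (ha _ hl)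
  one_mem' := by
    intro l hl
    have : l ∘ₗ (1 : Module.End ℂ V) = l := rfl
    rw [this]
    exact hl
  add_mem' := by
    intro a b ha hb l hl
    rw [LinearMap.comp_add]
    exact Λ.add_mem (ha _ hl) (hb _ hl)
  zero_mem' := by
    intro l _
    rw [LinearMap.comp_zero]
    exact Λ.zero_mem
  algebraMap_mem' := by
    intro n l hl
    have : l ∘ₗ (algebraMap ℤ (Module.End ℂ V) n) = n • l := by
      ext v
      simp
    rw [this]
    exact Λ.smul_mem n hl

theorem mem_stabAlg {Λ : Submodule ℤ (Module.Dual ℂ V)} {t : Module.End ℂ V} :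
    t ∈ stabAlg Λ ↔ ∀ l ∈ Λ, l ∘ₗ t ∈ Λ := Iff.rfl

/-- The transpose action of the stabiliser algebra on the lattice, as a `ℤ`-linear map. -/
def stabAct (Λ : Submodule ℤ (Module.Dual ℂ V)) : stabAlg Λ →ₗ[ℤ] (Λ →ₗ[ℤ] Λ) where
  toFun t :=
    { toFun := fun l => ⟨(l : Module.Dual ℂ V) ∘ₗ (t : Module.End ℂ V), t.2 _ l.2⟩
      map_add' := fun l l' => Subtype.ext (by simp [LinearMap.add_comp])
      map_smul' := fun n l => Subtype.ext (by
        ext v
        simp) }
  map_add' := fun t t' => LinearMap.ext fun l => Subtype.ext (by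
    simp [LinearMap.comp_add])
  map_smul' := fun n t => LinearMap.ext fun l => Subtype.ext (by
    ext v
    simp)

theorem stabAct_injective (Λ : Submodule ℤ (Module.Dual ℂ V))
    (hsep : ∀ v : V, (∀ l ∈ Λ, l v = 0) → v = 0) : Function.Injective (stabAct Λ) := by
  rw [injective_iff_map_eq_zero]
  intro t ht
  apply Subtype.ext
  apply LinearMap.ext
  intro v
  apply hsep
  intro l hl
  have := congrArg (fun (φ : Λ →ₗ[ℤ] Λ) => ((φ ⟨l, hl⟩ : Λ) : Module.Dual ℂ V) v) ht
  simpa [stabAct] using this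

theorem moduleFinite_stabAlg (Λ : Submodule ℤ (Module.Dual ℂ V)) (hfg : Λ.FG)
    (hsep : ∀ v : V, (∀ l ∈ Λ, l v = 0) → v = 0) : Module.Finite ℤ (stabAlg Λ) := by
  have : Module.Finite ℤ Λ := Module.Finite.iff_fg.mpr hfg
  have : IsAddTorsionFree (Module.Dual ℂ V) := .of_isTorsionFree ℂ _
  have : Module.Free ℤ Λ := Module.free_of_finite_type_torsion_free'
  have : Module.Finite ℤ (Λ →ₗ[ℤ] Λ) := Module.Finite.linearMap ℤ ℤ Λ Λ
  exact Module.Finite.of_injective (stabAct Λ) (stabAct_injective Λ hsep)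

end Abstract

/-- **Glue lemma**: a finitely generated `ℤ`-lattice of functionals on `S_k(Γ₀(N))` which is
stable under precomposition with the Hecke generators and separates points
forces the Hecke algebra to be module-finite over `ℤ`. -/
theorem moduleFinite_heckeAlgebra_of_lattice {N : ℕ} [NeZero N] {k : ℤ} {S : Set ℕ}
    (Λ : Submodule ℤ (Module.Dual ℂ (CuspForm (CongruenceSubgroup.Gamma0 N) k)))
    (hfg : Λ.FG)
    (hstab : ∀ T ∈ heckeGenerators N k S, ∀ l ∈ Λ, l ∘ₗ T ∈ Λ)
    (hsep : ∀ f : CuspForm (CongruenceSubgroup.Gamma0 N) k, (∀ l ∈ Λ, l f = 0) → f = 0) :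
    Module.Finite ℤ (heckeAlgebra N k S) := by
  have hle : heckeAlgebra N k S ≤ stabAlg Λ := Algebra.adjoin_le fun T hT => hstab T hT
  have := moduleFinite_stabAlg Λ hfg hsep
  exact Module.Finite.of_injective (Subalgebra.inclusion hle).toLinearMap
    (Subalgebra.inclusion_injective hle)

/-- If the space of cusp forms is trivial, the Hecke algebra is module-finite. -/
theorem moduleFinite_heckeAlgebra_of_subsingleton {N : ℕ} [NeZero N] {k : ℤ} {S : Set ℕ}
    (h : ∀ f : CuspForm (CongruenceSubgroup.Gamma0 N) k, f = 0) :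
    Module.Finite ℤ (heckeAlgebra N k S) :=
  moduleFinite_heckeAlgebra_of_lattice ⊥ Submodule.fg_bot
    (fun T _ l hl => by
      rw [Submodule.mem_bot] at hl ⊢
      rw [hl, LinearMap.zero_comp])
    (fun f _ => h f)

end Fermat.Agent.S22.H262

end
-- ===== PACK-END S22/H262/Glue.lean

-- ===== PACK-BEGIN Lib/Pet695/Fold.lean
section


/-!
# Petersson pairing via partition functions: abstract adjointness

`IsPartFn a χ`: `χ ≥ 0` is measurable, integrable for the invariant measure of the upper half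
plane and `∑ i, χ (a i • τ) = 1` for a countable family `a i` of elements of `GL(2,ℝ)`.
`pet k χ f g = ∫ χ · conj f · g · y^k dμ`.

Main result `pet_sum_slash_adjoint`: if `Δ = ⊔ (a i) (r j)` is stable under
`δ ↦ c • δ⁻¹` and `det δ = c` on `Δ`, then `∑ j, · ∣[k] r j` is self-adjoint for `pet`.
-/

set_option autoImplicit false

open UpperHalfPlane MeasureTheory
open scoped MatrixGroups ModularForm ComplexConjugate

noncomputable section

namespace Fermat.Agent.Lib.Pet695

/-- partition function with respect to a family of elements of `GL(2,ℝ)` -/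
structure IsPartFn {I : Type*} (a : I → GL (Fin 2) ℝ) (χ : ℍ → ℝ) : Prop where
  meas : Measurable χ
  nonneg : ∀ τ, 0 ≤ χ τ
  hasSum : ∀ τ, HasSum (fun i => χ (a i • τ)) 1
  integrable : Integrable χ

/-- The Petersson pairing computed with the partition function `χ`
(conjugate-linear in the first variable, as Mathlib's `petersson`). -/
def pet (k : ℤ) (χ : ℍ → ℝ) (f g : ℍ → ℂ) : ℂ :=
  ∫ τ, (χ τ : ℂ) * petersson k f g τ

/-- Admissible functions: continuous with bounded Petersson norm. -/
structure IsAdm (k : ℤ) (f : ℍ → ℂ) : Prop where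
  cont : Continuous f
  bdd : ∃ C, ∀ τ, ‖petersson k f f τ‖ ≤ C

section basic

variable {I : Type*} {a : I → GL (Fin 2) ℝ} {χ : ℍ → ℝ}

theorem IsPartFn.le_one (hχ : IsPartFn a χ) (i : I) (τ : ℍ) : χ (a i • τ) ≤ 1 :=
  le_hasSum (hχ.hasSum τ) i (fun _ _ => hχ.nonneg _)

theorem IsPartFn.sum_le_one (hχ : IsPartFn a χ) (s : Finset I) (τ : ℍ) :
    ∑ i ∈ s, χ (a i • τ) ≤ 1 :=
  sum_le_hasSum s (fun _ _ => hχ.nonneg _) (hχ.hasSum τ)

theorem measurable_smul_uhp (δ : GL (Fin 2) ℝ) : Measurable fun τ : ℍ => δ • τ :=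
  (continuous_const_smul δ).measurable

theorem norm_petersson (k : ℤ) (f g : ℍ → ℂ) (τ : ℍ) :
    ‖petersson k f g τ‖ = ‖f τ‖ * ‖g τ‖ * τ.im ^ k := by
  have h : (0 : ℝ) < τ.im ^ k := zpow_pos τ.im_pos k
  simp only [petersson, norm_mul, Complex.norm_conj, norm_zpow, Complex.norm_real,
    Real.norm_of_nonneg τ.im_pos.le]

theorem norm_petersson_sq (k : ℤ) (f g : ℍ → ℂ) (τ : ℍ) :
    ‖petersson k f g τ‖ ^ 2 = ‖petersson k f f τ‖ * ‖petersson k g g τ‖ := by
  rw [norm_petersson, norm_petersson, norm_petersson]; ring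

theorem norm_petersson_le {k : ℤ} {f g : ℍ → ℂ} {Cf Cg : ℝ} (τ : ℍ)
    (hf : ‖petersson k f f τ‖ ≤ Cf) (hg : ‖petersson k g g τ‖ ≤ Cg) :
    ‖petersson k f g τ‖ ≤ Real.sqrt (Cf * Cg) := by
  apply Real.le_sqrt_of_sq_le
  rw [norm_petersson_sq]
  exact mul_le_mul hf hg (norm_nonneg _) ((norm_nonneg _).trans hf)

theorem continuous_slash (k : ℤ) {f : ℍ → ℂ} (hf : Continuous f) (δ : GL (Fin 2) ℝ) :
    Continuous (f ∣[k] δ) := by
  have h : (f ∣[k] δ) = fun τ : ℍ =>
      σ δ (f (δ • τ)) * |δ.det.val| ^ (k - 1) * denom δ τ ^ (-k) := by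
    funext τ; exact ModularForm.slash_apply ..
  rw [h]
  have h1 : Continuous fun τ : ℍ => σ δ (f (δ • τ)) :=
    (σ δ).continuous.comp (hf.comp (continuous_const_smul δ))
  have h2 : Continuous fun τ : ℍ => denom δ τ ^ (-k) := by
    refine Continuous.zpow₀ ?_ _ (fun τ => Or.inl (denom_ne_zero δ τ))
    unfold denom; fun_prop
  exact (h1.mul continuous_const).mul h2

theorem IsAdm.slash {k : ℤ} {f : ℍ → ℂ} (hf : IsAdm k f) (δ : GL (Fin 2) ℝ) :
    IsAdm k (f ∣[k] δ) := by
  refine ⟨continuous_slash k hf.cont δ, ?_⟩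
  obtain ⟨C, hC⟩ := hf.bdd
  refine ⟨|δ.det.val| ^ (k - 2) * C, fun τ => ?_⟩
  rw [petersson_slash, norm_mul, norm_σ, norm_zpow, Complex.norm_real, Real.norm_eq_abs, abs_abs]
  exact mul_le_mul_of_nonneg_left (hC _) (zpow_nonneg (abs_nonneg _) _)

theorem IsAdm.exists_bound {k : ℤ} {f g : ℍ → ℂ} (hf : IsAdm k f) (hg : IsAdm k g) :
    ∃ B, 0 ≤ B ∧ ∀ τ, ‖petersson k f g τ‖ ≤ B := by
  obtain ⟨Cf, hCf⟩ := hf.bdd
  obtain ⟨Cg, hCg⟩ := hg.bdd
  exact ⟨Real.sqrt (Cf * Cg), Real.sqrt_nonneg _, fun τ => norm_petersson_le τ (hCf τ) (hCg τ)⟩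

theorem IsAdm.continuous_petersson {k : ℤ} {f g : ℍ → ℂ} (hf : IsAdm k f) (hg : IsAdm k g) :
    Continuous (petersson k f g) :=
  petersson_continuous k hf.cont hg.cont

end basic

section unfold

variable {I : Type*} {a : I → GL (Fin 2) ℝ} {χ : ℍ → ℝ}

theorem IsPartFn.integrable_mul (hχ : IsPartFn a χ) {Ψ : ℍ → ℂ} (hΨ : Measurable Ψ) {B : ℝ}
    (hB : ∀ τ, ‖Ψ τ‖ ≤ B) : Integrable (fun w => (χ w : ℂ) * Ψ w) := by
  have h1 : Integrable (fun w => B * χ w) := hχ.integrable.const_mul B
  refine h1.mono' ((Complex.measurable_ofReal.comp hχ.meas).mul hΨ).aestronglyMeasurable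
    (Filter.Eventually.of_forall fun w => ?_)
  rw [norm_mul, Complex.norm_real, Real.norm_of_nonneg (hχ.nonneg w), mul_comm]
  exact mul_le_mul_of_nonneg_right (hB w) (hχ.nonneg w)

theorem IsPartFn.integrable_mul_mul (hχ : IsPartFn a χ) (i : I) (r : GL (Fin 2) ℝ)
    {Ψ : ℍ → ℂ} (hΨ : Measurable Ψ) {B : ℝ} (hB : ∀ τ, ‖Ψ τ‖ ≤ B) :
    Integrable (fun w => (χ w : ℂ) * (χ (a i • r • w) : ℂ) * Ψ w) := by
  have hm : Measurable fun w : ℍ => (χ (a i • r • w) : ℂ) :=
    Complex.measurable_ofReal.comp (hχ.meas.comp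
      ((measurable_smul_uhp (a i)).comp (measurable_smul_uhp r)))
  have h := hχ.integrable_mul (Ψ := fun w => (χ (a i • r • w) : ℂ) * Ψ w) (hm.mul hΨ) (B := B)
    (fun w => by
      rw [norm_mul, Complex.norm_real, Real.norm_of_nonneg (hχ.nonneg _)]
      calc χ (a i • r • w) * ‖Ψ w‖ ≤ 1 * B :=
            mul_le_mul (hχ.le_one i _) (hB w) (norm_nonneg _) zero_le_one
        _ = B := one_mul B)
  refine h.congr (Filter.Eventually.of_forall fun w => ?_)
  simp only [mul_assoc]

/-- Unfolding against the partition function. -/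
theorem IsPartFn.hasSum_integral [Countable I] (hχ : IsPartFn a χ) (r : GL (Fin 2) ℝ)
    {Ψ : ℍ → ℂ} (hΨ : Measurable Ψ) {B : ℝ} (hB : ∀ τ, ‖Ψ τ‖ ≤ B) :
    HasSum (fun i => ∫ w, (χ w : ℂ) * (χ (a i • r • w) : ℂ) * Ψ w)
      (∫ w, (χ w : ℂ) * Ψ w) := by
  have hB0 : 0 ≤ B := (norm_nonneg _).trans (hB UpperHalfPlane.I)
  set F : I → ℍ → ℂ := fun i w => (χ w : ℂ) * (χ (a i • r • w) : ℂ) * Ψ w with hF
  have hint : ∀ i, Integrable (F i) := fun i => hχ.integrable_mul_mul i r hΨ hB
  have hnorm : ∀ i w, ‖F i w‖ = χ w * χ (a i • r • w) * ‖Ψ w‖ := by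
    intro i w
    simp only [hF, norm_mul, Complex.norm_real, Real.norm_of_nonneg (hχ.nonneg _)]
  have hsum : Summable fun i => ∫ w, ‖F i w‖ := by
    refine summable_of_sum_le (c := B * ∫ w, χ w) (fun i => integral_nonneg fun w => norm_nonneg _)
      (fun s => ?_)
    rw [← integral_finsetSum _ (fun i _ => (hint i).norm), ← integral_const_mul]
    refine integral_mono (integrable_finsetSum _ fun i _ => (hint i).norm)
      (hχ.integrable.const_mul B) (fun w => ?_)
    simp only [hnorm]
    calc ∑ i ∈ s, χ w * χ (a i • r • w) * ‖Ψ w‖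
        = (∑ i ∈ s, χ (a i • r • w)) * (χ w * ‖Ψ w‖) := by
          rw [Finset.sum_mul]; exact Finset.sum_congr rfl fun i _ => by ring
      _ ≤ 1 * (χ w * B) := by
          refine mul_le_mul (hχ.sum_le_one s _) ?_ (mul_nonneg (hχ.nonneg _) (norm_nonneg _))
            zero_le_one
          exact mul_le_mul_of_nonneg_left (hB w) (hχ.nonneg w)
      _ = B * χ w := by ring
  have h := hasSum_integral_of_summable_integral_norm hint hsum
  have h2 : ∀ w, ∑' i, F i w = (χ w : ℂ) * Ψ w := by
    intro w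
    have h3 : HasSum (fun i => (χ (a i • r • w) : ℂ)) ((1 : ℝ) : ℂ) :=
      Complex.hasSum_ofReal.mpr (hχ.hasSum (r • w))  -- placeholder name
    have h4 : HasSum (fun i => F i w) ((χ w : ℂ) * ((1 : ℝ) : ℂ) * Ψ w) :=
      (h3.mul_left (χ w : ℂ)).mul_right (Ψ w)
    rw [h4.tsum_eq]; simp
  simpa only [h2] using h

end unfold

section scalar

variable {A B : GL (Fin 2) ℝ} {c : ℝ}

theorem det_of_val_eq_smul (h : A.val = c • B.val) : A.det.val = c ^ 2 * B.det.val := by
  rw [Matrix.GeneralLinearGroup.val_det_apply, Matrix.GeneralLinearGroup.val_det_apply, h,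
    Matrix.det_smul, Fintype.card_fin]

theorem σ_of_val_eq_smul (hc : c ≠ 0) (h : A.val = c • B.val) : σ A = σ B := by
  have hc2 : 0 < c ^ 2 := by positivity
  unfold σ
  rw [det_of_val_eq_smul h]
  by_cases hB : 0 < B.det.val
  · rw [if_pos hB, if_pos (mul_pos hc2 hB)]
  · rw [if_neg hB, if_neg]
    intro h'
    exact hB ((mul_pos_iff_of_pos_left hc2).mp h')

theorem num_of_val_eq_smul (h : A.val = c • B.val) (z : ℂ) : num A z = c * num B z := by
  simp only [num, h, Matrix.smul_apply, smul_eq_mul, Complex.ofReal_mul]; ring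

theorem denom_of_val_eq_smul (h : A.val = c • B.val) (z : ℂ) : denom A z = c * denom B z := by
  simp only [denom, h, Matrix.smul_apply, smul_eq_mul, Complex.ofReal_mul]; ring

theorem smul_of_val_eq_smul (hc : c ≠ 0) (h : A.val = c • B.val) (τ : ℍ) : A • τ = B • τ := by
  ext : 1
  rw [coe_smul, coe_smul, σ_of_val_eq_smul hc h, num_of_val_eq_smul h, denom_of_val_eq_smul h]
  congr 1
  have hc' : (c : ℂ) ≠ 0 := by exact_mod_cast hc
  rw [mul_div_mul_left _ _ hc']

theorem slash_of_val_eq_smul (k : ℤ) (hc : 0 < c) (h : A.val = c • B.val) (f : ℍ → ℂ) :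
    f ∣[k] A = ((c : ℂ) ^ (k - 2)) • (f ∣[k] B) := by
  have hc' : (c : ℂ) ≠ 0 := by exact_mod_cast hc.ne'
  funext τ
  rw [Pi.smul_apply, ModularForm.slash_apply, ModularForm.slash_apply,
    σ_of_val_eq_smul hc.ne' h, smul_of_val_eq_smul hc.ne' h, denom_of_val_eq_smul h,
    det_of_val_eq_smul h, abs_mul, abs_of_pos (by positivity : (0 : ℝ) < c ^ 2), smul_eq_mul,
    Complex.ofReal_mul, mul_zpow, mul_zpow, Complex.ofReal_pow]
  have e1 : ((c : ℂ) ^ 2) ^ (k - 1) * (c : ℂ) ^ (-k) = (c : ℂ) ^ (k - 2) := by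
    rw [← zpow_natCast, ← zpow_mul, ← zpow_add₀ hc']
    congr 1
    push_cast; ring
  calc (σ B) (f (B • τ)) * (((c : ℂ) ^ 2) ^ (k - 1) * ((|B.det.val| : ℝ) : ℂ) ^ (k - 1))
        * ((c : ℂ) ^ (-k) * denom B τ ^ (-k))
      = (((c : ℂ) ^ 2) ^ (k - 1) * (c : ℂ) ^ (-k))
        * ((σ B) (f (B • τ)) * ((|B.det.val| : ℝ) : ℂ) ^ (k - 1) * denom B τ ^ (-k)) := by ring
    _ = _ := by rw [e1]

end scalar

section adjoint

variable {k : ℤ} {I : Type*} {a : I → GL (Fin 2) ℝ} {χ : ℍ → ℝ}

theorem petersson_smul_left (k : ℤ) (c : ℂ) (f g : ℍ → ℂ) (τ : ℍ) :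
    petersson k (c • f) g τ = conj c * petersson k f g τ := by
  simp only [petersson, Pi.smul_apply, smul_eq_mul, map_mul]; ring

theorem petersson_sum_left (k : ℤ) {ι : Type*} (s : Finset ι) (f : ι → ℍ → ℂ) (g : ℍ → ℂ)
    (τ : ℍ) : petersson k (∑ j ∈ s, f j) g τ = ∑ j ∈ s, petersson k (f j) g τ := by
  simp only [petersson, Finset.sum_apply, map_sum, Finset.sum_mul]

theorem petersson_sum_right (k : ℤ) {ι : Type*} (s : Finset ι) (f : ℍ → ℂ) (g : ι → ℍ → ℂ)
    (τ : ℍ) : petersson k f (∑ j ∈ s, g j) τ = ∑ j ∈ s, petersson k f (g j) τ := by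
  simp only [petersson, Finset.sum_apply, Finset.mul_sum, Finset.sum_mul]

/-- The key pointwise identity behind adjointness. -/
theorem petersson_star {δ δ' : GL (Fin 2) ℝ} {c : ℝ} (hc : 0 < c) (hdet : δ.det.val = c)
    (h : δ'.val = c • (δ⁻¹).val) (f g : ℍ → ℂ) (u : ℍ) :
    petersson k f (g ∣[k] δ) (δ⁻¹ • u) = petersson k (f ∣[k] δ') g u := by
  have hc' : (c : ℂ) ≠ 0 := by exact_mod_cast hc.ne'
  have h1 := petersson_slash k f (g ∣[k] δ) δ⁻¹ u
  have h2 : (g ∣[k] δ) ∣[k] δ⁻¹ = g := by
    rw [← SlashAction.slash_mul, mul_inv_cancel, SlashAction.slash_one]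
  have hdet' : (δ⁻¹).det.val = c⁻¹ := by
    rw [map_inv, Units.val_inv_eq_inv_val, hdet]
  have hσ : σ δ⁻¹ = .refl ℝ ℂ := by
    unfold σ; rw [if_pos]; rw [hdet']; exact inv_pos.mpr hc
  rw [h2, hσ, hdet', abs_of_pos (inv_pos.mpr hc)] at h1
  rw [slash_of_val_eq_smul k hc h f, petersson_smul_left, h1]
  simp only [ContinuousAlgEquiv.refl_apply, map_zpow₀, Complex.conj_ofReal, Complex.ofReal_inv]
  rw [← mul_assoc, ← mul_zpow, mul_inv_cancel₀ hc', one_zpow, one_mul]

theorem integral_star_eq {δ δ' : GL (Fin 2) ℝ} {c : ℝ} (hc : 0 < c) (hdet : δ.det.val = c)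
    (h : δ'.val = c • (δ⁻¹).val) (χ : ℍ → ℝ) (f g : ℍ → ℂ) :
    ∫ w, (χ w : ℂ) * (χ (δ • w) : ℂ) * petersson k f (g ∣[k] δ) w
      = ∫ u, (χ u : ℂ) * (χ (δ' • u) : ℂ) * petersson k (f ∣[k] δ') g u := by
  have h1 := integral_smul_eq_self (μ := (volume : Measure ℍ))
    (fun u : ℍ => (χ (δ⁻¹ • u) : ℂ) * (χ u : ℂ) * petersson k f (g ∣[k] δ) (δ⁻¹ • u)) (g := δ)
  simp only [inv_smul_smul] at h1
  rw [h1]
  congr 1
  funext u
  rw [petersson_star hc hdet h, smul_of_val_eq_smul hc.ne' h]
  ring

theorem hasSum_prod_of_fintype {α ι E : Type*} [Fintype ι] [AddCommMonoid E]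
    [TopologicalSpace E] [ContinuousAdd E] {G : α × ι → E} {S : ι → E}
    (h : ∀ j, HasSum (fun i => G (i, j)) (S j)) : HasSum G (∑ j, S j) := by
  classical
  have h1 : ∀ j, HasSum (fun p : α × ι => if p.2 = j then G p else 0) (S j) := by
    intro j
    have hinj : Function.Injective fun i : α => (i, j) := fun x y hxy => (Prod.mk.inj hxy).1
    refine (hinj.hasSum_iff ?_).mp ?_
    · rintro ⟨x, y⟩ hx
      have : y ≠ j := by
        rintro rfl
        exact hx ⟨x, rfl⟩
      simp [this]
    · simpa [Function.comp_def] using h j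
  have h2 := hasSum_sum (s := Finset.univ) fun j _ => h1 j
  have h3 : (fun p : α × ι => ∑ j : ι, if p.2 = j then G p else 0) = G := by
    funext p
    rw [Finset.sum_ite_eq]
    simp
  rwa [h3] at h2

/-- Sum over `Δ = ⊔ a i * r j` of the unfolded integrals. -/
theorem IsPartFn.hasSum_integral_Delta [Countable I] (hχ : IsPartFn a χ) {ι : Type*} [Fintype ι]
    (r : ι → GL (Fin 2) ℝ) (Δ : Set (GL (Fin 2) ℝ)) (e : I × ι ≃ Δ)
    (he : ∀ i j, (e (i, j) : GL (Fin 2) ℝ) = a i * r j)
    (Φ : GL (Fin 2) ℝ → ℍ → ℂ) (hΦ : ∀ i j, Φ (a i * r j) = Φ (r j))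
    (hΦm : ∀ j, Measurable (Φ (r j))) {B : ℝ} (hΦB : ∀ j τ, ‖Φ (r j) τ‖ ≤ B) :
    HasSum (fun δ : Δ => ∫ w, (χ w : ℂ) * (χ ((δ : GL (Fin 2) ℝ) • w) : ℂ) * Φ δ w)
      (∑ j, ∫ w, (χ w : ℂ) * Φ (r j) w) := by
  rw [← e.hasSum_iff]
  refine hasSum_prod_of_fintype fun j => ?_
  have h := hχ.hasSum_integral (r j) (hΦm j) (hΦB j)
  have hfun : (fun i => ((fun δ : Δ =>
        ∫ w, (χ w : ℂ) * (χ ((δ : GL (Fin 2) ℝ) • w) : ℂ) * Φ δ w) ∘ e) (i, j))
      = fun i => ∫ w, (χ w : ℂ) * (χ (a i • r j • w) : ℂ) * Φ (r j) w := by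
    funext i
    simp only [Function.comp_apply, he, hΦ, mul_smul]
  rw [hfun]
  exact h

/-- **Abstract adjointness.**  If `Δ = ⊔ᵢⱼ a i * r j` consists of matrices of determinant `c > 0`
and is stable under `δ ↦ c • δ⁻¹`, then `f ↦ ∑ j, f ∣[k] r j` is self-adjoint for the Petersson
pairing on admissible functions invariant under all `a i`. -/
theorem pet_sum_slash_adjoint [Countable I] (hχ : IsPartFn a χ) {ι : Type*} [Fintype ι]
    (r : ι → GL (Fin 2) ℝ) {c : ℝ} (hc : 0 < c) (Δ : Set (GL (Fin 2) ℝ))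
    (hΔdet : ∀ δ ∈ Δ, δ.det.val = c)
    (e : I × ι ≃ Δ) (he : ∀ i j, (e (i, j) : GL (Fin 2) ℝ) = a i * r j)
    (star : Δ ≃ Δ)
    (hstar : ∀ δ : Δ, (star δ : GL (Fin 2) ℝ).val = c • ((δ : GL (Fin 2) ℝ)⁻¹).val)
    {f g : ℍ → ℂ} (hf : IsAdm k f) (hg : IsAdm k g)
    (hfa : ∀ i, f ∣[k] a i = f) (hga : ∀ i, g ∣[k] a i = g) :
    pet k χ (∑ j, f ∣[k] r j) g = pet k χ f (∑ j, g ∣[k] r j) := by
  -- bounds
  have hB1 : ∀ j, ∃ B, ∀ τ, ‖petersson k f (g ∣[k] r j) τ‖ ≤ B := fun j => by
    obtain ⟨B, -, hB⟩ := hf.exists_bound (hg.slash (r j))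
    exact ⟨B, hB⟩
  have hB2 : ∀ j, ∃ B, ∀ τ, ‖petersson k (f ∣[k] r j) g τ‖ ≤ B := fun j => by
    obtain ⟨B, -, hB⟩ := (hf.slash (r j)).exists_bound hg
    exact ⟨B, hB⟩
  choose B1 hB1 using hB1
  choose B2 hB2 using hB2
  obtain ⟨M1, hM1⟩ : ∃ M, ∀ j, B1 j ≤ M := (Finite.bddAbove_range B1).imp fun M hM j =>
    hM ⟨j, rfl⟩
  obtain ⟨M2, hM2⟩ : ∃ M, ∀ j, B2 j ≤ M := (Finite.bddAbove_range B2).imp fun M hM j =>
    hM ⟨j, rfl⟩
  have hS1 := hχ.hasSum_integral_Delta r Δ e he (fun δ => petersson k f (g ∣[k] δ))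
    (fun i j => by rw [SlashAction.slash_mul, hga i])
    (fun j => (hf.continuous_petersson (hg.slash (r j))).measurable)
    (B := M1) (fun j τ => (hB1 j τ).trans (hM1 j))
  have hS2 := hχ.hasSum_integral_Delta r Δ e he (fun δ => petersson k (f ∣[k] δ) g)
    (fun i j => by rw [SlashAction.slash_mul, hfa i])
    (fun j => ((hf.slash (r j)).continuous_petersson hg).measurable)
    (B := M2) (fun j τ => (hB2 j τ).trans (hM2 j))
  have hfun : (fun δ : Δ => ∫ w, (χ w : ℂ) * (χ ((δ : GL (Fin 2) ℝ) • w) : ℂ)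
        * petersson k f (g ∣[k] (δ : GL (Fin 2) ℝ)) w)
      = (fun δ : Δ => ∫ w, (χ w : ℂ) * (χ ((δ : GL (Fin 2) ℝ) • w) : ℂ)
        * petersson k (f ∣[k] (δ : GL (Fin 2) ℝ)) g w) ∘ star := by
    funext δ
    exact integral_star_eq hc (hΔdet δ δ.2) (hstar δ) χ f g
  rw [hfun, star.hasSum_iff] at hS1
  have hEq := hS1.unique hS2
  -- linearity
  have hL : pet k χ (∑ j, f ∣[k] r j) g = ∑ j, ∫ w, (χ w : ℂ) * petersson k (f ∣[k] r j) g w := by
    unfold pet
    rw [← integral_finsetSum]
    · congr 1; funext w; rw [petersson_sum_left, Finset.mul_sum]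
    · intro j _
      exact hχ.integrable_mul ((hf.slash (r j)).continuous_petersson hg).measurable (hB2 j)
  have hR : pet k χ f (∑ j, g ∣[k] r j) = ∑ j, ∫ w, (χ w : ℂ) * petersson k f (g ∣[k] r j) w := by
    unfold pet
    rw [← integral_finsetSum]
    · congr 1; funext w; rw [petersson_sum_right, Finset.mul_sum]
    · intro j _
      exact hχ.integrable_mul (hf.continuous_petersson (hg.slash (r j))).measurable (hB1 j)
  rw [hL, hR, hEq]

end adjoint

end Fermat.Agent.Lib.Pet695

end
end
-- ===== PACK-END Lib/Pet695/Fold.lean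

-- ===== PACK-BEGIN S35/G/H199/NRCore.lean
section



/-!
# S35 / cell FROB, leaf NR (norm residues) — abstract core (author: helper502)

VERBATIM copy of `origin/helper502:Fermat/Agent/S35/H502/NRAbs.lean` (commit 81317922, author
helper502), re-namespaced to `Fermat.Agent.S35.G.H199.NR` so that the closure of
`S35/G/H199/ToricMod.lean` (leaf TORIC / GLUE of the (G') route) is self-contained on main.

Mathlib-only.  Abstract form of step (e) of `origin/helper891:coord/S35-FROB-helper891.md`.

Setting: two fields `FM` (level `M'`) and `F` (level `N = M' q`), two embeddings `α β : FM →+* F`,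
automorphisms `σM` of `FM` and `σ` of `F` (a Frobenius lift) commuting with `α`, `β`, valuation
subrings `VM ⊆ FM`, `V₁ V₂ ⊆ F` (the Gauss valuations `V∞`, `V₀`), constants `CM ⊆ FM`, `C ⊆ F`,
multiplicative "norm" maps `Nα Nβ : F →* FM`.

`GSplitAt V C m u` : `u ≡ c * y ^ m` modulo the maximal ideal of `V`, `c ∈ C` a constant unit, `y` a
unit of `V` (i.e. the residue of `u` is trivial in `κ^× / (k^× (κ^×)^m)`).

Hypotheses (`NRSetting`), all elementwise:
* `comm_α`, `comm_β`, `norm_α`, `norm_β` : `σ` commutes with `α`, `β`, `Nα`, `Nβ`;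
* `val_M`, `val₁`, `val₂` : `σM`, `σ` preserve the valuations;
* `unit_α`, `max_α` (at `V₁`), `unit_β`, `max_β` (at `V₂`) : `α`, `β` are local;
* `res_α`, `res_β` : residue degree one (`V₁` over `α VM`, `V₂` over `β VM`)   [A2 MOD leaf L11];
* `kron₁`, `kron₂` : semilinear Kronecker congruences
  `β (σM b) ≡ (α b)^q mod 𝔪_{V₁}`, `α (σM b) ≡ (β b)^q mod 𝔪_{V₂}`       [A2 `H612.kron_inf/zero`];
* `normRes_α`, `normRes_β` : residue of the norm of a unit `g` of `V₁ ∩ V₂`:
  `Nα g ≡ x₁ x₂` if `α x₁ ≡ g mod 𝔪_{V₁}` and `α x₂ ≡ g^q mod 𝔪_{V₂}`      [leaf NORM];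
* `const_σ`, `const_α`, `const_β` : constants are preserved.

Main theorem `gSplit_of_qNew` (NR): if `Nα f = c h^m`, `Nβ f = c' h'^m` (`f` is `q`-new), then
`g₂ := (φ - 1)² f = φ(g)/g`, `g := φ(f)/f`, `φ := σ²`, is `G`-split at `V₁` and at `V₂`.
-/

set_option autoImplicit false

namespace Fermat.Agent.S35.G.H199.NR

section Cong

variable {K : Type*} [Field K] (V : ValuationSubring K)

theorem val_lt_one_trans {a b c : K} (h1 : V.valuation (a - b) < 1)
    (h2 : V.valuation (b - c) < 1) : V.valuation (a - c) < 1 := by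
  have : a - c = (a - b) + (b - c) := by ring
  rw [this]
  exact Valuation.map_add_lt _ h1 h2

theorem val_lt_one_symm {a b : K} (h : V.valuation (a - b) < 1) : V.valuation (b - a) < 1 := by
  rw [← Valuation.map_neg, neg_sub]
  exact h

theorem val_eq_one_of_cong {a b : K} (h : V.valuation (a - b) < 1) (hb : V.valuation b = 1) :
    V.valuation a = 1 := by
  have hlt : V.valuation (a - b) < V.valuation b := by
    rw [hb]
    exact h
  have h2 : V.valuation (a - b + b) = V.valuation b :=
    Valuation.map_add_eq_of_lt_right _ hlt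
  rw [sub_add_cancel] at h2
  rw [h2, hb]

theorem val_le_one_of_cong {a b : K} (h : V.valuation (a - b) < 1) (hb : V.valuation b ≤ 1) :
    V.valuation a ≤ 1 := by
  have : a = (a - b) + b := by ring
  rw [this]
  exact (Valuation.map_add_le_max' _ _ _).trans (max_le h.le hb)

theorem val_mul_lt_one_left {a b : K} (ha : V.valuation a < 1) (hb : V.valuation b ≤ 1) :
    V.valuation (a * b) < 1 := by
  rw [Valuation.map_mul]
  calc V.valuation a * V.valuation b ≤ V.valuation a * 1 := by gcongr
    _ = V.valuation a := mul_one _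
    _ < 1 := ha

theorem val_mul_lt_one_right {a b : K} (ha : V.valuation a ≤ 1) (hb : V.valuation b < 1) :
    V.valuation (a * b) < 1 := by
  rw [mul_comm]
  exact val_mul_lt_one_left V hb ha

theorem cong_mul {a a' b b' : K} (ha : V.valuation (a - a') < 1) (hb : V.valuation (b - b') < 1)
    (ha' : V.valuation a' ≤ 1) (hb1 : V.valuation b ≤ 1) :
    V.valuation (a * b - a' * b') < 1 := by
  have : a * b - a' * b' = (a - a') * b + a' * (b - b') := by ring
  rw [this]
  exact Valuation.map_add_lt _ (val_mul_lt_one_left V ha hb1) (val_mul_lt_one_right V ha' hb)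

theorem cong_pow {a b : K} (h : V.valuation (a - b) < 1) (hb : V.valuation b ≤ 1) (n : ℕ)
    (hn : 0 < n) : V.valuation (a ^ n - b ^ n) < 1 := by
  have ha : V.valuation a ≤ 1 := val_le_one_of_cong V h hb
  induction n with
  | zero => exact absurd hn (lt_irrefl 0)
  | succ k ih =>
    rcases Nat.eq_zero_or_pos k with rfl | hk
    · simpa using h
    · rw [pow_succ, pow_succ]
      refine cong_mul V (ih hk) h ?_ ha
      rw [Valuation.map_pow]
      exact pow_le_one₀ zero_le hb

theorem cong_pow' {a b : K} (h : V.valuation (a - b) < 1) (hb : V.valuation b ≤ 1) (n : ℕ) :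
    V.valuation (a ^ n - b ^ n) < 1 := by
  rcases Nat.eq_zero_or_pos n with rfl | hn
  · simp
  · exact cong_pow V h hb n hn

theorem val_inv_eq_one {a : K} (ha : V.valuation a = 1) : V.valuation a⁻¹ = 1 := by
  rw [map_inv₀, ha, inv_one]

theorem ne_zero_of_val_eq_one {a : K} (ha : V.valuation a = 1) : a ≠ 0 := by
  rintro rfl
  rw [Valuation.map_zero] at ha
  exact zero_ne_one ha

theorem cong_div {a a' b b' : K} (ha : V.valuation (a - a') < 1)
    (hb : V.valuation (b - b') < 1) (ha' : V.valuation a' ≤ 1) (hb1 : V.valuation b = 1)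
    (hb' : V.valuation b' = 1) : V.valuation (a / b - a' / b') < 1 := by
  have hb0 : b ≠ 0 := ne_zero_of_val_eq_one V hb1
  have hb'0 : b' ≠ 0 := ne_zero_of_val_eq_one V hb'
  have h1 : a / b - a' / b' = ((a - a') * b' - a' * (b - b')) * (b * b')⁻¹ := by
    field_simp
    ring
  rw [h1]
  refine val_mul_lt_one_left V ?_ ?_
  · exact Valuation.map_sub_lt _ (val_mul_lt_one_left V ha hb'.le)
      (val_mul_lt_one_right V ha' hb)
  · rw [map_inv₀, Valuation.map_mul, hb1, hb', mul_one, inv_one]

theorem val_div_eq_one {a b : K} (ha : V.valuation a = 1) (hb : V.valuation b = 1) :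
    V.valuation (a / b) = 1 := by
  rw [map_div₀, ha, hb, div_one]

theorem val_mul_eq_one {a b : K} (ha : V.valuation a = 1) (hb : V.valuation b = 1) :
    V.valuation (a * b) = 1 := by
  rw [Valuation.map_mul, ha, hb, mul_one]

theorem val_pow_eq_one {a : K} (ha : V.valuation a = 1) (n : ℕ) : V.valuation (a ^ n) = 1 := by
  rw [Valuation.map_pow, ha, one_pow]

end Cong

/-- `u` is **`G`-split at `V`**: `u ≡ c * y ^ m` modulo the maximal ideal of `V`, with `c ∈ C` a
constant which is a unit of `V` and `y` a unit of `V`. -/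
def GSplitAt {K : Type*} [Field K] (V : ValuationSubring K) (C : Subfield K) (m : ℕ) (u : K) :
    Prop :=
  ∃ c ∈ C, ∃ y : K, V.valuation c = 1 ∧ V.valuation y = 1 ∧ V.valuation (u - c * y ^ m) < 1

theorem GSplitAt.val_eq_one {K : Type*} [Field K] {V : ValuationSubring K} {C : Subfield K}
    {m : ℕ} {u : K} (h : GSplitAt V C m u) : V.valuation u = 1 := by
  obtain ⟨c, _, y, hc, hy, hu⟩ := h
  exact val_eq_one_of_cong V hu (val_mul_eq_one V hc (val_pow_eq_one V hy m))

variable {FM F : Type*} [Field FM] [Field F]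

/-- The abstract setting of leaf NR (see the module docstring). -/
structure NRSetting (q : ℕ) (α β : FM →+* F) (σM : FM ≃+* FM) (σ : F ≃+* F)
    (VM : ValuationSubring FM) (V₁ V₂ : ValuationSubring F) (CM : Subfield FM) (C : Subfield F)
    (Nα Nβ : F →* FM) : Prop where
  comm_α : ∀ a, σ (α a) = α (σM a)
  comm_β : ∀ a, σ (β a) = β (σM a)
  norm_α : ∀ g, Nα (σ g) = σM (Nα g)
  norm_β : ∀ g, Nβ (σ g) = σM (Nβ g)
  val_M : ∀ h, VM.valuation (σM h) = 1 ↔ VM.valuation h = 1
  max_M : ∀ h, VM.valuation (σM h) < 1 ↔ VM.valuation h < 1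
  ratio_M : ∀ h, h ≠ 0 → VM.valuation (σM h / h) = 1
  max₁ : ∀ f, V₁.valuation (σ f) < 1 ↔ V₁.valuation f < 1
  ratio₁ : ∀ f, f ≠ 0 → V₁.valuation (σ f / f) = 1
  max₂ : ∀ f, V₂.valuation (σ f) < 1 ↔ V₂.valuation f < 1
  ratio₂ : ∀ f, f ≠ 0 → V₂.valuation (σ f / f) = 1
  unit_α : ∀ a, VM.valuation a = 1 → V₁.valuation (α a) = 1
  max_α : ∀ a, VM.valuation a < 1 → V₁.valuation (α a) < 1
  unit_β : ∀ a, VM.valuation a = 1 → V₂.valuation (β a) = 1
  max_β : ∀ a, VM.valuation a < 1 → V₂.valuation (β a) < 1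
  res_α : ∀ g, V₁.valuation g = 1 → ∃ x, VM.valuation x = 1 ∧ V₁.valuation (α x - g) < 1
  res_β : ∀ g, V₂.valuation g = 1 → ∃ y, VM.valuation y = 1 ∧ V₂.valuation (β y - g) < 1
  kron₁ : ∀ b, VM.valuation b = 1 → V₁.valuation (β (σM b) - (α b) ^ q) < 1
  kron₂ : ∀ b, VM.valuation b = 1 → V₂.valuation (α (σM b) - (β b) ^ q) < 1
  normRes_α : ∀ g x₁ x₂, V₁.valuation g = 1 → V₂.valuation g = 1 →
    VM.valuation x₁ = 1 → VM.valuation x₂ = 1 →
    V₁.valuation (α x₁ - g) < 1 → V₂.valuation (α x₂ - g ^ q) < 1 →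
    VM.valuation (Nα g - x₁ * x₂) < 1
  normRes_β : ∀ g y₁ y₂, V₁.valuation g = 1 → V₂.valuation g = 1 →
    VM.valuation y₁ = 1 → VM.valuation y₂ = 1 →
    V₁.valuation (β y₁ - g ^ q) < 1 → V₂.valuation (β y₂ - g) < 1 →
    VM.valuation (Nβ g - y₁ * y₂) < 1
  const_σ : ∀ c ∈ CM, σM c ∈ CM
  const_α : ∀ c ∈ CM, α c ∈ C
  const_β : ∀ c ∈ CM, β c ∈ C

namespace NRSetting

variable {q : ℕ} {α β : FM →+* F} {σM : FM ≃+* FM} {σ : F ≃+* F}
  {VM : ValuationSubring FM} {V₁ V₂ : ValuationSubring F} {CM : Subfield FM} {C : Subfield F}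
  {Nα Nβ : F →* FM}

omit [Field FM] [Field F] in
theorem map_div_of_ne_zero {G H : Type*} [Field G] [Field H] (N : G →* H) (a b : G)
    (hb : b ≠ 0) : N (a / b) = N a / N b := by
  have hNb : N b ≠ 0 := by
    intro h0
    have h1 : N b * N b⁻¹ = 1 := by rw [← map_mul, mul_inv_cancel₀ hb, map_one]
    rw [h0, zero_mul] at h1
    exact zero_ne_one h1
  rw [eq_div_iff hNb, ← map_mul, div_mul_cancel₀ a hb]

omit [Field FM] [Field F] in
theorem map_ne_zero_of_ne_zero {G H : Type*} [Field G] [Field H] (N : G →* H) {b : G}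
    (hb : b ≠ 0) : N b ≠ 0 := by
  intro h0
  have h1 : N b * N b⁻¹ = 1 := by rw [← map_mul, mul_inv_cancel₀ hb, map_one]
  rw [h0, zero_mul] at h1
  exact zero_ne_one h1

/-- The norm of `g = σ²(f)/f` when `N f = c h^m`. -/
theorem norm_ratio (N : F →* FM) (hN : ∀ g, N (σ g) = σM (N g)) {f : F} (hf : f ≠ 0) {m : ℕ}
    {c h : FM} (hNf : N f = c * h ^ m) :
    N (σ (σ f) / f) = (σM (σM c) / c) * (σM (σM h) / h) ^ m := by
  have hNf0 : N f ≠ 0 := map_ne_zero_of_ne_zero N hf
  have hc : c ≠ 0 := by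
    rintro rfl
    rw [zero_mul] at hNf
    exact hNf0 hNf
  have hh : h ^ m ≠ 0 := by
    intro h0
    rw [h0, mul_zero] at hNf
    exact hNf0 hNf
  rw [map_div_of_ne_zero N _ _ hf, hN, hN, hNf, map_mul, map_mul, map_pow, map_pow, div_pow]
  field_simp

variable (S : NRSetting q α β σM σ VM V₁ V₂ CM C Nα Nβ)
include S

theorem val_ratio_sq_M {h : FM} (hh : h ≠ 0) : VM.valuation (σM (σM h) / h) = 1 := by
  have h1 := S.ratio_M h hh
  have hσh : σM h ≠ 0 := (map_ne_zero_iff σM σM.injective).2 hh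
  have h2 := S.ratio_M (σM h) hσh
  have : σM (σM h) / h = (σM (σM h) / σM h) * (σM h / h) := by
    field_simp
  rw [this]
  exact val_mul_eq_one VM h2 h1

theorem val_ratio_sq₁ {f : F} (hf : f ≠ 0) : V₁.valuation (σ (σ f) / f) = 1 := by
  have h1 := S.ratio₁ f hf
  have hσf : σ f ≠ 0 := (map_ne_zero_iff σ σ.injective).2 hf
  have h2 := S.ratio₁ (σ f) hσf
  have : σ (σ f) / f = (σ (σ f) / σ f) * (σ f / f) := by
    field_simp
  rw [this]
  exact val_mul_eq_one V₁ h2 h1

theorem val_ratio_sq₂ {f : F} (hf : f ≠ 0) : V₂.valuation (σ (σ f) / f) = 1 := by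
  have h1 := S.ratio₂ f hf
  have hσf : σ f ≠ 0 := (map_ne_zero_iff σ σ.injective).2 hf
  have h2 := S.ratio₂ (σ f) hσf
  have : σ (σ f) / f = (σ (σ f) / σ f) * (σ f / f) := by
    field_simp
  rw [this]
  exact val_mul_eq_one V₂ h2 h1

theorem cong_σM {a b : FM} (h : VM.valuation (a - b) < 1) :
    VM.valuation (σM a - σM b) < 1 := by
  rw [← map_sub]
  exact (S.max_M _).2 h

theorem cong_σ₁ {a b : F} (h : V₁.valuation (a - b) < 1) : V₁.valuation (σ a - σ b) < 1 := by
  rw [← map_sub]
  exact (S.max₁ _).2 h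

theorem cong_σ₂ {a b : F} (h : V₂.valuation (a - b) < 1) : V₂.valuation (σ a - σ b) < 1 := by
  rw [← map_sub]
  exact (S.max₂ _).2 h

theorem cong_α {a b : FM} (h : VM.valuation (a - b) < 1) : V₁.valuation (α a - α b) < 1 := by
  rw [← map_sub]
  exact S.max_α _ h

theorem cong_β {a b : FM} (h : VM.valuation (a - b) < 1) : V₂.valuation (β a - β b) < 1 := by
  rw [← map_sub]
  exact S.max_β _ h

/-- **NR, abstract form.**  If `f ≠ 0` is `q`-new (`Nα f = c h^m`, `Nβ f = c' h'^m` with constants
`c, c'`), then `(φ - 1)² f`, `φ = σ²`, is `G`-split at `V₁` and at `V₂`. -/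
theorem gSplit_of_qNew {m : ℕ} {f : F} (hf : f ≠ 0) {c c' h h' : FM} (hc : c ∈ CM)
    (hc' : c' ∈ CM) (hNα : Nα f = c * h ^ m) (hNβ : Nβ f = c' * h' ^ m) :
    GSplitAt V₁ C m (σ (σ (σ (σ f) / f)) / (σ (σ f) / f)) ∧
      GSplitAt V₂ C m (σ (σ (σ (σ f) / f)) / (σ (σ f) / f)) := by
  -- nonvanishing
  have hNf0 : Nα f ≠ 0 := map_ne_zero_of_ne_zero Nα hf
  have hNf0' : Nβ f ≠ 0 := map_ne_zero_of_ne_zero Nβ hf
  have hc0 : c ≠ 0 := by
    rintro rfl; rw [zero_mul] at hNα; exact hNf0 hNα
  have hc0' : c' ≠ 0 := by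
    rintro rfl; rw [zero_mul] at hNβ; exact hNf0' hNβ
  have hh0 : h ≠ 0 ∨ m = 0 := by
    by_cases hm : m = 0
    · exact Or.inr hm
    · left
      rintro rfl
      rw [zero_pow hm, mul_zero] at hNα
      exact hNf0 hNα
  have hh0' : h' ≠ 0 ∨ m = 0 := by
    by_cases hm : m = 0
    · exact Or.inr hm
    · left
      rintro rfl
      rw [zero_pow hm, mul_zero] at hNβ
      exact hNf0' hNβ
  -- the unit `g`
  set g : F := σ (σ f) / f with hg
  have hg1 : V₁.valuation g = 1 := S.val_ratio_sq₁ hf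
  have hg2 : V₂.valuation g = 1 := S.val_ratio_sq₂ hf
  have hg0 : g ≠ 0 := ne_zero_of_val_eq_one V₁ hg1
  -- norms of `g`
  set c₁ : FM := σM (σM c) / c with hc₁
  set c₂ : FM := σM (σM c') / c' with hc₂
  -- replace `h`, `h'` by `1` if `m = 0`
  obtain ⟨u₁, hu₁, hNαg⟩ : ∃ u₁ : FM, VM.valuation u₁ = 1 ∧ Nα g = c₁ * u₁ ^ m := by
    rcases hh0 with hh | hm
    · exact ⟨σM (σM h) / h, S.val_ratio_sq_M hh, norm_ratio Nα S.norm_α hf hNα⟩
    · refine ⟨1, Valuation.map_one _, ?_⟩
      have := norm_ratio Nα S.norm_α hf hNα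
      rw [this, hm, pow_zero, pow_zero]
  obtain ⟨u₂, hu₂, hNβg⟩ : ∃ u₂ : FM, VM.valuation u₂ = 1 ∧ Nβ g = c₂ * u₂ ^ m := by
    rcases hh0' with hh | hm
    · exact ⟨σM (σM h') / h', S.val_ratio_sq_M hh, norm_ratio Nβ S.norm_β hf hNβ⟩
    · refine ⟨1, Valuation.map_one _, ?_⟩
      have := norm_ratio Nβ S.norm_β hf hNβ
      rw [this, hm, pow_zero, pow_zero]
  have hc₁v : VM.valuation c₁ = 1 := S.val_ratio_sq_M hc0
  have hc₂v : VM.valuation c₂ = 1 := S.val_ratio_sq_M hc0'
  have hc₁C : c₁ ∈ CM := div_mem (S.const_σ _ (S.const_σ _ hc)) hc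
  have hc₂C : c₂ ∈ CM := div_mem (S.const_σ _ (S.const_σ _ hc')) hc'
  -- residues of `g`
  obtain ⟨x, hx, hxg⟩ := S.res_α g hg1
  obtain ⟨y, hy, hyg⟩ := S.res_β g hg2
  have hσx : VM.valuation (σM x) = 1 := (S.val_M x).2 hx
  have hσy : VM.valuation (σM y) = 1 := (S.val_M y).2 hy
  -- the two norm relations
  have hA : VM.valuation (Nα g - x * σM y) < 1 := by
    refine S.normRes_α g x (σM y) hg1 hg2 hx hσy hxg ?_
    refine val_lt_one_trans V₂ (S.kron₂ y hy) ?_
    exact cong_pow' V₂ hyg hg2.le q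
  have hB : VM.valuation (Nβ g - σM x * y) < 1 := by
    refine S.normRes_β g (σM x) y hg1 hg2 hσx hy ?_ hyg
    refine val_lt_one_trans V₁ (S.kron₁ x hx) ?_
    exact cong_pow' V₁ hxg hg1.le q
  rw [hNαg] at hA
  rw [hNβg] at hB
  -- units
  have hP₁ : VM.valuation (c₁ * u₁ ^ m) = 1 := val_mul_eq_one VM hc₁v (val_pow_eq_one VM hu₁ m)
  have hP₂ : VM.valuation (c₂ * u₂ ^ m) = 1 := val_mul_eq_one VM hc₂v (val_pow_eq_one VM hu₂ m)
  have hσc₁ : VM.valuation (σM c₁) = 1 := (S.val_M _).2 hc₁v
  have hσc₂ : VM.valuation (σM c₂) = 1 := (S.val_M _).2 hc₂v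
  have hσu₁ : VM.valuation (σM u₁) = 1 := (S.val_M _).2 hu₁
  have hσu₂ : VM.valuation (σM u₂) = 1 := (S.val_M _).2 hu₂
  have hσσx : VM.valuation (σM (σM x)) = 1 := (S.val_M _).2 hσx
  have hσσy : VM.valuation (σM (σM y)) = 1 := (S.val_M _).2 hσy
  have hx0 : x ≠ 0 := ne_zero_of_val_eq_one VM hx
  have hy0 : y ≠ 0 := ne_zero_of_val_eq_one VM hy
  have hσx0 : σM x ≠ 0 := ne_zero_of_val_eq_one VM hσx
  have hσy0 : σM y ≠ 0 := ne_zero_of_val_eq_one VM hσy
  have hu₁0 : u₁ ≠ 0 := ne_zero_of_val_eq_one VM hu₁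
  have hu₂0 : u₂ ≠ 0 := ne_zero_of_val_eq_one VM hu₂
  have hc₁0 : c₁ ≠ 0 := ne_zero_of_val_eq_one VM hc₁v
  have hc₂0 : c₂ ≠ 0 := ne_zero_of_val_eq_one VM hc₂v
  -- `σM` applied to the relations
  have hA' : VM.valuation (σM c₁ * σM u₁ ^ m - σM x * σM (σM y)) < 1 := by
    have := S.cong_σM hA
    rwa [map_mul, map_pow, map_mul] at this
  have hB' : VM.valuation (σM c₂ * σM u₂ ^ m - σM (σM x) * σM y) < 1 := by
    have := S.cong_σM hB
    rwa [map_mul, map_pow, map_mul] at this
  -- `φ x / x` and `φ y / y`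
  have hX : VM.valuation (σM (σM x) / x - (σM c₂ / c₁) * (σM u₂ / u₁) ^ m) < 1 := by
    have h1 : VM.valuation ((σM (σM x) * σM y) / (x * σM y)
        - (σM c₂ * σM u₂ ^ m) / (c₁ * u₁ ^ m)) < 1 :=
      cong_div VM (val_lt_one_symm VM hB') (val_lt_one_symm VM hA)
        (val_mul_eq_one VM hσc₂ (val_pow_eq_one VM hσu₂ m)).le
        (val_mul_eq_one VM hx hσy) hP₁
    have e1 : (σM (σM x) * σM y) / (x * σM y) = σM (σM x) / x := by
      field_simp
    have e2 : (σM c₂ * σM u₂ ^ m) / (c₁ * u₁ ^ m) = (σM c₂ / c₁) * (σM u₂ / u₁) ^ m := by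
      rw [div_pow]
      field_simp
    rwa [e1, e2] at h1
  have hY : VM.valuation (σM (σM y) / y - (σM c₁ / c₂) * (σM u₁ / u₂) ^ m) < 1 := by
    have h1 : VM.valuation ((σM x * σM (σM y)) / (σM x * y)
        - (σM c₁ * σM u₁ ^ m) / (c₂ * u₂ ^ m)) < 1 :=
      cong_div VM (val_lt_one_symm VM hA') (val_lt_one_symm VM hB)
        (val_mul_eq_one VM hσc₁ (val_pow_eq_one VM hσu₁ m)).le
        (val_mul_eq_one VM hσx hy) hP₂
    have e1 : (σM x * σM (σM y)) / (σM x * y) = σM (σM y) / y := by
      field_simp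
    have e2 : (σM c₁ * σM u₁ ^ m) / (c₂ * u₂ ^ m) = (σM c₁ / c₂) * (σM u₁ / u₂) ^ m := by
      rw [div_pow]
      field_simp
    rwa [e1, e2] at h1
  constructor
  · -- at `V₁`, through `α` and `x`
    refine ⟨α (σM c₂ / c₁), S.const_α _ (div_mem (S.const_σ _ hc₂C) hc₁C), α (σM u₂ / u₁),
      S.unit_α _ (val_div_eq_one VM hσc₂ hc₁v), S.unit_α _ (val_div_eq_one VM hσu₂ hu₁), ?_⟩
    have hαx : V₁.valuation (α x) = 1 := S.unit_α _ hx
    have h1 : V₁.valuation (σ (σ g) - α (σM (σM x))) < 1 := by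
      have := S.cong_σ₁ (S.cong_σ₁ (val_lt_one_symm V₁ hxg))
      rwa [S.comm_α, S.comm_α] at this
    have h2 : V₁.valuation (σ (σ g) / g - α (σM (σM x)) / α x) < 1 :=
      cong_div V₁ h1 (val_lt_one_symm V₁ hxg) (S.unit_α _ hσσx).le hg1 hαx
    have h3 : V₁.valuation (α (σM (σM x)) / α x - α (σM c₂ / c₁) * α (σM u₂ / u₁) ^ m) < 1 := by
      have := S.cong_α hX
      rwa [map_mul, map_pow, map_div₀ α (σM (σM x)) x] at this
    exact val_lt_one_trans V₁ h2 h3
  · -- at `V₂`, through `β` and `y`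
    refine ⟨β (σM c₁ / c₂), S.const_β _ (div_mem (S.const_σ _ hc₁C) hc₂C), β (σM u₁ / u₂),
      S.unit_β _ (val_div_eq_one VM hσc₁ hc₂v), S.unit_β _ (val_div_eq_one VM hσu₁ hu₂), ?_⟩
    have hβy : V₂.valuation (β y) = 1 := S.unit_β _ hy
    have h1 : V₂.valuation (σ (σ g) - β (σM (σM y))) < 1 := by
      have := S.cong_σ₂ (S.cong_σ₂ (val_lt_one_symm V₂ hyg))
      rwa [S.comm_β, S.comm_β] at this
    have h2 : V₂.valuation (σ (σ g) / g - β (σM (σM y)) / β y) < 1 :=
      cong_div V₂ h1 (val_lt_one_symm V₂ hyg) (S.unit_β _ hσσy).le hg2 hβy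
    have h3 : V₂.valuation (β (σM (σM y)) / β y - β (σM c₁ / c₂) * β (σM u₁ / u₂) ^ m) < 1 := by
      have := S.cong_β hY
      rwa [map_mul, map_pow, map_div₀ β (σM (σM y)) y] at this
    exact val_lt_one_trans V₂ h2 h3

end NRSetting

end Fermat.Agent.S35.G.H199.NR

end
-- ===== PACK-END S35/G/H199/NRCore.lean

-- ===== PACK-BEGIN S35/H891/Cubic.lean
section
/-
S35 top glue for the CUBIC relation, pure algebra (helper891).  Mathlib only.

`trace_of_cubicFrob` : on a nontrivial torsion-free module over a domain in which `q ≠ 0`, an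
endomorphism `s` with `s² - a s + q = 0` and `(s² - q²)(s² - 1)² = 0` has `a = ± (q + 1)`.
`quartic_of_cubicFrob` : hence `(s² - 1)(s² - q²) = 0`.
-/


set_option autoImplicit false

namespace Fermat.Agent.S35.H891

section

variable {𝒪 M : Type*} [CommRing 𝒪] [IsDomain 𝒪] [AddCommGroup M] [Module 𝒪 M]
  [Module.IsTorsionFree 𝒪 M]

/-- The cubic bad-Frobenius relation `(φ - q²)(φ - 1)² = 0`, `φ = s²`, applied to vectors:
`φ³ v - (2 + q²) φ² v + (1 + 2 q²) φ v - q² v = 0`. -/
def CubicFrobRel (q : 𝒪) (s : Module.End 𝒪 M) : Prop :=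
  ∀ v : M, s (s (s (s (s (s v))))) - (2 + q ^ 2) • s (s (s (s v))) + (1 + 2 * q ^ 2) • s (s v)
    - (q ^ 2) • v = 0

/-- An eigenvector of `s` for the eigenvalue `c` forces `c² - a c + q = 0`. -/
theorem quad_of_eigenvector {q a c : 𝒪} {s : Module.End 𝒪 M}
    (hrel : ∀ v : M, s (s v) - a • s v + q • v = 0) {v : M} (hv : v ≠ 0) (hsv : s v = c • v) :
    c * c - a * c + q = 0 := by
  have h := hrel v
  rw [hsv, map_smul, hsv, smul_smul, smul_smul, ← sub_smul, ← add_smul] at h
  rcases smul_eq_zero.mp h with h0 | h0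
  · exact h0
  · exact absurd h0 hv

/-- **Algebraic core.**  A quadratic relation with constant term `q` together with the cubic
bad-Frobenius relation pins the trace down to `± (q + 1)`. -/
theorem trace_of_cubicFrob [Nontrivial M] {q a : 𝒪} (hq : q ≠ 0) {s : Module.End 𝒪 M}
    (hrel : ∀ v : M, s (s v) - a • s v + q • v = 0) (hcub : CubicFrobRel q s) :
    a = q + 1 ∨ a = -(q + 1) := by
  obtain ⟨v, hv⟩ := exists_ne (0 : M)
  -- eigenvalue cases
  have case_one : ∀ u : M, u ≠ 0 → s u - u = 0 → a = q + 1 ∨ a = -(q + 1) := by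
    intro u hu h
    have hsu : s u = (1 : 𝒪) • u := by rw [one_smul]; exact sub_eq_zero.mp h
    have := quad_of_eigenvector hrel hu hsu
    left
    linear_combination -this
  have case_neg_one : ∀ u : M, u ≠ 0 → s u + u = 0 → a = q + 1 ∨ a = -(q + 1) := by
    intro u hu h
    have hsu : s u = (-1 : 𝒪) • u := by
      rw [neg_smul, one_smul]; exact eq_neg_of_add_eq_zero_left h
    have := quad_of_eigenvector hrel hu hsu
    right
    linear_combination this
  have case_q : ∀ u : M, u ≠ 0 → s u - q • u = 0 → a = q + 1 ∨ a = -(q + 1) := by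
    intro u hu h
    have hsu : s u = q • u := sub_eq_zero.mp h
    have := quad_of_eigenvector hrel hu hsu
    left
    have h5 : q * (q - a + 1) = 0 := by linear_combination this
    rcases mul_eq_zero.mp h5 with h6 | h6
    · exact absurd h6 hq
    · linear_combination -h6
  have case_neg_q : ∀ u : M, u ≠ 0 → s u + q • u = 0 → a = q + 1 ∨ a = -(q + 1) := by
    intro u hu h
    have hsu : s u = (-q) • u := by
      rw [neg_smul]; exact eq_neg_of_add_eq_zero_left h
    have := quad_of_eigenvector hrel hu hsu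
    right
    have h5 : q * (q + a + 1) = 0 := by linear_combination this
    rcases mul_eq_zero.mp h5 with h6 | h6
    · exact absurd h6 hq
    · linear_combination h6
  -- the six factors `(s+1)(s+1)(s-1)(s-1)(s+q)(s-q)`
  set v₁ : M := s v + v with hv₁
  set v₂ : M := s v₁ + v₁ with hv₂
  set v₃ : M := s v₂ - v₂ with hv₃
  set v₄ : M := s v₃ - v₃ with hv₄
  set v₅ : M := s v₄ + q • v₄ with hv₅
  have h6 : s v₅ - q • v₅ = 0 := by
    have := hcub v
    rw [hv₅, hv₄, hv₃, hv₂, hv₁]
    simp only [map_add, map_sub, map_smul]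
    rw [← this]
    module
  by_cases h1 : v₁ = 0
  · exact case_neg_one v hv (by rw [← hv₁]; exact h1)
  by_cases h2 : v₂ = 0
  · exact case_neg_one v₁ h1 (by rw [← hv₂]; exact h2)
  by_cases h3 : v₃ = 0
  · exact case_one v₂ h2 (by rw [← hv₃]; exact h3)
  by_cases h4 : v₄ = 0
  · exact case_one v₃ h3 (by rw [← hv₄]; exact h4)
  by_cases h5 : v₅ = 0
  · exact case_neg_q v₄ h4 (by rw [← hv₅]; exact h5)
  exact case_q v₅ h5 h6

/-- The quartic relation `(s² - 1)(s² - q²) = 0` from the quadratic relation with trace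
`± (q + 1)`. -/
theorem quartic_of_trace {q a : 𝒪} {s : Module.End 𝒪 M}
    (hrel : ∀ v : M, s (s v) - a • s v + q • v = 0) (ha : a = q + 1 ∨ a = -(q + 1)) (v : M) :
    s (s (s (s v))) - (1 + q ^ 2) • s (s v) + (q ^ 2) • v = 0 := by
  have h2 : s (s v) = a • s v - q • v := by
    have h := hrel v
    have h' : s (s v) = s (s v) - a • s v + q • v + (a • s v - q • v) := by abel
    rw [h', h, zero_add]
  have h3 : s (s (s v)) = (a ^ 2 - q) • s v - (a * q) • v := by
    rw [h2, map_sub, map_smul, map_smul, h2]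
    module
  have h4 : s (s (s (s v))) = (a ^ 3 - 2 * a * q) • s v + (q ^ 2 - a ^ 2 * q) • v := by
    rw [h3, map_sub, map_smul, map_smul, h2]
    module
  rw [h4, h2]
  rcases ha with rfl | rfl
  · module
  · module

/-- **The quartic relation from the cubic one.** -/
theorem quartic_of_cubicFrob [Nontrivial M] {q a : 𝒪} (hq : q ≠ 0) {s : Module.End 𝒪 M}
    (hrel : ∀ v : M, s (s v) - a • s v + q • v = 0) (hcub : CubicFrobRel q s) (v : M) :
    s (s (s (s v))) - (1 + q ^ 2) • s (s v) + (q ^ 2) • v = 0 :=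
  quartic_of_trace hrel (trace_of_cubicFrob hq hrel hcub) v

end

end Fermat.Agent.S35.H891

end
-- ===== PACK-END S35/H891/Cubic.lean

-- ===== PACK-BEGIN S35/H252/XSpec.lean
section
/-
S35, piece (X) (helper252): frozen interface Props for the exclusion statement
`Fermat.Agent.S35.H991.ExclTateStatement` (S35/H991/Mid.lean).

  ExclTateStatement  <=  ExclPolyStatement               (S35/H252/ExclGlue.lean, this seat)
  ExclPolyStatement  <=  XFormsStatement + XJacStatement  (`exclPoly_of`, below)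

* `XFormsStatement` (forms side): for a newform `g` of level `M`, a prime `q ∣ M` and a finite
  set `S` containing the primes of `M` there is a polynomial `t` in the Hecke operators `T_ℓ`,
  `ℓ ∉ S`, which is `0` on `S₂(Γ₀(M / q))` and with `t(a_ℓ(g)) ≠ 0`.
* `XJacStatement` (Jacobian side, "FACTOR"): a polynomial `t` in the `T_ℓ`, `ℓ ∉ S`
  (`S ∋ p`, `S ⊇ primes of N`), which is `0` on `S₂(Γ₀(N))` kills the `p`-power torsion of `J₀(N)`.

This file imports the Prelude only.
-/




set_option autoImplicit false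

namespace Fermat.Agent.S35.H252

open CongruenceSubgroup

/-- **(X), polynomial form.**  There is a polynomial in the Hecke operators away from `S` which
kills the `p`-power torsion of `J₀(M / q)` but not the newform `g` of level `M`. -/
def ExclPolyStatement : Prop :=
  ∀ (M : ℕ) [NeZero M] (g : CuspForm (Gamma0 M) 2), g.IsNewform →
    ∀ (q : ℕ) [NeZero (M / q)], q.Prime → q ∣ M →
    ∀ (p : ℕ) (S : Finset ℕ), p.Prime → p ∈ S → (∀ r : ℕ, r.Prime → r ∣ M → r ∈ S) →
    ∃ (h : ModularCurve.HeckeOperatorsCommuteBar (M / q))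
      (t : MvPolynomial {ℓ : Nat.Primes // (ℓ : ℕ) ∉ S} ℤ),
      (∀ (n : ℕ) (x : ModularCurve.JZero (M / q)), ((p : ℤ) ^ n) • x = 0 →
        ModularCurve.heckeEvalBar h (MvPolynomial.rename Subtype.val t) x = 0) ∧
      MvPolynomial.aeval (fun ℓ : {ℓ : Nat.Primes // (ℓ : ℕ) ∉ S} =>
        ModularFormClass.qCoeff g ((ℓ : Nat.Primes) : ℕ)) t ≠ 0

/-- **(X-forms).**  The eigensystem away from `S` of a newform of level `M` is cut out from
`S₂(Γ₀(M / q))` by a polynomial in the Hecke operators away from `S`. -/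
def XFormsStatement : Prop :=
  ∀ (M : ℕ) [NeZero M] (g : CuspForm (Gamma0 M) 2), g.IsNewform →
    ∀ (q : ℕ) [NeZero (M / q)], q.Prime → q ∣ M →
    ∀ (S : Finset ℕ), (∀ r : ℕ, r.Prime → r ∣ M → r ∈ S) →
    ∃ t : MvPolynomial {ℓ : Nat.Primes // (ℓ : ℕ) ∉ S} ℤ,
      (∀ f : CuspForm (Gamma0 (M / q)) 2,
        (CuspForm.heckeEvalForms (M / q) 2 (MvPolynomial.rename Subtype.val t) :
          Module.End ℂ (CuspForm (Gamma0 (M / q)) 2)) f = 0) ∧
      MvPolynomial.aeval (fun ℓ : {ℓ : Nat.Primes // (ℓ : ℕ) ∉ S} =>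
        ModularFormClass.qCoeff g ((ℓ : Nat.Primes) : ℕ)) t ≠ 0

/-- **(X-J), FACTOR.**  A polynomial in the Hecke operators away from `S` which vanishes on
`S₂(Γ₀(N))` kills the `p`-power torsion of `J₀(N)` (`p ∈ S`, primes of `N` in `S`). -/
def XJacStatement : Prop :=
  ∀ (N : ℕ) [NeZero N] (p : ℕ) (S : Finset ℕ), p.Prime → p ∈ S →
    (∀ r : ℕ, r.Prime → r ∣ N → r ∈ S) →
    ∀ t : MvPolynomial {ℓ : Nat.Primes // (ℓ : ℕ) ∉ S} ℤ,
      (∀ f : CuspForm (Gamma0 N) 2,
        (CuspForm.heckeEvalForms N 2 (MvPolynomial.rename Subtype.val t) :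
          Module.End ℂ (CuspForm (Gamma0 N) 2)) f = 0) →
      ∃ h : ModularCurve.HeckeOperatorsCommuteBar N,
        ∀ (n : ℕ) (x : ModularCurve.JZero N), ((p : ℤ) ^ n) • x = 0 →
          ModularCurve.heckeEvalBar h (MvPolynomial.rename Subtype.val t) x = 0

/-- `(X-forms) + (X-J) ⇒ (X)` in the polynomial form. -/
theorem exclPoly_of (hF : XFormsStatement) (hJ : XJacStatement) : ExclPolyStatement := by
  intro M _ g hg q _ hq hqM p S hp hpS hMS
  obtain ⟨t, ht0, htg⟩ := hF M g hg q hq hqM S hMS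
  have hNS : ∀ r : ℕ, r.Prime → r ∣ M / q → r ∈ S := fun r hr hrN =>
    hMS r hr (hrN.trans (Nat.div_dvd_of_dvd hqM))
  obtain ⟨h, hkill⟩ := hJ (M / q) p S hp hpS hNS t ht0
  exact ⟨h, t, hkill, htg⟩

end Fermat.Agent.S35.H252

end
-- ===== PACK-END S35/H252/XSpec.lean

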