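import Mathlib.NumberTheory.ModularForms.LFunction
import Fermat.Prelude.Def_CuspForm_Newforms
import Fermat.Prelude.Def_CuspForm_HeckeAlgebra
import Mathlib
import Mathlib.RingTheory.Valuation.ValuationSubring
import Mathlib.Tactic.LinearCombination
import Mathlib.Tactic.FieldSimp
import Fermat.Prelude.Def_FLTPrelim_Ramification
import Fermat.Prelude.Thm_IsAdicComplete_of_module_finite
import Fermat.Agent.Pack.S43MC.G0E2L3

-- ===== PACK-BEGIN Lib/Newform/H958/X/Spec.lean
section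




/-!
# NEWFORM, block X: cross-level strong multiplicity one via Hecke `L`-functions

Cross-level strong multiplicity one is *not* accessible by the Petersson-free algebra of the
rest of the library (level raising congruences show that any proof must use an Archimedean
input).  Mathlib has the completed `L`-function of a modular form with its functional equation
(`Mathlib/NumberTheory/ModularForms/LFunction.lean`), and this is enough:

* `f`, `g` Prelude-newforms of levels `N`, `N'` with `a_ℓ(f) = a_ℓ(g)` for all primes `ℓ` outside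
  a finite set `T ⊇ primes (N N')`.  Depleting at `T` gives, for `Re s > 2`,
  `Λ_f(s) ∏_{p ∈ T} P_{f,p}(p^{-s}) = Λ_g(s) ∏_{p ∈ T} P_{g,p}(p^{-s})`, hence for all `s`.
* Functional equations `Λ_f(2 - s) = - w_f N^{s-1} Λ_f(s)` (`w_f = ±1` by same-level
  multiplicity one) and the same for `g` give an identity between finite Dirichlet polynomials,
  which splits prime by prime (independence of the functions `p^{-s}`):
  `X^{e'} P~_f P_g = c X^{e} P_f P~_g`, `e = v_q(N)`, `e' = v_q(N')`, `P~(X) = X² P(q⁻²/X)`.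
* With `a_q ∈ {0, ±1}` at bad primes (`BadCoeff`) a coefficient comparison gives `e = e'` and
  `P_f = P_g`, except in the case `e = 1`, `e' = 0`, where it gives `a_q(g) = ±(q + 1)`; this
  is excluded by the strict trivial bound (helper263).  The case `e ≥ 2 > e'`, which is all
  that the Carayol-type statement S36 needs, does not use the strict bound.

Every statement below is a `Prop`-valued definition (frozen interface).
-/

set_option autoImplicit false

open CongruenceSubgroup UpperHalfPlane Complex Polynomial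
open scoped MatrixGroups ModularForm

namespace Fermat.Agent.Lib.Newform.H958.X

open ModularFormClass

/-- The Fricke matrix `[[0, -1], [N, 0]]`. -/
noncomputable def frickeMatrix (N : ℕ) [NeZero N] : GL (Fin 2) ℝ :=
  Matrix.GeneralLinearGroup.mkOfDetNeZero !![0, -1; (N : ℝ), 0]
    (by
      rw [Matrix.det_fin_two_of]
      have : (N : ℝ) ≠ 0 := Nat.cast_ne_zero.mpr (NeZero.ne N)
      simpa using this)

/-- The completed `L`-function of a cusp form of weight `2` and level `Γ₀(N)` (Mathlib's). -/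
noncomputable def Lam {N : ℕ} [NeZero N] (f : CuspForm (Gamma0 N) 2) : ℂ → ℂ :=
  ModularForm.Λ (k := 2) two_pos f

/-- The Euler polynomial `1 - a_p X + [p ∤ N] p X²`. -/
noncomputable def eulerPoly (N : ℕ) (a : ℕ → ℂ) (p : ℕ) : ℂ[X] :=
  1 - C (a p) * X + (if p ∣ N then 0 else C (p : ℂ) * X ^ 2)

/-- The reversed Euler polynomial `X² P(p⁻² X⁻¹) = X² - a_p p⁻² X + [p ∤ N] p⁻³`. -/
noncomputable def eulerPolyRev (N : ℕ) (a : ℕ → ℂ) (p : ℕ) : ℂ[X] :=
  X ^ 2 - C (a p * ((p : ℂ) ^ 2)⁻¹) * X + (if p ∣ N then 0 else C (((p : ℂ) ^ 3)⁻¹))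

/-! ## Leaves -/

/-- **X1** the Fricke involution preserves `S₂(Γ₀(N))`. -/
def FrickeOp : Prop :=
  ∀ (N : ℕ) [NeZero N] (f : CuspForm (Gamma0 N) 2),
    ∃ f' : CuspForm (Gamma0 N) 2, (⇑f' : ℍ → ℂ) = ⇑f ∣[(2 : ℤ)] frickeMatrix N

/-- **X1b** it is an involution (weight 2). -/
def FrickeInvol : Prop :=
  ∀ (N : ℕ) [NeZero N] (f : ℍ → ℂ),
    (f ∣[(2 : ℤ)] frickeMatrix N) ∣[(2 : ℤ)] frickeMatrix N = f

/-- **X1c** it commutes with `T_ℓ`, `ℓ ∤ N`, on `Γ₀(N)`-invariant functions. -/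
def FrickeHecke : Prop :=
  ∀ (N : ℕ) [NeZero N] (ℓ : ℕ), ℓ.Prime → ¬ ℓ ∣ N → ∀ f : CuspForm (Gamma0 N) 2,
    ModularForm.heckeT 2 ℓ (⇑f ∣[(2 : ℤ)] frickeMatrix N) =
      (ModularForm.heckeT 2 ℓ ⇑f) ∣[(2 : ℤ)] frickeMatrix N

/-- **X3** functional equation (from Mathlib's `WeakFEPair.functional_equation` for
`ModularForm.weakFEPair`, `ε = I² = -1`, and `(f ∣ S)(i t) = N⁻¹ (f ∣ W_N)(i t / N)`). -/
def FunctionalEq : Prop :=
  ∀ (N : ℕ) [NeZero N] (f f' : CuspForm (Gamma0 N) 2),
    (⇑f' : ℍ → ℂ) = ⇑f ∣[(2 : ℤ)] frickeMatrix N →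
    ∀ s : ℂ, Lam f (2 - s) = -((N : ℂ) ^ (s - 1)) * Lam f' s

/-- **X4** Dirichlet series (Mathlib's `CuspForm.hasSum_L`, width `1`). -/
def DirichletSeries : Prop :=
  ∀ (N : ℕ) [NeZero N] (f : CuspForm (Gamma0 N) 2) (s : ℂ), 2 < s.re →
    HasSum (fun n : ℕ => qCoeff f n / (n : ℂ) ^ s) (Lam f s * (2 / Gammaℂ s))

/-- **X5** depletion: multiplying by the Euler polynomials at the primes of a finite set `T`
removes the coefficients `a_n` with `gcd(n, T) ≠ 1`. -/
def Deplete : Prop :=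
  ∀ (N : ℕ) [NeZero N] (f : CuspForm (Gamma0 N) 2), f.IsNormalizedEigenform →
    ∀ (T : Finset ℕ), (∀ p ∈ T, p.Prime) → ∀ s : ℂ, 2 < s.re →
      HasSum (fun n : ℕ => (if ∀ p ∈ T, ¬ p ∣ n then qCoeff f n else 0) / (n : ℂ) ^ s)
        (Lam f s * (2 / Gammaℂ s) *
          ∏ p ∈ T, (eulerPoly N (qCoeff f) p).eval ((p : ℂ) ^ (-s)))

/-- **X7** independence of the functions `p^{-s}`: an identity between products of
one-variable polynomials in `p^{-s}`, `p ∈ T`, splits prime by prime, up to constants. -/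
def IndepLocal : Prop :=
  ∀ (T : Finset ℕ), (∀ p ∈ T, p.Prime) → ∀ (A B : ℕ → ℂ[X]),
    (∀ p ∈ T, A p ≠ 0) → (∀ p ∈ T, B p ≠ 0) →
    (∀ s : ℂ, ∏ p ∈ T, (A p).eval ((p : ℂ) ^ (-s)) = ∏ p ∈ T, (B p).eval ((p : ℂ) ^ (-s))) →
    ∀ q ∈ T, ∃ c : ℂ, c ≠ 0 ∧ A q = C c * B q

/-- **STRICT** (helper263): strict trivial bound, in the form used here. -/
def StrictBound : Prop :=
  ∀ (N : ℕ) [NeZero N] (g : CuspForm (Gamma0 N) 2), g.IsNormalizedEigenform →
    ∀ ℓ : ℕ, ℓ.Prime → ¬ ℓ ∣ N → qCoeff g ℓ ^ 2 ≠ ((ℓ : ℂ) + 1) ^ 2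

/-- **MULT-ONE** (same level; copy of `H23.MultOne`, to keep this file independent). -/
def MultOne : Prop :=
  ∀ (N : ℕ) [NeZero N] (f : CuspForm (Gamma0 N) 2), f.IsNewform →
    ∀ h : CuspForm (Gamma0 N) 2,
      (∀ (ℓ : ℕ) (hℓ : ℓ.Prime) (hℓN : ¬ ℓ ∣ N),
        CuspForm.heckeTLin 2 hℓ hℓN h = qCoeff f ℓ • h) →
      h = qCoeff h 1 • f

/-! ## Targets -/

/-- **X-LOCAL**: the local identity at every prime, for two newforms with the same eigenvalues
outside a finite set. -/
def LocalIdentity : Prop :=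
  ∀ (N N' : ℕ) [NeZero N] [NeZero N'] (f : CuspForm (Gamma0 N) 2)
    (g : CuspForm (Gamma0 N') 2), f.IsNewform → g.IsNewform →
    ∀ S : Finset ℕ, (∀ ℓ : ℕ, ℓ.Prime → ℓ ∉ S → qCoeff f ℓ = qCoeff g ℓ) →
    ∀ q : ℕ, q.Prime → ∃ c : ℂ, c ≠ 0 ∧
      X ^ (N'.factorization q) * eulerPolyRev N (qCoeff f) q * eulerPoly N' (qCoeff g) q =
        C c * (X ^ (N.factorization q) * eulerPoly N (qCoeff f) q *
          eulerPolyRev N' (qCoeff g) q)

/-- **X-SQ** (what S36 needs): if a newform of level `N` and a normalized eigenform of level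
`N'` have the same eigenvalues outside a finite set of primes, then `q² ∣ N → q² ∣ N'`. -/
def CrossLevelSq : Prop :=
  ∀ (N N' : ℕ) [NeZero N] [NeZero N'] (f : CuspForm (Gamma0 N) 2)
    (g : CuspForm (Gamma0 N') 2), f.IsNewform → g.IsNormalizedEigenform →
    ∀ S : Finset ℕ, (∀ ℓ : ℕ, ℓ.Prime → ℓ ∉ S → qCoeff f ℓ = qCoeff g ℓ) →
    ∀ q : ℕ, q.Prime → q ^ 2 ∣ N → q ^ 2 ∣ N'

/-- **X-LEVEL**: the level of a newform divides the level of every normalized eigenform with
the same eigenvalues outside a finite set of primes. -/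
def CrossLevel : Prop :=
  ∀ (N N' : ℕ) [NeZero N] [NeZero N'] (f : CuspForm (Gamma0 N) 2)
    (g : CuspForm (Gamma0 N') 2), f.IsNewform → g.IsNormalizedEigenform →
    ∀ S : Finset ℕ, (∀ ℓ : ℕ, ℓ.Prime → ℓ ∉ S → qCoeff f ℓ = qCoeff g ℓ) → N ∣ N'

/-- **X-SMO**: strong multiplicity one for Prelude-newforms. -/
def StrongMultOne : Prop :=
  ∀ (N N' : ℕ) [NeZero N] [NeZero N'] (f : CuspForm (Gamma0 N) 2)
    (g : CuspForm (Gamma0 N') 2), f.IsNewform → g.IsNewform →
    ∀ S : Finset ℕ, (∀ ℓ : ℕ, ℓ.Prime → ℓ ∉ S → qCoeff f ℓ = qCoeff g ℓ) →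
    N = N' ∧ ∀ n : ℕ, qCoeff f n = qCoeff g n

end Fermat.Agent.Lib.Newform.H958.X

end
-- ===== PACK-END Lib/Newform/H958/X/Spec.lean

-- ===== PACK-BEGIN Lib/Newform/H443/EigenDescent.lean
section
/-
NEWFORM library (helper443) — linear algebra for STRONG MULTIPLICITY ONE.

`exists_eigenvector_of_equivariant`:  let `S i` be commuting endomorphisms of a finite-dimensional
space `V`, `T i` endomorphisms of `W`, `Φ : V → W` an equivariant linear map.  If a NONZERO
simultaneous eigenvector `h` of the `T i` (eigenvalues `a i`) lies in the range of `Φ`, then the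
`S i` have a nonzero simultaneous eigenvector in `V` with the SAME eigenvalues `a i`.
(No hypothesis on the field: the eigenvalues are given.)

`exists_eigenvector_of_equivariant_family`: the same for a finite family `Φ j : V j → W`
and `h ∈ ⨆ j, range (Φ j)`: the eigensystem occurs in one of the `V j`.

Intended use: `V j = S_2(Γ₀(N/q))` (two copies per prime `q ∣ N`), `Φ j` = degeneracy maps,
`W = S_2(Γ₀(N))`, `T i = T_ℓ` for `ℓ ∤ N`:  an eigenvector in the old space has its eigensystem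
at a lower level.
-/


set_option autoImplicit false

namespace Fermat.Agent.Lib.Newform.H443

open Module

section LemmaA

variable {K V ι : Type*} [Field K] [AddCommGroup V] [Module K V]

/-- Commuting operators `S i` on a nonzero finite-dimensional stable subspace `U` on which every
`S i - a i` is locally nilpotent have a common eigenvector in `U` with eigenvalues `a i`. -/
theorem exists_common_eigenvector_of_locally_nilpotent
    (S : ι → Module.End K V) (hS : ∀ i j, Commute (S i) (S j)) (a : ι → K) :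
    ∀ (U : Submodule K V), FiniteDimensional K U → U ≠ ⊥ → (∀ i, ∀ v ∈ U, S i v ∈ U) →
      (∀ i, ∀ v ∈ U, ∃ n : ℕ, ((S i - a i • (1 : Module.End K V)) ^ n) v = 0) →
      ∃ v ∈ U, v ≠ 0 ∧ ∀ i, S i v = a i • v := by
  intro U
  induction hd : finrank K U using Nat.strong_induction_on generalizing U with
  | _ d ih =>
    intro hfin hU hstab hnil
    by_cases hall : ∀ i, ∀ v ∈ U, S i v = a i • v
    · obtain ⟨v, hv, hv0⟩ := Submodule.exists_mem_ne_zero_of_ne_bot hU
      exact ⟨v, hv, hv0, fun i => hall i v hv⟩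
    · push Not at hall
      obtain ⟨i, v₀, hv₀U, hv₀⟩ := hall
      set Ni : Module.End K V := S i - a i • (1 : Module.End K V) with hNi
      have hNi_apply : ∀ v, Ni v = S i v - a i • v := fun v => by simp [hNi]
      have hNiU : ∀ v ∈ U, Ni v ∈ U := fun v hv => by
        rw [hNi_apply]; exact U.sub_mem (hstab i v hv) (U.smul_mem _ hv)
      have hNipowU : ∀ n : ℕ, ∀ v ∈ U, (Ni ^ n) v ∈ U := by
        intro n
        induction n with
        | zero => intro v hv; simpa using hv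
        | succ n ihn =>
          intro v hv
          rw [pow_succ', Module.End.mul_apply]
          exact hNiU _ (ihn v hv)
      -- the subspace `U ⊓ ker Ni`
      set U' : Submodule K V := U ⊓ LinearMap.ker Ni with hU'
      have hU'le : U' ≤ U := inf_le_left
      -- it is nonzero
      have hU'ne : U' ≠ ⊥ := by
        classical
        have hex : ∃ n : ℕ, (Ni ^ n) v₀ = 0 := hnil i v₀ hv₀U
        have hv₀ne : v₀ ≠ 0 := by
          rintro rfl
          exact hv₀ (by simp)
        have hn0 : Nat.find hex ≠ 0 := by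
          intro h0
          have := Nat.find_spec hex
          rw [h0] at this
          exact hv₀ne (by simpa using this)
        obtain ⟨m, hm⟩ := Nat.exists_eq_succ_of_ne_zero hn0
        have hmin : (Ni ^ m) v₀ ≠ 0 := Nat.find_min hex (by omega)
        have hker : Ni ((Ni ^ m) v₀) = 0 := by
          have := Nat.find_spec hex
          rw [hm, Nat.succ_eq_add_one, pow_succ', Module.End.mul_apply] at this
          exact this
        intro hbot
        have hmem : (Ni ^ m) v₀ ∈ U' :=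
          Submodule.mem_inf.mpr ⟨hNipowU m v₀ hv₀U, LinearMap.mem_ker.mpr hker⟩
        rw [hbot] at hmem
        exact hmin (by simpa using hmem)
      -- it is stable
      have hcomm : ∀ j, Commute (S j) Ni := fun j =>
        ((hS j i).sub_right ((Commute.one_right (S j)).smul_right (a i)))
      have hU'stab : ∀ j, ∀ v ∈ U', S j v ∈ U' := by
        intro j v hv
        have hv' := Submodule.mem_inf.mp hv
        refine Submodule.mem_inf.mpr ⟨hstab j v hv'.1, ?_⟩
        have h1 : Ni (S j v) = S j (Ni v) := by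
          have := congrArg (fun f : Module.End K V => f v) (hcomm j).eq
          simpa [Module.End.mul_apply] using this.symm
        have h2 : Ni v = 0 := LinearMap.mem_ker.mp hv'.2
        rw [LinearMap.mem_ker, h1, h2, map_zero]
      -- it is proper
      have hv₀U' : v₀ ∉ U' := by
        intro hmem
        have h2 : Ni v₀ = 0 := LinearMap.mem_ker.mp (Submodule.mem_inf.mp hmem).2
        rw [hNi_apply, sub_eq_zero] at h2
        exact hv₀ h2
      have hlt : finrank K U' < finrank K U := by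
        apply Submodule.finrank_lt_finrank_of_lt
        exact lt_of_le_of_ne hU'le (fun heq => hv₀U' (heq ▸ hv₀U))
      have hfin' : FiniteDimensional K U' := Submodule.finiteDimensional_of_le hU'le
      obtain ⟨v, hv, hv0, hveig⟩ := ih (finrank K U') (hd ▸ hlt) U' rfl hfin' hU'ne hU'stab
        (fun j v hv => hnil j v (hU'le hv))
      exact ⟨v, hU'le hv, hv0, hveig⟩

end LemmaA

section LemmaB

variable {K V W ι : Type*} [Field K] [AddCommGroup V] [Module K V] [FiniteDimensional K V]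
  [AddCommGroup W] [Module K W]

/-- **Eigenvector descent.**  If a nonzero simultaneous eigenvector `h` of the `T i` lies in the
range of an equivariant map `Φ : V → W` (`V` finite-dimensional, the `S i` commuting), then the
same eigensystem occurs in `V`. -/
theorem exists_eigenvector_of_equivariant
    (S : ι → Module.End K V) (T : ι → Module.End K W) (hS : ∀ i j, Commute (S i) (S j))
    (Φ : V →ₗ[K] W) (hΦ : ∀ i v, Φ (S i v) = T i (Φ v))
    (a : ι → K) {h : W} (hh : h ≠ 0) (hmem : h ∈ LinearMap.range Φ)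
    (heig : ∀ i, T i h = a i • h) :
    ∃ v : V, v ≠ 0 ∧ ∀ i, S i v = a i • v := by
  classical
  -- the predicate on subspaces
  let Q : Submodule K V → Prop := fun U =>
    (∀ i, ∀ v ∈ U, S i v ∈ U) ∧ (∀ v ∈ U, ∃ c : K, Φ v = c • h) ∧ (∃ u ∈ U, Φ u = h)
  have hQV : Q ((Submodule.span K {h}).comap Φ) := by
    refine ⟨?_, ?_, ?_⟩
    · intro i v hv
      rw [Submodule.mem_comap, Submodule.mem_span_singleton] at hv ⊢
      obtain ⟨c, hc⟩ := hv
      exact ⟨c * a i, by rw [hΦ, ← hc, map_smul, heig, smul_smul]⟩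
    · intro v hv
      rw [Submodule.mem_comap, Submodule.mem_span_singleton] at hv
      obtain ⟨c, hc⟩ := hv
      exact ⟨c, hc.symm⟩
    · obtain ⟨u, hu⟩ := hmem
      exact ⟨u, by rw [Submodule.mem_comap, hu]; exact Submodule.mem_span_singleton_self h, hu⟩
  have hex : ∃ d : ℕ, ∃ U : Submodule K V, Q U ∧ finrank K U = d := ⟨_, _, hQV, rfl⟩
  obtain ⟨U, hQU, hUd⟩ := Nat.find_spec hex
  have hmin : ∀ U' : Submodule K V, Q U' → finrank K U ≤ finrank K U' := by
    intro U' hQU'
    rw [hUd]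
    exact Nat.find_min' hex ⟨U', hQU', rfl⟩
  obtain ⟨hstab, hline, u, huU, hu⟩ := hQU
  have hUne : U ≠ ⊥ := by
    intro hbot
    rw [hbot, Submodule.mem_bot] at huU
    rw [huU, map_zero] at hu
    exact hh hu.symm
  -- local nilpotency on `U`
  have hnil : ∀ i, ∀ v ∈ U, ∃ n : ℕ, ((S i - a i • (1 : Module.End K V)) ^ n) v = 0 := by
    intro i
    set Ni : Module.End K V := S i - a i • (1 : Module.End K V) with hNi
    have hNi_apply : ∀ v, Ni v = S i v - a i • v := fun v => by simp [hNi]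
    have hNiU : ∀ v ∈ U, Ni v ∈ U := fun v hv => by
      rw [hNi_apply]; exact U.sub_mem (hstab i v hv) (U.smul_mem _ hv)
    have hΦNi : ∀ v ∈ U, Φ (Ni v) = 0 := by
      intro v hv
      obtain ⟨c, hc⟩ := hline v hv
      rw [hNi_apply, map_sub, hΦ, map_smul, hc, map_smul, heig, smul_comm, sub_self]
    -- the restriction and its Fitting decomposition
    let f : Module.End K U := Ni.restrict hNiU
    have hfit : IsCompl (⨆ n : ℕ, LinearMap.ker (f ^ n)) (⨅ n : ℕ, LinearMap.range (f ^ n)) :=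
      LinearMap.isCompl_iSup_ker_pow_iInf_range_pow f
    have hfpow : ∀ (n : ℕ) (x : U), ((f ^ n) x : V) = (Ni ^ n) (x : V) := by
      intro n
      induction n with
      | zero => intro x; simp
      | succ n ihn =>
        intro x
        rw [pow_succ', pow_succ', Module.End.mul_apply, Module.End.mul_apply]
        show Ni ((f ^ n) x : V) = _
        rw [ihn]
    -- the generalised kernel, as a subspace of `V`
    let U₁ : Submodule K V := U ⊓ Module.End.maxGenEigenspace (S i) (a i)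
    have hU₁le : U₁ ≤ U := inf_le_left
    have hcomm : ∀ j, Commute (S j) Ni := fun j =>
      ((hS j i).sub_right ((Commute.one_right (S j)).smul_right (a i)))
    have hQU₁ : Q U₁ := by
      refine ⟨?_, fun v hv => hline v (hU₁le hv), ?_⟩
      · intro j v hv
        have hv' := Submodule.mem_inf.mp hv
        refine Submodule.mem_inf.mpr ⟨hstab j v hv'.1, ?_⟩
        have hv2 := hv'.2
        rw [Module.End.mem_maxGenEigenspace] at hv2 ⊢
        obtain ⟨n, hn⟩ := hv2
        refine ⟨n, ?_⟩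
        have h1 : (Ni ^ n) (S j v) = S j ((Ni ^ n) v) := by
          have := congrArg (fun g : Module.End K V => g v) ((hcomm j).pow_right n).eq
          simpa [Module.End.mul_apply] using this.symm
        change (Ni ^ n) (S j v) = 0
        rw [h1]
        have hn' : (Ni ^ n) v = 0 := hn
        rw [hn', map_zero]
      · -- decompose `u`
        have htop := hfit.sup_eq_top
        have hu' : (⟨u, huU⟩ : U) ∈ (⨆ n : ℕ, LinearMap.ker (f ^ n)) ⊔
            (⨅ n : ℕ, LinearMap.range (f ^ n)) := by rw [htop]; trivial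
        obtain ⟨x, hx, y, hy, hxy⟩ := Submodule.mem_sup.mp hu'
        -- `y` is in the range of `f`, so `Φ y = 0`
        have hy1 : y ∈ LinearMap.range (f ^ 1) := (Submodule.mem_iInf _).mp hy 1
        obtain ⟨w, hw⟩ := hy1
        have hΦy : Φ (y : V) = 0 := by
          rw [← hw, pow_one]
          exact hΦNi w w.2
        -- `x` is in the generalised kernel
        have hxn : ∃ n : ℕ, (f ^ n) x = 0 := by
          have hmono : Monotone (fun n : ℕ => LinearMap.ker (f ^ n)) := by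
            intro m n hmn z hz
            rw [LinearMap.mem_ker] at hz ⊢
            obtain ⟨k, rfl⟩ := Nat.exists_eq_add_of_le hmn
            rw [add_comm, pow_add, Module.End.mul_apply, hz, map_zero]
          have := (Submodule.mem_iSup_of_directed _ (Monotone.directed_le hmono)).mp hx
          obtain ⟨n, hn⟩ := this
          exact ⟨n, hn⟩
        obtain ⟨n, hn⟩ := hxn
        refine ⟨(x : V), Submodule.mem_inf.mpr ⟨x.2, ?_⟩, ?_⟩
        · rw [Module.End.mem_maxGenEigenspace]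
          refine ⟨n, ?_⟩
          have := hfpow n x
          rw [hn] at this
          exact this.symm
        · have hsum : (x : V) + (y : V) = u := by
            have := congrArg (fun z : U => (z : V)) hxy
            simpa using this
          have : Φ u = Φ (x : V) + Φ (y : V) := by rw [← hsum, map_add]
          rw [hΦy, add_zero] at this
          rw [← this, hu]
    have hU₁eq : U₁ = U := by
      apply Submodule.eq_of_le_of_finrank_le hU₁le
      exact hmin U₁ hQU₁
    intro v hv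
    have hv1 : v ∈ U₁ := hU₁eq ▸ hv
    have hv2 := (Submodule.mem_inf.mp hv1).2
    rw [Module.End.mem_maxGenEigenspace] at hv2
    exact hv2
  obtain ⟨v, -, hv0, hv⟩ := exists_common_eigenvector_of_locally_nilpotent S hS a U
    inferInstance hUne hstab hnil
  exact ⟨v, hv0, hv⟩

end LemmaB

section Family

variable {K W ι J : Type*} [Field K] [Finite J]
  {V : J → Type*} [∀ j, AddCommGroup (V j)] [∀ j, Module K (V j)]
  [∀ j, FiniteDimensional K (V j)] [AddCommGroup W] [Module K W]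

/-- **Eigenvector descent, finite family.**  If a nonzero simultaneous eigenvector `h` of the
`T i` lies in the sum of the ranges of finitely many equivariant maps `Φ j : V j → W`
(each `V j` finite-dimensional with commuting operators `S j i`), then the same eigensystem
occurs in one of the `V j`. -/
theorem exists_eigenvector_of_equivariant_family
    (S : ∀ j, ι → Module.End K (V j)) (T : ι → Module.End K W)
    (hS : ∀ j i i', Commute (S j i) (S j i'))
    (Φ : ∀ j, V j →ₗ[K] W) (hΦ : ∀ j i v, Φ j (S j i v) = T i (Φ j v))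
    (a : ι → K) {h : W} (hh : h ≠ 0) (hmem : h ∈ ⨆ j, LinearMap.range (Φ j))
    (heig : ∀ i, T i h = a i • h) :
    ∃ j, ∃ v : V j, v ≠ 0 ∧ ∀ i, S j i v = a i • v := by
  classical
  have : Fintype J := Fintype.ofFinite J
  -- the product space
  let Stot : ι → Module.End K (∀ j, V j) := fun i =>
    LinearMap.pi (fun j => (S j i).comp (LinearMap.proj j))
  let Φtot : (∀ j, V j) →ₗ[K] W := ∑ j, (Φ j).comp (LinearMap.proj j)
  have hStot_apply : ∀ i (v : ∀ j, V j) j, Stot i v j = S j i (v j) := fun i v j => rfl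
  have hΦtot_apply : ∀ v : ∀ j, V j, Φtot v = ∑ j, Φ j (v j) := by
    intro v
    simp [Φtot, LinearMap.sum_apply]
  have hcomm : ∀ i i', Commute (Stot i) (Stot i') := by
    intro i i'
    apply LinearMap.ext
    intro v
    funext j
    have := congrArg (fun g : Module.End K (V j) => g (v j)) (hS j i i').eq
    simpa [Module.End.mul_apply, hStot_apply] using this
  have hequiv : ∀ i v, Φtot (Stot i v) = T i (Φtot v) := by
    intro i v
    rw [hΦtot_apply, hΦtot_apply, map_sum]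
    exact Finset.sum_congr rfl (fun j _ => by rw [hStot_apply, hΦ])
  have hrange : h ∈ LinearMap.range Φtot := by
    have hle : (⨆ j, LinearMap.range (Φ j)) ≤ LinearMap.range Φtot := by
      apply iSup_le
      rintro j _ ⟨v, rfl⟩
      refine ⟨Pi.single j v, ?_⟩
      rw [hΦtot_apply, Finset.sum_eq_single j]
      · simp
      · intro j' _ hj'
        simp [Pi.single_eq_of_ne hj']
      · intro hj
        exact absurd (Finset.mem_univ j) hj
    exact hle hmem
  obtain ⟨v, hv0, hv⟩ := exists_eigenvector_of_equivariant Stot T hcomm Φtot hequiv a hh hrange heig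
  have hex : ∃ j, v j ≠ 0 := by
    by_contra hcon
    push Not at hcon
    exact hv0 (funext hcon)
  obtain ⟨j, hj⟩ := hex
  refine ⟨j, v j, hj, fun i => ?_⟩
  have := congrFun (hv i) j
  simpa [hStot_apply] using this

end Family

end Fermat.Agent.Lib.Newform.H443

end
-- ===== PACK-END Lib/Newform/H443/EigenDescent.lean

-- ===== PACK-BEGIN S36/H630/ValAt.lean
section


/-!
# S36 engine, LABEL core (helper630), part 1: values at closed points along sheets

Elementwise language (no localisation types, no residue-field types).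

* `R` base ring (a DVR in the application), `F` a field over `R`, `B ⊆ F` a chart,
  `n` a closed point of the special fibre of `B` (a prime ideal of `B`),
  `V` a *sheet*: a valuation subring of `F` containing `B` (a component of the special fibre);
  `V` *passes through* `n` if every element of `B` vanishing on `V` lies in `n`.

* `ValAt B n V d η` : on the sheet `V` the function `d` is congruent to a quotient `a / b`,
  `a, b ∈ B`, `b ∉ n`, whose value at `n` is the constant `η ∈ R`: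
  "the residue of `d` on the component `V` is regular at `n` and takes the value `η` there".

The values are unique modulo `n` (`ValAt.unique`), multiplicative (`ValAt.mul`, `ValAt.pow`,
`ValAt.inv`), an element of `B_n` has the same value along every sheet (`ValAt.of_frac`), and
a function which is congruent to a constant on `V` has this constant as value (`ValAt.const`).
-/

set_option autoImplicit false

namespace Fermat.Agent.S36.H630

variable {R : Type*} [CommRing R] {F : Type*} [Field F] [Algebra R F]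

section Nonunits

variable (V : ValuationSubring F)

theorem vnu_mem {a : F} (ha : a ∈ V.nonunits) : a ∈ V := V.nonunits_subset ha

theorem vnu_zero : (0 : F) ∈ V.nonunits := by
  rw [ValuationSubring.mem_nonunits_iff, map_zero]
  exact zero_lt_one

theorem vnu_add {a b : F} (ha : a ∈ V.nonunits) (hb : b ∈ V.nonunits) :
    a + b ∈ V.nonunits := by
  rw [ValuationSubring.mem_nonunits_iff] at *
  exact Valuation.map_add_lt _ ha hb

theorem vnu_neg {a : F} (ha : a ∈ V.nonunits) : -a ∈ V.nonunits := by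
  rw [ValuationSubring.mem_nonunits_iff] at *
  rwa [Valuation.map_neg]

theorem vnu_sub {a b : F} (ha : a ∈ V.nonunits) (hb : b ∈ V.nonunits) :
    a - b ∈ V.nonunits := by
  rw [ValuationSubring.mem_nonunits_iff] at *
  exact Valuation.map_sub_lt _ ha hb

theorem vnu_mul_left {a c : F} (ha : a ∈ V.nonunits) (hc : c ∈ V) : c * a ∈ V.nonunits := by
  rw [ValuationSubring.mem_nonunits_iff] at ha ⊢
  rw [map_mul]
  have h1 : V.valuation c ≤ 1 := (V.valuation_le_one_iff c).2 hc
  calc V.valuation c * V.valuation a ≤ 1 * V.valuation a := by gcongr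
    _ = V.valuation a := one_mul _
    _ < 1 := ha

theorem vnu_mul_right {a c : F} (ha : a ∈ V.nonunits) (hc : c ∈ V) : a * c ∈ V.nonunits := by
  rw [mul_comm]
  exact vnu_mul_left V ha hc

theorem vnu_one_not : (1 : F) ∉ V.nonunits := by
  rw [ValuationSubring.mem_nonunits_iff, map_one]
  exact lt_irrefl _

/-- an element of `V` outside the maximal ideal has its inverse in `V` -/
theorem vnu_inv_mem {a : F} (ha : a ∈ V) (ha' : a ∉ V.nonunits) : a⁻¹ ∈ V := by
  rw [ValuationSubring.mem_nonunits_iff, not_lt] at ha'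
  have h1 : V.valuation a = 1 := le_antisymm ((V.valuation_le_one_iff a).2 ha) ha'
  rw [← V.valuation_le_one_iff, map_inv₀, h1, inv_one]

theorem vnu_inv_not {a : F} (ha : a ∈ V) (ha' : a ∉ V.nonunits) : a⁻¹ ∉ V.nonunits := by
  rw [ValuationSubring.mem_nonunits_iff, not_lt] at ha' ⊢
  have h1 : V.valuation a = 1 := le_antisymm ((V.valuation_le_one_iff a).2 ha) ha'
  rw [map_inv₀, h1, inv_one]

theorem vnu_mul_not {a b : F} (ha : a ∈ V) (hb : b ∈ V)
    (ha' : a ∉ V.nonunits) (hb' : b ∉ V.nonunits) : a * b ∉ V.nonunits := by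
  rw [ValuationSubring.mem_nonunits_iff, not_lt] at *
  have h1 : V.valuation a = 1 := le_antisymm ((V.valuation_le_one_iff a).2 ha) ha'
  have h2 : V.valuation b = 1 := le_antisymm ((V.valuation_le_one_iff b).2 hb) hb'
  rw [map_mul, h1, h2, one_mul]

theorem vnu_pow {a : F} (ha : a ∈ V.nonunits) {k : ℕ} (hk : k ≠ 0) : a ^ k ∈ V.nonunits := by
  obtain ⟨j, rfl⟩ := Nat.exists_eq_succ_of_ne_zero hk
  rw [pow_succ]
  exact vnu_mul_left V ha (V.pow_mem (vnu_mem V ha) j)

/-- if `a ≡ b` on `V` and `b` is a unit of `V`, so is `a` -/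
theorem vnu_unit_of_sub {a b : F} (h : a - b ∈ V.nonunits) (hb : b ∈ V) (hb' : b ∉ V.nonunits) :
    a ∈ V ∧ a ∉ V.nonunits := by
  constructor
  · have : a = (a - b) + b := by ring
    rw [this]
    exact V.add_mem _ _ (vnu_mem V h) hb
  · intro ha
    apply hb'
    have : b = a - (a - b) := by ring
    rw [this]
    exact vnu_sub V ha h

end Nonunits

/-- The chart `B` is contained in the sheet `V`. -/
def ChartLe (B : Subalgebra R F) (V : ValuationSubring F) : Prop :=
  ∀ b : B, (b : F) ∈ V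

/-- The sheet `V` passes through the closed point `n` of the chart `B`. -/
def PassThrough (B : Subalgebra R F) (n : Ideal B) (V : ValuationSubring F) : Prop :=
  ∀ c : B, (c : F) ∈ V.nonunits → c ∈ n

/-- **Value at a closed point along a sheet.** -/
def ValAt (B : Subalgebra R F) (n : Ideal B) (V : ValuationSubring F) (d : F) (η : R) : Prop :=
  ∃ a b : B, b ∉ n ∧ (b : F) * d - (a : F) ∈ V.nonunits ∧ a - algebraMap R B η * b ∈ n

section Basic

variable {B : Subalgebra R F} {n : Ideal B} {V : ValuationSubring F}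

theorem PassThrough.not_nonunits (hth : PassThrough B n V) {b : B} (hb : b ∉ n) :
    (b : F) ∉ V.nonunits := fun h => hb (hth b h)

/-- A function with a value along `V` is integral on `V`. -/
theorem ValAt.mem (hBV : ChartLe B V) (hth : PassThrough B n V) {d : F} {η : R}
    (h : ValAt B n V d η) : d ∈ V := by
  obtain ⟨a, b, hb, hV, -⟩ := h
  have hbu := hth.not_nonunits hb
  have h1 : (b : F) * d ∈ V := by
    have : (b : F) * d = ((b : F) * d - a) + a := by ring
    rw [this]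
    exact V.add_mem _ _ (vnu_mem V hV) (hBV a)
  have h2 : d = (b : F)⁻¹ * ((b : F) * d) := by
    have hb0 : (b : F) ≠ 0 := by
      intro h0
      apply hbu
      rw [h0]
      exact vnu_zero V
    field_simp
  rw [h2]
  exact V.mul_mem _ _ (vnu_inv_mem V (hBV b) hbu) h1

/-- **Uniqueness of the value** (modulo `n`). -/
theorem ValAt.unique [n.IsPrime] (hBV : ChartLe B V) (hth : PassThrough B n V) {d : F}
    {η η' : R} (h : ValAt B n V d η) (h' : ValAt B n V d η') :
    algebraMap R B (η - η') ∈ n := by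
  obtain ⟨a, b, hb, hV, hn⟩ := h
  obtain ⟨a', b', hb', hV', hn'⟩ := h'
  -- `b a' - b' a` vanishes on `V`
  have h1 : ((b * a' - b' * a : B) : F) ∈ V.nonunits := by
    have : ((b * a' - b' * a : B) : F)
        = (b' : F) * ((b : F) * d - a) - (b : F) * ((b' : F) * d - a') := by
      push_cast
      ring
    rw [this]
    exact vnu_sub V (vnu_mul_left V hV (hBV b')) (vnu_mul_left V hV' (hBV b))
  have h2 : b * a' - b' * a ∈ n := hth _ h1
  -- modulo `n`
  have h3 : b * b' * algebraMap R B (η - η') ∈ n := by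
    have : b * b' * algebraMap R B (η - η')
        = b * (a' - algebraMap R B η' * b') - b' * (a - algebraMap R B η * b)
          - (b * a' - b' * a) := by
      rw [map_sub]
      ring
    rw [this]
    exact n.sub_mem (n.sub_mem (n.mul_mem_left _ hn') (n.mul_mem_left _ hn)) h2
  rcases (Ideal.IsPrime.mem_or_mem ‹n.IsPrime› h3) with h4 | h4
  · rcases (Ideal.IsPrime.mem_or_mem ‹n.IsPrime› h4) with h5 | h5
    · exact absurd h5 hb
    · exact absurd h5 hb'
  · exact h4

/-- The value only depends on the class of the constant modulo `n`. -/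
theorem ValAt.congr_const {d : F} {η η' : R} (h : ValAt B n V d η)
    (hη : algebraMap R B (η - η') ∈ n) : ValAt B n V d η' := by
  obtain ⟨a, b, hb, hV, hn⟩ := h
  refine ⟨a, b, hb, hV, ?_⟩
  have : a - algebraMap R B η' * b = (a - algebraMap R B η * b) + algebraMap R B (η - η') * b := by
    rw [map_sub]
    ring
  rw [this]
  exact n.add_mem hn (n.mul_mem_right _ hη)

/-- The value only depends on the class of the function modulo the maximal ideal of `V`. -/
theorem ValAt.congr (hBV : ChartLe B V) {d d' : F} {η : R} (h : ValAt B n V d η)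
    (hd : d - d' ∈ V.nonunits) : ValAt B n V d' η := by
  obtain ⟨a, b, hb, hV, hn⟩ := h
  refine ⟨a, b, hb, ?_, hn⟩
  have : (b : F) * d' - a = ((b : F) * d - a) - (b : F) * (d - d') := by ring
  rw [this]
  exact vnu_sub V hV (vnu_mul_left V hd (hBV b))

/-- **Multiplicativity.** -/
theorem ValAt.mul [n.IsPrime] (hBV : ChartLe B V) (hth : PassThrough B n V) {d d' : F}
    {η η' : R} (h : ValAt B n V d η) (h' : ValAt B n V d' η') :
    ValAt B n V (d * d') (η * η') := by
  have hd'V : d' ∈ V := h'.mem hBV hth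
  obtain ⟨a, b, hb, hV, hn⟩ := h
  obtain ⟨a', b', hb', hV', hn'⟩ := h'
  refine ⟨a * a', b * b', ?_, ?_, ?_⟩
  · intro hmem
    rcases (Ideal.IsPrime.mem_or_mem ‹n.IsPrime› hmem) with h5 | h5
    · exact hb h5
    · exact hb' h5
  · have : ((b * b' : B) : F) * (d * d') - ((a * a' : B) : F)
        = ((b : F) * d - a) * ((b' : F) * d') + (a : F) * ((b' : F) * d' - a') := by
      push_cast
      ring
    rw [this]
    exact vnu_add V (vnu_mul_right V hV (V.mul_mem _ _ (hBV b') hd'V))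
      (vnu_mul_left V hV' (hBV a))
  · have : a * a' - algebraMap R B (η * η') * (b * b')
        = a * (a' - algebraMap R B η' * b') + algebraMap R B η' * b' * (a - algebraMap R B η * b) := by
      rw [map_mul]
      ring
    rw [this]
    exact n.add_mem (n.mul_mem_left _ hn') (n.mul_mem_left _ hn)

theorem ValAt.one (hn : n ≠ ⊤) : ValAt B n V (1 : F) (1 : R) := by
  refine ⟨1, 1, ?_, ?_, ?_⟩
  · intro h
    exact hn ((Ideal.eq_top_iff_one n).2 h)
  · simp only [OneMemClass.coe_one, mul_one, sub_self]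
    exact vnu_zero V
  · simp

/-- **Powers.** -/
theorem ValAt.pow [hn : n.IsPrime] (hBV : ChartLe B V) (hth : PassThrough B n V) {d : F}
    {η : R} (h : ValAt B n V d η) (k : ℕ) : ValAt B n V (d ^ k) (η ^ k) := by
  induction k with
  | zero =>
    rw [pow_zero, pow_zero]
    exact ValAt.one hn.ne_top
  | succ k ih =>
    rw [pow_succ, pow_succ]
    exact ih.mul hBV hth h

/-- **An element of `B_n` has the same value along every sheet.** -/
theorem ValAt.of_frac {d : F} {η : R} {a b : B} (hb : b ∉ n) (hd : (b : F) * d = a)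
    (hη : a - algebraMap R B η * b ∈ n) : ValAt B n V d η := by
  refine ⟨a, b, hb, ?_, hη⟩
  rw [hd, sub_self]
  exact vnu_zero V

/-- **A function congruent to a constant on `V` has this constant as value.** -/
theorem ValAt.const (hn : n ≠ ⊤) {d : F} {η : R} (hd : d - algebraMap R F η ∈ V.nonunits) :
    ValAt B n V d η := by
  refine ⟨algebraMap R B η, 1, ?_, ?_, ?_⟩
  · intro h
    exact hn ((Ideal.eq_top_iff_one n).2 h)
  · have : ((1 : B) : F) * d - ((algebraMap R B η : B) : F) = d - algebraMap R F η := by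
      simp only [OneMemClass.coe_one, one_mul]
      rfl
    rw [this]
    exact hd
  · simp

/-- A function with a value which is a unit modulo `n` is a unit of `V`. -/
theorem ValAt.not_nonunits (hBV : ChartLe B V) (hth : PassThrough B n V) {d : F} {η : R}
    (h : ValAt B n V d η) (hη : algebraMap R B η ∉ n) [n.IsPrime] : d ∉ V.nonunits := by
  obtain ⟨a, b, hb, hV, hn⟩ := h
  intro hd
  -- then `a` vanishes on `V`, so `a ∈ n`, so `η b ∈ n`
  have h1 : (a : F) ∈ V.nonunits := by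
    have : (a : F) = (b : F) * d - ((b : F) * d - a) := by ring
    rw [this]
    exact vnu_sub V (vnu_mul_left V hd (hBV b)) hV
  have h2 : a ∈ n := hth a h1
  have h3 : algebraMap R B η * b ∈ n := by
    have : algebraMap R B η * b = a - (a - algebraMap R B η * b) := by ring
    rw [this]
    exact n.sub_mem h2 hn
  rcases (Ideal.IsPrime.mem_or_mem ‹n.IsPrime› h3) with h5 | h5
  · exact hη h5
  · exact hb h5

/-- **Inverses.** -/
theorem ValAt.inv [n.IsPrime] (hBV : ChartLe B V) (hth : PassThrough B n V) {d : F}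
    {η η' : R} (h : ValAt B n V d η) (hη : algebraMap R B (η * η' - 1) ∈ n) :
    ValAt B n V d⁻¹ η' := by
  have hηu : algebraMap R B η ∉ n := by
    intro h1
    have h2 : algebraMap R B (η * η') ∈ n := by
      rw [map_mul]
      exact n.mul_mem_right _ h1
    have h3 : (1 : B) ∈ n := by
      have : (1 : B) = algebraMap R B (η * η') - algebraMap R B (η * η' - 1) := by
        rw [map_sub, map_one]
        ring
      rw [this]
      exact n.sub_mem h2 hη
    exact (Ideal.IsPrime.ne_top ‹n.IsPrime›) ((Ideal.eq_top_iff_one n).2 h3)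
  have hdV : d ∈ V := h.mem hBV hth
  have hdu : d ∉ V.nonunits := h.not_nonunits hBV hth hηu
  have hd0 : d ≠ 0 := by
    rintro rfl
    exact hdu (vnu_zero V)
  obtain ⟨a, b, hb, hV, hn⟩ := h
  have han : a ∉ n := by
    intro ha
    have h3 : algebraMap R B η * b ∈ n := by
      have : algebraMap R B η * b = a - (a - algebraMap R B η * b) := by ring
      rw [this]
      exact n.sub_mem ha hn
    rcases (Ideal.IsPrime.mem_or_mem ‹n.IsPrime› h3) with h5 | h5
    · exact hηu h5
    · exact hb h5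
  refine ⟨b, a, han, ?_, ?_⟩
  · have : (a : F) * d⁻¹ - b = -(((b : F) * d - a) * d⁻¹) := by
      field_simp
      ring
    rw [this]
    exact vnu_neg V (vnu_mul_right V hV (vnu_inv_mem V hdV hdu))
  · -- `b - η' a = -(η' (a - η b)) - (η η' - 1) b`
    have : b - algebraMap R B η' * a
        = -(algebraMap R B η' * (a - algebraMap R B η * b)) - algebraMap R B (η * η' - 1) * b := by
      rw [map_sub, map_mul, map_one]
      ring
    rw [this]
    exact n.sub_mem (n.neg_mem (n.mul_mem_left _ hn)) (n.mul_mem_right _ hη)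

end Basic

end Fermat.Agent.S36.H630

end
-- ===== PACK-END S36/H630/ValAt.lean

-- ===== PACK-BEGIN S36/H878/Transfer4.lean
section




/-!
# Transfer of the residue of `x ^ N / U` from `j` to the Hauptmodul `t₄` (helper878, S36 REG / R4)

Mathlib only.  `V` a valuation subring of a field `L` (application: `V = V_mid`), and

* `j₁ = α(j)`, `j₂ = γ(j)`, `h₁ = α(t₄)`, `h₂ = γ(t₄)` (`γ : f(t) ↦ f(t^{q²})`), so that
  `j_i · h_i⁴ (h_i + 16) = (h_i² + 256 h_i + 4096)³` (`Haupt4.jq_mul_t4`);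
* `h₁`, `h₁ + 16`, `j₁`, `j₁ - 1728` units of `V`, `h₂ ∈ V`, `h₂ - h₁ ∈ 𝔪_V`;
* `hres` for `j`: `((j₂ - j₁) ^ (6k) - (j₁⁴ (j₁ - 1728)³) ^ k · U) / U ∈ 𝔪_V`
  (output of `S36.H922.h922_hres_abs`, `6 k = N = 12 (q - 1)`).

Then `hres` holds for `t₄`: `((h₂ - h₁) ^ (6k) - (h₁² (h₁ + 16)⁵) ^ k · U) / U ∈ 𝔪_V`.

Since `h₁² (h₁ + 16)⁵` is a unit of the whole non-cuspidal chart (odd residue characteristic),
`S36.H878.principal_of_unit_self` then applies at EVERY non-cuspidal closed point of the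
component: elliptic points (`j(n) ∈ {0, 1728}`) included, no local-coordinate input.
-/

set_option autoImplicit false

namespace Fermat.Agent.S36.H878

open IsLocalRing

variable {L : Type*} [Field L]

/-- The difference quotient of `J = (X² + 256 X + 4096)³ / (X⁴ (X + 16))`, cleared of
denominators: `P(b)³ D(a) - P(a)³ D(b) = (b - a) · dq4 a b`. -/
def dq4 {S : Type*} [CommRing S] (a b : S) : S :=
  (b + a + 256) * ((b ^ 2 + 256 * b + 4096) ^ 2
      + (b ^ 2 + 256 * b + 4096) * (a ^ 2 + 256 * a + 4096) + (a ^ 2 + 256 * a + 4096) ^ 2)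
    * (a ^ 4 * (a + 16))
  - (a ^ 2 + 256 * a + 4096) ^ 3
    * ((b ^ 3 + b ^ 2 * a + b * a ^ 2 + a ^ 3) * (b + 16) + a ^ 4)

theorem dq4_spec {S : Type*} [CommRing S] (a b : S) :
    (b ^ 2 + 256 * b + 4096) ^ 3 * (a ^ 4 * (a + 16))
      - (a ^ 2 + 256 * a + 4096) ^ 3 * (b ^ 4 * (b + 16)) = (b - a) * dq4 a b := by
  rw [dq4]; ring

theorem dq4_diag {S : Type*} [CommRing S] (a : S) :
    dq4 a a = (a ^ 2 + 256 * a + 4096) ^ 2 * a ^ 3 * ((a + 32) * (a ^ 2 - 512 * a - 8192)) := by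
  rw [dq4]; ring

theorem map_dq4 {S T : Type*} [CommRing S] [CommRing T] (f : S →+* T) (a b : S) :
    f (dq4 a b) = dq4 (f a) (f b) := by
  simp only [dq4, map_sub, map_mul, map_add, map_pow, map_ofNat]

/-- The residue-field identity behind the transfer. -/
theorem res_alg4 {κ : Type*} [Field κ] (a c : κ)
    (hJ : c * (a ^ 4 * (a + 16)) = (a ^ 2 + 256 * a + 4096) ^ 3) :
    (a ^ 2 * (a + 16) ^ 5)
        * ((a ^ 2 + 256 * a + 4096) ^ 2 * a ^ 3 * ((a + 32) * (a ^ 2 - 512 * a - 8192))) ^ 6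
      = (c ^ 4 * (c - 1728) ^ 3) * ((a ^ 4 * (a + 16)) * (a ^ 4 * (a + 16))) ^ 6 := by
  have hJ' : (c - 1728) * (a ^ 4 * (a + 16))
      = (a + 32) ^ 2 * (a ^ 2 - 512 * a - 8192) ^ 2 := by
    linear_combination hJ
  have h4 := congrArg (fun x => x ^ 4) hJ
  have h3 := congrArg (fun x => x ^ 3) hJ'
  beta_reduce at h4 h3
  generalize a ^ 2 + 256 * a + 4096 = P at *
  generalize a ^ 2 - 512 * a - 8192 = Q at *
  linear_combination (-(((c - 1728) * (a ^ 4 * (a + 16))) ^ 3 * (a ^ 4 * (a + 16)) ^ 5)) * h4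
    - ((P ^ 3) ^ 4 * (a ^ 4 * (a + 16)) ^ 5) * h3

/-- **Transfer of `hres` from `j` to `t₄`.** -/
theorem hres_transfer4 (V : ValuationSubring L) (j₁ j₂ h₁ h₂ U : L) (k : ℕ)
    (hJ₁ : j₁ * (h₁ ^ 4 * (h₁ + 16)) = (h₁ ^ 2 + 256 * h₁ + 4096) ^ 3)
    (hJ₂ : j₂ * (h₂ ^ 4 * (h₂ + 16)) = (h₂ ^ 2 + 256 * h₂ + 4096) ^ 3)
    (hh₁ : V.valuation h₁ = 1) (hh₁' : V.valuation (h₁ + 16) = 1)
    (hj₁ : V.valuation j₁ = 1) (hj₁' : V.valuation (j₁ - 1728) = 1)
    (hh₂ : h₂ ∈ V) (hx : h₂ - h₁ ∈ V.nonunits)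
    (hres : ((j₂ - j₁) ^ (6 * k) - (j₁ ^ 4 * (j₁ - 1728) ^ 3) ^ k * U) * U⁻¹ ∈ V.nonunits) :
    ((h₂ - h₁) ^ (6 * k) - (h₁ ^ 2 * (h₁ + 16) ^ 5) ^ k * U) * U⁻¹ ∈ V.nonunits := by
  classical
  by_cases hU : U = 0
  · -- degenerate: `U⁻¹ = 0`
    rw [hU, inv_zero, mul_zero]
    rw [ValuationSubring.mem_nonunits_iff, map_zero]
    exact zero_lt_one
  -- elements of `V`
  have h₁V : h₁ ∈ V := (V.valuation_le_one_iff _).1 hh₁.le
  have j₁V : j₁ ∈ V := (V.valuation_le_one_iff _).1 hj₁.le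
  -- `Yj = (j₂ - j₁)^(6k) / U ∈ V`
  have hYj : (j₂ - j₁) ^ (6 * k) * U⁻¹ - (j₁ ^ 4 * (j₁ - 1728) ^ 3) ^ k ∈ V.nonunits := by
    have e : (j₂ - j₁) ^ (6 * k) * U⁻¹ - (j₁ ^ 4 * (j₁ - 1728) ^ 3) ^ k
        = ((j₂ - j₁) ^ (6 * k) - (j₁ ^ 4 * (j₁ - 1728) ^ 3) ^ k * U) * U⁻¹ := by
      field_simp
    rw [e]; exact hres
  have hgjV : (j₁ ^ 4 * (j₁ - 1728) ^ 3) ^ k ∈ V :=
    pow_mem (mul_mem (pow_mem j₁V _) (pow_mem (sub_mem j₁V (ofNat_mem V 1728)) _)) _
  have hYjV : (j₂ - j₁) ^ (6 * k) * U⁻¹ ∈ V := by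
    have h1 : (j₂ - j₁) ^ (6 * k) * U⁻¹ - (j₁ ^ 4 * (j₁ - 1728) ^ 3) ^ k ∈ V :=
      (V.valuation_le_one_iff _).1 ((V.mem_nonunits_iff).1 hYj).le
    have := add_mem h1 hgjV
    simpa using this
  generalize hYjL : (j₂ - j₁) ^ (6 * k) * U⁻¹ = YjL at hYj hYjV
  lift h₁ to V using h₁V with a₁
  lift h₂ to V using hh₂ with a₂
  lift j₁ to V using j₁V with c₁
  lift YjL to V using hYjV with Yj
  -- the residue map
  let r : V →+* ResidueField V := residue V
  have hr0 : ∀ a : V, r a = 0 ↔ (a : L) ∈ V.nonunits := fun a => by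
    rw [ValuationSubring.coe_mem_nonunits_iff]
    exact residue_eq_zero_iff a
  have hrne : ∀ a : V, V.valuation (a : L) = 1 → r a ≠ 0 := fun a ha h0 => by
    have := (V.mem_nonunits_iff).1 ((hr0 a).1 h0)
    rw [ha] at this
    exact lt_irrefl _ this
  have hrYj : r Yj = (r c₁ ^ 4 * (r c₁ - 1728) ^ 3) ^ k := by
    have h0 : r (Yj - (c₁ ^ 4 * (c₁ - 1728) ^ 3) ^ k) = 0 := (hr0 _).2 hYj
    have h1 : r (Yj - (c₁ ^ 4 * (c₁ - 1728) ^ 3) ^ k)
        = r Yj - (r c₁ ^ 4 * (r c₁ - 1728) ^ 3) ^ k := by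
      simp only [map_sub, map_mul, map_pow, map_ofNat]
    rw [h1, sub_eq_zero] at h0
    exact h0
  -- `r a₂ = r a₁`
  have hra : r a₂ = r a₁ := by
    have h0 : r (a₂ - a₁) = 0 := (hr0 _).2 hx
    rwa [map_sub, sub_eq_zero] at h0
  -- units
  have hra₁ : r a₁ ≠ 0 := hrne a₁ hh₁
  have hra₁' : r a₁ + 16 ≠ 0 := by
    have := hrne (a₁ + 16) hh₁'
    rwa [map_add, map_ofNat] at this
  have hrc₁ : r c₁ ≠ 0 := hrne c₁ hj₁
  have hrc₁' : r c₁ - 1728 ≠ 0 := by
    have := hrne (c₁ - 1728) hj₁'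
    rwa [map_sub, map_ofNat] at this
  -- the relations in the residue field
  have hJr : r c₁ * (r a₁ ^ 4 * (r a₁ + 16)) = (r a₁ ^ 2 + 256 * r a₁ + 4096) ^ 3 := by
    have h : c₁ * (a₁ ^ 4 * (a₁ + 16)) = (a₁ ^ 2 + 256 * a₁ + 4096) ^ 3 := Subtype.ext hJ₁
    have := congrArg r h
    simpa only [map_mul, map_pow, map_add, map_ofNat] using this
  have hJr' : (r c₁ - 1728) * (r a₁ ^ 4 * (r a₁ + 16))
      = (r a₁ + 32) ^ 2 * (r a₁ ^ 2 - 512 * r a₁ - 8192) ^ 2 := by
    linear_combination hJr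
  -- the difference quotient
  have hrB : r (dq4 a₁ a₂) = (r a₁ ^ 2 + 256 * r a₁ + 4096) ^ 2 * r a₁ ^ 3
      * ((r a₁ + 32) * (r a₁ ^ 2 - 512 * r a₁ - 8192)) := by
    rw [map_dq4, hra, dq4_diag]
  have hP : r a₁ ^ 2 + 256 * r a₁ + 4096 ≠ 0 := by
    intro h
    rw [h] at hJr
    have : r c₁ * (r a₁ ^ 4 * (r a₁ + 16)) ≠ 0 :=
      mul_ne_zero hrc₁ (mul_ne_zero (pow_ne_zero _ hra₁) hra₁')
    exact this (by rw [hJr]; ring)
  have hQ : (r a₁ + 32) * (r a₁ ^ 2 - 512 * r a₁ - 8192) ≠ 0 := by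
    intro h
    have h2 : (r c₁ - 1728) * (r a₁ ^ 4 * (r a₁ + 16)) = 0 := by
      rw [hJr', ← mul_pow, h]; ring
    exact (mul_ne_zero hrc₁' (mul_ne_zero (pow_ne_zero _ hra₁) hra₁')) h2
  have hrB0 : r (dq4 a₁ a₂) ≠ 0 := by
    rw [hrB]
    exact mul_ne_zero (mul_ne_zero (pow_ne_zero _ hP) (pow_ne_zero _ hra₁)) hQ
  have hBunit : IsUnit (dq4 a₁ a₂) := by
    by_contra hnu
    exact hrB0 ((residue_eq_zero_iff _).2 ((mem_maximalIdeal _).2 hnu))
  obtain ⟨Bu, hBu⟩ := hBunit
  -- the key identity in `L`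
  have hBL : ((dq4 a₁ a₂ : V) : L) = dq4 (a₁ : L) (a₂ : L) := rfl
  have hkeyL : (j₂ - (c₁ : L))
        * (((a₁ : L) ^ 4 * ((a₁ : L) + 16)) * ((a₂ : L) ^ 4 * ((a₂ : L) + 16)))
      = ((a₂ : L) - a₁) * dq4 (a₁ : L) (a₂ : L) := by
    rw [← dq4_spec]
    linear_combination ((a₁ : L) ^ 4 * ((a₁ : L) + 16)) * hJ₂
      - ((a₂ : L) ^ 4 * ((a₂ : L) + 16)) * hJ₁
  -- `Y = x^(6k)/U = Yj · A^(6k) / B^(6k) ∈ V`
  obtain ⟨A, hA⟩ : ∃ A : V, A = (a₁ ^ 4 * (a₁ + 16)) * (a₂ ^ 4 * (a₂ + 16)) := ⟨_, rfl⟩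
  have hAL : (A : L) = ((a₁ : L) ^ 4 * ((a₁ : L) + 16)) * ((a₂ : L) ^ 4 * ((a₂ : L) + 16)) := by
    rw [hA]; rfl
  obtain ⟨Y, hY⟩ : ∃ Y : V, Y = Yj * A ^ (6 * k) * ((Bu⁻¹ : Vˣ) : V) ^ (6 * k) := ⟨_, rfl⟩
  have hYB : Y * (dq4 a₁ a₂) ^ (6 * k) = Yj * A ^ (6 * k) := by
    rw [hY, ← hBu, mul_assoc, ← mul_pow, Units.inv_mul, one_pow, mul_one]
  have hYL : (Y : L) = ((a₂ : L) - a₁) ^ (6 * k) * U⁻¹ := by
    have hB0 : (dq4 (a₁ : L) (a₂ : L)) ^ (6 * k) ≠ 0 := by
      apply pow_ne_zero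
      intro h
      apply hrB0
      have : dq4 a₁ a₂ = 0 := Subtype.ext (hBL.trans h)
      rw [this, map_zero]
    apply mul_right_cancel₀ hB0
    have h1 : (Y : L) * (dq4 (a₁ : L) (a₂ : L)) ^ (6 * k) = (Yj : L) * (A : L) ^ (6 * k) :=
      congrArg (fun z : V => (z : L)) hYB
    have h6 : (j₂ - (c₁ : L)) ^ (6 * k) * (A : L) ^ (6 * k)
        = ((a₂ : L) - a₁) ^ (6 * k) * (dq4 (a₁ : L) (a₂ : L)) ^ (6 * k) := by
      rw [← mul_pow, ← mul_pow, hAL, hkeyL]
    rw [h1, ← hYjL]
    generalize (j₂ - (c₁ : L)) ^ (6 * k) = J6 at h6 ⊢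
    generalize (A : L) ^ (6 * k) = A6 at h6 ⊢
    generalize ((a₂ : L) - a₁) ^ (6 * k) = X6 at h6 ⊢
    generalize (dq4 (a₁ : L) (a₂ : L)) ^ (6 * k) = D6 at h6 ⊢
    linear_combination U⁻¹ * h6
  -- residue of `Y`
  have hrY : r Y = (r a₁ ^ 2 * (r a₁ + 16) ^ 5) ^ k := by
    have h1 := congrArg r hYB
    rw [map_mul, map_mul, map_pow, map_pow, hrYj, hrB] at h1
    have hrA : r A = (r a₁ ^ 4 * (r a₁ + 16)) * (r a₁ ^ 4 * (r a₁ + 16)) := by
      rw [hA]
      simp only [map_mul, map_pow, map_add, map_ofNat, hra]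
    rw [hrA] at h1
    have hW0 : ((r a₁ ^ 2 + 256 * r a₁ + 4096) ^ 2 * r a₁ ^ 3
        * ((r a₁ + 32) * (r a₁ ^ 2 - 512 * r a₁ - 8192))) ^ (6 * k) ≠ 0 := by
      rw [← hrB]; exact pow_ne_zero _ hrB0
    apply mul_right_cancel₀ hW0
    rw [h1, pow_mul, pow_mul, ← mul_pow, ← mul_pow, res_alg4 (r a₁) (r c₁) hJr]
  -- conclusion
  have hfin : r (Y - (a₁ ^ 2 * (a₁ + 16) ^ 5) ^ k) = 0 := by
    rw [map_sub, hrY]
    simp only [map_mul, map_pow, map_add, map_ofNat, sub_self]
  have hmem := (hr0 _).1 hfin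
  have e : ((a₂ : L) - a₁) ^ (6 * k) * U⁻¹ - ((a₁ : L) ^ 2 * ((a₁ : L) + 16) ^ 5) ^ k
      = (((a₂ : L) - a₁) ^ (6 * k) - ((a₁ : L) ^ 2 * ((a₁ : L) + 16) ^ 5) ^ k * U) * U⁻¹ := by
    field_simp
  rw [← e, ← hYL]
  exact hmem

end Fermat.Agent.S36.H878

end
-- ===== PACK-END S36/H878/Transfer4.lean

-- ===== PACK-BEGIN S36/H934/Congr9.lean
section




/-!
# `γ(t₉) ≡ α(t₉)` from `γ(j_d) ≡ α(j_d)`, `d ∣ 9` (helper934, S36 REG / R4, `q = 2` path)

Mathlib only; the level-`9` mirror of helper878's `Congr4`.  `V` a valuation subring of a field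
`L` (application: `V = V_mid`).  Unprimed letters: images under `α` (inclusion
`F_M → F_{q² M}`); primed letters: images under `γ : f(t) ↦ f(t^{q²})`.  The Hauptmoduln are
rational in the `j_d`:

  `U₃(j, j₃) · t₃ = W₃(j, j₃)`          (`Lib.Haupt.t3_lin`; `u3`, `w3` below),
  `U₃(j₃, j₉) · t₃(t³) = W₃(j₃, j₉)`     (`qExpand 3` of it),
  `t₉ · (A B - 243 A + 9 B + 729) = A² B + 18 A B + 27 B + 1458 A`,  `A = t₃`, `B = t₃(t³)`
  (`num9_of_rel`: a formal consequence of `A Q = t₉³`, `B = t₉ Q`, `Q = t₉² + 9 t₉ + 27`),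

so congruences `j_d' ≡ j_d mod 𝔪_V` propagate to `t₉' ≡ t₉ mod 𝔪_V` as soon as the denominators
`U₃(j, j₃)`, `U₃(j₃, j₉)`, `A B - 243 A + 9 B + 729` are units of `V` (Gauss units: their
`t`-expansions have leading coefficient `1`).  This is hypothesis `hx` of `hres_transfer9`.
-/

set_option autoImplicit false

namespace Fermat.Agent.S36.H934

open IsLocalRing

variable {L : Type*} [Field L]

/-! ### The polynomials -/

/-- The denominator `U₃ ∈ ℤ[x, y]` of `t₃ = W₃(j, j₃) / U₃(j, j₃)`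
(same shape as `Lib.Haupt.U3`). -/
def u3 {S : Type*} [CommRing S] (x y : S) : S :=
  729 * x ^ 2 * y + 196830 * x * y ^ 2 + y ^ 3 - 524880 * x ^ 2 + 18821147040 * x * y
    - 103456080 * y ^ 2 + 14229831680000 * x + 276373831680000 * y - 3623878656000000000

/-- The numerator `W₃ ∈ ℤ[x, y]` of `t₃ = W₃(j, j₃) / U₃(j, j₃)`
(same shape as `Lib.Haupt.W3`). -/
def w3 {S : Type*} [CommRing S] (x y : S) : S :=
  x * y ^ 3 + 19129644 * x * y ^ 2 - 756 * y ^ 3 + 531440 * x ^ 2 + 76509442080 * x * y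
    + 23150726640 * y ^ 2 - 48430448640000 * x - 14204206448640000 * y
    + 97844723712000000000

/-- The denominator `A B - 243 A + 9 B + 729` of `t₉` in terms of `A = t₃`, `B = t₃(t³)`
(same shape as in helper890's `Haupt9.t9_mul`). -/
def den9 {S : Type*} [CommRing S] (A B : S) : S := A * B - 243 * A + 9 * B + 729

/-- The numerator `A² B + 18 A B + 27 B + 1458 A` of `t₉` in terms of `A = t₃`,
`B = t₃(t³)` (same shape as the right-hand side of helper890's `Haupt9.t9_mul`). -/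
def num9 {S : Type*} [CommRing S] (A B : S) : S :=
  A ^ 2 * B + 18 * (A * B) + 27 * B + 1458 * A

theorem map_u3 {S T : Type*} [CommRing S] [CommRing T] (f : S →+* T) (x y : S) :
    f (u3 x y) = u3 (f x) (f y) := by
  simp only [u3, map_sub, map_add, map_mul, map_pow, map_ofNat]

theorem map_w3 {S T : Type*} [CommRing S] [CommRing T] (f : S →+* T) (x y : S) :
    f (w3 x y) = w3 (f x) (f y) := by
  simp only [w3, map_sub, map_add, map_mul, map_pow, map_ofNat]

theorem map_den9 {S T : Type*} [CommRing S] [CommRing T] (f : S →+* T) (x y : S) :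
    f (den9 x y) = den9 (f x) (f y) := by
  simp only [den9, map_sub, map_add, map_mul, map_ofNat]

theorem map_num9 {S T : Type*} [CommRing S] [CommRing T] (f : S →+* T) (x y : S) :
    f (num9 x y) = num9 (f x) (f y) := by
  simp only [num9, map_add, map_mul, map_pow, map_ofNat]

/-- The rational formula for `t₉` is a formal consequence of `A Q = t³` and `B = t Q`,
`Q = t² + 9 t + 27`. -/
theorem num9_of_rel {S : Type*} [CommRing S] [IsDomain S] (A B t : S)
    (hA : A * (t ^ 2 + 9 * t + 27) = t ^ 3) (hB : B = t * (t ^ 2 + 9 * t + 27))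
    (hQ : t ^ 2 + 9 * t + 27 ≠ 0) :
    t * den9 A B = num9 A B := by
  apply mul_right_cancel₀ hQ
  subst hB
  rw [den9, num9]
  linear_combination
    (t ^ 2 * (t ^ 2 + 9 * t + 27) - 243 * t - t * (A * (t ^ 2 + 9 * t + 27) + t ^ 3)
      - 18 * t * (t ^ 2 + 9 * t + 27) - 1458) * hA

/-- With `A Q = t³`, `B = t Q`: `den9 A B · Q` is a monic polynomial in `t`. -/
theorem den9_mul_of_rel {S : Type*} [CommRing S] (A B t : S)
    (hA : A * (t ^ 2 + 9 * t + 27) = t ^ 3) (hB : B = t * (t ^ 2 + 9 * t + 27)) :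
    den9 A B * (t ^ 2 + 9 * t + 27)
      = t ^ 6 + 18 * t ^ 5 + 189 * t ^ 4 + 972 * t ^ 3 + 5103 * t ^ 2 + 13122 * t + 19683 := by
  subst hB
  rw [den9]
  linear_combination (t * (t ^ 2 + 9 * t + 27) - 243) * hA

/-! ### Congruences modulo `𝔪_V` -/

theorem mem_of_mem_nonunits9 (V : ValuationSubring L) {a : L} (ha : a ∈ V.nonunits) : a ∈ V :=
  (V.valuation_le_one_iff _).1 ((V.mem_nonunits_iff).1 ha).le

theorem mem_of_sub_mem_nonunits9 (V : ValuationSubring L) {a b : L} (ha : a ∈ V)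
    (hab : b - a ∈ V.nonunits) : b ∈ V := by
  have := add_mem (mem_of_mem_nonunits9 V hab) ha
  simpa using this

theorem mul_mem_nonunits_of_mem9 (V : ValuationSubring L) {a b : L}
    (ha : a ∈ V) (hb : b ∈ V.nonunits) : a * b ∈ V.nonunits := by
  rw [ValuationSubring.mem_nonunits_iff, map_mul, mul_comm]
  exact mul_lt_one_of_lt_of_le ((V.mem_nonunits_iff).1 hb) ((V.valuation_le_one_iff _).2 ha)

theorem valuation_eq_one_of_sub_mem_nonunits9 (V : ValuationSubring L) {a b : L}
    (ha : V.valuation a = 1) (hab : b - a ∈ V.nonunits) : V.valuation b = 1 := by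
  have h1 : V.valuation (b - a) < V.valuation a := by
    rw [ha]; exact (V.mem_nonunits_iff).1 hab
  have h2 := Valuation.map_add_eq_of_lt_right V.valuation h1
  rw [sub_add_cancel] at h2
  rw [h2, ha]

/-- `b - a ∈ 𝔪_V` iff `a`, `b` have the same residue. -/
theorem coe_sub_mem_nonunits_iff9 (V : ValuationSubring L) (a b : V) :
    ((b : L) - (a : L)) ∈ V.nonunits ↔ residue V b = residue V a := by
  have e : ((b : L) - (a : L)) = ((b - a : V) : L) := rfl
  rw [e, ValuationSubring.coe_mem_nonunits_iff, ← residue_eq_zero_iff, map_sub, sub_eq_zero]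

/-- A binary polynomial law respects congruences modulo `𝔪_V`. -/
theorem congr_of_map9 (V : ValuationSubring L) (FL : L → L → L) (FV : V → V → V)
    (Fκ : ResidueField V → ResidueField V → ResidueField V)
    (hL : ∀ a b : V, FL a b = FV a b)
    (hκ : ∀ a b : V, residue V (FV a b) = Fκ (residue V a) (residue V b))
    {x y x' y' : L} (hx : x ∈ V) (hy : y ∈ V)
    (hxx : x' - x ∈ V.nonunits) (hyy : y' - y ∈ V.nonunits) :
    FL x y ∈ V ∧ FL x' y' ∈ V ∧ FL x' y' - FL x y ∈ V.nonunits := by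
  have hx' : x' ∈ V := mem_of_sub_mem_nonunits9 V hx hxx
  have hy' : y' ∈ V := mem_of_sub_mem_nonunits9 V hy hyy
  lift x to V using hx
  lift y to V using hy
  lift x' to V using hx'
  lift y' to V using hy'
  rw [coe_sub_mem_nonunits_iff9] at hxx hyy
  refine ⟨?_, ?_, ?_⟩
  · rw [hL]; exact (FV x y).2
  · rw [hL]; exact (FV x' y').2
  · rw [hL, hL, coe_sub_mem_nonunits_iff9, hκ, hκ, hxx, hyy]

theorem u3_congr (V : ValuationSubring L) {x y x' y' : L} (hx : x ∈ V) (hy : y ∈ V)
    (hxx : x' - x ∈ V.nonunits) (hyy : y' - y ∈ V.nonunits) :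
    u3 x y ∈ V ∧ u3 x' y' ∈ V ∧ u3 x' y' - u3 x y ∈ V.nonunits :=
  congr_of_map9 V u3 u3 u3 (fun a b => (map_u3 V.subtype a b).symm)
    (fun a b => map_u3 (residue V) a b) hx hy hxx hyy

theorem w3_congr (V : ValuationSubring L) {x y x' y' : L} (hx : x ∈ V) (hy : y ∈ V)
    (hxx : x' - x ∈ V.nonunits) (hyy : y' - y ∈ V.nonunits) :
    w3 x y ∈ V ∧ w3 x' y' ∈ V ∧ w3 x' y' - w3 x y ∈ V.nonunits :=
  congr_of_map9 V w3 w3 w3 (fun a b => (map_w3 V.subtype a b).symm)
    (fun a b => map_w3 (residue V) a b) hx hy hxx hyy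

theorem den9_congr (V : ValuationSubring L) {x y x' y' : L} (hx : x ∈ V) (hy : y ∈ V)
    (hxx : x' - x ∈ V.nonunits) (hyy : y' - y ∈ V.nonunits) :
    den9 x y ∈ V ∧ den9 x' y' ∈ V ∧ den9 x' y' - den9 x y ∈ V.nonunits :=
  congr_of_map9 V den9 den9 den9 (fun a b => (map_den9 V.subtype a b).symm)
    (fun a b => map_den9 (residue V) a b) hx hy hxx hyy

theorem num9_congr (V : ValuationSubring L) {x y x' y' : L} (hx : x ∈ V) (hy : y ∈ V)
    (hxx : x' - x ∈ V.nonunits) (hyy : y' - y ∈ V.nonunits) :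
    num9 x y ∈ V ∧ num9 x' y' ∈ V ∧ num9 x' y' - num9 x y ∈ V.nonunits :=
  congr_of_map9 V num9 num9 num9 (fun a b => (map_num9 V.subtype a b).symm)
    (fun a b => map_num9 (residue V) a b) hx hy hxx hyy

/-- If `U t = W`, `U' t' = W'` with `U` a unit of `V`, `U' ≡ U`, `W' ≡ W` modulo `𝔪_V`, then
`t, t' ∈ V` and `t' ≡ t`. -/
theorem lin_congr9 (V : ValuationSubring L) {U W t U' W' t' : L}
    (hU : V.valuation U = 1) (hW : W ∈ V) (hW' : W' ∈ V)
    (h : U * t = W) (h' : U' * t' = W')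
    (hUU : U' - U ∈ V.nonunits) (hWW : W' - W ∈ V.nonunits) :
    t ∈ V ∧ t' ∈ V ∧ t' - t ∈ V.nonunits := by
  have hU' : V.valuation U' = 1 := valuation_eq_one_of_sub_mem_nonunits9 V hU hUU
  have hU0 : U ≠ 0 := fun h0 => by rw [h0, map_zero] at hU; exact zero_ne_one hU
  have hU'0 : U' ≠ 0 := fun h0 => by rw [h0, map_zero] at hU'; exact zero_ne_one hU'
  have ht : t = W * U⁻¹ := by rw [← h]; field_simp
  have ht' : t' = W' * U'⁻¹ := by rw [← h']; field_simp
  have hvt : V.valuation t ≤ 1 := by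
    rw [ht, map_mul, map_inv₀, hU, inv_one, mul_one]
    exact (V.valuation_le_one_iff _).2 hW
  have hvt' : V.valuation t' ≤ 1 := by
    rw [ht', map_mul, map_inv₀, hU', inv_one, mul_one]
    exact (V.valuation_le_one_iff _).2 hW'
  refine ⟨(V.valuation_le_one_iff _).1 hvt, (V.valuation_le_one_iff _).1 hvt', ?_⟩
  have e : t' - t = ((W' - W) - t * (U' - U)) * U'⁻¹ := by
    rw [ht', ht]; field_simp; ring
  have hnum : (W' - W) - t * (U' - U) ∈ V.nonunits :=
    sub_mem hWW (mul_mem_nonunits_of_mem9 V ((V.valuation_le_one_iff _).1 hvt) hUU)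
  rw [ValuationSubring.mem_nonunits_iff, e, map_mul, map_inv₀, hU', inv_one, mul_one]
  exact (V.mem_nonunits_iff).1 hnum

/-- **`t₃' ≡ t₃`** from `j' ≡ j`, `j₃' ≡ j₃`. -/
theorem t3_congr (V : ValuationSubring L) {j j3 t3 j' j3' t3' : L}
    (hj : j ∈ V) (hj3 : j3 ∈ V)
    (c1 : j' - j ∈ V.nonunits) (c3 : j3' - j3 ∈ V.nonunits)
    (hU : V.valuation (u3 j j3) = 1)
    (l : u3 j j3 * t3 = w3 j j3) (l' : u3 j' j3' * t3' = w3 j' j3') :
    t3 ∈ V ∧ t3' ∈ V ∧ t3' - t3 ∈ V.nonunits := by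
  obtain ⟨-, -, hu⟩ := u3_congr V hj hj3 c1 c3
  obtain ⟨hw, hw', hww⟩ := w3_congr V hj hj3 c1 c3
  exact lin_congr9 V hU hw hw' l l' hu hww

/-- **`γ(t₉) ≡ α(t₉)` modulo `𝔪_V`** from `γ(j_d) ≡ α(j_d)`, `d ∈ {1, 3, 9}`.
`A = t₃`, `B = t₃(t³)`. -/
theorem t9_congr (V : ValuationSubring L) {j j3 j9 A B t9 j' j3' j9' A' B' t9' : L}
    (hj : j ∈ V) (hj3 : j3 ∈ V) (hj9 : j9 ∈ V)
    (c1 : j' - j ∈ V.nonunits) (c3 : j3' - j3 ∈ V.nonunits) (c9 : j9' - j9 ∈ V.nonunits)
    (hU : V.valuation (u3 j j3) = 1) (hUe : V.valuation (u3 j3 j9) = 1)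
    (hden : V.valuation (den9 A B) = 1)
    (l1 : u3 j j3 * A = w3 j j3) (l2 : u3 j3 j9 * B = w3 j3 j9)
    (l3 : t9 * den9 A B = num9 A B)
    (l1' : u3 j' j3' * A' = w3 j' j3') (l2' : u3 j3' j9' * B' = w3 j3' j9')
    (l3' : t9' * den9 A' B' = num9 A' B') :
    t9 ∈ V ∧ t9' ∈ V ∧ t9' - t9 ∈ V.nonunits := by
  obtain ⟨hA, -, dA⟩ := t3_congr V hj hj3 c1 c3 hU l1 l1'
  obtain ⟨hB, -, dB⟩ := t3_congr V hj3 hj9 c3 c9 hUe l2 l2'
  obtain ⟨-, -, hd⟩ := den9_congr V hA hB dA dB
  obtain ⟨hn, hn', hnn⟩ := num9_congr V hA hB dA dB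
  exact lin_congr9 V hden hn hn' (by rw [mul_comm]; exact l3) (by rw [mul_comm]; exact l3')
    hd hnn

/-- Variant of `t9_congr` with the level-`9` relations `A Q = t₉³`, `B = t₉ Q` as input
instead of the rational formula. -/
theorem t9_congr_of_rel (V : ValuationSubring L) {j j3 j9 A B t9 j' j3' j9' A' B' t9' : L}
    (hj : j ∈ V) (hj3 : j3 ∈ V) (hj9 : j9 ∈ V)
    (c1 : j' - j ∈ V.nonunits) (c3 : j3' - j3 ∈ V.nonunits) (c9 : j9' - j9 ∈ V.nonunits)
    (hU : V.valuation (u3 j j3) = 1) (hUe : V.valuation (u3 j3 j9) = 1)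
    (hden : V.valuation (den9 A B) = 1)
    (l1 : u3 j j3 * A = w3 j j3) (l2 : u3 j3 j9 * B = w3 j3 j9)
    (rA : A * (t9 ^ 2 + 9 * t9 + 27) = t9 ^ 3) (rB : B = t9 * (t9 ^ 2 + 9 * t9 + 27))
    (rQ : t9 ^ 2 + 9 * t9 + 27 ≠ 0)
    (l1' : u3 j' j3' * A' = w3 j' j3') (l2' : u3 j3' j9' * B' = w3 j3' j9')
    (rA' : A' * (t9' ^ 2 + 9 * t9' + 27) = t9' ^ 3)
    (rB' : B' = t9' * (t9' ^ 2 + 9 * t9' + 27))
    (rQ' : t9' ^ 2 + 9 * t9' + 27 ≠ 0) :
    t9 ∈ V ∧ t9' ∈ V ∧ t9' - t9 ∈ V.nonunits :=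
  t9_congr V hj hj3 hj9 c1 c3 c9 hU hUe hden l1 l2 (num9_of_rel A B t9 rA rB rQ) l1' l2'
    (num9_of_rel A' B' t9' rA' rB' rQ')

end Fermat.Agent.S36.H934

end
-- ===== PACK-END S36/H934/Congr9.lean

-- ===== PACK-BEGIN S41/H105/TransferGeneral.lean
section


/-!
# Transfer of a restricted homomorphism (helper105, row S41, block HK, leaf TR)

`transfer (φ|_H) = φ ^ [G : H]` for `φ : G →* A`, `A` commutative, `H ≤ G` of finite index.
-/

set_option autoImplicit false

namespace Fermat.Agent.S41.H105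

open Subgroup Subgroup.leftTransversals MulAction

open scoped Pointwise

/-- The transfer of the restriction to `H` of a homomorphism `φ : G →* A` is `φ ^ [G : H]`. -/
theorem transfer_comp_subtype {G : Type*} [Group G] {A : Type*} [CommGroup A] (H : Subgroup G)
    [H.FiniteIndex] (φ : G →* A) (g : G) :
    MonoidHom.transfer (φ.comp H.subtype) g = φ g ^ H.index := by
  classical
  letI := H.fintypeQuotientOfFiniteIndex
  rw [MonoidHom.transfer_def (φ.comp H.subtype) default g]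
  unfold Subgroup.leftTransversals.diff
  simp only [MonoidHom.comp_apply, Subgroup.subtype_apply, map_mul, map_inv,
    Subgroup.smul_apply_eq_smul_apply_inv_smul, smul_eq_mul]
  rw [Finset.prod_mul_distrib, Finset.prod_inv_distrib, Finset.prod_mul_distrib,
    Finset.prod_const]
  have hperm : ∏ q : G ⧸ H, φ ((default : H.LeftTransversal).2.leftQuotientEquiv (g⁻¹ • q) : G)
      = ∏ q : G ⧸ H, φ ((default : H.LeftTransversal).2.leftQuotientEquiv q : G) :=
    Fintype.prod_equiv (MulAction.toPerm g⁻¹) _ _ fun _ => rfl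
  rw [hperm, Finset.card_univ, ← Nat.card_eq_fintype_card, ← Subgroup.index_eq_card]
  rw [mul_comm (φ g ^ H.index), ← mul_assoc, inv_mul_cancel, one_mul]

end Fermat.Agent.S41.H105

end
-- ===== PACK-END S41/H105/TransferGeneral.lean

-- ===== PACK-BEGIN S41/H952/TorsCore.lean
section


/-!
# S41 / PD leaf TORS (helper952), Mathlib-only core

Every element of finite order of `SL(2,ℤ)` is conjugate to one of `± 1, ± S, ± ST, ± (ST)²`
(`torsion_class`).  Proof: trace recursion `tr g^(n+2) = t · tr g^(n+1) - tr g^n` gives `|t| ≤ 2`;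
`t = ± 2` forces `g = ± 1`; for `t = 0, 1` an explicit descent (conjugation by `T^k` and `S`) reaches a
reduced matrix with `|2a - t| ≤ |c| ≤ |b|`, of which there are only finitely many.
Reusable: `mkSL`, `conj_T_zpow`, `conj_S`, `cayley`, `abs_tr2_le_two`, `exists_reduced`.
-/


set_option autoImplicit false

namespace Fermat.Agent.S41.H952

open Matrix ModularGroup
open scoped MatrixGroups

/-- Build an element of `SL(2,ℤ)` from its entries. -/
def mkSL (a b c d : ℤ) (h : a * d - b * c = 1) : SL(2, ℤ) :=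
  ⟨!![a, b; c, d], by rw [Matrix.det_fin_two_of]; exact h⟩

@[simp] lemma mkSL_val (a b c d : ℤ) (h : a * d - b * c = 1) :
    (mkSL a b c d h).1 = !![a, b; c, d] := rfl

lemma ext_entries {g g' : SL(2, ℤ)} (h00 : g.1 0 0 = g'.1 0 0) (h01 : g.1 0 1 = g'.1 0 1)
    (h10 : g.1 1 0 = g'.1 1 0) (h11 : g.1 1 1 = g'.1 1 1) : g = g' := by
  ext i j
  fin_cases i <;> fin_cases j <;> assumption

lemma det_entries (g : SL(2, ℤ)) : g.1 0 0 * g.1 1 1 - g.1 0 1 * g.1 1 0 = 1 := by
  have := g.det_coe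
  rw [Matrix.det_fin_two] at this
  exact this

lemma eq_mkSL (g : SL(2, ℤ)) :
    g = mkSL (g.1 0 0) (g.1 0 1) (g.1 1 0) (g.1 1 1) (det_entries g) := by
  apply ext_entries <;> simp

lemma mkSL_congr {a b c d a' b' c' d' : ℤ} (h : a * d - b * c = 1) (ha : a = a') (hb : b = b')
    (hc : c = c') (hd : d = d') :
    mkSL a b c d h = mkSL a' b' c' d' (by subst ha hb hc hd; exact h) := by
  subst ha hb hc hd; rfl

/-- Conjugation by `T ^ k`. -/
lemma conj_T_zpow (k : ℤ) (a b c d : ℤ) (h : a * d - b * c = 1) :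
    T ^ k * mkSL a b c d h * (T ^ k)⁻¹ =
      mkSL (a + k * c) (b + k * (d - a) - k ^ 2 * c) c (d - k * c) (by linear_combination h) := by
  rw [mul_inv_eq_iff_eq_mul]
  apply ext_entries
  all_goals
    rw [Matrix.SpecialLinearGroup.coe_mul, Matrix.SpecialLinearGroup.coe_mul, coe_T_zpow, mkSL_val,
      mkSL_val]
    simp [Matrix.mul_apply, Fin.sum_univ_two]
  all_goals ring

/-- Conjugation by `S`. -/
lemma conj_S (a b c d : ℤ) (h : a * d - b * c = 1) :
    S * mkSL a b c d h * S⁻¹ = mkSL d (-c) (-b) a (by linear_combination h) := by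
  rw [mul_inv_eq_iff_eq_mul]
  apply ext_entries
  all_goals
    rw [Matrix.SpecialLinearGroup.coe_mul, Matrix.SpecialLinearGroup.coe_mul, coe_S, mkSL_val,
      mkSL_val]
    simp [Matrix.mul_apply, Fin.sum_univ_two]

lemma conj_trans {g g₁ g₂ h₁ h₂ : SL(2, ℤ)} (e₁ : h₁ * g * h₁⁻¹ = g₁)
    (e₂ : h₂ * g₁ * h₂⁻¹ = g₂) : (h₂ * h₁) * g * (h₂ * h₁)⁻¹ = g₂ := by
  rw [← e₂, ← e₁]; group

lemma S_eq : S = mkSL 0 (-1) 1 0 (by norm_num) := by
  apply ext_entries <;> simp [coe_S]

lemma neg_mkSL (a b c d : ℤ) (h : a * d - b * c = 1) :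
    -mkSL a b c d h = mkSL (-a) (-b) (-c) (-d) (by linear_combination h) := by
  apply ext_entries <;> simp [Matrix.SpecialLinearGroup.coe_neg]

lemma ST_eq : S * T = mkSL 0 (-1) 1 1 (by norm_num) := by
  apply ext_entries
  all_goals
    rw [Matrix.SpecialLinearGroup.coe_mul, coe_S, coe_T, mkSL_val]
    simp [Matrix.mul_apply, Fin.sum_univ_two]

lemma ST_sq_eq : (S * T) ^ 2 = mkSL (-1) (-1) 1 0 (by norm_num) := by
  rw [pow_two, ST_eq]
  apply ext_entries
  all_goals
    rw [Matrix.SpecialLinearGroup.coe_mul, mkSL_val, mkSL_val]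
    simp [Matrix.mul_apply, Fin.sum_univ_two]


/-! ### Cayley–Hamilton and the trace recursion -/

/-- The trace of `g`. -/
def tr2 (g : SL(2, ℤ)) : ℤ := g.1 0 0 + g.1 1 1

lemma cayley (g : SL(2, ℤ)) : g.1 * g.1 = tr2 g • g.1 - 1 := by
  have hd := det_entries g
  ext i j
  fin_cases i <;> fin_cases j <;>
    simp only [Matrix.mul_apply, Fin.sum_univ_two, tr2, Matrix.sub_apply, Matrix.smul_apply,
      smul_eq_mul, Matrix.one_apply_eq, Fin.zero_eta, Fin.mk_one, Fin.isValue, ne_eq,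
      zero_ne_one, one_ne_zero, not_false_eq_true, Matrix.one_apply_ne, sub_zero] <;>
    first | ring1 | linear_combination hd | linear_combination -hd

lemma pow_rec (g : SL(2, ℤ)) (n : ℕ) :
    (g ^ (n + 2)).1 = tr2 g • (g ^ (n + 1)).1 - (g ^ n).1 := by
  have h1 : (g ^ (n + 2)).1 = (g ^ n).1 * (g.1 * g.1) := by
    rw [pow_add, pow_two, Matrix.SpecialLinearGroup.coe_mul, Matrix.SpecialLinearGroup.coe_mul]
  have h2 : (g ^ (n + 1)).1 = (g ^ n).1 * g.1 := by
    rw [pow_succ, Matrix.SpecialLinearGroup.coe_mul]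
  rw [h1, h2, cayley, Matrix.mul_sub, Matrix.mul_smul, Matrix.mul_one]

lemma tr2_pow_rec (g : SL(2, ℤ)) (n : ℕ) :
    tr2 (g ^ (n + 2)) = tr2 g * tr2 (g ^ (n + 1)) - tr2 (g ^ n) := by
  have h := pow_rec g n
  have h00 := congrFun (congrFun h 0) 0
  have h11 := congrFun (congrFun h 1) 1
  simp only [Matrix.sub_apply, Matrix.smul_apply, smul_eq_mul] at h00 h11
  unfold tr2 at h00 h11 ⊢
  rw [h00, h11]
  ring

lemma tr2_one : tr2 (1 : SL(2, ℤ)) = 2 := by
  simp [tr2]

lemma abs_tr2_pow_lt (g : SL(2, ℤ)) (h3 : 3 ≤ |tr2 g|) (n : ℕ) :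
    |tr2 (g ^ n)| < |tr2 (g ^ (n + 1))| := by
  induction n with
  | zero =>
    rw [pow_zero, tr2_one, zero_add, pow_one]
    have : |(2 : ℤ)| = 2 := by norm_num
    rw [this]; omega
  | succ n ih =>
    rw [tr2_pow_rec g n]
    have h1 : |tr2 g * tr2 (g ^ (n + 1))| = |tr2 g| * |tr2 (g ^ (n + 1))| := abs_mul _ _
    have h2 : |tr2 g * tr2 (g ^ (n + 1))| - |tr2 (g ^ n)| ≤
        |tr2 g * tr2 (g ^ (n + 1)) - tr2 (g ^ n)| := abs_sub_abs_le_abs_sub _ _
    have h4 : 0 ≤ |tr2 (g ^ n)| := abs_nonneg _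
    have h5 : 3 * |tr2 (g ^ (n + 1))| ≤ |tr2 g| * |tr2 (g ^ (n + 1))| :=
      mul_le_mul_of_nonneg_right h3 (abs_nonneg _)
    omega

lemma abs_tr2_pow_ge (g : SL(2, ℤ)) (h3 : 3 ≤ |tr2 g|) (n : ℕ) :
    2 + (n : ℤ) ≤ |tr2 (g ^ n)| := by
  induction n with
  | zero => rw [pow_zero, tr2_one]; norm_num
  | succ n ih =>
    have := abs_tr2_pow_lt g h3 n
    push_cast
    omega

lemma abs_tr2_le_two {g : SL(2, ℤ)} (hg : IsOfFinOrder g) : |tr2 g| ≤ 2 := by
  by_contra hcon
  have h3 : 3 ≤ |tr2 g| := by omega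
  obtain ⟨n, hn, hgn⟩ := isOfFinOrder_iff_pow_eq_one.mp hg
  have := abs_tr2_pow_ge g h3 n
  rw [hgn, tr2_one] at this
  have h2 : |(2 : ℤ)| = 2 := by norm_num
  rw [h2] at this
  omega

/-! ### Trace `±2` -/

lemma pow_of_tr2_eq_two (g : SL(2, ℤ)) (ht : tr2 g = 2) (n : ℕ) :
    (g ^ (n + 1)).1 = ((n : ℤ) + 1) • g.1 - (n : ℤ) • (1 : Matrix (Fin 2) (Fin 2) ℤ) := by
  induction n with
  | zero => simp
  | succ n ih =>
    have h2 : (g ^ (n + 1 + 1)).1 = (g ^ (n + 1)).1 * g.1 := by
      rw [pow_succ, Matrix.SpecialLinearGroup.coe_mul]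
    rw [h2, ih, Matrix.sub_mul, Matrix.smul_mul, Matrix.smul_mul, cayley, ht, Matrix.one_mul]
    push_cast
    module

lemma eq_one_of_tr2_eq_two {g : SL(2, ℤ)} (hg : IsOfFinOrder g) (ht : tr2 g = 2) : g = 1 := by
  obtain ⟨n, hn, hgn⟩ := isOfFinOrder_iff_pow_eq_one.mp hg
  obtain ⟨m, rfl⟩ : ∃ m, n = m + 1 := ⟨n - 1, by omega⟩
  have h := pow_of_tr2_eq_two g ht m
  rw [hgn] at h
  have key : ∀ i j, ((m : ℤ) + 1) * (g.1 i j - (1 : Matrix (Fin 2) (Fin 2) ℤ) i j) = 0 := by
    intro i j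
    have := congrFun (congrFun h i) j
    simp only [Matrix.SpecialLinearGroup.coe_one, Matrix.sub_apply, Matrix.smul_apply,
      smul_eq_mul] at this
    linear_combination -this
  have hm : ((m : ℤ) + 1) ≠ 0 := by positivity
  ext i j
  have := (mul_eq_zero.mp (key i j)).resolve_left hm
  simp only [Matrix.SpecialLinearGroup.coe_one]
  linarith

lemma tr2_neg (g : SL(2, ℤ)) : tr2 (-g) = - tr2 g := by
  simp [tr2, Matrix.SpecialLinearGroup.coe_neg]
  ring

lemma isOfFinOrder_neg {g : SL(2, ℤ)} (hg : IsOfFinOrder g) : IsOfFinOrder (-g) := by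
  obtain ⟨n, hn, hgn⟩ := isOfFinOrder_iff_pow_eq_one.mp hg
  refine isOfFinOrder_iff_pow_eq_one.mpr ⟨2 * n, by omega, ?_⟩
  rw [pow_mul, neg_sq, ← pow_mul, mul_comm, pow_mul, hgn, one_pow]


/-! ### Descent for traces `0` and `1` -/

lemma exists_round (r c : ℤ) (hc : c ≠ 0) : ∃ k : ℤ, |r + 2 * k * c| ≤ |c| := by
  have hc' : 0 < |c| := abs_pos.mpr hc
  have h1 := Int.emod_add_mul_ediv (r + |c|) (2 * |c|)
  have h2 := Int.emod_nonneg (r + |c|) (by positivity : (2 * |c|) ≠ 0)
  have h3 := Int.emod_lt_of_pos (r + |c|) (by positivity : 0 < 2 * |c|)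
  set q := (r + |c|) / (2 * |c|)
  set e := (r + |c|) % (2 * |c|)
  rcases abs_cases c with ⟨habs, _⟩ | ⟨habs, _⟩
  · refine ⟨-q, ?_⟩
    rw [habs] at h1 h3 ⊢
    rw [abs_le]
    constructor <;> nlinarith
  · refine ⟨q, ?_⟩
    rw [habs] at h1 h3 ⊢
    rw [abs_le]
    constructor <;> nlinarith

lemma bc_neg_of_trace (t : ℤ) (ht : t = 0 ∨ t = 1) (a b c d : ℤ) (h : a * d - b * c = 1)
    (htr : a + d = t) : b * c < 0 := by
  have hd : d = t - a := by linarith
  subst hd
  rcases ht with rfl | rfl <;> nlinarith [sq_nonneg a, sq_nonneg (2 * a - 1)]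

lemma exists_reduced (t : ℤ) (ht : t = 0 ∨ t = 1) :
    ∀ n : ℕ, ∀ (a b c d : ℤ) (h : a * d - b * c = 1), a + d = t → c.natAbs ≤ n →
      ∃ (h' : SL(2, ℤ)) (a' b' c' d' : ℤ) (h2 : a' * d' - b' * c' = 1),
        h' * mkSL a b c d h * h'⁻¹ = mkSL a' b' c' d' h2 ∧ a' + d' = t ∧
          |2 * a' - t| ≤ |c'| ∧ |c'| ≤ |b'| := by
  intro n
  induction n with
  | zero =>
    intro a b c d h htr hc
    have hc0 : c = 0 := by omega
    have := bc_neg_of_trace t ht a b c d h htr
    rw [hc0] at this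
    simp at this
  | succ n ih =>
    intro a b c d h htr hc
    have hbc := bc_neg_of_trace t ht a b c d h htr
    have hc0 : c ≠ 0 := by
      rintro rfl
      simp at hbc
    obtain ⟨k, hk⟩ := exists_round (2 * a - t) c hc0
    have e1 := conj_T_zpow k a b c d h
    have htr' : (a + k * c) + (d - k * c) = t := by linarith
    have hk' : |2 * (a + k * c) - t| ≤ |c| := by
      have : 2 * (a + k * c) - t = 2 * a - t + 2 * k * c := by ring
      rw [this]; exact hk
    by_cases hb : |c| ≤ |b + k * (d - a) - k ^ 2 * c|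
    · exact ⟨T ^ k, _, _, _, _, _, e1, htr', hk', hb⟩
    · rw [not_le] at hb
      have e2 := conj_S (a + k * c) (b + k * (d - a) - k ^ 2 * c) c (d - k * c)
        (by linear_combination h)
      have hlt : (-(b + k * (d - a) - k ^ 2 * c)).natAbs ≤ n := by
        rw [Int.natAbs_neg]
        have h1 : ((b + k * (d - a) - k ^ 2 * c).natAbs : ℤ) = |b + k * (d - a) - k ^ 2 * c| :=
          Int.natCast_natAbs _
        have h2 : ((c.natAbs : ℕ) : ℤ) = |c| := Int.natCast_natAbs _
        omega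
      obtain ⟨h'', a'', b'', c'', d'', h2, e3, htr'', hr1, hr2⟩ :=
        ih (d - k * c) (-c) (-(b + k * (d - a) - k ^ 2 * c)) (a + k * c)
          (by linear_combination h) (by linarith) hlt
      exact ⟨h'' * (S * T ^ k), a'', b'', c'', d'', h2, conj_trans (conj_trans e1 e2) e3,
        htr'', hr1, hr2⟩

lemma reduced_zero (a b c d : ℤ) (h : a * d - b * c = 1) (htr : a + d = 0)
    (h1 : |2 * a - 0| ≤ |c|) (h2 : |c| ≤ |b|) :
    a = 0 ∧ d = 0 ∧ ((b = 1 ∧ c = -1) ∨ (b = -1 ∧ c = 1)) := by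
  have hd : d = -a := by linarith
  subst hd
  have hbc : b * c = -(a ^ 2 + 1) := by linear_combination -h
  have h3 : (2 * a) ^ 2 ≤ c ^ 2 := by
    rw [sub_zero] at h1
    exact sq_le_sq.mpr h1
  have h4 : c ^ 2 ≤ |b| * |c| := by
    have := mul_le_mul_of_nonneg_right h2 (abs_nonneg c)
    calc c ^ 2 = |c| * |c| := by rw [← sq, sq_abs]
      _ ≤ |b| * |c| := this
  have h5 : |b| * |c| = a ^ 2 + 1 := by
    rw [← abs_mul, hbc, abs_neg, abs_of_pos (by positivity)]
  have ha : a = 0 := by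
    have : a ^ 2 ≤ 0 := by nlinarith
    exact pow_eq_zero_iff (two_ne_zero) |>.mp (le_antisymm this (sq_nonneg a))
  subst ha
  refine ⟨rfl, by simp, ?_⟩
  have : b * c = -1 := by rw [hbc]; norm_num
  exact Int.mul_eq_neg_one_iff_eq_one_or_neg_one.mp this

lemma reduced_one (a b c d : ℤ) (h : a * d - b * c = 1) (htr : a + d = 1)
    (h1 : |2 * a - 1| ≤ |c|) (h2 : |c| ≤ |b|) :
    ((a = 0 ∧ d = 1) ∨ (a = 1 ∧ d = 0)) ∧ ((b = 1 ∧ c = -1) ∨ (b = -1 ∧ c = 1)) := by
  have hd : d = 1 - a := by linarith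
  subst hd
  have hbc : b * c = -(a ^ 2 - a + 1) := by linear_combination -h
  have h3 : (2 * a - 1) ^ 2 ≤ c ^ 2 := sq_le_sq.mpr h1
  have h4 : c ^ 2 ≤ |b| * |c| := by
    have := mul_le_mul_of_nonneg_right h2 (abs_nonneg c)
    calc c ^ 2 = |c| * |c| := by rw [← sq, sq_abs]
      _ ≤ |b| * |c| := this
  have hpos : 0 < a ^ 2 - a + 1 := by nlinarith [sq_nonneg (2 * a - 1)]
  have h5 : |b| * |c| = a ^ 2 - a + 1 := by
    rw [← abs_mul, hbc, abs_neg, abs_of_pos hpos]
  have ha : a = 0 ∨ a = 1 := by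
    have h6 : a * (a - 1) ≤ 0 := by nlinarith
    have h7 : 0 ≤ a := by nlinarith
    have h8 : a ≤ 1 := by nlinarith
    omega
  have hbc1 : b * c = -1 := by
    rcases ha with rfl | rfl <;> rw [hbc] <;> norm_num
  refine ⟨?_, Int.mul_eq_neg_one_iff_eq_one_or_neg_one.mp hbc1⟩
  rcases ha with rfl | rfl
  · left; exact ⟨rfl, by norm_num⟩
  · right; exact ⟨rfl, by norm_num⟩


/-! ### Classification -/

lemma conj_of_tr2_zero (g : SL(2, ℤ)) (ht : tr2 g = 0) :
    ∃ h : SL(2, ℤ), h * g * h⁻¹ = S ∨ h * g * h⁻¹ = -S := by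
  obtain ⟨h, a, b, c, d, h2, e, htr, hr1, hr2⟩ :=
    exists_reduced 0 (Or.inl rfl) (g.1 1 0).natAbs (g.1 0 0) (g.1 0 1) (g.1 1 0) (g.1 1 1)
      (det_entries g) ht le_rfl
  rw [← eq_mkSL g] at e
  obtain ⟨rfl, rfl, ⟨rfl, rfl⟩ | ⟨rfl, rfl⟩⟩ := reduced_zero a b c d h2 htr hr1 hr2
  · refine ⟨h, Or.inr ?_⟩
    rw [e, S_eq, neg_mkSL]
    apply ext_entries <;> simp
  · refine ⟨h, Or.inl ?_⟩
    rw [e, S_eq]

lemma conj_of_tr2_one (g : SL(2, ℤ)) (ht : tr2 g = 1) :
    ∃ h : SL(2, ℤ), h * g * h⁻¹ = S * T ∨ h * g * h⁻¹ = -(S * T) ^ 2 := by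
  obtain ⟨h, a, b, c, d, h2, e, htr, hr1, hr2⟩ :=
    exists_reduced 1 (Or.inr rfl) (g.1 1 0).natAbs (g.1 0 0) (g.1 0 1) (g.1 1 0) (g.1 1 1)
      (det_entries g) ht le_rfl
  rw [← eq_mkSL g] at e
  have hST2 : -(S * T) ^ 2 = mkSL 1 1 (-1) 0 (by norm_num) := by
    rw [ST_sq_eq, neg_mkSL]
    apply ext_entries <;> simp
  obtain ⟨⟨rfl, rfl⟩ | ⟨rfl, rfl⟩, ⟨rfl, rfl⟩ | ⟨rfl, rfl⟩⟩ := reduced_one a b c d h2 htr hr1 hr2
  · -- (0, 1, -1, 1): conjugate by `S` to (1, 1, -1, 0) = -(ST)²
    have e2 := conj_S 0 1 (-1) 1 h2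
    refine ⟨S * h, Or.inr ?_⟩
    rw [conj_trans e e2, hST2]
    apply ext_entries <;> simp
  · -- (0, -1, 1, 1) = ST
    refine ⟨h, Or.inl ?_⟩
    rw [e, ST_eq]
  · -- (1, 1, -1, 0) = -(ST)²
    refine ⟨h, Or.inr ?_⟩
    rw [e, hST2]
  · -- (1, -1, 1, 0): conjugate by `S` to (0, -1, 1, 1) = ST
    have e2 := conj_S 1 (-1) 1 0 h2
    refine ⟨S * h, Or.inl ?_⟩
    rw [conj_trans e e2, ST_eq]
    apply ext_entries <;> simp

/-- **TORS**: every element of finite order of `SL(2,ℤ)` is conjugate to one of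
`± 1, ± S, ± ST, ± (ST)²`. -/
theorem torsion_class (g : SL(2, ℤ)) (hg : IsOfFinOrder g) :
    ∃ h : SL(2, ℤ), h * g * h⁻¹ = 1 ∨ h * g * h⁻¹ = -1 ∨ h * g * h⁻¹ = S ∨ h * g * h⁻¹ = -S ∨
      h * g * h⁻¹ = S * T ∨ h * g * h⁻¹ = -(S * T) ∨ h * g * h⁻¹ = (S * T) ^ 2 ∨
      h * g * h⁻¹ = -(S * T) ^ 2 := by
  have hb := abs_tr2_le_two hg
  rw [abs_le] at hb
  have hcases : tr2 g = 2 ∨ tr2 g = -2 ∨ tr2 g = 0 ∨ tr2 g = 1 ∨ tr2 g = -1 := by omega
  rcases hcases with ht | ht | ht | ht | ht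
  · refine ⟨1, Or.inl ?_⟩
    rw [eq_one_of_tr2_eq_two hg ht]; group
  · refine ⟨1, Or.inr (Or.inl ?_)⟩
    have h1 : -g = 1 := eq_one_of_tr2_eq_two (isOfFinOrder_neg hg) (by rw [tr2_neg, ht]; norm_num)
    have h2 : g = -1 := by rw [← h1, neg_neg]
    rw [h2]; simp
  · obtain ⟨h, e | e⟩ := conj_of_tr2_zero g ht
    · exact ⟨h, Or.inr (Or.inr (Or.inl e))⟩
    · exact ⟨h, Or.inr (Or.inr (Or.inr (Or.inl e)))⟩
  · obtain ⟨h, e | e⟩ := conj_of_tr2_one g ht
    · exact ⟨h, Or.inr (Or.inr (Or.inr (Or.inr (Or.inl e))))⟩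
    · exact ⟨h, Or.inr (Or.inr (Or.inr (Or.inr (Or.inr (Or.inr (Or.inr e))))))⟩
  · obtain ⟨h, e | e⟩ := conj_of_tr2_one (-g) (by rw [tr2_neg, ht]; norm_num)
    · refine ⟨h, Or.inr (Or.inr (Or.inr (Or.inr (Or.inr (Or.inl ?_)))))⟩
      rw [← e]; simp
    · refine ⟨h, Or.inr (Or.inr (Or.inr (Or.inr (Or.inr (Or.inr (Or.inl ?_))))))⟩
      have : h * g * h⁻¹ = -(h * -g * h⁻¹) := by simp
      rw [this, e, neg_neg]

end Fermat.Agent.S41.H952

end
-- ===== PACK-END S41/H952/TorsCore.lean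

-- ===== PACK-BEGIN S59/H127/LinAlg2.lean
section


/-!
# E-side foundation, part 8: two lemmas on `2 × 2` linear algebra over a domain

* `charpoly_eq_of_quadratic_of_det` : if `T² - a T + b = 0`, `det T = b ≠ 0` on a free module of
  rank `2` over a domain then `charpoly T = X² - a X + b`;
* `charpoly_eq_of_sub_one_sq` : if `T² - 2 T + 1 = 0` then `charpoly T = (X - 1)²`.
-/

open Polynomial

namespace Fermat.Agent.S59.H127

section matrix

variable {R : Type*} [CommRing R] [IsDomain R]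

omit [IsDomain R] in
/-- Cayley–Hamilton for `2 × 2` matrices, explicitly -/
lemma cayley_hamilton_fin_two (M : Matrix (Fin 2) (Fin 2) R) :
    M * M - M.trace • M + M.det • (1 : Matrix (Fin 2) (Fin 2) R) = 0 := by
  ext i j
  fin_cases i <;> fin_cases j <;>
    simp [Matrix.mul_apply, Matrix.trace_fin_two, Matrix.det_fin_two, Fin.sum_univ_two] <;>
    ring

lemma matrix_trace_eq_of_quadratic_of_det (M : Matrix (Fin 2) (Fin 2) R) (a b : R) (hb : b ≠ 0)
    (hrel : M * M - a • M + b • (1 : Matrix (Fin 2) (Fin 2) R) = 0) (hdet : M.det = b) :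
    M.trace = a := by
  have hch := cayley_hamilton_fin_two M
  rw [hdet] at hch
  have h1 : (M.trace - a) • M = 0 := by
    have : (M.trace - a) • M = (M * M - a • M + b • (1 : Matrix (Fin 2) (Fin 2) R))
        - (M * M - M.trace • M + b • (1 : Matrix (Fin 2) (Fin 2) R)) := by
      rw [sub_smul]; abel
    rw [this, hrel, hch, sub_zero]
  by_contra hne
  have hM : M = 0 := by
    rcases smul_eq_zero.mp h1 with h | h
    · exact absurd (sub_eq_zero.mp h) hne
    · exact h
  rw [hM, Matrix.det_zero] at hdet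
  exact hb hdet.symm

lemma matrix_charpoly_eq_of_sub_one_sq (M : Matrix (Fin 2) (Fin 2) R)
    (hrel : M * M - (2 : R) • M + (1 : Matrix (Fin 2) (Fin 2) R) = 0) :
    M.charpoly = (X - 1) ^ 2 := by
  have hN : IsNilpotent (M - 1) := by
    refine ⟨2, ?_⟩
    have : (M - 1) ^ 2 = M * M - (2 : R) • M + 1 := by
      rw [pow_two, sub_mul, mul_sub, mul_sub, mul_one, one_mul, mul_one, two_smul]
      abel
    rw [this, hrel]
  have h1 : (M - 1).charpoly = X ^ 2 := by
    have := Matrix.isNilpotent_charpoly_sub_pow_of_isNilpotent hN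
    rw [Fintype.card_fin] at this
    exact sub_eq_zero.mp (IsNilpotent.eq_zero this)
  have h2 : (M - 1).charpoly = M.charpoly.comp (X + C 1) := by
    have := Matrix.charpoly_sub_scalar M (1 : R)
    rwa [map_one] at this
  have h3 : M.charpoly = (M.charpoly.comp (X + C 1)).comp (X - C 1) := by
    rw [comp_assoc]
    simp
  rw [h3, ← h2, h1]
  simp

end matrix

section linearMap

variable {R : Type*} [CommRing R] [IsDomain R] {V : Type*} [AddCommGroup V] [Module R V]
  [Module.Free R V] [Module.Finite R V]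

/-- if `T² - a T + b = 0` and `det T = b ≠ 0` in rank `2`, then `charpoly T = X² - a X + b` -/
theorem charpoly_eq_of_quadratic_of_det (h2 : Module.finrank R V = 2) (T : Module.End R V)
    (a b : R) (hb : b ≠ 0) (hrel : T * T - a • T + b • (1 : Module.End R V) = 0)
    (hdet : LinearMap.det T = b) :
    LinearMap.charpoly T = X ^ 2 - C a * X + C b := by
  let e := Module.finBasisOfFinrankEq R V h2
  have hM : LinearMap.toMatrix e e T * LinearMap.toMatrix e e T
      - a • LinearMap.toMatrix e e T + b • (1 : Matrix (Fin 2) (Fin 2) R) = 0 := by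
    have := congrArg (LinearMap.toMatrixAlgEquiv e) hrel
    rw [map_add, map_sub, map_mul, map_smul, map_smul, map_one, map_zero] at this
    exact this
  have hd : (LinearMap.toMatrix e e T).det = b := by
    rw [LinearMap.det_toMatrix, hdet]
  have ht := matrix_trace_eq_of_quadratic_of_det _ a b hb hM hd
  rw [← LinearMap.charpoly_toMatrix T e, Matrix.charpoly_fin_two, ht, hd]

/-- if `(T - 1)² = 0` in rank `2`, then `charpoly T = (X - 1)²` -/
theorem charpoly_eq_of_sub_one_sq (h2 : Module.finrank R V = 2) (T : Module.End R V)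
    (hrel : T * T - (2 : R) • T + (1 : Module.End R V) = 0) :
    LinearMap.charpoly T = (X - 1) ^ 2 := by
  let e := Module.finBasisOfFinrankEq R V h2
  have hM : LinearMap.toMatrix e e T * LinearMap.toMatrix e e T
      - (2 : R) • LinearMap.toMatrix e e T + (1 : Matrix (Fin 2) (Fin 2) R) = 0 := by
    have := congrArg (LinearMap.toMatrixAlgEquiv e) hrel
    rw [map_add, map_sub, map_mul, map_smul, map_one, map_zero] at this
    exact this
  rw [← LinearMap.charpoly_toMatrix T e]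
  exact matrix_charpoly_eq_of_sub_one_sq _ hM

end linearMap

end Fermat.Agent.S59.H127

end
-- ===== PACK-END S59/H127/LinAlg2.lean

-- ===== PACK-BEGIN S05/Sq12/Inertia.lean
section



/-!
# Inertia / decomposition group facts for valuation subrings (squad S05/S12, warmups W1 + W2)
-/

set_option autoImplicit false

namespace Fermat.Agent.S05.Sq12

open ValuationSubring
open scoped Pointwise

section Decomp

variable {K L : Type*} [Field K] [Field L] [Algebra K L]

theorem smul_eq_of_mem_decomp (A : ValuationSubring L) {σ : L ≃ₐ[K] L}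
    (hσ : σ ∈ A.decompositionSubgroup K) : σ • A = A := hσ

theorem apply_mem_of_mem_decomp (A : ValuationSubring L) {σ : L ≃ₐ[K] L}
    (hσ : σ ∈ A.decompositionSubgroup K) {x : L} (hx : x ∈ A) : σ x ∈ A := by
  have h : σ • x ∈ σ • A := ValuationSubring.smul_mem_pointwise_smul σ x A hx
  rw [smul_eq_of_mem_decomp A hσ] at h
  exact h

theorem apply_mem_iff_of_mem_decomp (A : ValuationSubring L) {σ : L ≃ₐ[K] L}
    (hσ : σ ∈ A.decompositionSubgroup K) (x : L) : σ x ∈ A ↔ x ∈ A := by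
  constructor
  · intro h
    have hinv : σ⁻¹ ∈ A.decompositionSubgroup K := inv_mem hσ
    have := apply_mem_of_mem_decomp A hinv h
    simpa using this
  · exact apply_mem_of_mem_decomp A hσ

theorem valuation_le_of_mem_decomp (A : ValuationSubring L) {σ : L ≃ₐ[K] L}
    (hσ : σ ∈ A.decompositionSubgroup K) {x y : L}
    (h : A.valuation x ≤ A.valuation y) : A.valuation (σ x) ≤ A.valuation (σ y) := by
  rw [ValuationSubring.valuation_le_iff] at h ⊢
  obtain ⟨a, ha⟩ := h
  refine ⟨⟨σ a, apply_mem_of_mem_decomp A hσ a.2⟩, ?_⟩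
  simp only
  rw [← map_mul, ha]

theorem valuation_le_iff_of_mem_decomp (A : ValuationSubring L) {σ : L ≃ₐ[K] L}
    (hσ : σ ∈ A.decompositionSubgroup K) (x y : L) :
    A.valuation (σ x) ≤ A.valuation (σ y) ↔ A.valuation x ≤ A.valuation y := by
  constructor
  · intro h
    have hinv : σ⁻¹ ∈ A.decompositionSubgroup K := inv_mem hσ
    have := valuation_le_of_mem_decomp A hinv h
    simpa using this
  · exact valuation_le_of_mem_decomp A hσ

theorem valuation_lt_iff_of_mem_decomp (A : ValuationSubring L) {σ : L ≃ₐ[K] L}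
    (hσ : σ ∈ A.decompositionSubgroup K) (x y : L) :
    A.valuation (σ x) < A.valuation (σ y) ↔ A.valuation x < A.valuation y := by
  rw [← not_le, ← not_le, valuation_le_iff_of_mem_decomp A hσ]

/-- Some positive power of `σ` fixes a given algebraic element. -/
theorem exists_pow_apply_eq_self {σ : L ≃ₐ[K] L} {x : L} (hx : IsAlgebraic K x) :
    ∃ n : ℕ, 0 < n ∧ (σ ^ n) x = x := by
  classical
  have hint : IsIntegral K x := hx.isIntegral
  have hfin : ((minpoly K x).rootSet L).Finite := Polynomial.rootSet_finite _ _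
  have hmem : ∀ k : ℕ, (σ ^ k) x ∈ (minpoly K x).rootSet L := by
    intro k
    rw [Polynomial.mem_rootSet]
    refine ⟨minpoly.ne_zero hint, ?_⟩
    have : Polynomial.aeval ((σ ^ k) x) (minpoly K x) = (σ ^ k) (Polynomial.aeval x (minpoly K x)) := by
      exact Polynomial.aeval_algHom_apply ((σ ^ k : L ≃ₐ[K] L) : L →ₐ[K] L) x (minpoly K x)
    rw [this, minpoly.aeval, map_zero]
  obtain ⟨i, j, hij, heq⟩ : ∃ i j : ℕ, i < j ∧ (σ ^ i) x = (σ ^ j) x := by
    by_contra hcon
    push Not at hcon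
    have hinj : Function.Injective (fun k : ℕ => (⟨(σ ^ k) x, hmem k⟩ : (minpoly K x).rootSet L)) := by
      intro a b hab
      simp only [Subtype.mk.injEq] at hab
      rcases lt_trichotomy a b with h | h | h
      · exact absurd hab (hcon a b h)
      · exact h
      · exact absurd hab.symm (hcon b a h)
    have : Finite ((minpoly K x).rootSet L) := hfin.to_subtype
    exact not_injective_infinite_finite _ hinj
  refine ⟨j - i, Nat.sub_pos_of_lt hij, ?_⟩
  have hpow : σ ^ j = σ ^ i * σ ^ (j - i) := by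
    rw [← pow_add]; congr 1; omega
  rw [hpow, AlgEquiv.mul_apply] at heq
  exact ((σ ^ i).injective heq).symm

theorem valuation_apply_eq_of_mem_decomp (A : ValuationSubring L) {σ : L ≃ₐ[K] L}
    (hσ : σ ∈ A.decompositionSubgroup K) {x : L} (hx : IsAlgebraic K x) :
    A.valuation (σ x) = A.valuation x := by
  obtain ⟨n, hn, hfix⟩ := exists_pow_apply_eq_self (σ := σ) hx
  -- monotone chains
  have hup : A.valuation x < A.valuation (σ x) →
      ∀ k : ℕ, A.valuation x < A.valuation ((σ ^ (k + 1)) x) := by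
    intro h k
    induction k with
    | zero => simpa using h
    | succ k ih =>
      have h1 : A.valuation (σ x) < A.valuation (σ ((σ ^ (k + 1)) x)) :=
        (valuation_lt_iff_of_mem_decomp A hσ _ _).2 ih
      have h2 : σ ((σ ^ (k + 1)) x) = (σ ^ (k + 1 + 1)) x := by
        rw [pow_succ' σ (k + 1), AlgEquiv.mul_apply]
      rw [h2] at h1
      exact lt_trans h h1
  have hdown : A.valuation (σ x) < A.valuation x →
      ∀ k : ℕ, A.valuation ((σ ^ (k + 1)) x) < A.valuation x := by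
    intro h k
    induction k with
    | zero => simpa using h
    | succ k ih =>
      have h1 : A.valuation (σ ((σ ^ (k + 1)) x)) < A.valuation (σ x) :=
        (valuation_lt_iff_of_mem_decomp A hσ _ _).2 ih
      have h2 : σ ((σ ^ (k + 1)) x) = (σ ^ (k + 1 + 1)) x := by
        rw [pow_succ' σ (k + 1), AlgEquiv.mul_apply]
      rw [h2] at h1
      exact lt_trans h1 h
  obtain ⟨m, rfl⟩ : ∃ m, n = m + 1 := ⟨n - 1, by omega⟩
  rcases lt_trichotomy (A.valuation (σ x)) (A.valuation x) with h | h | h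
  · have := hdown h m
    rw [hfix] at this
    exact absurd this (lt_irrefl _)
  · exact h
  · have := hup h m
    rw [hfix] at this
    exact absurd this (lt_irrefl _)

theorem mem_decomp_of_mem_inertiaIn (A : ValuationSubring L) {σ : L ≃ₐ[K] L}
    (hσ : σ ∈ A.inertiaSubgroupIn K) : σ ∈ A.decompositionSubgroup K := by
  obtain ⟨τ, _, rfl⟩ := hσ
  exact τ.2

theorem sub_mem_nonunits_of_mem_inertiaIn (A : ValuationSubring L) {σ : L ≃ₐ[K] L}
    (hσ : σ ∈ A.inertiaSubgroupIn K) {x : L} (hx : x ∈ A) : σ x - x ∈ A.nonunits := by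
  obtain ⟨τ, hτ, rfl⟩ := hσ
  have hτ' : MulSemiringAction.toRingAut (A.decompositionSubgroup K)
      (IsLocalRing.ResidueField A) τ = 1 := hτ
  have h1 : τ • (IsLocalRing.residue A ⟨x, hx⟩) = IsLocalRing.residue A ⟨x, hx⟩ := by
    have := congrArg (fun f : RingAut (IsLocalRing.ResidueField A) =>
      f (IsLocalRing.residue A ⟨x, hx⟩)) hτ'
    simpa using this
  rw [← IsLocalRing.ResidueField.residue_smul] at h1
  have h2 : IsLocalRing.residue A (τ • (⟨x, hx⟩ : A) - ⟨x, hx⟩) = 0 := by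
    rw [map_sub, h1, sub_self]
  have h3 : (τ • (⟨x, hx⟩ : A) - ⟨x, hx⟩) ∈ IsLocalRing.maximalIdeal A :=
    (IsLocalRing.residue_eq_zero_iff _).1 h2
  have h4 := (ValuationSubring.coe_mem_nonunits_iff (A := A)).2 h3
  exact h4

end Decomp


section Integers

variable {L : Type*} [Field L] (A : ValuationSubring L)

theorem intCast_mem_vs (n : ℤ) : (n : L) ∈ A := _root_.intCast_mem A n

theorem natCast_mem_vs (n : ℕ) : (n : L) ∈ A := _root_.natCast_mem A n

theorem valuation_intCast_le_one (n : ℤ) : A.valuation (n : L) ≤ 1 :=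
  (A.valuation_le_one_iff _).2 (intCast_mem_vs A n)

theorem valuation_natCast_le_one (n : ℕ) : A.valuation (n : L) ≤ 1 :=
  (A.valuation_le_one_iff _).2 (natCast_mem_vs A n)

theorem valuation_intCast_lt_one_of_dvd {q : ℕ} (hq : A.LiesOverPrime q) {n : ℤ}
    (h : (q : ℤ) ∣ n) : A.valuation (n : L) < 1 := by
  obtain ⟨m, rfl⟩ := h
  have hq' : A.valuation (q : L) < 1 := (A.mem_nonunits_iff).1 hq
  push_cast
  rw [map_mul]
  calc A.valuation (q : L) * A.valuation (m : L)
      ≤ A.valuation (q : L) * 1 := by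
        gcongr
        exact valuation_intCast_le_one A m
    _ = A.valuation (q : L) := mul_one _
    _ < 1 := hq'

theorem valuation_intCast_eq_one_of_not_dvd {q : ℕ} (hqp : q.Prime) (hq : A.LiesOverPrime q)
    {n : ℤ} (h : ¬ (q : ℤ) ∣ n) : A.valuation (n : L) = 1 := by
  have hq' : A.valuation (q : L) < 1 := (A.mem_nonunits_iff).1 hq
  have hcop : IsCoprime (q : ℤ) n := by
    have hprime : Prime (q : ℤ) := Nat.prime_iff_prime_int.1 hqp
    exact (Prime.coprime_iff_not_dvd hprime).2 h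
  obtain ⟨u, v, huv⟩ := hcop
  have hL : (u : L) * (q : L) + (v : L) * (n : L) = 1 := by
    have := congrArg (fun z : ℤ => (z : L)) huv
    push_cast at this
    exact this
  rcases lt_or_eq_of_le (valuation_intCast_le_one A n) with hlt | heq
  · exfalso
    have h1 : A.valuation ((u : L) * (q : L)) < 1 := by
      rw [map_mul]
      calc A.valuation (u : L) * A.valuation (q : L)
          ≤ 1 * A.valuation (q : L) := by
            gcongr
            exact valuation_intCast_le_one A u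
        _ = A.valuation (q : L) := one_mul _
        _ < 1 := hq'
    have h2 : A.valuation ((v : L) * (n : L)) < 1 := by
      rw [map_mul]
      calc A.valuation (v : L) * A.valuation (n : L)
          ≤ 1 * A.valuation (n : L) := by
            gcongr
            exact valuation_intCast_le_one A v
        _ = A.valuation (n : L) := one_mul _
        _ < 1 := hlt
    have h3 : A.valuation ((u : L) * (q : L) + (v : L) * (n : L)) < 1 :=
      lt_of_le_of_lt (A.valuation.map_add _ _) (max_lt h1 h2)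
    rw [hL, map_one] at h3
    exact lt_irrefl _ h3
  · exact heq

theorem valuation_natCast_eq_one_of_not_dvd {q : ℕ} (hqp : q.Prime) (hq : A.LiesOverPrime q)
    {n : ℕ} (h : ¬ q ∣ n) : A.valuation (n : L) = 1 := by
  have := valuation_intCast_eq_one_of_not_dvd A hqp hq (n := (n : ℤ))
    (by rwa [Int.natCast_dvd_natCast])
  simpa using this

theorem valuation_prime_eq_one {q p : ℕ} (hqp : q.Prime) (hq : A.LiesOverPrime q)
    (hp : p.Prime) (hne : q ≠ p) : A.valuation (p : L) = 1 :=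
  valuation_natCast_eq_one_of_not_dvd A hqp hq
    (fun h => hne ((Nat.prime_dvd_prime_iff_eq hqp hp).1 h))

theorem valuation_two_eq_one {q : ℕ} (hqp : q.Prime) (hq : A.LiesOverPrime q)
    (hne : q ≠ 2) : A.valuation (2 : L) = 1 := by
  have := valuation_prime_eq_one A hqp hq Nat.prime_two hne
  simpa using this

end Integers

section Rat

/-- every element of `AlgebraicClosure ℚ` is algebraic over `ℚ` for the algebra structure
used by the Prelude (`DivisionRing.toRatAlgebra`). -/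
theorem isAlgebraic_algebraicClosure_rat (x : AlgebraicClosure ℚ) : IsAlgebraic ℚ x := by
  have h : (AlgebraicClosure.instAlgebra ℚ : Algebra ℚ (AlgebraicClosure ℚ)) =
      DivisionRing.toRatAlgebra := Subsingleton.elim _ _
  have hx : @IsAlgebraic ℚ (AlgebraicClosure ℚ) _ _ (AlgebraicClosure.instAlgebra ℚ) x :=
    @Algebra.IsAlgebraic.isAlgebraic ℚ (AlgebraicClosure ℚ) _ _ (AlgebraicClosure.instAlgebra ℚ)
      (AlgebraicClosure.isAlgebraic ℚ) x
  rw [h] at hx
  exact hx

variable (A : ValuationSubring (AlgebraicClosure ℚ))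
  {σ : AlgebraicClosure ℚ ≃ₐ[ℚ] AlgebraicClosure ℚ}

theorem valuation_apply_eq_of_mem_inertiaIn (hσ : σ ∈ A.inertiaSubgroupIn ℚ)
    (x : AlgebraicClosure ℚ) : A.valuation (σ x) = A.valuation x :=
  valuation_apply_eq_of_mem_decomp A (mem_decomp_of_mem_inertiaIn A hσ)
    (isAlgebraic_algebraicClosure_rat x)

theorem valuation_sub_lt_one_of_mem_inertiaIn (hσ : σ ∈ A.inertiaSubgroupIn ℚ)
    {x : AlgebraicClosure ℚ} (hx : A.valuation x ≤ 1) : A.valuation (σ x - x) < 1 :=
  (A.mem_nonunits_iff).1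
    (sub_mem_nonunits_of_mem_inertiaIn A hσ ((A.valuation_le_one_iff x).1 hx))

theorem apply_ratCast (r : ℚ) : σ (r : AlgebraicClosure ℚ) = r := map_ratCast σ r

theorem apply_intCast (n : ℤ) : σ (n : AlgebraicClosure ℚ) = n := map_intCast σ n

theorem apply_natCast (n : ℕ) : σ (n : AlgebraicClosure ℚ) = n := map_natCast σ n

end Rat

end Fermat.Agent.S05.Sq12

end
-- ===== PACK-END S05/Sq12/Inertia.lean

-- ===== PACK-BEGIN S59/TW/H653/Comm/IntMat.lean
section


/-!
# S59 / TW-HECKE (helper653): cancellation for integral matrices of coprime determinants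

`int_cancel` : if `a * b = G * (a' * b')` for integral matrices with `det a = det a' = m`,
`det b = det b' = n`, `m, n` coprime and nonzero, `det G = 1`, then there is an integral `W` of
determinant `1` with `b = W * b'` and `a * W = G * a'`.
-/

set_option autoImplicit false

namespace Fermat.Agent.S59.TW.H653

open Matrix

variable {k : Type*} [Fintype k] [DecidableEq k]

theorem int_cancel {a a' b b' G : Matrix k k ℤ} {m n : ℤ} (ha : a.det = m)
    (hb' : b'.det = n) (hb : b.det = n) (hmn : IsCoprime m n) (hm : m ≠ 0)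
    (hn : n ≠ 0) (e : a * b = G * (a' * b')) :
    ∃ W : Matrix k k ℤ, W.det = 1 ∧ b = W * b' ∧ a * W = G * a' := by
  -- `U = adj a * G * a'`, `V = b * adj b'`, `n U = m V`
  set U : Matrix k k ℤ := a.adjugate * G * a' with hU
  set V : Matrix k k ℤ := b * b'.adjugate with hV
  have h1 : U * b' = m • b := by
    have e' : a.adjugate * G * a' * b' = a.adjugate * (G * (a' * b')) := by
      simp only [mul_assoc]
    rw [hU, e', ← e, ← mul_assoc, adjugate_mul, ha, smul_mul_assoc, one_mul]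
  have h2 : n • U = m • V := by
    have h1' : U * b' * b'.adjugate = m • b * b'.adjugate := by rw [h1]
    rw [mul_assoc, mul_adjugate, hb', smul_mul_assoc, mul_smul_comm, mul_one] at h1'
    exact h1'
  -- entrywise divisibility
  have hdiv : ∀ i j, m ∣ U i j := by
    intro i j
    have h3 : n * U i j = m * V i j := by
      have := congrFun (congrFun h2 i) j
      simpa [Matrix.smul_apply] using this
    have h4 : m ∣ U i j * n := ⟨V i j, by rw [mul_comm, h3]⟩
    exact hmn.dvd_of_dvd_mul_right h4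
  choose w hw using hdiv
  set W : Matrix k k ℤ := Matrix.of w with hWdef
  have hUW : U = m • W := by
    ext i j
    rw [hw i j]
    simp [W, Matrix.smul_apply]
  have hVW : V = n • W := by
    have h5 : m • V = m • (n • W) := by
      rw [← h2, hUW, smul_comm]
    ext i j
    have := congrFun (congrFun h5 i) j
    simp only [Matrix.smul_apply, smul_eq_mul] at this ⊢
    exact mul_left_cancel₀ hm this
  have hbW : b = W * b' := by
    have h6 : V * b' = n • b := by
      rw [hV, mul_assoc, adjugate_mul, hb', mul_smul_comm, mul_one]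
    rw [hVW, smul_mul_assoc] at h6
    ext i j
    have := congrFun (congrFun h6 i) j
    simp only [Matrix.smul_apply, smul_eq_mul] at this
    exact (mul_left_cancel₀ hn this).symm
  have hdetW : W.det = 1 := by
    have h7 : b.det = W.det * b'.det := by rw [hbW, det_mul]
    rw [hb, hb'] at h7
    have h8 : W.det * n = 1 * n := by rw [one_mul]; exact h7.symm
    exact mul_right_cancel₀ hn h8
  refine ⟨W, hdetW, hbW, ?_⟩
  have h9 : a * U = m • (G * a') := by
    rw [hU, ← mul_assoc, ← mul_assoc, mul_adjugate, ha, smul_mul_assoc, one_mul, smul_mul_assoc]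
  rw [hUW, mul_smul_comm] at h9
  ext i j
  have := congrFun (congrFun h9 i) j
  simp only [Matrix.smul_apply, smul_eq_mul] at this
  exact mul_left_cancel₀ hm this

end Fermat.Agent.S59.TW.H653

end
-- ===== PACK-END S59/TW/H653/Comm/IntMat.lean

-- ===== PACK-BEGIN S59/H105/HenselComm.lean
section



/-!
# Row S59, cell TW, leaf CTRL (helper105): Hensel roots of `X² - t X + q` in a finite algebra

`𝒪` a complete noetherian local ring with maximal ideal `(ϖ)`, `A` a commutative `𝒪`-algebra,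
finite as a module, `t ∈ A` with `(t - c)^k ∈ ϖ A`, `α, β ∈ 𝒪` with `α + β ≡ c`, `α β ≡ q`
modulo `ϖ` and `α - β` a unit.  Then `X² - t X + q = (X - a) (X - b)` in `A` with
`a ≡ α`, `b ≡ β` modulo the ideal `I = (ϖ, t - c)`, which lies in the Jacobson radical and
satisfies `I^k ⊆ ϖ A`.
-/

set_option autoImplicit false

namespace Fermat.Agent.S59.H105

open IsLocalRing Polynomial

section

variable {𝒪 : Type*} [CommRing 𝒪] [IsLocalRing 𝒪]
  {A : Type*} [CommRing A] [Algebra 𝒪 A]

/-- The ideal `(ϖ, t - c)` of `A`. -/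
def henselIdeal (ϖ c : 𝒪) (t : A) : Ideal A :=
  Ideal.span {algebraMap 𝒪 A ϖ} ⊔ Ideal.span {t - algebraMap 𝒪 A c}

theorem henselIdeal_pow_le (ϖ c : 𝒪) (t : A) (k : ℕ) (g : A)
    (hnil : (t - algebraMap 𝒪 A c) ^ k = algebraMap 𝒪 A ϖ * g) :
    henselIdeal ϖ c t ^ (1 + k) ≤ Ideal.span {algebraMap 𝒪 A ϖ} := by
  refine le_trans Ideal.sup_pow_add_le_pow_sup_pow ?_
  rw [pow_one, Ideal.span_singleton_pow, hnil]
  refine sup_le le_rfl ?_
  rw [Ideal.span_singleton_le_span_singleton]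
  exact Dvd.intro _ rfl

theorem mem_smul_top_iff (ϖ : 𝒪) (hϖ : maximalIdeal 𝒪 = Ideal.span {ϖ}) (n : ℕ) (x : A) :
    x ∈ (maximalIdeal 𝒪 ^ n • ⊤ : Submodule 𝒪 A) ↔ ∃ z : A, x = algebraMap 𝒪 A ϖ ^ n * z := by
  rw [hϖ, Ideal.span_singleton_pow, Submodule.ideal_span_singleton_smul,
    Submodule.mem_smul_pointwise_iff_exists]
  constructor
  · rintro ⟨z, _, rfl⟩
    exact ⟨z, by rw [Algebra.smul_def, map_pow]⟩
  · rintro ⟨z, rfl⟩
    exact ⟨z, Submodule.mem_top, by rw [Algebra.smul_def, map_pow]⟩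

theorem mem_pow_smul_top_iff (I : Ideal A) (n : ℕ) (x : A) :
    x ∈ (I ^ n • ⊤ : Submodule A A) ↔ x ∈ I ^ n := by
  rw [smul_eq_mul, Ideal.mul_top]

/-- `A` is complete for the ideal `(ϖ, t - c)`. -/
theorem isAdicComplete_henselIdeal [IsNoetherianRing 𝒪] [IsAdicComplete (maximalIdeal 𝒪) 𝒪]
    [Module.Finite 𝒪 A] (ϖ : 𝒪) (hϖ : maximalIdeal 𝒪 = Ideal.span {ϖ}) (c : 𝒪) (t : A)
    (k : ℕ) (g : A) (hnil : (t - algebraMap 𝒪 A c) ^ k = algebraMap 𝒪 A ϖ * g) :
    IsAdicComplete (henselIdeal ϖ c t) A := by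
  haveI : IsAdicComplete (maximalIdeal 𝒪) A := IsAdicComplete.of_module_finite _ A
  set I := henselIdeal ϖ c t with hI
  have hϖI : algebraMap 𝒪 A ϖ ∈ I :=
    Ideal.mem_sup_left (Ideal.mem_span_singleton_self _)
  -- `I ^ ((1 + k) n) ⊆ ϖ^n A`
  have h1 : ∀ (n : ℕ) (x : A), x ∈ I ^ ((1 + k) * n) →
      x ∈ (maximalIdeal 𝒪 ^ n • ⊤ : Submodule 𝒪 A) := by
    intro n x hx
    rw [mem_smul_top_iff ϖ hϖ]
    rw [pow_mul] at hx
    have := Ideal.pow_right_mono (henselIdeal_pow_le ϖ c t k g hnil) n hx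
    rw [Ideal.span_singleton_pow, Ideal.mem_span_singleton] at this
    obtain ⟨z, rfl⟩ := this
    exact ⟨z, rfl⟩
  -- `ϖ^n A ⊆ I^n`
  have h2 : ∀ (n : ℕ) (x : A), x ∈ (maximalIdeal 𝒪 ^ n • ⊤ : Submodule 𝒪 A) → x ∈ I ^ n := by
    intro n x hx
    obtain ⟨z, rfl⟩ := (mem_smul_top_iff ϖ hϖ n x).mp hx
    exact Ideal.mul_mem_right _ _ (Ideal.pow_mem_pow hϖI n)
  have hle : ∀ n : ℕ, n ≤ (1 + k) * n := fun n => by nlinarith
  refine { haus' := ?_, prec' := ?_ }
  · intro x hx
    apply IsHausdorff.haus (‹IsAdicComplete (maximalIdeal 𝒪) A›).toIsHausdorff x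
    intro n
    rw [SModEq.sub_mem, sub_zero]
    apply h1
    have := hx ((1 + k) * n)
    rwa [SModEq.sub_mem, sub_zero, mem_pow_smul_top_iff] at this
  · intro f hf
    obtain ⟨L, hL⟩ := IsPrecomplete.prec (‹IsAdicComplete (maximalIdeal 𝒪) A›).toIsPrecomplete
      (f := fun n => f ((1 + k) * n)) (by
        intro m n hmn
        rw [SModEq.sub_mem]
        apply h1
        have := hf (Nat.mul_le_mul_left (1 + k) hmn)
        rwa [SModEq.sub_mem, mem_pow_smul_top_iff] at this)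
    refine ⟨L, fun n => ?_⟩
    rw [SModEq.sub_mem, mem_pow_smul_top_iff]
    have e1 : f n - f ((1 + k) * n) ∈ I ^ n := by
      have := hf (hle n)
      rwa [SModEq.sub_mem, mem_pow_smul_top_iff] at this
    have e2 : f ((1 + k) * n) - L ∈ I ^ n := by
      apply h2
      have := hL n
      rwa [SModEq.sub_mem] at this
    have : f n - L = (f n - f ((1 + k) * n)) + (f ((1 + k) * n) - L) := by ring
    rw [this]
    exact Ideal.add_mem _ e1 e2

/-- **Hensel roots.** -/
theorem hensel_comm [IsNoetherianRing 𝒪] [IsAdicComplete (maximalIdeal 𝒪) 𝒪]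
    [Module.Finite 𝒪 A] (ϖ : 𝒪) (hϖ : maximalIdeal 𝒪 = Ideal.span {ϖ}) (c q α β : 𝒪) (t : A)
    (hc : α + β - c ∈ maximalIdeal 𝒪) (hq : α * β - q ∈ maximalIdeal 𝒪)
    (hαβ : IsUnit (α - β))
    (k : ℕ) (g : A) (hnil : (t - algebraMap 𝒪 A c) ^ k = algebraMap 𝒪 A ϖ * g) :
    ∃ a b : A, a + b = t ∧ a * b = algebraMap 𝒪 A q ∧
      a - algebraMap 𝒪 A α ∈ henselIdeal ϖ c t ∧ b - algebraMap 𝒪 A β ∈ henselIdeal ϖ c t ∧
      henselIdeal ϖ c t ≤ Ideal.jacobson ⊥ := by
  haveI := isAdicComplete_henselIdeal ϖ hϖ c t k g hnil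
  set I := henselIdeal ϖ c t with hI
  have hmI : ∀ x ∈ maximalIdeal 𝒪, algebraMap 𝒪 A x ∈ I := by
    intro x hx
    rw [hϖ, Ideal.mem_span_singleton] at hx
    obtain ⟨y, rfl⟩ := hx
    rw [map_mul]
    exact Ideal.mul_mem_right _ _ (Ideal.mem_sup_left (Ideal.mem_span_singleton_self _))
  have htI : t - algebraMap 𝒪 A c ∈ I := Ideal.mem_sup_right (Ideal.mem_span_singleton_self _)
  set f : A[X] := X ^ 2 - C t * X + C (algebraMap 𝒪 A q) with hf
  have hmonic : f.Monic := by
    rcases subsingleton_or_nontrivial A with hA | hA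
    · exact Subsingleton.elim _ _
    rw [hf, sub_add]
    apply Polynomial.Monic.sub_of_left (monic_X_pow 2)
    rw [degree_X_pow]
    refine lt_of_le_of_lt (degree_sub_le _ _) ?_
    refine max_lt ?_ ?_
    · refine lt_of_le_of_lt (degree_C_mul_X_le t) ?_
      norm_num
    · refine lt_of_le_of_lt degree_C_le ?_
      norm_num
  have hev : ∀ x : A, f.eval x = x ^ 2 - t * x + algebraMap 𝒪 A q := by
    intro x
    simp [hf]
  have hder : ∀ x : A, f.derivative.eval x = 2 * x - t := by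
    intro x
    simp [hf]
    ring
  have h₁ : f.eval (algebraMap 𝒪 A α) ∈ I := by
    have : f.eval (algebraMap 𝒪 A α) =
        algebraMap 𝒪 A ((α + β - c) * α) - algebraMap 𝒪 A (α * β - q)
          - (t - algebraMap 𝒪 A c) * algebraMap 𝒪 A α := by
      rw [hev]
      simp only [map_mul, map_sub, map_add]
      ring
    rw [this]
    exact Ideal.sub_mem _ (Ideal.sub_mem _ (hmI _ (Ideal.mul_mem_right _ _ hc)) (hmI _ hq))
      (Ideal.mul_mem_right _ _ htI)
  have h₂ : IsUnit (Ideal.Quotient.mk I (f.derivative.eval (algebraMap 𝒪 A α))) := by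
    have : Ideal.Quotient.mk I (f.derivative.eval (algebraMap 𝒪 A α)) =
        Ideal.Quotient.mk I (algebraMap 𝒪 A (α - β)) := by
      rw [Ideal.Quotient.eq, hder]
      have : 2 * algebraMap 𝒪 A α - t - algebraMap 𝒪 A (α - β) =
          algebraMap 𝒪 A (α + β - c) - (t - algebraMap 𝒪 A c) := by
        simp only [map_sub, map_add]
        ring
      rw [this]
      exact Ideal.sub_mem _ (hmI _ hc) htI
    rw [this]
    exact (hαβ.map (algebraMap 𝒪 A)).map (Ideal.Quotient.mk I)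
  obtain ⟨a, ha, haI⟩ := HenselianRing.is_henselian (I := I) f hmonic (algebraMap 𝒪 A α) h₁ h₂
  have hroot : a ^ 2 - t * a + algebraMap 𝒪 A q = 0 := by
    rw [← hev]
    exact ha
  refine ⟨a, t - a, by ring, ?_, haI, ?_, IsAdicComplete.le_jacobson_bot I⟩
  · have : a * (t - a) = algebraMap 𝒪 A q - (a ^ 2 - t * a + algebraMap 𝒪 A q) := by ring
    rw [this, hroot, sub_zero]
  · have : t - a - algebraMap 𝒪 A β =
        (t - algebraMap 𝒪 A c) - (a - algebraMap 𝒪 A α) - algebraMap 𝒪 A (α + β - c) := by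
      simp only [map_sub, map_add]
      ring
    rw [this]
    exact Ideal.sub_mem _ (Ideal.sub_mem _ htI haI) (hmI _ hc)

end

end Fermat.Agent.S59.H105

end
-- ===== PACK-END S59/H105/HenselComm.lean

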