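import Mathlib
import Mathlib.RingTheory.Valuation.ValuationSubring
import Fermat.Agent.Pack.S43MC.G0E3L1

-- ===== PACK-BEGIN S48/H308/AutExtend.lean
section


/-!
# Extending embeddings of number fields to automorphisms of `ℂ`

* `exists_ringEquiv_extending_algEquiv` : every automorphism of `ℚ̄ = algebraicClosure ℚ ℂ` extends
  to a ring automorphism of `ℂ`;
* `exists_ringEquiv_extending` : every `ℚ`-embedding `τ : K → ℂ` of a subfield `K ⊆ ℂ` algebraic over
  `ℚ` extends to a ring automorphism of `ℂ`.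
-/

set_option autoImplicit false
set_option linter.style.haveILetI false

namespace Fermat.Agent.S48.H308

open MvPolynomial

/-- Every automorphism of `ℚ̄ ⊆ ℂ` extends to a ring automorphism of `ℂ`. -/
theorem exists_ringEquiv_extending_algEquiv
    (τ : algebraicClosure ℚ ℂ ≃ₐ[ℚ] algebraicClosure ℚ ℂ) :
    ∃ σ : ℂ ≃+* ℂ, ∀ y : algebraicClosure ℚ ℂ, σ (y : ℂ) = ((τ y : algebraicClosure ℚ ℂ) : ℂ) := by
  obtain ⟨ι, v, hv⟩ := exists_isTranscendenceBasis' (algebraicClosure ℚ ℂ) ℂ
  let _ := IsAlgClosed.isAlgClosure_of_transcendence_basis v hv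
  let e : Algebra.adjoin (algebraicClosure ℚ ℂ) (Set.range v) ≃+*
      Algebra.adjoin (algebraicClosure ℚ ℂ) (Set.range v) :=
    hv.1.aevalEquiv.symm.toRingEquiv.trans
      ((MvPolynomial.mapEquiv ι τ.toRingEquiv).trans hv.1.aevalEquiv.toRingEquiv)
  refine ⟨IsAlgClosure.equivOfEquiv ℂ ℂ e, fun y => ?_⟩
  have hymem : (y : ℂ) ∈ Algebra.adjoin (algebraicClosure ℚ ℂ) (Set.range v) :=
    Subalgebra.algebraMap_mem _ y
  have hτmem : ((τ y : algebraicClosure ℚ ℂ) : ℂ) ∈
      Algebra.adjoin (algebraicClosure ℚ ℂ) (Set.range v) :=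
    Subalgebra.algebraMap_mem _ (τ y)
  have h3 : hv.1.aevalEquiv.symm ⟨(y : ℂ), hymem⟩ = C y := by
    apply hv.1.aevalEquiv.injective
    rw [AlgEquiv.apply_symm_apply]
    ext
    simp
  have h2 : e ⟨(y : ℂ), hymem⟩ = ⟨((τ y : algebraicClosure ℚ ℂ) : ℂ), hτmem⟩ := by
    have : e ⟨(y : ℂ), hymem⟩ = hv.1.aevalEquiv
        ((MvPolynomial.mapEquiv ι τ.toRingEquiv) (hv.1.aevalEquiv.symm ⟨(y : ℂ), hymem⟩)) := rfl
    rw [this, h3]
    ext
    simp
  have h1 := IsAlgClosure.equivOfEquiv_algebraMap ℂ ℂ e ⟨(y : ℂ), hymem⟩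
  rw [h2] at h1
  simpa using h1

/-- Every `ℚ`-embedding into `ℂ` of a subfield of `ℂ` which is algebraic over `ℚ` extends to a ring
automorphism of `ℂ`. -/
theorem exists_ringEquiv_extending (K : IntermediateField ℚ ℂ) [Algebra.IsAlgebraic ℚ K]
    (τ : K →ₐ[ℚ] ℂ) : ∃ σ : ℂ ≃+* ℂ, ∀ x : K, σ (x : ℂ) = τ x := by
  have hK : ∀ x : K, (x : ℂ) ∈ algebraicClosure ℚ ℂ := fun x =>
    mem_algebraicClosure_iff.mpr
      (IsAlgebraic.algHom K.val (Algebra.IsAlgebraic.isAlgebraic (R := ℚ) x))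
  have hτK : ∀ x : K, τ x ∈ algebraicClosure ℚ ℂ := fun x =>
    mem_algebraicClosure_iff.mpr
      (IsAlgebraic.algHom τ (Algebra.IsAlgebraic.isAlgebraic (R := ℚ) x))
  haveI hcl : IsAlgClosure ℚ (algebraicClosure ℚ ℂ) := algebraicClosure.isAlgClosure ℚ ℂ
  haveI : IsAlgClosed (algebraicClosure ℚ ℂ) := hcl.isAlgClosed
  haveI : Normal ℚ (algebraicClosure ℚ ℂ) := IsAlgClosure.normal ℚ _
  -- the two embeddings of `K` into `ℚ̄`
  let incl : K →ₐ[ℚ] algebraicClosure ℚ ℂ :=
    { toFun := fun x => ⟨(x : ℂ), hK x⟩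
      map_one' := rfl
      map_mul' := fun _ _ => rfl
      map_zero' := rfl
      map_add' := fun _ _ => rfl
      commutes' := fun _ => rfl }
  let ϕ : K →ₐ[ℚ] algebraicClosure ℚ ℂ :=
    { toFun := fun x => ⟨τ x, hτK x⟩
      map_one' := Subtype.ext (map_one τ)
      map_mul' := fun x y => Subtype.ext (map_mul τ x y)
      map_zero' := Subtype.ext (map_zero τ)
      map_add' := fun x y => Subtype.ext (map_add τ x y)
      commutes' := fun r => Subtype.ext (τ.commutes r) }
  letI : Algebra K (algebraicClosure ℚ ℂ) := incl.toRingHom.toAlgebra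
  haveI : IsScalarTower ℚ K (algebraicClosure ℚ ℂ) :=
    IsScalarTower.of_algebraMap_eq fun r => (incl.commutes r).symm
  let τ₁ : algebraicClosure ℚ ℂ →ₐ[ℚ] algebraicClosure ℚ ℂ := ϕ.liftNormal (algebraicClosure ℚ ℂ)
  have hτ₁ : ∀ x : K, τ₁ (incl x) = ϕ x := fun x => ϕ.liftNormal_commutes (algebraicClosure ℚ ℂ) x
  let τ₂ : algebraicClosure ℚ ℂ ≃ₐ[ℚ] algebraicClosure ℚ ℂ :=
    AlgEquiv.ofBijective τ₁ (Algebra.IsAlgebraic.algHom_bijective τ₁)
  obtain ⟨σ, hσ⟩ := exists_ringEquiv_extending_algEquiv τ₂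
  refine ⟨σ, fun x => ?_⟩
  have h1 := hσ (incl x)
  have h2 : τ₂ (incl x) = ϕ x := hτ₁ x
  rw [h2] at h1
  exact h1

end Fermat.Agent.S48.H308

end
-- ===== PACK-END S48/H308/AutExtend.lean

-- ===== PACK-BEGIN S30/H829/EigenFunctional.lean
section
/-
S30 / p-adic layer (helper829) — abstract "eigensystem occurs" lemma, Mathlib-only.

* `exists_semilinear_functional`: a finitely generated faithful module `N` over a commutative ring
  `𝕋` admits, for every ring hom `χ : 𝕋 → F` into a field, a nonzero additive `θ : N → F` with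
  `θ (t • y) = χ t * θ y`  (support = zero locus of the annihilator + Nakayama).
* `exists_eigen_hom`: `𝕋` acts faithfully on `S`, `π : S →+ (Γ →+ K)` is injective ("period map"),
  `Γ` finitely generated.  Then for every ring hom `χ : 𝕋 → O` into a domain there is a nonzero
  `φ : Γ →+ O` which is a `χ`-eigenvector in the following sense: whenever
  `π s b' = π (t • s) b` for all `s`, then `φ b' = χ t * φ b`; and `φ b = 0` whenever all periods
  `π s b` vanish.  No characteristic assumption, no commutativity on the lattice side.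
-/


set_option autoImplicit false

namespace Fermat.Agent.S30.H829

open TensorProduct

/-- A finitely generated faithful module over a commutative ring has, for every ring hom `χ` into
a field, a nonzero `χ`-semilinear functional. -/
theorem exists_semilinear_functional {𝕋 : Type*} [CommRing 𝕋] {N : Type*} [AddCommGroup N]
    [Module 𝕋 N] [Module.Finite 𝕋 N] (hfaith : ∀ t : 𝕋, (∀ y : N, t • y = 0) → t = 0)
    {F : Type*} [Field F] (χ : 𝕋 →+* F) :
    ∃ θ : N →+ F, θ ≠ 0 ∧ ∀ (t : 𝕋) (y : N), θ (t • y) = χ t * θ y := by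
  classical
  -- the prime ideal `𝔭 = ker χ`
  have h𝔭 : (RingHom.ker χ).IsPrime := RingHom.ker_isPrime χ
  let p : PrimeSpectrum 𝕋 := ⟨RingHom.ker χ, h𝔭⟩
  have hann : Module.annihilator 𝕋 N = ⊥ := by
    rw [eq_bot_iff]
    intro t ht
    rw [Module.mem_annihilator] at ht
    exact (Submodule.mem_bot 𝕋).mpr (hfaith t ht)
  have hsupp : p ∈ Module.support 𝕋 N := by
    rw [Module.mem_support_iff_of_finite, hann]
    exact bot_le
  have hnt : Nontrivial ((RingHom.ker χ).ResidueField ⊗[𝕋] N) :=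
    (Module.mem_support_iff_nontrivial_residueField_tensorProduct p).mp hsupp
  -- the embedding of the residue field into `F`
  let ι : (RingHom.ker χ).ResidueField →+* F :=
    Ideal.ResidueField.lift (RingHom.ker χ) χ le_rfl (by
      intro x hx
      have : χ x ≠ 0 := fun h => hx (RingHom.mem_ker.mpr h)
      exact this.isUnit)
  have hι : ∀ t : 𝕋, ι (algebraMap 𝕋 (RingHom.ker χ).ResidueField t) = χ t :=
    fun t => Ideal.ResidueField.lift_algebraMap _ _ _ _ t
  -- a nonzero functional on the fibre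
  obtain ⟨v₀, hv₀⟩ := exists_ne (0 : (RingHom.ker χ).ResidueField ⊗[𝕋] N)
  obtain ⟨lam, hlam⟩ : ∃ lam : Module.Dual (RingHom.ker χ).ResidueField
      ((RingHom.ker χ).ResidueField ⊗[𝕋] N), lam v₀ ≠ 0 := by
    by_contra hcon
    have hcon' : ∀ lam : Module.Dual (RingHom.ker χ).ResidueField
        ((RingHom.ker χ).ResidueField ⊗[𝕋] N), lam v₀ = 0 := by
      intro lam
      by_contra h
      exact hcon ⟨lam, h⟩
    exact hv₀ ((Module.forall_dual_apply_eq_zero_iff (RingHom.ker χ).ResidueField v₀).mp hcon')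
  -- the functional
  let θ : N →+ F :=
    { toFun := fun y => ι (lam ((1 : (RingHom.ker χ).ResidueField) ⊗ₜ[𝕋] y))
      map_zero' := by simp
      map_add' := fun y z => by simp [TensorProduct.tmul_add] }
  have hθ : ∀ y, θ y = ι (lam ((1 : (RingHom.ker χ).ResidueField) ⊗ₜ[𝕋] y)) := fun _ => rfl
  refine ⟨θ, ?_, ?_⟩
  · intro hzero
    apply hlam
    have hpure : ∀ (c : (RingHom.ker χ).ResidueField) (y : N), lam (c ⊗ₜ[𝕋] y) = 0 := by
      intro c y
      have h1 : ι (lam ((1 : (RingHom.ker χ).ResidueField) ⊗ₜ[𝕋] y)) = 0 := by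
        rw [← hθ, hzero]; rfl
      have h2 : lam ((1 : (RingHom.ker χ).ResidueField) ⊗ₜ[𝕋] y) = 0 :=
        (map_eq_zero ι).mp h1
      have h3 : c ⊗ₜ[𝕋] y = c • ((1 : (RingHom.ker χ).ResidueField) ⊗ₜ[𝕋] y) := by
        rw [TensorProduct.smul_tmul', smul_eq_mul, mul_one]
      rw [h3, map_smul, h2, smul_zero]
    have hall : ∀ v : (RingHom.ker χ).ResidueField ⊗[𝕋] N, lam v = 0 := by
      intro v
      induction v using TensorProduct.induction_on with
      | zero => simp
      | tmul c y => exact hpure c y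
      | add x y hx hy => rw [map_add, hx, hy, add_zero]
    exact hall v₀
  · intro t y
    rw [hθ, hθ, ← hι t, ← map_mul]
    congr 1
    have h3 : (1 : (RingHom.ker χ).ResidueField) ⊗ₜ[𝕋] (t • y)
        = (algebraMap 𝕋 (RingHom.ker χ).ResidueField t) •
          ((1 : (RingHom.ker χ).ResidueField) ⊗ₜ[𝕋] y) := by
      rw [TensorProduct.tmul_smul, TensorProduct.smul_tmul', TensorProduct.smul_tmul',
        smul_eq_mul, mul_one, Algebra.smul_def, mul_one]
    rw [h3, map_smul, smul_eq_mul]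

end Fermat.Agent.S30.H829

namespace Fermat.Agent.S30.H829

/-- The action of a commutative ring `𝕋` on `S →+ K` by precomposition with its action on `S`. -/
@[reducible] def precompModule (𝕋 S K : Type*) [CommRing 𝕋] [AddCommGroup S] [Module 𝕋 S]
    [AddCommGroup K] : Module 𝕋 (S →+ K) where
  smul t ν := ν.comp (DistribSMul.toAddMonoidHom S t)
  one_smul ν := by
    ext s
    show ν ((1 : 𝕋) • s) = ν s
    rw [one_smul]
  mul_smul t t' ν := by
    ext s
    show ν ((t * t') • s) = ν (t' • t • s)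
    rw [mul_comm, mul_smul]
  smul_zero t := by
    ext s
    rfl
  smul_add t ν ν' := by
    ext s
    rfl
  add_smul t t' ν := by
    ext s
    show ν ((t + t') • s) = ν (t • s) + ν (t' • s)
    rw [add_smul, map_add]
  zero_smul ν := by
    ext s
    show ν ((0 : 𝕋) • s) = 0
    rw [zero_smul, map_zero]

theorem precompModule_smul_apply {𝕋 S K : Type*} [CommRing 𝕋] [AddCommGroup S] [Module 𝕋 S]
    [AddCommGroup K] (t : 𝕋) (ν : S →+ K) (s : S) :
    (letI := precompModule 𝕋 S K; t • ν) s = ν (t • s) := rfl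

/-- **Abstract "eigensystem occurs" theorem.**  `𝕋` acts faithfully on `S`; `π : S →+ (Γ →+ K)` is
an injective "period map" on a finitely generated group `Γ`.  For every ring hom `χ : 𝕋 → O` into
a domain there is a nonzero `φ : Γ →+ O` with `φ b' = χ t * φ b` whenever
`π s b' = π (t • s) b` for all `s`, and `φ b = 0` whenever `π s b = 0` for all `s`. -/
theorem exists_eigen_hom
    {S : Type*} [AddCommGroup S] {K : Type*} [AddCommGroup K]
    {𝕋 : Type*} [CommRing 𝕋] [Module 𝕋 S] (hfaith : ∀ t : 𝕋, (∀ s : S, t • s = 0) → t = 0)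
    {Γ : Type*} [AddGroup Γ] [hΓ : AddGroup.FG Γ]
    (π : S →+ (Γ →+ K)) (hπ : Function.Injective π)
    {O : Type*} [CommRing O] [IsDomain O] (χ : 𝕋 →+* O) :
    ∃ φ : Γ →+ O, φ ≠ 0 ∧
      (∀ (t : 𝕋) (b b' : Γ), (∀ s, π s b' = π (t • s) b) → φ b' = χ t * φ b) ∧
      (∀ b, (∀ s, π s b = 0) → φ b = 0) := by
  classical
  letI : Module 𝕋 (S →+ K) := precompModule 𝕋 S K
  -- evaluation map
  let ev : Γ →+ (S →+ K) := π.flip
  have hev : ∀ b s, ev b s = π s b := fun _ _ => rfl
  -- finite generating set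
  obtain ⟨G₀, hG₀, hG₀fin⟩ := (AddSubgroup.fg_iff _).mp (AddGroup.fg_def.mp hΓ)
  let N : Submodule 𝕋 (S →+ K) := Submodule.span 𝕋 (ev '' G₀)
  haveI : Module.Finite 𝕋 N := Module.Finite.span_of_finite 𝕋 (hG₀fin.image ev)
  have hevN : ∀ b : Γ, ev b ∈ N := by
    intro b
    have hb : b ∈ AddSubgroup.closure G₀ := by rw [hG₀]; trivial
    induction hb using AddSubgroup.closure_induction with
    | mem x hx => exact Submodule.subset_span ⟨x, hx, rfl⟩
    | zero => rw [map_zero]; exact N.zero_mem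
    | add x y _ _ hx hy => rw [map_add]; exact N.add_mem hx hy
    | neg x _ hx => rw [map_neg]; exact N.neg_mem hx
  -- faithfulness of `N`
  have hNfaith : ∀ t : 𝕋, (∀ y : N, t • y = 0) → t = 0 := by
    intro t ht
    apply hfaith t
    intro s
    apply hπ
    rw [map_zero]
    ext b
    have h1 := ht ⟨ev b, hevN b⟩
    have h2 : t • ev b = 0 := by
      have := congrArg Subtype.val h1
      simpa using this
    have h3 := DFunLike.congr_fun h2 s
    rw [precompModule_smul_apply, hev] at h3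
    simpa using h3
  -- the semilinear functional
  let F := FractionRing O
  obtain ⟨θ, hθ0, hθ⟩ := exists_semilinear_functional (𝕋 := 𝕋) (N := N) hNfaith
    ((algebraMap O F).comp χ)
  let φ₀ : Γ →+ F :=
    { toFun := fun b => θ ⟨ev b, hevN b⟩
      map_zero' := by
        have : (⟨ev 0, hevN 0⟩ : N) = 0 := Subtype.ext (map_zero ev)
        rw [this, map_zero]
      map_add' := fun b c => by
        have : (⟨ev (b + c), hevN (b + c)⟩ : N) = ⟨ev b, hevN b⟩ + ⟨ev c, hevN c⟩ :=
          Subtype.ext (map_add ev b c)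
        rw [this, map_add] }
  have hφ₀ : ∀ b, φ₀ b = θ ⟨ev b, hevN b⟩ := fun _ => rfl
  have hφ₀ne : φ₀ ≠ 0 := by
    intro h0
    apply hθ0
    ext y
    obtain ⟨y, hy⟩ := y
    show θ ⟨y, hy⟩ = 0
    induction hy using Submodule.span_induction with
    | mem x hx =>
      obtain ⟨b, -, rfl⟩ := hx
      have := DFunLike.congr_fun h0 b
      rw [hφ₀] at this
      exact this
    | zero => exact map_zero θ
    | add x y hx hy ihx ihy =>
      have : (⟨x + y, N.add_mem hx hy⟩ : N) = ⟨x, hx⟩ + ⟨y, hy⟩ := rfl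
      rw [this, map_add, ihx, ihy, add_zero]
    | smul t x hx ihx =>
      have : (⟨t • x, N.smul_mem t hx⟩ : N) = t • ⟨x, hx⟩ := rfl
      rw [this, hθ, ihx, mul_zero]
  -- common denominator on the generators
  have hden : ∀ b : Γ, ∃ d : O, d ≠ 0 ∧ ∃ a : O, algebraMap O F d * φ₀ b = algebraMap O F a := by
    intro b
    obtain ⟨a, d, hd, h⟩ := IsFractionRing.div_surjective (A := O) (φ₀ b)
    refine ⟨d, nonZeroDivisors.ne_zero hd, a, ?_⟩
    rw [← h]
    have : algebraMap O F d ≠ 0 := by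
      intro h0
      exact nonZeroDivisors.ne_zero hd ((IsFractionRing.injective O F) (by rw [h0, map_zero]))
    rw [mul_div_cancel₀ _ this]
  choose dd hdd aa haa using hden
  let D : O := ∏ g ∈ hG₀fin.toFinset, dd g
  have hD : D ≠ 0 := Finset.prod_ne_zero_iff.mpr fun g _ => hdd g
  have hDF : algebraMap O F D ≠ 0 := by
    intro h0
    exact hD ((IsFractionRing.injective O F) (by rw [h0, map_zero]))
  have hint : ∀ b : Γ, ∃ a : O, algebraMap O F D * φ₀ b = algebraMap O F a := by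
    intro b
    have hb : b ∈ AddSubgroup.closure G₀ := by rw [hG₀]; trivial
    induction hb using AddSubgroup.closure_induction with
    | mem x hx =>
      have hx' : x ∈ hG₀fin.toFinset := hG₀fin.mem_toFinset.mpr hx
      obtain ⟨c, hc⟩ := Finset.dvd_prod_of_mem dd hx'
      refine ⟨c * aa x, ?_⟩
      have : D = dd x * c := hc
      rw [this, map_mul, map_mul, ← haa x]
      ring
    | zero => exact ⟨0, by rw [map_zero, mul_zero, map_zero]⟩
    | add x y _ _ hx hy =>
      obtain ⟨a, ha⟩ := hx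
      obtain ⟨a', ha'⟩ := hy
      exact ⟨a + a', by rw [map_add, mul_add, ha, ha', map_add]⟩
    | neg x _ hx =>
      obtain ⟨a, ha⟩ := hx
      exact ⟨-a, by rw [map_neg, mul_neg, ha, map_neg]⟩
  choose f hf using hint
  have hinj : Function.Injective (algebraMap O F) := IsFractionRing.injective O F
  let φ : Γ →+ O :=
    { toFun := f
      map_zero' := hinj (by rw [← hf, map_zero, mul_zero, map_zero])
      map_add' := fun b c => hinj (by rw [← hf, map_add, mul_add, hf, hf, map_add]) }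
  have hφ : ∀ b, algebraMap O F (φ b) = algebraMap O F D * φ₀ b := fun b => (hf b).symm
  refine ⟨φ, ?_, ?_, ?_⟩
  · intro h0
    apply hφ₀ne
    ext b
    have h1 := hφ b
    rw [h0] at h1
    have h2 : algebraMap O F D * φ₀ b = 0 := by
      rw [← h1]; simp
    rcases mul_eq_zero.mp h2 with h | h
    · exact absurd h hDF
    · exact h
  · intro t b b' hbb'
    apply hinj
    rw [map_mul, hφ, hφ]
    have hev' : (⟨ev b', hevN b'⟩ : N) = t • ⟨ev b, hevN b⟩ := by
      apply Subtype.ext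
      show ev b' = t • ev b
      ext s
      rw [precompModule_smul_apply, hev, hev]
      exact hbb' s
    rw [hφ₀, hφ₀, hev', hθ]
    simp only [RingHom.comp_apply]
    ring
  · intro b hb
    apply hinj
    rw [hφ, map_zero]
    have : (⟨ev b, hevN b⟩ : N) = 0 := by
      apply Subtype.ext
      show ev b = 0
      ext s
      rw [hev]
      exact hb s
    rw [hφ₀, this, map_zero, mul_zero]

end Fermat.Agent.S30.H829

end
-- ===== PACK-END S30/H829/EigenFunctional.lean

-- ===== PACK-BEGIN S36/Mod3/H756/CongAbs.lean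
section


/-!
# S36 / MOD3 — congruences modulo the maximal ideal of a valuation subring (helper756)

Mathlib-only.  `Cong V a b` : `a, b ∈ V` and `a - b ∈ 𝔪_V`.  Closed under `+`, `*`, `^`, inverses of
units; transport along `comap`.
-/

set_option autoImplicit false

namespace Fermat.Agent.S36.Mod3.H756

variable {F : Type*} [Field F]

/-- `a ≡ b` modulo the maximal ideal of `V` (both in `V`). -/
def Cong (V : ValuationSubring F) (a b : F) : Prop :=
  a ∈ V ∧ b ∈ V ∧ a - b ∈ V.nonunits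

namespace Cong

variable {V : ValuationSubring F} {a b c a' b' : F}

theorem refl (ha : a ∈ V) : Cong V a a :=
  ⟨ha, ha, by
    rw [sub_self, ValuationSubring.mem_nonunits_iff, map_zero]
    exact zero_lt_one⟩

theorem val_lt (h : Cong V a b) : V.valuation (a - b) < 1 :=
  (ValuationSubring.mem_nonunits_iff V).1 h.2.2

theorem of_val_lt (ha : a ∈ V) (hb : b ∈ V) (h : V.valuation (a - b) < 1) : Cong V a b :=
  ⟨ha, hb, (ValuationSubring.mem_nonunits_iff V).2 h⟩

theorem symm (h : Cong V a b) : Cong V b a := by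
  refine of_val_lt h.2.1 h.1 ?_
  rw [← neg_sub, Valuation.map_neg]
  exact h.val_lt

theorem trans (h₁ : Cong V a b) (h₂ : Cong V b c) : Cong V a c := by
  refine of_val_lt h₁.1 h₂.2.1 ?_
  have : a - c = (a - b) + (b - c) := by ring
  rw [this]
  exact lt_of_le_of_lt (Valuation.map_add _ _ _) (max_lt h₁.val_lt h₂.val_lt)

theorem val_mul_lt {x y : F} (hx : V.valuation x < 1) (hy : y ∈ V) :
    V.valuation (x * y) < 1 := by
  rw [map_mul]
  calc V.valuation x * V.valuation y ≤ V.valuation x * 1 := by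
        gcongr
        exact (V.valuation_le_one_iff _).2 hy
    _ = V.valuation x := mul_one _
    _ < 1 := hx

theorem mul (h₁ : Cong V a a') (h₂ : Cong V b b') : Cong V (a * b) (a' * b') := by
  refine of_val_lt (V.mul_mem _ _ h₁.1 h₂.1) (V.mul_mem _ _ h₁.2.1 h₂.2.1) ?_
  have : a * b - a' * b' = (a - a') * b + (b - b') * a' := by ring
  rw [this]
  exact lt_of_le_of_lt (Valuation.map_add _ _ _)
    (max_lt (val_mul_lt h₁.val_lt h₂.1) (val_mul_lt h₂.val_lt h₁.2.1))

theorem pow (h : Cong V a a') (n : ℕ) : Cong V (a ^ n) (a' ^ n) := by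
  induction n with
  | zero =>
    rw [pow_zero, pow_zero]
    exact refl V.one_mem
  | succ n ih =>
    rw [pow_succ, pow_succ]
    exact ih.mul h

/-- Inverses of congruent units are congruent. -/
theorem inv (h : Cong V a b) (ha : a⁻¹ ∈ V) (hb : b⁻¹ ∈ V) : Cong V a⁻¹ b⁻¹ := by
  refine of_val_lt ha hb ?_
  rcases eq_or_ne a 0 with rfl | ha0
  · -- then `b ∈ 𝔪_V` and `b⁻¹ ∈ V`: `b = 0`
    have hbv : V.valuation b < 1 := by
      have := h.val_lt
      rwa [zero_sub, Valuation.map_neg] at this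
    rcases eq_or_ne b 0 with rfl | hb0
    · simp
    · exfalso
      have h1 : V.valuation b⁻¹ ≤ 1 := (V.valuation_le_one_iff _).2 hb
      have h2 : V.valuation (b * b⁻¹) < 1 := val_mul_lt hbv hb
      rw [mul_inv_cancel₀ hb0, map_one] at h2
      exact lt_irrefl _ h2
  · rcases eq_or_ne b 0 with rfl | hb0
    · exfalso
      have hav : V.valuation a < 1 := by
        have := h.val_lt
        rwa [sub_zero] at this
      have h2 : V.valuation (a * a⁻¹) < 1 := val_mul_lt hav ha
      rw [mul_inv_cancel₀ ha0, map_one] at h2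
      exact lt_irrefl _ h2
    · have : a⁻¹ - b⁻¹ = (b - a) * (a⁻¹ * b⁻¹) := by
        field_simp
      rw [this]
      exact val_mul_lt h.symm.val_lt (V.mul_mem _ _ ha hb)

end Cong

section Comap

/-- Membership in the maximal ideal of a valuation subring, for a nonzero element. -/
theorem mem_nonunits_iff_of_ne_zero {K : Type*} [Field K] (A : ValuationSubring K) (x : K)
    (hx0 : x ≠ 0) : x ∈ A.nonunits ↔ x ∈ A ∧ x⁻¹ ∉ A := by
  rw [ValuationSubring.mem_nonunits_iff]
  constructor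
  · intro h
    refine ⟨(A.valuation_le_one_iff _).1 h.le, fun hinv => ?_⟩
    have h1 : A.valuation x⁻¹ ≤ 1 := (A.valuation_le_one_iff _).2 hinv
    have h2 : A.valuation (x * x⁻¹) < 1 := by
      rw [map_mul]
      calc A.valuation x * A.valuation x⁻¹ ≤ A.valuation x * 1 := by gcongr
        _ = A.valuation x := mul_one _
        _ < 1 := h
    rw [mul_inv_cancel₀ hx0, map_one] at h2
    exact lt_irrefl _ h2
  · rintro ⟨hx, hinv⟩
    by_contra hcon
    rw [not_lt] at hcon
    have hone : A.valuation x = 1 := le_antisymm ((A.valuation_le_one_iff _).2 hx) hcon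
    apply hinv
    rw [← A.valuation_le_one_iff, map_inv₀, hone, inv_one]

variable {F' : Type*} [Field F'] (γ : F' →+* F) (V : ValuationSubring F)

/-- The maximal ideal of `V.comap γ` is the preimage of the maximal ideal of `V`. -/
theorem mem_nonunits_comap_iff (g : F') :
    g ∈ (V.comap γ).nonunits ↔ γ g ∈ V.nonunits := by
  rcases eq_or_ne g 0 with rfl | hg0
  · rw [map_zero]
    constructor <;> intro _ <;>
      · rw [ValuationSubring.mem_nonunits_iff, map_zero]
        exact zero_lt_one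
  have hγ0 : γ g ≠ 0 := (map_ne_zero γ).2 hg0
  rw [mem_nonunits_iff_of_ne_zero (V.comap γ) g hg0, mem_nonunits_iff_of_ne_zero V (γ g) hγ0,
    ValuationSubring.mem_comap, ValuationSubring.mem_comap, map_inv₀]

theorem Cong.map {V' : ValuationSubring F'} (hV' : V.comap γ = V') {a b : F'}
    (h : Cong V' a b) : Cong V (γ a) (γ b) := by
  subst hV'
  refine ⟨ValuationSubring.mem_comap.1 h.1, ValuationSubring.mem_comap.1 h.2.1, ?_⟩
  rw [← map_sub]
  exact (mem_nonunits_comap_iff γ V _).1 h.2.2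

end Comap

end Fermat.Agent.S36.Mod3.H756

namespace Fermat.Agent.S36.Mod3.H756

section Compose

variable {F₀ F₁ F₂ : Type*} [Field F₀] [Field F₁] [Field F₂]

/-- Composition of two residue-degree-one steps. -/
theorem res_comp (γ₁ : F₀ →+* F₁) (γ₂ : F₁ →+* F₂) (V₀ : ValuationSubring F₀)
    (V₁ : ValuationSubring F₁) (V₂ : ValuationSubring F₂) (h₂ : V₂.comap γ₂ = V₁)
    (hres₁ : ∀ g' ∈ V₁, ∃ g ∈ V₀, g' - γ₁ g ∈ V₁.nonunits)
    (hres₂ : ∀ f ∈ V₂, ∃ g' ∈ V₁, f - γ₂ g' ∈ V₂.nonunits) :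
    ∀ f ∈ V₂, ∃ g ∈ V₀, V₂.valuation (f - γ₂ (γ₁ g)) < 1 := by
  intro f hf
  obtain ⟨g', hg', h1⟩ := hres₂ f hf
  obtain ⟨g, hg, h2⟩ := hres₁ g' hg'
  refine ⟨g, hg, ?_⟩
  have h3 : γ₂ (g' - γ₁ g) ∈ V₂.nonunits := by
    rw [← mem_nonunits_comap_iff, h₂]
    exact h2
  have h4 : f - γ₂ (γ₁ g) = (f - γ₂ g') + γ₂ (g' - γ₁ g) := by
    rw [map_sub]
    ring
  rw [h4]
  exact lt_of_le_of_lt (Valuation.map_add _ _ _)
    (max_lt ((ValuationSubring.mem_nonunits_iff V₂).1 h1)
      ((ValuationSubring.mem_nonunits_iff V₂).1 h3))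

/-- Composition of two inclusions of valuation rings. -/
theorem map_mem_comp (γ₁ : F₀ →+* F₁) (γ₂ : F₁ →+* F₂) (V₀ : ValuationSubring F₀)
    (V₁ : ValuationSubring F₁) (V₂ : ValuationSubring F₂) (h₂ : V₂.comap γ₂ = V₁)
    (h₁ : ∀ g ∈ V₀, γ₁ g ∈ V₁) : ∀ g ∈ V₀, γ₂ (γ₁ g) ∈ V₂ := by
  intro g hg
  have := h₁ g hg
  rw [← h₂] at this
  exact ValuationSubring.mem_comap.1 this

end Compose

end Fermat.Agent.S36.Mod3.H756

end
-- ===== PACK-END S36/Mod3/H756/CongAbs.lean

-- ===== PACK-BEGIN S36/H153/Incidence.lean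
section


/-!
# S36 engine, cell INCIDENCE (helper153) — abstract, Mathlib only

Setting (board `coord/S36.md` §7, norm route of helper336):

* `A` = chart of the level-`qM'` model (normal domain), `B` = chart of the level-`q²M'` model
  (a domain), `a b : A →+* B` the two degeneracy inclusions `α`, `β` (injective, integral);
* `P1 P2` the two vertical primes of `A` (components `C₁'`, `C₂'`),
  `pFF pmid pVV` the three vertical primes of `B`;
* comap pattern (MOD3):  via `a`: `pFF, pmid ↦ P1`, `pVV ↦ P2`;  via `b`: `pFF ↦ P1`,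
  `pmid, pVV ↦ P2`;  `pVV` is the ONLY prime over `P2` via `a`, `pFF` the ONLY prime over `P1`
  via `b`;
* `B / pVV` is radicial over `A` via `a` and `B / pFF` is radicial over `A` via `b`
  (`Radicial`: every element has a power congruent to an element of the image; e.g. residue
  degree `q` purely inseparable and `A / P` normal, or residue degree one).

Results (all for arbitrary PRIME ideals `n` of `B`, in particular closed points):

* `triple_of_two`     : a prime lying on two of the three components lies on all three;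
* `triple_of_node_a/b`: a prime whose `a`-image (`b`-image) lies on both components of level `q`
                        is a triple point;
* `unique_over_a/b`   : a prime over a node of level `q` (via `a`, resp. via `b`) is the unique
                        prime of `B` over that node;
* `node_of_triple`    : the images of a triple point are nodes (trivial direction);
* `single_iff`        : a prime containing one component is a triple point or lies on exactly one
                        component;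
* adapters `Radicial.of_surj`, `Radicial.of_pow`, `uniqueOver_of_cover`.

Proofs: going-up for integral extensions and Mathlib's going-down for integral extensions of
integrally closed domains.
-/

set_option autoImplicit false
set_option linter.style.haveILetI false
set_option linter.unusedSectionVars false

namespace Fermat.Agent.S36.H153

open Ideal

section Basic

variable {A B : Type*} [CommRing A] [CommRing B]

/-- `B / p` is *radicial* over `A` via `a`: every element of `B` has a positive power which is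
congruent modulo `p` to an element of the image of `a`. -/
def Radicial (a : A →+* B) (p : Ideal B) : Prop :=
  ∀ x : B, ∃ k : ℕ, 0 < k ∧ ∃ y : A, x ^ k - a y ∈ p

/-- Residue degree one: `A → B / p` surjective. -/
theorem Radicial.of_surj {a : A →+* B} {p : Ideal B}
    (h : ∀ x : B, ∃ y : A, x - a y ∈ p) : Radicial a p := fun x => by
  obtain ⟨y, hy⟩ := h x
  exact ⟨1, Nat.one_pos, y, by simpa using hy⟩

/-- Purely inseparable residue extension of exponent `q`. -/
theorem Radicial.of_pow {a : A →+* B} {p : Ideal B} (q : ℕ) (hq : 0 < q)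
    (h : ∀ x : B, ∃ y : A, x ^ q - a y ∈ p) : Radicial a p := fun x => by
  obtain ⟨y, hy⟩ := h x
  exact ⟨q, hq, y, hy⟩

/-- On a radicial component, a prime is determined by its contraction (order form). -/
theorem Radicial.le_of_comap_le {a : A →+* B} {p : Ideal B} (hr : Radicial a p)
    {n n' : Ideal B} [n'.IsPrime] (hn : p ≤ n) (hn' : p ≤ n')
    (h : n.comap a ≤ n'.comap a) : n ≤ n' := by
  intro x hx
  obtain ⟨k, _, y, hy⟩ := hr x
  have h1 : a y ∈ n := by
    have h2 : x ^ k - (x ^ k - a y) ∈ n := n.sub_mem (n.pow_mem_of_mem hx k ‹0 < k›) (hn hy)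
    simpa using h2
  have h3 : a y ∈ n' := h (Ideal.mem_comap.mpr h1)
  have h4 : x ^ k ∈ n' := by
    have h5 : (x ^ k - a y) + a y ∈ n' := n'.add_mem (hn' hy) h3
    simpa using h5
  exact Ideal.IsPrime.mem_of_pow_mem ‹n'.IsPrime› k h4

/-- On a radicial component, a prime is determined by its contraction. -/
theorem Radicial.eq_of_comap_eq {a : A →+* B} {p : Ideal B} (hr : Radicial a p)
    {n n' : Ideal B} [n.IsPrime] [n'.IsPrime] (hn : p ≤ n) (hn' : p ≤ n')
    (h : n.comap a = n'.comap a) : n = n' :=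
  le_antisymm (hr.le_of_comap_le hn hn' h.le) (hr.le_of_comap_le hn' hn h.ge)

end Basic

section GoingDown

variable {A B : Type*} [CommRing A] [CommRing B] [IsDomain A] [IsDomain B]
  [IsIntegrallyClosed A]

/-- Going-down for an injective integral ring homomorphism out of a normal domain. -/
theorem exists_prime_le_comap_eq (a : A →+* B) (ha_inj : Function.Injective a)
    (ha_int : a.IsIntegral) (P : Ideal A) [P.IsPrime] (n : Ideal B) [n.IsPrime]
    (h : P ≤ n.comap a) : ∃ p : Ideal B, p.IsPrime ∧ p ≤ n ∧ p.comap a = P := by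
  letI : Algebra A B := a.toAlgebra
  haveI : Algebra.IsIntegral A B := ⟨ha_int⟩
  haveI : FaithfulSMul A B := (faithfulSMul_iff_algebraMap_injective A B).mpr ha_inj
  haveI : n.LiesOver (n.comap a) := ⟨rfl⟩
  haveI : (n.comap a).IsPrime := Ideal.comap_isPrime a n
  obtain ⟨p, hpn, hp, hpP⟩ := Ideal.exists_ideal_le_liesOver_of_le (p := P) (q := n.comap a) n h
  exact ⟨p, hp, hpn, (hpP.over).symm⟩

/-- Going-up (lying over) for an integral ring homomorphism. -/
theorem exists_prime_ge_comap_eq (a : A →+* B) (ha_int : a.IsIntegral)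
    (p : Ideal B) (N : Ideal A) [N.IsPrime] (h : p.comap a ≤ N) :
    ∃ n : Ideal B, n.IsPrime ∧ p ≤ n ∧ n.comap a = N := by
  letI : Algebra A B := a.toAlgebra
  haveI : Algebra.IsIntegral A B := ⟨ha_int⟩
  obtain ⟨Q, hQ, hQp, hQc⟩ := Ideal.exists_ideal_over_prime_of_isIntegral N p h
  exact ⟨Q, hQp, hQ, hQc⟩

end GoingDown

/-- The MOD3 incidence datum: comap pattern of the three vertical primes of level `q²` over the
two vertical primes of level `q`, via the two degeneracy maps. -/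
structure IncData {A B : Type*} [CommRing A] [CommRing B] (a b : A →+* B)
    (P1 P2 : Ideal A) (pFF pmid pVV : Ideal B) : Prop where
  a_inj : Function.Injective a
  b_inj : Function.Injective b
  a_int : a.IsIntegral
  b_int : b.IsIntegral
  primeP1 : P1.IsPrime
  primeP2 : P2.IsPrime
  primeFF : pFF.IsPrime
  primeMid : pmid.IsPrime
  primeVV : pVV.IsPrime
  /-- via `α`: `FF`, `mid` lie over `C₁'`, `VV` lies over `C₂'` -/
  a_FF : pFF.comap a = P1
  a_mid : pmid.comap a = P1
  a_VV : pVV.comap a = P2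
  /-- via `β`: `FF` lies over `C₁'`, `mid`, `VV` lie over `C₂'` -/
  b_FF : pFF.comap b = P1
  b_mid : pmid.comap b = P2
  b_VV : pVV.comap b = P2
  /-- `VV` is the only prime over `C₂'` via `α` -/
  a_only : ∀ p : Ideal B, p.IsPrime → p.comap a = P2 → p = pVV
  /-- `FF` is the only prime over `C₁'` via `β` -/
  b_only : ∀ p : Ideal B, p.IsPrime → p.comap b = P1 → p = pFF
  /-- `VV → C₂'` is radicial via `α` (purely inseparable of degree `q`) -/
  a_rad : Radicial a pVV
  /-- `FF → C₁'` is radicial via `β` (purely inseparable of degree `q`) -/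
  b_rad : Radicial b pFF

namespace IncData

variable {A B : Type*} [CommRing A] [CommRing B] [IsDomain A] [IsDomain B]
  [IsIntegrallyClosed A] {a b : A →+* B} {P1 P2 : Ideal A} {pFF pmid pVV : Ideal B}

/-- A prime of `B` whose `α`-image lies on `C₂'` lies on `VV`. -/
theorem vv_le_of_a (D : IncData a b P1 P2 pFF pmid pVV) (n : Ideal B) [n.IsPrime]
    (h : P2 ≤ n.comap a) : pVV ≤ n := by
  haveI := D.primeP2
  obtain ⟨p, hp, hpn, hpc⟩ := exists_prime_le_comap_eq a D.a_inj D.a_int P2 n h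
  rw [← D.a_only p hp hpc]; exact hpn

/-- A prime of `B` whose `β`-image lies on `C₁'` lies on `FF`. -/
theorem ff_le_of_b (D : IncData a b P1 P2 pFF pmid pVV) (n : Ideal B) [n.IsPrime]
    (h : P1 ≤ n.comap b) : pFF ≤ n := by
  haveI := D.primeP1
  obtain ⟨p, hp, hpn, hpc⟩ := exists_prime_le_comap_eq b D.b_inj D.b_int P1 n h
  rw [← D.b_only p hp hpc]; exact hpn

/-- **Uniqueness over `α`.** Two primes of `B` with the same `α`-image, one of them lying on
`VV`, are equal. -/
theorem unique_over_a (D : IncData a b P1 P2 pFF pmid pVV) (n n' : Ideal B) [n.IsPrime]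
    [n'.IsPrime] (hn : pVV ≤ n) (h : n'.comap a = n.comap a) : n' = n := by
  have h2 : P2 ≤ n'.comap a := by
    rw [h, ← D.a_VV]; exact Ideal.comap_mono hn
  exact D.a_rad.eq_of_comap_eq (D.vv_le_of_a n' h2) hn h

/-- **Uniqueness over `β`.** Two primes of `B` with the same `β`-image, one of them lying on
`FF`, are equal. -/
theorem unique_over_b (D : IncData a b P1 P2 pFF pmid pVV) (n n' : Ideal B) [n.IsPrime]
    [n'.IsPrime] (hn : pFF ≤ n) (h : n'.comap b = n.comap b) : n' = n := by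
  have h2 : P1 ≤ n'.comap b := by
    rw [h, ← D.b_FF]; exact Ideal.comap_mono hn
  exact D.b_rad.eq_of_comap_eq (D.ff_le_of_b n' h2) hn h

/-- A prime on `VV` whose `α`-image lies on `C₁'` (i.e. over a node via `α`) lies on `FF` and on
`mid`. -/
theorem ff_mid_le_of_vv_a (D : IncData a b P1 P2 pFF pmid pVV) (n : Ideal B) [n.IsPrime]
    (hVV : pVV ≤ n) (h1 : P1 ≤ n.comap a) : pFF ≤ n ∧ pmid ≤ n := by
  haveI : (n.comap a).IsPrime := Ideal.comap_isPrime a n
  constructor
  · obtain ⟨n', hn', hle, hc⟩ :=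
      exists_prime_ge_comap_eq a D.a_int pFF (n.comap a) (by rw [D.a_FF]; exact h1)
    haveI := hn'
    rw [← D.unique_over_a n n' hVV hc]; exact hle
  · obtain ⟨n', hn', hle, hc⟩ :=
      exists_prime_ge_comap_eq a D.a_int pmid (n.comap a) (by rw [D.a_mid]; exact h1)
    haveI := hn'
    rw [← D.unique_over_a n n' hVV hc]; exact hle

/-- A prime on `FF` whose `β`-image lies on `C₂'` (i.e. over a node via `β`) lies on `mid` and on
`VV`. -/
theorem mid_vv_le_of_ff_b (D : IncData a b P1 P2 pFF pmid pVV) (n : Ideal B) [n.IsPrime]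
    (hFF : pFF ≤ n) (h2 : P2 ≤ n.comap b) : pmid ≤ n ∧ pVV ≤ n := by
  haveI : (n.comap b).IsPrime := Ideal.comap_isPrime b n
  constructor
  · obtain ⟨n', hn', hle, hc⟩ :=
      exists_prime_ge_comap_eq b D.b_int pmid (n.comap b) (by rw [D.b_mid]; exact h2)
    haveI := hn'
    rw [← D.unique_over_b n n' hFF hc]; exact hle
  · obtain ⟨n', hn', hle, hc⟩ :=
      exists_prime_ge_comap_eq b D.b_int pVV (n.comap b) (by rw [D.b_VV]; exact h2)
    haveI := hn'
    rw [← D.unique_over_b n n' hFF hc]; exact hle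

/-- **Triple points via `α`**: a prime of `B` whose `α`-image lies on both components of level
`q` lies on all three components of level `q²`. -/
theorem triple_of_node_a (D : IncData a b P1 P2 pFF pmid pVV) (n : Ideal B) [n.IsPrime]
    (h1 : P1 ≤ n.comap a) (h2 : P2 ≤ n.comap a) : pFF ≤ n ∧ pmid ≤ n ∧ pVV ≤ n := by
  have hVV := D.vv_le_of_a n h2
  obtain ⟨hFF, hmid⟩ := D.ff_mid_le_of_vv_a n hVV h1
  exact ⟨hFF, hmid, hVV⟩

/-- **Triple points via `β`**: a prime of `B` whose `β`-image lies on both components of level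
`q` lies on all three components of level `q²`. -/
theorem triple_of_node_b (D : IncData a b P1 P2 pFF pmid pVV) (n : Ideal B) [n.IsPrime]
    (h1 : P1 ≤ n.comap b) (h2 : P2 ≤ n.comap b) : pFF ≤ n ∧ pmid ≤ n ∧ pVV ≤ n := by
  have hFF := D.ff_le_of_b n h1
  obtain ⟨hmid, hVV⟩ := D.mid_vv_le_of_ff_b n hFF h2
  exact ⟨hFF, hmid, hVV⟩

/-- The images of a triple point are nodes (both via `α` and via `β`). -/
theorem node_of_triple (D : IncData a b P1 P2 pFF pmid pVV) (n : Ideal B)
    (hFF : pFF ≤ n) (hVV : pVV ≤ n) :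
    (P1 ≤ n.comap a ∧ P2 ≤ n.comap a) ∧ (P1 ≤ n.comap b ∧ P2 ≤ n.comap b) :=
  ⟨⟨D.a_FF ▸ Ideal.comap_mono hFF, D.a_VV ▸ Ideal.comap_mono hVV⟩,
    ⟨D.b_FF ▸ Ideal.comap_mono hFF, D.b_VV ▸ Ideal.comap_mono hVV⟩⟩

/-- **INCIDENCE.** A prime of `B` lying on two of the three components lies on all three. -/
theorem triple_of_two (D : IncData a b P1 P2 pFF pmid pVV) (n : Ideal B) [n.IsPrime]
    (h : (pFF ≤ n ∧ pmid ≤ n) ∨ (pFF ≤ n ∧ pVV ≤ n) ∨ (pmid ≤ n ∧ pVV ≤ n)) :
    pFF ≤ n ∧ pmid ≤ n ∧ pVV ≤ n := by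
  rcases h with ⟨hFF, hmid⟩ | ⟨hFF, hVV⟩ | ⟨hmid, hVV⟩
  · -- via `β`: `FF ↦ C₁'`, `mid ↦ C₂'`
    exact D.triple_of_node_b n (D.b_FF ▸ Ideal.comap_mono hFF) (D.b_mid ▸ Ideal.comap_mono hmid)
  · exact D.triple_of_node_a n (D.a_FF ▸ Ideal.comap_mono hFF) (D.a_VV ▸ Ideal.comap_mono hVV)
  · -- via `α`: `mid ↦ C₁'`, `VV ↦ C₂'`
    exact D.triple_of_node_a n (D.a_mid ▸ Ideal.comap_mono hmid) (D.a_VV ▸ Ideal.comap_mono hVV)

/-- A triple point is the only prime of `B` over its `α`-image, and the only one over its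
`β`-image. -/
theorem unique_of_triple (D : IncData a b P1 P2 pFF pmid pVV) (n : Ideal B) [n.IsPrime]
    (hFF : pFF ≤ n) (hVV : pVV ≤ n) (n' : Ideal B) [n'.IsPrime] :
    (n'.comap a = n.comap a → n' = n) ∧ (n'.comap b = n.comap b → n' = n) :=
  ⟨D.unique_over_a n n' hVV, D.unique_over_b n n' hFF⟩

/-- **Trichotomy-free form used by the label argument**: a prime on some component is either a
triple point, or lies on exactly one component. -/
theorem triple_or_single (D : IncData a b P1 P2 pFF pmid pVV) (n : Ideal B) [n.IsPrime] :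
    (pFF ≤ n ∧ pmid ≤ n ∧ pVV ≤ n) ∨
      (pFF ≤ n ∧ ¬ pmid ≤ n ∧ ¬ pVV ≤ n) ∨
      (¬ pFF ≤ n ∧ pmid ≤ n ∧ ¬ pVV ≤ n) ∨
      (¬ pFF ≤ n ∧ ¬ pmid ≤ n ∧ pVV ≤ n) ∨
      (¬ pFF ≤ n ∧ ¬ pmid ≤ n ∧ ¬ pVV ≤ n) := by
  by_cases hFF : pFF ≤ n <;> by_cases hmid : pmid ≤ n <;> by_cases hVV : pVV ≤ n
  · exact Or.inl ⟨hFF, hmid, hVV⟩
  · exact absurd (D.triple_of_two n (Or.inl ⟨hFF, hmid⟩)).2.2 hVV
  · exact absurd (D.triple_of_two n (Or.inr (Or.inl ⟨hFF, hVV⟩))).2.1 hmid
  · exact Or.inr (Or.inl ⟨hFF, hmid, hVV⟩)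
  · exact absurd (D.triple_of_two n (Or.inr (Or.inr ⟨hmid, hVV⟩))).1 hFF
  · exact Or.inr (Or.inr (Or.inl ⟨hFF, hmid, hVV⟩))
  · exact Or.inr (Or.inr (Or.inr (Or.inl ⟨hFF, hmid, hVV⟩)))
  · exact Or.inr (Or.inr (Or.inr (Or.inr ⟨hFF, hmid, hVV⟩)))

/-- A prime on `FF` only: its `β`-image is not on `C₂'` and its `α`-image is not on `C₂'`
(so at both images the level-`q` model is "smooth": only `C₁'` passes). -/
theorem images_of_ff_only (D : IncData a b P1 P2 pFF pmid pVV) (n : Ideal B) [n.IsPrime]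
    (hFF : pFF ≤ n) (hVV : ¬ pVV ≤ n) : ¬ P2 ≤ n.comap a ∧ ¬ P2 ≤ n.comap b :=
  ⟨fun h => hVV (D.vv_le_of_a n h), fun h => hVV (D.mid_vv_le_of_ff_b n hFF h).2⟩

/-- A prime on `VV` only: neither image is on `C₁'`. -/
theorem images_of_vv_only (D : IncData a b P1 P2 pFF pmid pVV) (n : Ideal B) [n.IsPrime]
    (hVV : pVV ≤ n) (hFF : ¬ pFF ≤ n) : ¬ P1 ≤ n.comap a ∧ ¬ P1 ≤ n.comap b :=
  ⟨fun h => hFF (D.ff_mid_le_of_vv_a n hVV h).1, fun h => hFF (D.ff_le_of_b n h)⟩

/-- A prime on `mid` only: its `α`-image is on `C₁'` only and its `β`-image is on `C₂'` only. -/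
theorem images_of_mid_only (D : IncData a b P1 P2 pFF pmid pVV) (n : Ideal B) [n.IsPrime]
    (hmid : pmid ≤ n) (hFF : ¬ pFF ≤ n) (hVV : ¬ pVV ≤ n) :
    (P1 ≤ n.comap a ∧ ¬ P2 ≤ n.comap a) ∧ (¬ P1 ≤ n.comap b ∧ P2 ≤ n.comap b) :=
  ⟨⟨D.a_mid ▸ Ideal.comap_mono hmid, fun h => hVV (D.vv_le_of_a n h)⟩,
    ⟨fun h => hFF (D.ff_le_of_b n h), D.b_mid ▸ Ideal.comap_mono hmid⟩⟩

/-- Over every node of level `q` (via `α`) there is exactly one prime of `B`, and it is a triple
point. -/
theorem exists_unique_triple_over_node_a (D : IncData a b P1 P2 pFF pmid pVV) (N : Ideal A)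
    [N.IsPrime] (h1 : P1 ≤ N) (h2 : P2 ≤ N) :
    ∃ n : Ideal B, n.IsPrime ∧ n.comap a = N ∧ (pFF ≤ n ∧ pmid ≤ n ∧ pVV ≤ n) ∧
      ∀ n' : Ideal B, n'.IsPrime → n'.comap a = N → n' = n := by
  obtain ⟨n, hn, hle, hc⟩ := exists_prime_ge_comap_eq a D.a_int pVV N (by rw [D.a_VV]; exact h2)
  haveI := hn
  refine ⟨n, hn, hc, D.triple_of_node_a n (hc ▸ h1) (hc ▸ h2), fun n' hn' hc' => ?_⟩
  haveI := hn'
  exact D.unique_over_a n n' hle (hc'.trans hc.symm)

/-- Over every node of level `q` (via `β`) there is exactly one prime of `B`, and it is a triple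
point. -/
theorem exists_unique_triple_over_node_b (D : IncData a b P1 P2 pFF pmid pVV) (N : Ideal A)
    [N.IsPrime] (h1 : P1 ≤ N) (h2 : P2 ≤ N) :
    ∃ n : Ideal B, n.IsPrime ∧ n.comap b = N ∧ (pFF ≤ n ∧ pmid ≤ n ∧ pVV ≤ n) ∧
      ∀ n' : Ideal B, n'.IsPrime → n'.comap b = N → n' = n := by
  obtain ⟨n, hn, hle, hc⟩ := exists_prime_ge_comap_eq b D.b_int pFF N (by rw [D.b_FF]; exact h1)
  haveI := hn
  refine ⟨n, hn, hc, D.triple_of_node_b n (hc ▸ h1) (hc ▸ h2), fun n' hn' hc' => ?_⟩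
  haveI := hn'
  exact D.unique_over_b n n' hle (hc'.trans hc.symm)

end IncData

section LocalDenominators

variable {A B : Type*} [CommRing A] [CommRing B]

/-- **Local denominators.**  If `n` is the ONLY prime of `B` over `N = n ∩ A` (`B` integral over
`A`), then `B_N = B_n`: every `s ∉ n` divides the image of some `t ∈ A ∖ N`.
(Used for norms at triple points: a unit of `B_n` is a unit of the semilocal ring `B ⊗ A_N`, so
its norm is a unit of `A_N`.) -/
theorem exists_mul_eq_of_unique (a : A →+* B) (ha_int : a.IsIntegral) (n : Ideal B) [n.IsPrime]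
    (huniq : ∀ n' : Ideal B, n'.IsPrime → n'.comap a = n.comap a → n' = n)
    (s : B) (hs : s ∉ n) : ∃ (s' : B) (t : A), t ∉ n.comap a ∧ s * s' = a t := by
  classical
  by_contra hcon
  push Not at hcon
  haveI hN : (n.comap a).IsPrime := Ideal.comap_isPrime a n
  -- the multiplicative set `a (A ∖ N)`
  let S : Submonoid B := (n.comap a).primeCompl.map (a : A →* B)
  have hdisj : Disjoint ((Ideal.span {s} : Ideal B) : Set B) (S : Set B) := by
    rw [Set.disjoint_left]
    rintro x hx ⟨t, ht, rfl⟩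
    obtain ⟨s', hs'⟩ := Ideal.mem_span_singleton'.mp hx
    exact hcon s' t ht (by rw [mul_comm]; exact hs')
  obtain ⟨p, hp, hsp, hpS⟩ := Ideal.exists_le_prime_disjoint (Ideal.span {s}) S hdisj
  have hpc : p.comap a ≤ n.comap a := by
    intro t ht
    by_contra htn
    exact Set.disjoint_left.mp hpS (show a t ∈ p from ht) ⟨t, htn, rfl⟩
  letI : Algebra A B := a.toAlgebra
  haveI : Algebra.IsIntegral A B := ⟨ha_int⟩
  obtain ⟨Q, hQ, hQp, hQc⟩ := Ideal.exists_ideal_over_prime_of_isIntegral (n.comap a) p hpc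
  have hQn : Q = n := huniq Q hQp hQc
  exact hs (hQn ▸ hQ (hsp (Ideal.subset_span rfl)))

/-- Elementwise consequence: a fraction `x / s`, `s ∉ n`, can be rewritten with a denominator
from `A ∖ N`. -/
theorem exists_denominator_of_unique (a : A →+* B) (ha_int : a.IsIntegral) (n : Ideal B)
    [n.IsPrime] (huniq : ∀ n' : Ideal B, n'.IsPrime → n'.comap a = n.comap a → n' = n)
    (x s : B) (hs : s ∉ n) : ∃ (x' : B) (t : A), t ∉ n.comap a ∧ x * a t = x' * s := by
  obtain ⟨s', t, ht, hst⟩ := exists_mul_eq_of_unique a ha_int n huniq s hs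
  exact ⟨x * s', t, ht, by rw [← hst]; ring⟩

end LocalDenominators

end Fermat.Agent.S36.H153

end
-- ===== PACK-END S36/H153/Incidence.lean

-- ===== PACK-BEGIN S28/Theta/DerivQExp.lean
section
/-
S28 / (A-θ): q-expansion of the normalized derivative `D f = (2πi)⁻¹ f'`.
Main result: for `f` holomorphic on `ℍ`, `1`-periodic and bounded at `i∞`,
`(qExpansion 1 (D f)).coeff m = m * (qExpansion 1 f).coeff m`.
-/


set_option autoImplicit false

open UpperHalfPlane hiding I
open Complex Filter Function Topology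
open scoped Real Manifold MatrixGroups ModularForm
open Derivative

noncomputable section

namespace Fermat.Agent.S28

local notation "𝕢" => Periodic.qParam

/-- "Good" functions on the upper half plane: `1`-periodic, holomorphic, bounded at `i∞`. -/
structure Th327Good (f : ℍ → ℂ) : Prop where
  per : Periodic (f ∘ ofComplex) 1
  holo : MDiff f
  bdd : IsBoundedAtImInfty f

namespace Th327Good

variable {f g : ℍ → ℂ}

lemma differentiableOn_ball (hf : Th327Good f) :
    DifferentiableOn ℂ (cuspFunction 1 f) (Metric.ball 0 1) :=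
  differentiableOn_cuspFunction_ball one_pos hf.per hf.holo hf.bdd

lemma analyticAt_zero (hf : Th327Good f) : AnalyticAt ℂ (cuspFunction 1 f) 0 :=
  analyticAt_cuspFunction_zero one_pos hf.per hf.holo hf.bdd

lemma analyticAt (hf : Th327Good f) {z : ℂ} (hz : ‖z‖ < 1) : AnalyticAt ℂ (cuspFunction 1 f) z :=
  hf.differentiableOn_ball.analyticAt
    (Metric.isOpen_ball.mem_nhds (by simpa using hz))

lemma hasSum (hf : Th327Good f) (τ : ℍ) :
    HasSum (fun m : ℕ ↦ (qExpansion 1 f).coeff m • 𝕢 1 τ ^ m) (f τ) :=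
  hasSum_qExpansion one_pos hf.per hf.holo hf.bdd τ

lemma eq_cusp (hf : Th327Good f) (τ : ℍ) : cuspFunction 1 f (𝕢 1 τ) = f τ :=
  eq_cuspFunction τ one_ne_zero hf.per

end Th327Good

lemma th327_hasDerivAt_qParam (w : ℂ) :
    HasDerivAt (𝕢 1) (2 * π * I * 𝕢 1 w) w := by
  have h1 : HasDerivAt (fun z : ℂ => 2 * π * I * z / (1 : ℝ)) (2 * π * I) w := by
    have := ((hasDerivAt_id w).const_mul (2 * π * I)).div_const ((1 : ℝ) : ℂ)
    simpa using this
  have h2 : HasDerivAt (fun z : ℂ => cexp (2 * π * I * z / (1 : ℝ)))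
      (cexp (2 * π * I * w / (1 : ℝ)) * (2 * π * I)) w := h1.cexp
  have h4 : 2 * π * I * 𝕢 1 w = cexp (2 * π * I * w / (1 : ℝ)) * (2 * π * I) := by
    simp only [Periodic.qParam]; ring
  rw [h4]
  exact h2

lemma th327_deriv_comp_ofComplex {f : ℍ → ℂ} (hf : Th327Good f) {w : ℂ} (hw : 0 < w.im) :
    deriv (f ∘ ofComplex) w = deriv (cuspFunction 1 f) (𝕢 1 w) * (2 * π * I * 𝕢 1 w) := by
  have h1 : (f ∘ ofComplex) =ᶠ[𝓝 w] (cuspFunction 1 f ∘ 𝕢 1) := by
    filter_upwards [isOpen_upperHalfPlaneSet.mem_nhds hw] with z hz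
    simp only [Function.comp_apply]
    rw [ofComplex_apply_of_im_pos hz]
    exact (hf.eq_cusp ⟨z, hz⟩).symm
  rw [h1.deriv_eq]
  have hF : DifferentiableAt ℂ (cuspFunction 1 f) (𝕢 1 w) :=
    differentiableAt_cuspFunction one_pos hf.per hf.holo hf.bdd
      (Periodic.norm_qParam_lt_one one_pos hw)
  exact (hF.hasDerivAt.comp w (th327_hasDerivAt_qParam w)).deriv

/-- `D f (τ) = q · F'(q)` where `F` is the cusp function of `f`. -/
lemma th327_D_apply {f : ℍ → ℂ} (hf : Th327Good f) (τ : ℍ) :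
    D f τ = 𝕢 1 τ * deriv (cuspFunction 1 f) (𝕢 1 τ) := by
  rw [normalizedDerivOfComplex, th327_deriv_comp_ofComplex hf τ.im_pos]
  have : (2 * π * I : ℂ) ≠ 0 := two_pi_I_ne_zero
  field_simp


lemma th327_comp_invQParam {f : ℍ → ℂ} (hf : Th327Good f) {z : ℂ} (hz : ‖z‖ < 1) (hz0 : z ≠ 0) :
    ((D f) ∘ ofComplex) (Periodic.invQParam 1 z) = z * deriv (cuspFunction 1 f) z := by
  have him := Periodic.im_invQParam_pos_of_norm_lt_one one_pos hz hz0
  simp only [Function.comp_apply]
  rw [ofComplex_apply_of_im_pos him, th327_D_apply hf]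
  rw [Periodic.qParam_right_inv one_ne_zero hz0]

lemma th327_continuousAt_deriv_cusp {f : ℍ → ℂ} (hf : Th327Good f) :
    ContinuousAt (deriv (cuspFunction 1 f)) 0 :=
  hf.analyticAt_zero.deriv.continuousAt

/-- The cusp function of `D f` is `z ↦ z · F'(z)` on the unit disc. -/
lemma th327_cuspFunction_D {f : ℍ → ℂ} (hf : Th327Good f) {z : ℂ} (hz : ‖z‖ < 1) :
    cuspFunction 1 (D f) z = z * deriv (cuspFunction 1 f) z := by
  rcases eq_or_ne z 0 with rfl | hz0
  · rw [zero_mul]
    show Periodic.cuspFunction 1 ((D f) ∘ ofComplex) 0 = 0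
    rw [Periodic.cuspFunction, Function.update_self]
    apply Tendsto.limUnder_eq
    have h1 : Tendsto (fun z : ℂ => z * deriv (cuspFunction 1 f) z) (𝓝[≠] 0) (𝓝 0) := by
      have h2 : Tendsto (fun z : ℂ => z * deriv (cuspFunction 1 f) z) (𝓝 0)
          (𝓝 (0 * deriv (cuspFunction 1 f) 0)) :=
        (continuousAt_id.mul (th327_continuousAt_deriv_cusp hf)).tendsto
      rw [zero_mul] at h2
      exact h2.mono_left nhdsWithin_le_nhds
    refine h1.congr' ?_
    have hball : Metric.ball (0 : ℂ) 1 ∈ 𝓝 (0 : ℂ) := Metric.ball_mem_nhds _ one_pos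
    filter_upwards [nhdsWithin_le_nhds hball, self_mem_nhdsWithin] with w hw hw0
    exact (th327_comp_invQParam hf (by simpa using hw) hw0).symm
  · show Periodic.cuspFunction 1 ((D f) ∘ ofComplex) z = _
    rw [Periodic.cuspFunction_eq_of_nonzero 1 _ hz0]
    exact th327_comp_invQParam hf hz hz0

lemma th327_cuspFunction_D_eventuallyEq {f : ℍ → ℂ} (hf : Th327Good f) :
    cuspFunction 1 (D f) =ᶠ[𝓝 0] fun z => z * deriv (cuspFunction 1 f) z := by
  have hball : Metric.ball (0 : ℂ) 1 ∈ 𝓝 (0 : ℂ) := Metric.ball_mem_nhds _ one_pos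
  filter_upwards [hball] with w hw
  exact th327_cuspFunction_D hf (by simpa using hw)

lemma th327_analyticAt_cuspFunction_D {f : ℍ → ℂ} (hf : Th327Good f) :
    AnalyticAt ℂ (cuspFunction 1 (D f)) 0 := by
  have h : AnalyticAt ℂ (fun z : ℂ => z * deriv (cuspFunction 1 f) z) 0 :=
    analyticAt_id.mul hf.analyticAt_zero.deriv
  exact h.congr (th327_cuspFunction_D_eventuallyEq hf).symm

/-- The `q`-expansion of `D f` is `θ` of the `q`-expansion of `f`. -/
theorem th327_qExpansion_D_coeff {f : ℍ → ℂ} (hf : Th327Good f) (m : ℕ) :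
    (qExpansion 1 (D f)).coeff m = (m : ℂ) * (qExpansion 1 f).coeff m := by
  rw [qExpansion_coeff, qExpansion_coeff,
    (th327_cuspFunction_D_eventuallyEq hf).iteratedDeriv_eq m]
  have hF := hf.analyticAt_zero
  have hmul : (fun z : ℂ => z * deriv (cuspFunction 1 f) z) = id * deriv (cuspFunction 1 f) := rfl
  rw [hmul, iteratedDeriv_mul (n := m) contDiffAt_id hF.deriv.contDiffAt]
  rcases m with _ | m
  · simp
  · rw [Finset.sum_eq_single 1]
    · simp only [iteratedDeriv_one, Nat.choose_one_right, Nat.add_sub_cancel]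
      rw [show deriv (id : ℂ → ℂ) 0 = 1 by simp, iteratedDeriv_succ' (n := m)]
      rw [Nat.factorial_succ]
      push_cast
      have : ((m : ℂ) + 1) ≠ 0 := by exact_mod_cast Nat.succ_ne_zero m
      have h2 : ((m.factorial : ℕ) : ℂ) ≠ 0 := by exact_mod_cast Nat.factorial_ne_zero m
      field_simp
    · intro i _ hi
      have : iteratedDeriv i (id : ℂ → ℂ) 0 = 0 := by
        rw [iteratedDeriv_id]
        rcases i with _ | _ | i
        · simp
        · exact absurd rfl hi
        · simp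
      rw [this]; simp
    · intro h
      exact absurd (Finset.mem_range.mpr (by omega)) h


/-! ### Closure properties of `Th327Good` -/

namespace Th327Good

variable {f g : ℍ → ℂ}

lemma of_modularForm {k : ℤ} (f : ModularForm 𝒮ℒ k) : Th327Good (f : ℍ → ℂ) where
  per := SlashInvariantFormClass.periodic_comp_ofComplex f one_mem_strictPeriods_SL
  holo := ModularFormClass.holo f
  bdd := ModularFormClass.bdd_at_infty f

lemma of_cuspForm {k : ℤ} (f : CuspForm 𝒮ℒ k) : Th327Good (f : ℍ → ℂ) where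
  per := SlashInvariantFormClass.periodic_comp_ofComplex f one_mem_strictPeriods_SL
  holo := ModularFormClass.holo f
  bdd := ModularFormClass.bdd_at_infty f

lemma mul (hf : Th327Good f) (hg : Th327Good g) : Th327Good (f * g) where
  per := fun z => by
    have h1 := hf.per z
    have h2 := hg.per z
    simp only [Function.comp_apply, Pi.mul_apply] at h1 h2 ⊢
    rw [h1, h2]
  holo := hf.holo.mul hg.holo
  bdd := hf.bdd.mul hg.bdd

lemma add (hf : Th327Good f) (hg : Th327Good g) : Th327Good (f + g) where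
  per := fun z => by
    have h1 := hf.per z
    have h2 := hg.per z
    simp only [Function.comp_apply, Pi.add_apply] at h1 h2 ⊢
    rw [h1, h2]
  holo := hf.holo.add hg.holo
  bdd := hf.bdd.add hg.bdd

lemma neg (hf : Th327Good f) : Th327Good (-f) where
  per := fun z => by
    have h1 := hf.per z
    simp only [Function.comp_apply, Pi.neg_apply] at h1 ⊢
    rw [h1]
  holo := hf.holo.neg
  bdd := hf.bdd.neg

lemma sub (hf : Th327Good f) (hg : Th327Good g) : Th327Good (f - g) := by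
  rw [sub_eq_add_neg]; exact hf.add hg.neg

lemma smul (c : ℂ) (hf : Th327Good f) : Th327Good (c • f) where
  per := fun z => by
    have h1 := hf.per z
    simp only [Function.comp_apply, Pi.smul_apply] at h1 ⊢
    rw [h1]
  holo := hf.holo.const_smul c
  bdd := hf.bdd.const_smul_left c

lemma pow (hf : Th327Good f) (n : ℕ) : Th327Good (f ^ n) := by
  induction n with
  | zero =>
    rw [pow_zero]
    exact ⟨fun z => rfl, mdifferentiable_const, Filter.const_boundedAtFilter _ _⟩
  | succ n ih => rw [pow_succ]; exact ih.mul hf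

/-- The normalized derivative of a good function is good (and even zero at `i∞`). -/
lemma deriv (hf : Th327Good f) : Th327Good (D f) where
  per := fun z => by
    simp only [Function.comp_apply]
    by_cases hz : 0 < z.im
    · have hz1 : 0 < (z + (1 : ℂ)).im := by simpa using hz
      rw [ofComplex_apply_of_im_pos hz1, ofComplex_apply_of_im_pos hz]
      simp only [normalizedDerivOfComplex]
      congr 1
      show _root_.deriv (f ∘ ofComplex) (z + (1 : ℂ)) = _root_.deriv (f ∘ ofComplex) z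
      rw [← deriv_comp_add_const (f ∘ ofComplex) (1 : ℂ) z]
      congr 1
      funext w
      exact hf.per w
    · have hz' : z.im ≤ 0 := not_lt.mp hz
      have hz1 : (z + (1 : ℂ)).im ≤ 0 := by simpa using hz'
      rw [ofComplex_apply_eq_of_im_nonpos hz1 hz']
  holo := normalizedDerivOfComplex_mdifferentiable hf.holo
  bdd := by
    have h0 : Tendsto (fun z : ℂ => z * _root_.deriv (cuspFunction 1 f) z) (𝓝 0)
        (𝓝 (0 * _root_.deriv (cuspFunction 1 f) 0)) :=
      (continuousAt_id.mul (th327_continuousAt_deriv_cusp hf)).tendsto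
    have h1 : Tendsto (D f) atImInfty (𝓝 (0 * _root_.deriv (cuspFunction 1 f) 0)) := by
      have h2 := h0.comp (qParam_tendsto_atImInfty (h := 1) one_pos)
      refine h2.congr fun τ => ?_
      simp only [Function.comp_apply]
      exact (th327_D_apply hf τ).symm
    exact h1.isBigO_one ℝ

lemma analyticAt_zero_D (hf : Th327Good f) : AnalyticAt ℂ (cuspFunction 1 (D f)) 0 :=
  th327_analyticAt_cuspFunction_D hf

end Th327Good

/-! ### `θ = q d/dq` on power series, and `q`-expansions of good functions -/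

/-- `θ = q d/dq` on power series: multiplies the coefficient of `qⁿ` by `n`. -/
def th327_thetaP {R : Type*} [Semiring R] (p : PowerSeries R) : PowerSeries R :=
  PowerSeries.mk fun n => (n : R) * p.coeff n

@[simp] lemma th327_thetaP_coeff {R : Type*} [Semiring R] (p : PowerSeries R) (n : ℕ) :
    (th327_thetaP p).coeff n = (n : R) * p.coeff n := by
  simp [th327_thetaP]

namespace Th327Good

variable {f g : ℍ → ℂ}

lemma qExpansion_D (hf : Th327Good f) : qExpansion 1 (D f) = th327_thetaP (qExpansion 1 f) := by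
  ext m
  rw [th327_thetaP_coeff, th327_qExpansion_D_coeff hf]

lemma qExpansion_mul (hf : Th327Good f) (hg : Th327Good g) :
    qExpansion 1 (f * g) = qExpansion 1 f * qExpansion 1 g :=
  UpperHalfPlane.qExpansion_mul hf.analyticAt_zero hg.analyticAt_zero

lemma qExpansion_add (hf : Th327Good f) (hg : Th327Good g) :
    qExpansion 1 (f + g) = qExpansion 1 f + qExpansion 1 g :=
  UpperHalfPlane.qExpansion_add hf.analyticAt_zero hg.analyticAt_zero

lemma qExpansion_sub (hf : Th327Good f) (hg : Th327Good g) :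
    qExpansion 1 (f - g) = qExpansion 1 f - qExpansion 1 g :=
  UpperHalfPlane.qExpansion_sub hf.analyticAt_zero hg.analyticAt_zero

lemma qExpansion_smul (c : ℂ) (hf : Th327Good f) :
    qExpansion 1 (c • f) = c • qExpansion 1 f :=
  UpperHalfPlane.qExpansion_smul hf.analyticAt_zero c

lemma qExpansion_pow (hf : Th327Good f) (n : ℕ) :
    qExpansion 1 (f ^ n) = qExpansion 1 f ^ n := by
  induction n with
  | zero => rw [pow_zero, pow_zero]; exact UpperHalfPlane.qExpansion_one 1
  | succ n ih => rw [pow_succ, pow_succ, (hf.pow n).qExpansion_mul hf, ih]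

lemma qExpansion_eq_zero_iff (hf : Th327Good f) : qExpansion 1 f = 0 ↔ f = 0 :=
  UpperHalfPlane.qExpansion_eq_zero_iff one_pos hf.per hf.holo hf.bdd

end Th327Good

end Fermat.Agent.S28

end
end
-- ===== PACK-END S28/Theta/DerivQExp.lean

-- ===== PACK-BEGIN S21/H585/OrbitSum.lean
section


/-!
# Orbit sums on a finite `G`-set (linear algebra of permutation modules of cyclic groups)

For a group `G` acting on a finite type `X`, `g : G` and a field `K` we study
* `osum K g : (X → K) →ₗ[K] (Orb g X → K)`, the sum over the orbits of `⟨g⟩`,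
* `cobd K g : (X → K) →ₗ[K] (X → K)`, `h ↦ (x ↦ h (g • x) - h x)`,
and prove `ker (osum K g) = range (cobd K g)` by a dimension count.
-/

set_option autoImplicit false

namespace Fermat.Agent.S21.H585

section

variable {G : Type*} [Group G] {X : Type*} [MulAction G X]

/-- The orbit space of the cyclic group `⟨g⟩` acting on `X`. -/
abbrev Orb (g : G) (X : Type*) [MulAction G X] : Type _ :=
  MulAction.orbitRel.Quotient (Subgroup.zpowers g) X

/-- The quotient map to the orbit space. -/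
def orbMk (g : G) (x : X) : Orb g X := Quotient.mk'' x

lemma orbMk_surjective (g : G) : Function.Surjective (orbMk (X := X) g) :=
  Quotient.mk''_surjective

lemma orbMk_eq_iff (g : G) (x y : X) :
    orbMk g x = orbMk g y ↔ ∃ k : ℤ, g ^ k • y = x := by
  rw [orbMk, orbMk, Quotient.eq'', MulAction.orbitRel_apply, MulAction.mem_orbit_iff]
  constructor
  · rintro ⟨⟨h, hh⟩, rfl⟩
    obtain ⟨k, rfl⟩ := Subgroup.mem_zpowers_iff.mp hh
    exact ⟨k, rfl⟩
  · rintro ⟨k, rfl⟩
    exact ⟨⟨g ^ k, Subgroup.zpow_mem_zpowers g k⟩, rfl⟩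

lemma orbMk_smul (g : G) (x : X) : orbMk g (g • x) = orbMk g x :=
  (orbMk_eq_iff g _ _).mpr ⟨1, by rw [zpow_one]⟩

lemma orbMk_inv_smul (g : G) (x : X) : orbMk g (g⁻¹ • x) = orbMk g x :=
  (orbMk_eq_iff g _ _).mpr ⟨-1, by rw [zpow_neg_one]⟩


variable (K : Type*) [Field K]

/-- `h ↦ h ∘ g - h`. -/
def cobd (g : G) : (X → K) →ₗ[K] (X → K) where
  toFun h x := h (g • x) - h x
  map_add' h h' := by funext x; simp only [Pi.add_apply]; ring
  map_smul' t h := by funext x; simp only [Pi.smul_apply, smul_eq_mul, RingHom.id_apply]; ring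

@[simp] lemma cobd_apply (g : G) (h : X → K) (x : X) : cobd K g h x = h (g • x) - h x := rfl

variable [Fintype X]

open Classical in
/-- Sum over the orbits of `⟨g⟩`. -/
noncomputable def osum (g : G) : (X → K) →ₗ[K] (Orb g X → K) where
  toFun m ω := ∑ x : X, if orbMk g x = ω then m x else 0
  map_add' m m' := by
    funext ω
    simp only [Pi.add_apply, ← Finset.sum_add_distrib]
    refine Finset.sum_congr rfl fun x _ => ?_
    split_ifs <;> simp
  map_smul' t m := by
    funext ω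
    simp only [Pi.smul_apply, smul_eq_mul, RingHom.id_apply, Finset.mul_sum]
    refine Finset.sum_congr rfl fun x _ => ?_
    split_ifs <;> simp

open Classical in
lemma osum_apply (g : G) (m : X → K) (ω : Orb g X) :
    osum K g m ω = ∑ x : X, if orbMk g x = ω then m x else 0 := rfl

/-- Orbit sums are invariant under translation by `g`. -/
lemma osum_comp_smul (g : G) (m : X → K) : osum K g (fun x => m (g • x)) = osum K g m := by
  classical
  funext ω
  rw [osum_apply, osum_apply]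
  refine Fintype.sum_equiv (MulAction.toPerm g) _ _ fun x => ?_
  simp only [MulAction.toPerm_apply, orbMk_smul]

lemma osum_cobd (g : G) (h : X → K) : osum K g (cobd K g h) = 0 := by
  have : cobd K g h = (fun x => h (g • x)) - h := rfl
  rw [this, map_sub, osum_comp_smul, sub_self]

lemma range_cobd_le_ker_osum (g : G) :
    LinearMap.range (cobd K g : (X → K) →ₗ[K] (X → K)) ≤ LinearMap.ker (osum K g) := by
  rintro _ ⟨h, rfl⟩
  exact osum_cobd K g h

/-- The total sum of the orbit sums is the total sum. -/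
lemma sum_osum (g : G) [Fintype (Orb g X)] (m : X → K) : ∑ ω, osum K g m ω = ∑ x, m x := by
  classical
  simp only [osum_apply]
  rw [Finset.sum_comm]
  refine Finset.sum_congr rfl fun x _ => ?_
  rw [Finset.sum_ite_eq]
  simp

lemma osum_surjective (g : G) : Function.Surjective (osum K g : (X → K) → (Orb g X → K)) := by
  classical
  intro z
  refine ⟨fun x => if x = Quotient.out (orbMk g x) then z (orbMk g x) else 0, ?_⟩
  funext ω
  rw [osum_apply]
  have hω : orbMk g (Quotient.out ω) = ω := Quotient.out_eq' ω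
  rw [Finset.sum_eq_single (Quotient.out ω)]
  · rw [if_pos hω, hω, if_pos rfl]
  · intro x _ hx
    by_cases h1 : orbMk g x = ω
    · rw [if_pos h1, if_neg]
      rw [h1]; exact hx
    · rw [if_neg h1]
  · intro h; exact absurd (Finset.mem_univ _) h


/-- Pull-back of functions from the orbit space. -/
def orbPb (g : G) : (Orb g X → K) →ₗ[K] (X → K) where
  toFun z x := z (orbMk g x)
  map_add' _ _ := rfl
  map_smul' _ _ := rfl

omit [Fintype X] in
lemma orbPb_injective (g : G) :
    Function.Injective (orbPb K g : (Orb g X → K) → (X → K)) := by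
  intro z z' h
  funext ω
  obtain ⟨x, rfl⟩ := orbMk_surjective g ω
  exact congrFun h x

omit [Fintype X] in
lemma eq_of_cobd_eq_zero (g : G) {h : X → K} (hh : cobd K g h = 0) (k : ℤ) (x : X) :
    h (g ^ k • x) = h x := by
  have h1 : ∀ y, h (g • y) = h y := fun y => by
    have := congrFun hh y
    simpa [sub_eq_zero] using this
  induction k using Int.induction_on generalizing x with
  | zero => simp
  | succ n ih =>
    rw [zpow_add_one, mul_smul, ih, h1]
  | pred n ih =>
    rw [zpow_sub_one, mul_smul, ih]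
    have := h1 (g⁻¹ • x)
    rw [smul_inv_smul] at this
    exact this.symm

omit [Fintype X] in
lemma ker_cobd_eq_range_orbPb (g : G) :
    LinearMap.ker (cobd K g : (X → K) →ₗ[K] (X → K)) = LinearMap.range (orbPb K g) := by
  apply le_antisymm
  · intro h hh
    rw [LinearMap.mem_ker] at hh
    refine ⟨fun ω => h (Quotient.out ω), ?_⟩
    funext x
    show h (Quotient.out (orbMk g x)) = h x
    have h1 : orbMk g (Quotient.out (orbMk g x)) = orbMk g x := Quotient.out_eq' _
    obtain ⟨k, hk⟩ := (orbMk_eq_iff g _ _).mp h1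
    rw [← hk, eq_of_cobd_eq_zero K g hh]
  · rintro _ ⟨z, rfl⟩
    rw [LinearMap.mem_ker]
    funext x
    show z (orbMk g (g • x)) - z (orbMk g x) = 0
    rw [orbMk_smul, sub_self]

lemma finrank_orb_fun (g : G) : Module.finrank K (Orb g X → K) = Nat.card (Orb g X) := by
  classical
  letI : Fintype (Orb g X) := Fintype.ofFinite _
  rw [Module.finrank_fintype_fun_eq_card, Nat.card_eq_fintype_card]

lemma finrank_ker_cobd (g : G) :
    Module.finrank K (LinearMap.ker (cobd K g : (X → K) →ₗ[K] (X → K))) = Nat.card (Orb g X) := by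
  rw [ker_cobd_eq_range_orbPb, LinearMap.finrank_range_of_inj (orbPb_injective K g),
    finrank_orb_fun]

lemma finrank_range_cobd_add (g : G) :
    Module.finrank K (LinearMap.range (cobd K g : (X → K) →ₗ[K] (X → K))) + Nat.card (Orb g X)
      = Fintype.card X := by
  rw [← finrank_ker_cobd K g, LinearMap.finrank_range_add_finrank_ker,
    Module.finrank_fintype_fun_eq_card]

lemma finrank_ker_osum_add (g : G) :
    Module.finrank K (LinearMap.ker (osum K g : (X → K) →ₗ[K] (Orb g X → K)))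
      + Nat.card (Orb g X) = Fintype.card X := by
  have h := LinearMap.finrank_range_add_finrank_ker (osum K g : (X → K) →ₗ[K] (Orb g X → K))
  rw [LinearMap.range_eq_top.mpr (osum_surjective K g), finrank_top, finrank_orb_fun,
    Module.finrank_fintype_fun_eq_card] at h
  omega

/-- **Coboundary lemma**: a function with vanishing `⟨g⟩`-orbit sums is of the form
`h ∘ g - h`. -/
theorem ker_osum_eq_range_cobd (g : G) :
    LinearMap.ker (osum K g : (X → K) →ₗ[K] (Orb g X → K)) = LinearMap.range (cobd K g) := by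
  symm
  apply Submodule.eq_of_le_of_finrank_eq (range_cobd_le_ker_osum K g)
  have h1 := finrank_range_cobd_add K (X := X) g
  have h2 := finrank_ker_osum_add K (X := X) g
  omega

theorem exists_cobd_of_osum_eq_zero (g : G) {b : X → K} (hb : osum K g b = 0) :
    ∃ h : X → K, ∀ x, b x = h (g • x) - h x := by
  have : b ∈ LinearMap.range (cobd K g : (X → K) →ₗ[K] (X → K)) := by
    rw [← ker_osum_eq_range_cobd]; exact hb
  obtain ⟨h, rfl⟩ := this
  exact ⟨h, fun x => rfl⟩

end

end Fermat.Agent.S21.H585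

end
-- ===== PACK-END S21/H585/OrbitSum.lean

-- ===== PACK-BEGIN S59/H105/LocAbs.lean
section


/-!
# Row S59, cell TW, leaf CTRL (helper105): abstract localisation lemmas (Mathlib only)

`X` a module over a commutative ring `𝒪`, `ϖ ∈ 𝒪`, `N i` (`i ∈ ι`) commuting endomorphisms
(in the applications `N i = T_ℓ - c_ℓ`, `U_q - α_q`).

* `exists_common_ker_list`, `exists_common_ker` : commuting operators which are nilpotent from
  `S` into `B` have a common "kernel vector modulo `B`" in `S \ B`;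
* `nat_loc` (**NAT1**): if `f : X → X'` intertwines `N i` and `N' i`, the `N i` are nilpotent
  modulo `ϖ` on the stable saturated submodule `V ⊆ X`, and `e'` is a projector of `X'`
  commuting with the `N' i` whose kernel is *full* (no vector outside `ϖ X'` is killed modulo
  `ϖ` by all the `N' i`), then `f (V) ⊆ e' (X')`.
-/

set_option autoImplicit false

namespace Fermat.Agent.S59.H105

section CK

variable {𝒪 : Type*} [CommRing 𝒪] {X : Type*} [AddCommGroup X] [Module 𝒪 X]

theorem pow_apply_comm_of_comm (N N' : X →ₗ[𝒪] X) (h : ∀ x, N (N' x) = N' (N x)) (k : ℕ)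
    (x : X) : (N ^ k) (N' x) = N' ((N ^ k) x) := by
  induction k generalizing x with
  | zero => simp
  | succ k ih =>
    rw [pow_succ, Module.End.mul_apply, Module.End.mul_apply, h, ih]

theorem pow_mem_of_mem (N : X →ₗ[𝒪] X) (S : Submodule 𝒪 X) (hS : ∀ x ∈ S, N x ∈ S) (k : ℕ) :
    ∀ x ∈ S, (N ^ k) x ∈ S := by
  induction k with
  | zero => exact fun x hx => by simpa using hx
  | succ k ih =>
    intro x hx
    rw [pow_succ, Module.End.mul_apply]
    exact ih _ (hS x hx)

/-- A finite list of commuting operators, each nilpotent from `S` into `B`, has a common kernel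
vector modulo `B` in `S \ B`. -/
theorem exists_common_ker_list (S B : Submodule 𝒪 X) (Ns : List (X →ₗ[𝒪] X))
    (hcomm : ∀ N ∈ Ns, ∀ N' ∈ Ns, ∀ x, N (N' x) = N' (N x))
    (hS : ∀ N ∈ Ns, ∀ x ∈ S, N x ∈ S) (hB : ∀ N ∈ Ns, ∀ x ∈ B, N x ∈ B)
    (hnil : ∀ N ∈ Ns, ∃ m : ℕ, ∀ x ∈ S, (N ^ m) x ∈ B)
    {z₀ : X} (hz₀ : z₀ ∈ S) (hz₀' : z₀ ∉ B) :
    ∃ z ∈ S, z ∉ B ∧ ∀ N ∈ Ns, N z ∈ B := by
  induction Ns with
  | nil => exact ⟨z₀, hz₀, hz₀', fun N hN => absurd hN (List.not_mem_nil)⟩
  | cons N Ns ih =>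
    obtain ⟨z₁, hz₁, hz₁', hker⟩ := ih
      (fun A hA A' hA' => hcomm A (List.mem_cons_of_mem _ hA) A' (List.mem_cons_of_mem _ hA'))
      (fun A hA => hS A (List.mem_cons_of_mem _ hA))
      (fun A hA => hB A (List.mem_cons_of_mem _ hA))
      (fun A hA => hnil A (List.mem_cons_of_mem _ hA))
    obtain ⟨m, hm⟩ := hnil N List.mem_cons_self
    classical
    have hex : ∃ j : ℕ, (N ^ j) z₁ ∈ B := ⟨m, hm z₁ hz₁⟩
    have hj0 : Nat.find hex ≠ 0 := by
      intro h0
      have := Nat.find_spec hex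
      rw [h0] at this
      exact hz₁' (by simpa using this)
    obtain ⟨j, hj⟩ := Nat.exists_eq_succ_of_ne_zero hj0
    refine ⟨(N ^ j) z₁, pow_mem_of_mem N S (hS N List.mem_cons_self) j z₁ hz₁, ?_, ?_⟩
    · exact Nat.find_min hex (by omega)
    · intro A hA
      rcases List.mem_cons.mp hA with rfl | hA'
      · have := Nat.find_spec hex
        rw [hj, pow_succ', Module.End.mul_apply] at this
        exact this
      · rw [← pow_apply_comm_of_comm N A
          (fun x => hcomm N List.mem_cons_self A hA x) j z₁]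
        exact pow_mem_of_mem N B (hB N List.mem_cons_self) j _ (hker A hA')

/-- A commuting family of operators, each nilpotent from `S` into `B`, has a common kernel
vector modulo `B` in `S \ B` (the endomorphisms form a noetherian module). -/
theorem exists_common_ker [IsNoetherian 𝒪 (X →ₗ[𝒪] X)] {ι : Type*} (N : ι → X →ₗ[𝒪] X)
    (hcomm : ∀ i j x, N i (N j x) = N j (N i x)) (S B : Submodule 𝒪 X)
    (hS : ∀ i, ∀ x ∈ S, N i x ∈ S) (hB : ∀ i, ∀ x ∈ B, N i x ∈ B)
    (hnil : ∀ i, ∃ m : ℕ, ∀ x ∈ S, (N i ^ m) x ∈ B) {z₀ : X} (hz₀ : z₀ ∈ S) (hz₀' : z₀ ∉ B) :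
    ∃ z ∈ S, z ∉ B ∧ ∀ i, N i z ∈ B := by
  classical
  have hfg : (Submodule.span 𝒪 (Set.range N)).FG := IsNoetherian.noetherian _
  obtain ⟨s', hs', hspan⟩ := (Submodule.fg_span_iff_fg_span_finset_subset _).mp hfg
  have hmem : ∀ A ∈ s'.toList, ∃ i, N i = A := by
    intro A hA
    exact hs' (Finset.mem_toList.mp hA)
  obtain ⟨z, hz, hz', hker⟩ := exists_common_ker_list S B s'.toList
    (by
      intro A hA A' hA' x
      obtain ⟨i, rfl⟩ := hmem A hA
      obtain ⟨j, rfl⟩ := hmem A' hA'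
      exact hcomm i j x)
    (by
      intro A hA
      obtain ⟨i, rfl⟩ := hmem A hA
      exact hS i)
    (by
      intro A hA
      obtain ⟨i, rfl⟩ := hmem A hA
      exact hB i)
    (by
      intro A hA
      obtain ⟨i, rfl⟩ := hmem A hA
      exact hnil i) hz₀ hz₀'
  refine ⟨z, hz, hz', fun i => ?_⟩
  have hi : N i ∈ Submodule.span 𝒪 (↑s' : Set (X →ₗ[𝒪] X)) := by
    rw [← hspan]
    exact Submodule.subset_span ⟨i, rfl⟩
  have hall : ∀ A ∈ Submodule.span 𝒪 (↑s' : Set (X →ₗ[𝒪] X)), A z ∈ B := by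
    intro A hA
    induction hA using Submodule.span_induction with
    | mem A hA => exact hker A (Finset.mem_toList.mpr hA)
    | zero => simp
    | add A A' _ _ hA hA' => exact B.add_mem hA hA'
    | smul c A _ hA => exact B.smul_mem c hA
  exact hall _ hi

end CK

section Nat

variable {𝒪 : Type*} [CommRing 𝒪] {X X' : Type*} [AddCommGroup X] [Module 𝒪 X]
  [AddCommGroup X'] [Module 𝒪 X']

/-- The submodule `ϖ X`. -/
def divSub (X : Type*) [AddCommGroup X] [Module 𝒪 X] (ϖ : 𝒪) : Submodule 𝒪 X :=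
  LinearMap.range (LinearMap.lsmul 𝒪 X ϖ)

theorem mem_divSub {ϖ : 𝒪} {x : X} : x ∈ divSub X ϖ ↔ ∃ z : X, x = ϖ • z := by
  constructor
  · rintro ⟨z, rfl⟩
    exact ⟨z, rfl⟩
  · rintro ⟨z, rfl⟩
    exact ⟨z, rfl⟩

theorem map_mem_divSub {ϖ : 𝒪} (f : X →ₗ[𝒪] X') {x : X} (hx : x ∈ divSub X ϖ) :
    f x ∈ divSub X' ϖ := by
  obtain ⟨z, rfl⟩ := mem_divSub.mp hx
  exact mem_divSub.mpr ⟨f z, map_smul f ϖ z⟩

/-- **NAT1.**  An intertwining map sends a submodule on which the operators are nilpotent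
modulo `ϖ` into the localised part of the target. -/
theorem nat_loc [IsNoetherian 𝒪 (X' →ₗ[𝒪] X')] (ϖ : 𝒪)
    (htf : ∀ x : X', ϖ • x = 0 → x = 0)
    (hsep : ∀ x : X', (∀ n : ℕ, ∃ z : X', x = ϖ ^ n • z) → x = 0)
    {ι : Type*} (N : ι → X →ₗ[𝒪] X) (N' : ι → X' →ₗ[𝒪] X')
    (hcomm' : ∀ i j x, N' i (N' j x) = N' j (N' i x))
    (V : Submodule 𝒪 X) (hV : ∀ i, ∀ x ∈ V, N i x ∈ V)
    (hnil : ∀ i, ∃ m : ℕ, ∀ x ∈ V, ∃ z ∈ V, (N i ^ m) x = ϖ • z)
    (e' : X' →ₗ[𝒪] X') (hidem : ∀ x, e' (e' x) = e' x)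
    (hecomm : ∀ i x, e' (N' i x) = N' i (e' x))
    (hfull : ∀ x, e' x = 0 → (∀ i, N' i x ∈ divSub X' ϖ) → x ∈ divSub X' ϖ)
    (f : X →ₗ[𝒪] X') (hf : ∀ i x, f (N i x) = N' i (f x)) :
    ∀ x ∈ V, e' (f x) = f x := by
  -- `g = (1 - e') f`
  set g : X →ₗ[𝒪] X' := f - e'.comp f with hg
  have hgN : ∀ i x, g (N i x) = N' i (g x) := by
    intro i x
    simp only [hg, LinearMap.sub_apply, LinearMap.comp_apply, hf, hecomm, map_sub]
  have heg : ∀ x, e' (g x) = 0 := by
    intro x
    simp only [hg, LinearMap.sub_apply, LinearMap.comp_apply, map_sub, hidem, sub_self]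
  have htfn : ∀ (n : ℕ) (x : X'), ϖ ^ n • x = 0 → x = 0 := by
    intro n
    induction n with
    | zero => exact fun x hx => by simpa using hx
    | succ n ih =>
      intro x hx
      rw [pow_succ, mul_smul] at hx
      exact htf x (ih _ hx)
  have key : ∀ n : ℕ, ∀ v ∈ V, ∃ z : X', g v = ϖ ^ n • z := by
    intro n
    induction n with
    | zero => exact fun v _ => ⟨g v, by simp⟩
    | succ n ih =>
      -- `S = {y | ϖ^n y ∈ g V}`
      let S : Submodule 𝒪 X' :=
        { carrier := {y | ∃ v ∈ V, g v = ϖ ^ n • y}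
          zero_mem' := ⟨0, V.zero_mem, by simp⟩
          add_mem' := by
            rintro a b ⟨v, hv, e1⟩ ⟨w, hw, e2⟩
            exact ⟨v + w, V.add_mem hv hw, by rw [map_add, e1, e2, smul_add]⟩
          smul_mem' := by
            rintro c a ⟨v, hv, e1⟩
            exact ⟨c • v, V.smul_mem c hv, by rw [map_smul, e1, smul_comm]⟩ }
      have hSB : ∀ y ∈ S, y ∈ divSub X' ϖ := by
        by_contra hcon
        simp only [not_forall] at hcon
        obtain ⟨z₀, hz₀, hz₀'⟩ := hcon
        obtain ⟨z, hz, hz', hker⟩ := exists_common_ker N' hcomm' S (divSub X' ϖ)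
          (by
            rintro i y ⟨v, hv, e1⟩
            exact ⟨N i v, hV i v hv, by rw [hgN, e1, map_smul]⟩)
          (fun i x hx => map_mem_divSub (N' i) hx)
          (by
            intro i
            obtain ⟨m, hm⟩ := hnil i
            refine ⟨m, ?_⟩
            rintro y ⟨v, hv, e1⟩
            obtain ⟨v', hv', e2⟩ := hm v hv
            obtain ⟨y', e3⟩ := ih v' hv'
            have hgpow : ∀ (k : ℕ) (x : X), g ((N i ^ k) x) = (N' i ^ k) (g x) := by
              intro k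
              induction k with
              | zero => intro x; simp
              | succ k ihk =>
                intro x
                rw [pow_succ, Module.End.mul_apply, ihk, hgN, pow_succ, Module.End.mul_apply]
            have e4 : ϖ ^ n • ((N' i ^ m) y) = ϖ ^ n • (ϖ • y') := by
              rw [← map_smul, ← e1, ← hgpow, e2, map_smul, e3, smul_comm]
            have e5 : (N' i ^ m) y - ϖ • y' = 0 := by
              apply htfn n
              rw [smul_sub, e4, sub_self]
            exact mem_divSub.mpr ⟨y', sub_eq_zero.mp e5⟩)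
          hz₀ hz₀'
        apply hz'
        apply hfull z _ hker
        obtain ⟨v, hv, e1⟩ := hz
        apply htfn n
        rw [← map_smul, ← e1, heg]
      intro v hv
      obtain ⟨y, e1⟩ := ih v hv
      obtain ⟨y', e2⟩ := mem_divSub.mp (hSB y ⟨v, hv, e1⟩)
      exact ⟨y', by rw [e1, e2, pow_succ, mul_smul]⟩
  intro x hx
  have h0 : g x = 0 := hsep _ (key · x hx)
  have : f x - e' (f x) = 0 := h0
  exact (sub_eq_zero.mp this).symm

end Nat

end Fermat.Agent.S59.H105

end
-- ===== PACK-END S59/H105/LocAbs.lean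

-- ===== PACK-BEGIN S59/H105/CtrlCore.lean
section


/-!
# Row S59, cell TW, leaf TW-CTRL (helper105): the abstract core (Mathlib only)

Level `N` module `HN`, level `N q` module `HQ` (`q ∤ N`), degeneracy maps `r₁, r₂ : HN → HQ`,
transfers `t₁, t₂ : HQ → HN`, `T = T_q` on `HN`, `U = U_q` on `HQ`, all linear over a
commutative ring `Λ`, satisfying the identities `DegRel`:

* `t₁ r₁ = t₂ r₂ = q + 1`, `t₁ r₂ = t₂ r₁ = T`;
* `U r₁ = r₁ T - r₂`, `U r₂ = q r₁`;
* `U² = 1 + U r₁ t₂ - r₁ t₁`  (so `U² = 1` on the new part `ker t₁ ∩ ker t₂`).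

`X ⊆ HN` a submodule on which `T = a + b`, `a b = q` (`HenselPair`).  Then `s_a x = r₂ x - r₁ (a x)`
satisfies `U s_a = s_a a`, `t₂ s_a = 1 - a²`, `t₁ s_a = b (1 - a²)`.

Main results (`ϖ ∈ Λ`, `α ∈ Λ`):

* `exists_eq_sOld_of_nilp` : if `P ⊆ HQ` is `U`-stable, `t₁ P, t₂ P ⊆ X`, `U² - 1` is onto on `P`,
  `U - α` is nilpotent modulo `ϖ` on `P`, and `a - b`, `1 - b²`, `b - α` are bijective on `X`,
  `X` `ϖ`-adically separated, then `P ⊆ s_a (X)`;
* `sOld_mem_of_compl` : if `s_a (X) ⊆ P ⊕ P'` with `U - α` bijective on `P'` (and `a - α`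
  nilpotent modulo `ϖ` on `X`), then `s_a (X) ⊆ P`;
* `ctrl_t₂` : under both sets of hypotheses `t₂ : P → X` is bijective;
* `new_UU` : `t₁ y = 0`, `t₂ y = 0` imply `U (U y) = y`.

No Galois representation is used: the new part dies in `P` because `U² = 1` there while
`U² - 1` is bijective on `P`.
-/

set_option autoImplicit false

namespace Fermat.Agent.S59.H105

section Generic

variable {Λ : Type*} [CommRing Λ] {M : Type*} [AddCommGroup M] [Module Λ M]

/-- `f` maps the submodule `X` bijectively onto itself. -/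
structure BijOnSub (f : M →ₗ[Λ] M) (X : Submodule Λ M) : Prop where
  mem : ∀ x ∈ X, f x ∈ X
  inj : ∀ x ∈ X, f x = 0 → x = 0
  surj : ∀ x ∈ X, ∃ x' ∈ X, f x' = x

/-- `X` is `ϖ`-adically separated. -/
def SepOn (X : Submodule Λ M) (ϖ : Λ) : Prop :=
  ∀ x ∈ X, (∀ n : ℕ, ∃ z ∈ X, x = ϖ ^ n • z) → x = 0

/-- `f` preserves `X` and is nilpotent modulo `ϖ` on `X`. -/
def NilpOn (f : M →ₗ[Λ] M) (X : Submodule Λ M) (ϖ : Λ) : Prop :=
  (∀ x ∈ X, f x ∈ X) ∧ ∃ m : ℕ, ∀ x ∈ X, ∃ z ∈ X, f^[m] x = ϖ • z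

/-- `f - α`. -/
def shiftBy (f : M →ₗ[Λ] M) (α : Λ) : M →ₗ[Λ] M := f - α • LinearMap.id

theorem shiftBy_apply (f : M →ₗ[Λ] M) (α : Λ) (x : M) : shiftBy f α x = f x - α • x := rfl

/-- `1 - f²`. -/
def oneSubSq (f : M →ₗ[Λ] M) : M →ₗ[Λ] M := LinearMap.id - f.comp f

theorem oneSubSq_apply (f : M →ₗ[Λ] M) (x : M) : oneSubSq f x = x - f (f x) := rfl

theorem iterate_smul_apply (f : M →ₗ[Λ] M) (k : ℕ) (c : Λ) (x : M) :
    f^[k] (c • x) = c • f^[k] x := by
  induction k generalizing x with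
  | zero => rfl
  | succ k ih => rw [Function.iterate_succ_apply, Function.iterate_succ_apply, map_smul, ih]

theorem iterate_add_apply' (f : M →ₗ[Λ] M) (k : ℕ) (x y : M) :
    f^[k] (x + y) = f^[k] x + f^[k] y := by
  induction k generalizing x y with
  | zero => rfl
  | succ k ih => simp only [Function.iterate_succ_apply, map_add, ih]

theorem iterate_mem (f : M →ₗ[Λ] M) (X : Submodule Λ M) (hf : ∀ x ∈ X, f x ∈ X) (k : ℕ) :
    ∀ x ∈ X, f^[k] x ∈ X := by
  induction k with
  | zero => exact fun x hx => hx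
  | succ k ih =>
    intro x hx
    rw [Function.iterate_succ_apply']
    exact hf _ (ih x hx)

theorem BijOnSub.pullback {f : M →ₗ[Λ] M} {X : Submodule Λ M} (hf : BijOnSub f X) (c : Λ)
    {x z : M} (hx : x ∈ X) (hz : z ∈ X) (e : f x = c • z) : ∃ z' ∈ X, x = c • z' := by
  obtain ⟨z', hz', e'⟩ := hf.surj z hz
  refine ⟨z', hz', ?_⟩
  have h0 : f (x - c • z') = 0 := by rw [map_sub, map_smul, e', e, sub_self]
  exact sub_eq_zero.mp (hf.inj _ (X.sub_mem hx (X.smul_mem c hz')) h0)

theorem BijOnSub.pullback_iterate {f : M →ₗ[Λ] M} {X : Submodule Λ M} (hf : BijOnSub f X)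
    (c : Λ) (k : ℕ) : ∀ {x z : M}, x ∈ X → z ∈ X → f^[k] x = c • z → ∃ z' ∈ X, x = c • z' := by
  induction k with
  | zero => exact fun {x z} _ hz e => ⟨z, hz, e⟩
  | succ k ih =>
    intro x z hx hz e
    rw [Function.iterate_succ_apply] at e
    obtain ⟨z₁, hz₁, e₁⟩ := ih (hf.mem x hx) hz e
    exact hf.pullback c hx hz₁ e₁

theorem NilpOn.pow {f : M →ₗ[Λ] M} {X : Submodule Λ M} {ϖ : Λ} (hf : NilpOn f X ϖ) (n : ℕ) :
    ∃ k : ℕ, ∀ x ∈ X, ∃ z ∈ X, f^[k] x = ϖ ^ n • z := by
  obtain ⟨hmem, m, hm⟩ := hf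
  induction n with
  | zero => exact ⟨0, fun x hx => ⟨x, hx, by simp⟩⟩
  | succ n ih =>
    obtain ⟨k, hk⟩ := ih
    refine ⟨k + m, fun x hx => ?_⟩
    obtain ⟨z, hz, e⟩ := hm x hx
    obtain ⟨z', hz', e'⟩ := hk z hz
    refine ⟨z', hz', ?_⟩
    rw [Function.iterate_add_apply, e, iterate_smul_apply, e', smul_smul, pow_succ']

end Generic

section Core

variable {Λ : Type*} [CommRing Λ] {HN HQ : Type*} [AddCommGroup HN] [Module Λ HN]
  [AddCommGroup HQ] [Module Λ HQ]

/-- The operator identities between level `N` (`HN`) and level `N q` (`HQ`). -/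
structure DegRel (q : ℕ) (r₁ r₂ : HN →ₗ[Λ] HQ) (t₁ t₂ : HQ →ₗ[Λ] HN) (T : HN →ₗ[Λ] HN)
    (U : HQ →ₗ[Λ] HQ) : Prop where
  t₁r₁ : ∀ x, t₁ (r₁ x) = (q + 1) • x
  t₂r₂ : ∀ x, t₂ (r₂ x) = (q + 1) • x
  t₁r₂ : ∀ x, t₁ (r₂ x) = T x
  t₂r₁ : ∀ x, t₂ (r₁ x) = T x
  Ur₁ : ∀ x, U (r₁ x) = r₁ (T x) - r₂ x
  Ur₂ : ∀ x, U (r₂ x) = q • r₁ x
  UU : ∀ y, U (U y) = y + U (r₁ (t₂ y)) - r₁ (t₁ y)

/-- On the submodule `X` the operator `T` splits: `T = a + b`, `a b = b a = q`. -/
structure HenselPair (X : Submodule Λ HN) (q : ℕ) (T a b : HN →ₗ[Λ] HN) : Prop where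
  T_mem : ∀ x ∈ X, T x ∈ X
  a_mem : ∀ x ∈ X, a x ∈ X
  b_mem : ∀ x ∈ X, b x ∈ X
  add : ∀ x ∈ X, a x + b x = T x
  ab : ∀ x ∈ X, a (b x) = q • x
  ba : ∀ x ∈ X, b (a x) = q • x

theorem HenselPair.symm {X : Submodule Λ HN} {q : ℕ} {T a b : HN →ₗ[Λ] HN}
    (hp : HenselPair X q T a b) : HenselPair X q T b a where
  T_mem := hp.T_mem
  a_mem := hp.b_mem
  b_mem := hp.a_mem
  add x hx := by rw [add_comm]; exact hp.add x hx
  ab := hp.ba
  ba := hp.ab

/-- `s_a x = r₂ x - r₁ (a x)`: the `U = a` eigen-embedding of the old space. -/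
def sOld (r₁ r₂ : HN →ₗ[Λ] HQ) (a : HN →ₗ[Λ] HN) : HN →ₗ[Λ] HQ := r₂ - r₁.comp a

theorem sOld_apply (r₁ r₂ : HN →ₗ[Λ] HQ) (a : HN →ₗ[Λ] HN) (x : HN) :
    sOld r₁ r₂ a x = r₂ x - r₁ (a x) := rfl

variable {q : ℕ} {r₁ r₂ : HN →ₗ[Λ] HQ} {t₁ t₂ : HQ →ₗ[Λ] HN} {T : HN →ₗ[Λ] HN}
  {U : HQ →ₗ[Λ] HQ} {X : Submodule Λ HN} {a b : HN →ₗ[Λ] HN}

/-- `U² = 1` on the new part. -/
theorem new_UU (h : DegRel q r₁ r₂ t₁ t₂ T U) {y : HQ} (h₁ : t₁ y = 0) (h₂ : t₂ y = 0) :
    U (U y) = y := by
  rw [h.UU, h₁, h₂]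
  simp

/-- `(U² - 1) y` is old. -/
theorem UU_sub (h : DegRel q r₁ r₂ t₁ t₂ T U) (y : HQ) :
    U (U y) - y = r₁ (T (t₂ y) - t₁ y) + r₂ (-(t₂ y)) := by
  rw [h.UU, h.Ur₁, map_sub, map_neg]
  abel

/-- `U s_a = s_a a`. -/
theorem U_sOld (h : DegRel q r₁ r₂ t₁ t₂ T U) (hp : HenselPair X q T a b) {x : HN}
    (hx : x ∈ X) : U (sOld r₁ r₂ a x) = sOld r₁ r₂ a (a x) := by
  have e1 : T (a x) = a (a x) + q • x := by
    rw [← hp.add (a x) (hp.a_mem x hx), hp.ba x hx]
  rw [sOld_apply, sOld_apply, map_sub, h.Ur₂, h.Ur₁, e1, map_add, map_nsmul]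
  abel

/-- `t₂ s_a = 1 - a²`. -/
theorem t₂_sOld (h : DegRel q r₁ r₂ t₁ t₂ T U) (hp : HenselPair X q T a b) {x : HN}
    (hx : x ∈ X) : t₂ (sOld r₁ r₂ a x) = x - a (a x) := by
  have e1 : T (a x) = a (a x) + q • x := by
    rw [← hp.add (a x) (hp.a_mem x hx), hp.ba x hx]
  rw [sOld_apply, map_sub, h.t₂r₂, h.t₂r₁, e1, add_smul, one_smul]
  abel

/-- `t₁ s_a = b (1 - a²)`. -/
theorem t₁_sOld (h : DegRel q r₁ r₂ t₁ t₂ T U) (hp : HenselPair X q T a b) {x : HN}
    (hx : x ∈ X) : t₁ (sOld r₁ r₂ a x) = b (x - a (a x)) := by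
  have e1 : b (a (a x)) = q • a x := hp.ba (a x) (hp.a_mem x hx)
  rw [sOld_apply, map_sub, h.t₁r₂, h.t₁r₁, map_sub, e1, ← hp.add x hx, add_smul, one_smul]
  abel

/-- `(t₁ - b t₂) s_a = 0`. -/
theorem ell_sOld_self (h : DegRel q r₁ r₂ t₁ t₂ T U) (hp : HenselPair X q T a b) {x : HN}
    (hx : x ∈ X) : t₁ (sOld r₁ r₂ a x) - b (t₂ (sOld r₁ r₂ a x)) = 0 := by
  rw [t₁_sOld h hp hx, t₂_sOld h hp hx, sub_self]

/-- `(t₁ - b t₂) s_b = (a - b) (1 - b²)`. -/
theorem ell_sOld_other (h : DegRel q r₁ r₂ t₁ t₂ T U) (hp : HenselPair X q T a b) {x : HN}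
    (hx : x ∈ X) : t₁ (sOld r₁ r₂ b x) - b (t₂ (sOld r₁ r₂ b x)) =
      (a - b) ((oneSubSq b) x) := by
  rw [t₁_sOld h hp.symm hx, t₂_sOld h hp.symm hx]
  simp only [LinearMap.sub_apply, oneSubSq_apply, map_sub]
  abel

/-- Every old class `r₁ x₁ + r₂ x₂` (`x₁, x₂ ∈ X`) is `s_a u + s_b v` (`a - b` onto on `X`). -/
theorem old_eq_sOld_add (hp : HenselPair X q T a b) (hab : BijOnSub (a - b) X) {x₁ x₂ : HN}
    (hx₁ : x₁ ∈ X) (hx₂ : x₂ ∈ X) :
    ∃ u ∈ X, ∃ v ∈ X, r₁ x₁ + r₂ x₂ = sOld r₁ r₂ a u + sOld r₁ r₂ b v := by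
  obtain ⟨v, hv, ev⟩ := hab.surj (x₁ + a x₂) (X.add_mem hx₁ (hp.a_mem _ hx₂))
  refine ⟨x₂ - v, X.sub_mem hx₂ hv, v, hv, ?_⟩
  have e1 : x₁ = a v - b v - a x₂ := by
    rw [LinearMap.sub_apply] at ev
    rw [ev]
    abel
  rw [sOld_apply, sOld_apply, e1]
  simp only [map_sub]
  abel

/-- `(U - α) s_a = s_a (a - α)`. -/
theorem sub_smul_sOld (h : DegRel q r₁ r₂ t₁ t₂ T U) (hp : HenselPair X q T a b) (α : Λ)
    {x : HN} (hx : x ∈ X) :
    (shiftBy U α) (sOld r₁ r₂ a x) = sOld r₁ r₂ a ((shiftBy a α) x) := by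
  rw [shiftBy_apply, shiftBy_apply, U_sOld h hp hx, map_sub, map_smul]

theorem sub_smul_mem (hp : HenselPair X q T a b) (α : Λ) {x : HN} (hx : x ∈ X) :
    (shiftBy a α) x ∈ X := by
  rw [shiftBy_apply]
  exact X.sub_mem (hp.a_mem x hx) (X.smul_mem α hx)

/-- `(U - α)^k s_a = s_a (a - α)^k`. -/
theorem iterate_sub_smul_sOld (h : DegRel q r₁ r₂ t₁ t₂ T U) (hp : HenselPair X q T a b)
    (α : Λ) (k : ℕ) : ∀ {x : HN}, x ∈ X →
    (shiftBy U α)^[k] (sOld r₁ r₂ a x) =
      sOld r₁ r₂ a ((shiftBy a α)^[k] x) := by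
  induction k with
  | zero => exact fun {x} _ => rfl
  | succ k ih =>
    intro x hx
    rw [Function.iterate_succ_apply, Function.iterate_succ_apply, sub_smul_sOld h hp α hx,
      ih (sub_smul_mem hp α hx)]

/-- **The `U ≡ α` part is old and lies in `s_a (X)`.** -/
theorem exists_eq_sOld_of_nilp (h : DegRel q r₁ r₂ t₁ t₂ T U) (hp : HenselPair X q T a b)
    (α ϖ : Λ) (hab : BijOnSub (a - b) X) (hb2 : BijOnSub (oneSubSq b) X)
    (hbα : BijOnSub (shiftBy b α) X) (hsep : SepOn X ϖ)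
    (P : Submodule Λ HQ) (ht₁ : ∀ y ∈ P, t₁ y ∈ X) (ht₂ : ∀ y ∈ P, t₂ y ∈ X)
    (hsurj : ∀ y ∈ P, ∃ y' ∈ P, U (U y') - y' = y)
    (hnil : NilpOn (shiftBy U α) P ϖ) :
    ∀ y ∈ P, ∃ u ∈ X, y = sOld r₁ r₂ a u := by
  intro y hy
  obtain ⟨y', hy', e⟩ := hsurj y hy
  have hx₁ : T (t₂ y') - t₁ y' ∈ X := X.sub_mem (hp.T_mem _ (ht₂ y' hy')) (ht₁ y' hy')
  have hx₂ : -(t₂ y') ∈ X := X.neg_mem (ht₂ y' hy')
  obtain ⟨u, hu, v, hv, euv⟩ := old_eq_sOld_add (r₁ := r₁) (r₂ := r₂) hp hab hx₁ hx₂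
  have ey : y = sOld r₁ r₂ a u + sOld r₁ r₂ b v := by rw [← e, UU_sub h, euv]
  -- `v = 0`
  have hv0 : v = 0 := by
    apply hsep v hv
    intro n
    obtain ⟨k, hk⟩ := hnil.pow n
    obtain ⟨z, hz, ez⟩ := hk y hy
    -- apply `t₁ - b t₂`
    have e1 : (shiftBy U α)^[k] y =
        sOld r₁ r₂ a ((shiftBy a α)^[k] u) +
          sOld r₁ r₂ b ((shiftBy b α)^[k] v) := by
      rw [ey, ← iterate_sub_smul_sOld h hp α k hu, ← iterate_sub_smul_sOld h hp.symm α k hv,
        iterate_add_apply']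
    have hu' : (shiftBy a α)^[k] u ∈ X :=
      iterate_mem _ X (fun x hx => sub_smul_mem hp α hx) k u hu
    have hv' : (shiftBy b α)^[k] v ∈ X :=
      iterate_mem _ X (fun x hx => sub_smul_mem hp.symm α hx) k v hv
    have e2 : (a - b) ((oneSubSq b) ((shiftBy b α)^[k] v)) =
        ϖ ^ n • (t₁ z - b (t₂ z)) := by
      rw [← ell_sOld_other h hp hv']
      have e3 := ell_sOld_self h hp hu'
      have e4 : sOld r₁ r₂ b ((shiftBy b α)^[k] v) =
          ϖ ^ n • z - sOld r₁ r₂ a ((shiftBy a α)^[k] u) := by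
        rw [← ez, e1]
        abel
      rw [e4]
      simp only [map_sub, map_smul]
      rw [sub_sub_sub_comm, e3, sub_zero, smul_sub]
    have hz' : t₁ z - b (t₂ z) ∈ X := X.sub_mem (ht₁ z hz) (hp.b_mem _ (ht₂ z hz))
    obtain ⟨z₁, hz₁, e5⟩ := hab.pullback (ϖ ^ n) (hb2.mem _ hv') hz' e2
    obtain ⟨z₂, hz₂, e6⟩ := hb2.pullback (ϖ ^ n) hv' hz₁ e5
    exact hbα.pullback_iterate (ϖ ^ n) k hv hz₂ e6
  refine ⟨u, hu, ?_⟩
  rw [ey, hv0, map_zero, add_zero]

/-- **`s_a (X)` lies in the `U ≡ α` part.** -/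
theorem sOld_mem_of_compl (h : DegRel q r₁ r₂ t₁ t₂ T U) (hp : HenselPair X q T a b)
    (α ϖ : Λ) (hnil : NilpOn (shiftBy a α) X ϖ)
    (P P' : Submodule Λ HQ) (hPU : ∀ y ∈ P, U y ∈ P) (hdisj : ∀ y ∈ P, y ∈ P' → y = 0)
    (hbij : BijOnSub (shiftBy U α) P') (hsep : SepOn P' ϖ)
    (hsum : ∀ x ∈ X, ∃ y₁ ∈ P, ∃ y₂ ∈ P', sOld r₁ r₂ a x = y₁ + y₂) :
    ∀ x ∈ X, sOld r₁ r₂ a x ∈ P := by
  intro x hx
  obtain ⟨y₁, hy₁, y₂, hy₂, e⟩ := hsum x hx
  have hPN : ∀ y ∈ P, (shiftBy U α) y ∈ P := by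
    intro y hy
    rw [shiftBy_apply]
    exact P.sub_mem (hPU y hy) (P.smul_mem α hy)
  have hy₂0 : y₂ = 0 := by
    apply hsep y₂ hy₂
    intro n
    obtain ⟨k, hk⟩ := hnil.pow n
    obtain ⟨z, hz, ez⟩ := hk x hx
    obtain ⟨z₁, hz₁, z₂, hz₂, ez'⟩ := hsum z hz
    have e1 : (shiftBy U α)^[k] (sOld r₁ r₂ a x) = ϖ ^ n • z₁ + ϖ ^ n • z₂ := by
      rw [iterate_sub_smul_sOld h hp α k hx, ez, map_smul, ez', smul_add]
    have e2 : (shiftBy U α)^[k] (sOld r₁ r₂ a x) =
        (shiftBy U α)^[k] y₁ + (shiftBy U α)^[k] y₂ := by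
      rw [e, iterate_add_apply']
    have m1 : (shiftBy U α)^[k] y₁ ∈ P := iterate_mem _ P hPN k y₁ hy₁
    have m2 : (shiftBy U α)^[k] y₂ ∈ P' := iterate_mem _ P' hbij.mem k y₂ hy₂
    have e3 : (shiftBy U α)^[k] y₁ - ϖ ^ n • z₁ =
        ϖ ^ n • z₂ - (shiftBy U α)^[k] y₂ := by
      rw [sub_eq_sub_iff_add_eq_add, ← e2, e1, add_comm]
    have e4 : ϖ ^ n • z₂ - (shiftBy U α)^[k] y₂ = 0 := by
      apply hdisj
      · rw [← e3]
        exact P.sub_mem m1 (P.smul_mem _ hz₁)
      · exact P'.sub_mem (P'.smul_mem _ hz₂) m2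
    exact hbij.pullback_iterate (ϖ ^ n) k hy₂ hz₂ (sub_eq_zero.mp e4).symm
  rw [e, hy₂0, add_zero]
  exact hy₁

/-- **TW-CTRL, abstract form.**  `t₂` maps the `U ≡ α` part `P` of level `N q` bijectively onto
the part `X` of level `N`, and `P = s_a (X)`. -/
theorem ctrl_t₂ (h : DegRel q r₁ r₂ t₁ t₂ T U) (hp : HenselPair X q T a b)
    (α ϖ : Λ) (hab : BijOnSub (a - b) X) (ha2 : BijOnSub (oneSubSq a) X)
    (hb2 : BijOnSub (oneSubSq b) X)
    (hbα : BijOnSub (shiftBy b α) X) (hsep : SepOn X ϖ)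
    (hnila : NilpOn (shiftBy a α) X ϖ)
    (P P' : Submodule Λ HQ) (ht₁ : ∀ y ∈ P, t₁ y ∈ X) (ht₂ : ∀ y ∈ P, t₂ y ∈ X)
    (hsurj : ∀ y ∈ P, ∃ y' ∈ P, U (U y') - y' = y)
    (hnil : NilpOn (shiftBy U α) P ϖ)
    (hdisj : ∀ y ∈ P, y ∈ P' → y = 0)
    (hbij : BijOnSub (shiftBy U α) P') (hsep' : SepOn P' ϖ)
    (hsum : ∀ x ∈ X, ∃ y₁ ∈ P, ∃ y₂ ∈ P', sOld r₁ r₂ a x = y₁ + y₂) :
    (∀ y ∈ P, ∃ u ∈ X, y = sOld r₁ r₂ a u) ∧ (∀ x ∈ X, sOld r₁ r₂ a x ∈ P) ∧
    (∀ y ∈ P, t₂ y = 0 → y = 0) ∧ (∀ x ∈ X, ∃ y ∈ P, t₂ y = x) := by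
  have hC := exists_eq_sOld_of_nilp h hp α ϖ hab hb2 hbα hsep P ht₁ ht₂ hsurj hnil
  have hPU : ∀ y ∈ P, U y ∈ P := by
    intro y hy
    have := hnil.1 y hy
    rw [shiftBy_apply] at this
    have h2 := P.add_mem this (P.smul_mem α hy)
    rwa [sub_add_cancel] at h2
  have hD := sOld_mem_of_compl h hp α ϖ hnila P P' hPU hdisj hbij hsep' hsum
  refine ⟨hC, hD, ?_, ?_⟩
  · intro y hy e
    obtain ⟨u, hu, rfl⟩ := hC y hy
    rw [t₂_sOld h hp hu] at e
    have : u = 0 := ha2.inj u hu (by rw [oneSubSq_apply]; exact e)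
    rw [this, map_zero]
  · intro x hx
    obtain ⟨u, hu, eu⟩ := ha2.surj x hx
    refine ⟨sOld r₁ r₂ a u, hD u hu, ?_⟩
    rw [t₂_sOld h hp hu, ← eu, oneSubSq_apply]

end Core

end Fermat.Agent.S59.H105

end
-- ===== PACK-END S59/H105/CtrlCore.lean

-- ===== PACK-BEGIN S59/MFree/H565/FixedPoint.lean
section


/-!
# S59 / M-FREE, leaf (E): the fixed point lemma for `p`-groups on `p`-torsion modules (helper565)

`exists_fixed_ne_zero` : a finite `p`-group `D` acting linearly on a module `W` killed by `p`; every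
nonzero `D`-stable additive subgroup `S` of `W` contains a nonzero `D`-fixed vector.
-/

set_option autoImplicit false

namespace Fermat.Agent.S59.MFree.H565

open MulAction

section FP

variable {p : ℕ} [Fact p.Prime] {D : Type*} [Group D] [Finite D]
  {k W : Type*} [CommRing k] [AddCommGroup W] [Module k W]

/-- **Fixed point lemma.**  `D` a finite `p`-group, `ρ` a representation on a module killed by
`p`, `S` a `D`-stable additive subgroup with a nonzero element: then `S` contains a nonzero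
`D`-fixed vector. -/
theorem exists_fixed_ne_zero (hD : IsPGroup p D) (ρ : Representation k D W)
    (hp : ∀ x : W, p • x = 0) (S : AddSubgroup W) (hS : ∀ d, ∀ x ∈ S, ρ d x ∈ S)
    (w : W) (hwS : w ∈ S) (hw : w ≠ 0) :
    ∃ x ∈ S, x ≠ 0 ∧ ∀ d, ρ d x = x := by
  classical
  -- the ℤ-span of the orbit of `w`
  let s : Set W := Set.range fun d : D => ρ d w
  have hsfin : s.Finite := Set.finite_range _
  let H : Submodule ℤ W := Submodule.span ℤ s
  have hwH : w ∈ H := Submodule.subset_span ⟨1, by simp⟩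
  have hHS : ∀ x ∈ H, x ∈ S := by
    intro x hx
    induction hx using Submodule.span_induction with
    | mem x hx =>
      obtain ⟨d, rfl⟩ := hx
      exact hS d w hwS
    | zero => exact S.zero_mem
    | add x y _ _ hx hy => exact S.add_mem hx hy
    | smul a x _ hx => exact S.zsmul_mem hx a
  have hHstab : ∀ d, ∀ x ∈ H, ρ d x ∈ H := by
    intro d x hx
    induction hx using Submodule.span_induction with
    | mem x hx =>
      obtain ⟨e, rfl⟩ := hx
      refine Submodule.subset_span ⟨d * e, ?_⟩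
      simp [map_mul]
    | zero => simp
    | add x y _ _ hx hy => rw [map_add]; exact H.add_mem hx hy
    | smul a x _ hx => rw [map_zsmul]; exact H.smul_mem a hx
  haveI : Module.Finite ℤ H := Module.Finite.span_of_finite ℤ hsfin
  have htors : Module.IsTorsion ℤ H := by
    intro x
    refine ⟨⟨(p : ℤ), mem_nonZeroDivisors_of_ne_zero (by exact_mod_cast (Fact.out : p.Prime).ne_zero)⟩, ?_⟩
    apply Subtype.ext
    show ((p : ℤ) • x : H).1 = 0
    rw [Submodule.coe_smul, natCast_zsmul]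
    exact hp x.1
  haveI : Finite H := Module.finite_of_fg_torsion H htors
  -- the action of `D` on `H`
  letI : MulAction D H :=
    { smul := fun d x => ⟨ρ d x.1, hHstab d x.1 x.2⟩
      one_smul := fun x => Subtype.ext (by show ρ 1 x.1 = x.1; simp)
      mul_smul := fun d e x => Subtype.ext (by show ρ (d * e) x.1 = ρ d (ρ e x.1); simp [map_mul]) }
  have hsmul : ∀ (d : D) (x : H), ((d • x : H) : W) = ρ d x.1 := fun d x => rfl
  -- `p` divides the cardinality of `H`
  have hcard : p ∣ Nat.card H := by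
    have h1 : addOrderOf (⟨w, hwH⟩ : H) = p := by
      apply addOrderOf_eq_prime
      · apply Subtype.ext
        show (p • (⟨w, hwH⟩ : H)).1 = 0
        rw [Submodule.coe_smul_of_tower]
        exact hp w
      · intro h
        exact hw (congrArg Subtype.val h)
    rw [← h1]
    exact addOrderOf_dvd_natCard _
  have h0 : (0 : H) ∈ fixedPoints D H := by
    intro d
    apply Subtype.ext
    rw [hsmul]
    simp
  obtain ⟨b, hb, hb0⟩ := hD.exists_fixed_point_of_prime_dvd_card_of_fixed_point H hcard h0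
  refine ⟨b.1, hHS _ b.2, fun h => hb0 (Subtype.ext h.symm), fun d => ?_⟩
  have := hb d
  exact congrArg Subtype.val this

end FP

end Fermat.Agent.S59.MFree.H565

end
-- ===== PACK-END S59/MFree/H565/FixedPoint.lean

-- ===== PACK-BEGIN S59/H294/UnipNormal.lean
section


/-!
# Row S59, cell LO, leaf ResUnram — linear algebra core (helper294)

`eq_one_of_unipotent_normal294`: a normal subgroup `H` of `G` acting on an irreducible
2-dimensional representation through unipotent operators acts trivially.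
(No Brauer–Nesbitt: only the identity `(ρ(h h') - 1)² = 0`.)
-/

set_option autoImplicit false

namespace Fermat.Agent.S59.H294

variable {k V G : Type*} [Field k] [AddCommGroup V] [Module k V] [Group G]

/-- In a plane, if `N ≠ 0` and `N² = 0`, then `ker N` is spanned by any nonzero vector of
the image. -/
theorem exists_smul_eq_of_sq_zero294 (hV : Module.finrank k V = 2) (N : Module.End k V)
    (hN2 : ∀ x, N (N x) = 0) (w : V) (hw : N w ≠ 0) (x : V) (hx : N x = 0) :
    ∃ a : k, x = a • N w := by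
  classical
  have hfin : Module.Finite k V := Module.finite_of_finrank_eq_succ hV
  -- `N w`, `w` are linearly independent
  have hli : LinearIndependent k ![N w, w] := by
    rw [LinearIndependent.pair_iff]
    intro s t hst
    have h1 : t • N w = 0 := by
      have := congrArg N hst
      rw [map_add, map_smul, map_smul, hN2 w, smul_zero, zero_add, map_zero] at this
      exact this
    have ht : t = 0 := by
      rcases smul_eq_zero.mp h1 with h | h
      · exact h
      · exact absurd h hw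
    rw [ht, zero_smul, add_zero] at hst
    have hs : s = 0 := by
      rcases smul_eq_zero.mp hst with h | h
      · exact h
      · exact absurd h hw
    exact ⟨hs, ht⟩
  have hspan : Submodule.span k (Set.range ![N w, w]) = ⊤ :=
    hli.span_eq_top_of_card_eq_finrank' (by rw [hV]; rfl)
  have hx' : x ∈ Submodule.span k (Set.range ![N w, w]) := by rw [hspan]; trivial
  rw [Matrix.range_cons, Matrix.range_cons, Matrix.range_empty, Set.union_empty,
    Set.singleton_union, Submodule.mem_span_pair] at hx'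
  obtain ⟨a, b, hab⟩ := hx'
  have hb : b • N w = 0 := by
    have := congrArg N hab
    rw [map_add, map_smul, map_smul, hN2 w, smul_zero, zero_add, hx] at this
    exact this
  have hb0 : b = 0 := by
    rcases smul_eq_zero.mp hb with h | h
    · exact h
    · exact absurd h hw
  refine ⟨a, ?_⟩
  rw [← hab, hb0, zero_smul, add_zero]

/-- **Key computation.**  `N₀, N'` endomorphisms of a plane with `N₀² = N'² = 0`, `N₀ ≠ 0`, and
`(N₀ + N' + N₀ N')² = 0`.  Then `N'` kills `ker N₀`. -/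
theorem apply_eq_zero_of_sq_zero294 (hV : Module.finrank k V = 2) (N₀ N' : Module.End k V)
    (h0 : ∀ x, N₀ (N₀ x) = 0) (h1 : ∀ x, N' (N' x) = 0)
    (h01 : ∀ x, (N₀ + N' + N₀ * N') ((N₀ + N' + N₀ * N') x) = 0)
    (hne : N₀ ≠ 0) (x : V) (hx : N₀ x = 0) : N' x = 0 := by
  classical
  obtain ⟨w, hw⟩ : ∃ w, N₀ w ≠ 0 := by
    by_contra hcon
    exact hne (LinearMap.ext fun y => not_not.mp (not_exists.mp hcon y))
  set v := N₀ w with hv
  have hv0 : N₀ v = 0 := h0 w
  -- it suffices to treat `x = v`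
  obtain ⟨a, rfl⟩ := exists_smul_eq_of_sq_zero294 hV N₀ h0 w hw x hx
  suffices hu : N' v = 0 by rw [map_smul, hu, smul_zero]
  set u := N' v with hu
  have hNu : N' u = 0 := h1 v
  obtain ⟨c, hc⟩ : ∃ c : k, N₀ u = c • v :=
    exists_smul_eq_of_sq_zero294 hV N₀ h0 w hw (N₀ u) (h0 u)
  -- `M v = u + c v`
  have hMv : (N₀ + N' + N₀ * N') v = u + c • v := by
    rw [LinearMap.add_apply, LinearMap.add_apply, Module.End.mul_apply, hv0, ← hu, hc, zero_add]
  have hMu : (N₀ + N' + N₀ * N') u = c • v := by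
    rw [LinearMap.add_apply, LinearMap.add_apply, Module.End.mul_apply, hNu, map_zero, hc,
      add_zero, add_zero]
  have hM2 : (c + c * c) • v + c • u = 0 := by
    have h := h01 v
    rw [hMv, map_add, map_smul, hMu, hMv] at h
    rw [← h]
    module
  by_cases hc0 : c = 0
  · -- `u ∈ ker N₀`, so `u = a v`, and `N' v = a v` with `N'` nilpotent
    rw [hc0, zero_smul] at hc
    obtain ⟨b, hb⟩ := exists_smul_eq_of_sq_zero294 hV N₀ h0 w hw u hc
    have h2 : b • u = 0 := by
      have := hNu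
      rw [hb, map_smul, ← hu] at this
      exact this
    rcases smul_eq_zero.mp h2 with h | h
    · rw [hb, h, zero_smul]
    · exact h
  · exfalso
    -- `u = -(1 + c) v`, hence `N₀ u = 0`, hence `c v = 0`
    have hu' : u = (-(1 + c)) • v := by
      have h3 : c • (u + (1 + c) • v) = 0 := by
        rw [← hM2]
        module
      rcases smul_eq_zero.mp h3 with h | h
      · exact absurd h hc0
      · rw [neg_smul]
        exact eq_neg_of_add_eq_zero_left h
    have h4 : N₀ u = 0 := by rw [hu', map_smul, hv0, smul_zero]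
    rw [h4] at hc
    rcases smul_eq_zero.mp hc.symm with h | h
    · exact hc0 h
    · exact hw h

/-- **A normal subgroup acting unipotently on an irreducible plane acts trivially.** -/
theorem eq_one_of_unipotent_normal294 (hV : Module.finrank k V = 2) (ρ : G →* Module.End k V)
    (hirr : ∀ W : Submodule k V, (∀ (g : G), ∀ x ∈ W, ρ g x ∈ W) → W = ⊥ ∨ W = ⊤)
    (H : Subgroup G) [hHn : H.Normal]
    (hH : ∀ h ∈ H, ∀ x, (ρ h - 1) ((ρ h - 1) x) = 0) :
    ∀ h ∈ H, ρ h = 1 := by
  classical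
  intro h₀ hh₀
  by_contra hne
  have hne' : ρ h₀ - 1 ≠ 0 := fun h => hne (sub_eq_zero.mp h)
  -- every element of `H` kills `ker (ρ h₀ - 1)`
  have hkill : ∀ h' ∈ H, ∀ x, (ρ h₀ - 1) x = 0 → (ρ h' - 1) x = 0 := by
    intro h' hh' x hx
    refine apply_eq_zero_of_sq_zero294 hV (ρ h₀ - 1) (ρ h' - 1) (hH h₀ hh₀) (hH h' hh') ?_ hne' x hx
    have hprod : (ρ h₀ - 1) + (ρ h' - 1) + (ρ h₀ - 1) * (ρ h' - 1) = ρ (h₀ * h') - 1 := by
      rw [map_mul]
      noncomm_ring
    rw [hprod]
    exact hH (h₀ * h') (H.mul_mem hh₀ hh')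
  -- so `ker (ρ h₀ - 1)` is stable
  have hstab : ∀ (g : G), ∀ x ∈ LinearMap.ker (ρ h₀ - 1), ρ g x ∈ LinearMap.ker (ρ h₀ - 1) := by
    intro g x hx
    rw [LinearMap.mem_ker] at hx ⊢
    have hconj : g⁻¹ * h₀ * g ∈ H := by
      have := hHn.conj_mem h₀ hh₀ g⁻¹
      rwa [inv_inv] at this
    have h1 := hkill _ hconj x hx
    rw [LinearMap.sub_apply, Module.End.one_apply, sub_eq_zero, map_mul, map_mul,
      Module.End.mul_apply, Module.End.mul_apply] at h1
    -- `ρ g⁻¹ (ρ h₀ (ρ g x)) = x`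
    have h2 : ρ g (ρ g⁻¹ (ρ h₀ (ρ g x))) = ρ h₀ (ρ g x) := by
      rw [← Module.End.mul_apply, ← map_mul, mul_inv_cancel, map_one, Module.End.one_apply]
    rw [h1] at h2
    rw [LinearMap.sub_apply, Module.End.one_apply, ← h2, sub_self]
  rcases hirr _ hstab with hbot | htop
  · -- the kernel is nonzero
    obtain ⟨w, hw⟩ : ∃ w, (ρ h₀ - 1) w ≠ 0 := by
      by_contra hcon
      exact hne' (LinearMap.ext fun y => not_not.mp (not_exists.mp hcon y))
    have : (ρ h₀ - 1) w ∈ LinearMap.ker (ρ h₀ - 1) := by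
      rw [LinearMap.mem_ker]
      exact hH h₀ hh₀ w
    rw [hbot, Submodule.mem_bot] at this
    exact hw this
  · exact hne' (LinearMap.ker_eq_top.mp htop)

end Fermat.Agent.S59.H294

end
-- ===== PACK-END S59/H294/UnipNormal.lean

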