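import Mathlib.RingTheory.RootsOfUnity.EnoughRootsOfUnity
import Mathlib.RingTheory.RootsOfUnity.AlgebraicallyClosed
import Mathlib
import Fermat.Prelude.Def_ModularForm_HeckeOperator
import Fermat.Prelude.Def_ModularForm_HeckeOperatorForms
import Fermat.Prelude.Def_FLTPrelim_Modularity
import Fermat.Prelude.Thm_CongruenceSubgroup_one_mem_strictPeriods_Gamma0
import Fermat.Prelude.Thm_ModularFormClass_qCoeff_heckeU
import Fermat.Prelude.Thm_IsLocalRing_isAdicComplete_of_module_finite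
import Fermat.Prelude.Thm_Algebra_finite_maximalSpectrum_and_bijective_localization_of_module_finite
import Fermat.Prelude.Def_ModularCurve_ArithmeticGalois
import Fermat.Prelude.Def_GaloisRep_StrictOrdinary
import Fermat.Prelude.Def_GaloisRep_Flat
import Fermat.Agent.Pack.S44C.G0E4L0
import Fermat.Agent.Pack.S43MC.G0E0L2
import Fermat.Agent.Pack.S43GC.G0E22L0
import Fermat.Agent.Pack.S44C.G0E21L3
import Fermat.Agent.Pack.S43MC.G1E0L0
import Fermat.Agent.Pack.S44C.G0E30L1
import Fermat.Agent.Pack.S44C.G0E30L3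
import Fermat.Agent.Pack.S44C.G0E31L0
import Fermat.Agent.Pack.Fast891

-- ===== PACK-BEGIN A2/Alg/H348/Roots.lean
section




/-!
# A2 / ALG / GLUE, `hconst` part, step 3: roots of unity in a henselian local ring

`R` henselian local with algebraically closed residue field of characteristic `q ∤ m`:
`m` is a unit of `R` and `R` contains a primitive `m`-th root of unity.
-/

set_option autoImplicit false
set_option linter.unusedSectionVars false

open Polynomial IsLocalRing

namespace Fermat.Agent.A2.Alg.H348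

variable {R : Type*} [CommRing R] [IsLocalRing R]

theorem natCast_residue_ne_zero (q m : ℕ) (hq : q.Prime) (hqR : (q : R) ∈ maximalIdeal R)
    (hqm : ¬ q ∣ m) : (m : ResidueField R) ≠ 0 := by
  intro hm0
  apply hqm
  have h1 : ((q : ℕ) : ResidueField R) = 0 := by
    rw [← map_natCast (residue R)]
    exact (residue_eq_zero_iff _).mpr hqR
  have hdq : ringChar (ResidueField R) ∣ q := ringChar.dvd h1
  have hdm : ringChar (ResidueField R) ∣ m := ringChar.dvd hm0
  rcases (Nat.dvd_prime hq).mp hdq with h | h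
  · exact absurd h CharP.ringChar_ne_one
  · rwa [h] at hdm

theorem isUnit_natCast (q m : ℕ) (hq : q.Prime) (hqR : (q : R) ∈ maximalIdeal R)
    (hqm : ¬ q ∣ m) : IsUnit (m : R) := by
  rw [← IsLocalRing.notMem_maximalIdeal]
  intro h
  apply natCast_residue_ne_zero (R := R) q m hq hqR hqm
  rw [← map_natCast (residue R)]
  exact (residue_eq_zero_iff _).mpr h

theorem exists_primitiveRoot [HenselianLocalRing R] [IsAlgClosed (ResidueField R)] (q m : ℕ)
    (hq : q.Prime) (hqR : (q : R) ∈ maximalIdeal R) (hm : 0 < m) (hqm : ¬ q ∣ m) :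
    ∃ ζ : R, IsPrimitiveRoot ζ m := by
  have hmk := natCast_residue_ne_zero (R := R) q m hq hqR hqm
  haveI : NeZero (m : ResidueField R) := ⟨hmk⟩
  obtain ⟨ζ₀, hζ₀⟩ := HasEnoughRootsOfUnity.exists_primitiveRoot (ResidueField R) m
  have hζ₀0 : ζ₀ ≠ 0 := hζ₀.ne_zero hm.ne'
  obtain ⟨ζ, hζ, hres⟩ := Fermat.Agent.A2.H552.exists_root_of_residue_simple_root
    (X ^ m - C (1 : R)) (monic_X_pow_sub_C 1 hm.ne') ζ₀
    (by simp [hζ₀.pow_eq_one])
    (by
      simp only [Polynomial.map_sub, Polynomial.map_pow, map_X, map_C, derivative_sub,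
        derivative_X_pow, derivative_C, sub_zero, eval_mul, eval_C, eval_pow, eval_X]
      exact mul_ne_zero hmk (pow_ne_zero _ hζ₀0))
  have hpow : ζ ^ m = 1 := by
    have : (X ^ m - C (1 : R) : R[X]).eval ζ = 0 := hζ
    simpa [sub_eq_zero] using this
  refine ⟨ζ, ⟨hpow, fun l hl => ?_⟩⟩
  apply hζ₀.dvd_of_pow_eq_one
  rw [← hres, ← map_pow, hl, map_one]

end Fermat.Agent.A2.Alg.H348

end
-- ===== PACK-END A2/Alg/H348/Roots.lean

-- ===== PACK-BEGIN Lib/Newform/H743/Lemma16.lean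
section








/-!
# NEWFORM library (helper743), part 2: Atkin–Lehner "Lemma 16"

Let `f ∈ S_k(Γ₀(N))`, `q` prime, and assume `a_n(f) = 0` whenever `q ∤ n`.  For every `M` with
`N ∣ q * M` (for instance `M = N`, or `M = N / q` when `q ∣ N`) the function `U_q f` (Prelude
`ModularForm.heckeU k q f`) is a cusp form of level `Γ₀(M)`, `f(τ) = (U_q f)(q τ)` and
`a_n(U_q f) = a_{nq}(f)`.
-/

set_option autoImplicit false

open UpperHalfPlane ModularForm Function Complex CongruenceSubgroup Matrix.SpecialLinearGroup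
open scoped MatrixGroups ModularForm Manifold Topology Real

namespace Fermat.Agent.Lib.Newform.H743

noncomputable section

/-- Slash by the unipotent matrix `[1, x; 0, 1]` is translation by `x`. -/
lemma slash_upperRightHom_apply (k : ℤ) (F : ℍ → ℂ) (x : ℝ) (τ : ℍ) :
    (F ∣[k] Matrix.GeneralLinearGroup.upperRightHom x) τ = F (x +ᵥ τ) := by
  have : Matrix.GeneralLinearGroup.upperRightHom x • τ = x +ᵥ τ := by
    ext
    simp [σ, num, denom, coe_vadd, UpperHalfPlane.coe_smul, add_comm]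
  simp_rw [slash_def, this]
  simp [σ, denom, Matrix.GeneralLinearGroup.val_det_apply]

/-- `[1, j; 0, q] • τ = j/q + [1, 0; 0, q] • τ`. -/
lemma heckeMatrix_smul_eq_vadd {q : ℕ} (hq : q ≠ 0) (j : ℕ) (τ : ℍ) :
    heckeMatrix q j • τ = ((j : ℝ) * (1 / q : ℝ)) +ᵥ (heckeMatrix q 0 • τ) := by
  ext
  have hq' : (q : ℂ) ≠ 0 := by exact_mod_cast hq
  rw [coe_vadd, coe_heckeMatrix_smul hq, coe_heckeMatrix_smul hq]
  push_cast
  field_simp
  ring

/-- For a function of period `1/q`, `U_q F (τ) = F (τ / q)`. -/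
theorem heckeU_apply_of_periodic (k : ℤ) {q : ℕ} (hq : q ≠ 0) {F : ℍ → ℂ}
    (hper : Periodic (F ∘ ofComplex) ((1 / q : ℝ) : ℝ)) (τ : ℍ) :
    heckeU k q F τ = F (heckeMatrix q 0 • τ) := by
  have hq' : (q : ℂ) ≠ 0 := by exact_mod_cast hq
  rw [heckeU_apply k hq]
  have h1 : ∀ j ∈ Finset.range q, F (heckeMatrix q j • τ) = F (heckeMatrix q 0 • τ) := by
    intro j _
    rw [heckeMatrix_smul_eq_vadd hq]
    have := (hper.nat_mul j)
    have h2 := apply_vadd_of_periodic (F := F) (h := (j : ℝ) * (1 / q : ℝ))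
      (by simpa using this) (heckeMatrix q 0 • τ)
    exact h2
  rw [Finset.sum_congr rfl h1, Finset.sum_const, Finset.card_range, nsmul_eq_mul, ← mul_assoc,
    inv_mul_cancel₀ hq', one_mul]

/-- For a function of period `1/q`, all the slashes `F ∣[k] [1, j; 0, q]` coincide. -/
theorem slash_heckeMatrix_eq_of_periodic (k : ℤ) {q : ℕ} (hq : q ≠ 0) {F : ℍ → ℂ}
    (hper : Periodic (F ∘ ofComplex) ((1 / q : ℝ) : ℝ)) (j : ℕ) :
    F ∣[k] heckeMatrix q j = F ∣[k] heckeMatrix q 0 := by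
  funext τ
  rw [slash_heckeMatrix_apply k hq, slash_heckeMatrix_apply k hq, heckeMatrix_smul_eq_vadd hq]
  congr 1
  have := (hper.nat_mul j)
  exact apply_vadd_of_periodic (F := F) (h := (j : ℝ) * (1 / q : ℝ))
    (by simpa using this) (heckeMatrix q 0 • τ)

theorem heckeU_eq_sum_of_periodic (k : ℤ) {q : ℕ} (hq : q ≠ 0) {F : ℍ → ℂ}
    (hper : Periodic (F ∘ ofComplex) ((1 / q : ℝ) : ℝ)) :
    heckeU k q F = ∑ _j ∈ Finset.range q, F ∣[k] heckeMatrix q 0 := by
  rw [heckeU_def]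
  exact Finset.sum_congr rfl fun j _ => slash_heckeMatrix_eq_of_periodic k hq hper j

/-- Entries of `T ^ i * γ * T ^ j`. -/
lemma T_zpow_mul_mul_T_zpow_apply (γ : SL(2, ℤ)) (i j : ℤ) :
    (ModularGroup.T ^ i * γ * ModularGroup.T ^ j) 0 0 = γ 0 0 + i * γ 1 0 ∧
    (ModularGroup.T ^ i * γ * ModularGroup.T ^ j) 0 1 =
      (γ 0 0 + i * γ 1 0) * j + (γ 0 1 + i * γ 1 1) ∧
    (ModularGroup.T ^ i * γ * ModularGroup.T ^ j) 1 0 = γ 1 0 ∧
    (ModularGroup.T ^ i * γ * ModularGroup.T ^ j) 1 1 = γ 1 0 * j + γ 1 1 := by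
  simp only [Matrix.SpecialLinearGroup.coe_mul, ModularGroup.coe_T_zpow, Matrix.mul_apply,
    Fin.sum_univ_two, Matrix.of_apply, Matrix.cons_val', Matrix.cons_val_zero,
    Matrix.cons_val_one, Matrix.cons_val_fin_one]
  refine ⟨by ring, by ring, by ring, by ring⟩

/-- The group lemma: every element of `Γ₀(M)` is of the form `T ^ i * γ' * T ^ j` with
`γ' ∈ Γ₀(M) ∩ Γ⁰(q)`. -/
theorem exists_T_zpow_mul_mem_Gamma0 {q : ℕ} (hq : q.Prime) (M : ℕ) (γ : SL(2, ℤ))
    (hγ : γ ∈ Gamma0 M) :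
    ∃ (i j : ℤ) (γ' : SL(2, ℤ)), γ' ∈ Gamma0 M ∧ (q : ℤ) ∣ γ' 0 1 ∧
      γ = ModularGroup.T ^ i * γ' * ModularGroup.T ^ j := by
  have hdet : γ 0 0 * γ 1 1 - γ 0 1 * γ 1 0 = 1 := by
    have := γ.det_coe
    rw [Matrix.det_fin_two] at this
    exact this
  have hqZ : Prime (q : ℤ) := Nat.prime_iff_prime_int.mp hq
  -- choose `i ∈ {0, 1}` with `q ∤ a + i c`
  obtain ⟨i, hi⟩ : ∃ i : ℤ, ¬ (q : ℤ) ∣ γ 0 0 + i * γ 1 0 := by
    by_cases ha : (q : ℤ) ∣ γ 0 0
    · refine ⟨1, fun h => ?_⟩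
      have hc : (q : ℤ) ∣ γ 1 0 := by
        have := dvd_sub h ha
        simpa using this
      have h1 : (q : ℤ) ∣ 1 := by
        rw [← hdet]
        exact dvd_sub (ha.mul_right _) (hc.mul_left _)
      exact hqZ.not_dvd_one h1
    · exact ⟨0, by simpa using ha⟩
  have hcop : IsCoprime (γ 0 0 + i * γ 1 0) (q : ℤ) :=
    ((Prime.coprime_iff_not_dvd hqZ).mpr hi).symm
  obtain ⟨x, y, hxy⟩ := hcop
  set j : ℤ := -x * (γ 0 1 + i * γ 1 1) with hj
  obtain ⟨h00, h01, h10, h11⟩ := T_zpow_mul_mul_T_zpow_apply γ i j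
  have hT : ∀ n : ℤ, ModularGroup.T ^ n ∈ Gamma0 M := by
    intro n
    rw [Gamma0_mem, ModularGroup.coe_T_zpow]
    simp
  refine ⟨-i, -j, ModularGroup.T ^ i * γ * ModularGroup.T ^ j, ?_, ?_, ?_⟩
  · exact mul_mem (mul_mem (hT i) hγ) (hT j)
  · rw [h01]
    refine ⟨y * (γ 0 1 + i * γ 1 1), ?_⟩
    rw [hj]
    linear_combination (-(γ 0 1 + i * γ 1 1)) * hxy
  · group

lemma heckeMatrix_zero_mul_mapGL {q : ℕ} (hq : q ≠ 0) (γ δ : SL(2, ℤ))
    (h00 : γ 0 0 = δ 0 0) (h01 : γ 0 1 = q * δ 0 1) (h10 : q * γ 1 0 = δ 1 0)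
    (h11 : γ 1 1 = δ 1 1) :
    heckeMatrix q 0 * mapGL ℝ γ = mapGL ℝ δ * heckeMatrix q 0 := by
  apply Units.ext
  ext i j
  fin_cases i <;> fin_cases j
  · simp [Matrix.mul_apply, Fin.sum_univ_two, val_heckeMatrix hq]
    exact_mod_cast h00
  · simp [Matrix.mul_apply, Fin.sum_univ_two, val_heckeMatrix hq]
    rw [mul_comm]
    exact_mod_cast h01
  · simp [Matrix.mul_apply, Fin.sum_univ_two, val_heckeMatrix hq]
    exact_mod_cast h10
  · simp [Matrix.mul_apply, Fin.sum_univ_two, val_heckeMatrix hq]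
    rw [h11, mul_comm]

/-- Conjugating an element of `Γ₀(M) ∩ Γ⁰(q)` by `[1, 0; 0, q]` gives an element of `Γ₀(N)`
as soon as `N ∣ q * M`. -/
theorem exists_conj_heckeMatrix_zero {N M q : ℕ} (hq : q ≠ 0) (hNM : N ∣ q * M) (γ : SL(2, ℤ))
    (hγ : γ ∈ Gamma0 M) (hb : (q : ℤ) ∣ γ 0 1) :
    ∃ δ ∈ Gamma0 N, heckeMatrix q 0 * mapGL ℝ γ = mapGL ℝ δ * heckeMatrix q 0 := by
  rw [Gamma0_mem, ZMod.intCast_zmod_eq_zero_iff_dvd] at hγ
  obtain ⟨c', hc'⟩ := hγ
  obtain ⟨b', hb'⟩ := hb
  have hdet : γ 0 0 * γ 1 1 - γ 0 1 * γ 1 0 = 1 := by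
    have := γ.det_coe
    rw [Matrix.det_fin_two] at this
    exact this
  have hδdet : (!![γ 0 0, b'; q * γ 1 0, γ 1 1] : Matrix (Fin 2) (Fin 2) ℤ).det = 1 := by
    rw [Matrix.det_fin_two_of]
    rw [hb'] at hdet
    linear_combination hdet
  let δ : SL(2, ℤ) := ⟨!![γ 0 0, b'; q * γ 1 0, γ 1 1], hδdet⟩
  have hδ00 : δ 0 0 = γ 0 0 := rfl
  have hδ01 : δ 0 1 = b' := rfl
  have hδ10 : δ 1 0 = q * γ 1 0 := rfl
  have hδ11 : δ 1 1 = γ 1 1 := rfl
  refine ⟨δ, ?_, ?_⟩
  · rw [Gamma0_mem, ZMod.intCast_zmod_eq_zero_iff_dvd, hδ10, hc']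
    have : (N : ℤ) ∣ (q : ℤ) * (M : ℤ) := by exact_mod_cast hNM
    obtain ⟨e, he⟩ := this
    exact ⟨e * c', by linear_combination c' * he⟩
  · exact heckeMatrix_zero_mul_mapGL hq γ δ hδ00.symm (by rw [hδ01, hb']) hδ10.symm hδ11.symm

lemma Gamma0_mul_le (q N : ℕ) : Gamma0 (q * N) ≤ Gamma0 N := by
  intro γ hγ
  rw [Gamma0_mem, ZMod.intCast_zmod_eq_zero_iff_dvd] at hγ ⊢
  refine dvd_trans ?_ hγ
  exact_mod_cast dvd_mul_left N q

lemma T_zpow_mem_Gamma0 (N : ℕ) (n : ℤ) : ModularGroup.T ^ n ∈ Gamma0 N := by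
  rw [Gamma0_mem, ModularGroup.coe_T_zpow]
  simp

/-- **Function level Lemma 16.**  If `F` is `Γ₀(N)`-invariant of weight `k` and has period `1/q`,
then `U_q F` is `Γ₀(M)`-invariant for every `M` with `N ∣ q * M`. -/
theorem heckeU_slash_eq_self_of_periodic {N M q : ℕ} (hq : q.Prime) (hNM : N ∣ q * M) (k : ℤ)
    {F : ℍ → ℂ} (hF : ∀ γ ∈ (Gamma0 N : Subgroup (GL (Fin 2) ℝ)), F ∣[k] γ = F)
    (hper : Periodic (F ∘ ofComplex) ((1 / q : ℝ) : ℝ))
    (γ : GL (Fin 2) ℝ) (hγ : γ ∈ (Gamma0 M : Subgroup (GL (Fin 2) ℝ))) :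
    heckeU k q F ∣[k] γ = heckeU k q F := by
  obtain ⟨γ₀, hγ₀, rfl⟩ := hγ
  obtain ⟨i, j, γ', hγ', hb, rfl⟩ := exists_T_zpow_mul_mem_Gamma0 hq M γ₀ hγ₀
  have hT : ∀ n : ℤ, heckeU k q F ∣[k] mapGL ℝ (ModularGroup.T ^ n) = heckeU k q F := by
    intro n
    have hF' : ∀ γ ∈ (Gamma0 (q * N) : Subgroup (GL (Fin 2) ℝ)), F ∣[k] γ = F := by
      rintro _ ⟨γ, hγ, rfl⟩
      exact hF _ ⟨γ, Gamma0_mul_le q N hγ, rfl⟩
    exact heckeU_slash_eq_self_of_mem_Gamma0 k (dvd_mul_right q N) hF' _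
      ⟨_, T_zpow_mem_Gamma0 (q * N) n, rfl⟩
  have hγ'' : heckeU k q F ∣[k] mapGL ℝ γ' = heckeU k q F := by
    obtain ⟨δ, hδ, hconj⟩ := exists_conj_heckeMatrix_zero hq.ne_zero hNM γ' hγ' hb
    rw [heckeU_eq_sum_of_periodic k hq.ne_zero hper, SlashAction.sum_slash]
    refine Finset.sum_congr rfl fun _ _ => ?_
    rw [← SlashAction.slash_mul, hconj, SlashAction.slash_mul, hF _ ⟨δ, hδ, rfl⟩]
  rw [map_mul, map_mul, SlashAction.slash_mul, SlashAction.slash_mul, hT, hγ'', hT]

/-- Periodicity `1/q` of a cusp form all of whose coefficients of index prime to `q` vanish. -/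
theorem periodic_of_qCoeff_eq_zero {N : ℕ} [NeZero N] {k : ℤ} (f : CuspForm (Gamma0 N) k)
    {q : ℕ} (hq : q ≠ 0) (h0 : ∀ n : ℕ, ¬ q ∣ n → ModularFormClass.qCoeff f n = 0) :
    Periodic ((f : ℍ → ℂ) ∘ ofComplex) ((1 / q : ℝ) : ℝ) := by
  have hΓ := CongruenceSubgroup.one_mem_strictPeriods_Gamma0 N
  have : Fact (IsCusp OnePoint.infty (Gamma0 N : Subgroup (GL (Fin 2) ℝ))) :=
    ⟨Subgroup.isCusp_of_mem_strictPeriods one_pos hΓ⟩
  exact periodic_of_coeff_eq_zero (SlashInvariantFormClass.periodic_comp_ofComplex f hΓ)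
    (CuspFormClass.holo f) (ModularFormClass.bdd_at_infty f) hq h0

/-- **Lemma 16** (Atkin–Lehner).  If `f ∈ S_k(Γ₀(N))` has `a_n(f) = 0` for all `n` prime to `q`,
then `U_q f` is a cusp form of level `Γ₀(M)` for every `M` with `N ∣ q * M`. -/
def heckeULower {N M q : ℕ} [NeZero N] [NeZero M] (hq : q.Prime) (hNM : N ∣ q * M) {k : ℤ}
    (f : CuspForm (Gamma0 N) k) (h0 : ∀ n : ℕ, ¬ q ∣ n → ModularFormClass.qCoeff f n = 0) :
    CuspForm (Gamma0 M) k where
  toFun := heckeU k q f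
  slash_action_eq' := fun γ hγ => heckeU_slash_eq_self_of_periodic hq hNM k
    (fun γ hγ => SlashInvariantFormClass.slash_action_eq f γ hγ)
    (periodic_of_qCoeff_eq_zero f hq.ne_zero h0) γ hγ
  holo' := mdifferentiable_heckeU (CuspFormClass.holo f) k q
  zero_at_cusps' := fun {c} hc => CuspFormClass.isZeroAt_heckeU f q
    (by rw [Subgroup.IsArithmetic.isCusp_iff_isCusp_SL2Z] at hc ⊢; exact hc)

@[simp] theorem coe_heckeULower {N M q : ℕ} [NeZero N] [NeZero M] (hq : q.Prime)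
    (hNM : N ∣ q * M) {k : ℤ} (f : CuspForm (Gamma0 N) k)
    (h0 : ∀ n : ℕ, ¬ q ∣ n → ModularFormClass.qCoeff f n = 0) :
    ⇑(heckeULower hq hNM f h0) = heckeU k q ⇑f := rfl

theorem qCoeff_heckeULower {N M q : ℕ} [NeZero N] [NeZero M] (hq : q.Prime)
    (hNM : N ∣ q * M) {k : ℤ} (f : CuspForm (Gamma0 N) k)
    (h0 : ∀ n : ℕ, ¬ q ∣ n → ModularFormClass.qCoeff f n = 0) (n : ℕ) :
    ModularFormClass.qCoeff (heckeULower hq hNM f h0) n = ModularFormClass.qCoeff f (n * q) := by
  rw [coe_heckeULower, ModularFormClass.qCoeff_heckeU f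
    (CongruenceSubgroup.one_mem_strictPeriods_Gamma0 N) hq.ne_zero, coeffHeckeU_apply]

/-- `f(τ) = (U_q f)(q τ)`. -/
theorem apply_eq_heckeULower {N M q : ℕ} [NeZero N] [NeZero M] (hq : q.Prime)
    (hNM : N ∣ q * M) {k : ℤ} (f : CuspForm (Gamma0 N) k)
    (h0 : ∀ n : ℕ, ¬ q ∣ n → ModularFormClass.qCoeff f n = 0) (τ : ℍ) :
    f τ = heckeULower hq hNM f h0 (heckeDiagMatrix q • τ) := by
  rw [coe_heckeULower, heckeU_apply_of_periodic k hq.ne_zero
    (periodic_of_qCoeff_eq_zero f hq.ne_zero h0)]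
  congr 1
  ext
  have hq' : (q : ℂ) ≠ 0 := by exact_mod_cast hq.ne_zero
  rw [coe_heckeMatrix_smul hq.ne_zero, coe_heckeDiagMatrix_smul hq.ne_zero]
  push_cast
  field_simp
  simp

end

end Fermat.Agent.Lib.Newform.H743

end
-- ===== PACK-END Lib/Newform/H743/Lemma16.lean

-- ===== PACK-BEGIN S59/H314/TwAlg.lean
section


/-!
# S59, cell TW: the elementary lemma TW-ALG (helper314)

`coord/S59-TWALG-helper314.md`.  Mathlib only.

`N` a finite `O`-module without `p`-torsion (`p` odd, `p ∈ Jac O`), `δ, V` commuting endomorphisms,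
`δ ^ (p ^ (n+1)) = 1`, `U := 1 + (δ - 1) V` of finite `p`-power order,
* (H1) `ker ((δ - 1) ∑_{j < p^n} δ^{p j}) ⊆ range (∑_{k < p} δ^k)`   (true if `N` is free over `O[⟨δ⟩]`),
* (R)  `U x = x`, `(∑_{k < p} δ^k) x = 0` imply `x = 0`.
Then `V` is onto (`twAlg_op`), hence `(U - 1) N = (δ - 1) N`.
-/

set_option autoImplicit false

namespace Fermat.Agent.S59.H314

open Polynomial Finset

/-- Step 0 in `ℤ[X]`. -/
theorem twPoly_exists (p : ℕ) (hp : p.Prime) :
    ∃ r : ℤ[X], (X + 1) ^ p = X ^ p + 1 + (p : ℤ[X]) * X * (1 + X * r) ∧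
      ∑ k ∈ range p, (X + 1 : ℤ[X]) ^ k = X ^ (p - 1) + (p : ℤ[X]) * (1 + X * r) := by
  obtain ⟨r, hr⟩ := exists_add_pow_prime_eq hp (X : ℤ[X]) 1
  have h0 : r.coeff 0 = 1 := by
    have h1 := congrArg (fun f : ℤ[X] => f.coeff 1) hr
    simp only [coeff_X_add_one_pow, Nat.choose_one_right, one_pow, mul_one, coeff_add] at h1
    have h2 : ((X : ℤ[X]) ^ p).coeff 1 = 0 := by
      have := hp.two_le
      rw [coeff_X_pow, if_neg (by omega)]
    have h3 : ((1 : ℤ[X])).coeff 1 = 0 := by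
      rw [coeff_one]; simp
    have h4 : ((p : ℤ[X]) * X * r).coeff 1 = (p : ℤ) * r.coeff 0 := by
      rw [mul_assoc, ← C_eq_natCast, coeff_C_mul, coeff_X_mul]
    rw [h2, h3, h4] at h1
    have hp0 : (p : ℤ) ≠ 0 := by exact_mod_cast hp.ne_zero
    have : (p : ℤ) * (r.coeff 0 - 1) = 0 := by push_cast at h1; linear_combination -h1
    rcases mul_eq_zero.mp this with h | h
    · exact absurd h hp0
    · linarith
  obtain ⟨r1, hr1⟩ : X ∣ r - 1 := by
    rw [X_dvd_iff]; simp [h0]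
  have hr' : r = 1 + X * r1 := by linear_combination hr1
  refine ⟨r1, ?_, ?_⟩
  · rw [hr, hr']; ring
  · have hX : (X : ℤ[X]) ≠ 0 := X_ne_zero
    apply mul_left_cancel₀ hX
    have hgeom : (X : ℤ[X]) * ∑ k ∈ range p, (X + 1 : ℤ[X]) ^ k = (X + 1) ^ p - 1 := by
      have := mul_geom_sum (X + 1 : ℤ[X]) p
      rw [← this]; ring
    rw [hgeom, hr, hr']
    obtain ⟨m, rfl⟩ : ∃ m, p = m + 1 := ⟨p - 1, by have := hp.one_lt; omega⟩
    simp only [Nat.add_sub_cancel]
    ring

/-- Step 0 in any commutative ring. -/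
theorem twPoly_eval {S : Type*} [CommRing S] (p : ℕ) (hp : p.Prime) (y : S) :
    ∃ t : S, (y + 1) ^ p = y ^ p + 1 + (p : S) * y * (1 + y * t) ∧
      ∑ k ∈ range p, (y + 1) ^ k = y ^ (p - 1) + (p : S) * (1 + y * t) := by
  obtain ⟨r, h1, h2⟩ := twPoly_exists p hp
  refine ⟨aeval y r, ?_, ?_⟩
  · have := congrArg (aeval y) h1
    simpa using this
  · have := congrArg (aeval y) h2
    simpa using this

section CoreRing

variable {S : Type*} [CommRing S]

/-- Lemma L: a finite-order element `≡ 1 mod pπ` is `1`. -/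
theorem twCore_lemmaL (p : ℕ) (hp : p.Prime) (π : S)
    (N1 : ∀ s : S, (p : S) * s = 0 → s = 0)
    (hπ : ∀ s : S, π * s = 0 → s = 0)
    (N2 : ∀ x s : S, s * (1 + π * x) = 0 → s = 0) :
    ∀ (a : ℕ) (E : S), (1 + (p : S) * π * E) ^ (p ^ a) = 1 → E = 0 := by
  intro a
  induction a with
  | zero =>
    intro E h
    rw [pow_zero, pow_one] at h
    have h1 : (p : S) * (π * E) = 0 := by linear_combination h
    exact hπ _ (N1 _ h1)
  | succ a ih =>
    intro E h
    obtain ⟨t, ht, -⟩ := twPoly_eval p hp ((p : S) * π * E)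
    obtain ⟨m, hm⟩ : ∃ m, p = m + 2 := ⟨p - 2, by have := hp.two_le; omega⟩
    obtain ⟨P, hP⟩ : ∃ P : S, P = (p : S) := ⟨_, rfl⟩
    rw [← hP] at ht N1 h ih
    have key : (1 + P * π * E) ^ p =
        1 + P * π * (P * E * (1 + π * (P * E * t + P ^ m * π ^ m * E ^ (m + 1)))) := by
      have : (1 + P * π * E) = (P * π * E + 1) := by ring1
      rw [this, ht, hm]
      ring1
    rw [pow_succ, pow_mul', key] at h
    have h2 := ih _ h
    have h3 : P * E = 0 := N2 _ _ h2
    exact N1 _ h3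

/-- CORE-RING (in terms of `π = z - 1`). -/
theorem twCore_ring (p : ℕ) (hp : p.Prime) (π v : S)
    (hz : ∑ k ∈ range p, (π + 1) ^ k = 0)
    (a : ℕ) (hu : (1 + π * v) ^ (p ^ a) = 1)
    (N1 : ∀ s : S, (p : S) * s = 0 → s = 0)
    (N2 : ∀ x s : S, s * (1 + π * x) = 0 → s = 0) :
    ∃ g : S, v * (1 + v * g) = 0 := by
  obtain ⟨t, -, ht2⟩ := twPoly_eval p hp π
  rw [hz] at ht2
  obtain ⟨t', ht', -⟩ := twPoly_eval p hp (π * v)
  obtain ⟨m, hm⟩ : ∃ m, p = m + 2 := ⟨p - 2, by have := hp.two_le; omega⟩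
  obtain ⟨P, hP⟩ : ∃ P : S, P = (p : S) := ⟨_, rfl⟩
  have hm1 : p - 1 = m + 1 := by omega
  rw [hm1, ← hP] at ht2
  rw [← hP] at ht'
  -- π ^ (m+1) = - P * (1 + π t)
  have hπpow : π ^ (m + 1) = - (P * (1 + π * t)) := by linear_combination -ht2
  have hπ : ∀ s : S, π * s = 0 → s = 0 := by
    intro s hs
    have h1 : π ^ (m + 1) * s = 0 := by
      rw [pow_succ, mul_assoc, hs, mul_zero]
    rw [hπpow] at h1
    have h2 : P * (s * (1 + π * t)) = 0 := by linear_combination -h1
    rw [hP] at h2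
    exact N2 _ _ (N1 _ h2)
  refine ⟨π * t' - (1 + π * t) * v ^ m, ?_⟩
  apply twCore_lemmaL p hp π N1 hπ N2 a
  have key : (1 + π * v) ^ p =
      1 + P * π * (v * (1 + v * (π * t' - (1 + π * t) * v ^ m))) := by
    have : (1 + π * v) = (π * v + 1) := by ring1
    rw [this, ht']
    have e : (π * v) ^ p = π * π ^ (m + 1) * v ^ (m + 2) := by rw [hm]; ring1
    rw [e, hπpow]
    ring1
  rw [← hP, ← key, ← pow_mul, ← pow_succ', pow_succ, pow_mul, hu, one_pow]

end CoreRing

section CoreMod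

variable {O : Type*} [CommRing O] {M : Type*} [AddCommGroup M] [Module O M]

/-- Nakayama, elementwise form. -/
theorem tw_surj_of_nak [Module.Finite O M] (c : O) (hc : c ∈ Ideal.jacobson (⊥ : Ideal O))
    (f : M →ₗ[O] M) (h : ∀ m : M, ∃ y w, m = f y + c • w) : Function.Surjective f := by
  rw [← LinearMap.range_eq_top]
  apply top_le_iff.mp
  apply Submodule.le_of_le_smul_of_le_jacobson_bot (I := Ideal.span {c}) Module.Finite.fg_top
  · rw [Ideal.span_le]
    intro x hx
    rw [Set.mem_singleton_iff] at hx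
    rw [hx]; exact hc
  · intro m _
    obtain ⟨y, w, hyw⟩ := h m
    rw [hyw]
    exact Submodule.add_mem_sup ⟨y, rfl⟩
      (Submodule.smul_mem_smul (Ideal.mem_span_singleton_self c) Submodule.mem_top)

/-- `1 + T` is surjective if `T ^ (n+1)` is divisible by `c ∈ Jac`. -/
theorem tw_surj_one_add [Module.Finite O M] (c : O) (hc : c ∈ Ideal.jacobson (⊥ : Ideal O))
    (T h : Module.End O M) (n : ℕ) (hT : T ^ n = c • h) : Function.Surjective ((1 + T : Module.End O M)) := by
  apply tw_surj_of_nak c hc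
  intro m
  have hgeom : (1 + T) * (∑ i ∈ range n, (-T) ^ i) = 1 - (-T) ^ n := by
    have := mul_neg_geom_sum (-T) n
    rw [← this]
    congr 1
    noncomm_ring
  have hneg : (-T) ^ n = c • ((-1) ^ n * h) := by
    rw [neg_pow, hT, mul_smul_comm]
  refine ⟨(∑ i ∈ range n, (-T) ^ i) m, ((-1) ^ n * h) m, ?_⟩
  have e1 : (1 + T) ((∑ i ∈ range n, (-T) ^ i) m) = ((1 + T) * (∑ i ∈ range n, (-T) ^ i)) m := rfl
  rw [e1, hgeom, hneg]
  simp

open scoped IsMulCommutative in
/-- CORE-MOD. -/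
theorem twCore_mod [Module.Finite O M] (p : ℕ) (hp : p.Prime)
    (hpO : (p : O) ∈ Ideal.jacobson (⊥ : Ideal O))
    (htf : ∀ m : M, (p : O) • m = 0 → m = 0)
    (π v : Module.End O M) (hπv : Commute π v)
    (hz : ∑ k ∈ range p, (π + 1) ^ k = 0)
    (a : ℕ) (hu : (1 + π * v) ^ (p ^ a) = 1)
    (hinj : Function.Injective v) : Function.Surjective v := by
  have hcomm : ∀ x ∈ ({π, v} : Set (Module.End O M)), ∀ y ∈ ({π, v} : Set (Module.End O M)),
      x * y = y * x := by
    rintro x (rfl | rfl) y (rfl | rfl)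
    · rfl
    · exact hπv
    · exact hπv.symm
    · rfl
  have hmc := Algebra.isMulCommutative_adjoin O hcomm
  obtain ⟨S, hS⟩ : ∃ S : Subalgebra O (Module.End O M), S = Algebra.adjoin O ({π, v} : Set (Module.End O M)) :=
    ⟨_, rfl⟩
  have : IsMulCommutative S := by rw [hS]; exact hmc
  have hπS : π ∈ S := by rw [hS]; exact Algebra.subset_adjoin (by simp)
  have hvS : v ∈ S := by rw [hS]; exact Algebra.subset_adjoin (by simp)
  -- the elements
  obtain ⟨π', hπ'⟩ : ∃ π' : S, (π' : Module.End O M) = π := ⟨⟨π, hπS⟩, rfl⟩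
  obtain ⟨v', hv'⟩ : ∃ v' : S, (v' : Module.End O M) = v := ⟨⟨v, hvS⟩, rfl⟩
  have hz' : ∑ k ∈ range p, (π' + 1) ^ k = 0 := by
    apply Subtype.ext
    rw [← hπ'] at hz
    simpa using hz
  have hu' : (1 + π' * v') ^ (p ^ a) = 1 := by
    apply Subtype.ext
    rw [← hπ', ← hv'] at hu
    simpa using hu
  have N1 : ∀ s : S, (p : S) * s = 0 → s = 0 := by
    intro s hs
    apply Subtype.ext
    have h1 : ((p : S) * s : S).1 = 0 := by rw [hs]; rfl
    apply LinearMap.ext
    intro m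
    apply htf
    have h2 := LinearMap.congr_fun h1 m
    simpa [Nat.cast_smul_eq_nsmul] using h2
  -- π ^ (p-1) = p * c
  obtain ⟨t, -, ht2⟩ := twPoly_eval p hp π'
  rw [hz'] at ht2
  have N2 : ∀ x s : S, s * (1 + π' * x) = 0 → s = 0 := by
    intro x s hs
    have hT : (π' * x) ^ (p - 1) = (p : S) * (- (1 + π' * t) * x ^ (p - 1)) := by
      rw [mul_pow]
      linear_combination (-(x ^ (p - 1))) * ht2
    have hsurj : Function.Surjective ((1 : Module.End O M) + ((π' * x : S) : Module.End O M)) := by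
      apply tw_surj_one_add (p : O) hpO _ ((- (1 + π' * t) * x ^ (p - 1) : S) : Module.End O M) (p - 1)
      rw [← Subalgebra.coe_pow, hT, Subalgebra.coe_mul, SubringClass.coe_natCast,
        Nat.cast_smul_eq_nsmul, nsmul_eq_mul]
    apply Subtype.ext
    apply LinearMap.ext
    intro m
    obtain ⟨m', rfl⟩ := hsurj m
    have h1 := congrArg (fun s : S => (s : Module.End O M)) hs
    have h2 := LinearMap.congr_fun h1 m'
    simpa using h2
  obtain ⟨g, hg⟩ := twCore_ring p hp π' v' hz' a hu' N1 N2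
  have h1 := congrArg (fun s : S => (s : Module.End O M)) hg
  simp only [Subalgebra.coe_mul, Subalgebra.coe_add, Subalgebra.coe_one, hv', Subalgebra.coe_zero] at h1
  intro m
  refine ⟨(-(g : Module.End O M)) m, ?_⟩
  have h2 := LinearMap.congr_fun h1 m
  have h3 : v (m + v ((g : Module.End O M) m)) = 0 := by simpa using h2
  have h4 := hinj (h3.trans (map_zero v).symm)
  simp only [LinearMap.neg_apply, map_neg]
  rw [eq_comm, ← add_eq_zero_iff_eq_neg]
  exact h4

end CoreMod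

section Smul

variable {O S : Type*} [CommRing O] [CommRing S] [Algebra O S]

/-- CORE-MOD, scalar form. -/
theorem twCore_smul {M : Type*} [AddCommGroup M] [Module O M] [Module S M] [IsScalarTower O S M]
    [Module.Finite O M] (p : ℕ) (hp : p.Prime) (hpO : (p : O) ∈ Ideal.jacobson (⊥ : Ideal O))
    (htf : ∀ m : M, (p : O) • m = 0 → m = 0)
    (π v : S) (hz : ∀ m : M, (∑ k ∈ range p, (π + 1) ^ k) • m = 0)
    (a : ℕ) (hu : ∀ m : M, ((1 + π * v) ^ (p ^ a)) • m = m)
    (hinj : ∀ m : M, v • m = 0 → m = 0) (m : M) : ∃ m', v • m' = m := by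
  obtain ⟨L, hL⟩ : ∃ L : S →ₐ[O] Module.End O M, ∀ (s : S) (m : M), L s m = s • m :=
    ⟨Algebra.lsmul O O M, fun _ _ => rfl⟩
  have hsurj := twCore_mod p hp hpO htf (L π) (L v)
    (by rw [Commute, SemiconjBy, ← map_mul, ← map_mul, mul_comm]) ?_ a ?_ ?_
  · obtain ⟨m', hm'⟩ := hsurj m
    exact ⟨m', by rw [← hL, hm']⟩
  · apply LinearMap.ext
    intro m
    have : (∑ k ∈ range p, (L π + 1) ^ k) = L (∑ k ∈ range p, (π + 1) ^ k) := by
      simp [map_sum]
    rw [this, hL, hz]; rfl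
  · apply LinearMap.ext
    intro m
    have : (1 + L π * L v) ^ (p ^ a) = L ((1 + π * v) ^ (p ^ a)) := by simp
    rw [this, hL, hu]; rfl
  · intro x y hxy
    rw [hL, hL] at hxy
    have : v • (x - y) = 0 := by rw [smul_sub, hxy, sub_self]
    exact sub_eq_zero.mp (hinj _ this)

/-- TW-ALG, scalar form: `V` is onto. -/
theorem twAlg_smul {N : Type*} [AddCommGroup N] [Module O N] [Module S N] [IsScalarTower O S N]
    [Module.Finite O N] (p : ℕ) (hp : p.Prime) (hp2 : p ≠ 2)
    (hpO : (p : O) ∈ Ideal.jacobson (⊥ : Ideal O))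
    (htf : ∀ x : N, (p : O) • x = 0 → x = 0)
    (δ V : S) (n a : ℕ)
    (hδ : ∀ x : N, (δ ^ (p ^ (n + 1))) • x = x)
    (hU : ∀ x : N, ((1 + (δ - 1) * V) ^ (p ^ a)) • x = x)
    (H1 : ∀ x : N, ((δ - 1) * ∑ j ∈ range (p ^ n), δ ^ (p * j)) • x = 0 →
      ∃ y : N, x = (∑ k ∈ range p, δ ^ k) • y)
    (R : ∀ x : N, ((δ - 1) * V) • x = 0 → (∑ k ∈ range p, δ ^ k) • x = 0 → x = 0)
    (x : N) : ∃ y : N, V • y = x := by
  obtain ⟨Φ, hΦ⟩ : ∃ Φ : S, Φ = ∑ k ∈ range p, δ ^ k := ⟨_, rfl⟩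
  obtain ⟨Ψ, hΨ⟩ : ∃ Ψ : S, Ψ = (δ - 1) * ∑ j ∈ range (p ^ n), δ ^ (p * j) := ⟨_, rfl⟩
  rw [← hΦ] at H1 R
  rw [← hΨ] at H1
  have hΨΦ : Ψ * Φ = δ ^ (p ^ (n + 1)) - 1 := by
    have h1 : Φ * (δ - 1) = δ ^ p - 1 := by rw [hΦ]; exact geom_sum_mul δ p
    have h2 : (∑ j ∈ range (p ^ n), δ ^ (p * j)) * (δ ^ p - 1) = δ ^ (p ^ (n + 1)) - 1 := by
      have := geom_sum_mul (δ ^ p) (p ^ n)
      rw [← pow_mul, ← pow_succ'] at this
      rw [← this]
      congr 1
      apply Finset.sum_congr rfl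
      intro j _
      rw [pow_mul]
    rw [hΨ, ← h2, ← h1]; ring
  have hΨΦ0 : ∀ y : N, (Ψ * Φ) • y = 0 := by
    intro y
    rw [hΨΦ, sub_smul, hδ, one_smul, sub_self]
  have hpS : ∀ y : N, (p : S) • y = (p : O) • y := by
    intro y
    rw [Nat.cast_smul_eq_nsmul, Nat.cast_smul_eq_nsmul]
  -- the quotient
  obtain ⟨K, hK⟩ : ∃ K : Submodule S N, ∀ y, y ∈ K ↔ ∃ w, y = Φ • w :=
    ⟨LinearMap.range (LinearMap.lsmul S N Φ), fun y => by
      rw [LinearMap.mem_range]
      constructor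
      · rintro ⟨w, hw⟩; exact ⟨w, hw.symm⟩
      · rintro ⟨w, hw⟩; exact ⟨w, hw.symm⟩⟩
  have hmk0 : ∀ y : N, K.mkQ y = 0 ↔ ∃ w, y = Φ • w := by
    intro y
    rw [Submodule.mkQ_apply, Submodule.Quotient.mk_eq_zero, hK]
  have hstep : ∀ x : N, ∃ y w : N, x = V • y + Φ • w := by
    intro x
    have := twCore_smul (O := O) (S := S) (M := N ⧸ K) p hp hpO ?_ (δ - 1) V ?_ a ?_ ?_ (K.mkQ x)
    · obtain ⟨m', hm'⟩ := this
      obtain ⟨y, rfl⟩ := K.mkQ_surjective m'
      rw [← map_smul, ← sub_eq_zero, ← map_sub, hmk0] at hm'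
      obtain ⟨w, hw⟩ := hm'
      refine ⟨y, -w, ?_⟩
      rw [smul_neg, ← hw]; abel
    · intro m hm
      obtain ⟨y, rfl⟩ := K.mkQ_surjective m
      rw [Nat.cast_smul_eq_nsmul O, ← Nat.cast_smul_eq_nsmul S, ← map_smul, hmk0] at hm
      obtain ⟨w, hw⟩ := hm
      rw [hmk0]
      apply H1
      apply htf
      rw [← hpS, smul_comm, hw, ← mul_smul, hΨΦ0]
    · intro m
      obtain ⟨y, rfl⟩ := K.mkQ_surjective m
      rw [← map_smul, hmk0]
      exact ⟨y, by rw [hΦ]; simp⟩
    · intro m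
      obtain ⟨y, rfl⟩ := K.mkQ_surjective m
      rw [← map_smul, hU]
    · intro m hm
      obtain ⟨y, rfl⟩ := K.mkQ_surjective m
      rw [← map_smul, hmk0] at hm
      obtain ⟨w, hw⟩ := hm
      rw [hmk0]
      apply H1
      apply R
      · rw [← mul_smul]
        have : (δ - 1) * V * Ψ = (δ - 1) * Ψ * V := by ring
        rw [this, mul_smul, hw, ← mul_smul, mul_assoc, mul_smul, hΨΦ0, smul_zero]
      · rw [← mul_smul, mul_comm, hΨΦ0]
  -- iteration
  obtain ⟨Y, hY⟩ : ∃ Y : S, Y = δ - 1 := ⟨_, rfl⟩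
  obtain ⟨m, hm⟩ : ∃ m, p = m + 2 := ⟨p - 2, by have := hp.two_le; omega⟩
  obtain ⟨c, hc⟩ : ∃ c : S, Φ = Y * Y ^ m + (p : S) * c := by
    obtain ⟨t, -, ht⟩ := twPoly_eval p hp Y
    refine ⟨1 + Y * t, ?_⟩
    have e : Y + 1 = δ := by rw [hY]; ring
    rw [e, ← hΦ] at ht
    have hm1 : p - 1 = m + 1 := by omega
    rw [ht, hm1, pow_succ']
  obtain ⟨s₁, hs₁⟩ : ∃ s₁ : S, Y ^ (p ^ (n + 1)) = δ ^ (p ^ (n + 1)) - 1 + (p : S) * s₁ := by
    obtain ⟨r, hr⟩ := exists_add_pow_prime_pow_eq hp δ (-1) (n + 1)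
    have hodd : Odd (p ^ (n + 1)) := (hp.odd_of_ne_two hp2).pow
    rw [hodd.neg_one_pow] at hr
    refine ⟨- δ * r, ?_⟩
    rw [hY, sub_eq_add_neg, hr]; ring
  have hiter : ∀ (k : ℕ) (x : N), ∃ y w w' : N, x = V • y + Y ^ k • w + (p : S) • w' := by
    intro k
    induction k with
    | zero => intro x; exact ⟨0, x, 0, by simp⟩
    | succ k ih =>
      intro x
      obtain ⟨y, w, w', hx⟩ := ih x
      obtain ⟨y₁, w₁, hw⟩ := hstep w
      refine ⟨y + Y ^ k • y₁, Y ^ m • w₁, w' + (Y ^ k * c) • w₁, ?_⟩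
      rw [hx, hw, hc]
      module
  have hfin : ∀ x : N, ∃ y w : N, x = V • y + (p : O) • w := by
    intro x
    obtain ⟨y, w, w', hx⟩ := hiter (p ^ (n + 1)) x
    refine ⟨y, s₁ • w + w', ?_⟩
    rw [← hpS, hx, hs₁, add_smul, sub_smul, hδ, one_smul, sub_self, zero_add]
    module
  obtain ⟨L, hL⟩ : ∃ L : S →ₐ[O] Module.End O N, ∀ (s : S) (m : N), L s m = s • m :=
    ⟨Algebra.lsmul O O N, fun _ _ => rfl⟩
  have hsurj := tw_surj_of_nak (p : O) hpO (L V) (by
    intro x
    obtain ⟨y, w, h⟩ := hfin x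
    exact ⟨y, w, by rw [hL]; exact h⟩)
  obtain ⟨y, hy⟩ := hsurj x
  exact ⟨y, by rw [← hL, hy]⟩

end Smul

section Op

variable {O N : Type*} [CommRing O] [AddCommGroup N] [Module O N]

open scoped IsMulCommutative in
/-- TW-ALG, operator form: `V` is onto. -/
theorem twAlg_op [Module.Finite O N] (p : ℕ) (hp : p.Prime) (hp2 : p ≠ 2)
    (hpO : (p : O) ∈ Ideal.jacobson (⊥ : Ideal O))
    (htf : ∀ x : N, (p : O) • x = 0 → x = 0)
    (δ V : Module.End O N) (hδV : Commute δ V) (n a : ℕ)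
    (hδ : δ ^ (p ^ (n + 1)) = 1)
    (hU : (1 + (δ - 1) * V) ^ (p ^ a) = 1)
    (H1 : ∀ x : N, ((δ - 1) * ∑ j ∈ range (p ^ n), δ ^ (p * j)) x = 0 →
      ∃ y : N, x = (∑ k ∈ range p, δ ^ k) y)
    (R : ∀ x : N, ((δ - 1) * V) x = 0 → (∑ k ∈ range p, δ ^ k) x = 0 → x = 0) :
    Function.Surjective V := by
  have hcomm : ∀ x ∈ ({δ, V} : Set (Module.End O N)), ∀ y ∈ ({δ, V} : Set (Module.End O N)),
      x * y = y * x := by
    rintro x (rfl | rfl) y (rfl | rfl)
    · rfl
    · exact hδV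
    · exact hδV.symm
    · rfl
  have hmc := Algebra.isMulCommutative_adjoin O hcomm
  obtain ⟨S, hS⟩ : ∃ S : Subalgebra O (Module.End O N),
      S = Algebra.adjoin O ({δ, V} : Set (Module.End O N)) := ⟨_, rfl⟩
  have : IsMulCommutative S := by rw [hS]; exact hmc
  have hδS : δ ∈ S := by rw [hS]; exact Algebra.subset_adjoin (by simp)
  have hVS : V ∈ S := by rw [hS]; exact Algebra.subset_adjoin (by simp)
  obtain ⟨δ', hδ'⟩ : ∃ δ' : S, S.val δ' = δ := ⟨⟨δ, hδS⟩, rfl⟩
  obtain ⟨V', hV'⟩ : ∃ V' : S, S.val V' = V := ⟨⟨V, hVS⟩, rfl⟩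
  have key : ∀ (s : S) (x : N), s • x = S.val s x := fun _ _ => rfl
  intro x
  have hmain := twAlg_smul (O := O) (S := S) (N := N) p hp hp2 hpO htf δ' V' n a ?_ ?_ ?_ ?_ x
  · obtain ⟨y, hy⟩ := hmain
    exact ⟨y, by rw [← hV', ← key, hy]⟩
  · intro x
    rw [key, map_pow, hδ', hδ, Module.End.one_apply]
  · intro x
    rw [key]
    simp only [map_pow, map_add, map_mul, map_sub, map_one, hδ', hV']
    rw [hU, Module.End.one_apply]
  · intro x hx
    rw [key] at hx
    simp only [map_pow, map_sum, map_mul, map_sub, map_one, hδ'] at hx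
    obtain ⟨y, hy⟩ := H1 x hx
    refine ⟨y, ?_⟩
    rw [key]
    simp only [map_pow, map_sum, hδ']
    exact hy
  · intro x hx1 hx2
    rw [key] at hx1 hx2
    simp only [map_pow, map_sum, map_mul, map_sub, map_one, hδ', hV'] at hx1 hx2
    exact R x hx1 hx2

end Op

section Basis

variable {O N ι : Type*} [CommRing O] [AddCommGroup N] [Module O N] [Fintype ι]

/-- expansion of `x` in a basis of the form `δ ^ k (e i)`. -/
theorem twBasis_expand (q : ℕ) (δ : Module.End O N) (e : ι → N)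
    (B : Module.Basis (Fin q × ι) O N) (hB : ∀ z, B z = (δ ^ (z.1 : ℕ)) (e z.2)) (x : N) :
    ∃ f : ι → O[X], x = ∑ i, (aeval δ (f i)) (e i) := by
  refine ⟨fun i => ∑ k : Fin q, C (B.repr x (k, i)) * X ^ (k : ℕ), ?_⟩
  conv_lhs => rw [← B.sum_repr x]
  rw [Fintype.sum_prod_type_right]
  apply Finset.sum_congr rfl
  intro i _
  rw [map_sum, LinearMap.sum_apply]
  apply Finset.sum_congr rfl
  intro k _
  rw [hB]
  simp

/-- uniqueness of the expansion modulo `X ^ q - 1`. -/
theorem twBasis_ker [Nontrivial O] (q : ℕ) (hq : 0 < q) (δ : Module.End O N) (e : ι → N)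
    (B : Module.Basis (Fin q × ι) O N) (hB : ∀ z, B z = (δ ^ (z.1 : ℕ)) (e z.2))
    (hδ : δ ^ q = 1) (f : ι → O[X]) (hf : ∑ i, (aeval δ (f i)) (e i) = 0) (i : ι) :
    ∃ g : O[X], f i = (X ^ q - 1) * g := by
  have hmonic : (X ^ q - 1 : O[X]).Monic := by
    have := monic_X_pow_sub_C (1 : O) hq.ne'
    simpa using this
  have hdeg : (X ^ q - 1 : O[X]).natDegree = q := by
    have := natDegree_X_pow_sub_C (R := O) (n := q) (r := 1)
    simpa using this
  have hne1 : (X ^ q - 1 : O[X]) ≠ 1 := by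
    intro h
    have := congrArg natDegree h
    rw [hdeg, natDegree_one] at this
    omega
  have hae : aeval δ (X ^ q - 1 : O[X]) = 0 := by simp [hδ]
  have hr : ∀ i, aeval δ (f i) = aeval δ (f i %ₘ (X ^ q - 1)) := by
    intro i
    conv_lhs => rw [← modByMonic_add_div (f i) (X ^ q - 1)]
    rw [map_add, map_mul, hae, zero_mul, add_zero]
  have hrdeg : ∀ i, (f i %ₘ (X ^ q - 1)).natDegree < q := by
    intro i
    have := natDegree_modByMonic_lt (f i) hmonic hne1
    rwa [hdeg] at this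
  have hsum : ∑ z : Fin q × ι, (f z.2 %ₘ (X ^ q - 1)).coeff (z.1 : ℕ) • B z = 0 := by
    rw [Fintype.sum_prod_type_right, ← hf]
    apply Finset.sum_congr rfl
    intro i _
    rw [hr i, aeval_eq_sum_range' (hrdeg i), LinearMap.sum_apply, Finset.sum_range]
    apply Finset.sum_congr rfl
    intro k _
    rw [hB]
    rfl
  have hcoef := Fintype.linearIndependent_iff.1 B.linearIndependent _ hsum
  have hzero : f i %ₘ (X ^ q - 1) = 0 := by
    ext k
    rw [coeff_zero]
    by_cases hk : k < q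
    · exact hcoef (⟨k, hk⟩, i)
    · exact coeff_eq_zero_of_natDegree_lt (lt_of_lt_of_le (hrdeg i) (not_lt.mp hk))
  refine ⟨f i /ₘ (X ^ q - 1), ?_⟩
  conv_lhs => rw [← modByMonic_add_div (f i) (X ^ q - 1)]
  rw [hzero, zero_add]

/-- `ker F(δ) ⊆ range G(δ)` if `F G = X ^ q - 1`, `F` monic. -/
theorem twBasis_ker_range [Nontrivial O] (q : ℕ) (hq : 0 < q) (δ : Module.End O N) (e : ι → N)
    (B : Module.Basis (Fin q × ι) O N) (hB : ∀ z, B z = (δ ^ (z.1 : ℕ)) (e z.2))
    (hδ : δ ^ q = 1) (F G : O[X]) (hF : F.Monic) (hFG : F * G = X ^ q - 1)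
    (x : N) (hx : aeval δ F x = 0) : ∃ y, x = aeval δ G y := by
  obtain ⟨f, hf⟩ := twBasis_expand q δ e B hB x
  have h1 : ∑ i, (aeval δ (F * f i)) (e i) = 0 := by
    rw [← hx, hf, map_sum]
    apply Finset.sum_congr rfl
    intro i _
    rw [map_mul]; rfl
  have h2 := twBasis_ker q hq δ e B hB hδ (fun i => F * f i) h1
  choose g hg using h2
  have h3 : ∀ i, f i = G * g i := by
    intro i
    have := hg i
    rw [← hFG, mul_assoc] at this
    exact hF.isRegular.left this
  refine ⟨∑ i, (aeval δ (g i)) (e i), ?_⟩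
  rw [hf, map_sum]
  apply Finset.sum_congr rfl
  intro i _
  rw [h3 i, map_mul]; rfl

end Basis

section Basis2

variable {O N ι : Type*} [CommRing O] [AddCommGroup N] [Module O N]

/-- `δ ^ m (e i)` is a basis vector. -/
theorem twBasis_pow (q : ℕ) (hq : 0 < q) (δ : Module.End O N) (e : ι → N)
    (B : Module.Basis (Fin q × ι) O N) (hB : ∀ z, B z = (δ ^ (z.1 : ℕ)) (e z.2))
    (hδ : δ ^ q = 1) (m : ℕ) (i : ι) :
    (δ ^ m) (e i) = B (⟨m % q, Nat.mod_lt _ hq⟩, i) := by
  rw [hB, pow_eq_pow_mod m hδ]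

/-- the quotient `V = (U - 1) / (δ - 1)` on a module with a basis `δ ^ k (e i)`. -/
theorem twBasis_exists_V (q : ℕ) (hq : 0 < q) (δ U : Module.End O N) (hδU : Commute δ U)
    (e : ι → N) (B : Module.Basis (Fin q × ι) O N) (hB : ∀ z, B z = (δ ^ (z.1 : ℕ)) (e z.2))
    (hδ : δ ^ q = 1) (T : ∀ x : N, ∃ y : N, (U - 1) x = (δ - 1) y) :
    ∃ V : Module.End O N, Commute δ V ∧ (δ - 1) * V = U - 1 := by
  choose v hv using fun i => T (e i)
  obtain ⟨V, hV⟩ : ∃ V : Module.End O N, ∀ z, V (B z) = (δ ^ (z.1 : ℕ)) (v z.2) :=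
    ⟨B.constr O (fun z => (δ ^ (z.1 : ℕ)) (v z.2)), fun z => B.constr_basis O _ z⟩
  have hVpow : ∀ (m : ℕ) (i : ι), V ((δ ^ m) (e i)) = (δ ^ m) (v i) := by
    intro m i
    rw [twBasis_pow q hq δ e B hB hδ m i, hV, ← pow_eq_pow_mod m hδ]
  have hcomm : Commute δ V := by
    apply B.ext
    intro z
    rw [Module.End.mul_apply, Module.End.mul_apply, hV, hB]
    have h1 : δ ((δ ^ (z.1 : ℕ)) (e z.2)) = (δ ^ ((z.1 : ℕ) + 1)) (e z.2) := by
      rw [pow_succ', Module.End.mul_apply]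
    rw [h1, hVpow, pow_succ', Module.End.mul_apply]
  refine ⟨V, hcomm, ?_⟩
  apply B.ext
  intro z
  have hc : Commute (δ ^ (z.1 : ℕ)) (δ - 1) :=
    ((Commute.refl δ).pow_left _).sub_right (Commute.one_right _)
  have hc2 : Commute (δ ^ (z.1 : ℕ)) (U - 1) :=
    (hδU.pow_left _).sub_right (Commute.one_right _)
  rw [Module.End.mul_apply, hV, hB]
  calc (δ - 1) ((δ ^ (z.1 : ℕ)) (v z.2)) = ((δ - 1) * δ ^ (z.1 : ℕ)) (v z.2) := rfl
    _ = (δ ^ (z.1 : ℕ) * (δ - 1)) (v z.2) := by rw [hc.eq]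
    _ = (δ ^ (z.1 : ℕ)) ((δ - 1) (v z.2)) := rfl
    _ = (δ ^ (z.1 : ℕ)) ((U - 1) (e z.2)) := by rw [hv]
    _ = (δ ^ (z.1 : ℕ) * (U - 1)) (e z.2) := rfl
    _ = ((U - 1) * δ ^ (z.1 : ℕ)) (e z.2) := by rw [hc2.eq]
    _ = (U - 1) ((δ ^ (z.1 : ℕ)) (e z.2)) := rfl

/-- **TW-ALG**, basis form. -/
theorem twAlg_basis [Finite ι] (p : ℕ) (hp : p.Prime) (hp2 : p ≠ 2)
    (hpO : (p : O) ∈ Ideal.jacobson (⊥ : Ideal O))
    (hpnzd : ∀ c : O, (p : O) * c = 0 → c = 0)
    (n a : ℕ) (δ U : Module.End O N) (hδU : Commute δ U)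
    (hδ : δ ^ (p ^ (n + 1)) = 1) (hU : U ^ (p ^ a) = 1)
    (e : ι → N) (B : Module.Basis (Fin (p ^ (n + 1)) × ι) O N)
    (hB : ∀ z, B z = (δ ^ (z.1 : ℕ)) (e z.2))
    (T : ∀ x : N, ∃ y : N, (U - 1) x = (δ - 1) y)
    (R : ∀ x : N, U x = x → (∑ k ∈ range p, δ ^ k) x = 0 → x = 0) :
    ∀ x : N, ∃ y : N, (δ - 1) x = (U - 1) y := by
  classical
  cases nonempty_fintype ι
  rcases subsingleton_or_nontrivial O with hO | hO
  · intro x
    have := Module.subsingleton O N
    exact ⟨0, Subsingleton.elim _ _⟩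
  have hq : 0 < p ^ (n + 1) := pow_pos hp.pos _
  have : Module.Finite O N := Module.Finite.of_basis B
  have htf : ∀ x : N, (p : O) • x = 0 → x = 0 := by
    intro x hx
    apply B.repr.injective
    ext z
    have := congrArg (fun y => B.repr y z) hx
    simp only [map_smul, Finsupp.smul_apply, smul_eq_mul, map_zero, Finsupp.zero_apply] at this
    simpa using hpnzd _ this
  obtain ⟨V, hδV, hV⟩ := twBasis_exists_V (p ^ (n + 1)) hq δ U hδU e B hB hδ T
  have hU' : (1 + (δ - 1) * V) ^ (p ^ a) = 1 := by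
    rw [hV, add_sub_cancel, hU]
  have hG : (∑ k ∈ range p, (X : O[X]) ^ k).Monic := monic_geom_sum_X hp.ne_zero
  have hFG : ((X - 1) * ∑ j ∈ range (p ^ n), (X : O[X]) ^ (p * j)) * (∑ k ∈ range p, (X : O[X]) ^ k)
      = X ^ (p ^ (n + 1)) - 1 := by
    have h1 : (∑ k ∈ range p, (X : O[X]) ^ k) * (X - 1) = X ^ p - 1 := geom_sum_mul X p
    have h2 : (∑ j ∈ range (p ^ n), (X : O[X]) ^ (p * j)) * (X ^ p - 1) = X ^ (p ^ (n + 1)) - 1 := by
      have := geom_sum_mul ((X : O[X]) ^ p) (p ^ n)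
      rw [← pow_mul, ← pow_succ'] at this
      rw [← this]
      congr 1
      apply Finset.sum_congr rfl
      intro j _
      rw [pow_mul]
    rw [← h2, ← h1]; ring
  have hF : ((X - 1) * ∑ j ∈ range (p ^ n), (X : O[X]) ^ (p * j)).Monic := by
    apply Monic.of_mul_monic_right hG
    rw [hFG]
    have := monic_X_pow_sub_C (1 : O) hq.ne'
    simpa using this
  have H1 : ∀ x : N, ((δ - 1) * ∑ j ∈ range (p ^ n), δ ^ (p * j)) x = 0 →
      ∃ y : N, x = (∑ k ∈ range p, δ ^ k) y := by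
    intro x hx
    obtain ⟨y, hy⟩ := twBasis_ker_range (p ^ (n + 1)) hq δ e B hB hδ _ _ hF hFG x
      (by simpa using hx)
    exact ⟨y, by simpa using hy⟩
  have R' : ∀ x : N, ((δ - 1) * V) x = 0 → (∑ k ∈ range p, δ ^ k) x = 0 → x = 0 := by
    intro x hx1 hx2
    apply R x _ hx2
    rw [hV] at hx1
    have : U x - x = 0 := hx1
    exact sub_eq_zero.mp this
  have hsurj := twAlg_op p hp hp2 hpO htf δ V hδV n a hδ hU' H1 R'
  intro x
  obtain ⟨y, rfl⟩ := hsurj x
  exact ⟨y, by rw [← hV]; rfl⟩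

/-- **TW-ALG**, basis form, as an equality of submodules. -/
theorem twAlg_basis_range [Finite ι] (p : ℕ) (hp : p.Prime) (hp2 : p ≠ 2)
    (hpO : (p : O) ∈ Ideal.jacobson (⊥ : Ideal O))
    (hpnzd : ∀ c : O, (p : O) * c = 0 → c = 0)
    (n a : ℕ) (δ U : Module.End O N) (hδU : Commute δ U)
    (hδ : δ ^ (p ^ (n + 1)) = 1) (hU : U ^ (p ^ a) = 1)
    (e : ι → N) (B : Module.Basis (Fin (p ^ (n + 1)) × ι) O N)
    (hB : ∀ z, B z = (δ ^ (z.1 : ℕ)) (e z.2))
    (T : LinearMap.range (U - 1) ≤ LinearMap.range (δ - 1))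
    (R : ∀ x : N, U x = x → (∑ k ∈ range p, δ ^ k) x = 0 → x = 0) :
    LinearMap.range (U - 1) = LinearMap.range (δ - 1) := by
  apply le_antisymm T
  rintro _ ⟨x, rfl⟩
  have T' : ∀ x : N, ∃ y : N, (U - 1) x = (δ - 1) y := by
    intro x
    obtain ⟨y, hy⟩ := T ⟨x, rfl⟩
    exact ⟨y, hy.symm⟩
  obtain ⟨y, hy⟩ := twAlg_basis p hp hp2 hpO hpnzd n a δ U hδU hδ hU e B hB T' R x
  exact ⟨y, hy.symm⟩

end Basis2

section Transfer

variable {O N ι : Type*} [CommRing O] [AddCommGroup N] [Module O N]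

/-- Basis transfer: if `(δ - 1) N ⊆ (U - 1) N` and `U ^ (p ^ m) = 1`, then `U ^ k (e i)` is a basis. -/
theorem twBasis_transfer [Finite ι] (p : ℕ) (hp : p.Prime) (hp2 : p ≠ 2)
    (hpO : (p : O) ∈ Ideal.jacobson (⊥ : Ideal O))
    (m : ℕ) (δ U : Module.End O N)
    (hU : U ^ (p ^ m) = 1)
    (e : ι → N) (B : Module.Basis (Fin (p ^ m) × ι) O N)
    (hB : ∀ z, B z = (δ ^ (z.1 : ℕ)) (e z.2))
    (hrange : ∀ x : N, ∃ y : N, (δ - 1) x = (U - 1) y) :
    ∃ B' : Module.Basis (Fin (p ^ m) × ι) O N, ∀ z, B' z = (U ^ (z.1 : ℕ)) (e z.2) := by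
  classical
  cases nonempty_fintype ι
  have hq : 0 < p ^ m := pow_pos hp.pos _
  have : Module.Finite O N := Module.Finite.of_basis B
  obtain ⟨F, hF⟩ : ∃ F : Module.End O N, ∀ z, F (B z) = (U ^ (z.1 : ℕ)) (e z.2) :=
    ⟨B.constr O (fun z => (U ^ (z.1 : ℕ)) (e z.2)), fun z => B.constr_basis O _ z⟩
  -- the range of F
  have hFpow : ∀ (k : ℕ) (i : ι), (U ^ k) (e i) ∈ LinearMap.range F := by
    intro k i
    refine ⟨B (⟨k % p ^ m, Nat.mod_lt _ hq⟩, i), ?_⟩
    rw [hF, ← pow_eq_pow_mod k hU]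
  have hFrange : ∀ y ∈ LinearMap.range F, ∃ c : Fin (p ^ m) × ι → O,
      y = ∑ z, c z • (U ^ (z.1 : ℕ)) (e z.2) := by
    rintro _ ⟨x, rfl⟩
    refine ⟨fun z => B.repr x z, ?_⟩
    conv_lhs => rw [← B.sum_repr x]
    rw [map_sum]
    apply Finset.sum_congr rfl
    intro z _
    rw [map_smul, hF]
  have hstabU : ∀ y ∈ LinearMap.range F, U y ∈ LinearMap.range F := by
    intro y hy
    obtain ⟨c, rfl⟩ := hFrange y hy
    rw [map_sum]
    apply Submodule.sum_mem
    intro z _
    rw [map_smul]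
    apply Submodule.smul_mem
    have : U ((U ^ (z.1 : ℕ)) (e z.2)) = (U ^ ((z.1 : ℕ) + 1)) (e z.2) := by
      rw [pow_succ', Module.End.mul_apply]
    rw [this]
    exact hFpow _ _
  have hstab1 : ∀ y ∈ LinearMap.range F, (U - 1) y ∈ LinearMap.range F := by
    intro y hy
    exact Submodule.sub_mem _ (hstabU y hy) hy
  have hstab : ∀ (k : ℕ), ∀ y ∈ LinearMap.range F, ((U - 1) ^ k) y ∈ LinearMap.range F := by
    intro k
    induction k with
    | zero => intro y hy; simpa using hy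
    | succ k ih =>
      intro y hy
      rw [pow_succ, Module.End.mul_apply]
      exact ih _ (hstab1 y hy)
  -- N = span e + (U - 1) N
  have hA : ∀ x : N, ∃ s ∈ LinearMap.range F, ∃ w : N, x = s + (U - 1) w := by
    have htop : (⊤ : Submodule O N) ≤ LinearMap.range F ⊔ LinearMap.range (U - 1) := by
      rw [← B.span_eq, Submodule.span_le]
      rintro _ ⟨z, rfl⟩
      rw [hB]
      have h1 : (δ ^ (z.1 : ℕ)) (e z.2) = e z.2 + (δ - 1) ((∑ j ∈ range (z.1 : ℕ), δ ^ j) (e z.2)) := by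
        have h2 : (δ - 1) * (∑ j ∈ range (z.1 : ℕ), δ ^ j) = δ ^ (z.1 : ℕ) - 1 := mul_geom_sum δ _
        have h3 : (δ - 1) ((∑ j ∈ range (z.1 : ℕ), δ ^ j) (e z.2)) =
            ((δ - 1) * (∑ j ∈ range (z.1 : ℕ), δ ^ j)) (e z.2) := rfl
        rw [h3, h2, LinearMap.sub_apply, Module.End.one_apply]
        abel
      rw [h1]
      obtain ⟨y, hy⟩ := hrange ((∑ j ∈ range (z.1 : ℕ), δ ^ j) (e z.2))
      rw [hy]
      apply Submodule.add_mem_sup
      · have := hFpow 0 z.2
        simpa using this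
      · exact ⟨y, rfl⟩
    intro x
    obtain ⟨s, hs, t, ⟨w, rfl⟩, hx⟩ := Submodule.mem_sup.mp (htop (Submodule.mem_top (x := x)))
    exact ⟨s, hs, w, hx.symm⟩
  have hiter : ∀ (k : ℕ) (x : N), ∃ s ∈ LinearMap.range F, ∃ w : N, x = s + ((U - 1) ^ k) w := by
    intro k
    induction k with
    | zero => intro x; exact ⟨0, Submodule.zero_mem _, x, by simp⟩
    | succ k ih =>
      intro x
      obtain ⟨s, hs, w, hx⟩ := ih x
      obtain ⟨s', hs', w', hw⟩ := hA w
      refine ⟨s + ((U - 1) ^ k) s', Submodule.add_mem _ hs (hstab k s' hs'), w', ?_⟩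
      rw [hx, hw, map_add, pow_succ, Module.End.mul_apply]
      abel
  -- (U - 1) ^ q is divisible by p
  obtain ⟨r, hr⟩ : ∃ r : Module.End O N, (U - 1) ^ (p ^ m) = (p : O) • r := by
    have hc : Commute U (-1 : Module.End O N) := (Commute.one_right U).neg_right
    obtain ⟨r, hr⟩ := hc.exists_add_pow_prime_pow_eq hp m
    rcases Nat.eq_zero_or_pos m with hm | hm
    · subst hm
      refine ⟨0, ?_⟩
      rw [pow_zero, pow_one] at hU ⊢
      rw [hU, sub_self, smul_zero]
    · have hodd : Odd (p ^ m) := (hp.odd_of_ne_two hp2).pow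
      rw [hodd.neg_one_pow, hU] at hr
      refine ⟨U * (-1) * r, ?_⟩
      rw [sub_eq_add_neg, hr, Nat.cast_smul_eq_nsmul, nsmul_eq_mul]
      noncomm_ring
  have hsurj : Function.Surjective F := by
    apply tw_surj_of_nak (p : O) hpO F
    intro x
    obtain ⟨s, ⟨y, rfl⟩, w, hx⟩ := hiter (p ^ m) x
    refine ⟨y, r w, ?_⟩
    rw [hx, hr]
    rfl
  have hinj : Function.Injective F := OrzechProperty.injective_of_surjective_endomorphism F hsurj
  have hbij : Function.Bijective F := ⟨hinj, hsurj⟩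
  refine ⟨B.map (LinearEquiv.ofBijective F hbij), ?_⟩
  intro z
  rw [Module.Basis.map_apply]
  exact hF z

end Transfer

section Main

variable {O N ι : Type*} [CommRing O] [AddCommGroup N] [Module O N]

/-- **TW-ALG** (packaged).  `N` has an `O`-basis `δ ^ k (e i)`, `k < p ^ (n+1)` (i.e. `N` is free over
`O[⟨δ⟩]`, `δ` of order `p ^ (n+1)`), `U` commutes with `δ`, `U ^ (p ^ (n+1)) = 1`,
(T) `(U - 1) N ⊆ (δ - 1) N`, (R) `U x = x` and `(1 + δ + ... + δ^(p-1)) x = 0` imply `x = 0`.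
Then `(U - 1) N = (δ - 1) N` and `U ^ k (e i)` is an `O`-basis of `N`. -/
theorem twAlg [Finite ι] (p : ℕ) (hp : p.Prime) (hp2 : p ≠ 2)
    (hpO : (p : O) ∈ Ideal.jacobson (⊥ : Ideal O))
    (hpnzd : ∀ c : O, (p : O) * c = 0 → c = 0)
    (n : ℕ) (δ U : Module.End O N) (hδU : Commute δ U)
    (hδ : δ ^ (p ^ (n + 1)) = 1) (hU : U ^ (p ^ (n + 1)) = 1)
    (e : ι → N) (B : Module.Basis (Fin (p ^ (n + 1)) × ι) O N)
    (hB : ∀ z, B z = (δ ^ (z.1 : ℕ)) (e z.2))
    (T : LinearMap.range (U - 1) ≤ LinearMap.range (δ - 1))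
    (R : ∀ x : N, U x = x → (∑ k ∈ range p, δ ^ k) x = 0 → x = 0) :
    LinearMap.range (U - 1) = LinearMap.range (δ - 1) ∧
      ∃ B' : Module.Basis (Fin (p ^ (n + 1)) × ι) O N, ∀ z, B' z = (U ^ (z.1 : ℕ)) (e z.2) := by
  have h1 := twAlg_basis_range p hp hp2 hpO hpnzd n (n + 1) δ U hδU hδ hU e B hB T R
  refine ⟨h1, ?_⟩
  apply twBasis_transfer p hp hp2 hpO (n + 1) δ U hU e B hB
  intro x
  have : (δ - 1) x ∈ LinearMap.range (U - 1) := by rw [h1]; exact ⟨x, rfl⟩
  obtain ⟨y, hy⟩ := this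
  exact ⟨y, hy.symm⟩

end Main

end Fermat.Agent.S59.H314

end
-- ===== PACK-END S59/H314/TwAlg.lean

-- ===== PACK-BEGIN S59/G4/H109/PointsDVR.lean
section




/-!
# Row S59, layer G4, piece POINTS — part 1 (helper109)

The integral closure of a complete discrete valuation ring `𝒪` of characteristic zero in a finite
extension `L` of its fraction field `K` is again a complete discrete valuation ring, finite over
`𝒪`, with `𝒪 → integralClosure 𝒪 L` a local homomorphism.
(Port of `S31/H262/PadicDVR.lean` (helper262) from `ℤ_[p]` to a general `𝒪`.)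
-/

set_option autoImplicit false
set_option linter.unusedSectionVars false
set_option linter.style.haveILetI false

noncomputable section

namespace Fermat.Agent.S59.G4.H109

open IsLocalRing

section DVR

variable (𝒪 : Type) [CommRing 𝒪] [IsDomain 𝒪] [IsDiscreteValuationRing 𝒪]
  [IsAdicComplete (maximalIdeal 𝒪) 𝒪] [CharZero 𝒪]
variable (K : Type) [Field K] [Algebra 𝒪 K] [IsFractionRing 𝒪 K]
variable (L : Type) [Field L] [Algebra K L] [Algebra 𝒪 L] [IsScalarTower 𝒪 K L]
  [FiniteDimensional K L]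

/-- The ring of integers of `L`. -/
abbrev intRingO : Subalgebra 𝒪 L := integralClosure 𝒪 L

include 𝒪 in
theorem charZero_K : CharZero K :=
  charZero_of_injective_algebraMap (IsFractionRing.injective 𝒪 K)

include 𝒪 K in
theorem charZero_L : CharZero L :=
  haveI := charZero_K 𝒪 K
  charZero_of_injective_algebraMap (algebraMap K L).injective

include K in
theorem intRingO_isDedekindDomain : IsDedekindDomain (intRingO 𝒪 L) :=
  haveI := charZero_K 𝒪 K
  integralClosure.isDedekindDomain 𝒪 K L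

include K in
theorem intRingO_moduleFinite : Module.Finite 𝒪 (intRingO 𝒪 L) :=
  haveI := charZero_K 𝒪 K
  IsIntegralClosure.finite 𝒪 K L (intRingO 𝒪 L)

include K in
theorem intRingO_isNoetherianRing : IsNoetherianRing (intRingO 𝒪 L) :=
  haveI := charZero_K 𝒪 K
  IsIntegralClosure.isNoetherianRing 𝒪 K L (intRingO 𝒪 L)

include K in
theorem algebraMap_O_L_injective : Function.Injective (algebraMap 𝒪 L) := by
  rw [IsScalarTower.algebraMap_eq 𝒪 K L]
  exact (algebraMap K L).injective.comp (IsFractionRing.injective 𝒪 K)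

include K in
theorem algebraMap_intRingO_injective : Function.Injective (algebraMap 𝒪 (intRingO 𝒪 L)) := by
  intro a b h
  apply algebraMap_O_L_injective 𝒪 K L
  have := congrArg (fun x : intRingO 𝒪 L => (x : L)) h
  exact this

include K in
theorem intRingO_charZero : CharZero (intRingO 𝒪 L) :=
  charZero_of_injective_algebraMap (algebraMap_intRingO_injective 𝒪 K L)

include K in
/-- `𝒪 → integralClosure 𝒪 L` is a local homomorphism. -/
theorem intRingO_isLocalHom : IsLocalHom (algebraMap 𝒪 (intRingO 𝒪 L)) := by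
  apply RingHom.IsIntegral.isLocalHom _ (algebraMap_intRingO_injective 𝒪 K L)
  intro x
  have hx : IsIntegral 𝒪 (x : L) := x.2
  obtain ⟨q, hq, hq0⟩ := hx
  refine ⟨q, hq, ?_⟩
  apply Subtype.ext
  have h1 : ((Polynomial.eval₂ (algebraMap 𝒪 (intRingO 𝒪 L)) x q : intRingO 𝒪 L) : L)
      = Polynomial.eval₂ (algebraMap 𝒪 L) (x : L) q := by
    rw [← Polynomial.aeval_def, ← Polynomial.aeval_def]
    exact (Polynomial.aeval_algHom_apply (intRingO 𝒪 L).val x q).symm
  rw [h1, hq0]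
  rfl

include K in
theorem intRingO_not_isField : ¬ IsField (intRingO 𝒪 L) := by
  intro hF
  obtain ⟨ϖ, hϖ⟩ := IsDiscreteValuationRing.exists_irreducible 𝒪
  have h0 : algebraMap 𝒪 (intRingO 𝒪 L) ϖ ≠ 0 := by
    intro h
    exact hϖ.ne_zero (algebraMap_intRingO_injective 𝒪 K L (by rw [h, map_zero]))
  obtain ⟨b, hb⟩ := hF.mul_inv_cancel h0
  have hu : IsUnit (algebraMap 𝒪 (intRingO 𝒪 L) ϖ) := IsUnit.of_mul_eq_one _ hb
  haveI := intRingO_isLocalHom 𝒪 K L
  exact hϖ.not_isUnit (isUnit_of_map_unit (algebraMap 𝒪 (intRingO 𝒪 L)) ϖ hu)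

include K in
/-- The ring of integers is a local ring (it is a domain, finite over the complete local ring
`𝒪`, hence it is the product of its localisations at its finitely many maximal ideals). -/
theorem intRingO_isLocalRing : IsLocalRing (intRingO 𝒪 L) := by
  classical
  haveI := intRingO_moduleFinite 𝒪 K L
  obtain ⟨-, hbij, -, -⟩ :=
    Algebra.finite_maximalSpectrum_and_bijective_localization_of_module_finite (𝒪 := 𝒪)
      (intRingO 𝒪 L)
  -- at most one maximal ideal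
  have huniq : ∀ I J : MaximalSpectrum (intRingO 𝒪 L), I = J := by
    intro I J
    by_contra hIJ
    obtain ⟨e, he⟩ := hbij.2 (Function.update
      (0 : ∀ K' : MaximalSpectrum (intRingO 𝒪 L), Localization.AtPrime K'.asIdeal) I 1)
    have hI : algebraMap (intRingO 𝒪 L) (Localization.AtPrime I.asIdeal) e = 1 := by
      have := congrFun he I
      simpa using this
    have hJ : algebraMap (intRingO 𝒪 L) (Localization.AtPrime J.asIdeal) e = 0 := by
      have := congrFun he J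
      simpa [Function.update_of_ne (Ne.symm hIJ)] using this
    have hprod : e * (1 - e) = 0 := by
      apply hbij.1
      funext K'
      simp only [RingHom.pi_apply, map_mul, map_sub, map_one, map_zero]
      by_cases hK : K' = I
      · subst hK; rw [hI]; simp
      · have : algebraMap (intRingO 𝒪 L) (Localization.AtPrime K'.asIdeal) e = 0 := by
          have := congrFun he K'
          simpa [Function.update_of_ne hK] using this
        rw [this]; simp
    rcases mul_eq_zero.mp hprod with h0 | h1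
    · rw [h0, map_zero] at hI
      exact zero_ne_one hI
    · have : e = 1 := (sub_eq_zero.mp h1).symm
      rw [this, map_one] at hJ
      exact one_ne_zero hJ
  obtain ⟨M, hM⟩ := Ideal.exists_maximal (intRingO 𝒪 L)
  refine IsLocalRing.of_unique_max_ideal ⟨M, hM, fun J hJ => ?_⟩
  exact congrArg MaximalSpectrum.asIdeal (huniq ⟨J, hJ⟩ ⟨M, hM⟩)

include K in
theorem intRingO_isDiscreteValuationRing : IsDiscreteValuationRing (intRingO 𝒪 L) :=
  haveI := intRingO_isLocalRing 𝒪 K L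
  haveI := intRingO_isNoetherianRing 𝒪 K L
  ((IsDiscreteValuationRing.TFAE (intRingO 𝒪 L) (intRingO_not_isField 𝒪 K L)).out 0 2).mpr
    (intRingO_isDedekindDomain 𝒪 K L)

include K in
theorem intRingO_isAdicComplete :
    haveI := intRingO_isLocalRing 𝒪 K L
    IsAdicComplete (maximalIdeal (intRingO 𝒪 L)) (intRingO 𝒪 L) := by
  haveI := intRingO_isLocalRing 𝒪 K L
  haveI := intRingO_moduleFinite 𝒪 K L
  haveI := intRingO_isLocalHom 𝒪 K L
  exact IsLocalRing.isAdicComplete_of_module_finite (𝒪 := 𝒪)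

include K in
theorem intRingO_finite_residueField [Finite (ResidueField 𝒪)] :
    haveI := intRingO_isLocalRing 𝒪 K L
    Finite (ResidueField (intRingO 𝒪 L)) := by
  haveI := intRingO_isLocalRing 𝒪 K L
  haveI := intRingO_moduleFinite 𝒪 K L
  haveI := intRingO_isLocalHom 𝒪 K L
  exact Module.finite_of_finite (ResidueField 𝒪)

include K in
/-- Powers of the maximal ideal are cofinal with the powers of any nonzero element. -/
theorem exists_maximalIdeal_pow_le_span_pow (ϖ : 𝒪) (hϖ : ϖ ≠ 0) (n : ℕ) :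
    haveI := intRingO_isLocalRing 𝒪 K L
    ∃ m : ℕ, maximalIdeal (intRingO 𝒪 L) ^ m
      ≤ Ideal.span {algebraMap 𝒪 (intRingO 𝒪 L) ϖ ^ n} := by
  haveI := intRingO_isLocalRing 𝒪 K L
  haveI := intRingO_isNoetherianRing 𝒪 K L
  have hp0 : algebraMap 𝒪 (intRingO 𝒪 L) ϖ ≠ 0 := by
    intro h
    exact hϖ (algebraMap_intRingO_injective 𝒪 K L (by rw [h, map_zero]))
  have hne : Ideal.span {algebraMap 𝒪 (intRingO 𝒪 L) ϖ} ≠ ⊥ := by
    rw [Ne, Ideal.span_singleton_eq_bot]
    exact hp0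
  have hall : ∀ I : Ideal (intRingO 𝒪 L), I ≠ ⊥ → ∃ n, I = maximalIdeal (intRingO 𝒪 L) ^ n :=
    ((IsDiscreteValuationRing.TFAE (intRingO 𝒪 L) (intRingO_not_isField 𝒪 K L)).out 0 6).mp
      (intRingO_isDiscreteValuationRing 𝒪 K L)
  obtain ⟨e, he⟩ := hall _ hne
  refine ⟨e * n, ?_⟩
  rw [pow_mul, ← he, Ideal.span_singleton_pow]

end DVR

end Fermat.Agent.S59.G4.H109

end
end
-- ===== PACK-END S59/G4/H109/PointsDVR.lean

-- ===== PACK-BEGIN S59/TW/H658/Transfer.lean
section


/-!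
# S59 / TW-ES (helper658): transfer of Hecke relations (abstract, Mathlib only)

Let `T' : ι → End_R V'` be a family of operators (think: `T_ℓ` on `S₂(Γ₀(N Q²))`) and
`t : ι → End_ℤ X` another family (think: `⟨ℓ⟩^(-1/2) T_ℓ` on `Hom(Γ_H, ℂ)`), and `Y ⊆ X` a
subgroup stable under all `t i` (think: the parabolic classes).

* `lift_intertwine` : an additive map intertwining two families intertwines all noncommutative
  polynomials in them;
* `rel_of_intertwiners` : if `Y` is generated by the images of groups `W e` (and their images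
  under an additive map `c` commuting with `t`, think: complex conjugation), each `W e` carrying
  operators intertwined with `t` by `p e : W e → X` and with `T'` by an INJECTIVE
  `j e : W e → V'`, then every polynomial relation among the `T' i` holds for the `t i` on `Y`;
* `exists_ringHom_of_rel` : then there is a ring homomorphism
  `Algebra.adjoin ℤ (range T') →+* End_ℤ Y` sending `T' i` to `t i`.
-/

set_option autoImplicit false

namespace Fermat.Agent.S59.TW.H658

section Intertwine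

variable {ι : Type*}

/-- An additive map intertwining two families of operators intertwines all noncommutative
polynomials in them. -/
theorem lift_intertwine {M₁ M₂ : Type*} [AddCommGroup M₁] [AddCommGroup M₂]
    (a₁ : ι → Module.End ℤ M₁) (a₂ : ι → Module.End ℤ M₂) (u : M₁ →+ M₂)
    (h : ∀ i m, u (a₁ i m) = a₂ i (u m)) (P : FreeAlgebra ℤ ι) (m : M₁) :
    u (FreeAlgebra.lift ℤ a₁ P m) = FreeAlgebra.lift ℤ a₂ P (u m) := by
  induction P using FreeAlgebra.induction generalizing m with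
  | grade0 r =>
    rw [AlgHom.commutes, AlgHom.commutes, Module.algebraMap_end_apply,
      Module.algebraMap_end_apply, map_zsmul]
  | grade1 x => rw [FreeAlgebra.lift_ι_apply, FreeAlgebra.lift_ι_apply, h]
  | mul a b ha hb =>
    rw [map_mul, map_mul, Module.End.mul_apply, Module.End.mul_apply, ha, hb]
  | add a b ha hb =>
    rw [map_add, map_add, LinearMap.add_apply, LinearMap.add_apply, map_add, ha, hb]

/-- Restriction of scalars of endomorphisms, as a `ℤ`-algebra homomorphism. -/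
def endToInt (R : Type*) [CommRing R] (V : Type*) [AddCommGroup V] [Module R V] :
    Module.End R V →ₐ[ℤ] Module.End ℤ V where
  toFun a := a.toAddMonoidHom.toIntLinearMap
  map_one' := rfl
  map_mul' _ _ := rfl
  map_zero' := rfl
  map_add' _ _ := rfl
  commutes' r := by
    refine LinearMap.ext fun v => ?_
    show (algebraMap ℤ (Module.End R V) r) v = (algebraMap ℤ (Module.End ℤ V) r) v
    rw [Module.algebraMap_end_apply, algebraMap_int_eq, eq_intCast, Module.End.intCast_apply]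

@[simp] theorem endToInt_apply {R : Type*} [CommRing R] {V : Type*} [AddCommGroup V]
    [Module R V] (a : Module.End R V) (v : V) : endToInt R V a v = a v := rfl

theorem lift_endToInt {R : Type*} [CommRing R] {V : Type*} [AddCommGroup V] [Module R V]
    (T' : ι → Module.End R V) (P : FreeAlgebra ℤ ι) :
    FreeAlgebra.lift ℤ (fun i => endToInt R V (T' i)) P
      = endToInt R V (FreeAlgebra.lift ℤ T' P) := by
  have h : FreeAlgebra.lift ℤ (fun i => endToInt R V (T' i))
      = (endToInt R V).comp (FreeAlgebra.lift ℤ T') := by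
    apply FreeAlgebra.hom_ext
    funext i
    simp
  rw [h]
  rfl

end Intertwine

section Rel

variable {ι : Type*} {R : Type*} [CommRing R] {V' : Type*} [AddCommGroup V'] [Module R V']
  (T' : ι → Module.End R V')
  {X : Type*} [AddCommGroup X] (t : ι → Module.End ℤ X) (Y : AddSubgroup X)

/-- **Transfer of relations.** -/
theorem rel_of_intertwiners {E : Type*} (W : E → Type*) [∀ e, AddCommGroup (W e)]
    (tw : ∀ e, ι → Module.End ℤ (W e))
    (j : ∀ e, W e →+ V') (hj : ∀ e, Function.Injective (j e))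
    (hjt : ∀ e i w, j e (tw e i w) = T' i (j e w))
    (p : ∀ e, W e →+ X) (hpt : ∀ e i w, p e (tw e i w) = t i (p e w))
    (c : X →+ X) (hct : ∀ i x, t i (c x) = c (t i x))
    (hY : ∀ y ∈ Y, y ∈ AddSubgroup.closure
      {x : X | ∃ e w, x = p e w ∨ x = c (p e w)})
    (P : FreeAlgebra ℤ ι) (hP : FreeAlgebra.lift ℤ T' P = 0) (y : X) (hy : y ∈ Y) :
    FreeAlgebra.lift ℤ t P y = 0 := by
  have hW : ∀ e (w : W e), FreeAlgebra.lift ℤ (tw e) P w = 0 := by
    intro e w
    apply hj e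
    have h1 := lift_intertwine (tw e) (fun i => endToInt R V' (T' i)) (j e)
      (fun i m => by rw [endToInt_apply, hjt]) P w
    rw [h1, lift_endToInt, hP, map_zero, LinearMap.zero_apply, map_zero]
  have hp : ∀ e (w : W e), FreeAlgebra.lift ℤ t P (p e w) = 0 := by
    intro e w
    rw [← lift_intertwine (tw e) t (p e) (hpt e) P w, hW, map_zero]
  have hc : ∀ x : X, FreeAlgebra.lift ℤ t P (c x) = c (FreeAlgebra.lift ℤ t P x) := fun x =>
    (lift_intertwine t t c (fun i m => (hct i m).symm) P x).symm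
  refine AddSubgroup.closure_induction (p := fun x _ => FreeAlgebra.lift ℤ t P x = 0)
    ?_ ?_ ?_ ?_ (hY y hy)
  · rintro x ⟨e, w, rfl | rfl⟩
    · exact hp e w
    · rw [hc, hp, map_zero]
  · exact map_zero _
  · intro a b _ _ ha hb
    rw [map_add, ha, hb, add_zero]
  · intro a _ ha
    rw [map_neg, ha, neg_zero]

variable {T' t Y}

/-- The restriction of the operators `t i` to the stable subgroup `Y`. -/
def restrictOps (hYt : ∀ i, ∀ y ∈ Y, t i y ∈ Y) (i : ι) : Module.End ℤ Y :=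
  (((t i).toAddMonoidHom.comp Y.subtype).codRestrict Y fun y => hYt i y y.2).toIntLinearMap

@[simp] theorem coe_restrictOps (hYt : ∀ i, ∀ y ∈ Y, t i y ∈ Y) (i : ι) (y : Y) :
    ((restrictOps hYt i y : Y) : X) = t i y := rfl

theorem coe_lift_restrictOps (hYt : ∀ i, ∀ y ∈ Y, t i y ∈ Y) (P : FreeAlgebra ℤ ι) (y : Y) :
    ((FreeAlgebra.lift ℤ (restrictOps hYt) P y : Y) : X) = FreeAlgebra.lift ℤ t P y :=
  lift_intertwine (restrictOps hYt) t Y.subtype (fun _ _ => rfl) P y

/-- **The Hecke ring acts.**  If every polynomial relation among the `T' i` holds for the `t i`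
on the stable subgroup `Y`, there is a ring homomorphism from the `ℤ`-algebra generated by the
`T' i` to `End_ℤ Y` sending `T' i` to `t i`. -/
theorem exists_ringHom_of_rel (hYt : ∀ i, ∀ y ∈ Y, t i y ∈ Y)
    (hrel : ∀ P : FreeAlgebra ℤ ι, FreeAlgebra.lift ℤ T' P = 0 →
      ∀ y ∈ Y, FreeAlgebra.lift ℤ t P y = 0) :
    ∃ Φ : Algebra.adjoin ℤ (Set.range T') →+* Module.End ℤ Y,
      (∀ (i : ι) (y : Y),
        ((Φ ⟨T' i, Algebra.subset_adjoin ⟨i, rfl⟩⟩ y : Y) : X) = t i y) ∧
      ∀ (P : FreeAlgebra ℤ ι) (hP : FreeAlgebra.lift ℤ T' P ∈ Algebra.adjoin ℤ (Set.range T'))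
        (y : Y), ((Φ ⟨FreeAlgebra.lift ℤ T' P, hP⟩ y : Y) : X) = FreeAlgebra.lift ℤ t P y := by
  classical
  set evT : FreeAlgebra ℤ ι →ₐ[ℤ] Module.End R V' := FreeAlgebra.lift ℤ T' with hevT
  set evY : FreeAlgebra ℤ ι →ₐ[ℤ] Module.End ℤ Y := FreeAlgebra.lift ℤ (restrictOps hYt)
    with hevY
  have hadj : Algebra.adjoin ℤ (Set.range T') = evT.range :=
    Algebra.adjoin_range_eq_range_freeAlgebra_lift ℤ ι T'
  have hker : ∀ P : FreeAlgebra ℤ ι, evT P = 0 → evY P = 0 := by
    intro P hP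
    refine LinearMap.ext fun y => Subtype.ext ?_
    rw [hevY, coe_lift_restrictOps hYt P y, LinearMap.zero_apply, AddSubgroup.coe_zero]
    exact hrel P hP y y.2
  -- the surjection onto the adjoin
  have hmem : ∀ P, evT P ∈ Algebra.adjoin ℤ (Set.range T') := fun P => by
    rw [hadj]; exact ⟨P, rfl⟩
  let f : FreeAlgebra ℤ ι →+* Algebra.adjoin ℤ (Set.range T') :=
    { toFun := fun P => ⟨evT P, hmem P⟩
      map_one' := Subtype.ext (map_one evT)
      map_mul' := fun a b => Subtype.ext (map_mul evT a b)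
      map_zero' := Subtype.ext (map_zero evT)
      map_add' := fun a b => Subtype.ext (map_add evT a b) }
  have hfsurj : Function.Surjective f := by
    rintro ⟨a, ha⟩
    rw [hadj] at ha
    obtain ⟨P, rfl⟩ := ha
    exact ⟨P, rfl⟩
  have hkerle : RingHom.ker f ≤ RingHom.ker (evY : FreeAlgebra ℤ ι →+* Module.End ℤ Y) := by
    intro P hP
    rw [RingHom.mem_ker] at hP ⊢
    exact hker P (congrArg Subtype.val hP)
  let Φ := f.liftOfRightInverse (Function.surjInv hfsurj) (Function.rightInverse_surjInv hfsurj)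
    ⟨(evY : FreeAlgebra ℤ ι →+* Module.End ℤ Y), hkerle⟩
  have hΦ : ∀ P, Φ (f P) = evY P := fun P =>
    f.liftOfRightInverse_comp_apply (Function.surjInv hfsurj)
      (Function.rightInverse_surjInv hfsurj) ⟨_, hkerle⟩ P
  refine ⟨Φ, fun i y => ?_, fun P hP y => ?_⟩
  · have h1 : (⟨T' i, Algebra.subset_adjoin ⟨i, rfl⟩⟩ : Algebra.adjoin ℤ (Set.range T'))
        = f (FreeAlgebra.ι ℤ i) := Subtype.ext (by simp [f, hevT])
    rw [h1, hΦ, hevY, FreeAlgebra.lift_ι_apply, coe_restrictOps]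
  · have h1 : (⟨FreeAlgebra.lift ℤ T' P, hP⟩ : Algebra.adjoin ℤ (Set.range T')) = f P := rfl
    rw [h1, hΦ, hevY, coe_lift_restrictOps]

end Rel

section Gen

variable {ι : Type*} {R : Type*} [CommRing R] {V' : Type*} [AddCommGroup V'] [Module R V']
  (T' : ι → Module.End R V')

/-- **Relations give a ring homomorphism** (general target).  If every noncommutative polynomial
relation among the `T' i` holds for the elements `s i` of a ring `E`, there is a ring
homomorphism from the `ℤ`-algebra generated by the `T' i` to `E` sending `T' i` to `s i`. -/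
theorem exists_ringHom_of_rel_gen {E : Type*} [Ring E] (s : ι → E)
    (hrel : ∀ P : FreeAlgebra ℤ ι, FreeAlgebra.lift ℤ T' P = 0 → FreeAlgebra.lift ℤ s P = 0) :
    ∃ Φ : Algebra.adjoin ℤ (Set.range T') →+* E,
      (∀ i : ι, Φ ⟨T' i, Algebra.subset_adjoin ⟨i, rfl⟩⟩ = s i) ∧
      ∀ (P : FreeAlgebra ℤ ι) (hP : FreeAlgebra.lift ℤ T' P ∈ Algebra.adjoin ℤ (Set.range T')),
        Φ ⟨FreeAlgebra.lift ℤ T' P, hP⟩ = FreeAlgebra.lift ℤ s P := by
  classical
  set evT : FreeAlgebra ℤ ι →ₐ[ℤ] Module.End R V' := FreeAlgebra.lift ℤ T' with hevT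
  set evY : FreeAlgebra ℤ ι →ₐ[ℤ] E := FreeAlgebra.lift ℤ s with hevY
  have hadj : Algebra.adjoin ℤ (Set.range T') = evT.range :=
    Algebra.adjoin_range_eq_range_freeAlgebra_lift ℤ ι T'
  have hmem : ∀ P, evT P ∈ Algebra.adjoin ℤ (Set.range T') := fun P => by
    rw [hadj]; exact ⟨P, rfl⟩
  let f : FreeAlgebra ℤ ι →+* Algebra.adjoin ℤ (Set.range T') :=
    { toFun := fun P => ⟨evT P, hmem P⟩
      map_one' := Subtype.ext (map_one evT)
      map_mul' := fun a b => Subtype.ext (map_mul evT a b)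
      map_zero' := Subtype.ext (map_zero evT)
      map_add' := fun a b => Subtype.ext (map_add evT a b) }
  have hfsurj : Function.Surjective f := by
    rintro ⟨a, ha⟩
    rw [hadj] at ha
    obtain ⟨P, rfl⟩ := ha
    exact ⟨P, rfl⟩
  have hkerle : RingHom.ker f ≤ RingHom.ker (evY : FreeAlgebra ℤ ι →+* E) := by
    intro P hP
    rw [RingHom.mem_ker] at hP ⊢
    exact hrel P (congrArg Subtype.val hP)
  let Φ := f.liftOfRightInverse (Function.surjInv hfsurj) (Function.rightInverse_surjInv hfsurj)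
    ⟨(evY : FreeAlgebra ℤ ι →+* E), hkerle⟩
  have hΦ : ∀ P, Φ (f P) = evY P := fun P =>
    f.liftOfRightInverse_comp_apply (Function.surjInv hfsurj)
      (Function.rightInverse_surjInv hfsurj) ⟨_, hkerle⟩ P
  refine ⟨Φ, fun i => ?_, fun P hP => ?_⟩
  · have h1 : (⟨T' i, Algebra.subset_adjoin ⟨i, rfl⟩⟩ : Algebra.adjoin ℤ (Set.range T'))
        = f (FreeAlgebra.ι ℤ i) := Subtype.ext (by simp [f, hevT])
    rw [h1, hΦ, hevY, FreeAlgebra.lift_ι_apply]
  · have h1 : (⟨FreeAlgebra.lift ℤ T' P, hP⟩ : Algebra.adjoin ℤ (Set.range T')) = f P := rfl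
    rw [h1, hΦ]

/-- Restriction of a family of `R`-linear operators to a stable submodule. -/
def restrictFam {R₁ : Type*} [CommRing R₁] {X : Type*} [AddCommGroup X] [Module R₁ X]
    (t : ι → Module.End R₁ X) (Y : Submodule R₁ X) (hYt : ∀ i, ∀ y ∈ Y, t i y ∈ Y) (i : ι) :
    Module.End R₁ Y :=
  (t i).restrict (hYt i)

@[simp] theorem coe_restrictFam {R₁ : Type*} [CommRing R₁] {X : Type*} [AddCommGroup X]
    [Module R₁ X] (t : ι → Module.End R₁ X) (Y : Submodule R₁ X)
    (hYt : ∀ i, ∀ y ∈ Y, t i y ∈ Y) (i : ι) (y : Y) :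
    ((restrictFam t Y hYt i y : Y) : X) = t i y := rfl

/-- A polynomial in the restricted operators is the restriction of the polynomial. -/
theorem coe_lift_restrictFam {R₁ : Type*} [CommRing R₁] {X : Type*} [AddCommGroup X]
    [Module R₁ X] (t : ι → Module.End R₁ X) (Y : Submodule R₁ X)
    (hYt : ∀ i, ∀ y ∈ Y, t i y ∈ Y) (P : FreeAlgebra ℤ ι) (y : Y) :
    ((FreeAlgebra.lift ℤ (restrictFam t Y hYt) P y : Y) : X) =
      FreeAlgebra.lift ℤ (fun i => endToInt R₁ X (t i)) P y := by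
  have h1 := lift_intertwine (fun i => endToInt R₁ Y (restrictFam t Y hYt i))
    (fun i => endToInt R₁ X (t i)) Y.subtype.toAddMonoidHom (fun _ _ => rfl) P y
  rw [lift_endToInt] at h1
  exact h1

end Gen

section Linear

variable {ι : Type*} {R : Type*} [CommRing R] {V' : Type*} [AddCommGroup V'] [Module R V']
  (T' : ι → Module.End R V')

/-- **The Hecke ring acts linearly.**  Variant of `exists_ringHom_of_rel` for a submodule `V` of
an `R₁`-module `X` and additive operators `t i` commuting with the scalars: the ring homomorphism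
takes values in `End_{R₁} V`. -/
theorem exists_ringHom_linear {R₁ : Type*} [CommRing R₁] {X : Type*} [AddCommGroup X]
    [Module R₁ X] (t : ι → Module.End ℤ X) (ht : ∀ i (r : R₁) (x : X), t i (r • x) = r • t i x)
    (V : Submodule R₁ X) (hVt : ∀ i, ∀ v ∈ V, t i v ∈ V)
    (hrel : ∀ P : FreeAlgebra ℤ ι, FreeAlgebra.lift ℤ T' P = 0 →
      ∀ v ∈ V, FreeAlgebra.lift ℤ t P v = 0) :
    ∃ Ψ : Algebra.adjoin ℤ (Set.range T') →+* Module.End R₁ V,
      ∀ (i : ι) (v : V), ((Ψ ⟨T' i, Algebra.subset_adjoin ⟨i, rfl⟩⟩ v : V) : X) = t i v := by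
  obtain ⟨Φ₀, hΦ₀, hΦ₀'⟩ := exists_ringHom_of_rel (T' := T') (t := t) (Y := V.toAddSubgroup)
    hVt hrel
  have hadj : Algebra.adjoin ℤ (Set.range T') = (FreeAlgebra.lift ℤ T').range :=
    Algebra.adjoin_range_eq_range_freeAlgebra_lift ℤ ι T'
  -- every polynomial in the `t i` commutes with the scalars
  have hlin : ∀ (P : FreeAlgebra ℤ ι) (r : R₁) (x : X),
      FreeAlgebra.lift ℤ t P (r • x) = r • FreeAlgebra.lift ℤ t P x := by
    intro P r x
    exact (lift_intertwine t t (DistribSMul.toAddMonoidHom X r)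
      (fun i m => (ht i r m).symm) P x).symm
  have hsmul : ∀ (a : Algebra.adjoin ℤ (Set.range T')) (r : R₁) (v : V),
      ((Φ₀ a ⟨r • (v : X), V.smul_mem r v.2⟩ : V.toAddSubgroup) : X) =
        r • ((Φ₀ a ⟨(v : X), v.2⟩ : V.toAddSubgroup) : X) := by
    rintro ⟨a, ha⟩ r v
    have ha' := ha
    rw [hadj] at ha'
    obtain ⟨P, hP⟩ := ha'
    have hP' : FreeAlgebra.lift ℤ T' P = a := hP
    subst hP'
    rw [hΦ₀' P ha ⟨r • (v : X), V.smul_mem r v.2⟩, hΦ₀' P ha ⟨(v : X), v.2⟩]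
    exact hlin P r v
  let Ψfun : Algebra.adjoin ℤ (Set.range T') → Module.End R₁ V := fun a =>
    { toFun := fun v => ⟨((Φ₀ a ⟨(v : X), v.2⟩ : V.toAddSubgroup) : X),
        (Φ₀ a ⟨(v : X), v.2⟩ : V.toAddSubgroup).2⟩
      map_add' := fun v w => Subtype.ext (by
        have : (⟨((v + w : V) : X), (v + w).2⟩ : V.toAddSubgroup) =
            ⟨(v : X), v.2⟩ + ⟨(w : X), w.2⟩ := rfl
        show ((Φ₀ a ⟨((v + w : V) : X), (v + w).2⟩ : V.toAddSubgroup) : X) = _
        rw [this, map_add]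
        rfl)
      map_smul' := fun r v => Subtype.ext (hsmul a r v) }
  have hΨ : ∀ a (v : V), ((Ψfun a v : V) : X) = ((Φ₀ a ⟨(v : X), v.2⟩ : V.toAddSubgroup) : X) :=
    fun _ _ => rfl
  refine ⟨{ toFun := Ψfun
            map_one' := LinearMap.ext fun v => Subtype.ext (by rw [hΨ, map_one]; rfl)
            map_mul' := fun a b => LinearMap.ext fun v => Subtype.ext (by
              rw [hΨ, map_mul]; rfl)
            map_zero' := LinearMap.ext fun v => Subtype.ext (by rw [hΨ, map_zero]; rfl)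
            map_add' := fun a b => LinearMap.ext fun v => Subtype.ext (by
              rw [hΨ, map_add]; rfl) }, ?_⟩
  intro i v
  exact hΦ₀ i ⟨(v : X), v.2⟩

end Linear

end Fermat.Agent.S59.TW.H658

end
-- ===== PACK-END S59/TW/H658/Transfer.lean

-- ===== PACK-BEGIN S32/H152/EmbCoord.lean
section
/-
S32 / EMB (helper152) — coordinates: for a free `R`-module `V` with finite basis `b` and a ring
homomorphism `f : R → K` into a field, the `f`-semilinear coordinate map `V → Kⁿ` and the ring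
homomorphism `End_R V → End_K (Kⁿ)` (matrix in the basis `b`, entries mapped by `f`).
Mathlib-only.
-/


set_option autoImplicit false
set_option linter.unusedSectionVars false

noncomputable section

namespace Fermat.Agent.S32.H152

open Matrix

section Coord

variable {R K : Type*} [CommRing R] [Field K] (f : R →+* K) {n : Type*} [Fintype n]
  [DecidableEq n] {V : Type*} [AddCommGroup V] [Module R V] (b : Module.Basis n R V)

/-- The `f`-semilinear coordinate map. -/
def embCoord : V →+ (n → K) where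
  toFun v := fun i => f (b.repr v i)
  map_zero' := by
    funext i
    simp
  map_add' v w := by
    funext i
    simp

theorem embCoord_apply (v : V) (i : n) : embCoord f b v i = f (b.repr v i) := rfl

theorem embCoord_smul (r : R) (v : V) : embCoord f b (r • v) = f r • embCoord f b v := by
  funext i
  simp [embCoord_apply]

theorem embCoord_basis (i : n) : embCoord f b (b i) = Pi.single i 1 := by
  funext j
  rw [embCoord_apply, Module.Basis.repr_self, Finsupp.single_apply, Pi.single_apply]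
  by_cases h : i = j
  · subst h
    simp
  · rw [if_neg h, if_neg (Ne.symm h), map_zero]

theorem embCoord_injective (hf : Function.Injective f) : Function.Injective (embCoord f b) := by
  intro v w h
  apply b.repr.injective
  ext i
  apply hf
  exact congrFun h i

/-- The ring homomorphism `End_R V → End_K (Kⁿ)`. -/
def embEnd : Module.End R V →+* Module.End K (n → K) :=
  ((Matrix.toLinAlgEquiv' : Matrix n n K ≃ₐ[K] _) : Matrix n n K →+* _).comp
    ((f.mapMatrix).comp ((LinearMap.toMatrixAlgEquiv b : _ ≃ₐ[R] Matrix n n R) : _ →+* _))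

theorem embEnd_apply (E : Module.End R V) (x : n → K) :
    embEnd f b E x = ((LinearMap.toMatrix b b E).map f) *ᵥ x := rfl

theorem embEnd_eq (E : Module.End R V) :
    embEnd f b E = Matrix.toLin' ((LinearMap.toMatrix b b E).map f) := rfl

theorem embEnd_coord (E : Module.End R V) (v : V) :
    embEnd f b E (embCoord f b v) = embCoord f b (E v) := by
  funext i
  rw [embEnd_apply, embCoord_apply, ← LinearMap.toMatrix_mulVec_repr b b E v]
  exact (RingHom.map_mulVec f _ _ i).symm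

theorem embEnd_smul (r : R) (E : Module.End R V) :
    embEnd f b (r • E) = f r • embEnd f b E := by
  rw [embEnd_eq, embEnd_eq, map_smul, ← map_smul]
  ext i j
  simp [Matrix.map_apply]

theorem embEnd_trace (E : Module.End R V) :
    LinearMap.trace K (n → K) (embEnd f b E) = f (LinearMap.trace R V E) := by
  rw [LinearMap.trace_eq_matrix_trace R b E, embEnd_eq,
    LinearMap.trace_eq_matrix_trace K (Pi.basisFun K n), LinearMap.toMatrix_eq_toMatrix',
    LinearMap.toMatrix'_toLin']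
  exact (AddMonoidHom.map_trace (f : R →+ K) _).symm

/-- The image of the matrix unit. -/
theorem embEnd_single (i j : n) :
    embEnd f b ((LinearMap.toMatrixAlgEquiv b).symm (Matrix.single i j (1 : R)))
      = Matrix.toLin' (Matrix.single i j (1 : K)) := by
  rw [embEnd_eq]
  congr 1
  have h : LinearMap.toMatrix b b ((LinearMap.toMatrixAlgEquiv b).symm (Matrix.single i j (1 : R)))
      = Matrix.single i j (1 : R) :=
    (LinearMap.toMatrixAlgEquiv b).apply_symm_apply _
  rw [h]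
  ext k l
  simp [Matrix.single_apply, apply_ite f]

end Coord

/-- Coordinates of an element of `I • ⊤` lie in `I`. -/
theorem embCoord_repr_mem {O M n : Type*} [CommRing O] [AddCommGroup M] [Module O M]
    (c : Module.Basis n O M) (I : Ideal O) {x : M} (hx : x ∈ I • (⊤ : Submodule O M)) (j : n) :
    c.repr x j ∈ I := by
  refine Submodule.smul_induction_on (p := fun x => c.repr x j ∈ I) hx ?_ ?_
  · intro a ha y _
    rw [map_smul, Finsupp.smul_apply, smul_eq_mul]
    exact I.mul_mem_right _ ha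
  · intro x y hx hy
    rw [map_add, Finsupp.add_apply]
    exact I.add_mem hx hy

/-- Cancelling a nonzero factor in a discrete valuation ring costs a bounded power of `𝔪`. -/
theorem embCoord_dvr_cancel {O : Type*} [CommRing O] [IsDomain O] [IsDiscreteValuationRing O]
    {δ : O} (hδ : δ ≠ 0) :
    ∃ k : ℕ, ∀ (m : ℕ) (a : O), δ * a ∈ IsLocalRing.maximalIdeal O ^ (m + k) →
      a ∈ IsLocalRing.maximalIdeal O ^ m := by
  obtain ⟨ϖ, hϖ⟩ := IsDiscreteValuationRing.exists_irreducible O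
  obtain ⟨k, u, hu⟩ := IsDiscreteValuationRing.eq_unit_mul_pow_irreducible hδ hϖ
  refine ⟨k, fun m a h => ?_⟩
  rw [hϖ.maximalIdeal_eq, Ideal.span_singleton_pow, Ideal.mem_span_singleton] at h ⊢
  rw [hu, pow_add] at h
  have h1 : ϖ ^ k * ϖ ^ m ∣ ϖ ^ k * ((u : O) * a) := by
    have e1 : ϖ ^ k * ϖ ^ m = ϖ ^ m * ϖ ^ k := mul_comm _ _
    have e2 : ϖ ^ k * ((u : O) * a) = (u : O) * ϖ ^ k * a := by ring
    rw [e1, e2]
    exact h
  have h2 := (mul_dvd_mul_iff_left (pow_ne_zero k hϖ.ne_zero)).mp h1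
  exact (Units.dvd_mul_left (u := u)).mp h2

end Fermat.Agent.S32.H152

end
end
-- ===== PACK-END S32/H152/EmbCoord.lean

-- ===== PACK-BEGIN S29/H571/FiniteLevel.lean
section



/-!
# Torsion divisor classes of `JZero N` have finite level
(helper571, piece FINLEVEL of the S29 route)

Every element `f` of the function field `laurentBaseChange ℚ̄ F₀ ⊆ ℚ̄((q))` has its coefficients
"in a finite extension": it is fixed by `Gal(ℚ̄/L)` for some finite `L/ℚ`
(`seriesFiniteLevel_of_mem`).  If `n • x = 0` in `Pic0`, `n ≠ 0`, write `x = [D]`,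
`n D = div f`; every `σ` fixing `f` fixes `n D`, hence `D` (divisors are torsion-free).
So the stabiliser of a torsion class contains `Gal(ℚ̄/L)` for a finite (even finite normal) `L`.
-/

set_option autoImplicit false
set_option linter.style.haveILetI false

noncomputable section

namespace Fermat.Agent.S29.H571

open AlgebraicCurve ModularCurve IntermediateField

/-- `f` is fixed coefficientwise by `Gal(ℚ̄/L)` for some finite `L/ℚ`. -/
def SeriesFiniteLevel (f : LaurentSeries (AlgebraicClosure ℚ)) : Prop :=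
  ∃ L : IntermediateField ℚ (AlgebraicClosure ℚ), FiniteDimensional ℚ L ∧
    ∀ σ : AlgebraicClosure ℚ ≃ₐ[ℚ] AlgebraicClosure ℚ, (∀ a ∈ L, σ a = a) →
      coeffMap (σ : AlgebraicClosure ℚ →+* AlgebraicClosure ℚ) f = f

theorem SeriesFiniteLevel.binary {f g h : LaurentSeries (AlgebraicClosure ℚ)}
    (hf : SeriesFiniteLevel f) (hg : SeriesFiniteLevel g)
    (H : ∀ σ : AlgebraicClosure ℚ ≃ₐ[ℚ] AlgebraicClosure ℚ,
      coeffMap (σ : AlgebraicClosure ℚ →+* AlgebraicClosure ℚ) f = f →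
      coeffMap (σ : AlgebraicClosure ℚ →+* AlgebraicClosure ℚ) g = g →
      coeffMap (σ : AlgebraicClosure ℚ →+* AlgebraicClosure ℚ) h = h) :
    SeriesFiniteLevel h := by
  obtain ⟨L₁, hL₁, h₁⟩ := hf
  obtain ⟨L₂, hL₂, h₂⟩ := hg
  refine ⟨L₁ ⊔ L₂, inferInstance, fun σ hσ => H σ (h₁ σ fun a ha => hσ a ?_)
    (h₂ σ fun a ha => hσ a ?_)⟩
  · exact (le_sup_left : L₁ ≤ L₁ ⊔ L₂) ha
  · exact (le_sup_right : L₂ ≤ L₁ ⊔ L₂) ha

theorem SeriesFiniteLevel.unary {f h : LaurentSeries (AlgebraicClosure ℚ)}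
    (hf : SeriesFiniteLevel f)
    (H : ∀ σ : AlgebraicClosure ℚ ≃ₐ[ℚ] AlgebraicClosure ℚ,
      coeffMap (σ : AlgebraicClosure ℚ →+* AlgebraicClosure ℚ) f = f →
      coeffMap (σ : AlgebraicClosure ℚ →+* AlgebraicClosure ℚ) h = h) :
    SeriesFiniteLevel h :=
  hf.binary hf fun σ h₁ _ => H σ h₁

theorem seriesFiniteLevel_of_mem {F₀ : IntermediateField ℚ (LaurentSeries ℚ)}
    {f : LaurentSeries (AlgebraicClosure ℚ)}
    (hf : f ∈ laurentBaseChange (AlgebraicClosure ℚ) F₀) : SeriesFiniteLevel f := by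
  rw [mem_laurentBaseChange_iff] at hf
  induction hf using Subfield.closure_induction with
  | mem y hy =>
      rcases hy with ⟨a, rfl⟩ | ⟨z, _, rfl⟩
      · haveI : Algebra.IsAlgebraic ℚ (AlgebraicClosure ℚ) := AlgebraicClosure.isAlgebraic ℚ
        have ha : IsIntegral ℚ a := (Algebra.IsAlgebraic.isAlgebraic a).isIntegral
        refine ⟨ℚ⟮a⟯, IntermediateField.adjoin.finiteDimensional ha, fun σ hσ => ?_⟩
        rw [coeffMap_algebraMap]
        congr 1
        exact hσ a (IntermediateField.mem_adjoin_simple_self ℚ a)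
      · exact ⟨⊥, inferInstance, fun σ _ => coeffMap_coeffEmb σ z⟩
  | one => exact ⟨⊥, inferInstance, fun σ _ => map_one _⟩
  | add x y _ _ hx hy =>
      exact hx.binary hy fun σ h₁ h₂ => by rw [map_add, h₁, h₂]
  | neg x _ hx => exact hx.unary fun σ h₁ => by rw [map_neg, h₁]
  | inv x _ hx => exact hx.unary fun σ h₁ => by rw [map_inv₀, h₁]
  | mul x y _ _ hx hy =>
      exact hx.binary hy fun σ h₁ h₂ => by rw [map_mul, h₁, h₂]

section Pic

variable (F₀ : IntermediateField ℚ (LaurentSeries ℚ))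

/-- A Galois element fixing the function `f` with `n D = div f`, `n ≠ 0`, fixes the class
of `D`. -/
theorem smul_mk_eq_of_fixes (σ : AlgebraicClosure ℚ ≃ₐ[ℚ] AlgebraicClosure ℚ)
    (D : Divisor.degZero (K := AlgebraicClosure ℚ)
      (F := laurentBaseChange (AlgebraicClosure ℚ) F₀))
    {n : ℤ} (hn : n ≠ 0) (f : laurentBaseChange (AlgebraicClosure ℚ) F₀)
    (hD : ∀ v : Place (AlgebraicClosure ℚ) (laurentBaseChange (AlgebraicClosure ℚ) F₀),
      n * (D : Divisor _ _) v = v.ord f)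
    (hσ : coeffMap (σ : AlgebraicClosure ℚ →+* AlgebraicClosure ℚ)
      (f : LaurentSeries (AlgebraicClosure ℚ)) = f) :
    σ • (Pic0.mk D) = Pic0.mk D := by
  set g := arithmeticGalois F₀ σ with hg
  have hgf : g • f = f := Subtype.ext (by rw [coe_arithmeticGalois_smul, hσ])
  have hgf' : g⁻¹ • f = f := by
    conv_lhs => rw [← hgf]
    exact inv_smul_smul g f
  rw [galois_smul_pic0_def, SemilinearAut.pic0_smul_mk]
  refine congrArg Pic0.mk (Subtype.ext ?_)
  rw [SemilinearAut.coe_degZeroSMulHom]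
  ext w
  rw [SemilinearAut.divisor_smul_apply]
  have h1 := hD (g⁻¹ • w)
  have h2 := hD w
  have h3 : (g⁻¹ • w).ord f = w.ord f := by
    have := SemilinearAut.ord_smul g⁻¹ w f
    rwa [hgf'] at this
  rw [h3, ← h2] at h1
  exact mul_left_cancel₀ hn h1

/-- **FINLEVEL.** A torsion class of `Pic0` of a function field `laurentBaseChange ℚ̄ F₀` is fixed
by `Gal(ℚ̄/L)` for some finite extension `L/ℚ`. -/
theorem exists_finiteLevel_of_zsmul_eq_zero
    (x : Pic0 (AlgebraicClosure ℚ) (laurentBaseChange (AlgebraicClosure ℚ) F₀))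
    {n : ℤ} (hn : n ≠ 0) (hx : n • x = 0) :
    ∃ L : IntermediateField ℚ (AlgebraicClosure ℚ), FiniteDimensional ℚ L ∧
      ∀ σ : AlgebraicClosure ℚ ≃ₐ[ℚ] AlgebraicClosure ℚ, (∀ a ∈ L, σ a = a) → σ • x = x := by
  obtain ⟨D, rfl⟩ := Pic0.mk_surjective x
  have h0 : Pic0.mk (n • D) = 0 := by
    rw [← hx]
    exact map_zsmul (QuotientAddGroup.mk' _) n D
  have h1 : ((n • D : Divisor.degZero (K := AlgebraicClosure ℚ)
      (F := laurentBaseChange (AlgebraicClosure ℚ) F₀)) : Divisor _ _)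
      ∈ Divisor.principal (K := AlgebraicClosure ℚ)
        (F := laurentBaseChange (AlgebraicClosure ℚ) F₀) := by
    have := (QuotientAddGroup.eq_zero_iff _).mp h0
    exact AddSubgroup.mem_addSubgroupOf.mp this
  obtain ⟨f, -, hf⟩ := h1
  obtain ⟨L, hL, hLσ⟩ := seriesFiniteLevel_of_mem (F₀ := F₀) f.2
  refine ⟨L, hL, fun σ hσ => smul_mk_eq_of_fixes F₀ σ D hn f (fun v => ?_) (hLσ σ hσ)⟩
  rw [← hf v]
  simp

/-- Normal version of FINLEVEL: the finite extension can be taken normal over `ℚ`. -/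
theorem exists_normal_finiteLevel_of_zsmul_eq_zero
    (x : Pic0 (AlgebraicClosure ℚ) (laurentBaseChange (AlgebraicClosure ℚ) F₀))
    {n : ℤ} (hn : n ≠ 0) (hx : n • x = 0) :
    ∃ L : IntermediateField ℚ (AlgebraicClosure ℚ), FiniteDimensional ℚ L ∧ Normal ℚ L ∧
      ∀ σ : AlgebraicClosure ℚ ≃ₐ[ℚ] AlgebraicClosure ℚ, (∀ a ∈ L, σ a = a) → σ • x = x := by
  obtain ⟨L, hL, h⟩ := exists_finiteLevel_of_zsmul_eq_zero F₀ x hn hx
  haveI : Algebra.IsAlgebraic ℚ (AlgebraicClosure ℚ) := AlgebraicClosure.isAlgebraic ℚ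
  haveI : IsAlgClosure ℚ (AlgebraicClosure ℚ) := ⟨inferInstance, inferInstance⟩
  haveI : Normal ℚ (AlgebraicClosure ℚ) := IsAlgClosure.normal ℚ (AlgebraicClosure ℚ)
  refine ⟨IntermediateField.normalClosure ℚ L (AlgebraicClosure ℚ),
    normalClosure.is_finiteDimensional ℚ L (AlgebraicClosure ℚ),
    normalClosure.normal ℚ L (AlgebraicClosure ℚ), fun σ hσ => h σ fun a ha => hσ a ?_⟩
  exact IntermediateField.le_normalClosure L ha

/-- Elements of a normal intermediate field stay in it under every automorphism. -/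
theorem map_mem_of_normal (L : IntermediateField ℚ (AlgebraicClosure ℚ)) [Normal ℚ L]
    (τ : AlgebraicClosure ℚ ≃ₐ[ℚ] AlgebraicClosure ℚ) {a : AlgebraicClosure ℚ} (ha : a ∈ L) :
    τ a ∈ L := by
  haveI : Algebra.IsAlgebraic ℚ (AlgebraicClosure ℚ) := AlgebraicClosure.isAlgebraic ℚ
  haveI : IsAlgClosure ℚ (AlgebraicClosure ℚ) := ⟨inferInstance, inferInstance⟩
  haveI : Normal ℚ (AlgebraicClosure ℚ) := IsAlgClosure.normal ℚ (AlgebraicClosure ℚ)
  exact (IntermediateField.normal_iff_forall_map_le'.mp (inferInstance : Normal ℚ L)) τ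
    ⟨a, ha, rfl⟩

/-- If `σ` fixes a normal `L` pointwise, so does every conjugate `τ⁻¹ σ τ`. -/
theorem conj_fixes_of_normal (L : IntermediateField ℚ (AlgebraicClosure ℚ)) [Normal ℚ L]
    (σ τ : AlgebraicClosure ℚ ≃ₐ[ℚ] AlgebraicClosure ℚ) (hσ : ∀ a ∈ L, σ a = a) :
    ∀ a ∈ L, (τ⁻¹ * σ * τ) a = a := by
  intro a ha
  show τ⁻¹ (σ (τ a)) = a
  rw [hσ (τ a) (map_mem_of_normal L τ ha)]
  exact τ.symm_apply_apply a

end Pic

end Fermat.Agent.S29.H571

end
end
-- ===== PACK-END S29/H571/FiniteLevel.lean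

-- ===== PACK-BEGIN S19/H679/Star.lean
section


/-!
# Cell A3 (S19), block UNR (helper679) — the semilinear action on functions and the orbit trace

`Γ` a group acting on a field `Ω` by ring automorphisms and on a set `M` (through a plain map
`act : Γ → M → M` with `act 1 = id`, `act (σ τ) = act σ ∘ act τ`).  On functions `M → Ω` we
use the semilinear action `(σ ⋆ f) m = σ • f (act σ⁻¹ m)`; `f` is *equivariant*
(`f (act σ m) = σ • f m`) iff `σ ⋆ f = f`.

Main result: `orbitTrace_mem` — the orbit-trace lemma used for unramified descent.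
-/

set_option autoImplicit false

namespace Fermat.Agent.S19.H679

variable {Γ : Type*} [Group Γ] {Ω : Type*} [Field Ω] [MulSemiringAction Γ Ω] {M : Type*}

/-- `act` is a group action (as a plain map). -/
structure IsActH679 (act : Γ → M → M) : Prop where
  one : ∀ m, act 1 m = m
  mul : ∀ σ τ m, act (σ * τ) m = act σ (act τ m)

/-- The semilinear action on functions. -/
def starH679 (act : Γ → M → M) (σ : Γ) (f : M → Ω) : M → Ω := fun m => σ • f (act σ⁻¹ m)

theorem starH679_apply (act : Γ → M → M) (σ : Γ) (f : M → Ω) (m : M) :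
    starH679 act σ f m = σ • f (act σ⁻¹ m) := rfl

section basics

variable {act : Γ → M → M} (hact : IsActH679 act)
include hact

theorem IsActH679.inv_act (σ : Γ) (m : M) : act σ⁻¹ (act σ m) = m := by
  rw [← hact.mul, inv_mul_cancel, hact.one]

theorem IsActH679.act_inv (σ : Γ) (m : M) : act σ (act σ⁻¹ m) = m := by
  rw [← hact.mul, mul_inv_cancel, hact.one]

theorem starH679_one (f : M → Ω) : starH679 act (1 : Γ) f = f := by
  funext m
  simp [starH679, hact.one]

theorem starH679_mul (σ τ : Γ) (f : M → Ω) :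
    starH679 act (σ * τ) f = starH679 act σ (starH679 act τ f) := by
  funext m
  simp only [starH679, mul_inv_rev, hact.mul, mul_smul]

theorem starH679_inv_star (σ : Γ) (f : M → Ω) :
    starH679 act σ⁻¹ (starH679 act σ f) = f := by
  rw [← starH679_mul hact, inv_mul_cancel, starH679_one hact]

theorem starH679_star_inv (σ : Γ) (f : M → Ω) :
    starH679 act σ (starH679 act σ⁻¹ f) = f := by
  rw [← starH679_mul hact, mul_inv_cancel, starH679_one hact]

/-- `σ ⋆ f = f` iff `f` intertwines `act σ` and `σ •`. -/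
theorem starH679_eq_self_iff (σ : Γ) (f : M → Ω) :
    starH679 act σ f = f ↔ ∀ m, f (act σ m) = σ • f m := by
  constructor
  · intro h m
    have := congrFun h (act σ m)
    rw [starH679_apply, hact.inv_act] at this
    exact this.symm
  · intro h
    funext m
    rw [starH679_apply, ← h, hact.act_inv]

end basics

/-- The semilinear action as a ring homomorphism of the function ring. -/
def starRingHomH679 (act : Γ → M → M) (σ : Γ) : (M → Ω) →+* (M → Ω) where
  toFun := starH679 act σ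
  map_one' := by funext m; simp [starH679]
  map_mul' f g := by funext m; simp [starH679, smul_mul']
  map_zero' := by funext m; simp [starH679]
  map_add' f g := by funext m; simp [starH679, smul_add]

@[simp] theorem starRingHomH679_apply (act : Γ → M → M) (σ : Γ) (f : M → Ω) :
    starRingHomH679 act σ f = starH679 act σ f := rfl

theorem starH679_smul (act : Γ → M → M) (σ : Γ) (x : Ω) (f : M → Ω) :
    starH679 act σ (x • f) = (σ • x) • starH679 act σ f := by
  funext m
  simp [starH679, smul_mul']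

theorem starH679_add (act : Γ → M → M) (σ : Γ) (f g : M → Ω) :
    starH679 act σ (f + g) = starH679 act σ f + starH679 act σ g :=
  map_add (starRingHomH679 act σ) f g

theorem starH679_sum (act : Γ → M → M) (σ : Γ) {ι : Type*} (s : Finset ι) (F : ι → M → Ω) :
    starH679 act σ (∑ i ∈ s, F i) = ∑ i ∈ s, starH679 act σ (F i) :=
  map_sum (starRingHomH679 act σ) F s

/-- The action on pairs (coefficient tuple, function). -/
def actPairH679 (act : Γ → M → M) {J : Type*} (σ : Γ) (p : (J → Ω) × (M → Ω)) :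
    (J → Ω) × (M → Ω) :=
  (fun j => σ • p.1 j, starH679 act σ p.2)

theorem actPairH679_mul {act : Γ → M → M} (hact : IsActH679 act) {J : Type*} (σ τ : Γ)
    (p : (J → Ω) × (M → Ω)) :
    actPairH679 act (σ * τ) p = actPairH679 act σ (actPairH679 act τ p) := by
  simp only [actPairH679, starH679_mul hact, mul_smul]

theorem actPairH679_one {act : Γ → M → M} (hact : IsActH679 act) {J : Type*}
    (p : (J → Ω) × (M → Ω)) : actPairH679 act (1 : Γ) p = p := by
  simp only [actPairH679, starH679_one hact, one_smul]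

section trace

variable {act : Γ → M → M} (hact : IsActH679 act)
variable {A : Type*} [CommRing A] [Algebra A Ω]
variable {J : Type*} [Fintype J]

/-- The orbit trace with coefficient index `j`. -/
noncomputable def orbitTraceH679 (O : Finset ((J → Ω) × (M → Ω))) (j : J) : M → Ω :=
  ∑ p ∈ O, p.1 j • p.2

include hact in
/-- The orbit trace over a `Γ`-stable finite set is invariant. -/
theorem starH679_orbitTrace (O : Finset ((J → Ω) × (M → Ω)))
    (hO : ∀ σ : Γ, ∀ p ∈ O, actPairH679 act σ p ∈ O) (σ : Γ) (j : J) :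
    starH679 act σ (orbitTraceH679 O j) = orbitTraceH679 O j := by
  classical
  unfold orbitTraceH679
  rw [starH679_sum]
  refine Finset.sum_nbij' (fun p => actPairH679 act σ p) (fun p => actPairH679 act σ⁻¹ p)
    (fun p hp => hO σ p hp) (fun p hp => hO σ⁻¹ p hp) ?_ ?_ ?_
  · intro p _
    rw [← actPairH679_mul hact, inv_mul_cancel, actPairH679_one hact]
  · intro p _
    rw [← actPairH679_mul hact, mul_inv_cancel, actPairH679_one hact]
  · intro p _
    rw [starH679_smul]
    rfl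

include hact in
/-- **Orbit-trace lemma.**  See the module docstring of `Descent.lean` for its use. -/
theorem orbitTrace_mem (𝔪 : Ideal A) (Hloc : Submodule A (M → Ω))
    (c : J → Ω) (a : J → A) (f : M → Ω) (D : Set Γ) (hD1 : (1 : Γ) ∈ D)
    (hfin : (Set.range fun σ : Γ => actPairH679 act σ (c, f)).Finite)
    (h1 : ∀ δ ∈ D, starH679 act δ f ∈ Hloc)
    (h1' : ∀ δ ∈ D, ∀ j, ∃ y : A, algebraMap A Ω y = δ • c j)
    (h2 : ∃ e ∈ 𝔪, ∑ j, algebraMap A Ω (a j) * c j = 1 + algebraMap A Ω e)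
    (h3 : ∀ δ ∈ D, actPairH679 act δ (c, f) ≠ (c, f) →
      ∃ e ∈ 𝔪, ∑ j, algebraMap A Ω (a j) * δ • c j = algebraMap A Ω e)
    (h4 : ∀ σ : Γ, (∀ δ ∈ D, actPairH679 act σ (c, f) ≠ actPairH679 act δ (c, f)) →
      ∀ j, (σ • c j) • starH679 act σ f ∈ 𝔪 • Hloc) :
    f ∈ Submodule.span A {h | h ∈ Hloc ∧ ∀ σ : Γ, starH679 act σ h = h} ⊔ 𝔪 • Hloc := by
  classical
  set O : Finset ((J → Ω) × (M → Ω)) := hfin.toFinset with hOdef
  have hmemO : ∀ p, p ∈ O ↔ ∃ σ : Γ, actPairH679 act σ (c, f) = p := by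
    intro p
    rw [hOdef, Set.Finite.mem_toFinset]
    rfl
  have hOstable : ∀ σ : Γ, ∀ p ∈ O, actPairH679 act σ p ∈ O := by
    intro σ p hp
    obtain ⟨τ, rfl⟩ := (hmemO p).1 hp
    exact (hmemO _).2 ⟨σ * τ, actPairH679_mul hact σ τ _⟩
  have hp0 : (c, f) ∈ O := (hmemO _).2 ⟨1, actPairH679_one hact _⟩
  have hfH : f ∈ Hloc := by
    have := h1 1 hD1
    rwa [starH679_one hact] at this
  have hmH : 𝔪 • Hloc ≤ Hloc := Submodule.smul_le_right
  -- each term of each trace lies in `Hloc`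
  have hterm : ∀ p ∈ O, ∀ j, p.1 j • p.2 ∈ Hloc := by
    intro p hp j
    obtain ⟨σ, rfl⟩ := (hmemO p).1 hp
    by_cases hσ : ∃ δ ∈ D, actPairH679 act σ (c, f) = actPairH679 act δ (c, f)
    · obtain ⟨δ, hδ, hδeq⟩ := hσ
      rw [hδeq]
      obtain ⟨y, hy⟩ := h1' δ hδ j
      show (δ • c j) • starH679 act δ f ∈ Hloc
      rw [← hy, algebraMap_smul]
      exact Hloc.smul_mem y (h1 δ hδ)
    · push_neg at hσ
      exact hmH (h4 σ hσ j)
  have hT : ∀ j, orbitTraceH679 O j ∈ {h | h ∈ Hloc ∧ ∀ σ : Γ, starH679 act σ h = h} := by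
    intro j
    refine ⟨?_, fun σ => starH679_orbitTrace hact O hOstable σ j⟩
    exact Submodule.sum_mem _ fun p hp => hterm p hp j
  -- the combination
  have hcomb : ∑ j, a j • orbitTraceH679 O j
      = ∑ p ∈ O, (∑ j, algebraMap A Ω (a j) * p.1 j) • p.2 := by
    unfold orbitTraceH679
    simp_rw [Finset.smul_sum, Finset.sum_smul]
    rw [Finset.sum_comm]
    refine Finset.sum_congr rfl fun p _ => Finset.sum_congr rfl fun j _ => ?_
    rw [← algebraMap_smul Ω (a j) (p.1 j • p.2), smul_smul]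
  have hrest : ∀ p ∈ O.erase (c, f), (∑ j, algebraMap A Ω (a j) * p.1 j) • p.2 ∈ 𝔪 • Hloc := by
    intro p hp
    obtain ⟨hne, hpO⟩ := Finset.mem_erase.1 hp
    obtain ⟨σ, rfl⟩ := (hmemO p).1 hpO
    by_cases hσ : ∃ δ ∈ D, actPairH679 act σ (c, f) = actPairH679 act δ (c, f)
    · obtain ⟨δ, hδ, hδeq⟩ := hσ
      rw [hδeq] at hne ⊢
      obtain ⟨e, he, hee⟩ := h3 δ hδ hne
      show (∑ j, algebraMap A Ω (a j) * δ • c j) • starH679 act δ f ∈ 𝔪 • Hloc
      rw [hee, algebraMap_smul]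
      exact Submodule.smul_mem_smul he (h1 δ hδ)
    · push_neg at hσ
      rw [Finset.sum_smul]
      refine Submodule.sum_mem _ fun j _ => ?_
      rw [← smul_smul, algebraMap_smul]
      exact Submodule.smul_mem _ _ (h4 σ hσ j)
  obtain ⟨e, he, hee⟩ := h2
  have hsplit : ∑ j, a j • orbitTraceH679 O j
      = f + (e • f + ∑ p ∈ O.erase (c, f), (∑ j, algebraMap A Ω (a j) * p.1 j) • p.2) := by
    rw [hcomb, ← Finset.add_sum_erase O _ hp0]
    show (∑ j, algebraMap A Ω (a j) * c j) • f + _ = _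
    rw [hee, add_smul, one_smul, algebraMap_smul, add_assoc]
  have hf : f = ∑ j, a j • orbitTraceH679 O j
      - (e • f + ∑ p ∈ O.erase (c, f), (∑ j, algebraMap A Ω (a j) * p.1 j) • p.2) := by
    rw [hsplit, add_sub_cancel_right]
  rw [hf, sub_eq_add_neg]
  refine Submodule.add_mem_sup ?_ ?_
  · exact Submodule.sum_mem _ fun j _ => Submodule.smul_mem _ _ (Submodule.subset_span (hT j))
  · refine Submodule.neg_mem _ (Submodule.add_mem _ ?_ ?_)
    · exact Submodule.smul_mem_smul he hfH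
    · exact Submodule.sum_mem _ hrest

end trace

end Fermat.Agent.S19.H679

end
-- ===== PACK-END S19/H679/Star.lean

-- ===== PACK-BEGIN S59/H649/StrictSpec.lean
section




/-!
# Row S59, cell TW, leaf TW-STRICT — frozen interface (owner helper649)

`TW-STRICT`: a representation `ρ` over a noetherian local ring `A` (finite residue field of odd
characteristic `p`) which is ordinary at `p`, has cyclotomic determinant, and whose residual
representation is NOT flat at `p`, is STRICTLY ordinary at `p`.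

Decomposition (board: `coord/S59-TWSTRICT-helper649.md`):

* `IsPeuAt p ρ̄ P`       : "peu ramifié" in Kummer form (the shape of the landed
                          `S56.H906.FlatUnitStatement`): every Kummer character
                          `σ ↦ ζ ^ ξ (σ v - v)` of `{σ ∈ I_P : σ ζ = ζ}` is the Kummer character
                          of a `P`-unit.
* `PeuFlatStatement`     : (b)  ordinary + cyclotomic determinant + peu ramifié  ⟹  flat
                          (construction of a Hopf model, e.g. by an `S19.OrderDatum`).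
* `TresStrictStatement`  : (a)  ordinary over `A` + cyclotomic determinant + residually NOT peu
                          ramifié  ⟹  strictly ordinary  (Kummer theory over the inertia field).
* glue (`StrictGlue.lean`): `TWStrictStatement` from (a) and (b).

Definitions only; Prelude + Mathlib language.
-/

set_option autoImplicit false

namespace Fermat.Agent.S59.H649

/-- `ℚ̄`. -/
abbrev Qb : Type := AlgebraicClosure ℚ

/-- `Gal(ℚ̄/ℚ)`. -/
abbrev GQ : Type := Qb ≃ₐ[ℚ] Qb

section Defs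

variable {A : Type} [CommRing A] [IsLocalRing A]

/-- `L` is an ordinary line of `ρ` at `P`: a direct summand of rank one, stable under the
decomposition group, with trivial action of inertia on the quotient
(the body of the Prelude's `GaloisRepAdic.IsOrdinaryAt`). -/
structure IsOrdLineAt (ρ : GaloisRepAdic A) (P : ValuationSubring Qb)
    (L : Submodule A ρ.V) : Prop where
  basis : ∃ b : Module.Basis (Fin 2) A ρ.V, L = A ∙ b 0
  stable : ∀ σ ∈ P.decompositionSubgroup ℚ, ∀ v ∈ L, ρ.ρ σ v ∈ L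
  inertia : ∀ σ ∈ P.inertiaSubgroupIn ℚ, ∀ v : ρ.V, ρ.ρ σ v - v ∈ L

/-- The strictness clause of the Prelude's `GaloisRepAdic.IsStrictOrdinaryAt` for the line `L`:
`D_P` acts on `L` by `x`, on `V / L` by `z`, and `x = χ_cyc · z`. -/
def IsStrictLineAt (p : ℕ) (ρ : GaloisRepAdic A) (P : ValuationSubring Qb)
    (L : Submodule A ρ.V) : Prop :=
  ∀ σ ∈ P.decompositionSubgroup ℚ, ∃ x z : A,
    (∀ w ∈ L, ρ.ρ σ w = x • w) ∧ (∀ v : ρ.V, ρ.ρ σ v - z • v ∈ L) ∧
    ∀ (n a : ℕ), (∀ μ : AlgebraicClosure ℚ, μ ^ p ^ n = 1 → σ μ = μ ^ a) →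
      x - (a : A) * z ∈ Ideal.span {((p ^ n : ℕ) : A)}

end Defs

/-- **Peu ramifié at `P`** (Kummer form): for every point `v`, every additive character `ξ` and
every primitive `p`-th root of unity `ζ`, the Kummer character `σ ↦ ζ ^ ξ (σ v - v)` of
`{σ ∈ I_P : σ ζ = ζ}` is the Kummer character of a `P`-unit `B`. -/
def IsPeuAt (p : ℕ) {k : Type} [Field k] (ρbar : ResidualGaloisRep k)
    (P : ValuationSubring Qb) : Prop :=
  ∀ ζ : Qb, IsPrimitiveRoot ζ p → ∀ (ξ : ρbar.V →+ ZMod p) (v : ρbar.V),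
    ∃ B : Qb, P.valuation B = 1 ∧
      ∀ σ ∈ P.inertiaSubgroupIn ℚ, σ ζ = ζ → σ B = ζ ^ (ξ (ρbar.ρ σ v - v)).val * B

/-- **TW-STRICT.**  Ordinary + cyclotomic determinant + residually not flat ⟹ strictly
ordinary. -/
def TWStrictStatement : Prop :=
  ∀ (p : ℕ) [Fact p.Prime], p ≠ 2 →
    ∀ (A : Type) [CommRing A] [IsLocalRing A] [IsNoetherianRing A]
      [Finite (IsLocalRing.ResidueField A)] (ρ : GaloisRepAdic A),
      ρ.DetIsCyclotomic p → ρ.IsOrdinaryAt p →
      ¬ (GaloisRepAdic.ofResidualGaloisRep ρ.residual).IsFlatAt p →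
      ρ.IsStrictOrdinaryAt p

/-- **(b) PEU ⟹ FLAT.**  A residual representation over a finite field of odd characteristic
`p` with cyclotomic determinant which at ONE place `P | p` has an ordinary line and is peu
ramifié, is flat at `p`. -/
def PeuFlatStatement : Prop :=
  ∀ (p : ℕ) [Fact p.Prime], p ≠ 2 →
    ∀ (k : Type) [Field k] [Finite k] (ρbar : ResidualGaloisRep k),
      (GaloisRepAdic.ofResidualGaloisRep ρbar).DetIsCyclotomic p →
      ∀ P : ValuationSubring Qb, P.LiesOverPrime p →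
      ∀ L : Submodule k ρbar.V, IsOrdLineAt (GaloisRepAdic.ofResidualGaloisRep ρbar) P L →
        IsPeuAt p ρbar P → (GaloisRepAdic.ofResidualGaloisRep ρbar).IsFlatAt p

/-- **(a) TRÈS ⟹ STRICT.**  If the residual representation is not peu ramifié at `P`, every
ordinary line of `ρ` at `P` is strict. -/
def TresStrictStatement : Prop :=
  ∀ (p : ℕ) [Fact p.Prime], p ≠ 2 →
    ∀ (A : Type) [CommRing A] [IsLocalRing A] [IsNoetherianRing A]
      [Finite (IsLocalRing.ResidueField A)] (ρ : GaloisRepAdic A),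
      ρ.DetIsCyclotomic p →
      ∀ P : ValuationSubring Qb, P.LiesOverPrime p →
      ∀ L : Submodule A ρ.V, IsOrdLineAt ρ P L →
        ¬ IsPeuAt p ρ.residual P → IsStrictLineAt p ρ P L

end Fermat.Agent.S59.H649

end
-- ===== PACK-END S59/H649/StrictSpec.lean

-- ===== PACK-BEGIN S59/TW/H658/Coeff.lean
section


/-!
# S59 / TW-ES (helper658), leaf E6a: homomorphisms of a finitely generated group to a
torsion-free group (Mathlib only)

Let `G` be a finitely generated group, `P ⊆ G` a subset and `A` a torsion-free abelian group.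
Every homomorphism `φ : G → A` vanishing on `P` is a finite sum `∑ᵢ φᵢ(·) • aᵢ` with
`φᵢ : G → ℤ` vanishing on `P` and `aᵢ ∈ A` (`exists_int_decomp`).  Consequently a property of
homomorphisms which is additive and holds for all `n ↦ n • a` composed with integral
homomorphisms vanishing on `P` holds for all homomorphisms to `A` vanishing on `P`
(`hom_induction_of_torsionFree`).
-/

set_option autoImplicit false
set_option linter.unusedSectionVars false
set_option linter.style.haveILetI false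

noncomputable section

namespace Fermat.Agent.S59.TW.H658

section Gen

variable {G : Type*} [Group G]

theorem fg_abelianization [Group.FG G] : Group.FG (Abelianization G) :=
  Group.fg_of_surjective (f := Abelianization.of) (QuotientGroup.mk_surjective)

variable (P : Set G)

/-- The span of the classes of the elements of `P` in the abelianization. -/
def parSpan : Submodule ℤ (Additive (Abelianization G)) :=
  Submodule.span ℤ ((fun γ : G => Additive.ofMul (Abelianization.of γ)) '' P)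

/-- The maximal torsion-free quotient of `G^ab / ⟨P⟩`. -/
abbrev TfQuot : Type _ :=
  (Additive (Abelianization G) ⧸ parSpan P) ⧸
    Submodule.torsion ℤ (Additive (Abelianization G) ⧸ parSpan P)

/-- The projection `G → TfQuot P`. -/
def tfProj : Additive G →+ TfQuot P :=
  (((Submodule.torsion ℤ (Additive (Abelianization G) ⧸ parSpan P)).mkQ.comp
    (parSpan P).mkQ).toAddMonoidHom).comp (MonoidHom.toAdditive Abelianization.of)

theorem tfProj_apply (g : G) :
    tfProj P (Additive.ofMul g) = Submodule.Quotient.mk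
      (Submodule.Quotient.mk (Additive.ofMul (Abelianization.of g))) := rfl

theorem tfProj_of_mem {γ : G} (hγ : γ ∈ P) : tfProj P (Additive.ofMul γ) = 0 := by
  rw [tfProj_apply]
  have h1 : (Submodule.Quotient.mk (Additive.ofMul (Abelianization.of γ)) :
      Additive (Abelianization G) ⧸ parSpan P) = 0 := by
    rw [Submodule.Quotient.mk_eq_zero]
    exact Submodule.subset_span ⟨γ, hγ, rfl⟩
  rw [h1]
  rfl

variable {A : Type*} [AddCommGroup A] [Module.IsTorsionFree ℤ A]

/-- A homomorphism to a torsion-free group vanishing on `P` factors through `TfQuot P`. -/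
theorem exists_factor (φ : Additive G →+ A) (hφ : ∀ γ ∈ P, φ (Additive.ofMul γ) = 0) :
    ∃ φ' : TfQuot P →ₗ[ℤ] A, ∀ x : Additive G, φ' (tfProj P x) = φ x := by
  -- through the abelianization
  set φ₂ : Additive (Abelianization G) →+ A :=
    MonoidHom.toAdditiveLeft (Abelianization.lift (AddMonoidHom.toMultiplicativeRight φ))
    with hφ₂
  have h2 : ∀ g : G, φ₂ (Additive.ofMul (Abelianization.of g)) = φ (Additive.ofMul g) := by
    intro g
    show Multiplicative.toAdd
      (Abelianization.lift (AddMonoidHom.toMultiplicativeRight φ) (Abelianization.of g)) = _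
    rw [Abelianization.lift_apply_of]
    rfl
  have h3 : parSpan P ≤ LinearMap.ker φ₂.toIntLinearMap := by
    rw [parSpan, Submodule.span_le]
    rintro _ ⟨γ, hγ, rfl⟩
    show φ₂ _ = 0
    rw [h2, hφ γ hγ]
  set φ₃ : (Additive (Abelianization G) ⧸ parSpan P) →ₗ[ℤ] A :=
    (parSpan P).liftQ φ₂.toIntLinearMap h3 with hφ₃
  have h4 : Submodule.torsion ℤ (Additive (Abelianization G) ⧸ parSpan P) ≤
      LinearMap.ker φ₃ := by
    intro x hx
    rw [Submodule.mem_torsion_iff] at hx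
    obtain ⟨a, ha⟩ := hx
    rw [LinearMap.mem_ker]
    have h5 : (a : ℤ) • φ₃ x = 0 := by
      rw [← map_smul]
      have : (a : ℤ) • x = 0 := ha
      rw [this, map_zero]
    rcases smul_eq_zero.mp h5 with h | h
    · exact absurd h (nonZeroDivisors.coe_ne_zero a)
    · exact h
  refine ⟨(Submodule.torsion ℤ _).liftQ φ₃ h4, fun x => ?_⟩
  obtain ⟨g, rfl⟩ : ∃ g : G, Additive.ofMul g = x := ⟨Additive.toMul x, rfl⟩
  rw [tfProj_apply, Submodule.liftQ_apply, hφ₃, Submodule.liftQ_apply]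
  exact h2 g

variable [Group.FG G]

instance instFiniteTfQuot : Module.Finite ℤ (TfQuot P) := by
  haveI : Group.FG (Abelianization G) := fg_abelianization
  infer_instance

instance instFreeTfQuot : Module.Free ℤ (TfQuot P) :=
  Module.free_of_finite_type_torsion_free'

/-- **Decomposition.**  Every homomorphism from a finitely generated group to a torsion-free
abelian group vanishing on `P` is a finite combination of integral homomorphisms vanishing on
`P`. -/
theorem exists_int_decomp (φ : Additive G →+ A) (hφ : ∀ γ ∈ P, φ (Additive.ofMul γ) = 0) :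
    ∃ (n : ℕ) (ψ : Fin n → (Additive G →+ ℤ)) (a : Fin n → A),
      (∀ i, ∀ γ ∈ P, ψ i (Additive.ofMul γ) = 0) ∧
      φ = ∑ i, (zmultiplesHom A (a i)).comp (ψ i) := by
  classical
  obtain ⟨φ', hφ'⟩ := exists_factor P φ hφ
  let b := Module.Free.chooseBasis ℤ (TfQuot P)
  let e := Fintype.equivFin (Module.Free.ChooseBasisIndex ℤ (TfQuot P))
  refine ⟨_, fun i => (b.coord (e.symm i)).toAddMonoidHom.comp (tfProj P),
    fun i => φ' (b (e.symm i)), ?_, ?_⟩
  · intro i γ hγ
    rw [AddMonoidHom.comp_apply, tfProj_of_mem P hγ, map_zero]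
  · refine AddMonoidHom.ext fun x => ?_
    rw [← hφ' x, AddMonoidHom.finsetSum_apply]
    conv_lhs => rw [← b.sum_repr (tfProj P x)]
    rw [map_sum, ← Equiv.sum_comp e.symm]
    refine Finset.sum_congr rfl fun i _ => ?_
    rw [map_smul]
    rfl

/-- **Induction principle.** -/
theorem hom_induction_of_torsionFree (C : (Additive G →+ A) → Prop)
    (hadd : ∀ φ ψ, C φ → C ψ → C (φ + ψ)) (h0 : C 0)
    (hint : ∀ (ψ : Additive G →+ ℤ) (a : A), (∀ γ ∈ P, ψ (Additive.ofMul γ) = 0) →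
      C ((zmultiplesHom A a).comp ψ))
    (φ : Additive G →+ A) (hφ : ∀ γ ∈ P, φ (Additive.ofMul γ) = 0) : C φ := by
  classical
  obtain ⟨n, ψ, a, hψ, rfl⟩ := exists_int_decomp P φ hφ
  refine Finset.sum_induction _ C hadd h0 fun i _ => hint _ _ (hψ i)

end Gen

end Fermat.Agent.S59.TW.H658

end
end
-- ===== PACK-END S59/TW/H658/Coeff.lean

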