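import Mathlib
import Fermat.Prelude.Def_CuspForm_HeckeLocal
import Fermat.Prelude.Def_CuspForm_HeckeGaloisRepDatum
import Fermat.Prelude.Def_FLTPrelim_GaloisRep
import Fermat.Prelude.Def_FLTPrelim_Modularity
import Fermat.Prelude.Def_FLTPrelim_Ramification
import Fermat.Prelude.Def_EllipticCurve_FrobeniusTrace
import Fermat.Prelude.Def_ModularForm_HeckeOperator
import Fermat.Agent.Pack.S43MC.G0E0L2
import Fermat.Agent.Pack.S44C.G0E4L1
import Fermat.Agent.Pack.S43GC.G0E22L1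
import Fermat.Agent.Pack.S44C.G0E21L3
import Fermat.Agent.Pack.S43MC.G1E0L0
import Fermat.Agent.Pack.S44C.G0E30L1
import Fermat.Agent.Pack.S44C.G0E30L3
import Fermat.Agent.Pack.S44C.G0E31L0
import Fermat.Agent.Pack.Fast891

-- ===== PACK-BEGIN A2/H348/Glue.lean
section



/-!
# A2 / piece E (ALG_ss), part 3: the Kummer idempotent on a two-chart model with reduced fibre

Mathlib-only.  See `exists_kummer_idempotents` at the end of the file.
-/

set_option autoImplicit false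
set_option linter.unusedSectionVars false
set_option linter.style.haveILetI false

open Module

namespace Fermat.Agent.A2.H348

variable {A F F' : Type*} [CommRing A] [Field F] [CommRing F'] [Nontrivial F'] [Algebra A F]
  [Algebra F F'] [Algebra A F'] [IsScalarTower A F F']

/-- integrality over a smaller subalgebra implies integrality over a bigger one. -/
theorem isIntegral_of_le {B O : Subalgebra A F} (hBO : B ≤ O) {c : F'} (hc : IsIntegral B c) :
    IsIntegral O c := by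
  letI : Algebra B O := (Subalgebra.inclusion hBO).toRingHom.toAlgebra
  haveI : IsScalarTower B O F' := IsScalarTower.of_algebraMap_eq fun b => rfl
  exact hc.tower_top

/-- The data attached to the semilocal "Gauss ring" `V` (intersection of the valuation rings of the
generic points of the special fibre). -/
structure GaussData (ϖ : A) (m : ℕ) (u : F) (V : Subalgebra A F) : Prop where
  closed : ∀ f : F, IsIntegral V f → f ∈ V
  ϖ_inv_notMem : (algebraMap A F ϖ)⁻¹ ∉ V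
  rad : ∀ t ∈ V, (1 + algebraMap A F ϖ * t)⁻¹ ∈ V
  m_ne : (m : F) ≠ 0
  m_inv : ((m : F))⁻¹ ∈ (⊥ : Subalgebra A F)
  u_one : ∃ t ∈ V, u = 1 + algebraMap A F ϖ * t

/-- The data attached to one chart `B` of the model. -/
structure ChartData (ϖ : A) (m : ℕ) (u : F) (B V : Subalgebra A F) : Prop where
  le_V : B ≤ V
  closed : ∀ f : F, IsIntegral B f → f ∈ B
  /-- reducedness of the special fibre (`q`-expansion principle): `B ∩ ϖ V = ϖ B`. -/
  qep : ∀ b ∈ B, ∀ t ∈ V, b = algebraMap A F ϖ * t → t ∈ B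
  /-- local factorisation `u = ε h ^ m` at every closed point of the special fibre,
  `ε ∈ 1 + ϖ B_𝔪`, `h ∈ 1 + ϖ V`. -/
  loc : ∀ 𝔪 : Ideal B, 𝔪.IsMaximal → algebraMap A B ϖ ∈ 𝔪 →
    ∃ h : F, (∃ t ∈ V, h = 1 + algebraMap A F ϖ * t) ∧
      ∃ s a : B, s ∉ 𝔪 ∧ u * (s : F) = h ^ m * ((s : F) + algebraMap A F ϖ * (a : F))

section Gauss

variable {ϖ : A} {m : ℕ} {u : F} {V : Subalgebra A F} (hV : GaussData ϖ m u V)

include hV

theorem GaussData.ϖ_ne : algebraMap A F ϖ ≠ 0 := by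
  intro h
  apply hV.ϖ_inv_notMem
  rw [h, inv_zero]
  exact V.zero_mem

theorem GaussData.one_add_ne {t : F} (ht : t ∈ V) : 1 + algebraMap A F ϖ * t ≠ 0 := by
  intro h
  apply hV.ϖ_inv_notMem
  have h1 : algebraMap A F ϖ * (-t) = 1 := by linear_combination -h
  have h2 : (algebraMap A F ϖ)⁻¹ = -t := inv_eq_of_mul_eq_one_right h1
  rw [h2]
  exact V.neg_mem ht

theorem GaussData.m_inv_mem (O : Subalgebra A F) : ((m : F))⁻¹ ∈ O := by
  have := hV.m_inv
  rw [Algebra.mem_bot] at this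
  obtain ⟨a, ha⟩ := this
  rw [← ha]
  exact O.algebraMap_mem a

theorem GaussData.u_mem : u ∈ V := by
  obtain ⟨t, ht, rfl⟩ := hV.u_one
  exact V.add_mem V.one_mem (V.mul_mem (V.algebraMap_mem ϖ) ht)

theorem GaussData.u_ne : u ≠ 0 := by
  obtain ⟨t, ht, rfl⟩ := hV.u_one
  exact hV.one_add_ne ht

theorem GaussData.u_inv_mem : u⁻¹ ∈ V := by
  obtain ⟨t, ht, rfl⟩ := hV.u_one
  exact hV.rad t ht

end Gauss

section Chart

variable {ϖ : A} {m : ℕ} {u : F} {B V : Subalgebra A F}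

theorem smul_eq_algebraMap_mul (B : Subalgebra A F) (b : B) (c : F') :
    b • c = algebraMap F F' (b : F) * c := by
  rw [Algebra.smul_def]; rfl

variable (F) in
theorem algebraMap_eq_comp (a : A) : algebraMap A F' a = algebraMap F F' (algebraMap A F a) :=
  IsScalarTower.algebraMap_apply A F F' a

/-- local package at a closed point of the special fibre. -/
theorem ChartData.exists_local (hV : GaussData ϖ m u V) (hB : ChartData ϖ m u B V)
    {z : F'} (kb : KummerBasis m u z) (𝔪 : Ideal B) [h𝔪 : 𝔪.IsMaximal]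
    (hϖ : algebraMap A B ϖ ∈ 𝔪) :
    ∃ (h ε : F) (ζ : F') (_ : KummerBasis m ε ζ),
      h ≠ 0 ∧ z = ζ * algebraMap F F' h ∧ (∃ t ∈ V, h = 1 + algebraMap A F ϖ * t) ∧
      ε ∈ locAt B 𝔪 ∧ ((m : F) * ε)⁻¹ ∈ locAt B 𝔪 ∧ ε ∈ V ∧ ((m : F) * ε)⁻¹ ∈ V ∧
      (m : F) * ε ≠ 0 := by
  obtain ⟨h, ⟨t, ht, hh⟩, s, a, hs, hus⟩ := hB.loc 𝔪 h𝔪 hϖ
  have hh0 : h ≠ 0 := by rw [hh]; exact hV.one_add_ne ht
  have hs0 : (s : F) ≠ 0 := coe_ne_zero_of_notMem 𝔪 hs
  have hhm0 : h ^ m ≠ 0 := pow_ne_zero _ hh0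
  have hhV : h ∈ V := by
    rw [hh]; exact V.add_mem V.one_mem (V.mul_mem (V.algebraMap_mem ϖ) ht)
  have hhinvV : h⁻¹ ∈ V := by rw [hh]; exact hV.rad t ht
  set ε : F := u * (h ^ m)⁻¹ with hε
  have hεs : (s : F) * ε = (s : F) + algebraMap A F ϖ * (a : F) := by
    rw [hε, ← mul_assoc, mul_comm (s : F) u, hus]
    field_simp
  have hε1 : ε = 1 + algebraMap A F ϖ * ((a : F) * (s : F)⁻¹) := by
    have : ε = ((s : F) * ε) * (s : F)⁻¹ := by field_simp
    rw [this, hεs]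
    field_simp
  have hεO : ε ∈ locAt B 𝔪 := by
    refine ⟨s, hs, ?_⟩
    rw [hεs]
    exact B.add_mem s.2 (B.mul_mem (B.algebraMap_mem ϖ) a.2)
  have hasO : (a : F) * (s : F)⁻¹ ∈ locAt B 𝔪 :=
    (locAt B 𝔪).mul_mem (le_locAt 𝔪 a.2) (inv_mem_locAt 𝔪 hs)
  have hεinvO : ε⁻¹ ∈ locAt B 𝔪 := by
    rw [hε1]
    exact one_add_mul_inv_mem_locAt 𝔪 hϖ hasO
  have hεV : ε ∈ V := V.mul_mem hV.u_mem (by rw [← inv_pow]; exact V.pow_mem hhinvV m)
  have hεinvV : ε⁻¹ ∈ V := by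
    rw [hε, mul_inv, inv_inv]
    exact V.mul_mem hV.u_inv_mem (V.pow_mem hhV m)
  have hε0 : ε ≠ 0 := mul_ne_zero hV.u_ne (inv_ne_zero hhm0)
  refine ⟨h, ε, z * algebraMap F F' h⁻¹, kb.scale h hh0, hh0, ?_, ⟨t, ht, hh⟩, hεO, ?_, hεV, ?_,
    mul_ne_zero hV.m_ne hε0⟩
  · rw [mul_assoc, ← map_mul, inv_mul_cancel₀ hh0, map_one, mul_one]
  · rw [mul_inv]
    exact (locAt B 𝔪).mul_mem (hV.m_inv_mem _) hεinvO
  · rw [mul_inv]
    exact V.mul_mem (hV.m_inv_mem _) hεinvV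

/-- **Unmixedness** of `ϖ` on the integral closure of a chart in the Kummer extension:
an element integral over `B` which is `ϖ` times an element integral over `V` is `ϖ` times an
element integral over `B`. -/
theorem ChartData.unmixed (hV : GaussData ϖ m u V) (hB : ChartData ϖ m u B V)
    {z : F'} (kb : KummerBasis m u z) {c c' : F'} (hc : IsIntegral B c) (hc' : IsIntegral V c')
    (hcc : c = algebraMap A F' ϖ * c') : IsIntegral B c' := by
  have key : c' ∈ (integralClosure B F').toSubmodule := by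
    refine mem_of_forall_maximal B _ c' fun 𝔪 h𝔪 => ?_
    by_cases hϖ : algebraMap A B ϖ ∈ 𝔪
    · obtain ⟨h, ε, ζ, kb', -, -, -, hεO, hmεO, hεV, hmεV, hmε0⟩ :=
        hB.exists_local hV kb 𝔪 hϖ
      have hcO : IsIntegral (locAt B 𝔪) c := isIntegral_of_le (le_locAt 𝔪) hc
      have hci : ∀ i, kb'.basis.repr c i ∈ locAt B 𝔪 := fun i =>
        kb'.repr_mem_of_isIntegral _ (locAt_integrallyClosed hB.closed 𝔪) hεO hmεO hmε0 hcO i
      have hc'i : ∀ i, kb'.basis.repr c' i ∈ V := fun i =>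
        kb'.repr_mem_of_isIntegral _ hV.closed hεV hmεV hmε0 hc' i
      have hrel : ∀ i, kb'.basis.repr c i = algebraMap A F ϖ * kb'.basis.repr c' i := by
        intro i
        have : c = (algebraMap A F ϖ) • c' := by
          rw [hcc, Algebra.smul_def, algebraMap_eq_comp F]
        rw [this, map_smul, Finsupp.smul_apply, smul_eq_mul]
      have hc'O : ∀ i, kb'.basis.repr c' i ∈ locAt B 𝔪 := by
        intro i
        obtain ⟨s, hs, hsc⟩ := hci i
        refine ⟨s, hs, ?_⟩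
        refine hB.qep _ hsc ((s : F) * kb'.basis.repr c' i)
          (V.mul_mem (hB.le_V s.2) (hc'i i)) ?_
        rw [hrel i]; ring
      have hc'int : IsIntegral (locAt B 𝔪) c' := kb'.isIntegral_of_repr_mem _ hεO hc'O
      obtain ⟨s, hs, hsint⟩ := exists_smul_isIntegral_of_locAt 𝔪 c' hc'int
      refine ⟨s, hs, ?_⟩
      rw [smul_eq_algebraMap_mul]
      exact hsint
    · refine ⟨algebraMap A B ϖ, hϖ, ?_⟩
      rw [smul_eq_algebraMap_mul]
      have : algebraMap F F' ((algebraMap A B ϖ : B) : F) * c' = c := by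
        rw [hcc]
        congr 1
        exact (algebraMap_eq_comp F ϖ).symm
      rw [this]
      exact hc
  exact key

end Chart

section Idem

/-- The Kummer idempotent `m⁻¹ ∑_{i<m} z^i` (the sheet `z ≡ 1`). -/
noncomputable def kummerE (F : Type*) [Field F] {F' : Type*} [CommRing F'] [Algebra F F']
    (m : ℕ) (z : F') : F' :=
  algebraMap F F' ((m : F)⁻¹) * ∑ i ∈ Finset.range m, z ^ i

variable {ϖ : A} {m : ℕ} {u : F} {B V : Subalgebra A F}

theorem sum_pow_sub_one (z : F') (n : ℕ) :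
    ∑ i ∈ Finset.range n, (z ^ i - 1) =
      (z - 1) * ∑ i ∈ Finset.range n, ∑ j ∈ Finset.range i, z ^ j := by
  rw [Finset.mul_sum]
  refine Finset.sum_congr rfl fun i _ => ?_
  rw [mul_geom_sum]

theorem GaussData.isIntegral_z (hV : GaussData ϖ m u V) {z : F'} (kb : KummerBasis m u z) :
    IsIntegral V z := kb.isIntegral_zeta V hV.u_mem

theorem GaussData.isIntegral_kummerE (hV : GaussData ϖ m u V) {z : F'}
    (kb : KummerBasis m u z) : IsIntegral V (kummerE F m z) :=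
  (isIntegral_algebraMap_of_mem' V (hV.m_inv_mem V)).mul
    (IsIntegral.sum _ fun i _ => (hV.isIntegral_z kb).pow i)

/-- the Kummer idempotent is idempotent modulo `ϖ`. -/
theorem GaussData.kummerE_idem (hV : GaussData ϖ m u V) {z : F'} (kb : KummerBasis m u z) :
    ∃ q : F', IsIntegral V q ∧
      kummerE F m z ^ 2 - kummerE F m z = algebraMap A F' ϖ * q := by
  obtain ⟨t₀, ht₀, hu⟩ := hV.u_one
  set S : F' := ∑ i ∈ Finset.range m, z ^ i with hS
  set Q : F' := ∑ i ∈ Finset.range m, ∑ j ∈ Finset.range i, z ^ j with hQ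
  have hz := hV.isIntegral_z kb
  have hQint : IsIntegral V Q :=
    IsIntegral.sum _ fun i _ => IsIntegral.sum _ fun j _ => hz.pow j
  have h1 : (z - 1) * S = algebraMap A F' ϖ * algebraMap F F' t₀ := by
    rw [hS, mul_geom_sum, kb.pow_eq, hu, map_add, map_one, map_mul, ← algebraMap_eq_comp F]
    ring
  have h2 : S - (m : F') = (z - 1) * Q := by
    rw [hQ, ← sum_pow_sub_one, Finset.sum_sub_distrib, hS]
    simp
  have hm : algebraMap F F' ((m : F)⁻¹) * (m : F') = 1 := by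
    rw [← map_natCast (algebraMap F F') m, ← map_mul, inv_mul_cancel₀ hV.m_ne, map_one]
  refine ⟨algebraMap F F' ((m : F)⁻¹) ^ 2 * (algebraMap F F' t₀ * Q), ?_, ?_⟩
  · exact ((isIntegral_algebraMap_of_mem' V (hV.m_inv_mem V)).pow 2).mul
      ((isIntegral_algebraMap_of_mem' V ht₀).mul hQint)
  · have h3 : kummerE F m z ^ 2 - kummerE F m z
        = algebraMap F F' ((m : F)⁻¹) ^ 2 * (S * (S - (m : F'))) := by
      unfold kummerE
      rw [← hS]
      have : algebraMap F F' ((m : F)⁻¹) * S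
          = algebraMap F F' ((m : F)⁻¹) ^ 2 * (S * (m : F')) := by
        rw [pow_two, mul_assoc, mul_comm S, ← mul_assoc (algebraMap F F' ((m : F)⁻¹)) (m : F') S,
          hm, one_mul]
      rw [mul_sub, mul_sub, ← this]
      ring
    rw [h3, h2, ← mul_assoc S, mul_comm S, h1]
    ring

/-- coordinates of the Kummer idempotent. -/
theorem kummerE_repr {z : F'} (kb : KummerBasis m u z) (i : Fin m) :
    kb.basis.repr (kummerE F m z) i = (m : F)⁻¹ := by
  have : kummerE F m z = ∑ j : Fin m, algebraMap F F' ((fun _ => (m : F)⁻¹) j) * z ^ (j : ℕ) := by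
    unfold kummerE
    rw [Finset.mul_sum, Fin.sum_univ_eq_sum_range (fun j => algebraMap F F' ((m : F)⁻¹) * z ^ j) m]
  rw [this, kb.repr_sum]

/-- coordinates of `1`. -/
theorem one_repr {z : F'} (kb : KummerBasis m u z) (i : Fin m) :
    kb.basis.repr (1 : F') i = if (i : ℕ) = 0 then 1 else 0 := by
  classical
  have : (1 : F') = ∑ j : Fin m,
      algebraMap F F' ((fun j : Fin m => if (j : ℕ) = 0 then (1 : F) else 0) j) * z ^ (j : ℕ) := by
    rw [Finset.sum_eq_single (⟨0, kb.m_pos⟩ : Fin m)]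
    · simp
    · intro j _ hj
      have : (j : ℕ) ≠ 0 := fun h => hj (Fin.ext h)
      simp [this]
    · intro h; exact absurd (Finset.mem_univ _) h
  conv_lhs => rw [this]
  rw [kb.repr_sum]

/-- **Gluing**: the Kummer idempotent is congruent modulo `ϖ` to an element integral over the
chart `B`. -/
theorem ChartData.exists_lift (hV : GaussData ϖ m u V) (hB : ChartData ϖ m u B V)
    {z : F'} (kb : KummerBasis m u z) :
    ∃ e c : F', IsIntegral B e ∧ IsIntegral V c ∧ kummerE F m z = e + algebraMap A F' ϖ * c := by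
  let M : Submodule B F' :=
    { carrier := {y | ∃ y₁ y₂ : F', IsIntegral B y₁ ∧ IsIntegral V y₂ ∧
        y = y₁ + algebraMap A F' ϖ * y₂}
      add_mem' := by
        rintro a b ⟨a₁, a₂, ha₁, ha₂, rfl⟩ ⟨b₁, b₂, hb₁, hb₂, rfl⟩
        exact ⟨a₁ + b₁, a₂ + b₂, ha₁.add hb₁, ha₂.add hb₂, by ring⟩
      zero_mem' := ⟨0, 0, isIntegral_zero, isIntegral_zero, by simp⟩
      smul_mem' := by
        rintro b y ⟨y₁, y₂, hy₁, hy₂, rfl⟩
        refine ⟨algebraMap F F' (b : F) * y₁, algebraMap F F' (b : F) * y₂,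
          (isIntegral_algebraMap_of_mem' B b.2).mul hy₁,
          (isIntegral_algebraMap_of_mem' V (hB.le_V b.2)).mul hy₂, ?_⟩
        rw [smul_eq_algebraMap_mul]
        ring }
  have key : kummerE F m z ∈ M := by
    refine mem_of_forall_maximal B M _ fun 𝔪 h𝔪 => ?_
    by_cases hϖ : algebraMap A B ϖ ∈ 𝔪
    · obtain ⟨h, ε, ζ, kb', hh0, hz, ⟨t, ht, hh⟩, hεO, hmεO, hεV, hmεV, hmε0⟩ :=
        hB.exists_local hV kb 𝔪 hϖ
      have hhV : h ∈ V := by
        rw [hh]; exact V.add_mem V.one_mem (V.mul_mem (V.algebraMap_mem ϖ) ht)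
      have hζO : IsIntegral (locAt B 𝔪) ζ := kb'.isIntegral_zeta _ hεO
      have hζV : IsIntegral V ζ := kb'.isIntegral_zeta _ hεV
      have heO : IsIntegral (locAt B 𝔪) (kummerE F m ζ) :=
        (isIntegral_algebraMap_of_mem' _ (hV.m_inv_mem _)).mul
          (IsIntegral.sum _ fun i _ => hζO.pow i)
      obtain ⟨s, hs, hsint⟩ := exists_smul_isIntegral_of_locAt 𝔪 _ heO
      -- the difference
      set y₂ : F' := algebraMap F F' ((m : F)⁻¹) * ∑ i ∈ Finset.range m,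
        ζ ^ i * (algebraMap F F' t * ∑ j ∈ Finset.range i, algebraMap F F' h ^ j) with hy₂
      have hy₂int : IsIntegral V y₂ :=
        (isIntegral_algebraMap_of_mem' V (hV.m_inv_mem V)).mul
          (IsIntegral.sum _ fun i _ => (hζV.pow i).mul
            ((isIntegral_algebraMap_of_mem' V ht).mul
              (IsIntegral.sum _ fun j _ => (isIntegral_algebraMap_of_mem' V hhV).pow j)))
      have hdiff : kummerE F m z = kummerE F m ζ + algebraMap A F' ϖ * y₂ := by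
        unfold kummerE
        rw [hy₂, ← mul_assoc (algebraMap A F' ϖ), mul_comm (algebraMap A F' ϖ),
          mul_assoc _ (algebraMap A F' ϖ), ← mul_add, Finset.mul_sum (a := algebraMap A F' ϖ),
          ← Finset.sum_add_distrib]
        congr 1
        refine Finset.sum_congr rfl fun i _ => ?_
        have hgeom : algebraMap F F' h ^ i - 1
            = algebraMap A F' ϖ * algebraMap F F' t *
              ∑ j ∈ Finset.range i, algebraMap F F' h ^ j := by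
          rw [← mul_geom_sum, hh, map_add, map_one, map_mul, ← algebraMap_eq_comp F]
          ring
        rw [hz, mul_pow]
        have : ζ ^ i * algebraMap F F' h ^ i
            = ζ ^ i + ζ ^ i * (algebraMap F F' h ^ i - 1) := by ring
        rw [this, hgeom]
        ring
      refine ⟨s, hs, ?_⟩
      refine ⟨algebraMap F F' (s : F) * kummerE F m ζ, algebraMap F F' (s : F) * y₂, hsint,
        (isIntegral_algebraMap_of_mem' V (hB.le_V s.2)).mul hy₂int, ?_⟩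
      rw [smul_eq_algebraMap_mul, hdiff]
      ring
    · refine ⟨algebraMap A B ϖ, hϖ, ?_⟩
      refine ⟨0, kummerE F m z, isIntegral_zero, hV.isIntegral_kummerE kb, ?_⟩
      rw [smul_eq_algebraMap_mul, zero_add]
      congr 1
      exact (algebraMap_eq_comp F ϖ).symm
  obtain ⟨e, c, he, hc, hec⟩ := key
  exact ⟨e, c, he, hc, hec⟩

end Idem

section Main

variable {ϖ : A} {m : ℕ} {u : F} {Bfin Binf Bmid V : Subalgebra A F}

/-- unmixedness on the middle chart `Bmid = Bfin[1/x]`. -/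
theorem unmixed_mid (hV : GaussData ϖ m u V) (hfin : ChartData ϖ m u Bfin V)
    (hfm : Bfin ≤ Bmid) (x : Bfin) (hx0 : (x : F) ≠ 0) (hxinv : ((x : F))⁻¹ ∈ Bmid)
    (hloc : ∀ f ∈ Bmid, ∃ K : ℕ, (x : F) ^ K * f ∈ Bfin)
    {z : F'} (kb : KummerBasis m u z) {c c' : F'} (hc : IsIntegral Bmid c)
    (hc' : IsIntegral V c') (hcc : c = algebraMap A F' ϖ * c') : IsIntegral Bmid c' := by
  obtain ⟨s, ⟨K, hK⟩, hs⟩ := exists_smul_isIntegral_of_subLoc Bfin Bmid hfm (Submonoid.powers x)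
    (by
      rintro s ⟨K, rfl⟩
      simpa using pow_ne_zero K hx0)
    (by
      intro f hf
      obtain ⟨K, hK⟩ := hloc f hf
      exact ⟨x ^ K, ⟨K, rfl⟩, by simpa using hK⟩)
    (by
      rintro s ⟨K, rfl⟩
      have : (((x ^ K : Bfin) : F))⁻¹ = ((x : F)⁻¹) ^ K := by simp
      rw [this]
      exact Bmid.pow_mem hxinv K) c hc
  have hsF : (s : F) = (x : F) ^ K := by rw [← hK]; simp
  have hs0 : (s : F) ≠ 0 := by rw [hsF]; exact pow_ne_zero K hx0
  have h1 : IsIntegral Bfin (algebraMap F F' (s : F) * c') := by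
    refine hfin.unmixed hV kb hs ((isIntegral_algebraMap_of_mem' V (hfin.le_V s.2)).mul hc') ?_
    rw [hcc]; ring
  have h2 : IsIntegral Bmid (algebraMap F F' (s : F) * c') := isIntegral_of_le hfm h1
  have hsinv : ((s : F))⁻¹ ∈ Bmid := by
    rw [hsF, ← inv_pow]; exact Bmid.pow_mem hxinv K
  have h3 : c' = algebraMap F F' ((s : F)⁻¹) * (algebraMap F F' (s : F) * c') := by
    rw [← mul_assoc, ← map_mul, inv_mul_cancel₀ hs0, map_one, one_mul]
  rw [h3]
  exact (isIntegral_algebraMap_of_mem' Bmid hsinv).mul h2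

/-- **ALG_ss, lifting form.**  On a two-chart model `(Bfin, Binf, Bmid = Bfin[1/x])` with
semilocal Gauss ring `V` (reduced special fibre: `B ∩ ϖ V = ϖ B`), let `u ∈ 1 + ϖ V` admit at every
closed point `𝔪` of the special fibre of each chart a factorisation `u = ε h ^ m` with
`ε ∈ 1 + ϖ B_𝔪`, `h ∈ 1 + ϖ V`.  Then in the Kummer algebra `F' = F[z]/(z ^ m - u)` the element
`E = m⁻¹ ∑ z^i` has lifts `e₁`, `e₂` (modulo `ϖ` times `V`-integral elements) which are integral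
over the two charts, idempotent modulo `ϖ` in the integral closure of each chart, and congruent
modulo `ϖ` on the overlap. -/
theorem exists_kummer_lifts (hV : GaussData ϖ m u V)
    (hfin : ChartData ϖ m u Bfin V) (hinf : ChartData ϖ m u Binf V)
    (hfm : Bfin ≤ Bmid) (him : Binf ≤ Bmid)
    (x : Bfin) (hx0 : (x : F) ≠ 0) (hxinv : ((x : F))⁻¹ ∈ Bmid)
    (hloc : ∀ f ∈ Bmid, ∃ K : ℕ, (x : F) ^ K * f ∈ Bfin)
    {z : F'} (kb : KummerBasis m u z) :
    ∃ e₁ e₂ c₁ : F', IsIntegral Bfin e₁ ∧ IsIntegral Binf e₂ ∧ IsIntegral V c₁ ∧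
      kummerE F m z = e₁ + algebraMap A F' ϖ * c₁ ∧
      (∃ t : F', IsIntegral Bfin t ∧ e₁ ^ 2 - e₁ = algebraMap A F' ϖ * t) ∧
      (∃ t : F', IsIntegral Binf t ∧ e₂ ^ 2 - e₂ = algebraMap A F' ϖ * t) ∧
      (∃ t : F', IsIntegral Bmid t ∧ e₁ - e₂ = algebraMap A F' ϖ * t) := by
  obtain ⟨e₁, c₁, he₁, hc₁, h1⟩ := hfin.exists_lift hV kb
  obtain ⟨e₂, c₂, he₂, hc₂, h2⟩ := hinf.exists_lift hV kb
  obtain ⟨q, hq, hidem⟩ := hV.kummerE_idem kb
  have hE := hV.isIntegral_kummerE kb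
  have hϖV : IsIntegral V (algebraMap A F' ϖ) := by
    rw [algebraMap_eq_comp F]
    exact isIntegral_algebraMap_of_mem' V (V.algebraMap_mem ϖ)
  set E : F' := kummerE F m z with hEdef
  -- idempotency on a chart
  have idem : ∀ (B : Subalgebra A F) (hB : ChartData ϖ m u B V) (e c : F'),
      IsIntegral B e → IsIntegral V c → E = e + algebraMap A F' ϖ * c →
      ∃ t : F', IsIntegral B t ∧ e ^ 2 - e = algebraMap A F' ϖ * t := by
    intro B hB e c he hc hEe
    have hrel : e ^ 2 - e = algebraMap A F' ϖ *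
        (q - 2 * c * E + algebraMap A F' ϖ * c ^ 2 + c) := by
      have he' : e = E - algebraMap A F' ϖ * c := by rw [hEe]; ring
      have : e ^ 2 - e = (E ^ 2 - E) + algebraMap A F' ϖ *
          (- 2 * c * E + algebraMap A F' ϖ * c ^ 2 + c) := by
        rw [he']; ring
      rw [this, hidem]; ring
    have hint : IsIntegral V (q - 2 * c * E + algebraMap A F' ϖ * c ^ 2 + c) := by
      refine IsIntegral.add (IsIntegral.add (IsIntegral.sub hq ?_) (hϖV.mul (hc.pow 2))) hc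
      have h2int : IsIntegral V (2 : F') := by
        have : (2 : F') = algebraMap F F' (2 : F) := (map_ofNat (algebraMap F F') 2).symm
        rw [this]
        exact isIntegral_algebraMap_of_mem' V (by
          have : (2 : F) = 1 + 1 := by norm_num
          rw [this]; exact V.add_mem V.one_mem V.one_mem)
      exact (h2int.mul hc).mul hE
    exact ⟨_, hB.unmixed hV kb ((he.pow 2).sub he) hint hrel, hrel⟩
  refine ⟨e₁, e₂, c₁, he₁, he₂, hc₁, h1, idem Bfin hfin e₁ c₁ he₁ hc₁ h1,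
    idem Binf hinf e₂ c₂ he₂ hc₂ h2, ?_⟩
  -- compatibility
  have hrel : e₁ - e₂ = algebraMap A F' ϖ * (c₂ - c₁) := by
    have e1 : e₁ = E - algebraMap A F' ϖ * c₁ := by rw [h1]; ring
    have e2 : e₂ = E - algebraMap A F' ϖ * c₂ := by rw [h2]; ring
    rw [e1, e2]; ring
  refine ⟨c₂ - c₁, ?_, hrel⟩
  exact unmixed_mid hV hfin hfm x hx0 hxinv hloc kb
    ((isIntegral_of_le hfm he₁).sub (isIntegral_of_le him he₂)) (hc₂.sub hc₁) hrel

/-- coordinates of `V`-integral elements lie in `V`. -/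
theorem GaussData.repr_mem (hV : GaussData ϖ m u V) {z : F'} (kb : KummerBasis m u z)
    {y : F'} (hy : IsIntegral V y) (i : Fin m) : kb.basis.repr y i ∈ V := by
  have hmεV : ((m : F) * u)⁻¹ ∈ V := by
    rw [mul_inv]; exact V.mul_mem (hV.m_inv_mem V) hV.u_inv_mem
  have hmε0 : (m : F) * u ≠ 0 := mul_ne_zero hV.m_ne hV.u_ne
  exact kb.repr_mem_of_isIntegral V hV.closed hV.u_mem hmεV hmε0 hy i

/-- `m⁻¹` is not divisible by `ϖ` in `V`. -/
theorem GaussData.m_inv_ne (hV : GaussData ϖ m u V) (v : F) (hv : v ∈ V) :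
    (m : F)⁻¹ ≠ algebraMap A F ϖ * v := by
  intro h
  apply hV.ϖ_inv_notMem
  have h1 : algebraMap A F ϖ * ((m : F) * v) = 1 := by
    rw [mul_left_comm, ← h, mul_inv_cancel₀ hV.m_ne]
  rw [inv_eq_of_mul_eq_one_right h1]
  exact V.mul_mem (by
    have : (m : F) = algebraMap A F (m : A) := by simp
    rw [this]; exact V.algebraMap_mem _) hv

theorem smul_repr {z : F'} (kb : KummerBasis m u z) (y : F') (i : Fin m) :
    kb.basis.repr (algebraMap A F' ϖ * y) i = algebraMap A F ϖ * kb.basis.repr y i := by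
  have : algebraMap A F' ϖ * y = (algebraMap A F ϖ) • y := by
    rw [Algebra.smul_def, algebraMap_eq_comp F]
  rw [this, map_smul, Finsupp.smul_apply, smul_eq_mul]

/-- **ALG_ss, idempotent form.**  In the situation of `exists_kummer_lifts`, if `m ≥ 2`, the pair
`(e₁, e₂)` is NOT congruent to `0` or `1` modulo `ϖ`.  (If `F'` is a field with the same constants,
a two-chart Čech connectedness lemma for `F'` then gives a contradiction.) -/
theorem exists_kummer_idempotents (hV : GaussData ϖ m u V)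
    (hfin : ChartData ϖ m u Bfin V) (hinf : ChartData ϖ m u Binf V)
    (hfm : Bfin ≤ Bmid) (him : Binf ≤ Bmid)
    (x : Bfin) (hx0 : (x : F) ≠ 0) (hxinv : ((x : F))⁻¹ ∈ Bmid)
    (hloc : ∀ f ∈ Bmid, ∃ K : ℕ, (x : F) ^ K * f ∈ Bfin)
    (hm2 : 2 ≤ m) {z : F'} (kb : KummerBasis m u z) :
    ∃ e₁ e₂ : F', IsIntegral Bfin e₁ ∧ IsIntegral Binf e₂ ∧
      (∃ t : F', IsIntegral Bfin t ∧ e₁ ^ 2 - e₁ = algebraMap A F' ϖ * t) ∧
      (∃ t : F', IsIntegral Binf t ∧ e₂ ^ 2 - e₂ = algebraMap A F' ϖ * t) ∧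
      (∃ t : F', IsIntegral Bmid t ∧ e₁ - e₂ = algebraMap A F' ϖ * t) ∧
      (¬ ∃ t : F', IsIntegral Bfin t ∧ e₁ = algebraMap A F' ϖ * t) ∧
      (¬ ∃ t : F', IsIntegral Bfin t ∧ 1 - e₁ = algebraMap A F' ϖ * t) := by
  obtain ⟨e₁, e₂, c₁, he₁, he₂, hc₁, h1, hi1, hi2, h12⟩ :=
    exists_kummer_lifts hV hfin hinf hfm him x hx0 hxinv hloc kb
  set E : F' := kummerE F m z with hEdef
  refine ⟨e₁, e₂, he₁, he₂, hi1, hi2, h12, ?_, ?_⟩
  · rintro ⟨t, ht, het⟩
    have hEt : E = algebraMap A F' ϖ * (t + c₁) := by rw [h1, het]; ring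
    have hint : IsIntegral V (t + c₁) := (isIntegral_of_le hfin.le_V ht).add hc₁
    have h0 := kummerE_repr kb ⟨0, by omega⟩
    rw [← hEdef, hEt, smul_repr] at h0
    exact hV.m_inv_ne _ (hV.repr_mem kb hint _) h0.symm
  · rintro ⟨t, ht, het⟩
    have hEt : 1 - E = algebraMap A F' ϖ * (t - c₁) := by
      have : 1 - E = (1 - e₁) - algebraMap A F' ϖ * c₁ := by rw [h1]; ring
      rw [this, het]; ring
    have hint : IsIntegral V (t - c₁) := (isIntegral_of_le hfin.le_V ht).sub hc₁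
    have h0 : kb.basis.repr (1 - E) ⟨1, by omega⟩ = -(m : F)⁻¹ := by
      rw [map_sub, Finsupp.sub_apply, one_repr kb, hEdef, kummerE_repr kb]
      simp
    rw [hEt, smul_repr] at h0
    refine hV.m_inv_ne (-(kb.basis.repr (t - c₁) ⟨1, by omega⟩)) (V.neg_mem (hV.repr_mem kb hint _)) ?_
    rw [mul_neg, h0, neg_neg]

end Main

end Fermat.Agent.A2.H348

end
-- ===== PACK-END A2/H348/Glue.lean

-- ===== PACK-BEGIN S59/H667/E23LinAlg.lean
section


/-!
# S59 / layer E, pieces E2+E3 (helper667): linear algebra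

Rank two endomorphisms satisfying a monic quadratic relation.

* `end_trace_sub_smul` : `f² - a f + c = 0` implies `(tr f - a) • f = (det f - c) • 1`
  (Cayley–Hamilton in rank 2);
* `end_charpoly_eq` : `charpoly f = X² - tr f X + det f`;
* `exists_scalar_on_ptorsion` : over `ZMod (p^n)`, if `c • f` is a scalar for some `c ≠ 0`, then `f`
  acts as a scalar on the `p`-torsion.  Hence (`det_trace_of_relation`): if `f` is NOT a scalar on
  the `p`-torsion, the relation `f² - a f + c = 0` forces `tr f = a` and `det f = c`.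
-/

set_option autoImplicit false

namespace Fermat.Agent.S59.H667

open Matrix Polynomial

section TwoByTwo

variable {R : Type*} [CommRing R]

/-- Cayley–Hamilton for `2 × 2` matrices. -/
theorem mat2_cayley_hamilton (M : Matrix (Fin 2) (Fin 2) R) :
    M * M - M.trace • M + M.det • (1 : Matrix (Fin 2) (Fin 2) R) = 0 := by
  ext i j
  fin_cases i <;> fin_cases j <;>
    simp [Matrix.mul_apply, Fin.sum_univ_two, Matrix.trace, Matrix.det_fin_two] <;> ring

theorem mat2_trace_sub_smul (M : Matrix (Fin 2) (Fin 2) R) (a b : R)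
    (h : M * M - a • M + b • (1 : Matrix (Fin 2) (Fin 2) R) = 0) :
    (M.trace - a) • M = (M.det - b) • (1 : Matrix (Fin 2) (Fin 2) R) := by
  have h1 := mat2_cayley_hamilton M
  have h2 : (M.trace - a) • M - (M.det - b) • (1 : Matrix (Fin 2) (Fin 2) R) =
      (M * M - a • M + b • 1) - (M * M - M.trace • M + M.det • 1) := by
    simp only [sub_smul]
    abel
  rw [h, h1, sub_zero] at h2
  exact sub_eq_zero.1 h2

variable {V : Type*} [AddCommGroup V] [Module R V]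

theorem end_trace_sub_smul (b : Module.Basis (Fin 2) R V) (f : Module.End R V) (a c : R)
    (h : f * f - a • f + c • (1 : Module.End R V) = 0) :
    (LinearMap.trace R V f - a) • f = (LinearMap.det f - c) • (1 : Module.End R V) := by
  have hM := congrArg (LinearMap.toMatrix b b) h
  simp only [map_add, map_sub, map_smul, LinearMap.toMatrix_mul, LinearMap.toMatrix_one,
    map_zero] at hM
  have h2 := mat2_trace_sub_smul _ a c hM
  rw [← LinearMap.trace_eq_matrix_trace R b f, LinearMap.det_toMatrix b f] at h2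
  apply (LinearMap.toMatrix b b).injective
  simp only [map_smul, LinearMap.toMatrix_one]
  exact h2

theorem end_charpoly_eq [Nontrivial R] (b : Module.Basis (Fin 2) R V) (f : Module.End R V) :
    haveI := Module.Free.of_basis b
    haveI := Module.Finite.of_basis b
    LinearMap.charpoly f = X ^ 2 - C (LinearMap.trace R V f) * X + C (LinearMap.det f) := by
  haveI := Module.Free.of_basis b
  haveI := Module.Finite.of_basis b
  rw [← LinearMap.charpoly_toMatrix f b, Matrix.charpoly_fin_two,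
    ← LinearMap.trace_eq_matrix_trace R b f, LinearMap.det_toMatrix b f]

end TwoByTwo

section ZModPow

variable {p n : ℕ} {V : Type*} [AddCommGroup V] [Module (ZMod (p ^ n)) V]

/-- a nonzero element of `ZMod (p^n)` is `p^k * unit` with `k < n` -/
theorem zmod_pow_exists_eq (hp : p.Prime) (c : ZMod (p ^ n)) (hc : c ≠ 0) :
    ∃ (k : ℕ) (u : ZMod (p ^ n)), k < n ∧ IsUnit u ∧ c = (p : ZMod (p ^ n)) ^ k * u := by
  haveI : NeZero (p ^ n) := ⟨pow_ne_zero n hp.ne_zero⟩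
  have hv : c.val ≠ 0 := by
    intro h
    exact hc ((ZMod.val_eq_zero c).1 h)
  obtain ⟨k, t, ht, hkt⟩ := Nat.exists_eq_pow_mul_and_not_dvd hv p hp.ne_one
  have hlt : c.val < p ^ n := ZMod.val_lt c
  have htpos : 0 < t := by
    rcases Nat.eq_zero_or_pos t with h | h
    · subst h; simp at ht
    · exact h
  have hk : k < n := by
    by_contra hkn
    push_neg at hkn
    have h1 : p ^ n ≤ p ^ k := Nat.pow_le_pow_right hp.pos hkn
    have h2 : p ^ k ≤ c.val := by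
      rw [hkt]
      exact Nat.le_mul_of_pos_right _ htpos
    omega
  refine ⟨k, (t : ZMod (p ^ n)), hk, ?_, ?_⟩
  · rw [ZMod.isUnit_iff_coprime]
    exact Nat.Coprime.pow_right n ((Nat.Prime.coprime_iff_not_dvd hp).2 ht).symm
  · have : c = ((c.val : ℕ) : ZMod (p ^ n)) := (ZMod.natCast_zmod_val c).symm
    rw [this, hkt]
    push_cast
    rfl

/-- an element killed by `p` is divisible by `p^(n-1)` -/
theorem exists_eq_pow_smul_of_p_smul_eq_zero (hp : p.Prime) (hn : 1 ≤ n)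
    (b : Module.Basis (Fin 2) (ZMod (p ^ n)) V) (x : V)
    (hx : (p : ZMod (p ^ n)) • x = 0) :
    ∃ y : V, x = (p : ZMod (p ^ n)) ^ (n - 1) • y := by
  haveI : NeZero (p ^ n) := ⟨pow_ne_zero n hp.ne_zero⟩
  have hcoord : ∀ i, ∃ z : ZMod (p ^ n), b.repr x i = (p : ZMod (p ^ n)) ^ (n - 1) * z := by
    intro i
    have h1 : (p : ZMod (p ^ n)) * b.repr x i = 0 := by
      have := congrArg (fun v => b.repr v i) hx
      simpa using this
    set v := (b.repr x i).val with hv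
    have h2 : ((p * v : ℕ) : ZMod (p ^ n)) = 0 := by
      push_cast
      rw [hv, ZMod.natCast_zmod_val]
      exact h1
    rw [ZMod.natCast_eq_zero_iff] at h2
    have h3 : p ^ (n - 1) ∣ v := by
      have h4 : p ^ n = p * p ^ (n - 1) := by
        rw [← pow_succ']
        congr 1
        omega
      rw [h4] at h2
      exact (Nat.mul_dvd_mul_iff_left hp.pos).1 h2
    obtain ⟨w, hw⟩ := h3
    refine ⟨(w : ZMod (p ^ n)), ?_⟩
    have : b.repr x i = ((v : ℕ) : ZMod (p ^ n)) := (ZMod.natCast_zmod_val _).symm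
    rw [this, hw]
    push_cast
    rfl
  choose z hz using hcoord
  refine ⟨∑ i, z i • b i, ?_⟩
  rw [Finset.smul_sum]
  conv_lhs => rw [← b.sum_repr x]
  refine Finset.sum_congr rfl fun i _ => ?_
  rw [hz i, mul_smul]

/-- If a nonzero multiple of `f` is a scalar, then `f` is a scalar on the `p`-torsion. -/
theorem exists_scalar_on_ptorsion (hp : p.Prime) (hn : 1 ≤ n)
    (b : Module.Basis (Fin 2) (ZMod (p ^ n)) V) (f : Module.End (ZMod (p ^ n)) V)
    (c e : ZMod (p ^ n)) (hc : c ≠ 0) (h : c • f = e • (1 : Module.End (ZMod (p ^ n)) V)) :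
    ∃ s : ZMod (p ^ n), ∀ x : V, (p : ZMod (p ^ n)) • x = 0 → f x = s • x := by
  obtain ⟨k, u, hk, hu, rfl⟩ := zmod_pow_exists_eq hp c hc
  obtain ⟨u', rfl⟩ := hu
  -- `p^k • f = e' • 1`
  set e' : ZMod (p ^ n) := (↑u'⁻¹ : ZMod (p ^ n)) * e with he'
  have h1 : ((p : ZMod (p ^ n)) ^ k) • f = e' • (1 : Module.End (ZMod (p ^ n)) V) := by
    have := congrArg (fun g => (↑u'⁻¹ : ZMod (p ^ n)) • g) h
    simp only [smul_smul] at this
    rw [← this]
    congr 1
    rw [mul_comm ((p : ZMod (p ^ n)) ^ k), ← mul_assoc, Units.inv_mul, one_mul]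
  set α : ZMod (p ^ n) := b.repr (f (b 0)) 0 with hα
  have h2 : (p : ZMod (p ^ n)) ^ k * α = e' := by
    have := congrArg (fun g : Module.End (ZMod (p ^ n)) V => b.repr (g (b 0)) 0) h1
    simpa using this
  refine ⟨α, fun x hx => ?_⟩
  obtain ⟨y, rfl⟩ := exists_eq_pow_smul_of_p_smul_eq_zero hp hn b x hx
  have hsplit : (p : ZMod (p ^ n)) ^ (n - 1) = (p : ZMod (p ^ n)) ^ k * (p : ZMod (p ^ n)) ^ (n - 1 - k) := by
    rw [← pow_add]
    congr 1
    omega
  rw [hsplit, mul_smul]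
  set y' := (p : ZMod (p ^ n)) ^ (n - 1 - k) • y
  have h3 : f ((p : ZMod (p ^ n)) ^ k • y') = (((p : ZMod (p ^ n)) ^ k) • f) y' := by
    rw [LinearMap.smul_apply, map_smul]
  rw [h3, h1, LinearMap.smul_apply, Module.End.one_apply, ← h2, mul_smul, smul_comm]

/-- **Key lemma.** If `f` satisfies `f² - a f + c = 0` and is not a scalar on the `p`-torsion,
then `tr f = a` and `det f = c`. -/
theorem det_trace_of_relation (hp : p.Prime) (hn : 1 ≤ n)
    (b : Module.Basis (Fin 2) (ZMod (p ^ n)) V) (f : Module.End (ZMod (p ^ n)) V)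
    (a c : ZMod (p ^ n))
    (h : f * f - a • f + c • (1 : Module.End (ZMod (p ^ n)) V) = 0)
    (hns : ¬ ∃ s : ZMod (p ^ n), ∀ x : V, (p : ZMod (p ^ n)) • x = 0 → f x = s • x) :
    LinearMap.trace (ZMod (p ^ n)) V f = a ∧ LinearMap.det f = c := by
  have h1 := end_trace_sub_smul b f a c h
  have h2 : LinearMap.trace (ZMod (p ^ n)) V f - a = 0 := by
    by_contra hne
    exact hns (exists_scalar_on_ptorsion hp hn b f _ _ hne h1)
  rw [h2, zero_smul] at h1
  refine ⟨sub_eq_zero.1 h2, ?_⟩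
  have h3 := congrArg (fun g : Module.End (ZMod (p ^ n)) V => b.repr (g (b 0)) 0) h1
  simp only [LinearMap.zero_apply, map_zero, Finsupp.coe_zero, Pi.zero_apply, LinearMap.smul_apply,
    Module.End.one_apply, map_smul, Finsupp.smul_apply, Module.Basis.repr_self,
    Finsupp.single_eq_same, smul_eq_mul, mul_one] at h3
  exact sub_eq_zero.1 h3.symm

/-- If `f² - a f + c = 0`, `det f = c` and `f` is invertible, then `tr f = a`. -/
theorem trace_of_relation_of_det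
    (b : Module.Basis (Fin 2) (ZMod (p ^ n)) V) (f : Module.End (ZMod (p ^ n)) V)
    (a c : ZMod (p ^ n))
    (h : f * f - a • f + c • (1 : Module.End (ZMod (p ^ n)) V) = 0)
    (hdet : LinearMap.det f = c) (hinv : ∃ g : Module.End (ZMod (p ^ n)) V, g * f = 1) :
    LinearMap.trace (ZMod (p ^ n)) V f = a := by
  have h1 := end_trace_sub_smul b f a c h
  rw [hdet, sub_self, zero_smul] at h1
  obtain ⟨g, hg⟩ := hinv
  have h2 : (LinearMap.trace (ZMod (p ^ n)) V f - a) • (1 : Module.End (ZMod (p ^ n)) V) = 0 := by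
    have := congrArg (fun t => g * t) h1
    simp only [mul_smul_comm, hg, mul_zero] at this
    exact this
  have h3 := congrArg (fun g : Module.End (ZMod (p ^ n)) V => b.repr (g (b 0)) 0) h2
  simp only [LinearMap.zero_apply, map_zero, Finsupp.coe_zero, Pi.zero_apply, LinearMap.smul_apply,
    Module.End.one_apply, map_smul, Finsupp.smul_apply, Module.Basis.repr_self,
    Finsupp.single_eq_same, smul_eq_mul, mul_one] at h3
  exact sub_eq_zero.1 h3

end ZModPow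

end Fermat.Agent.S59.H667

end
-- ===== PACK-END S59/H667/E23LinAlg.lean

-- ===== PACK-BEGIN S59/H7/HeckeLocalCore.lean
section



/-!
# S59, layer L1 (Hecke datum), piece HL-CORE (helper7)

For the Prelude ring `T := CuspForm.heckeLocal N S 𝒪 θ` (localisation of `𝒪 ⊗ heckeLatticeAlgebra`
at the maximal ideal cut out by `θ`) and `π := CuspForm.heckeLocal.π`, we prove the four algebraic
fields of `CuspForm.HeckeGaloisRepDatum`:

* `residue_π`          : `residue (π t) = ResidueField.map (algebraMap 𝒪 T) (θ t)`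
* `adjoin_range_π`     : `Algebra.adjoin 𝒪 (range π) = ⊤`
* `exists_point`       : every `χ : 𝕋 →+* 𝒪` lifting `θ` factors through `T`
* `residue_surjective` : `𝒪 → T → residue field` is onto

and package them: `datumOfRep` builds a `HeckeGaloisRepDatum` from a Galois representation over `T`
with the right Frobenius characteristic polynomials.
-/

set_option autoImplicit false
set_option synthInstance.maxHeartbeats 400000
set_option maxHeartbeats 1000000
set_option linter.unusedSectionVars false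

noncomputable section

namespace Fermat.Agent.S59.H7

open CuspForm IsLocalRing
open scoped TensorProduct

variable (N : ℕ) [NeZero N] (S : Set ℕ)
variable (𝒪 : Type) [CommRing 𝒪] [IsDomain 𝒪] [IsDiscreteValuationRing 𝒪]
  [IsAdicComplete (IsLocalRing.maximalIdeal 𝒪) 𝒪]
variable (θ : heckeAlgebra N 2 S →+* IsLocalRing.ResidueField 𝒪)
variable [Fact (HasIntegralStructure N 2)]

/-- `B → T` is surjective (`B = 𝒪 ⊗ heckeLatticeAlgebra` is a finite product of its localisations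
at maximal ideals, `𝒪` being complete). -/
theorem algebraMap_base_surjective :
    Function.Surjective (algebraMap (heckeBaseAlgebra N S 𝒪) (heckeLocal N S 𝒪 θ)) := by
  classical
  have : Module.Finite 𝒪 (heckeBaseAlgebra N S 𝒪) :=
    inferInstanceAs (Module.Finite 𝒪 (𝒪 ⊗[ℤ] ↥(heckeLatticeAlgebra N S)))
  set P : MaximalSpectrum (heckeBaseAlgebra N S 𝒪) :=
    ⟨heckeLocalIdeal N S 𝒪 θ, heckeLocalIdeal.instIsMaximal N S 𝒪 θ⟩ with hP
  obtain ⟨-, hbij, -, -⟩ :=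
    Algebra.finite_maximalSpectrum_and_bijective_localization_of_module_finite (𝒪 := 𝒪)
      (heckeBaseAlgebra N S 𝒪)
  have hsurjP : Function.Surjective
      (algebraMap (heckeBaseAlgebra N S 𝒪) (Localization.AtPrime P.asIdeal)) := by
    intro z
    obtain ⟨b, hb⟩ := hbij.2 (Function.update 0 P z)
    refine ⟨b, ?_⟩
    have h := congrFun hb P
    simp only [Function.update_self] at h
    exact h
  let e := IsLocalization.algEquiv (heckeLocalIdeal N S 𝒪 θ).primeCompl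
    (Localization.AtPrime (heckeLocalIdeal N S 𝒪 θ)) (heckeLocal N S 𝒪 θ)
  intro z
  obtain ⟨b, hb⟩ := hsurjP (e.symm z)
  refine ⟨b, ?_⟩
  have h1 : e (algebraMap (heckeBaseAlgebra N S 𝒪)
      (Localization.AtPrime (heckeLocalIdeal N S 𝒪 θ)) b) =
      algebraMap (heckeBaseAlgebra N S 𝒪) (heckeLocal N S 𝒪 θ) b := e.commutes b
  rw [← h1]
  have h2 : algebraMap (heckeBaseAlgebra N S 𝒪)
      (Localization.AtPrime (heckeLocalIdeal N S 𝒪 θ)) b = e.symm z := hb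
  rw [h2, AlgEquiv.apply_symm_apply]

/-- Membership in the maximal ideal of `T`, tested on `B`. -/
theorem algebraMap_base_mem_maximalIdeal_iff (b : heckeBaseAlgebra N S 𝒪) :
    algebraMap (heckeBaseAlgebra N S 𝒪) (heckeLocal N S 𝒪 θ) b ∈
        maximalIdeal (heckeLocal N S 𝒪 θ) ↔ b ∈ heckeLocalIdeal N S 𝒪 θ :=
  IsLocalization.AtPrime.to_map_mem_maximal_iff (heckeLocal N S 𝒪 θ) (heckeLocalIdeal N S 𝒪 θ) b _

/-- Membership in the maximal ideal of `T`, tested on `𝒪 ⊗ 𝕋`. -/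
theorem mem_maximalIdeal_iff (x : 𝒪 ⊗[ℤ] ↥(heckeAlgebra N 2 S)) :
    algebraMap (heckeBaseAlgebra N S 𝒪) (heckeLocal N S 𝒪 θ) (latticeBaseChange N S 𝒪 x) ∈
        maximalIdeal (heckeLocal N S 𝒪 θ) ↔ residualCharacter N S 𝒪 θ x = 0 := by
  rw [algebraMap_base_mem_maximalIdeal_iff, ← mem_heckeCharKernel_iff, ← Ideal.mem_comap,
    comap_heckeLocalIdeal N S 𝒪 θ (ker_latticeBaseChange_le_heckeCharKernel N S 𝒪 θ)]

theorem π_eq (t : ↥(heckeAlgebra N 2 S)) :
    heckeLocal.π N S 𝒪 θ t =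
      algebraMap (heckeBaseAlgebra N S 𝒪) (heckeLocal N S 𝒪 θ)
        (latticeBaseChange N S 𝒪 ((1 : 𝒪) ⊗ₜ[ℤ] t)) := rfl

theorem algebraMap_eq (a : 𝒪) :
    algebraMap 𝒪 (heckeLocal N S 𝒪 θ) a =
      algebraMap (heckeBaseAlgebra N S 𝒪) (heckeLocal N S 𝒪 θ)
        (latticeBaseChange N S 𝒪 (algebraMap 𝒪 (𝒪 ⊗[ℤ] ↥(heckeAlgebra N 2 S)) a)) := by
  rw [latticeBaseChange_algebraMap]
  exact IsScalarTower.algebraMap_apply 𝒪 (heckeBaseAlgebra N S 𝒪) (heckeLocal N S 𝒪 θ) a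

/-- Field `residue_π` of `HeckeGaloisRepDatum`. -/
theorem residue_π (t : ↥(heckeAlgebra N 2 S)) :
    IsLocalRing.residue (heckeLocal N S 𝒪 θ) (heckeLocal.π N S 𝒪 θ t) =
      IsLocalRing.ResidueField.map (algebraMap 𝒪 (heckeLocal N S 𝒪 θ)) (θ t) := by
  obtain ⟨a, ha⟩ := IsLocalRing.residue_surjective (θ t)
  rw [← ha, IsLocalRing.ResidueField.map_residue, ← sub_eq_zero, ← map_sub,
    IsLocalRing.residue_eq_zero_iff, π_eq, algebraMap_eq, ← map_sub, ← map_sub,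
    mem_maximalIdeal_iff, map_sub, residualCharacter_tmul, residualCharacter_algebraMap, map_one,
    one_mul, ha, sub_self]

/-- Every element of `T` is congruent to an element of `𝒪` modulo the maximal ideal. -/
theorem exists_sub_mem_maximalIdeal (z : heckeLocal N S 𝒪 θ) :
    ∃ a : 𝒪, z - algebraMap 𝒪 (heckeLocal N S 𝒪 θ) a ∈ maximalIdeal (heckeLocal N S 𝒪 θ) := by
  obtain ⟨b, rfl⟩ := algebraMap_base_surjective N S 𝒪 θ z
  obtain ⟨x, rfl⟩ := latticeBaseChange_surjective N S 𝒪 b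
  obtain ⟨a, ha⟩ := IsLocalRing.residue_surjective (residualCharacter N S 𝒪 θ x)
  refine ⟨a, ?_⟩
  rw [algebraMap_eq, ← map_sub, ← map_sub, mem_maximalIdeal_iff, map_sub,
    residualCharacter_algebraMap, ha, sub_self]

/-- Field `residue_surjective` of `HeckeGaloisRepDatum`. -/
theorem residue_surjective :
    Function.Surjective (IsLocalRing.residue (heckeLocal N S 𝒪 θ) ∘
      algebraMap 𝒪 (heckeLocal N S 𝒪 θ)) := by
  intro y
  obtain ⟨z, rfl⟩ := IsLocalRing.residue_surjective y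
  obtain ⟨a, ha⟩ := exists_sub_mem_maximalIdeal N S 𝒪 θ z
  refine ⟨a, ?_⟩
  rw [Function.comp_apply]
  have := (IsLocalRing.residue_eq_zero_iff _).mpr ha
  rw [map_sub, sub_eq_zero] at this
  exact this.symm

/-- Field `adjoin_range_π` of `HeckeGaloisRepDatum`. -/
theorem adjoin_range_π :
    Algebra.adjoin 𝒪 (Set.range (heckeLocal.π N S 𝒪 θ)) = ⊤ := by
  rw [eq_top_iff]
  rintro z -
  obtain ⟨b, rfl⟩ := algebraMap_base_surjective N S 𝒪 θ z
  obtain ⟨x, rfl⟩ := latticeBaseChange_surjective N S 𝒪 b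
  induction x using TensorProduct.induction_on with
  | zero =>
    rw [map_zero, map_zero]
    exact Subalgebra.zero_mem _
  | tmul a t =>
    have h1 : (a ⊗ₜ[ℤ] t : 𝒪 ⊗[ℤ] ↥(heckeAlgebra N 2 S)) =
        algebraMap 𝒪 (𝒪 ⊗[ℤ] ↥(heckeAlgebra N 2 S)) a * ((1 : 𝒪) ⊗ₜ[ℤ] t) := by
      rw [Algebra.TensorProduct.algebraMap_apply, Algebra.algebraMap_self, RingHom.id_apply,
        Algebra.TensorProduct.tmul_mul_tmul, mul_one, one_mul]
    rw [h1, map_mul, map_mul, ← algebraMap_eq, ← π_eq]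
    exact Subalgebra.mul_mem _ (Subalgebra.algebraMap_mem _ a)
      (Algebra.subset_adjoin ⟨t, rfl⟩)
  | add x y hx hy =>
    rw [map_add, map_add]
    exact Subalgebra.add_mem _ hx hy

/-- The `𝒪`-algebra map `𝒪 ⊗ 𝕋 → 𝒪`, `a ⊗ t ↦ a * χ t`. -/
def pointTensor (χ : heckeAlgebra N 2 S →+* 𝒪) : (𝒪 ⊗[ℤ] ↥(heckeAlgebra N 2 S)) →ₐ[𝒪] 𝒪 :=
  Algebra.TensorProduct.lift (AlgHom.id 𝒪 𝒪) χ.toIntAlgHom (fun _ _ => Commute.all _ _)

theorem pointTensor_tmul (χ : heckeAlgebra N 2 S →+* 𝒪) (a : 𝒪) (t : ↥(heckeAlgebra N 2 S)) :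
    pointTensor N S 𝒪 χ (a ⊗ₜ[ℤ] t) = a * χ t := by
  simp [pointTensor]

theorem residue_pointTensor (χ : heckeAlgebra N 2 S →+* 𝒪)
    (hχ : ∀ t : heckeAlgebra N 2 S, IsLocalRing.residue 𝒪 (χ t) = θ t)
    (x : 𝒪 ⊗[ℤ] ↥(heckeAlgebra N 2 S)) :
    IsLocalRing.residue 𝒪 (pointTensor N S 𝒪 χ x) = residualCharacter N S 𝒪 θ x := by
  induction x using TensorProduct.induction_on with
  | zero => rw [map_zero, map_zero, map_zero]
  | tmul a t => rw [pointTensor_tmul, map_mul, hχ, residualCharacter_tmul]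
  | add x y hx hy => rw [map_add, map_add, map_add, hx, hy]

/-- `latticeBaseChange` as a ring isomorphism (under `HasIntegralStructure`). -/
def latticeBaseChangeEquiv :
    (𝒪 ⊗[ℤ] ↥(heckeAlgebra N 2 S)) ≃+* heckeBaseAlgebra N S 𝒪 :=
  RingEquiv.ofBijective (latticeBaseChange N S 𝒪)
    ⟨latticeBaseChange_injective N S 𝒪 Fact.out, latticeBaseChange_surjective N S 𝒪⟩

theorem latticeBaseChangeEquiv_symm_apply (x : 𝒪 ⊗[ℤ] ↥(heckeAlgebra N 2 S)) :
    (latticeBaseChangeEquiv N S 𝒪).symm (latticeBaseChange N S 𝒪 x) = x :=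
  (latticeBaseChangeEquiv N S 𝒪).symm_apply_apply x

/-- The ring map `B → 𝒪` induced by `χ`. -/
def pointBase (χ : heckeAlgebra N 2 S →+* 𝒪) : heckeBaseAlgebra N S 𝒪 →+* 𝒪 :=
  (pointTensor N S 𝒪 χ).toRingHom.comp (latticeBaseChangeEquiv N S 𝒪).symm.toRingHom

theorem pointBase_latticeBaseChange (χ : heckeAlgebra N 2 S →+* 𝒪)
    (x : 𝒪 ⊗[ℤ] ↥(heckeAlgebra N 2 S)) :
    pointBase N S 𝒪 χ (latticeBaseChange N S 𝒪 x) = pointTensor N S 𝒪 χ x := by
  change pointTensor N S 𝒪 χ ((latticeBaseChangeEquiv N S 𝒪).symm (latticeBaseChange N S 𝒪 x)) = _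
  rw [latticeBaseChangeEquiv_symm_apply]

theorem isUnit_pointBase (χ : heckeAlgebra N 2 S →+* 𝒪)
    (hχ : ∀ t : heckeAlgebra N 2 S, IsLocalRing.residue 𝒪 (χ t) = θ t)
    (y : heckeLocalSubmonoid N S 𝒪 θ) : IsUnit (pointBase N S 𝒪 χ y) := by
  obtain ⟨y, a, ha, rfl⟩ := y
  change IsUnit (pointBase N S 𝒪 χ (latticeBaseChange N S 𝒪 a))
  rw [pointBase_latticeBaseChange]
  by_contra hu
  have hm : pointTensor N S 𝒪 χ a ∈ maximalIdeal 𝒪 := (IsLocalRing.mem_maximalIdeal _).mpr hu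
  rw [← IsLocalRing.residue_eq_zero_iff, residue_pointTensor N S 𝒪 θ χ hχ] at hm
  exact Ideal.mem_primeCompl_iff.mp ha ((mem_heckeCharKernel_iff N S 𝒪 θ a).mpr hm)

/-- The ring map `T → 𝒪` induced by a lift `χ` of `θ`. -/
def pointLocal (χ : heckeAlgebra N 2 S →+* 𝒪)
    (hχ : ∀ t : heckeAlgebra N 2 S, IsLocalRing.residue 𝒪 (χ t) = θ t) :
    heckeLocal N S 𝒪 θ →+* 𝒪 :=
  IsLocalization.lift (M := heckeLocalSubmonoid N S 𝒪 θ) (S := heckeLocal N S 𝒪 θ)
    (g := pointBase N S 𝒪 χ) (isUnit_pointBase N S 𝒪 θ χ hχ)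

theorem pointLocal_algebraMap (χ : heckeAlgebra N 2 S →+* 𝒪)
    (hχ : ∀ t : heckeAlgebra N 2 S, IsLocalRing.residue 𝒪 (χ t) = θ t)
    (b : heckeBaseAlgebra N S 𝒪) :
    pointLocal N S 𝒪 θ χ hχ (algebraMap (heckeBaseAlgebra N S 𝒪) (heckeLocal N S 𝒪 θ) b) =
      pointBase N S 𝒪 χ b :=
  IsLocalization.lift_eq _ b

/-- Field `exists_point` of `HeckeGaloisRepDatum`. -/
theorem exists_point (χ : heckeAlgebra N 2 S →+* 𝒪)
    (hχ : ∀ t : heckeAlgebra N 2 S, IsLocalRing.residue 𝒪 (χ t) = θ t) :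
    ∃ ψ : heckeLocal N S 𝒪 θ →ₐ[𝒪] 𝒪,
      ∀ t : heckeAlgebra N 2 S, ψ (heckeLocal.π N S 𝒪 θ t) = χ t := by
  refine ⟨{ pointLocal N S 𝒪 θ χ hχ with
    commutes' := fun a => ?_ }, fun t => ?_⟩
  · change pointLocal N S 𝒪 θ χ hχ (algebraMap 𝒪 (heckeLocal N S 𝒪 θ) a) = a
    rw [algebraMap_eq, pointLocal_algebraMap, pointBase_latticeBaseChange, AlgHom.commutes]
    rfl
  · change pointLocal N S 𝒪 θ χ hχ (heckeLocal.π N S 𝒪 θ t) = χ t
    rw [π_eq, pointLocal_algebraMap, pointBase_latticeBaseChange, pointTensor_tmul, one_mul]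

/-- **HL-CORE packaging.**  A Galois representation over `T = heckeLocal N S 𝒪 θ` with the right
Frobenius characteristic polynomials and absolutely irreducible residual representation is a
`HeckeGaloisRepDatum`. -/
def datumOfRep (ρ : GaloisRepAdic (heckeLocal N S 𝒪 θ))
    (hfrob : ∀ (ℓ : ℕ) (hℓ : ℓ.Prime) (hℓN : ¬ ℓ ∣ N) (hℓS : ℓ ∉ S),
      ∀ A : ValuationSubring (AlgebraicClosure ℚ), A.LiesOverPrime ℓ →
        ∀ σ : AlgebraicClosure ℚ ≃ₐ[ℚ] AlgebraicClosure ℚ, A.IsFrobeniusAt σ ℓ →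
          LinearMap.charpoly (ρ.ρ σ) =
            Polynomial.X ^ 2 -
              Polynomial.C (heckeLocal.π N S 𝒪 θ (heckeAlgebra.T hℓ hℓN hℓS)) * Polynomial.X +
              Polynomial.C ((ℓ : heckeLocal N S 𝒪 θ)))
    (habs : ρ.residual.IsAbsolutelyIrreducible) :
    HeckeGaloisRepDatum N S 𝒪 θ (heckeLocal N S 𝒪 θ) where
  π := heckeLocal.π N S 𝒪 θ
  residue_π := residue_π N S 𝒪 θ
  adjoin_range_π := adjoin_range_π N S 𝒪 θ
  exists_point := exists_point N S 𝒪 θ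
  residue_surjective := residue_surjective N S 𝒪 θ
  ρ := ρ
  charpoly_frob := hfrob
  residual_absIrr := habs

end Fermat.Agent.S59.H7

end
end
-- ===== PACK-END S59/H7/HeckeLocalCore.lean

-- ===== PACK-BEGIN S59/TW/Aut/H762/CorAbs.lean
section


/-!
# S59 / cell TW, layer 3 (AUT), leaf CTRL, piece (5) COR — abstract part (helper762)

Mathlib only.  `G` a finite group acting `𝒪`-linearly on `X` (`δ g`, `δ g ∘ δ h = δ (g * h)`),
`V ⊆ X` a submodule with an "`𝒪[G]`-basis" `b` in the sense that every `y ∈ V` is uniquely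
`∑ i, ∑ g, c i g • δ g (b i)`.

* `ker_norm_h762`  : `∑ g, δ g y = 0 → y ∈ I_G V` (the additive closure of the `δ g y' - y'`);
* `inv_norm_h762`  : `(∀ g, δ g y = y) → y = ∑ g, δ g z` for some `z ∈ V`;
* `basis_transport_h762` : the same hypothesis with the group elements enumerated by a bijection
  `ε : E → G`;
* `cor_ctrl_abs_h762` : control.  `cor : X → Y`, `res : Y → X` with `res ∘ cor = ∑ g, δ g`,
  `cor ∘ res = |G|`, `cor ∘ δ g = cor`, `δ g ∘ res = res`, `Y` without `|G|`-torsion,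
  `cor V ⊆ W`, `res W ⊆ V`.  Then `cor V = W` and `ker (cor | V) = I_G V`.
-/

set_option autoImplicit false

namespace Fermat.Agent.S59.TW.Aut.H762

section Free

variable {𝒪 : Type*} [CommRing 𝒪] {X : Type*} [AddCommGroup X] [Module 𝒪 X]
  {G : Type*} [Group G] [Fintype G]
  (δ : G → X →ₗ[𝒪] X) (hδ : ∀ g h x, δ g (δ h x) = δ (g * h) x)
  (V : Submodule 𝒪 X) {d : ℕ} (b : Fin d → X) (hbV : ∀ i, b i ∈ V)
  (hb : ∀ y ∈ V, ∃! c : Fin d → G → 𝒪, y = ∑ i, ∑ g, c i g • δ g (b i))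

include hδ in
/-- The norm of a combination. -/
theorem norm_comb_h762 (c : Fin d → G → 𝒪) :
    ∑ h, δ h (∑ i, ∑ g, c i g • δ g (b i)) = ∑ i, ∑ g, (∑ g', c i g') • δ g (b i) := by
  simp only [map_sum, map_smul, hδ]
  rw [Finset.sum_comm]
  refine Finset.sum_congr rfl fun i _ => ?_
  rw [Finset.sum_comm]
  have h1 : ∀ g : G, ∑ h, c i g • δ (h * g) (b i) = c i g • ∑ h, δ h (b i) := by
    intro g
    rw [Finset.smul_sum]
    exact Equiv.sum_comp (Equiv.mulRight g) (fun h => c i g • δ h (b i))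
  rw [Finset.sum_congr rfl fun g _ => h1 g, ← Finset.sum_smul, Finset.smul_sum]

include hδ hbV hb in
/-- **`ker N = I_G V`** for a free `𝒪[G]`-module `V`. -/
theorem ker_norm_h762 {y : X} (hy : y ∈ V) (hN : ∑ g, δ g y = 0) :
    y ∈ AddSubgroup.closure {z : X | ∃ (g : G) (y' : X), y' ∈ V ∧ z = δ g y' - y'} := by
  obtain ⟨c, hc, -⟩ := hb y hy
  have h1 := norm_comb_h762 δ hδ b c
  rw [← hc, hN] at h1
  -- uniqueness for `0`
  obtain ⟨c0, -, hc0⟩ := hb 0 V.zero_mem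
  have e1 : (fun (i : Fin d) (_ : G) => ∑ g', c i g') = c0 := hc0 _ h1
  have e2 : (fun (_ : Fin d) (_ : G) => (0 : 𝒪)) = c0 := by
    apply hc0
    simp
  have hC : ∀ i, ∑ g', c i g' = 0 := by
    intro i
    have := congrFun (congrFun (e1.trans e2.symm) i) 1
    exact this
  have h2 : y = ∑ i, ∑ g, (δ g (c i g • b i) - c i g • b i) := by
    simp only [Finset.sum_sub_distrib, map_smul]
    rw [← hc]
    have : ∑ i, ∑ g, c i g • b i = 0 := by
      refine Finset.sum_eq_zero fun i _ => ?_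
      rw [← Finset.sum_smul, hC i, zero_smul]
    rw [this, sub_zero]
  rw [h2]
  refine AddSubgroup.sum_mem _ fun i _ => AddSubgroup.sum_mem _ fun g _ => ?_
  exact AddSubgroup.subset_closure ⟨g, c i g • b i, V.smul_mem _ (hbV i), rfl⟩

include hδ hbV hb in
/-- **`V^G = N V`** for a free `𝒪[G]`-module `V`. -/
theorem inv_norm_h762 {y : X} (hy : y ∈ V) (hinv : ∀ g, δ g y = y) :
    ∃ z ∈ V, y = ∑ g, δ g z := by
  obtain ⟨c, hc, huniq⟩ := hb y hy
  -- the coefficients are constant in `g`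
  have hconst : ∀ (h : G) (i : Fin d) (g : G), c i (h⁻¹ * g) = c i g := by
    intro h
    have h1 : y = ∑ i, ∑ g, c i (h⁻¹ * g) • δ g (b i) := by
      have h2 : δ h y = ∑ i, ∑ g, c i g • δ (h * g) (b i) := by
        conv_lhs => rw [hc]
        simp only [map_sum, map_smul, hδ]
      rw [hinv h] at h2
      rw [h2]
      refine Finset.sum_congr rfl fun i _ => ?_
      rw [← Equiv.sum_comp (Equiv.mulLeft h) (fun g => c i (h⁻¹ * g) • δ g (b i))]
      refine Finset.sum_congr rfl fun g _ => ?_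
      simp
    have h3 := huniq _ h1
    intro i g
    exact congrFun (congrFun h3 i) g
  have hc1 : ∀ i g, c i g = c i 1 := by
    intro i g
    have := hconst g i g
    rw [inv_mul_cancel] at this
    exact this.symm
  refine ⟨∑ i, c i 1 • b i, V.sum_mem fun i _ => V.smul_mem _ (hbV i), ?_⟩
  conv_lhs => rw [hc]
  simp only [map_sum, map_smul]
  rw [Finset.sum_comm]
  refine Finset.sum_congr rfl fun g _ => Finset.sum_congr rfl fun i _ => ?_
  rw [hc1 i g]

end Free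

section Transport

variable {𝒪 : Type*} [CommRing 𝒪] {X : Type*} [AddCommGroup X] [Module 𝒪 X]
  {G : Type*} [Fintype G] {E : Type*} [Fintype E]

/-- Transport of the basis property along a bijection `ε : E → G`. -/
theorem basis_transport_h762 (δ : G → X →ₗ[𝒪] X) (ε : E → G) (hε : Function.Bijective ε)
    {d : ℕ} (b : Fin d → X) {y : X}
    (h : ∃! c : Fin d → E → 𝒪, y = ∑ i, ∑ e, c i e • δ (ε e) (b i)) :
    ∃! c : Fin d → G → 𝒪, y = ∑ i, ∑ g, c i g • δ g (b i) := by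
  let εe : E ≃ G := Equiv.ofBijective ε hε
  have key : ∀ c : Fin d → G → 𝒪, ∑ i, ∑ g, c i g • δ g (b i) =
      ∑ i, ∑ e, c i (ε e) • δ (ε e) (b i) := by
    intro c
    refine Finset.sum_congr rfl fun i _ => ?_
    exact (Equiv.sum_comp εe (fun g => c i g • δ g (b i))).symm
  obtain ⟨c, hc, huniq⟩ := h
  refine ⟨fun i g => c i (εe.symm g), ?_, ?_⟩
  · show y = ∑ i, ∑ g, c i (εe.symm g) • δ g (b i)
    rw [key]
    rw [hc]
    refine Finset.sum_congr rfl fun i _ => Finset.sum_congr rfl fun e _ => ?_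
    have : εe.symm (ε e) = e := εe.symm_apply_apply e
    rw [this]
  · intro c' hc'
    rw [key] at hc'
    have h1 := huniq (fun i e => c' i (ε e)) hc'
    funext i g
    have h2 := congrFun (congrFun h1 i) (εe.symm g)
    have h3 : ε (εe.symm g) = g := εe.apply_symm_apply g
    simp only [h3] at h2
    exact h2

end Transport

section Control

variable {X : Type*} [AddCommGroup X] {Y : Type*} [AddCommGroup Y]
  {G : Type*} [Fintype G]
  (δ : G → X → X) (cor : X →+ Y) (res : Y →+ X)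
  (h1 : ∀ x, res (cor x) = ∑ g, δ g x)
  (h2 : ∀ y, cor (res y) = Fintype.card G • y)
  (h3 : ∀ g x, cor (δ g x) = cor x)
  (h4 : ∀ g y, δ g (res y) = res y)
  (htf : ∀ y : Y, Fintype.card G • y = 0 → y = 0)
  (V : AddSubgroup X) (W : AddSubgroup Y)
  (hresW : ∀ y ∈ W, res y ∈ V)
  (hker : ∀ y ∈ V, ∑ g, δ g y = 0 →
    y ∈ AddSubgroup.closure {z : X | ∃ (g : G) (y' : X), y' ∈ V ∧ z = δ g y' - y'})
  (hinv : ∀ y ∈ V, (∀ g, δ g y = y) → ∃ z ∈ V, y = ∑ g, δ g z)

include h1 h2 h4 htf hresW hinv in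
/-- **Control, surjectivity**: `W ⊆ cor V`. -/
theorem cor_surj_abs_h762 {w : Y} (hw : w ∈ W) : ∃ v ∈ V, cor v = w := by
  obtain ⟨z, hz, hzw⟩ := hinv (res w) (hresW w hw) (fun g => h4 g w)
  refine ⟨z, hz, ?_⟩
  rw [← h1 z] at hzw
  have h5 : cor (res w) = cor (res (cor z)) := congrArg cor hzw
  rw [h2, h2] at h5
  have h6 : Fintype.card G • (cor z - w) = 0 := by
    rw [smul_sub, h5, sub_self]
  exact sub_eq_zero.mp (htf _ h6)

include h1 h3 hker in
/-- **Control, kernel**: `ker (cor | V) = I_G V`. -/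
theorem cor_ker_abs_h762 {v : X} (hv : v ∈ V) :
    cor v = 0 ↔
      v ∈ AddSubgroup.closure {z : X | ∃ (g : G) (y' : X), y' ∈ V ∧ z = δ g y' - y'} := by
  constructor
  · intro h
    apply hker v hv
    rw [← h1, h, map_zero]
  · intro h
    clear hv
    induction h using AddSubgroup.closure_induction with
    | mem z hz =>
      obtain ⟨g, y', -, rfl⟩ := hz
      rw [map_sub, h3, sub_self]
    | zero => exact map_zero _
    | add a b _ _ ha hb => rw [map_add, ha, hb, add_zero]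
    | neg a _ ha => rw [map_neg, ha, neg_zero]

end Control

section Closure

variable {𝒪 : Type*} [Ring 𝒪] {X : Type*} [AddCommGroup X] [Module 𝒪 X]

/-- The additive closure of a subset of a submodule `V`, computed in `V` or in the ambient
module. -/
theorem closure_subtype_iff_h762 (V : Submodule 𝒪 X) (S : Set X) (hS : ∀ x ∈ S, x ∈ V) (y : V) :
    (y : X) ∈ AddSubgroup.closure S ↔ y ∈ AddSubgroup.closure {z : V | (z : X) ∈ S} := by
  constructor
  · intro h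
    have key : ∀ x ∈ AddSubgroup.closure S,
        ∃ hx : x ∈ V, (⟨x, hx⟩ : V) ∈ AddSubgroup.closure {z : V | (z : X) ∈ S} := by
      intro x hx
      induction hx using AddSubgroup.closure_induction with
      | mem z hz => exact ⟨hS z hz, AddSubgroup.subset_closure hz⟩
      | zero => exact ⟨V.zero_mem, AddSubgroup.zero_mem _⟩
      | add a b _ _ ha hb =>
        obtain ⟨ha1, ha2⟩ := ha
        obtain ⟨hb1, hb2⟩ := hb
        exact ⟨V.add_mem ha1 hb1, AddSubgroup.add_mem _ ha2 hb2⟩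
      | neg a _ ha =>
        obtain ⟨ha1, ha2⟩ := ha
        exact ⟨V.neg_mem ha1, AddSubgroup.neg_mem _ ha2⟩
    obtain ⟨_, h2⟩ := key y h
    exact h2
  · intro h
    induction h using AddSubgroup.closure_induction with
    | mem z hz => exact AddSubgroup.subset_closure hz
    | zero => exact AddSubgroup.zero_mem _
    | add a b _ _ ha hb => exact AddSubgroup.add_mem _ ha hb
    | neg a _ ha => exact AddSubgroup.neg_mem _ ha

end Closure

end Fermat.Agent.S59.TW.Aut.H762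

end
-- ===== PACK-END S59/TW/Aut/H762/CorAbs.lean

-- ===== PACK-BEGIN S59/TW/Aut/H762/PCorAbs.lean
section


/-!
# S59 / cell TW, layer 3 (AUT), leaf CMP part (T), piece PCOR — abstract part (helper762)

Mathlib only.  `G` a finite commutative group (`hcomm`) acting `𝒪`-linearly on `X` (`δ`), `V ⊆ X` a stable
submodule with an "`𝒪[G]`-basis" `b : ι → X` (`∃!` form), `D ≤ G` a subgroup.

* `kerNormI_h762` : `ker_norm_h762` for an arbitrary finite index type;
* `basis_restrict_h762` : `V` has the "`𝒪[D]`-basis" `δ (τ c) (b i)`, `(i, c) ∈ ι × G ⧸ D`;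
* `ker_norm_sub_h762` : `∑ d ∈ D, δ d y = 0 → y ∈ I_D V`.
-/

set_option autoImplicit false

namespace Fermat.Agent.S59.TW.Aut.H762

section FreeI

variable {𝒪 : Type*} [CommRing 𝒪] {X : Type*} [AddCommGroup X] [Module 𝒪 X]
  {G : Type*} [Group G] [Fintype G]
  (δ : G → X →ₗ[𝒪] X) (hδ : ∀ g h x, δ g (δ h x) = δ (g * h) x)
  (V : Submodule 𝒪 X) {ι : Type*} [Fintype ι] (b : ι → X) (hbV : ∀ i, b i ∈ V)
  (hb : ∀ y ∈ V, ∃! c : ι → G → 𝒪, y = ∑ i, ∑ g, c i g • δ g (b i))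

include hδ in
theorem normI_comb_h762 (c : ι → G → 𝒪) :
    ∑ h, δ h (∑ i, ∑ g, c i g • δ g (b i)) = ∑ i, ∑ g, (∑ g', c i g') • δ g (b i) := by
  simp only [map_sum, map_smul, hδ]
  rw [Finset.sum_comm]
  refine Finset.sum_congr rfl fun i _ => ?_
  rw [Finset.sum_comm]
  have h1 : ∀ g : G, ∑ h, c i g • δ (h * g) (b i) = c i g • ∑ h, δ h (b i) := by
    intro g
    rw [Finset.smul_sum]
    exact Equiv.sum_comp (Equiv.mulRight g) (fun h => c i g • δ h (b i))
  rw [Finset.sum_congr rfl fun g _ => h1 g, ← Finset.sum_smul, Finset.smul_sum]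

include hδ hbV hb in
/-- **`ker N = I_G V`** for a free `𝒪[G]`-module `V` (any finite index type). -/
theorem kerNormI_h762 {y : X} (hy : y ∈ V) (hN : ∑ g, δ g y = 0) :
    y ∈ AddSubgroup.closure {z : X | ∃ (g : G) (y' : X), y' ∈ V ∧ z = δ g y' - y'} := by
  obtain ⟨c, hc, -⟩ := hb y hy
  have h1 := normI_comb_h762 δ hδ b c
  rw [← hc, hN] at h1
  obtain ⟨c0, -, hc0⟩ := hb 0 V.zero_mem
  have e1 : (fun (i : ι) (_ : G) => ∑ g', c i g') = c0 := hc0 _ h1
  have e2 : (fun (_ : ι) (_ : G) => (0 : 𝒪)) = c0 := by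
    apply hc0
    simp
  have hC : ∀ i, ∑ g', c i g' = 0 := by
    intro i
    have := congrFun (congrFun (e1.trans e2.symm) i) 1
    exact this
  have h2 : y = ∑ i, ∑ g, (δ g (c i g • b i) - c i g • b i) := by
    simp only [Finset.sum_sub_distrib, map_smul]
    rw [← hc]
    have : ∑ i, ∑ g, c i g • b i = 0 := by
      refine Finset.sum_eq_zero fun i _ => ?_
      rw [← Finset.sum_smul, hC i, zero_smul]
    rw [this, sub_zero]
  rw [h2]
  refine AddSubgroup.sum_mem _ fun i _ => AddSubgroup.sum_mem _ fun g _ => ?_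
  exact AddSubgroup.subset_closure ⟨g, c i g • b i, V.smul_mem _ (hbV i), rfl⟩

end FreeI

section Restrict

variable {𝒪 : Type*} [CommRing 𝒪] {X : Type*} [AddCommGroup X] [Module 𝒪 X]
  {G : Type*} [Group G] [Fintype G] (hcomm : ∀ a b : G, a * b = b * a)
  (δ : G → X →ₗ[𝒪] X) (hδ : ∀ g h x, δ g (δ h x) = δ (g * h) x)
  (V : Submodule 𝒪 X) (hVδ : ∀ g, ∀ x ∈ V, δ g x ∈ V)
  {ι : Type*} [Fintype ι] (b : ι → X) (hbV : ∀ i, b i ∈ V)
  (hb : ∀ y ∈ V, ∃! c : ι → G → 𝒪, y = ∑ i, ∑ g, c i g • δ g (b i))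
  (D : Subgroup G) [Fintype D]

theorem out_inv_mul_mem_h762 (g : G) :
    (Quotient.out (QuotientGroup.mk g : G ⧸ D))⁻¹ * g ∈ D := by
  rw [← QuotientGroup.eq]
  exact QuotientGroup.out_eq' _

/-- The bijection `(G ⧸ D) × D ≃ G`, `(c, d) ↦ τ c * d`. -/
noncomputable def cosetEquiv_h762 : (G ⧸ D) × D ≃ G where
  toFun x := Quotient.out x.1 * (x.2 : G)
  invFun g := (QuotientGroup.mk g,
    ⟨(Quotient.out (QuotientGroup.mk g : G ⧸ D))⁻¹ * g, out_inv_mul_mem_h762 D g⟩)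
  left_inv x := by
    obtain ⟨c, d⟩ := x
    have h1 : (QuotientGroup.mk (Quotient.out c * (d : G)) : G ⧸ D) = c := by
      rw [QuotientGroup.mk_mul_of_mem _ d.2]
      exact QuotientGroup.out_eq' c
    refine Prod.ext h1 ?_
    apply Subtype.ext
    show (Quotient.out (QuotientGroup.mk (Quotient.out c * (d : G)) : G ⧸ D))⁻¹ *
      (Quotient.out c * (d : G)) = d
    rw [h1, inv_mul_cancel_left]
  right_inv g := by
    show Quotient.out (QuotientGroup.mk g : G ⧸ D) *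
      ((Quotient.out (QuotientGroup.mk g : G ⧸ D))⁻¹ * g) = g
    rw [mul_inv_cancel_left]

theorem cosetEquiv_h762_apply (x : (G ⧸ D) × D) :
    cosetEquiv_h762 D x = Quotient.out x.1 * (x.2 : G) := rfl

/-- The change of coefficients. -/
noncomputable def coeffEquiv_h762 [Fintype (G ⧸ D)] :
    (ι × (G ⧸ D) → D → 𝒪) ≃ (ι → G → 𝒪) where
  toFun c' i g := c' (i, ((cosetEquiv_h762 D).symm g).1) ((cosetEquiv_h762 D).symm g).2
  invFun c x d := c x.1 (cosetEquiv_h762 D (x.2, d))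
  left_inv c' := by
    funext x d
    simp
  right_inv c := by
    funext i g
    simp

include hcomm hδ in
theorem comb_coeffEquiv_h762 [Fintype (G ⧸ D)] (c' : ι × (G ⧸ D) → D → 𝒪) :
    ∑ i, ∑ g, coeffEquiv_h762 (ι := ι) (𝒪 := 𝒪) D c' i g • δ g (b i) =
      ∑ x : ι × (G ⧸ D), ∑ d : D, c' x d • δ (d : G) (δ (Quotient.out x.2) (b x.1)) := by
  rw [Fintype.sum_prod_type]
  refine Finset.sum_congr rfl fun i _ => ?_
  rw [← Equiv.sum_comp (cosetEquiv_h762 D)
    (fun g => coeffEquiv_h762 (ι := ι) (𝒪 := 𝒪) D c' i g • δ g (b i)), Fintype.sum_prod_type]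
  refine Finset.sum_congr rfl fun c₀ _ => Finset.sum_congr rfl fun d _ => ?_
  have h1 : coeffEquiv_h762 (ι := ι) (𝒪 := 𝒪) D c' i (cosetEquiv_h762 D (c₀, d)) = c' (i, c₀) d := by
    show c' (i, ((cosetEquiv_h762 D).symm (cosetEquiv_h762 D (c₀, d))).1)
      ((cosetEquiv_h762 D).symm (cosetEquiv_h762 D (c₀, d))).2 = _
    rw [Equiv.symm_apply_apply]
  rw [h1, cosetEquiv_h762_apply, hδ, hcomm]

include hcomm hδ hb in
/-- **`V` is free over `𝒪[D]`** with the basis `δ (τ c) (b i)`. -/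
theorem basis_restrict_h762 [Fintype (G ⧸ D)] {y : X} (hy : y ∈ V) :
    ∃! c' : ι × (G ⧸ D) → D → 𝒪,
      y = ∑ x : ι × (G ⧸ D), ∑ d : D, c' x d • δ (d : G) (δ (Quotient.out x.2) (b x.1)) := by
  have h1 := hb y hy
  have h2 := ((coeffEquiv_h762 (ι := ι) (𝒪 := 𝒪) D).bijective.existsUnique_iff
    (p := fun c => y = ∑ i, ∑ g, c i g • δ g (b i))).mp h1
  simp only [comb_coeffEquiv_h762 hcomm δ hδ b D] at h2
  exact h2

include hcomm hδ hVδ hbV hb in
/-- **`ker N_D = I_D V`** for a subgroup `D ≤ G` and a free `𝒪[G]`-module `V`. -/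
theorem ker_norm_sub_h762 {y : X} (hy : y ∈ V) (hN : ∑ d : D, δ (d : G) y = 0) :
    y ∈ AddSubgroup.closure {z : X | ∃ (d : D) (y' : X), y' ∈ V ∧ z = δ (d : G) y' - y'} := by
  classical
  have : Fintype (G ⧸ D) := Fintype.ofFinite _
  exact kerNormI_h762 (G := D) (fun d => δ (d : G)) (fun g h x => hδ g h x) V
    (fun x : ι × (G ⧸ D) => δ (Quotient.out x.2) (b x.1))
    (fun x => hVδ _ _ (hbV x.1))
    (fun y hy => basis_restrict_h762 hcomm δ hδ V b hb D hy) hy hN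

end Restrict

end Fermat.Agent.S59.TW.Aut.H762

end
-- ===== PACK-END S59/TW/Aut/H762/PCorAbs.lean

-- ===== PACK-BEGIN S41/Spec/NE.lean
section






/-!
# Row S41, block NE ("non-Eisenstein") — frozen interface (sub-architect helper45)

`NEStatement` : if `E[p]` is irreducible (`p` odd), then for every `m ≥ 1` and every finite set `S`
there is a prime `ℓ ∉ S` of good reduction of the integral model `W`, `ℓ ≡ 1 mod m`, with
`p ∤ a_ℓ(W) − (ℓ + 1)`.

Sub-pieces (all inputs on main):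
* ABS  (done, helper701): `Fermat.Agent.S41.H701.exists_stable_line_of_eisenstein_h701`;
* DIM  (done, helper701): `Fermat.Agent.S41.H701.finrank_torsion_eq_two_h701`;
* `FrobRootStatement`        : a Frobenius at `ℓ ∤ M` raises `M`-th roots of unity to the `ℓ`-th power;
* `FrobRelTorsionStatement`  : `τ² − a_ℓ(W) τ + ℓ = 0` on `E[p](ℚ̄)` for a Frobenius `τ` at a good
  prime `ℓ ≥ 5`, `ℓ ≠ p` (from `Lib.Frob.FrobRelation` for `W` + `Lib.VC.vcPointBC`);
* `TorsionFieldStatement`    : a finite extension `L ⊆ ℚ̄` such that the action on `E[n]` only depends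
  on the restriction to `L`;
* assembly: `Lib.Cheb.frobeniusDivision` + the above ⇒ `NEStatement`.

Plan: `coord/S41.md` (origin/helper41), `coord/S41-NE.md` (origin/helper45).
No `sorry` in this file (definitions only).
-/

set_option autoImplicit false

namespace Fermat.Agent.S41.Spec

open WeierstrassCurve WeierstrassCurve.Affine WeierstrassCurve.Affine.Point

/-- `ℚ̄`. -/
abbrev QbNE : Type := AlgebraicClosure ℚ

/-- `Gal(ℚ̄/ℚ)`. -/
abbrev GQNE : Type := QbNE ≃ₐ[ℚ] QbNE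

/-- **Block NE.**  `E[p]` irreducible, `p` odd  ⇒  for all `m ≥ 1` and finite `S` there is a good prime
`ℓ ∉ S`, `ℓ ≡ 1 mod m`, with `p ∤ a_ℓ(W) − (ℓ + 1)`. -/
def NEStatement : Prop :=
  ∀ (E : WeierstrassCurve ℚ) [E.IsElliptic] (W : WeierstrassCurve ℤ), W.IsIntegralModelOf E →
    ∀ p : ℕ, p.Prime → p ≠ 2 →
      GaloisRepIsIrreducible (K := AlgebraicClosure ℚ) ℚ E p →
      ∀ m : ℕ, 0 < m → ∀ S : Finset ℕ,
        ∃ ℓ : ℕ, ℓ.Prime ∧ ℓ ∉ S ∧ W.IsGoodPrimeFor ℓ ∧ ℓ ≡ 1 [MOD m] ∧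
          ¬ (p : ℤ) ∣ W.apOfModel ℓ - ((ℓ : ℤ) + 1)

/-- **Leaf ROOT.**  A Frobenius element at a place over `ℓ ∤ M` acts on the `M`-th roots of unity of
`ℚ̄` by `t ↦ t ^ ℓ`. -/
def FrobRootStatement : Prop :=
  ∀ (M ℓ : ℕ), 0 < M → ℓ.Prime → ¬ ℓ ∣ M →
    ∀ (A : ValuationSubring QbNE) (τ : GQNE), A.LiesOverPrime ℓ → A.IsFrobeniusAt τ ℓ →
      ∀ t : QbNE, t ^ M = 1 → τ t = t ^ ℓ

/-- **Leaf REL.**  The Frobenius relation on `E[p](ℚ̄)`, for a curve `E/ℚ` with integral model `W`, a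
prime `ℓ ≥ 5`, `ℓ ≠ p`, of good reduction of `W`, and a Frobenius element `τ` over `ℓ`:
`τ²P − a_ℓ(W)·τP + ℓ·P = 0`. -/
def FrobRelTorsionStatement : Prop :=
  ∀ (E : WeierstrassCurve ℚ) [E.IsElliptic] (W : WeierstrassCurve ℤ), W.IsIntegralModelOf E →
    ∀ (p ℓ : ℕ), p.Prime → ℓ.Prime → 5 ≤ ℓ → ℓ ≠ p → W.IsGoodPrimeFor ℓ →
      ∀ (A : ValuationSubring QbNE) (τ : GQNE), A.LiesOverPrime ℓ → A.IsFrobeniusAt τ ℓ →
        ∀ P : Submodule.torsionBy ℤ (E⁄QbNE).Point p,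
          τ • τ • P - W.apOfModel ℓ • τ • P + (ℓ : ℤ) • P = 0

/-- **Leaf FLD.**  There is a finite extension `L ⊆ ℚ̄` of `ℚ` such that the action of `σ ∈ G_ℚ` on
`E[n](ℚ̄)` only depends on `σ|_L`. -/
def TorsionFieldStatement : Prop :=
  ∀ (E : WeierstrassCurve ℚ) [E.IsElliptic] (n : ℕ), 0 < n →
    ∃ L : IntermediateField ℚ QbNE, FiniteDimensional ℚ L ∧
      ∀ σ τ : GQNE, (∀ x ∈ L, σ x = τ x) →
        ∀ P : Submodule.torsionBy ℤ (E⁄QbNE).Point n, σ • P = τ • P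

/-- **Leaf RFLD.**  There is a finite extension `L ⊆ ℚ̄` of `ℚ` containing all `M`-th roots of unity. -/
def RootFieldStatement : Prop :=
  ∀ M : ℕ, 0 < M →
    ∃ L : IntermediateField ℚ QbNE, FiniteDimensional ℚ L ∧ ∀ t : QbNE, t ^ M = 1 → t ∈ L

end Fermat.Agent.S41.Spec

end
-- ===== PACK-END S41/Spec/NE.lean

-- ===== PACK-BEGIN S48/H548/Chi0Alg.lean
section


/-!
# S48 / RES piece CHI0 (helper548): abstract construction of a character of a Hecke algebra
from a "graded" family of subsets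

`S` is a module, `W b ⊆ S` (`b ∈ k`) a family of subsets with `W b + W b' ⊆ W (b + b')`,
`-W b ⊆ W (-b)`, `0 ∈ W 0`, pairwise disjoint, `g₀ ∈ W 1`.  If every generator `t ∈ G` of a ring of
operators maps `W b` to `W (c b)` for some `c = c(t)`, then there is a ring homomorphism
`χ : Algebra.adjoin ℤ G → k` such that every `t` in the algebra maps `W b` to `W (χ(t) b)`.

(Application: `W b` = forms with integral `q`-expansion whose reduction is `b • c₀`, `c₀` a
simultaneous eigenvector mod `λ`.)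
-/

set_option autoImplicit false

namespace Fermat.Agent.S48.H548

section

variable {S : Type*} [AddCommGroup S] [Module ℂ S] {k : Type*} [CommRing k]

/-- `t` maps `W b` to `W (c * b)` for all `b`. -/
def ActsBy (W : k → Set S) (t : Module.End ℂ S) (c : k) : Prop :=
  ∀ b g, g ∈ W b → t g ∈ W (c * b)

variable {W : k → Set S}

theorem ActsBy.unique (hsep : ∀ b b' g, g ∈ W b → g ∈ W b' → b = b') {g₀ : S} (hg₀ : g₀ ∈ W 1)
    {t : Module.End ℂ S} {c c' : k} (h : ActsBy W t c) (h' : ActsBy W t c') : c = c' := by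
  have h1 := hsep _ _ _ (h 1 g₀ hg₀) (h' 1 g₀ hg₀)
  simpa using h1

theorem ActsBy.add (hadd : ∀ b b' g g', g ∈ W b → g' ∈ W b' → g + g' ∈ W (b + b'))
    {t t' : Module.End ℂ S} {c c' : k} (h : ActsBy W t c) (h' : ActsBy W t' c') :
    ActsBy W (t + t') (c + c') := by
  intro b g hg
  rw [LinearMap.add_apply, add_mul]
  exact hadd _ _ _ _ (h b g hg) (h' b g hg)

theorem ActsBy.mul {t t' : Module.End ℂ S} {c c' : k} (h : ActsBy W t c) (h' : ActsBy W t' c') :
    ActsBy W (t * t') (c * c') := by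
  intro b g hg
  rw [Module.End.mul_apply, mul_assoc]
  exact h _ _ (h' b g hg)

theorem ActsBy.one : ActsBy W (1 : Module.End ℂ S) 1 := by
  intro b g hg
  rw [Module.End.one_apply, one_mul]
  exact hg

theorem ActsBy.neg (hneg : ∀ b g, g ∈ W b → -g ∈ W (-b))
    {t : Module.End ℂ S} {c : k} (h : ActsBy W t c) : ActsBy W (-t) (-c) := by
  intro b g hg
  rw [LinearMap.neg_apply, neg_mul]
  exact hneg _ _ (h b g hg)

theorem ActsBy.zero (h0 : (0 : S) ∈ W 0) : ActsBy W (0 : Module.End ℂ S) 0 := by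
  intro b g _
  rw [LinearMap.zero_apply, zero_mul]
  exact h0

theorem ActsBy.intCast (h0 : (0 : S) ∈ W 0)
    (hadd : ∀ b b' g g', g ∈ W b → g' ∈ W b' → g + g' ∈ W (b + b'))
    (hneg : ∀ b g, g ∈ W b → -g ∈ W (-b)) (n : ℤ) :
    ActsBy W ((n : Module.End ℂ S)) (n : k) := by
  induction n using Int.induction_on with
  | zero => simpa using ActsBy.zero h0
  | succ i ih =>
    rw [Int.cast_add, Int.cast_add, Int.cast_one, Int.cast_one]
    exact ih.add hadd ActsBy.one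
  | pred i ih =>
    rw [Int.cast_sub, Int.cast_sub, Int.cast_one, Int.cast_one, sub_eq_add_neg, sub_eq_add_neg]
    exact ih.add hadd (ActsBy.one.neg hneg)

/-- Every element of the algebra generated by `G` acts through a scalar. -/
theorem exists_actsBy_of_mem_adjoin (h0 : (0 : S) ∈ W 0)
    (hadd : ∀ b b' g g', g ∈ W b → g' ∈ W b' → g + g' ∈ W (b + b'))
    (hneg : ∀ b g, g ∈ W b → -g ∈ W (-b))
    {G : Set (Module.End ℂ S)} (hG : ∀ t ∈ G, ∃ c : k, ActsBy W t c)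
    {t : Module.End ℂ S} (ht : t ∈ Algebra.adjoin ℤ G) : ∃ c : k, ActsBy W t c := by
  induction ht using Algebra.adjoin_induction with
  | mem x hx => exact hG x hx
  | algebraMap r =>
    refine ⟨(r : k), ?_⟩
    have : (algebraMap ℤ (Module.End ℂ S)) r = (r : Module.End ℂ S) := rfl
    rw [this]
    exact ActsBy.intCast h0 hadd hneg r
  | add x y _ _ hx hy =>
    obtain ⟨c, hc⟩ := hx
    obtain ⟨c', hc'⟩ := hy
    exact ⟨c + c', hc.add hadd hc'⟩
  | mul x y _ _ hx hy =>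
    obtain ⟨c, hc⟩ := hx
    obtain ⟨c', hc'⟩ := hy
    exact ⟨c * c', hc.mul hc'⟩

/-- **Abstract CHI0.** -/
theorem exists_ringHom_actsBy (h0 : (0 : S) ∈ W 0)
    (hadd : ∀ b b' g g', g ∈ W b → g' ∈ W b' → g + g' ∈ W (b + b'))
    (hneg : ∀ b g, g ∈ W b → -g ∈ W (-b))
    (hsep : ∀ b b' g, g ∈ W b → g ∈ W b' → b = b') {g₀ : S} (hg₀ : g₀ ∈ W 1)
    {G : Set (Module.End ℂ S)} (hG : ∀ t ∈ G, ∃ c : k, ActsBy W t c) :
    ∃ χ : Algebra.adjoin ℤ G →+* k, ∀ t : Algebra.adjoin ℤ G, ActsBy W (t : Module.End ℂ S) (χ t) := by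
  have key : ∀ t : Algebra.adjoin ℤ G, ∃ c : k, ActsBy W (t : Module.End ℂ S) c := fun t ↦
    exists_actsBy_of_mem_adjoin h0 hadd hneg hG t.2
  choose χ hχ using key
  have huniq : ∀ (t : Algebra.adjoin ℤ G) (c : k), ActsBy W (t : Module.End ℂ S) c → χ t = c :=
    fun t c hc ↦ (hχ t).unique hsep hg₀ hc
  refine ⟨{ toFun := χ, map_one' := ?_, map_mul' := ?_, map_zero' := ?_, map_add' := ?_ }, hχ⟩
  · exact huniq 1 1 ActsBy.one
  · intro x y
    exact huniq (x * y) _ ((hχ x).mul (hχ y))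
  · exact huniq 0 0 (ActsBy.zero h0)
  · intro x y
    exact huniq (x + y) _ ((hχ x).add hadd (hχ y))

end

end Fermat.Agent.S48.H548

end
-- ===== PACK-END S48/H548/Chi0Alg.lean

-- ===== PACK-BEGIN S48/H548/Coset.lean
section



/-!
# S48 / P0 (helper548): coset computations for `T_p` on `Γ₁(N)`

Matrix identities `β_x * g = g' * β_{x'}` for the Hecke representatives
`β_j = [[1, j], [0, p]]`, `β_∞ = [[p, 0], [0, 1]]`, `x ∈ ℙ¹(𝔽_p)`, with control of the lower row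
of `g'` modulo `N` (adapted from the Prelude proof of `heckeT_slash_eq_self_of_mem_Gamma0`,
which only tracks `g' 1 0`).
-/

set_option autoImplicit false

noncomputable section

namespace Fermat.Agent.S48.H548

open Matrix.SpecialLinearGroup UpperHalfPlane ModularForm CongruenceSubgroup
open scoped MatrixGroups ModularForm OnePoint

theorem det_eq' (g : SL(2, ℤ)) : g 0 0 * g 1 1 - g 0 1 * g 1 0 = 1 := by
  have h := g.det_coe
  rwa [Matrix.det_fin_two] at h

theorem mapGL_apply' (g : SL(2, ℤ)) (i j : Fin 2) :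
    (mapGL ℝ g : GL (Fin 2) ℝ) i j = ((g i j : ℤ) : ℝ) := by
  simp

/-! ### Membership in `Γ₁(N)` from the lower row -/

theorem mem_Gamma1_of_lower {N : ℕ} (g : SL(2, ℤ)) (h10 : ((g 1 0 : ℤ) : ZMod N) = 0)
    (h11 : ((g 1 1 : ℤ) : ZMod N) = 1) : g ∈ Gamma1 N := by
  rw [Gamma1_mem]
  refine ⟨?_, h11, h10⟩
  have := congrArg (Int.cast : ℤ → ZMod N) (det_eq' g)
  push_cast at this
  rw [h10, h11] at this
  simpa using this

theorem Gamma1_le_Gamma0' (N : ℕ) : Gamma1 N ≤ Gamma0 N := fun g hg =>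
  Gamma0_mem.mpr ((Gamma1_mem N g).mp hg).2.2

theorem lower_right_mul {N : ℕ} (a b : SL(2, ℤ)) (ha : a ∈ Gamma0 N) :
    (((a * b) 1 1 : ℤ) : ZMod N) = ((a 1 1 : ℤ) : ZMod N) * ((b 1 1 : ℤ) : ZMod N) := by
  have h0 : ((a 1 0 : ℤ) : ZMod N) = 0 := Gamma0_mem.mp ha
  rw [Matrix.SpecialLinearGroup.coe_mul, Matrix.mul_apply, Fin.sum_univ_two]
  push_cast
  rw [h0, zero_mul, zero_add]

theorem lower_right_isUnit {N : ℕ} (a : SL(2, ℤ)) (ha : a ∈ Gamma0 N) :
    ((a 0 0 : ℤ) : ZMod N) * ((a 1 1 : ℤ) : ZMod N) = 1 := by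
  have h0 : ((a 1 0 : ℤ) : ZMod N) = 0 := Gamma0_mem.mp ha
  have := congrArg (Int.cast : ℤ → ZMod N) (det_eq' a)
  push_cast at this
  rw [h0, mul_zero, sub_zero] at this
  exact this

theorem lower_right_inv {N : ℕ} (a : SL(2, ℤ)) :
    (((a⁻¹) 1 1 : ℤ) : ZMod N) = ((a 0 0 : ℤ) : ZMod N) := by
  rw [Matrix.SpecialLinearGroup.coe_inv, Matrix.adjugate_fin_two]
  simp

/-- Two elements of `Γ₀(N)` with the same lower right entry mod `N` differ by `Γ₁(N)`. -/
theorem mul_inv_mem_Gamma1 {N : ℕ} (a b : SL(2, ℤ)) (ha : a ∈ Gamma0 N) (hb : b ∈ Gamma0 N)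
    (h : ((a 1 1 : ℤ) : ZMod N) = ((b 1 1 : ℤ) : ZMod N)) : a * b⁻¹ ∈ Gamma1 N := by
  apply mem_Gamma1_of_lower
  · exact Gamma0_mem.mp ((Gamma0 N).mul_mem ha ((Gamma0 N).inv_mem hb))
  · rw [lower_right_mul a b⁻¹ ha, lower_right_inv, h, mul_comm]
    exact lower_right_isUnit b hb

/-! ### Existence of representatives -/

/-- For `d` prime to `N` there is `σ ∈ Γ₀(N)` with lower row `(N, d)`. -/
theorem exists_Gamma0_lower (N d : ℕ) (h : Nat.Coprime d N) :
    ∃ σ : SL(2, ℤ), σ ∈ Gamma0 N ∧ σ 1 0 = (N : ℤ) ∧ σ 1 1 = (d : ℤ) := by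
  have hcop : IsCoprime (d : ℤ) (N : ℤ) := Nat.isCoprime_iff_coprime.mpr h
  obtain ⟨a, b, hab⟩ := hcop
  refine ⟨⟨!![a, -b; (N : ℤ), (d : ℤ)], ?_⟩, ?_, rfl, rfl⟩
  · rw [Matrix.det_fin_two_of]
    linear_combination hab
  · exact Gamma0_mem.mpr (by simp)

/-- For `d` prime to `N p` there is `τ ∈ Γ₀(N)` with lower row `(N p, d)`. -/
theorem exists_Gamma0_lower_dvd (N p d : ℕ) (h : Nat.Coprime d (N * p)) :
    ∃ τ : SL(2, ℤ), τ ∈ Gamma0 N ∧ τ 1 0 = (N : ℤ) * (p : ℤ) ∧ τ 1 1 = (d : ℤ) := by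
  have hcop : IsCoprime (d : ℤ) ((N * p : ℕ) : ℤ) := Nat.isCoprime_iff_coprime.mpr h
  obtain ⟨a, b, hab⟩ := hcop
  refine ⟨⟨!![a, -b; (N : ℤ) * (p : ℤ), (d : ℤ)], ?_⟩, ?_, rfl, rfl⟩
  · rw [Matrix.det_fin_two_of]
    push_cast at hab
    linear_combination hab
  · exact Gamma0_mem.mpr (by simp)

/-! ### Commutation of the Hecke representatives with `SL(2, ℤ)` -/

section commutation

variable {p : ℕ} (hp : p ≠ 0)
include hp

theorem heckeMatrix_mul_of_eq (g : SL(2, ℤ)) (j j' : ℕ) (e : ℤ)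
    (he : g 0 1 + j * g 1 1 = j' * (g 0 0 + j * g 1 0) + p * e) :
    ∃ g' : SL(2, ℤ), g' 1 0 = p * g 1 0 ∧ g' 1 1 = g 1 1 - g 1 0 * j' ∧
      heckeMatrix p j * mapGL ℝ g = mapGL ℝ g' * heckeMatrix p j' := by
  have hdet := det_eq' g
  refine ⟨⟨!![g 0 0 + j * g 1 0, e; p * g 1 0, g 1 1 - g 1 0 * j'], ?_⟩, rfl, rfl, ?_⟩
  · rw [Matrix.det_fin_two_of]
    linear_combination hdet + (g 1 0) * he
  · ext i j
    fin_cases i <;> fin_cases j <;>
      simp [hp, Matrix.mul_apply, Fin.sum_univ_two]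
    all_goals first
      | (have := congrArg (Int.cast : ℤ → ℝ) he; push_cast at this ⊢; linear_combination this)
      | (have := congrArg (Int.cast : ℤ → ℝ) he; push_cast at this ⊢; linear_combination -this)
      | ring1

theorem heckeMatrix_mul_of_eq' (g : SL(2, ℤ)) (j : ℕ) (e : ℤ)
    (he : g 0 0 + j * g 1 0 = p * e) :
    ∃ g' : SL(2, ℤ), g' 1 0 = g 1 0 ∧ g' 1 1 = p * g 1 1 ∧
      heckeMatrix p j * mapGL ℝ g = mapGL ℝ g' * heckeDiagMatrix p := by
  have hdet := det_eq' g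
  refine ⟨⟨!![e, g 0 1 + j * g 1 1; g 1 0, p * g 1 1], ?_⟩, rfl, rfl, ?_⟩
  · rw [Matrix.det_fin_two_of]
    linear_combination hdet - (g 1 1) * he
  · ext i j
    fin_cases i <;> fin_cases j <;>
      simp [hp, Matrix.mul_apply, Fin.sum_univ_two]
    all_goals first
      | (have := congrArg (Int.cast : ℤ → ℝ) he; push_cast at this ⊢; linear_combination this)
      | (have := congrArg (Int.cast : ℤ → ℝ) he; push_cast at this ⊢; linear_combination -this)
      | ring1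

theorem heckeDiagMatrix_mul_of_eq (g : SL(2, ℤ)) (j' : ℕ) (e : ℤ)
    (he : g 1 1 = g 1 0 * j' + p * e) :
    ∃ g' : SL(2, ℤ), g' 1 0 = g 1 0 ∧ g' 1 1 = e ∧
      heckeDiagMatrix p * mapGL ℝ g = mapGL ℝ g' * heckeMatrix p j' := by
  have hdet := det_eq' g
  refine ⟨⟨!![p * g 0 0, g 0 1 - g 0 0 * j'; g 1 0, e], ?_⟩, rfl, rfl, ?_⟩
  · rw [Matrix.det_fin_two_of]
    linear_combination hdet - (g 0 0) * he
  · ext i j
    fin_cases i <;> fin_cases j <;>
      simp [hp, Matrix.mul_apply, Fin.sum_univ_two]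
    all_goals first
      | (have := congrArg (Int.cast : ℤ → ℝ) he; push_cast at this ⊢; linear_combination this)
      | (have := congrArg (Int.cast : ℤ → ℝ) he; push_cast at this ⊢; linear_combination -this)
      | ring1

theorem heckeDiagMatrix_mul_of_eq' (g : SL(2, ℤ)) (e : ℤ) (he : g 1 0 = p * e) :
    ∃ g' : SL(2, ℤ), g' 1 0 = e ∧ g' 1 1 = g 1 1 ∧
      heckeDiagMatrix p * mapGL ℝ g = mapGL ℝ g' * heckeDiagMatrix p := by
  have hdet := det_eq' g
  refine ⟨⟨!![g 0 0, p * g 0 1; e, g 1 1], ?_⟩, rfl, rfl, ?_⟩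
  · rw [Matrix.det_fin_two_of]
    linear_combination hdet + (g 0 1) * he
  · ext i j
    fin_cases i <;> fin_cases j <;>
      simp [hp, Matrix.mul_apply, Fin.sum_univ_two]
    all_goals first
      | (have := congrArg (Int.cast : ℤ → ℝ) he; push_cast at this ⊢; linear_combination this)
      | (have := congrArg (Int.cast : ℤ → ℝ) he; push_cast at this ⊢; linear_combination -this)
      | ring1

end commutation

/-! ### The action on `ℙ¹(𝔽_p)` -/

section onePoint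

variable {p : ℕ}

/-- The Hecke representatives indexed by `ℙ¹(𝔽_p)`. -/
def heckeRep (p : ℕ) (x : OnePoint (ZMod p)) : GL (Fin 2) ℝ :=
  x.elim (heckeDiagMatrix p) (fun j ↦ heckeMatrix p j.val)

@[simp] theorem heckeRep_infty : heckeRep p ∞ = heckeDiagMatrix p := rfl

@[simp] theorem heckeRep_coe (j : ZMod p) : heckeRep p j = heckeMatrix p j.val := rfl

/-- The weight `w(∞) = 1`, `w(j) = p` keeping track of the lower right entry modulo `N`. -/
def wt (N p : ℕ) (x : OnePoint (ZMod p)) : ZMod N :=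
  x.elim 1 (fun _ ↦ (p : ZMod N))

@[simp] theorem wt_infty (N : ℕ) : wt N p ∞ = 1 := rfl

@[simp] theorem wt_coe (N : ℕ) (j : ZMod p) : wt N p j = (p : ZMod N) := rfl

theorem sum_range_eq_sum_zmod [NeZero p] {M : Type*} [AddCommMonoid M] (F : ℕ → M) :
    ∑ j ∈ Finset.range p, F j = ∑ x : ZMod p, F x.val := by
  refine Finset.sum_nbij' (fun j : ℕ ↦ (j : ZMod p)) (fun x : ZMod p ↦ x.val)
    (fun _ _ ↦ Finset.mem_univ _)
    (fun x _ ↦ Finset.mem_range.mpr x.val_lt) (fun j hj ↦ ?_) (fun x _ ↦ ?_) (fun j hj ↦ ?_)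
  · exact ZMod.val_cast_of_lt (Finset.mem_range.mp hj)
  · exact ZMod.natCast_zmod_val x
  · rw [ZMod.val_cast_of_lt (Finset.mem_range.mp hj)]

theorem heckeU_eq_sum_zmod [NeZero p] (k : ℤ) (f : ℍ → ℂ) :
    heckeU k p f = ∑ x : ZMod p, f ∣[k] heckeMatrix p x.val := by
  rw [heckeU_def]
  exact sum_range_eq_sum_zmod _

variable [Fact p.Prime]

variable (p) in
/-- The reduction mod `p` of `g`, twisted so that `β_x g = g' β_{redMatrix g • x}`. -/
def redMatrix (g : SL(2, ℤ)) : GL (Fin 2) (ZMod p) :=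
  Matrix.GeneralLinearGroup.mkOfDetNeZero
    !![((g 1 1 : ℤ) : ZMod p), ((g 0 1 : ℤ) : ZMod p); ((g 1 0 : ℤ) : ZMod p),
      ((g 0 0 : ℤ) : ZMod p)]
    (by
      have := congrArg (Int.cast : ℤ → ZMod p) (det_eq' g)
      push_cast at this
      rw [Matrix.det_fin_two_of,
        show ((g 1 1 : ℤ) : ZMod p) * ((g 0 0 : ℤ) : ZMod p)
            - ((g 0 1 : ℤ) : ZMod p) * ((g 1 0 : ℤ) : ZMod p) = 1 by linear_combination this]
      exact one_ne_zero)

@[simp] theorem redMatrix_apply_zero_zero (g : SL(2, ℤ)) :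
    redMatrix p g 0 0 = ((g 1 1 : ℤ) : ZMod p) := by
  simp [redMatrix]

@[simp] theorem redMatrix_apply_zero_one (g : SL(2, ℤ)) :
    redMatrix p g 0 1 = ((g 0 1 : ℤ) : ZMod p) := by
  simp [redMatrix]

@[simp] theorem redMatrix_apply_one_zero (g : SL(2, ℤ)) :
    redMatrix p g 1 0 = ((g 1 0 : ℤ) : ZMod p) := by
  simp [redMatrix]

@[simp] theorem redMatrix_apply_one_one (g : SL(2, ℤ)) :
    redMatrix p g 1 1 = ((g 0 0 : ℤ) : ZMod p) := by
  simp [redMatrix]

/-- `β_x g = g' β_{x'}` with `x' = redMatrix g • x`, `N ∣ g' 1 0` and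
`g' 1 1 * w(x') = g 1 1 * w(x)` modulo `N`. -/
theorem heckeRep_mul {N : ℕ} (hpN : ¬ p ∣ N) (g : SL(2, ℤ)) (hg : (N : ℤ) ∣ g 1 0)
    (x : OnePoint (ZMod p)) :
    ∃ g' : SL(2, ℤ), (N : ℤ) ∣ g' 1 0 ∧
      ((g' 1 1 : ℤ) : ZMod N) * wt N p (redMatrix p g • x) = ((g 1 1 : ℤ) : ZMod N) * wt N p x ∧
      heckeRep p x * mapGL ℝ g = mapGL ℝ g' * heckeRep p (redMatrix p g • x) := by
  have hp : p ≠ 0 := (Fact.out : p.Prime).ne_zero
  have : NeZero p := ⟨hp⟩
  have hg0 : ((g 1 0 : ℤ) : ZMod N) = 0 := (ZMod.intCast_zmod_eq_zero_iff_dvd _ _).mpr hg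
  induction x using OnePoint.rec with
  | infty =>
    rw [OnePoint.smul_infty_eq_ite]
    by_cases hc : ((g 1 0 : ℤ) : ZMod p) = 0
    · rw [if_pos (by simpa using hc), heckeRep_infty]
      obtain ⟨e, he⟩ := (ZMod.intCast_zmod_eq_zero_iff_dvd _ _).mp hc
      obtain ⟨g', hg', hg'1, hmul⟩ := heckeDiagMatrix_mul_of_eq' hp g e he
      refine ⟨g', ?_, ?_, hmul⟩
      · rw [hg']
        have hcop : IsCoprime (N : ℤ) (p : ℤ) :=
          Nat.isCoprime_iff_coprime.mpr ((Nat.Prime.coprime_iff_not_dvd Fact.out).mpr hpN).symm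
        exact hcop.dvd_of_dvd_mul_left (he ▸ hg)
      · rw [hg'1]
    · rw [if_neg (by simpa using hc), heckeRep_infty, heckeRep_coe]
      set y : ZMod p := redMatrix p g 0 0 / redMatrix p g 1 0 with hy
      obtain ⟨e, he⟩ : (p : ℤ) ∣ g 1 1 - g 1 0 * y.val := by
        rw [← ZMod.intCast_zmod_eq_zero_iff_dvd]
        push_cast
        rw [ZMod.natCast_zmod_val, hy, redMatrix_apply_zero_zero, redMatrix_apply_one_zero,
          mul_div_cancel₀ _ hc, sub_self]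
      obtain ⟨g', hg', hg'1, hmul⟩ :=
        heckeDiagMatrix_mul_of_eq hp g y.val e (by linear_combination he)
      refine ⟨g', hg' ▸ hg, ?_, hmul⟩
      rw [wt_coe, wt_infty, hg'1, mul_one]
      have := congrArg (Int.cast : ℤ → ZMod N) he
      push_cast at this
      rw [hg0, zero_mul, sub_zero] at this
      rw [this, mul_comm]
  | coe j =>
    rw [OnePoint.smul_some_eq_ite]
    by_cases h : redMatrix p g 1 0 * j + redMatrix p g 1 1 = 0
    · rw [if_pos h, heckeRep_infty, heckeRep_coe]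
      rw [redMatrix_apply_one_zero, redMatrix_apply_one_one] at h
      obtain ⟨e, he⟩ : (p : ℤ) ∣ g 0 0 + j.val * g 1 0 := by
        rw [← ZMod.intCast_zmod_eq_zero_iff_dvd]
        push_cast
        rw [ZMod.natCast_zmod_val]
        linear_combination h
      obtain ⟨g', hg', hg'1, hmul⟩ := heckeMatrix_mul_of_eq' hp g j.val e he
      refine ⟨g', hg' ▸ hg, ?_, hmul⟩
      rw [wt_coe, wt_infty, hg'1, mul_one]
      push_cast
      ring
    · rw [if_neg h, heckeRep_coe, heckeRep_coe]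
      set y : ZMod p := (redMatrix p g 0 0 * j + redMatrix p g 0 1) /
        (redMatrix p g 1 0 * j + redMatrix p g 1 1) with hy
      obtain ⟨e, he⟩ : (p : ℤ) ∣ g 0 1 + j.val * g 1 1 - y.val * (g 0 0 + j.val * g 1 0) := by
        rw [← ZMod.intCast_zmod_eq_zero_iff_dvd]
        push_cast
        rw [ZMod.natCast_zmod_val, ZMod.natCast_zmod_val,
          show ((g 0 0 : ℤ) : ZMod p) + j * ((g 1 0 : ℤ) : ZMod p)
            = redMatrix p g 1 0 * j + redMatrix p g 1 1 by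
              rw [redMatrix_apply_one_zero, redMatrix_apply_one_one]; ring,
          hy, div_mul_cancel₀ _ h, redMatrix_apply_zero_zero, redMatrix_apply_zero_one]
        ring
      obtain ⟨g', hg', hg'1, hmul⟩ :=
        heckeMatrix_mul_of_eq hp g j.val y.val e (by linear_combination he)
      refine ⟨g', hg' ▸ dvd_mul_of_dvd_right hg _, ?_, hmul⟩
      rw [wt_coe, wt_coe, hg'1]
      push_cast
      rw [hg0, zero_mul, sub_zero]

end onePoint

end Fermat.Agent.S48.H548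

end
end
-- ===== PACK-END S48/H548/Coset.lean

-- ===== PACK-BEGIN S59/TW/H564/LocActCore.lean
section


/-!
# S59 / TW, LOCACT core (helper564): operators congruent to scalars modulo `𝔪` and nilpotents

Abstract algebra (Mathlib only).  `𝒪` a local ring, `V` an `𝒪`-module, `𝕋` a commutative ring,
`Ψ : 𝕋 →+* End_𝒪 V`, `θ : 𝕋 →+* k = 𝒪 / 𝔪`.

* `redEnd 𝒪 V : End_𝒪 V →+* End_𝒪 (V / 𝔪 V)`; `isUnit_of_isUnit_redEnd` (Nakayama);
* `actTensor Ψ : 𝒪 ⊗ 𝕋 →ₐ[𝒪] End_𝒪 V`; `nilIdeal Ψ` : the elements acting nilpotently on `V / 𝔪 V`;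
* `ResNil Ψ θ t` : `1 ⊗ t - c ∈ nilIdeal Ψ` for every lift `c` of `θ t`;
  `resNil_of_closure` : enough to check it on ring generators;
* `isUnit_actTensor` : if `ResNil` holds for all `t`, every `x ∈ 𝒪 ⊗ 𝕋` outside the kernel of the
  residual character `a ⊗ t ↦ ā θ(t)` acts invertibly on `V` (`V` finite over `𝒪`).
-/

set_option autoImplicit false
set_option linter.unusedSectionVars false

noncomputable section

namespace Fermat.Agent.S59.TW.H564

open IsLocalRing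

section NilMod

variable {𝒪 : Type*} [CommRing 𝒪] [IsLocalRing 𝒪] {V : Type*} [AddCommGroup V] [Module 𝒪 V]

/-- `𝔪 V`. -/
abbrev mSub (𝒪 : Type*) [CommRing 𝒪] [IsLocalRing 𝒪] (V : Type*) [AddCommGroup V]
    [Module 𝒪 V] : Submodule 𝒪 V :=
  maximalIdeal 𝒪 • (⊤ : Submodule 𝒪 V)

/-- Reduction of endomorphisms modulo `𝔪`. -/
def redEnd (𝒪 : Type*) [CommRing 𝒪] [IsLocalRing 𝒪] (V : Type*) [AddCommGroup V]
    [Module 𝒪 V] : Module.End 𝒪 V →+* Module.End 𝒪 (V ⧸ mSub 𝒪 V) where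
  toFun φ := (mSub 𝒪 V).mapQ (mSub 𝒪 V) φ (Submodule.smul_top_le_comap_smul_top _ φ)
  map_one' := by
    refine Submodule.linearMap_qext _ ?_
    ext v
    rfl
  map_mul' φ ψ := by
    refine Submodule.linearMap_qext _ ?_
    ext v
    rfl
  map_zero' := by
    refine Submodule.linearMap_qext _ ?_
    ext v
    rfl
  map_add' φ ψ := by
    refine Submodule.linearMap_qext _ ?_
    ext v
    rfl

@[simp] theorem redEnd_mk (φ : Module.End 𝒪 V) (v : V) :
    redEnd 𝒪 V φ (Submodule.Quotient.mk v) = Submodule.Quotient.mk (φ v) := rfl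

theorem redEnd_algebraMap (c : 𝒪) :
    redEnd 𝒪 V (algebraMap 𝒪 (Module.End 𝒪 V) c) =
      algebraMap 𝒪 (Module.End 𝒪 (V ⧸ mSub 𝒪 V)) c := by
  refine Submodule.linearMap_qext _ ?_
  ext v
  rfl

theorem redEnd_algebraMap_eq_zero {c : 𝒪} (hc : c ∈ maximalIdeal 𝒪) :
    redEnd 𝒪 V (algebraMap 𝒪 (Module.End 𝒪 V) c) = 0 := by
  refine Submodule.linearMap_qext _ ?_
  ext v
  show Submodule.Quotient.mk (c • v) = 0
  rw [Submodule.Quotient.mk_eq_zero]
  exact Submodule.smul_mem_smul hc Submodule.mem_top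

theorem redEnd_algebraMap_eq_of_residue_eq {c c' : 𝒪} (h : residue 𝒪 c = residue 𝒪 c') :
    redEnd 𝒪 V (algebraMap 𝒪 (Module.End 𝒪 V) c) =
      redEnd 𝒪 V (algebraMap 𝒪 (Module.End 𝒪 V) c') := by
  rw [← sub_eq_zero, ← map_sub, ← map_sub]
  apply redEnd_algebraMap_eq_zero
  rw [← residue_eq_zero_iff, map_sub, h, sub_self]

theorem redEnd_pow_mk (φ : Module.End 𝒪 V) (m : ℕ) (v : V) :
    ((redEnd 𝒪 V φ) ^ m) (Submodule.Quotient.mk v) = Submodule.Quotient.mk ((φ ^ m) v) := by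
  rw [← map_pow, redEnd_mk]

/-- Nilpotence modulo `𝔪`, concretely. -/
theorem isNilpotent_redEnd_iff (φ : Module.End 𝒪 V) :
    IsNilpotent (redEnd 𝒪 V φ) ↔ ∃ m : ℕ, ∀ v : V, (φ ^ m) v ∈ mSub 𝒪 V := by
  constructor
  · rintro ⟨m, hm⟩
    refine ⟨m, fun v => ?_⟩
    have := LinearMap.congr_fun hm (Submodule.Quotient.mk v)
    rw [redEnd_pow_mk, LinearMap.zero_apply, Submodule.Quotient.mk_eq_zero] at this
    exact this
  · rintro ⟨m, hm⟩
    refine ⟨m, ?_⟩
    refine Submodule.linearMap_qext _ ?_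
    ext v
    show ((redEnd 𝒪 V φ) ^ m) (Submodule.Quotient.mk v) = 0
    rw [redEnd_pow_mk, Submodule.Quotient.mk_eq_zero]
    exact hm v

/-- An endomorphism of a finite module over a local ring which is invertible modulo `𝔪` is
invertible. -/
theorem isUnit_of_isUnit_redEnd [Module.Finite 𝒪 V] (φ : Module.End 𝒪 V)
    (h : IsUnit (redEnd 𝒪 V φ)) : IsUnit φ := by
  rw [Module.End.isUnit_iff] at h ⊢
  have hsurj : Function.Surjective φ := by
    rw [← LinearMap.range_eq_top, eq_top_iff]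
    refine Submodule.le_of_le_smul_of_le_jacobson_bot (I := maximalIdeal 𝒪) Module.Finite.fg_top
      (IsLocalRing.maximalIdeal_le_jacobson _) ?_
    intro v _
    obtain ⟨w, hw⟩ := h.2 (Submodule.Quotient.mk v)
    obtain ⟨w, rfl⟩ := Submodule.Quotient.mk_surjective _ w
    rw [redEnd_mk, Submodule.Quotient.eq] at hw
    have : v = φ w + -(φ w - v) := by abel
    rw [this]
    exact Submodule.add_mem_sup (LinearMap.mem_range_self φ w) (Submodule.neg_mem _ hw)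
  exact ⟨OrzechProperty.injective_of_surjective_endomorphism φ hsurj, hsurj⟩

end NilMod


section Act

open scoped TensorProduct

variable {𝒪 : Type*} [CommRing 𝒪] [IsLocalRing 𝒪]
variable {𝕋 : Type*} [CommRing 𝕋]
variable {V : Type*} [AddCommGroup V] [Module 𝒪 V]
variable (Ψ : 𝕋 →+* Module.End 𝒪 V)

/-- The `𝒪`-algebra map `𝒪 ⊗ 𝕋 → End_𝒪 V`, `a ⊗ t ↦ a • Ψ t`. -/
def actTensor : (𝒪 ⊗[ℤ] 𝕋) →ₐ[𝒪] Module.End 𝒪 V :=
  Algebra.TensorProduct.lift (Algebra.ofId 𝒪 (Module.End 𝒪 V)) Ψ.toIntAlgHom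
    (fun a t => Algebra.commute_algebraMap_left a (Ψ t))

theorem actTensor_tmul (a : 𝒪) (t : 𝕋) :
    actTensor Ψ (a ⊗ₜ[ℤ] t) = algebraMap 𝒪 (Module.End 𝒪 V) a * Ψ t := by
  unfold actTensor
  exact Algebra.TensorProduct.lift_tmul _ _ _ a t

theorem actTensor_one_tmul (t : 𝕋) : actTensor Ψ ((1 : 𝒪) ⊗ₜ[ℤ] t) = Ψ t := by
  rw [actTensor_tmul, map_one, one_mul]

/-- The reduction of the action modulo `𝔪`. -/
def actRed : (𝒪 ⊗[ℤ] 𝕋) →+* Module.End 𝒪 (V ⧸ mSub 𝒪 V) :=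
  (redEnd 𝒪 V).comp (actTensor Ψ).toRingHom

theorem actRed_apply (x : 𝒪 ⊗[ℤ] 𝕋) : actRed Ψ x = redEnd 𝒪 V (actTensor Ψ x) := rfl

theorem actRed_commute (x y : 𝒪 ⊗[ℤ] 𝕋) : Commute (actRed Ψ x) (actRed Ψ y) :=
  (Commute.all x y).map (actRed Ψ)

/-- The ideal of the elements of `𝒪 ⊗ 𝕋` acting nilpotently on `V / 𝔪 V`. -/
def nilIdeal : Ideal (𝒪 ⊗[ℤ] 𝕋) where
  carrier := {x | IsNilpotent (actRed Ψ x)}
  add_mem' := fun {x y} hx hy => by
    show IsNilpotent (actRed Ψ (x + y))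
    rw [map_add]
    exact Commute.isNilpotent_add (actRed_commute Ψ x y) hx hy
  zero_mem' := by
    show IsNilpotent (actRed Ψ 0)
    rw [map_zero]
    exact IsNilpotent.zero
  smul_mem' := fun b x hx => by
    show IsNilpotent (actRed Ψ (b • x))
    rw [smul_eq_mul, map_mul]
    exact Commute.isNilpotent_mul_left (actRed_commute Ψ b x) hx

theorem mem_nilIdeal (x : 𝒪 ⊗[ℤ] 𝕋) :
    x ∈ nilIdeal Ψ ↔ IsNilpotent (redEnd 𝒪 V (actTensor Ψ x)) := Iff.rfl

theorem algebraMap_mem_nilIdeal {a : 𝒪} (ha : a ∈ maximalIdeal 𝒪) :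
    algebraMap 𝒪 (𝒪 ⊗[ℤ] 𝕋) a ∈ nilIdeal Ψ := by
  rw [mem_nilIdeal, AlgHom.commutes, redEnd_algebraMap_eq_zero ha]
  exact IsNilpotent.zero

variable (θ : 𝕋 →+* ResidueField 𝒪)

/-- `Ψ t ≡ θ t` modulo `𝔪` and nilpotents. -/
def ResNil (t : 𝕋) : Prop :=
  ∀ c : 𝒪, residue 𝒪 c = θ t →
    ((1 : 𝒪) ⊗ₜ[ℤ] t - algebraMap 𝒪 (𝒪 ⊗[ℤ] 𝕋) c) ∈ nilIdeal Ψ

variable {Ψ θ}

theorem resNil_of_exists {t : 𝕋} (h : ∃ c : 𝒪, residue 𝒪 c = θ t ∧
    IsNilpotent (redEnd 𝒪 V (Ψ t - algebraMap 𝒪 (Module.End 𝒪 V) c))) : ResNil Ψ θ t := by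
  obtain ⟨c₀, hc₀, hn⟩ := h
  intro c hc
  have h1 : ((1 : 𝒪) ⊗ₜ[ℤ] t - algebraMap 𝒪 (𝒪 ⊗[ℤ] 𝕋) c) =
      ((1 : 𝒪) ⊗ₜ[ℤ] t - algebraMap 𝒪 (𝒪 ⊗[ℤ] 𝕋) c₀) +
        algebraMap 𝒪 (𝒪 ⊗[ℤ] 𝕋) (c₀ - c) := by
    rw [map_sub]
    ring
  rw [h1]
  refine Ideal.add_mem _ ?_ (algebraMap_mem_nilIdeal Ψ ?_)
  · rw [mem_nilIdeal, map_sub, actTensor_one_tmul, AlgHom.commutes]
    exact hn
  · rw [← residue_eq_zero_iff, map_sub, hc₀, hc, sub_self]

theorem resNil_intCast (n : ℤ) : ResNil Ψ θ (n : 𝕋) := by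
  intro c hc
  have h1 : ((1 : 𝒪) ⊗ₜ[ℤ] (n : 𝕋) - algebraMap 𝒪 (𝒪 ⊗[ℤ] 𝕋) c) =
      algebraMap 𝒪 (𝒪 ⊗[ℤ] 𝕋) ((n : 𝒪) - c) := by
    rw [map_sub, map_intCast]
    congr 1
    rw [← zsmul_one (n : ℤ), TensorProduct.tmul_smul, ← Algebra.TensorProduct.one_def,
      zsmul_one]
  rw [h1]
  refine algebraMap_mem_nilIdeal Ψ ?_
  rw [← residue_eq_zero_iff, map_sub, hc, map_intCast, map_intCast, sub_self]

theorem resNil_add {s t : 𝕋} (hs : ResNil Ψ θ s) (ht : ResNil Ψ θ t) : ResNil Ψ θ (s + t) := by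
  intro c hc
  obtain ⟨a, ha⟩ := residue_surjective (θ s)
  obtain ⟨b, hb⟩ := residue_surjective (θ t)
  have h1 : ((1 : 𝒪) ⊗ₜ[ℤ] (s + t) - algebraMap 𝒪 (𝒪 ⊗[ℤ] 𝕋) c) =
      ((1 : 𝒪) ⊗ₜ[ℤ] s - algebraMap 𝒪 (𝒪 ⊗[ℤ] 𝕋) a) +
      ((1 : 𝒪) ⊗ₜ[ℤ] t - algebraMap 𝒪 (𝒪 ⊗[ℤ] 𝕋) b) +
      algebraMap 𝒪 (𝒪 ⊗[ℤ] 𝕋) (a + b - c) := by
    rw [TensorProduct.tmul_add, map_sub, map_add]
    ring
  rw [h1]
  refine Ideal.add_mem _ (Ideal.add_mem _ (hs a ha) (ht b hb)) (algebraMap_mem_nilIdeal Ψ ?_)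
  rw [← residue_eq_zero_iff, map_sub, map_add, ha, hb, hc, map_add, sub_self]

theorem resNil_neg {s : 𝕋} (hs : ResNil Ψ θ s) : ResNil Ψ θ (-s) := by
  intro c hc
  have h1 : ((1 : 𝒪) ⊗ₜ[ℤ] (-s) - algebraMap 𝒪 (𝒪 ⊗[ℤ] 𝕋) c) =
      -((1 : 𝒪) ⊗ₜ[ℤ] s - algebraMap 𝒪 (𝒪 ⊗[ℤ] 𝕋) (-c)) := by
    rw [TensorProduct.tmul_neg, map_neg]
    ring
  rw [h1]
  refine Ideal.neg_mem_iff _ |>.mpr (hs (-c) ?_)
  rw [map_neg, hc, map_neg, neg_neg]

theorem resNil_mul {s t : 𝕋} (hs : ResNil Ψ θ s) (ht : ResNil Ψ θ t) : ResNil Ψ θ (s * t) := by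
  intro c hc
  obtain ⟨a, ha⟩ := residue_surjective (θ s)
  obtain ⟨b, hb⟩ := residue_surjective (θ t)
  have h3 : ((1 : 𝒪) ⊗ₜ[ℤ] (s * t) : 𝒪 ⊗[ℤ] 𝕋) = ((1 : 𝒪) ⊗ₜ[ℤ] s) * ((1 : 𝒪) ⊗ₜ[ℤ] t) := by
    rw [Algebra.TensorProduct.tmul_mul_tmul, one_mul]
  have h1 : ((1 : 𝒪) ⊗ₜ[ℤ] (s * t) - algebraMap 𝒪 (𝒪 ⊗[ℤ] 𝕋) c) =
      ((1 : 𝒪) ⊗ₜ[ℤ] s) * ((1 : 𝒪) ⊗ₜ[ℤ] t - algebraMap 𝒪 (𝒪 ⊗[ℤ] 𝕋) b) +
      algebraMap 𝒪 (𝒪 ⊗[ℤ] 𝕋) b * ((1 : 𝒪) ⊗ₜ[ℤ] s - algebraMap 𝒪 (𝒪 ⊗[ℤ] 𝕋) a) +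
      algebraMap 𝒪 (𝒪 ⊗[ℤ] 𝕋) (a * b - c) := by
    rw [h3, map_sub, map_mul]
    ring
  rw [h1]
  refine Ideal.add_mem _ (Ideal.add_mem _ (Ideal.mul_mem_left _ _ (ht b hb))
    (Ideal.mul_mem_left _ _ (hs a ha))) (algebraMap_mem_nilIdeal Ψ ?_)
  rw [← residue_eq_zero_iff, map_sub, map_mul, ha, hb, hc, map_mul, sub_self]

theorem resNil_one : ResNil Ψ θ (1 : 𝕋) := by
  have := resNil_intCast (Ψ := Ψ) (θ := θ) 1
  rwa [Int.cast_one] at this

/-- If `Ψ t ≡ θ t` on a set of ring generators of `𝕋`, then on `𝕋`. -/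
theorem resNil_of_closure (G : Set 𝕋) (hG : Subring.closure G = ⊤)
    (hgen : ∀ t ∈ G, ResNil Ψ θ t) (t : 𝕋) : ResNil Ψ θ t := by
  have ht : t ∈ Subring.closure G := by rw [hG]; exact Subring.mem_top t
  induction ht using Subring.closure_induction with
  | mem x hx => exact hgen x hx
  | zero =>
    have := resNil_intCast (Ψ := Ψ) (θ := θ) 0
    rwa [Int.cast_zero] at this
  | one => exact resNil_one
  | add x y _ _ hx hy => exact resNil_add hx hy
  | neg x _ hx => exact resNil_neg hx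
  | mul x y _ _ hx hy => exact resNil_mul hx hy

/-- The kernel of the residual character acts nilpotently modulo `𝔪`. -/
theorem sub_algebraMap_mem_nilIdeal (χ : (𝒪 ⊗[ℤ] 𝕋) →+* ResidueField 𝒪)
    (hχ : ∀ (a : 𝒪) (t : 𝕋), χ (a ⊗ₜ[ℤ] t) = residue 𝒪 a * θ t)
    (h : ∀ t, ResNil Ψ θ t) (x : 𝒪 ⊗[ℤ] 𝕋) :
    ∀ c : 𝒪, residue 𝒪 c = χ x → x - algebraMap 𝒪 (𝒪 ⊗[ℤ] 𝕋) c ∈ nilIdeal Ψ := by
  induction x using TensorProduct.induction_on with
  | zero =>
    intro c hc
    rw [zero_sub]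
    refine (Ideal.neg_mem_iff _).mpr (algebraMap_mem_nilIdeal Ψ ?_)
    rw [← residue_eq_zero_iff, hc, map_zero]
  | tmul a t =>
    intro c hc
    obtain ⟨b, hb⟩ := residue_surjective (θ t)
    have h1 : (a ⊗ₜ[ℤ] t - algebraMap 𝒪 (𝒪 ⊗[ℤ] 𝕋) c) =
        algebraMap 𝒪 (𝒪 ⊗[ℤ] 𝕋) a * ((1 : 𝒪) ⊗ₜ[ℤ] t - algebraMap 𝒪 (𝒪 ⊗[ℤ] 𝕋) b) +
          algebraMap 𝒪 (𝒪 ⊗[ℤ] 𝕋) (a * b - c) := by
      have h2 : (a ⊗ₜ[ℤ] t : 𝒪 ⊗[ℤ] 𝕋) = algebraMap 𝒪 (𝒪 ⊗[ℤ] 𝕋) a * ((1 : 𝒪) ⊗ₜ[ℤ] t) := by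
        rw [Algebra.TensorProduct.algebraMap_apply, Algebra.algebraMap_self, RingHom.id_apply,
          Algebra.TensorProduct.tmul_mul_tmul, mul_one, one_mul]
      rw [h2, map_sub, map_mul]
      ring
    rw [h1]
    refine Ideal.add_mem _ (Ideal.mul_mem_left _ _ (h t b hb)) (algebraMap_mem_nilIdeal Ψ ?_)
    rw [← residue_eq_zero_iff, map_sub, map_mul, hb, hc, hχ, sub_self]
  | add x y hx hy =>
    intro c hc
    obtain ⟨a, ha⟩ := residue_surjective (χ x)
    obtain ⟨b, hb⟩ := residue_surjective (χ y)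
    have h1 : (x + y - algebraMap 𝒪 (𝒪 ⊗[ℤ] 𝕋) c) =
        (x - algebraMap 𝒪 (𝒪 ⊗[ℤ] 𝕋) a) + (y - algebraMap 𝒪 (𝒪 ⊗[ℤ] 𝕋) b) +
          algebraMap 𝒪 (𝒪 ⊗[ℤ] 𝕋) (a + b - c) := by
      rw [map_sub, map_add]
      ring
    rw [h1]
    refine Ideal.add_mem _ (Ideal.add_mem _ (hx a ha) (hy b hb)) (algebraMap_mem_nilIdeal Ψ ?_)
    rw [← residue_eq_zero_iff, map_sub, map_add, ha, hb, hc, map_add, sub_self]

/-- The elements outside the kernel of the residual character act invertibly. -/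
theorem isUnit_actTensor [Module.Finite 𝒪 V] (χ : (𝒪 ⊗[ℤ] 𝕋) →+* ResidueField 𝒪)
    (hχ : ∀ (a : 𝒪) (t : 𝕋), χ (a ⊗ₜ[ℤ] t) = residue 𝒪 a * θ t)
    (h : ∀ t, ResNil Ψ θ t) (x : 𝒪 ⊗[ℤ] 𝕋) (hx : χ x ≠ 0) : IsUnit (actTensor Ψ x) := by
  apply isUnit_of_isUnit_redEnd
  obtain ⟨c, hc⟩ := residue_surjective (χ x)
  have hcu : IsUnit c := by
    by_contra hu
    have : c ∈ maximalIdeal 𝒪 := (mem_maximalIdeal c).mpr hu
    rw [← residue_eq_zero_iff, hc] at this
    exact hx this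
  have hn := sub_algebraMap_mem_nilIdeal χ hχ h x c hc
  rw [mem_nilIdeal, map_sub, AlgHom.commutes, map_sub] at hn
  have hu : IsUnit (redEnd 𝒪 V (algebraMap 𝒪 (Module.End 𝒪 V) c)) :=
    (hcu.map (algebraMap 𝒪 (Module.End 𝒪 V))).map (redEnd 𝒪 V)
  have hcomm : Commute (redEnd 𝒪 V (actTensor Ψ x) -
      redEnd 𝒪 V (algebraMap 𝒪 (Module.End 𝒪 V) c))
      (redEnd 𝒪 V (algebraMap 𝒪 (Module.End 𝒪 V) c)) := by
    rw [redEnd_algebraMap]
    exact (Algebra.commute_algebraMap_right c _)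
  have := hn.isUnit_add_left_of_commute hu hcomm
  rwa [add_sub_cancel] at this

end Act

end Fermat.Agent.S59.TW.H564

end
end
-- ===== PACK-END S59/TW/H564/LocActCore.lean

-- ===== PACK-BEGIN A3/H319/LevelGroup.lean
section


/-!
# A3 / LEVEL (helper319), part 2: group theory

`Γ₀(N)` is generated by `Γ₀(N p)` together with `T = [[1,1],[0,1]]` and `U = [[1,0],[N,1]]`
(`p` prime); more precisely, an additive character `c : Γ₀(N) → A` vanishing on `Γ₀(N p)`, with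
values in a group `A` without `p`-torsion, vanishes identically.
-/

set_option autoImplicit false

noncomputable section

open CongruenceSubgroup Matrix
open scoped MatrixGroups

namespace Fermat.Agent.A3.H319

/-- The lower unipotent matrix `[[1,0],[N m,1]]`. -/
def lowerU (N : ℕ) (m : ℤ) : SL(2, ℤ) :=
  ⟨!![1, 0; (N : ℤ) * m, 1], by simp [Matrix.det_fin_two]⟩

@[simp] theorem lowerU_apply_zero_zero (N : ℕ) (m : ℤ) : (lowerU N m) 0 0 = 1 := rfl
@[simp] theorem lowerU_apply_zero_one (N : ℕ) (m : ℤ) : (lowerU N m) 0 1 = 0 := rfl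
@[simp] theorem lowerU_apply_one_zero (N : ℕ) (m : ℤ) : (lowerU N m) 1 0 = (N : ℤ) * m := rfl
@[simp] theorem lowerU_apply_one_one (N : ℕ) (m : ℤ) : (lowerU N m) 1 1 = 1 := rfl

theorem mem_Gamma0_iff_dvd {M : ℕ} {γ : SL(2, ℤ)} : γ ∈ Gamma0 M ↔ (M : ℤ) ∣ γ 1 0 := by
  rw [Gamma0_mem]
  exact ZMod.intCast_zmod_eq_zero_iff_dvd _ _

theorem lowerU_mem (N : ℕ) (m : ℤ) : lowerU N m ∈ Gamma0 N := by
  rw [mem_Gamma0_iff_dvd, lowerU_apply_one_zero]
  exact dvd_mul_right _ _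

theorem lowerU_mul_mem (N p : ℕ) (m : ℤ) : lowerU N ((p : ℤ) * m) ∈ Gamma0 (N * p) := by
  rw [mem_Gamma0_iff_dvd, lowerU_apply_one_zero]
  refine ⟨m, ?_⟩
  push_cast
  ring

theorem lowerU_add (N : ℕ) (m m' : ℤ) : lowerU N (m + m') = lowerU N m * lowerU N m' := by
  apply Subtype.ext
  rw [Matrix.SpecialLinearGroup.coe_mul]
  ext i j
  fin_cases i <;> fin_cases j <;>
    simp [lowerU, Matrix.mul_apply, Fin.sum_univ_two, mul_add]

theorem T_mem_Gamma0 (M : ℕ) : ModularGroup.T ∈ Gamma0 M := by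
  rw [mem_Gamma0_iff_dvd]
  simp [ModularGroup.T]

theorem Gamma0_mul_le (N p : ℕ) : Gamma0 (N * p) ≤ Gamma0 N := by
  intro γ hγ
  rw [mem_Gamma0_iff_dvd] at hγ ⊢
  refine dvd_trans ?_ hγ
  exact ⟨(p : ℤ), by push_cast; ring⟩

theorem mul_lowerU_apply_one_zero (N : ℕ) (γ : SL(2, ℤ)) (m : ℤ) :
    (γ * lowerU N m) 1 0 = γ 1 0 + γ 1 1 * ((N : ℤ) * m) := by
  rw [Matrix.SpecialLinearGroup.coe_mul, Matrix.mul_apply, Fin.sum_univ_two]
  simp

theorem mul_T_apply_one_zero (γ : SL(2, ℤ)) : (γ * ModularGroup.T) 1 0 = γ 1 0 := by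
  rw [Matrix.SpecialLinearGroup.coe_mul, Matrix.mul_apply, Fin.sum_univ_two]
  simp [ModularGroup.T]

theorem mul_T_apply_one_one (γ : SL(2, ℤ)) : (γ * ModularGroup.T) 1 1 = γ 1 0 + γ 1 1 := by
  rw [Matrix.SpecialLinearGroup.coe_mul, Matrix.mul_apply, Fin.sum_univ_two]
  simp [ModularGroup.T]

/-- **Group theory of LEVEL.**  An additive character of `Γ₀(N)` with values in a group
without `p`-torsion (`p` prime) which vanishes on `Γ₀(N p)` is zero. -/
theorem eq_zero_of_forall_mem_Gamma0_mul {N p : ℕ} (hp : p.Prime) {A : Type*} [AddCommGroup A]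
    (hA : ∀ a : A, p • a = 0 → a = 0) (c : ↥(Gamma0 N) → A)
    (hadd : ∀ γ γ' : ↥(Gamma0 N), c (γ * γ') = c γ + c γ')
    (hres : ∀ γ : ↥(Gamma0 N), (γ : SL(2, ℤ)) ∈ Gamma0 (N * p) → c γ = 0)
    (γ : ↥(Gamma0 N)) : c γ = 0 := by
  -- the elements `U_m` and `T` of `Γ₀(N)`
  let u : ℤ → ↥(Gamma0 N) := fun m => ⟨lowerU N m, lowerU_mem N m⟩
  let t : ↥(Gamma0 N) := ⟨ModularGroup.T, T_mem_Gamma0 N⟩
  have hu_add : ∀ m m' : ℤ, u (m + m') = u m * u m' := fun m m' =>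
    Subtype.ext (lowerU_add N m m')
  -- `c` vanishes on `T`
  have hcT : c t = 0 := hres t (T_mem_Gamma0 (N * p))
  -- `c` vanishes on the `U_m`
  have hcU : ∀ m : ℤ, c (u m) = 0 := by
    intro m
    let φ : ℤ →+ A := AddMonoidHom.mk' (fun m => c (u m)) (fun m m' => by
      show c (u (m + m')) = c (u m) + c (u m')
      rw [hu_add, hadd])
    have h1 : φ ((p : ℤ) * m) = 0 := hres (u ((p : ℤ) * m)) (lowerU_mul_mem N p m)
    have h2 : φ ((p : ℤ) * m) = p • φ m := by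
      rw [← nsmul_eq_mul, map_nsmul]
    exact hA (φ m) (by rw [← h2, h1])
  -- the case `p ∤ d`
  have key : ∀ γ : ↥(Gamma0 N), ¬ (p : ℤ) ∣ (γ : SL(2, ℤ)) 1 1 → c γ = 0 := by
    intro γ hd
    obtain ⟨c', hc'⟩ := mem_Gamma0_iff_dvd.mp γ.2
    have hcop : IsCoprime ((γ : SL(2, ℤ)) 1 1) (p : ℤ) := by
      have hpp : Prime (p : ℤ) := Nat.prime_iff_prime_int.mp hp
      exact (IsCoprime.symm ((Prime.coprime_iff_not_dvd hpp).mpr hd))
    obtain ⟨x, y, hxy⟩ := hcop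
    -- `m := - c' * x`
    have hmem : ((γ * u (-c' * x) : ↥(Gamma0 N)) : SL(2, ℤ)) ∈ Gamma0 (N * p) := by
      rw [mem_Gamma0_iff_dvd]
      show ((N * p : ℕ) : ℤ) ∣ ((γ : SL(2, ℤ)) * lowerU N (-c' * x)) 1 0
      rw [mul_lowerU_apply_one_zero, hc']
      refine ⟨c' * y, ?_⟩
      push_cast
      linear_combination (-(N : ℤ) * c') * hxy
    have h1 := hres _ hmem
    rw [hadd, hcU, add_zero] at h1
    exact h1
  by_cases hd : (p : ℤ) ∣ (γ : SL(2, ℤ)) 1 1
  · -- then `p ∤ c`, use `γ T`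
    have hdet : (γ : SL(2, ℤ)) 0 0 * (γ : SL(2, ℤ)) 1 1 - (γ : SL(2, ℤ)) 0 1 * (γ : SL(2, ℤ)) 1 0 = 1 := by
      have := (γ : SL(2, ℤ)).2
      rw [Matrix.det_fin_two] at this
      exact this
    have hc : ¬ (p : ℤ) ∣ (γ : SL(2, ℤ)) 1 0 := by
      intro hc
      have h1 : (p : ℤ) ∣ 1 := by
        rw [← hdet]
        exact dvd_sub (dvd_mul_of_dvd_right hd _) (dvd_mul_of_dvd_right hc _)
      have hpp : Prime (p : ℤ) := Nat.prime_iff_prime_int.mp hp
      exact hpp.not_dvd_one h1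
    have h2 : ¬ (p : ℤ) ∣ ((γ * t : ↥(Gamma0 N)) : SL(2, ℤ)) 1 1 := by
      show ¬ (p : ℤ) ∣ ((γ : SL(2, ℤ)) * ModularGroup.T) 1 1
      rw [mul_T_apply_one_one]
      intro h
      exact hc ((dvd_add_left hd).mp h)
    have h3 := key (γ * t) h2
    rw [hadd, hcT, add_zero] at h3
    exact h3
  · exact key γ hd

end Fermat.Agent.A3.H319

end
end
-- ===== PACK-END A3/H319/LevelGroup.lean

-- ===== PACK-BEGIN S59/TW/Aut/H673/FrontCore.lean
section


/-!
# S59 / cell TW, AUT leaf CMP, part (R), FRONT — abstract core  (helper673)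

`exists_prime_over_ann` : `B` a commutative Noetherian ring acting on an `𝒪`-torsion-free module
`V`, `f : T → B` with `T` integral over the domain `𝒪`, `y ≠ 0` in `V` whose annihilator in `T` is
prime, `Z ⊆ B` a set of operators killing `y`.  Then there is a prime `𝔔` of `B` containing `Z`,
lying over `Ann_T(y)`, with `𝔔 ∩ 𝒪 = 0`.  (An associated prime of `B y`; incomparability.)
-/

set_option autoImplicit false

namespace Fermat.Agent.S59.TW.Aut.H673

theorem exists_prime_over_ann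
    {𝒪 T B V : Type*} [CommRing 𝒪] [IsDomain 𝒪] [CommRing T] [Algebra 𝒪 T]
    [Algebra.IsIntegral 𝒪 T] [CommRing B] [Algebra 𝒪 B] [IsNoetherianRing B]
    (f : T →ₐ[𝒪] B)
    [AddCommGroup V] [Module 𝒪 V] [Module B V] [IsScalarTower 𝒪 B V]
    (htf : ∀ (c : 𝒪) (v : V), c • v = 0 → c = 0 ∨ v = 0)
    (y : V) (hy : y ≠ 0)
    (hprime : ∀ s t : T, f (s * t) • y = 0 → f s • y = 0 ∨ f t • y = 0)
    (Z : Set B) (hZ : ∀ z ∈ Z, z • y = 0) :
    ∃ 𝔔 : Ideal B, 𝔔.IsPrime ∧ Z ⊆ 𝔔 ∧ (∀ s : T, f s ∈ 𝔔 ↔ f s • y = 0) ∧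
      ∀ c : 𝒪, algebraMap 𝒪 B c ∈ 𝔔 → c = 0 := by
  classical
  -- the cyclic module
  have hyM : y ∈ Submodule.span B {y} := Submodule.mem_span_singleton_self y
  have hx : (⟨y, hyM⟩ : Submodule.span B {y}) ≠ 0 := fun h => hy (congrArg Subtype.val h)
  obtain ⟨𝔔, h𝔔, -⟩ := exists_le_isAssociatedPrime_of_isNoetherianRing B
    (⟨y, hyM⟩ : Submodule.span B {y}) hx
  rw [isAssociatedPrime_iff] at h𝔔
  obtain ⟨h𝔔p, v, hv⟩ := h𝔔
  have hmem : ∀ b : B, b ∈ 𝔔 ↔ b • (v : V) = 0 := by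
    intro b
    rw [hv, Submodule.mem_colon_singleton, Submodule.mem_bot]
    constructor
    · intro h
      have := congrArg Subtype.val h
      simpa using this
    · intro h
      apply Subtype.ext
      simpa using h
  have hv0 : (v : V) ≠ 0 := by
    intro h
    apply h𝔔p.ne_top
    rw [Ideal.eq_top_iff_one, hmem, h, smul_zero]
  obtain ⟨b₀, hb₀⟩ := Submodule.mem_span_singleton.mp v.2
  have hkill : ∀ b : B, b • y = 0 → b ∈ 𝔔 := by
    intro b hb
    rw [hmem, ← hb₀, smul_smul, mul_comm, ← smul_smul, hb, smul_zero]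
  have h𝒪 : ∀ c : 𝒪, algebraMap 𝒪 B c ∈ 𝔔 → c = 0 := by
    intro c hc
    rw [hmem, algebraMap_smul] at hc
    rcases htf c _ hc with h | h
    · exact h
    · exact absurd h hv0
  -- the annihilator of `y` in `T`
  let 𝔮 : Ideal T := Ideal.comap f.toRingHom ((⊥ : Submodule B V).colon {y})
  have h𝔮mem : ∀ s : T, s ∈ 𝔮 ↔ f s • y = 0 := by
    intro s
    show f s ∈ (⊥ : Submodule B V).colon {y} ↔ _
    rw [Submodule.mem_colon_singleton, Submodule.mem_bot]
  have h𝔮p : 𝔮.IsPrime := by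
    refine ⟨?_, ?_⟩
    · intro h
      have h1 : (1 : T) ∈ 𝔮 := by rw [h]; exact Submodule.mem_top
      rw [h𝔮mem, map_one, one_smul] at h1
      exact hy h1
    · intro s t hst
      rw [h𝔮mem] at hst
      rw [h𝔮mem, h𝔮mem]
      exact hprime s t hst
  refine ⟨𝔔, h𝔔p, fun z hz => hkill z (hZ z hz), fun s => ⟨fun hs => ?_, fun hs => hkill _ hs⟩,
    h𝒪⟩
  -- incomparability
  rw [← h𝔮mem]
  let J : Ideal (T ⧸ 𝔮) := Ideal.map (Ideal.Quotient.mk 𝔮) (Ideal.comap f.toRingHom 𝔔)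
  have hle : 𝔮 ≤ Ideal.comap f.toRingHom 𝔔 := fun s hs => hkill _ ((h𝔮mem s).mp hs)
  have hJ : J.comap (algebraMap 𝒪 (T ⧸ 𝔮)) = ⊥ := by
    rw [eq_bot_iff]
    intro c hc
    rw [Ideal.mem_comap] at hc
    have h1 : algebraMap 𝒪 (T ⧸ 𝔮) c = Ideal.Quotient.mk 𝔮 (algebraMap 𝒪 T c) := rfl
    rw [h1] at hc
    have h2 : algebraMap 𝒪 T c ∈ Ideal.comap f.toRingHom 𝔔 := by
      have h3 := Ideal.mem_comap.mpr hc
      rw [Ideal.comap_map_of_surjective _ Ideal.Quotient.mk_surjective] at h3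
      rw [← RingHom.ker_eq_comap_bot, Ideal.mk_ker, sup_eq_left.mpr hle] at h3
      exact h3
    have h4 : algebraMap 𝒪 B c ∈ 𝔔 := by
      have := Ideal.mem_comap.mp h2
      rwa [AlgHom.toRingHom_eq_coe, RingHom.coe_coe, AlgHom.commutes] at this
    rw [h𝒪 c h4]
    exact Ideal.zero_mem _
  haveI : IsDomain (T ⧸ 𝔮) := Ideal.Quotient.isDomain 𝔮
  have hJ0 : J = ⊥ := Ideal.eq_bot_of_comap_eq_bot hJ
  have h5 : Ideal.Quotient.mk 𝔮 s ∈ J := Ideal.mem_map_of_mem _ (Ideal.mem_comap.mpr hs)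
  rw [hJ0, Ideal.mem_bot] at h5
  exact Ideal.Quotient.eq_zero_iff_mem.mp h5

end Fermat.Agent.S59.TW.Aut.H673

end
-- ===== PACK-END S59/TW/Aut/H673/FrontCore.lean

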