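import Mathlib
import Fermat.Prelude.Def_ModularForm_HeckeOperator
import Fermat.Prelude.Def_FLTPrelim_Modularity
import Fermat.Prelude.Thm_UpperHalfPlane_qCoeff_heckeU
import Fermat.Prelude.Def_GaloisRep_Flat
import Fermat.Prelude.Def_ModularCurve_LaurentCoeff
import Mathlib.RingTheory.LocalRing.MaximalIdeal.Basic
import Mathlib.Algebra.Polynomial.RingDivision
import Mathlib.Algebra.Polynomial.AlgebraMap
import Mathlib.Algebra.Polynomial.Div
import Fermat.Prelude.Def_GaloisRep_DeformationRingData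
import Fermat.Prelude.Def_GaloisRep_DeformationCondition
import Fermat.Prelude.Def_GaloisRep_LocalConditions
import Fermat.Prelude.Def_EllipticCurve_FrobeniusTrace
import Fermat.Prelude.Def_FLTPrelim_Ramification
import Fermat.Prelude.Def_GaloisRep_Adic
import Fermat.Agent.Pack.S43MC.G0E0L2
import Fermat.Agent.Pack.S43GC.G0E22L3
import Fermat.Agent.Pack.S44C.G0E21L3
import Fermat.Agent.Pack.S43MC.G1E0L0
import Fermat.Agent.Pack.S44C.G0E30L1
import Fermat.Agent.Pack.S44C.G0E30L3
import Fermat.Agent.Pack.S44C.G0E31L0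
import Fermat.Agent.Pack.Fast891

-- ===== PACK-BEGIN Lib/Newform/H623/Trace.lean
section




/-!
# NEWFORM lib (helper623), part 2: trace identities (T1)–(T4)

Function-level identities between the explicit coset sums of `Cosets.lean`, the Prelude operator
`heckeU`, slashing with `heckeDiagMatrix` (`B_q` up to a scalar) and slashing with an
Atkin–Lehner matrix `A = [p a, b; M p c, p d]`, `p a d - M b c = 1`.
-/

set_option autoImplicit false
set_option linter.unusedSectionVars false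

namespace Fermat.Agent.Lib.Newform.H623

open UpperHalfPlane ModularForm Matrix.SpecialLinearGroup SlashInvariantForm CongruenceSubgroup
open scoped MatrixGroups ModularForm Manifold

/-! ### Slash-action helpers -/

/-- `f` is invariant under `Γ₀(N)` (function level). -/
def Gamma0Inv (N : ℕ) (k : ℤ) (f : ℍ → ℂ) : Prop :=
  ∀ γ ∈ Gamma0 N, f ∣[k] (mapGL ℝ γ) = f

theorem gamma0Inv_coe {N : ℕ} {k : ℤ} {F : Type*} [FunLike F ℍ ℂ]
    [SlashInvariantFormClass F (Gamma0 N : Subgroup (GL (Fin 2) ℝ)) k] (f : F) :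
    Gamma0Inv N k (⇑f) := fun _ hγ =>
  SlashInvariantFormClass.slash_action_eq f _ (Subgroup.mem_map_of_mem _ hγ)

theorem Gamma0Inv.of_dvd {M N : ℕ} {k : ℤ} {f : ℍ → ℂ} (hf : Gamma0Inv M k f) (h : M ∣ N) :
    Gamma0Inv N k f := fun γ hγ => hf γ (gamma0_le_of_dvd h hγ)

theorem Gamma0Inv.slash_eq {N : ℕ} {k : ℤ} {f : ℍ → ℂ} (hf : Gamma0Inv N k f)
    {g g' : SL(2, ℤ)} (h : g * g'⁻¹ ∈ Gamma0 N) :
    f ∣[k] (mapGL ℝ g) = f ∣[k] (mapGL ℝ g') := by
  have : g = (g * g'⁻¹) * g' := by simp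
  rw [this, map_mul, SlashAction.slash_mul, hf _ h]

/-- Slashing with a scalar matrix `c • 1`, `c > 0`, multiplies by `c^(k-2)`. -/
theorem slash_of_val_eq_scalar (k : ℤ) (f : ℍ → ℂ) (s : GL (Fin 2) ℝ) (c : ℕ) (hc : c ≠ 0)
    (hs : (s : Matrix (Fin 2) (Fin 2) ℝ) = !![(c : ℝ), 0; 0, (c : ℝ)]) :
    f ∣[k] s = ((c : ℂ) ^ (k - 2)) • f := by
  have hc' : (c : ℂ) ≠ 0 := by exact_mod_cast hc
  have hdet : (s.det : ℝ) = (c : ℝ) ^ 2 := by
    rw [Matrix.GeneralLinearGroup.val_det_apply, hs, Matrix.det_fin_two_of]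
    ring
  have hpos : (0 : ℝ) < (s.det : ℝ) := by
    rw [hdet]; positivity
  ext τ
  have hσ : UpperHalfPlane.σ s = .refl ℝ ℂ := by
    rw [UpperHalfPlane.σ, if_pos hpos]
  have hdenom : UpperHalfPlane.denom s τ = (c : ℂ) := by
    simp [UpperHalfPlane.denom, hs]
  have hsmul : s • τ = τ := by
    apply UpperHalfPlane.ext
    rw [UpperHalfPlane.coe_smul_of_det_pos hpos]
    simp [UpperHalfPlane.num, UpperHalfPlane.denom, hs]
    field_simp
  rw [ModularForm.slash_apply, hσ, hdet, hdenom, hsmul]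
  simp only [ContinuousAlgEquiv.refl_apply, Pi.smul_apply, smul_eq_mul]
  have habs : |(c : ℝ) ^ 2| = (c : ℝ) ^ 2 := abs_of_nonneg (by positivity)
  rw [habs]
  push_cast
  have h1 : ((c : ℂ) ^ 2) ^ (k - 1) = (c : ℂ) ^ (2 * (k - 1)) := by
    rw [← zpow_natCast, ← zpow_mul]
    norm_num
  rw [h1, mul_assoc, ← zpow_add₀ hc', mul_comm]
  congr 2
  ring

/-- If `X = (c • 1) * Y` as real matrices (`c > 0` a natural number), then
`f ∣[k] X = c^(k-2) • f ∣[k] Y`. -/
theorem slash_eq_of_val_eq_smul (k : ℤ) (f : ℍ → ℂ) (X Y : GL (Fin 2) ℝ) (c : ℕ) (hc : c ≠ 0)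
    (h : (X : Matrix (Fin 2) (Fin 2) ℝ) = (c : ℝ) • (Y : Matrix (Fin 2) (Fin 2) ℝ)) :
    f ∣[k] X = ((c : ℂ) ^ (k - 2)) • (f ∣[k] Y) := by
  have hc' : (c : ℝ) ≠ 0 := by exact_mod_cast hc
  let s : GL (Fin 2) ℝ := Matrix.GeneralLinearGroup.mkOfDetNeZero !![(c : ℝ), 0; 0, (c : ℝ)]
    (by rw [Matrix.det_fin_two_of]; simpa using hc')
  have hs : (s : Matrix (Fin 2) (Fin 2) ℝ) = !![(c : ℝ), 0; 0, (c : ℝ)] := rfl
  have hX : X = Y * s := by
    apply Units.ext
    rw [Units.val_mul, h, hs]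
    ext i j
    fin_cases i <;> fin_cases j <;>
      simp [Matrix.mul_apply, Fin.sum_univ_two, mul_comm]
  rw [hX, SlashAction.slash_mul]
  exact slash_of_val_eq_scalar k _ s c hc hs

/-! ### (T1): `p ∤ M` prime -/

section T1

variable (M p : ℕ) (k : ℤ)

/-- The integer matrix `[a, a j + b; M c, M c j + p d]` with `A * heckeMatrix p j = p • β_j`. -/
def alBeta (a b c d : ℤ) (hdet : (p : ℤ) * a * d - M * b * c = 1) (j : ℤ) : SL(2, ℤ) :=
  ⟨!![a, a * j + b; (M : ℤ) * c, M * c * j + p * d],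
    by rw [Matrix.det_fin_two_of]; linear_combination hdet⟩

@[simp] theorem coe_alBeta (a b c d : ℤ) (hdet : (p : ℤ) * a * d - M * b * c = 1) (j : ℤ) :
    ((alBeta M p a b c d hdet j : SL(2, ℤ)) : Matrix (Fin 2) (Fin 2) ℤ) =
      !![a, a * j + b; (M : ℤ) * c, M * c * j + p * d] := rfl

theorem alBeta_mul_inv_mem (a b c d : ℤ) (hdet : (p : ℤ) * a * d - M * b * c = 1)
    (x y : ℤ) (hxy : (p : ℤ) * x - M * y = 1) (j : ℤ) :
    alBeta M p a b c d hdet j * (newMat M p x y hxy j)⁻¹ ∈ Gamma0 (M * p) := by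
  rw [gamma0_mem_iff_dvd, mul_inv_apply_one_zero]
  simp only [coe_alBeta, coe_newMat, Matrix.of_apply, Matrix.cons_val', Matrix.cons_val_one,
    Matrix.cons_val_zero, Matrix.cons_val_fin_one]
  refine ⟨c - d, ?_⟩
  push_cast
  ring

theorem al_mul_heckeMatrix (hp : p ≠ 0) (A : GL (Fin 2) ℝ) (a b c d : ℤ)
    (hA : (A : Matrix (Fin 2) (Fin 2) ℝ) = !![(p : ℝ) * a, b; (M : ℝ) * p * c, (p : ℝ) * d])
    (hdet : (p : ℤ) * a * d - M * b * c = 1) (j : ℕ) :
    ((A * heckeMatrix p j : GL (Fin 2) ℝ) : Matrix (Fin 2) (Fin 2) ℝ) =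
      (p : ℝ) • ((mapGL ℝ (alBeta M p a b c d hdet j) : GL (Fin 2) ℝ) :
        Matrix (Fin 2) (Fin 2) ℝ) := by
  rw [Units.val_mul, hA, val_heckeMatrix hp, mapGL_coe_matrix]
  ext i l
  fin_cases i <;> fin_cases l <;>
    simp [Matrix.mul_apply, Fin.sum_univ_two] <;> ring

/-- **(T1), coset-sum form.** -/
theorem sum_slash_newMat_eq (hp : p ≠ 0) (x y : ℤ) (hxy : (p : ℤ) * x - M * y = 1)
    (f : ℍ → ℂ) (hf : Gamma0Inv (M * p) k f)
    (A : GL (Fin 2) ℝ) (a b c d : ℤ)
    (hA : (A : Matrix (Fin 2) (Fin 2) ℝ) = !![(p : ℝ) * a, b; (M : ℝ) * p * c, (p : ℝ) * d])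
    (hdet : (p : ℤ) * a * d - M * b * c = 1) :
    ∑ j ∈ Finset.range p, f ∣[k] (mapGL ℝ (newMat M p x y hxy (j : ℕ))) =
      ((p : ℂ) ^ (2 - k)) • heckeU k p (f ∣[k] A) := by
  have hp' : (p : ℂ) ≠ 0 := by exact_mod_cast hp
  rw [heckeU_def, Finset.smul_sum]
  refine Finset.sum_congr rfl fun j _ => ?_
  rw [← SlashAction.slash_mul,
    slash_eq_of_val_eq_smul k f _ _ p hp (al_mul_heckeMatrix M p hp A a b c d hA hdet j),
    smul_smul, ← zpow_add₀ hp', hf.slash_eq (alBeta_mul_inv_mem M p a b c d hdet x y hxy j)]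
  simp

/-- **(T1)** for slash invariant forms: `Tr^{Mp}_M f = f + p^(2-k) • U_p (f ∣[k] A)`. -/
theorem SIF_coe_trace_eq_add_heckeU [hpp : Fact p.Prime]
    [hfin : (Gamma0 (M * p) : Subgroup (GL (Fin 2) ℝ)).IsFiniteRelIndex
      (Gamma0 M : Subgroup (GL (Fin 2) ℝ))]
    {F : Type*} [FunLike F ℍ ℂ]
    [SlashInvariantFormClass F (Gamma0 (M * p) : Subgroup (GL (Fin 2) ℝ)) k] (f : F)
    (A : GL (Fin 2) ℝ) (a b c d : ℤ)
    (hA : (A : Matrix (Fin 2) (Fin 2) ℝ) = !![(p : ℝ) * a, b; (M : ℝ) * p * c, (p : ℝ) * d])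
    (hdet : (p : ℤ) * a * d - M * b * c = 1) :
    (⇑(SlashInvariantForm.trace (Gamma0 M : Subgroup (GL (Fin 2) ℝ)) f) : ℍ → ℂ) =
      ⇑f + ((p : ℂ) ^ (2 - k)) • heckeU k p ((⇑f : ℍ → ℂ) ∣[k] A) := by
  have hxy : (p : ℤ) * (a * d) - M * (b * c) = 1 := by linear_combination hdet
  have hpM : ¬ p ∣ M := by
    intro h
    have h1 : (p : ℤ) ∣ 1 := by
      rw [← hxy]
      exact Dvd.dvd.sub (dvd_mul_right _ _) ((Int.natCast_dvd_natCast.mpr h).mul_right _)
    have := Int.natCast_dvd_natCast.mp (by simpa using h1 : ((p : ℕ) : ℤ) ∣ ((1 : ℕ) : ℤ))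
    exact hpp.out.one_lt.ne' (Nat.dvd_one.mp this)
  rw [SIF_coe_trace_eq_sum_newRep M p hpM (a * d) (b * c) hxy f,
    sum_slash_newMat_eq M p k hpp.out.ne_zero (a * d) (b * c) hxy (⇑f) (gamma0Inv_coe f)
      A a b c d hA hdet]

theorem MF_coe_trace_eq_add_heckeU [hpp : Fact p.Prime]
    [hfin : (Gamma0 (M * p) : Subgroup (GL (Fin 2) ℝ)).IsFiniteRelIndex
      (Gamma0 M : Subgroup (GL (Fin 2) ℝ))]
    {F : Type*} [FunLike F ℍ ℂ]
    [ModularFormClass F (Gamma0 (M * p) : Subgroup (GL (Fin 2) ℝ)) k] (f : F)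
    (A : GL (Fin 2) ℝ) (a b c d : ℤ)
    (hA : (A : Matrix (Fin 2) (Fin 2) ℝ) = !![(p : ℝ) * a, b; (M : ℝ) * p * c, (p : ℝ) * d])
    (hdet : (p : ℤ) * a * d - M * b * c = 1) :
    (⇑(ModularForm.trace (Gamma0 M : Subgroup (GL (Fin 2) ℝ)) f) : ℍ → ℂ) =
      ⇑f + ((p : ℂ) ^ (2 - k)) • heckeU k p ((⇑f : ℍ → ℂ) ∣[k] A) :=
  SIF_coe_trace_eq_add_heckeU M p k f A a b c d hA hdet

theorem CF_coe_trace_eq_add_heckeU [hpp : Fact p.Prime]
    [hfin : (Gamma0 (M * p) : Subgroup (GL (Fin 2) ℝ)).IsFiniteRelIndex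
      (Gamma0 M : Subgroup (GL (Fin 2) ℝ))]
    {F : Type*} [FunLike F ℍ ℂ]
    [CuspFormClass F (Gamma0 (M * p) : Subgroup (GL (Fin 2) ℝ)) k] (f : F)
    (A : GL (Fin 2) ℝ) (a b c d : ℤ)
    (hA : (A : Matrix (Fin 2) (Fin 2) ℝ) = !![(p : ℝ) * a, b; (M : ℝ) * p * c, (p : ℝ) * d])
    (hdet : (p : ℤ) * a * d - M * b * c = 1) :
    (⇑(CuspForm.trace (Gamma0 M : Subgroup (GL (Fin 2) ℝ)) f) : ℍ → ℂ) =
      ⇑f + ((p : ℂ) ^ (2 - k)) • heckeU k p ((⇑f : ℍ → ℂ) ∣[k] A) :=
  SIF_coe_trace_eq_add_heckeU M p k f A a b c d hA hdet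

/-- **(T1), weight 2, cusp forms**: `Tr^{Mp}_M f = f + U_p (f ∣[2] A)`. -/
theorem CF_coe_trace_eq_add_heckeU_two [hpp : Fact p.Prime]
    [hfin : (Gamma0 (M * p) : Subgroup (GL (Fin 2) ℝ)).IsFiniteRelIndex
      (Gamma0 M : Subgroup (GL (Fin 2) ℝ))]
    {F : Type*} [FunLike F ℍ ℂ]
    [CuspFormClass F (Gamma0 (M * p) : Subgroup (GL (Fin 2) ℝ)) 2] (f : F)
    (A : GL (Fin 2) ℝ) (a b c d : ℤ)
    (hA : (A : Matrix (Fin 2) (Fin 2) ℝ) = !![(p : ℝ) * a, b; (M : ℝ) * p * c, (p : ℝ) * d])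
    (hdet : (p : ℤ) * a * d - M * b * c = 1) :
    (⇑(CuspForm.trace (Gamma0 M : Subgroup (GL (Fin 2) ℝ)) f) : ℍ → ℂ) =
      ⇑f + heckeU 2 p ((⇑f : ℍ → ℂ) ∣[(2 : ℤ)] A) := by
  rw [CF_coe_trace_eq_add_heckeU M p 2 f A a b c d hA hdet]
  simp

end T1

/-! ### (T2): the trace of a form of lower level -/

section T2

variable (M p : ℕ) (k : ℤ)

/-- **(T2), coset-sum form.** -/
theorem sum_slash_lowerUni_of_inv (f : ℍ → ℂ) (hf : Gamma0Inv M k f) :
    ∑ j ∈ Finset.range p, f ∣[k] (mapGL ℝ (lowerUni (M * (j : ℕ)))) = (p : ℂ) • f := by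
  have h : ∀ j ∈ Finset.range p, f ∣[k] (mapGL ℝ (lowerUni (M * (j : ℕ)))) = f :=
    fun j _ => hf _ (lowerUni_mem_gamma0 M j)
  rw [Finset.sum_congr rfl h]
  simp [Finset.sum_const, Finset.card_range, Nat.cast_smul_eq_nsmul]

/-- **(T2)**: if `f` has level `M p` (`p ∣ M`) but is invariant under `Γ₀(M)`, then
`Tr^{Mp}_M f = p • f`. -/
theorem SIF_coe_trace_eq_smul [NeZero M] [NeZero p] (hpM : p ∣ M)
    [hfin : (Gamma0 (M * p) : Subgroup (GL (Fin 2) ℝ)).IsFiniteRelIndex
      (Gamma0 M : Subgroup (GL (Fin 2) ℝ))]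
    {F : Type*} [FunLike F ℍ ℂ]
    [SlashInvariantFormClass F (Gamma0 (M * p) : Subgroup (GL (Fin 2) ℝ)) k] (f : F)
    (hf : Gamma0Inv M k (⇑f)) :
    (⇑(SlashInvariantForm.trace (Gamma0 M : Subgroup (GL (Fin 2) ℝ)) f) : ℍ → ℂ) =
      (p : ℂ) • (⇑f : ℍ → ℂ) := by
  rw [SIF_coe_trace_eq_sum_lowRep M p hpM f, sum_slash_lowerUni_of_inv M p k _ hf]

theorem CF_coe_trace_eq_smul [NeZero M] [NeZero p] (hpM : p ∣ M)
    [hfin : (Gamma0 (M * p) : Subgroup (GL (Fin 2) ℝ)).IsFiniteRelIndex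
      (Gamma0 M : Subgroup (GL (Fin 2) ℝ))]
    {F : Type*} [FunLike F ℍ ℂ]
    [CuspFormClass F (Gamma0 (M * p) : Subgroup (GL (Fin 2) ℝ)) k] (f : F)
    (hf : Gamma0Inv M k (⇑f)) :
    (⇑(CuspForm.trace (Gamma0 M : Subgroup (GL (Fin 2) ℝ)) f) : ℍ → ℂ) =
      (p : ℂ) • (⇑f : ℍ → ℂ) :=
  SIF_coe_trace_eq_smul M p k hpM f hf

end T2

/-! ### (T3): trace commutes with `B_q` -/

section T3

variable (M p q : ℕ) (k : ℤ)

theorem heckeDiagMatrix_mul_lowerUni (hq : q ≠ 0) (j : ℤ) :
    heckeDiagMatrix q * mapGL ℝ (lowerUni (((M * q : ℕ) : ℤ) * j)) =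
      mapGL ℝ (lowerUni ((M : ℤ) * j)) * heckeDiagMatrix q := by
  apply Units.ext
  rw [Units.val_mul, Units.val_mul, val_heckeDiagMatrix hq, mapGL_coe_matrix, mapGL_coe_matrix]
  ext i l
  fin_cases i <;> fin_cases l
  all_goals simp [Matrix.mul_apply, Fin.sum_univ_two]
  all_goals ring

/-- **(T3), coset-sum form**: no invariance needed. -/
theorem sum_slash_lowerUni_heckeDiag (hq : q ≠ 0) (f : ℍ → ℂ) :
    ∑ j ∈ Finset.range p,
        (f ∣[k] heckeDiagMatrix q) ∣[k] (mapGL ℝ (lowerUni (((M * q : ℕ) : ℤ) * (j : ℕ)))) =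
      (∑ j ∈ Finset.range p, f ∣[k] (mapGL ℝ (lowerUni ((M : ℤ) * (j : ℕ))))) ∣[k]
        heckeDiagMatrix q := by
  rw [SlashAction.sum_slash]
  refine Finset.sum_congr rfl fun j _ => ?_
  rw [← SlashAction.slash_mul, ← SlashAction.slash_mul, heckeDiagMatrix_mul_lowerUni M q hq]

/-- **(T3)**: `Tr^{Mqp}_{Mq} (h ∣ diag(q,1)) = (Tr^{Mp}_M h) ∣ diag(q,1)` for `p ∣ M`. -/
theorem SIF_coe_trace_heckeDiag [NeZero M] [NeZero p] [NeZero q] (hpM : p ∣ M)
    [hfin : (Gamma0 (M * p) : Subgroup (GL (Fin 2) ℝ)).IsFiniteRelIndex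
      (Gamma0 M : Subgroup (GL (Fin 2) ℝ))]
    [hfin' : (Gamma0 (M * q * p) : Subgroup (GL (Fin 2) ℝ)).IsFiniteRelIndex
      (Gamma0 (M * q) : Subgroup (GL (Fin 2) ℝ))]
    {F F' : Type*} [FunLike F ℍ ℂ] [FunLike F' ℍ ℂ]
    [SlashInvariantFormClass F (Gamma0 (M * p) : Subgroup (GL (Fin 2) ℝ)) k]
    [SlashInvariantFormClass F' (Gamma0 (M * q * p) : Subgroup (GL (Fin 2) ℝ)) k]
    (h : F) (h' : F') (hh' : (⇑h' : ℍ → ℂ) = (⇑h : ℍ → ℂ) ∣[k] heckeDiagMatrix q) :
    (⇑(SlashInvariantForm.trace (Gamma0 (M * q) : Subgroup (GL (Fin 2) ℝ)) h') : ℍ → ℂ) =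
      (⇑(SlashInvariantForm.trace (Gamma0 M : Subgroup (GL (Fin 2) ℝ)) h) : ℍ → ℂ) ∣[k]
        heckeDiagMatrix q := by
  have : NeZero (M * q) := ⟨Nat.mul_ne_zero (NeZero.ne M) (NeZero.ne q)⟩
  rw [SIF_coe_trace_eq_sum_lowRep (M * q) p (hpM.mul_right q) h',
    SIF_coe_trace_eq_sum_lowRep M p hpM h, hh',
    sum_slash_lowerUni_heckeDiag M p q k (NeZero.ne q)]

theorem CF_coe_trace_heckeDiag [NeZero M] [NeZero p] [NeZero q] (hpM : p ∣ M)
    [hfin : (Gamma0 (M * p) : Subgroup (GL (Fin 2) ℝ)).IsFiniteRelIndex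
      (Gamma0 M : Subgroup (GL (Fin 2) ℝ))]
    [hfin' : (Gamma0 (M * q * p) : Subgroup (GL (Fin 2) ℝ)).IsFiniteRelIndex
      (Gamma0 (M * q) : Subgroup (GL (Fin 2) ℝ))]
    {F F' : Type*} [FunLike F ℍ ℂ] [FunLike F' ℍ ℂ]
    [CuspFormClass F (Gamma0 (M * p) : Subgroup (GL (Fin 2) ℝ)) k]
    [CuspFormClass F' (Gamma0 (M * q * p) : Subgroup (GL (Fin 2) ℝ)) k]
    (h : F) (h' : F') (hh' : (⇑h' : ℍ → ℂ) = (⇑h : ℍ → ℂ) ∣[k] heckeDiagMatrix q) :
    (⇑(CuspForm.trace (Gamma0 (M * q) : Subgroup (GL (Fin 2) ℝ)) h') : ℍ → ℂ) =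
      (⇑(CuspForm.trace (Gamma0 M : Subgroup (GL (Fin 2) ℝ)) h) : ℍ → ℂ) ∣[k]
        heckeDiagMatrix q :=
  SIF_coe_trace_heckeDiag M p q k hpM h h' hh'

end T3

/-! ### (T4): the trace of `h ∣ diag(p,1)` for `p ∥ N` -/

section T4

theorem val_mapGL_of_coe {g : SL(2, ℤ)} {a b c d : ℤ}
    (h : (g : Matrix (Fin 2) (Fin 2) ℤ) = !![a, b; c, d]) :
    ((mapGL ℝ g : GL (Fin 2) ℝ) : Matrix (Fin 2) (Fin 2) ℝ) = !![(a : ℝ), b; c, d] := by
  rw [mapGL_coe_matrix]
  ext i j
  fin_cases i <;> fin_cases j <;> simp [h]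

theorem mat_fin_two_ext {R : Type*} {a b c d a' b' c' d' : R} (h11 : a = a') (h12 : b = b')
    (h21 : c = c') (h22 : d = d') : !![a, b; c, d] = !![a', b'; c', d'] := by
  subst h11 h12 h21 h22; rfl

variable (M p : ℕ) (k : ℤ)

/-- The matrix `γ_t ∈ Γ₀(M p)` with
`heckeMatrix p t * A = A * γ_t * diag(p,1) * [1, 0; M p j, 1]`. -/
def alGamma (a b c d : ℤ) (hdet : (p : ℤ) * a * d - M * b * c = 1) (t j m : ℤ)
    (hjm : j + c * (a + M * c * t) = p * m) : SL(2, ℤ) :=
  ⟨!![a * d + M * c * (d * t - b) - M * j * (d * (b + p * (d * t - b))),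
        d * (b + p * (d * t - b));
      ((M * p : ℕ) : ℤ) * (c * a - m - j * d * (p * a - a - M * c * t)),
        -(M * c * b) + p * d * (p * a - M * c * t)], by
    rw [Matrix.det_fin_two_of]
    push_cast
    linear_combination ((p : ℤ) * a * d - M * b * c + 1 - M * (d * (b + p * (d * t - b))) * j)
      * hdet - (M * (d * (b + p * (d * t - b)))) * hjm⟩

theorem coe_alGamma (a b c d : ℤ) (hdet : (p : ℤ) * a * d - M * b * c = 1) (t j m : ℤ)
    (hjm : j + c * (a + M * c * t) = p * m) :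
    ((alGamma M p a b c d hdet t j m hjm : SL(2, ℤ)) : Matrix (Fin 2) (Fin 2) ℤ) =
      !![a * d + M * c * (d * t - b) - M * j * (d * (b + p * (d * t - b))),
        d * (b + p * (d * t - b));
      ((M * p : ℕ) : ℤ) * (c * a - m - j * d * (p * a - a - M * c * t)),
        -(M * c * b) + p * d * (p * a - M * c * t)] := rfl

theorem alGamma_mem (a b c d : ℤ) (hdet : (p : ℤ) * a * d - M * b * c = 1) (t j m : ℤ)
    (hjm : j + c * (a + M * c * t) = p * m) :
    alGamma M p a b c d hdet t j m hjm ∈ Gamma0 (M * p) := by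
  rw [gamma0_mem_iff_dvd]
  exact ⟨_, rfl⟩

theorem heckeMatrix_mul_al (hp : p ≠ 0) (A : GL (Fin 2) ℝ) (a b c d : ℤ)
    (hA : (A : Matrix (Fin 2) (Fin 2) ℝ) = !![(p : ℝ) * a, b; (M : ℝ) * p * c, (p : ℝ) * d])
    (hdet : (p : ℤ) * a * d - M * b * c = 1) (t j : ℕ) (m : ℤ)
    (hjm : (j : ℤ) + c * (a + M * c * t) = p * m) :
    heckeMatrix p t * A =
      A * (mapGL ℝ (alGamma M p a b c d hdet t j m hjm) *
        (heckeDiagMatrix p * mapGL ℝ (lowerUni (((M * p : ℕ) : ℤ) * (j : ℕ))))) := by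
  have hdetR : (p : ℝ) * a * d - M * b * c = 1 := by exact_mod_cast hdet
  have hjmR : (j : ℝ) + c * (a + M * c * t) = p * m := by exact_mod_cast hjm
  apply Units.ext
  rw [Units.val_mul, Units.val_mul, Units.val_mul, Units.val_mul, val_heckeMatrix hp, hA,
    val_heckeDiagMatrix hp, val_mapGL_of_coe (coe_alGamma M p a b c d hdet t j m hjm),
    val_mapGL_of_coe (coe_lowerUni _), Matrix.mul_fin_two, Matrix.mul_fin_two,
    Matrix.mul_fin_two, Matrix.mul_fin_two]
  refine mat_fin_two_ext ?_ ?_ ?_ ?_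
  · push_cast
    linear_combination (-((p : ℝ) * a + t * (M * p) * c + b * (M * p) * j)) * hdetR
      - (b * (M * p)) * hjmR
  · push_cast
    linear_combination (-((b : ℝ) + t * p * d)) * hdetR
  · push_cast
    linear_combination (-((p : ℝ) * (M * p) * c + p * d * (M * p) * j)) * hdetR
      - (p * d * (M * p)) * hjmR
  · push_cast
    linear_combination (-((p : ℝ) ^ 2 * d)) * hdetR

/-- Reindexing a sum over `range p` along an affine permutation of `ZMod p`. -/
theorem sum_range_affine {α : Type*} [AddCommMonoid α] [NeZero p] (u v u' : ZMod p)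
    (huu' : u * u' = 1) (G : ℕ → α) :
    ∑ t ∈ Finset.range p, G ((u * (t : ZMod p) + v).val) = ∑ j ∈ Finset.range p, G j := by
  refine Finset.sum_nbij' (fun t => (u * (t : ZMod p) + v).val)
    (fun j => (u' * ((j : ZMod p) - v)).val) ?_ ?_ ?_ ?_ ?_
  · intro t _
    exact Finset.mem_range.mpr (ZMod.val_lt _)
  · intro j _
    exact Finset.mem_range.mpr (ZMod.val_lt _)
  · intro t ht
    have ht' : t < p := Finset.mem_range.mp ht
    show (u' * (((u * (t : ZMod p) + v).val : ZMod p) - v)).val = t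
    rw [ZMod.natCast_zmod_val]
    have : u' * (u * (t : ZMod p) + v - v) = (t : ZMod p) := by
      rw [add_sub_cancel_right, ← mul_assoc, mul_comm u' u, huu', one_mul]
    rw [this, ZMod.val_natCast_of_lt ht']
  · intro j hj
    have hj' : j < p := Finset.mem_range.mp hj
    show (u * (((u' * ((j : ZMod p) - v)).val : ZMod p)) + v).val = j
    rw [ZMod.natCast_zmod_val]
    have : u * (u' * ((j : ZMod p) - v)) + v = (j : ZMod p) := by
      rw [← mul_assoc, huu', one_mul, sub_add_cancel]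
    rw [this, ZMod.val_natCast_of_lt hj']
  · intro t _
    rfl

/-- **(T4), coset-sum form.**  For `f` invariant under `Γ₀(M p)` and an Atkin–Lehner matrix
`A = [p a, b; M p c, p d]`:
`∑_{j<p} (f ∣ diag(p,1)) ∣ [1, 0; M p j, 1] = (U_p (f ∣ A⁻¹)) ∣ A`. -/
theorem sum_slash_heckeDiag_lowerUni_eq (hp : p ≠ 0) (f : ℍ → ℂ)
    (hf : Gamma0Inv (M * p) k f) (A : GL (Fin 2) ℝ) (a b c d : ℤ)
    (hA : (A : Matrix (Fin 2) (Fin 2) ℝ) = !![(p : ℝ) * a, b; (M : ℝ) * p * c, (p : ℝ) * d])
    (hdet : (p : ℤ) * a * d - M * b * c = 1) :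
    ∑ j ∈ Finset.range p,
        (f ∣[k] heckeDiagMatrix p) ∣[k] (mapGL ℝ (lowerUni (((M * p : ℕ) : ℤ) * (j : ℕ)))) =
      (heckeU k p (f ∣[k] A⁻¹)) ∣[k] A := by
  have : NeZero p := ⟨hp⟩
  -- the affine permutation `t ↦ -c (a + M c t) = (-(M c^2)) t + (-(c a))`
  set u : ZMod p := -((M : ZMod p) * c * c) with hu
  set v : ZMod p := -((c : ZMod p) * a) with hv
  set u' : ZMod p := -((M : ZMod p) * b * b) with hu'
  have hdetZ : (M : ZMod p) * b * c = -1 := by
    have := congrArg (fun z : ℤ => (z : ZMod p)) hdet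
    simp only [Int.cast_sub, Int.cast_mul, Int.cast_natCast, Int.cast_one,
      ZMod.natCast_self, zero_mul, zero_sub] at this
    rw [← this]; ring
  have huu' : u * u' = 1 := by
    rw [hu, hu']
    have : -((M : ZMod p) * c * c) * -((M : ZMod p) * b * b) =
        ((M : ZMod p) * b * c) * ((M : ZMod p) * b * c) := by ring
    rw [this, hdetZ]; ring
  rw [← sum_range_affine p u v u' huu'
    (fun j => (f ∣[k] heckeDiagMatrix p) ∣[k]
      (mapGL ℝ (lowerUni (((M * p : ℕ) : ℤ) * (j : ℕ)))))]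
  rw [heckeU_def, SlashAction.sum_slash]
  refine Finset.sum_congr rfl fun t _ => ?_
  -- the quotient `m`
  have hdvd : (p : ℤ) ∣ (((u * (t : ZMod p) + v).val : ℕ) : ℤ) + c * (a + M * c * t) := by
    rw [← ZMod.intCast_zmod_eq_zero_iff_dvd]
    push_cast
    rw [ZMod.natCast_zmod_val, hu, hv]
    ring
  obtain ⟨m, hm⟩ := hdvd
  have key := heckeMatrix_mul_al M p hp A a b c d hA hdet t (u * (t : ZMod p) + v).val m hm
  have hR : ((f ∣[k] A⁻¹) ∣[k] heckeMatrix p t) ∣[k] A =
      f ∣[k] (A⁻¹ * (heckeMatrix p t * A)) := by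
    rw [SlashAction.slash_mul, SlashAction.slash_mul]
  rw [hR, key, inv_mul_cancel_left, SlashAction.slash_mul,
    hf _ (alGamma_mem M p a b c d hdet _ _ _ hm), SlashAction.slash_mul]

/-- **(T4)** for slash invariant forms: if `h'` (level `M p p`) is `h ∣ diag(p,1)` with `h` of
level `M p`, then `Tr^{Mpp}_{Mp} h' = (U_p (h ∣ A⁻¹)) ∣ A`. -/
theorem SIF_coe_trace_heckeDiag_self [NeZero M] [NeZero p]
    [hfin : (Gamma0 (M * p * p) : Subgroup (GL (Fin 2) ℝ)).IsFiniteRelIndex
      (Gamma0 (M * p) : Subgroup (GL (Fin 2) ℝ))]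
    {F' : Type*} [FunLike F' ℍ ℂ]
    [SlashInvariantFormClass F' (Gamma0 (M * p * p) : Subgroup (GL (Fin 2) ℝ)) k]
    (h : ℍ → ℂ) (hh : Gamma0Inv (M * p) k h) (h' : F')
    (hh' : (⇑h' : ℍ → ℂ) = h ∣[k] heckeDiagMatrix p)
    (A : GL (Fin 2) ℝ) (a b c d : ℤ)
    (hA : (A : Matrix (Fin 2) (Fin 2) ℝ) = !![(p : ℝ) * a, b; (M : ℝ) * p * c, (p : ℝ) * d])
    (hdet : (p : ℤ) * a * d - M * b * c = 1) :
    (⇑(SlashInvariantForm.trace (Gamma0 (M * p) : Subgroup (GL (Fin 2) ℝ)) h') : ℍ → ℂ) =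
      (heckeU k p (h ∣[k] A⁻¹)) ∣[k] A := by
  have : NeZero (M * p) := ⟨Nat.mul_ne_zero (NeZero.ne M) (NeZero.ne p)⟩
  rw [SIF_coe_trace_eq_sum_lowRep (M * p) p (dvd_mul_left p M) h', hh',
    sum_slash_heckeDiag_lowerUni_eq M p k (NeZero.ne p) h hh A a b c d hA hdet]

theorem CF_coe_trace_heckeDiag_self [NeZero M] [NeZero p]
    [hfin : (Gamma0 (M * p * p) : Subgroup (GL (Fin 2) ℝ)).IsFiniteRelIndex
      (Gamma0 (M * p) : Subgroup (GL (Fin 2) ℝ))]
    {F' : Type*} [FunLike F' ℍ ℂ]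
    [CuspFormClass F' (Gamma0 (M * p * p) : Subgroup (GL (Fin 2) ℝ)) k]
    (h : ℍ → ℂ) (hh : Gamma0Inv (M * p) k h) (h' : F')
    (hh' : (⇑h' : ℍ → ℂ) = h ∣[k] heckeDiagMatrix p)
    (A : GL (Fin 2) ℝ) (a b c d : ℤ)
    (hA : (A : Matrix (Fin 2) (Fin 2) ℝ) = !![(p : ℝ) * a, b; (M : ℝ) * p * c, (p : ℝ) * d])
    (hdet : (p : ℤ) * a * d - M * b * c = 1) :
    (⇑(CuspForm.trace (Gamma0 (M * p) : Subgroup (GL (Fin 2) ℝ)) h') : ℍ → ℂ) =
      (heckeU k p (h ∣[k] A⁻¹)) ∣[k] A :=
  SIF_coe_trace_heckeDiag_self M p k h hh h' hh' A a b c d hA hdet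

end T4

end Fermat.Agent.Lib.Newform.H623

end
-- ===== PACK-END Lib/Newform/H623/Trace.lean

-- ===== PACK-BEGIN S59/H577/GTWLin.lean
section


/-!
# S59 / cell GTW (helper577): the linear algebra behind "irreducible on index-2 subgroups"

`V₀` a `2`-dimensional representation of a group `G` over a field `k₀`, irreducible over `k₀`,
and `u ∈ G` acting as a NON-TRIVIAL UNIPOTENT element (`(ρ₀ u - 1)² = 0`, `ρ₀ u ≠ 1`).  Then for
every NORMAL subgroup `H ∋ u` and every tower of fields `k₀ → k → K`, the only `H`-stable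
`K`-subspaces of `K ⊗ (k ⊗ V₀)` are `⊥` and `⊤`.

Reason: an `H`-stable line is the fixed line of every conjugate `g u g⁻¹`, these lines are
defined over `k₀`, so the fixed line of `u` in `V₀` is `G`-stable.
-/

set_option autoImplicit false

open scoped TensorProduct

namespace Fermat.Agent.S59.H577

section Nilp

variable {F : Type*} [Field F] {V : Type*} [AddCommGroup V] [Module F V]

/-- In a `2`-dimensional space, a proper non-zero subspace stable under a non-zero
endomorphism `N` with `N² = 0` is the kernel of `N`. -/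
theorem eq_ker_of_stable_of_sq_zero (h2 : Module.finrank F V = 2) (N : Module.End F V)
    (hN2 : N * N = 0) (hN : N ≠ 0) (W : Submodule F V) (hW : ∀ x ∈ W, N x ∈ W)
    (h0 : W ≠ ⊥) (h1 : W ≠ ⊤) : W = LinearMap.ker N := by
  have : Module.Finite F V := Module.finite_of_finrank_eq_succ h2
  -- `W ≤ ker N`
  have hle : W ≤ LinearMap.ker N := by
    intro w hw
    rw [LinearMap.mem_ker]
    by_contra hNw
    -- `w` and `N w` are linearly independent elements of `W`, so `W = ⊤`
    have hw0 : w ≠ 0 := by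
      rintro rfl
      exact hNw (map_zero N)
    have hNNw : N (N w) = 0 := by
      have := LinearMap.congr_fun hN2 w
      simpa using this
    have hli : LinearIndependent F ![N w, w] := by
      rw [LinearIndependent.pair_iff]
      intro a b hab
      have h3 := congrArg N hab
      rw [map_add, map_smul, map_smul, hNNw, smul_zero, zero_add, map_zero] at h3
      have hb : b = 0 := by
        rcases smul_eq_zero.mp h3 with h | h
        · exact h
        · exact absurd h hNw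
      rw [hb, zero_smul, add_zero] at hab
      rcases smul_eq_zero.mp hab with h | h
      · exact ⟨h, hb⟩
      · exact absurd h hNw
    have hmem : ∀ i, ![N w, w] i ∈ W := by
      intro i
      fin_cases i
      · exact hW w hw
      · exact hw
    -- a linearly independent family of `2` vectors in `W`
    have hcard : 2 ≤ Module.finrank F W := by
      have hli' : LinearIndependent F (fun i : Fin 2 => (⟨![N w, w] i, hmem i⟩ : W)) := by
        apply LinearIndependent.of_comp W.subtype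
        exact hli
      have := hli'.fintype_card_le_finrank
      simpa using this
    apply h1
    apply Submodule.eq_top_of_finrank_eq
    have := Submodule.finrank_le W
    omega
  -- dimensions
  have hker : LinearMap.ker N ≠ ⊤ := by
    intro h
    apply hN
    ext x
    have : x ∈ LinearMap.ker N := h ▸ Submodule.mem_top
    simpa using this
  have hk1 : Module.finrank F (LinearMap.ker N) < 2 := by
    rw [← h2]
    exact Submodule.finrank_lt hker
  have hW1 : 0 < Module.finrank F W := by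
    rw [Module.finrank_pos_iff]
    exact Submodule.nontrivial_iff_ne_bot.mpr h0
  exact Submodule.eq_of_le_of_finrank_le hle (by omega)

end Nilp

section Tower

variable {k₀ k K : Type*} [Field k₀] [Field k] [Field K] [Algebra k₀ k] [Algebra k K]
variable {V₀ : Type*} [AddCommGroup V₀] [Module k₀ V₀]

/-- The double base change of an endomorphism. -/
noncomputable def bc2 (k K : Type*) [Field k] [Field K] [Algebra k₀ k] [Algebra k K]
    (f : Module.End k₀ V₀) : Module.End K (K ⊗[k] (k ⊗[k₀] V₀)) :=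
  (f.baseChange k).baseChange K

theorem bc2_tmul (f : Module.End k₀ V₀) (v : V₀) :
    bc2 k K f ((1 : K) ⊗ₜ[k] ((1 : k) ⊗ₜ[k₀] v)) = (1 : K) ⊗ₜ[k] ((1 : k) ⊗ₜ[k₀] f v) := by
  rw [bc2, LinearMap.baseChange_tmul, LinearMap.baseChange_tmul]

theorem bc2_one : bc2 k K (1 : Module.End k₀ V₀) = 1 := by
  rw [bc2, LinearMap.baseChange_one, LinearMap.baseChange_one]

theorem bc2_mul (f g : Module.End k₀ V₀) : bc2 k K (f * g) = bc2 k K f * bc2 k K g := by
  rw [bc2, bc2, bc2, LinearMap.baseChange_mul, LinearMap.baseChange_mul]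

theorem bc2_sub (f g : Module.End k₀ V₀) : bc2 k K (f - g) = bc2 k K f - bc2 k K g := by
  rw [bc2, bc2, bc2, LinearMap.baseChange_sub, LinearMap.baseChange_sub]

theorem bc2_zero : bc2 k K (0 : Module.End k₀ V₀) = 0 := by
  rw [bc2, LinearMap.baseChange_zero, LinearMap.baseChange_zero]

/-- `v ↦ 1 ⊗ (1 ⊗ v)` is injective. -/
theorem tmul2_injective :
    Function.Injective (fun v : V₀ => (1 : K) ⊗ₜ[k] ((1 : k) ⊗ₜ[k₀] v)) := by
  intro v w h
  have h1 : (1 : k) ⊗ₜ[k₀] v = (1 : k) ⊗ₜ[k₀] w :=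
    Module.Flat.tensorProduct_mk_injective k (k ⊗[k₀] V₀) K h
  exact Module.Flat.tensorProduct_mk_injective k₀ V₀ k h1

theorem finrank_tower2 (h2 : Module.finrank k₀ V₀ = 2) :
    Module.finrank K (K ⊗[k] (k ⊗[k₀] V₀)) = 2 := by
  rw [Module.finrank_baseChange, Module.finrank_baseChange, h2]

/-- **Core.**  `ρ₀` irreducible over `k₀` on the `2`-dimensional `V₀`, `H` a normal subgroup
containing an element `u` acting as a non-trivial unipotent.  Then every `H`-stable subspace of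
`K ⊗ (k ⊗ V₀)` is `⊥` or `⊤`. -/
theorem stable_eq_bot_or_top_of_unipotent (h2 : Module.finrank k₀ V₀ = 2)
    {G : Type*} [Group G] (ρ₀ : G →* Module.End k₀ V₀)
    (hirr : ∀ W₀ : Submodule k₀ V₀, (∀ g : G, ∀ x ∈ W₀, ρ₀ g x ∈ W₀) → W₀ = ⊥ ∨ W₀ = ⊤)
    (H : Subgroup G) [hHn : H.Normal] (u : G) (huH : u ∈ H)
    (hu2 : (ρ₀ u - 1) * (ρ₀ u - 1) = 0) (hu : ρ₀ u ≠ 1)
    (W : Submodule K (K ⊗[k] (k ⊗[k₀] V₀)))
    (hW : ∀ h ∈ H, ∀ x ∈ W, bc2 k K (ρ₀ h) x ∈ W) : W = ⊥ ∨ W = ⊤ := by
  by_contra hcon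
  rw [not_or] at hcon
  obtain ⟨hW0, hW1⟩ := hcon
  -- the nilpotent parts of the conjugates of `u`
  set N₀ : Module.End k₀ V₀ := ρ₀ u - 1 with hN₀
  have hN₀ne : N₀ ≠ 0 := fun h => hu (sub_eq_zero.mp h)
  have hconj : ∀ g : G, ρ₀ (g * u * g⁻¹) - 1 = ρ₀ g * N₀ * ρ₀ g⁻¹ := by
    intro g
    have h1 : ρ₀ g * ρ₀ g⁻¹ = 1 := by rw [← map_mul, mul_inv_cancel, map_one]
    rw [map_mul, map_mul, hN₀, mul_sub, sub_mul, mul_one, h1]
  have hinv : ∀ g : G, ρ₀ g⁻¹ * ρ₀ g = 1 := fun g => by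
    rw [← map_mul, inv_mul_cancel, map_one]
  have hinv' : ∀ g : G, ρ₀ g * ρ₀ g⁻¹ = 1 := fun g => by
    rw [← map_mul, mul_inv_cancel, map_one]
  -- `W` is the kernel of the double base change of each of them
  have hkey : ∀ g : G, W = LinearMap.ker (bc2 k K (ρ₀ g * N₀ * ρ₀ g⁻¹)) := by
    intro g
    have hmem : g * u * g⁻¹ ∈ H := hHn.conj_mem u huH g
    apply eq_ker_of_stable_of_sq_zero (finrank_tower2 h2) _ _ _ W _ hW0 hW1
    · rw [← bc2_mul]
      have : ρ₀ g * N₀ * ρ₀ g⁻¹ * (ρ₀ g * N₀ * ρ₀ g⁻¹) = 0 := by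
        calc ρ₀ g * N₀ * ρ₀ g⁻¹ * (ρ₀ g * N₀ * ρ₀ g⁻¹)
            = ρ₀ g * N₀ * (ρ₀ g⁻¹ * ρ₀ g) * N₀ * ρ₀ g⁻¹ := by simp only [mul_assoc]
          _ = ρ₀ g * (N₀ * N₀) * ρ₀ g⁻¹ := by rw [hinv, mul_one]; simp only [mul_assoc]
          _ = 0 := by rw [hu2, mul_zero, zero_mul]
      rw [this, bc2_zero]
    · intro h0
      -- `ρ₀ g * N₀ * ρ₀ g⁻¹ = 0`
      have h3 : ρ₀ g * N₀ * ρ₀ g⁻¹ = 0 := by
        ext v
        have h4 := LinearMap.congr_fun h0 ((1 : K) ⊗ₜ[k] ((1 : k) ⊗ₜ[k₀] v))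
        rw [bc2_tmul, LinearMap.zero_apply] at h4
        have h5 : (fun v : V₀ => (1 : K) ⊗ₜ[k] ((1 : k) ⊗ₜ[k₀] v)) ((ρ₀ g * N₀ * ρ₀ g⁻¹) v)
            = (fun v : V₀ => (1 : K) ⊗ₜ[k] ((1 : k) ⊗ₜ[k₀] v)) 0 := by
          simp only [h4, TensorProduct.tmul_zero]
        simpa using tmul2_injective (k := k) (K := K) h5
      apply hN₀ne
      calc N₀ = ρ₀ g⁻¹ * (ρ₀ g * N₀ * ρ₀ g⁻¹) * ρ₀ g := by
            rw [← mul_assoc, ← mul_assoc, hinv, one_mul, mul_assoc, hinv, mul_one]
        _ = 0 := by rw [h3, mul_zero, zero_mul]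
    · intro x hx
      have h3 := hW _ hmem x hx
      rw [← hconj g, bc2_sub, bc2_one, LinearMap.sub_apply, Module.End.one_apply]
      exact W.sub_mem h3 hx
  -- the kernel of `N₀` is `G`-stable
  have hstab : ∀ g : G, ∀ x ∈ LinearMap.ker N₀, ρ₀ g x ∈ LinearMap.ker N₀ := by
    intro g x hx
    rw [LinearMap.mem_ker] at hx ⊢
    -- `1 ⊗ 1 ⊗ x ∈ W`
    have h1 : (1 : K) ⊗ₜ[k] ((1 : k) ⊗ₜ[k₀] x) ∈ W := by
      have h := hkey 1
      rw [map_one, inv_one, map_one, one_mul, mul_one] at h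
      rw [h, LinearMap.mem_ker, bc2_tmul, hx, TensorProduct.tmul_zero, TensorProduct.tmul_zero]
    have h2' := hkey g⁻¹
    rw [h2', LinearMap.mem_ker, bc2_tmul, inv_inv] at h1
    have h5 : (fun v : V₀ => (1 : K) ⊗ₜ[k] ((1 : k) ⊗ₜ[k₀] v)) ((ρ₀ g⁻¹ * N₀ * ρ₀ g) x)
        = (fun v : V₀ => (1 : K) ⊗ₜ[k] ((1 : k) ⊗ₜ[k₀] v)) 0 := by
      simp only [h1, TensorProduct.tmul_zero]
    have h6 : (ρ₀ g⁻¹ * N₀ * ρ₀ g) x = 0 := tmul2_injective (k := k) (K := K) h5
    have h7 : ρ₀ g ((ρ₀ g⁻¹ * N₀ * ρ₀ g) x) = N₀ (ρ₀ g x) := by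
      have : ρ₀ g * (ρ₀ g⁻¹ * N₀ * ρ₀ g) = N₀ * ρ₀ g := by
        rw [← mul_assoc, ← mul_assoc, hinv', one_mul]
      exact LinearMap.congr_fun this x
    rw [← h7, h6, map_zero]
  rcases hirr _ hstab with h | h
  · -- `ker N₀ = ⊥` is impossible: `N₀ (N₀ v) = 0`
    apply hN₀ne
    ext v
    have h3 : N₀ v ∈ LinearMap.ker N₀ := by
      rw [LinearMap.mem_ker]
      exact LinearMap.congr_fun hu2 v
    rw [h, Submodule.mem_bot] at h3
    simpa using h3
  · apply hN₀ne
    ext v
    have : v ∈ LinearMap.ker N₀ := h ▸ Submodule.mem_top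
    simpa using this

end Tower

end Fermat.Agent.S59.H577

end
-- ===== PACK-END S59/H577/GTWLin.lean

-- ===== PACK-BEGIN S48/H548/QSeries.lean
section





/-!
# S48 / P0 (helper548): `q`-series of functions on the upper half plane

`HasQ F c` : `F τ = ∑ c n q^n` for all `τ` (`q = exp(2πiτ)`).  Nice functions (periodic,
holomorphic, bounded at `i∞`) have the `q`-series `qCoeff F`; `U_p` and `V_p = ∣ diag(p,1)` act
on `q`-series in the classical way (Prelude); a function is determined by its `q`-series.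
-/

set_option autoImplicit false

noncomputable section

namespace Fermat.Agent.S48.H548

open UpperHalfPlane ModularForm ModularFormClass Function
open scoped MatrixGroups ModularForm Manifold
open P2MW.S_UpperHalfPlane_qCoeff_heckeU

/-- `F` has the `q`-series `c`. -/
def HasQ (F : ℍ → ℂ) (c : ℕ → ℂ) : Prop :=
  ∀ τ : ℍ, HasSum (fun n : ℕ ↦ c n • Periodic.qParam 1 τ ^ n) (F τ)

/-- Periodic, holomorphic and bounded at `i∞`. -/
structure Nice (F : ℍ → ℂ) : Prop where
  per : Periodic (F ∘ ofComplex) 1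
  hol : MDiff F
  bdd : IsBoundedAtImInfty F

variable {F G : ℍ → ℂ} {c d : ℕ → ℂ}

theorem HasQ.add (hF : HasQ F c) (hG : HasQ G d) : HasQ (F + G) (fun n ↦ c n + d n) := by
  intro τ
  have := (hF τ).add (hG τ)
  simp only [← add_smul] at this
  exact this

theorem HasQ.sub (hF : HasQ F c) (hG : HasQ G d) : HasQ (F - G) (fun n ↦ c n - d n) := by
  intro τ
  have := (hF τ).sub (hG τ)
  simp only [← sub_smul] at this
  exact this

theorem HasQ.smul (a : ℂ) (hF : HasQ F c) : HasQ (a • F) (fun n ↦ a * c n) := by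
  intro τ
  simpa [mul_smul, smul_eq_mul, mul_assoc] using (hF τ).mul_left a

theorem HasQ.congr (hF : HasQ F c) (h : ∀ n, c n = d n) : HasQ F d := by
  have : c = d := funext h
  rwa [← this]

theorem HasQ.unique (hF : HasQ F c) (hG : HasQ G c) : F = G :=
  funext fun τ ↦ (hF τ).unique (hG τ)

theorem HasQ.eq_zero (hF : HasQ F c) (h : ∀ n, c n = 0) : F = 0 := by
  funext τ
  have := hF τ
  simp only [h, zero_smul] at this
  exact this.unique hasSum_zero

theorem Nice.hasQ (hF : Nice F) : HasQ F (qCoeff F) := fun τ ↦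
  hasSum_qExpansion one_pos hF.per hF.hol hF.bdd τ

theorem Nice.analyticAt (hF : Nice F) : AnalyticAt ℂ (cuspFunction 1 F) 0 :=
  analyticAt_cuspFunction_zero one_pos hF.per hF.hol hF.bdd

/-- The `q`-series of a nice function is unique. -/
theorem Nice.qCoeff_eq (hF : Nice F) (h : HasQ F c) (n : ℕ) : qCoeff F n = c n :=
  (M4cP1W2.qExpansion_coeff_unique' hF.hol.continuous hF.analyticAt h n).symm

theorem Nice.eq_zero_of_qCoeff (hF : Nice F) (h : ∀ n, qCoeff F n = 0) : F = 0 :=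
  hF.hasQ.eq_zero h

section Hecke

variable {p : ℕ} (hp : p ≠ 0) (k : ℤ)
include hp

theorem Nice.hasQ_heckeU (hF : Nice F) :
    HasQ (heckeU k p F) (fun n ↦ qCoeff F (n * p)) := fun τ ↦
  M4cP1W2.hasSum_heckeU hp hF.per hF.hol hF.bdd k τ

theorem Nice.hasQ_diag (hF : Nice F) :
    HasQ (F ∣[k] heckeDiagMatrix p)
      (fun n ↦ if p ∣ n then (p : ℂ) ^ (k - 1) * qCoeff F (n / p) else 0) := by
  intro τ
  rw [slash_heckeDiagMatrix_apply k hp]
  convert M4cP1W2.hasSum_diag hp hF.per hF.hol hF.bdd k τ using 2 with n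
  by_cases h : p ∣ n
  · simp only [if_pos h, smul_eq_mul]
  · simp only [if_neg h, zero_smul]

end Hecke

end Fermat.Agent.S48.H548

end
end
-- ===== PACK-END S48/H548/QSeries.lean

-- ===== PACK-BEGIN A3/H619/RatLoc.lean
section
/-
A3 / piece ORD (helper619): basic facts about `R = GaloisRep.ratLocalizedAt p ⊆ ℚ` (any `p`)
and about Galois-fixed elements of `ℚ̄`.
-/



set_option autoImplicit false

noncomputable section

namespace Fermat.Agent.A3.H619

open GaloisRep

/-- `ℚ̄`. -/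
abbrev Qb : Type := AlgebraicClosure ℚ

/-- `G_ℚ`. -/
abbrev GQ : Type := Qb ≃ₐ[ℚ] Qb

variable (p : ℕ)

theorem intCast_mem_ratLoc (n : ℤ) : (n : ℚ) ∈ ratLocalizedAt p := by
  show ((n : ℚ)).den.Coprime p
  simp

theorem natCast_mem_ratLoc (n : ℕ) : (n : ℚ) ∈ ratLocalizedAt p := by
  show ((n : ℚ)).den.Coprime p
  simp

theorem inv_den_mem_ratLoc (x : ratLocalizedAt p) : ((x.1.den : ℚ))⁻¹ ∈ ratLocalizedAt p := by
  show (((x.1.den : ℚ))⁻¹).den.Coprime p
  rw [Rat.inv_natCast_den, if_neg x.1.den_ne_zero]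
  exact x.2

/-- Every ideal of `ratLocalizedAt p` is principal. -/
instance isPrincipalIdealRing_ratLoc : IsPrincipalIdealRing (ratLocalizedAt p) := by
  refine ⟨fun I => ?_⟩
  -- the contraction to `ℤ`
  let f : ℤ →+* ratLocalizedAt p := Int.castRingHom _
  obtain ⟨n, hn⟩ : ∃ n : ℤ, I.comap f = Ideal.span {n} :=
    ⟨_, (Submodule.IsPrincipal.span_singleton_generator (I.comap f)).symm⟩
  refine ⟨⟨f n, ?_⟩⟩
  apply le_antisymm
  · intro x hx
    -- `x = num / den`
    have hden : (⟨(x.1.den : ℚ), natCast_mem_ratLoc p _⟩ : ratLocalizedAt p) * x = f x.1.num := by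
      apply Subtype.ext
      simp [f, Rat.den_mul_eq_num]
    have hnum : x.1.num ∈ I.comap f := by
      rw [Ideal.mem_comap, ← hden]
      exact I.mul_mem_left _ hx
    rw [hn, Ideal.mem_span_singleton] at hnum
    obtain ⟨k, hk⟩ := hnum
    have hx' : x = f n * (f k * ⟨((x.1.den : ℚ))⁻¹, inv_den_mem_ratLoc p x⟩) := by
      apply Subtype.ext
      have h1 : (x.1.den : ℚ) ≠ 0 := by exact_mod_cast x.1.den_ne_zero
      have h2 : x.1 = (x.1.num : ℚ) / (x.1.den : ℚ) := (Rat.num_div_den x.1).symm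
      simp only [f, Subring.coe_mul, eq_intCast, Subring.coe_intCast]
      rw [← mul_assoc, ← Int.cast_mul, ← hk]
      rw [← div_eq_mul_inv]
      exact h2
    rw [hx']
    exact Ideal.mul_mem_right _ _ (Ideal.subset_span (Set.mem_singleton (f n)))
  · rw [Submodule.span_le, Set.singleton_subset_iff]
    have : n ∈ I.comap f := by rw [hn]; exact Ideal.subset_span rfl
    exact this

theorem algebraMap_ratLoc_Qb_injective :
    Function.Injective (algebraMap (ratLocalizedAt p) Qb) := by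
  intro x y h
  apply Subtype.ext
  exact (algebraMap ℚ Qb).injective h

instance faithfulSMul_ratLoc_rat : FaithfulSMul (ratLocalizedAt p) ℚ :=
  (faithfulSMul_iff_algebraMap_injective _ _).mpr Subtype.val_injective

instance isFractionRing_ratLoc : IsFractionRing (ratLocalizedAt p) ℚ := by
  refine IsFractionRing.of_field (ratLocalizedAt p) ℚ fun z => ?_
  refine ⟨⟨(z.num : ℚ), intCast_mem_ratLoc p _⟩, ⟨(z.den : ℚ), natCast_mem_ratLoc p _⟩, ?_⟩
  show z = (z.num : ℚ) / (z.den : ℚ)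
  exact (Rat.num_div_den z).symm

/-- `ratLocalizedAt p` is integrally closed in `ℚ`. -/
theorem mem_ratLoc_of_isIntegral {x : ℚ} (hx : IsIntegral (ratLocalizedAt p) x) :
    x ∈ ratLocalizedAt p := by
  obtain ⟨y, rfl⟩ := IsIntegrallyClosed.isIntegral_iff.mp hx
  exact y.2

theorem isGalois_Qb : IsGalois ℚ Qb := by
  have : IsAlgClosure ℚ (AlgebraicClosure ℚ) :=
    ⟨inferInstance, AlgebraicClosure.isAlgebraic ℚ⟩
  exact IsAlgClosure.isGalois ℚ (AlgebraicClosure ℚ)

/-- An element of `ℚ̄` fixed by `G_ℚ` is rational. -/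
theorem exists_rat_of_fixed (x : Qb) (h : ∀ σ : GQ, σ x = x) :
    ∃ q : ℚ, algebraMap ℚ Qb q = x := by
  have := isGalois_Qb
  exact (InfiniteGalois.mem_range_algebraMap_iff_fixed x).mpr h

end Fermat.Agent.A3.H619

end
end
-- ===== PACK-END A3/H619/RatLoc.lean

-- ===== PACK-BEGIN S19/H439/InertiaLift.lean
section


/-!
# Cell A3 / GR: inertia-invariant lifts of residue constants (helper439)

`V` a valuation subring of a field `K`, `k` its residue field.

* `exists_rootOfUnity_lift`     : if `X ^ n - 1` splits in `K` then every `n`-th root of unity of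
                                  `k` is the residue of an `n`-th root of unity of `K` (lying in `V`).
* `rootOfUnity_eq_of_residue_eq`: if `n` is invertible in `k`, two `n`-th roots of unity of `K` with
                                  the same residue are equal.
* `exists_pow_eq_one_of_isAlgebraic` : a nonzero element of a field of characteristic `ℓ > 0`
                                  which is algebraic over `ZMod ℓ` is a root of unity of order
                                  prime to `ℓ`.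
* `isAlgebraic_residue`         : if `K / ℚ` is algebraic and `ℓ ∈ 𝔪_V` then `k` is algebraic over
                                  `ZMod ℓ`.
* `exists_inertia_fixed_lift`   : (**I_lift_const**) `K` algebraically closed and algebraic over
                                  `ℚ`, `ℓ ∈ 𝔪_V`: every `c ∈ k` has a lift `a ∈ V` which is fixed by
                                  every ring endomorphism `σ` of `K` with `σ b - b ∈ 𝔪_V` for all
                                  `b ∈ V` (in particular by the inertia group of `V`).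
-/

set_option autoImplicit false

noncomputable section

open Polynomial IsLocalRing

namespace Fermat.Agent.S19.H439

variable {K : Type*} [Field K] (V : ValuationSubring K)

/-- A root of unity lies in every valuation subring. -/
theorem mem_of_pow_eq_one {ζ : K} {n : ℕ} (hn : n ≠ 0) (h : ζ ^ n = 1) : ζ ∈ V := by
  rcases V.mem_or_inv_mem ζ with h1 | h1
  · exact h1
  · have : ζ = (ζ⁻¹) ^ (n - 1) := by
      have e : ζ * ζ ^ (n - 1) = 1 := by
        rw [← pow_succ', Nat.sub_add_cancel (Nat.pos_of_ne_zero hn)]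
        exact h
      rw [inv_pow]
      exact eq_inv_of_mul_eq_one_left e
    rw [this]
    exact pow_mem h1 _

/-- Residues of elements of `K` lying in `V`. -/
def resOf (a : K) (ha : a ∈ V) : ResidueField V := residue V ⟨a, ha⟩

theorem resOf_eq_iff {a b : K} (ha : a ∈ V) (hb : b ∈ V) :
    resOf V a ha = resOf V b hb ↔ a - b ∈ V.nonunits := by
  unfold resOf
  rw [← sub_eq_zero, ← map_sub, residue_eq_zero_iff, ← V.coe_mem_nonunits_iff]
  rfl

/-- If `n` is invertible in the residue field, two `n`-th roots of unity with the same residue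
are equal. -/
theorem rootOfUnity_eq_of_residue_eq {n : ℕ} (hn : (n : ResidueField V) ≠ 0) {ζ ζ' : K}
    (hζ : ζ ^ n = 1) (hζ' : ζ' ^ n = 1) (h : ζ - ζ' ∈ V.nonunits) : ζ = ζ' := by
  have hn0 : n ≠ 0 := by
    rintro rfl
    exact hn (by simp)
  have hζ'0 : ζ' ≠ 0 := by
    rintro rfl
    rw [zero_pow hn0] at hζ'
    exact zero_ne_one hζ'
  have hζ'V : ζ' ∈ V := mem_of_pow_eq_one V hn0 hζ'
  have hζV : ζ ∈ V := mem_of_pow_eq_one V hn0 hζ
  -- `u = ζ / ζ'`
  set u : K := ζ / ζ' with hu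
  have hun : u ^ n = 1 := by rw [hu, div_pow, hζ, hζ', div_one]
  have huV : u ∈ V := mem_of_pow_eq_one V hn0 hun
  have hζ'inv : ζ'⁻¹ ∈ V := mem_of_pow_eq_one V hn0 (by rw [inv_pow, hζ', inv_one])
  have hu1 : u - 1 ∈ V.nonunits := by
    have e : u - 1 = (ζ - ζ') * ζ'⁻¹ := by
      rw [hu]; field_simp
    rw [e]
    have hmax : (⟨ζ, hζV⟩ - ⟨ζ', hζ'V⟩ : V) ∈ maximalIdeal V := by
      rw [← V.coe_mem_nonunits_iff]
      exact h
    have hmul := Ideal.mul_mem_right (⟨ζ'⁻¹, hζ'inv⟩ : V) _ hmax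
    rw [← V.coe_mem_nonunits_iff] at hmul
    exact hmul
  by_contra hne
  have hune : u ≠ 1 := by
    intro h1
    apply hne
    rw [hu, div_eq_one_iff_eq hζ'0] at h1
    exact h1
  -- geometric sum
  have hgeom : ∑ i ∈ Finset.range n, u ^ i = 0 := by
    have := mul_neg_geom_sum u n
    rw [hun, sub_self] at this
    rcases mul_eq_zero.mp this with h1 | h1
    · exact absurd (sub_eq_zero.mp h1).symm hune
    · exact h1
  -- reduce
  let uV : V := ⟨u, huV⟩
  have hres : residue V uV = 1 := by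
    rw [← sub_eq_zero, ← map_one (residue V), ← map_sub, residue_eq_zero_iff,
      ← V.coe_mem_nonunits_iff]
    exact hu1
  have hsumV : ∑ i ∈ Finset.range n, uV ^ i = 0 := by
    apply Subtype.ext
    push_cast
    exact hgeom
  have := congrArg (residue V) hsumV
  rw [map_sum, map_zero] at this
  simp only [map_pow, hres, one_pow, Finset.sum_const, Finset.card_range, nsmul_eq_mul,
    mul_one] at this
  exact hn this

/-- If `X ^ n - 1` splits in `K`, every `n`-th root of unity of the residue field is the residue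
of an `n`-th root of unity of `K`. -/
theorem exists_rootOfUnity_lift [IsAlgClosed K] {n : ℕ} (hn : n ≠ 0) {c : ResidueField V}
    (hc : c ^ n = 1) :
    ∃ (ζ : K) (hζ : ζ ∈ V), ζ ^ n = 1 ∧ residue V ⟨ζ, hζ⟩ = c := by
  classical
  -- factor `X ^ n - 1` over `K`
  have hsplit : (X ^ n - 1 : K[X]).Splits := IsAlgClosed.splits _
  have hmonic : (X ^ n - 1 : K[X]).Monic := monic_X_pow_sub_C 1 hn
  have hprod := hsplit.eq_prod_roots_of_monic hmonic
  set s := (X ^ n - 1 : K[X]).roots with hs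
  have hroot : ∀ ζ ∈ s, ζ ^ n = 1 := by
    intro ζ hζ
    have := (mem_roots hmonic.ne_zero).mp hζ
    simpa [sub_eq_zero] using this
  have hmemV : ∀ ζ ∈ s, ζ ∈ V := fun ζ hζ => mem_of_pow_eq_one V hn (hroot ζ hζ)
  -- the multiset of roots, as elements of `V`
  let t : Multiset V := s.pmap (fun ζ h => (⟨ζ, h⟩ : V)) hmemV
  have ht : t.map (fun a : V => (a : K)) = s := by
    simp only [t]
    rw [Multiset.map_pmap, Multiset.pmap_eq_map, Multiset.map_id']
  have hprodV : (X ^ n - 1 : V[X]) = (t.map fun a => X - C a).prod := by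
    apply Polynomial.map_injective V.subtype Subtype.val_injective
    rw [Polynomial.map_sub, Polynomial.map_pow, Polynomial.map_X, Polynomial.map_one,
      Polynomial.map_multiset_prod, Multiset.map_map]
    conv_lhs => rw [hprod]
    rw [← ht, Multiset.map_map]
    congr 1
    apply Multiset.map_congr rfl
    intro a _
    simp
  have hprodk : (X ^ n - 1 : (ResidueField V)[X])
      = (t.map fun a => X - C (residue V a)).prod := by
    have := congrArg (Polynomial.map (residue V)) hprodV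
    rw [Polynomial.map_sub, Polynomial.map_pow, Polynomial.map_X, Polynomial.map_one,
      Polynomial.map_multiset_prod, Multiset.map_map] at this
    rw [this]
    congr 1
    apply Multiset.map_congr rfl
    intro a _
    simp
  have hev : ((t.map fun a => X - C (residue V a)).prod).eval c = 0 := by
    rw [← hprodk]
    simp [hc]
  rw [Polynomial.eval_multiset_prod, Multiset.prod_eq_zero_iff, Multiset.map_map] at hev
  obtain ⟨a, ha, hac⟩ := Multiset.mem_map.mp hev
  simp only [Function.comp_apply, eval_sub, eval_X, eval_C] at hac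
  have hat : (a : K) ∈ s := by
    rw [← ht]
    exact Multiset.mem_map_of_mem _ ha
  refine ⟨a, a.2, hroot _ hat, ?_⟩
  have : residue V a = c := (sub_eq_zero.mp hac).symm
  exact this

/-- A nonzero element of a field of characteristic `ℓ`, algebraic over `ZMod ℓ`, is a root of
unity of order prime to `ℓ`. -/
theorem exists_pow_eq_one_of_isAlgebraic {k : Type*} [Field k] {ℓ : ℕ} [Fact ℓ.Prime]
    [Algebra (ZMod ℓ) k] {c : k} (hc : c ≠ 0) (halg : IsAlgebraic (ZMod ℓ) c) :
    ∃ n : ℕ, n ≠ 0 ∧ (n : k) ≠ 0 ∧ c ^ n = 1 := by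
  classical
  let E := IntermediateField.adjoin (ZMod ℓ) {c}
  have : FiniteDimensional (ZMod ℓ) E :=
    IntermediateField.adjoin.finiteDimensional halg.isIntegral
  have : Finite E := Module.finite_of_finite (ZMod ℓ)
  let _ : Fintype E := Fintype.ofFinite E
  let cE : E := ⟨c, IntermediateField.mem_adjoin_simple_self (ZMod ℓ) c⟩
  have hcE : cE ≠ 0 := fun h => hc (congrArg Subtype.val h)
  have hpow := FiniteField.pow_card_sub_one_eq_one cE hcE
  have hcard0 : ((Fintype.card E : ℕ) : E) = 0 := FiniteField.cast_card_eq_zero E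
  have hcard1 : 1 < Fintype.card E := Fintype.one_lt_card
  refine ⟨Fintype.card E - 1, by omega, ?_, ?_⟩
  · have h1 : ((Fintype.card E - 1 : ℕ) : E) = -1 := by
      rw [Nat.cast_sub hcard1.le, hcard0, Nat.cast_one, zero_sub]
    intro h0
    have h2 : ((Fintype.card E - 1 : ℕ) : k) = algebraMap E k ((Fintype.card E - 1 : ℕ) : E) := by
      rw [map_natCast]
    rw [h2, h1, map_neg, map_one] at h0
    exact one_ne_zero (neg_eq_zero.mp h0)
  · have := congrArg (algebraMap E k) hpow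
    rw [map_pow, map_one] at this
    exact this

section Residue

variable {ℓ : ℕ} [Fact ℓ.Prime]

omit [Fact ℓ.Prime] in
/-- The residue field of a valuation ring containing `ℓ` in its maximal ideal has
characteristic `ℓ`. -/
theorem natCast_residue_eq_zero' (hℓ : (ℓ : K) ∈ V.nonunits) : ((ℓ : ℕ) : ResidueField V) = 0 := by
  have h1 : ((ℓ : V) : K) ∈ V.nonunits := by
    have : ((ℓ : V) : K) = (ℓ : K) := by simp
    rw [this]; exact hℓ
  have h2 : (ℓ : V) ∈ maximalIdeal V := V.coe_mem_nonunits_iff.mp h1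
  have h3 := (residue_eq_zero_iff (ℓ : V)).mpr h2
  rwa [map_natCast] at h3

theorem charP_residueField (hℓ : (ℓ : K) ∈ V.nonunits) : CharP (ResidueField V) ℓ := by
  obtain ⟨p, hp⟩ := CharP.exists (ResidueField V)
  have hdvd : p ∣ ℓ := (CharP.cast_eq_zero_iff (ResidueField V) p ℓ).mp
    (natCast_residue_eq_zero' V hℓ)
  rcases (Nat.dvd_prime (Fact.out : ℓ.Prime)).mp hdvd with h1 | h1
  · subst h1
    exact absurd rfl (CharP.char_ne_one (ResidueField V) 1)
  · subst h1
    exact hp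

/-- If `K` is algebraic over `ℚ`, every residue is a root of a polynomial with integer
coefficients which is nonzero modulo `ℓ`. -/
theorem exists_int_poly_residue [Algebra ℚ K] [Algebra.IsAlgebraic ℚ K] (a : K) (ha : a ∈ V) :
    ∃ q : ℤ[X], q.map (Int.castRingHom (ZMod ℓ)) ≠ 0 ∧
      q.eval₂ (Int.castRingHom (ResidueField V)) (residue V ⟨a, ha⟩) = 0 := by
  have hcz : CharZero K := charZero_of_injective_algebraMap (algebraMap ℚ K).injective
  have halg : IsAlgebraic ℚ a := Algebra.IsAlgebraic.isAlgebraic a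
  have halgZ : IsAlgebraic ℤ a := (IsFractionRing.isAlgebraic_iff ℤ ℚ K).mpr halg
  obtain ⟨p, hp0, hpa⟩ := halgZ
  have hq := Polynomial.aeval_primPart_eq_zero hp0 hpa
  refine ⟨p.primPart, ?_, ?_⟩
  · intro h0
    have hdvd : C (ℓ : ℤ) ∣ p.primPart := by
      rw [Polynomial.C_dvd_iff_dvd_coeff]
      intro i
      have := congrArg (fun r => Polynomial.coeff r i) h0
      simp only [coeff_map, coeff_zero, eq_intCast] at this
      exact (ZMod.intCast_zmod_eq_zero_iff_dvd _ _).mp this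
    have hu := (Polynomial.isPrimitive_primPart p) _ hdvd
    have hprime : Prime (ℓ : ℤ) := Nat.prime_iff_prime_int.mp (Fact.out : ℓ.Prime)
    exact hprime.not_isUnit hu
  · -- evaluate in `V`, then reduce
    have h1 : V.subtype (p.primPart.eval₂ (Int.castRingHom V) (⟨a, ha⟩ : V))
        = p.primPart.eval₂ (Int.castRingHom K) a := by
      rw [Polynomial.hom_eval₂ p.primPart (Int.castRingHom V) V.subtype (⟨a, ha⟩ : V)]
      have e : V.subtype.comp (Int.castRingHom V) = Int.castRingHom K := RingHom.ext_int _ _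
      rw [e]
      rfl
    have h2 : p.primPart.eval₂ (Int.castRingHom K) a = 0 := by
      rw [← hq, Polynomial.aeval_def]
      have e : algebraMap ℤ K = Int.castRingHom K := RingHom.ext_int _ _
      rw [e]
    have hinj : Function.Injective V.subtype := fun x y h => Subtype.ext h
    have h3 : p.primPart.eval₂ (Int.castRingHom V) (⟨a, ha⟩ : V) = 0 :=
      hinj ((h1.trans h2).trans (map_zero V.subtype).symm)
    have h4 := congrArg (residue V) h3
    rw [map_zero, Polynomial.hom_eval₂] at h4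
    have e : (residue V).comp (Int.castRingHom V) = Int.castRingHom (ResidueField V) :=
      RingHom.ext_int _ _
    rw [e] at h4
    exact h4

/-- **Inertia-invariant lifts of residue constants** (`I_lift_const`).  Let `K` be algebraically
closed and algebraic over `ℚ`, `V` a valuation subring with `ℓ ∈ 𝔪_V`.  Every element of the
residue field has a lift `a ∈ V` (namely `0` or a root of unity of order prime to `ℓ`) which is
fixed by every ring endomorphism `σ` of `K` with `σ b ≡ b mod 𝔪_V` for all `b ∈ V`. -/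
theorem exists_inertia_fixed_lift [IsAlgClosed K] [Algebra ℚ K] [Algebra.IsAlgebraic ℚ K]
    (hℓ : (ℓ : K) ∈ V.nonunits) (c : ResidueField V) :
    ∃ (a : K) (ha : a ∈ V), residue V ⟨a, ha⟩ = c ∧
      ∀ σ : K →+* K, (∀ b ∈ V, σ b - b ∈ V.nonunits) → σ a = a := by
  by_cases hc : c = 0
  · refine ⟨0, V.zero_mem, ?_, fun σ _ => map_zero σ⟩
    rw [hc]
    exact map_zero (residue V)
  have hchar := charP_residueField V hℓ
  let _ : Algebra (ZMod ℓ) (ResidueField V) := ZMod.algebra _ ℓ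
  obtain ⟨a₀, rfl⟩ := residue_surjective (R := V) c
  obtain ⟨q, hq0, hq⟩ := exists_int_poly_residue (ℓ := ℓ) V (a₀ : K) a₀.2
  have halg : IsAlgebraic (ZMod ℓ) (residue V a₀) := by
    refine ⟨q.map (Int.castRingHom (ZMod ℓ)), hq0, ?_⟩
    rw [Polynomial.aeval_def, Polynomial.eval₂_map]
    rw [← hq]
    congr 1
    exact RingHom.ext_int _ _
  obtain ⟨n, hn0, hnk, hpow⟩ := exists_pow_eq_one_of_isAlgebraic (ℓ := ℓ) hc halg
  obtain ⟨ζ, hζV, hζn, hζc⟩ := exists_rootOfUnity_lift V hn0 hpow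
  refine ⟨ζ, hζV, hζc, fun σ hσ => ?_⟩
  have h1 : (σ ζ) ^ n = 1 := by rw [← map_pow, hζn, map_one]
  exact rootOfUnity_eq_of_residue_eq V hnk h1 hζn (hσ ζ hζV)

end Residue

end Fermat.Agent.S19.H439

end
end
-- ===== PACK-END S19/H439/InertiaLift.lean

-- ===== PACK-BEGIN S37/H448/AscentAbs.lean
section



/-!
# S37 / RED-E4(c) (helper448): geometric normality ascends along algebraic extensions of a
perfect field — abstract q-series form

Setting: `k₀` a perfect field, `k / k₀` an algebraic extension with `k` algebraically closed,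
`ι : k₀((q)) → k((q))` the coefficientwise embedding, `X ∈ k₀((q))` a coordinate.
Integrality over `R[X]` inside `R((q))` is `(evalSer R X).IsIntegralElem z`
(`evalSer R X : R[T] →+* R((q))`, `T ↦ X`; this is the shape of `Core.IntElt.IsFin`).

Main result `exists_integral_decomp`:
if `z = ∑ C (e i) * ι (w i)` with `w i` in a `k₀`-subspace `F₀ ⊆ k₀((q))` (a set closed under
`0`, `+` and multiplication by constants `C c`) and `z` is integral
over `k[ι X]`, then `z = ∑ C (e' j) * ι (w' j)` with `w' j ∈ F₀` **integral over `k₀[X]`**.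

Proof: `k' := k₀(e i)` is finite separable over `k₀`; take a basis `b` of `k'/k₀`, its dual basis
`d` for the trace form, rewrite `z = ∑ C (b j) * ι (w' j)`; then
`ι (w' j) = ∑_σ C (σ (d j)) * σ̂ z` (sum over the embeddings `σ : k' → k`, `σ̂` an extension of
`σ` to `k`, acting coefficientwise), a sum of products of integral elements; finally integrality
descends from `k[ι X]` to `k₀[X]` because `k[T]` is integral over `k₀[T]` and `ι` is injective.
-/

set_option autoImplicit false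
set_option linter.style.haveILetI false
set_option linter.unusedSimpArgs false

noncomputable section

namespace Fermat.Agent.S37.H448

open HahnSeries ModularCurve Polynomial

/-- evaluation `R[T] → R((q))`, `T ↦ u` (same term as `Core.evalSeries`) -/
def evalSer (R : Type*) [CommRing R] (u : LaurentSeries R) :
    Polynomial R →+* LaurentSeries R :=
  Polynomial.eval₂RingHom (HahnSeries.C : R →+* LaurentSeries R) u

section Basic

variable {R S : Type*} [CommRing R] [CommRing S]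

theorem coeffMap_C' (f : R →+* S) (r : R) :
    coeffMap f (HahnSeries.C r) = HahnSeries.C (f r) := by
  show coeffMap f (HahnSeries.single 0 r) = HahnSeries.single 0 (f r)
  exact coeffMap_single f 0 r

theorem coeffMap_injective' {f : R →+* S} (hf : Function.Injective f) :
    Function.Injective (coeffMap f) := by
  intro x y h
  ext n
  apply hf
  have := congrArg (fun s => s.coeff n) h
  simpa using this

theorem evalSer_C (u : LaurentSeries R) (r : R) :
    evalSer R u (Polynomial.C r) = HahnSeries.C r := by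
  simp [evalSer]

theorem evalSer_X (u : LaurentSeries R) : evalSer R u Polynomial.X = u := by
  simp [evalSer]

/-- base change of the evaluation map -/
theorem coeffMap_comp_evalSer (f : R →+* S) (u : LaurentSeries R) :
    (coeffMap f).comp (evalSer R u) =
      (evalSer S (coeffMap f u)).comp (Polynomial.mapRingHom f) := by
  apply Polynomial.ringHom_ext
  · intro r
    simp [evalSer_C, coeffMap_C']
  · simp [evalSer_X]

/-- integrality is preserved by coefficient maps -/
theorem isIntegralElem_coeffMap (f : R →+* S) {u z : LaurentSeries R}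
    (h : (evalSer R u).IsIntegralElem z) :
    (evalSer S (coeffMap f u)).IsIntegralElem (coeffMap f z) := by
  obtain ⟨p, hp, hz⟩ := h
  refine ⟨p.map (Polynomial.mapRingHom f), hp.map _, ?_⟩
  rw [Polynomial.eval₂_map, ← coeffMap_comp_evalSer, ← Polynomial.hom_eval₂, hz, map_zero]

theorem isIntegralElem_C (u : LaurentSeries R) (r : R) :
    (evalSer R u).IsIntegralElem (HahnSeries.C r) := by
  rw [← evalSer_C u r]
  exact RingHom.isIntegralElem_map _

theorem isIntegralElem_sum (g : Polynomial R →+* LaurentSeries R) {ι : Type*} (s : Finset ι)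
    (f : ι → LaurentSeries R) (h : ∀ i ∈ s, g.IsIntegralElem (f i)) :
    g.IsIntegralElem (∑ i ∈ s, f i) := by
  classical
  induction s using Finset.induction_on with
  | empty =>
    rw [Finset.sum_empty]
    exact g.isIntegralElem_zero
  | insert a s ha ih =>
    rw [Finset.sum_insert ha]
    exact RingHom.IsIntegralElem.add g (h a (Finset.mem_insert_self a s))
      (ih fun i hi => h i (Finset.mem_insert_of_mem hi))

end Basic

section Descent

variable {k₀ k : Type*} [Field k₀] [Field k] [Algebra k₀ k]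

/-- `k[T]` is integral over `k₀[T]` when `k / k₀` is algebraic -/
theorem mapRingHom_isIntegral [Algebra.IsAlgebraic k₀ k] :
    (Polynomial.mapRingHom (algebraMap k₀ k)).IsIntegral := by
  intro p
  induction p using Polynomial.induction_on' with
  | add p q hp hq => exact RingHom.IsIntegralElem.add _ hp hq
  | monomial n a =>
    have ha : (Polynomial.mapRingHom (algebraMap k₀ k)).IsIntegralElem (Polynomial.C a) := by
      obtain ⟨m, hm, hma⟩ := (Algebra.IsAlgebraic.isAlgebraic (R := k₀) a).isIntegral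
      refine ⟨m.map (Polynomial.C : k₀ →+* Polynomial k₀), hm.map _, ?_⟩
      rw [Polynomial.eval₂_map]
      have hcomp : (Polynomial.mapRingHom (algebraMap k₀ k)).comp (Polynomial.C : k₀ →+* _) =
          (Polynomial.C : k →+* Polynomial k).comp (algebraMap k₀ k) := by
        ext r
        simp
      rw [hcomp, ← Polynomial.hom_eval₂, hma, map_zero]
    have hX : (Polynomial.mapRingHom (algebraMap k₀ k)).IsIntegralElem
        (Polynomial.X ^ n : Polynomial k) := by
      have : (Polynomial.X ^ n : Polynomial k) =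
          Polynomial.mapRingHom (algebraMap k₀ k) (Polynomial.X ^ n) := by simp
      rw [this]
      exact RingHom.isIntegralElem_map _
    rw [← Polynomial.C_mul_X_pow_eq_monomial]
    exact RingHom.IsIntegralElem.mul _ ha hX

/-- integrality descends from `k[ι X]` to `k₀[X]` -/
theorem isIntegralElem_descent [Algebra.IsAlgebraic k₀ k] {X w : LaurentSeries k₀}
    (h : (evalSer k (coeffMap (algebraMap k₀ k) X)).IsIntegralElem
      (coeffMap (algebraMap k₀ k) w)) :
    (evalSer k₀ X).IsIntegralElem w := by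
  set f := evalSer k (coeffMap (algebraMap k₀ k) X) with hf
  set g := Polynomial.mapRingHom (algebraMap k₀ k) with hg
  have hfg : (f.comp g).IsIntegralElem (coeffMap (algebraMap k₀ k) w) := by
    letI : Algebra (Polynomial k₀) (Polynomial k) := g.toAlgebra
    letI : Algebra (Polynomial k) (LaurentSeries k) := f.toAlgebra
    letI : Algebra (Polynomial k₀) (LaurentSeries k) := (f.comp g).toAlgebra
    haveI : IsScalarTower (Polynomial k₀) (Polynomial k) (LaurentSeries k) :=
      IsScalarTower.of_algebraMap_eq fun _ => rfl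
    haveI : Algebra.IsIntegral (Polynomial k₀) (Polynomial k) := ⟨mapRingHom_isIntegral⟩
    exact isIntegral_trans (R := Polynomial k₀) (A := Polynomial k) _ h
  obtain ⟨P, hP, hPz⟩ := hfg
  refine ⟨P, hP, ?_⟩
  have hcomp : f.comp g = (coeffMap (algebraMap k₀ k)).comp (evalSer k₀ X) :=
    (coeffMap_comp_evalSer (algebraMap k₀ k) X).symm
  rw [hcomp, ← Polynomial.hom_eval₂] at hPz
  exact coeffMap_injective' (algebraMap k₀ k).injective (hPz.trans (map_zero _).symm)

end Descent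

section Main

variable {k₀ k : Type*} [Field k₀] [Field k] [Algebra k₀ k]

theorem coeffMap_smul_eq (c : k₀) (w : LaurentSeries k₀) :
    coeffMap (algebraMap k₀ k) (c • w) =
      HahnSeries.C (algebraMap k₀ k c) * coeffMap (algebraMap k₀ k) w := by
  rw [← HahnSeries.C_mul_eq_smul, map_mul, coeffMap_C']

/-- **Geometric normality ascent, abstract form.**  If `z = ∑ C (e i) * ι (w i)` with `w i` in
the set `F₀` (closed under `k₀`-linear combinations) is integral over `k[ι X]`, then `z = ∑ C (e' j) * ι (w' j)` with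
`w' j ∈ F₀` integral over `k₀[X]`. -/
theorem exists_integral_decomp [PerfectField k₀] [IsAlgClosed k] [Algebra.IsAlgebraic k₀ k]
    (F₀ : Set (LaurentSeries k₀)) (h0 : (0 : LaurentSeries k₀) ∈ F₀)
    (hadd : ∀ x y : LaurentSeries k₀, x ∈ F₀ → y ∈ F₀ → x + y ∈ F₀)
    (hC : ∀ (c : k₀) (x : LaurentSeries k₀), x ∈ F₀ → HahnSeries.C c * x ∈ F₀)
    (X : LaurentSeries k₀)
    {m : ℕ} (e : Fin m → k) (w : Fin m → LaurentSeries k₀) (hw : ∀ i, w i ∈ F₀)
    (hint : (evalSer k (coeffMap (algebraMap k₀ k) X)).IsIntegralElem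
      (∑ i, HahnSeries.C (e i) * coeffMap (algebraMap k₀ k) (w i))) :
    ∃ (n : ℕ) (e' : Fin n → k) (w' : Fin n → LaurentSeries k₀),
      (∀ j, w' j ∈ F₀) ∧ (∀ j, (evalSer k₀ X).IsIntegralElem (w' j)) ∧
      ∑ i, HahnSeries.C (e i) * coeffMap (algebraMap k₀ k) (w i) =
        ∑ j, HahnSeries.C (e' j) * coeffMap (algebraMap k₀ k) (w' j) := by
  classical
  set z := ∑ i, HahnSeries.C (e i) * coeffMap (algebraMap k₀ k) (w i) with hz
  -- the finite subextension generated by the `e i`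
  let k' : IntermediateField k₀ k := IntermediateField.adjoin k₀ (Set.range e)
  haveI : FiniteDimensional k₀ k' :=
    IntermediateField.finiteDimensional_adjoin
      (fun x _ => (Algebra.IsAlgebraic.isAlgebraic (R := k₀) x).isIntegral)
  haveI : Algebra.IsSeparable k₀ k' := Algebra.IsAlgebraic.isSeparable_of_perfectField
  haveI : IsAlgClosure k₀ k := ⟨inferInstance, inferInstance⟩
  haveI : Normal k₀ k := IsAlgClosure.normal k₀ k
  let b : Module.Basis (Fin (Module.finrank k₀ k')) k₀ k' := Module.finBasis k₀ k'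
  let d : Module.Basis (Fin (Module.finrank k₀ k')) k₀ k' :=
    (Algebra.traceForm k₀ k').dualBasis (traceForm_nondegenerate k₀ k') b
  have he : ∀ i, e i ∈ k' := fun i => IntermediateField.subset_adjoin k₀ _ ⟨i, rfl⟩
  let c : Fin m → Fin (Module.finrank k₀ k') → k₀ := fun i j => b.repr ⟨e i, he i⟩ j
  have hc : ∀ i, e i = ∑ j, algebraMap k₀ k (c i j) * ((b j : k') : k) := by
    intro i
    have h1 := b.sum_repr ⟨e i, he i⟩
    have h2 := congrArg (fun x : k' => (x : k)) h1
    simp only [AddSubmonoidClass.coe_finsetSum] at h2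
    rw [← h2]
    refine Finset.sum_congr rfl fun j _ => ?_
    rw [IntermediateField.coe_smul, Algebra.smul_def]
  let w' : Fin (Module.finrank k₀ k') → LaurentSeries k₀ :=
    fun j => ∑ i, HahnSeries.C (c i j) * w i
  have hw' : ∀ j, w' j ∈ F₀ := fun j =>
    Finset.sum_induction _ (fun x => x ∈ F₀) hadd h0 fun i _ => hC _ _ (hw i)
  have hzw' : z = ∑ j, HahnSeries.C ((b j : k') : k) * coeffMap (algebraMap k₀ k) (w' j) := by
    have h1 : ∀ j, HahnSeries.C ((b j : k') : k) * coeffMap (algebraMap k₀ k) (w' j) =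
        ∑ i, HahnSeries.C (algebraMap k₀ k (c i j) * ((b j : k') : k)) *
          coeffMap (algebraMap k₀ k) (w i) := by
      intro j
      rw [map_sum, Finset.mul_sum]
      refine Finset.sum_congr rfl fun i _ => ?_
      rw [map_mul, coeffMap_C', map_mul]
      ring
    rw [Finset.sum_congr rfl fun j _ => h1 j, Finset.sum_comm, hz]
    refine Finset.sum_congr rfl fun i _ => ?_
    rw [← Finset.sum_mul, ← map_sum, ← hc i]
  -- the conjugates of `z`
  have hconj : ∀ σ : k' →ₐ[k₀] k,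
      coeffMap ((σ.liftNormal k : k →ₐ[k₀] k) : k →+* k) z =
        ∑ i, HahnSeries.C (σ (b i)) * coeffMap (algebraMap k₀ k) (w' i) := by
    intro σ
    rw [hzw', map_sum]
    refine Finset.sum_congr rfl fun i _ => ?_
    rw [map_mul, coeffMap_C', coeffMap_coeffMap]
    have h1 : ((σ.liftNormal k : k →ₐ[k₀] k) : k →+* k) ((b i : k') : k) = σ (b i) :=
      AlgHom.liftNormal_commutes σ k (b i)
    have h2 : (((σ.liftNormal k : k →ₐ[k₀] k) : k →+* k).comp (algebraMap k₀ k)) =
        algebraMap k₀ k := by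
      ext r
      exact (σ.liftNormal k).commutes r
    rw [h1, h2]
  have key : ∀ j, coeffMap (algebraMap k₀ k) (w' j) =
      ∑ σ : k' →ₐ[k₀] k, HahnSeries.C (σ (d j)) *
        coeffMap ((σ.liftNormal k : k →ₐ[k₀] k) : k →+* k) z := by
    intro j
    have h1 : ∀ σ : k' →ₐ[k₀] k, HahnSeries.C (σ (d j)) *
        coeffMap ((σ.liftNormal k : k →ₐ[k₀] k) : k →+* k) z =
        ∑ i, HahnSeries.C (σ (d j * b i)) * coeffMap (algebraMap k₀ k) (w' i) := by
      intro σ
      rw [hconj σ, Finset.mul_sum]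
      refine Finset.sum_congr rfl fun i _ => ?_
      rw [map_mul, map_mul, mul_assoc]
    rw [Finset.sum_congr rfl fun σ _ => h1 σ, Finset.sum_comm]
    have h2 : ∀ i, ∑ σ : k' →ₐ[k₀] k, HahnSeries.C (σ (d j * b i)) *
        coeffMap (algebraMap k₀ k) (w' i) =
        if i = j then coeffMap (algebraMap k₀ k) (w' i) else 0 := by
      intro i
      rw [← Finset.sum_mul, ← map_sum, ← trace_eq_sum_embeddings k, ← Algebra.traceForm_apply,
        LinearMap.BilinForm.apply_dualBasis_left]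
      split_ifs with h
      · rw [map_one, map_one, one_mul]
      · rw [map_zero, map_zero, zero_mul]
    rw [Finset.sum_congr rfl fun i _ => h2 i, Finset.sum_ite_eq' Finset.univ j]
    simp
  refine ⟨Module.finrank k₀ k', fun j => ((b j : k') : k), w', hw', ?_, hzw'⟩
  intro j
  apply isIntegralElem_descent (k := k)
  rw [key j]
  refine isIntegralElem_sum _ _ _ fun σ _ =>
    RingHom.IsIntegralElem.mul _ (isIntegralElem_C _ _) ?_
  have h3 := isIntegralElem_coeffMap ((σ.liftNormal k : k →ₐ[k₀] k) : k →+* k) hint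
  have h4 : (((σ.liftNormal k : k →ₐ[k₀] k) : k →+* k).comp (algebraMap k₀ k)) =
      algebraMap k₀ k := by
    ext r
    exact (σ.liftNormal k).commutes r
  rwa [coeffMap_coeffMap, h4] at h3

end Main

end Fermat.Agent.S37.H448

end
end
-- ===== PACK-END S37/H448/AscentAbs.lean

-- ===== PACK-BEGIN S29/M4b/H89/PRoot.lean
section
/-
S29 row, layer M, sub-layer M4b — lemma PROOT (helper89), used by piece K4-UNIQ.

`exists_coeffMap_eq_of_pow` : let `ι : K →+* L` be a homomorphism of fields, `K` algebraically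
closed, `p` a natural number invertible in `K`.  If the `p`-th power of a Laurent series `b` over
`L` has all its coefficients in `ι K`, then so has `b`:  `b ^ p = coeffMap ι w → ∃ v, coeffMap ι v = b`.

Proof: reduce to power series with nonzero constant term; the constant term is a `p`-th root of an
element of `ι K`, hence in `ι K`; then induction on the index, comparing the coefficients of
`(P + X^m R)^p = P^p + p P^(p-1) X^m R + k X^(2m) R^2`.
Mathlib + Prelude `coeffMap` only.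
-/



set_option autoImplicit false

noncomputable section

namespace Fermat.Agent.S29.M4b.H89.PRoot

open PowerSeries ModularCurve

section PS

variable {L : Type*} [Field L]

/-- Power series all of whose coefficients lie in a subfield. -/
def coeffSubring (S : Subfield L) : Subring (PowerSeries L) where
  carrier := {B | ∀ n, PowerSeries.coeff n B ∈ S}
  mul_mem' := by
    intro B C hB hC n
    rw [PowerSeries.coeff_mul]
    exact S.sum_mem fun x _ => S.mul_mem (hB _) (hC _)
  one_mem' := by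
    intro n
    rw [PowerSeries.coeff_one]
    split_ifs
    · exact S.one_mem
    · exact S.zero_mem
  add_mem' := by
    intro B C hB hC n
    rw [map_add]
    exact S.add_mem (hB _) (hC _)
  zero_mem' := by
    intro n
    rw [map_zero]
    exact S.zero_mem
  neg_mem' := by
    intro B hB n
    rw [map_neg]
    exact S.neg_mem (hB _)

theorem mem_coeffSubring {S : Subfield L} {B : PowerSeries L} :
    B ∈ coeffSubring S ↔ ∀ n, PowerSeries.coeff n B ∈ S := Iff.rfl

/-- The key induction, for power series with nonzero constant coefficient. -/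
theorem mem_coeffSubring_of_pow (S : Subfield L) {p : ℕ} (hp : (p : L) ≠ 0)
    (hroot : ∀ x : L, x ^ p ∈ S → x ∈ S) (B : PowerSeries L)
    (hB0 : PowerSeries.coeff 0 B ≠ 0) (hBp : B ^ p ∈ coeffSubring S) :
    B ∈ coeffSubring S := by
  have hp0 : p ≠ 0 := by
    rintro rfl
    exact hp (by simp)
  -- constant coefficient
  have h0 : PowerSeries.coeff 0 B ∈ S := by
    apply hroot
    have := hBp 0
    rwa [PowerSeries.coeff_zero_eq_constantCoeff, map_pow,
      ← PowerSeries.coeff_zero_eq_constantCoeff] at this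
  intro m
  induction m using Nat.strong_induction_on with
  | _ m ih =>
    rcases Nat.eq_zero_or_pos m with rfl | hm
    · exact h0
    -- decomposition `B = P + X^m * R`
    set P : PowerSeries L := ((PowerSeries.trunc m B : Polynomial L) : PowerSeries L) with hP
    set R : PowerSeries L := PowerSeries.mk fun i => PowerSeries.coeff (i + m) B with hR
    have hdec : B = P + PowerSeries.X ^ m * R := by
      rw [add_comm]
      exact PowerSeries.eq_X_pow_mul_shift_add_trunc m B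
    have hPmem : P ∈ coeffSubring S := by
      intro n
      rw [hP, Polynomial.coeff_coe, PowerSeries.coeff_trunc]
      split_ifs with hn
      · exact ih n hn
      · exact S.zero_mem
    have hP0 : PowerSeries.coeff 0 P = PowerSeries.coeff 0 B := by
      rw [hP, Polynomial.coeff_coe, PowerSeries.coeff_trunc, if_pos hm]
    have hR0 : PowerSeries.coeff 0 R = PowerSeries.coeff m B := by
      rw [hR, PowerSeries.coeff_mk, zero_add]
    obtain ⟨k, hk⟩ := Polynomial.powAddExpansion P (PowerSeries.X ^ m * R) p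
    have hexp : PowerSeries.coeff m (B ^ p)
        = PowerSeries.coeff m (P ^ p)
          + (p : L) * (PowerSeries.coeff 0 B) ^ (p - 1) * PowerSeries.coeff m B := by
      have e1 : B ^ p = P ^ p + PowerSeries.X ^ m * ((p : PowerSeries L) * P ^ (p - 1) * R)
          + PowerSeries.X ^ (2 * m) * (k * R ^ 2) := by
        conv_lhs => rw [hdec]
        rw [hk]
        ring
      rw [e1, map_add, map_add, PowerSeries.coeff_X_pow_mul', PowerSeries.coeff_X_pow_mul',
        if_pos le_rfl, if_neg (by omega), add_zero, Nat.sub_self]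
      congr 1
      rw [PowerSeries.coeff_zero_eq_constantCoeff, map_mul, map_mul, map_pow, map_natCast,
        ← PowerSeries.coeff_zero_eq_constantCoeff, hP0, hR0]
    have hmem : (p : L) * (PowerSeries.coeff 0 B) ^ (p - 1) * PowerSeries.coeff m B ∈ S := by
      have h1 : PowerSeries.coeff m (P ^ p) ∈ S := (coeffSubring S).pow_mem hPmem p m
      have h2 := hBp m
      rw [hexp] at h2
      have := S.sub_mem h2 h1
      rwa [add_sub_cancel_left] at this
    have hunit : (p : L) * (PowerSeries.coeff 0 B) ^ (p - 1) ∈ S :=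
      S.mul_mem (natCast_mem S p) (S.pow_mem h0 _)
    have hne : (p : L) * (PowerSeries.coeff 0 B) ^ (p - 1) ≠ 0 :=
      mul_ne_zero hp (pow_ne_zero _ hB0)
    have := S.mul_mem (S.inv_mem hunit) hmem
    rwa [← mul_assoc, inv_mul_cancel₀ hne, one_mul] at this

end PS

section Laurent

variable {K L : Type*} [Field K] [Field L]

/-- Laurent series version: if all coefficients of `b ^ p` lie in `S`, so do those of `b`. -/
theorem laurent_coeff_mem_of_pow (S : Subfield L) {p : ℕ} (hp : (p : L) ≠ 0)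
    (hroot : ∀ x : L, x ^ p ∈ S → x ∈ S) (b : LaurentSeries L)
    (hbp : ∀ n, (b ^ p).coeff n ∈ S) : ∀ n, b.coeff n ∈ S := by
  by_cases hb : b = 0
  · intro n
    rw [hb, HahnSeries.coeff_zero]
    exact S.zero_mem
  set B := b.powerSeriesPart with hBdef
  have hbB : HahnSeries.single b.order (1 : L) * HahnSeries.ofPowerSeries ℤ L B = b :=
    LaurentSeries.single_order_mul_powerSeriesPart b
  have hB0 : PowerSeries.coeff 0 B ≠ 0 := by
    rw [hBdef, LaurentSeries.powerSeriesPart_coeff]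
    simpa using (HahnSeries.coeff_order_eq_zero (x := b)).not.2 hb
  have hBp : B ^ p ∈ coeffSubring S := by
    intro n
    have e : b ^ p = HahnSeries.single (p • b.order) (1 : L)
        * HahnSeries.ofPowerSeries ℤ L (B ^ p) := by
      conv_lhs => rw [← hbB]
      rw [mul_pow, HahnSeries.single_pow, one_pow, map_pow]
    have h2 := hbp ((n : ℤ) + p • b.order)
    rw [e, HahnSeries.coeff_single_mul_add, one_mul, HahnSeries.ofPowerSeries_apply_coeff] at h2
    exact h2
  have hB := mem_coeffSubring_of_pow S hp hroot B hB0 hBp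
  intro n
  by_cases hn : b.order ≤ n
  · obtain ⟨k, hk⟩ := Int.le.dest hn
    have := hB k
    rw [hBdef, LaurentSeries.powerSeriesPart_coeff, hk] at this
    exact this
  · rw [HahnSeries.coeff_eq_zero_of_lt_order (not_le.1 hn)]
    exact S.zero_mem

/-- A Laurent series with coefficients in the range of `ι` is in the range of `coeffMap ι`. -/
theorem exists_coeffMap_eq_of_coeff_mem (ι : K →+* L) (b : LaurentSeries L)
    (hb : ∀ n, b.coeff n ∈ ι.fieldRange) : ∃ v : LaurentSeries K, coeffMap ι v = b := by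
  classical
  have hex : ∀ n, ∃ a : K, ι a = b.coeff n := fun n => RingHom.mem_fieldRange.1 (hb n)
  let g : ℤ → K := fun n => if b.coeff n = 0 then 0 else Classical.choose (hex n)
  have hg : ∀ n, ι (g n) = b.coeff n := by
    intro n
    by_cases h0 : b.coeff n = 0
    · simp only [g, if_pos h0, map_zero, h0]
    · simp only [g, if_neg h0]
      exact Classical.choose_spec (hex n)
  have hsupp : Function.support g ⊆ b.support := by
    intro n hn
    rw [Function.mem_support] at hn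
    rw [HahnSeries.mem_support]
    intro h0
    apply hn
    simp only [g, if_pos h0]
  refine ⟨⟨g, b.isPWO_support.mono hsupp⟩, ?_⟩
  ext n
  rw [coeffMap_coeff]
  exact hg n

/-- **PROOT**: a Laurent series over `L` whose `p`-th power has coefficients in the algebraically
closed subfield `ι K` (with `p` invertible in `K`) has coefficients in `ι K`. -/
theorem exists_coeffMap_eq_of_pow [IsAlgClosed K] (ι : K →+* L) {p : ℕ} (hp : (p : K) ≠ 0)
    (b : LaurentSeries L) (w : LaurentSeries K) (h : b ^ p = coeffMap ι w) :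
    ∃ v : LaurentSeries K, coeffMap ι v = b := by
  have hp0 : p ≠ 0 := by
    rintro rfl
    exact hp (by simp)
  have hpL : (p : L) ≠ 0 := by
    have := (map_ne_zero ι).2 hp
    rwa [map_natCast] at this
  apply exists_coeffMap_eq_of_coeff_mem
  apply laurent_coeff_mem_of_pow ι.fieldRange hpL
  · intro x hx
    obtain ⟨c, hc⟩ := RingHom.mem_fieldRange.1 hx
    let _ : Algebra K L := ι.toAlgebra
    have hint : IsIntegral K x := by
      refine ⟨Polynomial.X ^ p - Polynomial.C c, Polynomial.monic_X_pow_sub_C c hp0, ?_⟩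
      rw [Polynomial.eval₂_sub, Polynomial.eval₂_pow, Polynomial.eval₂_X, Polynomial.eval₂_C]
      show x ^ p - ι c = 0
      rw [hc, sub_self]
    have hdeg := IsAlgClosed.degree_eq_one_of_irreducible K (minpoly.irreducible hint)
    have := minpoly.mem_range_of_degree_eq_one K x hdeg
    obtain ⟨a, ha⟩ := this
    exact RingHom.mem_fieldRange.2 ⟨a, ha⟩
  · intro n
    rw [h, coeffMap_coeff]
    exact RingHom.mem_fieldRange.2 ⟨_, rfl⟩

end Laurent

end Fermat.Agent.S29.M4b.H89.PRoot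

end
end
-- ===== PACK-END S29/M4b/H89/PRoot.lean

-- ===== PACK-BEGIN A3/H799/Disc.lean
section





/-!
# A3 / LOCAL — disc algebras and interpolation  (helper799)

A *disc algebra* over a local ring `A` is the algebraic shadow of "integral functions on an open
residue disc with parameter `t`": an `A`-algebra `𝒪` with an element `t`, an evaluation
`ev a : 𝒪 →ₐ[A] A` at every `a ∈ 𝔪_A` with `ev a t = a`, and the Taylor property
`f = ev a f + (t - a) * f'`.  (In the application `𝒪 = 𝒪_Q = V ∩ ⋂_{r P = Q} 𝒪_P` is the ring of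
functions of Gauss norm `≤ 1` without poles in the residue disc of the point `Q` of the special
fibre; Taylor follows from conservation of zeros.)

Main results (pure algebra):

* `DiscAlg.exists_interp` : Newton/Hermite interpolation, `f = p(t) + ∏ (t - a_i) * h`, `p ∈ A[X]`;
* `DiscAlg.prod_dvd_of_aeval` : if `p(t) ∈ ∏ (t - a_i) 𝒪` then `∏ (X - a_i) ∣ p` in `A[X]`.
-/

set_option autoImplicit false

namespace Fermat.Agent.A3.H799

open Polynomial

/-- Integral functions on a residue disc with parameter `t` (see the module docstring). -/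
structure DiscAlg (A : Type*) [CommRing A] [IsLocalRing A] (𝒪 : Type*) [CommRing 𝒪]
    [Algebra A 𝒪] where
  /-- the parameter -/
  t : 𝒪
  /-- evaluation at the point with parameter value `a` -/
  ev : IsLocalRing.maximalIdeal A → 𝒪 →ₐ[A] A
  ev_t : ∀ a, ev a t = (a : A)
  taylor : ∀ (a : IsLocalRing.maximalIdeal A) (f : 𝒪),
    ∃ f' : 𝒪, f = algebraMap A 𝒪 (ev a f) + (t - algebraMap A 𝒪 (a : A)) * f'
  nzd : ∀ (a : IsLocalRing.maximalIdeal A) (f : 𝒪), (t - algebraMap A 𝒪 (a : A)) * f = 0 → f = 0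

namespace DiscAlg

variable {A : Type*} [CommRing A] [IsLocalRing A] {𝒪 : Type*} [CommRing 𝒪] [Algebra A 𝒪]
variable (D : DiscAlg A 𝒪)

/-- The monic polynomial `∏ (X - a)` attached to a list of points. -/
noncomputable def nodal (l : List (IsLocalRing.maximalIdeal A)) : A[X] :=
  (l.map fun a => X - C (a : A)).prod

@[simp] theorem nodal_nil : nodal ([] : List (IsLocalRing.maximalIdeal A)) = 1 := by
  simp [nodal]

@[simp] theorem nodal_cons (a : IsLocalRing.maximalIdeal A) (l : List (IsLocalRing.maximalIdeal A)) :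
    nodal (a :: l) = (X - C (a : A)) * nodal l := by
  simp [nodal]

theorem nodal_monic (l : List (IsLocalRing.maximalIdeal A)) : (nodal l).Monic := by
  induction l with
  | nil => simp
  | cons a l ih => rw [nodal_cons]; exact (monic_X_sub_C _).mul ih

theorem nodal_append (l l' : List (IsLocalRing.maximalIdeal A)) :
    nodal (l ++ l') = nodal l * nodal l' := by
  simp [nodal]

theorem nodal_append_singleton (l : List (IsLocalRing.maximalIdeal A))
    (a : IsLocalRing.maximalIdeal A) : nodal (l ++ [a]) = nodal l * (X - C (a : A)) := by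
  rw [nodal_append, nodal_cons, nodal_nil, mul_one]

theorem natDegree_nodal (l : List (IsLocalRing.maximalIdeal A)) :
    (nodal l).natDegree = l.length := by
  induction l with
  | nil => simp
  | cons a l ih =>
    rw [nodal_cons, ((monic_X_sub_C _).natDegree_mul (nodal_monic l)), ih, natDegree_X_sub_C]
    simp [add_comm]

@[simp] theorem ev_aeval (a : IsLocalRing.maximalIdeal A) (p : A[X]) :
    D.ev a (aeval D.t p) = p.eval (a : A) := by
  rw [← Polynomial.aeval_algHom_apply, D.ev_t]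
  simp [Polynomial.aeval_def]

theorem aeval_nodal_cons (a : IsLocalRing.maximalIdeal A)
    (l : List (IsLocalRing.maximalIdeal A)) :
    aeval D.t (nodal (a :: l)) = (D.t - algebraMap A 𝒪 (a : A)) * aeval D.t (nodal l) := by
  simp [nodal_cons]

/-- **Interpolation.**  Every disc function is a polynomial in `t` modulo `∏ (t - a_i)`. -/
theorem exists_interp (l : List (IsLocalRing.maximalIdeal A)) (f : 𝒪) :
    ∃ (p : A[X]) (h : 𝒪), f = aeval D.t p + aeval D.t (nodal l) * h := by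
  induction l generalizing f with
  | nil => exact ⟨0, f, by simp⟩
  | cons a l ih =>
    obtain ⟨f', hf'⟩ := D.taylor a f
    obtain ⟨p, h, hp⟩ := ih f'
    refine ⟨C (D.ev a f) + (X - C (a : A)) * p, h, ?_⟩
    rw [D.aeval_nodal_cons]
    conv_lhs => rw [hf', hp]
    simp only [map_add, map_mul, map_sub, aeval_C, aeval_X]
    ring

/-- If `p(t)` is divisible by `∏ (t - a_i)` in the disc algebra, then `p` is divisible by
`∏ (X - a_i)` as a polynomial. -/
theorem nodal_dvd_of_aeval (l : List (IsLocalRing.maximalIdeal A)) (p : A[X]) (h : 𝒪)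
    (hp : aeval D.t p = aeval D.t (nodal l) * h) : nodal l ∣ p := by
  induction l generalizing p h with
  | nil => simp
  | cons a l ih =>
    rw [D.aeval_nodal_cons] at hp
    have hroot : p.eval (a : A) = 0 := by
      have := congrArg (D.ev a) hp
      rw [D.ev_aeval, map_mul, map_mul, map_sub, D.ev_t] at this
      simpa using this
    have hdiv : (X - C (a : A)) * (p /ₘ (X - C (a : A))) = p :=
      mul_divByMonic_eq_iff_isRoot.mpr hroot
    set p₁ := p /ₘ (X - C (a : A)) with hp₁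
    have h1 : aeval D.t p = (D.t - algebraMap A 𝒪 (a : A)) * aeval D.t p₁ := by
      conv_lhs => rw [← hdiv]
      simp
    have h2 : (D.t - algebraMap A 𝒪 (a : A)) * (aeval D.t p₁ - aeval D.t (nodal l) * h) = 0 := by
      rw [mul_sub, ← h1, hp]; ring
    have h3 := D.nzd a _ h2
    have h4 : aeval D.t p₁ = aeval D.t (nodal l) * h := sub_eq_zero.mp h3
    obtain ⟨q, hq⟩ := ih p₁ h h4
    refine ⟨q, ?_⟩
    rw [nodal_cons, ← hdiv, hq]
    ring

/-- Cancellation of `nodal l` in the disc algebra. -/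
theorem nodal_cancel (l : List (IsLocalRing.maximalIdeal A)) (f : 𝒪)
    (h : aeval D.t (nodal l) * f = 0) : f = 0 := by
  induction l with
  | nil => simpa using h
  | cons a l ih =>
    rw [D.aeval_nodal_cons, mul_assoc] at h
    exact ih (D.nzd a _ h)

end DiscAlg

end Fermat.Agent.A3.H799

end
-- ===== PACK-END A3/H799/Disc.lean

-- ===== PACK-BEGIN S59/H59/TWGalSpec.lean
section






/-!
# Row S59, cell TW, leaves TW-GAL1 / TW-GAL2 (helper59): interface

Galois side of the Taylor–Wiles method at the auxiliary primes `q ≡ 1 mod p`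
(`ρ̄` unramified at `q`, `ρ̄(Frob_q)` with distinct eigenvalues `α ≠ β`).
Only Prelude + Mathlib vocabulary; no deformation condition is fixed (the statements are used
for `sigmaCond … Smin (Smin ∪ Q)` in row S59 and for the conditions of row RIBET).

* `TWDiag p q ρ P α β b ξ` : in the basis `b` the decomposition group at `P | q` acts diagonally
  through `ξ 0`, `ξ 1`; `ξ 0 (Frob) ≡ α`, `ξ 1 (Frob) ≡ β`; on inertia the `ξ i` are `≡ 1`, of
  order dividing the `p`-part of `q - 1`, and the image of inertia is cyclic.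
* `TWGal1Statement` : (TW-GAL1) such `b`, `ξ` exist for every lift `ρ` over a complete Noetherian
  local ring with `p` in the maximal ideal.
* `TWGal2Statement` : (TW-GAL2) `R_Q / (δ_1 - 1, …, δ_r - 1) ≅ R_min` where `δ_j` is the value of
  the `α_j`-character of the universal deformation on a generator of (the image of) inertia at
  `q_j`: a surjection `π : R_Q → R_min` of `𝒪`-algebras, compatible with the universal
  deformations, whose kernel is generated by the `δ_j - 1`, and `δ_j ^ (p-part of q_j - 1) = 1`.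
* `TWGalCycStatement` : the characters `ξ i` restricted to inertia factor through the action on
  the `q`-th roots of unity (needed to compare with the diamond operators, leaf TW-LGC).
-/

set_option autoImplicit false

open Polynomial IsLocalRing

namespace Fermat.Agent.S59.H59

/-- **Diagonal local structure at a Taylor–Wiles prime.** -/
structure TWDiag (p q : ℕ) {A : Type} [CommRing A] [IsLocalRing A] (ρ : GaloisRepAdic A)
    (P : ValuationSubring (AlgebraicClosure ℚ)) (α β : ResidueField A)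
    (b : Module.Basis (Fin 2) A ρ.V)
    (ξ : Fin 2 → (AlgebraicClosure ℚ ≃ₐ[ℚ] AlgebraicClosure ℚ) → A) : Prop where
  /-- the decomposition group acts diagonally -/
  diag : ∀ σ ∈ P.decompositionSubgroup ℚ, ∀ i, ρ.ρ σ (b i) = ξ i σ • b i
  /-- the eigenvalues of every Frobenius reduce to `α`, `β` -/
  frob : ∀ φ : AlgebraicClosure ℚ ≃ₐ[ℚ] AlgebraicClosure ℚ, P.IsFrobeniusAt φ q →
    residue A (ξ 0 φ) = α ∧ residue A (ξ 1 φ) = β
  /-- on inertia the characters are residually trivial -/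
  inertia_res : ∀ σ ∈ P.inertiaSubgroupIn ℚ, ∀ i, ξ i σ - 1 ∈ maximalIdeal A
  /-- on inertia the characters are inverse to each other -/
  inertia_mul : ∀ σ ∈ P.inertiaSubgroupIn ℚ, ξ 0 σ * ξ 1 σ = 1
  /-- on inertia the characters have order dividing the `p`-part of `q - 1` -/
  inertia_pow : ∀ σ ∈ P.inertiaSubgroupIn ℚ, ∀ i, ξ i σ ^ p ^ padicValNat p (q - 1) = 1
  /-- the image of inertia is cyclic -/
  inertia_cyclic : ∃ τ ∈ P.inertiaSubgroupIn ℚ, ∀ σ ∈ P.inertiaSubgroupIn ℚ,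
    ∃ k : ℕ, ∀ i, ξ i σ = ξ i τ ^ k

/-- **TW-GAL1.**  Local structure of a lift at a Taylor–Wiles prime. -/
def TWGal1Statement : Prop :=
  ∀ (p q : ℕ) [Fact p.Prime] (_hq : q.Prime) (_hqp : p ∣ q - 1)
    (A : Type) [CommRing A] [IsLocalRing A] [IsNoetherianRing A]
    [IsAdicComplete (maximalIdeal A) A] (_hpA : (p : A) ∈ maximalIdeal A)
    (ρ : GaloisRepAdic A) (_hdet : ρ.DetIsCyclotomic p)
    (_hunr : ρ.residual.IsUnramifiedAt q)
    (P : ValuationSubring (AlgebraicClosure ℚ)) (_hP : P.LiesOverPrime q)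
    (φ : AlgebraicClosure ℚ ≃ₐ[ℚ] AlgebraicClosure ℚ) (_hφ : P.IsFrobeniusAt φ q)
    (α β : ResidueField A) (_hαβ : α ≠ β)
    (_hchar : LinearMap.charpoly (ρ.residual.ρ φ) = (X - C α) * (X - C β)),
    ∃ (b : Module.Basis (Fin 2) A ρ.V)
      (ξ : Fin 2 → (AlgebraicClosure ℚ ≃ₐ[ℚ] AlgebraicClosure ℚ) → A),
      TWDiag p q ρ P α β b ξ

/-- **Cyclotomic factorisation** (for TW-LGC): an element of inertia at `P | q` fixing the
`q`-th roots of unity is killed by the characters `ξ i`. -/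
def TWGalCycStatement : Prop :=
  ∀ (p q : ℕ) [Fact p.Prime] (_hq : q.Prime) (_hqp : p ∣ q - 1)
    (A : Type) [CommRing A] [IsLocalRing A] [IsNoetherianRing A]
    [IsAdicComplete (maximalIdeal A) A] (_hpA : (p : A) ∈ maximalIdeal A)
    (ρ : GaloisRepAdic A) (P : ValuationSubring (AlgebraicClosure ℚ)) (_hP : P.LiesOverPrime q)
    (α β : ResidueField A) (_hαβ : α ≠ β)
    (b : Module.Basis (Fin 2) A ρ.V)
    (ξ : Fin 2 → (AlgebraicClosure ℚ ≃ₐ[ℚ] AlgebraicClosure ℚ) → A)
    (_h : TWDiag p q ρ P α β b ξ),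
    ∀ σ ∈ P.inertiaSubgroupIn ℚ, (∀ ζ : AlgebraicClosure ℚ, ζ ^ q = 1 → σ ζ = ζ) →
      ∀ i, ξ i σ = 1

/-- **TW-GAL2.**  `R_Q / (δ_j - 1) ≅ R_min`.  `𝒟Q` is the condition of type `Q` (no condition at
the primes `qv j`), `𝒟min` the minimal one (`𝒟Q` + unramified at the `qv j`). -/
def TWGal2Statement : Prop :=
  ∀ (p : ℕ) [Fact p.Prime]
    (𝒪 : Type) [CommRing 𝒪] [IsDomain 𝒪] [IsDiscreteValuationRing 𝒪]
    [IsAdicComplete (maximalIdeal 𝒪) 𝒪] (_hp𝒪 : (p : 𝒪) ∈ maximalIdeal 𝒪)
    (ρbar : ResidualGaloisRep (ResidueField 𝒪))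
    (𝒟Q 𝒟min : ∀ ⦃A : Type⦄ [CommRing A] [IsLocalRing A] [Algebra 𝒪 A], GaloisRepAdic A → Prop)
    (_hDC : GaloisRep.IsDeformationCondition 𝒪 𝒟Q)
    (_hdet : ∀ ⦃A : Type⦄ [CommRing A] [IsLocalRing A] [Algebra 𝒪 A] (ρ : GaloisRepAdic A),
      𝒟Q ρ → ρ.DetIsCyclotomic p)
    (r : ℕ) (qv : Fin r → ℕ) (_hq : ∀ j, (qv j).Prime ∧ p ∣ qv j - 1)
    (_hmin : ∀ ⦃A : Type⦄ [CommRing A] [IsLocalRing A] [Algebra 𝒪 A] (ρ : GaloisRepAdic A),
      𝒟min ρ ↔ 𝒟Q ρ ∧ ∀ j, ρ.IsUnramifiedAt (qv j))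
    (_hunr : ∀ j, ρbar.IsUnramifiedAt (qv j))
    (P : Fin r → ValuationSubring (AlgebraicClosure ℚ)) (_hP : ∀ j, (P j).LiesOverPrime (qv j))
    (φ : Fin r → (AlgebraicClosure ℚ ≃ₐ[ℚ] AlgebraicClosure ℚ))
    (_hφ : ∀ j, (P j).IsFrobeniusAt (φ j) (qv j))
    (α β : Fin r → ResidueField 𝒪) (_hαβ : ∀ j, α j ≠ β j)
    (_hchar : ∀ j, LinearMap.charpoly (ρbar.ρ (φ j)) = (X - C (α j)) * (X - C (β j)))
    (DQ : GaloisRep.DeformationRingData 𝒪 ρbar 𝒟Q)
    (Dmin : GaloisRep.DeformationRingData 𝒪 ρbar 𝒟min),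
    ∃ (δ : Fin r → DQ.R) (π : DQ.R →ₐ[𝒪] Dmin.R),
      Function.Surjective π ∧
      RingHom.ker (π : DQ.R →+* Dmin.R) = Ideal.span (Set.range fun j => δ j - 1) ∧
      (∃ hπ : IsLocalHom (π : DQ.R →+* Dmin.R),
        (DQ.ρ.baseChangeAlong (π : DQ.R →+* Dmin.R) hπ).IsEquiv Dmin.ρ) ∧
      ∀ j, δ j ^ p ^ padicValNat p (qv j - 1) = 1 ∧
        ∃ (b : Module.Basis (Fin 2) DQ.R DQ.ρ.V)
          (ξ : Fin 2 → (AlgebraicClosure ℚ ≃ₐ[ℚ] AlgebraicClosure ℚ) → DQ.R),
          TWDiag p (qv j) DQ.ρ (P j)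
            (ResidueField.map (algebraMap 𝒪 DQ.R) (α j))
            (ResidueField.map (algebraMap 𝒪 DQ.R) (β j)) b ξ ∧
          ∃ τ ∈ (P j).inertiaSubgroupIn ℚ, ξ 0 τ = δ j ∧
            ∀ σ ∈ (P j).inertiaSubgroupIn ℚ, ∃ k : ℕ, ∀ i, ξ i σ = ξ i τ ^ k

end Fermat.Agent.S59.H59

end
-- ===== PACK-END S59/H59/TWGalSpec.lean

-- ===== PACK-BEGIN S59/H59/TWGalAlg.lean
section


/-!
# Row S59, leaf TW-GAL1 (helper59): the algebra

Pure commutative / linear algebra over a local ring `A` (Mathlib only).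

* `entIn_pow_prime_sub_one` : `T ≡ 1 mod 𝔪^k` entrywise (`k ≥ 1`, `p ∈ 𝔪`) ⟹ `T^p ≡ 1 mod 𝔪^(k+1)`;
  `entIn_pow_prime_pow_sub_one` : `T ≡ 1 mod 𝔪` ⟹ `T^(p^j) ≡ 1 mod 𝔪^(j+1)`.
* `pow_entries_h59` : the entries of `T^k` for `T ≡ 1 mod 𝔪` with off-diagonal entries in `J ≤ 𝔪`.
* `offdiag_eq_zero_h59` : the key computation `F T = T^q F` ⟹ `T` diagonal.
* `exists_diagonalizer_h59` : diagonalisation of `F` with eigenvalues `a₀ ≢ a₁`.
* `exists_eigenvalues_h59` : Hensel.
* `pow_ppart_eq_one_h59` : `x ≡ 1 mod 𝔪`, `x^m = 1` ⟹ `x^(p-part of m) = 1`.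
-/

set_option autoImplicit false

open Polynomial IsLocalRing

namespace Fermat.Agent.S59.H59

/-- all entries of `M` lie in the ideal `I` -/
def EntIn {A : Type*} [CommRing A] (I : Ideal A) (M : Matrix (Fin 2) (Fin 2) A) : Prop :=
  ∀ i j, M i j ∈ I

section entIn

variable {A : Type*} [CommRing A]

theorem EntIn.mono {I J : Ideal A} (h : I ≤ J) {M : Matrix (Fin 2) (Fin 2) A} (hM : EntIn I M) :
    EntIn J M := fun i j => h (hM i j)

theorem EntIn.add {I : Ideal A} {M N : Matrix (Fin 2) (Fin 2) A} (hM : EntIn I M)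
    (hN : EntIn I N) : EntIn I (M + N) := fun i j => by
  rw [Matrix.add_apply]; exact I.add_mem (hM i j) (hN i j)

theorem EntIn.zero (I : Ideal A) : EntIn I (0 : Matrix (Fin 2) (Fin 2) A) := fun i j => by
  rw [Matrix.zero_apply]; exact I.zero_mem

theorem EntIn.mul {I J : Ideal A} {M N : Matrix (Fin 2) (Fin 2) A} (hM : EntIn I M)
    (hN : EntIn J N) : EntIn (I * J) (M * N) := fun i j => by
  rw [Matrix.mul_apply]
  exact Ideal.sum_mem _ fun l _ => Ideal.mul_mem_mul (hM i l) (hN l j)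

theorem EntIn.mul_left {I : Ideal A} (M : Matrix (Fin 2) (Fin 2) A)
    {N : Matrix (Fin 2) (Fin 2) A} (hN : EntIn I N) : EntIn I (M * N) := fun i j => by
  rw [Matrix.mul_apply]
  exact Ideal.sum_mem _ fun l _ => I.mul_mem_left _ (hN l j)

theorem EntIn.mul_right {I : Ideal A} {M : Matrix (Fin 2) (Fin 2) A} (hM : EntIn I M)
    (N : Matrix (Fin 2) (Fin 2) A) : EntIn I (M * N) := fun i j => by
  rw [Matrix.mul_apply]
  exact Ideal.sum_mem _ fun l _ => I.mul_mem_right _ (hM i l)

theorem EntIn.nsmul {I : Ideal A} {M : Matrix (Fin 2) (Fin 2) A} (hM : EntIn I M) (n : ℕ) :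
    EntIn I (n • M) := fun i j => by
  rw [Matrix.smul_apply]; exact I.nsmul_mem (hM i j) n

theorem EntIn.natCast_smul {I J : Ideal A} {M : Matrix (Fin 2) (Fin 2) A} (hM : EntIn I M)
    {n : ℕ} (hn : (n : A) ∈ J) : EntIn (J * I) (n • M) := fun i j => by
  rw [Matrix.smul_apply, nsmul_eq_mul]; exact Ideal.mul_mem_mul hn (hM i j)

/-- `(1 + Y)^m ≡ 1 + m Y` modulo `I²` when `Y` has entries in `I`. -/
theorem entIn_one_add_pow {I : Ideal A} {Y : Matrix (Fin 2) (Fin 2) A} (hY : EntIn I Y) (m : ℕ) :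
    EntIn (I * I) ((1 + Y) ^ m - 1 - m • Y) := by
  induction m with
  | zero =>
    have : (1 + Y) ^ 0 - 1 - 0 • Y = 0 := by simp
    rw [this]; exact EntIn.zero _
  | succ m ih =>
    have h : (1 + Y) ^ (m + 1) - 1 - (m + 1) • Y =
        ((1 + Y) ^ m - 1 - m • Y) + ((1 + Y) ^ m - 1 - m • Y) * Y + m • (Y * Y) := by
      rw [pow_succ]
      simp only [mul_add, mul_one, sub_mul, one_mul, add_smul, one_smul, smul_mul_assoc]
      abel
    rw [h]
    refine (ih.add (ih.mul_right Y)).add ?_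
    exact (hY.mul hY).nsmul m

/-- `T ≡ 1 mod 𝔪^k` (`k ≥ 1`) and `p ∈ 𝔪` imply `T^p ≡ 1 mod 𝔪^(k+1)`. -/
theorem entIn_pow_prime_sub_one {𝔪 : Ideal A} {p : ℕ} (hp : (p : A) ∈ 𝔪) {k : ℕ} (hk : 1 ≤ k)
    {T : Matrix (Fin 2) (Fin 2) A} (hT : EntIn (𝔪 ^ k) (T - 1)) :
    EntIn (𝔪 ^ (k + 1)) (T ^ p - 1) := by
  have h1 := entIn_one_add_pow hT p
  rw [add_sub_cancel] at h1
  have h2 : T ^ p - 1 = (T ^ p - 1 - p • (T - 1)) + p • (T - 1) := by abel
  rw [h2]
  refine EntIn.add (h1.mono ?_) ((hT.natCast_smul hp).mono ?_)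
  · rw [← pow_add]
    exact Ideal.pow_le_pow_right (by omega)
  · rw [pow_succ']

/-- `T ≡ 1 mod 𝔪` and `p ∈ 𝔪` imply `T^(p^j) ≡ 1 mod 𝔪^(j+1)`. -/
theorem entIn_pow_prime_pow_sub_one {𝔪 : Ideal A} {p : ℕ} (hp : (p : A) ∈ 𝔪)
    {T : Matrix (Fin 2) (Fin 2) A} (hT : EntIn 𝔪 (T - 1)) (j : ℕ) :
    EntIn (𝔪 ^ (j + 1)) (T ^ p ^ j - 1) := by
  induction j with
  | zero => simpa using hT
  | succ j ih =>
    have e : T ^ p ^ (j + 1) = (T ^ p ^ j) ^ p := by rw [pow_succ, pow_mul]
    rw [e]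
    exact entIn_pow_prime_sub_one hp (by omega) ih

/-- The entries of the powers of a matrix `T ≡ 1 mod 𝔪` with off-diagonal entries in `J ≤ 𝔪`. -/
theorem pow_entries_h59 {𝔪 J : Ideal A} (hJ : J ≤ 𝔪) {T : Matrix (Fin 2) (Fin 2) A}
    (h00 : T 0 0 - 1 ∈ 𝔪) (h11 : T 1 1 - 1 ∈ 𝔪) (h01 : T 0 1 ∈ J) (h10 : T 1 0 ∈ J) (k : ℕ) :
    (T ^ k) 0 0 - 1 ∈ 𝔪 ∧ (T ^ k) 1 1 - 1 ∈ 𝔪 ∧ (T ^ k) 0 1 - k * T 0 1 ∈ 𝔪 * J ∧
      (T ^ k) 1 0 - k * T 1 0 ∈ 𝔪 * J := by
  induction k with
  | zero =>
    refine ⟨?_, ?_, ?_, ?_⟩ <;> simp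
  | succ k ih =>
    obtain ⟨i00, i11, i01, i10⟩ := ih
    have hJ' : 𝔪 * J ≤ J := Ideal.mul_le_right
    have k01 : (T ^ k) 0 1 ∈ J := by
      have := J.add_mem (hJ' i01) (J.mul_mem_left (k : A) h01)
      rwa [sub_add_cancel] at this
    have k10 : (T ^ k) 1 0 ∈ J := by
      have := J.add_mem (hJ' i10) (J.mul_mem_left (k : A) h10)
      rwa [sub_add_cancel] at this
    rw [pow_succ]
    simp only [Matrix.mul_apply, Fin.sum_univ_two]
    refine ⟨?_, ?_, ?_, ?_⟩
    · have e : (T ^ k) 0 0 * T 0 0 + (T ^ k) 0 1 * T 1 0 - 1 =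
          ((T ^ k) 0 0 - 1) * T 0 0 + (T 0 0 - 1) + (T ^ k) 0 1 * T 1 0 := by ring
      rw [e]
      exact 𝔪.add_mem (𝔪.add_mem (𝔪.mul_mem_right _ i00) h00) (𝔪.mul_mem_left _ (hJ h10))
    · have e : (T ^ k) 1 0 * T 0 1 + (T ^ k) 1 1 * T 1 1 - 1 =
          (T ^ k) 1 0 * T 0 1 + (((T ^ k) 1 1 - 1) * T 1 1 + (T 1 1 - 1)) := by ring
      rw [e]
      exact 𝔪.add_mem (𝔪.mul_mem_left _ (hJ h01)) (𝔪.add_mem (𝔪.mul_mem_right _ i11) h11)
    · have e : (T ^ k) 0 0 * T 0 1 + (T ^ k) 0 1 * T 1 1 - ((k + 1 : ℕ) : A) * T 0 1 =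
          ((T ^ k) 0 0 - 1) * T 0 1 + ((T ^ k) 0 1 - k * T 0 1) * T 1 1 +
            (T 1 1 - 1) * (k * T 0 1) := by
        push_cast; ring
      rw [e]
      refine Ideal.add_mem _ (Ideal.add_mem _ (Ideal.mul_mem_mul i00 h01)
        (Ideal.mul_mem_right _ _ i01)) (Ideal.mul_mem_mul h11 (J.mul_mem_left _ h01))
    · have e : (T ^ k) 1 0 * T 0 0 + (T ^ k) 1 1 * T 1 0 - ((k + 1 : ℕ) : A) * T 1 0 =
          ((T ^ k) 1 0 - k * T 1 0) * T 0 0 + ((T ^ k) 1 1 - 1) * T 1 0 +
            (T 0 0 - 1) * (k * T 1 0) := by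
        push_cast; ring
      rw [e]
      refine Ideal.add_mem _ (Ideal.add_mem _ (Ideal.mul_mem_right _ _ i10)
        (Ideal.mul_mem_mul i11 h10)) (Ideal.mul_mem_mul h00 (J.mul_mem_left _ h10))

end entIn

section key

variable {A : Type*} [CommRing A] [IsLocalRing A]

/-- **The key computation.**  If `F = diag(a₀, a₁)`, `T ≡ 1 mod 𝔪`, `F T = T^q F` and
`a₀ - q a₁`, `a₁ - q a₀` are units, then `T` is diagonal. -/
theorem offdiag_eq_zero_h59 [IsNoetherianRing A] {T : Matrix (Fin 2) (Fin 2) A} {a₀ a₁ : A}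
    {q : ℕ} (hT : EntIn (maximalIdeal A) (T - 1))
    (h01 : a₀ * T 0 1 = (T ^ q) 0 1 * a₁) (h10 : a₁ * T 1 0 = (T ^ q) 1 0 * a₀)
    (hu0 : IsUnit (a₀ - q * a₁)) (hu1 : IsUnit (a₁ - q * a₀)) : T 0 1 = 0 ∧ T 1 0 = 0 := by
  have h00 : T 0 0 - 1 ∈ maximalIdeal A := by simpa using hT 0 0
  have h11 : T 1 1 - 1 ∈ maximalIdeal A := by simpa using hT 1 1
  have key : ∀ n : ℕ, T 0 1 ∈ maximalIdeal A ^ (n + 1) ∧ T 1 0 ∈ maximalIdeal A ^ (n + 1) := by
    intro n
    induction n with
    | zero =>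
      constructor
      · simpa using hT 0 1
      · simpa using hT 1 0
    | succ n ih =>
      obtain ⟨i01, i10⟩ := ih
      have hJ : maximalIdeal A ^ (n + 1) ≤ maximalIdeal A := Ideal.pow_le_self (by omega)
      obtain ⟨-, -, p01, p10⟩ := pow_entries_h59 hJ h00 h11 i01 i10 q
      rw [pow_succ' (maximalIdeal A) (n + 1)]
      constructor
      · have e : (a₀ - q * a₁) * T 0 1 = ((T ^ q) 0 1 - q * T 0 1) * a₁ := by
          rw [sub_mul, h01]; ring
        have h := Ideal.mul_mem_right a₁ _ p01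
        rw [← e] at h
        obtain ⟨u, hu⟩ := hu0
        have := Ideal.mul_mem_left _ (↑u⁻¹ : A) h
        rwa [← hu, ← mul_assoc, Units.inv_mul, one_mul] at this
      · have e : (a₁ - q * a₀) * T 1 0 = ((T ^ q) 1 0 - q * T 1 0) * a₀ := by
          rw [sub_mul, h10]; ring
        have h := Ideal.mul_mem_right a₀ _ p10
        rw [← e] at h
        obtain ⟨u, hu⟩ := hu1
        have := Ideal.mul_mem_left _ (↑u⁻¹ : A) h
        rwa [← hu, ← mul_assoc, Units.inv_mul, one_mul] at this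
  have hbot : (⨅ n : ℕ, maximalIdeal A ^ n) = ⊥ :=
    Ideal.iInf_pow_eq_bot_of_isLocalRing (maximalIdeal A) Ideal.IsPrime.ne_top'
  have hmem : ∀ x : A, (∀ n : ℕ, x ∈ maximalIdeal A ^ (n + 1)) → x = 0 := by
    intro x hx
    have : x ∈ ⨅ n : ℕ, maximalIdeal A ^ n := by
      rw [Ideal.mem_iInf]
      intro n
      exact Ideal.pow_le_pow_right (Nat.le_succ n) (hx n)
    rwa [hbot, Ideal.mem_bot] at this
  exact ⟨hmem _ fun n => (key n).1, hmem _ fun n => (key n).2⟩

/-- **Diagonalisation.**  A `2 × 2` matrix whose characteristic polynomial is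
`(X - a₀)(X - a₁)` with `a₀ - a₁` a unit is diagonalisable over a local ring. -/
theorem exists_diagonalizer_h59 (F : Matrix (Fin 2) (Fin 2) A) {a₀ a₁ : A}
    (htr : a₀ + a₁ = F.trace) (hdet : a₀ * a₁ = F.det) (hu : IsUnit (a₀ - a₁)) :
    ∃ P : (Matrix (Fin 2) (Fin 2) A)ˣ,
      F * (P : Matrix (Fin 2) (Fin 2) A) = (P : Matrix (Fin 2) (Fin 2) A) * !![a₀, 0; 0, a₁] := by
  rw [Matrix.trace_fin_two] at htr
  rw [Matrix.det_fin_two] at hdet
  have hsum : (F 0 0 - a₁) + (F 1 1 - a₁) = a₀ - a₁ := by linear_combination -htr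
  rw [← hsum] at hu
  have hu' : IsUnit (a₀ - a₁) := by rw [← hsum]; exact hu
  rcases IsLocalRing.isUnit_or_isUnit_of_isUnit_add hu with h | h
  · -- first column of `F - a₁`, second column of `F - a₀`
    set P : Matrix (Fin 2) (Fin 2) A := !![F 0 0 - a₁, F 0 1; F 1 0, F 1 1 - a₀] with hP
    have hdetP : P.det = -((F 0 0 - a₁) * (a₀ - a₁)) := by
      rw [hP, Matrix.det_fin_two_of]
      linear_combination (-1 : A) * hdet + a₁ * htr
    have hPu : IsUnit P := by
      rw [Matrix.isUnit_iff_isUnit_det, hdetP]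
      exact (h.mul hu').neg
    obtain ⟨Pu, hPu'⟩ := hPu
    refine ⟨Pu, ?_⟩
    rw [hPu', hP]
    ext i j
    fin_cases i <;> fin_cases j
    · simp [Matrix.mul_apply, Fin.sum_univ_two]
      linear_combination hdet - F 0 0 * htr
    · simp [Matrix.mul_apply, Fin.sum_univ_two]
      linear_combination (-(F 0 1)) * htr
    · simp [Matrix.mul_apply, Fin.sum_univ_two]
      linear_combination (-(F 1 0)) * htr
    · simp [Matrix.mul_apply, Fin.sum_univ_two]
      linear_combination hdet - F 1 1 * htr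
  · -- second column of `F - a₁`, first column of `F - a₀`
    set P : Matrix (Fin 2) (Fin 2) A := !![F 0 1, F 0 0 - a₀; F 1 1 - a₁, F 1 0] with hP
    have hdetP : P.det = (F 1 1 - a₁) * (a₀ - a₁) := by
      rw [hP, Matrix.det_fin_two_of]
      linear_combination hdet - a₁ * htr
    have hPu : IsUnit P := by
      rw [Matrix.isUnit_iff_isUnit_det, hdetP]
      exact h.mul hu'
    obtain ⟨Pu, hPu'⟩ := hPu
    refine ⟨Pu, ?_⟩
    rw [hPu', hP]
    ext i j
    fin_cases i <;> fin_cases j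
    · simp [Matrix.mul_apply, Fin.sum_univ_two]
      linear_combination (-(F 0 1)) * htr
    · simp [Matrix.mul_apply, Fin.sum_univ_two]
      linear_combination hdet - F 0 0 * htr
    · simp [Matrix.mul_apply, Fin.sum_univ_two]
      linear_combination hdet - F 1 1 * htr
    · simp [Matrix.mul_apply, Fin.sum_univ_two]
      linear_combination (-(F 1 0)) * htr

end key


section hensel

variable {A : Type*} [CommRing A] [IsLocalRing A]

/-- **Hensel.**  Eigenvalues of a `2 × 2` matrix whose residual characteristic polynomial has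
distinct roots `α ≠ β`. -/
theorem exists_eigenvalues_h59 [HenselianRing A (maximalIdeal A)]
    (F : Matrix (Fin 2) (Fin 2) A) {α β : ResidueField A} (hαβ : α ≠ β)
    (hchar : (F.map (residue A)).charpoly = (X - C α) * (X - C β)) :
    ∃ a₀ a₁ : A, residue A a₀ = α ∧ residue A a₁ = β ∧ a₀ + a₁ = F.trace ∧ a₀ * a₁ = F.det := by
  rw [Matrix.charpoly_fin_two] at hchar
  have htrm : (F.map (residue A)).trace = residue A F.trace := by
    rw [Matrix.trace_fin_two, Matrix.trace_fin_two, map_add]; rfl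
  have hdetm : (F.map (residue A)).det = residue A F.det := by
    rw [Matrix.det_fin_two, Matrix.det_fin_two, map_sub, map_mul, map_mul]; rfl
  rw [htrm, hdetm] at hchar
  have hdet : residue A F.det = α * β := by
    have := congrArg (Polynomial.eval 0) hchar
    simpa using this
  have htr : residue A F.trace = α + β := by
    have := congrArg (Polynomial.eval 1) hchar
    simp only [eval_add, eval_sub, eval_pow, eval_X, eval_mul, eval_C, one_pow, mul_one] at this
    rw [hdet] at this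
    linear_combination (-1 : ResidueField A) * this
  obtain ⟨a', ha'⟩ := residue_surjective (R := A) α
  set f : A[X] := X ^ 2 - C F.trace * X + C F.det with hf
  have hfm : f.Monic := by
    rw [hf]
    have h1 : (X ^ 2 - C F.trace * X + C F.det : A[X]) = X ^ 2 + (C (-F.trace) * X + C F.det) := by
      rw [map_neg]; ring
    rw [h1]
    refine (monic_X_pow 2).add_of_left ?_
    rw [degree_X_pow]
    refine lt_of_le_of_lt (degree_linear_le) ?_
    norm_num
  have hev : ∀ a : A, f.eval a = a ^ 2 - F.trace * a + F.det := by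
    intro a; rw [hf]; simp
  have hder : ∀ a : A, f.derivative.eval a = 2 * a - F.trace := by
    intro a; rw [hf]; simp; ring
  have h₁ : f.eval a' ∈ maximalIdeal A := by
    rw [hev, ← residue_eq_zero_iff, map_add, map_sub, map_pow, map_mul, ha', htr, hdet]
    ring
  have h₂ : IsUnit (Ideal.Quotient.mk (maximalIdeal A) (f.derivative.eval a')) := by
    have e : Ideal.Quotient.mk (maximalIdeal A) (f.derivative.eval a') = α - β := by
      show residue A _ = _
      rw [hder, map_sub, map_mul, ha', htr, map_ofNat]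
      ring
    rw [e]
    exact (sub_ne_zero.mpr hαβ).isUnit
  obtain ⟨a₀, hroot, hmem⟩ := HenselianRing.is_henselian f hfm a' h₁ h₂
  have hres : residue A a₀ = α := by
    rw [← ha', ← sub_eq_zero, ← map_sub]
    exact (residue_eq_zero_iff _).mpr hmem
  have hroot' : a₀ ^ 2 - F.trace * a₀ + F.det = 0 := by
    rw [← hev]; exact hroot
  refine ⟨a₀, F.trace - a₀, hres, ?_, by ring, ?_⟩
  · rw [map_sub, htr, hres]; ring
  · linear_combination (-1 : A) * hroot'

/-- `x ≡ 1 mod 𝔪` and `x ^ m = 1` imply `x ^ (p-part of m) = 1` when `p ∈ 𝔪`. -/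
theorem pow_ppart_eq_one_h59 {p : ℕ} (hp : p.Prime) (hpA : (p : A) ∈ maximalIdeal A) {x : A}
    (hx : x - 1 ∈ maximalIdeal A) {m : ℕ} (hm : m ≠ 0) (hxm : x ^ m = 1) :
    x ^ p ^ padicValNat p m = 1 := by
  have : Fact p.Prime := ⟨hp⟩
  obtain ⟨e, c, hc, hmc⟩ := Nat.exists_eq_pow_mul_and_not_dvd hm p hp.ne_one
  have hc0 : c ≠ 0 := by rintro rfl; exact hc (dvd_zero p)
  have hv : padicValNat p m = e := by
    rw [hmc, padicValNat.mul (pow_ne_zero e hp.ne_zero) hc0, padicValNat.prime_pow,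
      padicValNat.eq_zero_of_not_dvd hc, add_zero]
  rw [hv]
  set u : A := x ^ p ^ e with hu
  have huc : u ^ c = 1 := by rw [hu, ← pow_mul, ← hmc, hxm]
  have hx1 : residue A x = 1 := by
    rw [← sub_eq_zero, ← map_one (residue A), ← map_sub]
    exact (residue_eq_zero_iff _).mpr hx
  have hu1 : residue A u = 1 := by rw [hu, map_pow, hx1, one_pow]
  -- `c` is a unit of the residue field
  have hcu : residue A (c : A) ≠ 0 := by
    intro h0
    have hcop : Nat.Coprime p c := (Nat.Prime.coprime_iff_not_dvd hp).mpr hc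
    obtain ⟨a, b, hab⟩ := Nat.isCoprime_iff_coprime.mpr hcop
    have h1 : (a : A) * (p : A) + (b : A) * (c : A) = 1 := by
      have := congrArg (fun z : ℤ => (z : A)) hab
      simpa using this
    have h2 : residue A ((a : A) * (p : A) + (b : A) * (c : A)) = 0 := by
      rw [map_add, map_mul, map_mul, h0, (residue_eq_zero_iff _).mpr hpA, mul_zero, mul_zero,
        add_zero]
    rw [h1, map_one] at h2
    exact one_ne_zero h2
  have hsum : residue A (∑ i ∈ Finset.range c, u ^ i) = residue A (c : A) := by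
    rw [map_sum]
    simp only [map_pow, hu1, one_pow, Finset.sum_const, Finset.card_range, nsmul_eq_mul, mul_one,
      map_natCast]
  have hunit : IsUnit (∑ i ∈ Finset.range c, u ^ i) := by
    by_contra hnu
    have : (∑ i ∈ Finset.range c, u ^ i) ∈ maximalIdeal A := (mem_maximalIdeal _).mpr hnu
    rw [← residue_eq_zero_iff, hsum] at this
    exact hcu this
  have hgeo := geom_sum_mul u c
  rw [huc, sub_self] at hgeo
  have := hunit.mul_right_eq_zero.mp hgeo
  exact sub_eq_zero.mp this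

end hensel

end Fermat.Agent.S59.H59

end
-- ===== PACK-END S59/H59/TWGalAlg.lean

-- ===== PACK-BEGIN S58/H93/ChebCore.lean
section



/-!
# S58, leaf CHEB — abstract core (helper93)

Mathlib + Prelude only.

* `baseChange_eq_of_sub_mem_h93` : two endomorphisms congruent modulo `I • ⊤` have the same base
  change to `R ⧸ I`.
* `charpoly_coeff_sub_mem_h93`   : hence their characteristic polynomials are congruent modulo `I`.
* `poly_eq_of_coeff_sub_mem_pow_h93` : Krull intersection for polynomials over a noetherian local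
  ring.
* `rho_sub_mem_of_eqOn_h93` : adic continuity in the form "if `τ = σ` on the level `L_n` then
  `ρ τ ≡ ρ σ` modulo `𝔪 ^ n`".
* `charpoly_eq_of_approx_h93` : the abstract form of leaf CHEB: if every `σ` can be approximated
  on every finite level by elements at which the characteristic polynomials of `ρ₁`, `ρ₂` agree,
  then they agree everywhere.
-/

set_option autoImplicit false

open Polynomial TensorProduct

namespace Fermat.Agent.S58.H93

section Algebra

variable {R : Type*} [CommRing R] {V : Type*} [AddCommGroup V] [Module R V]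

/-- A linear map preserves `I • ⊤`. -/
theorem map_mem_smul_top_h93 (I : Ideal R) (f : Module.End R V) {x : V}
    (hx : x ∈ I • (⊤ : Submodule R V)) : f x ∈ I • (⊤ : Submodule R V) := by
  refine Submodule.smul_induction_on (p := fun x => f x ∈ I • (⊤ : Submodule R V)) hx ?_ ?_
  · intro a ha w _
    rw [map_smul]
    exact Submodule.smul_mem_smul ha Submodule.mem_top
  · intro x y hx hy
    rw [map_add]
    exact Submodule.add_mem _ hx hy

/-- Elements of `I • ⊤` die in `(R ⧸ I) ⊗ V`. -/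
theorem tmul_eq_zero_of_mem_smul_top_h93 (I : Ideal R) (c : R ⧸ I) {x : V}
    (hx : x ∈ I • (⊤ : Submodule R V)) : c ⊗ₜ[R] x = (0 : (R ⧸ I) ⊗[R] V) := by
  refine Submodule.smul_induction_on
    (p := fun x => c ⊗ₜ[R] x = (0 : (R ⧸ I) ⊗[R] V)) hx ?_ ?_
  · intro a ha w _
    rw [TensorProduct.tmul_smul, TensorProduct.smul_tmul', Algebra.smul_def,
      Ideal.Quotient.algebraMap_eq, Ideal.Quotient.eq_zero_iff_mem.mpr ha, zero_mul,
      TensorProduct.zero_tmul]
  · intro x y hx hy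
    rw [TensorProduct.tmul_add, hx, hy, add_zero]

/-- Two endomorphisms congruent modulo `I • ⊤` have the same base change to `R ⧸ I`. -/
theorem baseChange_eq_of_sub_mem_h93 (I : Ideal R) (f g : Module.End R V)
    (h : ∀ v, f v - g v ∈ I • (⊤ : Submodule R V)) :
    f.baseChange (R ⧸ I) = g.baseChange (R ⧸ I) := by
  refine LinearMap.ext fun w => ?_
  induction w using TensorProduct.induction_on with
  | zero => rw [map_zero, map_zero]
  | tmul c v =>
    rw [LinearMap.baseChange_tmul, LinearMap.baseChange_tmul, ← sub_eq_zero,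
      ← TensorProduct.tmul_sub]
    exact tmul_eq_zero_of_mem_smul_top_h93 I c (h v)
  | add x y hx hy => rw [map_add, map_add, hx, hy]

/-- Two endomorphisms of a finite free module congruent modulo `I • ⊤` have characteristic
polynomials congruent modulo `I`. -/
theorem charpoly_coeff_sub_mem_h93 [Module.Free R V] [Module.Finite R V] (I : Ideal R)
    (f g : Module.End R V) (h : ∀ v, f v - g v ∈ I • (⊤ : Submodule R V)) (k : ℕ) :
    (LinearMap.charpoly f).coeff k - (LinearMap.charpoly g).coeff k ∈ I := by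
  have h1 := baseChange_eq_of_sub_mem_h93 I f g h
  have h2 : (LinearMap.charpoly f).map (algebraMap R (R ⧸ I)) =
      (LinearMap.charpoly g).map (algebraMap R (R ⧸ I)) := by
    rw [← LinearMap.charpoly_baseChange, ← LinearMap.charpoly_baseChange, h1]
  have h3 := congrArg (fun p : (R ⧸ I)[X] => p.coeff k) h2
  simp only [Polynomial.coeff_map, Ideal.Quotient.algebraMap_eq] at h3
  exact Ideal.Quotient.eq.mp h3

/-- Krull intersection, for polynomials over a noetherian local ring. -/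
theorem poly_eq_of_coeff_sub_mem_pow_h93 {O : Type*} [CommRing O] [IsNoetherianRing O]
    [IsLocalRing O] (p q : O[X])
    (h : ∀ n k : ℕ, p.coeff k - q.coeff k ∈ IsLocalRing.maximalIdeal O ^ n) : p = q := by
  ext k
  have hbot : ⨅ i : ℕ, IsLocalRing.maximalIdeal O ^ i = ⊥ :=
    Ideal.iInf_pow_eq_bot_of_isLocalRing _ (Ideal.IsMaximal.ne_top inferInstance)
  have hmem : p.coeff k - q.coeff k ∈ ⨅ i : ℕ, IsLocalRing.maximalIdeal O ^ i := by
    rw [Ideal.mem_iInf]
    exact fun n => h n k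
  rw [hbot, Ideal.mem_bot] at hmem
  exact sub_eq_zero.mp hmem

end Algebra

section Galois

variable {A : Type} [CommRing A]

/-- `ℚ̄` -/
local notation "Qb" => AlgebraicClosure ℚ

/-- `Gal(ℚ̄/ℚ)` -/
local notation "GQ" => (AlgebraicClosure ℚ ≃ₐ[ℚ] AlgebraicClosure ℚ)

/-- If `ρ` is trivial modulo `I` on the elements fixing `L` and `τ = σ` on `L`, then
`ρ τ ≡ ρ σ` modulo `I`. -/
theorem rho_sub_mem_of_eqOn_h93 {V : Type} [AddCommGroup V] [Module A V]
    (ρ : GQ →* Module.End A V) (I : Ideal A) (L : IntermediateField ℚ Qb)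
    (hL : ∀ δ : GQ, (∀ x ∈ L, δ x = x) → ∀ v : V, ρ δ v - v ∈ I • (⊤ : Submodule A V))
    (σ τ : GQ) (hστ : ∀ x ∈ L, τ x = σ x) (v : V) :
    ρ τ v - ρ σ v ∈ I • (⊤ : Submodule A V) := by
  have hδ : ∀ x ∈ L, (σ⁻¹ * τ) x = x := by
    intro x hx
    rw [AlgEquiv.mul_apply, hστ x hx]
    exact σ.symm_apply_apply x
  have h1 := hL (σ⁻¹ * τ) hδ v
  have h2 : ρ τ v - ρ σ v = ρ σ (ρ (σ⁻¹ * τ) v - v) := by
    rw [map_sub, ← Module.End.mul_apply, ← map_mul, mul_inv_cancel_left]
  rw [h2]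
  exact map_mem_smul_top_h93 I (ρ σ) h1

end Galois

section Main

/-- `ℚ̄` -/
local notation "Qb" => AlgebraicClosure ℚ

/-- `Gal(ℚ̄/ℚ)` -/
local notation "GQ" => (AlgebraicClosure ℚ ≃ₐ[ℚ] AlgebraicClosure ℚ)

/-- **Leaf CHEB, abstract form.**  Let `G ⊆ Gal(ℚ̄/ℚ)` be a set of elements at which the
characteristic polynomials of `ρ₁` and `ρ₂` agree, and assume that every `σ` agrees with an
element of `G` on every finite extension of `ℚ` (Chebotarev).  Then the characteristic
polynomials agree everywhere. -/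
theorem charpoly_eq_of_approx_h93 {O : Type} [CommRing O] [IsLocalRing O] [IsNoetherianRing O]
    (ρ₁ ρ₂ : GaloisRepAdic O) (G : Set GQ)
    (hG : ∀ τ ∈ G, LinearMap.charpoly (ρ₁.ρ τ) = LinearMap.charpoly (ρ₂.ρ τ))
    (happrox : ∀ (E : IntermediateField ℚ Qb), FiniteDimensional ℚ E → ∀ σ : GQ,
      ∃ τ ∈ G, ∀ x ∈ E, τ x = σ x)
    (σ : GQ) : LinearMap.charpoly (ρ₁.ρ σ) = LinearMap.charpoly (ρ₂.ρ σ) := by
  refine poly_eq_of_coeff_sub_mem_pow_h93 _ _ fun n k => ?_
  obtain ⟨L₁, hL₁, h₁⟩ := ρ₁.isAdicContinuous n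
  obtain ⟨L₂, hL₂, h₂⟩ := ρ₂.isAdicContinuous n
  have hfin : FiniteDimensional ℚ (L₁ ⊔ L₂ : IntermediateField ℚ Qb) :=
    IntermediateField.finiteDimensional_sup L₁ L₂
  obtain ⟨τ, hτG, hτ⟩ := happrox (L₁ ⊔ L₂) hfin σ
  have hτ₁ : ∀ x ∈ L₁, τ x = σ x := fun x hx => hτ x ((le_sup_left : L₁ ≤ L₁ ⊔ L₂) hx)
  have hτ₂ : ∀ x ∈ L₂, τ x = σ x := fun x hx => hτ x ((le_sup_right : L₂ ≤ L₁ ⊔ L₂) hx)
  have c₁ := charpoly_coeff_sub_mem_h93 (IsLocalRing.maximalIdeal O ^ n) (ρ₁.ρ τ) (ρ₁.ρ σ)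
    (rho_sub_mem_of_eqOn_h93 ρ₁.ρ _ L₁ h₁ σ τ hτ₁) k
  have c₂ := charpoly_coeff_sub_mem_h93 (IsLocalRing.maximalIdeal O ^ n) (ρ₂.ρ τ) (ρ₂.ρ σ)
    (rho_sub_mem_of_eqOn_h93 ρ₂.ρ _ L₂ h₂ σ τ hτ₂) k
  rw [hG τ hτG] at c₁
  have : (LinearMap.charpoly (ρ₁.ρ σ)).coeff k - (LinearMap.charpoly (ρ₂.ρ σ)).coeff k =
      ((LinearMap.charpoly (ρ₂.ρ τ)).coeff k - (LinearMap.charpoly (ρ₂.ρ σ)).coeff k) -
      ((LinearMap.charpoly (ρ₂.ρ τ)).coeff k - (LinearMap.charpoly (ρ₁.ρ σ)).coeff k) := by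
    ring
  rw [this]
  exact Ideal.sub_mem _ c₂ c₁

end Main

end Fermat.Agent.S58.H93

end
-- ===== PACK-END S58/H93/ChebCore.lean

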