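import Mathlib
import Fermat.Prelude.Def_CuspForm_Newforms
import Fermat.Prelude.Def_CuspForm_HeckeAlgebra
import Mathlib.AlgebraicGeometry.Modules.Tilde
import Mathlib.RingTheory.IsTensorProduct
import Mathlib.Algebra.Category.ModuleCat.Sheaf.Quasicoherent
import Fermat.Prelude.Def_AlgebraicGeometry_RelativePicardFunctor
import Fermat.Prelude.Def_AlgebraicGeometry_RepresentsRelSubPic
import Fermat.Prelude.Def_AlgebraicGeometry_RelPicardAlgEquivZeroCut
import Fermat.Agent.Pack.S43GC.G0E14L2
import Fermat.Agent.Pack.S44C.G0E21L3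
import Fermat.Agent.Pack.S43MC.G1E0L0
import Fermat.Agent.Pack.S44C.G0E30L1
import Fermat.Agent.Pack.S44C.G0E30L3
import Fermat.Agent.Pack.S44C.G0E31L0

-- ===== PACK-BEGIN S18/H876/Kummer.lean
section


/-!
# S18 / d2 : Kummer descent along an extension of degree prime to `m`

`K` algebraically closed, `E ≤ F` intermediate fields of `Ω/K` with `[F : E]` finite and prime to
`m`.  If `y ∈ F` and `y ^ m ∈ E` then `y ∈ E`.
-/

set_option autoImplicit false

namespace Fermat.Agent.S18.H876

/-- Over an algebraically closed base field every root of unity of an extension field lies in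
the base field. -/
theorem mem_range_algebraMap_of_pow_eq_one {K Ω : Type*} [Field K] [Field Ω] [Algebra K Ω]
    [IsAlgClosed K] {ζ : Ω} {m : ℕ} (hm : 0 < m) (h : ζ ^ m = 1) :
    ζ ∈ Set.range (algebraMap K Ω) := by
  have hint : IsIntegral K ζ := by
    refine ⟨Polynomial.X ^ m - 1, Polynomial.monic_X_pow_sub_C (1 : K) hm.ne', ?_⟩
    simp [h]
  have hirr := minpoly.irreducible hint
  have hdeg := IsAlgClosed.degree_eq_one_of_irreducible K hirr
  have := (minpoly.degree_eq_one_iff (A := K) (x := ζ)).1 hdeg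
  simpa using this

/-- **Kummer descent.**  -/
theorem mem_of_pow_mem_of_coprime {K Ω : Type*} [Field K] [Field Ω] [Algebra K Ω]
    [IsAlgClosed K] (E F : IntermediateField K Ω) (hEF : E ≤ F)
    [FiniteDimensional E (IntermediateField.extendScalars hEF)]
    (m : ℕ) (hm : 0 < m)
    (hcop : (Module.finrank E (IntermediateField.extendScalars hEF)).Coprime m)
    (y : Ω) (hy : y ∈ F) (hym : y ^ m ∈ E) : y ∈ E := by
  classical
  rcases eq_or_ne y 0 with rfl | hy0
  · exact E.zero_mem
  set F' : IntermediateField E Ω := IntermediateField.extendScalars hEF with hF'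
  set d : ℕ := Module.finrank E F' with hd
  have hyF' : y ∈ F' := (IntermediateField.mem_extendScalars hEF).2 hy
  set y' : F' := ⟨y, hyF'⟩ with hy'
  set n : E := Algebra.norm E y' with hn
  -- norm of `y' ^ m`
  have h1 : y' ^ m = algebraMap E F' ⟨y ^ m, hym⟩ := by
    apply Subtype.ext
    simp [hy']
  haveI : Module.Free E F' := Module.Free.of_divisionRing E F'
  have h2 : n ^ m = (⟨y ^ m, hym⟩ : E) ^ d := by
    rw [hn, ← map_pow, h1, Algebra.norm_algebraMap]
  have h3 : (n : Ω) ^ m = (y ^ d) ^ m := by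
    have := congrArg (fun e : E => (e : Ω)) h2
    simp only [SubmonoidClass.coe_pow] at this
    rw [this, ← pow_mul, ← pow_mul, mul_comm]
  -- the quotient is a root of unity, hence constant
  have hyd0 : y ^ d ≠ 0 := pow_ne_zero _ hy0
  have hζ : ((n : Ω) / y ^ d) ^ m = 1 := by
    rw [div_pow, h3, div_self (pow_ne_zero _ hyd0)]
  obtain ⟨c, hc⟩ := mem_range_algebraMap_of_pow_eq_one (K := K) hm hζ
  have hcE : (n : Ω) / y ^ d ∈ E := by
    rw [← hc]
    exact E.algebraMap_mem c
  have hn0 : (n : Ω) ≠ 0 := by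
    intro h0
    rw [h0, zero_div] at hζ
    rw [zero_pow hm.ne'] at hζ
    exact zero_ne_one hζ
  have hydE : y ^ d ∈ E := by
    have : y ^ d = (n : Ω) / ((n : Ω) / y ^ d) := by
      field_simp
    rw [this]
    exact E.div_mem n.2 hcE
  -- Bezout
  have hbez : (d : ℤ) * Nat.gcdA d m + (m : ℤ) * Nat.gcdB d m = 1 := by
    have := Nat.gcd_eq_gcd_ab d m
    rw [Nat.Coprime.gcd_eq_one hcop] at this
    exact_mod_cast this.symm
  have hy1 : y = (y ^ d) ^ (Nat.gcdA d m) * (y ^ m) ^ (Nat.gcdB d m) := by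
    rw [← zpow_natCast y d, ← zpow_natCast y m, ← zpow_mul, ← zpow_mul, ← zpow_add₀ hy0, hbez,
      zpow_one]
  rw [hy1]
  exact E.mul_mem (zpow_mem hydE _) (zpow_mem hym _)

/-- **Kummer descent, tower form.**  `K ⊆ E ⊆ F` fields, `K` algebraically closed, `[F : E]`
finite and prime to `m`.  If `y ∈ F` and `y ^ m` comes from `E`, then `y` comes from `E`. -/
theorem exists_algebraMap_eq_of_pow_eq {K E F : Type*} [Field K] [Field E] [Field F]
    [Algebra K E] [Algebra E F] [Algebra K F] [IsScalarTower K E F]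
    [IsAlgClosed K] [FiniteDimensional E F]
    (m : ℕ) (hm : 0 < m) (hcop : (Module.finrank E F).Coprime m)
    (y : F) (e : E) (hym : y ^ m = algebraMap E F e) : ∃ x : E, algebraMap E F x = y := by
  classical
  rcases eq_or_ne y 0 with rfl | hy0
  · exact ⟨0, map_zero _⟩
  set d : ℕ := Module.finrank E F with hd
  set n : E := Algebra.norm E y with hn
  haveI : Module.Free E F := Module.Free.of_divisionRing E F
  have h2 : n ^ m = e ^ d := by
    rw [hn, ← map_pow, hym, Algebra.norm_algebraMap]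
  have h3 : (algebraMap E F n) ^ m = (y ^ d) ^ m := by
    rw [← map_pow, h2, map_pow, ← hym, ← pow_mul, ← pow_mul, mul_comm]
  have hyd0 : y ^ d ≠ 0 := pow_ne_zero _ hy0
  have hζ : (algebraMap E F n / y ^ d) ^ m = 1 := by
    rw [div_pow, h3, div_self (pow_ne_zero _ hyd0)]
  obtain ⟨c, hc⟩ := mem_range_algebraMap_of_pow_eq_one (K := K) hm hζ
  have hn0 : algebraMap E F n ≠ 0 := by
    intro h0
    rw [h0, zero_div, zero_pow hm.ne'] at hζ
    exact zero_ne_one hζ
  have hc0 : algebraMap K E c ≠ 0 := by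
    intro h0
    have : algebraMap K F c = 0 := by
      rw [IsScalarTower.algebraMap_apply K E F, h0, map_zero]
    rw [this] at hc
    exact (div_ne_zero hn0 hyd0) hc.symm
  -- `y ^ d` comes from `E`
  have hydE : algebraMap E F (n / algebraMap K E c) = y ^ d := by
    rw [map_div₀, ← IsScalarTower.algebraMap_apply K E F, hc]
    field_simp
  -- Bezout
  have hbez : (d : ℤ) * Nat.gcdA d m + (m : ℤ) * Nat.gcdB d m = 1 := by
    have := Nat.gcd_eq_gcd_ab d m
    rw [Nat.Coprime.gcd_eq_one hcop] at this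
    exact_mod_cast this.symm
  refine ⟨(n / algebraMap K E c) ^ (Nat.gcdA d m) * e ^ (Nat.gcdB d m), ?_⟩
  rw [map_mul, map_zpow₀, map_zpow₀, hydE, ← hym, ← zpow_natCast y d, ← zpow_natCast y m,
    ← zpow_mul, ← zpow_mul, ← zpow_add₀ hy0, hbez, zpow_one]

end Fermat.Agent.S18.H876

end
-- ===== PACK-END S18/H876/Kummer.lean

-- ===== PACK-BEGIN Lib/Newform/H803/Group.lean
section


/-!
# Group theory in `SL(2, ℤ)` for the Atkin–Lehner main lemma (helper803)

* `GammaU N` : the subgroup `Γ⁰(N)` (upper right entry divisible by `N`);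
* `tU x` : the translation `[[1, x], [0, 1]]`, `tL x` its transpose;
* `comm_mem_Gamma` : `Γ(a)` and `Γ(b)` commute modulo `Γ(N)` when `N ∣ a * b`;
* `exists_mul_of_coprime` : `SL(2, ℤ) = Γ(a) Γ(b)` for coprime `a`, `b`;
* `exists_tU_mul_mem_GammaU` : `Γ⁰(N/p) ⊆ ⟨T^{N/p}⟩ Γ⁰(N) ⟨T^{N/p}⟩`;
* `exists_mul_of_mem_GammaU` : `Γ⁰(N/p) ⊆ (Γ(m) ∩ Γ⁰(N/p)) (Γ(P) ∩ Γ⁰(N))` for `N = P m` coprime, `p ∣ P`.
-/

set_option autoImplicit false

namespace Fermat.Agent.Lib.Newform.H803

open Matrix Matrix.SpecialLinearGroup CongruenceSubgroup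
open scoped MatrixGroups

/-- Upper unipotent `[[1, x], [0, 1]]`. -/
def tU (x : ℤ) : SL(2, ℤ) := ⟨!![1, x; 0, 1], by simp [Matrix.det_fin_two]⟩

/-- Lower unipotent `[[1, 0], [x, 1]]`. -/
def tL (x : ℤ) : SL(2, ℤ) := ⟨!![1, 0; x, 1], by simp [Matrix.det_fin_two]⟩

@[simp] theorem tU_apply_00 (x : ℤ) : (tU x) 0 0 = 1 := rfl
@[simp] theorem tU_apply_01 (x : ℤ) : (tU x) 0 1 = x := rfl
@[simp] theorem tU_apply_10 (x : ℤ) : (tU x) 1 0 = 0 := rfl
@[simp] theorem tU_apply_11 (x : ℤ) : (tU x) 1 1 = 1 := rfl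
@[simp] theorem tL_apply_00 (x : ℤ) : (tL x) 0 0 = 1 := rfl
@[simp] theorem tL_apply_01 (x : ℤ) : (tL x) 0 1 = 0 := rfl
@[simp] theorem tL_apply_10 (x : ℤ) : (tL x) 1 0 = x := rfl
@[simp] theorem tL_apply_11 (x : ℤ) : (tL x) 1 1 = 1 := rfl

theorem sl2_ext {A B : SL(2, ℤ)} (h00 : A 0 0 = B 0 0) (h01 : A 0 1 = B 0 1)
    (h10 : A 1 0 = B 1 0) (h11 : A 1 1 = B 1 1) : A = B := by
  ext i j
  fin_cases i <;> fin_cases j <;> assumption

theorem mul_apply_00 (A B : SL(2, ℤ)) : (A * B) 0 0 = A 0 0 * B 0 0 + A 0 1 * B 1 0 := by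
  simp [Matrix.mul_apply, Fin.sum_univ_two]
theorem mul_apply_01 (A B : SL(2, ℤ)) : (A * B) 0 1 = A 0 0 * B 0 1 + A 0 1 * B 1 1 := by
  simp [Matrix.mul_apply, Fin.sum_univ_two]
theorem mul_apply_10 (A B : SL(2, ℤ)) : (A * B) 1 0 = A 1 0 * B 0 0 + A 1 1 * B 1 0 := by
  simp [Matrix.mul_apply, Fin.sum_univ_two]
theorem mul_apply_11 (A B : SL(2, ℤ)) : (A * B) 1 1 = A 1 0 * B 0 1 + A 1 1 * B 1 1 := by
  simp [Matrix.mul_apply, Fin.sum_univ_two]

theorem inv_apply_00 (A : SL(2, ℤ)) : (A⁻¹) 0 0 = A 1 1 := by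
  simp [Matrix.SpecialLinearGroup.SL2_inv_expl]
theorem inv_apply_01 (A : SL(2, ℤ)) : (A⁻¹) 0 1 = - A 0 1 := by
  simp [Matrix.SpecialLinearGroup.SL2_inv_expl]
theorem inv_apply_10 (A : SL(2, ℤ)) : (A⁻¹) 1 0 = - A 1 0 := by
  simp [Matrix.SpecialLinearGroup.SL2_inv_expl]
theorem inv_apply_11 (A : SL(2, ℤ)) : (A⁻¹) 1 1 = A 0 0 := by
  simp [Matrix.SpecialLinearGroup.SL2_inv_expl]

theorem det_eq_one' (A : SL(2, ℤ)) : A 0 0 * A 1 1 - A 0 1 * A 1 0 = 1 := by
  have h := A.2
  rwa [Matrix.det_fin_two] at h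

theorem tU_add (x y : ℤ) : tU (x + y) = tU x * tU y := by
  apply sl2_ext <;> simp [mul_apply_00, mul_apply_01, mul_apply_10, mul_apply_11, add_comm]

theorem tU_zero : tU 0 = 1 := by
  apply sl2_ext <;> simp

theorem tU_neg (x : ℤ) : tU (-x) = (tU x)⁻¹ := by
  apply sl2_ext <;> simp [inv_apply_00, inv_apply_01, inv_apply_10, inv_apply_11]

theorem tL_add (x y : ℤ) : tL (x + y) = tL x * tL y := by
  apply sl2_ext <;> simp [mul_apply_00, mul_apply_01, mul_apply_10, mul_apply_11]

theorem tU_eq_T_zpow (x : ℤ) : tU x = ModularGroup.T ^ x := by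
  apply Subtype.ext
  rw [ModularGroup.coe_T_zpow]
  rfl

/-- `Γ⁰(N)`: the subgroup of matrices with upper right entry divisible by `N`. -/
def GammaU (N : ℕ) : Subgroup SL(2, ℤ) where
  carrier := { g | (N : ℤ) ∣ g 0 1 }
  one_mem' := by simp
  mul_mem' {a} {b} ha hb := by
    simp only [Set.mem_ofPred_eq] at *
    rw [mul_apply_01]
    exact dvd_add (Dvd.dvd.mul_left hb _) (Dvd.dvd.mul_right ha _)
  inv_mem' {a} ha := by
    simp only [Set.mem_ofPred_eq] at *
    rw [inv_apply_01]
    exact (dvd_neg).mpr ha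

@[simp] theorem mem_GammaU {N : ℕ} {g : SL(2, ℤ)} : g ∈ GammaU N ↔ (N : ℤ) ∣ g 0 1 := Iff.rfl

theorem GammaU_mono {M N : ℕ} (h : M ∣ N) : GammaU N ≤ GammaU M := by
  intro g hg
  rw [mem_GammaU] at *
  exact dvd_trans (Int.natCast_dvd_natCast.mpr h) hg

theorem mem_Gamma_iff_dvd {N : ℕ} {g : SL(2, ℤ)} :
    g ∈ Gamma N ↔ (N : ℤ) ∣ g 0 0 - 1 ∧ (N : ℤ) ∣ g 0 1 ∧ (N : ℤ) ∣ g 1 0 ∧ (N : ℤ) ∣ g 1 1 - 1 := by
  rw [Gamma_mem]
  simp only [ZMod.intCast_zmod_eq_zero_iff_dvd]
  have h1 : ∀ x : ℤ, ((x : ZMod N) = 1 ↔ (N : ℤ) ∣ x - 1) := by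
    intro x
    rw [← ZMod.intCast_zmod_eq_zero_iff_dvd]
    push_cast
    rw [sub_eq_zero]
  rw [h1, h1]

theorem Gamma_le_GammaU (N : ℕ) : Gamma N ≤ GammaU N := by
  intro g hg
  rw [mem_Gamma_iff_dvd] at hg
  exact hg.2.1

theorem Gamma_mono {M N : ℕ} (h : M ∣ N) : Gamma N ≤ Gamma M := by
  intro g hg
  rw [mem_Gamma_iff_dvd] at *
  have h' : (M : ℤ) ∣ (N : ℤ) := Int.natCast_dvd_natCast.mpr h
  exact ⟨dvd_trans h' hg.1, dvd_trans h' hg.2.1, dvd_trans h' hg.2.2.1, dvd_trans h' hg.2.2.2⟩

theorem tU_mem_Gamma {N : ℕ} {x : ℤ} (h : (N : ℤ) ∣ x) : tU x ∈ Gamma N := by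
  rw [mem_Gamma_iff_dvd]
  simp [h]

theorem tL_mem_Gamma {N : ℕ} {x : ℤ} (h : (N : ℤ) ∣ x) : tL x ∈ Gamma N := by
  rw [mem_Gamma_iff_dvd]
  simp [h]

theorem tU_mem_GammaU {N : ℕ} {x : ℤ} (h : (N : ℤ) ∣ x) : tU x ∈ GammaU N := by
  rw [mem_GammaU]; simpa using h

/-- `g * h⁻¹ ∈ Γ(N)` iff `g` and `h` are entrywise congruent modulo `N`. -/
theorem mul_inv_mem_Gamma_iff {N : ℕ} {g h : SL(2, ℤ)} :
    g * h⁻¹ ∈ Gamma N ↔ (N : ℤ) ∣ g 0 0 - h 0 0 ∧ (N : ℤ) ∣ g 0 1 - h 0 1 ∧
      (N : ℤ) ∣ g 1 0 - h 1 0 ∧ (N : ℤ) ∣ g 1 1 - h 1 1 := by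
  have key : g * h⁻¹ ∈ Gamma N ↔
      (Matrix.SpecialLinearGroup.map (Int.castRingHom (ZMod N))) g =
      (Matrix.SpecialLinearGroup.map (Int.castRingHom (ZMod N))) h := by
    rw [Gamma_mem', map_mul, map_inv, mul_inv_eq_one]
  rw [key]
  constructor
  · intro H
    have e : ∀ i j : Fin 2, ((g i j : ℤ) : ZMod N) = ((h i j : ℤ) : ZMod N) := by
      intro i j
      have := congrArg (fun A : SL(2, ZMod N) => A i j) H
      simpa using this
    have d : ∀ i j : Fin 2, (N : ℤ) ∣ g i j - h i j := by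
      intro i j
      rw [← ZMod.intCast_zmod_eq_zero_iff_dvd]
      push_cast
      rw [sub_eq_zero]
      exact e i j
    exact ⟨d 0 0, d 0 1, d 1 0, d 1 1⟩
  · rintro ⟨h00, h01, h10, h11⟩
    have e : ∀ a b : ℤ, (N : ℤ) ∣ a - b → ((a : ℤ) : ZMod N) = ((b : ℤ) : ZMod N) := by
      intro a b hab
      rw [← sub_eq_zero, ← Int.cast_sub, ZMod.intCast_zmod_eq_zero_iff_dvd]
      exact hab
    ext i j
    fin_cases i <;> fin_cases j
    · simpa using e _ _ h00
    · simpa using e _ _ h01
    · simpa using e _ _ h10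
    · simpa using e _ _ h11

/-- (G1) `Γ(a)` and `Γ(b)` commute modulo `Γ(N)` when `N ∣ a * b`. -/
theorem comm_mem_Gamma {N a b : ℕ} (hN : N ∣ a * b) {g h : SL(2, ℤ)}
    (hg : g ∈ Gamma a) (hh : h ∈ Gamma b) : (g * h) * (h * g)⁻¹ ∈ Gamma N := by
  rw [mul_inv_mem_Gamma_iff]
  rw [mem_Gamma_iff_dvd] at hg hh
  obtain ⟨⟨x, hx⟩, ⟨y, hy⟩, ⟨z, hz⟩, ⟨w, hw⟩⟩ := hg
  obtain ⟨⟨x', hx'⟩, ⟨y', hy'⟩, ⟨z', hz'⟩, ⟨w', hw'⟩⟩ := hh
  have hN' : (N : ℤ) ∣ (a : ℤ) * (b : ℤ) := by exact_mod_cast Int.natCast_dvd_natCast.mpr hN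
  have e00 : g 0 0 = 1 + a * x := by linarith
  have e11 : g 1 1 = 1 + a * w := by linarith
  have e00' : h 0 0 = 1 + b * x' := by linarith
  have e11' : h 1 1 = 1 + b * w' := by linarith
  simp only [mul_apply_00, mul_apply_01, mul_apply_10, mul_apply_11]
  rw [e00, e11, e00', e11', hy, hz, hy', hz']
  refine ⟨?_, ?_, ?_, ?_⟩
  · refine dvd_trans hN' ⟨y * z' - y' * z, by ring⟩
  · refine dvd_trans hN' ⟨x * y' + y * w' - x' * y - y' * w, by ring⟩
  · refine dvd_trans hN' ⟨z * x' + w * z' - z' * x - w' * z, by ring⟩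
  · refine dvd_trans hN' ⟨z * y' - z' * y, by ring⟩

/-- (Fact) `SL(2, ℤ) = Γ(a) ⊔ Γ(b)` for coprime `a`, `b`. -/
theorem Gamma_sup_Gamma_eq_top {a b : ℕ} (hab : Nat.Coprime a b) : Gamma a ⊔ Gamma b = ⊤ := by
  -- Bezout: every integer is `a x + b y`
  have bez : ∀ n : ℤ, ∃ x y : ℤ, n = a * x + b * y := by
    intro n
    have h : IsCoprime (a : ℤ) (b : ℤ) := Nat.isCoprime_iff_coprime.mpr hab
    obtain ⟨u, v, huv⟩ := h
    exact ⟨n * u, n * v, by linear_combination (-n) * huv⟩
  have hU : ∀ n : ℤ, tU n ∈ Gamma a ⊔ Gamma b := by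
    intro n
    obtain ⟨x, y, rfl⟩ := bez n
    rw [tU_add]
    exact Subgroup.mul_mem _
      (Subgroup.mem_sup_left (tU_mem_Gamma (Dvd.intro _ rfl)))
      (Subgroup.mem_sup_right (tU_mem_Gamma (Dvd.intro _ rfl)))
  have hL : ∀ n : ℤ, tL n ∈ Gamma a ⊔ Gamma b := by
    intro n
    obtain ⟨x, y, rfl⟩ := bez n
    rw [tL_add]
    exact Subgroup.mul_mem _
      (Subgroup.mem_sup_left (tL_mem_Gamma (Dvd.intro _ rfl)))
      (Subgroup.mem_sup_right (tL_mem_Gamma (Dvd.intro _ rfl)))
  have hT : ModularGroup.T ∈ Gamma a ⊔ Gamma b := by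
    have := hU 1
    rwa [tU_eq_T_zpow, zpow_one] at this
  have hS : ModularGroup.S ∈ Gamma a ⊔ Gamma b := by
    have e : ModularGroup.S = tU (-1) * tL 1 * tU (-1) := by
      apply sl2_ext <;>
        simp [mul_apply_00, mul_apply_01, mul_apply_10, mul_apply_11, ModularGroup.S]
    rw [e]
    exact Subgroup.mul_mem _ (Subgroup.mul_mem _ (hU _) (hL _)) (hU _)
  rw [eq_top_iff, ← SpecialLinearGroup.SL2Z_generators, Subgroup.closure_le]
  rintro g (rfl | rfl)
  · exact hS
  · exact hT

/-- (Fact), factorisation form. -/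
theorem exists_mul_of_coprime {a b : ℕ} (hab : Nat.Coprime a b) (g : SL(2, ℤ)) :
    ∃ g₁ ∈ Gamma a, ∃ g₂ ∈ Gamma b, g = g₁ * g₂ := by
  have hg : g ∈ Gamma a ⊔ Gamma b := by rw [Gamma_sup_Gamma_eq_top hab]; trivial
  have hn : (Gamma b).Normal := Gamma_normal b
  rw [Subgroup.mem_sup_of_normal_right] at hg
  obtain ⟨y, hy, z, hz, rfl⟩ := hg
  exact ⟨y, hy, z, hz, rfl⟩

/-- (G2), first case: if `p ∤ g 1 1` a left translation brings `g ∈ Γ⁰(d)` into `Γ⁰(p d)`. -/
theorem exists_tU_mul_mem_GammaU_aux {p d : ℕ} (hp : p.Prime) {g : SL(2, ℤ)}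
    (hg : g ∈ GammaU d) (h11 : ¬ (p : ℤ) ∣ g 1 1) :
    ∃ i : ℤ, tU (i * d) * g ∈ GammaU (p * d) := by
  rw [mem_GammaU] at hg
  obtain ⟨b₀, hb₀⟩ := hg
  have hcop : IsCoprime (g 1 1) (p : ℤ) :=
    ((Nat.prime_iff_prime_int.mp hp).coprime_iff_not_dvd.mpr h11).symm
  obtain ⟨u, v, huv⟩ := hcop
  refine ⟨-b₀ * u, ?_⟩
  rw [mem_GammaU, mul_apply_01]
  simp only [tU_apply_00, tU_apply_01, one_mul]
  rw [hb₀]
  refine ⟨b₀ * v, ?_⟩
  push_cast
  linear_combination (-(d : ℤ) * b₀) * huv

/-- (G2) `Γ⁰(N/p) ⊆ ⟨T^{N/p}⟩ Γ⁰(N) ⟨T^{N/p}⟩`. -/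
theorem exists_tU_mul_mem_GammaU {p d : ℕ} (hp : p.Prime) {g : SL(2, ℤ)}
    (hg : g ∈ GammaU d) :
    ∃ i j : ℤ, tU (i * d) * g * tU (j * d) ∈ GammaU (p * d) := by
  by_cases h11 : (p : ℤ) ∣ g 1 1
  · -- replace `g` by `g * tU d`
    have hg' : g * tU (1 * d) ∈ GammaU d :=
      Subgroup.mul_mem _ hg (tU_mem_GammaU (Dvd.intro_left _ rfl))
    have hdet := det_eq_one' g
    have hpP : Prime (p : ℤ) := Nat.prime_iff_prime_int.mp hp
    have hb : ¬ (p : ℤ) ∣ g 0 1 * g 1 0 := by
      intro hb
      have : (p : ℤ) ∣ 1 := by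
        rw [← hdet]
        exact dvd_sub (Dvd.dvd.mul_left h11 _) hb
      exact hpP.not_dvd_one this
    have hc : ¬ (p : ℤ) ∣ g 1 0 := fun h => hb (Dvd.dvd.mul_left h _)
    have hb' : ¬ (p : ℤ) ∣ g 0 1 := fun h => hb (Dvd.dvd.mul_right h _)
    have hd : ¬ (p : ℤ) ∣ (d : ℤ) := by
      intro hd
      rw [mem_GammaU] at hg
      exact hb' (dvd_trans hd hg)
    have h11' : ¬ (p : ℤ) ∣ (g * tU (1 * d)) 1 1 := by
      rw [mul_apply_11]
      simp only [tU_apply_01, tU_apply_11, one_mul, mul_one]
      intro h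
      have h2 : (p : ℤ) ∣ g 1 0 * d := by
        have := dvd_sub h h11
        simpa using this
      rcases hpP.dvd_or_dvd h2 with h3 | h3
      · exact hc h3
      · exact hd h3
    obtain ⟨i, hi⟩ := exists_tU_mul_mem_GammaU_aux hp hg' h11'
    exact ⟨i, 1, by rwa [← mul_assoc] at hi⟩
  · obtain ⟨i, hi⟩ := exists_tU_mul_mem_GammaU_aux hp hg h11
    refine ⟨i, 0, ?_⟩
    rw [zero_mul, tU_zero, mul_one]
    exact hi

/-- (G3) local factorisation of `Γ⁰(D)`, `m ∣ D ∣ P m`, `P` and `m` coprime. -/
theorem exists_mul_of_mem_GammaU {P m D : ℕ} (hPm : Nat.Coprime P m) (hmD : m ∣ D)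
    (hDN : D ∣ P * m) {g : SL(2, ℤ)} (hg : g ∈ GammaU D) :
    ∃ g₁ ∈ Gamma m ⊓ GammaU D, ∃ g₂ ∈ Gamma P ⊓ GammaU (P * m), g = g₁ * g₂ := by
  obtain ⟨g₁, hg₁, g₂, hg₂, rfl⟩ := exists_mul_of_coprime hPm.symm g
  have h₁ := mem_Gamma_iff_dvd.mp hg₁
  have h₂ := mem_Gamma_iff_dvd.mp hg₂
  rw [mem_GammaU, mul_apply_01] at hg
  have hmD' : (m : ℤ) ∣ (D : ℤ) := Int.natCast_dvd_natCast.mpr hmD
  have hDN' : (D : ℤ) ∣ ((P * m : ℕ) : ℤ) := Int.natCast_dvd_natCast.mpr hDN
  -- `m ∣ (g₂) 0 1`
  have hm2 : (m : ℤ) ∣ g₂ 0 1 := by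
    have h3 : (m : ℤ) ∣ g₁ 0 0 * g₂ 0 1 + g₁ 0 1 * g₂ 1 1 := dvd_trans hmD' hg
    have h4 : (m : ℤ) ∣ g₁ 0 0 * g₂ 0 1 := by
      have := dvd_sub h3 (Dvd.dvd.mul_right h₁.2.1 (g₂ 1 1))
      simpa using this
    have h5 : (m : ℤ) ∣ (g₁ 0 0 - 1) * g₂ 0 1 := Dvd.dvd.mul_right h₁.1 _
    have := dvd_sub h4 h5
    have e : g₁ 0 0 * g₂ 0 1 - (g₁ 0 0 - 1) * g₂ 0 1 = g₂ 0 1 := by ring
    rwa [e] at this
  have hN2 : ((P * m : ℕ) : ℤ) ∣ g₂ 0 1 := by
    push_cast
    exact IsCoprime.mul_dvd (Nat.isCoprime_iff_coprime.mpr hPm) h₂.2.1 hm2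
  have hD2 : (D : ℤ) ∣ g₂ 0 1 := dvd_trans hDN' hN2
  refine ⟨g₁, ⟨hg₁, ?_⟩, g₂, ⟨hg₂, hN2⟩, rfl⟩
  change (D : ℤ) ∣ g₁ 0 1
  -- `g₁ 0 1 = (g₁ 0 0 g₂ 0 1 + g₁ 0 1 g₂ 1 1) g₂ 0 0 - ... ` use determinant of `g₂`
  have hdet := det_eq_one' g₂
  have e : g₁ 0 1 = (g₁ 0 0 * g₂ 0 1 + g₁ 0 1 * g₂ 1 1) * g₂ 0 0
      - (g₁ 0 0 * g₂ 0 0 + g₁ 0 1 * g₂ 1 0) * g₂ 0 1 := by
    linear_combination (-(g₁ 0 1)) * hdet
  rw [e]
  exact dvd_sub (Dvd.dvd.mul_right hg _) (Dvd.dvd.mul_left hD2 _)

end Fermat.Agent.Lib.Newform.H803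

end
-- ===== PACK-END Lib/Newform/H803/Group.lean

-- ===== PACK-BEGIN Lib/Newform/H958/Spec.lean
section



/-!
# Shared library NEWFORM — frozen interface (all statements are `Prop`-valued definitions)

Prelude facts that make the whole library *Petersson-free*:

* `CuspForm.IsNormalizedEigenform` is a condition on the `q`-coefficients only;
* `CuspForm.IsNewform` / `IsNewformAt` mean: the eigensystem away from the level does not
  occur (for a normalized eigenform) at a smaller level;
* `⇑(heckeTLin k hp hpN f) = ModularForm.heckeT k p ⇑f` and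
  `⇑(heckeULin k hqN f) = ModularForm.heckeU k q ⇑f` hold by `rfl`, so the function-level
  Hecke operators do not depend on the level.

Leaf interfaces (to be proved by the blocks): `EigenT`, `EigenU`, `Incl`, `Occurs`,
`LowerU`, `TraceAL`.  The assembly (`MainOf.lean`) derives from them

* `CuspForm.NewformBadPrimeCoeff N` (and the `IsNewformAt` versions),
* descent to a newform, and
* monotonicity of the level (stabilisation) with control of all good eigenvalues.
-/

set_option autoImplicit false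

open CongruenceSubgroup
open scoped MatrixGroups

namespace Fermat.Agent.Lib.Newform.H958

/-- **E2T**: a normalized eigenform is an eigenvector of `T_p`, `p ∤ N`, with eigenvalue `a_p`. -/
def EigenT : Prop :=
  ∀ (N : ℕ) (g : CuspForm (Gamma0 N) 2), g.IsNormalizedEigenform →
    ∀ (p : ℕ) (hp : p.Prime) (hpN : ¬ p ∣ N),
      CuspForm.heckeTLin 2 hp hpN g = ModularFormClass.qCoeff g p • g

/-- **E2U**: a normalized eigenform is an eigenvector of `U_p`, `p ∣ N`, with eigenvalue `a_p`. -/
def EigenU : Prop :=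
  ∀ (N : ℕ) [NeZero N] (g : CuspForm (Gamma0 N) 2), g.IsNormalizedEigenform →
    ∀ (p : ℕ) (_ : p.Prime) (hpN : p ∣ N),
      CuspForm.heckeULin 2 hpN g = ModularFormClass.qCoeff g p • g

/-- **INCL**: a cusp form of level `M` is a cusp form of every level `C` with `M ∣ C`
(same function). -/
def Incl : Prop :=
  ∀ (M C : ℕ), M ∣ C → ∀ g : CuspForm (Gamma0 M) 2,
    ∃ h : CuspForm (Gamma0 C) 2, (⇑h : UpperHalfPlane → ℂ) = ⇑g

/-- **OCC**: if a nonzero cusp form of level `M` is an eigenvector of `T_ℓ` with eigenvalue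
`a ℓ` for all primes `ℓ ∤ M` in a set `P`, then there is a *normalized eigenform* of level `M`
with `a_ℓ = a ℓ` for all those `ℓ`. -/
def Occurs : Prop :=
  ∀ (M : ℕ) [NeZero M] (h : CuspForm (Gamma0 M) 2), h ≠ 0 →
    ∀ (P : Set ℕ) (a : ℕ → ℂ),
      (∀ (ℓ : ℕ) (hℓ : ℓ.Prime) (hℓM : ¬ ℓ ∣ M), ℓ ∈ P →
        CuspForm.heckeTLin 2 hℓ hℓM h = a ℓ • h) →
      ∃ g : CuspForm (Gamma0 M) 2, g.IsNormalizedEigenform ∧
        ∀ ℓ : ℕ, ℓ.Prime → ¬ ℓ ∣ M → ℓ ∈ P → ModularFormClass.qCoeff g ℓ = a ℓ

/-- **LOWER-U**: if `q² ∣ N` then `U_q` maps level `N` to level `N / q`. -/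
def LowerU : Prop :=
  ∀ (N q : ℕ) [NeZero N], q.Prime → q ^ 2 ∣ N → ∀ f : CuspForm (Gamma0 N) 2,
    ∃ g : CuspForm (Gamma0 (N / q)) 2,
      (⇑g : UpperHalfPlane → ℂ) = ModularForm.heckeU 2 q ⇑f

/-- **TRACE-AL**: for `q ∥ N` there is an operator `W` (the Atkin–Lehner involution `W_q`)
on level `N`, commuting with all `T_ℓ`, `ℓ ∤ N`, such that both `f + U_q (W f)`
(the trace of `f`) and `W f + U_q f` (the trace of `W f`) have level `N / q`. -/
def TraceAL : Prop :=
  ∀ (N q : ℕ) [NeZero N], q.Prime → q ∣ N → ¬ q ^ 2 ∣ N →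
    ∃ W : CuspForm (Gamma0 N) 2 →ₗ[ℂ] CuspForm (Gamma0 N) 2,
      (∀ (ℓ : ℕ) (hℓ : ℓ.Prime) (hℓN : ¬ ℓ ∣ N) (f : CuspForm (Gamma0 N) 2),
        W (CuspForm.heckeTLin 2 hℓ hℓN f) = CuspForm.heckeTLin 2 hℓ hℓN (W f)) ∧
      (∀ f : CuspForm (Gamma0 N) 2, ∃ g : CuspForm (Gamma0 (N / q)) 2,
        (⇑g : UpperHalfPlane → ℂ) = ⇑f + ModularForm.heckeU 2 q ⇑(W f)) ∧
      (∀ f : CuspForm (Gamma0 N) 2, ∃ g : CuspForm (Gamma0 (N / q)) 2,
        (⇑g : UpperHalfPlane → ℂ) = ⇑(W f) + ModularForm.heckeU 2 q ⇑f)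

/-! ## Targets (what the consumers use) -/

/-- **BAD-AT**: the coefficient at a bad prime of a form that is new at that prime. -/
def BadCoeffAt : Prop :=
  ∀ (N : ℕ) [NeZero N] (f : CuspForm (Gamma0 N) 2) (q : ℕ), q.Prime → f.IsNewformAt q →
    (¬ q ^ 2 ∣ N → ModularFormClass.qCoeff f q ^ 2 = 1) ∧
    (q ^ 2 ∣ N → ModularFormClass.qCoeff f q = 0)

/-- **BAD**: the Prelude's `NewformBadPrimeCoeff` at all positive levels. -/
def BadCoeff : Prop := ∀ (N : ℕ) [NeZero N], CuspForm.NewformBadPrimeCoeff N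

/-- **DESCENT**: every normalized eigenform comes from a newform of a level dividing its
level, with the same eigenvalues away from the level. -/
def Descent : Prop :=
  ∀ (N : ℕ) [NeZero N] (f : CuspForm (Gamma0 N) 2), f.IsNormalizedEigenform →
    ∃ (M : ℕ) (_ : M ∣ N) (g : CuspForm (Gamma0 M) 2), g.IsNewform ∧
      ∀ ℓ : ℕ, ℓ.Prime → ¬ ℓ ∣ N → ModularFormClass.qCoeff g ℓ = ModularFormClass.qCoeff f ℓ

/-- **STAB**: a normalized eigenform of level `M` gives a normalized eigenform of every
positive level `C` divisible by `M`, with the same eigenvalues at *all* primes `ℓ ∤ C`. -/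
def Stab : Prop :=
  ∀ (M C : ℕ) [NeZero C], M ∣ C → ∀ g : CuspForm (Gamma0 M) 2, g.IsNormalizedEigenform →
    ∃ g' : CuspForm (Gamma0 C) 2, g'.IsNormalizedEigenform ∧
      ∀ ℓ : ℕ, ℓ.Prime → ¬ ℓ ∣ C → ModularFormClass.qCoeff g' ℓ = ModularFormClass.qCoeff g ℓ

end Fermat.Agent.Lib.Newform.H958

end
-- ===== PACK-END Lib/Newform/H958/Spec.lean

-- ===== PACK-BEGIN S25/H806/GlueBasis.lean
section


/-!
# S25 / block GLUE / leaf G1 (helper806): morphisms of `𝒪_X`-modules glue — basis form

`existsUnique_hom_of_basis`: a family of additive, `𝒪`-linear maps `Γ(M, B i) ⟶ Γ(N, B i)` on a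
basis `B` of opens, compatible with restrictions between members of the basis, is the family of
components of a unique morphism of `𝒪_X`-modules `M ⟶ N`.
-/

set_option autoImplicit false

open CategoryTheory AlgebraicGeometry TopologicalSpace Opposite

universe u

namespace Fermat.Agent.S25.H806

variable {X : Scheme.{u}}

/-- Two morphisms of `𝒪_X`-modules that agree on a basis of opens are equal. -/
theorem hom_ext_of_basis {ι : Type*} {B : ι → X.Opens} (hB : Opens.IsBasis (Set.range B))
    {M N : X.Modules} (φ ψ : M ⟶ N) (h : ∀ i, φ.app (B i) = ψ.app (B i)) : φ = ψ := by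
  apply (Scheme.Modules.toPresheaf X).map_injective
  exact TopCat.Sheaf.hom_ext (F := M.presheaf) (F' := ⟨N.presheaf, N.isSheaf⟩) hB
    (α := (Scheme.Modules.toPresheaf X).map φ) (β := (Scheme.Modules.toPresheaf X).map ψ)
    (fun i => h i)

/-- Sections of an `𝒪_X`-module over `W` which agree on all members of a basis contained in `W`
are equal. -/
theorem section_ext_of_basis {ι : Type*} {B : ι → X.Opens} (hB : Opens.IsBasis (Set.range B))
    (N : X.Modules) (W : X.Opens) (s t : Γ(N, W))
    (h : ∀ i (hi : B i ≤ W), N.presheaf.map (homOfLE hi).op s = N.presheaf.map (homOfLE hi).op t) :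
    s = t := by
  refine TopCat.Sheaf.eq_of_locally_eq' (F := ⟨N.presheaf, N.isSheaf⟩)
    (fun i : {i // B i ≤ W} => B i.1) W (fun i => homOfLE i.2) ?_ s t (fun i => h i.1 i.2)
  intro x hx
  obtain ⟨U', ⟨i, rfl⟩, hxU, hUW⟩ := Opens.isBasis_iff_nbhd.mp hB hx
  exact Opens.mem_iSup.mpr ⟨⟨i, hUW⟩, hxU⟩

/-- **G1, basis form.**  A family of additive maps `α i : Γ(M, B i) ⟶ Γ(N, B i)` indexed by a
basis `B` of the opens of `X`, compatible with the restriction maps between members of the basis
and linear over the structure sheaf, glues to a unique morphism of `𝒪_X`-modules. -/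
theorem existsUnique_hom_of_basis {ι : Type*} {B : ι → X.Opens}
    (hB : Opens.IsBasis (Set.range B)) (M N : X.Modules)
    (α : ∀ i, Γ(M, B i) ⟶ Γ(N, B i))
    (hnat : ∀ i j (h : B i ≤ B j),
      M.presheaf.map (homOfLE h).op ≫ α i = α j ≫ N.presheaf.map (homOfLE h).op)
    (hlin : ∀ i (r : Γ(X, B i)) (x : Γ(M, B i)), α i (r • x) = r • α i x) :
    ∃! φ : M ⟶ N, ∀ i, φ.app (B i) = α i := by
  -- the natural transformation on the basis
  let α' : (inducedFunctor B).op ⋙ M.presheaf ⟶ (inducedFunctor B).op ⋙ N.presheaf :=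
    { app := fun i => α i.unop
      naturality := by
        rintro ⟨j⟩ ⟨i⟩ f
        exact (hnat i j (leOfHom f.unop.hom)).symm ▸ rfl }
  let NS : TopCat.Sheaf Ab X := ⟨N.presheaf, N.isSheaf⟩
  let ψ : M.presheaf ⟶ N.presheaf := TopCat.Sheaf.restrictHomEquivHom M.presheaf NS hB α'
  have hψ : ∀ i, ψ.app (op (B i)) = α i := fun i =>
    TopCat.Sheaf.extend_hom_app M.presheaf NS hB α' i
  have hψlin : ∀ (W : X.Opens) (r : Γ(X, W)) (m : Γ(M, W)),
      ψ.app (op W) (r • m) = r • ψ.app (op W) m := by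
    intro W r m
    refine section_ext_of_basis hB N W _ _ (fun i hi => ?_)
    have e1 := ConcreteCategory.congr_hom (ψ.naturality (homOfLE hi).op) (r • m)
    have e2 := ConcreteCategory.congr_hom (ψ.naturality (homOfLE hi).op) m
    simp only [ConcreteCategory.comp_apply] at e1 e2
    rw [← e1, Scheme.Modules.map_smul M (homOfLE hi) r m,
      Scheme.Modules.map_smul N (homOfLE hi) r, ← e2, hψ i]
    exact hlin i _ _
  refine ⟨⟨PresheafOfModules.homMk (M₁ := M.val) (M₂ := N.val) ψ
    (fun W r m => hψlin W.unop r m)⟩, fun i => ?_, fun φ' hφ' => ?_⟩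
  · ext x
    exact congrArg (fun f => f x) (hψ i)
  · exact hom_ext_of_basis hB _ _ fun i => by
      rw [hφ' i]
      ext x
      exact (congrArg (fun f => f x) (hψ i)).symm

end Fermat.Agent.S25.H806

end
-- ===== PACK-END S25/H806/GlueBasis.lean

-- ===== PACK-BEGIN S25/H207/SmoothDVR.lean
section


/-!
# Local rings of a smooth curve over an algebraically closed field are DVRs (algebra core)

Block CURVE, leaf C1 (algebra): let `k` be algebraically closed and `B` a standard smooth
`k`-algebra of relative dimension `1` which is a domain.  Then the localisation of `B` at every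
maximal ideal is a discrete valuation ring; consequently `B` is a Dedekind domain and not a field.

Proof: for a maximal ideal `m` the residue field is `k` (Nullstellensatz), so `B/m² → B/m` has a
`k`-algebra section, hence `m/m² → (B/m) ⊗ Ω[B/k]` is injective; the target is generated by one
element because `Ω[B/k]` is free of rank one.  Nakayama then shows that `m B_m` is principal.
-/

set_option autoImplicit false

open TensorProduct

namespace Fermat.Agent.S25.H207

section

variable (k : Type*) {B : Type*} [Field k] [IsAlgClosed k] [CommRing B] [Algebra k B]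

/-- Nullstellensatz: the residue field of a finite type `k`-algebra at a maximal ideal is `k`. -/
theorem algebraMap_quotient_bijective [Algebra.FiniteType k B] (m : Ideal B) [hm : m.IsMaximal] :
    Function.Bijective (algebraMap k (B ⧸ m)) := by
  let _ := Ideal.Quotient.field m
  have hfin : Module.Finite k (B ⧸ m) := finite_of_finite_type_of_isJacobsonRing k (B ⧸ m)
  exact IsAlgClosed.algebraMap_bijective_of_isIntegral

/-- `m/m² → (B/m) ⊗ Ω[B/k]` is injective for a maximal ideal `m` of a finite type algebra over an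
algebraically closed field. -/
theorem kerCotangentToTensor_injective [Algebra.FiniteType k B] (m : Ideal B) [hm : m.IsMaximal] :
    Function.Injective (KaehlerDifferential.kerCotangentToTensor k B (B ⧸ m)) := by
  have hbij := algebraMap_quotient_bijective k m
  have hsurj : Function.Surjective (algebraMap B (B ⧸ m)) := Ideal.Quotient.mk_surjective
  let e : k ≃ₐ[k] (B ⧸ m) := AlgEquiv.ofBijective (Algebra.ofId k (B ⧸ m)) hbij
  let g : (B ⧸ m) →ₐ[k] B ⧸ (RingHom.ker (IsScalarTower.toAlgHom k B (B ⧸ m)).toRingHom ^ 2) :=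
    (Algebra.ofId k _).comp (e.symm : (B ⧸ m) →ₐ[k] k)
  have hg : (IsScalarTower.toAlgHom k B (B ⧸ m)).kerSquareLift.comp g = AlgHom.id k (B ⧸ m) := by
    ext x
    obtain ⟨y, rfl⟩ := e.surjective x
    simp only [g, AlgHom.comp_apply, AlgHom.id_apply]
    rw [Algebra.ofId_apply, AlgHom.commutes]
    have h1 : ((e.symm : (B ⧸ m) →ₐ[k] k) (e y)) = y := e.symm_apply_apply y
    rw [h1]
    rfl
  obtain ⟨l, hl⟩ := (retractionKerCotangentToTensorEquivSection (R := k) hsurj).symm ⟨g, hg⟩
  intro x y hxy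
  have := congrArg l hxy
  rw [← LinearMap.comp_apply, ← LinearMap.comp_apply, hl] at this
  exact this

end

section


/-- `(B/m) ⊗ Ω[B/k]` is generated by one element. -/
theorem exists_generator_tensor_kaehler (k : Type*) {B : Type*} [Field k] [IsAlgClosed k]
    [CommRing B] [IsDomain B] [Algebra k B] [Algebra.IsStandardSmoothOfRelativeDimension 1 k B]
    (m : Ideal B) :
    ∃ w₀ : (B ⧸ m) ⊗[B] Ω[B⁄k], ∀ w : (B ⧸ m) ⊗[B] Ω[B⁄k], ∃ c : B, c • w₀ = w := by
  have hss : Algebra.IsStandardSmooth k B :=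
    Algebra.IsStandardSmoothOfRelativeDimension.isStandardSmooth 1
  have hfree : Module.Free B Ω[B⁄k] := Algebra.IsStandardSmooth.free_kaehlerDifferential
  have hrank : Module.rank B Ω[B⁄k] = 1 := by
    have := Algebra.IsStandardSmoothOfRelativeDimension.rank_kaehlerDifferential (R := k) (S := B) 1
    simpa using this
  obtain ⟨ω₀, -, hω₀⟩ := rank_eq_one_iff.mp hrank
  refine ⟨(1 : B ⧸ m) ⊗ₜ[B] ω₀, ?_⟩
  intro w
  induction w using TensorProduct.induction_on with
  | zero => exact ⟨0, by simp⟩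
  | tmul a ω =>
    obtain ⟨a', rfl⟩ := Ideal.Quotient.mk_surjective a
    obtain ⟨r, rfl⟩ := hω₀ ω
    refine ⟨a' * r, ?_⟩
    rw [TensorProduct.tmul_smul, TensorProduct.smul_tmul', mul_smul, TensorProduct.smul_tmul']
    congr 1
    rw [Algebra.smul_def, Algebra.smul_def, Algebra.smul_def, mul_one, mul_comm]
    rfl
  | add x y hx hy =>
    obtain ⟨c, hc⟩ := hx
    obtain ⟨d, hd⟩ := hy
    exact ⟨c + d, by rw [add_smul, hc, hd]⟩

/-- The cotangent space `m/m²` at a maximal ideal is generated by one element: there is `t ∈ m`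
with `m ≤ (t) + m²`. -/
theorem exists_le_span_sup_sq (k : Type*) {B : Type*} [Field k] [IsAlgClosed k]
    [CommRing B] [IsDomain B] [Algebra k B] [Algebra.IsStandardSmoothOfRelativeDimension 1 k B]
    (m : Ideal B) [hm : m.IsMaximal] :
    ∃ t ∈ m, m ≤ Ideal.span {t} ⊔ m ^ 2 := by
  classical
  have hft : Algebra.FiniteType k B :=
    have : Algebra.IsStandardSmooth k B :=
      Algebra.IsStandardSmoothOfRelativeDimension.isStandardSmooth 1
    inferInstance
  have hker : RingHom.ker (algebraMap B (B ⧸ m)) = m := Ideal.mk_ker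
  set I := RingHom.ker (algebraMap B (B ⧸ m)) with hI
  have hinj : Function.Injective (KaehlerDifferential.kerCotangentToTensor k B (B ⧸ m)) :=
    kerCotangentToTensor_injective k m
  obtain ⟨w₀, hw₀⟩ := exists_generator_tensor_kaehler k m
  -- the cotangent space is cyclic
  have hcyc : ∃ u₀ : I.Cotangent, ∀ v : I.Cotangent, ∃ c : B, c • u₀ = v := by
    by_cases hall : ∀ v : I.Cotangent, v = 0
    · exact ⟨0, fun v => ⟨0, by rw [hall v]; simp⟩⟩
    · push Not at hall
      obtain ⟨u, hu⟩ := hall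
      refine ⟨u, fun v => ?_⟩
      set φ := KaehlerDifferential.kerCotangentToTensor k B (B ⧸ m) with hφ
      obtain ⟨a, ha⟩ := hw₀ (φ u)
      obtain ⟨b, hb⟩ := hw₀ (φ v)
      -- `a ∉ m`, since otherwise `φ u = 0`
      have ha_notin : a ∉ m := by
        intro ham
        apply hu
        apply hinj
        rw [map_zero, ← ha]
        -- `a • w₀ = 0` since `a` kills `(B/m) ⊗ _`
        have : ∀ w : (B ⧸ m) ⊗[B] Ω[B⁄k], a • w = 0 := by
          intro w
          induction w using TensorProduct.induction_on with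
          | zero => simp
          | tmul x y =>
            rw [TensorProduct.smul_tmul']
            have : a • x = 0 := by
              rw [Algebra.smul_def]
              have : algebraMap B (B ⧸ m) a = 0 := Ideal.Quotient.eq_zero_iff_mem.mpr ham
              rw [this, zero_mul]
            rw [this, TensorProduct.zero_tmul]
          | add x y hx hy => rw [smul_add, hx, hy, add_zero]
        exact this w₀
      -- invert `a` modulo `m`
      obtain ⟨a', ha'⟩ : ∃ a' : B, a' * a - 1 ∈ m := by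
        have hmax := hm
        obtain ⟨y, hy⟩ := Ideal.IsMaximal.exists_inv hm ha_notin
        obtain ⟨i, hi, hyi⟩ := hy
        refine ⟨y, ?_⟩
        have : y * a - 1 = -i := by linear_combination hyi
        rw [this]
        exact neg_mem hi
      refine ⟨b * a', ?_⟩
      apply hinj
      rw [map_smul, ← ha, ← hb, smul_smul]
      -- `(b a' a) • w₀ = b • w₀` since `a' a ≡ 1 mod m`
      have hkill : ∀ (z : B), z ∈ m → ∀ w : (B ⧸ m) ⊗[B] Ω[B⁄k], z • w = 0 := by
        intro z hz w
        induction w using TensorProduct.induction_on with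
        | zero => simp
        | tmul x y =>
          rw [TensorProduct.smul_tmul']
          have : z • x = 0 := by
            rw [Algebra.smul_def]
            have : algebraMap B (B ⧸ m) z = 0 := Ideal.Quotient.eq_zero_iff_mem.mpr hz
            rw [this, zero_mul]
          rw [this, TensorProduct.zero_tmul]
        | add x y hx hy => rw [smul_add, hx, hy, add_zero]
      have h1 : (b * a' * a) • w₀ = b • w₀ + (b * (a' * a - 1)) • w₀ := by
        rw [← add_smul]
        congr 1
        ring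
      rw [h1, hkill _ (Ideal.mul_mem_left _ _ ha'), add_zero]
  obtain ⟨u₀, hu₀⟩ := hcyc
  obtain ⟨t, rfl⟩ := I.toCotangent_surjective u₀
  refine ⟨t.1, hker ▸ t.2, ?_⟩
  intro x hx
  have hxI : x ∈ I := hker.symm ▸ hx
  obtain ⟨c, hc⟩ := hu₀ (I.toCotangent ⟨x, hxI⟩)
  rw [← map_smul] at hc
  have h2 := (Ideal.toCotangent_eq I).mp hc
  have h3 : x = c * t.1 - ((c • t : I).1 - x) := by
    simp
  rw [h3]
  refine sub_mem (Ideal.mem_sup_left (Ideal.mem_span_singleton'.mpr ⟨c, rfl⟩)) ?_
  refine Ideal.mem_sup_right ?_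
  have : m ^ 2 = I ^ 2 := by rw [hker]
  rw [this]
  exact h2

/-- A maximal ideal of `B` is nonzero. -/
theorem maximal_ne_bot_of_standardSmooth (k : Type*) {B : Type*} [Field k] [IsAlgClosed k]
    [CommRing B] [IsDomain B] [Algebra k B] [Algebra.IsStandardSmoothOfRelativeDimension 1 k B]
    (m : Ideal B) [hm : m.IsMaximal] : m ≠ ⊥ := by
  have hss : Algebra.IsStandardSmooth k B :=
    Algebra.IsStandardSmoothOfRelativeDimension.isStandardSmooth 1
  have hft : Algebra.FiniteType k B := inferInstance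
  intro h0
  -- `m = ⊥`, so `k → B` is surjective and `Ω = 0`
  have hbij := algebraMap_quotient_bijective k m
  have hsurj : Function.Surjective (algebraMap k B) := by
    intro b
    obtain ⟨c, hc⟩ := hbij.2 (Ideal.Quotient.mk m b)
    refine ⟨c, ?_⟩
    have h1 : Ideal.Quotient.mk m (algebraMap k B c) = Ideal.Quotient.mk m b := by
      rw [← hc]; rfl
    have h2 := (Ideal.Quotient.eq).mp h1
    rw [h0, Ideal.mem_bot, sub_eq_zero] at h2
    exact h2
  have hsub : Subsingleton Ω[B⁄k] := KaehlerDifferential.subsingleton_of_surjective k B hsurj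
  have hrank : Module.rank B Ω[B⁄k] = 1 := by
    have := Algebra.IsStandardSmoothOfRelativeDimension.rank_kaehlerDifferential
      (R := k) (S := B) 1
    simpa using this
  rw [rank_subsingleton'] at hrank
  exact zero_ne_one hrank

/-- `B` is not a field. -/
theorem not_isField_of_standardSmooth (k : Type*) {B : Type*} [Field k] [IsAlgClosed k]
    [CommRing B] [IsDomain B] [Algebra k B] [Algebra.IsStandardSmoothOfRelativeDimension 1 k B] :
    ¬ IsField B := by
  intro hf
  have hm : (⊥ : Ideal B).IsMaximal := by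
    letI := hf.toField
    exact Ideal.bot_isMaximal
  exact maximal_ne_bot_of_standardSmooth k (⊥ : Ideal B) rfl

/-- **The localisation of a standard smooth (relative dimension one) domain over an algebraically
closed field at a maximal ideal is a discrete valuation ring.** -/
theorem isDiscreteValuationRing_of_isLocalization (k : Type*) {B : Type*} [Field k]
    [IsAlgClosed k] [CommRing B] [IsDomain B] [Algebra k B]
    [Algebra.IsStandardSmoothOfRelativeDimension 1 k B]
    (m : Ideal B) [hm : m.IsMaximal]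
    (R : Type*) [CommRing R] [IsDomain R] [Algebra B R] [IsLocalization.AtPrime R m] :
    IsDiscreteValuationRing R := by
  have hss : Algebra.IsStandardSmooth k B :=
    Algebra.IsStandardSmoothOfRelativeDimension.isStandardSmooth 1
  have hft : Algebra.FiniteType k B := inferInstance
  have hBn : IsNoetherianRing B := Algebra.FiniteType.isNoetherianRing k B
  have hRn : IsNoetherianRing R := IsLocalization.isNoetherianRing m.primeCompl R hBn
  have hRl : IsLocalRing R := IsLocalization.AtPrime.isLocalRing R m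
  have hinjBR : Function.Injective (algebraMap B R) :=
    IsLocalization.injective R (Ideal.primeCompl_le_nonZeroDivisors m)
  have hmax : Ideal.map (algebraMap B R) m = IsLocalRing.maximalIdeal R :=
    IsLocalization.AtPrime.map_eq_maximalIdeal m R
  -- not a field
  have hnf : ¬ IsField R := by
    intro hf
    have h0 : IsLocalRing.maximalIdeal R = ⊥ := IsLocalRing.isField_iff_maximalIdeal_eq.mp hf
    rw [← hmax, Ideal.map_eq_bot_iff_of_injective hinjBR] at h0
    exact maximal_ne_bot_of_standardSmooth k m h0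
  -- principal maximal ideal
  obtain ⟨t, htm, hle⟩ := exists_le_span_sup_sq k m
  have hprinc : (IsLocalRing.maximalIdeal R).IsPrincipal := by
    refine ⟨⟨algebraMap B R t, ?_⟩⟩
    apply le_antisymm
    · have hfg : (IsLocalRing.maximalIdeal R).FG := (isNoetherianRing_iff_ideal_fg R).mp hRn _
      have h1 : IsLocalRing.maximalIdeal R ≤
          Ideal.span {algebraMap B R t} ⊔
            (IsLocalRing.maximalIdeal R) • (IsLocalRing.maximalIdeal R) := by
        rw [← hmax]
        have := Ideal.map_mono (f := algebraMap B R) hle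
        rw [Ideal.map_sup, Ideal.map_span, Set.image_singleton, Ideal.map_pow, pow_two] at this
        exact this
      exact Submodule.le_of_le_smul_of_le_jacobson_bot hfg
        (IsLocalRing.maximalIdeal_le_jacobson ⊥) h1
    · rw [Ideal.submodule_span_eq, Ideal.span_le, Set.singleton_subset_iff, ← hmax]
      exact Ideal.mem_map_of_mem _ htm
  exact ((IsDiscreteValuationRing.TFAE R hnf).out 0 4).mpr hprinc

/-- **`B` is a Dedekind domain.** -/
theorem isDedekindDomain_of_standardSmooth (k : Type*) {B : Type*} [Field k] [IsAlgClosed k]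
    [CommRing B] [IsDomain B] [Algebra k B] [Algebra.IsStandardSmoothOfRelativeDimension 1 k B] :
    IsDedekindDomain B := by
  have hss : Algebra.IsStandardSmooth k B :=
    Algebra.IsStandardSmoothOfRelativeDimension.isStandardSmooth 1
  have hft : Algebra.FiniteType k B := inferInstance
  have hBn : IsNoetherianRing B := Algebra.FiniteType.isNoetherianRing k B
  have hdvr : IsDedekindDomainDvr B := by
    refine @IsDedekindDomainDvr.mk _ _ _ hBn ?_
    intro P hP0 hPprime
    -- `P` is maximal: choose a maximal `m ⊇ P`; `B_m` is a DVR so `P B_m = m B_m`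
    obtain ⟨m, hm, hPm⟩ := Ideal.exists_le_maximal P hPprime.ne_top
    have hdvr_m : IsDiscreteValuationRing (Localization.AtPrime m) :=
      isDiscreteValuationRing_of_isLocalization k m _
    have hPeq : P = m := by
      -- the prime `P B_m` of the DVR `B_m` is nonzero, hence maximal
      have hdisj : Disjoint (m.primeCompl : Set B) (P : Set B) := by
        rw [Set.disjoint_left]
        intro x hx hxP
        exact hx (hPm hxP)
      have hPmap_prime : (Ideal.map (algebraMap B (Localization.AtPrime m)) P).IsPrime :=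
        IsLocalization.isPrime_of_isPrime_disjoint m.primeCompl _ P hPprime hdisj
      have hPmap_ne : Ideal.map (algebraMap B (Localization.AtPrime m)) P ≠ ⊥ := by
        rw [Ne, Ideal.map_eq_bot_iff_of_injective
          (IsLocalization.injective _ (Ideal.primeCompl_le_nonZeroDivisors m))]
        exact hP0
      have hmaxl : (Ideal.map (algebraMap B (Localization.AtPrime m)) P).IsMaximal :=
        hPmap_prime.isMaximal hPmap_ne
      have heq : Ideal.map (algebraMap B (Localization.AtPrime m)) P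
          = IsLocalRing.maximalIdeal (Localization.AtPrime m) :=
        IsLocalRing.eq_maximalIdeal hmaxl
      rw [← Localization.AtPrime.map_eq_maximalIdeal] at heq
      have hcomapP := IsLocalization.under_map_of_isPrime_disjoint m.primeCompl
        (Localization.AtPrime m) hPprime hdisj
      have hcomapm := IsLocalization.under_map_of_isPrime_disjoint m.primeCompl
        (Localization.AtPrime m) hm.isPrime (by
          rw [Set.disjoint_left]; intro x hx hxm; exact hx hxm)
      rw [← hcomapP, heq, hcomapm]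
    subst hPeq
    exact isDiscreteValuationRing_of_isLocalization k P _
  exact IsDedekindDomainDvr.isDedekindDomain B

end

end Fermat.Agent.S25.H207

end
-- ===== PACK-END S25/H207/SmoothDVR.lean

-- ===== PACK-BEGIN S25/H926/GlueHom.lean
section
/-
S25, block GLUE, piece G1 (helper926): morphisms of sheaves of modules glue.

Layer (a): "basis form".  `B` a downward closed set of opens of a scheme `X` such that every open
is covered by members of `B`.  A family of additive maps `a W : Γ(M, W) → Γ(M', W)`, `W ∈ B`,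
compatible with restriction and `𝒪`-linear, is induced by a unique morphism `M ⟶ M'`.
-/


set_option autoImplicit false

universe u

open CategoryTheory AlgebraicGeometry TopologicalSpace Opposite

namespace Fermat.Agent.S25.H926

variable {X : Scheme.{u}}

/-- A set of opens of `X` which is downward closed and such that every open of `X` is the union
of the members of `B` contained in it. -/
structure IsDownBasis (B : Set X.Opens) : Prop where
  down : ∀ {W W' : X.Opens}, W ∈ B → W' ≤ W → W' ∈ B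
  cover : ∀ V : X.Opens, V ≤ ⨆ W : {W : X.Opens // W ∈ B ∧ W ≤ V}, (W : X.Opens)

/-- Local data for a morphism `M ⟶ M'` on a down-basis `B`. -/
structure BasisHomData (B : Set X.Opens) (M M' : X.Modules) where
  a : ∀ W : X.Opens, W ∈ B → (Γ(M, W) →+ Γ(M', W))
  nat : ∀ (W W' : X.Opens) (hW : W ∈ B) (hW' : W' ∈ B) (h : W' ≤ W) (s : Γ(M, W)),
    a W' hW' (M.presheaf.map (homOfLE h).op s) = M'.presheaf.map (homOfLE h).op (a W hW s)
  lin : ∀ (W : X.Opens) (hW : W ∈ B) (r : Γ(X, W)) (s : Γ(M, W)),
    a W hW (r • s) = r • a W hW s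

variable {B : Set X.Opens} {M M' : X.Modules}

/-- The sheaf of abelian groups underlying a sheaf of modules. -/
noncomputable def abSheaf (M : X.Modules) : TopCat.Sheaf Ab X := ⟨M.presheaf, M.isSheaf⟩

namespace BasisHomData

variable (hB : IsDownBasis B) (D : BasisHomData B M M')

/-- The index type of the canonical cover of `V` by members of `B`. -/
abbrev Idx (B : Set X.Opens) (V : X.Opens) : Type u := {W : X.Opens // W ∈ B ∧ W ≤ V}

/-- the local family attached to a section -/
noncomputable def fam (V : X.Opens) (s : Γ(M, V)) (W : Idx B V) : Γ(M', W.1) :=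
  D.a W.1 W.2.1 (M.presheaf.map (homOfLE W.2.2).op s)

include hB in
lemma fam_compatible (V : X.Opens) (s : Γ(M, V)) :
    TopCat.Presheaf.IsCompatible M'.presheaf (fun W : Idx B V => W.1) (D.fam V s) := by
  intro W W'
  have h1 : W.1 ⊓ W'.1 ∈ B := hB.down W.2.1 inf_le_left
  have e1 := D.nat W.1 (W.1 ⊓ W'.1) W.2.1 h1 inf_le_left (M.presheaf.map (homOfLE W.2.2).op s)
  have e2 := D.nat W'.1 (W.1 ⊓ W'.1) W'.2.1 h1 inf_le_right
    (M.presheaf.map (homOfLE W'.2.2).op s)
  simp only [fam]
  erw [← e1, ← e2]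
  congr 1
  rw [← ConcreteCategory.comp_apply, ← ConcreteCategory.comp_apply, ← Functor.map_comp,
    ← Functor.map_comp]
  rfl

include hB in
lemma exists_unique_glue (V : X.Opens) (s : Γ(M, V)) :
    ∃! t : Γ(M', V), ∀ W : Idx B V,
      M'.presheaf.map (homOfLE W.2.2).op t = D.fam V s W :=
  (abSheaf M').existsUnique_gluing' (fun W : Idx B V => W.1) V (fun W => homOfLE W.2.2)
    (hB.cover V) (D.fam V s) (D.fam_compatible hB V s)

/-- The glued map on sections over an arbitrary open. -/
noncomputable def glueFun (V : X.Opens) (s : Γ(M, V)) : Γ(M', V) :=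
  (D.exists_unique_glue hB V s).choose

lemma glueFun_spec (V : X.Opens) (s : Γ(M, V)) (W : Idx B V) :
    M'.presheaf.map (homOfLE W.2.2).op (D.glueFun hB V s) = D.fam V s W :=
  (D.exists_unique_glue hB V s).choose_spec.1 W

lemma glueFun_unique (V : X.Opens) (s : Γ(M, V)) (t : Γ(M', V))
    (ht : ∀ W : Idx B V, M'.presheaf.map (homOfLE W.2.2).op t = D.fam V s W) :
    t = D.glueFun hB V s :=
  (D.exists_unique_glue hB V s).choose_spec.2 t ht

lemma glueFun_add (V : X.Opens) (s s' : Γ(M, V)) :
    D.glueFun hB V (s + s') = D.glueFun hB V s + D.glueFun hB V s' := by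
  symm
  apply D.glueFun_unique hB
  intro W
  rw [map_add, D.glueFun_spec hB, D.glueFun_spec hB]
  simp only [fam, map_add]

lemma glueFun_map {V V' : X.Opens} (h : V' ≤ V) (s : Γ(M, V)) :
    D.glueFun hB V' (M.presheaf.map (homOfLE h).op s) =
      M'.presheaf.map (homOfLE h).op (D.glueFun hB V s) := by
  symm
  apply D.glueFun_unique hB
  intro W
  have := D.glueFun_spec hB V s ⟨W.1, W.2.1, W.2.2.trans h⟩
  simp only [fam] at this ⊢
  rw [← ConcreteCategory.comp_apply, ← Functor.map_comp, ← ConcreteCategory.comp_apply,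
    ← Functor.map_comp]
  exact this

lemma glueFun_smul (V : X.Opens) (r : Γ(X, V)) (s : Γ(M, V)) :
    D.glueFun hB V (r • s) = r • D.glueFun hB V s := by
  symm
  apply D.glueFun_unique hB
  intro W
  have := D.glueFun_spec hB V s W
  simp only [fam] at this ⊢
  rw [Scheme.Modules.map_smul, this, Scheme.Modules.map_smul, D.lin]

lemma glueFun_eq_of_mem (W : X.Opens) (hW : W ∈ B) (s : Γ(M, W)) :
    D.glueFun hB W s = D.a W hW s := by
  symm
  apply D.glueFun_unique hB
  intro W'
  simp only [fam]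
  rw [D.nat W W'.1 hW W'.2.1 W'.2.2]

/-- The glued map as a morphism of presheaves of abelian groups. -/
noncomputable def gluePresheafHom : M.presheaf ⟶ M'.presheaf where
  app V := AddCommGrpCat.ofHom
    (AddMonoidHom.mk' (D.glueFun hB V.unop) (D.glueFun_add hB V.unop))
  naturality V V' f := by
    ext s
    exact D.glueFun_map hB (leOfHom f.unop) s

/-- The glued morphism of sheaves of modules. -/
noncomputable def glue : M ⟶ M' :=
  ⟨PresheafOfModules.homMk (D.gluePresheafHom hB) (fun V r m => D.glueFun_smul hB V.unop r m)⟩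

lemma glue_app_apply (V : X.Opens) (s : Γ(M, V)) :
    (D.glue hB).app V s = D.glueFun hB V s := rfl

lemma glue_app_of_mem (W : X.Opens) (hW : W ∈ B) (s : Γ(M, W)) :
    (D.glue hB).app W s = D.a W hW s :=
  D.glueFun_eq_of_mem hB W hW s

end BasisHomData

/-- **G1, basis form.** Local data on a down-basis glue to a unique morphism. -/
theorem existsUnique_hom_of_basisHomData (hB : IsDownBasis B) (D : BasisHomData B M M') :
    ∃! f : M ⟶ M', ∀ (W : X.Opens) (hW : W ∈ B) (s : Γ(M, W)), f.app W s = D.a W hW s := by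
  refine ⟨D.glue hB, fun W hW s => D.glue_app_of_mem hB W hW s, fun f hf => ?_⟩
  apply Scheme.Modules.hom_ext
  intro V
  ext s
  rw [BasisHomData.glue_app_apply]
  apply D.glueFun_unique hB
  intro W
  simp only [BasisHomData.fam]
  rw [← hf W.1 W.2.1]
  exact (ConcreteCategory.congr_hom (f.mapPresheaf.naturality (homOfLE W.2.2).op) s).symm

/-- Two morphisms agreeing on a down-basis are equal. -/
theorem hom_ext_of_basis (hB : IsDownBasis B) (f g : M ⟶ M')
    (h : ∀ (W : X.Opens) (_ : W ∈ B) (s : Γ(M, W)), f.app W s = g.app W s) : f = g := by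
  let D : BasisHomData B M M' :=
    { a := fun W _ => (g.app W).hom
      nat := fun W W' _ _ h s =>
        (ConcreteCategory.congr_hom (g.mapPresheaf.naturality (homOfLE h).op) s)
      lin := fun W _ r s => g.app_smul r s }
  obtain ⟨_, _, huniq⟩ := existsUnique_hom_of_basisHomData hB D
  exact (huniq f fun W hW s => h W hW s).trans (huniq g fun _ _ _ => rfl).symm

end Fermat.Agent.S25.H926

end
-- ===== PACK-END S25/H926/GlueHom.lean

-- ===== PACK-BEGIN S25/H505/SectionMap.lean
section
/-
S25, dictionary (helper505): the canonical map on sections `Γ(M, U) ⟶ Γ(f^* M, V)` and its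
formal properties (semilinearity, naturality, restriction, composition).
-/


open CategoryTheory AlgebraicGeometry Opposite TopologicalSpace

universe u

namespace Fermat.Agent.S25.H505

variable {X Y Z : Scheme.{u}}

/-! ### Generalities on sections -/

/-- elementwise naturality of a morphism of modules w.r.t. restriction -/
theorem hom_app_res {M N : X.Modules} (φ : M ⟶ N) {U V : X.Opens} (h : V ≤ U) (s : Γ(M, U)) :
    φ.app V (M.presheaf.map (homOfLE h).op s) = N.presheaf.map (homOfLE h).op (φ.app U s) := by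
  have := φ.mapPresheaf.naturality (homOfLE h).op
  exact congr($this s)

theorem presheaf_map_map (M : X.Modules) {U V W : X.Opens} (h : V ≤ U) (h' : W ≤ V)
    (s : Γ(M, U)) :
    M.presheaf.map (homOfLE h').op (M.presheaf.map (homOfLE h).op s) =
      M.presheaf.map (homOfLE (h'.trans h)).op s := by
  have : M.presheaf.map (homOfLE h).op ≫ M.presheaf.map (homOfLE h').op =
      M.presheaf.map (homOfLE (h'.trans h)).op := by
    rw [← Functor.map_comp]; rfl
  exact congr($this s)

theorem presheaf_map_self (M : X.Modules) {U : X.Opens} (h : U ≤ U) (s : Γ(M, U)) :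
    M.presheaf.map (homOfLE h).op s = s := by
  have : M.presheaf.map (homOfLE h).op = 𝟙 _ := by
    rw [← M.presheaf.map_id]; rfl
  exact congr($this s)

/-- the action of functions on sections of a pushforward -/
theorem pushforward_smul (f : Y ⟶ X) (N : Y.Modules) (U : X.Opens) (r : Γ(X, U))
    (x : Γ((Scheme.Modules.pushforward f).obj N, U)) :
    r • x = (show Γ(N, f ⁻¹ᵁ U) from (f.app U r) • (show Γ(N, f ⁻¹ᵁ U) from x)) := rfl

/-! ### The unit on sections -/

/-- The unit of the pullback-pushforward adjunction, on sections: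
`Γ(M, U) ⟶ Γ(f^* M, f ⁻¹ᵁ U)`. -/
noncomputable def unitSec (f : Y ⟶ X) (M : X.Modules) (U : X.Opens) :
    Γ(M, U) ⟶ Γ((Scheme.Modules.pullback f).obj M, f ⁻¹ᵁ U) :=
  ((Scheme.Modules.pullbackPushforwardAdjunction f).unit.app M).app U

theorem unitSec_smul (f : Y ⟶ X) (M : X.Modules) (U : X.Opens) (r : Γ(X, U)) (s : Γ(M, U)) :
    unitSec f M U (r • s) = f.app U r • unitSec f M U s :=
  Scheme.Modules.Hom.app_smul _ r s

theorem unitSec_res (f : Y ⟶ X) (M : X.Modules) {U U' : X.Opens} (h : U' ≤ U) (s : Γ(M, U)) :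
    unitSec f M U' (M.presheaf.map (homOfLE h).op s) =
      ((Scheme.Modules.pullback f).obj M).presheaf.map (homOfLE (f.preimage_mono h)).op
        (unitSec f M U s) :=
  hom_app_res ((Scheme.Modules.pullbackPushforwardAdjunction f).unit.app M) h s

theorem unitSec_naturality (f : Y ⟶ X) {M M' : X.Modules} (φ : M ⟶ M') (U : X.Opens)
    (s : Γ(M, U)) :
    ((Scheme.Modules.pullback f).map φ).app (f ⁻¹ᵁ U) (unitSec f M U s) =
      unitSec f M' U (φ.app U s) := by
  have h1 := (Scheme.Modules.pullbackPushforwardAdjunction f).unit.naturality φ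
  exact congr((Scheme.Modules.Hom.app $h1 U) s).symm

theorem unitSec_comp (g : Z ⟶ Y) (f : Y ⟶ X) (M : X.Modules) (U : X.Opens) (s : Γ(M, U)) :
    unitSec g ((Scheme.Modules.pullback f).obj M) (f ⁻¹ᵁ U) (unitSec f M U s) =
      ((Scheme.Modules.pullbackComp g f).inv.app M).app ((g ≫ f) ⁻¹ᵁ U)
        (unitSec (g ≫ f) M U s) := by
  have h1 := unit_conjugateEquiv
    ((Scheme.Modules.pullbackPushforwardAdjunction f).comp
      (Scheme.Modules.pullbackPushforwardAdjunction g))
    (Scheme.Modules.pullbackPushforwardAdjunction (g ≫ f))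
    (Scheme.Modules.pullbackComp g f).inv M
  rw [Scheme.Modules.conjugateEquiv_pullbackComp_inv] at h1
  have h2 : (((Scheme.Modules.pullbackPushforwardAdjunction f).comp
      (Scheme.Modules.pullbackPushforwardAdjunction g)).unit.app M).app U s =
      ((Scheme.Modules.pullbackComp g f).inv.app M).app ((g ≫ f) ⁻¹ᵁ U)
        (((Scheme.Modules.pullbackPushforwardAdjunction (g ≫ f)).unit.app M).app U s) :=
    congr((Scheme.Modules.Hom.app $h1 U) s)
  have h3 : (((Scheme.Modules.pullbackPushforwardAdjunction f).comp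
      (Scheme.Modules.pullbackPushforwardAdjunction g)).unit.app M).app U s =
      ((Scheme.Modules.pullbackPushforwardAdjunction g).unit.app
        ((Scheme.Modules.pullback f).obj M)).app (f ⁻¹ᵁ U)
        (((Scheme.Modules.pullbackPushforwardAdjunction f).unit.app M).app U s) := by
    rw [Adjunction.comp_unit_app]
    rfl
  exact h3.symm.trans h2

/-! ### The canonical map on sections -/

/-- The canonical map `Γ(M, U) ⟶ Γ(f^* M, V)` for `V ≤ f ⁻¹ᵁ U`: the unit of the
pullback-pushforward adjunction followed by restriction. -/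
noncomputable def secMap (f : Y ⟶ X) (M : X.Modules) {U : X.Opens} {V : Y.Opens}
    (h : V ≤ f ⁻¹ᵁ U) : Γ(M, U) ⟶ Γ((Scheme.Modules.pullback f).obj M, V) :=
  unitSec f M U ≫ ((Scheme.Modules.pullback f).obj M).presheaf.map (homOfLE h).op

theorem secMap_apply (f : Y ⟶ X) (M : X.Modules) {U : X.Opens} {V : Y.Opens}
    (h : V ≤ f ⁻¹ᵁ U) (s : Γ(M, U)) :
    secMap f M h s = ((Scheme.Modules.pullback f).obj M).presheaf.map (homOfLE h).op
      (unitSec f M U s) := rfl

theorem secMap_smul (f : Y ⟶ X) (M : X.Modules) {U : X.Opens} {V : Y.Opens}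
    (h : V ≤ f ⁻¹ᵁ U) (r : Γ(X, U)) (s : Γ(M, U)) :
    secMap f M h (r • s) = f.appLE U V h r • secMap f M h s := by
  rw [secMap_apply, secMap_apply, unitSec_smul, Scheme.Modules.map_smul]
  rfl

theorem secMap_naturality_apply (f : Y ⟶ X) {M M' : X.Modules} (φ : M ⟶ M') {U : X.Opens}
    {V : Y.Opens} (h : V ≤ f ⁻¹ᵁ U) (s : Γ(M, U)) :
    ((Scheme.Modules.pullback f).map φ).app V (secMap f M h s) = secMap f M' h (φ.app U s) := by
  rw [secMap_apply, secMap_apply, hom_app_res, unitSec_naturality]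

theorem secMap_res_apply (f : Y ⟶ X) (M : X.Modules) {U U' : X.Opens} {V V' : Y.Opens}
    (h : V ≤ f ⁻¹ᵁ U) (h' : V' ≤ f ⁻¹ᵁ U') (hU : U' ≤ U) (hV : V' ≤ V) (s : Γ(M, U)) :
    secMap f M h' (M.presheaf.map (homOfLE hU).op s) =
      ((Scheme.Modules.pullback f).obj M).presheaf.map (homOfLE hV).op (secMap f M h s) := by
  rw [secMap_apply, secMap_apply, unitSec_res, presheaf_map_map, presheaf_map_map]

theorem secMap_comp_apply (g : Z ⟶ Y) (f : Y ⟶ X) (M : X.Modules) {U : X.Opens} {V : Y.Opens}
    {W : Z.Opens} (hV : V ≤ f ⁻¹ᵁ U) (hW : W ≤ g ⁻¹ᵁ V) (hW' : W ≤ (g ≫ f) ⁻¹ᵁ U)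
    (s : Γ(M, U)) :
    secMap g ((Scheme.Modules.pullback f).obj M) hW (secMap f M hV s) =
      ((Scheme.Modules.pullbackComp g f).inv.app M).app W (secMap (g ≫ f) M hW' s) := by
  rw [secMap_apply (f := g ≫ f), hom_app_res, ← unitSec_comp, secMap_apply, secMap_apply,
    unitSec_res, presheaf_map_map]
  rfl

/-! ### Equalities of morphisms and open immersions -/

/-- compatibility of `secMap` with equalities of morphisms -/
theorem secMap_congr_apply {f f' : Y ⟶ X} (e : f = f') (M : X.Modules) {U : X.Opens}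
    {V : Y.Opens} (h : V ≤ f ⁻¹ᵁ U) (h' : V ≤ f' ⁻¹ᵁ U) (s : Γ(M, U)) :
    ((Scheme.Modules.pullbackCongr e).hom.app M).app V (secMap f M h s) = secMap f' M h' s := by
  subst e
  rfl

/-- restriction maps between equal opens are bijective -/
theorem presheaf_map_bijective_of_eq (M : X.Modules) {U V : X.Opens} (h : V ≤ U) (h' : U ≤ V) :
    Function.Bijective (M.presheaf.map (homOfLE h).op) := by
  refine ⟨fun a b hab => ?_, fun b => ⟨M.presheaf.map (homOfLE h').op b, ?_⟩⟩
  · have := congrArg (M.presheaf.map (homOfLE h').op) hab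
    rwa [presheaf_map_map, presheaf_map_map, presheaf_map_self, presheaf_map_self] at this
  · rw [presheaf_map_map, presheaf_map_self]

section OpenImmersion

variable (j : Y ⟶ X) [IsOpenImmersion j] (M : X.Modules)

/-- For an open immersion, the unit on sections is the restriction map followed by the
comparison isomorphism between restriction and pullback. -/
theorem unitSec_openImmersion (U : X.Opens) (s : Γ(M, U)) :
    unitSec j M U s =
      ((Scheme.Modules.restrictFunctorIsoPullback j).hom.app M).app (j ⁻¹ᵁ U)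
        ((M.restrictAppIso j (j ⁻¹ᵁ U)).inv
          (M.presheaf.map (homOfLE (j.image_preimage_le U)).op s)) := by
  have h := Adjunction.unit_leftAdjointUniq_hom_app (Scheme.Modules.restrictAdjunction j)
    (Scheme.Modules.pullbackPushforwardAdjunction j) M
  exact congr((Scheme.Modules.Hom.app $h U) s).symm

theorem restrict_map_restrictAppIso_inv {V V' : Y.Opens} (h : V' ≤ V) (x : Γ(M, j ''ᵁ V)) :
    (M.restrict j).presheaf.map (homOfLE h).op ((M.restrictAppIso j V).inv x) =
      (M.restrictAppIso j V').inv (M.presheaf.map (homOfLE (j.image_mono h)).op x) := rfl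

theorem secMap_openImmersion {U : X.Opens} {V : Y.Opens} (h : V ≤ j ⁻¹ᵁ U) (s : Γ(M, U)) :
    secMap j M h s =
      ((Scheme.Modules.restrictFunctorIsoPullback j).hom.app M).app V
        ((M.restrictAppIso j V).inv (M.presheaf.map (homOfLE (show j ''ᵁ V ≤ U from
          (j.image_mono h).trans (j.image_preimage_le U))).op s)) := by
  rw [secMap_apply, unitSec_openImmersion, ← hom_app_res, restrict_map_restrictAppIso_inv,
    presheaf_map_map]

theorem secMap_bijective_of_isOpenImmersion {U : X.Opens} {V : Y.Opens} (h : V ≤ j ⁻¹ᵁ U)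
    (h' : U ≤ j ''ᵁ V) : Function.Bijective (secMap j M h) := by
  have h1 : Function.Bijective (((Scheme.Modules.restrictFunctorIsoPullback j).hom.app M).app V) :=
    ConcreteCategory.bijective_of_isIso _
  have h2 := presheaf_map_bijective_of_eq M
    (show j ''ᵁ V ≤ U from (j.image_mono h).trans (j.image_preimage_le U)) h'
  have h3 : Function.Bijective (M.restrictAppIso j V).inv :=
    ConcreteCategory.bijective_of_isIso _
  have : (secMap j M h : Γ(M, U) → _) =
      (((Scheme.Modules.restrictFunctorIsoPullback j).hom.app M).app V) ∘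
        (M.restrictAppIso j V).inv ∘
        (M.presheaf.map (homOfLE (show j ''ᵁ V ≤ U from
          (j.image_mono h).trans (j.image_preimage_le U))).op) :=
    funext (secMap_openImmersion j M h)
  rw [this]
  exact h1.comp (h3.comp h2)

theorem appLE_bijective_of_isOpenImmersion {U : X.Opens} {V : Y.Opens} (h : V ≤ j ⁻¹ᵁ U)
    (h' : U ≤ j ''ᵁ V) : Function.Bijective (j.appLE U V h).hom := by
  have hUV : U = j ''ᵁ V := le_antisymm h' ((j.image_mono h).trans (j.image_preimage_le U))
  subst hUV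
  have : j.appLE (j ''ᵁ V) V h = (j.appIso V).hom := by
    rw [Scheme.Hom.appIso_hom']
  rw [this]
  exact ConcreteCategory.bijective_of_isIso (j.appIso V).hom

end OpenImmersion

end Fermat.Agent.S25.H505

end
-- ===== PACK-END S25/H505/SectionMap.lean

-- ===== PACK-BEGIN S25/H505/SemilinearBC.lean
section
/-
S25, dictionary (helper505): base change along a ring homomorphism for additive maps between
modules over different rings (no `Algebra` / `IsScalarTower` instances needed).
-/


universe u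

namespace Fermat.Agent.S25.H505

open TensorProduct

section

variable {R R' R'' : Type u} [CommRing R] [CommRing R'] [CommRing R'']
  {N N' N'' : Type u} [AddCommGroup N] [AddCommGroup N'] [AddCommGroup N'']
  [Module R N] [Module R' N'] [Module R'' N'']

/-- `g` is semilinear with respect to the ring homomorphism `ρ`. -/
def IsSL (ρ : R →+* R') (g : N →+ N') : Prop := ∀ (r : R) (n : N), g (r • n) = ρ r • g n

theorem IsSL.comp {ρ : R →+* R'} {g : N →+ N'} {ρ' : R' →+* R''} {g' : N' →+ N''}
    (h : IsSL ρ g) (h' : IsSL ρ' g') : IsSL (ρ'.comp ρ) (g'.comp g) := fun r n => by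
  simp only [AddMonoidHom.comp_apply, RingHom.comp_apply, h r n, h' (ρ r) (g n)]

/-- The additive map `g : N → N'`, semilinear with respect to `ρ : R → R'`, exhibits `N'` as the
base change `R' ⊗[R] N`: universal property with respect to semilinear maps to `R'`-modules. -/
structure IsBC (ρ : R →+* R') (g : N →+ N') : Prop where
  sl : IsSL ρ g
  lift : ∀ (Q : Type u) [AddCommGroup Q] [Module R' Q] (q : N →+ Q), IsSL ρ q →
    ∃! q' : N' →ₗ[R'] Q, ∀ n, q' (g n) = q n

/-- A semilinear map as a linear map for the module structure pulled back along `ρ`. -/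
def IsSL.toLinearMap {ρ : R →+* R'} {g : N →+ N'} (h : IsSL ρ g) :
    letI : Module R N' := Module.compHom N' ρ
    N →ₗ[R] N' :=
  letI : Module R N' := Module.compHom N' ρ
  { toFun := g
    map_add' := g.map_add
    map_smul' := h }

theorem isBC_of_isBaseChange [Algebra R R'] [Module R N'] [IsScalarTower R R' N']
    (f : N →ₗ[R] N') (hf : IsBaseChange R' f) : IsBC (algebraMap R R') f.toAddMonoidHom where
  sl r n := by
    change f (r • n) = algebraMap R R' r • f n
    rw [f.map_smul, algebraMap_smul]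
  lift Q _ _ q hq := by
    let _ : Module R Q := Module.compHom Q (algebraMap R R')
    have : IsScalarTower R R' Q := ⟨fun r r' x => by
      rw [Algebra.smul_def, mul_smul]
      rfl⟩
    let q₀ : N →ₗ[R] Q := { toFun := q, map_add' := q.map_add, map_smul' := hq }
    refine ⟨hf.lift q₀, fun n => hf.lift_eq q₀ n, fun q' hq' => ?_⟩
    exact hf.algHom_ext _ _ (fun n => (hq' n).trans (hf.lift_eq q₀ n).symm)

theorem IsBC.isBaseChange [Algebra R R'] [Module R N'] [IsScalarTower R R' N']
    (f : N →ₗ[R] N') (hf : IsBC (algebraMap R R') f.toAddMonoidHom) : IsBaseChange R' f := by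
  apply IsBaseChange.of_lift_unique
  intro Q _ _ _ _ g
  let _ : AddCommGroup Q := Module.addCommMonoidToAddCommGroup R'
  have hg : IsSL (algebraMap R R') g.toAddMonoidHom := fun r n => by
    change g (r • n) = algebraMap R R' r • g n
    rw [g.map_smul, algebraMap_smul]
  obtain ⟨q', h1, h2⟩ := hf.lift Q g.toAddMonoidHom hg
  refine ⟨q', LinearMap.ext h1, fun q'' hq'' => h2 q'' (fun n => ?_)⟩
  exact LinearMap.congr_fun hq'' n

theorem IsSL.symm_smul {ρ : R →+* R'} {g : N →+ N'} (h : IsSL ρ g) (e : N ≃+ N')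
    (he : ∀ n, e n = g n) (r : R) (x : N') : e.symm (ρ r • x) = r • e.symm x := by
  apply e.injective
  rw [e.apply_symm_apply, he, h, ← he, e.apply_symm_apply]

/-- A semilinear bijection over a bijective ring homomorphism is a base change. -/
theorem isBC_of_bijective {ρ : R →+* R'} {g : N →+ N'} (h : IsSL ρ g)
    (hρ : Function.Bijective ρ) (hg : Function.Bijective g) : IsBC ρ g where
  sl := h
  lift Q _ _ q hq := by
    let e : N ≃+ N' := AddEquiv.ofBijective g hg
    have he : ∀ n, e n = g n := fun _ => rfl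
    refine ⟨{ toFun := fun n' => q (e.symm n')
              map_add' := fun x y => by rw [e.symm.map_add, q.map_add]
              map_smul' := fun r' x => by
                obtain ⟨r, rfl⟩ := hρ.2 r'
                simp only [RingHom.id_apply]
                rw [h.symm_smul e he, hq] }, fun n => ?_, fun q' hq' => ?_⟩
    · change q (e.symm (g n)) = q n
      rw [← he, e.symm_apply_apply]
    · ext n'
      change q' n' = q (e.symm n')
      rw [← hq', ← he, e.apply_symm_apply]

theorem IsBC.comp {ρ : R →+* R'} {g : N →+ N'} {ρ' : R' →+* R''} {g' : N' →+ N''}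
    (h : IsBC ρ g) (h' : IsBC ρ' g') : IsBC (ρ'.comp ρ) (g'.comp g) where
  sl := h.sl.comp h'.sl
  lift Q _ _ q hq := by
    let _ : Module R' Q := Module.compHom Q ρ'
    have hsm : ∀ (r' : R') (x : Q), r' • x = ρ' r' • x := fun _ _ => rfl
    obtain ⟨q₁, hq₁, hq₁'⟩ := h.lift Q q (fun r n => by rw [hq r n]; rfl)
    obtain ⟨q₂, hq₂, hq₂'⟩ := h'.lift Q q₁.toAddMonoidHom
      (fun r' n' => by
        change q₁ (r' • n') = ρ' r' • q₁ n'
        rw [q₁.map_smul, hsm])
    refine ⟨q₂, fun n => ?_, fun q₃ hq₃ => ?_⟩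
    · change q₂ (g' (g n)) = q n
      rw [hq₂]; exact hq₁ n
    · apply hq₂'
      intro n'
      have : (⟨⟨fun x => q₃ (g' x), fun x y => by rw [g'.map_add, q₃.map_add]⟩,
          fun r' x => by
            change q₃ (g' (r' • x)) = r' • q₃ (g' x)
            rw [h'.sl, q₃.map_smul, hsm]⟩ : N' →ₗ[R'] Q) = q₁ :=
        hq₁' _ (fun n => hq₃ n)
      exact LinearMap.congr_fun this n'

/-- Cancellation on the left: if `g` and `g' ∘ g` are base changes and `g'` is semilinear,
then `g'` is a base change. -/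
theorem IsBC.of_comp {ρ : R →+* R'} {g : N →+ N'} {ρ' : R' →+* R''} {g' : N' →+ N''}
    (h : IsBC ρ g) (hsl : IsSL ρ' g') (hc : IsBC (ρ'.comp ρ) (g'.comp g)) : IsBC ρ' g' where
  sl := hsl
  lift Q _ _ q hq := by
    let _ : Module R' Q := Module.compHom Q ρ'
    have hsm : ∀ (r' : R') (x : Q), r' • x = ρ' r' • x := fun _ _ => rfl
    obtain ⟨q₂, hq₂, hq₂'⟩ := hc.lift Q (q.comp g) (h.sl.comp hq)
    -- uniqueness for `h`, with target `Q` viewed as an `R'`-module
    have huniq : ∀ a b : N' →ₗ[R'] Q, (∀ n, a (g n) = b (g n)) → a = b := fun a b hab => by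
      obtain ⟨c, -, hc'⟩ := h.lift Q (b.toAddMonoidHom.comp g)
        (fun r n => by
          change b (g (r • n)) = ρ r • b (g n)
          rw [h.sl, b.map_smul])
      rw [hc' a hab, hc' b (fun _ => rfl)]
    let q' : N' →ₗ[R'] Q :=
      { toFun := q, map_add' := q.map_add, map_smul' := fun r' x => by
          simp only [RingHom.id_apply]; rw [hq, hsm] }
    let q₂' : N' →ₗ[R'] Q :=
      { toFun := fun x => q₂ (g' x), map_add' := fun x y => by rw [g'.map_add, q₂.map_add]
        map_smul' := fun r' x => by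
          simp only [RingHom.id_apply]; rw [hsl, q₂.map_smul, hsm] }
    have e : q₂' = q' := huniq _ _ (fun n => hq₂ n)
    refine ⟨q₂, fun n' => LinearMap.congr_fun e n', fun q₃ hq₃ => ?_⟩
    exact hq₂' q₃ (fun n => hq₃ (g n))

/-- Cancellation of a bijection on the right: if `g'` is a semilinear bijection over a
bijective ring homomorphism and `g' ∘ g` is a base change, then `g` is a base change. -/
theorem IsBC.of_comp_bijective {ρ : R →+* R'} {g : N →+ N'} {ρ' : R' →+* R''} {g' : N' →+ N''}
    (hsl : IsSL ρ g) (hsl' : IsSL ρ' g') (hρ' : Function.Bijective ρ')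
    (hg' : Function.Bijective g') (hc : IsBC (ρ'.comp ρ) (g'.comp g)) : IsBC ρ g where
  sl := hsl
  lift Q _ _ q hq := by
    let σ : R'' →+* R' := (RingEquiv.ofBijective ρ' hρ').symm
    have hσ : ∀ r', σ (ρ' r') = r' := fun r' => (RingEquiv.ofBijective ρ' hρ').symm_apply_apply r'
    have hσ' : ∀ r'', ρ' (σ r'') = r'' :=
      fun r'' => (RingEquiv.ofBijective ρ' hρ').apply_symm_apply r''
    let _ : Module R'' Q := Module.compHom Q σ
    have hsm : ∀ (r'' : R'') (x : Q), r'' • x = σ r'' • x := fun _ _ => rfl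
    obtain ⟨q₂, hq₂, hq₂'⟩ := hc.lift Q q (fun r n => by
      rw [hq, hsm, RingHom.comp_apply, hσ])
    refine ⟨{ toFun := fun x => q₂ (g' x), map_add' := fun x y => by rw [g'.map_add, q₂.map_add]
              map_smul' := fun r' x => by
                simp only [RingHom.id_apply]; rw [hsl', q₂.map_smul, hsm, hσ] },
      fun n => hq₂ n, fun q₃ hq₃ => ?_⟩
    let e : N' ≃+ N'' := AddEquiv.ofBijective g' hg'
    have he : ∀ n, e n = g' n := fun _ => rfl
    have := hq₂' { toFun := fun x => q₃ (e.symm x)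
                   map_add' := fun x y => by rw [e.symm.map_add, q₃.map_add]
                   map_smul' := fun r'' x => by
                    simp only [RingHom.id_apply]
                    rw [hsm, ← q₃.map_smul, ← hsl'.symm_smul e he, hσ'] }
      (fun n => by
        change q₃ (e.symm (g' (g n))) = q n
        rw [← he, e.symm_apply_apply]; exact hq₃ n)
    ext x
    have h2 := LinearMap.congr_fun this (g' x)
    change q₃ (e.symm (g' x)) = q₂ (g' x) at h2
    rw [← he, e.symm_apply_apply] at h2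
    exact h2

theorem IsBC.congr {ρ ρ' : R →+* R'} {g g' : N →+ N'} (h : IsBC ρ g) (hρ : ∀ r, ρ r = ρ' r)
    (hg : ∀ n, g n = g' n) : IsBC ρ' g' := by
  obtain rfl : ρ = ρ' := RingHom.ext hρ
  obtain rfl : g = g' := AddMonoidHom.ext hg
  exact h

end

section Square

variable {R R' R₁ R₁' : Type u} [CommRing R] [CommRing R'] [CommRing R₁] [CommRing R₁']
  {N N' N₁ N₁' : Type u} [AddCommGroup N] [AddCommGroup N'] [AddCommGroup N₁]
  [AddCommGroup N₁'] [Module R N] [Module R' N'] [Module R₁ N₁] [Module R₁' N₁']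

/-- Transport of a base change along semilinear bijections (forward direction). -/
theorem IsBC.of_square {ρ : R →+* R'} {g : N →+ N'} {ρ₁ : R₁ →+* R₁'} {g₁ : N₁ →+ N₁'}
    {α : R →+* R₁} {β : R' →+* R₁'} {a : N →+ N₁} {b : N' →+ N₁'}
    (h : IsBC ρ g) (hsl : IsSL ρ₁ g₁) (ha : IsSL α a) (hb : IsSL β b)
    (hα : Function.Bijective α) (hβ : Function.Bijective β)
    (ha' : Function.Bijective a) (hb' : Function.Bijective b)
    (hring : ∀ r, ρ₁ (α r) = β (ρ r)) (hsq : ∀ n, g₁ (a n) = b (g n)) : IsBC ρ₁ g₁ := by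
  have h1 : IsBC (β.comp ρ) (b.comp g) := h.comp (isBC_of_bijective hb hβ hb')
  have h2 : IsBC (ρ₁.comp α) (g₁.comp a) :=
    h1.congr (fun r => (hring r).symm) (fun n => (hsq n).symm)
  exact IsBC.of_comp (isBC_of_bijective ha hα ha') hsl h2

/-- Transport of a base change along semilinear bijections (backward direction). -/
theorem IsBC.of_square' {ρ : R →+* R'} {g : N →+ N'} {ρ₁ : R₁ →+* R₁'} {g₁ : N₁ →+ N₁'}
    {α : R →+* R₁} {β : R' →+* R₁'} {a : N →+ N₁} {b : N' →+ N₁'}
    (h : IsBC ρ₁ g₁) (hsl : IsSL ρ g) (ha : IsSL α a) (hb : IsSL β b)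
    (hα : Function.Bijective α) (hβ : Function.Bijective β)
    (ha' : Function.Bijective a) (hb' : Function.Bijective b)
    (hring : ∀ r, ρ₁ (α r) = β (ρ r)) (hsq : ∀ n, g₁ (a n) = b (g n)) : IsBC ρ g := by
  have h1 : IsBC (ρ₁.comp α) (g₁.comp a) := (isBC_of_bijective ha hα ha').comp h
  have h2 : IsBC (β.comp ρ) (b.comp g) := h1.congr hring hsq
  exact IsBC.of_comp_bijective hsl hb hβ hb' h2

end Square

section Uniqueness

variable {R R' R'' : Type u} [CommRing R] [CommRing R'] [CommRing R'']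
  {N N' N'' : Type u} [AddCommGroup N] [AddCommGroup N'] [AddCommGroup N'']
  [Module R N] [Module R' N'] [Module R'' N'']

/-- Semilinear maps out of a base change are determined by their values on the image. -/
theorem IsBC.hom_ext {ρ : R →+* R'} {g : N →+ N'} (h : IsBC ρ g) {σ : R' →+* R''}
    {p q : N' →+ N''} (hp : IsSL σ p) (hq : IsSL σ q) (hpq : ∀ n, p (g n) = q (g n)) :
    p = q := by
  let _ : Module R' N'' := Module.compHom N'' σ
  have hsm : ∀ (r' : R') (x : N''), r' • x = σ r' • x := fun _ _ => rfl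
  obtain ⟨c, -, hc⟩ := h.lift N'' (q.comp g) (fun r n => by
    change q (g (r • n)) = ρ r • q (g n)
    rw [h.sl, hq, hsm])
  have e1 := hc { toFun := p, map_add' := p.map_add, map_smul' := fun r' x => by
                    simp only [RingHom.id_apply]; rw [hp, hsm] } hpq
  have e2 := hc { toFun := q, map_add' := q.map_add, map_smul' := fun r' x => by
                    simp only [RingHom.id_apply]; rw [hq, hsm] } (fun _ => rfl)
  ext x
  exact LinearMap.congr_fun (e1.trans e2.symm) x

/-- Existence of the comparison map between a base change and any semilinear map. -/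
theorem IsBC.exists_lift {ρ : R →+* R'} {g : N →+ N'} (h : IsBC ρ g) {σ : R' →+* R''}
    {g₂ : N →+ N''} (h₂ : IsSL (σ.comp ρ) g₂) :
    ∃ e : N' →+ N'', IsSL σ e ∧ ∀ n, e (g n) = g₂ n := by
  let _ : Module R' N'' := Module.compHom N'' σ
  have hsm : ∀ (r' : R') (x : N''), r' • x = σ r' • x := fun _ _ => rfl
  obtain ⟨c, hc, -⟩ := h.lift N'' g₂ (fun r n => by rw [h₂, hsm]; rfl)
  exact ⟨c.toAddMonoidHom, fun r' x => by
    change c (r' • x) = σ r' • c x
    rw [c.map_smul, hsm], hc⟩

/-- Two base changes of the same module along ring homomorphisms differing by a ring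
isomorphism are (uniquely) semilinearly isomorphic. -/
theorem IsBC.exists_equiv {ρ : R →+* R'} {g : N →+ N'} (h : IsBC ρ g) (σ : R' ≃+* R'')
    {ρ₂ : R →+* R''} {g₂ : N →+ N''} (h₂ : IsBC ρ₂ g₂) (hρ : ∀ r, σ (ρ r) = ρ₂ r) :
    ∃ e : N' ≃+ N'', IsSL (σ : R' →+* R'') (e : N' →+ N'') ∧ ∀ n, e (g n) = g₂ n := by
  have hsl₂ : IsSL ((σ : R' →+* R'').comp ρ) g₂ := fun r n => by
    rw [h₂.sl]; congr 1; exact (hρ r).symm
  obtain ⟨e, he, heg⟩ := h.exists_lift (σ := (σ : R' →+* R'')) hsl₂
  have hsl : IsSL ((σ.symm : R'' →+* R').comp ρ₂) g := fun r n => by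
    rw [h.sl]; congr 1
    change ρ r = σ.symm (ρ₂ r)
    rw [← hρ, σ.symm_apply_apply]
  obtain ⟨e', he', heg'⟩ := h₂.exists_lift (σ := (σ.symm : R'' →+* R')) hsl
  have h1 : e'.comp e = AddMonoidHom.id N' :=
    h.hom_ext (σ := RingHom.id R') (fun r x => by
      change e' (e (r • x)) = r • e' (e x)
      rw [he, he']
      change σ.symm (σ r) • _ = _
      rw [σ.symm_apply_apply]) (fun r x => rfl)
      (fun n => by
        change e' (e (g n)) = g n
        rw [heg, heg'])
  have h2 : e.comp e' = AddMonoidHom.id N'' :=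
    h₂.hom_ext (σ := RingHom.id R'') (fun r x => by
      change e (e' (r • x)) = r • e (e' x)
      rw [he', he]
      change σ (σ.symm r) • _ = _
      rw [σ.apply_symm_apply]) (fun r x => rfl)
      (fun n => by
        change e (e' (g₂ n)) = g₂ n
        rw [heg', heg])
  refine ⟨{ toFun := e, invFun := e', left_inv := fun x => DFunLike.congr_fun h1 x,
            right_inv := fun x => DFunLike.congr_fun h2 x, map_add' := e.map_add }, he, heg⟩

end Uniqueness

end Fermat.Agent.S25.H505

end
-- ===== PACK-END S25/H505/SemilinearBC.lean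

-- ===== PACK-BEGIN S25/H505/InvertibleQCoh.lean
section
/-
S25, block AFF/GLUE (helper505): an invertible sheaf (Prelude sense) is quasi-coherent.
-/




open CategoryTheory AlgebraicGeometry Opposite Limits

universe u

namespace Fermat.Agent.S25.H505

/-- the structure sheaf (as a module over itself) is quasi-coherent -/
instance isQuasicoherent_unit (X : Scheme.{u}) :
    (SheafOfModules.unit X.ringCatSheaf).IsQuasicoherent := by
  have h : (SheafOfModules.free (R := X.ringCatSheaf) PUnit.{u+1}).IsQuasicoherent := inferInstance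
  let e : SheafOfModules.free (R := X.ringCatSheaf) PUnit.{u+1} ≅
      SheafOfModules.unit X.ringCatSheaf :=
    coproductUniqueIso (fun _ : PUnit.{u+1} => SheafOfModules.unit X.ringCatSheaf)
  exact (SheafOfModules.isQuasicoherent X.ringCatSheaf).prop_of_iso e h

/-- `M.over U` only depends on the restriction of `M` to `U`. -/
noncomputable def overIsoOfRestrictIso {X : Scheme.{u}} (U : X.Opens) (M N : X.Modules)
    (e : (Scheme.Modules.pullback U.ι).obj M ≅ (Scheme.Modules.pullback U.ι).obj N) :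
    M.over U ≅ N.over U :=
  (Scheme.Modules.overEquiv U).fullyFaithfulFunctor.preimageIso
    ((Scheme.Modules.overFunctorEquiv U).app M ≪≫
      (Scheme.Modules.restrictFunctorIsoPullback U.ι).app M ≪≫ e ≪≫
      ((Scheme.Modules.restrictFunctorIsoPullback U.ι).app N).symm ≪≫
      ((Scheme.Modules.overFunctorEquiv U).app N).symm)

/-- An invertible sheaf (in the Prelude's sense) is quasi-coherent. -/
theorem isQuasicoherent_of_isInvertible {X : Scheme.{u}} (M : X.Modules)
    (hM : Scheme.Modules.IsInvertible M) : M.IsQuasicoherent := by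
  choose U hxU hU using hM.exists_trivialization
  have hcov : (Opens.grothendieckTopology X).CoversTop U := by
    rw [Opens.coversTop_iff]
    exact eq_top_iff.mpr fun x _ => TopologicalSpace.Opens.mem_iSup.mpr ⟨x, hxU x⟩
  have : ∀ x, (M.over (U x)).IsQuasicoherent := fun x => by
    have e : M.over (U x) ≅ (SheafOfModules.unit X.ringCatSheaf).over (U x) :=
      overIsoOfRestrictIso (U x) M _
        ((hU x).some ≪≫ (Scheme.Modules.pullbackUnitIso (U x).ι).symm)
    have h1 : ((SheafOfModules.unit X.ringCatSheaf).over (U x)).IsQuasicoherent :=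
      SheafOfModules.isQuasicoherent_over.{u, u, u} (SheafOfModules.unit X.ringCatSheaf) (U x)
    exact (SheafOfModules.isQuasicoherent.{u, u, u} (X.ringCatSheaf.over (U x))).prop_of_iso
      e.symm h1
  exact SheafOfModules.IsQuasicoherent.of_coversTop M U hcov

end Fermat.Agent.S25.H505

end
-- ===== PACK-END S25/H505/InvertibleQCoh.lean

-- ===== PACK-BEGIN S25/H506/ValCore.lean
section


/-!
# S25, pillar `Val`: the algebra core (Gauss lemma route, no degree, no cohomology)

`V` is a valuation ring (a domain), `R` a `V`-algebra which is free as a `V`-module and such that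
`P := 𝔪 R` is a prime ideal (`𝔪` the maximal ideal of `V`).  In the application
`R = V ⊗[k] B` for a domain `B` over an algebraically closed field `k`.

Main results (all Mathlib-only):

* `exists_content` : a finite family in `R`, not all zero, is `v • y` with `v ∈ V ∖ 0` and some
  `y i ∉ P`  (content of a family).
* `exists_content_hom` : content of a linear map between f.g. projective modules.
* `scalar_notMem_of_comp` : Gauss lemma for maps between invertible modules (rank one).
* `exists_equiv_of_comp_eq` : if `g ∘ h = c` with `0 ≠ c ∈ V`, then `h = v • e` with `e` an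
  isomorphism.
* `exists_equiv_of_loc` : an isomorphism between the "generic fibres" of two invertible
  `R`-modules is, up to a scalar of `Frac V`, induced by an isomorphism over `R`.
* `exists_unit_smul_eq` : the scalar is unique up to a unit of `V`.
-/

set_option autoImplicit false

open IsLocalRing

namespace Fermat.Agent.S25.H506

section Valuation

variable {V : Type*} [CommRing V] [IsDomain V] [ValuationRing V]

/-- In a valuation ring, a finite family which is not identically zero has a nonzero member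
dividing all the others. -/
theorem exists_dvd_all {ι : Type*} (s : Finset ι) (c : ι → V) (h : ∃ i ∈ s, c i ≠ 0) :
    ∃ i₀ ∈ s, c i₀ ≠ 0 ∧ ∀ i ∈ s, c i₀ ∣ c i := by
  classical
  induction s using Finset.induction_on with
  | empty => obtain ⟨i, hi, -⟩ := h; simp at hi
  | insert a s ha ih =>
    by_cases hs : ∃ i ∈ s, c i ≠ 0
    · obtain ⟨i₀, hi₀, hne, hdvd⟩ := ih hs
      rcases ValuationRing.dvd_total (c i₀) (c a) with h1 | h1
      · refine ⟨i₀, Finset.mem_insert_of_mem hi₀, hne, fun i hi => ?_⟩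
        rcases Finset.mem_insert.mp hi with rfl | hi
        · exact h1
        · exact hdvd i hi
      · have hane : c a ≠ 0 := by
          rintro h0
          rw [h0, zero_dvd_iff] at h1
          exact hne h1
        refine ⟨a, Finset.mem_insert_self a s, hane, fun i hi => ?_⟩
        rcases Finset.mem_insert.mp hi with rfl | hi
        · exact dvd_rfl
        · exact h1.trans (hdvd i hi)
    · push Not at hs
      obtain ⟨i, hi, hne⟩ := h
      rcases Finset.mem_insert.mp hi with rfl | hi
      · refine ⟨i, Finset.mem_insert_self i s, hne, fun j hj => ?_⟩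
        rcases Finset.mem_insert.mp hj with rfl | hj
        · exact dvd_rfl
        · rw [hs j hj]; exact dvd_zero _
      · exact absurd (hs i hi) hne

end Valuation

section Content

variable (V : Type*) [CommRing V] (R : Type*) [CommRing R] [Algebra V R]

/-- The ideal `𝔪 R` of `R` generated by the maximal ideal of the local ring `V`. -/
noncomputable abbrev maxMap [IsLocalRing V] : Ideal R := (maximalIdeal V).map (algebraMap V R)

variable {V R}

/-- A `V`-linear functional on `R` maps `𝔪 R` into `𝔪`. -/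
theorem functional_mem_of_mem_maxMap [IsLocalRing V] {r : R} (hr : r ∈ maxMap V R) :
    ∀ ℓ : R →ₗ[V] V, ℓ r ∈ maximalIdeal V := by
  unfold maxMap Ideal.map at hr
  induction hr using Submodule.span_induction with
  | mem x hx =>
    obtain ⟨a, ha, rfl⟩ := hx
    intro ℓ
    rw [Algebra.algebraMap_eq_smul_one, map_smul, smul_eq_mul]
    exact Ideal.mul_mem_right _ _ ha
  | zero => intro ℓ; simp
  | add x y _ _ hx hy => intro ℓ; rw [map_add]; exact Ideal.add_mem _ (hx ℓ) (hy ℓ)
  | smul a x _ hx =>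
    intro ℓ
    have := hx (ℓ ∘ₗ (LinearMap.mulLeft V a))
    simpa using this

theorem algebraMap_mem_maxMap [IsLocalRing V] {a : V} (ha : a ∈ maximalIdeal V) :
    algebraMap V R a ∈ maxMap V R :=
  Ideal.mem_map_of_mem _ ha

/-- An `R`-linear functional maps `P • ⊤` into `P`. -/
theorem apply_mem_of_mem_smul_top (P : Ideal R) {M : Type*} [AddCommGroup M] [Module R M]
    (ℓ : M →ₗ[R] R) {z : M} (hz : z ∈ P • (⊤ : Submodule R M)) : ℓ z ∈ P := by
  refine Submodule.smul_induction_on hz (fun r hr m _ => ?_) (fun x y hx hy => ?_)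
  · rw [map_smul, smul_eq_mul]; exact P.mul_mem_right _ hr
  · rw [map_add]; exact P.add_mem hx hy

end Content

section Content2

variable {V : Type*} [CommRing V] [IsDomain V] [ValuationRing V]
variable {R : Type*} [CommRing R] [Algebra V R] [Module.Free V R]

omit [ValuationRing V] in
theorem algebraMap_mul_cancel {v : V} (hv : v ≠ 0) {r s : R}
    (h : algebraMap V R v * r = algebraMap V R v * s) : r = s := by
  rw [← Algebra.smul_def, ← Algebra.smul_def] at h
  exact smul_right_injective R hv h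

/-- Content of a finite family in `R`: a family which is not identically zero is `v • y` with
`v ≠ 0` in `V` and some `y i` outside `𝔪 R`. -/
theorem exists_content {ι : Type*} [Finite ι] (x : ι → R) (hx : ∃ i, x i ≠ 0) :
    ∃ v : V, v ≠ 0 ∧ ∃ y : ι → R, (∀ i, x i = algebraMap V R v * y i) ∧
      ∃ i, y i ∉ maxMap V R := by
  classical
  have := Fintype.ofFinite ι
  let b := Module.Free.chooseBasis V R
  let S : Finset (Module.Free.ChooseBasisIndex V R) :=
    Finset.univ.biUnion fun i => (b.repr (x i)).support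
  let c : ι × Module.Free.ChooseBasisIndex V R → V := fun p => b.repr (x p.1) p.2
  have hc : ∃ p ∈ (Finset.univ ×ˢ S), c p ≠ 0 := by
    obtain ⟨i, hi⟩ := hx
    have : b.repr (x i) ≠ 0 := fun h => hi (b.repr.map_eq_zero_iff.mp h)
    obtain ⟨l, hl⟩ := Finsupp.support_nonempty_iff.mpr this
    refine ⟨(i, l), ?_, Finsupp.mem_support_iff.mp hl⟩
    simp only [Finset.mem_product, Finset.mem_univ, true_and, S, Finset.mem_biUnion]
    exact ⟨i, hl⟩
  obtain ⟨⟨i₀, l₀⟩, -, hne, hdvd⟩ := exists_dvd_all _ c hc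
  set v := c (i₀, l₀) with hv
  have hdvd' : ∀ i l, v ∣ b.repr (x i) l := by
    intro i l
    by_cases hl : l ∈ S
    · exact hdvd (i, l) (by simp [hl])
    · have : b.repr (x i) l = 0 := by
        by_contra h0
        apply hl
        simp only [S, Finset.mem_biUnion, Finset.mem_univ, true_and]
        exact ⟨i, Finsupp.mem_support_iff.mpr h0⟩
      rw [this]; exact dvd_zero _
  let g : V → V := fun t => if h : v ∣ t then h.choose else 0
  have hg : ∀ t, v ∣ t → v * g t = t := by
    intro t ht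
    simp only [g, dif_pos ht]
    exact ht.choose_spec.symm
  have hg0 : g 0 = 0 := by
    have := hg 0 (dvd_zero _)
    rcases mul_eq_zero.mp this with h | h
    · exact absurd h hne
    · exact h
  let y : ι → R := fun i => b.repr.symm ((b.repr (x i)).mapRange g hg0)
  have hy : ∀ i, x i = algebraMap V R v * y i := by
    intro i
    apply b.repr.injective
    ext l
    rw [← Algebra.smul_def, map_smul]
    simp only [y, LinearEquiv.apply_symm_apply, Finsupp.smul_apply, Finsupp.mapRange_apply,
      smul_eq_mul]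
    exact (hg _ (hdvd' i l)).symm
  refine ⟨v, hne, y, hy, i₀, fun hmem => ?_⟩
  have h1 := functional_mem_of_mem_maxMap hmem (b.coord l₀)
  have h2 : b.coord l₀ (y i₀) = 1 := by
    simp only [y, Module.Basis.coord_apply, LinearEquiv.apply_symm_apply, Finsupp.mapRange_apply]
    have := hg v dvd_rfl
    have h3 : b.repr (x i₀) l₀ = v := rfl
    rw [h3]
    exact mul_left_cancel₀ hne (this.trans (mul_one v).symm)
  rw [h2] at h1
  exact (maximalIdeal.isMaximal V).ne_top ((Ideal.eq_top_iff_one _).mpr h1)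

end Content2

section Proj

variable {R : Type*} [CommRing R]

/-- For a retract `N` of `Fin n → R`, membership in `P • ⊤` can be tested on coordinates. -/
theorem mem_smul_top_of_coord (P : Ideal R) {N : Type*} [AddCommGroup N] [Module R N] {n : ℕ}
    (p : (Fin n → R) →ₗ[R] N) (i : N →ₗ[R] (Fin n → R)) (hpi : p ∘ₗ i = LinearMap.id) (z : N)
    (hz : ∀ a, i z a ∈ P) : z ∈ P • (⊤ : Submodule R N) := by
  have h1 : z = p (i z) := by
    have := congr($hpi z)
    simpa using this.symm
  have h2 : i z = ∑ a, i z a • (Pi.single a (1 : R) : Fin n → R) := by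
    ext c
    simp [Finset.sum_apply, Pi.single_apply]
  rw [h1, h2, map_sum]
  refine Submodule.sum_mem _ fun a _ => ?_
  rw [map_smul]
  exact Submodule.smul_mem_smul (hz a) Submodule.mem_top

/-- For a retract `N` of a free module and a prime `P`: `a • z ∈ P N`, `z ∉ P N` imply
`a ∈ P`. -/
theorem mem_of_smul_mem_smul_top (P : Ideal R) [P.IsPrime] {N : Type*} [AddCommGroup N]
    [Module R N] [Module.Finite R N] [Module.Projective R N] {a : R} {z : N}
    (haz : a • z ∈ P • (⊤ : Submodule R N)) (hz : z ∉ P • (⊤ : Submodule R N)) : a ∈ P := by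
  obtain ⟨n, p, i, -, -, hpi⟩ := Module.Finite.exists_comp_eq_id_of_projective R N
  by_contra ha
  apply hz
  refine mem_smul_top_of_coord P p i hpi z fun c => ?_
  have h1 := apply_mem_of_mem_smul_top P ((LinearMap.proj c) ∘ₗ i) haz
  simp only [LinearMap.coe_comp, Function.comp_apply, map_smul, LinearMap.proj_apply,
    smul_eq_mul] at h1
  exact (Ideal.IsPrime.mem_or_mem ‹_› h1).resolve_left ha

end Proj

section ContentHom

variable {V : Type*} [CommRing V] [IsDomain V] [ValuationRing V]
variable {R : Type*} [CommRing R] [Algebra V R] [Module.Free V R]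
variable {N N' : Type*} [AddCommGroup N] [Module R N] [AddCommGroup N'] [Module R N']

omit [ValuationRing V] in
/-- A projective `R`-module has no `V`-torsion. -/
theorem smul_cancel_of_projective [Module.Projective R N'] {v : V} (hv : v ≠ 0) {z z' : N'}
    (h : algebraMap V R v • z = algebraMap V R v • z') : z = z' := by
  obtain ⟨s, hs⟩ := Module.projective_def'.mp (inferInstance : Module.Projective R N')
  have hinj : Function.Injective s := by
    intro a b hab
    have := congr(Finsupp.linearCombination R id $hab)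
    have e1 := congr($hs a)
    have e2 := congr($hs b)
    simp only [LinearMap.coe_comp, Function.comp_apply, LinearMap.id_coe, id_eq] at e1 e2
    rw [← e1, ← e2]; exact this
  apply hinj
  have h1 := congr(s $h)
  rw [map_smul, map_smul] at h1
  ext l
  have h2 := congr($h1 l)
  simp only [Finsupp.smul_apply, smul_eq_mul] at h2
  exact algebraMap_mul_cancel hv h2

/-- Content of a linear map: a nonzero linear map `h : N → N'` from a finite module to a finite
projective module is `v • h₁` with `0 ≠ v ∈ V` and `h₁` nonzero modulo `𝔪`. -/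
theorem exists_content_hom [Module.Finite R N] [Module.Finite R N'] [Module.Projective R N']
    (h : N →ₗ[R] N') (hh : h ≠ 0) :
    ∃ v : V, v ≠ 0 ∧ ∃ h₁ : N →ₗ[R] N', (∀ n, h n = algebraMap V R v • h₁ n) ∧
      ∃ n, h₁ n ∉ (maxMap V R) • (⊤ : Submodule R N') := by
  obtain ⟨r, g, hg⟩ := Module.Finite.exists_fin (R := R) (M := N)
  obtain ⟨m, p, i, -, hi, hpi⟩ := Module.Finite.exists_comp_eq_id_of_projective R N'
  have hpi' : ∀ z, p (i z) = z := fun z => by simpa using congr($hpi z)
  let x : Fin r × Fin m → R := fun q => i (h (g q.1)) q.2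
  have hx : ∃ q, x q ≠ 0 := by
    by_contra hcon
    push Not at hcon
    apply hh
    apply LinearMap.ext_on_range hg
    intro b
    rw [LinearMap.zero_apply]
    apply hi
    rw [map_zero]
    ext a
    exact hcon (b, a)
  obtain ⟨v, hv, y, hy, ⟨b₀, a₀⟩, hy₀⟩ := exists_content (V := V) x hx
  -- multiplication by `v` on `N'`
  let μ : N' →ₗ[R] N' := algebraMap V R v • LinearMap.id
  have hμ : Function.Injective μ := fun z z' hzz' => smul_cancel_of_projective hv hzz'
  have hrange : ∀ n, h n ∈ LinearMap.range μ := by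
    intro n
    have hn : n ∈ Submodule.span R (Set.range g) := by rw [hg]; trivial
    induction hn using Submodule.span_induction with
    | mem z hz =>
      obtain ⟨b, rfl⟩ := hz
      refine ⟨p (fun a => y (b, a)), ?_⟩
      have : i (h (g b)) = algebraMap V R v • (fun a => y (b, a)) := by
        ext a
        exact hy (b, a)
      change algebraMap V R v • p (fun a => y (b, a)) = _
      rw [← map_smul, ← this, hpi']
    | zero => rw [map_zero]; exact Submodule.zero_mem _
    | add z z' _ _ hz hz' => rw [map_add]; exact Submodule.add_mem _ hz hz'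
    | smul a z _ hz => rw [map_smul]; exact Submodule.smul_mem _ _ hz
  let h₁ : N →ₗ[R] N' :=
    (LinearEquiv.ofInjective μ hμ).symm.toLinearMap ∘ₗ h.codRestrict (LinearMap.range μ) hrange
  have hh₁ : ∀ n, h n = algebraMap V R v • h₁ n := by
    intro n
    have : μ (h₁ n) = h n := by
      have := (LinearEquiv.ofInjective μ hμ).apply_symm_apply
        (h.codRestrict (LinearMap.range μ) hrange n)
      exact congr(($this : N'))
    exact this.symm
  refine ⟨v, hv, h₁, hh₁, g b₀, fun hmem => hy₀ ?_⟩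
  have h1 := apply_mem_of_mem_smul_top _ ((LinearMap.proj a₀) ∘ₗ i) hmem
  simp only [LinearMap.coe_comp, Function.comp_apply, LinearMap.proj_apply] at h1
  have h2 : algebraMap V R v * i (h₁ (g b₀)) a₀ = algebraMap V R v * y (b₀, a₀) := by
    rw [← hy (b₀, a₀)]
    change _ = i (h (g b₀)) a₀
    rw [hh₁ (g b₀), map_smul]
    rfl
  rw [← algebraMap_mul_cancel hv h2]
  exact h1

end ContentHom

section Gauss

variable {R : Type*} [CommRing R]
variable {N N' : Type*} [AddCommGroup N] [Module R N] [AddCommGroup N'] [Module R N']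

/-- Rank one: in an invertible module, `ψ x • y = ψ y • x` for every functional `ψ`. -/
theorem functional_smul_comm [Module.Invertible R N'] (ψ : N' →ₗ[R] R) (x y : N') :
    ψ x • y = ψ y • x := by
  have h := Module.Invertible.tmul_comm (R := R) (m₁ := x) (m₂ := y)
  have := congr(TensorProduct.lift ((LinearMap.lsmul R N').comp ψ) $h)
  simpa using this

/-- **Gauss lemma** for invertible modules: if `g₁ ∘ h₁ = w` and both `h₁`, `g₁` are nonzero
modulo the prime `P`, then `w ∉ P`. -/
theorem scalar_notMem_of_comp (P : Ideal R) [P.IsPrime] [Module.Invertible R N]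
    [Module.Invertible R N'] (h₁ : N →ₗ[R] N') (g₁ : N' →ₗ[R] N) (w : R)
    (hw : ∀ n, g₁ (h₁ n) = w • n)
    (hh : ∃ n, h₁ n ∉ P • (⊤ : Submodule R N'))
    (hg : ∃ n', g₁ n' ∉ P • (⊤ : Submodule R N)) : w ∉ P := by
  intro hwP
  obtain ⟨n₀, hn₀⟩ := hh
  obtain ⟨y, hy⟩ := hg
  set x := h₁ n₀ with hx
  -- every functional sends `x` into `P`
  have hψ : ∀ ψ : N' →ₗ[R] R, ψ x ∈ P := by
    intro ψ
    have h1 : ψ x • g₁ y = w • (ψ y • n₀) := by
      rw [← map_smul, functional_smul_comm ψ x y, map_smul, hx, hw, smul_comm]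
    have h2 : ψ x • g₁ y ∈ P • (⊤ : Submodule R N) := by
      rw [h1]; exact Submodule.smul_mem_smul hwP Submodule.mem_top
    exact mem_of_smul_mem_smul_top P h2 hy
  obtain ⟨m, p, i, -, -, hpi⟩ := Module.Finite.exists_comp_eq_id_of_projective R N'
  apply hn₀
  exact mem_smul_top_of_coord P p i hpi x fun a => hψ ((LinearMap.proj a) ∘ₗ i)

end Gauss

section Assembly

variable {V : Type*} [CommRing V] [IsDomain V] [ValuationRing V]
variable {R : Type*} [CommRing R] [Algebra V R] [Module.Free V R]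
variable {N N' : Type*} [AddCommGroup N] [Module R N] [AddCommGroup N'] [Module R N']
variable [Module.Invertible R N] [Module.Invertible R N']

omit [ValuationRing V] [Module.Free V R] [Module.Invertible R N'] in
/-- Scalars acting in the same way on an invertible module are equal. -/
theorem eq_of_smul_eq {r s : R} (h : ∀ n : N, r • n = s • n) : r = s :=
  (Module.Invertible.toModuleEnd_bijective R N).1 (LinearMap.ext h)

/-- If `w ∉ 𝔪 R` and `v₁ w = c` in `R` with `v₁, c ∈ V ∖ 0`, then `w` is a unit of `V`. -/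
theorem exists_unit_of_mul_eq [(maxMap V R).IsPrime] {w : R} (hw : w ∉ maxMap V R)
    {v c : V} (hv : v ≠ 0) (hc : c ≠ 0)
    (h : algebraMap V R v * w = algebraMap V R c) : ∃ u : Vˣ, w = algebraMap V R u := by
  have hne : (1 : R) ∉ maxMap V R := fun h1 =>
    (Ideal.IsPrime.ne_top ‹_›) ((Ideal.eq_top_iff_one _).mpr h1)
  have hunit : ∀ t : V, algebraMap V R t ∉ maxMap V R → IsUnit t := by
    intro t ht
    by_contra hnu
    exact ht (algebraMap_mem_maxMap ((mem_maximalIdeal t).mpr hnu))
  rcases ValuationRing.dvd_total c v with ⟨t, ht⟩ | ⟨t, ht⟩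
  · -- v = c t, so (t w) = 1
    have h1 : algebraMap V R t * w = 1 := by
      apply algebraMap_mul_cancel hc
      rw [← mul_assoc, ← map_mul, ← ht, h, mul_one]
    have htu : IsUnit t := by
      apply hunit
      intro hmem
      apply hne
      rw [← h1]
      exact Ideal.mul_mem_right _ _ hmem
    obtain ⟨u, rfl⟩ := htu
    refine ⟨u⁻¹, ?_⟩
    calc w = algebraMap V R ((u⁻¹ : Vˣ) : V) * (algebraMap V R (u : V) * w) := by
          rw [← mul_assoc, ← map_mul, Units.inv_mul, map_one, one_mul]
      _ = algebraMap V R ((u⁻¹ : Vˣ) : V) := by rw [h1, mul_one]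
  · -- c = v t, so w = t
    have h1 : w = algebraMap V R t := by
      apply algebraMap_mul_cancel hv
      rw [h, ht, map_mul]
    have htu : IsUnit t := hunit t (h1 ▸ hw)
    obtain ⟨u, rfl⟩ := htu
    exact ⟨u, h1⟩

/-- If `g ∘ h = c` with `0 ≠ c ∈ V`, then `h` is a `V`-multiple of an isomorphism. -/
theorem exists_equiv_of_comp_eq [(maxMap V R).IsPrime] (h : N →ₗ[R] N') (g : N' →ₗ[R] N)
    (c : V) (hc : c ≠ 0) (hgh : ∀ n, g (h n) = algebraMap V R c • n) :
    ∃ v : V, v ≠ 0 ∧ ∃ e : N ≃ₗ[R] N', ∀ n, h n = algebraMap V R v • e n := by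
  have hne : (1 : R) ∉ maxMap V R := fun h1 =>
    (Ideal.IsPrime.ne_top ‹_›) ((Ideal.eq_top_iff_one _).mpr h1)
  have hc' : algebraMap V R c ≠ 0 := by
    intro h0
    have : algebraMap V R c * 1 = algebraMap V R c * 0 := by rw [h0, zero_mul, zero_mul]
    have := algebraMap_mul_cancel hc this
    apply hne
    rw [this]; exact Ideal.zero_mem _
  have hcomp : g ∘ₗ h ≠ 0 := by
    intro h0
    apply hc'
    apply eq_of_smul_eq (N := N)
    intro n
    rw [← hgh, zero_smul]
    exact congr($h0 n)
  have hh : h ≠ 0 := fun h0 => hcomp (by rw [h0, LinearMap.comp_zero])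
  have hg : g ≠ 0 := fun h0 => hcomp (by rw [h0, LinearMap.zero_comp])
  obtain ⟨v₁, hv₁, h₁, hh₁, hh₁'⟩ := exists_content_hom (V := V) h hh
  obtain ⟨v₂, hv₂, g₁, hg₁, hg₁'⟩ := exists_content_hom (V := V) g hg
  obtain ⟨w, hw⟩ := (Module.Invertible.toModuleEnd_bijective R N).2 (g₁ ∘ₗ h₁)
  have hw' : ∀ n, g₁ (h₁ n) = w • n := fun n => (congr($hw n)).symm
  have hwP : w ∉ maxMap V R := scalar_notMem_of_comp _ h₁ g₁ w hw' hh₁' hg₁'
  have hmul : algebraMap V R (v₂ * v₁) * w = algebraMap V R c := by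
    apply eq_of_smul_eq (N := N)
    intro n
    rw [← hgh, hh₁, map_smul, hg₁, hw', map_mul, mul_smul, mul_smul]
    exact smul_comm _ _ _
  obtain ⟨u, hu⟩ := exists_unit_of_mul_eq hwP (mul_ne_zero hv₂ hv₁) hc hmul
  let g' : N' →ₗ[R] N := algebraMap V R ((u⁻¹ : Vˣ) : V) • g₁
  have hleft : Function.LeftInverse g' h₁ := by
    intro n
    change algebraMap V R ((u⁻¹ : Vˣ) : V) • g₁ (h₁ n) = n
    rw [hw', hu, ← mul_smul, ← map_mul, Units.inv_mul, map_one, one_smul]
  refine ⟨v₁, hv₁, (Module.Invertible.linearEquivOfLeftInverse hleft).symm, fun n => ?_⟩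
  rw [hh₁]
  rfl

end Assembly

section Loc

variable (V : Type*) [CommRing V] {R : Type*} [CommRing R] [Algebra V R]
variable {R' : Type*} [CommRing R'] (ρ : R →+* R')
variable {N : Type*} [AddCommGroup N] [Module R N]
variable {NK : Type*} [AddCommGroup NK] [Module R' NK]

/-- `b : N → NK` is injective and every element of `NK` becomes an element of `N` after
multiplication by a nonzero element of `V` ("`NK` is the generic fibre of `N`"). -/
structure IsGenericLoc (b : N →ₛₗ[ρ] NK) : Prop where
  inj : Function.Injective b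
  surj : ∀ y : NK, ∃ v : V, v ≠ 0 ∧ ∃ n : N, ρ (algebraMap V R v) • y = b n

variable {V ρ}
variable {N' : Type*} [AddCommGroup N'] [Module R N']
variable {NK' : Type*} [AddCommGroup NK'] [Module R' NK']

/-- Clearing denominators of a linear map between generic fibres. -/
theorem exists_hom_of_loc [IsDomain V] [Module.Finite R N] {b : N →ₛₗ[ρ] NK}
    {b' : N' →ₛₗ[ρ] NK'} (hb' : IsGenericLoc V ρ b') (F : NK →ₗ[R'] NK') :
    ∃ v : V, v ≠ 0 ∧ ∃ h : N →ₗ[R] N', ∀ n, b' (h n) = ρ (algebraMap V R v) • F (b n) := by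
  classical
  obtain ⟨r, g, hg⟩ := Module.Finite.exists_fin (R := R) (M := N)
  choose vj hvj nj hnj using fun j => hb'.surj (F (b (g j)))
  let v : V := ∏ j, vj j
  have hv : v ≠ 0 := Finset.prod_ne_zero_iff.mpr fun j _ => hvj j
  let S : Submodule R N :=
    { carrier := {n | ρ (algebraMap V R v) • F (b n) ∈ Set.range b'}
      add_mem' := by
        rintro x y ⟨x', hx⟩ ⟨y', hy⟩
        refine ⟨x' + y', ?_⟩
        rw [map_add, hx, hy, map_add, map_add, smul_add]
      zero_mem' := ⟨0, by simp⟩
      smul_mem' := by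
        rintro a x ⟨x', hx⟩
        refine ⟨a • x', ?_⟩
        rw [LinearMap.map_smulₛₗ, hx, LinearMap.map_smulₛₗ, map_smul, smul_comm] }
  have hS : S = ⊤ := by
    rw [eq_top_iff, ← hg, Submodule.span_le]
    rintro _ ⟨j, rfl⟩
    refine ⟨(algebraMap V R (∏ i ∈ Finset.univ.erase j, vj i)) • nj j, ?_⟩
    rw [LinearMap.map_smulₛₗ, ← hnj j, ← mul_smul, ← map_mul, ← map_mul,
      Finset.prod_erase_mul _ _ (Finset.mem_univ j)]
  have hex : ∀ n, ∃ n', b' n' = ρ (algebraMap V R v) • F (b n) := by
    intro n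
    have : n ∈ S := by rw [hS]; trivial
    exact this
  choose h hh using hex
  refine ⟨v, hv, ⟨⟨h, fun x y => ?_⟩, fun a x => ?_⟩, hh⟩
  · apply hb'.inj
    rw [map_add, hh, hh, hh, map_add, map_add, smul_add]
  · apply hb'.inj
    rw [RingHom.id_apply, LinearMap.map_smulₛₗ, hh, hh, LinearMap.map_smulₛₗ, map_smul,
      smul_comm]

end Loc

section Main

variable {V : Type*} [CommRing V] [IsDomain V] [ValuationRing V]
variable {R : Type*} [CommRing R] [Algebra V R] [Module.Free V R]
variable {R' : Type*} [CommRing R'] {ρ : R →+* R'}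
variable {N N' : Type*} [AddCommGroup N] [Module R N] [AddCommGroup N'] [Module R N']
variable [Module.Invertible R N] [Module.Invertible R N']
variable {NK NK' : Type*} [AddCommGroup NK] [Module R' NK] [AddCommGroup NK'] [Module R' NK']

/-- **Core of `Val`.** An isomorphism between the generic fibres of two invertible `R`-modules
is, up to a scalar of `Frac V`, induced by an isomorphism over `R`. -/
theorem exists_equiv_of_loc [(maxMap V R).IsPrime] {b : N →ₛₗ[ρ] NK} {b' : N' →ₛₗ[ρ] NK'}
    (hb : IsGenericLoc V ρ b) (hb' : IsGenericLoc V ρ b') (f : NK ≃ₗ[R'] NK') :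
    ∃ v v₁ : V, v ≠ 0 ∧ v₁ ≠ 0 ∧ ∃ e : N ≃ₗ[R] N',
      ∀ n, ρ (algebraMap V R v₁) • b' (e n) = ρ (algebraMap V R v) • f (b n) := by
  obtain ⟨v, hv, h, hh⟩ := exists_hom_of_loc (b := b) hb' f.toLinearMap
  obtain ⟨v', hv', g, hg⟩ := exists_hom_of_loc (b := b') hb f.symm.toLinearMap
  have hgh : ∀ n, g (h n) = algebraMap V R (v' * v) • n := by
    intro n
    apply hb.inj
    rw [hg, hh, LinearMap.map_smulₛₗ b]
    simp only [LinearEquiv.coe_coe, map_smul, LinearEquiv.symm_apply_apply, map_mul, mul_smul]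
  obtain ⟨v₁, hv₁, e, he⟩ := exists_equiv_of_comp_eq h g (v' * v) (mul_ne_zero hv' hv) hgh
  refine ⟨v, v₁, hv, hv₁, e, fun n => ?_⟩
  rw [← LinearMap.map_smulₛₗ, ← he, hh]
  rfl

/-- The scalar in `exists_equiv_of_loc` is unique up to a unit of `V`. -/
theorem exists_unit_smul_eq [(maxMap V R).IsPrime] (e e' : N ≃ₗ[R] N') {A B : V}
    (hA : A ≠ 0) (hB : B ≠ 0) (h : ∀ n, algebraMap V R A • e n = algebraMap V R B • e' n) :
    ∃ u : Vˣ, ∀ n, e n = algebraMap V R (u : V) • e' n := by
  obtain ⟨w, hw⟩ := (Module.Invertible.toModuleEnd_bijective R N).2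
    (e'.symm.toLinearMap ∘ₗ e.toLinearMap)
  obtain ⟨w', hw'⟩ := (Module.Invertible.toModuleEnd_bijective R N).2
    (e.symm.toLinearMap ∘ₗ e'.toLinearMap)
  have hwn : ∀ n, w • n = e'.symm (e n) := fun n => congr($hw n)
  have hwn' : ∀ n, w' • n = e.symm (e' n) := fun n => congr($hw' n)
  have hew : ∀ n, e n = w • e' n := by
    intro n
    rw [← map_smul, hwn, LinearEquiv.apply_symm_apply]
  have hww' : w' * w = 1 := by
    apply eq_of_smul_eq (N := N)
    intro n
    rw [mul_smul, hwn, hwn', LinearEquiv.apply_symm_apply, LinearEquiv.symm_apply_apply, one_smul]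
  have hwP : w ∉ maxMap V R := by
    intro hmem
    have h1 : (1 : R) ∈ maxMap V R := by rw [← hww']; exact Ideal.mul_mem_left _ _ hmem
    exact (Ideal.IsPrime.ne_top ‹_›) ((Ideal.eq_top_iff_one _).mpr h1)
  have hmul : algebraMap V R A * w = algebraMap V R B := by
    apply eq_of_smul_eq (N := N')
    intro n'
    obtain ⟨n, rfl⟩ := e'.surjective n'
    rw [mul_smul, ← hew, h]
  obtain ⟨u, hu⟩ := exists_unit_of_mul_eq hwP hA hB hmul
  exact ⟨u, fun n => by rw [hew, hu]⟩

end Main

end Fermat.Agent.S25.H506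

end
-- ===== PACK-END S25/H506/ValCore.lean

-- ===== PACK-BEGIN S25/H206/FamilyAlgEquivZero.lean
section





/-!
# S25 / route piece B6-FORMAL (b): a family with a trivial fibre is fibrewise algebraically
equivalent to zero

Let `x : X ⟶ Spec k` be locally of finite type and geometrically integral, `M` a rigidified line
bundle on `C ×ₖ X` and `t₀` a `k`-point of `X` over which `M` is trivial.  Then every geometric
fibre of `M` is algebraically equivalent to zero in the Prelude's sense
(`FibrewiseAlgEquivZero M`): the connecting family is the base change of `M` itself.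

Prelude-only (no row definitions are used).
-/

set_option autoImplicit false

universe u

open CategoryTheory CategoryTheory.Limits AlgebraicGeometry AlgebraicGeometry.RelPicard
  NeronModelInfra

namespace Fermat.Agent.S25.H206

noncomputable section

/-- Pullback of modules along the two sides of a commutative square. -/
def pullbackSquareIso {W X Y Z : Scheme.{u}} {f : W ⟶ X} {g : X ⟶ Z} {f' : W ⟶ Y} {g' : Y ⟶ Z}
    (h : f ≫ g = f' ≫ g') (M : Z.Modules) :
    (Scheme.Modules.pullback f).obj ((Scheme.Modules.pullback g).obj M) ≅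
      (Scheme.Modules.pullback f').obj ((Scheme.Modules.pullback g').obj M) :=
  (Scheme.Modules.pullbackComp f g).app M ≪≫ (Scheme.Modules.pullbackCongr h).app M ≪≫
    ((Scheme.Modules.pullbackComp f' g').app M).symm

/-- Pullback of modules along a factorization. -/
def pullbackFactorIso {W X Z : Scheme.{u}} {f : W ⟶ X} {g : X ⟶ Z} {k : W ⟶ Z}
    (h : f ≫ g = k) (M : Z.Modules) :
    (Scheme.Modules.pullback f).obj ((Scheme.Modules.pullback g).obj M) ≅
      (Scheme.Modules.pullback k).obj M :=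
  (Scheme.Modules.pullbackComp f g).app M ≪≫ (Scheme.Modules.pullbackCongr h).app M

section BaseChangeSnd

variable {R : Type u} [CommRing R] {C T T' : Scheme.{u}} (c : C ⟶ Spec (CommRingCat.of R))
  {t : T ⟶ Spec (CommRingCat.of R)} {t' : T' ⟶ Spec (CommRingCat.of R)}

@[reassoc]
theorem baseChangeSnd_fst (ψ : SchemeHomOver t' t) :
    baseChangeSnd c ψ ≫ pullback.fst c t = pullback.fst c t' := by
  unfold baseChangeSnd
  rw [pullback.lift_fst]
  exact Category.comp_id _

@[reassoc]
theorem baseChangeSnd_snd (ψ : SchemeHomOver t' t) :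
    baseChangeSnd c ψ ≫ pullback.snd c t = pullback.snd c t' ≫ ψ.1 := by
  unfold baseChangeSnd
  rw [pullback.lift_snd]

end BaseChangeSnd

variable {k : Type u} [Field k] {C : Scheme.{u}} {c : C ⟶ Spec (CommRingCat.of k)}
  {ε : SchemeHomOver (𝟙 (Spec (CommRingCat.of k))) c}

/-- **B6-FORMAL (b), module form.** Let `x : X ⟶ Spec k` be locally of finite type and
geometrically integral, `L` an invertible module on `C ×ₖ X` whose restriction to the fibre over a
`k`-point `t₀` is trivial.  Then for every field `K` and every `K`-point `s` of `X` the fibre of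
`L` over `s` is algebraically equivalent to zero. -/
theorem isAlgEquivZero_fibre_of_trivial_fibre
    {X : Scheme.{u}} (x : X ⟶ Spec (CommRingCat.of k))
    [LocallyOfFiniteType x] [GeometricallyIntegral x]
    (L : (pullback c x).Modules) (hL : Scheme.Modules.IsInvertible L)
    (t₀ : SchemeHomOver (𝟙 (Spec (CommRingCat.of k))) x)
    (h₀ : Nonempty ((Scheme.Modules.pullback (baseChangeSnd c t₀)).obj L ≅
      SheafOfModules.unit (pullback c (𝟙 (Spec (CommRingCat.of k)))).ringCatSheaf))
    (K : Type u) [Field K] (s : Spec (CommRingCat.of K) ⟶ X) :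
    IsAlgEquivZero (fibreAt c x s)
      ((Scheme.Modules.pullback (pullback.fst (pullback.snd c x) s)).obj L) := by
  obtain ⟨e₀⟩ := h₀
  -- notation
  let a : pullback (pullback.snd c x) s ⟶ Spec (CommRingCat.of K) := fibreAt c x s
  have ha : pullback.fst (pullback.snd c x) s ≫ pullback.snd c x = a ≫ s := pullback.condition
  let κ : Spec (CommRingCat.of K) ⟶ Spec (CommRingCat.of k) := s ≫ x
  let h : pullback x κ ⟶ Spec (CommRingCat.of K) := pullback.snd x κ
  have hah : pullback.fst a h ≫ a = pullback.snd a h ≫ h := pullback.condition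
  have ha1 : pullback.fst a (𝟙 (Spec (CommRingCat.of K))) ≫ a = pullback.snd a (𝟙 _) :=
    pullback.condition.trans (Category.comp_id _)
  have hxκ : pullback.fst x κ ≫ x = h ≫ κ := pullback.condition
  have hcompat : (pullback.fst a h ≫ pullback.fst (pullback.snd c x) s ≫ pullback.fst c x) ≫ c =
      (pullback.snd a h ≫ pullback.fst x κ) ≫ x := by
    simp only [Category.assoc]
    rw [pullback.condition (f := c) (g := x), reassoc_of% ha, reassoc_of% hah, hxκ]
  let Φ : pullback a h ⟶ pullback c x :=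
    pullback.lift (pullback.fst a h ≫ pullback.fst (pullback.snd c x) s ≫ pullback.fst c x)
      (pullback.snd a h ≫ pullback.fst x κ) hcompat
  have hΦ1 : Φ ≫ pullback.fst c x =
      pullback.fst a h ≫ pullback.fst (pullback.snd c x) s ≫ pullback.fst c x :=
    pullback.lift_fst _ _ _
  have hΦ2 : Φ ≫ pullback.snd c x = pullback.snd a h ≫ pullback.fst x κ :=
    pullback.lift_snd _ _ _
  -- the two points
  let t₁ : SchemeHomOver (𝟙 (Spec (CommRingCat.of K))) h :=
    ⟨pullback.lift s (𝟙 _) (Category.id_comp _).symm, pullback.lift_snd _ _ _⟩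
  have ht₁ : t₁.1 ≫ pullback.fst x κ = s := pullback.lift_fst _ _ _
  let t₀' : SchemeHomOver (𝟙 (Spec (CommRingCat.of K))) h :=
    ⟨pullback.lift (κ ≫ t₀.1) (𝟙 _)
      (by rw [Category.assoc, t₀.2, Category.comp_id, Category.id_comp]), pullback.lift_snd _ _ _⟩
  have ht₀' : t₀'.1 ≫ pullback.fst x κ = κ ≫ t₀.1 := pullback.lift_fst _ _ _
  refine ⟨pullback x κ, h, inferInstance, inferInstance, (Scheme.Modules.pullback Φ).obj L,
    hL.pullback Φ, t₀', t₁, ⟨?_⟩, ⟨?_⟩⟩
  · -- the fibre over `t₀'` is trivial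
    have hΨ : (pullback.fst a (𝟙 (Spec (CommRingCat.of K))) ≫
        pullback.fst (pullback.snd c x) s ≫ pullback.fst c x) ≫ c =
        (pullback.snd a (𝟙 (Spec (CommRingCat.of K))) ≫ κ) ≫ 𝟙 _ := by
      simp only [Category.assoc, Category.comp_id]
      rw [pullback.condition (f := c) (g := x), reassoc_of% ha, reassoc_of% ha1]
    let Ψ : pullback a (𝟙 (Spec (CommRingCat.of K))) ⟶ pullback c (𝟙 (Spec (CommRingCat.of k))) :=
      pullback.lift (pullback.fst a (𝟙 _) ≫ pullback.fst (pullback.snd c x) s ≫ pullback.fst c x)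
        (pullback.snd a (𝟙 _) ≫ κ) hΨ
    have hΨ1 : Ψ ≫ pullback.fst c (𝟙 _) =
        pullback.fst a (𝟙 _) ≫ pullback.fst (pullback.snd c x) s ≫ pullback.fst c x :=
      pullback.lift_fst _ _ _
    have hΨ2 : Ψ ≫ pullback.snd c (𝟙 _) = pullback.snd a (𝟙 _) ≫ κ := pullback.lift_snd _ _ _
    have hsq : baseChangeSnd a t₀' ≫ Φ = Ψ ≫ baseChangeSnd c t₀ := by
      apply pullback.hom_ext
      · have hl : (baseChangeSnd a t₀' ≫ Φ) ≫ pullback.fst c x =
            pullback.fst a (𝟙 _) ≫ pullback.fst (pullback.snd c x) s ≫ pullback.fst c x := by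
          rw [Category.assoc, hΦ1, baseChangeSnd_fst_assoc]
        have hr : (Ψ ≫ baseChangeSnd c t₀) ≫ pullback.fst c x =
            pullback.fst a (𝟙 _) ≫ pullback.fst (pullback.snd c x) s ≫ pullback.fst c x := by
          rw [Category.assoc, baseChangeSnd_fst, hΨ1]
        exact hl.trans hr.symm
      · have hl : (baseChangeSnd a t₀' ≫ Φ) ≫ pullback.snd c x =
            pullback.snd a (𝟙 _) ≫ κ ≫ t₀.1 := by
          rw [Category.assoc, hΦ2, baseChangeSnd_snd_assoc, ht₀']
        have hr : (Ψ ≫ baseChangeSnd c t₀) ≫ pullback.snd c x =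
            pullback.snd a (𝟙 _) ≫ κ ≫ t₀.1 := by
          rw [Category.assoc, baseChangeSnd_snd, reassoc_of% hΨ2]
        exact hl.trans hr.symm
    exact pullbackSquareIso hsq L ≪≫ (Scheme.Modules.pullback Ψ).mapIso e₀ ≪≫
      Scheme.Modules.pullbackUnitIso Ψ
  · -- the fibre over `t₁` is the given fibre
    have hsq : baseChangeSnd a t₁ ≫ Φ =
        pullback.fst a (𝟙 (Spec (CommRingCat.of K))) ≫ pullback.fst (pullback.snd c x) s := by
      apply pullback.hom_ext
      · have hl : (baseChangeSnd a t₁ ≫ Φ) ≫ pullback.fst c x =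
            pullback.fst a (𝟙 _) ≫ pullback.fst (pullback.snd c x) s ≫ pullback.fst c x := by
          rw [Category.assoc, hΦ1, baseChangeSnd_fst_assoc]
        exact hl.trans (Category.assoc _ _ _).symm
      · have hl : (baseChangeSnd a t₁ ≫ Φ) ≫ pullback.snd c x = pullback.snd a (𝟙 _) ≫ s := by
          rw [Category.assoc, hΦ2, baseChangeSnd_snd_assoc, ht₁]
        have hr : (pullback.fst a (𝟙 (Spec (CommRingCat.of K))) ≫
            pullback.fst (pullback.snd c x) s) ≫ pullback.snd c x = pullback.snd a (𝟙 _) ≫ s := by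
          rw [Category.assoc, ha, reassoc_of% ha1]
        exact hl.trans hr.symm
    exact pullbackSquareIso hsq L

/-- **B6-FORMAL (b).** Let `x : X ⟶ Spec k` be locally of finite type and geometrically
integral, `M` a rigidified line bundle over `X` and `t₀` a `k`-point of `X` such that the fibre of
`M` over `t₀` is trivial.  Then `M` is fibrewise algebraically equivalent to zero. -/
theorem fibrewiseAlgEquivZero_of_trivial_fibre
    {X : Scheme.{u}} (x : X ⟶ Spec (CommRingCat.of k))
    [LocallyOfFiniteType x] [GeometricallyIntegral x]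
    (M : RigidifiedLineBundle c ε x)
    (t₀ : SchemeHomOver (𝟙 (Spec (CommRingCat.of k))) x)
    (h₀ : Nonempty ((M.pullbackAlong t₀).L ≅
      (RigidifiedLineBundle.unit (c := c) (ε := ε) (𝟙 (Spec (CommRingCat.of k)))).L)) :
    FibrewiseAlgEquivZero M := fun K _ _ s =>
  isAlgEquivZero_fibre_of_trivial_fibre x M.L M.isInvertible t₀ h₀ K s

end

end Fermat.Agent.S25.H206

end
-- ===== PACK-END S25/H206/FamilyAlgEquivZero.lean

-- ===== PACK-BEGIN S25/H611/InvMap.lean
section


/-!
# Image of an invertible ideal under a surjection (helper611, S25/HILB/H3)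

`invertible_map_of_inf_le`: if `S → T` is surjective with kernel `N`, `J` is an ideal of `S` which
is an invertible `S`-module and `J ⊓ N ≤ N * J`, then `J.map (algebraMap S T)` is an invertible
`T`-module (it is `T ⊗[S] J`).
-/

namespace Fermat.Agent.S25.H611

open scoped TensorProduct

section InvMap

variable {S T : Type*} [CommRing S] [CommRing T] [Algebra S T]

/-- The natural map `T ⊗[S] J → T`. -/
noncomputable def baseChangeToIdeal (J : Ideal S) : T ⊗[S] J →ₗ[T] T :=
  LinearMap.liftBaseChange T ((Algebra.linearMap S T) ∘ₗ J.subtype)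

@[simp]
theorem baseChangeToIdeal_tmul (J : Ideal S) (t : T) (j : J) :
    baseChangeToIdeal (T := T) J (t ⊗ₜ j) = t * algebraMap S T j := by
  simp [baseChangeToIdeal, LinearMap.liftBaseChange_tmul]

theorem exists_one_tmul_eq (hsurj : Function.Surjective (algebraMap S T)) (J : Ideal S)
    (x : T ⊗[S] J) : ∃ j : J, x = (1 : T) ⊗ₜ[S] j := by
  induction x using TensorProduct.induction_on with
  | zero => exact ⟨0, by simp⟩
  | tmul t j =>
    obtain ⟨s, rfl⟩ := hsurj t
    refine ⟨s • j, ?_⟩
    rw [TensorProduct.tmul_smul, TensorProduct.smul_tmul', Algebra.smul_def, mul_one]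
  | add x y hx hy =>
    obtain ⟨a, rfl⟩ := hx
    obtain ⟨b, rfl⟩ := hy
    exact ⟨a + b, by rw [TensorProduct.tmul_add]⟩

theorem one_tmul_eq_zero_of_mem_mul (J : Ideal S) (j : S)
    (hj : j ∈ RingHom.ker (algebraMap S T) * J) :
    ∃ hj' : j ∈ J, ((1 : T) ⊗ₜ[S] (⟨j, hj'⟩ : J)) = 0 := by
  induction hj using Submodule.mul_induction_on' with
  | mem_mul_mem m hm n hn =>
    refine ⟨J.mul_mem_left m hn, ?_⟩
    have h1 : (⟨m * n, J.mul_mem_left m hn⟩ : J) = m • (⟨n, hn⟩ : J) := rfl
    rw [h1, TensorProduct.tmul_smul, TensorProduct.smul_tmul', Algebra.smul_def, mul_one,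
      (RingHom.mem_ker).mp hm, TensorProduct.zero_tmul]
  | add x hx y hy hx' hy' =>
    obtain ⟨hxJ, hx0⟩ := hx'
    obtain ⟨hyJ, hy0⟩ := hy'
    refine ⟨J.add_mem hxJ hyJ, ?_⟩
    have h1 : (⟨x + y, J.add_mem hxJ hyJ⟩ : J) = ⟨x, hxJ⟩ + ⟨y, hyJ⟩ := rfl
    rw [h1, TensorProduct.tmul_add, hx0, hy0, add_zero]

theorem baseChangeToIdeal_injective (hsurj : Function.Surjective (algebraMap S T)) (J : Ideal S)
    (h : J ⊓ RingHom.ker (algebraMap S T) ≤ RingHom.ker (algebraMap S T) * J) :
    Function.Injective (baseChangeToIdeal (T := T) J) := by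
  rw [injective_iff_map_eq_zero]
  intro x hx
  obtain ⟨j, rfl⟩ := exists_one_tmul_eq hsurj J x
  rw [baseChangeToIdeal_tmul, one_mul] at hx
  have hmem : (j : S) ∈ J ⊓ RingHom.ker (algebraMap S T) := ⟨j.2, RingHom.mem_ker.mpr hx⟩
  obtain ⟨hj', h0⟩ := one_tmul_eq_zero_of_mem_mul (T := T) J (j : S) (h hmem)
  exact h0

theorem range_baseChangeToIdeal (J : Ideal S) :
    LinearMap.range (baseChangeToIdeal (T := T) J) = J.map (algebraMap S T) := by
  apply le_antisymm
  · rintro _ ⟨x, rfl⟩
    induction x using TensorProduct.induction_on with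
    | zero => simp
    | tmul t j =>
      rw [baseChangeToIdeal_tmul]
      exact Ideal.mul_mem_left _ _ (Ideal.mem_map_of_mem _ j.2)
    | add x y hx hy =>
      rw [map_add]
      exact Submodule.add_mem _ hx hy
  · rw [Ideal.map, Ideal.span_le]
    rintro _ ⟨j, hj, rfl⟩
    exact ⟨(1 : T) ⊗ₜ[S] (⟨j, hj⟩ : J), by simp⟩

/-- **L1.** The image of an invertible ideal under a surjection whose kernel `N` satisfies
`J ⊓ N ≤ N * J` is an invertible module. -/
theorem invertible_map_of_inf_le (hsurj : Function.Surjective (algebraMap S T)) (J : Ideal S)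
    [Module.Invertible S J]
    (h : J ⊓ RingHom.ker (algebraMap S T) ≤ RingHom.ker (algebraMap S T) * J) :
    Module.Invertible T (J.map (algebraMap S T)) := by
  let e₁ : (T ⊗[S] J) ≃ₗ[T] LinearMap.range (baseChangeToIdeal (T := T) J) :=
    LinearEquiv.ofInjective _ (baseChangeToIdeal_injective hsurj J h)
  let e₂ : LinearMap.range (baseChangeToIdeal (T := T) J) ≃ₗ[T] (J.map (algebraMap S T)) :=
    LinearEquiv.ofEq _ _ (range_baseChangeToIdeal J)
  exact Module.Invertible.congr (e₁ ≪≫ₗ e₂)

end InvMap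

end Fermat.Agent.S25.H611

end
-- ===== PACK-END S25/H611/InvMap.lean

-- ===== PACK-BEGIN S25/H611/RankInv.lean
section


/-!
# Rank over the base of an invertible module over a finite algebra (helper611, S25/HILB/H3)

If `T` is a finite `R`-algebra and `K` is an invertible `T`-module, then `K` and `T` have the same
fibre dimension at every field-valued point of `R`; hence the same `rankAtStalk` over `R`.
-/

namespace Fermat.Agent.S25.H611

open scoped TensorProduct

section RankInv

attribute [local instance] Algebra.TensorProduct.rightAlgebra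

theorem finrank_tensor_eq_of_invertible (R T K κ : Type*) [CommRing R] [CommRing T] [Algebra R T]
    [Module.Finite R T] [AddCommGroup K] [Module T K] [Module R K] [IsScalarTower R T K]
    [Module.Invertible T K] [Field κ] [Algebra R κ] :
    Module.finrank κ (κ ⊗[R] K) = Module.finrank κ (κ ⊗[R] T) := by
  let B := κ ⊗[R] T
  have e₁ : (B ⊗[T] K) ≃ₗ[κ] κ ⊗[R] K := Algebra.IsPushout.cancelBaseChange R κ T B K
  haveI : IsArtinianRing B := IsArtinianRing.of_finite κ B
  haveI : Module.Free B (B ⊗[T] K) := inferInstance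
  obtain ⟨e₂⟩ := (Module.Invertible.free_iff_linearEquiv (R := B) (M := B ⊗[T] K)).mp inferInstance
  rw [← e₁.finrank_eq]
  exact (e₂.restrictScalars κ).finrank_eq

end RankInv

end Fermat.Agent.S25.H611

end
-- ===== PACK-END S25/H611/RankInv.lean

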