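import Mathlib
import Fermat.Prelude.Def_AlgebraicGeometry_RelativePicardFunctor
import Mathlib.RingTheory.PicardGroup
import Fermat.Agent.Pack.S43MC.G0E0L3
import Fermat.Agent.Pack.S44C.G0E0L2
import Fermat.Agent.Pack.S43MC.G0E0L0
import Fermat.Agent.Pack.S43MC.G0E0L1
import Fermat.Agent.Pack.S43MC.G0E0L2
import Fermat.Agent.Pack.S43MC.G0E4L1
import Fermat.Agent.Pack.Fast891

-- ===== PACK-BEGIN Lib/Newform/H923/AL.lean
section


/-!
# Atkin–Lehner matrices for `Γ₀(q M)` and commutation with the Hecke operators `T_ℓ`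

`IsAL q M A` says that `A = [[q a, b], [q M c, q d]]` with integers `a b c d` and
`q a d - M b c = 1` (so `det A = q`).  For a function `f` invariant under `Γ₀(q M)`:

* `slash_AL_eq` : `f ∣[k] A` does not depend on the choice of `A`;
* `slash_AL_invariant` : `f ∣[k] A` is again invariant under `Γ₀(q M)`;
* `slash_AL_slash_AL` : in weight `2`, `(f ∣[2] A) ∣[2] A = f`;
* `heckeT_slash_AL` : `T_ℓ (f ∣[k] A) = (T_ℓ f) ∣[k] A` for primes `ℓ ∤ q M`;
* `exists_isAL` : such matrices exist when `q` and `M` are coprime.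
-/

set_option autoImplicit false

noncomputable section

namespace Fermat.Agent.Lib.Newform.H923

open Matrix UpperHalfPlane ModularForm
open scoped MatrixGroups ModularForm OnePoint

/-- Invariance of a function on the upper half plane under `Γ₀(N)` in weight `k`
(the shape of hypothesis used by the Prelude). -/
def InvUnder (N : ℕ) (k : ℤ) (f : ℍ → ℂ) : Prop :=
  ∀ γ ∈ (CongruenceSubgroup.Gamma0 N : Subgroup (GL (Fin 2) ℝ)), f ∣[k] γ = f

theorem InvUnder.slash_mapGL {N : ℕ} {k : ℤ} {f : ℍ → ℂ} (hf : InvUnder N k f)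
    {g : SL(2, ℤ)} (hg : g ∈ CongruenceSubgroup.Gamma0 N) :
    f ∣[k] (Matrix.SpecialLinearGroup.mapGL ℝ g) = f :=
  hf _ (Subgroup.mem_map_of_mem _ hg)

theorem invUnder_of_slashInvariantFormClass {N : ℕ} {k : ℤ} {F : Type*} [FunLike F ℍ ℂ]
    [SlashInvariantFormClass F (CongruenceSubgroup.Gamma0 N : Subgroup (GL (Fin 2) ℝ)) k]
    (f : F) : InvUnder N k (f : ℍ → ℂ) :=
  fun γ hγ => SlashInvariantFormClass.slash_action_eq f γ hγ

/-- `IsAL q M A`: `A` is an Atkin–Lehner matrix at `q` for the level `q * M`. -/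
def IsAL (q M : ℕ) (A : GL (Fin 2) ℝ) : Prop :=
  ∃ a b c d : ℤ, IsInt A (q * a) b (q * M * c) (q * d) ∧ q * a * d - M * b * c = 1

/-- An integral matrix of determinant `q` whose entries satisfy the Atkin–Lehner divisibilities
is an Atkin–Lehner matrix. -/
theorem isAL_of_dvd {q M : ℕ} (hq : q ≠ 0) {A : GL (Fin 2) ℝ} {a b c d : ℤ}
    (hA : IsInt A a b c d) (hdet : a * d - b * c = q) (ha : (q : ℤ) ∣ a)
    (hc : ((q * M : ℕ) : ℤ) ∣ c) (hd : (q : ℤ) ∣ d) : IsAL q M A := by
  obtain ⟨a', rfl⟩ := ha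
  obtain ⟨c', rfl⟩ := hc
  obtain ⟨d', rfl⟩ := hd
  refine ⟨a', b, c', d', ?_, ?_⟩
  · simpa [IsInt] using hA
  · have hq' : (q : ℤ) ≠ 0 := by exact_mod_cast hq
    apply mul_left_cancel₀ hq'
    push_cast at hdet
    linear_combination hdet

/-- Two Atkin–Lehner matrices differ by an element of `Γ₀(q M)` on the left. -/
theorem IsAL.exists_eq_mul {q M : ℕ} {A A' : GL (Fin 2) ℝ} (hA : IsAL q M A)
    (hA' : IsAL q M A') :
    ∃ g ∈ CongruenceSubgroup.Gamma0 (q * M), A' = Matrix.SpecialLinearGroup.mapGL ℝ g * A := by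
  obtain ⟨a, b, c, d, hInt, h⟩ := hA
  obtain ⟨a', b', c', d', hInt', h'⟩ := hA'
  let g : SL(2, ℤ) := ⟨!![q * a' * d - M * b' * c, a * b' - a' * b;
      q * M * (c' * d - c * d'), q * a * d' - M * b * c'], by
    rw [Matrix.det_fin_two_of]
    linear_combination (q * a * d - M * b * c) * h' + h⟩
  have hg00 : g 0 0 = q * a' * d - M * b' * c := rfl
  have hg01 : g 0 1 = a * b' - a' * b := rfl
  have hg10 : g 1 0 = q * M * (c' * d - c * d') := rfl
  have hg11 : g 1 1 = q * a * d' - M * b * c' := rfl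
  refine ⟨g, ?_, ?_⟩
  · rw [CongruenceSubgroup.Gamma0_mem, hg10]
    push_cast
    have : ((q : ZMod (q * M)) * (M : ZMod (q * M))) = 0 := by
      rw [← Nat.cast_mul]
      exact ZMod.natCast_self _
    rw [this, zero_mul]
  · refine hInt'.ext ((isInt_mapGL g).mul hInt) ?_ ?_ ?_ ?_
    · rw [hg00, hg01]
      linear_combination (-(q * a' : ℤ)) * h
    · rw [hg00, hg01]
      linear_combination (-(b' : ℤ)) * h
    · rw [hg10, hg11]
      linear_combination (-(q * M * c' : ℤ)) * h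
    · rw [hg10, hg11]
      linear_combination (-(q * d' : ℤ)) * h

/-- The slash by an Atkin–Lehner matrix does not depend on the matrix. -/
theorem slash_AL_eq {q M : ℕ} {k : ℤ} {f : ℍ → ℂ} (hf : InvUnder (q * M) k f)
    {A A' : GL (Fin 2) ℝ} (hA : IsAL q M A) (hA' : IsAL q M A') :
    f ∣[k] A' = f ∣[k] A := by
  obtain ⟨g, hg, rfl⟩ := hA.exists_eq_mul hA'
  rw [SlashAction.slash_mul, hf.slash_mapGL hg]

/-- An Atkin–Lehner matrix times an element of `Γ₀(q M)` is an Atkin–Lehner matrix. -/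
theorem IsAL.mul_mapGL {q M : ℕ} {A : GL (Fin 2) ℝ} (hA : IsAL q M A) {g : SL(2, ℤ)}
    (hg : g ∈ CongruenceSubgroup.Gamma0 (q * M)) :
    IsAL q M (A * Matrix.SpecialLinearGroup.mapGL ℝ g) := by
  obtain ⟨a, b, c, d, hInt, h⟩ := hA
  obtain ⟨t, ht⟩ : ((q * M : ℕ) : ℤ) ∣ g 1 0 :=
    (ZMod.intCast_zmod_eq_zero_iff_dvd _ _).mp (CongruenceSubgroup.Gamma0_mem.mp hg)
  push_cast at ht
  have hdet : g 0 0 * g 1 1 - g 0 1 * g 1 0 = 1 := by
    have := g.det_coe
    rwa [Matrix.det_fin_two] at this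
  refine ⟨a * g 0 0 + b * M * t, q * a * g 0 1 + b * g 1 1, c * g 0 0 + q * d * t,
    M * c * g 0 1 + d * g 1 1, ?_, ?_⟩
  · have := hInt.mul (isInt_mapGL g)
    rw [ht] at this
    unfold IsInt at this ⊢
    rw [this]
    ext i j
    fin_cases i <;> fin_cases j <;> simp <;> ring
  · rw [ht] at hdet
    linear_combination (g 0 0 * g 1 1 - g 0 1 * (q * M * t)) * h + hdet

/-- The slash by an Atkin–Lehner matrix preserves `Γ₀(q M)`-invariance. -/
theorem slash_AL_invariant {q M : ℕ} {k : ℤ} {f : ℍ → ℂ} (hf : InvUnder (q * M) k f)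
    {A : GL (Fin 2) ℝ} (hA : IsAL q M A) : InvUnder (q * M) k (f ∣[k] A) := by
  rintro _ ⟨g, hg, rfl⟩
  rw [← SlashAction.slash_mul]
  exact slash_AL_eq hf hA (hA.mul_mapGL hg)

/-- Existence of Atkin–Lehner matrices. -/
theorem exists_isAL {q M : ℕ} (hq : q ≠ 0) (hqM : Nat.Coprime q M) : ∃ A, IsAL q M A := by
  have hcop : IsCoprime (q : ℤ) (M : ℤ) := Nat.isCoprime_iff_coprime.mpr hqM
  obtain ⟨u, v, huv⟩ := hcop
  have hq' : (q : ℤ) ≠ 0 := by exact_mod_cast hq
  have hdet : (q * u : ℤ) * (q * 1) - 1 * (q * M * (-v)) ≠ 0 := by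
    have : (q * u : ℤ) * (q * 1) - 1 * (q * M * (-v)) = q := by linear_combination (q : ℤ) * huv
    rw [this]
    exact hq'
  exact ⟨intGL (q * u) 1 (q * M * (-v)) (q * 1) hdet, u, 1, -v, 1, isInt_intGL _ _ _ _ _,
    by linear_combination huv⟩

/-- Scalar matrices act trivially in weight `2`. -/
theorem slash_two_scalar (u : ℝˣ) (f : ℍ → ℂ) :
    f ∣[(2 : ℤ)] (Matrix.GeneralLinearGroup.scalar (Fin 2) u) = f := by
  have hu : (u : ℝ) ≠ 0 := u.ne_zero
  have hdet : ((Matrix.GeneralLinearGroup.scalar (Fin 2) u).det : ℝ) = (u : ℝ) * u := by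
    rw [Matrix.GeneralLinearGroup.val_det_apply, Matrix.GeneralLinearGroup.coe_scalar,
      Matrix.det_fin_two]
    simp
  have hdetpos : 0 < ((Matrix.GeneralLinearGroup.scalar (Fin 2) u).det : ℝ) := by
    rw [hdet]
    exact mul_self_pos.mpr hu
  ext τ
  rw [ModularForm.slash_apply, UpperHalfPlane.σ, if_pos hdetpos, hdet]
  simp only [ContinuousAlgEquiv.refl_apply]
  have h1 : Matrix.GeneralLinearGroup.scalar (Fin 2) u • τ = τ := by
    simp
  rw [h1, UpperHalfPlane.denom_scalar]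
  have hu' : ((u : ℝ) : ℂ) ≠ 0 := by exact_mod_cast hu
  rw [abs_mul_self]
  push_cast
  norm_num
  field_simp

/-- The square of an Atkin–Lehner matrix is `q` times an element of `Γ₀(q M)`. -/
theorem IsAL.exists_sq {q M : ℕ} (hq : q ≠ 0) {A : GL (Fin 2) ℝ} (hA : IsAL q M A) :
    ∃ g ∈ CongruenceSubgroup.Gamma0 (q * M),
      A * A = Matrix.SpecialLinearGroup.mapGL ℝ g *
        Matrix.GeneralLinearGroup.scalar (Fin 2) (Units.mk0 (q : ℝ) (by exact_mod_cast hq)) := by
  obtain ⟨a, b, c, d, hInt, h⟩ := hA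
  let g : SL(2, ℤ) := ⟨!![q * a * a + b * M * c, b * (a + d);
      q * M * (c * (a + d)), M * b * c + q * d * d], by
    rw [Matrix.det_fin_two_of]
    linear_combination (q * a * d - M * b * c + 1) * h⟩
  have hg00 : g 0 0 = q * a * a + b * M * c := rfl
  have hg01 : g 0 1 = b * (a + d) := rfl
  have hg10 : g 1 0 = q * M * (c * (a + d)) := rfl
  have hg11 : g 1 1 = M * b * c + q * d * d := rfl
  have hs : IsInt (Matrix.GeneralLinearGroup.scalar (Fin 2)
      (Units.mk0 (q : ℝ) (by exact_mod_cast hq))) q 0 0 q := by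
    unfold IsInt
    rw [Matrix.GeneralLinearGroup.coe_scalar]
    ext i j
    fin_cases i <;> fin_cases j <;> simp [Matrix.natCast_apply]
  refine ⟨g, ?_, ?_⟩
  · rw [CongruenceSubgroup.Gamma0_mem, hg10]
    push_cast
    have : ((q : ZMod (q * M)) * (M : ZMod (q * M))) = 0 := by
      rw [← Nat.cast_mul]
      exact ZMod.natCast_self _
    rw [this, zero_mul]
  · refine (hInt.mul hInt).ext ((isInt_mapGL g).mul hs) ?_ ?_ ?_ ?_
    · rw [hg00, hg01]; ring
    · rw [hg00, hg01]; ring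
    · rw [hg10, hg11]; ring
    · rw [hg10, hg11]; ring

/-- In weight `2`, the Atkin–Lehner operator is an involution. -/
theorem slash_AL_slash_AL {q M : ℕ} (hq : q ≠ 0) {f : ℍ → ℂ} (hf : InvUnder (q * M) 2 f)
    {A : GL (Fin 2) ℝ} (hA : IsAL q M A) : (f ∣[(2 : ℤ)] A) ∣[(2 : ℤ)] A = f := by
  obtain ⟨g, hg, hgA⟩ := hA.exists_sq hq
  rw [← SlashAction.slash_mul, hgA, SlashAction.slash_mul, hf.slash_mapGL hg, slash_two_scalar]

/-- The Hecke operator `T_ℓ`, `ℓ ∤ q M`, commutes with the Atkin–Lehner operator at `q`. -/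
theorem heckeT_slash_AL (k : ℤ) {q M ℓ : ℕ} (hq : q ≠ 0) (hℓ : ℓ.Prime) (hℓN : ¬ ℓ ∣ q * M)
    {f : ℍ → ℂ} (hf : InvUnder (q * M) k f) {A : GL (Fin 2) ℝ} (hA : IsAL q M A) :
    heckeT k ℓ f ∣[k] A = heckeT k ℓ (f ∣[k] A) := by
  have : Fact ℓ.Prime := ⟨hℓ⟩
  have : NeZero ℓ := ⟨hℓ.ne_zero⟩
  obtain ⟨a, b, c, d, hInt, h⟩ := id hA
  have hdetA : (q * a : ℤ) * (q * d) - b * (q * M * c) = q := by linear_combination (q : ℤ) * h
  have hℓq : ¬ ℓ ∣ q := fun hd => hℓN (Dvd.dvd.mul_right hd M)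
  have hdet : ¬ (ℓ : ℤ) ∣ (q * a : ℤ) * (q * d) - b * (q * M * c) := by
    rw [hdetA]
    exact fun hd => hℓq (Int.natCast_dvd_natCast.mp hd)
  have hcopq : IsCoprime (q : ℤ) (ℓ : ℤ) :=
    Nat.isCoprime_iff_coprime.mpr ((Nat.Prime.coprime_iff_not_dvd hℓ).mpr hℓq).symm
  have hcopN : IsCoprime ((q * M : ℕ) : ℤ) (ℓ : ℤ) :=
    Nat.isCoprime_iff_coprime.mpr ((Nat.Prime.coprime_iff_not_dvd hℓ).mpr hℓN).symm
  rw [heckeT_eq_sum_hRep, heckeT_eq_sum_hRep, SlashAction.sum_slash]
  calc ∑ x : OnePoint (ZMod ℓ), (f ∣[k] hRep ℓ x) ∣[k] A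
      = ∑ x : OnePoint (ZMod ℓ),
          (f ∣[k] A) ∣[k] hRep ℓ (redGL ℓ (q * a) b (q * M * c) (q * d) hdet • x) := by
        refine Finset.sum_congr rfl fun x _ ↦ ?_
        obtain ⟨A', a', b', c', d', hA', hdet', h1, h2, h3, hmul⟩ := exists_hRep_mul hInt hdet x
        have hAL' : IsAL q M A' := by
          refine isAL_of_dvd hq hA' (hdet'.trans hdetA) ?_ ?_ ?_
          · exact h2 q hcopq (Dvd.intro _ rfl) (by rw [mul_assoc]; exact Dvd.intro _ rfl)
          · exact h1 _ hcopN (by push_cast; exact Dvd.intro _ rfl)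
          · exact h3 q hcopq (Dvd.intro _ rfl) (by rw [mul_assoc]; exact Dvd.intro _ rfl)
        rw [← SlashAction.slash_mul, hmul, SlashAction.slash_mul, slash_AL_eq hf hA hAL']
    _ = ∑ x : OnePoint (ZMod ℓ), (f ∣[k] A) ∣[k] hRep ℓ x :=
        Equiv.sum_comp (MulAction.toPerm (redGL ℓ (q * a) b (q * M * c) (q * d) hdet))
          (fun x ↦ (f ∣[k] A) ∣[k] hRep ℓ x)

end Fermat.Agent.Lib.Newform.H923

end
end
-- ===== PACK-END Lib/Newform/H923/AL.lean

-- ===== PACK-BEGIN Ribet/H104/FreyModelAtP.lean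
section


/-!
# RIBET / G1a (helper104): the integral Frey curve is a semistable, peu ramifié model

`P.freyCurveInt` (the Prelude's integral Weierstrass equation of the Frey curve) is

* an integral model of `P.freyCurve` (trivial variable change; the integer divisions in the
  Prelude definition are exact) : `isIntegralModelOf`;
* of discriminant `Δ` with `2 ^ 8 * Δ = (a b c) ^ (2 p)` : `two_pow_mul_Δ`, hence `Δ ≠ 0`;
* with `c₄ = A² + A B + B²`, `A = a ^ p`, `B = b ^ p` : `c₄_eq`;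
* semistable at EVERY prime (also at `2`) : `isSemistableModel`;
* peu ramifié at every odd prime `ℓ` (`ℓ ∣ v_ℓ(Δ)` when `ℓ = p`): `padicValRat_Δ`,
  `isPeuRamifieeAt`.

Main result: `freyModelAtP : Spec.FreyModelAtPStatement` (piece G1a of `coord/RIBET.md`).
The hypothesis `p ∣ abc` of the statement is not needed.

Everything is elementary; imports = `Ribet/Spec` only (Mathlib + Prelude definitions).
-/

set_option autoImplicit false

namespace Fermat.Agent.Ribet.H104

open WeierstrassCurve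

variable (P : FreyPackage)

/-! ### Exactness of the integer divisions in `freyCurveInt` -/

lemma two_dvd_b : (2 : ℤ) ∣ P.b := (ZMod.intCast_zmod_eq_zero_iff_dvd P.b 2).1 P.hb2

lemma four_dvd_a₂_num : (4 : ℤ) ∣ P.b ^ P.p - 1 - P.a ^ P.p := by
  have hp := P.hp5
  have hb4 : (4 : ℤ) ∣ P.b ^ P.p := by
    obtain ⟨k, hk⟩ := two_dvd_b P
    obtain ⟨j, hj⟩ : ∃ j, P.p = j + 2 := ⟨P.p - 2, by omega⟩
    exact ⟨2 ^ j * k ^ P.p, by rw [hk, hj]; ring⟩
  have ha : ((P.a ^ P.p : ℤ) : ZMod 4) = 3 := by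
    push_cast
    rw [P.ha4]
    obtain ⟨m, hm⟩ := P.hp_odd
    rw [hm, pow_succ, pow_mul]
    have : (3 : ZMod 4) ^ 2 = 1 := by decide
    rw [this, one_pow, one_mul]
  have hb' : ((P.b ^ P.p : ℤ) : ZMod 4) = 0 :=
    (ZMod.intCast_zmod_eq_zero_iff_dvd _ 4).2 hb4
  apply (ZMod.intCast_zmod_eq_zero_iff_dvd _ 4).1
  push_cast at ha hb' ⊢
  rw [ha, hb']
  decide

lemma sixteen_dvd_a₄_num : (16 : ℤ) ∣ -(P.a ^ P.p) * P.b ^ P.p := by
  have hp := P.hp5
  obtain ⟨k, hk⟩ := two_dvd_b P
  obtain ⟨j, hj⟩ : ∃ j, P.p = j + 4 := ⟨P.p - 4, by omega⟩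
  exact ⟨-(P.a ^ P.p) * (2 ^ j * k ^ P.p), by rw [hk, hj]; ring⟩

lemma four_mul_a₂ : 4 * P.freyCurveInt.a₂ = P.b ^ P.p - 1 - P.a ^ P.p :=
  Int.mul_ediv_cancel' (four_dvd_a₂_num P)

lemma sixteen_mul_a₄ : 16 * P.freyCurveInt.a₄ = -(P.a ^ P.p) * P.b ^ P.p :=
  Int.mul_ediv_cancel' (sixteen_dvd_a₄_num P)

/-! ### The Frey curve over `ℚ` is the base change of the integral Frey curve -/

theorem freyCurve_eq_map : P.freyCurve = P.freyCurveInt.map (Int.castRingHom ℚ) := by
  have h4 := four_dvd_a₂_num P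
  have h16 := sixteen_dvd_a₄_num P
  ext
  · simp [FreyPackage.freyCurve, FreyPackage.freyCurveInt, WeierstrassCurve.map]
  · simp only [FreyPackage.freyCurve, FreyPackage.freyCurveInt, WeierstrassCurve.map,
      eq_intCast]
    rw [Int.cast_div h4 (by norm_num)]
    push_cast
    ring
  · simp [FreyPackage.freyCurve, FreyPackage.freyCurveInt, WeierstrassCurve.map]
  · simp only [FreyPackage.freyCurve, FreyPackage.freyCurveInt, WeierstrassCurve.map,
      eq_intCast]
    rw [Int.cast_div h16 (by norm_num)]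
    push_cast
    ring
  · simp [FreyPackage.freyCurve, FreyPackage.freyCurveInt, WeierstrassCurve.map]

/-- `P.freyCurveInt` is an integral model of `P.freyCurve` (identity variable change). -/
theorem isIntegralModelOf : P.freyCurveInt.IsIntegralModelOf P.freyCurve :=
  ⟨1, by rw [one_smul, freyCurve_eq_map]⟩

/-! ### Invariants of the integral Frey curve -/

lemma a₁_eq : P.freyCurveInt.a₁ = 1 := rfl
lemma a₃_eq : P.freyCurveInt.a₃ = 0 := rfl
lemma a₆_eq : P.freyCurveInt.a₆ = 0 := rfl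

/-- `c₄ = A² + A B + B²` with `A = a ^ p`, `B = b ^ p`. -/
theorem c₄_eq :
    P.freyCurveInt.c₄ = (P.a ^ P.p) ^ 2 + P.a ^ P.p * P.b ^ P.p + (P.b ^ P.p) ^ 2 := by
  have h2 := four_mul_a₂ P
  have h4 := sixteen_mul_a₄ P
  simp only [WeierstrassCurve.c₄, WeierstrassCurve.b₂, WeierstrassCurve.b₄, a₁_eq, a₃_eq]
  linear_combination (4 * P.freyCurveInt.a₂ + P.b ^ P.p - P.a ^ P.p + 1) * h2 - 3 * h4

/-- `2 ^ 8 * Δ = (a b c) ^ (2 p)`. -/
theorem two_pow_mul_Δ :
    2 ^ 8 * P.freyCurveInt.Δ = (P.a * P.b * P.c) ^ (2 * P.p) := by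
  have h2 := four_mul_a₂ P
  have h4 := sixteen_mul_a₄ P
  have hc : P.c ^ P.p = P.a ^ P.p + P.b ^ P.p := P.hFLT.symm
  have e1 : 2 ^ 8 * P.freyCurveInt.Δ =
      (16 * P.freyCurveInt.a₄) ^ 2 *
        ((1 + 4 * P.freyCurveInt.a₂) ^ 2 - 4 * (16 * P.freyCurveInt.a₄)) := by
    simp only [WeierstrassCurve.Δ, WeierstrassCurve.b₂, WeierstrassCurve.b₄,
      WeierstrassCurve.b₆, WeierstrassCurve.b₈, a₁_eq, a₃_eq, a₆_eq]
    ring
  have e2 : (P.a * P.b * P.c) ^ (2 * P.p) =
      (P.a ^ P.p) ^ 2 * (P.b ^ P.p) ^ 2 * (P.c ^ P.p) ^ 2 := by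
    rw [mul_comm 2 P.p, pow_mul, mul_pow, mul_pow]
    ring
  rw [e1, e2, h2, h4, hc]
  ring

theorem abc_ne_zero : P.a * P.b * P.c ≠ 0 := P.habc0

theorem Δ_ne_zero : P.freyCurveInt.Δ ≠ 0 := by
  intro h
  have := two_pow_mul_Δ P
  rw [h, mul_zero] at this
  exact pow_ne_zero _ (abc_ne_zero P) this.symm

/-! ### Semistability at every prime -/

lemma not_prime_dvd_of_dvd_gcd_one {x y ℓ : ℤ} (hℓ : Prime ℓ) (hxy : gcd x y = 1)
    (hx : ℓ ∣ x) (hy : ℓ ∣ y) : False := by
  have h1 : ℓ ∣ gcd x y := dvd_gcd hx hy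
  rw [hxy] at h1
  exact hℓ.not_isUnit (isUnit_of_dvd_one h1)

/-- A prime dividing `c₄` of the integral Frey curve divides none of `a`, `b`, `c`. -/
theorem not_dvd_abc_of_dvd_c₄ {ℓ : ℤ} (hℓ : Prime ℓ) (hc₄ : ℓ ∣ P.freyCurveInt.c₄) :
    ¬ ℓ ∣ P.a * P.b * P.c := by
  rw [c₄_eq] at hc₄
  have hp0 : P.p ≠ 0 := P.hp0
  have key_a : ℓ ∣ P.a → False := by
    intro ha
    have hA : ℓ ∣ P.a ^ P.p := dvd_pow ha hp0
    have hB2 : ℓ ∣ (P.b ^ P.p) ^ 2 := by
      have : (P.b ^ P.p) ^ 2 =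
          ((P.a ^ P.p) ^ 2 + P.a ^ P.p * P.b ^ P.p + (P.b ^ P.p) ^ 2)
            - P.a ^ P.p * (P.a ^ P.p + P.b ^ P.p) := by ring
      rw [this]
      exact dvd_sub hc₄ (dvd_mul_of_dvd_left hA _)
    have hb : ℓ ∣ P.b := hℓ.dvd_of_dvd_pow (hℓ.dvd_of_dvd_pow hB2)
    exact not_prime_dvd_of_dvd_gcd_one hℓ P.hgcdab ha hb
  have key_b : ℓ ∣ P.b → False := by
    intro hb
    have hB : ℓ ∣ P.b ^ P.p := dvd_pow hb hp0
    have hA2 : ℓ ∣ (P.a ^ P.p) ^ 2 := by
      have : (P.a ^ P.p) ^ 2 =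
          ((P.a ^ P.p) ^ 2 + P.a ^ P.p * P.b ^ P.p + (P.b ^ P.p) ^ 2)
            - P.b ^ P.p * (P.a ^ P.p + P.b ^ P.p) := by ring
      rw [this]
      exact dvd_sub hc₄ (dvd_mul_of_dvd_left hB _)
    have ha : ℓ ∣ P.a := hℓ.dvd_of_dvd_pow (hℓ.dvd_of_dvd_pow hA2)
    exact not_prime_dvd_of_dvd_gcd_one hℓ P.hgcdab ha hb
  intro habc
  rcases hℓ.dvd_or_dvd habc with hab | hc
  · rcases hℓ.dvd_or_dvd hab with ha | hb
    · exact key_a ha
    · exact key_b hb
  · have hC : ℓ ∣ P.a ^ P.p + P.b ^ P.p := by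
      rw [P.hFLT]
      exact dvd_pow hc hp0
    have hAB : ℓ ∣ P.a ^ P.p * P.b ^ P.p := by
      have : P.a ^ P.p * P.b ^ P.p =
          (P.a ^ P.p + P.b ^ P.p) * (P.a ^ P.p + P.b ^ P.p)
            - ((P.a ^ P.p) ^ 2 + P.a ^ P.p * P.b ^ P.p + (P.b ^ P.p) ^ 2) := by ring
      rw [this]
      exact dvd_sub (dvd_mul_of_dvd_left hC _) hc₄
    rcases hℓ.dvd_or_dvd hAB with hA | hB
    · exact key_a (hℓ.dvd_of_dvd_pow hA)
    · exact key_b (hℓ.dvd_of_dvd_pow hB)

/-- A prime dividing `Δ` of the integral Frey curve divides `abc`. -/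
theorem dvd_abc_of_dvd_Δ {ℓ : ℤ} (hℓ : Prime ℓ) (hΔ : ℓ ∣ P.freyCurveInt.Δ) :
    ℓ ∣ P.a * P.b * P.c := by
  have h : ℓ ∣ (P.a * P.b * P.c) ^ (2 * P.p) := by
    rw [← two_pow_mul_Δ]
    exact dvd_mul_of_dvd_right hΔ _
  exact hℓ.dvd_of_dvd_pow h

/-- The integral Frey curve is semistable at every prime: no prime divides both `Δ` and `c₄`. -/
theorem isSemistableModel : P.freyCurveInt.IsSemistableModel := by
  intro ℓ hℓ hΔ hc₄
  have hℓ' : Prime (ℓ : ℤ) := Nat.prime_iff_prime_int.mp hℓ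
  exact not_dvd_abc_of_dvd_c₄ P hℓ' hc₄ (dvd_abc_of_dvd_Δ P hℓ' hΔ)

/-- An odd prime dividing `abc` is a bad prime of the integral Frey curve. -/
theorem dvd_Δ_of_dvd_abc {ℓ : ℕ} (hℓ : ℓ.Prime) (hℓ2 : ℓ ≠ 2)
    (h : (ℓ : ℤ) ∣ P.a * P.b * P.c) : (ℓ : ℤ) ∣ P.freyCurveInt.Δ := by
  have hℓ' : Prime (ℓ : ℤ) := Nat.prime_iff_prime_int.mp hℓ
  have h2 : (ℓ : ℤ) ∣ 2 ^ 8 * P.freyCurveInt.Δ := by
    rw [two_pow_mul_Δ]
    exact dvd_pow h (by have := P.hp0; omega)
  rcases hℓ'.dvd_or_dvd h2 with h8 | hΔ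
  · exfalso
    have h2' : (ℓ : ℤ) ∣ 2 := hℓ'.dvd_of_dvd_pow h8
    have : ℓ ∣ 2 := by exact_mod_cast h2'
    exact hℓ2 ((Nat.prime_dvd_prime_iff_eq hℓ Nat.prime_two).1 this)
  · exact hΔ

/-! ### Peu ramifié at odd primes -/

/-- `v_ℓ(Δ) = 2 p · v_ℓ(abc)` for every odd prime `ℓ`. -/
theorem padicValRat_Δ {ℓ : ℕ} (hℓ : ℓ.Prime) (hℓ2 : ℓ ≠ 2) :
    padicValRat ℓ (P.freyCurveInt.map (Int.castRingHom ℚ)).Δ =
      (2 * P.p : ℕ) * padicValRat ℓ ((P.a * P.b * P.c : ℤ) : ℚ) := by
  have : Fact ℓ.Prime := ⟨hℓ⟩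
  have : Fact (2 : ℕ).Prime := ⟨Nat.prime_two⟩
  have hΔ0 : ((P.freyCurveInt.Δ : ℤ) : ℚ) ≠ 0 := by exact_mod_cast Δ_ne_zero P
  have habc0 : ((P.a * P.b * P.c : ℤ) : ℚ) ≠ 0 := by exact_mod_cast abc_ne_zero P
  have h28 : ((2 : ℚ) ^ 8) ≠ 0 := by norm_num
  have hcast : (2 : ℚ) ^ 8 * ((P.freyCurveInt.Δ : ℤ) : ℚ) =
      ((P.a * P.b * P.c : ℤ) : ℚ) ^ (2 * P.p) := by
    have := congrArg (Int.cast : ℤ → ℚ) (two_pow_mul_Δ P)
    push_cast at this ⊢
    exact this
  have hv2 : padicValRat ℓ ((2 : ℚ) ^ 8) = 0 := by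
    rw [padicValRat.pow]
    have : padicValRat ℓ (2 : ℚ) = 0 := by
      have h := padicValRat.of_nat (p := ℓ) (n := 2)
      rw [Nat.cast_ofNat] at h
      rw [h, padicValNat_primes hℓ2]
      rfl
    rw [this, mul_zero]
  have hmap : (P.freyCurveInt.map (Int.castRingHom ℚ)).Δ = ((P.freyCurveInt.Δ : ℤ) : ℚ) := by
    rw [WeierstrassCurve.map_Δ]
    rfl
  rw [hmap]
  have h1 := congrArg (padicValRat ℓ) hcast
  rw [padicValRat.mul h28 hΔ0, hv2, zero_add, padicValRat.pow] at h1
  exact h1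

/-- The integral Frey curve is peu ramifié (for the exponent `p`) at every odd prime `ℓ`:
`p ∣ v_ℓ(Δ)`. -/
theorem isPeuRamifieeAt {ℓ : ℕ} (hℓ : ℓ.Prime) (hℓ2 : ℓ ≠ 2) :
    (P.freyCurveInt.map (Int.castRingHom ℚ)).IsPeuRamifieeAt P.p ℓ := by
  unfold WeierstrassCurve.IsPeuRamifieeAt
  rw [padicValRat_Δ P hℓ hℓ2]
  refine ⟨2 * padicValRat ℓ ((P.a * P.b * P.c : ℤ) : ℚ), ?_⟩
  push_cast
  ring

theorem p_ne_two : P.p ≠ 2 := by
  have := P.hp5
  omega

/-! ### The piece G1a -/

/-- **G1a** (`Spec.FreyModelAtPStatement`): the integral Frey curve is an integral model of the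
Frey curve, with `Δ ≠ 0`, semistable at `p` and peu ramifié at `p`. -/
theorem freyModelAtP : Spec.FreyModelAtPStatement := by
  intro P _
  exact ⟨P.freyCurveInt, isIntegralModelOf P, Δ_ne_zero P,
    fun hΔ => isSemistableModel P P.p P.pp hΔ, isPeuRamifieeAt P P.pp (p_ne_two P)⟩

end Fermat.Agent.Ribet.H104

end
-- ===== PACK-END Ribet/H104/FreyModelAtP.lean

-- ===== PACK-BEGIN S25/H927/Sep.lean
section


/-!
# S25, assembly block AS2, part 1: a representing object is separated (from `Stmt.Val`)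

`isSeparated_of_val : Stmt.Val c ε → (D represents, locally of finite type) → IsSeparated D.toBase`.
-/

set_option autoImplicit false
universe u
open CategoryTheory CategoryTheory.Limits AlgebraicGeometry AlgebraicGeometry.RelPicard
  NeronModelInfra GoodReductionJacobian

namespace Fermat.Agent.S25.H927

noncomputable section

variable {k : Type u} [Field k] {C : Scheme.{u}} {c : C ⟶ Spec (CommRingCat.of k)}
  {ε : SchemeHomOver (𝟙 (Spec (CommRingCat.of k))) c}

/-- Pulling back twice is pulling back along the composite (on the level of line bundles). -/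
def pullbackAlongCompIso {X X' T' : Scheme.{u}} {x : X ⟶ Spec (CommRingCat.of k)}
    {x' : X' ⟶ Spec (CommRingCat.of k)} {t' : T' ⟶ Spec (CommRingCat.of k)}
    (M : RigidifiedLineBundle c ε x') (φ : SchemeHomOver x x') (ψ : SchemeHomOver t' x) :
    ((M.pullbackAlong φ).pullbackAlong ψ).L ≅ (M.pullbackAlong (postComp φ ψ)).L :=
  (Scheme.Modules.pullbackComp _ _).app M.L ≪≫
    (Scheme.Modules.pullbackCongr (baseChangeSnd_comp c φ ψ)).app M.L

/-- Pulling back along equal morphisms. -/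
theorem rIso_pullbackAlong_of_eq {T T' : Scheme.{u}} {t : T ⟶ Spec (CommRingCat.of k)}
    {t' : T' ⟶ Spec (CommRingCat.of k)} (M : RigidifiedLineBundle c ε t)
    {φ ψ : SchemeHomOver t' t} (h : φ = ψ) : RIso (M.pullbackAlong φ) (M.pullbackAlong ψ) := by
  subst h
  exact ⟨Iso.refl _⟩

theorem rIso_symm {T : Scheme.{u}} {t : T ⟶ Spec (CommRingCat.of k)}
    {M M' : RigidifiedLineBundle c ε t} (h : RIso M M') : RIso M' M :=
  ⟨h.some.symm⟩

theorem rIso_trans {T : Scheme.{u}} {t : T ⟶ Spec (CommRingCat.of k)}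
    {M M' M'' : RigidifiedLineBundle c ε t} (h : RIso M M') (h' : RIso M' M'') : RIso M M'' :=
  ⟨h.some ≪≫ h'.some⟩

theorem rIso_pullbackAlong {T T' : Scheme.{u}} {t : T ⟶ Spec (CommRingCat.of k)}
    {t' : T' ⟶ Spec (CommRingCat.of k)} {M M' : RigidifiedLineBundle c ε t}
    (h : RIso M M') (ψ : SchemeHomOver t' t) : RIso (M.pullbackAlong ψ) (M'.pullbackAlong ψ) :=
  RigidifiedLineBundle.pullbackAlong_congr ψ h

theorem rIso_pullbackAlong_comp {X X' T' : Scheme.{u}} {x : X ⟶ Spec (CommRingCat.of k)}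
    {x' : X' ⟶ Spec (CommRingCat.of k)} {t' : T' ⟶ Spec (CommRingCat.of k)}
    (M : RigidifiedLineBundle c ε x') (φ : SchemeHomOver x x') (ψ : SchemeHomOver t' x) :
    RIso ((M.pullbackAlong φ).pullbackAlong ψ) (M.pullbackAlong (postComp φ ψ)) :=
  ⟨pullbackAlongCompIso M φ ψ⟩

/-- A locally of finite type `k`-scheme is quasi-separated over `k`. -/
theorem quasiSeparated_of_locallyOfFiniteType {J : Scheme.{u}}
    (f : J ⟶ Spec (CommRingCat.of k)) [LocallyOfFiniteType f] : QuasiSeparated f := by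
  have : IsLocallyNoetherian J := LocallyOfFiniteType.isLocallyNoetherian f
  infer_instance

/-- Every morphism `Spec R ⟶ Spec k` is `specStr` for a suitable algebra structure. -/
theorem exists_algebra_specStr (R : Type u) [CommRing R]
    (i : Spec (CommRingCat.of R) ⟶ Spec (CommRingCat.of k)) :
    ∃ inst : Algebra k R, @specStr k _ R _ inst = i := by
  obtain ⟨φ, rfl⟩ := Spec.map_surjective i
  exact ⟨φ.hom.toAlgebra, rfl⟩

/-- **AS2, part 1.** A representing object which is locally of finite type is separated,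
by the valuative criterion and `Stmt.Val`. -/
theorem isSeparated_of_val (hVal : Stmt.Val c ε) (D : RelativePic0Designation k c)
    (h : RepresentsRelSubPic c ε (algEquivZeroCut c ε) D)
    (hlft : LocallyOfFiniteType D.toBase) : IsSeparated D.toBase := by
  have : QuasiSeparated D.toBase := quasiSeparated_of_locallyOfFiniteType D.toBase
  apply IsSeparated.of_valuativeCriterion
  intro S
  refine ⟨fun l l' => ?_⟩
  obtain ⟨instR, hR⟩ := exists_algebra_specStr (k := k) S.R S.i₂
  let _ : Algebra k S.K := ((algebraMap S.R S.K).comp (algebraMap k S.R)).toAlgebra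
  have : IsScalarTower k S.R S.K := IsScalarTower.of_algebraMap_eq fun _ => rfl
  -- the two lifts as morphisms over `Spec k`
  let g : SchemeHomOver (specStr k S.R) D.toBase := ⟨l.l, by rw [hR]; exact l.fac_right⟩
  let g' : SchemeHomOver (specStr k S.R) D.toBase := ⟨l'.l, by rw [hR]; exact l'.fac_right⟩
  let ψ := specHomOver k (IsScalarTower.toAlgHom k S.R S.K)
  have hψ : ψ.1 = Spec.map (CommRingCat.ofHom (algebraMap S.R S.K)) := rfl
  have hgg' : postComp g ψ = postComp g' ψ := by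
    apply Subtype.ext
    change ψ.1 ≫ l.l = ψ.1 ≫ l'.l
    rw [hψ, l.fac_left, l'.fac_left]
  have hM : FibrewiseAlgEquivZero (h.poincare.pullbackAlong g) :=
    (algEquivZeroCut c ε).pullback_mem _ _ g _ h.poincare_mem
  have hM' : FibrewiseAlgEquivZero (h.poincare.pullbackAlong g') :=
    (algEquivZeroCut c ε).pullback_mem _ _ g' _ h.poincare_mem
  have hK : RIso ((h.poincare.pullbackAlong g).pullbackAlong ψ)
      ((h.poincare.pullbackAlong g').pullbackAlong ψ) :=
    rIso_trans (rIso_pullbackAlong_comp _ g ψ)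
      (rIso_trans (rIso_pullbackAlong_of_eq _ hgg') (rIso_symm (rIso_pullbackAlong_comp _ g' ψ)))
  have hiso : RIso (h.poincare.pullbackAlong g) (h.poincare.pullbackAlong g') :=
    hVal S.R S.K _ _ hM hM' hK
  have heq : g = g' := h.ext_of_iso _ g g' hiso
  have hl : l.l = l'.l := congrArg Subtype.val heq
  cases l
  cases l'
  simp only at hl
  subst hl
  rfl

end

end Fermat.Agent.S25.H927

end
-- ===== PACK-END S25/H927/Sep.lean

-- ===== PACK-BEGIN S25/H205/GlobalSections.lean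
section



/-!
# S25 / block AFF / F5: global sections of a proper integral curve and of its base changes

`k` algebraically closed, `c : C ⟶ Spec k` proper, `C` integral.

* `appTop_bijective` / `isIso_appTop`: `Γ(Spec k, ⊤) ⟶ Γ(C, ⊤)` is an isomorphism (`Γ(C, 𝒪) = k`).
* `isIso_snd_app`: for EVERY `k`-scheme `t : T ⟶ Spec k` and every open `V ⊆ T`,
  `Γ(T, V) ⟶ Γ(C ×ₖ T, pr₂⁻¹ V)` is an isomorphism (`(pr₂)_* 𝒪 = 𝒪_T`).
* `isIso_rigSection_appLE`, `rigSection_appLE_injective`: the inverse is pulling back along the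
  rigidifying section; a function on `pr₂⁻¹ V` is determined by its restriction to the section.
* `isUnit_of_rigSection_appLE`, `eq_one_of_rigSection_appLE_eq_one`.
-/

set_option autoImplicit false

universe u

open CategoryTheory CategoryTheory.Limits AlgebraicGeometry AlgebraicGeometry.RelPicard
  NeronModelInfra

namespace Fermat.Agent.S25.H205

section F5a

variable (k : Type u) [Field k] [IsAlgClosed k] {C : Scheme.{u}}
  (c : C ⟶ Spec (CommRingCat.of k)) [IsProper c] [IsIntegral C]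

/-- `Γ(C, 𝒪_C) = k` for a proper integral scheme over an algebraically closed field:
the structure map on global sections is bijective. -/
theorem appTop_bijective : Function.Bijective c.appTop.hom := by
  have hfin : c.appTop.hom.Finite := finite_appTop_of_universallyClosed k c
  have hfld : IsField Γ(C, ⊤) := isField_of_universallyClosed k c
  let e : (CommRingCat.of k) ≅ Γ(Spec (CommRingCat.of k), ⊤) := (Scheme.ΓSpecIso _).symm
  let F : k →+* Γ(C, ⊤) := (e.hom ≫ c.appTop).hom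
  let : Field Γ(C, ⊤) := hfld.toField
  have hF : F.Finite := by
    have := RingHom.Finite.comp hfin (RingHom.Finite.of_surjective e.hom.hom
      (e.commRingCatIsoToRingEquiv.surjective))
    simpa [F] using this
  let : Algebra k Γ(C, ⊤) := F.toAlgebra
  have : Module.Finite k Γ(C, ⊤) := hF
  have hbij : Function.Bijective (algebraMap k Γ(C, ⊤)) :=
    IsAlgClosed.algebraMap_bijective_of_isIntegral
  have hF' : Function.Bijective F := hbij
  have : c.appTop.hom = F.comp e.inv.hom := by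
    ext x
    simp [F]
  rw [this]
  exact hF'.comp e.symm.commRingCatIsoToRingEquiv.bijective

instance isIso_appTop : IsIso c.appTop := by
  rw [ConcreteCategory.isIso_iff_bijective]
  exact appTop_bijective k c

end F5a

section F5b

variable (k : Type u) [Field k] [IsAlgClosed k] {C : Scheme.{u}}
  (c : C ⟶ Spec (CommRingCat.of k)) [IsProper c] [IsIntegral C]
  {T : Scheme.{u}} (t : T ⟶ Spec (CommRingCat.of k))

/-- Flat base change of `H⁰`: for an affine open `V ⊆ T`, sections of `𝒪_T` over `V` are the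
sections of `𝒪_{C ×ₖ T}` over the preimage of `V`. -/
theorem isIso_snd_app_of_isAffineOpen {V : T.Opens} (hV : IsAffineOpen V) :
    IsIso ((pullback.snd c t).app V) := by
  have H : IsPullback (pullback.fst c t) (pullback.snd c t) c t := IsPullback.of_hasPullback c t
  have hUST : V ≤ t ⁻¹ᵁ (⊤ : (Spec (CommRingCat.of k)).Opens) := by simp
  have hUSX : (⊤ : C.Opens) ≤ c ⁻¹ᵁ (⊤ : (Spec (CommRingCat.of k)).Opens) := by simp
  have hUY : (pullback.snd c t) ⁻¹ᵁ V = (pullback.fst c t) ⁻¹ᵁ (⊤ : C.Opens) ⊓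
      (pullback.snd c t) ⁻¹ᵁ V := by simp
  have : CompactSpace C := (quasiCompact_iff_compactSpace c).mp inferInstance
  have : QuasiSeparatedSpace C := (quasiSeparated_iff_quasiSeparatedSpace c).mp inferInstance
  have hiso := isIso_pushoutSection_of_isQuasiSeparated_of_flat_right H hUST hUSX hUY
    (isAffineOpen_top _) hV (by simpa using isCompact_univ)
    (by simpa using isQuasiSeparated_univ)
  have hc : IsIso (c.appLE ⊤ ⊤ hUSX) := by
    have : c.appLE ⊤ ⊤ hUSX = c.appTop := by simp [Scheme.Hom.appTop, Scheme.Hom.app_eq_appLE]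
    rw [this]; exact isIso_appTop k c
  have hinr : IsIso (pushout.inr (c.appLE ⊤ ⊤ hUSX) (t.appLE ⊤ V hUST)) := inferInstance
  have heq : (pullback.snd c t).app V =
      pushout.inr (c.appLE ⊤ ⊤ hUSX) (t.appLE ⊤ V hUST) ≫ pushoutSection H hUST hUSX hUY := by
    rw [Scheme.Hom.app_eq_appLE]
    exact (pushout.inr_desc _ _ _).symm
  rw [heq]
  infer_instance

/-- `𝒪_T ⟶ (pr₂)_* 𝒪_{C ×ₖ T}` is an isomorphism of sheaves: for EVERY open `V ⊆ T`
(no hypothesis on `T`), `Γ(T, V) ⟶ Γ(C ×ₖ T, pr₂⁻¹ V)` is an isomorphism. -/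
theorem isIso_snd_app (V : T.Opens) : IsIso ((pullback.snd c t).app V) := by
  let f := pullback.snd c t
  let F : TopCat.Sheaf CommRingCat T := T.sheaf
  let G : TopCat.Sheaf CommRingCat T :=
    (TopCat.Sheaf.pushforward _ f.base).obj (pullback c t).sheaf
  let φ : F ⟶ G := ⟨f.c⟩
  have hB : TopologicalSpace.Opens.IsBasis
      (Set.range (fun U : T.affineOpens => (U : T.Opens))) := by
    rw [Subtype.range_coe]; exact T.isBasis_affineOpens
  have hφ : IsIso φ := TopCat.Sheaf.isIso_iff_isIso_basis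
    (B := fun U : T.affineOpens => (U : T.Opens)) hB
    (fun U => isIso_snd_app_of_isAffineOpen k c t U.2)
  have h2 : IsIso ((TopCat.Sheaf.forget _ _).map φ) := inferInstance
  exact NatIso.isIso_app_of_isIso ((TopCat.Sheaf.forget _ _).map φ) (Opposite.op V)

instance isIso_snd_appTop : IsIso (pullback.snd c t).appTop := isIso_snd_app k c t ⊤

/-- The ring isomorphism `Γ(T, V) ≅ Γ(C ×ₖ T, pr₂⁻¹ V)`. -/
noncomputable def sndAppIso (V : T.Opens) :
    Γ(T, V) ≅ Γ(pullback c t, (pullback.snd c t) ⁻¹ᵁ V) :=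
  haveI := isIso_snd_app k c t V
  asIso ((pullback.snd c t).app V)

@[simp] lemma sndAppIso_hom (V : T.Opens) :
    (sndAppIso k c t V).hom = (pullback.snd c t).app V := rfl

end F5b

section F5c

variable (k : Type u) [Field k] [IsAlgClosed k] {C : Scheme.{u}}
  (c : C ⟶ Spec (CommRingCat.of k)) [IsProper c] [IsIntegral C]
  {T : Scheme.{u}} (t : T ⟶ Spec (CommRingCat.of k))
  (ε : SchemeHomOver (𝟙 (Spec (CommRingCat.of k))) c)

/-- Pulling back functions along the rigidifying section `T ⟶ C ×ₖ T`. -/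
noncomputable abbrev rigRestrict (V : T.Opens) :
    Γ(pullback c t, (pullback.snd c t) ⁻¹ᵁ V) ⟶ Γ(T, V) :=
  (rigSection c t ε).appLE ((pullback.snd c t) ⁻¹ᵁ V) V
    (rigSection_preimage_snd_preimage c t ε V).ge

omit [IsAlgClosed k] [IsProper c] [IsIntegral C] in
lemma snd_app_rigRestrict (V : T.Opens) :
    (pullback.snd c t).app V ≫ rigRestrict k c t ε V = 𝟙 _ :=
  snd_app_rigSection_appLE c t ε V

lemma rigRestrict_snd_app (V : T.Opens) :
    rigRestrict k c t ε V ≫ (pullback.snd c t).app V = 𝟙 _ := by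
  have := isIso_snd_app k c t V
  rw [← cancel_epi ((pullback.snd c t).app V), ← Category.assoc, snd_app_rigRestrict]
  simp

instance isIso_rigRestrict (V : T.Opens) : IsIso (rigRestrict k c t ε V) :=
  ⟨(pullback.snd c t).app V, rigRestrict_snd_app k c t ε V, snd_app_rigRestrict k c t ε V⟩

lemma rigRestrict_injective (V : T.Opens) :
    Function.Injective (rigRestrict k c t ε V).hom :=
  ((ConcreteCategory.isIso_iff_bijective _).mp (isIso_rigRestrict k c t ε V)).1

lemma rigRestrict_bijective (V : T.Opens) :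
    Function.Bijective (rigRestrict k c t ε V).hom :=
  (ConcreteCategory.isIso_iff_bijective _).mp (isIso_rigRestrict k c t ε V)

/-- A function on `pr₂⁻¹ V ⊆ C ×ₖ T` is the pullback of its restriction to the section. -/
lemma snd_app_rigRestrict_apply (V : T.Opens) (s : Γ(pullback c t, (pullback.snd c t) ⁻¹ᵁ V)) :
    (pullback.snd c t).app V (rigRestrict k c t ε V s) = s :=
  congr($(rigRestrict_snd_app k c t ε V) s)

/-- A function on `pr₂⁻¹ V ⊆ C ×ₖ T` restricting to `1` on the rigidifying section is `1`. -/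
lemma eq_one_of_rigRestrict_eq_one (V : T.Opens)
    (s : Γ(pullback c t, (pullback.snd c t) ⁻¹ᵁ V)) (hs : rigRestrict k c t ε V s = 1) :
    s = 1 :=
  rigRestrict_injective k c t ε V (hs.trans (map_one _).symm)

/-- A function on `pr₂⁻¹ V ⊆ C ×ₖ T` restricting to `0` on the rigidifying section is `0`. -/
lemma eq_zero_of_rigRestrict_eq_zero (V : T.Opens)
    (s : Γ(pullback c t, (pullback.snd c t) ⁻¹ᵁ V)) (hs : rigRestrict k c t ε V s = 0) :
    s = 0 :=
  rigRestrict_injective k c t ε V (hs.trans (map_zero _).symm)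

/-- A function on `pr₂⁻¹ V ⊆ C ×ₖ T` is a unit iff its restriction to the section is. -/
lemma isUnit_iff_isUnit_rigRestrict (V : T.Opens)
    (s : Γ(pullback c t, (pullback.snd c t) ⁻¹ᵁ V)) :
    IsUnit s ↔ IsUnit (rigRestrict k c t ε V s) := by
  refine ⟨fun h => h.map (rigRestrict k c t ε V).hom, fun h => ?_⟩
  rw [← snd_app_rigRestrict_apply k c t ε V s]
  exact h.map ((pullback.snd c t).app V).hom

end F5c

end Fermat.Agent.S25.H205

end
-- ===== PACK-END S25/H205/GlobalSections.lean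

-- ===== PACK-BEGIN S25/H806/GlueCover.lean
section


/-!
# S25 / block GLUE / leaf G1 (helper806): morphisms of `𝒪_X`-modules glue — cover form

`f i : Y i ⟶ X` is a jointly surjective family of open immersions (for instance `(U i).ι` for an
open cover `U`).  Restriction is `Scheme.Modules.restrictFunctor (f i)`; sections of
`M.restrict (f i)` over `V` are *definitionally* the sections of `M` over `f i ''ᵁ V`.
-/

set_option autoImplicit false

open CategoryTheory AlgebraicGeometry TopologicalSpace Opposite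

universe u

namespace Fermat.Agent.S25.H806

section Single

variable {X Y : Scheme.{u}} (g : Y ⟶ X) [IsOpenImmersion g] {M N : X.Modules}

/-- The component over `V ⊆ Y` of a local morphism `φ : M|_Y ⟶ N|_Y`, viewed as a map between
the sections of `M` and `N` over the image of `V` in `X`. -/
noncomputable def appImage (φ : M.restrict g ⟶ N.restrict g) (V : Y.Opens) : Γ(M, g ''ᵁ V) ⟶ Γ(N, g ''ᵁ V) :=
  φ.app V

theorem appImage_naturality (φ : M.restrict g ⟶ N.restrict g) {V V' : Y.Opens} (h : V ≤ V') :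
    M.presheaf.map (homOfLE (Scheme.Hom.image_mono g h)).op ≫ appImage g φ V =
      appImage g φ V' ≫ N.presheaf.map (homOfLE (Scheme.Hom.image_mono g h)).op :=
  φ.mapPresheaf.naturality (homOfLE h).op

theorem appImage_smul (φ : M.restrict g ⟶ N.restrict g) (V : Y.Opens) (r : Γ(X, g ''ᵁ V))
    (x : Γ(M, g ''ᵁ V)) : appImage g φ V (r • x) = r • appImage g φ V x := by
  have h := φ.app_smul (U := V) ((g.appIso V).hom r) x
  have e : (g.appIso V).inv ((g.appIso V).hom r) = r := by simp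
  have h' : appImage g φ V (((g.appIso V).inv ((g.appIso V).hom r)) • x) =
      ((g.appIso V).inv ((g.appIso V).hom r)) • appImage g φ V x := h
  rwa [e] at h'

/-- The components of the restriction of a global morphism. -/
@[simp]
theorem appImage_restrictFunctor_map (φ : M ⟶ N) (V : Y.Opens) :
    appImage g ((Scheme.Modules.restrictFunctor g).map φ) V = φ.app (g ''ᵁ V) := rfl

theorem restrict_hom_ext {φ ψ : M.restrict g ⟶ N.restrict g}
    (h : ∀ V, appImage g φ V = appImage g ψ V) : φ = ψ :=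
  Scheme.Modules.hom_ext _ _ h

end Single

variable {X : Scheme.{u}} {ι : Type*} {Y : ι → Scheme.{u}} (f : ∀ i, Y i ⟶ X)
  [∀ i, IsOpenImmersion (f i)]

/-- The images of the opens of the members of a jointly surjective family of open immersions
form a basis of the topology of the target. -/
theorem isBasis_image_of_cover (hf : ∀ x : X, ∃ i, x ∈ Set.range (f i)) :
    Opens.IsBasis (Set.range fun p : Σ i, (Y i).Opens => (f p.1) ''ᵁ p.2) := by
  rw [Opens.isBasis_iff_nbhd]
  intro W x hx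
  obtain ⟨i, y, rfl⟩ := hf x
  refine ⟨_, ⟨⟨i, (f i) ⁻¹ᵁ W⟩, rfl⟩, ⟨y, hx, rfl⟩, ?_⟩
  show (f i) ''ᵁ ((f i) ⁻¹ᵁ W) ≤ W
  rw [Scheme.Hom.image_preimage_eq_opensRange_inf]
  exact inf_le_right

/-- Sectionwise compatibility of a family of local morphisms `φ i : M|_{Y i} ⟶ N|_{Y i}`:
whenever the image of `V ⊆ Y i` in `X` equals the image of `V' ⊆ Y j`, the components
`(φ i).app V` and `(φ j).app V'` agree (as maps `Γ(M, W) ⟶ Γ(N, W)` for the common image `W`). -/
def CompatOn {M N : X.Modules} (φ : ∀ i, M.restrict (f i) ⟶ N.restrict (f i)) : Prop :=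
  ∀ (i j : ι) (V : (Y i).Opens) (V' : (Y j).Opens) (h : (f i) ''ᵁ V = (f j) ''ᵁ V'),
    M.presheaf.map (eqToHom h).op ≫ appImage (f i) (φ i) V =
      appImage (f j) (φ j) V' ≫ N.presheaf.map (eqToHom h).op

variable {f}

theorem CompatOn.of_le {M N : X.Modules} {φ : ∀ i, M.restrict (f i) ⟶ N.restrict (f i)}
    (hφ : CompatOn f φ) (i j : ι) (V : (Y i).Opens) (V' : (Y j).Opens)
    (h : (f i) ''ᵁ V ≤ (f j) ''ᵁ V') :
    M.presheaf.map (homOfLE h).op ≫ appImage (f i) (φ i) V =
      appImage (f j) (φ j) V' ≫ N.presheaf.map (homOfLE h).op := by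
  have hle : (f i) ''ᵁ V ≤ (f j).opensRange := h.trans (Scheme.Hom.image_le_opensRange _ _)
  have e : (f i) ''ᵁ V = (f j) ''ᵁ ((f j) ⁻¹ᵁ ((f i) ''ᵁ V)) := by
    rw [Scheme.Hom.image_preimage_eq_opensRange_inf]
    exact (inf_eq_right.mpr hle).symm
  have hV : (f j) ⁻¹ᵁ ((f i) ''ᵁ V) ≤ V' := by
    intro y hy
    obtain ⟨y', hy', hyy'⟩ := h hy
    exact ((f j).isOpenEmbedding.injective hyy') ▸ hy'
  have h1 := hφ i j V ((f j) ⁻¹ᵁ ((f i) ''ᵁ V)) e
  have h4 := appImage_naturality (f j) (φ j) hV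
  have hM : M.presheaf.map (homOfLE h).op =
      M.presheaf.map (homOfLE (Scheme.Hom.image_mono _ hV)).op ≫ M.presheaf.map (eqToHom e).op := by
    rw [← Functor.map_comp]; rfl
  have hN : N.presheaf.map (homOfLE h).op =
      N.presheaf.map (homOfLE (Scheme.Hom.image_mono _ hV)).op ≫ N.presheaf.map (eqToHom e).op := by
    rw [← Functor.map_comp]; rfl
  rw [hM, hN, Category.assoc, h1, ← Category.assoc, ← Category.assoc, h4]

/-- The restrictions of a global morphism are compatible. -/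
theorem compatOn_restrict {M N : X.Modules} (φ : M ⟶ N) :
    CompatOn f (fun i => (Scheme.Modules.restrictFunctor (f i)).map φ) := by
  intro i j V V' h
  exact φ.mapPresheaf.naturality (eqToHom h).op

/-- **G1, cover form (restriction functors).**  Let `f i : Y i ⟶ X` be a jointly surjective
family of open immersions, `M N` two `𝒪_X`-modules and `φ i : M|_{Y i} ⟶ N|_{Y i}` a family of
morphisms which is compatible on overlaps.  Then there is a unique `φ : M ⟶ N` restricting to
`φ i` for all `i`. -/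
theorem existsUnique_hom_of_cover (hf : ∀ x : X, ∃ i, x ∈ Set.range (f i)) (M N : X.Modules)
    (φ : ∀ i, M.restrict (f i) ⟶ N.restrict (f i)) (hφ : CompatOn f φ) :
    ∃! ψ : M ⟶ N, ∀ i, (Scheme.Modules.restrictFunctor (f i)).map ψ = φ i := by
  obtain ⟨ψ, hψ, huniq⟩ := existsUnique_hom_of_basis (isBasis_image_of_cover f hf) M N
    (fun p => appImage (f p.1) (φ p.1) p.2)
    (fun p q h => hφ.of_le p.1 q.1 p.2 q.2 h)
    (fun p r x => appImage_smul (f p.1) (φ p.1) p.2 r x)
  refine ⟨ψ, fun i => ?_, fun ψ' hψ' => huniq ψ' fun p => ?_⟩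
  · exact restrict_hom_ext (f i) fun V => hψ ⟨i, V⟩
  · rw [← hψ' p.1]
    rfl

/-- Joint faithfulness of restriction to a cover. -/
theorem hom_ext_of_cover (hf : ∀ x : X, ∃ i, x ∈ Set.range (f i)) {M N : X.Modules}
    (φ ψ : M ⟶ N)
    (h : ∀ i, (Scheme.Modules.restrictFunctor (f i)).map φ =
      (Scheme.Modules.restrictFunctor (f i)).map ψ) : φ = ψ :=
  (existsUnique_hom_of_cover hf M N _ (compatOn_restrict φ)).unique (fun _ => rfl)
    (fun i => (h i).symm)

/-- A morphism which restricts to an isomorphism on every member of a cover is an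
isomorphism. -/
theorem isIso_of_cover (hf : ∀ x : X, ∃ i, x ∈ Set.range (f i)) {M N : X.Modules}
    (φ : M ⟶ N) (h : ∀ i, IsIso ((Scheme.Modules.restrictFunctor (f i)).map φ)) : IsIso φ := by
  have hB := isBasis_image_of_cover f hf
  have : IsIso ((Scheme.Modules.toPresheaf X).map φ) := by
    let MS : TopCat.Sheaf Ab X := ⟨M.presheaf, M.isSheaf⟩
    let NS : TopCat.Sheaf Ab X := ⟨N.presheaf, N.isSheaf⟩
    let φS : MS ⟶ NS := ⟨(Scheme.Modules.toPresheaf X).map φ⟩
    have hiso : IsIso φS := by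
      refine TopCat.Sheaf.isIso_iff_isIso_basis hB (fun p => ?_)
      have := h p.1
      exact (Scheme.Modules.Hom.isIso_iff_isIso_app.mp (h p.1)) p.2
    exact (inferInstance : IsIso ((TopCat.Sheaf.forget Ab X).map φS))
  exact isIso_of_reflects_iso φ (Scheme.Modules.toPresheaf X)

end Fermat.Agent.S25.H806

end
-- ===== PACK-END S25/H806/GlueCover.lean

-- ===== PACK-BEGIN S25/H250/Adapter.lean
section
/-
S25, squad S25/S10 (helper250): ADAPTER from the row's algebraic model (`DefsAlg.lean`,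
`CurveGD`) to the operator-style Cech core (`H10/CechDefs.lean`, `CechOps`).

* `tensorX`, `tensorY`, ... : the elements `1 ⊗ x`, `1 ⊗ y` of `A ⊗ B₀`, `A ⊗ B₁`, `A ⊗ B₀₁`;
* `toCechOps` : the `CechOps` datum of a `CurveGD` (needs only the two localization facts and
  `x y = 1` of an `IsCurveChart`);
* `toCechOps_d_zero` : its untwisted differential is `GlueDatum.cech`.
-/



set_option autoImplicit false

universe u

open scoped TensorProduct
open Polynomial

namespace Fermat.Agent.S25.H250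

open Fermat.Agent.S25 Fermat.Agent.S25.H10

noncomputable section

variable {k : Type u} [Field k] {B₀ B₁ B₀₁ : Type u} [CommRing B₀] [CommRing B₁] [CommRing B₀₁]
  [Algebra k B₀] [Algebra k B₁] [Algebra k B₀₁] [Algebra B₀ B₀₁] [Algebra B₁ B₀₁]
  [IsScalarTower k B₀ B₀₁] [IsScalarTower k B₁ B₀₁]

/-! ### The ring level -/

section Ring

variable (A : Type u) [CommRing A] [Algebra k A]

theorem algebraMap_tensor_tmul (B B' : Type u) [CommRing B] [CommRing B'] [Algebra k B]
    [Algebra k B'] [Algebra B B'] [IsScalarTower k B B'] (a : A) (b : B) :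
    algebraMap (A ⊗[k] B) (A ⊗[k] B') (a ⊗ₜ[k] b) = a ⊗ₜ[k] algebraMap B B' b := by
  rw [RingHom.algebraMap_toAlgebra]
  simp [tensorMapRight]

/-- Every element of `A ⊗ B'` becomes, after multiplication by a high power of `1 ⊗ x`, the
image of an element of `A ⊗ B`, when `B' = B[1/x]`. -/
theorem exists_pow_mul_eq_algebraMap (B B' : Type u) [CommRing B] [CommRing B'] [Algebra k B]
    [Algebra k B'] [Algebra B B'] [IsScalarTower k B B'] (x : B) [IsLocalization.Away x B']
    (c : A ⊗[k] B') :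
    ∃ n : ℕ, ∀ j, n ≤ j → ∃ c₀ : A ⊗[k] B,
      ((1 : A) ⊗ₜ[k] algebraMap B B' x) ^ j * c = algebraMap (A ⊗[k] B) (A ⊗[k] B') c₀ := by
  induction c using TensorProduct.induction_on with
  | zero => exact ⟨0, fun j _ => ⟨0, by simp⟩⟩
  | tmul a b =>
    obtain ⟨n, b₀, hb⟩ := IsLocalization.Away.surj x b
    refine ⟨n, fun j hj => ⟨a ⊗ₜ[k] (x ^ (j - n) * b₀), ?_⟩⟩
    rw [algebraMap_tensor_tmul, Algebra.TensorProduct.tmul_pow, one_pow,
      Algebra.TensorProduct.tmul_mul_tmul, one_mul, map_mul, map_pow, ← hb]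
    congr 1
    rw [mul_comm b, ← mul_assoc, ← pow_add, Nat.sub_add_cancel hj]
  | add c c' hc hc' =>
    obtain ⟨n, hn⟩ := hc
    obtain ⟨n', hn'⟩ := hc'
    refine ⟨max n n', fun j hj => ?_⟩
    obtain ⟨c₀, h₀⟩ := hn j (le_trans (le_max_left _ _) hj)
    obtain ⟨c₀', h₀'⟩ := hn' j (le_trans (le_max_right _ _) hj)
    exact ⟨c₀ + c₀', by rw [mul_add, map_add, h₀, h₀']⟩

end Ring

/-! ### The adapter -/

variable {A : Type u} [CommRing A] [Algebra k A]

/-- Localization property of a base-change map along `A ⊗ B → A ⊗ B[1/x]`, in operator form. -/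
theorem exists_pow_smul_eq (B B' : Type u) [CommRing B] [CommRing B'] [Algebra k B]
    [Algebra k B'] [Algebra B B'] [IsScalarTower k B B'] (x : B) [IsLocalization.Away x B']
    {N N' : Type u} [AddCommGroup N] [AddCommGroup N'] [Module (A ⊗[k] B) N]
    [Module (A ⊗[k] B') N'] [Module (A ⊗[k] B) N'] [IsScalarTower (A ⊗[k] B) (A ⊗[k] B') N']
    (r : N →ₗ[A ⊗[k] B] N') (hr : IsBaseChange (A ⊗[k] B') r) (z : N') :
    ∃ n : ℕ, ∀ j, n ≤ j → ∃ m : N, ((1 : A) ⊗ₜ[k] algebraMap B B' x) ^ j • z = r m := by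
  have hx : ∀ (j : ℕ) (m : N), ((1 : A) ⊗ₜ[k] algebraMap B B' x) ^ j • r m =
      r (((1 : A) ⊗ₜ[k] x) ^ j • m) := by
    intro j m
    rw [map_smul, ← algebraMap_smul (A ⊗[k] B') (((1 : A) ⊗ₜ[k] x) ^ j) (r m), map_pow,
      algebraMap_tensor_tmul]
  induction z using hr.inductionOn with
  | zero => exact ⟨0, fun j _ => ⟨0, by simp⟩⟩
  | tmul m => exact ⟨0, fun j _ => ⟨_, hx j m⟩⟩
  | smul s z hz =>
    obtain ⟨n, hn⟩ := hz
    obtain ⟨n', hn'⟩ := exists_pow_mul_eq_algebraMap A B B' x s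
    refine ⟨n' + n, fun j hj => ?_⟩
    obtain ⟨m, hm⟩ := hn (j - n') (by omega)
    obtain ⟨c₀, hc₀⟩ := hn' n' le_rfl
    refine ⟨c₀ • m, ?_⟩
    have hj' : j = n' + (j - n') := by omega
    rw [map_smul, ← hm, ← algebraMap_smul (A ⊗[k] B') c₀, ← hc₀, smul_smul, smul_smul]
    congr 1
    conv_lhs => rw [hj', pow_add]
    ring
  | add z z' hz hz' =>
    obtain ⟨n, hn⟩ := hz
    obtain ⟨n', hn'⟩ := hz'
    refine ⟨max n n', fun j hj => ?_⟩
    obtain ⟨m, hm⟩ := hn j (le_trans (le_max_left _ _) hj)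
    obtain ⟨m', hm'⟩ := hn' j (le_trans (le_max_right _ _) hj)
    exact ⟨m + m', by rw [smul_add, map_add, hm, hm']⟩

/-- The operator-style Cech datum of a gluing datum on `C_A`: the operators are multiplication
by `1 ⊗ x` on `N₀`, `N₀₁` and by `1 ⊗ y` on `N₁`, `N₀₁`. -/
def toCechOps (x : B₀) (y : B₁) [IsLocalization.Away x B₀₁] [IsLocalization.Away y B₀₁]
    (hxy : algebraMap B₀ B₀₁ x * algebraMap B₁ B₀₁ y = 1) (G : CurveGD k B₀ B₁ B₀₁ A) :
    CechOps A G.N₀ G.N₁ G.N₀₁ where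
  X0 := Algebra.lsmul A A G.N₀ ((1 : A) ⊗ₜ[k] x)
  Y1 := Algebra.lsmul A A G.N₁ ((1 : A) ⊗ₜ[k] y)
  T := Algebra.lsmul A A G.N₀₁ ((1 : A) ⊗ₜ[k] algebraMap B₀ B₀₁ x)
  Tinv := Algebra.lsmul A A G.N₀₁ ((1 : A) ⊗ₜ[k] algebraMap B₁ B₀₁ y)
  r0 := G.r₀.restrictScalars A
  r1 := G.r₁.restrictScalars A
  T_mul_Tinv := by
    rw [← map_mul, Algebra.TensorProduct.tmul_mul_tmul, one_mul, hxy,
      ← Algebra.TensorProduct.one_def, map_one]
  Tinv_mul_T := by
    rw [← map_mul, Algebra.TensorProduct.tmul_mul_tmul, one_mul, mul_comm, hxy,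
      ← Algebra.TensorProduct.one_def, map_one]
  r0_X0 := by
    intro n
    simp only [LinearMap.coe_restrictScalars, Algebra.lsmul_coe, map_smul]
    rw [← algebraMap_smul (A ⊗[k] B₀₁) ((1 : A) ⊗ₜ[k] x) (G.r₀ n), algebraMap_tensor_tmul]
  r1_Y1 := by
    intro n
    simp only [LinearMap.coe_restrictScalars, Algebra.lsmul_coe, map_smul]
    rw [← algebraMap_smul (A ⊗[k] B₀₁) ((1 : A) ⊗ₜ[k] y) (G.r₁ n), algebraMap_tensor_tmul]
  loc0 := by
    intro z
    obtain ⟨n, hn⟩ := exists_pow_smul_eq (A := A) B₀ B₀₁ x G.r₀ G.isBaseChange₀ z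
    obtain ⟨m, hm⟩ := hn n le_rfl
    exact ⟨n, m, by rw [← map_pow]; exact hm⟩
  loc1 := by
    intro z
    obtain ⟨n, hn⟩ := exists_pow_smul_eq (A := A) B₁ B₀₁ y G.r₁ G.isBaseChange₁ z
    obtain ⟨m, hm⟩ := hn n le_rfl
    exact ⟨n, m, by rw [← map_pow]; exact hm⟩

section Lemmas

variable (x : B₀) (y : B₁) [IsLocalization.Away x B₀₁] [IsLocalization.Away y B₀₁]
  (hxy : algebraMap B₀ B₀₁ x * algebraMap B₁ B₀₁ y = 1) (G : CurveGD k B₀ B₁ B₀₁ A)

@[simp] theorem toCechOps_X0_apply (n : G.N₀) :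
    (toCechOps x y hxy G).X0 n = ((1 : A) ⊗ₜ[k] x : A ⊗[k] B₀) • n := rfl

@[simp] theorem toCechOps_Y1_apply (n : G.N₁) :
    (toCechOps x y hxy G).Y1 n = ((1 : A) ⊗ₜ[k] y : A ⊗[k] B₁) • n := rfl

@[simp] theorem toCechOps_T_apply (z : G.N₀₁) :
    (toCechOps x y hxy G).T z = ((1 : A) ⊗ₜ[k] algebraMap B₀ B₀₁ x : A ⊗[k] B₀₁) • z := rfl

@[simp] theorem toCechOps_Tinv_apply (z : G.N₀₁) :
    (toCechOps x y hxy G).Tinv z = ((1 : A) ⊗ₜ[k] algebraMap B₁ B₀₁ y : A ⊗[k] B₀₁) • z := rfl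

@[simp] theorem toCechOps_r0_apply (n : G.N₀) : (toCechOps x y hxy G).r0 n = G.r₀ n := rfl

@[simp] theorem toCechOps_r1_apply (n : G.N₁) : (toCechOps x y hxy G).r1 n = G.r₁ n := rfl

theorem toCechOps_X0_pow_apply (j : ℕ) (n : G.N₀) :
    ((toCechOps x y hxy G).X0 ^ j) n = ((1 : A) ⊗ₜ[k] x : A ⊗[k] B₀) ^ j • n := by
  show ((Algebra.lsmul A A G.N₀ ((1 : A) ⊗ₜ[k] x)) ^ j) n = _
  rw [← map_pow]; rfl

theorem toCechOps_Y1_pow_apply (j : ℕ) (n : G.N₁) :
    ((toCechOps x y hxy G).Y1 ^ j) n = ((1 : A) ⊗ₜ[k] y : A ⊗[k] B₁) ^ j • n := by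
  show ((Algebra.lsmul A A G.N₁ ((1 : A) ⊗ₜ[k] y)) ^ j) n = _
  rw [← map_pow]; rfl

theorem toCechOps_T_pow_apply (j : ℕ) (z : G.N₀₁) :
    ((toCechOps x y hxy G).T ^ j) z =
      ((1 : A) ⊗ₜ[k] algebraMap B₀ B₀₁ x : A ⊗[k] B₀₁) ^ j • z := by
  show ((Algebra.lsmul A A G.N₀₁ ((1 : A) ⊗ₜ[k] algebraMap B₀ B₀₁ x)) ^ j) z = _
  rw [← map_pow]; rfl

theorem toCechOps_Tinv_pow_apply (j : ℕ) (z : G.N₀₁) :
    ((toCechOps x y hxy G).Tinv ^ j) z =
      ((1 : A) ⊗ₜ[k] algebraMap B₁ B₀₁ y : A ⊗[k] B₀₁) ^ j • z := by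
  show ((Algebra.lsmul A A G.N₀₁ ((1 : A) ⊗ₜ[k] algebraMap B₁ B₀₁ y)) ^ j) z = _
  rw [← map_pow]; rfl

/-- The untwisted differential of the adapter is the Cech differential of the gluing datum. -/
theorem toCechOps_d_zero : (toCechOps x y hxy G).d 0 = G.cech := by
  apply LinearMap.ext
  rintro ⟨a, b⟩
  simp [CechOps.d_apply, GlueDatum.cech, sub_eq_add_neg]

theorem toCechOps_H0_zero : (toCechOps x y hxy G).H0 0 = G.H0 := by
  show LinearMap.ker ((toCechOps x y hxy G).d 0) = LinearMap.ker G.cech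
  rw [toCechOps_d_zero]

end Lemmas

end

end Fermat.Agent.S25.H250

end
-- ===== PACK-END S25/H250/Adapter.lean

-- ===== PACK-BEGIN S25/H550/CechK1a.lean
section


/-!
# S25 / block CECH / leaf K1a: the degree bound

`exists_fg_ge_H0` : for a two-chart Čech datum whose charts are retracts of `A[X]^n` (`IsFGProj`)
with injective restriction maps, every twisted `H⁰(L(m∞)) = ker (d m)` is contained in a
finitely generated `A`-submodule of `N0 × N1`.

The engine is `degree_bound_half` (one chart at a time, symmetric in the two charts):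
there is `d` such that `r a = S ^ m (r' b)` forces all coordinates of `ι a` to have degree
`≤ m + d`.
-/

set_option autoImplicit false

namespace Fermat.Agent.S25.H550

open Polynomial Fermat.Agent.S25.H10

universe u v

variable {A : Type u} [CommRing A]

/-- Vectors of polynomials all of whose coordinates have degree `≤ d`. -/
noncomputable def polyLE (A : Type u) [CommRing A] (n d : ℕ) : Submodule A (Fin n → A[X]) :=
  Submodule.pi Set.univ (fun _ => Polynomial.degreeLE A (d : WithBot ℕ))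

theorem mem_polyLE {n d : ℕ} {w : Fin n → A[X]} :
    w ∈ polyLE A n d ↔ ∀ i, (w i).degree ≤ d := by
  simp [polyLE, Submodule.mem_pi, Polynomial.mem_degreeLE]

theorem mem_polyLE_iff_coeff {n d : ℕ} {w : Fin n → A[X]} :
    w ∈ polyLE A n d ↔ ∀ i, ∀ k : ℕ, d < k → (w i).coeff k = 0 := by
  rw [mem_polyLE]
  refine forall_congr' fun i => ?_
  rw [Polynomial.degree_le_iff_coeff_zero]
  exact forall_congr' fun k => by rw [Nat.cast_lt]

theorem polyLE_mono {n d d' : ℕ} (h : d ≤ d') : polyLE A n d ≤ polyLE A n d' := by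
  intro w hw
  rw [mem_polyLE] at hw ⊢
  exact fun i => le_trans (hw i) (by exact_mod_cast h)

theorem polyLE_fg (n d : ℕ) : (polyLE A n d).FG := by
  classical
  refine Submodule.fg_pi fun i => ?_
  rw [Polynomial.degreeLE_eq_span_X_pow]
  exact Submodule.fg_span (Finset.finite_toSet _)

theorem exists_mem_polyLE {n : ℕ} (w : Fin n → A[X]) : ∃ e : ℕ, w ∈ polyLE A n e := by
  refine ⟨Finset.univ.sup fun i => (w i).natDegree, ?_⟩
  rw [mem_polyLE]
  intro i
  refine le_trans Polynomial.degree_le_natDegree ?_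
  exact_mod_cast Finset.le_sup (f := fun i => (w i).natDegree) (Finset.mem_univ i)

theorem X_pow_smul_mem_polyLE {n d : ℕ} {w : Fin n → A[X]} (hw : w ∈ polyLE A n d) (i : ℕ) :
    (X : A[X]) ^ i • w ∈ polyLE A n (d + i) := by
  rw [mem_polyLE_iff_coeff] at hw ⊢
  intro j k hk
  obtain ⟨l, rfl⟩ := Nat.exists_eq_add_of_le (show i ≤ k by omega)
  rw [Pi.smul_apply, smul_eq_mul, add_comm i l, Polynomial.coeff_X_pow_mul]
  exact hw j l (by omega)

theorem mem_polyLE_of_X_pow_smul_mem {n d : ℕ} {w : Fin n → A[X]} (i : ℕ)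
    (hw : (X : A[X]) ^ i • w ∈ polyLE A n (d + i)) : w ∈ polyLE A n d := by
  rw [mem_polyLE_iff_coeff] at hw ⊢
  intro j k hk
  have := hw j (k + i) (by omega)
  rwa [Pi.smul_apply, smul_eq_mul, Polynomial.coeff_X_pow_mul] at this

section Half

variable {N N' N01 : Type v} [AddCommGroup N] [AddCommGroup N'] [AddCommGroup N01]
  [Module A N] [Module A N'] [Module A N01]

theorem pow_apply_of_semiconj {M M' : Type v} [AddCommGroup M] [AddCommGroup M']
    [Module A M] [Module A M'] (E : Module.End A M) (S : Module.End A M') (r : M →ₗ[A] M')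
    (hr : ∀ v, r (E v) = S (r v)) (i : ℕ) (v : M) : r ((E ^ i) v) = (S ^ i) (r v) := by
  induction i generalizing v with
  | zero => simp
  | succ i ih => rw [pow_succ', Module.End.mul_apply, hr, ih, pow_succ', Module.End.mul_apply]

theorem iota_pow_apply (E : Module.End A N) {n : ℕ} (ι : N →ₗ[A] (Fin n → A[X]))
    (hι : ∀ v, ι (E v) = (X : A[X]) • ι v) (i : ℕ) (v : N) :
    ι ((E ^ i) v) = (X : A[X]) ^ i • ι v := by
  induction i generalizing v with
  | zero => simp
  | succ i ih => rw [pow_succ', Module.End.mul_apply, hι, ih, pow_succ', mul_smul]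

theorem pi_pow_apply (E : Module.End A N) {n : ℕ} (π : (Fin n → A[X]) →ₗ[A] N)
    (hπ : ∀ w, π ((X : A[X]) • w) = E (π w)) (i : ℕ) (w : Fin n → A[X]) :
    π ((X : A[X]) ^ i • w) = (E ^ i) (π w) := by
  induction i generalizing w with
  | zero => simp
  | succ i ih => rw [pow_succ', mul_smul, hπ, ih, pow_succ', Module.End.mul_apply]

/-- **Degree bound, one chart.** -/
theorem degree_bound_half
    (E : Module.End A N) (E' : Module.End A N') (S Sinv : Module.End A N01)
    (r : N →ₗ[A] N01) (r' : N' →ₗ[A] N01)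
    (hSS : S * Sinv = 1) (hSS' : Sinv * S = 1)
    (hr : ∀ v, r (E v) = S (r v)) (hr' : ∀ v, r' (E' v) = Sinv (r' v))
    (loc : ∀ z : N01, ∃ (k : ℕ) (v : N), (S ^ k) z = r v) (hinj : Function.Injective r)
    {n : ℕ} (ι : N →ₗ[A] (Fin n → A[X])) (hι : ∀ v, ι (E v) = (X : A[X]) • ι v)
    {n' : ℕ} (ι' : N' →ₗ[A] (Fin n' → A[X])) (π' : (Fin n' → A[X]) →ₗ[A] N')
    (hπι' : π' ∘ₗ ι' = LinearMap.id) (hπ' : ∀ w, π' ((X : A[X]) • w) = E' (π' w)) :
    ∃ d : ℕ, ∀ (m : ℕ) (a : N) (b : N'), r a = (S ^ m) (r' b) → ι a ∈ polyLE A n (m + d) := by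
  classical
  have hcomm : Commute S Sinv := by
    show S * Sinv = Sinv * S
    rw [hSS, hSS']
  have hSpow : ∀ (i : ℕ) (z : N01), (S ^ i) ((Sinv ^ i) z) = z := by
    intro i z
    rw [← Module.End.mul_apply, ← hcomm.mul_pow, hSS, one_pow, Module.End.one_apply]
  -- generators of `N'` and their images in the other chart
  let g : Fin n' → N' := fun j => π' (Pi.single j 1)
  have hloc : ∀ j, ∃ (k : ℕ) (v : N), (S ^ k) (r' (g j)) = r v := fun j => loc _
  choose ks vs hks using hloc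
  let K : ℕ := Finset.univ.sup ks
  let ns : Fin n' → N := fun j => (E ^ (K - ks j)) (vs j)
  have hns : ∀ j, (S ^ K) (r' (g j)) = r (ns j) := by
    intro j
    have hk : ks j ≤ K := Finset.le_sup (f := ks) (Finset.mem_univ j)
    show _ = r ((E ^ (K - ks j)) (vs j))
    rw [pow_apply_of_semiconj E S r hr, ← hks j, ← Module.End.mul_apply, ← pow_add,
      Nat.sub_add_cancel hk]
  have hdeg : ∀ j, ∃ e : ℕ, ι (ns j) ∈ polyLE A n e := fun j => exists_mem_polyLE _
  choose ds hds using hdeg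
  let D : ℕ := Finset.univ.sup ds
  have hD : ∀ j, ι (ns j) ∈ polyLE A n D := fun j =>
    polyLE_mono (Finset.le_sup (f := ds) (Finset.mem_univ j)) (hds j)
  refine ⟨D, fun m a b hab => ?_⟩
  -- Claim A
  have claimA : ∀ (e : ℕ) (w' : Fin n' → A[X]), w' ∈ polyLE A n' e →
      ∃ w : N, ι w ∈ polyLE A n (e + D) ∧ (S ^ (K + e)) (r' (π' w')) = r w := by
    intro e w' hw'
    let Q : Submodule A (Fin n' → A[X]) :=
      Submodule.comap ((S ^ (K + e)) ∘ₗ r' ∘ₗ π')
        (Submodule.map r (Submodule.comap ι (polyLE A n (e + D))))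
    have hQ : ∀ w'', w'' ∈ Q ↔
        ∃ w : N, ι w ∈ polyLE A n (e + D) ∧ (S ^ (K + e)) (r' (π' w'')) = r w := by
      intro w''
      simp only [Q, Submodule.mem_comap, Submodule.mem_map, LinearMap.coe_comp,
        Function.comp_apply]
      constructor
      · rintro ⟨w, hw, hw2⟩
        exact ⟨w, hw, hw2.symm⟩
      · rintro ⟨w, hw, hw2⟩
        exact ⟨w, hw, hw2.symm⟩
    have hgen : ∀ (j : Fin n') (i : ℕ), i ≤ e → Pi.single j ((X : A[X]) ^ i) ∈ Q := by
      intro j i hi
      rw [hQ]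
      refine ⟨(E ^ (e - i)) (ns j), ?_, ?_⟩
      · rw [iota_pow_apply E ι hι]
        refine polyLE_mono ?_ (X_pow_smul_mem_polyLE (hD j) (e - i))
        omega
      · have h1 : (Pi.single j ((X : A[X]) ^ i) : Fin n' → A[X]) =
            (X : A[X]) ^ i • Pi.single j 1 := by
          rw [← Pi.single_smul, smul_eq_mul, mul_one]
        rw [h1, pi_pow_apply E' π' hπ', pow_apply_of_semiconj E' Sinv r' hr',
          pow_apply_of_semiconj E S r hr, ← hns j]
        have h2 : K + e = (e - i) + K + i := by omega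
        rw [h2, pow_add, pow_add, Module.End.mul_apply, Module.End.mul_apply, hSpow]
    have hsingle : ∀ (j : Fin n') (c : A[X]), c ∈ Polynomial.degreeLE A (e : WithBot ℕ) →
        Pi.single j c ∈ Q := by
      intro j c hc
      rw [Polynomial.degreeLE_eq_span_X_pow] at hc
      have : Submodule.span A
          ((Finset.image (fun i => (X : A[X]) ^ i) (Finset.range (e + 1)) : Finset A[X]) :
            Set A[X]) ≤ Submodule.comap (LinearMap.single A (fun _ : Fin n' => A[X]) j) Q := by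
        rw [Submodule.span_le]
        intro c hc
        simp only [Finset.coe_image, Set.mem_image, Finset.mem_coe, Finset.mem_range] at hc
        obtain ⟨i, hi, rfl⟩ := hc
        exact hgen j i (by omega)
      exact this hc
    have hw'Q : w' ∈ Q := by
      rw [← Finset.univ_sum_single w']
      refine Submodule.sum_mem _ fun j _ => hsingle j _ ?_
      rw [Polynomial.mem_degreeLE]
      exact mem_polyLE.mp hw' j
    exact (hQ w').mp hw'Q
  -- Claim B
  obtain ⟨e, he⟩ := exists_mem_polyLE (ι' b)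
  obtain ⟨w, hw, hw2⟩ := claimA e (ι' b) he
  have hb : π' (ι' b) = b := by
    have := congrArg (fun f => f b) hπι'
    simpa using this
  rw [hb] at hw2
  have h1 : r ((E ^ (K + e)) a) = r ((E ^ m) w) := by
    rw [pow_apply_of_semiconj E S r hr, pow_apply_of_semiconj E S r hr, hab, ← hw2,
      ← Module.End.mul_apply, ← Module.End.mul_apply, ← pow_add, ← pow_add, add_comm]
  have h2 : (E ^ (K + e)) a = (E ^ m) w := hinj h1
  have h3 : (X : A[X]) ^ (K + e) • ι a = (X : A[X]) ^ m • ι w := by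
    rw [← iota_pow_apply E ι hι, ← iota_pow_apply E ι hι, h2]
  refine mem_polyLE_of_X_pow_smul_mem (K + e) ?_
  rw [h3]
  refine polyLE_mono ?_ (X_pow_smul_mem_polyLE hw m)
  omega

end Half

variable {N0 N1 N01 : Type v}
  [AddCommGroup N0] [AddCommGroup N1] [AddCommGroup N01]
  [Module A N0] [Module A N1] [Module A N01]

/-- Explicit form of K1a: uniform degree bounds for the coordinates of elements of
`H⁰(L(m∞))`, for given retraction data of the two charts. -/
theorem exists_degree_bounds (D : CechOps A N0 N1 N01)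
    (hr0 : Function.Injective D.r0) (hr1 : Function.Injective D.r1)
    {n0 : ℕ} (ι0 : N0 →ₗ[A] (Fin n0 → A[X])) (π0 : (Fin n0 → A[X]) →ₗ[A] N0)
    (hπι0 : π0 ∘ₗ ι0 = LinearMap.id) (hι0 : ∀ v, ι0 (D.X0 v) = (X : A[X]) • ι0 v)
    (hπ0 : ∀ w, π0 ((X : A[X]) • w) = D.X0 (π0 w))
    {n1 : ℕ} (ι1 : N1 →ₗ[A] (Fin n1 → A[X])) (π1 : (Fin n1 → A[X]) →ₗ[A] N1)
    (hπι1 : π1 ∘ₗ ι1 = LinearMap.id) (hι1 : ∀ v, ι1 (D.Y1 v) = (X : A[X]) • ι1 v)
    (hπ1 : ∀ w, π1 ((X : A[X]) • w) = D.Y1 (π1 w)) :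
    ∃ d0 d1 : ℕ, ∀ (m : ℕ) (p : N0 × N1), p ∈ D.H0 m →
      ι0 p.1 ∈ polyLE A n0 (m + d0) ∧ ι1 p.2 ∈ polyLE A n1 (m + d1) := by
  obtain ⟨d0, hd0⟩ := degree_bound_half D.X0 D.Y1 D.T D.Tinv D.r0 D.r1 D.T_mul_Tinv
    D.Tinv_mul_T D.r0_X0 D.r1_Y1 D.loc0 hr0 ι0 hι0 ι1 π1 hπι1 hπ1
  obtain ⟨d1, hd1⟩ := degree_bound_half D.Y1 D.X0 D.Tinv D.T D.r1 D.r0 D.Tinv_mul_T
    D.T_mul_Tinv D.r1_Y1 D.r0_X0 D.loc1 hr1 ι1 hι1 ι0 π0 hπι0 hπ0
  refine ⟨d0, d1, fun m p hp => ?_⟩
  rw [CechOps.mem_ker_d] at hp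
  refine ⟨hd0 m p.1 p.2 hp, hd1 m p.2 p.1 ?_⟩
  rw [hp, D.Tinv_pow_T_pow_apply]

/-- **K1a (degree bound).** `H⁰(L(m∞))` is contained in a finitely generated `A`-submodule. -/
theorem exists_fg_ge_H0 (D : CechOps A N0 N1 N01) (h0 : IsFGProj D.X0) (h1 : IsFGProj D.Y1)
    (hr0 : Function.Injective D.r0) (hr1 : Function.Injective D.r1)
    (m : ℕ) : ∃ M : Submodule A (N0 × N1), M.FG ∧ D.H0 m ≤ M := by
  obtain ⟨n0, ι0, π0, hπι0, hι0, hπ0⟩ := h0
  obtain ⟨n1, ι1, π1, hπι1, hι1, hπ1⟩ := h1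
  obtain ⟨d0, d1, hd⟩ := exists_degree_bounds D hr0 hr1 ι0 π0 hπι0 hι0 hπ0 ι1 π1 hπι1 hι1 hπ1
  refine ⟨((polyLE A n0 (m + d0)).map π0).prod ((polyLE A n1 (m + d1)).map π1),
    Submodule.FG.prod ((polyLE_fg n0 _).map π0) ((polyLE_fg n1 _).map π1), ?_⟩
  intro p hp
  obtain ⟨h0, h1⟩ := hd m p hp
  rw [Submodule.mem_prod]
  refine ⟨⟨ι0 p.1, h0, ?_⟩, ⟨ι1 p.2, h1, ?_⟩⟩
  · have := congrArg (fun f => f p.1) hπι0
    simpa using this
  · have := congrArg (fun f => f p.2) hπι1
    simpa using this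

end Fermat.Agent.S25.H550

end
-- ===== PACK-END S25/H550/CechK1a.lean

-- ===== PACK-BEGIN S25/H986/InvertibleQCoh.lean
section




/-!
# S25 / block GLUE / leaf G3 (b): invertible modules are locally free and quasi-coherent

Main results (namespace `Fermat.Agent.S25.H986`):

* `overIsoUnit` : a trivialisation `(restrictFunctor U.ι).obj M ≅ unit` yields an isomorphism
  `M.over U ≅ unit (X.ringCatSheaf.over U)` of sheaves of modules on the slice site.
* `isLocallyFree_of_forall_exists_restrictIsoUnit`,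
  `isLocallyFree_of_isInvertible` : an invertible module is `SheafOfModules.IsLocallyFree`.
* `isQuasicoherent_of_isInvertible` : an invertible module is `SheafOfModules.IsQuasicoherent`.
* `isFinitePresentation_of_isInvertible` : ... and of finite presentation.
-/

set_option autoImplicit false

universe u

open CategoryTheory AlgebraicGeometry Limits

namespace Fermat.Agent.S25.H986

/-- A trivialisation of the restriction of `M` to the open `U` gives a trivialisation of
`M.over U` on the slice site. -/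
noncomputable def overIsoUnit {X : Scheme.{u}} (M : X.Modules) (U : X.Opens)
    (e : (Scheme.Modules.restrictFunctor U.ι).obj M ≅
      SheafOfModules.unit U.toScheme.ringCatSheaf) :
    M.over U ≅ SheafOfModules.unit (X.ringCatSheaf.over U) :=
  (Scheme.Modules.overEquiv U).fullyFaithfulFunctor.preimageIso
    ((Scheme.Modules.overFunctorEquiv U).app M ≪≫ e ≪≫
      (Scheme.Modules.restrictUnitIso U.ι).symm ≪≫
      ((Scheme.Modules.overFunctorEquiv U).app (SheafOfModules.unit X.ringCatSheaf)).symm)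

/-- The free module on one generator is the unit. -/
noncomputable def freePUnitIsoUnit {C : Type*} [Category C]
    {J : GrothendieckTopology C} (R : Sheaf J RingCat.{u})
    [HasWeakSheafify J AddCommGrpCat.{u}] [J.WEqualsLocallyBijective AddCommGrpCat.{u}] :
    SheafOfModules.free (R := R) PUnit.{u + 1} ≅ SheafOfModules.unit R :=
  coproductUniqueIso (fun _ : PUnit.{u + 1} => SheafOfModules.unit R)

/-- Generating sections (a single one) of a sheaf of modules isomorphic to the unit. -/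
noncomputable def generatingSectionsOfIsoUnit {C : Type*} [Category C]
    {J : GrothendieckTopology C} {R : Sheaf J RingCat.{u}}
    [HasWeakSheafify J AddCommGrpCat.{u}] [J.WEqualsLocallyBijective AddCommGrpCat.{u}]
    {N : SheafOfModules.{u} R} (e : N ≅ SheafOfModules.unit R) : N.GeneratingSections where
  I := PUnit.{u + 1}
  s := N.freeHomEquiv (freePUnitIsoUnit R ≪≫ e.symm).hom
  epi := by
    rw [Equiv.symm_apply_apply]
    exact IsIso.epi_of_iso _

theorem generatingSectionsOfIsoUnit_π {C : Type*} [Category C]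
    {J : GrothendieckTopology C} {R : Sheaf J RingCat.{u}}
    [HasWeakSheafify J AddCommGrpCat.{u}] [J.WEqualsLocallyBijective AddCommGrpCat.{u}]
    {N : SheafOfModules.{u} R} (e : N ≅ SheafOfModules.unit R) :
    (generatingSectionsOfIsoUnit e).π = (freePUnitIsoUnit R ≪≫ e.symm).hom :=
  Equiv.symm_apply_apply _ _

instance isIso_generatingSectionsOfIsoUnit_π {C : Type*} [Category C]
    {J : GrothendieckTopology C} {R : Sheaf J RingCat.{u}}
    [HasWeakSheafify J AddCommGrpCat.{u}] [J.WEqualsLocallyBijective AddCommGrpCat.{u}]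
    {N : SheafOfModules.{u} R} (e : N ≅ SheafOfModules.unit R) :
    IsIso (generatingSectionsOfIsoUnit e).π := by
  rw [generatingSectionsOfIsoUnit_π]
  exact Iso.isIso_hom _

/-- Local generators data attached to a family of local trivialisations. -/
noncomputable def localGeneratorsDataOfTrivialization {X : Scheme.{u}} (M : X.Modules)
    {ι : Type*} (U : ι → X.Opens) (hU : ⨆ i, U i = ⊤)
    (e : ∀ i, (Scheme.Modules.restrictFunctor (U i).ι).obj M ≅
      SheafOfModules.unit (U i).toScheme.ringCatSheaf) :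
    SheafOfModules.LocalGeneratorsData M where
  I := ι
  X := U
  coversTop := (Opens.coversTop_iff X U).mpr hU
  generators i := generatingSectionsOfIsoUnit (overIsoUnit M (U i) (e i))

instance isLocallyFreeData_localGeneratorsDataOfTrivialization {X : Scheme.{u}}
    (M : X.Modules) {ι : Type*} (U : ι → X.Opens) (hU : ⨆ i, U i = ⊤)
    (e : ∀ i, (Scheme.Modules.restrictFunctor (U i).ι).obj M ≅
      SheafOfModules.unit (U i).toScheme.ringCatSheaf) :
    (localGeneratorsDataOfTrivialization M U hU e).IsLocallyFreeData where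
  isIso i := isIso_generatingSectionsOfIsoUnit_π (overIsoUnit M (U i) (e i))

/-- A module which is trivial on the members of an open cover is locally free. -/
theorem isLocallyFree_of_trivialization {X : Scheme.{u}} (M : X.Modules)
    {ι : Type*} (U : ι → X.Opens) (hU : ⨆ i, U i = ⊤)
    (e : ∀ i, Nonempty ((Scheme.Modules.restrictFunctor (U i).ι).obj M ≅
      SheafOfModules.unit (U i).toScheme.ringCatSheaf)) :
    M.IsLocallyFree :=
  (localGeneratorsDataOfTrivialization M U hU fun i => (e i).some).isLocallyFree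

/-- **G3 (b), strong form.** An invertible module is locally free. -/
theorem isLocallyFree_of_isInvertible {X : Scheme.{u}} {M : X.Modules}
    (hM : Scheme.Modules.IsInvertible M) : M.IsLocallyFree := by
  have h := (isInvertible_iff_restrict M).mp hM
  choose U hxU e using h
  refine isLocallyFree_of_trivialization M U ?_ e
  exact eq_top_iff.mpr fun x _ => TopologicalSpace.Opens.mem_iSup.mpr ⟨x, hxU x⟩

/-- **G3 (b).** An invertible module is quasi-coherent. -/
theorem isQuasicoherent_of_isInvertible {X : Scheme.{u}} {M : X.Modules}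
    (hM : Scheme.Modules.IsInvertible M) : M.IsQuasicoherent := by
  have h := isLocallyFree_of_isInvertible hM
  obtain ⟨q, hq⟩ := h.exists_isLocallyFreeData
  exact q.quasiCoherentData.isQuasicoherent

end Fermat.Agent.S25.H986

end
-- ===== PACK-END S25/H986/InvertibleQCoh.lean

-- ===== PACK-BEGIN S25/H505/InvertibleSheaf.lean
section
/-
S25, block AFF, leaf F1 (helper505): invertible sheaves on `Spec R` are exactly the sheaves
associated to invertible modules.
-/




open CategoryTheory AlgebraicGeometry Opposite Limits TensorProduct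

universe u

namespace Fermat.Agent.S25.H505

section Fac

variable {X Y Z : Scheme.{u}}

/-- pullback along a composite, with the composite given up to a propositional equality -/
noncomputable def pullbackFacIso {f : X ⟶ Y} {g : Y ⟶ Z} {h : X ⟶ Z} (fac : f ≫ g = h)
    (M : Z.Modules) :
    (Scheme.Modules.pullback h).obj M ≅
      (Scheme.Modules.pullback f).obj ((Scheme.Modules.pullback g).obj M) :=
  ((Scheme.Modules.pullbackCongr fac).app M).symm ≪≫
    ((Scheme.Modules.pullbackComp f g).app M).symm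

/-- a module which is trivial after pullback along `g` is trivial after pullback along `f ≫ g` -/
noncomputable def trivOfFac {f : X ⟶ Y} {g : Y ⟶ Z} {h : X ⟶ Z} (fac : f ≫ g = h)
    (M : Z.Modules)
    (e : (Scheme.Modules.pullback g).obj M ≅ SheafOfModules.unit Y.ringCatSheaf) :
    (Scheme.Modules.pullback h).obj M ≅ SheafOfModules.unit X.ringCatSheaf :=
  pullbackFacIso fac M ≪≫ (Scheme.Modules.pullback f).mapIso e ≪≫
    Scheme.Modules.pullbackUnitIso f

end Fac

section Ext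

variable {R A : Type u} [CommRing R] [CommRing A]

set_option backward.isDefEq.respectTransparency false in
/-- the object `(extendScalars φ).obj N` is `A ⊗[R] N` (for the algebra structure `φ.toAlgebra`) -/
noncomputable def extendScalarsObjEquiv (φ : R →+* A) (N : ModuleCat.{u} R) :
    letI := φ.toAlgebra
    ((ModuleCat.extendScalars φ).obj N) ≃ₗ[A] A ⊗[R] N :=
  letI := φ.toAlgebra
  LinearEquiv.refl A (A ⊗[R] N)

/-- the object `(extendScalars φ).obj N` is `A ⊗[R] N`, for any algebra structure with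
`algebraMap = φ`. -/
theorem nonempty_extendScalars_equiv_tensor (φ : R →+* A) [inst : Algebra R A]
    (h : algebraMap R A = φ) (N : ModuleCat.{u} R) :
    Nonempty (((ModuleCat.extendScalars φ).obj N) ≃ₗ[A] A ⊗[R] N) := by
  have : inst = φ.toAlgebra := Algebra.algebra_ext _ _ (fun r => by rw [h]; rfl)
  subst this
  exact ⟨extendScalarsObjEquiv φ N⟩

end Ext

section Affine

variable {R : CommRingCat.{u}}

/-- the localization map `R ⟶ R_r` in `CommRingCat` -/
noncomputable abbrev awayMap (r : R) : R ⟶ CommRingCat.of (Localization.Away r) :=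
  CommRingCat.ofHom (algebraMap R (Localization.Away r))

/-- If the base change of `N` to `R_r` is free of rank one, then `tilde N` is trivial on `D(r)`
(in the form: after pullback along `Spec R_r ⟶ Spec R`). -/
theorem nonempty_pullback_tilde_iso_unit (N : ModuleCat.{u} R) (r : R)
    (e : (Localization.Away r ⊗[R] N) ≃ₗ[Localization.Away r] Localization.Away r) :
    Nonempty ((Scheme.Modules.pullback (Spec.map (awayMap r))).obj (tilde N) ≅
      SheafOfModules.unit (Spec (CommRingCat.of (Localization.Away r))).ringCatSheaf) := by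
  obtain ⟨e'⟩ := nonempty_extendScalars_equiv_tensor (awayMap r).hom rfl N
  exact ⟨pullbackTildeIso (awayMap r) N ≪≫
    (tilde.functor _).mapIso (e' ≪≫ₗ e).toModuleIso ≪≫ tildeSelf⟩

/-- converse of `nonempty_pullback_tilde_iso_unit` -/
theorem nonempty_tensor_equiv_of_pullback_tilde_iso_unit (N : ModuleCat.{u} R) (r : R)
    (e : (Scheme.Modules.pullback (Spec.map (awayMap r))).obj (tilde N) ≅
      SheafOfModules.unit (Spec (CommRingCat.of (Localization.Away r))).ringCatSheaf) :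
    Nonempty ((Localization.Away r ⊗[R] N) ≃ₗ[Localization.Away r] Localization.Away r) := by
  obtain ⟨e'⟩ := nonempty_extendScalars_equiv_tensor (awayMap r).hom rfl N
  let i : (tilde.functor _).obj ((ModuleCat.extendScalars (awayMap r).hom).obj N) ≅
      (tilde.functor _).obj (ModuleCat.of (Localization.Away r) (Localization.Away r)) :=
    (pullbackTildeIso (awayMap r) N).symm ≪≫ e ≪≫ tildeSelf.symm
  exact ⟨e'.symm ≪≫ₗ (tilde.fullyFaithfulFunctor.preimageIso i).toLinearEquiv⟩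

end Affine


section Main

variable {R : CommRingCat.{u}}

/-- **F1 (converse direction)**: the sheaf associated to an invertible module is invertible. -/
theorem isInvertible_tilde (N : ModuleCat.{u} R) [Module.Invertible R N] :
    Scheme.Modules.IsInvertible (tilde N) := by
  obtain ⟨s, hs, hfree⟩ := Module.Invertible.exists_finset_free_localization R N
  refine ⟨fun x => ?_⟩
  obtain ⟨r, hrs, hrx⟩ : ∃ r ∈ s, r ∉ (x : PrimeSpectrum R).asIdeal := by
    by_contra hcon
    push Not at hcon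
    have : Ideal.span (s : Set R) ≤ (x : PrimeSpectrum R).asIdeal :=
      Ideal.span_le.mpr (fun r hr => hcon r hr)
    rw [hs] at this
    exact (x : PrimeSpectrum R).isPrime.ne_top (top_le_iff.mp this)
  have hfr := hfree r hrs
  obtain ⟨e1⟩ := Module.Invertible.free_iff_linearEquiv.mp hfr
  let e0 : Localization.Away r ⊗[R] N ≃ₗ[Localization.Away r] LocalizedModule.Away r N :=
    (IsLocalizedModule.isBaseChange (.powers r) (Localization.Away r)
      (LocalizedModule.mkLinearMap (.powers r) N)).equiv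
  obtain ⟨t⟩ := nonempty_pullback_tilde_iso_unit N r (e0 ≪≫ₗ e1)
  refine ⟨(Spec.map (awayMap r)).opensRange, ?_,
    ⟨trivOfFac (Scheme.Hom.isoOpensRange_inv_comp _) (tilde N) t⟩⟩
  rw [Scheme.Hom.opensRange_localizationAway]
  exact hrx

/-- **F1**: an invertible sheaf on `Spec R` is the sheaf associated to its global sections. -/
theorem isIso_fromTildeΓ_of_isInvertible (M : (Spec R).Modules)
    (hM : Scheme.Modules.IsInvertible M) : IsIso M.fromTildeΓ := by
  have := isQuasicoherent_of_isInvertible M hM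
  exact Scheme.Modules.isIso_fromTildeΓ_of_isQuasicoherent M

/-- **F1**: an invertible sheaf on `Spec R` is the sheaf associated to its global sections. -/
noncomputable def tildeΓIsoOfIsInvertible (M : (Spec R).Modules)
    (hM : Scheme.Modules.IsInvertible M) : tilde (moduleSpecΓFunctor.obj M) ≅ M :=
  @asIso _ _ _ _ M.fromTildeΓ (isIso_fromTildeΓ_of_isInvertible M hM)

/-- **F1**: the global sections of an invertible sheaf on `Spec R` form an invertible module. -/
theorem invertible_Γ_of_isInvertible (M : (Spec R).Modules)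
    (hM : Scheme.Modules.IsInvertible M) :
    Module.Invertible R (moduleSpecΓFunctor.obj M) := by
  let N := moduleSpecΓFunctor.obj M
  let i : tilde N ≅ M := tildeΓIsoOfIsInvertible M hM
  refine invertible_of_localizationSpan
    {r | Nonempty ((Localization.Away r ⊗[R] N) ≃ₗ[Localization.Away r] Localization.Away r)}
    ?_ ?_
  · by_contra hne
    obtain ⟨m, hm, hle⟩ := Ideal.exists_le_maximal _ hne
    let x : Spec R := (⟨m, hm.isPrime⟩ : PrimeSpectrum R)
    obtain ⟨U, hxU, ⟨t⟩⟩ := hM.exists_trivialization x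
    obtain ⟨_, ⟨_, ⟨r, rfl⟩, rfl⟩, hxr, hrU⟩ :=
      PrimeSpectrum.isBasis_basic_opens.exists_subset_of_mem_open hxU U.2
    have hrange : Set.range (Spec.map (awayMap r)) ⊆ Set.range U.ι := by
      rw [Scheme.Opens.range_ι]
      refine subset_trans ?_ hrU
      exact (PrimeSpectrum.localization_away_comap_range (Localization.Away r) r).le
    let f := IsOpenImmersion.lift U.ι (Spec.map (awayMap r)) hrange
    have fac : f ≫ U.ι = Spec.map (awayMap r) := IsOpenImmersion.lift_fac _ _ _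
    have t' := trivOfFac fac M t
    obtain ⟨e⟩ := nonempty_tensor_equiv_of_pullback_tilde_iso_unit N r
      ((Scheme.Modules.pullback _).mapIso i ≪≫ t')
    exact hxr (hle (Ideal.subset_span ⟨e⟩))
  · rintro ⟨r, ⟨e⟩⟩
    exact ⟨(e.restrictScalars R).toLinearMap ∘ₗ TensorProduct.mk R (Localization.Away r) N 1,
      IsLocalizedModule.of_linearEquiv (.powers r) _ (e.restrictScalars R)⟩

end Main

end Fermat.Agent.S25.H505

end
-- ===== PACK-END S25/H505/InvertibleSheaf.lean

-- ===== PACK-BEGIN S25/H505/SemilinearInv.lean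
section
/-
S25, dictionary (helper505): invertibility is preserved by (semilinear) base change.
-/



universe u

namespace Fermat.Agent.S25.H505

variable {R R' : Type u} [CommRing R] [CommRing R']
  {N N' : Type u} [AddCommGroup N] [AddCommGroup N'] [Module R N] [Module R' N']

/-- invertibility is preserved by base change -/
theorem IsBC.invertible {ρ : R →+* R'} {g : N →+ N'} (h : IsBC ρ g) [Module.Invertible R N] :
    Module.Invertible R' N' := by
  let _ : Algebra R R' := ρ.toAlgebra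
  let _ : Module R N' := Module.compHom N' ρ
  have : IsScalarTower R R' N' := ⟨fun r r' n => by
    change (ρ r * r') • n = ρ r • (r' • n); rw [mul_smul]⟩
  have hb : IsBaseChange R' h.sl.toLinearMap := IsBC.isBaseChange _ h
  exact Module.Invertible.congr hb.equiv

/-- A module over `S`, viewed as a module over `R` along a ring isomorphism `τ : R ≃+* S`, is
a base change of itself along `τ.symm`. -/
theorem isBC_compHom {S : Type u} [CommRing S] (τ : R ≃+* S) {P : Type u} [AddCommGroup P]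
    [Module S P] :
    letI : Module R P := Module.compHom P τ.toRingHom
    IsBC τ.symm.toRingHom (AddMonoidHom.id P) := by
  letI : Module R P := Module.compHom P τ.toRingHom
  refine isBC_of_bijective (fun y s => ?_) τ.symm.bijective Function.bijective_id
  change y • s = τ (τ.symm y) • s
  rw [τ.apply_symm_apply]

end Fermat.Agent.S25.H505

end
-- ===== PACK-END S25/H505/SemilinearInv.lean

-- ===== PACK-BEGIN S25/H310/GDBaseChange.lean
section
/-
S25, blocks GDC / DEGREE (helper310): base change of gluing data is base change of Čech complexes.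

For a `k`-algebra map `A → A'` and gluing data `G` over `A`, `G'` over `A'` on a curve chart with
`CurveGD.IsBC φ G G'`, the semilinear base-change maps `b₀, b₁, b₀₁` (base changes along
`A ⊗ B → A' ⊗ B`) are base changes along `A → A'` (`A' ⊗[k] B = A' ⊗[A] (A ⊗[k] B)` is a pushout):
`A' ⊗[A] G.N₀ ≃ₗ[A'] G'.N₀`, etc.  These equivalences intertwine the restriction maps, the
multiplication operators and the Čech differentials; hence `Ȟ¹` commutes with every base change
and `Ȟ⁰` with every flat base change.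
-/


set_option autoImplicit false

namespace Fermat.Agent.S25.H310

open TensorProduct Fermat.Agent.S25

universe u

/-! ### The abstract pushout lemma -/

section Core

variable {A A' R R' : Type*} [CommRing A] [CommRing A'] [CommRing R] [CommRing R']
  [Algebra A A'] [Algebra A R] [Algebra A R'] [Algebra A' R'] [Algebra R R']
  [IsScalarTower A A' R'] [IsScalarTower A R R'] [Algebra.IsPushout A A' R R']
  {N N' : Type*} [AddCommGroup N] [AddCommGroup N'] [Module A N] [Module R N]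
  [IsScalarTower A R N] [Module A N'] [Module A' N'] [Module R N'] [Module R' N']
  [IsScalarTower A A' N'] [IsScalarTower A R N'] [IsScalarTower A' R' N']
  [IsScalarTower R R' N']

/-- If `R' = A' ⊗[A] R` and `N' = R' ⊗[R] N` then `N' = A' ⊗[A] N`. -/
theorem isBaseChange_of_isPushout {f : N →ₗ[R] N'} (hf : IsBaseChange R' f) :
    IsBaseChange A' (f.restrictScalars A) := by
  refine IsBaseChange.of_equiv
    ((Algebra.IsPushout.cancelBaseChange A A' R R' N).symm ≪≫ₗ
      (hf.equiv.restrictScalars A')) (fun x => ?_)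
  simp [hf.equiv_tmul]

end Core

/-! ### Base change along `A ⊗[k] B → A' ⊗[k] B` -/

section TensorLeft

variable (k : Type u) [Field k] (A A' : Type u) [CommRing A] [Algebra k A] [CommRing A']
  [Algebra k A'] [Algebra A A'] [IsScalarTower k A A'] (B : Type u) [CommRing B] [Algebra k B]

/-- The ring map `A ⊗[k] B → A' ⊗[k] B` of an algebra `A → A'`. -/
abbrev tensorLeftHom : A ⊗[k] B →+* A' ⊗[k] B :=
  tensorMapLeft k (IsScalarTower.toAlgHom k A A') B

theorem tensorLeftHom_tmul (a : A) (b : B) :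
    tensorLeftHom k A A' B (a ⊗ₜ[k] b) = algebraMap A A' a ⊗ₜ[k] b := rfl

variable {k A A' B}
variable {N N' : Type u} [AddCommGroup N] [Module (A ⊗[k] B) N] [Module A N]
  [IsScalarTower A (A ⊗[k] B) N]
  [AddCommGroup N'] [Module (A' ⊗[k] B) N'] [Module A' N'] [IsScalarTower A' (A' ⊗[k] B) N']

/-- A semilinear base change along `A ⊗[k] B → A' ⊗[k] B` is a base change along `A → A'`:
the induced map `A' ⊗[A] N → N'` is an isomorphism. -/
theorem exists_semilinearBCEquiv (b : N →ₛₗ[tensorLeftHom k A A' B] N')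
    (hb : IsSemilinearBaseChange _ b) :
    ∃ e : A' ⊗[A] N ≃ₗ[A'] N', ∀ (a : A') (n : N), e (a ⊗ₜ[A] n) = a • b n := by
  let : Algebra (A ⊗[k] B) (A' ⊗[k] B) := (tensorLeftHom k A A' B).toAlgebra
  let : Module (A ⊗[k] B) N' := Module.compHom N' (tensorLeftHom k A A' B)
  let : Module A N' := Module.compHom N' (algebraMap A A')
  have : IsScalarTower (A ⊗[k] B) (A' ⊗[k] B) N' := ⟨fun r r' n => by
    change (tensorLeftHom k A A' B r * r') • n =
      tensorLeftHom k A A' B r • (r' • n)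
    rw [mul_smul]⟩
  have : IsScalarTower A A' N' := ⟨fun a a' n => by
    rw [Algebra.smul_def, mul_smul]
    rfl⟩
  have : IsScalarTower A (A ⊗[k] B) (A' ⊗[k] B) :=
    IsScalarTower.of_algebraMap_eq' (by
      ext a
      change algebraMap A A' a ⊗ₜ[k] (1 : B) = _
      rfl)
  have : IsScalarTower A (A ⊗[k] B) N' := ⟨fun a r n => by
    change tensorLeftHom k A A' B (a • r) • n =
      algebraMap A A' a • (tensorLeftHom k A A' B r • n)
    rw [← algebraMap_smul (A' ⊗[k] B) (algebraMap A A' a), ← mul_smul]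
    congr 1
    rw [Algebra.smul_def, map_mul]
    rfl⟩
  have : Algebra.IsPushout A A' (A ⊗[k] B) (A' ⊗[k] B) :=
    Algebra.IsPushout.tensorProduct_tensorProduct k B A A' (by
      ext b
      change Algebra.TensorProduct.map (IsScalarTower.toAlgHom k A A') (AlgHom.id k B)
        ((1 : A) ⊗ₜ[k] b) = (1 : A') ⊗ₜ[k] b
      simp)
  have key := isBaseChange_of_isPushout (A := A) (A' := A') (R := A ⊗[k] B) (R' := A' ⊗[k] B)
    (f := ({ toFun := fun n => b n
             map_add' := fun m n => b.map_add m n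
             map_smul' := fun r n => LinearMap.map_smulₛₗ b r n } : N →ₗ[A ⊗[k] B] N')) hb
  exact ⟨key.equiv, fun a n => key.equiv_tmul a n⟩

/-- The comparison isomorphism `A' ⊗[A] N ≃ N'` of a semilinear base change. -/
noncomputable def semilinearBCEquiv (b : N →ₛₗ[tensorLeftHom k A A' B] N')
    (hb : IsSemilinearBaseChange _ b) : A' ⊗[A] N ≃ₗ[A'] N' :=
  (exists_semilinearBCEquiv b hb).choose

@[simp] theorem semilinearBCEquiv_tmul (b : N →ₛₗ[tensorLeftHom k A A' B] N')
    (hb : IsSemilinearBaseChange _ b) (a : A') (n : N) :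
    semilinearBCEquiv b hb (a ⊗ₜ[A] n) = a • b n :=
  (exists_semilinearBCEquiv b hb).choose_spec a n

theorem semilinearBCEquiv_one_tmul (b : N →ₛₗ[tensorLeftHom k A A' B] N')
    (hb : IsSemilinearBaseChange _ b) (n : N) :
    semilinearBCEquiv b hb ((1 : A') ⊗ₜ[A] n) = b n := by
  rw [semilinearBCEquiv_tmul, one_smul]

/-- The comparison isomorphism intertwines multiplication by `r : A ⊗[k] B` with multiplication by
its image in `A' ⊗[k] B`. -/
theorem semilinearBCEquiv_smul (b : N →ₛₗ[tensorLeftHom k A A' B] N')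
    (hb : IsSemilinearBaseChange _ b) (r : A ⊗[k] B) (z : A' ⊗[A] N) :
    semilinearBCEquiv b hb ((Algebra.lsmul A A N r).baseChange A' z) =
      tensorLeftHom k A A' B r • semilinearBCEquiv b hb z := by
  induction z using TensorProduct.induction_on with
  | zero => simp
  | tmul a n =>
    rw [LinearMap.baseChange_tmul, semilinearBCEquiv_tmul, semilinearBCEquiv_tmul,
      Algebra.lsmul_coe, LinearMap.map_smulₛₗ, smul_comm]
  | add x y hx hy => simp only [map_add, hx, hy, smul_add]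

end TensorLeft

/-! ### Cokernels and base change (right exactness of the tensor product) -/

section Coker

variable {A : Type*} [CommRing A] (A' : Type*) [CommRing A'] [Algebra A A']
  {M N : Type*} [AddCommGroup M] [AddCommGroup N] [Module A M] [Module A N] (f : M →ₗ[A] N)

theorem ker_mkQ_baseChange :
    LinearMap.ker ((LinearMap.range f).mkQ.baseChange A') = LinearMap.range (f.baseChange A') := by
  have hex : Function.Exact f (LinearMap.range f).mkQ := by
    rw [LinearMap.exact_iff, Submodule.ker_mkQ]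
  have h := lTensor_exact A' hex (Submodule.mkQ_surjective _)
  ext z
  rw [LinearMap.mem_ker, LinearMap.mem_range]
  exact h z

theorem mkQ_baseChange_surjective :
    Function.Surjective ((LinearMap.range f).mkQ.baseChange A') :=
  LinearMap.lTensor_surjective A' (Submodule.mkQ_surjective _)

/-- The cokernel commutes with base change. -/
noncomputable def cokerBaseChangeEquiv :
    ((A' ⊗[A] N) ⧸ LinearMap.range (f.baseChange A')) ≃ₗ[A'] A' ⊗[A] (N ⧸ LinearMap.range f) :=
  (Submodule.quotEquivOfEq _ _ (ker_mkQ_baseChange A' f).symm) ≪≫ₗ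
    ((LinearMap.range f).mkQ.baseChange A').quotKerEquivOfSurjective
      (mkQ_baseChange_surjective A' f)

@[simp] theorem cokerBaseChangeEquiv_mk_tmul (a : A') (n : N) :
    cokerBaseChangeEquiv A' f (Submodule.Quotient.mk (a ⊗ₜ[A] n)) =
      a ⊗ₜ[A] (Submodule.Quotient.mk n) := rfl

end Coker

/-! ### Gluing data on a curve chart -/

section GD

variable {k : Type u} [Field k] {B₀ B₁ B₀₁ : Type u} [CommRing B₀] [CommRing B₁] [CommRing B₀₁]
  [Algebra k B₀] [Algebra k B₁] [Algebra k B₀₁] [Algebra B₀ B₀₁] [Algebra B₁ B₀₁]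
  [IsScalarTower k B₀ B₀₁] [IsScalarTower k B₁ B₀₁]
  {A A' : Type u} [CommRing A] [Algebra k A] [CommRing A'] [Algebra k A'] [Algebra A A']
  [IsScalarTower k A A']
  {G : CurveGD k B₀ B₁ B₀₁ A} {G' : CurveGD k B₀ B₁ B₀₁ A'}

/-- Base-change maps of gluing data along an algebra `A → A'`. -/
abbrev BCMaps (G : CurveGD k B₀ B₁ B₀₁ A) (G' : CurveGD k B₀ B₁ B₀₁ A') : Type u :=
  GlueDatum.BaseChangeMaps (tensorLeftHom k A A' B₀) (tensorLeftHom k A A' B₁)
    (tensorLeftHom k A A' B₀₁) G G'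

theorem nonempty_BCMaps_iff :
    Nonempty (BCMaps G G') ↔ CurveGD.IsBC (IsScalarTower.toAlgHom k A A') G G' := Iff.rfl

namespace BCMaps

variable (bm : BCMaps G G')

/-- `A' ⊗[A] N₀ ≃ N₀'`. -/
noncomputable def equiv₀ : A' ⊗[A] G.N₀ ≃ₗ[A'] G'.N₀ :=
  semilinearBCEquiv bm.b₀ bm.isBaseChange₀

/-- `A' ⊗[A] N₁ ≃ N₁'`. -/
noncomputable def equiv₁ : A' ⊗[A] G.N₁ ≃ₗ[A'] G'.N₁ :=
  semilinearBCEquiv bm.b₁ bm.isBaseChange₁

/-- `A' ⊗[A] N₀₁ ≃ N₀₁'`. -/
noncomputable def equiv₀₁ : A' ⊗[A] G.N₀₁ ≃ₗ[A'] G'.N₀₁ :=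
  semilinearBCEquiv bm.b₀₁ bm.isBaseChange₀₁

@[simp] theorem equiv₀_tmul (a : A') (n : G.N₀) : bm.equiv₀ (a ⊗ₜ[A] n) = a • bm.b₀ n :=
  semilinearBCEquiv_tmul _ _ a n

@[simp] theorem equiv₁_tmul (a : A') (n : G.N₁) : bm.equiv₁ (a ⊗ₜ[A] n) = a • bm.b₁ n :=
  semilinearBCEquiv_tmul _ _ a n

@[simp] theorem equiv₀₁_tmul (a : A') (n : G.N₀₁) : bm.equiv₀₁ (a ⊗ₜ[A] n) = a • bm.b₀₁ n :=
  semilinearBCEquiv_tmul _ _ a n

theorem equiv₀_smul (r : A ⊗[k] B₀) (z : A' ⊗[A] G.N₀) :
    bm.equiv₀ ((Algebra.lsmul A A G.N₀ r).baseChange A' z) =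
      tensorLeftHom k A A' B₀ r • bm.equiv₀ z :=
  semilinearBCEquiv_smul _ _ r z

theorem equiv₁_smul (r : A ⊗[k] B₁) (z : A' ⊗[A] G.N₁) :
    bm.equiv₁ ((Algebra.lsmul A A G.N₁ r).baseChange A' z) =
      tensorLeftHom k A A' B₁ r • bm.equiv₁ z :=
  semilinearBCEquiv_smul _ _ r z

theorem equiv₀₁_smul (r : A ⊗[k] B₀₁) (z : A' ⊗[A] G.N₀₁) :
    bm.equiv₀₁ ((Algebra.lsmul A A G.N₀₁ r).baseChange A' z) =
      tensorLeftHom k A A' B₀₁ r • bm.equiv₀₁ z :=
  semilinearBCEquiv_smul _ _ r z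

/-- The comparison isomorphisms intertwine the restriction maps `r₀`. -/
theorem equiv₀₁_r₀ (z : A' ⊗[A] G.N₀) :
    bm.equiv₀₁ ((G.r₀.restrictScalars A).baseChange A' z) = G'.r₀ (bm.equiv₀ z) := by
  induction z using TensorProduct.induction_on with
  | zero => simp
  | tmul a n =>
    rw [LinearMap.baseChange_tmul, equiv₀₁_tmul, equiv₀_tmul, LinearMap.restrictScalars_apply,
      bm.comm₀, LinearMap.map_smul_of_tower]
  | add x y hx hy => simp only [map_add, hx, hy]

/-- The comparison isomorphisms intertwine the restriction maps `r₁`. -/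
theorem equiv₀₁_r₁ (z : A' ⊗[A] G.N₁) :
    bm.equiv₀₁ ((G.r₁.restrictScalars A).baseChange A' z) = G'.r₁ (bm.equiv₁ z) := by
  induction z using TensorProduct.induction_on with
  | zero => simp
  | tmul a n =>
    rw [LinearMap.baseChange_tmul, equiv₀₁_tmul, equiv₁_tmul, LinearMap.restrictScalars_apply,
      bm.comm₁, LinearMap.map_smul_of_tower]
  | add x y hx hy => simp only [map_add, hx, hy]

/-- `A' ⊗[A] (N₀ × N₁) ≃ N₀' × N₁'`. -/
noncomputable def equivProd : A' ⊗[A] (G.N₀ × G.N₁) ≃ₗ[A'] (G'.N₀ × G'.N₁) :=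
  TensorProduct.prodRight A A' A' G.N₀ G.N₁ ≪≫ₗ bm.equiv₀.prodCongr bm.equiv₁

@[simp] theorem equivProd_tmul (a : A') (p : G.N₀ × G.N₁) :
    bm.equivProd (a ⊗ₜ[A] p) = (a • bm.b₀ p.1, a • bm.b₁ p.2) := by
  simp [equivProd]

/-- **The Čech differential of a base change is the base change of the Čech differential.** -/
theorem cech_comp_equivProd :
    G'.cech ∘ₗ bm.equivProd.toLinearMap = bm.equiv₀₁.toLinearMap ∘ₗ G.cech.baseChange A' := by
  refine LinearMap.ext fun z => ?_
  induction z using TensorProduct.induction_on with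
  | zero => simp
  | tmul a p =>
    have h0 := bm.equiv₀₁_r₀ (a ⊗ₜ[A] p.1)
    have h1 := bm.equiv₀₁_r₁ (a ⊗ₜ[A] p.2)
    rw [LinearMap.baseChange_tmul, equiv₀_tmul] at h0
    rw [LinearMap.baseChange_tmul, equiv₁_tmul] at h1
    simp only [LinearMap.comp_apply, LinearEquiv.coe_coe, equivProd_tmul,
      LinearMap.baseChange_tmul]
    simp only [GlueDatum.cech, LinearMap.coprod_apply, LinearMap.neg_apply,
      LinearMap.restrictScalars_apply, tmul_add, tmul_neg, map_add, map_neg] at h0 h1 ⊢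
    rw [← h0, ← h1]
  | add x y hx hy => simp only [map_add, hx, hy]

theorem cech_equivProd (z : A' ⊗[A] (G.N₀ × G.N₁)) :
    G'.cech (bm.equivProd z) = bm.equiv₀₁ (G.cech.baseChange A' z) :=
  LinearMap.congr_fun bm.cech_comp_equivProd z

end BCMaps

end GD

end Fermat.Agent.S25.H310

end
-- ===== PACK-END S25/H310/GDBaseChange.lean

-- ===== PACK-BEGIN S25/H747/GDHom.lean
section
/-
S25 / block ABEL, sub-block AB-ALG (helper747): internal Hom of gluing data and the gluing
datum of a compatible triple of invertible ideals.  Imports the frozen `DefsAlg` only.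
-/



set_option autoImplicit false
universe u
open scoped TensorProduct

namespace Fermat.Agent.S25.H747

open Fermat.Agent.S25

noncomputable section

variable {A R₀ R₁ R₀₁ : Type u} [CommRing A] [CommRing R₀] [CommRing R₁]
    [CommRing R₀₁] [Algebra A R₀] [Algebra A R₁] [Algebra A R₀₁] [Algebra R₀ R₀₁]
    [Algebra R₁ R₀₁] [IsScalarTower A R₀ R₀₁] [IsScalarTower A R₁ R₀₁]

/-- The internal Hom `ℋom(G, G')` of two gluing data: sections are module homomorphisms,
restriction is `IsBaseChange.linearMapLeftRightHom`. -/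
def homDatum (G G' : GlueDatum A R₀ R₁ R₀₁) : GlueDatum A R₀ R₁ R₀₁ :=
  haveI := G.invertible₀
  haveI := G.invertible₁
  haveI := G'.invertible₀
  haveI := G'.invertible₁
  { N₀ := G.N₀ →ₗ[R₀] G'.N₀
    N₁ := G.N₁ →ₗ[R₁] G'.N₁
    N₀₁ := G.N₀₁ →ₗ[R₀₁] G'.N₀₁
    r₀ := IsBaseChange.linearMapLeftRightHom G.isBaseChange₀ G'.r₀
    r₁ := IsBaseChange.linearMapLeftRightHom G.isBaseChange₁ G'.r₁
    isBaseChange₀ := isBaseChange_linearMapLeftRightHom G.isBaseChange₀ G'.isBaseChange₀
    isBaseChange₁ := isBaseChange_linearMapLeftRightHom G.isBaseChange₁ G'.isBaseChange₁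
    invertible₀ := invertible_linearMap
    invertible₁ := invertible_linearMap }

/-- The restriction of a ring homomorphism `R → S` (an algebra map) to ideals `I → J`,
where `J` contains the extension of `I`. -/
def idealRes {R S : Type u} [CommRing R] [CommRing S] [Algebra R S] (I : Ideal R) (J : Ideal S)
    (h : I.map (algebraMap R S) ≤ J) : I →ₗ[R] J where
  toFun a := ⟨algebraMap R S a, h (Ideal.mem_map_of_mem _ a.2)⟩
  map_add' a b := by ext; simp
  map_smul' r a := by ext; simp [Algebra.smul_def]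

@[simp] theorem idealRes_coe {R S : Type u} [CommRing R] [CommRing S] [Algebra R S]
    (I : Ideal R) (J : Ideal S) (h : I.map (algebraMap R S) ≤ J) (a : I) :
    ((idealRes I J h a : J) : S) = algebraMap R S a := rfl

/-- A compatible triple of invertible ideals on the cospan `R₀ → R₀₁ ← R₁`
(an effective Cartier divisor on the glued scheme). -/
structure IsCartierTriple (I₀ : Ideal R₀) (I₁ : Ideal R₁) (I₀₁ : Ideal R₀₁) : Prop where
  map₀ : I₀.map (algebraMap R₀ R₀₁) = I₀₁
  map₁ : I₁.map (algebraMap R₁ R₀₁) = I₀₁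
  inv₀ : Module.Invertible R₀ I₀
  inv₁ : Module.Invertible R₁ I₁
  bc₀ : IsBaseChange R₀₁ (idealRes I₀ I₀₁ map₀.le)
  bc₁ : IsBaseChange R₀₁ (idealRes I₁ I₀₁ map₁.le)

variable (A) in
/-- The gluing datum `O(-D)` of a compatible triple of invertible ideals. -/
def ofIdeals {I₀ : Ideal R₀} {I₁ : Ideal R₁} {I₀₁ : Ideal R₀₁}
    (h : IsCartierTriple I₀ I₁ I₀₁) : GlueDatum A R₀ R₁ R₀₁ where
  N₀ := I₀
  N₁ := I₁
  N₀₁ := I₀₁
  r₀ := idealRes I₀ I₀₁ h.map₀.le
  r₁ := idealRes I₁ I₀₁ h.map₁.le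
  isBaseChange₀ := h.bc₀
  isBaseChange₁ := h.bc₁
  invertible₀ := h.inv₀
  invertible₁ := h.inv₁

/-- The `ρ`-semilinear restriction `I → J` of a ring homomorphism to ideals. -/
def idealMapₛₗ {R R' : Type u} [CommRing R] [CommRing R'] (ρ : R →+* R') (I : Ideal R)
    (J : Ideal R') (h : I.map ρ ≤ J) : I →ₛₗ[ρ] J where
  toFun a := ⟨ρ a, h (Ideal.mem_map_of_mem _ a.2)⟩
  map_add' a b := by ext; simp
  map_smul' r a := by ext; simp

@[simp] theorem idealMapₛₗ_coe {R R' : Type u} [CommRing R] [CommRing R'] (ρ : R →+* R')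
    (I : Ideal R) (J : Ideal R') (h : I.map ρ ≤ J) (a : I) :
    ((idealMapₛₗ ρ I J h a : J) : R') = ρ a := rfl

end

end Fermat.Agent.S25.H747

end
-- ===== PACK-END S25/H747/GDHom.lean

-- ===== PACK-BEGIN S25/H611/Diag.lean
section



/-!
# The universal point of a relative divisor (helper611, S25/HILB/H3)

`A → R` commutative rings, `I` an ideal of `R`, `S = R ⊗[A] R`, `J = ker (S → R)` the diagonal
ideal, `T = R ⊗[A] (R ⧸ I)`, `ν : T → R ⧸ I` the multiplication.  If `J` is an invertible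
`S`-module then `ker ν` is an invertible `T`-module.
-/

namespace Fermat.Agent.S25.H611

open scoped TensorProduct

section Diag

variable (A : Type*) {R : Type*} [CommRing A] [CommRing R] [Algebra A R] (I : Ideal R)

/-- `I₂ = R ⊗ I ⊂ R ⊗[A] R`. -/
noncomputable def rightIdeal : Ideal (R ⊗[A] R) :=
  I.map (Algebra.TensorProduct.includeRight : R →ₐ[A] R ⊗[A] R)

/-- `ψ : R ⊗[A] R → R ⊗[A] (R ⧸ I)`. -/
noncomputable def psi : R ⊗[A] R →ₐ[A] R ⊗[A] (R ⧸ I) :=
  Algebra.TensorProduct.map (AlgHom.id A R) (Ideal.Quotient.mkₐ A I)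

/-- `ν : R ⊗[A] (R ⧸ I) → R ⧸ I`, `r ⊗ q ↦ r • q`. -/
noncomputable def nu : R ⊗[A] (R ⧸ I) →ₐ[R] R ⧸ I :=
  Algebra.TensorProduct.lift (Algebra.ofId R (R ⧸ I)) (AlgHom.id A (R ⧸ I))
    (fun _ _ => Commute.all _ _)

@[simp] theorem psi_tmul (r r' : R) :
    psi A I (r ⊗ₜ[A] r') = r ⊗ₜ[A] (Ideal.Quotient.mk I r') := rfl

@[simp] theorem nu_tmul (r : R) (q : R ⧸ I) :
    nu A I (r ⊗ₜ[A] q) = Ideal.Quotient.mk I r * q := by
  simp [nu, Algebra.ofId_apply]

theorem psi_surjective : Function.Surjective (psi A I) :=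
  Algebra.TensorProduct.map_surjective _ _ Function.surjective_id
    (Ideal.Quotient.mkₐ_surjective A I)

theorem ker_psi : RingHom.ker (psi A I) = rightIdeal A I := by
  have h := Algebra.TensorProduct.lTensor_ker (A := R) (Ideal.Quotient.mkₐ A I)
    (Ideal.Quotient.mkₐ_surjective A I)
  have hk : RingHom.ker (Ideal.Quotient.mkₐ A I) = I := by
    ext x
    simp [RingHom.mem_ker, Ideal.Quotient.eq_zero_iff_mem]
  rw [hk] at h
  exact h

theorem nu_psi (s : R ⊗[A] R) :
    nu A I (psi A I s) = Ideal.Quotient.mk I (Algebra.TensorProduct.lmul' A s) := by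
  induction s using TensorProduct.induction_on with
  | zero => simp
  | tmul r r' => simp
  | add x y hx hy => simp only [map_add, hx, hy]

theorem sub_includeRight_mem_diag (s : R ⊗[A] R) :
    s - (1 : R) ⊗ₜ[A] (Algebra.TensorProduct.lmul' A s) ∈ KaehlerDifferential.ideal A R := by
  rw [RingHom.mem_ker, map_sub]
  simp

theorem rightIdeal_aux (x : R ⊗[A] R) (hx : x ∈ rightIdeal A I) :
    Algebra.TensorProduct.lmul' A x ∈ I ∧
      x - (1 : R) ⊗ₜ[A] (Algebra.TensorProduct.lmul' A x) ∈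
        rightIdeal A I * KaehlerDifferential.ideal A R := by
  unfold rightIdeal at hx
  rw [Ideal.map] at hx
  induction hx using Submodule.span_induction with
  | mem x hx =>
    obtain ⟨i, hi, rfl⟩ := hx
    constructor
    · simpa using hi
    · simp
  | zero => simp
  | add x y _ _ hx hy =>
    constructor
    · rw [map_add]; exact I.add_mem hx.1 hy.1
    · have : x + y - (1 : R) ⊗ₜ[A] (Algebra.TensorProduct.lmul' A (x + y)) =
          (x - (1 : R) ⊗ₜ[A] (Algebra.TensorProduct.lmul' A x)) +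
          (y - (1 : R) ⊗ₜ[A] (Algebra.TensorProduct.lmul' A y)) := by
        rw [map_add, TensorProduct.tmul_add]; ring
      rw [this]
      exact Ideal.add_mem _ hx.2 hy.2
  | smul s x _ hx =>
    constructor
    · rw [smul_eq_mul, map_mul]; exact I.mul_mem_left _ hx.1
    · have key : s • x - (1 : R) ⊗ₜ[A] (Algebra.TensorProduct.lmul' A (s • x)) =
          s * (x - (1 : R) ⊗ₜ[A] (Algebra.TensorProduct.lmul' A x)) +
          ((1 : R) ⊗ₜ[A] (Algebra.TensorProduct.lmul' A x)) *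
            (s - (1 : R) ⊗ₜ[A] (Algebra.TensorProduct.lmul' A s)) := by
        have h1 : (1 : R) ⊗ₜ[A] (Algebra.TensorProduct.lmul' A (s • x)) =
            ((1 : R) ⊗ₜ[A] (Algebra.TensorProduct.lmul' A s)) *
              ((1 : R) ⊗ₜ[A] (Algebra.TensorProduct.lmul' A x)) := by
          rw [smul_eq_mul, map_mul, Algebra.TensorProduct.tmul_mul_tmul, one_mul]
        rw [h1, smul_eq_mul]; ring
      rw [key]
      refine Ideal.add_mem _ (Ideal.mul_mem_left _ _ hx.2) ?_
      exact Ideal.mul_mem_mul (Ideal.mem_map_of_mem _ hx.1) (sub_includeRight_mem_diag A s)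

/-- **D3.** `J ⊓ I₂ ≤ I₂ * J`. -/
theorem diag_inf_rightIdeal_le :
    KaehlerDifferential.ideal A R ⊓ rightIdeal A I ≤
      rightIdeal A I * KaehlerDifferential.ideal A R := by
  rintro x ⟨hxJ, hxI⟩
  have h := (rightIdeal_aux A I x hxI).2
  have h0 : Algebra.TensorProduct.lmul' A x = 0 := RingHom.mem_ker.mp hxJ
  rw [h0, TensorProduct.tmul_zero, sub_zero] at h
  exact h

/-- **D4.** `ker ν` is the image of the diagonal ideal. -/
theorem ker_nu : RingHom.ker (nu A I) = (KaehlerDifferential.ideal A R).map (psi A I) := by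
  apply le_antisymm
  · intro x hx
    obtain ⟨s, rfl⟩ := psi_surjective A I x
    rw [RingHom.mem_ker] at hx
    have h1 : Algebra.TensorProduct.lmul' A s ∈ I := by
      rw [← Ideal.Quotient.eq_zero_iff_mem, ← nu_psi]; exact hx
    have h2 : psi A I s = psi A I (s - (1 : R) ⊗ₜ[A] (Algebra.TensorProduct.lmul' A s)) := by
      rw [map_sub, psi_tmul, Ideal.Quotient.eq_zero_iff_mem.mpr h1, TensorProduct.tmul_zero,
        sub_zero]
    rw [h2]
    exact Ideal.mem_map_of_mem _ (sub_includeRight_mem_diag A s)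
  · rw [Ideal.map_le_iff_le_comap]
    intro s hs
    rw [Ideal.mem_comap, RingHom.mem_ker]
    have := nu_psi A I s
    rw [RingHom.mem_ker.mp hs, map_zero] at this
    exact this

/-- **D5.** If the diagonal ideal of `R` over `A` is an invertible `R ⊗[A] R`-module, then the
kernel of `R ⊗[A] (R ⧸ I) → R ⧸ I` is an invertible `R ⊗[A] (R ⧸ I)`-module. -/
theorem invertible_ker_nu [Module.Invertible (R ⊗[A] R) (KaehlerDifferential.ideal A R)] :
    Module.Invertible (R ⊗[A] (R ⧸ I)) (RingHom.ker (nu A I)) := by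
  let _ : Algebra (R ⊗[A] R) (R ⊗[A] (R ⧸ I)) := (psi A I).toRingHom.toAlgebra
  have hsurj : Function.Surjective (algebraMap (R ⊗[A] R) (R ⊗[A] (R ⧸ I))) := psi_surjective A I
  have hker : RingHom.ker (algebraMap (R ⊗[A] R) (R ⊗[A] (R ⧸ I))) = rightIdeal A I :=
    ker_psi A I
  have h := invertible_map_of_inf_le (T := R ⊗[A] (R ⧸ I)) hsurj (KaehlerDifferential.ideal A R)
    (by rw [hker]; exact diag_inf_rightIdeal_le A I)
  have hmap : (KaehlerDifferential.ideal A R).map (algebraMap (R ⊗[A] R) (R ⊗[A] (R ⧸ I))) =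
      RingHom.ker (nu A I) := (ker_nu A I).symm
  rw [hmap] at h
  exact h

end Diag

end Fermat.Agent.S25.H611

end
-- ===== PACK-END S25/H611/Diag.lean

-- ===== PACK-BEGIN S25/H926/AlgChartsFormal.lean
section


/-!
# Row S25, block ALGCHARTS: the formal reduction (helper926)

`Stmt.AlgCharts` asks for an `AlgChartFamily`.  Its field `locus` (an ideal of `A` for every
chart, cutting out the locus where a given gluing datum lies in that chart) is awkward to
produce directly.  This file reduces it, purely formally, to four statements about the charts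
in which no ideal and no localisation occurs (`ChartAtlas`):

* `inj`    : a chart is a monomorphism of functors (same as in `AlgChartFamily`);
* `fib`    : a rigidifiable degree-zero datum all of whose field-valued fibres lie in the chart
             lies in the chart;
* `spread` : if the fibre at one field-valued point lies in the chart, there is `a : A`, not
             vanishing at that point, such that every field-valued fibre over `D(a)` lies in
             the chart (openness of the chart locus + invariance under field extension);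
* `cover`  : over an algebraically closed field every degree-zero datum lies in some chart.

The locus ideal of chart `i` is the span of all `a` as in `spread`.

The three facts of the gluing-datum calculus that are needed (existence of base changes,
composition of base changes, stability of rigidifiability) are hypotheses
(`BCExists`, `BCComp`, `BCRig`).
-/

set_option autoImplicit false
universe u
open scoped TensorProduct

namespace Fermat.Agent.S25.H926

open Fermat.Agent.S25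

section

variable (k : Type u) [Field k] (B₀ B₁ B₀₁ : Type u) [CommRing B₀] [CommRing B₁] [CommRing B₀₁]
  [Algebra k B₀] [Algebra k B₁] [Algebra k B₀₁] [Algebra B₀ B₀₁] [Algebra B₁ B₀₁]
  [IsScalarTower k B₀ B₀₁] [IsScalarTower k B₁ B₀₁]

/-- GDC: base changes of gluing data exist. -/
def BCExists : Prop :=
  ∀ (A A' : Type u) [CommRing A] [Algebra k A] [CommRing A'] [Algebra k A'] (φ : A →ₐ[k] A')
    (G : CurveGD k B₀ B₁ B₀₁ A), ∃ G' : CurveGD k B₀ B₁ B₀₁ A', CurveGD.IsBC φ G G'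

/-- GDC: base changes compose. -/
def BCComp : Prop :=
  ∀ (A A' A'' : Type u) [CommRing A] [Algebra k A] [CommRing A'] [Algebra k A'] [CommRing A'']
    [Algebra k A''] (φ : A →ₐ[k] A') (ψ : A' →ₐ[k] A'') (G : CurveGD k B₀ B₁ B₀₁ A)
    (G' : CurveGD k B₀ B₁ B₀₁ A') (G'' : CurveGD k B₀ B₁ B₀₁ A''),
    CurveGD.IsBC φ G G' → CurveGD.IsBC ψ G' G'' → CurveGD.IsBC (ψ.comp φ) G G''

variable {B₀ B₀₁} in
/-- GDC: rigidifiability is stable under base change. -/
def BCRig (e : B₁ →ₐ[k] k) : Prop :=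
  ∀ (A A' : Type u) [CommRing A] [Algebra k A] [CommRing A'] [Algebra k A'] (φ : A →ₐ[k] A')
    (G : CurveGD k B₀ B₁ B₀₁ A) (G' : CurveGD k B₀ B₁ B₀₁ A'),
    CurveGD.IsBC φ G G' → G.Rigidifiable e → G'.Rigidifiable e

end

section

variable {k : Type u} [Field k] {B₀ B₁ B₀₁ : Type u} [CommRing B₀] [CommRing B₁] [CommRing B₀₁]
  [Algebra k B₀] [Algebra k B₁] [Algebra k B₀₁] [Algebra B₀ B₀₁] [Algebra B₁ B₀₁]
  [IsScalarTower k B₀ B₀₁] [IsScalarTower k B₁ B₀₁]

/-- The gluing datum `G` over `A` lies in the chart `(R, D)`: it is a base change of the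
universal datum `D` over `R` along some `φ : R → A`. -/
def InChart {R : Type u} [CommRing R] [Algebra k R] (D : CurveGD k B₀ B₁ B₀₁ R)
    {A : Type u} [CommRing A] [Algebra k A] (G : CurveGD k B₀ B₁ B₀₁ A) : Prop :=
  ∃ φ : R →ₐ[k] A, CurveGD.IsBC φ D G

theorem InChart.baseChange (hComp : BCComp k B₀ B₁ B₀₁) {R : Type u} [CommRing R] [Algebra k R]
    {D : CurveGD k B₀ B₁ B₀₁ R} {A A' : Type u} [CommRing A] [Algebra k A] [CommRing A']
    [Algebra k A'] {G : CurveGD k B₀ B₁ B₀₁ A} {G' : CurveGD k B₀ B₁ B₀₁ A'}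
    (h : InChart D G) (ψ : A →ₐ[k] A') (hψ : CurveGD.IsBC ψ G G') : InChart D G' := by
  obtain ⟨φ, hφ⟩ := h
  exact ⟨ψ.comp φ, hComp R A A' φ ψ D G G' hφ hψ⟩

theorem deg0_baseChange (hComp : BCComp k B₀ B₁ B₀₁) {A A' : Type u} [CommRing A] [Algebra k A]
    [CommRing A'] [Algebra k A'] {G : CurveGD k B₀ B₁ B₀₁ A} {G' : CurveGD k B₀ B₁ B₀₁ A'}
    (ψ : A →ₐ[k] A') (hψ : CurveGD.IsBC ψ G G') (h : G.Deg0) : G'.Deg0 := by
  intro K _ _ φ G'' hφ
  exact h K (φ.comp ψ) G'' (hComp A A' K ψ φ G G' G'' hψ hφ)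

variable (k B₀ B₁ B₀₁) in
/-- A chart atlas of the algebraic Picard functor: charts with the four properties `inj`,
`fib`, `spread`, `cover`.  No ideals, no localisations. -/
structure ChartAtlas (e : B₁ →ₐ[k] k) where
  ι : Type u
  R : ι → Type u
  [commRing : ∀ i, CommRing (R i)]
  [algebra : ∀ i, Algebra k (R i)]
  finiteType : ∀ i, Algebra.FiniteType k (R i)
  datum : ∀ i, CurveGD k B₀ B₁ B₀₁ (R i)
  rig : ∀ i, (datum i).Rigidifiable e
  deg0 : ∀ i, (datum i).Deg0
  /-- a chart is a monomorphism of functors -/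
  inj : ∀ (i : ι) (A : Type u) [CommRing A] [Algebra k A] (φ ψ : R i →ₐ[k] A)
    (G G' : CurveGD k B₀ B₁ B₀₁ A), CurveGD.IsBC φ (datum i) G →
      CurveGD.IsBC ψ (datum i) G' → G.IsIso G' → φ = ψ
  /-- fibrewise criterion: if all field-valued fibres lie in the chart, so does `G` -/
  fib : ∀ (i : ι) (A : Type u) [CommRing A] [Algebra k A] (G : CurveGD k B₀ B₁ B₀₁ A),
    G.Rigidifiable e → G.Deg0 →
    (∀ (K : Type u) [Field K] [Algebra k K] (ψ : A →ₐ[k] K) (GK : CurveGD k B₀ B₁ B₀₁ K),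
      CurveGD.IsBC ψ G GK → InChart (datum i) GK) → InChart (datum i) G
  /-- openness: if one field-valued fibre lies in the chart, so do all fibres over some `D(a)`
  containing the point -/
  spread : ∀ (i : ι) (A : Type u) [CommRing A] [Algebra k A] (G : CurveGD k B₀ B₁ B₀₁ A),
    G.Rigidifiable e → G.Deg0 →
    ∀ (K : Type u) [Field K] [Algebra k K] (ψ : A →ₐ[k] K) (GK : CurveGD k B₀ B₁ B₀₁ K),
      CurveGD.IsBC ψ G GK → InChart (datum i) GK →
      ∃ a : A, ψ a ≠ 0 ∧
        ∀ (L : Type u) [Field L] [Algebra k L] (θ : A →ₐ[k] L) (Gθ : CurveGD k B₀ B₁ B₀₁ L),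
          CurveGD.IsBC θ G Gθ → θ a ≠ 0 → InChart (datum i) Gθ
  /-- the charts cover: over an algebraically closed field every rigidifiable datum of degree
  zero lies in some chart -/
  cover : ∀ (K : Type u) [Field K] [Algebra k K] [IsAlgClosed K] (G : CurveGD k B₀ B₁ B₀₁ K),
    G.Rigidifiable e → G.degree = 0 → ∃ i, InChart (datum i) G

attribute [instance] ChartAtlas.commRing ChartAtlas.algebra

namespace ChartAtlas

variable {e : B₁ →ₐ[k] k} (𝒜 : ChartAtlas k B₀ B₁ B₀₁ e)

/-- The set of `a : A` such that all field-valued fibres of `G` over `D(a)` lie in chart `i`. -/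
def goodSet (i : 𝒜.ι) {A : Type u} [CommRing A] [Algebra k A] (G : CurveGD k B₀ B₁ B₀₁ A) :
    Set A :=
  {a | ∀ (L : Type u) [Field L] [Algebra k L] (θ : A →ₐ[k] L) (Gθ : CurveGD k B₀ B₁ B₀₁ L),
    CurveGD.IsBC θ G Gθ → θ a ≠ 0 → InChart (𝒜.datum i) Gθ}

/-- The locus ideal of chart `i` for the datum `G`. -/
def locusIdeal (i : 𝒜.ι) {A : Type u} [CommRing A] [Algebra k A] (G : CurveGD k B₀ B₁ B₀₁ A) :
    Ideal A :=
  Ideal.span (𝒜.goodSet i G)

theorem iSup_locusIdeal (hEx : BCExists k B₀ B₁ B₀₁) (hRig : BCRig k B₁ (B₀ := B₀) (B₀₁ := B₀₁) e)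
    {A : Type u} [CommRing A] [Algebra k A] (G : CurveGD k B₀ B₁ B₀₁ A)
    (hG : G.Rigidifiable e) (hG0 : G.Deg0) : (⨆ i, 𝒜.locusIdeal i G) = ⊤ := by
  by_contra hne
  obtain ⟨m, hm, hle⟩ := Ideal.exists_le_maximal _ hne
  let _ : Field (A ⧸ m) := Ideal.Quotient.field m
  let K := AlgebraicClosure (A ⧸ m)
  let ψ : A →ₐ[k] K := (IsScalarTower.toAlgHom k (A ⧸ m) K).comp (Ideal.Quotient.mkₐ k m)
  obtain ⟨GK, hGK⟩ := hEx A K ψ G
  obtain ⟨i, hi⟩ := 𝒜.cover K GK (hRig A K ψ G GK hGK hG) (hG0 K ψ GK hGK)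
  obtain ⟨a, ha, hgood⟩ := 𝒜.spread i A G hG hG0 K ψ GK hGK hi
  have hmem : a ∈ m := hle ((le_iSup (fun i => 𝒜.locusIdeal i G) i) (Ideal.subset_span hgood))
  apply ha
  have h0 : (Ideal.Quotient.mk m) a = 0 := Ideal.Quotient.eq_zero_iff_mem.2 hmem
  change algebraMap (A ⧸ m) K ((Ideal.Quotient.mk m) a) = 0
  rw [h0, map_zero]

theorem inChart_iff_map_locusIdeal (hEx : BCExists k B₀ B₁ B₀₁) (hComp : BCComp k B₀ B₁ B₀₁)
    (hRig : BCRig k B₁ (B₀ := B₀) (B₀₁ := B₀₁) e)
    {A : Type u} [CommRing A] [Algebra k A] (G : CurveGD k B₀ B₁ B₀₁ A)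
    (hG : G.Rigidifiable e) (hG0 : G.Deg0) (i : 𝒜.ι) (A' : Type u) [CommRing A'] [Algebra k A']
    (ψ : A →ₐ[k] A') (G' : CurveGD k B₀ B₁ B₀₁ A') (hψ : CurveGD.IsBC ψ G G') :
    (∃ φ : 𝒜.R i →ₐ[k] A', CurveGD.IsBC φ (𝒜.datum i) G') ↔
      (𝒜.locusIdeal i G).map ψ.toRingHom = ⊤ := by
  constructor
  · intro hin
    by_contra hne
    obtain ⟨m, hm, hle⟩ := Ideal.exists_le_maximal _ hne
    let _ : Field (A' ⧸ m) := Ideal.Quotient.field m
    let χ : A' →ₐ[k] (A' ⧸ m) := Ideal.Quotient.mkₐ k m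
    obtain ⟨GK, hGK⟩ := hEx A' (A' ⧸ m) χ G'
    have h1 : InChart (𝒜.datum i) GK := InChart.baseChange hComp hin χ hGK
    have h2 : CurveGD.IsBC (χ.comp ψ) G GK := hComp A A' (A' ⧸ m) ψ χ G G' GK hψ hGK
    obtain ⟨a, ha, hgood⟩ := 𝒜.spread i A G hG hG0 (A' ⧸ m) (χ.comp ψ) GK h2 h1
    apply ha
    have hmem : ψ a ∈ m := hle (Ideal.mem_map_of_mem ψ.toRingHom (Ideal.subset_span hgood))
    exact Ideal.Quotient.eq_zero_iff_mem.2 hmem
  · intro htop
    refine 𝒜.fib i A' G' (hRig A A' ψ G G' hψ hG) (deg0_baseChange hComp ψ hψ hG0) ?_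
    intro K _ _ χ GK hGK
    have h2 : CurveGD.IsBC (χ.comp ψ) G GK := hComp A A' K ψ χ G G' GK hψ hGK
    by_contra hnot
    -- every good `a` dies in `K`, so the locus ideal maps into `ker χ`
    have hzero : ∀ a ∈ 𝒜.goodSet i G, χ (ψ a) = 0 := by
      intro a ha
      by_contra hne
      exact hnot ((show ∀ (L : Type u) [Field L] [Algebra k L] (θ : A →ₐ[k] L)
        (Gθ : CurveGD k B₀ B₁ B₀₁ L), CurveGD.IsBC θ G Gθ → θ a ≠ 0 →
          InChart (𝒜.datum i) Gθ from ha) K (χ.comp ψ) GK h2 hne)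
    have hle : (𝒜.locusIdeal i G).map ψ.toRingHom ≤ RingHom.ker χ.toRingHom := by
      rw [Ideal.map_le_iff_le_comap]
      refine Ideal.span_le.2 ?_
      intro a ha
      exact hzero a ha
    rw [htop] at hle
    have : (1 : A') ∈ RingHom.ker χ.toRingHom := hle Submodule.mem_top
    rw [RingHom.mem_ker] at this
    simp at this

/-- **Formal reduction of ALGCHARTS**: a chart atlas gives an `AlgChartFamily`. -/
def toAlgChartFamily (hEx : BCExists k B₀ B₁ B₀₁) (hComp : BCComp k B₀ B₁ B₀₁)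
    (hRig : BCRig k B₁ (B₀ := B₀) (B₀₁ := B₀₁) e) : AlgChartFamily k B₀ B₁ B₀₁ e where
  ι := 𝒜.ι
  R := 𝒜.R
  finiteType := 𝒜.finiteType
  datum := 𝒜.datum
  rig := 𝒜.rig
  deg0 := 𝒜.deg0
  inj := 𝒜.inj
  locus := fun _ _ _ G hG hG0 =>
    ⟨fun i => 𝒜.locusIdeal i G, 𝒜.iSup_locusIdeal hEx hRig G hG hG0,
      fun i A' _ _ ψ G' hψ =>
        𝒜.inChart_iff_map_locusIdeal hEx hComp hRig G hG hG0 i A' ψ G' hψ⟩

end ChartAtlas

/-- `Stmt.AlgCharts` from: the three GDC facts and, for every curve chart, a chart atlas. -/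
theorem algCharts_of_atlas (hEx : BCExists k B₀ B₁ B₀₁) (hComp : BCComp k B₀ B₁ B₀₁)
    (hRig : ∀ e : B₁ →ₐ[k] k, BCRig k B₁ (B₀ := B₀) (B₀₁ := B₀₁) e)
    (hAtlas : ∀ (x : B₀) (y : B₁) (e : B₁ →ₐ[k] k), IsCurveChart k B₀ B₁ B₀₁ x y e →
      Nonempty (ChartAtlas k B₀ B₁ B₀₁ e)) :
    Stmt.AlgCharts k B₀ B₁ B₀₁ := by
  intro x y e hC
  obtain ⟨𝒜⟩ := hAtlas x y e hC
  exact ⟨𝒜.toAlgChartFamily hEx hComp (hRig e)⟩

end

end Fermat.Agent.S25.H926

end
-- ===== PACK-END S25/H926/AlgChartsFormal.lean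

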