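import Mathlib
import Fermat.Prelude.Def_GaloisRep_Residual
import Fermat.Prelude.Def_FLTPrelim_ModularRep
import Fermat.Prelude.Def_FLTPrelim_Ramification
import Fermat.Agent.Pack.S44C.G0E2L0
import Fermat.Agent.Pack.S43MC.G0E3L3
import Fermat.Agent.Pack.S44C.G0E0L3
import Fermat.Agent.Pack.S43MC.G0E3L0
import Fermat.Agent.Pack.S43MC.G0E4L0
import Fermat.Agent.Pack.S43MC.G0E4L1
import Fermat.Agent.Pack.S43MC.G0E4L2
import Fermat.Agent.Pack.S43GC.G0E2L0
import Fermat.Agent.Pack.S44C.G0E1L2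
import Fermat.Agent.Pack.S44C.G0E0L0
import Fermat.Agent.Pack.S43MC.G0E5L3
import Fermat.Agent.Pack.Fast891

-- ===== PACK-BEGIN S36/H747/QepUp.lean
section



/-!
# S36 / MOD3 — abstract core QEP-UP (helper747)

`α : F' → F` a homomorphism of fields with `F` algebraic over `α F'`; `B' ⊆ F'` a subring which is
integrally closed in `F'`; `V₁', V₂'` valuation subrings of `F'` of rank one ("archimedean",
e.g. discrete valuation rings) containing `w'`, with the LOWER q-expansion principle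

    b ∈ B',  b / w' ∈ V₁' ∩ V₂'   ⟹   b / w' ∈ B'.

Let `𝒱` be a set of valuation subrings of `F` which contains every valuation subring `W` of `F`
lying over `V₁'` or over `V₂'` (COMPLETENESS; e.g. `𝒱 = {V₁, V₂, V₃}`), and let `b ∈ F` be
integral over `α B'`.  If `b / α w' ∈ V` for all `V ∈ 𝒱`, then `b / α w'` is integral over `α B'`
(`isIntegralOver_div_of_forall_mem`).

In chart form (`qep3_chart`): the conclusion of `Eng.Qep3 w (chart R {x}) V₁ V₂ V₃`, VERBATIM
(unfolded), from the lower `Qep2` for `chart R {x'}`, `chart_α`, `int_α` and completeness.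

Mathlib only (+ the definition of `chart`).
-/

set_option autoImplicit false
set_option linter.style.haveILetI false
set_option linter.unusedSectionVars false
set_option linter.unusedVariables false

noncomputable section

namespace Fermat.Agent.S36.H747

open Polynomial

section Arch

variable {K : Type*} [Field K]

/-- The valuation subring `V` has rank at most one: for `z ∉ V` the powers of `z⁻¹` absorb every
element of the field. -/
def Arch (V : ValuationSubring K) : Prop :=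
  ∀ z : K, z ∉ V → ∀ f : K, ∃ n : ℕ, f * z⁻¹ ^ n ∈ V

/-- A valuation subring of rank at most one is a maximal proper valuation subring. -/
theorem Arch.eq_or_eq_top {V : ValuationSubring K} (hV : Arch V) {W : ValuationSubring K}
    (h : V ≤ W) : W = V ∨ ∀ f : K, f ∈ W := by
  by_cases hWV : W ≤ V
  · exact Or.inl (le_antisymm hWV h)
  · right
    obtain ⟨z, hzW, hzV⟩ := SetLike.not_le_iff_exists.1 hWV
    have hz0 : z ≠ 0 := fun h0 => hzV (h0 ▸ V.zero_mem)
    intro f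
    obtain ⟨n, hn⟩ := hV z hzV f
    have : f = f * z⁻¹ ^ n * z ^ n := by
      rw [mul_assoc, ← mul_pow, inv_mul_cancel₀ hz0, one_pow, mul_one]
    rw [this]
    exact W.mul_mem _ _ (h hn) (W.pow_mem hzW n)

/-- A discrete valuation ring has rank one. -/
theorem arch_of_isDiscreteValuationRing (V : ValuationSubring K)
    [IsDiscreteValuationRing V] : Arch V := by
  intro z hz f
  have hz0 : z ≠ 0 := fun h0 => hz (h0 ▸ V.zero_mem)
  have hzi : z⁻¹ ∈ V := (V.mem_or_inv_mem z).resolve_left hz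
  by_cases hf : f ∈ V
  · exact ⟨0, by simpa using hf⟩
  have hf0 : f ≠ 0 := fun h0 => hf (h0 ▸ V.zero_mem)
  have hfi : f⁻¹ ∈ V := (V.mem_or_inv_mem f).resolve_left hf
  -- `z⁻¹` is a non-unit of `V`
  obtain ⟨ϖ, hϖ⟩ := IsDiscreteValuationRing.exists_irreducible V
  have hzinv0 : (⟨z⁻¹, hzi⟩ : V) ≠ 0 := fun h0 => by
    have := congrArg Subtype.val h0
    exact inv_ne_zero hz0 this
  have hfinv0 : (⟨f⁻¹, hfi⟩ : V) ≠ 0 := fun h0 => by
    have := congrArg Subtype.val h0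
    exact inv_ne_zero hf0 this
  obtain ⟨a, u, hu⟩ := IsDiscreteValuationRing.eq_unit_mul_pow_irreducible hzinv0 hϖ
  obtain ⟨c, v, hv⟩ := IsDiscreteValuationRing.eq_unit_mul_pow_irreducible hfinv0 hϖ
  have ha : a ≠ 0 := by
    rintro rfl
    rw [pow_zero, mul_one] at hu
    have hunit : IsUnit (⟨z⁻¹, hzi⟩ : V) := hu ▸ u.isUnit
    obtain ⟨y, hy⟩ := hunit.exists_right_inv
    have hy' : z⁻¹ * (y : K) = 1 := by
      have := congrArg Subtype.val hy
      simpa using this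
    have : (y : K) = z := by
      field_simp at hy'
      exact hy'
    exact hz (this ▸ y.2)
  -- `f * (z⁻¹) ^ c = f * u ^ c * ϖ ^ (a c)` and `f = v⁻¹ ϖ ^ (-c)`
  refine ⟨c, ?_⟩
  have hu' : z⁻¹ = (u : V) * (ϖ : K) ^ a := by
    have := congrArg Subtype.val hu
    simpa using this
  have hv' : f⁻¹ = (v : V) * (ϖ : K) ^ c := by
    have := congrArg Subtype.val hv
    simpa using this
  have hϖ0 : (ϖ : K) ≠ 0 := fun h0 => hϖ.ne_zero (Subtype.ext h0)
  have hv0 : ((v : V) : K) ≠ 0 := fun h0 => v.ne_zero (Subtype.ext h0)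
  have hfe : f = ((v⁻¹ : Vˣ) : V) * ((ϖ : K) ^ c)⁻¹ := by
    have h1 : f = (f⁻¹)⁻¹ := (inv_inv f).symm
    rw [h1, hv', mul_inv]
    congr 1
    have hvv : ((v : V) : K) * (((v⁻¹ : Vˣ) : V) : K) = 1 := by
      have h := congrArg Subtype.val (Units.mul_inv v)
      exact h
    exact (eq_inv_of_mul_eq_one_right hvv).symm ▸ rfl
  have key : f * z⁻¹ ^ c =
      (((v⁻¹ : Vˣ) : V) : K) * ((u : V) : K) ^ c * (ϖ : K) ^ (a * c - c) := by
    rw [hfe, hu', mul_pow, ← pow_mul]
    have hle : c ≤ a * c := Nat.le_mul_of_pos_left c (Nat.pos_of_ne_zero ha)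
    have : (ϖ : K) ^ (a * c) = (ϖ : K) ^ (a * c - c) * (ϖ : K) ^ c := by
      rw [← pow_add, Nat.sub_add_cancel hle]
    rw [this]
    field_simp
  rw [key]
  exact V.mul_mem _ _ (V.mul_mem _ _ (Subtype.mem _) (V.pow_mem (Subtype.mem _) c))
    (V.pow_mem (Subtype.mem _) _)

end Arch

section Core

variable {F F' : Type*} [Field F] [Field F']

/-- `y ∈ F` is integral over `α A`, elementwise: a monic polynomial over `F'` with coefficients in
`A` whose image under `α` kills `y`. -/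
def IsIntegralOver (α : F' →+* F) (A : Set F') (y : F) : Prop :=
  ∃ p : F'[X], p.Monic ∧ (∀ i, p.coeff i ∈ A) ∧ (p.map α).eval y = 0

theorem IsIntegralOver.mono {α : F' →+* F} {A A' : Set F'} (h : A ⊆ A') {y : F}
    (hy : IsIntegralOver α A y) : IsIntegralOver α A' y := by
  obtain ⟨p, hp, hc, he⟩ := hy
  exact ⟨p, hp, fun i => h (hc i), he⟩

/-- **Lemma A.**  If `F` is algebraic over `α F'`, `V'` has rank at most one and `y` lies in every
valuation subring of `F` over `V'`, then `y` is integral over `α V'`. -/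
theorem isIntegralOver_of_forall_mem (α : F' →+* F)
    (halg : ∀ y : F, IsIntegralOver α Set.univ y)
    (V' : ValuationSubring F') (hV' : Arch V') (y : F)
    (hy : ∀ W : ValuationSubring F, W.comap α = V' → y ∈ W) :
    IsIntegralOver α (V' : Set F') y := by
  classical
  set s : Set F := α '' (V' : Set F') with hs
  -- `y` lies in every valuation subring containing `α V'`
  have hmem : y ∈ (⨅ V : {V : ValuationSubring F // s ⊆ V.toSubring}, V.1.toSubring) := by
    rw [Subring.mem_iInf]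
    rintro ⟨W, hW⟩
    have hle : V' ≤ W.comap α := fun a ha => hW ⟨a, ha, rfl⟩
    rcases hV'.eq_or_eq_top hle with h | h
    · exact hy W h
    · -- `α F' ⊆ W`, hence `W = F`
      obtain ⟨p, hp, -, he⟩ := halg y
      have hint : IsIntegral W y := by
        have hlift : p.map α ∈ lifts (algebraMap W F) := by
          rw [lifts_iff_coeff_lifts]
          intro n
          rw [coeff_map]
          exact ⟨⟨α (p.coeff n), h (p.coeff n)⟩, rfl⟩
        obtain ⟨q, hq, -, hqm⟩ := lifts_and_natDegree_eq_and_monic hlift (hp.map α)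
        refine ⟨q, hqm, ?_⟩
        rw [← eval_map, hq]
        exact he
      obtain ⟨y', hy'⟩ := (IsIntegrallyClosed.isIntegral_iff (R := W) (K := F)).1 hint
      rw [← hy']
      exact y'.2
  rw [iInf_valuationSubring_superset] at hmem
  -- a monic polynomial over `Subring.closure s`
  obtain ⟨P, hP, hPy⟩ : IsIntegral (Subring.closure s) y := hmem
  -- `Subring.closure s = α V'`
  have hcl : ∀ c ∈ Subring.closure s, ∃ a ∈ V', α a = c := by
    intro c hc
    have hle : Subring.closure s ≤ V'.toSubring.map α := by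
      rw [Subring.closure_le]
      rintro _ ⟨a, ha, rfl⟩
      exact ⟨a, ha, rfl⟩
    obtain ⟨a, ha, rfl⟩ := hle hc
    exact ⟨a, ha, rfl⟩
  let f : V' →+* F := α.comp V'.subtype
  have hlift : P.map (algebraMap (Subring.closure s) F) ∈ lifts f := by
    rw [lifts_iff_coeff_lifts]
    intro n
    rw [coeff_map]
    obtain ⟨a, ha, hac⟩ := hcl (P.coeff n) (P.coeff n).2
    exact ⟨⟨a, ha⟩, hac⟩
  obtain ⟨q, hq, -, hqm⟩ := lifts_and_natDegree_eq_and_monic hlift (hP.map _)
  refine ⟨q.map V'.subtype, hqm.map _, fun i => ?_, ?_⟩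
  · rw [coeff_map]
    exact (q.coeff i).2
  · rw [map_map]
    change (q.map f).eval y = 0
    rw [hq, eval_map]
    exact hPy

/-- **Lemma B.**  If `y` is integral over `α A`, `A` a subring integrally closed in `F'`, then the
minimal polynomial of `y` over `F'` has coefficients in `A`. -/
theorem minpoly_coeff_mem (α : F' →+* F) (A : Subring F')
    (hA : ∀ z : F', IsIntegral A z → z ∈ A) (y : F)
    (hy : IsIntegralOver α (A : Set F') y) (i : ℕ) :
    (@minpoly F' F _ _ α.toAlgebra y).coeff i ∈ A := by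
  letI : Algebra F' F := α.toAlgebra
  obtain ⟨p, hp, hpA, hpy⟩ := hy
  have hpy' : aeval y p = 0 := by
    rw [aeval_def, ← eval_map]
    exact hpy
  have hint : IsIntegral F' y := ⟨p, hp, by rw [← aeval_def]; exact hpy'⟩
  have hdvd : minpoly F' y ∣ p := minpoly.dvd F' y hpy'
  have hsub : (↑p.coeffs : Set F') ⊆ A := by
    intro c hc
    obtain ⟨n, -, hn⟩ := mem_coeffs_iff.mp hc
    exact hn ▸ hpA n
  have hmap : (p.toSubring A hsub).map (algebraMap A F') = p := map_toSubring p A hsub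
  have hmon : (p.toSubring A hsub).Monic := (monic_toSubring p A hsub).2 hp
  have hl := integralClosure.mem_lifts_of_monic_of_dvd_map F' hmon (minpoly.monic hint)
    (by rw [hmap]; exact hdvd)
  rw [lifts_iff_coeff_lifts] at hl
  obtain ⟨c, hc⟩ := hl i
  rw [← hc]
  exact hA _ c.2

/-- **Lemma C.**  Scaling: the minimal polynomial of `α u * y`. -/
theorem minpoly_mul_coeff (α : F' →+* F) (u : F') (hu : u ≠ 0) (y : F)
    (hy : IsIntegralOver α Set.univ y) (i : ℕ) :
    (@minpoly F' F _ _ α.toAlgebra (α u * y)).coeff i =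
      (@minpoly F' F _ _ α.toAlgebra y).coeff i *
        u ^ ((@minpoly F' F _ _ α.toAlgebra y).natDegree - i) := by
  letI : Algebra F' F := α.toAlgebra
  obtain ⟨p, hp, -, hpy⟩ := hy
  have hint : IsIntegral F' y := ⟨p, hp, by rw [← eval_map]; exact hpy⟩
  have h := IsIntegrallyClosed.minpoly_smul (R := F') (S := F) hu hint
  have hsm : u • y = α u * y := by
    rw [Algebra.smul_def]
    rfl
  rw [hsm] at h
  rw [h, coeff_scaleRoots]

/-- **Lemma D.**  The lower q-expansion principle, iterated. -/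
theorem mem_of_mul_pow_mem {B' : Set F'} {w' : F'} (hw0 : w' ≠ 0)
    {V₁' V₂' : ValuationSubring F'} (hw₁ : w' ∈ V₁') (hw₂ : w' ∈ V₂')
    (hqep : ∀ b ∈ B', b * w'⁻¹ ∈ V₁' → b * w'⁻¹ ∈ V₂' → b * w'⁻¹ ∈ B')
    (k : ℕ) (c : F') (hc₁ : c ∈ V₁') (hc₂ : c ∈ V₂') (hcB : c * w' ^ k ∈ B') : c ∈ B' := by
  induction k with
  | zero => simpa using hcB
  | succ k ih =>
    apply ih
    have e : c * w' ^ k = c * w' ^ (k + 1) * w'⁻¹ := by
      rw [pow_succ, ← mul_assoc, mul_assoc _ w', mul_inv_cancel₀ hw0, mul_one]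
    rw [e]
    apply hqep _ hcB
    · rw [← e]; exact V₁'.mul_mem _ _ hc₁ (V₁'.pow_mem hw₁ k)
    · rw [← e]; exact V₂'.mul_mem _ _ hc₂ (V₂'.pow_mem hw₂ k)

/-- **QEP-UP, abstract core.**  See the header. -/
theorem isIntegralOver_div_of_forall_mem (α : F' →+* F)
    (halg : ∀ y : F, IsIntegralOver α Set.univ y)
    (B' : Subring F') (hB' : ∀ z : F', IsIntegral B' z → z ∈ B')
    (w' : F') (hw0 : w' ≠ 0)
    (V₁' V₂' : ValuationSubring F') (hV₁' : Arch V₁') (hV₂' : Arch V₂')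
    (hw₁ : w' ∈ V₁') (hw₂ : w' ∈ V₂')
    (hqep : ∀ b ∈ B', b * w'⁻¹ ∈ V₁' → b * w'⁻¹ ∈ V₂' → b * w'⁻¹ ∈ B')
    (𝒱 : Set (ValuationSubring F))
    (hcomp : ∀ W : ValuationSubring F, W.comap α = V₁' ∨ W.comap α = V₂' → W ∈ 𝒱)
    (b : F) (hb : IsIntegralOver α (B' : Set F') b)
    (hbV : ∀ V ∈ 𝒱, b * (α w')⁻¹ ∈ V) :
    IsIntegralOver α (B' : Set F') (b * (α w')⁻¹) := by
  letI : Algebra F' F := α.toAlgebra
  set y : F := b * (α w')⁻¹ with hy
  have hαw : α w' ≠ 0 := by rwa [Ne, map_eq_zero]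
  have hby : b = α w' * y := by
    rw [hy, mul_comm b, ← mul_assoc, mul_inv_cancel₀ hαw, one_mul]
  -- the minimal polynomial of `y` has coefficients in `V₁' ∩ V₂'`
  have h₁ : IsIntegralOver α (V₁' : Set F') y :=
    isIntegralOver_of_forall_mem α halg V₁' hV₁' y fun W hW => hbV W (hcomp W (Or.inl hW))
  have h₂ : IsIntegralOver α (V₂' : Set F') y :=
    isIntegralOver_of_forall_mem α halg V₂' hV₂' y fun W hW => hbV W (hcomp W (Or.inr hW))
  have hcl : ∀ V : ValuationSubring F', ∀ z : F', IsIntegral V.toSubring z → z ∈ V.toSubring := by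
    intro V z hz
    have hz' : IsIntegral V z := hz
    obtain ⟨z', hz''⟩ := (IsIntegrallyClosed.isIntegral_iff (R := V) (K := F')).1 hz'
    rw [← hz'']
    exact z'.2
  have hm₁ : ∀ i, (minpoly F' y).coeff i ∈ V₁' := fun i =>
    minpoly_coeff_mem α V₁'.toSubring (hcl V₁') y h₁ i
  have hm₂ : ∀ i, (minpoly F' y).coeff i ∈ V₂' := fun i =>
    minpoly_coeff_mem α V₂'.toSubring (hcl V₂') y h₂ i
  -- the minimal polynomial of `b` has coefficients in `B'`
  have hmb : ∀ i, (minpoly F' b).coeff i ∈ B' := fun i => minpoly_coeff_mem α B' hB' b hb i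
  have hmB : ∀ i, (minpoly F' y).coeff i ∈ B' := by
    intro i
    have e := minpoly_mul_coeff α w' hw0 y (halg y) i
    rw [← hby] at e
    have := hmb i
    rw [e] at this
    exact mem_of_mul_pow_mem hw0 hw₁ hw₂ hqep _ _ (hm₁ i) (hm₂ i) this
  obtain ⟨p, hp, -, hpy⟩ := halg y
  have hint : IsIntegral F' y := ⟨p, hp, by rw [← eval_map]; exact hpy⟩
  refine ⟨minpoly F' y, minpoly.monic hint, hmB, ?_⟩
  rw [eval_map]
  have h := minpoly.aeval F' y
  rw [aeval_def] at h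
  exact h

end Core

section Chart

open Fermat.Agent.S18.H138 (chart)

variable {R F F' : Type*} [CommRing R] [Field F] [Field F'] [Algebra R F] [Algebra R F']

/-- The chart is integrally closed in the field. -/
theorem mem_chart_of_isIntegral (S : Set F') (z : F')
    (hz : IsIntegral (chart R S).toSubring z) : z ∈ chart R S := by
  have hz' : IsIntegral (integralClosure (Algebra.adjoin R S) F') z := hz
  exact isIntegral_trans (R := Algebra.adjoin R S)
    (A := integralClosure (Algebra.adjoin R S) F') z hz'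

/-- An element integral over `α (chart R S')`, where `α` maps `chart R S'` into `chart R S`, lies
in `chart R S`. -/
theorem mem_chart_of_isIntegralOver (α : F' →+* F) (S' : Set F') (S : Set F)
    (hα : ∀ b ∈ chart R S', α b ∈ chart R S) (y : F)
    (hy : IsIntegralOver α (chart R S' : Set F') y) : y ∈ chart R S := by
  obtain ⟨p, hp, hc, he⟩ := hy
  have hlift : p.map α ∈ lifts (algebraMap (integralClosure (Algebra.adjoin R S) F) F) := by
    rw [lifts_iff_coeff_lifts]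
    intro n
    rw [coeff_map]
    exact ⟨⟨α (p.coeff n), hα _ (hc n)⟩, rfl⟩
  obtain ⟨q, hq, -, hqm⟩ := lifts_and_natDegree_eq_and_monic hlift (hp.map α)
  have hint : IsIntegral (integralClosure (Algebra.adjoin R S) F) y := by
    refine ⟨q, hqm, ?_⟩
    rw [← eval_map, hq]
    exact he
  exact isIntegral_trans (R := Algebra.adjoin R S)
    (A := integralClosure (Algebra.adjoin R S) F) y hint

/-- **QEP-UP in chart form**: the conclusion is `Eng.Qep3 w (chart R {x}) V₁ V₂ V₃` unfolded.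

Inputs: `α : F' → F` compatible with the `R`-algebra structures, `F` algebraic over `α F'`;
the LOWER q-expansion principle for `chart R S'` and `V₁', V₂'` (rank one, containing `w`);
`chart_α`, `int_α`; COMPLETENESS: every valuation subring of `F` over `V₁'` or `V₂'` is one of
`V₁, V₂, V₃`. -/
theorem qep3_chart (w : R) (α : F' →+* F)
    (hαR : ∀ r : R, α (algebraMap R F' r) = algebraMap R F r)
    (halg : ∀ y : F, ∃ p : F'[X], p.Monic ∧ (p.map α).eval y = 0)
    (S' : Set F') (S : Set F)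
    (V₁ V₂ V₃ : ValuationSubring F) (V₁' V₂' : ValuationSubring F')
    (hw0 : algebraMap R F' w ≠ 0)
    (hw₁ : algebraMap R F' w ∈ V₁') (hw₂ : algebraMap R F' w ∈ V₂')
    (hV₁' : Arch V₁') (hV₂' : Arch V₂')
    (hqep : ∀ b ∈ chart R S', b * (algebraMap R F' w)⁻¹ ∈ V₁' →
      b * (algebraMap R F' w)⁻¹ ∈ V₂' → b * (algebraMap R F' w)⁻¹ ∈ chart R S')
    (hcomp : ∀ W : ValuationSubring F, W.comap α = V₁' ∨ W.comap α = V₂' →
      W = V₁ ∨ W = V₂ ∨ W = V₃)
    (chart_α : ∀ b ∈ chart R S', α b ∈ chart R S)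
    (int_α : ∀ b ∈ chart R S, ∃ p : F'[X], p.Monic ∧
      (∀ i, p.coeff i ∈ chart R S') ∧ (p.map α).eval b = 0) :
    ∀ b : chart R S, (b : F) * (algebraMap R F w)⁻¹ ∈ V₁ →
      (b : F) * (algebraMap R F w)⁻¹ ∈ V₂ → (b : F) * (algebraMap R F w)⁻¹ ∈ V₃ →
      ∃ c : chart R S, b = algebraMap R (chart R S) w * c := by
  intro b hb₁ hb₂ hb₃
  have halg' : ∀ y : F, IsIntegralOver α Set.univ y := fun y => by
    obtain ⟨p, hp, he⟩ := halg y
    exact ⟨p, hp, fun _ => Set.mem_univ _, he⟩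
  have key := isIntegralOver_div_of_forall_mem α halg' (chart R S').toSubring
    (mem_chart_of_isIntegral S') (algebraMap R F' w) hw0 V₁' V₂' hV₁' hV₂' hw₁ hw₂ hqep
    {V₁, V₂, V₃}
    (fun W hW => by
      rcases hcomp W hW with h | h | h
      · exact Or.inl h
      · exact Or.inr (Or.inl h)
      · exact Or.inr (Or.inr h))
    (b : F) (int_α b b.2)
    (by
      intro V hV
      rw [hαR]
      rcases hV with h | h | h
      · rw [h]; exact hb₁
      · rw [h]; exact hb₂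
      · rw [Set.mem_singleton_iff.1 h]; exact hb₃)
  rw [hαR] at key
  have hmem : (b : F) * (algebraMap R F w)⁻¹ ∈ chart R S :=
    mem_chart_of_isIntegralOver α S' S chart_α _ key
  have hwF : algebraMap R F w ≠ 0 := by
    rw [← hαR]
    rwa [Ne, map_eq_zero]
  refine ⟨⟨_, hmem⟩, Subtype.ext ?_⟩
  change (b : F) = algebraMap R F w * ((b : F) * (algebraMap R F w)⁻¹)
  rw [mul_comm (b : F), ← mul_assoc, mul_inv_cancel₀ hwF, one_mul]

end Chart

end Fermat.Agent.S36.H747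

end

end
-- ===== PACK-END S36/H747/QepUp.lean

-- ===== PACK-BEGIN S36/H153/IncFull.lean
section


/-!
# S36 engine, cell INCIDENCE (helper153) — full fibre description `INC-1 .. INC-3`

Continuation of `Incidence.lean` (Mathlib only).  `IncFull` = `IncData` + the two missing
"only" statements + residue degree one (`Radicial`) for the four remaining (component, map) pairs.
All fields are statements about the `(e, f)` table of MOD3 and Kronecker-type congruences on the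
charts; NO modular unit, NO Krull principal ideal theorem, NO noetherian hypothesis is used:
everything follows from going-up + going-down.

Results (numbering of `coord/S36-INCIDENCE-helper578.md`):

* `a_P1_iff`, `a_P2_iff`, `b_P1_iff`, `b_P2_iff` : the image of a prime lies on `C₁'` (`C₂'`) iff the
  prime lies on one of the components over it;
* `inc1_a` : over a point of `C₁' ∖ C₂'` (via `α`) there are exactly two primes, one on `FF` only
  and one on `mid` only, and they are different;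
* `inc2_a` : over a point of `C₂' ∖ C₁'` (via `α`) there is exactly one prime, on `VV` only;
* `inc1_b`, `inc2_b` : the same via `β` (`C₂' ∖ C₁'`: `mid`-only and `VV`-only; `C₁' ∖ C₂'`: `FF`);
* (`INC-3` is `IncData.exists_unique_triple_over_node_a / _b` of `Incidence.lean`);
* adapters `only_of_cover`, `only₂_of_cover` : the "only" fields from the statement
  "every prime containing `w` contains one of the three vertical primes" (`q B ⊇ p_FF p_mid^(q-1)
  p_VV`) and incomparability.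
-/

set_option autoImplicit false
set_option linter.style.haveILetI false
set_option linter.unusedSectionVars false

namespace Fermat.Agent.S36.H153

open Ideal

/-- Full incidence datum. -/
structure IncFull {A B : Type*} [CommRing A] [CommRing B] (a b : A →+* B)
    (P1 P2 : Ideal A) (pFF pmid pVV : Ideal B) : Prop extends IncData a b P1 P2 pFF pmid pVV where
  /-- `FF`, `mid` are the only primes over `C₁'` via `α` -/
  a_only₁ : ∀ p : Ideal B, p.IsPrime → p.comap a = P1 → p = pFF ∨ p = pmid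
  /-- `mid`, `VV` are the only primes over `C₂'` via `β` -/
  b_only₂ : ∀ p : Ideal B, p.IsPrime → p.comap b = P2 → p = pmid ∨ p = pVV
  a_rad_FF : Radicial a pFF
  a_rad_mid : Radicial a pmid
  b_rad_mid : Radicial b pmid
  b_rad_VV : Radicial b pVV

namespace IncFull

variable {A B : Type*} [CommRing A] [CommRing B] [IsDomain A] [IsDomain B]
  [IsIntegrallyClosed A] {a b : A →+* B} {P1 P2 : Ideal A} {pFF pmid pVV : Ideal B}

theorem ff_or_mid_le_of_a (D : IncFull a b P1 P2 pFF pmid pVV) (n : Ideal B) [n.IsPrime]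
    (h : P1 ≤ n.comap a) : pFF ≤ n ∨ pmid ≤ n := by
  haveI := D.primeP1
  obtain ⟨p, hp, hpn, hpc⟩ := exists_prime_le_comap_eq a D.a_inj D.a_int P1 n h
  rcases D.a_only₁ p hp hpc with rfl | rfl
  · exact Or.inl hpn
  · exact Or.inr hpn

theorem mid_or_vv_le_of_b (D : IncFull a b P1 P2 pFF pmid pVV) (n : Ideal B) [n.IsPrime]
    (h : P2 ≤ n.comap b) : pmid ≤ n ∨ pVV ≤ n := by
  haveI := D.primeP2
  obtain ⟨p, hp, hpn, hpc⟩ := exists_prime_le_comap_eq b D.b_inj D.b_int P2 n h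
  rcases D.b_only₂ p hp hpc with rfl | rfl
  · exact Or.inl hpn
  · exact Or.inr hpn

theorem a_P1_iff (D : IncFull a b P1 P2 pFF pmid pVV) (n : Ideal B) [n.IsPrime] :
    P1 ≤ n.comap a ↔ (pFF ≤ n ∨ pmid ≤ n) :=
  ⟨D.ff_or_mid_le_of_a n, fun h => h.elim (fun h => D.a_FF ▸ Ideal.comap_mono h)
    (fun h => D.a_mid ▸ Ideal.comap_mono h)⟩

theorem a_P2_iff (D : IncFull a b P1 P2 pFF pmid pVV) (n : Ideal B) [n.IsPrime] :
    P2 ≤ n.comap a ↔ pVV ≤ n :=
  ⟨D.toIncData.vv_le_of_a n, fun h => D.a_VV ▸ Ideal.comap_mono h⟩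

theorem b_P1_iff (D : IncFull a b P1 P2 pFF pmid pVV) (n : Ideal B) [n.IsPrime] :
    P1 ≤ n.comap b ↔ pFF ≤ n :=
  ⟨D.toIncData.ff_le_of_b n, fun h => D.b_FF ▸ Ideal.comap_mono h⟩

theorem b_P2_iff (D : IncFull a b P1 P2 pFF pmid pVV) (n : Ideal B) [n.IsPrime] :
    P2 ≤ n.comap b ↔ (pmid ≤ n ∨ pVV ≤ n) :=
  ⟨D.mid_or_vv_le_of_b n, fun h => h.elim (fun h => D.b_mid ▸ Ideal.comap_mono h)
    (fun h => D.b_VV ▸ Ideal.comap_mono h)⟩

/-- A prime is a triple point iff its `α`-image is a node iff its `β`-image is a node. -/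
theorem node_a_iff_node_b (D : IncFull a b P1 P2 pFF pmid pVV) (n : Ideal B) [n.IsPrime] :
    (P1 ≤ n.comap a ∧ P2 ≤ n.comap a) ↔ (P1 ≤ n.comap b ∧ P2 ≤ n.comap b) := by
  constructor
  · rintro ⟨h1, h2⟩
    obtain ⟨hFF, -, hVV⟩ := D.toIncData.triple_of_node_a n h1 h2
    exact (D.toIncData.node_of_triple n hFF hVV).2
  · rintro ⟨h1, h2⟩
    obtain ⟨hFF, -, hVV⟩ := D.toIncData.triple_of_node_b n h1 h2
    exact (D.toIncData.node_of_triple n hFF hVV).1

/-- **INC-1 (via `α`).**  Over a point of `C₁' ∖ C₂'` there are exactly two primes of `B`: one on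
`FF` only, one on `mid` only. -/
theorem inc1_a (D : IncFull a b P1 P2 pFF pmid pVV) (N : Ideal A) [N.IsPrime]
    (h1 : P1 ≤ N) (h2 : ¬ P2 ≤ N) :
    ∃ nFF nmid : Ideal B, nFF.IsPrime ∧ nmid.IsPrime ∧ nFF.comap a = N ∧ nmid.comap a = N ∧
      (pFF ≤ nFF ∧ ¬ pmid ≤ nFF ∧ ¬ pVV ≤ nFF) ∧ (¬ pFF ≤ nmid ∧ pmid ≤ nmid ∧ ¬ pVV ≤ nmid) ∧
      nFF ≠ nmid ∧ ∀ n : Ideal B, n.IsPrime → n.comap a = N → n = nFF ∨ n = nmid := by
  obtain ⟨nFF, hFFp, hFFle, hFFc⟩ :=
    exists_prime_ge_comap_eq a D.a_int pFF N (by rw [D.a_FF]; exact h1)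
  obtain ⟨nmid, hmidp, hmidle, hmidc⟩ :=
    exists_prime_ge_comap_eq a D.a_int pmid N (by rw [D.a_mid]; exact h1)
  haveI := hFFp
  haveI := hmidp
  have noVV : ∀ n : Ideal B, n.comap a = N → ¬ pVV ≤ n := fun n hc hVV =>
    h2 (hc ▸ D.a_VV ▸ Ideal.comap_mono hVV)
  have hFF3 : pFF ≤ nFF ∧ ¬ pmid ≤ nFF ∧ ¬ pVV ≤ nFF :=
    ⟨hFFle, fun hm => noVV nFF hFFc
      (D.toIncData.triple_of_two nFF (Or.inl ⟨hFFle, hm⟩)).2.2, noVV nFF hFFc⟩
  have hmid3 : ¬ pFF ≤ nmid ∧ pmid ≤ nmid ∧ ¬ pVV ≤ nmid :=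
    ⟨fun hf => noVV nmid hmidc
      (D.toIncData.triple_of_two nmid (Or.inl ⟨hf, hmidle⟩)).2.2, hmidle, noVV nmid hmidc⟩
  refine ⟨nFF, nmid, hFFp, hmidp, hFFc, hmidc, hFF3, hmid3, ?_, ?_⟩
  · intro heq
    exact hmid3.1 (heq ▸ hFFle)
  · intro n hn hc
    haveI := hn
    rcases D.ff_or_mid_le_of_a n (hc ▸ h1) with h | h
    · exact Or.inl (D.a_rad_FF.eq_of_comap_eq h hFFle (hc.trans hFFc.symm))
    · exact Or.inr (D.a_rad_mid.eq_of_comap_eq h hmidle (hc.trans hmidc.symm))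

/-- **INC-2 (via `α`).**  Over a point of `C₂' ∖ C₁'` there is exactly one prime of `B`; it lies
on `VV` only. -/
theorem inc2_a (D : IncFull a b P1 P2 pFF pmid pVV) (N : Ideal A) [N.IsPrime]
    (h1 : ¬ P1 ≤ N) (h2 : P2 ≤ N) :
    ∃ n : Ideal B, n.IsPrime ∧ n.comap a = N ∧ (¬ pFF ≤ n ∧ ¬ pmid ≤ n ∧ pVV ≤ n) ∧
      ∀ n' : Ideal B, n'.IsPrime → n'.comap a = N → n' = n := by
  obtain ⟨n, hn, hle, hc⟩ := exists_prime_ge_comap_eq a D.a_int pVV N (by rw [D.a_VV]; exact h2)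
  haveI := hn
  refine ⟨n, hn, hc, ⟨fun h => h1 (hc ▸ D.a_FF ▸ Ideal.comap_mono h),
    fun h => h1 (hc ▸ D.a_mid ▸ Ideal.comap_mono h), hle⟩, fun n' hn' hc' => ?_⟩
  haveI := hn'
  exact D.toIncData.unique_over_a n n' hle (hc'.trans hc.symm)

/-- **INC-1 (via `β`).**  Over a point of `C₂' ∖ C₁'` there are exactly two primes of `B`: one on
`mid` only, one on `VV` only. -/
theorem inc1_b (D : IncFull a b P1 P2 pFF pmid pVV) (N : Ideal A) [N.IsPrime]
    (h1 : ¬ P1 ≤ N) (h2 : P2 ≤ N) :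
    ∃ nmid nVV : Ideal B, nmid.IsPrime ∧ nVV.IsPrime ∧ nmid.comap b = N ∧ nVV.comap b = N ∧
      (¬ pFF ≤ nmid ∧ pmid ≤ nmid ∧ ¬ pVV ≤ nmid) ∧ (¬ pFF ≤ nVV ∧ ¬ pmid ≤ nVV ∧ pVV ≤ nVV) ∧
      nmid ≠ nVV ∧ ∀ n : Ideal B, n.IsPrime → n.comap b = N → n = nmid ∨ n = nVV := by
  obtain ⟨nmid, hmidp, hmidle, hmidc⟩ :=
    exists_prime_ge_comap_eq b D.b_int pmid N (by rw [D.b_mid]; exact h2)
  obtain ⟨nVV, hVVp, hVVle, hVVc⟩ :=
    exists_prime_ge_comap_eq b D.b_int pVV N (by rw [D.b_VV]; exact h2)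
  haveI := hmidp
  haveI := hVVp
  have noFF : ∀ n : Ideal B, n.comap b = N → ¬ pFF ≤ n := fun n hc hFF =>
    h1 (hc ▸ D.b_FF ▸ Ideal.comap_mono hFF)
  have hmid3 : ¬ pFF ≤ nmid ∧ pmid ≤ nmid ∧ ¬ pVV ≤ nmid :=
    ⟨noFF nmid hmidc, hmidle, fun hv => noFF nmid hmidc
      (D.toIncData.triple_of_two nmid (Or.inr (Or.inr ⟨hmidle, hv⟩))).1⟩
  have hVV3 : ¬ pFF ≤ nVV ∧ ¬ pmid ≤ nVV ∧ pVV ≤ nVV :=
    ⟨noFF nVV hVVc, fun hm => noFF nVV hVVc
      (D.toIncData.triple_of_two nVV (Or.inr (Or.inr ⟨hm, hVVle⟩))).1, hVVle⟩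
  refine ⟨nmid, nVV, hmidp, hVVp, hmidc, hVVc, hmid3, hVV3, ?_, ?_⟩
  · intro heq
    exact hVV3.2.1 (heq ▸ hmidle)
  · intro n hn hc
    haveI := hn
    rcases D.mid_or_vv_le_of_b n (hc ▸ h2) with h | h
    · exact Or.inl (D.b_rad_mid.eq_of_comap_eq h hmidle (hc.trans hmidc.symm))
    · exact Or.inr (D.b_rad_VV.eq_of_comap_eq h hVVle (hc.trans hVVc.symm))

/-- **INC-2 (via `β`).**  Over a point of `C₁' ∖ C₂'` there is exactly one prime of `B`; it lies
on `FF` only. -/
theorem inc2_b (D : IncFull a b P1 P2 pFF pmid pVV) (N : Ideal A) [N.IsPrime]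
    (h1 : P1 ≤ N) (h2 : ¬ P2 ≤ N) :
    ∃ n : Ideal B, n.IsPrime ∧ n.comap b = N ∧ (pFF ≤ n ∧ ¬ pmid ≤ n ∧ ¬ pVV ≤ n) ∧
      ∀ n' : Ideal B, n'.IsPrime → n'.comap b = N → n' = n := by
  obtain ⟨n, hn, hle, hc⟩ := exists_prime_ge_comap_eq b D.b_int pFF N (by rw [D.b_FF]; exact h1)
  haveI := hn
  refine ⟨n, hn, hc, ⟨hle, fun h => h2 (hc ▸ D.b_mid ▸ Ideal.comap_mono h),
    fun h => h2 (hc ▸ D.b_VV ▸ Ideal.comap_mono h)⟩, fun n' hn' hc' => ?_⟩
  haveI := hn'
  exact D.toIncData.unique_over_b n n' hle (hc'.trans hc.symm)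

end IncFull

/-! ## Adapters: the "only" fields from a cover statement -/

section Cover

variable {A B : Type*} [CommRing A] [CommRing B]

/-- Incomparability for an integral ring homomorphism: two primes `p ≤ p'` with the same
contraction are equal. -/
theorem eq_of_le_of_comap_eq (a : A →+* B) (ha_int : a.IsIntegral) {p p' : Ideal B}
    [p.IsPrime] (hle : p ≤ p') (hc : p.comap a = p'.comap a) : p = p' := by
  by_contra hne
  have hlt : p < p' := lt_of_le_of_ne hle hne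
  letI : Algebra A B := a.toAlgebra
  haveI : Algebra.IsIntegral A B := ⟨ha_int⟩
  have := Ideal.IsIntegral.comap_lt_comap (R := A) hlt
  exact absurd hc (ne_of_lt this)

/-- If every prime of `B` containing `a w` contains one of `p₁ p₂ p₃`, `w ∈ P`, and among the
three only `p₃` contracts to a prime contained in `P`, then `p₃` is the only prime over `P`. -/
theorem only_of_cover (a : A →+* B) (ha_int : a.IsIntegral) {P : Ideal A} {p₁ p₂ p₃ : Ideal B}
    [p₃.IsPrime] {w : A} (hw : w ∈ P)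
    (hcover : ∀ p : Ideal B, p.IsPrime → a w ∈ p → p₁ ≤ p ∨ p₂ ≤ p ∨ p₃ ≤ p)
    (h₁ : ¬ p₁.comap a ≤ P) (h₂ : ¬ p₂.comap a ≤ P) (h₃ : p₃.comap a = P)
    (p : Ideal B) (hp : p.IsPrime) (hc : p.comap a = P) : p = p₃ := by
  have hwp : a w ∈ p := by
    have : w ∈ p.comap a := hc ▸ hw
    exact this
  rcases hcover p hp hwp with h | h | h
  · exact absurd (hc ▸ Ideal.comap_mono h) h₁
  · exact absurd (hc ▸ Ideal.comap_mono h) h₂
  · exact (eq_of_le_of_comap_eq a ha_int h (h₃.trans hc.symm)).symm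

/-- Two-component version: if among the three only `p₁`, `p₂` contract to primes contained in `P`,
every prime over `P` is `p₁` or `p₂`. -/
theorem only₂_of_cover (a : A →+* B) (ha_int : a.IsIntegral) {P : Ideal A} {p₁ p₂ p₃ : Ideal B}
    [p₁.IsPrime] [p₂.IsPrime] {w : A} (hw : w ∈ P)
    (hcover : ∀ p : Ideal B, p.IsPrime → a w ∈ p → p₁ ≤ p ∨ p₂ ≤ p ∨ p₃ ≤ p)
    (h₁ : p₁.comap a = P) (h₂ : p₂.comap a = P) (h₃ : ¬ p₃.comap a ≤ P)
    (p : Ideal B) (hp : p.IsPrime) (hc : p.comap a = P) : p = p₁ ∨ p = p₂ := by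
  have hwp : a w ∈ p := by
    have : w ∈ p.comap a := hc ▸ hw
    exact this
  rcases hcover p hp hwp with h | h | h
  · exact Or.inl (eq_of_le_of_comap_eq a ha_int h (h₁.trans hc.symm)).symm
  · exact Or.inr (eq_of_le_of_comap_eq a ha_int h (h₂.trans hc.symm)).symm
  · exact absurd (hc ▸ Ideal.comap_mono h) h₃

/-- A prime containing `p₁ ^ e₁ * p₂ ^ e₂ * p₃ ^ e₃` contains one of the three ideals. -/
theorem le_of_mul_pow_le {p₁ p₂ p₃ p : Ideal B} [hp : p.IsPrime] {e₁ e₂ e₃ : ℕ}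
    (h : p₁ ^ e₁ * p₂ ^ e₂ * p₃ ^ e₃ ≤ p) : p₁ ≤ p ∨ p₂ ≤ p ∨ p₃ ≤ p := by
  rcases (Ideal.IsPrime.mul_le hp).mp h with h12 | h3
  · rcases (Ideal.IsPrime.mul_le hp).mp h12 with h1 | h2
    · exact Or.inl (Ideal.IsPrime.le_of_pow_le h1)
    · exact Or.inr (Or.inl (Ideal.IsPrime.le_of_pow_le h2))
  · exact Or.inr (Or.inr (Ideal.IsPrime.le_of_pow_le h3))

/-- The cover statement from an inclusion `p₁ ^ e₁ * p₂ ^ e₂ * p₃ ^ e₃ ≤ (w')`
(e.g. `q B = p_FF ∩ p_mid^(q-1) ∩ p_VV`): every prime containing `w'` contains one of the three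
ideals. -/
theorem cover_of_mul_pow_le {p₁ p₂ p₃ : Ideal B} {w' : B} {e₁ e₂ e₃ : ℕ}
    (h : p₁ ^ e₁ * p₂ ^ e₂ * p₃ ^ e₃ ≤ Ideal.span {w'})
    (p : Ideal B) (hp : p.IsPrime) (hw : w' ∈ p) : p₁ ≤ p ∨ p₂ ≤ p ∨ p₃ ≤ p :=
  haveI := hp
  le_of_mul_pow_le (h.trans ((Ideal.span_singleton_le_iff_mem p).mpr hw))

end Cover

end Fermat.Agent.S36.H153

end
-- ===== PACK-END S36/H153/IncFull.lean

-- ===== PACK-BEGIN S59/H105/CtrlLoc.lean
section



/-!
# Row S59, cell TW, leaf CTRL (helper105): the abstract one-prime step, localised form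

* `bijective_of_injective_mod`, `bijOnSub_of_injective_mod` : over a local ring with finite
  residue field and principal maximal ideal `(ϖ)`, an endomorphism of a finite module which is
  injective modulo `ϖ` is bijective;
* `ctrl_loc` : the one-prime control theorem in the form used with localisations:
  `X = V'` (level `N`, localised at `T_q ≡ α + β`), `X''` a complement inside the localisation
  without the condition at `q` (there `α T - α² - q` is bijective), `P = V` (level `N q`,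
  localised at `U_q ≡ α`) with its projector `e`.  Then `P = s_a (X)` and `t₂ : P → X` is
  bijective.
-/

set_option autoImplicit false

namespace Fermat.Agent.S59.H105

open IsLocalRing

section Bij

variable {𝒪 : Type*} [CommRing 𝒪] [IsLocalRing 𝒪]

theorem divSub_eq_smul_top (ϖ : 𝒪) (hϖ : maximalIdeal 𝒪 = Ideal.span {ϖ})
    (Y : Type*) [AddCommGroup Y] [Module 𝒪 Y] :
    divSub Y ϖ = maximalIdeal 𝒪 • (⊤ : Submodule 𝒪 Y) := by
  rw [hϖ, Submodule.ideal_span_singleton_smul]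
  ext x
  rw [mem_divSub, Submodule.mem_smul_pointwise_iff_exists]
  constructor
  · rintro ⟨z, rfl⟩
    exact ⟨z, Submodule.mem_top, rfl⟩
  · rintro ⟨z, _, rfl⟩
    exact ⟨z, rfl⟩

/-- An endomorphism of a finite module which is injective modulo `ϖ` is bijective. -/
theorem bijective_of_injective_mod (ϖ : 𝒪) (hϖ : maximalIdeal 𝒪 = Ideal.span {ϖ})
    [Finite (ResidueField 𝒪)] {Y : Type*} [AddCommGroup Y] [Module 𝒪 Y] [Module.Finite 𝒪 Y]
    (g : Y →ₗ[𝒪] Y) (hinj : ∀ y, (∃ z, g y = ϖ • z) → ∃ z, y = ϖ • z) :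
    Function.Bijective g := by
  set B : Submodule 𝒪 Y := maximalIdeal 𝒪 • (⊤ : Submodule 𝒪 Y) with hB
  have hBd : B = divSub Y ϖ := (divSub_eq_smul_top ϖ hϖ Y).symm
  haveI : Finite (𝒪 ⧸ maximalIdeal 𝒪) := ‹Finite (ResidueField 𝒪)›
  haveI : Finite (Y ⧸ (⊤ : Submodule 𝒪 Y)) := inferInstance
  haveI : Finite (Y ⧸ B) :=
    Submodule.finite_quotient_smul (maximalIdeal 𝒪) (Module.Finite.fg_top)
  have hle : B ≤ B.comap g := by
    intro x hx
    rw [Submodule.mem_comap, hBd]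
    rw [hBd] at hx
    exact map_mem_divSub g hx
  have hqinj : Function.Injective (B.mapQ B g hle) := by
    rw [← LinearMap.ker_eq_bot, LinearMap.ker_eq_bot']
    intro x hx
    obtain ⟨y, rfl⟩ := Submodule.Quotient.mk_surjective B x
    rw [Submodule.mapQ_apply, Submodule.Quotient.mk_eq_zero, hBd, mem_divSub] at hx
    rw [Submodule.Quotient.mk_eq_zero, hBd, mem_divSub]
    exact hinj y hx
  have hqsurj : Function.Surjective (B.mapQ B g hle) := Finite.injective_iff_surjective.mp hqinj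
  have htop : (⊤ : Submodule 𝒪 Y) ≤ LinearMap.range g ⊔ maximalIdeal 𝒪 • ⊤ := by
    intro y _
    obtain ⟨x, hx⟩ := hqsurj (Submodule.Quotient.mk y)
    obtain ⟨y', rfl⟩ := Submodule.Quotient.mk_surjective B x
    rw [Submodule.mapQ_apply, Submodule.Quotient.eq] at hx
    have : y = g y' + -(g y' - y) := by abel
    rw [this]
    exact Submodule.add_mem_sup (LinearMap.mem_range_self g y') (B.neg_mem hx)
  have hsurj : Function.Surjective g := by
    rw [← LinearMap.range_eq_top]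
    exact top_le_iff.mp (Submodule.le_of_le_smul_of_le_jacobson_bot Module.Finite.fg_top
      (IsLocalRing.jacobson_eq_maximalIdeal ⊥ bot_ne_top).ge htop)
  exact ⟨OrzechProperty.injective_of_surjective_endomorphism g hsurj, hsurj⟩

/-- Submodule form of `bijective_of_injective_mod`. -/
theorem bijOnSub_of_injective_mod (ϖ : 𝒪) (hϖ : maximalIdeal 𝒪 = Ideal.span {ϖ})
    [Finite (ResidueField 𝒪)] {X : Type*} [AddCommGroup X] [Module 𝒪 X]
    (V : Submodule 𝒪 X) [Module.Finite 𝒪 V] (hsat : ∀ x : X, ϖ • x ∈ V → x ∈ V)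
    (g : X →ₗ[𝒪] X) (hV : ∀ x ∈ V, g x ∈ V)
    (hinj : ∀ x ∈ V, (∃ z : X, g x = ϖ • z) → ∃ z : X, x = ϖ • z) :
    BijOnSub g V := by
  have hb := bijective_of_injective_mod ϖ hϖ (g.restrict hV) (by
    rintro ⟨y, hy⟩ ⟨⟨z, hz⟩, e⟩
    have e' : g y = ϖ • z := congrArg Subtype.val e
    obtain ⟨z', rfl⟩ := hinj y hy ⟨z, e'⟩
    exact ⟨⟨z', hsat z' hy⟩, rfl⟩)
  refine ⟨hV, ?_, ?_⟩
  · intro x hx e
    have := hb.1 (a₁ := ⟨x, hx⟩) (a₂ := 0) (by
      apply Subtype.ext
      simpa using e)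
    exact congrArg Subtype.val this
  · intro x hx
    obtain ⟨⟨x', hx'⟩, e⟩ := hb.2 ⟨x, hx⟩
    exact ⟨x', hx', congrArg Subtype.val e⟩

end Bij

section Core

variable {Λ : Type*} [CommRing Λ] {HN HQ : Type*} [AddCommGroup HN] [Module Λ HN]
  [AddCommGroup HQ] [Module Λ HQ]
  {q : ℕ} {r₁ r₂ : HN →ₗ[Λ] HQ} {t₁ t₂ : HQ →ₗ[Λ] HN} {T : HN →ₗ[Λ] HN}
  {U : HQ →ₗ[Λ] HQ} {X : Submodule Λ HN} {a b : HN →ₗ[Λ] HN}

theorem BijOnSub.exists_iterate {M : Type*} [AddCommGroup M] [Module Λ M] {f : M →ₗ[Λ] M}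
    {X : Submodule Λ M} (hf : BijOnSub f X) (k : ℕ) :
    ∀ x ∈ X, ∃ x' ∈ X, f^[k] x' = x := by
  induction k with
  | zero => exact fun x hx => ⟨x, hx, rfl⟩
  | succ k ih =>
    intro x hx
    obtain ⟨x₁, hx₁, e₁⟩ := ih x hx
    obtain ⟨x₂, hx₂, e₂⟩ := hf.surj x₁ hx₁
    exact ⟨x₂, hx₂, by rw [Function.iterate_succ_apply, e₂, e₁]⟩

/-- `(U - α) (r₁ x₁ + r₂ x₂) = r₁ (T x₁ + q x₂ - α x₁) + r₂ (- x₁ - α x₂)`. -/
theorem shift_old (h : DegRel q r₁ r₂ t₁ t₂ T U) (α : Λ) (x₁ x₂ : HN) :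
    (shiftBy U α) (r₁ x₁ + r₂ x₂) =
      r₁ (T x₁ + q • x₂ - α • x₁) + r₂ (-x₁ - α • x₂) := by
  rw [shiftBy_apply, map_add, h.Ur₁, h.Ur₂]
  simp only [map_sub, map_add, map_smul, map_neg, map_nsmul, smul_add]
  abel

/-- Old classes coming from `X''` are in the image of every power of `U - α`. -/
theorem old_eq_iterate (h : DegRel q r₁ r₂ t₁ t₂ T U) (α : Λ) (X'' : Submodule Λ HN)
    (hT : ∀ x ∈ X'', T x ∈ X'')
    (hg : BijOnSub (α • T - (α ^ 2 + (q : Λ)) • LinearMap.id) X'') (k : ℕ) :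
    ∀ x₁ ∈ X'', ∀ x₂ ∈ X'', ∃ x₁' ∈ X'', ∃ x₂' ∈ X'',
      r₁ x₁ + r₂ x₂ = (shiftBy U α)^[k] (r₁ x₁' + r₂ x₂') := by
  induction k with
  | zero => exact fun x₁ h₁ x₂ h₂ => ⟨x₁, h₁, x₂, h₂, rfl⟩
  | succ k ih =>
    intro x₁ h₁ x₂ h₂
    obtain ⟨y₁, hy₁, y₂, hy₂, e⟩ := ih x₁ h₁ x₂ h₂
    -- solve `(A - α) (z₁, z₂) = (y₁, y₂)`
    obtain ⟨w, hw, ew⟩ := hg.surj (y₁ + T y₂ - α • y₂)
      (X''.sub_mem (X''.add_mem hy₁ (hT _ hy₂)) (X''.smul_mem α hy₂))
    have ew' : α • T w - (α ^ 2 + (q : Λ)) • w = y₁ + T y₂ - α • y₂ := by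
      simpa using ew
    refine ⟨-y₂ + α • w, X''.add_mem (X''.neg_mem hy₂) (X''.smul_mem α hw), -w,
      X''.neg_mem hw, ?_⟩
    rw [Function.iterate_succ_apply, shift_old h, e]
    congr 2
    · have : T (-y₂ + α • w) + q • (-w) - α • (-y₂ + α • w) =
          (α • T w - (α ^ 2 + (q : Λ)) • w) - T y₂ + α • y₂ := by
        simp only [map_add, map_neg, map_smul, smul_add, smul_neg, add_smul, smul_smul,
          pow_two, Nat.cast_smul_eq_nsmul]
        abel
      rw [this, ew']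
      abel
    · simp only [smul_neg]
      abel

/-- **TW-CTRL, localised abstract form.** -/
theorem ctrl_loc (h : DegRel q r₁ r₂ t₁ t₂ T U) (hp : HenselPair X q T a b) (α ϖ : Λ)
    (hab : BijOnSub (a - b) X) (ha2 : BijOnSub (oneSubSq a) X)
    (hbα : BijOnSub (shiftBy b α) X)
    (X'' : Submodule Λ HN) (hT : ∀ x ∈ X'', T x ∈ X'')
    (hg : BijOnSub (α • T - (α ^ 2 + (q : Λ)) • LinearMap.id) X'')
    (P : Submodule Λ HQ) (e : HQ →ₗ[Λ] HQ) (heP : ∀ y, e y ∈ P) (heid : ∀ y ∈ P, e y = y)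
    (heU : ∀ y, e (U y) = U (e y))
    (hsep : SepOn P ϖ) (hnil : NilpOn (shiftBy U α) P ϖ)
    (hsurj : ∀ y ∈ P, ∃ y' ∈ P, U (U y') - y' = y)
    (ht₁ : ∀ y ∈ P, ∃ x' ∈ X, ∃ x'' ∈ X'', t₁ y = x' + x'')
    (ht₂ : ∀ y ∈ P, ∃ x' ∈ X, ∃ x'' ∈ X'', t₂ y = x' + x'')
    (hsa : ∀ x ∈ X, sOld r₁ r₂ a x ∈ P) :
    (∀ y ∈ P, ∃ u ∈ X, y = sOld r₁ r₂ a u) ∧
    (∀ y ∈ P, t₂ y = 0 → y = 0) ∧ (∀ x ∈ X, ∃ y ∈ P, t₂ y = x) := by
  have heN : ∀ y, e ((shiftBy U α) y) = (shiftBy U α) (e y) := by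
    intro y
    rw [shiftBy_apply, shiftBy_apply, map_sub, heU, map_smul]
  have heNk : ∀ (k : ℕ) (y : HQ), e ((shiftBy U α)^[k] y) = (shiftBy U α)^[k] (e y) := by
    intro k
    induction k with
    | zero => exact fun y => rfl
    | succ k ih =>
      intro y
      rw [Function.iterate_succ_apply, Function.iterate_succ_apply, ih, heN]
  -- vectors in the image of all powers of `U - α` die under `e`
  have hkill : ∀ w : HQ, (∀ k : ℕ, ∃ w' : HQ, w = (shiftBy U α)^[k] w') → e w = 0 := by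
    intro w hw
    apply hsep (e w) (heP w)
    intro n
    obtain ⟨k, hk⟩ := hnil.pow n
    obtain ⟨w', rfl⟩ := hw k
    rw [heNk]
    exact hk (e w') (heP w')
  have hC : ∀ y ∈ P, ∃ u ∈ X, y = sOld r₁ r₂ a u := by
    intro y hy
    obtain ⟨y', hy', ey⟩ := hsurj y hy
    obtain ⟨x₁', hx₁', x₁'', hx₁'', e₁⟩ := ht₁ y' hy'
    obtain ⟨x₂', hx₂', x₂'', hx₂'', e₂⟩ := ht₂ y' hy'
    have hξ₁ : T x₂' - x₁' ∈ X := X.sub_mem (hp.T_mem _ hx₂') hx₁'
    have hξ₂ : -x₂' ∈ X := X.neg_mem hx₂'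
    obtain ⟨u, hu, v, hv, euv⟩ := old_eq_sOld_add (r₁ := r₁) (r₂ := r₂) hp hab hξ₁ hξ₂
    have hη₁ : T x₂'' - x₁'' ∈ X'' := X''.sub_mem (hT _ hx₂'') hx₁''
    have hη₂ : -x₂'' ∈ X'' := X''.neg_mem hx₂''
    have ey' : y = sOld r₁ r₂ a u + sOld r₁ r₂ b v +
        (r₁ (T x₂'' - x₁'') + r₂ (-x₂'')) := by
      rw [← ey, UU_sub h, ← euv, e₁, e₂]
      simp only [map_add, map_sub, map_neg]
      abel
    have k1 : e (sOld r₁ r₂ b v) = 0 := by
      apply hkill
      intro k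
      obtain ⟨v', hv', ev⟩ := hbα.exists_iterate k v hv
      exact ⟨sOld r₁ r₂ b v', by rw [iterate_sub_smul_sOld h hp.symm α k hv', ev]⟩
    have k2 : e (r₁ (T x₂'' - x₁'') + r₂ (-x₂'')) = 0 := by
      apply hkill
      intro k
      obtain ⟨z₁, _, z₂, _, ez⟩ := old_eq_iterate h α X'' hT hg k _ hη₁ _ hη₂
      exact ⟨_, ez⟩
    refine ⟨u, hu, ?_⟩
    have := congrArg e ey'
    rw [heid y hy, map_add, map_add, k1, k2, add_zero, add_zero, heid _ (hsa u hu)] at this
    exact this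
  refine ⟨hC, ?_, ?_⟩
  · intro y hy e0
    obtain ⟨u, hu, rfl⟩ := hC y hy
    rw [t₂_sOld h hp hu] at e0
    have : u = 0 := ha2.inj u hu (by rw [oneSubSq_apply]; exact e0)
    rw [this, map_zero]
  · intro x hx
    obtain ⟨u, hu, eu⟩ := ha2.surj x hx
    refine ⟨sOld r₁ r₂ a u, hsa u hu, ?_⟩
    rw [t₂_sOld h hp hu, ← eu, oneSubSq_apply]

end Core

end Fermat.Agent.S59.H105

end
-- ===== PACK-END S59/H105/CtrlLoc.lean

-- ===== PACK-BEGIN S59/MFree/H565/NormField.lean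
section


/-!
# S59 / M-FREE, leaf (E): the norm criterion over a field of characteristic `p` (helper565)

`k` a field with `(p : k) = 0`, `D` a finite `p`-group, `ρ` a representation of `D` on a
finite-dimensional `k`-vector space `W` with `ker N ⊆ I_D W`.  Then `W` has a `k`-basis of the
form `ρ d (b i)` (`exists_basis_of_ker_norm_le`).

* `sup_augSpan_eq_top` (Nakayama for `k[D]`): a `D`-stable subspace `U` with `U + I_D W = W` is `W`;
* `linearIndependent_of_ker_norm_le`: lifts of a basis of the coinvariants give an independent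
  family `ρ d (v i)`.
-/

set_option autoImplicit false

namespace Fermat.Agent.S59.MFree.H565

section Field

variable {p : ℕ} [Fact p.Prime] {D : Type*} [Group D] [Fintype D]
  {k W : Type*} [Field k] [AddCommGroup W] [Module k W]

/-- `I_D W`: the span of the `ρ d y - y`. -/
def augSpan (ρ : Representation k D W) : Submodule k W :=
  Submodule.span k {w | ∃ d y, w = ρ d y - y}

theorem sub_mem_augSpan (ρ : Representation k D W) (d : D) (y : W) :
    ρ d y - y ∈ augSpan ρ := Submodule.subset_span ⟨d, y, rfl⟩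

/-- **Nakayama for `k[D]`**: a `D`-stable subspace `U` with `U + I_D W = W` is everything. -/
theorem eq_top_of_sup_augSpan_eq_top (hD : IsPGroup p D) (hp0 : (p : k) = 0)
    (ρ : Representation k D W) (U : Submodule k W) (hU : ∀ d, ∀ x ∈ U, ρ d x ∈ U)
    (h : U ⊔ augSpan ρ = ⊤) : U = ⊤ := by
  by_contra hne
  obtain ⟨f, hf0, hfU⟩ := Submodule.exists_dual_map_eq_bot_of_lt_top (lt_top_iff_ne_top.mpr hne)
    (inferInstance : Module.Projective k (W ⧸ U))
  have hfU' : ∀ x ∈ U, f x = 0 := fun x hx => by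
    have : f x ∈ U.map f := ⟨x, hx, rfl⟩
    rw [hfU] at this
    exact this
  -- the functionals vanishing on `U`
  let S : AddSubgroup (Module.Dual k W) :=
    { carrier := {g | ∀ x ∈ U, g x = 0}
      zero_mem' := fun x _ => rfl
      add_mem' := fun {g g'} hg hg' x hx => by
        show g x + g' x = 0
        rw [hg x hx, hg' x hx, add_zero]
      neg_mem' := fun {g} hg x hx => by
        show -(g x) = 0
        rw [hg x hx, neg_zero] }
  have hS : ∀ d, ∀ g ∈ S, ρ.dual d g ∈ S := by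
    intro d g hg x hx
    rw [Representation.dual_apply]
    exact hg _ (hU d⁻¹ x hx)
  have hp : ∀ g : Module.Dual k W, p • g = 0 := fun g => by
    rw [← Nat.cast_smul_eq_nsmul k, hp0, zero_smul]
  obtain ⟨g, hgS, hg0, hgfix⟩ := exists_fixed_ne_zero hD ρ.dual hp S hS f hfU' hf0
  apply hg0
  have hgρ : ∀ d x, g (ρ d x) = g x := fun d x => by
    have h1 := congrArg (fun φ : Module.Dual k W => φ x) (hgfix d⁻¹)
    simp only [Representation.dual_apply, inv_inv] at h1
    exact h1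
  have hker : U ⊔ augSpan ρ ≤ LinearMap.ker g := by
    refine sup_le (fun x hx => hgS x hx) ?_
    refine Submodule.span_le.mpr ?_
    rintro _ ⟨d, y, rfl⟩
    show g (ρ d y - y) = 0
    rw [map_sub, hgρ, sub_self]
  rw [h, top_le_iff, LinearMap.ker_eq_top] at hker
  exact hker

end Field

section Indep

variable {p : ℕ} [Fact p.Prime] {D : Type*} [Group D] [Fintype D]
  {k W : Type*} [Field k] [AddCommGroup W] [Module k W]

/-- Left translation on `D × Fin n → k`. -/
def transRep (D : Type*) [Group D] (k : Type*) [Field k] (n : ℕ) :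
    Representation k D (D × Fin n → k) where
  toFun e := LinearMap.funLeft k k (fun z : D × Fin n => (e⁻¹ * z.1, z.2))
  map_one' := by
    ext c z
    simp [LinearMap.funLeft]
  map_mul' e e' := by
    ext c z
    simp [LinearMap.funLeft, mul_assoc]

@[simp]
theorem transRep_apply (n : ℕ) (e : D) (c : D × Fin n → k) (z : D × Fin n) :
    transRep D k n e c z = c (e⁻¹ * z.1, z.2) := rfl

theorem sum_transRep_smul (ρ : Representation k D W) {n : ℕ} (v : Fin n → W) (e : D)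
    (c : D × Fin n → k) :
    ∑ z : D × Fin n, transRep D k n e c z • ρ z.1 (v z.2) =
      ρ e (∑ z : D × Fin n, c z • ρ z.1 (v z.2)) := by
  rw [map_sum]
  refine Fintype.sum_equiv ((Equiv.mulLeft e⁻¹).prodCongr (Equiv.refl (Fin n))) _ _ ?_
  rintro ⟨d, i⟩
  simp only [transRep_apply, Equiv.prodCongr_apply, Equiv.coe_mulLeft, Equiv.refl_apply,
    Prod.map_apply, map_smul]
  congr 1
  rw [← Module.End.mul_apply, ← map_mul, mul_inv_cancel_left]

/-- **Independence.**  If `ker N ⊆ I_D W` and the `v i` are independent modulo `I_D W`, then the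
`ρ d (v i)` are linearly independent. -/
theorem linearIndependent_of_ker_norm_le (hD : IsPGroup p D) (hp0 : (p : k) = 0)
    (ρ : Representation k D W) (hker : ∀ x : W, ∑ d, ρ d x = 0 → x ∈ augSpan ρ)
    {n : ℕ} (v : Fin n → W)
    (hv : LinearIndependent k (fun i => (augSpan ρ).mkQ (v i))) :
    LinearIndependent k (fun z : D × Fin n => ρ z.1 (v z.2)) := by
  classical
  rw [Fintype.linearIndependent_iff]
  intro c hc
  by_contra hne
  have hc0 : c ≠ 0 := fun h => hne (fun z => by rw [h]; rfl)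
  -- the relations
  let S : AddSubgroup (D × Fin n → k) :=
    { carrier := {c | ∑ z : D × Fin n, c z • ρ z.1 (v z.2) = 0}
      zero_mem' := by simp
      add_mem' := fun {a b} ha hb => by
        show ∑ z : D × Fin n, (a + b) z • ρ z.1 (v z.2) = 0
        simp only [Pi.add_apply, add_smul, Finset.sum_add_distrib]
        rw [ha, hb, add_zero]
      neg_mem' := fun {a} ha => by
        show ∑ z : D × Fin n, (-a) z • ρ z.1 (v z.2) = 0
        simp only [Pi.neg_apply, neg_smul, Finset.sum_neg_distrib]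
        rw [ha, neg_zero] }
  have hS : ∀ e, ∀ a ∈ S, transRep D k n e a ∈ S := by
    intro e a ha
    show ∑ z : D × Fin n, transRep D k n e a z • ρ z.1 (v z.2) = 0
    rw [sum_transRep_smul, ha, map_zero]
  have hp : ∀ a : D × Fin n → k, p • a = 0 := fun a => by
    rw [← Nat.cast_smul_eq_nsmul k, hp0, zero_smul]
  obtain ⟨a, haS, ha0, hafix⟩ := exists_fixed_ne_zero hD (transRep D k n) hp S hS c hc hc0
  -- a fixed relation is constant along `D`
  have hconst : ∀ d i, a (d, i) = a (1, i) := fun d i => by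
    have h1 := congrFun (hafix d) (d, i)
    rw [transRep_apply] at h1
    simp only [inv_mul_cancel] at h1
    exact h1.symm
  have hN : ∑ d, ρ d (∑ i, a (1, i) • v i) = 0 := by
    have h2 : ∑ z : D × Fin n, a z • ρ z.1 (v z.2) = 0 := haS
    rw [Fintype.sum_prod_type] at h2
    rw [← h2]
    refine Finset.sum_congr rfl fun d _ => ?_
    rw [map_sum]
    refine Finset.sum_congr rfl fun i _ => ?_
    rw [map_smul, hconst d i]
  have hmem := hker _ hN
  have h3 : ∑ i, a (1, i) • (augSpan ρ).mkQ (v i) = 0 := by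
    have h5 : (augSpan ρ).mkQ (∑ i, a (1, i) • v i) = 0 :=
      (Submodule.Quotient.mk_eq_zero (augSpan ρ)).mpr hmem
    rw [← h5, map_sum]
    refine Finset.sum_congr rfl fun i _ => ?_
    rw [map_smul]
  have h4 := (Fintype.linearIndependent_iff.mp hv) (fun i => a (1, i)) h3
  apply ha0
  funext z
  obtain ⟨d, i⟩ := z
  rw [hconst d i, h4 i]
  rfl

/-- **The norm criterion over a field.** -/
theorem exists_basis_of_ker_norm_le [Module.Finite k W] (hD : IsPGroup p D) (hp0 : (p : k) = 0)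
    (ρ : Representation k D W) (hker : ∀ x : W, ∑ d, ρ d x = 0 → x ∈ augSpan ρ) :
    ∃ (n : ℕ) (b : Fin n → W),
      LinearIndependent k (fun z : D × Fin n => ρ z.1 (b z.2)) ∧
      Submodule.span k (Set.range fun z : D × Fin n => ρ z.1 (b z.2)) = ⊤ := by
  classical
  let bas := Module.finBasis k (W ⧸ augSpan ρ)
  let n := Module.finrank k (W ⧸ augSpan ρ)
  have hlift : ∀ i : Fin n, ∃ w : W, (augSpan ρ).mkQ w = bas i := fun i =>
    Submodule.mkQ_surjective _ _
  choose v hv using hlift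
  refine ⟨n, v, ?_, ?_⟩
  · apply linearIndependent_of_ker_norm_le hD hp0 ρ hker v
    have : (fun i => (augSpan ρ).mkQ (v i)) = bas := funext hv
    rw [this]
    exact bas.linearIndependent
  · apply eq_top_of_sup_augSpan_eq_top hD hp0 ρ
    · intro d x hx
      induction hx using Submodule.span_induction with
      | mem x hx =>
        obtain ⟨⟨e, i⟩, rfl⟩ := hx
        refine Submodule.subset_span ⟨(d * e, i), ?_⟩
        simp [map_mul]
      | zero => simp
      | add x y _ _ hx hy => rw [map_add]; exact Submodule.add_mem _ hx hy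
      | smul a x _ hx => rw [map_smul]; exact Submodule.smul_mem _ a hx
    · rw [eq_top_iff]
      intro x _
      -- `x = ∑ c_i v_i` modulo `I_D W`
      have hx : (augSpan ρ).mkQ x = ∑ i, bas.repr ((augSpan ρ).mkQ x) i • bas i :=
        (bas.sum_repr _).symm
      set y : W := ∑ i, bas.repr ((augSpan ρ).mkQ x) i • v i with hy
      have hxy : x - y ∈ augSpan ρ := by
        rw [← Submodule.Quotient.mk_eq_zero, Submodule.Quotient.mk_sub, sub_eq_zero]
        show (augSpan ρ).mkQ x = (augSpan ρ).mkQ y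
        rw [hy, map_sum, hx]
        refine Finset.sum_congr rfl fun i _ => ?_
        rw [map_smul, hv, ← hx]
      have hyU : y ∈ Submodule.span k (Set.range fun z : D × Fin n => ρ z.1 (v z.2)) := by
        refine Submodule.sum_mem _ fun i _ => Submodule.smul_mem _ _ ?_
        refine Submodule.subset_span ⟨(1, i), ?_⟩
        simp
      have : x = y + (x - y) := by abel
      rw [this]
      exact Submodule.add_mem _ (Submodule.mem_sup_left hyU) (Submodule.mem_sup_right hxy)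

end Indep

end Fermat.Agent.S59.MFree.H565

end
-- ===== PACK-END S59/MFree/H565/NormField.lean

-- ===== PACK-BEGIN S59/H294/ResUnramCore.lean
section







/-!
# Row S59, cell LO, leaf ResUnram — core (helper294)

Light closure (Mathlib + Prelude + `Lib/Cheb/Spec`): the residual representation `ρ_E` of a curve
`W` which is residually modular of level `M` is unramified at every prime `q ∤ p M`, given
* Chebotarev (`Lib.Cheb.Spec.ChebotarevStatement`),
* the Frobenius characteristic polynomials of `ρ_E`,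
* the residual representation attached to an eigenform (shape of the frozen S29).

Proof.  By Chebotarev `charpoly ρ_f(g) = ι (charpoly ρ_E(g))` for EVERY `g`; so `ker ρ_f` acts
on `ρ_E` through unipotent operators; `ker ρ_f` is normal and `ρ_E` is an irreducible plane, so
`ker ρ_f` acts trivially (`eq_one_of_unipotent_normal294`); the inertia groups at `q` lie in
`ker ρ_f`.
-/

set_option autoImplicit false

open Polynomial

namespace Fermat.Agent.S59.H294

/-- `Gal(ℚ̄/ℚ)` -/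
abbrev GQ294 : Type := AlgebraicClosure ℚ ≃ₐ[ℚ] AlgebraicClosure ℚ

/-- **Chebotarev step** for two residual representations: equality of the Frobenius
characteristic polynomials outside a finite set of primes gives equality everywhere. -/
theorem charpoly_eq_of_frob294 (hcheb : Fermat.Agent.Lib.Cheb.Spec.ChebotarevStatement)
    {k k' : Type} [Field k] [Field k'] (ι : k →+* k')
    (ρ : ResidualGaloisRep k) (ρ' : ResidualGaloisRep k') (S : Finset ℕ)
    (h : ∀ ℓ : ℕ, ℓ.Prime → ℓ ∉ S →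
      ∀ B : ValuationSubring (AlgebraicClosure ℚ), B.LiesOverPrime ℓ →
        ∀ σ : GQ294, B.IsFrobeniusAt σ ℓ →
          LinearMap.charpoly (ρ'.ρ σ) = (LinearMap.charpoly (ρ.ρ σ)).map ι)
    (g : GQ294) :
    LinearMap.charpoly (ρ'.ρ g) = (LinearMap.charpoly (ρ.ρ g)).map ι := by
  obtain ⟨L₁, hL₁, h₁⟩ := ρ'.factorsThroughFiniteLevel
  obtain ⟨L₂, hL₂, h₂⟩ := ρ.factorsThroughFiniteLevel
  have := hL₁
  have := hL₂
  have hE : FiniteDimensional ℚ ↥(L₁ ⊔ L₂) := IntermediateField.finiteDimensional_sup L₁ L₂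
  obtain ⟨ℓ, B, τ, hℓ, hℓS, hB, hτ, -, hτg⟩ := hcheb (L₁ ⊔ L₂) hE g S
  have hfix : ∀ x ∈ L₁ ⊔ L₂, (g⁻¹ * τ) x = x := by
    intro x hx
    rw [AlgEquiv.mul_apply, hτg x hx]
    exact g.symm_apply_apply x
  have e1 : ρ'.ρ τ = ρ'.ρ g := by
    have h := h₁ (g⁻¹ * τ) (fun x hx => hfix x ((le_sup_left : L₁ ≤ L₁ ⊔ L₂) hx))
    have h' : ρ'.ρ g * ρ'.ρ (g⁻¹ * τ) = ρ'.ρ g := by rw [h, mul_one]
    rw [← map_mul, mul_inv_cancel_left] at h'
    exact h'
  have e2 : ρ.ρ τ = ρ.ρ g := by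
    have h := h₂ (g⁻¹ * τ) (fun x hx => hfix x ((le_sup_right : L₂ ≤ L₁ ⊔ L₂) hx))
    have h' : ρ.ρ g * ρ.ρ (g⁻¹ * τ) = ρ.ρ g := by rw [h, mul_one]
    rw [← map_mul, mul_inv_cancel_left] at h'
    exact h'
  rw [← e1, ← e2]
  exact h ℓ hℓ hℓS B hB τ hτ

/-- The characteristic polynomial of the identity of a plane. -/
theorem charpoly_one_of_finrank_two294 {k : Type*} [Field k] {V : Type*} [AddCommGroup V]
    [Module k V] [Module.Finite k V] (hV : Module.finrank k V = 2) :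
    LinearMap.charpoly (1 : Module.End k V) = (X - C 1) ^ 2 := by
  classical
  let b : Module.Basis (Fin 2) k V := Module.finBasisOfFinrankEq k V hV
  rw [← LinearMap.charpoly_toMatrix (1 : Module.End k V) b, LinearMap.toMatrix_one,
    Matrix.charpoly_one, Fintype.card_fin, map_one]

/-- If the characteristic polynomial of an endomorphism of a plane is `(X - 1)²` after a field
extension, the endomorphism is unipotent. -/
theorem unipotent_of_charpoly_map294 {k k' : Type*} [Field k] [Field k'] (ι : k →+* k')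
    {V : Type*} [AddCommGroup V] [Module k V] [Module.Finite k V]
    (f : Module.End k V) (hf : (LinearMap.charpoly f).map ι = (X - C 1) ^ 2) (x : V) :
    (f - 1) ((f - 1) x) = 0 := by
  have h1 : LinearMap.charpoly f = (X - C 1) ^ 2 := by
    apply Polynomial.map_injective ι ι.injective
    rw [hf]
    simp
  have h2 := LinearMap.aeval_self_charpoly f
  rw [h1, map_pow, map_sub, Polynomial.aeval_X, Polynomial.aeval_C, map_one, pow_two] at h2
  have h3 := LinearMap.congr_fun h2 x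
  rwa [Module.End.mul_apply, LinearMap.zero_apply] at h3

/-- **ResUnram, core form.** -/
theorem resUnram_core294 (hcheb : Fermat.Agent.Lib.Cheb.Spec.ChebotarevStatement)
    (p : ℕ) [Fact p.Prime]
    (ρE : ResidualGaloisRep (ZMod p)) (hirr : ρE.IsIrreducible)
    (W : WeierstrassCurve ℤ) (hΔ : W.Δ ≠ 0)
    (hfrobE : ∀ ℓ : ℕ, ℓ.Prime → ℓ ≠ p → W.IsGoodPrimeFor ℓ →
      ∀ B : ValuationSubring (AlgebraicClosure ℚ), B.LiesOverPrime ℓ →
        ∀ τ : GQ294, B.IsFrobeniusAt τ ℓ →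
          LinearMap.charpoly (ρE.ρ τ)
            = X ^ 2 - C (((W.apOfModel ℓ : ℤ) : ZMod p)) * X + C ((ℓ : ZMod p)))
    (M : ℕ) (hM : M ≠ 0) (hres : W.IsResiduallyModularOfLevel p M)
    (hS29 : ∀ f : CuspForm (CongruenceSubgroup.Gamma0 M) 2, f.IsNormalizedEigenform →
      ∀ (k : Type) [Field k] [CharP k p] (φ : integralClosure ℤ ℂ →+* k),
        ∃ ρ : ResidualGaloisRep k, ρ.IsAttachedTo f φ ∧
          ∀ ℓ : ℕ, ℓ.Prime → ¬ ℓ ∣ M * p → ρ.IsUnramifiedAt ℓ)
    (q : ℕ) (hq : q.Prime) (hqp : q ≠ p) (hqM : ¬ q ∣ M) :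
    ρE.IsUnramifiedAt q := by
  classical
  have hp : p.Prime := Fact.out
  obtain ⟨f, 𝔪, hf, h𝔪, hp𝔪, hcong⟩ := hres
  let _ : Field (integralClosure ℤ ℂ ⧸ 𝔪) := Ideal.Quotient.field 𝔪
  set φ : integralClosure ℤ ℂ →+* (integralClosure ℤ ℂ ⧸ 𝔪) := Ideal.Quotient.mk 𝔪 with hφ
  have hp0 : ((p : ℕ) : integralClosure ℤ ℂ ⧸ 𝔪) = 0 := by
    have : φ (p : integralClosure ℤ ℂ) = 0 := Ideal.Quotient.eq_zero_iff_mem.mpr hp𝔪
    rwa [map_natCast] at this
  have : CharP (integralClosure ℤ ℂ ⧸ 𝔪) p := (CharP.charP_iff_prime_eq_zero hp).mpr hp0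
  obtain ⟨ρf, hatt, hunr⟩ := hS29 f hf (integralClosure ℤ ℂ ⧸ 𝔪) φ
  set ι : ZMod p →+* (integralClosure ℤ ℂ ⧸ 𝔪) := ZMod.castHom (dvd_refl p) _ with hι
  -- the finite set of bad primes
  set S : Finset ℕ := (M * p * W.Δ.natAbs).primeFactors with hS
  have hprod : M * p * W.Δ.natAbs ≠ 0 :=
    mul_ne_zero (mul_ne_zero hM hp.ne_zero) (Int.natAbs_ne_zero.mpr hΔ)
  have hgoodS : ∀ ℓ : ℕ, ℓ.Prime → ℓ ∉ S → ¬ ℓ ∣ M ∧ ℓ ≠ p ∧ W.IsGoodPrimeFor ℓ := by
    intro ℓ hℓ hℓS
    have hnd : ¬ ℓ ∣ M * p * W.Δ.natAbs := fun hd =>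
      hℓS (Nat.mem_primeFactors.mpr ⟨hℓ, hd, hprod⟩)
    refine ⟨fun hd => hnd ((hd.mul_right p).mul_right _), ?_, ?_⟩
    · rintro rfl
      exact hnd ((dvd_mul_left ℓ M).mul_right _)
    · intro hd
      exact hnd (dvd_mul_of_dvd_right (Int.natCast_dvd.mp hd) _)
  -- Frobenius characteristic polynomials agree
  have hfrob : ∀ ℓ : ℕ, ℓ.Prime → ℓ ∉ S →
      ∀ B : ValuationSubring (AlgebraicClosure ℚ), B.LiesOverPrime ℓ →
        ∀ σ : GQ294, B.IsFrobeniusAt σ ℓ →
          LinearMap.charpoly (ρf.ρ σ) = (LinearMap.charpoly (ρE.ρ σ)).map ι := by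
    intro ℓ hℓ hℓS B hB σ hσ
    obtain ⟨hℓM, hℓp, hgood⟩ := hgoodS ℓ hℓ hℓS
    have hℓ0 : ((ℓ : ℕ) : integralClosure ℤ ℂ ⧸ 𝔪) ≠ 0 := by
      intro h0
      have hd : p ∣ ℓ := (CharP.cast_eq_zero_iff (integralClosure ℤ ℂ ⧸ 𝔪) p ℓ).mp h0
      exact hℓp ((Nat.prime_dvd_prime_iff_eq hp hℓ).mp hd).symm
    obtain ⟨a, ha, hcp⟩ := hatt ℓ hℓ hℓM hℓ0 B hB σ hσ
    obtain ⟨a', ha', hmem⟩ := hcong ℓ hℓ hgood hℓM hℓp
    have haa : a = a' := Subtype.ext (ha.trans ha'.symm)
    have hφa : φ a = ((W.apOfModel ℓ : ℤ) : integralClosure ℤ ℂ ⧸ 𝔪) := by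
      rw [haa]
      have := Ideal.Quotient.eq.mpr hmem
      rw [← hφ] at this
      rw [this, map_intCast]
    rw [hcp, hfrobE ℓ hℓ hℓp hgood B hB σ hσ, hφa]
    simp only [Polynomial.map_add, Polynomial.map_sub, Polynomial.map_mul, Polynomial.map_pow,
      Polynomial.map_X, map_intCast, map_natCast, Polynomial.map_intCast,
      Polynomial.map_natCast]
  have hall := charpoly_eq_of_frob294 hcheb ι ρE ρf S hfrob
  -- the kernel of `ρ_f` acts unipotently on `ρ_E`
  have hunip : ∀ h ∈ ρf.ρ.ker, ∀ x, (ρE.ρ h - 1) ((ρE.ρ h - 1) x) = 0 := by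
    intro h hh x
    rw [MonoidHom.mem_ker] at hh
    refine unipotent_of_charpoly_map294 ι (ρE.ρ h) ?_ x
    rw [← hall h, hh, charpoly_one_of_finrank_two294 ρf.finrank_eq]
  have htriv := eq_one_of_unipotent_normal294 ρE.finrank_eq ρE.ρ
    (fun W' hW' => hirr W' (fun σ x hx => hW' σ x hx)) ρf.ρ.ker hunip
  -- inertia at `q` lies in the kernel of `ρ_f`
  intro A hA σ hσ
  apply htriv
  rw [MonoidHom.mem_ker]
  refine hunr q hq ?_ A hA σ hσ
  intro hd
  rcases (Nat.Prime.dvd_mul hq).mp hd with h | h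
  · exact hqM h
  · exact hqp ((Nat.prime_dvd_prime_iff_eq hq hp).mp h)

end Fermat.Agent.S59.H294

end
-- ===== PACK-END S59/H294/ResUnramCore.lean

-- ===== PACK-BEGIN S59/H294/ResFlatIrr.lean
section




/-!
# Row S59, cell LO, leaf ResFlat — absolute irreducibility after base change (helper294)

`absIrr_baseChangeAlong294`: an irreducible residual representation over `k` (`2 ≠ 0`) with an
involution of determinant `-1` stays absolutely irreducible after every base change `k → k'`.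
-/

set_option autoImplicit false

open scoped TensorProduct

namespace Fermat.Agent.S59.H294

/-- Irreducible + odd ⇒ every base change is absolutely irreducible. -/
theorem absIrr_baseChangeAlong294 {k k' : Type} [Field k] [Field k'] (ι : k →+* k')
    (h2 : (2 : k) ≠ 0) (ρ : ResidualGaloisRep k) (hirr : ρ.IsIrreducible)
    (c : AlgebraicClosure ℚ ≃ₐ[ℚ] AlgebraicClosure ℚ) (hc : c * c = 1)
    (hdet : LinearMap.det (ρ.ρ c) = -1) :
    (ρ.baseChangeAlong ι).IsAbsolutelyIrreducible := by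
  letI : Algebra k k' := ι.toAlgebra
  have h2' : (2 : k') ≠ 0 := by
    intro h
    apply h2
    apply ι.injective
    rw [map_ofNat, h, map_zero]
  have hirr' : (ρ.baseChange k').IsIrreducible := fun L hL =>
    Fermat.Agent.S58.H273.eq_bot_or_eq_top_of_involution h2 ρ.finrank_eq ρ.ρ hirr c hc hdet
      k' L hL
  have hdet' : LinearMap.det ((ρ.baseChange k').ρ c) = -1 := by
    have h1 : (ρ.baseChange k').ρ c = (ρ.ρ c).baseChange k' := rfl
    rw [h1, LinearMap.det_baseChange, hdet, map_neg, map_one]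
  exact Fermat.Agent.S58.H273.absIrr_of_irr_of_involution h2' (ρ.baseChange k') hirr' c hc hdet'

end Fermat.Agent.S59.H294

end
-- ===== PACK-END S59/H294/ResFlatIrr.lean

-- ===== PACK-BEGIN S59/H314/TwCmp.lean
section


set_option autoImplicit false

namespace Fermat.Agent.S59.H314

open Polynomial Finset

section AnyExp

variable {O N ι : Type*} [CommRing O] [AddCommGroup N] [Module O N]

/-- `twAlg_basis_range` for an arbitrary exponent `m` (the case `m = 0` is trivial). -/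
theorem twAlg_basis_range' [Finite ι] (p : ℕ) (hp : p.Prime) (hp2 : p ≠ 2)
    (hpO : (p : O) ∈ Ideal.jacobson (⊥ : Ideal O))
    (hpnzd : ∀ c : O, (p : O) * c = 0 → c = 0)
    (m a : ℕ) (δ U : Module.End O N) (hδU : Commute δ U)
    (hδ : δ ^ (p ^ m) = 1) (hU : U ^ (p ^ a) = 1)
    (e : ι → N) (B : Module.Basis (Fin (p ^ m) × ι) O N)
    (hB : ∀ z, B z = (δ ^ (z.1 : ℕ)) (e z.2))
    (T : LinearMap.range (U - 1) ≤ LinearMap.range (δ - 1))
    (R : ∀ x : N, U x = x → (∑ k ∈ range p, δ ^ k) x = 0 → x = 0) :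
    LinearMap.range (U - 1) = LinearMap.range (δ - 1) := by
  rcases Nat.eq_zero_or_pos m with hm | hm
  · subst hm
    rw [pow_zero, pow_one] at hδ
    apply le_antisymm T
    rw [hδ, sub_self, LinearMap.range_zero]
    exact bot_le
  · obtain ⟨n, rfl⟩ : ∃ n, m = n + 1 := ⟨m - 1, by omega⟩
    exact twAlg_basis_range p hp hp2 hpO hpnzd n a δ U hδU hδ hU e B hB T R

end AnyExp

section Core

/-- **CMPA, core** (Mathlib only; the hypotheses `hX`, `hb` are those of `TW.AlgStatement`):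
(T) + (R) give the range equality for the prime `j`. -/
theorem twCmp_core (p : ℕ) (hp : p.Prime) (hp2 : p ≠ 2) (𝒪 : Type*) [CommRing 𝒪]
    (hpJ : (p : 𝒪) ∈ Ideal.jacobson (⊥ : Ideal 𝒪)) (hpnzd : ∀ c : 𝒪, (p : 𝒪) * c = 0 → c = 0)
    (T : Type*) [CommRing T] [Algebra 𝒪 T] (V : Type*) [AddCommGroup V] [Module T V]
    (r : ℕ) (G : Fin r → Type*) [∀ j, CommGroup (G j)] (m : Fin r → ℕ)
    (dia : (∀ j : Fin r, G j) →* Module.End T V) (g : ∀ j : Fin r, G j)
    (hX : ∀ j, dia (Pi.mulSingle j (g j)) ^ (p ^ m j) = 1)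
    (d : ℕ) (b : Fin d → V)
    (hb : ∀ y : V, ∃! c : Fin d → (∀ j : Fin r, Fin (p ^ m j)) → 𝒪,
      y = ∑ i, ∑ e, algebraMap 𝒪 T (c i e) • dia (fun j => g j ^ (e j : ℕ)) (b i))
    (j : Fin r) (w : T) (a : ℕ) (hw : w ^ (p ^ a) = 1)
    (hT : ∀ y : V, ∃ y' : V, w • y - y = dia (Pi.mulSingle j (g j)) y' - y')
    (hR : ∀ y : V, w • y = y →
      (∑ k ∈ Finset.range p, dia (Pi.mulSingle j (g j)) ^ k) y = 0 → y = 0) :
    ∀ y : V, (∃ y' : V, y = w • y' - y') ↔ ∃ y' : V, y = dia (Pi.mulSingle j (g j)) y' - y' := by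
  classical
  let _inst : Module 𝒪 V := Module.compHom V (algebraMap 𝒪 T)
  have hsm : ∀ (c : 𝒪) (v : V), c • v = algebraMap 𝒪 T c • v := fun _ _ => rfl
  have _tower : IsScalarTower 𝒪 T V := ⟨fun c t v => by
    show (c • t) • v = algebraMap 𝒪 T c • (t • v)
    rw [Algebra.smul_def, mul_smul]⟩
  obtain ⟨δT, hδT⟩ : ∃ δT : Module.End T V, δT = dia (Pi.mulSingle j (g j)) := ⟨_, rfl⟩
  rw [← hδT] at hT hR ⊢
  have hXj : δT ^ (p ^ m j) = 1 := by rw [hδT]; exact hX j
  obtain ⟨δ, hδ⟩ : ∃ δ : Module.End 𝒪 V, ∀ y, δ y = δT y := ⟨δT.restrictScalars 𝒪, fun _ => rfl⟩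
  obtain ⟨U, hU⟩ : ∃ U : Module.End 𝒪 V, ∀ y, U y = w • y :=
    ⟨Algebra.lsmul 𝒪 𝒪 V w, fun _ => rfl⟩
  have hδpow : ∀ (k : ℕ) (y : V), (δ ^ k) y = (δT ^ k) y := by
    intro k
    induction k with
    | zero => intro y; simp
    | succ k ih => intro y; rw [pow_succ, pow_succ, Module.End.mul_apply, Module.End.mul_apply, hδ, ih]
  have hUpow : ∀ (k : ℕ) (y : V), (U ^ k) y = (w ^ k) • y := by
    intro k
    induction k with
    | zero => intro y; simp
    | succ k ih => intro y; rw [pow_succ, pow_succ, Module.End.mul_apply, hU, ih, mul_smul]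
  have hδ1 : δ ^ (p ^ m j) = 1 := by
    ext y
    rw [hδpow, hXj]
    rfl
  have hU1 : U ^ (p ^ a) = 1 := by
    ext y
    rw [hUpow, hw, one_smul, Module.End.one_apply]
  have hcomm : Commute δ U := by
    ext y
    rw [Module.End.mul_apply, Module.End.mul_apply, hU, hU, hδ, hδ, map_smul]
  -- the basis
  obtain ⟨v, hv⟩ : ∃ v : Fin d × (∀ j : Fin r, Fin (p ^ m j)) → V,
      ∀ z, v z = dia (fun j => g j ^ (z.2 j : ℕ)) (b z.1) := ⟨_, fun _ => rfl⟩
  have hsum : ∀ c : Fin d → (∀ j : Fin r, Fin (p ^ m j)) → 𝒪,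
      (∑ i, ∑ e, algebraMap 𝒪 T (c i e) • dia (fun j => g j ^ (e j : ℕ)) (b i)) =
        ∑ z : Fin d × (∀ j : Fin r, Fin (p ^ m j)), c z.1 z.2 • v z := by
    intro c
    rw [Fintype.sum_prod_type]
    apply Finset.sum_congr rfl
    intro i _
    apply Finset.sum_congr rfl
    intro e _
    rw [hv, hsm]
  have hli : LinearIndependent 𝒪 v := by
    rw [Fintype.linearIndependent_iff]
    intro c hc z
    have h1 : (0 : V) = ∑ i, ∑ e, algebraMap 𝒪 T ((fun i e => c (i, e)) i e) •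
        dia (fun j => g j ^ (e j : ℕ)) (b i) := by
      rw [hsum (fun i e => c (i, e))]
      exact hc.symm
    have h2 : (0 : V) = ∑ i : Fin d, ∑ e : (∀ j : Fin r, Fin (p ^ m j)),
        algebraMap 𝒪 T ((fun (_ : Fin d) (_ : ∀ j : Fin r, Fin (p ^ m j)) => (0 : 𝒪)) i e) •
        dia (fun j => g j ^ (e j : ℕ)) (b i) := by
      simp
    have := (hb 0).unique h1 h2
    exact congrFun (congrFun this z.1) z.2
  have hsp : ⊤ ≤ Submodule.span 𝒪 (Set.range v) := by
    intro y _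
    obtain ⟨c, hc, -⟩ := hb y
    rw [hc, hsum]
    apply Submodule.sum_mem
    intro z _
    exact Submodule.smul_mem _ _ (Submodule.subset_span ⟨z, rfl⟩)
  obtain ⟨B₀, hB₀⟩ : ∃ B₀ : Module.Basis (Fin d × (∀ j : Fin r, Fin (p ^ m j))) 𝒪 V,
      ∀ z, B₀ z = v z := ⟨Module.Basis.mk hli hsp, fun z => by rw [Module.Basis.mk_apply]⟩
  -- regrouping of the index set
  obtain ⟨eqv, heqv⟩ : ∃ eqv : (Fin d × (∀ j : Fin r, Fin (p ^ m j))) ≃
      Fin (p ^ m j) × (Fin d × (∀ j' : {j' : Fin r // j' ≠ j}, Fin (p ^ m j'))),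
      ∀ u, eqv.symm u =
        (u.2.1, (Equiv.piSplitAt j (fun j => Fin (p ^ m j))).symm (u.1, u.2.2)) :=
    ⟨(Equiv.prodCongr (Equiv.refl (Fin d)) (Equiv.piSplitAt j (fun j => Fin (p ^ m j)))).trans
      ((Equiv.prodAssoc _ _ _).symm.trans
        ((Equiv.prodCongr (Equiv.prodComm _ _) (Equiv.refl _)).trans (Equiv.prodAssoc _ _ _))),
      fun u => rfl⟩
  obtain ⟨eι, heι⟩ : ∃ eι : (Fin d × (∀ j' : {j' : Fin r // j' ≠ j}, Fin (p ^ m j'))) → V,
      ∀ u, eι u = dia (fun j' => if h : j' = j then 1 else g j' ^ (u.2 ⟨j', h⟩ : ℕ)) (b u.1) :=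
    ⟨_, fun _ => rfl⟩
  have hB : ∀ z, (B₀.reindex eqv) z = (δ ^ (z.1 : ℕ)) (eι z.2) := by
    intro z
    rw [Module.Basis.reindex_apply, hB₀, hv, heqv, hδpow, heι, hδT]
    rw [← map_pow, ← Module.End.mul_apply, ← map_mul]
    congr 2
    funext j'
    by_cases h : j' = j
    · subst h
      simp [Equiv.piSplitAt_symm_apply]
    · simp [Equiv.piSplitAt_symm_apply, h]
  have hTr : LinearMap.range (U - 1) ≤ LinearMap.range (δ - 1) := by
    rintro _ ⟨y, rfl⟩
    obtain ⟨y', hy'⟩ := hT y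
    refine ⟨y', ?_⟩
    rw [LinearMap.sub_apply, LinearMap.sub_apply, Module.End.one_apply, Module.End.one_apply,
      hU, hδ, hy']
  have hRr : ∀ x : V, U x = x → (∑ k ∈ range p, δ ^ k) x = 0 → x = 0 := by
    intro x hx1 hx2
    apply hR x
    · rw [← hU, hx1]
    · rw [LinearMap.sum_apply] at hx2 ⊢
      rw [← hx2]
      apply Finset.sum_congr rfl
      intro k _
      rw [hδpow]
  have hmain := twAlg_basis_range' p hp hp2 hpJ hpnzd (m j) a δ U hcomm hδ1 hU1 eι
    (B₀.reindex eqv) hB hTr hRr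
  intro y
  constructor
  · rintro ⟨y', rfl⟩
    have : (U - 1) y' ∈ LinearMap.range (δ - 1) := by rw [← hmain]; exact ⟨y', rfl⟩
    obtain ⟨y'', hy''⟩ := this
    refine ⟨y'', ?_⟩
    rw [← hU, ← hδ]
    exact hy''.symm
  · rintro ⟨y', rfl⟩
    have : (δ - 1) y' ∈ LinearMap.range (U - 1) := by rw [hmain]; exact ⟨y', rfl⟩
    obtain ⟨y'', hy''⟩ := this
    refine ⟨y'', ?_⟩
    rw [← hU, ← hδ]
    exact hy''.symm

end Core

end Fermat.Agent.S59.H314

end
-- ===== PACK-END S59/H314/TwCmp.lean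

-- ===== PACK-BEGIN S48/H548/Invariance.lean
section


/-!
# S48 / P0 (helper548): `T_p` on `Γ₁(N)`-invariant functions

For a `Γ₁(N)`-invariant function `f` (weight `k`) and a prime `p ∤ N`, with `f' = ⟨p⟩ f`
(`= f ∣ σ` for any `σ ∈ Γ₀(N)` with lower right entry `≡ p mod N`), the function
`T_p f = U_p f + f' ∣ diag(p, 1)` is again `Γ₁(N)`-invariant.
-/

set_option autoImplicit false

noncomputable section

namespace Fermat.Agent.S48.H548

open Matrix.SpecialLinearGroup UpperHalfPlane ModularForm CongruenceSubgroup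
open scoped MatrixGroups ModularForm OnePoint

/-- `Γ₁(N)`-invariance of weight `k`, at the level of functions. -/
def Inv1 (N : ℕ) (k : ℤ) (f : ℍ → ℂ) : Prop :=
  ∀ γ ∈ Gamma1 N, f ∣[k] mapGL ℝ γ = f

variable {N : ℕ} {k : ℤ} {f : ℍ → ℂ}

theorem slash_mapGL_mul (k : ℤ) (f : ℍ → ℂ) (a b : SL(2, ℤ)) :
    f ∣[k] mapGL ℝ (a * b) = (f ∣[k] mapGL ℝ a) ∣[k] mapGL ℝ b := by
  rw [map_mul, SlashAction.slash_mul]

/-- The slash by `σ ∈ Γ₀(N)` of a `Γ₁(N)`-invariant function only depends on the lower right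
entry of `σ` modulo `N`. -/
theorem Inv1.slash_eq_of_lower_eq (hf : Inv1 N k f) (a b : SL(2, ℤ)) (ha : a ∈ Gamma0 N)
    (hb : b ∈ Gamma0 N) (h : ((a 1 1 : ℤ) : ZMod N) = ((b 1 1 : ℤ) : ZMod N)) :
    f ∣[k] mapGL ℝ a = f ∣[k] mapGL ℝ b := by
  have h1 : a = (a * b⁻¹) * b := by group
  conv_lhs => rw [h1]
  rw [slash_mapGL_mul, hf _ (mul_inv_mem_Gamma1 a b ha hb h)]

/-- The slash by `σ ∈ Γ₀(N)` of a `Γ₁(N)`-invariant function is `Γ₁(N)`-invariant. -/
theorem Inv1.slash (hf : Inv1 N k f) (a : SL(2, ℤ)) (ha : a ∈ Gamma0 N) :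
    Inv1 N k (f ∣[k] mapGL ℝ a) := by
  intro γ hγ
  rw [← slash_mapGL_mul]
  refine hf.slash_eq_of_lower_eq _ _ ((Gamma0 N).mul_mem ha (Gamma1_le_Gamma0' N hγ)) ha ?_
  rw [lower_right_mul a γ ha, ((Gamma1_mem N γ).mp hγ).2.1, mul_one]

theorem Inv1.add {g : ℍ → ℂ} (hf : Inv1 N k f) (hg : Inv1 N k g) : Inv1 N k (f + g) := by
  intro γ hγ
  rw [SlashAction.add_slash, hf γ hγ, hg γ hγ]

theorem smul_slash_mapGL (k : ℤ) (c : ℂ) (f : ℍ → ℂ) (a : SL(2, ℤ)) :
    (c • f) ∣[k] mapGL ℝ a = c • (f ∣[k] mapGL ℝ a) := by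
  have := ModularForm.SL_smul_slash k a f c
  rwa [ModularForm.SL_slash, ModularForm.SL_slash] at this

theorem Inv1.smul (c : ℂ) (hf : Inv1 N k f) : Inv1 N k (c • f) := by
  intro γ hγ
  rw [smul_slash_mapGL, hf γ hγ]

section Tp

variable {p : ℕ} [Fact p.Prime]

theorem heckeT1_eq_sum (k : ℤ) (f f' : ℍ → ℂ) :
    heckeU k p f + f' ∣[k] heckeDiagMatrix p =
      ∑ x : OnePoint (ZMod p), (x.elim f' (fun _ ↦ f)) ∣[k] heckeRep p x := by
  have : NeZero p := ⟨(Fact.out : p.Prime).ne_zero⟩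
  rw [heckeU_eq_sum_zmod, add_comm]
  exact (Fintype.sum_option
    (fun x : OnePoint (ZMod p) ↦ (x.elim f' (fun _ ↦ f)) ∣[k] heckeRep p x)).symm

/-- `T_p f = U_p f + (⟨p⟩ f) ∣ diag(p,1)` is `Γ₁(N)`-invariant. -/
theorem Inv1.heckeT1 (hpN : ¬ p ∣ N) (hf : Inv1 N k f) (σ : SL(2, ℤ)) (hσ : σ ∈ Gamma0 N)
    (hσp : ((σ 1 1 : ℤ) : ZMod N) = (p : ZMod N)) :
    Inv1 N k (heckeU k p f + (f ∣[k] mapGL ℝ σ) ∣[k] heckeDiagMatrix p) := by
  intro g hg
  have hpu : IsUnit ((p : ℕ) : ZMod N) :=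
    (ZMod.isUnit_iff_coprime p N).mpr ((Nat.Prime.coprime_iff_not_dvd Fact.out).mpr hpN)
  have hg10 : ((g 1 0 : ℤ) : ZMod N) = 0 := ((Gamma1_mem N g).mp hg).2.2
  have hg11 : ((g 1 1 : ℤ) : ZMod N) = 1 := ((Gamma1_mem N g).mp hg).2.1
  have hgN : (N : ℤ) ∣ g 1 0 := (ZMod.intCast_zmod_eq_zero_iff_dvd _ _).mp hg10
  rw [heckeT1_eq_sum, SlashAction.sum_slash]
  calc ∑ x : OnePoint (ZMod p),
        ((x.elim (f ∣[k] mapGL ℝ σ) (fun _ ↦ f)) ∣[k] heckeRep p x) ∣[k] mapGL ℝ g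
      = ∑ x : OnePoint (ZMod p),
          ((redMatrix p g • x).elim (f ∣[k] mapGL ℝ σ) (fun _ ↦ f))
            ∣[k] heckeRep p (redMatrix p g • x) := by
        refine Finset.sum_congr rfl fun x _ ↦ ?_
        obtain ⟨g', hg'N, hw, hmul⟩ := heckeRep_mul hpN g hgN x
        have hg'0 : g' ∈ Gamma0 N :=
          Gamma0_mem.mpr ((ZMod.intCast_zmod_eq_zero_iff_dvd _ _).mpr hg'N)
        rw [← SlashAction.slash_mul, hmul, SlashAction.slash_mul]
        congr 1
        rw [hg11, one_mul] at hw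
        -- `hw : g' 1 1 * w(x') = w(x)`
        generalize redMatrix p g • x = x' at hw ⊢
        induction x using OnePoint.rec with
        | infty =>
          induction x' using OnePoint.rec with
          | infty =>
            simp only [wt_infty, mul_one] at hw
            simp only [OnePoint.elim_infty]
            rw [← slash_mapGL_mul]
            refine hf.slash_eq_of_lower_eq _ _ ((Gamma0 N).mul_mem hσ hg'0) hσ ?_
            rw [lower_right_mul σ g' hσ, hw, mul_one]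
          | coe j' =>
            simp only [wt_infty, wt_coe] at hw
            simp only [OnePoint.elim_infty, OnePoint.elim_some]
            rw [← slash_mapGL_mul]
            refine hf _ (mem_Gamma1_of_lower _
              (Gamma0_mem.mp ((Gamma0 N).mul_mem hσ hg'0)) ?_)
            rw [lower_right_mul σ g' hσ, hσp, mul_comm, hw]
        | coe j =>
          induction x' using OnePoint.rec with
          | infty =>
            simp only [wt_infty, wt_coe, mul_one] at hw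
            simp only [OnePoint.elim_infty, OnePoint.elim_some]
            exact hf.slash_eq_of_lower_eq _ _ hg'0 hσ (hw.trans hσp.symm)
          | coe j' =>
            simp only [wt_coe] at hw
            simp only [OnePoint.elim_some]
            refine hf _ (mem_Gamma1_of_lower _ (Gamma0_mem.mp hg'0) ?_)
            exact hpu.mul_left_injective (show _ * _ = _ * _ by rw [hw, one_mul])
    _ = ∑ x : OnePoint (ZMod p),
          (x.elim (f ∣[k] mapGL ℝ σ) (fun _ ↦ f)) ∣[k] heckeRep p x :=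
        Equiv.sum_comp (MulAction.toPerm (redMatrix p g))
          (fun x ↦ (x.elim (f ∣[k] mapGL ℝ σ) (fun _ ↦ f)) ∣[k] heckeRep p x)

end Tp

end Fermat.Agent.S48.H548

end
end
-- ===== PACK-END S48/H548/Invariance.lean

-- ===== PACK-BEGIN S59/G4/H109/PointsStrict.lean
section


/-!
# Row S59, layer G4, piece POINTS — part 2 (helper109)

Joint strictness of a separating family of points.  `𝒪` is a complete DVR of characteristic zero
with fraction field `K` and uniformiser `ϖ`, `T` a finite free `𝒪`-algebra, `E = K ⊗[𝒪] T`, `L j`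
a finite family of finite field extensions of `K` and `Φ : E →ₐ[K] Π j, L j` injective.  Then the
points `T → integralClosure 𝒪 (L j)` are jointly strict:
for every `n` there is `m` such that `χ_j t ∈ 𝔪_j ^ m` for all `j` implies `t ∈ ϖ ^ n T`.
(Port of `S31/H262/Strict.lean` (helper262) from `ℤ_[p]` to a general `𝒪`.)
-/

set_option autoImplicit false
set_option linter.unusedSectionVars false
set_option linter.style.haveILetI false

noncomputable section

namespace Fermat.Agent.S59.G4.H109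

open scoped TensorProduct
open IsLocalRing

section Lattice

variable (𝒪 : Type) [CommRing 𝒪] [IsDomain 𝒪] [IsDiscreteValuationRing 𝒪]
variable (K : Type) [Field K] [Algebra 𝒪 K] [IsFractionRing 𝒪 K]
variable (T : Type) [CommRing T] [Algebra 𝒪 T]

/-- The `𝒪`-lattice in `E = K ⊗[𝒪] T` spanned by the pure tensors `1 ⊗ t`. -/
def latO : Submodule 𝒪 (K ⊗[𝒪] T) :=
  Submodule.span 𝒪 (Set.range fun t : T => (1 : K) ⊗ₜ[𝒪] t)

theorem one_tmul_mem_latO (t : T) : (1 : K) ⊗ₜ[𝒪] t ∈ latO 𝒪 K T :=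
  Submodule.subset_span ⟨t, rfl⟩

theorem algebraMap_tmul_mem_latO (a : 𝒪) (t : T) :
    (algebraMap 𝒪 K a) ⊗ₜ[𝒪] t ∈ latO 𝒪 K T := by
  have h : (algebraMap 𝒪 K a) ⊗ₜ[𝒪] t = a • ((1 : K) ⊗ₜ[𝒪] t) := by
    rw [TensorProduct.smul_tmul', Algebra.smul_def, mul_one]
  rw [h]
  exact (latO 𝒪 K T).smul_mem a (one_tmul_mem_latO 𝒪 K T t)

variable {𝒪} in
/-- Every element of `K` becomes integral after multiplication by a power of `ϖ`. -/
theorem exists_pow_mul_mem_O {ϖ : 𝒪} (hϖ : Irreducible ϖ) (x : K) :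
    ∃ (c : ℕ) (a : 𝒪), algebraMap 𝒪 K ϖ ^ c * x = algebraMap 𝒪 K a := by
  obtain ⟨a, s, hs, rfl⟩ := IsFractionRing.div_surjective (A := 𝒪) x
  have hs0 : s ≠ 0 := nonZeroDivisors.ne_zero hs
  obtain ⟨c, u, hu⟩ := IsDiscreteValuationRing.eq_unit_mul_pow_irreducible hs0 hϖ
  refine ⟨c, a * ((u⁻¹ : 𝒪ˣ) : 𝒪), ?_⟩
  have hsK : algebraMap 𝒪 K s ≠ 0 := by
    intro h
    exact hs0 (IsFractionRing.injective 𝒪 K (by rw [h, map_zero]))
  rw [← mul_div_assoc, div_eq_iff hsK, ← map_pow, ← map_mul, ← map_mul]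
  congr 1
  rw [hu]
  have hu1 : ((u⁻¹ : 𝒪ˣ) : 𝒪) * (u : 𝒪) = 1 := Units.inv_mul u
  calc ϖ ^ c * a = a * (((u⁻¹ : 𝒪ˣ) : 𝒪) * (u : 𝒪)) * ϖ ^ c := by rw [hu1]; ring
    _ = a * ((u⁻¹ : 𝒪ˣ) : 𝒪) * ((u : 𝒪) * ϖ ^ c) := by ring

variable {𝒪} in
/-- Every element of `E` lies in the lattice after multiplication by a power of `ϖ`. -/
theorem exists_pow_smul_mem_latO {ϖ : 𝒪} (hϖ : Irreducible ϖ) (e : K ⊗[𝒪] T) :
    ∃ c : ℕ, ∀ c' : ℕ, c ≤ c' → (algebraMap 𝒪 K ϖ ^ c') • e ∈ latO 𝒪 K T := by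
  induction e using TensorProduct.induction_on with
  | zero => exact ⟨0, fun c' _ => by rw [smul_zero]; exact (latO 𝒪 K T).zero_mem⟩
  | tmul x b =>
    obtain ⟨c, a, hca⟩ := exists_pow_mul_mem_O K hϖ x
    refine ⟨c, fun c' hc' => ?_⟩
    obtain ⟨d, rfl⟩ := Nat.exists_eq_add_of_le hc'
    have h : (algebraMap 𝒪 K ϖ ^ (c + d)) • (x ⊗ₜ[𝒪] b) =
        (algebraMap 𝒪 K (ϖ ^ d * a)) ⊗ₜ[𝒪] b := by
      rw [TensorProduct.smul_tmul', smul_eq_mul, pow_add, mul_comm (algebraMap 𝒪 K ϖ ^ c),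
        mul_assoc, hca, map_mul, map_pow]
    rw [h]
    exact algebraMap_tmul_mem_latO 𝒪 K T _ b
  | add x y hx hy =>
    obtain ⟨c1, h1⟩ := hx
    obtain ⟨c2, h2⟩ := hy
    refine ⟨max c1 c2, fun c' hc' => ?_⟩
    rw [smul_add]
    exact (latO 𝒪 K T).add_mem (h1 c' (le_trans (le_max_left _ _) hc'))
      (h2 c' (le_trans (le_max_right _ _) hc'))

end Lattice

section Coordinates

variable (𝒪 : Type) [CommRing 𝒪] [IsDomain 𝒪] [IsDiscreteValuationRing 𝒪]
variable (K : Type) [Field K] [Algebra 𝒪 K] [IsFractionRing 𝒪 K]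
variable (T : Type) [CommRing T] [Algebra 𝒪 T] [Module.Finite 𝒪 T] [Module.Free 𝒪 T]

/-- Coordinates lemma: if `ϖ⁻ⁿ • (1 ⊗ t)` lies in the lattice, then `t ∈ ϖⁿ T`. -/
theorem mem_span_of_inv_smul_mem_latO (ϖ : 𝒪) (hϖ : ϖ ≠ 0) (n : ℕ) (t : T)
    (h : ((algebraMap 𝒪 K ϖ ^ n)⁻¹) • ((1 : K) ⊗ₜ[𝒪] t) ∈ latO 𝒪 K T) :
    t ∈ Ideal.span {algebraMap 𝒪 T ϖ ^ n} := by
  classical
  set b := Module.Free.chooseBasis 𝒪 T with hb
  set bE := Algebra.TensorProduct.basis K b with hbE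
  -- the lattice is contained in the `𝒪`-span of the basis
  have hle : latO 𝒪 K T ≤ Submodule.span 𝒪 (Set.range bE) := by
    unfold latO
    rw [Submodule.span_le]
    rintro _ ⟨x, rfl⟩
    rw [SetLike.mem_coe, Module.Basis.mem_span_iff_repr_mem]
    intro i
    refine ⟨b.repr x i, ?_⟩
    rw [hbE, Algebra.TensorProduct.basis_repr_tmul]
    simp
  have h' := hle h
  rw [Module.Basis.mem_span_iff_repr_mem] at h'
  have hϖK : algebraMap 𝒪 K ϖ ^ n ≠ 0 := by
    apply pow_ne_zero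
    intro h0
    exact hϖ (IsFractionRing.injective 𝒪 K (by rw [h0, map_zero]))
  -- each coordinate of `t` is divisible by `ϖ ^ n`
  have hdvd : ∀ i, (ϖ ^ n) ∣ b.repr t i := by
    intro i
    obtain ⟨a, ha⟩ := h' i
    rw [hbE, map_smul, Algebra.TensorProduct.basis_repr_tmul] at ha
    simp only [one_smul, Finsupp.smul_apply, Finsupp.mapRange_apply, smul_eq_mul] at ha
    have hval : algebraMap 𝒪 K (b.repr t i) = algebraMap 𝒪 K (ϖ ^ n * a) := by
      rw [map_mul, map_pow, ha]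
      field_simp
    exact ⟨a, IsFractionRing.injective 𝒪 K hval⟩
  rw [Ideal.mem_span_singleton, ← b.sum_repr t]
  refine Finset.dvd_sum fun i _ => ?_
  obtain ⟨k, hk⟩ := hdvd i
  rw [hk, mul_smul]
  refine Dvd.intro (k • b i) ?_
  rw [← map_pow, ← Algebra.smul_def]

end Coordinates

section Strict

variable (𝒪 : Type) [CommRing 𝒪] [IsDomain 𝒪] [IsDiscreteValuationRing 𝒪]
  [IsAdicComplete (maximalIdeal 𝒪) 𝒪] [CharZero 𝒪]
variable (K : Type) [Field K] [Algebra 𝒪 K] [IsFractionRing 𝒪 K]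
variable (T : Type) [CommRing T] [Algebra 𝒪 T] [Module.Finite 𝒪 T] [Module.Free 𝒪 T]
variable {ι : Type} [Finite ι] (L : ι → Type) [∀ j, Field (L j)] [∀ j, Algebra K (L j)]
  [∀ j, Algebra 𝒪 (L j)] [∀ j, IsScalarTower 𝒪 K (L j)]
  [∀ j, FiniteDimensional K (L j)]
variable (Φ : (K ⊗[𝒪] T) →ₐ[K] (∀ j, L j))

/-- The `j`-th point, with values in the field `L j`. -/
def ptL (j : ι) : T →+* L j :=
  (Pi.evalRingHom L j).comp
    ((Φ : (K ⊗[𝒪] T) →+* (∀ j, L j)).comp
      (Algebra.TensorProduct.includeRight : T →ₐ[𝒪] K ⊗[𝒪] T).toRingHom)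

theorem ptL_apply (j : ι) (t : T) : ptL 𝒪 K T L Φ j t = Φ ((1 : K) ⊗ₜ[𝒪] t) j := rfl

theorem ptL_algebraMap (j : ι) (a : 𝒪) :
    ptL 𝒪 K T L Φ j (algebraMap 𝒪 T a) = algebraMap 𝒪 (L j) a := by
  rw [ptL_apply]
  have h1 : (1 : K) ⊗ₜ[𝒪] (algebraMap 𝒪 T a) = algebraMap K (K ⊗[𝒪] T) (algebraMap 𝒪 K a) := by
    rw [Algebra.TensorProduct.algebraMap_apply, Algebra.algebraMap_eq_smul_one a,
      ← TensorProduct.smul_tmul, Algebra.smul_def, mul_one]
    rfl
  rw [h1, AlgHom.commutes, Pi.algebraMap_apply, ← IsScalarTower.algebraMap_apply]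

/-- The `j`-th point as an `𝒪`-algebra homomorphism. -/
def ptLAlg (j : ι) : T →ₐ[𝒪] L j :=
  { ptL 𝒪 K T L Φ j with commutes' := ptL_algebraMap 𝒪 K T L Φ j }

theorem isIntegral_ptL (j : ι) (t : T) : IsIntegral 𝒪 (ptL 𝒪 K T L Φ j t) := by
  have h1 : IsIntegral 𝒪 t := Algebra.IsIntegral.isIntegral (R := 𝒪) t
  exact h1.map (ptLAlg 𝒪 K T L Φ j)

/-- The `j`-th point, with values in the ring of integers of `L j`. -/
def pt (j : ι) : T →+* intRingO 𝒪 (L j) where
  toFun t := ⟨ptL 𝒪 K T L Φ j t, isIntegral_ptL 𝒪 K T L Φ j t⟩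
  map_one' := Subtype.ext (map_one _)
  map_mul' x y := Subtype.ext (map_mul _ x y)
  map_zero' := Subtype.ext (map_zero _)
  map_add' x y := Subtype.ext (map_add _ x y)

theorem coe_pt (j : ι) (t : T) :
    ((pt 𝒪 K T L Φ j t : intRingO 𝒪 (L j)) : L j) = Φ ((1 : K) ⊗ₜ[𝒪] t) j := rfl

theorem pt_algebraMap (j : ι) (a : 𝒪) :
    pt 𝒪 K T L Φ j (algebraMap 𝒪 T a) = algebraMap 𝒪 (intRingO 𝒪 (L j)) a :=
  Subtype.ext (ptL_algebraMap 𝒪 K T L Φ j a)

/-- The `𝒪`-submodule of `E` of elements all of whose components are integral. -/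
def intSub : Submodule 𝒪 (K ⊗[𝒪] T) :=
  Submodule.comap (Φ.toLinearMap.restrictScalars 𝒪)
    (Submodule.pi Set.univ fun j => Subalgebra.toSubmodule (intRingO 𝒪 (L j)))

theorem mem_intSub (e : K ⊗[𝒪] T) :
    e ∈ intSub 𝒪 K T L Φ ↔ ∀ j, IsIntegral 𝒪 (Φ e j) := by
  unfold intSub
  rw [Submodule.mem_comap, Submodule.mem_pi]
  constructor
  · intro h j
    exact h j (Set.mem_univ j)
  · intro h j _
    exact h j

/-- The comparison map from `intSub` to the product of the rings of integers. -/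
def intSubToPi : intSub 𝒪 K T L Φ →ₗ[𝒪] (∀ j, intRingO 𝒪 (L j)) where
  toFun w := fun j => ⟨Φ w.1 j, (mem_intSub 𝒪 K T L Φ w.1).mp w.2 j⟩
  map_add' x y := by
    funext j
    apply Subtype.ext
    simp
  map_smul' a x := by
    funext j
    apply Subtype.ext
    have h : Φ (a • (x : K ⊗[𝒪] T)) = a • Φ (x : K ⊗[𝒪] T) :=
      (Φ.toLinearMap.restrictScalars 𝒪).map_smul a x.1
    simp [h]

variable {𝒪 K T L Φ} in
theorem intSubToPi_injective (hΦ : Function.Injective Φ) :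
    Function.Injective (intSubToPi 𝒪 K T L Φ) := by
  intro x y h
  apply Subtype.ext
  apply hΦ
  funext j
  have := congrArg (fun f : (∀ j, intRingO 𝒪 (L j)) => ((f j : intRingO 𝒪 (L j)) : L j)) h
  exact this

variable {𝒪 K T L Φ} in
theorem intSub_fg (hΦ : Function.Injective Φ) : (intSub 𝒪 K T L Φ).FG := by
  haveI : Fintype ι := Fintype.ofFinite ι
  haveI : ∀ j, Module.Finite 𝒪 (intRingO 𝒪 (L j)) := fun j => intRingO_moduleFinite 𝒪 K (L j)
  haveI : Module.Finite 𝒪 (∀ j, intRingO 𝒪 (L j)) := Module.Finite.pi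
  haveI : IsNoetherian 𝒪 (∀ j, intRingO 𝒪 (L j)) := inferInstance
  haveI : Module.Finite 𝒪 (intSub 𝒪 K T L Φ) :=
    Module.Finite.of_injective (intSubToPi 𝒪 K T L Φ) (intSubToPi_injective hΦ)
  exact (Submodule.fg_top _).mp (Module.finite_def.mp this)

variable {𝒪 K T L Φ} in
/-- A uniform power of `ϖ` maps `intSub` into the lattice. -/
theorem exists_pow_smul_intSub_le (hΦ : Function.Injective Φ) {ϖ : 𝒪} (hϖ : Irreducible ϖ) :
    ∃ c : ℕ, ∀ w ∈ intSub 𝒪 K T L Φ, (algebraMap 𝒪 K ϖ ^ c) • w ∈ latO 𝒪 K T := by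
  classical
  obtain ⟨G, hG⟩ := intSub_fg hΦ
  choose cf hcf using fun e : K ⊗[𝒪] T => exists_pow_smul_mem_latO K T hϖ e
  refine ⟨G.sup cf, fun w hw => ?_⟩
  have hsm : ∀ (c : ℕ) (g : K ⊗[𝒪] T), (ϖ ^ c) • g = (algebraMap 𝒪 K ϖ ^ c) • g := by
    intro c g
    rw [← algebraMap_smul K (ϖ ^ c) g, map_pow]
  -- the set of `e` with `ϖ ^ c • e ∈ lat` is an `𝒪`-submodule containing the generators
  have hsub : intSub 𝒪 K T L Φ ≤
      Submodule.comap (LinearMap.lsmul 𝒪 (K ⊗[𝒪] T) (ϖ ^ G.sup cf)) (latO 𝒪 K T) := by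
    rw [← hG, Submodule.span_le]
    intro g hg
    rw [SetLike.mem_coe, Submodule.mem_comap, LinearMap.lsmul_apply]
    have h1 := hcf g (G.sup cf) (Finset.le_sup (f := cf) hg)
    rw [hsm]
    exact h1
  have h3 := hsub hw
  rw [Submodule.mem_comap, LinearMap.lsmul_apply] at h3
  rw [← hsm]
  exact h3

variable {𝒪 K T L Φ} in
/-- **Joint strictness** of the points `pt j : T → intRingO 𝒪 (L j)`. -/
theorem strict_of_injective [∀ j, IsLocalRing (intRingO 𝒪 (L j))]
    (hΦ : Function.Injective Φ) {ϖ : 𝒪} (hϖ : Irreducible ϖ) (n : ℕ) :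
    ∃ m : ℕ, ∀ t : T,
      (∀ j, pt 𝒪 K T L Φ j t ∈ maximalIdeal (intRingO 𝒪 (L j)) ^ m) →
        t ∈ Ideal.span {algebraMap 𝒪 T ϖ ^ n} := by
  classical
  haveI : Fintype ι := Fintype.ofFinite ι
  obtain ⟨c, hc⟩ := exists_pow_smul_intSub_le hΦ hϖ
  have hex : ∀ j : ι, ∃ m : ℕ, maximalIdeal (intRingO 𝒪 (L j)) ^ m
      ≤ Ideal.span {algebraMap 𝒪 (intRingO 𝒪 (L j)) ϖ ^ (n + c)} := by
    intro j
    have := exists_maximalIdeal_pow_le_span_pow 𝒪 K (L j) ϖ hϖ.ne_zero (n + c)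
    convert this using 4
  choose mf hmf using hex
  refine ⟨Finset.univ.sup mf, fun t ht => ?_⟩
  have hp0 : algebraMap 𝒪 K ϖ ≠ 0 := by
    intro h0
    exact hϖ.ne_zero (IsFractionRing.injective 𝒪 K (by rw [h0, map_zero]))
  apply mem_span_of_inv_smul_mem_latO 𝒪 K T ϖ hϖ.ne_zero n t
  -- the element `e = ϖ^{-(n+c)} • (1 ⊗ t)` has integral components
  have he : ((algebraMap 𝒪 K ϖ ^ (n + c))⁻¹) • ((1 : K) ⊗ₜ[𝒪] t) ∈ intSub 𝒪 K T L Φ := by
    rw [mem_intSub]
    intro j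
    have h1 : pt 𝒪 K T L Φ j t ∈ Ideal.span {algebraMap 𝒪 (intRingO 𝒪 (L j)) ϖ ^ (n + c)} :=
      hmf j (Ideal.pow_le_pow_right (Finset.le_sup (f := mf) (Finset.mem_univ j)) (ht j))
    rw [Ideal.mem_span_singleton] at h1
    obtain ⟨y, hy⟩ := h1
    have hy' : Φ ((1 : K) ⊗ₜ[𝒪] t) j = algebraMap 𝒪 (L j) ϖ ^ (n + c) * (y : L j) := by
      have := congrArg (fun x : intRingO 𝒪 (L j) => (x : L j)) hy
      simpa [coe_pt] using this
    have hpL : algebraMap 𝒪 (L j) ϖ ≠ 0 := by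
      intro h0
      exact hϖ.ne_zero (algebraMap_O_L_injective 𝒪 K (L j) (by rw [h0, map_zero]))
    have hval : Φ (((algebraMap 𝒪 K ϖ ^ (n + c))⁻¹) • ((1 : K) ⊗ₜ[𝒪] t)) j = (y : L j) := by
      rw [map_smul, Pi.smul_apply, hy', Algebra.smul_def, map_inv₀, map_pow,
        ← IsScalarTower.algebraMap_apply]
      field_simp
    rw [hval]
    exact y.2
  have h2 := hc _ he
  have h3 : (algebraMap 𝒪 K ϖ ^ c) • (((algebraMap 𝒪 K ϖ ^ (n + c))⁻¹) • ((1 : K) ⊗ₜ[𝒪] t)) =
      ((algebraMap 𝒪 K ϖ ^ n)⁻¹) • ((1 : K) ⊗ₜ[𝒪] t) := by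
    rw [smul_smul]
    congr 1
    rw [pow_add]
    field_simp
  rw [h3] at h2
  exact h2

end Strict

end Fermat.Agent.S59.G4.H109

end
end
-- ===== PACK-END S59/G4/H109/PointsStrict.lean

-- ===== PACK-BEGIN A3/H619/Descent.lean
section
/-
A3 / piece ORD (helper619): Galois descent for lattices of equivariant functions.

`T` a type with an action `act` of `G_ℚ`; a function `f : T → ℚ̄` is *equivariant* if
`f (σ t) = σ (f t)`.  Equivariant functions which are linearly independent over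
`R = ratLocalizedAt p` are linearly independent over `ℚ̄`.
-/


set_option autoImplicit false

noncomputable section

namespace Fermat.Agent.A3.H619

open GaloisRep

variable {p : ℕ} {T : Type}

/-- Galois-equivariant functions `T → ℚ̄`. -/
def IsEquivFun (act : GQ → T → T) (f : T → Qb) : Prop :=
  ∀ (σ : GQ) (t : T), f (act σ t) = σ (f t)

/-- Clearing denominators: finitely many rationals have a common nonzero multiplier in `R`. -/
theorem exists_common_den {ι : Type*} (s : Finset ι) (q : ι → ℚ) :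
    ∃ d : ratLocalizedAt p, d ≠ 0 ∧ ∀ i ∈ s, ((d : ℚ) * q i) ∈ ratLocalizedAt p := by
  classical
  induction s using Finset.induction_on with
  | empty => exact ⟨1, one_ne_zero, by simp⟩
  | insert a s ha ih =>
    obtain ⟨d, hd0, hd⟩ := ih
    let e : ratLocalizedAt p := ⟨((q a).den : ℚ), natCast_mem_ratLoc p _⟩
    have he0 : e ≠ 0 := by
      intro h
      have : ((q a).den : ℚ) = 0 := congrArg Subtype.val h
      exact (q a).den_ne_zero (by exact_mod_cast this)
    refine ⟨e * d, mul_ne_zero he0 hd0, ?_⟩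
    intro i hi
    rcases Finset.mem_insert.mp hi with rfl | hi
    · have h1 : ((e * d : ratLocalizedAt p) : ℚ) * q i = (d : ℚ) * ((q i).num : ℚ) := by
        show ((q i).den : ℚ) * (d : ℚ) * q i = (d : ℚ) * ((q i).num : ℚ)
        rw [← Rat.den_mul_eq_num]; ring
      rw [h1]
      exact (ratLocalizedAt p).mul_mem d.2 (intCast_mem_ratLoc p _)
    · have h1 : ((e * d : ratLocalizedAt p) : ℚ) * q i = (e : ℚ) * ((d : ℚ) * q i) := by
        show (e : ℚ) * (d : ℚ) * q i = _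
        ring
      rw [h1]
      exact (ratLocalizedAt p).mul_mem e.2 (hd i hi)

section Descent

variable (act : GQ → T → T) (hact1 : ∀ t, act 1 t = t)
  (hactmul : ∀ (σ τ : GQ) (t : T), act (σ * τ) t = act σ (act τ t))

include hact1 hactmul

/-- Applying `σ` to the coefficients of a relation between equivariant functions gives a
relation. -/
theorem relation_conj {ι : Type*} (b : ι → (T → Qb)) (hb : ∀ i, IsEquivFun act (b i))
    (s : Finset ι) (c : ι → Qb) (h : ∑ i ∈ s, c i • b i = 0) (σ : GQ) :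
    ∑ i ∈ s, (σ (c i)) • b i = 0 := by
  funext t
  have ht : act σ (act σ⁻¹ t) = t := by rw [← hactmul, mul_inv_cancel, hact1]
  have h0 := congrFun h (act σ⁻¹ t)
  simp only [Finset.sum_apply, Pi.smul_apply, smul_eq_mul, Pi.zero_apply] at h0 ⊢
  have h1 := congrArg σ h0
  rw [map_sum, map_zero] at h1
  rw [← h1]
  refine Finset.sum_congr rfl fun i _ => ?_
  rw [map_mul, ← hb i σ (act σ⁻¹ t), ht]

/-- **Galois descent.**  Equivariant functions which are `R`-linearly independent are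
`ℚ̄`-linearly independent. -/
theorem linearIndependent_Qb_of_equivariant {ι : Type*} (b : ι → (T → Qb))
    (hb : ∀ i, IsEquivFun act (b i))
    (hind : LinearIndependent (ratLocalizedAt p) b) :
    LinearIndependent Qb b := by
  classical
  rw [linearIndependent_iff']
  -- strong induction on the size of the support
  suffices H : ∀ (n : ℕ) (s : Finset ι) (c : ι → Qb), s.card = n →
      ∑ i ∈ s, c i • b i = 0 → ∀ i ∈ s, c i = 0 from fun s c h => H _ s c rfl h
  intro n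
  induction n using Nat.strong_induction_on with
  | _ n ih =>
    intro s c hn h
    by_contra hne
    push Not at hne
    obtain ⟨i₀, hi₀, hc₀⟩ := hne
    -- normalise
    set c' : ι → Qb := fun i => c i / c i₀ with hc'
    have hc'0 : c' i₀ = 1 := div_self hc₀
    have h' : ∑ i ∈ s, c' i • b i = 0 := by
      have : ∑ i ∈ s, c' i • b i = (c i₀)⁻¹ • ∑ i ∈ s, c i • b i := by
        rw [Finset.smul_sum]
        refine Finset.sum_congr rfl fun i _ => ?_
        rw [smul_smul]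
        show (c i / c i₀) • b i = _
        rw [div_eq_inv_mul]
      rw [this, h, smul_zero]
    -- the coefficients are Galois-fixed
    have hfix : ∀ (σ : GQ), ∀ i ∈ s, σ (c' i) = c' i := by
      intro σ
      have hσ := relation_conj act hact1 hactmul b hb s c' h' σ
      have hd : ∑ i ∈ s.erase i₀, (σ (c' i) - c' i) • b i = 0 := by
        have h2 : ∑ i ∈ s, (σ (c' i) - c' i) • b i = 0 := by
          simp only [sub_smul, Finset.sum_sub_distrib, hσ, h', sub_zero]
        rw [← Finset.add_sum_erase s _ hi₀] at h2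
        simpa [hc'0] using h2
      have hcard : (s.erase i₀).card < n := by
        rw [← hn]; exact Finset.card_erase_lt_of_mem hi₀
      have := ih _ hcard (s.erase i₀) (fun i => σ (c' i) - c' i) rfl hd
      intro i hi
      by_cases hii : i = i₀
      · subst hii; rw [hc'0, map_one]
      · exact sub_eq_zero.mp (this i (Finset.mem_erase.mpr ⟨hii, hi⟩))
    -- hence rational
    have hrat : ∀ i ∈ s, ∃ q : ℚ, algebraMap ℚ Qb q = c' i := fun i hi =>
      exists_rat_of_fixed _ fun σ => hfix σ i hi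
    choose! q hq using hrat
    obtain ⟨d, hd0, hd⟩ := exists_common_den (p := p) s q
    -- an `R`-linear relation
    let r : ι → ratLocalizedAt p := fun i =>
      if hi : i ∈ s then ⟨(d : ℚ) * q i, hd i hi⟩ else 0
    have hr : ∀ i ∈ s, algebraMap (ratLocalizedAt p) Qb (r i)
        = algebraMap ℚ Qb (d : ℚ) * c' i := by
      intro i hi
      simp only [r, dif_pos hi]
      rw [← hq i hi, ← map_mul]
      rfl
    have hrel : ∑ i ∈ s, r i • b i = 0 := by
      have : ∑ i ∈ s, r i • b i = (algebraMap ℚ Qb (d : ℚ)) • ∑ i ∈ s, c' i • b i := by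
        rw [Finset.smul_sum]
        refine Finset.sum_congr rfl fun i hi => ?_
        rw [smul_smul, ← hr i hi, algebraMap_smul]
      rw [this, h', smul_zero]
    have hzero := linearIndependent_iff'.mp hind s r hrel i₀ hi₀
    have h3 : algebraMap ℚ Qb (d : ℚ) * c' i₀ = 0 := by
      rw [← hr i₀ hi₀, hzero, map_zero]
    rw [hc'0, mul_one] at h3
    have h4 : (d : ℚ) = 0 := (map_eq_zero _).mp h3
    exact hd0 (Subtype.ext h4)

end Descent

end Fermat.Agent.A3.H619

end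
end
-- ===== PACK-END A3/H619/Descent.lean

-- ===== PACK-BEGIN S19/Spec.lean
section


/-!
# Cell A3 (S19) — FROZEN second-level interface (row-lead helper15, after deputy helper979)

    OrderStatement  <==  LEVEL  +  OrderStatementGood
    OrderStatementGood  <==  FIN + CONT + UNR + LOCAL

* `IsContAddAction`, `CoordDatum`, `IsInertiaAt`, `LocalCoordDatum` are taken verbatim from the
  deputy's spec `origin/helper979:Fermat/Agent/S19/H979/Spec.lean` (namespace changed).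
* `UnrStatement`   (UNR, pure algebra)  : local coordinates at ONE place, equivariant under
                   inertia only  ==>  global coordinates.
* `LocalStatement` (LOCAL = DISC + GR)  : the torsion of `J₀(N)` at a GOOD level has local
                   coordinates.  Its decomposition into DISC (abstract `RedDatum`) and GR (the
                   instance for `X₀(N)`) is frozen by helper979 / helper799 in their own spec files.
* `LevelStatement` (LEVEL, only needed for `ℓ = 2, 3`): the torsion at level `N` embeds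
                   Galois-equivariantly into the torsion at a good level.

Proved here (no holes): `orderDatum_of_coordDatum`, `OrderDatum.comap`, `orderStatement_of_good`,
`orderStatementGood_of`.
-/

set_option autoImplicit false

noncomputable section

namespace Fermat.Agent.S19

/-- The action is by additive automorphisms and every point has an open stabiliser. -/
structure IsContAddAction {M : Type} [AddCommGroup M] (act : GalQ → M → M) : Prop where
  act_one : ∀ m, act 1 m = m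
  act_mul : ∀ σ τ m, act (σ * τ) m = act σ (act τ m)
  act_add : ∀ σ m m', act σ (m + m') = act σ m + act σ m'
  cont : ∀ m, ∃ L : IntermediateField ℚ Qb, FiniteDimensional ℚ L ∧
    ∀ σ : GalQ, (∀ a ∈ L, σ a = a) → act σ m = m

/-- Global integral Galois-equivariant coordinates with `Zbar`-polynomial addition. -/
structure CoordDatum (ℓ : ℕ) (M : Type) [AddCommGroup M] (act : GalQ → M → M) where
  ι : Type
  fin : Finite ι
  Φ : M → ι → Qb
  inj : Function.Injective Φ
  equivariant : ∀ σ m i, Φ (act σ m) i = σ (Φ m i)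
  integral : ∀ m i, IsIntegral (Rl ℓ) (Φ m i)
  add_mem : ∀ i, (fun p : M × M => Φ (p.1 + p.2) i) ∈
      Algebra.adjoin (Zb ℓ) ({f | ∃ j, f = fun p : M × M => Φ p.1 j} ∪
        {f | ∃ j, f = fun p : M × M => Φ p.2 j})

/-- `σ` lies in the inertia group of the valuation ring `V`. -/
def IsInertiaAt (V : ValuationSubring Qb) (σ : GalQ) : Prop :=
  ∀ a : Qb, a ∈ V → σ a - a ∈ V.nonunits

/-- Integral coordinates at ONE place above `ℓ`, equivariant under inertia only; the addition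
polynomials may have arbitrary coefficients in `V`. -/
structure LocalCoordDatum (ℓ : ℕ) (M : Type) [AddCommGroup M] (act : GalQ → M → M) where
  V : ValuationSubring Qb
  ell_mem : (ℓ : Qb) ∈ V.nonunits
  ι : Type
  fin : Finite ι
  Ψ : M → ι → Qb
  inj : Function.Injective Ψ
  integral : ∀ m i, Ψ m i ∈ V
  equivariant : ∀ σ, IsInertiaAt V σ → ∀ m i, Ψ (act σ m) i = σ (Ψ m i)
  add_mem : ∀ i, (fun p : M × M => Ψ (p.1 + p.2) i) ∈
      Algebra.adjoin V ({f | ∃ j, f = fun p : M × M => Ψ p.1 j} ∪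
        {f | ∃ j, f = fun p : M × M => Ψ p.2 j})

/-- **UNR** (unramified descent; pure algebra). -/
def UnrStatement : Prop :=
  ∀ (ℓ : ℕ) [Fact ℓ.Prime] (M : Type) [AddCommGroup M] [Finite M] (act : GalQ → M → M),
    IsContAddAction act → LocalCoordDatum ℓ M act → Nonempty (CoordDatum ℓ M act)

/-- Levels at which the S18 cell proves good reduction of the coordinate-line model. -/
def GoodLevel (N ℓ : ℕ) : Prop := 5 ≤ ℓ ∨ (ℓ = 3 ∧ 2 ∣ N) ∨ (ℓ = 2 ∧ 3 ∣ N)

/-- **LOCAL** (= DISC + GR): local coordinates on the torsion at a good level. -/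
def LocalStatement : Prop :=
  ∀ (N : ℕ) [NeZero N] (ℓ : ℕ) [Fact ℓ.Prime], ¬ ℓ ∣ N → GoodLevel N ℓ → ∀ k : ℕ,
    Finite (Tors N ℓ k) → Nonempty (LocalCoordDatum ℓ (Tors N ℓ k) (torsAct N ℓ k))

/-- **CONT**: the Galois action on the torsion is additive with open stabilisers. -/
def ContStatement : Prop :=
  ∀ (N : ℕ) [NeZero N] (ℓ : ℕ) [Fact ℓ.Prime] (k : ℕ), IsContAddAction (torsAct N ℓ k)

/-- **ORDER at good levels.** -/
def OrderStatementGood : Prop :=
  ∀ (N : ℕ) [NeZero N] (ℓ : ℕ) [Fact ℓ.Prime], ¬ ℓ ∣ N → GoodLevel N ℓ → ∀ k : ℕ,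
    Nonempty (OrderDatum ℓ (Tors N ℓ k) (torsAct N ℓ k))

/-- **LEVEL**: the torsion at level `N` embeds equivariantly into the torsion at a good level
(`M = N` if `ℓ ≥ 5`; `M = lcm(N,2)` if `ℓ = 3`; `M = lcm(N,3)` if `ℓ = 2`; the map is the
conorm). -/
def LevelStatement : Prop :=
  ∀ (N : ℕ) [NeZero N] (ℓ : ℕ) [Fact ℓ.Prime], ¬ ℓ ∣ N → ∀ k : ℕ,
    ∃ (M : ℕ) (_ : NeZero M) (k' : ℕ), ¬ ℓ ∣ M ∧ GoodLevel M ℓ ∧
      ∃ j : Tors N ℓ k →+ Tors M ℓ k', Function.Injective j ∧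
        ∀ (σ : GalQ) (x : Tors N ℓ k), j (torsAct N ℓ k σ x) = torsAct M ℓ k' σ (j x)

/-! ## Proved glue -/

/-- Global coordinates give an order datum. -/
theorem orderDatum_of_coordDatum {ℓ : ℕ} {M : Type} [AddCommGroup M] {act : GalQ → M → M}
    (hadd : ∀ (σ : GalQ) (a b : M), act σ (a + b) = act σ a + act σ b)
    (D : CoordDatum ℓ M act) : Nonempty (OrderDatum ℓ M act) := by
  refine ⟨{ act_add := hadd
            gens := Set.range fun (i : D.ι) (m : M) => D.Φ m i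
            equivariant := ?_
            integral := ?_
            separates := ?_
            add_mem := ?_ }⟩
  · rintro f ⟨i, rfl⟩ σ m
    exact D.equivariant σ m i
  · rintro f ⟨i, rfl⟩ m
    exact D.integral m i
  · intro m m' h
    apply D.inj
    funext i
    exact h _ ⟨i, rfl⟩
  · rintro f ⟨i, rfl⟩
    refine Algebra.adjoin_mono ?_ (D.add_mem i)
    rintro g (⟨j, rfl⟩ | ⟨j, rfl⟩)
    · exact Or.inl ⟨_, ⟨j, rfl⟩, rfl⟩
    · exact Or.inr ⟨_, ⟨j, rfl⟩, rfl⟩

/-- Restriction of an order datum along an injective equivariant additive map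
(closure under Galois submodules). -/
theorem OrderDatum.comap {ℓ : ℕ} {M M' : Type} [AddCommGroup M] [AddCommGroup M']
    {act : GalQ → M → M} {act' : GalQ → M' → M'} (D : OrderDatum ℓ M act)
    (hadd' : ∀ (σ : GalQ) (a b : M'), act' σ (a + b) = act' σ a + act' σ b)
    (j : M' →+ M) (hj : Function.Injective j)
    (hjσ : ∀ (σ : GalQ) (x : M'), j (act' σ x) = act σ (j x)) :
    Nonempty (OrderDatum ℓ M' act') := by
  refine ⟨{ act_add := hadd'
            gens := (fun f : M → Qb => f ∘ j) '' D.gens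
            equivariant := ?_
            integral := ?_
            separates := ?_
            add_mem := ?_ }⟩
  · rintro _ ⟨f, hf, rfl⟩ σ m
    show f (j (act' σ m)) = σ (f (j m))
    rw [hjσ]
    exact D.equivariant f hf σ (j m)
  · rintro _ ⟨f, hf, rfl⟩ m
    exact D.integral f hf (j m)
  · intro m m' h
    apply hj
    apply D.separates
    intro f hf
    exact h _ ⟨f, hf, rfl⟩
  · rintro _ ⟨f, hf, rfl⟩
    -- pull back along `j × j`
    let φ : (M × M → Qb) →ₐ[Zb ℓ] (M' × M' → Qb) :=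
      { toFun := fun F p => F (j p.1, j p.2)
        map_one' := rfl
        map_mul' := fun _ _ => rfl
        map_zero' := rfl
        map_add' := fun _ _ => rfl
        commutes' := fun _ => rfl }
    have h1 : φ (fun p : M × M => f (p.1 + p.2)) ∈
        (Algebra.adjoin (Zb ℓ) (coordFunctions D.gens)).map φ :=
      ⟨_, D.add_mem f hf, rfl⟩
    have h2 : (fun p : M' × M' => (f ∘ j) (p.1 + p.2)) = φ (fun p : M × M => f (p.1 + p.2)) := by
      funext p
      show f (j (p.1 + p.2)) = f (j p.1 + j p.2)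
      rw [map_add]
    rw [h2]
    rw [AlgHom.map_adjoin] at h1
    refine Algebra.adjoin_mono ?_ h1
    rintro _ ⟨g, (⟨h, hh, rfl⟩ | ⟨h, hh, rfl⟩), rfl⟩
    · exact Or.inl ⟨h ∘ j, ⟨h, hh, rfl⟩, rfl⟩
    · exact Or.inr ⟨h ∘ j, ⟨h, hh, rfl⟩, rfl⟩

/-- ORDER at all levels from ORDER at good levels and LEVEL. -/
theorem orderStatement_of_good (hgood : OrderStatementGood) (hlevel : LevelStatement) :
    OrderStatement := by
  intro N _ ℓ _ hℓN k
  obtain ⟨M, hM, k', hℓM, hg, j, hj, hjσ⟩ := hlevel N ℓ hℓN k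
  obtain ⟨D⟩ := hgood M ℓ hℓM hg k'
  exact D.comap (torsAct_add N ℓ k) j hj hjσ

/-- ORDER at good levels from FIN, CONT, UNR and LOCAL. -/
theorem orderStatementGood_of (hfin : FinStatement) (hcont : ContStatement)
    (hunr : UnrStatement) (hlocal : LocalStatement) : OrderStatementGood := by
  intro N _ ℓ _ hℓN hg k
  have hF : Finite (Tors N ℓ k) := hfin N ℓ k
  obtain ⟨L⟩ := hlocal N ℓ hℓN hg k hF
  obtain ⟨C⟩ := hunr ℓ (Tors N ℓ k) (torsAct N ℓ k) (hcont N ℓ k) L
  exact orderDatum_of_coordDatum (torsAct_add N ℓ k) C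

end Fermat.Agent.S19

end

end
-- ===== PACK-END S19/Spec.lean

-- ===== PACK-BEGIN A3/H319/LevelPull.lean
section



/-!
# A3 / LEVEL (helper319), part 1: the pull-back (conorm) on `Pic⁰` along an algebra map

Generic (Prelude language).  For `φ : F →ₐ[K] F'` integral with the fundamental identity:

* `pic0Pull φ hφ hFI : Pic0 K F →+ Pic0 K F'`, `pic0Pull_mk`;
* `pic0Pull_smul` : it commutes with semilinear automorphisms intertwined by `φ`;
* `isKummerClass_pic0Pull` : it sends the Kummer class of `f` to the Kummer class of `φ f`.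
-/

set_option autoImplicit false
set_option linter.style.haveILetI false

noncomputable section

namespace Fermat.Agent.A3.H319

open AlgebraicCurve Fermat.Agent.S29

variable {K F F' : Type*} [Field K] [Field F] [Field F'] [Algebra K F] [Algebra K F']
variable [HasPrincipalDivisors K F']
variable (φ : F →ₐ[K] F') (hφ : φ.toRingHom.IsIntegral)
variable (hFI : FundamentalIdentityAlong K φ hφ)

/-- Pull-back of degree-zero divisors along `φ`. -/
def degZeroPull :
    Divisor.degZero (K := K) (F := F) →+ Divisor.degZero (K := K) (F := F') :=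
  ((Divisor.pullbackAlong φ hφ).domRestrict (Divisor.degZero (K := K) (F := F))).codRestrict _
    (fun D => Divisor.pullbackAlong_mem_degZero φ hφ hFI D.2)

@[simp]
theorem coe_degZeroPull (D : Divisor.degZero (K := K) (F := F)) :
    (degZeroPull φ hφ hFI D : Divisor K F') = Divisor.pullbackAlong φ hφ (D : Divisor K F) :=
  rfl

/-- The pull-back (conorm) `Pic⁰(F) → Pic⁰(F')` along `φ`. -/
def pic0Pull : Pic0 K F →+ Pic0 K F' :=
  QuotientAddGroup.map _ _ (degZeroPull φ hφ hFI) (by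
    rintro ⟨D, hD0⟩ hD
    simp only [AddSubgroup.mem_addSubgroupOf] at hD ⊢
    exact Divisor.isPrincipal_pullbackAlong φ hφ hD)

theorem pic0Pull_mk (D : Divisor.degZero (K := K) (F := F)) :
    pic0Pull φ hφ hFI (Pic0.mk D) = Pic0.mk (degZeroPull φ hφ hFI D) :=
  rfl

/-- The pull-back commutes with semilinear automorphisms intertwined by `φ`. -/
theorem pic0Pull_smul {g : SemilinearAut K F} {g' : SemilinearAut K F'}
    (h : SemilinearAut.IntertwinesAlong (φ : F →+* F') g g') (x : Pic0 K F) :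
    pic0Pull φ hφ hFI (g • x) = g' • pic0Pull φ hφ hFI x := by
  obtain ⟨D, rfl⟩ := Pic0.mk_surjective x
  rw [SemilinearAut.pic0_smul_mk, pic0Pull_mk, pic0Pull_mk, SemilinearAut.pic0_smul_mk]
  refine congrArg Pic0.mk (Subtype.ext ?_)
  rw [coe_degZeroPull, SemilinearAut.coe_degZeroSMulHom, SemilinearAut.coe_degZeroSMulHom,
    coe_degZeroPull]
  exact H571.pullbackAlong_smul φ hφ h (D : Divisor K F)

/-- The pull-back sends the Kummer class of `f` to the Kummer class of `φ f`. -/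
theorem isKummerClass_pic0Pull {n : ℤ} {f : F} {x : Pic0 K F}
    (hx : H455.IsKummerClass n f x) :
    H455.IsKummerClass n (φ f) (pic0Pull φ hφ hFI x) := by
  obtain ⟨hf, D, rfl, hD⟩ := hx
  refine ⟨(map_ne_zero φ).mpr hf, degZeroPull φ hφ hFI D, (pic0Pull_mk φ hφ hFI D).symm,
    fun w => ?_⟩
  rw [coe_degZeroPull, Divisor.pullbackAlong_apply, Place.ord_restrictAlong φ hφ w f,
    ← hD (w.restrictAlong φ hφ)]
  ring

end Fermat.Agent.A3.H319

end
end
-- ===== PACK-END A3/H319/LevelPull.lean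

-- ===== PACK-BEGIN S59/TW/Aut/H673/FrontDVR.lean
section



/-!
# S59 / cell TW, AUT leaf CMP, part (R), FRONT — the point of a prime  (helper673)

`exists_dvr_point` : `B` a finite algebra over a complete discrete valuation ring `𝒪` of
characteristic zero with finite residue field, `𝔔` a prime of `B` with `𝔔 ∩ 𝒪 = 0`.  Then there
are a complete discrete valuation ring `𝒪'` (characteristic zero, finite residue field, local over
`𝒪`) and an `𝒪`-algebra homomorphism `ev : B → 𝒪'` with kernel `𝔔`.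
(`𝒪'` = the integral closure of `𝒪` in `Frac (B ⧸ 𝔔)`, helper109 `PointsDVR`.)
-/

set_option autoImplicit false
set_option linter.style.haveILetI false

open IsLocalRing

namespace Fermat.Agent.S59.TW.Aut.H673

open Fermat.Agent.S59.G4.H109

attribute [local instance] FractionRing.liftAlgebra

theorem exists_dvr_point
    (𝒪 : Type) [CommRing 𝒪] [IsDomain 𝒪] [IsDiscreteValuationRing 𝒪]
    [IsAdicComplete (maximalIdeal 𝒪) 𝒪] [Finite (ResidueField 𝒪)] [CharZero 𝒪]
    (B : Type) [CommRing B] [Algebra 𝒪 B] [Module.Finite 𝒪 B]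
    (𝔔 : Ideal B) [𝔔.IsPrime] (h𝔔 : ∀ c : 𝒪, algebraMap 𝒪 B c ∈ 𝔔 → c = 0) :
    ∃ (𝒪' : Type) (_ : CommRing 𝒪') (_ : IsDomain 𝒪') (_ : IsDiscreteValuationRing 𝒪')
      (_ : IsAdicComplete (maximalIdeal 𝒪') 𝒪') (_ : Finite (ResidueField 𝒪')) (_ : CharZero 𝒪')
      (_ : Algebra 𝒪 𝒪') (ev : B →ₐ[𝒪] 𝒪'),
      IsLocalHom (algebraMap 𝒪 𝒪') ∧ Function.Injective (algebraMap 𝒪 𝒪') ∧
        ∀ b, ev b = 0 ↔ b ∈ 𝔔 := by
  classical
  -- the domain `D = B ⧸ 𝔔`
  haveI : IsDomain (B ⧸ 𝔔) := Ideal.Quotient.isDomain 𝔔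
  have hinj : Function.Injective (algebraMap 𝒪 (B ⧸ 𝔔)) := by
    rw [injective_iff_map_eq_zero]
    intro c hc
    have h1 : algebraMap 𝒪 (B ⧸ 𝔔) c = Ideal.Quotient.mk 𝔔 (algebraMap 𝒪 B c) := rfl
    rw [h1, Ideal.Quotient.eq_zero_iff_mem] at hc
    exact h𝔔 c hc
  haveI : FaithfulSMul 𝒪 (B ⧸ 𝔔) := (faithfulSMul_iff_algebraMap_injective 𝒪 (B ⧸ 𝔔)).mpr hinj
  haveI : Module.Finite 𝒪 (B ⧸ 𝔔) := Module.Finite.of_surjective
    (Ideal.Quotient.mkₐ 𝒪 𝔔).toLinearMap (Ideal.Quotient.mkₐ_surjective 𝒪 𝔔)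
  haveI : Algebra.IsIntegral 𝒪 (B ⧸ 𝔔) := Algebra.IsIntegral.of_finite 𝒪 (B ⧸ 𝔔)
  haveI : Algebra.IsAlgebraic 𝒪 (B ⧸ 𝔔) := Algebra.IsIntegral.isAlgebraic
  haveI : FaithfulSMul 𝒪 (FractionRing (B ⧸ 𝔔)) := by
    rw [faithfulSMul_iff_algebraMap_injective]
    rw [IsScalarTower.algebraMap_eq 𝒪 (B ⧸ 𝔔) (FractionRing (B ⧸ 𝔔))]
    exact (IsFractionRing.injective (B ⧸ 𝔔) (FractionRing (B ⧸ 𝔔))).comp hinj
  haveI : Module.Finite (FractionRing 𝒪) (FractionRing (B ⧸ 𝔔)) :=
    Module.Finite.of_isLocalization 𝒪 (B ⧸ 𝔔) (nonZeroDivisors 𝒪)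
  -- the ring of integers
  haveI := intRingO_isLocalRing 𝒪 (FractionRing 𝒪) (FractionRing (B ⧸ 𝔔))
  have hint : ∀ b : B, IsIntegral 𝒪
      (algebraMap (B ⧸ 𝔔) (FractionRing (B ⧸ 𝔔)) (Ideal.Quotient.mk 𝔔 b)) := fun b =>
    (Algebra.IsIntegral.isIntegral (R := 𝒪) (Ideal.Quotient.mk 𝔔 b)).map
      (IsScalarTower.toAlgHom 𝒪 (B ⧸ 𝔔) (FractionRing (B ⧸ 𝔔)))
  let ev₀ : B →ₐ[𝒪] FractionRing (B ⧸ 𝔔) :=
    (IsScalarTower.toAlgHom 𝒪 (B ⧸ 𝔔) (FractionRing (B ⧸ 𝔔))).comp (Ideal.Quotient.mkₐ 𝒪 𝔔)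
  let ev : B →ₐ[𝒪] intRingO 𝒪 (FractionRing (B ⧸ 𝔔)) :=
    ev₀.codRestrict (intRingO 𝒪 (FractionRing (B ⧸ 𝔔))) (fun b => hint b)
  refine ⟨intRingO 𝒪 (FractionRing (B ⧸ 𝔔)), inferInstance, inferInstance,
    intRingO_isDiscreteValuationRing 𝒪 (FractionRing 𝒪) (FractionRing (B ⧸ 𝔔)),
    intRingO_isAdicComplete 𝒪 (FractionRing 𝒪) (FractionRing (B ⧸ 𝔔)),
    intRingO_finite_residueField 𝒪 (FractionRing 𝒪) (FractionRing (B ⧸ 𝔔)),
    intRingO_charZero 𝒪 (FractionRing 𝒪) (FractionRing (B ⧸ 𝔔)), inferInstance, ev,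
    intRingO_isLocalHom 𝒪 (FractionRing 𝒪) (FractionRing (B ⧸ 𝔔)),
    algebraMap_intRingO_injective 𝒪 (FractionRing 𝒪) (FractionRing (B ⧸ 𝔔)), fun b => ?_⟩
  constructor
  · intro h
    have h1 : ev₀ b = 0 := by
      have := congrArg Subtype.val h
      simpa [ev] using this
    have h2 : algebraMap (B ⧸ 𝔔) (FractionRing (B ⧸ 𝔔)) (Ideal.Quotient.mk 𝔔 b) = 0 := h1
    rw [map_eq_zero_iff _ (IsFractionRing.injective (B ⧸ 𝔔) (FractionRing (B ⧸ 𝔔)))] at h2
    exact Ideal.Quotient.eq_zero_iff_mem.mp h2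
  · intro h
    apply Subtype.ext
    show algebraMap (B ⧸ 𝔔) (FractionRing (B ⧸ 𝔔)) (Ideal.Quotient.mk 𝔔 b) = 0
    rw [Ideal.Quotient.eq_zero_iff_mem.mpr h, map_zero]

/-- An `𝒪`-algebra homomorphism from a local ring integral over the local ring `𝒪` to a local
`𝒪`-algebra with local structure map is local. -/
theorem isLocalHom_of_integral_h673 (𝒪 T O : Type*) [CommRing 𝒪] [IsLocalRing 𝒪] [CommRing T]
    [IsLocalRing T] [Algebra 𝒪 T] [Algebra.IsIntegral 𝒪 T] [CommRing O] [IsLocalRing O]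
    [Algebra 𝒪 O] [IsLocalHom (algebraMap 𝒪 O)] (χ : T →+* O)
    (hχ : ∀ a, χ (algebraMap 𝒪 T a) = algebraMap 𝒪 O a) : IsLocalHom χ := by
  set q : Ideal T := (maximalIdeal O).comap χ with hq
  haveI : q.IsPrime := Ideal.comap_isPrime χ _
  have hcomap : q.comap (algebraMap 𝒪 T) = maximalIdeal 𝒪 := by
    have h1 : q.comap (algebraMap 𝒪 T) = (maximalIdeal O).comap (algebraMap 𝒪 O) := by
      ext a
      simp only [hq, Ideal.mem_comap, hχ]
    rw [h1]
    exact IsLocalRing.maximalIdeal_comap (algebraMap 𝒪 O)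
  have hmax : q.IsMaximal := by
    apply Ideal.isMaximal_of_isIntegral_of_isMaximal_comap (R := 𝒪) q
    rw [hcomap]
    exact IsLocalRing.maximalIdeal.isMaximal 𝒪
  have hqm : q = maximalIdeal T := IsLocalRing.eq_maximalIdeal hmax
  exact ((IsLocalRing.local_hom_TFAE χ).out 0 4).mpr hqm

end Fermat.Agent.S59.TW.Aut.H673

end
-- ===== PACK-END S59/TW/Aut/H673/FrontDVR.lean

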