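import Mathlib
import Mathlib.RingTheory.Valuation.ValuationSubring
import Mathlib.Tactic.LinearCombination
import Mathlib.Tactic.FieldSimp
import Fermat.Prelude.Def_WeierstrassCurve_ConductorLevel
import Fermat.Prelude.Def_FLTPrelim_ModularRep
import Fermat.Prelude.Def_CuspForm_HeckeGaloisRepDatum
import Fermat.Prelude.Def_CuspForm_Newforms
import Fermat.Prelude.Def_GaloisRep_LocalConditions
import Fermat.Prelude.Def_GaloisRep_Residual
import Mathlib.AlgebraicGeometry.EllipticCurve.Affine.Point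
import Mathlib.RingTheory.Valuation.Basic
import Mathlib.Tactic
import Fermat.Agent.Pack.S43MC.G0E3L0

-- ===== PACK-BEGIN S36/H36/Kolchin.lean
section
/-
S36 top glue (helper36), pure algebra: a Kolchin-type fixed vector lemma.

Let `H` be a subgroup acting on a nonzero torsion-free module `M` over a Noetherian domain `R`
with `2 ≠ 0`, such that `(ρ τ - 1)² = 0` for every `τ ∈ H`.  Then `H` has a nonzero fixed vector.

Proof.  Put `N τ = ρ τ - 1`.  Expanding `N (g h)² = 0` and `N (g h⁻¹)² = 0` gives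
`N h * N g * N h = 0` (here `2 ≠ 0` is used), hence `N g * N h = - N h * N g`.  So if `w` is
killed by `N g₁, …, N gₖ` then so is `N g w`; by induction finitely many `N gᵢ` have a common
nonzero kernel vector.  Finally the `R`-span of all the `N τ` is finitely generated.
-/


set_option autoImplicit false

namespace Fermat.Agent.S36.H36

section Algebra

variable {R M : Type*} [CommRing R] [IsDomain R] [AddCommGroup M] [Module R M]
  [Module.IsTorsionFree R M]

theorem end_eq_zero_of_two_smul (h2 : (2 : R) ≠ 0) (F : Module.End R M)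
    (hF : (2 : R) • F = 0) : F = 0 := by
  apply LinearMap.ext
  intro v
  have h1 : (2 : R) • F v = 0 := by
    have := congrArg (fun f : Module.End R M => f v) hF
    simpa using this
  rcases smul_eq_zero.mp h1 with h | h
  · exact absurd h h2
  · simpa using h

/-- The key identity: `B A B = 0`. -/
theorem mul_mul_eq_zero_of_sq_zero (h2 : (2 : R) ≠ 0) (A B : Module.End R M)
    (hA : A * A = 0) (hB : B * B = 0)
    (h1 : (A + B + A * B) * (A + B + A * B) = 0)
    (h1' : (A - B - A * B) * (A - B - A * B) = 0) : B * A * B = 0 := by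
  have e1 : (A + B + A * B) * (A + B + A * B)
      = A * B + B * A + B * A * B + A * B * A + A * B * A * B
        + (A * A + (A * A) * B + B * B + A * (B * B)) := by
    noncomm_ring
  have e2 : (A - B - A * B) * (A - B - A * B)
      = -(A * B) - B * A + B * A * B - A * B * A + A * B * A * B
        + (A * A - (A * A) * B + B * B + A * (B * B)) := by
    noncomm_ring
  rw [e1, hA, hB] at h1
  rw [e2, hA, hB] at h1'
  simp only [zero_mul, mul_zero, add_zero, sub_zero] at h1 h1'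
  -- sum: `2 (1 + A) B A B = 0`
  have h3 : (2 : R) • ((1 + A) * (B * A * B)) = 0 := by
    have : (2 : R) • ((1 + A) * (B * A * B))
        = (A * B + B * A + B * A * B + A * B * A + A * B * A * B)
          + (-(A * B) - B * A + B * A * B - A * B * A + A * B * A * B) := by
      rw [two_smul]
      noncomm_ring
    rw [this, h1, h1', add_zero]
  have h4 := end_eq_zero_of_two_smul h2 _ h3
  have h5 : B * A * B = (1 - A) * ((1 + A) * (B * A * B)) + (A * A) * (B * A * B) := by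
    noncomm_ring
  rw [h5, h4, hA]
  simp

/-- Anticommutation. -/
theorem anticomm_of_sq_zero (h2 : (2 : R) ≠ 0) (A B : Module.End R M)
    (hA : A * A = 0) (hB : B * B = 0)
    (h1 : (A + B + A * B) * (A + B + A * B) = 0)
    (h1' : (A - B - A * B) * (A - B - A * B) = 0)
    (h3 : (B + A + B * A) * (B + A + B * A) = 0)
    (h3' : (B - A - B * A) * (B - A - B * A) = 0) : A * B + B * A = 0 := by
  have hBAB := mul_mul_eq_zero_of_sq_zero h2 A B hA hB h1 h1'
  have hABA := mul_mul_eq_zero_of_sq_zero h2 B A hB hA h3 h3'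
  have e1 : (A + B + A * B) * (A + B + A * B)
      = A * B + B * A + B * A * B + A * B * A + A * (B * A * B)
        + (A * A + (A * A) * B + B * B + A * (B * B)) := by
    noncomm_ring
  rw [e1, hA, hB, hBAB, hABA] at h1
  simpa using h1

end Algebra

section Group

variable {R M G : Type*} [CommRing R] [IsDomain R] [AddCommGroup M] [Module R M]
  [Module.IsTorsionFree R M] [Group G]

variable (ρ : G →* Module.End R M) (H : Subgroup G)

omit [IsDomain R] [Module.IsTorsionFree R M] in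
theorem map_inv_of_sq_zero {h : G} (hh : (ρ h - 1) * (ρ h - 1) = 0) :
    ρ h⁻¹ = 1 - (ρ h - 1) := by
  have h1 : ρ h⁻¹ * ρ h = 1 := by rw [← map_mul, inv_mul_cancel, map_one]
  have h2 : ρ h * (1 - (ρ h - 1)) = 1 := by
    have : ρ h * (1 - (ρ h - 1)) = 1 - (ρ h - 1) * (ρ h - 1) := by noncomm_ring
    rw [this, hh, sub_zero]
  calc ρ h⁻¹ = ρ h⁻¹ * (ρ h * (1 - (ρ h - 1))) := by rw [h2, mul_one]
    _ = (ρ h⁻¹ * ρ h) * (1 - (ρ h - 1)) := by rw [mul_assoc]
    _ = 1 - (ρ h - 1) := by rw [h1, one_mul]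

theorem anticomm_of_unipotent (h2 : (2 : R) ≠ 0)
    (hH : ∀ τ ∈ H, (ρ τ - 1) * (ρ τ - 1) = 0) {g h : G} (hg : g ∈ H) (hh : h ∈ H) :
    (ρ g - 1) * (ρ h - 1) + (ρ h - 1) * (ρ g - 1) = 0 := by
  have key : ∀ g h : G, g ∈ H → h ∈ H →
      ((ρ g - 1) + (ρ h - 1) + (ρ g - 1) * (ρ h - 1))
          * ((ρ g - 1) + (ρ h - 1) + (ρ g - 1) * (ρ h - 1)) = 0 ∧
      ((ρ g - 1) - (ρ h - 1) - (ρ g - 1) * (ρ h - 1))
          * ((ρ g - 1) - (ρ h - 1) - (ρ g - 1) * (ρ h - 1)) = 0 := by
    intro g h hg hh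
    constructor
    · have e : (ρ g - 1) + (ρ h - 1) + (ρ g - 1) * (ρ h - 1) = ρ (g * h) - 1 := by
        rw [map_mul]
        noncomm_ring
      rw [e]
      exact hH _ (H.mul_mem hg hh)
    · have e : (ρ g - 1) - (ρ h - 1) - (ρ g - 1) * (ρ h - 1) = ρ (g * h⁻¹) - 1 := by
        rw [map_mul, map_inv_of_sq_zero ρ (hH h hh)]
        noncomm_ring
      rw [e]
      exact hH _ (H.mul_mem hg (H.inv_mem hh))
  exact anticomm_of_sq_zero h2 _ _ (hH g hg) (hH h hh) (key g h hg hh).1 (key g h hg hh).2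
    (key h g hh hg).1 (key h g hh hg).2

/-- Finitely many elements of `H` have a common nonzero fixed vector. -/
theorem exists_fixed_finset [Nontrivial M] (h2 : (2 : R) ≠ 0)
    (hH : ∀ τ ∈ H, (ρ τ - 1) * (ρ τ - 1) = 0) (s : Finset G) (hs : ∀ g ∈ s, g ∈ H) :
    ∃ w : M, w ≠ 0 ∧ ∀ g ∈ s, (ρ g - 1) w = 0 := by
  classical
  induction s using Finset.induction_on with
  | empty =>
    obtain ⟨w, hw⟩ := exists_ne (0 : M)
    exact ⟨w, hw, fun g hg => absurd hg (Finset.notMem_empty g)⟩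
  | insert a s _ ih =>
    obtain ⟨w, hw, hws⟩ := ih (fun g hg => hs g (Finset.mem_insert_of_mem hg))
    have ha : a ∈ H := hs a (Finset.mem_insert_self a s)
    by_cases hwa : (ρ a - 1) w = 0
    · refine ⟨w, hw, fun g hg => ?_⟩
      rcases Finset.mem_insert.mp hg with rfl | hg
      · exact hwa
      · exact hws g hg
    · refine ⟨(ρ a - 1) w, hwa, fun g hg => ?_⟩
      rcases Finset.mem_insert.mp hg with rfl | hg
      · have := congrArg (fun f : Module.End R M => f w) (hH g ha)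
        simpa using this
      · have hgH : g ∈ H := hs g (Finset.mem_insert_of_mem hg)
        have h1 := congrArg (fun f : Module.End R M => f w)
          (anticomm_of_unipotent ρ H h2 hH hgH ha)
        simp only [LinearMap.add_apply, Module.End.mul_apply, LinearMap.zero_apply] at h1
        rw [hws g hg, map_zero, add_zero] at h1
        exact h1

/-- **Kolchin-type lemma.**  A subgroup all of whose elements satisfy `(ρ τ - 1)² = 0` has a
nonzero fixed vector. -/
theorem exists_fixed_of_sq_zero [IsNoetherianRing R] [Module.Finite R M] [Module.Free R M]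
    [Nontrivial M] (h2 : (2 : R) ≠ 0)
    (hH : ∀ τ ∈ H, (ρ τ - 1) * (ρ τ - 1) = 0) :
    ∃ w : M, w ≠ 0 ∧ ∀ τ ∈ H, ρ τ w = w := by
  classical
  set T : Set (Module.End R M) := (fun τ : G => ρ τ - 1) '' (H : Set G) with hT
  have hfg : (Submodule.span R T).FG := IsNoetherian.noetherian _
  obtain ⟨t, htT, hspan⟩ := (Submodule.fg_span_iff_fg_span_finset_subset T).mp hfg
  -- choose group elements for the finitely many generators
  have hch : ∀ F : (t : Set (Module.End R M)), ∃ g : G, g ∈ H ∧ ρ g - 1 = (F : Module.End R M) := by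
    rintro ⟨F, hF⟩
    obtain ⟨g, hg, rfl⟩ := htT hF
    exact ⟨g, hg, rfl⟩
  choose γ hγH hγ using hch
  obtain ⟨w, hw, hws⟩ := exists_fixed_finset ρ H h2 hH
    (Finset.univ.image γ) (fun g hg => by
      obtain ⟨F, -, rfl⟩ := Finset.mem_image.mp hg
      exact hγH F)
  refine ⟨w, hw, fun τ hτ => ?_⟩
  -- the evaluation at `w` kills the span
  have hker : Submodule.span R (t : Set (Module.End R M))
      ≤ LinearMap.ker (LinearMap.applyₗ (R := R) (M := M) (M₂ := M) w) := by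
    rw [Submodule.span_le]
    intro F hF
    rw [SetLike.mem_coe, LinearMap.mem_ker, LinearMap.applyₗ_apply_apply]
    have := hws (γ ⟨F, hF⟩) (Finset.mem_image.mpr ⟨⟨F, hF⟩, Finset.mem_univ _, rfl⟩)
    rw [hγ ⟨F, hF⟩] at this
    exact this
  have hmem : ρ τ - 1 ∈ Submodule.span R T := Submodule.subset_span ⟨τ, hτ, rfl⟩
  rw [hspan] at hmem
  have := hker hmem
  rw [LinearMap.mem_ker, LinearMap.applyₗ_apply_apply] at this
  have h3 : ρ τ w - w = 0 := by simpa using this
  exact sub_eq_zero.mp h3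

end Group

end Fermat.Agent.S36.H36

end
-- ===== PACK-END S36/H36/Kolchin.lean

-- ===== PACK-BEGIN S30/H683/TorsionDecomp.lean
section


/-!
# Primary decomposition of torsion elements, as an induction principle (helper683)

`torsion_induction`: to prove an additive property `C` for all `x` with `m • x = 0` (`m ≠ 0`), it
suffices to prove it for the elements of prime-power order `r ^ n`, `r ∣ m` prime.
-/

set_option autoImplicit false

namespace Fermat.Agent.S30.H683

theorem torsion_induction {J : Type*} [AddCommGroup J] {C : J → Prop} (h0 : C 0)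
    (hadd : ∀ x y : J, C x → C y → C (x + y)) (m : ℕ) (hm : m ≠ 0)
    (hprime : ∀ r : ℕ, r.Prime → r ∣ m → ∀ x : J, (∃ n : ℕ, ((r : ℤ) ^ n) • x = 0) → C x)
    (x : J) (hx : (m : ℤ) • x = 0) : C x := by
  induction m using Nat.recOnPosPrimePosCoprime generalizing x with
  | prime_pow p n hp hn =>
    refine hprime p hp (dvd_pow_self p hn.ne') x ⟨n, ?_⟩
    have : ((p ^ n : ℕ) : ℤ) = (p : ℤ) ^ n := by push_cast; rfl
    rw [← this]
    exact hx
  | zero => exact absurd rfl hm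
  | one =>
    have : x = 0 := by simpa using hx
    rw [this]
    exact h0
  | coprime a b ha hb hab iha ihb =>
    have ha0 : a ≠ 0 := by omega
    have hb0 : b ≠ 0 := by omega
    have hcop : IsCoprime (a : ℤ) (b : ℤ) := Nat.isCoprime_iff_coprime.mpr hab
    obtain ⟨u, v, huv⟩ := hcop
    have hx' : ((a : ℤ) * (b : ℤ)) • x = 0 := by
      have : ((a * b : ℕ) : ℤ) = (a : ℤ) * (b : ℤ) := by push_cast; rfl
      rw [← this]
      exact hx
    have hsplit : x = (v * (b : ℤ)) • x + (u * (a : ℤ)) • x := by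
      rw [← add_smul, add_comm, huv, one_smul]
    have h1 : C ((v * (b : ℤ)) • x) := by
      refine iha ha0 (fun r hr hra y hy => hprime r hr (Dvd.dvd.mul_right hra b) y hy) _ ?_
      rw [smul_smul, show (a : ℤ) * (v * (b : ℤ)) = v * ((a : ℤ) * (b : ℤ)) by ring, mul_smul,
        hx', smul_zero]
    have h2 : C ((u * (a : ℤ)) • x) := by
      refine ihb hb0 (fun r hr hrb y hy => hprime r hr (Dvd.dvd.mul_left hrb a) y hy) _ ?_
      rw [smul_smul, show (b : ℤ) * (u * (a : ℤ)) = u * ((a : ℤ) * (b : ℤ)) by ring, mul_smul,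
        hx', smul_zero]
    rw [hsplit]
    exact hadd _ _ h1 h2

end Fermat.Agent.S30.H683

end
-- ===== PACK-END S30/H683/TorsionDecomp.lean

-- ===== PACK-BEGIN A2/Mod/H816/L8Abs.lean
section


/-!
# A2 / MOD leaf L8, part 1 (helper816): two valuations and linear independence

Abstract (Mathlib only).  `E ⊆ F` fields, `v, v'` additive valuations of `F` with values in
`WithTop ℤ`, trivial on `E`, `x ∈ F` with `v x = v' x = -n < 0`.

* `addVal_sum_le_of_distinct` : ultrametric sum with pairwise distinct values;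
* `addVal_aeval_eq` : `v (g(x)) = deg g · v x`;
* `transcendental_of_addVal_ne_zero` : `v f ∉ {0, ⊤}` implies `f` transcendental over `E`;
* `addVal_mem_adjoin` : on `E(x)` both valuations agree and take values in `n ℤ`;
* `linearIndependent_of_two_addVal` : families `u`, `u'` with `v (u i) = e i < v' (u i)`,
  `v' (u' i) = e i < v (u' i)`, `e` injective modulo `n`, are jointly linearly independent
  over `E(x)`.
-/

set_option autoImplicit false

noncomputable section

namespace Fermat.Agent.A2.Mod.H816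

open Polynomial

section Ultra

variable {R : Type*} [Ring R] (v : AddValuation R (WithTop ℤ))

/-- **Ultrametric sum, distinct values.** -/
theorem addVal_sum_le_of_distinct {ι : Type*} (s : Finset ι) (c : ι → R)
    (hd : ∀ i ∈ s, ∀ j ∈ s, i ≠ j → v (c i) = v (c j) → v (c i) = ⊤) :
    ∀ j ∈ s, v (∑ i ∈ s, c i) ≤ v (c j) := by
  classical
  intro j hj
  obtain ⟨j₀, hj₀, hmin⟩ := Finset.exists_min_image s (fun i => v (c i)) ⟨j, hj⟩
  refine le_trans ?_ (hmin j hj)
  by_cases htop : v (c j₀) = ⊤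
  · rw [htop]; exact le_top
  · rw [← Finset.add_sum_erase s c hj₀]
    have hlt : v (c j₀) < v (∑ i ∈ s.erase j₀, c i) := by
      apply AddValuation.map_lt_sum v htop
      intro i hi
      have his : i ∈ s := Finset.mem_of_mem_erase hi
      have hne : i ≠ j₀ := Finset.ne_of_mem_erase hi
      refine lt_of_le_of_ne (hmin i his) ?_
      intro heq
      exact htop (hd j₀ hj₀ i his hne.symm heq)
    rw [AddValuation.map_add_eq_of_lt_left v hlt]

end Ultra

section WithTopInt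

theorem withTop_int_eq_top_of_add_two_le {z : WithTop ℤ} (h : z + 2 ≤ z) : z = ⊤ := by
  induction z using WithTop.recTopCoe with
  | top => rfl
  | coe a =>
    exfalso
    have h2 : ((a + 2 : ℤ) : WithTop ℤ) ≤ (a : WithTop ℤ) := by
      have : ((a + 2 : ℤ) : WithTop ℤ) = (a : WithTop ℤ) + 2 := by
        push_cast; rfl
      rw [this]; exact h
    have := WithTop.coe_le_coe.mp h2
    omega

end WithTopInt

section Field

variable {E F : Type*} [Field E] [Field F] [Algebra E F]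

/-- value of a monomial -/
theorem addVal_monomial (v : AddValuation F (WithTop ℤ))
    (hE : ∀ c : E, c ≠ 0 → v (algebraMap E F c) = 0) {x : F} {a : ℤ}
    (hx : v x = (a : WithTop ℤ)) {c : E} (hc : c ≠ 0) (i : ℕ) :
    v (algebraMap E F c * x ^ i) = ((i * a : ℤ) : WithTop ℤ) := by
  rw [AddValuation.map_mul, hE c hc, zero_add, AddValuation.map_pow, hx]
  rw [← WithTop.coe_nsmul, nsmul_eq_mul]

/-- **Value of a polynomial at an element of negative value.** -/
theorem addVal_aeval_eq (v : AddValuation F (WithTop ℤ))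
    (hE : ∀ c : E, c ≠ 0 → v (algebraMap E F c) = 0) {x : F} {a : ℤ} (ha : a < 0)
    (hx : v x = (a : WithTop ℤ)) {g : E[X]} (hg : g ≠ 0) :
    v (aeval x g) = ((g.natDegree * a : ℤ) : WithTop ℤ) := by
  classical
  rw [aeval_eq_sum_range]
  have hterm : ∀ i : ℕ, g.coeff i ≠ 0 →
      v (g.coeff i • x ^ i) = ((i * a : ℤ) : WithTop ℤ) := by
    intro i hi
    rw [Algebra.smul_def]
    exact addVal_monomial v hE hx hi i
  have hzero : ∀ i : ℕ, g.coeff i = 0 → v (g.coeff i • x ^ i) = ⊤ := by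
    intro i hi
    rw [hi, zero_smul, AddValuation.map_zero]
  apply le_antisymm
  · have hlc : g.coeff g.natDegree ≠ 0 := by
      rw [coeff_natDegree]; exact leadingCoeff_ne_zero.mpr hg
    rw [← hterm g.natDegree hlc]
    apply addVal_sum_le_of_distinct v _ _ _ _ (Finset.mem_range.mpr (Nat.lt_succ_self _))
    intro i _ j _ hij heq
    by_cases hi : g.coeff i = 0
    · exact hzero i hi
    · by_cases hj : g.coeff j = 0
      · rw [heq]; exact hzero j hj
      · exfalso
        rw [hterm i hi, hterm j hj] at heq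
        have h1 : (i : ℤ) * a = j * a := WithTop.coe_injective heq
        have h2 : (i : ℤ) = j := mul_right_cancel₀ (ne_of_lt ha) h1
        exact hij (by exact_mod_cast h2)
  · apply AddValuation.map_le_sum
    intro i hi
    by_cases hc : g.coeff i = 0
    · rw [hzero i hc]; exact le_top
    · rw [hterm i hc]
      apply WithTop.coe_le_coe.mpr
      have h1 : (i : ℤ) ≤ g.natDegree := by
        have := Finset.mem_range.mp hi
        exact_mod_cast Nat.lt_succ_iff.mp this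
      nlinarith

theorem aeval_ne_zero_of_addVal (v : AddValuation F (WithTop ℤ))
    (hE : ∀ c : E, c ≠ 0 → v (algebraMap E F c) = 0) {x : F} {a : ℤ} (ha : a < 0)
    (hx : v x = (a : WithTop ℤ)) {g : E[X]} (hg : g ≠ 0) : aeval x g ≠ 0 := by
  intro h
  have := addVal_aeval_eq v hE ha hx hg
  rw [h, AddValuation.map_zero] at this
  exact WithTop.top_ne_coe this

/-- an element of negative value is transcendental over the constants -/
theorem transcendental_of_addVal_neg (v : AddValuation F (WithTop ℤ))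
    (hE : ∀ c : E, c ≠ 0 → v (algebraMap E F c) = 0) {x : F} {a : ℤ} (ha : a < 0)
    (hx : v x = (a : WithTop ℤ)) : Transcendental E x := by
  rw [Transcendental, IsAlgebraic]
  rintro ⟨g, hg, hroot⟩
  exact aeval_ne_zero_of_addVal v hE ha hx hg hroot

/-- an element of nonzero finite value is transcendental over the constants -/
theorem transcendental_of_addVal_ne_zero (v : AddValuation F (WithTop ℤ))
    (hE : ∀ c : E, c ≠ 0 → v (algebraMap E F c) = 0) {x : F} {a : ℤ} (ha : a ≠ 0)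
    (hx : v x = (a : WithTop ℤ)) : Transcendental E x := by
  rcases lt_or_gt_of_ne ha with h | h
  · exact transcendental_of_addVal_neg v hE h hx
  · have hinv : v x⁻¹ = ((-a : ℤ) : WithTop ℤ) := by
      rw [AddValuation.map_inv, hx]; rfl
    have := transcendental_of_addVal_neg v hE (by omega : -a < 0) hinv
    intro halg
    exact this halg.inv

/-- On `E(x)`: two valuations trivial on `E` with the same negative value at `x` agree, with
values in `a ℤ`. -/
theorem addVal_mem_adjoin (v v' : AddValuation F (WithTop ℤ))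
    (hE : ∀ c : E, c ≠ 0 → v (algebraMap E F c) = 0)
    (hE' : ∀ c : E, c ≠ 0 → v' (algebraMap E F c) = 0) {x : F} {a : ℤ} (ha : a < 0)
    (hx : v x = (a : WithTop ℤ)) (hx' : v' x = (a : WithTop ℤ))
    {r : F} (hr : r ∈ IntermediateField.adjoin E ({x} : Set F)) :
    v' r = v r ∧ (r ≠ 0 → ∃ m : ℤ, v r = ((m * a : ℤ) : WithTop ℤ)) := by
  obtain ⟨g, h, rfl⟩ := (IntermediateField.mem_adjoin_simple_iff E r).mp hr
  by_cases hg : g = 0
  · simp [hg]
  by_cases hh : h = 0
  · simp [hh]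
  have e1 := addVal_aeval_eq v hE ha hx hg
  have e2 := addVal_aeval_eq v hE ha hx hh
  have e1' := addVal_aeval_eq v' hE' ha hx' hg
  have e2' := addVal_aeval_eq v' hE' ha hx' hh
  have key : v (aeval x g / aeval x h) =
      (((g.natDegree : ℤ) - h.natDegree) * a : ℤ) := by
    rw [AddValuation.map_div, e1, e2]
    rw [← WithTop.LinearOrderedAddCommGroup.coe_sub]
    congr 1
    ring
  have key' : v' (aeval x g / aeval x h) =
      (((g.natDegree : ℤ) - h.natDegree) * a : ℤ) := by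
    rw [AddValuation.map_div, e1', e2']
    rw [← WithTop.LinearOrderedAddCommGroup.coe_sub]
    congr 1
    ring
  exact ⟨by rw [key, key'], fun _ => ⟨_, key⟩⟩

end Field

section Indep

variable {E F : Type*} [Field E] [Field F] [Algebra E F]

/-- One family: the value of `∑ Aᵢ uᵢ` is at most that of each term, and the second valuation of
the sum is strictly bigger. -/
theorem addVal_one_side (v v' : AddValuation F (WithTop ℤ))
    (hE : ∀ c : E, c ≠ 0 → v (algebraMap E F c) = 0)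
    (hE' : ∀ c : E, c ≠ 0 → v' (algebraMap E F c) = 0) {x : F} {a : ℤ} (ha : a < 0)
    (hx : v x = (a : WithTop ℤ)) (hx' : v' x = (a : WithTop ℤ))
    {ι : Type*} [Fintype ι] (e : ι → ℤ)
    (he : ∀ i i' : ι, ∀ m m' : ℤ, m * a + e i = m' * a + e i' → i = i')
    (u : ι → F) (hu : ∀ i, v (u i) = (e i : WithTop ℤ))
    (hu' : ∀ i, (e i : WithTop ℤ) + 1 ≤ v' (u i))
    (A : ι → F) (hA : ∀ i, A i ∈ IntermediateField.adjoin E ({x} : Set F)) :
    (∀ j, v (∑ i, A i * u i) ≤ v (A j) + (e j : WithTop ℤ)) ∧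
      v (∑ i, A i * u i) + 1 ≤ v' (∑ i, A i * u i) := by
  have hval : ∀ i, v (A i * u i) = v (A i) + (e i : WithTop ℤ) := fun i => by
    rw [AddValuation.map_mul, hu]
  have h1 : ∀ j, v (∑ i, A i * u i) ≤ v (A j) + (e j : WithTop ℤ) := by
    intro j
    rw [← hval j]
    apply addVal_sum_le_of_distinct v Finset.univ _ _ j (Finset.mem_univ j)
    intro i _ i' _ hii heq
    by_cases hi : A i = 0
    · rw [hi, zero_mul, AddValuation.map_zero]
    by_cases hi' : A i' = 0
    · rw [heq, hi', zero_mul, AddValuation.map_zero]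
    exfalso
    obtain ⟨m, hm⟩ := (addVal_mem_adjoin v v' hE hE' ha hx hx' (hA i)).2 hi
    obtain ⟨m', hm'⟩ := (addVal_mem_adjoin v v' hE hE' ha hx hx' (hA i')).2 hi'
    rw [hval, hval, hm, hm', ← WithTop.coe_add, ← WithTop.coe_add] at heq
    exact hii (he i i' m m' (WithTop.coe_injective heq))
  refine ⟨h1, ?_⟩
  apply AddValuation.map_le_sum
  intro i _
  rw [AddValuation.map_mul, (addVal_mem_adjoin v v' hE hE' ha hx hx' (hA i)).1]
  calc v (∑ i, A i * u i) + 1 ≤ v (A i) + (e i : WithTop ℤ) + 1 := by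
        gcongr
        exact h1 i
    _ = v (A i) + ((e i : WithTop ℤ) + 1) := by rw [add_assoc]
    _ ≤ v (A i) + v' (u i) := by
        gcongr
        exact hu' i

/-- **Two valuations give linear independence over `E(x)`.** -/
theorem linearIndependent_of_two_addVal (v v' : AddValuation F (WithTop ℤ))
    (hE : ∀ c : E, c ≠ 0 → v (algebraMap E F c) = 0)
    (hE' : ∀ c : E, c ≠ 0 → v' (algebraMap E F c) = 0) {x : F} {a : ℤ} (ha : a < 0)
    (hx : v x = (a : WithTop ℤ)) (hx' : v' x = (a : WithTop ℤ))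
    {ι : Type*} [Fintype ι] (e : ι → ℤ)
    (he : ∀ i i' : ι, ∀ m m' : ℤ, m * a + e i = m' * a + e i' → i = i')
    (u u' : ι → F) (hu : ∀ i, v (u i) = (e i : WithTop ℤ))
    (hu' : ∀ i, (e i : WithTop ℤ) + 1 ≤ v' (u i))
    (hw : ∀ i, v' (u' i) = (e i : WithTop ℤ))
    (hw' : ∀ i, (e i : WithTop ℤ) + 1 ≤ v (u' i)) :
    LinearIndependent (IntermediateField.adjoin E ({x} : Set F)) (Sum.elim u u') := by
  classical
  rw [Fintype.linearIndependent_iff]
  intro g hg
  rw [Fintype.sum_sum_type] at hg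
  simp only [Sum.elim_inl, Sum.elim_inr] at hg
  set A : ι → F := fun i => ((g (Sum.inl i) : IntermediateField.adjoin E ({x} : Set F)) : F)
    with hAdef
  set B : ι → F := fun i => ((g (Sum.inr i) : IntermediateField.adjoin E ({x} : Set F)) : F)
    with hBdef
  have hA : ∀ i, A i ∈ IntermediateField.adjoin E ({x} : Set F) := fun i => (g (Sum.inl i)).2
  have hB : ∀ i, B i ∈ IntermediateField.adjoin E ({x} : Set F) := fun i => (g (Sum.inr i)).2
  have hsum : (∑ i, A i * u i) + ∑ i, B i * u' i = 0 := by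
    rw [← hg]
    rfl
  obtain ⟨a1, a2⟩ := addVal_one_side v v' hE hE' ha hx hx' e he u hu hu' A hA
  obtain ⟨b1, b2⟩ := addVal_one_side v' v hE' hE ha hx' hx e he u' hw hw' B hB
  have hneg : (∑ i, B i * u' i) = -∑ i, A i * u i := by
    rw [eq_neg_iff_add_eq_zero, add_comm]; exact hsum
  rw [hneg, AddValuation.map_neg, AddValuation.map_neg] at b2
  simp only [hneg, AddValuation.map_neg] at b1
  set s := ∑ i, A i * u i with hs
  have htop : v s = ⊤ := by
    apply withTop_int_eq_top_of_add_two_le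
    calc v s + 2 = v s + 1 + 1 := by rw [add_assoc]; rfl
      _ ≤ v' s + 1 := by gcongr
      _ ≤ v s := b2
  have htop' : v' s = ⊤ := by
    rw [htop] at a2
    exact top_le_iff.mp (by simpa using a2)
  have hAz : ∀ i, A i = 0 := by
    intro i
    have h := a1 i
    rw [htop, top_le_iff] at h
    have : v (A i) = ⊤ := by
      by_contra hne
      obtain ⟨z, hz⟩ := WithTop.ne_top_iff_exists.mp hne
      rw [← hz, ← WithTop.coe_add] at h
      exact WithTop.coe_ne_top h
    exact (AddValuation.top_iff v).mp this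
  have hBz : ∀ i, B i = 0 := by
    intro i
    have h := b1 i
    rw [htop', top_le_iff] at h
    have : v' (B i) = ⊤ := by
      by_contra hne
      obtain ⟨z, hz⟩ := WithTop.ne_top_iff_exists.mp hne
      rw [← hz, ← WithTop.coe_add] at h
      exact WithTop.coe_ne_top h
    exact (AddValuation.top_iff v').mp this
  rintro (i | i)
  · exact Subtype.ext (hAz i)
  · exact Subtype.ext (hBz i)

end Indep

end Fermat.Agent.A2.Mod.H816

end

end
-- ===== PACK-END A2/Mod/H816/L8Abs.lean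

-- ===== PACK-BEGIN S36/H153/Infinity.lean
section


/-!
# S36 engine, cell INCIDENCE at infinity (helper153) — abstract part, Mathlib only

Problem: in the chart at infinity of the level-`q M` model (`x⁻¹ = u · u_q`, `u = 1/j`,
`u_q = 1/j_q`) the purity/regularity cells need to know that NO closed point at infinity
(`u u_q ∈ n`) lies on two components ("cusps are not nodes"); otherwise there is no local generator
`t` of a vertical prime at such a point (`t = w` needs exactly one component through `n`).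

Solution: the two functions

  `z = u ^ q / u_q = j_q / j ^ q`,   `y = u_q ^ q / u = j / j_q ^ q`

lie in the chart at infinity (valuative criterion + SHAPE of the modular polynomial:
`Φ = Y^(q+1) + Σ_{k ≤ q} a_k(X) Y^k`, `deg a_k ≤ q + 1`, `deg a_q ≤ q`), and
`z ≡ 1` on `C∞` (`j_q ≡ j^q`), `y ≡ 1` on `C₀` (`j ≡ j_q^q`), `y z = (u u_q)^(q-1)`.
Hence at a common point `n` of `C∞` and `C₀`:  `(u u_q)^(q-1) ≡ 1 mod n`, so `u u_q ∉ n`.

* `aeval_inv_mul_pow_mem`   : `a(1/u) · u^d ∈ V` for `deg a ≤ d`, `u ∈ V`;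
* `pow_div_mem_of_shape`    : the valuative core: `u^(n-1) / u_q ∈ V` for every valuation subring
                              `V ∋ u, u_q`, from `Φ(1/u, 1/u_q) = 0` and the shape of `Φ`;
* `not_mem_of_yz`           : abstract "no node at infinity" (level `q`);
* `finite_of_two_components`: abstract "points at infinity of level `q²` lie on exactly one
                              component", from the level-`q` statement and the comap pattern only
                              (no integrality, no going-down).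
-/

set_option autoImplicit false

namespace Fermat.Agent.S36.H153

open Polynomial

section Valuative

variable {K : Type*} [Field K]

/-- `a(1/u) · u^d ∈ V` if `u ∈ V` and `deg a ≤ d` (integer coefficients). -/
theorem aeval_inv_mul_pow_mem (V : ValuationSubring K) {u : K} (hu : u ∈ V) (hu0 : u ≠ 0)
    (d : ℕ) (a : Polynomial ℤ) (ha : a.natDegree ≤ d) :
    Polynomial.aeval u⁻¹ a * u ^ d ∈ V := by
  refine Polynomial.induction_with_natDegree_le
    (fun f => Polynomial.aeval u⁻¹ f * u ^ d ∈ V) d ?_ ?_ ?_ a ha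
  · simp [V.zero_mem]
  · intro n r _ hnd
    have h1 : Polynomial.aeval u⁻¹ (C r * X ^ n) * u ^ d = (r : K) * u ^ (d - n) := by
      rw [map_mul, map_pow, Polynomial.aeval_C, Polynomial.aeval_X]
      have h2 : u ^ d = u ^ (d - n) * u ^ n := by rw [← pow_add, Nat.sub_add_cancel hnd]
      rw [h2, inv_pow]
      simp only [eq_intCast]
      field_simp
    rw [h1]
    exact V.mul_mem _ _ (by simpa using V.toSubring.intCast_mem r) (V.pow_mem hu _)
  · intro f g _ _ hf hg
    rw [map_add, add_mul]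
    exact V.add_mem _ _ hf hg

/-- **Valuative core.**  `Φ ∈ ℤ[X][Y]` monic of degree `n ≥ 2` in `Y`, all coefficients of degree
`≤ n` in `X`, the coefficient of `Y^(n-1)` of degree `≤ n - 1` in `X`, and `Φ(1/u, 1/u_q) = 0`.
Then `u ^ (n-1) / u_q` lies in every valuation subring containing `u` and `u_q`. -/
theorem pow_div_mem_of_shape (V : ValuationSubring K) {u uq : K} (hu : u ∈ V) (huq : uq ∈ V)
    (hu0 : u ≠ 0) (huq0 : uq ≠ 0) (Φ : Polynomial (Polynomial ℤ)) {n : ℕ} (hn : 2 ≤ n)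
    (hΦ : Φ.Monic) (hdeg : Φ.natDegree = n) (hin : ∀ k, (Φ.coeff k).natDegree ≤ n)
    (htop : (Φ.coeff (n - 1)).natDegree ≤ n - 1)
    (h : Φ.eval₂ (Polynomial.aeval (R := ℤ) u⁻¹).toRingHom uq⁻¹ = 0) :
    u ^ (n - 1) / uq ∈ V := by
  by_contra hz
  set v := V.valuation with hv
  -- `ζ = u_q / u^(n-1)` is a non-unit
  have hζ : v (uq / u ^ (n - 1)) < 1 := by
    have h1 : ¬ v (u ^ (n - 1) / uq) ≤ 1 := fun hle => hz ((V.valuation_le_one_iff _).mp hle)
    have h2 : 1 < v (u ^ (n - 1) / uq) := not_le.mp h1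
    have h3 : uq / u ^ (n - 1) = (u ^ (n - 1) / uq)⁻¹ := by rw [inv_div]
    rw [h3, map_inv₀]
    exact (inv_lt_one₀ (lt_trans zero_lt_one h2)).mpr h2
  have hvu : v u ≤ 1 := (V.valuation_le_one_iff _).mpr hu
  have hvuq : v uq ≤ 1 := (V.valuation_le_one_iff _).mpr huq
  -- expand the relation
  rw [Polynomial.eval₂_eq_sum_range, hdeg, Finset.sum_range_succ] at h
  have hlead : (Polynomial.aeval (R := ℤ) u⁻¹).toRingHom (Φ.coeff n) = 1 := by
    have : Φ.coeff n = 1 := by rw [← hdeg]; exact hΦ.coeff_natDegree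
    rw [this, map_one]
  rw [hlead, one_mul] at h
  -- multiply by `u_q ^ n`
  have hmain : (∑ k ∈ Finset.range n,
      Polynomial.aeval u⁻¹ (Φ.coeff k) * uq ^ (n - k)) = -1 := by
    have h1 : (∑ k ∈ Finset.range n,
        (Polynomial.aeval (R := ℤ) u⁻¹).toRingHom (Φ.coeff k) * uq⁻¹ ^ k) * uq ^ n
        = ∑ k ∈ Finset.range n, Polynomial.aeval u⁻¹ (Φ.coeff k) * uq ^ (n - k) := by
      rw [Finset.sum_mul]
      refine Finset.sum_congr rfl fun k hk => ?_
      have hk' : k ≤ n := (Finset.mem_range.mp hk).le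
      have h2 : uq ^ n = uq ^ (n - k) * uq ^ k := by rw [← pow_add, Nat.sub_add_cancel hk']
      rw [h2, inv_pow]
      show Polynomial.aeval u⁻¹ (Φ.coeff k) * (uq ^ k)⁻¹ * (uq ^ (n - k) * uq ^ k) = _
      have h3 : uq ^ k ≠ 0 := pow_ne_zero _ huq0
      field_simp
    have h4 : (∑ k ∈ Finset.range n,
        (Polynomial.aeval (R := ℤ) u⁻¹).toRingHom (Φ.coeff k) * uq⁻¹ ^ k) = - uq⁻¹ ^ n :=
      eq_neg_of_add_eq_zero_left h
    rw [← h1, h4, neg_mul, inv_pow, inv_mul_cancel₀ (pow_ne_zero _ huq0)]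
  -- every term is a non-unit
  have hζV : uq / u ^ (n - 1) ∈ V := (V.valuation_le_one_iff _).mp hζ.le
  have hlt : ∀ T : K, T ∈ V → v (uq / u ^ (n - 1) * T) < 1 := by
    intro T hT
    have hT' : v T ≤ 1 := (V.valuation_le_one_iff _).mpr hT
    rw [map_mul]
    calc v (uq / u ^ (n - 1)) * v T ≤ v (uq / u ^ (n - 1)) * 1 := mul_le_mul_right hT' _
      _ < 1 := by rw [mul_one]; exact hζ
  have hterm : ∀ k ∈ Finset.range n,
      v (Polynomial.aeval u⁻¹ (Φ.coeff k) * uq ^ (n - k)) < 1 := by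
    intro k hk
    have hkn : k < n := Finset.mem_range.mp hk
    have h3 : u ^ (n - 1) ≠ 0 := pow_ne_zero _ hu0
    by_cases hk1 : k = n - 1
    · -- degree `≤ n - 1`
      have hb := aeval_inv_mul_pow_mem V hu hu0 (n - 1) (Φ.coeff k) (by rw [hk1]; exact htop)
      have h1 : Polynomial.aeval u⁻¹ (Φ.coeff k) * uq ^ (n - k)
          = (uq / u ^ (n - 1)) * (Polynomial.aeval u⁻¹ (Φ.coeff k) * u ^ (n - 1)) := by
        have h2 : n - k = 1 := by omega
        rw [h2, pow_one]
        field_simp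
      rw [h1]
      exact hlt _ hb
    · -- degree `≤ n`, `n - k ≥ 2`
      have hb := aeval_inv_mul_pow_mem V hu hu0 n (Φ.coeff k) (hin k)
      have hk2 : 2 ≤ n - k := by omega
      have hW : u ^ (n - 2) * uq ^ (n - k - 2) ∈ V := V.mul_mem _ _ (V.pow_mem hu _) (V.pow_mem huq _)
      have h1 : Polynomial.aeval u⁻¹ (Φ.coeff k) * uq ^ (n - k)
          = (uq / u ^ (n - 1)) * ((Polynomial.aeval u⁻¹ (Φ.coeff k) * u ^ n) *
            ((uq / u ^ (n - 1)) * (u ^ (n - 2) * uq ^ (n - k - 2)))) := by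
        have h4 : uq ^ (n - k) = uq ^ (n - k - 2) * uq ^ 2 := by
          rw [← pow_add]; congr 1; omega
        have h5 : u ^ n * u ^ (n - 2) = u ^ (n - 1) * u ^ (n - 1) := by
          rw [← pow_add, ← pow_add]; congr 1; omega
        have h6 : (uq / u ^ (n - 1)) * ((Polynomial.aeval u⁻¹ (Φ.coeff k) * u ^ n) *
            ((uq / u ^ (n - 1)) * (u ^ (n - 2) * uq ^ (n - k - 2))))
            = Polynomial.aeval u⁻¹ (Φ.coeff k) * (uq ^ (n - k - 2) * uq ^ 2) *
              ((u ^ n * u ^ (n - 2)) / (u ^ (n - 1) * u ^ (n - 1))) := by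
          field_simp
        rw [h6, h5, div_self (mul_ne_zero h3 h3), mul_one, h4]
      rw [h1]
      exact hlt _ (V.mul_mem _ _ hb (V.mul_mem _ _ hζV hW))
  have hsum := Valuation.map_sum_lt v (one_ne_zero) hterm
  rw [hmain, Valuation.map_neg, map_one] at hsum
  exact lt_irrefl _ hsum

end Valuative

section NoNode

variable {B : Type*} [CommRing B]

/-- **No node at infinity (abstract).**  If `z ≡ 1` on `C∞`, `y ≡ 1` on `C₀` and
`y z = v ^ k`, `k ≥ 1`, then `v` does not vanish at any common point of `C∞` and `C₀`. -/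
theorem not_mem_of_yz {pinf pzero n : Ideal B} (hn : n ≠ ⊤) (h1 : pinf ≤ n) (h2 : pzero ≤ n)
    {y z v : B} {k : ℕ} (hk : 0 < k) (hz : z - 1 ∈ pinf) (hy : y - 1 ∈ pzero)
    (hyz : y * z = v ^ k) : v ∉ n := by
  intro hv
  apply hn
  rw [Ideal.eq_top_iff_one]
  have h3 : v ^ k ∈ n := n.pow_mem_of_mem hv k hk
  have h4 : y * z - (y * (z - 1) + (y - 1)) ∈ n :=
    n.sub_mem (hyz ▸ h3) (n.add_mem (n.mul_mem_left _ (h1 hz)) (h2 hy))
  have h5 : y * z - (y * (z - 1) + (y - 1)) = 1 := by ring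
  rwa [h5] at h4

end NoNode

section LevelSq

variable {A B : Type*} [CommRing A] [CommRing B]

/-- **Points at infinity of level `q²` lie on exactly one component (abstract).**
`a b : A → B` the two degeneracy maps, `u, u_q ∈ A` (`1/j`, `1/j_q` at level `q`), so that
`a u, a u_q = b u, b u_q` are `1/j, 1/j_q, 1/j_{q²}` at level `q²`.  Hypotheses:
the comap pattern (inclusions only), the Kronecker congruences `u_q - u^e ∈ P1`,
`u - u_q^e ∈ P2` (`e = q`), and "no node at infinity" at level `q`.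
Conclusion: a prime of `B` on two components does not contain `1/j · 1/j_q · 1/j_{q²}`. -/
theorem finite_of_two_components (a b : A →+* B) {P1 P2 : Ideal A} {pFF pmid pVV : Ideal B}
    (aFF : P1 ≤ pFF.comap a) (aVV : P2 ≤ pVV.comap a) (amid : P1 ≤ pmid.comap a)
    (bFF : P1 ≤ pFF.comap b) (bmid : P2 ≤ pmid.comap b) (bVV : P2 ≤ pVV.comap b)
    {u uq : A} {e : ℕ} (he : 0 < e) (hab : a uq = b u)
    (h1 : uq - u ^ e ∈ P1) (h2 : u - uq ^ e ∈ P2)
    (hnode : ∀ N : Ideal A, N.IsPrime → P1 ≤ N → P2 ≤ N → u * uq ∉ N)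
    (n : Ideal B) [n.IsPrime]
    (h : (pFF ≤ n ∧ pmid ≤ n) ∨ (pFF ≤ n ∧ pVV ≤ n) ∨ (pmid ≤ n ∧ pVV ≤ n)) :
    a u * a uq * b uq ∉ n := by
  have hprime : n.IsPrime := inferInstance
  have hNa : (n.comap a).IsPrime := Ideal.comap_isPrime a n
  have hNb : (n.comap b).IsPrime := Ideal.comap_isPrime b n
  have key : ∀ {x y : B}, x * y ∉ n → x ∉ n ∧ y ∉ n := fun {x y} hxy =>
    ⟨fun hx => hxy (n.mul_mem_right _ hx), fun hy => hxy (n.mul_mem_left _ hy)⟩
  have hmul3 : ∀ {x y z : B}, x ∉ n → y ∉ n → z ∉ n → x * y * z ∉ n := by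
    intro x y z hx hy hz hxyz
    rcases hprime.mem_or_mem hxyz with hxy | hz'
    · rcases hprime.mem_or_mem hxy with hx' | hy'
      · exact hx hx'
      · exact hy hy'
    · exact hz hz'
  -- the node property at the two images
  have nodeA : P1 ≤ n.comap a → P2 ≤ n.comap a → a u ∉ n ∧ a uq ∉ n := fun hP1 hP2 => by
    have ha : u * uq ∉ n.comap a := hnode _ hNa hP1 hP2
    exact key fun hmem => ha (by rw [Ideal.mem_comap, map_mul]; exact hmem)
  have nodeB : P1 ≤ n.comap b → P2 ≤ n.comap b → b u ∉ n ∧ b uq ∉ n := fun hP1 hP2 => by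
    have hb : u * uq ∉ n.comap b := hnode _ hNb hP1 hP2
    exact key fun hmem => hb (by rw [Ideal.mem_comap, map_mul]; exact hmem)
  rcases h with ⟨hFF, hmid⟩ | ⟨hFF, hVV⟩ | ⟨hmid, hVV⟩
  · -- `FF ∩ mid`: the `β`-image is a node; `1/j ∉ n` from `u_q ≡ u^e` on `FF` (via `α`)
    obtain ⟨hbu, hbuq⟩ :=
      nodeB (bFF.trans (Ideal.comap_mono hFF)) (bmid.trans (Ideal.comap_mono hmid))
    have hau : a u ∉ n := by
      intro hmem
      have h3 : a (uq - u ^ e) ∈ n := hFF (aFF h1)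
      rw [map_sub, map_pow] at h3
      have h6 : a u ^ e ∈ n := n.pow_mem_of_mem hmem e he
      have h7 : a uq ∈ n := by
        have := n.add_mem h3 h6
        simpa using this
      exact hbu (hab ▸ h7)
    exact hmul3 hau (hab ▸ hbu) hbuq
  · -- `FF ∩ VV`: both images are nodes
    obtain ⟨hau, hauq⟩ :=
      nodeA (aFF.trans (Ideal.comap_mono hFF)) (aVV.trans (Ideal.comap_mono hVV))
    obtain ⟨-, hbuq⟩ :=
      nodeB (bFF.trans (Ideal.comap_mono hFF)) (bVV.trans (Ideal.comap_mono hVV))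
    exact hmul3 hau hauq hbuq
  · -- `mid ∩ VV`: the `α`-image is a node; `1/j_{q²} ∉ n` from `u ≡ u_q^e` on `VV` (via `β`)
    obtain ⟨hau, hauq⟩ :=
      nodeA (amid.trans (Ideal.comap_mono hmid)) (aVV.trans (Ideal.comap_mono hVV))
    have hbuq : b uq ∉ n := by
      intro hmem
      have h3 : b (u - uq ^ e) ∈ n := hVV (bVV h2)
      rw [map_sub, map_pow] at h3
      have h6 : b uq ^ e ∈ n := n.pow_mem_of_mem hmem e he
      have h7 : b u ∈ n := by
        have := n.add_mem h3 h6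
        simpa using this
      exact hauq (hab.symm ▸ h7)
    exact hmul3 hau hauq hbuq

end LevelSq

end Fermat.Agent.S36.H153

end
-- ===== PACK-END S36/H153/Infinity.lean

-- ===== PACK-BEGIN S36/H878/Congr4.lean
section




/-!
# `γ(t₄) ≡ α(t₄)` from `γ(j_d) ≡ α(j_d)`, `d ∣ 4` (helper878, S36 REG / R4)

Mathlib only.  `V` a valuation subring of a field `L` (application: `V = V_mid`).  Unprimed
letters: images under `α` (inclusion `F_M → F_{q² M}`); primed letters: images under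
`γ : f(t) ↦ f(t^{q²})`.  The Hauptmoduln are rational in the `j_d`:

  `U₂(j, j₂) · t₂ = W₂(j, j₂)`       (`Lib.Haupt.t2_lin`),
  `U₂(j₂, j₄) · t₂(t²) = W₂(j₂, j₄)`  (`qExpand 2` of it),
  `t₄ · (t₂ + 16) = t₂(t²) - 16 t₂`   (`Haupt4.t4_mul`),

so congruences `j_d' ≡ j_d mod 𝔪_V` propagate to `t₄' ≡ t₄ mod 𝔪_V` as soon as the denominators
`U₂(j, j₂)`, `U₂(j₂, j₄)`, `t₂ + 16` are units of `V` (Gauss units: their `t`-expansions have
leading coefficient `1`).  This is hypothesis `hx` of `hres_transfer4`.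
-/

set_option autoImplicit false

namespace Fermat.Agent.S36.H878

variable {L : Type*} [Field L]

theorem mul_mem_nonunits_of_mem (V : ValuationSubring L) {a b : L}
    (ha : a ∈ V) (hb : b ∈ V.nonunits) : a * b ∈ V.nonunits := by
  rw [ValuationSubring.mem_nonunits_iff, map_mul, mul_comm]
  exact mul_lt_one_of_lt_of_le ((V.mem_nonunits_iff).1 hb) ((V.valuation_le_one_iff _).2 ha)

theorem mem_of_mem_nonunits' (V : ValuationSubring L) {a : L} (ha : a ∈ V.nonunits) : a ∈ V :=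
  (V.valuation_le_one_iff _).1 ((V.mem_nonunits_iff).1 ha).le

theorem valuation_eq_one_of_sub_mem_nonunits (V : ValuationSubring L) {a b : L}
    (ha : V.valuation a = 1) (hab : b - a ∈ V.nonunits) : V.valuation b = 1 := by
  have h1 : V.valuation (b - a) < V.valuation a := by
    rw [ha]; exact (V.mem_nonunits_iff).1 hab
  have h2 := Valuation.map_add_eq_of_lt_right V.valuation h1
  rw [sub_add_cancel] at h2
  rw [h2, ha]

/-- If `U t = W`, `U' t' = W'` with `U` a unit of `V`, `U' ≡ U`, `W' ≡ W` modulo `𝔪_V`, then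
`t, t' ∈ V` and `t' ≡ t`. -/
theorem lin_congr (V : ValuationSubring L) {U W t U' W' t' : L}
    (hU : V.valuation U = 1) (hW : W ∈ V) (hW' : W' ∈ V)
    (h : U * t = W) (h' : U' * t' = W')
    (hUU : U' - U ∈ V.nonunits) (hWW : W' - W ∈ V.nonunits) :
    t ∈ V ∧ t' ∈ V ∧ t' - t ∈ V.nonunits := by
  have hU' : V.valuation U' = 1 := valuation_eq_one_of_sub_mem_nonunits V hU hUU
  have hU0 : U ≠ 0 := fun h0 => by rw [h0, map_zero] at hU; exact zero_ne_one hU
  have hU'0 : U' ≠ 0 := fun h0 => by rw [h0, map_zero] at hU'; exact zero_ne_one hU'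
  have ht : t = W * U⁻¹ := by rw [← h]; field_simp
  have ht' : t' = W' * U'⁻¹ := by rw [← h']; field_simp
  have hvt : V.valuation t ≤ 1 := by
    rw [ht, map_mul, map_inv₀, hU, inv_one, mul_one]
    exact (V.valuation_le_one_iff _).2 hW
  have hvt' : V.valuation t' ≤ 1 := by
    rw [ht', map_mul, map_inv₀, hU', inv_one, mul_one]
    exact (V.valuation_le_one_iff _).2 hW'
  refine ⟨(V.valuation_le_one_iff _).1 hvt, (V.valuation_le_one_iff _).1 hvt', ?_⟩
  have e : t' - t = ((W' - W) - t * (U' - U)) * U'⁻¹ := by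
    rw [ht', ht]; field_simp; ring
  have hnum : (W' - W) - t * (U' - U) ∈ V.nonunits :=
    sub_mem hWW (mul_mem_nonunits_of_mem V ((V.valuation_le_one_iff _).1 hvt) hUU)
  rw [ValuationSubring.mem_nonunits_iff, e, map_mul, map_inv₀, hU', inv_one, mul_one]
  exact (V.mem_nonunits_iff).1 hnum

theorem sub_mem_nonunits_of_mul (V : ValuationSubring L) {a b a' b' : L}
    (ha : a ∈ V) (hb' : b' ∈ V) (haa : a' - a ∈ V.nonunits) (hbb : b' - b ∈ V.nonunits) :
    a' * b' - a * b ∈ V.nonunits := by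
  have e : a' * b' - a * b = b' * (a' - a) + a * (b' - b) := by ring
  rw [e]
  exact add_mem (mul_mem_nonunits_of_mem V hb' haa) (mul_mem_nonunits_of_mem V ha hbb)

/-- `U₂(x, y) = x y - 720 x - 720 y - 16250625` respects congruences modulo `𝔪_V`. -/
theorem U2_congr (V : ValuationSubring L) {x y x' y' : L}
    (hx : x ∈ V) (hy' : y' ∈ V) (hxx : x' - x ∈ V.nonunits) (hyy : y' - y ∈ V.nonunits) :
    (x' * y' - 720 * x' - 720 * y' - 16250625) - (x * y - 720 * x - 720 * y - 16250625)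
      ∈ V.nonunits := by
  have h1 := sub_mem_nonunits_of_mul V hx hy' hxx hyy
  have e : (x' * y' - 720 * x' - 720 * y' - 16250625) - (x * y - 720 * x - 720 * y - 16250625)
      = (x' * y' - x * y) - (720 * (x' - x) + 720 * (y' - y)) := by ring
  rw [e]
  have h720 : (720 : L) ∈ V := ofNat_mem V 720
  exact sub_mem h1 (add_mem (mul_mem_nonunits_of_mem V h720 hxx)
    (mul_mem_nonunits_of_mem V h720 hyy))

/-- `W₂(x, y) = y² + 4095 x + 195120 y + 660960000` respects congruences modulo `𝔪_V`. -/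
theorem W2_congr (V : ValuationSubring L) {x y x' y' : L}
    (hy : y ∈ V) (hy' : y' ∈ V) (hxx : x' - x ∈ V.nonunits) (hyy : y' - y ∈ V.nonunits) :
    (y' ^ 2 + 4095 * x' + 195120 * y' + 660960000) - (y ^ 2 + 4095 * x + 195120 * y + 660960000)
      ∈ V.nonunits := by
  have e : (y' ^ 2 + 4095 * x' + 195120 * y' + 660960000)
        - (y ^ 2 + 4095 * x + 195120 * y + 660960000)
      = (y' + y) * (y' - y) + (4095 * (x' - x) + 195120 * (y' - y)) := by ring
  rw [e]
  exact add_mem (mul_mem_nonunits_of_mem V (add_mem hy' hy) hyy)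
    (add_mem (mul_mem_nonunits_of_mem V (ofNat_mem V 4095) hxx)
      (mul_mem_nonunits_of_mem V (ofNat_mem V 195120) hyy))

theorem U2_mem (V : ValuationSubring L) {x y : L} (hx : x ∈ V) (hy : y ∈ V) :
    x * y - 720 * x - 720 * y - 16250625 ∈ V :=
  sub_mem (sub_mem (sub_mem (mul_mem hx hy) (mul_mem (ofNat_mem V 720) hx))
    (mul_mem (ofNat_mem V 720) hy)) (ofNat_mem V 16250625)

theorem W2_mem (V : ValuationSubring L) {x y : L} (hx : x ∈ V) (hy : y ∈ V) :
    y ^ 2 + 4095 * x + 195120 * y + 660960000 ∈ V :=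
  add_mem (add_mem (add_mem (pow_mem hy 2) (mul_mem (ofNat_mem V 4095) hx))
    (mul_mem (ofNat_mem V 195120) hy)) (ofNat_mem V 660960000)

/-- **`t₂' ≡ t₂`** from `j' ≡ j`, `j₂' ≡ j₂`. -/
theorem t2_congr (V : ValuationSubring L) {j j2 t2 j' j2' t2' : L}
    (hj : j ∈ V) (hj2 : j2 ∈ V)
    (c1 : j' - j ∈ V.nonunits) (c2 : j2' - j2 ∈ V.nonunits)
    (hU : V.valuation (j * j2 - 720 * j - 720 * j2 - 16250625) = 1)
    (l : (j * j2 - 720 * j - 720 * j2 - 16250625) * t2
      = j2 ^ 2 + 4095 * j + 195120 * j2 + 660960000)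
    (l' : (j' * j2' - 720 * j' - 720 * j2' - 16250625) * t2'
      = j2' ^ 2 + 4095 * j' + 195120 * j2' + 660960000) :
    t2 ∈ V ∧ t2' ∈ V ∧ t2' - t2 ∈ V.nonunits := by
  have hj' : j' ∈ V := by
    have := add_mem (mem_of_mem_nonunits' V c1) hj
    simpa using this
  have hj2' : j2' ∈ V := by
    have := add_mem (mem_of_mem_nonunits' V c2) hj2
    simpa using this
  exact lin_congr V hU (W2_mem V hj hj2) (W2_mem V hj' hj2') l l'
    (U2_congr V hj hj2' c1 c2) (W2_congr V hj2 hj2' c1 c2)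

/-- **`γ(t₄) ≡ α(t₄)` modulo `𝔪_V`** from `γ(j_d) ≡ α(j_d)`, `d ∈ {1, 2, 4}`. -/
theorem t4_congr (V : ValuationSubring L) {j j2 j4 t2 t2e t4 j' j2' j4' t2' t2e' t4' : L}
    (hj : j ∈ V) (hj2 : j2 ∈ V) (hj4 : j4 ∈ V)
    (c1 : j' - j ∈ V.nonunits) (c2 : j2' - j2 ∈ V.nonunits) (c4 : j4' - j4 ∈ V.nonunits)
    (hU : V.valuation (j * j2 - 720 * j - 720 * j2 - 16250625) = 1)
    (hUe : V.valuation (j2 * j4 - 720 * j2 - 720 * j4 - 16250625) = 1)
    (h16 : V.valuation (t2 + 16) = 1)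
    (l1 : (j * j2 - 720 * j - 720 * j2 - 16250625) * t2
      = j2 ^ 2 + 4095 * j + 195120 * j2 + 660960000)
    (l2 : (j2 * j4 - 720 * j2 - 720 * j4 - 16250625) * t2e
      = j4 ^ 2 + 4095 * j2 + 195120 * j4 + 660960000)
    (l3 : t4 * (t2 + 16) = t2e - 16 * t2)
    (l1' : (j' * j2' - 720 * j' - 720 * j2' - 16250625) * t2'
      = j2' ^ 2 + 4095 * j' + 195120 * j2' + 660960000)
    (l2' : (j2' * j4' - 720 * j2' - 720 * j4' - 16250625) * t2e'
      = j4' ^ 2 + 4095 * j2' + 195120 * j4' + 660960000)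
    (l3' : t4' * (t2' + 16) = t2e' - 16 * t2') :
    t4 ∈ V ∧ t4' ∈ V ∧ t4' - t4 ∈ V.nonunits := by
  obtain ⟨ht2, ht2', d2⟩ := t2_congr V hj hj2 c1 c2 hU l1 l1'
  obtain ⟨ht2e, ht2e', d2e⟩ := t2_congr V hj2 hj4 c2 c4 hUe l2 l2'
  have h16V : (16 : L) ∈ V := ofNat_mem V 16
  refine lin_congr V (U := t2 + 16) (U' := t2' + 16) (W := t2e - 16 * t2)
    (W' := t2e' - 16 * t2') h16 (sub_mem ht2e (mul_mem h16V ht2))
    (sub_mem ht2e' (mul_mem h16V ht2')) (by rw [mul_comm]; exact l3)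
    (by rw [mul_comm]; exact l3') ?_ ?_
  · have e : t2' + 16 - (t2 + 16) = t2' - t2 := by ring
    rw [e]; exact d2
  · have e : t2e' - 16 * t2' - (t2e - 16 * t2) = (t2e' - t2e) - 16 * (t2' - t2) := by ring
    rw [e]
    exact sub_mem d2e (mul_mem_nonunits_of_mem V h16V d2)

end Fermat.Agent.S36.H878

end
-- ===== PACK-END S36/H878/Congr4.lean

-- ===== PACK-BEGIN S36/H934/Transfer9.lean
section




/-!
# Transfer of the residue of `x ^ N / U` from `j` to the Hauptmodul `t₉` (helper934, S36 REG / R4)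

Mathlib only; the level-`9` mirror (`q = 2` path) of helper878's `Transfer4`.

`t₉ = (η(z)/η(9z))³` is the Hauptmodul of `Γ₀(9)`; with `Q = t₉² + 9 t₉ + 27` one has

  `j · t₉⁹ · Q = (t₉ + 9)³ (t₉³ + 243 t₉² + 2187 t₉ + 6561)³`,
  `(j - 1728) · t₉⁹ · Q = (t₉⁶ - 486 t₉⁵ - 24057 t₉⁴ - 367416 t₉³ - 2657205 t₉² - 9565938 t₉
      - 14348907)²`,
  `(θ t₉)⁶ · t₉³ = Δ · Q⁵`,   i.e.  `J'(X)⁶ · Q(X)⁵ = J(X)⁴ (J(X) - 1728)³ · X³`.

`V` a valuation subring of a field `L` (application: `V = V_mid`), and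

* `j₁ = α(j)`, `j₂ = γ(j)`, `h₁ = α(t₉)`, `h₂ = γ(t₉)` (`γ : f(t) ↦ f(t^{q²})`);
* `h₁`, `Q(h₁)`, `j₁`, `j₁ - 1728` units of `V`, `h₂ ∈ V`, `h₂ - h₁ ∈ 𝔪_V`;
* `hres` for `j`: `((j₂ - j₁) ^ (6k) - (j₁⁴ (j₁ - 1728)³) ^ k · U) / U ∈ 𝔪_V`.

Then `hres` holds for `t₉` with `g₉ = Q(h₁)⁵ / h₁³`:
`((h₂ - h₁) ^ (6k) - g₉ ^ k · U) / U ∈ 𝔪_V`.

Since `t₉` and `Q(t₉)` divide powers of `3` in the non-cuspidal chart, `g₉` is a unit of the
whole non-cuspidal chart in residue characteristic `≠ 3` (in particular for `q = 2`).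
-/

set_option autoImplicit false

namespace Fermat.Agent.S36.H934

open IsLocalRing

variable {L : Type*} [Field L]

/-- The numerator `P₉(X) = (X + 9)(X³ + 243 X² + 2187 X + 6561)` of `J₉ = P₉³ / D₉`. -/
def p9 {S : Type*} [CommRing S] (a : S) : S :=
  (a + 9) * (a ^ 3 + 243 * a ^ 2 + 2187 * a + 6561)

/-- The denominator `D₉(X) = X⁹ (X² + 9 X + 27)` of `J₉ = P₉³ / D₉`. -/
def d9 {S : Type*} [CommRing S] (a : S) : S := a ^ 9 * (a ^ 2 + 9 * a + 27)

/-- `R₉(X)`, the square root of `P₉³ - 1728 D₉`. -/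
def r9 {S : Type*} [CommRing S] (a : S) : S :=
  a ^ 6 - 486 * a ^ 5 - 24057 * a ^ 4 - 367416 * a ^ 3 - 2657205 * a ^ 2 - 9565938 * a
    - 14348907

theorem p9_cube_sub {S : Type*} [CommRing S] (a : S) :
    p9 a ^ 3 - 1728 * d9 a = r9 a ^ 2 := by
  rw [p9, d9, r9]; ring

/-- The difference quotient of `P₉`. -/
def dqP9 {S : Type*} [CommRing S] (a b : S) : S :=
  (b ^ 3 + b ^ 2 * a + b * a ^ 2 + a ^ 3) + 252 * (b ^ 2 + b * a + a ^ 2) + 4374 * (b + a)
    + 26244

theorem dqP9_spec {S : Type*} [CommRing S] (a b : S) :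
    p9 b - p9 a = (b - a) * dqP9 a b := by
  rw [p9, p9, dqP9]; ring

/-- The difference quotient of `D₉`. -/
def dqD9 {S : Type*} [CommRing S] (a b : S) : S :=
  (b ^ 10 + b ^ 9 * a + b ^ 8 * a ^ 2 + b ^ 7 * a ^ 3 + b ^ 6 * a ^ 4 + b ^ 5 * a ^ 5
      + b ^ 4 * a ^ 6 + b ^ 3 * a ^ 7 + b ^ 2 * a ^ 8 + b * a ^ 9 + a ^ 10)
    + 9 * (b ^ 9 + b ^ 8 * a + b ^ 7 * a ^ 2 + b ^ 6 * a ^ 3 + b ^ 5 * a ^ 4 + b ^ 4 * a ^ 5
      + b ^ 3 * a ^ 6 + b ^ 2 * a ^ 7 + b * a ^ 8 + a ^ 9)
    + 27 * (b ^ 8 + b ^ 7 * a + b ^ 6 * a ^ 2 + b ^ 5 * a ^ 3 + b ^ 4 * a ^ 4 + b ^ 3 * a ^ 5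
      + b ^ 2 * a ^ 6 + b * a ^ 7 + a ^ 8)

theorem dqD9_spec {S : Type*} [CommRing S] (a b : S) :
    d9 b - d9 a = (b - a) * dqD9 a b := by
  rw [d9, d9, dqD9]; ring

/-- The difference quotient of `J₉ = P₉³ / D₉`, cleared of denominators:
`P₉(b)³ D₉(a) - P₉(a)³ D₉(b) = (b - a) · dq9 a b`. -/
def dq9 {S : Type*} [CommRing S] (a b : S) : S :=
  dqP9 a b * (p9 b ^ 2 + p9 b * p9 a + p9 a ^ 2) * d9 a - p9 a ^ 3 * dqD9 a b

theorem dq9_spec {S : Type*} [CommRing S] (a b : S) :
    p9 b ^ 3 * d9 a - p9 a ^ 3 * d9 b = (b - a) * dq9 a b := by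
  have hP := dqP9_spec a b
  have hD := dqD9_spec a b
  rw [dq9]
  linear_combination ((p9 b ^ 2 + p9 b * p9 a + p9 a ^ 2) * d9 a) * hP - (p9 a ^ 3) * hD

theorem dqP9_diag {S : Type*} [CommRing S] (a : S) :
    dqP9 a a = 4 * a ^ 3 + 756 * a ^ 2 + 8748 * a + 26244 := by
  rw [dqP9]; ring

theorem dqD9_diag {S : Type*} [CommRing S] (a : S) :
    dqD9 a a = 11 * a ^ 10 + 90 * a ^ 9 + 243 * a ^ 8 := by
  rw [dqD9]; ring

theorem dq9_diag {S : Type*} [CommRing S] (a : S) :
    dq9 a a = p9 a ^ 2 * a ^ 8 * r9 a := by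
  rw [dq9, dqP9_diag, dqD9_diag]
  have e : (4 * a ^ 3 + 756 * a ^ 2 + 8748 * a + 26244) * (3 * d9 a)
      - p9 a * (11 * a ^ 10 + 90 * a ^ 9 + 243 * a ^ 8) = a ^ 8 * r9 a := by
    rw [p9, d9, r9]; ring
  linear_combination (p9 a ^ 2) * e

theorem map_p9 {S T : Type*} [CommRing S] [CommRing T] (f : S →+* T) (a : S) :
    f (p9 a) = p9 (f a) := by
  simp only [p9, map_mul, map_add, map_pow, map_ofNat]

theorem map_d9 {S T : Type*} [CommRing S] [CommRing T] (f : S →+* T) (a : S) :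
    f (d9 a) = d9 (f a) := by
  simp only [d9, map_mul, map_add, map_pow, map_ofNat]

theorem map_dqP9 {S T : Type*} [CommRing S] [CommRing T] (f : S →+* T) (a b : S) :
    f (dqP9 a b) = dqP9 (f a) (f b) := by
  simp only [dqP9, map_mul, map_add, map_pow, map_ofNat]

theorem map_dqD9 {S T : Type*} [CommRing S] [CommRing T] (f : S →+* T) (a b : S) :
    f (dqD9 a b) = dqD9 (f a) (f b) := by
  simp only [dqD9, map_mul, map_add, map_pow, map_ofNat]

theorem map_dq9 {S T : Type*} [CommRing S] [CommRing T] (f : S →+* T) (a b : S) :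
    f (dq9 a b) = dq9 (f a) (f b) := by
  simp only [dq9, map_sub, map_mul, map_add, map_pow, map_p9, map_d9, map_dqP9, map_dqD9]

/-- The residue-field identity behind the transfer (denominator-free form):
`Q⁵ · (dq9 a a)⁶ = c⁴ (c - 1728)³ · a³ · (D₉ D₉)⁶` whenever `c · D₉(a) = P₉(a)³`. -/
theorem res_alg9 {κ : Type*} [CommRing κ] (a c : κ) (hJ : c * d9 a = p9 a ^ 3) :
    (a ^ 2 + 9 * a + 27) ^ 5 * (p9 a ^ 2 * a ^ 8 * r9 a) ^ 6
      = (c ^ 4 * (c - 1728) ^ 3) * a ^ 3 * (d9 a * d9 a) ^ 6 := by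
  have hJ' : (c - 1728) * d9 a = r9 a ^ 2 := by
    linear_combination hJ + p9_cube_sub a
  have hD : d9 a = a ^ 9 * (a ^ 2 + 9 * a + 27) := rfl
  have h4 := congrArg (fun x => x ^ 4) hJ
  have h3 := congrArg (fun x => x ^ 3) hJ'
  beta_reduce at h4 h3
  generalize p9 a = P at *
  generalize r9 a = R at *
  generalize d9 a = D at *
  generalize a ^ 2 + 9 * a + 27 = Q at *
  subst hD
  linear_combination
    (-(a ^ 3 * (a ^ 9 * Q) ^ 5 * ((c - 1728) * (a ^ 9 * Q)) ^ 3)) * h4
      - (a ^ 3 * (a ^ 9 * Q) ^ 5 * (P ^ 3) ^ 4) * h3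

/-- **Transfer of `hres` from `j` to `t₉`**, general form: `g` any element of `L` with
`g · h₁³ = Q(h₁)⁵`. -/
theorem hres_transfer9_of_eq (V : ValuationSubring L) (j₁ j₂ h₁ h₂ U g : L) (k : ℕ)
    (hJ₁ : j₁ * (h₁ ^ 9 * (h₁ ^ 2 + 9 * h₁ + 27))
      = ((h₁ + 9) * (h₁ ^ 3 + 243 * h₁ ^ 2 + 2187 * h₁ + 6561)) ^ 3)
    (hJ₂ : j₂ * (h₂ ^ 9 * (h₂ ^ 2 + 9 * h₂ + 27))
      = ((h₂ + 9) * (h₂ ^ 3 + 243 * h₂ ^ 2 + 2187 * h₂ + 6561)) ^ 3)
    (hh₁ : V.valuation h₁ = 1) (hh₁' : V.valuation (h₁ ^ 2 + 9 * h₁ + 27) = 1)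
    (hj₁ : V.valuation j₁ = 1) (hj₁' : V.valuation (j₁ - 1728) = 1)
    (hh₂ : h₂ ∈ V) (hx : h₂ - h₁ ∈ V.nonunits)
    (hg : g * h₁ ^ 3 = (h₁ ^ 2 + 9 * h₁ + 27) ^ 5)
    (hres : ((j₂ - j₁) ^ (6 * k) - (j₁ ^ 4 * (j₁ - 1728) ^ 3) ^ k * U) * U⁻¹ ∈ V.nonunits) :
    ((h₂ - h₁) ^ (6 * k) - g ^ k * U) * U⁻¹ ∈ V.nonunits := by
  classical
  by_cases hU : U = 0
  · -- degenerate: `U⁻¹ = 0`
    rw [hU, inv_zero, mul_zero]
    rw [ValuationSubring.mem_nonunits_iff, map_zero]
    exact zero_lt_one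
  have hJ₁' : j₁ * d9 h₁ = p9 h₁ ^ 3 := hJ₁
  have hJ₂' : j₂ * d9 h₂ = p9 h₂ ^ 3 := hJ₂
  -- elements of `V`
  have h₁V : h₁ ∈ V := (V.valuation_le_one_iff _).1 hh₁.le
  have j₁V : j₁ ∈ V := (V.valuation_le_one_iff _).1 hj₁.le
  have h₁0 : h₁ ≠ 0 := fun h0 => by rw [h0, map_zero] at hh₁; exact zero_ne_one hh₁
  -- `g ∈ V`
  have hgv : V.valuation g = 1 := by
    have h := congrArg V.valuation hg
    rw [map_mul, map_pow, map_pow, hh₁, hh₁', one_pow, one_pow, mul_one] at h
    exact h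
  have gV : g ∈ V := (V.valuation_le_one_iff _).1 hgv.le
  -- `Yj = (j₂ - j₁)^(6k) / U ∈ V`
  have hYj : (j₂ - j₁) ^ (6 * k) * U⁻¹ - (j₁ ^ 4 * (j₁ - 1728) ^ 3) ^ k ∈ V.nonunits := by
    have e : (j₂ - j₁) ^ (6 * k) * U⁻¹ - (j₁ ^ 4 * (j₁ - 1728) ^ 3) ^ k
        = ((j₂ - j₁) ^ (6 * k) - (j₁ ^ 4 * (j₁ - 1728) ^ 3) ^ k * U) * U⁻¹ := by
      field_simp
    rw [e]; exact hres
  have hgjV : (j₁ ^ 4 * (j₁ - 1728) ^ 3) ^ k ∈ V :=
    pow_mem (mul_mem (pow_mem j₁V _) (pow_mem (sub_mem j₁V (ofNat_mem V 1728)) _)) _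
  have hYjV : (j₂ - j₁) ^ (6 * k) * U⁻¹ ∈ V := by
    have h1 : (j₂ - j₁) ^ (6 * k) * U⁻¹ - (j₁ ^ 4 * (j₁ - 1728) ^ 3) ^ k ∈ V :=
      (V.valuation_le_one_iff _).1 ((V.mem_nonunits_iff).1 hYj).le
    have := add_mem h1 hgjV
    simpa using this
  generalize hYjL : (j₂ - j₁) ^ (6 * k) * U⁻¹ = YjL at hYj hYjV
  lift h₁ to V using h₁V with a₁
  lift h₂ to V using hh₂ with a₂
  lift j₁ to V using j₁V with c₁
  lift g to V using gV with γ
  lift YjL to V using hYjV with Yj
  -- the residue map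
  let r : V →+* ResidueField V := residue V
  have hr0 : ∀ a : V, r a = 0 ↔ (a : L) ∈ V.nonunits := fun a => by
    rw [ValuationSubring.coe_mem_nonunits_iff]
    exact residue_eq_zero_iff a
  have hrne : ∀ a : V, V.valuation (a : L) = 1 → r a ≠ 0 := fun a ha h0 => by
    have := (V.mem_nonunits_iff).1 ((hr0 a).1 h0)
    rw [ha] at this
    exact lt_irrefl _ this
  have hrYj : r Yj = (r c₁ ^ 4 * (r c₁ - 1728) ^ 3) ^ k := by
    have h0 : r (Yj - (c₁ ^ 4 * (c₁ - 1728) ^ 3) ^ k) = 0 := (hr0 _).2 hYj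
    have h1 : r (Yj - (c₁ ^ 4 * (c₁ - 1728) ^ 3) ^ k)
        = r Yj - (r c₁ ^ 4 * (r c₁ - 1728) ^ 3) ^ k := by
      simp only [map_sub, map_mul, map_pow, map_ofNat]
    rw [h1, sub_eq_zero] at h0
    exact h0
  -- `r a₂ = r a₁`
  have hra : r a₂ = r a₁ := by
    have h0 : r (a₂ - a₁) = 0 := (hr0 _).2 hx
    rwa [map_sub, sub_eq_zero] at h0
  -- units
  have hra₁ : r a₁ ≠ 0 := hrne a₁ hh₁
  have hra₁' : r a₁ ^ 2 + 9 * r a₁ + 27 ≠ 0 := by
    have := hrne (a₁ ^ 2 + 9 * a₁ + 27) hh₁'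
    rwa [map_add, map_add, map_mul, map_pow, map_ofNat, map_ofNat] at this
  have hrc₁ : r c₁ ≠ 0 := hrne c₁ hj₁
  have hrc₁' : r c₁ - 1728 ≠ 0 := by
    have := hrne (c₁ - 1728) hj₁'
    rwa [map_sub, map_ofNat] at this
  have hrD : d9 (r a₁) ≠ 0 := mul_ne_zero (pow_ne_zero _ hra₁) hra₁'
  -- the relations in the residue field
  have hJr : r c₁ * d9 (r a₁) = p9 (r a₁) ^ 3 := by
    have h : c₁ * d9 a₁ = p9 a₁ ^ 3 := Subtype.ext hJ₁'
    have := congrArg r h
    rwa [map_mul, map_pow, map_d9, map_p9] at this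
  have hJr' : (r c₁ - 1728) * d9 (r a₁) = r9 (r a₁) ^ 2 := by
    linear_combination hJr + p9_cube_sub (r a₁)
  have hgr : r γ * r a₁ ^ 3 = (r a₁ ^ 2 + 9 * r a₁ + 27) ^ 5 := by
    have h : γ * a₁ ^ 3 = (a₁ ^ 2 + 9 * a₁ + 27) ^ 5 := Subtype.ext hg
    have := congrArg r h
    simpa only [map_mul, map_pow, map_add, map_ofNat] using this
  -- the difference quotient
  have hrB : r (dq9 a₁ a₂) = p9 (r a₁) ^ 2 * r a₁ ^ 8 * r9 (r a₁) := by
    rw [map_dq9, hra, dq9_diag]
  have hP : p9 (r a₁) ≠ 0 := by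
    intro h
    rw [h] at hJr
    exact (mul_ne_zero hrc₁ hrD) (by rw [hJr]; ring)
  have hR : r9 (r a₁) ≠ 0 := by
    intro h
    rw [h] at hJr'
    exact (mul_ne_zero hrc₁' hrD) (by rw [hJr']; ring)
  have hrB0 : r (dq9 a₁ a₂) ≠ 0 := by
    rw [hrB]
    exact mul_ne_zero (mul_ne_zero (pow_ne_zero _ hP) (pow_ne_zero _ hra₁)) hR
  have hBunit : IsUnit (dq9 a₁ a₂) := by
    by_contra hnu
    exact hrB0 ((residue_eq_zero_iff _).2 ((mem_maximalIdeal _).2 hnu))
  obtain ⟨Bu, hBu⟩ := hBunit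
  -- the key identity in `L`
  have hBL : ((dq9 a₁ a₂ : V) : L) = dq9 (a₁ : L) (a₂ : L) := rfl
  have hkeyL : (j₂ - (c₁ : L)) * (d9 (a₁ : L) * d9 (a₂ : L))
      = ((a₂ : L) - a₁) * dq9 (a₁ : L) (a₂ : L) := by
    rw [← dq9_spec]
    linear_combination (d9 (a₁ : L)) * hJ₂' - (d9 (a₂ : L)) * hJ₁'
  -- `Y = x^(6k)/U = Yj · A^(6k) / B^(6k) ∈ V`
  obtain ⟨A, hA⟩ : ∃ A : V, A = d9 a₁ * d9 a₂ := ⟨_, rfl⟩
  have hAL : (A : L) = d9 (a₁ : L) * d9 (a₂ : L) := by
    rw [hA]; rfl
  obtain ⟨Y, hY⟩ : ∃ Y : V, Y = Yj * A ^ (6 * k) * ((Bu⁻¹ : Vˣ) : V) ^ (6 * k) := ⟨_, rfl⟩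
  have hYB : Y * (dq9 a₁ a₂) ^ (6 * k) = Yj * A ^ (6 * k) := by
    rw [hY, ← hBu, mul_assoc, ← mul_pow, Units.inv_mul, one_pow, mul_one]
  have hYL : (Y : L) = ((a₂ : L) - a₁) ^ (6 * k) * U⁻¹ := by
    have hB0 : (dq9 (a₁ : L) (a₂ : L)) ^ (6 * k) ≠ 0 := by
      apply pow_ne_zero
      intro h
      apply hrB0
      have : dq9 a₁ a₂ = 0 := Subtype.ext (hBL.trans h)
      rw [this, map_zero]
    apply mul_right_cancel₀ hB0
    have h1 : (Y : L) * (dq9 (a₁ : L) (a₂ : L)) ^ (6 * k) = (Yj : L) * (A : L) ^ (6 * k) :=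
      congrArg (fun z : V => (z : L)) hYB
    have h6 : (j₂ - (c₁ : L)) ^ (6 * k) * (A : L) ^ (6 * k)
        = ((a₂ : L) - a₁) ^ (6 * k) * (dq9 (a₁ : L) (a₂ : L)) ^ (6 * k) := by
      rw [← mul_pow, ← mul_pow, hAL, hkeyL]
    rw [h1, ← hYjL]
    generalize (j₂ - (c₁ : L)) ^ (6 * k) = J6 at h6 ⊢
    generalize (A : L) ^ (6 * k) = A6 at h6 ⊢
    generalize ((a₂ : L) - a₁) ^ (6 * k) = X6 at h6 ⊢
    generalize (dq9 (a₁ : L) (a₂ : L)) ^ (6 * k) = D6 at h6 ⊢
    linear_combination U⁻¹ * h6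
  -- residue of `Y`
  have hrY : r Y = r γ ^ k := by
    have h1 := congrArg r hYB
    rw [map_mul, map_mul, map_pow, map_pow, hrYj, hrB] at h1
    have hrA : r A = d9 (r a₁) * d9 (r a₁) := by
      rw [hA, map_mul, map_d9, map_d9, hra]
    rw [hrA] at h1
    have hW0 : (p9 (r a₁) ^ 2 * r a₁ ^ 8 * r9 (r a₁)) ^ (6 * k) ≠ 0 := by
      rw [← hrB]; exact pow_ne_zero _ hrB0
    have ha3 : (r a₁ ^ 3) ^ k ≠ 0 := pow_ne_zero _ (pow_ne_zero _ hra₁)
    apply mul_right_cancel₀ hW0
    apply mul_right_cancel₀ ha3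
    rw [h1]
    have key := res_alg9 (r a₁) (r c₁) hJr
    have e1 : r γ ^ k * (p9 (r a₁) ^ 2 * r a₁ ^ 8 * r9 (r a₁)) ^ (6 * k) * (r a₁ ^ 3) ^ k
        = ((r γ * r a₁ ^ 3) * (p9 (r a₁) ^ 2 * r a₁ ^ 8 * r9 (r a₁)) ^ 6) ^ k := by
      rw [pow_mul, ← mul_pow, ← mul_pow]; ring_nf
    have e2 : (r c₁ ^ 4 * (r c₁ - 1728) ^ 3) ^ k * (d9 (r a₁) * d9 (r a₁)) ^ (6 * k)
          * (r a₁ ^ 3) ^ k
        = ((r c₁ ^ 4 * (r c₁ - 1728) ^ 3) * r a₁ ^ 3 * (d9 (r a₁) * d9 (r a₁)) ^ 6) ^ k := by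
      rw [pow_mul, ← mul_pow, ← mul_pow]; ring_nf
    rw [e1, e2, hgr, key]
  -- conclusion
  have hfin : r (Y - γ ^ k) = 0 := by
    rw [map_sub, hrY, map_pow, sub_self]
  have hmem := (hr0 _).1 hfin
  have e : ((a₂ : L) - a₁) ^ (6 * k) * U⁻¹ - (γ : L) ^ k
      = (((a₂ : L) - a₁) ^ (6 * k) - (γ : L) ^ k * U) * U⁻¹ := by
    field_simp
  rw [← e, ← hYL]
  exact hmem

/-- **Transfer of `hres` from `j` to `t₉`**, with `g₉ = Q(h₁)⁵ · (h₁³)⁻¹`. -/
theorem hres_transfer9 (V : ValuationSubring L) (j₁ j₂ h₁ h₂ U : L) (k : ℕ)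
    (hJ₁ : j₁ * (h₁ ^ 9 * (h₁ ^ 2 + 9 * h₁ + 27))
      = ((h₁ + 9) * (h₁ ^ 3 + 243 * h₁ ^ 2 + 2187 * h₁ + 6561)) ^ 3)
    (hJ₂ : j₂ * (h₂ ^ 9 * (h₂ ^ 2 + 9 * h₂ + 27))
      = ((h₂ + 9) * (h₂ ^ 3 + 243 * h₂ ^ 2 + 2187 * h₂ + 6561)) ^ 3)
    (hh₁ : V.valuation h₁ = 1) (hh₁' : V.valuation (h₁ ^ 2 + 9 * h₁ + 27) = 1)
    (hj₁ : V.valuation j₁ = 1) (hj₁' : V.valuation (j₁ - 1728) = 1)
    (hh₂ : h₂ ∈ V) (hx : h₂ - h₁ ∈ V.nonunits)
    (hres : ((j₂ - j₁) ^ (6 * k) - (j₁ ^ 4 * (j₁ - 1728) ^ 3) ^ k * U) * U⁻¹ ∈ V.nonunits) :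
    ((h₂ - h₁) ^ (6 * k) - ((h₁ ^ 2 + 9 * h₁ + 27) ^ 5 * (h₁ ^ 3)⁻¹) ^ k * U) * U⁻¹
      ∈ V.nonunits := by
  have h₁0 : h₁ ≠ 0 := fun h0 => by rw [h0, map_zero] at hh₁; exact zero_ne_one hh₁
  refine hres_transfer9_of_eq V j₁ j₂ h₁ h₂ U _ k hJ₁ hJ₂ hh₁ hh₁' hj₁ hj₁' hh₂ hx ?_ hres
  have h3 : h₁ ^ 3 ≠ 0 := pow_ne_zero _ h₁0
  rw [mul_assoc, inv_mul_cancel₀ h3, mul_one]

/-- **Transfer of `hres` from `j` to `t₉`**, hypotheses literally in the shape of helper890's
`Haupt9.jq_mul_t9` (`Q = h² + 9 h + 27`):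
`j · (h⁹ · Q) = (h + 9)³ · (h³ + 243 · Q)³`. -/
theorem hres_transfer9_shape (V : ValuationSubring L) (j₁ j₂ h₁ h₂ U : L) (k : ℕ)
    (hJ₁ : j₁ * (h₁ ^ 9 * (h₁ ^ 2 + 9 * h₁ + 27))
      = (h₁ + 9) ^ 3 * (h₁ ^ 3 + 243 * (h₁ ^ 2 + 9 * h₁ + 27)) ^ 3)
    (hJ₂ : j₂ * (h₂ ^ 9 * (h₂ ^ 2 + 9 * h₂ + 27))
      = (h₂ + 9) ^ 3 * (h₂ ^ 3 + 243 * (h₂ ^ 2 + 9 * h₂ + 27)) ^ 3)
    (hh₁ : V.valuation h₁ = 1) (hh₁' : V.valuation (h₁ ^ 2 + 9 * h₁ + 27) = 1)
    (hj₁ : V.valuation j₁ = 1) (hj₁' : V.valuation (j₁ - 1728) = 1)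
    (hh₂ : h₂ ∈ V) (hx : h₂ - h₁ ∈ V.nonunits)
    (hres : ((j₂ - j₁) ^ (6 * k) - (j₁ ^ 4 * (j₁ - 1728) ^ 3) ^ k * U) * U⁻¹ ∈ V.nonunits) :
    ((h₂ - h₁) ^ (6 * k) - ((h₁ ^ 2 + 9 * h₁ + 27) ^ 5 * (h₁ ^ 3)⁻¹) ^ k * U) * U⁻¹
      ∈ V.nonunits :=
  hres_transfer9 V j₁ j₂ h₁ h₂ U k (by linear_combination hJ₁) (by linear_combination hJ₂)
    hh₁ hh₁' hj₁ hj₁' hh₂ hx hres

end Fermat.Agent.S36.H934

end
-- ===== PACK-END S36/H934/Transfer9.lean

-- ===== PACK-BEGIN S36/Mod3/H860/SheetAbs.lean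
section


/-!
# S36 / MOD3 — leaf SHEET, abstract part (helper860; Mathlib only)

`V` a valuation ring of a field `F`.

* `mem_nonunits_comap_iff`, `inv_mem_of_sub_mem_nonunits`, `aeval_sub_aeval_mem_nonunits`,
  `not_C_dvd_expand` : small tools;
* `eval₂_aeval_mem`, `eval₂_kron` : evaluation of two-variable integral polynomials;
* `exists_pow_congr` : if `b ≡ a ^ q` and `(c ^ q - b) (c - b ^ q) ≡ 0` modulo `𝔪_V` (residue
  characteristic `q`), then `a b c ≡ a ^ k` for some `k > 0`;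
* `gauss_mid_abs` : the Gauss property of `x = α(j) α(j_q) c` at a valuation ring `V` lying over
  `V'` along `α`, from the Gauss property of `j` at `V'`.
-/

set_option autoImplicit false
set_option linter.style.haveILetI false
set_option linter.unusedSectionVars false
set_option linter.unusedVariables false

noncomputable section

namespace Fermat.Agent.S36.Mod3.H860

open Polynomial

section Tools

variable {R F F' : Type*} [CommRing R] [Field F] [Algebra R F] [Field F']

/-- Nonunits of the pull-back of a valuation ring along a homomorphism of fields. -/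
theorem mem_nonunits_comap_iff (V : ValuationSubring F) (α : F' →+* F) (f : F') :
    f ∈ (V.comap α).nonunits ↔ α f ∈ V.nonunits := by
  rw [ValuationSubring.mem_nonunits_iff_or, ValuationSubring.mem_nonunits_iff_or,
    ValuationSubring.mem_comap, map_inv₀, map_eq_zero]

/-- a unit plus a non-unit is a unit (inverse form) -/
theorem inv_mem_of_sub_mem_nonunits (V : ValuationSubring F) {a b : F} (hb0 : b ≠ 0)
    (hb : b ∈ V) (hbi : b⁻¹ ∈ V) (hab : a - b ∈ V.nonunits) : a⁻¹ ∈ V := by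
  have h1 : V.valuation b = 1 := by
    apply le_antisymm ((V.valuation_le_one_iff _).mpr hb)
    have h2 : V.valuation b⁻¹ ≤ 1 := (V.valuation_le_one_iff _).mpr hbi
    rw [map_inv₀] at h2
    have hv0 : V.valuation b ≠ 0 := (Valuation.ne_zero_iff _).mpr hb0
    exact (inv_le_one₀ (zero_lt_iff.mpr hv0)).mp h2
  have h3 : V.valuation (a - b) < 1 := (V.mem_nonunits_iff).mp hab
  have h4 : V.valuation a = 1 := by
    have e : a = b + (a - b) := by ring
    rw [e, ← h1]
    exact Valuation.map_add_eq_of_lt_left _ (by rw [h1]; exact h3)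
  rw [← V.valuation_le_one_iff, map_inv₀, h4, inv_one]

/-- polynomial congruence modulo the maximal ideal of a valuation ring -/
theorem aeval_sub_aeval_mem_nonunits (V : ValuationSubring F)
    (hbase : ∀ r : R, algebraMap R F r ∈ V) {x y : F} (hx : x ∈ V) (hy : y ∈ V)
    (hxy : x - y ∈ V.nonunits) (p : Polynomial R) :
    aeval x p - aeval y p ∈ V.nonunits := by
  set ρ : R →+* V := (algebraMap R F).codRestrict V.toSubring hbase with hρ
  have hsub : (V.subtype : V →+* F).comp ρ = algebraMap R F := by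
    ext r; rfl
  have hcoe : ∀ z : V, ((p.eval₂ ρ z : V) : F) = aeval (z : F) p := by
    intro z
    have h := Polynomial.hom_eval₂ p ρ (V.subtype : V →+* F) z
    rw [hsub] at h
    rw [Polynomial.aeval_def]
    exact h
  have hdvd : (⟨x, hx⟩ - ⟨y, hy⟩ : V) ∣ (p.map ρ).eval ⟨x, hx⟩ - (p.map ρ).eval ⟨y, hy⟩ :=
    Polynomial.sub_dvd_eval_sub _ _ _
  obtain ⟨c, hc⟩ := hdvd
  rw [Polynomial.eval_map, Polynomial.eval_map] at hc
  have hc' : aeval x p - aeval y p = (x - y) * (c : F) := by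
    have h := congrArg (V.subtype : V →+* F) hc
    rw [map_sub, map_mul, map_sub] at h
    rw [← hcoe ⟨x, hx⟩, ← hcoe ⟨y, hy⟩]
    exact h
  rw [hc', V.mem_nonunits_iff, map_mul]
  calc V.valuation (x - y) * V.valuation (c : F)
      ≤ V.valuation (x - y) * 1 := mul_le_mul' le_rfl ((V.valuation_le_one_iff _).mpr c.2)
    _ = V.valuation (x - y) := mul_one _
    _ < 1 := (V.mem_nonunits_iff).mp hxy

/-- `w ∤ p ⟹ w ∤ p(X^k)` -/
theorem not_C_dvd_expand {w : R} {k : ℕ} (hk : 0 < k) {p : Polynomial R}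
    (hp : ¬ Polynomial.C w ∣ p) : ¬ Polynomial.C w ∣ Polynomial.expand R k p := by
  intro h
  apply hp
  rw [Polynomial.C_dvd_iff_dvd_coeff] at h ⊢
  intro i
  have := h (i * k)
  rwa [Polynomial.coeff_expand_mul hk] at this

theorem not_C_dvd_of_exists_coeff {w : R} {p : Polynomial R}
    (hp : ∃ i, ¬ w ∣ p.coeff i) : ¬ Polynomial.C w ∣ p := by
  obtain ⟨i, hi⟩ := hp
  intro h
  exact hi ((Polynomial.C_dvd_iff_dvd_coeff _ _).mp h i)

end Tools

section Kron

variable {F : Type*} [Field F]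

/-- evaluation of a two-variable integral polynomial at elements of a valuation ring -/
theorem eval₂_aeval_mem (V : ValuationSubring F) {b c : F} (hb : b ∈ V) (hc : c ∈ V)
    (Θ : Polynomial (Polynomial ℤ)) :
    Θ.eval₂ (Polynomial.aeval (R := ℤ) b).toRingHom c ∈ V := by
  have h := Polynomial.hom_eval₂ Θ (Polynomial.aeval (R := ℤ) (⟨b, hb⟩ : V)).toRingHom
    (V.subtype : V →+* F) ⟨c, hc⟩
  have hcomp : (V.subtype : V →+* F).comp (Polynomial.aeval (R := ℤ) (⟨b, hb⟩ : V)).toRingHom =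
      (Polynomial.aeval (R := ℤ) b).toRingHom := by
    apply Polynomial.ringHom_ext
    · intro n
      simp
    · simp
  rw [hcomp] at h
  have h' : Θ.eval₂ (Polynomial.aeval (R := ℤ) b).toRingHom c =
      ((Θ.eval₂ (Polynomial.aeval (R := ℤ) (⟨b, hb⟩ : V)).toRingHom ⟨c, hc⟩ : V) : F) := h.symm
  rw [h']
  exact Subtype.property _

/-- Kronecker's shape, evaluated -/
theorem eval₂_kron {S : Type*} [CommRing S] (q : ℕ) (Θ : Polynomial (Polynomial ℤ)) (b c : S) :
    (((Polynomial.X : Polynomial (Polynomial ℤ)) ^ q -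
          Polynomial.C (Polynomial.X : Polynomial ℤ)) *
        (Polynomial.X - Polynomial.C ((Polynomial.X : Polynomial ℤ) ^ q)) +
      Polynomial.C (Polynomial.C (q : ℤ)) * Θ).eval₂ (Polynomial.aeval (R := ℤ) b).toRingHom c =
    (c ^ q - b) * (c - b ^ q) + (q : S) * Θ.eval₂ (Polynomial.aeval (R := ℤ) b).toRingHom c := by
  simp [Polynomial.eval₂_add, Polynomial.eval₂_mul, Polynomial.eval₂_sub, Polynomial.eval₂_pow]

/-- the residue of `a b c` is a power of the residue of `a` -/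
theorem exists_pow_congr (V : ValuationSubring F) {q : ℕ} (hq : q.Prime)
    (hqV : (q : F) ∈ V.nonunits) {a b c T : F} (ha : a ∈ V) (hb : b ∈ V) (hc : c ∈ V)
    (hT : T ∈ V) (hfrob : b - a ^ q ∈ V.nonunits)
    (hkron : (c ^ q - b) * (c - b ^ q) + (q : F) * T = 0) :
    ∃ k : ℕ, 0 < k ∧ a * b * c - a ^ k ∈ V.nonunits := by
  haveI : Fact q.Prime := ⟨hq⟩
  set π := IsLocalRing.residue V with hπ
  set A : V := ⟨a, ha⟩ with hA
  set B : V := ⟨b, hb⟩ with hB
  set C : V := ⟨c, hc⟩ with hC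
  set T' : V := ⟨T, hT⟩ with hT'
  have hfrob' : π B = π A ^ q := by
    have h3 : ((B - A ^ q : V) : F) ∈ V.nonunits := hfrob
    rw [ValuationSubring.coe_mem_nonunits_iff, ← IsLocalRing.residue_eq_zero_iff, map_sub,
      map_pow, sub_eq_zero] at h3
    exact h3
  have hq0 : ((q : ℕ) : IsLocalRing.ResidueField V) = 0 := by
    have h3 : (((q : ℕ) : V) : F) ∈ V.nonunits := by
      simpa using hqV
    rw [ValuationSubring.coe_mem_nonunits_iff, ← IsLocalRing.residue_eq_zero_iff,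
      map_natCast] at h3
    exact h3
  haveI hCharP : CharP (IsLocalRing.ResidueField V) q :=
    (CharP.charP_iff_prime_eq_zero hq).mpr hq0
  have hκ : (π C ^ q - π B) * (π C - π B ^ q) = 0 := by
    have h0 : (C ^ q - B) * (C - B ^ q) + ((q : ℕ) : V) * T' = 0 := by
      apply Subtype.ext
      simpa using hkron
    have h := congrArg π h0
    rw [map_add, map_mul, map_mul, map_sub, map_sub, map_pow, map_pow, map_natCast, hq0,
      zero_mul, add_zero, map_zero] at h
    exact h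
  have key : ∀ k, π (A * B * C) = π A ^ k → a * b * c - a ^ k ∈ V.nonunits := by
    intro k hk
    have h3 : ((A * B * C - A ^ k : V) : F) ∈ V.nonunits := by
      rw [ValuationSubring.coe_mem_nonunits_iff, ← IsLocalRing.residue_eq_zero_iff, map_sub,
        map_pow, sub_eq_zero]
      exact hk
    exact h3
  rcases mul_eq_zero.mp hκ with hA | hB
  · have h1 : π C ^ q = π A ^ q := by
      rw [← hfrob']
      exact sub_eq_zero.mp hA
    haveI : ExpChar (IsLocalRing.ResidueField V) q := ExpChar.prime hq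
    have h2 : π C = π A := frobenius_inj (IsLocalRing.ResidueField V) q h1
    refine ⟨q + 2, by omega, key _ ?_⟩
    rw [map_mul, map_mul, hfrob', h2]
    ring
  · have h2 : π C = π B ^ q := sub_eq_zero.mp hB
    refine ⟨1 + q + q * q, by omega, key _ ?_⟩
    rw [map_mul, map_mul, h2, hfrob']
    ring

end Kron

section Mid

variable {R E F F' : Type*} [CommRing R] [Field E] [Algebra R E]
  [Field F] [Algebra E F] [Algebra R F] [IsScalarTower R E F]
  [Field F'] [Algebra E F'] [Algebra R F'] [IsScalarTower R E F']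

/-- **Abstract `gauss₂`.**  `V` lies over `V'` along `α`; `j, j_q ∈ V'` with `j_q ≡ j ^ q`;
`c` a root of `Φ(α j_q, Y)`, `Φ` of Kronecker's shape; `j` has the Gauss property at `V'`.  Then
`x = α(j) α(j_q) c` has the Gauss property at `V`. -/
theorem gauss_mid_abs (α : F' →ₐ[E] F) (V' : ValuationSubring F') (V : ValuationSubring F)
    (hmid : V.comap (α : F' →+* F) = V') (w : R) {q : ℕ} (hq : q.Prime)
    (hqV' : (q : F') ∈ V'.nonunits) (hbase' : ∀ r : R, algebraMap R F' r ∈ V')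
    {j jq : F'} {c : F} (hj : j ∈ V') (hjq : jq ∈ V') (hfrob : jq - j ^ q ∈ V'.nonunits)
    (Φ Θ : Polynomial (Polynomial ℤ)) (hΦ : Φ.Monic)
    (hΘ : Φ = ((Polynomial.X : Polynomial (Polynomial ℤ)) ^ q -
          Polynomial.C (Polynomial.X : Polynomial ℤ)) *
        (Polynomial.X - Polynomial.C ((Polynomial.X : Polynomial ℤ) ^ q)) +
      Polynomial.C (Polynomial.C (q : ℤ)) * Θ)
    (hmod : Φ.eval₂ (Polynomial.aeval (R := ℤ) (α jq)).toRingHom c = 0)
    (hgauss : ∀ p : Polynomial R, ¬ Polynomial.C w ∣ p →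
      aeval j p ≠ 0 ∧ aeval j p ∈ V' ∧ (aeval j p)⁻¹ ∈ V')
    (p : Polynomial R) (hp : ¬ Polynomial.C w ∣ p) :
    (aeval (α j * α jq * c) p)⁻¹ ∈ V := by
  have hmem : ∀ f, f ∈ V' → α f ∈ V := fun f hf => by
    rw [← hmid] at hf
    exact hf
  have hnon : ∀ f, f ∈ V'.nonunits → α f ∈ V.nonunits := fun f hf => by
    rw [← hmid, mem_nonunits_comap_iff] at hf
    exact hf
  have hbase : ∀ r : R, algebraMap R F r ∈ V := by
    intro r
    have e : α (algebraMap R F' r) = algebraMap R F r := by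
      rw [IsScalarTower.algebraMap_apply R E F', IsScalarTower.algebraMap_apply R E F,
        α.commutes]
    rw [← e]
    exact hmem _ (hbase' r)
  have hj1 : α j ∈ V := hmem _ hj
  have hjq1 : α jq ∈ V := hmem _ hjq
  -- `c` is integral over `ℤ[α j_q]`
  have hc : c ∈ V := by
    have hint : IsIntegral V c := by
      refine ⟨Φ.map (Polynomial.aeval (R := ℤ) (⟨α jq, hjq1⟩ : V)).toRingHom, hΦ.map _, ?_⟩
      rw [Polynomial.eval₂_map]
      rw [← hmod]
      congr 1
      apply Polynomial.ringHom_ext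
      · intro n
        simp
      · simp
    obtain ⟨y, hy⟩ := IsIntegrallyClosed.isIntegral_iff (R := V) (K := F) |>.mp hint
    rw [← hy]
    exact y.2
  have hqV : (q : F) ∈ V.nonunits := by
    have h := hnon _ hqV'
    rwa [map_natCast] at h
  have hfrob1 : α jq - α j ^ q ∈ V.nonunits := by
    have h := hnon _ hfrob
    rwa [map_sub, map_pow] at h
  have hkron : (c ^ q - α jq) * (c - α jq ^ q) +
      (q : F) * Θ.eval₂ (Polynomial.aeval (R := ℤ) (α jq)).toRingHom c = 0 := by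
    rw [← eval₂_kron, ← hΘ]
    exact hmod
  obtain ⟨k, hk0, hk⟩ := exists_pow_congr V hq hqV hj1 hjq1 hc
    (eval₂_aeval_mem V hjq1 hc Θ) hfrob1 hkron
  have hx : α j * α jq * c ∈ V := V.mul_mem _ _ (V.mul_mem _ _ hj1 hjq1) hc
  have hcong := aeval_sub_aeval_mem_nonunits V hbase hx (pow_mem hj1 k) hk p
  have hu := hgauss (Polynomial.expand R k p) (not_C_dvd_expand hk0 hp)
  have e : aeval (α j ^ k) p = α (aeval j (Polynomial.expand R k p)) := by
    rw [Polynomial.expand_aeval, ← map_pow]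
    exact Polynomial.aeval_algHom_apply (α.restrictScalars R) _ p
  refine inv_mem_of_sub_mem_nonunits V (b := aeval (α j ^ k) p) ?_ ?_ ?_ hcong
  · rw [e]
    exact (_root_.map_ne_zero _).mpr hu.1
  · rw [e]
    exact hmem _ hu.2.1
  · rw [e, ← map_inv₀]
    exact hmem _ hu.2.2

end Mid

end Fermat.Agent.S36.Mod3.H860

end

end
-- ===== PACK-END S36/Mod3/H860/SheetAbs.lean

-- ===== PACK-BEGIN S58/Spec.lean
section








/-!
# Row S59 / statement S58 (conductor–level matching) — frozen interface (architect helper41)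

`S58 ⇐ S35 + S36 + NEWFORM (descent, stab: on main) + the five leaves below`, glue in `S58/Glue.lean`.

Route.  `f` eigenform of level `N` for `W`; `descent` gives a newform `g` of level `M ∣ N`.
For a prime `lam` compare the `lam`-adic representation `ρ_g` of S35/S36 with the Tate module
`ρ_W` (leaf TATE): their Frobenius characteristic polynomials agree outside a finite set, hence
EVERYWHERE (leaf CHEB; only characteristic polynomials are ever compared — no isomorphism of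
representations is needed, since `IsUnipotentOnInertiaAt` is a statement on characteristic
polynomials).  Consequences:
* `a_ℓ(g) = a_ℓ(W)` for all good `ℓ ∤ M`, `ℓ ≠ lam`;
* `q² ∥ M`, `q ≠ p` is impossible (S36 at `lam = p`; `ρ_W` is unipotent on every inertia group);
* `q ∥ M`, `q` good is impossible (S35: `a_q(W) = ±(q+1)`, contradicting leaf COUNT).
Two primes `lam ∈ {p, p'}` cover all `q`, `ℓ`.  So `M ∣ rad Δ`, and `stab` raises `g` to level `rad Δ`.

Leaves (each a `Prop`; prove `theorem x : Fermat.Agent.S58.<Leaf>Statement`, own directory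
`Fermat/Agent/S58/H<seat>/`):

| leaf | content | sources |
|---|---|---|
| TATE  | `TateRepStatement`: Tate module of `W` over any complete DVR `O ∋ lam` (`lam` odd): Frobenius char. polys at good `ℓ ≠ lam`, unipotent inertia at ALL `q ≠ lam` | S59 layer CR (H127, H240, H667), Lib/Frob, Lib/Red |
| COEFF | `CoeffStatement`: a normalized eigenform has a Hecke character `chig` and a complete DVR `O' ∋ lam` receiving `chig.range` | S22 (finiteness), S30/S35 coefficient rings |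
| CHEB  | `ChebCharpolyStatement`: two `GaloisRepAdic O` with equal Frobenius char. polys outside a finite set have equal char. polys everywhere | Lib/Cheb, S54.exists_frobenius, S31/H982 |
| RES   | `ResidualStatement`: char. polys of `W` at almost all Frobenius ⇒ residual representation absolutely irreducible and odd (the hypothesis `hres` of S36) | S59/G4 (H178 Odd, H307 AbsIrr), Lib/Frob |
| COUNT | `PointCountStatement`: `a_q(W) ≠ ±(q+1)` (from `1 ≤ #E(𝔽_q) ≤ 2q+1`) | Mathlib only |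
| FROB  | `FrobExistsStatement`: Frobenius elements exist at every prime | S54 |
-/

set_option autoImplicit false

open Polynomial

namespace Fermat.Agent.S58

/-- `ℚ̄` -/
abbrev Qb : Type := AlgebraicClosure ℚ

/-- `Gal(ℚ̄/ℚ)` -/
abbrev GQ : Type := Qb ≃ₐ[ℚ] Qb

/-- The frozen statement S58. -/
def S58Statement : Prop :=
  ∀ (W : WeierstrassCurve ℤ) (_hss : W.IsSemistableModel) (N : ℕ)
    (p : ℕ) [Fact p.Prime] (_hp2 : p ≠ 2) (_hirr : W.ModRepIsIrreducible p)
    (_hp2N : ¬ p ^ 2 ∣ N)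
    (_hN : W.IsModularModelOfLevel N) (_hbad : ∀ ℓ : ℕ, ℓ.Prime → (ℓ : ℤ) ∣ W.Δ → ℓ ∣ N)
    (_hN3 : ∀ q : ℕ, q.Prime → ¬ q ^ 3 ∣ N),
    W.IsModularModelOfLevel W.conductorLevel

/-- The frozen statement S35 (as a hypothesis). -/
def S35Statement : Prop :=
  ∀ {M : ℕ} [NeZero M] {g : CuspForm (CongruenceSubgroup.Gamma0 M) 2} (_hg : g.IsNewform)
    (lam : ℕ) [Fact lam.Prime]
    (S : Finset ℕ)
    (O' : Type) [CommRing O'] [IsDomain O'] [IsDiscreteValuationRing O']
    [IsAdicComplete (IsLocalRing.maximalIdeal O') O'] [Finite (IsLocalRing.ResidueField O')]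
    [CharZero O'] (_hlamO' : (lam : O') ∈ IsLocalRing.maximalIdeal O')
    (chig : CuspForm.heckeAlgebra M 2 (↑S : Set ℕ) →+* ℂ)
    (_hchig : ∀ (ℓ : ℕ) (hℓ : ℓ.Prime) (hℓM : ¬ ℓ ∣ M) (hℓS : ℓ ∉ (↑S : Set ℕ)),
      chig (CuspForm.heckeAlgebra.T hℓ hℓM hℓS) = ModularFormClass.qCoeff g ℓ)
    (iota : chig.range →+* O')
    (_hlamS : lam ∈ S) (_hMS : ∀ q : ℕ, q.Prime → q ∣ M → q ∈ S),
    ∃ (O'' : Type) (_ : CommRing O'') (_ : IsDomain O'') (_ : IsDiscreteValuationRing O'')
      (_ : IsAdicComplete (IsLocalRing.maximalIdeal O'') O'') (_ : Finite (IsLocalRing.ResidueField O''))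
      (_ : CharZero O'') (_ : Algebra O' O'') (_ : Module.Finite O' O'') (_ : IsLocalHom (algebraMap O' O'')),
      Function.Injective (algebraMap O' O'') ∧
      ∃ ρ : GaloisRepAdic O'',
        (∀ (ℓ : ℕ) (hℓ : ℓ.Prime) (hℓM : ¬ ℓ ∣ M) (hℓS : ℓ ∉ (↑S : Set ℕ)),
          ∀ A : ValuationSubring (AlgebraicClosure ℚ), A.LiesOverPrime ℓ →
            ∀ σ : AlgebraicClosure ℚ ≃ₐ[ℚ] AlgebraicClosure ℚ, A.IsFrobeniusAt σ ℓ →
              LinearMap.charpoly (ρ.ρ σ) =
                X ^ 2 - C (algebraMap O' O'' ((iota.comp chig.rangeRestrict) (CuspForm.heckeAlgebra.T hℓ hℓM hℓS))) * X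
                  + C ((ℓ : O''))) ∧
        (∀ q : ℕ, q.Prime → q ≠ lam → q ∣ M → ¬ q ^ 2 ∣ M →
          ∀ A : ValuationSubring (AlgebraicClosure ℚ), A.LiesOverPrime q →
            ∀ σ : AlgebraicClosure ℚ ≃ₐ[ℚ] AlgebraicClosure ℚ, A.IsFrobeniusAt σ q →
              LinearMap.charpoly (ρ.ρ σ) = X ^ 2 - C ((q : O'') + 1) * X + C ((q : O'')) ∨
              LinearMap.charpoly (ρ.ρ σ) = X ^ 2 + C ((q : O'') + 1) * X + C ((q : O'')))

/-- The frozen statement S36 (as a hypothesis). -/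
def S36Statement : Prop :=
  ∀ {M : ℕ} [NeZero M] {g : CuspForm (CongruenceSubgroup.Gamma0 M) 2} (_hg : g.IsNewform)
    (lam : ℕ) [Fact lam.Prime]
    (S : Finset ℕ)
    (O' : Type) [CommRing O'] [IsDomain O'] [IsDiscreteValuationRing O']
    [IsAdicComplete (IsLocalRing.maximalIdeal O') O'] [Finite (IsLocalRing.ResidueField O')]
    [CharZero O'] (_hlamO' : (lam : O') ∈ IsLocalRing.maximalIdeal O')
    (_hlam2 : lam ≠ 2)
    (chig : CuspForm.heckeAlgebra M 2 (↑S : Set ℕ) →+* ℂ)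
    (_hchig : ∀ (ℓ : ℕ) (hℓ : ℓ.Prime) (hℓM : ¬ ℓ ∣ M) (hℓS : ℓ ∉ (↑S : Set ℕ)),
      chig (CuspForm.heckeAlgebra.T hℓ hℓM hℓS) = ModularFormClass.qCoeff g ℓ)
    (iota : chig.range →+* O')
    (_hlamS : lam ∈ S) (_hMS : ∀ q : ℕ, q.Prime → q ∣ M → q ∈ S)
    (_hres : ∀ (O'' : Type) [CommRing O''] [IsDomain O''] [IsDiscreteValuationRing O'']
      [IsAdicComplete (IsLocalRing.maximalIdeal O'') O''] [Finite (IsLocalRing.ResidueField O'')] [CharZero O'']
      [Algebra O' O''] [Module.Finite O' O''] [IsLocalHom (algebraMap O' O'')],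
      Function.Injective (algebraMap O' O'') → ∀ (ρ : GaloisRepAdic O''),
      (∀ (ℓ : ℕ) (hℓ : ℓ.Prime) (_hℓlam : ℓ ≠ lam) (hℓM : ¬ ℓ ∣ M) (hℓS : ℓ ∉ (↑S : Set ℕ)),
        ∀ A : ValuationSubring (AlgebraicClosure ℚ), A.LiesOverPrime ℓ →
          ∀ σ : AlgebraicClosure ℚ ≃ₐ[ℚ] AlgebraicClosure ℚ, A.IsFrobeniusAt σ ℓ →
            LinearMap.charpoly (ρ.ρ σ) =
              X ^ 2 - C (algebraMap O' O'' ((iota.comp chig.rangeRestrict) (CuspForm.heckeAlgebra.T hℓ hℓM hℓS))) * X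
                + C ((ℓ : O'')))
      → ρ.residual.IsAbsolutelyIrreducible ∧ ρ.residual.IsOdd),
    ∃ (O'' : Type) (_ : CommRing O'') (_ : IsDomain O'') (_ : IsDiscreteValuationRing O'')
      (_ : IsAdicComplete (IsLocalRing.maximalIdeal O'') O'') (_ : Finite (IsLocalRing.ResidueField O''))
      (_ : CharZero O'') (_ : Algebra O' O'') (_ : Module.Finite O' O'') (_ : IsLocalHom (algebraMap O' O'')),
      Function.Injective (algebraMap O' O'') ∧
      ∃ ρ : GaloisRepAdic O'',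
        (∀ (ℓ : ℕ) (hℓ : ℓ.Prime) (hℓM : ¬ ℓ ∣ M) (hℓS : ℓ ∉ (↑S : Set ℕ)),
          ∀ A : ValuationSubring (AlgebraicClosure ℚ), A.LiesOverPrime ℓ →
            ∀ σ : AlgebraicClosure ℚ ≃ₐ[ℚ] AlgebraicClosure ℚ, A.IsFrobeniusAt σ ℓ →
              LinearMap.charpoly (ρ.ρ σ) =
                X ^ 2 - C (algebraMap O' O'' ((iota.comp chig.rangeRestrict) (CuspForm.heckeAlgebra.T hℓ hℓM hℓS))) * X
                  + C ((ℓ : O''))) ∧
        (∀ q : ℕ, q.Prime → q ≠ lam → M.factorization q = 2 → ¬ ρ.IsUnipotentOnInertiaAt q)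

/-- **Leaf FROB.** Frobenius elements exist at every prime. -/
def FrobExistsStatement : Prop :=
  ∀ ℓ : ℕ, ℓ.Prime → ∃ (A : ValuationSubring Qb) (σ : GQ), A.LiesOverPrime ℓ ∧
    A.IsFrobeniusAt σ ℓ

/-- **Leaf TATE.** The `lam`-adic Tate module of a semistable `W` (`lam` odd), over any complete
DVR `O` of characteristic `0` with finite residue field of characteristic `lam`:
Frobenius characteristic polynomials at the good primes `ℓ ≠ lam` and unipotent inertia at
EVERY prime `q ≠ lam` (at the good primes the representation is even unramified).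
No irreducibility hypothesis. -/
def TateRepStatement : Prop :=
  ∀ (lam : ℕ) [Fact lam.Prime] (_hlam2 : lam ≠ 2) (W : WeierstrassCurve ℤ) (_hΔ : W.Δ ≠ 0)
    (_hW : W.IsSemistableModel)
    (O : Type) [CommRing O] [IsDomain O] [IsDiscreteValuationRing O]
    [IsAdicComplete (IsLocalRing.maximalIdeal O) O] [Finite (IsLocalRing.ResidueField O)]
    [CharZero O] (_hlamO : (lam : O) ∈ IsLocalRing.maximalIdeal O),
    ∃ ρ : GaloisRepAdic O,
      (∀ ℓ : ℕ, ℓ.Prime → W.IsGoodPrimeFor ℓ → ℓ ≠ lam →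
        ∀ A : ValuationSubring Qb, A.LiesOverPrime ℓ → ∀ σ : GQ, A.IsFrobeniusAt σ ℓ →
          LinearMap.charpoly (ρ.ρ σ) = X ^ 2 - C ((W.apOfModel ℓ : ℤ) : O) * X + C ((ℓ : O))) ∧
      (∀ q : ℕ, q.Prime → q ≠ lam → ρ.IsUnipotentOnInertiaAt q)

/-- **Leaf COEFF.** A normalized eigenform of level `M` has, for every finite set `S` of primes
and every prime `lam`, a character `chig` of the Hecke algebra away from `S` with
`chig (T_ℓ) = a_ℓ(g)` and a complete DVR `O'` of characteristic `0`, residue characteristic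
`lam`, finite residue field, with an INJECTIVE ring homomorphism `chig.range →+* O'`
(completion of the ring of integers of the coefficient field at a prime above `lam`; any ring
homomorphism `chig.range →+* O'` is injective because `chig.range` is integral over `ℤ`, S22). -/
def CoeffStatement : Prop :=
  ∀ (M : ℕ) [NeZero M] (g : CuspForm (CongruenceSubgroup.Gamma0 M) 2), g.IsNormalizedEigenform →
    ∀ (S : Finset ℕ) (lam : ℕ) [Fact lam.Prime],
    ∃ chig : CuspForm.heckeAlgebra M 2 (↑S : Set ℕ) →+* ℂ,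
      (∀ (ℓ : ℕ) (hℓ : ℓ.Prime) (hℓM : ¬ ℓ ∣ M) (hℓS : ℓ ∉ (↑S : Set ℕ)),
        chig (CuspForm.heckeAlgebra.T hℓ hℓM hℓS) = ModularFormClass.qCoeff g ℓ) ∧
      ∃ (O' : Type) (_ : CommRing O') (_ : IsDomain O') (_ : IsDiscreteValuationRing O')
        (_ : IsAdicComplete (IsLocalRing.maximalIdeal O') O')
        (_ : Finite (IsLocalRing.ResidueField O')) (_ : CharZero O'),
        (lam : O') ∈ IsLocalRing.maximalIdeal O' ∧
          ∃ iota : chig.range →+* O', Function.Injective iota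

/-- **Leaf CHEB.** Two `GaloisRepAdic` over a complete DVR whose Frobenius characteristic
polynomials agree at all primes outside a finite set have the same characteristic polynomial
at every element of `Gal(ℚ̄/ℚ)` (Chebotarev + adic continuity). -/
def ChebCharpolyStatement : Prop :=
  ∀ (O : Type) [CommRing O] [IsDomain O] [IsDiscreteValuationRing O]
    [IsAdicComplete (IsLocalRing.maximalIdeal O) O] [Finite (IsLocalRing.ResidueField O)]
    (ρ₁ ρ₂ : GaloisRepAdic O) (T : Finset ℕ),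
    (∀ ℓ : ℕ, ℓ.Prime → ℓ ∉ T → ∀ A : ValuationSubring Qb, A.LiesOverPrime ℓ →
      ∀ σ : GQ, A.IsFrobeniusAt σ ℓ →
        LinearMap.charpoly (ρ₁.ρ σ) = LinearMap.charpoly (ρ₂.ρ σ)) →
    ∀ σ : GQ, LinearMap.charpoly (ρ₁.ρ σ) = LinearMap.charpoly (ρ₂.ρ σ)

/-- **Leaf RES.** If `E[p]` is irreducible (`p` odd) and a `p`-adic representation `ρ` has the
Frobenius characteristic polynomials of `W` outside a finite set of primes, then the residual
representation of `ρ` is absolutely irreducible and odd. -/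
def ResidualStatement : Prop :=
  ∀ (p : ℕ) [Fact p.Prime] (_hp2 : p ≠ 2) (W : WeierstrassCurve ℤ) (_hΔ : W.Δ ≠ 0)
    (_hirr : W.ModRepIsIrreducible p)
    (O : Type) [CommRing O] [IsDomain O] [IsDiscreteValuationRing O]
    [IsAdicComplete (IsLocalRing.maximalIdeal O) O] [Finite (IsLocalRing.ResidueField O)]
    [CharZero O] (_hpO : (p : O) ∈ IsLocalRing.maximalIdeal O)
    (ρ : GaloisRepAdic O) (T : Finset ℕ),
    (∀ ℓ : ℕ, ℓ.Prime → ℓ ∉ T → ∀ A : ValuationSubring Qb, A.LiesOverPrime ℓ →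
      ∀ σ : GQ, A.IsFrobeniusAt σ ℓ →
        LinearMap.charpoly (ρ.ρ σ) = X ^ 2 - C ((W.apOfModel ℓ : ℤ) : O) * X + C ((ℓ : O))) →
    ρ.residual.IsAbsolutelyIrreducible ∧ ρ.residual.IsOdd

/-- **Leaf COUNT.** `a_q(W) ≠ ±(q + 1)` at every prime `q`
(from `1 ≤ #W(𝔽_q) ≤ 2 q + 1`). -/
def PointCountStatement : Prop :=
  ∀ (W : WeierstrassCurve ℤ) (q : ℕ), q.Prime →
    W.apOfModel q ≠ (q : ℤ) + 1 ∧ W.apOfModel q ≠ -((q : ℤ) + 1)

end Fermat.Agent.S58

end
-- ===== PACK-END S58/Spec.lean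

-- ===== PACK-BEGIN S59/H240/Node/Basic.lean
section




/-!
# S59 / CR-I (helper240): the nodal normal form `y² + xy = x³ + a·x`, `0 < |a| < 1`

`K` a field with a valuation `v`.  Every Weierstrass curve over an algebraically closed valued
field with multiplicative reduction can be brought (by an integral change of variables) into the
form `N(a) : y² + xy = x³ + a x` with `0 < v a < 1`; the node of the reduction is `(0, 0)` and the
points reducing to the node form the "annulus" `v x < 1`.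

Here: the elementary valuation analysis of `N(a)` (no Weierstrass-curve API yet):

* classes of the points of the annulus: `ClM` (`v x ≤ v a`), `BrP` (`v a < v x`, `v y < v x`),
  `BrN` (`v a < v x`, `v (y + x) < v x`);
* `chord_bound` : two points of the same class (and same `v x` in the branch classes) with
  `x' ≠ x`: the slope `λ` of the chord through `P'` and `-P` satisfies `1 ≤ v λ`, `1 ≤ v (λ + 1)`;
* `tangent_bound` : the same for the tangent at a point of class `ClM`.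
-/

set_option autoImplicit false
set_option linter.unusedSectionVars false

namespace Fermat.Agent.S59.H240

variable {K : Type*} [Field K] {Γ₀ : Type*} [LinearOrderedCommGroupWithZero Γ₀]
  {v : Valuation K Γ₀}

/-! ### ultrametric toolkit -/

lemma vadd_le {a b : K} {g : Γ₀} (ha : v a ≤ g) (hb : v b ≤ g) : v (a + b) ≤ g :=
  (v.map_add a b).trans (max_le ha hb)

lemma vadd_lt {a b : K} {g : Γ₀} (ha : v a < g) (hb : v b < g) : v (a + b) < g :=
  (v.map_add a b).trans_lt (max_lt ha hb)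

lemma vsub_le {a b : K} {g : Γ₀} (ha : v a ≤ g) (hb : v b ≤ g) : v (a - b) ≤ g :=
  (v.map_sub a b).trans (max_le ha hb)

lemma vsub_lt {a b : K} {g : Γ₀} (ha : v a < g) (hb : v b < g) : v (a - b) < g :=
  (v.map_sub a b).trans_lt (max_lt ha hb)

lemma vneg_le {a : K} {g : Γ₀} (ha : v a ≤ g) : v (-a) ≤ g := by rwa [Valuation.map_neg]

lemma vneg_lt {a : K} {g : Γ₀} (ha : v a < g) : v (-a) < g := by rwa [Valuation.map_neg]

/-- `v (a + b) = v a` if `v b < v a`. -/
lemma vadd_eq_left {a b : K} (h : v b < v a) : v (a + b) = v a :=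
  v.map_add_eq_of_lt_left h

/-- `v (a + b) = v b` if `v a < v b`. -/
lemma vadd_eq_right {a b : K} (h : v a < v b) : v (a + b) = v b := by
  rw [add_comm]; exact v.map_add_eq_of_lt_left h

lemma vnat_le_one (n : ℕ) : v (n : K) ≤ 1 := by
  induction n with
  | zero => simp
  | succ n ih => push_cast; exact vadd_le ih (by simp)

lemma vtwo_le_one : v (2 : K) ≤ 1 := by
  have := vnat_le_one (v := v) 2
  simpa using this

lemma vthree_le_one : v (3 : K) ≤ 1 := by
  have := vnat_le_one (v := v) 3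
  simpa using this

lemma vmul_le_of_le_one_left {a b : K} (ha : v a ≤ 1) : v (a * b) ≤ v b := by
  rw [map_mul]; exact mul_le_of_le_one_left' ha

lemma vmul_le_of_le_one_right {a b : K} (hb : v b ≤ 1) : v (a * b) ≤ v a := by
  rw [map_mul]; exact mul_le_of_le_one_right' hb

lemma vmul_lt_of_lt_one_right {a b : K} (ha : a ≠ 0) (hb : v b < 1) : v (a * b) < v a := by
  rw [map_mul]
  exact mul_lt_of_lt_one_right ((Valuation.pos_iff v).mpr ha) hb

lemma vmul_lt_of_lt_one_left {a b : K} (hb : b ≠ 0) (ha : v a < 1) : v (a * b) < v b := by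
  rw [map_mul]
  exact mul_lt_of_lt_one_left ((Valuation.pos_iff v).mpr hb) ha

lemma vsq_lt_self {x : K} (hx0 : x ≠ 0) (hx : v x < 1) : v (x ^ 2) < v x := by
  rw [pow_two]; exact vmul_lt_of_lt_one_right hx0 hx

lemma vsq_le_self {x : K} (hx : v x ≤ 1) : v (x ^ 2) ≤ v x := by
  rw [pow_two]; exact vmul_le_of_le_one_right hx

/-- In a linearly ordered group with zero, `g * g ≤ h * h → g ≤ h`. -/
lemma le_of_mul_self_le {g h : Γ₀} (hgh : g * g ≤ h * h) : g ≤ h := by
  by_contra hlt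
  rw [not_le] at hlt
  have h0 : 0 ≤ h := zero_le
  have hg0 : 0 < g := lt_of_le_of_lt h0 hlt
  have h1 : h * h ≤ h * g := mul_le_mul' le_rfl hlt.le
  have h2 : h * g < g * g := by
    exact mul_lt_mul_of_pos_right hlt hg0
  exact absurd (lt_of_le_of_lt h1 h2) (not_lt.mpr hgh)

lemma lt_of_mul_self_lt {g h : Γ₀} (hgh : g * g < h * h) : g < h := by
  by_contra hle
  rw [not_lt] at hle
  have : h * h ≤ g * g := mul_le_mul' hle hle
  exact absurd hgh (not_lt.mpr this)

/-! ### the normal form -/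

/-- The equation of the normal form `N(a)`. -/
def NodeEq (a x y : K) : Prop := y ^ 2 + x * y = x ^ 3 + a * x

/-- middle class -/
def ClM (v : Valuation K Γ₀) (a x : K) : Prop := v x ≤ v a

/-- branch `y ≈ 0` -/
def BrP (v : Valuation K Γ₀) (a x y : K) : Prop := v a < v x ∧ v y < v x

/-- branch `y ≈ -x` -/
def BrN (v : Valuation K Γ₀) (a x y : K) : Prop := v a < v x ∧ v (y + x) < v x

variable {a x y x' y' : K}

lemma NodeEq.neg (h : NodeEq a x y) : NodeEq a x (-y - x) := by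
  unfold NodeEq at h ⊢
  linear_combination h

lemma NodeEq.factor (h : NodeEq a x y) : y * (y + x) = x * (x ^ 2 + a) := by
  unfold NodeEq at h
  linear_combination h

/-- On the annulus, `y` is small as well. -/
lemma NodeEq.val_y_lt_one (h : NodeEq a x y) (ha : v a < 1) (hx : v x < 1) : v y < 1 := by
  by_contra hy
  rw [not_lt] at hy
  have hxy : v x < v y := hx.trans_le hy
  have h1 : v (y + x) = v y := vadd_eq_left hxy
  have h2 : v (x ^ 2 + a) < 1 :=
    vadd_lt (by rw [map_pow]; exact pow_lt_one₀ zero_le hx (by norm_num)) ha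
  have h3 := congrArg v h.factor
  rw [map_mul, map_mul, h1] at h3
  have h4 : v x * v (x ^ 2 + a) < 1 := by
    calc v x * v (x ^ 2 + a) ≤ 1 * v (x ^ 2 + a) := mul_le_mul' hx.le le_rfl
      _ = v (x ^ 2 + a) := one_mul _
      _ < 1 := h2
  have h5 : (1 : Γ₀) ≤ v y * v y := by
    calc (1 : Γ₀) = 1 * 1 := (one_mul 1).symm
      _ ≤ v y * v y := mul_le_mul' hy hy
  rw [h3] at h5
  exact absurd h4 (not_lt.mpr h5)

/-- The three classes exhaust the annulus. -/
lemma NodeEq.class_cases (h : NodeEq a x y) (hx : v x < 1) :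
    ClM v a x ∨ BrP v a x y ∨ BrN v a x y := by
  rcases le_or_gt (v x) (v a) with hM | hlo
  · exact Or.inl hM
  right
  have hx0 : x ≠ 0 := by
    rintro rfl
    rw [map_zero] at hlo
    exact not_lt_zero hlo
  by_contra hcon
  rw [not_or] at hcon
  have hy : v x ≤ v y := by
    by_contra hlt
    exact hcon.1 ⟨hlo, not_le.mp hlt⟩
  have hyx : v x ≤ v (y + x) := by
    by_contra hlt
    exact hcon.2 ⟨hlo, not_le.mp hlt⟩
  have h2 : v (x ^ 2 + a) < v x := vadd_lt (vsq_lt_self hx0 hx) hlo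
  have h3 := congrArg v h.factor
  rw [map_mul, map_mul] at h3
  have h4 : v x * v (x ^ 2 + a) < v x * v x :=
    mul_lt_mul_of_pos_left h2 ((Valuation.pos_iff v).mpr hx0)
  have h5 : v x * v x ≤ v y * v (y + x) := mul_le_mul' hy hyx
  rw [h3] at h5
  exact absurd h4 (not_lt.mpr h5)

/-- The two branches are exchanged by negation. -/
lemma BrP.neg (h : BrP v a x y) : BrN v a x (-y - x) := by
  refine ⟨h.1, ?_⟩
  have : -y - x + x = -y := by ring
  rw [this, Valuation.map_neg]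
  exact h.2

lemma BrN.neg (h : BrN v a x y) : BrP v a x (-y - x) := by
  refine ⟨h.1, ?_⟩
  have : -y - x = -(y + x) := by ring
  rw [this, Valuation.map_neg]
  exact h.2

lemma BrN.val_y (h : BrN v a x y) : v y = v x := by
  have : y = -x + (y + x) := by ring
  rw [this, vadd_eq_left (by rw [Valuation.map_neg]; exact h.2), Valuation.map_neg]

/-- The branches are disjoint. -/
lemma BrP.not_brN (h : BrP v a x y) : ¬ BrN v a x y := by
  intro hN
  have := hN.val_y
  exact absurd h.2 (by rw [this]; exact lt_irrefl _)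

/-! ### the middle class -/

section Middle

variable (ha0 : a ≠ 0) (ha : v a < 1)
include ha0 ha

lemma ClM.val_y_le (hM : ClM v a x) (h : NodeEq a x y) : v y ≤ v a := by
  by_contra hy
  rw [not_le] at hy
  have hxy : v x < v y := lt_of_le_of_lt hM hy
  have h1 : v (y + x) = v y := vadd_eq_left hxy
  have h2 : v (x ^ 2 + a) ≤ v a := by
    refine vadd_le ?_ le_rfl
    rw [map_pow]
    calc v x ^ 2 = v x * v x := pow_two _
      _ ≤ v a * 1 := mul_le_mul' hM (hM.trans ha.le)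
      _ = v a := mul_one _
  have h3 := congrArg v h.factor
  rw [map_mul, map_mul, h1] at h3
  have h4 : v x * v (x ^ 2 + a) ≤ v a * v a := mul_le_mul' hM h2
  rw [← h3] at h4
  exact absurd (le_of_mul_self_le h4) (not_le.mpr hy)

lemma ClM.val_x_cube_lt (hM : ClM v a x) : v (x ^ 3) < v a * v a := by
  have hapos : 0 < v a := (Valuation.pos_iff v).mpr ha0
  rw [map_pow]
  calc v x ^ 3 = v x * v x * v x := by rw [pow_succ, pow_two]
    _ ≤ v a * v a * v a := mul_le_mul' (mul_le_mul' hM hM) hM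
    _ < v a * v a * 1 := by
        apply mul_lt_mul_of_pos_left ha
        exact mul_pos hapos hapos
    _ = v a * v a := mul_one _

lemma ClM.val_x_sq_lt (hM : ClM v a x) : v (x ^ 2) < v a := by
  have hapos : 0 < v a := (Valuation.pos_iff v).mpr ha0
  rw [map_pow]
  calc v x ^ 2 = v x * v x := pow_two _
    _ ≤ v a * v a := mul_le_mul' hM hM
    _ < v a * 1 := mul_lt_mul_of_pos_left ha hapos
    _ = v a := mul_one _

/-- In the middle class `v (y - a) = v a`. -/
lemma ClM.val_y_sub (hM : ClM v a x) (h : NodeEq a x y) : v (y - a) = v a := by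
  have hapos : 0 < v a := (Valuation.pos_iff v).mpr ha0
  have hy := hM.val_y_le ha0 ha h
  refine le_antisymm (vsub_le hy le_rfl) ?_
  by_contra hlt
  rw [not_le] at hlt
  -- `v y = v a`
  have hya : v y = v a := by
    have : y = a + (y - a) := by ring
    rw [this, vadd_eq_left hlt]
  -- `y² = x³ - x (y - a)`
  have key : y ^ 2 = x ^ 3 - x * (y - a) := by
    unfold NodeEq at h
    linear_combination h
  have h1 : v (x * (y - a)) < v a * v a := by
    rw [map_mul]
    calc v x * v (y - a) ≤ v a * v (y - a) := mul_le_mul' hM le_rfl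
      _ < v a * v a := mul_lt_mul_of_pos_left hlt hapos
  have h2 : v (y ^ 2) < v a * v a := by
    rw [key]
    exact vsub_lt (hM.val_x_cube_lt ha0 ha) h1
  rw [map_pow, pow_two, hya] at h2
  exact lt_irrefl _ h2

/-- In the middle class `v (y + x + a) = v a`. -/
lemma ClM.val_y_add (hM : ClM v a x) (h : NodeEq a x y) : v (y + x + a) = v a := by
  have := hM.val_y_sub ha0 ha h.neg
  have e : -y - x - a = -(y + x + a) := by ring
  rwa [e, Valuation.map_neg] at this

end Middle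

/-! ### the chord through `P'` and `-P` -/

/-- The basic identity behind the chord bound. -/
lemma chord_identity (h : NodeEq a x y) (h' : NodeEq a x' y') :
    (y' + y + x) * (y' - y - x + x') = (x' - x) * (x' ^ 2 + x' * x + x ^ 2 + a + y + x) := by
  unfold NodeEq at h h'
  linear_combination h' - h

/-- Middle class: `v (x' - x) ≤ v (y' + y + x)`. -/
lemma chord_bound_M (ha0 : a ≠ 0) (ha : v a < 1) (h : NodeEq a x y) (h' : NodeEq a x' y')
    (hM : ClM v a x) (hM' : ClM v a x') : v (x' - x) ≤ v (y' + y + x) := by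
  have hapos : 0 < v a := (Valuation.pos_iff v).mpr ha0
  have hy := hM.val_y_le ha0 ha h
  have hy' := hM'.val_y_le ha0 ha h'
  have hR : v (x' ^ 2 + x' * x + x ^ 2 + a + y + x) = v a := by
    have e : x' ^ 2 + x' * x + x ^ 2 + a + y + x = (y + x + a) + (x' ^ 2 + x' * x + x ^ 2) := by
      ring
    rw [e, vadd_eq_left, hM.val_y_add ha0 ha h]
    rw [hM.val_y_add ha0 ha h]
    refine vadd_lt (vadd_lt (hM'.val_x_sq_lt ha0 ha) ?_) (hM.val_x_sq_lt ha0 ha)
    rw [map_mul]
    calc v x' * v x ≤ v a * v a := mul_le_mul' hM' hM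
      _ < v a * 1 := mul_lt_mul_of_pos_left ha hapos
      _ = v a := mul_one _
  have hL : v (y' - y - x + x') ≤ v a :=
    vadd_le (vsub_le (vsub_le hy' hy) hM) hM'
  have key := congrArg v (chord_identity h h')
  rw [map_mul, map_mul, hR] at key
  by_contra hlt
  rw [not_le] at hlt
  have h0 : 0 < v (x' - x) := lt_of_le_of_lt zero_le hlt
  have h1 : v (y' + y + x) * v (y' - y - x + x') < v (x' - x) * v a := by
    calc v (y' + y + x) * v (y' - y - x + x') ≤ v (y' + y + x) * v a :=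
          mul_le_mul' le_rfl hL
      _ < v (x' - x) * v a := mul_lt_mul_of_pos_right hlt hapos
  rw [key] at h1
  exact lt_irrefl _ h1

/-- Branch classes: `v (y' + y + x) = v x`. -/
lemma chord_val_P (hxx : v x = v x') (hP : BrP v a x y) (hP' : BrP v a x' y') :
    v (y' + y + x) = v x := by
  have : y' + y + x = x + (y' + y) := by ring
  rw [this, vadd_eq_left]
  exact vadd_lt (hxx ▸ hP'.2) hP.2

lemma chord_val_N (hxx : v x = v x') (hN : BrN v a x y) (hN' : BrN v a x' y') :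
    v (y' + y + x) = v x := by
  have : y' + y + x = y' + (y + x) := by ring
  rw [this, vadd_eq_left, hN'.val_y, hxx]
  rw [hN'.val_y, ← hxx]
  exact hN.2

/-- **Chord bound**: two points of the annulus in the same class. -/
theorem chord_bound (ha0 : a ≠ 0) (ha : v a < 1) (h : NodeEq a x y) (h' : NodeEq a x' y')
    (hcl : (ClM v a x ∧ ClM v a x') ∨ (v x = v x' ∧ BrP v a x y ∧ BrP v a x' y') ∨
      (v x = v x' ∧ BrN v a x y ∧ BrN v a x' y')) :
    v (x' - x) ≤ v (y' + y + x) ∧ v (x' - x) ≤ v (y' + y + x') := by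
  have hsub : ∀ {g : Γ₀}, v x ≤ g → v x' ≤ g → v (x' - x) ≤ g := fun h1 h2 => vsub_le h2 h1
  rcases hcl with ⟨hM, hM'⟩ | ⟨hxx, hP, hP'⟩ | ⟨hxx, hN, hN'⟩
  · refine ⟨chord_bound_M ha0 ha h h' hM hM', ?_⟩
    -- apply the bound to the negated points
    have := chord_bound_M ha0 ha h.neg h'.neg hM hM'
    have e : -y' - x' + (-y - x) + x = -(y' + y + x') := by ring
    rwa [e, Valuation.map_neg] at this
  · refine ⟨?_, ?_⟩
    · rw [chord_val_P hxx hP hP']
      exact hsub le_rfl hxx.ge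
    · have := chord_val_N hxx hP.neg hP'.neg
      have e : -y' - x' + (-y - x) + x = -(y' + y + x') := by ring
      rw [e, Valuation.map_neg] at this
      rw [this]
      exact hsub le_rfl hxx.ge
  · refine ⟨?_, ?_⟩
    · rw [chord_val_N hxx hN hN']
      exact hsub le_rfl hxx.ge
    · have := chord_val_P hxx hN.neg hN'.neg
      have e : -y' - x' + (-y - x) + x = -(y' + y + x') := by ring
      rw [e, Valuation.map_neg] at this
      rw [this]
      exact hsub le_rfl hxx.ge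

/-- **Tangent bound** at a point of the middle class. -/
theorem tangent_bound (ha0 : a ≠ 0) (ha : v a < 1) (h : NodeEq a x y) (hM : ClM v a x) :
    v (2 * y + x) ≤ v (3 * x ^ 2 + a - y) ∧ v (2 * y + x) ≤ v (3 * x ^ 2 + a + y + x) := by
  have hy := hM.val_y_le ha0 ha h
  have hH : v (2 * y + x) ≤ v a := vadd_le ((vmul_le_of_le_one_left vtwo_le_one).trans hy) hM
  have h3 : v (3 * x ^ 2) < v a :=
    lt_of_le_of_lt (vmul_le_of_le_one_left vthree_le_one) (hM.val_x_sq_lt ha0 ha)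
  constructor
  · have e : 3 * x ^ 2 + a - y = -(y - a) + 3 * x ^ 2 := by ring
    have h1 : v (-(y - a)) = v a := by rw [Valuation.map_neg, hM.val_y_sub ha0 ha h]
    have h2 : v (-(y - a) + 3 * x ^ 2) = v a := by
      rw [vadd_eq_left (by rw [h1]; exact h3), h1]
    rw [e, h2]
    exact hH
  · have e : 3 * x ^ 2 + a + y + x = (y + x + a) + 3 * x ^ 2 := by ring
    have h1 : v (y + x + a) = v a := hM.val_y_add ha0 ha h
    have h2 : v ((y + x + a) + 3 * x ^ 2) = v a := by
      rw [vadd_eq_left (by rw [h1]; exact h3), h1]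
    rw [e, h2]
    exact hH

end Fermat.Agent.S59.H240

end
-- ===== PACK-END S59/H240/Node/Basic.lean

-- ===== PACK-BEGIN S21/H585/Parabolic.lean
section


/-!
# Parabolic elements of `SL(2, ℤ)` are conjugate to `± T ^ k`
-/

set_option autoImplicit false

namespace Fermat.Agent.S21.H585

open Matrix ModularGroup
open scoped MatrixGroups

/-- A fixed primitive vector of a trace-2 matrix in `SL(2, ℤ)`. -/
lemma exists_fixed_vector (a b c d : ℤ) (hdet : a * d - b * c = 1) (htr : a + d = 2) :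
    ∃ p q u v : ℤ, a * p + b * q = p ∧ c * p + d * q = q ∧ u * p + v * q = 1 := by
  have hα : (a - 1) ^ 2 + b * c = 0 := by
    have hd : d = 2 - a := by omega
    subst hd
    linear_combination -hdet
  by_cases hc : c = 0
  · subst hc
    have ha : a = 1 := by
      have : (a - 1) ^ 2 = 0 := by simpa using hα
      have := pow_eq_zero_iff (n := 2) (by norm_num) |>.mp this
      omega
    have hd : d = 1 := by omega
    subst ha hd
    exact ⟨1, 0, 1, 0, by ring, by ring, by ring⟩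
  · have hpos : 0 < Int.gcd c (a - 1) := Int.gcd_pos_of_ne_zero_left _ hc
    set e : ℤ := ((Int.gcd c (a - 1) : ℕ) : ℤ) with he
    have he0 : e ≠ 0 := by
      rw [he]
      exact_mod_cast hpos.ne'
    have hq : c = e * (c / e) := (Int.mul_ediv_cancel' (Int.gcd_dvd_left _ _)).symm
    have hp : a - 1 = e * ((a - 1) / e) := (Int.mul_ediv_cancel' (Int.gcd_dvd_right _ _)).symm
    have hcop : IsCoprime ((a - 1) / e) (c / e) := by
      rw [Int.isCoprime_iff_gcd_eq_one, Int.gcd_comm]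
      exact Int.gcd_div_gcd_div_gcd hpos
    generalize (a - 1) / e = p at hp hcop
    generalize c / e = q at hq hcop
    obtain ⟨u, v, huv⟩ := hcop
    refine ⟨p, q, u, v, ?_, ?_, huv⟩
    · have h1 : e * ((a - 1) * p + b * q) = 0 := by
        have : e * ((a - 1) * p + b * q) = (a - 1) * (e * p) + b * (e * q) := by ring
        rw [this, ← hp, ← hq]
        linear_combination hα
      have h2 := (mul_eq_zero.mp h1).resolve_left he0
      linear_combination h2
    · have hd : d - 1 = -(a - 1) := by omega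
      have h1 : c * p + (d - 1) * q = 0 := by
        rw [hd, hq, hp]; ring
      linear_combination h1


/-- An element of `SL(2, ℤ)` from its entries. -/
def mkSL2 (p r q s : ℤ) (h : p * s - r * q = 1) : SL(2, ℤ) :=
  ⟨!![p, r; q, s], by rw [Matrix.det_fin_two_of]; exact h⟩

lemma coe_mkSL2 (p r q s : ℤ) (h : p * s - r * q = 1) :
    ((mkSL2 p r q s h : SL(2, ℤ)) : Matrix (Fin 2) (Fin 2) ℤ) = !![p, r; q, s] := rfl

theorem exists_mul_eq_mul_T_zpow (γ : SL(2, ℤ))
    (htr : (γ : Matrix (Fin 2) (Fin 2) ℤ).trace = 2) :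
    ∃ (g : SL(2, ℤ)) (k : ℤ), γ * g = g * T ^ k := by
  have hdet : γ.1 0 0 * γ.1 1 1 - γ.1 0 1 * γ.1 1 0 = 1 := by
    have := γ.2
    rwa [Matrix.det_fin_two] at this
  have htr' : γ.1 0 0 + γ.1 1 1 = 2 := by
    rwa [Matrix.trace_fin_two] at htr
  obtain ⟨p, q, u, v, h1, h2, h4⟩ := exists_fixed_vector _ _ _ _ hdet htr'
  set a := γ.1 0 0 with ha
  set b := γ.1 0 1 with hb
  set c := γ.1 1 0 with hc
  set d := γ.1 1 1 with hd
  refine ⟨mkSL2 p (-v) q u (by linear_combination h4),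
    u * (-a * v + b * u) + v * (-c * v + d * u), ?_⟩
  apply Subtype.ext
  rw [Matrix.SpecialLinearGroup.coe_mul, Matrix.SpecialLinearGroup.coe_mul, coe_T_zpow,
    coe_mkSL2]
  have hγ : γ.1 = !![a, b; c, d] := by
    ext i j; fin_cases i <;> fin_cases j <;> rfl
  rw [hγ]
  ext i j
  fin_cases i <;> fin_cases j <;>
    simp only [Matrix.mul_apply, Fin.sum_univ_two, Matrix.of_apply, Matrix.cons_val',
      Matrix.cons_val_zero, Matrix.cons_val_one, Matrix.cons_val_fin_one, Fin.zero_eta,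
      Fin.mk_one, Fin.isValue]
  · linear_combination h1
  · linear_combination (-(-a * v + b * u)) * h4 + v * u * h1 + v * v * h2
      + v * (1 - a - d) * h4 - v * htr'
  · linear_combination h2
  · linear_combination (-(-c * v + d * u)) * h4 - u * u * h1 - u * v * h2
      - u * (1 - a - d) * h4 + u * htr'

theorem exists_conj_T_zpow (γ : SL(2, ℤ))
    (htr : (γ : Matrix (Fin 2) (Fin 2) ℤ).trace ^ 2 = 4) :
    ∃ (g : SL(2, ℤ)) (k : ℤ), γ = g * T ^ k * g⁻¹ ∨ γ = -(g * T ^ k * g⁻¹) := by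
  have h2 : (γ : Matrix (Fin 2) (Fin 2) ℤ).trace = 2 ∨
      (γ : Matrix (Fin 2) (Fin 2) ℤ).trace = -2 := by
    have : ((γ : Matrix (Fin 2) (Fin 2) ℤ).trace - 2) *
        ((γ : Matrix (Fin 2) (Fin 2) ℤ).trace + 2) = 0 := by linear_combination htr
    rcases mul_eq_zero.mp this with h | h
    · left; omega
    · right; omega
  rcases h2 with h | h
  · obtain ⟨g, k, hg⟩ := exists_mul_eq_mul_T_zpow γ h
    exact ⟨g, k, Or.inl (by rw [← hg, mul_inv_cancel_right])⟩
  · have h' : ((-γ : SL(2, ℤ)) : Matrix (Fin 2) (Fin 2) ℤ).trace = 2 := by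
      rw [Matrix.SpecialLinearGroup.coe_neg, Matrix.trace_neg, h]; norm_num
    obtain ⟨g, k, hg⟩ := exists_mul_eq_mul_T_zpow (-γ) h'
    refine ⟨g, k, Or.inr ?_⟩
    rw [← hg, mul_inv_cancel_right, neg_neg]

end Fermat.Agent.S21.H585

end
-- ===== PACK-END S21/H585/Parabolic.lean

-- ===== PACK-BEGIN S59/H294/ResFlatEmb.lean
section



/-!
# Row S59, cell LO, leaf ResFlat: base change along a field map (helper294)

For `φ : k →+* K` and a residual representation `ρ` over `k`: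
* `exists_embedding_baseChangeAlong294`: `v ↦ 1 ⊗ v` is an injective equivariant additive map
  `ρ.V → (ρ.baseChangeAlong φ).V`;
* `det_baseChangeAlong294`: `det ((ρ.baseChangeAlong φ) σ) = φ (det (ρ σ))`.
-/

set_option autoImplicit false

open scoped TensorProduct

namespace Fermat.Agent.S59.H294

/-- `v ↦ 1 ⊗ v` embeds `ρ` equivariantly in its base change along a field map. -/
theorem exists_embedding_baseChangeAlong294 {k K : Type} [Field k] [Field K] (φ : k →+* K)
    (ρ : ResidualGaloisRep k) :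
    ∃ i : ρ.V →+ (ρ.baseChangeAlong φ).V, Function.Injective i ∧
      ∀ (σ : AlgebraicClosure ℚ ≃ₐ[ℚ] AlgebraicClosure ℚ) (v : ρ.V),
        i (ρ.ρ σ v) = (ρ.baseChangeAlong φ).ρ σ (i v) := by
  letI : Algebra k K := φ.toAlgebra
  refine ⟨(TensorProduct.mk k K ρ.V 1 : ρ.V →ₗ[k] K ⊗[k] ρ.V).toAddMonoidHom, ?_, ?_⟩
  · exact Module.FaithfullyFlat.tensorProduct_mk_injective (A := k) (B := K) ρ.V
  · intro σ v
    show (1 : K) ⊗ₜ[k] (ρ.ρ σ v) = ((ρ.ρ σ).baseChange K) ((1 : K) ⊗ₜ[k] v)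
    rw [LinearMap.baseChange_tmul]

/-- Determinants commute with base change along a field map. -/
theorem det_baseChangeAlong294 {k K : Type} [Field k] [Field K] (φ : k →+* K)
    (ρ : ResidualGaloisRep k) (σ : AlgebraicClosure ℚ ≃ₐ[ℚ] AlgebraicClosure ℚ) :
    LinearMap.det ((ρ.baseChangeAlong φ).ρ σ) = φ (LinearMap.det (ρ.ρ σ)) := by
  letI : Algebra k K := φ.toAlgebra
  show LinearMap.det ((ρ.ρ σ).baseChange K) = algebraMap k K (LinearMap.det (ρ.ρ σ))
  exact LinearMap.det_baseChange (ρ.ρ σ)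

end Fermat.Agent.S59.H294

end
-- ===== PACK-END S59/H294/ResFlatEmb.lean

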