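import Mathlib
import Fermat.Prelude.Def_AlgebraicCurve_DivisorPushPull
import Fermat.Prelude.Thm_Algebra_finite_maximalSpectrum_and_bijective_localization_of_module_finite
import Fermat.Prelude.Def_ModularCurve_PeriodMap
import Mathlib.NumberTheory.LSeries.Convolution
import Mathlib.NumberTheory.LSeries.Injectivity
import Mathlib.NumberTheory.LSeries.Linearity
import Mathlib.RingTheory.IntegralClosure.IsIntegralClosure.Basic
import Mathlib.RingTheory.LocalRing.MaximalIdeal.Basic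
import Mathlib.RingTheory.Nakayama
import Mathlib.RingTheory.Polynomial.Basic
import Mathlib.Algebra.Polynomial.Taylor
import Mathlib.RingTheory.Finiteness.Basic
import Mathlib.RingTheory.Adjoin.FG
import Fermat.Agent.Pack.S44C.G0E1L2
import Fermat.Agent.Pack.S43MC.G0E0L1
import Fermat.Agent.Pack.S43MC.G0E3L2
import Fermat.Agent.Pack.Fast891

-- ===== PACK-BEGIN S18/H876/Transfer.lean
section





/-!
# S18 / d2 : transfer of CORE from level `M` to level `N ∣ M`

`core_descend_of_coprime` :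
  `N ∣ M`, `[F_M : F_N]` finite and prime to `m`  ⟹  `CoreStatement M A m → CoreStatement N A m`.

Ingredients: restriction of places along `F_N ⊆ F_M` (Prelude `Place.restrict`,
`ord_w = e · ord_v`) and Kummer descent (`H876.exists_algebraMap_eq_of_pow_eq`).
-/

set_option autoImplicit false

noncomputable section

namespace Fermat.Agent.S18.H876

open ModularCurve AlgebraicCurve HahnSeries

/-! ### Abstract part -/

/-- Divisibility of order differences passes from a field to an integral extension. -/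
theorem dvd_ord_sub_algebraMap {K E F : Type*} [Field K] [Field E] [Field F]
    [Algebra K E] [Algebra K F] [Algebra E F] [IsScalarTower K E F] [Algebra.IsIntegral E F]
    (m : ℤ) (f g : E) (h : ∀ v : Place K E, m ∣ v.ord f - v.ord g) (w : Place K F) :
    m ∣ w.ord (algebraMap E F f) - w.ord (algebraMap E F g) := by
  rw [w.ord_restrict f, w.ord_restrict g, ← mul_sub]
  exact Dvd.dvd.mul_left (h (w.restrict E)) _

/-! ### The tower `F_N ⊆ F_M` -/

section Tower

variable {N M : ℕ} [NeZero N] [NeZero M]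

theorem bar_le_bar (h : N ∣ M) : modularFunctionFieldBar N ≤ modularFunctionFieldBar M :=
  IntermediateField.adjoin.mono _ _ _ (Set.image_mono (full_degeneracy_le h))

/-- The inclusion `F_N → F_M`. -/
def barIncl (h : N ∣ M) : modularFunctionFieldBar N →ₐ[Qb] modularFunctionFieldBar M :=
  IntermediateField.inclusion (bar_le_bar h)

@[simp] theorem coe_barIncl (h : N ∣ M) (x : modularFunctionFieldBar N) :
    ((barIncl h x : modularFunctionFieldBar M) : LaurentSeries Qb) = x :=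
  IntermediateField.coe_inclusion _ _

theorem barIncl_injective (h : N ∣ M) : Function.Injective (barIncl h) :=
  (barIncl h).toRingHom.injective

/-- The algebra structure `F_N → F_M` given by the inclusion. -/
@[reducible] def barAlgebra (h : N ∣ M) :
    Algebra (modularFunctionFieldBar N) (modularFunctionFieldBar M) :=
  (barIncl h).toRingHom.toAlgebra

theorem barAlgebra_isScalarTower (h : N ∣ M) :
    @IsScalarTower Qb (modularFunctionFieldBar N) (modularFunctionFieldBar M) _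
      (barAlgebra h).toSMul _ := by
  letI := barAlgebra h
  refine IsScalarTower.of_algebraMap_eq fun c => ?_
  exact ((barIncl h).commutes c).symm

theorem isInt_of_dvd (h : N ∣ M) {A : ValuationSubring Qb} {U : LaurentSeries A}
    (hU : IsInt A N U) : IsInt A M U :=
  ⟨bar_le_bar h hU.1, full_degeneracyC_le _ h hU.2.1, hU.2.2⟩

omit [NeZero N] in
theorem coe_toF {A : ValuationSubring Qb} {U : LaurentSeries A} (hU : IsInt A N U) :
    ((toF hU : modularFunctionFieldBar N) : LaurentSeries Qb) = coeffMap A.subtype U := rfl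

theorem toF_isInt_of_dvd (h : N ∣ M) {A : ValuationSubring Qb} {U : LaurentSeries A}
    (hU : IsInt A N U) :
    toF (isInt_of_dvd h hU) = barIncl h (toF hU) := by
  apply Subtype.ext
  rw [coe_toF, coe_barIncl, coe_toF]

omit [NeZero N] in
theorem toF_ne_zero {A : ValuationSubring Qb} {U : LaurentSeries A}
    (hU : IsInt A N U) : toF hU ≠ 0 := by
  intro h0
  have h1 : coeffMap A.subtype U = 0 := by
    rw [← coe_toF hU, h0]
    rfl
  have hU0 : U = 0 := by
    ext n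
    have h2 := congrArg (fun s => HahnSeries.coeff s n) h1
    simpa using h2
  exact hU.2.2 (by rw [hU0, map_zero])

end Tower

/-! ### The transfer -/

/-- **d2 (degree as hypothesis).** -/
theorem core_descend_of_coprime {N M : ℕ} [NeZero N] [NeZero M] (h : N ∣ M)
    (A : ValuationSubring Qb) (m : ℕ)
    (hfin : @Module.Finite (modularFunctionFieldBar N) (modularFunctionFieldBar M) _ _
      (barAlgebra h).toModule)
    (hcop : (@Module.finrank (modularFunctionFieldBar N) (modularFunctionFieldBar M) _ _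
      (barAlgebra h).toModule).Coprime m)
    (hM : CoreStatement M A m) : CoreStatement N A m := by
  letI := barAlgebra h
  haveI := barAlgebra_isScalarTower h
  haveI : FiniteDimensional (modularFunctionFieldBar N) (modularFunctionFieldBar M) := hfin
  haveI : Algebra.IsIntegral (modularFunctionFieldBar N) (modularFunctionFieldBar M) :=
    Algebra.IsIntegral.of_finite _ _
  have halg : ∀ x : modularFunctionFieldBar N,
      algebraMap (modularFunctionFieldBar N) (modularFunctionFieldBar M) x = barIncl h x :=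
    fun _ => rfl
  intro U₁ U₂ h₁ h₂ hred hdiv
  obtain ⟨c, y, hc, hy, hcy⟩ := hM U₁ U₂ (isInt_of_dvd h h₁) (isInt_of_dvd h h₂) hred
    (fun w => by
      rw [toF_isInt_of_dvd h h₁, toF_isInt_of_dvd h h₂, ← halg, ← halg]
      exact dvd_ord_sub_algebraMap (m : ℤ) (toF h₁) (toF h₂) hdiv w)
  rw [toF_isInt_of_dvd h h₁, toF_isInt_of_dvd h h₂] at hcy
  have hinj := barIncl_injective h
  have h₂0 : toF h₂ ≠ 0 := toF_ne_zero h₂
  have hc' : algebraMap Qb (modularFunctionFieldBar N) c ≠ 0 := by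
    simpa using hc
  rcases Nat.eq_zero_or_pos m with hm0 | hmpos
  · subst hm0
    refine ⟨c, 1, hc, one_ne_zero, ?_⟩
    apply hinj
    rw [hcy, pow_zero, pow_zero, mul_one, mul_one, map_mul, AlgHom.commutes]
  · -- `y ^ m` comes from `F_N`
    have hym : y ^ m = algebraMap (modularFunctionFieldBar N) (modularFunctionFieldBar M)
        (toF h₁ / (algebraMap Qb (modularFunctionFieldBar N) c * toF h₂)) := by
      rw [halg, map_div₀, map_mul, AlgHom.commutes, hcy]
      have h₂0' : barIncl h (toF h₂) ≠ 0 := fun h0 => h₂0 (hinj (by rw [h0, map_zero]))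
      have hc'' : algebraMap Qb (modularFunctionFieldBar M) c ≠ 0 := by simpa using hc
      field_simp
    obtain ⟨x, hx⟩ := exists_algebraMap_eq_of_pow_eq (K := Qb) m hmpos hcop y _ hym
    rw [halg] at hx
    refine ⟨c, x, hc, ?_, ?_⟩
    · rintro rfl
      exact hy (by rw [← hx, map_zero])
    · apply hinj
      rw [hcy, map_mul, map_mul, map_pow, hx, AlgHom.commutes]

end Fermat.Agent.S18.H876

end
end
-- ===== PACK-END S18/H876/Transfer.lean

-- ===== PACK-BEGIN Lib/Newform/H803/Ops.lean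
section



/-!
# Averaging operators on `Γ(N)`-invariant functions (helper803)

* `SlInv k Γ F` : `F` is invariant under the weight `k` slash action of `Γ ≤ SL(2, ℤ)`;
* `avg k N J F` : average of `F ∣[k] γ` over `γ ∈ J` modulo `Γ(N)`;
* `avgT k x p F` : `p⁻¹ ∑_{j < p} F ∣[k] T^{j x}`.
-/

set_option autoImplicit false

namespace Fermat.Agent.Lib.Newform.H803

open Matrix Matrix.SpecialLinearGroup CongruenceSubgroup UpperHalfPlane ModularForm
open scoped MatrixGroups ModularForm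

variable {k : ℤ}

/-- `F` is invariant under the weight-`k` slash action of `Γ`. -/
def SlInv (k : ℤ) (Γ : Subgroup SL(2, ℤ)) (F : ℍ → ℂ) : Prop := ∀ γ ∈ Γ, F ∣[k] γ = F

theorem SlInv.mono {Γ Γ' : Subgroup SL(2, ℤ)} (h : Γ ≤ Γ') {F : ℍ → ℂ} (hF : SlInv k Γ' F) :
    SlInv k Γ F := fun γ hγ => hF γ (h hγ)

theorem SlInv.zero (Γ : Subgroup SL(2, ℤ)) : SlInv k Γ (0 : ℍ → ℂ) :=
  fun _ _ => SlashAction.zero_slash _ _

theorem SlInv.add {Γ : Subgroup SL(2, ℤ)} {F G : ℍ → ℂ} (hF : SlInv k Γ F) (hG : SlInv k Γ G) :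
    SlInv k Γ (F + G) := fun γ hγ => by rw [SlashAction.add_slash, hF γ hγ, hG γ hγ]

theorem SlInv.smul {Γ : Subgroup SL(2, ℤ)} {F : ℍ → ℂ} (c : ℂ) (hF : SlInv k Γ F) :
    SlInv k Γ (c • F) := fun γ hγ => by rw [ModularForm.SL_smul_slash, hF γ hγ]

theorem SlInv.neg {Γ : Subgroup SL(2, ℤ)} {F : ℍ → ℂ} (hF : SlInv k Γ F) :
    SlInv k Γ (-F) := fun γ hγ => by rw [SlashAction.neg_slash, hF γ hγ]

theorem SlInv.sub {Γ : Subgroup SL(2, ℤ)} {F G : ℍ → ℂ} (hF : SlInv k Γ F) (hG : SlInv k Γ G) :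
    SlInv k Γ (F - G) := by
  rw [sub_eq_add_neg]; exact hF.add hG.neg

theorem SlInv.sum {Γ : Subgroup SL(2, ℤ)} {ι : Type*} (s : Finset ι) {F : ι → ℍ → ℂ}
    (hF : ∀ i ∈ s, SlInv k Γ (F i)) : SlInv k Γ (∑ i ∈ s, F i) := by
  intro γ hγ
  rw [SlashAction.sum_slash]
  exact Finset.sum_congr rfl fun i hi => hF i hi γ hγ

theorem sub_slash (F G : ℍ → ℂ) (γ : SL(2, ℤ)) : (F - G) ∣[k] γ = F ∣[k] γ - G ∣[k] γ := by
  rw [sub_eq_add_neg, SlashAction.add_slash, SlashAction.neg_slash, ← sub_eq_add_neg]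

/-- For a `Γ(N)`-invariant function, `F ∣ g` only depends on `g` modulo `Γ(N)`. -/
theorem slash_congr {N : ℕ} {F : ℍ → ℂ} (hF : SlInv k (Gamma N) F) {g h : SL(2, ℤ)}
    (hgh : g * h⁻¹ ∈ Gamma N) : F ∣[k] g = F ∣[k] h := by
  have e : g = (g * h⁻¹) * h := by group
  rw [e, SlashAction.slash_mul, hF _ hgh]

theorem SlInv.slash {N : ℕ} {F : ℍ → ℂ} (hF : SlInv k (Gamma N) F) (g : SL(2, ℤ)) :
    SlInv k (Gamma N) (F ∣[k] g) := by
  intro γ hγ
  rw [← SlashAction.slash_mul]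
  apply slash_congr hF
  have e : g * γ * g⁻¹ ∈ Gamma N := (Gamma_normal N).conj_mem γ hγ g
  exact e

/-- Commutation of the slash operators of two elements commuting modulo `Γ(N)`. -/
theorem slash_comm_of_mem {N : ℕ} {F : ℍ → ℂ} (hF : SlInv k (Gamma N) F) {g h : SL(2, ℤ)}
    (hgh : (g * h) * (h * g)⁻¹ ∈ Gamma N) : (F ∣[k] g) ∣[k] h = (F ∣[k] h) ∣[k] g := by
  rw [← SlashAction.slash_mul, ← SlashAction.slash_mul]
  exact slash_congr hF hgh

theorem slash_comm {N a b : ℕ} (hN : N ∣ a * b) {F : ℍ → ℂ} (hF : SlInv k (Gamma N) F)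
    {g h : SL(2, ℤ)} (hg : g ∈ Gamma a) (hh : h ∈ Gamma b) :
    (F ∣[k] g) ∣[k] h = (F ∣[k] h) ∣[k] g :=
  slash_comm_of_mem hF (comm_mem_Gamma hN hg hh)

/-! ### The averaging operator over a subgroup modulo `Γ(N)` -/

/-- Reduction modulo `N`. -/
noncomputable abbrev redN (N : ℕ) : SL(2, ℤ) →* SL(2, ZMod N) :=
  Matrix.SpecialLinearGroup.map (Int.castRingHom (ZMod N))

theorem mem_Gamma_iff_redN {N : ℕ} {g : SL(2, ℤ)} : g ∈ Gamma N ↔ redN N g = 1 := Iff.rfl

theorem mul_inv_mem_Gamma_of_redN_eq {N : ℕ} {g h : SL(2, ℤ)} (e : redN N g = redN N h) :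
    g * h⁻¹ ∈ Gamma N := by
  rw [mem_Gamma_iff_redN, map_mul, map_inv, e, mul_inv_cancel]

/-- A chosen lift in `J` of an element of the image of `J` modulo `N`. -/
noncomputable def liftJ (N : ℕ) (J : Subgroup SL(2, ℤ)) (x : J.map (redN N)) : SL(2, ℤ) :=
  (Subgroup.mem_map.mp x.2).choose

theorem liftJ_mem (N : ℕ) (J : Subgroup SL(2, ℤ)) (x : J.map (redN N)) : liftJ N J x ∈ J :=
  (Subgroup.mem_map.mp x.2).choose_spec.1

theorem redN_liftJ (N : ℕ) (J : Subgroup SL(2, ℤ)) (x : J.map (redN N)) :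
    redN N (liftJ N J x) = x.1 :=
  (Subgroup.mem_map.mp x.2).choose_spec.2

/-- The averaging operator over `J` modulo `Γ(N)`. -/
noncomputable def avg (k : ℤ) (N : ℕ) [NeZero N] (J : Subgroup SL(2, ℤ)) (F : ℍ → ℂ) : ℍ → ℂ :=
  letI := Fintype.ofFinite (J.map (redN N))
  ((Nat.card (J.map (redN N)) : ℂ)⁻¹) • ∑ x : J.map (redN N), F ∣[k] liftJ N J x

theorem avg_def (N : ℕ) [NeZero N] (J : Subgroup SL(2, ℤ)) (F : ℍ → ℂ) :
    avg k N J F = ((Nat.card (J.map (redN N)) : ℂ)⁻¹) •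
      @Finset.sum _ _ _ (@Finset.univ _ (Fintype.ofFinite (J.map (redN N))))
        (fun x : J.map (redN N) => F ∣[k] liftJ N J x) := rfl

theorem avg_add (N : ℕ) [NeZero N] (J : Subgroup SL(2, ℤ)) (F G : ℍ → ℂ) :
    avg k N J (F + G) = avg k N J F + avg k N J G := by
  simp only [avg_def, SlashAction.add_slash, Finset.sum_add_distrib, smul_add]

theorem avg_smul (N : ℕ) [NeZero N] (J : Subgroup SL(2, ℤ)) (c : ℂ) (F : ℍ → ℂ) :
    avg k N J (c • F) = c • avg k N J F := by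
  simp only [avg_def, ModularForm.SL_smul_slash, ← Finset.smul_sum]
  rw [smul_comm]

theorem avg_neg (N : ℕ) [NeZero N] (J : Subgroup SL(2, ℤ)) (F : ℍ → ℂ) :
    avg k N J (-F) = - avg k N J F := by
  simp only [avg_def, SlashAction.neg_slash, Finset.sum_neg_distrib, smul_neg]

theorem avg_sub (N : ℕ) [NeZero N] (J : Subgroup SL(2, ℤ)) (F G : ℍ → ℂ) :
    avg k N J (F - G) = avg k N J F - avg k N J G := by
  rw [sub_eq_add_neg, avg_add, avg_neg, ← sub_eq_add_neg]

theorem avg_zero (N : ℕ) [NeZero N] (J : Subgroup SL(2, ℤ)) :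
    avg k N J (0 : ℍ → ℂ) = 0 := by
  simp only [avg_def, SlashAction.zero_slash, Finset.sum_const_zero, smul_zero]

/-- (i) the average is `J`-invariant. -/
theorem avg_slash_of_mem {N : ℕ} [NeZero N] {J : Subgroup SL(2, ℤ)} {F : ℍ → ℂ}
    (hF : SlInv k (Gamma N) F) {γ : SL(2, ℤ)} (hγ : γ ∈ J) :
    (avg k N J F) ∣[k] γ = avg k N J F := by
  let _ := Fintype.ofFinite (J.map (redN N))
  rw [avg_def, ModularForm.SL_smul_slash, SlashAction.sum_slash]
  congr 1
  let r : J.map (redN N) := ⟨redN N γ, Subgroup.mem_map_of_mem _ hγ⟩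
  have key : ∀ x : J.map (redN N), (F ∣[k] liftJ N J x) ∣[k] γ = F ∣[k] liftJ N J (x * r) := by
    intro x
    rw [← SlashAction.slash_mul]
    apply slash_congr hF
    apply mul_inv_mem_Gamma_of_redN_eq
    rw [map_mul, redN_liftJ, redN_liftJ]
    rfl
  simp only [key]
  exact Equiv.sum_comp (Equiv.mulRight r) (fun x => F ∣[k] liftJ N J x)

theorem avg_slInv {N : ℕ} [NeZero N] {J : Subgroup SL(2, ℤ)} {F : ℍ → ℂ}
    (hF : SlInv k (Gamma N) F) : SlInv k J (avg k N J F) :=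
  fun _ hγ => avg_slash_of_mem hF hγ

/-- (ii) the average of a `J`-invariant function is the function. -/
theorem avg_of_slInv {N : ℕ} [NeZero N] {J : Subgroup SL(2, ℤ)} {F : ℍ → ℂ}
    (hF : SlInv k J F) : avg k N J F = F := by
  let _ := Fintype.ofFinite (J.map (redN N))
  rw [avg_def]
  have key : ∀ x : J.map (redN N), F ∣[k] liftJ N J x = F := fun x => hF _ (liftJ_mem N J x)
  simp only [key, Finset.sum_const, Finset.card_univ]
  rw [← Nat.card_eq_fintype_card, ← Nat.cast_smul_eq_nsmul ℂ, smul_smul, inv_mul_cancel₀, one_smul]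
  have : Nat.card (J.map (redN N)) ≠ 0 := Nat.card_pos.ne'
  exact_mod_cast this

/-- (iii) the average commutes with the slash by an element commuting with `J` mod `Γ(N)`. -/
theorem avg_slash_comm {N : ℕ} [NeZero N] {J : Subgroup SL(2, ℤ)} {F : ℍ → ℂ}
    (hF : SlInv k (Gamma N) F) {g : SL(2, ℤ)}
    (hg : ∀ γ ∈ J, (γ * g) * (g * γ)⁻¹ ∈ Gamma N) :
    (avg k N J F) ∣[k] g = avg k N J (F ∣[k] g) := by
  let _ := Fintype.ofFinite (J.map (redN N))
  rw [avg_def, avg_def, ModularForm.SL_smul_slash, SlashAction.sum_slash]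
  congr 1
  refine Finset.sum_congr rfl fun x _ => ?_
  exact slash_comm_of_mem hF (hg _ (liftJ_mem N J x))

/-- (iv) stability of slash-stable submodules. -/
theorem avg_mem {N : ℕ} [NeZero N] (J : Subgroup SL(2, ℤ)) {𝒮 : Submodule ℂ (ℍ → ℂ)}
    (h𝒮 : ∀ F ∈ 𝒮, ∀ γ : SL(2, ℤ), F ∣[k] γ ∈ 𝒮) {F : ℍ → ℂ} (hF : F ∈ 𝒮) :
    avg k N J F ∈ 𝒮 := by
  let _ := Fintype.ofFinite (J.map (redN N))
  rw [avg_def]
  exact 𝒮.smul_mem _ (𝒮.sum_mem fun x _ => h𝒮 F hF _)

/-! ### The translation averaging operator -/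

/-- `avgT k x p F = p⁻¹ ∑_{j < p} F ∣[k] T^{j x}`. -/
noncomputable def avgT (k : ℤ) (x : ℤ) (p : ℕ) (F : ℍ → ℂ) : ℍ → ℂ :=
  ((p : ℂ)⁻¹) • ∑ j ∈ Finset.range p, F ∣[k] tU (j * x)

theorem avgT_add (x : ℤ) (p : ℕ) (F G : ℍ → ℂ) :
    avgT k x p (F + G) = avgT k x p F + avgT k x p G := by
  simp only [avgT, SlashAction.add_slash, Finset.sum_add_distrib, smul_add]

theorem avgT_neg (x : ℤ) (p : ℕ) (F : ℍ → ℂ) :
    avgT k x p (-F) = - avgT k x p F := by
  simp only [avgT, SlashAction.neg_slash, Finset.sum_neg_distrib, smul_neg]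

theorem avgT_sub (x : ℤ) (p : ℕ) (F G : ℍ → ℂ) :
    avgT k x p (F - G) = avgT k x p F - avgT k x p G := by
  rw [sub_eq_add_neg, avgT_add, avgT_neg, ← sub_eq_add_neg]

theorem avgT_smul (x : ℤ) (p : ℕ) (c : ℂ) (F : ℍ → ℂ) :
    avgT k x p (c • F) = c • avgT k x p F := by
  simp only [avgT, ModularForm.SL_smul_slash, ← Finset.smul_sum]
  rw [smul_comm]

theorem avgT_zero (x : ℤ) (p : ℕ) : avgT k x p (0 : ℍ → ℂ) = 0 := by
  simp only [avgT, SlashAction.zero_slash, Finset.sum_const_zero, smul_zero]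

theorem avgT_mem (x : ℤ) (p : ℕ) {𝒮 : Submodule ℂ (ℍ → ℂ)}
    (h𝒮 : ∀ F ∈ 𝒮, ∀ γ : SL(2, ℤ), F ∣[k] γ ∈ 𝒮) {F : ℍ → ℂ} (hF : F ∈ 𝒮) :
    avgT k x p F ∈ 𝒮 :=
  𝒮.smul_mem _ (𝒮.sum_mem fun _ _ => h𝒮 F hF _)

theorem avgT_slInv_Gamma {N : ℕ} (x : ℤ) (p : ℕ) {F : ℍ → ℂ} (hF : SlInv k (Gamma N) F) :
    SlInv k (Gamma N) (avgT k x p F) :=
  SlInv.smul _ (SlInv.sum _ fun _ _ => hF.slash _)

/-- `avgT` commutes with the slash by `g` if `g` commutes with the translations mod `Γ(N)`. -/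
theorem avgT_slash_comm {N : ℕ} {x : ℤ} {p : ℕ} {F : ℍ → ℂ} (hF : SlInv k (Gamma N) F)
    {g : SL(2, ℤ)} (hg : ∀ j : ℤ, (tU (j * x) * g) * (g * tU (j * x))⁻¹ ∈ Gamma N) :
    (avgT k x p F) ∣[k] g = avgT k x p (F ∣[k] g) := by
  rw [avgT, avgT, ModularForm.SL_smul_slash, SlashAction.sum_slash]
  congr 1
  refine Finset.sum_congr rfl fun j _ => ?_
  exact slash_comm_of_mem hF (hg j)

theorem slash_tU_mul {x : ℤ} {F : ℍ → ℂ} (h : F ∣[k] tU x = F) (j : ℤ) :
    F ∣[k] tU (j * x) = F := by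
  induction j using Int.induction_on with
  | zero => rw [zero_mul, tU_zero, SlashAction.slash_one]
  | succ i ih =>
    rw [add_mul, one_mul, tU_add, SlashAction.slash_mul, ih, h]
  | pred i ih =>
    have e : tU ((-(i : ℤ)) * x) = tU ((-(i : ℤ) - 1) * x) * tU x := by
      rw [← tU_add]; congr 1; ring
    rw [e, SlashAction.slash_mul] at ih
    have h' : F ∣[k] (tU x)⁻¹ = F := by
      conv_lhs => rw [← h]
      rw [← SlashAction.slash_mul, mul_inv_cancel, SlashAction.slash_one]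
    calc F ∣[k] tU ((-(i : ℤ) - 1) * x)
        = ((F ∣[k] tU ((-(i : ℤ) - 1) * x)) ∣[k] tU x) ∣[k] (tU x)⁻¹ := by
          rw [← SlashAction.slash_mul, mul_inv_cancel, SlashAction.slash_one]
      _ = F := by rw [ih, h']

/-- (d) `avgT` fixes functions invariant under the translation. -/
theorem avgT_of_slash_eq {x : ℤ} {p : ℕ} (hp : p ≠ 0) {F : ℍ → ℂ} (h : F ∣[k] tU x = F) :
    avgT k x p F = F := by
  rw [avgT]
  have key : ∀ j ∈ Finset.range p, F ∣[k] tU ((j : ℤ) * x) = F := fun j _ => slash_tU_mul h j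
  rw [Finset.sum_congr rfl key, Finset.sum_const, Finset.card_range,
    ← Nat.cast_smul_eq_nsmul ℂ, smul_smul, inv_mul_cancel₀ (by exact_mod_cast hp), one_smul]

/-- (c) `avgT F` is invariant under the translation, if `F` is invariant under its `p`-th power. -/
theorem avgT_slash_tU {x : ℤ} {p : ℕ} {F : ℍ → ℂ} (h : F ∣[k] tU (p * x) = F) :
    (avgT k x p F) ∣[k] tU x = avgT k x p F := by
  rw [avgT, ModularForm.SL_smul_slash, SlashAction.sum_slash]
  congr 1
  have key : ∀ j : ℕ, (F ∣[k] tU ((j : ℤ) * x)) ∣[k] tU x = F ∣[k] tU (((j + 1 : ℕ) : ℤ) * x) := by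
    intro j
    rw [← SlashAction.slash_mul, ← tU_add]
    congr 2
    push_cast; ring
  simp only [key]
  have h1 := Finset.sum_range_succ' (fun j : ℕ => F ∣[k] tU ((j : ℤ) * x)) p
  have h2 := Finset.sum_range_succ (fun j : ℕ => F ∣[k] tU ((j : ℤ) * x)) p
  simp only [Nat.cast_zero, zero_mul, tU_zero, SlashAction.slash_one] at h1
  rw [h] at h2
  rw [h2] at h1
  exact (add_right_cancel h1).symm

end Fermat.Agent.Lib.Newform.H803

end
-- ===== PACK-END Lib/Newform/H803/Ops.lean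

-- ===== PACK-BEGIN Lib/Newform/H23/Spec.lean
section


/-!
# Shared library NEWFORM — interface, part 2 (row-lead helper23)

Part 1 is `Fermat.Agent.Lib.Newform.H958.Spec` (leaves `EigenT EigenU Incl Occurs LowerU TraceAL`,
targets `BadCoeffAt BadCoeff Descent Stab`).  This file fixes the remaining interface:

* operators: `Raise` (degeneracy map `B_d`, in `q`-coefficients);
* Atkin–Lehner: `Lemma16`, `MainLemma` (all of it *Petersson-free*);
* targets: `MultOne` (same-level multiplicity one for a Prelude-newform),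
  `OldEigen` (an eigenvector in the old space lowers the level),
  `QNewKernel` (on the kernel of the two traces at `q ∥ N` one has `a_q ^ 2 = 1`; for S41).

Every statement is a `Prop`-valued definition; a block *proves* `theorem xxx : Xxx` in its own
directory `Fermat/Agent/Lib/Newform/H<seat>/`.  All coefficients are the Prelude's
`ModularFormClass.qCoeff` of the underlying function, so statements at different levels compare
by `rfl`-transport of functions (`Incl`).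
-/

set_option autoImplicit false

open CongruenceSubgroup
open scoped MatrixGroups

namespace Fermat.Agent.Lib.Newform.H23

open ModularFormClass

/-- **RAISE**: the degeneracy map `B_d`, `(B_d g)(τ) = g(dτ)`, from level `M` to any level `C`
with `d * M ∣ C`:  `a_n(B_d g) = a_{n/d}(g)` if `d ∣ n`, and `0` otherwise. -/
def Raise : Prop :=
  ∀ (M d C : ℕ) [NeZero C], d * M ∣ C → ∀ g : CuspForm (Gamma0 M) 2,
    ∃ h : CuspForm (Gamma0 C) 2, ∀ n : ℕ,
      qCoeff h n = if d ∣ n then qCoeff g (n / d) else 0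

/-- **LEMMA 16** (Atkin–Lehner): if `q ∣ N` and `a_n(f) = 0` whenever `q ∤ n`, then
`f = B_q g` with `g` of level `N / q` (so `a_n(g) = a_{qn}(f)`). -/
def Lemma16 : Prop :=
  ∀ (N q : ℕ) [NeZero N], q.Prime → q ∣ N → ∀ f : CuspForm (Gamma0 N) 2,
    (∀ n : ℕ, ¬ q ∣ n → qCoeff f n = 0) →
    ∃ g : CuspForm (Gamma0 (N / q)) 2, ∀ n : ℕ, qCoeff g n = qCoeff f (q * n)

/-- **MAIN LEMMA** (Atkin–Lehner): a cusp form of level `N` whose coefficients `a_n` vanish for
all `n` prime to `N` is a sum of `B_p g_p`, `g_p` of level `N / p`, over the primes `p ∣ N`. -/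
def MainLemma : Prop :=
  ∀ (N : ℕ) [NeZero N] (f : CuspForm (Gamma0 N) 2),
    (∀ n : ℕ, n.Coprime N → qCoeff f n = 0) →
    ∃ g : (p : ℕ) → CuspForm (Gamma0 (N / p)) 2, ∀ n : ℕ,
      qCoeff f n = ∑ p ∈ N.primeFactors, if p ∣ n then qCoeff (g p) (n / p) else 0

/-- **MAIN LEMMA, `D`-form** (stretch; needs `Lemma16` at primes `q ∤ N`, where `f = 0`):
the same with vanishing only for `n` prime to `D`, `D` any positive integer. -/
def MainLemmaD : Prop :=
  ∀ (N D : ℕ) [NeZero N], 0 < D → ∀ f : CuspForm (Gamma0 N) 2,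
    (∀ n : ℕ, n.Coprime D → qCoeff f n = 0) →
    ∃ g : (p : ℕ) → CuspForm (Gamma0 (N / p)) 2, ∀ n : ℕ,
      qCoeff f n = ∑ p ∈ N.primeFactors ∩ D.primeFactors,
        if p ∣ n then qCoeff (g p) (n / p) else 0

/-- **OLD-EIGEN**: if a *nonzero* cusp form of level `N` which is an eigenvector of all `T_ℓ`,
`ℓ ∤ N`, with eigenvalues `a ℓ`, is a sum of forms `B_p g_p` (`g_p` of level `N / p`, `p ∣ N`
prime), then the eigensystem `a` occurs for a normalized eigenform of some level `N / p`. -/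
def OldEigen : Prop :=
  ∀ (N : ℕ) [NeZero N] (h : CuspForm (Gamma0 N) 2), h ≠ 0 → ∀ a : ℕ → ℂ,
    (∀ (ℓ : ℕ) (hℓ : ℓ.Prime) (hℓN : ¬ ℓ ∣ N), CuspForm.heckeTLin 2 hℓ hℓN h = a ℓ • h) →
    (∃ g : (p : ℕ) → CuspForm (Gamma0 (N / p)) 2, ∀ n : ℕ,
      qCoeff h n = ∑ p ∈ N.primeFactors, if p ∣ n then qCoeff (g p) (n / p) else 0) →
    ∃ p : ℕ, p.Prime ∧ p ∣ N ∧ ∃ G : CuspForm (Gamma0 (N / p)) 2, G.IsNormalizedEigenform ∧
      ∀ ℓ : ℕ, ℓ.Prime → ¬ ℓ ∣ N → qCoeff G ℓ = a ℓ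

/-- **MULT-ONE** (same level): the good eigenspace of a Prelude-newform is the line through it. -/
def MultOne : Prop :=
  ∀ (N : ℕ) [NeZero N] (f : CuspForm (Gamma0 N) 2), f.IsNewform →
    ∀ h : CuspForm (Gamma0 N) 2,
      (∀ (ℓ : ℕ) (hℓ : ℓ.Prime) (hℓN : ¬ ℓ ∣ N),
        CuspForm.heckeTLin 2 hℓ hℓN h = qCoeff f ℓ • h) →
      h = qCoeff h 1 • f

/-- **MULT-ONE'**: a normalized eigenform of the level of a Prelude-newform `f` with the same
`a_ℓ` for all primes `ℓ ∤ N` is equal to `f` (in particular it has the same `a_q`, `q ∣ N`). -/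
def MultOneEigen : Prop :=
  ∀ (N : ℕ) [NeZero N] (f g : CuspForm (Gamma0 N) 2), f.IsNewform → g.IsNormalizedEigenform →
    (∀ ℓ : ℕ, ℓ.Prime → ¬ ℓ ∣ N → qCoeff g ℓ = qCoeff f ℓ) → g = f

/-- **Q-NEW-KERNEL** (for level raising, S41): for `q ∥ N` there are an involution-like operator
`W` and the two trace maps `tr`, `tr'` to level `N / q` (`tr f = f + U_q W f`,
`tr' f = W f + U_q f`); a normalized eigenform killed by both has `a_q ^ 2 = 1`, and the common
kernel is stable under all `T_ℓ`, `ℓ ∤ N`. -/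
def QNewKernel : Prop :=
  ∀ (N q : ℕ) [NeZero N], q.Prime → q ∣ N → ¬ q ^ 2 ∣ N →
    ∃ (W : CuspForm (Gamma0 N) 2 →ₗ[ℂ] CuspForm (Gamma0 N) 2)
      (tr tr' : CuspForm (Gamma0 N) 2 →ₗ[ℂ] CuspForm (Gamma0 (N / q)) 2),
      (∀ f : CuspForm (Gamma0 N) 2,
        (⇑(tr f) : UpperHalfPlane → ℂ) = ⇑f + ModularForm.heckeU 2 q ⇑(W f)) ∧
      (∀ f : CuspForm (Gamma0 N) 2,
        (⇑(tr' f) : UpperHalfPlane → ℂ) = ⇑(W f) + ModularForm.heckeU 2 q ⇑f) ∧
      (∀ (ℓ : ℕ) (hℓ : ℓ.Prime) (hℓN : ¬ ℓ ∣ N) (f : CuspForm (Gamma0 N) 2),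
        tr f = 0 → tr' f = 0 →
          tr (CuspForm.heckeTLin 2 hℓ hℓN f) = 0 ∧ tr' (CuspForm.heckeTLin 2 hℓ hℓN f) = 0) ∧
      (∀ f : CuspForm (Gamma0 N) 2, tr f = 0 → tr' f = 0 →
        ModularForm.heckeU 2 q (ModularForm.heckeU 2 q ⇑f) = ⇑f) ∧
      (∀ g : CuspForm (Gamma0 N) 2, g.IsNormalizedEigenform → tr g = 0 → tr' g = 0 →
        g.IsNewAt q) ∧
      (∀ g : CuspForm (Gamma0 N) 2, g.IsNewformAt q → tr g = 0 ∧ tr' g = 0)

end Fermat.Agent.Lib.Newform.H23

end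
-- ===== PACK-END Lib/Newform/H23/Spec.lean

-- ===== PACK-BEGIN S59/TW/Aut/H511/IdemCore.lean
section



/-!
# S59 / cell TW, layer 3, leaf IDEM: the abstract core (helper511)

`𝒪` a complete Noetherian local ring, `B` a commutative `𝒪`-algebra, finite as an `𝒪`-module,
`I` an ideal of `B`.  There is an idempotent `e ∈ B` with `e ∈ 𝔫 ↔ ¬ I ≤ 𝔫` for every maximal
ideal `𝔫` (`exists_idem`); then `I + (e) = B` and every `g e`, `g ∈ I`, has a power in `𝔪_𝒪 B`.

For a `B`-module structure `ρ : B →ₐ[𝒪] End_𝒪 X` (`core`): `e X` is the localisation of `X` at `I`.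
-/

set_option autoImplicit false

namespace Fermat.Agent.S59.TW.Aut.H511

open IsLocalRing

section Ring

/-- The idempotent cutting out the maximal ideals containing `I`. -/
theorem exists_idem (𝒪 : Type) [CommRing 𝒪] [IsLocalRing 𝒪] [IsNoetherianRing 𝒪]
    [IsAdicComplete (maximalIdeal 𝒪) 𝒪]
    (B : Type) [CommRing B] [Algebra 𝒪 B] [Module.Finite 𝒪 B] (I : Ideal B) :
    ∃ e : B, e * e = e ∧ ∀ 𝔫 : Ideal B, 𝔫.IsMaximal → (e ∈ 𝔫 ↔ ¬ I ≤ 𝔫) := by
  classical
  obtain ⟨-, hbij, -, -⟩ :=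
    Algebra.finite_maximalSpectrum_and_bijective_localization_of_module_finite (𝒪 := 𝒪) B
  set v : ∀ 𝔫 : MaximalSpectrum B, Localization.AtPrime 𝔫.asIdeal :=
    fun 𝔫 => if I ≤ 𝔫.asIdeal then 1 else 0 with hv
  obtain ⟨e, he⟩ := hbij.2 v
  refine ⟨e, ?_, ?_⟩
  · apply hbij.1
    rw [map_mul, he]
    funext 𝔫
    simp only [Pi.mul_apply, hv]
    split_ifs <;> simp
  · intro 𝔫 h𝔫
    have h1 : algebraMap B (Localization.AtPrime 𝔫) e =
        if I ≤ 𝔫 then 1 else 0 := congrFun he ⟨𝔫, h𝔫⟩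
    have h2 := IsLocalization.AtPrime.to_map_mem_maximal_iff (Localization.AtPrime 𝔫) 𝔫 e
    rw [← h2, h1]
    by_cases hI : I ≤ 𝔫
    · rw [if_pos hI]
      constructor
      · intro h
        exact absurd h (by
          intro h'
          exact (IsLocalRing.maximalIdeal.isMaximal _).ne_top
            ((Ideal.eq_top_iff_one _).mpr h'))
      · intro h
        exact absurd hI h
    · rw [if_neg hI]
      exact ⟨fun _ => hI, fun _ => Ideal.zero_mem _⟩

variable {B : Type} [CommRing B]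

theorem sup_span_idem_eq_top {I : Ideal B} {e : B}
    (he : ∀ 𝔫 : Ideal B, 𝔫.IsMaximal → (e ∈ 𝔫 ↔ ¬ I ≤ 𝔫)) : I ⊔ Ideal.span {e} = ⊤ := by
  by_contra h
  obtain ⟨𝔫, h𝔫, hle⟩ := Ideal.exists_le_maximal _ h
  have h1 : I ≤ 𝔫 := le_sup_left.trans hle
  have h2 : e ∈ 𝔫 := hle (Ideal.mem_sup_right (Ideal.subset_span rfl))
  exact (he 𝔫 h𝔫).mp h2 h1

theorem mul_idem_mem_of_isMaximal {I : Ideal B} {e : B}
    (he : ∀ 𝔫 : Ideal B, 𝔫.IsMaximal → (e ∈ 𝔫 ↔ ¬ I ≤ 𝔫)) {g : B} (hg : g ∈ I)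
    (𝔫 : Ideal B) (h𝔫 : 𝔫.IsMaximal) : g * e ∈ 𝔫 := by
  by_cases hI : I ≤ 𝔫
  · exact Ideal.mul_mem_right _ _ (hI hg)
  · exact Ideal.mul_mem_left _ _ ((he 𝔫 h𝔫).mpr hI)

/-- An element of all maximal ideals of `B` has a power in `𝔪_𝒪 B`. -/
theorem exists_pow_mem_map (𝒪 : Type) [CommRing 𝒪] [IsLocalRing 𝒪] [Algebra 𝒪 B]
    [Module.Finite 𝒪 B] {b : B} (hb : ∀ 𝔫 : Ideal B, 𝔫.IsMaximal → b ∈ 𝔫) :
    ∃ m : ℕ, b ^ m ∈ (maximalIdeal 𝒪).map (algebraMap 𝒪 B) := by
  have h1 : b ∈ ((maximalIdeal 𝒪).map (algebraMap 𝒪 B)).radical := by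
    rw [Ideal.radical_eq_sInf, Ideal.mem_sInf]
    rintro 𝔭 ⟨h𝔭le, h𝔭⟩
    have := h𝔭
    have hint : Algebra.IsIntegral 𝒪 B := inferInstance
    have hcomap : (𝔭.comap (algebraMap 𝒪 B)).IsMaximal := by
      have h2 : maximalIdeal 𝒪 ≤ 𝔭.comap (algebraMap 𝒪 B) :=
        Ideal.map_le_iff_le_comap.mp h𝔭le
      have h3 : 𝔭.comap (algebraMap 𝒪 B) ≠ ⊤ := (Ideal.comap_isPrime _ 𝔭).ne_top
      have h4 := (IsLocalRing.maximalIdeal.isMaximal 𝒪).eq_of_le h3 h2
      rw [← h4]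
      exact IsLocalRing.maximalIdeal.isMaximal 𝒪
    exact hb 𝔭 (Ideal.isMaximal_of_isIntegral_of_isMaximal_comap 𝔭 hcomap)
  exact h1

end Ring

section Module

variable {𝒪 : Type} [CommRing 𝒪] [IsLocalRing 𝒪] [IsNoetherianRing 𝒪]
  [IsAdicComplete (maximalIdeal 𝒪) 𝒪]
  {B : Type} [CommRing B] [Algebra 𝒪 B] [Module.Finite 𝒪 B]
  {X : Type} [AddCommGroup X] [Module 𝒪 X]

omit [IsNoetherianRing 𝒪] [IsAdicComplete (maximalIdeal 𝒪) 𝒪] [Module.Finite 𝒪 B] in
theorem map_apply_mem (ρ : B →ₐ[𝒪] Module.End 𝒪 X) {β : B}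
    (hβ : β ∈ (maximalIdeal 𝒪).map (algebraMap 𝒪 B)) (x : X) :
    ρ β x ∈ maximalIdeal 𝒪 • (⊤ : Submodule 𝒪 X) := by
  unfold Ideal.map at hβ
  induction hβ using Submodule.span_induction with
  | mem y hy =>
    obtain ⟨c, hc, rfl⟩ := hy
    rw [AlgHom.commutes]
    exact Submodule.smul_mem_smul hc Submodule.mem_top
  | zero =>
    rw [map_zero]
    exact Submodule.zero_mem _
  | add y z _ _ hy hz =>
    rw [map_add]
    exact Submodule.add_mem _ hy hz
  | smul a y _ hy =>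
    rw [smul_eq_mul, map_mul, Module.End.mul_apply]
    -- `ρ a` preserves `𝔪 X`
    have key : ∀ z ∈ maximalIdeal 𝒪 • (⊤ : Submodule 𝒪 X),
        ρ a z ∈ maximalIdeal 𝒪 • (⊤ : Submodule 𝒪 X) := by
      intro z hz
      refine Submodule.smul_induction_on hz ?_ ?_
      · intro c hc w _
        rw [map_smul]
        exact Submodule.smul_mem_smul hc Submodule.mem_top
      · intro w w' hw hw'
        rw [map_add]
        exact Submodule.add_mem _ hw hw'
    exact key _ hy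

omit [IsNoetherianRing 𝒪] [IsAdicComplete (maximalIdeal 𝒪) 𝒪] [Module.Finite 𝒪 B] in
theorem apply_mem_of_mem (f : Module.End 𝒪 X) {z : X}
    (hz : z ∈ maximalIdeal 𝒪 • (⊤ : Submodule 𝒪 X)) :
    f z ∈ maximalIdeal 𝒪 • (⊤ : Submodule 𝒪 X) := by
  refine Submodule.smul_induction_on hz ?_ ?_
  · intro c hc w _
    rw [map_smul]
    exact Submodule.smul_mem_smul hc Submodule.mem_top
  · intro w w' hw hw'
    rw [map_add]
    exact Submodule.add_mem _ hw hw'

/-- **The core of IDEM.**  For a module structure `ρ` of a finite commutative `𝒪`-algebra `B`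
on `X` and a set `gens ⊆ B`: an idempotent `e ∈ B` such that every `g ∈ gens` is nilpotent on
`e X` modulo `𝔪_𝒪` and `ker e` contains no common eigenvector of `gens` modulo `𝔪_𝒪`. -/
theorem core (ρ : B →ₐ[𝒪] Module.End 𝒪 X) (gens : Set B) :
    ∃ e : B, e * e = e ∧
      (∀ g ∈ gens, ∃ m : ℕ, ∀ x : X, ρ e x = x →
        (ρ g ^ m) x ∈ maximalIdeal 𝒪 • (⊤ : Submodule 𝒪 X)) ∧
      ∀ x : X, ρ e x = 0 →
        (∀ g ∈ gens, ρ g x ∈ maximalIdeal 𝒪 • (⊤ : Submodule 𝒪 X)) →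
        x ∈ maximalIdeal 𝒪 • (⊤ : Submodule 𝒪 X) := by
  set I : Ideal B := Ideal.span gens ⊔ (maximalIdeal 𝒪).map (algebraMap 𝒪 B) with hI
  obtain ⟨e, hee, he⟩ := exists_idem 𝒪 B I
  refine ⟨e, hee, ?_, ?_⟩
  · intro g hg
    have hgI : g ∈ I := Ideal.mem_sup_left (Ideal.subset_span hg)
    obtain ⟨m, hm⟩ := exists_pow_mem_map 𝒪 (b := g * e)
      (fun 𝔫 h𝔫 => mul_idem_mem_of_isMaximal he hgI 𝔫 h𝔫)
    refine ⟨m, fun x hx => ?_⟩
    have hek : ∀ k : ℕ, (ρ e ^ k) x = x := by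
      intro k
      induction k with
      | zero => rfl
      | succ k ih => rw [pow_succ, Module.End.mul_apply, hx, ih]
    have hpow : ∀ k : ℕ, (ρ (g * e) ^ k) x = (ρ g ^ k) x := by
      intro k
      rw [← map_pow, mul_pow, map_mul, Module.End.mul_apply, map_pow, map_pow, hek]
    rw [← hpow m, ← map_pow]
    exact map_apply_mem ρ hm x
  · intro x hx hgens
    have htop := sup_span_idem_eq_top he
    have h1 : (1 : B) ∈ I ⊔ Ideal.span {e} := by
      rw [htop]
      trivial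
    obtain ⟨i, hi, b, hb, hib⟩ := Submodule.mem_sup.mp h1
    obtain ⟨c, rfl⟩ := Ideal.mem_span_singleton'.mp hb
    have h2 : x = ρ i x := by
      have h3 : ρ (i + c * e) x = x := by
        rw [hib, map_one]
        rfl
      rw [map_add, LinearMap.add_apply, map_mul, Module.End.mul_apply, hx, map_zero,
        add_zero] at h3
      exact h3.symm
    rw [h2]
    -- `ρ i x ∈ 𝔪 X` for `i ∈ I`
    have key : ∀ y ∈ Ideal.span gens, ρ y x ∈ maximalIdeal 𝒪 • (⊤ : Submodule 𝒪 X) := by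
      intro y hy
      induction hy using Submodule.span_induction with
      | mem g hg => exact hgens g hg
      | zero =>
        rw [map_zero]
        exact Submodule.zero_mem _
      | add y z _ _ hy hz =>
        rw [map_add]
        exact Submodule.add_mem _ hy hz
      | smul a y _ hy =>
        rw [smul_eq_mul, map_mul, Module.End.mul_apply]
        exact apply_mem_of_mem (ρ a) hy
    obtain ⟨i₁, hi₁, i₂, hi₂, rfl⟩ := Submodule.mem_sup.mp hi
    rw [map_add, LinearMap.add_apply]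
    exact Submodule.add_mem _ (key i₁ hi₁) (map_apply_mem ρ hi₂ x)

end Module

section Comm

open scoped IsMulCommutative

variable {𝒪 : Type} [CommRing 𝒪] [IsLocalRing 𝒪] [IsNoetherianRing 𝒪]
  [IsAdicComplete (maximalIdeal 𝒪) 𝒪]
  {X : Type} [AddCommGroup X] [Module 𝒪 X] [Module.Finite 𝒪 X] [Module.Free 𝒪 X]

/-- **IDEM for a commuting family of operators** on a finite free module `X` over a complete
Noetherian local ring: for `gens` in the algebra generated by the commuting family `S`, an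
idempotent operator `e` commuting with `S`, such that the elements of `gens` are nilpotent on
`e X` modulo `𝔪_𝒪` and `ker e` contains no common eigenvector of `gens` modulo `𝔪_𝒪`. -/
theorem idem_of_comm (S : Set (Module.End 𝒪 X))
    (hcomm : ∀ a ∈ S, ∀ b ∈ S, a * b = b * a) (gens : Set (Module.End 𝒪 X))
    (hgens : gens ⊆ Algebra.adjoin 𝒪 S) :
    ∃ e : Module.End 𝒪 X, e * e = e ∧ (∀ s ∈ S, e * s = s * e) ∧
      (∀ g ∈ gens, ∃ m : ℕ, ∀ x : X, e x = x →
        (g ^ m) x ∈ maximalIdeal 𝒪 • (⊤ : Submodule 𝒪 X)) ∧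
      ∀ x : X, e x = 0 →
        (∀ g ∈ gens, g x ∈ maximalIdeal 𝒪 • (⊤ : Submodule 𝒪 X)) →
        x ∈ maximalIdeal 𝒪 • (⊤ : Submodule 𝒪 X) := by
  have hmc : IsMulCommutative (Algebra.adjoin 𝒪 S) := Algebra.isMulCommutative_adjoin 𝒪 hcomm
  have hfin : Module.Finite 𝒪 (Algebra.adjoin 𝒪 S) :=
    Module.Finite.of_injective (Algebra.adjoin 𝒪 S).val.toLinearMap Subtype.val_injective
  obtain ⟨e, hee, h1, h2⟩ := core (𝒪 := 𝒪) (B := Algebra.adjoin 𝒪 S) (X := X)
    (Algebra.adjoin 𝒪 S).val {b | (b : Module.End 𝒪 X) ∈ gens}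
  refine ⟨(e : Module.End 𝒪 X), ?_, ?_, ?_, ?_⟩
  · exact congrArg Subtype.val hee
  · intro s hs
    have := mul_comm e ⟨s, Algebra.subset_adjoin hs⟩
    exact congrArg Subtype.val this
  · intro g hg
    exact h1 ⟨g, hgens hg⟩ hg
  · intro x hx hx'
    exact h2 x hx fun b hb => hx' _ hb

end Comm

end Fermat.Agent.S59.TW.Aut.H511

end
-- ===== PACK-END S59/TW/Aut/H511/IdemCore.lean

-- ===== PACK-BEGIN S59/TW/H324/Unip.lean
section


/-!
# S59 / cell TW, leaf CUSP (helper324): unipotent elements of `SL(2, ℤ)`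

`unip t a c = 1 + t · v (Jv)ᵀ` (`v = (a, c)`) is the unipotent matrix
`[[1 - t a c, t a²], [-t c², 1 + t a c]]`; it fixes `v`.

* `unip_add`, `unip_nsmul`, `unip_zsmul`, `unip_scale` : `t ↦ unip t a c` is a homomorphism and
  `unip t (k a) (k c) = unip (t k²) a c`;
* `conj_unip`      : `g · unip t v · g⁻¹ = unip t (g v)` for `g ∈ SL(2, ℤ)`;
* `mul_unipMat`    : `m · unip (det m · t) v = unip t (m v) · m` for every integral matrix `m`;
* `unip_mem_Gamma` : `unip t v ∈ Γ(M)` if `M ∣ t`;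
* `exists_unip_of_trace_two` : every `γ ∈ SL(2, ℤ)` of trace `2` is `unip t a c`, `(a, c)` coprime;
* `sq_trace_two`   : if `(tr γ)² = 4` then `tr (γ²) = 2`;
* `exists_Gamma_conj` : coprime vectors congruent mod `M` are conjugate under `Γ(M)`;
* `content_cases`  : if `det m = ℓ` is prime and `v` is coprime, then `m v` is coprime or `m v = ℓ v'`
  with `v'` coprime.
-/

set_option autoImplicit false

namespace Fermat.Agent.S59.TW.H324

open Matrix CongruenceSubgroup
open scoped MatrixGroups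

/-- `U_t(a, c) = 1 + t · v (Jv)ᵀ`, `v = (a, c)`. -/
def unipMat (t a c : ℤ) : Matrix (Fin 2) (Fin 2) ℤ :=
  !![1 - t * a * c, t * a ^ 2; -(t * c ^ 2), 1 + t * a * c]

theorem det_unipMat (t a c : ℤ) : (unipMat t a c).det = 1 := by
  rw [unipMat, Matrix.det_fin_two_of]
  ring

/-- `unipMat` as an element of `SL(2, ℤ)`. -/
def unip (t a c : ℤ) : SL(2, ℤ) := ⟨unipMat t a c, det_unipMat t a c⟩

@[simp] theorem coe_unip (t a c : ℤ) :
    ((unip t a c : SL(2, ℤ)) : Matrix (Fin 2) (Fin 2) ℤ) = unipMat t a c := rfl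

theorem unip_apply_00 (t a c : ℤ) : (unip t a c) 0 0 = 1 - t * a * c := rfl
theorem unip_apply_01 (t a c : ℤ) : (unip t a c) 0 1 = t * a ^ 2 := rfl
theorem unip_apply_10 (t a c : ℤ) : (unip t a c) 1 0 = -(t * c ^ 2) := rfl
theorem unip_apply_11 (t a c : ℤ) : (unip t a c) 1 1 = 1 + t * a * c := rfl

theorem sl2_ext {g h : SL(2, ℤ)} (h00 : g 0 0 = h 0 0) (h01 : g 0 1 = h 0 1)
    (h10 : g 1 0 = h 1 0) (h11 : g 1 1 = h 1 1) : g = h := by
  apply Subtype.ext
  ext i j
  fin_cases i <;> fin_cases j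
  · exact h00
  · exact h01
  · exact h10
  · exact h11

theorem sl2_mul_apply (g h : SL(2, ℤ)) (i j : Fin 2) :
    (g * h) i j = g i 0 * h 0 j + g i 1 * h 1 j := by
  rw [Matrix.SpecialLinearGroup.coe_mul, Matrix.mul_apply, Fin.sum_univ_two]

theorem unip_zero (a c : ℤ) : unip 0 a c = 1 := by
  apply sl2_ext <;> simp [unip_apply_00, unip_apply_01, unip_apply_10, unip_apply_11]

theorem unip_add (s t a c : ℤ) : unip (s + t) a c = unip s a c * unip t a c := by
  apply sl2_ext <;>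
    simp only [sl2_mul_apply, unip_apply_00, unip_apply_01, unip_apply_10, unip_apply_11] <;> ring

theorem unip_neg (t a c : ℤ) : unip (-t) a c = (unip t a c)⁻¹ := by
  rw [eq_inv_iff_mul_eq_one, ← unip_add, neg_add_cancel, unip_zero]

theorem unip_nsmul (n : ℕ) (t a c : ℤ) : unip (n * t) a c = unip t a c ^ n := by
  induction n with
  | zero => simp [unip_zero]
  | succ n ih =>
    rw [pow_succ, ← ih, ← unip_add]
    congr 1
    push_cast
    ring

theorem unip_zsmul (n : ℤ) (t a c : ℤ) : unip (n * t) a c = unip t a c ^ n := by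
  obtain ⟨k, rfl | rfl⟩ := Int.eq_nat_or_neg n
  · rw [zpow_natCast, unip_nsmul]
  · rw [_root_.zpow_neg, zpow_natCast, ← unip_nsmul, ← unip_neg, neg_mul]

theorem unip_scale (t k a c : ℤ) : unip t (k * a) (k * c) = unip (t * k ^ 2) a c := by
  apply sl2_ext <;>
    simp only [unip_apply_00, unip_apply_01, unip_apply_10, unip_apply_11] <;> ring

theorem unip_neg_vec (t a c : ℤ) : unip t (-a) (-c) = unip t a c := by
  apply sl2_ext <;>
    simp only [unip_apply_00, unip_apply_01, unip_apply_10, unip_apply_11] <;> ring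

/-- `m · U_{det m · t}(v) = U_t(m v) · m` for every integral matrix `m`. -/
theorem mul_unipMat (m : Matrix (Fin 2) (Fin 2) ℤ) (t a c : ℤ) :
    m * unipMat (m.det * t) a c =
      unipMat t (m 0 0 * a + m 0 1 * c) (m 1 0 * a + m 1 1 * c) * m := by
  ext i j
  fin_cases i <;> fin_cases j <;>
    simp only [unipMat, Matrix.mul_apply, Fin.sum_univ_two, Matrix.det_fin_two, Matrix.of_apply,
      Matrix.cons_val', Matrix.cons_val_zero, Matrix.cons_val_one, Matrix.cons_val_fin_one,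
      Fin.zero_eta, Fin.mk_one] <;> ring

theorem sl2_det (g : SL(2, ℤ)) : g 0 0 * g 1 1 - g 0 1 * g 1 0 = 1 := by
  have := g.2
  rwa [Matrix.det_fin_two] at this

/-- `g · U_t(v) · g⁻¹ = U_t(g v)` for `g ∈ SL(2, ℤ)`. -/
theorem conj_unip (g : SL(2, ℤ)) (t a c : ℤ) :
    g * unip t a c * g⁻¹ = unip t (g 0 0 * a + g 0 1 * c) (g 1 0 * a + g 1 1 * c) := by
  rw [mul_inv_eq_iff_eq_mul]
  apply Subtype.ext
  have h := mul_unipMat (g : Matrix (Fin 2) (Fin 2) ℤ) t a c
  rw [g.2, one_mul] at h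
  exact h

theorem unip_mem_Gamma {M : ℕ} {t : ℤ} (ht : (M : ℤ) ∣ t) (a c : ℤ) : unip t a c ∈ Gamma M := by
  obtain ⟨s, rfl⟩ := ht
  rw [Gamma_mem]
  simp only [unip_apply_00, unip_apply_01, unip_apply_10, unip_apply_11]
  push_cast
  simp

theorem trace_unip (t a c : ℤ) : ((unip t a c : SL(2, ℤ)) : Matrix (Fin 2) (Fin 2) ℤ).trace = 2 := by
  rw [Matrix.trace_fin_two]
  show (unip t a c) 0 0 + (unip t a c) 1 1 = 2
  rw [unip_apply_00, unip_apply_11]
  ring

/-! ## Elements of trace `±2` -/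

theorem trace_sq_eq (γ : SL(2, ℤ)) :
    ((γ ^ 2 : SL(2, ℤ)) : Matrix (Fin 2) (Fin 2) ℤ).trace =
      ((γ : SL(2, ℤ)) : Matrix (Fin 2) (Fin 2) ℤ).trace ^ 2 - 2 := by
  rw [pow_two, Matrix.trace_fin_two, Matrix.trace_fin_two]
  show (γ * γ) 0 0 + (γ * γ) 1 1 = _
  rw [sl2_mul_apply, sl2_mul_apply]
  linear_combination (-2 : ℤ) * sl2_det γ

/-- If `(tr γ)² = 4` then `tr (γ²) = 2`. -/
theorem sq_trace_two {γ : SL(2, ℤ)}
    (h : ((γ : SL(2, ℤ)) : Matrix (Fin 2) (Fin 2) ℤ).trace ^ 2 = 4) :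
    ((γ ^ 2 : SL(2, ℤ)) : Matrix (Fin 2) (Fin 2) ℤ).trace = 2 := by
  rw [trace_sq_eq, h]
  norm_num

/-- An element of `SL(2, ℤ)` of trace `2` fixes a coprime vector. -/
theorem exists_fixed_vector {γ : SL(2, ℤ)}
    (h : ((γ : SL(2, ℤ)) : Matrix (Fin 2) (Fin 2) ℤ).trace = 2) :
    ∃ a c : ℤ, IsCoprime a c ∧ γ 0 0 * a + γ 0 1 * c = a ∧ γ 1 0 * a + γ 1 1 * c = c := by
  rw [Matrix.trace_fin_two] at h
  have hd := sl2_det γ
  by_cases h0 : γ 0 1 = 0 ∧ γ 0 0 - 1 = 0
  · obtain ⟨h1, h2⟩ := h0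
    refine ⟨0, 1, isCoprime_zero_left.mpr isUnit_one, ?_, ?_⟩
    · rw [h1]; ring
    · have h3 : γ 1 1 = 1 := by linarith
      rw [h3]; ring
  · have hg : 0 < Int.gcd (γ 0 1) (γ 0 0 - 1) := by
      rw [Int.gcd_pos_iff]
      by_contra hcon
      rw [not_or, not_not, not_not] at hcon
      exact h0 hcon
    obtain ⟨a, c', hac, ha, hc⟩ := Int.exists_gcd_one hg
    set d : ℤ := (Int.gcd (γ 0 1) (γ 0 0 - 1) : ℤ) with hd'
    have hd0 : d ≠ 0 := by
      rw [hd']
      exact_mod_cast hg.ne'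
    have hcop : IsCoprime a (-c') := (Int.isCoprime_iff_gcd_eq_one.mpr hac).neg_right
    refine ⟨a, -c', hcop, ?_, ?_⟩
    · apply mul_left_cancel₀ hd0
      have e1 : γ 0 0 = c' * d + 1 := by linarith
      rw [e1]
      have e2 : γ 0 1 = a * d := ha
      rw [e2]
      ring
    · apply mul_left_cancel₀ hd0
      have e1 : γ 0 0 = c' * d + 1 := by linarith
      have e2 : γ 0 1 = a * d := ha
      have e3 : γ 1 1 = 1 - c' * d := by linarith
      rw [e1, e2, e3] at hd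
      rw [e3]
      -- `hd : (c' d + 1)(1 - c' d) - a d γ₁₀ = 1`, i.e. `d (c'² d + a γ₁₀) = 0`
      have e4 : d * (c' ^ 2 * d + a * γ 1 0) = 0 := by linear_combination -hd
      have e5 : c' ^ 2 * d + a * γ 1 0 = 0 := by
        rcases mul_eq_zero.mp e4 with h5 | h5
        · exact absurd h5 hd0
        · exact h5
      linear_combination d * e5

/-- An element of `SL(2, ℤ)` fixing the coprime vector `(a, c)` is `unip t a c`. -/
theorem exists_unip_of_fixes {γ : SL(2, ℤ)} {a c : ℤ} (hac : IsCoprime a c)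
    (h1 : γ 0 0 * a + γ 0 1 * c = a) (h2 : γ 1 0 * a + γ 1 1 * c = c) :
    ∃ t : ℤ, γ = unip t a c := by
  obtain ⟨x, y, hxy⟩ := hac
  have hd := sl2_det γ
  -- `g₀ = [[a, -y], [c, x]]`
  have hg₀ : (!![a, -y; c, x] : Matrix (Fin 2) (Fin 2) ℤ).det = 1 := by
    rw [Matrix.det_fin_two_of]
    linear_combination hxy
  set g₀ : SL(2, ℤ) := ⟨!![a, -y; c, x], hg₀⟩ with hg₀def
  have g00 : g₀ 0 0 = a := rfl
  have g01 : g₀ 0 1 = -y := rfl
  have g10 : g₀ 1 0 = c := rfl
  have g11 : g₀ 1 1 = x := rfl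
  -- `h = g₀⁻¹ γ g₀` is `unip t 1 0`
  set P : ℤ := -(γ 0 0 * y) + γ 0 1 * x with hP
  set Q : ℤ := -(γ 1 0 * y) + γ 1 1 * x with hQ
  refine ⟨x * P + y * Q, ?_⟩
  have key : γ * g₀ = g₀ * unip (x * P + y * Q) 1 0 := by
    apply sl2_ext <;>
      simp only [sl2_mul_apply, unip_apply_00, unip_apply_01, unip_apply_10, unip_apply_11,
        g00, g01, g10, g11]
    · linear_combination h1
    · rw [hP, hQ]
      linear_combination (y * (-(γ 1 0 * y) + γ 1 1 * x)) * h1
        - (y * (-(γ 0 0 * y) + γ 0 1 * x)) * h2 - y * (x * a + y * c) * hd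
        - (y + (-(γ 0 0 * y) + γ 0 1 * x)) * hxy
    · linear_combination h2
    · rw [hP, hQ]
      linear_combination (-(x * (-(γ 1 0 * y) + γ 1 1 * x))) * h1
        + (x * (-(γ 0 0 * y) + γ 0 1 * x)) * h2 + x * (x * a + y * c) * hd
        + (x - (-(γ 1 0 * y) + γ 1 1 * x)) * hxy
  have e : γ = g₀ * unip (x * P + y * Q) 1 0 * g₀⁻¹ := by
    rw [← key, mul_inv_cancel_right]
  rw [e, conj_unip, g00, g01, g10, g11]
  congr 1 <;> ring

/-- Every `γ ∈ SL(2, ℤ)` of trace `2` is `unip t a c` with `(a, c)` coprime. -/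
theorem exists_unip_of_trace_two {γ : SL(2, ℤ)}
    (h : ((γ : SL(2, ℤ)) : Matrix (Fin 2) (Fin 2) ℤ).trace = 2) :
    ∃ t a c : ℤ, IsCoprime a c ∧ γ = unip t a c := by
  obtain ⟨a, c, hac, h1, h2⟩ := exists_fixed_vector h
  obtain ⟨t, ht⟩ := exists_unip_of_fixes hac h1 h2
  exact ⟨t, a, c, hac, ht⟩

/-! ## Conjugacy under `Γ(M)` -/

/-- Coprime vectors which are congruent mod `M` are conjugate under `Γ(M)`. -/
theorem exists_Gamma_conj (M : ℕ) {a c a' c' : ℤ} (h : IsCoprime a c) (h' : IsCoprime a' c')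
    (ha : (M : ℤ) ∣ a' - a) (hc : (M : ℤ) ∣ c' - c) :
    ∃ k : SL(2, ℤ), k ∈ Gamma M ∧ k 0 0 * a + k 0 1 * c = a' ∧ k 1 0 * a + k 1 1 * c = c' := by
  obtain ⟨x, y, hxy⟩ := h
  obtain ⟨x', y', hxy'⟩ := h'
  set s₀ : ℤ := y' * x - x' * y with hs₀
  set E : ℤ := a' * s₀ - y' with hE
  set F : ℤ := c' * s₀ + x' with hF
  have hdet : (!![a' * x - E * c, a' * y + E * a; c' * x - F * c, c' * y + F * a] :
      Matrix (Fin 2) (Fin 2) ℤ).det = 1 := by
    rw [Matrix.det_fin_two_of, hE, hF]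
    linear_combination (x' * a' + y' * c') * hxy + hxy'
  set k : SL(2, ℤ) := ⟨!![a' * x - E * c, a' * y + E * a; c' * x - F * c, c' * y + F * a], hdet⟩
    with hk
  have k00 : k 0 0 = a' * x - E * c := rfl
  have k01 : k 0 1 = a' * y + E * a := rfl
  have k10 : k 1 0 = c' * x - F * c := rfl
  have k11 : k 1 1 = c' * y + F * a := rfl
  have hA : ((a' : ℤ) : ZMod M) = ((a : ℤ) : ZMod M) := by
    have := (ZMod.intCast_zmod_eq_zero_iff_dvd _ _).mpr ha
    push_cast at this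
    exact sub_eq_zero.mp this
  have hC : ((c' : ℤ) : ZMod M) = ((c : ℤ) : ZMod M) := by
    have := (ZMod.intCast_zmod_eq_zero_iff_dvd _ _).mpr hc
    push_cast at this
    exact sub_eq_zero.mp this
  have hB : ((x : ℤ) : ZMod M) * a + y * c = 1 := by exact_mod_cast congrArg (Int.cast : ℤ → ZMod M) hxy
  have hB' : ((x' : ℤ) : ZMod M) * a + y' * c = 1 := by
    have := congrArg (Int.cast : ℤ → ZMod M) hxy'
    push_cast at this
    rw [hA, hC] at this
    exact this
  refine ⟨k, ?_, ?_, ?_⟩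
  · rw [Gamma_mem, k00, k01, k10, k11, hE, hF, hs₀]
    push_cast
    rw [hA, hC]
    refine ⟨?_, ?_, ?_, ?_⟩
    · linear_combination (1 - (c : ZMod M) * y') * hB + (c : ZMod M) * y * hB'
    · linear_combination ((a : ZMod M) * y') * hB - ((a : ZMod M) * y) * hB'
    · linear_combination ((c : ZMod M) * x') * hB - ((c : ZMod M) * x) * hB'
    · linear_combination (1 - (a : ZMod M) * x') * hB + (a : ZMod M) * x * hB'
  · rw [k00, k01]
    linear_combination a' * hxy
  · rw [k10, k11]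
    linear_combination c' * hxy

/-! ## The content of `m v` for `det m = ℓ` prime -/

/-- If `det m = ℓ` is prime and `v = (a, c)` is coprime, then `m v = ℓ v'` with `v'` coprime, or
`m v` is coprime. -/
theorem content_cases {ℓ : ℕ} (hℓ : ℓ.Prime) (m : Matrix (Fin 2) (Fin 2) ℤ) (hm : m.det = ℓ)
    {a c : ℤ} (hac : IsCoprime a c) :
    (∃ a' c' : ℤ, IsCoprime a' c' ∧ m 0 0 * a + m 0 1 * c = ℓ * a' ∧
        m 1 0 * a + m 1 1 * c = ℓ * c') ∨
      (¬ ((ℓ : ℤ) ∣ m 0 0 * a + m 0 1 * c ∧ (ℓ : ℤ) ∣ m 1 0 * a + m 1 1 * c) ∧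
        IsCoprime (m 0 0 * a + m 0 1 * c) (m 1 0 * a + m 1 1 * c)) := by
  obtain ⟨x, y, hxy⟩ := hac
  rw [Matrix.det_fin_two] at hm
  have hℓ0 : (ℓ : ℤ) ≠ 0 := by exact_mod_cast hℓ.ne_zero
  set A : ℤ := m 0 0 * a + m 0 1 * c with hA
  set C : ℤ := m 1 0 * a + m 1 1 * c with hC
  -- `adj(m) (A, C) = ℓ (a, c)`
  have e1 : m 1 1 * A - m 0 1 * C = ℓ * a := by rw [hA, hC]; linear_combination a * hm
  have e2 : -(m 1 0 * A) + m 0 0 * C = ℓ * c := by rw [hA, hC]; linear_combination c * hm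
  have e3 : (x * m 1 1 - y * m 1 0) * A + (-(x * m 0 1) + y * m 0 0) * C = ℓ := by
    linear_combination x * e1 + y * e2 + (ℓ : ℤ) * hxy
  by_cases hdiv : (ℓ : ℤ) ∣ A ∧ (ℓ : ℤ) ∣ C
  · left
    obtain ⟨⟨a', ha'⟩, ⟨c', hc'⟩⟩ := hdiv
    refine ⟨a', c', ⟨x * m 1 1 - y * m 1 0, -(x * m 0 1) + y * m 0 0, ?_⟩, ha', hc'⟩
    apply mul_left_cancel₀ hℓ0
    rw [ha', hc'] at e3
    linear_combination e3
  · right
    refine ⟨hdiv, ?_⟩
    rw [Int.isCoprime_iff_gcd_eq_one]
    have h1 : ((Int.gcd A C : ℕ) : ℤ) ∣ (ℓ : ℤ) := by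
      rw [← e3]
      exact Dvd.dvd.add (Dvd.dvd.mul_left (Int.gcd_dvd_left A C) _)
        (Dvd.dvd.mul_left (Int.gcd_dvd_right A C) _)
    have h2 : Int.gcd A C ∣ ℓ := Int.natCast_dvd_natCast.mp h1
    rcases (Nat.dvd_prime hℓ).mp h2 with h3 | h3
    · exact h3
    · exfalso
      apply hdiv
      rw [← h3]
      exact ⟨Int.gcd_dvd_left A C, Int.gcd_dvd_right A C⟩

end Fermat.Agent.S59.TW.H324

end
-- ===== PACK-END S59/TW/H324/Unip.lean

-- ===== PACK-BEGIN S41/H45/Trace.lean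
section


/-!
# S41, block NE', step (K3): the trace trick (helper45)

For endomorphisms `g`, `u` of a plane: if `u`, `g u` and `g u²` are unipotent, then `g` is
unipotent.  (Mathlib only.)
-/

set_option autoImplicit false

open Module

namespace Fermat.Agent.S41.H45

section Mat

variable {k : Type*} [Field k]

/-- Cayley–Hamilton for `2 × 2` matrices. -/
theorem matrix_cayley_two_h45 (A : Matrix (Fin 2) (Fin 2) k) :
    A * A = A.trace • A - A.det • (1 : Matrix (Fin 2) (Fin 2) k) := by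
  ext i j
  fin_cases i <;> fin_cases j <;>
    simp [Matrix.mul_apply, Fin.sum_univ_two, Matrix.trace_fin_two, Matrix.det_fin_two] <;> ring

/-- `det (1 + N) = 1 + tr N + det N` for `2 × 2` matrices. -/
theorem matrix_det_one_add_h45 (N : Matrix (Fin 2) (Fin 2) k) :
    (1 + N).det = 1 + N.trace + N.det := by
  simp [Matrix.det_fin_two, Matrix.trace_fin_two]
  ring

/-- A unipotent `2 × 2` matrix has trace `2` and determinant `1`. -/
theorem matrix_trace_det_of_unipotent_h45 (T : Matrix (Fin 2) (Fin 2) k)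
    (hT : (T - 1) * (T - 1) = 0) : T.trace = 2 ∧ T.det = 1 := by
  set N := T - 1 with hN
  have hdet : N.det = 0 := by
    have h := congrArg Matrix.det hT
    rw [Matrix.det_mul, Matrix.det_zero] at h
    exact mul_self_eq_zero.mp h
  have htr : N.trace = 0 := by
    have h := matrix_cayley_two_h45 N
    rw [hT, hdet, zero_smul, sub_zero] at h
    rcases smul_eq_zero.mp h.symm with h0 | h0
    · exact h0
    · rw [h0, Matrix.trace_zero]
  have hT' : T = 1 + N := by rw [hN]; abel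
  constructor
  · rw [hT', Matrix.trace_add, htr, add_zero, Matrix.trace_one, Fintype.card_fin]
    norm_num
  · rw [hT', matrix_det_one_add_h45, htr, hdet, add_zero, add_zero]

/-- A `2 × 2` matrix with trace `2` and determinant `1` is unipotent. -/
theorem matrix_unipotent_of_trace_det_h45 (T : Matrix (Fin 2) (Fin 2) k)
    (htr : T.trace = 2) (hdet : T.det = 1) : (T - 1) * (T - 1) = 0 := by
  have h := matrix_cayley_two_h45 T
  rw [htr, hdet, one_smul] at h
  have : (T - 1) * (T - 1) = T * T - (2 : k) • T + 1 := by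
    rw [two_smul]; noncomm_ring
  rw [this, h]
  abel

/-- **Trace trick**, matrix form. -/
theorem matrix_unipotent_of_three_h45 (G U : Matrix (Fin 2) (Fin 2) k)
    (hu : (U - 1) * (U - 1) = 0) (h1 : (G * U - 1) * (G * U - 1) = 0)
    (h2 : (G * (U * U) - 1) * (G * (U * U) - 1) = 0) : (G - 1) * (G - 1) = 0 := by
  obtain ⟨-, hdU⟩ := matrix_trace_det_of_unipotent_h45 U hu
  obtain ⟨ht1, hd1⟩ := matrix_trace_det_of_unipotent_h45 (G * U) h1
  obtain ⟨ht2, -⟩ := matrix_trace_det_of_unipotent_h45 (G * (U * U)) h2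
  have hUU : U * U = (2 : k) • U - 1 := by
    have : (U - 1) * (U - 1) = U * U - (2 : k) • U + 1 := by
      rw [two_smul]; noncomm_ring
    rw [this] at hu
    have h3 : U * U + 1 - (2 : k) • U = 0 := by rw [← hu]; abel
    exact eq_sub_of_add_eq (sub_eq_zero.mp h3)
  have hGUU : G * (U * U) = (2 : k) • (G * U) - G := by
    rw [hUU, mul_sub, mul_one, Matrix.mul_smul]
  rw [hGUU, Matrix.trace_sub, Matrix.trace_smul, ht1, smul_eq_mul] at ht2
  have htG : G.trace = 2 := by linear_combination (-1 : k) * ht2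
  have hdG : G.det = 1 := by
    rw [Matrix.det_mul, hdU, mul_one] at hd1
    exact hd1
  exact matrix_unipotent_of_trace_det_h45 G htG hdG

end Mat

section End

variable {k V : Type*} [Field k] [AddCommGroup V] [Module k V]

/-- **Trace trick** (K3): if `u`, `g u`, `g u²` are unipotent endomorphisms of a plane, so is
`g`. -/
theorem unipotent_of_three_h45 (hdim : finrank k V = 2) (g u : End k V)
    (hu : (u - 1) * (u - 1) = 0) (h1 : (g * u - 1) * (g * u - 1) = 0)
    (h2 : (g * (u * u) - 1) * (g * (u * u) - 1) = 0) : (g - 1) * (g - 1) = 0 := by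
  have hfd : FiniteDimensional k V := FiniteDimensional.of_finrank_pos (by omega)
  let b : Basis (Fin 2) k V := Module.finBasisOfFinrankEq k V hdim
  let φ := LinearMap.toMatrixAlgEquiv b
  apply φ.injective
  have hu' : (φ u - 1) * (φ u - 1) = 0 := by
    have := congrArg φ hu
    simpa using this
  have h1' : (φ g * φ u - 1) * (φ g * φ u - 1) = 0 := by
    have := congrArg φ h1
    simpa using this
  have h2' : (φ g * (φ u * φ u) - 1) * (φ g * (φ u * φ u) - 1) = 0 := by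
    have := congrArg φ h2
    simpa using this
  have := matrix_unipotent_of_three_h45 (φ g) (φ u) hu' h1' h2'
  simpa using this

end End

end Fermat.Agent.S41.H45

end
-- ===== PACK-END S41/H45/Trace.lean

-- ===== PACK-BEGIN S59/TW/H658/Lev.lean
section



/-!
# S59 / TW-ES (helper658): levels

A *level* `L : Lev` is a subgroup `L.Γ ≤ SL(2,ℤ)` containing `-1` and the principal congruence
subgroup `Γ(L.N)`, `L.N ≠ 0`.  Examples: `Γ₀(N)`, and the groups `Γ₀(N) ∩ Γ_H(Q)` of the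
Taylor–Wiles construction.  The Hodge existence theorem of S21 (every real parabolic
homomorphism is the real part of the period homomorphism of a weight-2 cusp form) is ported to
every level in this directory.
-/

set_option autoImplicit false

open CongruenceSubgroup
open scoped MatrixGroups

namespace Fermat.Agent.S59.TW.H658

/-- A level: a subgroup of `SL(2,ℤ)` containing `-1` and `Γ(N)` for some `N ≠ 0`. -/
structure Lev where
  /-- a multiple of the widths of all cusps -/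
  N : ℕ
  /-- the group -/
  Γ : Subgroup SL(2, ℤ)
  /-- `N ≠ 0` -/
  pos : N ≠ 0
  /-- `Γ(N) ≤ Γ` -/
  le : Gamma N ≤ Γ
  /-- `-1 ∈ Γ` -/
  neg : (-1 : SL(2, ℤ)) ∈ Γ

namespace Lev

variable (L : Lev)

instance instNeZero : NeZero L.N := ⟨L.pos⟩

instance instFiniteIndex : L.Γ.FiniteIndex :=
  Subgroup.finiteIndex_of_le L.le

theorem conj_T_zpow_mem (δ : SL(2, ℤ)) (k : ℤ) :
    δ * ModularGroup.T ^ ((L.N : ℤ) * k) * δ⁻¹ ∈ L.Γ := by
  have h1 : ModularGroup.T ^ ((L.N : ℤ) * k) ∈ CongruenceSubgroup.Gamma L.N := by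
    simpa using ModularGroup_T_pow_mem_Gamma (L.N : ℤ) ((L.N : ℤ) * k) (dvd_mul_right _ _)
  exact L.le ((Gamma_normal L.N).conj_mem _ h1 δ)

/-- The level `Γ₀(N)`. -/
def gamma0 (N : ℕ) [NeZero N] : Lev where
  N := N
  Γ := Gamma0 N
  pos := NeZero.ne N
  le := fun g hg => by
    rw [Gamma_mem] at hg
    rw [Gamma0_mem]
    exact hg.2.2.1
  neg := by
    rw [Gamma0_mem]
    simp

/-- A level from a subgroup with the two properties. -/
def ofSubgroup (Γ : Subgroup SL(2, ℤ)) (N : ℕ) (hN : N ≠ 0) (hle : Gamma N ≤ Γ)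
    (hneg : (-1 : SL(2, ℤ)) ∈ Γ) : Lev := ⟨N, Γ, hN, hle, hneg⟩

@[simp] theorem ofSubgroup_Γ (Γ : Subgroup SL(2, ℤ)) (N : ℕ) (hN : N ≠ 0) (hle : Gamma N ≤ Γ)
    (hneg : (-1 : SL(2, ℤ)) ∈ Γ) : (ofSubgroup Γ N hN hle hneg).Γ = Γ := rfl

end Lev

end Fermat.Agent.S59.TW.H658

end
-- ===== PACK-END S59/TW/H658/Lev.lean

-- ===== PACK-BEGIN S59/TW/H54/ArithFun.lean
section




/-!
# TW-NS, formal side (helper54): Dirichlet polynomials in the ring of arithmetic functions

Mathlib-only.  In `𝔸 = ArithmeticFunction ℂ` (Dirichlet convolution):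

* `dmH54 d` : the arithmetic function `δ_d`; `dmH54 d * f` is the shift `n ↦ [d ∣ n] f (n / d)`;
* `peH54 A p = A(δ_p)` for a polynomial `A`, with `L`-series `A(p^{-s})`;
* `QFreeH54 q f` : `f` vanishes on the multiples of `q`; closed under `+`, `*`, finite products;
* `peH54_mul_apply` : coefficient extraction `(A(δ_q) * G)(q^i m) = A_i G(m)` for `G` `q`-free;
* `𝔸` has no zero divisors;
* `eq_of_lseriesHasSum_h54` : two arithmetic functions with the same `L`-series on a half plane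
  are equal.
-/

set_option autoImplicit false

open ArithmeticFunction Polynomial

namespace Fermat.Agent.S59.TW.H54

/-- The arithmetic function `δ_d` (zero if `d = 0`). -/
noncomputable def dmH54 (d : ℕ) : ArithmeticFunction ℂ :=
  ⟨fun k => if k = d ∧ d ≠ 0 then 1 else 0, by
    have : ¬ ((0 : ℕ) = d ∧ d ≠ 0) := fun h => h.2 h.1.symm
    simp [this]⟩

theorem dmH54_apply (d k : ℕ) : dmH54 d k = if k = d ∧ d ≠ 0 then 1 else 0 := rfl

theorem dmH54_apply_self {d : ℕ} (hd : d ≠ 0) : dmH54 d d = 1 := by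
  simp [dmH54_apply, hd]

theorem dmH54_apply_of_ne {d k : ℕ} (h : k ≠ d) : dmH54 d k = 0 := by
  simp [dmH54_apply, h]

theorem dmH54_ne_zero {d : ℕ} (hd : d ≠ 0) : dmH54 d ≠ 0 := by
  intro h
  have := dmH54_apply_self hd
  rw [h] at this
  simp at this

/-- `δ_d * f` is the shift of `f` by `d`. -/
theorem dmH54_mul_apply {d : ℕ} (hd : d ≠ 0) (f : ArithmeticFunction ℂ) (n : ℕ) :
    (dmH54 d * f) n = if d ∣ n then f (n / d) else 0 := by
  classical
  rw [ArithmeticFunction.mul_apply,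
    Nat.sum_divisorsAntidiagonal (f := fun a b => dmH54 d a * f b)]
  by_cases hdn : d ∣ n
  · rw [if_pos hdn]
    rcases eq_or_ne n 0 with rfl | hn
    · simp
    · rw [Finset.sum_eq_single d]
      · rw [dmH54_apply_self hd, one_mul]
      · intro b _ hb
        rw [dmH54_apply_of_ne hb, zero_mul]
      · intro h
        exact absurd (Nat.mem_divisors.mpr ⟨hdn, hn⟩) h
  · rw [if_neg hdn]
    refine Finset.sum_eq_zero fun b hb => ?_
    have hbd : b ≠ d := by
      rintro rfl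
      exact hdn (Nat.dvd_of_mem_divisors hb)
    rw [dmH54_apply_of_ne hbd, zero_mul]

theorem dmH54_one : dmH54 1 = 1 := by
  ext n
  rw [dmH54_apply, ArithmeticFunction.one_apply]
  simp

theorem dmH54_mul_dmH54 {a b : ℕ} (ha : a ≠ 0) (hb : b ≠ 0) :
    dmH54 a * dmH54 b = dmH54 (a * b) := by
  ext n
  rw [dmH54_mul_apply ha, dmH54_apply, dmH54_apply]
  by_cases han : a ∣ n
  · rw [if_pos han]
    obtain ⟨c, rfl⟩ := han
    rw [Nat.mul_div_cancel_left c (Nat.pos_of_ne_zero ha)]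
    have h1 : (a * c = a * b ∧ a * b ≠ 0) ↔ (c = b ∧ b ≠ 0) := by
      constructor
      · rintro ⟨h, -⟩
        exact ⟨Nat.eq_of_mul_eq_mul_left (Nat.pos_of_ne_zero ha) h, hb⟩
      · rintro ⟨rfl, -⟩
        exact ⟨rfl, mul_ne_zero ha hb⟩
    by_cases hc : c = b ∧ b ≠ 0
    · rw [if_pos hc, if_pos (h1.mpr hc)]
    · rw [if_neg hc, if_neg (fun h => hc (h1.mp h))]
  · rw [if_neg han, if_neg]
    rintro ⟨rfl, -⟩
    exact han (dvd_mul_right a b)

theorem dmH54_pow {d : ℕ} (hd : d ≠ 0) (j : ℕ) : dmH54 d ^ j = dmH54 (d ^ j) := by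
  induction j with
  | zero => rw [pow_zero, pow_zero, dmH54_one]
  | succ j ih => rw [pow_succ, ih, dmH54_mul_dmH54 (pow_ne_zero j hd) hd, pow_succ]

/-- The `L`-series of `δ_d` is `d^{-s}`. -/
theorem lseriesHasSum_dmH54 {d : ℕ} (hd : d ≠ 0) (s : ℂ) :
    LSeriesHasSum (⇑(dmH54 d)) s ((d : ℂ) ^ (-s)) := by
  unfold LSeriesHasSum
  have h0 : ∀ n : ℕ, n ≠ d → LSeries.term (⇑(dmH54 d)) s n = 0 := by
    intro n hn
    rw [LSeries.term_def]
    split_ifs
    · rfl
    · rw [dmH54_apply_of_ne hn, zero_div]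
  have h1 : LSeries.term (⇑(dmH54 d)) s d = (d : ℂ) ^ (-s) := by
    rw [LSeries.term_def, if_neg hd, dmH54_apply_self hd, Complex.cpow_neg, one_div]
  rw [← h1]
  exact hasSum_single d h0

/-! ### Dirichlet polynomials -/

/-- `A(δ_p)` for a polynomial `A`. -/
noncomputable def peH54 (A : ℂ[X]) (p : ℕ) : ArithmeticFunction ℂ := Polynomial.aeval (dmH54 p) A

theorem peH54_mul (A B : ℂ[X]) (p : ℕ) : peH54 (A * B) p = peH54 A p * peH54 B p := by
  unfold peH54
  rw [map_mul]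

theorem peH54_eq_sum {A : ℂ[X]} {p : ℕ} (hp : p ≠ 0) {n : ℕ} (hn : A.natDegree < n) :
    peH54 A p = ∑ i ∈ Finset.range n, A.coeff i • dmH54 (p ^ i) := by
  unfold peH54
  rw [Polynomial.aeval_eq_sum_range' hn]
  refine Finset.sum_congr rfl fun i _ => ?_
  rw [dmH54_pow hp]

theorem coe_sum_h54 {ι : Type*} (S : Finset ι) (f : ι → ArithmeticFunction ℂ) :
    (⇑(∑ i ∈ S, f i) : ℕ → ℂ) = ∑ i ∈ S, ⇑(f i) := by
  classical
  induction S using Finset.induction_on with
  | empty =>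
    funext n
    simp
  | insert a S ha ih =>
    rw [Finset.sum_insert ha, Finset.sum_insert ha, ← ih]
    funext n
    simp

theorem natCast_pow_cpow_neg_h54 (p i : ℕ) (s : ℂ) :
    (((p ^ i : ℕ) : ℂ)) ^ (-s) = ((p : ℂ) ^ (-s)) ^ i := by
  induction i with
  | zero => simp
  | succ i ih =>
    rw [pow_succ, Nat.cast_mul, Complex.natCast_mul_natCast_cpow, ih, pow_succ]

/-- The `L`-series of `A(δ_p)` is `A(p^{-s})`. -/
theorem lseriesHasSum_peH54 (A : ℂ[X]) {p : ℕ} (hp : p ≠ 0) (s : ℂ) :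
    LSeriesHasSum (⇑(peH54 A p)) s (A.eval ((p : ℂ) ^ (-s))) := by
  rw [peH54_eq_sum hp (Nat.lt_succ_self _), coe_sum_h54, Polynomial.eval_eq_sum_range]
  refine LSeriesHasSum.sum fun i _ => ?_
  have h := (lseriesHasSum_dmH54 (pow_ne_zero i hp) s).smul (A.coeff i)
  rw [natCast_pow_cpow_neg_h54] at h
  exact h

/-! ### `q`-free arithmetic functions -/

/-- `f` vanishes on the multiples of `q`. -/
def QFreeH54 (q : ℕ) (f : ArithmeticFunction ℂ) : Prop := ∀ n : ℕ, q ∣ n → f n = 0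

theorem QFreeH54.zero (q : ℕ) : QFreeH54 q 0 := fun _ _ => rfl

theorem QFreeH54.add {q : ℕ} {f g : ArithmeticFunction ℂ} (hf : QFreeH54 q f)
    (hg : QFreeH54 q g) : QFreeH54 q (f + g) := by
  intro n hn
  rw [ArithmeticFunction.add_apply, hf n hn, hg n hn, add_zero]

theorem QFreeH54.smul {q : ℕ} (c : ℂ) {f : ArithmeticFunction ℂ} (hf : QFreeH54 q f) :
    QFreeH54 q (c • f) := by
  intro n hn
  rw [ArithmeticFunction.smul_map, hf n hn, smul_zero]

theorem QFreeH54.mul {q : ℕ} (hq : q.Prime) {f g : ArithmeticFunction ℂ} (hf : QFreeH54 q f)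
    (hg : QFreeH54 q g) : QFreeH54 q (f * g) := by
  intro n hn
  rw [ArithmeticFunction.mul_apply]
  refine Finset.sum_eq_zero fun x hx => ?_
  have hx' := (Nat.mem_divisorsAntidiagonal.mp hx).1
  rw [← hx'] at hn
  rcases (Nat.Prime.dvd_mul hq).mp hn with h | h
  · rw [hf _ h, zero_mul]
  · rw [hg _ h, mul_zero]

theorem QFreeH54.one {q : ℕ} (hq : q.Prime) : QFreeH54 q 1 := by
  intro n hn
  rw [ArithmeticFunction.one_apply, if_neg]
  rintro rfl
  exact hq.one_lt.ne' (Nat.dvd_one.mp hn)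

theorem QFreeH54.dm {q d : ℕ} (hqd : ¬ q ∣ d) : QFreeH54 q (dmH54 d) := by
  intro n hn
  rw [dmH54_apply_of_ne]
  rintro rfl
  exact hqd hn

theorem QFreeH54.sum {q : ℕ} {ι : Type*} (S : Finset ι) (f : ι → ArithmeticFunction ℂ)
    (h : ∀ i ∈ S, QFreeH54 q (f i)) : QFreeH54 q (∑ i ∈ S, f i) := by
  classical
  induction S using Finset.induction_on with
  | empty => simpa using QFreeH54.zero q
  | insert a S ha ih =>
    rw [Finset.sum_insert ha]
    exact (h a (Finset.mem_insert_self a S)).add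
      (ih fun i hi => h i (Finset.mem_insert_of_mem hi))

theorem QFreeH54.prod {q : ℕ} (hq : q.Prime) {ι : Type*} (S : Finset ι)
    (f : ι → ArithmeticFunction ℂ) (h : ∀ i ∈ S, QFreeH54 q (f i)) :
    QFreeH54 q (∏ i ∈ S, f i) := by
  classical
  induction S using Finset.induction_on with
  | empty => simpa using QFreeH54.one hq
  | insert a S ha ih =>
    rw [Finset.prod_insert ha]
    exact (h a (Finset.mem_insert_self a S)).mul hq
      (ih fun i hi => h i (Finset.mem_insert_of_mem hi))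

theorem QFreeH54.pe {q p : ℕ} (hq : q.Prime) (hp : p.Prime) (hpq : p ≠ q) (A : ℂ[X]) :
    QFreeH54 q (peH54 A p) := by
  rw [peH54_eq_sum hp.ne_zero (Nat.lt_succ_self _)]
  refine QFreeH54.sum _ _ fun i _ => QFreeH54.smul _ (QFreeH54.dm ?_)
  intro h
  exact hpq ((Nat.prime_dvd_prime_iff_eq hq hp).mp (hq.dvd_of_dvd_pow h)).symm

/-- An arithmetic function which is `q`-free and vanishes off the multiples of `q` is zero. -/
theorem QFreeH54.eq_zero {q : ℕ} {f : ArithmeticFunction ℂ} (hf : QFreeH54 q f)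
    (h : ∀ m : ℕ, ¬ q ∣ m → f m = 0) : f = 0 := by
  ext n
  by_cases hn : q ∣ n
  · exact hf n hn
  · exact h n hn

/-! ### Coefficient extraction -/

theorem dmH54_pow_mul_apply {q : ℕ} (hq : q.Prime) {G : ArithmeticFunction ℂ}
    (hG : QFreeH54 q G) {m : ℕ} (hm : ¬ q ∣ m) (i j : ℕ) :
    (dmH54 (q ^ j) * G) (q ^ i * m) = if j = i then G m else 0 := by
  rw [dmH54_mul_apply (pow_ne_zero j hq.ne_zero)]
  rcases lt_trichotomy j i with hji | rfl | hij
  · rw [if_neg hji.ne]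
    obtain ⟨k, rfl⟩ := Nat.exists_eq_add_of_lt hji
    have h1 : q ^ (j + k + 1) * m = q ^ j * (q * (q ^ k * m)) := by ring
    rw [h1, if_pos (dvd_mul_right _ _),
      Nat.mul_div_cancel_left _ (pow_pos hq.pos j)]
    exact hG _ (dvd_mul_right q _)
  · rw [if_pos rfl, if_pos (dvd_mul_right _ _), Nat.mul_div_cancel_left _ (pow_pos hq.pos j)]
  · rw [if_neg hij.ne', if_neg]
    intro h
    obtain ⟨k, rfl⟩ := Nat.exists_eq_add_of_lt hij
    have h1 : q ^ (i + k + 1) = q ^ i * (q * q ^ k) := by ring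
    rw [h1] at h
    have h2 := Nat.dvd_of_mul_dvd_mul_left (pow_pos hq.pos i) h
    exact hm ((dvd_mul_right q _).trans h2)

/-- **Coefficient extraction**: `(A(δ_q) * G)(q^i m) = A_i G(m)` for `G` `q`-free, `q ∤ m`. -/
theorem peH54_mul_apply {q : ℕ} (hq : q.Prime) (A : ℂ[X]) {G : ArithmeticFunction ℂ}
    (hG : QFreeH54 q G) {m : ℕ} (hm : ¬ q ∣ m) (i : ℕ) :
    (peH54 A q * G) (q ^ i * m) = A.coeff i * G m := by
  classical
  have hn : A.natDegree < max A.natDegree i + 1 :=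
    Nat.lt_succ_of_le (le_max_left _ _)
  rw [peH54_eq_sum hq.ne_zero hn, Finset.sum_mul]
  have hcoe : ∀ S : Finset ℕ, (∑ j ∈ S, A.coeff j • dmH54 (q ^ j) * G) (q ^ i * m) =
      ∑ j ∈ S, A.coeff j * (dmH54 (q ^ j) * G) (q ^ i * m) := by
    intro S
    induction S using Finset.induction_on with
    | empty => simp
    | insert a S ha ih =>
      rw [Finset.sum_insert ha, Finset.sum_insert ha, ArithmeticFunction.add_apply, ih,
        smul_mul_assoc, ArithmeticFunction.smul_map, smul_eq_mul]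
  rw [hcoe]
  rw [Finset.sum_eq_single i]
  · rw [dmH54_pow_mul_apply hq hG hm, if_pos rfl]
  · intro j _ hj
    rw [dmH54_pow_mul_apply hq hG hm, if_neg hj, mul_zero]
  · intro h
    exact absurd (Finset.mem_range.mpr (Nat.lt_succ_of_le (le_max_right _ _))) h

/-! ### No zero divisors -/

theorem mul_ne_zero_h54 {f g : ArithmeticFunction ℂ} (hf : f ≠ 0) (hg : g ≠ 0) : f * g ≠ 0 := by
  classical
  have hf' : ∃ n, f n ≠ 0 := by
    by_contra h
    push Not at h
    exact hf (ArithmeticFunction.ext h)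
  have hg' : ∃ n, g n ≠ 0 := by
    by_contra h
    push Not at h
    exact hg (ArithmeticFunction.ext h)
  set a := Nat.find hf' with ha
  set b := Nat.find hg' with hb
  have hfa : f a ≠ 0 := Nat.find_spec hf'
  have hgb : g b ≠ 0 := Nat.find_spec hg'
  have ha0 : a ≠ 0 := by
    intro h
    rw [h] at hfa
    exact hfa f.map_zero
  have hb0 : b ≠ 0 := by
    intro h
    rw [h] at hgb
    exact hgb g.map_zero
  intro hfg
  have h1 : (f * g) (a * b) = f a * g b := by
    rw [ArithmeticFunction.mul_apply]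
    rw [Finset.sum_eq_single (a, b)]
    · rintro ⟨x, y⟩ hx hxy
      have hxy' := (Nat.mem_divisorsAntidiagonal.mp hx).1
      simp only at hxy'
      by_cases hfx : f x = 0
      · simp [hfx]
      by_cases hgy : g y = 0
      · simp [hgy]
      exfalso
      have hax : a ≤ x := Nat.find_min' hf' hfx
      have hby : b ≤ y := Nat.find_min' hg' hgy
      have hx0 : 0 < x := lt_of_lt_of_le (Nat.pos_of_ne_zero ha0) hax
      rcases eq_or_lt_of_le hax with h | h
      · -- `a = x`, so `b = y`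
        have : b = y := by
          have h2 : x * y = x * b := by rw [hxy', ← h]
          exact (Nat.eq_of_mul_eq_mul_left hx0 h2).symm
        exact hxy (by rw [← h, ← this])
      · have h3 : a * b < x * y :=
          lt_of_lt_of_le (Nat.mul_lt_mul_of_pos_right h (Nat.pos_of_ne_zero hb0))
            (Nat.mul_le_mul_left x hby)
        exact absurd hxy' h3.ne'
    · intro h
      exact absurd (Nat.mem_divisorsAntidiagonal.mpr ⟨rfl, mul_ne_zero ha0 hb0⟩) h
  rw [hfg] at h1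
  exact mul_ne_zero hfa hgb h1.symm

theorem prod_ne_zero_h54 {ι : Type*} (S : Finset ι) (f : ι → ArithmeticFunction ℂ)
    (h : ∀ i ∈ S, f i ≠ 0) : ∏ i ∈ S, f i ≠ 0 := by
  classical
  induction S using Finset.induction_on with
  | empty =>
    rw [Finset.prod_empty, ← dmH54_one]
    exact dmH54_ne_zero one_ne_zero
  | insert a S ha ih =>
    rw [Finset.prod_insert ha]
    exact mul_ne_zero_h54 (h a (Finset.mem_insert_self a S))
      (ih fun i hi => h i (Finset.mem_insert_of_mem hi))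

theorem peH54_ne_zero {A : ℂ[X]} (hA : A ≠ 0) {p : ℕ} (hp : p.Prime) : peH54 A p ≠ 0 := by
  intro h
  obtain ⟨i, hi⟩ : ∃ i, A.coeff i ≠ 0 := by
    by_contra hcon
    push Not at hcon
    exact hA (Polynomial.ext fun n => by simpa using hcon n)
  have h1 := peH54_mul_apply hp A (G := 1) (QFreeH54.one hp) (m := 1)
    (fun h => hp.one_lt.ne' (Nat.dvd_one.mp h)) i
  rw [h, zero_mul, ArithmeticFunction.zero_apply, ArithmeticFunction.one_one, mul_one] at h1
  exact hi h1.symm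

/-! ### Products of `L`-series -/

theorem lseriesHasSum_prod_h54 {ι : Type*} (S : Finset ι) (f : ι → ArithmeticFunction ℂ)
    (a : ι → ℂ) (s : ℂ) (h : ∀ i ∈ S, LSeriesHasSum (⇑(f i)) s (a i)) :
    LSeriesHasSum (⇑(∏ i ∈ S, f i)) s (∏ i ∈ S, a i) := by
  classical
  induction S using Finset.induction_on with
  | empty =>
    rw [Finset.prod_empty, Finset.prod_empty, ← dmH54_one]
    simpa using lseriesHasSum_dmH54 one_ne_zero s
  | insert b S hb ih =>
    rw [Finset.prod_insert hb, Finset.prod_insert hb]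
    exact LSeriesHasSum_mul (h b (Finset.mem_insert_self b S))
      (ih fun i hi => h i (Finset.mem_insert_of_mem hi))

/-! ### Injectivity -/

/-- Two arithmetic functions whose `L`-series have the same sum at every `s` with `Re s > 2`
are equal. -/
theorem eq_of_lseriesHasSum_h54 {u v : ArithmeticFunction ℂ} (val : ℂ → ℂ)
    (hu : ∀ s : ℂ, 2 < s.re → LSeriesHasSum (⇑u) s (val s))
    (hv : ∀ s : ℂ, 2 < s.re → LSeriesHasSum (⇑v) s (val s)) : u = v := by
  have h3 : (2 : ℝ) < ((3 : ℝ) : ℂ).re := by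
    rw [Complex.ofReal_re]
    norm_num
  have hau : LSeries.abscissaOfAbsConv (⇑u) < ⊤ :=
    lt_of_le_of_lt (hu _ h3).LSeriesSummable.abscissaOfAbsConv_le (EReal.coe_lt_top _)
  have hav : LSeries.abscissaOfAbsConv (⇑v) < ⊤ :=
    lt_of_le_of_lt (hv _ h3).LSeriesSummable.abscissaOfAbsConv_le (EReal.coe_lt_top _)
  have hev : (fun x : ℝ => LSeries (⇑u) x) =ᶠ[Filter.atTop] fun x : ℝ => LSeries (⇑v) x := by
    filter_upwards [Filter.eventually_gt_atTop (2 : ℝ)] with x hx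
    have hx' : 2 < ((x : ℝ) : ℂ).re := by simpa using hx
    rw [(hu _ hx').LSeries_eq, (hv _ hx').LSeries_eq]
  ext n
  rcases eq_or_ne n 0 with rfl | hn
  · rw [u.map_zero, v.map_zero]
  · exact LSeries.eq_of_LSeries_eventually_eq hau hav hev hn

end Fermat.Agent.S59.TW.H54

end
-- ===== PACK-END S59/TW/H54/ArithFun.lean

-- ===== PACK-BEGIN S59/TW/H653/Bdry/IntMat.lean
section


/-!
# S59 / TW-HECKE (helper653), block BDRY: integral `2 × 2` matrices (Mathlib only)

* `tz h = [[1, h], [0, 1]] ∈ SL(2, ℤ)`;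
* `exists_conj_tz` : every `γ ∈ SL(2, ℤ)` of trace `2` is `τ * tz h * τ⁻¹`;
* `hnf_diag`, `hnf_upper` : an integral matrix `Y` of prime determinant `l` is `g₀ * [[l,0],[0,1]]`
  (if `l` divides the first column of `Y`) or `g₀ * [[1,α],[0,l]]` with `M ∣ α` (otherwise),
  `g₀ ∈ SL(2, ℤ)`;
* `conj_diag_norm`, `conj_upper_norm` : `τ * b * τ⁻¹ ≡ 1 mod M` for these `b`, if `M ∣ l - 1`;
* `diag_mul_tz`, `upper_mul_tz`, `dvd_of_upper_mul_tz`.
-/

set_option autoImplicit false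

namespace Fermat.Agent.S59.TW.H653.Bdry

open Matrix
open scoped MatrixGroups

/-- `[[1, h], [0, 1]]`. -/
def tz (h : ℤ) : SL(2, ℤ) := ⟨!![1, h; 0, 1], by simp [Matrix.det_fin_two_of]⟩

@[simp] theorem coe_tz (h : ℤ) : ((tz h : SL(2, ℤ)) : Matrix (Fin 2) (Fin 2) ℤ) = !![1, h; 0, 1] :=
  rfl

theorem tz_zero : tz 0 = 1 := by
  apply Subtype.ext
  ext i j
  fin_cases i <;> fin_cases j <;> simp [tz]

theorem tz_add (a b : ℤ) : tz (a + b) = tz a * tz b := by
  apply Subtype.ext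
  show ((tz (a + b) : SL(2, ℤ)) : Matrix (Fin 2) (Fin 2) ℤ) = ((tz a * tz b : SL(2, ℤ)) :
    Matrix (Fin 2) (Fin 2) ℤ)
  rw [Matrix.SpecialLinearGroup.coe_mul, coe_tz, coe_tz, coe_tz]
  ext i j
  fin_cases i <;> fin_cases j <;>
    simp only [Matrix.mul_apply, Fin.sum_univ_two, Matrix.of_apply, Matrix.cons_val',
      Matrix.cons_val_zero, Matrix.cons_val_one, Matrix.cons_val_fin_one, Fin.zero_eta,
      Fin.mk_one, Fin.isValue] <;>
    ring1

theorem tz_pow (h : ℤ) (n : ℕ) : tz h ^ n = tz (n * h) := by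
  induction n with
  | zero => simp [tz_zero]
  | succ n ih =>
    rw [pow_succ, ih, ← tz_add]
    congr 1
    push_cast
    ring

theorem tz_inv (h : ℤ) : (tz h)⁻¹ = tz (-h) := by
  rw [inv_eq_iff_mul_eq_one, ← tz_add, add_neg_cancel, tz_zero]

theorem tz_zpow (h n : ℤ) : tz h ^ n = tz (n * h) := by
  induction n using Int.induction_on with
  | zero => simp [tz_zero]
  | succ n ih =>
    rw [_root_.zpow_add_one, ih, ← tz_add]
    congr 1
    ring
  | pred n ih =>
    rw [_root_.zpow_sub_one, ih, tz_inv, ← tz_add]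
    congr 1
    ring

/-- The conjugate `τ * tz h * τ⁻¹`. -/
def uni (τ : SL(2, ℤ)) (h : ℤ) : SL(2, ℤ) := τ * tz h * τ⁻¹

theorem uni_pow (τ : SL(2, ℤ)) (h : ℤ) (n : ℕ) : uni τ h ^ n = uni τ (n * h) := by
  unfold uni
  rw [conj_pow, tz_pow]

theorem uni_zpow (τ : SL(2, ℤ)) (h n : ℤ) : uni τ h ^ n = uni τ (n * h) := by
  unfold uni
  rw [conj_zpow, tz_zpow]

theorem uni_mul (τ : SL(2, ℤ)) (h k : ℤ) : uni τ h * uni τ k = uni τ (h + k) := by
  unfold uni
  rw [tz_add]
  group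

theorem uni_zero (τ : SL(2, ℤ)) : uni τ 0 = 1 := by
  unfold uni
  rw [tz_zero]
  group

/-- The entries of `τ * tz h * τ⁻¹`. -/
theorem coe_uni (τ : SL(2, ℤ)) (h : ℤ) :
    ((uni τ h : SL(2, ℤ)) : Matrix (Fin 2) (Fin 2) ℤ) =
      !![1 - h * (τ 0 0 * τ 1 0), h * (τ 0 0 * τ 0 0);
         -(h * (τ 1 0 * τ 1 0)), 1 + h * (τ 0 0 * τ 1 0)] := by
  have hdet : τ 0 0 * τ 1 1 - τ 0 1 * τ 1 0 = 1 := by
    have := τ.det_coe
    rwa [Matrix.det_fin_two] at this
  have e1 : ((τ⁻¹ : SL(2, ℤ)) : Matrix (Fin 2) (Fin 2) ℤ) =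
      !![τ 1 1, -τ 0 1; -τ 1 0, τ 0 0] := by
    rw [Matrix.SpecialLinearGroup.SL2_inv_expl]
    rfl
  unfold uni
  rw [Matrix.SpecialLinearGroup.coe_mul, Matrix.SpecialLinearGroup.coe_mul, e1, coe_tz]
  ext i j
  fin_cases i <;> fin_cases j <;>
    simp only [Matrix.mul_apply, Fin.sum_univ_two, Matrix.of_apply, Matrix.cons_val',
      Matrix.cons_val_zero, Matrix.cons_val_one, Matrix.cons_val_fin_one, Fin.zero_eta,
      Fin.mk_one, Fin.isValue] <;>
    first | ring1 | linear_combination hdet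

/-! ## Classification of the elements of trace `2` -/

/-- Every element of `SL(2, ℤ)` of trace `2` is conjugate to some `tz h`. -/
theorem exists_conj_tz (γ : SL(2, ℤ)) (hγ : (γ : Matrix (Fin 2) (Fin 2) ℤ).trace = 2) :
    ∃ (τ : SL(2, ℤ)) (h : ℤ), γ = uni τ h := by
  have hdet : γ 0 0 * γ 1 1 - γ 0 1 * γ 1 0 = 1 := by
    have := γ.det_coe
    rwa [Matrix.det_fin_two] at this
  have htr : γ 0 0 + γ 1 1 = 2 := by
    rwa [Matrix.trace_fin_two] at hγ
  by_cases hr : γ 1 0 = 0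
  · -- `γ = tz q`
    have hp : (γ 0 0 - 1) * (γ 0 0 - 1) = 0 := by
      rw [hr] at hdet
      linear_combination (-1 : ℤ) * hdet + γ 0 0 * htr
    have hp1 : γ 0 0 = 1 := by
      have := mul_self_eq_zero.mp hp
      linarith
    have hs1 : γ 1 1 = 1 := by linarith
    refine ⟨1, γ 0 1, ?_⟩
    apply Subtype.ext
    show (γ : Matrix (Fin 2) (Fin 2) ℤ) = ((uni 1 (γ 0 1) : SL(2, ℤ)) : Matrix (Fin 2) (Fin 2) ℤ)
    rw [coe_uni]
    ext i j
    fin_cases i <;> fin_cases j <;>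
      simp [hp1, hs1, hr]
  · obtain ⟨n, hn⟩ : ∃ n : ℤ, n = γ 0 0 - 1 := ⟨_, rfl⟩
    have hn2 : n * n + γ 0 1 * γ 1 0 = 0 := by
      rw [hn]
      linear_combination (-1 : ℤ) * hdet + γ 0 0 * htr
    obtain ⟨r, hr'⟩ : ∃ r : ℤ, r = γ 1 0 := ⟨_, rfl⟩
    rw [← hr'] at hn2 hr
    obtain ⟨d, hd⟩ : ∃ d : ℤ, d = (Int.gcd n r : ℤ) := ⟨_, rfl⟩
    have hd0 : d ≠ 0 := by
      rw [hd]
      intro h0
      have : Int.gcd n r = 0 := by exact_mod_cast h0
      exact hr (Int.gcd_eq_zero_iff.mp this).2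
    obtain ⟨a, ha⟩ : d ∣ n := hd ▸ Int.gcd_dvd_left n r
    obtain ⟨c, hc⟩ : d ∣ r := hd ▸ Int.gcd_dvd_right n r
    obtain ⟨A, hA⟩ : ∃ A : ℤ, A = Int.gcdA n r := ⟨_, rfl⟩
    obtain ⟨B, hB⟩ : ∃ B : ℤ, B = Int.gcdB n r := ⟨_, rfl⟩
    have h1 : d = n * A + r * B := by
      rw [hd, hA, hB]
      exact Int.gcd_eq_gcd_ab n r
    have hbez : a * A + c * B = 1 := by
      have h2 : d * (a * A + c * B) = d * 1 := by
        linear_combination (-1 : ℤ) * h1 - A * ha - B * hc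
      exact mul_left_cancel₀ hd0 h2
    have hc0 : c ≠ 0 := by
      rintro rfl
      exact hr (by rw [hc, mul_zero])
    -- `d * a * a + q * c = 0`
    have h3 : d * (d * (a * a) + γ 0 1 * c) = d * 0 := by
      rw [mul_zero]
      rw [ha, hc] at hn2
      linear_combination hn2
    have h4 : d * (a * a) + γ 0 1 * c = 0 := mul_left_cancel₀ hd0 h3
    have hcop : IsCoprime c (a * a) := by
      have h5 : IsCoprime c a := ⟨B, A, by linear_combination hbez⟩
      exact h5.mul_right h5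
    have hcd : c ∣ d := by
      apply hcop.dvd_of_dvd_mul_right
      exact ⟨-γ 0 1, by linear_combination h4⟩
    obtain ⟨e, he⟩ := hcd
    have hq : γ 0 1 = -(e * (a * a)) := by
      have h6 : c * (γ 0 1 + e * (a * a)) = c * 0 := by
        rw [mul_zero]
        rw [he] at h4
        linear_combination h4
      have := mul_left_cancel₀ hc0 h6
      linarith
    let τ : SL(2, ℤ) := ⟨!![a, -B; c, A], by
      rw [Matrix.det_fin_two_of]
      linear_combination hbez⟩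
    have hτ00 : τ 0 0 = a := rfl
    have hτ10 : τ 1 0 = c := rfl
    refine ⟨τ, -e, ?_⟩
    apply Subtype.ext
    show (γ : Matrix (Fin 2) (Fin 2) ℤ) = ((uni τ (-e) : SL(2, ℤ)) : Matrix (Fin 2) (Fin 2) ℤ)
    rw [coe_uni, hτ00, hτ10]
    have e00 : γ 0 0 = 1 - -e * (a * c) := by
      have : γ 0 0 = n + 1 := by rw [hn]; ring
      rw [this, ha, he]
      ring
    have e10 : γ 1 0 = -(-e * (c * c)) := by
      rw [← hr', hc, he]
      ring
    have e11 : γ 1 1 = 1 + -e * (a * c) := by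
      have : γ 1 1 = 1 - n := by rw [hn]; linarith
      rw [this, ha, he]
      ring
    have e01 : γ 0 1 = -e * (a * a) := by
      rw [hq]
      ring
    ext i j
    fin_cases i <;> fin_cases j
    · exact e00
    · exact e01
    · exact e10
    · exact e11

/-! ## Hermite normal form for prime determinant -/

/-- If `l` divides the first column of `Y` and `det Y = l ≠ 0`, then `Y = g₀ * [[l,0],[0,1]]`. -/
theorem hnf_diag {l : ℤ} (hl : l ≠ 0) (Y : Matrix (Fin 2) (Fin 2) ℤ) (hY : Y.det = l)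
    (h0 : l ∣ Y 0 0) (h1 : l ∣ Y 1 0) :
    ∃ g₀ : SL(2, ℤ), Y = (g₀ : Matrix (Fin 2) (Fin 2) ℤ) * !![l, 0; 0, 1] := by
  obtain ⟨a, ha⟩ := h0
  obtain ⟨c, hc⟩ := h1
  rw [Matrix.det_fin_two] at hY
  have hdet : a * Y 1 1 - Y 0 1 * c = 1 := by
    have h2 : l * (a * Y 1 1 - Y 0 1 * c) = l * 1 := by
      rw [ha, hc] at hY
      linear_combination hY
    exact mul_left_cancel₀ hl h2
  refine ⟨⟨!![a, Y 0 1; c, Y 1 1], by rw [Matrix.det_fin_two_of]; exact hdet⟩, ?_⟩
  ext i j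
  fin_cases i <;> fin_cases j <;>
    simp [Matrix.mul_apply, Fin.sum_univ_two, ha, hc, mul_comm]

/-- If `l` divides `Y 0 1 - α * Y 0 0` and `Y 1 1 - α * Y 1 0` and `det Y = l ≠ 0`, then
`Y = g₀ * [[1,α],[0,l]]`. -/
theorem hnf_upper_of {l : ℤ} (hl : l ≠ 0) (Y : Matrix (Fin 2) (Fin 2) ℤ) (hY : Y.det = l)
    (α : ℤ) (h0 : l ∣ Y 0 1 - α * Y 0 0) (h1 : l ∣ Y 1 1 - α * Y 1 0) :
    ∃ g₀ : SL(2, ℤ), Y = (g₀ : Matrix (Fin 2) (Fin 2) ℤ) * !![1, α; 0, l] := by
  obtain ⟨s, hs⟩ := h0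
  obtain ⟨t, ht⟩ := h1
  rw [Matrix.det_fin_two] at hY
  have hdet : Y 0 0 * t - s * Y 1 0 = 1 := by
    have h2 : l * (Y 0 0 * t - s * Y 1 0) = l * 1 := by
      linear_combination hY - Y 0 0 * ht + Y 1 0 * hs
    exact mul_left_cancel₀ hl h2
  refine ⟨⟨!![Y 0 0, s; Y 1 0, t], by rw [Matrix.det_fin_two_of]; exact hdet⟩, ?_⟩
  ext i j
  fin_cases i <;> fin_cases j
  · simp [Matrix.mul_apply, Fin.sum_univ_two]
  · simp only [Matrix.mul_apply, Fin.sum_univ_two, Matrix.of_apply, Matrix.cons_val',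
      Matrix.cons_val_zero, Matrix.cons_val_one, Matrix.cons_val_fin_one, Fin.zero_eta,
      Fin.mk_one, Fin.isValue]
    linear_combination hs
  · simp [Matrix.mul_apply, Fin.sum_univ_two]
  · simp only [Matrix.mul_apply, Fin.sum_univ_two, Matrix.of_apply, Matrix.cons_val',
      Matrix.cons_val_zero, Matrix.cons_val_one, Matrix.cons_val_fin_one, Fin.zero_eta,
      Fin.mk_one, Fin.isValue]
    linear_combination ht

/-- If `l` (prime) does not divide the first column of `Y`, `det Y = l` and `M` is prime to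
`l`, then `Y = g₀ * [[1,α],[0,l]]` for some natural number `α` divisible by `M`. -/
theorem hnf_upper {l M : ℕ} (hl : l.Prime) (hlM : Nat.Coprime l M)
    (Y : Matrix (Fin 2) (Fin 2) ℤ) (hY : Y.det = l)
    (h : ¬ ((l : ℤ) ∣ Y 0 0 ∧ (l : ℤ) ∣ Y 1 0)) :
    ∃ (α : ℕ) (g₀ : SL(2, ℤ)), M ∣ α ∧
      Y = (g₀ : Matrix (Fin 2) (Fin 2) ℤ) * !![1, (α : ℤ); 0, (l : ℤ)] := by
  have : Fact l.Prime := ⟨hl⟩
  have hl0 : (l : ℤ) ≠ 0 := by exact_mod_cast hl.ne_zero
  have hdetz : (Y 0 0 : ZMod l) * (Y 1 1 : ZMod l) - (Y 0 1 : ZMod l) * (Y 1 0 : ZMod l) = 0 := by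
    rw [Matrix.det_fin_two] at hY
    have h2 : ((Y 0 0 * Y 1 1 - Y 0 1 * Y 1 0 : ℤ) : ZMod l) = ((l : ℤ) : ZMod l) := by
      rw [hY]
    push_cast at h2
    rw [h2]
    exact ZMod.natCast_self l
  -- a class `β` mod `l` with `Y 0 1 = β * Y 0 0`, `Y 1 1 = β * Y 1 0` mod `l`
  obtain ⟨β, hβ0, hβ1⟩ : ∃ β : ZMod l, (Y 0 1 : ZMod l) = β * (Y 0 0 : ZMod l) ∧
      (Y 1 1 : ZMod l) = β * (Y 1 0 : ZMod l) := by
    by_cases h00 : (Y 0 0 : ZMod l) = 0
    · have h10 : (Y 1 0 : ZMod l) ≠ 0 := by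
        intro h10
        exact h ⟨(ZMod.intCast_zmod_eq_zero_iff_dvd _ _).mp h00,
          (ZMod.intCast_zmod_eq_zero_iff_dvd _ _).mp h10⟩
      refine ⟨(Y 1 1 : ZMod l) * (Y 1 0 : ZMod l)⁻¹, ?_, ?_⟩
      · rw [h00, mul_zero]
        rw [h00, zero_mul, zero_sub, neg_eq_zero] at hdetz
        rcases mul_eq_zero.mp hdetz with h' | h'
        · exact h'
        · exact absurd h' h10
      · rw [mul_assoc, inv_mul_cancel₀ h10, mul_one]
    · refine ⟨(Y 0 1 : ZMod l) * (Y 0 0 : ZMod l)⁻¹, ?_, ?_⟩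
      · rw [mul_assoc, inv_mul_cancel₀ h00, mul_one]
      · have h2 : (Y 0 0 : ZMod l) * (Y 1 1 : ZMod l) = (Y 0 1 : ZMod l) * (Y 1 0 : ZMod l) :=
          sub_eq_zero.mp hdetz
        field_simp
        rw [mul_comm, h2]
  -- a natural number `α ≡ β mod l`, `α ≡ 0 mod M`
  obtain ⟨α, hα1, hα2⟩ := Nat.chineseRemainder hlM β.val 0
  have hαβ : ((α : ℕ) : ZMod l) = β := by
    have := (ZMod.natCast_eq_natCast_iff α β.val l).mpr hα1
    rw [this, ZMod.natCast_zmod_val]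
  have hαM : M ∣ α := (Nat.modEq_zero_iff_dvd).mp hα2
  have d0 : (l : ℤ) ∣ Y 0 1 - (α : ℤ) * Y 0 0 := by
    rw [← ZMod.intCast_zmod_eq_zero_iff_dvd]
    push_cast
    rw [hαβ, hβ0, sub_self]
  have d1 : (l : ℤ) ∣ Y 1 1 - (α : ℤ) * Y 1 0 := by
    rw [← ZMod.intCast_zmod_eq_zero_iff_dvd]
    push_cast
    rw [hαβ, hβ1, sub_self]
  obtain ⟨g₀, hg₀⟩ := hnf_upper_of hl0 Y hY (α : ℤ) d0 d1
  exact ⟨α, g₀, hαM, hg₀⟩

/-! ## Explicit conjugates and relations -/

/-- `τ * [[l,0],[0,1]] * τ⁻¹`. -/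
theorem conj_diag (τ : SL(2, ℤ)) (l : ℤ) :
    (τ : Matrix (Fin 2) (Fin 2) ℤ) * !![l, 0; 0, 1] * ((τ⁻¹ : SL(2, ℤ)) :
        Matrix (Fin 2) (Fin 2) ℤ) =
      !![1 + (l - 1) * (τ 0 0 * τ 1 1), -((l - 1) * (τ 0 0 * τ 0 1));
         (l - 1) * (τ 1 0 * τ 1 1), 1 - (l - 1) * (τ 0 1 * τ 1 0)] := by
  have hdet : τ 0 0 * τ 1 1 - τ 0 1 * τ 1 0 = 1 := by
    have := τ.det_coe
    rwa [Matrix.det_fin_two] at this
  have e1 : ((τ⁻¹ : SL(2, ℤ)) : Matrix (Fin 2) (Fin 2) ℤ) =
      !![τ 1 1, -τ 0 1; -τ 1 0, τ 0 0] := by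
    rw [Matrix.SpecialLinearGroup.SL2_inv_expl]
    rfl
  rw [e1]
  ext i j
  fin_cases i <;> fin_cases j <;>
    simp only [Matrix.mul_apply, Fin.sum_univ_two, Matrix.of_apply, Matrix.cons_val',
      Matrix.cons_val_zero, Matrix.cons_val_one, Matrix.cons_val_fin_one, Fin.zero_eta,
      Fin.mk_one, Fin.isValue] <;>
    first | ring1 | linear_combination hdet

/-- `τ * [[1,α],[0,l]] * τ⁻¹`. -/
theorem conj_upper (τ : SL(2, ℤ)) (l α : ℤ) :
    (τ : Matrix (Fin 2) (Fin 2) ℤ) * !![1, α; 0, l] * ((τ⁻¹ : SL(2, ℤ)) :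
        Matrix (Fin 2) (Fin 2) ℤ) =
      !![1 - α * (τ 0 0 * τ 1 0) - (l - 1) * (τ 0 1 * τ 1 0),
         α * (τ 0 0 * τ 0 0) + (l - 1) * (τ 0 0 * τ 0 1);
         -(α * (τ 1 0 * τ 1 0)) - (l - 1) * (τ 1 0 * τ 1 1),
         1 + α * (τ 0 0 * τ 1 0) + (l - 1) * (τ 0 0 * τ 1 1)] := by
  have hdet : τ 0 0 * τ 1 1 - τ 0 1 * τ 1 0 = 1 := by
    have := τ.det_coe
    rwa [Matrix.det_fin_two] at this
  have e1 : ((τ⁻¹ : SL(2, ℤ)) : Matrix (Fin 2) (Fin 2) ℤ) =
      !![τ 1 1, -τ 0 1; -τ 1 0, τ 0 0] := by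
    rw [Matrix.SpecialLinearGroup.SL2_inv_expl]
    rfl
  rw [e1]
  ext i j
  fin_cases i <;> fin_cases j <;>
    simp only [Matrix.mul_apply, Fin.sum_univ_two, Matrix.of_apply, Matrix.cons_val',
      Matrix.cons_val_zero, Matrix.cons_val_one, Matrix.cons_val_fin_one, Fin.zero_eta,
      Fin.mk_one, Fin.isValue] <;>
    first | ring1 | linear_combination hdet

theorem diag_mul_tz (l h : ℤ) :
    (!![l, 0; 0, 1] : Matrix (Fin 2) (Fin 2) ℤ) * (tz h : Matrix (Fin 2) (Fin 2) ℤ) =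
      (tz (l * h) : Matrix (Fin 2) (Fin 2) ℤ) * !![l, 0; 0, 1] := by
  rw [coe_tz, coe_tz]
  ext i j
  fin_cases i <;> fin_cases j <;>
    simp [Matrix.mul_apply, Fin.sum_univ_two]

theorem upper_mul_tz (l α h : ℤ) :
    (!![1, α; 0, l] : Matrix (Fin 2) (Fin 2) ℤ) * (tz (l * h) : Matrix (Fin 2) (Fin 2) ℤ) =
      (tz h : Matrix (Fin 2) (Fin 2) ℤ) * !![1, α; 0, l] := by
  rw [coe_tz, coe_tz]
  ext i j
  fin_cases i <;> fin_cases j <;>
    simp [Matrix.mul_apply, Fin.sum_univ_two, add_comm, mul_comm]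

/-- If `[[1,α],[0,l]] * tz h = c * [[1,α],[0,l]]` with `c` integral, then `l ∣ h`. -/
theorem dvd_of_upper_mul_tz {l α h : ℤ} {c : Matrix (Fin 2) (Fin 2) ℤ}
    (e : (!![1, α; 0, l] : Matrix (Fin 2) (Fin 2) ℤ) * (tz h : Matrix (Fin 2) (Fin 2) ℤ) =
      c * !![1, α; 0, l]) : l ∣ h := by
  rw [coe_tz] at e
  have e00 := congrFun (congrFun e 0) 0
  have e01 := congrFun (congrFun e 0) 1
  simp only [Matrix.mul_apply, Fin.sum_univ_two, Matrix.of_apply, Matrix.cons_val',
    Matrix.cons_val_zero, Matrix.cons_val_one, Matrix.cons_val_fin_one, Fin.isValue] at e00 e01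
  refine ⟨c 0 1, ?_⟩
  have h00 : c 0 0 = 1 := by linarith
  rw [h00] at e01
  linarith

end Fermat.Agent.S59.TW.H653.Bdry

end
-- ===== PACK-END S59/TW/H653/Bdry/IntMat.lean

-- ===== PACK-BEGIN A3/H799/FamRing.lean
section








/-!
# A3 / LOCAL — rings of "algebraic families" on a finite parameter set  (helper799)

Cell A3 (S19/S32), piece LOCAL of the "coordinates, not schemes" route
(`coord/A3-LOCAL-helper799.md`).  Mathlib only.

`A` is a commutative ring (in the application the valuation ring of `ℚ̄` above `ℓ`), `T` a finite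
set (pairs of torsion points in a residue disc), `Λ` an `A`-subalgebra of the ring `T → A` of all
`A`-valued functions on `T` (in the application `Λ = A[z_i(c), z_i(c')]`, the polynomial functions in
the disc coordinates).  Because `Λ` is a subring of a finite product of copies of `A`, every
statement "over `Λ`" can be checked pointwise; this file proves that `Λ` is nevertheless closed
under all the operations used by Riemann–Roch with parameters:

* `inv_mem`        : pointwise units of `Λ` are units of `Λ`;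
* `hensel_mem`     : a function `y : T → 𝔪` that is pointwise a simple root of a polynomial with
                     coefficients in `Λ` lies in `Λ`  (Hensel without completeness);
* `exists_conductor` : if `Λ` separates the points of `T` then `d • (T → A) ⊆ Λ` for some `d ≠ 0`;
* `limit_mem`      : `Λ` is closed under `x`-adic limits, `x ∈ Λ` pointwise topologically nilpotent.
-/

set_option autoImplicit false

namespace Fermat.Agent.A3.H799

open Polynomial

section Units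

variable {A : Type*} [CommRing A] {T : Type*} [Finite T]

/-- The ring of all functions on a finite set is integral over any subalgebra. -/
theorem isIntegral_fun (Λ : Subalgebra A (T → A)) (f : T → A) : IsIntegral Λ f := by
  have h : IsIntegral A f := Algebra.IsIntegral.isIntegral f
  exact h.tower_top

/-- **Pointwise units are units.**  If `f ∈ Λ` is a unit at every point of the finite set `T`,
its pointwise inverse lies in `Λ`. -/
theorem inv_mem (Λ : Subalgebra A (T → A)) {f g : T → A} (hf : f ∈ Λ) (hfg : f * g = 1) :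
    g ∈ Λ := by
  have hint : (algebraMap Λ (T → A)).IsIntegral := fun x => isIntegral_fun Λ x
  have hinj : Function.Injective (algebraMap Λ (T → A)) := Subtype.val_injective
  have := hint.isLocalHom hinj
  have hu : IsUnit (algebraMap Λ (T → A) ⟨f, hf⟩) :=
    IsUnit.of_mul_eq_one (a := (algebraMap Λ (T → A) ⟨f, hf⟩)) g hfg
  obtain ⟨u, hu'⟩ := (isUnit_of_map_unit (algebraMap Λ (T → A)) _ hu)
  have h1 : f * ((u⁻¹ : Λˣ) : Λ) = 1 := by
    have := congrArg (algebraMap Λ (T → A)) (u.mul_inv)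
    rw [map_mul, map_one, hu'] at this
    exact this
  have : g = ((u⁻¹ : Λˣ) : Λ) := by
    calc g = g * (f * ((u⁻¹ : Λˣ) : Λ)) := by rw [h1, mul_one]
      _ = (f * g) * ((u⁻¹ : Λˣ) : Λ) := by ring
      _ = ((u⁻¹ : Λˣ) : Λ) := by rw [hfg, one_mul]
  rw [this]
  exact Subtype.mem _

/-- Version of `inv_mem` with a pointwise hypothesis. -/
theorem exists_inv_mem (Λ : Subalgebra A (T → A)) {f : T → A} (hf : f ∈ Λ)
    (hu : ∀ t, IsUnit (f t)) : ∃ g ∈ Λ, f * g = 1 := by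
  choose u hu' using hu
  refine ⟨fun t => ((u t)⁻¹ : Aˣ), ?_, ?_⟩
  · refine inv_mem Λ hf ?_
    funext t
    simp [← hu']
  · funext t
    simp [← hu']

end Units

section Hensel

variable {A : Type*} [CommRing A] [IsLocalRing A] {T : Type*} [Finite T]

/-- The ideal of `Λ` of functions with values in the maximal ideal of `A`. -/
def radIdeal (Λ : Subalgebra A (T → A)) : Ideal Λ where
  carrier := {f | ∀ t, (f : T → A) t ∈ IsLocalRing.maximalIdeal A}
  add_mem' := fun {f g} hf hg t => by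
    simpa using (IsLocalRing.maximalIdeal A).add_mem (hf t) (hg t)
  zero_mem' := fun t => by simp
  smul_mem' := fun c f hf t => by
    simpa using (IsLocalRing.maximalIdeal A).mul_mem_left ((c : T → A) t) (hf t)

omit [Finite T] in
theorem mem_radIdeal {Λ : Subalgebra A (T → A)} {f : Λ} :
    f ∈ radIdeal Λ ↔ ∀ t, (f : T → A) t ∈ IsLocalRing.maximalIdeal A := Iff.rfl

/-- `radIdeal Λ` is contained in the Jacobson radical of `Λ`. -/
theorem radIdeal_le_jacobson (Λ : Subalgebra A (T → A)) :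
    radIdeal Λ ≤ Ideal.jacobson (⊥ : Ideal Λ) := by
  intro x hx
  rw [Ideal.mem_jacobson_bot]
  intro y
  have hu : ∀ t, IsUnit (((x * y + 1 : Λ) : T → A) t) := by
    intro t
    have h1 : ((x * y + 1 : Λ) : T → A) t = (x : T → A) t * (y : T → A) t + 1 := by simp
    rw [h1]
    have hm : (x : T → A) t * (y : T → A) t ∈ IsLocalRing.maximalIdeal A :=
      (IsLocalRing.maximalIdeal A).mul_mem_right _ (hx t)
    by_contra hnu
    have h2 : (x : T → A) t * (y : T → A) t + 1 ∈ IsLocalRing.maximalIdeal A :=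
      (IsLocalRing.mem_maximalIdeal _).mpr hnu
    have h3 : (1 : A) ∈ IsLocalRing.maximalIdeal A := by
      have := (IsLocalRing.maximalIdeal A).sub_mem h2 hm
      simpa using this
    exact (IsLocalRing.maximalIdeal.isMaximal A).ne_top
      ((Ideal.eq_top_iff_one _).mpr h3)
  obtain ⟨g, hg, hfg⟩ := exists_inv_mem Λ (x * y + 1).2 hu
  exact IsUnit.of_mul_eq_one (⟨g, hg⟩ : Λ) (Subtype.ext hfg)

/-- **Hensel without completeness.**  Let `Λ` be an `A`-algebra of functions on the finite set `T`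
(`A` local).  If `y : T → 𝔪_A` is a root of `Φ ∈ Λ[X]` and `Φ'(y)` is a unit at every point,
then `y ∈ Λ`. -/
theorem hensel_mem (Λ : Subalgebra A (T → A)) (Φ : Λ[X]) (y : T → A)
    (hy : ∀ t, y t ∈ IsLocalRing.maximalIdeal A)
    (hroot : aeval y Φ = 0)
    (hder : ∀ t, IsUnit ((aeval y (derivative Φ)) t)) : y ∈ Λ := by
  classical
  -- notation
  set Ψ : Λ[X] := divX Φ with hΨ
  set c : Λ := Φ.coeff 0 with hc
  have hΦ : Φ = Ψ * X + C c := (divX_mul_X_add Φ).symm
  -- the bigger ring Λ' = Λ[y]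
  let Λ' : Subalgebra Λ (T → A) := Algebra.adjoin Λ {y}
  have hΛ' : Λ' = (aeval y : Λ[X] →ₐ[Λ] (T → A)).range :=
    Algebra.adjoin_singleton_eq_range_aeval Λ y
  have hyΛ' : y ∈ Λ' := Algebra.subset_adjoin (Set.mem_singleton y)
  have hΨy : aeval y Ψ ∈ Λ' := by
    rw [hΛ']; exact ⟨Ψ, rfl⟩
  -- the relation Ψ(y) * y = - c
  have hrel : aeval y Ψ * y + algebraMap Λ (T → A) c = 0 := by
    have := hroot
    rw [hΦ] at this
    simpa using this
  -- Ψ(y) is a pointwise unit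
  have hder' : aeval y (derivative Φ) = aeval y (derivative Ψ) * y + aeval y Ψ := by
    conv_lhs => rw [hΦ]
    simp [derivative_mul]
  have hunit : ∀ t, IsUnit ((aeval y Ψ) t) := by
    intro t
    have h1 := hder t
    rw [hder'] at h1
    have hm : (aeval y (derivative Ψ) * y) t ∈ IsLocalRing.maximalIdeal A := by
      simpa using (IsLocalRing.maximalIdeal A).mul_mem_left _ (hy t)
    by_contra hnu
    have h2 : (aeval y Ψ) t ∈ IsLocalRing.maximalIdeal A :=
      (IsLocalRing.mem_maximalIdeal _).mpr hnu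
    have h3 := (IsLocalRing.maximalIdeal A).add_mem hm h2
    exact (IsLocalRing.mem_maximalIdeal _).mp h3 (by simpa using h1)
  -- its inverse lies in Λ'
  obtain ⟨w, hw, hww⟩ := exists_inv_mem (Λ'.restrictScalars A) (f := aeval y Ψ) hΨy hunit
  have hw' : w ∈ Λ' := hw
  -- y = - w * c
  have hyw : y = -(w * algebraMap Λ (T → A) c) := by
    have h1 : aeval y Ψ * y = -algebraMap Λ (T → A) c := eq_neg_of_add_eq_zero_left hrel
    calc y = (aeval y Ψ * w) * y := by rw [hww, one_mul]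
      _ = w * (aeval y Ψ * y) := by ring
      _ = -(w * algebraMap Λ (T → A) c) := by rw [h1]; ring
  -- c lies in the radical ideal
  have hcI : c ∈ radIdeal Λ := by
    intro t
    have h1 : (algebraMap Λ (T → A) c) t = -((aeval y Ψ) t * y t) := by
      have := congrFun hrel t
      simp only [Pi.add_apply, Pi.mul_apply, Pi.zero_apply] at this
      exact eq_neg_of_add_eq_zero_right this
    have h2 : ((c : Λ) : T → A) t = (algebraMap Λ (T → A) c) t := rfl
    rw [h2, h1]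
    exact (IsLocalRing.maximalIdeal A).neg_mem ((IsLocalRing.maximalIdeal A).mul_mem_left _ (hy t))
  -- Nakayama
  have hfg : (Subalgebra.toSubmodule Λ').FG :=
    (isIntegral_fun Λ y).fg_adjoin_singleton
  have hle : Subalgebra.toSubmodule Λ' ≤
      (Subalgebra.toSubmodule (⊥ : Subalgebra Λ (T → A))) ⊔
        (radIdeal Λ) • (Subalgebra.toSubmodule Λ') := by
    intro z hz
    have hz' : z ∈ Λ' := hz
    rw [hΛ'] at hz'
    obtain ⟨p, hpz⟩ := hz'
    have hpz' : aeval y p = z := hpz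
    have hp : p = divX p * X + C (p.coeff 0) := (divX_mul_X_add p).symm
    have hpy : aeval y p = algebraMap Λ (T → A) (p.coeff 0) +
        c • (-(w * aeval y (divX p))) := by
      conv_lhs => rw [hp]
      simp only [map_add, map_mul, aeval_X, aeval_C]
      rw [Algebra.smul_def]
      have hyw' : aeval y (divX p) * y =
          aeval y (divX p) * (-(w * algebraMap Λ (T → A) c)) := by rw [← hyw]
      rw [hyw']
      ring
    rw [← hpz', hpy]
    refine Submodule.add_mem_sup ?_ ?_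
    · exact Subalgebra.algebraMap_mem _ _
    · refine Submodule.smul_mem_smul hcI ?_
      refine Subalgebra.neg_mem _ (Subalgebra.mul_mem _ hw' ?_)
      rw [hΛ']; exact ⟨_, rfl⟩
  have hfin := Submodule.le_of_le_smul_of_le_jacobson_bot hfg (radIdeal_le_jacobson Λ) hle
  have hy1 : y ∈ Subalgebra.toSubmodule (⊥ : Subalgebra Λ (T → A)) := hfin hyΛ'
  obtain ⟨l, hl⟩ := Algebra.mem_bot.mp hy1
  rw [← hl]
  exact l.2

end Hensel

end Fermat.Agent.A3.H799

end
-- ===== PACK-END A3/H799/FamRing.lean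

-- ===== PACK-BEGIN S59/TW/H95/AlgSpan.lean
section


/-!
# S59 / cell TW / Layer 2, leaf ALG — part 1: the spanning step (helper95, Mathlib only)

`V` a `T`-module, `T` an `𝒪`-algebra, `V` finite over `𝒪`, `ϖ ∈ Jac 𝒪`.
`w_j ∈ T` with `(w_j - 1)^(k_j) ∈ ϖ T`.  If an `𝒪`-submodule `W₀` of `V` is stable under the `w_j`
and `V = W₀ + ∑_j (w_j - 1) V`, then `W₀ = V`.

Proof: `V = W₀ + U_n` for all `n`, where `U_n` is spanned by the `∏ (w_j - 1)^(a_j) v`, `∑ a = n`;
for `n > ∑ k_j` we have `U_n ⊆ ϖ V`; Nakayama over `𝒪`.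
-/

set_option autoImplicit false

namespace Fermat.Agent.S59.TW.H95

open Finset

section Pow

variable {T : Type*} [CommRing T]

/-- `(w - 1)^(p^m) ∈ p T` if `w^(p^m) = 1`, `p` an odd prime. -/
theorem exists_sub_one_pow_eq_h95 {p : ℕ} (hp : p.Prime) (hp2 : p ≠ 2) (w : T) (m : ℕ)
    (hw : w ^ p ^ m = 1) : ∃ t : T, (w - 1) ^ p ^ m = (p : T) * t := by
  obtain ⟨r, hr⟩ := exists_add_pow_prime_pow_eq hp w (-1) m
  have hodd : Odd (p ^ m) := (hp.odd_of_ne_two hp2).pow
  refine ⟨-(w * r), ?_⟩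
  rw [sub_eq_add_neg, hr, hw, hodd.neg_one_pow]
  ring

end Pow

section Span

variable {𝒪 T V : Type*} [CommRing 𝒪] [CommRing T] [Algebra 𝒪 T]
  [AddCommGroup V] [Module T V] [Module 𝒪 V] [IsScalarTower 𝒪 T V]

/-- multiplication by `t : T` as an `𝒪`-linear endomorphism of `V` -/
def mulT95 (𝒪 : Type*) {T : Type*} (V : Type*) [CommRing 𝒪] [CommRing T] [Algebra 𝒪 T]
    [AddCommGroup V] [Module T V] [Module 𝒪 V] [IsScalarTower 𝒪 T V] (t : T) : V →ₗ[𝒪] V :=
  (LinearMap.lsmul T V t).restrictScalars 𝒪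

@[simp] theorem mulT95_apply (t : T) (v : V) : mulT95 𝒪 V t v = t • v := rfl

/-- the elements of `T` which stabilise a given `𝒪`-submodule form a subalgebra -/
def stab95 (W : Submodule 𝒪 V) : Subalgebra 𝒪 T where
  carrier := {t | ∀ v ∈ W, t • v ∈ W}
  mul_mem' := fun {a b} ha hb v hv => by
    rw [mul_smul]; exact ha _ (hb v hv)
  one_mem' := fun v hv => by rw [one_smul]; exact hv
  add_mem' := fun {a b} ha hb v hv => by
    rw [add_smul]; exact W.add_mem (ha v hv) (hb v hv)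
  zero_mem' := fun v _ => by rw [zero_smul]; exact W.zero_mem
  algebraMap_mem' := fun c v hv => by
    rw [algebraMap_smul]; exact W.smul_mem c hv

theorem mem_stab95 {W : Submodule 𝒪 V} {t : T} : t ∈ stab95 (T := T) W ↔ ∀ v ∈ W, t • v ∈ W :=
  Iff.rfl

variable {r : ℕ}

/-- the filtration `U_n` -/
def filt95 (𝒪 : Type*) {T : Type*} (V : Type*) [CommRing 𝒪] [CommRing T] [Algebra 𝒪 T]
    [AddCommGroup V] [Module T V] [Module 𝒪 V] [IsScalarTower 𝒪 T V] {r : ℕ}
    (x : Fin r → T) (n : ℕ) : Submodule 𝒪 V :=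
  Submodule.span 𝒪 {y | ∃ (a : Fin r → ℕ) (v : V), ∑ j, a j = n ∧ y = (∏ j, x j ^ a j) • v}

theorem filt95_zero (x : Fin r → T) : filt95 𝒪 V x 0 = ⊤ := by
  rw [eq_top_iff]
  intro v _
  refine Submodule.subset_span ⟨fun _ => 0, v, by simp, by simp⟩

theorem smul_mem_filt95_succ (x : Fin r → T) (n : ℕ) (a : Fin r → ℕ) (ha : ∑ j, a j = n)
    (j : Fin r) (u : V) : (∏ i, x i ^ a i) • (x j • u) ∈ filt95 𝒪 V x (n + 1) := by
  refine Submodule.subset_span ⟨a + Pi.single j 1, u, ?_, ?_⟩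
  · simp [Finset.sum_add_distrib, ha]
  · rw [← mul_smul]
    congr 1
    have : ∀ i, x i ^ ((a + Pi.single j 1 : Fin r → ℕ) i) =
        x i ^ a i * x i ^ (Pi.single j 1 : Fin r → ℕ) i := by
      intro i; rw [Pi.add_apply, pow_add]
    simp_rw [this, Finset.prod_mul_distrib]
    congr 1
    rw [Finset.prod_eq_single j]
    · simp
    · intro i _ hij; simp [Pi.single_apply, hij]
    · intro h; exact absurd (Finset.mem_univ j) h

/-- **The spanning step.** -/
theorem eq_top_of_stable_h95 [Module.Finite 𝒪 V] (ϖ : 𝒪) (hϖ : ϖ ∈ Ideal.jacobson (⊥ : Ideal 𝒪))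
    (w : Fin r → T) (k : Fin r → ℕ)
    (hk : ∀ j, ∃ t : T, (w j - 1) ^ k j = algebraMap 𝒪 T ϖ * t)
    (W₀ : Submodule 𝒪 V) (hstab : ∀ j, ∀ v ∈ W₀, w j • v ∈ W₀)
    (hgen : ⊤ ≤ W₀ ⊔ ⨆ j, LinearMap.range (mulT95 𝒪 V (w j - 1))) :
    W₀ = ⊤ := by
  classical
  set x : Fin r → T := fun j => w j - 1 with hx
  -- `x^a` stabilises `W₀`
  have hxstab : ∀ a : Fin r → ℕ, ∀ v ∈ W₀, (∏ j, x j ^ a j) • v ∈ W₀ := by
    intro a
    have : (∏ j, x j ^ a j) ∈ stab95 (T := T) W₀ := by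
      refine Subalgebra.prod_mem _ (fun j _ => Subalgebra.pow_mem _ ?_ _)
      exact Subalgebra.sub_mem _ (hstab j) (Subalgebra.one_mem _)
    exact this
  -- step: `U_n ≤ W₀ ⊔ U_{n+1}`
  have hstep : ∀ n, filt95 𝒪 V x n ≤ W₀ ⊔ filt95 𝒪 V x (n + 1) := by
    intro n
    refine Submodule.span_le.mpr ?_
    rintro y ⟨a, v, ha, rfl⟩
    have hv : v ∈ W₀ ⊔ ⨆ j, LinearMap.range (mulT95 𝒪 V (w j - 1)) := hgen Submodule.mem_top
    obtain ⟨ω, hω, s, hs, rfl⟩ := Submodule.mem_sup.mp hv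
    rw [smul_add]
    refine Submodule.add_mem _ (Submodule.mem_sup_left (hxstab a ω hω)) (Submodule.mem_sup_right ?_)
    -- `x^a • s ∈ U_{n+1}` for `s ∈ ∑ range (x_j)`
    refine Submodule.iSup_induction (p := fun j => LinearMap.range (mulT95 𝒪 V (w j - 1)))
      (motive := fun s => (∏ j, x j ^ a j) • s ∈ filt95 𝒪 V x (n + 1)) hs ?_ ?_ ?_
    · rintro j _ ⟨u, rfl⟩
      exact smul_mem_filt95_succ x n a ha j u
    · rw [smul_zero]; exact Submodule.zero_mem _
    · intro s₁ s₂ h₁ h₂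
      rw [smul_add]; exact Submodule.add_mem _ h₁ h₂
  have hall : ∀ n, ⊤ ≤ W₀ ⊔ filt95 𝒪 V x n := by
    intro n
    induction n with
    | zero => rw [filt95_zero]; exact le_sup_right
    | succ n ih =>
      refine ih.trans (sup_le le_sup_left (hstep n))
  -- `U_N ≤ ϖ V`
  have hN : filt95 𝒪 V x (∑ j, k j + 1) ≤ Ideal.span {ϖ} • (⊤ : Submodule 𝒪 V) := by
    refine Submodule.span_le.mpr ?_
    rintro y ⟨a, v, ha, rfl⟩
    obtain ⟨j, -, hj⟩ : ∃ j ∈ (Finset.univ : Finset (Fin r)), k j < a j := by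
      refine Finset.exists_lt_of_sum_lt ?_
      rw [ha]; exact Nat.lt_succ_self _
    obtain ⟨t, ht⟩ := hk j
    have hdvd : x j ^ k j ∣ ∏ i, x i ^ a i :=
      (pow_dvd_pow _ hj.le).trans (Finset.dvd_prod_of_mem _ (Finset.mem_univ j))
    obtain ⟨t', ht'⟩ := hdvd
    have : (∏ i, x i ^ a i) • v = ϖ • ((t * t') • v) := by
      rw [ht', show x j ^ k j = algebraMap 𝒪 T ϖ * t from ht, mul_assoc, mul_smul,
        algebraMap_smul]
    rw [SetLike.mem_coe, this]
    exact Submodule.smul_mem_smul (Ideal.mem_span_singleton_self ϖ) Submodule.mem_top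
  -- Nakayama
  have hfg : (⊤ : Submodule 𝒪 V).FG := Module.Finite.fg_top
  have hJ : Ideal.span {ϖ} ≤ Ideal.jacobson (⊥ : Ideal 𝒪) :=
    (Ideal.span_singleton_le_iff_mem _).mpr hϖ
  have := Submodule.le_of_le_smul_of_le_jacobson_bot (N := W₀) hfg hJ
    ((hall _).trans (sup_le_sup_left hN _))
  exact eq_top_iff.mpr this

end Span

end Fermat.Agent.S59.TW.H95

end
-- ===== PACK-END S59/TW/H95/AlgSpan.lean

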