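import Mathlib
import Fermat.Agent.Pack.S43MC.G0E0L0
import Fermat.Agent.Pack.S43MC.G0E0L1
import Fermat.Agent.Pack.S43MC.G0E0L3
import Fermat.Agent.Pack.S43MC.G0E3L3

-- ===== PACK-BEGIN S25/DefsDict.lean
section



/-!
# Row S25: the dictionary between line bundles on `C_A` and gluing data (frozen, layer L3)

Only definitions.  Row-lead: helper985.  Board: coord/S25.md.
-/

set_option autoImplicit false
universe u
open CategoryTheory CategoryTheory.Limits AlgebraicGeometry AlgebraicGeometry.RelPicard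
  NeronModelInfra GoodReductionJacobian
open scoped TensorProduct

namespace Fermat.Agent.S25

noncomputable section

variable {k : Type u} [Field k] {C : Scheme.{u}} (c : C ⟶ Spec (CommRingCat.of k))
  (ε : SchemeHomOver (𝟙 (Spec (CommRingCat.of k))) c)

/-- The structure map `k → Γ(C, U)`. -/
def sectionsStr (U : C.Opens) : k →+* Γ(C, U) :=
  ((Scheme.ΓSpecIso (CommRingCat.of k)).inv ≫ c.appTop ≫
    C.presheaf.map (homOfLE (le_top : U ≤ ⊤)).op).hom

/-- Restriction of functions `Γ(X, U) → Γ(X, V)` for `V ≤ U`. -/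
def resRing {X : Scheme.{u}} {U V : X.Opens} (h : V ≤ U) : Γ(X, U) →+* Γ(X, V) :=
  (X.presheaf.map (homOfLE h).op).hom

/-- Restriction of sections `Γ(M, U) → Γ(M, V)` for `V ≤ U`. -/
def resMod {X : Scheme.{u}} (M : X.Modules) {U V : X.Opens} (h : V ≤ U) :
    Γ(M, U) →+ Γ(M, V) :=
  (M.presheaf.map (homOfLE h).op).hom

/-- Evaluation of functions at the marked point `ε`, on an open containing it. -/
def evalAt (U : C.Opens) (h : ε.1 ⁻¹ᵁ U = ⊤) : Γ(C, U) →+* k :=
  ((ε.1.appLE U ⊤ (le_of_eq h.symm)) ≫ (Scheme.ΓSpecIso (CommRingCat.of k)).hom).hom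

/-- A two-chart presentation of the curve `C` with marked point `ε`: affine opens `U₀`, `U₁`
covering `C`, whose rings of functions (and that of `U₀ ⊓ U₁`) are identified with the rings
of a curve chart in the sense of `IsCurveChart`. -/
structure ChartOf where
  B₀ : Type u
  B₁ : Type u
  B₀₁ : Type u
  [commRing₀ : CommRing B₀]
  [commRing₁ : CommRing B₁]
  [commRing₀₁ : CommRing B₀₁]
  [algebra₀ : Algebra k B₀]
  [algebra₁ : Algebra k B₁]
  [algebra₀₁ : Algebra k B₀₁]
  [algebraL : Algebra B₀ B₀₁]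
  [algebraR : Algebra B₁ B₀₁]
  [towerL : IsScalarTower k B₀ B₀₁]
  [towerR : IsScalarTower k B₁ B₀₁]
  x : B₀
  y : B₁
  e : B₁ →ₐ[k] k
  isCurveChart : IsCurveChart k B₀ B₁ B₀₁ x y e
  U₀ : C.Opens
  U₁ : C.Opens
  isAffine₀ : IsAffineOpen U₀
  isAffine₁ : IsAffineOpen U₁
  cover : U₀ ⊔ U₁ = ⊤
  i₀ : Γ(C, U₀) ≃+* B₀
  i₁ : Γ(C, U₁) ≃+* B₁
  i₀₁ : Γ(C, U₀ ⊓ U₁) ≃+* B₀₁
  i₀_str : ∀ a : k, i₀ (sectionsStr c U₀ a) = algebraMap k B₀ a
  i₁_str : ∀ a : k, i₁ (sectionsStr c U₁ a) = algebraMap k B₁ a
  i₀₁_res₀ : ∀ f : Γ(C, U₀), i₀₁ (resRing inf_le_left f) = algebraMap B₀ B₀₁ (i₀ f)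
  i₀₁_res₁ : ∀ f : Γ(C, U₁), i₀₁ (resRing inf_le_right f) = algebraMap B₁ B₀₁ (i₁ f)
  inf_eq₀ : U₀ ⊓ U₁ = C.basicOpen (i₀.symm x)
  inf_eq₁ : U₀ ⊓ U₁ = C.basicOpen (i₁.symm y)
  eps_mem : ε.1 ⁻¹ᵁ U₁ = ⊤
  e_eq : ∀ f : Γ(C, U₁), e (i₁ f) = evalAt c ε U₁ eps_mem f

attribute [instance] ChartOf.commRing₀ ChartOf.commRing₁ ChartOf.commRing₀₁ ChartOf.algebra₀
  ChartOf.algebra₁ ChartOf.algebra₀₁ ChartOf.algebraL ChartOf.algebraR ChartOf.towerL
  ChartOf.towerR

namespace Stmt

/-- CHART (BR1): the curve has a two-chart presentation. -/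
def Chart : Prop := Nonempty (ChartOf c ε)

end Stmt

section Corr

variable {c ε} (Ch : ChartOf c ε) (A : Type u) [CommRing A] [Algebra k A]

/-- The preimage in `C_A = pullback c (specStr k A)` of an open of `C`. -/
abbrev preimageOpen (U : C.Opens) : (pullback c (specStr k A)).Opens :=
  (pullback.fst c (specStr k A)) ⁻¹ᵁ U

/-- `A → Γ(C_A, V)`. -/
def baseToSections (V : (pullback c (specStr k A)).Opens) :
    A →+* Γ(pullback c (specStr k A), V) :=
  ((Scheme.ΓSpecIso (CommRingCat.of A)).inv ≫ (pullback.snd c (specStr k A)).appTop ≫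
    (pullback c (specStr k A)).presheaf.map (homOfLE (le_top : V ≤ ⊤)).op).hom

/-- `Γ(C, U) → Γ(C_A, preimage of U)`. -/
def curveToSections (U : C.Opens) :
    Γ(C, U) →+* Γ(pullback c (specStr k A), preimageOpen (c := c) A U) :=
  ((pullback.fst c (specStr k A)).app U).hom

/-- An additive bijection `e : Γ(L, preimage of U) ≃ N` identifies the module of sections
over the preimage of `U` with the `A ⊗[k] B`-module `N`, where `i : Γ(C, U) ≃+* B`. -/
def IsSectionsIso (L : (pullback c (specStr k A)).Modules) (U : C.Opens) {B : Type u}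
    [CommRing B] [Algebra k B] (i : Γ(C, U) ≃+* B) {N : Type u} [AddCommGroup N]
    [Module (A ⊗[k] B) N] (e : Γ(L, preimageOpen (c := c) A U) ≃+ N) : Prop :=
  (∀ (a : A) (s : Γ(L, preimageOpen (c := c) A U)),
      e (baseToSections (c := c) A (preimageOpen (c := c) A U) a • s) =
        (a ⊗ₜ[k] (1 : B)) • e s) ∧
    ∀ (f : Γ(C, U)) (s : Γ(L, preimageOpen (c := c) A U)),
      e (curveToSections (c := c) A U f • s) = ((1 : A) ⊗ₜ[k] i f) • e s

/-- CORR: `G` is (isomorphic to) the gluing datum of sections of the line bundle `L` on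
`C_A` over the preimages of `U₀`, `U₁`, `U₀ ⊓ U₁`. -/
def Corr (L : (pullback c (specStr k A)).Modules) (G : CurveGD k Ch.B₀ Ch.B₁ Ch.B₀₁ A) : Prop :=
  ∃ (e₀ : Γ(L, preimageOpen (c := c) A Ch.U₀) ≃+ G.N₀)
    (e₁ : Γ(L, preimageOpen (c := c) A Ch.U₁) ≃+ G.N₁)
    (e₀₁ : Γ(L, preimageOpen (c := c) A (Ch.U₀ ⊓ Ch.U₁)) ≃+ G.N₀₁),
    IsSectionsIso A L Ch.U₀ Ch.i₀ e₀ ∧ IsSectionsIso A L Ch.U₁ Ch.i₁ e₁ ∧
      IsSectionsIso A L (Ch.U₀ ⊓ Ch.U₁) Ch.i₀₁ e₀₁ ∧
      (∀ s, e₀₁ (resMod L (show preimageOpen (c := c) A (Ch.U₀ ⊓ Ch.U₁) ≤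
          preimageOpen (c := c) A Ch.U₀ from
            (Scheme.Hom.preimage_mono _ inf_le_left)) s) = G.r₀ (e₀ s)) ∧
      (∀ s, e₀₁ (resMod L (show preimageOpen (c := c) A (Ch.U₀ ⊓ Ch.U₁) ≤
          preimageOpen (c := c) A Ch.U₁ from
            (Scheme.Hom.preimage_mono _ inf_le_right)) s) = G.r₁ (e₁ s))

end Corr

namespace Stmt

variable {c ε} (Ch : ChartOf c ε)

/-- DICT-SEC: every rigidified line bundle on `C_A` has a gluing datum of sections, and it
is rigidifiable. -/
def DictSections : Prop :=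
  ∀ (A : Type u) [CommRing A] [Algebra k A] (M : RigidifiedLineBundle c ε (specStr k A)),
    ∃ G : CurveGD k Ch.B₀ Ch.B₁ Ch.B₀₁ A, Corr Ch A M.L G ∧ G.Rigidifiable Ch.e

/-- DICT-GLUE: every rigidifiable gluing datum over `A` is the gluing datum of sections of a
rigidified line bundle on `C_A`. -/
def DictGlue : Prop :=
  ∀ (A : Type u) [CommRing A] [Algebra k A] (G : CurveGD k Ch.B₀ Ch.B₁ Ch.B₀₁ A),
    G.Rigidifiable Ch.e → ∃ M : RigidifiedLineBundle c ε (specStr k A), Corr Ch A M.L G

/-- DICT-ISO: the correspondence preserves and reflects isomorphism. -/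
def DictIso : Prop :=
  ∀ (A : Type u) [CommRing A] [Algebra k A] (M M' : RigidifiedLineBundle c ε (specStr k A))
    (G G' : CurveGD k Ch.B₀ Ch.B₁ Ch.B₀₁ A), Corr Ch A M.L G → Corr Ch A M'.L G' →
      (RIso M M' ↔ G.IsIso G')

/-- DICT-BC: pullback along `Spec A' → Spec A` corresponds to base change of gluing data. -/
def DictBC : Prop :=
  ∀ (A A' : Type u) [CommRing A] [Algebra k A] [CommRing A'] [Algebra k A'] (φ : A →ₐ[k] A')
    (M : RigidifiedLineBundle c ε (specStr k A)) (G : CurveGD k Ch.B₀ Ch.B₁ Ch.B₀₁ A)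
    (G' : CurveGD k Ch.B₀ Ch.B₁ Ch.B₀₁ A'), Corr Ch A M.L G → CurveGD.IsBC φ G G' →
      Corr Ch A' (M.pullbackAlong (specHomOver k φ)).L G'

/-- ALG-BC-EXISTS: base changes of gluing data exist (pure algebra). -/
def AlgBCExists : Prop :=
  ∀ (A A' : Type u) [CommRing A] [Algebra k A] [CommRing A'] [Algebra k A'] (φ : A →ₐ[k] A')
    (G : CurveGD k Ch.B₀ Ch.B₁ Ch.B₀₁ A),
    ∃ G' : CurveGD k Ch.B₀ Ch.B₁ Ch.B₀₁ A', CurveGD.IsBC φ G G'

/-- DICT-DEG (BR4): the Prelude's `FibrewiseAlgEquivZero` is fibrewise degree zero of the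
gluing datum. -/
def DictDeg : Prop :=
  ∀ (A : Type u) [CommRing A] [Algebra k A] (M : RigidifiedLineBundle c ε (specStr k A))
    (G : CurveGD k Ch.B₀ Ch.B₁ Ch.B₀₁ A), Corr Ch A M.L G →
      (FibrewiseAlgEquivZero M ↔ G.Deg0)

end Stmt

end

end Fermat.Agent.S25

end
-- ===== PACK-END S25/DefsDict.lean

-- ===== PACK-BEGIN S25/H805/LocalP.lean
section


/-!
# Row S25, assembly block AS5 (helper805): `Stmt.LocalP`

Degree zero (`FibrewiseAlgEquivZero`) is Zariski-local on the base: every geometric point of `T`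
factors through a member of the cover, and the fibre over it does not change.
-/

set_option autoImplicit false
universe u
open CategoryTheory CategoryTheory.Limits AlgebraicGeometry AlgebraicGeometry.RelPicard
  NeronModelInfra GoodReductionJacobian

namespace Fermat.Agent.S25.H805

noncomputable section

variable {k : Type u} [CommRing k] {C : Scheme.{u}} {c : C ⟶ Spec (CommRingCat.of k)}
  {ε : SchemeHomOver (𝟙 (Spec (CommRingCat.of k))) c}

/-- If a geometric point `s` of `T` factors as `s' ≫ ψ` through `ψ : T' ⟶ T`, then the fibre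
condition for `M` at `s` follows from the fibre condition for the pullback of `M` at `s'`. -/
theorem isAlgEquivZero_fibre_of_factor {T T' : Scheme.{u}} {t : T ⟶ Spec (CommRingCat.of k)}
    {t' : T' ⟶ Spec (CommRingCat.of k)} (ψ : SchemeHomOver t' t)
    (M : RigidifiedLineBundle c ε t) {K : Type u} [Field K]
    (s : Spec (CommRingCat.of K) ⟶ T) (s' : Spec (CommRingCat.of K) ⟶ T') (hs : s' ≫ ψ.1 = s)
    (H : IsAlgEquivZero (fibreAt c t' s')
      ((Scheme.Modules.pullback (pullback.fst (pullback.snd c t') s')).obj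
        (M.pullbackAlong ψ).L)) :
    IsAlgEquivZero (fibreAt c t s)
      ((Scheme.Modules.pullback (pullback.fst (pullback.snd c t) s)).obj M.L) := by
  have cond1 : (pullback.fst (pullback.snd c t) s ≫ pullback.fst c t) ≫ c =
      (pullback.snd (pullback.snd c t) s ≫ s') ≫ t' := by
    rw [Category.assoc, pullback.condition, ← Category.assoc, pullback.condition, Category.assoc,
      Category.assoc, ← hs, Category.assoc, ψ.2]
  let e₀ : pullback (pullback.snd c t) s ⟶ pullback c t' :=
    pullback.lift (pullback.fst (pullback.snd c t) s ≫ pullback.fst c t)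
      (pullback.snd (pullback.snd c t) s ≫ s') cond1
  let e : pullback (pullback.snd c t) s ⟶ pullback (pullback.snd c t') s' :=
    pullback.lift e₀ (pullback.snd (pullback.snd c t) s) (pullback.lift_snd _ _ _)
  have he : e ≫ fibreAt c t' s' = fibreAt c t s := pullback.lift_snd _ _ _
  have hfst : e ≫ pullback.fst (pullback.snd c t') s' ≫ baseChangeSnd c ψ =
      pullback.fst (pullback.snd c t) s := by
    rw [← Category.assoc, show e ≫ pullback.fst (pullback.snd c t') s' = e₀ from
      pullback.lift_fst _ _ _]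
    apply pullback.hom_ext
    · simp only [e₀, baseChangeSnd, Category.assoc, pullback.lift_fst, Category.comp_id]
    · simp only [e₀, baseChangeSnd, Category.assoc, pullback.lift_snd, pullback.lift_snd_assoc,
        hs, pullback.condition]
  refine IsAlgEquivZero.of_iso ?_ (H.pullback e he)
  exact (Scheme.Modules.pullbackComp _ _).app _ ≪≫
    (Scheme.Modules.pullbackComp _ _).app M.L ≪≫
    (Scheme.Modules.pullbackCongr (by rw [Category.assoc]; exact hfst)).app M.L

/-- **AS5**: `Stmt.LocalP` (for any base ring `k`, no hypotheses on `c`). -/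
theorem localP {k : Type u} [Field k] {C : Scheme.{u}} (c : C ⟶ Spec (CommRingCat.of k))
    (ε : SchemeHomOver (𝟙 (Spec (CommRingCat.of k))) c) : Stmt.LocalP c ε := by
  intro T t ι U hU M hloc K _ _ s
  -- the unique point of `Spec K` lands in some `U i`
  let p : Spec (CommRingCat.of K) := default
  have hp : s.base p ∈ (⨆ i, U i : T.Opens) := by rw [hU]; trivial
  obtain ⟨i, hi⟩ := TopologicalSpace.Opens.mem_iSup.mp hp
  have hrange : Set.range s.base ⊆ Set.range (U i).ι.base := by
    rintro _ ⟨q, rfl⟩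
    rw [Scheme.Opens.range_ι, Subsingleton.elim q p]
    exact hi
  let s' : Spec (CommRingCat.of K) ⟶ (U i).toScheme := IsOpenImmersion.lift (U i).ι s hrange
  have hs' : s' ≫ (U i).ι = s := IsOpenImmersion.lift_fac _ _ _
  exact isAlgEquivZero_fibre_of_factor (⟨(U i).ι, rfl⟩ : SchemeHomOver ((U i).ι ≫ t) t) M s s'
    hs' (hloc i K s')

end

end Fermat.Agent.S25.H805

end
-- ===== PACK-END S25/H805/LocalP.lean

-- ===== PACK-BEGIN S25/H626/EndIso.lean
section
/-
S25 helper (helper626), block GLUE, leaf G4 (part 2): for a module with local generators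
(locally free of rank one, sectionwise form) the ring homomorphism
`Γ(X, ⊤) →+* End M`, `r ↦ smulHom M r`, is bijective.
-/



set_option autoImplicit false

universe u

noncomputable section

open CategoryTheory AlgebraicGeometry TopologicalSpace Opposite

namespace Fermat.Agent.S25.H626

variable {X : Scheme.{u}}

/-- `s ∈ Γ(M, U)` is a *local generator* of `M` on `U`: for every open `V ≤ U` the restriction
`s|_V` is a basis of `Γ(M, V)` over `Γ(X, V)`. -/
def IsLocalGenerator (M : X.Modules) (U : X.Opens) (s : Γ(M, U)) : Prop :=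
  ∀ (V : X.Opens) (h : V ≤ U), Function.Bijective (fun r : Γ(X, V) => r • res M h s)

/-- `M` is locally free of rank one (sectionwise form). -/
def HasLocalGenerators (M : X.Modules) : Prop :=
  ∀ x : X, ∃ U : X.Opens, x ∈ U ∧ ∃ s : Γ(M, U), IsLocalGenerator M U s

section Gluing

/-- Sections of `𝒪_X` agreeing locally are equal. -/
theorem eq_of_locally_eq_O {ι : Type*} (U : ι → X.Opens) (V : X.Opens) (hUV : ∀ i, U i ≤ V)
    (hcover : V ≤ iSup U) (r r' : Γ(X, V))
    (h : ∀ i, resO (hUV i) r = resO (hUV i) r') : r = r' :=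
  TopCat.Sheaf.eq_of_locally_eq' X.sheaf U V (fun i => homOfLE (hUV i)) hcover r r' h

/-- Sections of `M` agreeing locally are equal. -/
theorem eq_of_locally_eq_M (M : X.Modules) {ι : Type*} (U : ι → X.Opens) (V : X.Opens)
    (hUV : ∀ i, U i ≤ V) (hcover : V ≤ iSup U) (s s' : Γ(M, V))
    (h : ∀ i, res M (hUV i) s = res M (hUV i) s') : s = s' :=
  TopCat.Sheaf.eq_of_locally_eq' (⟨M.presheaf, M.isSheaf⟩ : TopCat.Sheaf Ab X) U V
    (fun i => homOfLE (hUV i)) hcover s s' h

/-- Compatible local sections of `𝒪_X` glue. -/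
theorem exists_gluing_O {ι : Type*} (U : ι → X.Opens) (V : X.Opens) (hUV : ∀ i, U i ≤ V)
    (hcover : V ≤ iSup U) (r : ∀ i, Γ(X, U i))
    (hr : ∀ i j, resO (inf_le_left : U i ⊓ U j ≤ U i) (r i) =
      resO (inf_le_right : U i ⊓ U j ≤ U j) (r j)) :
    ∃ g : Γ(X, V), ∀ i, resO (hUV i) g = r i := by
  obtain ⟨g, hg, -⟩ := TopCat.Sheaf.existsUnique_gluing' X.sheaf U V (fun i => homOfLE (hUV i))
    hcover r (fun i j => hr i j)
  exact ⟨g, hg⟩

end Gluing

section Main

variable {M : X.Modules}

theorem smulHom_injective (hM : HasLocalGenerators M) : Function.Injective (smulHom M) := by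
  intro r r' hrr'
  choose U hxU s hs using hM
  refine eq_of_locally_eq_O U ⊤ (fun _ => le_top) ?_ r r' ?_
  · intro x _
    exact Opens.mem_iSup.mpr ⟨x, hxU x⟩
  · intro x
    have h1 : (smulHom M r).app (U x) (s x) = (smulHom M r').app (U x) (s x) := by rw [hrr']
    rw [smulHom_app, smulHom_app] at h1
    have h2 := (hs x (U x) le_rfl).1
    apply h2
    simpa using h1

theorem smulHom_surjective (hM : HasLocalGenerators M) : Function.Surjective (smulHom M) := by
  intro φ
  choose U hxU s hs using hM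
  -- local coefficients
  have hex : ∀ x, ∃ r : Γ(X, U x), r • s x = φ.app (U x) (s x) := by
    intro x
    obtain ⟨r, hr⟩ := (hs x (U x) le_rfl).2 (φ.app (U x) (s x))
    exact ⟨r, by simpa using hr⟩
  choose r hr using hex
  -- on every `V ≤ U x`, `φ` multiplies `s x |_V` by `r x |_V`
  have hφs : ∀ x (V : X.Opens) (h : V ≤ U x),
      φ.app V (res M h (s x)) = resO h (r x) • res M h (s x) := by
    intro x V h
    rw [app_res, ← hr x, res_smul]
  -- hence it multiplies every section over `V ≤ U x` by `r x |_V`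
  have hφ : ∀ x (V : X.Opens) (h : V ≤ U x) (t : Γ(M, V)),
      φ.app V t = resO h (r x) • t := by
    intro x V h t
    obtain ⟨b, hb⟩ := (hs x V h).2 t
    simp only at hb
    rw [← hb, Scheme.Modules.Hom.app_smul, hφs x V h, smul_smul_comm']
  -- compatibility
  have hcompat : ∀ x y, resO (inf_le_left : U x ⊓ U y ≤ U x) (r x) =
      resO (inf_le_right : U x ⊓ U y ≤ U y) (r y) := by
    intro x y
    apply (hs y (U x ⊓ U y) inf_le_right).1
    simp only
    rw [← hφ x (U x ⊓ U y) inf_le_left, ← hφ y (U x ⊓ U y) inf_le_right]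
  obtain ⟨g, hg⟩ := exists_gluing_O U ⊤ (fun _ => le_top)
    (fun x _ => Opens.mem_iSup.mpr ⟨x, hxU x⟩) r hcompat
  refine ⟨g, ?_⟩
  apply hom_ext_apply
  intro W t
  rw [smulHom_app]
  refine eq_of_locally_eq_M M (fun x => W ⊓ U x) W (fun _ => inf_le_left) ?_ _ _ ?_
  · intro y hy
    exact Opens.mem_iSup.mpr ⟨y, ⟨hy, hxU y⟩⟩
  · intro x
    rw [res_smul, resO_resO, ← app_res, hφ x (W ⊓ U x) inf_le_right, ← hg x, resO_resO]

/-- **G4.** For a module with local generators, `Γ(X, ⊤) →+* End M` is bijective. -/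
theorem smulRingHom_bijective (hM : HasLocalGenerators M) :
    Function.Bijective (smulRingHom M) :=
  ⟨smulHom_injective hM, smulHom_surjective hM⟩

/-- **G4.** The ring isomorphism `Γ(X, ⊤) ≃+* End M` for a module with local generators. -/
def smulRingEquiv (hM : HasLocalGenerators M) : Γ(X, ⊤) ≃+* End M :=
  RingEquiv.ofBijective (smulRingHom M) (smulRingHom_bijective hM)

end Main

end Fermat.Agent.S25.H626

end

end
-- ===== PACK-END S25/H626/EndIso.lean

-- ===== PACK-BEGIN S25/H207/Dedekind.lean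
section



/-!
# Block CURVE, leaf A2: locally standard smooth of relative dimension one ⇒ Dedekind

A finitely generated domain over an algebraically closed field which is locally standard smooth
of relative dimension `1` is a Dedekind domain and not a field.  (Same statements as the frozen
skeleton `Fermat/Agent/S25/Curve/Alg/Dedekind.lean` of the squad board.)
-/

set_option autoImplicit false

universe u

open TensorProduct

namespace Fermat.Agent.S25.H207

/-- A noetherian domain all of whose localisations at maximal ideals are discrete valuation rings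
is a Dedekind domain. -/
theorem isDedekindDomain_of_forall_maximal_dvr {B : Type*} [CommRing B] [IsDomain B]
    [hBn : IsNoetherianRing B]
    (h : ∀ (m : Ideal B) [m.IsMaximal], IsDiscreteValuationRing (Localization.AtPrime m)) :
    IsDedekindDomain B := by
  have hdvr : IsDedekindDomainDvr B := by
    refine @IsDedekindDomainDvr.mk _ _ _ hBn ?_
    intro P hP0 hPprime
    -- `P` is maximal: choose a maximal `m ⊇ P`; `B_m` is a DVR so `P B_m = m B_m`
    obtain ⟨m, hm, hPm⟩ := Ideal.exists_le_maximal P hPprime.ne_top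
    have hdvr_m : IsDiscreteValuationRing (Localization.AtPrime m) := h m
    have hPeq : P = m := by
      -- the prime `P B_m` of the DVR `B_m` is nonzero, hence maximal
      have hdisj : Disjoint (m.primeCompl : Set B) (P : Set B) := by
        rw [Set.disjoint_left]
        intro x hx hxP
        exact hx (hPm hxP)
      have hPmap_prime : (Ideal.map (algebraMap B (Localization.AtPrime m)) P).IsPrime :=
        IsLocalization.isPrime_of_isPrime_disjoint m.primeCompl _ P hPprime hdisj
      have hPmap_ne : Ideal.map (algebraMap B (Localization.AtPrime m)) P ≠ ⊥ := by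
        rw [Ne, Ideal.map_eq_bot_iff_of_injective
          (IsLocalization.injective _ (Ideal.primeCompl_le_nonZeroDivisors m))]
        exact hP0
      have hmaxl : (Ideal.map (algebraMap B (Localization.AtPrime m)) P).IsMaximal :=
        hPmap_prime.isMaximal hPmap_ne
      have heq : Ideal.map (algebraMap B (Localization.AtPrime m)) P
          = IsLocalRing.maximalIdeal (Localization.AtPrime m) :=
        IsLocalRing.eq_maximalIdeal hmaxl
      rw [← Localization.AtPrime.map_eq_maximalIdeal] at heq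
      have hcomapP := IsLocalization.under_map_of_isPrime_disjoint m.primeCompl
        (Localization.AtPrime m) hPprime hdisj
      have hcomapm := IsLocalization.under_map_of_isPrime_disjoint m.primeCompl
        (Localization.AtPrime m) hm.isPrime (by
          rw [Set.disjoint_left]; intro x hx hxm; exact hx hxm)
      rw [← hcomapP, heq, hcomapm]
    subst hPeq
    exact h P
  exact IsDedekindDomainDvr.isDedekindDomain B

/-- The extension of a maximal ideal `m` to the localisation away from `t ∉ m` is maximal. -/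
theorem isMaximal_map_away {B : Type*} [CommRing B] (m : Ideal B) [hm : m.IsMaximal] (t : B)
    (ht : t ∉ m) (Bt : Type*) [CommRing Bt] [Algebra B Bt] [IsLocalization.Away t Bt] :
    (Ideal.map (algebraMap B Bt) m).IsMaximal ∧
      Ideal.comap (algebraMap B Bt) (Ideal.map (algebraMap B Bt) m) = m := by
  have hdisj : Disjoint ((Submonoid.powers t : Submonoid B) : Set B) (m : Set B) := by
    rw [Set.disjoint_left]
    rintro x ⟨n, rfl⟩ hx
    exact ht (hm.isPrime.mem_of_pow_mem n hx)
  have hprime : (Ideal.map (algebraMap B Bt) m).IsPrime :=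
    IsLocalization.isPrime_of_isPrime_disjoint (Submonoid.powers t) Bt m hm.isPrime hdisj
  have hcomap : Ideal.comap (algebraMap B Bt) (Ideal.map (algebraMap B Bt) m) = m :=
    IsLocalization.under_map_of_isPrime_disjoint (Submonoid.powers t) Bt hm.isPrime hdisj
  refine ⟨?_, hcomap⟩
  obtain ⟨M, hM, hle⟩ := Ideal.exists_le_maximal _ hprime.ne_top
  have h1 : m ≤ Ideal.comap (algebraMap B Bt) M := by
    rw [← hcomap]
    exact Ideal.comap_mono hle
  have h2 : Ideal.comap (algebraMap B Bt) M ≠ ⊤ :=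
    (Ideal.comap_isPrime (algebraMap B Bt) M).ne_top
  have h3 : m = Ideal.comap (algebraMap B Bt) M := hm.eq_of_le h2 h1
  have h4 : Ideal.map (algebraMap B Bt) m = M := by
    rw [h3]
    exact IsLocalization.map_under (Submonoid.powers t) Bt M
  rw [h4]
  exact hM

section Locally

variable {k B : Type u} [Field k] [IsAlgClosed k] [CommRing B] [IsDomain B] [Algebra k B]

/-- Key local statement: for a maximal ideal `m` and `t ∉ m` such that `B_t` is standard smooth
of relative dimension one over `k`, the local ring `B_m` is a DVR and `m ≠ 0`. -/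
theorem dvr_and_ne_bot_of_away (m : Ideal B) [hm : m.IsMaximal] (t : B) (ht : t ∉ m)
    (hP : RingHom.IsStandardSmoothOfRelativeDimension 1
      ((algebraMap B (Localization.Away t)).comp (algebraMap k B))) :
    IsDiscreteValuationRing (Localization.AtPrime m) ∧ m ≠ ⊥ := by
  have ht0 : t ≠ 0 := fun h => ht (h ▸ m.zero_mem)
  haveI hdom : IsDomain (Localization.Away t) :=
    IsLocalization.isDomain_of_le_nonZeroDivisors (Localization.Away t)
      (powers_le_nonZeroDivisors_of_noZeroDivisors ht0)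
  letI algk : Algebra k (Localization.Away t) :=
    ((algebraMap B (Localization.Away t)).comp (algebraMap k B)).toAlgebra
  haveI hss : Algebra.IsStandardSmoothOfRelativeDimension 1 k (Localization.Away t) := hP
  obtain ⟨hmax, hcomap⟩ := isMaximal_map_away m t ht (Localization.Away t)
  haveI := hmax
  haveI hprime : (Ideal.map (algebraMap B (Localization.Away t)) m).IsPrime := hmax.isPrime
  constructor
  · -- `T`, the localisation of `B_t` at `m B_t`, is a DVR and a localisation of `B` at `m`
    have hT : IsDiscreteValuationRing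
        (Localization.AtPrime (Ideal.map (algebraMap B (Localization.Away t)) m)) :=
      isDiscreteValuationRing_of_isLocalization k
        (Ideal.map (algebraMap B (Localization.Away t)) m) _
    have hloc : IsLocalization.AtPrime
        (Localization.AtPrime (Ideal.map (algebraMap B (Localization.Away t)) m))
        (Ideal.comap (algebraMap B (Localization.Away t))
          (Ideal.map (algebraMap B (Localization.Away t)) m)) :=
      IsLocalization.isLocalization_isLocalization_atPrime_isLocalization (Submonoid.powers t)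
        _ (Ideal.map (algebraMap B (Localization.Away t)) m)
    have hloc' : IsLocalization m.primeCompl
        (Localization.AtPrime (Ideal.map (algebraMap B (Localization.Away t)) m)) := by
      have h := hloc
      unfold IsLocalization.AtPrime at h
      have hpc : (Ideal.comap (algebraMap B (Localization.Away t))
          (Ideal.map (algebraMap B (Localization.Away t)) m)).primeCompl = m.primeCompl := by
        ext x
        simp only [Ideal.mem_primeCompl_iff]
        rw [hcomap]
      rw [hpc] at h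
      exact h
    let e : (Localization.AtPrime (Ideal.map (algebraMap B (Localization.Away t)) m))
        ≃ₐ[B] Localization.AtPrime m :=
      IsLocalization.algEquiv m.primeCompl _ _
    exact IsDiscreteValuationRing.RingEquivClass.isDiscreteValuationRing e
  · intro h0
    apply maximal_ne_bot_of_standardSmooth k (Ideal.map (algebraMap B (Localization.Away t)) m)
    rw [h0, Ideal.map_bot]

omit [IsAlgClosed k] [IsDomain B] in
/-- Under the `Locally` hypothesis every maximal ideal avoids some element of the cover. -/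
theorem exists_notMem_of_locally
    (h : RingHom.Locally (RingHom.IsStandardSmoothOfRelativeDimension 1) (algebraMap k B))
    (m : Ideal B) [hm : m.IsMaximal] :
    ∃ t : B, t ∉ m ∧ RingHom.IsStandardSmoothOfRelativeDimension 1
      ((algebraMap B (Localization.Away t)).comp (algebraMap k B)) := by
  obtain ⟨s, hs, hP⟩ := h
  by_contra hcon
  push Not at hcon
  have hsub : s ⊆ (m : Set B) := by
    intro t hts
    by_contra htm
    exact hcon t htm (hP t hts)
  have : Ideal.span s ≤ m := Ideal.span_le.mpr hsub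
  rw [hs] at this
  exact hm.ne_top (top_le_iff.mp this)

/-- Localisations at maximal ideals are DVRs. -/
theorem isDiscreteValuationRing_localization_of_locally
    (h : RingHom.Locally (RingHom.IsStandardSmoothOfRelativeDimension 1) (algebraMap k B))
    (m : Ideal B) [hm : m.IsMaximal] : IsDiscreteValuationRing (Localization.AtPrime m) := by
  obtain ⟨t, ht, hP⟩ := exists_notMem_of_locally h m
  exact (dvr_and_ne_bot_of_away m t ht hP).1

/-- Maximal ideals are nonzero. -/
theorem maximal_ne_bot_of_locally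
    (h : RingHom.Locally (RingHom.IsStandardSmoothOfRelativeDimension 1) (algebraMap k B))
    (m : Ideal B) [hm : m.IsMaximal] : m ≠ ⊥ := by
  obtain ⟨t, ht, hP⟩ := exists_notMem_of_locally h m
  exact (dvr_and_ne_bot_of_away m t ht hP).2

end Locally

/-- **A2a.** (frozen statement of the squad skeleton `Curve/Alg/Dedekind.lean`) -/
theorem isDedekindDomain_of_locally_isStandardSmooth {k B : Type u} [Field k] [IsAlgClosed k]
    [CommRing B] [IsDomain B] [Algebra k B] [Algebra.FiniteType k B]
    (h : RingHom.Locally (RingHom.IsStandardSmoothOfRelativeDimension 1) (algebraMap k B)) :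
    IsDedekindDomain B := by
  haveI hBn : IsNoetherianRing B := Algebra.FiniteType.isNoetherianRing k B
  exact isDedekindDomain_of_forall_maximal_dvr
    (fun m _ => isDiscreteValuationRing_localization_of_locally h m)

/-- **A2b.** (frozen statement of the squad skeleton `Curve/Alg/Dedekind.lean`) -/
theorem not_isField_of_locally_isStandardSmooth {k B : Type u} [Field k] [IsAlgClosed k]
    [CommRing B] [IsDomain B] [Algebra k B] [Algebra.FiniteType k B]
    (h : RingHom.Locally (RingHom.IsStandardSmoothOfRelativeDimension 1) (algebraMap k B)) :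
    ¬ IsField B := by
  intro hf
  have hm : (⊥ : Ideal B).IsMaximal := by
    letI := hf.toField
    exact Ideal.bot_isMaximal
  exact maximal_ne_bot_of_locally h (⊥ : Ideal B) rfl

end Fermat.Agent.S25.H207

end
-- ===== PACK-END S25/H207/Dedekind.lean

-- ===== PACK-BEGIN S25/H130/Basic.lean
section


/-!
# S25 / AS4 (helper130): basic calculus of rigidified line bundles up to isomorphism

All comparisons are made through `RigidifiedLineBundle.pullbackAlong`; no casts along
equalities of structure morphisms are ever used.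
-/

set_option autoImplicit false
universe u
open CategoryTheory CategoryTheory.Limits AlgebraicGeometry AlgebraicGeometry.RelPicard
  NeronModelInfra GoodReductionJacobian

namespace Fermat.Agent.S25.H130

noncomputable section

variable {k : Type u} [Field k] {C : Scheme.{u}} {c : C ⟶ Spec (CommRingCat.of k)}
  {ε : SchemeHomOver (𝟙 (Spec (CommRingCat.of k))) c}

section RIso

variable {T : Scheme.{u}} {t : T ⟶ Spec (CommRingCat.of k)}

theorem rIso_refl (M : RigidifiedLineBundle c ε t) : RIso M M := ⟨Iso.refl _⟩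

theorem rIso_symm {M M' : RigidifiedLineBundle c ε t} (h : RIso M M') : RIso M' M :=
  ⟨h.some.symm⟩

theorem rIso_trans {M M' M'' : RigidifiedLineBundle c ε t} (h : RIso M M') (h' : RIso M' M'') :
    RIso M M'' :=
  ⟨h.some ≪≫ h'.some⟩

end RIso

section Pullback

variable {T T' T'' : Scheme.{u}} {t : T ⟶ Spec (CommRingCat.of k)}
  {t' : T' ⟶ Spec (CommRingCat.of k)} {t'' : T'' ⟶ Spec (CommRingCat.of k)}

/-- Pullback respects isomorphism. -/
theorem rIso_pullbackAlong {M M' : RigidifiedLineBundle c ε t} (h : RIso M M')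
    (ψ : SchemeHomOver t' t) : RIso (M.pullbackAlong ψ) (M'.pullbackAlong ψ) :=
  RigidifiedLineBundle.pullbackAlong_congr ψ h

/-- Pullback along a composite. -/
theorem rIso_pullbackAlong_comp (M : RigidifiedLineBundle c ε t) (ψ : SchemeHomOver t' t)
    (φ : SchemeHomOver t'' t') :
    RIso ((M.pullbackAlong ψ).pullbackAlong φ) (M.pullbackAlong (postComp ψ φ)) :=
  ⟨(Scheme.Modules.pullbackComp _ _).app M.L ≪≫
    (Scheme.Modules.pullbackCongr (baseChangeSnd_comp c ψ φ)).app M.L⟩

/-- Pullback along the identity. -/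
theorem rIso_pullbackAlong_id (M : RigidifiedLineBundle c ε t) (h : 𝟙 T ≫ t = t) :
    RIso (M.pullbackAlong (⟨𝟙 T, h⟩ : SchemeHomOver t t)) M :=
  ⟨(Scheme.Modules.pullbackCongr (baseChangeSnd_id c t)).app M.L ≪≫
    (Scheme.Modules.pullbackId (pullback c t)).app M.L⟩

/-- Pullback along morphisms with the same underlying morphism of schemes. -/
theorem rIso_pullbackAlong_of_eq (M : RigidifiedLineBundle c ε t) {ψ ψ' : SchemeHomOver t' t}
    (h : ψ.1 = ψ'.1) : RIso (M.pullbackAlong ψ) (M.pullbackAlong ψ') := by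
  obtain rfl : ψ = ψ' := Subtype.ext h
  exact rIso_refl _

/-- Two-step pullbacks along composites with the same underlying morphism agree. -/
theorem rIso_pullbackAlong_pullbackAlong {T₁ T₂ : Scheme.{u}}
    {t₁ : T₁ ⟶ Spec (CommRingCat.of k)} {t₂ : T₂ ⟶ Spec (CommRingCat.of k)}
    (M : RigidifiedLineBundle c ε t)
    (ψ₁ : SchemeHomOver t₁ t) (φ₁ : SchemeHomOver t'' t₁)
    (ψ₂ : SchemeHomOver t₂ t) (φ₂ : SchemeHomOver t'' t₂)
    (h : φ₁.1 ≫ ψ₁.1 = φ₂.1 ≫ ψ₂.1) :
    RIso ((M.pullbackAlong ψ₁).pullbackAlong φ₁) ((M.pullbackAlong ψ₂).pullbackAlong φ₂) :=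
  rIso_trans (rIso_pullbackAlong_comp M ψ₁ φ₁)
    (rIso_trans (rIso_pullbackAlong_of_eq M (ψ := postComp ψ₁ φ₁) (ψ' := postComp ψ₂ φ₂) h)
      (rIso_symm (rIso_pullbackAlong_comp M ψ₂ φ₂)))

/-- One-step versus two-step pullback. -/
theorem rIso_pullbackAlong_of_comp_eq {T₁ : Scheme.{u}}
    {t₁ : T₁ ⟶ Spec (CommRingCat.of k)}
    (M : RigidifiedLineBundle c ε t)
    (ψ₁ : SchemeHomOver t₁ t) (φ₁ : SchemeHomOver t'' t₁)
    (χ : SchemeHomOver t'' t)
    (h : φ₁.1 ≫ ψ₁.1 = χ.1) :
    RIso ((M.pullbackAlong ψ₁).pullbackAlong φ₁) (M.pullbackAlong χ) :=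
  rIso_trans (rIso_pullbackAlong_comp M ψ₁ φ₁)
    (rIso_pullbackAlong_of_eq M (ψ := postComp ψ₁ φ₁) (ψ' := χ) h)

/-- Degree zero is invariant under isomorphism. -/
theorem deg0_of_rIso {M M' : RigidifiedLineBundle c ε t} (h : RIso M M')
    (hM : FibrewiseAlgEquivZero M) : FibrewiseAlgEquivZero M' :=
  hM.congr h

/-- Degree zero is stable under pullback. -/
theorem deg0_pullbackAlong {M : RigidifiedLineBundle c ε t} (hM : FibrewiseAlgEquivZero M)
    (ψ : SchemeHomOver t' t) : FibrewiseAlgEquivZero (M.pullbackAlong ψ) :=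
  hM.pullback ψ

end Pullback

end

end Fermat.Agent.S25.H130

end
-- ===== PACK-END S25/H130/Basic.lean

-- ===== PACK-BEGIN S25/H551/AlgDefCore.lean
section



/-!
# S25 / block ALGDEF, core lemmas (helper551)

`R → S` surjective with nil kernel.

* `exists_invertible_isBaseChange` : an invertible `S`-module `Q` is a base change of an
  invertible `R`-module `P` (in `IsBaseChange` form).
* `exists_linearEquiv_of_isBaseChange` : two finite projective `R`-modules with the same base
  change are isomorphic, compatibly with the base change maps.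
-/

set_option autoImplicit false

open TensorProduct

universe u

namespace Fermat.Agent.S25.H551

section Core

variable {R S : Type u} [CommRing R] [CommRing S] [Algebra R S]

/-- Invertible modules lift along a surjection with nil kernel, `IsBaseChange` form. -/
theorem exists_invertible_isBaseChange (hsurj : Function.Surjective (algebraMap R S))
    (hnil : ∀ x ∈ RingHom.ker (algebraMap R S), IsNilpotent x)
    (Q : Type u) [AddCommGroup Q] [Module S Q] [Module R Q] [IsScalarTower R S Q]
    [Module.Invertible S Q] :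
    ∃ (P : Type u) (_ : AddCommGroup P) (_ : Module R P) (_ : Module.Invertible R P)
      (f : P →ₗ[R] Q), IsBaseChange S f := by
  obtain ⟨P, hP1, hP2, hP3, ⟨φ⟩⟩ := H971.exists_invertible_lift hsurj hnil Q
  refine ⟨P, hP1, hP2, hP3,
    (φ.restrictScalars R).toLinearMap ∘ₗ TensorProduct.mk R S P 1, ?_⟩
  exact IsBaseChange.of_equiv φ (fun x => rfl)

/-- Finite projective modules with the same base change along a surjection with nil kernel
are isomorphic, compatibly with the base change maps. -/
theorem exists_linearEquiv_of_isBaseChange (hsurj : Function.Surjective (algebraMap R S))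
    (hnil : ∀ x ∈ RingHom.ker (algebraMap R S), IsNilpotent x)
    {P P' N : Type u} [AddCommGroup P] [Module R P] [AddCommGroup P'] [Module R P']
    [Module.Finite R P] [Module.Projective R P] [Module.Finite R P'] [Module.Projective R P']
    [AddCommGroup N] [Module S N] [Module R N] [IsScalarTower R S N]
    {f : P →ₗ[R] N} {f' : P' →ₗ[R] N} (hf : IsBaseChange S f) (hf' : IsBaseChange S f') :
    ∃ ψ : P ≃ₗ[R] P', ∀ x, f' (ψ x) = f x := by
  obtain ⟨ψ, hψ⟩ := H971.exists_linearEquiv_lift hsurj hnil (hf.equiv ≪≫ₗ hf'.equiv.symm)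
  refine ⟨ψ, fun x => ?_⟩
  have h := hψ x
  rw [LinearEquiv.trans_apply, LinearEquiv.symm_apply_eq, IsBaseChange.equiv_tmul,
    IsBaseChange.equiv_tmul, one_smul, one_smul] at h
  exact h.symm

end Core

end Fermat.Agent.S25.H551

end
-- ===== PACK-END S25/H551/AlgDefCore.lean

-- ===== PACK-BEGIN S25/H265/GDCSemi.lean
section


/-!
# S25 / helper265, block GDC (gluing-datum calculus), part 1: semilinear base change

The frozen predicate `IsSemilinearBaseChange ρ b` (DefsAlg) is characterised by a universal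
property that does not mention any auxiliary instance (`SemiUP`), and the usual calculus is
derived: identity, composition, cancellation, uniqueness, transport along equivalences.
-/

set_option autoImplicit false
set_option linter.style.haveILetI false

universe u

namespace Fermat.Agent.S25.H265

open Fermat.Agent.S25

section Semi

variable {R R' : Type u} [CommRing R] [CommRing R'] (ρ : R →+* R')
    {N N' : Type u} [AddCommGroup N] [Module R N] [AddCommGroup N'] [Module R' N']

/-- Universal property of a semilinear base change. -/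
def SemiUP (b : N →ₛₗ[ρ] N') : Prop :=
  ∀ (Q : Type u) [AddCommMonoid Q] [Module R' Q] (g : N →ₛₗ[ρ] Q),
    ∃! g' : N' →ₗ[R'] Q, ∀ n, g' (b n) = g n

theorem semiUP_of_isSemilinearBaseChange (b : N →ₛₗ[ρ] N')
    (h : IsSemilinearBaseChange ρ b) : SemiUP ρ b := by
  intro Q _ _ g
  letI : Algebra R R' := ρ.toAlgebra
  letI : Module R N' := Module.compHom N' ρ
  haveI : IsScalarTower R R' N' := ⟨fun r r' n => by
    change (ρ r * r') • n = ρ r • (r' • n); rw [mul_smul]⟩
  letI : Module R Q := Module.compHom Q ρ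
  haveI : IsScalarTower R R' Q := ⟨fun r r' n => by
    change (ρ r * r') • n = ρ r • (r' • n); rw [mul_smul]⟩
  let f : N →ₗ[R] N' :=
    { toFun := fun n => b n
      map_add' := fun m n => b.map_add m n
      map_smul' := fun r n => LinearMap.map_smulₛₗ b r n }
  have hf : IsBaseChange R' f := h
  let g₀ : N →ₗ[R] Q :=
    { toFun := fun n => g n
      map_add' := fun m n => g.map_add m n
      map_smul' := fun r n => LinearMap.map_smulₛₗ g r n }
  refine ⟨hf.lift g₀, fun n => hf.lift_eq g₀ n, fun g' hg' => ?_⟩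
  exact hf.algHom_ext _ _ (fun n => (hg' n).trans (hf.lift_eq g₀ n).symm)

theorem isSemilinearBaseChange_of_semiUP (b : N →ₛₗ[ρ] N') (h : SemiUP ρ b) :
    IsSemilinearBaseChange ρ b := by
  letI : Algebra R R' := ρ.toAlgebra
  letI : Module R N' := Module.compHom N' ρ
  haveI : IsScalarTower R R' N' := ⟨fun r r' n => by
    change (ρ r * r') • n = ρ r • (r' • n); rw [mul_smul]⟩
  let f : N →ₗ[R] N' :=
    { toFun := fun n => b n
      map_add' := fun m n => b.map_add m n
      map_smul' := fun r n => LinearMap.map_smulₛₗ b r n }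
  change IsBaseChange R' f
  apply IsBaseChange.of_lift_unique
  intro Q _ _ _ _ g
  have hsm : ∀ (r : R) (q : Q), r • q = ρ r • q := fun r q => by
    have := smul_assoc r (1 : R') q
    rw [one_smul] at this
    rw [← this]
    congr 1
    change ρ r * 1 = ρ r
    rw [mul_one]
  let g₁ : N →ₛₗ[ρ] Q :=
    { toFun := fun n => g n
      map_add' := fun m n => g.map_add m n
      map_smul' := fun r n => by
        change g (r • n) = ρ r • g n
        rw [g.map_smul, hsm] }
  obtain ⟨g', hg', huniq⟩ := h Q g₁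
  refine ⟨g', ?_, fun y hy => huniq y (fun n => ?_)⟩
  · ext n
    exact hg' n
  · exact LinearMap.congr_fun hy n

theorem isSemilinearBaseChange_iff_semiUP (b : N →ₛₗ[ρ] N') :
    IsSemilinearBaseChange ρ b ↔ SemiUP ρ b :=
  ⟨semiUP_of_isSemilinearBaseChange ρ b, isSemilinearBaseChange_of_semiUP ρ b⟩

/-- Generalised universal property: semilinear maps out of a semilinear base change. -/
theorem SemiUP.existsUnique {ρ : R →+* R'} {b : N →ₛₗ[ρ] N'} (h : SemiUP ρ b)
    {R'' : Type u} [CommRing R''] (σ : R' →+* R'') (τ : R →+* R'') [RingHomCompTriple ρ σ τ]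
    (Q : Type u) [AddCommMonoid Q] [Module R'' Q] (g : N →ₛₗ[τ] Q) :
    ∃! g' : N' →ₛₗ[σ] Q, ∀ n, g' (b n) = g n := by
  letI : Module R' Q := Module.compHom Q σ
  have hτ : ∀ r, τ r = σ (ρ r) := fun r => (RingHomCompTriple.comp_apply (σ₁₂ := ρ)).symm
  let g₁ : N →ₛₗ[ρ] Q :=
    { toFun := fun n => g n
      map_add' := fun m n => g.map_add m n
      map_smul' := fun r n => by
        change g (r • n) = σ (ρ r) • g n
        rw [LinearMap.map_smulₛₗ, hτ] }
  obtain ⟨g', hg', huniq⟩ := h Q g₁
  let g'' : N' →ₛₗ[σ] Q :=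
    { toFun := fun n => g' n
      map_add' := fun m n => g'.map_add m n
      map_smul' := fun r n => by
        change g' (r • n) = σ r • g' n
        rw [g'.map_smul]
        rfl }
  refine ⟨g'', hg', fun y hy => ?_⟩
  let y' : N' →ₗ[R'] Q :=
    { toFun := fun n => y n
      map_add' := fun m n => y.map_add m n
      map_smul' := fun r n => by
        change y (r • n) = σ r • y n
        rw [LinearMap.map_smulₛₗ] }
  have := huniq y' hy
  ext n
  exact LinearMap.congr_fun this n

/-- Two semilinear maps out of a semilinear base change agreeing on the image agree. -/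
theorem SemiUP.hom_ext {ρ : R →+* R'} {b : N →ₛₗ[ρ] N'} (h : SemiUP ρ b)
    {R'' : Type u} [CommRing R''] (σ : R' →+* R'')
    {Q : Type u} [AddCommMonoid Q] [Module R'' Q] (g₁ g₂ : N' →ₛₗ[σ] Q)
    (hg : ∀ n, g₁ (b n) = g₂ (b n)) : g₁ = g₂ := by
  haveI : RingHomCompTriple ρ σ (σ.comp ρ) := ⟨rfl⟩
  obtain ⟨g', -, huniq⟩ := h.existsUnique σ (σ.comp ρ) Q (g₂.comp b)
  rw [huniq g₁ (fun n => hg n), huniq g₂ (fun n => rfl)]

/-- Function-level extensionality: two additive maps out of a semilinear base change which are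
both semilinear over the same ring map and agree on the image agree. -/
theorem SemiUP.funext {ρ : R →+* R'} {b : N →ₛₗ[ρ] N'} (h : SemiUP ρ b)
    {R'' : Type u} [CommRing R''] (σ : R' →+* R'')
    {Q : Type u} [AddCommMonoid Q] [Module R'' Q] (g₁ g₂ : N' → Q)
    (hadd₁ : ∀ x y, g₁ (x + y) = g₁ x + g₁ y) (hsmul₁ : ∀ r x, g₁ (r • x) = σ r • g₁ x)
    (hadd₂ : ∀ x y, g₂ (x + y) = g₂ x + g₂ y) (hsmul₂ : ∀ r x, g₂ (r • x) = σ r • g₂ x)
    (hg : ∀ n, g₁ (b n) = g₂ (b n)) (n' : N') : g₁ n' = g₂ n' := by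
  let G₁ : N' →ₛₗ[σ] Q := { toFun := g₁, map_add' := hadd₁, map_smul' := hsmul₁ }
  let G₂ : N' →ₛₗ[σ] Q := { toFun := g₂, map_add' := hadd₂, map_smul' := hsmul₂ }
  have : G₁ = G₂ := h.hom_ext σ G₁ G₂ hg
  exact LinearMap.congr_fun this n'

/-- Function-level existence: an additive map `g : N → Q` that is semilinear over `σ ∘ ρ`
factors through a `σ`-semilinear map on the base change. -/
theorem SemiUP.exists_lift {ρ : R →+* R'} {b : N →ₛₗ[ρ] N'} (h : SemiUP ρ b)
    {R'' : Type u} [CommRing R''] (σ : R' →+* R'')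
    {Q : Type u} [AddCommMonoid Q] [Module R'' Q] (g : N → Q)
    (hadd : ∀ x y, g (x + y) = g x + g y) (hsmul : ∀ r x, g (r • x) = σ (ρ r) • g x) :
    ∃ g' : N' →ₛₗ[σ] Q, ∀ n, g' (b n) = g n := by
  haveI : RingHomCompTriple ρ σ (σ.comp ρ) := ⟨rfl⟩
  let G : N →ₛₗ[σ.comp ρ] Q := { toFun := g, map_add' := hadd, map_smul' := hsmul }
  obtain ⟨g', hg', -⟩ := h.existsUnique σ (σ.comp ρ) Q G
  exact ⟨g', hg'⟩

/-- The identity is a base change along the identity. -/
theorem semiUP_id : SemiUP (RingHom.id R) (LinearMap.id : N →ₗ[R] N) := by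
  intro Q _ _ g
  exact ⟨g, fun _ => rfl, fun y hy => LinearMap.ext hy⟩

/-- A linear equivalence is a base change along the identity. -/
theorem semiUP_equiv {N₂ : Type u} [AddCommGroup N₂] [Module R N₂] (e : N ≃ₗ[R] N₂) :
    SemiUP (RingHom.id R) (e : N →ₗ[R] N₂) := by
  intro Q _ _ g
  refine ⟨g.comp (e.symm : N₂ →ₗ[R] N), fun n => by simp, fun y hy => ?_⟩
  ext n
  have := hy (e.symm n)
  simpa using this

end Semi

section Comp

variable {R R' R'' : Type u} [CommRing R] [CommRing R'] [CommRing R'']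
    {ρ : R →+* R'} {σ : R' →+* R''} {τ : R →+* R''} [RingHomCompTriple ρ σ τ]
    {N N' N'' : Type u} [AddCommGroup N] [Module R N] [AddCommGroup N'] [Module R' N']
    [AddCommGroup N''] [Module R'' N'']

/-- Composition of semilinear base changes. -/
theorem SemiUP.comp {b : N →ₛₗ[ρ] N'} {b' : N' →ₛₗ[σ] N''} (h : SemiUP ρ b)
    (h' : SemiUP σ b') : SemiUP τ (b'.comp b : N →ₛₗ[τ] N'') := by
  intro Q _ _ g
  obtain ⟨g₁, hg₁, -⟩ := h.existsUnique σ τ Q g
  obtain ⟨g₂, hg₂, huniq₂⟩ := h' Q g₁
  refine ⟨g₂, fun n => by rw [LinearMap.comp_apply, hg₂, hg₁], fun y hy => ?_⟩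
  apply huniq₂
  intro n'
  have : (y : N'' →ₗ[R''] Q).comp b' = g₁ := by
    apply h.hom_ext σ
    intro n
    rw [hg₁]
    exact hy n
  exact LinearMap.congr_fun this n'

/-- Cancellation: if `b` and `b' ∘ b` are base changes, so is `b'`. -/
theorem SemiUP.of_comp {b : N →ₛₗ[ρ] N'} {b' : N' →ₛₗ[σ] N''} (h : SemiUP ρ b)
    (hc : SemiUP τ (b'.comp b : N →ₛₗ[τ] N'')) : SemiUP σ b' := by
  intro Q _ _ g
  obtain ⟨g₂, hg₂, huniq₂⟩ := hc Q (g.comp b)
  refine ⟨g₂, ?_, fun y hy => ?_⟩
  · have : (g₂ : N'' →ₗ[R''] Q).comp b' = g := by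
      apply h.hom_ext σ
      intro n
      exact hg₂ n
    exact fun n' => LinearMap.congr_fun this n'
  · apply huniq₂
    intro n
    rw [LinearMap.comp_apply, LinearMap.comp_apply, hy]

end Comp

section Uniq

variable {R R' : Type u} [CommRing R] [CommRing R'] {ρ : R →+* R'}
    {N N' N'' : Type u} [AddCommGroup N] [Module R N] [AddCommGroup N'] [Module R' N']
    [AddCommGroup N''] [Module R' N'']

/-- Two base changes of the same module along the same ring map are canonically isomorphic. -/
theorem SemiUP.exists_equiv {b : N →ₛₗ[ρ] N'} {b' : N →ₛₗ[ρ] N''} (h : SemiUP ρ b)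
    (h' : SemiUP ρ b') : ∃ e : N' ≃ₗ[R'] N'', ∀ n, e (b n) = b' n := by
  obtain ⟨f, hf, -⟩ := h N'' b'
  obtain ⟨g, hg, -⟩ := h' N' b
  have hgf : g.comp f = LinearMap.id := by
    apply h.hom_ext (RingHom.id R')
    intro n
    simp [hf, hg]
  have hfg : f.comp g = LinearMap.id := by
    apply h'.hom_ext (RingHom.id R')
    intro n
    simp [hf, hg]
  exact ⟨LinearEquiv.ofLinearMap f g hfg hgf, hf⟩

/-- Post-composing a base change with a linear equivalence gives a base change. -/
theorem SemiUP.comp_equiv {b : N →ₛₗ[ρ] N'} (h : SemiUP ρ b) (e : N' ≃ₗ[R'] N'') :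
    SemiUP ρ ((e : N' →ₗ[R'] N'').comp b) :=
  h.comp (semiUP_equiv e)

/-- Pre-composing a base change with a linear equivalence gives a base change. -/
theorem SemiUP.equiv_comp {N₂ : Type u} [AddCommGroup N₂] [Module R N₂] {b : N →ₛₗ[ρ] N'}
    (h : SemiUP ρ b) (e : N₂ ≃ₗ[R] N) : SemiUP ρ (b.comp (e : N₂ →ₗ[R] N)) :=
  (semiUP_equiv e).comp h

end Uniq

end Fermat.Agent.S25.H265

end
-- ===== PACK-END S25/H265/GDCSemi.lean

-- ===== PACK-BEGIN S25/H505/SectionBC.lean
section
/-
S25, dictionary core (helper505): for `f : Y ⟶ X`, `M` quasi-coherent on `X` and affine opens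
`V ≤ f ⁻¹ᵁ U`, the canonical map `Γ(M, U) → Γ(f^* M, V)` is a base change along
`Γ(X, U) → Γ(Y, V)` (`secMap_isBC`).
-/




open CategoryTheory AlgebraicGeometry Opposite TopologicalSpace

universe u

namespace Fermat.Agent.S25.H505

section SpecCase

variable {R S : CommRingCat.{u}} (φ : R ⟶ S) (N : ModuleCat.{u} R)

theorem unit_compat :
    ((tilde.adjunction (R := R)).comp
      (Scheme.Modules.pullbackPushforwardAdjunction (Spec.map φ))).unit.app N ≫
      (Scheme.Modules.pushforward (Spec.map φ) ⋙ moduleSpecΓFunctor).map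
        ((tildeCompPullbackIso φ).hom.app N) =
    (((ModuleCat.extendRestrictScalarsAdj φ.hom).comp (tilde.adjunction (R := S))).ofNatIsoRight
      (pushforwardCompΓIso φ).symm).unit.app N :=
  Adjunction.unit_leftAdjointUniq_hom_app _ _ N

theorem unit_compat_apply (n : N) :
    ((pullbackTildeIso φ N).hom.app ⊤)
      (unitSec (Spec.map φ) (tilde N) ⊤ ((tilde.toOpen N ⊤).hom n)) =
    (tilde.toOpen ((ModuleCat.extendScalars φ.hom).obj N) ⊤).hom
      (((ModuleCat.extendRestrictScalarsAdj φ.hom).unit.app N).hom n) := by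
  have h := unit_compat φ N
  have h' := congr(($h).hom n)
  simp only [Adjunction.comp_unit_app, Adjunction.ofNatIsoRight_unit, NatTrans.comp_app,
    Functor.whiskerLeft_app] at h'
  exact h'

/-- `N → Γ(tilde N, ⊤)` as an additive map -/
noncomputable def tildeTop (N : ModuleCat.{u} R) : N →+ Γ(tilde N, ⊤) :=
  (tilde.toOpen N ⊤).hom.toAddMonoidHom

theorem tildeTop_bijective : Function.Bijective (tildeTop N) :=
  ConcreteCategory.bijective_of_isIso (tilde.toOpen N ⊤)

theorem tildeTop_isSL : IsSL (Scheme.ΓSpecIso R).inv.hom (tildeTop N) := fun r n => by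
  have h1 : (tilde.toOpen N ⊤).hom (r • n) = r • (tilde.toOpen N ⊤).hom n :=
    (tilde.toOpen N ⊤).hom.map_smul r n
  refine h1.trans ?_
  erw [Scheme.Modules.smul_Spec_def]

/-- the unit `N → S ⊗[R] N` of extension of scalars, as an additive map -/
noncomputable def extUnit : N →+ ((ModuleCat.extendScalars φ.hom).obj N) :=
  ((ModuleCat.extendRestrictScalarsAdj φ.hom).unit.app N).hom.toAddMonoidHom

theorem extUnit_isBC : IsBC φ.hom (extUnit φ N) := by
  let _ : Algebra R S := φ.hom.toAlgebra
  have h := isBC_of_isBaseChange (TensorProduct.mk R S N 1) (TensorProduct.isBaseChange R N S)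
  exact h

/-- The unit on global sections `Γ(tilde N, ⊤) → Γ(f^* (tilde N), ⊤)` for `f = Spec.map φ`
is a base change along `Γ(Spec R, ⊤) → Γ(Spec S, ⊤)`. -/
theorem unitSec_tilde_isBC :
    IsBC ((Spec.map φ).app ⊤).hom (unitSec (Spec.map φ) (tilde N) ⊤).hom := by
  have hιR : Function.Bijective (Scheme.ΓSpecIso R).inv.hom :=
    ConcreteCategory.bijective_of_isIso (Scheme.ΓSpecIso R).inv
  have hιS : Function.Bijective (Scheme.ΓSpecIso S).inv.hom :=
    ConcreteCategory.bijective_of_isIso (Scheme.ΓSpecIso S).inv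
  have hsl : IsSL ((Spec.map φ).app ⊤).hom (unitSec (Spec.map φ) (tilde N) ⊤).hom :=
    fun r s => unitSec_smul (Spec.map φ) (tilde N) ⊤ r s
  have h1 : IsBC ((Scheme.ΓSpecIso S).inv.hom.comp φ.hom)
      ((tildeTop ((ModuleCat.extendScalars φ.hom).obj N)).comp (extUnit φ N)) :=
    (extUnit_isBC φ N).comp (isBC_of_bijective (tildeTop_isSL _) hιS (tildeTop_bijective _))
  have hθsl : IsSL (RingHom.id Γ(Spec S, ⊤))
      ((pullbackTildeIso φ N).hom.app ⊤).hom := fun r s =>
    Scheme.Modules.Hom.app_smul _ r s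
  have hθbij : Function.Bijective ((pullbackTildeIso φ N).hom.app ⊤).hom :=
    ConcreteCategory.bijective_of_isIso ((pullbackTildeIso φ N).hom.app ⊤)
  have hring : ∀ r, ((Scheme.ΓSpecIso S).inv.hom.comp φ.hom) r =
      ((RingHom.id Γ(Spec S, ⊤)).comp
        (((Spec.map φ).app ⊤).hom.comp (Scheme.ΓSpecIso R).inv.hom)) r := fun r => by
    have := Scheme.ΓSpecIso_inv_naturality φ
    exact congr($this r)
  have h2 : IsBC ((RingHom.id Γ(Spec S, ⊤)).comp
        (((Spec.map φ).app ⊤).hom.comp (Scheme.ΓSpecIso R).inv.hom))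
      (((pullbackTildeIso φ N).hom.app ⊤).hom.comp
        ((unitSec (Spec.map φ) (tilde N) ⊤).hom.comp (tildeTop N))) :=
    h1.congr hring (fun n => (unit_compat_apply φ N n).symm)
  have h3 : IsBC (((Spec.map φ).app ⊤).hom.comp (Scheme.ΓSpecIso R).inv.hom)
      ((unitSec (Spec.map φ) (tilde N) ⊤).hom.comp (tildeTop N)) :=
    IsBC.of_comp_bijective ((tildeTop_isSL N).comp hsl) hθsl Function.bijective_id hθbij h2
  exact IsBC.of_comp (isBC_of_bijective (tildeTop_isSL N) hιR (tildeTop_bijective N)) hsl h3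


/-- The same for any quasi-coherent module on `Spec R`. -/
theorem unitSec_isBC_of_isIso_fromTildeΓ (F : (Spec R).Modules) [IsIso F.fromTildeΓ] :
    IsBC ((Spec.map φ).app ⊤).hom (unitSec (Spec.map φ) F ⊤).hom := by
  let N : ModuleCat.{u} R := (modulesSpecToSheaf.obj F).presheaf.obj (.op ⊤)
  let i : tilde N ≅ F := asIso F.fromTildeΓ
  refine (unitSec_tilde_isBC φ N).of_square
    (α := RingHom.id _) (β := RingHom.id _)
    (a := (i.hom.app ⊤).hom) (b := (((Scheme.Modules.pullback (Spec.map φ)).map i.hom).app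
      ((Spec.map φ) ⁻¹ᵁ ⊤)).hom)
    (fun r s => unitSec_smul (Spec.map φ) F ⊤ r s)
    (fun r s => Scheme.Modules.Hom.app_smul _ r s)
    (fun r s => Scheme.Modules.Hom.app_smul _ r s)
    Function.bijective_id Function.bijective_id
    (ConcreteCategory.bijective_of_isIso (i.hom.app ⊤))
    (ConcreteCategory.bijective_of_isIso
      (((Scheme.Modules.pullback (Spec.map φ)).map i.hom).app ((Spec.map φ) ⁻¹ᵁ ⊤)))
    (fun r => rfl)
    (fun n => (unitSec_naturality (Spec.map φ) i.hom ⊤ n).symm)

end SpecCase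

section General

variable {X Y : Scheme.{u}}

theorem isQuasicoherent_pullback_of_isOpenImmersion (j : Y ⟶ X) [IsOpenImmersion j]
    (M : X.Modules) [M.IsQuasicoherent] :
    ((Scheme.Modules.pullback j).obj M).IsQuasicoherent :=
  (SheafOfModules.isQuasicoherent.{u, u, u} Y.ringCatSheaf).prop_of_iso
    ((Scheme.Modules.restrictFunctorIsoPullback j).app M) inferInstance

/-- **Sections of a pullback over affine opens are a base change.**  For `f : Y ⟶ X`, a
quasi-coherent module `M` on `X` and affine opens `V ≤ f ⁻¹ᵁ U`, the canonical map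
`Γ(M, U) → Γ(f^* M, V)` is a base change along `Γ(X, U) → Γ(Y, V)`. -/
theorem secMap_isBC (f : Y ⟶ X) (M : X.Modules) [M.IsQuasicoherent] {U : X.Opens}
    (hU : IsAffineOpen U) {V : Y.Opens} (hV : IsAffineOpen V) (h : V ≤ f ⁻¹ᵁ U) :
    IsBC (f.appLE U V h).hom (secMap f M h).hom := by
  have fac : Spec.map (f.appLE U V h) ≫ hU.fromSpec = hV.fromSpec ≫ f :=
    IsAffineOpen.SpecMap_appLE_fromSpec f hU hV h
  have : ((Scheme.Modules.pullback hU.fromSpec).obj M).IsQuasicoherent :=
    isQuasicoherent_pullback_of_isOpenImmersion hU.fromSpec M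
  have : IsIso ((Scheme.Modules.pullback hU.fromSpec).obj M).fromTildeΓ :=
    Scheme.Modules.isIso_fromTildeΓ_of_isQuasicoherent _
  -- the four maps
  have hA_le : (⊤ : (Spec Γ(X, U)).Opens) ≤ hU.fromSpec ⁻¹ᵁ U := by
    rw [hU.fromSpec_preimage_self]
  have hA_ge : U ≤ hU.fromSpec ''ᵁ ⊤ := by
    rw [Scheme.Hom.image_top_eq_opensRange, hU.opensRange_fromSpec]
  have hD_le : (⊤ : (Spec Γ(Y, V)).Opens) ≤ hV.fromSpec ⁻¹ᵁ V := by
    rw [hV.fromSpec_preimage_self]
  have hD_ge : V ≤ hV.fromSpec ''ᵁ ⊤ := by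
    rw [Scheme.Hom.image_top_eq_opensRange, hV.opensRange_fromSpec]
  have hB_le : (⊤ : (Spec Γ(Y, V)).Opens) ≤ Spec.map (f.appLE U V h) ⁻¹ᵁ ⊤ := le_rfl
  have hB : IsBC ((Spec.map (f.appLE U V h)).appLE ⊤ ⊤ hB_le).hom
      (secMap (Spec.map (f.appLE U V h)) ((Scheme.Modules.pullback hU.fromSpec).obj M)
        hB_le).hom :=
    (unitSec_isBC_of_isIso_fromTildeΓ (f.appLE U V h)
      ((Scheme.Modules.pullback hU.fromSpec).obj M)).congr
      (fun r => by
        have : (Spec.map (f.appLE U V h)).appLE ⊤ ⊤ hB_le =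
            (Spec.map (f.appLE U V h)).app ⊤ := Scheme.Hom.appLE_eq_app _
        rw [this]; rfl)
      (fun n => (presheaf_map_self _ _ _).symm)
  -- semilinear bijections `A` and `D`
  have hAsl : IsSL (hU.fromSpec.appLE U ⊤ hA_le).hom (secMap hU.fromSpec M hA_le).hom :=
    fun r s => secMap_smul hU.fromSpec M hA_le r s
  have hAbij := secMap_bijective_of_isOpenImmersion hU.fromSpec M hA_le hA_ge
  have hαbij := appLE_bijective_of_isOpenImmersion hU.fromSpec hA_le hA_ge
  have hDsl : IsSL (hV.fromSpec.appLE V ⊤ hD_le).hom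
      (secMap hV.fromSpec ((Scheme.Modules.pullback f).obj M) hD_le).hom :=
    fun r s => secMap_smul hV.fromSpec _ hD_le r s
  have hDbij := secMap_bijective_of_isOpenImmersion hV.fromSpec
    ((Scheme.Modules.pullback f).obj M) hD_le hD_ge
  have hβbij := appLE_bijective_of_isOpenImmersion hV.fromSpec hD_le hD_ge
  -- the comparison isomorphism
  let Ψ : (Scheme.Modules.pullback (Spec.map (f.appLE U V h))).obj
        ((Scheme.Modules.pullback hU.fromSpec).obj M) ≅
      (Scheme.Modules.pullback hV.fromSpec).obj ((Scheme.Modules.pullback f).obj M) :=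
    (Scheme.Modules.pullbackComp _ _).app M ≪≫ (Scheme.Modules.pullbackCongr fac).app M ≪≫
      ((Scheme.Modules.pullbackComp _ _).app M).symm
  have hW₁ : (⊤ : (Spec Γ(Y, V)).Opens) ≤ (Spec.map (f.appLE U V h) ≫ hU.fromSpec) ⁻¹ᵁ U :=
    hB_le.trans ((Spec.map (f.appLE U V h)).preimage_mono hA_le)
  have hW₂ : (⊤ : (Spec Γ(Y, V)).Opens) ≤ (hV.fromSpec ≫ f) ⁻¹ᵁ U :=
    hD_le.trans (hV.fromSpec.preimage_mono h)
  have hsq : ∀ s : Γ(M, U),
      secMap (Spec.map (f.appLE U V h)) ((Scheme.Modules.pullback hU.fromSpec).obj M) hB_le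
        (secMap hU.fromSpec M hA_le s) =
      (Ψ.inv.app ⊤) (secMap hV.fromSpec ((Scheme.Modules.pullback f).obj M) hD_le
        (secMap f M h s)) := by
    intro s
    rw [secMap_comp_apply (Spec.map (f.appLE U V h)) hU.fromSpec M hA_le hB_le hW₁,
      secMap_comp_apply hV.fromSpec f M h hD_le hW₂,
      ← secMap_congr_apply fac M hW₁ hW₂]
    have key : ((Scheme.Modules.pullbackCongr fac).hom.app M ≫
        (Scheme.Modules.pullbackComp hV.fromSpec f).inv.app M) ≫ Ψ.inv =
        (Scheme.Modules.pullbackComp (Spec.map (f.appLE U V h)) hU.fromSpec).inv.app M := by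
      simp [Ψ]
    exact congr((Scheme.Modules.Hom.app $key ⊤) _).symm
  have hring : ∀ r : Γ(X, U),
      ((Spec.map (f.appLE U V h)).appLE ⊤ ⊤ hB_le).hom ((hU.fromSpec.appLE U ⊤ hA_le).hom r) =
      (hV.fromSpec.appLE V ⊤ hD_le).hom ((f.appLE U V h).hom r) := by
    intro r
    have h1 := Scheme.Hom.appLE_comp_appLE (Spec.map (f.appLE U V h)) hU.fromSpec U ⊤ ⊤
      hA_le hB_le
    have h2 := Scheme.Hom.appLE_comp_appLE hV.fromSpec f U V ⊤ h hD_le
    have h3 : ∀ {g g' : Spec Γ(Y, V) ⟶ X} (e : g = g') (a : ⊤ ≤ g ⁻¹ᵁ U) (b : ⊤ ≤ g' ⁻¹ᵁ U),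
        g.appLE U ⊤ a = g'.appLE U ⊤ b := by
      intro g g' e a b
      subst e
      rfl
    have h4 := h1.trans ((h3 fac _ _).trans h2.symm)
    exact congr($h4 r)
  exact IsBC.of_square' hB (fun r s => secMap_smul f M h r s) hAsl
    (b := (Ψ.inv.app ⊤).hom.comp (secMap hV.fromSpec ((Scheme.Modules.pullback f).obj M) hD_le).hom)
    (fun r s => by
      change (Ψ.inv.app ⊤) (secMap hV.fromSpec ((Scheme.Modules.pullback f).obj M) hD_le (r • s))
        = _
      rw [secMap_smul, Scheme.Modules.Hom.app_smul]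
      rfl)
    hαbij hβbij hAbij
    ((ConcreteCategory.bijective_of_isIso (Ψ.inv.app ⊤)).comp hDbij)
    hring hsq

end General

end Fermat.Agent.S25.H505

end
-- ===== PACK-END S25/H505/SectionBC.lean

-- ===== PACK-BEGIN S25/H611/BaseChange.lean
section



/-!
# Base change of the diagonal ideal (helper611, S25/HILB/H3)

If the diagonal ideal of `B` over `k` is an invertible `B ⊗[k] B`-module and `A` is a flat
`k`-algebra, then the diagonal ideal of `A ⊗[k] B` over `A` is invertible.
-/

namespace Fermat.Agent.S25.H611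

open scoped TensorProduct

section BaseChange

variable (k A B : Type*) [CommRing k] [CommRing A] [CommRing B] [Algebra k A] [Algebra k B]

/-- `φ : B ⊗[k] B → (A ⊗[k] B) ⊗[A] (A ⊗[k] B)`, `b ⊗ b' ↦ (1 ⊗ b) ⊗ (1 ⊗ b')`. -/
noncomputable def diagPhi : (B ⊗[k] B) →ₐ[k] ((A ⊗[k] B) ⊗[A] (A ⊗[k] B)) :=
  Algebra.TensorProduct.lift
    (((Algebra.TensorProduct.includeLeft :
        (A ⊗[k] B) →ₐ[A] (A ⊗[k] B) ⊗[A] (A ⊗[k] B)).restrictScalars k).comp
      (Algebra.TensorProduct.includeRight : B →ₐ[k] A ⊗[k] B))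
    (((Algebra.TensorProduct.includeRight :
        (A ⊗[k] B) →ₐ[A] (A ⊗[k] B) ⊗[A] (A ⊗[k] B)).restrictScalars k).comp
      (Algebra.TensorProduct.includeRight : B →ₐ[k] A ⊗[k] B))
    (fun _ _ => Commute.all _ _)

@[simp]
theorem diagPhi_tmul (b b' : B) :
    diagPhi k A B (b ⊗ₜ[k] b') =
      ((1 : A) ⊗ₜ[k] b) ⊗ₜ[A] ((1 : A) ⊗ₜ[k] b') := by
  simp [diagPhi]

/-- `a • φ s` as a linear equivalence `A ⊗[k] (B ⊗[k] B) ≃ (A ⊗[k] B) ⊗[A] (A ⊗[k] B)`. -/
theorem distrib_one_tmul (s : B ⊗[k] B) :
    TensorProduct.AlgebraTensorModule.distribBaseChange k A B B ((1 : A) ⊗ₜ[k] s) =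
      diagPhi k A B s := by
  induction s using TensorProduct.induction_on with
  | zero => simp
  | tmul b b' => simp
  | add x y hx hy => rw [TensorProduct.tmul_add, map_add, hx, hy, map_add]

theorem distrib_tmul (a : A) (s : B ⊗[k] B) :
    TensorProduct.AlgebraTensorModule.distribBaseChange k A B B (a ⊗ₜ[k] s) =
      a • diagPhi k A B s := by
  rw [← distrib_one_tmul, ← map_smul, TensorProduct.smul_tmul', smul_eq_mul, mul_one]

theorem lmul'_diagPhi (s : B ⊗[k] B) :
    Algebra.TensorProduct.lmul' A (diagPhi k A B s) =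
      (1 : A) ⊗ₜ[k] (Algebra.TensorProduct.lmul' k s) := by
  induction s using TensorProduct.induction_on with
  | zero => simp
  | tmul b b' => simp
  | add x y hx hy => rw [map_add, map_add, hx, hy, map_add, TensorProduct.tmul_add]

theorem map_diagPhi_le :
    (KaehlerDifferential.ideal k B).map (diagPhi k A B) ≤
      KaehlerDifferential.ideal A (A ⊗[k] B) := by
  rw [Ideal.map_le_iff_le_comap]
  intro s hs
  rw [Ideal.mem_comap, RingHom.mem_ker, lmul'_diagPhi, RingHom.mem_ker.mp hs,
    TensorProduct.tmul_zero]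

theorem ideal_le_map_diagPhi :
    KaehlerDifferential.ideal A (A ⊗[k] B) ≤
      (KaehlerDifferential.ideal k B).map (diagPhi k A B) := by
  rw [← KaehlerDifferential.span_range_eq_ideal, Ideal.span_le]
  rintro _ ⟨r, rfl⟩
  induction r using TensorProduct.induction_on with
  | zero => simp
  | tmul a b =>
    have e1 : (1 : A ⊗[k] B) ⊗ₜ[A] (a ⊗ₜ[k] b) =
        algebraMap A ((A ⊗[k] B) ⊗[A] (A ⊗[k] B)) a *
          (((1 : A) ⊗ₜ[k] (1 : B)) ⊗ₜ[A] ((1 : A) ⊗ₜ[k] b)) := by
      rw [Algebra.TensorProduct.algebraMap_apply, Algebra.TensorProduct.tmul_mul_tmul, one_mul,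
        Algebra.TensorProduct.algebraMap_apply, Algebra.TensorProduct.tmul_mul_tmul, mul_one,
        mul_one]
      have : ((algebraMap A A a) ⊗ₜ[k] (1 : B)) = a • (1 : A ⊗[k] B) := by
        rw [Algebra.TensorProduct.one_def, TensorProduct.smul_tmul', smul_eq_mul, mul_one]; rfl
      rw [this, TensorProduct.smul_tmul, TensorProduct.smul_tmul', smul_eq_mul, mul_one]
    have e2 : (a ⊗ₜ[k] b) ⊗ₜ[A] (1 : A ⊗[k] B) =
        algebraMap A ((A ⊗[k] B) ⊗[A] (A ⊗[k] B)) a *
          (((1 : A) ⊗ₜ[k] b) ⊗ₜ[A] ((1 : A) ⊗ₜ[k] (1 : B))) := by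
      rw [Algebra.TensorProduct.algebraMap_apply, Algebra.TensorProduct.tmul_mul_tmul, one_mul,
        Algebra.TensorProduct.algebraMap_apply, Algebra.TensorProduct.tmul_mul_tmul, mul_one,
        one_mul]
      rfl
    have h1 : ((1 : A ⊗[k] B) ⊗ₜ[A] (a ⊗ₜ[k] b) - (a ⊗ₜ[k] b) ⊗ₜ[A] (1 : A ⊗[k] B)) =
        algebraMap A ((A ⊗[k] B) ⊗[A] (A ⊗[k] B)) a *
          diagPhi k A B ((1 : B) ⊗ₜ[k] b - b ⊗ₜ[k] (1 : B)) := by
      rw [e1, e2, ← mul_sub, map_sub, diagPhi_tmul, diagPhi_tmul]
    change ((1 : A ⊗[k] B) ⊗ₜ[A] (a ⊗ₜ[k] b) - (a ⊗ₜ[k] b) ⊗ₜ[A] (1 : A ⊗[k] B)) ∈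
      (KaehlerDifferential.ideal k B).map (diagPhi k A B)
    rw [h1]
    exact Ideal.mul_mem_left _ _ (Ideal.mem_map_of_mem _
      (KaehlerDifferential.one_smul_sub_smul_one_mem_ideal k b))
  | add x y hx hy =>
    have h1 : ((1 : A ⊗[k] B) ⊗ₜ[A] (x + y) - (x + y) ⊗ₜ[A] (1 : A ⊗[k] B)) =
        ((1 : A ⊗[k] B) ⊗ₜ[A] x - x ⊗ₜ[A] (1 : A ⊗[k] B)) +
        ((1 : A ⊗[k] B) ⊗ₜ[A] y - y ⊗ₜ[A] (1 : A ⊗[k] B)) := by
      rw [TensorProduct.tmul_add, TensorProduct.add_tmul]; abel
    change ((1 : A ⊗[k] B) ⊗ₜ[A] (x + y) - (x + y) ⊗ₜ[A] (1 : A ⊗[k] B)) ∈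
      (KaehlerDifferential.ideal k B).map (diagPhi k A B)
    rw [h1]
    exact Ideal.add_mem _ hx hy

theorem ideal_eq_map_diagPhi :
    KaehlerDifferential.ideal A (A ⊗[k] B) =
      (KaehlerDifferential.ideal k B).map (diagPhi k A B) :=
  le_antisymm (ideal_le_map_diagPhi k A B) (map_diagPhi_le k A B)

section Inj

/-- The `B ⊗[k] B`-algebra structure on `(A ⊗[k] B) ⊗[A] (A ⊗[k] B)` given by `diagPhi`. -/
@[reducible] noncomputable def diagAlgebra :
    Algebra (B ⊗[k] B) ((A ⊗[k] B) ⊗[A] (A ⊗[k] B)) :=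
  (diagPhi k A B).toRingHom.toAlgebra

attribute [local instance] diagAlgebra

theorem diagAlgebra_algebraMap_apply (s : B ⊗[k] B) :
    algebraMap (B ⊗[k] B) ((A ⊗[k] B) ⊗[A] (A ⊗[k] B)) s = diagPhi k A B s := rfl

theorem smul_diagPhi_eq (a : A) (s : B ⊗[k] B) :
    a • diagPhi k A B s =
      algebraMap A ((A ⊗[k] B) ⊗[A] (A ⊗[k] B)) a * diagPhi k A B s :=
  Algebra.smul_def a (diagPhi k A B s)

/-- The additive map `A ⊗[k] J₀ → S ⊗[S₀] J₀`, `a ⊗ j ↦ a ⊗ j`. -/
noncomputable def diagTheta :
    (A ⊗[k] (KaehlerDifferential.ideal k B)) →+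
      ((A ⊗[k] B) ⊗[A] (A ⊗[k] B)) ⊗[B ⊗[k] B] (KaehlerDifferential.ideal k B) :=
  TensorProduct.liftAddHom
    { toFun := fun a =>
        { toFun := fun j => (algebraMap A ((A ⊗[k] B) ⊗[A] (A ⊗[k] B)) a) ⊗ₜ[B ⊗[k] B] j
          map_zero' := by simp
          map_add' := fun x y => by rw [TensorProduct.tmul_add] }
      map_zero' := by ext j; simp
      map_add' := fun x y => by ext j; simp [TensorProduct.add_tmul] }
    (fun c a j => by
      change (algebraMap A ((A ⊗[k] B) ⊗[A] (A ⊗[k] B)) (c • a)) ⊗ₜ[B ⊗[k] B] j =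
        (algebraMap A ((A ⊗[k] B) ⊗[A] (A ⊗[k] B)) a) ⊗ₜ[B ⊗[k] B] (c • j)
      have h1 : c • j = (algebraMap k (B ⊗[k] B) c) • j := by
        rw [algebraMap_smul]
      rw [h1, TensorProduct.tmul_smul, TensorProduct.smul_tmul', Algebra.smul_def (R := B ⊗[k] B)]
      congr 1
      change _ = (diagPhi k A B) (algebraMap k (B ⊗[k] B) c) * _
      rw [AlgHom.commutes, Algebra.smul_def, map_mul, ← IsScalarTower.algebraMap_apply])

theorem diagTheta_tmul (a : A) (j : KaehlerDifferential.ideal k B) :
    diagTheta k A B (a ⊗ₜ[k] j) =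
      (algebraMap A ((A ⊗[k] B) ⊗[A] (A ⊗[k] B)) a) ⊗ₜ[B ⊗[k] B] j := rfl

theorem baseChangeToIdeal_diagTheta (x : A ⊗[k] (KaehlerDifferential.ideal k B)) :
    baseChangeToIdeal (T := (A ⊗[k] B) ⊗[A] (A ⊗[k] B)) (KaehlerDifferential.ideal k B)
        (diagTheta k A B x) =
      TensorProduct.AlgebraTensorModule.distribBaseChange k A B B
        (LinearMap.lTensor A ((KaehlerDifferential.ideal k B).subtype.restrictScalars k) x) := by
  induction x using TensorProduct.induction_on with
  | zero => rw [(diagTheta k A B).map_zero, map_zero, map_zero, map_zero]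
  | tmul a j =>
    rw [diagTheta_tmul, baseChangeToIdeal_tmul, LinearMap.lTensor_tmul]
    change _ = TensorProduct.AlgebraTensorModule.distribBaseChange k A B B (a ⊗ₜ[k] (j : B ⊗[k] B))
    rw [distrib_tmul, smul_diagPhi_eq]
    rfl
  | add x y hx hy =>
    rw [(diagTheta k A B).map_add, map_add, hx, hy, map_add, map_add]

theorem diagTheta_surjective :
    Function.Surjective (diagTheta k A B) := by
  intro y
  induction y using TensorProduct.induction_on with
  | zero => exact ⟨0, (diagTheta k A B).map_zero⟩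
  | tmul s j =>
    obtain ⟨z, rfl⟩ := (TensorProduct.AlgebraTensorModule.distribBaseChange k A B B).surjective s
    induction z using TensorProduct.induction_on with
    | zero =>
      refine ⟨0, ?_⟩
      rw [(diagTheta k A B).map_zero, map_zero, TensorProduct.zero_tmul]
    | tmul a s₀ =>
      refine ⟨a ⊗ₜ[k] (s₀ • j), ?_⟩
      rw [diagTheta_tmul, TensorProduct.tmul_smul, TensorProduct.smul_tmul', distrib_tmul,
        smul_diagPhi_eq, Algebra.smul_def (R := B ⊗[k] B), diagAlgebra_algebraMap_apply, mul_comm]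
    | add x y hx hy =>
      obtain ⟨a, ha⟩ := hx
      obtain ⟨b, hb⟩ := hy
      exact ⟨a + b, by rw [(diagTheta k A B).map_add, ha, hb, map_add, TensorProduct.add_tmul]⟩
  | add x y hx hy =>
    obtain ⟨a, ha⟩ := hx
    obtain ⟨b, hb⟩ := hy
    exact ⟨a + b, by rw [(diagTheta k A B).map_add, ha, hb]⟩

theorem baseChangeToIdeal_diag_injective [Module.Flat k A] :
    Function.Injective
      (baseChangeToIdeal (T := (A ⊗[k] B) ⊗[A] (A ⊗[k] B)) (KaehlerDifferential.ideal k B)) := by
  rw [injective_iff_map_eq_zero]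
  intro y hy
  obtain ⟨x, rfl⟩ := diagTheta_surjective k A B y
  rw [baseChangeToIdeal_diagTheta] at hy
  have h1 : LinearMap.lTensor A ((KaehlerDifferential.ideal k B).subtype.restrictScalars k) x =
      0 := by
    simpa using hy
  have hinj : Function.Injective
      (LinearMap.lTensor A ((KaehlerDifferential.ideal k B).subtype.restrictScalars k)) :=
    Module.Flat.lTensor_preserves_injective_linearMap _ Subtype.val_injective
  have h2 : x = 0 := hinj (by rw [h1, map_zero])
  rw [h2, (diagTheta k A B).map_zero]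

/-- **Base change of the diagonal.** -/
theorem invertible_diag_baseChange [Module.Flat k A]
    [Module.Invertible (B ⊗[k] B) (KaehlerDifferential.ideal k B)] :
    Module.Invertible ((A ⊗[k] B) ⊗[A] (A ⊗[k] B)) (KaehlerDifferential.ideal A (A ⊗[k] B)) := by
  let e₁ : (((A ⊗[k] B) ⊗[A] (A ⊗[k] B)) ⊗[B ⊗[k] B] (KaehlerDifferential.ideal k B))
      ≃ₗ[(A ⊗[k] B) ⊗[A] (A ⊗[k] B)]
      LinearMap.range (baseChangeToIdeal (T := (A ⊗[k] B) ⊗[A] (A ⊗[k] B))
        (KaehlerDifferential.ideal k B)) :=
    LinearEquiv.ofInjective _ (baseChangeToIdeal_diag_injective k A B)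
  have hrange : LinearMap.range (baseChangeToIdeal (T := (A ⊗[k] B) ⊗[A] (A ⊗[k] B))
      (KaehlerDifferential.ideal k B)) = KaehlerDifferential.ideal A (A ⊗[k] B) := by
    rw [range_baseChangeToIdeal, ideal_eq_map_diagPhi k A B]
    rfl
  exact Module.Invertible.congr (e₁ ≪≫ₗ LinearEquiv.ofEq _ _ hrange)

end Inj

end BaseChange

end Fermat.Agent.S25.H611

end
-- ===== PACK-END S25/H611/BaseChange.lean

-- ===== PACK-BEGIN S25/H326/Loc.lean
section
/-
S25 helper (helper326), block GLUE: sectionwise morphisms of `𝒪_X`-modules over an open `G`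
(`LocHom G P Q`), and the constructor `mkHom` of morphisms of modules from sectionwise data.
-/



set_option autoImplicit false
set_option linter.unusedVariables false

universe u

noncomputable section

open CategoryTheory AlgebraicGeometry TopologicalSpace Opposite

namespace Fermat.Agent.S25.H326

open Fermat.Agent.S25.H626 (res resO res_res res_smul res_add app_res hom_ext_apply)

variable {X : Scheme.{u}}

/-! ### Morphisms of modules from sectionwise data -/

section MkHom

variable {M N : X.Modules}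

/-- The morphism of abelian presheaves underlying `mkHom`. -/
def mkPresheafHom (a : ∀ W : X.Opens, Γ(M, W) →+ Γ(N, W))
    (nat : ∀ (W W' : X.Opens) (h : W' ≤ W) (s : Γ(M, W)),
      a W' (res M h s) = res N h (a W s)) : M.presheaf ⟶ N.presheaf where
  app U := AddCommGrpCat.ofHom (a U.unop)
  naturality U V f := by
    ext s
    have h := nat U.unop V.unop (leOfHom f.unop) s
    have e : f = (homOfLE (leOfHom f.unop)).op := by
      apply Quiver.Hom.unop_inj
      exact Subsingleton.elim _ _
    rw [e]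
    exact h

/-- A morphism of `𝒪_X`-modules from a family of additive maps on sections which is compatible
with restrictions and linear. -/
def mkHom (a : ∀ W : X.Opens, Γ(M, W) →+ Γ(N, W))
    (nat : ∀ (W W' : X.Opens) (h : W' ≤ W) (s : Γ(M, W)),
      a W' (res M h s) = res N h (a W s))
    (lin : ∀ (W : X.Opens) (r : Γ(X, W)) (s : Γ(M, W)), a W (r • s) = r • a W s) : M ⟶ N :=
  ⟨PresheafOfModules.homMk (mkPresheafHom a nat) (by
    intro U r m
    exact lin U.unop r m)⟩

@[simp] theorem mkHom_app (a : ∀ W : X.Opens, Γ(M, W) →+ Γ(N, W))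
    (nat : ∀ (W W' : X.Opens) (h : W' ≤ W) (s : Γ(M, W)),
      a W' (res M h s) = res N h (a W s))
    (lin : ∀ (W : X.Opens) (r : Γ(X, W)) (s : Γ(M, W)), a W (r • s) = r • a W s)
    (W : X.Opens) (s : Γ(M, W)) : (mkHom a nat lin).app W s = a W s := rfl

end MkHom

/-! ### Restrictions between equal opens -/

section ResEq

variable (M : X.Modules)

theorem res_res_cancel {W W' : X.Opens} (h : W' ≤ W) (h' : W ≤ W') (s : Γ(M, W)) :
    res M h' (res M h s) = s := by
  rw [res_res]
  exact Fermat.Agent.S25.H626.res_id M s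

theorem res_injective_of_le {W W' : X.Opens} (h : W' ≤ W) (h' : W ≤ W') :
    Function.Injective (res M h) := by
  intro s t hst
  have := congrArg (res M h') hst
  rwa [res_res_cancel, res_res_cancel] at this

theorem res_surjective_of_le {W W' : X.Opens} (h : W' ≤ W) (h' : W ≤ W') :
    Function.Surjective (res M h) := fun s => ⟨res M h' s, res_res_cancel M h' h s⟩

theorem res_bijective_of_le {W W' : X.Opens} (h : W' ≤ W) (h' : W ≤ W') :
    Function.Bijective (res M h) :=
  ⟨res_injective_of_le M h h', res_surjective_of_le M h h'⟩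

/-- Restriction as an additive map. -/
def resHom {W W' : X.Opens} (h : W' ≤ W) : Γ(M, W) →+ Γ(M, W') :=
  (M.presheaf.map (homOfLE h).op).hom

@[simp] theorem resHom_apply {W W' : X.Opens} (h : W' ≤ W) (s : Γ(M, W)) :
    resHom M h s = res M h s := rfl

theorem resO_resO_cancel {W W' : X.Opens} (h : W' ≤ W) (h' : W ≤ W') (r : Γ(X, W)) :
    resO h' (resO h r) = r := by
  rw [Fermat.Agent.S25.H626.resO_resO]
  exact Fermat.Agent.S25.H626.resO_id r

end ResEq

/-! ### Sectionwise morphisms over an open -/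

/-- A morphism between the restrictions of `P` and `Q` to the open `G`, given sectionwise:
additive maps `Γ(P, W) → Γ(Q, W)` for all opens `W ≤ G`, linear and compatible with
restrictions. -/
structure LocHom (G : X.Opens) (P Q : X.Modules) where
  /-- the map on sections over `W ≤ G` -/
  app : ∀ (W : X.Opens), W ≤ G → (Γ(P, W) →+ Γ(Q, W))
  app_smul : ∀ (W : X.Opens) (hW : W ≤ G) (r : Γ(X, W)) (s : Γ(P, W)),
    app W hW (r • s) = r • app W hW s
  app_res : ∀ (W W' : X.Opens) (hW : W ≤ G) (h : W' ≤ W) (s : Γ(P, W)),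
    app W' (h.trans hW) (res P h s) = res Q h (app W hW s)

namespace LocHom

variable {G : X.Opens} {P Q R : X.Modules}

theorem ext {φ ψ : LocHom G P Q}
    (h : ∀ (W : X.Opens) (hW : W ≤ G) (s : Γ(P, W)), φ.app W hW s = ψ.app W hW s) : φ = ψ := by
  cases φ; cases ψ
  congr
  funext W hW
  exact AddMonoidHom.ext (h W hW)

/-- The identity. -/
def id (G : X.Opens) (P : X.Modules) : LocHom G P P where
  app _ _ := AddMonoidHom.id _
  app_smul _ _ _ _ := rfl
  app_res _ _ _ _ _ := rfl

/-- Composition. -/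
def comp (φ : LocHom G P Q) (ψ : LocHom G Q R) : LocHom G P R where
  app W hW := (ψ.app W hW).comp (φ.app W hW)
  app_smul W hW r s := by
    simp only [AddMonoidHom.comp_apply]
    rw [φ.app_smul, ψ.app_smul]
  app_res W W' hW h s := by
    simp only [AddMonoidHom.comp_apply]
    rw [φ.app_res, ψ.app_res]

/-- Restriction to a smaller open. -/
def restrict {G' : X.Opens} (φ : LocHom G P Q) (h : G' ≤ G) : LocHom G' P Q where
  app W hW := φ.app W (hW.trans h)
  app_smul W _ r s := φ.app_smul W _ r s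
  app_res W W' _ h' s := φ.app_res W W' _ h' s

/-- A global morphism, sectionwise over `G`. -/
def ofHom (G : X.Opens) (f : P ⟶ Q) : LocHom G P Q where
  app W _ := (f.app W).hom
  app_smul W _ r s := Scheme.Modules.Hom.app_smul f r s
  app_res W W' _ h s := Fermat.Agent.S25.H626.app_res f h s

@[simp] theorem id_app (W : X.Opens) (hW : W ≤ G) (s : Γ(P, W)) : (id G P).app W hW s = s := rfl

@[simp] theorem comp_app (φ : LocHom G P Q) (ψ : LocHom G Q R) (W : X.Opens) (hW : W ≤ G)
    (s : Γ(P, W)) : (φ.comp ψ).app W hW s = ψ.app W hW (φ.app W hW s) := rfl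

@[simp] theorem restrict_app {G' : X.Opens} (φ : LocHom G P Q) (h : G' ≤ G) (W : X.Opens)
    (hW : W ≤ G') (s : Γ(P, W)) : (φ.restrict h).app W hW s = φ.app W (hW.trans h) s := rfl

@[simp] theorem ofHom_app (f : P ⟶ Q) (W : X.Opens) (hW : W ≤ G) (s : Γ(P, W)) :
    (ofHom G f).app W hW s = f.app W s := rfl

/-- A sectionwise morphism over `⊤` is a morphism. -/
def toHomTop (φ : LocHom (⊤ : X.Opens) P Q) : P ⟶ Q :=
  mkHom (fun W => φ.app W le_top) (fun W W' h s => φ.app_res W W' le_top h s)
    (fun W r s => φ.app_smul W le_top r s)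

@[simp] theorem toHomTop_app (φ : LocHom (⊤ : X.Opens) P Q) (W : X.Opens) (s : Γ(P, W)) :
    φ.toHomTop.app W s = φ.app W le_top s := rfl

end LocHom

end Fermat.Agent.S25.H326

end

end
-- ===== PACK-END S25/H326/Loc.lean

-- ===== PACK-BEGIN S25/H491/HilbLocus.lean
section


/-!
# S25, block HILB, leaf H1 (helper491), part 2: the Hilbert functor, base change, chart loci

* `IsHilb g I`: the quotient `(A ⊗[k] B) ⧸ I` is finite projective of constant rank `g` over `A`.
* `quotMapEquiv`: `(A' ⊗[k] B) ⧸ I.map _ ≃ₐ[A'] A' ⊗[A] ((A ⊗[k] B) ⧸ I)`; `IsHilb.map`.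
* `exists_chartLocus`: for `I` with `IsHilb g I` there are ideals `𝔞 β` of `A` with `⨆ β, 𝔞 β = ⊤`
  such that for all `φ : A →ₐ[k] A'`, `IsChart β (I.map _) ↔ (𝔞 β).map φ = ⊤`.
-/

set_option autoImplicit false

open scoped TensorProduct

namespace Fermat.Agent.S25.H491

universe u v w w'

section BaseChange

variable {k : Type u} [CommRing k] {B : Type v} [CommRing B] [Algebra k B]
variable {A : Type w} [CommRing A] [Algebra k A] {A' : Type w'} [CommRing A'] [Algebra k A']
variable [Algebra A A'] [IsScalarTower k A A']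

theorem cancel_comp_bc (x : A ⊗[k] B) :
    (Algebra.TensorProduct.cancelBaseChange k A A' A' B).symm
        (bc B (IsScalarTower.toAlgHom k A A') x) =
      Algebra.TensorProduct.includeRight (R := A) (A := A') (B := A ⊗[k] B) x := by
  induction x using TensorProduct.induction_on with
  | zero => simp
  | tmul a b =>
    simp only [Algebra.TensorProduct.map_tmul, IsScalarTower.coe_toAlgHom', AlgHom.coe_id, id_eq,
      Algebra.TensorProduct.cancelBaseChange_symm_tmul, Algebra.TensorProduct.includeRight_apply]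
    have h : a ⊗ₜ[k] b = a • ((1 : A) ⊗ₜ[k] b) := by
      rw [TensorProduct.smul_tmul', smul_eq_mul, mul_one]
    rw [h, TensorProduct.tmul_smul, TensorProduct.smul_tmul', Algebra.smul_def, mul_one]
  | add x y hx hy => simp only [map_add, hx, hy]

theorem map_includeRight_eq (I : Ideal (A ⊗[k] B)) :
    I.map (Algebra.TensorProduct.includeRight (R := A) (A := A') (B := A ⊗[k] B)) =
      (I.map (bc B (IsScalarTower.toAlgHom k A A'))).map
        ((Algebra.TensorProduct.cancelBaseChange k A A' A' B).symm :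
          A' ⊗[k] B →+* A' ⊗[A] (A ⊗[k] B)) := by
  have h1 : I.map (bc B (IsScalarTower.toAlgHom k A A')) =
      I.map ((bc B (IsScalarTower.toAlgHom k A A') : A ⊗[k] B →ₐ[k] A' ⊗[k] B) :
        A ⊗[k] B →+* A' ⊗[k] B) := rfl
  have h2 : ((Algebra.TensorProduct.cancelBaseChange k A A' A' B).symm :
          A' ⊗[k] B →+* A' ⊗[A] (A ⊗[k] B)).comp
        ((bc B (IsScalarTower.toAlgHom k A A') : A ⊗[k] B →ₐ[k] A' ⊗[k] B) :
          A ⊗[k] B →+* A' ⊗[k] B) =
      ((Algebra.TensorProduct.includeRight (R := A) (A := A') (B := A ⊗[k] B) :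
          A ⊗[k] B →ₐ[A] A' ⊗[A] (A ⊗[k] B)) : A ⊗[k] B →+* A' ⊗[A] (A ⊗[k] B)) :=
    RingHom.ext cancel_comp_bc
  rw [h1, Ideal.map_map, h2]
  rfl

/-- Base change of the quotient: `(A' ⊗ B) ⧸ I·(A' ⊗ B) ≃ A' ⊗[A] ((A ⊗ B) ⧸ I)`. -/
noncomputable def quotMapEquiv (I : Ideal (A ⊗[k] B)) :
    ((A' ⊗[k] B) ⧸ I.map (bc B (IsScalarTower.toAlgHom k A A'))) ≃ₐ[A']
      A' ⊗[A] ((A ⊗[k] B) ⧸ I) :=
  (Ideal.quotientEquivAlg _ _ (Algebra.TensorProduct.cancelBaseChange k A A' A' B).symm
    (map_includeRight_eq I)).trans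
    (Algebra.TensorProduct.tensorQuotientEquiv (R := A) A' (A ⊗[k] B) A' I).symm

theorem quotMapEquiv_mk_tmul (I : Ideal (A ⊗[k] B)) (a' : A') (b : B) :
    quotMapEquiv I (Ideal.Quotient.mk _ (a' ⊗ₜ[k] b)) =
      a' ⊗ₜ[A] Ideal.Quotient.mk I ((1 : A) ⊗ₜ[k] b) := by
  simp [quotMapEquiv]

theorem quotMapEquiv_mk_bc (I : Ideal (A ⊗[k] B)) (x : A ⊗[k] B) :
    quotMapEquiv I (Ideal.Quotient.mk _ (bc B (IsScalarTower.toAlgHom k A A') x)) =
      (1 : A') ⊗ₜ[A] Ideal.Quotient.mk I x := by
  simp only [quotMapEquiv, AlgEquiv.trans_apply, Ideal.quotientEquivAlg_mk]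
  rw [cancel_comp_bc]
  simp

end BaseChange

/-! ### The Hilbert functor -/

section Hilb

variable {k : Type u} [CommRing k] {B : Type v} [CommRing B] [Algebra k B]
variable {A : Type w} [CommRing A] [Algebra k A] {A' : Type w'} [CommRing A'] [Algebra k A']

/-- `I` is an `A`-point of the Hilbert functor `Hilb^g` of `B`: the quotient `(A ⊗[k] B) ⧸ I` is a
finite projective `A`-module of constant rank `g`. -/
structure IsHilb (g : ℕ) (I : Ideal (A ⊗[k] B)) : Prop where
  finite : Module.Finite A ((A ⊗[k] B) ⧸ I)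
  projective : Module.Projective A ((A ⊗[k] B) ⧸ I)
  rank : ∀ p : PrimeSpectrum A, Module.rankAtStalk (R := A) ((A ⊗[k] B) ⧸ I) p = g

/-- Chart ideals are points of the Hilbert functor. -/
theorem IsChart.isHilb {g : ℕ} {β : Fin g → B} {I : Ideal (A ⊗[k] B)} (hI : IsChart β I) :
    IsHilb g I := by
  obtain ⟨e, -⟩ := hI
  have : Module.Finite A ((A ⊗[k] B) ⧸ I) := Module.Finite.equiv e.symm
  have : Module.Free A ((A ⊗[k] B) ⧸ I) := Module.Free.of_equiv e.symm
  refine ⟨inferInstance, inferInstance, fun p => ?_⟩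
  have : Nontrivial A := p.nontrivial
  rw [Module.rankAtStalk_eq_of_equiv e, Module.rankAtStalk_eq_finrank_of_free]
  simp

theorem IsHilb.map_of_algebra [Algebra A A'] [IsScalarTower k A A'] {g : ℕ}
    {I : Ideal (A ⊗[k] B)} (h : IsHilb g I) :
    IsHilb g (I.map (bc B (IsScalarTower.toAlgHom k A A'))) := by
  have := h.finite
  have := h.projective
  have e := (quotMapEquiv (A' := A') I).toLinearEquiv
  refine ⟨Module.Finite.equiv e.symm, Module.Projective.of_equiv e.symm, fun p => ?_⟩
  rw [Module.rankAtStalk_eq_of_equiv e, Module.rankAtStalk_baseChange, h.rank]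

/-- **Base change of the Hilbert functor**: `I ↦ I · (A' ⊗[k] B)`. -/
theorem IsHilb.map {g : ℕ} {I : Ideal (A ⊗[k] B)} (h : IsHilb g I) (φ : A →ₐ[k] A') :
    IsHilb g (I.map (bc B φ)) := by
  let _ : Algebra A A' := φ.toRingHom.toAlgebra
  have : IsScalarTower k A A' := IsScalarTower.of_algebraMap_eq' φ.comp_algebraMap.symm
  have hφ : IsScalarTower.toAlgHom k A A' = φ := by ext; rfl
  rw [← hφ]
  exact h.map_of_algebra

end Hilb

/-! ### Two lemmas of linear algebra -/

section LinAlg

variable {A : Type w} [CommRing A]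

/-- A split injection `A^g → Q` into a finite projective module of constant rank `g` is
bijective. -/
theorem bijective_of_leftInverse_of_rank {Q : Type v} [AddCommGroup Q] [Module A Q]
    [Module.Finite A Q] [Module.Projective A Q] {g : ℕ}
    (hrank : ∀ p : PrimeSpectrum A, Module.rankAtStalk (R := A) Q p = g)
    (u : (Fin g → A) →ₗ[A] Q) (ν : Q →ₗ[A] (Fin g → A)) (h : ν ∘ₗ u = LinearMap.id) :
    Function.Bijective u := by
  have hνu : ∀ c, ν (u c) = c := fun c => LinearMap.congr_fun h c
  -- the complement `K = ker ν`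
  let s : Q →ₗ[A] LinearMap.ker ν :=
    (LinearMap.id - u ∘ₗ ν).codRestrict (LinearMap.ker ν) (fun q => by
      rw [LinearMap.mem_ker, LinearMap.sub_apply, map_sub, LinearMap.id_apply,
        LinearMap.comp_apply, hνu, sub_self])
  have hs : ∀ x : LinearMap.ker ν, s x = x := fun x => by
    apply Subtype.ext
    have hx : ν (x : Q) = 0 := x.2
    simp [s, hx]
  have hsurj : Function.Surjective s := fun x => ⟨x, hs x⟩
  have : Module.Finite A (LinearMap.ker ν) := Module.Finite.of_surjective s hsurj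
  have : Module.Projective A (LinearMap.ker ν) :=
    Module.Projective.of_split (LinearMap.ker ν).subtype s (by ext x; simp [hs])
  let e : Q ≃ₗ[A] (Fin g → A) × LinearMap.ker ν :=
    LinearEquiv.ofLinearMap (ν.prod s) (u.coprod (LinearMap.ker ν).subtype)
      (by
        apply LinearMap.ext
        rintro ⟨c, x⟩
        have hx : ν (x : Q) = 0 := x.2
        apply Prod.ext
        · simp [hνu, hx]
        · apply Subtype.ext
          simp [s, hνu, hx])
      (by
        apply LinearMap.ext
        intro q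
        simp [s])
  have hK : Module.rankAtStalk (R := A) (LinearMap.ker ν) = 0 := by
    ext p
    have h1 := congrFun (Module.rankAtStalk_eq_of_equiv e) p
    rw [hrank p, Module.rankAtStalk_prod] at h1
    have : Nontrivial A := p.nontrivial
    rw [Pi.add_apply, Module.rankAtStalk_eq_finrank_of_free] at h1
    simp only [Module.finrank_fin_fun, Pi.natCast_def] at h1
    simpa using h1
  have hsub : Subsingleton (LinearMap.ker ν) := Module.rankAtStalk_eq_zero_iff_subsingleton.mp hK
  refine ⟨Function.LeftInverse.injective hνu, fun q => ⟨ν q, ?_⟩⟩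
  have := congrArg Subtype.val (Subsingleton.elim (s q) 0)
  simp only [s, LinearMap.codRestrict_apply, LinearMap.sub_apply, LinearMap.id_apply,
    LinearMap.comp_apply, ZeroMemClass.coe_zero] at this
  exact (sub_eq_zero.mp this).symm

/-- A weak form of the Cauchy–Binet formula: `det (M * U)` is a linear combination of the
`g × g` determinants built from the rows of `U`. -/
theorem det_mul_eq_sum {g n : ℕ} (M : Matrix (Fin g) (Fin n) A) (U : Matrix (Fin n) (Fin g) A) :
    (M * U).det =
      ∑ σ : Fin g → Fin n, (∏ s, M s (σ s)) * (Matrix.of fun s t => U (σ s) t).det := by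
  have h : M * U = Matrix.of (fun s => ∑ j, M s j • U j) := by
    ext s t
    simp [Matrix.mul_apply, Finset.sum_apply]
  rw [h]
  have h2 := (Matrix.detRowAlternating (R := A) (n := Fin g)).toMultilinearMap.map_sum
    (fun s j => M s j • U j)
  change Matrix.detRowAlternating (fun s => ∑ j, M s j • U j) = _
  rw [show (Matrix.detRowAlternating (R := A) (n := Fin g)) (fun s => ∑ j, M s j • U j) =
    (Matrix.detRowAlternating (R := A) (n := Fin g)).toMultilinearMap
      (fun s => ∑ j, M s j • U j) from rfl, h2]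
  refine Finset.sum_congr rfl fun σ _ => ?_
  rw [MultilinearMap.map_smul_univ]
  rfl

end LinAlg

/-! ### The locus of a chart -/

section Locus

variable {k : Type u} [CommRing k] {B : Type v} [CommRing B] [Algebra k B]
variable {A : Type w} [CommRing A] [Algebra k A] {A' : Type w'} [CommRing A'] [Algebra k A']
variable {g : ℕ}

/-- The ideal of `A` whose open complement is the locus where `I` lies in the chart of `β`:
it is generated by the determinants `det (l s [1 ⊗ β t])`, `l` a `g`-tuple of linear forms on the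
quotient. -/
noncomputable def chartIdeal (β : Fin g → B) (I : Ideal (A ⊗[k] B)) : Ideal A :=
  Ideal.span (Set.range fun l : Fin g → Module.Dual A ((A ⊗[k] B) ⧸ I) =>
    Matrix.det (Matrix.of fun s t => l s (Ideal.Quotient.mk I (1 ⊗ₜ[k] β t))))

section Algebra

variable [Algebra A A'] [IsScalarTower k A A']

/-- Base change of a linear form on the quotient. -/
noncomputable def dualBC (I : Ideal (A ⊗[k] B)) (l : Module.Dual A ((A ⊗[k] B) ⧸ I)) :
    Module.Dual A' ((A' ⊗[k] B) ⧸ I.map (bc B (IsScalarTower.toAlgHom k A A'))) :=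
  (Module.Dual.baseChange A' l) ∘ₗ (quotMapEquiv (A' := A') I).toLinearEquiv.toLinearMap

theorem dualBC_mk_bc (I : Ideal (A ⊗[k] B)) (l : Module.Dual A ((A ⊗[k] B) ⧸ I))
    (x : A ⊗[k] B) :
    dualBC (A' := A') I l (Ideal.Quotient.mk _ (bc B (IsScalarTower.toAlgHom k A A') x)) =
      algebraMap A A' (l (Ideal.Quotient.mk I x)) := by
  simp only [dualBC, LinearMap.comp_apply, LinearEquiv.coe_coe, AlgEquiv.toLinearEquiv_apply]
  rw [quotMapEquiv_mk_bc]
  simp [Algebra.smul_def]

theorem bc_one_tmul (b : B) :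
    bc B (IsScalarTower.toAlgHom k A A') ((1 : A) ⊗ₜ[k] b) = (1 : A') ⊗ₜ[k] b := by
  simp

theorem dualBC_mk_one_tmul (I : Ideal (A ⊗[k] B)) (l : Module.Dual A ((A ⊗[k] B) ⧸ I))
    (b : B) :
    dualBC (A' := A') I l (Ideal.Quotient.mk _ ((1 : A') ⊗ₜ[k] b)) =
      algebraMap A A' (l (Ideal.Quotient.mk I ((1 : A) ⊗ₜ[k] b))) := by
  rw [← bc_one_tmul (A := A), dualBC_mk_bc]

/-- For every element `x` of the extension of `chartIdeal β I` there is a linear map
`ν : Q' → A'^g` with `ν [1 ⊗ β t] = x • e_t`. -/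
theorem exists_retraction_of_mem (β : Fin g → B) (I : Ideal (A ⊗[k] B)) (x : A')
    (hx : x ∈ (chartIdeal β I).map (algebraMap A A')) :
    ∃ ν : ((A' ⊗[k] B) ⧸ I.map (bc B (IsScalarTower.toAlgHom k A A'))) →ₗ[A'] (Fin g → A'),
      ∀ t, ν (Ideal.Quotient.mk _ ((1 : A') ⊗ₜ[k] β t)) = x • Pi.single t 1 := by
  rw [chartIdeal, Ideal.map_span] at hx
  induction hx using Submodule.span_induction with
  | mem x hx =>
    obtain ⟨_, ⟨l, rfl⟩, rfl⟩ := hx
    set D : Matrix (Fin g) (Fin g) A :=
      Matrix.of fun s t => l s (Ideal.Quotient.mk I (1 ⊗ₜ[k] β t)) with hD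
    set D' : Matrix (Fin g) (Fin g) A' := (algebraMap A A').mapMatrix D with hD'
    refine ⟨(Matrix.toLin' D'.adjugate) ∘ₗ (LinearMap.pi fun s => dualBC (A' := A') I (l s)),
      fun t => ?_⟩
    have h1 : (LinearMap.pi fun s => dualBC (A' := A') I (l s))
        (Ideal.Quotient.mk _ ((1 : A') ⊗ₜ[k] β t)) = D'.mulVec (Pi.single t 1) := by
      ext s
      rw [LinearMap.pi_apply, dualBC_mk_one_tmul, Matrix.mulVec_single_one]
      rfl
    rw [LinearMap.comp_apply, h1, Matrix.toLin'_apply, Matrix.mulVec_mulVec,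
      Matrix.adjugate_mul, Matrix.smul_mulVec, Matrix.one_mulVec, hD', ← RingHom.map_det]
  | zero => exact ⟨0, fun t => by simp⟩
  | add x y _ _ hx hy =>
    obtain ⟨ν, hν⟩ := hx
    obtain ⟨ν', hν'⟩ := hy
    exact ⟨ν + ν', fun t => by rw [LinearMap.add_apply, hν, hν', add_smul]⟩
  | smul a x _ hx =>
    obtain ⟨ν, hν⟩ := hx
    exact ⟨a • ν, fun t => by rw [LinearMap.smul_apply, hν, smul_smul, smul_eq_mul]⟩

/-- **Chart locus, part 1**: if `chartIdeal β I` generates the unit ideal of `A'`, then the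
base change of `I` to `A'` lies in the chart of `β`. -/
theorem isChart_of_map_chartIdeal_eq_top (β : Fin g → B) {I : Ideal (A ⊗[k] B)}
    (h : IsHilb g I) (htop : (chartIdeal β I).map (algebraMap A A') = ⊤) :
    IsChart β (I.map (bc B (IsScalarTower.toAlgHom k A A'))) := by
  obtain ⟨ν, hν⟩ := exists_retraction_of_mem (A' := A') β I 1 (by rw [htop]; trivial)
  have h' := h.map_of_algebra (A' := A')
  have := h'.finite
  have := h'.projective
  set q' : Fin g → (A' ⊗[k] B) ⧸ I.map (bc B (IsScalarTower.toAlgHom k A A')) :=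
    fun t => Ideal.Quotient.mk _ ((1 : A') ⊗ₜ[k] β t) with hq'
  let u : (Fin g → A') →ₗ[A'] (A' ⊗[k] B) ⧸ I.map (bc B (IsScalarTower.toAlgHom k A A')) :=
    Fintype.linearCombination A' q'
  have hu : ∀ t, u (Pi.single t 1) = q' t := fun t => by
    simp [u, Fintype.linearCombination_apply_single]
  have hνu : ν ∘ₗ u = LinearMap.id := by
    apply LinearMap.pi_ext'
    intro t
    apply LinearMap.ext_ring
    rw [LinearMap.comp_apply, LinearMap.comp_apply, LinearMap.single_apply, hu, LinearMap.id_comp,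
      LinearMap.single_apply]
    simpa using hν t
  have hb := bijective_of_leftInverse_of_rank h'.rank u ν hνu
  refine ⟨(LinearEquiv.ofBijective u hb).symm, fun t => ?_⟩
  rw [LinearEquiv.symm_apply_eq, LinearEquiv.ofBijective_apply, hu]

/-- **Chart locus, part 2**: if the base change of `I` to `A'` lies in the chart of `β`, then
`chartIdeal β I` generates the unit ideal of `A'`. -/
theorem map_chartIdeal_eq_top_of_isChart (β : Fin g → B) {I : Ideal (A ⊗[k] B)}
    (h : IsHilb g I) (hc : IsChart β (I.map (bc B (IsScalarTower.toAlgHom k A A')))) :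
    (chartIdeal β I).map (algebraMap A A') = ⊤ := by
  have := h.finite
  have := h.projective
  obtain ⟨e', he'⟩ := hc
  obtain ⟨n, r, i, -, -, hri⟩ :=
    Module.Finite.exists_comp_eq_id_of_projective A ((A ⊗[k] B) ⧸ I)
  -- lifts of the generators
  have hlift : ∀ j : Fin n, ∃ x : A ⊗[k] B, Ideal.Quotient.mk I x = r (Pi.single j 1) :=
    fun j => Ideal.Quotient.mk_surjective _
  choose rt hrt using hlift
  -- expansion in `Q`
  have hexp : ∀ q : (A ⊗[k] B) ⧸ I, q = ∑ j, i q j • r (Pi.single j 1) := fun q => by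
    have h1 : r (i q) = q := LinearMap.congr_fun hri q
    have h2 : i q = ∑ j, i q j • (Pi.single j 1 : Fin n → A) := by
      ext j'
      simp [Finset.sum_apply, Pi.single_apply]
    conv_lhs => rw [← h1, h2]
    rw [map_sum]
    refine Finset.sum_congr rfl fun j _ => ?_
    rw [map_smul]
  -- expansion in `Q'`
  have hexp' : ∀ t, Ideal.Quotient.mk (I.map (bc B (IsScalarTower.toAlgHom k A A')))
        ((1 : A') ⊗ₜ[k] β t) =
      ∑ j, algebraMap A A' (i (Ideal.Quotient.mk I (1 ⊗ₜ[k] β t)) j) •
        Ideal.Quotient.mk (I.map (bc B (IsScalarTower.toAlgHom k A A')))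
          (bc B (IsScalarTower.toAlgHom k A A') (rt j)) := fun t => by
    apply (quotMapEquiv (A' := A') I).injective
    rw [← bc_one_tmul (A := A), quotMapEquiv_mk_bc, map_sum]
    conv_lhs => rw [hexp (Ideal.Quotient.mk I (1 ⊗ₜ[k] β t))]
    rw [TensorProduct.tmul_sum]
    refine Finset.sum_congr rfl fun j _ => ?_
    rw [map_smul, quotMapEquiv_mk_bc, hrt j, TensorProduct.tmul_smul,
      ← algebraMap_smul A' (i (Ideal.Quotient.mk I (1 ⊗ₜ[k] β t)) j)
        ((1 : A') ⊗ₜ[A] r (Pi.single j 1))]
  -- matrices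
  set M' : Matrix (Fin g) (Fin n) A' := Matrix.of fun s j =>
    e' (Ideal.Quotient.mk _ (bc B (IsScalarTower.toAlgHom k A A') (rt j))) s with hM'
  set U : Matrix (Fin n) (Fin g) A :=
    Matrix.of fun j t => i (Ideal.Quotient.mk I (1 ⊗ₜ[k] β t)) j with hU
  have hMU : M' * (U.map (algebraMap A A')) = 1 := by
    ext s t
    have h3 := congrFun (congrArg e' (hexp' t)) s
    rw [he' t, map_sum, Finset.sum_apply] at h3
    rw [Matrix.mul_apply, Matrix.one_apply, ← Pi.single_apply, h3]
    · refine Finset.sum_congr rfl fun j _ => ?_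
      rw [map_smul, Pi.smul_apply, smul_eq_mul, mul_comm]
      rfl
  have hdet := det_mul_eq_sum M' (U.map (algebraMap A A'))
  rw [hMU, Matrix.det_one] at hdet
  rw [Ideal.eq_top_iff_one, hdet]
  refine Ideal.sum_mem _ fun σ _ => Ideal.mul_mem_left _ _ ?_
  have h4 : Matrix.det (Matrix.of fun s t => (U.map (algebraMap A A')) (σ s) t) =
      algebraMap A A' (Matrix.det (Matrix.of fun s t => U (σ s) t)) := by
    rw [RingHom.map_det]
    rfl
  rw [h4]
  apply Ideal.mem_map_of_mem
  apply Ideal.subset_span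
  exact ⟨fun s => (LinearMap.proj (σ s)) ∘ₗ i, rfl⟩

/-- **Chart locus** (`A'` an `A`-algebra): the base change of `I` to `A'` lies in the chart of `β`
iff `chartIdeal β I` generates the unit ideal of `A'`. -/
theorem isChart_map_iff_of_algebra (β : Fin g → B) {I : Ideal (A ⊗[k] B)} (h : IsHilb g I) :
    IsChart β (I.map (bc B (IsScalarTower.toAlgHom k A A'))) ↔
      (chartIdeal β I).map (algebraMap A A') = ⊤ :=
  ⟨map_chartIdeal_eq_top_of_isChart β h, isChart_of_map_chartIdeal_eq_top β h⟩

end Algebra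

/-- **Chart locus**: for `I` a point of `Hilb^g` over `A` and `φ : A →ₐ[k] A'`, the base change
of `I` along `φ` lies in the chart of `β` iff `chartIdeal β I` generates the unit ideal of `A'`. -/
theorem isChart_map_iff (β : Fin g → B) {I : Ideal (A ⊗[k] B)} (h : IsHilb g I)
    (φ : A →ₐ[k] A') :
    IsChart β (I.map (bc B φ)) ↔ (chartIdeal β I).map φ = ⊤ := by
  let _ : Algebra A A' := φ.toRingHom.toAlgebra
  have : IsScalarTower k A A' := IsScalarTower.of_algebraMap_eq' φ.comp_algebraMap.symm
  have hφ : IsScalarTower.toAlgHom k A A' = φ := by ext; rfl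
  have h1 := isChart_map_iff_of_algebra (A' := A') β h
  rw [hφ] at h1
  exact h1

/-- The case `A' = A`. -/
theorem isChart_iff_chartIdeal_eq_top (β : Fin g → B) {I : Ideal (A ⊗[k] B)} (h : IsHilb g I) :
    IsChart β I ↔ chartIdeal β I = ⊤ := by
  have h1 := isChart_map_iff β h (AlgHom.id k A)
  have h2 : I.map (bc B (AlgHom.id k A)) = I := by
    have : (bc B (AlgHom.id k A) : A ⊗[k] B →ₐ[k] A ⊗[k] B) = AlgHom.id k _ :=
      Algebra.TensorProduct.map_id
    rw [this]
    exact Ideal.map_id I
  have h3 : (chartIdeal β I).map (AlgHom.id k A) = chartIdeal β I := Ideal.map_id _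
  rw [h2, h3] at h1
  exact h1

/-- From a spanning family of a vector space of dimension `g` one can extract a basis indexed by
`Fin g`. -/
theorem exists_basis_fin_of_span {K : Type w} {V : Type v} {ι : Type u} [Field K]
    [AddCommGroup V] [Module K V] [Module.Finite K V] (v : ι → V)
    (hv : Submodule.span K (Set.range v) = ⊤) {g : ℕ} (hg : Module.finrank K V = g) :
    ∃ (a : Fin g → ι) (b : Module.Basis (Fin g) K V), ∀ t, b t = v (a t) := by
  obtain ⟨κ, a, -, hsp, hli⟩ := exists_linearIndependent' K v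
  let b₀ : Module.Basis κ K V := Module.Basis.mk hli (by rw [hsp, hv])
  have : Finite κ := Module.Finite.finite_basis b₀
  let _ : Fintype κ := Fintype.ofFinite κ
  have hcard : Fintype.card κ = g := by rw [← Module.finrank_eq_card_basis b₀, hg]
  let e : κ ≃ Fin g := Fintype.equivFinOfCardEq hcard
  refine ⟨a ∘ e.symm, b₀.reindex e, fun t => ?_⟩
  simp [b₀]

/-- **Covering**: the chart loci cover `Spec A`. -/
theorem iSup_chartIdeal_eq_top {I : Ideal (A ⊗[k] B)} (h : IsHilb g I) :
    (⨆ β : Fin g → B, chartIdeal β I) = ⊤ := by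
  by_contra hne
  obtain ⟨m, hm, hle⟩ := Ideal.exists_le_maximal _ hne
  let _ : Field (A ⧸ m) := Ideal.Quotient.field m
  have h' := h.map_of_algebra (A' := A ⧸ m)
  have := h'.finite
  have := h'.projective
  set J := I.map (bc B (IsScalarTower.toAlgHom k A (A ⧸ m))) with hJ
  have hrank : Module.finrank (A ⧸ m) (((A ⧸ m) ⊗[k] B) ⧸ J) = g := by
    have h1 := h'.rank ⟨⊥, Ideal.isPrime_bot⟩
    rw [Module.rankAtStalk_eq_finrank_of_free] at h1
    exact h1
  -- the classes of `1 ⊗ b` span
  have hspan : Submodule.span (A ⧸ m)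
      (Set.range fun b : B => Ideal.Quotient.mk J ((1 : A ⧸ m) ⊗ₜ[k] b)) = ⊤ := by
    rw [eq_top_iff]
    rintro q -
    obtain ⟨y, rfl⟩ := Ideal.Quotient.mk_surjective q
    induction y using TensorProduct.induction_on with
    | zero => rw [map_zero]; exact Submodule.zero_mem _
    | tmul c b =>
      have h1 : Ideal.Quotient.mk J (c ⊗ₜ[k] b) =
          c • Ideal.Quotient.mk J ((1 : A ⧸ m) ⊗ₜ[k] b) := by
        have : c ⊗ₜ[k] b = c • ((1 : A ⧸ m) ⊗ₜ[k] b) := by
          rw [TensorProduct.smul_tmul', smul_eq_mul, mul_one]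
        rw [this]
        rfl
      rw [h1]
      exact Submodule.smul_mem _ _ (Submodule.subset_span ⟨b, rfl⟩)
    | add x y hx hy => rw [map_add]; exact Submodule.add_mem _ hx hy
  obtain ⟨β, b, hb⟩ := exists_basis_fin_of_span _ hspan hrank
  have hchart : IsChart β J := ⟨b.equivFun, fun t => by
    rw [← hb t]
    ext s
    simp [Pi.single_apply, eq_comm]⟩
  have htop := map_chartIdeal_eq_top_of_isChart (A' := A ⧸ m) β h hchart
  have hle' : chartIdeal β I ≤ m := le_trans (le_iSup (fun β => chartIdeal β I) β) hle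
  have hbot : (chartIdeal β I).map (algebraMap A (A ⧸ m)) = ⊥ := by
    rw [eq_bot_iff]
    calc (chartIdeal β I).map (algebraMap A (A ⧸ m)) ≤ m.map (algebraMap A (A ⧸ m)) :=
          Ideal.map_mono hle'
      _ = ⊥ := Ideal.map_quotient_self m
  rw [hbot] at htop
  exact bot_ne_top htop

/-- **Covering, local case**: over a local ring every point of `Hilb^g` lies in some chart. -/
theorem exists_isChart_of_isLocalRing [IsLocalRing A] {I : Ideal (A ⊗[k] B)} (h : IsHilb g I) :
    ∃ β : Fin g → B, IsChart β I := by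
  by_contra hno
  push Not at hno
  have hle : (⨆ β : Fin g → B, chartIdeal β I) ≤ IsLocalRing.maximalIdeal A :=
    iSup_le fun β => IsLocalRing.le_maximalIdeal
      (fun htop => hno β ((isChart_iff_chartIdeal_eq_top β h).mpr htop))
  rw [iSup_chartIdeal_eq_top h, top_le_iff] at hle
  exact Ideal.IsPrime.ne_top inferInstance hle

/-- **H1, chart loci** (the shape of `ChartFamily.locus`): for a point `I` of `Hilb^g` over `A`
there are ideals `𝔞 β` of `A` covering `Spec A` such that, for every base change `φ : A → A'`,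
the base-changed ideal lies in the chart of `β` iff `𝔞 β` generates the unit ideal of `A'`. -/
theorem exists_chartLocus {I : Ideal (A ⊗[k] B)} (h : IsHilb g I) :
    ∃ 𝔞 : (Fin g → B) → Ideal A, (⨆ β, 𝔞 β) = ⊤ ∧
      ∀ (β : Fin g → B) (A' : Type w') [CommRing A'] [Algebra k A'] (φ : A →ₐ[k] A'),
        IsChart β (I.map (bc B φ)) ↔ (𝔞 β).map φ = ⊤ :=
  ⟨fun β => chartIdeal β I, iSup_chartIdeal_eq_top h, fun β _ _ _ φ => isChart_map_iff β h φ⟩

end Locus

/-! ### Other shapes of the chart condition, and the composite equivalence -/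

section Shapes

variable {k : Type u} [CommRing k] {B : Type v} [CommRing B] [Algebra k B]
variable {A : Type w} [CommRing A] [Algebra k A] {A' : Type w'} [CommRing A'] [Algebra k A']
variable {g : ℕ} {β : Fin g → B}

/-- The chart condition in the shape "the map `A^g → (A ⊗ B) ⧸ I`, `c ↦ [∑ c i ⊗ β i]`, is
bijective". -/
theorem isChart_iff_bijective {I : Ideal (A ⊗[k] B)} :
    IsChart β I ↔
      Function.Bijective (fun c : Fin g → A => Ideal.Quotient.mk I (∑ i, c i ⊗ₜ[k] β i)) := by
  have hfun : ∀ c : Fin g → A, Ideal.Quotient.mk I (∑ i, c i ⊗ₜ[k] β i) =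
      Fintype.linearCombination A (fun i => Ideal.Quotient.mk I ((1 : A) ⊗ₜ[k] β i)) c := by
    intro c
    rw [Fintype.linearCombination_apply, map_sum]
    refine Finset.sum_congr rfl fun i _ => ?_
    have : c i ⊗ₜ[k] β i = c i • ((1 : A) ⊗ₜ[k] β i) := by
      rw [TensorProduct.smul_tmul', smul_eq_mul, mul_one]
    rw [this]
    rfl
  have hfun' : (fun c : Fin g → A => Ideal.Quotient.mk I (∑ i, c i ⊗ₜ[k] β i)) =
      ⇑(Fintype.linearCombination A (fun i => Ideal.Quotient.mk I ((1 : A) ⊗ₜ[k] β i))) :=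
    funext hfun
  rw [hfun']
  constructor
  · rintro ⟨e, he⟩
    have h1 : (Fintype.linearCombination A
        (fun i => Ideal.Quotient.mk I ((1 : A) ⊗ₜ[k] β i))) = e.symm.toLinearMap := by
      apply LinearMap.pi_ext'
      intro t
      apply LinearMap.ext_ring
      rw [LinearMap.comp_apply, LinearMap.comp_apply, LinearMap.single_apply,
        Fintype.linearCombination_apply_single, one_smul, LinearEquiv.coe_coe, ← he t,
        e.symm_apply_apply]
    rw [h1]
    exact e.symm.bijective
  · intro hb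
    refine ⟨(LinearEquiv.ofBijective _ hb).symm, fun t => ?_⟩
    rw [LinearEquiv.symm_apply_eq, LinearEquiv.ofBijective_apply,
      Fintype.linearCombination_apply_single, one_smul]

/-- **H1**: the chart of `β` in the Hilbert functor is represented by `Rβ`. -/
noncomputable def hilbChartEquiv (β : Fin g → B) (A : Type w) [CommRing A] [Algebra k A] :
    (Rβ k β →ₐ[k] A) ≃ {I : Ideal (A ⊗[k] B) // IsChart β I} :=
  (repEquiv A).trans (chartEquiv β A).symm

/-- **H1**: naturality of `hilbChartEquiv`: composition with `φ` is extension of ideals. -/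
theorem hilbChartEquiv_comp (φ : A →ₐ[k] A') (ψ : Rβ k β →ₐ[k] A) :
    (hilbChartEquiv β A' (φ.comp ψ)).1 = (hilbChartEquiv β A ψ).1.map (bc B φ) := by
  change idealOf (repEquiv A' (φ.comp ψ)).2 = (idealOf (repEquiv A ψ).2).map (bc B φ)
  rw [← idealOf_map]
  rfl

/-- The universal chart ideal over `Rβ`. -/
noncomputable def univIdeal (β : Fin g → B) : Ideal (Rβ k β ⊗[k] B) :=
  (hilbChartEquiv β (Rβ k β) (AlgHom.id k _)).1

theorem isChart_univIdeal (β : Fin g → B) : IsChart β (univIdeal (k := k) β) :=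
  (hilbChartEquiv β (Rβ k β) (AlgHom.id k _)).2

/-- Every chart ideal is the pull-back of the universal one along a unique `Rβ →ₐ[k] A`. -/
theorem hilbChartEquiv_eq_map (ψ : Rβ k β →ₐ[k] A) :
    (hilbChartEquiv β A ψ).1 = (univIdeal (k := k) β).map (bc B ψ) := by
  rw [univIdeal, ← hilbChartEquiv_comp, AlgHom.comp_id]

theorem existsUnique_algHom_of_isChart {I : Ideal (A ⊗[k] B)} (hI : IsChart β I) :
    ∃! ψ : Rβ k β →ₐ[k] A, (univIdeal (k := k) β).map (bc B ψ) = I := by
  refine ⟨(hilbChartEquiv β A).symm ⟨I, hI⟩, ?_, fun ψ hψ => ?_⟩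
  · change (univIdeal (k := k) β).map (bc B ((hilbChartEquiv β A).symm ⟨I, hI⟩)) = I
    rw [← hilbChartEquiv_eq_map, Equiv.apply_symm_apply]
  · rw [Equiv.eq_symm_apply]
    apply Subtype.ext
    rw [hilbChartEquiv_eq_map]
    exact hψ

end Shapes

end Fermat.Agent.S25.H491

end
-- ===== PACK-END S25/H491/HilbLocus.lean

-- ===== PACK-BEGIN S25/H10/K0.lean
section
/-
S25, block CECH (helper10): leaves K0 (basics of `IsFGProj`) and K1c, exact statements of
`CechSkel.lean`.  Mathlib + `CechDefs`.
-/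


set_option autoImplicit false

namespace Fermat.Agent.S25.H10

open Polynomial Submodule

universe u v

variable {A : Type u} [CommRing A]

section K0
variable {N : Type v} [AddCommGroup N] [Module A N] {E : Module.End A N}

theorem π_X_pow_smul {n : ℕ} (π : (Fin n → A[X]) →ₗ[A] N)
    (hπ : ∀ w, π ((X : A[X]) • w) = E (π w)) (k : ℕ) (w : Fin n → A[X]) :
    π ((X : A[X]) ^ k • w) = (E ^ k) (π w) := by
  induction k generalizing w with
  | zero => simp
  | succ k ih =>
    rw [pow_succ, mul_smul, ih, hπ, pow_succ, Module.End.mul_apply]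

theorem ι_pow {n : ℕ} (ι : N →ₗ[A] (Fin n → A[X]))
    (hι : ∀ v, ι (E v) = (X : A[X]) • ι v) (k : ℕ) (v : N) :
    ι ((E ^ k) v) = (X : A[X]) ^ k • ι v := by
  induction k generalizing v with
  | zero => simp
  | succ k ih =>
    rw [pow_succ, Module.End.mul_apply, ih, hι, pow_succ, mul_smul]

/-- Every vector of `A[X]^n` is an `A`-linear combination of the `X^k • e_i`. -/
theorem mem_span_X_pow_smul_single {n : ℕ} (w : Fin n → A[X]) :
    w ∈ span A {m : Fin n → A[X] | ∃ (i : Fin n) (k : ℕ),
      m = (X : A[X]) ^ k • (Pi.single i (1 : A[X]) : Fin n → A[X])} := by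
  classical
  have hsingle : ∀ (i : Fin n) (p : A[X]), (Pi.single i p : Fin n → A[X]) ∈
      span A {m : Fin n → A[X] | ∃ (i : Fin n) (k : ℕ),
        m = (X : A[X]) ^ k • (Pi.single i (1 : A[X]) : Fin n → A[X])} := by
    intro i p
    induction p using Polynomial.induction_on' with
    | add p q hp hq =>
      rw [Pi.single_add]
      exact Submodule.add_mem _ hp hq
    | monomial k a =>
      have : (Pi.single i (monomial k a) : Fin n → A[X]) =
          a • ((X : A[X]) ^ k • (Pi.single i (1 : A[X]) : Fin n → A[X])) := by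
        rw [← Pi.single_smul, ← Pi.single_smul]
        congr 1
        rw [smul_eq_mul, mul_one, ← C_mul_X_pow_eq_monomial, Polynomial.smul_eq_C_mul]
      rw [this]
      exact Submodule.smul_mem _ _ (subset_span ⟨i, k, rfl⟩)
  have hw : w = ∑ i, (Pi.single i (w i) : Fin n → A[X]) := by
    ext j : 1
    simp [Finset.sum_apply, Pi.single_apply]
  rw [hw]
  exact Submodule.sum_mem _ fun i _ => hsingle i (w i)

/-- K0a. -/
theorem isFG_of_isFGProj (h : IsFGProj E) : IsFG E := by
  classical
  obtain ⟨n, ι, π, hπι, hι, hπ⟩ := h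
  refine ⟨Finset.univ.image (fun i : Fin n => π (Pi.single i (1 : A[X]))), fun v => ?_⟩
  have hv : v = π (ι v) := by
    have := congrArg (fun f : N →ₗ[A] N => f v) hπι
    simpa using this.symm
  rw [hv]
  have hmem := mem_span_X_pow_smul_single (ι v)
  have := Submodule.mem_map_of_mem (f := π) hmem
  rw [Submodule.map_span] at this
  refine Submodule.span_mono ?_ this
  rintro _ ⟨m, ⟨i, k, rfl⟩, rfl⟩
  refine ⟨π (Pi.single i 1), ?_, k, ?_⟩
  · exact Finset.mem_image.mpr ⟨i, Finset.mem_univ _, rfl⟩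
  · exact π_X_pow_smul π hπ k _

/-- K0b. A retract of `A[X]^n` is projective over `A`. -/
theorem projective_of_isFGProj (h : IsFGProj E) : Module.Projective A N := by
  obtain ⟨n, ι, π, hπι, -, -⟩ := h
  exact Module.Projective.of_split ι π hπι

theorem X_smul_injective (n : ℕ) :
    Function.Injective (fun w : Fin n → A[X] => (X : A[X]) • w) := by
  intro w w' h
  funext i
  have := congrFun h i
  simp only [Pi.smul_apply, smul_eq_mul] at this
  exact (Polynomial.monic_X (R := A)).isRegular.left this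

/-- K0c. `E` is injective on a retract of `A[X]^n`. -/
theorem injective_of_isFGProj (h : IsFGProj E) : Function.Injective E := by
  obtain ⟨n, ι, π, hπι, hι, hπ⟩ := h
  have hιinj : Function.Injective ι := by
    intro a b hab
    have ha := congrArg (fun f : N →ₗ[A] N => f a) hπι
    have hb := congrArg (fun f : N →ₗ[A] N => f b) hπι
    simp only [LinearMap.coe_comp, Function.comp_apply, LinearMap.id_coe, id_eq] at ha hb
    rw [← ha, ← hb, hab]
  intro a b hab
  apply hιinj
  apply X_smul_injective n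
  show (X : A[X]) • ι a = (X : A[X]) • ι b
  rw [← hι, ← hι, hab]

theorem pow_injective_of_isFGProj (h : IsFGProj E) (k : ℕ) : Function.Injective (E ^ k) := by
  induction k with
  | zero => exact fun a b hab => by simpa using hab
  | succ k ih =>
    rw [pow_succ]
    exact fun a b hab => injective_of_isFGProj h (ih hab)

/-- K0f. Typeclass form ⇒ elementary form. -/
theorem isFGProj_of_module [Module A[X] N] [IsScalarTower A A[X] N] [Module.Finite A[X] N]
    [Module.Projective A[X] N] :
    IsFGProj ((Algebra.lsmul A A N (X : A[X])) : Module.End A N) := by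
  obtain ⟨n, f, g, -, -, hfg⟩ := Module.Finite.exists_comp_eq_id_of_projective A[X] N
  refine ⟨n, g.restrictScalars A, f.restrictScalars A, ?_, ?_, ?_⟩
  · ext v
    have := congrArg (fun h : N →ₗ[A[X]] N => h v) hfg
    simpa using this
  · intro v
    simp
  · intro w
    simp

end K0

/-- K1c. A retract contained in a finitely generated submodule is finitely generated. -/
theorem fg_of_le_fg_of_retract {M : Type v} [AddCommGroup M] [Module A M]
    (H M' : Submodule A M) (hM' : M'.FG) (hle : H ≤ M')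
    (p : M →ₗ[A] H) (hp : ∀ h : H, p h = h) : H.FG := by
  have hmap : (M'.map (H.subtype ∘ₗ p)) = H := by
    apply le_antisymm
    · rintro _ ⟨m, -, rfl⟩
      exact (p m).2
    · intro h hh
      refine ⟨h, hle hh, ?_⟩
      have := hp ⟨h, hh⟩
      simp only [LinearMap.coe_comp, Function.comp_apply, Submodule.coe_subtype]
      rw [this]
  rw [← hmap]
  exact hM'.map _

end Fermat.Agent.S25.H10

end
-- ===== PACK-END S25/H10/K0.lean

-- ===== PACK-BEGIN S25/H310/LocExt.lean
section
/-
S25, block CECH, leaf K5 (helper310), part 1: extension of compatible families along the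
localisation `r0 : N0 → N01`, and the `A`-linear retraction of `r0`.

`N01` is the localisation of `N0` away from `x` (`r0` injective, `T` invertible, `loc0`), i.e. the
colimit of `N0 →[X0] N0 →[X0] ⋯`.  Hence a family `g k : N0 →ₗ[A] P` with
`g (k + 1) ∘ X0 = g k` glues to a unique `A`-linear `G : N01 → P` with `G z = g k n` whenever
`T ^ k z = r0 n` (`exists_locExt`).  Applied to `g k = π ∘ divX ^ k ∘ ι` it yields an `A`-linear
retraction of `r0` (`exists_retraction_r0`): `r0` is a split injection of `A`-modules, so it stays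
injective after every base change.
-/


set_option autoImplicit false

namespace Fermat.Agent.S25.H310

open Polynomial TensorProduct Fermat.Agent.S25.H10

universe u v w

variable {A : Type u} [CommRing A] {N0 N1 N01 : Type v}
  [AddCommGroup N0] [AddCommGroup N1] [AddCommGroup N01]
  [Module A N0] [Module A N1] [Module A N01]

section LocExt

variable {P : Type w} [AddCommGroup P] [Module A P]

/-- A compatible family is constant along `X0`-shifts. -/
theorem locFamily_add_pow (D : CechOps A N0 N1 N01) (g : ℕ → N0 →ₗ[A] P)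
    (hg : ∀ k n, g (k + 1) (D.X0 n) = g k n) (k j : ℕ) (n : N0) :
    g (k + j) ((D.X0 ^ j) n) = g k n := by
  induction j generalizing n with
  | zero => simp
  | succ j ih =>
    rw [pow_succ', Module.End.mul_apply, ← add_assoc, hg, ih]

/-- Two presentations of the same element of `N01` give the same value of a compatible family. -/
theorem locFamily_eq (D : CechOps A N0 N1 N01) (hr0 : Function.Injective D.r0)
    (g : ℕ → N0 →ₗ[A] P) (hg : ∀ k n, g (k + 1) (D.X0 n) = g k n)
    (z : N01) (k k' : ℕ) (n n' : N0) (h : (D.T ^ k) z = D.r0 n) (h' : (D.T ^ k') z = D.r0 n') :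
    g k n = g k' n' := by
  have h1 : (D.X0 ^ k') n = (D.X0 ^ k) n' := by
    apply hr0
    rw [D.r0_X0_pow, D.r0_X0_pow, ← h, ← h', ← Module.End.mul_apply, ← Module.End.mul_apply,
      ← pow_add, ← pow_add, add_comm]
  calc g k n = g (k + k') ((D.X0 ^ k') n) := (locFamily_add_pow D g hg k k' n).symm
    _ = g (k' + k) ((D.X0 ^ k) n') := by rw [h1, add_comm]
    _ = g k' n' := locFamily_add_pow D g hg k' k n'

/-- **Extension along the localisation.**  A family `g k : N0 →ₗ[A] P` compatible with `X0`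
extends uniquely to `N01`. -/
theorem exists_locExt (D : CechOps A N0 N1 N01) (hr0 : Function.Injective D.r0)
    (g : ℕ → N0 →ₗ[A] P) (hg : ∀ k n, g (k + 1) (D.X0 n) = g k n) :
    ∃ G : N01 →ₗ[A] P, ∀ (z : N01) (k : ℕ) (n : N0), (D.T ^ k) z = D.r0 n → G z = g k n := by
  classical
  choose kz nz hz using D.loc0
  have key : ∀ (z : N01) (k : ℕ) (n : N0), (D.T ^ k) z = D.r0 n → g (kz z) (nz z) = g k n :=
    fun z k n h => locFamily_eq D hr0 g hg z (kz z) k (nz z) n (hz z) h
  refine ⟨{ toFun := fun z => g (kz z) (nz z), map_add' := ?_, map_smul' := ?_ }, key⟩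
  · intro z1 z2
    have h12 : (D.T ^ (kz z1 + kz z2)) (z1 + z2) =
        D.r0 ((D.X0 ^ kz z2) (nz z1) + (D.X0 ^ kz z1) (nz z2)) := by
      rw [map_add, map_add, D.r0_X0_pow, D.r0_X0_pow, ← hz z1, ← hz z2,
        ← Module.End.mul_apply, ← Module.End.mul_apply, ← pow_add, ← pow_add,
        add_comm (kz z2) (kz z1)]
    rw [key (z1 + z2) _ _ h12, map_add, locFamily_add_pow D g hg, add_comm (kz z1) (kz z2),
      locFamily_add_pow D g hg]
  · intro a z
    have h1 : (D.T ^ kz z) (a • z) = D.r0 (a • nz z) := by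
      rw [map_smul, map_smul, hz z]
    rw [key (a • z) _ _ h1, map_smul, RingHom.id_apply]

/-- Uniqueness of the extension. -/
theorem locExt_unique (D : CechOps A N0 N1 N01) (g : ℕ → N0 →ₗ[A] P)
    (G G' : N01 →ₗ[A] P)
    (hG : ∀ (z : N01) (k : ℕ) (n : N0), (D.T ^ k) z = D.r0 n → G z = g k n)
    (hG' : ∀ (z : N01) (k : ℕ) (n : N0), (D.T ^ k) z = D.r0 n → G' z = g k n) : G = G' := by
  ext z
  obtain ⟨k, n, h⟩ := D.loc0 z
  rw [hG z k n h, hG' z k n h]

end LocExt

section DivX

variable (A) (n : ℕ)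

/-- Componentwise `divX` on `A[X]^n`, as an `A`-linear map. -/
noncomputable def divXVec : (Fin n → A[X]) →ₗ[A] (Fin n → A[X]) where
  toFun w i := (w i).divX
  map_add' w w' := by
    ext i j
    simp
  map_smul' a w := by
    ext i j
    simp

@[simp] theorem divXVec_apply (w : Fin n → A[X]) (i : Fin n) :
    divXVec A n w i = (w i).divX := rfl

@[simp] theorem divXVec_X_smul (w : Fin n → A[X]) : divXVec A n ((X : A[X]) • w) = w := by
  ext i j
  simp

theorem divXVec_pow_succ_X_smul (k : ℕ) (w : Fin n → A[X]) :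
    ((divXVec A n) ^ (k + 1)) ((X : A[X]) • w) = ((divXVec A n) ^ k) w := by
  rw [pow_succ, Module.End.mul_apply, divXVec_X_smul]

end DivX

/-- **Retraction of the restriction map.**  If `N0` is an `X`-equivariant retract of `A[X]^n` and
`r0 : N0 → N01` is injective, then `r0` has an `A`-linear retraction. -/
theorem exists_retraction_r0 (D : CechOps A N0 N1 N01) (h0 : IsFGProj D.X0)
    (hr0 : Function.Injective D.r0) : ∃ s : N01 →ₗ[A] N0, s ∘ₗ D.r0 = LinearMap.id := by
  obtain ⟨n, ι, π, hπι, hι, -⟩ := h0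
  obtain ⟨G, hG⟩ := exists_locExt D hr0 (fun k => π ∘ₗ ((divXVec A n) ^ k) ∘ₗ ι) (by
    intro k m
    simp only [LinearMap.comp_apply]
    rw [hι, divXVec_pow_succ_X_smul])
  refine ⟨G, ?_⟩
  ext m
  have := hG (D.r0 m) 0 m (by simp)
  rw [LinearMap.comp_apply, this]
  simpa using LinearMap.congr_fun hπι m

/-- The restriction map stays injective after tensoring with any module. -/
theorem r0_lTensor_injective (D : CechOps A N0 N1 N01) (h0 : IsFGProj D.X0)
    (hr0 : Function.Injective D.r0) (M : Type w) [AddCommGroup M] [Module A M] :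
    Function.Injective (D.r0.lTensor M) := by
  obtain ⟨s, hs⟩ := exists_retraction_r0 D h0 hr0
  have h1 : s.lTensor M ∘ₗ D.r0.lTensor M = LinearMap.id := by
    rw [← LinearMap.lTensor_comp, hs, LinearMap.lTensor_id]
  exact Function.LeftInverse.injective (g := s.lTensor M) (fun x => LinearMap.congr_fun h1 x)

end Fermat.Agent.S25.H310

end
-- ===== PACK-END S25/H310/LocExt.lean

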