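import Mathlib
import Fermat.Agent.Pack.S43MC.G0E0L3
import Fermat.Agent.Pack.S44C.G0E0L2
import Fermat.Agent.Pack.S43MC.G0E0L0
import Fermat.Agent.Pack.S43MC.G0E0L1
import Fermat.Agent.Pack.S43MC.G0E0L2
import Fermat.Agent.Pack.S43MC.G0E1L0
import Fermat.Agent.Pack.S43MC.G0E1L2
import Fermat.Agent.Pack.S43MC.G0E4L0
import Fermat.Agent.Pack.Fast891

-- ===== PACK-BEGIN Lib/Newform/H683/Eigen.lean
section
/-
NEWFORM library (helper683) — part 2: the dictionary

  `IsNormalizedEigenform f`  ⟺  `a₁ = 1` and `f` is an eigenvector of all `T_p` (`p ∤ N`) and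
                                  all `U_p` (`p ∣ N`).
-/


set_option autoImplicit false

open CongruenceSubgroup ModularFormClass ModularForm UpperHalfPlane

namespace Fermat.Agent.Lib.Newform.H683

variable {N : ℕ}

/-! ### From the multiplicative relations to the Hecke relations -/

/-- `a(p^(e+1)) + p a(p^(e-1)) = a_p a(p^e)` for `p ∤ N` (with the convention that the second
term is absent for `e = 0`). -/
theorem coeff_mul_prime_of_not_dvd
    {f : CuspForm (Gamma0 N) 2} (hf : f.IsNormalizedEigenform) {p : ℕ} (hp : p.Prime)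
    (hpN : ¬ p ∣ N) (n : ℕ) :
    qCoeff ⇑f (n * p) + (if p ∣ n then (p : ℂ) * qCoeff ⇑f (n / p) else 0)
      = qCoeff ⇑f p * qCoeff ⇑f n := by
  rcases Nat.eq_zero_or_pos n with rfl | hn
  · simp [qCoeff_zero_cusp]
  obtain ⟨e, m, hm, rfl⟩ := Nat.exists_eq_pow_mul_and_not_dvd hn.ne' p hp.ne_one
  have hcop : ∀ j, Nat.Coprime (p ^ j) m := fun j =>
    Nat.Coprime.pow_left j ((Nat.Prime.coprime_iff_not_dvd hp).mpr hm)
  have e1 : p ^ e * m * p = p ^ (e + 1) * m := by ring
  rw [e1, hf.qCoeff_mul_of_coprime _ _ (hcop _), hf.qCoeff_mul_of_coprime _ _ (hcop _)]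
  rcases Nat.eq_zero_or_pos e with rfl | he
  · have : ¬ p ∣ p ^ 0 * m := by simpa using hm
    rw [if_neg this]
    simp [hf.qCoeff_one]
  · obtain ⟨r, rfl⟩ : ∃ r, e = r + 1 := ⟨e - 1, by omega⟩
    have hdvd : p ∣ p ^ (r + 1) * m := Dvd.dvd.mul_right (dvd_pow_self p (by omega)) m
    rw [if_pos hdvd]
    have e2 : p ^ (r + 1) * m / p = p ^ r * m := by
      rw [pow_succ, mul_assoc, mul_comm p m, ← mul_assoc]
      exact Nat.mul_div_cancel _ hp.pos
    rw [e2, hf.qCoeff_mul_of_coprime _ _ (hcop _), hf.qCoeff_prime_pow_of_not_dvd p r hp hpN]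
    ring

theorem coeff_mul_prime_of_dvd
    {f : CuspForm (Gamma0 N) 2} (hf : f.IsNormalizedEigenform) {p : ℕ} (hp : p.Prime)
    (hpN : p ∣ N) (n : ℕ) :
    qCoeff ⇑f (n * p) = qCoeff ⇑f p * qCoeff ⇑f n := by
  rcases Nat.eq_zero_or_pos n with rfl | hn
  · simp [qCoeff_zero_cusp]
  obtain ⟨e, m, hm, rfl⟩ := Nat.exists_eq_pow_mul_and_not_dvd hn.ne' p hp.ne_one
  have hcop : ∀ j, Nat.Coprime (p ^ j) m := fun j =>
    Nat.Coprime.pow_left j ((Nat.Prime.coprime_iff_not_dvd hp).mpr hm)
  have e1 : p ^ e * m * p = p ^ (e + 1) * m := by ring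
  rw [e1, hf.qCoeff_mul_of_coprime _ _ (hcop _), hf.qCoeff_mul_of_coprime _ _ (hcop _)]
  rcases Nat.eq_zero_or_pos e with rfl | he
  · simp [hf.qCoeff_one]
  · obtain ⟨r, rfl⟩ : ∃ r, e = r + 1 := ⟨e - 1, by omega⟩
    rw [hf.qCoeff_prime_pow_of_dvd p r hp hpN]
    ring

/-- **(E1)** A normalized eigenform is an eigenvector of `T_p`, `p ∤ N`, with eigenvalue `a_p`. -/
theorem heckeTLin_eq_of_eigenform
    {f : CuspForm (Gamma0 N) 2} (hf : f.IsNormalizedEigenform) {p : ℕ} (hp : p.Prime)
    (hpN : ¬ p ∣ N) :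
    CuspForm.heckeTLin 2 hp hpN f = qCoeff ⇑f p • f := by
  apply cusp_ext_qCoeff
  intro n
  rw [qCoeff_smul_cusp, CuspForm.coe_heckeTLin_apply, qCoeff_heckeT_cusp 2 f hp.ne_zero,
    coeffHeckeT_apply, ← coeff_mul_prime_of_not_dvd hf hp hpN n]
  norm_num

/-- **(E1)** function-level version. -/
theorem heckeT_eq_of_eigenform
    {f : CuspForm (Gamma0 N) 2} (hf : f.IsNormalizedEigenform) {p : ℕ} (hp : p.Prime)
    (hpN : ¬ p ∣ N) :
    heckeT 2 p ⇑f = qCoeff ⇑f p • ⇑f := by
  have := congrArg (fun g : CuspForm (Gamma0 N) 2 => (⇑g : ℍ → ℂ)) (heckeTLin_eq_of_eigenform hf hp hpN)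
  simpa using this

/-- **(E1)** A normalized eigenform is an eigenvector of `U_p`, `p ∣ N`, with eigenvalue `a_p`. -/
theorem heckeULin_eq_of_eigenform [NeZero N]
    {f : CuspForm (Gamma0 N) 2} (hf : f.IsNormalizedEigenform) {p : ℕ} (hp : p.Prime)
    (hpN : p ∣ N) :
    CuspForm.heckeULin 2 hpN f = qCoeff ⇑f p • f := by
  apply cusp_ext_qCoeff
  intro n
  rw [qCoeff_smul_cusp, CuspForm.coe_heckeULin_apply, qCoeff_heckeU_cusp 2 f hp.ne_zero,
    coeffHeckeU_apply, coeff_mul_prime_of_dvd hf hp hpN n]

theorem heckeU_eq_of_eigenform [NeZero N]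
    {f : CuspForm (Gamma0 N) 2} (hf : f.IsNormalizedEigenform) {p : ℕ} (hp : p.Prime)
    (hpN : p ∣ N) :
    heckeU 2 p ⇑f = qCoeff ⇑f p • ⇑f := by
  have := congrArg (fun g : CuspForm (Gamma0 N) 2 => (⇑g : ℍ → ℂ)) (heckeULin_eq_of_eigenform hf hp hpN)
  simpa using this

/-! ### From the Hecke relations to the multiplicative relations -/

/-- Coefficientwise form of `T_p g = c • g`. -/
theorem coeff_of_heckeT_eq (g : CuspForm (Gamma0 N) 2) {p : ℕ} (hp : p.Prime) (c : ℂ)
    (h : heckeT 2 p ⇑g = c • ⇑g) (n : ℕ) :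
    qCoeff ⇑g (n * p) + (if p ∣ n then (p : ℂ) * qCoeff ⇑g (n / p) else 0)
      = c * qCoeff ⇑g n := by
  have h1 := qCoeff_heckeT_cusp 2 g hp.ne_zero n
  rw [h, coeffHeckeT_apply] at h1
  have h2 := qCoeff_smul_cusp 2 c g n
  rw [FunLike.coe_smul] at h2
  rw [← h2, h1]
  norm_num

/-- Coefficientwise form of `U_p g = c • g`. -/
theorem coeff_of_heckeU_eq (g : CuspForm (Gamma0 N) 2) {p : ℕ} (hp : p.Prime) (c : ℂ)
    (h : heckeU 2 p ⇑g = c • ⇑g) (n : ℕ) :
    qCoeff ⇑g (n * p) = c * qCoeff ⇑g n := by
  have h1 := qCoeff_heckeU_cusp 2 g hp.ne_zero n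
  rw [h, coeffHeckeU_apply] at h1
  have h2 := qCoeff_smul_cusp 2 c g n
  rw [FunLike.coe_smul] at h2
  rw [← h2, h1]

/-- If `g` is an eigenvector of every `T_p` (`p ∤ N`) and `U_p` (`p ∣ N`) and `a₁(g) = 0`,
then `g = 0`. -/
theorem eq_zero_of_eigen_of_coeff_one_eq_zero (g : CuspForm (Gamma0 N) 2)
    (hT : ∀ p : ℕ, p.Prime → ¬ p ∣ N → ∃ c : ℂ, heckeT 2 p ⇑g = c • ⇑g)
    (hU : ∀ p : ℕ, p.Prime → p ∣ N → ∃ c : ℂ, heckeU 2 p ⇑g = c • ⇑g)
    (h1 : qCoeff ⇑g 1 = 0) : g = 0 := by
  apply cusp_eq_zero_of_qCoeff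
  intro n
  induction n using Nat.strong_induction_on with
  | _ n ih =>
    rcases Nat.eq_zero_or_pos n with rfl | hn
    · exact qCoeff_zero_cusp 2 g
    rcases Nat.eq_or_lt_of_le (Nat.succ_le_of_lt hn) with h | h
    · rw [← h]; exact h1
    · have hn1 : n ≠ 1 := by omega
      obtain ⟨p, hp, hpn⟩ := Nat.exists_prime_and_dvd hn1
      obtain ⟨m, rfl⟩ := hpn
      have hm : 0 < m := Nat.pos_of_ne_zero (by rintro rfl; simp at hn)
      have hlt : m < p * m := by
        have := hp.one_lt
        nlinarith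
      rw [mul_comm p m]
      by_cases hpN : p ∣ N
      · obtain ⟨c, hc⟩ := hU p hp hpN
        rw [coeff_of_heckeU_eq g hp c hc m, ih m hlt, mul_zero]
      · obtain ⟨c, hc⟩ := hT p hp hpN
        have := coeff_of_heckeT_eq g hp c hc m
        rw [ih m hlt, mul_zero] at this
        by_cases hpm : p ∣ m
        · rw [if_pos hpm, ih (m / p) (lt_of_le_of_lt (Nat.div_le_self m p) hlt), mul_zero,
            add_zero] at this
          exact this
        · rw [if_neg hpm, add_zero] at this
          exact this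

/-- The eigenvalue of `T_p` on a normalised form is `a_p`. -/
theorem eigenvalue_T_eq_coeff (g : CuspForm (Gamma0 N) 2) (h1 : qCoeff ⇑g 1 = 1)
    {p : ℕ} (hp : p.Prime) (c : ℂ) (h : heckeT 2 p ⇑g = c • ⇑g) : c = qCoeff ⇑g p := by
  have := coeff_of_heckeT_eq g hp c h 1
  have hp1 : ¬ p ∣ 1 := fun h => hp.one_lt.ne' (Nat.dvd_one.mp h)
  rw [if_neg hp1, h1, one_mul, add_zero, mul_one] at this
  exact this.symm

/-- The eigenvalue of `U_p` on a normalised form is `a_p`. -/
theorem eigenvalue_U_eq_coeff (g : CuspForm (Gamma0 N) 2) (h1 : qCoeff ⇑g 1 = 1)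
    {p : ℕ} (hp : p.Prime) (c : ℂ) (h : heckeU 2 p ⇑g = c • ⇑g) : c = qCoeff ⇑g p := by
  have := coeff_of_heckeU_eq g hp c h 1
  rw [h1, one_mul, mul_one] at this
  exact this.symm

/-- **(E1')** A cusp form with `a₁ = 1` which is an eigenvector of every `T_p` (`p ∤ N`) and every
`U_p` (`p ∣ N`) is a normalized eigenform in the sense of the Prelude. -/
theorem isNormalizedEigenform_of_eigen (g : CuspForm (Gamma0 N) 2) (h1 : qCoeff ⇑g 1 = 1)
    (hT : ∀ p : ℕ, p.Prime → ¬ p ∣ N → ∃ c : ℂ, heckeT 2 p ⇑g = c • ⇑g)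
    (hU : ∀ p : ℕ, p.Prime → p ∣ N → ∃ c : ℂ, heckeU 2 p ⇑g = c • ⇑g) :
    g.IsNormalizedEigenform := by
  -- the two recursions
  have recT : ∀ p : ℕ, p.Prime → ¬ p ∣ N → ∀ n : ℕ,
      qCoeff ⇑g (n * p) + (if p ∣ n then (p : ℂ) * qCoeff ⇑g (n / p) else 0)
        = qCoeff ⇑g p * qCoeff ⇑g n := by
    intro p hp hpN n
    obtain ⟨c, hc⟩ := hT p hp hpN
    rw [← eigenvalue_T_eq_coeff g h1 hp c hc]
    exact coeff_of_heckeT_eq g hp c hc n
  have recU : ∀ p : ℕ, p.Prime → p ∣ N → ∀ n : ℕ,
      qCoeff ⇑g (n * p) = qCoeff ⇑g p * qCoeff ⇑g n := by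
    intro p hp hpN n
    obtain ⟨c, hc⟩ := hU p hp hpN
    rw [← eigenvalue_U_eq_coeff g h1 hp c hc]
    exact coeff_of_heckeU_eq g hp c hc n
  refine ⟨h1, ?_, ?_, ?_⟩
  · -- multiplicativity
    intro m n
    induction n using Nat.strong_induction_on generalizing m with
    | _ n ih =>
      intro hmn
      rcases Nat.eq_zero_or_pos n with rfl | hn
      · have hm1 : m = 1 := by simpa using hmn
        subst hm1
        simp [h1]
      rcases Nat.eq_or_lt_of_le (Nat.succ_le_of_lt hn) with h | h
      · rw [← h]; simp [h1]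
      have hn1 : n ≠ 1 := by omega
      obtain ⟨p, hp, hpn⟩ := Nat.exists_prime_and_dvd hn1
      obtain ⟨n', rfl⟩ := hpn
      have hn' : 0 < n' := Nat.pos_of_ne_zero (by rintro rfl; simp at hn)
      have hlt : n' < p * n' := by
        have := hp.one_lt
        nlinarith
      have hmn' : Nat.Coprime m n' := Nat.Coprime.coprime_mul_left_right hmn
      have hmp : Nat.Coprime m p := Nat.Coprime.coprime_mul_right_right hmn
      have hpm : ¬ p ∣ m := fun h =>
        hp.one_lt.ne' (Nat.Coprime.eq_one_of_dvd hmp.symm h)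
      have e1 : m * (p * n') = m * n' * p := by ring
      have e2 : p * n' = n' * p := by ring
      have ihn' := ih n' hlt m hmn'
      by_cases hpN : p ∣ N
      · rw [e1, recU p hp hpN (m * n'), ihn', e2, recU p hp hpN n']
        ring
      · have r1 := recT p hp hpN (m * n')
        have r2 := recT p hp hpN n'
        by_cases hpn' : p ∣ n'
        · have hd : p ∣ m * n' := Dvd.dvd.mul_left hpn' m
          rw [if_pos hd] at r1
          rw [if_pos hpn'] at r2
          have hlt2 : n' / p < p * n' := lt_of_le_of_lt (Nat.div_le_self n' p) hlt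
          have hcop2 : Nat.Coprime m (n' / p) :=
            Nat.Coprime.coprime_dvd_right (Nat.div_dvd_of_dvd hpn') hmn'
          have e3 : m * n' / p = m * (n' / p) := Nat.mul_div_assoc m hpn'
          rw [e3, ih (n' / p) hlt2 m hcop2, ihn'] at r1
          rw [e1, e2]
          linear_combination r1 - qCoeff ⇑g m * r2
        · have hd : ¬ p ∣ m * n' := fun h =>
            (hp.dvd_mul.mp h).elim hpm hpn'
          rw [if_neg hd, add_zero, ihn'] at r1
          rw [if_neg hpn', add_zero] at r2
          rw [e1, e2, r1, r2]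
          ring
  · intro p r hp hpN
    have := recT p hp hpN (p ^ (r + 1))
    have hd : p ∣ p ^ (r + 1) := dvd_pow_self p (by omega)
    rw [if_pos hd] at this
    have e1 : p ^ (r + 1) * p = p ^ (r + 2) := by ring
    have e2 : p ^ (r + 1) / p = p ^ r := by
      rw [pow_succ]; exact Nat.mul_div_cancel _ hp.pos
    rw [e1, e2] at this
    linear_combination this
  · intro p r hp hpN
    have := recU p hp hpN (p ^ (r + 1))
    have e1 : p ^ (r + 1) * p = p ^ (r + 2) := by ring
    rw [e1] at this
    exact this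

end Fermat.Agent.Lib.Newform.H683

end
-- ===== PACK-END Lib/Newform/H683/Eigen.lean

-- ===== PACK-BEGIN Ribet/Glue.lean
section


/-!
# Row RIBET: L0 ⇐ L1 glue (sorry-free)

* `S44_of_S39`   : S44 ⇐ S39 + Frey model at `p` + irreducibility transport + model transport.
* `S43_of`       : S43 ⇐ Mazur principle + auxiliary prime + level raising (S41) + old/new
                   dichotomy + Ribet pivot + S05 + bad-prime lemma.
-/

set_option autoImplicit false

open WeierstrassCurve WeierstrassCurve.Affine WeierstrassCurve.Affine.Point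
open CuspForm ModularFormClass UpperHalfPlane

namespace Fermat.Agent.Ribet

open Spec

theorem not_dvd_div_of_sq_not_dvd {N q : ℕ} (hq : q.Prime) (hqN : q ∣ N)
    (hsq : ¬ q ^ 2 ∣ N) : ¬ q ∣ N / q := by
  intro h
  apply hsq
  obtain ⟨k, rfl⟩ := hqN
  rw [Nat.mul_div_cancel_left k hq.pos] at h
  obtain ⟨m, rfl⟩ := h
  exact ⟨m, by ring⟩

/-- GLUE: S44 ⇐ S39 + (G1a) + (G1b) + (G2). -/
theorem S44_of_S39 (h39 : S39Statement) (hFM : FreyModelAtPStatement)
    (hIrr : IrrTransportStatement) (hMT : ModelTransportStatement) : S44Statement := by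
  intro P N hcond hpN hirr hmod
  obtain ⟨W, hW, hΔ, hsemi, hpeu⟩ := hFM P (hcond.p_dvd_abc hpN)
  have hres := hMT P N hcond.pos hmod W hW
  have hp2 : P.p ≠ 2 := by have := P.hp5; omega
  have hsq : ¬ P.p ^ 2 ∣ N := hcond.sq_not_dvd P.pp
  obtain ⟨f, 𝔪, hf, hmax, hp, hc⟩ :=
    h39 W hΔ P.pp hp2 hsemi (hIrr _ W P.p hW hirr) hpeu hcond.pos hpN hsq hres
  exact ⟨N / P.p, Nat.div_dvd_of_dvd hpN, not_dvd_div_of_sq_not_dvd P.pp hpN hsq,
    f, W, 𝔪, hf, hW, hmax, hp, hc⟩

/-- The level-raising congruence at an auxiliary prime. -/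
theorem levelRaising_hyp_of_aux {P : FreyPackage} {N q' : ℕ}
    {f : CuspForm (CongruenceSubgroup.Gamma0 N) 2} {W : WeierstrassCurve ℤ}
    {𝔪 : Ideal (integralClosure ℤ ℂ)} (hwit : P.IsCongruentWitness N f W 𝔪)
    (hq' : q'.Prime) (hq'N : ¬ q' ∣ N) (hq'p : q' ≠ P.p) (hgood : W.IsGoodPrimeFor q')
    (h1 : P.p ∣ q' + 1) (hap : (P.p : ℤ) ∣ W.apOfModel q') :
    ∃ a : integralClosure ℤ ℂ, (a : ℂ) = ModularFormClass.qCoeff f q' ∧
      a ^ 2 - ((q' : integralClosure ℤ ℂ) + 1) ^ 2 ∈ 𝔪 := by
  obtain ⟨-, -, -, hp, hc⟩ := hwit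
  obtain ⟨a, ha, ham⟩ := hc q' hq' hgood hq'N hq'p
  refine ⟨a, ha, ?_⟩
  have hW0 : ((W.apOfModel q' : ℤ) : integralClosure ℤ ℂ) ∈ 𝔪 := by
    obtain ⟨k, hk⟩ := hap
    rw [hk]
    push_cast
    exact 𝔪.mul_mem_right _ hp
  have hq0 : ((q' : integralClosure ℤ ℂ) + 1) ∈ 𝔪 := by
    obtain ⟨k, hk⟩ := h1
    have : ((q' : integralClosure ℤ ℂ) + 1) = ((q' + 1 : ℕ) : integralClosure ℤ ℂ) := by
      push_cast; rfl
    rw [this, hk]
    push_cast
    exact 𝔪.mul_mem_right _ hp
  have ha0 : a ∈ 𝔪 := by
    have := 𝔪.add_mem ham hW0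
    simpa using this
  have e : a ^ 2 - ((q' : integralClosure ℤ ℂ) + 1) ^ 2 =
      a * a - ((q' : integralClosure ℤ ℂ) + 1) * ((q' : integralClosure ℤ ℂ) + 1) := by ring
  rw [e]
  exact 𝔪.sub_mem (𝔪.mul_mem_left _ ha0) (𝔪.mul_mem_left _ hq0)

/-- GLUE: S43 ⇐ L1 pieces. -/
theorem S43_of (hMP : MazurPrincipleStatement) (hAux : AuxPrimeStatement)
    (hLR : LevelRaisingStatement) (hON : OldNewStatement) (hPiv : RibetPivotStatement)
    (h05 : S05Statement) (hBad : FreyBadPrimeStatement) : S43Statement := by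
  intro P N q hcond hq hq2 hqp hqN hirr hmod hunr
  have hsq : ¬ q ^ 2 ∣ N := hcond.sq_not_dvd hq
  refine ⟨N / q, Nat.div_dvd_of_dvd hqN, not_dvd_div_of_sq_not_dvd hq hqN hsq, ?_⟩
  by_cases h1 : P.p ∣ q - 1
  · -- hard case `q ≡ 1 mod p`: auxiliary prime, level raising, pivot, Mazur at `q'`
    obtain ⟨f, W, 𝔪, hwit⟩ := hmod
    have hwit' : P.IsCongruentWitness N f W 𝔪 := hwit
    obtain ⟨q', hq', hq'N, hq'p, hq'2, hgood, hq'1, hap⟩ := hAux P N W hcond.pos hwit.2.1 hirr
    have hqq' : q ≠ q' := fun h => hq'N (h ▸ hqN)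
    obtain ⟨g, W', 𝔪', hgwit, hnew'⟩ :=
      hLR P N q' f W 𝔪 hcond.pos hq' hq'N hq'p hirr hwit'
        (levelRaising_hyp_of_aux hwit' hq' hq'N hq'p hgood hq'1 hap)
    have hLpos : 0 < N * q' := Nat.mul_pos hcond.pos hq'.pos
    have hqL : q ∣ N * q' := hqN.mul_right q'
    have hcop : Nat.Coprime q q' := (Nat.coprime_primes hq hq').2 hqq'
    have hq'L : q' ∣ N * q' := Dvd.intro_left N rfl
    have hsqL : ¬ q ^ 2 ∣ N * q' := by
      intro h
      exact hsq ((Nat.Coprime.pow_left 2 hcop).dvd_of_dvd_mul_right h)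
    have hsq'L : ¬ q' ^ 2 ∣ N * q' := by
      intro h
      rw [pow_two] at h
      exact hq'N (Nat.dvd_of_mul_dvd_mul_right hq'.pos h)
    have hmodL : P.ModularRepOfLevel (N * q' / q) := by
      rcases hON (N * q') q hLpos hq hqL hsqL g hgwit.1 with hnew | ⟨g', hg', hcoef⟩
      · exact hPiv P hLpos hq hq' hqq' hqp hq'p hqL hsqL hq'L hsq'L hirr hunr g W' 𝔪'
          hgwit hnew hnew'
      · obtain ⟨-, hW', hmax', hp', hc'⟩ := hgwit
        refine ⟨g', W', 𝔪', hg', hW', hmax', hp', ?_⟩
        intro ℓ hℓ hgoodℓ hℓL hℓp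
        by_cases hℓNq : ℓ ∣ N * q'
        · exfalso
          -- then `ℓ = q`, but `W'` is bad at `q`
          have hℓq : ℓ = q := by
            by_contra hne
            apply hℓL
            obtain ⟨k, hk⟩ := hqL
            rw [hk, Nat.mul_div_cancel_left k hq.pos]
            have hcop' : Nat.Coprime ℓ q := (Nat.coprime_primes hℓ hq).2 hne
            rw [hk] at hℓNq
            exact hcop'.dvd_of_dvd_mul_left hℓNq
          subst hℓq
          exact hBad P W' ℓ hW' hℓ hq2 (hcond.support ℓ hℓ hqN) hgoodℓ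
        · obtain ⟨a, ha, ham⟩ := hc' ℓ hℓ hgoodℓ hℓNq hℓp
          exact ⟨a, by rw [ha, hcoef ℓ hℓ hℓNq], ham⟩
    -- now remove `q'` by Mazur's principle (`q' ≡ -1 mod p`, `p ≥ 5`)
    obtain ⟨k, rfl⟩ := hqN
    have hkpos : 0 < k := Nat.pos_of_mul_pos_left hcond.pos |> fun h => by
      rcases Nat.eq_zero_or_pos k with h0 | h0
      · subst h0; simp at hcond; exact absurd hcond.pos (by simp)
      · exact h0
    have e1 : q * k * q' / q = k * q' := by
      rw [mul_assoc, Nat.mul_div_cancel_left _ hq.pos]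
    have e2 : q * k / q = k := Nat.mul_div_cancel_left k hq.pos
    rw [e1] at hmodL
    rw [e2]
    have hq'k : ¬ q' ∣ k := fun h => hq'N (h.mul_left q)
    have hne1 : ¬ P.p ∣ q' - 1 := by
      intro h
      have h5 := P.hp5
      have hq'2' : 2 ≤ q' := hq'.two_le
      have : P.p ∣ (q' + 1) - (q' - 1) := Nat.dvd_sub hq'1 h
      have e : (q' + 1) - (q' - 1) = 2 := by omega
      rw [e] at this
      have := Nat.le_of_dvd (by norm_num) this
      omega
    have h := hMP P (L := k * q') (q := q') (Nat.mul_pos hkpos hq'.pos) hq' hq'p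
      (Dvd.intro_left k rfl)
      (by
        intro h
        rw [pow_two] at h
        exact hq'k (Nat.dvd_of_mul_dvd_mul_right hq'.pos h))
      hirr hmodL (h05 P hq' hq'2 hq'p) hne1
    rwa [Nat.mul_div_cancel k hq'.pos] at h
  · exact hMP P hcond.pos hq hqp hqN hsq hirr hmod hunr h1

end Fermat.Agent.Ribet

end
-- ===== PACK-END Ribet/Glue.lean

-- ===== PACK-BEGIN S25/H627/CurveSchemeA.lean
section



/-!
# S25, block CURVE, leaf C1 (scheme level, part A) — helper627

For `c : C ⟶ Spec k` smooth of relative dimension one, `C` integral, `k` algebraically closed: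
standard smooth / Dedekind charts, all stalks are valuation rings, stalks at closed points are
discrete valuation rings, `C` is Jacobson and locally noetherian.
-/

set_option autoImplicit false
set_option linter.style.haveILetI false

open AlgebraicGeometry CategoryTheory

universe u

namespace Fermat.Agent.S25.H627

/-- Every open of `Spec k` containing a point is `⊤`. -/
theorem opens_spec_field_eq_top (k : Type u) [Field k] (U : (Spec (CommRingCat.of k)).Opens)
    (y : Spec (CommRingCat.of k)) (hy : y ∈ U) : U = ⊤ := by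
  ext z
  simp only [TopologicalSpace.Opens.coe_top, Set.mem_univ, iff_true, SetLike.mem_coe]
  have : z = y := Subsingleton.elim (α := PrimeSpectrum k) z y
  rw [this]
  exact hy

/-- Standard smooth chart with `k`-algebra structure. -/
theorem exists_standardSmooth_chart (k : Type u) [Field k] {C : Scheme.{u}}
    (c : C ⟶ Spec (CommRingCat.of k)) [SmoothOfRelativeDimension 1 c] (x : C) :
    ∃ (V : C.Opens) (_ : IsAffineOpen V) (_ : x ∈ V) (φ : k →+* Γ(C, V)),
      RingHom.IsStandardSmoothOfRelativeDimension 1 φ := by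
  obtain ⟨U, hU, V, hV, hx, e, hstd⟩ :=
    SmoothOfRelativeDimension.exists_isStandardSmoothOfRelativeDimension (n := 1) (f := c) x
  have hUtop : U = ⊤ := opens_spec_field_eq_top k U (c x) (e hx)
  subst hUtop
  let ψ : k ≃+* Γ(Spec (CommRingCat.of k), ⊤) :=
    (Scheme.ΓSpecIso (CommRingCat.of k)).symm.commRingCatIsoToRingEquiv
  refine ⟨V, hV, hx, (c.appLE ⊤ V e).hom.comp ψ.toRingHom, ?_⟩
  exact RingHom.isStandardSmoothOfRelativeDimension_respectsIso.2 _ ψ hstd

/-- Every point has an affine open neighbourhood whose coordinate ring is a Dedekind domain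
which is not a field. -/
theorem exists_dedekind_chart (k : Type u) [Field k] [IsAlgClosed k] {C : Scheme.{u}}
    (c : C ⟶ Spec (CommRingCat.of k)) [SmoothOfRelativeDimension 1 c] [IsIntegral C] (x : C) :
    ∃ (V : C.Opens) (_ : IsAffineOpen V) (_ : x ∈ V),
      IsDedekindDomain Γ(C, V) ∧ ¬ IsField Γ(C, V) := by
  obtain ⟨V, hV, hx, φ, hstd⟩ := exists_standardSmooth_chart k c x
  letI := φ.toAlgebra
  haveI : Algebra.IsStandardSmoothOfRelativeDimension 1 k Γ(C, V) := hstd
  haveI : Nonempty V := ⟨⟨x, hx⟩⟩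
  exact ⟨V, hV, hx, isDedekindDomain_of_standardSmooth k, not_isField_of_standardSmooth k⟩

/-- **C1(c).** All stalks of `C` are valuation rings. -/
theorem valuationRing_stalk (k : Type u) [Field k] [IsAlgClosed k] {C : Scheme.{u}}
    (c : C ⟶ Spec (CommRingCat.of k)) [SmoothOfRelativeDimension 1 c] [IsIntegral C] (x : C) :
    ValuationRing (C.presheaf.stalk x) := by
  obtain ⟨V, hV, hx, hD, -⟩ := exists_dedekind_chart k c x
  haveI := hD
  letI : Algebra Γ(C, V) (C.presheaf.stalk x) :=
    TopCat.Presheaf.algebra_section_stalk C.presheaf ⟨x, hx⟩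
  haveI : IsLocalization.AtPrime (C.presheaf.stalk x) (hV.primeIdealOf ⟨x, hx⟩).asIdeal :=
    hV.isLocalization_stalk ⟨x, hx⟩
  exact valuationRing_of_isDedekindDomain_of_isLocalization
    (hV.primeIdealOf ⟨x, hx⟩).asIdeal (C.presheaf.stalk x)

/-- **C1(c).** The stalk at a closed point is a discrete valuation ring. -/
theorem isDiscreteValuationRing_stalk_of_isClosed (k : Type u) [Field k] [IsAlgClosed k]
    {C : Scheme.{u}} (c : C ⟶ Spec (CommRingCat.of k)) [SmoothOfRelativeDimension 1 c]
    [IsIntegral C] (x : C) (hxc : IsClosed ({x} : Set C)) :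
    IsDiscreteValuationRing (C.presheaf.stalk x) := by
  obtain ⟨V, hV, hx, φ, hstd⟩ := exists_standardSmooth_chart k c x
  letI := φ.toAlgebra
  haveI : Algebra.IsStandardSmoothOfRelativeDimension 1 k Γ(C, V) := hstd
  haveI : Nonempty V := ⟨⟨x, hx⟩⟩
  letI : Algebra Γ(C, V) (C.presheaf.stalk x) :=
    TopCat.Presheaf.algebra_section_stalk C.presheaf ⟨x, hx⟩
  haveI : IsLocalization.AtPrime (C.presheaf.stalk x) (hV.primeIdealOf ⟨x, hx⟩).asIdeal :=
    hV.isLocalization_stalk ⟨x, hx⟩
  haveI : (hV.primeIdealOf ⟨x, hx⟩).asIdeal.IsMaximal :=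
    hV.primeIdealOf_isMaximal_of_isClosed ⟨x, hx⟩ hxc
  exact isDiscreteValuationRing_of_isMaximal k (hV.primeIdealOf ⟨x, hx⟩).asIdeal _

/-- `C` is a Jacobson space. -/
theorem jacobsonSpace_curve (k : Type u) [Field k] {C : Scheme.{u}}
    (c : C ⟶ Spec (CommRingCat.of k)) [LocallyOfFiniteType c] : JacobsonSpace C :=
  LocallyOfFiniteType.jacobsonSpace c

/-- `C` is locally noetherian. -/
theorem isLocallyNoetherian_curve (k : Type u) [Field k] [IsAlgClosed k] {C : Scheme.{u}}
    (c : C ⟶ Spec (CommRingCat.of k)) [SmoothOfRelativeDimension 1 c] [IsIntegral C] :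
    IsLocallyNoetherian C := by
  choose V hV hx hD _ using exists_dedekind_chart k c
  refine isLocallyNoetherian_of_affine_cover (S := fun x : C => ⟨V x, hV x⟩) ?_ ?_
  · rw [eq_top_iff]
    intro x _
    exact TopologicalSpace.Opens.mem_iSup.mpr ⟨x, hx x⟩
  · intro x
    haveI := hD x
    infer_instance

end Fermat.Agent.S25.H627

end
-- ===== PACK-END S25/H627/CurveSchemeA.lean

-- ===== PACK-BEGIN S25/H250/ChartAlg.lean
section
/-
S25, squad S25/S10 (helper250): algebra of a curve chart (`IsCurveChart`, `DefsAlg.lean`).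

* `y_ne_zero`, `x_ne_zero`, injectivity of `B₀ → B₀₁ ← B₁`;
* `transcendental_y`, `transcendental_x`;
* `B₀` is free of finite rank over `k[x]`, in operator form
  (`exists_equivariant_equiv₀`), and the same after `A ⊗[k] -`.
-/


set_option autoImplicit false
set_option linter.style.haveILetI false
set_option linter.unusedSectionVars false

universe u

open scoped TensorProduct
open Polynomial

namespace Fermat.Agent.S25.H250

open Fermat.Agent.S25

section General

variable {k : Type u} [Field k]

/-- A finite algebra over `k[X]` through `X ↦ 0` is finite over `k`. -/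
theorem finite_of_aeval_zero_finite {B : Type u} [CommRing B] [Algebra k B]
    (h : (Polynomial.aeval (0 : B) : k[X] →ₐ[k] B).Finite) : Module.Finite k B := by
  have h1 : (Polynomial.aeval (0 : B) : k[X] →ₐ[k] B).toRingHom =
      (algebraMap k B).comp (Polynomial.evalRingHom (0 : k)) := by
    apply Polynomial.ringHom_ext
    · intro a; simp
    · simp
  have h2 : ((algebraMap k B).comp (Polynomial.evalRingHom (0 : k))).Finite := by
    rw [← h1]; exact h
  have h3 : (algebraMap k B).Finite := RingHom.Finite.of_comp_finite h2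
  exact RingHom.finite_algebraMap.1 h3

/-- If a `k`-algebra domain `B`, finite over `k`, has a `k`-point, its Kaehler differentials
vanish. -/
theorem subsingleton_kaehler_of_finite_of_point {B : Type u} [CommRing B] [IsDomain B]
    [Algebra k B] [Module.Finite k B] (e : B →ₐ[k] k) : Subsingleton (Ω[B⁄k]) := by
  have hfield : IsField B :=
    isField_of_isIntegral_of_isField' (R := k) (S := B) (Field.toIsField k)
  letI := hfield.toField
  have hinj : Function.Injective e := (e : B →+* k).injective
  have hb : ∀ b : B, b = algebraMap k B (e b) := by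
    intro b
    apply hinj
    rw [AlgHom.commutes]
    rfl
  have hD : ∀ b : B, KaehlerDifferential.D k B b = 0 := by
    intro b
    rw [hb b]
    exact (KaehlerDifferential.D k B).map_algebraMap _
  have htop : (⊤ : Submodule B (Ω[B⁄k])) = ⊥ := by
    rw [← KaehlerDifferential.span_range_derivation k B, Submodule.span_eq_bot]
    rintro _ ⟨b, rfl⟩
    exact hD b
  exact (Submodule.subsingleton_iff B).1 (subsingleton_of_bot_eq_top htop.symm)

end General

section Chart

variable {k : Type u} [Field k] {B₀ B₁ B₀₁ : Type u} [CommRing B₀] [CommRing B₁] [CommRing B₀₁]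
  [Algebra k B₀] [Algebra k B₁] [Algebra k B₀₁] [Algebra B₀ B₀₁] [Algebra B₁ B₀₁]
  [IsScalarTower k B₀ B₀₁] [IsScalarTower k B₁ B₀₁]
  {x : B₀} {y : B₁} {e : B₁ →ₐ[k] k}

theorem y_ne_zero (h : IsCurveChart k B₀ B₁ B₀₁ x y e) : y ≠ 0 := by
  intro hy
  haveI := h.isDomain₁
  haveI : Module.Finite k B₁ := finite_of_aeval_zero_finite (by rw [← hy]; exact h.finite₁)
  haveI := subsingleton_kaehler_of_finite_of_point e
  haveI := h.omega₁
  have : (1 : B₁) = 0 := by
    apply FaithfulSMul.eq_of_smul_eq_smul (α := Ω[B₁⁄k])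
    intro m
    exact Subsingleton.elim _ _
  exact one_ne_zero this

theorem algebraMap_B1_injective (h : IsCurveChart k B₀ B₁ B₀₁ x y e) :
    Function.Injective (algebraMap B₁ B₀₁) := by
  haveI := h.isDomain₁
  haveI := h.away₁
  exact IsLocalization.injective B₀₁ (M := Submonoid.powers y)
    (Submonoid.powers_le.2 (mem_nonZeroDivisors_of_ne_zero (y_ne_zero h)))

theorem nontrivial_B01 (h : IsCurveChart k B₀ B₁ B₀₁ x y e) : Nontrivial B₀₁ := by
  haveI := h.isDomain₁
  exact (algebraMap_B1_injective h).nontrivial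

theorem x_ne_zero (h : IsCurveChart k B₀ B₁ B₀₁ x y e) : x ≠ 0 := by
  intro hx
  haveI := nontrivial_B01 h
  have := h.mul_eq_one
  rw [hx, map_zero, zero_mul] at this
  exact zero_ne_one this

theorem algebraMap_B0_injective (h : IsCurveChart k B₀ B₁ B₀₁ x y e) :
    Function.Injective (algebraMap B₀ B₀₁) := by
  haveI := h.isDomain₀
  haveI := h.away₀
  exact IsLocalization.injective B₀₁ (M := Submonoid.powers x)
    (Submonoid.powers_le.2 (mem_nonZeroDivisors_of_ne_zero (x_ne_zero h)))

theorem transcendental_y (h : IsCurveChart k B₀ B₁ B₀₁ x y e) : Transcendental k y := by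
  intro halg
  haveI := h.isDomain₁
  have hu : IsUnit y := halg.isIntegral.isUnit (y_ne_zero h)
  have hu' : IsUnit (e y) := hu.map e
  rw [h.e_y] at hu'
  exact not_isUnit_zero hu'

/-- If `x` is algebraic over `k` and `B` is finite over `k[X]` through `X ↦ x`, then `B` is
finite over `k`. -/
theorem finite_of_isAlgebraic_of_aeval_finite {B : Type u} [CommRing B] [Algebra k B] {x : B}
    (halg : IsAlgebraic k x) (h : (Polynomial.aeval x : k[X] →ₐ[k] B).Finite) :
    Module.Finite k B := by
  let S : Subalgebra k B := Algebra.adjoin k {x}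
  haveI : Module.Finite k S := Module.Finite.of_fg halg.isIntegral.fg_adjoin_singleton
  haveI : Module.Finite S B := by
    let g : k[X] →ₐ[k] S :=
      (Polynomial.aeval x : k[X] →ₐ[k] B).codRestrict S
        (fun p => Polynomial.aeval_mem_adjoin_singleton _ _)
    have h1 : (S.val.comp g).Finite := by
      have : S.val.comp g = (Polynomial.aeval x : k[X] →ₐ[k] B) := by
        ext
        simp [g]
      rw [this]; exact h
    have h2 : S.val.Finite := AlgHom.Finite.of_comp_finite h1
    exact RingHom.finite_algebraMap.1 h2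
  exact Module.Finite.trans S B

theorem transcendental_x (h : IsCurveChart k B₀ B₁ B₀₁ x y e) : Transcendental k x := by
  intro halg
  haveI := h.isDomain₀
  haveI := h.isDomain₁
  haveI := h.away₀
  haveI : Module.Finite k B₀ := finite_of_isAlgebraic_of_aeval_finite halg h.finite₀
  -- `x` is a unit of `B₀`, so `B₀ → B₀₁` is bijective
  have hu : IsUnit x := halg.isIntegral.isUnit (x_ne_zero h)
  have hsurj : Function.Surjective (algebraMap B₀ B₀₁) := by
    intro z
    obtain ⟨n, a, ha⟩ := IsLocalization.Away.surj x z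
    obtain ⟨u, hu'⟩ := hu.pow n
    refine ⟨a * ((u⁻¹ : B₀ˣ) : B₀), ?_⟩
    rw [map_mul, ← ha, ← map_pow, ← hu', mul_assoc, ← map_mul, Units.mul_inv, map_one, mul_one]
  -- hence the image of `y` in `B₀₁` is integral over `k`
  obtain ⟨b, hb⟩ := hsurj (algebraMap B₁ B₀₁ y)
  have hint : IsIntegral k (algebraMap B₁ B₀₁ y) := by
    rw [← hb]
    exact (IsIntegral.of_finite k b).algebraMap
  have hy : IsIntegral k y :=
    (isIntegral_algebraMap_iff (algebraMap_B1_injective h)).1 hint
  exact transcendental_y h hy.isAlgebraic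

theorem aeval_x_injective (h : IsCurveChart k B₀ B₁ B₀₁ x y e) :
    Function.Injective (Polynomial.aeval x : k[X] →ₐ[k] B₀) :=
  transcendental_iff_injective.1 (transcendental_x h)

theorem aeval_y_injective (h : IsCurveChart k B₀ B₁ B₀₁ x y e) :
    Function.Injective (Polynomial.aeval y : k[X] →ₐ[k] B₁) :=
  transcendental_iff_injective.1 (transcendental_y h)

end Chart

section Free

variable {k : Type u} [Field k]

/-- A domain which is finite over `k[X]` through a transcendental element `x` is free of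
finite rank over `k[X]`; operator form. -/
theorem exists_equivariant_equiv {B : Type u} [CommRing B] [IsDomain B] [Algebra k B] {x : B}
    (hx : Function.Injective (Polynomial.aeval x : k[X] →ₐ[k] B))
    (hfin : (Polynomial.aeval x : k[X] →ₐ[k] B).Finite) :
    ∃ (n : ℕ) (φ : B ≃ₗ[k] (Fin n → k[X])), ∀ b, φ (x * b) = (X : k[X]) • φ b := by
  letI : Algebra k[X] B := (Polynomial.aeval x : k[X] →ₐ[k] B).toRingHom.toAlgebra
  haveI : IsScalarTower k k[X] B := IsScalarTower.of_algebraMap_eq' (by
    rw [RingHom.algebraMap_toAlgebra]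
    exact (Polynomial.aeval x : k[X] →ₐ[k] B).comp_algebraMap.symm)
  haveI : Module.Finite k[X] B := hfin
  have hsmul : ∀ (p : k[X]) (b : B), p • b = Polynomial.aeval x p * b := fun p b => by
    rw [Algebra.smul_def, RingHom.algebraMap_toAlgebra]; rfl
  haveI : Module.IsTorsionFree k[X] B := by
    refine Module.IsTorsionFree.of_smul_eq_zero fun p b hpb => ?_
    rw [hsmul, mul_eq_zero] at hpb
    rcases hpb with hp | hb
    · left
      exact hx (by rw [hp, map_zero])
    · right; exact hb
  obtain ⟨n, bas⟩ : Σ n : ℕ, Module.Basis (Fin n) k[X] B := Module.basisOfFiniteTypeTorsionFree'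
  refine ⟨n, bas.equivFun.restrictScalars k, fun b => ?_⟩
  have : x * b = (X : k[X]) • b := by rw [hsmul, Polynomial.aeval_X]
  rw [this]
  exact bas.equivFun.map_smul X b

/-- Base change of an equivariant trivialization: `A ⊗ B ≃ A[X]^n`, intertwining `1 ⊗ x` and
`X`. -/
theorem exists_equivariant_equiv_tensor {B : Type u} [CommRing B] [Algebra k B] {x : B}
    {n : ℕ} (φ : B ≃ₗ[k] (Fin n → k[X])) (hφ : ∀ b, φ (x * b) = (X : k[X]) • φ b)
    (A : Type u) [CommRing A] [Algebra k A] :
    ∃ Φ : (A ⊗[k] B) ≃ₗ[A] (Fin n → A[X]),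
      ∀ z, Φ (((1 : A) ⊗ₜ[k] x) * z) = (X : A[X]) • Φ z := by
  let Φ : (A ⊗[k] B) ≃ₗ[A] (Fin n → A[X]) :=
    (TensorProduct.AlgebraTensorModule.congr (LinearEquiv.refl A A) φ) ≪≫ₗ
      (TensorProduct.piRight k A A (fun _ : Fin n => k[X])) ≪≫ₗ
      (LinearEquiv.piCongrRight (fun _ : Fin n => (polyEquivTensor' k A).symm.toLinearEquiv))
  refine ⟨Φ, fun z => ?_⟩
  induction z using TensorProduct.induction_on with
  | zero => simp
  | tmul a b =>
    rw [Algebra.TensorProduct.tmul_mul_tmul, one_mul]
    ext i : 1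
    simp only [Φ, LinearEquiv.trans_apply, TensorProduct.AlgebraTensorModule.congr_tmul,
      LinearEquiv.refl_apply, TensorProduct.piRight_apply, TensorProduct.piRightHom_tmul,
      LinearEquiv.piCongrRight_apply, AlgEquiv.toLinearEquiv_apply, Pi.smul_apply, hφ,
      smul_eq_mul, coe_polyEquivTensor'_symm, polyEquivTensor_symm_apply_tmul_eq_smul,
      Polynomial.map_mul, Polynomial.map_X]
    rw [mul_smul_comm]
  | add z z' hz hz' =>
    rw [mul_add, map_add, map_add, hz, hz', smul_add]

end Free


end Fermat.Agent.S25.H250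

end
-- ===== PACK-END S25/H250/ChartAlg.lean

-- ===== PACK-BEGIN S25/H130/CechK0.lean
section
/-
S25, block CECH, leaf K0 (helper130): basics of `IsFGProj` (retracts of `A[X]^n`).
Statements are exactly those of `CechSkel.lean` (K0a, K0b, K0c, K0e, K0f).
-/


set_option autoImplicit false

namespace Fermat.Agent.S25.H130

open Polynomial TensorProduct Fermat.Agent.S25.H10

universe u v w

variable {A : Type u} [CommRing A]

section K0
variable {N : Type v} [AddCommGroup N] [Module A N] {E : Module.End A N}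

/-- `π (X ^ k • w) = E ^ k (π w)` for an `X`-equivariant map `π`. -/
theorem k0_pi_X_pow {n : ℕ} (π : (Fin n → A[X]) →ₗ[A] N)
    (hπ : ∀ w, π ((X : A[X]) • w) = E (π w)) (k : ℕ) (w : Fin n → A[X]) :
    π ((X : A[X]) ^ k • w) = (E ^ k) (π w) := by
  induction k generalizing w with
  | zero => simp
  | succ k ih => rw [pow_succ', mul_smul, hπ, ih, pow_succ', Module.End.mul_apply]

/-- `ι (E ^ k v) = X ^ k • ι v` for an `X`-equivariant map `ι`. -/
theorem k0_iota_E_pow {n : ℕ} (ι : N →ₗ[A] (Fin n → A[X]))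
    (hι : ∀ v, ι (E v) = (X : A[X]) • ι v) (k : ℕ) (v : N) :
    ι ((E ^ k) v) = (X : A[X]) ^ k • ι v := by
  induction k generalizing v with
  | zero => simp
  | succ k ih => rw [pow_succ', Module.End.mul_apply, hι, ih, pow_succ', mul_smul]

/-- `Pi.single i (monomial k a) = a • X ^ k • Pi.single i 1`. -/
theorem k0_single_monomial {n : ℕ} (i : Fin n) (k : ℕ) (a : A) :
    (Pi.single i (monomial k a) : Fin n → A[X]) =
      a • ((X : A[X]) ^ k • (Pi.single i (1 : A[X]) : Fin n → A[X])) := by
  funext j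
  by_cases hj : j = i
  · subst hj
    simp only [Pi.single_eq_same, Pi.smul_apply, smul_eq_mul, mul_one]
    rw [← C_mul_X_pow_eq_monomial, smul_eq_C_mul]
  · simp [Pi.single_eq_of_ne hj]

/-- K0a. -/
theorem isFG_of_isFGProj (h : IsFGProj E) : IsFG E := by
  classical
  obtain ⟨n, ι, π, hπι, -, hπ⟩ := h
  refine ⟨Finset.univ.image (fun i : Fin n => π (Pi.single i (1 : A[X]))), fun v => ?_⟩
  set S : Submodule A N := Submodule.span A
    {m : N | ∃ e ∈ Finset.univ.image (fun i : Fin n => π (Pi.single i (1 : A[X]))),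
      ∃ k : ℕ, m = (E ^ k) e} with hS
  have hsingle : ∀ (i : Fin n) (p : A[X]), π (Pi.single i p) ∈ S := by
    intro i p
    induction p using Polynomial.induction_on' with
    | add p q hp hq =>
      rw [Pi.single_add, map_add]
      exact S.add_mem hp hq
    | monomial k a =>
      rw [k0_single_monomial, map_smul, k0_pi_X_pow π hπ]
      refine S.smul_mem a (Submodule.subset_span ⟨π (Pi.single i 1), ?_, k, rfl⟩)
      exact Finset.mem_image.2 ⟨i, Finset.mem_univ _, rfl⟩
  have hall : ∀ w : Fin n → A[X], π w ∈ S := by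
    intro w
    rw [← Finset.univ_sum_single w, map_sum]
    exact S.sum_mem fun i _ => hsingle i (w i)
  have hv : v = π (ι v) := by
    have := congrArg (fun f : N →ₗ[A] N => f v) hπι
    simpa using this.symm
  rw [hv]
  exact hall _

/-- K0b. A retract of `A[X]^n` is projective over `A`. -/
theorem projective_of_isFGProj (h : IsFGProj E) : Module.Projective A N := by
  obtain ⟨n, ι, π, hπι, -, -⟩ := h
  exact Module.Projective.of_split ι π hπι

/-- K0c. `E` is injective on a retract of `A[X]^n`. -/
theorem injective_of_isFGProj (h : IsFGProj E) : Function.Injective E := by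
  obtain ⟨n, ι, π, hπι, hι, -⟩ := h
  rw [injective_iff_map_eq_zero]
  intro v hv
  have h1 : (X : A[X]) • ι v = 0 := by rw [← hι, hv, map_zero]
  have h2 : ι v = 0 := by
    funext i
    have := congrFun h1 i
    simp only [Pi.smul_apply, smul_eq_mul, Pi.zero_apply] at this
    exact (Polynomial.monic_X.mul_right_eq_zero_iff).1 this
  have hv' : v = π (ι v) := by
    have := congrArg (fun f : N →ₗ[A] N => f v) hπι
    simpa using this.symm
  rw [hv', h2, map_zero]

/-- Truncation of a vector of polynomials to the coefficients of degree `< m`. -/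
noncomputable def k0Trunc (A : Type u) [CommRing A] (n m : ℕ) :
    (Fin n → A[X]) →ₗ[A] (Fin n → Fin m → A) :=
  LinearMap.pi fun i => LinearMap.pi fun j =>
    (Polynomial.lcoeff A (j : ℕ)) ∘ₗ (LinearMap.proj i)

@[simp] theorem k0Trunc_apply (n m : ℕ) (w : Fin n → A[X]) (i : Fin n) (j : Fin m) :
    k0Trunc A n m w i j = (w i).coeff (j : ℕ) := rfl

/-- The vector of polynomials of degree `< m` with prescribed coefficients. -/
noncomputable def k0Untrunc (A : Type u) [CommRing A] (n m : ℕ) :
    (Fin n → Fin m → A) →ₗ[A] (Fin n → A[X]) :=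
  LinearMap.pi fun i =>
    (∑ j : Fin m, (Polynomial.monomial (j : ℕ) : A →ₗ[A] A[X]) ∘ₗ (LinearMap.proj j)) ∘ₗ
      (LinearMap.proj i)

@[simp] theorem k0Untrunc_apply (n m : ℕ) (c : Fin n → Fin m → A) (i : Fin n) :
    k0Untrunc A n m c i = ∑ j : Fin m, Polynomial.monomial (j : ℕ) (c i j) := by
  simp [k0Untrunc]

theorem k0_coeff_untrunc (n m : ℕ) (c : Fin n → Fin m → A) (i : Fin n) (d : ℕ) :
    (k0Untrunc A n m c i).coeff d = if h : d < m then c i ⟨d, h⟩ else 0 := by
  classical
  rw [k0Untrunc_apply, Polynomial.finsetSum_coeff]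
  simp only [Polynomial.coeff_monomial]
  split_ifs with h
  · rw [Finset.sum_eq_single (⟨d, h⟩ : Fin m)]
    · simp
    · intro j _ hj
      have : (j : ℕ) ≠ d := fun hjd => hj (Fin.ext hjd)
      simp [this]
    · intro hnot
      exact absurd (Finset.mem_univ _) hnot
  · refine Finset.sum_eq_zero fun j _ => ?_
    have : (j : ℕ) ≠ d := fun hjd => h (hjd ▸ j.2)
    simp [this]

/-- A vector of polynomials differs from its truncation by a multiple of `X ^ m`. -/
theorem k0_exists_sub_untrunc (n m : ℕ) (w : Fin n → A[X]) :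
    ∃ w' : Fin n → A[X], w - k0Untrunc A n m (k0Trunc A n m w) = (X : A[X]) ^ m • w' := by
  have hdvd : ∀ i, (X : A[X]) ^ m ∣ w i - k0Untrunc A n m (k0Trunc A n m w) i := by
    intro i
    rw [Polynomial.X_pow_dvd_iff]
    intro d hd
    rw [Polynomial.coeff_sub, k0_coeff_untrunc, dif_pos hd, k0Trunc_apply, sub_self]
  choose w' hw' using hdvd
  refine ⟨w', ?_⟩
  funext i
  simp only [Pi.sub_apply, Pi.smul_apply, smul_eq_mul]
  exact hw' i

/-- Truncation kills multiples of `X ^ m`. -/
theorem k0Trunc_X_pow_smul (n m : ℕ) (w : Fin n → A[X]) :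
    k0Trunc A n m ((X : A[X]) ^ m • w) = 0 := by
  funext i j
  simp only [k0Trunc_apply, Pi.smul_apply, smul_eq_mul, Pi.zero_apply]
  rw [Polynomial.coeff_X_pow_mul']
  simp [not_le.2 j.2]

/-- K0e. `N / E^m N` is finitely generated projective over `A`. -/
theorem quotient_pow_finite_projective (h : IsFGProj E) (m : ℕ) :
    Module.Finite A (N ⧸ LinearMap.range (E ^ m)) ∧
      Module.Projective A (N ⧸ LinearMap.range (E ^ m)) := by
  obtain ⟨n, ι, π, hπι, hι, hπ⟩ := h
  have hπι' : ∀ v, π (ι v) = v := fun v => by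
    have := congrArg (fun f : N →ₗ[A] N => f v) hπι
    simpa using this
  -- the two maps of the retraction
  let f : (N ⧸ LinearMap.range (E ^ m)) →ₗ[A] (Fin n → Fin m → A) :=
    Submodule.liftQ _ (k0Trunc A n m ∘ₗ ι) (by
      rintro _ ⟨v, rfl⟩
      rw [LinearMap.mem_ker, LinearMap.comp_apply, k0_iota_E_pow ι hι, k0Trunc_X_pow_smul])
  let g : (Fin n → Fin m → A) →ₗ[A] (N ⧸ LinearMap.range (E ^ m)) :=
    (LinearMap.range (E ^ m)).mkQ ∘ₗ π ∘ₗ k0Untrunc A n m
  have hgf : g ∘ₗ f = LinearMap.id := by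
    refine LinearMap.ext fun x => ?_
    obtain ⟨v, rfl⟩ := Submodule.Quotient.mk_surjective _ x
    show (LinearMap.range (E ^ m)).mkQ (π (k0Untrunc A n m (k0Trunc A n m (ι v)))) =
      Submodule.Quotient.mk v
    rw [Submodule.mkQ_apply, eq_comm, Submodule.Quotient.eq]
    obtain ⟨w', hw'⟩ := k0_exists_sub_untrunc n m (ι v)
    refine ⟨π w', ?_⟩
    rw [← k0_pi_X_pow π hπ, ← hw', map_sub, hπι']
  have hsurj : Function.Surjective g := fun x =>
    ⟨f x, by
      have := congrArg (fun F : (N ⧸ LinearMap.range (E ^ m)) →ₗ[A] _ => F x) hgf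
      simpa using this⟩
  exact ⟨Module.Finite.of_surjective g hsurj, Module.Projective.of_split f g hgf⟩

/-- K0f. Typeclass form ⇒ elementary form: if `N` is a finitely generated projective module over
`A[X]` (scalar tower over `A`), then multiplication by `X` satisfies `IsFGProj`. -/
theorem isFGProj_of_module [Module A[X] N] [IsScalarTower A A[X] N] [Module.Finite A[X] N]
    [Module.Projective A[X] N] :
    IsFGProj ((Algebra.lsmul A A N (X : A[X])) : Module.End A N) := by
  obtain ⟨n, f, hf⟩ := Module.Finite.exists_fin' A[X] N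
  obtain ⟨s, hs⟩ := Module.projective_lifting_property f LinearMap.id hf
  refine ⟨n, s.restrictScalars A, f.restrictScalars A, ?_, ?_, ?_⟩
  · refine LinearMap.ext fun v => ?_
    have := congrArg (fun F : N →ₗ[A[X]] N => F v) hs
    simpa using this
  · intro v
    simp
  · intro w
    simp

end K0

end Fermat.Agent.S25.H130

end
-- ===== PACK-END S25/H130/CechK0.lean

-- ===== PACK-BEGIN S25/H730/K3.lean
section
/-
S25, block CECH, leaf K3 (helper730): comparison of `L` and `L(m∞)`, i.e. exactness of the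
five-term sequence
`0 → H⁰(L) → H⁰(L(m∞)) → N1/y^m N1 → H¹(L) → H¹(L(m∞)) → 0`
in the operator-style language of `Fermat.Agent.S25.H10.CechDefs`.

Statements are exactly those of `CechSkel.lean` (K3a–K3d), plus the last exactness
(`range_conn_eq_ker_proj`, `proj_surjective`) for completeness.
-/


set_option autoImplicit false

namespace Fermat.Agent.S25.H730

open Fermat.Agent.S25.H10

universe u v

variable {A : Type u} [CommRing A] {N0 N1 N01 : Type v}
  [AddCommGroup N0] [AddCommGroup N1] [AddCommGroup N01]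
  [Module A N0] [Module A N1] [Module A N01]

/-- Injectivity of `E` implies injectivity of `E ^ m`. -/
theorem pow_injective_of_injective {N : Type v} [AddCommGroup N] [Module A N]
    {E : Module.End A N} (h : Function.Injective E) (m : ℕ) : Function.Injective (E ^ m) := by
  induction m with
  | zero => simpa [Module.End.one_eq_id] using Function.injective_id
  | succ m ih =>
    rw [pow_succ]
    exact ih.comp h

/-- K3a. -/
theorem incl_injective (D : CechOps A N0 N1 N01) (h1 : Function.Injective D.Y1) (m : ℕ) :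
    Function.Injective (D.incl m) := by
  intro p q hpq
  have h := congrArg (fun z : D.H0 m => (z : N0 × N1)) hpq
  simp only [CechOps.incl_apply_coe] at h
  have ha : (p : N0 × N1).1 = (q : N0 × N1).1 := (Prod.mk.inj h).1
  have hb : (D.Y1 ^ m) (p : N0 × N1).2 = (D.Y1 ^ m) (q : N0 × N1).2 := (Prod.mk.inj h).2
  have hb' : (p : N0 × N1).2 = (q : N0 × N1).2 := pow_injective_of_injective h1 m hb
  exact Subtype.ext (Prod.ext ha hb')

/-- K3b. Exactness at `H⁰(L(m∞))`. -/
theorem range_incl_eq_ker_δ (D : CechOps A N0 N1 N01) (m : ℕ) :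
    LinearMap.range (D.incl m) = LinearMap.ker (D.δ m) := by
  apply le_antisymm
  · rintro _ ⟨p, rfl⟩
    rw [LinearMap.mem_ker, CechOps.δ_apply, CechOps.incl_apply_coe, Submodule.mkQ_apply,
      Submodule.Quotient.mk_eq_zero]
    exact ⟨_, rfl⟩
  · rintro ⟨⟨a, b⟩, hab⟩ hker
    rw [LinearMap.mem_ker, CechOps.δ_apply, Submodule.mkQ_apply,
      Submodule.Quotient.mk_eq_zero] at hker
    obtain ⟨b', hb'⟩ := hker
    simp only at hb'
    have hab' := (D.mem_ker_d m (a, b)).mp hab
    simp only at hab'
    have h0 : (a, b') ∈ D.H0 0 := by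
      rw [CechOps.mem_ker_d]
      simp only [pow_zero, Module.End.one_apply]
      rw [hab', ← hb', D.r1_Y1_pow, D.T_pow_Tinv_pow_apply]
    refine ⟨⟨(a, b'), h0⟩, ?_⟩
    apply Subtype.ext
    rw [CechOps.incl_apply_coe]
    exact Prod.ext rfl hb'

/-- K3c. Exactness at `N1 / y^m N1`. -/
theorem range_δ_eq_ker_conn (D : CechOps A N0 N1 N01) (m : ℕ) :
    LinearMap.range (D.δ m) = LinearMap.ker (D.conn m) := by
  apply le_antisymm
  · rintro _ ⟨⟨⟨a, b⟩, hab⟩, rfl⟩
    have hab' := (D.mem_ker_d m (a, b)).mp hab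
    simp only at hab'
    rw [LinearMap.mem_ker, CechOps.δ_apply, Submodule.mkQ_apply, CechOps.conn_mk,
      Submodule.Quotient.mk_eq_zero]
    refine ⟨(a, 0), ?_⟩
    rw [CechOps.d_apply]
    simp only [map_zero, sub_zero]
    exact hab'
  · intro q hq
    obtain ⟨b, rfl⟩ := Submodule.Quotient.mk_surjective _ q
    rw [LinearMap.mem_ker, CechOps.conn_mk, Submodule.Quotient.mk_eq_zero] at hq
    obtain ⟨⟨a', b'⟩, hab'⟩ := hq
    rw [CechOps.d_apply] at hab'
    simp only [pow_zero, Module.End.one_apply] at hab'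
    -- `b'' = b + y^m b'`
    have hmem : (a', b + (D.Y1 ^ m) b') ∈ D.H0 m := by
      rw [CechOps.mem_ker_d]
      simp only [map_add]
      rw [D.r1_Y1_pow, D.T_pow_Tinv_pow_apply, ← hab']
      abel
    refine ⟨⟨(a', b + (D.Y1 ^ m) b'), hmem⟩, ?_⟩
    rw [CechOps.δ_apply, Submodule.mkQ_apply]
    simp only
    rw [Submodule.Quotient.eq]
    refine ⟨b', ?_⟩
    abel

/-- K3d. If `H¹(L(m∞)) = 0` then `conn` is onto `H¹(L)`. -/
theorem conn_surjective (D : CechOps A N0 N1 N01) (m : ℕ)
    (hsurj : Function.Surjective (D.d m)) : Function.Surjective (D.conn m) := by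
  intro q
  obtain ⟨z, rfl⟩ := Submodule.Quotient.mk_surjective _ q
  obtain ⟨⟨a, b⟩, hab⟩ := hsurj z
  rw [CechOps.d_apply] at hab
  simp only at hab
  refine ⟨Submodule.Quotient.mk (-b), ?_⟩
  rw [CechOps.conn_mk, Submodule.Quotient.eq]
  refine ⟨(-a, 0), ?_⟩
  rw [CechOps.d_apply]
  simp only [map_neg, map_zero, sub_zero]
  rw [← hab]
  abel

/-- The natural projection `H¹(L) → H¹(L(m∞))` (induced by the identity of `N01`; note
`range (d 0) ≤ range (d m)` since `r1 b = T^m r1 (y^m b)`). -/
def proj (D : CechOps A N0 N1 N01) (m : ℕ) : D.H1 0 →ₗ[A] D.H1 m :=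
  Submodule.mapQ _ _ LinearMap.id (by
    rintro _ ⟨⟨a, b⟩, rfl⟩
    rw [Submodule.mem_comap, LinearMap.id_apply]
    refine ⟨(a, (D.Y1 ^ m) b), ?_⟩
    rw [CechOps.d_apply, CechOps.d_apply]
    simp only [pow_zero, Module.End.one_apply]
    rw [D.r1_Y1_pow, D.T_pow_Tinv_pow_apply])

@[simp] theorem proj_mk (D : CechOps A N0 N1 N01) (m : ℕ) (z : N01) :
    proj D m (Submodule.Quotient.mk z) = Submodule.Quotient.mk z := rfl

/-- Surjectivity of `H¹(L) → H¹(L(m∞))`. -/
theorem proj_surjective (D : CechOps A N0 N1 N01) (m : ℕ) :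
    Function.Surjective (proj D m) := by
  intro q
  obtain ⟨z, rfl⟩ := Submodule.Quotient.mk_surjective _ q
  exact ⟨Submodule.Quotient.mk z, rfl⟩

/-- Exactness at `H¹(L)`: the image of `conn` is the kernel of `H¹(L) → H¹(L(m∞))`. -/
theorem range_conn_eq_ker_proj (D : CechOps A N0 N1 N01) (m : ℕ) :
    LinearMap.range (D.conn m) = LinearMap.ker (proj D m) := by
  apply le_antisymm
  · rintro _ ⟨q, rfl⟩
    obtain ⟨b, rfl⟩ := Submodule.Quotient.mk_surjective _ q
    rw [LinearMap.mem_ker, CechOps.conn_mk, proj_mk, Submodule.Quotient.mk_eq_zero]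
    refine ⟨(0, -b), ?_⟩
    rw [CechOps.d_apply]
    simp
  · intro q hq
    obtain ⟨z, rfl⟩ := Submodule.Quotient.mk_surjective _ q
    rw [LinearMap.mem_ker, proj_mk, Submodule.Quotient.mk_eq_zero] at hq
    obtain ⟨⟨a, b⟩, hab⟩ := hq
    rw [CechOps.d_apply] at hab
    simp only at hab
    refine ⟨Submodule.Quotient.mk (-b), ?_⟩
    rw [CechOps.conn_mk, Submodule.Quotient.eq]
    refine ⟨(-a, 0), ?_⟩
    rw [CechOps.d_apply]
    simp only [map_neg, map_zero, sub_zero]
    rw [← hab]
    abel

end Fermat.Agent.S25.H730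

end
-- ===== PACK-END S25/H730/K3.lean

-- ===== PACK-BEGIN S25/H550/GDBaseChangeLin.lean
section


/-!
# S25 / block DEGREE: a base change of gluing data is an `A`-linear base change

For `φ : A →ₐ[k] A'` and gluing data `G` over `A`, `G'` over `A'` with `CurveGD.IsBC φ G G'`,
the semilinear maps `b₀, b₁, b₀₁` exhibit `G'.Nᵢ` as `A' ⊗[A] G.Nᵢ` (because
`A' ⊗[k] B = A' ⊗[A] (A ⊗[k] B)`), compatibly with the Čech differentials.  Hence

* `nonempty_H0_equiv` : `G'.H0 ≃ₗ[A'] ker (A' ⊗ G.cech)`,
* `nonempty_H1_equiv` : `G'.H1 ≃ₗ[A'] coker (A' ⊗ G.cech)`.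

All statements take `[Algebra A A']` together with `hφ : ∀ a, φ a = algebraMap A A' a`.
-/

set_option autoImplicit false
set_option linter.style.haveILetI false

namespace Fermat.Agent.S25.H550

open scoped TensorProduct
open Fermat.Agent.S25

universe u

section Generic

variable {A A' : Type u} [CommRing A] [CommRing A'] [Algebra A A']
  {R R' : Type u} [CommRing R] [CommRing R'] [Algebra A R] [Algebra A' R']

/-- A semilinear base change along `ρ : R → R'`, where `R' = A' ⊗[A] R`, is an `A`-linear base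
change along `A → A'`. -/
theorem exists_equiv_of_isSemilinearBaseChange (ρ : R →+* R')
    (hρ : ∀ a : A, ρ (algebraMap A R a) = algebraMap A' R' (algebraMap A A' a))
    (e : A' ⊗[A] R ≃ₗ[A'] R') (he : ∀ r : R, e (1 ⊗ₜ[A] r) = ρ r)
    {N N' : Type u} [AddCommGroup N] [Module R N] [Module A N] [IsScalarTower A R N]
    [AddCommGroup N'] [Module R' N'] [Module A' N'] [IsScalarTower A' R' N']
    (b : N →ₛₗ[ρ] N') (hb : IsSemilinearBaseChange ρ b) :
    ∃ E : A' ⊗[A] N ≃ₗ[A'] N', ∀ (s : A') (n : N), E (s ⊗ₜ[A] n) = s • b n := by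
  letI algRR' : Algebra R R' := ρ.toAlgebra
  letI algAR' : Algebra A R' := ((algebraMap A' R').comp (algebraMap A A')).toAlgebra
  haveI t1 : IsScalarTower A A' R' := IsScalarTower.of_algebraMap_eq (fun _ => rfl)
  haveI t2 : IsScalarTower A R R' := IsScalarTower.of_algebraMap_eq (fun a => (hρ a).symm)
  haveI push : Algebra.IsPushout A A' R R' := by
    rw [Algebra.isPushout_iff]
    exact IsBaseChange.of_equiv e (fun r => he r)
  letI modRN' : Module R N' := Module.compHom N' ρ
  haveI t3 : IsScalarTower R R' N' := ⟨fun r r' n => by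
    change (ρ r * r') • n = ρ r • (r' • n); rw [mul_smul]⟩
  have hb' : IsBaseChange R' (show N →ₗ[R] N' from
    { toFun := fun n => b n
      map_add' := fun m n => b.map_add m n
      map_smul' := fun r n => LinearMap.map_smulₛₗ b r n }) := hb
  let c : R' ⊗[R] N ≃ₗ[A'] A' ⊗[A] N := Algebra.IsPushout.cancelBaseChange A A' R R' N
  refine ⟨c.symm ≪≫ₗ (hb'.equiv.restrictScalars A'), fun s n => ?_⟩
  rw [LinearEquiv.trans_apply, Algebra.IsPushout.cancelBaseChange_symm_tmul]
  show hb'.equiv (algebraMap A' R' s ⊗ₜ[R] n) = s • b n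
  rw [IsBaseChange.equiv_tmul, algebraMap_smul]
  rfl

end Generic

section Tensor

variable {k : Type u} [Field k] {A A' : Type u} [CommRing A] [Algebra k A] [CommRing A']
  [Algebra k A'] [Algebra A A'] [IsScalarTower k A A']

/-- `A' ⊗[k] B = A' ⊗[A] (A ⊗[k] B)`, in the form needed above. -/
theorem exists_equiv_tensorMapLeft (φ : A →ₐ[k] A') (hφ : ∀ a, φ a = algebraMap A A' a)
    (B : Type u) [CommRing B] [Algebra k B] :
    ∃ e : A' ⊗[A] (A ⊗[k] B) ≃ₗ[A'] A' ⊗[k] B,
      ∀ r : A ⊗[k] B, e (1 ⊗ₜ[A] r) = tensorMapLeft k φ B r := by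
  refine ⟨(Algebra.TensorProduct.cancelBaseChange k A A' A' B).toLinearEquiv, fun r => ?_⟩
  induction r using TensorProduct.induction_on with
  | zero => simp
  | tmul a b =>
    show Algebra.TensorProduct.cancelBaseChange k A A' A' B (1 ⊗ₜ[A] (a ⊗ₜ[k] b)) = _
    rw [Algebra.TensorProduct.cancelBaseChange_tmul]
    show (a • (1 : A')) ⊗ₜ[k] b = (Algebra.TensorProduct.map φ (AlgHom.id k B)) (a ⊗ₜ[k] b)
    rw [Algebra.TensorProduct.map_tmul, hφ, Algebra.smul_def, mul_one]
    rfl
  | add x y hx hy =>
    rw [TensorProduct.tmul_add, map_add, map_add, hx, hy]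

omit [IsScalarTower k A A'] in
theorem tensorMapLeft_algebraMap (φ : A →ₐ[k] A') (hφ : ∀ a, φ a = algebraMap A A' a)
    (B : Type u) [CommRing B] [Algebra k B] (a : A) :
    tensorMapLeft k φ B (algebraMap A (A ⊗[k] B) a) =
      algebraMap A' (A' ⊗[k] B) (algebraMap A A' a) := by
  show (Algebra.TensorProduct.map φ (AlgHom.id k B)) (a ⊗ₜ[k] (1 : B)) = _
  rw [Algebra.TensorProduct.map_tmul, hφ]
  rfl

/-- A semilinear base change along `tensorMapLeft k φ B` is an `A`-linear base change. -/
theorem exists_equiv_of_isSemilinearBaseChange_tensor (φ : A →ₐ[k] A')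
    (hφ : ∀ a, φ a = algebraMap A A' a) (B : Type u) [CommRing B] [Algebra k B]
    {N N' : Type u} [AddCommGroup N] [Module (A ⊗[k] B) N] [Module A N]
    [IsScalarTower A (A ⊗[k] B) N]
    [AddCommGroup N'] [Module (A' ⊗[k] B) N'] [Module A' N'] [IsScalarTower A' (A' ⊗[k] B) N']
    (b : N →ₛₗ[tensorMapLeft k φ B] N') (hb : IsSemilinearBaseChange (tensorMapLeft k φ B) b) :
    ∃ E : A' ⊗[A] N ≃ₗ[A'] N', ∀ (s : A') (n : N), E (s ⊗ₜ[A] n) = s • b n := by
  obtain ⟨e, he⟩ := exists_equiv_tensorMapLeft φ hφ B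
  exact exists_equiv_of_isSemilinearBaseChange (tensorMapLeft k φ B)
    (tensorMapLeft_algebraMap φ hφ B) e he b hb

end Tensor

section Cech

variable {k : Type u} [Field k] {B₀ B₁ B₀₁ : Type u} [CommRing B₀] [CommRing B₁] [CommRing B₀₁]
  [Algebra k B₀] [Algebra k B₁] [Algebra k B₀₁] [Algebra B₀ B₀₁] [Algebra B₁ B₀₁]
  [IsScalarTower k B₀ B₀₁] [IsScalarTower k B₁ B₀₁]
  {A A' : Type u} [CommRing A] [Algebra k A] [CommRing A'] [Algebra k A'] [Algebra A A']
  [IsScalarTower k A A']

/-- The Čech differential of a base change is the base change of the Čech differential. -/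
theorem exists_cech_baseChange_equiv (φ : A →ₐ[k] A') (hφ : ∀ a, φ a = algebraMap A A' a)
    (G : CurveGD k B₀ B₁ B₀₁ A) (G' : CurveGD k B₀ B₁ B₀₁ A') (h : CurveGD.IsBC φ G G') :
    ∃ (E : A' ⊗[A] (G.N₀ × G.N₁) ≃ₗ[A'] (G'.N₀ × G'.N₁))
      (E₀₁ : A' ⊗[A] G.N₀₁ ≃ₗ[A'] G'.N₀₁),
      ∀ t, E₀₁ (G.cech.baseChange A' t) = G'.cech (E t) := by
  obtain ⟨bc⟩ := h
  obtain ⟨E₀, hE₀⟩ := exists_equiv_of_isSemilinearBaseChange_tensor φ hφ B₀ bc.b₀ bc.isBaseChange₀
  obtain ⟨E₁, hE₁⟩ := exists_equiv_of_isSemilinearBaseChange_tensor φ hφ B₁ bc.b₁ bc.isBaseChange₁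
  obtain ⟨E₀₁, hE₀₁⟩ :=
    exists_equiv_of_isSemilinearBaseChange_tensor φ hφ B₀₁ bc.b₀₁ bc.isBaseChange₀₁
  refine ⟨(TensorProduct.prodRight A A' A' G.N₀ G.N₁).trans (E₀.prodCongr E₁), E₀₁, fun t => ?_⟩
  induction t using TensorProduct.induction_on with
  | zero => rw [map_zero, map_zero, map_zero, map_zero]
  | tmul s p =>
    obtain ⟨n₀, n₁⟩ := p
    rw [LinearMap.baseChange_tmul, hE₀₁, LinearEquiv.trans_apply, TensorProduct.prodRight_tmul]
    show s • bc.b₀₁ (G.cech (n₀, n₁)) = G'.cech (E₀ (s ⊗ₜ[A] n₀), E₁ (s ⊗ₜ[A] n₁))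
    rw [hE₀, hE₁]
    simp only [GlueDatum.cech, LinearMap.coprod_apply, LinearMap.neg_apply,
      LinearMap.coe_restrictScalars, map_add, map_neg, bc.comm₀, bc.comm₁, smul_add, smul_neg]
    rw [← algebraMap_smul (A' ⊗[k] B₀) s (bc.b₀ n₀), ← algebraMap_smul (A' ⊗[k] B₁) s (bc.b₁ n₁),
      map_smul, map_smul, algebraMap_smul, algebraMap_smul]
  | add x y hx hy => simp only [map_add, hx, hy]

end Cech

end Fermat.Agent.S25.H550

end
-- ===== PACK-END S25/H550/GDBaseChangeLin.lean

-- ===== PACK-BEGIN S25/H926/GlueHomCover.lean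
section
/-
S25, block GLUE, piece G1 (helper926), layer (b): morphisms of sheaves of modules glue along a
jointly surjective family of open immersions (`restrictFunctor` form).
-/


set_option autoImplicit false

universe u

open CategoryTheory AlgebraicGeometry TopologicalSpace Opposite

namespace Fermat.Agent.S25.H926

variable {X Y : Scheme.{u}} {M M' : X.Modules}

section SectionMap

variable (f : Y ⟶ X) [IsOpenImmersion f]

/-- Sections of the restriction, viewed as sections of the original module (the identity). -/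
noncomputable def ofRestr (N : X.Modules) (V : Y.Opens) :
    Γ(N.restrict f, V) →+ Γ(N, f ''ᵁ V) := AddMonoidHom.id _

/-- Sections of the original module over an image, viewed as sections of the restriction
(the identity). -/
noncomputable def toRestr (N : X.Modules) (V : Y.Opens) :
    Γ(N, f ''ᵁ V) →+ Γ(N.restrict f, V) := AddMonoidHom.id _

@[simp] lemma ofRestr_toRestr (N : X.Modules) (V : Y.Opens) (x : Γ(N, f ''ᵁ V)) :
    ofRestr f N V (toRestr f N V x) = x := rfl

@[simp] lemma toRestr_ofRestr (N : X.Modules) (V : Y.Opens) (x : Γ(N.restrict f, V)) :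
    toRestr f N V (ofRestr f N V x) = x := rfl

lemma ofRestr_smul (N : X.Modules) (V : Y.Opens) (r' : Γ(Y, V)) (x : Γ(N.restrict f, V)) :
    ofRestr f N V (r' • x) = ((f.appIso V).inv r') • ofRestr f N V x := rfl

lemma toRestr_smul (N : X.Modules) (V : Y.Opens) (r : Γ(X, f ''ᵁ V)) (x : Γ(N, f ''ᵁ V)) :
    toRestr f N V (r • x) = ((f.appIso V).hom r) • toRestr f N V x := by
  have h := ofRestr_smul f N V ((f.appIso V).hom r) (toRestr f N V x)
  have e : (f.appIso V).inv ((f.appIso V).hom r) = r := by simp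
  rw [e] at h
  exact h.symm

lemma ofRestr_map (N : X.Modules) {V V' : Y.Opens} (h : V' ≤ V) (x : Γ(N.restrict f, V)) :
    ofRestr f N V' ((N.restrict f).presheaf.map (homOfLE h).op x) =
      N.presheaf.map (homOfLE (f.image_mono h)).op (ofRestr f N V x) := rfl

lemma toRestr_map (N : X.Modules) {V V' : Y.Opens} (h : V' ≤ V) (x : Γ(N, f ''ᵁ V)) :
    toRestr f N V' (N.presheaf.map (homOfLE (f.image_mono h)).op x) =
      (N.restrict f).presheaf.map (homOfLE h).op (toRestr f N V x) := rfl

/-- A morphism between restrictions, read on sections over the image of an open of `Y`. -/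
noncomputable def imageMap (ψ : M.restrict f ⟶ M'.restrict f) (V : Y.Opens) :
    Γ(M, f ''ᵁ V) →+ Γ(M', f ''ᵁ V) :=
  (ofRestr f M' V).comp (((ψ.app V).hom).comp (toRestr f M V))

lemma imageMap_apply (ψ : M.restrict f ⟶ M'.restrict f) (V : Y.Opens) (s : Γ(M, f ''ᵁ V)) :
    imageMap f ψ V s = ofRestr f M' V (ψ.app V (toRestr f M V s)) := rfl

lemma imageMap_smul (ψ : M.restrict f ⟶ M'.restrict f) (V : Y.Opens) (r : Γ(X, f ''ᵁ V))
    (s : Γ(M, f ''ᵁ V)) : imageMap f ψ V (r • s) = r • imageMap f ψ V s := by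
  rw [imageMap_apply, imageMap_apply, toRestr_smul, Scheme.Modules.Hom.app_smul, ofRestr_smul]
  congr 1
  simp

lemma imageMap_map (ψ : M.restrict f ⟶ M'.restrict f) {V V' : Y.Opens} (h : V' ≤ V)
    (s : Γ(M, f ''ᵁ V)) :
    imageMap f ψ V' (M.presheaf.map (homOfLE (f.image_mono h)).op s) =
      M'.presheaf.map (homOfLE (f.image_mono h)).op (imageMap f ψ V s) := by
  rw [imageMap_apply, imageMap_apply, toRestr_map, ← ofRestr_map]
  congr 1
  exact ConcreteCategory.congr_hom (ψ.mapPresheaf.naturality (homOfLE h).op) (toRestr f M V s)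

lemma imageMap_restrictFunctor_map (g : M ⟶ M') (V : Y.Opens) (s : Γ(M, f ''ᵁ V)) :
    imageMap f ((Scheme.Modules.restrictFunctor f).map g) V s = g.app (f ''ᵁ V) s := rfl

lemma image_preimage_of_le {W : X.Opens} (hW : W ≤ f.opensRange) : f ''ᵁ (f ⁻¹ᵁ W) = W := by
  rw [Scheme.Hom.image_preimage_eq_opensRange_inf]
  exact inf_eq_right.mpr hW

/-- A morphism between restrictions, read on the sections over an open `W` of `X` contained in
the image. -/
noncomputable def sectionMap (ψ : M.restrict f ⟶ M'.restrict f) (W : X.Opens)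
    (hW : W ≤ f.opensRange) : Γ(M, W) →+ Γ(M', W) :=
  ((M'.presheaf.map (eqToHom (image_preimage_of_le f hW).symm).op).hom).comp
    ((imageMap f ψ (f ⁻¹ᵁ W)).comp
      (M.presheaf.map (eqToHom (image_preimage_of_le f hW)).op).hom)

lemma sectionMap_apply (ψ : M.restrict f ⟶ M'.restrict f) (W : X.Opens)
    (hW : W ≤ f.opensRange) (s : Γ(M, W)) :
    sectionMap f ψ W hW s =
      M'.presheaf.map (eqToHom (image_preimage_of_le f hW).symm).op
        (imageMap f ψ (f ⁻¹ᵁ W) (M.presheaf.map (eqToHom (image_preimage_of_le f hW)).op s)) :=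
  rfl

/-- Restriction along a composite of inclusions of opens. -/
lemma presheaf_map_map (N : X.Modules) {U₁ U₂ U₃ : X.Opens} (i : U₁ ⟶ U₂) (j : U₂ ⟶ U₃)
    (k : U₁ ⟶ U₃) (x : Γ(N, U₃)) :
    N.presheaf.map i.op (N.presheaf.map j.op x) = N.presheaf.map k.op x := by
  rw [← ConcreteCategory.comp_apply, ← Functor.map_comp, ← op_comp]
  rw [Subsingleton.elim (i ≫ j) k]

lemma presheaf_map_self (N : X.Modules) {U₁ : X.Opens} (i : U₁ ⟶ U₁) (x : Γ(N, U₁)) :
    N.presheaf.map i.op x = x := by
  rw [Subsingleton.elim i (𝟙 _)]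
  simp

lemma sectionMap_smul (ψ : M.restrict f ⟶ M'.restrict f) (W : X.Opens)
    (hW : W ≤ f.opensRange) (r : Γ(X, W)) (s : Γ(M, W)) :
    sectionMap f ψ W hW (r • s) = r • sectionMap f ψ W hW s := by
  rw [sectionMap_apply, sectionMap_apply, Scheme.Modules.map_smul, imageMap_smul,
    Scheme.Modules.map_smul]
  congr 1
  rw [← ConcreteCategory.comp_apply, ← Functor.map_comp, ← op_comp]
  rw [Subsingleton.elim (eqToHom (image_preimage_of_le f hW).symm ≫
    eqToHom (image_preimage_of_le f hW)) (𝟙 _)]
  simp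

lemma sectionMap_map (ψ : M.restrict f ⟶ M'.restrict f) {W W' : X.Opens}
    (hW : W ≤ f.opensRange) (h : W' ≤ W) (s : Γ(M, W)) :
    sectionMap f ψ W' (h.trans hW) (M.presheaf.map (homOfLE h).op s) =
      M'.presheaf.map (homOfLE h).op (sectionMap f ψ W hW s) := by
  have hpre : f ⁻¹ᵁ W' ≤ f ⁻¹ᵁ W := fun x hx => h hx
  rw [sectionMap_apply, sectionMap_apply]
  rw [presheaf_map_map M _ _ ((homOfLE (f.image_mono hpre)) ≫
    eqToHom (image_preimage_of_le f hW))]
  rw [op_comp, Functor.map_comp, ConcreteCategory.comp_apply, imageMap_map f ψ hpre]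
  rw [presheaf_map_map M' _ _ (eqToHom (image_preimage_of_le f (h.trans hW)).symm ≫
    homOfLE (f.image_mono hpre))]
  rw [presheaf_map_map M' _ _ (eqToHom (image_preimage_of_le f (h.trans hW)).symm ≫
    homOfLE (f.image_mono hpre))]

lemma sectionMap_restrictFunctor_map (g : M ⟶ M') (W : X.Opens) (hW : W ≤ f.opensRange)
    (s : Γ(M, W)) :
    sectionMap f ((Scheme.Modules.restrictFunctor f).map g) W hW s = g.app W s := by
  rw [sectionMap_apply, imageMap_restrictFunctor_map]
  have := ConcreteCategory.congr_hom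
    (g.mapPresheaf.naturality (eqToHom (image_preimage_of_le f hW)).op) s
  simp only [Scheme.Modules.mapPresheaf_app, ConcreteCategory.comp_apply] at this
  erw [this]
  rw [presheaf_map_map M' _ _ (𝟙 _)]
  simp

lemma sectionMap_image (ψ : M.restrict f ⟶ M'.restrict f) (V : Y.Opens)
    (s : Γ(M, f ''ᵁ V)) :
    sectionMap f ψ (f ''ᵁ V) (f.image_le_opensRange V) s = imageMap f ψ V s := by
  have hV : f ⁻¹ᵁ (f ''ᵁ V) = V := f.preimage_image_eq V
  have h1 : f ⁻¹ᵁ (f ''ᵁ V) ≤ V := hV.le
  rw [sectionMap_apply]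
  rw [Subsingleton.elim (eqToHom (image_preimage_of_le f (f.image_le_opensRange V)))
    (homOfLE (f.image_mono h1))]
  rw [imageMap_map f ψ h1]
  rw [presheaf_map_map M' _ _ (𝟙 _)]
  simp

end SectionMap

section Cover

variable {ι : Type*} {Z : ι → Scheme.{u}} (f : ∀ i, Z i ⟶ X) [∀ i, IsOpenImmersion (f i)]

/-- The opens of `X` contained in the image of one of the `f i`. -/
def coverBasis : Set X.Opens := {W | ∃ i, W ≤ (f i).opensRange}

lemma isDownBasis_coverBasis (hf : ⨆ i, (f i).opensRange = ⊤) : IsDownBasis (coverBasis f) where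
  down := fun ⟨i, hi⟩ h => ⟨i, h.trans hi⟩
  cover := fun V x hx => by
    have hx' : x ∈ ⨆ i, (f i).opensRange := by rw [hf]; trivial
    obtain ⟨i, hi⟩ := Opens.mem_iSup.mp hx'
    exact Opens.mem_iSup.mpr ⟨⟨V ⊓ (f i).opensRange, ⟨i, inf_le_right⟩, inf_le_left⟩, hx, hi⟩

/-- The basis data attached to a compatible family of morphisms between restrictions. -/
noncomputable def coverHomData (φ : ∀ i, M.restrict (f i) ⟶ M'.restrict (f i))
    (hφ : ∀ (i j : ι) (W : X.Opens) (hi : W ≤ (f i).opensRange) (hj : W ≤ (f j).opensRange)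
      (s : Γ(M, W)), sectionMap (f i) (φ i) W hi s = sectionMap (f j) (φ j) W hj s) :
    BasisHomData (coverBasis f) M M' where
  a W hW := sectionMap (f hW.choose) (φ hW.choose) W hW.choose_spec
  nat W W' hW hW' h s := by
    rw [hφ hW'.choose hW.choose W' hW'.choose_spec (h.trans hW.choose_spec)]
    exact sectionMap_map (f hW.choose) (φ hW.choose) hW.choose_spec h s
  lin W hW r s := sectionMap_smul (f hW.choose) (φ hW.choose) W hW.choose_spec r s

lemma coverHomData_a (φ : ∀ i, M.restrict (f i) ⟶ M'.restrict (f i))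
    (hφ : ∀ (i j : ι) (W : X.Opens) (hi : W ≤ (f i).opensRange) (hj : W ≤ (f j).opensRange)
      (s : Γ(M, W)), sectionMap (f i) (φ i) W hi s = sectionMap (f j) (φ j) W hj s)
    (W : X.Opens) (i : ι) (hi : W ≤ (f i).opensRange) (s : Γ(M, W)) :
    (coverHomData f φ hφ).a W ⟨i, hi⟩ s = sectionMap (f i) (φ i) W hi s :=
  hφ (Exists.choose (⟨i, hi⟩ : W ∈ coverBasis f)) i W
    (Exists.choose_spec (⟨i, hi⟩ : W ∈ coverBasis f)) hi s

/-- **G1, cover form.** Morphisms between the restrictions of two sheaves of modules to the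
members of an open cover (given by open immersions), agreeing sectionwise on overlaps, glue to
a unique global morphism. -/
theorem existsUnique_hom_of_cover (hf : ⨆ i, (f i).opensRange = ⊤)
    (φ : ∀ i, M.restrict (f i) ⟶ M'.restrict (f i))
    (hφ : ∀ (i j : ι) (W : X.Opens) (hi : W ≤ (f i).opensRange) (hj : W ≤ (f j).opensRange)
      (s : Γ(M, W)), sectionMap (f i) (φ i) W hi s = sectionMap (f j) (φ j) W hj s) :
    ∃! g : M ⟶ M', ∀ i, (Scheme.Modules.restrictFunctor (f i)).map g = φ i := by
  obtain ⟨g, hg, huniq⟩ :=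
    existsUnique_hom_of_basisHomData (isDownBasis_coverBasis f hf) (coverHomData f φ hφ)
  refine ⟨g, fun i => ?_, fun g' hg' => ?_⟩
  · apply Scheme.Modules.hom_ext
    intro V
    ext s
    have h1 := hg ((f i) ''ᵁ V) ⟨i, (f i).image_le_opensRange V⟩ (ofRestr (f i) M V s)
    rw [coverHomData_a f φ hφ _ i ((f i).image_le_opensRange V), sectionMap_image] at h1
    exact h1
  · apply huniq
    intro W hW s
    obtain ⟨i, hi⟩ := hW
    rw [coverHomData_a f φ hφ W i hi, ← hg' i, sectionMap_restrictFunctor_map]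

/-- Two morphisms of sheaves of modules whose restrictions to the members of an open cover agree
are equal. -/
theorem hom_ext_of_cover (hf : ⨆ i, (f i).opensRange = ⊤) (g g' : M ⟶ M')
    (h : ∀ i, (Scheme.Modules.restrictFunctor (f i)).map g =
      (Scheme.Modules.restrictFunctor (f i)).map g') : g = g' := by
  apply hom_ext_of_basis (isDownBasis_coverBasis f hf)
  rintro W ⟨i, hi⟩ s
  rw [← sectionMap_restrictFunctor_map (f i) g W hi, h i, sectionMap_restrictFunctor_map]

end Cover

end Fermat.Agent.S25.H926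

end
-- ===== PACK-END S25/H926/GlueHomCover.lean

-- ===== PACK-BEGIN S25/H506/AlgValOverlap.lean
section


/-!
# S25, block ALGVAL: passing from a chart to the overlap (abstract form)

Base change of a linear equivalence along `R → S` and transport of the normalisation relation
`ρ c' • b' (e n) = ρ c • f (b n)` from a chart to the overlap.
-/

set_option autoImplicit false
set_option linter.unusedSectionVars false
open scoped TensorProduct

namespace Fermat.Agent.S25.H506

section BaseChangeEquiv

variable {R S : Type*} [CommRing R] [CommRing S] [Algebra R S]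
variable {N N' M M' : Type*} [AddCommGroup N] [Module R N] [AddCommGroup N'] [Module R N']
  [AddCommGroup M] [Module R M] [Module S M] [IsScalarTower R S M]
  [AddCommGroup M'] [Module R M'] [Module S M'] [IsScalarTower R S M']
  {r : N →ₗ[R] M} {r' : N' →ₗ[R] M'}

/-- Base change of a linear equivalence along base change maps `r`, `r'`. -/
noncomputable def baseChangeEquiv (h : IsBaseChange S r) (h' : IsBaseChange S r')
    (e : N ≃ₗ[R] N') : M ≃ₗ[S] M' :=
  h.equiv.symm ≪≫ₗ LinearEquiv.baseChange R S N N' e ≪≫ₗ h'.equiv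

theorem baseChangeEquiv_apply (h : IsBaseChange S r) (h' : IsBaseChange S r')
    (e : N ≃ₗ[R] N') (s : N) : baseChangeEquiv h h' e (r s) = r' (e s) := by
  simp [baseChangeEquiv, IsBaseChange.equiv_symm_apply, IsBaseChange.equiv_tmul]

end BaseChangeEquiv

section Overlap

variable {R S R' S' : Type*} [CommRing R] [CommRing S] [CommRing R'] [CommRing S']
  [Algebra R S] [Algebra R' S'] {ρ : R →+* R'} {σ : S →+* S'}
variable {N N' M M' : Type*} [AddCommGroup N] [Module R N] [AddCommGroup N'] [Module R N']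
  [AddCommGroup M] [Module R M] [Module S M] [IsScalarTower R S M]
  [AddCommGroup M'] [Module R M'] [Module S M'] [IsScalarTower R S M']
variable {NK NK' MK MK' : Type*} [AddCommGroup NK] [Module R' NK] [AddCommGroup NK']
  [Module R' NK'] [AddCommGroup MK] [Module R' MK] [Module S' MK] [IsScalarTower R' S' MK]
  [AddCommGroup MK'] [Module R' MK'] [Module S' MK'] [IsScalarTower R' S' MK']

/-- Transport of the normalisation relation from a chart to the overlap. -/
theorem overlap_rel (hσ : ∀ x : R, σ (algebraMap R S x) = algebraMap R' S' (ρ x))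
    {r : N →ₗ[R] M} (hr : IsBaseChange S r) {r' : N' →ₗ[R] M'}
    {rK : NK →ₗ[R'] MK} {rK' : NK' →ₗ[R'] MK'}
    {b : N →ₛₗ[ρ] NK} {b' : N' →ₛₗ[ρ] NK'} {bM : M →ₛₗ[σ] MK} {bM' : M' →ₛₗ[σ] MK'}
    (hb : ∀ s, bM (r s) = rK (b s)) (hb' : ∀ s, bM' (r' s) = rK' (b' s))
    {f : NK ≃ₗ[R'] NK'} {fM : MK ≃ₗ[S'] MK'} (hf : ∀ y, fM (rK y) = rK' (f y))
    {e : N ≃ₗ[R] N'} {E : M ≃ₗ[S] M'} (hE : ∀ s, E (r s) = r' (e s))
    {c c' : R} (hc : ∀ n, ρ c' • b' (e n) = ρ c • f (b n)) (z : M) :
    σ (algebraMap R S c') • bM' (E z) = σ (algebraMap R S c) • fM (bM z) := by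
  refine hr.inductionOn z
    (fun z => σ (algebraMap R S c') • bM' (E z) = σ (algebraMap R S c) • fM (bM z))
    (by simp) (fun s => ?_) (fun t z hz => ?_) (fun z z' hz hz' => ?_)
  · rw [hE, hb', hb, hf, hσ, hσ, algebraMap_smul, algebraMap_smul, ← map_smul, hc, map_smul]
  · rw [map_smul, LinearMap.map_smulₛₗ, LinearMap.map_smulₛₗ, map_smul, smul_comm, hz,
      smul_comm]
  · rw [map_add, map_add, map_add, map_add, smul_add, smul_add, hz, hz']

end Overlap

end Fermat.Agent.S25.H506

end
-- ===== PACK-END S25/H506/AlgValOverlap.lean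

-- ===== PACK-BEGIN S25/H567/GeomIntegral.lean
section



/-!
# Integral schemes over an algebraically closed field are geometrically integral (helper567)

Blueprint leaf A3 of row S25 (block ABEL), Mathlib only.

* `geometricallyIntegral_specMap_of_isAlgClosed` : for `k` algebraically closed and any field
  `K ⊇ k`, `Spec K ⟶ Spec k` is geometrically integral (tensor products of domains over `k`
  are domains);
* `isIntegral_pullback_of_isAlgClosed` : `X` integral and locally noetherian over `k` ⇒
  `X ×ₖ Spec K` is integral;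
* `geometricallyIntegral_of_isAlgClosed` : `X` integral and locally noetherian over `k` ⇒
  `X ⟶ Spec k` is geometrically integral;
* `isIntegral_pullback_of_isIntegral` : the product of two integral, locally noetherian
  `k`-schemes is integral.
-/

set_option autoImplicit false

universe u

open CategoryTheory CategoryTheory.Limits AlgebraicGeometry TensorProduct

namespace Fermat.Agent.S25.H567

noncomputable section

variable {k : Type u} [Field k] [IsAlgClosed k]

/-- For an algebraically closed field `k` and a field extension `K`, the morphism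
`Spec K ⟶ Spec k` is geometrically integral. -/
theorem geometricallyIntegral_specMap_of_isAlgClosed (K : Type u) [Field K] [Algebra k K] :
    GeometricallyIntegral (Spec.map (CommRingCat.ofHom (algebraMap k K))) := by
  constructor
  intro L _ y Z fst snd hP
  obtain ⟨ψ, rfl⟩ := Spec.map_surjective y
  algebraize [ψ.hom]
  have hdom : IsDomain (K ⊗[k] L) := isDomain_tensorProduct k K L
  have hint : IsIntegral (Spec (CommRingCat.of (K ⊗[k] L))) := inferInstance
  have e : Z ≅ Spec (CommRingCat.of (K ⊗[k] L)) := hP.isoPullback ≪≫ pullbackSpecIso k K L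
  exact IsIntegral.of_isIso e.inv

/-- Any morphism `Spec K ⟶ Spec k` from the spectrum of a field to the spectrum of an
algebraically closed field is geometrically integral. -/
theorem geometricallyIntegral_of_field (K : Type u) [Field K]
    (y : Spec (CommRingCat.of K) ⟶ Spec (CommRingCat.of k)) : GeometricallyIntegral y := by
  obtain ⟨φ, rfl⟩ := Spec.map_surjective y
  algebraize [φ.hom]
  exact geometricallyIntegral_specMap_of_isAlgClosed K

/-- Base change of an integral, locally noetherian `k`-scheme to a field extension is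
integral. -/
theorem isIntegral_pullback_of_isAlgClosed {X : Scheme.{u}} [IsIntegral X]
    [IsLocallyNoetherian X] (f : X ⟶ Spec (CommRingCat.of k)) (K : Type u) [Field K]
    (y : Spec (CommRingCat.of K) ⟶ Spec (CommRingCat.of k)) : IsIntegral (pullback f y) := by
  have := geometricallyIntegral_of_field (k := k) K y
  infer_instance

/-- **An integral, locally noetherian scheme over an algebraically closed field is
geometrically integral.** -/
theorem geometricallyIntegral_of_isAlgClosed {X : Scheme.{u}} [IsIntegral X]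
    [IsLocallyNoetherian X] (f : X ⟶ Spec (CommRingCat.of k)) : GeometricallyIntegral f := by
  constructor
  intro K _ y Z fst snd hP
  have := isIntegral_pullback_of_isAlgClosed f K y
  exact IsIntegral.of_isIso hP.isoPullback.inv

/-- The product of two integral, locally noetherian schemes over an algebraically closed
field is integral. -/
theorem isIntegral_pullback_of_isIntegral {X Y : Scheme.{u}} [IsIntegral X]
    [IsLocallyNoetherian X] [IsIntegral Y] [IsLocallyNoetherian Y]
    (f : X ⟶ Spec (CommRingCat.of k)) (g : Y ⟶ Spec (CommRingCat.of k)) :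
    IsIntegral (pullback f g) := by
  have := geometricallyIntegral_of_isAlgClosed f
  infer_instance

end

end Fermat.Agent.S25.H567

end
-- ===== PACK-END S25/H567/GeomIntegral.lean

-- ===== PACK-BEGIN S25/H266/AbRigLocal.lean
section
/-
S25 / block ABEL, sub-block AB-ALG, leaf AA4 (helper266): rigidifiability of gluing data is
Zariski-local on the base, in the base-change sense.  Pure algebra; imports the frozen
`DefsAlg` only.

Main result `exists_rigidifiable_of_isBC`: for a gluing datum `G` over `A` and a prime `𝔭` of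
`A` there is `f ∉ 𝔭` such that every base change of `G` along `ψ : A → A'` with `ψ f` a unit
is rigidifiable.
-/


set_option autoImplicit false
set_option linter.style.haveILetI false
universe u
open scoped TensorProduct

namespace Fermat.Agent.S25.H266

open Fermat.Agent.S25

noncomputable section

section Pure

/-- A linear map from an invertible module to an invertible module over a bigger ring whose
image generates is a base change. -/
theorem isBaseChange_of_span_range_eq_top {R S : Type*} [CommRing R] [CommRing S] [Algebra R S]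
    {N Q : Type*} [AddCommGroup N] [Module R N] [Module.Invertible R N] [AddCommGroup Q]
    [Module R Q] [Module S Q] [IsScalarTower R S Q] [Module.Invertible S Q] (c : N →ₗ[R] Q)
    (hc : Submodule.span S (Set.range c) = ⊤) : IsBaseChange S c := by
  have hsurj : Function.Surjective (LinearMap.liftBaseChange S c) := by
    rw [← LinearMap.range_eq_top, eq_top_iff, ← hc, Submodule.span_le]
    rintro _ ⟨n, rfl⟩
    exact ⟨1 ⊗ₜ n, by simp⟩
  have hbij : Function.Bijective (LinearMap.liftBaseChange S c) :=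
    Module.Invertible.bijective_of_surjective hsurj
  exact IsBaseChange.of_equiv (LinearEquiv.ofBijective _ hbij) (fun x => by simp)

/-- On an invertible module some functional takes a value outside a given prime ideal. -/
theorem exists_dual_apply_not_mem {S : Type*} [CommRing S] {E : Type*} [AddCommGroup E]
    [Module S E] [Module.Invertible S E] (𝔭 : Ideal S) (h𝔭 : 𝔭 ≠ ⊤) :
    ∃ (φ : Module.Dual S E) (m : E), φ m ∉ 𝔭 := by
  by_contra hcon
  simp only [not_exists, not_not] at hcon
  have key : ∀ t : Module.Dual S E ⊗[S] E, contractLeft S E t ∈ 𝔭 := by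
    intro t
    induction t using TensorProduct.induction_on with
    | zero => simp
    | tmul φ m => simpa using hcon φ m
    | add x y hx hy => rw [map_add]; exact 𝔭.add_mem hx hy
  obtain ⟨t, ht⟩ := (Module.Invertible.bijective (R := S) (M := E)).2 1
  exact h𝔭 ((Ideal.eq_top_iff_one 𝔭).2 (ht ▸ key t))

end Pure

section Semilinear

variable {R R' : Type u} [CommRing R] [CommRing R'] (ρ : R →+* R')

/-- A semilinear map from an invertible module to the target ring taking a unit value is a
(semilinear) base change. -/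
theorem isSemilinearBaseChange_of_isUnit {N : Type u} [AddCommGroup N] [Module R N]
    [Module.Invertible R N] (c : N →ₛₗ[ρ] R') (n : N) (hn : IsUnit (c n)) :
    IsSemilinearBaseChange ρ c := by
  unfold IsSemilinearBaseChange
  letI : Algebra R R' := ρ.toAlgebra
  letI : Module R R' := Module.compHom R' ρ
  haveI : IsScalarTower R R' R' := ⟨fun r r' n => by
    change (ρ r * r') • n = ρ r • (r' • n); rw [mul_smul]⟩
  apply isBaseChange_of_span_range_eq_top
  rw [eq_top_iff]
  intro s _
  obtain ⟨u, hu⟩ := hn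
  have : s = (s * ↑u⁻¹) • c n := by
    rw [← hu, smul_eq_mul, mul_assoc, Units.inv_mul, mul_one]
  rw [this]
  exact Submodule.smul_mem _ _ (Submodule.subset_span ⟨n, rfl⟩)

/-- On an invertible `R`-module there is a `ρ`-semilinear functional to `R'` taking a value
outside a given prime ideal of `R'`. -/
theorem exists_semilinear_not_mem {N : Type u} [AddCommGroup N] [Module R N]
    [Module.Invertible R N] (𝔭 : Ideal R') (h𝔭 : 𝔭.IsPrime) :
    ∃ (l : N →ₛₗ[ρ] R') (n : N), l n ∉ 𝔭 := by
  letI : Algebra R R' := ρ.toAlgebra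
  obtain ⟨φ, m, hm⟩ := exists_dual_apply_not_mem (E := R' ⊗[R] N) 𝔭 h𝔭.ne_top
  have hex : ∃ n : N, φ (1 ⊗ₜ[R] n) ∉ 𝔭 := by
    by_contra hcon
    simp only [not_exists, not_not] at hcon
    have all : ∀ m : R' ⊗[R] N, φ m ∈ 𝔭 := by
      intro m
      induction m using TensorProduct.induction_on with
      | zero => simp
      | tmul s n =>
        have : s ⊗ₜ[R] n = s • ((1 : R') ⊗ₜ[R] n) := by
          rw [TensorProduct.smul_tmul', smul_eq_mul, mul_one]
        rw [this, map_smul]
        exact 𝔭.mul_mem_left _ (hcon n)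
      | add x y hx hy => rw [map_add]; exact 𝔭.add_mem hx hy
    exact hm (all m)
  obtain ⟨n, hn⟩ := hex
  refine ⟨{ toFun := fun n => φ (1 ⊗ₜ[R] n)
            map_add' := fun a b => by rw [TensorProduct.tmul_add, map_add]
            map_smul' := fun r a => by
              have : (1 : R') ⊗ₜ[R] (r • a) = (ρ r) • ((1 : R') ⊗ₜ[R] a) := by
                rw [TensorProduct.smul_tmul', smul_eq_mul, mul_one, TensorProduct.tmul_smul,
                  TensorProduct.smul_tmul']
                congr 1
                exact (mul_one _)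
              rw [this, map_smul] }, n, hn⟩

/-- Universal property of a semilinear base change, semilinear form. -/
theorem exists_semilinear_lift {S : Type u} [CommRing S] (σ : R' →+* S) {N N' : Type u}
    [AddCommGroup N] [Module R N] [AddCommGroup N'] [Module R' N'] (b : N →ₛₗ[ρ] N')
    (hb : IsSemilinearBaseChange ρ b) {Q : Type u} [AddCommGroup Q] [Module S Q]
    (g : N →ₛₗ[σ.comp ρ] Q) : ∃ g' : N' →ₛₗ[σ] Q, ∀ n, g' (b n) = g n := by
  unfold IsSemilinearBaseChange at hb
  letI : Algebra R R' := ρ.toAlgebra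
  letI : Module R N' := Module.compHom N' ρ
  haveI : IsScalarTower R R' N' := ⟨fun r r' n => by
    change (ρ r * r') • n = ρ r • (r' • n); rw [mul_smul]⟩
  letI : Module R' Q := Module.compHom Q σ
  letI : Module R Q := Module.compHom Q (σ.comp ρ)
  haveI : IsScalarTower R R' Q := ⟨fun r r' q => by
    change σ (ρ r * r') • q = σ (ρ r) • (σ r' • q); rw [map_mul, mul_smul]⟩
  let g₀ : N →ₗ[R] Q :=
    { toFun := fun n => g n
      map_add' := fun m n => g.map_add m n
      map_smul' := fun r n => LinearMap.map_smulₛₗ g r n }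
  refine ⟨{ toFun := fun n' => hb.lift g₀ n'
            map_add' := fun m n => (hb.lift g₀).map_add m n
            map_smul' := fun r' n' => (hb.lift g₀).map_smul r' n' }, fun n => ?_⟩
  exact hb.lift_eq g₀ n

end Semilinear

section Main

variable {k : Type u} [Field k] {B₀ B₁ B₀₁ : Type u} [CommRing B₀] [CommRing B₁] [CommRing B₀₁]
  [Algebra k B₀] [Algebra k B₁] [Algebra k B₀₁] [Algebra B₀ B₀₁] [Algebra B₁ B₀₁]
  [IsScalarTower k B₀ B₀₁] [IsScalarTower k B₁ B₀₁]

/-- The marked section commutes with base change. -/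
theorem epsHom_tensorMapLeft (e : B₁ →ₐ[k] k) {A A' : Type u} [CommRing A] [Algebra k A]
    [CommRing A'] [Algebra k A'] (ψ : A →ₐ[k] A') (r : A ⊗[k] B₁) :
    epsHom e A' (tensorMapLeft k ψ B₁ r) = ψ (epsHom e A r) := by
  induction r using TensorProduct.induction_on with
  | zero => simp
  | tmul a b => simp [epsHom, tensorMapLeft, Algebra.ofId_apply]
  | add x y hx hy => simp only [map_add, hx, hy]

/-- **AA4, general form.** Rigidifiability of a gluing datum is Zariski-local on the base:
for a prime `𝔭` of `A` there is `f ∉ 𝔭` such that every base change of `G` along a map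
inverting `f` is rigidifiable. -/
theorem exists_rigidifiable_of_isBC (e : B₁ →ₐ[k] k) {A : Type u} [CommRing A] [Algebra k A]
    (G : CurveGD k B₀ B₁ B₀₁ A) (𝔭 : Ideal A) (h𝔭 : 𝔭.IsPrime) :
    ∃ f : A, f ∉ 𝔭 ∧ ∀ (A' : Type u) [CommRing A'] [Algebra k A'] (ψ : A →ₐ[k] A'),
      IsUnit (ψ f) → ∀ G' : CurveGD k B₀ B₁ B₀₁ A', CurveGD.IsBC ψ G G' →
        G'.Rigidifiable e := by
  haveI := G.invertible₁
  obtain ⟨l, n, hn⟩ := exists_semilinear_not_mem (epsHom e A).toRingHom (N := G.N₁) 𝔭 h𝔭
  refine ⟨l n, hn, ?_⟩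
  intro A' _ _ ψ hψ G' hBC
  obtain ⟨bcm⟩ := hBC
  let g : G.N₁ →ₛₗ[(epsHom e A').toRingHom.comp (tensorMapLeft k ψ B₁)] A' :=
    { toFun := fun m => ψ (l m)
      map_add' := fun a b => by rw [map_add, map_add]
      map_smul' := fun r m => by
        rw [LinearMap.map_smulₛₗ, smul_eq_mul, map_mul]
        change _ = (epsHom e A') (tensorMapLeft k ψ B₁ r) • _
        rw [epsHom_tensorMapLeft, smul_eq_mul]
        rfl }
  obtain ⟨c, hc⟩ := exists_semilinear_lift (tensorMapLeft k ψ B₁) (epsHom e A').toRingHom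
    bcm.b₁ bcm.isBaseChange₁ g
  haveI := G'.invertible₁
  exact ⟨c, isSemilinearBaseChange_of_isUnit _ c (bcm.b₁ n) (by rw [hc]; exact hψ)⟩

end Main

end

end Fermat.Agent.S25.H266

end
-- ===== PACK-END S25/H266/AbRigLocal.lean

-- ===== PACK-BEGIN S25/H790/CechK2.lean
section
/-
S25, block CECH, leaf K2 (helper790): twisting kills `H¹`.

* `H1_finite`                  : `H¹(L(m∞))` is a finitely generated `A`-module (= E1).
* `exists_forall_d_surjective` : for `m` large the twisted differential `d m` is surjective.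

Statements exactly as in `origin/helper10:Fermat/Agent/S25/H10/CechSkel.lean`.
-/



set_option autoImplicit false

namespace Fermat.Agent.S25.H790

open Fermat.Agent.S25.H10 Submodule

universe u v

variable {A : Type u} [CommRing A] {N0 N1 N01 : Type v}
  [AddCommGroup N0] [AddCommGroup N1] [AddCommGroup N01]
  [Module A N0] [Module A N1] [Module A N01]

/-- The range of the twisted differential is `r0 N0 + T^m r1 N1`. -/
theorem range_d_eq (D : CechOps A N0 N1 N01) (m : ℕ) :
    LinearMap.range (D.d m) = LinearMap.range D.r0 ⊔ LinearMap.range ((D.T ^ m) ∘ₗ D.r1) := by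
  rw [CechOps.d, LinearMap.range_coprod, LinearMap.range_neg]

/-- `T` and `Tinv ^ k` commute. -/
theorem T_pow_Tinv_pow_comm (D : CechOps A N0 N1 N01) (m k : ℕ) (z : N01) :
    (D.T ^ m) ((D.Tinv ^ k) z) = (D.Tinv ^ k) ((D.T ^ m) z) := by
  have h : Commute (D.T ^ m) (D.Tinv ^ k) := (D.commute_T_Tinv.pow_left m).pow_right k
  rw [← Module.End.mul_apply, h.eq, Module.End.mul_apply]

/-- `T^k r1 N1 ⊆ T^m r1 N1` for `k ≤ m`. -/
theorem range_T_pow_r1_mono (D : CechOps A N0 N1 N01) {k m : ℕ} (hkm : k ≤ m) :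
    LinearMap.range ((D.T ^ k) ∘ₗ D.r1) ≤ LinearMap.range ((D.T ^ m) ∘ₗ D.r1) := by
  rintro _ ⟨n, rfl⟩
  obtain ⟨j, rfl⟩ := Nat.exists_eq_add_of_le hkm
  refine ⟨(D.Y1 ^ j) n, ?_⟩
  simp only [LinearMap.coe_comp, Function.comp_apply]
  rw [D.r1_Y1_pow, pow_add, Module.End.mul_apply, D.T_pow_Tinv_pow_apply]

/-- **K2a** (= E1 in the language of `CechOps`). -/
theorem H1_finite (D : CechOps A N0 N1 N01) (h0 : IsFG D.X0) (m : ℕ) :
    Module.Finite A (D.H1 m) := by
  obtain ⟨s0, hs0⟩ := h0
  have key : Module.Finite A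
      (N01 ⧸ (LinearMap.range D.r0 ⊔ LinearMap.range ((D.T ^ m) ∘ₗ D.r1))) := by
    refine cechH1_finite_core D.X0 D.Y1 D.T D.Tinv D.T_mul_Tinv D.Tinv_mul_T D.r0
      ((D.T ^ m) ∘ₗ D.r1) D.r0_X0 (fun n => ?_) s0 hs0 D.loc0 (fun z => ?_)
    · simp only [LinearMap.coe_comp, Function.comp_apply]
      rw [D.r1_Y1]
      have := T_pow_Tinv_pow_comm D m 1 (D.r1 n)
      simpa using this
    · obtain ⟨k, n, hk⟩ := D.loc1 ((D.Tinv ^ m) z)
      refine ⟨k, n, ?_⟩
      simp only [LinearMap.coe_comp, Function.comp_apply]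
      rw [← hk, T_pow_Tinv_pow_comm, D.T_pow_Tinv_pow_apply]
  have hrange := range_d_eq D m
  show Module.Finite A (N01 ⧸ LinearMap.range (D.d m))
  rw [hrange]
  exact key

/-- **K2.** For `m` large the twisted differential is surjective. -/
theorem exists_forall_d_surjective (D : CechOps A N0 N1 N01) (h0 : IsFG D.X0) :
    ∃ m0 : ℕ, ∀ m, m0 ≤ m → Function.Surjective (D.d m) := by
  classical
  -- finitely many generators of `H¹(L)`
  have hfin : Module.Finite A (D.H1 0) := H1_finite D h0 0
  obtain ⟨G, hG⟩ := (Module.Finite.fg_top : (⊤ : Submodule A (D.H1 0)).FG)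
  -- lift them to `N01` and choose exponents
  have hlift : ∀ g : D.H1 0, ∃ z : N01, (LinearMap.range (D.d 0)).mkQ z = g :=
    fun g => mkQ_surjective _ g
  choose lift hliftspec using hlift
  choose K w hK using fun z : N01 => D.loc1 z
  refine ⟨G.sup (fun g => K (lift g)), fun m hm => ?_⟩
  rw [← LinearMap.range_eq_top, range_d_eq]
  set P : Submodule A N01 := LinearMap.range D.r0 ⊔ LinearMap.range ((D.T ^ m) ∘ₗ D.r1) with hP
  -- `range (d 0) ≤ P`
  have h0P : LinearMap.range (D.d 0) ≤ P := by
    rw [range_d_eq]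
    exact sup_le_sup_left (range_T_pow_r1_mono D (Nat.zero_le m)) _
  -- the lifted generators lie in `P`
  have hgen : ∀ g ∈ G, lift g ∈ P := by
    intro g hg
    have hle : K (lift g) ≤ m := le_trans (Finset.le_sup (f := fun g => K (lift g)) hg) hm
    refine mem_sup_right (range_T_pow_r1_mono D hle ⟨w (lift g), ?_⟩)
    simp only [LinearMap.coe_comp, Function.comp_apply]
    rw [← hK, D.T_pow_Tinv_pow_apply]
  -- conclude
  rw [eq_top_iff]
  intro z _
  have hz : (LinearMap.range (D.d 0)).mkQ z ∈ span A (G : Set (D.H1 0)) := by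
    rw [hG]; exact mem_top
  -- every element of the span of `G` has a representative in `P`
  have hspan : ∀ q ∈ span A (G : Set (D.H1 0)),
      ∃ p ∈ P, (LinearMap.range (D.d 0)).mkQ p = q := by
    intro q hq
    induction hq using Submodule.span_induction with
    | mem g hg => exact ⟨lift g, hgen g hg, hliftspec g⟩
    | zero => exact ⟨0, P.zero_mem, by simp⟩
    | add a b _ _ ha hb =>
      obtain ⟨pa, hpa, rfl⟩ := ha
      obtain ⟨pb, hpb, rfl⟩ := hb
      exact ⟨pa + pb, P.add_mem hpa hpb, by simp⟩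
    | smul c a _ ha =>
      obtain ⟨pa, hpa, rfl⟩ := ha
      exact ⟨c • pa, P.smul_mem c hpa, by simp⟩
  obtain ⟨p, hp, hpz⟩ := hspan _ hz
  have hdiff : z - p ∈ LinearMap.range (D.d 0) := by
    rw [← Submodule.Quotient.mk_eq_zero, Submodule.Quotient.mk_sub, sub_eq_zero]
    exact hpz.symm
  have : z = (z - p) + p := by abel
  rw [this]
  exact P.add_mem (h0P hdiff) hp

end Fermat.Agent.S25.H790

end
-- ===== PACK-END S25/H790/CechK2.lean

-- ===== PACK-BEGIN S25/H310/UniversalKernel.lean
section


/-!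
# E2: a linear map whose kernel commutes with base change has a generalized inverse

Let `f : F →ₗ[A] F'` be a linear map with `F` finitely generated and `F'` finitely presented and
flat (e.g. both finitely generated free).  If the formation of `ker f` commutes with the base
changes `A → A ⧸ J` (`J` a finitely generated ideal), in the weak sense that
`(A ⧸ J) ⊗ ker f → ker ((A ⧸ J) ⊗ f)` is onto, then

* `coker f` is flat, finitely presented and projective;
* there is `t : F' →ₗ[A] F` with `f ∘ t ∘ f = f`;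
* `ker f` and `range f` are direct summands, finitely generated (and projective if `F` is);
* the formation of `ker f` commutes with *every* base change (and every tensor product).
-/

open TensorProduct

set_option autoImplicit false
set_option linter.style.haveILetI false
set_option linter.unusedSimpArgs false

namespace Fermat.Agent.S25.H310

universe u v w

variable {A : Type u} [CommRing A] {F : Type v} {F' : Type w}
  [AddCommGroup F] [Module A F] [AddCommGroup F'] [Module A F']

/-- The universal-kernel condition for the quotients `A ⧸ J`, in elementary form: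
if `f x ∈ J F'` then `x ∈ ker f + J F`. -/
def KerCommutesModIdeals (f : F →ₗ[A] F') : Prop :=
  ∀ J : Ideal A, J.FG → ∀ x : F, f x ∈ (J • ⊤ : Submodule A F') →
    x ∈ LinearMap.ker f ⊔ (J • ⊤ : Submodule A F)

/-- A generalized inverse of `f`. -/
def IsGeneralizedInverse (f : F →ₗ[A] F') (t : F' →ₗ[A] F) : Prop :=
  f ∘ₗ t ∘ₗ f = f

theorem IsGeneralizedInverse.apply {f : F →ₗ[A] F'} {t : F' →ₗ[A] F}
    (h : IsGeneralizedInverse f t) (x : F) : f (t (f x)) = f x :=
  LinearMap.congr_fun h x

/-! ### From the kernel condition to flatness of the cokernel -/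

theorem range_inf_smul_le_of_kerCommutesModIdeals {f : F →ₗ[A] F'}
    (h : KerCommutesModIdeals f) (J : Ideal A) (hJ : J.FG) :
    LinearMap.range f ⊓ (J • ⊤ : Submodule A F') ≤ J • LinearMap.range f := by
  rintro y ⟨⟨x, rfl⟩, hy⟩
  have hx := h J hJ x hy
  obtain ⟨k, hk, z, hz, rfl⟩ := Submodule.mem_sup.mp hx
  have hk0 : f k = 0 := hk
  rw [map_add, hk0, zero_add]
  have h1 : f z ∈ Submodule.map f (J • (⊤ : Submodule A F)) := Submodule.mem_map_of_mem hz
  rwa [Submodule.map_smul'', Submodule.map_top] at h1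

theorem flat_coker_of_kerCommutesModIdeals [Module.Flat A F'] {f : F →ₗ[A] F'}
    (h : KerCommutesModIdeals f) : Module.Flat A (F' ⧸ LinearMap.range f) :=
  flat_quotient_of_inf_smul_le _ (range_inf_smul_le_of_kerCommutesModIdeals h)

theorem finitePresentation_coker [Module.Finite A F] [Module.FinitePresentation A F']
    (f : F →ₗ[A] F') : Module.FinitePresentation A (F' ⧸ LinearMap.range f) := by
  refine Module.finitePresentation_of_surjective (LinearMap.range f).mkQ
    (Submodule.mkQ_surjective _) ?_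
  rw [Submodule.ker_mkQ, LinearMap.range_eq_map]
  exact (Module.Finite.fg_top (R := A) (M := F)).map f

theorem projective_coker_of_kerCommutesModIdeals [Module.Finite A F]
    [Module.FinitePresentation A F'] [Module.Flat A F'] {f : F →ₗ[A] F'}
    (h : KerCommutesModIdeals f) : Module.Projective A (F' ⧸ LinearMap.range f) := by
  haveI := flat_coker_of_kerCommutesModIdeals h
  haveI := finitePresentation_coker f
  exact Module.Flat.projective_of_finitePresentation

/-! ### Existence of a generalized inverse -/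

/-- If `coker f` is projective and `F'` is projective, then `f` has a generalized inverse. -/
theorem exists_isGeneralizedInverse_of_projective_coker [Module.Projective A F']
    (f : F →ₗ[A] F') [hQ : Module.Projective A (F' ⧸ LinearMap.range f)] :
    ∃ t : F' →ₗ[A] F, IsGeneralizedInverse f t := by
  -- a section of the quotient map
  obtain ⟨σ, hσ⟩ := Module.projective_lifting_property (LinearMap.range f).mkQ
    (LinearMap.id : (F' ⧸ LinearMap.range f) →ₗ[A] _) (Submodule.mkQ_surjective _)
  -- the projector onto `range f`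
  let p : F' →ₗ[A] F' := LinearMap.id - σ ∘ₗ (LinearMap.range f).mkQ
  have hp_mem : ∀ y, p y ∈ LinearMap.range f := by
    intro y
    rw [← Submodule.Quotient.mk_eq_zero, ← Submodule.mkQ_apply]
    have hthis : (LinearMap.range f).mkQ (σ ((LinearMap.range f).mkQ y)) =
        (LinearMap.range f).mkQ y := LinearMap.congr_fun hσ ((LinearMap.range f).mkQ y)
    simp only [p, LinearMap.sub_apply, LinearMap.id_apply, LinearMap.comp_apply, map_sub, hthis,
      sub_self]
  have hp_fix : ∀ x, p (f x) = f x := by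
    intro x
    have h0 : (LinearMap.range f).mkQ (f x) = 0 := by
      rw [Submodule.mkQ_apply, Submodule.Quotient.mk_eq_zero]
      exact LinearMap.mem_range_self f x
    simp [p, h0]
  let p' : F' →ₗ[A] LinearMap.range f := p.codRestrict _ hp_mem
  -- `range f` is projective, being a direct summand of `F'`
  haveI : Module.Projective A (LinearMap.range f) :=
    Module.Projective.of_split (LinearMap.range f).subtype p' (by
      ext ⟨y, x, rfl⟩
      simp [p', hp_fix])
  obtain ⟨τ, hτ⟩ := Module.projective_lifting_property f.rangeRestrict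
    (LinearMap.id : LinearMap.range f →ₗ[A] _) f.surjective_rangeRestrict
  refine ⟨τ ∘ₗ p', ?_⟩
  ext x
  have h1 : p' (f x) = f.rangeRestrict x := by
    apply Subtype.ext
    simp [p', hp_fix]
  have h2 := LinearMap.congr_fun hτ (f.rangeRestrict x)
  simp only [LinearMap.comp_apply, LinearMap.id_apply] at h2
  have h3 : f (τ (f.rangeRestrict x)) = f x := by
    have := congrArg Subtype.val h2
    simpa using this
  simp only [LinearMap.comp_apply, h1, h3]

/-- **E2, core statement.**  If the formation of `ker f` commutes with the base changes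
`A → A ⧸ J`, then `f` has a generalized inverse. -/
theorem exists_isGeneralizedInverse [Module.Finite A F] [Module.FinitePresentation A F']
    [Module.Flat A F'] {f : F →ₗ[A] F'} (h : KerCommutesModIdeals f) :
    ∃ t : F' →ₗ[A] F, IsGeneralizedInverse f t := by
  haveI : Module.Projective A F' := Module.Flat.projective_of_finitePresentation
  haveI := projective_coker_of_kerCommutesModIdeals h
  exact exists_isGeneralizedInverse_of_projective_coker f

/-- Converse: a map with a generalized inverse satisfies the kernel condition. -/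
theorem IsGeneralizedInverse.kerCommutesModIdeals {f : F →ₗ[A] F'} {t : F' →ₗ[A] F}
    (h : IsGeneralizedInverse f t) : KerCommutesModIdeals f := by
  intro J _ x hx
  have h1 : x - t (f x) ∈ LinearMap.ker f := by
    rw [LinearMap.mem_ker, map_sub, h.apply, sub_self]
  have h2 : t (f x) ∈ (J • ⊤ : Submodule A F) := by
    have : t (f x) ∈ Submodule.map t (J • (⊤ : Submodule A F')) := Submodule.mem_map_of_mem hx
    rw [Submodule.map_smul''] at this
    exact Submodule.smul_mono (le_refl J) le_top this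
  have : x = (x - t (f x)) + t (f x) := by abel
  rw [this]
  exact Submodule.add_mem_sup h1 h2

/-! ### Consequences of a generalized inverse -/

section Consequences

variable {f : F →ₗ[A] F'} {t : F' →ₗ[A] F}

/-- The retraction of `F` onto `ker f` attached to a generalized inverse. -/
noncomputable def IsGeneralizedInverse.kerRetraction (h : IsGeneralizedInverse f t) :
    F →ₗ[A] LinearMap.ker f :=
  (LinearMap.id - t ∘ₗ f).codRestrict _ (fun x => by
    rw [LinearMap.mem_ker]
    simp [h.apply])

theorem IsGeneralizedInverse.kerRetraction_coe (h : IsGeneralizedInverse f t) (x : F) :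
    (h.kerRetraction x : F) = x - t (f x) := rfl

theorem IsGeneralizedInverse.kerRetraction_comp_subtype (h : IsGeneralizedInverse f t) :
    h.kerRetraction ∘ₗ (LinearMap.ker f).subtype = LinearMap.id := by
  ext ⟨x, hx⟩
  have hx0 : f x = 0 := hx
  simp [IsGeneralizedInverse.kerRetraction_coe, hx0]

theorem IsGeneralizedInverse.subtype_comp_kerRetraction (h : IsGeneralizedInverse f t) :
    (LinearMap.ker f).subtype ∘ₗ h.kerRetraction = LinearMap.id - t ∘ₗ f := by
  ext x
  simp [IsGeneralizedInverse.kerRetraction_coe]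

theorem IsGeneralizedInverse.kerRetraction_surjective (h : IsGeneralizedInverse f t) :
    Function.Surjective h.kerRetraction := fun y =>
  ⟨y, LinearMap.congr_fun h.kerRetraction_comp_subtype y⟩

theorem IsGeneralizedInverse.finite_ker [Module.Finite A F] (h : IsGeneralizedInverse f t) :
    Module.Finite A (LinearMap.ker f) :=
  Module.Finite.of_surjective h.kerRetraction h.kerRetraction_surjective

theorem IsGeneralizedInverse.projective_ker [Module.Projective A F]
    (h : IsGeneralizedInverse f t) : Module.Projective A (LinearMap.ker f) :=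
  Module.Projective.of_split (LinearMap.ker f).subtype h.kerRetraction
    h.kerRetraction_comp_subtype

theorem IsGeneralizedInverse.ker_isCompl (h : IsGeneralizedInverse f t) :
    IsCompl (LinearMap.ker f) (LinearMap.ker h.kerRetraction) :=
  LinearMap.isCompl_of_proj (fun x => LinearMap.congr_fun h.kerRetraction_comp_subtype x)

/-- The retraction of `F'` onto `range f` attached to a generalized inverse. -/
noncomputable def IsGeneralizedInverse.rangeRetraction (_h : IsGeneralizedInverse f t) :
    F' →ₗ[A] LinearMap.range f :=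
  f.rangeRestrict ∘ₗ t

theorem IsGeneralizedInverse.rangeRetraction_comp_subtype (h : IsGeneralizedInverse f t) :
    h.rangeRetraction ∘ₗ (LinearMap.range f).subtype = LinearMap.id := by
  ext ⟨y, x, rfl⟩
  simp [IsGeneralizedInverse.rangeRetraction, h.apply]

theorem IsGeneralizedInverse.projective_range [Module.Projective A F']
    (h : IsGeneralizedInverse f t) : Module.Projective A (LinearMap.range f) :=
  Module.Projective.of_split (LinearMap.range f).subtype h.rangeRetraction
    h.rangeRetraction_comp_subtype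

theorem IsGeneralizedInverse.range_isCompl (h : IsGeneralizedInverse f t) :
    IsCompl (LinearMap.range f) (LinearMap.ker h.rangeRetraction) :=
  LinearMap.isCompl_of_proj (fun x => LinearMap.congr_fun h.rangeRetraction_comp_subtype x)

/-- The cokernel of a map with a generalized inverse is projective when the target is. -/
theorem IsGeneralizedInverse.projective_coker [Module.Projective A F']
    (h : IsGeneralizedInverse f t) : Module.Projective A (F' ⧸ LinearMap.range f) := by
  -- `coker f` is a retract of `F'` via `y ↦ y - f (t y)`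
  let s : (F' ⧸ LinearMap.range f) →ₗ[A] F' :=
    (LinearMap.range f).liftQ (LinearMap.id - f ∘ₗ t) (by
      rintro y ⟨x, rfl⟩
      rw [LinearMap.mem_ker]
      simp [h.apply])
  refine Module.Projective.of_split s (LinearMap.range f).mkQ ?_
  ext y
  have : (LinearMap.range f).mkQ (f (t y)) = 0 := by
    rw [Submodule.mkQ_apply, Submodule.Quotient.mk_eq_zero]
    exact LinearMap.mem_range_self f _
  simp [s, this]

/-! ### Base change -/

/-- The generalized inverse survives every base change. -/
theorem IsGeneralizedInverse.baseChange (h : IsGeneralizedInverse f t) (B : Type*) [CommRing B]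
    [Algebra A B] : f.baseChange B ∘ₗ t.baseChange B ∘ₗ f.baseChange B = f.baseChange B := by
  rw [← LinearMap.baseChange_comp, ← LinearMap.baseChange_comp]
  exact congrArg (LinearMap.baseChange B) h

/-- The formation of the kernel commutes with every base change: injectivity. -/
theorem IsGeneralizedInverse.baseChange_subtype_injective (h : IsGeneralizedInverse f t)
    (B : Type*) [CommRing B] [Algebra A B] :
    Function.Injective ((LinearMap.ker f).subtype.baseChange B) := by
  have h1 : h.kerRetraction.baseChange B ∘ₗ (LinearMap.ker f).subtype.baseChange B =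
      LinearMap.id := by
    rw [← LinearMap.baseChange_comp, h.kerRetraction_comp_subtype, LinearMap.baseChange_id]
  exact Function.LeftInverse.injective (g := h.kerRetraction.baseChange B)
    (fun x => LinearMap.congr_fun h1 x)

/-- The formation of the kernel commutes with every base change: the kernel of `B ⊗ f` is the
image of `B ⊗ ker f`. -/
theorem IsGeneralizedInverse.ker_baseChange (h : IsGeneralizedInverse f t)
    (B : Type*) [CommRing B] [Algebra A B] :
    LinearMap.ker (f.baseChange B) =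
      LinearMap.range ((LinearMap.ker f).subtype.baseChange B) := by
  apply le_antisymm
  · intro z hz
    have hz0 : f.baseChange B z = 0 := hz
    have h1 : ((LinearMap.ker f).subtype ∘ₗ h.kerRetraction).baseChange B z = z := by
      rw [h.subtype_comp_kerRetraction, LinearMap.baseChange_sub, LinearMap.baseChange_id,
        LinearMap.baseChange_comp]
      simp [hz0]
    rw [LinearMap.baseChange_comp] at h1
    exact ⟨h.kerRetraction.baseChange B z, h1⟩
  · rintro _ ⟨w, rfl⟩
    rw [LinearMap.mem_ker, ← LinearMap.comp_apply, ← LinearMap.baseChange_comp]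
    have : f ∘ₗ (LinearMap.ker f).subtype = 0 := by
      ext ⟨x, hx⟩
      exact hx
    rw [this, LinearMap.baseChange_zero, LinearMap.zero_apply]

/-- Tensor version (arbitrary module `M`): injectivity. -/
theorem IsGeneralizedInverse.lTensor_subtype_injective (h : IsGeneralizedInverse f t)
    (M : Type*) [AddCommGroup M] [Module A M] :
    Function.Injective ((LinearMap.ker f).subtype.lTensor M) := by
  have h1 : h.kerRetraction.lTensor M ∘ₗ (LinearMap.ker f).subtype.lTensor M =
      LinearMap.id := by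
    rw [← LinearMap.lTensor_comp, h.kerRetraction_comp_subtype, LinearMap.lTensor_id]
  exact Function.LeftInverse.injective (g := h.kerRetraction.lTensor M)
    (fun x => LinearMap.congr_fun h1 x)

/-- Tensor version (arbitrary module `M`): the kernel of `M ⊗ f` is the image of `M ⊗ ker f`. -/
theorem IsGeneralizedInverse.ker_lTensor (h : IsGeneralizedInverse f t)
    (M : Type*) [AddCommGroup M] [Module A M] :
    LinearMap.ker (f.lTensor M) = LinearMap.range ((LinearMap.ker f).subtype.lTensor M) := by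
  apply le_antisymm
  · intro z hz
    have hz0 : f.lTensor M z = 0 := hz
    have h1 : ((LinearMap.ker f).subtype ∘ₗ h.kerRetraction).lTensor M z = z := by
      rw [h.subtype_comp_kerRetraction, LinearMap.lTensor_sub, LinearMap.lTensor_id,
        LinearMap.lTensor_comp]
      simp [hz0]
    rw [LinearMap.lTensor_comp] at h1
    exact ⟨h.kerRetraction.lTensor M z, h1⟩
  · rintro _ ⟨w, rfl⟩
    rw [LinearMap.mem_ker, ← LinearMap.comp_apply, ← LinearMap.lTensor_comp]
    have : f ∘ₗ (LinearMap.ker f).subtype = 0 := by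
      ext ⟨x, hx⟩
      exact hx
    rw [this, LinearMap.lTensor_zero, LinearMap.zero_apply]

end Consequences

end Fermat.Agent.S25.H310

end
-- ===== PACK-END S25/H310/UniversalKernel.lean

-- ===== PACK-BEGIN S25/H431/HilbDiv.lean
section
/-
S25 / block HILB (helper431), leaf H3 ("Hilb = Div").

An ideal `I` of `A ⊗[k] B` whose quotient is finite projective over `A` is an invertible
`A ⊗[k] B`-module, as soon as the diagonal ideal of `B` over `k` is invertible.
-/






set_option autoImplicit false

open TensorProduct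

universe u

namespace Fermat.Agent.S25.H431

section Assembly

/-- **Abstract assembly.** Let `I` be an ideal of `R`, and `M` a finite projective `R`-algebra
with a surjection `μ : M → R ⧸ I` of `R`-algebras whose kernel is an invertible `M`-module.
Then `I` is finite projective of rank one over `R`. -/
theorem finite_projective_rank_one_of_resolution {R : Type*} [CommRing R] (I : Ideal R)
    (M : Type*) [CommRing M] [Algebra R M] [Module.Finite R M] [Module.Projective R M]
    (μ : M →+* R ⧸ I) (hμ : Function.Surjective μ)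
    (hμR : ∀ r : R, μ (algebraMap R M r) = Ideal.Quotient.mk I r)
    [Module.Invertible M (RingHom.ker μ)] :
    Module.Finite R I ∧ Module.Projective R I ∧
      ∀ p : PrimeSpectrum R, Module.rankAtStalk (R := R) I p = 1 := by
  classical
  -- the two surjections onto `R ⧸ I`
  let f : R →ₗ[R] R ⧸ I := Submodule.mkQ I
  let g : M →ₗ[R] R ⧸ I :=
    { toFun := μ
      map_add' := map_add μ
      map_smul' := fun r m => by
        rw [Algebra.smul_def, map_mul, hμR, RingHom.id_apply, Algebra.smul_def]
        rfl }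
  have hf : Function.Surjective f := Submodule.mkQ_surjective I
  have hg : Function.Surjective g := hμ
  obtain ⟨e⟩ := schanuel f g hf hg
  -- the kernel of `g`, as an `R`-module, is the ideal `ker μ`
  let J : Ideal M := RingHom.ker μ
  have hJfin : Module.Finite R J := Module.Finite.trans M J
  have hJproj : Module.Projective R J := projective_trans R M J
  let eJ : LinearMap.ker g ≃ₗ[R] J :=
    { toFun := fun x => ⟨x.1, x.2⟩
      invFun := fun x => ⟨x.1, x.2⟩
      map_add' := fun _ _ => rfl
      map_smul' := fun _ _ => rfl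
      left_inv := fun _ => rfl
      right_inv := fun _ => rfl }
  have hKfin : Module.Finite R (LinearMap.ker g) := Module.Finite.equiv eJ.symm
  have hKproj : Module.Projective R (LinearMap.ker g) := Module.Projective.of_equiv eJ.symm
  -- the kernel of `f` is `I`
  have hker : LinearMap.ker f = I := Submodule.ker_mkQ I
  let eI : LinearMap.ker f ≃ₗ[R] I := LinearEquiv.ofEq _ _ hker
  -- `I × M ≃ ker g × R`
  let e' : (I × M) ≃ₗ[R] (LinearMap.ker g × R) :=
    (LinearEquiv.prodCongr eI.symm (LinearEquiv.refl R M)).trans e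
  have hIMfin : Module.Finite R (I × M) := Module.Finite.equiv e'.symm
  have hIMproj : Module.Projective R (I × M) := Module.Projective.of_equiv e'.symm
  have hIfin : Module.Finite R I :=
    Module.Finite.of_surjective (LinearMap.fst R I M) LinearMap.fst_surjective
  have hIproj : Module.Projective R I :=
    Module.Projective.of_split (LinearMap.inl R I M) (LinearMap.fst R I M) (by ext; rfl)
  refine ⟨hIfin, hIproj, fun p => ?_⟩
  have hnt : Nontrivial R := ⟨⟨0, 1, fun h => p.2.ne_top ((Ideal.eq_top_iff_one _).mpr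
    (by rw [← h]; exact Ideal.zero_mem _))⟩⟩
  have h1 : Module.rankAtStalk (R := R) (I × M) p =
      Module.rankAtStalk (R := R) (LinearMap.ker g × R) p := by
    rw [Module.rankAtStalk_eq_of_equiv e']
  rw [Module.rankAtStalk_prod, Module.rankAtStalk_prod, Pi.add_apply, Pi.add_apply,
    Module.rankAtStalk_eq_of_equiv eJ, rankAtStalk_eq_of_invertible R M J p,
    Module.rankAtStalk_self, Pi.one_apply] at h1
  omega

/-- **Abstract assembly**, invertible form (single universe). -/
theorem invertible_of_resolution {R : Type u} [CommRing R] (I : Ideal R)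
    (M : Type*) [CommRing M] [Algebra R M] [Module.Finite R M] [Module.Projective R M]
    (μ : M →+* R ⧸ I) (hμ : Function.Surjective μ)
    (hμR : ∀ r : R, μ (algebraMap R M r) = Ideal.Quotient.mk I r)
    [Module.Invertible M (RingHom.ker μ)] :
    Module.Invertible R I := by
  obtain ⟨h1, h2, h3⟩ := finite_projective_rank_one_of_resolution I M μ hμ hμR
  exact Fermat.Agent.S25.H551.invertible_of_rankAtStalk_eq_one I h3

end Assembly

section Hilb

/-- **H3 (Hilb = Div), abstract quotient form.** -/
theorem hilb_invertible_aux (k A B Q : Type u) [CommRing k] [CommRing A] [CommRing B]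
    [CommRing Q] [Algebra k A] [Algebra k B] [Algebra k Q] [Algebra A Q] [Algebra B Q]
    [IsScalarTower k A Q] [IsScalarTower k B Q]
    [Module.Invertible (B ⊗[k] B) (KaehlerDifferential.ideal k B)]
    [Module.Finite A Q] [Module.Projective A Q]
    (π : A ⊗[k] B →+* Q) (hπ : Function.Surjective π)
    (hπ' : ∀ (a : A) (b : B), π (a ⊗ₜ b) = algebraMap A Q a * algebraMap B Q b) :
    Module.Invertible (A ⊗[k] B) (RingHom.ker π) := by
  classical
  -- the `A ⊗ B`-algebra structure of `Q ⊗ B`
  let ψ : A ⊗[k] B →ₐ[A] Q ⊗[k] B :=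
    Algebra.TensorProduct.map (Algebra.ofId A Q) (AlgHom.id k B)
  let algRM : Algebra (A ⊗[k] B) (Q ⊗[k] B) :=
    @RingHom.toAlgebra (A ⊗[k] B) (Q ⊗[k] B) _ _ ψ.toRingHom
  have hψ : ∀ r : A ⊗[k] B, algebraMap (A ⊗[k] B) (Q ⊗[k] B) r = ψ r :=
    fun r => rfl
  have tower2 : IsScalarTower A (A ⊗[k] B) (Q ⊗[k] B) :=
    IsScalarTower.of_algebraMap_eq (R := A) (S := A ⊗[k] B) (A := Q ⊗[k] B) fun a => by
      rw [hψ, AlgHom.commutes]
  have H : (algebraMap (A ⊗[k] B) (Q ⊗[k] B)).comp
      (Algebra.TensorProduct.includeRight : B →ₐ[k] A ⊗[k] B).toRingHom =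
      (Algebra.TensorProduct.includeRight : B →ₐ[k] Q ⊗[k] B).toRingHom := by
    ext b
    simp [hψ, ψ]
  have hpo : Algebra.IsPushout A Q (A ⊗[k] B) (Q ⊗[k] B) :=
    Algebra.IsPushout.tensorProduct_tensorProduct k B A Q H
  have hpo' : Algebra.IsPushout A (A ⊗[k] B) Q (Q ⊗[k] B) := hpo.symm
  let eq : (A ⊗[k] B) ⊗[A] Q ≃ₐ[A ⊗[k] B] Q ⊗[k] B :=
    Algebra.IsPushout.equiv A (A ⊗[k] B) Q (Q ⊗[k] B)
  have hfin : Module.Finite (A ⊗[k] B) (Q ⊗[k] B) := Module.Finite.equiv eq.toLinearEquiv
  have hproj : Module.Projective (A ⊗[k] B) (Q ⊗[k] B) :=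
    Module.Projective.of_equiv eq.toLinearEquiv
  -- the surjection onto the quotient
  let μ₀ : Q ⊗[k] B →+* Q := (graphMap k B Q).toRingHom
  have hμ₀ : Function.Surjective μ₀ := graphMap_surjective k B Q
  have hμ₀R : ∀ r : A ⊗[k] B, μ₀ (ψ r) = π r := by
    intro r
    induction r with
    | zero => simp
    | tmul a b =>
      change graphMap k B Q (ψ (a ⊗ₜ b)) = _
      simp only [ψ, Algebra.TensorProduct.map_tmul, graphMap_tmul, Algebra.ofId_apply,
        AlgHom.id_apply, hπ']
    | add x y hx hy => rw [map_add, map_add, hx, hy, map_add]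
  let ε : Q ≃+* (A ⊗[k] B) ⧸ RingHom.ker π := (RingHom.quotientKerEquivOfSurjective hπ).symm
  have hε : ∀ r : A ⊗[k] B, ε (π r) = Ideal.Quotient.mk (RingHom.ker π) r := by
    intro r
    rw [RingEquiv.symm_apply_eq]
    rfl
  let μ : Q ⊗[k] B →+* (A ⊗[k] B) ⧸ RingHom.ker π := ε.toRingHom.comp μ₀
  have hμ : Function.Surjective μ := ε.surjective.comp hμ₀
  have hμR : ∀ r : A ⊗[k] B,
      μ (algebraMap (A ⊗[k] B) (Q ⊗[k] B) r) = Ideal.Quotient.mk (RingHom.ker π) r := by
    intro r
    rw [hψ]
    change ε (μ₀ (ψ r)) = _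
    rw [hμ₀R, hε]
  have hker : RingHom.ker μ = RingHom.ker (graphMap k B Q) := by
    ext x
    simp only [RingHom.mem_ker]
    change ε (μ₀ x) = 0 ↔ _
    rw [map_eq_zero_iff ε ε.injective]
    rfl
  have hinv : Module.Invertible (Q ⊗[k] B) (RingHom.ker μ) := by
    rw [hker]
    exact ker_graphMap_invertible k B Q
  exact invertible_of_resolution (RingHom.ker π) (Q ⊗[k] B) μ hμ hμR

/-- **H3 (Hilb = Div), general form.** `k` any commutative ring, `A`, `B` any `k`-algebras such
that the diagonal ideal of `B` is an invertible `B ⊗[k] B`-module. Every ideal of `A ⊗[k] B`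
whose quotient is finite projective over `A` is an invertible `A ⊗[k] B`-module. -/
theorem hilb_invertible (k A B : Type u) [CommRing k] [CommRing A] [CommRing B]
    [Algebra k A] [Algebra k B]
    [Module.Invertible (B ⊗[k] B) (KaehlerDifferential.ideal k B)]
    (I : Ideal (A ⊗[k] B)) [Module.Finite A ((A ⊗[k] B) ⧸ I)]
    [Module.Projective A ((A ⊗[k] B) ⧸ I)] :
    Module.Invertible (A ⊗[k] B) I := by
  classical
  -- the `B`-algebra structure of the quotient
  let algBQ : Algebra B ((A ⊗[k] B) ⧸ I) :=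
    ((Ideal.Quotient.mk I).comp
      (Algebra.TensorProduct.includeRight : B →ₐ[k] A ⊗[k] B).toRingHom).toAlgebra
  have hBQ : ∀ b : B, algebraMap B ((A ⊗[k] B) ⧸ I) b = Ideal.Quotient.mk I (1 ⊗ₜ b) :=
    fun b => rfl
  have hAQ : ∀ a : A, algebraMap A ((A ⊗[k] B) ⧸ I) a = Ideal.Quotient.mk I (a ⊗ₜ 1) :=
    fun a => rfl
  have tower : IsScalarTower k B ((A ⊗[k] B) ⧸ I) := IsScalarTower.of_algebraMap_eq fun c => by
    rw [hBQ, IsScalarTower.algebraMap_apply k A ((A ⊗[k] B) ⧸ I), hAQ,
      Algebra.algebraMap_eq_smul_one, Algebra.algebraMap_eq_smul_one, TensorProduct.smul_tmul]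
  have h := hilb_invertible_aux k A B ((A ⊗[k] B) ⧸ I) (Ideal.Quotient.mk I)
    Ideal.Quotient.mk_surjective (fun a b => by
      rw [hAQ, hBQ, ← map_mul, Algebra.TensorProduct.tmul_mul_tmul, mul_one, one_mul])
  have hI : RingHom.ker (Ideal.Quotient.mk I) = I := Ideal.mk_ker
  exact Module.Invertible.congr (LinearEquiv.ofEq _ _ hI)

/-- A generator of an invertible principal ideal is a nonzerodivisor. -/
theorem mem_nonZeroDivisors_of_span_invertible {R : Type*} [CommRing R] (f : R)
    [Module.Invertible R (Ideal.span {f})] : f ∈ nonZeroDivisors R := by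
  let g : R →ₗ[R] (Ideal.span {f} : Ideal R) :=
    LinearMap.toSpanSingleton R _ ⟨f, Ideal.mem_span_singleton_self f⟩
  have hg : Function.Surjective g := by
    rintro ⟨x, hx⟩
    obtain ⟨r, rfl⟩ := Ideal.mem_span_singleton'.mp hx
    exact ⟨r, Subtype.ext rfl⟩
  have hb := Module.Invertible.bijective_of_surjective hg
  rw [mem_nonZeroDivisors_iff_right]
  intro r hr
  apply hb.1
  rw [map_zero]
  exact Subtype.ext hr

/-- **H3**, exact statement of the HILB skeleton (`HilbSkel.hilb_ideal_invertible`); the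
hypotheses `hdom` and `hinf` are not needed. -/
theorem hilb_ideal_invertible (k : Type u) [Field k] (B : Type u) [CommRing B] [Algebra k B]
    [Module.Invertible (B ⊗[k] B) (KaehlerDifferential.ideal k B)]
    (_hdom : ∀ (K : Type u) [Field K] [Algebra k K], IsDomain (K ⊗[k] B))
    (_hinf : ¬ Module.Finite k B)
    (A : Type u) [CommRing A] [Algebra k A] (I : Ideal (A ⊗[k] B))
    [Module.Finite A ((A ⊗[k] B) ⧸ I)] [Module.Projective A ((A ⊗[k] B) ⧸ I)] :
    Module.Invertible (A ⊗[k] B) I :=
  hilb_invertible k A B I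

/-- **H3'**, exact statement of the HILB skeleton (`HilbSkel.hilb_ideal_generator_regular`). -/
theorem hilb_ideal_generator_regular (k : Type u) [Field k] (B : Type u) [CommRing B]
    [Algebra k B] [Module.Invertible (B ⊗[k] B) (KaehlerDifferential.ideal k B)]
    (_hdom : ∀ (K : Type u) [Field K] [Algebra k K], IsDomain (K ⊗[k] B))
    (_hinf : ¬ Module.Finite k B)
    (A : Type u) [CommRing A] [Algebra k A] (f : A ⊗[k] B)
    [Module.Finite A ((A ⊗[k] B) ⧸ Ideal.span {f})]
    [Module.Projective A ((A ⊗[k] B) ⧸ Ideal.span {f})] :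
    f ∈ nonZeroDivisors (A ⊗[k] B) := by
  have : Module.Invertible (A ⊗[k] B) (Ideal.span {f} : Ideal (A ⊗[k] B)) :=
    hilb_invertible k A B (Ideal.span {f})
  exact mem_nonZeroDivisors_of_span_invertible f

/-- General form of H3': no field hypothesis. -/
theorem hilb_generator_regular (k A B : Type u) [CommRing k] [CommRing A] [CommRing B]
    [Algebra k A] [Algebra k B]
    [Module.Invertible (B ⊗[k] B) (KaehlerDifferential.ideal k B)]
    (f : A ⊗[k] B) [Module.Finite A ((A ⊗[k] B) ⧸ Ideal.span {f})]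
    [Module.Projective A ((A ⊗[k] B) ⧸ Ideal.span {f})] :
    f ∈ nonZeroDivisors (A ⊗[k] B) := by
  have : Module.Invertible (A ⊗[k] B) (Ideal.span {f} : Ideal (A ⊗[k] B)) :=
    hilb_invertible k A B (Ideal.span {f})
  exact mem_nonZeroDivisors_of_span_invertible f

end Hilb

end Fermat.Agent.S25.H431

end
-- ===== PACK-END S25/H431/HilbDiv.lean

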