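import Fermat.Prelude.Thm_ModularForm_sturm_bound_Gamma0
import Fermat.Prelude.Thm_ModularFormClass_heckeT_heckeU_comm
import Fermat.Prelude.Thm_CongruenceSubgroup_one_mem_strictPeriods_Gamma0
import Fermat.Prelude.Sol.S_ModularForm_heckeU_slash_eq_self_of_mem_Gamma0
import Mathlib
import Fermat.Agent.Pack.S43MC.G0E0L3
import Fermat.Agent.Pack.S43MC.G0E0L1
import Fermat.Agent.Pack.S44C.G0E4L0
import Fermat.Agent.Pack.S43MC.G0E0L0
import Fermat.Agent.Pack.S43MC.G0E0L2
import Fermat.Agent.Pack.S43GC.G0E23L0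
import Fermat.Agent.Pack.S44C.G0E21L3
import Fermat.Agent.Pack.S43MC.G1E0L0
import Fermat.Agent.Pack.S44C.G0E30L1
import Fermat.Agent.Pack.S44C.G0E30L3
import Fermat.Agent.Pack.S44C.G0E31L0

-- ===== PACK-BEGIN Lib/Newform/H683/FinDim.lean
section
/-
NEWFORM library (helper683) — `S_k(Γ₀(N))` is finite-dimensional (from the Prelude Sturm bound).
-/



set_option autoImplicit false

open CongruenceSubgroup ModularFormClass ModularForm UpperHalfPlane

namespace Fermat.Agent.Lib.Newform.H683

variable {N : ℕ}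

theorem qCoeff_add_cusp (k : ℤ) (f g : CuspForm (Gamma0 N) k) (n : ℕ) :
    qCoeff ⇑(f + g) n = qCoeff ⇑f n + qCoeff ⇑g n := by
  have h1 := CongruenceSubgroup.one_mem_strictPeriods_Gamma0 N
  unfold qCoeff
  rw [FunLike.coe_add, UpperHalfPlane.qExpansion_add
    (ModularFormClass.analyticAt_cuspFunction_zero f one_pos h1)
    (ModularFormClass.analyticAt_cuspFunction_zero g one_pos h1)]
  simp

/-- the `n`-th `q`-coefficient as a linear functional on cusp forms -/
noncomputable def coeffLin (N : ℕ) (k : ℤ) (n : ℕ) : CuspForm (Gamma0 N) k →ₗ[ℂ] ℂ where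
  toFun f := qCoeff ⇑f n
  map_add' f g := qCoeff_add_cusp k f g n
  map_smul' c f := by
    simp only [RingHom.id_apply, smul_eq_mul]
    exact qCoeff_smul_cusp k c f n

@[simp] theorem coeffLin_apply (N : ℕ) (k : ℤ) (n : ℕ) (f : CuspForm (Gamma0 N) k) :
    coeffLin N k n f = qCoeff ⇑f n := rfl

/-- the Sturm truncation map -/
noncomputable def sturmTrunc (N : ℕ) (k : ℤ) :
    CuspForm (Gamma0 N) k →ₗ[ℂ] (Fin ((k * (Gamma0 N).index).toNat / 12 + 1) → ℂ) :=
  LinearMap.pi fun i => coeffLin N k i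

theorem sturmTrunc_injective (N : ℕ) [NeZero N] (k : ℤ) :
    Function.Injective (sturmTrunc N k) := by
  rw [← LinearMap.ker_eq_bot, LinearMap.ker_eq_bot']
  intro f hf
  have hg : CuspForm.toModularFormₗ f = 0 := by
    refine ModularForm.sturm_bound_Gamma0 N _ (fun n hn => ?_)
    have := congrFun hf ⟨n, Nat.lt_succ_of_le hn⟩
    have h2 : (⇑(CuspForm.toModularFormₗ f) : ℍ → ℂ) = ⇑f := rfl
    rw [h2]
    simpa [sturmTrunc, qCoeff] using this
  exact CuspForm.toModularFormₗ_injective (by simpa using hg)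

theorem finiteDimensional_cuspForm (N : ℕ) [NeZero N] (k : ℤ) :
    FiniteDimensional ℂ (CuspForm (Gamma0 N) k) :=
  FiniteDimensional.of_injective (sturmTrunc N k) (sturmTrunc_injective N k)

end Fermat.Agent.Lib.Newform.H683

end
-- ===== PACK-END Lib/Newform/H683/FinDim.lean

-- ===== PACK-BEGIN Lib/Newform/H958/MainOf.lean
section




/-!
# Shared library NEWFORM — assembly

Everything in this file is proved from the leaf interfaces of `Spec.lean`
(hypothesis-parametrised, no `sorry`).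
-/

set_option autoImplicit false

open CongruenceSubgroup UpperHalfPlane
open scoped MatrixGroups

namespace Fermat.Agent.Lib.Newform.H958

open CuspForm ModularFormClass

/-! ## Descent to a newform (no interface needed) -/

theorem descent : Descent := by
  intro N
  induction N using Nat.strong_induction_on with
  | _ N ih =>
    intro _ f hf
    by_cases hnew : f.IsNewform
    · exact ⟨N, dvd_rfl, f, hnew, fun _ _ _ => rfl⟩
    · have hex : ∃ M, M ∣ N ∧ M ≠ N ∧ GoodEigensystemOccursAt f M := by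
        by_contra h
        exact hnew ⟨hf, fun M hM hMN hocc => h ⟨M, hM, hMN, hocc⟩⟩
      obtain ⟨M, hMN, hne, g, hg, hgf⟩ := hex
      have hN : N ≠ 0 := NeZero.ne N
      have hM0 : M ≠ 0 := fun h => by subst h; exact hN (zero_dvd_iff.mp hMN)
      have hlt : M < N := lt_of_le_of_ne (Nat.le_of_dvd (Nat.pos_of_ne_zero hN) hMN) hne
      haveI : NeZero M := ⟨hM0⟩
      obtain ⟨M', hM', g', hg', hgg'⟩ := ih M hlt g hg
      refine ⟨M', hM'.trans hMN, g', hg', fun ℓ hℓ hℓN => ?_⟩
      rw [hgg' ℓ hℓ (fun h => hℓN (h.trans hMN)), hgf ℓ hℓ hℓN]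

/-! ## Helpers -/

/-- A cusp form with the same underlying function as a normalized eigenform, at a level with
the same "bad/good" dichotomy, is a normalized eigenform. -/
theorem isNormalizedEigenform_of_coe_eq {N N' : ℕ} {f : CuspForm (Gamma0 N) 2}
    {f' : CuspForm (Gamma0 N') 2} (hf : f.IsNormalizedEigenform)
    (hcoe : (⇑f' : ℍ → ℂ) = ⇑f) (hdvd : ∀ p : ℕ, p.Prime → (p ∣ N' ↔ p ∣ N)) :
    f'.IsNormalizedEigenform where
  qCoeff_one := by rw [hcoe]; exact hf.qCoeff_one
  qCoeff_mul_of_coprime := by rw [hcoe]; exact hf.qCoeff_mul_of_coprime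
  qCoeff_prime_pow_of_not_dvd := by
    rw [hcoe]
    intro p r hp hpN
    exact hf.qCoeff_prime_pow_of_not_dvd p r hp (fun h => hpN ((hdvd p hp).mpr h))
  qCoeff_prime_pow_of_dvd := by
    rw [hcoe]
    intro p r hp hpN
    exact hf.qCoeff_prime_pow_of_dvd p r hp ((hdvd p hp).mp hpN)

theorem coe_ne_zero_of_isNormalizedEigenform {N : ℕ} {f : CuspForm (Gamma0 N) 2}
    (hf : f.IsNormalizedEigenform) : (⇑f : ℍ → ℂ) ≠ 0 := by
  intro h
  apply hf.ne_zero
  exact DFunLike.coe_injective h

/-! ## Stabilisation -/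

theorem stab_of (hE : EigenT) (hI : Incl) (hO : Occurs) : Stab := by
  intro M C _ hMC g hg
  obtain ⟨h, hh⟩ := hI M C hMC g
  have hh0 : h ≠ 0 := by
    intro h0
    apply coe_ne_zero_of_isNormalizedEigenform hg
    rw [← hh, h0]
    rfl
  obtain ⟨g', hg', hcoef⟩ := hO C h hh0 Set.univ (fun ℓ => qCoeff g ℓ) (by
    intro ℓ hℓ hℓC _
    have hℓM : ¬ ℓ ∣ M := fun h => hℓC (h.trans hMC)
    apply DFunLike.coe_injective
    have key := congrArg (fun F : CuspForm (Gamma0 M) 2 => (⇑F : ℍ → ℂ)) (hE M g hg ℓ hℓ hℓM)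
    simp only [CuspForm.coe_heckeTLin_apply] at key
    rw [CuspForm.coe_heckeTLin_apply, hh, key]
    ext τ
    simp [hh])
  exact ⟨g', hg', fun ℓ hℓ hℓC => hcoef ℓ hℓ hℓC trivial⟩

/-! ## Coefficients at bad primes -/

/-- Case `q² ∣ N`. -/
theorem qCoeff_eq_zero_of (hEU : EigenU) (hL : LowerU)
    {N : ℕ} [NeZero N] {f : CuspForm (Gamma0 N) 2} {q : ℕ} (hq : q.Prime)
    (hf : f.IsNewformAt q) (hq2 : q ^ 2 ∣ N) : qCoeff f q = 0 := by
  obtain ⟨hfe, hqN, hnocc⟩ := hf
  by_contra ha
  apply hnocc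
  obtain ⟨g, hg⟩ := hL N q hq hq2 f
  have hU := congrArg (fun F : CuspForm (Gamma0 N) 2 => (⇑F : ℍ → ℂ)) (hEU N f hfe q hq hqN)
  simp only [CuspForm.coe_heckeULin_apply] at hU
  -- `g = a_q • f` as functions
  have hgf : (⇑((qCoeff f q)⁻¹ • g) : ℍ → ℂ) = ⇑f := by
    ext τ
    have h1 : (g : ℍ → ℂ) τ = (qCoeff f q • f : CuspForm (Gamma0 N) 2) τ := by
      rw [hg, hU]
    simp only [CuspForm.IsGLPos.coe_smul, Pi.smul_apply, smul_eq_mul] at h1 ⊢
    rw [h1, ← mul_assoc, inv_mul_cancel₀ ha, one_mul]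
  have hdvd : ∀ p : ℕ, p.Prime → (p ∣ N / q ↔ p ∣ N) := by
    intro p hp
    constructor
    · intro h
      exact h.trans (Nat.div_dvd_of_dvd hqN)
    · intro h
      obtain ⟨c, hc⟩ := hq2
      have hNq : N / q = q * c := by
        rw [hc, pow_two, mul_assoc, Nat.mul_div_cancel_left _ hq.pos]
      rw [hNq]
      rw [hc, pow_two, mul_assoc] at h
      rcases (Nat.Prime.dvd_mul hp).mp h with h1 | h1
      · exact h1.trans (dvd_mul_right q c)
      · exact h1
  exact ⟨(qCoeff f q)⁻¹ • g, isNormalizedEigenform_of_coe_eq hfe hgf hdvd,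
    fun ℓ _ _ => by rw [hgf]⟩

/-- Both traces of a form in the eigenspace of a form that is new at `q ∥ N` vanish:
this is the form in which newness is used. -/
theorem eq_zero_of_level_div (hO : Occurs)
    {N : ℕ} [NeZero N] {f : CuspForm (Gamma0 N) 2} {q : ℕ} (hq : q.Prime)
    (hf : f.IsNewformAt q) (G : CuspForm (Gamma0 (N / q)) 2)
    (hG : ∀ ℓ : ℕ, ℓ.Prime → ¬ ℓ ∣ N →
      ModularForm.heckeT 2 ℓ (⇑G : ℍ → ℂ) = qCoeff f ℓ • (⇑G : ℍ → ℂ)) : G = 0 := by
  obtain ⟨hfe, hqN, hnocc⟩ := hf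
  by_contra hG0
  apply hnocc
  have hN : N ≠ 0 := NeZero.ne N
  have hM0 : N / q ≠ 0 := by
    intro h
    have := Nat.div_mul_cancel hqN
    rw [h, zero_mul] at this
    exact hN this.symm
  haveI : NeZero (N / q) := ⟨hM0⟩
  obtain ⟨g, hg, hcoef⟩ := hO (N / q) G hG0 {ℓ | ¬ ℓ ∣ N} (fun ℓ => qCoeff f ℓ) (by
    intro ℓ hℓ hℓM hℓN
    apply DFunLike.coe_injective
    rw [CuspForm.coe_heckeTLin_apply, hG ℓ hℓ hℓN]
    rfl)
  exact ⟨g, hg, fun ℓ hℓ hℓN =>
    hcoef ℓ hℓ (fun h => hℓN (h.trans (Nat.div_dvd_of_dvd hqN))) hℓN⟩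

/-- Case `q ∥ N`. -/
theorem qCoeff_sq_eq_one_of (hET : EigenT) (hEU : EigenU) (hO : Occurs) (hT : TraceAL)
    {N : ℕ} [NeZero N] {f : CuspForm (Gamma0 N) 2} {q : ℕ} (hq : q.Prime)
    (hf : f.IsNewformAt q) (hq2 : ¬ q ^ 2 ∣ N) : qCoeff f q ^ 2 = 1 := by
  have hfe := hf.1
  have hqN := hf.2.1
  obtain ⟨W, hWT, hTr, hTr'⟩ := hT N q hq hqN hq2
  have hper := CongruenceSubgroup.one_mem_strictPeriods_Gamma0 N
  -- `T_ℓ f = a_ℓ f` and `T_ℓ (W f) = a_ℓ (W f)` as functions
  have hTf : ∀ ℓ : ℕ, ℓ.Prime → ¬ ℓ ∣ N →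
      ModularForm.heckeT 2 ℓ (⇑f : ℍ → ℂ) = qCoeff f ℓ • (⇑f : ℍ → ℂ) := by
    intro ℓ hℓ hℓN
    have := congrArg (fun F : CuspForm (Gamma0 N) 2 => (⇑F : ℍ → ℂ)) (hET N f hfe ℓ hℓ hℓN)
    simpa using this
  have hTWf : ∀ ℓ : ℕ, ℓ.Prime → ¬ ℓ ∣ N →
      ModularForm.heckeT 2 ℓ (⇑(W f) : ℍ → ℂ) = qCoeff f ℓ • (⇑(W f) : ℍ → ℂ) := by
    intro ℓ hℓ hℓN
    have h1 := hWT ℓ hℓ hℓN f
    rw [hET N f hfe ℓ hℓ hℓN, map_smul] at h1
    have := congrArg (fun F : CuspForm (Gamma0 N) 2 => (⇑F : ℍ → ℂ)) h1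
    simpa using this.symm
  have hcop : ∀ ℓ : ℕ, ℓ.Prime → ¬ ℓ ∣ N → Nat.Coprime ℓ q := by
    intro ℓ hℓ hℓN
    rw [Nat.coprime_primes hℓ hq]
    rintro rfl
    exact hℓN hqN
  -- the two traces
  obtain ⟨G, hG⟩ := hTr f
  obtain ⟨G', hG'⟩ := hTr' f
  have hG0 : G = 0 := by
    apply eq_zero_of_level_div hO hq hf G
    intro ℓ hℓ hℓN
    rw [hG, ModularForm.heckeT_add,
      ModularFormClass.heckeT_heckeU_comm (W f) hper (hcop ℓ hℓ hℓN), hTf ℓ hℓ hℓN,
      hTWf ℓ hℓ hℓN, ModularForm.heckeU_smul, smul_add]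
  have hG'0 : G' = 0 := by
    apply eq_zero_of_level_div hO hq hf G'
    intro ℓ hℓ hℓN
    rw [hG', ModularForm.heckeT_add,
      ModularFormClass.heckeT_heckeU_comm f hper (hcop ℓ hℓ hℓN), hTf ℓ hℓ hℓN,
      hTWf ℓ hℓ hℓN, ModularForm.heckeU_smul, smul_add]
  have hUf : ModularForm.heckeU 2 q (⇑f : ℍ → ℂ) = qCoeff f q • (⇑f : ℍ → ℂ) := by
    have := congrArg (fun F : CuspForm (Gamma0 N) 2 => (⇑F : ℍ → ℂ)) (hEU N f hfe q hq hqN)
    simpa using this
  -- `W f = - a_q f`
  have hWf : (⇑(W f) : ℍ → ℂ) = -(qCoeff f q • (⇑f : ℍ → ℂ)) := by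
    have h0 : (⇑G' : ℍ → ℂ) = 0 := by rw [hG'0]; rfl
    rw [hG', hUf] at h0
    exact eq_neg_of_add_eq_zero_left h0
  -- `f - a_q² f = 0`
  have h0 : (⇑G : ℍ → ℂ) = 0 := by rw [hG0]; rfl
  rw [hG, hWf, ModularForm.heckeU_neg, ModularForm.heckeU_smul, hUf] at h0
  have hfne := coe_ne_zero_of_isNormalizedEigenform hfe
  have h1 : (1 - qCoeff f q ^ 2) • (⇑f : ℍ → ℂ) = 0 := by
    rw [sub_smul, one_smul, pow_two, mul_smul]
    rw [← sub_eq_add_neg] at h0
    exact h0
  rcases smul_eq_zero.mp h1 with h | h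
  · exact (sub_eq_zero.mp h).symm
  · exact absurd h hfne

theorem badCoeffAt_of (hET : EigenT) (hEU : EigenU) (hO : Occurs) (hL : LowerU)
    (hT : TraceAL) : BadCoeffAt :=
  fun _ _ _ _ hq hf =>
    ⟨fun hq2 => qCoeff_sq_eq_one_of hET hEU hO hT hq hf hq2,
     fun hq2 => qCoeff_eq_zero_of hEU hL hq hf hq2⟩

theorem badCoeff_of (hB : BadCoeffAt) : BadCoeff :=
  fun N _ f hf q hq hqN => hB N f q hq (hf.isNewformAt hq hqN (NeZero.ne N))

end Fermat.Agent.Lib.Newform.H958

end
-- ===== PACK-END Lib/Newform/H958/MainOf.lean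

-- ===== PACK-BEGIN Lib/Newform/H563/SqDvd.lean
section



/-!
# NEWFORM library (helper563): `a_q = 0` for a newform when `q² ∣ N`

Petersson-free: if `q² ∣ N` then `U_q` maps `Γ₀(N)`-invariant functions to `Γ₀(N/q)`-invariant
functions; for a normalised eigenform `U_q f = a_q f`, so `a_q ≠ 0` would make `f` itself a
normalised eigenform of level `N/q`, contradicting the Prelude definition of `IsNewform`.
-/

set_option autoImplicit false

noncomputable section

namespace Fermat.Agent.Lib.Newform.H563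

open UpperHalfPlane ModularForm CongruenceSubgroup ModularFormClass Matrix.SpecialLinearGroup
open scoped MatrixGroups Manifold

open P2MW.S_ModularForm_heckeU_slash_eq_self_of_mem_Gamma0.ModularForm.HeckeSlashInvariance in
/-- If `p ∣ M` then `U_p` maps `Γ₀(pM)`-invariant functions to `Γ₀(M)`-invariant functions. -/
theorem heckeU_slash_of_dvd {M p : ℕ} [NeZero p] (k : ℤ) (hpM : p ∣ M) {f : ℍ → ℂ}
    (hf : ∀ γ ∈ (Gamma0 (p * M) : Subgroup (GL (Fin 2) ℝ)), f ∣[k] γ = f)
    (γ : GL (Fin 2) ℝ) (hγ : γ ∈ (Gamma0 M : Subgroup (GL (Fin 2) ℝ))) :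
    heckeU k p f ∣[k] γ = heckeU k p f := by
  obtain ⟨g, hg, rfl⟩ := Subgroup.mem_map.mp hγ
  have hcM : (M : ℤ) ∣ g 1 0 :=
    (ZMod.intCast_zmod_eq_zero_iff_dvd _ _).mp (CongruenceSubgroup.Gamma0_mem.mp hg)
  have hc : (p : ℤ) ∣ g 1 0 := (Int.natCast_dvd_natCast.mpr hpM).trans hcM
  rw [heckeU_eq_sum_zmod k f, SlashAction.sum_slash]
  calc ∑ x : ZMod p, (f ∣[k] heckeMatrix p x.val) ∣[k] mapGL ℝ g
      = ∑ x : ZMod p, f ∣[k] heckeMatrix p
          (affinePerm g ((ZMod.intCast_zmod_eq_zero_iff_dvd _ _).mpr hc) x).val := by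
        refine Finset.sum_congr rfl fun x _ ↦ ?_
        obtain ⟨g', hg', hmul⟩ := heckeMatrix_mul_of_dvd g hc x
        have hg'N : g' ∈ CongruenceSubgroup.Gamma0 (p * M) := by
          rw [CongruenceSubgroup.Gamma0_mem, hg', ZMod.intCast_zmod_eq_zero_iff_dvd]
          push_cast
          exact mul_dvd_mul_left _ hcM
        rw [← SlashAction.slash_mul, hmul, SlashAction.slash_mul,
          hf _ (Subgroup.mem_map_of_mem (mapGL ℝ) hg'N)]
    _ = ∑ x : ZMod p, f ∣[k] heckeMatrix p x.val :=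
        Equiv.sum_comp (affinePerm g _) (fun x ↦ f ∣[k] heckeMatrix p x.val)

/-- **Atkin–Lehner, bad primes (i).** For a newform (Prelude sense) of level `N` and a prime `q`
with `q² ∣ N`, the `q`-th Fourier coefficient vanishes. -/
theorem qCoeff_eq_zero_of_sq_dvd {N : ℕ} [NeZero N] {f : CuspForm (Gamma0 N) 2}
    (hf : f.IsNewform) {q : ℕ} (hq : q.Prime) (hq2 : q ^ 2 ∣ N) : qCoeff f q = 0 := by
  by_contra ha
  obtain ⟨M, hM⟩ : q ∣ N := dvd_trans (dvd_pow_self q two_ne_zero) hq2
  have hqM : q ∣ M := by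
    rw [hM, pow_two] at hq2
    exact (Nat.mul_dvd_mul_iff_left hq.pos).mp hq2
  have hN0 : N ≠ 0 := NeZero.ne N
  have hM0 : M ≠ 0 := by rintro rfl; exact hN0 (by simpa using hM)
  have : NeZero M := ⟨hM0⟩
  have : NeZero q := ⟨hq.ne_zero⟩
  have hfe := hf.isNormalizedEigenform
  have hU : heckeU 2 q ⇑f = qCoeff f q • ⇑f := heckeU_eq_smul hfe hq (hM ▸ dvd_mul_right q M)
  have hfN : ∀ γ ∈ (Gamma0 (q * M) : Subgroup (GL (Fin 2) ℝ)), (⇑f) ∣[(2 : ℤ)] γ = ⇑f := by
    intro γ hγ
    rw [← hM] at hγ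
    exact SlashInvariantFormClass.slash_action_eq f γ hγ
  have hinv : ∀ γ ∈ (Gamma0 M : Subgroup (GL (Fin 2) ℝ)), (⇑f) ∣[(2 : ℤ)] γ = ⇑f := by
    intro γ hγ
    have h1 := heckeU_slash_of_dvd (2 : ℤ) hqM hfN γ hγ
    rw [hU] at h1
    have h2 : (⇑f : ℍ → ℂ) = (qCoeff f q)⁻¹ • (qCoeff f q • ⇑f) := by
      rw [smul_smul, inv_mul_cancel₀ ha, one_smul]
    rw [h2, ModularForm.smul_slash, h1]
    congr 1
    obtain ⟨g, -, rfl⟩ := Subgroup.mem_map.mp hγ
    simp [UpperHalfPlane.σ]
  refine hf.2 M ⟨q, by rw [hM]; ring⟩ ?_ ⟨lowerLevel f hinv, ⟨hfe.qCoeff_one, hfe.qCoeff_mul_of_coprime,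
    fun p r hp hpM => hfe.qCoeff_prime_pow_of_not_dvd p r hp ?_,
    fun p r hp hpM => hfe.qCoeff_prime_pow_of_dvd p r hp (hM ▸ hpM.mul_left q)⟩, fun _ _ _ => rfl⟩
  · intro h
    rw [hM] at h
    have : q * M = 1 * M := by rw [one_mul]; exact h.symm
    exact hq.ne_one (Nat.eq_of_mul_eq_mul_right (Nat.pos_of_ne_zero hM0) this)
  · intro hpN
    rw [hM] at hpN
    rcases (Nat.Prime.dvd_mul hp).mp hpN with h | h
    · exact hpM (((Nat.prime_dvd_prime_iff_eq hp hq).mp h) ▸ hqM)
    · exact hpM h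

end Fermat.Agent.Lib.Newform.H563

end
end
-- ===== PACK-END Lib/Newform/H563/SqDvd.lean

-- ===== PACK-BEGIN Ribet/H714/DictApprox.lean
section


/-!
# RIBET, wall at `p`, leaf S2:DICT — multiplicative weak approximation (helper714)

Mathlib + `A2/H48/TwoVal` only.  `V₁ ≠ V₂` valuation subrings of a field `F` with a common
uniformiser `ϖ` (`H48.IsUnif`).

* `val_sub_one_mul`, `val_sub_one_inv`, `val_sub_one_pow` : `1 + 𝔪_V` is a group;
* `exists_sharp_idem` : for every `n` there is `e` with `e ≡ 1 mod ϖ^n V₁`, `e ≡ 0 mod ϖ^n V₂`;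
* `exists_mul_approx` : for `a₁, a₂ ≠ 0` of bounded valuation there is `h ≠ 0` with
  `h / a₁ ∈ 1 + 𝔪_{V₁}` and `h / a₂ ∈ 1 + 𝔪_{V₂}`.
-/

set_option autoImplicit false

namespace Fermat.Agent.Ribet.H714

open Fermat.Agent.A2.H48

section One

variable {F : Type*} [Field F] {V : ValuationSubring F}

theorem val_eq_one_of_sub_one {u : F} (hu : V.valuation (u - 1) < 1) : V.valuation u = 1 := by
  have h := Valuation.map_one_add_of_lt (v := V.valuation) hu
  rwa [add_sub_cancel] at h

theorem ne_zero_of_sub_one {u : F} (hu : V.valuation (u - 1) < 1) : u ≠ 0 := by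
  intro h
  have h1 := val_eq_one_of_sub_one hu
  rw [h, map_zero] at h1
  exact zero_ne_one h1

theorem val_sub_one_mul {u u' : F} (hu : V.valuation (u - 1) < 1)
    (hu' : V.valuation (u' - 1) < 1) : V.valuation (u * u' - 1) < 1 := by
  have e : u * u' - 1 = u * (u' - 1) + (u - 1) := by ring
  rw [e]
  refine lt_of_le_of_lt (Valuation.map_add _ _ _) (max_lt ?_ hu)
  rw [map_mul, val_eq_one_of_sub_one hu, one_mul]
  exact hu'

theorem val_sub_one_inv {u : F} (hu : V.valuation (u - 1) < 1) :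
    V.valuation (u⁻¹ - 1) < 1 := by
  have hu0 := ne_zero_of_sub_one hu
  have e : u⁻¹ - 1 = -(u - 1) * u⁻¹ := by field_simp; ring
  rw [e, map_mul, Valuation.map_neg, map_inv₀, val_eq_one_of_sub_one hu, inv_one, mul_one]
  exact hu

theorem val_sub_one_pow {u : F} (hu : V.valuation (u - 1) < 1) (n : ℕ) :
    V.valuation (u ^ n - 1) < 1 := by
  induction n with
  | zero => simp
  | succ n ih => rw [pow_succ]; exact val_sub_one_mul ih hu

end One

section Two

variable {F : Type*} [Field F] {V₁ V₂ : ValuationSubring F} {ϖ : F}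

/-- Sharp idempotent-like elements: `e ≡ 1 mod ϖ^n V₁`, `e ≡ 0 mod ϖ^n V₂`. -/
theorem exists_sharp_idem (h₁ : IsUnif V₁ ϖ) (h₂ : IsUnif V₂ ϖ) (hne : V₁ ≠ V₂) (n : ℕ)
    (hn : 0 < n) :
    ∃ e : F, V₁.valuation (e - 1) ≤ V₁.valuation ϖ ^ n ∧ V₂.valuation e ≤ V₂.valuation ϖ ^ n := by
  obtain ⟨c, hc0, hc1, hc2⟩ := exists_separating h₁ h₂ hne
  have hcn1 : V₁.valuation (c ^ n) < 1 := by
    rw [map_pow]; exact pow_lt_one₀ zero_le hc1 (by omega)
  have hcn2 : V₂.valuation ((c⁻¹) ^ n) < 1 := by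
    rw [map_pow]; exact pow_lt_one₀ zero_le hc2 (by omega)
  have hu1 : V₁.valuation (1 + c ^ n) = 1 := Valuation.map_one_add_of_lt _ hcn1
  have hu2 : V₂.valuation (1 + (c⁻¹) ^ n) = 1 := Valuation.map_one_add_of_lt _ hcn2
  have hne1 : 1 + c ^ n ≠ 0 := by
    intro h; rw [h, map_zero] at hu1; exact zero_ne_one hu1
  have hne2 : 1 + (c⁻¹) ^ n ≠ 0 := by
    intro h; rw [h, map_zero] at hu2; exact zero_ne_one hu2
  set e := (1 + c ^ n)⁻¹ with he
  have he1 : V₁.valuation e = 1 := by rw [he, map_inv₀, hu1, inv_one]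
  have hee : e - 1 = -(c ^ n) * e := by
    rw [he]; field_simp; ring
  have hee2 : e = (c⁻¹) ^ n * (1 + (c⁻¹) ^ n)⁻¹ := by
    have hcn0 : c ^ n ≠ 0 := pow_ne_zero _ hc0
    have h3 : 1 + (c ^ n)⁻¹ ≠ 0 := by rwa [inv_pow] at hne2
    rw [he, inv_pow, eq_comm, ← div_eq_mul_inv, div_eq_iff h3, ← div_eq_inv_mul,
      eq_div_iff hne1]
    field_simp
    ring
  refine ⟨e, ?_, ?_⟩
  · rw [hee, map_mul, Valuation.map_neg, he1, mul_one, map_pow]
    exact pow_le_pow_left₀ zero_le (h₁.val_le_of_lt_one hc1) n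
  · rw [hee2, map_mul, map_inv₀, hu2, inv_one, mul_one, map_pow]
    exact pow_le_pow_left₀ zero_le (h₂.val_le_of_lt_one hc2) n

/-- **Multiplicative weak approximation** for two valuation rings with a common uniformiser:
given `a₁, a₂ ≠ 0` with `ϖ ^ k · (a₂ / a₁) ∈ V₁` and `ϖ ^ k · (a₁ / a₂) ∈ V₂`, there is `h ≠ 0`
with `h / a₁ ∈ 1 + 𝔪_{V₁}` and `h / a₂ ∈ 1 + 𝔪_{V₂}`. -/
theorem exists_mul_approx (h₁ : IsUnif V₁ ϖ) (h₂ : IsUnif V₂ ϖ) (hne : V₁ ≠ V₂)
    {a₁ a₂ : F} (ha₁ : a₁ ≠ 0) (ha₂ : a₂ ≠ 0) (k : ℕ)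
    (hk₁ : ϖ ^ k * (a₂ * a₁⁻¹) ∈ V₁) (hk₂ : ϖ ^ k * (a₁ * a₂⁻¹) ∈ V₂) :
    ∃ h : F, h ≠ 0 ∧ V₁.valuation (h * a₁⁻¹ - 1) < 1 ∧ V₂.valuation (h * a₂⁻¹ - 1) < 1 := by
  obtain ⟨e, he1, he2⟩ := exists_sharp_idem h₁ h₂ hne (k + 1) (by omega)
  have hv1 : V₁.valuation ϖ ^ k * V₁.valuation (a₂ * a₁⁻¹) ≤ 1 := by
    have := (V₁.valuation_le_one_iff _).2 hk₁
    rwa [map_mul, map_pow] at this
  have hv2 : V₂.valuation ϖ ^ k * V₂.valuation (a₁ * a₂⁻¹) ≤ 1 := by
    have := (V₂.valuation_le_one_iff _).2 hk₂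
    rwa [map_mul, map_pow] at this
  have hϖ1 : V₁.valuation ϖ ^ (k + 1) < 1 := pow_lt_one₀ zero_le h₁.val_lt_one (by omega)
  have hϖ2 : V₂.valuation ϖ ^ (k + 1) < 1 := pow_lt_one₀ zero_le h₂.val_lt_one (by omega)
  -- `h = a₁ e + a₂ (1 - e)`
  have key1 : V₁.valuation ((a₁ * e + a₂ * (1 - e)) * a₁⁻¹ - 1) < 1 := by
    have e1 : (a₁ * e + a₂ * (1 - e)) * a₁⁻¹ - 1 = (e - 1) + -((a₂ * a₁⁻¹) * (e - 1)) := by
      field_simp
      ring
    rw [e1]
    refine lt_of_le_of_lt (Valuation.map_add _ _ _) (max_lt (lt_of_le_of_lt he1 hϖ1) ?_)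
    rw [Valuation.map_neg, map_mul]
    calc V₁.valuation (a₂ * a₁⁻¹) * V₁.valuation (e - 1)
        ≤ V₁.valuation (a₂ * a₁⁻¹) * V₁.valuation ϖ ^ (k + 1) := mul_le_mul_right he1 _
      _ = (V₁.valuation ϖ ^ k * V₁.valuation (a₂ * a₁⁻¹)) * V₁.valuation ϖ := by
          rw [pow_succ, mul_comm (V₁.valuation ϖ ^ k) (V₁.valuation (a₂ * a₁⁻¹)), mul_assoc]
      _ ≤ 1 * V₁.valuation ϖ := mul_le_mul_left hv1 _
      _ < 1 := by rw [one_mul]; exact h₁.val_lt_one
  have key2 : V₂.valuation ((a₁ * e + a₂ * (1 - e)) * a₂⁻¹ - 1) < 1 := by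
    have e2 : (a₁ * e + a₂ * (1 - e)) * a₂⁻¹ - 1 = (a₁ * a₂⁻¹) * e + -e := by
      field_simp
      ring
    rw [e2]
    refine lt_of_le_of_lt (Valuation.map_add _ _ _) (max_lt ?_ ?_)
    · rw [map_mul]
      calc V₂.valuation (a₁ * a₂⁻¹) * V₂.valuation e
          ≤ V₂.valuation (a₁ * a₂⁻¹) * V₂.valuation ϖ ^ (k + 1) := mul_le_mul_right he2 _
        _ = (V₂.valuation ϖ ^ k * V₂.valuation (a₁ * a₂⁻¹)) * V₂.valuation ϖ := by
            rw [pow_succ, mul_comm (V₂.valuation ϖ ^ k) (V₂.valuation (a₁ * a₂⁻¹)), mul_assoc]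
        _ ≤ 1 * V₂.valuation ϖ := mul_le_mul_left hv2 _
        _ < 1 := by rw [one_mul]; exact h₂.val_lt_one
    · rw [Valuation.map_neg]
      exact lt_of_le_of_lt he2 hϖ2
  refine ⟨a₁ * e + a₂ * (1 - e), ?_, key1, key2⟩
  intro h0
  rw [h0, zero_mul, zero_sub, Valuation.map_neg, map_one] at key1
  exact lt_irrefl _ key1

end Two

end Fermat.Agent.Ribet.H714

end
-- ===== PACK-END Ribet/H714/DictApprox.lean

-- ===== PACK-BEGIN S25/H805/SmoothOfRep.lean
section


/-!
# Row S25, assembly block AS1 (helper805): `Stmt.Def → Stmt.SmoothOfRep`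

A representing object of the degree-zero rigidified Picard functor that is locally of finite
type over the field `k` is smooth over `k` as soon as degree-zero rigidified line bundles lift
along square-zero thickenings of affine bases.
-/

set_option autoImplicit false
universe u
open CategoryTheory CategoryTheory.Limits AlgebraicGeometry AlgebraicGeometry.RelPicard
  NeronModelInfra GoodReductionJacobian

namespace Fermat.Agent.S25.H805

noncomputable section

variable {k : Type u} [Field k] {C : Scheme.{u}} {c : C ⟶ Spec (CommRingCat.of k)}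
  {ε : SchemeHomOver (𝟙 (Spec (CommRingCat.of k))) c}

/-- `pullbackAlong` is compatible with composition, up to isomorphism. -/
theorem rIso_pullbackAlong_postComp {X X' T' : Scheme.{u}} {x : X ⟶ Spec (CommRingCat.of k)}
    {x' : X' ⟶ Spec (CommRingCat.of k)} {t' : T' ⟶ Spec (CommRingCat.of k)}
    (M : RigidifiedLineBundle c ε x') (φ : SchemeHomOver x x') (ψ : SchemeHomOver t' x) :
    RIso (M.pullbackAlong (postComp φ ψ)) ((M.pullbackAlong φ).pullbackAlong ψ) :=
  ⟨(Scheme.Modules.pullbackCongr (baseChangeSnd_comp c φ ψ).symm).app M.L ≪≫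
    ((Scheme.Modules.pullbackComp _ _).app M.L).symm⟩

/-- `Spec (B ⧸ I) ⟶ Spec B` is surjective for a square-zero ideal `I`. -/
theorem surjective_spec_quotient_of_sq_eq_bot {B : Type u} [CommRing B] (I : Ideal B)
    (hI : I ^ 2 = ⊥) :
    Function.Surjective (Spec.map (CommRingCat.ofHom (Ideal.Quotient.mk I))).base := by
  have hle : I ≤ nilradical B := by
    intro x hx
    refine ⟨2, ?_⟩
    have : x ^ 2 ∈ I ^ 2 := Ideal.pow_mem_pow hx 2
    rwa [hI, Ideal.mem_bot] at this
  exact (PrimeSpectrum.comap_quotientMk_bijective_of_le_nilradical hle).2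

/-- Core of AS1: an affine chart `j : Spec R ⟶ J` of a representing object is formally smooth
over `k`. -/
theorem formallySmooth_chart (hDef : Stmt.Def c ε) (D : RelativePic0Designation k c)
    (h : RepresentsRelSubPic c ε (algEquivZeroCut c ε) D)
    (R : CommRingCat.{u}) (ψ : CommRingCat.of k ⟶ R) (j : Spec R ⟶ D.P) [IsOpenImmersion j]
    (hj : j ≫ D.toBase = Spec.map ψ) : ψ.hom.FormallySmooth := by
  let _ : Algebra k R := ψ.hom.toAlgebra
  show Algebra.FormallySmooth k R
  refine Algebra.FormallySmooth.of_comp_surjective ?_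
  intro B _ _ I hI f
  -- the given `B ⧸ I`-point of the chart, as a point of `J` over `k`
  have hs₀ : (Spec.map (CommRingCat.ofHom f.toRingHom) ≫ j) ≫ D.toBase = specStr k (B ⧸ I) := by
    rw [Category.assoc, hj, specStr, ← Spec.map_comp]
    congr 1
    ext x
    exact f.commutes x
  let s₀ : SchemeHomOver (specStr k (B ⧸ I)) D.toBase :=
    ⟨Spec.map (CommRingCat.ofHom f.toRingHom) ≫ j, hs₀⟩
  -- lift the corresponding bundle to `B`
  obtain ⟨M, hM, hMiso⟩ := hDef B I hI (h.poincare.pullbackAlong s₀)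
    ((algEquivZeroCut c ε).pullback_mem _ _ s₀ _ h.poincare_mem)
  -- classify the lift
  let g : SchemeHomOver (specStr k B) D.toBase := h.classify (specStr k B) M hM
  have hg : RIso (h.poincare.pullbackAlong g) M := h.classify_spec (specStr k B) M hM
  let i : SchemeHomOver (specStr k (B ⧸ I)) (specStr k B) := specHomOver k (Ideal.Quotient.mkₐ k I)
  have hcomp : postComp g i = s₀ := by
    refine h.ext_of_iso _ _ _ ?_
    obtain ⟨e₁⟩ := rIso_pullbackAlong_postComp h.poincare g i
    obtain ⟨e₂⟩ := RigidifiedLineBundle.pullbackAlong_congr i hg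
    obtain ⟨e₃⟩ := hMiso
    exact ⟨e₁ ≪≫ e₂ ≪≫ e₃⟩
  have hcomp' : i.1 ≫ g.1 = Spec.map (CommRingCat.ofHom f.toRingHom) ≫ j :=
    congrArg Subtype.val hcomp
  -- the classifying map factors through the chart
  have hrange : Set.range g.1.base ⊆ Set.range j.base := by
    rintro _ ⟨x, rfl⟩
    obtain ⟨y, rfl⟩ := surjective_spec_quotient_of_sq_eq_bot I hI x
    refine ⟨(Spec.map (CommRingCat.ofHom f.toRingHom)).base y, ?_⟩
    have := congrArg (fun φ : Spec (CommRingCat.of (B ⧸ I)) ⟶ D.P => φ.base y) hcomp'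
    exact this.symm
  let l : Spec (CommRingCat.of B) ⟶ Spec R := IsOpenImmersion.lift j g.1 hrange
  have hl : l ≫ j = g.1 := IsOpenImmersion.lift_fac j g.1 hrange
  let γ : R ⟶ CommRingCat.of B := Spec.preimage l
  have hγ : Spec.map γ = l := Spec.map_preimage l
  -- `γ` is a `k`-algebra homomorphism
  have hγk : ψ ≫ γ = CommRingCat.ofHom (algebraMap k B) := by
    apply Spec.map_injective
    rw [Spec.map_comp, hγ, ← hj, ← Category.assoc, hl]
    exact g.2
  -- `γ` lifts `f`
  have hγf : γ ≫ CommRingCat.ofHom (Ideal.Quotient.mk I) = CommRingCat.ofHom f.toRingHom := by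
    apply Spec.map_injective
    rw [Spec.map_comp, hγ]
    rw [← cancel_mono j, Category.assoc, hl]
    exact hcomp'
  refine ⟨{ γ.hom with commutes' := fun r => ?_ }, ?_⟩
  · exact congrArg (fun φ : CommRingCat.of k ⟶ CommRingCat.of B => φ.hom r) hγk
  · ext r
    exact congrArg (fun φ : R ⟶ CommRingCat.of (B ⧸ I) => φ.hom r) hγf

/-- An affine chart `j : Spec R ⟶ J` of a representing object that is locally of finite type
is smooth over `k`. -/
theorem smooth_chart (hDef : Stmt.Def c ε) (D : RelativePic0Designation k c)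
    (h : RepresentsRelSubPic c ε (algEquivZeroCut c ε) D) (hlft : LocallyOfFiniteType D.toBase)
    (R : CommRingCat.{u}) (j : Spec R ⟶ D.P) [IsOpenImmersion j] :
    Smooth (j ≫ D.toBase) := by
  obtain ⟨ψ, hψ⟩ : ∃ ψ : CommRingCat.of k ⟶ R, Spec.map ψ = j ≫ D.toBase :=
    ⟨Spec.preimage _, Spec.map_preimage _⟩
  have hft : LocallyOfFiniteType (Spec.map ψ) := by
    rw [hψ]
    infer_instance
  rw [HasRingHomProperty.Spec_iff (P := @LocallyOfFiniteType)] at hft
  rw [← hψ, HasRingHomProperty.Spec_iff (P := @Smooth), RingHom.smooth_def]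
  exact ⟨formallySmooth_chart hDef D h R ψ j hψ.symm,
    RingHom.FinitePresentation.of_finiteType.mp hft⟩

set_option backward.isDefEq.respectTransparency.types false in
/-- **AS1**: `Stmt.Def → Stmt.SmoothOfRep`. -/
theorem smoothOfRep_of_def (hDef : Stmt.Def c ε) : Stmt.SmoothOfRep c ε := by
  intro D hD hlft
  obtain ⟨h⟩ := hD
  rw [IsZariskiLocalAtSource.iff_of_openCover (P := @Smooth.{u}) D.P.affineOpenCover.openCover]
  intro i
  exact smooth_chart hDef D h hlft (D.P.affineOpenCover.X i) (D.P.affineOpenCover.f i)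

end

end Fermat.Agent.S25.H805

end
-- ===== PACK-END S25/H805/SmoothOfRep.lean

-- ===== PACK-BEGIN S25/H205/LocalP.lean
section



/-!
# S25 / assembly block AS5: `Stmt.LocalP` (degree zero is Zariski-local on the base)

* `isAlgEquivZero_fibre_of_pullbackAlong`: the fibre of `M` at a geometric point `s' ≫ ψ` of `T`
  is algebraically equivalent to zero as soon as the fibre of `M.pullbackAlong ψ` at `s'` is
  (converse of the Prelude's `FibrewiseAlgEquivZero.pullback`, pointwise).
* `fibrewiseAlgEquivZero_of_jointly_surjective`: `FibrewiseAlgEquivZero` descends along any family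
  `ψ i : T i ⟶ T` through which every geometric point of `T` factors.
* `localP : Stmt.LocalP c ε`.
-/

set_option autoImplicit false

universe u

open CategoryTheory CategoryTheory.Limits AlgebraicGeometry AlgebraicGeometry.RelPicard
  NeronModelInfra GoodReductionJacobian

namespace Fermat.Agent.S25.H205

section

variable {R : Type u} [CommRing R] {C : Scheme.{u}} {c : C ⟶ Spec (CommRingCat.of R)}
  {ε : SchemeHomOver (𝟙 (Spec (CommRingCat.of R))) c}
  {T T' : Scheme.{u}} {t : T ⟶ Spec (CommRingCat.of R)} {t' : T' ⟶ Spec (CommRingCat.of R)}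

/-- The fibre of `C ×ₖ T'` over a point `s'` of `T'` is the fibre of `C ×ₖ T` over `s' ≫ ψ`. -/
theorem isPullback_fibre (ψ : SchemeHomOver t' t) {K : Type u} [Field K]
    (s' : Spec (CommRingCat.of K) ⟶ T') :
    IsPullback (pullback.fst (pullback.snd c t') s' ≫ baseChangeSnd c ψ)
      (pullback.snd (pullback.snd c t') s') (pullback.snd c t) (s' ≫ ψ.1) :=
  (IsPullback.of_hasPullback (pullback.snd c t') s').paste_horiz (isPullback_baseChangeSnd c ψ)

/-- Converse of `FibrewiseAlgEquivZero.pullback` at a single geometric point. -/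
theorem isAlgEquivZero_fibre_of_pullbackAlong (ψ : SchemeHomOver t' t)
    (M : RigidifiedLineBundle c ε t) {K : Type u} [Field K]
    (s' : Spec (CommRingCat.of K) ⟶ T') (s : Spec (CommRingCat.of K) ⟶ T) (hs : s' ≫ ψ.1 = s)
    (h : IsAlgEquivZero (fibreAt c t' s')
      ((Scheme.Modules.pullback (pullback.fst (pullback.snd c t') s')).obj
        (M.pullbackAlong ψ).L)) :
    IsAlgEquivZero (fibreAt c t s)
      ((Scheme.Modules.pullback (pullback.fst (pullback.snd c t) s)).obj M.L) := by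
  subst hs
  let H := isPullback_fibre (c := c) ψ s'
  let e : pullback (pullback.snd c t) (s' ≫ ψ.1) ⟶ pullback (pullback.snd c t') s' :=
    H.isoPullback.inv
  have he : e ≫ fibreAt c t' s' = fibreAt c t (s' ≫ ψ.1) := by
    simp only [e, fibreAt]
    exact H.isoPullback_inv_snd
  have hfst : e ≫ pullback.fst (pullback.snd c t') s' ≫ baseChangeSnd c ψ =
      pullback.fst (pullback.snd c t) (s' ≫ ψ.1) := by
    simp only [e]
    exact H.isoPullback_inv_fst
  refine IsAlgEquivZero.of_iso ?_ (h.pullback e he)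
  exact (Scheme.Modules.pullback e).mapIso ((Scheme.Modules.pullbackComp _ _).app M.L) ≪≫
    (Scheme.Modules.pullbackComp _ _).app M.L ≪≫
    (Scheme.Modules.pullbackCongr hfst).app M.L

/-- `FibrewiseAlgEquivZero` descends along any family of morphisms `ψ i : T i ⟶ T` through which
every geometric point of `T` factors. -/
theorem fibrewiseAlgEquivZero_of_forall_factors {ι : Type*} {T' : ι → Scheme.{u}}
    {t' : ∀ i, T' i ⟶ Spec (CommRingCat.of R)} (ψ : ∀ i, SchemeHomOver (t' i) t)
    (M : RigidifiedLineBundle c ε t)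
    (hfac : ∀ (K : Type u) [Field K] [IsAlgClosed K] (s : Spec (CommRingCat.of K) ⟶ T),
      ∃ (i : ι) (s' : Spec (CommRingCat.of K) ⟶ T' i), s' ≫ (ψ i).1 = s)
    (hM : ∀ i, FibrewiseAlgEquivZero (M.pullbackAlong (ψ i))) : FibrewiseAlgEquivZero M := by
  intro K _ _ s
  obtain ⟨i, s', hs'⟩ := hfac K s
  exact isAlgEquivZero_fibre_of_pullbackAlong (ψ i) M s' s hs' (hM i K s')

end

section

variable {k : Type u} [Field k] {C : Scheme.{u}} (c : C ⟶ Spec (CommRingCat.of k))
  (ε : SchemeHomOver (𝟙 (Spec (CommRingCat.of k))) c)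

/-- A morphism from the spectrum of a field factors through any open containing the image of
its unique point; here: through some member of an open cover. -/
theorem exists_lift_of_iSup_eq_top {T : Scheme.{u}} {ι : Type*} (U : ι → T.Opens)
    (hU : (⨆ i, U i) = ⊤) {K : Type u} [Field K] (s : Spec (CommRingCat.of K) ⟶ T) :
    ∃ (i : ι) (s' : Spec (CommRingCat.of K) ⟶ (U i).toScheme), s' ≫ (U i).ι = s := by
  have x : Spec (CommRingCat.of K) := (default : PrimeSpectrum K)
  have hx : s.base x ∈ (⨆ i, U i) := by rw [hU]; trivial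
  obtain ⟨i, hi⟩ := TopologicalSpace.Opens.mem_iSup.mp hx
  have hrange : Set.range s.base ⊆ Set.range (U i).ι.base := by
    rintro _ ⟨y, rfl⟩
    have : y = x := Subsingleton.elim _ _
    rw [this]
    simpa using hi
  exact ⟨i, IsOpenImmersion.lift (U i).ι s hrange, IsOpenImmersion.lift_fac _ _ _⟩

/-- **AS5**: degree zero is Zariski-local on the base. -/
theorem localP : Stmt.LocalP c ε := by
  intro T t ι U hU M hM
  refine fibrewiseAlgEquivZero_of_forall_factors
    (fun i => (⟨(U i).ι, rfl⟩ : SchemeHomOver ((U i).ι ≫ t) t)) M ?_ hM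
  intro K _ _ s
  exact exists_lift_of_iSup_eq_top U hU s

end

end Fermat.Agent.S25.H205

end
-- ===== PACK-END S25/H205/LocalP.lean

-- ===== PACK-BEGIN S25/H971/GlueLift.lean
section



/-!
# S25 / block ALGDEF: gluing data lift along nil thickenings of cospans

`R₀ → R₀₁ ← R₁` and `R₀' → R₀₁' ← R₁'` cospans of commutative rings, `ρ₀, ρ₁, ρ₀₁` a morphism of
cospans all of whose components are surjective with nil kernel.  Then every gluing datum over
the primed cospan is a base change of a gluing datum over the unprimed one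
(`exists_glueDatum_lift`).
-/

set_option autoImplicit false
set_option linter.style.haveILetI false

open TensorProduct

namespace Fermat.Agent.S25.H971

universe u

section Construct

variable (A : Type u) {R₀ R₁ R₀₁ : Type u} [CommRing A] [CommRing R₀] [CommRing R₁]
    [CommRing R₀₁] [Algebra A R₀] [Algebra A R₁] [Algebra A R₀₁] [Algebra R₀ R₀₁]
    [Algebra R₁ R₀₁] [IsScalarTower A R₀ R₀₁] [IsScalarTower A R₁ R₀₁]

/-- Build a gluing datum from modules over the three rings of the cospan; the `A`-module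
structures are obtained by restriction of scalars. -/
def glueDatumOfModules (N₀ N₁ N₀₁ : Type u) [AddCommGroup N₀] [AddCommGroup N₁]
    [AddCommGroup N₀₁] [Module R₀ N₀] [Module R₁ N₁] [Module R₀₁ N₀₁]
    [Module R₀ N₀₁] [IsScalarTower R₀ R₀₁ N₀₁] [Module R₁ N₀₁] [IsScalarTower R₁ R₀₁ N₀₁]
    (r₀ : N₀ →ₗ[R₀] N₀₁) (r₁ : N₁ →ₗ[R₁] N₀₁) (h₀ : IsBaseChange R₀₁ r₀)
    (h₁ : IsBaseChange R₀₁ r₁) (i₀ : Module.Invertible R₀ N₀) (i₁ : Module.Invertible R₁ N₁) :
    GlueDatum A R₀ R₁ R₀₁ :=
  letI mA₀ : Module A N₀ := Module.compHom N₀ (algebraMap A R₀)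
  letI mA₁ : Module A N₁ := Module.compHom N₁ (algebraMap A R₁)
  letI mA₀₁ : Module A N₀₁ := Module.compHom N₀₁ (algebraMap A R₀₁)
  haveI t₀ : IsScalarTower A R₀ N₀ := ⟨fun a r n => by
    change (a • r) • n = (algebraMap A R₀ a) • (r • n)
    rw [Algebra.smul_def, mul_smul]⟩
  haveI t₁ : IsScalarTower A R₁ N₁ := ⟨fun a r n => by
    change (a • r) • n = (algebraMap A R₁ a) • (r • n)
    rw [Algebra.smul_def, mul_smul]⟩
  haveI t₀₁ : IsScalarTower A R₀₁ N₀₁ := ⟨fun a r n => by
    change (a • r) • n = (algebraMap A R₀₁ a) • (r • n)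
    rw [Algebra.smul_def, mul_smul]⟩
  { N₀ := N₀
    N₁ := N₁
    N₀₁ := N₀₁
    r₀ := r₀
    r₁ := r₁
    isBaseChange₀ := h₀
    isBaseChange₁ := h₁
    invertible₀ := i₀
    invertible₁ := i₁ }

end Construct

section Semilinear

variable {R R' : Type u} [CommRing R] [CommRing R']

/-- A `ρ`-semilinear map induced by an isomorphism `R' ⊗[R] M ≃ N'` (for the algebra structure
`ρ.toAlgebra`) is a semilinear base change. -/
theorem isSemilinearBaseChange_of_equiv (ρ : R →+* R') {M N' : Type u} [AddCommGroup M]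
    [Module R M] [AddCommGroup N'] [Module R' N'] (b : M →ₛₗ[ρ] N')
    (e : letI : Algebra R R' := ρ.toAlgebra; R' ⊗[R] M ≃ₗ[R'] N')
    (he : letI : Algebra R R' := ρ.toAlgebra; ∀ m : M, e ((1 : R') ⊗ₜ[R] m) = b m) :
    IsSemilinearBaseChange ρ b := by
  letI : Algebra R R' := ρ.toAlgebra
  letI : Module R N' := Module.compHom N' ρ
  haveI : IsScalarTower R R' N' := ⟨fun r r' n => by
    change (ρ r * r') • n = ρ r • (r' • n); rw [mul_smul]⟩
  exact IsBaseChange.of_equiv e he

/-- The isomorphism `R' ⊗[R] M ≃ N'` attached to a semilinear base change. -/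
theorem exists_equiv_of_isSemilinearBaseChange (ρ : R →+* R') {M N' : Type u} [AddCommGroup M]
    [Module R M] [AddCommGroup N'] [Module R' N'] (b : M →ₛₗ[ρ] N')
    (hb : IsSemilinearBaseChange ρ b) :
    letI : Algebra R R' := ρ.toAlgebra
    ∃ e : R' ⊗[R] M ≃ₗ[R'] N', ∀ (s : R') (m : M), e (s ⊗ₜ[R] m) = s • b m := by
  letI : Algebra R R' := ρ.toAlgebra
  letI : Module R N' := Module.compHom N' ρ
  haveI : IsScalarTower R R' N' := ⟨fun r r' n => by
    change (ρ r * r') • n = ρ r • (r' • n); rw [mul_smul]⟩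
  have hb' : IsBaseChange R' (show M →ₗ[R] N' from
    { toFun := fun n => b n
      map_add' := fun m n => b.map_add m n
      map_smul' := fun r n => LinearMap.map_smulₛₗ b r n }) := hb
  exact ⟨hb'.equiv, fun s m => hb'.equiv_tmul s m⟩

/-- Two finite projective modules with the same (semilinear) base change along a surjection
with nil kernel are isomorphic, compatibly with the base change maps. -/
theorem exists_linearEquiv_of_isSemilinearBaseChange (σ : R →+* R')
    (hsurj : Function.Surjective σ) (hnil : ∀ x ∈ RingHom.ker σ, IsNilpotent x)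
    {P P₁ N' : Type u} [AddCommGroup P] [Module R P] [AddCommGroup P₁] [Module R P₁]
    [Module.Finite R P] [Module.Projective R P] [Module.Finite R P₁] [Module.Projective R P₁]
    [AddCommGroup N'] [Module R' N'] (c : P →ₛₗ[σ] N') (c₁ : P₁ →ₛₗ[σ] N')
    (hc : IsSemilinearBaseChange σ c) (hc₁ : IsSemilinearBaseChange σ c₁) :
    ∃ ψ : P₁ ≃ₗ[R] P, ∀ x, c (ψ x) = c₁ x := by
  letI : Algebra R R' := σ.toAlgebra
  obtain ⟨e, he⟩ := exists_equiv_of_isSemilinearBaseChange σ c hc
  obtain ⟨e₁, he₁⟩ := exists_equiv_of_isSemilinearBaseChange σ c₁ hc₁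
  obtain ⟨ψ, hψ⟩ := exists_linearEquiv_lift (R := R) (S := R') hsurj hnil (e₁ ≪≫ₗ e.symm)
  refine ⟨ψ, fun x => ?_⟩
  have h1 := hψ x
  rw [LinearEquiv.trans_apply, LinearEquiv.symm_apply_eq, he₁, he, one_smul, one_smul] at h1
  exact h1.symm

/-- One leg of a morphism of cospans: a semilinear base change `b : M → N'` over `ρ : R → R'`
and a base change `r' : N' → N₀₁'` along `R' → S'` induce a semilinear base change
`S ⊗[R] M → N₀₁'` over `σ : S → S'`. -/
theorem exists_semilinear_baseChange_tensor {S S' : Type u} [CommRing S] [CommRing S']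
    [Algebra R S] [Algebra R' S'] (ρ : R →+* R') (σ : S →+* S')
    (hσρ : σ.comp (algebraMap R S) = (algebraMap R' S').comp ρ)
    {M N' N₀₁' : Type u} [AddCommGroup M] [Module R M] [AddCommGroup N'] [Module R' N']
    [AddCommGroup N₀₁'] [Module S' N₀₁'] [Module R' N₀₁'] [IsScalarTower R' S' N₀₁']
    (b : M →ₛₗ[ρ] N') (hb : IsSemilinearBaseChange ρ b) (r' : N' →ₗ[R'] N₀₁')
    (hr' : IsBaseChange S' r') :
    ∃ c : S ⊗[R] M →ₛₗ[σ] N₀₁', IsSemilinearBaseChange σ c ∧
      ∀ m : M, c ((1 : S) ⊗ₜ[R] m) = r' (b m) := by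
  letI aRR' : Algebra R R' := ρ.toAlgebra
  letI aSS' : Algebra S S' := σ.toAlgebra
  letI aRS' : Algebra R S' := (σ.comp (algebraMap R S)).toAlgebra
  haveI tRSS' : IsScalarTower R S S' := IsScalarTower.of_algebraMap_eq (fun x => rfl)
  haveI tRR'S' : IsScalarTower R R' S' := IsScalarTower.of_algebraMap_eq (fun x =>
    RingHom.congr_fun hσρ x)
  letI mRN' : Module R N' := Module.compHom N' ρ
  haveI tN' : IsScalarTower R R' N' := ⟨fun r r' n => by
    change (ρ r * r') • n = ρ r • (r' • n); rw [mul_smul]⟩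
  letI mSN : Module S N₀₁' := Module.compHom N₀₁' σ
  haveI tSN : IsScalarTower S S' N₀₁' := ⟨fun r r' n => by
    change (σ r * r') • n = σ r • (r' • n); rw [mul_smul]⟩
  letI mRN : Module R N₀₁' := Module.compHom N₀₁' (σ.comp (algebraMap R S))
  haveI tRSN : IsScalarTower R S N₀₁' := ⟨fun r s n => by
    change σ (r • s) • n = σ (algebraMap R S r) • (σ s • n)
    rw [Algebra.smul_def, map_mul, mul_smul]⟩
  haveI tRS'N : IsScalarTower R S' N₀₁' := ⟨fun r s n => by
    change (σ (algebraMap R S r) * s) • n = σ (algebraMap R S r) • (s • n)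
    rw [mul_smul]⟩
  haveI tRR'N : IsScalarTower R R' N₀₁' := ⟨fun r s n => by
    change (ρ r * s) • n = σ (algebraMap R S r) • (s • n)
    have h : σ (algebraMap R S r) = algebraMap R' S' (ρ r) := RingHom.congr_fun hσρ r
    rw [h, mul_smul, algebraMap_smul]⟩
  let bl : M →ₗ[R] N' :=
    { toFun := fun n => b n
      map_add' := fun m n => b.map_add m n
      map_smul' := fun r n => LinearMap.map_smulₛₗ b r n }
  have hbl : IsBaseChange R' bl := hb
  have hcomp : IsBaseChange S' ((r'.restrictScalars R).comp bl) := IsBaseChange.comp hbl hr'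
  have hT : IsBaseChange S (TensorProduct.mk R S M 1) := TensorProduct.isBaseChange R M S
  let c : S ⊗[R] M →ₗ[S] N₀₁' := hT.lift ((r'.restrictScalars R).comp bl)
  have hcT : (c.restrictScalars R).comp (TensorProduct.mk R S M 1) =
      (r'.restrictScalars R).comp bl := hT.lift_comp _
  have hc : IsBaseChange S' c := IsBaseChange.of_comp hT (by rw [hcT]; exact hcomp)
  refine ⟨{ toFun := fun x => c x
            map_add' := fun x y => c.map_add x y
            map_smul' := fun s x => c.map_smul s x }, ?_, fun m => ?_⟩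
  · exact hc
  · exact LinearMap.congr_fun hcT m

end Semilinear

section Main

variable {A R₀ R₁ R₀₁ : Type u} [CommRing A] [CommRing R₀] [CommRing R₁]
    [CommRing R₀₁] [Algebra A R₀] [Algebra A R₁] [Algebra A R₀₁] [Algebra R₀ R₀₁]
    [Algebra R₁ R₀₁] [IsScalarTower A R₀ R₀₁] [IsScalarTower A R₁ R₀₁]
    {A' R₀' R₁' R₀₁' : Type u} [CommRing A'] [CommRing R₀'] [CommRing R₁']
    [CommRing R₀₁'] [Algebra A' R₀'] [Algebra A' R₁'] [Algebra A' R₀₁'] [Algebra R₀' R₀₁']
    [Algebra R₁' R₀₁'] [IsScalarTower A' R₀' R₀₁'] [IsScalarTower A' R₁' R₀₁']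

/-- Lift of an invertible module along a surjection with nil kernel, as a semilinear base
change. -/
theorem exists_invertible_semilinear_lift {R R' : Type u} [CommRing R] [CommRing R']
    (ρ : R →+* R') (hs : Function.Surjective ρ) (hn : ∀ x ∈ RingHom.ker ρ, IsNilpotent x)
    (N' : Type u) [AddCommGroup N'] [Module R' N'] [Module.Invertible R' N'] :
    ∃ (M : Type u) (_ : AddCommGroup M) (_ : Module R M) (_ : Module.Invertible R M)
      (b : M →ₛₗ[ρ] N'), IsSemilinearBaseChange ρ b := by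
  letI : Algebra R R' := ρ.toAlgebra
  obtain ⟨M, _, _, hM, ⟨φ⟩⟩ := exists_invertible_lift (R := R) (S := R') hs hn N'
  let b : M →ₛₗ[ρ] N' :=
    { toFun := fun m => φ ((1 : R') ⊗ₜ[R] m)
      map_add' := fun m n => by rw [TensorProduct.tmul_add, map_add]
      map_smul' := fun r m => by
        rw [TensorProduct.tmul_smul, TensorProduct.smul_tmul', ← map_smul]
        congr 2 }
  exact ⟨M, inferInstance, inferInstance, hM, b,
    isSemilinearBaseChange_of_equiv ρ b φ (fun m => rfl)⟩

/-- **Gluing data lift along nil thickenings.**  For a morphism of cospans `(ρ₀, ρ₁, ρ₀₁)` all of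
whose components are surjective with nil kernel, every gluing datum over the target cospan is
a base change of a gluing datum over the source cospan. -/
theorem exists_glueDatum_lift (ρ₀ : R₀ →+* R₀') (ρ₁ : R₁ →+* R₁') (ρ₀₁ : R₀₁ →+* R₀₁')
    (h₀ : ρ₀₁.comp (algebraMap R₀ R₀₁) = (algebraMap R₀' R₀₁').comp ρ₀)
    (h₁ : ρ₀₁.comp (algebraMap R₁ R₀₁) = (algebraMap R₁' R₀₁').comp ρ₁)
    (hs₀ : Function.Surjective ρ₀) (hn₀ : ∀ x ∈ RingHom.ker ρ₀, IsNilpotent x)
    (hs₁ : Function.Surjective ρ₁) (hn₁ : ∀ x ∈ RingHom.ker ρ₁, IsNilpotent x)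
    (hs₀₁ : Function.Surjective ρ₀₁) (hn₀₁ : ∀ x ∈ RingHom.ker ρ₀₁, IsNilpotent x)
    (G' : GlueDatum A' R₀' R₁' R₀₁') :
    ∃ G : GlueDatum A R₀ R₁ R₀₁, GlueDatum.IsBC ρ₀ ρ₁ ρ₀₁ G G' := by
  haveI := G'.invertible₀
  haveI := G'.invertible₁
  obtain ⟨M₀, _, _, hM₀, b₀, hb₀⟩ := exists_invertible_semilinear_lift ρ₀ hs₀ hn₀ G'.N₀
  obtain ⟨M₁, _, _, hM₁, b₁, hb₁⟩ := exists_invertible_semilinear_lift ρ₁ hs₁ hn₁ G'.N₁
  obtain ⟨c₀, hc₀, hc₀'⟩ :=
    exists_semilinear_baseChange_tensor ρ₀ ρ₀₁ h₀ b₀ hb₀ G'.r₀ G'.isBaseChange₀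
  obtain ⟨c₁, hc₁, hc₁'⟩ :=
    exists_semilinear_baseChange_tensor ρ₁ ρ₀₁ h₁ b₁ hb₁ G'.r₁ G'.isBaseChange₁
  obtain ⟨ψ, hψ⟩ := exists_linearEquiv_of_isSemilinearBaseChange ρ₀₁ hs₀₁ hn₀₁ c₀ c₁ hc₀ hc₁
  let r₁ : M₁ →ₗ[R₁] R₀₁ ⊗[R₀] M₀ :=
    (ψ.toLinearMap.restrictScalars R₁).comp (TensorProduct.mk R₁ R₀₁ M₁ 1)
  have hr₁ : IsBaseChange R₀₁ r₁ := IsBaseChange.of_equiv ψ (fun x => rfl)
  refine ⟨glueDatumOfModules A M₀ M₁ (R₀₁ ⊗[R₀] M₀) (TensorProduct.mk R₀ R₀₁ M₀ 1) r₁
    (TensorProduct.isBaseChange R₀ M₀ R₀₁) hr₁ hM₀ hM₁, ⟨?_⟩⟩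
  exact
    { b₀ := b₀
      b₁ := b₁
      b₀₁ := c₀
      comm₀ := fun s => hc₀' s
      comm₁ := fun s => (hψ _).trans (hc₁' s)
      isBaseChange₀ := hb₀
      isBaseChange₁ := hb₁
      isBaseChange₀₁ := hc₀ }

end Main

end Fermat.Agent.S25.H971

end
-- ===== PACK-END S25/H971/GlueLift.lean

-- ===== PACK-BEGIN S25/H507/ChartProper.lean
section


set_option autoImplicit false

universe u

open AlgebraicGeometry CategoryTheory TopologicalSpace Opposite

namespace Fermat.Agent.S25.H507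

section Aux

variable {X : Scheme.{u}}

lemma appTop_eq_appLE {Z Z' : Scheme.{u}} (f' : Z ⟶ Z')
    (h : (⊤ : Z.Opens) ≤ f' ⁻¹ᵁ ⊤) :
    f'.appTop = f'.appLE ⊤ ⊤ h := by
  simp only [Scheme.Hom.appLE]
  erw [CategoryTheory.Functor.map_id, Category.comp_id]

lemma appTop_appLE {Z Z' : Scheme.{u}} (U : X.Opens) (f' : Z ⟶ Z') (l : Z' ⟶ X) (s : Γ(X, U))
    (e : (⊤ : Z'.Opens) ≤ l ⁻¹ᵁ U) (e' : (⊤ : Z.Opens) ≤ (f' ≫ l) ⁻¹ᵁ U) :
    f'.appTop (l.appLE U ⊤ e s) = (f' ≫ l).appLE U ⊤ e' s := by
  rw [← CommRingCat.comp_apply]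
  congr 2
  rw [appTop_eq_appLE f' f'.preimage_top.ge, Scheme.Hom.appLE_comp_appLE]

lemma appTop_topIso_inv {Z : Scheme.{u}} (U : X.Opens) (i₁ : Z ⟶ U.toScheme) (s : Γ(X, U))
    (e : (⊤ : Z.Opens) ≤ (i₁ ≫ U.ι) ⁻¹ᵁ U) :
    i₁.appTop (U.topIso.inv s) = (i₁ ≫ U.ι).appLE U ⊤ e s := by
  have h2 : U.topIso.inv = U.ι.appLE U ⊤ U.ι_preimage_self.ge := by
    rw [Scheme.Opens.ι_appLE, Scheme.Opens.topIso_inv]
    rfl
  rw [h2]
  exact appTop_appLE U i₁ U.ι s _ e

lemma appLE_regSection_mul [IsIntegral X] {t : X.functionField} (ht : t ≠ 0) {Z : Scheme.{u}}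
    (j : Z ⟶ X) (h0 : (⊤ : Z.Opens) ≤ j ⁻¹ᵁ (regOpen X t))
    (h1 : (⊤ : Z.Opens) ≤ j ⁻¹ᵁ (regOpen X t⁻¹)) :
    j.appLE (regOpen X t) ⊤ h0 (regSection X t) *
      j.appLE (regOpen X t⁻¹) ⊤ h1 (regSection X t⁻¹) = 1 := by
  have hW : (⊤ : Z.Opens) ≤ j ⁻¹ᵁ (regOpen X t ⊓ regOpen X t⁻¹) := fun z hz => ⟨h0 hz, h1 hz⟩
  have e0 := j.map_appLE hW (homOfLE (inf_le_left : regOpen X t ⊓ regOpen X t⁻¹ ≤ regOpen X t)).op
  have e1 := j.map_appLE hW
    (homOfLE (inf_le_right : regOpen X t ⊓ regOpen X t⁻¹ ≤ regOpen X t⁻¹)).op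
  have e0' := congrArg (fun φ => φ.hom (regSection X t)) e0
  have e1' := congrArg (fun φ => φ.hom (regSection X t⁻¹)) e1
  simp only [CommRingCat.hom_comp, RingHom.comp_apply] at e0' e1'
  erw [← e0', ← e1']
  rw [← map_mul]
  erw [regSection_mul_regSection_inv X ht]
  rw [map_one]

lemma appLE_congr_hom {Z : Scheme.{u}} {j j' : Z ⟶ X} (h : j = j') (U : X.Opens) (V : Z.Opens)
    (e : V ≤ j ⁻¹ᵁ U) (e' : V ≤ j' ⁻¹ᵁ U) : j.appLE U V e = j'.appLE U V e' := by
  subst h
  rfl

/-- A morphism from the spectrum of a local ring lands in an open set as soon as the closed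
point does. -/
lemma range_subset_of_closedPoint_mem {R : Type u} [CommRing R] [IsLocalRing R]
    (l : Spec (CommRingCat.of R) ⟶ X) (U : X.Opens)
    (h : l (IsLocalRing.closedPoint R) ∈ U) : ∀ z, l z ∈ U := by
  intro z
  have hz : z ⤳ IsLocalRing.closedPoint R := IsLocalRing.specializes_closedPoint z
  exact (hz.map l.continuous).mem_open U.isOpen h

lemma appTop_SpecMap_injective {R K : Type u} [CommRing R] [CommRing K] (f : R →+* K)
    (hf : Function.Injective f) :
    Function.Injective (Spec.map (CommRingCat.ofHom f)).appTop := by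
  have h : (Spec.map (CommRingCat.ofHom f)).appTop =
      (Scheme.ΓSpecIso (CommRingCat.of R)).hom ≫ CommRingCat.ofHom f ≫
        (Scheme.ΓSpecIso (CommRingCat.of K)).inv := by
    rw [← Scheme.ΓSpecIso_naturality_assoc, Iso.hom_inv_id, Category.comp_id]
  rw [h]
  intro a b hab
  simp only [CommRingCat.comp_apply] at hab
  have h1 := (ConcreteCategory.injective_of_mono_of_preservesPullback
    (Scheme.ΓSpecIso (CommRingCat.of K)).inv) hab
  have h2 := hf h1
  exact (ConcreteCategory.injective_of_mono_of_preservesPullback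
    (Scheme.ΓSpecIso (CommRingCat.of R)).hom) h2

/-- Morphisms out of `Spec R` into an affine scheme agree if they agree after restriction along
`Spec K ⟶ Spec R` for an injective ring map `R → K`. -/
lemma eq_of_SpecMap_comp_eq {R K A : Type u} [CommRing R] [CommRing K] [CommRing A]
    (f : R →+* K) (hf : Function.Injective f)
    (g₁ g₂ : Spec (CommRingCat.of R) ⟶ Spec (CommRingCat.of A))
    (h : Spec.map (CommRingCat.ofHom f) ≫ g₁ = Spec.map (CommRingCat.ofHom f) ≫ g₂) :
    g₁ = g₂ := by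
  obtain ⟨φ₁, rfl⟩ := Spec.map_surjective g₁
  obtain ⟨φ₂, rfl⟩ := Spec.map_surjective g₂
  rw [← Spec.map_comp, ← Spec.map_comp] at h
  have h' := Spec.map_injective h
  congr 1
  ext a
  apply hf
  have := congrArg (fun φ => φ.hom a) h'
  simpa using this

end Aux

variable {k : Type u} [Field k] {X : Scheme.{u}} [IsIntegral X] (c : X ⟶ Spec (CommRingCat.of k))

/-- The chart morphism `regOpen X t ⟶ 𝔸¹` given by the rational function `t`. -/
noncomputable def chartHom (t : X.functionField) :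
    (regOpen X t).toScheme ⟶ Spec (CommRingCat.of (Polynomial k)) :=
  toLine ((regOpen X t).ι ≫ c) ((regOpen X t).topIso.inv (regSection X t))

lemma chartHom_lineStr (t : X.functionField) :
    chartHom c t ≫ lineStr k = (regOpen X t).ι ≫ c :=
  toLine_lineStr _ _

lemma chartHom_appTop_lineCoord (t : X.functionField) :
    (chartHom c t).appTop (lineCoord k) = (regOpen X t).topIso.inv (regSection X t) :=
  toLine_appTop_lineCoord _ _

/-- Key step of the valuative criterion. -/
lemma closedPoint_mem_regOpen {t : X.functionField} (ht : t ≠ 0)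
    (hval : ∀ P : X, ValuationRing (X.presheaf.stalk P))
    {R K : Type u} [CommRing R] [IsLocalRing R] [CommRing K] (f : R →+* K)
    (hf : Function.Injective f)
    (l : Spec (CommRingCat.of R) ⟶ X) (i₁ : Spec (CommRingCat.of K) ⟶ (regOpen X t).toScheme)
    (hl : Spec.map (CommRingCat.ofHom f) ≫ l = i₁ ≫ (regOpen X t).ι)
    (b : Γ(Spec (CommRingCat.of R), ⊤))
    (hb : (Spec.map (CommRingCat.ofHom f)).appTop b =
      i₁.appTop ((regOpen X t).topIso.inv (regSection X t))) :
    l (IsLocalRing.closedPoint R) ∈ regOpen X t := by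
  by_contra hP
  have hP1 : l (IsLocalRing.closedPoint R) ∈ regOpen X t⁻¹ := by
    have := hval (l (IsLocalRing.closedPoint R))
    exact (regOpen_sup_regOpen_inv X t _).resolve_left hP
  have hall : ∀ z, l z ∈ regOpen X t⁻¹ := range_subset_of_closedPoint_mem l _ hP1
  have hle : (⊤ : (Spec (CommRingCat.of R)).Opens) ≤ l ⁻¹ᵁ (regOpen X t⁻¹) := fun z _ => hall z
  set a := l.appLE (regOpen X t⁻¹) ⊤ hle (regSection X t⁻¹) with ha
  have hab : a * b = 1 := by
    apply appTop_SpecMap_injective f hf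
    rw [map_mul, map_one, hb, mul_comm]
    have h0 : (⊤ : (Spec (CommRingCat.of K)).Opens) ≤
        (Spec.map (CommRingCat.ofHom f) ≫ l) ⁻¹ᵁ (regOpen X t) := by
      rw [hl]
      intro z _
      exact (i₁ z).2
    have h1 : (⊤ : (Spec (CommRingCat.of K)).Opens) ≤
        (Spec.map (CommRingCat.ofHom f) ≫ l) ⁻¹ᵁ (regOpen X t⁻¹) := fun z _ => hall _
    rw [ha, appTop_appLE (regOpen X t⁻¹) (Spec.map (CommRingCat.ofHom f)) l _ hle h1]
    have h0' : (⊤ : (Spec (CommRingCat.of K)).Opens) ≤ (i₁ ≫ (regOpen X t).ι) ⁻¹ᵁ (regOpen X t) :=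
      hl ▸ h0
    rw [appTop_topIso_inv (regOpen X t) i₁ _ h0']
    have := appLE_regSection_mul ht (Spec.map (CommRingCat.ofHom f) ≫ l) h0 h1
    have hcg : (i₁ ≫ (regOpen X t).ι).appLE (regOpen X t) ⊤ h0' =
        (Spec.map (CommRingCat.ofHom f) ≫ l).appLE (regOpen X t) ⊤ h0 :=
      appLE_congr_hom hl.symm _ _ _ _
    rw [hcg]
    exact this
  have hu : IsUnit a := IsUnit.of_mul_eq_one b hab
  have h1 : (Spec (CommRingCat.of R)).basicOpen a = ⊤ := Scheme.basicOpen_of_isUnit _ hu
  rw [ha, Scheme.basicOpen_appLE] at h1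
  have h2 : IsLocalRing.closedPoint R ∈ (⊤ : (Spec (CommRingCat.of R)).Opens) := trivial
  rw [← h1] at h2
  have h3 : l (IsLocalRing.closedPoint R) ∈ X.basicOpen (regSection X t⁻¹) := h2.2
  rw [basicOpen_regSection_inv X ht] at h3
  exact hP h3.1

theorem chartHom_existence [IsProper c] {t : X.functionField} (ht : t ≠ 0)
    (hval : ∀ P : X, ValuationRing (X.presheaf.stalk P)) :
    ValuativeCriterion.Existence (chartHom c t) := by
  intro S
  have hc : ValuativeCriterion.Existence c := by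
    have : (ValuativeCriterion.Existence ⊓ @QuasiCompact) c := by
      rw [← UniversallyClosed.eq_valuativeCriterion]; infer_instance
    exact this.1
  let S' : ValuativeCommSq c :=
    { R := S.R
      K := S.K
      i₁ := S.i₁ ≫ (regOpen X t).ι
      i₂ := S.i₂ ≫ lineStr k
      commSq := ⟨by
        rw [Category.assoc, ← chartHom_lineStr, ← Category.assoc, S.commSq.w, Category.assoc]⟩ }
  have hlift := hc S'
  obtain ⟨⟨l, hl1, hl2⟩⟩ := hlift
  have hinj : Function.Injective (algebraMap S.R S.K) := IsFractionRing.injective S.R S.K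
  have hmem : l (IsLocalRing.closedPoint S.R) ∈ regOpen X t := by
    refine closedPoint_mem_regOpen ht hval (algebraMap S.R S.K) hinj l S.i₁ hl1
      (S.i₂.appTop (lineCoord k)) ?_
    rw [← chartHom_appTop_lineCoord c t, ← CommRingCat.comp_apply, ← CommRingCat.comp_apply,
      ← Scheme.Hom.comp_appTop, ← Scheme.Hom.comp_appTop, S.commSq.w]
  have hrange : Set.range l ⊆ Set.range (regOpen X t).ι := by
    rw [Scheme.Opens.range_ι]
    rintro _ ⟨z, rfl⟩
    exact range_subset_of_closedPoint_mem l _ hmem z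
  refine ⟨⟨⟨IsOpenImmersion.lift (regOpen X t).ι l hrange, ?_, ?_⟩⟩⟩
  · rw [← cancel_mono (regOpen X t).ι, Category.assoc, IsOpenImmersion.lift_fac]
    exact hl1
  · apply eq_of_SpecMap_comp_eq (algebraMap S.R S.K) hinj
    rw [← S.commSq.w, ← Category.assoc]
    congr 1
    rw [← cancel_mono (regOpen X t).ι, Category.assoc, IsOpenImmersion.lift_fac]
    exact hl1

omit [IsIntegral X] in
lemma isNoetherian_of_proper [IsProper c] : IsNoetherian X := by
  have h1 : IsLocallyNoetherian X := LocallyOfFiniteType.isLocallyNoetherian c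
  have h2 : CompactSpace X := QuasiCompact.compactSpace_of_compactSpace c
  exact { }

omit [IsIntegral X] in
lemma noetherianSpace_opens [IsProper c] (U : X.Opens) : NoetherianSpace U.toScheme := by
  have := isNoetherian_of_proper c
  have : NoetherianSpace X := inferInstance
  exact NoetherianSpace.set (U : Set X)

instance chartHom_isSeparated [IsProper c] (t : X.functionField) : IsSeparated (chartHom c t) := by
  have : IsSeparated (chartHom c t ≫ lineStr k) := by
    rw [chartHom_lineStr]; infer_instance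
  exact IsSeparated.of_comp (chartHom c t) (lineStr k)

instance chartHom_locallyOfFiniteType [IsProper c] (t : X.functionField) :
    LocallyOfFiniteType (chartHom c t) := by
  have : LocallyOfFiniteType (chartHom c t ≫ lineStr k) := by
    rw [chartHom_lineStr]; infer_instance
  exact locallyOfFiniteType_of_comp (chartHom c t) (lineStr k)

theorem chartHom_isProper [IsProper c] {t : X.functionField} (ht : t ≠ 0)
    (hval : ∀ P : X, ValuationRing (X.presheaf.stalk P)) :
    IsProper (chartHom c t) := by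
  have := noetherianSpace_opens c (regOpen X t)
  have : QuasiCompact (chartHom c t) := inferInstance
  have : UniversallyClosed (chartHom c t) :=
    UniversallyClosed.of_valuativeCriterion _ (chartHom_existence c ht hval)
  exact { }

end Fermat.Agent.S25.H507

end
-- ===== PACK-END S25/H507/ChartProper.lean

-- ===== PACK-BEGIN S25/H370/CechK5.lean
section
/-
S25, block CECH (squad S25/S10), leaf K5 (helper370): base change for the operator-style Čech core.

Statements exactly as in `CechSkel.lean` (origin/helper10):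
* `isFGProj_baseChange`      (K5a)
* `r0_baseChange_injective`  (K5b)
* `baseChange_d`             (K5c)
* `H0_baseChange_bijective`  (K5d)
and, as by-products of the same construction,
* `exists_lift_of_loc`   : the universal property of `N01 = N0[1/x]`, by hand;
* `projective_N01`       (K1b): `N01` is a retract of `A[T;T⁻¹]^n`, hence `A`-projective;
* `exists_section_d`     : a surjective twisted differential has an `A`-linear section.
-/


set_option autoImplicit false

namespace Fermat.Agent.S25.H370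

open Polynomial TensorProduct Fermat.Agent.S25.H10

universe u v w

variable {A : Type u} [CommRing A]

/-! ### The canonical isomorphism `A' ⊗ A[X]^n ≃ A'[X]^n` -/

section PolyPi

variable (A' : Type w) [CommRing A'] [Algebra A A']

/-- The canonical `A'`-linear isomorphism `A' ⊗[A] A[X]^n ≃ A'[X]^n`. -/
noncomputable def polyPiEquiv (n : ℕ) : A' ⊗[A] (Fin n → A[X]) ≃ₗ[A'] (Fin n → A'[X]) :=
  (TensorProduct.piRight A A' A' (fun _ : Fin n => A[X])) ≪≫ₗ
    LinearEquiv.piCongrRight (fun _ => (polyEquivTensor' A A').symm.toLinearEquiv)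

theorem polyPiEquiv_tmul (n : ℕ) (a : A') (w : Fin n → A[X]) (i : Fin n) :
    polyPiEquiv A' n (a ⊗ₜ w) i = a • (w i).map (algebraMap A A') := rfl

/-- Multiplication by `X` on `R[X]^n`, as an `R`-linear endomorphism. -/
noncomputable def mulXPi (R : Type*) [CommRing R] (n : ℕ) : Module.End R (Fin n → R[X]) :=
  Algebra.lsmul R R (Fin n → R[X]) (X : R[X])

@[simp] theorem mulXPi_apply (R : Type*) [CommRing R] (n : ℕ) (w : Fin n → R[X]) :
    mulXPi R n w = (X : R[X]) • w := rfl

theorem polyPiEquiv_mulX (n : ℕ) (t : A' ⊗[A] (Fin n → A[X])) :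
    polyPiEquiv A' n ((mulXPi A n).baseChange A' t) = (X : A'[X]) • polyPiEquiv A' n t := by
  induction t using TensorProduct.induction_on with
  | zero => simp
  | tmul a w =>
    ext1 i
    rw [LinearMap.baseChange_tmul, polyPiEquiv_tmul, Pi.smul_apply, polyPiEquiv_tmul,
      mulXPi_apply, Pi.smul_apply, smul_eq_mul, smul_eq_mul, Polynomial.map_mul,
      Polynomial.map_X, mul_smul_comm]
  | add x y hx hy => simp only [map_add, hx, hy, smul_add]

theorem polyPiEquiv_symm_mulX (n : ℕ) (w : Fin n → A'[X]) :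
    (polyPiEquiv A' n).symm ((X : A'[X]) • w) =
      (mulXPi A n).baseChange A' ((polyPiEquiv A' n).symm w) := by
  apply (polyPiEquiv A' n).injective
  rw [LinearEquiv.apply_symm_apply, polyPiEquiv_mulX, LinearEquiv.apply_symm_apply]

end PolyPi

/-! ### K5a -/

section K5a

variable (A' : Type w) [CommRing A'] [Algebra A A']

/-- K5a. `IsFGProj` is stable under base change. -/
theorem isFGProj_baseChange {N : Type v} [AddCommGroup N] [Module A N] {E : Module.End A N}
    (h : IsFGProj E) : IsFGProj (E.baseChange A') := by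
  obtain ⟨n, ι, π, hπι, hι, hπ⟩ := h
  have hι' : ι ∘ₗ E = mulXPi A n ∘ₗ ι := LinearMap.ext fun v => hι v
  have hπ' : π ∘ₗ mulXPi A n = E ∘ₗ π := LinearMap.ext fun w => hπ w
  refine ⟨n, (polyPiEquiv A' n).toLinearMap ∘ₗ ι.baseChange A',
    π.baseChange A' ∘ₗ (polyPiEquiv A' n).symm.toLinearMap, ?_, ?_, ?_⟩
  · refine LinearMap.ext fun t => ?_
    simp only [LinearMap.coe_comp, LinearEquiv.coe_coe, Function.comp_apply,
      LinearEquiv.symm_apply_apply, LinearMap.id_coe, id_eq]
    rw [← LinearMap.comp_apply, ← LinearMap.baseChange_comp, hπι, LinearMap.baseChange_id,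
      LinearMap.id_apply]
  · intro t
    simp only [LinearMap.coe_comp, LinearEquiv.coe_coe, Function.comp_apply]
    rw [← LinearMap.comp_apply (ι.baseChange A'), ← LinearMap.baseChange_comp, hι',
      LinearMap.baseChange_comp, LinearMap.comp_apply, polyPiEquiv_mulX]
  · intro w
    simp only [LinearMap.coe_comp, LinearEquiv.coe_coe, Function.comp_apply]
    rw [polyPiEquiv_symm_mulX, ← LinearMap.comp_apply (π.baseChange A'),
      ← LinearMap.baseChange_comp, hπ', LinearMap.baseChange_comp, LinearMap.comp_apply]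

end K5a

/-! ### K5c -/

section K5c

variable {N0 N1 N01 : Type v}
  [AddCommGroup N0] [AddCommGroup N1] [AddCommGroup N01]
  [Module A N0] [Module A N1] [Module A N01]

variable (A' : Type w) [CommRing A'] [Algebra A A']

theorem baseChange_pow {N : Type v} [AddCommGroup N] [Module A N] (E : Module.End A N) (k : ℕ) :
    (E.baseChange A') ^ k = (E ^ k).baseChange A' := by
  induction k with
  | zero => simp [Module.End.one_eq_id]
  | succ k ih => rw [pow_succ, ih, pow_succ, LinearMap.baseChange_mul]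

/-- K5c. The twisted differential of the base change is the base change of the twisted
differential (up to the canonical iso `A' ⊗ (N0 × N1) ≃ (A' ⊗ N0) × (A' ⊗ N1)`). -/
theorem baseChange_d (D : CechOps A N0 N1 N01) (m : ℕ) :
    (D.baseChange A').d m ∘ₗ
        ((TensorProduct.prodRight A A' A' N0 N1).toLinearMap) = (D.d m).baseChange A' := by
  refine LinearMap.ext fun t => ?_
  induction t using TensorProduct.induction_on with
  | zero => simp
  | tmul a p =>
    obtain ⟨x, y⟩ := p
    simp only [LinearMap.coe_comp, LinearEquiv.coe_coe, Function.comp_apply,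
      TensorProduct.prodRight_tmul, CechOps.d_apply, LinearMap.baseChange_tmul]
    show (D.r0.baseChange A') (a ⊗ₜ[A] x) -
      ((D.T.baseChange A') ^ m) ((D.r1.baseChange A') (a ⊗ₜ[A] y)) = _
    rw [baseChange_pow, LinearMap.baseChange_tmul, LinearMap.baseChange_tmul,
      LinearMap.baseChange_tmul, TensorProduct.tmul_sub]
  | add x y hx hy => simp only [map_add, hx, hy]

end K5c

/-! ### The universal property of `N' = N[1/X]`, by hand -/

section Lift

variable {N : Type*} {N' : Type*} {M : Type*} [AddCommGroup N] [Module A N] [AddCommGroup N']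
  [Module A N'] [AddCommGroup M] [Module A M]

theorem end_pow_pow_apply {M : Type*} [AddCommGroup M] [Module A M] {S Sinv : Module.End A M}
    (hS' : Sinv * S = 1) (k : ℕ) (y : M) : (Sinv ^ k) ((S ^ k) y) = y := by
  induction k generalizing y with
  | zero => simp
  | succ k ih =>
    rw [pow_succ, pow_succ', Module.End.mul_apply, Module.End.mul_apply,
      ← Module.End.mul_apply Sinv S, hS', Module.End.one_apply, ih]

theorem end_pow_add_pow_apply {M : Type*} [AddCommGroup M] [Module A M] {S Sinv : Module.End A M}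
    (hS' : Sinv * S = 1) (a b : ℕ) (y : M) : (Sinv ^ (a + b)) ((S ^ b) y) = (Sinv ^ a) y := by
  rw [pow_add, Module.End.mul_apply, end_pow_pow_apply hS']

/-- The universal property of the localisation `N' = N[1/X]`, by hand: an `X`-equivariant map
from `N` to a module on which the operator is invertible extends uniquely to `N'`. -/
theorem exists_lift_of_loc
    (X : Module.End A N) (T Tinv : Module.End A N') (r : N →ₗ[A] N')
    (hT : T * Tinv = 1) (hr : ∀ n, r (X n) = T (r n))
    (hloc : ∀ z, ∃ (k : ℕ) (n : N), (T ^ k) z = r n) (hinj : Function.Injective r)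
    (S Sinv : Module.End A M) (hS : S * Sinv = 1) (hS' : Sinv * S = 1)
    (f : N →ₗ[A] M) (hf : ∀ n, f (X n) = S (f n)) :
    ∃ g : N' →ₗ[A] M, (∀ n, g (r n) = f n) ∧ (∀ z, g (T z) = S (g z)) ∧
      (∀ z, g (Tinv z) = Sinv (g z)) ∧
      ∀ z k n, (T ^ k) z = r n → g z = (Sinv ^ k) (f n) := by
  classical
  have hrpow : ∀ (k : ℕ) (n : N), r ((X ^ k) n) = (T ^ k) (r n) := by
    intro k
    induction k with
    | zero => intro n; simp
    | succ k ih =>
      intro n
      rw [pow_succ', Module.End.mul_apply, hr, ih, pow_succ', Module.End.mul_apply]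
  have hfpow : ∀ (k : ℕ) (n : N), f ((X ^ k) n) = (S ^ k) (f n) := by
    intro k
    induction k with
    | zero => intro n; simp
    | succ k ih =>
      intro n
      rw [pow_succ', Module.End.mul_apply, hf, ih, pow_succ', Module.End.mul_apply]
  have hcomm : Commute S Sinv := by
    show S * Sinv = Sinv * S
    rw [hS, hS']
  have key : ∀ (z : N') (k l : ℕ) (n n' : N), (T ^ k) z = r n → (T ^ l) z = r n' →
      (Sinv ^ k) (f n) = (Sinv ^ l) (f n') := by
    intro z k l n n' h1 h2
    have e : (X ^ l) n = (X ^ k) n' := by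
      apply hinj
      rw [hrpow, hrpow, ← h1, ← h2, ← Module.End.mul_apply, ← Module.End.mul_apply, ← pow_add,
        ← pow_add, add_comm]
    calc (Sinv ^ k) (f n) = (Sinv ^ (k + l)) ((S ^ l) (f n)) := by
          rw [end_pow_add_pow_apply hS']
      _ = (Sinv ^ (l + k)) ((S ^ k) (f n')) := by
          rw [← hfpow, e, hfpow, add_comm]
      _ = (Sinv ^ l) (f n') := by rw [end_pow_add_pow_apply hS']
  choose kf nf hkn using hloc
  have hg0 : ∀ (z : N') (k : ℕ) (n : N), (T ^ k) z = r n →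
      (Sinv ^ (kf z)) (f (nf z)) = (Sinv ^ k) (f n) :=
    fun z k n h => key z _ _ _ _ (hkn z) h
  have hadd : ∀ z1 z2 : N', (Sinv ^ (kf (z1 + z2))) (f (nf (z1 + z2))) =
      (Sinv ^ (kf z1)) (f (nf z1)) + (Sinv ^ (kf z2)) (f (nf z2)) := by
    intro z1 z2
    have h : (T ^ (kf z1 + kf z2)) (z1 + z2) =
        r ((X ^ kf z2) (nf z1) + (X ^ kf z1) (nf z2)) := by
      rw [map_add, map_add, hrpow, hrpow, ← hkn z1, ← hkn z2, ← Module.End.mul_apply,
        ← Module.End.mul_apply, ← pow_add, ← pow_add, add_comm (kf z2) (kf z1)]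
    rw [hg0 _ _ _ h, map_add, map_add, hfpow, hfpow, end_pow_add_pow_apply hS',
      add_comm (kf z1) (kf z2), end_pow_add_pow_apply hS']
  have hsmul : ∀ (a : A) (z : N'), (Sinv ^ (kf (a • z))) (f (nf (a • z))) =
      a • (Sinv ^ (kf z)) (f (nf z)) := by
    intro a z
    have h : (T ^ kf z) (a • z) = r (a • nf z) := by
      rw [map_smul, map_smul, hkn z]
    rw [hg0 _ _ _ h, map_smul, map_smul]
  refine ⟨{ toFun := fun z => (Sinv ^ (kf z)) (f (nf z))
            map_add' := hadd
            map_smul' := hsmul }, ?_, ?_, ?_, ?_⟩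
  · intro n
    show (Sinv ^ (kf (r n))) (f (nf (r n))) = f n
    rw [hg0 (r n) 0 n (by simp)]
    simp
  · intro z
    show (Sinv ^ (kf (T z))) (f (nf (T z))) = S ((Sinv ^ (kf z)) (f (nf z)))
    have h : (T ^ kf z) (T z) = r (X (nf z)) := by
      rw [hr, ← hkn z, ← Module.End.mul_apply, ← Module.End.mul_apply, ← pow_succ, ← pow_succ']
    rw [hg0 _ _ _ h, hf, ← Module.End.mul_apply, ← Module.End.mul_apply,
      (hcomm.pow_right (kf z)).eq]
  · intro z
    show (Sinv ^ (kf (Tinv z))) (f (nf (Tinv z))) = Sinv ((Sinv ^ (kf z)) (f (nf z)))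
    have h : (T ^ (kf z + 1)) (Tinv z) = r (nf z) := by
      rw [pow_succ, Module.End.mul_apply, ← Module.End.mul_apply T Tinv, hT,
        Module.End.one_apply, hkn z]
    rw [hg0 _ _ _ h, pow_succ', Module.End.mul_apply]
  · intro z k n h
    exact hg0 z k n h

end Lift

/-! ### Laurent polynomials: the model localisation `A[X]^n → A[T;T⁻¹]^n` -/

section Laurent

open scoped LaurentPolynomial

variable (A) (R : Type*) [CommRing R] [Algebra A R] (n : ℕ)

/-- Multiplication by `T` on `R[T;T⁻¹]^n`, as an `A`-linear endomorphism. -/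
noncomputable def mulTPi : Module.End A (Fin n → R[T;T⁻¹]) :=
  Algebra.lsmul A A (Fin n → R[T;T⁻¹]) (LaurentPolynomial.T 1 : R[T;T⁻¹])

/-- Multiplication by `T⁻¹` on `R[T;T⁻¹]^n`, as an `A`-linear endomorphism. -/
noncomputable def mulTinvPi : Module.End A (Fin n → R[T;T⁻¹]) :=
  Algebra.lsmul A A (Fin n → R[T;T⁻¹]) (LaurentPolynomial.T (-1) : R[T;T⁻¹])

theorem mulTPi_apply (z : Fin n → R[T;T⁻¹]) :
    mulTPi A R n z = (LaurentPolynomial.T 1 : R[T;T⁻¹]) • z := rfl

theorem mulTinvPi_apply (z : Fin n → R[T;T⁻¹]) :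
    mulTinvPi A R n z = (LaurentPolynomial.T (-1) : R[T;T⁻¹]) • z := rfl

theorem mulTPi_mul_mulTinvPi : mulTPi A R n * mulTinvPi A R n = 1 := by
  rw [mulTPi, mulTinvPi, ← map_mul, ← LaurentPolynomial.T_add]
  simp

theorem mulTinvPi_mul_mulTPi : mulTinvPi A R n * mulTPi A R n = 1 := by
  rw [mulTPi, mulTinvPi, ← map_mul, ← LaurentPolynomial.T_add]
  simp

theorem mulTPi_pow_apply (k : ℕ) (z : Fin n → R[T;T⁻¹]) :
    (mulTPi A R n ^ k) z = (LaurentPolynomial.T (k : ℤ) : R[T;T⁻¹]) • z := by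
  rw [mulTPi, ← map_pow, LaurentPolynomial.T_pow, mul_one]
  rfl

/-- The inclusion `R[X]^n → R[T;T⁻¹]^n`, as an `A`-linear map. -/
noncomputable def toLaurentPi : (Fin n → R[X]) →ₗ[A] (Fin n → R[T;T⁻¹]) :=
  ((Polynomial.toLaurentAlg (R := R)).toLinearMap.restrictScalars A).compLeft (Fin n)

theorem toLaurentPi_apply (w : Fin n → R[X]) (i : Fin n) :
    toLaurentPi A R n w i = Polynomial.toLaurent (w i) := rfl

theorem toLaurentPi_injective : Function.Injective (toLaurentPi A R n) := by
  intro w w' h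
  funext i
  apply Polynomial.toLaurent_injective
  rw [← toLaurentPi_apply A R n w i, h, toLaurentPi_apply]

theorem toLaurentPi_X_smul (w : Fin n → R[X]) :
    toLaurentPi A R n ((X : R[X]) • w) = mulTPi A R n (toLaurentPi A R n w) := by
  funext i
  rw [mulTPi_apply, Pi.smul_apply, toLaurentPi_apply, toLaurentPi_apply, Pi.smul_apply,
    smul_eq_mul, smul_eq_mul, map_mul, Polynomial.toLaurent_X]

theorem exists_mulTPi_pow_eq (z : Fin n → R[T;T⁻¹]) :
    ∃ (k : ℕ) (w : Fin n → R[X]), (mulTPi A R n ^ k) z = toLaurentPi A R n w := by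
  choose kf wf h using fun i => LaurentPolynomial.exists_T_pow (z i)
  refine ⟨∑ i, kf i, fun i => X ^ (∑ j, kf j - kf i) * wf i, ?_⟩
  funext i
  have hle : kf i ≤ ∑ j, kf j := Finset.single_le_sum (f := kf) (fun _ _ => Nat.zero_le _)
    (Finset.mem_univ i)
  rw [mulTPi_pow_apply, Pi.smul_apply, toLaurentPi_apply, map_mul, h i,
    Polynomial.toLaurent_X_pow, smul_eq_mul, mul_comm (z i), ← mul_assoc,
    ← LaurentPolynomial.T_add]
  congr 2
  push_cast [Nat.cast_sub hle]
  ring

end Laurent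

/-! ### K5b and K1b -/

section K5b

open scoped LaurentPolynomial

variable {N0 N1 N01 : Type v}
  [AddCommGroup N0] [AddCommGroup N1] [AddCommGroup N01]
  [Module A N0] [Module A N1] [Module A N01]

/-- `N01` is a `T`-equivariant retract of `A[T;T⁻¹]^n`, compatibly with the retraction of `N0`. -/
theorem exists_retract_N01 (D : CechOps A N0 N1 N01) (h0 : IsFGProj D.X0)
    (hr0 : Function.Injective D.r0) :
    ∃ (n : ℕ) (ι : N01 →ₗ[A] (Fin n → A[T;T⁻¹])) (π : (Fin n → A[T;T⁻¹]) →ₗ[A] N01),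
      π ∘ₗ ι = LinearMap.id ∧ (∀ z, ι (D.T z) = mulTPi A A n (ι z)) ∧
        (∀ y, π (mulTPi A A n y) = D.T (π y)) := by
  obtain ⟨n, ι0, π0, hπι, hι, hπ⟩ := h0
  obtain ⟨ι, hι1, hι2, -, hι4⟩ := exists_lift_of_loc D.X0 D.T D.Tinv D.r0 D.T_mul_Tinv D.r0_X0
    D.loc0 hr0 (mulTPi A A n) (mulTinvPi A A n) (mulTPi_mul_mulTinvPi A A n)
    (mulTinvPi_mul_mulTPi A A n) (toLaurentPi A A n ∘ₗ ι0)
    (fun v => by
      rw [LinearMap.comp_apply, hι, toLaurentPi_X_smul, LinearMap.comp_apply])
  obtain ⟨π, hπ1, hπ2, hπ3, -⟩ := exists_lift_of_loc (mulXPi A n) (mulTPi A A n)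
    (mulTinvPi A A n) (toLaurentPi A A n) (mulTPi_mul_mulTinvPi A A n)
    (fun w => toLaurentPi_X_smul A A n w) (exists_mulTPi_pow_eq A A n)
    (toLaurentPi_injective A A n) D.T D.Tinv D.T_mul_Tinv D.Tinv_mul_T (D.r0 ∘ₗ π0)
    (fun w => by
      rw [LinearMap.comp_apply, mulXPi_apply, hπ, D.r0_X0, LinearMap.comp_apply])
  have hπpow : ∀ (k : ℕ) (y : Fin n → A[T;T⁻¹]),
      π ((mulTinvPi A A n ^ k) y) = (D.Tinv ^ k) (π y) := by
    intro k
    induction k with
    | zero => intro y; simp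
    | succ k ih =>
      intro y
      rw [pow_succ', Module.End.mul_apply, hπ3, ih, pow_succ', Module.End.mul_apply]
  refine ⟨n, ι, π, ?_, hι2, hπ2⟩
  refine LinearMap.ext fun z => ?_
  obtain ⟨k, v, hkv⟩ := D.loc0 z
  rw [LinearMap.comp_apply, hι4 z k v hkv, hπpow, LinearMap.comp_apply, hπ1,
    LinearMap.comp_apply, LinearMap.id_apply]
  have : π0 (ι0 v) = v := by
    rw [← LinearMap.comp_apply, hπι, LinearMap.id_apply]
  rw [this, ← hkv, D.Tinv_pow_T_pow_apply]

/-- K1b. `N01` is projective over `A` (retract of `A[T;T⁻¹]^n`). -/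
theorem projective_N01 (D : CechOps A N0 N1 N01) (h0 : IsFGProj D.X0)
    (hr0 : Function.Injective D.r0) : Module.Projective A N01 := by
  obtain ⟨n, ι, π, hπι, -, -⟩ := exists_retract_N01 D h0 hr0
  exact Module.Projective.of_split ι π hπι

variable (A' : Type w) [CommRing A'] [Algebra A A']

/-- K5b. Injectivity of the restriction map is stable under base change. -/
theorem r0_baseChange_injective (D : CechOps A N0 N1 N01) (h0 : IsFGProj D.X0)
    (hr0 : Function.Injective D.r0) : Function.Injective (D.r0.baseChange A') := by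
  obtain ⟨n, ι, π, hπι, hι, hπ⟩ := isFGProj_baseChange A' h0
  -- the `A'`-linear embedding `j : A' ⊗ N0 → A'[T;T⁻¹]^n`
  have hιinj : Function.Injective ι := by
    intro x y hxy
    have := congrArg π hxy
    rwa [← LinearMap.comp_apply, ← LinearMap.comp_apply, hπι] at this
  let f : N0 →ₗ[A] (Fin n → A'[T;T⁻¹]) :=
    toLaurentPi A A' n ∘ₗ ι.restrictScalars A ∘ₗ (TensorProduct.mk A A' N0 1)
  have hf : ∀ v, f (D.X0 v) = mulTPi A A' n (f v) := by
    intro v
    show toLaurentPi A A' n (ι ((1 : A') ⊗ₜ[A] D.X0 v)) =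
      mulTPi A A' n (toLaurentPi A A' n (ι ((1 : A') ⊗ₜ[A] v)))
    rw [← toLaurentPi_X_smul, ← hι, LinearMap.baseChange_tmul]
  obtain ⟨g, hg, -, -, -⟩ := exists_lift_of_loc D.X0 D.T D.Tinv D.r0 D.T_mul_Tinv D.r0_X0
    D.loc0 hr0 (mulTPi A A' n) (mulTinvPi A A' n) (mulTPi_mul_mulTinvPi A A' n)
    (mulTinvPi_mul_mulTPi A A' n) f hf
  have hcomp : ∀ t : A' ⊗[A] N0,
      LinearMap.liftBaseChange A' g (D.r0.baseChange A' t) = toLaurentPi A' A' n (ι t) := by
    intro t
    induction t using TensorProduct.induction_on with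
    | zero => simp
    | tmul a v =>
      rw [LinearMap.baseChange_tmul, LinearMap.liftBaseChange_tmul, hg]
      show a • toLaurentPi A' A' n (ι ((1 : A') ⊗ₜ[A] v)) = _
      rw [← map_smul, ← map_smul, TensorProduct.smul_tmul', smul_eq_mul, mul_one]
    | add x y hx hy => simp only [map_add, hx, hy]
  intro x y hxy
  apply hιinj
  apply toLaurentPi_injective A' A' n
  rw [← hcomp, ← hcomp, hxy]

end K5b

/-! ### K5d -/

section K5d

variable {N0 N1 N01 : Type v}
  [AddCommGroup N0] [AddCommGroup N1] [AddCommGroup N01]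
  [Module A N0] [Module A N1] [Module A N01]

/-- A surjective twisted differential has an `A`-linear section. -/
theorem exists_section_d (D : CechOps A N0 N1 N01) (h0 : IsFGProj D.X0)
    (hr0 : Function.Injective D.r0) (m : ℕ) (hsurj : Function.Surjective (D.d m)) :
    ∃ s : N01 →ₗ[A] N0 × N1, D.d m ∘ₗ s = LinearMap.id := by
  have := projective_N01 D h0 hr0
  exact Module.projective_lifting_property (D.d m) LinearMap.id hsurj

/-- The kernel of a split surjection commutes with every base change. -/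
theorem ker_baseChange_of_section {M : Type*} {P : Type*} [AddCommGroup M] [Module A M]
    [AddCommGroup P] [Module A P] (A' : Type w) [CommRing A'] [Algebra A A']
    (f : M →ₗ[A] P) (s : P →ₗ[A] M) (hs : f ∘ₗ s = LinearMap.id) :
    Function.Injective ((LinearMap.ker f).subtype.baseChange A') ∧
      LinearMap.range ((LinearMap.ker f).subtype.baseChange A') =
        LinearMap.ker (f.baseChange A') := by
  -- the retraction of `M` onto `ker f`
  let p : M →ₗ[A] LinearMap.ker f :=
    LinearMap.codRestrict (LinearMap.ker f) (LinearMap.id - s ∘ₗ f) (fun x => by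
      rw [LinearMap.mem_ker, LinearMap.sub_apply, map_sub, LinearMap.id_apply,
        LinearMap.comp_apply, ← LinearMap.comp_apply f s, hs, LinearMap.id_apply, sub_self])
  have hp1 : p ∘ₗ (LinearMap.ker f).subtype = LinearMap.id := by
    refine LinearMap.ext fun x => Subtype.ext ?_
    show (x : M) - s (f x) = x
    rw [LinearMap.mem_ker.mp x.2, map_zero, sub_zero]
  have hp2 : (LinearMap.ker f).subtype ∘ₗ p + s ∘ₗ f = LinearMap.id := by
    refine LinearMap.ext fun x => ?_
    show (x - s (f x)) + s (f x) = x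
    rw [sub_add_cancel]
  have hz : f ∘ₗ (LinearMap.ker f).subtype = 0 := by
    refine LinearMap.ext fun x => ?_
    exact LinearMap.mem_ker.mp x.2
  refine ⟨?_, le_antisymm ?_ ?_⟩
  · intro x y hxy
    have := congrArg (p.baseChange A') hxy
    rwa [← LinearMap.comp_apply, ← LinearMap.comp_apply, ← LinearMap.baseChange_comp, hp1,
      LinearMap.baseChange_id] at this
  · rintro _ ⟨t, rfl⟩
    rw [LinearMap.mem_ker, ← LinearMap.comp_apply, ← LinearMap.baseChange_comp, hz,
      LinearMap.baseChange_zero, LinearMap.zero_apply]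
  · intro x hx
    rw [LinearMap.mem_ker] at hx
    refine ⟨p.baseChange A' x, ?_⟩
    have h1 := congrArg (fun φ : M →ₗ[A] M => φ.baseChange A' x) hp2
    simp only [LinearMap.baseChange_add, LinearMap.baseChange_comp, LinearMap.add_apply,
      LinearMap.comp_apply, LinearMap.baseChange_id, LinearMap.id_apply, hx, map_zero,
      add_zero] at h1
    exact h1

variable (A' : Type w) [CommRing A'] [Algebra A A']

/-- K5d. If `d m` is surjective, `H⁰` commutes with base change:
`A' ⊗ ker (d m) → ker (A' ⊗ d m)` is bijective. -/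
theorem H0_baseChange_bijective (D : CechOps A N0 N1 N01)
    (h0 : IsFGProj D.X0) (hr0 : Function.Injective D.r0) (m : ℕ)
    (hsurj : Function.Surjective (D.d m)) :
    Function.Injective ((D.H0 m).subtype.baseChange A') ∧
      LinearMap.range ((D.H0 m).subtype.baseChange A') =
        LinearMap.ker ((D.d m).baseChange A') := by
  obtain ⟨s, hs⟩ := exists_section_d D h0 hr0 m hsurj
  exact ker_baseChange_of_section A' (D.d m) s hs

end K5d

end Fermat.Agent.S25.H370

end
-- ===== PACK-END S25/H370/CechK5.lean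

-- ===== PACK-BEGIN S25/H550/CechK2.lean
section


/-!
# S25 / block CECH / leaf K2: twisting kills `H¹`

In the operator language of `Fermat.Agent.S25.H10.CechDefs`:

* `H1_finite` (K2a): if `N0` is finitely generated over `A[X]` (`IsFG D.X0`), then every twisted
  Čech `H¹(L(m∞)) = N01 ⧸ range (d m)` is a finitely generated `A`-module;
* `exists_forall_d_surjective` (K2): for `m` large the twisted differential `d m` is surjective;
* `exists_finset_span_sup_range_d_eq_top` : the uniform statement behind both: there is `m0`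
  such that for every `m` the module `N01` is spanned by `range (d m)` and the finitely many
  elements `T⁻ˡ (r0 e)`, `e` in a fixed finite set, `l < m0 - m`.
-/

set_option autoImplicit false

namespace Fermat.Agent.S25.H550

open Fermat.Agent.S25.H10 Submodule

universe u v

variable {A : Type u} [CommRing A] {N0 N1 N01 : Type v}
  [AddCommGroup N0] [AddCommGroup N1] [AddCommGroup N01]
  [Module A N0] [Module A N1] [Module A N01]

/-- `range (d m) = range r0 ⊔ range (T ^ m ∘ r1)`. -/
theorem range_d_eq (D : CechOps A N0 N1 N01) (m : ℕ) :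
    LinearMap.range (D.d m) = LinearMap.range D.r0 ⊔ LinearMap.range ((D.T ^ m) ∘ₗ D.r1) := by
  unfold CechOps.d
  rw [LinearMap.range_coprod, LinearMap.range_neg]

theorem r0_mem_range_d (D : CechOps A N0 N1 N01) (m : ℕ) (n : N0) :
    D.r0 n ∈ LinearMap.range (D.d m) :=
  ⟨(n, 0), by simp⟩

theorem T_pow_r1_mem_range_d (D : CechOps A N0 N1 N01) (m : ℕ) (n : N1) :
    (D.T ^ m) (D.r1 n) ∈ LinearMap.range (D.d m) :=
  ⟨(0, -n), by simp⟩

/-- `Tinv ^ j (T ^ (j + i) z) = T ^ i z`. -/
theorem Tinv_pow_T_pow_add (D : CechOps A N0 N1 N01) (j i : ℕ) (z : N01) :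
    (D.Tinv ^ j) ((D.T ^ (j + i)) z) = (D.T ^ i) z := by
  rw [pow_add, Module.End.mul_apply, D.Tinv_pow_T_pow_apply]

/-- `T ^ j (Tinv ^ (j + i) z) = Tinv ^ i z`. -/
theorem T_pow_Tinv_pow_add (D : CechOps A N0 N1 N01) (j i : ℕ) (z : N01) :
    (D.T ^ j) ((D.Tinv ^ (j + i)) z) = (D.Tinv ^ i) z := by
  rw [pow_add, Module.End.mul_apply, D.T_pow_Tinv_pow_apply]

/-- `Tinv ^ (i + l) (T ^ i z) = Tinv ^ l z`. -/
theorem Tinv_pow_add_T_pow (D : CechOps A N0 N1 N01) (i l : ℕ) (z : N01) :
    (D.Tinv ^ (i + l)) ((D.T ^ i) z) = (D.Tinv ^ l) z := by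
  rw [add_comm, pow_add, Module.End.mul_apply, D.Tinv_pow_T_pow_apply]

/-- If `Tinv ^ k z ∈ range r1` and `k ≤ m + j`, then `Tinv ^ j z ∈ range (d m)`. -/
theorem Tinv_pow_mem_range_d (D : CechOps A N0 N1 N01) {z : N01} {k : ℕ} {n : N1}
    (hk : (D.Tinv ^ k) z = D.r1 n) {m j : ℕ} (hkm : k ≤ m + j) :
    (D.Tinv ^ j) z ∈ LinearMap.range (D.d m) := by
  obtain ⟨i, hi⟩ := Nat.exists_eq_add_of_le hkm
  -- `Tinv ^ (m + j) z = Tinv ^ i (Tinv ^ k z) = r1 (Y1 ^ i n)`
  have h1 : (D.Tinv ^ (m + j)) z = D.r1 ((D.Y1 ^ i) n) := by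
    rw [D.r1_Y1_pow, ← hk, ← Module.End.mul_apply, ← pow_add, hi, add_comm]
  have h2 : (D.Tinv ^ j) z = (D.T ^ m) (D.r1 ((D.Y1 ^ i) n)) := by
    rw [← h1, T_pow_Tinv_pow_add]
  rw [h2]
  exact T_pow_r1_mem_range_d D m _

/-- The uniform statement behind K2: there is `m0` such that for every `m` there is a finite
set `G` (empty as soon as `m0 ≤ m`) which together with `range (d m)` spans `N01`. -/
theorem exists_finset_span_sup_range_d_eq_top (D : CechOps A N0 N1 N01) (h0 : IsFG D.X0) :
    ∃ m0 : ℕ, ∀ m : ℕ, ∃ G : Finset N01, (m0 ≤ m → G = ∅) ∧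
      span A (G : Set N01) ⊔ LinearMap.range (D.d m) = ⊤ := by
  classical
  obtain ⟨S0, hS0⟩ := h0
  have hch : ∀ s : N0, ∃ (k : ℕ) (n : N1), (D.Tinv ^ k) (D.r0 s) = D.r1 n :=
    fun s => D.loc1 (D.r0 s)
  choose ks ns hks using hch
  refine ⟨S0.sup ks, fun m => ?_⟩
  set G : Finset N01 :=
    (S0 ×ˢ Finset.range (S0.sup ks - m)).image (fun q => (D.Tinv ^ q.2) (D.r0 q.1)) with hG
  refine ⟨G, fun hm => ?_, ?_⟩
  · rw [hG, Nat.sub_eq_zero_of_le hm, Finset.range_zero, Finset.product_empty,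
      Finset.image_empty]
  set P : Submodule A N01 := span A (G : Set N01) ⊔ LinearMap.range (D.d m) with hP
  have key : ∀ e ∈ S0, ∀ i j : ℕ, (D.Tinv ^ j) ((D.T ^ i) (D.r0 e)) ∈ P := by
    intro e he i j
    rcases le_or_gt j i with hji | hji
    · obtain ⟨l, rfl⟩ := Nat.exists_eq_add_of_le hji
      rw [Tinv_pow_T_pow_add, ← D.r0_X0_pow]
      exact mem_sup_right (r0_mem_range_d D m _)
    · obtain ⟨l, rfl⟩ := Nat.exists_eq_add_of_le hji.le
      rw [Tinv_pow_add_T_pow]
      by_cases hl : l < S0.sup ks - m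
      · refine mem_sup_left (subset_span ?_)
        simp only [hG, Finset.coe_image, Set.mem_image, Finset.mem_coe, Finset.mem_product,
          Finset.mem_range]
        exact ⟨(e, l), ⟨he, hl⟩, rfl⟩
      · have hke : ks e ≤ m + l := by
          have := Finset.le_sup (f := ks) he
          omega
        exact mem_sup_right (Tinv_pow_mem_range_d D (hks e) hke)
  have gen : ∀ (k : ℕ) (n : N0), (D.Tinv ^ k) (D.r0 n) ∈ P := by
    intro k n
    have hn := hS0 n
    induction hn using Submodule.span_induction with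
    | mem n hn =>
      obtain ⟨e, he, i, rfl⟩ := hn
      rw [D.r0_X0_pow]
      exact key e he i k
    | zero => simp
    | add a b _ _ ha hb =>
      rw [map_add, map_add]
      exact add_mem ha hb
    | smul c a _ ha =>
      rw [map_smul, map_smul]
      exact smul_mem _ c ha
  rw [eq_top_iff]
  intro z _
  obtain ⟨k, n, hz⟩ := D.loc0 z
  have hz' : z = (D.Tinv ^ k) (D.r0 n) := by
    rw [← hz, D.Tinv_pow_T_pow_apply]
  rw [hz']
  exact gen k n

/-- **K2a** (= E1 in operator language). Every twisted Čech `H¹` is a finitely generated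
`A`-module. -/
theorem H1_finite (D : CechOps A N0 N1 N01) (h0 : IsFG D.X0) (m : ℕ) :
    Module.Finite A (D.H1 m) := by
  classical
  obtain ⟨m0, hm0⟩ := exists_finset_span_sup_range_d_eq_top D h0
  obtain ⟨G, -, htop⟩ := hm0 m
  refine ⟨⟨G.image (mkQ (LinearMap.range (D.d m))), ?_⟩⟩
  rw [Finset.coe_image, ← Submodule.map_span, eq_top_iff]
  rintro y -
  obtain ⟨z, rfl⟩ := mkQ_surjective (LinearMap.range (D.d m)) y
  have hzmem : z ∈ span A (G : Set N01) ⊔ LinearMap.range (D.d m) := by rw [htop]; trivial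
  obtain ⟨g, hg, q, hq, rfl⟩ := mem_sup.mp hzmem
  refine ⟨g, hg, ?_⟩
  rw [map_add, Submodule.mkQ_apply _ q, (Submodule.Quotient.mk_eq_zero _).mpr hq, add_zero]

/-- **K2.** For `m` large the twisted differential is surjective. -/
theorem exists_forall_d_surjective (D : CechOps A N0 N1 N01) (h0 : IsFG D.X0) :
    ∃ m0 : ℕ, ∀ m, m0 ≤ m → Function.Surjective (D.d m) := by
  obtain ⟨m0, hm0⟩ := exists_finset_span_sup_range_d_eq_top D h0
  refine ⟨m0, fun m hm => ?_⟩
  obtain ⟨G, hG, htop⟩ := hm0 m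
  rw [hG hm, Finset.coe_empty, span_empty, bot_sup_eq] at htop
  exact LinearMap.range_eq_top.mp htop

/-- Variant of K2: `H¹(L(m∞)) = 0` for `m` large. -/
theorem exists_forall_subsingleton_H1 (D : CechOps A N0 N1 N01) (h0 : IsFG D.X0) :
    ∃ m0 : ℕ, ∀ m, m0 ≤ m → Subsingleton (D.H1 m) := by
  obtain ⟨m0, hm0⟩ := exists_forall_d_surjective D h0
  refine ⟨m0, fun m hm => ?_⟩
  have : LinearMap.range (D.d m) = ⊤ := LinearMap.range_eq_top.mpr (hm0 m hm)
  exact (Submodule.Quotient.subsingleton_iff).mpr (by rw [this])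

end Fermat.Agent.S25.H550

end
-- ===== PACK-END S25/H550/CechK2.lean

-- ===== PACK-BEGIN S25/H506/AlgValRing.lean
section



/-!
# S25, block ALGVAL: ring-level input for the Gauss route

For a valuation ring `V` over a field `k`, `K = Frac V` and a `k`-algebra `B`:
* `maxMap_isPrime` : `𝔪 (V ⊗[k] B)` is prime as soon as `κ ⊗[k] B` is a domain;
* `tensorMapLeft_injective`, `tensorMapLeft_loc` : `K ⊗[k] B` is the localisation of
  `V ⊗[k] B` at `V ∖ 0`;
* `isGenericLoc_of_isSemilinearBaseChange` : a semilinear base change map `N → NK` of a flat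
  module along such a ring map is a generic localisation in the sense of `ValCore`.
-/

set_option autoImplicit false
set_option linter.unusedSectionVars false
universe u
open scoped TensorProduct
open IsLocalRing

namespace Fermat.Agent.S25.H506

open Fermat.Agent.S25

section Prime

variable {k : Type u} [Field k] (V : Type u) [CommRing V] [IsLocalRing V] [Algebra k V]
  (B : Type u) [CommRing B] [Algebra k B]

/-- `𝔪 (V ⊗[k] B)` is the kernel of `V ⊗[k] B → κ ⊗[k] B`, hence prime if the latter is a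
domain. -/
theorem maxMap_isPrime [IsDomain (ResidueField V ⊗[k] B)] :
    (maxMap V (V ⊗[k] B)).IsPrime := by
  let res : V →ₐ[k] ResidueField V := IsScalarTower.toAlgHom k V (ResidueField V)
  have hres : Function.Surjective res := IsLocalRing.residue_surjective
  have hker : RingHom.ker res = maximalIdeal V := IsLocalRing.ker_residue
  have h1 := Algebra.TensorProduct.rTensor_ker (R := k) (S := k) (C := B) res hres
  have h2 : maxMap V (V ⊗[k] B) =
      RingHom.ker (Algebra.TensorProduct.map res (AlgHom.id k B)) := by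
    rw [h1, hker]
    rfl
  rw [h2]
  exact RingHom.ker_isPrime _

end Prime

section Loc

variable (k : Type u) [Field k] (V : Type u) [CommRing V] [IsDomain V] [Algebra k V]
  (K : Type u) [Field K] [Algebra V K] [IsFractionRing V K] [Algebra k K] [IsScalarTower k V K]
  (B : Type u) [CommRing B] [Algebra k B]

/-- The ring map `V ⊗[k] B → K ⊗[k] B`. -/
noncomputable abbrev genMap : V ⊗[k] B →+* K ⊗[k] B :=
  tensorMapLeft k (IsScalarTower.toAlgHom k V K) B

omit [IsDomain V] [IsFractionRing V K] in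
@[simp]
theorem genMap_tmul (v : V) (β : B) :
    genMap k V K B (v ⊗ₜ[k] β) = (algebraMap V K v) ⊗ₜ[k] β := by
  simp [genMap, tensorMapLeft]

omit [IsDomain V] [IsFractionRing V K] in
@[simp]
theorem genMap_algebraMap (v : V) :
    genMap k V K B (algebraMap V (V ⊗[k] B) v) = algebraMap K (K ⊗[k] B) (algebraMap V K v) := by
  change genMap k V K B (v ⊗ₜ[k] (1 : B)) = (algebraMap V K v) ⊗ₜ[k] (1 : B)
  exact genMap_tmul k V K B v 1

theorem genMap_injective : Function.Injective (genMap k V K B) := by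
  have h1 : Function.Injective (IsScalarTower.toAlgHom k V K).toLinearMap :=
    IsFractionRing.injective V K
  have h2 := Module.Flat.rTensor_preserves_injective_linearMap (M := B)
    (IsScalarTower.toAlgHom k V K).toLinearMap h1
  intro a b hab
  apply h2
  have : ∀ z : V ⊗[k] B, (LinearMap.rTensor B (IsScalarTower.toAlgHom k V K).toLinearMap) z =
      genMap k V K B z := by
    intro z
    induction z using TensorProduct.induction_on with
    | zero => simp
    | tmul v β => simp
    | add x y hx hy => rw [map_add, map_add, hx, hy]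
  rw [this, this, hab]

/-- Every element of `K ⊗[k] B` has a denominator in `V ∖ 0`. -/
theorem genMap_loc (s : K ⊗[k] B) :
    ∃ v : V, v ≠ 0 ∧ ∃ r : V ⊗[k] B,
      genMap k V K B (algebraMap V (V ⊗[k] B) v) * s = genMap k V K B r := by
  induction s using TensorProduct.induction_on with
  | zero => exact ⟨1, one_ne_zero, 0, by simp⟩
  | tmul c β =>
    obtain ⟨a, v, hv, rfl⟩ := IsFractionRing.div_surjective V c
    have hv0 : v ≠ 0 := nonZeroDivisors.ne_zero hv
    have hv1 : algebraMap V K v ≠ 0 := by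
      intro h0
      exact hv0 ((IsFractionRing.injective V K) (h0.trans (map_zero _).symm))
    refine ⟨v, hv0, a ⊗ₜ[k] β, ?_⟩
    rw [genMap_algebraMap, Algebra.TensorProduct.algebraMap_apply, genMap_tmul,
      Algebra.TensorProduct.tmul_mul_tmul, one_mul]
    congr 1
    simp only [Algebra.algebraMap_self, RingHom.id_apply]
    field_simp
  | add x y hx hy =>
    obtain ⟨v, hv, r, hr⟩ := hx
    obtain ⟨v', hv', r', hr'⟩ := hy
    refine ⟨v * v', mul_ne_zero hv hv', algebraMap V _ v' * r + algebraMap V _ v * r', ?_⟩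
    calc genMap k V K B (algebraMap V (V ⊗[k] B) (v * v')) * (x + y)
        = genMap k V K B (algebraMap V (V ⊗[k] B) v') *
            (genMap k V K B (algebraMap V (V ⊗[k] B) v) * x) +
          genMap k V K B (algebraMap V (V ⊗[k] B) v) *
            (genMap k V K B (algebraMap V (V ⊗[k] B) v') * y) := by
          rw [map_mul, map_mul]; ring
      _ = _ := by rw [hr, hr', map_add, map_mul, map_mul]

end Loc

section Module

variable {V : Type u} [CommRing V] {R R' : Type u} [CommRing R] [CommRing R'] [Algebra V R]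
  (ρ : R →+* R')

/-- A semilinear base change map of a flat module along an injective ring map which is a
localisation at `V ∖ 0` is a generic localisation. -/
theorem isGenericLoc_of_isSemilinearBaseChange (hρ : Function.Injective ρ)
    (hloc : ∀ s : R', ∃ v : V, v ≠ 0 ∧ ∃ r : R, ρ (algebraMap V R v) * s = ρ r)
    (hmul : ∀ v v' : V, v ≠ 0 → v' ≠ 0 → v * v' ≠ 0)
    {N NK : Type u} [AddCommGroup N] [Module R N] [Module.Flat R N] [AddCommGroup NK]
    [Module R' NK] (b : N →ₛₗ[ρ] NK) (hb : IsSemilinearBaseChange ρ b) :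
    IsGenericLoc V ρ b := by
  let _ : Algebra R R' := ρ.toAlgebra
  let _ : Module R NK := Module.compHom NK ρ
  have : IsScalarTower R R' NK := ⟨fun r r' n => by
    change (ρ r * r') • n = ρ r • (r' • n); rw [mul_smul]⟩
  let bl : N →ₗ[R] NK :=
    { toFun := fun n => b n
      map_add' := fun m n => b.map_add m n
      map_smul' := fun r n => LinearMap.map_smulₛₗ b r n }
  have hbl : IsBaseChange R' bl := hb
  refine ⟨?_, ?_⟩
  · -- injectivity
    have h1 : Function.Injective (LinearMap.rTensor N (Algebra.linearMap R R')) :=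
      Module.Flat.rTensor_preserves_injective_linearMap _ hρ
    intro n n' hnn'
    have h2 : (1 : R') ⊗ₜ[R] n = (1 : R') ⊗ₜ[R] n' := by
      apply hbl.equiv.injective
      rw [hbl.equiv_tmul, hbl.equiv_tmul, one_smul, one_smul]
      exact hnn'
    have h3 : (1 : R) ⊗ₜ[R] n = (1 : R) ⊗ₜ[R] n' := by
      apply h1
      simpa using h2
    have h4 := congr(TensorProduct.lid R N $h3)
    simpa using h4
  · intro y
    refine hbl.inductionOn y (fun y => ∃ v : V, v ≠ 0 ∧ ∃ n : N, ρ (algebraMap V R v) • y = b n)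
      ⟨1, ?_, 0, by simp⟩ (fun n => ⟨1, ?_, n, by rw [map_one, map_one, one_smul]; rfl⟩) ?_ ?_
    · intro h10
      obtain ⟨v, hv, -⟩ := hloc 0
      exact hv (by rw [← mul_one v, h10, mul_zero])
    · intro h10
      obtain ⟨v, hv, -⟩ := hloc 0
      exact hv (by rw [← mul_one v, h10, mul_zero])
    · rintro s y ⟨v, hv, n, hn⟩
      obtain ⟨v', hv', r, hr⟩ := hloc s
      refine ⟨v' * v, hmul v' v hv' hv, r • n, ?_⟩
      rw [LinearMap.map_smulₛₗ, ← hn, ← hr, map_mul, map_mul, ← mul_smul, ← mul_smul]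
      congr 1
      ring
    · rintro y y' ⟨v, hv, n, hn⟩ ⟨v', hv', n', hn'⟩
      refine ⟨v * v', hmul v v' hv hv', algebraMap V R v' • n + algebraMap V R v • n', ?_⟩
      rw [map_add, LinearMap.map_smulₛₗ, LinearMap.map_smulₛₗ, ← hn, ← hn', smul_add,
        map_mul, map_mul, mul_smul, mul_smul,
        smul_comm (ρ (algebraMap V R v)) (ρ (algebraMap V R v')) y]

end Module

end Fermat.Agent.S25.H506

end
-- ===== PACK-END S25/H506/AlgValRing.lean

-- ===== PACK-BEGIN S25/H371/NilLift.lean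
section



/-!
# S25 / HILB / H4, part 2 (helper371): lifting finitely generated projective and invertible
modules along a surjection `R → S` with nilpotent kernel
-/

set_option autoImplicit false

open TensorProduct

namespace Fermat.Agent.S25.H371

universe u v w

section BaseChangeEquiv

variable {R : Type u} {S : Type v} [CommRing R] [CommRing S] [Algebra R S]
variable {M : Type*} [AddCommGroup M] [Module R M]
variable {P : Type*} [AddCommGroup P] [Module R P] [Module S P] [IsScalarTower R S P]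

/-- If `R → S` is surjective with kernel `I` and `α : M → P` is a surjective `R`-linear map to an
`S`-module with `ker α ≤ I • M`, then `P` is the base change of `M`. -/
theorem liftBaseChange_bijective_of_surjective_of_ker_le
    (hsurj : Function.Surjective (algebraMap R S)) (α : M →ₗ[R] P)
    (hα : Function.Surjective α)
    (hker : LinearMap.ker α ≤ RingHom.ker (algebraMap R S) • (⊤ : Submodule R M)) :
    Function.Bijective (α.liftBaseChange S) := by
  constructor
  · rw [injective_iff_map_eq_zero]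
    intro x hx
    obtain ⟨m, rfl⟩ := exists_one_tmul_eq hsurj x
    rw [LinearMap.liftBaseChange_one_tmul] at hx
    exact one_tmul_eq_zero_of_mem_smul (hker (LinearMap.mem_ker.mpr hx))
  · intro p
    obtain ⟨m, rfl⟩ := hα p
    exact ⟨(1 : S) ⊗ₜ[R] m, LinearMap.liftBaseChange_one_tmul S α m⟩

end BaseChangeEquiv

section MatrixNil

variable {R : Type u} {S : Type v} [CommRing R] [CommRing S]

/-- The entries of the `k`-th power of a matrix with entries in `I` lie in `I ^ k`. -/
theorem matrix_pow_apply_mem_pow {n : Type*} [Fintype n] [DecidableEq n] (I : Ideal R)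
    (A : Matrix n n R) (hA : ∀ i j, A i j ∈ I) (k : ℕ) : ∀ i j, (A ^ k) i j ∈ I ^ k := by
  induction k with
  | zero =>
    intro i j
    simp
  | succ k ih =>
    intro i j
    rw [pow_succ A k, Matrix.mul_apply, pow_succ I k]
    exact Ideal.sum_mem _ fun l _ => Ideal.mul_mem_mul (ih i l) (hA l j)

/-- A matrix in the kernel of `Matrix n n R → Matrix n n S` is nilpotent if `ker (R → S)` is a
nilpotent ideal. -/
theorem isNilpotent_of_mem_ker_mapMatrix {n : Type*} [Fintype n] [DecidableEq n] (f : R →+* S)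
    (hnil : IsNilpotent (RingHom.ker f)) (A : Matrix n n R)
    (hA : A ∈ RingHom.ker (f.mapMatrix : Matrix n n R →+* Matrix n n S)) : IsNilpotent A := by
  obtain ⟨k, hk⟩ := hnil
  refine ⟨k, ?_⟩
  have hA' : ∀ i j, A i j ∈ RingHom.ker f := by
    intro i j
    rw [RingHom.mem_ker] at hA ⊢
    have := congrFun (congrFun hA i) j
    simpa using this
  have h := matrix_pow_apply_mem_pow (RingHom.ker f) A hA' k
  ext i j
  have := h i j
  rw [hk] at this
  simpa using this

end MatrixNil

section ProjectiveLift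

variable {R : Type u} {S : Type v} [CommRing R] [CommRing S] [Algebra R S]

/-- **H4 (a)**, version with a given compatible `R`-module structure on `P`:
a finitely generated projective `S`-module is the base change of a finitely generated projective
`R`-module, if `R → S` is surjective with nilpotent kernel. -/
theorem exists_projective_lift_of_isScalarTower
    (hsurj : Function.Surjective (algebraMap R S))
    (hnil : IsNilpotent (RingHom.ker (algebraMap R S)))
    (P : Type w) [AddCommGroup P] [Module S P] [Module R P] [IsScalarTower R S P]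
    [Module.Finite S P] [Module.Projective S P] :
    ∃ (M : Type u) (_ : AddCommGroup M) (_ : Module R M), Module.Finite R M ∧
      Module.Projective R M ∧ ∃ α : M →ₗ[R] P, Function.Bijective (α.liftBaseChange S) := by
  classical
  obtain ⟨n, π, ι, hπ, -, hπι⟩ := Module.Finite.exists_comp_eq_id_of_projective S P
  -- the idempotent endomorphism of `S^n` and its matrix
  set e : (Fin n → S) →ₗ[S] (Fin n → S) := ι ∘ₗ π with he
  have hee : e ∘ₗ e = e := by
    rw [he, LinearMap.comp_assoc, ← LinearMap.comp_assoc π ι, hπι, LinearMap.id_comp]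
  set E : Matrix (Fin n) (Fin n) S := LinearMap.toMatrix' e with hE
  have hEid : IsIdempotentElem E := by
    rw [IsIdempotentElem, hE, ← LinearMap.toMatrix'_mul, Module.End.mul_eq_comp, hee]
  let f : Matrix (Fin n) (Fin n) R →+* Matrix (Fin n) (Fin n) S := (algebraMap R S).mapMatrix
  have hErange : E ∈ f.range := by
    choose g hg using hsurj
    refine ⟨Matrix.of fun i j => g (E i j), ?_⟩
    ext i j
    simp [f, hg]
  obtain ⟨E', hE'id, hE'⟩ := exists_isIdempotentElem_eq_of_ker_isNilpotent f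
    (fun A hA => isNilpotent_of_mem_ker_mapMatrix (algebraMap R S) hnil A hA) E hErange hEid
  set e' : (Fin n → R) →ₗ[R] (Fin n → R) := Matrix.toLin' E' with he'
  have he'e' : ∀ x, e' (e' x) = e' x := by
    intro x
    rw [he', ← LinearMap.comp_apply, ← Matrix.toLin'_mul, hE'id.eq]
  -- reduction `R^n → S^n`
  let red : (Fin n → R) →ₗ[R] (Fin n → S) := (Algebra.linearMap R S).compLeft (Fin n)
  have hred : ∀ x, red (e' x) = e (red x) := by
    intro x
    have h1 : e = Matrix.toLin' E := by rw [hE, Matrix.toLin'_toMatrix']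
    rw [h1, ← hE']
    ext i
    show (algebraMap R S) ((Matrix.toLin' E') x i) =
      (Matrix.toLin' (E'.map (algebraMap R S))) (fun j => algebraMap R S (x j)) i
    rw [Matrix.toLin'_apply, Matrix.toLin'_apply]
    exact RingHom.map_mulVec (algebraMap R S) E' x i
  -- the lifted module
  let M : Submodule R (Fin n → R) := LinearMap.range e'
  have hMfix : ∀ m : M, e' (m : Fin n → R) = m := by
    rintro ⟨_, x, rfl⟩
    exact he'e' x
  have hfin : Module.Finite R M := Module.Finite.range e'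
  have hproj : Module.Projective R M := by
    refine Module.Projective.of_split M.subtype e'.rangeRestrict ?_
    ext m : 2
    exact hMfix m
  let α : M →ₗ[R] P := (π.restrictScalars R) ∘ₗ red ∘ₗ M.subtype
  have hαsurj : Function.Surjective α := by
    intro p
    choose g hg using hsurj
    let x : Fin n → R := fun j => g (ι p j)
    have hx : red x = ι p := by
      ext j
      simp [red, x, hg]
    refine ⟨⟨e' x, LinearMap.mem_range_self e' x⟩, ?_⟩
    simp only [α, LinearMap.coe_comp, Function.comp_apply, Submodule.subtype_apply,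
      LinearMap.coe_restrictScalars]
    rw [hred, hx, he]
    simp only [LinearMap.coe_comp, Function.comp_apply]
    have h2 : π (ι p) = p := by
      have := LinearMap.congr_fun hπι p
      simpa using this
    rw [h2, h2]
  have hαker : LinearMap.ker α ≤ RingHom.ker (algebraMap R S) • (⊤ : Submodule R M) := by
    intro m hm
    rw [LinearMap.mem_ker] at hm
    simp only [α, LinearMap.coe_comp, Function.comp_apply, Submodule.subtype_apply,
      LinearMap.coe_restrictScalars] at hm
    -- `red m = 0`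
    have h1 : red (m : Fin n → R) = 0 := by
      have h2 : red (m : Fin n → R) = e (red (m : Fin n → R)) := by
        rw [← hred, hMfix]
      rw [h2, he]
      simp only [LinearMap.coe_comp, Function.comp_apply]
      rw [hm, map_zero]
    have hcoord : ∀ j, (m : Fin n → R) j ∈ RingHom.ker (algebraMap R S) := by
      intro j
      rw [RingHom.mem_ker]
      have := congrFun h1 j
      simpa [red] using this
    -- `m = ∑ m_j • e' (single j 1)`
    have hm_eq : m = ∑ j, ((m : Fin n → R) j) • (e'.rangeRestrict (Pi.single j (1 : R))) := by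
      apply Subtype.ext
      have h3 : (m : Fin n → R) = ∑ j, ((m : Fin n → R) j) • (Pi.single j (1 : R) : Fin n → R) := by
        ext i
        simp [Finset.sum_apply, Pi.single_apply]
      have h4 : (m : Fin n → R) =
          ∑ j, ((m : Fin n → R) j) • e' (Pi.single j (1 : R) : Fin n → R) := by
        calc (m : Fin n → R) = e' (m : Fin n → R) := (hMfix m).symm
          _ = e' (∑ j, ((m : Fin n → R) j) • (Pi.single j (1 : R) : Fin n → R)) :=
              congrArg e' h3
          _ = ∑ j, ((m : Fin n → R) j) • e' (Pi.single j (1 : R) : Fin n → R) := by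
              rw [map_sum]
              exact Finset.sum_congr rfl fun j _ => map_smul e' _ _
      rw [Submodule.coe_sum]
      refine h4.trans (Finset.sum_congr rfl fun j _ => ?_)
      rfl
    rw [hm_eq]
    exact Submodule.sum_mem _ fun j _ =>
      Submodule.smul_mem_smul (hcoord j) Submodule.mem_top
  exact ⟨M, inferInstance, inferInstance, hfin, hproj, α,
    liftBaseChange_bijective_of_surjective_of_ker_le hsurj α hαsurj hαker⟩

/-- **H4 (a)**: a finitely generated projective `S`-module is the base change of a finitely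
generated projective `R`-module, if `R → S` is surjective with nilpotent kernel. -/
theorem exists_projective_lift
    (hsurj : Function.Surjective (algebraMap R S))
    (hnil : IsNilpotent (RingHom.ker (algebraMap R S)))
    (P : Type w) [AddCommGroup P] [Module S P] [Module.Finite S P] [Module.Projective S P] :
    ∃ (M : Type u) (_ : AddCommGroup M) (_ : Module R M), Module.Finite R M ∧
      Module.Projective R M ∧ Nonempty (S ⊗[R] M ≃ₗ[S] P) := by
  let _ : Module R P := Module.compHom P (algebraMap R S)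
  have : IsScalarTower R S P := IsScalarTower.of_algebraMap_smul fun _ _ => rfl
  obtain ⟨M, i1, i2, hfin, hproj, α, hα⟩ :=
    exists_projective_lift_of_isScalarTower hsurj hnil P
  exact ⟨M, i1, i2, hfin, hproj, ⟨LinearEquiv.ofBijective (α.liftBaseChange S) hα⟩⟩

end ProjectiveLift

section InvertibleLift

variable {R : Type u} {S : Type v} [CommRing R] [CommRing S] [Algebra R S]

/-- If `M`, `M'` are projective `R`-modules whose base changes to `S` are mutually inverse
(`(S ⊗ M) ⊗_S (S ⊗ M') ≃ S`), then `M ⊗ M' ≃ R`; in particular both are invertible. -/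
theorem nonempty_tensor_linearEquiv_of_baseChange
    (hsurj : Function.Surjective (algebraMap R S))
    (hnil : IsNilpotent (RingHom.ker (algebraMap R S)))
    (M M' : Type*) [AddCommGroup M] [Module R M] [AddCommGroup M'] [Module R M']
    [Module.Projective R M] [Module.Projective R M']
    (φ : (S ⊗[R] M) ⊗[S] (S ⊗[R] M') ≃ₗ[S] S) :
    Nonempty (M ⊗[R] M' ≃ₗ[R] R) := by
  let ψ : S ⊗[R] (M ⊗[R] M') ≃ₗ[S] S ⊗[R] R :=
    (TensorProduct.AlgebraTensorModule.distribBaseChange R S M M') ≪≫ₗ φ ≪≫ₗ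
      (TensorProduct.AlgebraTensorModule.rid R S S).symm
  obtain ⟨e, -⟩ := exists_linearEquiv_baseChange_eq hsurj hnil ψ
  exact ⟨e⟩

/-- A projective `R`-module whose base change to `S` is invertible is invertible, if `R → S` is
surjective with nilpotent kernel. -/
theorem invertible_of_baseChange_invertible
    (hsurj : Function.Surjective (algebraMap R S))
    (hnil : IsNilpotent (RingHom.ker (algebraMap R S)))
    (M : Type*) [AddCommGroup M] [Module R M] [Module.Projective R M]
    [Module.Invertible S (S ⊗[R] M)] : Module.Invertible R M := by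
  obtain ⟨M', i1, i2, -, hproj, ⟨ε⟩⟩ :=
    exists_projective_lift hsurj hnil (Module.Dual S (S ⊗[R] M))
  let φ : (S ⊗[R] M) ⊗[S] (S ⊗[R] M') ≃ₗ[S] S :=
    (TensorProduct.congr (LinearEquiv.refl S (S ⊗[R] M)) ε) ≪≫ₗ
      (TensorProduct.comm S _ _) ≪≫ₗ (Module.Invertible.linearEquiv S (S ⊗[R] M))
  obtain ⟨e⟩ := nonempty_tensor_linearEquiv_of_baseChange hsurj hnil M M' φ
  exact Module.Invertible.left e

/-- **H4 (a')**: an invertible `S`-module is the base change of an invertible `R`-module, if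
`R → S` is surjective with nilpotent kernel. -/
theorem exists_invertible_lift
    (hsurj : Function.Surjective (algebraMap R S))
    (hnil : IsNilpotent (RingHom.ker (algebraMap R S)))
    (P : Type w) [AddCommGroup P] [Module S P] [Module.Invertible S P] :
    ∃ (M : Type u) (_ : AddCommGroup M) (_ : Module R M), Module.Invertible R M ∧
      Nonempty (S ⊗[R] M ≃ₗ[S] P) := by
  obtain ⟨M, i1, i2, -, hproj, ⟨ε⟩⟩ := exists_projective_lift hsurj hnil P
  have : Module.Invertible S (S ⊗[R] M) := Module.Invertible.congr ε.symm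
  exact ⟨M, i1, i2, invertible_of_baseChange_invertible hsurj hnil M, ⟨ε⟩⟩

end InvertibleLift

end Fermat.Agent.S25.H371

end
-- ===== PACK-END S25/H371/NilLift.lean

-- ===== PACK-BEGIN S25/H490/ProjN01.lean
section
/-
S25, block CECH, leaf K1b (helper490): `N01` is a projective `A`-module.

`N0` is an `X`-equivariant `A`-linear retract of `A[X]^n`, `N01` is its localisation away from
`x` (`r0` injective, `T` invertible, `loc0`).  We exhibit `N01` as an `A`-linear retract of the
free `A`-module `(Fin n × ℤ) →₀ A` ("Laurent polynomial vectors").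
-/


set_option autoImplicit false

namespace Fermat.Agent.S25.H490

open Polynomial Fermat.Agent.S25.H10

universe u v

variable {A : Type u} [CommRing A]

section Shift

variable (A) (n : ℕ)

/-- The monomial basis of `A[X]^n` over `A`. -/
noncomputable def monoBasis : Module.Basis (Σ _ : Fin n, ℕ) A (Fin n → A[X]) :=
  Pi.basis fun _ : Fin n => Polynomial.basisMonomials A

theorem monoBasis_apply (p : Σ _ : Fin n, ℕ) :
    monoBasis A n p = Pi.single p.1 (monomial p.2 (1 : A)) := by
  unfold monoBasis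
  rw [Pi.basis_apply]
  simp [Polynomial.coe_basisMonomials]

/-- Multiplication by `X` on `A[X]^n`, as an `A`-linear map. -/
noncomputable def mulX : (Fin n → A[X]) →ₗ[A] (Fin n → A[X]) :=
  DistribSMul.toLinearMap A (Fin n → A[X]) (X : A[X])

@[simp] theorem mulX_apply (w : Fin n → A[X]) : mulX A n w = (X : A[X]) • w := rfl

theorem mulX_monoBasis (p : Σ _ : Fin n, ℕ) :
    mulX A n (monoBasis A n p) = monoBasis A n ⟨p.1, p.2 + 1⟩ := by
  rw [mulX_apply, monoBasis_apply, monoBasis_apply]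
  ext j
  by_cases hj : j = p.1
  · subst hj
    simp [Polynomial.X_mul_monomial]
  · simp [Pi.single_eq_of_ne hj]

/-- The shifted coordinate map `w ↦ T^{-k} w` from `A[X]^n` to Laurent vectors. -/
noncomputable def shift (k : ℕ) : (Fin n → A[X]) →ₗ[A] ((Fin n × ℤ) →₀ A) :=
  (monoBasis A n).constr A fun p => Finsupp.single (p.1, (p.2 : ℤ) - k) (1 : A)

theorem shift_monoBasis (k : ℕ) (p : Σ _ : Fin n, ℕ) :
    shift A n k (monoBasis A n p) = Finsupp.single (p.1, (p.2 : ℤ) - k) (1 : A) := by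
  unfold shift
  rw [Module.Basis.constr_basis]

theorem shift_succ_comp_mulX (k : ℕ) : shift A n (k + 1) ∘ₗ mulX A n = shift A n k := by
  refine (monoBasis A n).ext fun p => ?_
  rw [LinearMap.comp_apply, mulX_monoBasis, shift_monoBasis, shift_monoBasis]
  congr 2
  push_cast
  ring

theorem shift_succ_X_smul (k : ℕ) (w : Fin n → A[X]) :
    shift A n (k + 1) ((X : A[X]) • w) = shift A n k w := by
  have := congrArg (fun f => f w) (shift_succ_comp_mulX A n k)
  simpa using this

theorem shift_add_X_pow_smul (k j : ℕ) (w : Fin n → A[X]) :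
    shift A n (k + j) ((X : A[X]) ^ j • w) = shift A n k w := by
  induction j generalizing w with
  | zero => simp
  | succ j ih =>
    rw [pow_succ', mul_smul, ← add_assoc, shift_succ_X_smul, ih]

end Shift

section Main

variable {N0 N1 N01 : Type v}
  [AddCommGroup N0] [AddCommGroup N1] [AddCommGroup N01]
  [Module A N0] [Module A N1] [Module A N01]

/-- `T` as a unit of `End_A N01`. -/
def unitT (D : CechOps A N0 N1 N01) : (Module.End A N01)ˣ :=
  ⟨D.T, D.Tinv, D.T_mul_Tinv, D.Tinv_mul_T⟩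

theorem unitT_zpow_sub (D : CechOps A N0 N1 N01) (m k : ℕ) :
    ((unitT D ^ ((m : ℤ) - k) : (Module.End A N01)ˣ) : Module.End A N01) =
      D.Tinv ^ k * D.T ^ m := by
  rw [zpow_sub, zpow_natCast, zpow_natCast, Units.val_mul, ← inv_pow, Units.val_pow_eq_pow_val,
    Units.val_pow_eq_pow_val]
  have hcomm : Commute (D.T ^ m) (D.Tinv ^ k) := (D.commute_T_Tinv.pow_pow m k)
  exact hcomm.eq

variable {n : ℕ}

theorem pi_X_pow_smul (π : (Fin n → A[X]) →ₗ[A] N0) (E : Module.End A N0)
    (hπ : ∀ w, π ((X : A[X]) • w) = E (π w)) (j : ℕ) (w : Fin n → A[X]) :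
    π ((X : A[X]) ^ j • w) = (E ^ j) (π w) := by
  induction j generalizing w with
  | zero => simp
  | succ j ih =>
    rw [pow_succ', mul_smul, hπ, ih, pow_succ', Module.End.mul_apply]

theorem iota_pow (ι : N0 →ₗ[A] (Fin n → A[X])) (E : Module.End A N0)
    (hι : ∀ v, ι (E v) = (X : A[X]) • ι v) (j : ℕ) (v : N0) :
    ι ((E ^ j) v) = (X : A[X]) ^ j • ι v := by
  induction j generalizing v with
  | zero => simp
  | succ j ih =>
    rw [pow_succ', Module.End.mul_apply, hι, ih, pow_succ', mul_smul]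

/-- The projection from Laurent vectors onto `N01`. -/
noncomputable def proj01 (D : CechOps A N0 N1 N01) (π : (Fin n → A[X]) →ₗ[A] N0) :
    ((Fin n × ℤ) →₀ A) →ₗ[A] N01 :=
  Finsupp.linearCombination A fun p : Fin n × ℤ =>
    ((unitT D ^ p.2 : (Module.End A N01)ˣ) : Module.End A N01)
      (D.r0 (π (Pi.single p.1 (1 : A[X]))))

theorem proj01_comp_shift (D : CechOps A N0 N1 N01) (π : (Fin n → A[X]) →ₗ[A] N0)
    (hπ : ∀ w, π ((X : A[X]) • w) = D.X0 (π w)) (k : ℕ) :
    proj01 D π ∘ₗ shift A n k = (D.Tinv ^ k) ∘ₗ D.r0 ∘ₗ π := by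
  refine (monoBasis A n).ext fun p => ?_
  rw [LinearMap.comp_apply, shift_monoBasis, proj01, Finsupp.linearCombination_single, one_smul,
    unitT_zpow_sub, Module.End.mul_apply, LinearMap.comp_apply, LinearMap.comp_apply,
    monoBasis_apply]
  congr 1
  have h1 : (Pi.single p.1 (monomial p.2 (1 : A)) : Fin n → A[X]) =
      (X : A[X]) ^ p.2 • Pi.single p.1 (1 : A[X]) := by
    ext j
    by_cases hj : j = p.1
    · subst hj
      simp [Polynomial.X_pow_eq_monomial]
    · simp [Pi.single_eq_of_ne hj]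
  rw [h1, pi_X_pow_smul π D.X0 hπ, D.r0_X0_pow]

/-- **K1b.** `N01` is projective over `A` (retract of `A[T;T⁻¹]^n`). -/
theorem projective_N01 (D : CechOps A N0 N1 N01) (h0 : IsFGProj D.X0)
    (hr0 : Function.Injective D.r0) : Module.Projective A N01 := by
  classical
  obtain ⟨n, ι, π, hπι, hι, hπ⟩ := h0
  -- choice of a denominator and numerator for every `z`
  choose kz nz hz using D.loc0
  -- independence of the choice
  have key : ∀ (z : N01) (k : ℕ) (m : N0), (D.T ^ k) z = D.r0 m →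
      shift A n (kz z) (ι (nz z)) = shift A n k (ι m) := by
    intro z k m hkm
    have h1 : (D.X0 ^ k) (nz z) = (D.X0 ^ kz z) m := by
      apply hr0
      rw [D.r0_X0_pow, D.r0_X0_pow, ← hz z, ← hkm, ← Module.End.mul_apply,
        ← Module.End.mul_apply, ← pow_add, ← pow_add, add_comm]
    calc shift A n (kz z) (ι (nz z))
        = shift A n (kz z + k) ((X : A[X]) ^ k • ι (nz z)) :=
          (shift_add_X_pow_smul A n (kz z) k _).symm
      _ = shift A n (kz z + k) (ι ((D.X0 ^ k) (nz z))) := by rw [iota_pow ι D.X0 hι]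
      _ = shift A n (k + kz z) (ι ((D.X0 ^ kz z) m)) := by rw [h1, add_comm]
      _ = shift A n (k + kz z) ((X : A[X]) ^ kz z • ι m) := by rw [iota_pow ι D.X0 hι]
      _ = shift A n k (ι m) := shift_add_X_pow_smul A n k (kz z) _
  -- the coordinate map
  let ι01 : N01 →ₗ[A] ((Fin n × ℤ) →₀ A) :=
    { toFun := fun z => shift A n (kz z) (ι (nz z))
      map_add' := by
        intro z1 z2
        have h12 : (D.T ^ (kz z1 + kz z2)) (z1 + z2) =
            D.r0 ((D.X0 ^ kz z2) (nz z1) + (D.X0 ^ kz z1) (nz z2)) := by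
          rw [map_add, map_add, D.r0_X0_pow, D.r0_X0_pow, ← hz z1, ← hz z2,
            ← Module.End.mul_apply, ← Module.End.mul_apply, ← pow_add, ← pow_add,
            add_comm (kz z2) (kz z1)]
        rw [key (z1 + z2) _ _ h12, map_add, map_add, iota_pow ι D.X0 hι, iota_pow ι D.X0 hι,
          shift_add_X_pow_smul, add_comm (kz z1) (kz z2), shift_add_X_pow_smul]
      map_smul' := by
        intro a z
        have h1 : (D.T ^ kz z) (a • z) = D.r0 (a • nz z) := by
          rw [map_smul, map_smul, hz z]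
        rw [key (a • z) _ _ h1, map_smul, map_smul, RingHom.id_apply] }
  have hsplit : (proj01 D π) ∘ₗ ι01 = LinearMap.id := by
    ext z
    show proj01 D π (shift A n (kz z) (ι (nz z))) = z
    have := congrArg (fun f => f (ι (nz z))) (proj01_comp_shift D π hπ (kz z))
    simp only [LinearMap.comp_apply] at this
    rw [this]
    have hπι' : π (ι (nz z)) = nz z := by
      have := congrArg (fun f => f (nz z)) hπι
      simpa using this
    rw [hπι', ← hz z, D.Tinv_pow_T_pow_apply]
  exact Module.Projective.of_split ι01 (proj01 D π) hsplit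

end Main

end Fermat.Agent.S25.H490

end
-- ===== PACK-END S25/H490/ProjN01.lean

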