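import Mathlib
import Fermat.Prelude.Thm_CuspForm_heckeTLin_comm
import Fermat.Prelude.Thm_CuspForm_heckeTLin_heckeULin_comm
import Fermat.Prelude.Thm_CuspForm_heckeULin_comm
import Fermat.Agent.Pack.S43MC.G0E4L3
import Fermat.Agent.Pack.S43MC.G0E4L0
import Fermat.Agent.Pack.S43MC.G0E5L2
import Fermat.Agent.Pack.S43MC.G0E5L1
import Fermat.Agent.Pack.S43MC.G0E0L2
import Fermat.Agent.Pack.S43MC.G0E0L1
import Fermat.Agent.Pack.S43MC.G0E3L1
import Fermat.Agent.Pack.S43MC.G0E2L1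
import Fermat.Agent.Pack.S43MC.G0E2L2
import Fermat.Agent.Pack.S43MC.G0E3L2
import Fermat.Agent.Pack.S43MC.G0E4L1
import Fermat.Agent.Pack.Fast891

-- ===== PACK-BEGIN Lib/Newform/H803/Main.lean
section



/-!
# The Atkin–Lehner main lemma, `Γ⁰(N)` form on functions (helper803)

`killL k N L F` is `∏_{p ∈ L} (1 - π_p) F` where `π_p = avgT k (N/p) p` is the average over the
translations `T^{j N / p}`.  Main result `main_hat`: if `F` is `Γ⁰(N)`-invariant and
`killL k N L F = 0` for a list `L` of distinct primes dividing `N`, then `F = ∑_{p ∈ L} G_p` with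
`G_p` invariant under `Γ⁰(N / p)`; moreover the `G_p` stay in any slash-stable submodule
containing `F`.
-/

set_option autoImplicit false

namespace Fermat.Agent.Lib.Newform.H803

open Matrix Matrix.SpecialLinearGroup CongruenceSubgroup UpperHalfPlane ModularForm
open scoped MatrixGroups ModularForm

variable {k : ℤ}

/-- `∏_{p ∈ L} (1 - π_p)`. -/
noncomputable def killL (k : ℤ) (N : ℕ) : List ℕ → (ℍ → ℂ) → (ℍ → ℂ)
  | [], F => F
  | p :: L, F => killL k N L F - avgT k (↑(N / p)) p (killL k N L F)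

@[simp] theorem killL_nil (N : ℕ) (F : ℍ → ℂ) : killL k N [] F = F := rfl

theorem killL_cons (N : ℕ) (p : ℕ) (L : List ℕ) (F : ℍ → ℂ) :
    killL k N (p :: L) F = killL k N L F - avgT k (↑(N / p)) p (killL k N L F) := rfl

theorem killL_sub (N : ℕ) (L : List ℕ) (F G : ℍ → ℂ) :
    killL k N L (F - G) = killL k N L F - killL k N L G := by
  induction L with
  | nil => rfl
  | cons p L ih =>
    rw [killL_cons, killL_cons, killL_cons, ih, avgT_sub]
    abel

theorem killL_mem (N : ℕ) (L : List ℕ) {𝒮 : Submodule ℂ (ℍ → ℂ)}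
    (h𝒮 : ∀ F ∈ 𝒮, ∀ γ : SL(2, ℤ), F ∣[k] γ ∈ 𝒮) {F : ℍ → ℂ} (hF : F ∈ 𝒮) :
    killL k N L F ∈ 𝒮 := by
  induction L with
  | nil => exact hF
  | cons p L ih => exact 𝒮.sub_mem ih (avgT_mem _ _ h𝒮 ih)

theorem killL_slInv_Gamma (N : ℕ) (L : List ℕ) {F : ℍ → ℂ} (hF : SlInv k (Gamma N) F) :
    SlInv k (Gamma N) (killL k N L F) := by
  induction L with
  | nil => exact hF
  | cons p L ih => exact ih.sub (avgT_slInv_Gamma _ _ ih)

/-- `killL` commutes with the slash by `g` if `g` commutes with the translations. -/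
theorem killL_slash_comm {N : ℕ} (L : List ℕ) {F : ℍ → ℂ} (hF : SlInv k (Gamma N) F)
    {g : SL(2, ℤ)}
    (hg : ∀ q ∈ L, ∀ j : ℤ, (tU (j * ↑(N / q)) * g) * (g * tU (j * ↑(N / q)))⁻¹ ∈ Gamma N) :
    (killL k N L F) ∣[k] g = killL k N L (F ∣[k] g) := by
  induction L with
  | nil => rfl
  | cons p L ih =>
    have ih' := ih fun q hq => hg q (List.mem_cons_of_mem _ hq)
    rw [killL_cons, killL_cons, sub_slash, ih',
      avgT_slash_comm (killL_slInv_Gamma N L hF) (hg p List.mem_cons_self), ih']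

theorem avg_sum {N : ℕ} [NeZero N] (J : Subgroup SL(2, ℤ)) {ι : Type*} (s : Finset ι)
    (F : ι → ℍ → ℂ) : avg k N J (∑ i ∈ s, F i) = ∑ i ∈ s, avg k N J (F i) := by
  classical
  induction s using Finset.induction_on with
  | empty => simp [avg_zero]
  | insert a s ha ih => rw [Finset.sum_insert ha, Finset.sum_insert ha, avg_add, ih]

/-- `avgT` commutes with `avg`. -/
theorem avgT_avg_comm {N : ℕ} [NeZero N] {J : Subgroup SL(2, ℤ)} {x : ℤ} (p : ℕ) {F : ℍ → ℂ}
    (hF : SlInv k (Gamma N) F)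
    (hJ : ∀ γ ∈ J, ∀ j : ℤ, (γ * tU (j * x)) * (tU (j * x) * γ)⁻¹ ∈ Gamma N) :
    avgT k x p (avg k N J F) = avg k N J (avgT k x p F) := by
  rw [avgT, avgT, avg_smul, avg_sum]
  congr 1
  refine Finset.sum_congr rfl fun j _ => ?_
  exact avg_slash_comm hF fun γ hγ => hJ γ hγ j

/-- `killL` commutes with `avg`. -/
theorem killL_avg_comm {N : ℕ} [NeZero N] {J : Subgroup SL(2, ℤ)} (L : List ℕ) {F : ℍ → ℂ}
    (hF : SlInv k (Gamma N) F)
    (hJ : ∀ q ∈ L, ∀ γ ∈ J, ∀ j : ℤ,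
      (γ * tU (j * ↑(N / q))) * (tU (j * ↑(N / q)) * γ)⁻¹ ∈ Gamma N) :
    killL k N L (avg k N J F) = avg k N J (killL k N L F) := by
  induction L with
  | nil => rfl
  | cons p L ih =>
    have ih' := ih fun q hq => hJ q (List.mem_cons_of_mem _ hq)
    rw [killL_cons, killL_cons, ih', avg_sub,
      avgT_avg_comm p (killL_slInv_Gamma N L hF) (hJ p List.mem_cons_self)]

theorem ord_facts_aux {N p P m : ℕ} (hp : p.Prime) (hpN : p ∣ N) (hPm : P * m = N)
    (hpP : p ∣ P) (hqP : ∀ q : ℕ, q.Prime → q ≠ p → Nat.Coprime q P) :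
    m ∣ N / p ∧ N / p ∣ P * m ∧
      ∀ q : ℕ, q.Prime → q ≠ p → q ∣ N → N ∣ m * (N / q) := by
  refine ⟨?_, ?_, ?_⟩
  · obtain ⟨P', rfl⟩ := hpP
    refine ⟨P', ?_⟩
    have h1 : N = p * (m * P') := by rw [← hPm]; ring
    conv_lhs => rw [h1]
    exact Nat.mul_div_cancel_left _ hp.pos
  · rw [hPm]
    exact Nat.div_dvd_of_dvd hpN
  · intro q hq hqp hqN
    have hcop' : Nat.Coprime q P := hqP q hq hqp
    have hqm : q ∣ m := by
      have : q ∣ P * m := by rw [hPm]; exact hqN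
      exact hcop'.dvd_of_dvd_mul_left this
    obtain ⟨m', hm'⟩ := hqm
    refine ⟨m', ?_⟩
    rw [hm']
    have : q * (N / q) = N := Nat.mul_div_cancel' hqN
    calc q * m' * (N / q) = (q * (N / q)) * m' := by ring
      _ = N * m' := by rw [this]

/-- Arithmetic of the `p`-part and the prime-to-`p` part of `N`. -/
theorem ord_facts {N p : ℕ} (hN : N ≠ 0) (hp : p.Prime) (hpN : p ∣ N) :
    ∃ P m : ℕ, P * m = N ∧ Nat.Coprime P m ∧ m ∣ N / p ∧ N / p ∣ P * m ∧
      ∀ q : ℕ, q.Prime → q ≠ p → q ∣ N → N ∣ m * (N / q) := by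
  have hPm := Nat.ordProj_mul_ordCompl_eq_self N p
  have hcop : Nat.Coprime (ordProj[p] N) (ordCompl[p] N) :=
    (Nat.coprime_ordCompl hp hN).pow_left _
  have hpP : p ∣ ordProj[p] N := Nat.dvd_ordProj_of_dvd hN hp hpN
  have hqP : ∀ q : ℕ, q.Prime → q ≠ p → Nat.Coprime q (ordProj[p] N) := fun q hq hqp =>
    ((Nat.coprime_primes hq hp).mpr hqp).pow_right _
  exact ⟨ordProj[p] N, ordCompl[p] N, hPm, hcop, ord_facts_aux hp hpN hPm hpP hqP⟩

/-- **Atkin–Lehner main lemma**, `Γ⁰(N)`-form. -/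
theorem main_hat (N : ℕ) [NeZero N] {𝒮 : Submodule ℂ (ℍ → ℂ)}
    (h𝒮 : ∀ F ∈ 𝒮, ∀ γ : SL(2, ℤ), F ∣[k] γ ∈ 𝒮) :
    ∀ L : List ℕ, L.Nodup → (∀ p ∈ L, p.Prime ∧ p ∣ N) →
      ∀ F ∈ 𝒮, SlInv k (GammaU N) F → killL k N L F = 0 →
      ∃ G : ℕ → (ℍ → ℂ), (∀ p ∈ L, G p ∈ 𝒮 ∧ SlInv k (GammaU (N / p)) (G p)) ∧
        F = (L.map G).sum := by
  have hN0 : N ≠ 0 := NeZero.ne N
  intro L
  induction L with
  | nil =>
    intro _ _ F _ _ hK
    refine ⟨fun _ => 0, by simp, ?_⟩
    simpa using hK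
  | cons p L ih =>
    intro hnd hL F hF𝒮 hF hK
    obtain ⟨hp, hpN⟩ := hL p List.mem_cons_self
    have hpL : p ∉ L := (List.nodup_cons.mp hnd).1
    have hndL : L.Nodup := (List.nodup_cons.mp hnd).2
    have hL' : ∀ q ∈ L, q.Prime ∧ q ∣ N := fun q hq => hL q (List.mem_cons_of_mem _ hq)
    obtain ⟨P, m, hPm, hcop, hmd, hdN, hq⟩ := ord_facts hN0 hp hpN
    set d : ℕ := N / p with hd
    have hpd : p * d = N := Nat.mul_div_cancel' hpN
    have hdN' : d ∣ N := Nat.div_dvd_of_dvd hpN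
    have hmN : m ∣ N := Dvd.intro_left P hPm
    have hFΓ : SlInv k (Gamma N) F := hF.mono (Gamma_le_GammaU N)
    -- the subgroups
    set J : Subgroup SL(2, ℤ) := Gamma m ⊓ GammaU d with hJ
    have hΓJ : Gamma N ≤ J := le_inf (Gamma_mono hmN) ((Gamma_le_GammaU N).trans (GammaU_mono hdN'))
    -- commutation of `J` with the other translations
    have hJq : ∀ q ∈ L, ∀ γ ∈ J, ∀ j : ℤ,
        (γ * tU (j * ↑(N / q))) * (tU (j * ↑(N / q)) * γ)⁻¹ ∈ Gamma N := by
      intro q hqL γ hγ j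
      have hqp : q ≠ p := fun h => hpL (h ▸ hqL)
      exact comm_mem_Gamma (hq q (hL' q hqL).1 hqp (hL' q hqL).2) hγ.1
        (tU_mem_Gamma (Dvd.intro_left _ rfl))
    have hqJ : ∀ q ∈ L, ∀ γ ∈ Gamma m, ∀ j : ℤ,
        (tU (j * ↑(N / q)) * γ) * (γ * tU (j * ↑(N / q)))⁻¹ ∈ Gamma N := by
      intro q hqL γ hγ j
      have hqp : q ≠ p := fun h => hpL (h ▸ hqL)
      have h1 : N ∣ (N / q) * m := by
        rw [mul_comm]; exact hq q (hL' q hqL).1 hqp (hL' q hqL).2
      exact comm_mem_Gamma h1 (tU_mem_Gamma (Dvd.intro_left _ rfl)) hγ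
    -- `w = killL L F`
    set w : ℍ → ℂ := killL k N L F with hw
    have hwΓ : SlInv k (Gamma N) w := killL_slInv_Gamma N L hFΓ
    have hπw : avgT k (↑d) p w = w := by
      have := hK
      rw [killL_cons, sub_eq_zero] at this
      exact this.symm
    -- `w` is invariant under the translation `tU d`
    have hwT : w ∣[k] tU (↑d) = w := by
      have h1 : w ∣[k] tU ((p : ℤ) * (d : ℤ)) = w := by
        apply hwΓ
        apply tU_mem_Gamma
        rw [← Nat.cast_mul, hpd]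
      have := avgT_slash_tU (k := k) (x := (d : ℤ)) (p := p) (F := w) h1
      rwa [hπw] at this
    -- `w` is invariant under `Γ(m) ⊓ Γ⁰(N)`
    have hwH : SlInv k (Gamma m ⊓ GammaU N) w := by
      intro h hh
      rw [hw, killL_slash_comm L hFΓ (fun q hqL j => hqJ q hqL h hh.1 j), hF h hh.2]
    -- hence under `J`
    have hwJ : SlInv k J w := by
      intro γ hγ
      obtain ⟨i, j, hij⟩ := exists_tU_mul_mem_GammaU hp hγ.2
      rw [hpd] at hij
      have hmem : tU (i * ↑d) * γ * tU (j * ↑d) ∈ Gamma m ⊓ GammaU N := by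
        refine ⟨?_, hij⟩
        have hm' : (m : ℤ) ∣ (d : ℤ) := Int.natCast_dvd_natCast.mpr hmd
        exact Subgroup.mul_mem _ (Subgroup.mul_mem _ (tU_mem_Gamma (Dvd.dvd.mul_left hm' _)) hγ.1)
          (tU_mem_Gamma (Dvd.dvd.mul_left hm' _))
      have h1 := hwH _ hmem
      rw [SlashAction.slash_mul, SlashAction.slash_mul, slash_tU_mul hwT] at h1
      -- `(w ∣ γ) ∣ tU (j d) = w`
      have h2 : ((w ∣[k] γ) ∣[k] tU (j * ↑d)) ∣[k] tU (-j * ↑d) = w ∣[k] tU (-j * ↑d) := by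
        rw [h1]
      rw [← SlashAction.slash_mul, ← tU_add, slash_tU_mul hwT] at h2
      have e : j * (d : ℤ) + -j * (d : ℤ) = 0 := by ring
      rwa [e, tU_zero, SlashAction.slash_one] at h2
    -- the two pieces
    set v₁ : ℍ → ℂ := avg k N J F with hv₁
    have hv₁𝒮 : v₁ ∈ 𝒮 := avg_mem J h𝒮 hF𝒮
    have hv₁J : SlInv k J v₁ := avg_slInv hFΓ
    have hv₁H : SlInv k (Gamma P ⊓ GammaU (P * m)) v₁ := by
      intro h hh
      rw [hv₁, avg_slash_comm hFΓ (g := h), hF h (by rw [← hPm]; exact hh.2)]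
      intro γ hγ
      exact comm_mem_Gamma (by rw [mul_comm, hPm]) hγ.1 hh.1
    have hv₁U : SlInv k (GammaU d) v₁ := by
      intro g hg
      obtain ⟨g₁, hg₁, g₂, hg₂, rfl⟩ := exists_mul_of_mem_GammaU hcop hmd hdN hg
      rw [SlashAction.slash_mul, hv₁J g₁ hg₁, hv₁H g₂ hg₂]
    have hv₂𝒮 : F - v₁ ∈ 𝒮 := 𝒮.sub_mem hF𝒮 hv₁𝒮
    have hv₂U : SlInv k (GammaU N) (F - v₁) := hF.sub (hv₁U.mono (GammaU_mono hdN'))
    have hv₂K : killL k N L (F - v₁) = 0 := by
      rw [killL_sub, hv₁, killL_avg_comm L hFΓ hJq, ← hw, avg_of_slInv hwJ, sub_self]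
    obtain ⟨G, hG, hGsum⟩ := ih hndL hL' (F - v₁) hv₂𝒮 hv₂U hv₂K
    refine ⟨Function.update G p v₁, ?_, ?_⟩
    · intro q hqL
      rcases List.mem_cons.mp hqL with rfl | hqL'
      · rw [Function.update_self]
        exact ⟨hv₁𝒮, hv₁U⟩
      · have hqp : q ≠ p := fun h => hpL (h ▸ hqL')
        rw [Function.update_of_ne hqp]
        exact hG q hqL'
    · rw [List.map_cons, List.sum_cons, Function.update_self]
      have e : L.map (Function.update G p v₁) = L.map G := by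
        apply List.map_congr_left
        intro q hqL
        have hqp : q ≠ p := fun h => hpL (h ▸ hqL)
        rw [Function.update_of_ne hqp]
      rw [e, ← hGsum]
      abel

end Fermat.Agent.Lib.Newform.H803

end
-- ===== PACK-END Lib/Newform/H803/Main.lean

-- ===== PACK-BEGIN Lib/Newform/H803/Cuspidal.lean
section



/-!
# Cuspidal functions (helper803)

`IsCuspidal k F`: `F : ℍ → ℂ` is holomorphic and vanishes (in weight `k`) at every rational cusp.
This class is stable under the slash action of `GL(2, ℚ)`, contains all cusp forms for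
arithmetic subgroups, and an `IsCuspidal` function invariant under `Γ ≤ SL(2, ℤ)` is a cusp form
for `Γ`.
-/

set_option autoImplicit false

namespace Fermat.Agent.Lib.Newform.H803

open Matrix Matrix.SpecialLinearGroup CongruenceSubgroup UpperHalfPlane ModularForm OnePoint
open scoped MatrixGroups ModularForm Manifold Pointwise

variable {k : ℤ}

/-- Holomorphic and vanishing at all rational cusps. -/
def IsCuspidal (k : ℤ) (F : ℍ → ℂ) : Prop :=
  MDiff F ∧ ∀ c : OnePoint ℝ, IsCusp c 𝒮ℒ → c.IsZeroAt F k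

theorem IsCuspidal.add {F G : ℍ → ℂ} (hF : IsCuspidal k F) (hG : IsCuspidal k G) :
    IsCuspidal k (F + G) :=
  ⟨hF.1.add hG.1, fun c hc => (hF.2 c hc).add (hG.2 c hc)⟩

theorem IsCuspidal.zero : IsCuspidal k (0 : ℍ → ℂ) := by
  refine ⟨mdifferentiable_const, fun c _ g _ => ?_⟩
  rw [SlashAction.zero_slash]
  exact Filter.zero_zeroAtFilter _

theorem IsCuspidal.smul {F : ℍ → ℂ} (a : ℂ) (hF : IsCuspidal k F) : IsCuspidal k (a • F) := by
  refine ⟨hF.1.const_smul a, fun c hc g hg => ?_⟩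
  rw [ModularForm.smul_slash]
  exact Filter.ZeroAtFilter.smul _ (hF.2 c hc g hg)

/-- The submodule of cuspidal functions. -/
def cuspSub (k : ℤ) : Submodule ℂ (ℍ → ℂ) where
  carrier := {F | IsCuspidal k F}
  add_mem' := fun hF hG => hF.add hG
  zero_mem' := IsCuspidal.zero
  smul_mem' := fun a _ hF => hF.smul a

@[simp] theorem mem_cuspSub {F : ℍ → ℂ} : F ∈ cuspSub k ↔ IsCuspidal k F := Iff.rfl

/-- Stability under the slash action of rational matrices. -/
theorem IsCuspidal.slash_rat {F : ℍ → ℂ} (hF : IsCuspidal k F) (g : GL (Fin 2) ℚ) :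
    IsCuspidal k (F ∣[k] (g.map (Rat.castHom ℝ))) := by
  refine ⟨hF.1.slash k _, fun c hc => ?_⟩
  rw [← IsZeroAt.smul_iff]
  apply hF.2
  have h1 := hc.smul (g.map (Rat.castHom ℝ))
  have := isArithmetic_conj_SL2Z g
  exact (Subgroup.IsArithmetic.isCusp_iff_isCusp_SL2Z _).mp h1

/-- Stability under the slash action of `SL(2, ℤ)`. -/
theorem IsCuspidal.slash_SL {F : ℍ → ℂ} (hF : IsCuspidal k F) (γ : SL(2, ℤ)) :
    IsCuspidal k (F ∣[k] γ) := by
  refine ⟨hF.1.slash k _, fun c hc => ?_⟩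
  rw [ModularForm.SL_slash, ← IsZeroAt.smul_iff]
  apply hF.2
  exact hc.smul_of_mem ⟨γ, rfl⟩

theorem cuspSub_slash_stable : ∀ F ∈ cuspSub k, ∀ γ : SL(2, ℤ), F ∣[k] γ ∈ cuspSub k :=
  fun _ hF γ => IsCuspidal.slash_SL hF γ

/-- Cusp forms for arithmetic subgroups are cuspidal. -/
theorem isCuspidal_of_cuspForm {Γ : Subgroup (GL (Fin 2) ℝ)} [Γ.IsArithmetic]
    (f : CuspForm Γ k) : IsCuspidal k (f : ℍ → ℂ) :=
  ⟨f.holo', fun _ hc => f.zero_at_cusps' ((Subgroup.IsArithmetic.isCusp_iff_isCusp_SL2Z Γ).mpr hc)⟩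

/-- A cuspidal function invariant under `Γ ≤ SL(2, ℤ)` is a cusp form for `Γ`. -/
def cuspFormOfIsCuspidal (Γ : Subgroup SL(2, ℤ)) (F : ℍ → ℂ) (hF : IsCuspidal k F)
    (hinv : SlInv k Γ F) : CuspForm Γ k where
  toFun := F
  slash_action_eq' := by
    rintro γ ⟨γ', hγ', rfl⟩
    exact hinv γ' hγ'
  holo' := hF.1
  zero_at_cusps' := fun {c} hc => hF.2 c (hc.mono (by
    rintro γ ⟨γ', _, rfl⟩
    exact ⟨γ', rfl⟩))

@[simp] theorem coe_cuspFormOfIsCuspidal (Γ : Subgroup SL(2, ℤ)) (F : ℍ → ℂ)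
    (hF : IsCuspidal k F) (hinv : SlInv k Γ F) :
    ((cuspFormOfIsCuspidal Γ F hF hinv : CuspForm Γ k) : ℍ → ℂ) = F := rfl

end Fermat.Agent.Lib.Newform.H803

end
-- ===== PACK-END Lib/Newform/H803/Cuspidal.lean

-- ===== PACK-BEGIN Lib/Newform/H743/Vanish.lean
section



/-!
# NEWFORM library (helper743), part 3: the case `q ∤ N`

If `f ∈ S_k(Γ₀(N))`, `q` is a prime not dividing `N` and `a_n(f) = 0` whenever `q ∤ n`, then
`f = 0`.  (Petersson-free: `U_q f` is again of level `N` and again has period `1/q`, by an explicit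
matrix identity; then induct on the index of the coefficient.)
-/

set_option autoImplicit false

open UpperHalfPlane ModularForm Function Complex CongruenceSubgroup Matrix.SpecialLinearGroup
open scoped MatrixGroups ModularForm Manifold Topology Real

namespace Fermat.Agent.Lib.Newform.H743

noncomputable section

lemma coe_mapGL_eq_of (γ : SL(2, ℤ)) :
    ((mapGL ℝ γ : GL (Fin 2) ℝ) : Matrix (Fin 2) (Fin 2) ℝ) =
      !![(γ 0 0 : ℝ), (γ 0 1 : ℝ); (γ 1 0 : ℝ), (γ 1 1 : ℝ)] := by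
  ext i j
  fin_cases i <;> fin_cases j <;> simp

/-- The key matrix identity `β γ_h u = γ₀ β γ_h`, where `β = [1, 0; 0, q]`, `u = [1, 1/q; 0, 1]`,
`γ_h = [q, b; N, d]` and `γ₀ = [1 - N, 1; -N², 1 + N]`. -/
lemma key_matrix_identity {q : ℕ} (hq : q ≠ 0) (N : ℤ) (γh γ0 : SL(2, ℤ))
    (h00 : γh 0 0 = q) (h10 : γh 1 0 = N) (hdet : (q : ℤ) * γh 1 1 - γh 0 1 * N = 1)
    (g00 : γ0 0 0 = 1 - N) (g01 : γ0 0 1 = 1) (g10 : γ0 1 0 = -N ^ 2) (g11 : γ0 1 1 = 1 + N) :
    heckeMatrix q 0 * mapGL ℝ γh * Matrix.GeneralLinearGroup.upperRightHom ((1 / q : ℝ) : ℝ) =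
      mapGL ℝ γ0 * heckeMatrix q 0 * mapGL ℝ γh := by
  have hq' : (q : ℝ) ≠ 0 := by exact_mod_cast hq
  have hdet' : (q : ℝ) * (γh 1 1 : ℝ) - (γh 0 1 : ℝ) * (N : ℝ) = 1 := by exact_mod_cast hdet
  apply Units.ext
  simp only [Units.val_mul, coe_mapGL_eq_of, val_heckeMatrix hq,
    Matrix.GeneralLinearGroup.upperRightHom_apply, Matrix.mul_fin_two, h00, h10, g00, g01, g10,
    g11]
  ext i j
  fin_cases i <;> fin_cases j
  · simp
    ring
  · simp
    field_simp
    linear_combination (-(1 : ℝ)) * hdet'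
  · simp
    ring
  · simp
    field_simp
    linear_combination (-(N : ℝ)) * hdet'

/-- Existence of the two integral matrices used in `key_matrix_identity`. -/
lemma exists_key_matrices {q N : ℕ} (hq : q.Prime) (hqN : ¬ q ∣ N) :
    ∃ γh ∈ Gamma0 N, ∃ γ0 ∈ Gamma0 N,
      heckeMatrix q 0 * mapGL ℝ γh * Matrix.GeneralLinearGroup.upperRightHom ((1 / q : ℝ) : ℝ) =
        mapGL ℝ γ0 * heckeMatrix q 0 * mapGL ℝ γh := by
  have hcop : IsCoprime (q : ℤ) (N : ℤ) := by
    rw [Prime.coprime_iff_not_dvd (Nat.prime_iff_prime_int.mp hq)]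
    exact_mod_cast hqN
  obtain ⟨x, y, hxy⟩ := hcop
  have hdh : (!![(q : ℤ), -y; (N : ℤ), x] : Matrix (Fin 2) (Fin 2) ℤ).det = 1 := by
    rw [Matrix.det_fin_two_of]
    linear_combination hxy
  have hd0 : (!![1 - (N : ℤ), 1; -(N : ℤ) ^ 2, 1 + (N : ℤ)] : Matrix (Fin 2) (Fin 2) ℤ).det = 1 := by
    rw [Matrix.det_fin_two_of]
    ring
  let γh : SL(2, ℤ) := ⟨!![(q : ℤ), -y; (N : ℤ), x], hdh⟩
  let γ0 : SL(2, ℤ) := ⟨!![1 - (N : ℤ), 1; -(N : ℤ) ^ 2, 1 + (N : ℤ)], hd0⟩
  have h00 : γh 0 0 = q := rfl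
  have h01 : γh 0 1 = -y := rfl
  have h10 : γh 1 0 = N := rfl
  have h11 : γh 1 1 = x := rfl
  have g00 : γ0 0 0 = 1 - N := rfl
  have g01 : γ0 0 1 = 1 := rfl
  have g10 : γ0 1 0 = -(N : ℤ) ^ 2 := rfl
  have g11 : γ0 1 1 = 1 + N := rfl
  refine ⟨γh, ?_, γ0, ?_, ?_⟩
  · rw [Gamma0_mem, h10]
    simp
  · rw [Gamma0_mem, g10]
    simp
  · refine key_matrix_identity hq.ne_zero N γh γ0 h00 h10 ?_ g00 g01 g10 g11
    rw [h01, h11]
    linear_combination hxy

/-- If `F` is `Γ₀(N)`-invariant with `q ∤ N` and has period `1/q`, then `U_q F` is invariant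
under `[1, 1/q; 0, 1]`. -/
theorem heckeU_slash_upperRightHom {N q : ℕ} (hq : q.Prime) (hqN : ¬ q ∣ N) (k : ℤ)
    {F : ℍ → ℂ} (hF : ∀ γ ∈ (Gamma0 N : Subgroup (GL (Fin 2) ℝ)), F ∣[k] γ = F)
    (hper : Periodic (F ∘ ofComplex) ((1 / q : ℝ) : ℝ)) :
    heckeU k q F ∣[k] Matrix.GeneralLinearGroup.upperRightHom ((1 / q : ℝ) : ℝ) =
      heckeU k q F := by
  obtain ⟨γh, hγh, γ0, hγ0, hkey⟩ := exists_key_matrices hq hqN
  have hG := heckeU_slash_eq_self_of_periodic hq (dvd_mul_left N q) k hF hper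
    (mapGL ℝ γh) ⟨γh, hγh, rfl⟩
  have hsum := heckeU_eq_sum_of_periodic k hq.ne_zero hper
  calc heckeU k q F ∣[k] Matrix.GeneralLinearGroup.upperRightHom ((1 / q : ℝ) : ℝ)
      = (heckeU k q F ∣[k] mapGL ℝ γh) ∣[k]
          Matrix.GeneralLinearGroup.upperRightHom ((1 / q : ℝ) : ℝ) := by rw [hG]
    _ = ∑ _j ∈ Finset.range q, F ∣[k] (heckeMatrix q 0 * mapGL ℝ γh *
          Matrix.GeneralLinearGroup.upperRightHom ((1 / q : ℝ) : ℝ)) := by
        rw [hsum, SlashAction.sum_slash, SlashAction.sum_slash]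
        refine Finset.sum_congr rfl fun _ _ => ?_
        rw [SlashAction.slash_mul, SlashAction.slash_mul]
    _ = ∑ _j ∈ Finset.range q, (F ∣[k] heckeMatrix q 0) ∣[k] mapGL ℝ γh := by
        refine Finset.sum_congr rfl fun _ _ => ?_
        rw [hkey, SlashAction.slash_mul, SlashAction.slash_mul, hF _ ⟨γ0, hγ0, rfl⟩]
    _ = heckeU k q F ∣[k] mapGL ℝ γh := by
        rw [hsum, SlashAction.sum_slash]
    _ = heckeU k q F := hG

/-- Converse of `apply_vadd_of_periodic`. -/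
lemma periodic_of_apply_vadd {F : ℍ → ℂ} {h : ℝ} (hF : ∀ τ : ℍ, F (h +ᵥ τ) = F τ) :
    Periodic (F ∘ ofComplex) h := by
  intro w
  by_cases! hw : 0 < im w
  · have hw' : 0 < im (w + (h : ℂ)) := by simpa using hw
    simp only [comp_apply, ofComplex_apply_of_im_pos hw', ofComplex_apply_of_im_pos hw]
    rw [← hF ⟨w, hw⟩]
    congr 1
    ext
    simp [add_comm]
  · have : im (w + (h : ℂ)) ≤ 0 := by simpa using hw
    rw [comp_apply, comp_apply, ofComplex_apply_of_im_nonpos this,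
      ofComplex_apply_of_im_nonpos hw]

/-- If `F` is `Γ₀(N)`-invariant with `q ∤ N` and has period `1/q`, then so does `U_q F`. -/
theorem periodic_heckeU_of_not_dvd {N q : ℕ} (hq : q.Prime) (hqN : ¬ q ∣ N) (k : ℤ)
    {F : ℍ → ℂ} (hF : ∀ γ ∈ (Gamma0 N : Subgroup (GL (Fin 2) ℝ)), F ∣[k] γ = F)
    (hper : Periodic (F ∘ ofComplex) ((1 / q : ℝ) : ℝ)) :
    Periodic (heckeU k q F ∘ ofComplex) ((1 / q : ℝ) : ℝ) := by
  apply periodic_of_apply_vadd
  intro τ
  have h1 := slash_upperRightHom_apply k (heckeU k q F) ((1 / q : ℝ) : ℝ) τ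
  rw [heckeU_slash_upperRightHom hq hqN k hF hper] at h1
  exact h1.symm

/-- For `q ∤ N`, the cusp form `U_q f` of level `N` again has vanishing coefficients at all
indices prime to `q`. -/
theorem qCoeff_heckeULower_eq_zero {N q : ℕ} [NeZero N] (hq : q.Prime) (hqN : ¬ q ∣ N) {k : ℤ}
    (f : CuspForm (Gamma0 N) k) (h0 : ∀ n : ℕ, ¬ q ∣ n → ModularFormClass.qCoeff f n = 0)
    (n : ℕ) (hn : ¬ q ∣ n) :
    ModularFormClass.qCoeff (heckeULower hq (dvd_mul_left N q) f h0) n = 0 := by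
  have hΓ := CongruenceSubgroup.one_mem_strictPeriods_Gamma0 N
  have : Fact (IsCusp OnePoint.infty (Gamma0 N : Subgroup (GL (Fin 2) ℝ))) :=
    ⟨Subgroup.isCusp_of_mem_strictPeriods one_pos hΓ⟩
  have hper := periodic_heckeU_of_not_dvd hq hqN k
    (fun γ hγ => SlashInvariantFormClass.slash_action_eq f γ hγ)
    (periodic_of_qCoeff_eq_zero f hq.ne_zero h0)
  exact coeff_eq_zero_of_periodic hq.ne_zero hper
    (CuspFormClass.holo (heckeULower hq (dvd_mul_left N q) f h0))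
    (ModularFormClass.bdd_at_infty (heckeULower hq (dvd_mul_left N q) f h0)) hn

/-- All coefficients vanish. -/
theorem qCoeff_eq_zero_of_not_dvd_level {N q : ℕ} [NeZero N] (hq : q.Prime) (hqN : ¬ q ∣ N)
    {k : ℤ} (n : ℕ) : ∀ (f : CuspForm (Gamma0 N) k),
      (∀ n : ℕ, ¬ q ∣ n → ModularFormClass.qCoeff f n = 0) → ModularFormClass.qCoeff f n = 0 := by
  induction n using Nat.strong_induction_on with
  | _ n ih =>
    intro f h0
    by_cases hn : q ∣ n
    · obtain ⟨m, rfl⟩ := hn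
      rcases Nat.eq_zero_or_pos m with rfl | hm
      · rw [mul_zero]
        exact CuspFormClass.qExpansion_coeff_zero f one_pos
          (CongruenceSubgroup.one_mem_strictPeriods_Gamma0 N)
      · have hlt : m < q * m := by
          have := hq.one_lt
          nlinarith
        have := ih m hlt (heckeULower hq (dvd_mul_left N q) f h0)
          (qCoeff_heckeULower_eq_zero hq hqN f h0)
        rw [qCoeff_heckeULower] at this
        rwa [mul_comm]
    · exact h0 n hn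

/-- **Vanishing for `q ∤ N`.**  A cusp form of level `Γ₀(N)` whose `q`-expansion is supported on
multiples of a prime `q ∤ N` is zero. -/
theorem eq_zero_of_qCoeff_eq_zero_of_not_dvd_level {N q : ℕ} [NeZero N] (hq : q.Prime)
    (hqN : ¬ q ∣ N) {k : ℤ} (f : CuspForm (Gamma0 N) k)
    (h0 : ∀ n : ℕ, ¬ q ∣ n → ModularFormClass.qCoeff f n = 0) : f = 0 := by
  have hΓ := CongruenceSubgroup.one_mem_strictPeriods_Gamma0 N
  have : Fact (IsCusp OnePoint.infty (Gamma0 N : Subgroup (GL (Fin 2) ℝ))) :=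
    ⟨Subgroup.isCusp_of_mem_strictPeriods one_pos hΓ⟩
  have h1 : qExpansion 1 (f : ℍ → ℂ) = 0 := by
    ext n
    rw [map_zero]
    exact qCoeff_eq_zero_of_not_dvd_level hq hqN n f h0
  have h2 := (UpperHalfPlane.qExpansion_eq_zero_iff one_pos
    (SlashInvariantFormClass.periodic_comp_ofComplex f hΓ)
    (CuspFormClass.holo f) (ModularFormClass.bdd_at_infty f)).mp h1
  exact DFunLike.coe_injective h2

end

end Fermat.Agent.Lib.Newform.H743

end
-- ===== PACK-END Lib/Newform/H743/Vanish.lean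

-- ===== PACK-BEGIN Lib/Newform/H683/Extract.lean
section
/-
NEWFORM library (helper683) — part 3: EXTRACTION of a normalized eigenform from any nonzero
common eigenvector of the good Hecke operators, and existence of a newform below any eigenform.
-/







set_option autoImplicit false

open CongruenceSubgroup ModularFormClass ModularForm UpperHalfPlane

namespace Fermat.Agent.Lib.Newform.H683

variable {M : ℕ}

/-- The full family of Hecke operators at level `M`, indexed by the primes: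
`T_p` for `p ∤ M` and `U_p` for `p ∣ M`. -/
noncomputable def heckeFamily (M : ℕ) [NeZero M] (p : Nat.Primes) :
    Module.End ℂ (CuspForm (Gamma0 M) 2) :=
  if hpM : (p : ℕ) ∣ M then CuspForm.heckeULin 2 hpM else CuspForm.heckeTLin 2 p.2 hpM

theorem heckeFamily_of_dvd [NeZero M] (p : Nat.Primes) (hpM : (p : ℕ) ∣ M) :
    heckeFamily M p = CuspForm.heckeULin 2 hpM := by
  simp [heckeFamily, hpM]

theorem heckeFamily_of_not_dvd [NeZero M] (p : Nat.Primes) (hpM : ¬ (p : ℕ) ∣ M) :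
    heckeFamily M p = CuspForm.heckeTLin 2 p.2 hpM := by
  simp [heckeFamily, hpM]

theorem heckeFamily_commute [NeZero M] (p q : Nat.Primes) :
    Commute (heckeFamily M p) (heckeFamily M q) := by
  by_cases hp : (p : ℕ) ∣ M <;> by_cases hq : (q : ℕ) ∣ M
  · rw [heckeFamily_of_dvd p hp, heckeFamily_of_dvd q hq]
    exact CuspForm.heckeULin_comm 2 hp hq
  · rw [heckeFamily_of_dvd p hp, heckeFamily_of_not_dvd q hq]
    exact (CuspForm.heckeTLin_heckeULin_comm 2 q.2 hq hp).symm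
  · rw [heckeFamily_of_not_dvd p hp, heckeFamily_of_dvd q hq]
    exact CuspForm.heckeTLin_heckeULin_comm 2 p.2 hp hq
  · rw [heckeFamily_of_not_dvd p hp, heckeFamily_of_not_dvd q hq]
    exact CuspForm.heckeTLin_comm 2 p.2 hp q.2 hq

/-- The simultaneous eigenspace of the `T_ℓ`, `ℓ ∤ M`, `ℓ ∈ P`, for the eigenvalues `a ℓ`. -/
noncomputable def eigenSub (M : ℕ) [NeZero M] (P : ℕ → Prop) (a : ℕ → ℂ) :
    Submodule ℂ (CuspForm (Gamma0 M) 2) where
  carrier := {v | ∀ ℓ : ℕ, ℓ.Prime → ¬ ℓ ∣ M → P ℓ → heckeT 2 ℓ ⇑v = a ℓ • ⇑v}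
  add_mem' := by
    intro v w hv hw ℓ h1 h2 h3
    rw [FunLike.coe_add, heckeT_add, hv ℓ h1 h2 h3, hw ℓ h1 h2 h3, smul_add]
  zero_mem' := by
    intro ℓ _ _ _
    rw [FunLike.coe_zero, heckeT_zero, smul_zero]
  smul_mem' := by
    intro c v hv ℓ h1 h2 h3
    rw [FunLike.coe_smul, heckeT_smul, hv ℓ h1 h2 h3, smul_comm]

theorem mem_eigenSub [NeZero M] (P : ℕ → Prop) (a : ℕ → ℂ) (v : CuspForm (Gamma0 M) 2) :
    v ∈ eigenSub M P a ↔
      ∀ ℓ : ℕ, ℓ.Prime → ¬ ℓ ∣ M → P ℓ → heckeT 2 ℓ ⇑v = a ℓ • ⇑v := Iff.rfl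

theorem eigenSub_stable [NeZero M] (P : ℕ → Prop) (a : ℕ → ℂ) (p : Nat.Primes)
    (v : CuspForm (Gamma0 M) 2) (hv : v ∈ eigenSub M P a) :
    heckeFamily M p v ∈ eigenSub M P a := by
  intro ℓ hℓ hℓM hPℓ
  have hcm := heckeFamily_commute (M := M) ⟨ℓ, hℓ⟩ p
  rw [heckeFamily_of_not_dvd ⟨ℓ, hℓ⟩ hℓM] at hcm
  have h1 : CuspForm.heckeTLin 2 hℓ hℓM (heckeFamily M p v)
      = heckeFamily M p (CuspForm.heckeTLin 2 hℓ hℓM v) := by
    have := congrArg (fun f : Module.End ℂ (CuspForm (Gamma0 M) 2) => f v) hcm.eq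
    simpa using this
  have h2 : CuspForm.heckeTLin 2 hℓ hℓM v = a ℓ • v := by
    apply DFunLike.coe_injective
    rw [CuspForm.coe_heckeTLin_apply, hv ℓ hℓ hℓM hPℓ, FunLike.coe_smul]
  rw [h2, map_smul] at h1
  have := congrArg (fun g : CuspForm (Gamma0 M) 2 => (⇑g : ℍ → ℂ)) h1
  simpa using this

/-- **(E2) Extraction.** If some nonzero cusp form of level `M` is an eigenvector of the `T_ℓ`
for all primes `ℓ ∤ M` in a set `P`, with eigenvalues `a ℓ`, then there is a *normalized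
eigenform* (Prelude sense: all `T_p`, `p ∤ M`, and all `U_p`, `p ∣ M`) of level `M` whose `ℓ`-th
coefficient is `a ℓ` for all those `ℓ`. -/
theorem exists_normalizedEigenform_of_eigenvector [NeZero M] (P : ℕ → Prop) (a : ℕ → ℂ)
    (h : CuspForm (Gamma0 M) 2) (hh : h ≠ 0)
    (heig : ∀ ℓ : ℕ, ℓ.Prime → ¬ ℓ ∣ M → P ℓ → heckeT 2 ℓ ⇑h = a ℓ • ⇑h) :
    ∃ g : CuspForm (Gamma0 M) 2, g.IsNormalizedEigenform ∧
      ∀ ℓ : ℕ, ℓ.Prime → ¬ ℓ ∣ M → P ℓ → qCoeff ⇑g ℓ = a ℓ := by
  haveI := finiteDimensional_cuspForm M 2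
  have hE : eigenSub M P a ≠ ⊥ := by
    intro hbot
    have : h ∈ (⊥ : Submodule ℂ (CuspForm (Gamma0 M) 2)) := hbot ▸ heig
    exact hh (by simpa using this)
  obtain ⟨g₀, hg₀E, hg₀, hg₀eig⟩ := exists_common_eigenvector (heckeFamily M)
    heckeFamily_commute (eigenSub M P a) hE (fun p v hv => eigenSub_stable P a p v hv)
  have hT : ∀ p : ℕ, p.Prime → ¬ p ∣ M → ∃ c : ℂ, heckeT 2 p ⇑g₀ = c • ⇑g₀ := by
    intro p hp hpM
    obtain ⟨c, hc⟩ := hg₀eig ⟨p, hp⟩
    rw [heckeFamily_of_not_dvd ⟨p, hp⟩ hpM] at hc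
    refine ⟨c, ?_⟩
    have := congrArg (fun g : CuspForm (Gamma0 M) 2 => (⇑g : ℍ → ℂ)) hc
    simpa using this
  have hU : ∀ p : ℕ, p.Prime → p ∣ M → ∃ c : ℂ, heckeU 2 p ⇑g₀ = c • ⇑g₀ := by
    intro p hp hpM
    obtain ⟨c, hc⟩ := hg₀eig ⟨p, hp⟩
    rw [heckeFamily_of_dvd ⟨p, hp⟩ hpM] at hc
    refine ⟨c, ?_⟩
    have := congrArg (fun g : CuspForm (Gamma0 M) 2 => (⇑g : ℍ → ℂ)) hc
    simpa using this
  have h1 : qCoeff ⇑g₀ 1 ≠ 0 := fun h0 =>
    hg₀ (eq_zero_of_eigen_of_coeff_one_eq_zero g₀ hT hU h0)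
  set c₀ : ℂ := (qCoeff ⇑g₀ 1)⁻¹ with hc₀
  have hc₀ne : c₀ ≠ 0 := inv_ne_zero h1
  refine ⟨c₀ • g₀, ?_, ?_⟩
  · apply isNormalizedEigenform_of_eigen
    · rw [qCoeff_smul_cusp, hc₀, inv_mul_cancel₀ h1]
    · intro p hp hpM
      obtain ⟨c, hc⟩ := hT p hp hpM
      exact ⟨c, by rw [FunLike.coe_smul, heckeT_smul, hc, smul_comm]⟩
    · intro p hp hpM
      obtain ⟨c, hc⟩ := hU p hp hpM
      exact ⟨c, by rw [FunLike.coe_smul, heckeU_smul, hc, smul_comm]⟩
  · intro ℓ hℓ hℓM hPℓ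
    have hmem : c₀ • g₀ ∈ eigenSub M P a := Submodule.smul_mem _ _ hg₀E
    have := eigenvalue_T_eq_coeff (c₀ • g₀)
      (by rw [qCoeff_smul_cusp, hc₀, inv_mul_cancel₀ h1]) hℓ (a ℓ) (hmem ℓ hℓ hℓM hPℓ)
    exact this.symm

/-- **(E3) Newform below.** Every normalized eigenform `f` of level `N` shares its good
eigenvalues with a *newform* (Prelude sense) of some level `M ∣ N`. -/
theorem exists_newform_below {N : ℕ} (hN : N ≠ 0) (f : CuspForm (Gamma0 N) 2)
    (hf : f.IsNormalizedEigenform) :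
    ∃ (M : ℕ) (_ : M ∣ N) (g : CuspForm (Gamma0 M) 2), g.IsNewform ∧
      ∀ ℓ : ℕ, ℓ.Prime → ¬ ℓ ∣ N → qCoeff ⇑g ℓ = qCoeff ⇑f ℓ := by
  induction N using Nat.strong_induction_on with
  | _ N ih =>
    by_cases hnew : f.IsNewform
    · exact ⟨N, dvd_rfl, f, hnew, fun _ _ _ => rfl⟩
    · have : ∃ M : ℕ, M ∣ N ∧ M ≠ N ∧ CuspForm.GoodEigensystemOccursAt f M := by
        by_contra hcon
        push Not at hcon
        exact hnew ⟨hf, fun M hM hMN hocc => hcon M hM hMN hocc⟩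
      obtain ⟨M, hMN, hne, g, hg, hgf⟩ := this
      have hM0 : M ≠ 0 := fun h0 => hN (by simpa [h0] using hMN)
      have hlt : M < N := lt_of_le_of_ne (Nat.le_of_dvd (Nat.pos_of_ne_zero hN) hMN) hne
      obtain ⟨M', hM'M, g', hg', hg'g⟩ := ih M hlt hM0 g hg
      refine ⟨M', hM'M.trans hMN, g', hg', fun ℓ hℓ hℓN => ?_⟩
      rw [hg'g ℓ hℓ (fun h => hℓN (h.trans hMN)), hgf ℓ hℓ hℓN]

end Fermat.Agent.Lib.Newform.H683

end
-- ===== PACK-END Lib/Newform/H683/Extract.lean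

-- ===== PACK-BEGIN Lib/Newform/H563/LowerU.lean
section



/-!
# NEWFORM library (helper563): leaf `LowerU` of the frozen interface `H958/Spec.lean`.
-/

set_option autoImplicit false

noncomputable section

namespace Fermat.Agent.Lib.Newform.H563

open UpperHalfPlane ModularForm CongruenceSubgroup ModularFormClass
open scoped MatrixGroups Manifold

/-- Leaf **LOWER-U**: if `q² ∣ N` then `U_q` maps level `N` to level `N / q`. -/
theorem lowerU : H958.LowerU := by
  intro N q _ hq hq2 f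
  obtain ⟨M, hM⟩ : q ∣ N := dvd_trans (dvd_pow_self q two_ne_zero) hq2
  have hqM : q ∣ M := by
    rw [hM, pow_two] at hq2
    exact (Nat.mul_dvd_mul_iff_left hq.pos).mp hq2
  have hN0 : N ≠ 0 := NeZero.ne N
  have hM0 : M ≠ 0 := by rintro rfl; exact hN0 (by simpa using hM)
  have hdiv : N / q = M := by rw [hM]; exact Nat.mul_div_cancel_left M hq.pos
  have : NeZero M := ⟨hM0⟩
  have : NeZero q := ⟨hq.ne_zero⟩
  have hfN : ∀ γ ∈ (Gamma0 (q * M) : Subgroup (GL (Fin 2) ℝ)), (⇑f) ∣[(2 : ℤ)] γ = ⇑f := by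
    intro γ hγ
    rw [← hM] at hγ
    exact SlashInvariantFormClass.slash_action_eq f γ hγ
  have hinv : ∀ γ ∈ (Gamma0 M : Subgroup (GL (Fin 2) ℝ)),
      (⇑(CuspForm.heckeULin 2 (hM ▸ dvd_mul_right q M : q ∣ N) f)) ∣[(2 : ℤ)] γ
        = ⇑(CuspForm.heckeULin 2 (hM ▸ dvd_mul_right q M : q ∣ N) f) := by
    intro γ hγ
    exact heckeU_slash_of_dvd (2 : ℤ) hqM hfN γ hγ
  rw [hdiv]
  exact ⟨lowerLevel _ hinv, rfl⟩

end Fermat.Agent.Lib.Newform.H563

end
end
-- ===== PACK-END Lib/Newform/H563/LowerU.lean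

-- ===== PACK-BEGIN S36/H630/CoverLocal.lean
section


/-!
# S36 engine, LABEL core (helper630), part 2: COVER-LOCAL

`F ⊆ Z` fields, `B ⊆ F` and `C ⊆ Z` charts with `B ⊆ C`, `𝔫` a closed point of `C` lying over the
closed point `n` of `B`.  `G ∈ Z` is a Kummer generator, `G ^ m = u ∈ F`, and `d ∈ F` is a purity
datum of `u` at `n`: `u d ^ m` is a unit of `B_n` (`u d ^ m s = a`, `a, s ∈ B ∖ n`).

If `W`, `W'` are sheets of `Z` through `𝔫`, with labels `G ≡ ζ` on `W`, `G ≡ ζ'` on `W'`, and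
`d` has the values `η`, `η'` at `n` along the sheets `W ∩ F`, `W' ∩ F` of `F`, then

  `ζ η ≡ ζ' η'`  modulo `𝔫`                                   (`cover_local`).

No henselisation, no fibre products, no reducedness: the cover is étale at `𝔫` because `u d ^ m`
is a unit, and this is used only through "`s G d` is integral, hence lies in `C`".
-/

set_option autoImplicit false
set_option linter.unusedSectionVars false

namespace Fermat.Agent.S36.H630

variable {R : Type*} [CommRing R] {F : Type*} [Field F] [Algebra R F]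
variable {Z : Type*} [Field Z] [Algebra R Z] [Algebra F Z] [IsScalarTower R F Z]

/-- membership in the maximal ideal of the restriction of a sheet to a subfield -/
theorem mem_nonunits_comap_iff (W : ValuationSubring Z) (y : F) :
    y ∈ (W.comap (algebraMap F Z)).nonunits ↔ algebraMap F Z y ∈ W.nonunits := by
  rw [ValuationSubring.mem_nonunits_iff_or, ValuationSubring.mem_nonunits_iff_or,
    ValuationSubring.mem_comap, map_inv₀, map_eq_zero]

/-- If `y` has the value `η` at `𝔫` along `W` and `s y = c` with `s, c` in the chart, `s ∉ 𝔫`,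
then `c ≡ η s` modulo `𝔫`. -/
theorem ValAt.frac_mem {C : Subalgebra R Z} {𝔫 : Ideal C} [𝔫.IsPrime] {W : ValuationSubring Z}
    (hCW : ChartLe C W) (hth : PassThrough C 𝔫 W) {y : Z} {η : R} (h : ValAt C 𝔫 W y η)
    {s c : C} (hsc : (s : Z) * y = c) : c - algebraMap R C η * s ∈ 𝔫 := by
  obtain ⟨a, b, hb, hV, hn⟩ := h
  have h1 : ((b * c - s * a : C) : Z) ∈ W.nonunits := by
    have : ((b * c - s * a : C) : Z) = (s : Z) * ((b : Z) * y - a) := by
      push_cast
      rw [← hsc]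
      ring
    rw [this]
    exact vnu_mul_left W hV (hCW s)
  have h2 : b * c - s * a ∈ 𝔫 := hth _ h1
  have h3 : b * (c - algebraMap R C η * s) ∈ 𝔫 := by
    have : b * (c - algebraMap R C η * s)
        = (b * c - s * a) + s * (a - algebraMap R C η * b) := by ring
    rw [this]
    exact 𝔫.add_mem h2 (𝔫.mul_mem_left _ hn)
  rcases (Ideal.IsPrime.mem_or_mem ‹𝔫.IsPrime› h3) with h5 | h5
  · exact absurd h5 hb
  · exact h5

section Transfer

variable {B : Subalgebra R F} {C : Subalgebra R Z}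
variable {n : Ideal B} {𝔫 : Ideal C}

/-- The sheet `W ∩ F` passes through `n = 𝔫 ∩ B` if `W` passes through `𝔫`. -/
theorem PassThrough.comap (hBC : ∀ b : B, algebraMap F Z (b : F) ∈ C) {W : ValuationSubring Z}
    (hn𝔫 : ∀ b : B, (⟨algebraMap F Z (b : F), hBC b⟩ : C) ∈ 𝔫 → b ∈ n)
    (hth : PassThrough C 𝔫 W) : PassThrough B n (W.comap (algebraMap F Z)) := by
  intro c hc
  apply hn𝔫
  apply hth
  exact (mem_nonunits_comap_iff W (c : F)).1 hc

theorem ChartLe.comap (hBC : ∀ b : B, algebraMap F Z (b : F) ∈ C) {W : ValuationSubring Z}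
    (hCW : ChartLe C W) :
    ChartLe B (W.comap (algebraMap F Z)) := by
  intro b
  rw [ValuationSubring.mem_comap]
  exact hCW ⟨_, hBC b⟩

/-- **Transfer of values to the cover.** -/
theorem ValAt.map (hBC : ∀ b : B, algebraMap F Z (b : F) ∈ C) {W : ValuationSubring Z}
    (hn𝔫 : ∀ b : B, b ∈ n ↔ (⟨algebraMap F Z (b : F), hBC b⟩ : C) ∈ 𝔫)
    {d : F} {η : R} (h : ValAt B n (W.comap (algebraMap F Z)) d η) :
    ValAt C 𝔫 W (algebraMap F Z d) η := by
  obtain ⟨a, b, hb, hV, hn⟩ := h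
  refine ⟨⟨_, hBC a⟩, ⟨_, hBC b⟩, ?_, ?_, ?_⟩
  · intro h1
    exact hb ((hn𝔫 b).2 h1)
  · have h1 := (mem_nonunits_comap_iff W _).1 hV
    rw [map_sub, map_mul] at h1
    exact h1
  · have h1 := (hn𝔫 _).1 hn
    have h2 : (⟨algebraMap F Z ((a - algebraMap R B η * b : B) : F), hBC _⟩ : C)
        = (⟨_, hBC a⟩ : C) - algebraMap R C η * (⟨_, hBC b⟩ : C) := by
      apply Subtype.ext
      show algebraMap F Z ((a - algebraMap R B η * b : B) : F)
        = algebraMap F Z (a : F) - algebraMap R Z η * algebraMap F Z (b : F)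
      have h3 : ((a - algebraMap R B η * b : B) : F) = (a : F) - algebraMap R F η * (b : F) := rfl
      rw [h3, map_sub, map_mul, ← IsScalarTower.algebraMap_apply]
    rw [h2] at h1
    exact h1

end Transfer

/-- **COVER-LOCAL.**  Sheets of the Kummer cover through a common closed point: the products
`label × value of the purity datum` agree. -/
theorem cover_local
    {B : Subalgebra R F} {C : Subalgebra R Z} (hBC : ∀ b : B, algebraMap F Z (b : F) ∈ C)
    {n : Ideal B} {𝔫 : Ideal C} [𝔫.IsPrime]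
    (hn𝔫 : ∀ b : B, b ∈ n ↔ (⟨algebraMap F Z (b : F), hBC b⟩ : C) ∈ 𝔫)
    {m : ℕ} (hroot : ∀ z : Z, z ^ m ∈ C → z ∈ C)
    {G : Z} {u d : F} (hG : G ^ m = algebraMap F Z u)
    {a₀ s₀ : B} (hs₀ : s₀ ∉ n) (hpure : u * d ^ m * (s₀ : F) = a₀)
    {W W' : ValuationSubring Z} (hCW : ChartLe C W) (hCW' : ChartLe C W')
    (hth : PassThrough C 𝔫 W) (hth' : PassThrough C 𝔫 W')
    {ζ ζ' η η' : R}
    (hζ : G - algebraMap R Z ζ ∈ W.nonunits) (hζ' : G - algebraMap R Z ζ' ∈ W'.nonunits)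
    (hη : ValAt B n (W.comap (algebraMap F Z)) d η)
    (hη' : ValAt B n (W'.comap (algebraMap F Z)) d η') :
    algebraMap R C (ζ * η - ζ' * η') ∈ 𝔫 := by
  have h𝔫top : 𝔫 ≠ ⊤ := Ideal.IsPrime.ne_top ‹𝔫.IsPrime›
  -- the integral element `c = s₀ G d`
  set sZ : C := ⟨_, hBC s₀⟩ with hsZ
  have hsZn : sZ ∉ 𝔫 := fun h => hs₀ ((hn𝔫 s₀).2 h)
  have hcm : ((sZ : Z) * (G * algebraMap F Z d)) ^ m ∈ C := by
    rcases Nat.eq_zero_or_pos m with hm0 | hm0
    · rw [hm0, pow_zero]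
      exact C.one_mem
    · obtain ⟨k, hk⟩ : ∃ k, m = k + 1 := ⟨m - 1, (Nat.sub_add_cancel hm0).symm⟩
      have h1 : ((sZ : Z) * (G * algebraMap F Z d)) ^ m
          = algebraMap F Z ((s₀ : F) ^ k * (a₀ : F)) := by
        have hsZ' : (sZ : Z) = algebraMap F Z (s₀ : F) := rfl
        rw [mul_pow, mul_pow, hG, ← hpure, hsZ', ← map_pow, ← map_pow, ← map_mul, ← map_mul]
        congr 1
        rw [hk]
        ring
      rw [h1]
      have h2 : (s₀ : F) ^ k * (a₀ : F) = ((s₀ ^ k * a₀ : B) : F) := by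
        push_cast
        rfl
      rw [h2]
      exact hBC _
  have hc : (sZ : Z) * (G * algebraMap F Z d) ∈ C := hroot _ hcm
  set c : C := ⟨_, hc⟩ with hcdef
  have hsc : (sZ : Z) * (G * algebraMap F Z d) = c := rfl
  -- values of `G d` along `W` and `W'`
  have hv : ValAt C 𝔫 W (G * algebraMap F Z d) (ζ * η) :=
    (ValAt.const h𝔫top hζ).mul hCW hth (ValAt.map hBC hn𝔫 hη)
  have hv' : ValAt C 𝔫 W' (G * algebraMap F Z d) (ζ' * η') :=
    (ValAt.const h𝔫top hζ').mul hCW' hth' (ValAt.map hBC hn𝔫 hη')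
  have h1 := hv.frac_mem hCW hth hsc
  have h2 := hv'.frac_mem hCW' hth' hsc
  have h3 : algebraMap R C (ζ * η - ζ' * η') * sZ ∈ 𝔫 := by
    have : algebraMap R C (ζ * η - ζ' * η') * sZ
        = (c - algebraMap R C (ζ' * η') * sZ) - (c - algebraMap R C (ζ * η) * sZ) := by
      rw [map_sub]
      ring
    rw [this]
    exact 𝔫.sub_mem h2 h1
  rcases (Ideal.IsPrime.mem_or_mem ‹𝔫.IsPrime› h3) with h5 | h5
  · exact h5
  · exact absurd h5 hsZn

end Fermat.Agent.S36.H630

end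
-- ===== PACK-END S36/H630/CoverLocal.lean

-- ===== PACK-BEGIN S36/H630/ExistVal.lean
section


/-!
# S36 engine, LABEL core (helper630), part 8: existence of the values of a purity datum

`u ≡ 1` on the sheet `V`, `d` a purity datum of `u` at the closed point `n` (`u d ^ m s₀ = a₀`,
`a₀, s₀ ∈ B ∖ n`).  If the component `B / p_V` is normal (in the elementwise form `NormalAlong`)
and `n` is a rational point, then `d` has a value `η ∈ R`, a unit modulo `n`, at `n` along `V`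
(`exists_valAt_of_pure`).

`normalAlong_of_isIntegrallyClosed` : `NormalAlong` from `IsIntegrallyClosed (B ⧸ p)`, `p` the
centre of `V`, `V = B_p` (the shape of `A2.SSChart.normal₁` and of `H193.sheet_mem_iff`).
-/

set_option autoImplicit false
set_option linter.unusedSectionVars false

namespace Fermat.Agent.S36.H630

variable {R : Type*} [CommRing R] {F : Type*} [Field F] [Algebra R F]

/-- Normality of the component of `B` cut out by `V`, elementwise, for `m`-th roots: if the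
`m`-th power of a residue lies in the residue ring of `B`, so does the residue. -/
def NormalAlong (B : Subalgebra R F) (V : ValuationSubring F) (m : ℕ) : Prop :=
  ∀ y ∈ V, ∀ c : B, y ^ m - (c : F) ∈ V.nonunits → ∃ a : B, y - (a : F) ∈ V.nonunits

/-- In an integrally closed domain: `a ^ m = c b ^ m`, `b ≠ 0`, `m > 0` ⟹ `b ∣ a`. -/
theorem exists_eq_mul_of_pow_eq {D : Type*} [CommRing D] [IsDomain D] [IsIntegrallyClosed D]
    {m : ℕ} (hm : 0 < m) {a b c : D} (hb : b ≠ 0) (h : a ^ m = c * b ^ m) :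
    ∃ z : D, a = z * b := by
  have hinj : Function.Injective (algebraMap D (FractionRing D)) :=
    IsFractionRing.injective D (FractionRing D)
  have hbK : algebraMap D (FractionRing D) b ≠ 0 := by
    intro h0
    exact hb (hinj (by rw [h0, map_zero]))
  have hxm : (algebraMap D (FractionRing D) a * (algebraMap D (FractionRing D) b)⁻¹) ^ m
      = algebraMap D (FractionRing D) c := by
    rw [mul_pow, ← map_pow, h, map_mul, map_pow, inv_pow, mul_assoc,
      mul_inv_cancel₀ (pow_ne_zero _ hbK), mul_one]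
  have hxint : IsIntegral D
      (algebraMap D (FractionRing D) a * (algebraMap D (FractionRing D) b)⁻¹) := by
    refine IsIntegral.of_pow hm ?_
    rw [hxm]
    exact isIntegral_algebraMap
  obtain ⟨z, hz⟩ := IsIntegrallyClosed.algebraMap_eq_of_integral hxint
  refine ⟨z, hinj ?_⟩
  rw [map_mul, hz, mul_assoc, inv_mul_cancel₀ hbK, mul_one]

/-- `NormalAlong` from normality of the quotient by the centre. -/
theorem normalAlong_of_isIntegrallyClosed {B : Subalgebra R F} {p : Ideal B} [p.IsPrime]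
    [IsIntegrallyClosed (B ⧸ p)] {V : ValuationSubring F} (hBV : ChartLe B V)
    (hcentre : ∀ c : B, (c : F) ∈ V.nonunits ↔ c ∈ p)
    (hloc : ∀ y ∈ V, ∃ a b : B, b ∉ p ∧ (b : F) * y = a) {m : ℕ} (hm : 0 < m) :
    NormalAlong B V m := by
  intro y hy c hc
  obtain ⟨a, b, hb, hab⟩ := hloc y hy
  have hbu : (b : F) ∉ V.nonunits := fun h => hb ((hcentre b).1 h)
  have hbV : (b : F) ∈ V := hBV b
  have hb0 : (b : F) ≠ 0 := by
    intro h0
    apply hbu
    rw [h0]
    exact vnu_zero V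
  -- `a ^ m - c b ^ m ∈ p`
  have h1 : a ^ m - c * b ^ m ∈ p := by
    rw [← hcentre]
    have : ((a ^ m - c * b ^ m : B) : F) = (b : F) ^ m * (y ^ m - c) := by
      push_cast
      rw [← hab]
      ring
    rw [this]
    exact vnu_mul_left V hc (V.pow_mem hbV m)
  -- in the quotient
  have hbD : Ideal.Quotient.mk p b ≠ 0 := fun h => hb (Ideal.Quotient.eq_zero_iff_mem.1 h)
  have h2 : Ideal.Quotient.mk p a ^ m = Ideal.Quotient.mk p c * Ideal.Quotient.mk p b ^ m := by
    have := (Ideal.Quotient.eq (I := p)).2 h1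
    simpa only [map_mul, map_pow] using this
  have : IsDomain (B ⧸ p) := Ideal.Quotient.isDomain p
  obtain ⟨z, hz⟩ := exists_eq_mul_of_pow_eq hm hbD h2
  obtain ⟨a', rfl⟩ := Ideal.Quotient.mk_surjective z
  -- `a - a' b ∈ p`
  have h3 : a - a' * b ∈ p := by
    apply (Ideal.Quotient.eq (I := p)).1
    rw [map_mul]
    exact hz
  refine ⟨a', ?_⟩
  have h4 : ((a - a' * b : B) : F) ∈ V.nonunits := (hcentre _).2 h3
  have : y - (a' : F) = (b : F)⁻¹ * ((a - a' * b : B) : F) := by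
    push_cast
    rw [← hab]
    field_simp
  rw [this]
  exact vnu_mul_left V h4 (vnu_inv_mem V hbV hbu)

/-- **Existence of the value of a purity datum.** -/
theorem exists_valAt_of_pure {B : Subalgebra R F} {n : Ideal B} [hn : n.IsMaximal]
    (hrat : ∀ c : B, ∃ r : R, c - algebraMap R B r ∈ n)
    {V : ValuationSubring F} (hBV : ChartLe B V) (hth : PassThrough B n V)
    {m : ℕ} (hm : 0 < m) (hnormal : NormalAlong B V m)
    {u d : F} (hu : u - 1 ∈ V.nonunits) {a₀ s₀ : B} (ha₀ : a₀ ∉ n) (hs₀ : s₀ ∉ n)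
    (hpure : u * d ^ m * (s₀ : F) = a₀) :
    ∃ η : R, algebraMap R B η ∉ n ∧ ValAt B n V d η := by
  have hnp : n.IsPrime := hn.isPrime
  -- units of `V`
  have huV : u ∈ V ∧ u ∉ V.nonunits := vnu_unit_of_sub V hu V.one_mem (vnu_one_not V)
  have hsu : (s₀ : F) ∉ V.nonunits := hth.not_nonunits hs₀
  have hau : (a₀ : F) ∉ V.nonunits := hth.not_nonunits ha₀
  have hu0 : u ≠ 0 := by
    rintro rfl
    exact huV.2 (vnu_zero V)
  have hs0 : (s₀ : F) ≠ 0 := by
    intro h0
    apply hsu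
    rw [h0]
    exact vnu_zero V
  -- `d ^ m ∈ V`, hence `d ∈ V`
  have hdm : d ^ m = (a₀ : F) * ((s₀ : F)⁻¹ * u⁻¹) := by
    rw [← hpure]
    field_simp
  have hdmV : d ^ m ∈ V := by
    rw [hdm]
    exact V.mul_mem _ _ (hBV a₀)
      (V.mul_mem _ _ (vnu_inv_mem V (hBV s₀) hsu) (vnu_inv_mem V huV.1 huV.2))
  have hdV : d ∈ V := by
    rw [← V.valuation_le_one_iff] at hdmV ⊢
    rw [map_pow] at hdmV
    exact (pow_le_one_iff_of_nonneg zero_le hm.ne').1 hdmV
  -- `y = s₀ d`, `y ^ m ≡ s₀ ^ (m - 1) a₀`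
  obtain ⟨j, hj⟩ : ∃ j, m = j + 1 := ⟨m - 1, (Nat.sub_add_cancel hm).symm⟩
  have hy : ((s₀ : F) * d) ^ m - ((s₀ ^ j * a₀ : B) : F) ∈ V.nonunits := by
    have : ((s₀ : F) * d) ^ m - ((s₀ ^ j * a₀ : B) : F)
        = -((s₀ : F) ^ j * (a₀ : F) * u⁻¹ * (u - 1)) := by
      push_cast
      rw [← hpure, hj]
      field_simp
      ring
    rw [this]
    refine vnu_neg V (vnu_mul_left V hu ?_)
    exact V.mul_mem _ _ (V.mul_mem _ _ (V.pow_mem (hBV s₀) j) (hBV a₀))
      (vnu_inv_mem V huV.1 huV.2)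
  obtain ⟨a', ha'⟩ := hnormal _ (V.mul_mem _ _ (hBV s₀) hdV) _ hy
  -- `a' ∉ n`
  have ha'n : a' ∉ n := by
    intro h
    -- `a' ^ m ≡ s₀ ^ j a₀` on `V`
    have h1 : ((a' ^ m - s₀ ^ j * a₀ : B) : F) ∈ V.nonunits := by
      have h2 : ((a' ^ m - s₀ ^ j * a₀ : B) : F)
          = (((s₀ : F) * d) ^ m - ((s₀ ^ j * a₀ : B) : F))
            - (((s₀ : F) * d) ^ m - (a' : F) ^ m) := by
        push_cast
        ring
      rw [h2]
      refine vnu_sub V hy ?_
      rw [← geom_sum₂_mul]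
      exact vnu_mul_left V ha'
        (V.sum_mem fun i _ => V.mul_mem _ _
          (V.pow_mem (V.mul_mem _ _ (hBV s₀) hdV) i) (V.pow_mem (hBV a') _))
    have h3 : a' ^ m - s₀ ^ j * a₀ ∈ n := hth _ h1
    have h4 : s₀ ^ j * a₀ ∈ n := by
      have : s₀ ^ j * a₀ = a' ^ m - (a' ^ m - s₀ ^ j * a₀) := by ring
      rw [this]
      exact n.sub_mem (n.pow_mem_of_mem h m hm) h3
    rcases hnp.mem_or_mem h4 with h5 | h5
    · exact hs₀ (hnp.mem_of_pow_mem j h5)
    · exact ha₀ h5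
  -- the value
  obtain ⟨s', i, hi, hsi⟩ := hn.exists_inv hs₀
  obtain ⟨r, hr⟩ := hrat (a' * s')
  have hval : a' - algebraMap R B r * s₀ ∈ n := by
    have : a' - algebraMap R B r * s₀ = (a' * s' - algebraMap R B r) * s₀ + a' * i := by
      rw [← sub_eq_zero]
      have h6 : s' * s₀ + i - 1 = 0 := by rw [hsi, sub_self]
      linear_combination (-a') * h6
    rw [this]
    exact n.add_mem (n.mul_mem_right _ hr) (n.mul_mem_left _ hi)
  refine ⟨r, ?_, a', s₀, hs₀, ha', hval⟩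
  intro hrn
  apply ha'n
  have : a' = (a' - algebraMap R B r * s₀) + algebraMap R B r * s₀ := by ring
  rw [this]
  exact n.add_mem hval (n.mul_mem_right _ hrn)

end Fermat.Agent.S36.H630

end
-- ===== PACK-END S36/H630/ExistVal.lean

-- ===== PACK-BEGIN S36/H253/Approx.lean
section


/-!
# Approximation for finitely many pairwise incomparable valuation rings (helper253)

Mathlib only.  `V i` (`i : ι`, finite) valuation subrings of a field `F`, pairwise incomparable,
of ARBITRARY rank.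

* `exists_multiplier` (Nagata's trick): for every `x : F` there is `u ∈ ⋂ V i` with
  `x * u ∈ ⋂ V i` and `u` a unit of every `V i` containing `x`;
* `exists_idem_multi` : `E ≡ 1` at `V i`, `E ≡ 0` at the other `V i'`;
* `exists_lift_multi` : every `b ∈ V i` is congruent modulo the maximal ideal of `V i` to an
  element of `⋂ V i'`.
-/

set_option autoImplicit false
set_option linter.unusedSectionVars false

namespace Fermat.Agent.S36.H253

open scoped BigOperators
open Fermat.Agent.S35.H253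

section Geom

variable {F : Type*} [Field F]

/-- The geometric sum `1 + x + ⋯ + x ^ (s - 1)`. -/
def gsum (x : F) (s : ℕ) : F := ∑ m ∈ Finset.range s, x ^ m

theorem gsum_zero (x : F) : gsum x 0 = 0 := by simp [gsum]

theorem gsum_succ (x : F) (s : ℕ) : gsum x (s + 1) = gsum x s + x ^ s := by
  simp [gsum, Finset.sum_range_succ]

theorem gsum_succ' (x : F) (s : ℕ) : gsum x (s + 1) = 1 + x * gsum x s := by
  unfold gsum
  rw [Finset.sum_range_succ', pow_zero, Finset.mul_sum, add_comm]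
  congr 1
  exact Finset.sum_congr rfl fun m _ => by rw [pow_succ']

theorem gsum_add (x : F) (a b : ℕ) : gsum x (a + b) = gsum x a + x ^ a * gsum x b := by
  unfold gsum
  rw [Finset.sum_range_add, Finset.mul_sum]
  congr 1
  exact Finset.sum_congr rfl fun m _ => by rw [pow_add]

theorem gsum_mem (V : ValuationSubring F) {x : F} (hx : x ∈ V) (s : ℕ) : gsum x s ∈ V :=
  sum_mem fun _ _ => pow_mem hx _

/-- If `x` lies in the maximal ideal, all geometric sums `gsum x (s + 1)` are units. -/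
theorem val_gsum_of_small (V : ValuationSubring F) {x : F} (hx : V.valuation x < 1) (s : ℕ) :
    V.valuation (gsum x (s + 1)) = 1 := by
  rw [gsum_succ']
  refine Valuation.map_one_add_of_lt _ ?_
  exact val_mul_lt_one_left V hx
    ((V.valuation_le_one_iff _).2 (gsum_mem V ((V.valuation_le_one_iff _).1 hx.le) s))

/-- If `x ∉ V`, the geometric sum `gsum x (s + 1)` has the valuation of `x ^ s`. -/
theorem val_gsum_of_big (V : ValuationSubring F) {x : F} (hx : 1 < V.valuation x) (s : ℕ) :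
    V.valuation (gsum x (s + 1)) = V.valuation x ^ s := by
  induction s with
  | zero => simp [gsum]
  | succ s ih =>
    rw [gsum_succ, add_comm]
    have hlt : V.valuation (gsum x (s + 1)) < V.valuation (x ^ (s + 1)) := by
      rw [ih, map_pow, pow_succ]
      have hpos : 0 < V.valuation x ^ s := pow_pos (lt_trans zero_lt_one hx) _
      calc V.valuation x ^ s = V.valuation x ^ s * 1 := (mul_one _).symm
        _ < V.valuation x ^ s * V.valuation x := by gcongr
    rw [Valuation.map_add_eq_of_lt_left _ hlt, map_pow]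

/-- The bad exponents for a unit `x` of `V` are multiples of the smallest one. -/
theorem exists_modulus (V : ValuationSubring F) {x : F} (hx : x ∈ V) :
    ∃ d : ℕ, 2 ≤ d ∧ ∀ s : ℕ, V.valuation (gsum x s) < 1 → d ∣ s := by
  classical
  by_cases hex : ∃ s : ℕ, 0 < s ∧ V.valuation (gsum x s) < 1
  · set d := Nat.find hex with hd
    have hdspec : 0 < d ∧ V.valuation (gsum x d) < 1 := Nat.find_spec hex
    have hdmin : ∀ s, s < d → ¬ (0 < s ∧ V.valuation (gsum x s) < 1) :=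
      fun s hs => Nat.find_min hex hs
    have hxu : V.valuation x = 1 := by
      rcases lt_or_eq_of_le ((V.valuation_le_one_iff _).2 hx) with hlt | heq
      · exfalso
        obtain ⟨d', hd'⟩ : ∃ d', d = d' + 1 := ⟨d - 1, by omega⟩
        have := val_gsum_of_small V hlt d'
        rw [← hd'] at this
        rw [this] at hdspec
        exact lt_irrefl _ hdspec.2
      · exact heq
    have hd2 : 2 ≤ d := by
      rcases Nat.lt_or_ge d 2 with hlt | hge
      · exfalso
        have hd1 : d = 1 := by omega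
        have h1 := hdspec.2
        rw [hd1] at h1
        simp [gsum] at h1
      · exact hge
    -- multiples of `d` are bad
    have hmul : ∀ q : ℕ, V.valuation (gsum x (q * d)) < 1 := by
      intro q
      induction q with
      | zero => rw [Nat.zero_mul, gsum_zero, map_zero]; exact zero_lt_one
      | succ q ih =>
        rw [Nat.succ_mul, gsum_add]
        refine Valuation.map_add_lt _ ih ?_
        exact val_mul_lt_one_right V ((V.valuation_le_one_iff _).2 (pow_mem hx _)) hdspec.2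
    refine ⟨d, hd2, fun s hs => ?_⟩
    have hsdiv : s = (s / d) * d + s % d := by
      rw [Nat.mul_comm]; exact (Nat.div_add_mod s d).symm
    have hr : V.valuation (gsum x (s % d)) < 1 := by
      have h1 : gsum x s = gsum x ((s / d) * d) + x ^ ((s / d) * d) * gsum x (s % d) := by
        conv_lhs => rw [hsdiv]
        exact gsum_add x _ _
      have h2 : x ^ ((s / d) * d) * gsum x (s % d) = gsum x s - gsum x ((s / d) * d) := by
        rw [h1]; ring
      have h3 : V.valuation (x ^ ((s / d) * d) * gsum x (s % d)) < 1 := by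
        rw [h2]; exact Valuation.map_sub_lt _ hs (hmul _)
      rwa [map_mul, map_pow, hxu, one_pow, one_mul] at h3
    have hr0 : s % d = 0 := by
      by_contra hne
      exact hdmin (s % d) (Nat.mod_lt _ hdspec.1) ⟨Nat.pos_of_ne_zero hne, hr⟩
    exact Nat.dvd_of_mod_eq_zero hr0
  · refine ⟨2, le_rfl, fun s hs => ?_⟩
    rcases Nat.eq_zero_or_pos s with h0 | hpos
    · rw [h0]; exact dvd_zero 2
    · exact absurd ⟨s, hpos, hs⟩ hex

end Geom

section Multi

variable {F : Type*} [Field F] {ι : Type*} [Fintype ι]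

/-- **Nagata's trick.**  For every `x : F` there is `u ∈ ⋂ V i` such that `x * u ∈ ⋂ V i` and `u`
is a unit of every `V i` containing `x`. -/
theorem exists_multiplier (V : ι → ValuationSubring F) (x : F) :
    ∃ u : F, (∀ i, u ∈ V i) ∧ (∀ i, x * u ∈ V i) ∧
      (∀ i, x ∈ V i → (V i).valuation u = 1) := by
  classical
  have hd : ∀ i, ∃ d : ℕ, 2 ≤ d ∧
      (x ∈ V i → ∀ s, (V i).valuation (gsum x s) < 1 → d ∣ s) := fun i => by
    by_cases hx : x ∈ V i
    · obtain ⟨d, hd2, hd⟩ := exists_modulus (V i) hx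
      exact ⟨d, hd2, fun _ => hd⟩
    · exact ⟨2, le_rfl, fun h => absurd h hx⟩
  choose d hd2 hd using hd
  set D := ∏ i, d i with hD
  have hDpos : 0 < D := Finset.prod_pos fun i _ => by have := hd2 i; omega
  have hunit : ∀ i, x ∈ V i → (V i).valuation (gsum x (D + 1)) = 1 := by
    intro i hx
    rcases lt_or_eq_of_le (((V i).valuation_le_one_iff _).2 (gsum_mem (V i) hx (D + 1)))
      with hlt | heq
    · exfalso
      have hdvd := hd i hx (D + 1) hlt
      have hdD : d i ∣ D := Finset.dvd_prod_of_mem _ (Finset.mem_univ i)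
      have h1 : d i ∣ 1 := (Nat.dvd_add_right hdD).1 hdvd
      have h2 := Nat.le_of_dvd one_pos h1
      have h3 := hd2 i
      omega
    · exact heq
  have hbig : ∀ i, x ∉ V i → (V i).valuation (gsum x (D + 1)) = (V i).valuation x ^ D :=
    fun i hx => val_gsum_of_big (V i)
      (by rw [← not_le, (V i).valuation_le_one_iff]; exact hx) D
  have hxbig : ∀ i, x ∉ V i → 1 < (V i).valuation x := fun i hx => by
    rw [← not_le, (V i).valuation_le_one_iff]; exact hx
  refine ⟨(gsum x (D + 1))⁻¹, fun i => ?_, fun i => ?_, fun i hx => ?_⟩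
  · rw [← (V i).valuation_le_one_iff, map_inv₀]
    by_cases hx : x ∈ V i
    · rw [hunit i hx, inv_one]
    · rw [hbig i hx]
      exact inv_le_one_of_one_le₀ (one_le_pow₀ (hxbig i hx).le)
  · rw [← (V i).valuation_le_one_iff, map_mul, map_inv₀]
    by_cases hx : x ∈ V i
    · rw [hunit i hx, inv_one, mul_one]
      exact ((V i).valuation_le_one_iff _).2 hx
    · rw [hbig i hx]
      have hpos : 0 < (V i).valuation x ^ D := pow_pos (lt_trans zero_lt_one (hxbig i hx)) _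
      rw [mul_inv_le_iff₀ hpos, one_mul]
      exact le_self_pow₀ (hxbig i hx).le (by omega)
  · rw [map_inv₀, hunit i hx, inv_one]

variable [DecidableEq ι]

/-- Elements which are units at `V i` and small at all other `V i'`. -/
theorem exists_sep_multi (V : ι → ValuationSubring F)
    (hinc : ∀ i i', i ≠ i' → ¬ V i ≤ V i') (i : ι) :
    ∃ w : F, (V i).valuation w = 1 ∧ ∀ i', i' ≠ i → (V i').valuation w < 1 := by
  classical
  have hu : ∀ i', ∃ u : F, (∀ i'', u ∈ V i'') ∧ (V i).valuation u = 1 ∧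
      (i' ≠ i → (V i').valuation u < 1) := fun i' => by
    by_cases hi : i' = i
    · exact ⟨1, fun _ => one_mem _, map_one _, fun h => absurd hi h⟩
    · obtain ⟨x, hx1, hx2⟩ := SetLike.not_le_iff_exists.1 (hinc i i' (fun h => hi h.symm))
      obtain ⟨u, hu1, hu2, hu3⟩ := exists_multiplier V x
      refine ⟨u, hu1, hu3 i hx1, fun _ => ?_⟩
      have hxbig : 1 < (V i').valuation x := by
        rw [← not_le, (V i').valuation_le_one_iff]; exact hx2
      have h1 : (V i').valuation x * (V i').valuation u ≤ 1 := by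
        rw [← map_mul]; exact ((V i').valuation_le_one_iff _).2 (hu2 i')
      by_contra hcon
      rw [not_lt] at hcon
      have : (V i').valuation x * 1 ≤ (V i').valuation x * (V i').valuation u := by gcongr
      rw [mul_one] at this
      exact absurd (lt_of_lt_of_le hxbig (this.trans h1)) (lt_irrefl _)
  choose u hu1 hu2 hu3 using hu
  refine ⟨∏ i', u i', ?_, fun i' hi' => ?_⟩
  · rw [map_prod]
    exact Finset.prod_eq_one fun i' _ => hu2 i'
  · rw [map_prod, ← Finset.mul_prod_erase _ _ (Finset.mem_univ i')]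
    have h1 : ∏ x ∈ Finset.univ.erase i', (V i').valuation (u x) ≤ 1 :=
      Finset.prod_le_one' fun x _ => ((V i').valuation_le_one_iff _).2 (hu1 x i')
    calc (V i').valuation (u i') * ∏ x ∈ Finset.univ.erase i', (V i').valuation (u x)
        ≤ (V i').valuation (u i') * 1 := by gcongr
      _ = (V i').valuation (u i') := mul_one _
      _ < 1 := hu3 i' hi'

/-- **Idempotents.**  `E ≡ 1` at `V i` and `E ≡ 0` at the other `V i'`. -/
theorem exists_idem_multi (V : ι → ValuationSubring F)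
    (hinc : ∀ i i', i ≠ i' → ¬ V i ≤ V i') (i : ι) :
    ∃ E : F, (V i).valuation (1 - E) < 1 ∧ ∀ i', i' ≠ i → (V i').valuation E < 1 := by
  classical
  choose w hw1 hw2 using fun i => exists_sep_multi V hinc i
  set W := ∑ i, w i with hW
  have hWval : ∀ i₀, (V i₀).valuation W = 1 := by
    intro i₀
    have e : W = w i₀ + ∑ x ∈ Finset.univ.erase i₀, w x := by
      rw [hW, Finset.add_sum_erase _ _ (Finset.mem_univ i₀)]
    have hsmall : (V i₀).valuation (∑ x ∈ Finset.univ.erase i₀, w x) < 1 :=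
      val_sum_lt_one _ _ _ fun x hx => hw2 x i₀ (Finset.ne_of_mem_erase hx).symm
    rw [e, Valuation.map_add_eq_of_lt_left _ (by rw [hw1]; exact hsmall), hw1]
  have hW0 : W ≠ 0 := by
    intro h0
    have := hWval i
    rw [h0, map_zero] at this
    exact zero_ne_one this
  refine ⟨w i * W⁻¹, ?_, fun i' hi' => ?_⟩
  · have e : 1 - w i * W⁻¹ = (∑ x ∈ Finset.univ.erase i, w x) * W⁻¹ := by
      have : W = w i + ∑ x ∈ Finset.univ.erase i, w x := by
        rw [hW, Finset.add_sum_erase _ _ (Finset.mem_univ i)]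
      field_simp
      rw [this]; ring
    rw [e, map_mul, map_inv₀, hWval i, inv_one, mul_one]
    exact val_sum_lt_one _ _ _ fun x hx => hw2 x i (Finset.ne_of_mem_erase hx).symm
  · rw [map_mul, map_inv₀, hWval i', inv_one, mul_one]
    exact hw2 i i' hi'

/-- **Lifting residues to `⋂ V i'`.** -/
theorem exists_lift_multi (V : ι → ValuationSubring F)
    (hinc : ∀ i i', i ≠ i' → ¬ V i ≤ V i') (i : ι) {b : F} (hb : b ∈ V i) :
    ∃ g : F, (∀ i', g ∈ V i') ∧ (V i).valuation (g - b) < 1 := by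
  classical
  obtain ⟨u, hu1, hu2, hu3⟩ := exists_multiplier V b
  obtain ⟨E, hE1, hE2⟩ := exists_idem_multi V hinc i
  have hEmem : ∀ i', E ∈ V i' := fun i' => by
    by_cases hi : i' = i
    · subst hi
      have : E = 1 - (1 - E) := by ring
      rw [this]
      exact sub_mem (one_mem _) (((V i').valuation_le_one_iff _).1 hE1.le)
    · exact ((V i').valuation_le_one_iff _).1 (hE2 i' hi).le
  set c := E * u + (1 - E) with hc
  have hcval : ∀ i', (V i').valuation c = 1 := by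
    intro i'
    by_cases hi : i' = i
    · subst hi
      have e : c = u + (1 - E) * (1 - u) := by rw [hc]; ring
      have hsm : (V i').valuation ((1 - E) * (1 - u)) < 1 :=
        val_mul_lt_one_left (V i') hE1
          (((V i').valuation_le_one_iff _).2 (sub_mem (one_mem _) (hu1 i')))
      rw [e, Valuation.map_add_eq_of_lt_left _ (by rw [hu3 i' hb]; exact hsm),
        hu3 i' hb]
    · have e : c = 1 + E * (u - 1) := by rw [hc]; ring
      rw [e]
      refine Valuation.map_one_add_of_lt _ ?_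
      exact val_mul_lt_one_left (V i') (hE2 i' hi)
        (((V i').valuation_le_one_iff _).2 (sub_mem (hu1 i') (one_mem _)))
  have hc0 : c ≠ 0 := by
    intro h0
    have := hcval i
    rw [h0, map_zero] at this
    exact zero_ne_one this
  refine ⟨b * u * c⁻¹, fun i' => ?_, ?_⟩
  · rw [← (V i').valuation_le_one_iff, map_mul, map_inv₀, hcval i', inv_one, mul_one]
    exact ((V i').valuation_le_one_iff _).2 (hu2 i')
  · have e : b * u * c⁻¹ - b = b * ((E - 1) * (1 - u)) * c⁻¹ := by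
      field_simp
      rw [hc]; ring
    rw [e, map_mul, map_inv₀, hcval i, inv_one, mul_one]
    refine val_mul_lt_one_right (V i) (((V i).valuation_le_one_iff _).2 hb) ?_
    refine val_mul_lt_one_left (V i) ?_
      (((V i).valuation_le_one_iff _).2 (sub_mem (one_mem _) (hu1 i)))
    have : E - 1 = -(1 - E) := by ring
    rw [this, Valuation.map_neg]; exact hE1

end Multi

end Fermat.Agent.S36.H253

end
-- ===== PACK-END S36/H253/Approx.lean

-- ===== PACK-BEGIN S36/Mod3/H96/CuspAbs.lean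
section



/-!
# S36 / MOD3, cell REG (R-I): the cusp congruence — ELEMENTARY abstract core (helper96)

Independent route to `H276.CuspCong` (the single input of `regular_i`), with `k = 1`,
`N = q - 1`, `n = 1`.  No modular unit, no Hasse polynomial, no Eisenstein series, no
`q`-expansion: only

* the Kronecker decomposition `Φ = (Y^q - X)(Y - X^q) + q Θ` over `ℤ`,
* the shape of `Φ` (`S15.H962.IsModularShape`),
* the two modular equations `Φ(j_q, j) = 0 = Φ(j_q, j_{q²})`,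
* `π = j_{q²} - j`, `q ρ = π ^ (q - 1)`.

Taylor expansion of `Φ(j_q, ·)` at `j` gives the EXACT identity

  `B² ρ = Θ(j_q, j) - B² j^(q-1) - B Θ_Y(j_q, j) - π (…)`,  `B = j - j_q ^ q`,

and, modulo an ideal `I ∋ π, q, j_q - j ^ q`, after multiplication by `J^(q-1) J_q^(2q)`
(`J = 1/j`, `J_q = 1/j_q`):

  `ρ (1 - j J_q ^ q)² J^(q-1) ≡ -(1 + J · C₀(J))`   for an integer polynomial `C₀`

(`cusp_core96`).
-/

set_option autoImplicit false

namespace Fermat.Agent.S36.Mod3.H96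

open Polynomial
open Fermat.Agent.S15.H962 (IsModularShape)

/-! ## The binomial expansion at a prime -/

section Binom

variable {A : Type*} [CommRing A]

theorem add_pow_prime96 (q : ℕ) (hq : q.Prime) (x y : A) :
    ∃ s : A, (x + y) ^ q = x ^ q + y ^ q + (q : A) * y * (x ^ (q - 1) + y * s) := by
  obtain ⟨n, rfl⟩ : ∃ n, q = n + 2 := ⟨q - 2, by have := hq.two_le; omega⟩
  refine ⟨∑ m ∈ Finset.range n,
    x ^ (m + 1) * y ^ (n - m - 1) * ((((n + 2).choose (m + 1) / (n + 2) : ℕ)) : A), ?_⟩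
  rw [add_pow, Finset.sum_range_succ, Finset.sum_range_succ, Finset.sum_range_succ']
  have hterm : ∀ m ∈ Finset.range n,
      x ^ (m + 1) * y ^ (n + 2 - (m + 1)) * (((n + 2).choose (m + 1) : ℕ) : A)
        = ((n + 2 : ℕ) : A) * y * (y * (x ^ (m + 1) * y ^ (n - m - 1) *
            ((((n + 2).choose (m + 1) / (n + 2) : ℕ)) : A))) := by
    intro m hm
    rw [Finset.mem_range] at hm
    have hdvd : (n + 2) ∣ (n + 2).choose (m + 1) :=
      hq.dvd_choose_self (by omega) (by omega)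
    have e1 : n + 2 - (m + 1) = (n - m - 1) + 2 := by omega
    have e2 : (((n + 2).choose (m + 1) : ℕ) : A)
        = ((n + 2 : ℕ) : A) * ((((n + 2).choose (m + 1) / (n + 2) : ℕ)) : A) := by
      rw [← Nat.cast_mul, Nat.mul_div_cancel' hdvd]
    rw [e1, e2, pow_add]
    ring
  rw [Finset.sum_congr rfl hterm, ← Finset.mul_sum, ← Finset.mul_sum]
  have e3 : n + 2 - (n + 1) = 1 := by omega
  have e4 : n + 2 - 1 = n + 1 := by omega
  have e5 : (n + 2).choose (n + 1) = n + 2 := by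
    rw [show n + 2 = (n + 1) + 1 from rfl, Nat.choose_succ_self_right]
  simp only [pow_zero, Nat.sub_zero, Nat.choose_zero_right, Nat.cast_one, mul_one, one_mul,
    Nat.sub_self, Nat.choose_self, e3, e4, e5, pow_one]
  ring

end Binom

/-! ## Evaluation of two-variable integer polynomials -/

section Ev

variable {A : Type*} [CommRing A]

/-- `Ψ(x, y)`: inner variable `↦ x`, outer variable `↦ y`. -/
noncomputable def ev96 (Ψ : ℤ[X][X]) (x y : A) : A :=
  Ψ.eval₂ (Polynomial.eval₂RingHom (Int.castRingHom A) x) y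

theorem ev96_kron (q : ℕ) (Θ : ℤ[X][X]) (x y : A) :
    ev96 ((X ^ q - C X) * (X - C (X ^ q)) + C (C (q : ℤ)) * Θ) x y
      = (y ^ q - x) * (y - x ^ q) + (q : A) * ev96 Θ x y := by
  simp [ev96, eval₂_add, eval₂_mul, eval₂_sub, eval₂_pow]

theorem ev96_eq_eval_map (Ψ : ℤ[X][X]) (x y : A) :
    ev96 Ψ x y = (Ψ.map (Polynomial.eval₂RingHom (Int.castRingHom A) x)).eval y := by
  rw [ev96, Polynomial.eval_map]

/-- Taylor expansion in the outer variable. -/
theorem ev96_taylor (Ψ : ℤ[X][X]) (x y t : A) :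
    ∃ k : A, ev96 Ψ x (y + t)
      = ev96 Ψ x y + ev96 (derivative Ψ) x y * t + k * t ^ 2 := by
  obtain ⟨k, hk⟩ := Polynomial.binomExpansion
    (Ψ.map (Polynomial.eval₂RingHom (Int.castRingHom A) x)) y t
  refine ⟨k, ?_⟩
  rw [ev96_eq_eval_map, ev96_eq_eval_map, ev96_eq_eval_map, ← Polynomial.derivative_map]
  exact hk

/-- Evaluation commutes with ring homomorphisms. -/
theorem map_ev96 {B : Type*} [CommRing B] (f : A →+* B) (Ψ : ℤ[X][X]) (x y : A) :
    f (ev96 Ψ x y) = ev96 Ψ (f x) (f y) := by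
  unfold ev96
  rw [Polynomial.hom_eval₂]
  congr 1
  apply Polynomial.ringHom_ext
  · intro n
    simp
  · simp

/-- The double sum. -/
theorem ev96_eq_sum (Ψ : ℤ[X][X]) (x y : A) :
    ev96 Ψ x y = ∑ k ∈ Ψ.support, ∑ i ∈ (Ψ.coeff k).support,
      (((Ψ.coeff k).coeff i : ℤ) : A) * x ^ i * y ^ k := by
  unfold ev96
  rw [Polynomial.eval₂_eq_sum, Polynomial.sum_def]
  refine Finset.sum_congr rfl fun k _ => ?_
  rw [Polynomial.coe_eval₂RingHom, Polynomial.eval₂_eq_sum, Polynomial.sum_def, Finset.sum_mul]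
  refine Finset.sum_congr rfl fun i _ => ?_
  simp

end Ev


/-! ## Weighted reversal -/

section Rev

variable {A : Type*} [CommRing A]

theorem pow_mul_pow_of_inv96 {j J : A} (hjJ : j * J = 1) {m D : ℕ} (h : m ≤ D) :
    j ^ m * J ^ D = J ^ (D - m) := by
  obtain ⟨e, rfl⟩ := Nat.exists_eq_add_of_le h
  rw [Nat.add_sub_cancel_left, pow_add, ← mul_assoc, ← mul_pow, hjJ, one_pow, one_mul]

/-- **Weighted reversal.**  If every monomial `X^i Y^k` of `Ψ` has weight `q i + k < D`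
(or weight `≤ D` and coefficient divisible by `q`), then
`Ψ(j^q, j) / j^D ∈ J ℤ[J] + q A`, `J = 1/j`. -/
theorem weighted_rev96 (q : ℕ) {j J : A} (hjJ : j * J = 1) (Ψ : ℤ[X][X]) (D : ℕ)
    (h : ∀ k i, (Ψ.coeff k).coeff i ≠ 0 →
      q * i + k + 1 ≤ D ∨ (q * i + k ≤ D ∧ (q : ℤ) ∣ (Ψ.coeff k).coeff i)) :
    ∃ (c : ℤ[X]) (c' : A),
      ev96 Ψ (j ^ q) j * J ^ D = J * c.eval₂ (Int.castRingHom A) J + (q : A) * c' := by
  classical
  rw [ev96_eq_sum, Finset.sum_mul]
  -- the predicate is stable under finite sums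
  have hsum : ∀ (ι : Type) (s : Finset ι) (f : ι → A),
      (∀ a ∈ s, ∃ (c : ℤ[X]) (c' : A),
        f a = J * c.eval₂ (Int.castRingHom A) J + (q : A) * c') →
      ∃ (c : ℤ[X]) (c' : A),
        ∑ a ∈ s, f a = J * c.eval₂ (Int.castRingHom A) J + (q : A) * c' := by
    intro ι s f hf
    induction s using Finset.induction_on with
    | empty => exact ⟨0, 0, by simp⟩
    | insert a s ha ih =>
      obtain ⟨c₁, c₁', h₁⟩ := hf a (Finset.mem_insert_self a s)
      obtain ⟨c₂, c₂', h₂⟩ := ih fun b hb => hf b (Finset.mem_insert_of_mem hb)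
      refine ⟨c₁ + c₂, c₁' + c₂', ?_⟩
      rw [Finset.sum_insert ha, h₁, h₂, eval₂_add]
      ring
  refine hsum ℕ _ _ fun k _ => ?_
  rw [Finset.sum_mul]
  refine hsum ℕ _ _ fun i hi => ?_
  have hne : (Ψ.coeff k).coeff i ≠ 0 := Polynomial.mem_support_iff.mp hi
  have hpow : (j ^ q) ^ i * j ^ k = j ^ (q * i + k) := by
    rw [← pow_mul, ← pow_add]
  rcases h k i hne with h1 | ⟨h1, h2⟩
  · obtain ⟨m, hm⟩ := Nat.exists_eq_add_of_le h1
    refine ⟨C ((Ψ.coeff k).coeff i) * X ^ m, 0, ?_⟩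
    have e : D - (q * i + k) = m + 1 := by omega
    rw [eval₂_mul, eval₂_C, eval₂_X_pow, mul_zero, add_zero, mul_assoc, mul_assoc,
      ← mul_assoc ((j ^ q) ^ i), hpow, pow_mul_pow_of_inv96 hjJ (by omega : q * i + k ≤ D), e,
      pow_succ, eq_intCast]
    ring
  · obtain ⟨θ, hθ⟩ := h2
    refine ⟨0, (θ : A) * ((j ^ q) ^ i * j ^ k * J ^ D), ?_⟩
    rw [hθ, eval₂_zero, mul_zero, zero_add]
    push_cast
    ring

end Rev


/-! ## The shape of the Kronecker remainder -/

section Shape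

theorem kron_expand96 (q : ℕ) :
    ((X : ℤ[X][X]) ^ q - C X) * (X - C (X ^ q))
      = X ^ (q + 1) - C (X ^ q) * X ^ q - C X * X + C (X ^ (q + 1)) := by
  rw [map_pow, map_pow]
  ring

theorem kron_coeff96 (q : ℕ) (k i : ℕ) :
    ((((X : ℤ[X][X]) ^ q - C X) * (X - C (X ^ q))).coeff k).coeff i
      = (if k = q + 1 then (if i = 0 then 1 else 0) else 0)
        - (if k = q then (if i = q then 1 else 0) else 0)
        - (if k = 1 then (if i = 1 then 1 else 0) else 0)
        + (if k = 0 then (if i = q + 1 then 1 else 0) else 0) := by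
  rw [kron_expand96]
  rw [coeff_add, coeff_sub, coeff_sub, coeff_X_pow, coeff_C_mul_X_pow, coeff_C_mul_X, coeff_C]
  rw [coeff_add, coeff_sub, coeff_sub]
  congr 1
  · congr 1
    · congr 1
      · split_ifs with h1 h2 h2
        · simp [h2]
        · simp [coeff_one, h2]
        · simp
      · split_ifs with h1 h2 h2
        · simp [h2]
        · simp [coeff_X_pow, h2]
        · simp
    · split_ifs with h1 h2 h2
      · simp [h2]
      · simp [coeff_X, h2]
        exact fun h => h2 h.symm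
      · simp
  · split_ifs with h1 h2 h2
    · simp [h2]
    · simp [coeff_X_pow, h2]
    · simp

/-- The support of `Θ` in `Φ = (Y^q - X)(Y - X^q) + q Θ`, `Φ` of modular shape. -/
theorem theta_shape96 (q : ℕ) (hq : 2 ≤ q) {Φ Θ : ℤ[X][X]} (hΦ : IsModularShape q Φ)
    (hK : Φ = (X ^ q - C X) * (X - C (X ^ q)) + C (C (q : ℤ)) * Θ) (k i : ℕ)
    (hne : (Θ.coeff k).coeff i ≠ 0) : k ≤ q ∧ i ≤ q + 1 ∧ (0 < k → i ≤ q) := by
  have key : (Φ.coeff k).coeff i
      = ((((X : ℤ[X][X]) ^ q - C X) * (X - C (X ^ q))).coeff k).coeff i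
        + (q : ℤ) * (Θ.coeff k).coeff i := by
    conv_lhs => rw [hK]
    rw [coeff_add, coeff_add, coeff_C_mul, coeff_C_mul]
  rw [kron_coeff96] at key
  have hq0 : (q : ℤ) ≠ 0 := by
    have : q ≠ 0 := by omega
    exact_mod_cast this
  -- in the bad region `Φ` and the Kronecker product have the same coefficient
  have hbad : ∀ v : ℤ, (Φ.coeff k).coeff i = v →
      (if k = q + 1 then (if i = 0 then (1 : ℤ) else 0) else 0)
        - (if k = q then (if i = q then 1 else 0) else 0)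
        - (if k = 1 then (if i = 1 then 1 else 0) else 0)
        + (if k = 0 then (if i = q + 1 then 1 else 0) else 0) = v → False := by
    intro v hv hv'
    rw [hv, hv'] at key
    have : (q : ℤ) * (Θ.coeff k).coeff i = 0 := by linarith
    rcases mul_eq_zero.mp this with h | h
    · exact hq0 h
    · exact hne h
  have hΦtop : Φ.coeff (q + 1) = 1 := by
    have := hΦ.monic.coeff_natDegree
    rwa [hΦ.natDegree_eq] at this
  -- the four bad cases
  have c1 : q + 1 < k → False := by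
    intro h
    have h0 : Φ.coeff k = 0 :=
      Polynomial.coeff_eq_zero_of_natDegree_lt (by rw [hΦ.natDegree_eq]; exact h)
    refine hbad 0 (by rw [h0, coeff_zero]) ?_
    split_ifs <;> omega
  have c2 : k = q + 1 → False := by
    intro h
    by_cases hi : i = 0
    · refine hbad 1 (by rw [h, hΦtop, hi, coeff_one_zero]) ?_
      split_ifs <;> omega
    · refine hbad 0 (by rw [h, hΦtop, coeff_one, if_neg hi]) ?_
      split_ifs <;> omega
  have c3 : 0 < k → k ≤ q → q < i → False := by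
    intro hk0 hkq hi
    have hdeg : (Φ.coeff k).natDegree ≤ q := by
      rcases Nat.lt_or_ge k q with h' | h'
      · exact hΦ.coeff_mid k hk0 h'
      · have : k = q := by omega
        rw [this, hΦ.coeff_top_natDegree]
    have h0 : (Φ.coeff k).coeff i = 0 :=
      Polynomial.coeff_eq_zero_of_natDegree_lt (by omega)
    refine hbad 0 h0 ?_
    split_ifs <;> omega
  have c4 : k = 0 → q + 1 < i → False := by
    intro hk0 hi
    have h0 : (Φ.coeff k).coeff i = 0 := by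
      rw [hk0]
      exact Polynomial.coeff_eq_zero_of_natDegree_lt
        (by rw [hΦ.coeff_zero_natDegree]; exact hi)
    refine hbad 0 h0 ?_
    split_ifs <;> omega
  have hkq : k ≤ q := by
    by_contra hk
    rw [not_le] at hk
    rcases Nat.lt_or_ge (q + 1) k with h | h
    · exact c1 h
    · exact c2 (by omega)
  refine ⟨hkq, ?_, ?_⟩
  · by_contra hi
    rw [not_le] at hi
    by_cases hk0 : k = 0
    · exact c4 hk0 hi
    · exact c3 (by omega) hkq (by omega)
  · intro hk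
    by_contra hi
    rw [not_le] at hi
    exact c3 hk hkq hi

end Shape


/-! ## The Taylor identity -/

section Core

variable {A : Type*} [CommRing A] [IsDomain A]

/-- **The exact Taylor identity**: `B² ρ = Θ(j_q, j) - B² j^(q-1) - B Θ_Y(j_q, j) - π r`,
`B = j - j_q ^ q`, `q ρ = π ^ (q - 1)`. -/
theorem cusp_taylor96 (q : ℕ) (hq : q.Prime) (Θ : ℤ[X][X]) {j jq π ρ : A}
    (h1 : (j ^ q - jq) * (j - jq ^ q) + (q : A) * ev96 Θ jq j = 0)
    (h2 : ((j + π) ^ q - jq) * ((j + π) - jq ^ q) + (q : A) * ev96 Θ jq (j + π) = 0)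
    (hπ0 : π ≠ 0) (hq0 : (q : A) ≠ 0) (hρ : (q : A) * ρ = π ^ (q - 1)) :
    ∃ r : A, (j - jq ^ q) ^ 2 * ρ
      = ev96 Θ jq j - (j - jq ^ q) ^ 2 * j ^ (q - 1)
        - (j - jq ^ q) * ev96 (derivative Θ) jq j - π * r := by
  obtain ⟨s, hs⟩ := add_pow_prime96 q hq j π
  obtain ⟨k₂, hk₂⟩ := ev96_taylor Θ jq j π
  have hpq : π ^ q = π * ((q : A) * ρ) := by
    rw [hρ, ← pow_succ']
    congr 1
    have := hq.pos
    omega
  obtain ⟨σ, hσ⟩ : ∃ σ : A, σ = ρ + j ^ (q - 1) + π * s := ⟨_, rfl⟩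
  have hδ : (j + π) ^ q = j ^ q + (q : A) * π * σ := by
    linear_combination hs + hpq - (q : A) * π * hσ
  rw [hδ, hk₂] at h2
  have e1 : π * ((j ^ q - jq) + (q : A) * σ * ((j - jq ^ q) + π)
      + (q : A) * (ev96 (derivative Θ) jq j + k₂ * π)) = 0 := by
    linear_combination h2 - h1
  have e2 : (j ^ q - jq) + (q : A) * σ * ((j - jq ^ q) + π)
      + (q : A) * (ev96 (derivative Θ) jq j + k₂ * π) = 0 := by
    rcases mul_eq_zero.mp e1 with h | h
    · exact absurd h hπ0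
    · exact h
  have e3 : (q : A) * ((j - jq ^ q) * (σ * ((j - jq ^ q) + π)
      + ev96 (derivative Θ) jq j + k₂ * π) - ev96 Θ jq j) = 0 := by
    linear_combination (j - jq ^ q) * e2 - h1
  have e4 : (j - jq ^ q) * (σ * ((j - jq ^ q) + π)
      + ev96 (derivative Θ) jq j + k₂ * π) - ev96 Θ jq j = 0 := by
    rcases mul_eq_zero.mp e3 with h | h
    · exact absurd h hq0
    · exact h
  refine ⟨(j - jq ^ q) ^ 2 * s + (j - jq ^ q) * σ + (j - jq ^ q) * k₂, ?_⟩
  linear_combination e4 - (j - jq ^ q) ^ 2 * hσ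


/-- Weighted reversal of `Θ` (weight `< 2 q² + q - 1`). -/
theorem theta_rev96 {B : Type*} [CommRing B] (q : ℕ) (hq : 2 ≤ q) {Φ Θ : ℤ[X][X]}
    (hΦ : IsModularShape q Φ)
    (hK : Φ = (X ^ q - C X) * (X - C (X ^ q)) + C (C (q : ℤ)) * Θ)
    {x u : B} (hxu : x * u = 1) (D : ℕ) (hD : q * q + 2 * q + 1 ≤ D) :
    ∃ (c : ℤ[X]) (c' : B),
      ev96 Θ (x ^ q) x * u ^ D = u * c.eval₂ (Int.castRingHom B) u + (q : B) * c' := by
  refine weighted_rev96 q hxu Θ D fun k i hne => Or.inl ?_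
  obtain ⟨hk, hi, -⟩ := theta_shape96 q hq hΦ hK k i hne
  have h1 : q * i ≤ q * (q + 1) := Nat.mul_le_mul_left q hi
  rw [Nat.mul_succ] at h1
  omega

/-- Weighted reversal of `Θ_Y` (weight `≤ q² + q - 1`, top coefficient divisible by `q`). -/
theorem theta_der_rev96 {B : Type*} [CommRing B] (q : ℕ) (hq : 2 ≤ q) {Φ Θ : ℤ[X][X]}
    (hΦ : IsModularShape q Φ)
    (hK : Φ = (X ^ q - C X) * (X - C (X ^ q)) + C (C (q : ℤ)) * Θ)
    {x u : B} (hxu : x * u = 1) (D : ℕ) (hD : q * q + q = D + 1) :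
    ∃ (c : ℤ[X]) (c' : B),
      ev96 (derivative Θ) (x ^ q) x * u ^ D
        = u * c.eval₂ (Int.castRingHom B) u + (q : B) * c' := by
  refine weighted_rev96 q hxu (derivative Θ) D fun k i hne => ?_
  have hcoef : ((derivative Θ).coeff k).coeff i = (Θ.coeff (k + 1)).coeff i * ((k : ℤ) + 1) := by
    rw [coeff_derivative]
    have : ((k : ℤ[X]) + 1) = C ((k : ℤ) + 1) := by simp
    rw [this, coeff_mul_C]
  rw [hcoef] at hne ⊢
  have hne' : (Θ.coeff (k + 1)).coeff i ≠ 0 := fun h => hne (by rw [h, zero_mul])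
  obtain ⟨hk, -, hi⟩ := theta_shape96 q hq hΦ hK (k + 1) i hne'
  have hi' := hi (Nat.succ_pos k)
  rcases Nat.lt_or_ge i q with h | h
  · left
    have h1 : q * (i + 1) ≤ q * q := Nat.mul_le_mul_left q h
    rw [Nat.mul_succ] at h1
    omega
  · have hiq : i = q := le_antisymm hi' h
    subst hiq
    rcases Nat.lt_or_ge (k + 1) i with h' | h'
    · left
      omega
    · right
      have hk' : k + 1 = i := le_antisymm hk h'
      refine ⟨by omega, ?_⟩
      refine Dvd.intro_left ((Θ.coeff (k + 1)).coeff i) ?_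
      rw [← hk']
      push_cast
      ring

/-- **The cusp congruence, abstract form.** -/
theorem cusp_core96 (I : Ideal A) (q : ℕ) (hq : q.Prime) {Φ Θ : ℤ[X][X]}
    (hΦ : IsModularShape q Φ)
    (hK : Φ = (X ^ q - C X) * (X - C (X ^ q)) + C (C (q : ℤ)) * Θ)
    {j jq jqq J Jq ρ : A} (hjJ : j * J = 1) (hjqJq : jq * Jq = 1)
    (h1 : ev96 Φ jq j = 0) (h2 : ev96 Φ jq jqq = 0)
    (hπ0 : jqq - j ≠ 0) (hq0 : (q : A) ≠ 0)
    (hπ : jqq - j ∈ I) (hqI : (q : A) ∈ I) (hkron : jq - j ^ q ∈ I)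
    (hρ : (q : A) * ρ = (jqq - j) ^ (q - 1)) :
    ∃ C₀ : ℤ[X], ρ * (1 - j * Jq ^ q) ^ 2 * J ^ (q - 1)
      + (1 + J * C₀.eval₂ (Int.castRingHom A) J) ∈ I := by
  have hq2 := hq.two_le
  rw [hK, ev96_kron] at h1 h2
  have h2' : ((j + (jqq - j)) ^ q - jq) * ((j + (jqq - j)) - jq ^ q)
      + (q : A) * ev96 Θ jq (j + (jqq - j)) = 0 := by
    rw [show j + (jqq - j) = jqq by ring]
    exact h2
  obtain ⟨r, hr⟩ := cusp_taylor96 q hq Θ h1 h2' hπ0 hq0 hρ
  -- the quotient ring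
  obtain ⟨mk, hmk⟩ : ∃ mk : A →+* A ⧸ I, mk = Ideal.Quotient.mk I := ⟨_, rfl⟩
  have hmem : ∀ a : A, a ∈ I ↔ mk a = 0 := fun a => by
    rw [hmk]
    exact Ideal.Quotient.eq_zero_iff_mem.symm
  obtain ⟨x, hx⟩ : ∃ x, x = mk j := ⟨_, rfl⟩
  obtain ⟨u, hu⟩ : ∃ u, u = mk J := ⟨_, rfl⟩
  have hxu : x * u = 1 := by rw [hx, hu, ← map_mul, hjJ, map_one]
  have hπQ : mk (jqq - j) = 0 := (hmem _).mp hπ
  have hqQ : ((q : ℕ) : A ⧸ I) = 0 := by
    have := (hmem _).mp hqI
    rwa [map_natCast] at this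
  have hjqQ : mk jq = x ^ q := by
    have := (hmem _).mp hkron
    rw [map_sub, map_pow, sub_eq_zero] at this
    rw [this, hx]
  have hJqQ : mk Jq = u ^ q := by
    have e : Jq - J ^ q = Jq * J ^ q * (j ^ q - jq) := by
      have h3 : J ^ q * j ^ q = 1 := by rw [← mul_pow, mul_comm, hjJ, one_pow]
      linear_combination (-Jq) * h3 + J ^ q * hjqJq
    have hmemJ : Jq - J ^ q ∈ I := by
      rw [e]
      refine I.mul_mem_left _ ?_
      have := I.neg_mem hkron
      rwa [neg_sub] at this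
    have := (hmem _).mp hmemJ
    rw [map_sub, map_pow, sub_eq_zero] at this
    rw [this, hu]
  -- exponents
  obtain ⟨n, hn⟩ : ∃ n, q = n + 1 := ⟨q - 1, by omega⟩
  have hqq : 2 * q ≤ q * q := Nat.mul_le_mul_right q hq2
  obtain ⟨N₂, hN₂⟩ : ∃ N₂, q * q = N₂ + 2 := ⟨q * q - 2, by omega⟩
  -- weighted reversals in the quotient
  obtain ⟨c₁, c₁', hc₁⟩ := theta_rev96 (B := A ⧸ I) q hq2 hΦ hK hxu (2 * (N₂ + 2) + n)
    (by omega)
  obtain ⟨c₃, c₃', hc₃⟩ := theta_der_rev96 (B := A ⧸ I) q hq2 hΦ hK hxu (N₂ + 2 + n)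
    (by omega)
  rw [hqQ, zero_mul, add_zero] at hc₁ hc₃
  -- the image of the Taylor identity
  have hrQ := congrArg mk hr
  simp only [map_sub, map_mul, map_pow, map_ev96, hπQ, zero_mul, sub_zero, hjqQ, ← hx] at hrQ
  -- `B u^(q²) = E`
  have hE : (x - (x ^ q) ^ q) * u ^ (N₂ + 2) = u ^ (N₂ + 1) - 1 := by
    have h4 : (x ^ q) ^ q * u ^ (N₂ + 2) = 1 := by
      rw [← pow_mul, hN₂, ← mul_pow, hxu, one_pow]
    have h5 : x * u ^ (N₂ + 2) = u ^ (N₂ + 1) := by
      rw [pow_succ, mul_comm (u ^ (N₂ + 1)), ← mul_assoc, hxu, one_mul]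
    rw [sub_mul, h4, h5]
  have hxn : x ^ n * u ^ n = 1 := by rw [← mul_pow, hxu, one_pow]
  have hqn : q - 1 = n := by omega
  refine ⟨-c₁ + (X ^ (N₂ + 1) - 1) * c₃ - 2 * X ^ N₂ + X ^ (2 * N₂ + 1), ?_⟩
  rw [hmem]
  have haev : ∀ p : ℤ[X], mk (p.eval₂ (Int.castRingHom A) J)
      = p.eval₂ (Int.castRingHom (A ⧸ I)) u := by
    intro p
    rw [hu, Polynomial.hom_eval₂]
    congr 1
    exact RingHom.ext_int _ _
  simp only [map_add, map_sub, map_mul, map_pow, map_one, haev, hJqQ, ← hx, ← hu, map_neg,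
    eval₂_add, eval₂_sub, eval₂_mul, eval₂_neg, eval₂_pow, eval₂_X, eval₂_one, eval₂_ofNat, hqn]
  rw [hqn] at hrQ
  have hE' : (1 : A ⧸ I) - x * (u ^ q) ^ q = -(u ^ (N₂ + 1) - 1) := by
    rw [← pow_mul, hN₂, pow_succ, mul_comm (u ^ (N₂ + 1)), ← mul_assoc, hxu, one_mul]
    ring
  rw [hE']
  -- multiply the identity by `u ^ (2 q² + n)`
  have key : (u ^ (N₂ + 1) - 1) ^ 2 * mk ρ * u ^ n
      = u * c₁.eval₂ (Int.castRingHom (A ⧸ I)) u - (u ^ (N₂ + 1) - 1) ^ 2
        - (u ^ (N₂ + 1) - 1) * (u * c₃.eval₂ (Int.castRingHom (A ⧸ I)) u) := by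
    rw [← hc₁, ← hc₃, ← hE]
    linear_combination (u ^ (N₂ + 2)) ^ 2 * u ^ n * hrQ
      - (x - (x ^ q) ^ q) ^ 2 * (u ^ (N₂ + 2)) ^ 2 * hxn
  have h2Q : mk 2 = 2 := map_ofNat mk 2
  rw [h2Q]
  linear_combination key

end Core

/-! ## Valuation form -/

section Val

variable {K : Type*} [Field K]

theorem mem_maximalIdeal_iff96 (V : ValuationSubring K) (y : V) :
    y ∈ IsLocalRing.maximalIdeal V ↔ (y : K) ∈ V.nonunits := by
  rw [ValuationSubring.mem_nonunits_iff_exists_mem_maximalIdeal]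
  constructor
  · intro h
    exact ⟨y.2, h⟩
  · rintro ⟨_, h⟩
    exact h

theorem coe_ev96 (V : ValuationSubring K) (Ψ : ℤ[X][X]) (x y : V) :
    ((ev96 Ψ x y : V) : K) = ev96 Ψ (x : K) (y : K) :=
  map_ev96 V.subtype Ψ x y

theorem coe_eval₂_int96 (V : ValuationSubring K) (p : ℤ[X]) (x : V) :
    ((p.eval₂ (Int.castRingHom V) x : V) : K) = p.eval₂ (Int.castRingHom K) (x : K) := by
  have h := Polynomial.hom_eval₂ p (Int.castRingHom V) V.subtype x
  have e : V.subtype.comp (Int.castRingHom V) = Int.castRingHom K := RingHom.ext_int _ _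
  rw [e] at h
  exact h

/-- **The cusp congruence, valuation form.**  `a = j`, `b = j_q`, `c = j_{q²}`, `W = w`,
`q = W U`, `V` the valuation ring of the middle component. -/
theorem cusp_cong_val96 (V : ValuationSubring K) (q : ℕ) (hq : q.Prime) {Φ Θ : ℤ[X][X]}
    (hΦ : IsModularShape q Φ)
    (hK : Φ = (X ^ q - C X) * (X - C (X ^ q)) + C (C (q : ℤ)) * Θ)
    {a b c W U U' : K}
    (ha0 : a ≠ 0) (ha : a ∈ V) (ha' : a⁻¹ ∈ V)
    (hb0 : b ≠ 0) (hb : b ∈ V) (hb' : b⁻¹ ∈ V)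
    (hc0 : c ≠ 0) (hc : c ∈ V) (hc' : c⁻¹ ∈ V)
    (h1 : ev96 Φ b a = 0) (h2 : ev96 Φ b c = 0)
    (hπ0 : c - a ≠ 0) (hπ : c - a ∈ V.nonunits) (hkron : b - a ^ q ∈ V.nonunits)
    (hW0 : W ≠ 0) (hWm : W ∈ V.nonunits) (hU : U ∈ V) (hU' : U' ∈ V) (hUU' : U * U' = 1)
    (hqW : (q : K) = W * U) (hpow : (c - a) ^ (q - 1) * W⁻¹ ∈ V) :
    ∃ C₀ : ℤ[X], ∀ hv g : K, hv = 1 + a⁻¹ * C₀.eval₂ (Int.castRingHom K) a⁻¹ →
      g = -U' * (1 - a * (b ^ q)⁻¹) ^ 2 →
      (((c - a) * b * (a ^ q * c)⁻¹) ^ (q - 1) * g - W ^ 1 * hv ^ 1) * (W ^ 1)⁻¹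
        ∈ V.nonunits := by
  obtain ⟨n, hn⟩ : ∃ n, q = n + 1 := ⟨q - 1, by have := hq.pos; omega⟩
  have hqn : q - 1 = n := by omega
  rw [hqn] at hpow
  -- elements of `V`
  obtain ⟨jV, hjV⟩ : ∃ y : V, (y : K) = a := ⟨⟨a, ha⟩, rfl⟩
  obtain ⟨JV, hJV⟩ : ∃ y : V, (y : K) = a⁻¹ := ⟨⟨a⁻¹, ha'⟩, rfl⟩
  obtain ⟨jqV, hjqV⟩ : ∃ y : V, (y : K) = b := ⟨⟨b, hb⟩, rfl⟩
  obtain ⟨JqV, hJqV⟩ : ∃ y : V, (y : K) = b⁻¹ := ⟨⟨b⁻¹, hb'⟩, rfl⟩
  obtain ⟨jqqV, hjqqV⟩ : ∃ y : V, (y : K) = c := ⟨⟨c, hc⟩, rfl⟩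
  obtain ⟨JqqV, hJqqV⟩ : ∃ y : V, (y : K) = c⁻¹ := ⟨⟨c⁻¹, hc'⟩, rfl⟩
  obtain ⟨ρV, hρV⟩ : ∃ y : V, (y : K) = (c - a) ^ n * W⁻¹ * U' :=
    ⟨⟨(c - a) ^ n * W⁻¹ * U', V.mul_mem _ _ hpow hU'⟩, rfl⟩
  have hWW : W * W⁻¹ = 1 := mul_inv_cancel₀ hW0
  have inj : ∀ {y z : V}, (y : K) = (z : K) → y = z := fun h => Subtype.ext h
  have hjJ : jV * JV = 1 := inj (by push_cast; rw [hjV, hJV, mul_inv_cancel₀ ha0])
  have hjqJq : jqV * JqV = 1 := inj (by push_cast; rw [hjqV, hJqV, mul_inv_cancel₀ hb0])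
  have hjqqJqq : jqqV * JqqV = 1 := inj (by push_cast; rw [hjqqV, hJqqV, mul_inv_cancel₀ hc0])
  have e1 : ev96 Φ jqV jV = 0 := inj (by rw [coe_ev96, hjqV, hjV, h1]; rfl)
  have e2 : ev96 Φ jqV jqqV = 0 := inj (by rw [coe_ev96, hjqV, hjqqV, h2]; rfl)
  have hπ0V : jqqV - jV ≠ 0 := by
    intro h
    apply hπ0
    have := congrArg (fun y : V => (y : K)) h
    simpa [hjqqV, hjV] using this
  have hqK0 : (q : K) ≠ 0 := by
    rw [hqW]
    intro h
    rcases mul_eq_zero.mp h with h | h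
    · exact hW0 h
    · rw [h, zero_mul] at hUU'
      exact zero_ne_one hUU'
  have hq0V : ((q : ℕ) : V) ≠ 0 := by
    intro h
    apply hqK0
    have := congrArg (fun y : V => (y : K)) h
    simpa using this
  have hπV : jqqV - jV ∈ IsLocalRing.maximalIdeal V := by
    rw [mem_maximalIdeal_iff96]
    push_cast
    rw [hjqqV, hjV]
    exact hπ
  have hqV : ((q : ℕ) : V) ∈ IsLocalRing.maximalIdeal V := by
    rw [mem_maximalIdeal_iff96]
    push_cast
    rw [hqW, mul_comm]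
    have := (IsLocalRing.maximalIdeal V).mul_mem_left ⟨U, hU⟩
      ((mem_maximalIdeal_iff96 V ⟨W, V.nonunits_le hWm⟩).mpr hWm)
    rw [mem_maximalIdeal_iff96] at this
    simpa using this
  have hkronV : jqV - jV ^ q ∈ IsLocalRing.maximalIdeal V := by
    rw [mem_maximalIdeal_iff96]
    push_cast
    rw [hjqV, hjV]
    exact hkron
  have hρ : ((q : ℕ) : V) * ρV = (jqqV - jV) ^ (q - 1) := by
    apply inj
    push_cast
    rw [hρV, hjqqV, hjV, hqW, hqn]
    linear_combination (c - a) ^ n * U * U' * hWW + (c - a) ^ n * hUU'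
  obtain ⟨C₀, hC₀⟩ := cusp_core96 (IsLocalRing.maximalIdeal V) q hq hΦ hK hjJ hjqJq e1 e2
    hπ0V hq0V hπV hqV hkronV hρ
  refine ⟨C₀, fun hv g hhv hg => ?_⟩
  -- `z = zcusp`
  obtain ⟨zV, hzV⟩ : ∃ zV : V, zV = jqV * JV ^ n * JqqV := ⟨_, rfl⟩
  have hz1 : zV - 1 ∈ IsLocalRing.maximalIdeal V := by
    have e : zV - 1 = ((jqV - jV ^ q) - jV ^ n * (jqqV - jV)) * (JV ^ n * JqqV) := by
      have h3 : jV ^ n * JV ^ n = 1 := by rw [← mul_pow, hjJ, one_pow]
      rw [hzV, hn, pow_succ]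
      linear_combination (jV ^ n * JV ^ n) * hjqqJqq + h3
    rw [e]
    exact Ideal.mul_mem_right _ _
      (Ideal.sub_mem _ hkronV (Ideal.mul_mem_left _ _ hπV))
  have hzn : zV ^ n - 1 ∈ IsLocalRing.maximalIdeal V := by
    obtain ⟨d, hd⟩ := sub_dvd_pow_sub_pow zV 1 n
    rw [one_pow] at hd
    rw [hd]
    exact Ideal.mul_mem_right _ _ hz1
  have hT : -((ρV * (1 - jV * JqV ^ q) ^ 2 * JV ^ (q - 1)
        + (1 + JV * C₀.eval₂ (Int.castRingHom V) JV)) * zV ^ n
      - (1 + JV * C₀.eval₂ (Int.castRingHom V) JV) * (zV ^ n - 1))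
      ∈ IsLocalRing.maximalIdeal V :=
    neg_mem (Ideal.sub_mem _ (Ideal.mul_mem_right _ _ hC₀) (Ideal.mul_mem_left _ _ hzn))
  rw [mem_maximalIdeal_iff96] at hT
  have key : (((c - a) * b * (a ^ q * c)⁻¹) ^ (q - 1) * g - W ^ 1 * hv ^ 1) * (W ^ 1)⁻¹
      = ((-((ρV * (1 - jV * JqV ^ q) ^ 2 * JV ^ (q - 1)
        + (1 + JV * C₀.eval₂ (Int.castRingHom V) JV)) * zV ^ n
      - (1 + JV * C₀.eval₂ (Int.castRingHom V) JV) * (zV ^ n - 1)) : V) : K) := by
    push_cast
    rw [coe_eval₂_int96, hzV]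
    push_cast
    rw [hρV, hjV, hJV, hJqV, hjqV, hJqqV, hg, hhv, hqn, pow_one, pow_one]
    have ht : (c - a) * b * (a ^ q * c)⁻¹ = (c - a) * (b * (a⁻¹) ^ n * c⁻¹) * a⁻¹ := by
      rw [hn, mul_inv, ← inv_pow, pow_succ]
      ring
    rw [ht, mul_pow, mul_pow, ← inv_pow b q]
    linear_combination (-(1 + a⁻¹ * C₀.eval₂ (Int.castRingHom K) a⁻¹)) * hWW
  rw [key]
  exact hT

end Val

end Fermat.Agent.S36.Mod3.H96

end
-- ===== PACK-END S36/Mod3/H96/CuspAbs.lean

-- ===== PACK-BEGIN S59/H240/Node/Curve.lean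
section


/-!
# S59 / CR-I (helper240): the nodal normal form as a Weierstrass curve

* `gX`, `gY` : the two partial derivatives of the Weierstrass polynomial (up to sign), the
  intrinsic "distance to the singular point of the reduction" is `max (v gX) (v gY)`;
* `InE0 W v P` : `P` has nonsingular reduction (or lies in the kernel of reduction);
* `nodeCurve a` : `y² + xy = x³ + a x`;
* `node_sub_inE0` : on `nodeCurve a` (`0 < v a < 1`) the difference of two points of the annulus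
  `v x < 1` lying in the same class belongs to `E₀`.
-/

set_option autoImplicit false
set_option linter.unusedSectionVars false

namespace Fermat.Agent.S59.H240

open WeierstrassCurve WeierstrassCurve.Affine

variable {K : Type*} [Field K] {Γ₀ : Type*} [LinearOrderedCommGroupWithZero Γ₀]
  {v : Valuation K Γ₀}

/-- `-∂F/∂x` of the Weierstrass polynomial. -/
def gX (W : WeierstrassCurve K) (x y : K) : K := W.a₁ * y - (3 * x ^ 2 + 2 * W.a₂ * x + W.a₄)

/-- `∂F/∂y` of the Weierstrass polynomial. -/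
def gY (W : WeierstrassCurve K) (x y : K) : K := 2 * y + W.a₁ * x + W.a₃

/-- The subgroup `E₀` (as a predicate): the point at infinity, the points with non-integral
`x`-coordinate, and the integral points with nonsingular reduction. -/
def InE0 (W : Affine K) (v : Valuation K Γ₀) : W.Point → Prop
  | .zero => True
  | .some x y _ => 1 < v x ∨ v (gX W x y) = 1 ∨ v (gY W x y) = 1

@[simp] lemma inE0_zero (W : Affine K) : InE0 W v (0 : W.Point) := trivial

lemma inE0_some {W : Affine K} {x y : K} (h : W.Nonsingular x y) :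
    InE0 W v (Point.some x y h) ↔ (1 < v x ∨ v (gX W x y) = 1 ∨ v (gY W x y) = 1) := Iff.rfl

/-- The normal form `N(a) : y² + xy = x³ + a x`. -/
def nodeCurve (a : K) : WeierstrassCurve K := ⟨1, 0, 0, a, 0⟩

variable {a x y x' y' : K}

@[simp] lemma nodeCurve_a₁ : (nodeCurve a).a₁ = 1 := rfl
@[simp] lemma nodeCurve_a₂ : (nodeCurve a).a₂ = 0 := rfl
@[simp] lemma nodeCurve_a₃ : (nodeCurve a).a₃ = 0 := rfl
@[simp] lemma nodeCurve_a₄ : (nodeCurve a).a₄ = a := rfl
@[simp] lemma nodeCurve_a₆ : (nodeCurve a).a₆ = 0 := rfl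

lemma nodeCurve_equation_iff : (nodeCurve a).toAffine.Equation x y ↔ NodeEq a x y := by
  rw [Affine.equation_iff]
  simp only [nodeCurve_a₁, nodeCurve_a₂, nodeCurve_a₃, nodeCurve_a₄, nodeCurve_a₆, NodeEq]
  constructor <;> intro h <;> linear_combination h

lemma nodeCurve_negY : (nodeCurve a).toAffine.negY x y = -y - x := by
  simp [Affine.negY]

lemma nodeCurve_gX : gX (nodeCurve a) x y = y - 3 * x ^ 2 - a := by
  simp [gX]; ring

lemma nodeCurve_gY : gY (nodeCurve a) x y = 2 * y + x := by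
  simp [gY]

lemma nodeCurve_addX (ℓ : K) : (nodeCurve a).toAffine.addX x' x ℓ = ℓ ^ 2 + ℓ - x' - x := by
  simp [Affine.addX]

/-- The key identity: `x³` lies in the ideal generated by `gX`, `gY`, `a` (modulo the equation). -/
lemma node_x_cube (h : NodeEq a x y) :
    x ^ 3 = (y - 3 * x ^ 2 - a) * (-2 * (y - 3 * x ^ 2 - a) - 6 * x ^ 2 - 4 * a - 2 * x)
      - 3 * x ^ 2 * (2 * y + x) - a * (6 * x ^ 2 + 2 * a) := by
  unfold NodeEq at h
  linear_combination 2 * h

/-- A point of `N(a)` with `1 ≤ v x` belongs to `E₀`. -/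
lemma node_inE0_of_le (ha : v a < 1) (h : (nodeCurve a).toAffine.Nonsingular x y)
    (hx : 1 ≤ v x) : InE0 (nodeCurve a).toAffine v (Point.some x y h) := by
  rw [inE0_some]
  rcases hx.lt_or_eq with hlt | heq
  · exact Or.inl hlt
  right
  have hE := nodeCurve_equation_iff.mp h.1
  have hx1 : v x ≤ 1 := heq.ge
  -- `y` is integral
  have hy1 : v y ≤ 1 := by
    by_contra hy
    rw [not_le] at hy
    have h1 : v (y + x) = v y := vadd_eq_left (lt_of_le_of_lt hx1 hy)
    have h2 : v (x ^ 2 + a) ≤ 1 :=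
      vadd_le (by rw [map_pow]; exact pow_le_one₀ zero_le hx1) ha.le
    have h3 := congrArg v hE.factor
    rw [map_mul, map_mul, h1] at h3
    have h4 : v x * v (x ^ 2 + a) ≤ 1 := by
      calc v x * v (x ^ 2 + a) ≤ 1 * 1 := mul_le_mul' hx1 h2
        _ = 1 := one_mul 1
    have h5 : (1 : Γ₀) < v y * v y := by
      calc (1 : Γ₀) = 1 * 1 := (one_mul 1).symm
        _ < v y * v y := by
          calc (1 : Γ₀) * 1 < v y * 1 := by rw [one_mul, mul_one]; exact hy
            _ ≤ v y * v y := mul_le_mul' le_rfl hy.le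
    rw [h3] at h5
    exact absurd h4 (not_le.mpr h5)
  rw [nodeCurve_gX, nodeCurve_gY]
  set G : K := y - 3 * x ^ 2 - a with hG
  set H : K := 2 * y + x with hH
  have hx2 : v (x ^ 2) ≤ 1 := by rw [map_pow]; exact pow_le_one₀ zero_le hx1
  have hG1 : v G ≤ 1 :=
    vsub_le (vsub_le hy1 ((vmul_le_of_le_one_left vthree_le_one).trans hx2)) ha.le
  have hH1 : v H ≤ 1 := vadd_le ((vmul_le_of_le_one_left vtwo_le_one).trans hy1) hx1
  by_contra hcon
  rw [not_or] at hcon
  have hGlt : v G < 1 := lt_of_le_of_ne hG1 hcon.1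
  have hHlt : v H < 1 := lt_of_le_of_ne hH1 hcon.2
  have key := node_x_cube hE
  rw [← hG, ← hH] at key
  have hc : v (x ^ 3) < 1 := by
    rw [key]
    refine vsub_lt (vsub_lt ?_ ?_) ?_
    · refine lt_of_le_of_lt (vmul_le_of_le_one_right ?_) hGlt
      refine vsub_le (vsub_le (vsub_le ?_ ?_) ?_) ?_
      · exact (vmul_le_of_le_one_left (by rw [Valuation.map_neg]; exact vtwo_le_one)).trans hG1
      · exact (vmul_le_of_le_one_right hx2).trans (vnat_le_one 6 |> fun h => by simpa using h)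
      · exact (vmul_le_of_le_one_right ha.le).trans (vnat_le_one 4 |> fun h => by simpa using h)
      · exact (vmul_le_of_le_one_left vtwo_le_one).trans hx1
    · exact lt_of_le_of_lt (vmul_le_of_le_one_left
        ((vmul_le_of_le_one_left vthree_le_one).trans hx2)) hHlt
    · refine lt_of_le_of_lt (vmul_le_of_le_one_right ?_) ha
      refine vadd_le ?_ ?_
      · exact (vmul_le_of_le_one_right hx2).trans (vnat_le_one 6 |> fun h => by simpa using h)
      · exact (vmul_le_of_le_one_left vtwo_le_one).trans ha.le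
  rw [map_pow, ← heq, one_pow] at hc
  exact lt_irrefl _ hc

/-- From the slope bounds to the bound on the `x`-coordinate of the sum. -/
lemma one_le_val_addX {ℓ : K} (hx : v x < 1) (hx' : v x' < 1) (h1 : 1 ≤ v ℓ)
    (h2 : 1 ≤ v (ℓ + 1)) : 1 ≤ v (ℓ ^ 2 + ℓ - x' - x) := by
  have e : ℓ ^ 2 + ℓ - x' - x = ℓ * (ℓ + 1) + (-x' - x) := by ring
  have h3 : (1 : Γ₀) ≤ v (ℓ * (ℓ + 1)) := by
    rw [map_mul]
    calc (1 : Γ₀) = 1 * 1 := (one_mul 1).symm
      _ ≤ v ℓ * v (ℓ + 1) := mul_le_mul' h1 h2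
  have h4 : v (-x' - x) < 1 := vsub_lt (vneg_lt hx') hx
  rw [e, vadd_eq_left (lt_of_lt_of_le h4 h3)]
  exact h3

variable [DecidableEq K]

/-- **Main theorem for the normal form.**  On `N(a)`, `0 < v a < 1`, the difference of two points
of the annulus `v x < 1` lying in the same class belongs to `E₀`. -/
theorem node_sub_inE0 (ha0 : a ≠ 0) (ha : v a < 1)
    (h : (nodeCurve a).toAffine.Nonsingular x y) (h' : (nodeCurve a).toAffine.Nonsingular x' y')
    (hx : v x < 1) (hx' : v x' < 1)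
    (hcl : (ClM v a x ∧ ClM v a x') ∨ (v x = v x' ∧ BrP v a x y ∧ BrP v a x' y') ∨
      (v x = v x' ∧ BrN v a x y ∧ BrN v a x' y')) :
    InE0 (nodeCurve a).toAffine v (Point.some x' y' h' - Point.some x y h) := by
  have hE := nodeCurve_equation_iff.mp h.1
  have hE' := nodeCurve_equation_iff.mp h'.1
  rw [sub_eq_add_neg, Point.neg_some]
  by_cases hxx : x' = x
  · subst hxx
    rcases Affine.Y_eq_of_X_eq h'.1 h.1 rfl with hyy | hyy
    · -- `P' = P`
      subst hyy
      rw [Point.add_of_Y_eq rfl (by rw [Affine.negY_negY])]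
      exact inE0_zero _
    · by_cases hyy' : y' = y
      · subst hyy'
        rw [Point.add_of_Y_eq rfl (by rw [Affine.negY_negY])]
        exact inE0_zero _
      · -- `P' = -P ≠ P`: only in the middle class
        have hM : ClM v a x' := by
          rcases hcl with ⟨hM, -⟩ | ⟨-, hP, hP'⟩ | ⟨-, hN, hN'⟩
          · exact hM
          · exfalso
            have := hP.neg
            rw [← nodeCurve_negY (a := a), ← hyy] at this
            exact hP'.not_brN this
          · exfalso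
            have := hN.neg
            rw [← nodeCurve_negY (a := a), ← hyy] at this
            exact this.not_brN hN'
        have hne : y' ≠ (nodeCurve a).toAffine.negY x' ((nodeCurve a).toAffine.negY x' y) := by
          rwa [Affine.negY_negY]
        rw [Point.add_of_Y_ne hne]
        apply node_inE0_of_le ha
        have hs : (nodeCurve a).toAffine.slope x' x' y' ((nodeCurve a).toAffine.negY x' y)
            = (3 * x' ^ 2 + a - y') / (2 * y' + x') := by
          rw [Affine.slope_of_Y_ne rfl hne, nodeCurve_negY]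
          congr 1
          · simp
          · ring
        rw [nodeCurve_addX, hs]
        have hd0 : 2 * y' + x' ≠ 0 := by
          intro h0
          apply hyy'
          have hy : y' = -y - x' := by rw [hyy, nodeCurve_negY]
          linear_combination h0 - hy
        obtain ⟨hb1, hb2⟩ := tangent_bound ha0 ha hE' hM
        have hvd : 0 < v (2 * y' + x') := (Valuation.pos_iff v).mpr hd0
        apply one_le_val_addX hx' hx'
        · rw [map_div₀, one_le_div₀ hvd]; exact hb1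
        · have : (3 * x' ^ 2 + a - y') / (2 * y' + x') + 1
              = (3 * x' ^ 2 + a + y' + x') / (2 * y' + x') := by
            rw [div_add_one hd0]; congr 1; ring
          rw [this, map_div₀, one_le_div₀ hvd]; exact hb2
  · rw [Point.add_of_X_ne hxx]
    apply node_inE0_of_le ha
    rw [nodeCurve_addX, Affine.slope_of_X_ne hxx, nodeCurve_negY]
    have hd0 : x' - x ≠ 0 := sub_ne_zero.mpr hxx
    have hvd : 0 < v (x' - x) := (Valuation.pos_iff v).mpr hd0
    obtain ⟨hb1, hb2⟩ := chord_bound ha0 ha hE hE' hcl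
    have e1 : y' - (-y - x) = y' + y + x := by ring
    apply one_le_val_addX hx hx'
    · rw [e1, map_div₀, one_le_div₀ hvd]; exact hb1
    · have : (y' - (-y - x)) / (x' - x) + 1 = (y' + y + x') / (x' - x) := by
        rw [div_add_one hd0]; congr 1; ring
      rw [this, map_div₀, one_le_div₀ hvd]; exact hb2

end Fermat.Agent.S59.H240

end
-- ===== PACK-END S59/H240/Node/Curve.lean

-- ===== PACK-BEGIN S59/TW/H564/GenNilCore.lean
section


/-!
# S59 / TW, leaf GENNIL, core (helper564): nilpotence modulo `𝔪` on a direct summand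

Abstract lemmas (Mathlib + `LocActCore`) feeding `GenNil` of `LocAct.lean`:

* `mem_mSub_of_projector` : `V ∩ 𝔪 X = 𝔪 V` for the image `V` of a projector;
* `resEnd`, `isNilpotent_redEnd_resEnd` : an endomorphism of `X`, stable on `V`, with
  `T^m V ⊆ 𝔪 X`, is nilpotent on `V / 𝔪 V`;
* `isNilpotent_redEnd_sub_one` : an operator `D` with `D^(p^k) = 1` (`p` odd, `p ∈ 𝔪`) is
  unipotent on `V / 𝔪 V`.
-/

set_option autoImplicit false
set_option linter.unusedSectionVars false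

noncomputable section

namespace Fermat.Agent.S59.TW.H564

open IsLocalRing

section GenNil

variable {𝒪 : Type*} [CommRing 𝒪] [IsLocalRing 𝒪] {X : Type*} [AddCommGroup X] [Module 𝒪 X]

/-- `V ∩ 𝔪 X = 𝔪 V` for a direct summand `V` (image of a projector `e`). -/
theorem mem_mSub_of_projector (V : Submodule 𝒪 X) (e : X →ₗ[𝒪] X) (he1 : ∀ x, e x ∈ V)
    (he2 : ∀ x ∈ V, e x = x) (v : V) (hv : (v : X) ∈ mSub 𝒪 X) : v ∈ mSub 𝒪 V := by
  -- `e` as a map `X → V`
  let e' : X →ₗ[𝒪] V := e.codRestrict V he1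
  have h1 : e' (v : X) = v := Subtype.ext (he2 v v.2)
  rw [← h1]
  exact Submodule.smul_top_le_comap_smul_top (maximalIdeal 𝒪) e' hv

/-- The restriction of an endomorphism to a stable submodule. -/
abbrev resEnd (V : Submodule 𝒪 X) (T : Module.End 𝒪 X) (hT : ∀ v ∈ V, T v ∈ V) :
    Module.End 𝒪 V := T.restrict hT

theorem resEnd_pow_apply (V : Submodule 𝒪 X) (T : Module.End 𝒪 X) (hT : ∀ v ∈ V, T v ∈ V)
    (m : ℕ) (v : V) : (((resEnd V T hT) ^ m) v : X) = (T ^ m) (v : X) := by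
  induction m generalizing v with
  | zero => rfl
  | succ m ih =>
    rw [pow_succ, pow_succ, Module.End.mul_apply, Module.End.mul_apply, ih]
    rfl

/-- Nilpotence modulo `𝔪` on a direct summand, from nilpotence modulo `𝔪 X`. -/
theorem isNilpotent_redEnd_resEnd (V : Submodule 𝒪 X) (e : X →ₗ[𝒪] X) (he1 : ∀ x, e x ∈ V)
    (he2 : ∀ x ∈ V, e x = x) (T : Module.End 𝒪 X) (hT : ∀ v ∈ V, T v ∈ V)
    (m : ℕ) (h : ∀ v ∈ V, (T ^ m) v ∈ mSub 𝒪 X) :
    IsNilpotent (redEnd 𝒪 V (resEnd V T hT)) := by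
  rw [isNilpotent_redEnd_iff]
  refine ⟨m, fun v => mem_mSub_of_projector V e he1 he2 _ ?_⟩
  rw [resEnd_pow_apply]
  exact h v v.2

/-- An operator of `p`-power order is unipotent modulo `𝔪` (`p ∈ 𝔪`). -/
theorem isNilpotent_redEnd_sub_one {V : Type*} [AddCommGroup V] [Module 𝒪 V] {p : ℕ}
    (hp : p.Prime) (hp2 : p ≠ 2) (hp𝔪 : (p : 𝒪) ∈ maximalIdeal 𝒪) (D : Module.End 𝒪 V) (k : ℕ)
    (hD : D ^ p ^ k = 1) : IsNilpotent (redEnd 𝒪 V (D - 1)) := by
  have hp0 : redEnd 𝒪 V (p : Module.End 𝒪 V) = 0 := by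
    have : (p : Module.End 𝒪 V) = algebraMap 𝒪 (Module.End 𝒪 V) (p : 𝒪) := by
      rw [map_natCast]
    rw [this]
    exact redEnd_algebraMap_eq_zero hp𝔪
  obtain ⟨r, hr⟩ := (Commute.one_right D).neg_right.exists_add_pow_prime_pow_eq hp k
  have hodd : Odd (p ^ k) := (hp.odd_of_ne_two hp2).pow
  have h1 : (D - 1) ^ p ^ k = p * D * (-1) * r := by
    rw [sub_eq_add_neg, hr, hD, hodd.neg_one_pow, add_neg_cancel, zero_add]
  refine ⟨p ^ k, ?_⟩
  rw [← map_pow, h1, map_mul, map_mul, map_mul, hp0, zero_mul, zero_mul, zero_mul]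

end GenNil

end Fermat.Agent.S59.TW.H564

end
end
-- ===== PACK-END S59/TW/H564/GenNilCore.lean

-- ===== PACK-BEGIN S59/TW/H564/LocAct.lean
section



/-!
# S59 / TW, leaf LOCACT (helper564): the action of `heckeLocal` on a localised module

The pure-algebra step of MOD0 / MODQ (`TW/Aut/Spec.lean`).  Let `𝕋 = heckeAlgebra N 2 S`,
`θ : 𝕋 →+* k` and `T = heckeLocal N S 𝒪 θ` (the Prelude ring), `V` a FINITE `𝒪`-module and
`Ψ : 𝕋 →+* End_𝒪 V` a ring homomorphism.

* `GenNil N S 𝒪 θ Ψ` : for every generator `t` of `𝕋` there is a lift `c ∈ 𝒪` of `θ t` with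
  `Ψ t - c` nilpotent modulo `𝔪` (`IsNilpotent (redEnd 𝒪 V (Ψ t - c))`, see
  `isNilpotent_redEnd_iff`);  `genNil_of_TU` : check it on the `T_ℓ` and `U_q`;
* `exists_heckeLocal_action` : **LOCACT**, `∃ a : T →ₐ[𝒪] End_𝒪 V, ∀ t, a (π t) = Ψ t`.
-/

set_option autoImplicit false
set_option synthInstance.maxHeartbeats 400000
set_option maxHeartbeats 1000000
set_option linter.unusedSectionVars false

noncomputable section

namespace Fermat.Agent.S59.TW.H564

open CuspForm IsLocalRing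
open scoped TensorProduct

variable (N : ℕ) [NeZero N] (S : Set ℕ)
variable (𝒪 : Type) [CommRing 𝒪] [IsDomain 𝒪] [IsDiscreteValuationRing 𝒪]
  [IsAdicComplete (IsLocalRing.maximalIdeal 𝒪) 𝒪]
variable (θ : heckeAlgebra N 2 S →+* IsLocalRing.ResidueField 𝒪)
variable [Fact (HasIntegralStructure N 2)]
variable {V : Type*} [AddCommGroup V] [Module 𝒪 V]
variable (Ψ : heckeAlgebra N 2 S →+* Module.End 𝒪 V)

/-- The generators of the Hecke algebra, as elements of the Hecke algebra. -/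
def genSet : Set ↥(heckeAlgebra N 2 S) :=
  {t | (t : Module.End ℂ (CuspForm (CongruenceSubgroup.Gamma0 N) 2)) ∈ heckeGenerators N 2 S}

omit [Fact (HasIntegralStructure N 2)] in
theorem closure_genSet : Subring.closure (genSet N S) = ⊤ := by
  rw [eq_top_iff]
  rintro ⟨T, hT⟩ -
  induction hT using Algebra.adjoin_induction with
  | mem T hT => exact Subring.subset_closure hT
  | algebraMap n =>
    have : (⟨algebraMap ℤ _ n, Subalgebra.algebraMap_mem _ n⟩ : ↥(heckeAlgebra N 2 S)) =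
        (n : ↥(heckeAlgebra N 2 S)) := by
      apply Subtype.ext
      simp
    rw [this]
    exact intCast_mem _ n
  | add x y hx hy ihx ihy => exact Subring.add_mem _ ihx ihy
  | mul x y hx hy ihx ihy => exact Subring.mul_mem _ ihx ihy

/-- The hypothesis on the generators: `Ψ T - c` is nilpotent modulo `𝔪`, for some lift `c` of
`θ T`. -/
def GenNil : Prop :=
  ∀ t ∈ genSet N S, ∃ c : 𝒪, residue 𝒪 c = θ t ∧
    IsNilpotent (redEnd 𝒪 V (Ψ t - algebraMap 𝒪 (Module.End 𝒪 V) c))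

variable {N S 𝒪 θ Ψ}

omit [Fact (HasIntegralStructure N 2)] in
/-- `GenNil` can be checked on the `T_ℓ` (`ℓ ∤ N`, `ℓ ∉ S`) and the `U_q` (`q ∣ N`, `q ∉ S`). -/
theorem genNil_of_TU
    (hT : ∀ (ℓ : ℕ) (hℓ : ℓ.Prime) (hℓN : ¬ ℓ ∣ N) (hℓS : ℓ ∉ S),
      ∃ c : 𝒪, residue 𝒪 c = θ (heckeAlgebra.T hℓ hℓN hℓS) ∧
        IsNilpotent (redEnd 𝒪 V (Ψ (heckeAlgebra.T hℓ hℓN hℓS) -
          algebraMap 𝒪 (Module.End 𝒪 V) c)))
    (hU : ∀ (q : ℕ) (hq : q.Prime) (hqN : q ∣ N) (hqS : q ∉ S),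
      ∃ c : 𝒪, residue 𝒪 c = θ (heckeAlgebra.U hq hqN hqS) ∧
        IsNilpotent (redEnd 𝒪 V (Ψ (heckeAlgebra.U hq hqN hqS) -
          algebraMap 𝒪 (Module.End 𝒪 V) c))) :
    GenNil N S 𝒪 θ Ψ := by
  rintro ⟨t, ht'⟩ ht
  rcases ht with ⟨ℓ, hℓ, hℓN, hℓS, rfl⟩ | ⟨q, hqN, hq, hqS, rfl⟩
  · exact hT ℓ hℓ hℓN hℓS
  · exact hU q hq hqN hqS

omit [Fact (HasIntegralStructure N 2)] in
theorem isUnit_actTensor_of_genNil [Module.Finite 𝒪 V] (hgen : GenNil N S 𝒪 θ Ψ)
    (x : 𝒪 ⊗[ℤ] ↥(heckeAlgebra N 2 S)) (hx : x ∉ heckeCharKernel N S 𝒪 θ) :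
    IsUnit (actTensor Ψ x) := by
  refine isUnit_actTensor (θ := θ) (residualCharacter N S 𝒪 θ).toRingHom
    (fun a t => residualCharacter_tmul N S 𝒪 θ a t)
    (resNil_of_closure (genSet N S) (closure_genSet N S)
      fun t ht => resNil_of_exists (hgen t ht)) x ?_
  intro h0
  exact hx ((mem_heckeCharKernel_iff N S 𝒪 θ x).mpr h0)

variable (N S 𝒪 θ Ψ)

/-- The action of the base algebra `𝒪 ⊗ heckeLatticeAlgebra`. -/
def actBase : heckeBaseAlgebra N S 𝒪 →+* Module.End 𝒪 V :=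
  (actTensor Ψ).toRingHom.comp (H7.latticeBaseChangeEquiv N S 𝒪).symm.toRingHom

theorem actBase_latticeBaseChange (x : 𝒪 ⊗[ℤ] ↥(heckeAlgebra N 2 S)) :
    actBase N S 𝒪 Ψ (latticeBaseChange N S 𝒪 x) = actTensor Ψ x := by
  change actTensor Ψ ((H7.latticeBaseChangeEquiv N S 𝒪).symm (latticeBaseChange N S 𝒪 x)) = _
  rw [H7.latticeBaseChangeEquiv_symm_apply]

variable {N S 𝒪 θ Ψ}

theorem ker_le_ker_actBase [Module.Finite 𝒪 V] (hgen : GenNil N S 𝒪 θ Ψ) :
    RingHom.ker (algebraMap (heckeBaseAlgebra N S 𝒪) (heckeLocal N S 𝒪 θ)) ≤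
      RingHom.ker (actBase N S 𝒪 Ψ) := by
  intro b hb
  rw [RingHom.mem_ker] at hb ⊢
  obtain ⟨m, hm⟩ := (IsLocalization.map_eq_zero_iff (heckeLocalSubmonoid N S 𝒪 θ)
    (heckeLocal N S 𝒪 θ) b).mp hb
  obtain ⟨m, x, hx, rfl⟩ := m
  have hu : IsUnit (actBase N S 𝒪 Ψ (latticeBaseChange N S 𝒪 x)) := by
    rw [actBase_latticeBaseChange]
    exact isUnit_actTensor_of_genNil hgen x (Ideal.mem_primeCompl_iff.mp hx)
  have h0 : actBase N S 𝒪 Ψ (latticeBaseChange N S 𝒪 x) * actBase N S 𝒪 Ψ b = 0 := by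
    rw [← map_mul]
    have : (latticeBaseChange N S 𝒪 x) * b = 0 := hm
    rw [this, map_zero]
  exact (hu.mul_right_eq_zero).mp h0

/-- **LOCACT.**  A ring homomorphism `Ψ : 𝕋 → End_𝒪 V` (`V` finite over `𝒪`) such that, on the
generators, `Ψ T ≡ θ T` modulo `𝔪` and nilpotents, extends to the localisation
`heckeLocal N S 𝒪 θ`. -/
theorem exists_heckeLocal_action [Module.Finite 𝒪 V] (hgen : GenNil N S 𝒪 θ Ψ) :
    ∃ a : heckeLocal N S 𝒪 θ →ₐ[𝒪] Module.End 𝒪 V,
      ∀ t : ↥(heckeAlgebra N 2 S), a (heckeLocal.π N S 𝒪 θ t) = Ψ t := by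
  let a₀ : heckeLocal N S 𝒪 θ →+* Module.End 𝒪 V :=
    (algebraMap (heckeBaseAlgebra N S 𝒪) (heckeLocal N S 𝒪 θ)).liftOfSurjective
      (H7.algebraMap_base_surjective N S 𝒪 θ) ⟨actBase N S 𝒪 Ψ, ker_le_ker_actBase hgen⟩
  have ha₀ : ∀ b : heckeBaseAlgebra N S 𝒪,
      a₀ (algebraMap (heckeBaseAlgebra N S 𝒪) (heckeLocal N S 𝒪 θ) b) = actBase N S 𝒪 Ψ b :=
    fun b => RingHom.liftOfSurjective_comp_apply _ _ _ b
  refine ⟨{ a₀ with commutes' := fun c => ?_ }, fun t => ?_⟩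
  · change a₀ (algebraMap 𝒪 (heckeLocal N S 𝒪 θ) c) = _
    rw [H7.algebraMap_eq, ha₀, actBase_latticeBaseChange, AlgHom.commutes]
  · change a₀ (heckeLocal.π N S 𝒪 θ t) = _
    rw [H7.π_eq, ha₀, actBase_latticeBaseChange, actTensor_one_tmul]

end Fermat.Agent.S59.TW.H564

end
end
-- ===== PACK-END S59/TW/H564/LocAct.lean

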