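import Fermat.Prelude.Def_FLTPrelim_Modularity
import Mathlib
import Mathlib.FieldTheory.IsAlgClosed.Basic
import Mathlib.Algebra.Polynomial.Degree.SmallDegree
import Fermat.Prelude.Def_GaloisRep_Adic
import Fermat.Agent.Pack.S43MC.G0E4L1
import Fermat.Agent.Pack.S43GC.G0E5L2
import Fermat.Agent.Pack.S44C.G0E0L1
import Fermat.Agent.Pack.S44C.G0E5L2
import Fermat.Agent.Pack.S44C.G0E2L0
import Fermat.Agent.Pack.S44C.G0E1L3
import Fermat.Agent.Pack.S43MC.G0E3L2
import Fermat.Agent.Pack.S43MC.G0E3L1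
import Fermat.Agent.Pack.S43MC.G0E3L0
import Fermat.Agent.Pack.S43MC.G0E2L1
import Fermat.Agent.Pack.S43MC.G0E4L3
import Fermat.Agent.Pack.S43MC.G0E4L2
import Fermat.Agent.Pack.S44C.G0E3L2
import Fermat.Agent.Pack.S43MC.G0E7L0
import Fermat.Agent.Pack.Fast891

-- ===== PACK-BEGIN A2/H348/Root.lean
section


/-!
# A2 / piece E (ALG_ss), part 4: from the Kummer idempotent to an `m`-th root

Mathlib-only.

* `isIntegral_map_algHom` : `F`-algebra maps preserve integrality over a subalgebra of `F`.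
* `GaussData.mem_range_of_sub_one` (**rigidity**): a root `y₀` of `X ^ m - u` (in any field
  extension `Ω` of `F`) which is `≡ 1` modulo `ϖ` times a `V`-integral element lies in `F`.
* `exists_root_of_connected` (**ALG_ss, abstract final form**): in the situation of
  `exists_kummer_lifts`, if every residue field `F' ⧸ 𝔫` of the Kummer algebra satisfies the
  two-chart connectedness statement, then `u = y ^ m` with `y ∈ F`, `y ∈ 1 + ϖ V`.
-/

set_option autoImplicit false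
set_option linter.unusedSectionVars false
set_option linter.style.haveILetI false

open Module Polynomial

namespace Fermat.Agent.A2.H348

variable {A F : Type*} [CommRing A] [Field F] [Algebra A F]

/-- `F`-algebra maps preserve integrality over a subalgebra of `F`. -/
theorem isIntegral_map_algHom (O : Subalgebra A F) {S T : Type*} [CommRing S] [CommRing T]
    [Algebra F S] [Algebra F T] (f : S →ₐ[F] T) {c : S} (hc : IsIntegral O c) :
    IsIntegral O (f c) := by
  obtain ⟨P, hP, hPc⟩ := hc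
  refine ⟨P, hP, ?_⟩
  have h := congrArg (f : S →+* T) hPc
  rw [map_zero, Polynomial.hom_eval₂] at h
  have h2 : ((f : S →+* T).comp (algebraMap O S)) = algebraMap O T := by
    ext a
    exact f.commutes (a : F)
  rw [h2] at h
  exact h

section Rigid

variable {ϖ : A} {m : ℕ} {u : F} {V : Subalgebra A F}
variable {Ω : Type*} [Field Ω] [Algebra F Ω] [Algebra A Ω] [IsScalarTower A F Ω]

/-- a root of unity `η ≠ 1` of order dividing `m`: `m = (1 - η) * S` with `S` a sum of powers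
of `η`. -/
theorem natCast_eq_one_sub_mul {η : Ω} (hη : η ^ m = 1) (hη1 : η ≠ 1) :
    (m : Ω) = (1 - η) * ∑ i ∈ Finset.range m, ∑ j ∈ Finset.range i, η ^ j := by
  have h0 : ∑ i ∈ Finset.range m, η ^ i = 0 := by
    have h2 : (η - 1) * ∑ k ∈ Finset.range m, η ^ k = 0 := by
      rw [mul_geom_sum, hη, sub_self]
    rcases mul_eq_zero.1 h2 with h3 | h3
    · exact absurd (sub_eq_zero.1 h3) hη1
    · exact h3
  have h1 : ∀ i : ℕ, (1 - η) * ∑ j ∈ Finset.range i, η ^ j = 1 - η ^ i := by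
    intro i
    have := mul_geom_sum η i
    linear_combination -this
  rw [Finset.mul_sum, Finset.sum_congr rfl fun i _ => h1 i, Finset.sum_sub_distrib, h0]
  simp

/-- **Rigidity.**  A root `y₀` of `X ^ m - u` with `y₀ - 1 ∈ ϖ · (V-integral elements)` lies in
`F`. -/
theorem GaussData.mem_range_of_sub_one (hV : GaussData ϖ m u V) [IsAlgClosed Ω]
    {y₀ : Ω} (hy : y₀ ^ m = algebraMap F Ω u) {τ : Ω} (hτ : IsIntegral V τ)
    (h : y₀ - 1 = algebraMap F Ω (algebraMap A F ϖ) * τ) :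
    y₀ ∈ Set.range (algebraMap F Ω) := by
  classical
  have hm0 : m ≠ 0 := by
    rintro rfl
    exact hV.m_ne (by simp)
  have hmpos : 0 < m := Nat.pos_of_ne_zero hm0
  have hu0 : u ≠ 0 := hV.u_ne
  have hϖ0 : algebraMap A F ϖ ≠ 0 := hV.ϖ_ne
  have hϖΩ : algebraMap F Ω (algebraMap A F ϖ) ≠ 0 := (_root_.map_ne_zero _).2 hϖ0
  have hy0 : y₀ ≠ 0 := by
    intro h0
    rw [h0, zero_pow hm0] at hy
    exact hu0 ((map_eq_zero (algebraMap F Ω)).1 hy.symm)
  have hyint : IsIntegral F y₀ := by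
    refine IsIntegral.of_pow hmpos ?_
    rw [hy]; exact isIntegral_algebraMap
  by_contra hnot
  have hdeg : 2 ≤ (minpoly F y₀).natDegree := (minpoly.two_le_natDegree_iff hyint).2 hnot
  set P := minpoly F y₀ with hP
  have hdvd : P ∣ X ^ m - C u := minpoly.dvd F y₀ (by simp [hy])
  have hsep : (P.map (algebraMap F Ω)).Separable :=
    ((separable_X_pow_sub_C u hV.m_ne hu0).of_dvd hdvd).map
  have hnodup := nodup_roots hsep
  have hcard : (P.map (algebraMap F Ω)).roots.card = P.natDegree := by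
    rw [IsAlgClosed.card_roots_eq_natDegree, natDegree_map]
  -- another root
  obtain ⟨y₁, hy₁mem, hy₁ne⟩ : ∃ y₁ ∈ (P.map (algebraMap F Ω)).roots, y₁ ≠ y₀ := by
    by_contra hcon
    simp only [not_exists, not_and, not_not] at hcon
    have hsub : (P.map (algebraMap F Ω)).roots ≤ {y₀} := by
      rw [Multiset.le_iff_subset hnodup]
      intro y hy'
      rw [Multiset.mem_singleton]
      exact hcon y hy'
    have := Multiset.card_le_card hsub
    rw [hcard, Multiset.card_singleton] at this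
    omega
  have hPne : P.map (algebraMap F Ω) ≠ 0 :=
    map_monic_ne_zero (minpoly.monic hyint)
  have hy₁P : aeval y₁ P = 0 := by
    have := (mem_roots hPne).1 hy₁mem
    rwa [IsRoot.def, eval_map, ← aeval_def] at this
  have haeval_of_dvd : ∀ G : F[X], aeval y₀ G = 0 → aeval y₁ G = 0 := by
    intro G hG
    obtain ⟨Q, hQ⟩ := minpoly.dvd F y₀ hG
    rw [hQ, map_mul, hy₁P, zero_mul]
  have hy₁ : y₁ ^ m = algebraMap F Ω u := by
    have := haeval_of_dvd (X ^ m - C u) (by simp [hy])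
    simpa [sub_eq_zero] using this
  -- transport of integrality
  obtain ⟨Q₀, hQ₀m, hQ₀⟩ := hτ
  set ϖ' : F := algebraMap A F ϖ with hϖ'
  set G : F[X] := (Q₀.map (algebraMap V F)).comp (C ϖ'⁻¹ * (X - 1)) with hG
  have hGeval : ∀ y : Ω, aeval y G =
      eval₂ (algebraMap V Ω) (algebraMap F Ω ϖ'⁻¹ * (y - 1)) Q₀ := by
    intro y
    rw [hG, aeval_comp, aeval_def, eval₂_map]
    have : (algebraMap F Ω).comp (algebraMap V F) = algebraMap V Ω := by
      ext a; rfl
    rw [this]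
    simp
  have hτeq : algebraMap F Ω ϖ'⁻¹ * (y₀ - 1) = τ := by
    rw [h, ← mul_assoc, ← map_mul, inv_mul_cancel₀ hϖ0, map_one, one_mul]
  have hG0 : aeval y₀ G = 0 := by rw [hGeval, hτeq]; exact hQ₀
  have hG1 := haeval_of_dvd G hG0
  rw [hGeval] at hG1
  set τ₁ : Ω := algebraMap F Ω ϖ'⁻¹ * (y₁ - 1) with hτ₁
  have hτ₁int : IsIntegral V τ₁ := ⟨Q₀, hQ₀m, hG1⟩
  have hτint : IsIntegral V τ := ⟨Q₀, hQ₀m, hQ₀⟩
  have h1 : y₁ - 1 = algebraMap F Ω ϖ' * τ₁ := by
    rw [hτ₁, ← mul_assoc, ← map_mul, mul_inv_cancel₀ hϖ0, map_one, one_mul]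
  -- the root of unity
  set η : Ω := y₁ * y₀⁻¹ with hη
  have hηm : η ^ m = 1 := by
    rw [hη, mul_pow, inv_pow, hy₁, hy, mul_inv_cancel₀]
    exact (_root_.map_ne_zero _).2 hu0
  have hη1 : η ≠ 1 := by
    intro h1'
    apply hy₁ne
    have : y₁ = η * y₀ := by rw [hη, mul_assoc, inv_mul_cancel₀ hy0, mul_one]
    rw [this, h1', one_mul]
  have hηint : IsIntegral V η := by
    refine IsIntegral.of_pow hmpos ?_
    rw [hηm]; exact isIntegral_one
  have hy0inv : IsIntegral V y₀⁻¹ := by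
    refine IsIntegral.of_pow hmpos ?_
    rw [inv_pow, hy, ← map_inv₀]
    exact isIntegral_algebraMap_of_mem' V hV.u_inv_mem
  have hone : 1 - η = algebraMap F Ω ϖ' * ((τ - τ₁) * y₀⁻¹) := by
    have : 1 - η = (y₀ - y₁) * y₀⁻¹ := by
      rw [hη, sub_mul, mul_inv_cancel₀ hy0]
    rw [this]
    have : y₀ - y₁ = algebraMap F Ω ϖ' * (τ - τ₁) := by
      have e0 : y₀ = 1 + algebraMap F Ω ϖ' * τ := by rw [← h]; ring
      have e1 : y₁ = 1 + algebraMap F Ω ϖ' * τ₁ := by rw [← h1]; ring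
      rw [e0, e1]; ring
    rw [this]; ring
  have hmeq := natCast_eq_one_sub_mul hηm hη1
  set S : Ω := ∑ i ∈ Finset.range m, ∑ j ∈ Finset.range i, η ^ j with hS
  have hSint : IsIntegral V S :=
    IsIntegral.sum _ fun i _ => IsIntegral.sum _ fun j _ => hηint.pow j
  have hT : IsIntegral V ((τ - τ₁) * y₀⁻¹ * S) := ((hτint.sub hτ₁int).mul hy0inv).mul hSint
  have hmT : algebraMap F Ω ((m : F) * ϖ'⁻¹) = (τ - τ₁) * y₀⁻¹ * S := by
    have hm' : algebraMap F Ω (m : F) = (m : Ω) := by simp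
    rw [map_mul, hm', hmeq, hone, map_inv₀]
    field_simp
  rw [← hmT] at hT
  have hmem : (m : F) * ϖ'⁻¹ ∈ V :=
    hV.closed _ ((isIntegral_algebraMap_iff (algebraMap F Ω).injective).1 hT)
  apply hV.ϖ_inv_notMem
  have : ϖ'⁻¹ = (m : F)⁻¹ * ((m : F) * ϖ'⁻¹) := by
    rw [← mul_assoc, inv_mul_cancel₀ hV.m_ne, one_mul]
  rw [this]
  exact V.mul_mem (hV.m_inv_mem V) hmem

end Rigid

section Main

variable {F' : Type*} [CommRing F'] [Nontrivial F'] [Algebra F F'] [Algebra A F']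
  [IsScalarTower A F F']
variable {ϖ : A} {m : ℕ} {u : F} {Bfin Binf Bmid V : Subalgebra A F}

/-- The two-chart connectedness statement for an `F`-algebra `L` (in the application: a finite
field extension of `F` with the same constants), in the language of integrality over the charts
of `F`. -/
def ConnAt (ϖ : A) (Bfin Binf Bmid : Subalgebra A F) (L : Type*) [CommRing L] [Algebra F L] :
    Prop :=
  ∀ e₁ e₂ : L, IsIntegral Bfin e₁ → IsIntegral Binf e₂ →
    (∃ t : L, IsIntegral Bfin t ∧ e₁ ^ 2 - e₁ = algebraMap F L (algebraMap A F ϖ) * t) →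
    (∃ t : L, IsIntegral Binf t ∧ e₂ ^ 2 - e₂ = algebraMap F L (algebraMap A F ϖ) * t) →
    (∃ t : L, IsIntegral Bmid t ∧ e₁ - e₂ = algebraMap F L (algebraMap A F ϖ) * t) →
    (∃ t : L, IsIntegral Bfin t ∧ e₁ = algebraMap F L (algebraMap A F ϖ) * t) ∨
    (∃ t : L, IsIntegral Bfin t ∧ 1 - e₁ = algebraMap F L (algebraMap A F ϖ) * t)

omit [Nontrivial F'] [Algebra A F] [Algebra A F'] [IsScalarTower A F F'] in
theorem kummerE_mul_sub_one (hm : (m : F) ≠ 0) {z : F'} (hz : z ^ m = algebraMap F F' u) :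
    algebraMap F F' (m : F) * kummerE F m z * (z - 1) = algebraMap F F' (u - 1) := by
  unfold kummerE
  rw [← mul_assoc, ← map_mul, mul_inv_cancel₀ hm, map_one, one_mul, geom_sum_mul, hz, map_sub,
    map_one]

/-- **ALG_ss, abstract final form.**  On a two-chart model `(Bfin, Binf, Bmid = Bfin[1/x])` with
semilocal Gauss ring `V` and reduced special fibre, let `u ∈ 1 + ϖ V` admit local factorisations
`u = ε h ^ m` (`ε ∈ 1 + ϖ B_𝔪`, `h ∈ 1 + ϖ V`) at every closed point of the special fibre of both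
charts.  If the special fibres of the normalisations of the model in the residue fields of the
Kummer algebra `F' = F[z]/(z ^ m - u)` are connected (`ConnAt`), then `u` is the `m`-th power of an
element of `F` which is `≡ 1` modulo `ϖ V`. -/
theorem exists_root_of_connected (hV : GaussData ϖ m u V)
    (hfin : ChartData ϖ m u Bfin V) (hinf : ChartData ϖ m u Binf V)
    (hfm : Bfin ≤ Bmid) (him : Binf ≤ Bmid)
    (x : Bfin) (hx0 : (x : F) ≠ 0) (hxinv : ((x : F))⁻¹ ∈ Bmid)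
    (hloc : ∀ f ∈ Bmid, ∃ K : ℕ, (x : F) ^ K * f ∈ Bfin)
    {z : F'} (kb : KummerBasis m u z)
    (hconn : ∀ 𝔫 : Ideal F', 𝔫.IsMaximal → ConnAt ϖ Bfin Binf Bmid (F' ⧸ 𝔫)) :
    ∃ y : F, y ^ m = u ∧ ∃ t ∈ V, y = 1 + algebraMap A F ϖ * t := by
  classical
  obtain ⟨e₁, e₂, c₁, he₁, he₂, hc₁, hE, hi1, hi2, h12⟩ :=
    exists_kummer_lifts hV hfin hinf hfm him x hx0 hxinv hloc kb
  have hm0 : (m : F) ≠ 0 := hV.m_ne
  haveI : NeZero (m : F) := ⟨hm0⟩
  have hmpos : 0 < m := kb.m_pos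
  have hϖ0 : algebraMap A F ϖ ≠ 0 := hV.ϖ_ne
  set Ω := AlgebraicClosure F with hΩ
  obtain ⟨ω, hω⟩ := HasEnoughRootsOfUnity.exists_primitiveRoot Ω m
  obtain ⟨r, hr⟩ := IsAlgClosed.exists_pow_nat_eq (algebraMap F Ω u) hmpos
  haveI := kb.finiteDimensional
  haveI : IsArtinianRing F' := IsArtinianRing.of_finite F F'
  -- the evaluations
  set ev : ℕ → (F' →ₐ[F] Ω) :=
    fun k => kb.evalAt (ω ^ k * r) (KummerBasis.mul_pow_eq hω hr k) with hev
  set ϖ' : F := algebraMap A F ϖ with hϖ'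
  have hϖF' : algebraMap A F' ϖ = algebraMap F F' ϖ' := algebraMap_eq_comp F ϖ
  -- the alternative at each evaluation
  have key : ∀ k : ℕ, (∃ τ : Ω, IsIntegral Bfin τ ∧ ev k e₁ = algebraMap F Ω ϖ' * τ) ∨
      (∃ τ : Ω, IsIntegral Bfin τ ∧ 1 - ev k e₁ = algebraMap F Ω ϖ' * τ) := by
    intro k
    set 𝔫 : Ideal F' := RingHom.ker (ev k : F' →+* Ω) with h𝔫
    haveI : 𝔫.IsPrime := RingHom.ker_isPrime _
    haveI : 𝔫.IsMaximal := inferInstance
    set π : F' →ₐ[F] F' ⧸ 𝔫 := Ideal.Quotient.mkₐ F 𝔫 with hπ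
    set ι : F' ⧸ 𝔫 →ₐ[F] Ω := Ideal.Quotient.liftₐ 𝔫 (ev k) (fun a ha => ha) with hι
    have hιπ : ∀ a, ι (π a) = ev k a := fun a => rfl
    have hrel : ∀ a t : F', a = algebraMap A F' ϖ * t →
        π a = algebraMap F (F' ⧸ 𝔫) ϖ' * π t := by
      intro a t h
      rw [h, hϖF', map_mul, AlgHom.commutes]
    have hc := hconn 𝔫 inferInstance (π e₁) (π e₂) (isIntegral_map_algHom Bfin π he₁)
      (isIntegral_map_algHom Binf π he₂)
      (by
        obtain ⟨t, ht, h⟩ := hi1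
        refine ⟨π t, isIntegral_map_algHom Bfin π ht, ?_⟩
        rw [← hrel _ t h, map_sub, map_pow])
      (by
        obtain ⟨t, ht, h⟩ := hi2
        refine ⟨π t, isIntegral_map_algHom Binf π ht, ?_⟩
        rw [← hrel _ t h, map_sub, map_pow])
      (by
        obtain ⟨t, ht, h⟩ := h12
        refine ⟨π t, isIntegral_map_algHom Bmid π ht, ?_⟩
        rw [← hrel _ t h, map_sub])
    rcases hc with ⟨t, ht, h⟩ | ⟨t, ht, h⟩
    · left
      refine ⟨ι t, isIntegral_map_algHom Bfin ι ht, ?_⟩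
      have := congrArg ι h
      rw [hιπ, map_mul, AlgHom.commutes] at this
      exact this
    · right
      refine ⟨ι t, isIntegral_map_algHom Bfin ι ht, ?_⟩
      have := congrArg ι h
      rw [map_sub, map_one, hιπ, map_mul, AlgHom.commutes] at this
      exact this
  by_cases hB : ∃ k : ℕ, ∃ τ : Ω, IsIntegral Bfin τ ∧ 1 - ev k e₁ = algebraMap F Ω ϖ' * τ
  · -- rigidity
    obtain ⟨k, τ, hτ, hk⟩ := hB
    set y₀ : Ω := ω ^ k * r with hy₀def
    have hy₀ : y₀ ^ m = algebraMap F Ω u := KummerBasis.mul_pow_eq hω hr k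
    have hevz : ev k z = y₀ := kb.evalAt_zeta _ _
    have hevE : ev k (kummerE F m z) = ev k e₁ + algebraMap F Ω ϖ' * ev k c₁ := by
      rw [hE, map_add, map_mul, hϖF', AlgHom.commutes]
    have h1E : 1 - ev k (kummerE F m z) = algebraMap F Ω ϖ' * (τ - ev k c₁) := by
      rw [hevE]; linear_combination hk
    obtain ⟨t₀, ht₀, hu⟩ := hV.u_one
    have hmE : algebraMap F Ω (m : F) * ev k (kummerE F m z) * (y₀ - 1) =
        algebraMap F Ω (u - 1) := by
      have := congrArg (ev k) (kummerE_mul_sub_one (F := F) hm0 kb.pow_eq)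
      rw [map_mul, map_mul, map_sub, map_one, hevz, AlgHom.commutes, AlgHom.commutes] at this
      exact this
    have hu' : algebraMap F Ω (u - 1) = algebraMap F Ω ϖ' * algebraMap F Ω t₀ := by
      rw [hu, ← map_mul]; congr 1; ring
    have hmΩ : algebraMap F Ω (m : F) * algebraMap F Ω ((m : F)⁻¹) = 1 := by
      rw [← map_mul, mul_inv_cancel₀ hm0, map_one]
    have hy1 : y₀ - 1 = algebraMap F Ω ϖ' *
        ((y₀ - 1) * (τ - ev k c₁) + algebraMap F Ω ((m : F)⁻¹) * algebraMap F Ω t₀) := by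
      linear_combination (y₀ - 1) * h1E + algebraMap F Ω ((m : F)⁻¹) * hmE +
        algebraMap F Ω ((m : F)⁻¹) * hu' - ((y₀ - 1) * ev k (kummerE F m z)) * hmΩ
    have hy₀int : IsIntegral V y₀ := by
      refine IsIntegral.of_pow hmpos ?_
      rw [hy₀]; exact isIntegral_algebraMap_of_mem' V hV.u_mem
    have hτ' : IsIntegral V
        ((y₀ - 1) * (τ - ev k c₁) + algebraMap F Ω ((m : F)⁻¹) * algebraMap F Ω t₀) := by
      refine IsIntegral.add (IsIntegral.mul (hy₀int.sub isIntegral_one)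
        ((isIntegral_of_le hfin.le_V hτ).sub (isIntegral_map_algHom V (ev k) hc₁))) ?_
      exact (isIntegral_algebraMap_of_mem' V (hV.m_inv_mem V)).mul
        (isIntegral_algebraMap_of_mem' V ht₀)
    obtain ⟨y, hy⟩ := hV.mem_range_of_sub_one hy₀ hτ' hy1
    have hinj := (algebraMap F Ω).injective
    refine ⟨y, ?_, (y - 1) * ϖ'⁻¹, ?_, ?_⟩
    · apply hinj
      rw [map_pow, hy, hy₀]
    · apply hV.closed
      rw [← isIntegral_algebraMap_iff (B := Ω) hinj]
      have : algebraMap F Ω ((y - 1) * ϖ'⁻¹) =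
          (y₀ - 1) * (τ - ev k c₁) + algebraMap F Ω ((m : F)⁻¹) * algebraMap F Ω t₀ := by
        have hϖΩ : algebraMap F Ω ϖ' ≠ 0 := (_root_.map_ne_zero _).2 hϖ0
        apply mul_left_cancel₀ hϖΩ
        rw [← hy1, ← map_mul, mul_comm (y - 1), ← mul_assoc, mul_inv_cancel₀ hϖ0, one_mul,
          map_sub, map_one, hy]
      rw [this]
      exact hτ'
    · rw [mul_comm (y - 1), ← mul_assoc, mul_inv_cancel₀ hϖ0]
      ring
  · -- impossible: all evaluations of `e₁` vanish modulo `ϖ`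
    exfalso
    have hA : ∀ k : ℕ, ∃ τ : Ω, IsIntegral Bfin τ ∧ ev k e₁ = algebraMap F Ω ϖ' * τ :=
      fun k => (key k).resolve_right fun h => hB ⟨k, h⟩
    choose τ hτint hτ using hA
    have hsum := kb.sum_evalAt hω hr e₁ ⟨0, hmpos⟩
    simp only [Nat.sub_zero, hω.pow_eq_one, one_pow, one_mul, pow_zero, mul_one] at hsum
    have hsum' : ∑ k ∈ Finset.range m, ev k e₁ =
        (m : Ω) * algebraMap F Ω (kb.basis.repr e₁ ⟨0, hmpos⟩) := hsum
    rw [Finset.sum_congr rfl fun k _ => hτ k, ← Finset.mul_sum] at hsum'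
    have hmΩ : (m : Ω) = algebraMap F Ω (m : F) := by simp
    have hint : IsIntegral V (algebraMap F Ω ((m : F)⁻¹) * ∑ k ∈ Finset.range m, τ k) :=
      (isIntegral_algebraMap_of_mem' V (hV.m_inv_mem V)).mul
        (IsIntegral.sum _ fun k _ => isIntegral_of_le hfin.le_V (hτint k))
    have heq : algebraMap F Ω (kb.basis.repr e₁ ⟨0, hmpos⟩ * ϖ'⁻¹) =
        algebraMap F Ω ((m : F)⁻¹) * ∑ k ∈ Finset.range m, τ k := by
      have hSumτ : ∑ k ∈ Finset.range m, τ k =
          algebraMap F Ω ϖ'⁻¹ * ((m : Ω) * algebraMap F Ω (kb.basis.repr e₁ ⟨0, hmpos⟩)) := by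
        rw [← hsum', ← mul_assoc, ← map_mul, inv_mul_cancel₀ hϖ0, map_one, one_mul]
      rw [hSumτ, hmΩ]
      simp only [← map_mul]
      congr 1
      field_simp
    rw [← heq] at hint
    have hv : kb.basis.repr e₁ ⟨0, hmpos⟩ * ϖ'⁻¹ ∈ V :=
      hV.closed _ ((isIntegral_algebraMap_iff (algebraMap F Ω).injective).1 hint)
    have h0 := kummerE_repr kb ⟨0, hmpos⟩
    rw [hE, map_add, Finsupp.add_apply, smul_repr] at h0
    refine hV.m_inv_ne (kb.basis.repr e₁ ⟨0, hmpos⟩ * ϖ'⁻¹ + kb.basis.repr c₁ ⟨0, hmpos⟩)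
      (V.add_mem hv (hV.repr_mem kb hc₁ _)) ?_
    rw [← h0, mul_add, mul_comm (kb.basis.repr e₁ ⟨0, hmpos⟩), ← mul_assoc,
      mul_inv_cancel₀ hϖ0, one_mul]

end Main

end Fermat.Agent.A2.H348

end
-- ===== PACK-END A2/H348/Root.lean

-- ===== PACK-BEGIN Lib/Newform/H863/Raise.lean
section



/-!
# NEWFORM library (helper863): the leaf `Raise`

`raise_statement` is *verbatim* the body of `Fermat.Agent.Lib.Newform.H23.Raise`
(row-lead's `Spec.lean`): the degeneracy map `B_d` from level `M` to any level `C` with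
`d * M ∣ C`, in `q`-coefficients.  (Stated inline so that this file does not depend on the
Spec file; `theorem raise : Raise := raise_statement` is then a one-liner.)
-/

set_option autoImplicit false

open CongruenceSubgroup
open scoped MatrixGroups

namespace Fermat.Agent.Lib.Newform.H863

open ModularFormClass

theorem raise_dvd {M d C : ℕ} (h : d * M ∣ C) : M * d ∣ C := by rwa [Nat.mul_comm] at h

/-- The raised form `B_d g` at level `C`, `d * M ∣ C`, `d ≠ 0`, as a linear map. -/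
noncomputable def raiseLin {M d C : ℕ} [NeZero d] (h : d * M ∣ C) :
    CuspForm (Gamma0 M) 2 →ₗ[ℂ] CuspForm (Gamma0 C) 2 :=
  (levelIncl (raise_dvd h)).comp (degen d)

theorem qCoeff_raiseLin {M d C : ℕ} [NeZero d] (h : d * M ∣ C) (g : CuspForm (Gamma0 M) 2)
    (n : ℕ) : qCoeff ⇑(raiseLin h g) n = if d ∣ n then qCoeff ⇑g (n / d) else 0 := by
  change qCoeff ⇑(levelIncl (raise_dvd h) (degen d g)) n = _
  rw [qCoeff_levelIncl, qCoeff_degen]

theorem raiseLin_apply {M d C : ℕ} [NeZero d] (h : d * M ∣ C) (g : CuspForm (Gamma0 M) 2)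
    (τ : UpperHalfPlane) : raiseLin h g τ = g (ModularForm.heckeDiagMatrix d • τ) :=
  degen_apply d g τ

theorem raiseLin_injective {M d C : ℕ} [NeZero d] (h : d * M ∣ C) :
    Function.Injective (raiseLin h : CuspForm (Gamma0 M) 2 → CuspForm (Gamma0 C) 2) :=
  (levelIncl_injective (raise_dvd h)).comp (degen_injective d)

/-- **RAISE** (body of `H23.Raise`). -/
theorem raise_statement :
    ∀ (M d C : ℕ) [NeZero C], d * M ∣ C → ∀ g : CuspForm (Gamma0 M) 2,
      ∃ h : CuspForm (Gamma0 C) 2, ∀ n : ℕ,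
        qCoeff h n = if d ∣ n then qCoeff g (n / d) else 0 := by
  intro M d C _ hdvd g
  have hd : d ≠ 0 := by
    rintro rfl
    rw [Nat.zero_mul, zero_dvd_iff] at hdvd
    exact NeZero.ne C hdvd
  haveI : NeZero d := ⟨hd⟩
  exact ⟨raiseLin hdvd g, fun n => qCoeff_raiseLin hdvd g n⟩

end Fermat.Agent.Lib.Newform.H863

end
-- ===== PACK-END Lib/Newform/H863/Raise.lean

-- ===== PACK-BEGIN S36/H972/EisSeries.lean
section



/-!
# S36 / MOD3 (helper972): the formal `q`-series INTERFACE of the middle valuation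

`J = j(t) ∈ ℤ((t))`, `J_q = j(t^q)`, `J_{q²} = j(t^{q²})`.  The minimal polynomial of `j_{q²}` over
`F_{qM'} = E(j_d, j_{qd} : d ∣ M')` is `Ψ(Y) = Φ_q(j_q, Y) / (Y - j)`.  `EisSeries q A Ψ G` records
the facts about its `t`-expansion which make `Ψ` "split-Eisenstein" at the Gauss valuation:

    Ψ = (Y - A) (Y - J)^(q-1) + q G,     A ≡ J_{q²} mod q,   A - J  and  G(J)  primitive mod q.

(`A = J^(q²)` or `A = J_q^q`.)  Consumer: `Fermat/Agent/S36/H972/Mod3.lean`.
Producer: the EIS sub-leaf (formal `q`-series, Kronecker congruence).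
-/

set_option autoImplicit false

noncomputable section

namespace Fermat.Agent.S36.H972

open Polynomial ModularCurve Fermat.Agent.S28

/-- The subring `ℤ[J, J_q] ⊆ ℤ((t))`. -/
def jjRing (q : ℕ) [NeZero q] : Subring (LaurentSeries ℤ) :=
  Subring.closure ({jqModC ℤ, qExpand ℤ q (jqModC ℤ)} : Set (LaurentSeries ℤ))

/-- The split-Eisenstein shape of `Ψ(Y) = Φ_q(J_q, Y) / (Y - J)` over `ℤ((t))`. -/
structure EisSeries (q : ℕ) [NeZero q] (A : LaurentSeries ℤ) (Ψ G : (LaurentSeries ℤ)[X]) :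
    Prop where
  monic : Ψ.Monic
  natDegree_eq : Ψ.natDegree = q
  coeff_mem : ∀ i, Ψ.coeff i ∈ jjRing q
  root : Ψ.eval (qExpand ℤ (q * q) (jqModC ℤ)) = 0
  A_mem : A ∈ jjRing q
  A_cong : ∃ H : LaurentSeries ℤ, qExpand ℤ (q * q) (jqModC ℤ) - A = (q : LaurentSeries ℤ) * H
  A_unit : ∃ n : ℤ, ¬ (q : ℤ) ∣ (A - jqModC ℤ).coeff n
  dec : Ψ = (X - C A) * (X - C (jqModC ℤ)) ^ (q - 1) + C (q : LaurentSeries ℤ) * G
  unit : ∃ n : ℤ, ¬ (q : ℤ) ∣ (G.eval (jqModC ℤ)).coeff n

end Fermat.Agent.S36.H972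

end

end
-- ===== PACK-END S36/H972/EisSeries.lean

-- ===== PACK-BEGIN S36/Mod3/H756/NormalAbs.lean
section


/-!
# S36 / MOD3, leaf NORMAL — abstract bridge (helper756)

Mathlib + `A2.Mod.H142.S2Core` (helper142, on main).

* `eval₂_eq_fin_sum` : a monic polynomial evaluated at `x` in `Fin`-indexed form;
* `mem_of_aeval_mem_nonunits` : `p` monic over `B ⊆ V`, `p(f) ∈ 𝔪_V` ⟹ `f ∈ V`;
* `normalAlong_of_normalIn` : `H142.NormalIn V B` ⟹ `S36.Eng.NormalAlong B V` (stated UNFOLDED: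
  `∀ f p, p.Monic → aeval f p ∈ V.nonunits → ∃ b : B, f - b ∈ V.nonunits`);
* `normalIn_of_normalAlong` : the converse.
-/

set_option autoImplicit false

noncomputable section

open Polynomial

namespace Fermat.Agent.S36.Mod3.H756

open Fermat.Agent.A2.Mod.H142

section Fin

variable {A K : Type*} [CommRing A] [CommRing K]

/-- A monic polynomial evaluated at `x`, in `Fin`-indexed form. -/
theorem eval₂_eq_fin_sum (ρ : A →+* K) (x : K) {p : Polynomial A} (hp : p.Monic) :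
    eval₂ ρ x p = x ^ p.natDegree + ∑ i : Fin p.natDegree, ρ (p.coeff i) * x ^ (i : ℕ) := by
  have h1 := hp.as_sum
  conv_lhs => rw [h1]
  rw [eval₂_add, eval₂_pow, eval₂_X, eval₂_finsetSum,
    ← Fin.sum_univ_eq_sum_range (fun i => eval₂ ρ x (C (p.coeff i) * X ^ i)) p.natDegree]
  simp

end Fin

section Bridge

variable {R F : Type*} [CommRing R] [Field F] [Algebra R F]

/-- An element which is a root modulo `𝔪_V` of a monic polynomial over `B ⊆ V` lies in `V`. -/
theorem mem_of_aeval_mem_nonunits (V : ValuationSubring F) (B : Subalgebra R F)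
    (hBV : ∀ b ∈ B, b ∈ V) (f : F) (p : Polynomial B) (hp : p.Monic)
    (hpf : Polynomial.aeval f p ∈ V.nonunits) : f ∈ V := by
  classical
  have hcV : Polynomial.aeval f p ∈ V := by
    rw [← ValuationSubring.valuation_le_one_iff]
    exact ((ValuationSubring.mem_nonunits_iff V).1 hpf).le
  let ι : B →+* V :=
    { toFun := fun b => ⟨b.1, hBV b.1 b.2⟩
      map_one' := rfl
      map_mul' := fun _ _ => rfl
      map_zero' := rfl
      map_add' := fun _ _ => rfl }
  have hι : (algebraMap V F).comp ι = algebraMap B F := by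
    ext b
    rfl
  have hdeg : 0 < p.natDegree := by
    by_contra h0
    have h1 : p.natDegree = 0 := by omega
    have h2 : p = 1 := hp.natDegree_eq_zero.1 h1
    rw [h2, map_one] at hpf
    have := (ValuationSubring.mem_nonunits_iff V).1 hpf
    rw [map_one] at this
    exact lt_irrefl _ this
  have hpm : (p.map ι).Monic := hp.map ι
  have hdeg' : (C (⟨Polynomial.aeval f p, hcV⟩ : V)).degree < (p.map ι).degree := by
    refine lt_of_le_of_lt Polynomial.degree_C_le ?_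
    rw [Polynomial.degree_eq_natDegree hpm.ne_zero, hp.natDegree_map ι]
    exact_mod_cast hdeg
  have hmonic : (p.map ι - C (⟨Polynomial.aeval f p, hcV⟩ : V)).Monic :=
    hpm.sub_of_left hdeg'
  have hint : IsIntegral V f := by
    refine ⟨_, hmonic, ?_⟩
    rw [eval₂_sub, eval₂_C, eval₂_map, hι]
    show Polynomial.eval₂ (algebraMap B F) f p - Polynomial.aeval f p = 0
    rw [Polynomial.aeval_def, sub_self]
  obtain ⟨z, hz⟩ := (IsIntegrallyClosed.isIntegral_iff (R := V) (K := F)).mp hint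
  rw [← hz]
  exact z.2

/-- **Bridge.**  `H142.NormalIn` implies `S36.Eng.NormalAlong` (unfolded). -/
theorem normalAlong_of_normalIn (V : ValuationSubring F) (B : Subalgebra R F)
    (hBV : ∀ b ∈ B, b ∈ V) (h : NormalIn V (B : Set F)) :
    ∀ (f : F) (p : Polynomial B), p.Monic → Polynomial.aeval f p ∈ V.nonunits →
      ∃ b : B, f - (b : F) ∈ V.nonunits := by
  intro f p hp hpf
  have hfV : f ∈ V := mem_of_aeval_mem_nonunits V B hBV f p hp hpf
  have hrel : V.valuation (f ^ p.natDegree +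
      ∑ i : Fin p.natDegree, ((p.coeff i : B) : F) * f ^ (i : ℕ)) < 1 := by
    have h1 := eval₂_eq_fin_sum (algebraMap B F) f hp
    rw [← Polynomial.aeval_def] at h1
    have h2 := (ValuationSubring.mem_nonunits_iff V).1 hpf
    rw [h1] at h2
    exact h2
  obtain ⟨b, hb, hfb⟩ := h f hfV
    ⟨p.natDegree, fun i => ((p.coeff i : B) : F), fun i => (p.coeff i).2, hrel⟩
  exact ⟨⟨b, hb⟩, (ValuationSubring.mem_nonunits_iff V).2 hfb⟩

/-- The converse of the bridge. -/
theorem normalIn_of_normalAlong (V : ValuationSubring F) (B : Subalgebra R F)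
    (h : ∀ (f : F) (p : Polynomial B), p.Monic → Polynomial.aeval f p ∈ V.nonunits →
      ∃ b : B, f - (b : F) ∈ V.nonunits) :
    NormalIn V (B : Set F) := by
  classical
  intro f _ ⟨n, c, hc, hrel⟩
  let p : Polynomial B := X ^ n + ∑ i : Fin n, C (⟨c i, hc i⟩ : B) * X ^ (i : ℕ)
  have hp : p.Monic :=
    Polynomial.monic_X_pow_add (Polynomial.degree_sum_fin_lt fun i => (⟨c i, hc i⟩ : B))
  have hpf : Polynomial.aeval f p = f ^ n + ∑ i : Fin n, c i * f ^ (i : ℕ) := by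
    simp only [p, map_add, map_pow, Polynomial.aeval_X, map_sum, map_mul, Polynomial.aeval_C]
    rfl
  obtain ⟨b, hb⟩ := h f p hp (by
    rw [hpf]
    exact (ValuationSubring.mem_nonunits_iff V).2 hrel)
  exact ⟨b.1, b.2, (ValuationSubring.mem_nonunits_iff V).1 hb⟩

end Bridge

end Fermat.Agent.S36.Mod3.H756

end

end
-- ===== PACK-END S36/Mod3/H756/NormalAbs.lean

-- ===== PACK-BEGIN S36/H890/Chart9.lean
section


/-!
# The level-`9` Hauptmodul in a chart (helper890, S36 cell REG, `q = 2`)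

Mathlib + `S18.H138.chart` only.  `F` a field, `R → F`, `B = chart R S` (the elements of `F`
integral over `R[S]`), `j, t ∈ F` with the relation of `Haupt9.jq_mul_t9`:

  `j · t⁹ Q(t) = (t + 9)³ (t³ + 243 Q(t))³`,      `Q(T) = T² + 9 T + 27`.

* `mem_chart_of_rel9`      : `j ∈ B ⟹ t ∈ B`   (`t` is integral over `ℤ[j]`, degree `12`);
* `inv_mem_chart_of_rel9`  : `j ∈ B`, `3⁻¹ ∈ B ⟹ t⁻¹ ∈ B`        (`t ∣ 3³⁰` in `ℤ[j, t]`);
* `quad_inv_mem_chart_of_rel9` : `j ∈ B`, `3⁻¹ ∈ B ⟹ Q(t)⁻¹ ∈ B`  (`Q(t) ∣ 3¹⁸` in `ℤ[j, t]`);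
* `g9_mem_chart`, `g9_inv_mem_chart` : `g₉ = Q(t)⁵ / t³` and its inverse lie in `B`
  (`g₉ = (θ t₉)⁶ / Δ`, `Theta9.theta_t9`): `g₉` is a unit of every chart on which `3` is
  invertible, in particular in residue characteristic `2`.

The same statements for a valuation subring `V` in place of `B` are in `Unit9V` below.
-/

set_option autoImplicit false

noncomputable section

namespace Fermat.Agent.S36.H890

open Polynomial Fermat.Agent.S18.H138

section Chart

variable {R F : Type*} [CommRing R] [Field F] [Algebra R F]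

/-- The chart is integrally closed in `F`. -/
theorem h9_mem_chart_of_isIntegral (S : Set F) {y : F}
    (h : IsIntegral (integralClosure (Algebra.adjoin R S) F) y) : y ∈ chart R S := by
  rw [mem_chart]
  exact isIntegral_trans y h

/-- The monic polynomial `(T + 9)³ (T³ + 243 Q(T))³ - c T⁹ Q(T)` of degree `12`. -/
def poly9 {A : Type*} [CommRing A] (c : A) : Polynomial A :=
  (X + C 9) ^ 3 * (X ^ 3 + C 243 * (X ^ 2 + C 9 * X + C 27)) ^ 3
    - C c * (X ^ 9 * (X ^ 2 + C 9 * X + C 27))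

theorem poly9_monic {A : Type*} [CommRing A] [Nontrivial A] (c : A) : (poly9 c).Monic := by
  rw [poly9]
  monicity!

theorem eval₂_poly9 {A B : Type*} [CommRing A] [CommRing B] (f : A →+* B) (c : A) (t : B) :
    (poly9 c).eval₂ f t = (t + 9) ^ 3 * (t ^ 3 + 243 * (t ^ 2 + 9 * t + 27)) ^ 3
      - f c * (t ^ 9 * (t ^ 2 + 9 * t + 27)) := by
  simp only [poly9, eval₂_sub, eval₂_mul, eval₂_pow, eval₂_add, eval₂_X, eval₂_C]
  simp only [map_ofNat]

/-- `t` is integral over `ℤ[j]`: `j ∈ B ⟹ t ∈ B`. -/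
theorem mem_chart_of_rel9 (S : Set F) {j t : F} (hj : j ∈ chart R S)
    (hrel : j * (t ^ 9 * (t ^ 2 + 9 * t + 27))
      = (t + 9) ^ 3 * (t ^ 3 + 243 * (t ^ 2 + 9 * t + 27)) ^ 3) : t ∈ chart R S := by
  apply h9_mem_chart_of_isIntegral
  refine ⟨poly9 (⟨j, hj⟩ : integralClosure (Algebra.adjoin R S) F), poly9_monic _, ?_⟩
  rw [eval₂_poly9]
  show (t + 9) ^ 3 * (t ^ 3 + 243 * (t ^ 2 + 9 * t + 27)) ^ 3
      - j * (t ^ 9 * (t ^ 2 + 9 * t + 27)) = 0
  rw [hrel, sub_self]

end Chart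

/-! ## Units: generic subring form -/

section Units

variable {F : Type*} [Field F]

/-- `t ∣ 3³⁰` in `ℤ[j, t]`. -/
theorem mul_cofactor_of_rel9 {j t : F}
    (hrel : j * (t ^ 9 * (t ^ 2 + 9 * t + 27))
      = (t + 9) ^ 3 * (t ^ 3 + 243 * (t ^ 2 + 9 * t + 27)) ^ 3) :
    t * (j * (t ^ 8 * (t ^ 2 + 9 * t + 27))
      - (t ^ 11 + 756 * t ^ 10 + 203634 * t ^ 9 + 22695228 * t ^ 8
        + 930553191 * t ^ 7 + 20241524808 * t ^ 6 + 272112672348 * t ^ 5
        + 2426801943096 * t ^ 4 + 14780479075839 * t ^ 3 + 61381352595204 * t ^ 2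
        + 167763144669714 * t + 274521509459532)) = 3 ^ 30 := by
  linear_combination hrel

/-- `Q(t) ∣ 3¹⁸` in `ℤ[j, t]`. -/
theorem quad_mul_cofactor_of_rel9 {j t : F}
    (hrel : j * (t ^ 9 * (t ^ 2 + 9 * t + 27))
      = (t + 9) ^ 3 * (t ^ 3 + 243 * (t ^ 2 + 9 * t + 27)) ^ 3) :
    (t ^ 2 + 9 * t + 27) * (j * t ^ 9
      - (t ^ 10 + 747 * t ^ 9 + 196884 * t ^ 8 + 20903103 * t ^ 7
        + 737109396 * t ^ 6 + 13043156463 * t ^ 5 + 134822310489 * t ^ 4
        + 861235924194 * t ^ 3 + 3389153374890 * t ^ 2 + 7625602267956 * t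
        + 7625583136080)) = 3 ^ 18 := by
  linear_combination hrel

variable [CharZero F]

theorem h9_three_pow_ne_zero (n : ℕ) : (3 : F) ^ n ≠ 0 := pow_ne_zero n (by norm_num)

/-- `t⁻¹ ∈ A` for every subring `A ∋ j, t, 3⁻¹`. -/
theorem inv_mem_of_rel9 {A : Type*} [SetLike A F] [SubringClass A F] (B : A) {j t : F}
    (hj : j ∈ B) (ht : t ∈ B) (h3 : (3 : F)⁻¹ ∈ B)
    (hrel : j * (t ^ 9 * (t ^ 2 + 9 * t + 27))
      = (t + 9) ^ 3 * (t ^ 3 + 243 * (t ^ 2 + 9 * t + 27)) ^ 3) : t⁻¹ ∈ B := by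
  have hc := mul_cofactor_of_rel9 hrel
  have h30 : (3 : F) ^ 30 ≠ 0 := h9_three_pow_ne_zero 30
  have ht0 : t ≠ 0 := by
    rintro rfl
    rw [zero_mul] at hc
    exact h30 hc.symm
  have e : t⁻¹ = (j * (t ^ 8 * (t ^ 2 + 9 * t + 27))
      - (t ^ 11 + 756 * t ^ 10 + 203634 * t ^ 9 + 22695228 * t ^ 8
        + 930553191 * t ^ 7 + 20241524808 * t ^ 6 + 272112672348 * t ^ 5
        + 2426801943096 * t ^ 4 + 14780479075839 * t ^ 3 + 61381352595204 * t ^ 2
        + 167763144669714 * t + 274521509459532)) * (3 : F)⁻¹ ^ 30 := by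
    rw [inv_pow, eq_mul_inv_iff_mul_eq₀ h30, ← hc, ← mul_assoc, inv_mul_cancel₀ ht0, one_mul]
  rw [e]
  have hn : ∀ n : ℕ, (n : F) ∈ B := fun n => natCast_mem B n
  have hQ : t ^ 2 + 9 * t + 27 ∈ B :=
    add_mem (add_mem (pow_mem ht 2) (mul_mem (by exact_mod_cast hn 9) ht))
      (by exact_mod_cast hn 27)
  refine mul_mem (sub_mem (mul_mem hj (mul_mem (pow_mem ht 8) hQ)) ?_) (pow_mem h3 30)
  refine add_mem (add_mem (add_mem (add_mem (add_mem (add_mem (add_mem (add_mem (add_mem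
    (add_mem (add_mem (pow_mem ht 11) ?_) ?_) ?_) ?_) ?_) ?_) ?_) ?_) ?_) ?_) ?_
  · exact mul_mem (by exact_mod_cast hn 756) (pow_mem ht 10)
  · exact mul_mem (by exact_mod_cast hn 203634) (pow_mem ht 9)
  · exact mul_mem (by exact_mod_cast hn 22695228) (pow_mem ht 8)
  · exact mul_mem (by exact_mod_cast hn 930553191) (pow_mem ht 7)
  · exact mul_mem (by exact_mod_cast hn 20241524808) (pow_mem ht 6)
  · exact mul_mem (by exact_mod_cast hn 272112672348) (pow_mem ht 5)
  · exact mul_mem (by exact_mod_cast hn 2426801943096) (pow_mem ht 4)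
  · exact mul_mem (by exact_mod_cast hn 14780479075839) (pow_mem ht 3)
  · exact mul_mem (by exact_mod_cast hn 61381352595204) (pow_mem ht 2)
  · exact mul_mem (by exact_mod_cast hn 167763144669714) ht
  · exact_mod_cast hn 274521509459532

/-- `Q(t)⁻¹ ∈ A` for every subring `A ∋ j, t, 3⁻¹`. -/
theorem quad_inv_mem_of_rel9 {A : Type*} [SetLike A F] [SubringClass A F] (B : A) {j t : F}
    (hj : j ∈ B) (ht : t ∈ B) (h3 : (3 : F)⁻¹ ∈ B)
    (hrel : j * (t ^ 9 * (t ^ 2 + 9 * t + 27))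
      = (t + 9) ^ 3 * (t ^ 3 + 243 * (t ^ 2 + 9 * t + 27)) ^ 3) :
    (t ^ 2 + 9 * t + 27)⁻¹ ∈ B := by
  have hc := quad_mul_cofactor_of_rel9 hrel
  have h18 : (3 : F) ^ 18 ≠ 0 := h9_three_pow_ne_zero 18
  have hQ0 : t ^ 2 + 9 * t + 27 ≠ 0 := by
    intro h
    rw [h, zero_mul] at hc
    exact h18 hc.symm
  have e : (t ^ 2 + 9 * t + 27)⁻¹ = (j * t ^ 9
      - (t ^ 10 + 747 * t ^ 9 + 196884 * t ^ 8 + 20903103 * t ^ 7
        + 737109396 * t ^ 6 + 13043156463 * t ^ 5 + 134822310489 * t ^ 4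
        + 861235924194 * t ^ 3 + 3389153374890 * t ^ 2 + 7625602267956 * t
        + 7625583136080)) * (3 : F)⁻¹ ^ 18 := by
    rw [inv_pow, eq_mul_inv_iff_mul_eq₀ h18, ← hc, ← mul_assoc, inv_mul_cancel₀ hQ0, one_mul]
  rw [e]
  have hn : ∀ n : ℕ, (n : F) ∈ B := fun n => natCast_mem B n
  refine mul_mem (sub_mem (mul_mem hj (pow_mem ht 9)) ?_) (pow_mem h3 18)
  refine add_mem (add_mem (add_mem (add_mem (add_mem (add_mem (add_mem (add_mem (add_mem
    (add_mem (pow_mem ht 10) ?_) ?_) ?_) ?_) ?_) ?_) ?_) ?_) ?_) ?_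
  · exact mul_mem (by exact_mod_cast hn 747) (pow_mem ht 9)
  · exact mul_mem (by exact_mod_cast hn 196884) (pow_mem ht 8)
  · exact mul_mem (by exact_mod_cast hn 20903103) (pow_mem ht 7)
  · exact mul_mem (by exact_mod_cast hn 737109396) (pow_mem ht 6)
  · exact mul_mem (by exact_mod_cast hn 13043156463) (pow_mem ht 5)
  · exact mul_mem (by exact_mod_cast hn 134822310489) (pow_mem ht 4)
  · exact mul_mem (by exact_mod_cast hn 861235924194) (pow_mem ht 3)
  · exact mul_mem (by exact_mod_cast hn 3389153374890) (pow_mem ht 2)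
  · exact mul_mem (by exact_mod_cast hn 7625602267956) ht
  · exact_mod_cast hn 7625583136080

/-- `g₉ = Q(t)⁵ · (t⁻¹)³ ∈ A`. -/
theorem g9_mem_of_rel9 {A : Type*} [SetLike A F] [SubringClass A F] (B : A) {j t : F}
    (hj : j ∈ B) (ht : t ∈ B) (h3 : (3 : F)⁻¹ ∈ B)
    (hrel : j * (t ^ 9 * (t ^ 2 + 9 * t + 27))
      = (t + 9) ^ 3 * (t ^ 3 + 243 * (t ^ 2 + 9 * t + 27)) ^ 3) :
    (t ^ 2 + 9 * t + 27) ^ 5 * (t ^ 3)⁻¹ ∈ B := by
  have hn : ∀ n : ℕ, (n : F) ∈ B := fun n => natCast_mem B n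
  have hQ : t ^ 2 + 9 * t + 27 ∈ B :=
    add_mem (add_mem (pow_mem ht 2) (mul_mem (by exact_mod_cast hn 9) ht))
      (by exact_mod_cast hn 27)
  rw [← inv_pow]
  exact mul_mem (pow_mem hQ 5) (pow_mem (inv_mem_of_rel9 B hj ht h3 hrel) 3)

/-- `g₉⁻¹ = t³ · (Q(t)⁻¹)⁵ ∈ A`. -/
theorem g9_inv_mem_of_rel9 {A : Type*} [SetLike A F] [SubringClass A F] (B : A) {j t : F}
    (hj : j ∈ B) (ht : t ∈ B) (h3 : (3 : F)⁻¹ ∈ B)
    (hrel : j * (t ^ 9 * (t ^ 2 + 9 * t + 27))
      = (t + 9) ^ 3 * (t ^ 3 + 243 * (t ^ 2 + 9 * t + 27)) ^ 3) :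
    ((t ^ 2 + 9 * t + 27) ^ 5 * (t ^ 3)⁻¹)⁻¹ ∈ B := by
  rw [mul_inv, inv_inv, ← inv_pow]
  exact mul_mem (pow_mem (quad_inv_mem_of_rel9 B hj ht h3 hrel) 5) (pow_mem ht 3)

end Units

end Fermat.Agent.S36.H890

end
end
-- ===== PACK-END S36/H890/Chart9.lean

-- ===== PACK-BEGIN S41/H281/Eis.lean
section



/-!
# S41 / block EIS (helper281): the Hecke transfer is Eisenstein on congruence characters

Let `l ∤ N` be a prime, `m ≥ 0` with `l ≡ 1 mod m`, and `φ : Γ₀(N) → A` an additive character which is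
trivial on `Γ₀(N) ∩ Γ(m)`.  Then `T_l φ = (l + 1) φ`, where `T_l` is the Hecke transfer
`Fermat.Agent.S29.H642.heckeTransfer`.

Proof.  `α_x γ = γ_x α_{πx}` with `α_j = [[1, j],[0, l]]`, `α_∞ = [[l, 0],[0, 1]]`.  Modulo `m` we have
`α_x ≡ δ_x` with `δ_j = [[1, j],[0, 1]]`, `δ_∞ = 1` in `Γ₀(N)`, hence `γ_x δ_{πx} ≡ δ_x γ mod m`, so
`φ(γ_x) = φ(γ) + φ(δ_x) − φ(δ_{πx})`; sum over `x` and use that `π` is a permutation.
-/

set_option autoImplicit false

namespace Fermat.Agent.S41.H281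

open CongruenceSubgroup Matrix.SpecialLinearGroup
open P2MW.S_ModularForm_heckeT_slash_eq_self_of_mem_Gamma0.ModularForm.HeckeSlashInvariance
open Fermat.Agent.S29.H642
open scoped MatrixGroups

variable {p : ℕ} {N : ℕ}

/-- The integral matrix of the Hecke representative `heckeRep p x`. -/
def repInt (p : ℕ) (x : OnePoint (ZMod p)) : Matrix (Fin 2) (Fin 2) ℤ :=
  x.elim !![(p : ℤ), 0; 0, 1] (fun j => !![1, (j.val : ℤ); 0, (p : ℤ)])

/-- The unipotent element of `SL(2, ℤ)` congruent to `heckeRep p x` modulo every `m ∣ p - 1`. -/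
def repSL (p : ℕ) (x : OnePoint (ZMod p)) : SL(2, ℤ) :=
  x.elim 1 (fun j => ⟨!![1, (j.val : ℤ); 0, 1], by simp⟩)

@[simp] theorem repInt_infty : repInt p OnePoint.infty = !![(p : ℤ), 0; 0, 1] := rfl

@[simp] theorem repInt_coe (j : ZMod p) :
    repInt p (j : OnePoint (ZMod p)) = !![1, (j.val : ℤ); 0, (p : ℤ)] := rfl

@[simp] theorem repSL_infty : repSL p OnePoint.infty = 1 := rfl

@[simp] theorem repSL_coe (j : ZMod p) :
    ((repSL p (j : OnePoint (ZMod p)) : SL(2, ℤ)) : Matrix (Fin 2) (Fin 2) ℤ) =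
      !![1, (j.val : ℤ); 0, 1] := rfl

theorem repSL_mem_Gamma0 (p N : ℕ) (x : OnePoint (ZMod p)) : repSL p x ∈ Gamma0 N := by
  induction x using OnePoint.rec with
  | infty => exact one_mem _
  | coe j => rw [Gamma0_mem, repSL_coe]; simp

theorem heckeRep_val_eq (hp : p ≠ 0) (x : OnePoint (ZMod p)) :
    ((heckeRep p x : GL (Fin 2) ℝ) : Matrix (Fin 2) (Fin 2) ℝ) =
      (repInt p x).map (Int.castRingHom ℝ) := by
  induction x using OnePoint.rec with
  | infty =>
    rw [heckeRep_infty, ModularForm.val_heckeDiagMatrix hp]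
    ext i j
    fin_cases i <;> fin_cases j <;> simp
  | coe j =>
    rw [heckeRep_coe, ModularForm.val_heckeMatrix hp]
    ext i j
    fin_cases i <;> fin_cases j <;> simp

theorem mapGL_val_eq (g : SL(2, ℤ)) :
    ((mapGL ℝ g : GL (Fin 2) ℝ) : Matrix (Fin 2) (Fin 2) ℝ) =
      (g : Matrix (Fin 2) (Fin 2) ℤ).map (Int.castRingHom ℝ) := by
  ext i j
  simp

/-- The defining relation of `hElt`, as an identity of integral matrices. -/
theorem hElt_spec_int [Fact p.Prime] (hpN : ¬ p ∣ N) (γ : Gamma0 N) (x : OnePoint (ZMod p)) :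
    repInt p x * ((γ : SL(2, ℤ)) : Matrix (Fin 2) (Fin 2) ℤ) =
      (((hElt hpN γ x : Gamma0 N) : SL(2, ℤ)) : Matrix (Fin 2) (Fin 2) ℤ) *
        repInt p (hPerm p (γ : SL(2, ℤ)) x) := by
  have hp : p ≠ 0 := (Fact.out : p.Prime).ne_zero
  have h := congrArg (fun M : GL (Fin 2) ℝ => (M : Matrix (Fin 2) (Fin 2) ℝ)) (hElt_spec hpN γ x)
  simp only [Matrix.GeneralLinearGroup.coe_mul, heckeRep_val_eq hp, mapGL_val_eq] at h
  have hinj : Function.Injective
      (fun M : Matrix (Fin 2) (Fin 2) ℤ => M.map (Int.castRingHom ℝ)) :=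
    Matrix.map_injective (Int.cast_injective (α := ℝ))
  apply hinj
  simp only [Matrix.map_mul]
  exact h

/-- Modulo `m` with `p ≡ 1 mod m`, the Hecke representative is congruent to the unipotent `repSL`. -/
theorem repInt_map_eq (m : ℕ) (hm : ((p : ℕ) : ZMod m) = 1) (x : OnePoint (ZMod p)) :
    (repInt p x).map (Int.castRingHom (ZMod m)) =
      ((repSL p x : SL(2, ℤ)) : Matrix (Fin 2) (Fin 2) ℤ).map (Int.castRingHom (ZMod m)) := by
  induction x using OnePoint.rec with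
  | infty =>
    ext i j
    fin_cases i <;> fin_cases j <;> simp [hm]
  | coe j =>
    rw [repSL_coe]
    ext i j
    fin_cases i <;> fin_cases j <;> simp [hm]

/-- The key congruence: `γ_x δ_{πx} ≡ δ_x γ mod m`. -/
theorem hElt_mul_repSL_inv_mem_Gamma [Fact p.Prime] (hpN : ¬ p ∣ N) (m : ℕ)
    (hm : ((p : ℕ) : ZMod m) = 1) (γ : Gamma0 N) (x : OnePoint (ZMod p)) :
    (repSL p x * (γ : SL(2, ℤ)))⁻¹ *
      (((hElt hpN γ x : Gamma0 N) : SL(2, ℤ)) * repSL p (hPerm p (γ : SL(2, ℤ)) x)) ∈ Gamma m := by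
  have h := congrArg (fun M : Matrix (Fin 2) (Fin 2) ℤ => M.map (Int.castRingHom (ZMod m)))
    (hElt_spec_int hpN γ x)
  simp only [Matrix.map_mul, repInt_map_eq m hm] at h
  have h2 : (Matrix.SpecialLinearGroup.map (Int.castRingHom (ZMod m)))
      (repSL p x * (γ : SL(2, ℤ))) =
      (Matrix.SpecialLinearGroup.map (Int.castRingHom (ZMod m)))
        (((hElt hpN γ x : Gamma0 N) : SL(2, ℤ)) * repSL p (hPerm p (γ : SL(2, ℤ)) x)) := by
    apply Subtype.ext
    simpa [Matrix.map_mul] using h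
  show _ ∈ (Matrix.SpecialLinearGroup.map (Int.castRingHom (ZMod m))).ker
  rw [MonoidHom.mem_ker, map_mul, map_inv, h2, inv_mul_cancel]

section Transfer

variable {A : Type*} [AddCommGroup A]

/-- **EIS**, pointwise form: for a character `φ` of `Γ₀(N)` trivial on `Γ₀(N) ∩ Γ(m)` and a prime
`p ∤ N`, `p ≡ 1 mod m`, we have `φ(γ_x) = φ(γ) + φ(δ_x) − φ(δ_{πx})`. -/
theorem apply_hElt_of_vanish [Fact p.Prime] (hpN : ¬ p ∣ N) (m : ℕ) (hm : ((p : ℕ) : ZMod m) = 1)
    (φ : Additive (Gamma0 N) →+ A)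
    (hφ : ∀ γ : Gamma0 N, (γ : SL(2, ℤ)) ∈ Gamma m → φ (Additive.ofMul γ) = 0)
    (γ : Gamma0 N) (x : OnePoint (ZMod p)) :
    φ (Additive.ofMul (hElt hpN γ x)) =
      φ (Additive.ofMul γ) + φ (Additive.ofMul (⟨repSL p x, repSL_mem_Gamma0 p N x⟩ : Gamma0 N)) -
        φ (Additive.ofMul (⟨repSL p (hPerm p (γ : SL(2, ℤ)) x),
          repSL_mem_Gamma0 p N _⟩ : Gamma0 N)) := by
  set d : Gamma0 N := ⟨repSL p x, repSL_mem_Gamma0 p N x⟩ with hd
  set d' : Gamma0 N := ⟨repSL p (hPerm p (γ : SL(2, ℤ)) x), repSL_mem_Gamma0 p N _⟩ with hd'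
  have hmem : (((d * γ)⁻¹ * (hElt hpN γ x * d') : Gamma0 N) : SL(2, ℤ)) ∈ Gamma m := by
    have := hElt_mul_repSL_inv_mem_Gamma hpN m hm γ x
    simpa [hd, hd'] using this
  have h0 := hφ _ hmem
  rw [ofMul_mul, ofMul_inv, ofMul_mul, ofMul_mul, map_add, map_neg, map_add, map_add] at h0
  have h1 : φ (Additive.ofMul (hElt hpN γ x)) + φ (Additive.ofMul d') =
      φ (Additive.ofMul d) + φ (Additive.ofMul γ) := by
    have := eq_of_sub_eq_zero (by rw [sub_eq_add_neg, add_comm]; exact h0 :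
      φ (Additive.ofMul (hElt hpN γ x)) + φ (Additive.ofMul d') -
        (φ (Additive.ofMul d) + φ (Additive.ofMul γ)) = 0)
    exact this
  rw [eq_sub_iff_add_eq, h1, add_comm]

/-- **Block EIS**: for a prime `p ∤ N` with `p ≡ 1 mod m`, the Hecke transfer `T_p` acts as `p + 1`
on every character of `Γ₀(N)` which is trivial on `Γ₀(N) ∩ Γ(m)`. -/
theorem heckeTransfer_eq_of_vanish [Fact p.Prime] (hpN : ¬ p ∣ N) (m : ℕ)
    (hm : ((p : ℕ) : ZMod m) = 1) (φ : Additive (Gamma0 N) →+ A)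
    (hφ : ∀ γ : Gamma0 N, (γ : SL(2, ℤ)) ∈ Gamma m → φ (Additive.ofMul γ) = 0) :
    heckeTransfer hpN φ = (p + 1) • φ := by
  refine AddMonoidHom.ext fun γ' => ?_
  obtain ⟨γ, rfl⟩ : ∃ γ : Gamma0 N, Additive.ofMul γ = γ' := ⟨Additive.toMul γ', rfl⟩
  rw [heckeTransfer_apply]
  simp only [apply_hElt_of_vanish hpN m hm φ hφ γ]
  rw [Finset.sum_sub_distrib, Finset.sum_add_distrib]
  have hperm : ∑ x : OnePoint (ZMod p),
      φ (Additive.ofMul (⟨repSL p (hPerm p (γ : SL(2, ℤ)) x),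
        repSL_mem_Gamma0 p N _⟩ : Gamma0 N)) =
      ∑ x : OnePoint (ZMod p),
        φ (Additive.ofMul (⟨repSL p x, repSL_mem_Gamma0 p N x⟩ : Gamma0 N)) :=
    Equiv.sum_comp (hPerm p (γ : SL(2, ℤ)))
      (fun y => φ (Additive.ofMul (⟨repSL p y, repSL_mem_Gamma0 p N y⟩ : Gamma0 N)))
  rw [hperm, add_sub_cancel_right, Finset.sum_const, Finset.card_univ]
  have hcard : Fintype.card (OnePoint (ZMod p)) = p + 1 := by
    rw [show Fintype.card (OnePoint (ZMod p)) = Fintype.card (Option (ZMod p)) from rfl,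
      Fintype.card_option, ZMod.card]
  rw [hcard, AddMonoidHom.smul_apply]

/-- Variant of `heckeTransfer_eq_of_vanish` with the congruence in `Nat.ModEq` form. -/
theorem heckeTransfer_eq_of_vanish_modEq [Fact p.Prime] (hpN : ¬ p ∣ N) (m : ℕ)
    (hm : p ≡ 1 [MOD m]) (φ : Additive (Gamma0 N) →+ A)
    (hφ : ∀ γ : Gamma0 N, (γ : SL(2, ℤ)) ∈ Gamma m → φ (Additive.ofMul γ) = 0) :
    heckeTransfer hpN φ = (p + 1) • φ :=
  heckeTransfer_eq_of_vanish hpN m
    (by have := (ZMod.natCast_eq_natCast_iff p 1 m).mpr hm; simpa using this) φ hφ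

end Transfer

end Fermat.Agent.S41.H281

end
-- ===== PACK-END S41/H281/Eis.lean

-- ===== PACK-BEGIN S59/H240/Node/SmallRoot.lean
section




/-!
# S59 / CR-I (helper240): a small root of `4 X³ + B₂ X² + B₄ X + B₆`

`K` algebraically closed with a valuation `v`, `4 ≠ 0`, `v B₂ = 1`, `v B₄ < 1`, `v B₆ < 1`:
the cubic `4 X³ + B₂ X² + B₄ X + B₆` has a root `ε` with `v ε < 1` (uniformly in the residue
characteristic; in residue characteristic `2` the third root has `v (4 ε) = 1`).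
Also: integral roots of monic quadratics.
-/

set_option autoImplicit false
set_option linter.unusedSectionVars false

namespace Fermat.Agent.S59.H240

open Polynomial

variable {K : Type*} [Field K] {Γ₀ : Type*} [LinearOrderedCommGroupWithZero Γ₀]
  {v : Valuation K Γ₀}

lemma exists_cubic_root [IsAlgClosed K] {c₃ c₂ c₁ c₀ : K} (h : c₃ ≠ 0) :
    ∃ x : K, c₃ * x ^ 3 + c₂ * x ^ 2 + c₁ * x + c₀ = 0 := by
  have hdeg : (C c₃ * X ^ 3 + C c₂ * X ^ 2 + C c₁ * X + C c₀ : K[X]).degree ≠ 0 := by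
    rw [degree_cubic h]; decide
  obtain ⟨x, hx⟩ := IsAlgClosed.exists_root _ hdeg
  refine ⟨x, ?_⟩
  simpa [IsRoot] using hx

lemma exists_quadratic_root [IsAlgClosed K] {c₂ c₁ c₀ : K} (h : c₂ ≠ 0) :
    ∃ x : K, c₂ * x ^ 2 + c₁ * x + c₀ = 0 := by
  have hdeg : (C c₂ * X ^ 2 + C c₁ * X + C c₀ : K[X]).degree ≠ 0 := by
    rw [degree_quadratic h]; decide
  obtain ⟨x, hx⟩ := IsAlgClosed.exists_root _ hdeg
  refine ⟨x, ?_⟩
  simpa [IsRoot] using hx

/-- A root of a monic quadratic with integral coefficients is integral. -/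
lemma val_le_one_of_monic_quadratic {c₁ c₀ s : K} (h1 : v c₁ ≤ 1) (h0 : v c₀ ≤ 1)
    (hs : s ^ 2 + c₁ * s + c₀ = 0) : v s ≤ 1 := by
  by_contra hlt
  rw [not_le] at hlt
  have hs0 : 0 < v s := lt_trans zero_lt_one hlt
  have e : s ^ 2 = -(c₁ * s + c₀) := by linear_combination hs
  have h2 : v (s ^ 2) ≤ v s := by
    rw [e, Valuation.map_neg]
    refine vadd_le ?_ (h0.trans hlt.le)
    exact vmul_le_of_le_one_left h1
  rw [map_pow, pow_two] at h2
  have h3 : v s * 1 < v s * v s := mul_lt_mul_of_pos_left hlt hs0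
  rw [mul_one] at h3
  exact absurd h2 (not_le.mpr h3)

/-- A root of a monic quadratic with coefficients in the maximal ideal lies in the maximal
ideal. -/
lemma val_lt_one_of_monic_quadratic {c₁ c₀ s : K} (h0 : v c₀ < 1)
    (hs : s * (s + c₁) = c₀) : v s < 1 ∨ v (s + c₁) < 1 := by
  by_contra hcon
  rw [not_or, not_lt, not_lt] at hcon
  have := congrArg v hs
  rw [map_mul] at this
  have h2 : (1 : Γ₀) ≤ v s * v (s + c₁) := by
    calc (1 : Γ₀) = 1 * 1 := (one_mul 1).symm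
      _ ≤ v s * v (s + c₁) := mul_le_mul' hcon.1 hcon.2
  rw [this] at h2
  exact absurd h0 (not_lt.mpr h2)

/-- **Small root.** -/
theorem exists_small_root [IsAlgClosed K] (h4 : (4 : K) ≠ 0) {B₂ B₄ B₆ : K}
    (hB₂ : v B₂ = 1) (hB₄ : v B₄ < 1) (hB₆ : v B₆ < 1) :
    ∃ ε : K, 4 * ε ^ 3 + B₂ * ε ^ 2 + B₄ * ε + B₆ = 0 ∧ v ε < 1 := by
  obtain ⟨ε₁, h₁⟩ := exists_cubic_root (c₃ := (4 : K)) (c₂ := B₂) (c₁ := B₄) (c₀ := B₆) h4
  by_cases hsmall : v ε₁ < 1
  · exact ⟨ε₁, h₁, hsmall⟩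
  rw [not_lt] at hsmall
  have hε₁0 : ε₁ ≠ 0 := by
    rintro rfl
    rw [map_zero] at hsmall
    exact absurd hsmall (not_le.mpr zero_lt_one)
  have hpos : 0 < v ε₁ := (Valuation.pos_iff v).mpr hε₁0
  -- `1 ≤ v (4 ε₁)`
  have h4ε : 1 ≤ v (4 * ε₁) := by
    by_contra hlt
    rw [not_le] at hlt
    have e : B₂ * ε₁ ^ 2 = -(4 * ε₁ * ε₁ ^ 2 + (B₄ * ε₁ + B₆)) := by linear_combination h₁
    have hl : v (B₂ * ε₁ ^ 2) = v (ε₁ ^ 2) := by rw [map_mul, hB₂, one_mul]
    have hsq : v ε₁ ≤ v (ε₁ ^ 2) := by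
      rw [map_pow, pow_two]
      calc v ε₁ = 1 * v ε₁ := (one_mul _).symm
        _ ≤ v ε₁ * v ε₁ := mul_le_mul' hsmall le_rfl
    have hsq0 : 0 < v (ε₁ ^ 2) := lt_of_lt_of_le hpos hsq
    have hr : v (-(4 * ε₁ * ε₁ ^ 2 + (B₄ * ε₁ + B₆))) < v (ε₁ ^ 2) := by
      rw [Valuation.map_neg]
      refine vadd_lt ?_ (vadd_lt ?_ ?_)
      · rw [map_mul]
        calc v (4 * ε₁) * v (ε₁ ^ 2) < 1 * v (ε₁ ^ 2) := mul_lt_mul_of_pos_right hlt hsq0
          _ = v (ε₁ ^ 2) := one_mul _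
      · rw [map_mul]
        calc v B₄ * v ε₁ < 1 * v ε₁ := mul_lt_mul_of_pos_right hB₄ hpos
          _ = v ε₁ := one_mul _
          _ ≤ v (ε₁ ^ 2) := hsq
      · exact lt_of_lt_of_le hB₆ (hsmall.trans hsq)
    rw [← e, hl] at hr
    exact lt_irrefl _ hr
  -- the quadratic factor
  set c : K := 4 * ε₁ + B₂ with hc
  set d : K := 4 * ε₁ ^ 2 + B₂ * ε₁ + B₄ with hd
  have hd1 : ε₁ * d = -B₆ := by rw [hd]; linear_combination h₁
  have hc1 : ε₁ ^ 2 * c = -(B₄ * ε₁ + B₆) := by rw [hc]; linear_combination h₁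
  have hvd : v d * v ε₁ < 1 := by
    have := congrArg v hd1
    rw [map_mul, Valuation.map_neg, mul_comm] at this
    rw [this]; exact hB₆
  have hvc : v c * v ε₁ < 1 := by
    have h1 := congrArg v hc1
    rw [map_mul, Valuation.map_neg, map_pow, pow_two] at h1
    have h2 : v (B₄ * ε₁ + B₆) < v ε₁ := by
      refine vadd_lt ?_ (lt_of_lt_of_le hB₆ hsmall)
      rw [map_mul]
      calc v B₄ * v ε₁ < 1 * v ε₁ := mul_lt_mul_of_pos_right hB₄ hpos
        _ = v ε₁ := one_mul _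
    rw [← h1] at h2
    -- `v ε₁ * v ε₁ * v c < v ε₁`
    by_contra hge
    rw [not_lt] at hge
    have : v ε₁ * 1 ≤ v ε₁ * (v c * v ε₁) := mul_le_mul' le_rfl hge
    rw [mul_one] at this
    have e2 : v ε₁ * (v c * v ε₁) = v ε₁ * v ε₁ * v c := by
      rw [mul_comm (v c) (v ε₁), ← mul_assoc]
    rw [e2] at this
    exact absurd h2 (not_lt.mpr this)
  obtain ⟨ε₂, h₂⟩ := exists_quadratic_root (c₂ := (4 : K)) (c₁ := c) (c₀ := d) h4
  refine ⟨ε₂, ?_, ?_⟩
  · have : 4 * ε₂ ^ 3 + B₂ * ε₂ ^ 2 + B₄ * ε₂ + B₆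
        = (ε₂ - ε₁) * (4 * ε₂ ^ 2 + c * ε₂ + d) + (4 * ε₁ ^ 3 + B₂ * ε₁ ^ 2 + B₄ * ε₁ + B₆) := by
      rw [hc, hd]; ring
    rw [this, h₂, h₁, mul_zero, add_zero]
  · by_contra hbig
    rw [not_lt] at hbig
    have hε₂0 : ε₂ ≠ 0 := by
      rintro rfl
      rw [map_zero] at hbig
      exact absurd hbig (not_le.mpr zero_lt_one)
    have hpos₂ : 0 < v ε₂ := (Valuation.pos_iff v).mpr hε₂0
    have e : 4 * ε₁ * ε₂ ^ 2 = -(c * ε₁ * ε₂ + d * ε₁) := by linear_combination ε₁ * h₂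
    have hL : v ε₂ ≤ v (4 * ε₁ * ε₂ ^ 2) := by
      rw [map_mul, map_pow, pow_two]
      calc v ε₂ = 1 * (1 * v ε₂) := by rw [one_mul, one_mul]
        _ ≤ v (4 * ε₁) * (v ε₂ * v ε₂) := mul_le_mul' h4ε (mul_le_mul' hbig le_rfl)
    have hR : v (-(c * ε₁ * ε₂ + d * ε₁)) < v ε₂ := by
      rw [Valuation.map_neg]
      refine vadd_lt ?_ ?_
      · rw [map_mul, map_mul]
        calc v c * v ε₁ * v ε₂ < 1 * v ε₂ := mul_lt_mul_of_pos_right hvc hpos₂
          _ = v ε₂ := one_mul _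
      · rw [map_mul]
        exact lt_of_lt_of_le hvd hbig
    rw [← e] at hR
    exact absurd hL (not_le.mpr hR)

end Fermat.Agent.S59.H240

end
-- ===== PACK-END S59/H240/Node/SmallRoot.lean

-- ===== PACK-BEGIN S59/H105/HenselOp.lean
section


/-!
# Row S59, cell TW, leaf CTRL (helper105): Hensel roots of `X² - T X + q` for an operator `T`

`Y` a finite free module over the complete local ring `𝒪` (maximal ideal `(ϖ)`), `T` an
endomorphism of `Y` with `(T - c)^k Y ⊆ ϖ Y`.  Then `T = a + b`, `a b = b a = q` with `a, b` in the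
double centraliser of `T` (they commute with every endomorphism commuting with `T`),
`a ≡ α`, `b ≡ β` modulo operators which are nilpotent modulo `ϖ`.
-/

set_option autoImplicit false

namespace Fermat.Agent.S59.H105

open IsLocalRing

section

variable {𝒪 : Type*} [CommRing 𝒪] {Y : Type*} [AddCommGroup Y] [Module 𝒪 Y]

/-- An endomorphism with values in `ϖ Y` is divisible by `ϖ` (`Y` without `ϖ`-torsion). -/
theorem exists_eq_smul_of_forall (ϖ : 𝒪) (htf : ∀ y : Y, ϖ • y = 0 → y = 0) (f : Y →ₗ[𝒪] Y)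
    (h : ∀ y, ∃ z, f y = ϖ • z) : ∃ g : Y →ₗ[𝒪] Y, f = ϖ • g := by
  classical
  have hinj : ∀ z z' : Y, ϖ • z = ϖ • z' → z = z' := by
    intro z z' e
    have : ϖ • (z - z') = 0 := by rw [smul_sub, e, sub_self]
    exact sub_eq_zero.mp (htf _ this)
  choose g hg using h
  refine ⟨{ toFun := g, map_add' := ?_, map_smul' := ?_ }, ?_⟩
  · intro y y'
    apply hinj
    rw [← hg, smul_add, ← hg, ← hg, map_add]
  · intro r y
    apply hinj
    rw [← hg, RingHom.id_apply, smul_comm, ← hg, map_smul]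
  · ext y
    exact hg y

end

section

variable {𝒪 : Type*} [CommRing 𝒪] [IsLocalRing 𝒪] [IsNoetherianRing 𝒪]
  [IsAdicComplete (maximalIdeal 𝒪) 𝒪]
  {Y : Type*} [AddCommGroup Y] [Module 𝒪 Y] [Module.Finite 𝒪 Y] [Module.Free 𝒪 Y]

/-- **Hensel roots for an operator.** -/
theorem hensel_op (ϖ : 𝒪) (hϖ : maximalIdeal 𝒪 = Ideal.span {ϖ})
    (htf : ∀ y : Y, ϖ • y = 0 → y = 0) (T : Y →ₗ[𝒪] Y) (c q α β : 𝒪)
    (hc : α + β - c ∈ maximalIdeal 𝒪) (hq : α * β - q ∈ maximalIdeal 𝒪)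
    (hαβ : IsUnit (α - β)) (hα : IsUnit (1 - α ^ 2)) (hβ : IsUnit (1 - β ^ 2))
    (k : ℕ) (hnil : ∀ y, ∃ z, ((T - c • (1 : Y →ₗ[𝒪] Y)) ^ k) y = ϖ • z) :
    ∃ a b : Y →ₗ[𝒪] Y, (∀ y, a y + b y = T y) ∧ (∀ y, a (b y) = q • y) ∧
      (∀ y, b (a y) = q • y) ∧
      (∀ S : Y →ₗ[𝒪] Y, (∀ y, S (T y) = T (S y)) → ∀ y, S (a y) = a (S y)) ∧
      (∀ S : Y →ₗ[𝒪] Y, (∀ y, S (T y) = T (S y)) → ∀ y, S (b y) = b (S y)) ∧
      (∀ y, ∃ z, ((a - α • (1 : Y →ₗ[𝒪] Y)) ^ (1 + k)) y = ϖ • z) ∧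
      (∀ y, ∃ z, ((b - β • (1 : Y →ₗ[𝒪] Y)) ^ (1 + k)) y = ϖ • z) ∧
      Function.Bijective (a - b) ∧ Function.Bijective ((1 : Y →ₗ[𝒪] Y) - a * a) ∧
      Function.Bijective ((1 : Y →ₗ[𝒪] Y) - b * b) ∧
      Function.Bijective (b - α • (1 : Y →ₗ[𝒪] Y)) ∧
      Function.Bijective (a - β • (1 : Y →ₗ[𝒪] Y)) := by
  classical
  -- the double centraliser
  let A : Subalgebra 𝒪 (Y →ₗ[𝒪] Y) :=
    Subalgebra.centralizer 𝒪 (Set.centralizer ({T} : Set (Y →ₗ[𝒪] Y)))
  have hAcomm : ∀ x y : A, x * y = y * x := by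
    intro x y
    apply Subtype.ext
    exact Set.centralizer_centralizer_comm_of_comm (S := ({T} : Set (Y →ₗ[𝒪] Y)))
      (by
        intro g₁ h₁ g₂ h₂
        rw [Set.mem_singleton_iff] at h₁ h₂
        rw [h₁, h₂]) x.1 x.2 y.1 y.2
  letI : CommRing A := { (inferInstance : Ring A) with mul_comm := hAcomm }
  haveI : IsNoetherian 𝒪 (Y →ₗ[𝒪] Y) := isNoetherian_of_isNoetherianRing_of_finite 𝒪 _
  haveI : Module.Finite 𝒪 A :=
    Module.Finite.of_injective (A.val.toLinearMap) Subtype.val_injective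
  have hTA : T ∈ A := Set.subset_centralizer_centralizer (Set.mem_singleton T)
  have hcent : ∀ S : Y →ₗ[𝒪] Y, (∀ y, S (T y) = T (S y)) →
      S ∈ Set.centralizer ({T} : Set (Y →ₗ[𝒪] Y)) := by
    intro S hS
    rw [Set.mem_centralizer_iff]
    intro m hm
    rw [Set.mem_singleton_iff] at hm
    rw [hm]
    ext y
    exact (hS y).symm
  have hAS : ∀ x : A, ∀ S : Y →ₗ[𝒪] Y, (∀ y, S (T y) = T (S y)) →
      ∀ y, S ((x : Y →ₗ[𝒪] Y) y) = (x : Y →ₗ[𝒪] Y) (S y) := by
    intro x S hS y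
    have := (Subalgebra.mem_centralizer_iff 𝒪).mp x.2 S (hcent S hS)
    exact congrArg (fun f : Y →ₗ[𝒪] Y => f y) this
  -- torsion-freeness of the endomorphisms
  have htfE : ∀ f : Y →ₗ[𝒪] Y, ϖ • f = 0 → f = 0 := by
    intro f hf
    ext y
    apply htf
    have := congrArg (fun f : Y →ₗ[𝒪] Y => f y) hf
    simpa using this
  -- saturation of `A`
  have hsat : ∀ f : Y →ₗ[𝒪] Y, ϖ • f ∈ A → f ∈ A := by
    intro f hf
    rw [Subalgebra.mem_centralizer_iff]
    intro S hS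
    have := (Subalgebra.mem_centralizer_iff 𝒪).mp hf S hS
    apply sub_eq_zero.mp
    apply htfE
    rw [smul_sub, ← mul_smul_comm, ← smul_mul_assoc, this, sub_self]
  obtain ⟨g, hg⟩ := exists_eq_smul_of_forall ϖ htf _ hnil
  have hpowA : (T - c • (1 : Y →ₗ[𝒪] Y)) ^ k ∈ A :=
    A.pow_mem (A.sub_mem hTA (A.smul_mem A.one_mem c)) k
  have hgA : g ∈ A := hsat g (hg ▸ hpowA)
  have hnilA : ((⟨T, hTA⟩ : A) - algebraMap 𝒪 A c) ^ k = algebraMap 𝒪 A ϖ * ⟨g, hgA⟩ := by
    apply Subtype.ext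
    show ((T - algebraMap 𝒪 (Y →ₗ[𝒪] Y) c) ^ k : Y →ₗ[𝒪] Y) =
      algebraMap 𝒪 (Y →ₗ[𝒪] Y) ϖ * g
    rw [Algebra.algebraMap_eq_smul_one, ← Algebra.smul_def]
    exact hg
  obtain ⟨a, b, hab, hmul, haI, hbI, hjac⟩ :=
    hensel_comm ϖ hϖ c q α β (⟨T, hTA⟩ : A) hc hq hαβ k ⟨g, hgA⟩ hnilA
  set I := henselIdeal ϖ c (⟨T, hTA⟩ : A) with hI
  -- elements of `I` are nilpotent modulo `ϖ`
  have hInil : ∀ x : A, x ∈ I → ∀ y, ∃ z, ((x : Y →ₗ[𝒪] Y) ^ (1 + k)) y = ϖ • z := by
    intro x hx y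
    have h1 := henselIdeal_pow_le ϖ c (⟨T, hTA⟩ : A) k ⟨g, hgA⟩ hnilA (Ideal.pow_mem_pow hx (1 + k))
    rw [Ideal.mem_span_singleton] at h1
    obtain ⟨z, hz⟩ := h1
    have h2 : ((x : Y →ₗ[𝒪] Y) ^ (1 + k)) = ϖ • (z : Y →ₗ[𝒪] Y) := by
      have := congrArg (Subtype.val) hz
      rw [Algebra.smul_def]
      exact this
    exact ⟨(z : Y →ₗ[𝒪] Y) y, by rw [h2]; rfl⟩
  -- `u + x` is bijective for `u` a unit and `x ∈ I`
  have hIbij : ∀ (u : 𝒪) (x : A), IsUnit u → x ∈ I →
      Function.Bijective (u • (1 : Y →ₗ[𝒪] Y) + (x : Y →ₗ[𝒪] Y)) := by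
    intro u x hu hx
    obtain ⟨v, rfl⟩ := hu
    have h1 : IsUnit (x * algebraMap 𝒪 A ((v⁻¹ : 𝒪ˣ) : 𝒪) + 1) :=
      Ideal.mem_jacobson_bot.mp (hjac hx) _
    have h2 : IsUnit (algebraMap 𝒪 A (v : 𝒪)) := (v.isUnit).map (algebraMap 𝒪 A)
    have h3 : IsUnit (algebraMap 𝒪 A (v : 𝒪) + x) := by
      have e : algebraMap 𝒪 A (v : 𝒪) + x =
          algebraMap 𝒪 A (v : 𝒪) * (x * algebraMap 𝒪 A ((v⁻¹ : 𝒪ˣ) : 𝒪) + 1) := by
        have : algebraMap 𝒪 A (v : 𝒪) * algebraMap 𝒪 A ((v⁻¹ : 𝒪ˣ) : 𝒪) = 1 := by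
          rw [← map_mul, Units.mul_inv, map_one]
        calc algebraMap 𝒪 A (v : 𝒪) + x
            = algebraMap 𝒪 A (v : 𝒪) + x * (algebraMap 𝒪 A (v : 𝒪) *
                algebraMap 𝒪 A ((v⁻¹ : 𝒪ˣ) : 𝒪)) := by rw [this, mul_one]
          _ = _ := by ring
      rw [e]
      exact h2.mul h1
    have h4 : IsUnit ((v : 𝒪) • (1 : Y →ₗ[𝒪] Y) + (x : Y →ₗ[𝒪] Y)) := by
      have := h3.map A.val
      rw [← Algebra.algebraMap_eq_smul_one]
      exact this
    exact (Module.End.isUnit_iff _).mp h4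
  have hmI : ∀ x ∈ maximalIdeal 𝒪, algebraMap 𝒪 A x ∈ I := by
    intro x hx
    rw [hϖ, Ideal.mem_span_singleton] at hx
    obtain ⟨y, rfl⟩ := hx
    rw [map_mul]
    exact Ideal.mul_mem_right _ _ (Ideal.mem_sup_left (Ideal.mem_span_singleton_self _))
  have hcoe_alg : ∀ r : 𝒪, ((algebraMap 𝒪 A r : A) : Y →ₗ[𝒪] Y) = r • (1 : Y →ₗ[𝒪] Y) := by
    intro r
    rw [← Algebra.algebraMap_eq_smul_one]
    rfl
  have hba : b * a = algebraMap 𝒪 A q := by rw [mul_comm, hmul]
  refine ⟨a, b, ?_, ?_, ?_, hAS a, hAS b, ?_, ?_, ?_, ?_, ?_, ?_, ?_⟩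
  · intro y
    have := congrArg (fun x : A => (x : Y →ₗ[𝒪] Y) y) hab
    exact this
  · intro y
    have := congrArg (fun x : A => (x : Y →ₗ[𝒪] Y) y) hmul
    simpa [hcoe_alg] using this
  · intro y
    have := congrArg (fun x : A => (x : Y →ₗ[𝒪] Y) y) hba
    simpa [hcoe_alg] using this
  · intro y
    have := hInil _ haI y
    simpa [hcoe_alg] using this
  · intro y
    have := hInil _ hbI y
    simpa [hcoe_alg] using this
  · -- `a - b = (α - β) + ((a - α) - (b - β))`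
    have := hIbij (α - β) ((a - algebraMap 𝒪 A α) - (b - algebraMap 𝒪 A β)) hαβ
      (Ideal.sub_mem _ haI hbI)
    convert this using 2
    simp only [Subalgebra.coe_sub, hcoe_alg, sub_smul]
    abel
  · -- `1 - a² = (1 - α²) - (a - α)(a + α)`
    have := hIbij (1 - α ^ 2) (-((a - algebraMap 𝒪 A α) * (a + algebraMap 𝒪 A α))) hα
      (neg_mem (Ideal.mul_mem_right _ _ haI))
    convert this using 2
    have e : -((a - algebraMap 𝒪 A α) * (a + algebraMap 𝒪 A α)) =
        algebraMap 𝒪 A (α ^ 2) - a * a := by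
      rw [map_pow]
      ring
    rw [e]
    simp only [Subalgebra.coe_sub, Subalgebra.coe_mul, hcoe_alg, sub_smul, one_smul]
    abel
  · have := hIbij (1 - β ^ 2) (-((b - algebraMap 𝒪 A β) * (b + algebraMap 𝒪 A β))) hβ
      (neg_mem (Ideal.mul_mem_right _ _ hbI))
    convert this using 2
    have e : -((b - algebraMap 𝒪 A β) * (b + algebraMap 𝒪 A β)) =
        algebraMap 𝒪 A (β ^ 2) - b * b := by
      rw [map_pow]
      ring
    rw [e]
    simp only [Subalgebra.coe_sub, Subalgebra.coe_mul, hcoe_alg, sub_smul, one_smul]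
    abel
  · -- `b - α = (β - α) + (b - β)`
    have hu : IsUnit (β - α) := by
      have : β - α = -(α - β) := by ring
      rw [this]
      exact hαβ.neg
    have := hIbij (β - α) (b - algebraMap 𝒪 A β) hu hbI
    convert this using 2
    simp only [Subalgebra.coe_sub, hcoe_alg, sub_smul]
    abel
  · have := hIbij (α - β) (a - algebraMap 𝒪 A α) hαβ haI
    convert this using 2
    simp only [Subalgebra.coe_sub, hcoe_alg, sub_smul]
    abel

end

end Fermat.Agent.S59.H105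

end
-- ===== PACK-END S59/H105/HenselOp.lean

-- ===== PACK-BEGIN S59/H307/GlueRep.lean
section




/-!
# S59 / layer G4, piece GLUE (helper307): dictionary `GaloisRepAdic` ↔ `2 × 2` matrices

* `Realizes ρ e m` : in the coordinates `e : ρ.V ≃ₗ (Fin 2 → A)` the representation `ρ` is given
  by the matrices `m σ`.
* `exists_realizes`, `Realizes.conj`, `Realizes.trace_eq`, `Realizes.charpoly_eq`.
* `Realizes.exists_isUnit_of_irreducible` : residual irreducibility gives unit off-diagonal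
  entries.
* `ofMat M hM` : the `GaloisRepAdic` on `Fin 2 → A` defined by an entrywise continuous matrix
  representation; `baseChange_ofMat_isEquiv`.
-/

set_option autoImplicit false
set_option linter.unusedSectionVars false
set_option linter.unusedVariables false
set_option linter.unusedSimpArgs false

noncomputable section

namespace Fermat.Agent.S59.H307

open scoped TensorProduct
open Matrix Polynomial

/-- `Gal(ℚ̄/ℚ)`. -/
abbrev GalQ : Type := AlgebraicClosure ℚ ≃ₐ[ℚ] AlgebraicClosure ℚ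

section Coord

variable {A : Type*} [CommRing A]

theorem mem_smul_top_of_forall_mem (I : Ideal A) (w : Fin 2 → A) (hw : ∀ j, w j ∈ I) :
    w ∈ I • (⊤ : Submodule A (Fin 2 → A)) := by
  have h := (Pi.basisFun A (Fin 2)).sum_repr w
  rw [← h]
  refine Submodule.sum_mem _ fun j _ => ?_
  refine Submodule.smul_mem_smul ?_ Submodule.mem_top
  rw [Pi.basisFun_repr]
  exact hw j

theorem forall_mem_of_mem_smul_top (I : Ideal A) (w : Fin 2 → A)
    (hw : w ∈ I • (⊤ : Submodule A (Fin 2 → A))) (j : Fin 2) : w j ∈ I := by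
  refine Submodule.smul_induction_on (p := fun x => x j ∈ I) hw ?_ ?_
  · intro a ha v _
    rw [Pi.smul_apply, smul_eq_mul]
    exact I.mul_mem_right _ ha
  · intro x y hx hy
    rw [Pi.add_apply]
    exact I.add_mem hx hy

theorem mul_entries_mem (I : Ideal A) (X Y : Matrix (Fin 2) (Fin 2) A)
    (hX : ∀ j k, X j k ∈ I) (j k : Fin 2) : (Y * X) j k ∈ I := by
  rw [mat2_mul_apply]
  exact I.add_mem (I.mul_mem_left _ (hX _ _)) (I.mul_mem_left _ (hX _ _))

theorem entries_mul_mem (I : Ideal A) (X Y : Matrix (Fin 2) (Fin 2) A)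
    (hX : ∀ j k, X j k ∈ I) (j k : Fin 2) : (X * Y) j k ∈ I := by
  rw [mat2_mul_apply]
  exact I.add_mem (I.mul_mem_right _ (hX _ _)) (I.mul_mem_right _ (hX _ _))

end Coord

section Realize

variable {A : Type} [CommRing A] [IsLocalRing A]

/-- In the coordinates `e`, the representation `ρ` is given by the matrices `m σ`. -/
def Realizes (ρ : GaloisRepAdic A) (e : ρ.V ≃ₗ[A] (Fin 2 → A))
    (m : GalQ → Matrix (Fin 2) (Fin 2) A) : Prop :=
  ∀ (σ : GalQ) (v : ρ.V), e (ρ.ρ σ v) = m σ *ᵥ e v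

theorem exists_realizes (ρ : GaloisRepAdic A) :
    ∃ (e : ρ.V ≃ₗ[A] (Fin 2 → A)) (m : GalQ →* Matrix (Fin 2) (Fin 2) A), Realizes ρ e m := by
  classical
  let b : Module.Basis (Fin 2) A ρ.V := Module.finBasisOfFinrankEq A ρ.V ρ.finrank_eq
  refine ⟨b.equivFun,
    { toFun := fun σ => LinearMap.toMatrix b b (ρ.ρ σ)
      map_one' := by rw [map_one]; exact LinearMap.toMatrix_one b
      map_mul' := fun σ σ' => by rw [map_mul]; exact LinearMap.toMatrix_mul b _ _ }, ?_⟩
  intro σ v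
  exact (LinearMap.toMatrix_mulVec_repr b b (ρ.ρ σ) v).symm

variable {ρ : GaloisRepAdic A} {e : ρ.V ≃ₗ[A] (Fin 2 → A)}
  {m : GalQ → Matrix (Fin 2) (Fin 2) A}

theorem toLin'OfInv_eq_mulVec {P Q : Matrix (Fin 2) (Fin 2) A}
    (hPQ : P * Q = 1) (hQP : Q * P = 1) (w : Fin 2 → A) :
    Matrix.toLin'OfInv hPQ hQP w = Q *ᵥ w := by
  ext j
  rw [Matrix.toLin'OfInv_apply, Matrix.toLin'_apply]

theorem toLin'OfInv_symm_eq_mulVec {P Q : Matrix (Fin 2) (Fin 2) A}
    (hPQ : P * Q = 1) (hQP : Q * P = 1) (w : Fin 2 → A) :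
    (Matrix.toLin'OfInv hPQ hQP).symm w = P *ᵥ w := by
  ext j
  rw [Matrix.toLin'OfInv_symm_apply, Matrix.toLin'_apply]

theorem Realizes.conj (h : Realizes ρ e m) {P Q : Matrix (Fin 2) (Fin 2) A}
    (hPQ : P * Q = 1) (hQP : Q * P = 1) :
    Realizes ρ (e.trans (Matrix.toLin'OfInv hPQ hQP)) (fun σ => Q * m σ * P) := by
  intro σ v
  rw [LinearEquiv.trans_apply, LinearEquiv.trans_apply, toLin'OfInv_eq_mulVec,
    toLin'OfInv_eq_mulVec, h σ v]
  show Q *ᵥ m σ *ᵥ e v = (Q * m σ * P) *ᵥ Q *ᵥ e v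
  rw [Matrix.mulVec_mulVec, Matrix.mulVec_mulVec, Matrix.mul_assoc (Q * m σ), hPQ, Matrix.mul_one]

theorem Realizes.conj_eq (h : Realizes ρ e m) (σ : GalQ) :
    e.conj (ρ.ρ σ) = Matrix.toLin' (m σ) := by
  apply LinearMap.ext
  intro w
  rw [LinearEquiv.conj_apply_apply, h σ, LinearEquiv.apply_symm_apply, Matrix.toLin'_apply]

theorem Realizes.trace_eq (h : Realizes ρ e m) (σ : GalQ) : ρ.trace σ = (m σ).trace := by
  unfold GaloisRepAdic.trace
  rw [← LinearMap.trace_conj' (ρ.ρ σ) e, h.conj_eq, Matrix.trace_toLin'_eq]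

theorem Realizes.charpoly_eq (h : Realizes ρ e m) (σ : GalQ) :
    LinearMap.charpoly (ρ.ρ σ) = X ^ 2 - C (m σ).trace * X + C (m σ).det := by
  rw [← LinearEquiv.charpoly_conj e, h.conj_eq, Matrix.charpoly_toLin', Matrix.charpoly_fin_two]

/-- Image of the `k`-th coordinate vector. -/
theorem Realizes.apply_symm_single (h : Realizes ρ e m) (σ : GalQ) (k : Fin 2) :
    e (ρ.ρ σ (e.symm (Pi.single k 1))) = fun j => m σ j k := by
  rw [h σ, LinearEquiv.apply_symm_apply, Matrix.mulVec_single_one]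
  rfl

/-- Residual irreducibility: the upper right entry takes a unit value. -/
theorem Realizes.exists_isUnit_01 (h : Realizes ρ e m) (hirr : ρ.residual.IsIrreducible) :
    ∃ σ, IsUnit (m σ 0 1) := by
  classical
  by_contra hcon
  rw [not_exists] at hcon
  have hirr' : ∀ W : Submodule (IsLocalRing.ResidueField A)
      (IsLocalRing.ResidueField A ⊗[A] ρ.V),
      (∀ σ : GalQ, ∀ x ∈ W, (ρ.ρ σ).baseChange (IsLocalRing.ResidueField A) x ∈ W) →
        W = ⊥ ∨ W = ⊤ := hirr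
  let b : Module.Basis (Fin 2) A ρ.V := Module.Basis.ofEquivFun e
  let bk : Module.Basis (Fin 2) (IsLocalRing.ResidueField A)
    (IsLocalRing.ResidueField A ⊗[A] ρ.V) := b.baseChange (IsLocalRing.ResidueField A)
  have hb : ∀ j, b j = e.symm (Pi.single j 1) := fun j => by
    rw [Module.Basis.coe_ofEquivFun]
  have hbk : ∀ j, bk j = (1 : IsLocalRing.ResidueField A) ⊗ₜ[A] b j :=
    fun j => Module.Basis.baseChange_apply _ _ _
  have hact : ∀ σ, ρ.ρ σ (b 1) = m σ 0 1 • b 0 + m σ 1 1 • b 1 := by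
    intro σ
    apply e.injective
    rw [hb 1, h.apply_symm_single, map_add, map_smul, map_smul, hb 0,
      LinearEquiv.apply_symm_apply, LinearEquiv.apply_symm_apply]
    ext j
    fin_cases j <;> simp
  have hsm : ∀ (a : A) (w : ρ.V), (1 : IsLocalRing.ResidueField A) ⊗ₜ[A] (a • w) =
      IsLocalRing.residue A a • ((1 : IsLocalRing.ResidueField A) ⊗ₜ[A] w) := by
    intro a w
    rw [TensorProduct.tmul_smul, TensorProduct.smul_tmul', TensorProduct.smul_tmul',
      Algebra.smul_def, IsLocalRing.ResidueField.algebraMap_eq, smul_eq_mul]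
  have hres : ∀ σ, (ρ.ρ σ).baseChange (IsLocalRing.ResidueField A) (bk 1) =
      IsLocalRing.residue A (m σ 1 1) • bk 1 := by
    intro σ
    rw [hbk 1, LinearMap.baseChange_tmul, hact σ, TensorProduct.tmul_add, hsm, hsm,
      (IsLocalRing.residue_eq_zero_iff (m σ 0 1)).mpr (hcon σ), zero_smul, zero_add]
  have hW := hirr' (Submodule.span (IsLocalRing.ResidueField A) {bk 1}) (by
    intro σ x hx
    obtain ⟨a, rfl⟩ := Submodule.mem_span_singleton.mp hx
    rw [map_smul, hres σ, smul_smul]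
    exact Submodule.smul_mem _ _ (Submodule.mem_span_singleton_self _))
  rcases hW with hW | hW
  · have h1 : bk 1 ∈ Submodule.span (IsLocalRing.ResidueField A) {bk 1} :=
      Submodule.mem_span_singleton_self _
    rw [hW] at h1
    exact bk.ne_zero 1 ((Submodule.mem_bot _).mp h1)
  · have h0 : bk 0 ∈ Submodule.span (IsLocalRing.ResidueField A) {bk 1} := by
      rw [hW]; exact Submodule.mem_top
    obtain ⟨a, ha⟩ := Submodule.mem_span_singleton.mp h0
    have h2 := congrArg (fun x => bk.repr x 0) ha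
    simp at h2

theorem swap_mul_swap : (!![0, 1; 1, 0] : Matrix (Fin 2) (Fin 2) A) * !![0, 1; 1, 0] = 1 := by
  apply mat2_ext <;> simp only [mat2_mul_apply, mat2_of_00, mat2_of_01, mat2_of_10, mat2_of_11,
    mat2_one_00, mat2_one_01, mat2_one_10, mat2_one_11] <;> ring

/-- Residual irreducibility: the lower left entry takes a unit value. -/
theorem Realizes.exists_isUnit_10 (h : Realizes ρ e m) (hirr : ρ.residual.IsIrreducible) :
    ∃ σ, IsUnit (m σ 1 0) := by
  obtain ⟨σ, hσ⟩ := (h.conj swap_mul_swap swap_mul_swap).exists_isUnit_01 hirr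
  refine ⟨σ, ?_⟩
  have : (!![0, 1; 1, 0] * m σ * !![0, 1; 1, 0] : Matrix (Fin 2) (Fin 2) A) 0 1 = m σ 1 0 := by
    simp only [mat2_mul_apply, mat2_of_00, mat2_of_01, mat2_of_10, mat2_of_11]; ring
  rw [← this]; exact hσ

end Realize

section OfMat

variable {A : Type} [CommRing A] [IsLocalRing A]

/-- Entrywise adic continuity of a matrix-valued function on `Gal(ℚ̄/ℚ)`. -/
def EntrywiseContinuous (m : GalQ → Matrix (Fin 2) (Fin 2) A) : Prop :=
  ∀ n : ℕ, ∃ L : IntermediateField ℚ (AlgebraicClosure ℚ), FiniteDimensional ℚ L ∧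
    ∀ σ : GalQ, (∀ x ∈ L, σ x = x) →
      ∀ j k, (m σ - 1) j k ∈ IsLocalRing.maximalIdeal A ^ n

theorem Realizes.entrywiseContinuous {ρ : GaloisRepAdic A} {e : ρ.V ≃ₗ[A] (Fin 2 → A)}
    {m : GalQ → Matrix (Fin 2) (Fin 2) A} (h : Realizes ρ e m) : EntrywiseContinuous m := by
  intro n
  obtain ⟨L, hL, hcont⟩ := ρ.isAdicContinuous n
  refine ⟨L, hL, fun σ hσ j k => ?_⟩
  have hmem := hcont σ hσ (e.symm (Pi.single k 1))
  have hkey : ∀ x ∈ (IsLocalRing.maximalIdeal A ^ n) • (⊤ : Submodule A ρ.V),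
      e x j ∈ IsLocalRing.maximalIdeal A ^ n := by
    intro x hx
    refine Submodule.smul_induction_on (p := fun x => e x j ∈ IsLocalRing.maximalIdeal A ^ n)
      hx ?_ ?_
    · intro a ha v _
      rw [map_smul, Pi.smul_apply, smul_eq_mul]
      exact Ideal.mul_mem_right _ _ ha
    · intro x y hx hy
      rw [map_add, Pi.add_apply]
      exact Ideal.add_mem _ hx hy
  have := hkey _ hmem
  rw [map_sub, h.apply_symm_single, LinearEquiv.apply_symm_apply, Pi.sub_apply] at this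
  rw [Matrix.sub_apply, Matrix.one_apply]
  convert this using 2
  rw [Pi.single_apply]

theorem EntrywiseContinuous.conj {m : GalQ → Matrix (Fin 2) (Fin 2) A}
    (h : EntrywiseContinuous m) {P Q : Matrix (Fin 2) (Fin 2) A} (hQP : Q * P = 1) :
    EntrywiseContinuous (fun σ => Q * m σ * P) := by
  intro n
  obtain ⟨L, hL, hcont⟩ := h n
  refine ⟨L, hL, fun σ hσ j k => ?_⟩
  have : Q * m σ * P - 1 = Q * (m σ - 1) * P := by
    rw [Matrix.mul_sub, Matrix.sub_mul, Matrix.mul_one, hQP]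
  rw [this]
  exact entries_mul_mem _ _ _ (fun j k => mul_entries_mem _ _ _ (hcont σ hσ) j k) j k

/-- The linear action on `Fin 2 → A` defined by a matrix representation. -/
def matRho (M : GalQ →* Matrix (Fin 2) (Fin 2) A) : GalQ →* Module.End A (Fin 2 → A) where
  toFun σ := Matrix.toLin' (M σ)
  map_one' := by rw [map_one, Matrix.toLin'_one]; rfl
  map_mul' σ σ' := by rw [map_mul, Matrix.toLin'_mul]; rfl

theorem matRho_apply (M : GalQ →* Matrix (Fin 2) (Fin 2) A) (σ : GalQ) (v : Fin 2 → A) :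
    matRho M σ v = M σ *ᵥ v := Matrix.toLin'_apply _ _

/-- The `GaloisRepAdic` on `Fin 2 → A` defined by an entrywise continuous matrix
representation. -/
def ofMat (M : GalQ →* Matrix (Fin 2) (Fin 2) A) (hM : EntrywiseContinuous M) :
    GaloisRepAdic A where
  V := Fin 2 → A
  finrank_eq := Module.finrank_fin_fun A
  ρ := matRho M
  isAdicContinuous := by
    intro n
    obtain ⟨L, hL, hcont⟩ := hM n
    refine ⟨L, hL, fun σ hσ v => ?_⟩
    apply mem_smul_top_of_forall_mem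
    intro j
    have : matRho M σ v - v = (M σ - 1) *ᵥ v := by
      rw [matRho_apply, Matrix.sub_mulVec, Matrix.one_mulVec]
    rw [this, Matrix.mulVec, dotProduct, Fin.sum_univ_two]
    exact Ideal.add_mem _ (Ideal.mul_mem_right _ _ (hcont σ hσ _ _))
      (Ideal.mul_mem_right _ _ (hcont σ hσ _ _))

theorem realizes_ofMat (M : GalQ →* Matrix (Fin 2) (Fin 2) A) (hM : EntrywiseContinuous M) :
    Realizes (ofMat M hM) (LinearEquiv.refl A (Fin 2 → A)) M := by
  intro σ v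
  exact matRho_apply M σ v

theorem trace_ofMat (M : GalQ →* Matrix (Fin 2) (Fin 2) A) (hM : EntrywiseContinuous M)
    (σ : GalQ) : (ofMat M hM).trace σ = (M σ).trace :=
  (realizes_ofMat M hM).trace_eq σ

end OfMat

section BaseChange

variable {T O : Type} [CommRing T] [IsLocalRing T] [CommRing O] [IsLocalRing O]

/-- Two representations with the same matrices are equivalent. -/
theorem isEquiv_of_realizes {ρ₁ ρ₂ : GaloisRepAdic O} {e₁ : ρ₁.V ≃ₗ[O] (Fin 2 → O)}
    {e₂ : ρ₂.V ≃ₗ[O] (Fin 2 → O)} {m : GalQ → Matrix (Fin 2) (Fin 2) O}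
    (h₁ : Realizes ρ₁ e₁ m) (h₂ : Realizes ρ₂ e₂ m) : ρ₁.IsEquiv ρ₂ := by
  refine ⟨{ toLinearEquiv := e₁.trans e₂.symm, map_apply := fun σ x => ?_ }⟩
  apply e₂.injective
  rw [LinearEquiv.trans_apply, LinearEquiv.trans_apply, LinearEquiv.apply_symm_apply, h₁ σ x,
    h₂ σ, LinearEquiv.apply_symm_apply]

theorem piScalarRight_baseChange_toLin' {T' O' : Type*} [CommRing T'] [CommRing O']
    [Algebra T' O'] (N : Matrix (Fin 2) (Fin 2) T') (x : O' ⊗[T'] (Fin 2 → T')) :
    TensorProduct.piScalarRight T' O' O' (Fin 2) ((Matrix.toLin' N).baseChange O' x) =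
      (N.map (algebraMap T' O')) *ᵥ TensorProduct.piScalarRight T' O' O' (Fin 2) x := by
  induction x using TensorProduct.induction_on with
  | zero => rw [map_zero, map_zero, Matrix.mulVec_zero]
  | tmul o v =>
    rw [LinearMap.baseChange_tmul, TensorProduct.piScalarRight_apply,
      TensorProduct.piScalarRightHom_tmul, TensorProduct.piScalarRight_apply,
      TensorProduct.piScalarRightHom_tmul, Matrix.toLin'_apply]
    ext j
    simp only [Matrix.mulVec, dotProduct, Fin.sum_univ_two, Matrix.map_apply, Algebra.smul_def,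
      map_add, map_mul]
    ring
  | add x y hx hy =>
    rw [map_add, map_add, map_add, Matrix.mulVec_add, hx, hy]

/-- The base change of `ofMat M` along `ψ` is realised by the matrices `ψ (M σ)`. -/
theorem exists_realizes_baseChange_ofMat (ψ : T →+* O) (hψ : IsLocalHom ψ)
    (M : GalQ →* Matrix (Fin 2) (Fin 2) T) (hM : EntrywiseContinuous M) :
    ∃ e : ((ofMat M hM).baseChangeAlong ψ hψ).V ≃ₗ[O] (Fin 2 → O),
      Realizes ((ofMat M hM).baseChangeAlong ψ hψ) e (fun σ => (M σ).map ψ) := by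
  let _ : Algebra T O := ψ.toAlgebra
  refine ⟨TensorProduct.piScalarRight T O O (Fin 2), ?_⟩
  intro σ x
  exact piScalarRight_baseChange_toLin' (M σ) x

/-- If the matrices of `ρ'` are the images of the `M σ`, then `ρ'` is the base change of
`ofMat M`. -/
theorem baseChange_ofMat_isEquiv (ψ : T →+* O) (hψ : IsLocalHom ψ)
    (M : GalQ →* Matrix (Fin 2) (Fin 2) T) (hM : EntrywiseContinuous M)
    {ρ' : GaloisRepAdic O} {e : ρ'.V ≃ₗ[O] (Fin 2 → O)} {m' : GalQ → Matrix (Fin 2) (Fin 2) O}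
    (h : Realizes ρ' e m') (hMm : ∀ σ, (M σ).map ψ = m' σ) :
    ((ofMat M hM).baseChangeAlong ψ hψ).IsEquiv ρ' := by
  obtain ⟨e₁, h₁⟩ := exists_realizes_baseChange_ofMat ψ hψ M hM
  have : (fun σ => (M σ).map ψ) = m' := funext hMm
  rw [this] at h₁
  exact isEquiv_of_realizes h₁ h

end BaseChange

end Fermat.Agent.S59.H307

end
end
-- ===== PACK-END S59/H307/GlueRep.lean

-- ===== PACK-BEGIN S59/G4/H109/Res2Alg.lean
section



/-!
# Row S59, layer G4, piece RES2 — linear algebra core (helper109)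

For a family `B : Fin 2 × Fin 2 → M₂(R)` of four `2 × 2` matrices we compare

* the coefficient matrix `coeffMat B` (rows = the matrices, flattened) and
* the Gram matrix `gramMat B = (tr (B a * B c))` of the trace form.

`gramMat B = coeffMat B * (coeffMat B with columns swapped)ᵀ`, hence `det (gramMat B)` is a unit
iff `det (coeffMat B)` is.  The Gram matrix only depends on the traces, so "the four matrices form
a basis of `M₂`" is a property of the trace function alone.  A family of endomorphisms of a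
2-dimensional space containing such a basis has no nontrivial invariant subspace.
-/

set_option autoImplicit false

namespace Fermat.Agent.S59.G4.H109

open Matrix

section Coeff

variable {R : Type*} [CommRing R]

/-- The coefficient matrix of a family of `2 × 2` matrices indexed by `Fin 2 × Fin 2`. -/
def coeffMat (B : Fin 2 × Fin 2 → Matrix (Fin 2) (Fin 2) R) :
    Matrix (Fin 2 × Fin 2) (Fin 2 × Fin 2) R :=
  Matrix.of fun a b => B a b.1 b.2

/-- The Gram matrix of the trace form on a family of `2 × 2` matrices. -/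
def gramMat (B : Fin 2 × Fin 2 → Matrix (Fin 2) (Fin 2) R) :
    Matrix (Fin 2 × Fin 2) (Fin 2 × Fin 2) R :=
  Matrix.of fun a c => Matrix.trace (B a * B c)

theorem gramMat_eq (B : Fin 2 × Fin 2 → Matrix (Fin 2) (Fin 2) R) :
    gramMat B = coeffMat B * ((coeffMat B).submatrix id (Equiv.prodComm (Fin 2) (Fin 2)))ᵀ := by
  ext a c
  simp only [gramMat, coeffMat, Matrix.of_apply, Matrix.trace, Matrix.diag, Matrix.mul_apply,
    Matrix.transpose_apply, Matrix.submatrix_apply, id_eq, Equiv.prodComm_apply, Prod.fst_swap,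
    Prod.snd_swap]
  rw [Fintype.sum_prod_type]

theorem det_gramMat (B : Fin 2 × Fin 2 → Matrix (Fin 2) (Fin 2) R) :
    (gramMat B).det
      = ((Equiv.Perm.sign (Equiv.prodComm (Fin 2) (Fin 2)) : ℤˣ) : ℤ) *
        ((coeffMat B).det * (coeffMat B).det) := by
  rw [gramMat_eq, Matrix.det_mul, Matrix.det_transpose, Matrix.det_permute']
  ring

theorem isUnit_det_coeffMat_iff (B : Fin 2 × Fin 2 → Matrix (Fin 2) (Fin 2) R) :
    IsUnit (coeffMat B).det ↔ IsUnit (gramMat B).det := by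
  rw [det_gramMat]
  have hu : IsUnit (((Equiv.Perm.sign (Equiv.prodComm (Fin 2) (Fin 2)) : ℤˣ) : ℤ) : R) :=
    ((Equiv.Perm.sign (Equiv.prodComm (Fin 2) (Fin 2))).isUnit.map (Int.castRingHom R))
  constructor
  · intro h
    exact hu.mul (h.mul h)
  · intro h
    have h2 : IsUnit ((coeffMat B).det * (coeffMat B).det) := (IsUnit.mul_iff.mp h).2
    exact (IsUnit.mul_iff.mp h2).1

/-- The Gram matrix commutes with ring homomorphisms. -/
theorem gramMat_map {R' : Type*} [CommRing R'] (φ : R →+* R')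
    (B : Fin 2 × Fin 2 → Matrix (Fin 2) (Fin 2) R) :
    gramMat (fun a => (B a).map φ) = (gramMat B).map φ := by
  ext a c
  simp only [gramMat, Matrix.of_apply, Matrix.map_apply]
  rw [← Matrix.map_mul, Matrix.trace, Matrix.trace]
  simp only [Matrix.diag_apply, Matrix.map_apply, map_sum]

theorem coeffMat_map {R' : Type*} [CommRing R'] (φ : R →+* R')
    (B : Fin 2 × Fin 2 → Matrix (Fin 2) (Fin 2) R) :
    coeffMat (fun a => (B a).map φ) = (coeffMat B).map φ := by
  ext a c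
  simp only [coeffMat, Matrix.of_apply, Matrix.map_apply]

/-- If the coefficient matrix of `B` is invertible, the four matrices `B a` span `M₂(R)`. -/
theorem mem_span_range_of_isUnit (B : Fin 2 × Fin 2 → Matrix (Fin 2) (Fin 2) R)
    (h : IsUnit (coeffMat B).det) (M : Matrix (Fin 2) (Fin 2) R) :
    ∃ c : Fin 2 × Fin 2 → R, M = ∑ a, c a • B a := by
  classical
  have hP : IsUnit (coeffMat B) := (Matrix.isUnit_iff_isUnit_det _).mpr h
  obtain ⟨u, hu⟩ := hP
  set Q : Matrix (Fin 2 × Fin 2) (Fin 2 × Fin 2) R := ↑(u⁻¹) with hQ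
  have hQP : Q * coeffMat B = 1 := by
    rw [hQ, ← hu]
    exact Units.inv_mul u
  set m : Fin 2 × Fin 2 → R := fun b => M b.1 b.2 with hm
  refine ⟨m ᵥ* Q, ?_⟩
  ext i j
  have h1 : (m ᵥ* Q) ᵥ* coeffMat B = m := by
    rw [Matrix.vecMul_vecMul, hQP, Matrix.vecMul_one]
  have h2 := congrFun h1 (i, j)
  simp only [Matrix.vecMul, dotProduct, coeffMat, Matrix.of_apply, hm] at h2
  rw [Matrix.sum_apply]
  simp only [Matrix.smul_apply, smul_eq_mul]
  exact h2.symm

end Coeff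

section Irr

variable {K : Type*} [Field K] {V : Type*} [AddCommGroup V] [Module K V]

/-- A family of endomorphisms of a 2-dimensional space which contains four elements with
invertible coefficient matrix has no nontrivial invariant subspace. -/
theorem eq_bot_or_eq_top_of_isUnit (b : Module.Basis (Fin 2) K V) {G : Type*}
    (r : G → Module.End K V) (f : Fin 2 × Fin 2 → G)
    (hP : IsUnit (coeffMat fun a => LinearMap.toMatrix b b (r (f a))).det)
    (W : Submodule K V) (hW : ∀ g, ∀ x ∈ W, r g x ∈ W) : W = ⊥ ∨ W = ⊤ := by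
  classical
  -- every endomorphism preserves `W`
  have hall : ∀ T : Module.End K V, ∀ x ∈ W, T x ∈ W := by
    intro T x hx
    obtain ⟨c, hc⟩ := mem_span_range_of_isUnit _ hP (LinearMap.toMatrix b b T)
    have hT : T = ∑ a, c a • r (f a) := by
      apply (LinearMap.toMatrix b b).injective
      rw [hc, map_sum]
      refine Finset.sum_congr rfl fun a _ => ?_
      rw [map_smul]
    rw [hT, LinearMap.sum_apply]
    refine Submodule.sum_mem _ fun a _ => ?_
    rw [LinearMap.smul_apply]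
    exact W.smul_mem _ (hW (f a) x hx)
  by_cases hbot : W = ⊥
  · exact Or.inl hbot
  right
  obtain ⟨w, hwW, hw0⟩ := (Submodule.ne_bot_iff W).mp hbot
  -- a coordinate of `w` is nonzero
  obtain ⟨i, hi⟩ : ∃ i, b.repr w i ≠ 0 := by
    by_contra hcon
    apply hw0
    apply b.repr.injective
    ext i
    rw [map_zero, Finsupp.zero_apply]
    by_contra hi
    exact hcon ⟨i, hi⟩
  rw [eq_top_iff]
  intro v _
  have h := hall ((b.coord i).smulRight v) w hwW
  rw [LinearMap.smulRight_apply, Module.Basis.coord_apply] at h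
  have := W.smul_mem (b.repr w i)⁻¹ h
  rwa [smul_smul, inv_mul_cancel₀ hi, one_smul] at this

/-- The trace of an endomorphism of a 2-dimensional space from its characteristic polynomial. -/
theorem trace_eq_neg_coeff_charpoly [Module.Finite K V] [Module.Free K V]
    (b : Module.Basis (Fin 2) K V) (T : Module.End K V) :
    LinearMap.trace K V T = - (LinearMap.charpoly T).coeff 1 := by
  classical
  rw [LinearMap.trace_eq_matrix_trace K b, Matrix.trace_eq_neg_charpoly_coeff,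
    LinearMap.charpoly_toMatrix]
  simp

end Irr

end Fermat.Agent.S59.G4.H109

end
-- ===== PACK-END S59/G4/H109/Res2Alg.lean

-- ===== PACK-BEGIN A3/H799/Root.lean
section



/-!
# A3 / LOCAL — the root lemma  (helper799)

`A` local ring, `T` finite, `Λ ≤ (T → A)` an `A`-algebra of functions, `𝒪` a disc algebra.
Let `W_τ = Σ_j v_j(τ) f_j ∈ 𝒪` be a family of disc functions with fixed `f_j ∈ 𝒪` and coefficients
`v_j ∈ Λ`.  If, for every `τ`,

  `W_τ = ∏_{y ∈ ys} (t - y(τ)) * (t - c(τ)) * u_τ`,   `u_τ(c(τ))` a unit,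

with known roots `ys ⊆ Λ` (values in `𝔪`), then the remaining root `c : T → 𝔪` lies in `Λ`.
(`root_mem`.)  This is "Weierstrass preparation + Hensel" for algebraic families, with no
completeness and no power series.
-/

set_option autoImplicit false

namespace Fermat.Agent.A3.H799

open Polynomial

section EvAt

variable {A : Type*} [CommRing A] {T : Type*}

/-- Evaluation of a function in `Λ` at a parameter value `τ`. -/
def evAt (Λ : Subalgebra A (T → A)) (τ : T) : Λ →ₐ[A] A :=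
  (Pi.evalAlgHom A (fun _ : T => A) τ).comp Λ.val

@[simp] theorem evAt_apply (Λ : Subalgebra A (T → A)) (τ : T) (x : Λ) :
    evAt Λ τ x = (x : T → A) τ := rfl

theorem ext_evAt {Λ : Subalgebra A (T → A)} {x y : Λ} (h : ∀ τ, evAt Λ τ x = evAt Λ τ y) :
    x = y := Subtype.ext (funext h)

/-- Polynomials over `Λ` are determined by their specialisations. -/
theorem poly_ext_evAt {Λ : Subalgebra A (T → A)} {P Q : Λ[X]}
    (h : ∀ τ, P.map (evAt Λ τ : Λ →+* A) = Q.map (evAt Λ τ : Λ →+* A)) : P = Q := by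
  ext n : 1
  refine ext_evAt fun τ => ?_
  have := congrArg (fun p => p.coeff n) (h τ)
  simpa using this

/-- Pointwise value of `aeval y P`. -/
theorem aeval_apply_eq (Λ : Subalgebra A (T → A)) (P : Λ[X]) (y : T → A) (τ : T) :
    (aeval y P) τ = (P.map (evAt Λ τ : Λ →+* A)).eval (y τ) := by
  have h1 : (aeval y P) τ = (Pi.evalRingHom (fun _ : T => A) τ) (eval₂ (algebraMap Λ (T → A)) y P) :=
    rfl
  rw [h1, Polynomial.hom_eval₂, eval_map]
  rfl

end EvAt

section Root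

variable {A : Type*} [CommRing A] [IsLocalRing A] {T : Type*} [Finite T]
variable {𝒪 : Type*} [CommRing 𝒪] [Algebra A 𝒪]

/-- The value at `τ` of a `Λ`-point of the disc. -/
def ptAt (Λ : Subalgebra A (T → A)) (τ : T) (y : radIdeal Λ) : IsLocalRing.maximalIdeal A :=
  ⟨((y : Λ) : T → A) τ, y.2 τ⟩

omit [Finite T] in
@[simp] theorem coe_ptAt (Λ : Subalgebra A (T → A)) (τ : T) (y : radIdeal Λ) :
    ((ptAt Λ τ y : IsLocalRing.maximalIdeal A) : A) = ((y : Λ) : T → A) τ := rfl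

/-- The monic polynomial `∏ (X - y)` over `Λ` attached to a list of `Λ`-points. -/
noncomputable def nodalΛ (Λ : Subalgebra A (T → A)) (ys : List (radIdeal Λ)) : Λ[X] :=
  (ys.map fun y => X - C (y : Λ)).prod

omit [Finite T] in
theorem nodalΛ_monic (Λ : Subalgebra A (T → A)) (ys : List (radIdeal Λ)) :
    (nodalΛ Λ ys).Monic := by
  induction ys with
  | nil => simp [nodalΛ]
  | cons a l ih =>
    have : nodalΛ Λ (a :: l) = (X - C (a : Λ)) * nodalΛ Λ l := by simp [nodalΛ]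
    rw [this]; exact (monic_X_sub_C _).mul ih

omit [Finite T] in
theorem map_nodalΛ (Λ : Subalgebra A (T → A)) (ys : List (radIdeal Λ)) (τ : T) :
    (nodalΛ Λ ys).map (evAt Λ τ : Λ →+* A) = DiscAlg.nodal (ys.map (ptAt Λ τ)) := by
  induction ys with
  | nil => simp [nodalΛ]
  | cons a l ih =>
    have h1 : nodalΛ Λ (a :: l) = (X - C (a : Λ)) * nodalΛ Λ l := by simp [nodalΛ]
    rw [h1, Polynomial.map_mul, ih, List.map_cons, DiscAlg.nodal_cons]
    simp

/-- Auxiliary: the list of all nodes `∏_τ (ys(τ) ++ [c τ, c τ])`. -/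
private noncomputable def allNodes (Λ : Subalgebra A (T → A)) (ys : List (radIdeal Λ))
    (c : T → IsLocalRing.maximalIdeal A) (ts : List T) : List (IsLocalRing.maximalIdeal A) :=
  ts.flatMap fun τ => ys.map (ptAt Λ τ) ++ [c τ, c τ]

omit [Finite T] in
private theorem nodal_allNodes_dvd (Λ : Subalgebra A (T → A)) (ys : List (radIdeal Λ))
    (c : T → IsLocalRing.maximalIdeal A) (ts : List T) (τ : T) (hτ : τ ∈ ts) :
    ∃ R : A[X], DiscAlg.nodal (allNodes Λ ys c ts) =
      DiscAlg.nodal (ys.map (ptAt Λ τ) ++ [c τ]) * (X - C ((c τ : IsLocalRing.maximalIdeal A) : A))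
        * R := by
  induction ts with
  | nil => simp at hτ
  | cons σ ts ih =>
    have hcons : allNodes Λ ys c (σ :: ts) =
        (ys.map (ptAt Λ σ) ++ [c σ, c σ]) ++ allNodes Λ ys c ts := by
      simp [allNodes]
    rw [hcons, DiscAlg.nodal_append]
    rcases List.mem_cons.mp hτ with h | h
    · subst h
      refine ⟨DiscAlg.nodal (allNodes Λ ys c ts), ?_⟩
      have : ys.map (ptAt Λ τ) ++ [c τ, c τ] = (ys.map (ptAt Λ τ) ++ [c τ]) ++ [c τ] := by simp
      rw [this, DiscAlg.nodal_append_singleton]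
    · obtain ⟨R, hR⟩ := ih h
      refine ⟨DiscAlg.nodal (ys.map (ptAt Λ σ) ++ [c σ, c σ]) * R, ?_⟩
      rw [hR]; ring

/-- **Root lemma.**  See the module docstring. -/
theorem root_mem (Λ : Subalgebra A (T → A)) (D : DiscAlg A 𝒪) {κ : Type*} [Fintype κ]
    (f : κ → 𝒪) (v : κ → Λ) (ys : List (radIdeal Λ)) (c : T → IsLocalRing.maximalIdeal A)
    (hW : ∀ τ, ∃ u : 𝒪, IsUnit (D.ev (c τ) u) ∧
      ∑ j, ((v j : Λ) : T → A) τ • f j =
        aeval D.t (DiscAlg.nodal (ys.map (ptAt Λ τ))) *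
          (D.t - algebraMap A 𝒪 ((c τ : IsLocalRing.maximalIdeal A) : A)) * u) :
    (fun τ => ((c τ : IsLocalRing.maximalIdeal A) : A)) ∈ Λ := by
  classical
  have : Fintype T := Fintype.ofFinite T
  set ts : List T := (Finset.univ : Finset T).toList with hts
  have hmem : ∀ τ, τ ∈ ts := fun τ => by simp [hts]
  set S := allNodes Λ ys c ts with hS
  -- interpolation of the `f j`
  choose p h hp using fun j => D.exists_interp S (f j)
  -- the polynomial with coefficients in `Λ`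
  set Φ : Λ[X] := ∑ j, C (v j) * (p j).map (algebraMap A Λ) with hΦ
  set G : Λ[X] := nodalΛ Λ ys with hG
  have hGm : G.Monic := nodalΛ_monic Λ ys
  set Φ₂ : Λ[X] := Φ /ₘ G with hΦ₂
  -- pointwise factorisation of `Φ`
  have hΦτ : ∀ τ, Φ.map (evAt Λ τ : Λ →+* A) = ∑ j, C (((v j : Λ) : T → A) τ) * p j := by
    intro τ
    rw [hΦ, Polynomial.map_sum]
    refine Finset.sum_congr rfl fun j _ => ?_
    rw [Polynomial.map_mul, Polynomial.map_C, Polynomial.map_map]
    have : ((evAt Λ τ : Λ →+* A).comp (algebraMap A Λ)) = RingHom.id A := by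
      ext a; simp
    rw [this, Polynomial.map_id]
    rfl
  have hfac : ∀ τ, ∃ q : A[X], IsUnit (q.eval ((c τ : IsLocalRing.maximalIdeal A) : A)) ∧
      Φ.map (evAt Λ τ : Λ →+* A) =
        DiscAlg.nodal (ys.map (ptAt Λ τ)) * ((X - C ((c τ : IsLocalRing.maximalIdeal A) : A)) * q) := by
    intro τ
    obtain ⟨u, hu, hWτ⟩ := hW τ
    obtain ⟨R, hR⟩ := nodal_allNodes_dvd Λ ys c ts τ (hmem τ)
    -- aeval of Φ_τ
    have h1 : aeval D.t (Φ.map (evAt Λ τ : Λ →+* A)) =
        ∑ j, ((v j : Λ) : T → A) τ • f j -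
          aeval D.t (DiscAlg.nodal S) * ∑ j, ((v j : Λ) : T → A) τ • h j := by
      rw [hΦτ τ, map_sum, Finset.mul_sum, ← Finset.sum_sub_distrib]
      refine Finset.sum_congr rfl fun j _ => ?_
      rw [map_mul, aeval_C, hp j, Algebra.smul_def, Algebra.smul_def]
      ring
    set u' : 𝒪 := u - (D.t - algebraMap A 𝒪 ((c τ : IsLocalRing.maximalIdeal A) : A)) *
        (aeval D.t R * ∑ j, ((v j : Λ) : T → A) τ • h j) with hu'
    have hR' : aeval D.t (DiscAlg.nodal S) =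
        aeval D.t (DiscAlg.nodal (ys.map (ptAt Λ τ))) *
          (D.t - algebraMap A 𝒪 ((c τ : IsLocalRing.maximalIdeal A) : A)) *
          (D.t - algebraMap A 𝒪 ((c τ : IsLocalRing.maximalIdeal A) : A)) * aeval D.t R := by
      rw [hS, hR, DiscAlg.nodal_append_singleton]
      simp only [map_mul, map_sub, aeval_X, aeval_C]
    have h2 : aeval D.t (Φ.map (evAt Λ τ : Λ →+* A)) =
        aeval D.t (DiscAlg.nodal (ys.map (ptAt Λ τ) ++ [c τ])) * u' := by
      rw [h1, hWτ, hR', DiscAlg.nodal_append_singleton, hu']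
      simp only [map_mul, map_sub, aeval_X, aeval_C]
      ring
    obtain ⟨q, hq⟩ := D.nodal_dvd_of_aeval _ _ _ h2
    refine ⟨q, ?_, ?_⟩
    · -- q(t) = u'
      have h3 : aeval D.t (DiscAlg.nodal (ys.map (ptAt Λ τ) ++ [c τ])) * (aeval D.t q - u') = 0 := by
        rw [mul_sub, ← h2, hq, map_mul]; ring
      have h4 : aeval D.t q = u' := sub_eq_zero.mp (D.nodal_cancel _ _ h3)
      have h5 : q.eval ((c τ : IsLocalRing.maximalIdeal A) : A) = D.ev (c τ) u := by
        rw [← D.ev_aeval, h4, hu', map_sub, map_mul, map_sub, D.ev_t]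
        simp
      rw [h5]; exact hu
    · rw [hq, DiscAlg.nodal_append_singleton]
      ring
  -- specialisation of Φ₂
  have hΦ₂τ : ∀ τ, ∃ q : A[X], IsUnit (q.eval ((c τ : IsLocalRing.maximalIdeal A) : A)) ∧
      Φ₂.map (evAt Λ τ : Λ →+* A) = (X - C ((c τ : IsLocalRing.maximalIdeal A) : A)) * q := by
    intro τ
    obtain ⟨q, hq, hfac'⟩ := hfac τ
    refine ⟨q, hq, ?_⟩
    rw [hΦ₂, Polynomial.map_divByMonic _ hGm, hfac', hG, map_nodalΛ]
    exact Polynomial.mul_divByMonic_cancel_left _ (DiscAlg.nodal_monic _)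
  -- apply Hensel
  refine hensel_mem Λ Φ₂ _ (fun τ => (c τ).2) ?_ ?_
  · funext τ
    rw [aeval_apply_eq]
    obtain ⟨q, -, hq⟩ := hΦ₂τ τ
    rw [hq]
    simp
  · intro τ
    rw [aeval_apply_eq, ← Polynomial.derivative_map]
    obtain ⟨q, hqu, hq⟩ := hΦ₂τ τ
    rw [hq]
    simpa [derivative_mul] using hqu

end Root

end Fermat.Agent.A3.H799

end
-- ===== PACK-END A3/H799/Root.lean

-- ===== PACK-BEGIN S59/TW/H81/D561/DictCore.lean
section



-- Vendored VERBATIM (namespace renamed) by helper81 from helper561's off-main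
-- `Fermat/Agent/S38/H561/DictCore.lean` (origin/helper561), so that the S59 leaf DICT-T is
-- self-contained on main.  All credit for this file: helper561.

/-!
# Row HARD, cell HECKE, leaf DICT (helper561): the abstract lifting lemma

`op i` (`i : ι`) pairwise commuting endomorphisms of a finite-dimensional complex vector space
`V`, `vals : ι → R` elements of a domain `R` such that every integral non-commutative polynomial
`P` with `P(op) = 0` satisfies `P(vals) = 0` ("the system `vals` occurs in `V`, integrally").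
Then there is a simultaneous eigenvector `g ≠ 0`, `op i g = c i • g`, such that every integral
polynomial relation between the `c i` holds for the `vals i`
(equivalently: there is a ring homomorphism `L : ℤ[c] → R` with `L (c i) = vals i`;
`exists_eigen_ringHom`).

This is the Deligne–Serre lifting lemma (`S49.exists_eigenvector_ker_le`) in a presentation-free
form, for an arbitrary family of commuting operators.
-/

set_option autoImplicit false

namespace Fermat.Agent.S59.TW.H81.D561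

section Core

variable {ι V R : Type*} [AddCommGroup V] [Module ℂ V] [FiniteDimensional ℂ V]
  [CommRing R] [IsDomain R]

/-- **Abstract DICT.**  A system of values occurring integrally in the commuting family `op` is
the reduction of the eigen-system of a simultaneous eigenvector. -/
theorem exists_eigen_of_ker_le (op : ι → Module.End ℂ V)
    (hcomm : ∀ i j, op i * op j = op j * op i) (vals : ι → R)
    (hker : ∀ P : FreeAlgebra ℤ ι, FreeAlgebra.lift ℤ op P = 0 → FreeAlgebra.lift ℤ vals P = 0) :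
    ∃ (g : V) (c : ι → ℂ), g ≠ 0 ∧ (∀ i, op i g = c i • g) ∧
      ∀ P : FreeAlgebra ℤ ι, FreeAlgebra.lift ℤ c P = 0 → FreeAlgebra.lift ℤ vals P = 0 := by
  classical
  -- the commutative algebra generated by the operators
  let B : Subalgebra ℤ (Module.End ℂ V) := Algebra.adjoin ℤ (Set.range op)
  letI : CommRing B := Algebra.adjoinCommRingOfComm ℤ (by
    rintro _ ⟨i, rfl⟩ _ ⟨j, rfl⟩
    exact hcomm i j)
  have hmem : ∀ i, op i ∈ B := fun i => Algebra.subset_adjoin ⟨i, rfl⟩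
  let ρ₀ : FreeAlgebra ℤ ι →ₐ[ℤ] B := FreeAlgebra.lift ℤ (fun i => (⟨op i, hmem i⟩ : B))
  have hρ₀val : ∀ P, ((ρ₀ P : B) : Module.End ℂ V) = FreeAlgebra.lift ℤ op P := by
    intro P
    have : (B.val.comp ρ₀) = FreeAlgebra.lift ℤ op := by
      apply FreeAlgebra.hom_ext
      funext i
      simp [ρ₀]
    exact DFunLike.congr_fun this P
  have hsurj : Function.Surjective ρ₀ := by
    intro b
    have hb : (b : Module.End ℂ V) ∈ Algebra.adjoin ℤ (Set.range op) := b.2
    rw [Algebra.adjoin_range_eq_range_freeAlgebra_lift] at hb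
    obtain ⟨P, hP⟩ := hb
    exact ⟨P, Subtype.ext ((hρ₀val P).trans hP)⟩
  -- the character of `B` with values in `R`
  have hkerle : RingHom.ker (ρ₀ : FreeAlgebra ℤ ι →+* B) ≤
      RingHom.ker ((FreeAlgebra.lift ℤ vals : FreeAlgebra ℤ ι →ₐ[ℤ] R) : FreeAlgebra ℤ ι →+* R) := by
    intro P hP
    rw [RingHom.mem_ker] at hP ⊢
    apply hker
    rw [← hρ₀val]
    have : ρ₀ P = 0 := hP
    rw [this]
    rfl
  let χ₀ : B →+* R := RingHom.liftOfRightInverse (ρ₀ : FreeAlgebra ℤ ι →+* B)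
    (Function.surjInv hsurj) (Function.rightInverse_surjInv hsurj)
    ⟨((FreeAlgebra.lift ℤ vals : FreeAlgebra ℤ ι →ₐ[ℤ] R) : FreeAlgebra ℤ ι →+* R), hkerle⟩
  have hχ₀ : ∀ P, χ₀ (ρ₀ P) = FreeAlgebra.lift ℤ vals P := fun P =>
    RingHom.liftOfRightInverse_comp_apply _ _ _ _ P
  haveI : (RingHom.ker χ₀).IsPrime := RingHom.ker_isPrime χ₀
  obtain ⟨g, χ', hg, hχ', hle⟩ := Fermat.Agent.S49.exists_eigenvector_ker_le
    (K := ℂ) (V := V) (B.val.toRingHom) Subtype.val_injective (RingHom.ker χ₀)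
  refine ⟨g, fun i => χ' ⟨op i, hmem i⟩, hg, fun i => hχ' ⟨op i, hmem i⟩, ?_⟩
  intro P hP
  have h1 : FreeAlgebra.lift ℤ (fun i => χ' ⟨op i, hmem i⟩) =
      ((χ'.toIntAlgHom).comp ρ₀) := by
    apply FreeAlgebra.hom_ext
    funext i
    simp [ρ₀]
  have h2 : χ' (ρ₀ P) = 0 := by
    have := DFunLike.congr_fun h1 P
    rw [hP] at this
    exact this.symm
  rw [← hχ₀]
  exact hle (RingHom.mem_ker.mpr h2)

/-- The ring homomorphism form of the conclusion of `exists_eigen_of_ker_le`: a kernel inclusion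
between two evaluations gives a ring homomorphism between their ranges. -/
theorem exists_ringHom_of_ker_le {A : Type*} [CommRing A] (c : ι → A) (vals : ι → R)
    (h : ∀ P : FreeAlgebra ℤ ι, FreeAlgebra.lift ℤ c P = 0 → FreeAlgebra.lift ℤ vals P = 0) :
    ∃ L : (FreeAlgebra.lift ℤ c).range →+* R,
      ∀ P : FreeAlgebra ℤ ι, L ⟨FreeAlgebra.lift ℤ c P, ⟨P, rfl⟩⟩ = FreeAlgebra.lift ℤ vals P := by
  let f : FreeAlgebra ℤ ι →+* (FreeAlgebra.lift ℤ c).range :=
    ((FreeAlgebra.lift ℤ c).rangeRestrict : FreeAlgebra ℤ ι →+* (FreeAlgebra.lift ℤ c).range)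
  have hsurj : Function.Surjective f := (FreeAlgebra.lift ℤ c).rangeRestrict_surjective
  have hle : RingHom.ker f ≤
      RingHom.ker ((FreeAlgebra.lift ℤ vals : FreeAlgebra ℤ ι →ₐ[ℤ] R) : FreeAlgebra ℤ ι →+* R) := by
    intro P hP
    rw [RingHom.mem_ker] at hP ⊢
    apply h
    have := congrArg Subtype.val hP
    exact this
  refine ⟨RingHom.liftOfRightInverse f (Function.surjInv hsurj)
    (Function.rightInverse_surjInv hsurj) ⟨_, hle⟩, fun P => ?_⟩
  exact RingHom.liftOfRightInverse_comp_apply _ _ _ _ P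

end Core

end Fermat.Agent.S59.TW.H81.D561

end
-- ===== PACK-END S59/TW/H81/D561/DictCore.lean

-- ===== PACK-BEGIN S59/TW/H95/AlgBasis.lean
section


/-!
# S59 / cell TW / Layer 2, leaf ALG — part 2: basis transfer and folding (helper95, Mathlib only)

* `exists_basis_w_h95` : if `V` has an `𝒪`-basis `BX (i, e)` (`e ∈ ∏ Fin (q j)`) with
  `BX (i, e) - b i ∈ ∑_j (w_j - 1) V`, and `w_j^(q_j) = 1`, `(w_j - 1)^(k_j) ∈ ϖ T`, `ϖ ∈ Jac 𝒪`,
  then the `∏ w_j^(e_j) • b i` form an `𝒪`-basis of `V` as well.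
* `fold_exists_h95`, `fold_unique_h95` : for `N ∣ q_j`, the `∏ w_j^(a_j) • b i`, `a_j < N`, form an
  `𝒪`-basis of `V / (w_j^N - 1 : j) V`.
-/

set_option autoImplicit false

namespace Fermat.Agent.S59.TW.H95

open Finset

section Basis

variable {𝒪 T V : Type*} [CommRing 𝒪] [CommRing T] [Algebra 𝒪 T]
  [AddCommGroup V] [Module T V] [Module 𝒪 V] [IsScalarTower 𝒪 T V]
  {r d : ℕ}

/-- reduction of exponents -/
theorem prod_pow_mod_h95 (w : Fin r → T) (q : Fin r → ℕ) (hw : ∀ j, w j ^ q j = 1)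
    (a : Fin r → ℕ) : ∏ j, w j ^ a j = ∏ j, w j ^ (a j % q j) :=
  Finset.prod_congr rfl fun j _ => pow_eq_pow_mod _ (hw j)

/-- **Basis transfer.** -/
theorem exists_basis_w_h95 (ϖ : 𝒪) (hϖ : ϖ ∈ Ideal.jacobson (⊥ : Ideal 𝒪))
    (w : Fin r → T) (q k : Fin r → ℕ) (hq : ∀ j, 0 < q j) (hw : ∀ j, w j ^ q j = 1)
    (hk : ∀ j, ∃ t : T, (w j - 1) ^ k j = algebraMap 𝒪 T ϖ * t)
    (b : Fin d → V) (BX : Module.Basis (Fin d × (∀ j : Fin r, Fin (q j))) 𝒪 V)
    (hBX : ∀ x, BX x - b x.1 ∈ ⨆ j, LinearMap.range (mulT95 𝒪 V (w j - 1))) :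
    ∃ BW : Module.Basis (Fin d × (∀ j : Fin r, Fin (q j))) 𝒪 V,
      ∀ x, BW x = (∏ j, w j ^ (x.2 j : ℕ)) • b x.1 := by
  classical
  have : Module.Finite 𝒪 V := Module.Finite.of_basis BX
  set S : Submodule 𝒪 V := ⨆ j, LinearMap.range (mulT95 𝒪 V (w j - 1)) with hS
  set W₀ : Submodule 𝒪 V :=
    Submodule.span 𝒪 {y | ∃ (a : Fin r → ℕ) (i : Fin d), y = (∏ j, w j ^ a j) • b i} with hW₀
  -- stability
  have hstab : ∀ j, ∀ v ∈ W₀, w j • v ∈ W₀ := by
    intro j v hv
    have hmap : W₀.map (mulT95 𝒪 V (w j)) ≤ W₀ := by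
      rw [hW₀, Submodule.map_span]
      refine Submodule.span_le.mpr ?_
      rintro _ ⟨_, ⟨a, i, rfl⟩, rfl⟩
      refine Submodule.subset_span ⟨a + Pi.single j 1, i, ?_⟩
      rw [mulT95_apply, ← mul_smul]
      congr 1
      have : ∀ l, w l ^ ((a + Pi.single j 1 : Fin r → ℕ) l) =
          w l ^ a l * w l ^ (Pi.single j 1 : Fin r → ℕ) l := by
        intro l; rw [Pi.add_apply, pow_add]
      simp_rw [this, Finset.prod_mul_distrib]
      rw [mul_comm]
      congr 1
      rw [Finset.prod_eq_single j]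
      · simp
      · intro l _ hlj; simp [hlj]
      · intro h; exact absurd (Finset.mem_univ j) h
    exact hmap (Submodule.mem_map_of_mem hv)
  -- generation
  have hb0 : ∀ i, b i ∈ W₀ := fun i =>
    Submodule.subset_span ⟨fun _ => 0, i, by simp⟩
  have hgen : ⊤ ≤ W₀ ⊔ S := by
    intro v _
    rw [← BX.sum_repr v]
    refine Submodule.sum_mem _ fun x _ => Submodule.smul_mem _ _ ?_
    have : BX x = b x.1 + (BX x - b x.1) := by abel
    rw [this]
    exact Submodule.add_mem _ (Submodule.mem_sup_left (hb0 _)) (Submodule.mem_sup_right (hBX x))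
  have htop : W₀ = ⊤ := eq_top_of_stable_h95 ϖ hϖ w k hk W₀ hstab hgen
  -- the family `vW`
  set vW : Fin d × (∀ j : Fin r, Fin (q j)) → V :=
    fun x => (∏ j, w j ^ (x.2 j : ℕ)) • b x.1 with hvW
  have hspan : Submodule.span 𝒪 (Set.range vW) = ⊤ := by
    rw [eq_top_iff, ← htop, hW₀]
    refine Submodule.span_le.mpr ?_
    rintro _ ⟨a, i, rfl⟩
    refine Submodule.subset_span ⟨(i, fun j => ⟨a j % q j, Nat.mod_lt _ (hq j)⟩), ?_⟩
    simp only [hvW]
    rw [prod_pow_mod_h95 w q hw a]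
  -- Orzech
  set h : V →ₗ[𝒪] V := BX.constr 𝒪 vW with hh
  have hsurj : Function.Surjective h := by
    rw [← LinearMap.range_eq_top, hh, Module.Basis.constr_range, hspan]
  have hbij : Function.Bijective h := OrzechProperty.bijective_of_surjective_endomorphism h hsurj
  refine ⟨BX.map (LinearEquiv.ofBijective h hbij), fun x => ?_⟩
  rw [Module.Basis.map_apply, LinearEquiv.ofBijective_apply, hh, Module.Basis.constr_basis]

end Basis

section Fold

variable {𝒪 T V : Type*} [CommRing 𝒪] [CommRing T] [Algebra 𝒪 T]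
  [AddCommGroup V] [Module T V] [Module 𝒪 V] [IsScalarTower 𝒪 T V]
  {r d : ℕ}

/-- the folding map on exponents -/
def fold95 {q : Fin r → ℕ} (N : ℕ) (hN : 0 < N) (e : ∀ j : Fin r, Fin (q j)) : Fin r → Fin N :=
  fun j => ⟨(e j : ℕ) % N, Nat.mod_lt _ hN⟩

/-- `∏ w_j^(e_j) ≡ ∏ w_j^(e_j mod N)` modulo `(w_j^N - 1)`. -/
theorem prod_pow_sub_prod_pow_mod_mem_h95 (w : Fin r → T) (N : ℕ) (a : Fin r → ℕ) :
    ∏ j, w j ^ a j - ∏ j, w j ^ (a j % N) ∈ Ideal.span (Set.range fun i => w i ^ N - 1) := by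
  rw [← Ideal.Quotient.eq, map_prod, map_prod]
  refine Finset.prod_congr rfl fun j _ => ?_
  rw [map_pow, map_pow]
  refine pow_eq_pow_mod _ ?_
  rw [← map_pow, ← map_one (Ideal.Quotient.mk _), Ideal.Quotient.eq]
  exact Ideal.subset_span ⟨j, rfl⟩

/-- **Folding, existence.** -/
theorem fold_exists_h95 (w : Fin r → T) (q : Fin r → ℕ) (N : ℕ) (hN : 0 < N)
    (b : Fin d → V) (BW : Module.Basis (Fin d × (∀ j : Fin r, Fin (q j))) 𝒪 V)
    (hBW : ∀ x, BW x = (∏ j, w j ^ (x.2 j : ℕ)) • b x.1) (x : V) :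
    ∃ c : Fin d → (Fin r → Fin N) → 𝒪,
      x - ∑ j, ∑ a, (algebraMap 𝒪 T (c j a) * ∏ i, w i ^ (a i : ℕ)) • b j ∈
        Ideal.span (Set.range fun i => w i ^ N - 1) • (⊤ : Submodule T V) := by
  classical
  refine ⟨fun j a => ∑ e : (∀ j : Fin r, Fin (q j)),
    if fold95 N hN e = a then BW.repr x (j, e) else 0, ?_⟩
  -- rewrite the folded sum
  have h1 : ∀ j : Fin d, ∑ a : Fin r → Fin N,
      (algebraMap 𝒪 T (∑ e : (∀ j : Fin r, Fin (q j)),
        if fold95 N hN e = a then BW.repr x (j, e) else 0) * ∏ i, w i ^ (a i : ℕ)) • b j =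
      ∑ e : (∀ j : Fin r, Fin (q j)),
        (algebraMap 𝒪 T (BW.repr x (j, e)) * ∏ i, w i ^ ((e i : ℕ) % N)) • b j := by
    intro j
    simp_rw [map_sum, Finset.sum_mul, Finset.sum_smul]
    rw [Finset.sum_comm]
    refine Finset.sum_congr rfl fun e _ => ?_
    rw [Finset.sum_eq_single (fold95 N hN e)]
    · rw [if_pos rfl]; rfl
    · intro a _ ha
      rw [if_neg (Ne.symm ha), map_zero, zero_mul, zero_smul]
    · intro h; exact absurd (Finset.mem_univ _) h
  have h2 : x = ∑ j : Fin d, ∑ e : (∀ j : Fin r, Fin (q j)),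
      (algebraMap 𝒪 T (BW.repr x (j, e)) * ∏ i, w i ^ (e i : ℕ)) • b j := by
    conv_lhs => rw [← BW.sum_repr x]
    rw [Fintype.sum_prod_type]
    refine Finset.sum_congr rfl fun j _ => Finset.sum_congr rfl fun e _ => ?_
    rw [hBW, mul_smul, algebraMap_smul]
  simp_rw [h1]
  have h3 : x - ∑ j : Fin d, ∑ e : (∀ j : Fin r, Fin (q j)),
      (algebraMap 𝒪 T (BW.repr x (j, e)) * ∏ i, w i ^ ((e i : ℕ) % N)) • b j =
      (∑ j : Fin d, ∑ e : (∀ j : Fin r, Fin (q j)),
        (algebraMap 𝒪 T (BW.repr x (j, e)) * ∏ i, w i ^ (e i : ℕ)) • b j) -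
      ∑ j : Fin d, ∑ e : (∀ j : Fin r, Fin (q j)),
      (algebraMap 𝒪 T (BW.repr x (j, e)) * ∏ i, w i ^ ((e i : ℕ) % N)) • b j := by
    rw [← h2]
  rw [h3, ← Finset.sum_sub_distrib]
  refine Submodule.sum_mem _ fun j _ => ?_
  rw [← Finset.sum_sub_distrib]
  refine Submodule.sum_mem _ fun e _ => ?_
  rw [← sub_smul, ← mul_sub]
  refine Submodule.smul_mem_smul (Ideal.mul_mem_left _ _ ?_) Submodule.mem_top
  exact prod_pow_sub_prod_pow_mod_mem_h95 w N (fun i => (e i : ℕ))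

/-- **Folding, uniqueness.** -/
theorem fold_unique_h95 (w : Fin r → T) (q : Fin r → ℕ) (hq : ∀ j, 0 < q j)
    (hw : ∀ j, w j ^ q j = 1) (N : ℕ) (hN : 0 < N) (hNq : ∀ j, N ∣ q j)
    (b : Fin d → V) (BW : Module.Basis (Fin d × (∀ j : Fin r, Fin (q j))) 𝒪 V)
    (hBW : ∀ x, BW x = (∏ j, w j ^ (x.2 j : ℕ)) • b x.1)
    (c : Fin d → (Fin r → Fin N) → 𝒪)
    (hc : ∑ j, ∑ a, (algebraMap 𝒪 T (c j a) * ∏ i, w i ^ (a i : ℕ)) • b j ∈
        Ideal.span (Set.range fun i => w i ^ N - 1) • (⊤ : Submodule T V)) :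
    ∀ j a, c j a = 0 := by
  classical
  -- the folding functional
  set Φ : V →ₗ[𝒪] (Fin d × (Fin r → Fin N) → 𝒪) :=
    BW.constr 𝒪 (fun y => Pi.single (y.1, fold95 N hN y.2) (1 : 𝒪)) with hΦ
  have hΦB : ∀ y, Φ (BW y) = Pi.single (y.1, fold95 N hN y.2) (1 : 𝒪) := fun y => by
    rw [hΦ, Module.Basis.constr_basis]
  -- invariance under `w_i^N`
  have hinv : ∀ (i : Fin r) (v : V), Φ (w i ^ N • v) = Φ v := by
    intro i
    have : Φ ∘ₗ mulT95 𝒪 V (w i ^ N) = Φ := by
      refine BW.ext fun y => ?_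
      rw [LinearMap.comp_apply, mulT95_apply, hΦB]
      -- `w_i^N • BW y = BW y'`
      set e' : ∀ j : Fin r, Fin (q j) :=
        fun j => ⟨((y.2 j : ℕ) + if j = i then N else 0) % q j, Nat.mod_lt _ (hq j)⟩ with he'
      have hy' : w i ^ N • BW y = BW (y.1, e') := by
        rw [hBW, hBW, ← mul_smul]
        congr 1
        have h1 : w i ^ N = ∏ j, w j ^ (if j = i then N else 0) := by
          rw [Finset.prod_eq_single i]
          · simp
          · intro j _ hji; simp [hji]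
          · intro h; exact absurd (Finset.mem_univ i) h
        rw [h1, ← Finset.prod_mul_distrib]
        refine Finset.prod_congr rfl fun j _ => ?_
        rw [← pow_add, add_comm]
        exact pow_eq_pow_mod _ (hw j)
      rw [hy', hΦB]
      congr 1
      refine Prod.ext rfl ?_
      funext j
      refine Fin.ext ?_
      simp only [fold95, he']
      rw [Nat.mod_mod_of_dvd _ (hNq j)]
      split_ifs with hji
      · rw [Nat.add_mod_right]
      · rw [Nat.add_zero]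
    intro v
    have := congrArg (fun f => f v) this
    simpa using this
  -- `Φ` kills `J V`
  have hkill : ∀ v ∈ Ideal.span (Set.range fun i => w i ^ N - 1) • (⊤ : Submodule T V),
      Φ v = 0 := by
    have haux : ∀ t ∈ Ideal.span (Set.range fun i => w i ^ N - 1), ∀ u : V, Φ (t • u) = 0 := by
      intro t ht
      refine Submodule.span_induction (p := fun t _ => ∀ u : V, Φ (t • u) = 0) ?_ ?_ ?_ ?_ ht
      · rintro _ ⟨i, rfl⟩ u
        rw [sub_smul, one_smul, map_sub, hinv, sub_self]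
      · intro u; rw [zero_smul, map_zero]
      · intro t₁ t₂ _ _ h₁ h₂ u
        rw [add_smul, map_add, h₁, h₂, add_zero]
      · intro s t₁ _ h₁ u
        rw [smul_eq_mul, mul_comm, mul_smul]
        exact h₁ _
    intro v hv
    refine Submodule.smul_induction_on hv ?_ ?_
    · intro t ht u _
      exact haux t ht u
    · intro u₁ u₂ h₁ h₂
      rw [map_add, h₁, h₂, add_zero]
  -- evaluate
  have hN_le : ∀ j, N ≤ q j := fun j => Nat.le_of_dvd (hq j) (hNq j)
  have hterm : ∀ (j : Fin d) (a : Fin r → Fin N),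
      Φ ((algebraMap 𝒪 T (c j a) * ∏ i, w i ^ (a i : ℕ)) • b j) =
        c j a • Pi.single (j, a) (1 : 𝒪) := by
    intro j a
    have hlift : (∏ i, w i ^ (a i : ℕ)) • b j =
        BW (j, fun i => ⟨(a i : ℕ), lt_of_lt_of_le (a i).2 (hN_le i)⟩) := by
      rw [hBW]
    rw [mul_smul, algebraMap_smul, map_smul, hlift, hΦB]
    congr 2
    refine Prod.ext rfl ?_
    funext i
    refine Fin.ext ?_
    simp only [fold95]
    exact Nat.mod_eq_of_lt (a i).2
  intro j₀ a₀
  have h0 := hkill _ hc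
  rw [map_sum] at h0
  simp_rw [map_sum, hterm] at h0
  have h1 := congrFun h0 (j₀, a₀)
  simp only [Finset.sum_apply, Pi.smul_apply, Pi.zero_apply, smul_eq_mul] at h1
  rw [Finset.sum_eq_single j₀, Finset.sum_eq_single a₀] at h1
  · simpa using h1
  · intro a _ ha
    rw [Pi.single_apply, if_neg, mul_zero]
    intro h
    exact ha (Prod.mk.inj h).2.symm
  · intro h; exact absurd (Finset.mem_univ _) h
  · intro j _ hj
    refine Finset.sum_eq_zero fun a _ => ?_
    rw [Pi.single_apply, if_neg, mul_zero]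
    intro h
    exact hj (Prod.mk.inj h).1.symm
  · intro h; exact absurd (Finset.mem_univ _) h

end Fold

end Fermat.Agent.S59.TW.H95

end
-- ===== PACK-END S59/TW/H95/AlgBasis.lean

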