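import Mathlib
import Fermat.Prelude.Def_ModularForm_HeckeOperatorForms
import Fermat.Agent.Pack.S43MC.G0E0L0
import Fermat.Agent.Pack.S43MC.G0E1L2
import Fermat.Agent.Pack.S43MC.G0E1L3
import Fermat.Agent.Pack.S43MC.G0E1L1
import Fermat.Agent.Pack.S43MC.G0E2L2
import Fermat.Agent.Pack.S43MC.G0E2L0
import Fermat.Agent.Pack.S44C.G0E0L3
import Fermat.Agent.Pack.S44C.G0E0L1
import Fermat.Agent.Pack.S43MC.G0E3L1
import Fermat.Agent.Pack.S43MC.G0E3L0
import Fermat.Agent.Pack.S43MC.G0E4L2
import Fermat.Agent.Pack.Fast891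

-- ===== PACK-BEGIN S25/H10/DegreeDefs.lean
section
/-
S25, block DEGREE (squad S25/S10, squad-lead helper10): FROZEN DEFINITIONS.

Pure commutative algebra on top of the frozen `DefsAlg.lean`:

* `GDHom G G'`            : morphisms of gluing data (three linear maps commuting with `r₀`, `r₁`);
* `GDHom.id`, `GDHom.comp`, `GDHom.ofIso`, `GDHom.ofSection` (a section of `Ȟ⁰` is a morphism
  from the unit datum);
* `gdTwist G u`           : the gluing datum with `r₁` replaced by `u • r₁`, `u` a unit of `R₀₁`;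
* `xUnit`, `twistE G n`   : the twist `G(n) = G ⊗ O(n E₀)` of a `CurveGD` (`u = (1 ⊗ x) ^ n`, `n : ℤ`),
  so that `(twistE G n).cech (a, b) = r₀ a - (1 ⊗ x) ^ n • r₁ b`;
* `chartDeg`, `genus`     : `d = dim_k B₁ / (y)` and `g = dim_k Ȟ¹(unit over k)`.

Statements of the block: `DegreeSkel.lean` (same directory, on branch origin/helper10 only).
-/


set_option autoImplicit false

universe u

open scoped TensorProduct

namespace Fermat.Agent.S25.H10

open Fermat.Agent.S25

noncomputable section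

/-! ## Morphisms of gluing data -/

section Hom

variable {A R₀ R₁ R₀₁ : Type u} [CommRing A] [CommRing R₀] [CommRing R₁]
    [CommRing R₀₁] [Algebra A R₀] [Algebra A R₁] [Algebra A R₀₁] [Algebra R₀ R₀₁]
    [Algebra R₁ R₀₁] [IsScalarTower A R₀ R₀₁] [IsScalarTower A R₁ R₀₁]

/-- A morphism of gluing data: linear maps on the two charts and on the intersection,
compatible with the restriction maps. -/
structure GDHom (G G' : GlueDatum A R₀ R₁ R₀₁) where
  f₀ : G.N₀ →ₗ[R₀] G'.N₀
  f₁ : G.N₁ →ₗ[R₁] G'.N₁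
  f₀₁ : G.N₀₁ →ₗ[R₀₁] G'.N₀₁
  comm₀ : ∀ s, f₀₁ (G.r₀ s) = G'.r₀ (f₀ s)
  comm₁ : ∀ s, f₀₁ (G.r₁ s) = G'.r₁ (f₁ s)

namespace GDHom

/-- The identity morphism. -/
protected def id (G : GlueDatum A R₀ R₁ R₀₁) : GDHom G G where
  f₀ := LinearMap.id
  f₁ := LinearMap.id
  f₀₁ := LinearMap.id
  comm₀ _ := rfl
  comm₁ _ := rfl

/-- Composition of morphisms. -/
def comp {G G' G'' : GlueDatum A R₀ R₁ R₀₁} (g : GDHom G' G'') (f : GDHom G G') :
    GDHom G G'' where
  f₀ := g.f₀.comp f.f₀
  f₁ := g.f₁.comp f.f₁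
  f₀₁ := g.f₀₁.comp f.f₀₁
  comm₀ s := by simp [f.comm₀, g.comm₀]
  comm₁ s := by simp [f.comm₁, g.comm₁]

/-- The morphism underlying an isomorphism. -/
def ofIso {G G' : GlueDatum A R₀ R₁ R₀₁} (e : GlueDatum.Iso G G') : GDHom G G' where
  f₀ := e.e₀.toLinearMap
  f₁ := e.e₁.toLinearMap
  f₀₁ := e.e₀₁.toLinearMap
  comm₀ := e.comm₀
  comm₁ := e.comm₁

/-- A morphism is *injective* if it is so on both charts. -/
def Injective {G G' : GlueDatum A R₀ R₁ R₀₁} (f : GDHom G G') : Prop :=
  Function.Injective f.f₀ ∧ Function.Injective f.f₁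

/-- A morphism is *bijective* if it is so on both charts and on the intersection. -/
def Bijective {G G' : GlueDatum A R₀ R₁ R₀₁} (f : GDHom G G') : Prop :=
  Function.Bijective f.f₀ ∧ Function.Bijective f.f₁ ∧ Function.Bijective f.f₀₁

/-- The induced map on Čech cochains `N₀ × N₁`, `A`-linear. -/
def map01 {G G' : GlueDatum A R₀ R₁ R₀₁} (f : GDHom G G') :
    (G.N₀ × G.N₁) →ₗ[A] (G'.N₀ × G'.N₁) :=
  (f.f₀.restrictScalars A).prodMap (f.f₁.restrictScalars A)

theorem cech_map01 {G G' : GlueDatum A R₀ R₁ R₀₁} (f : GDHom G G') (s : G.N₀ × G.N₁) :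
    G'.cech (f.map01 s) = f.f₀₁ (G.cech s) := by
  obtain ⟨a, b⟩ := s
  simp [GlueDatum.cech, map01, f.comm₀, f.comm₁]

/-- The morphism `unit → G` defined by a section `s ∈ Ȟ⁰(G)`. -/
def ofSection (G : GlueDatum A R₀ R₁ R₀₁) (s : G.H0) :
    GDHom (GlueDatum.unit A R₀ R₁ R₀₁) G where
  f₀ := LinearMap.toSpanSingleton R₀ G.N₀ s.1.1
  f₁ := LinearMap.toSpanSingleton R₁ G.N₁ s.1.2
  f₀₁ := LinearMap.toSpanSingleton R₀₁ G.N₀₁ (G.r₀ s.1.1)
  comm₀ := fun (r : R₀) => by
    show (algebraMap R₀ R₀₁ r) • G.r₀ s.1.1 = G.r₀ ((r : R₀) • (s.1.1 : G.N₀))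
    rw [map_smul, algebraMap_smul]
  comm₁ := fun (r : R₁) => by
    have h : G.r₀ s.1.1 = G.r₁ s.1.2 := by
      have h0 : G.cech (s.1.1, s.1.2) = 0 := LinearMap.mem_ker.mp s.2
      have h1 : G.r₀ s.1.1 + -(G.r₁ s.1.2) = 0 := h0
      exact eq_neg_iff_add_eq_zero.mpr h1 |>.trans (neg_neg _)
    show (algebraMap R₁ R₀₁ r) • G.r₀ s.1.1 = G.r₁ ((r : R₁) • (s.1.2 : G.N₁))
    rw [map_smul, algebraMap_smul, h]

end GDHom

/-! ## Twisting the gluing by a unit of `R₀₁` -/

/-- Multiplication by a unit `u` of `R₀₁` on an `R₀₁`-module, as a linear equivalence. -/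
def unitSMulEquiv (u : R₀₁ˣ) (N : Type u) [AddCommGroup N] [Module R₀₁ N] : N ≃ₗ[R₀₁] N where
  toFun n := (u : R₀₁) • n
  invFun n := ((u⁻¹ : R₀₁ˣ) : R₀₁) • n
  map_add' := smul_add _
  map_smul' r n := by simp [smul_smul, mul_comm]
  left_inv n := by simp [smul_smul]
  right_inv n := by simp [smul_smul]

/-- The gluing datum `G` with the second restriction map replaced by `u • r₁`.  For the unit
datum this is the line bundle with transition function `u`. -/
def gdTwist (G : GlueDatum A R₀ R₁ R₀₁) (u : R₀₁ˣ) : GlueDatum A R₀ R₁ R₀₁ where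
  N₀ := G.N₀
  N₁ := G.N₁
  N₀₁ := G.N₀₁
  r₀ := G.r₀
  r₁ := ((unitSMulEquiv u G.N₀₁).toLinearMap.restrictScalars R₁).comp G.r₁
  isBaseChange₀ := G.isBaseChange₀
  isBaseChange₁ := by
    have h := G.isBaseChange₁.comp (IsBaseChange.ofEquiv (unitSMulEquiv u G.N₀₁))
    exact h
  invertible₀ := G.invertible₀
  invertible₁ := G.invertible₁

@[simp] theorem gdTwist_r₁_apply (G : GlueDatum A R₀ R₁ R₀₁) (u : R₀₁ˣ) (n : G.N₁) :
    (gdTwist G u).r₁ n = ((u : R₀₁) • G.r₁ n : G.N₀₁) := rfl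

@[simp] theorem gdTwist_r₀_apply (G : GlueDatum A R₀ R₁ R₀₁) (u : R₀₁ˣ) (n : G.N₀) :
    (gdTwist G u).r₀ n = (G.r₀ n : G.N₀₁) := rfl

theorem gdTwist_cech_apply (G : GlueDatum A R₀ R₁ R₀₁) (u : R₀₁ˣ) (a : G.N₀) (b : G.N₁) :
    (gdTwist G u).cech (a, b) = (G.r₀ a - (u : R₀₁) • G.r₁ b : G.N₀₁) := by
  show (gdTwist G u).r₀ a + -((gdTwist G u).r₁ b) = _
  rw [gdTwist_r₁_apply, gdTwist_r₀_apply, sub_eq_add_neg]
  rfl

end Hom

/-! ## Curve charts: the twists `G(n)`, the numbers `d` and `g` -/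

section Curve

variable {k : Type u} [Field k] {B₀ B₁ B₀₁ : Type u} [CommRing B₀] [CommRing B₁] [CommRing B₀₁]
  [Algebra k B₀] [Algebra k B₁] [Algebra k B₀₁] [Algebra B₀ B₀₁] [Algebra B₁ B₀₁]
  [IsScalarTower k B₀ B₀₁] [IsScalarTower k B₁ B₀₁]

/-- The unit `1 ⊗ x` of `A ⊗[k] B₀₁` (inverse `1 ⊗ y`). -/
def xUnit (x : B₀) (y : B₁) (hxy : algebraMap B₀ B₀₁ x * algebraMap B₁ B₀₁ y = 1)
    (A : Type u) [CommRing A] [Algebra k A] : (A ⊗[k] B₀₁)ˣ where
  val := (1 : A) ⊗ₜ[k] algebraMap B₀ B₀₁ x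
  inv := (1 : A) ⊗ₜ[k] algebraMap B₁ B₀₁ y
  val_inv := by
    rw [Algebra.TensorProduct.tmul_mul_tmul, one_mul, hxy, ← Algebra.TensorProduct.one_def]
  inv_val := by
    rw [Algebra.TensorProduct.tmul_mul_tmul, one_mul, mul_comm, hxy,
      ← Algebra.TensorProduct.one_def]

/-- The twist `G(n) = G ⊗ O(n E₀)`, `E₀ = div(y)` on `Spec B₁`: sections of `G(n)` over the
second chart are the sections of `G` with a pole of order `≤ n` along `E₀`.
`(twistE x y hxy G n).cech (a, b) = r₀ a - (1 ⊗ x) ^ n • r₁ b`. -/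
def twistE (x : B₀) (y : B₁) (hxy : algebraMap B₀ B₀₁ x * algebraMap B₁ B₀₁ y = 1)
    {A : Type u} [CommRing A] [Algebra k A] (G : CurveGD k B₀ B₁ B₀₁ A) (n : ℤ) :
    CurveGD k B₀ B₁ B₀₁ A :=
  gdTwist G (xUnit x y hxy A ^ n)

variable (k B₀ B₁ B₀₁) in
/-- The genus of the chart: `dim_k Ȟ¹` of the unit datum over `k`. -/
def genus : ℕ :=
  Module.finrank k (GlueDatum.unit k (k ⊗[k] B₀) (k ⊗[k] B₁) (k ⊗[k] B₀₁)).H1

variable (k) in
/-- The degree of the divisor `E₀ = div(y)`: `dim_k B₁ / (y)`. -/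
def chartDeg (y : B₁) : ℕ := Module.finrank k (B₁ ⧸ Ideal.span {y})


/-! ## The map induced on `Ȟ⁰` by a base change -/

section MapH0

variable {A A' : Type u} [CommRing A] [Algebra k A] [CommRing A'] [Algebra k A']

theorem tensorMapLeft_algebraMap (φ : A →ₐ[k] A') (B : Type u) [CommRing B] [Algebra k B]
    (a : A) : tensorMapLeft k φ B (algebraMap A (A ⊗[k] B) a) = algebraMap A' (A' ⊗[k] B) (φ a) := by
  simp [tensorMapLeft, Algebra.TensorProduct.algebraMap_apply]

/-- The `φ`-semilinear map `Ȟ⁰(G) → Ȟ⁰(G')` induced by base-change maps `G → G'`. -/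
def mapH0 (φ : A →ₐ[k] A') {G : CurveGD k B₀ B₁ B₀₁ A} {G' : CurveGD k B₀ B₁ B₀₁ A'}
    (bc : GlueDatum.BaseChangeMaps (tensorMapLeft k φ B₀) (tensorMapLeft k φ B₁)
      (tensorMapLeft k φ B₀₁) G G') : G.H0 →ₛₗ[φ.toRingHom] G'.H0 where
  toFun s := ⟨(bc.b₀ s.1.1, bc.b₁ s.1.2), by
    have h0 : G.cech (s.1.1, s.1.2) = 0 := LinearMap.mem_ker.mp s.2
    have h1 : G.r₀ s.1.1 + -(G.r₁ s.1.2) = 0 := h0
    have h' : G.r₀ s.1.1 = G.r₁ s.1.2 := eq_neg_iff_add_eq_zero.mpr h1 |>.trans (neg_neg _)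
    rw [LinearMap.mem_ker]
    show G'.r₀ (bc.b₀ s.1.1) + -(G'.r₁ (bc.b₁ s.1.2)) = 0
    rw [← bc.comm₀, ← bc.comm₁, h', add_neg_cancel]⟩
  map_add' s t := by
    apply Subtype.ext
    simp
  map_smul' a s := by
    apply Subtype.ext
    have h₀ : bc.b₀ (a • s.1.1) = φ a • bc.b₀ s.1.1 := by
      rw [← algebraMap_smul (A ⊗[k] B₀) a s.1.1, bc.b₀.map_smulₛₗ, tensorMapLeft_algebraMap,
        algebraMap_smul]
    have h₁ : bc.b₁ (a • s.1.2) = φ a • bc.b₁ s.1.2 := by
      rw [← algebraMap_smul (A ⊗[k] B₁) a s.1.2, bc.b₁.map_smulₛₗ, tensorMapLeft_algebraMap,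
        algebraMap_smul]
    simp [h₀, h₁]

end MapH0

end Curve

end

end Fermat.Agent.S25.H10

end
-- ===== PACK-END S25/H10/DegreeDefs.lean

-- ===== PACK-BEGIN S25/H565/GlueHom.lean
section




/-!
# S25 / DEGREE D3 (helper565): modifications of gluing data over a field

For an injective morphism `φ : G → G'` of gluing data over a field `K` (cospan
`R₀ → R₀₁ ← R₁` with `R₀₁ = R₀[1/x] = R₁[1/y]`) whose cokernels `Q₀ = N₀'/N₀`, `Q₁ = N₁'/N₁`
are finite-dimensional over `K`:

* `Q₀ → Q₀₁` and `Q₁ → Q₀₁` are onto (a finite-length module maps onto its localization);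
* `χ(G') = χ(G) + dim Q₀ + dim Q₁ - dim Q₀₁`;
* `H¹(G) → H¹(G')` is onto; in particular `H¹(G) = 0` implies `H¹(G') = 0`.
-/

set_option autoImplicit false

namespace Fermat.Agent.S25.H565

open Submodule Fermat.Agent.S25

universe u

section LinAlg

variable {K : Type*} [Field K] {V : Type*} [AddCommGroup V] [Module K V]

/-- A finite-dimensional subspace `I`, stable under an injective endomorphism `T`, which
absorbs every vector under iteration of `T`, is everything. -/
theorem eq_top_of_absorbing (T : V →ₗ[K] V) (hT : Function.Injective T) (I : Submodule K V)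
    [FiniteDimensional K I] (hI : ∀ v ∈ I, T v ∈ I) (habs : ∀ v : V, ∃ k : ℕ, (T ^ k) v ∈ I) :
    I = ⊤ := by
  -- `T` restricted to `I` is injective, hence surjective
  let TI : I →ₗ[K] I := T.restrict hI
  have hinj : Function.Injective TI := by
    intro a b hab
    apply Subtype.ext
    apply hT
    exact congrArg Subtype.val hab
  have hsurj : Function.Surjective TI := LinearMap.injective_iff_surjective.mp hinj
  have hstep : ∀ v : V, T v ∈ I → v ∈ I := by
    intro v hv
    obtain ⟨w, hw⟩ := hsurj ⟨T v, hv⟩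
    have h1 : T (w : V) = T v := congrArg Subtype.val hw
    rw [← hT h1]
    exact w.2
  have hall : ∀ (k : ℕ) (v : V), (T ^ k) v ∈ I → v ∈ I := by
    intro k
    induction k with
    | zero => intro v hv; simpa using hv
    | succ k ih =>
      intro v hv
      rw [pow_succ, Module.End.mul_apply] at hv
      exact hstep v (ih (T v) hv)
  rw [eq_top_iff]
  intro v _
  obtain ⟨k, hk⟩ := habs v
  exact hall k v hk

/-- The quotient of a product by a product of ranges. -/
noncomputable def quotProdEquiv {M N M' N' : Type*} [AddCommGroup M] [AddCommGroup N]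
    [AddCommGroup M'] [AddCommGroup N'] [Module K M] [Module K N] [Module K M'] [Module K N']
    (f : M →ₗ[K] M') (g : N →ₗ[K] N') :
    ((M' × N') ⧸ LinearMap.range (f.prodMap g)) ≃ₗ[K]
      (M' ⧸ LinearMap.range f) × (N' ⧸ LinearMap.range g) :=
  (Submodule.quotEquivOfEq _ _ (by
    rw [LinearMap.range_prodMap, LinearMap.ker_prodMap, Submodule.ker_mkQ,
      Submodule.ker_mkQ])).trans
    (LinearMap.quotKerEquivOfSurjective
      ((LinearMap.range f).mkQ.prodMap (LinearMap.range g).mkQ)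
      (by
        rintro ⟨a, b⟩
        obtain ⟨a', rfl⟩ := Submodule.mkQ_surjective _ a
        obtain ⟨b', rfl⟩ := Submodule.mkQ_surjective _ b
        exact ⟨(a', b'), rfl⟩))

/-- **A finite-length module maps onto its localization** (operator form).  `M'/W₀` is
finite-dimensional, `r' : M' → L'` is a "localization" (every `z'` is absorbed into its range
by a power of the invertible operator `T'`), and `g : L → L'` is equivariant with
`r' W₀ ⊆ range g`.  Then `L' = range g + range r'`. -/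
theorem range_sup_range_eq_top {M' L L' : Type*} [AddCommGroup M'] [AddCommGroup L]
    [AddCommGroup L'] [Module K M'] [Module K L] [Module K L']
    (W₀ : Submodule K M') [FiniteDimensional K (M' ⧸ W₀)]
    (X' : M' →ₗ[K] M') (T : L →ₗ[K] L) (hT : Function.Surjective T)
    (T' : L' →ₗ[K] L') (hT' : Function.Injective T')
    (g : L →ₗ[K] L') (hgT : ∀ z, g (T z) = T' (g z))
    (r' : M' →ₗ[K] L') (hr'X : ∀ n, r' (X' n) = T' (r' n))
    (hW : ∀ w ∈ W₀, r' w ∈ LinearMap.range g)
    (habs : ∀ z' : L', ∃ (k : ℕ) (n' : M'), (T' ^ k) z' = r' n') :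
    LinearMap.range g ⊔ LinearMap.range r' = ⊤ := by
  have hle : LinearMap.range g ≤ (LinearMap.range g).comap T' := by
    rintro _ ⟨z, rfl⟩
    exact ⟨T z, hgT z⟩
  let Tbar : (L' ⧸ LinearMap.range g) →ₗ[K] (L' ⧸ LinearMap.range g) :=
    Submodule.mapQ _ _ T' hle
  have hTbar : ∀ z' : L', Tbar (Submodule.Quotient.mk z') = Submodule.Quotient.mk (T' z') :=
    fun z' => rfl
  have hTbar_pow : ∀ (k : ℕ) (z' : L'),
      (Tbar ^ k) (Submodule.Quotient.mk z') = Submodule.Quotient.mk ((T' ^ k) z') := by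
    intro k
    induction k with
    | zero => intro z'; simp
    | succ k ih =>
      intro z'
      rw [pow_succ, Module.End.mul_apply, hTbar, ih, pow_succ, Module.End.mul_apply]
  have hinj : Function.Injective Tbar := by
    rw [← LinearMap.ker_eq_bot, LinearMap.ker_eq_bot']
    intro q hq
    obtain ⟨z', rfl⟩ := Submodule.Quotient.mk_surjective _ q
    rw [hTbar, Submodule.Quotient.mk_eq_zero] at hq
    obtain ⟨z, hz⟩ := hq
    obtain ⟨z₁, rfl⟩ := hT z
    rw [hgT] at hz
    rw [Submodule.Quotient.mk_eq_zero]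
    exact ⟨z₁, hT' hz⟩
  let ψ : (M' ⧸ W₀) →ₗ[K] (L' ⧸ LinearMap.range g) :=
    Submodule.mapQ W₀ (LinearMap.range g) r' (fun w hw => hW w hw)
  have hψ : ∀ n' : M', ψ (Submodule.Quotient.mk n') = Submodule.Quotient.mk (r' n') :=
    fun n' => rfl
  have hI : ∀ v ∈ LinearMap.range ψ, Tbar v ∈ LinearMap.range ψ := by
    rintro _ ⟨q, rfl⟩
    obtain ⟨n', rfl⟩ := Submodule.Quotient.mk_surjective _ q
    refine ⟨Submodule.Quotient.mk (X' n'), ?_⟩
    rw [hψ, hψ, hTbar, hr'X]
  have habs' : ∀ v : L' ⧸ LinearMap.range g, ∃ k : ℕ, (Tbar ^ k) v ∈ LinearMap.range ψ := by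
    intro v
    obtain ⟨z', rfl⟩ := Submodule.Quotient.mk_surjective _ v
    obtain ⟨k, n', hk⟩ := habs z'
    refine ⟨k, Submodule.Quotient.mk n', ?_⟩
    rw [hψ, hTbar_pow, hk]
  have htop := eq_top_of_absorbing Tbar hinj (LinearMap.range ψ) hI habs'
  rw [eq_top_iff]
  intro z' _
  have hz' : (Submodule.Quotient.mk z' : L' ⧸ LinearMap.range g) ∈ LinearMap.range ψ := by
    rw [htop]; trivial
  obtain ⟨q, hq⟩ := hz'
  obtain ⟨n', rfl⟩ := Submodule.Quotient.mk_surjective _ q
  rw [hψ] at hq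
  have h1 : z' - r' n' ∈ LinearMap.range g := by
    rw [← Submodule.Quotient.mk_eq_zero, Submodule.Quotient.mk_sub, hq, sub_self]
  have h2 : z' = (z' - r' n') + r' n' := by abel
  rw [h2]
  exact Submodule.add_mem_sup h1 ⟨n', rfl⟩

/-- Under the hypotheses of `range_sup_range_eq_top`, the cokernel of `g` is a quotient of
`M'/W₀`. -/
theorem finrank_coker_le {M' L L' : Type*} [AddCommGroup M'] [AddCommGroup L]
    [AddCommGroup L'] [Module K M'] [Module K L] [Module K L']
    (W₀ : Submodule K M') [FiniteDimensional K (M' ⧸ W₀)]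
    (g : L →ₗ[K] L') (r' : M' →ₗ[K] L')
    (hW : ∀ w ∈ W₀, r' w ∈ LinearMap.range g)
    (hsup : LinearMap.range g ⊔ LinearMap.range r' = ⊤) :
    FiniteDimensional K (L' ⧸ LinearMap.range g) ∧
      Module.finrank K (L' ⧸ LinearMap.range g) ≤ Module.finrank K (M' ⧸ W₀) := by
  let ψ : (M' ⧸ W₀) →ₗ[K] (L' ⧸ LinearMap.range g) :=
    Submodule.mapQ W₀ (LinearMap.range g) r' (fun w hw => hW w hw)
  have hψ : Function.Surjective ψ := by
    intro q
    obtain ⟨z', rfl⟩ := Submodule.Quotient.mk_surjective _ q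
    have hz' : z' ∈ LinearMap.range g ⊔ LinearMap.range r' := by rw [hsup]; trivial
    obtain ⟨_, ⟨z, rfl⟩, _, ⟨n', rfl⟩, rfl⟩ := Submodule.mem_sup.mp hz'
    refine ⟨Submodule.Quotient.mk n', ?_⟩
    show Submodule.Quotient.mk (r' n') = (Submodule.Quotient.mk (g z + r' n') :
      L' ⧸ LinearMap.range g)
    have hz : (Submodule.Quotient.mk (g z) : L' ⧸ LinearMap.range g) = 0 :=
      (Submodule.Quotient.mk_eq_zero _).2 (LinearMap.mem_range_self g z)
    rw [Submodule.Quotient.mk_add, hz, zero_add]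
  exact ⟨Module.Finite.of_surjective ψ hψ, LinearMap.finrank_le_finrank_of_surjective hψ⟩

end LinAlg

section Hom

variable {A R₀ R₁ R₀₁ : Type u} [CommRing A] [CommRing R₀] [CommRing R₁]
    [CommRing R₀₁] [Algebra A R₀] [Algebra A R₁] [Algebra A R₀₁] [Algebra R₀ R₀₁]
    [Algebra R₁ R₀₁] [IsScalarTower A R₀ R₀₁] [IsScalarTower A R₁ R₀₁]

/-- A morphism of gluing data. -/
structure GlueHom (G G' : GlueDatum A R₀ R₁ R₀₁) where
  f₀ : G.N₀ →ₗ[R₀] G'.N₀
  f₁ : G.N₁ →ₗ[R₁] G'.N₁
  f₀₁ : G.N₀₁ →ₗ[R₀₁] G'.N₀₁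
  comm₀ : ∀ s, f₀₁ (G.r₀ s) = G'.r₀ (f₀ s)
  comm₁ : ∀ s, f₀₁ (G.r₁ s) = G'.r₁ (f₁ s)

namespace GlueHom

variable {G G' : GlueDatum A R₀ R₁ R₀₁} (φ : GlueHom G G')

/-- The `A`-linear map on `N₀ × N₁`. -/
def fProd : (G.N₀ × G.N₁) →ₗ[A] (G'.N₀ × G'.N₁) :=
  (φ.f₀.restrictScalars A).prodMap (φ.f₁.restrictScalars A)

/-- The `A`-linear map on `N₀₁`. -/
def fMid : G.N₀₁ →ₗ[A] G'.N₀₁ := φ.f₀₁.restrictScalars A

@[simp] theorem fProd_apply (p : G.N₀ × G.N₁) : φ.fProd p = (φ.f₀ p.1, φ.f₁ p.2) := rfl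

@[simp] theorem fMid_apply (z : G.N₀₁) : φ.fMid z = φ.f₀₁ z := rfl

theorem cech_apply (G : GlueDatum A R₀ R₁ R₀₁) (p : G.N₀ × G.N₁) :
    G.cech p = G.r₀ p.1 - G.r₁ p.2 := by
  simp [GlueDatum.cech, sub_eq_add_neg]

/-- A morphism of gluing data is a morphism of Čech complexes. -/
theorem cech_comm : G'.cech ∘ₗ φ.fProd = φ.fMid ∘ₗ G.cech := by
  ext p <;>
  simp [cech_apply, φ.comm₀, φ.comm₁]

theorem fProd_injective (h₀ : Function.Injective φ.f₀) (h₁ : Function.Injective φ.f₁) :
    Function.Injective φ.fProd := by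
  rintro ⟨a, b⟩ ⟨a', b'⟩ h
  simp only [fProd_apply, Prod.mk.injEq] at h
  exact Prod.ext (h₀ h.1) (h₁ h.2)

end GlueHom

end Hom

section Away

variable {K : Type u} [Field K]

/-- Multiplication by a ring element, as a `K`-linear endomorphism. -/
def smulEnd (K : Type*) [Field K] {R : Type*} [CommRing R] [Algebra K R] (x : R) (L : Type*)
    [AddCommGroup L] [Module R L] [Module K L] [IsScalarTower K R L] : L →ₗ[K] L where
  toFun z := x • z
  map_add' := smul_add x
  map_smul' c z := by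
    simp only [RingHom.id_apply]
    exact smul_comm x c z

@[simp] theorem smulEnd_apply (K : Type*) [Field K] {R : Type*} [CommRing R] [Algebra K R]
    (x : R) (L : Type*) [AddCommGroup L] [Module R L] [Module K L] [IsScalarTower K R L]
    (z : L) : smulEnd K x L z = x • z := rfl

theorem smulEnd_pow_apply (K : Type*) [Field K] {R : Type*} [CommRing R] [Algebra K R]
    (x : R) (L : Type*) [AddCommGroup L] [Module R L] [Module K L] [IsScalarTower K R L]
    (k : ℕ) (z : L) : ((smulEnd K x L) ^ k) z = x ^ k • z := by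
  induction k generalizing z with
  | zero => simp
  | succ k ih => rw [pow_succ, Module.End.mul_apply, smulEnd_apply, ih, pow_succ, mul_smul]

/-- **Finite-length modules map onto their localization**, module form: if `N'/f N` is
finite-dimensional over `K`, `L' = N'[1/x]` and `g : L → L'` is the localization of
`f : N → N'`, then `L' = g L + r' N'`. -/
theorem sup_range_eq_top_of_away {R R' : Type u} [CommRing R] [CommRing R'] [Algebra K R]
    [Algebra K R'] [Algebra R R'] [IsScalarTower K R R'] (x : R) [IsLocalization.Away x R']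
    {N N' L L' : Type u} [AddCommGroup N] [AddCommGroup N'] [AddCommGroup L] [AddCommGroup L']
    [Module R N] [Module R N'] [Module K N] [Module K N'] [IsScalarTower K R N]
    [IsScalarTower K R N']
    [Module R' L] [Module R L] [IsScalarTower R R' L] [Module K L] [IsScalarTower K R' L]
    [IsScalarTower K R L]
    [Module R' L'] [Module R L'] [IsScalarTower R R' L'] [Module K L'] [IsScalarTower K R' L']
    [IsScalarTower K R L']
    (f : N →ₗ[R] N') (g : L →ₗ[R'] L') (r : N →ₗ[R] L) (r' : N' →ₗ[R] L')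
    (hr' : IsBaseChange R' r') (hcomm : ∀ n, g (r n) = r' (f n))
    [FiniteDimensional K (N' ⧸ LinearMap.range (f.restrictScalars K))] :
    LinearMap.range (g.restrictScalars K) ⊔ LinearMap.range (r'.restrictScalars K) = ⊤ := by
  have hloc : IsLocalizedModule (Submonoid.powers x) r' :=
    (isLocalizedModule_iff_isBaseChange (Submonoid.powers x) R' r').2 hr'
  have hu : IsUnit (algebraMap R R' x) := IsLocalization.Away.algebraMap_isUnit x
  obtain ⟨u, hu⟩ := hu
  have hxL : ∀ z : L, x • z = (u : R') • z := fun z => by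
    rw [hu, algebraMap_smul]
  have hxL' : ∀ z : L', x • z = (u : R') • z := fun z => by
    rw [hu, algebraMap_smul]
  refine range_sup_range_eq_top (LinearMap.range (f.restrictScalars K)) (smulEnd K x N')
    (smulEnd K x L) ?_ (smulEnd K x L') ?_ (g.restrictScalars K) ?_ (r'.restrictScalars K)
    ?_ ?_ ?_
  · intro z
    refine ⟨((u⁻¹ : R'ˣ) : R') • z, ?_⟩
    rw [smulEnd_apply, hxL, smul_smul, Units.mul_inv, one_smul]
  · intro a b hab
    simp only [smulEnd_apply, hxL'] at hab
    have := congrArg (fun w => ((u⁻¹ : R'ˣ) : R') • w) hab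
    simpa [smul_smul] using this
  · intro z
    simp only [smulEnd_apply, LinearMap.restrictScalars_apply, hxL, hxL', map_smul]
  · intro n
    simp only [smulEnd_apply, LinearMap.restrictScalars_apply, map_smul]
  · rintro _ ⟨n, rfl⟩
    exact ⟨r n, hcomm n⟩
  · intro z'
    obtain ⟨⟨n', s⟩, hs⟩ := IsLocalizedModule.surj (Submonoid.powers x) r' z'
    obtain ⟨k, hk⟩ := s.2
    refine ⟨k, n', ?_⟩
    rw [smulEnd_pow_apply, LinearMap.restrictScalars_apply, ← hs]
    have hk' : x ^ k = (s : R) := hk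
    rw [hk']
    rfl

/-- The localization of an injective map is injective (elementwise form). -/
theorem injective_of_away {R R' : Type u} [CommRing R] [CommRing R'] [Algebra R R']
    (x : R) [IsLocalization.Away x R']
    {N N' L L' : Type u} [AddCommGroup N] [AddCommGroup N'] [AddCommGroup L] [AddCommGroup L']
    [Module R N] [Module R N'] [Module R' L] [Module R L] [IsScalarTower R R' L]
    [Module R' L'] [Module R L'] [IsScalarTower R R' L']
    (f : N →ₗ[R] N') (g : L →ₗ[R'] L') (r : N →ₗ[R] L) (r' : N' →ₗ[R] L')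
    (hr : IsBaseChange R' r) (hr' : IsBaseChange R' r') (hcomm : ∀ n, g (r n) = r' (f n))
    (hf : Function.Injective f) : Function.Injective g := by
  have hloc : IsLocalizedModule (Submonoid.powers x) r :=
    (isLocalizedModule_iff_isBaseChange (Submonoid.powers x) R' r).2 hr
  have hloc' : IsLocalizedModule (Submonoid.powers x) r' :=
    (isLocalizedModule_iff_isBaseChange (Submonoid.powers x) R' r').2 hr'
  rw [← LinearMap.ker_eq_bot, LinearMap.ker_eq_bot']
  intro z hz
  obtain ⟨⟨n, s⟩, hs⟩ := IsLocalizedModule.surj (Submonoid.powers x) r z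
  have hs' : (s : R) • z = r n := hs
  have h1 : r' (f n) = 0 := by
    rw [← hcomm, ← hs', ← algebraMap_smul R' (s : R) z, map_smul, hz, smul_zero]
  obtain ⟨c, hc⟩ := (IsLocalizedModule.eq_zero_iff (Submonoid.powers x) r').1 h1
  have hc' : (c : R) • f n = 0 := hc
  have h2 : (c : R) • n = 0 := by
    apply hf
    rw [map_smul, hc', map_zero]
  have h3 : (c * s) • z = 0 := by
    show ((c * s : Submonoid.powers x) : R) • z = 0
    rw [Submonoid.coe_mul, mul_smul, hs', ← map_smul, h2, map_zero]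
  exact (IsLocalizedModule.smul_inj r (c * s) z 0).1 (by rw [h3, smul_zero])

end Away

section Main

variable {K R₀ R₁ R₀₁ : Type u} [Field K] [CommRing R₀] [CommRing R₁]
    [CommRing R₀₁] [Algebra K R₀] [Algebra K R₁] [Algebra K R₀₁] [Algebra R₀ R₀₁]
    [Algebra R₁ R₀₁] [IsScalarTower K R₀ R₀₁] [IsScalarTower K R₁ R₀₁]
    {G G' : GlueDatum K R₀ R₁ R₀₁}

namespace GlueHom

variable (φ : GlueHom G G')

/-- The cokernel of `φ` on the chart `Spec R₀`, as a `K`-vector space. -/
abbrev coker₀ : Type u := G'.N₀ ⧸ LinearMap.range (φ.f₀.restrictScalars K)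

/-- The cokernel of `φ` on the chart `Spec R₁`, as a `K`-vector space. -/
abbrev coker₁ : Type u := G'.N₁ ⧸ LinearMap.range (φ.f₁.restrictScalars K)

/-- The cokernel of `φ` on the intersection, as a `K`-vector space. -/
abbrev coker₀₁ : Type u := G'.N₀₁ ⧸ LinearMap.range φ.fMid

theorem f₀₁_injective (x : R₀) [IsLocalization.Away x R₀₁] (h₀ : Function.Injective φ.f₀) :
    Function.Injective φ.f₀₁ :=
  injective_of_away x φ.f₀ φ.f₀₁ G.r₀ G'.r₀ G.isBaseChange₀ G'.isBaseChange₀ φ.comm₀ h₀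

theorem sup_range_r₀ (x : R₀) [IsLocalization.Away x R₀₁] [FiniteDimensional K φ.coker₀] :
    LinearMap.range φ.fMid ⊔ LinearMap.range (G'.r₀.restrictScalars K) = ⊤ :=
  sup_range_eq_top_of_away x φ.f₀ φ.f₀₁ G.r₀ G'.r₀ G'.isBaseChange₀ φ.comm₀

theorem sup_range_r₁ (y : R₁) [IsLocalization.Away y R₀₁] [FiniteDimensional K φ.coker₁] :
    LinearMap.range φ.fMid ⊔ LinearMap.range (G'.r₁.restrictScalars K) = ⊤ :=
  sup_range_eq_top_of_away y φ.f₁ φ.f₀₁ G.r₁ G'.r₁ G'.isBaseChange₁ φ.comm₁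

/-- `Q₀₁` is a quotient of `Q₀`. -/
theorem finrank_coker₀₁_le₀ (x : R₀) [IsLocalization.Away x R₀₁]
    [FiniteDimensional K φ.coker₀] :
    FiniteDimensional K φ.coker₀₁ ∧
      Module.finrank K φ.coker₀₁ ≤ Module.finrank K φ.coker₀ :=
  finrank_coker_le (LinearMap.range (φ.f₀.restrictScalars K)) φ.fMid
    (G'.r₀.restrictScalars K) (by
      rintro _ ⟨n, rfl⟩
      exact ⟨G.r₀ n, φ.comm₀ n⟩) (φ.sup_range_r₀ x)

/-- `Q₀₁` is a quotient of `Q₁`. -/
theorem finrank_coker₀₁_le₁ (y : R₁) [IsLocalization.Away y R₀₁]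
    [FiniteDimensional K φ.coker₁] :
    FiniteDimensional K φ.coker₀₁ ∧
      Module.finrank K φ.coker₀₁ ≤ Module.finrank K φ.coker₁ :=
  finrank_coker_le (LinearMap.range (φ.f₁.restrictScalars K)) φ.fMid
    (G'.r₁.restrictScalars K) (by
      rintro _ ⟨n, rfl⟩
      exact ⟨G.r₁ n, φ.comm₁ n⟩) (φ.sup_range_r₁ y)

theorem euler_eq_chi (G : GlueDatum K R₀ R₁ R₀₁) : G.euler = chi G.cech := rfl

/-- **D3 (modification).** For an injective morphism of gluing data over a field with
finite-dimensional cokernels `Q₀`, `Q₁`: finiteness of cohomology passes from `G` to `G'` and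
`χ(G') = χ(G) + dim Q₀ + dim Q₁ - dim Q₀₁`. -/
theorem euler_eq (x : R₀) [IsLocalization.Away x R₀₁]
    (h₀ : Function.Injective φ.f₀) (h₁ : Function.Injective φ.f₁)
    [FiniteDimensional K φ.coker₀] [FiniteDimensional K φ.coker₁] (hG : FinCoh G.cech) :
    FinCoh G'.cech ∧ G'.euler = G.euler + Module.finrank K φ.coker₀
      + Module.finrank K φ.coker₁ - Module.finrank K φ.coker₀₁ := by
  have hQ := (φ.finrank_coker₀₁_le₀ x).1
  have hfin : FiniteDimensional K ((G'.N₀ × G'.N₁) ⧸ LinearMap.range φ.fProd) :=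
    Module.Finite.equiv (quotProdEquiv (φ.f₀.restrictScalars K) (φ.f₁.restrictScalars K)).symm
  have hrank : Module.finrank K ((G'.N₀ × G'.N₁) ⧸ LinearMap.range φ.fProd) =
      Module.finrank K φ.coker₀ + Module.finrank K φ.coker₁ := by
    have e := LinearEquiv.finrank_eq
      (quotProdEquiv (φ.f₀.restrictScalars K) (φ.f₁.restrictScalars K))
    rw [Module.finrank_prod] at e
    exact e
  have hinj : Function.Injective φ.fMid := φ.f₀₁_injective x h₀
  obtain ⟨hfc, hchi⟩ := chi_of_morphism φ.cech_comm (φ.fProd_injective h₀ h₁) hinj hG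
  refine ⟨hfc, ?_⟩
  rw [euler_eq_chi, euler_eq_chi, hchi, hrank]
  push_cast
  ring

/-- Converse finiteness: from `G'` to `G`. -/
theorem finCoh_of_finCoh (x : R₀) [IsLocalization.Away x R₀₁]
    (h₀ : Function.Injective φ.f₀) (h₁ : Function.Injective φ.f₁)
    [FiniteDimensional K φ.coker₀] [FiniteDimensional K φ.coker₁] (hG' : FinCoh G'.cech) :
    FinCoh G.cech := by
  have hfin : FiniteDimensional K ((G'.N₀ × G'.N₁) ⧸ LinearMap.range φ.fProd) :=
    Module.Finite.equiv (quotProdEquiv (φ.f₀.restrictScalars K) (φ.f₁.restrictScalars K)).symm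
  exact finCoh_of_morphism φ.cech_comm (φ.fProd_injective h₀ h₁) (φ.f₀₁_injective x h₀) hG'

/-- **D3 (surjectivity on `H¹`).** If `Q₀` is finite-dimensional, then `H¹(G) → H¹(G')` is
onto; in particular `H¹(G) = 0` implies `H¹(G') = 0`. -/
theorem cech_surjective (x : R₀) [IsLocalization.Away x R₀₁] [FiniteDimensional K φ.coker₀]
    (hs : Function.Surjective G.cech) : Function.Surjective G'.cech := by
  refine surjective_of_morphism φ.cech_comm ?_ hs
  rw [eq_top_iff, ← φ.sup_range_r₀ x]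
  refine sup_le_sup_left ?_ _
  rintro _ ⟨n, rfl⟩
  refine ⟨(n, 0), ?_⟩
  rw [cech_apply]
  simp

/-- **D3 (monotonicity of `χ`).** `χ(G') ≥ χ(G) + max (dim Q₀, dim Q₁)`. -/
theorem euler_ge (x : R₀) (y : R₁) [IsLocalization.Away x R₀₁] [IsLocalization.Away y R₀₁]
    (h₀ : Function.Injective φ.f₀) (h₁ : Function.Injective φ.f₁)
    [FiniteDimensional K φ.coker₀] [FiniteDimensional K φ.coker₁] (hG : FinCoh G.cech) :
    G.euler + Module.finrank K φ.coker₀ ≤ G'.euler ∧
      G.euler + Module.finrank K φ.coker₁ ≤ G'.euler := by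
  have h := (φ.euler_eq x h₀ h₁ hG).2
  have ha := (φ.finrank_coker₀₁_le₀ x).2
  have hb := (φ.finrank_coker₀₁_le₁ y).2
  constructor <;> omega

/-- **D3 (equality case).** If `χ(G') = χ(G)` then `φ` is an isomorphism on both charts. -/
theorem surjective_of_euler_eq (x : R₀) (y : R₁) [IsLocalization.Away x R₀₁]
    [IsLocalization.Away y R₀₁]
    (h₀ : Function.Injective φ.f₀) (h₁ : Function.Injective φ.f₁)
    [FiniteDimensional K φ.coker₀] [FiniteDimensional K φ.coker₁] (hG : FinCoh G.cech)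
    (heq : G'.euler = G.euler) :
    Function.Surjective φ.f₀ ∧ Function.Surjective φ.f₁ := by
  obtain ⟨ha, hb⟩ := φ.euler_ge x y h₀ h₁ hG
  have h0 : Module.finrank K φ.coker₀ = 0 := by omega
  have h1 : Module.finrank K φ.coker₁ = 0 := by omega
  rw [Module.finrank_zero_iff, Submodule.Quotient.subsingleton_iff,
    LinearMap.range_eq_top] at h0 h1
  exact ⟨h0, h1⟩

end GlueHom

end Main

end Fermat.Agent.S25.H565

end
-- ===== PACK-END S25/H565/GlueHom.lean

-- ===== PACK-BEGIN S25/H910/DegreeBound.lean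
section
/-
S25, block CECH, leaf K1a (helper910): the degree bound.
`H⁰(L(m∞)) = ker (d m)` of a two-chart Čech datum is contained in a finitely generated
`A`-submodule of `N0 × N1`.
-/


set_option autoImplicit false

namespace Fermat.Agent.S25.H910

open Polynomial Fermat.Agent.S25.H10

universe u v

section Vec

variable {A : Type u} [CommRing A]

/-- Vectors of polynomials of degree `≤ d`. -/
noncomputable def vecDegLE (A : Type u) [CommRing A] (n d : ℕ) : Submodule A (Fin n → A[X]) :=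
  Submodule.pi Set.univ (fun _ => Polynomial.degreeLE A (d : WithBot ℕ))

theorem mem_vecDegLE {n d : ℕ} {w : Fin n → A[X]} :
    w ∈ vecDegLE A n d ↔ ∀ i, ∀ t, d < t → (w i).coeff t = 0 := by
  simp only [vecDegLE, Submodule.mem_pi, Set.mem_univ, true_imp_iff, Polynomial.mem_degreeLE,
    Polynomial.degree_le_iff_coeff_zero, Nat.cast_lt]

theorem vecDegLE_fg (n d : ℕ) : (vecDegLE A n d).FG := by
  classical
  refine Submodule.fg_pi fun i => ?_
  rw [Polynomial.degreeLE_eq_span_X_pow]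
  exact Submodule.fg_span (Finset.finite_toSet _)

theorem vecDegLE_mono {n d d' : ℕ} (h : d ≤ d') : vecDegLE A n d ≤ vecDegLE A n d' := by
  intro w hw
  rw [mem_vecDegLE] at hw ⊢
  exact fun i t ht => hw i t (lt_of_le_of_lt h ht)

theorem X_pow_smul_mem_vecDegLE {n d k : ℕ} {w : Fin n → A[X]} (hw : w ∈ vecDegLE A n d) :
    (X ^ k : A[X]) • w ∈ vecDegLE A n (k + d) := by
  rw [mem_vecDegLE] at hw ⊢
  intro i t ht
  have h7 : t = (t - k) + k := by omega
  rw [Pi.smul_apply, smul_eq_mul, h7, Polynomial.coeff_X_pow_mul]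
  exact hw i _ (by omega)

theorem exists_mem_vecDegLE {n : ℕ} (w : Fin n → A[X]) : ∃ e : ℕ, w ∈ vecDegLE A n e := by
  refine ⟨Finset.univ.sup fun i => (w i).natDegree, ?_⟩
  rw [mem_vecDegLE]
  intro i t ht
  apply Polynomial.coeff_eq_zero_of_natDegree_lt
  exact lt_of_le_of_lt (Finset.le_sup (f := fun i => (w i).natDegree) (Finset.mem_univ i)) ht

/-- Decomposition of a vector of polynomials of degree `≤ e` into monomial vectors. -/
theorem vec_eq_sum {n e : ℕ} {w : Fin n → A[X]} (hw : w ∈ vecDegLE A n e) :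
    w = ∑ j : Fin n, ∑ i ∈ Finset.range (e + 1),
      (w j).coeff i • ((X ^ i : A[X]) • (Pi.single j (1 : A[X]) : Fin n → A[X])) := by
  classical
  rw [mem_vecDegLE] at hw
  funext j'
  rw [Finset.sum_apply]
  simp only [Finset.sum_apply, Pi.smul_apply, Pi.single_apply, smul_eq_mul, mul_ite, mul_one,
    mul_zero, smul_ite, smul_zero]
  rw [Finset.sum_eq_single j']
  · simp only [if_true]
    have hdeg : (w j').natDegree < e + 1 := by
      rw [Nat.lt_succ_iff, Polynomial.natDegree_le_iff_coeff_eq_zero]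
      exact fun t ht => hw j' t ht
    conv_lhs => rw [Polynomial.as_sum_range' (w j') (e + 1) hdeg]
    refine Finset.sum_congr rfl fun i _ => ?_
    rw [← Polynomial.C_mul_X_pow_eq_monomial, Polynomial.smul_eq_C_mul]
  · intro j _ hj
    refine Finset.sum_eq_zero fun i _ => ?_
    rw [if_neg (Ne.symm hj)]
  · intro h
    exact absurd (Finset.mem_univ j') h

end Vec

section Ops

variable {A : Type u} [CommRing A] {N : Type v} [AddCommGroup N] [Module A N]
  {E : Module.End A N}

theorem iota_pow {n : ℕ} (ι : N →ₗ[A] (Fin n → A[X]))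
    (hι : ∀ v, ι (E v) = (X : A[X]) • ι v) (k : ℕ) (v : N) :
    ι ((E ^ k) v) = (X ^ k : A[X]) • ι v := by
  induction k generalizing v with
  | zero => simp
  | succ k ih => rw [pow_succ, Module.End.mul_apply, ih, hι, smul_smul, ← pow_succ]

theorem pi_pow {n : ℕ} (π : (Fin n → A[X]) →ₗ[A] N)
    (hπ : ∀ w, π ((X : A[X]) • w) = E (π w)) (k : ℕ) (w : Fin n → A[X]) :
    π ((X ^ k : A[X]) • w) = (E ^ k) (π w) := by
  induction k generalizing w with
  | zero => simp
  | succ k ih => rw [pow_succ', mul_smul, hπ, ih, ← Module.End.mul_apply, ← pow_succ']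

end Ops

section Bound

variable {A : Type u} [CommRing A] {N0 N1 N01 : Type v}
  [AddCommGroup N0] [AddCommGroup N1] [AddCommGroup N01]
  [Module A N0] [Module A N1] [Module A N01]

/-- The datum with the two charts exchanged. -/
def swapOps (D : CechOps A N0 N1 N01) : CechOps A N1 N0 N01 where
  X0 := D.Y1
  Y1 := D.X0
  T := D.Tinv
  Tinv := D.T
  r0 := D.r1
  r1 := D.r0
  T_mul_Tinv := D.Tinv_mul_T
  Tinv_mul_T := D.T_mul_Tinv
  r0_X0 := D.r1_Y1
  r1_Y1 := D.r0_X0
  loc0 := D.loc1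
  loc1 := D.loc0

theorem mem_H0_swapOps (D : CechOps A N0 N1 N01) (m : ℕ) (a : N0) (b : N1) :
    (b, a) ∈ (swapOps D).H0 m ↔ (a, b) ∈ D.H0 m := by
  rw [CechOps.mem_ker_d, CechOps.mem_ker_d]
  show D.r1 b = (D.Tinv ^ m) (D.r0 a) ↔ D.r0 a = (D.T ^ m) (D.r1 b)
  constructor
  · intro h
    rw [h, D.T_pow_Tinv_pow_apply]
  · intro h
    rw [h, D.Tinv_pow_T_pow_apply]

/-- One-sided degree bound: the first components of `H⁰(L(m∞))` lie in a finitely generated
`A`-submodule of `N0`. -/
theorem exists_fg_fst_bound (D : CechOps A N0 N1 N01) (h0 : IsFGProj D.X0)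
    (h1 : IsFGProj D.Y1) (hr0 : Function.Injective D.r0) (m : ℕ) :
    ∃ M0 : Submodule A N0, M0.FG ∧ ∀ p : N0 × N1, p ∈ D.H0 m → p.1 ∈ M0 := by
  obtain ⟨n0, ι0, π0, hπι0, hι0, hπ0⟩ := h0
  obtain ⟨n1, ι1, π1, hπι1, hι1, hπ1⟩ := h1
  -- Step A: a common exponent
  have hA : ∃ K : ℕ, ∀ j : Fin n1, ∃ nj : N0,
      (D.T ^ K) (D.r1 (π1 (Pi.single j 1))) = D.r0 nj := by
    choose k nn hk using fun j : Fin n1 => D.loc0 (D.r1 (π1 (Pi.single j 1)))
    refine ⟨Finset.univ.sup k, fun j => ⟨(D.X0 ^ (Finset.univ.sup k - k j)) (nn j), ?_⟩⟩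
    have hle : k j ≤ Finset.univ.sup k := Finset.le_sup (Finset.mem_univ j)
    rw [D.r0_X0_pow, ← hk j, ← Module.End.mul_apply, ← pow_add, Nat.sub_add_cancel hle]
  obtain ⟨K, hK⟩ := hA
  choose nn hnn using hK
  -- Step B: a common degree
  obtain ⟨Dg, hDg⟩ : ∃ Dg : ℕ, ∀ j, ι0 (nn j) ∈ vecDegLE A n0 Dg := by
    choose dj hdj using fun j => exists_mem_vecDegLE (ι0 (nn j))
    exact ⟨Finset.univ.sup dj, fun j =>
      vecDegLE_mono (Finset.le_sup (Finset.mem_univ j)) (hdj j)⟩
  refine ⟨(vecDegLE A n0 (m + Dg)).map π0, (vecDegLE_fg n0 (m + Dg)).map π0, ?_⟩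
  rintro ⟨a, b⟩ hab
  rw [CechOps.mem_ker_d] at hab
  simp only at hab
  -- Step C
  have hC : ∀ e : ℕ, ∀ w ∈ vecDegLE A n1 e, ∃ n : N0,
      ι0 n ∈ vecDegLE A n0 (e + Dg) ∧ (D.T ^ (K + e)) (D.r1 (π1 w)) = D.r0 n := by
    intro e
    let S : Submodule A (Fin n1 → A[X]) :=
      Submodule.comap ((D.T ^ (K + e)) ∘ₗ D.r1 ∘ₗ π1)
        (Submodule.map D.r0 (Submodule.comap ι0 (vecDegLE A n0 (e + Dg))))
    have hgen : ∀ (j : Fin n1) (i : ℕ), i ≤ e →
        ((X ^ i : A[X]) • (Pi.single j (1 : A[X]) : Fin n1 → A[X])) ∈ S := by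
      intro j i hi
      refine ⟨(D.X0 ^ (e - i)) (nn j), ?_, ?_⟩
      · show ι0 ((D.X0 ^ (e - i)) (nn j)) ∈ vecDegLE A n0 (e + Dg)
        rw [iota_pow ι0 hι0]
        exact vecDegLE_mono (by omega) (X_pow_smul_mem_vecDegLE (hDg j))
      · show D.r0 _ = (D.T ^ (K + e)) (D.r1 (π1 _))
        rw [pi_pow π1 hπ1, D.r1_Y1_pow, D.r0_X0_pow, ← hnn j]
        have hpow : (D.T ^ (K + e)) = D.T ^ (e - i) * D.T ^ K * D.T ^ i := by
          rw [← pow_add, ← pow_add]
          congr 1
          omega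
        rw [hpow, Module.End.mul_apply, D.T_pow_Tinv_pow_apply, Module.End.mul_apply]
    intro w hw
    have hwS : w ∈ S := by
      rw [vec_eq_sum hw]
      exact Submodule.sum_mem _ fun j _ => Submodule.sum_mem _ fun i hi =>
        Submodule.smul_mem _ _ (hgen j i (by simpa [Nat.lt_succ_iff] using hi))
    obtain ⟨n, hn1, hn2⟩ := hwS
    exact ⟨n, hn1, hn2.symm⟩
  -- Step D
  obtain ⟨e, he⟩ := exists_mem_vecDegLE (ι1 b)
  obtain ⟨n, hn1, hn2⟩ := hC e (ι1 b) he
  have hb : π1 (ι1 b) = b := LinearMap.congr_fun hπι1 b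
  rw [hb] at hn2
  have h3 : (D.X0 ^ (K + e)) a = (D.X0 ^ m) n := by
    apply hr0
    rw [D.r0_X0_pow, D.r0_X0_pow, hab, ← hn2, ← Module.End.mul_apply, ← Module.End.mul_apply,
      ← pow_add, ← pow_add, add_comm]
  have h4 : (X ^ (K + e) : A[X]) • ι0 a = (X ^ m : A[X]) • ι0 n := by
    rw [← iota_pow ι0 hι0, ← iota_pow ι0 hι0, h3]
  refine ⟨ι0 a, ?_, LinearMap.congr_fun hπι0 a⟩
  rw [SetLike.mem_coe, mem_vecDegLE]
  intro i t ht
  have h5 := congrFun h4 i
  simp only [Pi.smul_apply, smul_eq_mul] at h5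
  have h6 : (ι0 a i).coeff t = ((X ^ (K + e) : A[X]) * ι0 a i).coeff (t + (K + e)) := by
    rw [Polynomial.coeff_X_pow_mul]
  rw [h6, h5]
  have h7 : t + (K + e) = (t + (K + e) - m) + m := by omega
  rw [h7, Polynomial.coeff_X_pow_mul]
  exact (mem_vecDegLE.mp hn1) i _ (by omega)

/-- **K1a (degree bound).** `H⁰(L(m∞))` is contained in a finitely generated `A`-submodule. -/
theorem exists_fg_ge_H0 (D : CechOps A N0 N1 N01) (h0 : IsFGProj D.X0) (h1 : IsFGProj D.Y1)
    (hr0 : Function.Injective D.r0) (hr1 : Function.Injective D.r1)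
    (m : ℕ) : ∃ M : Submodule A (N0 × N1), M.FG ∧ D.H0 m ≤ M := by
  obtain ⟨M0, hM0, hM0'⟩ := exists_fg_fst_bound D h0 h1 hr0 m
  obtain ⟨M1, hM1, hM1'⟩ := exists_fg_fst_bound (swapOps D) h1 h0 hr1 m
  refine ⟨M0.prod M1, hM0.prod hM1, ?_⟩
  rintro ⟨a, b⟩ hab
  exact ⟨hM0' (a, b) hab, hM1' (b, a) ((mem_H0_swapOps D m a b).mpr hab)⟩

end Bound

end Fermat.Agent.S25.H910

end
-- ===== PACK-END S25/H910/DegreeBound.lean

-- ===== PACK-BEGIN S25/H325/GDCIdeal.lean
section
/-
S25 helper (helper325), block GDC item 7: the gluing datum `idealGD I₀ I₁ I₀₁` (= `O(-D)`) of a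
compatible pair of invertible ideals, over the frozen `DefsAlg.lean`.  Pure algebra.
-/




set_option autoImplicit false

universe u

open TensorProduct

namespace Fermat.Agent.S25.H325

open Fermat.Agent.S25

noncomputable section

section IdealBaseChange

variable {R S : Type*} [CommRing R] [CommRing S] [Algebra R S]

/-- The map `I → J`, `a ↦ algebraMap a`, for ideals `I ⊆ R`, `J ⊆ S` with `I · S ≤ J`. -/
def idealRes (I : Ideal R) (J : Ideal S) (h : I.map (algebraMap R S) ≤ J) : I →ₗ[R] J where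
  toFun a := ⟨algebraMap R S a, h (Ideal.mem_map_of_mem _ a.2)⟩
  map_add' a b := by ext; simp
  map_smul' r a := by
    ext
    simp [Algebra.smul_def]

@[simp] theorem idealRes_apply_coe (I : Ideal R) (J : Ideal S)
    (h : I.map (algebraMap R S) ≤ J) (a : I) :
    ((idealRes I J h a : J) : S) = algebraMap R S a := rfl

/-- For a flat `R`-algebra `S` and an ideal `I ⊆ R`, the extended ideal `I · S` is the base
change of `I`. -/
theorem isBaseChange_idealRes [Module.Flat R S] (I : Ideal R) (J : Ideal S)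
    (h : I.map (algebraMap R S) = J) : IsBaseChange S (idealRes I J h.le) := by
  apply isBaseChange_of_bijective_liftBaseChange
  set Ψ := (idealRes I J h.le).liftBaseChange S with hΨ
  -- `J ↪ S` composed with `Ψ` is `S ⊗ I → S ⊗ R ≅ S`
  have hcomp : ∀ z : S ⊗[R] I,
      ((Ψ z : J) : S) = (AlgebraTensorModule.rid R S S) ((I.subtype.lTensor S) z) := by
    intro z
    induction z using TensorProduct.induction_on with
    | zero => simp
    | tmul s a =>
      simp only [hΨ, LinearMap.liftBaseChange_tmul, LinearMap.lTensor_tmul,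
        AlgebraTensorModule.rid_tmul, Submodule.coe_smul, idealRes_apply_coe,
        Submodule.subtype_apply, smul_eq_mul]
      rw [Algebra.smul_def, mul_comm]
    | add x y hx hy => simp only [map_add, Submodule.coe_add, hx, hy]
  constructor
  · intro z z' hzz'
    have h1 : (AlgebraTensorModule.rid R S S) ((I.subtype.lTensor S) z) =
        (AlgebraTensorModule.rid R S S) ((I.subtype.lTensor S) z') := by
      rw [← hcomp, ← hcomp, hzz']
    have h2 := (AlgebraTensorModule.rid R S S).injective h1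
    exact Module.Flat.lTensor_preserves_injective_linearMap (M := S) I.subtype
      Subtype.val_injective h2
  · -- the image is an ideal containing the generators of `J`
    let T : Submodule S S := (LinearMap.range Ψ).map J.subtype
    have hT : J ≤ T := by
      rw [← h, Ideal.map, Ideal.span_le]
      rintro _ ⟨a, ha, rfl⟩
      refine ⟨Ψ ((1 : S) ⊗ₜ[R] (⟨a, ha⟩ : I)), ⟨_, rfl⟩, ?_⟩
      simp [hΨ]
    intro y
    obtain ⟨y', ⟨z, rfl⟩, hz⟩ := hT y.2
    exact ⟨z, Subtype.ext hz⟩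

end IdealBaseChange

variable {A R₀ R₁ R₀₁ : Type u} [CommRing A] [CommRing R₀] [CommRing R₁]
    [CommRing R₀₁] [Algebra A R₀] [Algebra A R₁] [Algebra A R₀₁] [Algebra R₀ R₀₁]
    [Algebra R₁ R₀₁] [IsScalarTower A R₀ R₀₁] [IsScalarTower A R₁ R₀₁]

/-- The gluing datum `O(-D)` of a compatible pair of invertible ideals `I₀ ⊆ R₀`, `I₁ ⊆ R₁`
(with common extension `I₀₁ ⊆ R₀₁`), when `R₀₁` is flat over `R₀` and `R₁` (e.g. a
localization of both). -/
def idealGD [Module.Flat R₀ R₀₁] [Module.Flat R₁ R₀₁] (I₀ : Ideal R₀) (I₁ : Ideal R₁)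
    (I₀₁ : Ideal R₀₁) (h₀ : I₀.map (algebraMap R₀ R₀₁) = I₀₁)
    (h₁ : I₁.map (algebraMap R₁ R₀₁) = I₀₁) (inv₀ : Module.Invertible R₀ I₀)
    (inv₁ : Module.Invertible R₁ I₁) : GlueDatum A R₀ R₁ R₀₁ where
  N₀ := I₀
  N₁ := I₁
  N₀₁ := I₀₁
  r₀ := idealRes I₀ I₀₁ h₀.le
  r₁ := idealRes I₁ I₀₁ h₁.le
  isBaseChange₀ := isBaseChange_idealRes I₀ I₀₁ h₀
  isBaseChange₁ := isBaseChange_idealRes I₁ I₀₁ h₁
  invertible₀ := inv₀
  invertible₁ := inv₁

end

end Fermat.Agent.S25.H325

end
-- ===== PACK-END S25/H325/GDCIdeal.lean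

-- ===== PACK-BEGIN S25/H625/GDTwist.lean
section


/-!
# Row S25, GDC-OPS (helper625): twisting a gluing datum by a unit of `R₀₁`

`twist G u = (N₀, N₁, N₀₁, r₀, u • r₁)`.  For a curve chart and `u = (1 ⊗ x) ^ n` this is
`G(n) = L(n E₀)`: its `H⁰` is `{(a, b) | r₀ a = x ^ n • r₁ b}`.
-/

set_option autoImplicit false
universe u
open scoped TensorProduct

namespace Fermat.Agent.S25.H625

variable {A R₀ R₁ R₀₁ : Type u} [CommRing A] [CommRing R₀] [CommRing R₁]
    [CommRing R₀₁] [Algebra A R₀] [Algebra A R₁] [Algebra A R₀₁] [Algebra R₀ R₀₁]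
    [Algebra R₁ R₀₁] [IsScalarTower A R₀ R₀₁] [IsScalarTower A R₁ R₀₁]

/-- Multiplication by a unit, as a linear equivalence. -/
def unitLinearEquiv {R M : Type*} [CommRing R] [AddCommGroup M] [Module R M] (u : Rˣ) :
    M ≃ₗ[R] M where
  toFun := fun n => (u : R) • n
  invFun := fun n => ((u⁻¹ : Rˣ) : R) • n
  map_add' := fun a b => smul_add _ a b
  map_smul' := fun r n => by
    simp only [RingHom.id_apply]
    rw [smul_smul, smul_smul, mul_comm]
  left_inv := fun n => by
    simp only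
    rw [smul_smul, Units.inv_mul, one_smul]
  right_inv := fun n => by
    simp only
    rw [smul_smul, Units.mul_inv, one_smul]

@[simp] theorem unitLinearEquiv_apply {R M : Type*} [CommRing R] [AddCommGroup M] [Module R M]
    (u : Rˣ) (n : M) : unitLinearEquiv (M := M) u n = (u : R) • n := rfl

/-- Multiplication by a unit of `R₀₁` on `N₀₁`, as a linear equivalence. -/
def unitSMulEquiv (G : GlueDatum A R₀ R₁ R₀₁) (u : R₀₁ˣ) : G.N₀₁ ≃ₗ[R₀₁] G.N₀₁ :=
  unitLinearEquiv u

@[simp] theorem unitSMulEquiv_apply (G : GlueDatum A R₀ R₁ R₀₁) (u : R₀₁ˣ) (n : G.N₀₁) :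
    unitSMulEquiv G u n = (u : R₀₁) • n := rfl

/-- The twist of a gluing datum by a unit `u` of `R₀₁`: the restriction map `r₁` is replaced
by `u • r₁`. -/
def twist (G : GlueDatum A R₀ R₁ R₀₁) (u : R₀₁ˣ) : GlueDatum A R₀ R₁ R₀₁ :=
  { G with
    r₁ := ((unitSMulEquiv G u).toLinearMap.restrictScalars R₁).comp G.r₁
    isBaseChange₁ := IsBaseChange.comp G.isBaseChange₁ (IsBaseChange.ofEquiv (unitSMulEquiv G u)) }

section Basic

variable (G : GlueDatum A R₀ R₁ R₀₁) (u v : R₀₁ˣ)

@[simp] theorem twist_r₀ (a : G.N₀) :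
    (twist G u).r₀ a = (show (twist G u).N₀₁ from G.r₀ a) := rfl

@[simp] theorem twist_r₁ (b : G.N₁) :
    (twist G u).r₁ b = (show (twist G u).N₀₁ from (u : R₀₁) • G.r₁ b) := rfl

theorem twist_cech (p : G.N₀ × G.N₁) :
    (twist G u).cech p = (show (twist G u).N₀₁ from G.r₀ p.1 - (u : R₀₁) • G.r₁ p.2) := by
  simp only [GlueDatum.cech, LinearMap.coprod_apply, LinearMap.coe_restrictScalars,
    LinearMap.neg_apply, sub_eq_add_neg]
  rfl

theorem mem_H0_twist_iff (p : G.N₀ × G.N₁) :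
    (show (twist G u).N₀ × (twist G u).N₁ from p) ∈ (twist G u).H0 ↔
      G.r₀ p.1 = (u : R₀₁) • G.r₁ p.2 := by
  rw [LinearMap.mem_ker, twist_cech]
  exact sub_eq_zero

/-- Isomorphic data have isomorphic twists. -/
theorem isIso_twist {G G' : GlueDatum A R₀ R₁ R₀₁} (h : G.IsIso G') (u : R₀₁ˣ) :
    (twist G u).IsIso (twist G' u) := by
  obtain ⟨i⟩ := h
  have key : ∀ s : G.N₁, i.e₀₁ ((u : R₀₁) • G.r₁ s) = (u : R₀₁) • G'.r₁ (i.e₁ s) := fun s => by
    rw [map_smul, i.comm₁]
  exact ⟨⟨i.e₀, i.e₁, i.e₀₁, i.comm₀, fun s => key s⟩⟩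

/-- Twisting by `1` does nothing. -/
theorem isIso_twist_one : (twist G 1).IsIso G :=
  have key : ∀ s : G.N₁, ((1 : R₀₁ˣ) : R₀₁) • G.r₁ s = G.r₁ s := fun s => by
    rw [Units.val_one, one_smul]
  ⟨⟨LinearEquiv.refl _ _, LinearEquiv.refl _ _, LinearEquiv.refl _ _, fun _ => rfl,
    fun s => key s⟩⟩

/-- Twisting twice is twisting by the product. -/
theorem isIso_twist_twist : (twist (twist G u) v).IsIso (twist G (u * v)) :=
  have key : ∀ s : G.N₁,
      (v : R₀₁) • ((u : R₀₁) • G.r₁ s) = ((u * v : R₀₁ˣ) : R₀₁) • G.r₁ s := fun s => by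
    rw [smul_smul, Units.val_mul, mul_comm]
  ⟨⟨LinearEquiv.refl _ _, LinearEquiv.refl _ _, LinearEquiv.refl _ _, fun _ => rfl,
    fun s => key s⟩⟩

/-- A unit of `R₀` (resp. `R₁`) does not change the isomorphism class:
`twist G (image of a unit of R₁) ≅ G`. -/
theorem isIso_twist_of_unit₁ (w : R₁ˣ) (hw : (u : R₀₁) = algebraMap R₁ R₀₁ w) :
    (twist G u).IsIso G := by
  have key : ∀ s : G.N₁, (u : R₀₁) • G.r₁ s = G.r₁ ((w : R₁) • s) := fun s => by
    rw [map_smul, hw, algebraMap_smul]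
  exact ⟨⟨LinearEquiv.refl _ _, (unitLinearEquiv w : G.N₁ ≃ₗ[R₁] G.N₁),
    LinearEquiv.refl _ _, fun _ => rfl, fun s => key s⟩⟩

end Basic

section BaseChange

variable {A' R₀' R₁' R₀₁' : Type u} [CommRing A'] [CommRing R₀'] [CommRing R₁']
    [CommRing R₀₁'] [Algebra A' R₀'] [Algebra A' R₁'] [Algebra A' R₀₁'] [Algebra R₀' R₀₁']
    [Algebra R₁' R₀₁'] [IsScalarTower A' R₀' R₀₁'] [IsScalarTower A' R₁' R₀₁']

/-- Twisting commutes with base change. -/
theorem isBC_twist {ρ₀ : R₀ →+* R₀'} {ρ₁ : R₁ →+* R₁'} {ρ₀₁ : R₀₁ →+* R₀₁'}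
    {G : GlueDatum A R₀ R₁ R₀₁} {G' : GlueDatum A' R₀' R₁' R₀₁'}
    (h : GlueDatum.IsBC ρ₀ ρ₁ ρ₀₁ G G') (u : R₀₁ˣ) :
    GlueDatum.IsBC ρ₀ ρ₁ ρ₀₁ (twist G u) (twist G' (Units.map ρ₀₁.toMonoidHom u)) := by
  obtain ⟨m⟩ := h
  have key : ∀ s : G.N₁, m.b₀₁ ((u : R₀₁) • G.r₁ s) = (ρ₀₁ (u : R₀₁)) • G'.r₁ (m.b₁ s) :=
    fun s => by rw [LinearMap.map_smulₛₗ, m.comm₁]
  exact ⟨⟨m.b₀, m.b₁, m.b₀₁, m.comm₀, fun s => key s, m.isBaseChange₀, m.isBaseChange₁,
    m.isBaseChange₀₁⟩⟩

end BaseChange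

end Fermat.Agent.S25.H625

end
-- ===== PACK-END S25/H625/GDTwist.lean

-- ===== PACK-BEGIN S26/SpecDeg.lean
section


/-!
# Row S26, block DEG: frozen second-level interface (architect helper987)

Linear systems on an integral scheme `X` are tuples of rational functions `w : ι → K(X)`
(homogeneous coordinates of a map to projective space).  No sheaves of modules are used.
Blueprint: `coord/S26.md` §2–§4, §8.  Only definitions here.
-/

set_option autoImplicit false
universe u

open CategoryTheory CategoryTheory.Limits AlgebraicGeometry NeronModelInfra GoodReductionJacobian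

namespace Fermat.Agent.S26

noncomputable section

/-! ## Function fields -/

section FF

variable {X Y : Scheme.{u}} [IsIntegral X] [IsIntegral Y]

/-- The map of function fields induced by a morphism that preserves the generic point. -/
def ffMap (φ : X ⟶ Y) (h : φ (genericPoint X) = genericPoint Y) :
    Y.functionField →+* X.functionField :=
  ((Y.presheaf.stalkCongr (.of_eq h.symm)).hom ≫ φ.stalkMap (genericPoint X)).hom

/-- The structure map `K → K(X)` of the function field of a scheme over `Spec K`. -/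
def ffStr {K : Type u} [Field K] (str : X ⟶ Spec (CommRingCat.of K)) : K →+* X.functionField :=
  ((Scheme.ΓSpecIso (CommRingCat.of K)).inv ≫ str.appTop ≫
    X.presheaf.germ ⊤ (genericPoint X) (TopologicalSpace.Opens.mem_top _)).hom

/-- The degree of `φ` on function fields: `[K(X) : φ^* K(Y)]`. -/
def ffDeg (φ : X ⟶ Y) (h : φ (genericPoint X) = genericPoint Y) : ℕ :=
  Module.finrank (ffMap φ h).fieldRange X.functionField

end FF

/-! ## Linear systems -/

namespace LS

variable {X : Scheme.{u}} [IsIntegral X] {ι ι' : Type}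

/-- The fractional ideal at `x` generated by the system `w`. -/
def span (w : ι → X.functionField) (x : X) : Submodule (X.presheaf.stalk x) X.functionField :=
  Submodule.span (X.presheaf.stalk x) (Set.range w)

/-- The member `w b` generates the system at `x` (the section `w b` does not vanish at `x`). -/
def GenAt (w : ι → X.functionField) (x : X) (b : ι) : Prop :=
  w b ≠ 0 ∧ span w x = Submodule.span (X.presheaf.stalk x) {w b}

/-- The system is base point free: it generates an invertible sheaf and its members are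
sections of it without common zero. -/
def BPF (w : ι → X.functionField) : Prop := ∀ x : X, ∃ b, GenAt w x b

/-- Base point free, and the non-vanishing locus of every member is an affine open
(the associated map to projective space is finite when `X` is proper). -/
def Good (w : ι → X.functionField) : Prop :=
  BPF w ∧ ∀ b, ∃ U : X.Opens, IsAffineOpen U ∧ ∀ x, x ∈ U ↔ GenAt w x b

/-- Two systems generate the same fractional ideal sheaf. -/
def Same (w : ι → X.functionField) (w' : ι' → X.functionField) : Prop :=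
  ∀ x : X, span w x = span w' x

/-- Two systems generate isomorphic invertible sheaves. -/
def Equiv (w : ι → X.functionField) (w' : ι' → X.functionField) : Prop :=
  ∃ h : X.functionField, h ≠ 0 ∧ Same (fun i => h * w i) w'

/-- The affine coordinates `w i / w 0`, `i = 1, …, g`. -/
def ratios {g : ℕ} (w : Fin (g + 1) → X.functionField) : Fin g → X.functionField :=
  fun i => w i.succ / w 0

variable {K : Type u} [Field K]

/-- The affine coordinates of the system are algebraically independent over `K`. -/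
def Indep (str : X ⟶ Spec (CommRingCat.of K)) {g : ℕ} (w : Fin (g + 1) → X.functionField) :
    Prop :=
  ∀ p : MvPolynomial (Fin g) K, MvPolynomial.eval₂ (ffStr str) (ratios w) p = 0 → p = 0

/-- The subfield `K(w_1/w_0, …, w_g/w_0)` of `K(X)`. -/
def coordField (str : X ⟶ Spec (CommRingCat.of K)) {g : ℕ}
    (w : Fin (g + 1) → X.functionField) : Subfield X.functionField :=
  Subfield.closure (Set.range (ffStr str) ∪ Set.range (ratios w))

/-- The degree `[K(X) : K(w_1/w_0, …, w_g/w_0)]` of the system (`0` if infinite). -/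
def deg (str : X ⟶ Spec (CommRingCat.of K)) {g : ℕ} (w : Fin (g + 1) → X.functionField) : ℕ :=
  Module.finrank (coordField str w) X.functionField

end LS

/-! ## The abelian variety -/

namespace AbVar

variable {K : Type u} [Field K] (X : AbVar K)

/-- The inverse `[-1]` as a morphism of schemes. -/
def negHom : X.A ⟶ X.A := (X.law.inv X.str RelativeGroupLaw.idPoint).1

end AbVar

/-! ## The blocks -/

namespace Stmt

variable (K : Type u) [Field K] [IsAlgClosed K]

/-- SOFT S2: an abelian variety is integral. -/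
def Integral : Prop := ∀ X : AbVar K, IsIntegral X.A

/-- SOFT: `[n]` (`n` invertible) and `[-1]` preserve the generic point. -/
def Generic : Prop :=
  ∀ (X : AbVar K) [IsIntegral X.A],
    X.negHom (genericPoint X.A) = genericPoint X.A ∧
      ∀ n : ℕ, (n : K) ≠ 0 → X.nsmulHom n (genericPoint X.A) = genericPoint X.A

/-- FF2 for `[n]`: the rank of the finite etale morphism `[n]` at the generic point is the
degree of the extension of function fields. -/
def FFRank : Prop :=
  ∀ (X : AbVar K) [IsIntegral X.A] (n : ℕ), (n : K) ≠ 0 →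
    IsFinite (X.nsmulHom n) → Etale (X.nsmulHom n) →
    ∀ h : X.nsmulHom n (genericPoint X.A) = genericPoint X.A,
      (X.nsmulHom n).finrank (genericPoint X.A) = ffDeg (X.nsmulHom n) h

/-- AMPLE: a symmetric good system of `g + 1` functions with algebraically independent affine
coordinates and finite degree (a finite morphism `A → P^g` given by a symmetric line bundle). -/
def Alpha : Prop :=
  ∀ (X : AbVar K) [IsIntegral X.A]
    (hneg : X.negHom (genericPoint X.A) = genericPoint X.A),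
    ∃ u : Fin (X.dim + 1) → X.A.functionField,
      LS.Good u ∧ LS.Indep X.str u ∧ 0 < LS.deg X.str u ∧
        LS.Equiv (fun i => ffMap X.negHom hneg (u i)) u

/-- NQUAD (theorem of the cube): for a symmetric base point free system `w`,
`[n]^* w` and `w ^ (n²)` generate isomorphic invertible sheaves. -/
def NQuad : Prop :=
  ∀ (X : AbVar K) [IsIntegral X.A]
    (hneg : X.negHom (genericPoint X.A) = genericPoint X.A) (d : ℕ)
    (w : Fin (d + 1) → X.A.functionField), LS.BPF w →
    LS.Equiv (fun i => ffMap X.negHom hneg (w i)) w →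
    ∀ (n : ℕ) (hn : X.nsmulHom n (genericPoint X.A) = genericPoint X.A),
      LS.Equiv (fun i => ffMap (X.nsmulHom n) hn (w i)) (fun i => w i ^ (n ^ 2))

/-- BETA: on an integral proper scheme over an algebraically closed field, two good systems
of `g + 1` sections of the same invertible sheaf, with algebraically independent affine
coordinates, have the same degree. -/
def Beta : Prop :=
  ∀ (X : Scheme.{u}) [IsIntegral X] (str : X ⟶ Spec (CommRingCat.of K)) [IsProper str] (g : ℕ)
    (w w' : Fin (g + 1) → X.functionField), LS.Good w → LS.Good w' → LS.Same w w' →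
    LS.Indep str w → LS.Indep str w' → LS.deg str w = LS.deg str w'

/-- LS3 + LS5: pull-back of a good system along a finite morphism preserving the generic
point is good, its coordinates stay independent and the degree is multiplied by the degree
of the morphism. -/
def LSPullback : Prop :=
  ∀ (X : Scheme.{u}) [IsIntegral X] (str : X ⟶ Spec (CommRingCat.of K)) (φ : X ⟶ X)
    (_ : φ ≫ str = str) [IsFinite φ] (h : φ (genericPoint X) = genericPoint X) (g : ℕ)
    (w : Fin (g + 1) → X.functionField), LS.Good w → LS.Indep str w →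
      LS.Good (fun i => ffMap φ h (w i)) ∧ LS.Indep str (fun i => ffMap φ h (w i)) ∧
        LS.deg str (fun i => ffMap φ h (w i)) = ffDeg φ h * LS.deg str w

/-- LS3 + LS4: powers of a good system. -/
def LSPow : Prop :=
  ∀ (X : Scheme.{u}) [IsIntegral X] (str : X ⟶ Spec (CommRingCat.of K)) (g : ℕ)
    (w : Fin (g + 1) → X.functionField) (r : ℕ), 0 < r → LS.Good w → LS.Indep str w →
      LS.Good (fun i => w i ^ r) ∧ LS.Indep str (fun i => w i ^ r) ∧
        LS.deg str (fun i => w i ^ r) = r ^ g * LS.deg str w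

/-- Scaling a system by a nonzero rational function changes nothing. -/
def LSScale : Prop :=
  ∀ (X : Scheme.{u}) [IsIntegral X] (str : X ⟶ Spec (CommRingCat.of K)) (g : ℕ)
    (w : Fin (g + 1) → X.functionField) (h : X.functionField), h ≠ 0 →
      (LS.Good w → LS.Good (fun i => h * w i)) ∧
      (LS.Indep str w → LS.Indep str (fun i => h * w i)) ∧
        LS.deg str (fun i => h * w i) = LS.deg str w

end Stmt

end

end Fermat.Agent.S26

end
-- ===== PACK-END S26/SpecDeg.lean

-- ===== PACK-BEGIN S26/H147/SoftSections.lean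
section
/-
Row S26, block SOFT (architect helper987), leaf S6 (schemes): a finite etale scheme `Z` over a
separably closed field `K` has exactly `finrank` sections.  (helper147)
-/


set_option autoImplicit false
set_option linter.style.haveILetI false
universe u

open CategoryTheory CategoryTheory.Limits AlgebraicGeometry

namespace Fermat.Agent.S26.H147

section Sections

variable {K : Type u} [Field K]

/-- Affine presentation of a morphism from an affine scheme to `Spec K`. -/
theorem exists_spec_presentation {Z : Scheme.{u}} [IsAffine Z]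
    (π : Z ⟶ Spec (CommRingCat.of K)) :
    ∃ (R : CommRingCat.{u}) (φ : CommRingCat.of K ⟶ R) (e : Z ≅ Spec R),
      π = e.hom ≫ Spec.map φ := by
  refine ⟨Γ(Z, ⊤), (Scheme.ΓSpecIso (CommRingCat.of K)).inv ≫ π.appTop, Z.isoSpec, ?_⟩
  rw [Spec.map_comp, Scheme.isoSpec_hom_naturality_assoc, Scheme.isoSpec_Spec_hom,
    ← Spec.map_comp, Iso.inv_hom_id, Spec.map_id, Category.comp_id]

/-- Sections of `Spec.map φ` are retractions of `φ`. -/
noncomputable def sectionsSpecEquiv {R : CommRingCat.{u}} (φ : CommRingCat.of K ⟶ R) :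
    {s : Spec (CommRingCat.of K) ⟶ Spec R // s ≫ Spec.map φ = 𝟙 _} ≃
      {ψ : R ⟶ CommRingCat.of K // φ ≫ ψ = 𝟙 _} where
  toFun s := ⟨Spec.preimage s.1, by
    apply Spec.map_injective
    rw [Spec.map_comp, Spec.map_preimage, s.2, Spec.map_id]⟩
  invFun ψ := ⟨Spec.map ψ.1, by rw [← Spec.map_comp, ψ.2, Spec.map_id]⟩
  left_inv s := Subtype.ext (Spec.map_preimage _)
  right_inv ψ := Subtype.ext (Spec.preimage_map _)

/-- Retractions of `φ : K → R` are `K`-algebra homomorphisms `R → K`. -/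
noncomputable def retractionsEquivAlgHom {R : CommRingCat.{u}} (φ : CommRingCat.of K ⟶ R) :
    letI : Algebra K R := φ.hom.toAlgebra
    {ψ : R ⟶ CommRingCat.of K // φ ≫ ψ = 𝟙 _} ≃ (R →ₐ[K] K) :=
  letI : Algebra K R := φ.hom.toAlgebra
  { toFun := fun ψ =>
      { toRingHom := ψ.1.hom
        commutes' := fun c => by
          have := congrArg (fun f : CommRingCat.of K ⟶ CommRingCat.of K => f.hom c) ψ.2
          have h2 : ψ.1.hom (φ.hom c) = c := by simpa using this
          exact h2 }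
    invFun := fun f => ⟨CommRingCat.ofHom f.toRingHom, by
      ext c
      exact f.commutes c⟩
    left_inv := fun ψ => by
      apply Subtype.ext
      rfl
    right_inv := fun f => by
      ext r
      rfl }

/-- Sections of `e.hom ≫ q` correspond to sections of `q`. -/
noncomputable def sectionsCongr {S Z Z' : Scheme.{u}} (e : Z ≅ Z') (q : Z' ⟶ S) :
    {s : S ⟶ Z // s ≫ e.hom ≫ q = 𝟙 _} ≃ {s : S ⟶ Z' // s ≫ q = 𝟙 _} where
  toFun s := ⟨s.1 ≫ e.hom, by rw [Category.assoc]; exact s.2⟩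
  invFun s := ⟨s.1 ≫ e.inv, by
    rw [Category.assoc, Iso.inv_hom_id_assoc]; exact s.2⟩
  left_inv s := Subtype.ext (by simp)
  right_inv s := Subtype.ext (by simp)

end Sections

section Count

variable {K : Type u} [Field K] [IsSepClosed K]

/-- **SOFT S6 (schemes).** A finite etale scheme over a separably closed field `K` has exactly
`finrank` sections. -/
theorem natCard_sections_eq_finrank {Z : Scheme.{u}} (π : Z ⟶ Spec (CommRingCat.of K))
    [IsFinite π] [Etale π] (x : Spec (CommRingCat.of K)) :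
    Nat.card {s : Spec (CommRingCat.of K) ⟶ Z // s ≫ π = 𝟙 _} = π.finrank x := by
  haveI : IsAffine Z := isAffine_of_isAffineHom π
  obtain ⟨R, φ, e, rfl⟩ := exists_spec_presentation π
  haveI hfin : IsFinite (Spec.map φ) := by
    have : IsFinite (e.inv ≫ e.hom ≫ Spec.map φ) := inferInstance
    simpa using this
  haveI het : Etale (Spec.map φ) := by
    have : Etale (e.inv ≫ e.hom ≫ Spec.map φ) := inferInstance
    simpa using this
  have hfin' : φ.hom.Finite := (IsFinite.SpecMap_iff φ).mp hfin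
  have het' : φ.hom.Etale := (HasRingHomProperty.Spec_iff (P := @Etale)).mp het
  have hflat' : φ.hom.Flat := Flat.SpecMap_iff.mp inferInstance
  letI : Algebra K R := φ.hom.toAlgebra
  haveI : Algebra.Etale K R := het'
  haveI : Module.Finite K R := hfin'
  rw [Scheme.Hom.finrank_comp_left_of_isIso, Scheme.Hom.finrank_SpecMap_eq_finrank hfin' hflat']
  rw [Nat.card_congr ((sectionsCongr e (Spec.map φ)).trans
    ((sectionsSpecEquiv φ).trans (retractionsEquivAlgHom φ)))]
  rw [natCard_algHom_eq_finrank_of_etale K R]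
  show Module.finrank K R = Module.rankAtStalk (R := K) R _
  rw [Module.rankAtStalk_eq_finrank_of_free]
  rfl

end Count

end Fermat.Agent.S26.H147

end
-- ===== PACK-END S26/H147/SoftSections.lean

-- ===== PACK-BEGIN S26/H87/TProper.lean
section



/-!
# Row S26, block BETA, leaf B2 (helper87) — part 2: `tMap` is proper / finite

`f : Y ⟶ Spec R₀` universally closed (e.g. proper), `U ⊆ Y` open, `t : σ → Γ(Y, U)`.
Under the *pole condition* (at every point outside `U` some `t i` has a pole: its inverse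
extends to a function vanishing at that point) the morphism `tMap f U t : U ⟶ 𝔸^σ` satisfies
the existence part of the valuative criterion; so it is proper when `f` is proper and `U` is
quasi-compact, and finite when `U` is moreover affine, i.e. `Γ(Y, U)` is a finite
`R₀[X_i : i ∈ σ]`-module.  Mathlib only.
-/

set_option autoImplicit false
set_option linter.style.haveILetI false

universe u

open CategoryTheory AlgebraicGeometry TopologicalSpace

namespace Fermat.Agent.S26.H87

noncomputable section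

variable {R₀ : Type u} [CommRing R₀] {Y : Scheme.{u}} (f : Y ⟶ Spec (CommRingCat.of R₀))
  {σ : Type}

/-- The pole condition: at every point outside `U` one of the functions `t i` has a pole. -/
def PoleCond (U : Y.Opens) (t : σ → Γ(Y, U)) : Prop :=
  ∀ P : Y, P ∉ U → ∃ (i : σ) (W : Y.Opens) (τ : Γ(Y, W)), P ∈ W ∧ P ∉ Y.basicOpen τ ∧
      Y.presheaf.map (homOfLE (inf_le_left : U ⊓ W ≤ U)).op (t i) *
        Y.presheaf.map (homOfLE (inf_le_right : U ⊓ W ≤ W)).op τ = 1

/-- **Existence part of the valuative criterion** for `tMap` under the pole condition. -/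
theorem valuativeCriterion_existence_tMap [UniversallyClosed f] (U : Y.Opens)
    (t : σ → Γ(Y, U)) (hpole : PoleCond U t) : ValuativeCriterion.Existence (tMap f U t) := by
  intro S
  have hc : CommSq (S.i₁ ≫ U.ι) (Spec.map (CommRingCat.ofHom (algebraMap S.R S.K))) f
      (S.i₂ ≫ affStr R₀ σ) := ⟨by
    rw [Category.assoc, ← tMap_affStr f U t, ← Category.assoc, S.commSq.w, Category.assoc]⟩
  let S' : ValuativeCommSq f := ⟨S.R, S.K, S.i₁ ≫ U.ι, S.i₂ ≫ affStr R₀ σ, hc⟩
  have hex : ValuativeCriterion.Existence f := by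
    have h : UniversallyClosed f := inferInstance
    rw [UniversallyClosed.eq_valuativeCriterion] at h
    exact h.1
  obtain ⟨⟨l⟩⟩ := hex S'
  have hl1 : Spec.map (CommRingCat.ofHom (algebraMap S.R S.K)) ≫ l.l = S.i₁ ≫ U.ι := l.fac_left
  set j := Spec.map (CommRingCat.ofHom (algebraMap S.R S.K)) with hjdef
  have hinj : Function.Injective (CommRingCat.ofHom (algebraMap S.R S.K)).hom :=
    IsFractionRing.injective S.R S.K
  have hj : Function.Injective j.appTop := injective_appTop_specMap _ hinj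
  have hU0 : (⊤ : (Spec (CommRingCat.of S.K)).Opens) ≤ (S.i₁ ≫ U.ι) ⁻¹ᵁ U := fun y _ => by
    change U.ι (S.i₁ y) ∈ U
    exact (S.i₁ y).2
  have hU : (⊤ : (Spec (CommRingCat.of S.K)).Opens) ≤ (j ≫ l.l) ⁻¹ᵁ U := hl1 ▸ hU0
  -- the closed point lands in `U`
  have hP : l.l (IsLocalRing.closedPoint S.R) ∈ U := by
    by_contra hP
    obtain ⟨i, W, τ, hPW, hPt, hst⟩ := hpole _ hP
    refine not_exists_appTop_eq_of_pole l.l j hj U hU (t i) W τ hPW hPt hst
      ⟨S.i₂.appTop ((Scheme.ΓSpecIso (CommRingCat.of (MvPolynomial σ R₀))).inv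
        (MvPolynomial.X i)), ?_⟩
    have hιU : (⊤ : U.toScheme.Opens) ≤ U.ι ⁻¹ᵁ U := fun y _ => y.2
    have hL : j.appTop (S.i₂.appTop ((Scheme.ΓSpecIso (CommRingCat.of (MvPolynomial σ R₀))).inv
        (MvPolynomial.X i))) = S.i₁.appTop (U.topIso.inv (t i)) := by
      have h1 : (j ≫ S.i₂).appTop = (S.i₁ ≫ tMap f U t).appTop := by rw [S.commSq.w]
      rw [Scheme.Hom.comp_appTop, Scheme.Hom.comp_appTop, tMap_appTop] at h1
      have h2 := congrArg (fun φ => φ.hom ((Scheme.ΓSpecIso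
        (CommRingCat.of (MvPolynomial σ R₀))).inv (MvPolynomial.X i))) h1
      simp only [Iso.inv_hom_id_apply, CommRingCat.hom_comp, RingHom.comp_apply] at h2
      rw [show (CommRingCat.Hom.hom (CommRingCat.ofHom (tRingHom f U t))) (MvPolynomial.X i) =
        t i from tRingHom_X f U t i] at h2
      exact h2
    have hR : (S.i₁ ≫ U.ι).appLE U ⊤ hU0 (t i) = S.i₁.appTop (U.topIso.inv (t i)) := by
      have h3 := Scheme.Hom.appLE_comp_appLE S.i₁ U.ι U ⊤ ⊤ hιU le_top
      have h4 : S.i₁.appLE ⊤ ⊤ le_top = S.i₁.appTop := Scheme.Hom.appLE_eq_app S.i₁ (U := ⊤)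
      rw [h4, ι_appLE_self] at h3
      rw [← h3, CommRingCat.comp_apply]
    rw [hL, appLE_eq_of_eq hl1 U ⊤ hU]
    exact hR.symm
  have hUtop : l.l ⁻¹ᵁ U = ⊤ := preimage_eq_top_of_closedPoint_mem l.l U hP
  have hrange : Set.range l.l ⊆ Set.range U.ι := by
    rintro _ ⟨x, rfl⟩
    rw [Scheme.Opens.range_ι]
    have : x ∈ l.l ⁻¹ᵁ U := hUtop ▸ trivial
    exact this
  let l' : Spec (CommRingCat.of S.R) ⟶ U.toScheme := IsOpenImmersion.lift U.ι l.l hrange
  have hl' : l' ≫ U.ι = l.l := IsOpenImmersion.lift_fac _ _ _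
  have hfl : j ≫ l' = S.i₁ := by
    rw [← cancel_mono U.ι, Category.assoc, hl', hl1]
  have hfr : l' ≫ tMap f U t = S.i₂ := by
    apply eq_of_specMap_comp_eq (CommRingCat.ofHom (algebraMap S.R S.K)) hinj
    rw [← Category.assoc]
    change (j ≫ l') ≫ _ = j ≫ _
    rw [hfl, S.commSq.w]
  exact CommSq.HasLift.mk' ⟨l', hfl, hfr⟩

theorem locallyOfFiniteType_tMap [LocallyOfFiniteType f] (U : Y.Opens) (t : σ → Γ(Y, U)) :
    LocallyOfFiniteType (tMap f U t) := by
  haveI : LocallyOfFiniteType (tMap f U t ≫ affStr R₀ σ) := by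
    rw [tMap_affStr]
    infer_instance
  exact locallyOfFiniteType_of_comp _ (affStr R₀ σ)

theorem isSeparated_tMap [IsSeparated f] (U : Y.Opens) (t : σ → Γ(Y, U)) :
    IsSeparated (tMap f U t) := by
  haveI : IsSeparated (tMap f U t ≫ affStr R₀ σ) := by
    rw [tMap_affStr]
    infer_instance
  exact IsSeparated.of_comp _ (affStr R₀ σ)

/-- `tMap` is universally closed under the pole condition, if `U` is quasi-compact. -/
theorem universallyClosed_tMap [UniversallyClosed f] (U : Y.Opens) (hU : IsCompact (U : Set Y))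
    (t : σ → Γ(Y, U)) (hpole : PoleCond U t) : UniversallyClosed (tMap f U t) := by
  haveI : CompactSpace U.toScheme := isCompact_iff_compactSpace.mp hU
  haveI : QuasiCompact (tMap f U t) := inferInstance
  exact UniversallyClosed.of_valuativeCriterion _ (valuativeCriterion_existence_tMap f U t hpole)

/-- **`tMap` is proper** under the pole condition, if `U` is quasi-compact. -/
theorem isProper_tMap [IsProper f] (U : Y.Opens) (hU : IsCompact (U : Set Y))
    (t : σ → Γ(Y, U)) (hpole : PoleCond U t) : IsProper (tMap f U t) := by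
  haveI := locallyOfFiniteType_tMap f U t
  haveI := isSeparated_tMap f U t
  haveI := universallyClosed_tMap f U hU t hpole
  exact { }

/-- **`tMap` is finite** under the pole condition, if `U` is affine. -/
theorem isFinite_tMap [IsProper f] (U : Y.Opens) (hU : IsAffineOpen U)
    (t : σ → Γ(Y, U)) (hpole : PoleCond U t) : IsFinite (tMap f U t) := by
  haveI := isProper_tMap f U hU.isCompact t hpole
  haveI : IsAffine U.toScheme := hU
  rw [IsFinite.iff_isProper_and_isAffineHom]
  exact ⟨inferInstance, inferInstance⟩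

/-- **Leaf B2, ring form**: under the pole condition, with `U` affine, `Γ(Y, U)` is finite over
`R₀[X_i : i ∈ σ]` via `X_i ↦ t i`. -/
theorem finite_tRingHom [IsProper f] (U : Y.Opens) (hU : IsAffineOpen U)
    (t : σ → Γ(Y, U)) (hpole : PoleCond U t) : (tRingHom f U t).Finite := by
  have h := isFinite_tMap f U hU t hpole
  haveI : IsIso U.toSpecΓ := by
    rw [← hU.isoSpec_hom]
    infer_instance
  have h2 : IsFinite (Spec.map (CommRingCat.ofHom (tRingHom f U t))) := by
    have h3 : Spec.map (CommRingCat.ofHom (tRingHom f U t)) =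
        inv U.toSpecΓ ≫ tMap f U t := by
      rw [tMap, IsIso.inv_hom_id_assoc]
    rw [h3]
    infer_instance
  rw [IsFinite.SpecMap_iff] at h2
  exact h2

end

end Fermat.Agent.S26.H87

end
-- ===== PACK-END S26/H87/TProper.lean

-- ===== PACK-BEGIN Ribet/H644/CuspVal.lean
section


/-!
# RIBET, leaf CUSP (purity at the cusps) — valuation-theoretic core  (helper644)

Mathlib + `S15.H962.NewtonVal` only.

* `isIntegral_of_forall_valuationSubring` : valuation criterion for integrality over a ring `R`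
  mapping to a field `F`: `f` is integral over `R` as soon as `f` lies in every valuation subring of
  `F` containing the image of `R`.
* `div_pow_mem_of_isModularShape` : for `Φ` of modular shape of level `q` and `Φ(a, b) = 0`,
  every valuation subring containing `(a b)⁻¹` contains `a / b ^ q`
  (Newton polygon at the cusps, integrality of `b` over `ℤ[a]` elsewhere).
-/

set_option autoImplicit false

namespace Fermat.Agent.Ribet.H644

open Polynomial Fermat.Agent.S15.H962

/-- **Valuation criterion for integrality.** -/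
theorem isIntegral_of_forall_valuationSubring {R F : Type*} [CommRing R] [Field F] [Algebra R F]
    (f : F) (h : ∀ V : ValuationSubring F, (∀ r : R, algebraMap R F r ∈ V) → f ∈ V) :
    IsIntegral R f := by
  have h1 : f ∈ (⨅ V : {V : ValuationSubring F // Set.range (algebraMap R F) ⊆ V.toSubring},
      V.1.toSubring) := by
    rw [Subring.mem_iInf]
    rintro ⟨V, hV⟩
    exact h V fun r => hV ⟨r, rfl⟩
  rw [iInf_valuationSubring_superset] at h1
  have h2 : IsIntegral (Subring.closure (Set.range (algebraMap R F))) f := h1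
  obtain ⟨p, hp, hpf⟩ := h2
  have hcl : Subring.closure (Set.range (algebraMap R F)) = (algebraMap R F).range := by
    rw [← RingHom.coe_range, Subring.closure_eq]
  set p' : F[X] := p.map (Subring.subtype _) with hp'
  have hp'm : p'.Monic := hp.map _
  have hlift : p' ∈ Polynomial.lifts (algebraMap R F) := by
    rw [Polynomial.lifts_iff_coeff_lifts]
    intro n
    rw [hp', Polynomial.coeff_map]
    exact (SetLike.ext_iff.mp hcl _).mp (p.coeff n).2
  obtain ⟨q, hq, -, hqm⟩ := Polynomial.lifts_and_natDegree_eq_and_monic hlift hp'm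
  refine ⟨q, hqm, ?_⟩
  rw [← Polynomial.eval_map, hq, hp', Polynomial.eval_map]
  exact hpf

section Newton

variable {F : Type*} [Field F]

/-- integer polynomials preserve a valuation subring -/
theorem eval₂_int_mem (V : ValuationSubring F) {a : F} (ha : a ∈ V) (P : ℤ[X]) :
    P.eval₂ (Int.castRingHom F) a ∈ V := by
  rw [Polynomial.eval₂_eq_sum_range]
  refine sum_mem fun i _ => ?_
  refine V.mul_mem _ _ ?_ (pow_mem ha i)
  rw [eq_intCast]
  exact intCast_mem V _

/-- **No pole of `a / b ^ q` where `a b` is invertible**, `Φ(a, b) = 0`, `Φ` of modular shape. -/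
theorem div_pow_mem_of_isModularShape {q : ℕ} (hq : 0 < q) {Φ : ℤ[X][X]}
    (hΦ : IsModularShape q Φ) {a b : F} (ha : a ≠ 0) (hb : b ≠ 0) (h : eval2 Φ a b = 0)
    (V : ValuationSubring F) (hV : (a * b)⁻¹ ∈ V) : a * (b ^ q)⁻¹ ∈ V := by
  classical
  set v := V.valuation with hv
  have hva0 : v a ≠ 0 := (Valuation.ne_zero_iff v).mpr ha
  have hvb0 : v b ≠ 0 := (Valuation.ne_zero_iff v).mpr hb
  have hab : 1 ≤ v a * v b := by
    have h1 : v ((a * b)⁻¹) ≤ 1 := (V.valuation_le_one_iff _).mpr hV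
    rw [map_inv₀, map_mul] at h1
    have h0 : v a * v b ≠ 0 := mul_ne_zero hva0 hvb0
    exact (inv_le_one₀ (zero_lt_iff.mpr h0)).mp h1
  rw [← V.valuation_le_one_iff, map_mul, map_inv₀, map_pow]
  by_cases hcase : 1 < v a
  · rcases val_root_of_isModularShape v hq hΦ hcase h with h1 | h1
    · rw [h1, ← pow_mul]
      have h2 : v a ≤ v a ^ (q * q) := by
        calc v a = v a ^ 1 := (pow_one _).symm
          _ ≤ v a ^ (q * q) := pow_le_pow_right₀ hcase.le (Nat.mul_pos hq hq)
      have h3 : (0 : V.ValueGroup) < v a ^ (q * q) := zero_lt_iff.mpr (pow_ne_zero _ hva0)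
      rw [← div_eq_mul_inv]
      exact (div_le_one₀ h3).mpr h2
    · rw [h1, mul_inv_cancel₀ hva0]
  · have hale : v a ≤ 1 := not_lt.mp hcase
    have haV : a ∈ V := (V.valuation_le_one_iff _).mp hale
    -- `b` is integral
    have hble : v b ≤ 1 := by
      by_contra hcon
      have hb1 : 1 < v b := not_le.mp hcon
      have hsum := eval2_eq_sum (K := F) Φ a b
      rw [h, hΦ.natDegree_eq] at hsum
      have hne : ∑ k ∈ Finset.range (q + 1 + 1),
          (Φ.coeff k).eval₂ (Int.castRingHom F) a * b ^ k ≠ 0 := by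
        refine sum_ne_zero_of_dominant v _ _ (q + 1) (by simp) ?_ ?_
        · have hc : Φ.coeff (q + 1) = 1 := by
            have := hΦ.monic
            rw [Polynomial.Monic, Polynomial.leadingCoeff, hΦ.natDegree_eq] at this
            exact this
          rw [hc]
          simp [hb]
        · intro i hi hi'
          have hc : Φ.coeff (q + 1) = 1 := by
            have := hΦ.monic
            rw [Polynomial.Monic, Polynomial.leadingCoeff, hΦ.natDegree_eq] at this
            exact this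
          have hilt : i < q + 1 := by
            have := Finset.mem_range.mp hi
            omega
          rw [hc, map_mul, map_mul, map_pow, map_pow]
          have h1 : v ((1 : ℤ[X]).eval₂ (Int.castRingHom F) a) = 1 := by simp
          rw [h1, one_mul]
          have h2 : v ((Φ.coeff i).eval₂ (Int.castRingHom F) a) ≤ 1 :=
            (V.valuation_le_one_iff _).mpr (eval₂_int_mem V haV _)
          calc v ((Φ.coeff i).eval₂ (Int.castRingHom F) a) * v b ^ i ≤ 1 * v b ^ i := by
                gcongr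
            _ = v b ^ i := one_mul _
            _ < v b ^ (q + 1) := pow_lt_pow_right₀ hb1 hilt
      exact hne hsum.symm
    have ha1 : v a = 1 := by
      refine le_antisymm hale ?_
      calc (1 : V.ValueGroup) ≤ v a * v b := hab
        _ ≤ v a * 1 := by gcongr
        _ = v a := mul_one _
    have hb1 : v b = 1 := by
      refine le_antisymm hble ?_
      calc (1 : V.ValueGroup) ≤ v a * v b := hab
        _ ≤ 1 * v b := by gcongr
        _ = v b := one_mul _
    rw [ha1, hb1, one_pow, inv_one, mul_one]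

end Newton

end Fermat.Agent.Ribet.H644

end
-- ===== PACK-END Ribet/H644/CuspVal.lean

-- ===== PACK-BEGIN S30/H990/Extract.lean
section
/-
S30 top glue (helper990): pure algebra, part 3.
From a Galois module on which every element satisfies a quadratic relation `g² - a g + d(g) = 0`
(`d` a character, `d c = -1` for an involution `c`) we extract a stable saturated lattice of rank
`1` or `2`.
-/



set_option autoImplicit false

namespace Fermat.Agent.S30.H990

open Module

section Rel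

variable {𝒪 M G : Type*} [CommRing 𝒪] [AddCommGroup M] [Module 𝒪 M] [Group G]

/-- The quadratic relation `ρ(g)² - a ρ(g) + d(g) = 0`. -/
def Rel (ρ : G →* Module.End 𝒪 M) (d : G →* 𝒪ˣ) (g : G) (a : 𝒪) : Prop :=
  ρ g * ρ g - a • ρ g + ((d g : 𝒪ˣ) : 𝒪) • (1 : Module.End 𝒪 M) = 0

variable (ρ : G →* Module.End 𝒪 M) (d : G →* 𝒪ˣ)

theorem rel_apply {g : G} {a : 𝒪} (h : Rel ρ d g a) (x : M) :
    ρ g (ρ g x) - a • ρ g x + ((d g : 𝒪ˣ) : 𝒪) • x = 0 := by
  have := congrArg (fun f : Module.End 𝒪 M => f x) h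
  simpa [Rel] using this

/-- Key identity on eigenvectors of the involution `c`. -/
theorem eigen_key (a : G → 𝒪) (ha : ∀ g, Rel ρ d g (a g)) (c : G) (hc : c * c = 1)
    (hdc : d c = -1) (ε : 𝒪) (u : M) (hu : ρ c u = ε • u) (g : G) :
    ρ c (ρ g u) + ε • ρ g u = (a (g * c) + ε * a g) • u := by
  have hy : ρ c * ρ c = 1 := by rw [← map_mul, hc, map_one]
  have hxy : (ρ g * ρ c) * (ρ g * ρ c) - a (g * c) • (ρ g * ρ c)
      + (-((d g : 𝒪ˣ) : 𝒪)) • (1 : Module.End 𝒪 M) = 0 := by
    have := ha (g * c)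
    unfold Rel at this
    rw [map_mul ρ, map_mul d, hdc] at this
    simpa using this
  have key := anticomm_of_rel (ρ g) (ρ c) (a g) (a (g * c)) (d g) hy (ha g) hxy
  have := congrArg (fun f : Module.End 𝒪 M => f u) key
  simp only [LinearMap.add_apply, Module.End.mul_apply, LinearMap.smul_apply,
    Module.End.one_apply, hu, map_smul] at this
  rw [add_smul, mul_comm ε (a g), mul_smul, ← this]
  abel

end Rel

section Stable

variable {𝒪 M G : Type*} [CommRing 𝒪] [IsDomain 𝒪] [AddCommGroup M] [Module 𝒪 M]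
  [Module.IsTorsionFree 𝒪 M] [Nontrivial M] [Group G]

variable (ρ : G →* Module.End 𝒪 M) (d : G →* 𝒪ˣ)

/-- Existence of an eigenvector of the involution. -/
theorem exists_eigen (h2 : (2 : 𝒪) ≠ 0) (c : G) (hc : c * c = 1) :
    ∃ (ε : 𝒪) (u : M), ε * ε = 1 ∧ u ≠ 0 ∧ ρ c u = ε • u := by
  have hy : ∀ x, ρ c (ρ c x) = x := fun x => by
    have : ρ c * ρ c = 1 := by rw [← map_mul, hc, map_one]
    exact congrArg (fun f : Module.End 𝒪 M => f x) this
  obtain ⟨m, hm⟩ := exists_ne (0 : M)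
  by_cases h : ρ c m + m = 0
  · refine ⟨-1, m, by ring, hm, ?_⟩
    rw [neg_one_smul]; exact eq_neg_of_add_eq_zero_left h
  · refine ⟨1, ρ c m + m, by ring, h, ?_⟩
    rw [map_add, hy, one_smul, add_comm]

theorem exists_stable (h2 : (2 : 𝒪) ≠ 0) (hrel : ∀ g, ∃ a, Rel ρ d g a) (c : G) (hc : c * c = 1)
    (hdc : d c = -1) :
    (∃ v : M, v ≠ 0 ∧ ∀ g, ∃ r : 𝒪, r ≠ 0 ∧ r • ρ g v ∈ Submodule.span 𝒪 {v}) ∨
    (∃ (u w : M) (ε : 𝒪), ε * ε = 1 ∧ u ≠ 0 ∧ w ≠ 0 ∧ ρ c u = ε • u ∧ ρ c w = -ε • w ∧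
      (∀ g, ∃ r : 𝒪, r ≠ 0 ∧ r • ρ g u ∈ Submodule.span 𝒪 {u, w}) ∧
      (∀ g, ∃ r : 𝒪, r ≠ 0 ∧ r • ρ g w ∈ Submodule.span 𝒪 {u, w})) := by
  classical
  choose a ha using hrel
  have hy : ∀ x, ρ c (ρ c x) = x := fun x => by
    have : ρ c * ρ c = 1 := by rw [← map_mul, hc, map_one]
    exact congrArg (fun f : Module.End 𝒪 M => f x) this
  obtain ⟨ε, u, hε, hu0, hu⟩ := exists_eigen ρ h2 c hc
  have hε0 : ε ≠ 0 := by rintro rfl; simp at hε
  have h2ε : (2 : 𝒪) * ε ≠ 0 := mul_ne_zero h2 hε0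
  -- `P x = c x + ε x`, `Q x = c x - ε x`
  have hP : ∀ g, ρ c (ρ g u) + ε • ρ g u = (a (g * c) + ε * a g) • u :=
    fun g => eigen_key ρ d a ha c hc hdc ε u hu g
  have hsplit : ∀ x : M, (2 * ε) • x = (ρ c x + ε • x) - (ρ c x - ε • x) := by
    intro x; rw [mul_smul, two_smul]; abel
  by_cases h1 : ∀ g, ρ c (ρ g u) - ε • ρ g u = 0
  · -- rank one, generated by `u`
    left
    refine ⟨u, hu0, fun g => ⟨2 * ε, h2ε, ?_⟩⟩
    rw [hsplit, h1 g, sub_zero, hP g]
    exact Submodule.smul_mem _ _ (Submodule.mem_span_singleton_self u)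
  obtain ⟨g₀, hw0⟩ := not_forall.mp h1
  set w : M := ρ c (ρ g₀ u) - ε • ρ g₀ u with hw
  have hcw : ρ c w = -ε • w := by
    rw [hw, map_sub, hy, map_smul, smul_sub, smul_smul, neg_mul, hε]
    simp only [neg_smul, one_smul]
    abel
  -- the key identity for `w` (eigenvalue `-ε`)
  have hQw : ∀ g, ρ c (ρ g w) - ε • ρ g w = (a (g * c) + -ε * a g) • w := by
    intro g
    have := eigen_key ρ d a ha c hc hdc (-ε) w hcw g
    rw [← this, neg_smul, sub_eq_add_neg]
  have hwexp : ∀ g, ρ g w = ρ (g * c * g₀) u - ε • ρ (g * g₀) u := by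
    intro g
    rw [hw, map_sub, map_smul, map_mul, map_mul, Module.End.mul_apply, Module.End.mul_apply,
      map_mul, Module.End.mul_apply]
  have hPw : ∀ g, ρ c (ρ g w) + ε • ρ g w
      = ((a (g * c * g₀ * c) + ε * a (g * c * g₀)) - ε * (a (g * g₀ * c) + ε * a (g * g₀))) • u := by
    intro g
    rw [hwexp g, map_sub, map_smul, smul_sub, sub_smul, mul_smul, ← hP (g * c * g₀),
      ← hP (g * g₀), smul_add, smul_smul]
    abel
  by_cases h2' : ∀ g, ρ c (ρ g w) + ε • ρ g w = 0
  · -- rank one, generated by `w`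
    left
    refine ⟨w, hw0, fun g => ⟨2 * ε, h2ε, ?_⟩⟩
    rw [hsplit, h2' g, zero_sub, hQw g, ← neg_smul]
    exact Submodule.smul_mem _ _ (Submodule.mem_span_singleton_self w)
  obtain ⟨g₁, hy0⟩ := not_forall.mp h2'
  right
  set t : 𝒪 := (a (g₁ * c * g₀ * c) + ε * a (g₁ * c * g₀))
      - ε * (a (g₁ * g₀ * c) + ε * a (g₁ * g₀)) with ht
  have hyt : ρ c (ρ g₁ w) + ε • ρ g₁ w = t • u := hPw g₁
  have ht0 : t ≠ 0 := by
    rintro h0
    rw [h0, zero_smul] at hyt
    exact hy0 hyt
  have huS : u ∈ Submodule.span 𝒪 ({u, w} : Set M) := Submodule.subset_span (by simp)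
  have hwS : w ∈ Submodule.span 𝒪 ({u, w} : Set M) := Submodule.subset_span (by simp)
  refine ⟨u, w, ε, hε, hu0, hw0, hu, hcw, ?_, ?_⟩
  · intro g
    -- `t • Q (g u) = Q (g (t u)) = Q (g y)`, `y = c g₁ w + ε g₁ w`
    have hQy : t • (ρ c (ρ g u) - ε • ρ g u)
        = ((a (g * c * g₁ * c) + -ε * a (g * c * g₁))
            + ε * (a (g * g₁ * c) + -ε * a (g * g₁))) • w := by
      have e1 : t • (ρ c (ρ g u) - ε • ρ g u) = ρ c (ρ g (t • u)) - ε • ρ g (t • u) := by
        simp only [map_smul, smul_sub, smul_comm t ε]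
      have e2 : ρ g (t • u) = ρ (g * c * g₁) w + ε • ρ (g * g₁) w := by
        rw [← hyt, map_add, map_smul, map_mul, map_mul, Module.End.mul_apply,
          Module.End.mul_apply, map_mul, Module.End.mul_apply]
      rw [e1, e2, map_add, map_smul, smul_add, add_smul, mul_smul, ← hQw (g * c * g₁),
        ← hQw (g * g₁), smul_sub, smul_smul]
      abel
    refine ⟨2 * ε * t, mul_ne_zero h2ε ht0, ?_⟩
    have : (2 * ε * t) • ρ g u
        = t • (a (g * c) + ε * a g) • u - (t • (ρ c (ρ g u) - ε • ρ g u)) := by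
      rw [mul_comm (2 * ε) t, mul_smul, hsplit, hP g, smul_sub]
    rw [this, hQy]
    exact Submodule.sub_mem _ (Submodule.smul_mem _ _ (Submodule.smul_mem _ _ huS))
      (Submodule.smul_mem _ _ hwS)
  · intro g
    refine ⟨2 * ε, h2ε, ?_⟩
    rw [hsplit, hPw g, hQw g]
    exact Submodule.sub_mem _ (Submodule.smul_mem _ _ huS) (Submodule.smul_mem _ _ hwS)

end Stable

end Fermat.Agent.S30.H990

end
-- ===== PACK-END S30/H990/Extract.lean

-- ===== PACK-BEGIN S30/H990/Cheb.lean
section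
/-
S30 top glue (helper990): the Chebotarev hypothesis used by the glue follows from the frozen
Tier 1 statement of the shared CHEB library.
-/



set_option autoImplicit false

namespace Fermat.Agent.S30.H990

/-- Tier 1 of the shared CHEB library implies the weak form consumed by the S30 glue. -/
theorem chebWeak_of_frobeniusDivision
    (h : Fermat.Agent.Lib.Cheb.Spec.FrobeniusDivisionStatement) : ChebWeak := by
  intro L hL σ T
  obtain ⟨ℓ, A, τ, _k, j, hℓ, hℓT, hA, hτ, _, _, hj⟩ := h L hL σ T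
  exact ⟨ℓ, hℓ, hℓT, A, hA, τ, hτ, j, fun x hx => (hj x hx).symm⟩

end Fermat.Agent.S30.H990

end
-- ===== PACK-END S30/H990/Cheb.lean

-- ===== PACK-BEGIN S28/H208/Twist.lean
section
/-
S28 [L3]: twist automorphism `t ↦ c·t` of Laurent series and its interaction with `qExpand`.
-/



set_option autoImplicit false

noncomputable section

open ModularCurve HahnSeries

namespace Fermat.Agent.S28.H208

variable {k : Type*} [Field k]

/-- Twist `Σ aₙ tⁿ ↦ Σ aₙ cⁿ tⁿ`. -/
def twFun (c : k) (f : LaurentSeries k) : LaurentSeries k where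
  coeff n := c ^ n * f.coeff n
  isPWO_support' := f.isPWO_support.mono fun n hn => by
    simp only [Function.mem_support, ne_eq] at hn ⊢
    intro h
    exact hn (by rw [h, mul_zero])

@[simp] theorem twFun_coeff (c : k) (f : LaurentSeries k) (n : ℤ) :
    (twFun c f).coeff n = c ^ n * f.coeff n := rfl

theorem twFun_support (c : k) (hc : c ≠ 0) (f : LaurentSeries k) :
    (twFun c f).support = f.support := by
  ext n
  simp only [HahnSeries.mem_support, twFun_coeff, ne_eq, mul_eq_zero, not_or]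
  constructor
  · exact fun h => h.2
  · exact fun h => ⟨zpow_ne_zero n hc, h⟩

theorem twFun_mul (c : k) (hc : c ≠ 0) (x y : LaurentSeries k) :
    twFun c (x * y) = twFun c x * twFun c y := by
  ext n
  rw [twFun_coeff, HahnSeries.coeff_mul, HahnSeries.coeff_mul, Finset.mul_sum]
  symm
  refine Finset.sum_congr ?_ fun ij hij => ?_
  · ext ij
    simp only [Finset.mem_antidiagonal, twFun_support c hc]
  · have h : ij.1 + ij.2 = n := (Finset.mem_antidiagonal.mp hij).2.2
    rw [twFun_coeff, twFun_coeff, ← h, zpow_add₀ hc]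
    ring

/-- The twist as a ring homomorphism. -/
def tw (c : k) (hc : c ≠ 0) : LaurentSeries k →+* LaurentSeries k where
  toFun := twFun c
  map_one' := by
    ext n
    rw [twFun_coeff, HahnSeries.coeff_one]
    split_ifs with h
    · subst h; simp
    · simp
  map_mul' := twFun_mul c hc
  map_zero' := by
    ext n
    simp
  map_add' x y := by
    ext n
    simp [mul_add]

@[simp] theorem tw_coeff (c : k) (hc : c ≠ 0) (f : LaurentSeries k) (n : ℤ) :
    (tw c hc f).coeff n = c ^ n * f.coeff n := rfl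

/-- Twisting a series in `t^m` by `c` with `c^m = 1` does nothing. -/
theorem tw_qExpand_of_pow_eq_one (c : k) (hc : c ≠ 0) (m : ℕ) [NeZero m] (hcm : c ^ m = 1)
    (f : LaurentSeries k) : tw c hc (qExpand k m f) = qExpand k m f := by
  ext n
  rw [tw_coeff]
  by_cases hn : (m : ℤ) ∣ n
  · obtain ⟨a, rfl⟩ := hn
    rw [zpow_mul, zpow_natCast, hcm, one_zpow, one_mul]
  · rw [qExpand_coeff_of_not_dvd m f hn, mul_zero]

end Fermat.Agent.S28.H208

end

end
-- ===== PACK-END S28/H208/Twist.lean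

-- ===== PACK-BEGIN Lib/Newform/H958/X/Dirichlet.lean
section


/-!
# NEWFORM block X — leaf X4 (`DirichletSeries`)
-/

set_option autoImplicit false

open CongruenceSubgroup UpperHalfPlane Complex
open scoped MatrixGroups ModularForm

namespace Fermat.Agent.Lib.Newform.H958.X

open ModularFormClass

theorem T_mem_Gamma0 (N : ℕ) : ModularGroup.T ∈ Gamma0 N := by
  rw [Gamma0_mem]
  simp [ModularGroup.T]

theorem strictWidthInfty_Gamma0 (N : ℕ) :
    (Gamma0 N : Subgroup (GL (Fin 2) ℝ)).strictWidthInfty = 1 :=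
  Subgroup.strictWidthInfty_eq_one_of_T_mem (T_mem_Gamma0 N)

theorem dirichletSeries : DirichletSeries := by
  intro N _ f s hs
  have h := CuspForm.hasSum_L (Γ := (Gamma0 N : Subgroup (GL (Fin 2) ℝ))) (k := 2) two_pos f
    (s := s) (by norm_num; linarith)
  rw [strictWidthInfty_Gamma0 N] at h
  simp only [ofReal_one, one_cpow, one_mul] at h
  exact h

end Fermat.Agent.Lib.Newform.H958.X

end
-- ===== PACK-END Lib/Newform/H958/X/Dirichlet.lean

-- ===== PACK-BEGIN Lib/Newform/H263/EigenBound.lean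
section
/-
NEWFORM library (helper263) — part 2: the strict trivial bound for Hecke eigenvalues.

For a nonzero weight-2 cusp form `f` on an arithmetic group and a prime `ℓ`:
`heckeT 2 ℓ f = c • f  ⟹  ‖c‖ < ℓ + 1`, and `heckeU 2 ℓ f = c • f ⟹ ‖c‖ ≤ ℓ`.
Proof: the invariant height `‖f τ‖ · im τ` attains its maximum (part 1); evaluate the eigen-equation
at a maximum point and iterate `τ ↦ ℓ τ` towards `i∞`.
-/




set_option autoImplicit false

open Filter Topology UpperHalfPlane ModularForm Matrix.SpecialLinearGroup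
open scoped Modular MatrixGroups ModularForm

namespace Fermat.Agent.Lib.Newform.H263

/-- The weight-2 invariant height `‖f τ‖ · im τ` of a function on the upper half plane. -/
noncomputable def height (f : ℍ → ℂ) (τ : ℍ) : ℝ := ‖f τ‖ * τ.im

theorem height_nonneg (f : ℍ → ℂ) (τ : ℍ) : 0 ≤ height f τ :=
  mul_nonneg (norm_nonneg _) τ.im_pos.le

theorem height_sq (f : ℍ → ℂ) (τ : ℍ) : height f τ ^ 2 = ‖petersson 2 f f τ‖ := by
  simp only [height, petersson, norm_mul, Complex.norm_conj, norm_zpow, Complex.norm_real,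
    Real.norm_of_nonneg τ.im_pos.le]
  norm_cast
  ring

theorem height_eq_sqrt (f : ℍ → ℂ) (τ : ℍ) : height f τ = Real.sqrt ‖petersson 2 f f τ‖ := by
  rw [← height_sq, Real.sqrt_sq (height_nonneg f τ)]

theorem height_pos_iff (f : ℍ → ℂ) (τ : ℍ) : 0 < height f τ ↔ f τ ≠ 0 := by
  rw [height, mul_pos_iff_of_pos_right τ.im_pos, norm_pos_iff]

theorem height_smul (c : ℂ) (f : ℍ → ℂ) (τ : ℍ) : height (c • f) τ = ‖c‖ * height f τ := by
  simp [height, mul_assoc]

section cusp

variable (Γ : Subgroup (GL (Fin 2) ℝ)) [Γ.IsArithmetic] {F : Type*} [FunLike F ℍ ℂ]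
  [CuspFormClass F Γ 2]

include Γ

theorem height_smul_of_mem (f : F) {g : GL (Fin 2) ℝ} (hg : g ∈ Γ) (τ : ℍ) :
    height f (g • τ) = height f τ := by
  rw [height_eq_sqrt, height_eq_sqrt, SlashInvariantFormClass.norm_petersson_smul hg]

omit [Γ.IsArithmetic] in
theorem continuous_height (f : F) : Continuous (height (⇑f)) := by
  have hf : Continuous (⇑f) := ModularFormClass.continuous (Γ := Γ) (k := 2) f
  unfold height
  fun_prop

open ConjAct Pointwise in
theorem tendsto_height_smul (f : F) (g : SL(2, ℤ)) :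
    Tendsto (fun τ ↦ height f (g • τ)) atImInfty (𝓝 0) := by
  have h1 : IsZeroAtImInfty (fun τ ↦ petersson 2 f f (g • τ)) := by
    simp_rw [← UpperHalfPlane.petersson_slash_SL]
    have : ((toConjAct (g : GL (Fin 2) ℝ)⁻¹) • Γ).IsArithmetic := by
      simpa [(show Rat.castHom ℝ = algebraMap ℚ ℝ by rfl), map_inv, map_mapGL]
        using! Subgroup.IsArithmetic.conj Γ (mapGL ℚ g)⁻¹
    exact (CuspFormClass.zero_at_infty <| CuspForm.translate f g).petersson_isZeroAtImInfty_left 2 _
      (ModularForm.translate f g)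
  have h2 : Tendsto (fun τ ↦ ‖petersson 2 f f (g • τ)‖) atImInfty (𝓝 0) := by
    rw [IsZeroAtImInfty, ZeroAtFilter] at h1
    simpa using h1.norm
  have h3 := (Real.continuous_sqrt.tendsto 0).comp h2
  simp only [Real.sqrt_zero] at h3
  refine h3.congr fun τ ↦ ?_
  simp [height_eq_sqrt]

theorem tendsto_height (f : F) : Tendsto (height (⇑f)) atImInfty (𝓝 0) := by
  simpa using tendsto_height_smul Γ f 1

/-- The invariant height of a weight-2 cusp form attains its maximum. -/
theorem exists_max_height (f : F) : ∃ τ₀, ∀ τ, height f τ ≤ height f τ₀ :=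
  exists_max_of_subgroup_invariant (continuous_height Γ f) (height_nonneg _)
    (tendsto_height_smul Γ f) (Γ := Γ) (fun _ hg τ ↦ height_smul_of_mem Γ f hg τ)

end cusp

/-! ### The Hecke inequality -/

theorem im_heckeMatrix_smul {p : ℕ} (hp : p ≠ 0) (j : ℕ) (τ : ℍ) :
    (heckeMatrix p j • τ).im = τ.im / p := by
  have h := congrArg Complex.im (coe_heckeMatrix_smul hp j τ)
  rw [UpperHalfPlane.coe_im] at h
  rw [h, Complex.div_natCast_im, Complex.add_im, Complex.natCast_im, add_zero,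
    UpperHalfPlane.coe_im]

theorem im_heckeDiagMatrix_smul {p : ℕ} (hp : p ≠ 0) (τ : ℍ) :
    (heckeDiagMatrix p • τ).im = p * τ.im := by
  have h := congrArg Complex.im (coe_heckeDiagMatrix_smul hp τ)
  rw [UpperHalfPlane.coe_im] at h
  rw [h, Complex.mul_im, Complex.natCast_re, Complex.natCast_im, zero_mul, add_zero,
    UpperHalfPlane.coe_im]

theorem height_heckeU_le (f : ℍ → ℂ) {p : ℕ} (hp : p ≠ 0) (τ : ℍ) :
    height (heckeU 2 p f) τ ≤ ∑ j ∈ Finset.range p, height f (heckeMatrix p j • τ) := by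
  have hp' : (0 : ℝ) < p := by exact_mod_cast Nat.pos_of_ne_zero hp
  rw [height, heckeU_apply 2 hp, norm_mul, norm_inv, Complex.norm_natCast]
  calc (p : ℝ)⁻¹ * ‖∑ j ∈ Finset.range p, f (heckeMatrix p j • τ)‖ * τ.im
      ≤ (p : ℝ)⁻¹ * (∑ j ∈ Finset.range p, ‖f (heckeMatrix p j • τ)‖) * τ.im := by
        gcongr
        exact norm_sum_le _ _
    _ = ∑ j ∈ Finset.range p, height f (heckeMatrix p j • τ) := by
        rw [Finset.mul_sum, Finset.sum_mul]
        refine Finset.sum_congr rfl fun j _ ↦ ?_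
        rw [height, im_heckeMatrix_smul hp]
        field_simp

theorem height_heckeT_le (f : ℍ → ℂ) {p : ℕ} (hp : p ≠ 0) (τ : ℍ) :
    height (heckeT 2 p f) τ ≤
      ∑ j ∈ Finset.range p, height f (heckeMatrix p j • τ) + height f (heckeDiagMatrix p • τ) := by
  have h1 : height (heckeT 2 p f) τ ≤ height (heckeU 2 p f) τ
      + height (f ∣[(2 : ℤ)] heckeDiagMatrix p) τ := by
    rw [heckeT_eq_heckeU_add]
    simp only [height, Pi.add_apply, ← add_mul]
    gcongr
    exact norm_add_le _ _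
  have h2 : height (f ∣[(2 : ℤ)] heckeDiagMatrix p) τ = height f (heckeDiagMatrix p • τ) := by
    rw [height, height, slash_heckeDiagMatrix_apply 2 hp, im_heckeDiagMatrix_smul hp, norm_mul]
    simp
    ring
  rw [h2] at h1
  exact h1.trans (by gcongr; exact height_heckeU_le f hp τ)

/-! ### The strict trivial bound -/

section bound

variable (Γ : Subgroup (GL (Fin 2) ℝ)) [Γ.IsArithmetic] {F : Type*} [FunLike F ℍ ℂ]
  [CuspFormClass F Γ 2]

include Γ

/-- **Strict trivial bound.** If a nonzero weight-2 cusp form `f` satisfies `T_p f = c f`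
(function-level Prelude operator `heckeT 2 p`, any `p ≥ 2`), then `‖c‖ < p + 1`. -/
theorem norm_lt_of_heckeT_eq (f : F) (hf : (⇑f : ℍ → ℂ) ≠ 0) {p : ℕ} (hp : 2 ≤ p) {c : ℂ}
    (h : heckeT 2 p ⇑f = c • ⇑f) : ‖c‖ < p + 1 := by
  obtain ⟨τ₀, hmax⟩ := exists_max_height Γ f
  set m := height f τ₀ with hm_def
  have hm : 0 < m := by
    obtain ⟨τ, hτ⟩ : ∃ τ, f τ ≠ 0 := by
      by_contra h'
      push Not at h'
      exact hf (funext h')
    exact ((height_pos_iff _ _).mpr hτ).trans_le (hmax τ)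
  by_contra hc
  push Not at hc
  have hp0 : p ≠ 0 := by omega
  -- a maximum point `τ` gives the maximum point `p τ`
  have step : ∀ τ, height f τ = m → height f (heckeDiagMatrix p • τ) = m := by
    intro τ hτ
    have h1 := height_heckeT_le f hp0 τ
    rw [h, height_smul, hτ] at h1
    have h2 : ∑ j ∈ Finset.range p, height f (heckeMatrix p j • τ) ≤ p * m := by
      calc ∑ j ∈ Finset.range p, height f (heckeMatrix p j • τ)
          ≤ ∑ _j ∈ Finset.range p, m := Finset.sum_le_sum fun j _ ↦ hmax _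
        _ = p * m := by simp
    have h3 : ((p : ℝ) + 1) * m ≤ ‖c‖ * m := by gcongr
    exact le_antisymm (hmax _) (by nlinarith)
  have iter : ∀ r : ℕ, ∃ τ : ℍ, height f τ = m ∧ τ.im = (p : ℝ) ^ r * τ₀.im := by
    intro r
    induction r with
    | zero => exact ⟨τ₀, rfl, by simp⟩
    | succ r ih =>
      obtain ⟨τ, h1, h2⟩ := ih
      exact ⟨heckeDiagMatrix p • τ, step τ h1, by
        rw [im_heckeDiagMatrix_smul hp0, h2]; ring⟩
  obtain ⟨Y, hY⟩ := (atImInfty_mem _).mp ((tendsto_height Γ f).eventually (gt_mem_nhds hm))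
  obtain ⟨r, hr⟩ : ∃ r : ℕ, Y ≤ (p : ℝ) ^ r * τ₀.im := by
    have hp1 : (1 : ℝ) < p := by exact_mod_cast hp
    have : Tendsto (fun r : ℕ ↦ (p : ℝ) ^ r * τ₀.im) atTop atTop :=
      (tendsto_pow_atTop_atTop_of_one_lt hp1).atTop_mul_const τ₀.im_pos
    exact (this.eventually_ge_atTop Y).exists
  obtain ⟨τ, h1, h2⟩ := iter r
  have h4 := hY τ (h2 ▸ hr)
  exact absurd h1 (ne_of_lt h4)

/-- **Trivial bound for `U_p`.** If a nonzero weight-2 cusp form `f` satisfies `U_p f = c f`
(function-level Prelude operator `heckeU 2 p`, `p ≠ 0`), then `‖c‖ ≤ p`. -/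
theorem norm_le_of_heckeU_eq (f : F) (hf : (⇑f : ℍ → ℂ) ≠ 0) {p : ℕ} (hp : p ≠ 0) {c : ℂ}
    (h : heckeU 2 p ⇑f = c • ⇑f) : ‖c‖ ≤ p := by
  obtain ⟨τ₀, hmax⟩ := exists_max_height Γ f
  set m := height f τ₀ with hm_def
  have hm : 0 < m := by
    obtain ⟨τ, hτ⟩ : ∃ τ, f τ ≠ 0 := by
      by_contra h'
      push Not at h'
      exact hf (funext h')
    exact ((height_pos_iff _ _).mpr hτ).trans_le (hmax τ)
  have h1 := height_heckeU_le f hp τ₀
  rw [h, height_smul] at h1
  have h2 : ∑ j ∈ Finset.range p, height f (heckeMatrix p j • τ₀) ≤ p * m := by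
    calc ∑ j ∈ Finset.range p, height f (heckeMatrix p j • τ₀)
        ≤ ∑ _j ∈ Finset.range p, m := Finset.sum_le_sum fun j _ ↦ hmax _
      _ = p * m := by simp
  exact le_of_mul_le_mul_right (h1.trans h2) hm

end bound

/-! ### Level `Γ₀(N)`: the Prelude's bundled operators -/

section Gamma0

open CongruenceSubgroup

variable {N : ℕ}

theorem cuspForm_coe_ne_zero {k : ℤ} {f : CuspForm (Gamma0 N) k} (hf : f ≠ 0) :
    (⇑f : ℍ → ℂ) ≠ 0 := fun h ↦ hf (DFunLike.coe_injective (by rw [h]; rfl))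

/-- **Strict trivial bound**, bundled form: an eigenvalue `c` of `T_ℓ` (`ℓ ∤ N` prime) on
`S₂(Γ₀(N))` satisfies `‖c‖ < ℓ + 1`. -/
theorem norm_lt_of_heckeTLin_eq {f : CuspForm (Gamma0 N) 2} (hf : f ≠ 0) {ℓ : ℕ} (hℓ : ℓ.Prime)
    (hℓN : ¬ ℓ ∣ N) {c : ℂ} (h : CuspForm.heckeTLin 2 hℓ hℓN f = c • f) : ‖c‖ < ℓ + 1 := by
  have : NeZero N := ⟨fun h0 ↦ hℓN (h0 ▸ dvd_zero ℓ)⟩
  refine norm_lt_of_heckeT_eq (Gamma0 N : Subgroup (GL (Fin 2) ℝ)) f (cuspForm_coe_ne_zero hf)
    hℓ.two_le ?_
  have := congrArg (fun g : CuspForm (Gamma0 N) 2 ↦ (⇑g : ℍ → ℂ)) h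
  simpa using this

/-- **Trivial bound for `U_q`**, bundled form: an eigenvalue `c` of `U_q` (`q ∣ N`) on
`S₂(Γ₀(N))` satisfies `‖c‖ ≤ q`. -/
theorem norm_le_of_heckeULin_eq [NeZero N] {f : CuspForm (Gamma0 N) 2} (hf : f ≠ 0) {q : ℕ}
    (hq : q ≠ 0) (hqN : q ∣ N) {c : ℂ} (h : CuspForm.heckeULin 2 hqN f = c • f) : ‖c‖ ≤ q := by
  refine norm_le_of_heckeU_eq (Gamma0 N : Subgroup (GL (Fin 2) ℝ)) f (cuspForm_coe_ne_zero hf)
    hq ?_
  have := congrArg (fun g : CuspForm (Gamma0 N) 2 ↦ (⇑g : ℍ → ℂ)) h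
  simpa using this

/-- An eigenvalue `c` of `T_ℓ` on `S₂(Γ₀(N))` never satisfies `c² = (ℓ + 1)²`. -/
theorem sq_ne_of_heckeTLin_eq {f : CuspForm (Gamma0 N) 2} (hf : f ≠ 0) {ℓ : ℕ} (hℓ : ℓ.Prime)
    (hℓN : ¬ ℓ ∣ N) {c : ℂ} (h : CuspForm.heckeTLin 2 hℓ hℓN f = c • f) :
    c ^ 2 ≠ ((ℓ : ℂ) + 1) ^ 2 := by
  intro hc
  have h1 := norm_lt_of_heckeTLin_eq hf hℓ hℓN h
  have h2 : ‖c‖ ^ 2 = ((ℓ : ℝ) + 1) ^ 2 := by
    rw [← norm_pow, hc, norm_pow]
    congr 1
    have : ((ℓ : ℂ) + 1) = (((ℓ + 1 : ℕ) : ℝ) : ℂ) := by push_cast; ring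
    rw [this, Complex.norm_real, Real.norm_of_nonneg (by positivity)]
    push_cast; ring
  nlinarith [norm_nonneg c]

end Gamma0

end Fermat.Agent.Lib.Newform.H263

end
-- ===== PACK-END Lib/Newform/H263/EigenBound.lean

-- ===== PACK-BEGIN S36/H586/G1Dvr.lean
section


/-!
# S36 engine, ALG3 gap lemma G1 (helper586), part 1: orders in discrete valuation subrings

Mathlib only (on top of `StepAB.lean`).

* `exists_isOrd_of_dvr`   : in a discrete valuation subring with uniformiser `t` every `y ≠ 0`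
                            has an order, `v(y) = v(t) ^ a`;
* `not_le_of_dvr_ne`      : distinct discrete valuation subrings are incomparable.
-/

set_option autoImplicit false

namespace Fermat.Agent.S36.H586

section Dvr

variable {F : Type*} [Field F]

theorem val_lt_one_of_mem_nonunits {V : ValuationSubring F} {t : F} (ht : t ∈ V.nonunits) :
    V.valuation t < 1 := (ValuationSubring.mem_nonunits_iff V).1 ht

/-- A generator of the maximal ideal of a discrete valuation subring is irreducible. -/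
theorem irreducible_of_unif (V : ValuationSubring F) [IsDiscreteValuationRing V] {t : F}
    (ht0 : t ≠ 0) (ht : t ∈ V.nonunits) (hgen : ∀ f ∈ V.nonunits, f * t⁻¹ ∈ V) :
    Irreducible (⟨t, V.nonunits_subset ht⟩ : V) := by
  obtain ⟨ϖ, hϖ⟩ := IsDiscreteValuationRing.exists_irreducible V
  have hϖm : (ϖ : F) ∈ V.nonunits := by
    rw [ValuationSubring.mem_nonunits_iff, ← ValuationSubring.valuation_lt_one_iff]
    exact (IsLocalRing.mem_maximalIdeal _).2 hϖ.not_isUnit
  have hc := hgen _ hϖm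
  have htu : ¬ IsUnit (⟨t, V.nonunits_subset ht⟩ : V) := by
    intro h
    have h1 := (ValuationSubring.valuation_eq_one_iff V _).1 h
    exact (ne_of_lt (val_lt_one_of_mem_nonunits ht)) h1
  have heq : ϖ = (⟨t, V.nonunits_subset ht⟩ : V) * ⟨(ϖ : F) * t⁻¹, hc⟩ := by
    apply Subtype.ext
    show (ϖ : F) = t * ((ϖ : F) * t⁻¹)
    field_simp
  rcases hϖ.isUnit_or_isUnit heq with h | h
  · exact absurd h htu
  · have hass : Associated (⟨t, V.nonunits_subset ht⟩ : V) ϖ := by
      obtain ⟨u, hu⟩ := h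
      exact ⟨u, by rw [hu]; exact heq.symm⟩
    exact hass.symm.irreducible hϖ

/-- Orders exist in a discrete valuation subring. -/
theorem exists_isOrd_of_dvr (V : ValuationSubring F) [IsDiscreteValuationRing V] {t : F}
    (ht0 : t ≠ 0) (ht : t ∈ V.nonunits) (hgen : ∀ f ∈ V.nonunits, f * t⁻¹ ∈ V)
    (y : F) (hy : y ≠ 0) : ∃ a : ℤ, IsOrd V t y a := by
  have hirr := irreducible_of_unif V ht0 ht hgen
  have key : ∀ z : F, z ≠ 0 → z ∈ V → ∃ n : ℕ, IsOrd V t z n := by
    intro z hz0 hzV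
    have hz0' : (⟨z, hzV⟩ : V) ≠ 0 := fun h => hz0 (congrArg Subtype.val h)
    obtain ⟨n, hn⟩ := IsDiscreteValuationRing.associated_pow_irreducible hz0' hirr
    obtain ⟨u, hu⟩ := hn
    refine ⟨n, ?_⟩
    unfold IsOrd
    have h1 : z * ((u : V) : F) = t ^ n := by
      have := congrArg Subtype.val hu
      simpa using this
    have h2 : V.valuation (((u : V) : F)) = 1 := ValuationSubring.valuation_unit V u
    have h3 := congrArg V.valuation h1
    rw [map_mul, h2, mul_one, map_pow] at h3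
    rw [h3, zpow_natCast]
  rcases V.mem_or_inv_mem y with h | h
  · obtain ⟨n, hn⟩ := key y hy h
    exact ⟨n, hn⟩
  · obtain ⟨n, hn⟩ := key y⁻¹ (inv_ne_zero hy) h
    refine ⟨-n, ?_⟩
    have := hn.inv
    rwa [inv_inv] at this

/-- Distinct discrete valuation subrings are incomparable. -/
theorem not_le_of_dvr_ne (V V' : ValuationSubring F) [IsDiscreteValuationRing V]
    [IsDiscreteValuationRing V'] (hne : V ≠ V') : ¬ V ≤ V' := by
  intro hle
  apply hne
  refine le_antisymm hle ?_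
  intro y hy
  by_contra hyV
  -- uniformisers
  obtain ⟨ϖ, hϖ⟩ := IsDiscreteValuationRing.exists_irreducible V
  obtain ⟨ϖ', hϖ'⟩ := IsDiscreteValuationRing.exists_irreducible V'
  have hϖ'm : V'.valuation (ϖ' : F) < 1 := by
    rw [← ValuationSubring.valuation_lt_one_iff]
    exact (IsLocalRing.mem_maximalIdeal _).2 hϖ'.not_isUnit
  have hϖ'0 : (ϖ' : F) ≠ 0 := fun h => hϖ'.ne_zero (Subtype.ext h)
  have hy0 : y ≠ 0 := by
    rintro rfl
    exact hyV V.zero_mem
  -- `ϖ' ∈ 𝔪_V`
  have hϖ'V : V.valuation (ϖ' : F) < 1 := by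
    by_contra hnot
    have h1 : (ϖ' : F)⁻¹ ∈ V := by
      rw [← ValuationSubring.valuation_le_one_iff, map_inv₀]
      exact inv_le_one_of_one_le₀ (not_lt.1 hnot)
    have h2 : (ϖ' : F)⁻¹ ∈ V' := hle h1
    rw [← ValuationSubring.valuation_le_one_iff, map_inv₀] at h2
    have h3 : 1 ≤ V'.valuation (ϖ' : F) := by
      have h0 : V'.valuation (ϖ' : F) ≠ 0 := (Valuation.ne_zero_iff _).2 hϖ'0
      exact (inv_le_one₀ (zero_lt_iff.2 h0)).1 h2
    exact (not_le.2 hϖ'm) h3
  -- `y⁻¹ ∈ 𝔪_V`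
  have hyinv : V.valuation y⁻¹ < 1 := by
    rw [map_inv₀]
    have h1 : 1 < V.valuation y := by
      rw [← not_le, ValuationSubring.valuation_le_one_iff]
      exact hyV
    exact inv_lt_one_of_one_lt₀ h1
  -- orders at `V` with respect to `ϖ`
  have hϖm : (ϖ : F) ∈ V.nonunits := by
    rw [ValuationSubring.mem_nonunits_iff, ← ValuationSubring.valuation_lt_one_iff]
    exact (IsLocalRing.mem_maximalIdeal _).2 hϖ.not_isUnit
  have hϖ0 : (ϖ : F) ≠ 0 := fun h => hϖ.ne_zero (Subtype.ext h)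
  have hgen : ∀ f ∈ V.nonunits, f * (ϖ : F)⁻¹ ∈ V := by
    intro f hf
    have hfV : f ∈ V := V.nonunits_subset hf
    have hfm : (⟨f, hfV⟩ : V) ∈ IsLocalRing.maximalIdeal V := by
      rw [ValuationSubring.valuation_lt_one_iff]
      exact (ValuationSubring.mem_nonunits_iff V).1 hf
    rw [(IsDiscreteValuationRing.irreducible_iff_uniformizer ϖ).1 hϖ,
      Ideal.mem_span_singleton'] at hfm
    obtain ⟨c, hc⟩ := hfm
    have : f * (ϖ : F)⁻¹ = (c : F) := by
      have h1 : (c : F) * (ϖ : F) = f := congrArg Subtype.val hc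
      rw [← h1]
      field_simp
    rw [this]
    exact c.2
  obtain ⟨a, ha⟩ := exists_isOrd_of_dvr V hϖ0 hϖm hgen y⁻¹ (inv_ne_zero hy0)
  obtain ⟨b, hb⟩ := exists_isOrd_of_dvr V hϖ0 hϖm hgen (ϖ' : F) hϖ'0
  have hvϖ : V.valuation (ϖ : F) < 1 := val_lt_one_of_mem_nonunits hϖm
  have hvϖ0 : 0 < V.valuation (ϖ : F) := zero_lt_iff.2 ((Valuation.ne_zero_iff _).2 hϖ0)
  have ha0 : 0 < a := by
    unfold IsOrd at ha
    rw [ha] at hyinv
    by_contra hneg
    have : 1 ≤ V.valuation (ϖ : F) ^ a := by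
      have h1 : V.valuation (ϖ : F) ^ (0 : ℤ) ≤ V.valuation (ϖ : F) ^ a :=
        (zpow_le_zpow_iff_right_of_lt_one₀ hvϖ0 hvϖ).2 (not_lt.1 hneg)
      simpa using h1
    exact (not_le.2 hyinv) this
  have hb0 : 0 < b := by
    unfold IsOrd at hb
    rw [hb] at hϖ'V
    by_contra hneg
    have : 1 ≤ V.valuation (ϖ : F) ^ b := by
      have h1 : V.valuation (ϖ : F) ^ (0 : ℤ) ≤ V.valuation (ϖ : F) ^ b :=
        (zpow_le_zpow_iff_right_of_lt_one₀ hvϖ0 hvϖ).2 (not_lt.1 hneg)
      simpa using h1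
    exact (not_le.2 hϖ'V) this
  -- `ϖ' ^ a * y ^ b` is a unit of `V`, hence of `V'`
  obtain ⟨a', rfl⟩ : ∃ a' : ℕ, a = a' := ⟨a.toNat, (Int.toNat_of_nonneg ha0.le).symm⟩
  obtain ⟨b', rfl⟩ : ∃ b' : ℕ, b = b' := ⟨b.toNat, (Int.toNat_of_nonneg hb0.le).symm⟩
  have hu : V.valuation ((ϖ' : F) ^ a' * y ^ b') = 1 := by
    have h1 : IsOrd V (ϖ : F) ((ϖ' : F) ^ a') ((a' : ℤ) * b') := hb.pow a'
    have h2 : IsOrd V (ϖ : F) ((y⁻¹) ^ b') ((b' : ℤ) * a') := ha.pow b'
    unfold IsOrd at h1 h2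
    rw [map_mul, h1, map_pow]
    rw [map_pow, map_inv₀, inv_pow] at h2
    have h3 : V.valuation y ^ b' ≠ 0 := pow_ne_zero _ ((Valuation.ne_zero_iff _).2 hy0)
    have h4 : V.valuation y ^ b' = (V.valuation (ϖ : F) ^ ((b' : ℤ) * a'))⁻¹ := by
      rw [← h2, inv_inv]
    rw [h4, mul_comm (a' : ℤ) b']
    exact mul_inv_cancel₀ (zpow_ne_zero _ hvϖ0.ne')
  have hu' : V'.valuation ((ϖ' : F) ^ a' * y ^ b') = 1 := by
    have hz0 : (ϖ' : F) ^ a' * y ^ b' ≠ 0 :=
      mul_ne_zero (pow_ne_zero _ hϖ'0) (pow_ne_zero _ hy0)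
    have h1 : (ϖ' : F) ^ a' * y ^ b' ∈ V' :=
      hle ((ValuationSubring.valuation_le_one_iff V _).1 hu.le)
    have h2 : ((ϖ' : F) ^ a' * y ^ b')⁻¹ ∈ V' := by
      apply hle
      rw [← ValuationSubring.valuation_le_one_iff, map_inv₀, hu, inv_one]
    have h3 := (ValuationSubring.valuation_le_one_iff V' _).2 h1
    have h4 := (ValuationSubring.valuation_le_one_iff V' _).2 h2
    rw [map_inv₀] at h4
    have h5 : 1 ≤ V'.valuation ((ϖ' : F) ^ a' * y ^ b') :=
      (inv_le_one₀ (zero_lt_iff.2 ((Valuation.ne_zero_iff _).2 hz0))).1 h4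
    exact le_antisymm h3 h5
  -- but it lies in `𝔪_V'`
  have hlt : V'.valuation ((ϖ' : F) ^ a' * y ^ b') < 1 := by
    rw [map_mul, map_pow, map_pow]
    have hy1 : V'.valuation y ≤ 1 := (ValuationSubring.valuation_le_one_iff V' _).2 hy
    have ha'0 : a' ≠ 0 := by
      rintro rfl
      simp at ha0
    have h1 : V'.valuation (ϖ' : F) ^ a' < 1 := pow_lt_one₀ zero_le hϖ'm ha'0
    have h2 : V'.valuation y ^ b' ≤ 1 := pow_le_one₀ zero_le hy1
    calc V'.valuation (ϖ' : F) ^ a' * V'.valuation y ^ b'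
        ≤ V'.valuation (ϖ' : F) ^ a' * 1 := by gcongr
      _ = V'.valuation (ϖ' : F) ^ a' := mul_one _
      _ < 1 := h1
  exact (ne_of_lt hlt) hu'

end Dvr

end Fermat.Agent.S36.H586

end
-- ===== PACK-END S36/H586/G1Dvr.lean

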