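import Mathlib
import Fermat.Prelude.Def_GaloisRep_Adic
import Fermat.Agent.Pack.S43MC.G0E0L0
import Fermat.Agent.Pack.S43MC.G0E1L1
import Fermat.Agent.Pack.S43MC.G0E1L0
import Fermat.Agent.Pack.S43MC.G0E1L3
import Fermat.Agent.Pack.S43MC.G0E1L2
import Fermat.Agent.Pack.S43MC.G0E2L1
import Fermat.Agent.Pack.S44C.G0E1L2
import Fermat.Agent.Pack.S43MC.G0E2L2
import Fermat.Agent.Pack.S44C.G0E1L3
import Fermat.Agent.Pack.S44C.G0E0L3
import Fermat.Agent.Pack.S43MC.G0E5L0
import Fermat.Agent.Pack.Fast891

-- ===== PACK-BEGIN S25/H910/GDBridge.lean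
section
/-
S25, block DEGREE (helper910): bridge from the frozen gluing-data language (`DefsAlg`) to linear
base change.  For `CurveGD.IsBC φ G G'` the semilinear base-change maps are `A`-linear base
changes along `φ : A → K`, compatible with the Čech differentials.
-/


set_option autoImplicit false
set_option linter.style.haveILetI false

namespace Fermat.Agent.S25.H910

open TensorProduct Fermat.Agent.S25

universe u

section Abstract

variable {A K R R' : Type u} [CommRing A] [CommRing K] [CommRing R] [CommRing R']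
  [Algebra A K] [Algebra A R] [Algebra K R'] [Algebra A R'] [IsScalarTower A K R']

/-- A semilinear base change along `ρ : R → R'`, where `R' = K ⊗[A] R` is a pushout, is a linear
base change along `A → K`. -/
theorem exists_equiv_of_isSemilinearBaseChange (ρ : R →+* R')
    (hρA : ∀ a : A, ρ (algebraMap A R a) = algebraMap A R' a)
    (hpush : letI : Algebra R R' := ρ.toAlgebra
      haveI : IsScalarTower A R R' := IsScalarTower.of_algebraMap_eq fun a => (hρA a).symm
      Algebra.IsPushout A K R R')
    {N N' : Type u} [AddCommGroup N] [Module R N] [Module A N] [IsScalarTower A R N]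
    [AddCommGroup N'] [Module R' N'] [Module K N'] [IsScalarTower K R' N']
    (b : N →ₛₗ[ρ] N') (hb : IsSemilinearBaseChange ρ b) :
    ∃ E : K ⊗[A] N ≃ₗ[K] N', ∀ (c : K) (n : N), E (c ⊗ₜ[A] n) = c • b n := by
  letI : Algebra R R' := ρ.toAlgebra
  haveI : IsScalarTower A R R' := IsScalarTower.of_algebraMap_eq fun a => (hρA a).symm
  haveI : Algebra.IsPushout A K R R' := hpush
  letI : Module R N' := Module.compHom N' ρ
  haveI : IsScalarTower R R' N' := ⟨fun r r' n => by
    change (ρ r * r') • n = ρ r • (r' • n); rw [mul_smul]⟩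
  have hb' : IsBaseChange R' (show N →ₗ[R] N' from
    { toFun := fun n => b n
      map_add' := fun m n => b.map_add m n
      map_smul' := fun r n => LinearMap.map_smulₛₗ b r n }) := hb
  let e1 : K ⊗[A] N ≃ₗ[K] R' ⊗[R] N := (Algebra.IsPushout.cancelBaseChange A K R R' N).symm
  let e2 : R' ⊗[R] N ≃ₗ[K] N' := hb'.equiv.restrictScalars K
  refine ⟨e1.trans e2, fun c n => ?_⟩
  show hb'.equiv ((Algebra.IsPushout.cancelBaseChange A K R R' N).symm (c ⊗ₜ[A] n)) = c • b n
  rw [Algebra.IsPushout.cancelBaseChange_symm_tmul, IsBaseChange.equiv_tmul]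
  show algebraMap K R' c • b n = c • b n
  rw [algebraMap_smul]

end Abstract

section Concrete

variable {k : Type u} [Field k] {A K : Type u} [CommRing A] [CommRing K] [Algebra k A]
  [Algebra k K] [Algebra A K] [IsScalarTower k A K]

/-- The pushout square `A → K`, `A → A ⊗ B`, `K ⊗ B`. -/
theorem isPushout_tensorMapLeft (φ : A →ₐ[k] K) (hφ : ∀ a, φ a = algebraMap A K a)
    (B : Type u) [CommRing B] [Algebra k B] :
    letI : Algebra (A ⊗[k] B) (K ⊗[k] B) := (tensorMapLeft k φ B).toAlgebra
    haveI : IsScalarTower A (A ⊗[k] B) (K ⊗[k] B) := IsScalarTower.of_algebraMap_eq fun a => by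
      show algebraMap A (K ⊗[k] B) a = tensorMapLeft k φ B (algebraMap A (A ⊗[k] B) a)
      simp [tensorMapLeft, Algebra.TensorProduct.algebraMap_apply, hφ]
    Algebra.IsPushout A K (A ⊗[k] B) (K ⊗[k] B) := by
  letI : Algebra (A ⊗[k] B) (K ⊗[k] B) := (tensorMapLeft k φ B).toAlgebra
  haveI : IsScalarTower A (A ⊗[k] B) (K ⊗[k] B) := IsScalarTower.of_algebraMap_eq fun a => by
    show algebraMap A (K ⊗[k] B) a = tensorMapLeft k φ B (algebraMap A (A ⊗[k] B) a)
    simp [tensorMapLeft, Algebra.TensorProduct.algebraMap_apply, hφ]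
  refine Algebra.IsPushout.tensorProduct_tensorProduct k B A K ?_
  ext b
  show tensorMapLeft k φ B ((1 : A) ⊗ₜ[k] b) = (1 : K) ⊗ₜ[k] b
  simp [tensorMapLeft]

/-- **Bridge, one module.** A `tensorMapLeft`-semilinear base change is a linear base change
along `A → K`. -/
theorem exists_equiv_of_tensorMapLeft (φ : A →ₐ[k] K) (hφ : ∀ a, φ a = algebraMap A K a)
    (B : Type u) [CommRing B] [Algebra k B]
    {N N' : Type u} [AddCommGroup N] [Module (A ⊗[k] B) N] [Module A N]
    [IsScalarTower A (A ⊗[k] B) N]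
    [AddCommGroup N'] [Module (K ⊗[k] B) N'] [Module K N'] [IsScalarTower K (K ⊗[k] B) N']
    (b : N →ₛₗ[tensorMapLeft k φ B] N') (hb : IsSemilinearBaseChange (tensorMapLeft k φ B) b) :
    ∃ E : K ⊗[A] N ≃ₗ[K] N', ∀ (c : K) (n : N), E (c ⊗ₜ[A] n) = c • b n := by
  refine exists_equiv_of_isSemilinearBaseChange (A := A) (K := K) (tensorMapLeft k φ B) ?_
    (isPushout_tensorMapLeft φ hφ B) b hb
  intro a
  simp [tensorMapLeft, Algebra.TensorProduct.algebraMap_apply, hφ]

section Square

/-- Kernels and cokernels of two linear maps related by a commutative square of equivalences. -/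
theorem nonempty_ker_coker_equiv_of_square {K : Type*} [CommRing K] {M N M' N' : Type*}
    [AddCommGroup M] [AddCommGroup N] [AddCommGroup M'] [AddCommGroup N']
    [Module K M] [Module K N] [Module K M'] [Module K N']
    (f : M →ₗ[K] N) (f' : M' →ₗ[K] N') (E : M ≃ₗ[K] M') (F : N ≃ₗ[K] N')
    (h : f' ∘ₗ E.toLinearMap = F.toLinearMap ∘ₗ f) :
    Nonempty (LinearMap.ker f ≃ₗ[K] LinearMap.ker f') ∧
      Nonempty ((N ⧸ LinearMap.range f) ≃ₗ[K] (N' ⧸ LinearMap.range f')) := by
  constructor
  · have hk : LinearMap.ker f = Submodule.comap E.toLinearMap (LinearMap.ker f') := by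
      ext z
      simp only [LinearMap.mem_ker, Submodule.mem_comap]
      have hz := LinearMap.congr_fun h z
      simp only [LinearMap.comp_apply, LinearEquiv.coe_coe] at hz
      constructor
      · intro hfz
        show f' (E z) = 0
        rw [hz, hfz, map_zero]
      · intro hfz
        have hfz' : f' (E z) = 0 := hfz
        rw [hz] at hfz'
        exact F.injective (hfz'.trans (map_zero _).symm)
    exact ⟨(LinearEquiv.ofEq _ _ hk).trans (LinearEquiv.ofSubmodule' E _)⟩
  · have hr : Submodule.map F.toLinearMap (LinearMap.range f) = LinearMap.range f' := by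
      rw [← LinearMap.range_comp, ← h, LinearMap.range_comp, LinearEquiv.range,
        Submodule.map_top]
    exact ⟨Submodule.Quotient.equiv _ _ F hr⟩

end Square

section Datum

variable {k : Type u} [Field k] {A K : Type u} [CommRing A] [CommRing K] [Algebra k A]
  [Algebra k K] [Algebra A K] [IsScalarTower k A K]
  {B₀ B₁ B₀₁ : Type u} [CommRing B₀] [CommRing B₁] [CommRing B₀₁]
  [Algebra k B₀] [Algebra k B₁] [Algebra k B₀₁] [Algebra B₀ B₀₁] [Algebra B₁ B₀₁]
  [IsScalarTower k B₀ B₀₁] [IsScalarTower k B₁ B₀₁]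

/-- **Bridge.** If `G'` over `K` is a base change of `G` over `A` along `φ = algebraMap A K`,
then the Čech differential of `G'` is the base change `K ⊗[A] -` of the Čech differential of
`G`, up to `K`-linear equivalences. -/
theorem exists_cech_square (φ : A →ₐ[k] K) (hφ : ∀ a, φ a = algebraMap A K a)
    (G : CurveGD k B₀ B₁ B₀₁ A) (G' : CurveGD k B₀ B₁ B₀₁ K) (h : CurveGD.IsBC φ G G') :
    ∃ (E : K ⊗[A] (G.N₀ × G.N₁) ≃ₗ[K] (G'.N₀ × G'.N₁)) (F : K ⊗[A] G.N₀₁ ≃ₗ[K] G'.N₀₁),
      G'.cech ∘ₗ E.toLinearMap = F.toLinearMap ∘ₗ (G.cech).baseChange K := by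
  obtain ⟨bc⟩ := h
  obtain ⟨E₀, hE₀⟩ := exists_equiv_of_tensorMapLeft φ hφ B₀ bc.b₀ bc.isBaseChange₀
  obtain ⟨E₁, hE₁⟩ := exists_equiv_of_tensorMapLeft φ hφ B₁ bc.b₁ bc.isBaseChange₁
  obtain ⟨F, hF⟩ := exists_equiv_of_tensorMapLeft φ hφ B₀₁ bc.b₀₁ bc.isBaseChange₀₁
  refine ⟨(TensorProduct.prodRight A K K G.N₀ G.N₁).trans (LinearEquiv.prodCongr E₀ E₁), F, ?_⟩
  have hcech : ∀ (n₀ : G.N₀) (n₁ : G.N₁), G.cech (n₀, n₁) = G.r₀ n₀ - G.r₁ n₁ := by
    intro n₀ n₁
    simp [GlueDatum.cech, sub_eq_add_neg]
  have hcech' : ∀ (n₀ : G'.N₀) (n₁ : G'.N₁), G'.cech (n₀, n₁) = G'.r₀ n₀ - G'.r₁ n₁ := by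
    intro n₀ n₁
    simp [GlueDatum.cech, sub_eq_add_neg]
  refine LinearMap.ext fun z => ?_
  induction z using TensorProduct.induction_on with
  | zero => rw [map_zero, map_zero]
  | tmul c p =>
    obtain ⟨n₀, n₁⟩ := p
    have h1 : (LinearEquiv.prodCongr E₀ E₁)
        ((TensorProduct.prodRight A K K G.N₀ G.N₁) (c ⊗ₜ[A] (n₀, n₁))) =
          c • ((bc.b₀ n₀, bc.b₁ n₁) : G'.N₀ × G'.N₁) := by
      rw [TensorProduct.prodRight_tmul, LinearEquiv.prodCongr_apply, hE₀, hE₁]
      rfl
    show G'.cech ((LinearEquiv.prodCongr E₀ E₁)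
        ((TensorProduct.prodRight A K K G.N₀ G.N₁) (c ⊗ₜ[A] (n₀, n₁)))) =
      F ((G.cech).baseChange K (c ⊗ₜ[A] (n₀, n₁)))
    rw [h1, map_smul, LinearMap.baseChange_tmul, hF, hcech, hcech', map_sub, bc.comm₀,
      bc.comm₁]
  | add x y hx hy => simp only [map_add, hx, hy]

/-- **Bridge, cohomology.** `H⁰`/`H¹` of a base change are kernel/cokernel of the base-changed
Čech differential. -/
theorem nonempty_H0_H1_equiv (φ : A →ₐ[k] K) (hφ : ∀ a, φ a = algebraMap A K a)
    (G : CurveGD k B₀ B₁ B₀₁ A) (G' : CurveGD k B₀ B₁ B₀₁ K) (h : CurveGD.IsBC φ G G') :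
    Nonempty (LinearMap.ker ((G.cech).baseChange K) ≃ₗ[K] G'.H0) ∧
      Nonempty (((K ⊗[A] G.N₀₁) ⧸ LinearMap.range ((G.cech).baseChange K)) ≃ₗ[K] G'.H1) := by
  obtain ⟨E, F, hEF⟩ := exists_cech_square φ hφ G G' h
  exact nonempty_ker_coker_equiv_of_square _ _ E F hEF

end Datum

end Concrete

end Fermat.Agent.S25.H910

end
-- ===== PACK-END S25/H910/GDBridge.lean

-- ===== PACK-BEGIN S25/H670/CechBaseChange.lean
section
/-
S25, block CECH (squad S25/S10), leaf K5 (helper670): base change for the operator-style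
Čech core.  Statements K5a–K5d exactly as in `H10/CechSkel.lean`:
`isFGProj_baseChange`, `r0_baseChange_injective`, `baseChange_d`, `H0_baseChange_bijective`.
By-products: `flat_N01` (`N01` is `A`-flat), `exists_pow_eq_r0` (common denominators),
`polyVecEquiv` (`A' ⊗[A] A[X]^n ≃ A'[X]^n`, compatible with multiplication by `X`),
`k5_projective_of_isFGProj`, `k5_injective_of_isFGProj`.
-/


set_option autoImplicit false

namespace Fermat.Agent.S25.H670

open Polynomial TensorProduct Fermat.Agent.S25.H10

universe u v w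

variable {A : Type u} [CommRing A]

section K0
variable {N : Type v} [AddCommGroup N] [Module A N] {E : Module.End A N}

/-- A retract of `A[X]^n` is projective over `A`. -/
theorem k5_projective_of_isFGProj (h : IsFGProj E) : Module.Projective A N := by
  obtain ⟨n, ι, π, hπι, -, -⟩ := h
  exact Module.Projective.of_split ι π hπι

/-- `E` is injective on a retract of `A[X]^n`. -/
theorem k5_injective_of_isFGProj (h : IsFGProj E) : Function.Injective E := by
  obtain ⟨n, ι, π, hπι, hι, -⟩ := h
  rw [injective_iff_map_eq_zero]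
  intro v hv
  have h1 : (X : A[X]) • ι v = 0 := by rw [← hι, hv, map_zero]
  have h2 : ι v = 0 := by
    funext i
    have := congrFun h1 i
    simp only [Pi.smul_apply, smul_eq_mul, Pi.zero_apply] at this
    exact (mem_nonZeroDivisors_iff.mp (X_mem_nonzeroDivisors (R := A))).1 _ this
  have h3 := congrArg π h2
  rw [map_zero] at h3
  rw [← LinearMap.id_apply (R := A) v, ← hπι]
  exact h3

end K0

section K5a
variable (A' : Type w) [CommRing A'] [Algebra A A'] (n : ℕ)

/-- `A' ⊗[A] A[X]^n ≃ A'[X]^n`. -/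
noncomputable def polyVecEquiv : A' ⊗[A] (Fin n → A[X]) ≃ₗ[A'] (Fin n → A'[X]) :=
  (TensorProduct.piRight A A' A' (fun _ : Fin n => A[X])) ≪≫ₗ
    LinearEquiv.piCongrRight (fun _ => (polyEquivTensor' A A').symm.toLinearEquiv)

theorem polyVecEquiv_tmul (a : A') (w : Fin n → A[X]) (i : Fin n) :
    polyVecEquiv A' n (a ⊗ₜ w) i = a • (w i).map (algebraMap A A') := by
  simp only [polyVecEquiv, LinearEquiv.trans_apply, LinearEquiv.piCongrRight_apply,
    TensorProduct.piRight_apply, TensorProduct.piRightHom_tmul]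
  exact polyEquivTensor_symm_apply_tmul_eq_smul A A' a (w i)

variable (A) in
/-- Multiplication by `X` on `A[X]^n`, as an `A`-linear map. -/
noncomputable def mulXVec : (Fin n → A[X]) →ₗ[A] (Fin n → A[X]) where
  toFun w := (X : A[X]) • w
  map_add' := smul_add _
  map_smul' c w := by
    rw [RingHom.id_apply, smul_comm]

@[simp] theorem mulXVec_apply (w : Fin n → A[X]) : mulXVec A n w = (X : A[X]) • w := rfl

theorem polyVecEquiv_baseChange_mulXVec (z : A' ⊗[A] (Fin n → A[X])) :
    polyVecEquiv A' n ((mulXVec A n).baseChange A' z) = (X : A'[X]) • polyVecEquiv A' n z := by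
  induction z with
  | zero => simp
  | add x y hx hy => simp only [map_add, hx, hy, smul_add]
  | tmul a w =>
    funext i
    rw [LinearMap.baseChange_tmul, polyVecEquiv_tmul, Pi.smul_apply, polyVecEquiv_tmul]
    simp only [mulXVec_apply, Pi.smul_apply, smul_eq_mul, Polynomial.map_mul, Polynomial.map_X]
    rw [mul_smul_comm]

variable {N : Type v} [AddCommGroup N] [Module A N] {E : Module.End A N}

/-- **K5a.** `IsFGProj` is stable under base change. -/
theorem isFGProj_baseChange (h : IsFGProj E) : IsFGProj (E.baseChange A') := by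
  obtain ⟨n, ι, π, hπι, hι, hπ⟩ := h
  have hιE : ι ∘ₗ E = mulXVec A n ∘ₗ ι := LinearMap.ext fun v => hι v
  have hπE : π ∘ₗ mulXVec A n = E ∘ₗ π := LinearMap.ext fun w => hπ w
  refine ⟨n, (polyVecEquiv A' n).toLinearMap ∘ₗ ι.baseChange A',
    π.baseChange A' ∘ₗ (polyVecEquiv A' n).symm.toLinearMap, ?_, ?_, ?_⟩
  · apply LinearMap.ext
    intro v
    change (π.baseChange A') ((polyVecEquiv A' n).symm ((polyVecEquiv A' n)
      (ι.baseChange A' v))) = v
    rw [LinearEquiv.symm_apply_apply, ← LinearMap.comp_apply, ← LinearMap.baseChange_comp, hπι,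
      LinearMap.baseChange_id, LinearMap.id_apply]
  · intro v
    change (polyVecEquiv A' n) (ι.baseChange A' (E.baseChange A' v)) =
      (X : A'[X]) • (polyVecEquiv A' n) (ι.baseChange A' v)
    rw [← LinearMap.comp_apply (ι.baseChange A'), ← LinearMap.baseChange_comp, hιE,
      LinearMap.baseChange_comp, LinearMap.comp_apply, polyVecEquiv_baseChange_mulXVec]
  · intro w
    obtain ⟨z, rfl⟩ := (polyVecEquiv (A := A) A' n).surjective w
    change (π.baseChange A') ((polyVecEquiv A' n).symm ((X : A'[X]) • (polyVecEquiv A' n) z)) =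
      (E.baseChange A') ((π.baseChange A') ((polyVecEquiv A' n).symm ((polyVecEquiv A' n) z)))
    rw [← polyVecEquiv_baseChange_mulXVec, LinearEquiv.symm_apply_apply,
      LinearEquiv.symm_apply_apply, ← LinearMap.comp_apply (π.baseChange A'),
      ← LinearMap.baseChange_comp, hπE, LinearMap.baseChange_comp, LinearMap.comp_apply]

end K5a

variable {N0 N1 N01 : Type v}
  [AddCommGroup N0] [AddCommGroup N1] [AddCommGroup N01]
  [Module A N0] [Module A N1] [Module A N01]

/-- Common denominators: finitely many elements of `N01` are simultaneously of the form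
`T^{-k} r0 n`. -/
theorem exists_pow_eq_r0 (D : CechOps A N0 N1 N01) {ι : Type*} [Fintype ι] (x : ι → N01) :
    ∃ (k : ℕ) (n : ι → N0), ∀ i, (D.T ^ k) (x i) = D.r0 (n i) := by
  classical
  choose k n h using fun i => D.loc0 (x i)
  refine ⟨∑ i, k i, fun i => (D.X0 ^ (∑ j, k j - k i)) (n i), fun i => ?_⟩
  have hle : k i ≤ ∑ j, k j := Finset.single_le_sum (f := k) (fun _ _ => Nat.zero_le _)
    (Finset.mem_univ i)
  rw [D.r0_X0_pow, ← h i, ← Module.End.mul_apply, ← pow_add, Nat.sub_add_cancel hle]

/-- `N01` is flat over `A` (it is the localization of the projective module `N0`). -/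
theorem flat_N01 (D : CechOps A N0 N1 N01) (h0 : IsFGProj D.X0)
    (hr0 : Function.Injective D.r0) : Module.Flat A N01 := by
  have hproj : Module.Projective A N0 := k5_projective_of_isFGProj h0
  apply Module.Flat.of_forall_isTrivialRelation
  intro l f x hfx
  obtain ⟨k, n, hn⟩ := exists_pow_eq_r0 D x
  have h1 : ∑ i, f i • n i = 0 := by
    apply hr0
    rw [map_sum, map_zero]
    have : ∀ i, D.r0 (f i • n i) = (D.T ^ k) (f i • x i) := by
      intro i
      rw [map_smul, map_smul, hn i]
    rw [Finset.sum_congr rfl (fun i _ => this i), ← map_sum, hfx, map_zero]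
  obtain ⟨κ, a, u, hu, ha⟩ := Module.Flat.isTrivialRelation_of_sum_smul_eq_zero h1
  refine ⟨κ, a, fun j => (D.Tinv ^ k) (D.r0 (u j)), fun i => ?_, ha⟩
  have h2 : x i = (D.Tinv ^ k) (D.r0 (n i)) := by
    rw [← hn i, D.Tinv_pow_T_pow_apply]
  rw [h2, hu i, map_sum, map_sum]
  refine Finset.sum_congr rfl fun j _ => ?_
  rw [map_smul, map_smul]

section K5
variable (A' : Type w) [CommRing A'] [Algebra A A']

/-- **K5b.** Injectivity of the restriction map is stable under base change. -/
theorem r0_baseChange_injective (D : CechOps A N0 N1 N01) (h0 : IsFGProj D.X0)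
    (hr0 : Function.Injective D.r0) : Function.Injective (D.r0.baseChange A') := by
  classical
  have hflat : Module.Flat A N01 := flat_N01 D h0 hr0
  have hX : Function.Injective (D.X0.baseChange A') :=
    k5_injective_of_isFGProj (isFGProj_baseChange A' h0)
  have hXpow : ∀ k : ℕ, Function.Injective ((D.X0 ^ k).baseChange A') := by
    intro k
    rw [LinearMap.baseChange_pow]
    induction k with
    | zero =>
      rw [pow_zero]
      exact Function.injective_id
    | succ k ih =>
      rw [pow_succ]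
      exact ih.comp hX
  rw [injective_iff_map_eq_zero]
  intro z hz
  obtain ⟨S, rfl⟩ := TensorProduct.exists_finset z
  rw [← Finset.sum_coe_sort] at hz ⊢
  simp only [map_sum, LinearMap.baseChange_tmul] at hz
  have hv := TensorProduct.vanishesTrivially_of_sum_tmul_eq_zero_of_rTensor_injective A
    (m := fun i : S => (i : A' × N0).1) (n := fun i : S => D.r0 (i : A' × N0).2)
    (Module.Flat.rTensor_preserves_injective_linearMap _ (Submodule.subtype_injective _)) hz
  obtain ⟨κ, c, y, hy, hc⟩ := hv
  obtain ⟨k, u, hu⟩ := exists_pow_eq_r0 D y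
  have h3 : ∀ i : S, (D.X0 ^ k) (i : A' × N0).2 = ∑ j, c i j • u j := by
    intro i
    apply hr0
    have hyi : D.r0 (i : A' × N0).2 = ∑ j, c i j • y j := hy i
    rw [D.r0_X0_pow, hyi, map_sum, map_sum]
    refine Finset.sum_congr rfl fun j _ => ?_
    rw [map_smul, map_smul, hu j]
  apply hXpow k
  rw [map_zero, map_sum]
  simp only [LinearMap.baseChange_tmul]
  exact TensorProduct.sum_tmul_eq_zero_of_vanishesTrivially A ⟨κ, c, u, h3, hc⟩

/-- **K5c.** The twisted differential of the base change is the base change of the twisted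
differential (up to the canonical iso `A' ⊗ (N0 × N1) ≃ (A' ⊗ N0) × (A' ⊗ N1)`). -/
theorem baseChange_d (D : CechOps A N0 N1 N01) (m : ℕ) :
    (D.baseChange A').d m ∘ₗ
        ((TensorProduct.prodRight A A' A' N0 N1).toLinearMap) = (D.d m).baseChange A' := by
  apply TensorProduct.AlgebraTensorModule.curry_injective
  ext p
  all_goals
    simp [CechOps.baseChange, ← LinearMap.baseChange_pow, TensorProduct.tmul_neg]

/-- **K5d.** If `d m` is surjective, `H⁰` commutes with base change:
`A' ⊗ ker (d m) → ker (A' ⊗ d m)` is bijective. -/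
theorem H0_baseChange_bijective (D : CechOps A N0 N1 N01)
    (h0 : IsFGProj D.X0) (hr0 : Function.Injective D.r0) (m : ℕ)
    (hsurj : Function.Surjective (D.d m)) :
    Function.Injective ((D.H0 m).subtype.baseChange A') ∧
      LinearMap.range ((D.H0 m).subtype.baseChange A') =
        LinearMap.ker ((D.d m).baseChange A') := by
  have hflat : Module.Flat A N01 := flat_N01 D h0 hr0
  constructor
  · rw [LinearMap.baseChange_eq_ltensor]
    exact LinearMap.lTensor_injective_of_exact_of_flat (D.d m) hsurj (D.H0 m).subtype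
      (Submodule.subtype_injective _) (LinearMap.exact_subtype_ker_map _) A'
  · have hex := lTensor_exact A' (LinearMap.exact_subtype_ker_map (D.d m)) hsurj
    ext z
    rw [LinearMap.mem_range, LinearMap.mem_ker]
    simp only [LinearMap.baseChange_eq_ltensor]
    exact (hex z).symm

end K5

end Fermat.Agent.S25.H670

end
-- ===== PACK-END S25/H670/CechBaseChange.lean

-- ===== PACK-BEGIN S25/H550/FibrewiseInjective.lean
section



/-!
# S25 / ALGCHARTS C2 core: fibrewise injective ⇒ universally injective with flat cokernel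

Let `u : F → F'` be a linear map of `A`-modules with `F` free and `F'` flat.

* `injective_of_forall_maximal` : if `(A ⧸ m) ⊗ u` is injective for every maximal ideal `m`,
  then `u` is injective.
* `baseChange_injective_of_forall_field` : if `K ⊗ u` is injective for every field `K` over `A`,
  then `A' ⊗ u` is injective for every `A`-algebra `A'` (universal injectivity).
* `flat_coker_of_forall_field` : under the same hypothesis `F' ⧸ range u` is flat over `A`.

No finiteness or noetherian hypothesis; this replaces the norm/McCoy argument (E4) for maps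
which are not endomorphisms, e.g. a section `R₀ → N₀` of an invertible module.
-/

set_option autoImplicit false
set_option linter.style.haveILetI false

namespace Fermat.Agent.S25.H550

open TensorProduct

universe u u' v w

section Aux

variable {A : Type u} [CommRing A]

/-- If every linear functional `M → A ⧸ m` vanishes, then `M = m M`. -/
theorem top_le_smul_top_of_forall_dual_eq_zero (m : Ideal A) [m.IsMaximal]
    (M : Type u) [AddCommGroup M] [Module A M]
    (h : ∀ f : M →ₗ[A] (A ⧸ m), f = 0) : (⊤ : Submodule A M) ≤ m • ⊤ := by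
  letI : Field (A ⧸ m) := Ideal.Quotient.field m
  intro x _
  have hv : (Submodule.Quotient.mk x : M ⧸ (m • ⊤ : Submodule A M)) = 0 := by
    rw [← Module.forall_dual_apply_eq_zero_iff (A ⧸ m)]
    intro φ
    have := h ((φ.restrictScalars A) ∘ₗ (m • ⊤ : Submodule A M).mkQ)
    exact DFunLike.congr_fun this x
  exact (Submodule.Quotient.mk_eq_zero _).mp hv

/-- A finitely generated module with `M = m M` for all maximal ideals is zero. -/
theorem subsingleton_of_forall_top_le_smul_top (M : Type u) [AddCommGroup M] [Module A M]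
    [Module.Finite A M]
    (h : ∀ (m : Ideal A) [m.IsMaximal], (⊤ : Submodule A M) ≤ m • ⊤) : Subsingleton M := by
  by_contra hM
  rw [not_subsingleton_iff_nontrivial] at hM
  have hann : Module.annihilator A M ≠ ⊤ := by
    intro htop
    have : (1 : A) ∈ Module.annihilator A M := by rw [htop]; trivial
    rw [Module.mem_annihilator] at this
    obtain ⟨x, y, hxy⟩ := hM
    exact hxy (by rw [← one_smul A x, ← one_smul A y, this x, this y])
  obtain ⟨m, hm, hle⟩ := Ideal.exists_le_maximal _ hann
  obtain ⟨r, hr, hr0⟩ := Submodule.exists_sub_one_mem_and_smul_eq_zero_of_fg_of_le_smul m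
    (⊤ : Submodule A M) Module.Finite.fg_top (h m)
  have hrann : r ∈ Module.annihilator A M := by
    rw [Module.mem_annihilator]
    exact fun x => hr0 x trivial
  have h1 : (1 : A) ∈ m := by
    have := m.sub_mem (hle hrann) hr
    simpa using this
  exact hm.ne_top ((Ideal.eq_top_iff_one m).mpr h1)

end Aux

section Main

variable {A : Type u} [CommRing A] {F : Type v} {F' : Type w} [AddCommGroup F] [Module A F]
  [AddCommGroup F'] [Module A F']

/-- **Fibrewise injective ⇒ injective.** -/
theorem injective_of_forall_maximal [Module.Free A F] [Module.Flat A F'] (u : F →ₗ[A] F')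
    (hfib : ∀ (m : Ideal A) [m.IsMaximal], Function.Injective (u.lTensor (A ⧸ m))) :
    Function.Injective u := by
  classical
  rw [injective_iff_map_eq_zero]
  intro r hr
  let ι := Module.Free.ChooseBasisIndex A F
  let b : Module.Basis ι A F := Module.Free.chooseBasis A F
  -- coefficients of `r`
  set S : Finset ι := (b.repr r).support with hS
  let a : ι → A := fun i => b.repr r i
  let 𝔞 : Ideal A := Ideal.span (a '' (S : Set ι))
  have ha_mem : ∀ i, a i ∈ 𝔞 := by
    intro i
    by_cases hi : i ∈ S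
    · exact Ideal.subset_span ⟨i, hi, rfl⟩
    · have : a i = 0 := by
        simpa [hS, Finsupp.mem_support_iff] using hi
      rw [this]
      exact 𝔞.zero_mem
  have hr_sum : r = ∑ i ∈ S, a i • b i := by
    conv_lhs => rw [← b.linearCombination_repr r]
    rw [Finsupp.linearCombination_apply, Finsupp.sum]
  -- the element `ρ = Σ aᵢ ⊗ bᵢ` of `𝔞 ⊗ F`
  let ρ : 𝔞 ⊗[A] F := ∑ i ∈ S, (⟨a i, ha_mem i⟩ : 𝔞) ⊗ₜ[A] b i
  have hρ : (u.lTensor 𝔞) ρ = 0 := by
    have hinj : Function.Injective ((Submodule.subtype 𝔞).rTensor F') :=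
      Module.Flat.rTensor_preserves_injective_linearMap _ (Submodule.subtype_injective _)
    apply hinj
    rw [map_zero]
    apply (TensorProduct.lid A F').injective
    rw [map_zero]
    simp only [ρ, map_sum, LinearMap.lTensor_tmul, LinearMap.rTensor_tmul,
      Submodule.subtype_apply, TensorProduct.lid_tmul]
    rw [← hr, hr_sum, map_sum]
    simp only [map_smul]
  haveI : Module.Finite A 𝔞 :=
    Module.Finite.iff_fg.mpr (Submodule.fg_span ((Finset.finite_toSet S).image a))
  -- every functional `𝔞 → A ⧸ m` vanishes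
  have hfun : ∀ (m : Ideal A) [m.IsMaximal] (f : 𝔞 →ₗ[A] (A ⧸ m)), f = 0 := by
    intro m _ f
    have h1 : (u.lTensor (A ⧸ m)) ((f.rTensor F) ρ) = 0 := by
      rw [← LinearMap.comp_apply, LinearMap.lTensor_comp_rTensor,
        ← LinearMap.rTensor_comp_lTensor, LinearMap.comp_apply, hρ, map_zero]
    have h2 : (f.rTensor F) ρ = 0 := hfib m (by rw [h1, map_zero])
    have h3 : ∀ j, f ⟨a j, ha_mem j⟩ = 0 := by
      intro j
      have := congrArg (fun z => TensorProduct.rid A (A ⧸ m) ((b.coord j).lTensor (A ⧸ m) z)) h2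
      simp only [ρ, map_sum, LinearMap.rTensor_tmul, LinearMap.lTensor_tmul,
        TensorProduct.rid_tmul, map_zero, Module.Basis.coord_apply, Module.Basis.repr_self,
        Finsupp.single_apply] at this
      by_cases hj : j ∈ S
      · rw [Finset.sum_eq_single j] at this
        · simpa using this
        · intro i _ hij
          simp [hij]
        · intro hj'
          exact absurd hj hj'
      · have h0 : (⟨a j, ha_mem j⟩ : 𝔞) = 0 := by
          apply Subtype.ext
          simpa [hS, Finsupp.mem_support_iff, a] using hj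
        rw [h0, map_zero]
    -- `f` vanishes on generators
    apply LinearMap.ext
    intro z
    have hz : z ∈ (⊤ : Submodule A 𝔞) := trivial
    have hspan : (⊤ : Submodule A 𝔞) =
        Submodule.span A ((fun i => (⟨a i, ha_mem i⟩ : 𝔞)) '' (S : Set ι)) := by
      apply Submodule.map_injective_of_injective (Submodule.subtype_injective 𝔞)
      rw [Submodule.map_top, Submodule.range_subtype, Submodule.map_span, ← Set.image_comp]
      rfl
    rw [hspan] at hz
    induction hz using Submodule.span_induction with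
    | mem z hz =>
      obtain ⟨i, -, rfl⟩ := hz
      exact h3 i
    | zero => simp
    | add x y _ _ hx hy => simp only [map_add, hx, hy, LinearMap.zero_apply, add_zero]
    | smul c x _ hx => simp only [map_smul, hx, LinearMap.zero_apply, smul_zero]
  have hsub : Subsingleton 𝔞 :=
    subsingleton_of_forall_top_le_smul_top 𝔞
      (fun m _ => top_le_smul_top_of_forall_dual_eq_zero m 𝔞 (hfun m))
  have hzero : ∀ i, a i = 0 := by
    intro i
    have := Subsingleton.elim (⟨a i, ha_mem i⟩ : 𝔞) 0
    exact congrArg Subtype.val this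
  rw [hr_sum]
  exact Finset.sum_eq_zero (fun i _ => by rw [hzero i, zero_smul])

/-- **Fibrewise injective ⇒ universally injective.** -/
theorem baseChange_injective_of_forall_field [Module.Free A F] [Module.Flat A F']
    (u : F →ₗ[A] F') (A' : Type u') [CommRing A'] [Algebra A A']
    (hfib : ∀ (K : Type u') [Field K] [Algebra A K], Function.Injective (u.baseChange K)) :
    Function.Injective (u.baseChange A') := by
  apply injective_of_forall_maximal (A := A') (u.baseChange A')
  intro m _
  letI : Field (A' ⧸ m) := Ideal.Quotient.field m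
  have key := hfib (A' ⧸ m)
  let e := TensorProduct.AlgebraTensorModule.cancelBaseChange A A' (A' ⧸ m) (A' ⧸ m) F
  let e' := TensorProduct.AlgebraTensorModule.cancelBaseChange A A' (A' ⧸ m) (A' ⧸ m) F'
  have hsq : ∀ z, e' ((u.baseChange A').lTensor (A' ⧸ m) z) = (u.baseChange (A' ⧸ m)) (e z) := by
    intro z
    induction z using TensorProduct.induction_on with
    | zero => simp
    | tmul x y =>
      induction y using TensorProduct.induction_on with
      | zero => simp
      | tmul a f => simp [e, e']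
      | add y1 y2 h1 h2 => simp only [TensorProduct.tmul_add, map_add, h1, h2]
    | add x y hx hy => simp only [map_add, hx, hy]
  intro z1 z2 h
  apply e.injective
  apply key
  rw [← hsq, ← hsq, h]

/-- `1 ⊗ x = 0` in `(A ⧸ I) ⊗ M` iff `x ∈ I M`. -/
theorem one_tmul_eq_zero_iff_mem_smul_top (I : Ideal A) (M : Type v) [AddCommGroup M]
    [Module A M] (x : M) : (1 : A ⧸ I) ⊗ₜ[A] x = 0 ↔ x ∈ (I • ⊤ : Submodule A M) := by
  rw [← (TensorProduct.quotTensorEquivQuotSMul M I).map_eq_zero_iff,
    TensorProduct.quotTensorEquivQuotSMul_mk_one_tmul, Submodule.Quotient.mk_eq_zero]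

/-- **Fibrewise injective ⇒ flat cokernel.** -/
theorem flat_coker_of_forall_field [Module.Free A F] [Module.Flat A F'] (u : F →ₗ[A] F')
    (hfib : ∀ (K : Type u) [Field K] [Algebra A K], Function.Injective (u.baseChange K)) :
    Module.Flat A (F' ⧸ LinearMap.range u) := by
  apply H310.flat_quotient_of_inf_smul_le
  rintro I - y ⟨⟨x, rfl⟩, hyI⟩
  have hinj := baseChange_injective_of_forall_field u (A ⧸ I) hfib
  have h0 : (1 : A ⧸ I) ⊗ₜ[A] (u x) = 0 :=
    (one_tmul_eq_zero_iff_mem_smul_top I F' (u x)).mpr hyI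
  have h1 : (1 : A ⧸ I) ⊗ₜ[A] x = 0 := by
    apply hinj
    rw [LinearMap.baseChange_tmul, h0, map_zero]
  have hx : x ∈ (I • ⊤ : Submodule A F) := (one_tmul_eq_zero_iff_mem_smul_top I F x).mp h1
  have hmap : (I • ⊤ : Submodule A F).map u = I • LinearMap.range u := by
    rw [Submodule.map_smul'', Submodule.map_top]
  rw [← hmap]
  exact Submodule.mem_map_of_mem hx

end Main

end Fermat.Agent.S25.H550

end
-- ===== PACK-END S25/H550/FibrewiseInjective.lean

-- ===== PACK-BEGIN S25/H11/HilbDiv.lean
section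






/-!
# S25 / HILB / H3 (helper11): Hilb = Div

If the diagonal ideal of `B` over `k` is an invertible `B ⊗ B`-module (H2), then every ideal `I`
of `A ⊗[k] B` with `(A ⊗[k] B) ⧸ I` finite projective over `A` is an invertible module
(`hilb_ideal_invertible`).  No field / domain / finiteness hypothesis is needed.

Proof: `M := Q ⊗ B` (`Q` the quotient) is a finite projective `A ⊗ B`-algebra, the graph ideal
`K = ker (Q ⊗ B → Q)` is an invertible `M`-module (`graphIdeal_invertible`, base change of the
diagonal), Schanuel gives `I × M ≃ K × (A ⊗ B)`, and `K` has the same rank as `M` because finite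
algebras over a field are semilocal; finally rank one + projective ⇒ invertible (helper551).
-/

set_option autoImplicit false
set_option linter.style.haveILetI false
set_option linter.unusedVariables false
set_option linter.unusedSectionVars false

open TensorProduct

namespace Fermat.Agent.S25.H11

universe u

section abstractQ

variable (k : Type u) [CommRing k] (B : Type u) [CommRing B] [Algebra k B]
  (A : Type u) [CommRing A] [Algebra k A]
  (Q : Type u) [CommRing Q] [Algebra k Q] [Algebra A Q] [IsScalarTower k A Q]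
  (σ : A ⊗[k] B →ₐ[A] Q)

/-- `φ : B → Q`. -/
noncomputable def quotPhi : B →ₐ[k] Q :=
  (σ.restrictScalars k).comp Algebra.TensorProduct.includeRight

lemma quotPhi_apply (b : B) : quotPhi k B A Q σ b = σ ((1 : A) ⊗ₜ[k] b) := rfl

/-- `χ : A ⊗ B → Q ⊗ B`. -/
noncomputable def quotChi : A ⊗[k] B →ₐ[k] Q ⊗[k] B :=
  Algebra.TensorProduct.map (IsScalarTower.toAlgHom k A Q) (AlgHom.id k B)

lemma quotChi_tmul (a : A) (b : B) :
    quotChi k B A Q (a ⊗ₜ[k] b) = (algebraMap A Q a) ⊗ₜ[k] b := by
  simp [quotChi]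

lemma graphHom_quotChi (r : A ⊗[k] B) :
    graphHom (quotPhi k B A Q σ) (quotChi k B A Q r) = σ r := by
  induction r using TensorProduct.induction_on with
  | zero => simp
  | tmul a b =>
    rw [quotChi_tmul, graphHom_tmul, quotPhi_apply, ← AlgHom.commutes σ a,
      Algebra.TensorProduct.algebraMap_apply, ← map_mul,
      Algebra.TensorProduct.tmul_mul_tmul]
    simp
  | add x y hx hy => simp only [map_add, hx, hy]

/-- The `A ⊗ B`-algebra structure on `Q ⊗ B` given by `χ`. -/
noncomputable abbrev chiAlgebra : Algebra (A ⊗[k] B) (Q ⊗[k] B) :=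
  (quotChi k B A Q).toRingHom.toAlgebra


/-- **H3, abstract form.** -/
theorem ker_invertible_of_finite_projective
    [Module.Invertible (B ⊗[k] B) (KaehlerDifferential.ideal k B)]
    [Module.Finite A Q] [Module.Projective A Q]
    (hsurj : Function.Surjective σ) :
    Module.Invertible (A ⊗[k] B) (RingHom.ker σ.toRingHom) := by
  -- the `R`-algebra structure on `M = Q ⊗ B`
  letI alg : Algebra (A ⊗[k] B) (Q ⊗[k] B) := chiAlgebra k B A Q
  have halg : ∀ r, algebraMap (A ⊗[k] B) (Q ⊗[k] B) r = quotChi k B A Q r := fun _ => rfl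
  haveI tower : IsScalarTower A (A ⊗[k] B) (Q ⊗[k] B) := by
    apply IsScalarTower.of_algebraMap_eq
    intro a
    rw [halg, Algebra.TensorProduct.algebraMap_apply, Algebra.TensorProduct.algebraMap_apply,
      quotChi_tmul]
    simp
  -- `M` is the base change of `Q` along `A → R`
  have hpush : Algebra.IsPushout A Q (A ⊗[k] B) (Q ⊗[k] B) := by
    apply Algebra.IsPushout.tensorProduct_tensorProduct k B A Q
    ext b
    simp [halg, quotChi]
  have hbc := hpush.symm.out
  let eM : (A ⊗[k] B) ⊗[A] Q ≃ₗ[A ⊗[k] B] (Q ⊗[k] B) := hbc.equiv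
  haveI : Module.Finite (A ⊗[k] B) (Q ⊗[k] B) := Module.Finite.equiv eM
  haveI : Module.Projective (A ⊗[k] B) (Q ⊗[k] B) := Module.Projective.of_equiv eM
  -- the graph ideal
  haveI hK : Module.Invertible (Q ⊗[k] B) (graphIdeal (quotPhi k B A Q σ)) :=
    graphIdeal_invertible (quotPhi k B A Q σ)
  haveI : Module.Projective (A ⊗[k] B) (graphIdeal (quotPhi k B A Q σ)) :=
    projective_of_tower (A ⊗[k] B) (Q ⊗[k] B) (graphIdeal (quotPhi k B A Q σ))
  haveI : Module.Finite (A ⊗[k] B) (graphIdeal (quotPhi k B A Q σ)) :=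
    finite_of_tower (A ⊗[k] B) (Q ⊗[k] B) (graphIdeal (quotPhi k B A Q σ))
  -- the two semilinear surjections onto `Q`
  let π : (A ⊗[k] B) →ₛₗ[σ.toRingHom] Q := σ.toRingHom.toSemilinearMap
  let π' : (Q ⊗[k] B) →ₛₗ[σ.toRingHom] Q :=
    { toFun := graphHom (quotPhi k B A Q σ)
      map_add' := map_add _
      map_smul' := fun r m => by
        rw [Algebra.smul_def, halg, map_mul, graphHom_quotChi]
        rfl }
  have hπ : Function.Surjective π := hsurj
  have hπ' : Function.Surjective π' := fun q => ⟨q ⊗ₜ[k] (1 : B), by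
    show graphHom (quotPhi k B A Q σ) (q ⊗ₜ[k] (1 : B)) = q
    simp⟩
  obtain ⟨eS⟩ := schanuel_ker hπ hπ'
  -- the kernel of `π'` is the graph ideal
  let eK : LinearMap.ker π' ≃ₗ[A ⊗[k] B] graphIdeal (quotPhi k B A Q σ) :=
    { toFun := fun x => ⟨x.1, x.2⟩
      map_add' := fun _ _ => rfl
      map_smul' := fun _ _ => rfl
      invFun := fun x => ⟨x.1, x.2⟩
      left_inv := fun _ => rfl
      right_inv := fun _ => rfl }
  haveI : Module.Projective (A ⊗[k] B) (LinearMap.ker π') := Module.Projective.of_equiv eK.symm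
  haveI : Module.Finite (A ⊗[k] B) (LinearMap.ker π') := Module.Finite.equiv eK.symm
  -- hence `ker π` is finite projective
  haveI : Module.Projective (A ⊗[k] B) (LinearMap.ker π × (Q ⊗[k] B)) :=
    Module.Projective.of_equiv eS.symm
  haveI : Module.Finite (A ⊗[k] B) (LinearMap.ker π × (Q ⊗[k] B)) := Module.Finite.equiv eS.symm
  haveI : Module.Projective (A ⊗[k] B) (LinearMap.ker π) :=
    Module.Projective.of_split (LinearMap.inl _ _ (Q ⊗[k] B)) (LinearMap.fst _ _ (Q ⊗[k] B))
      (by ext x; rfl)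
  haveI : Module.Finite (A ⊗[k] B) (LinearMap.ker π) :=
    Module.Finite.of_surjective (LinearMap.fst _ (LinearMap.ker π) (Q ⊗[k] B))
      LinearMap.fst_surjective
  -- ranks
  have hrank : ∀ p : PrimeSpectrum (A ⊗[k] B),
      Module.rankAtStalk (R := A ⊗[k] B) (LinearMap.ker π) p = 1 := by
    intro p
    haveI : Nontrivial (A ⊗[k] B) := p.nontrivial
    have h1 := Module.rankAtStalk_eq_of_equiv eS
    rw [Module.rankAtStalk_prod, Module.rankAtStalk_prod, Module.rankAtStalk_self,
      Module.rankAtStalk_eq_of_equiv eK,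
      rankAtStalk_eq_of_invertible (A ⊗[k] B) (Q ⊗[k] B) (graphIdeal (quotPhi k B A Q σ))] at h1
    have h2 := congrFun h1 p
    simp only [Pi.add_apply, Pi.one_apply] at h2
    omega
  have hinv := Fermat.Agent.S25.H551.invertible_of_rankAtStalk_eq_one (LinearMap.ker π) hrank
  exact hinv

end abstractQ

/-- **H3 (Hilb = Div).** If the diagonal ideal of `B` is an invertible `B ⊗ B`-module, then every
ideal `I` of `A ⊗ B` such that `(A ⊗ B) ⧸ I` is finite projective over `A` is an invertible
`A ⊗ B`-module. -/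
theorem hilb_ideal_invertible (k : Type u) [CommRing k] (B : Type u) [CommRing B] [Algebra k B]
    [Module.Invertible (B ⊗[k] B) (KaehlerDifferential.ideal k B)]
    (A : Type u) [CommRing A] [Algebra k A] (I : Ideal (A ⊗[k] B))
    [Module.Finite A ((A ⊗[k] B) ⧸ I)] [Module.Projective A ((A ⊗[k] B) ⧸ I)] :
    Module.Invertible (A ⊗[k] B) I := by
  have h := ker_invertible_of_finite_projective k B A ((A ⊗[k] B) ⧸ I) (Ideal.Quotient.mkₐ A I)
    (Ideal.Quotient.mkₐ_surjective A I)
  have hker : RingHom.ker (Ideal.Quotient.mkₐ A I).toRingHom = I := by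
    ext x
    simp
  rw [hker] at h
  exact h

/-- A generator of an invertible principal ideal is a nonzerodivisor. -/
theorem mem_nonZeroDivisors_of_span_invertible {R : Type u} [CommRing R] (f : R)
    [Module.Invertible R (Ideal.span {f} : Ideal R)] : f ∈ nonZeroDivisors R := by
  rw [mem_nonZeroDivisors_iff_right]
  intro r hr
  have hfaith : FaithfulSMul R (Ideal.span {f} : Ideal R) := inferInstance
  have h0 : ∀ x : (Ideal.span {f} : Ideal R), r • x = (0 : R) • x := by
    rintro ⟨x, hx⟩
    obtain ⟨c, rfl⟩ := Ideal.mem_span_singleton'.mp hx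
    apply Subtype.ext
    simp only [zero_smul, Submodule.coe_smul, smul_eq_mul, ZeroMemClass.coe_zero]
    rw [mul_comm c f, ← mul_assoc, hr, zero_mul]
  exact hfaith.eq_of_smul_eq_smul h0

/-- **H3'.** In the situation of `hilb_ideal_invertible`, a generator of a principal such ideal
is a nonzerodivisor. -/
theorem hilb_ideal_generator_regular (k : Type u) [CommRing k] (B : Type u) [CommRing B]
    [Algebra k B] [Module.Invertible (B ⊗[k] B) (KaehlerDifferential.ideal k B)]
    (A : Type u) [CommRing A] [Algebra k A] (f : A ⊗[k] B)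
    [Module.Finite A ((A ⊗[k] B) ⧸ Ideal.span {f})]
    [Module.Projective A ((A ⊗[k] B) ⧸ Ideal.span {f})] :
    f ∈ nonZeroDivisors (A ⊗[k] B) := by
  haveI := hilb_ideal_invertible k B A (Ideal.span {f})
  exact mem_nonZeroDivisors_of_span_invertible f

end Fermat.Agent.S25.H11

end
-- ===== PACK-END S25/H11/HilbDiv.lean

-- ===== PACK-BEGIN S25/H251/ChartIdeal.lean
section


/-!
# S25 / block HILB / leaf H1 (helper251): chart ideals = matrix points

For a `k`-algebra `A`, an ideal `I` of `A ⊗[k] B` is a *chart ideal* for `β : Fin g → B` if the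
images of `1 ⊗ β i` form an `A`-basis of `(A ⊗[k] B) ⧸ I`.  We show that chart ideals are in
natural bijection with the matrix points `MatPt k B β A` of `RepAlg.lean`, hence with
`RepAlg k B β →ₐ[k] A`.
-/

set_option autoImplicit false

namespace Fermat.Agent.S25.H251

open TensorProduct

universe u v w w'

variable {k : Type u} [CommRing k] {B : Type v} [CommRing B] [Algebra k B] {g : ℕ}
variable {β : Fin g → B} {A : Type w} [CommRing A] [Algebra k A]

variable (k β A) in
/-- `I` is a chart ideal for `β`: the images of `1 ⊗ β i` form an `A`-basis of the quotient. -/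
def IsChartIdeal (I : Ideal (A ⊗[k] B)) : Prop :=
  ∃ b : Module.Basis (Fin g) A ((A ⊗[k] B) ⧸ I), ∀ i, b i = Ideal.Quotient.mk I (1 ⊗ₜ[k] β i)

/-- The basis of the quotient by a chart ideal. -/
noncomputable def IsChartIdeal.basis {I : Ideal (A ⊗[k] B)} (h : IsChartIdeal k β A I) :
    Module.Basis (Fin g) A ((A ⊗[k] B) ⧸ I) :=
  Exists.choose h

lemma IsChartIdeal.basis_apply {I : Ideal (A ⊗[k] B)} (h : IsChartIdeal k β A I) (i : Fin g) :
    h.basis i = Ideal.Quotient.mk I (1 ⊗ₜ[k] β i) :=
  Exists.choose_spec h i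

lemma IsChartIdeal.basis_eq {I : Ideal (A ⊗[k] B)} (h : IsChartIdeal k β A I)
    (b : Module.Basis (Fin g) A ((A ⊗[k] B) ⧸ I))
    (hb : ∀ i, b i = Ideal.Quotient.mk I (1 ⊗ₜ[k] β i)) : h.basis = b :=
  Module.Basis.eq_of_apply_eq fun i => by rw [h.basis_apply, hb]

namespace MatPt

variable (P : MatPt k B β A)

/-- The `A`-algebra map `A ⊗[k] B → Matrix (Fin g) (Fin g) A` attached to a matrix point. -/
noncomputable def toMat : A ⊗[k] B →ₐ[A] Matrix (Fin g) (Fin g) A :=
  Algebra.TensorProduct.lift (Algebra.ofId A _) P.ρ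
    (fun a b => by rw [Algebra.ofId_apply]; exact Algebra.commute_algebraMap_left a (P.ρ b))

@[simp] lemma toMat_tmul (a : A) (b : B) : P.toMat (a ⊗ₜ b) = a • P.ρ b := by
  rw [toMat, Algebra.TensorProduct.lift_tmul, Algebra.ofId_apply, Algebra.smul_def]

/-- The `A`-linear map `x ↦ x • v` from `A ⊗[k] B` to `A ^ g`. -/
noncomputable def toVec : A ⊗[k] B →ₗ[A] (Fin g → A) where
  toFun x := (P.toMat x).mulVec P.v
  map_add' x y := by rw [map_add, Matrix.add_mulVec]
  map_smul' a x := by rw [map_smul, Matrix.smul_mulVec]; rfl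

lemma toVec_apply (x : A ⊗[k] B) : P.toVec x = (P.toMat x).mulVec P.v := rfl

lemma toVec_mul (x y : A ⊗[k] B) : P.toVec (x * y) = (P.toMat x).mulVec (P.toVec y) := by
  rw [toVec_apply, toVec_apply, map_mul, Matrix.mulVec_mulVec]

lemma toVec_one_tmul_β (i : Fin g) : P.toVec (1 ⊗ₜ β i) = Pi.single i 1 := by
  rw [toVec_apply, toMat_tmul, one_smul, P.cyc]

lemma toVec_surjective : Function.Surjective P.toVec := by
  intro w
  refine ⟨∑ i, w i • (1 ⊗ₜ[k] β i), ?_⟩
  rw [map_sum]
  simp only [map_smul, toVec_one_tmul_β]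
  ext j
  simp [Finset.sum_apply, Pi.single_apply]

/-- The ideal of a matrix point: the annihilator of the cyclic vector. -/
noncomputable def ideal : Ideal (A ⊗[k] B) where
  carrier := {x | P.toVec x = 0}
  add_mem' {x y} hx hy := by
    simp only [Set.mem_ofPred_eq] at hx hy ⊢
    rw [map_add, hx, hy, add_zero]
  zero_mem' := by simp
  smul_mem' c x hx := by
    simp only [Set.mem_ofPred_eq] at hx ⊢
    rw [smul_eq_mul, toVec_mul, hx, Matrix.mulVec_zero]

lemma mem_ideal {x : A ⊗[k] B} : x ∈ P.ideal ↔ P.toVec x = 0 := Iff.rfl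

lemma ideal_restrictScalars : P.ideal.restrictScalars A = LinearMap.ker P.toVec := by
  ext x
  simp [mem_ideal]

/-- The quotient by the ideal of a matrix point is `A ^ g`. -/
noncomputable def quotEquiv : ((A ⊗[k] B) ⧸ P.ideal) ≃ₗ[A] (Fin g → A) :=
  (Submodule.Quotient.restrictScalarsEquiv A P.ideal).symm ≪≫ₗ
    (Submodule.quotEquivOfEq _ _ P.ideal_restrictScalars) ≪≫ₗ
    P.toVec.quotKerEquivOfSurjective P.toVec_surjective

@[simp] lemma quotEquiv_mk (x : A ⊗[k] B) :
    P.quotEquiv (Ideal.Quotient.mk P.ideal x) = P.toVec x := rfl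

/-- The basis of the quotient given by the images of `1 ⊗ β i`. -/
noncomputable def basis : Module.Basis (Fin g) A ((A ⊗[k] B) ⧸ P.ideal) :=
  (Pi.basisFun A (Fin g)).map P.quotEquiv.symm

lemma basis_apply (i : Fin g) : P.basis i = Ideal.Quotient.mk P.ideal (1 ⊗ₜ[k] β i) := by
  rw [basis, Module.Basis.map_apply, LinearEquiv.symm_apply_eq, quotEquiv_mk, toVec_one_tmul_β,
    Pi.basisFun_apply]

lemma isChartIdeal : IsChartIdeal k β A P.ideal := ⟨P.basis, P.basis_apply⟩

end MatPt

section OfIdeal

variable (I : Ideal (A ⊗[k] B)) (b : Module.Basis (Fin g) A ((A ⊗[k] B) ⧸ I))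

/-- Multiplication on the quotient, in matrix form with respect to a basis. -/
noncomputable def mulMat : A ⊗[k] B →ₐ[A] Matrix (Fin g) (Fin g) A :=
  (LinearMap.toMatrixAlgEquiv b).toAlgHom.comp
    ((Algebra.lmul A ((A ⊗[k] B) ⧸ I)).comp (Ideal.Quotient.mkₐ A I))

lemma mulMat_mulVec_repr (x : A ⊗[k] B) (q : (A ⊗[k] B) ⧸ I) :
    (mulMat I b x).mulVec (b.repr q) = b.repr (Ideal.Quotient.mk I x * q) := by
  simp [mulMat, LinearMap.toMatrixAlgEquiv, LinearMap.toMatrix]

/-- The matrix point of a chart ideal (with respect to a basis `b` with `b i = [1 ⊗ β i]`). -/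
noncomputable def matPtOfBasis (hb : ∀ i, b i = Ideal.Quotient.mk I (1 ⊗ₜ[k] β i)) :
    MatPt k B β A where
  ρ := ((mulMat I b).restrictScalars k).comp Algebra.TensorProduct.includeRight
  v := b.repr 1
  cyc i := by
    have h := mulMat_mulVec_repr I b (1 ⊗ₜ[k] β i) 1
    rw [mul_one, ← hb i, Module.Basis.repr_self] at h
    rw [show (((mulMat I b).restrictScalars k).comp Algebra.TensorProduct.includeRight) (β i) =
      mulMat I b (1 ⊗ₜ[k] β i) from rfl, h]
    ext j
    simp [Finsupp.single_apply, Pi.single_apply, eq_comm]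

lemma matPtOfBasis_toMat (hb : ∀ i, b i = Ideal.Quotient.mk I (1 ⊗ₜ[k] β i)) :
    (matPtOfBasis I b hb).toMat = mulMat I b := by
  apply Algebra.TensorProduct.ext
  · ext
  · ext x
    simp [matPtOfBasis, MatPt.toMat]

lemma matPtOfBasis_toVec (hb : ∀ i, b i = Ideal.Quotient.mk I (1 ⊗ₜ[k] β i)) (x : A ⊗[k] B) :
    (matPtOfBasis I b hb).toVec x = b.repr (Ideal.Quotient.mk I x) := by
  rw [MatPt.toVec_apply, matPtOfBasis_toMat]
  have := mulMat_mulVec_repr I b x 1
  rw [mul_one] at this
  exact this

lemma matPtOfBasis_ideal (hb : ∀ i, b i = Ideal.Quotient.mk I (1 ⊗ₜ[k] β i)) :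
    (matPtOfBasis I b hb).ideal = I := by
  ext x
  rw [MatPt.mem_ideal, matPtOfBasis_toVec]
  constructor
  · intro h
    have h2 : b.repr (Ideal.Quotient.mk I x) = 0 := by
      ext j
      simp [h]
    rw [LinearEquiv.map_eq_zero_iff] at h2
    exact Ideal.Quotient.eq_zero_iff_mem.mp h2
  · intro h
    rw [Ideal.Quotient.eq_zero_iff_mem.mpr h, map_zero]
    rfl

end OfIdeal

namespace MatPt

variable (P : MatPt k B β A)

lemma basis_repr_mk (x : A ⊗[k] B) (j : Fin g) :
    P.basis.repr (Ideal.Quotient.mk P.ideal x) j = P.toVec x j := by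
  simp [basis]

lemma matPtOfBasis_basis : matPtOfBasis P.ideal P.basis P.basis_apply = P := by
  have hvec : ∀ x, (matPtOfBasis P.ideal P.basis P.basis_apply).toVec x = P.toVec x := by
    intro x
    rw [matPtOfBasis_toVec]
    ext j
    exact P.basis_repr_mk x j
  have hv : (matPtOfBasis P.ideal P.basis P.basis_apply).v = P.v := by
    have h1 := hvec 1
    simpa [MatPt.toVec_apply] using h1
  have hρ : ∀ b, (matPtOfBasis P.ideal P.basis P.basis_apply).ρ b = P.ρ b := by
    intro b
    -- compare columns: `ρ b *ᵥ e_i = ρ b *ᵥ (ρ (β i) *ᵥ v) = toVec (b β_i)`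
    ext i j
    have h1 := hvec (1 ⊗ₜ[k] (b * β j))
    have e1 : ∀ Q : MatPt k B β A, Q.toVec (1 ⊗ₜ[k] (b * β j)) = (Q.ρ b).mulVec (Pi.single j 1) := by
      intro Q
      rw [Q.toVec_apply, Q.toMat_tmul, one_smul, map_mul, ← Matrix.mulVec_mulVec, Q.cyc]
    rw [e1, e1] at h1
    have h2 := congrFun h1 i
    simpa using h2
  ext1
  · exact AlgHom.ext hρ
  · exact hv

end MatPt

section BaseChange

variable {A' : Type w'} [CommRing A'] [Algebra k A'] (φ : A →ₐ[k] A')

/-- The base change map `A ⊗[k] B → A' ⊗[k] B` along `φ : A → A'`. -/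
noncomputable def baseMap : A ⊗[k] B →ₐ[k] A' ⊗[k] B :=
  Algebra.TensorProduct.map φ (AlgHom.id k B)

@[simp] lemma baseMap_tmul (a : A) (b : B) :
    baseMap (B := B) φ (a ⊗ₜ[k] b) = φ a ⊗ₜ[k] b := rfl

/-- Base change of an ideal of `A ⊗[k] B` along `φ : A → A'`. -/
noncomputable def baseIdeal (I : Ideal (A ⊗[k] B)) : Ideal (A' ⊗[k] B) :=
  Ideal.map (baseMap (B := B) φ) I

namespace MatPt

variable (P : MatPt k B β A)

lemma map_toVec (x : A ⊗[k] B) :
    (P.map φ).toVec (baseMap φ x) = (φ : A → A') ∘ (P.toVec x) := by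
  induction x using TensorProduct.induction_on with
  | zero =>
    ext j
    simp
  | tmul a b =>
    ext j
    simp [MatPt.toVec_apply, Matrix.mulVec, dotProduct, map_sum, map_mul, Matrix.smul_apply]
  | add x y hx hy =>
    rw [map_add, map_add, hx, map_add, hy]
    ext j
    simp

/-- Every element is congruent modulo the base-changed ideal to the combination of the `1 ⊗ β i`
given by its coordinate vector. -/
lemma sub_sum_mem_baseIdeal (x' : A' ⊗[k] B) :
    x' - ∑ i, (P.map φ).toVec x' i • (1 ⊗ₜ[k] β i) ∈ baseIdeal φ P.ideal := by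
  induction x' using TensorProduct.induction_on with
  | zero => simp
  | tmul a' b =>
    -- the statement for `1 ⊗ b` over `A`
    have h0 : (1 ⊗ₜ[k] b : A ⊗[k] B) - ∑ i, P.toVec (1 ⊗ₜ[k] b) i • (1 ⊗ₜ[k] β i) ∈ P.ideal := by
      rw [MatPt.mem_ideal, map_sub, map_sum]
      simp only [map_smul, MatPt.toVec_one_tmul_β]
      ext j
      simp [Finset.sum_apply, Pi.single_apply]
    have h1 : baseMap (B := B) φ ((1 ⊗ₜ[k] b : A ⊗[k] B) -
        ∑ i, P.toVec (1 ⊗ₜ[k] b) i • (1 ⊗ₜ[k] β i)) ∈ baseIdeal φ P.ideal :=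
      Ideal.mem_map_of_mem _ h0
    have h2 : baseMap (B := B) φ ((1 ⊗ₜ[k] b : A ⊗[k] B) -
        ∑ i, P.toVec (1 ⊗ₜ[k] b) i • (1 ⊗ₜ[k] β i)) =
        (1 ⊗ₜ[k] b : A' ⊗[k] B) - ∑ i, (P.map φ).toVec (1 ⊗ₜ[k] b) i • (1 ⊗ₜ[k] β i) := by
      rw [map_sub, map_sum]
      congr 1
      · simp
      · refine Finset.sum_congr rfl fun i _ => ?_
        have := congrFun (P.map_toVec φ (1 ⊗ₜ[k] b)) i
        simp only [baseMap_tmul, map_one, Function.comp_apply] at this
        rw [this, TensorProduct.smul_tmul', TensorProduct.smul_tmul', baseMap_tmul]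
        simp
    rw [h2] at h1
    have h3 : (a' ⊗ₜ[k] b : A' ⊗[k] B) -
        ∑ i, (P.map φ).toVec (a' ⊗ₜ[k] b) i • (1 ⊗ₜ[k] β i) =
        (a' ⊗ₜ[k] (1 : B)) * ((1 ⊗ₜ[k] b : A' ⊗[k] B) -
          ∑ i, (P.map φ).toVec (1 ⊗ₜ[k] b) i • (1 ⊗ₜ[k] β i)) := by
      have e : (a' ⊗ₜ[k] b : A' ⊗[k] B) = a' • (1 ⊗ₜ[k] b) := by
        rw [TensorProduct.smul_tmul', smul_eq_mul, mul_one]
      rw [mul_sub, Finset.mul_sum]
      congr 1
      · simp
      · refine Finset.sum_congr rfl fun i _ => ?_
        rw [e, map_smul, Pi.smul_apply, smul_eq_mul, mul_smul,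
          show (a' ⊗ₜ[k] (1 : B) : A' ⊗[k] B) = a' • 1 by
            rw [Algebra.TensorProduct.one_def, TensorProduct.smul_tmul', smul_eq_mul, mul_one],
          smul_mul_assoc, one_mul]
    rw [h3]
    exact Ideal.mul_mem_left _ _ h1
  | add x y hx hy =>
    have : x + y - ∑ i, (P.map φ).toVec (x + y) i • (1 ⊗ₜ[k] β i) =
        (x - ∑ i, (P.map φ).toVec x i • (1 ⊗ₜ[k] β i)) +
        (y - ∑ i, (P.map φ).toVec y i • (1 ⊗ₜ[k] β i)) := by
      simp only [map_add, Pi.add_apply, add_smul, Finset.sum_add_distrib]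
      abel
    rw [this]
    exact Ideal.add_mem _ hx hy

/-- **Base change**: the ideal of the image of a matrix point is the base change of its ideal. -/
theorem map_ideal : (P.map φ).ideal = baseIdeal φ P.ideal := by
  apply le_antisymm
  · intro x' hx'
    have h := P.sub_sum_mem_baseIdeal φ x'
    rw [MatPt.mem_ideal] at hx'
    simpa [hx'] using h
  · rw [baseIdeal, Ideal.map_le_iff_le_comap]
    intro x hx
    rw [Ideal.mem_comap, MatPt.mem_ideal, P.map_toVec φ x, (MatPt.mem_ideal P).mp hx]
    ext j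
    simp

end MatPt

/-- Chart ideals are stable under base change. -/
theorem IsChartIdeal.baseIdeal {I : Ideal (A ⊗[k] B)} (h : IsChartIdeal k β A I) :
    IsChartIdeal k β A' (baseIdeal φ I) := by
  have hI := matPtOfBasis_ideal I h.basis h.basis_apply
  rw [← hI, ← MatPt.map_ideal]
  exact MatPt.isChartIdeal _

end BaseChange

variable (k β A) in
/-- **Chart ideals are matrix points.** -/
noncomputable def chartEquiv :
    MatPt k B β A ≃ {I : Ideal (A ⊗[k] B) // IsChartIdeal k β A I} where
  toFun P := ⟨P.ideal, P.isChartIdeal⟩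
  invFun I := matPtOfBasis I.1 I.2.basis I.2.basis_apply
  left_inv P := by
    have key : ∀ (b' : Module.Basis (Fin g) A ((A ⊗[k] B) ⧸ P.ideal))
        (hb' : ∀ i, b' i = Ideal.Quotient.mk P.ideal (1 ⊗ₜ[k] β i)),
        b' = P.basis → matPtOfBasis P.ideal b' hb' = P := by
      rintro b' hb' rfl
      exact P.matPtOfBasis_basis
    exact key _ _ (P.isChartIdeal.basis_eq P.basis P.basis_apply)
  right_inv I := Subtype.ext (matPtOfBasis_ideal I.1 _ _)

/-- Naturality of `chartEquiv` in the test algebra. -/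
lemma chartEquiv_map {A' : Type w'} [CommRing A'] [Algebra k A'] (φ : A →ₐ[k] A')
    (P : MatPt k B β A) :
    (chartEquiv k β A' (P.map φ) : Ideal (A' ⊗[k] B)) = baseIdeal φ (chartEquiv k β A P).1 :=
  P.map_ideal φ

/-- **Representability of the chart of the Hilbert functor**: chart ideals of `A ⊗[k] B` are the
same as `k`-algebra maps `RepAlg k B β →ₐ[k] A`. -/
noncomputable def chartRepEquiv (k : Type u) [CommRing k] {B : Type v} [CommRing B] [Algebra k B]
    {g : ℕ} (β : Fin g → B) (A : Type w) [CommRing A] [Algebra k A] :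
    (RepAlg k B β →ₐ[k] A) ≃ {I : Ideal (A ⊗[k] B) // IsChartIdeal k β A I} :=
  (repEquiv k β A).trans (chartEquiv k β A)

/-- Naturality of `chartRepEquiv`: composing with `φ : A → A'` is base change of ideals. -/
theorem chartRepEquiv_comp {A' : Type w'} [CommRing A'] [Algebra k A'] (φ : A →ₐ[k] A')
    (f : RepAlg k B β →ₐ[k] A) :
    (chartRepEquiv k β A' (φ.comp f) : Ideal (A' ⊗[k] B)) =
      baseIdeal φ (chartRepEquiv k β A f).1 := by
  simp only [chartRepEquiv, Equiv.trans_apply]
  rw [repEquiv_comp, chartEquiv_map]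

end Fermat.Agent.S25.H251

end
-- ===== PACK-END S25/H251/ChartIdeal.lean

-- ===== PACK-BEGIN S25/H325/QuotMul.lean
section
/-
S25 helper (helper325), block ALGCHARTS (COV3 / SH2 support): the quotient by a product of two
"Hilbert" ideals is again finite projective over the base.  Pure algebra.
-/



set_option autoImplicit false
set_option linter.style.haveILetI false

open TensorProduct

namespace Fermat.Agent.S25.H325

section QuotMul

variable {A R : Type*} [CommRing A] [CommRing R] [Algebra A R]

/-- `(R ⧸ I) ⊗[R] M` is finite projective over `A` when `R ⧸ I` is finite projective over `A` and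
`M` is finite projective over `R`. -/
theorem finite_projective_quot_tensor (I : Ideal R) (M : Type*) [AddCommGroup M] [Module R M]
    [Module.Finite A (R ⧸ I)] [Module.Projective A (R ⧸ I)]
    [Module.Finite R M] [Module.Projective R M] :
    Module.Finite A ((R ⧸ I) ⊗[R] M) ∧ Module.Projective A ((R ⧸ I) ⊗[R] M) := by
  haveI : Module.Finite (R ⧸ I) ((R ⧸ I) ⊗[R] M) := inferInstance
  haveI : Module.Projective (R ⧸ I) ((R ⧸ I) ⊗[R] M) := inferInstance
  exact ⟨Module.Finite.trans (R ⧸ I) _, H11.projective_of_tower A (R ⧸ I) _⟩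

/-- `M ⧸ I • ⊤` is finite projective over `A` when `R ⧸ I` is finite projective over `A` and
`M` is finite projective over `R`. -/
theorem finite_projective_quot_smul_top (I : Ideal R) (M : Type*) [AddCommGroup M] [Module R M]
    [Module A M] [IsScalarTower A R M]
    [Module.Finite A (R ⧸ I)] [Module.Projective A (R ⧸ I)]
    [Module.Finite R M] [Module.Projective R M] :
    Module.Finite A (M ⧸ (I • ⊤ : Submodule R M)) ∧
      Module.Projective A (M ⧸ (I • ⊤ : Submodule R M)) := by
  obtain ⟨h1, h2⟩ := finite_projective_quot_tensor (A := A) I M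
  let e : ((R ⧸ I) ⊗[R] M) ≃ₗ[A] (M ⧸ (I • ⊤ : Submodule R M)) :=
    (quotTensorEquivQuotSMul M I).restrictScalars A
  exact ⟨Module.Finite.equiv e, Module.Projective.of_equiv e⟩

/-- The canonical map `I' ⧸ I • ⊤ → R ⧸ (I * I')`. -/
noncomputable def quotMulIncl (I I' : Ideal R) :
    ((I' : Type _) ⧸ (I • ⊤ : Submodule R I')) →ₗ[R] R ⧸ (I * I') :=
  Submodule.liftQ _ ((I * I').mkQ.comp I'.subtype) (by
    rw [Submodule.smul_le]
    intro r hr n _
    rw [LinearMap.mem_ker, LinearMap.comp_apply, Submodule.mkQ_apply,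
      Submodule.Quotient.mk_eq_zero]
    exact Ideal.mul_mem_mul hr n.2)

@[simp] theorem quotMulIncl_mk (I I' : Ideal R) (a : I') :
    quotMulIncl I I' (Submodule.Quotient.mk a) = Ideal.Quotient.mk (I * I') (a : R) := rfl

theorem mem_smul_top_iff (I I' : Ideal R) (a : I') :
    a ∈ (I • ⊤ : Submodule R I') ↔ (a : R) ∈ I * I' := by
  have h : (I • ⊤ : Submodule R I').map I'.subtype = I * I' := by
    rw [Submodule.map_smul'', Submodule.map_top, Submodule.range_subtype]
    rfl
  constructor
  · intro ha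
    rw [← h]
    exact ⟨a, ha, rfl⟩
  · intro ha
    rw [← h] at ha
    obtain ⟨b, hb, hba⟩ := ha
    have : b = a := Subtype.ext hba
    rwa [← this]

theorem quotMulIncl_injective (I I' : Ideal R) : Function.Injective (quotMulIncl I I') := by
  rw [← LinearMap.ker_eq_bot, LinearMap.ker_eq_bot']
  intro z hz
  obtain ⟨a, rfl⟩ := Submodule.Quotient.mk_surjective _ z
  rw [quotMulIncl_mk, Ideal.Quotient.eq_zero_iff_mem] at hz
  rw [Submodule.Quotient.mk_eq_zero]
  exact (mem_smul_top_iff I I' a).mpr hz

/-- The quotient by a product `I * I'` is finite projective over `A` if the quotients by `I` and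
by `I'` are, and `I'` is a finite projective `R`-module (e.g. invertible). -/
theorem finite_projective_quot_mul (I I' : Ideal R)
    [Module.Finite A (R ⧸ I)] [Module.Projective A (R ⧸ I)]
    [Module.Finite A (R ⧸ I')] [Module.Projective A (R ⧸ I')]
    [Module.Finite R I'] [Module.Projective R I'] :
    Module.Finite A (R ⧸ (I * I')) ∧ Module.Projective A (R ⧸ (I * I')) := by
  obtain ⟨hK1, hK2⟩ := finite_projective_quot_smul_top (A := A) I I'
  -- the projection onto `R ⧸ I'`
  let π : (R ⧸ (I * I')) →ₗ[A] (R ⧸ I') :=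
    (Ideal.Quotient.factorₐ A (Ideal.mul_le_right (I := I) (J := I'))).toLinearMap
  have hπ : ∀ r : R, π (Ideal.Quotient.mk (I * I') r) = Ideal.Quotient.mk I' r := fun r => rfl
  have hπs : Function.Surjective π := by
    intro z
    obtain ⟨r, rfl⟩ := Ideal.Quotient.mk_surjective z
    exact ⟨Ideal.Quotient.mk _ r, hπ r⟩
  obtain ⟨σ, hσ⟩ := LinearMap.exists_rightInverse_of_surjective π
    (LinearMap.range_eq_top.mpr hπs)
  have hσ' : ∀ t, π (σ t) = t := fun t => by
    have := congrArg (fun f : (R ⧸ I') →ₗ[A] (R ⧸ I') => f t) hσ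
    simpa using this
  -- the inclusion of the kernel
  let j : ((I' : Type _) ⧸ (I • ⊤ : Submodule R I')) →ₗ[A] R ⧸ (I * I') :=
    (quotMulIncl I I').restrictScalars A
  have hj : Function.Injective j := quotMulIncl_injective I I'
  have hker : ∀ q, π q = 0 → ∃ z, j z = q := by
    intro q hq
    obtain ⟨r, rfl⟩ := Ideal.Quotient.mk_surjective q
    rw [hπ, Ideal.Quotient.eq_zero_iff_mem] at hq
    exact ⟨Submodule.Quotient.mk ⟨r, hq⟩, rfl⟩
  -- the retraction
  let eK := LinearEquiv.ofInjective j hj
  let s : (((I' : Type _) ⧸ (I • ⊤ : Submodule R I')) × (R ⧸ I')) →ₗ[A] R ⧸ (I * I') :=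
    j.coprod σ
  have hs : Function.Surjective s := by
    intro q
    obtain ⟨z, hz⟩ := hker (q - σ (π q)) (by rw [map_sub, hσ', sub_self])
    refine ⟨(z, π q), ?_⟩
    simp only [s, LinearMap.coprod_apply, hz, sub_add_cancel]
  have hsi : Function.Injective s := by
    rw [← LinearMap.ker_eq_bot, LinearMap.ker_eq_bot']
    rintro ⟨z, t⟩ hzt
    simp only [s, LinearMap.coprod_apply] at hzt
    have hjz : π (j z) = 0 := by
      obtain ⟨a, rfl⟩ := Submodule.Quotient.mk_surjective _ z
      change π (Ideal.Quotient.mk (I * I') (a : R)) = 0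
      rw [hπ, Ideal.Quotient.eq_zero_iff_mem]
      exact a.2
    have ht : t = 0 := by
      have := congrArg π hzt
      rwa [map_add, hjz, hσ', zero_add, map_zero] at this
    subst ht
    rw [map_zero, add_zero] at hzt
    have hz : z = 0 := hj (by rw [hzt, map_zero])
    rw [hz]
    rfl
  let E := LinearEquiv.ofBijective s ⟨hsi, hs⟩
  exact ⟨Module.Finite.equiv E, Module.Projective.of_equiv E⟩

end QuotMul

end Fermat.Agent.S25.H325

end
-- ===== PACK-END S25/H325/QuotMul.lean

-- ===== PACK-BEGIN S25/H325/GDCHom.lean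
section
/-
S25 helper (helper325), block GDC item 7: morphisms of gluing data and the internal Hom
gluing datum `homGD G G'` (in particular the dual `dualGD G = homGD G unit`), over the frozen
`DefsAlg.lean`.  Pure algebra.
-/




set_option autoImplicit false

universe u

open TensorProduct

namespace Fermat.Agent.S25.H325

open Fermat.Agent.S25

noncomputable section

variable {A R₀ R₁ R₀₁ : Type u} [CommRing A] [CommRing R₀] [CommRing R₁]
    [CommRing R₀₁] [Algebra A R₀] [Algebra A R₁] [Algebra A R₀₁] [Algebra R₀ R₀₁]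
    [Algebra R₁ R₀₁] [IsScalarTower A R₀ R₀₁] [IsScalarTower A R₁ R₀₁]

/-- A morphism of gluing data: linear maps on the two charts and on the overlap, compatible
with the restriction maps. -/
structure GDHom (G G' : GlueDatum A R₀ R₁ R₀₁) where
  f₀ : G.N₀ →ₗ[R₀] G'.N₀
  f₁ : G.N₁ →ₗ[R₁] G'.N₁
  f₀₁ : G.N₀₁ →ₗ[R₀₁] G'.N₀₁
  comm₀ : ∀ s, f₀₁ (G.r₀ s) = G'.r₀ (f₀ s)
  comm₁ : ∀ s, f₀₁ (G.r₁ s) = G'.r₁ (f₁ s)

/-- The internal Hom of two gluing data: `(Hom(N₀, N₀'), Hom(N₁, N₁'), Hom(N₀₁, N₀₁'))` with
restriction maps "extend linearly to the overlap". -/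
def homGD (G G' : GlueDatum A R₀ R₁ R₀₁) : GlueDatum A R₀ R₁ R₀₁ :=
  haveI := G.invertible₀
  haveI := G.invertible₁
  haveI := G'.invertible₀
  haveI := G'.invertible₁
  { N₀ := G.N₀ →ₗ[R₀] G'.N₀
    N₁ := G.N₁ →ₗ[R₁] G'.N₁
    N₀₁ := G.N₀₁ →ₗ[R₀₁] G'.N₀₁
    r₀ := IsBaseChange.linearMapLeftRightHom G.isBaseChange₀ G'.r₀
    r₁ := IsBaseChange.linearMapLeftRightHom G.isBaseChange₁ G'.r₁
    isBaseChange₀ := isBaseChange_linearMapLeftRightHom G.isBaseChange₀ G'.isBaseChange₀
    isBaseChange₁ := isBaseChange_linearMapLeftRightHom G.isBaseChange₁ G'.isBaseChange₁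
    invertible₀ := Module.Invertible.congr (dualTensorHomEquiv R₀ G.N₀ G'.N₀)
    invertible₁ := Module.Invertible.congr (dualTensorHomEquiv R₁ G.N₁ G'.N₁) }

end

end Fermat.Agent.S25.H325

end
-- ===== PACK-END S25/H325/GDCHom.lean

-- ===== PACK-BEGIN S26/H714/HartogsAffine.lean
section
/-
S26 / block AMPLE / leaf HARTOGS (helper714), part 2: geometric form on integral schemes.

`X` an integral scheme, `V` an affine open whose ring `Γ(X, V)` is noetherian and integrally
closed, `W ≤ V` a nonempty open containing all points of `V` of codimension one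
(`ringKrullDim 𝒪_{X,x} = 1`).  Then
* `res_surjective_of_codim_one_mem` : the restriction `Γ(X, V) → Γ(X, W)` is surjective
  (hence bijective: `res_bijective_of_codim_one_mem`);
* `eq_of_isAffineOpen_of_codim_one_mem` : if moreover `W` is affine, then `W = V`.
Mathlib + `Hartogs.lean` only.
-/


set_option autoImplicit false
set_option linter.style.haveILetI false

open AlgebraicGeometry CategoryTheory CategoryTheory.Limits Opposite TopologicalSpace

universe u

namespace Fermat.Agent.S26.H714

variable {X : Scheme.{u}}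

/-- On an integral scheme, restriction to a nonempty open subset is injective. -/
theorem res_injective [IsIntegral X] {V W : X.Opens} (hWV : W ≤ V) [Nonempty W] :
    Function.Injective (X.presheaf.map (homOfLE hWV).op) :=
  map_injective_of_isIntegral X (homOfLE hWV)

/-- **Hartogs for sections.**  Sections over an open subset `W` of a normal noetherian affine
open `V` of an integral scheme extend to `V`, provided that `W` contains all points of
codimension one of `V`. -/
theorem res_surjective_of_codim_one_mem [IsIntegral X] {V W : X.Opens} (hV : IsAffineOpen V)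
    (hWV : W ≤ V) [Nonempty W] [IsNoetherianRing Γ(X, V)] [IsIntegrallyClosed Γ(X, V)]
    (h1 : ∀ x ∈ V, ringKrullDim (X.presheaf.stalk x) = 1 → x ∈ W) :
    Function.Surjective (X.presheaf.map (homOfLE hWV).op) := by
  intro s
  obtain ⟨w⟩ := ‹Nonempty W›
  haveI : Nonempty V := ⟨⟨w.1, hWV w.2⟩⟩
  haveI : Nonempty W := ⟨w⟩
  haveI := functionField_isFractionRing_of_isAffineOpen X V hV
  have hk := mem_range_of_forall_height_one (R := Γ(X, V)) (K := X.functionField)
    (X.germToFunctionField W s) (by
      intro p hp hp1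
      let y : PrimeSpectrum Γ(X, V) := ⟨p, hp⟩
      have hxV : hV.fromSpec y ∈ V := by
        have : hV.fromSpec y ∈ Set.range hV.fromSpec := ⟨y, rfl⟩
        rw [hV.range_fromSpec] at this
        exact this
      letI := TopCat.Presheaf.algebra_section_stalk X.presheaf ⟨hV.fromSpec y, hxV⟩
      haveI hloc : IsLocalization.AtPrime (X.presheaf.stalk (hV.fromSpec y)) y.asIdeal :=
        hV.isLocalization_stalk' y hxV
      have hdim : ringKrullDim (X.presheaf.stalk (hV.fromSpec y)) = 1 := by
        have := IsLocalization.AtPrime.ringKrullDim_eq_height y.asIdeal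
          (X.presheaf.stalk (hV.fromSpec y))
        rw [this]
        have hp1' : y.asIdeal.height = 1 := hp1
        rw [hp1']
        rfl
      have hxW : hV.fromSpec y ∈ W := h1 _ hxV hdim
      obtain ⟨⟨a, t⟩, hat⟩ := IsLocalization.surj y.asIdeal.primeCompl
        (X.presheaf.germ W (hV.fromSpec y) hxW s)
      refine ⟨a, t.1, t.2, ?_⟩
      have h2 := congrArg (algebraMap (X.presheaf.stalk (hV.fromSpec y)) X.functionField) hat
      rw [map_mul, Scheme.algebraMap_germ_eq_germToFunctionField] at h2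
      have hst := functionField_isScalarTower X V ⟨hV.fromSpec y, hxV⟩
      rw [← IsScalarTower.algebraMap_apply, ← IsScalarTower.algebraMap_apply] at h2
      exact h2)
  obtain ⟨b, hb⟩ := hk
  refine ⟨b, ?_⟩
  apply X.germToFunctionField_injective W
  rw [← hb]
  have hgen : genericPoint X ∈ W :=
    ((genericPoint_spec X).mem_open_set_iff W.isOpen).mpr (by simpa using ‹Nonempty W›)
  exact X.presheaf.germ_res_apply (homOfLE hWV) (genericPoint X) hgen b

/-- Bijectivity of the restriction map in the situation of `res_surjective_of_codim_one_mem`. -/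
theorem res_bijective_of_codim_one_mem [IsIntegral X] {V W : X.Opens} (hV : IsAffineOpen V)
    (hWV : W ≤ V) [Nonempty W] [IsNoetherianRing Γ(X, V)] [IsIntegrallyClosed Γ(X, V)]
    (h1 : ∀ x ∈ V, ringKrullDim (X.presheaf.stalk x) = 1 → x ∈ W) :
    Function.Bijective (X.presheaf.map (homOfLE hWV).op) :=
  ⟨res_injective hWV, res_surjective_of_codim_one_mem hV hWV h1⟩

/-- **Hartogs, affine form.**  In a normal noetherian affine open `V` of an integral scheme, a
nonempty AFFINE open subset `W` containing all points of codimension one of `V` is all of `V`. -/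
theorem eq_of_isAffineOpen_of_codim_one_mem [IsIntegral X] {V W : X.Opens} (hV : IsAffineOpen V)
    (hW : IsAffineOpen W) (hWV : W ≤ V) [Nonempty W] [IsNoetherianRing Γ(X, V)]
    [IsIntegrallyClosed Γ(X, V)]
    (h1 : ∀ x ∈ V, ringKrullDim (X.presheaf.stalk x) = 1 → x ∈ W) : W = V := by
  refine le_antisymm hWV ?_
  obtain ⟨hinj, hsurj⟩ := res_bijective_of_codim_one_mem hV hWV h1
  set ρ := (X.presheaf.map (homOfLE hWV).op).hom with hρ
  let s : Set Γ(X, V) := {f | X.basicOpen f ≤ W}
  -- the restrictions of the `f ∈ s` generate the unit ideal of `Γ(X, W)`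
  have hs' : Ideal.span (ρ '' s) = ⊤ := by
    rw [← hW.self_le_iSup_basicOpen_iff]
    intro x hx
    obtain ⟨f, hf1, hf2⟩ := hV.exists_basicOpen_le (V := W) ⟨x, hx⟩ (hWV hx)
    have hmem : ρ f ∈ ρ '' s := ⟨f, hf1, rfl⟩
    have hx' : x ∈ X.basicOpen (ρ f) := by
      have := X.basicOpen_res f (homOfLE hWV).op
      rw [hρ]
      change x ∈ X.basicOpen ((X.presheaf.map (homOfLE hWV).op) f)
      rw [this]
      exact ⟨hx, hf2⟩
    exact Opens.mem_iSup.2 ⟨⟨ρ f, hmem⟩, hx'⟩
  -- hence the `f ∈ s` generate the unit ideal of `Γ(X, V)`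
  have hs : Ideal.span s = ⊤ := by
    rw [Ideal.eq_top_iff_one]
    have h1' : (1 : Γ(X, W)) ∈ Ideal.map ρ (Ideal.span s) := by
      rw [Ideal.map_span, hs']
      exact Submodule.mem_top
    obtain ⟨a, ha, ha1⟩ := (Ideal.mem_map_iff_of_surjective ρ hsurj).1 h1'
    have : a = 1 := hinj (by rw [map_one]; exact ha1)
    rw [← this]
    exact ha
  have hcov := (hV.self_le_iSup_basicOpen_iff (s := s)).2 hs
  refine hcov.trans ?_
  rw [iSup_le_iff]
  rintro ⟨f, hf⟩
  exact hf

/-- The local ring of `Spec A` at a point `y` has Krull dimension the height of `y`. -/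
theorem ringKrullDim_stalk_Spec (A : CommRingCat.{u}) (y : Spec A) :
    ringKrullDim ((Spec A).presheaf.stalk y) = (y.asIdeal.height : WithBot ℕ∞) := by
  letI : Algebra A ((Spec A).presheaf.stalk y) := StructureSheaf.stalkAlgebra (R := A) y
  haveI : IsLocalization.AtPrime ((Spec A).presheaf.stalk y) y.asIdeal :=
    StructureSheaf.IsLocalization.to_stalk (R := A) y
  exact IsLocalization.AtPrime.ringKrullDim_eq_height y.asIdeal _

/-- **Hartogs, codimension of the complement of an affine open** (core form).  Let `X` be an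
integral, locally noetherian scheme, `U ⊆ X` a nonempty open subset whose preimage in
`Spec 𝒪_{X,z}` is affine, and `z ∉ U` a point with integrally closed local ring which is maximal
(under generisation) among the points outside `U`.  Then `𝒪_{X,z}` has Krull dimension one. -/
theorem ringKrullDim_stalk_eq_one_of_isAffineOpen_preimage [IsIntegral X] [IsLocallyNoetherian X]
    {U : X.Opens} [Nonempty U] {z : X} (hnorm : IsIntegrallyClosed (X.presheaf.stalk z))
    (hW : IsAffineOpen ((X.fromSpecStalk z) ⁻¹ᵁ U)) (hz : z ∉ U)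
    (hmax : ∀ y : X, y ⤳ z → y ∉ U → y = z) :
    ringKrullDim (X.presheaf.stalk z) = 1 := by
  by_contra hdim
  let A : CommRingCat.{u} := X.presheaf.stalk z
  let f : Spec A ⟶ X := X.fromSpecStalk z
  let W : (Spec A).Opens := f ⁻¹ᵁ U
  -- `W` is nonempty: it contains the preimage of the generic point
  have hgenU : genericPoint X ∈ U :=
    ((genericPoint_spec X).mem_open_set_iff U.isOpen).mpr (by simpa using ‹Nonempty U›)
  have hgenz : genericPoint X ⤳ z := (genericPoint_spec X).specializes trivial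
  have hrange : genericPoint X ∈ Set.range f := by
    rw [Scheme.range_fromSpecStalk]
    exact hgenz
  obtain ⟨y₀, hy₀⟩ := hrange
  haveI : Nonempty W := ⟨⟨y₀, by
    change f y₀ ∈ U
    rw [hy₀]
    exact hgenU⟩⟩
  -- the ring of global sections of `Spec A` is `A`
  let e : Γ(Spec A, ⊤) ≃+* A := (Scheme.ΓSpecIso A).commRingCatIsoToRingEquiv
  haveI : IsNoetherianRing A := inferInstanceAs (IsNoetherianRing (X.presheaf.stalk z))
  haveI : IsNoetherianRing Γ(Spec A, ⊤) := isNoetherianRing_of_ringEquiv A e.symm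
  haveI : IsIntegrallyClosed A := hnorm
  haveI : IsIntegrallyClosed Γ(Spec A, ⊤) := IsIntegrallyClosed.of_equiv e.symm
  -- all points of codimension one of `Spec A` lie in `W`
  have h1 : ∀ y ∈ (⊤ : (Spec A).Opens), ringKrullDim ((Spec A).presheaf.stalk y) = 1 → y ∈ W := by
    intro y _ hy
    by_contra hyW
    have hfy : f y ⤳ z := by
      have : f y ∈ Set.range f := ⟨y, rfl⟩
      rw [Scheme.range_fromSpecStalk] at this
      exact this
    have hfyz : f y = z := hmax (f y) hfy hyW
    have hyc : y = IsLocalRing.closedPoint A := by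
      apply f.isEmbedding.injective
      rw [hfyz]
      exact Scheme.fromSpecStalk_closedPoint.symm
    apply hdim
    rw [ringKrullDim_stalk_Spec, hyc] at hy
    change ringKrullDim A = 1
    rw [← IsLocalRing.maximalIdeal_height_eq_ringKrullDim]
    exact hy
  have hWtop : W = ⊤ :=
    eq_of_isAffineOpen_of_codim_one_mem (isAffineOpen_top (Spec A)) hW le_top h1
  have hc : IsLocalRing.closedPoint A ∈ W := by
    rw [hWtop]
    trivial
  apply hz
  have : f (IsLocalRing.closedPoint A) ∈ U := hc
  rwa [Scheme.fromSpecStalk_closedPoint] at this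

/-- **Hartogs, codimension of the complement of an affine open**, relative form: `X` separated
over an affine scheme `S`. -/
theorem ringKrullDim_stalk_eq_one_of_isAffineOpen_over [IsIntegral X] [IsLocallyNoetherian X]
    {S : Scheme.{u}} (g : X ⟶ S) [IsSeparated g] [IsAffine S]
    {U : X.Opens} (hU : IsAffineOpen U) [Nonempty U] {z : X}
    (hnorm : IsIntegrallyClosed (X.presheaf.stalk z)) (hz : z ∉ U)
    (hmax : ∀ y : X, y ⤳ z → y ∉ U → y = z) :
    ringKrullDim (X.presheaf.stalk z) = 1 := by
  haveI : IsAffineHom (X.fromSpecStalk z) := by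
    haveI : IsAffineHom (X.fromSpecStalk z ≫ g) := inferInstance
    exact IsAffineHom.of_comp (X.fromSpecStalk z) g
  exact ringKrullDim_stalk_eq_one_of_isAffineOpen_preimage hnorm
    (hU.preimage (X.fromSpecStalk z)) hz hmax

/-- **Hartogs, codimension of the complement of an affine open.**  Let `X` be an integral,
locally noetherian, separated scheme, `U ⊆ X` a nonempty affine open subset and `z ∉ U` a point
with integrally closed local ring which is maximal (under generisation) among the points outside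
`U`, i.e. the generic point of an irreducible component of `X ∖ U`.  Then `𝒪_{X,z}` has Krull
dimension one: every irreducible component of `X ∖ U` has codimension one. -/
theorem ringKrullDim_stalk_eq_one_of_isAffineOpen [IsIntegral X] [IsLocallyNoetherian X]
    [X.IsSeparated] {U : X.Opens} (hU : IsAffineOpen U) [Nonempty U] {z : X}
    (hnorm : IsIntegrallyClosed (X.presheaf.stalk z)) (hz : z ∉ U)
    (hmax : ∀ y : X, y ⤳ z → y ∉ U → y = z) :
    ringKrullDim (X.presheaf.stalk z) = 1 := by
  haveI : IsAffineHom (X.fromSpecStalk z) := by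
    haveI : IsAffineHom (X.fromSpecStalk z ≫ terminal.from X) := inferInstance
    exact IsAffineHom.of_comp (X.fromSpecStalk z) (terminal.from X)
  exact ringKrullDim_stalk_eq_one_of_isAffineOpen_preimage hnorm
    (hU.preimage (X.fromSpecStalk z)) hz hmax

/-- The same statement in terms of the codimension `Order.coheight z` of the point `z`. -/
theorem coheight_eq_one_of_isAffineOpen [IsIntegral X] [IsLocallyNoetherian X]
    [X.IsSeparated] {U : X.Opens} (hU : IsAffineOpen U) [Nonempty U] {z : X}
    (hnorm : IsIntegrallyClosed (X.presheaf.stalk z)) (hz : z ∉ U)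
    (hmax : ∀ y : X, y ⤳ z → y ∉ U → y = z) :
    Order.coheight z = 1 := by
  have h := ringKrullDim_stalk_eq_one_of_isAffineOpen hU hnorm hz hmax
  rw [ringKrullDim_stalk_eq_coheight] at h
  exact_mod_cast h

/-- The relative form in terms of the codimension `Order.coheight z`. -/
theorem coheight_eq_one_of_isAffineOpen_over [IsIntegral X] [IsLocallyNoetherian X]
    {S : Scheme.{u}} (g : X ⟶ S) [IsSeparated g] [IsAffine S]
    {U : X.Opens} (hU : IsAffineOpen U) [Nonempty U] {z : X}
    (hnorm : IsIntegrallyClosed (X.presheaf.stalk z)) (hz : z ∉ U)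
    (hmax : ∀ y : X, y ⤳ z → y ∉ U → y = z) :
    Order.coheight z = 1 := by
  have h := ringKrullDim_stalk_eq_one_of_isAffineOpen_over g hU hnorm hz hmax
  rw [ringKrullDim_stalk_eq_coheight] at h
  exact_mod_cast h

/-- Normality passes from an affine open to the local rings of its points. -/
theorem isIntegrallyClosed_stalk_of_isAffineOpen [IsIntegral X] {V : X.Opens}
    (hV : IsAffineOpen V) [IsIntegrallyClosed Γ(X, V)] (x : X) (hx : x ∈ V) :
    IsIntegrallyClosed (X.presheaf.stalk x) := by
  haveI : Nonempty V := ⟨⟨x, hx⟩⟩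
  letI := TopCat.Presheaf.algebra_section_stalk X.presheaf ⟨x, hx⟩
  haveI := hV.isLocalization_stalk ⟨x, hx⟩
  exact isIntegrallyClosed_of_isLocalization (X.presheaf.stalk x)
    (hV.primeIdealOf ⟨x, hx⟩).asIdeal.primeCompl
    (hV.primeIdealOf ⟨x, hx⟩).asIdeal.primeCompl_le_nonZeroDivisors

end Fermat.Agent.S26.H714

end
-- ===== PACK-END S26/H714/HartogsAffine.lean

-- ===== PACK-BEGIN S27/H566/DerEtale.lean
section


/-!
# S27 / DIM (helper566): tangent spaces and formally etale maps

`R → T` a formally etale map of `k`-algebras (e.g. a localization, an isomorphism),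
`x' : T →ₐ[k] k` a `k`-point of `T`, `x := x' ∘ (R → T)`.  Then restriction of derivations
`Der_k(T, k_{x'}) → Der_k(R, k_x)` is bijective; in particular the tangent spaces have the same
dimension.
-/

set_option autoImplicit false
set_option linter.style.haveILetI false

namespace Fermat.Agent.S27.H566

open Algebra KaehlerDifferential
open scoped TensorProduct

variable {k R T : Type*} [Field k] [CommRing R] [CommRing T] [Algebra k R] [Algebra k T]
  [Algebra R T] [IsScalarTower k R T]

/-- The point of `R` under a point of `T`. -/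
def pointRestrict (x' : T →ₐ[k] k) : R →ₐ[k] k := x'.comp (IsScalarTower.toAlgHom k R T)

theorem pointRestrict_apply (x' : T →ₐ[k] k) (r : R) :
    pointRestrict (R := R) x' r = x' (algebraMap R T r) := rfl

theorem pointRestrict_isScalarTower (x' : T →ₐ[k] k) :
    letI := pointModule x'
    letI := pointModule (pointRestrict (R := R) x')
    IsScalarTower R T k := by
  letI := pointModule x'
  letI := pointModule (pointRestrict (R := R) x')
  refine ⟨fun r t m => ?_⟩
  show x' (r • t) * m = x' (algebraMap R T r) * (x' t * m)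
  rw [Algebra.smul_def, map_mul, mul_assoc]

/-- Restriction of derivations along `R → T`, as a `k`-linear map. -/
noncomputable def derRestrict (x' : T →ₐ[k] k) :
    letI := pointModule x'
    letI := pointModule (pointRestrict (R := R) x')
    haveI := pointModule_isScalarTower x'
    haveI := pointModule_isScalarTower (pointRestrict (R := R) x')
    haveI := pointModule_smulCommClass x'
    haveI := pointModule_smulCommClass (pointRestrict (R := R) x')
    Derivation k T k →ₗ[k] Derivation k R k := by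
  letI := pointModule x'
  letI := pointModule (pointRestrict (R := R) x')
  haveI := pointModule_isScalarTower x'
  haveI := pointModule_isScalarTower (pointRestrict (R := R) x')
  haveI := pointModule_smulCommClass x'
  haveI := pointModule_smulCommClass (pointRestrict (R := R) x')
  haveI := pointRestrict_isScalarTower (R := R) x'
  exact
    { toFun := fun d => d.compAlgebraMap R
      map_add' := fun _ _ => rfl
      map_smul' := fun _ _ => rfl }

theorem derRestrict_apply (x' : T →ₐ[k] k)
    (d : letI := pointModule x'; Derivation k T k) (r : R) :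
    letI := pointModule x'
    letI := pointModule (pointRestrict (R := R) x')
    derRestrict (R := R) x' d r = d (algebraMap R T r) := rfl

/-- Restriction of derivations along a formally etale map is bijective. -/
theorem derRestrict_bijective [FormallyEtale R T] (x' : T →ₐ[k] k) :
    Function.Bijective (derRestrict (R := R) x') := by
  letI := pointModule x'
  letI := pointModule (pointRestrict (R := R) x')
  haveI := pointModule_isScalarTower x'
  haveI := pointModule_isScalarTower (pointRestrict (R := R) x')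
  haveI := pointModule_smulCommClass x'
  haveI := pointModule_smulCommClass (pointRestrict (R := R) x')
  haveI := pointRestrict_isScalarTower (R := R) x'
  have hbc : IsBaseChange T (KaehlerDifferential.map k k R T) :=
    KaehlerDifferential.isBaseChange_of_formallyEtale k R T
  constructor
  · rw [injective_iff_map_eq_zero]
    intro d hd
    have hd' : ∀ r : R, d (algebraMap R T r) = 0 := fun r =>
      congrArg (fun D : Derivation k R k => D r) hd
    have hz : d.liftKaehlerDifferential = 0 := by
      refine hbc.algHom_ext' _ _ ?_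
      refine Derivation.liftKaehlerDifferential_unique _ _ (Derivation.ext fun r => ?_)
      show d.liftKaehlerDifferential (KaehlerDifferential.map k k R T (D k R r)) =
        (0 : Ω[T⁄k] →ₗ[T] k) (KaehlerDifferential.map k k R T (D k R r))
      rw [KaehlerDifferential.map_D, Derivation.liftKaehlerDifferential_comp_D, hd' r]
      rfl
    rw [← d.liftKaehlerDifferential_comp, hz]
    ext t
    rfl
  · intro d₀
    refine ⟨(hbc.lift d₀.liftKaehlerDifferential).compDer (D k T), ?_⟩
    ext r
    show hbc.lift d₀.liftKaehlerDifferential (D k T (algebraMap R T r)) = d₀ r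
    rw [← KaehlerDifferential.map_D k k R T, hbc.lift_eq,
      Derivation.liftKaehlerDifferential_comp_D]

/-- The tangent spaces of `T` at `x'` and of `R` at the point below have the same dimension. -/
theorem finrank_derivation_of_formallyEtale [FormallyEtale R T] (x' : T →ₐ[k] k) :
    letI := pointModule x'
    letI := pointModule (pointRestrict (R := R) x')
    haveI := pointModule_isScalarTower x'
    haveI := pointModule_isScalarTower (pointRestrict (R := R) x')
    haveI := pointModule_smulCommClass x'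
    haveI := pointModule_smulCommClass (pointRestrict (R := R) x')
    Module.finrank k (Derivation k T k) = Module.finrank k (Derivation k R k) := by
  letI := pointModule x'
  letI := pointModule (pointRestrict (R := R) x')
  haveI := pointModule_isScalarTower x'
  haveI := pointModule_isScalarTower (pointRestrict (R := R) x')
  haveI := pointModule_smulCommClass x'
  haveI := pointModule_smulCommClass (pointRestrict (R := R) x')
  exact (LinearEquiv.ofBijective (derRestrict (R := R) x')
    (derRestrict_bijective (R := R) x')).finrank_eq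

end Fermat.Agent.S27.H566

end
-- ===== PACK-END S27/H566/DerEtale.lean

-- ===== PACK-BEGIN S27/H551/DualTensor.lean
section



/-!
# S27 / DIM (helper551): the ring `k[ε] ⊗[k] B`

Calculus in `k[ε] ⊗[k] B` (`k[ε] = TrivSqZeroExt k k`, Mathlib's `DualNumber k`):

* `dRed`   : reduction mod `ε`, `= tensorMapLeft k (fstHom k k k) B` (a ring hom);
* `dInc`   : inclusion of the constants `k ⊗ B → k[ε] ⊗ B` (a ring hom);
* `dCoeff` : the `ε`-coefficient (`k`-linear);
* `dEps`   : `h ↦ ε h` (`k`-linear);

with `x = dInc (dRed x) + dEps (dCoeff x)`, the Leibniz rule for `dCoeff`, `ker dRed` is a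
square-zero ideal, and compatibility with `algebraMap (k[ε] ⊗ B) (k[ε] ⊗ B')`.
-/

set_option autoImplicit false
set_option linter.style.haveILetI false
set_option linter.unusedSectionVars false

universe u

open scoped TensorProduct

namespace Fermat.Agent.S27.H551

open Fermat.Agent.S25 TrivSqZeroExt

noncomputable section

variable (k : Type u) [Field k]

/-- The dual numbers `k[ε]`: a type synonym of Mathlib's `TrivSqZeroExt k k` (`= DualNumber k`)
carrying only the `CommRing` and `Algebra k` structures, so that tensor products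
`DualNum k ⊗[k] B` elaborate with the module structure coming from the algebra structure
(as for a generic `k`-algebra). -/
def DualNum : Type u := TrivSqZeroExt k k

instance DualNum.instCommRing : CommRing (DualNum k) :=
  inferInstanceAs (CommRing (TrivSqZeroExt k k))

instance DualNum.instAlgebra : Algebra k (DualNum k) :=
  inferInstanceAs (Algebra k (TrivSqZeroExt k k))

instance DualNum.instIsLocalRing : IsLocalRing (DualNum k) :=
  inferInstanceAs (IsLocalRing (DualNumber k))

/-- The augmentation `k[ε] → k`, `a + bε ↦ a`. -/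
def dAug : DualNum k →ₐ[k] k := fstHom k k k

/-- The `ε`-coefficient `k[ε] → k`, `a + bε ↦ b`. -/
def dSnd : DualNum k →ₗ[k] k := sndHom k k

/-- The constants `k → k[ε]`. -/
def dInl : k →ₐ[k] DualNum k := inlAlgHom k k k

/-- `b ↦ bε`. -/
def dInr : k →ₗ[k] DualNum k := inrHom k k

variable {k}

@[simp] theorem dAug_dInl (c : k) : dAug k (dInl k c) = c := rfl
@[simp] theorem dSnd_dInl (c : k) : dSnd k (dInl k c) = 0 := rfl
@[simp] theorem dAug_dInr (c : k) : dAug k (dInr k c) = 0 := rfl
@[simp] theorem dSnd_dInr (c : k) : dSnd k (dInr k c) = c := rfl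

theorem dInl_dAug_add_dInr_dSnd (a : DualNum k) : dInl k (dAug k a) + dInr k (dSnd k a) = a :=
  inl_fst_add_inr_snd_eq a

theorem dSnd_mul (a b : DualNum k) :
    dSnd k (a * b) = dAug k a * dSnd k b + dSnd k a * dAug k b := by
  have h : dSnd k (a * b) = dAug k a • dSnd k b + MulOpposite.op (dAug k b) • dSnd k a :=
    TrivSqZeroExt.snd_mul (R := k) (M := k) a b
  rw [h, smul_eq_mul, MulOpposite.smul_eq_mul_unop, MulOpposite.unop_op]

theorem dSnd_one : dSnd k (1 : DualNum k) = 0 := rfl

theorem dualNum_ext {a b : DualNum k} (h₁ : dAug k a = dAug k b) (h₂ : dSnd k a = dSnd k b) :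
    a = b :=
  TrivSqZeroExt.ext h₁ h₂

theorem dInr_mul_dInr (c c' : k) : dInr k c * dInr k c' = 0 := by
  apply dualNum_ext
  · rw [map_mul, dAug_dInr, zero_mul, map_zero]
  · rw [dSnd_mul, dAug_dInr, dAug_dInr, zero_mul, mul_zero, add_zero, map_zero]

theorem dAug_surjective : Function.Surjective (dAug k) := fun c => ⟨dInl k c, rfl⟩

theorem mul_eq_zero_of_dAug {a b : DualNum k} (ha : dAug k a = 0) (hb : dAug k b = 0) :
    a * b = 0 := by
  apply dualNum_ext
  · rw [map_mul, ha, zero_mul, map_zero]
  · rw [dSnd_mul, ha, hb, zero_mul, mul_zero, add_zero, map_zero]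

theorem ker_dAug_sq : (RingHom.ker (dAug k : DualNum k →+* k)) ^ 2 = ⊥ := by
  rw [pow_two, eq_bot_iff, Ideal.mul_le]
  intro a ha b hb
  rw [RingHom.mem_ker] at ha hb
  rw [Ideal.mem_bot]
  exact mul_eq_zero_of_dAug ha hb

variable (k)
variable (B : Type u) [CommRing B] [Algebra k B]

/-- Reduction modulo `ε`. -/
abbrev dRed : DualNum k ⊗[k] B →+* k ⊗[k] B := tensorMapLeft k (dAug k) B

/-- Inclusion of the constants. -/
def dInc : k ⊗[k] B →+* DualNum k ⊗[k] B :=
  tensorMapLeft k (dInl k) B

/-- The `ε`-coefficient. -/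
def dCoeff : DualNum k ⊗[k] B →ₗ[k] k ⊗[k] B :=
  LinearMap.rTensor B (dSnd k)

/-- `h ↦ ε h`. -/
def dEps : k ⊗[k] B →ₗ[k] DualNum k ⊗[k] B :=
  LinearMap.rTensor B (dInr k)

variable {k B}

@[simp] theorem dRed_tmul (a : DualNum k) (b : B) :
    dRed k B (a ⊗ₜ[k] b) = dAug k a ⊗ₜ[k] b := rfl

@[simp] theorem dInc_tmul (c : k) (b : B) :
    dInc k B (c ⊗ₜ[k] b) = dInl k c ⊗ₜ[k] b := rfl

@[simp] theorem dCoeff_tmul (a : DualNum k) (b : B) :
    dCoeff k B (a ⊗ₜ[k] b) = dSnd k a ⊗ₜ[k] b := rfl

@[simp] theorem dEps_tmul (c : k) (b : B) :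
    dEps k B (c ⊗ₜ[k] b) = dInr k c ⊗ₜ[k] b := rfl

theorem dRed_dInc (h : k ⊗[k] B) : dRed k B (dInc k B h) = h := by
  induction h using TensorProduct.induction_on with
  | zero => simp
  | tmul c b => simp
  | add x y hx hy => rw [map_add, map_add, hx, hy]

theorem dCoeff_dEps (h : k ⊗[k] B) : dCoeff k B (dEps k B h) = h := by
  induction h using TensorProduct.induction_on with
  | zero => simp
  | tmul c b => simp
  | add x y hx hy => rw [map_add, map_add, hx, hy]

theorem dRed_dEps (h : k ⊗[k] B) : dRed k B (dEps k B h) = 0 := by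
  induction h using TensorProduct.induction_on with
  | zero => simp
  | tmul c b => simp
  | add x y hx hy => rw [map_add, map_add, hx, hy, add_zero]

theorem dCoeff_dInc (h : k ⊗[k] B) : dCoeff k B (dInc k B h) = 0 := by
  induction h using TensorProduct.induction_on with
  | zero => simp
  | tmul c b => simp
  | add x y hx hy => rw [map_add, map_add, hx, hy, add_zero]

theorem dCoeff_one : dCoeff k B 1 = 0 := by
  rw [Algebra.TensorProduct.one_def, dCoeff_tmul, dSnd_one, TensorProduct.zero_tmul]

/-- Decomposition `x = x₀ + ε x₁`. -/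
theorem dInc_dRed_add_dEps_dCoeff (x : DualNum k ⊗[k] B) :
    dInc k B (dRed k B x) + dEps k B (dCoeff k B x) = x := by
  induction x using TensorProduct.induction_on with
  | zero => simp
  | tmul a b =>
    rw [dRed_tmul, dInc_tmul, dCoeff_tmul, dEps_tmul, ← TensorProduct.add_tmul,
      dInl_dAug_add_dInr_dSnd]
  | add x y hx hy =>
    rw [map_add, map_add, map_add, map_add]
    calc dInc k B (dRed k B x) + dInc k B (dRed k B y) +
          (dEps k B (dCoeff k B x) + dEps k B (dCoeff k B y))
        = (dInc k B (dRed k B x) + dEps k B (dCoeff k B x)) +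
          (dInc k B (dRed k B y) + dEps k B (dCoeff k B y)) := by abel
      _ = x + y := by rw [hx, hy]

theorem eq_zero_of_dRed_of_dCoeff {x : DualNum k ⊗[k] B} (h₁ : dRed k B x = 0)
    (h₂ : dCoeff k B x = 0) : x = 0 := by
  rw [← dInc_dRed_add_dEps_dCoeff x, h₁, h₂, map_zero, map_zero, add_zero]

theorem dEps_dCoeff_of_dRed_eq_zero {x : DualNum k ⊗[k] B} (h : dRed k B x = 0) :
    dEps k B (dCoeff k B x) = x := by
  have := dInc_dRed_add_dEps_dCoeff x
  rwa [h, map_zero, zero_add] at this

/-- Leibniz rule for the `ε`-coefficient. -/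
theorem dCoeff_mul (x y : DualNum k ⊗[k] B) :
    dCoeff k B (x * y) = dRed k B x * dCoeff k B y + dCoeff k B x * dRed k B y := by
  induction x using TensorProduct.induction_on with
  | zero => simp only [zero_mul, map_zero, add_zero]
  | tmul a b =>
    induction y using TensorProduct.induction_on with
    | zero => simp only [mul_zero, map_zero, add_zero]
    | tmul a' b' =>
      rw [Algebra.TensorProduct.tmul_mul_tmul, dCoeff_tmul, dRed_tmul, dRed_tmul, dCoeff_tmul,
        dCoeff_tmul, Algebra.TensorProduct.tmul_mul_tmul, Algebra.TensorProduct.tmul_mul_tmul,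
        ← TensorProduct.add_tmul, dSnd_mul]
    | add y y' hy hy' =>
      rw [mul_add, map_add, hy, hy', map_add, map_add, mul_add, mul_add]
      abel
  | add x x' hx hx' =>
    rw [add_mul, map_add, hx, hx', map_add, map_add, add_mul, add_mul]
    abel

/-- The kernel of the reduction is a square-zero ideal. -/
theorem mul_eq_zero_of_dRed {x y : DualNum k ⊗[k] B} (hx : dRed k B x = 0)
    (hy : dRed k B y = 0) : x * y = 0 := by
  apply eq_zero_of_dRed_of_dCoeff
  · rw [map_mul, hx, zero_mul]
  · rw [dCoeff_mul, hx, hy, zero_mul, mul_zero, add_zero]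

theorem dEps_mul_dEps (h h' : k ⊗[k] B) : dEps k B h * dEps k B h' = 0 :=
  mul_eq_zero_of_dRed (dRed_dEps h) (dRed_dEps h')

section Compat

variable {B' : Type u} [CommRing B'] [Algebra k B'] [Algebra B B'] [IsScalarTower k B B']

theorem algebraMap_tensor_tmul (A : Type u) [CommRing A] [Algebra k A] (a : A) (b : B) :
    algebraMap (A ⊗[k] B) (A ⊗[k] B') (a ⊗ₜ[k] b) = a ⊗ₜ[k] algebraMap B B' b := rfl

theorem dRed_algebraMap (x : DualNum k ⊗[k] B) :
    dRed k B' (algebraMap (DualNum k ⊗[k] B) (DualNum k ⊗[k] B') x) =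
      algebraMap (k ⊗[k] B) (k ⊗[k] B') (dRed k B x) := by
  induction x using TensorProduct.induction_on with
  | zero => simp
  | tmul a b => rfl
  | add x y hx hy => rw [map_add, map_add, map_add, map_add, hx, hy]

theorem dCoeff_algebraMap (x : DualNum k ⊗[k] B) :
    dCoeff k B' (algebraMap (DualNum k ⊗[k] B) (DualNum k ⊗[k] B') x) =
      algebraMap (k ⊗[k] B) (k ⊗[k] B') (dCoeff k B x) := by
  induction x using TensorProduct.induction_on with
  | zero => simp
  | tmul a b => rfl
  | add x y hx hy => rw [map_add, map_add, map_add, map_add, hx, hy]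

theorem dEps_algebraMap (h : k ⊗[k] B) :
    dEps k B' (algebraMap (k ⊗[k] B) (k ⊗[k] B') h) =
      algebraMap (DualNum k ⊗[k] B) (DualNum k ⊗[k] B') (dEps k B h) := by
  induction h using TensorProduct.induction_on with
  | zero => simp
  | tmul a b => rfl
  | add x y hx hy => rw [map_add, map_add, map_add, map_add, hx, hy]

end Compat

/-- The unit `1 + ε h`. -/
def dUnit (h : k ⊗[k] B) : (DualNum k ⊗[k] B)ˣ where
  val := 1 + dEps k B h
  inv := 1 - dEps k B h
  val_inv := by
    have := dEps_mul_dEps h h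
    calc (1 + dEps k B h) * (1 - dEps k B h) = 1 - dEps k B h * dEps k B h := by ring
      _ = 1 := by rw [this, sub_zero]
  inv_val := by
    have := dEps_mul_dEps h h
    calc (1 - dEps k B h) * (1 + dEps k B h) = 1 - dEps k B h * dEps k B h := by ring
      _ = 1 := by rw [this, sub_zero]

@[simp] theorem val_dUnit (h : k ⊗[k] B) :
    ((dUnit h : (DualNum k ⊗[k] B)ˣ) : DualNum k ⊗[k] B) = 1 + dEps k B h := rfl

theorem dRed_dUnit (h : k ⊗[k] B) : dRed k B (dUnit h : (DualNum k ⊗[k] B)ˣ) = 1 := by
  rw [val_dUnit, map_add, map_one, dRed_dEps, add_zero]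

theorem dCoeff_dUnit (h : k ⊗[k] B) :
    dCoeff k B (dUnit h : (DualNum k ⊗[k] B)ˣ) = h := by
  rw [val_dUnit, map_add, dCoeff_one, dCoeff_dEps, zero_add]

/-- Every element reducing to `1` is `1 + ε h`. -/
theorem eq_one_add_dEps_of_dRed {x : DualNum k ⊗[k] B} (hx : dRed k B x = 1) :
    x = 1 + dEps k B (dCoeff k B x) := by
  have h1 : dRed k B (x - 1) = 0 := by rw [map_sub, hx, map_one, sub_self]
  have h2 := dEps_dCoeff_of_dRed_eq_zero h1
  rw [map_sub, dCoeff_one, sub_zero] at h2
  rw [h2]; ring

end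

end Fermat.Agent.S27.H551

end
-- ===== PACK-END S27/H551/DualTensor.lean

-- ===== PACK-BEGIN S18/Integ/Top.lean
section



/-!
# S18 integration — top layer (row-lead helper18)

`CoreStatement N A m` (frozen hub, `Spec.lean`)  ⟹  `H665.Core N A m`  ⟹ (helper665 Step A) frozen S18,
given `H665.ConstLemma N A` (CONST_Fk).
-/

set_option autoImplicit false

noncomputable section

namespace Fermat.Agent.S18.Integ

open ModularCurve AlgebraicCurve HahnSeries

variable {N : ℕ} {A : ValuationSubring (AlgebraicClosure ℚ)}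

theorem isInt_of_good {U : LaurentSeries A} (h : H665.Good A N U) : IsInt A N U :=
  ⟨h.memF, h.memFk, h.ne⟩

/-- Adapter: the frozen hub statement implies helper665's `Core`. -/
theorem core665_of_coreStatement {m : ℕ} (hm : m ≠ 0) (h : CoreStatement N A m) :
    H665.Core N A m := by
  intro U₁ U₂ h₁ h₂ hred hdiv
  have h₁' : IsInt A N U₁ := isInt_of_good h₁
  have h₂' : IsInt A N U₂ := isInt_of_good h₂
  have e₁ : toF h₁' = h₁.toF := rfl
  have e₂ : toF h₂' = h₂.toF := rfl
  obtain ⟨c, y, hc, hy, hcy⟩ := h U₁ U₂ h₁' h₂' hred (fun v => by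
    have := hdiv v
    rw [H665.ord_div' v h₁.toF_ne_zero h₂.toF_ne_zero] at this
    rw [e₁, e₂]
    exact this)
  obtain ⟨c', hc'⟩ := IsAlgClosed.exists_pow_nat_eq c (Nat.pos_of_ne_zero hm)
  refine ⟨algebraMap (AlgebraicClosure ℚ) (modularFunctionFieldBar N) c' * y, ?_⟩
  rw [e₁, e₂] at hcy
  rw [hcy, mul_pow, ← map_pow, hc', mul_div_assoc, div_self h₂.toF_ne_zero, mul_one]

/-- Frozen S18 from the hub statement and CONST_Fk. -/
theorem s18_of_coreStatement [NeZero N] {ℓ : ℕ} [Fact ℓ.Prime]
    (h : ModularCurve.ReductionInputsModL A N) (m : ℕ) (hm : ¬ ℓ ∣ m)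
    (hconst : H665.ConstLemma N A) (hcore : CoreStatement N A m)
    (z : ModularCurve.JZero N) (hmz : m • z = 0)
    (hz : ModularCurve.reductionModL A N z = 0) : z = 0 := by
  have hm0 : m ≠ 0 := by
    rintro rfl
    exact hm (dvd_zero ℓ)
  exact H665.S18_of_core_frozen_shape (N := N) (A := A) h m hm hconst
    (core665_of_coreStatement hm0 hcore) z hmz hz

end Fermat.Agent.S18.Integ

end
end
-- ===== PACK-END S18/Integ/Top.lean

-- ===== PACK-BEGIN S31/H202/TraceRigid.lean
section





/-!
# S31 / ALG-1: trace rigidity (helper202)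

For `ρ : GaloisRepAdic A` (`A` any local ring) with absolutely irreducible residual representation:

* `span_range_rho_eq_top` : the `A`-span of `ρ(G_ℚ)` is all of `End_A(V)`;
* `rho_eq_one_of_trace_invariant` : if `tr ρ(g τ) = tr ρ(g)` for all `g`, then `ρ(τ) = 1`;
* `rho_eq_of_trace_eq` : more generally `tr (ρ(g) X) = 0` for all `g` implies `X = 0`.
-/

set_option autoImplicit false

namespace Fermat.Agent.S31.H202

open scoped TensorProduct

/-- `Gal(ℚ̄/ℚ)` (local notation of this file). -/
local notation "GQ" => (AlgebraicClosure ℚ ≃ₐ[ℚ] AlgebraicClosure ℚ)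

variable {A : Type} [CommRing A] [IsLocalRing A]

/-- the chosen basis of the underlying module. -/
noncomputable def rhoBasis (ρ : GaloisRepAdic A) : Module.Basis (Fin 2) A ρ.V :=
  Module.finBasisOfFinrankEq A ρ.V ρ.finrank_eq

/-- the matrices of `ρ` in the chosen basis. -/
noncomputable def rhoMat (ρ : GaloisRepAdic A) (g : GQ) : Matrix (Fin 2) (Fin 2) A :=
  LinearMap.toMatrix (rhoBasis ρ) (rhoBasis ρ) (ρ.ρ g)

/-- reduction `A → k → k̄`. -/
noncomputable def redHom (A : Type) [CommRing A] [IsLocalRing A] :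
    A →+* AlgebraicClosure (IsLocalRing.ResidueField A) :=
  (algebraMap (IsLocalRing.ResidueField A) (AlgebraicClosure (IsLocalRing.ResidueField A))).comp
    (algebraMap A (IsLocalRing.ResidueField A))

theorem redHom_eq_zero (a : A) (ha : a ∈ IsLocalRing.maximalIdeal A) : redHom A a = 0 := by
  unfold redHom
  rw [RingHom.comp_apply, IsLocalRing.ResidueField.algebraMap_eq,
    (IsLocalRing.residue_eq_zero_iff a).mpr ha, map_zero]

theorem span_rhoMat_map (ρ : GaloisRepAdic A) (habs : ρ.residual.IsAbsolutelyIrreducible) :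
    Submodule.span (AlgebraicClosure (IsLocalRing.ResidueField A))
      (Set.range fun g => (rhoMat ρ g).map (redHom A)) = ⊤ := by
  classical
  set k := IsLocalRing.ResidueField A with hk
  set K := AlgebraicClosure k with hK
  set b := rhoBasis ρ with hb
  set bk : Module.Basis (Fin 2) k (k ⊗[A] ρ.V) := Algebra.TensorProduct.basis k b with hbk
  set bK : Module.Basis (Fin 2) K (K ⊗[k] (k ⊗[A] ρ.V)) := Algebra.TensorProduct.basis K bk
    with hbK
  set ρK : GQ →* Module.End K (K ⊗[k] (k ⊗[A] ρ.V)) := (ρ.residual.baseChange K).ρ with hρK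
  have hF : ∀ g, (rhoMat ρ g).map (redHom A) = LinearMap.toMatrix bK bK (ρK g) := by
    intro g
    have h1 : ρK g = ((ρ.ρ g).baseChange k).baseChange K := rfl
    rw [h1, LinearMap.toMatrix_baseChange, LinearMap.toMatrix_baseChange, Matrix.map_map]
    rfl
  have hnt : Nontrivial (K ⊗[k] (k ⊗[A] ρ.V)) := by
    apply Module.nontrivial_of_finrank_pos (R := K)
    have h2 : Module.finrank K (K ⊗[k] (k ⊗[A] ρ.V)) = 2 := (ρ.residual.baseChange K).finrank_eq
    rw [h2]
    norm_num
  have hB : Algebra.adjoin K (Set.range ρK) = ⊤ := by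
    apply Fermat.Agent.S29.H872.burnside
    intro W hW
    refine habs W (fun σ x hx => ?_)
    exact hW (ρK σ) (Algebra.subset_adjoin ⟨σ, rfl⟩) hx
  have hspanK : Submodule.span K (Set.range ρK) = ⊤ := by
    have h1 := Algebra.adjoin_eq_span K (Set.range ρK)
    have h2 : (Submonoid.closure (Set.range ρK) : Set (Module.End K (K ⊗[k] (k ⊗[A] ρ.V))))
        = Set.range ρK := by
      have : Submonoid.closure (Set.range ρK) = MonoidHom.mrange ρK := by
        rw [← MonoidHom.coe_mrange, Submonoid.closure_eq]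
      rw [this, MonoidHom.coe_mrange]
    rw [h2, hB] at h1
    rw [← h1]
    rfl
  -- transport along `toMatrix`
  have hrange : (Set.range fun g => (rhoMat ρ g).map (redHom A))
      = (LinearMap.toMatrix bK bK) '' (Set.range ρK) := by
    ext M
    constructor
    · rintro ⟨g, rfl⟩
      exact ⟨ρK g, ⟨g, rfl⟩, (hF g).symm⟩
    · rintro ⟨_, ⟨g, rfl⟩, rfl⟩
      exact ⟨g, hF g⟩
  have hmap : Submodule.map ((LinearMap.toMatrix bK bK).toLinearMap)
      (Submodule.span K (Set.range ρK))
      = Submodule.span K ((LinearMap.toMatrix bK bK) '' (Set.range ρK)) :=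
    Submodule.map_span _ _
  rw [hrange, ← hmap, hspanK, Submodule.map_top, LinearMap.range_eq_top]
  exact (LinearMap.toMatrix bK bK).surjective

/-- **Burnside + lifting**: the `A`-span of the image of a residually absolutely irreducible
representation is the full endomorphism ring. -/
theorem span_range_rho_eq_top (ρ : GaloisRepAdic A)
    (habs : ρ.residual.IsAbsolutelyIrreducible) :
    Submodule.span A (Set.range ρ.ρ) = ⊤ := by
  classical
  have h := span_eq_top_of_span_map_eq_top (redHom A) redHom_eq_zero (rhoMat ρ)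
    (span_rhoMat_map ρ habs)
  set b := rhoBasis ρ with hb
  have hrange : Set.range (rhoMat ρ) = (LinearMap.toMatrix b b) '' (Set.range ρ.ρ) := by
    ext M
    constructor
    · rintro ⟨g, rfl⟩
      exact ⟨ρ.ρ g, ⟨g, rfl⟩, rfl⟩
    · rintro ⟨_, ⟨g, rfl⟩, rfl⟩
      exact ⟨g, rfl⟩
  have hmap : Submodule.map ((LinearMap.toMatrix b b).toLinearMap)
      (Submodule.span A (Set.range ρ.ρ))
      = Submodule.span A ((LinearMap.toMatrix b b) '' (Set.range ρ.ρ)) :=
    Submodule.map_span _ _
  rw [hrange, ← hmap] at h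
  have hinj : Function.Injective (Submodule.map ((LinearMap.toMatrix b b).toLinearMap)) :=
    Submodule.map_injective_of_injective (LinearMap.toMatrix b b).injective
  apply hinj
  rw [h, Submodule.map_top]
  exact (LinearMap.range_eq_top.mpr (LinearMap.toMatrix b b).surjective).symm

/-- **Trace orthogonality**: an endomorphism orthogonal (for the trace form) to the image of a
residually absolutely irreducible representation is zero. -/
theorem eq_zero_of_trace_orth (ρ : GaloisRepAdic A)
    (habs : ρ.residual.IsAbsolutelyIrreducible) (X : Module.End A ρ.V)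
    (hX : ∀ g : GQ, LinearMap.trace A ρ.V (ρ.ρ g * X) = 0) : X = 0 := by
  classical
  set b := rhoBasis ρ with hb
  have h := mat_eq_zero_of_trace_orth (redHom A) redHom_eq_zero (rhoMat ρ)
    (span_rhoMat_map ρ habs) (LinearMap.toMatrix b b X) (fun g => by
      have := hX g
      rw [LinearMap.trace_eq_matrix_trace A b, LinearMap.toMatrix_mul] at this
      exact this)
  exact (LinearMap.toMatrix b b).injective (by rw [h, map_zero])

/-- **Trace rigidity** (ALG-1): if `tr ρ(g τ) = tr ρ(g)` for all `g`, then `ρ(τ) = 1`. -/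
theorem rho_eq_one_of_trace_invariant (ρ : GaloisRepAdic A)
    (habs : ρ.residual.IsAbsolutelyIrreducible) (τ : GQ)
    (h : ∀ g : GQ, LinearMap.trace A ρ.V (ρ.ρ (g * τ)) = LinearMap.trace A ρ.V (ρ.ρ g)) :
    ρ.ρ τ = 1 := by
  have h0 := eq_zero_of_trace_orth ρ habs (ρ.ρ τ - 1) (fun g => by
    rw [mul_sub, mul_one, map_sub, ← map_mul, h g, sub_self])
  exact sub_eq_zero.mp h0

/-- two elements with the same trace pairing against the image are equal. -/
theorem rho_eq_of_trace_eq (ρ : GaloisRepAdic A)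
    (habs : ρ.residual.IsAbsolutelyIrreducible) (σ τ : GQ)
    (h : ∀ g : GQ, LinearMap.trace A ρ.V (ρ.ρ (g * σ)) = LinearMap.trace A ρ.V (ρ.ρ (g * τ))) :
    ρ.ρ σ = ρ.ρ τ := by
  have h0 := eq_zero_of_trace_orth ρ habs (ρ.ρ σ - ρ.ρ τ) (fun g => by
    rw [mul_sub, map_sub, ← map_mul, ← map_mul, h g, sub_self])
  exact sub_eq_zero.mp h0

end Fermat.Agent.S31.H202

end
-- ===== PACK-END S31/H202/TraceRigid.lean

-- ===== PACK-BEGIN Lib/Cheb/H943/PrimeCountBound.lean
section


/-!
# CHEB piece B0: `Spec.PrimeCountBoundStatement` (helper943)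

For every number field `F` and every `n : ℕ` there are at most `[F:ℚ]` prime ideals of `𝓞 F` of
absolute norm `n`: they all lie over the same prime of `ℤ` (`absNorm 𝔮 = absNorm (𝔮 ∩ ℤ) ^ f`),
and `∑ e f = [F:ℚ]` (`Ideal.sum_ramification_inertia_eq_finrank`).
-/

set_option autoImplicit false
set_option linter.unusedSectionVars false
set_option linter.style.haveILetI false

open NumberField
open scoped Pointwise

namespace Fermat.Agent.Lib.Cheb.H943

variable {F : Type} [Field F] [NumberField F]

/-- The absolute norm of the prime of `ℤ` below a prime `𝔮` is `0` or a prime number. -/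
lemma absNorm_under_eq_zero_or_prime (𝔮 : Ideal (𝓞 F)) [h𝔮 : 𝔮.IsPrime] :
    Ideal.absNorm (𝔮.under ℤ) = 0 ∨ (Ideal.absNorm (𝔮.under ℤ)).Prime := by
  by_cases h0 : 𝔮.under ℤ = ⊥
  · left; rw [h0]; simp
  · right
    have hprime : (𝔮.under ℤ).IsPrime := inferInstance
    have hspan := Int.ideal_span_absNorm_eq_self (𝔮.under ℤ)
    rw [← hspan] at hprime h0
    have hne : ((Ideal.absNorm (𝔮.under ℤ) : ℕ) : ℤ) ≠ 0 := by
      intro h; apply h0; rw [h]; simp
    rw [Ideal.span_singleton_prime hne] at hprime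
    exact Nat.prime_iff_prime_int.mpr hprime

/-- Two primes of `𝓞 F` with the same absolute norm lie over the same prime of `ℤ`. -/
lemma under_eq_of_absNorm_eq (𝔮 𝔮' : Ideal (𝓞 F)) [h𝔮 : 𝔮.IsPrime] [h𝔮' : 𝔮'.IsPrime]
    (h : Ideal.absNorm 𝔮 = Ideal.absNorm 𝔮') : 𝔮.under ℤ = 𝔮'.under ℤ := by
  have e1 := Ideal.absNorm_pow_inertiaDeg (𝔮.under ℤ) 𝔮
  have e2 := Ideal.absNorm_pow_inertiaDeg (𝔮'.under ℤ) 𝔮'
  have f1 : 0 < 𝔮.inertiaDeg ℤ := Ideal.inertiaDeg_pos 𝔮 ℤ
  have f2 : 0 < 𝔮'.inertiaDeg ℤ := Ideal.inertiaDeg_pos 𝔮' ℤ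
  have key : Ideal.absNorm (𝔮.under ℤ) = Ideal.absNorm (𝔮'.under ℤ) := by
    have e3 : Ideal.absNorm (𝔮.under ℤ) ^ 𝔮.inertiaDeg ℤ
        = Ideal.absNorm (𝔮'.under ℤ) ^ 𝔮'.inertiaDeg ℤ := by rw [e1, e2, h]
    rcases absNorm_under_eq_zero_or_prime 𝔮 with ha | ha
    · rw [ha, zero_pow f1.ne'] at e3
      rw [ha]
      exact (pow_eq_zero_iff f2.ne').mp e3.symm |>.symm
    · rcases absNorm_under_eq_zero_or_prime 𝔮' with ha' | ha'
      · rw [ha', zero_pow f2.ne'] at e3
        rw [ha']
        exact (pow_eq_zero_iff f1.ne').mp e3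
      · have hdvd : Ideal.absNorm (𝔮.under ℤ) ∣ Ideal.absNorm (𝔮'.under ℤ) ^ 𝔮'.inertiaDeg ℤ := by
          rw [← e3]; exact dvd_pow_self _ f1.ne'
        exact (Nat.prime_dvd_prime_iff_eq ha ha').mp (ha.dvd_of_dvd_pow hdvd)
  rw [← Int.ideal_span_absNorm_eq_self (𝔮.under ℤ), ← Int.ideal_span_absNorm_eq_self (𝔮'.under ℤ),
    key]

/-- The number of primes over a prime of `ℤ` is at most the degree. -/
lemma card_primesOver_le (p : Ideal ℤ) [p.IsPrime] :
    Nat.card (p.primesOver (𝓞 F)) ≤ Module.finrank ℚ F := by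
  haveI : Fintype (p.primesOver (𝓞 F)) := (Algebra.QuasiFinite.finite_primesOver p).fintype
  rw [← RingOfIntegers.rank F, ← Ideal.sum_ramification_inertia_eq_finrank p (𝓞 F),
    Nat.card_eq_fintype_card, ← Finset.card_univ, Finset.card_eq_sum_ones]
  refine Finset.sum_le_sum fun q _ => ?_
  haveI := q.2.1
  exact Right.one_le_mul (Ideal.ramificationIdx_pos q.1 ℤ) (Ideal.inertiaDeg_pos q.1 ℤ)

/-- **Piece B0** of row CHEB: `Spec.PrimeCountBoundStatement`. -/
theorem primeCountBoundStatement : Spec.PrimeCountBoundStatement := by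
  intro F _ _ n
  unfold Spec.primeCount
  by_cases hne : Nonempty {𝔮 : Ideal (𝓞 F) // 𝔮.IsPrime ∧ Ideal.absNorm 𝔮 = n}
  · obtain ⟨⟨𝔮₀, h𝔮₀, hn₀⟩⟩ := hne
    haveI := h𝔮₀
    haveI : Finite ((𝔮₀.under ℤ).primesOver (𝓞 F)) := Algebra.QuasiFinite.finite_primesOver _
    refine le_trans (Nat.card_le_card_of_injective
      (fun 𝔮 : {𝔮 : Ideal (𝓞 F) // 𝔮.IsPrime ∧ Ideal.absNorm 𝔮 = n} =>
        (⟨𝔮.1, 𝔮.2.1, ⟨by
          haveI := 𝔮.2.1
          exact under_eq_of_absNorm_eq 𝔮₀ 𝔮.1 (hn₀.trans 𝔮.2.2.symm)⟩⟩ :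
          (𝔮₀.under ℤ).primesOver (𝓞 F))) ?_) (card_primesOver_le (𝔮₀.under ℤ))
    intro a b hab
    have := congrArg Subtype.val hab
    exact Subtype.ext this
  · rw [not_nonempty_iff] at hne
    rw [Nat.card_of_isEmpty]
    exact Nat.zero_le _

end Fermat.Agent.Lib.Cheb.H943

end
-- ===== PACK-END Lib/Cheb/H943/PrimeCountBound.lean

-- ===== PACK-BEGIN S35/G/H60/FundIneq.lean
section


/-!
# The fundamental inequality for two extensions of a valuation ring (helper60)

Mathlib + `S35.H253` (adapted families).  `F / K` finite, `O ⊆ K` a valuation ring, `V₁`, `V₂`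
incomparable valuation rings of `F` over `O`, with surjective reductions onto fields.  Then the
residue extensions are finite and `[κ₁ : k] + [κ₂ : k] ≤ [F : K]`.
-/

set_option autoImplicit false

namespace Fermat.Agent.S35.G.H60

open Fermat.Agent.S35.H253

section FundIneq

variable {K F : Type*} [Field K] [Field F] [Algebra K F]

/-- Residually independent families at `V₁` and at `V₂` have at most `[F : K]` members
altogether. -/
theorem card_add_card_le_finrank {O : ValuationSubring K} {V₁ V₂ : ValuationSubring F}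
    (h₁ : Over O V₁) (h₂ : Over O V₂) (hne₁ : ¬ V₁ ≤ V₂) (hne₂ : ¬ V₂ ≤ V₁)
    [FiniteDimensional K F]
    {k κ₁ κ₂ : Type*} [Field k] [Field κ₁] [Field κ₂] [Algebra k κ₁] [Algebra k κ₂]
    (π : O →+* k) (ρ₁ : V₁ →+* κ₁) (ρ₂ : V₂ →+* κ₂)
    (hπ : Function.Surjective π) (hρ₁ : Function.Surjective ρ₁) (hρ₂ : Function.Surjective ρ₂)
    (hc₁ : ∀ a : O, ρ₁ ⟨algebraMap K F a, (h₁ a).2 a.2⟩ = algebraMap k κ₁ (π a))
    (hc₂ : ∀ a : O, ρ₂ ⟨algebraMap K F a, (h₂ a).2 a.2⟩ = algebraMap k κ₂ (π a))
    {ι₁ ι₂ : Type*} [Fintype ι₁] [Fintype ι₂] (b₁ : ι₁ → κ₁) (b₂ : ι₂ → κ₂)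
    (hb₁ : LinearIndependent k b₁) (hb₂ : LinearIndependent k b₂) :
    Fintype.card ι₁ + Fintype.card ι₂ ≤ Module.finrank K F := by
  classical
  choose e₁ he₁ using fun i => hρ₁ (b₁ i)
  choose e₂ he₂ using fun j => hρ₂ (b₂ j)
  choose g₁ hg₁m hg₁d hg₁s using fun i => exists_approx hne₁ hne₂ (e₁ i).2
  choose g₂ hg₂m hg₂d hg₂s using fun j => exists_approx hne₂ hne₁ (e₂ j).2
  have hρg₁ : ∀ i, ρ₁ ⟨g₁ i, hg₁m i⟩ = b₁ i := fun i => by
    rw [← he₁ i, ← sub_eq_zero, ← map_sub, map_eq_zero_iff_val_lt_one ρ₁ hρ₁]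
    exact hg₁d i
  have hρg₂ : ∀ j, ρ₂ ⟨g₂ j, hg₂m j⟩ = b₂ j := fun j => by
    rw [← he₂ j, ← sub_eq_zero, ← map_sub, map_eq_zero_iff_val_lt_one ρ₂ hρ₂]
    exact hg₂d j
  have hπ0 : ∀ a : O, π a = 0 ↔ O.valuation (a : K) < 1 :=
    fun a => map_eq_zero_iff_val_lt_one π hπ a
  have hgood : GoodFamily O V₁ V₂ (Sum.elim g₁ g₂) :=
    { over₁ := h₁
      over₂ := h₂
      mem₁ := fun i => hg₁m i
      small₂ := fun i => hg₁s i
      mem₂ := fun j => hg₂m j
      small₁ := fun j => hg₂s j
      indep₁ := by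
        intro a ha hsmall i
        simp only [Sum.elim_inl] at hsmall
        have hmem : (∑ i, algebraMap K F (a i) * g₁ i) ∈ V₁ :=
          (V₁.valuation_le_one_iff _).1 hsmall.le
        have h0 : ρ₁ ⟨_, hmem⟩ = 0 := (map_eq_zero_iff_val_lt_one ρ₁ hρ₁ ⟨_, hmem⟩).2 hsmall
        have e : (⟨_, hmem⟩ : V₁) =
            ∑ i, (⟨algebraMap K F (a i), (h₁ (a i)).2 (ha i)⟩ : V₁) * ⟨g₁ i, hg₁m i⟩ := by
          apply Subtype.ext
          rw [AddSubmonoidClass.coe_finsetSum]
          simp only [MulMemClass.coe_mul]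
        rw [e, map_sum] at h0
        have h0' : ∑ i, π ⟨a i, ha i⟩ • b₁ i = 0 := by
          rw [← h0]
          refine Finset.sum_congr rfl fun i _ => ?_
          rw [map_mul, hρg₁, Algebra.smul_def, ← hc₁]
        have := Fintype.linearIndependent_iff.1 hb₁ _ h0' i
        exact (hπ0 ⟨a i, ha i⟩).1 this
      indep₂ := by
        intro a ha hsmall j
        simp only [Sum.elim_inr] at hsmall
        have hmem : (∑ j, algebraMap K F (a j) * g₂ j) ∈ V₂ :=
          (V₂.valuation_le_one_iff _).1 hsmall.le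
        have h0 : ρ₂ ⟨_, hmem⟩ = 0 := (map_eq_zero_iff_val_lt_one ρ₂ hρ₂ ⟨_, hmem⟩).2 hsmall
        have e : (⟨_, hmem⟩ : V₂) =
            ∑ j, (⟨algebraMap K F (a j), (h₂ (a j)).2 (ha j)⟩ : V₂) * ⟨g₂ j, hg₂m j⟩ := by
          apply Subtype.ext
          rw [AddSubmonoidClass.coe_finsetSum]
          simp only [MulMemClass.coe_mul]
        rw [e, map_sum] at h0
        have h0' : ∑ j, π ⟨a j, ha j⟩ • b₂ j = 0 := by
          rw [← h0]
          refine Finset.sum_congr rfl fun j _ => ?_
          rw [map_mul, hρg₂, Algebra.smul_def, ← hc₂]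
        have := Fintype.linearIndependent_iff.1 hb₂ _ h0' j
        exact (hπ0 ⟨a j, ha j⟩).1 this }
  have hli := hgood.linearIndependent
  have := hli.fintype_card_le_finrank
  simpa [Fintype.card_sum] using this

/-- **Fundamental inequality**, two extensions: the residue extensions are finite and
`[κ₁ : k] + [κ₂ : k] ≤ [F : K]`. -/
theorem finite_and_finrank_add_le {O : ValuationSubring K} {V₁ V₂ : ValuationSubring F}
    (h₁ : Over O V₁) (h₂ : Over O V₂) (hne₁ : ¬ V₁ ≤ V₂) (hne₂ : ¬ V₂ ≤ V₁)
    [FiniteDimensional K F]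
    {k κ₁ κ₂ : Type*} [Field k] [Field κ₁] [Field κ₂] [Algebra k κ₁] [Algebra k κ₂]
    (π : O →+* k) (ρ₁ : V₁ →+* κ₁) (ρ₂ : V₂ →+* κ₂)
    (hπ : Function.Surjective π) (hρ₁ : Function.Surjective ρ₁) (hρ₂ : Function.Surjective ρ₂)
    (hc₁ : ∀ a : O, ρ₁ ⟨algebraMap K F a, (h₁ a).2 a.2⟩ = algebraMap k κ₁ (π a))
    (hc₂ : ∀ a : O, ρ₂ ⟨algebraMap K F a, (h₂ a).2 a.2⟩ = algebraMap k κ₂ (π a)) :
    Module.Finite k κ₁ ∧ Module.Finite k κ₂ ∧
      Module.finrank k κ₁ + Module.finrank k κ₂ ≤ Module.finrank K F := by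
  classical
  have hfin₁ : Module.Finite k κ₁ := by
    rw [← Module.rank_lt_aleph0_iff]
    refine lt_of_le_of_lt (rank_le (n := Module.finrank K F) fun s hs => ?_)
      Cardinal.natCast_lt_aleph0
    have := card_add_card_le_finrank h₁ h₂ hne₁ hne₂ π ρ₁ ρ₂ hπ hρ₁ hρ₂ hc₁ hc₂
      (ι₁ := s) (ι₂ := Empty) (fun i => (i : κ₁)) (fun j => j.elim) hs
      (linearIndependent_empty_type)
    simpa using this
  have hfin₂ : Module.Finite k κ₂ := by
    rw [← Module.rank_lt_aleph0_iff]
    refine lt_of_le_of_lt (rank_le (n := Module.finrank K F) fun s hs => ?_)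
      Cardinal.natCast_lt_aleph0
    have := card_add_card_le_finrank h₁ h₂ hne₁ hne₂ π ρ₁ ρ₂ hπ hρ₁ hρ₂ hc₁ hc₂
      (ι₁ := Empty) (ι₂ := s) (fun i => i.elim) (fun j => (j : κ₂))
      (linearIndependent_empty_type) hs
    simpa using this
  refine ⟨hfin₁, hfin₂, ?_⟩
  have := card_add_card_le_finrank h₁ h₂ hne₁ hne₂ π ρ₁ ρ₂ hπ hρ₁ hρ₂ hc₁ hc₂
    (Module.finBasis k κ₁) (Module.finBasis k κ₂) (Module.finBasis k κ₁).linearIndependent
    (Module.finBasis k κ₂).linearIndependent
  simpa using this

end FundIneq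

end Fermat.Agent.S35.G.H60

end
-- ===== PACK-END S35/G/H60/FundIneq.lean

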