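import Mathlib.AlgebraicGeometry.Scheme
import Mathlib.Topology.Sheaves.SheafCondition.UniqueGluing
import Mathlib.RingTheory.TensorProduct.Basic
import Mathlib
import Fermat.Prelude.Def_AlgebraicGeometry_RelativeGroupLaw
import Fermat.Agent.Pack.S43MC.G0E0L0
import Fermat.Agent.Pack.S43MC.G0E0L3
import Fermat.Agent.Pack.S43MC.G0E0L2
import Fermat.Agent.Pack.S43MC.G0E1L0
import Fermat.Agent.Pack.S43MC.G0E1L3
import Fermat.Agent.Pack.S43MC.G0E1L2
import Fermat.Agent.Pack.S43MC.G0E1L1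
import Fermat.Agent.Pack.S43MC.G0E2L2
import Fermat.Agent.Pack.S44C.G0E3L0
import Fermat.Agent.Pack.S43MC.G0E2L3
import Fermat.Agent.Pack.S43MC.G0E5L1
import Fermat.Agent.Pack.Fast891

-- ===== PACK-BEGIN S25/H611/ACLes.lean
section


/-!
# The long exact sequence of a section (helper611, S25/ALGCHARTS, leaf ST3 core, part B = SH4)

Abstract form.  `G` is a gluing datum over a cospan `R₀ → R₀₁ ← R₁` of `A`-algebras with
`R₀₁ = R₁[1/y]`, `X` is a unit of `R₀₁` (the twist), `(s₀, s₁)` is a section of the twisted datum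
(`r₀ s₀ = X • r₁ s₁`) and `M ⊆ N₀` is a submodule containing `s₀` (sections vanishing on a
divisor).  If

* the twisted Čech differential `(a, b) ↦ r₀ a - X • r₁ b` is onto (`H¹ = 0`),
* every `a : N₀` is congruent modulo `M` to the first component of a twisted section,
* the twisted sections with first component in `M` are the `A`-multiples of `(s₀, s₁)`,
* `s₁` generates `N₁` modulo `y`, and `ρ ↦ ρ • r₀ s₀` is injective on `R₀₁`,

then `M ⧸ R₀ s₀ ≃ₗ[A] R₀₁ ⧸ (R₀ + R₁) = H¹(O)`.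
-/

set_option autoImplicit false

universe u

namespace Fermat.Agent.S25.H611

open Fermat.Agent.S25

section Les

variable {A R₀ R₁ R₀₁ : Type u} [CommRing A] [CommRing R₀] [CommRing R₁] [CommRing R₀₁]
  [Algebra A R₀] [Algebra A R₁] [Algebra A R₀₁] [Algebra R₀ R₀₁] [Algebra R₁ R₀₁]
  [IsScalarTower A R₀ R₀₁] [IsScalarTower A R₁ R₀₁]

variable (A R₀ R₁ R₀₁) in
/-- The Čech differential of the structure sheaf, `(f, h) ↦ f - h`. -/
def unitCech : (R₀ × R₁) →ₗ[A] R₀₁ :=
  ((Algebra.linearMap R₀ R₀₁).restrictScalars A).coprod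
    (-((Algebra.linearMap R₁ R₀₁).restrictScalars A))

@[simp]
theorem unitCech_apply (p : R₀ × R₁) :
    unitCech A R₀ R₁ R₀₁ p = algebraMap R₀ R₀₁ p.1 - algebraMap R₁ R₀₁ p.2 := by
  simp [unitCech, sub_eq_add_neg]

/-- The hypotheses of the long exact sequence. -/
structure LesData (G : GlueDatum A R₀ R₁ R₀₁) (y : R₁) (X : R₀₁) (M : Submodule R₀ G.N₀)
    (s₀ : G.N₀) (s₁ : G.N₁) : Prop where
  away : IsLocalization.Away y R₀₁
  unitX : IsUnit X
  inj₁ : Function.Injective (algebraMap R₁ R₀₁)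
  sec : G.r₀ s₀ = X • G.r₁ s₁
  mem : s₀ ∈ M
  p0 : ∀ c : G.N₀₁, ∃ (a : G.N₀) (b : G.N₁), G.r₀ a - X • G.r₁ b = c
  p1 : ∀ a : G.N₀, ∃ (a' : G.N₀) (b' : G.N₁), G.r₀ a' = X • G.r₁ b' ∧ a - a' ∈ M
  gen : ∀ (a : G.N₀) (b : G.N₁), G.r₀ a = X • G.r₁ b → a ∈ M →
    ∃ α : A, a = α • s₀ ∧ b = α • s₁
  genY : ∀ c : G.N₁, ∃ r : R₁,
    c - r • s₁ ∈ (Ideal.span {y} • ⊤ : Submodule R₁ G.N₁)
  inj : ∀ ρ : R₀₁, ρ • G.r₀ s₀ = 0 → ρ = 0

namespace LesData

variable {G : GlueDatum A R₀ R₁ R₀₁} {y : R₁} {X : R₀₁} {M : Submodule R₀ G.N₀}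
  {s₀ : G.N₀} {s₁ : G.N₁}

/-- Nakayama: some `u = 1 + y c₀` maps `N₁` into `R₁ s₁`. -/
theorem exists_u (h : LesData G y X M s₀ s₁) :
    ∃ c₀ : R₁, ∀ c : G.N₁, (1 + y * c₀) • c ∈ Submodule.span R₁ {s₁} := by
  haveI := G.invertible₁
  let N : Submodule R₁ G.N₁ := Submodule.span R₁ {s₁}
  have hfg : (⊤ : Submodule R₁ (G.N₁ ⧸ N)).FG := Module.Finite.fg_top
  have hle : (⊤ : Submodule R₁ (G.N₁ ⧸ N)) ≤ Ideal.span {y} • ⊤ := by
    rintro q -
    obtain ⟨c, rfl⟩ := Submodule.mkQ_surjective N q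
    obtain ⟨r, hr⟩ := h.genY c
    have h0 : N.mkQ (r • s₁) = 0 := by
      rw [Submodule.mkQ_apply, Submodule.Quotient.mk_eq_zero]
      exact Submodule.smul_mem _ _ (Submodule.mem_span_singleton_self s₁)
    have h1 : N.mkQ c = N.mkQ (c - r • s₁) := by
      rw [map_sub, h0, sub_zero]
    rw [h1]
    have h2 : Submodule.map N.mkQ (Ideal.span {y} • ⊤ : Submodule R₁ G.N₁) ≤
        Ideal.span {y} • ⊤ := by
      rw [Submodule.map_smul'']
      exact Submodule.smul_mono le_rfl le_top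
    exact h2 ⟨_, hr, rfl⟩
  obtain ⟨r, hr1, hr2⟩ :=
    Submodule.exists_sub_one_mem_and_smul_eq_zero_of_fg_of_le_smul (Ideal.span {y}) ⊤ hfg hle
  obtain ⟨a, ha⟩ := Ideal.mem_span_singleton'.mp hr1
  refine ⟨a, fun c => ?_⟩
  have h3 : r = 1 + y * a := by rw [mul_comm, ha]; ring
  rw [← h3]
  have h4 := hr2 (N.mkQ c) Submodule.mem_top
  rw [← map_smul, Submodule.mkQ_apply, Submodule.Quotient.mk_eq_zero] at h4
  exact h4

/-- `r₁ s₁` in terms of `r₀ s₀`. -/
theorem r₁_eq (h : LesData G y X M s₀ s₁) (Xi : R₀₁) (hXi : Xi * X = 1) :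
    G.r₁ s₁ = Xi • G.r₀ s₀ := by
  rw [h.sec, smul_smul, hXi, one_smul]

/-- One step of clearing denominators. -/
theorem mem_of_y_smul_mem (h : LesData G y X M s₀ s₁)
    (c : G.N₀₁) (hc : ∃ (ρ : R₀₁) (b : G.N₁), y • c = ρ • G.r₁ s₁ + G.r₁ b) :
    ∃ (ρ : R₀₁) (b : G.N₁), c = ρ • G.r₁ s₁ + G.r₁ b := by
  haveI := h.away
  obtain ⟨c₀, hc₀⟩ := h.exists_u
  obtain ⟨ρ, n, hρ⟩ := hc
  obtain ⟨hh, hhn⟩ := Submodule.mem_span_singleton.mp (hc₀ n)
  -- `n = hh • s₁ - y • (c₀ • n)`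
  have hn : n = hh • s₁ - y • (c₀ • n) := by
    rw [hhn, add_smul, one_smul, mul_smul]
    abel
  obtain ⟨Yi, hYi⟩ := (IsLocalization.Away.algebraMap_isUnit (S := R₀₁) y).exists_left_inv
  have hy : ∀ z : G.N₀₁, y • z = algebraMap R₁ R₀₁ y • z := fun z =>
    (algebraMap_smul R₀₁ y z).symm
  have h1 : G.r₁ n = algebraMap R₁ R₀₁ hh • G.r₁ s₁ - y • G.r₁ (c₀ • n) := by
    conv_lhs => rw [hn]
    rw [map_sub, map_smul, map_smul, algebraMap_smul]
  have h2 : y • (c + G.r₁ (c₀ • n)) = (ρ + algebraMap R₁ R₀₁ hh) • G.r₁ s₁ := by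
    rw [smul_add, hρ, h1, add_smul]
    abel
  refine ⟨Yi * (ρ + algebraMap R₁ R₀₁ hh), -(c₀ • n), ?_⟩
  have h3 : c + G.r₁ (c₀ • n) = (Yi * (ρ + algebraMap R₁ R₀₁ hh)) • G.r₁ s₁ := by
    rw [mul_smul, ← h2, hy, smul_smul, hYi, one_smul]
  rw [map_neg, ← h3]
  abel

/-- `N₀₁ = R₀₁ · r₁ s₁ + r₁ N₁`. -/
theorem exists_decomp₁ (h : LesData G y X M s₀ s₁) (c : G.N₀₁) :
    ∃ (ρ : R₀₁) (b : G.N₁), c = ρ • G.r₁ s₁ + G.r₁ b := by
  haveI := h.away
  haveI hloc : IsLocalizedModule (Submonoid.powers y) G.r₁ :=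
    (isLocalizedModule_iff_isBaseChange (Submonoid.powers y) R₀₁ G.r₁).2 G.isBaseChange₁
  have key : ∀ (j : ℕ) (c : G.N₀₁),
      (∃ (ρ : R₀₁) (b : G.N₁), y ^ j • c = ρ • G.r₁ s₁ + G.r₁ b) →
      ∃ (ρ : R₀₁) (b : G.N₁), c = ρ • G.r₁ s₁ + G.r₁ b := by
    intro j
    induction j with
    | zero =>
      intro c hc
      simpa using hc
    | succ j ih =>
      intro c hc
      apply ih
      apply h.mem_of_y_smul_mem
      obtain ⟨ρ, b, hb⟩ := hc
      exact ⟨ρ, b, by rw [smul_smul, ← pow_succ', hb]⟩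
  obtain ⟨⟨n, ⟨_, j, rfl⟩⟩, hn⟩ := IsLocalizedModule.surj (Submonoid.powers y) G.r₁ c
  refine key j c ⟨0, n, ?_⟩
  rw [zero_smul, zero_add]
  exact hn

/-- `N₀₁ = R₀₁ · r₀ s₀ + X • r₁ N₁`. -/
theorem exists_decomp (h : LesData G y X M s₀ s₁) (c : G.N₀₁) :
    ∃ (ρ : R₀₁) (b : G.N₁), c = ρ • G.r₀ s₀ + X • G.r₁ b := by
  obtain ⟨Xi, hXi⟩ := h.unitX.exists_left_inv
  obtain ⟨ρ, b, hb⟩ := h.exists_decomp₁ (Xi • c)
  refine ⟨ρ, b, ?_⟩
  have h1 : c = X • (Xi • c) := by rw [smul_smul, mul_comm, hXi, one_smul]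
  rw [h1, hb, smul_add, h.sec, smul_smul, smul_smul, mul_comm]

/-- If `σ • r₀ s₀ ∈ X • r₁ N₁` then `σ` comes from `R₁`. -/
theorem mem_range_of_smul_eq (h : LesData G y X M s₀ s₁) (σ : R₀₁) (b : G.N₁)
    (hσ : σ • G.r₀ s₀ = X • G.r₁ b) : σ ∈ Set.range (algebraMap R₁ R₀₁) := by
  haveI := h.away
  obtain ⟨Xi, hXi⟩ := h.unitX.exists_left_inv
  obtain ⟨c₀, hc₀⟩ := h.exists_u
  obtain ⟨hh, hhb⟩ := Submodule.mem_span_singleton.mp (hc₀ b)
  -- `σ • r₁ s₁ = r₁ b`
  have h1 : σ • G.r₁ s₁ = G.r₁ b := by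
    have e1 : Xi • (σ • G.r₀ s₀) = Xi • (X • G.r₁ b) := congrArg (fun z => Xi • z) hσ
    rw [h.sec, smul_smul, smul_smul, smul_smul, hXi, one_smul] at e1
    have e2 : Xi * σ * X = σ := by rw [mul_right_comm, hXi, one_mul]
    rw [e2] at e1
    exact e1
  -- `(u σ - hh) • r₀ s₀ = 0`
  have h2 : algebraMap R₁ R₀₁ (1 + y * c₀) • G.r₁ b = algebraMap R₁ R₀₁ hh • G.r₁ s₁ := by
    rw [algebraMap_smul, algebraMap_smul, ← map_smul, ← map_smul, hhb]
  have h3 : (algebraMap R₁ R₀₁ (1 + y * c₀) * σ - algebraMap R₁ R₀₁ hh) • G.r₀ s₀ = 0 := by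
    rw [h.sec, smul_smul, mul_comm _ X, ← smul_smul, sub_smul, ← smul_smul, h1, h2, sub_self,
      smul_zero]
  have h4 : algebraMap R₁ R₀₁ (1 + y * c₀) * σ = algebraMap R₁ R₀₁ hh :=
    sub_eq_zero.mp (h.inj _ h3)
  obtain ⟨j, w, hw⟩ := IsLocalization.Away.surj y σ
  have h5 : (1 + y * c₀) * w = hh * y ^ j := by
    apply h.inj₁
    rw [map_mul, map_mul, ← hw, ← h4, map_pow]
    ring
  have hcop : IsCoprime (y ^ j) (1 + y * c₀) := by
    apply IsCoprime.pow_left
    exact ⟨-c₀, 1, by ring⟩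
  have hdvd : y ^ j ∣ w := by
    apply hcop.dvd_of_dvd_mul_left
    rw [h5]
    exact Dvd.intro_left hh rfl
  obtain ⟨w', rfl⟩ := hdvd
  refine ⟨w', ?_⟩
  have hunit : IsUnit (algebraMap R₁ R₀₁ y ^ j) :=
    (IsLocalization.Away.algebraMap_isUnit (S := R₀₁) y).pow j
  apply hunit.mul_left_injective
  change algebraMap R₁ R₀₁ w' * algebraMap R₁ R₀₁ y ^ j = σ * algebraMap R₁ R₀₁ y ^ j
  rw [hw, map_mul, map_pow, mul_comm]

end LesData

/-- The map `(ρ, b) ↦ ρ • r₀ s₀ + X • r₁ b`. -/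
def wMap (G : GlueDatum A R₀ R₁ R₀₁) (X : R₀₁) (s₀ : G.N₀) : (R₀₁ × G.N₁) →ₗ[A] G.N₀₁ :=
  ((LinearMap.toSpanSingleton R₀₁ G.N₀₁ (G.r₀ s₀)).restrictScalars A).coprod
    ((Algebra.lsmul A A G.N₀₁ X).comp (G.r₁.restrictScalars A))

@[simp]
theorem wMap_apply (G : GlueDatum A R₀ R₁ R₀₁) (X : R₀₁) (s₀ : G.N₀) (p : R₀₁ × G.N₁) :
    wMap G X s₀ p = p.1 • G.r₀ s₀ + X • G.r₁ p.2 := by
  simp [wMap]

namespace LesData

variable {G : GlueDatum A R₀ R₁ R₀₁} {y : R₁} {X : R₀₁} {M : Submodule R₀ G.N₀}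
  {s₀ : G.N₀} {s₁ : G.N₁}

theorem wMap_surjective (h : LesData G y X M s₀ s₁) : Function.Surjective (wMap G X s₀) := by
  intro c
  obtain ⟨ρ, b, hb⟩ := h.exists_decomp c
  exact ⟨(ρ, b), by rw [wMap_apply, hb]⟩

theorem ker_wMap_le (h : LesData G y X M s₀ s₁) :
    LinearMap.ker (wMap G X s₀) ≤
      LinearMap.ker ((LinearMap.range (unitCech A R₀ R₁ R₀₁)).mkQ ∘ₗ
        LinearMap.fst A R₀₁ G.N₁) := by
  intro p hp
  rw [LinearMap.mem_ker, wMap_apply] at hp
  have h1 : p.1 • G.r₀ s₀ = X • G.r₁ (-p.2) := by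
    rw [map_neg, smul_neg]
    exact eq_neg_of_add_eq_zero_left hp
  obtain ⟨w, hw⟩ := h.mem_range_of_smul_eq p.1 (-p.2) h1
  rw [LinearMap.mem_ker, LinearMap.comp_apply, LinearMap.fst_apply, Submodule.mkQ_apply,
    Submodule.Quotient.mk_eq_zero]
  exact ⟨(0, -w), by rw [unitCech_apply, map_zero, map_neg, zero_sub, neg_neg, hw]⟩

/-- The map `N₀₁ → H¹(O)`, `ρ • r₀ s₀ + X • r₁ b ↦ [ρ]`. -/
noncomputable def psi₀ (h : LesData G y X M s₀ s₁) :
    G.N₀₁ →ₗ[A] (R₀₁ ⧸ LinearMap.range (unitCech A R₀ R₁ R₀₁)) :=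
  ((LinearMap.ker (wMap G X s₀)).liftQ _ h.ker_wMap_le) ∘ₗ
    ((wMap G X s₀).quotKerEquivOfSurjective h.wMap_surjective).symm.toLinearMap

theorem psi₀_apply (h : LesData G y X M s₀ s₁) (ρ : R₀₁) (b : G.N₁) :
    h.psi₀ (ρ • G.r₀ s₀ + X • G.r₁ b) =
      (LinearMap.range (unitCech A R₀ R₁ R₀₁)).mkQ ρ := by
  have h1 : ((wMap G X s₀).quotKerEquivOfSurjective h.wMap_surjective).symm
      (ρ • G.r₀ s₀ + X • G.r₁ b) = Submodule.Quotient.mk (ρ, b) := by
    rw [LinearEquiv.symm_apply_eq, LinearMap.quotKerEquivOfSurjective_apply_mk, wMap_apply]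
  rw [psi₀, LinearMap.comp_apply, LinearEquiv.coe_coe, h1, Submodule.liftQ_apply]
  rfl

/-- The map `M → H¹(O)`. -/
noncomputable def psi (h : LesData G y X M s₀ s₁) :
    M →ₗ[A] (R₀₁ ⧸ LinearMap.range (unitCech A R₀ R₁ R₀₁)) :=
  h.psi₀ ∘ₗ (G.r₀.restrictScalars A) ∘ₗ (M.subtype.restrictScalars A)

theorem psi_apply (h : LesData G y X M s₀ s₁) (a : M) : h.psi a = h.psi₀ (G.r₀ a) := rfl

theorem psi_surjective (h : LesData G y X M s₀ s₁) : Function.Surjective h.psi := by
  intro t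
  obtain ⟨ρ, rfl⟩ := Submodule.mkQ_surjective _ t
  obtain ⟨a, b, hab⟩ := h.p0 (ρ • G.r₀ s₀)
  obtain ⟨a', b', hab', hm⟩ := h.p1 a
  refine ⟨⟨a - a', hm⟩, ?_⟩
  rw [psi_apply]
  have h1 : G.r₀ (a - a') = ρ • G.r₀ s₀ + X • G.r₁ (b - b') := by
    rw [map_sub, map_sub, smul_sub, hab', ← hab]
    abel
  change h.psi₀ (G.r₀ (a - a')) = _
  rw [h1, psi₀_apply]

theorem psi_eq_zero_iff (h : LesData G y X M s₀ s₁) (a : M) :
    h.psi a = 0 ↔ a ∈ Submodule.span R₀ {(⟨s₀, h.mem⟩ : M)} := by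
  constructor
  · intro ha
    obtain ⟨ρ, b, hb⟩ := h.exists_decomp (G.r₀ a)
    rw [psi_apply, hb, psi₀_apply, Submodule.mkQ_apply, Submodule.Quotient.mk_eq_zero] at ha
    obtain ⟨⟨f, hh⟩, hfh⟩ := ha
    rw [unitCech_apply] at hfh
    -- `r₀ (a - f s₀) = X • r₁ (b - hh s₁)`
    have h1 : G.r₀ ((a : G.N₀) - f • s₀) = X • G.r₁ (b - hh • s₁) := by
      rw [map_sub, map_sub, hb, ← hfh, sub_smul, map_smul, map_smul, algebraMap_smul,
        algebraMap_smul, smul_sub]
      have h2 : hh • G.r₀ s₀ = X • hh • G.r₁ s₁ := by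
        rw [h.sec, ← algebraMap_smul R₀₁ hh (X • G.r₁ s₁), ← algebraMap_smul R₀₁ hh (G.r₁ s₁),
          smul_smul, smul_smul, mul_comm]
      rw [h2]
      abel
    have h3 : (a : G.N₀) - f • s₀ ∈ M := M.sub_mem a.2 (M.smul_mem f h.mem)
    obtain ⟨α, hα, -⟩ := h.gen _ _ h1 h3
    rw [Submodule.mem_span_singleton]
    refine ⟨f + algebraMap A R₀ α, ?_⟩
    apply Subtype.ext
    rw [Submodule.coe_smul, add_smul, algebraMap_smul]
    change f • s₀ + α • s₀ = (a : G.N₀)
    rw [← hα]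
    abel
  · intro ha
    obtain ⟨f, rfl⟩ := Submodule.mem_span_singleton.mp ha
    rw [psi_apply]
    have h1 : G.r₀ ((f • (⟨s₀, h.mem⟩ : M) : M) : G.N₀) =
        algebraMap R₀ R₀₁ f • G.r₀ s₀ + X • G.r₁ 0 := by
      rw [map_zero, smul_zero, add_zero, algebraMap_smul, ← map_smul]
      rfl
    rw [h1, psi₀_apply, Submodule.mkQ_apply, Submodule.Quotient.mk_eq_zero]
    exact ⟨(f, 0), by rw [unitCech_apply, map_zero, sub_zero]⟩

/-- **The long exact sequence**: `M ⧸ R₀ s₀ ≃ₗ[A] H¹(O)`. -/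
noncomputable def equiv (h : LesData G y X M s₀ s₁) :
    (M ⧸ Submodule.span R₀ {(⟨s₀, h.mem⟩ : M)}) ≃ₗ[A]
      (R₀₁ ⧸ LinearMap.range (unitCech A R₀ R₁ R₀₁)) :=
  have hker : LinearMap.ker h.psi =
      (Submodule.span R₀ {(⟨s₀, h.mem⟩ : M)}).restrictScalars A := by
    ext a
    rw [LinearMap.mem_ker, h.psi_eq_zero_iff, Submodule.restrictScalars_mem]
  (Submodule.Quotient.restrictScalarsEquiv A
      (Submodule.span R₀ {(⟨s₀, h.mem⟩ : M)})).symm ≪≫ₗ
    Submodule.quotEquivOfEq _ _ hker.symm ≪≫ₗ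
    h.psi.quotKerEquivOfSurjective h.psi_surjective

end LesData

end Les

end Fermat.Agent.S25.H611

end
-- ===== PACK-END S25/H611/ACLes.lean

-- ===== PACK-BEGIN S25/H370/CechK3.lean
section
/-
S25, block CECH (squad S25/S10), leaf K3 (helper370, second owner): the five-term sequence
`0 → H⁰(L) → H⁰(L(m∞)) → N1/y^m N1 → H¹(L) → H¹(L(m∞)) → 0`
for the operator-style Čech core.  Statements exactly as in `CechSkel.lean` (origin/helper10).
-/


set_option autoImplicit false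

namespace Fermat.Agent.S25.H370

open Polynomial TensorProduct Fermat.Agent.S25.H10

universe u v

variable {A : Type u} [CommRing A] {N0 N1 N01 : Type v}
  [AddCommGroup N0] [AddCommGroup N1] [AddCommGroup N01]
  [Module A N0] [Module A N1] [Module A N01]

/-- K3a. -/
theorem incl_injective (D : CechOps A N0 N1 N01) (h1 : Function.Injective D.Y1) (m : ℕ) :
    Function.Injective (D.incl m) := by
  have hpow : Function.Injective (D.Y1 ^ m) := by
    induction m with
    | zero => intro x y h; simpa using h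
    | succ k ih =>
      intro x y h
      rw [pow_succ', Module.End.mul_apply, Module.End.mul_apply] at h
      exact ih (h1 h)
  rintro ⟨⟨a, b⟩, hab⟩ ⟨⟨a', b'⟩, hab'⟩ h
  have h' := congrArg (fun q : D.H0 m => (q : N0 × N1)) h
  simp only [CechOps.incl_apply_coe, Prod.mk.injEq] at h'
  apply Subtype.ext
  exact Prod.ext h'.1 (hpow h'.2)

/-- K3b. Exactness at `H⁰(L(m∞))`. -/
theorem range_incl_eq_ker_δ (D : CechOps A N0 N1 N01) (m : ℕ) :
    LinearMap.range (D.incl m) = LinearMap.ker (D.δ m) := by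
  ext ⟨⟨a, b⟩, hab⟩
  constructor
  · rintro ⟨⟨⟨a', b'⟩, hab'⟩, h⟩
    have h' := congrArg (fun q : D.H0 m => (q : N0 × N1)) h
    simp only [CechOps.incl_apply_coe, Prod.mk.injEq] at h'
    rw [LinearMap.mem_ker, CechOps.δ_apply, Submodule.mkQ_apply, Submodule.Quotient.mk_eq_zero]
    exact ⟨b', h'.2⟩
  · intro h
    rw [LinearMap.mem_ker, CechOps.δ_apply, Submodule.mkQ_apply,
      Submodule.Quotient.mk_eq_zero] at h
    obtain ⟨b', hb'⟩ := h
    have hb'' : (D.Y1 ^ m) b' = b := hb'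
    have hab0 : (a, b') ∈ D.H0 0 := by
      rw [CechOps.mem_ker_d] at hab ⊢
      simp only [pow_zero, Module.End.one_apply]
      rw [hab, ← hb'', D.r1_Y1_pow, D.T_pow_Tinv_pow_apply]
    refine ⟨⟨(a, b'), hab0⟩, ?_⟩
    apply Subtype.ext
    rw [CechOps.incl_apply_coe]
    exact Prod.ext rfl hb''

/-- K3c. Exactness at `N1 / y^m N1`. -/
theorem range_δ_eq_ker_conn (D : CechOps A N0 N1 N01) (m : ℕ) :
    LinearMap.range (D.δ m) = LinearMap.ker (D.conn m) := by
  ext q
  obtain ⟨b, rfl⟩ := Submodule.mkQ_surjective _ q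
  rw [Submodule.mkQ_apply]
  constructor
  · rintro ⟨⟨⟨a', b'⟩, hab'⟩, h⟩
    rw [CechOps.δ_apply, Submodule.mkQ_apply] at h
    rw [LinearMap.mem_ker, ← h, CechOps.conn_mk, Submodule.Quotient.mk_eq_zero]
    rw [CechOps.mem_ker_d] at hab'
    exact ⟨(a', 0), by simp [hab']⟩
  · intro h
    rw [LinearMap.mem_ker, CechOps.conn_mk, Submodule.Quotient.mk_eq_zero] at h
    obtain ⟨⟨a, b''⟩, hab⟩ := h
    rw [CechOps.d_apply] at hab
    simp only [pow_zero, Module.End.one_apply] at hab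
    have hmem : (a, b + (D.Y1 ^ m) b'') ∈ D.H0 m := by
      rw [CechOps.mem_ker_d]
      simp only [map_add]
      rw [D.r1_Y1_pow, D.T_pow_Tinv_pow_apply, ← hab]
      abel
    refine ⟨⟨(a, b + (D.Y1 ^ m) b''), hmem⟩, ?_⟩
    rw [CechOps.δ_apply, Submodule.mkQ_apply]
    show (Submodule.Quotient.mk (b + (D.Y1 ^ m) b'') : N1 ⧸ LinearMap.range (D.Y1 ^ m)) = _
    rw [Submodule.Quotient.mk_add, add_eq_left, Submodule.Quotient.mk_eq_zero]
    exact ⟨b'', rfl⟩

/-- K3d. If `H¹(L(m∞)) = 0` then `conn` is onto `H¹(L)`. -/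
theorem conn_surjective (D : CechOps A N0 N1 N01) (m : ℕ)
    (hsurj : Function.Surjective (D.d m)) : Function.Surjective (D.conn m) := by
  intro q
  obtain ⟨z, rfl⟩ := Submodule.mkQ_surjective _ q
  obtain ⟨⟨a, b⟩, hab⟩ := hsurj z
  rw [CechOps.d_apply] at hab
  refine ⟨Submodule.Quotient.mk (-b), ?_⟩
  rw [CechOps.conn_mk, Submodule.mkQ_apply, Submodule.Quotient.eq]
  refine ⟨(-a, 0), ?_⟩
  rw [CechOps.d_apply, ← hab]
  simp only [map_neg, map_zero, sub_zero]
  abel

end Fermat.Agent.S25.H370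

end
-- ===== PACK-END S25/H370/CechK3.lean

-- ===== PACK-BEGIN S25/H911/AlgDefCore.lean
section



/-!
# S25 / block ALGDEF (helper911): gluing data lift along nil surjections — core

Pure algebra on the frozen `GlueDatum` of `DefsAlg.lean`.

* `exists_semilinear_lift` : an invertible module lifts along a surjection with nil kernel,
  in the semilinear form `IsSemilinearBaseChange`.
* `exists_linearEquiv_of_semilinearBaseChange` : two finite projective lifts of the same module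
  along a surjection with nil kernel are isomorphic, compatibly with the maps to the module.
* `exists_semilinear_extend` : transitivity of semilinear base change in a commutative square.
* `GlueDatum.exists_isBC_of_nil` : every gluing datum over the target cospan is a base change
  of a gluing datum over the source cospan, for a morphism of cospans consisting of
  surjections with nil kernels.
-/

set_option autoImplicit false
set_option linter.style.haveILetI false

universe u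

open scoped TensorProduct

namespace Fermat.Agent.S25.H911

open Fermat.Agent.S25

section Semilinear

variable {R S : Type u} [CommRing R] [CommRing S] (ρ : R →+* S)

/-- Unfolding of `IsSemilinearBaseChange` for a map which is already linear for the algebra
structure `ρ.toAlgebra` and the module structure `Module.compHom _ ρ`. -/
theorem isSemilinearBaseChange_iff {N N' : Type u} [AddCommGroup N] [Module R N]
    [AddCommGroup N'] [Module S N'] (b : N →ₛₗ[ρ] N') :
    IsSemilinearBaseChange ρ b ↔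
      (letI : Algebra R S := ρ.toAlgebra
       letI : Module R N' := Module.compHom N' ρ
       haveI : IsScalarTower R S N' := ⟨fun r r' n => by
         change (ρ r * r') • n = ρ r • (r' • n); rw [mul_smul]⟩
       IsBaseChange S (show N →ₗ[R] N' from
         { toFun := fun n => b n
           map_add' := fun m n => b.map_add m n
           map_smul' := fun r n => LinearMap.map_smulₛₗ b r n })) :=
  Iff.rfl

/-- **Invertible modules lift** along a surjection with nil kernel (semilinear form). -/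
theorem exists_semilinear_lift (hs : Function.Surjective ρ)
    (hn : ∀ x ∈ RingHom.ker ρ, IsNilpotent x)
    (Q : Type u) [AddCommGroup Q] [Module S Q] [Module.Invertible S Q] :
    ∃ (P : Type u) (_ : AddCommGroup P) (_ : Module R P) (_ : Module.Invertible R P)
      (b : P →ₛₗ[ρ] Q), IsSemilinearBaseChange ρ b := by
  letI : Algebra R S := ρ.toAlgebra
  obtain ⟨P, iP, mP, hP, ⟨e⟩⟩ := H971.exists_invertible_lift (R := R) (S := S) hs hn Q
  refine ⟨P, iP, mP, hP,
    { toFun := fun p => e ((1 : S) ⊗ₜ[R] p)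
      map_add' := fun p q => by rw [TensorProduct.tmul_add, map_add]
      map_smul' := fun r p => by
        have h1 : (1 : S) ⊗ₜ[R] (r • p) = ρ r • ((1 : S) ⊗ₜ[R] p) := by
          rw [TensorProduct.tmul_smul, TensorProduct.smul_tmul', TensorProduct.smul_tmul',
            Algebra.smul_def, smul_eq_mul]
          rfl
        rw [h1, map_smul] }, ?_⟩
  rw [isSemilinearBaseChange_iff]
  letI : Module R Q := Module.compHom Q ρ
  haveI : IsScalarTower R S Q := ⟨fun r r' n => by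
    change (ρ r * r') • n = ρ r • (r' • n); rw [mul_smul]⟩
  exact IsBaseChange.of_equiv e (fun x => rfl)

/-- **Uniqueness of lifts.** Two finite projective lifts of the same module along a surjection
with nil kernel are isomorphic, compatibly with the maps to the module. -/
theorem exists_linearEquiv_of_semilinearBaseChange (hs : Function.Surjective ρ)
    (hn : ∀ x ∈ RingHom.ker ρ, IsNilpotent x)
    {P P' Q : Type u} [AddCommGroup P] [Module R P] [Module.Finite R P] [Module.Projective R P]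
    [AddCommGroup P'] [Module R P'] [Module.Finite R P'] [Module.Projective R P']
    [AddCommGroup Q] [Module S Q]
    (d : P →ₛₗ[ρ] Q) (d' : P' →ₛₗ[ρ] Q) (hd : IsSemilinearBaseChange ρ d)
    (hd' : IsSemilinearBaseChange ρ d') :
    ∃ ψ : P ≃ₗ[R] P', ∀ p, d' (ψ p) = d p := by
  rw [isSemilinearBaseChange_iff] at hd hd'
  letI : Algebra R S := ρ.toAlgebra
  letI : Module R Q := Module.compHom Q ρ
  haveI : IsScalarTower R S Q := ⟨fun r r' n => by
    change (ρ r * r') • n = ρ r • (r' • n); rw [mul_smul]⟩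
  obtain ⟨ψ, hψ⟩ := H971.exists_linearEquiv_lift (R := R) (S := S) hs hn
    (hd.equiv ≪≫ₗ hd'.equiv.symm)
  refine ⟨ψ, fun p => ?_⟩
  have h1 := hψ p
  rw [LinearEquiv.trans_apply, LinearEquiv.symm_apply_eq, IsBaseChange.equiv_tmul,
    IsBaseChange.equiv_tmul, one_smul, one_smul] at h1
  exact h1.symm

end Semilinear

section Extend

variable {R₀ R₀₁ S₀ S₀₁ : Type u} [CommRing R₀] [CommRing R₀₁] [CommRing S₀] [CommRing S₀₁]
  [Algebra R₀ R₀₁] [Algebra S₀ S₀₁]

/-- **Transitivity of semilinear base change** in a commutative square of rings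
`R₀ → R₀₁`, `R₀ → S₀`, `R₀₁ → S₀₁`, `S₀ → S₀₁`: if `P₀ → N₀'` is a base change along `ρ₀` and
`N₀' → N₀₁'` a base change along `S₀ → S₀₁`, then `R₀₁ ⊗ P₀ → N₀₁'` is a base change along
`ρ₀₁`. -/
theorem exists_semilinear_extend (ρ₀ : R₀ →+* S₀) (ρ₀₁ : R₀₁ →+* S₀₁)
    (h : ρ₀₁.comp (algebraMap R₀ R₀₁) = (algebraMap S₀ S₀₁).comp ρ₀)
    {P₀ N₀' N₀₁' : Type u} [AddCommGroup P₀] [Module R₀ P₀] [AddCommGroup N₀'] [Module S₀ N₀']
    [AddCommGroup N₀₁'] [Module S₀₁ N₀₁'] [Module S₀ N₀₁'] [IsScalarTower S₀ S₀₁ N₀₁']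
    (b₀ : P₀ →ₛₗ[ρ₀] N₀') (hb₀ : IsSemilinearBaseChange ρ₀ b₀)
    (r₀' : N₀' →ₗ[S₀] N₀₁') (hr₀' : IsBaseChange S₀₁ r₀') :
    ∃ d : (R₀₁ ⊗[R₀] P₀) →ₛₗ[ρ₀₁] N₀₁', IsSemilinearBaseChange ρ₀₁ d ∧
      ∀ p : P₀, d ((1 : R₀₁) ⊗ₜ[R₀] p) = r₀' (b₀ p) := by
  rw [isSemilinearBaseChange_iff] at hb₀
  letI : Algebra R₀ S₀ := ρ₀.toAlgebra
  letI : Algebra R₀₁ S₀₁ := ρ₀₁.toAlgebra
  letI : Algebra R₀ S₀₁ := ((algebraMap S₀ S₀₁).comp ρ₀).toAlgebra
  haveI : IsScalarTower R₀ S₀ S₀₁ := IsScalarTower.of_algebraMap_eq (fun x => rfl)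
  haveI : IsScalarTower R₀ R₀₁ S₀₁ :=
    IsScalarTower.of_algebraMap_eq (fun x => (RingHom.congr_fun h x).symm)
  letI : Module R₀ N₀' := Module.compHom N₀' ρ₀
  haveI : IsScalarTower R₀ S₀ N₀' := ⟨fun r r' n => by
    change (ρ₀ r * r') • n = ρ₀ r • (r' • n); rw [mul_smul]⟩
  letI : Module R₀₁ N₀₁' := Module.compHom N₀₁' ρ₀₁
  haveI : IsScalarTower R₀₁ S₀₁ N₀₁' := ⟨fun r r' n => by
    change (ρ₀₁ r * r') • n = ρ₀₁ r • (r' • n); rw [mul_smul]⟩
  letI : Module R₀ N₀₁' := Module.compHom N₀₁' ((algebraMap S₀ S₀₁).comp ρ₀)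
  haveI : IsScalarTower R₀ S₀₁ N₀₁' := ⟨fun r r' n => by
    change (algebraMap S₀ S₀₁ (ρ₀ r) * r') • n = algebraMap S₀ S₀₁ (ρ₀ r) • (r' • n)
    rw [mul_smul]⟩
  haveI : IsScalarTower R₀ S₀ N₀₁' := ⟨fun r r' n => by
    change (ρ₀ r * r') • n = algebraMap S₀ S₀₁ (ρ₀ r) • (r' • n)
    rw [mul_smul, algebraMap_smul]⟩
  haveI : IsScalarTower R₀ R₀₁ N₀₁' := ⟨fun r r' n => by
    change ρ₀₁ (r • r') • n = algebraMap S₀ S₀₁ (ρ₀ r) • (ρ₀₁ r' • n)
    rw [Algebra.smul_def, map_mul, mul_smul,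
      show ρ₀₁ (algebraMap R₀ R₀₁ r) = algebraMap S₀ S₀₁ (ρ₀ r) from RingHom.congr_fun h r]⟩
  let b₀L : P₀ →ₗ[R₀] N₀' :=
    { toFun := fun n => b₀ n
      map_add' := fun m n => b₀.map_add m n
      map_smul' := fun r n => LinearMap.map_smulₛₗ b₀ r n }
  have hb₀' : IsBaseChange S₀ b₀L := hb₀
  let c₀ : P₀ →ₗ[R₀] N₀₁' := (r₀'.restrictScalars R₀).comp b₀L
  have hc₀ : IsBaseChange S₀₁ c₀ := IsBaseChange.comp hb₀' hr₀'
  have hmk : IsBaseChange R₀₁ (TensorProduct.mk R₀ R₀₁ P₀ 1) :=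
    TensorProduct.isBaseChange R₀ P₀ R₀₁
  have hdL : IsBaseChange S₀₁ (hmk.lift c₀) :=
    IsBaseChange.of_comp hmk (by rw [hmk.lift_comp]; exact hc₀)
  refine ⟨{ toFun := fun z => hmk.lift c₀ z
            map_add' := fun a b => map_add _ a b
            map_smul' := fun r z => map_smul (hmk.lift c₀) r z }, ?_, fun p => ?_⟩
  · rw [isSemilinearBaseChange_iff]
    exact hdL
  · exact hmk.lift_eq c₀ p

end Extend

section Main

variable {A R₀ R₁ R₀₁ : Type u} [CommRing A] [CommRing R₀] [CommRing R₁]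
    [CommRing R₀₁] [Algebra A R₀] [Algebra A R₁] [Algebra A R₀₁] [Algebra R₀ R₀₁]
    [Algebra R₁ R₀₁] [IsScalarTower A R₀ R₀₁] [IsScalarTower A R₁ R₀₁]
    {A' R₀' R₁' R₀₁' : Type u} [CommRing A'] [CommRing R₀'] [CommRing R₁']
    [CommRing R₀₁'] [Algebra A' R₀'] [Algebra A' R₁'] [Algebra A' R₀₁'] [Algebra R₀' R₀₁']
    [Algebra R₁' R₀₁'] [IsScalarTower A' R₀' R₀₁'] [IsScalarTower A' R₁' R₀₁']

/-- **Gluing data lift along nil surjections.** For a morphism of cospans
`(ρ₀, ρ₁, ρ₀₁) : (R₀ → R₀₁ ← R₁) → (R₀' → R₀₁' ← R₁')` consisting of surjections with nil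
kernels, every gluing datum over the target is a base change of a gluing datum over the
source. -/
theorem exists_isBC_of_nil (ρ₀ : R₀ →+* R₀') (ρ₁ : R₁ →+* R₁') (ρ₀₁ : R₀₁ →+* R₀₁')
    (h₀ : ρ₀₁.comp (algebraMap R₀ R₀₁) = (algebraMap R₀' R₀₁').comp ρ₀)
    (h₁ : ρ₀₁.comp (algebraMap R₁ R₀₁) = (algebraMap R₁' R₀₁').comp ρ₁)
    (hs₀ : Function.Surjective ρ₀) (hn₀ : ∀ x ∈ RingHom.ker ρ₀, IsNilpotent x)
    (hs₁ : Function.Surjective ρ₁) (hn₁ : ∀ x ∈ RingHom.ker ρ₁, IsNilpotent x)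
    (hs₀₁ : Function.Surjective ρ₀₁) (hn₀₁ : ∀ x ∈ RingHom.ker ρ₀₁, IsNilpotent x)
    (G' : GlueDatum A' R₀' R₁' R₀₁') :
    ∃ G : GlueDatum A R₀ R₁ R₀₁, GlueDatum.IsBC ρ₀ ρ₁ ρ₀₁ G G' := by
  haveI := G'.invertible₀
  haveI := G'.invertible₁
  obtain ⟨P₀, _, _, hP₀, b₀, hb₀⟩ := exists_semilinear_lift ρ₀ hs₀ hn₀ G'.N₀
  obtain ⟨P₁, _, _, hP₁, b₁, hb₁⟩ := exists_semilinear_lift ρ₁ hs₁ hn₁ G'.N₁
  obtain ⟨d₀, hd₀, hd₀e⟩ :=
    exists_semilinear_extend ρ₀ ρ₀₁ h₀ b₀ hb₀ G'.r₀ G'.isBaseChange₀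
  obtain ⟨d₁, hd₁, hd₁e⟩ :=
    exists_semilinear_extend ρ₁ ρ₀₁ h₁ b₁ hb₁ G'.r₁ G'.isBaseChange₁
  obtain ⟨ψ, hψ⟩ := exists_linearEquiv_of_semilinearBaseChange ρ₀₁ hs₀₁ hn₀₁ d₁ d₀ hd₁ hd₀
  let r₁ : P₁ →ₗ[R₁] (R₀₁ ⊗[R₀] P₀) :=
    { toFun := fun n => ψ ((1 : R₀₁) ⊗ₜ[R₁] n)
      map_add' := fun m n => by rw [TensorProduct.tmul_add, map_add]
      map_smul' := fun r n => by
        have h1 : (1 : R₀₁) ⊗ₜ[R₁] (r • n) = algebraMap R₁ R₀₁ r • ((1 : R₀₁) ⊗ₜ[R₁] n) := by
          rw [TensorProduct.tmul_smul, algebraMap_smul]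
        rw [h1, map_smul, algebraMap_smul]
        rfl }
  have hr₁ : IsBaseChange R₀₁ r₁ := IsBaseChange.of_equiv ψ (fun x => rfl)
  letI bm₀ : Module A P₀ := Module.compHom P₀ (algebraMap A R₀)
  haveI bt₀ : IsScalarTower A R₀ P₀ := ⟨fun a r z => by
    change (a • r) • z = algebraMap A R₀ a • (r • z)
    rw [Algebra.smul_def, mul_smul]⟩
  letI bm₁ : Module A P₁ := Module.compHom P₁ (algebraMap A R₁)
  haveI bt₁ : IsScalarTower A R₁ P₁ := ⟨fun a r z => by
    change (a • r) • z = algebraMap A R₁ a • (r • z)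
    rw [Algebra.smul_def, mul_smul]⟩
  let G : GlueDatum A R₀ R₁ R₀₁ :=
    { N₀ := P₀
      N₁ := P₁
      N₀₁ := R₀₁ ⊗[R₀] P₀
      baseModule₀ := bm₀
      baseModule₁ := bm₁
      baseTower₀ := bt₀
      baseTower₁ := bt₁
      r₀ := TensorProduct.mk R₀ R₀₁ P₀ 1
      r₁ := r₁
      isBaseChange₀ := TensorProduct.isBaseChange R₀ P₀ R₀₁
      isBaseChange₁ := hr₁
      invertible₀ := hP₀
      invertible₁ := hP₁ }
  have hcomm₁ : ∀ s : P₁, d₀ (r₁ s) = G'.r₁ (b₁ s) := fun s => by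
    change d₀ (ψ ((1 : R₀₁) ⊗ₜ[R₁] s)) = G'.r₁ (b₁ s)
    rw [hψ, hd₁e]
  exact ⟨G, ⟨⟨b₀, b₁, d₀, hd₀e, hcomm₁, hb₀, hb₁, hd₀⟩⟩⟩

end Main

end Fermat.Agent.S25.H911

end
-- ===== PACK-END S25/H911/AlgDefCore.lean

-- ===== PACK-BEGIN S25/H971/ACCovAlg.lean
section


/-!
# S25 / ALGCHARTS / COVER: generic module lemmas (Mathlib only)

* `inf_smul_top_le_mul_smul_top`, `iInf_smul_top_le_prod_smul_top` : Chinese remainder theorem for
  modules, `⋂ (J i • N) = (∏ J i) • N` for pairwise coprime ideals.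
* `smul_top_ne_top_of_invertible` : `P • N ≠ N` for a proper ideal `P` and an invertible `N`.
* `exists_sub_smul_mem_of_notMem` : the fibre `N / P N` of an invertible module at a maximal ideal
  is spanned by any element outside `P N`.
* `span_sup_smul_top_eq_top` : `s` generates `N` modulo `I` as soon as `s` does not vanish at any
  maximal ideal containing `I`.
* `finrank_quotient_ker_smul_top` : the fibre of an invertible module at a rational point is
  one-dimensional.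
-/

set_option autoImplicit false
set_option linter.style.haveILetI false

open TensorProduct

namespace Fermat.Agent.S25.H971

section CRT

variable {R : Type*} [CommRing R] {N : Type*} [AddCommGroup N] [Module R N]

/-- For coprime ideals, `I N ∩ J N ⊆ (I J) N`. -/
theorem inf_smul_top_le_mul_smul_top {I J : Ideal R} (h : IsCoprime I J) :
    (I • ⊤ : Submodule R N) ⊓ (J • ⊤ : Submodule R N) ≤ ((I * J) • ⊤ : Submodule R N) := by
  obtain ⟨a, ha, b, hb, hab⟩ := Ideal.isCoprime_iff_exists.mp h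
  intro n hn
  have hn1 : n ∈ (I • ⊤ : Submodule R N) := hn.1
  have hn2 : n ∈ (J • ⊤ : Submodule R N) := hn.2
  have h1 : a • n ∈ ((I * J) • ⊤ : Submodule R N) := by
    rw [Submodule.mul_smul]
    exact Submodule.smul_mem_smul ha hn2
  have h2 : b • n ∈ ((I * J) • ⊤ : Submodule R N) := by
    rw [mul_comm, Submodule.mul_smul]
    exact Submodule.smul_mem_smul hb hn1
  have : n = a • n + b • n := by rw [← add_smul, hab, one_smul]
  rw [this]
  exact Submodule.add_mem _ h1 h2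

/-- Chinese remainder theorem for modules: an element lying in `J i • N` for all `i` of a finite
family of pairwise coprime ideals lies in `(∏ J i) • N`. -/
theorem mem_prod_smul_top_of_forall_mem {ι : Type*} (s : Finset ι) (J : ι → Ideal R)
    (hp : (s : Set ι).Pairwise (fun i j => IsCoprime (J i) (J j))) (n : N)
    (hn : ∀ i ∈ s, n ∈ (J i • ⊤ : Submodule R N)) :
    n ∈ ((∏ i ∈ s, J i) • ⊤ : Submodule R N) := by
  classical
  induction s using Finset.induction with
  | empty => simp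
  | insert a s ha ih =>
    rw [Finset.prod_insert ha]
    have hp' : (s : Set ι).Pairwise (fun i j => IsCoprime (J i) (J j)) :=
      hp.mono (by simp)
    have hcop : IsCoprime (J a) (∏ i ∈ s, J i) := by
      refine IsCoprime.prod_right fun i hi => ?_
      exact hp (by simp) (by simp [hi]) (fun h => ha (h ▸ hi))
    exact inf_smul_top_le_mul_smul_top hcop
      ⟨hn a (by simp), ih hp' fun i hi => hn i (by simp [hi])⟩

/-- An element of `(∏ J i) • N` lies in every `J i • N`. -/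
theorem mem_smul_top_of_mem_prod_smul_top {ι : Type*} (s : Finset ι) (J : ι → Ideal R) (n : N)
    (hn : n ∈ ((∏ i ∈ s, J i) • ⊤ : Submodule R N)) {i : ι} (hi : i ∈ s) :
    n ∈ (J i • ⊤ : Submodule R N) :=
  Submodule.smul_mono_left (Ideal.prod_le_inf.trans (Finset.inf_le hi)) hn

end CRT

section Invertible

variable {R : Type*} [CommRing R] {N : Type*} [AddCommGroup N] [Module R N]
  [Module.Invertible R N]

/-- `P • N ≠ N` for a proper ideal `P` and an invertible module `N`. -/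
theorem smul_top_ne_top_of_invertible [Nontrivial R] {P : Ideal R} (hP : P ≠ ⊤) :
    (P • ⊤ : Submodule R N) ≠ ⊤ := by
  intro h
  obtain ⟨r, hr, hr0⟩ := Submodule.exists_sub_one_mem_and_smul_eq_zero_of_fg_of_le_smul P
    (⊤ : Submodule R N) Module.Finite.fg_top (by rw [h])
  have hr' : r = 0 := by
    have hfaith : Function.Injective (fun (a : R) => (fun n : N => a • n)) :=
      fun a b hab => FaithfulSMul.eq_of_smul_eq_smul (M := R) (α := N) (fun n => congrFun hab n)
    apply hfaith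
    funext n
    show r • n = (0 : R) • n
    rw [hr0 n Submodule.mem_top, zero_smul]
  rw [hr', zero_sub] at hr
  exact hP ((Ideal.eq_top_iff_one P).mpr (by simpa using P.neg_mem hr))

/-- The fibre `N / P N` of an invertible module at a maximal ideal is spanned by any element
outside `P N`. -/
theorem exists_sub_smul_mem_of_notMem {P : Ideal R} [hP : P.IsMaximal] {s : N}
    (hs : s ∉ (P • ⊤ : Submodule R N)) (c : N) :
    ∃ r : R, c - r • s ∈ (P • ⊤ : Submodule R N) := by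
  letI : Field (R ⧸ P) := Ideal.Quotient.field P
  have hsurj : Function.Surjective (algebraMap R (R ⧸ P)) := Ideal.Quotient.mk_surjective
  have hker : RingHom.ker (algebraMap R (R ⧸ P)) = P := by
    rw [Ideal.Quotient.algebraMap_eq, Ideal.mk_ker]
  have h1 : Module.finrank (R ⧸ P) ((R ⧸ P) ⊗[R] N) = 1 :=
    Module.Invertible.finrank_eq_one (R ⧸ P) ((R ⧸ P) ⊗[R] N)
  have hs0 : (1 : R ⧸ P) ⊗ₜ[R] s ≠ 0 := by
    rw [Ne, one_tmul_eq_zero_iff hsurj, hker]
    exact hs
  obtain ⟨f, hf⟩ := (finrank_eq_one_iff_of_nonzero' _ hs0).mp h1 ((1 : R ⧸ P) ⊗ₜ[R] c)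
  obtain ⟨r, rfl⟩ := hsurj f
  refine ⟨r, ?_⟩
  rw [← hker, ← one_tmul_eq_zero_iff hsurj, TensorProduct.tmul_sub, sub_eq_zero, ← hf,
    TensorProduct.tmul_smul, algebraMap_smul]

/-- If `s` does not vanish at any maximal ideal containing `I`, then `s` generates `N` modulo
`I`. -/
theorem span_sup_smul_top_eq_top {I : Ideal R} {s : N}
    (hs : ∀ P : Ideal R, P.IsMaximal → I ≤ P → s ∉ (P • ⊤ : Submodule R N)) :
    Submodule.span R {s} ⊔ (I • ⊤ : Submodule R N) = ⊤ := by
  set W : Submodule R N := Submodule.span R {s} ⊔ (I • ⊤ : Submodule R N) with hW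
  by_contra hne
  -- the conductor of `W`
  have hcol : W.colon (⊤ : Set N) ≠ ⊤ := by
    intro h
    apply hne
    rw [eq_top_iff]
    intro n _
    have h1 : (1 : R) ∈ W.colon (⊤ : Set N) := by rw [h]; exact Submodule.mem_top
    rw [Submodule.mem_colon] at h1
    simpa using h1 n (Set.mem_univ n)
  obtain ⟨P, hP, hle⟩ := Ideal.exists_le_maximal _ hcol
  have hIP : I ≤ P := by
    intro a ha
    apply hle
    rw [Submodule.mem_colon]
    intro n _
    exact Submodule.mem_sup_right (Submodule.smul_mem_smul ha Submodule.mem_top)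
  have hsP := hs P hP hIP
  -- `N = W + P N`
  have htop : (⊤ : Submodule R N) ≤ W ⊔ (P • ⊤ : Submodule R N) := by
    intro c _
    obtain ⟨r, hr⟩ := exists_sub_smul_mem_of_notMem (P := P) hsP c
    have : c = r • s + (c - r • s) := by abel
    rw [this]
    exact Submodule.add_mem_sup
      (Submodule.mem_sup_left (Submodule.smul_mem _ _ (Submodule.mem_span_singleton_self s))) hr
  -- Nakayama for `N / W`
  have hq : (⊤ : Submodule R (N ⧸ W)) ≤ P • (⊤ : Submodule R (N ⧸ W)) := by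
    intro z _
    obtain ⟨n, rfl⟩ := W.mkQ_surjective z
    have hn : n ∈ W ⊔ (P • ⊤ : Submodule R N) := htop Submodule.mem_top
    obtain ⟨w, hw, p, hp, rfl⟩ := Submodule.mem_sup.mp hn
    have hw0 : W.mkQ w = 0 := (Submodule.Quotient.mk_eq_zero W).mpr hw
    rw [map_add, hw0, zero_add]
    have : W.mkQ p ∈ Submodule.map W.mkQ (P • (⊤ : Submodule R N)) :=
      Submodule.mem_map_of_mem hp
    rw [Submodule.map_smul''] at this
    exact Submodule.smul_mono le_rfl le_top this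
  obtain ⟨r, hr, hr0⟩ := Submodule.exists_sub_one_mem_and_smul_eq_zero_of_fg_of_le_smul P
    (⊤ : Submodule R (N ⧸ W)) Module.Finite.fg_top hq
  have hrW : r ∈ W.colon (⊤ : Set N) := by
    rw [Submodule.mem_colon]
    intro n _
    have := hr0 (W.mkQ n) Submodule.mem_top
    rw [← map_smul] at this
    exact (Submodule.Quotient.mk_eq_zero W).mp this
  have hrP : r ∈ P := hle hrW
  apply hP.ne_top
  rw [Ideal.eq_top_iff_one]
  have : (1 : R) = r - (r - 1) := by ring
  rw [this]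
  exact P.sub_mem hrP hr

end Invertible

section Rational

variable {K : Type*} [Field K] {R : Type*} [CommRing R] [Algebra K R] {N : Type*}
  [AddCommGroup N] [Module R N] [Module K N] [IsScalarTower K R N] [Module.Invertible R N]

/-- The fibre of an invertible module at a `K`-rational point is one-dimensional over `K`. -/
theorem finrank_quotient_ker_smul_top (π : R →ₐ[K] K) :
    Module.finrank K (N ⧸ (RingHom.ker π • ⊤ : Submodule R N)) = 1 := by
  have hπ : Function.Surjective π := fun c => ⟨algebraMap K R c, by simp⟩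
  haveI hmax : (RingHom.ker π).IsMaximal := RingHom.ker_isMaximal_of_surjective π hπ
  haveI : Nontrivial R := ⟨⟨0, 1, fun h => by
    have := congrArg π h
    simp at this⟩⟩
  set W : Submodule R N := RingHom.ker π • ⊤ with hW
  obtain ⟨s, hs⟩ : ∃ s : N, s ∉ W := by
    by_contra hcon
    push Not at hcon
    exact smul_top_ne_top_of_invertible (N := N) hmax.ne_top (eq_top_iff.mpr fun n _ => hcon n)
  have hs0 : (W.mkQ s) ≠ 0 := fun h => hs ((Submodule.Quotient.mk_eq_zero W).mp h)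
  rw [finrank_eq_one_iff_of_nonzero' (W.mkQ s) hs0]
  intro z
  obtain ⟨c, rfl⟩ := W.mkQ_surjective z
  obtain ⟨r, hr⟩ := exists_sub_smul_mem_of_notMem (P := RingHom.ker π) hs c
  refine ⟨π r, ?_⟩
  -- `r ≡ π r` modulo `ker π`
  have h1 : r - algebraMap K R (π r) ∈ RingHom.ker π := by
    rw [RingHom.mem_ker, map_sub, AlgHom.commutes]
    simp
  have h2 : (r - algebraMap K R (π r)) • s ∈ W := Submodule.smul_mem_smul h1 Submodule.mem_top
  have h3 : c - (π r) • s ∈ W := by
    have : c - (π r) • s = (c - r • s) + (r - algebraMap K R (π r)) • s := by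
      rw [sub_smul, algebraMap_smul]
      abel
    rw [this]
    exact W.add_mem hr h2
  symm
  rw [← sub_eq_zero]
  have : W.mkQ c - π r • W.mkQ s = W.mkQ (c - π r • s) := by
    rw [map_sub]
    rfl
  rw [this]
  exact (Submodule.Quotient.mk_eq_zero W).mpr h3

end Rational

end Fermat.Agent.S25.H971

end
-- ===== PACK-END S25/H971/ACCovAlg.lean

-- ===== PACK-BEGIN S25/H851/ACIsoGlue.lean
section




/-!
# S25 / ALGCHARTS, leaf PT-ISO, gluing-datum level (helper851)

Two gluing data over a two-chart cospan `R₀ → R₀₁ ← R₁` (`R₀₁ = R₀[1/x₀] = R₁[1/y₁]`,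
`x₀ y₁ = 1`) carrying sections `(s₀, s₁)`, `(s₀', s₁')` of the `n`-th twist which generate modulo
`y₁` and have the same divisor `J` on the first chart are isomorphic:
`GlueDatum.isIso_of_sections`.
-/

set_option autoImplicit false
set_option linter.style.haveILetI false

universe u

open TensorProduct

namespace Fermat.Agent.S25.H851

open Fermat.Agent.S25

section Glue

variable {A R₀ R₁ R₀₁ : Type u} [CommRing A] [CommRing R₀] [CommRing R₁]
    [CommRing R₀₁] [Algebra A R₀] [Algebra A R₁] [Algebra A R₀₁] [Algebra R₀ R₀₁]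
    [Algebra R₁ R₀₁] [IsScalarTower A R₀ R₀₁] [IsScalarTower A R₁ R₀₁]

/-- The module over the intersection of a gluing datum is invertible. -/
theorem glue_invertible₀₁ (G : GlueDatum A R₀ R₁ R₀₁) : Module.Invertible R₀₁ G.N₀₁ :=
  haveI := G.invertible₀
  Module.Invertible.congr G.isBaseChange₀.equiv

/-- The data on the second chart attached to a section generating modulo `y₁`: an ideal `J₁`
with `J₁ N₁ = R₁ s₁`, containing an element coprime to `y₁`, whose extension to `R₀₁` is the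
extension of `J`. -/
theorem secIdeal_chart₁ (x₀ : R₀) (y₁ : R₁) [IsLocalization.Away y₁ R₀₁]
    (hxy : algebraMap R₀ R₀₁ x₀ * algebraMap R₁ R₀₁ y₁ = 1)
    (G : GlueDatum A R₀ R₁ R₀₁) (n : ℕ) (J : Ideal R₀) (s₀ : G.N₀) (s₁ : G.N₁)
    (hs : G.r₀ s₀ = (algebraMap R₀ R₀₁ x₀) ^ n • G.r₁ s₁)
    (hspan : Submodule.span R₀ {s₀} = J • (⊤ : Submodule R₀ G.N₀))
    (hgen : ∀ c : G.N₁, ∃ r : R₁, c - r • s₁ ∈ (Ideal.span {y₁} • ⊤ : Submodule R₁ G.N₁)) :
    (∃ u ∈ secIdeal (R := R₁) s₁, IsCoprime u y₁) ∧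
      (secIdeal (R := R₁) s₁).map (algebraMap R₁ R₀₁) = J.map (algebraMap R₀ R₀₁) := by
  haveI := G.invertible₀
  haveI := G.invertible₁
  haveI := glue_invertible₀₁ G
  have hJ₁ := secIdeal_smul_top (R := R₁) s₁
  constructor
  · obtain ⟨u, hu, hun⟩ := exists_coprime_smul_mem y₁ s₁ hgen
    refine ⟨u, ?_, hu⟩
    have hle : (Ideal.span {u}) • (⊤ : Submodule R₁ G.N₁) ≤
        secIdeal (R := R₁) s₁ • (⊤ : Submodule R₁ G.N₁) := by
      rw [hJ₁, Submodule.smul_le]
      intro a ha m _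
      obtain ⟨c, rfl⟩ := Ideal.mem_span_singleton'.1 ha
      rw [mul_smul]
      exact Submodule.smul_mem _ _ (hun m)
    exact ideal_le_of_smul_top_le hle (Ideal.mem_span_singleton_self u)
  · apply ideal_eq_of_smul_top_eq (N := G.N₀₁)
    rw [map_smul_top_eq_span G.isBaseChange₁ _ s₁ hJ₁.symm,
      map_smul_top_eq_span G.isBaseChange₀ J s₀ hspan, hs]
    have hunit : IsUnit ((algebraMap R₀ R₀₁ x₀) ^ n) :=
      (IsUnit.of_mul_eq_one _ hxy).pow n
    exact (Submodule.span_singleton_smul_eq hunit _).symm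

/-- A nonzerodivisor of `R₀` in `J` produces a nonzerodivisor of `R₁` in any ideal `J₁` with
the same extension to `R₀₁`. -/
theorem exists_nonZeroDivisor_chart₁ (x₀ : R₀) (y₁ : R₁) [IsLocalization.Away x₀ R₀₁]
    [IsLocalization.Away y₁ R₀₁] (hinj : Function.Injective (algebraMap R₁ R₀₁))
    (J : Ideal R₀) (J₁ : Ideal R₁)
    (hJ : J₁.map (algebraMap R₁ R₀₁) = J.map (algebraMap R₀ R₀₁))
    {t : R₀} (ht : t ∈ J) (htr : t ∈ nonZeroDivisors R₀) :
    ∃ t₁ ∈ J₁, t₁ ∈ nonZeroDivisors R₁ ∧ algebraMap R₁ R₀₁ t₁ ∈ nonZeroDivisors R₀₁ := by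
  have h1 : algebraMap R₀ R₀₁ t ∈ J₁.map (algebraMap R₁ R₀₁) := by
    rw [hJ]
    exact Ideal.mem_map_of_mem _ ht
  rw [IsLocalization.mem_map_algebraMap_iff (Submonoid.powers y₁)] at h1
  obtain ⟨⟨⟨b, hb⟩, ⟨m, hm⟩⟩, hbm⟩ := h1
  simp only at hbm
  have h2 : algebraMap R₀ R₀₁ t ∈ nonZeroDivisors R₀₁ :=
    IsLocalization.map_nonZeroDivisors_le (Submonoid.powers x₀) R₀₁
      (Submonoid.mem_map_of_mem _ htr)
  have h3 : algebraMap R₁ R₀₁ m ∈ nonZeroDivisors R₀₁ :=
    (IsLocalization.map_units R₀₁ (⟨m, hm⟩ : Submonoid.powers y₁)).mem_nonZeroDivisors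
  have h4 : algebraMap R₁ R₀₁ b ∈ nonZeroDivisors R₀₁ := by
    rw [← hbm]
    exact mul_mem h2 h3
  refine ⟨b, hb, ?_, h4⟩
  rw [mem_nonZeroDivisors_iff_right]
  intro c hc
  apply hinj
  rw [map_zero]
  apply (mem_nonZeroDivisors_iff_right.1 h4)
  rw [← map_mul, hc, map_zero]

/-- **PT-ISO, gluing-datum form.** Two gluing data with sections of the `n`-th twist which
generate modulo `y₁` and have the same divisor `J` on the first chart are isomorphic. -/
theorem isIso_of_sections (x₀ : R₀) (y₁ : R₁) [IsLocalization.Away x₀ R₀₁]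
    [IsLocalization.Away y₁ R₀₁]
    (hxy : algebraMap R₀ R₀₁ x₀ * algebraMap R₁ R₀₁ y₁ = 1)
    (hinj : Function.Injective (algebraMap R₁ R₀₁))
    (G G' : GlueDatum A R₀ R₁ R₀₁) (n : ℕ) (J : Ideal R₀) (t : R₀) (ht : t ∈ J)
    (htr : t ∈ nonZeroDivisors R₀)
    (s₀ : G.N₀) (s₁ : G.N₁) (s₀' : G'.N₀) (s₁' : G'.N₁)
    (hs : G.r₀ s₀ = (algebraMap R₀ R₀₁ x₀) ^ n • G.r₁ s₁)
    (hs' : G'.r₀ s₀' = (algebraMap R₀ R₀₁ x₀) ^ n • G'.r₁ s₁')
    (hspan : Submodule.span R₀ {s₀} = J • (⊤ : Submodule R₀ G.N₀))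
    (hspan' : Submodule.span R₀ {s₀'} = J • (⊤ : Submodule R₀ G'.N₀))
    (hgen : ∀ c : G.N₁, ∃ r : R₁, c - r • s₁ ∈ (Ideal.span {y₁} • ⊤ : Submodule R₁ G.N₁))
    (hgen' : ∀ c : G'.N₁, ∃ r : R₁, c - r • s₁' ∈ (Ideal.span {y₁} • ⊤ : Submodule R₁ G'.N₁)) :
    G.IsIso G' := by
  haveI := G.invertible₀
  haveI := G.invertible₁
  haveI := G'.invertible₀
  haveI := G'.invertible₁
  haveI := glue_invertible₀₁ G
  haveI := glue_invertible₀₁ G'
  -- first chart
  have htf₀ : ∀ r : R₀, r • s₀ = 0 → r = 0 := fun r hr =>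
    smul_eq_zero_of_span_eq ht htr hspan hr
  have htf₀' : ∀ r : R₀, r • s₀' = 0 → r = 0 := fun r hr =>
    smul_eq_zero_of_span_eq ht htr hspan' hr
  have hreg₀ : IsSMulRegular G.N₀ t := Module.Flat.isSMulRegular_of_nonZeroDivisors htr
  have hreg₀' : IsSMulRegular G'.N₀ t := Module.Flat.isSMulRegular_of_nonZeroDivisors htr
  obtain ⟨e₀, he₀⟩ := exists_equiv_of_span_eq J t ht s₀ s₀' hspan hspan' hreg₀ hreg₀' htf₀ htf₀'
  -- the intersection
  let f01 : G.N₀₁ →ₗ[R₀₁] G'.N₀₁ := G.isBaseChange₀.lift (G'.r₀ ∘ₗ e₀.toLinearMap)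
  let g01 : G'.N₀₁ →ₗ[R₀₁] G.N₀₁ := G'.isBaseChange₀.lift (G.r₀ ∘ₗ e₀.symm.toLinearMap)
  have hf01 : ∀ m, f01 (G.r₀ m) = G'.r₀ (e₀ m) := fun m => G.isBaseChange₀.lift_eq _ m
  have hg01 : ∀ m, g01 (G'.r₀ m) = G.r₀ (e₀.symm m) := fun m => G'.isBaseChange₀.lift_eq _ m
  have hfg : f01 ∘ₗ g01 = LinearMap.id := by
    apply G'.isBaseChange₀.algHom_ext
    intro m
    simp only [LinearMap.comp_apply, LinearMap.id_apply]
    rw [hg01, hf01, LinearEquiv.apply_symm_apply]
  have hgf : g01 ∘ₗ f01 = LinearMap.id := by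
    apply G.isBaseChange₀.algHom_ext
    intro m
    simp only [LinearMap.comp_apply, LinearMap.id_apply]
    rw [hf01, hg01, LinearEquiv.symm_apply_apply]
  let e₀₁ : G.N₀₁ ≃ₗ[R₀₁] G'.N₀₁ := LinearEquiv.ofLinearMap f01 g01 hfg hgf
  have he₀₁ : ∀ m, e₀₁ (G.r₀ m) = G'.r₀ (e₀ m) := hf01
  -- second chart
  obtain ⟨⟨u, hu, huc⟩, hJ₁⟩ := secIdeal_chart₁ x₀ y₁ hxy G n J s₀ s₁ hs hspan hgen
  obtain ⟨⟨u', hu', huc'⟩, hJ₁'⟩ := secIdeal_chart₁ x₀ y₁ hxy G' n J s₀' s₁' hs' hspan' hgen'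
  have hJJ : secIdeal (R := R₁) s₁' = secIdeal (R := R₁) s₁ :=
    ideal_eq_of_map_eq_of_isCoprime (S := R₀₁) y₁ hu' hu huc' huc (hJ₁'.trans hJ₁.symm)
  have hsp₁ : Submodule.span R₁ {s₁} = secIdeal (R := R₁) s₁ • (⊤ : Submodule R₁ G.N₁) :=
    (secIdeal_smul_top s₁).symm
  have hsp₁' : Submodule.span R₁ {s₁'} = secIdeal (R := R₁) s₁ • (⊤ : Submodule R₁ G'.N₁) := by
    rw [← hJJ]
    exact (secIdeal_smul_top s₁').symm
  obtain ⟨t₁, ht₁, ht₁r, ht₁r'⟩ :=
    exists_nonZeroDivisor_chart₁ x₀ y₁ hinj J (secIdeal (R := R₁) s₁) hJ₁ ht htr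
  have htf₁ : ∀ r : R₁, r • s₁ = 0 → r = 0 := fun r hr =>
    smul_eq_zero_of_span_eq ht₁ ht₁r hsp₁ hr
  have htf₁' : ∀ r : R₁, r • s₁' = 0 → r = 0 := fun r hr =>
    smul_eq_zero_of_span_eq ht₁ ht₁r hsp₁' hr
  have hreg₁ : IsSMulRegular G.N₁ t₁ := Module.Flat.isSMulRegular_of_nonZeroDivisors ht₁r
  have hreg₁' : IsSMulRegular G'.N₁ t₁ := Module.Flat.isSMulRegular_of_nonZeroDivisors ht₁r
  obtain ⟨e₁, he₁⟩ := exists_equiv_of_span_eq (secIdeal (R := R₁) s₁) t₁ ht₁ s₁ s₁' hsp₁ hsp₁'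
    hreg₁ hreg₁' htf₁ htf₁'
  -- compatibility on the second chart
  have hyx : (algebraMap R₁ R₀₁ y₁) ^ n * (algebraMap R₀ R₀₁ x₀) ^ n = 1 := by
    rw [← mul_pow, mul_comm, hxy, one_pow]
  have hr₁ : ∀ (H : GlueDatum A R₀ R₁ R₀₁) (a : H.N₀) (b : H.N₁),
      H.r₀ a = (algebraMap R₀ R₀₁ x₀) ^ n • H.r₁ b →
        H.r₁ b = (algebraMap R₁ R₀₁ y₁) ^ n • H.r₀ a := by
    intro H a b hab
    rw [hab, ← mul_smul, hyx, one_smul]
  have hcomm_s : e₀₁ (G.r₁ s₁) = G'.r₁ s₁' := by
    rw [hr₁ G s₀ s₁ hs, map_smul, he₀₁, he₀, ← hr₁ G' s₀' s₁' hs']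
  have hreg₀₁ : IsSMulRegular G'.N₀₁ (algebraMap R₁ R₀₁ t₁) :=
    Module.Flat.isSMulRegular_of_nonZeroDivisors ht₁r'
  have hcomm : ∀ m, e₀₁ (G.r₁ m) = G'.r₁ (e₁ m) := by
    intro m
    have h1 : t₁ • m ∈ Submodule.span R₁ {s₁} := by
      rw [hsp₁]
      exact Submodule.smul_mem_smul ht₁ trivial
    obtain ⟨c, hc⟩ := Submodule.mem_span_singleton.1 h1
    apply hreg₀₁
    change algebraMap R₁ R₀₁ t₁ • e₀₁ (G.r₁ m) = algebraMap R₁ R₀₁ t₁ • G'.r₁ (e₁ m)
    have hL : algebraMap R₁ R₀₁ t₁ • e₀₁ (G.r₁ m) = algebraMap R₁ R₀₁ c • G'.r₁ s₁' := by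
      rw [← map_smul e₀₁ (algebraMap R₁ R₀₁ t₁), algebraMap_smul, ← map_smul G.r₁ t₁ m, ← hc,
        map_smul G.r₁ c s₁, ← algebraMap_smul R₀₁ c (G.r₁ s₁), map_smul e₀₁, hcomm_s]
    have hR : algebraMap R₁ R₀₁ t₁ • G'.r₁ (e₁ m) = algebraMap R₁ R₀₁ c • G'.r₁ s₁' := by
      rw [algebraMap_smul, ← map_smul G'.r₁ t₁, ← map_smul e₁ t₁ m, ← hc, map_smul e₁ c s₁, he₁,
        map_smul G'.r₁ c s₁', algebraMap_smul]
    rw [hL, hR]
  exact ⟨⟨e₀, e₁, e₀₁, he₀₁, hcomm⟩⟩

end Glue

end Fermat.Agent.S25.H851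

end
-- ===== PACK-END S25/H851/ACIsoGlue.lean

-- ===== PACK-BEGIN S26/Top.lean
section


/-!
# Row S26: the statement from the two top blocks (formal)
-/

set_option autoImplicit false
universe u

open CategoryTheory CategoryTheory.Limits AlgebraicGeometry NeronModelInfra GoodReductionJacobian

namespace Fermat.Agent.S26

/-- S26 from `Stmt.Soft` and `Stmt.Deg`. -/
theorem result_of_blocks (K : Type u) [Field K] [IsAlgClosed K]
    (hSoft : Stmt.Soft K) (hDeg : Stmt.Deg K)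
    {A : Scheme.{u}} (f : A ⟶ Spec (CommRingCat.of K))
    (L : RelativeGroupLaw K f) (hc : L.IsCommutative) (hA : AbelianSchemePropertyBundle K f)
    (g : ℕ) [hg : SmoothOfRelativeDimension g f] (n : ℕ) (hn : (n : K) ≠ 0) :
    Nat.card {x : SchemeHomOver (𝟙 (Spec (CommRingCat.of K))) f //
        L.IsTorsionPoint (𝟙 (Spec (CommRingCat.of K))) n x} = n ^ (2 * g) := by
  let X : AbVar K := ⟨A, f, L, hc, hA, g, hg⟩
  obtain ⟨hfin, het, hcount⟩ := hSoft X n hn
  obtain ⟨a, ha⟩ := hDeg X n hn hfin het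
  exact (hcount a).trans ha

end Fermat.Agent.S26

end
-- ===== PACK-END S26/Top.lean

-- ===== PACK-BEGIN S26/H605/Loc.lean
section




/-!
# Row S26, block PIC, leaf P5 (helper605): restriction, pull-back and gluing of functions

Ring-level versions `rr` (restriction) and `pl` (pull-back) of `Pic.res`, `Pic.pull`, with the
sheaf axioms in the form used by the twisted-section calculus of `Twist.lean`.
-/

set_option autoImplicit false

open AlgebraicGeometry CategoryTheory TopologicalSpace Opposite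

universe u

namespace Fermat.Agent.S26.H605

noncomputable section

variable {X Y Z : Scheme.{u}}

/-- Restriction of functions. -/
def rr {U V : X.Opens} (h : V ≤ U) : Γ(X, U) →+* Γ(X, V) :=
  (X.presheaf.map (homOfLE h).op).hom

/-- Pull-back of functions along `f`, to an open contained in the preimage. -/
def pl (f : X ⟶ Y) {U : Y.Opens} {V : X.Opens} (e : V ≤ f ⁻¹ᵁ U) : Γ(Y, U) →+* Γ(X, V) :=
  (f.appLE U V e).hom

lemma rr_rr {U V W : X.Opens} (h : V ≤ U) (h' : W ≤ V) (a : Γ(X, U)) :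
    rr h' (rr h a) = rr (h'.trans h) a := by
  simp only [rr]
  rw [← CommRingCat.comp_apply, ← Functor.map_comp]
  rfl

lemma rr_self {U : X.Opens} (h : U ≤ U) (a : Γ(X, U)) : rr h a = a := by
  simp only [rr]
  have : (homOfLE h).op = 𝟙 (op U) := rfl
  rw [this, X.presheaf.map_id]
  rfl

lemma pl_rr (f : X ⟶ Y) {U U' : Y.Opens} {V : X.Opens} (h : U' ≤ U) (e : V ≤ f ⁻¹ᵁ U')
    (a : Γ(Y, U)) :
    pl f e (rr h a) = pl f (e.trans (f.preimage_mono h)) a := by
  simp only [pl, rr]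
  rw [← CommRingCat.comp_apply, Scheme.Hom.map_appLE]

lemma rr_pl (f : X ⟶ Y) {U : Y.Opens} {V V' : X.Opens} (e : V ≤ f ⁻¹ᵁ U) (h : V' ≤ V)
    (a : Γ(Y, U)) :
    rr h (pl f e a) = pl f (h.trans e) a := by
  simp only [pl, rr]
  rw [← CommRingCat.comp_apply, Scheme.Hom.appLE_map]

lemma pl_pl (f : X ⟶ Y) (g : Y ⟶ Z) {U : Z.Opens} {V : Y.Opens} {W : X.Opens}
    (e₁ : V ≤ g ⁻¹ᵁ U) (e₂ : W ≤ f ⁻¹ᵁ V) (a : Γ(Z, U)) :
    pl f e₂ (pl g e₁ a) = pl (f ≫ g) (e₂.trans (f.preimage_mono e₁)) a := by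
  simp only [pl]
  rw [← CommRingCat.comp_apply, Scheme.Hom.appLE_comp_appLE]

lemma le_preimage_top (f : X ⟶ Y) (W : X.Opens) : W ≤ f ⁻¹ᵁ (⊤ : Y.Opens) :=
  fun _ _ => trivial

lemma pl_congr {f f' : X ⟶ Y} (hf : f = f') {U : Y.Opens} {V : X.Opens} (e : V ≤ f ⁻¹ᵁ U)
    (a : Γ(Y, U)) : pl f e a = pl f' (hf ▸ e) a := by
  subst hf; rfl

@[simp] lemma coe_res {U V : X.Opens} (h : V ≤ U) (a : Γ(X, U)ˣ) :
    ((Pic.res h a : Γ(X, V)ˣ) : Γ(X, V)) = rr h (a : Γ(X, U)) := rfl

@[simp] lemma coe_pull (f : X ⟶ Y) {U : Y.Opens} {V : X.Opens} (e : V ≤ f ⁻¹ᵁ U)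
    (a : Γ(Y, U)ˣ) :
    ((Pic.pull f e a : Γ(X, V)ˣ) : Γ(X, V)) = pl f e (a : Γ(Y, U)) := rfl

/-! ## The sheaf axioms -/

/-- Locality: two functions on `U` agreeing on the members of a cover of `U` are equal. -/
lemma ext_of_cover {ι : Type u} {U : X.Opens} (V : ι → X.Opens) (hV : ∀ i, V i ≤ U)
    (hcov : U ≤ ⨆ i, V i) (s t : Γ(X, U)) (h : ∀ i, rr (hV i) s = rr (hV i) t) : s = t :=
  X.sheaf.eq_of_locally_eq' V U (fun i => homOfLE (hV i)) hcov s t h

/-- Gluing: compatible functions on the members of a cover of `U` glue. -/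
lemma exists_glue {ι : Type u} {U : X.Opens} (V : ι → X.Opens) (hV : ∀ i, V i ≤ U)
    (hcov : U ≤ ⨆ i, V i) (sf : ∀ i, Γ(X, V i))
    (hcompat : ∀ i j, rr (inf_le_left : V i ⊓ V j ≤ V i) (sf i) =
      rr (inf_le_right : V i ⊓ V j ≤ V j) (sf j)) :
    ∃ s : Γ(X, U), ∀ i, rr (hV i) s = sf i := by
  obtain ⟨s, hs, -⟩ := X.sheaf.existsUnique_gluing' V U (fun i => homOfLE (hV i)) hcov sf
    (fun i j => hcompat i j)
  exact ⟨s, hs⟩

/-- A function is a unit iff it vanishes nowhere. -/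
lemma isUnit_iff_basicOpen {U : X.Opens} (s : Γ(X, U)) : IsUnit s ↔ X.basicOpen s = U := by
  refine ⟨fun h => X.basicOpen_of_isUnit h, fun h => ?_⟩
  refine RingedSpace.isUnit_of_isUnit_germ (X := X.toLocallyRingedSpace.toRingedSpace) U s
    fun x hx => ?_
  have hx' : x ∈ X.basicOpen s := by rw [h]; exact hx
  exact (X.mem_basicOpen s x hx).mp hx'

lemma basicOpen_rr {U V : X.Opens} (h : V ≤ U) (s : Γ(X, U)) :
    X.basicOpen (rr h s) = V ⊓ X.basicOpen s :=
  X.basicOpen_res s (homOfLE h).op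

lemma basicOpen_pl (f : X ⟶ Y) {U : Y.Opens} {V : X.Opens} (e : V ≤ f ⁻¹ᵁ U) (s : Γ(Y, U)) :
    X.basicOpen (pl f e s) = V ⊓ f ⁻¹ᵁ (Y.basicOpen s) :=
  Scheme.basicOpen_appLE f V U e s

/-- Units are local. -/
lemma isUnit_of_cover {ι : Type u} {U : X.Opens} (V : ι → X.Opens) (hV : ∀ i, V i ≤ U)
    (hcov : U ≤ ⨆ i, V i) (s : Γ(X, U)) (h : ∀ i, IsUnit (rr (hV i) s)) : IsUnit s := by
  rw [isUnit_iff_basicOpen]
  refine le_antisymm (X.basicOpen_le s) fun x hx => ?_
  obtain ⟨i, hi⟩ := Opens.mem_iSup.mp (hcov hx)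
  have := (isUnit_iff_basicOpen _).mp (h i)
  rw [basicOpen_rr] at this
  have hx' : x ∈ V i ⊓ X.basicOpen s := this.ge hi
  exact hx'.2

end

end Fermat.Agent.S26.H605

end
-- ===== PACK-END S26/H605/Loc.lean

-- ===== PACK-BEGIN S26/H605/FlatKerPi.lean
section



/-!
# Row S26, block PIC, leaf P5 (helper605): flat base change of a twisted Čech kernel

Pure algebra.  `A → R'` flat; finitely many `A`-algebras `B t` with "base changes" `B' t`
(`R' ⊗ B t → B' t` onto), overlaps `C tt` with `R' ⊗ C tt → C' tt` injective, restriction maps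
and transition elements `g tt`.  Every twisted-compatible family in `∏ B' t` is an `R'`-linear
combination of images of twisted-compatible families in `∏ B t`.
-/

set_option autoImplicit false

open TensorProduct

namespace Fermat.Agent.S26.H605

section mulHom

variable {A R' B B' : Type*} [CommRing A] [CommRing R'] [CommRing B] [CommRing B']
  [Algebra A R'] [Algebra A B]

/-- The additive map `R' ⊗[A] B → B'`, `c ⊗ b ↦ q c * π b`. -/
noncomputable def mulHom (q : R' →+* B') (π : B →+* B')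
    (h : ∀ a, q (algebraMap A R' a) = π (algebraMap A B a)) : R' ⊗[A] B →+ B' :=
  TensorProduct.liftAddHom
    (AddMonoidHom.mk' (fun c => (AddMonoidHom.mulLeft (q c)).comp π.toAddMonoidHom)
      (fun c c' => by
        ext b
        simp only [AddMonoidHom.coe_comp, Function.comp_apply, AddMonoidHom.coe_mulLeft,
          AddMonoidHom.add_apply, map_add, add_mul]))
    (fun r c b => by
      simp only [AddMonoidHom.mk'_apply, AddMonoidHom.coe_comp, Function.comp_apply,
        AddMonoidHom.coe_mulLeft, RingHom.toAddMonoidHom_eq_coe, AddMonoidHom.coe_coe,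
        Algebra.smul_def, map_mul, h]
      ring)

@[simp] lemma mulHom_tmul (q : R' →+* B') (π : B →+* B')
    (h : ∀ a, q (algebraMap A R' a) = π (algebraMap A B a)) (c : R') (b : B) :
    mulHom q π h (c ⊗ₜ[A] b) = q c * π b := by
  simp [mulHom]

end mulHom

section Pi

variable {A R' : Type*} [CommRing A] [CommRing R'] [Algebra A R'] [Module.Flat A R']
  {T : Type*} [Fintype T] [DecidableEq T]
  {B B' : T → Type*} [∀ t, CommRing (B t)] [∀ t, CommRing (B' t)] [∀ t, Algebra A (B t)]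
  {C C' : T × T → Type*} [∀ tt, CommRing (C tt)] [∀ tt, CommRing (C' tt)]
  [∀ tt, Algebra A (C tt)]
  (qB : ∀ t, R' →+* B' t) (πB : ∀ t, B t →+* B' t)
  (hB : ∀ t a, qB t (algebraMap A R' a) = πB t (algebraMap A (B t) a))
  (qC : ∀ tt, R' →+* C' tt) (πC : ∀ tt, C tt →+* C' tt)
  (hC : ∀ tt a, qC tt (algebraMap A R' a) = πC tt (algebraMap A (C tt) a))
  (r₁ : ∀ tt : T × T, B tt.1 →ₐ[A] C tt) (r₂ : ∀ tt : T × T, B tt.2 →ₐ[A] C tt)
  (r₁' : ∀ tt : T × T, B' tt.1 →+* C' tt) (r₂' : ∀ tt : T × T, B' tt.2 →+* C' tt)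
  (h₁π : ∀ tt b, r₁' tt (πB tt.1 b) = πC tt (r₁ tt b))
  (h₂π : ∀ tt b, r₂' tt (πB tt.2 b) = πC tt (r₂ tt b))
  (h₁q : ∀ tt c, r₁' tt (qB tt.1 c) = qC tt c)
  (h₂q : ∀ tt c, r₂' tt (qB tt.2 c) = qC tt c)
  (g : ∀ tt, C tt)

include hB hC h₁π h₂π h₁q h₂q in
theorem exists_sum_twisted_of_flat
    (hsurj : ∀ t, Function.Surjective (mulHom (qB t) (πB t) (hB t)))
    (hinj : ∀ tt, Function.Injective (mulHom (qC tt) (πC tt) (hC tt)))
    (e' : ∀ t, B' t)
    (he' : ∀ tt : T × T, r₁' tt (e' tt.1) = πC tt (g tt) * r₂' tt (e' tt.2)) :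
    ∃ S : Finset (R' × (∀ t, B t)),
      (∀ i ∈ S, ∀ tt : T × T, r₁ tt (i.2 tt.1) = g tt * r₂ tt (i.2 tt.2)) ∧
      ∀ t, e' t = ∑ i ∈ S, qB t i.1 * πB t (i.2 t) := by
  classical
  -- the Čech differential on `Y`
  let φ : (∀ t, B t) →ₗ[A] (∀ tt : T × T, C tt) :=
    { toFun := fun m tt => r₁ tt (m tt.1) - g tt * r₂ tt (m tt.2)
      map_add' := fun m m' => by
        ext tt
        simp only [Pi.add_apply, map_add]
        ring
      map_smul' := fun a m => by
        ext tt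
        simp only [Pi.smul_apply, RingHom.id_apply, Algebra.smul_def, map_mul, AlgHom.commutes]
        ring }
  -- the Čech differential on `Y'`
  let φ' : (∀ t, B' t) →+ (∀ tt : T × T, C' tt) :=
    AddMonoidHom.mk' (fun m tt => r₁' tt (m tt.1) - πC tt (g tt) * r₂' tt (m tt.2))
      (fun m m' => by
        ext tt
        simp only [Pi.add_apply, map_add]
        ring)
  let βt : R' ⊗[A] (∀ t, B t) →+ (∀ t, B' t) :=
    AddMonoidHom.mk' (fun z t => mulHom (qB t) (πB t) (hB t)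
      (TensorProduct.piRight A A R' B z t))
      (fun z z' => by
        ext t
        simp only [map_add, Pi.add_apply])
  let γt : R' ⊗[A] (∀ tt : T × T, C tt) →+ (∀ tt : T × T, C' tt) :=
    AddMonoidHom.mk' (fun z tt => mulHom (qC tt) (πC tt) (hC tt)
      (TensorProduct.piRight A A R' C z tt))
      (fun z z' => by
        ext tt
        simp only [map_add, Pi.add_apply])
  have hβt : ∀ (c : R') (m : ∀ t, B t) (t : T), βt (c ⊗ₜ[A] m) t = qB t c * πB t (m t) := by
    intro c m t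
    simp only [βt, AddMonoidHom.mk'_apply, TensorProduct.piRight_apply,
      TensorProduct.piRightHom_tmul, mulHom_tmul]
  have hγt : ∀ (c : R') (m : ∀ tt : T × T, C tt) (tt : T × T),
      γt (c ⊗ₜ[A] m) tt = qC tt c * πC tt (m tt) := by
    intro c m tt
    simp only [γt, AddMonoidHom.mk'_apply, TensorProduct.piRight_apply,
      TensorProduct.piRightHom_tmul, mulHom_tmul]
  have hcomm : ∀ z, φ' (βt z) = γt (φ.lTensor R' z) := by
    intro z
    induction z using TensorProduct.induction_on with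
    | zero => simp only [map_zero]
    | add z z' hz hz' => simp only [map_add, hz, hz']
    | tmul c m =>
      ext tt
      rw [LinearMap.lTensor_tmul, hγt]
      simp only [φ', AddMonoidHom.mk'_apply, hβt, map_mul, h₁π, h₂π, h₁q, h₂q, φ,
        LinearMap.coe_mk, AddHom.coe_mk, map_sub]
      ring
  have hβ : Function.Surjective βt := by
    intro p'
    choose z hz using fun t => hsurj t (p' t)
    refine ⟨(TensorProduct.piRight A A R' B).symm z, ?_⟩
    ext t
    simp only [βt, AddMonoidHom.mk'_apply, LinearEquiv.apply_symm_apply, hz]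
  have hγ : Function.Injective γt := by
    intro z z' h
    apply (TensorProduct.piRight A A R' C).injective
    ext tt
    apply hinj tt
    exact congrFun h tt
  have hp' : φ' e' = 0 := by
    ext tt
    simp only [φ', AddMonoidHom.mk'_apply, Pi.zero_apply, he' tt, sub_self]
  obtain ⟨S, hS⟩ := exists_sum_ker_of_flat φ βt γt φ' hcomm hβ hγ e' hp'
  refine ⟨S.image (fun i => (i.1, (i.2 : ∀ t, B t))), ?_, ?_⟩
  · intro i hi tt
    obtain ⟨j, -, rfl⟩ := Finset.mem_image.mp hi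
    have := congrFun (LinearMap.mem_ker.mp j.2.2) tt
    simp only [φ, LinearMap.coe_mk, AddHom.coe_mk, Pi.zero_apply, sub_eq_zero] at this
    exact this
  · intro t
    rw [Finset.sum_image]
    · rw [hS]
      simp only [Finset.sum_apply, hβt]
    · intro i _ j _ hij
      simp only [Prod.mk.injEq] at hij
      exact Prod.ext hij.1 (Subtype.ext hij.2)

end Pi

end Fermat.Agent.S26.H605

end
-- ===== PACK-END S26/H605/FlatKerPi.lean

-- ===== PACK-BEGIN S26/H507/C4bParts.lean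
section
/-
Row S26, block CUBE, leaf C4b (helper507): parts of the assembly.

* **G** `exists_kpoint_lift`: over an algebraically closed field, `K`-points lift along finite
  surjective morphisms of `K`-schemes.
* **T3** `integralClosure_curve`: for a finitely generated domain `A` over a perfect field `K`
  and a field `L`, algebraic over `A`, essentially of finite type over `K`, of transcendence
  degree one, the integral closure of `A` in `L` is a Dedekind domain, not a field, finite over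
  `A` and of finite type over `K`.  (So T2 applies to every chart of the normalisation.)
-/




set_option autoImplicit false
universe u

open Polynomial

namespace Fermat.Agent.S26.H507

section T3

variable (K : Type u) [Field K]
  (A : Type u) [CommRing A] [IsDomain A] [Algebra K A] [Algebra.FiniteType K A]
  (L : Type u) [Field L] [Algebra A L] [Module.IsTorsionFree A L]
  [Algebra K L] [IsScalarTower K A L]

omit [Algebra.FiniteType K A] in
/-- Noether normalisation of a curve has one variable. -/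
theorem eq_one_of_trdeg_eq_one (hL : Algebra.IsAlgebraic A L) (htr : Algebra.trdeg K L = 1)
    (s : ℕ) (g : MvPolynomial (Fin s) K →ₐ[K] A) (hg : Function.Injective g)
    (hint : g.IsIntegral) : s = 1 := by
  letI : Algebra (MvPolynomial (Fin s) K) A := g.toRingHom.toAlgebra
  have : IsScalarTower K (MvPolynomial (Fin s) K) A :=
    IsScalarTower.of_algebraMap_eq fun c => (g.commutes c).symm
  letI : Algebra (MvPolynomial (Fin s) K) L :=
    ((algebraMap A L).comp g.toRingHom).toAlgebra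
  have : IsScalarTower (MvPolynomial (Fin s) K) A L := IsScalarTower.of_algebraMap_eq fun _ => rfl
  have : IsScalarTower K (MvPolynomial (Fin s) K) L := IsScalarTower.of_algebraMap_eq fun c => by
    rw [IsScalarTower.algebraMap_apply K A L, IsScalarTower.algebraMap_apply K
      (MvPolynomial (Fin s) K) A, IsScalarTower.algebraMap_apply (MvPolynomial (Fin s) K) A L]
  have hAL : Function.Injective (algebraMap A L) :=
    Module.isTorsionFree_iff_algebraMap_injective.1 inferInstance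
  have hinj : Function.Injective (algebraMap (MvPolynomial (Fin s) K) L) := hAL.comp hg
  have : FaithfulSMul (MvPolynomial (Fin s) K) L := (faithfulSMul_iff_algebraMap_injective _ _).2 hinj
  have : Algebra.IsIntegral (MvPolynomial (Fin s) K) A := ⟨hint⟩
  have : Algebra.IsAlgebraic (MvPolynomial (Fin s) K) L :=
    Algebra.IsIntegral.trans_isAlgebraic (MvPolynomial (Fin s) K) A L
  have h1 := trdeg_add_eq K (MvPolynomial (Fin s) K) (A := L)
  rw [trdeg_eq_zero (R := MvPolynomial (Fin s) K) (A := L), add_zero, htr,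
    MvPolynomial.trdeg_of_isDomain] at h1
  simpa using h1

/-- **T3.** The integral closure of a curve chart in (a finite extension of) its function field
is a Dedekind domain, not a field, finite over the chart, of finite type over `K`. -/
theorem integralClosure_curve [PerfectField K] (hL : Algebra.IsAlgebraic A L)
    (hfg : Algebra.EssFiniteType K L) (htr : Algebra.trdeg K L = 1) :
    IsDedekindDomain (integralClosure A L) ∧ ¬ IsField (integralClosure A L) ∧
      Module.Finite A (integralClosure A L) ∧ Algebra.FiniteType K (integralClosure A L) := by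
  have hfin : Module.Finite A (integralClosure A L) :=
    H626.finite_integralClosure K A L hL hfg
  have hAL : Function.Injective (algebraMap A L) :=
    Module.isTorsionFree_iff_algebraMap_injective.1 inferInstance
  obtain ⟨s, g, hg, hint⟩ := exists_integral_inj_algHom_of_fg K A
  have hs : s = 1 := eq_one_of_trdeg_eq_one K A L hL htr s g hg hint
  subst hs
  let e : MvPolynomial (Fin 1) K ≃ₐ[K] K[X] := MvPolynomial.uniqueAlgEquiv K (Fin 1)
  let h : K[X] →ₐ[K] A := g.comp e.symm.toAlgHom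
  have hh : Function.Injective h := hg.comp e.symm.injective
  have hhint : h.toRingHom.IsIntegral :=
    RingHom.IsIntegral.trans (e.symm : K[X] →+* MvPolynomial (Fin 1) K) g.toRingHom
      (RingHom.isIntegral_of_surjective _ e.symm.surjective) hint
  letI : Algebra K[X] A := h.toRingHom.toAlgebra
  letI : Algebra K[X] (integralClosure A L) :=
    ((algebraMap A (integralClosure A L)).comp h.toRingHom).toAlgebra
  have : IsScalarTower K[X] A (integralClosure A L) := IsScalarTower.of_algebraMap_eq fun _ => rfl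
  have : Algebra.IsIntegral K[X] A := ⟨hhint⟩
  have : Algebra.IsIntegral K[X] (integralClosure A L) :=
    Algebra.IsIntegral.trans (R := K[X]) A
  have hdim : Ring.DimensionLEOne (integralClosure A L) :=
    Ring.DimensionLEOne.of_isIntegral K[X] (integralClosure A L)
  have hnoeth : IsNoetherianRing A := Algebra.FiniteType.isNoetherianRing K A
  have hnoethB : IsNoetherianRing (integralClosure A L) :=
    IsNoetherianRing.of_finite A (integralClosure A L)
  have hfrac : IsFractionRing (integralClosure A L) L :=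
    integralClosure.isFractionRing_of_algebraic
      (fun x hx => hAL (by rw [hx, map_zero]))
  have hic : IsIntegrallyClosed (integralClosure A L) :=
    (isIntegrallyClosed_iff_isIntegrallyClosedIn L).2 inferInstance
  have hinjB : Function.Injective (algebraMap K[X] (integralClosure A L)) := by
    have h1 : Function.Injective (algebraMap A (integralClosure A L)) := by
      intro x y hxy
      apply hAL
      have := congrArg (algebraMap (integralClosure A L) L) hxy
      simpa [← IsScalarTower.algebraMap_apply] using this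
    exact h1.comp hh
  refine ⟨{ }, ?_, hfin, ?_⟩
  · intro hB
    exact Polynomial.not_isField K (isField_of_isIntegral_of_isField hinjB hB)
  · have : Algebra.FiniteType A (integralClosure A L) := inferInstance
    exact Algebra.FiniteType.trans (S := A) inferInstance inferInstance

end T3

section G

open CategoryTheory CategoryTheory.Limits AlgebraicGeometry NeronModelInfra


/-- A nonzero finite algebra over an algebraically closed field has a rational point. -/
theorem exists_retraction_of_finite {K E : Type u} [Field K] [IsAlgClosed K] [CommRing E]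
    [Nontrivial E] (ψ : K →+* E) (hψ : ψ.Finite) :
    ∃ φ : E →+* K, φ.comp ψ = RingHom.id K := by
  obtain ⟨m, hm⟩ := Ideal.exists_maximal E
  let _ : Field (E ⧸ m) := Ideal.Quotient.field m
  let θ : K →+* E ⧸ m := (Ideal.Quotient.mk m).comp ψ
  have hθ : θ.Finite := RingHom.Finite.comp
    (RingHom.Finite.of_surjective _ Ideal.Quotient.mk_surjective) hψ
  let _ : Algebra K (E ⧸ m) := θ.toAlgebra
  have : Module.Finite K (E ⧸ m) := hθ
  have hbij : Function.Bijective (algebraMap K (E ⧸ m)) :=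
    IsAlgClosed.algebraMap_bijective_of_isIntegral
  let e : K ≃+* E ⧸ m := RingEquiv.ofBijective θ hbij
  refine ⟨(e.symm : E ⧸ m →+* K).comp (Ideal.Quotient.mk m), ?_⟩
  ext c
  simp only [RingHom.coe_comp, RingHom.coe_coe, Function.comp_apply, RingHom.id_apply]
  exact e.symm_apply_apply c

variable {K : Type u} [Field K] [IsAlgClosed K]

/-- **G.** `K`-points lift along finite surjective morphisms (`K` algebraically closed). -/
theorem exists_kpoint_lift {C Γ : Scheme.{u}} (c : C ⟶ Spec (CommRingCat.of K))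
    (γ : Γ ⟶ Spec (CommRingCat.of K)) (ν : C ⟶ Γ) (hν : ν ≫ γ = c) [IsFinite ν]
    (hsurj : Function.Surjective ν)
    (x : SchemeHomOver (𝟙 (Spec (CommRingCat.of K))) γ) :
    ∃ y : SchemeHomOver (𝟙 (Spec (CommRingCat.of K))) c, y.1 ≫ ν = x.1 := by
  have : Surjective ν := ⟨hsurj⟩
  let Z := pullback ν x.1
  let f : Z ⟶ Spec (CommRingCat.of K) := pullback.snd ν x.1
  have hf : IsFinite f := inferInstance
  have hfs : Surjective f := inferInstance
  have hZ : IsAffine Z := isAffine_of_isAffineHom f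
  have hne : Nonempty Z := by
    obtain ⟨z, -⟩ := hfs.surj (default : Spec (CommRingCat.of K))
    exact ⟨z⟩
  have hne' : Nonempty (⊤ : Z.Opens) := ⟨⟨hne.some, trivial⟩⟩
  have : Nontrivial Γ(Z, ⊤) := @Scheme.component_nontrivial Z ⊤ hne'
  let ψ : CommRingCat.of K ⟶ Γ(Z, ⊤) := (Scheme.ΓSpecIso (CommRingCat.of K)).inv ≫ f.appTop
  have hψ : ψ.hom.Finite := by
    refine RingHom.Finite.comp f.finite_appTop (RingHom.Finite.of_surjective _ ?_)
    exact (ConcreteCategory.bijective_of_isIso (Scheme.ΓSpecIso (CommRingCat.of K)).inv).2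
  obtain ⟨φ, hφ⟩ := exists_retraction_of_finite ψ.hom hψ
  let φ' : Γ(Z, ⊤) ⟶ CommRingCat.of K := CommRingCat.ofHom φ
  have hφ' : ψ ≫ φ' = 𝟙 _ := by
    ext a
    exact congrArg (fun g : K →+* K => g a) hφ
  let s : Spec (CommRingCat.of K) ⟶ Z := Spec.map φ' ≫ Z.isoSpec.inv
  have hfact : f = Z.isoSpec.hom ≫ Spec.map ψ := by
    have h1 := Scheme.isoSpec_hom_naturality f
    rw [Scheme.isoSpec_Spec_hom] at h1
    rw [Spec.map_comp, ← Category.assoc, h1, Category.assoc, ← Spec.map_comp,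
      Iso.inv_hom_id, Spec.map_id, Category.comp_id]
  have hs : s ≫ f = 𝟙 _ := by
    rw [hfact]
    simp only [s, Category.assoc, Iso.inv_hom_id_assoc]
    rw [← Spec.map_comp, hφ', Spec.map_id]
  refine ⟨⟨s ≫ pullback.fst ν x.1, ?_⟩, ?_⟩
  · calc (s ≫ pullback.fst ν x.1) ≫ c
        = s ≫ (pullback.fst ν x.1 ≫ ν) ≫ γ := by rw [← hν]; simp only [Category.assoc]
      _ = s ≫ (pullback.snd ν x.1 ≫ x.1) ≫ γ := by rw [pullback.condition]
      _ = (s ≫ f) ≫ x.1 ≫ γ := by simp only [Category.assoc, f]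
      _ = 𝟙 _ := by rw [hs, x.2, Category.comp_id]
  · show (s ≫ pullback.fst ν x.1) ≫ ν = x.1
    rw [Category.assoc, pullback.condition, ← Category.assoc]
    rw [show s ≫ pullback.snd ν x.1 = 𝟙 _ from hs, Category.id_comp]

end G

end Fermat.Agent.S26.H507

end
-- ===== PACK-END S26/H507/C4bParts.lean

-- ===== PACK-BEGIN S26/H626/FormalChartSmooth.lean
section


/-!
# S26, leaf UFD, part U2 (helper626): the formal chart of the local ring of a smooth algebra
over an algebraically closed field at a maximal ideal.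
-/

set_option autoImplicit false
set_option linter.style.haveILetI false

universe u

open IsLocalRing

namespace Fermat.Agent.S26.H626

/-- The residue field of the local ring of a finite type algebra over an algebraically closed
field at a maximal ideal is the base field. -/
theorem bijective_algebraMap_residueField (K : Type u) [Field K] [IsAlgClosed K] (B : Type u)
    [CommRing B] [Algebra K B] [Algebra.FiniteType K B] (m : Ideal B) [m.IsMaximal] (R : Type u)
    [CommRing R] [Algebra B R] [IsLocalization.AtPrime R m] [IsLocalRing R] [Algebra K R]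
    [IsScalarTower K B R] :
    Function.Bijective (algebraMap K (ResidueField R)) := by
  have hsurj : Function.Surjective (algebraMap B (ResidueField R)) := by
    intro y
    obtain ⟨r, rfl⟩ := Ideal.Quotient.mk_surjective y
    obtain ⟨b, hb⟩ := Ideal.Quotient.mk_surjective
      ((IsLocalization.AtPrime.equivQuotMaximalIdeal m R).symm (Ideal.Quotient.mk _ r))
    refine ⟨b, ?_⟩
    have := congrArg (IsLocalization.AtPrime.equivQuotMaximalIdeal m R) hb
    rw [RingEquiv.apply_symm_apply, IsLocalization.AtPrime.equivQuotMaximalIdeal_apply_mk] at this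
    exact this
  haveI : Algebra.FiniteType K (ResidueField R) :=
    Algebra.FiniteType.of_surjective (IsScalarTower.toAlgHom K B (ResidueField R)) hsurj
  haveI : Module.Finite K (ResidueField R) := finite_of_finite_type_of_isJacobsonRing K _
  exact IsAlgClosed.algebraMap_bijective_of_isIntegral

/-- **U2** (statement of the skeleton of helper445, unbundled): the Taylor chart of the local
ring of a smooth algebra at a `K`-point. -/
theorem exists_formalChart_of_smooth (K : Type u) [Field K] [IsAlgClosed K] (B : Type u)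
    [CommRing B] [Algebra K B] [Algebra.Smooth K B] (m : Ideal B) [m.IsMaximal] (R : Type u)
    [CommRing R] [Algebra B R] [IsLocalization.AtPrime R m] :
    haveI : IsLocalRing R := IsLocalization.AtPrime.isLocalRing R m
    ∃ (g : ℕ) (τ : R →+* MvPowerSeries (Fin g) K),
      (∀ n : ℕ, (maximalIdeal (MvPowerSeries (Fin g) K) ^ n).comap τ = maximalIdeal R ^ n) ∧
        ∀ (n : ℕ) (s : MvPowerSeries (Fin g) K),
          ∃ r : R, s - τ r ∈ maximalIdeal (MvPowerSeries (Fin g) K) ^ n := by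
  haveI : IsLocalRing R := IsLocalization.AtPrime.isLocalRing R m
  letI : Algebra K R := ((algebraMap B R).comp (algebraMap K B)).toAlgebra
  haveI : IsScalarTower K B R := IsScalarTower.of_algebraMap_eq (fun _ => rfl)
  haveI : Algebra.FiniteType K B := inferInstance
  haveI : IsNoetherianRing B := Algebra.FiniteType.isNoetherianRing K B
  haveI : IsNoetherianRing R := IsLocalization.isNoetherianRing m.primeCompl R inferInstance
  haveI : Algebra.FormallySmooth B R := Algebra.FormallySmooth.of_isLocalization m.primeCompl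
  haveI : Algebra.FormallySmooth K R := Algebra.FormallySmooth.comp K B R
  have hres := bijective_algebraMap_residueField K B m R
  obtain ⟨τ, h1, h2⟩ := exists_formalChart_of_isLocalRing K R hres
  exact ⟨_, τ.toRingHom, h1, h2⟩

end Fermat.Agent.S26.H626

end
-- ===== PACK-END S26/H626/FormalChartSmooth.lean

-- ===== PACK-BEGIN S25/H327/PullbackComp.lean
section


/-!
# S25 / AS2 support (helper327): composition of `pullbackAlong`, algebra structures from morphisms
-/

set_option autoImplicit false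
set_option linter.style.haveILetI false
universe u
open CategoryTheory CategoryTheory.Limits AlgebraicGeometry AlgebraicGeometry.RelPicard
  NeronModelInfra GoodReductionJacobian

namespace Fermat.Agent.S25.H327

noncomputable section

variable {k : Type u} [Field k] {C : Scheme.{u}} {c : C ⟶ Spec (CommRingCat.of k)}
  {ε : SchemeHomOver (𝟙 (Spec (CommRingCat.of k))) c}

/-- Pulling back twice is pulling back along the composite (up to isomorphism of the underlying
line bundles). -/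
theorem rIso_pullbackAlong_comp {X X' T' : Scheme.{u}} {x : X ⟶ Spec (CommRingCat.of k)}
    {x' : X' ⟶ Spec (CommRingCat.of k)} {t' : T' ⟶ Spec (CommRingCat.of k)}
    (M : RigidifiedLineBundle c ε x') (φ : SchemeHomOver x x') (ψ : SchemeHomOver t' x) :
    RIso (M.pullbackAlong (postComp φ ψ)) ((M.pullbackAlong φ).pullbackAlong ψ) :=
  ⟨(Scheme.Modules.pullbackCongr (baseChangeSnd_comp c φ ψ).symm).app M.L ≪≫
    ((Scheme.Modules.pullbackComp _ _).app M.L).symm⟩

theorem rIso_refl {T : Scheme.{u}} {t : T ⟶ Spec (CommRingCat.of k)}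
    (M : RigidifiedLineBundle c ε t) : RIso M M := ⟨Iso.refl _⟩

theorem rIso_symm {T : Scheme.{u}} {t : T ⟶ Spec (CommRingCat.of k)}
    {M M' : RigidifiedLineBundle c ε t} (h : RIso M M') : RIso M' M := ⟨h.some.symm⟩

theorem rIso_trans {T : Scheme.{u}} {t : T ⟶ Spec (CommRingCat.of k)}
    {M M' M'' : RigidifiedLineBundle c ε t} (h : RIso M M') (h' : RIso M' M'') : RIso M M'' :=
  ⟨h.some ≪≫ h'.some⟩

theorem rIso_of_eq {T : Scheme.{u}} {t : T ⟶ Spec (CommRingCat.of k)}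
    (M : RigidifiedLineBundle c ε t) {T' : Scheme.{u}} {t' : T' ⟶ Spec (CommRingCat.of k)}
    {ψ ψ' : SchemeHomOver t' t} (h : ψ = ψ') :
    RIso (M.pullbackAlong ψ) (M.pullbackAlong ψ') := by
  subst h
  exact ⟨Iso.refl _⟩

end

end Fermat.Agent.S25.H327

end
-- ===== PACK-END S25/H327/PullbackComp.lean

-- ===== PACK-BEGIN S27/H358/SmoothDim.lean
section



/-!
# Row S27, block DIM, leaf D1 (subtask 626, helper358)

`f : J ⟶ Spec k` smooth (`k` a field), `J` connected, `z` a `k`-point of `J` whose cotangent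
space `𝔪_z/𝔪_z²` has dimension `g`.  Then `f` is smooth of relative dimension `g`.

* `localDim f x` : the rank of `Ω[O_{J,x}⁄k]` (the relative dimension at `x`).
* `localDim_eq_of_chart` : on a standard smooth chart of relative dimension `n`, `localDim = n`.
* `smoothOfRelativeDimension_of_localDim` : `J` connected, `localDim f z = g` ⇒
  `SmoothOfRelativeDimension g f`.
* `localDim_eq_finrank_cotangentSpace` : at a point with residue field `k`,
  `localDim f x = dim_κ 𝔪_x/𝔪_x²`.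
* `smoothOfRelativeDimension_of_finrank_cotangentSpace` : **D1**.
Mathlib only.
-/

set_option autoImplicit false
set_option linter.style.haveILetI false

universe u

open CategoryTheory AlgebraicGeometry TopologicalSpace Opposite IsLocalRing KaehlerDifferential

namespace Fermat.Agent.S27.H358

noncomputable section

variable {k : Type u} [Field k] {J : Scheme.{u}} (f : J ⟶ Spec (CommRingCat.of k))

/-- The structure map `k → O_{J,x}`. -/
def stalkStr (x : J) : k →+* J.presheaf.stalk x :=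
  ((Scheme.ΓSpecIso (CommRingCat.of k)).inv ≫ f.appTop ≫
    J.presheaf.germ ⊤ x (Opens.mem_top _)).hom

/-- The relative dimension of `f` at `x`: the rank of `Ω[O_{J,x}⁄k]`. -/
def localDim (x : J) : ℕ :=
  letI := (stalkStr f x).toAlgebra
  Module.finrank (J.presheaf.stalk x) Ω[J.presheaf.stalk x⁄k]

/-- Every nonempty open of `Spec k` is everything. -/
theorem opens_spec_eq_top (U : (Spec (CommRingCat.of k)).Opens)
    (y : Spec (CommRingCat.of k)) (hy : y ∈ U) : U = ⊤ := by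
  rw [eq_top_iff]
  intro z _
  have : z = y := Subsingleton.elim (α := PrimeSpectrum k) z y
  rw [this]
  exact hy

section Chart

variable {f} {x : J} {V : J.Opens}

/-- The `k`-algebra structure of a chart. -/
@[reducible] def chartAlgebra (e : V ≤ f ⁻¹ᵁ ⊤) : Algebra k Γ(J, V) :=
  ((f.appLE ⊤ V e).hom.comp (Scheme.ΓSpecIso (CommRingCat.of k)).inv.hom).toAlgebra

theorem chart_isScalarTower (hx : x ∈ V) (e : V ≤ f ⁻¹ᵁ ⊤) :
    @IsScalarTower k Γ(J, V) (J.presheaf.stalk x) (chartAlgebra e).toSMul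
      (TopCat.Presheaf.algebra_section_stalk J.presheaf ⟨x, hx⟩).toSMul
      (stalkStr f x).toAlgebra.toSMul := by
  letI := chartAlgebra e
  letI := (stalkStr f x).toAlgebra
  letI := TopCat.Presheaf.algebra_section_stalk J.presheaf ⟨x, hx⟩
  refine IsScalarTower.of_algebraMap_eq' ?_
  have h : f.appTop ≫ J.presheaf.germ ⊤ x (Opens.mem_top _) =
      f.appLE ⊤ V e ≫ J.presheaf.germ V x hx := by
    rw [Scheme.Hom.appLE, Category.assoc]
    erw [J.presheaf.germ_res]
    rfl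
  change stalkStr f x = _
  rw [stalkStr, h]
  rfl

/-- The local ring at a point of a standard smooth chart: `Ω` is free. -/
theorem free_kaehler_stalk_of_chart (hV : IsAffineOpen V) (hx : x ∈ V) (e : V ≤ f ⁻¹ᵁ ⊤)
    (h : (f.appLE ⊤ V e).hom.IsStandardSmooth) :
    letI := (stalkStr f x).toAlgebra
    Module.Free (J.presheaf.stalk x) Ω[J.presheaf.stalk x⁄k] := by
  letI algS : Algebra k (J.presheaf.stalk x) := (stalkStr f x).toAlgebra
  letI algB : Algebra k Γ(J, V) := chartAlgebra e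
  letI algBS : Algebra Γ(J, V) (J.presheaf.stalk x) :=
    TopCat.Presheaf.algebra_section_stalk J.presheaf ⟨x, hx⟩
  haveI : IsScalarTower k Γ(J, V) (J.presheaf.stalk x) := chart_isScalarTower hx e
  haveI : Algebra.IsStandardSmooth k Γ(J, V) :=
    RingHom.isStandardSmooth_respectsIso.2 (f.appLE ⊤ V e).hom
      (Scheme.ΓSpecIso (CommRingCat.of k)).symm.commRingCatIsoToRingEquiv h
  haveI := hV.isLocalization_stalk ⟨x, hx⟩
  haveI : Algebra.FormallyEtale Γ(J, V) (J.presheaf.stalk x) :=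
    Algebra.FormallyEtale.of_isLocalization (hV.primeIdealOf ⟨x, hx⟩).asIdeal.primeCompl
  exact free_kaehler_of_formallyEtale k Γ(J, V) (J.presheaf.stalk x)

/-- On a standard smooth chart of relative dimension `n`, the local dimension is `n`. -/
theorem localDim_eq_of_chart_top (hV : IsAffineOpen V) (hx : x ∈ V) (e : V ≤ f ⁻¹ᵁ ⊤) (n : ℕ)
    (h : (f.appLE ⊤ V e).hom.IsStandardSmoothOfRelativeDimension n) :
    localDim f x = n := by
  letI algS : Algebra k (J.presheaf.stalk x) := (stalkStr f x).toAlgebra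
  letI algB : Algebra k Γ(J, V) := chartAlgebra e
  letI algBS : Algebra Γ(J, V) (J.presheaf.stalk x) :=
    TopCat.Presheaf.algebra_section_stalk J.presheaf ⟨x, hx⟩
  haveI : IsScalarTower k Γ(J, V) (J.presheaf.stalk x) := chart_isScalarTower hx e
  haveI : Algebra.IsStandardSmoothOfRelativeDimension n k Γ(J, V) :=
    RingHom.isStandardSmoothOfRelativeDimension_respectsIso.2 (f.appLE ⊤ V e).hom
      (Scheme.ΓSpecIso (CommRingCat.of k)).symm.commRingCatIsoToRingEquiv h
  haveI := hV.isLocalization_stalk ⟨x, hx⟩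
  haveI : Algebra.FormallyEtale Γ(J, V) (J.presheaf.stalk x) :=
    Algebra.FormallyEtale.of_isLocalization (hV.primeIdealOf ⟨x, hx⟩).asIdeal.primeCompl
  exact finrank_kaehler_of_formallyEtale k Γ(J, V) (J.presheaf.stalk x) n

end Chart

/-- On a standard smooth chart of relative dimension `n`, the local dimension is `n`. -/
theorem localDim_eq_of_chart (x : J) (U : (Spec (CommRingCat.of k)).Opens) (V : J.Opens)
    (hV : IsAffineOpen V) (hx : x ∈ V) (e : V ≤ f ⁻¹ᵁ U) (n : ℕ)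
    (h : (f.appLE U V e).hom.IsStandardSmoothOfRelativeDimension n) : localDim f x = n := by
  obtain rfl : U = ⊤ := opens_spec_eq_top U (f x) (e hx)
  exact localDim_eq_of_chart_top hV hx e n h

/-- A smooth morphism has standard smooth charts of some relative dimension. -/
theorem exists_chart [Smooth f] (x : J) :
    ∃ (n : ℕ) (U : (Spec (CommRingCat.of k)).Opens) (_ : IsAffineOpen U) (V : J.Opens)
      (_ : IsAffineOpen V) (_ : x ∈ V) (e : V ≤ f ⁻¹ᵁ U),
      (f.appLE U V e).hom.IsStandardSmoothOfRelativeDimension n := by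
  obtain ⟨U, hU, V, hV, hx, e, h⟩ := Smooth.exists_isStandardSmooth f x
  letI := (f.appLE U V e).hom.toAlgebra
  obtain ⟨ι, σ, hσ, hι, ⟨P⟩⟩ := (h : Algebra.IsStandardSmooth _ _)
  exact ⟨P.dimension, U, hU, V, hV, hx, e, ⟨ι, σ, hσ, hι, P, rfl⟩⟩

/-- The local dimension of a smooth morphism is locally constant. -/
theorem isLocallyConstant_localDim [Smooth f] : IsLocallyConstant (localDim f) := by
  rw [IsLocallyConstant.iff_exists_open]
  intro x
  obtain ⟨n, U, hU, V, hV, hx, e, h⟩ := exists_chart f x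
  refine ⟨V, V.isOpen, hx, fun y hy => ?_⟩
  rw [localDim_eq_of_chart f y U V hV hy e n h, localDim_eq_of_chart f x U V hV hx e n h]

/-- **D1, local dimension form.**  A smooth morphism to `Spec k` with connected source whose
local dimension at one point is `g` is smooth of relative dimension `g`. -/
theorem smoothOfRelativeDimension_of_localDim [Smooth f] [PreconnectedSpace J] (z : J) (g : ℕ)
    (hz : localDim f z = g) : SmoothOfRelativeDimension g f := by
  have hconst : ∀ x, localDim f x = g := fun x => by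
    rw [← hz]
    exact (isLocallyConstant_localDim f).apply_eq_of_preconnectedSpace x z
  refine ⟨fun x => ?_⟩
  obtain ⟨n, U, hU, V, hV, hx, e, h⟩ := exists_chart f x
  have hn : n = g := by rw [← localDim_eq_of_chart f x U V hV hx e n h, hconst x]
  subst hn
  exact ⟨U, hU, V, hV, hx, e, h⟩

/-- Conversely, the local dimension of a morphism smooth of relative dimension `g` is `g`. -/
theorem localDim_eq_of_smoothOfRelativeDimension (g : ℕ) [SmoothOfRelativeDimension g f]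
    (x : J) : localDim f x = g := by
  obtain ⟨U, hU, V, hV, hx, e, h⟩ :=
    SmoothOfRelativeDimension.exists_isStandardSmoothOfRelativeDimension (n := g) (f := f) x
  exact localDim_eq_of_chart f x U V hV hx e g h

/-- At a point with residue field `k` the local dimension of a smooth morphism is the
dimension of the cotangent space `𝔪_x/𝔪_x²`. -/
theorem localDim_eq_finrank_cotangentSpace [Smooth f] (x : J)
    (hsurj : Function.Surjective ((residue (J.presheaf.stalk x)).comp (stalkStr f x))) :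
    localDim f x =
      Module.finrank (ResidueField (J.presheaf.stalk x)) (CotangentSpace (J.presheaf.stalk x)) := by
  letI algS : Algebra k (J.presheaf.stalk x) := (stalkStr f x).toAlgebra
  obtain ⟨U, hU, V, hV, hx, e, h⟩ := Smooth.exists_isStandardSmooth f x
  obtain rfl : U = ⊤ := opens_spec_eq_top U (f x) (e hx)
  haveI : Module.Free (J.presheaf.stalk x) Ω[J.presheaf.stalk x⁄k] :=
    free_kaehler_stalk_of_chart hV hx e h
  exact (finrank_cotangentSpace_eq_finrank_kaehler k (J.presheaf.stalk x) hsurj).symm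

section Rational

/-- A ring homomorphism from a local ring `R` to a nontrivial ring through which `k` surjects
shows that `k` surjects onto the residue field of `R`. -/
theorem surjective_residue_comp_of_retraction {R L : Type*} [CommRing R] [IsLocalRing R]
    [CommRing L] [Nontrivial L] (φ : k →+* R) (ρ : R →+* L)
    (h : Function.Surjective (ρ.comp φ)) : Function.Surjective ((residue R).comp φ) := by
  intro y
  obtain ⟨r, rfl⟩ := residue_surjective y
  obtain ⟨c, hc⟩ := h (ρ r)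
  refine ⟨c, ?_⟩
  have hker : r - φ c ∈ RingHom.ker ρ := by
    rw [RingHom.mem_ker, map_sub, sub_eq_zero]
    exact hc.symm
  have hne : RingHom.ker ρ ≠ ⊤ := RingHom.ker_ne_top ρ
  have hmem : r - φ c ∈ maximalIdeal R := le_maximalIdeal hne hker
  have h0 : residue R (r - φ c) = 0 := (residue_eq_zero_iff _).mpr hmem
  rw [map_sub, sub_eq_zero] at h0
  exact h0.symm

/-- The germ map `Γ(Spec k, ⊤) → O_{Spec k, pt}` is surjective. -/
theorem germ_top_spec_surjective (pt : Spec (CommRingCat.of k)) :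
    Function.Surjective
      ((Spec (CommRingCat.of k)).presheaf.germ ⊤ pt (Opens.mem_top _)).hom := by
  intro s
  obtain ⟨U, hU, t, rfl⟩ := (Spec (CommRingCat.of k)).presheaf.exists_germ_eq s
  obtain rfl : U = ⊤ := opens_spec_eq_top U pt hU
  exact ⟨t, rfl⟩

/-- At the image of a `k`-point, the residue field is `k`. -/
theorem surjective_residue_stalkStr_of_section (z : Spec (CommRingCat.of k) ⟶ J)
    (hz : z ≫ f = 𝟙 _) (pt : Spec (CommRingCat.of k)) :
    Function.Surjective ((residue (J.presheaf.stalk (z pt))).comp (stalkStr f (z pt))) := by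
  refine surjective_residue_comp_of_retraction (stalkStr f (z pt)) (z.stalkMap pt).hom ?_
  have hcomp : (Scheme.ΓSpecIso (CommRingCat.of k)).inv ≫ f.appTop ≫
      J.presheaf.germ ⊤ (z pt) (Opens.mem_top _) ≫ z.stalkMap pt =
      (Scheme.ΓSpecIso (CommRingCat.of k)).inv ≫
        (Spec (CommRingCat.of k)).presheaf.germ ⊤ pt (Opens.mem_top _) := by
    have h1 : J.presheaf.germ ⊤ (z pt) (Opens.mem_top _) ≫ z.stalkMap pt =
        z.appTop ≫ (Spec (CommRingCat.of k)).presheaf.germ ⊤ pt (Opens.mem_top _) :=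
      Scheme.Hom.germ_stalkMap z ⊤ pt (Opens.mem_top _)
    rw [h1, ← Category.assoc f.appTop, ← Scheme.Hom.comp_appTop, hz]
    simp
  have hfun : (z.stalkMap pt).hom.comp (stalkStr f (z pt)) =
      ((Scheme.ΓSpecIso (CommRingCat.of k)).inv ≫
        (Spec (CommRingCat.of k)).presheaf.germ ⊤ pt (Opens.mem_top _)).hom := by
    rw [← hcomp]
    rfl
  rw [hfun, CommRingCat.hom_comp, RingHom.coe_comp]
  refine (germ_top_spec_surjective pt).comp ?_
  exact (ConcreteCategory.bijective_of_isIso (Scheme.ΓSpecIso (CommRingCat.of k)).inv).2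

end Rational

/-- **D1** (subtask 626).  `f : J ⟶ Spec k` smooth, `J` connected, `z` a `k`-point of `J` whose
cotangent space `𝔪/𝔪²` has dimension `g` over the residue field.  Then `f` is smooth of relative
dimension `g`. -/
theorem smoothOfRelativeDimension_of_finrank_cotangentSpace [Smooth f] [PreconnectedSpace J]
    (z : Spec (CommRingCat.of k) ⟶ J) (hz : z ≫ f = 𝟙 _) (pt : Spec (CommRingCat.of k)) (g : ℕ)
    (hg : Module.finrank (ResidueField (J.presheaf.stalk (z pt)))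
      (CotangentSpace (J.presheaf.stalk (z pt))) = g) :
    SmoothOfRelativeDimension g f :=
  smoothOfRelativeDimension_of_localDim f (z pt) g
    ((localDim_eq_finrank_cotangentSpace f (z pt)
      (surjective_residue_stalkStr_of_section f z hz pt)).trans hg)

/-- Converse of **D1**: if `f` is smooth of relative dimension `g`, the cotangent space at every
`k`-point has dimension `g`. -/
theorem finrank_cotangentSpace_of_smoothOfRelativeDimension (g : ℕ)
    [SmoothOfRelativeDimension g f] (z : Spec (CommRingCat.of k) ⟶ J) (hz : z ≫ f = 𝟙 _)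
    (pt : Spec (CommRingCat.of k)) :
    Module.finrank (ResidueField (J.presheaf.stalk (z pt)))
      (CotangentSpace (J.presheaf.stalk (z pt))) = g := by
  haveI : Smooth f := SmoothOfRelativeDimension.smooth g f
  rw [← localDim_eq_finrank_cotangentSpace f (z pt)
    (surjective_residue_stalkStr_of_section f z hz pt)]
  exact localDim_eq_of_smoothOfRelativeDimension f g (z pt)

end

end Fermat.Agent.S27.H358

end
-- ===== PACK-END S27/H358/SmoothDim.lean

-- ===== PACK-BEGIN Ribet/H924/NormRedRel.lean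
section


/-!
# Row 37, WALL-q, leaf (Q3) EIGEN-LIFT-3 (helper924): abstract lemmas

* `norm_red_rel` : norms commute with reduction for a finite extension `L / L₀` of valued fields
  in the inert case (`e = 1`, `f = n`): `V₀ ⊆ L₀`, `V ⊆ L` valuation subrings with `V ∩ L₀ = V₀`,
  compatible ring homs `ρ₀ : V₀ → R₁`, `ρ : V ↠ S₁` onto fields with `[L : L₀] = [S₁ : R₁]`.
  (Relative version of `S37.H217.norm_red`; the proof is the same, from
  `S37.H217.map_norm_eq_norm_map`.)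
* `exists_pow_of_norm` : descent of "constant times a `p`-th power" along an extension of degree
  prime to `p` (norm argument).
-/

set_option autoImplicit false

namespace Fermat.Agent.Ribet.H924

open Fermat.Agent.S37.H217

section NormRed

variable {L₀ L R₁ S₁ : Type*} [Field L₀] [Field L] [Algebra L₀ L] [Field R₁] [Field S₁]
  [Algebra R₁ S₁]

/-- **Norms commute with reduction** (inert case, relative form). -/
theorem norm_red_rel [FiniteDimensional L₀ L] [FiniteDimensional R₁ S₁]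
    {V₀ : ValuationSubring L₀} {V : ValuationSubring L} (h : ValExtends V₀ V)
    (ρ₀ : V₀ →+* R₁) (ρ : V →+* S₁) (hρsurj : Function.Surjective ρ)
    (hρ : ∀ a : V₀, ρ ⟨algebraMap L₀ L a, (h a).mpr a.2⟩ = algebraMap R₁ S₁ (ρ₀ a))
    (hfr : Module.finrank L₀ L = Module.finrank R₁ S₁) (y : V) :
    ∃ hN : Algebra.norm L₀ (y : L) ∈ V₀, ρ₀ ⟨_, hN⟩ = Algebra.norm R₁ (ρ y) := by
  classical
  -- kernels are the maximal ideals
  have hker : ∀ z : V, ρ z = 0 ↔ (z : L) ∈ V.nonunits := by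
    intro z
    have hmax := IsLocalRing.eq_maximalIdeal (RingHom.ker_isMaximal_of_surjective ρ hρsurj)
    rw [ValuationSubring.coe_mem_nonunits_iff, ← hmax, RingHom.mem_ker]
  set b₁ := Module.finBasis R₁ S₁ with hb₁def
  choose e he using fun i => hρsurj (b₁ i)
  have hR : ResidIndep V₀ V (fun i => ((e i : V) : L)) := by
    intro c hc hsum
    set s : V := ∑ i, (⟨algebraMap L₀ L (c i), (h (c i)).mpr (hc i)⟩ : V) * e i with hs
    have hsF : (s : L) = ∑ i, c i • ((e i : V) : L) := by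
      rw [hs, ← ValuationSubring.subtype_apply, map_sum]
      refine Finset.sum_congr rfl fun i _ => ?_
      rw [map_mul, Algebra.smul_def]
      rfl
    have hρs : ρ s = 0 := by
      rw [hker, hsF]
      exact hsum
    have hρs' : ∑ i, ρ₀ ⟨c i, hc i⟩ • b₁ i = 0 := by
      rw [← hρs, hs, map_sum]
      refine Finset.sum_congr rfl fun i _ => ?_
      rw [map_mul, he, Algebra.smul_def]
      congr 1
      exact (hρ ⟨c i, hc i⟩).symm
    have hzero := Fintype.linearIndependent_iff.mp b₁.linearIndependent _ hρs'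
    intro i
    have h1 : ρ ⟨algebraMap L₀ L (c i), (h (c i)).mpr (hc i)⟩ = 0 := by
      rw [hρ ⟨c i, hc i⟩, hzero i, map_zero]
    rw [hker] at h1
    exact (h.mem_nonunits_iff (c i)).mp h1
  have : Nonempty (Fin (Module.finrank R₁ S₁)) := ⟨⟨0, Module.finrank_pos⟩⟩
  obtain ⟨b, hb⟩ := exists_basis_of_residIndep hR (by rw [Fintype.card_fin, hfr])
  have hbi : ∀ i, b i = ((e i : V) : L) := fun i => congrFun hb i
  have hR' : ResidIndep V₀ V b := by rw [hb]; exact hR
  have hbO : ∀ i, b i ∈ V := fun i => by rw [hbi]; exact (e i).2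
  have key := map_norm_eq_norm_map h b hR' hbO ρ₀ ρ hρ b₁ (fun i => by
      have : (⟨b i, hbO i⟩ : V) = e i := Subtype.ext (hbi i)
      rw [this, he]) y
  exact ⟨norm_mem h b hR' hbO y.2, key⟩

end NormRed

section PowDescent

variable {F F' : Type*} [Field F] [Field F'] [Algebra F F']

/-- If `h ∈ F` is `c · g ^ p` in a finite extension `F'` of degree `d` prime to `p`
(`c ∈ F`), then `h = c' · g' ^ p` already in `F`, with `c' = c ^ (d·s)` for a Bezout coefficient
`s`: precisely `h = (c ^ d) ^ s * (N g ^ s * h ^ t) ^ p` whenever `d s + p t = 1`. -/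
theorem eq_zpow_mul_pow_of_norm [FiniteDimensional F F'] (p : ℕ) {h c : F} {g : F'}
    (hh : h ≠ 0) (hg : algebraMap F F' h = algebraMap F F' c * g ^ p) (s t : ℤ)
    (hst : (Module.finrank F F' : ℤ) * s + (p : ℤ) * t = 1) :
    h = (c ^ Module.finrank F F') ^ s * (Algebra.norm F g ^ s * h ^ t) ^ p := by
  have hN := congrArg (Algebra.norm F) hg
  rw [Algebra.norm_algebraMap, map_mul, Algebra.norm_algebraMap, map_pow] at hN
  -- `h ^ d = c ^ d * (N g) ^ p`
  have h1 : h = (h ^ Module.finrank F F') ^ s * (h ^ t) ^ p := by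
    rw [← zpow_natCast h (Module.finrank F F'), ← zpow_mul, ← zpow_natCast (h ^ t) p, ← zpow_mul,
      ← zpow_add₀ hh, mul_comm t, hst, zpow_one]
  have h2 : (c ^ Module.finrank F F') ^ s * (Algebra.norm F g ^ s * h ^ t) ^ p
      = (c ^ Module.finrank F F' * Algebra.norm F g ^ p) ^ s * (h ^ t) ^ p := by
    rw [mul_zpow, mul_pow, ← zpow_natCast (Algebra.norm F g ^ s) p, ← zpow_mul,
      ← zpow_natCast (Algebra.norm F g) p, ← zpow_mul, mul_comm s (p : ℤ)]
    ring
  rw [h2, ← hN]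
  exact h1

end PowDescent

end Fermat.Agent.Ribet.H924

end
-- ===== PACK-END Ribet/H924/NormRedRel.lean

-- ===== PACK-BEGIN S31/H262/Strict.lean
section


/-!
# S31 / SS6 (helper262): joint `p`-adic strictness of a separating family of points

`B` is a commutative ring, finite free over `ℤ`; `E = ℚ_[p] ⊗[ℤ] B`; `L j` is a finite family of
finite field extensions of `ℚ_[p]` and `Φ : E →ₐ[ℚ_[p]] Π j, L j` is injective.  Then the points
`B → intRing p (L j)` are jointly `p`-adically strict.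
-/

set_option autoImplicit false
set_option linter.unusedSectionVars false
set_option linter.style.haveILetI false

noncomputable section

namespace Fermat.Agent.S31.H262

open scoped TensorProduct
open IsLocalRing

section Lattice

variable (p : ℕ) [Fact p.Prime]
variable (B : Type) [CommRing B]

/-- The `ℤ_[p]`-lattice in `E = ℚ_[p] ⊗[ℤ] B` spanned by the pure tensors `1 ⊗ b`. -/
def lat : Submodule ℤ_[p] (ℚ_[p] ⊗[ℤ] B) :=
  Submodule.span ℤ_[p] (Set.range fun b : B => (1 : ℚ_[p]) ⊗ₜ[ℤ] b)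

theorem one_tmul_mem_lat (b : B) : (1 : ℚ_[p]) ⊗ₜ[ℤ] b ∈ lat p B :=
  Submodule.subset_span ⟨b, rfl⟩

theorem padicInt_tmul_mem_lat (a : ℤ_[p]) (b : B) : (a : ℚ_[p]) ⊗ₜ[ℤ] b ∈ lat p B := by
  have h : (a : ℚ_[p]) ⊗ₜ[ℤ] b = a • ((1 : ℚ_[p]) ⊗ₜ[ℤ] b) := by
    rw [TensorProduct.smul_tmul', Algebra.smul_def, mul_one]
    rfl
  rw [h]
  exact (lat p B).smul_mem a (one_tmul_mem_lat p B b)

/-- Every `p`-adic number becomes integral after multiplication by a power of `p`. -/
theorem exists_pow_mul_mem_padicInt (x : ℚ_[p]) :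
    ∃ (c : ℕ) (a : ℤ_[p]), (p : ℚ_[p]) ^ c * x = (a : ℚ_[p]) := by
  have hp1 : ‖(p : ℚ_[p])‖ < 1 := Padic.norm_p_lt_one
  have hpos : (0 : ℝ) < 1 / (‖x‖ + 1) := by positivity
  obtain ⟨c, hc⟩ := exists_pow_lt_of_lt_one hpos hp1
  have hle : ‖(p : ℚ_[p]) ^ c * x‖ ≤ 1 := by
    rw [norm_mul, norm_pow]
    have h1 : ‖(p : ℚ_[p])‖ ^ c * ‖x‖ ≤ 1 / (‖x‖ + 1) * ‖x‖ :=
      mul_le_mul_of_nonneg_right hc.le (norm_nonneg x)
    have h2 : 1 / (‖x‖ + 1) * ‖x‖ ≤ 1 := by
      rw [one_div, inv_mul_le_iff₀ (by positivity)]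
      linarith [norm_nonneg x]
    exact h1.trans h2
  exact ⟨c, ⟨(p : ℚ_[p]) ^ c * x, hle⟩, rfl⟩

/-- Every element of `E` lies in the lattice after multiplication by a power of `p`. -/
theorem exists_pow_smul_mem_lat (e : ℚ_[p] ⊗[ℤ] B) :
    ∃ c : ℕ, ∀ c' : ℕ, c ≤ c' → ((p : ℚ_[p]) ^ c') • e ∈ lat p B := by
  induction e using TensorProduct.induction_on with
  | zero => exact ⟨0, fun c' _ => by rw [smul_zero]; exact (lat p B).zero_mem⟩
  | tmul x b =>
    obtain ⟨c, a, hca⟩ := exists_pow_mul_mem_padicInt p x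
    refine ⟨c, fun c' hc' => ?_⟩
    obtain ⟨d, rfl⟩ := Nat.exists_eq_add_of_le hc'
    have h : ((p : ℚ_[p]) ^ (c + d)) • (x ⊗ₜ[ℤ] b) =
        (((p : ℤ_[p]) ^ d * a : ℤ_[p]) : ℚ_[p]) ⊗ₜ[ℤ] b := by
      rw [TensorProduct.smul_tmul', smul_eq_mul, pow_add, mul_comm ((p : ℚ_[p]) ^ c), mul_assoc, hca]
      simp
    rw [h]
    exact padicInt_tmul_mem_lat p B _ b
  | add x y hx hy =>
    obtain ⟨c1, h1⟩ := hx
    obtain ⟨c2, h2⟩ := hy
    refine ⟨max c1 c2, fun c' hc' => ?_⟩
    rw [smul_add]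
    exact (lat p B).add_mem (h1 c' (le_trans (le_max_left _ _) hc'))
      (h2 c' (le_trans (le_max_right _ _) hc'))

end Lattice

section Coordinates

variable (p : ℕ) [Fact p.Prime]
variable (B : Type) [CommRing B] [Module.Finite ℤ B] [Module.Free ℤ B]

/-- Coordinates lemma: if `p⁻ⁿ • (1 ⊗ t)` lies in the lattice, then `t ∈ pⁿ B`. -/
theorem mem_span_of_inv_smul_mem_lat (n : ℕ) (t : B)
    (h : (((p : ℚ_[p]) ^ n)⁻¹) • ((1 : ℚ_[p]) ⊗ₜ[ℤ] t) ∈ lat p B) :
    t ∈ Ideal.span {((p : ℕ) : B) ^ n} := by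
  classical
  set b := Module.Free.chooseBasis ℤ B with hb
  set bE := Algebra.TensorProduct.basis ℚ_[p] b with hbE
  -- the lattice is contained in the `ℤ_[p]`-span of the basis
  have hle : lat p B ≤ Submodule.span ℤ_[p] (Set.range bE) := by
    unfold lat
    rw [Submodule.span_le]
    rintro _ ⟨x, rfl⟩
    rw [SetLike.mem_coe, Module.Basis.mem_span_iff_repr_mem]
    intro i
    refine ⟨((b.repr x i : ℤ) : ℤ_[p]), ?_⟩
    rw [hbE, Algebra.TensorProduct.basis_repr_tmul]
    simp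
  have h' := hle h
  rw [Module.Basis.mem_span_iff_repr_mem] at h'
  -- each coordinate of `t` is divisible by `p ^ n`
  have hdvd : ∀ i, ((p : ℤ) ^ n) ∣ b.repr t i := by
    intro i
    obtain ⟨a, ha⟩ := h' i
    rw [hbE, map_smul, Algebra.TensorProduct.basis_repr_tmul] at ha
    simp only [one_smul, Finsupp.smul_apply, Finsupp.mapRange_apply, smul_eq_mul, eq_intCast,
      PadicInt.algebraMap_apply] at ha
    have hp0 : (p : ℚ_[p]) ^ n ≠ 0 := pow_ne_zero _ (by exact_mod_cast (Fact.out : p.Prime).ne_zero)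
    have hval : ((b.repr t i : ℤ) : ℚ_[p]) = (p : ℚ_[p]) ^ n * (a : ℚ_[p]) := by
      rw [ha]; field_simp
    rw [← Padic.norm_int_le_pow_iff_dvd, hval, norm_mul, norm_pow, Padic.norm_p, zpow_neg,
      zpow_natCast, inv_pow]
    have hnn : (0 : ℝ) ≤ ((p : ℝ) ^ n)⁻¹ := by positivity
    calc ((p : ℝ) ^ n)⁻¹ * ‖(a : ℚ_[p])‖ ≤ ((p : ℝ) ^ n)⁻¹ * 1 :=
          mul_le_mul_of_nonneg_left (PadicInt.norm_le_one a) hnn
      _ = ((p : ℝ) ^ n)⁻¹ := mul_one _
  rw [Ideal.mem_span_singleton, ← b.sum_repr t]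
  refine Finset.dvd_sum fun i _ => ?_
  obtain ⟨k, hk⟩ := hdvd i
  rw [hk, mul_smul, zsmul_eq_mul]
  refine Dvd.intro (k • b i) ?_
  push_cast
  rfl

end Coordinates

section Strict

variable (p : ℕ) [Fact p.Prime]
variable (B : Type) [CommRing B] [Module.Finite ℤ B] [Module.Free ℤ B]
variable {ι : Type} [Finite ι] (L : ι → Type) [∀ j, Field (L j)] [∀ j, Algebra ℚ_[p] (L j)]
  [∀ j, Algebra ℤ_[p] (L j)] [∀ j, IsScalarTower ℤ_[p] ℚ_[p] (L j)]
  [∀ j, FiniteDimensional ℚ_[p] (L j)]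
variable (Φ : (ℚ_[p] ⊗[ℤ] B) →ₐ[ℚ_[p]] (∀ j, L j))

/-- The `j`-th point, with values in the field `L j`. -/
def ptL (j : ι) : B →+* L j :=
  (Pi.evalRingHom L j).comp
    ((Φ : (ℚ_[p] ⊗[ℤ] B) →+* (∀ j, L j)).comp
      (Algebra.TensorProduct.includeRight : B →ₐ[ℤ] ℚ_[p] ⊗[ℤ] B).toRingHom)

theorem ptL_apply (j : ι) (t : B) : ptL p B L Φ j t = Φ ((1 : ℚ_[p]) ⊗ₜ[ℤ] t) j := rfl

theorem isIntegral_ptL (j : ι) (t : B) : IsIntegral ℤ_[p] (ptL p B L Φ j t) := by
  have h1 : IsIntegral ℤ t := Algebra.IsIntegral.isIntegral (R := ℤ) t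
  have h2 : IsIntegral ℤ (ptL p B L Φ j t) := h1.map (ptL p B L Φ j).toIntAlgHom
  exact h2.tower_top

/-- The `j`-th point, with values in the ring of integers of `L j`. -/
def pt (j : ι) : B →+* intRing p (L j) where
  toFun t := ⟨ptL p B L Φ j t, isIntegral_ptL p B L Φ j t⟩
  map_one' := Subtype.ext (map_one _)
  map_mul' x y := Subtype.ext (map_mul _ x y)
  map_zero' := Subtype.ext (map_zero _)
  map_add' x y := Subtype.ext (map_add _ x y)

theorem coe_pt (j : ι) (t : B) :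
    ((pt p B L Φ j t : intRing p (L j)) : L j) = Φ ((1 : ℚ_[p]) ⊗ₜ[ℤ] t) j := rfl

/-- The `ℤ_[p]`-submodule of `E` of elements all of whose components are integral. -/
def intSub : Submodule ℤ_[p] (ℚ_[p] ⊗[ℤ] B) :=
  Submodule.comap (Φ.toLinearMap.restrictScalars ℤ_[p])
    (Submodule.pi Set.univ fun j => Subalgebra.toSubmodule (intRing p (L j)))

theorem mem_intSub (e : ℚ_[p] ⊗[ℤ] B) :
    e ∈ intSub p B L Φ ↔ ∀ j, IsIntegral ℤ_[p] (Φ e j) := by
  unfold intSub
  rw [Submodule.mem_comap, Submodule.mem_pi]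
  constructor
  · intro h j
    exact h j (Set.mem_univ j)
  · intro h j _
    exact h j

/-- The comparison map from `intSub` to the product of the rings of integers. -/
def intSubToPi : intSub p B L Φ →ₗ[ℤ_[p]] (∀ j, intRing p (L j)) where
  toFun w := fun j => ⟨Φ w.1 j, (mem_intSub p B L Φ w.1).mp w.2 j⟩
  map_add' x y := by
    funext j
    apply Subtype.ext
    simp
  map_smul' a x := by
    funext j
    apply Subtype.ext
    have h : Φ (a • (x : ℚ_[p] ⊗[ℤ] B)) = a • Φ (x : ℚ_[p] ⊗[ℤ] B) :=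
      (Φ.toLinearMap.restrictScalars ℤ_[p]).map_smul a x.1
    simp [h]

variable {p B L Φ} in
theorem intSubToPi_injective (hΦ : Function.Injective Φ) :
    Function.Injective (intSubToPi p B L Φ) := by
  intro x y h
  apply Subtype.ext
  apply hΦ
  funext j
  have := congrArg (fun f : (∀ j, intRing p (L j)) => ((f j : intRing p (L j)) : L j)) h
  exact this

variable {p B L Φ} in
theorem intSub_fg (hΦ : Function.Injective Φ) : (intSub p B L Φ).FG := by
  haveI : Fintype ι := Fintype.ofFinite ι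
  haveI : Module.Finite ℤ_[p] (∀ j, intRing p (L j)) := Module.Finite.pi
  haveI : IsNoetherian ℤ_[p] (∀ j, intRing p (L j)) := inferInstance
  haveI : Module.Finite ℤ_[p] (intSub p B L Φ) :=
    Module.Finite.of_injective (intSubToPi p B L Φ) (intSubToPi_injective hΦ)
  exact (Submodule.fg_top _).mp (Module.finite_def.mp this)

variable {p B L Φ} in
/-- A uniform power of `p` maps `intSub` into the lattice. -/
theorem exists_pow_smul_intSub_le (hΦ : Function.Injective Φ) :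
    ∃ c : ℕ, ∀ w ∈ intSub p B L Φ, ((p : ℚ_[p]) ^ c) • w ∈ lat p B := by
  classical
  obtain ⟨G, hG⟩ := intSub_fg hΦ
  choose cf hcf using fun e : ℚ_[p] ⊗[ℤ] B => exists_pow_smul_mem_lat p B e
  refine ⟨G.sup cf, fun w hw => ?_⟩
  -- the set of `e` with `p ^ c • e ∈ lat` is a `ℤ_[p]`-submodule containing the generators
  have hsub : intSub p B L Φ ≤
      Submodule.comap (LinearMap.lsmul ℤ_[p] (ℚ_[p] ⊗[ℤ] B) ((p : ℤ_[p]) ^ G.sup cf))
        (lat p B) := by
    rw [← hG, Submodule.span_le]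
    intro g hg
    rw [SetLike.mem_coe, Submodule.mem_comap, LinearMap.lsmul_apply]
    have h1 := hcf g (G.sup cf) (Finset.le_sup (f := cf) hg)
    have h2 : ((p : ℤ_[p]) ^ G.sup cf) • g = ((p : ℚ_[p]) ^ G.sup cf) • g := by
      rw [← algebraMap_smul ℚ_[p] ((p : ℤ_[p]) ^ G.sup cf) g]
      simp
    rw [h2]
    exact h1
  have h3 := hsub hw
  rw [Submodule.mem_comap, LinearMap.lsmul_apply] at h3
  have h2 : ((p : ℤ_[p]) ^ G.sup cf) • w = ((p : ℚ_[p]) ^ G.sup cf) • w := by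
    rw [← algebraMap_smul ℚ_[p] ((p : ℤ_[p]) ^ G.sup cf) w]
    simp
  rw [← h2]
  exact h3

variable {p B L Φ} in
/-- **Joint strictness** of the points `pt j : B → intRing p (L j)`. -/
theorem strict_of_injective (hΦ : Function.Injective Φ) (n : ℕ) :
    ∃ m : ℕ, ∀ t : B,
      (∀ j, pt p B L Φ j t ∈ maximalIdeal (intRing p (L j)) ^ m) →
        t ∈ Ideal.span {((p : ℕ) : B) ^ n} := by
  classical
  haveI : Fintype ι := Fintype.ofFinite ι
  obtain ⟨c, hc⟩ := exists_pow_smul_intSub_le hΦ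
  choose mf hmf using fun j : ι => exists_maximalIdeal_pow_le_span_p_pow p (L j) (n + c)
  refine ⟨Finset.univ.sup mf, fun t ht => ?_⟩
  have hp0 : (p : ℚ_[p]) ≠ 0 := by exact_mod_cast (Fact.out : p.Prime).ne_zero
  apply mem_span_of_inv_smul_mem_lat p B n t
  -- the element `e = p^{-(n+c)} • (1 ⊗ t)` has integral components
  have he : (((p : ℚ_[p]) ^ (n + c))⁻¹) • ((1 : ℚ_[p]) ⊗ₜ[ℤ] t) ∈ intSub p B L Φ := by
    rw [mem_intSub]
    intro j
    have h1 : pt p B L Φ j t ∈ Ideal.span {((p : ℕ) : intRing p (L j)) ^ (n + c)} :=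
      hmf j (Ideal.pow_le_pow_right (Finset.le_sup (f := mf) (Finset.mem_univ j)) (ht j))
    rw [Ideal.mem_span_singleton] at h1
    obtain ⟨y, hy⟩ := h1
    have hy' : Φ ((1 : ℚ_[p]) ⊗ₜ[ℤ] t) j = (p : L j) ^ (n + c) * (y : L j) := by
      have := congrArg (fun x : intRing p (L j) => (x : L j)) hy
      simpa [coe_pt] using this
    have hpL : (p : L j) ≠ 0 := by
      haveI : CharZero (L j) := charZero_of_injective_algebraMap (algebraMap ℚ_[p] (L j)).injective
      exact_mod_cast (Fact.out : p.Prime).ne_zero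
    have hval : Φ ((((p : ℚ_[p]) ^ (n + c))⁻¹) • ((1 : ℚ_[p]) ⊗ₜ[ℤ] t)) j = (y : L j) := by
      rw [map_smul, Pi.smul_apply, hy', Algebra.smul_def, map_inv₀, map_pow, map_natCast]
      field_simp
    rw [hval]
    exact y.2
  have h2 := hc _ he
  have h3 : ((p : ℚ_[p]) ^ c) • ((((p : ℚ_[p]) ^ (n + c))⁻¹) • ((1 : ℚ_[p]) ⊗ₜ[ℤ] t)) =
      (((p : ℚ_[p]) ^ n)⁻¹) • ((1 : ℚ_[p]) ⊗ₜ[ℤ] t) := by
    rw [smul_smul]
    congr 1
    rw [pow_add]
    field_simp
  rw [h3] at h2
  exact h2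

end Strict

end Fermat.Agent.S31.H262

end
end
-- ===== PACK-END S31/H262/Strict.lean

-- ===== PACK-BEGIN Lib/Pet695/Hecke.lean
section



/-!
# Self-adjointness of `T_ℓ` (`ℓ ∤ N`) for the Petersson pairing: the `GL(2,ℝ)` layer
-/

set_option autoImplicit false

open Matrix UpperHalfPlane MeasureTheory ModularForm
open scoped MatrixGroups ModularForm

noncomputable section

namespace Fermat.Agent.Lib.Pet695

variable {N ℓ : ℕ}

/-- the real matrix of an element of `Δ`, as an element of `GL(2,ℝ)` -/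
def toGL (hℓ0 : ℓ ≠ 0) (M : DeltaZ N ℓ) : GL (Fin 2) ℝ :=
  Matrix.GeneralLinearGroup.mkOfDetNeZero (M.1.map (Int.cast : ℤ → ℝ)) (by
    have h := Int.cast_det (R := ℝ) M.1
    rw [M.2.1] at h
    rw [← h]
    exact_mod_cast hℓ0)

theorem toGL_val (hℓ0 : ℓ ≠ 0) (M : DeltaZ N ℓ) :
    ((toGL hℓ0 M : GL (Fin 2) ℝ) : Matrix (Fin 2) (Fin 2) ℝ) = M.1.map (Int.cast : ℤ → ℝ) := rfl

theorem toGL_injective (hℓ0 : ℓ ≠ 0) : Function.Injective (toGL (N := N) hℓ0) := by
  intro M M' h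
  have h1 : M.1.map (Int.cast : ℤ → ℝ) = M'.1.map (Int.cast : ℤ → ℝ) := by
    rw [← toGL_val hℓ0 M, ← toGL_val hℓ0 M', h]
  exact Subtype.ext (Matrix.map_injective Int.cast_injective h1)

theorem det_toGL (hℓ0 : ℓ ≠ 0) (M : DeltaZ N ℓ) : (toGL hℓ0 M).det.val = (ℓ : ℝ) := by
  rw [Matrix.GeneralLinearGroup.val_det_apply, toGL_val]
  have h := Int.cast_det (R := ℝ) M.1
  rw [M.2.1] at h
  rw [← h]
  simp

/-- the representatives in `GL(2,ℝ)` (the Prelude's Hecke matrices) -/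
def repGL (ℓ : ℕ) : Option (Fin ℓ) → GL (Fin 2) ℝ
  | none => heckeDiagMatrix ℓ
  | some j => heckeMatrix ℓ j

theorem repGL_val (hℓ0 : ℓ ≠ 0) (x : Option (Fin ℓ)) :
    ((repGL ℓ x : GL (Fin 2) ℝ) : Matrix (Fin 2) (Fin 2) ℝ)
      = (repZ ℓ x).map (Int.cast : ℤ → ℝ) := by
  cases x with
  | none =>
    rw [repGL, val_heckeDiagMatrix hℓ0, repZ]
    ext i j; fin_cases i <;> fin_cases j <;> simp
  | some j =>
    rw [repGL, val_heckeMatrix hℓ0, repZ]
    ext i j'; fin_cases i <;> fin_cases j' <;> simp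

/-- the coercion `Γ₀(N) → GL(2,ℝ)` -/
def aGL (N : ℕ) (g : CongruenceSubgroup.Gamma0 N) : GL (Fin 2) ℝ :=
  Matrix.SpecialLinearGroup.mapGL ℝ (g : SL(2, ℤ))

theorem toGL_eZ (hℓ : ℓ.Prime) (hℓN : ¬ ℓ ∣ N) (g : CongruenceSubgroup.Gamma0 N)
    (x : Option (Fin ℓ)) : toGL hℓ.ne_zero (eZ hℓ hℓN (g, x)) = aGL N g * repGL ℓ x := by
  apply Units.ext
  rw [toGL_val, eZ_apply, Units.val_mul, repGL_val hℓ.ne_zero, aGL]
  have h1 : ((Matrix.SpecialLinearGroup.mapGL ℝ (g : SL(2, ℤ)) : GL (Fin 2) ℝ) :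
      Matrix (Fin 2) (Fin 2) ℝ) = ((g : SL(2, ℤ)).val).map (Int.cast : ℤ → ℝ) := by
    simp
  rw [h1]
  exact Matrix.map_mul (f := Int.castRingHom ℝ)

theorem toGL_starZ (hℓ0 : ℓ ≠ 0) (M : DeltaZ N ℓ) :
    ((toGL hℓ0 (starZ M) : GL (Fin 2) ℝ) : Matrix (Fin 2) (Fin 2) ℝ)
      = (ℓ : ℝ) • (((toGL hℓ0 M)⁻¹ : GL (Fin 2) ℝ) : Matrix (Fin 2) (Fin 2) ℝ) := by
  have hℓ' : (ℓ : ℝ) ≠ 0 := by exact_mod_cast hℓ0
  have hdet : (M.1.map (Int.cast : ℤ → ℝ)).det = (ℓ : ℝ) := by
    have h := Int.cast_det (R := ℝ) M.1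
    rw [M.2.1] at h
    rw [← h]; simp
  rw [Matrix.coe_units_inv, toGL_val, toGL_val, Matrix.inv_def, hdet, Ring.inverse_eq_inv',
    smul_smul, mul_inv_cancel₀ hℓ', one_smul]
  show (M.1.adjugate).map (Int.cast : ℤ → ℝ) = _
  exact (Int.castRingHom ℝ).map_adjugate M.1

/-- `Δ` inside `GL(2,ℝ)` -/
def DeltaGL (N ℓ : ℕ) (hℓ0 : ℓ ≠ 0) : Set (GL (Fin 2) ℝ) := Set.range (toGL (N := N) hℓ0)

/-- coset decomposition in `GL(2,ℝ)` -/
def eGL (hℓ : ℓ.Prime) (hℓN : ¬ ℓ ∣ N) :
    CongruenceSubgroup.Gamma0 N × Option (Fin ℓ) ≃ DeltaGL N ℓ hℓ.ne_zero :=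
  (eZ hℓ hℓN).trans (Equiv.ofInjective _ (toGL_injective hℓ.ne_zero))

theorem eGL_apply (hℓ : ℓ.Prime) (hℓN : ¬ ℓ ∣ N) (g : CongruenceSubgroup.Gamma0 N)
    (x : Option (Fin ℓ)) :
    ((eGL hℓ hℓN (g, x) : DeltaGL N ℓ hℓ.ne_zero) : GL (Fin 2) ℝ) = aGL N g * repGL ℓ x := by
  rw [← toGL_eZ hℓ hℓN]
  rfl

/-- the involution `δ ↦ ℓ δ⁻¹` of `Δ` -/
def starGL (hℓ0 : ℓ ≠ 0) : DeltaGL N ℓ hℓ0 ≃ DeltaGL N ℓ hℓ0 :=
  ((Equiv.ofInjective _ (toGL_injective (N := N) hℓ0)).symm.trans starZ).trans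
    (Equiv.ofInjective _ (toGL_injective hℓ0))

theorem starGL_val (hℓ0 : ℓ ≠ 0) (δ : DeltaGL N ℓ hℓ0) :
    ((starGL hℓ0 δ : GL (Fin 2) ℝ) : Matrix (Fin 2) (Fin 2) ℝ)
      = (ℓ : ℝ) • (((δ : GL (Fin 2) ℝ)⁻¹ : GL (Fin 2) ℝ) : Matrix (Fin 2) (Fin 2) ℝ) := by
  obtain ⟨δ, M, rfl⟩ := δ
  have h : (Equiv.ofInjective _ (toGL_injective (N := N) hℓ0)).symm
      ⟨toGL hℓ0 M, ⟨M, rfl⟩⟩ = M :=
    (Equiv.ofInjective _ (toGL_injective (N := N) hℓ0)).symm_apply_apply M
  show ((toGL hℓ0 (starZ ((Equiv.ofInjective _ (toGL_injective (N := N) hℓ0)).symm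
      ⟨toGL hℓ0 M, ⟨M, rfl⟩⟩)) : GL (Fin 2) ℝ) : Matrix (Fin 2) (Fin 2) ℝ) = _
  rw [h, toGL_starZ]

theorem det_of_mem_DeltaGL (hℓ0 : ℓ ≠ 0) {δ : GL (Fin 2) ℝ} (hδ : δ ∈ DeltaGL N ℓ hℓ0) :
    δ.det.val = (ℓ : ℝ) := by
  obtain ⟨M, rfl⟩ := hδ
  exact det_toGL hℓ0 M

theorem countable_SL2Z : Countable SL(2, ℤ) := by
  have h : Countable (Matrix (Fin 2) (Fin 2) ℤ) :=
    (inferInstance : Countable (Fin 2 → Fin 2 → ℤ))
  exact Function.Injective.countable
    (f := fun g : SL(2, ℤ) => (g : Matrix (Fin 2) (Fin 2) ℤ))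
    (fun x y hxy => Subtype.ext hxy)

theorem countable_gamma0 (N : ℕ) : Countable (CongruenceSubgroup.Gamma0 N) :=
  haveI := countable_SL2Z
  inferInstance

/-- **`T_ℓ` is self-adjoint** (function level): for admissible `Γ₀(N)`-invariant `f, g` and
any partition function `χ` for `Γ₀(N)`. -/
theorem pet_heckeT_adjoint (hℓ : ℓ.Prime) (hℓN : ¬ ℓ ∣ N) {χ : ℍ → ℝ}
    (hχ : IsPartFn (aGL N) χ) {k : ℤ} {f g : ℍ → ℂ} (hf : IsAdm k f) (hg : IsAdm k g)
    (hfa : ∀ γ, f ∣[k] aGL N γ = f) (hga : ∀ γ, g ∣[k] aGL N γ = g) :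
    pet k χ (heckeT k ℓ f) g = pet k χ f (heckeT k ℓ g) := by
  have hpos : (0 : ℝ) < ℓ := by exact_mod_cast hℓ.pos
  have := countable_gamma0 N
  have h := pet_sum_slash_adjoint hχ (repGL ℓ) hpos (DeltaGL N ℓ hℓ.ne_zero)
    (fun δ hδ => det_of_mem_DeltaGL hℓ.ne_zero hδ) (eGL hℓ hℓN) (eGL_apply hℓ hℓN)
    (starGL hℓ.ne_zero) (starGL_val hℓ.ne_zero) hf hg hfa hga
  have hT : ∀ F : ℍ → ℂ, heckeT k ℓ F = ∑ x : Option (Fin ℓ), F ∣[k] repGL ℓ x := by
    intro F
    rw [heckeT_def, Fintype.sum_option, add_comm, ← Fin.sum_univ_eq_sum_range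
      (fun j => F ∣[k] heckeMatrix ℓ j)]
    rfl
  rw [hT f, hT g]
  exact h

end Fermat.Agent.Lib.Pet695

end
end
-- ===== PACK-END Lib/Pet695/Hecke.lean

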