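import Mathlib
import Fermat.Agent.Pack.S43MC.G0E0L0
import Fermat.Agent.Pack.S43MC.G0E5L1
import Fermat.Agent.Pack.S43MC.G0E5L0
import Fermat.Agent.Pack.S43MC.G0E5L2
import Fermat.Agent.Pack.S43MC.G0E0L3
import Fermat.Agent.Pack.S43MC.G0E0L2
import Fermat.Agent.Pack.S43MC.G0E5L3
import Fermat.Agent.Pack.S43MC.G0E6L0
import Fermat.Agent.Pack.S43MC.G0E1L1
import Fermat.Agent.Pack.S43MC.G0E6L3
import Fermat.Agent.Pack.S43MC.G0E6L2
import Fermat.Agent.Pack.Fast891

-- ===== PACK-BEGIN S25/H205/DefReduce.lean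
section



/-!
# S25: `Stmt.Def` needs no degree bookkeeping

Geometric points do not see nilpotents, so in `Stmt.Def` the lifted bundle is automatically
fibrewise algebraically equivalent to zero:

* `exists_factor_of_nil`: every `Spec K ⟶ Spec A` (`K` a field) factors through `Spec (A ⧸ I)` for
  a nil ideal `I`.
* `fibrewiseAlgEquivZero_of_pullbackAlong_mk`: `FibrewiseAlgEquivZero` descends along
  `Spec (A ⧸ I) ⟶ Spec A`, `I` nil.
* `def_of_lift`: `Stmt.Def` follows from the bare lifting statement.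
-/

set_option autoImplicit false

universe u

open CategoryTheory CategoryTheory.Limits AlgebraicGeometry AlgebraicGeometry.RelPicard
  NeronModelInfra GoodReductionJacobian

namespace Fermat.Agent.S25.H205

section

variable {k : Type u} [Field k] {C : Scheme.{u}} (c : C ⟶ Spec (CommRingCat.of k))
  (ε : SchemeHomOver (𝟙 (Spec (CommRingCat.of k))) c)

/-- A morphism from the spectrum of a field to `Spec A` factors through `Spec (A ⧸ I)` when
`I` consists of nilpotent elements. -/
theorem exists_factor_of_nil {A : Type u} [CommRing A] (I : Ideal A) (hI : I ≤ nilradical A)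
    {K : Type u} [Field K] (s : Spec (CommRingCat.of K) ⟶ Spec (CommRingCat.of A)) :
    ∃ s' : Spec (CommRingCat.of K) ⟶ Spec (CommRingCat.of (A ⧸ I)),
      s' ≫ Spec.map (CommRingCat.ofHom (Ideal.Quotient.mk I)) = s := by
  let σ : A →+* K := (Spec.preimage s).hom
  have hσ : ∀ a ∈ I, σ a = 0 := by
    intro a ha
    obtain ⟨n, hn⟩ := hI ha
    have : σ a ^ n = 0 := by rw [← map_pow, hn, map_zero]
    exact eq_zero_of_pow_eq_zero this
  refine ⟨Spec.map (CommRingCat.ofHom (Ideal.Quotient.lift I σ hσ)), ?_⟩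
  rw [← Spec.map_comp, ← CommRingCat.ofHom_comp]
  have : (Ideal.Quotient.lift I σ hσ).comp (Ideal.Quotient.mk I) = σ := by
    ext a; simp
  rw [this]
  exact Spec.map_preimage s

variable {c ε}

/-- `FibrewiseAlgEquivZero` descends along a nilpotent thickening of affine bases. -/
theorem fibrewiseAlgEquivZero_of_pullbackAlong_mk {A : Type u} [CommRing A] [Algebra k A]
    (I : Ideal A) (hI : I ≤ nilradical A) (M : RigidifiedLineBundle c ε (specStr k A))
    (hM : FibrewiseAlgEquivZero (M.pullbackAlong (specHomOver k (Ideal.Quotient.mkₐ k I)))) :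
    FibrewiseAlgEquivZero M := by
  refine fibrewiseAlgEquivZero_of_forall_factors (ι := Unit)
    (fun _ => specHomOver k (Ideal.Quotient.mkₐ k I)) M ?_ (fun _ => hM)
  intro K _ _ s
  obtain ⟨s', hs'⟩ := exists_factor_of_nil I hI s
  exact ⟨(), s', hs'⟩

variable (c ε)

/-- `Stmt.Def` follows from the bare lifting statement (no degree condition on the lift). -/
theorem def_of_lift
    (hlift : ∀ (A : Type u) [CommRing A] [Algebra k A] (I : Ideal A), I ^ 2 = ⊥ →
      ∀ M₀ : RigidifiedLineBundle c ε (specStr k (A ⧸ I)), FibrewiseAlgEquivZero M₀ →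
        ∃ M : RigidifiedLineBundle c ε (specStr k A),
          RIso (M.pullbackAlong (specHomOver k (Ideal.Quotient.mkₐ k I))) M₀) :
    Stmt.Def c ε := by
  intro A _ _ I hI M₀ hM₀
  obtain ⟨M, hM⟩ := hlift A I hI M₀ hM₀
  refine ⟨M, ?_, hM⟩
  have hle : I ≤ nilradical A := by
    intro x hx
    refine ⟨2, ?_⟩
    have : x ^ 2 ∈ I ^ 2 := Ideal.pow_mem_pow hx 2
    rw [hI] at this
    simpa using this
  refine fibrewiseAlgEquivZero_of_pullbackAlong_mk I hle M ?_
  exact FibrewiseAlgEquivZero.congr (M := M₀) ⟨hM.some.symm⟩ hM₀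

end

end Fermat.Agent.S25.H205

end
-- ===== PACK-END S25/H205/DefReduce.lean

-- ===== PACK-BEGIN S25/H971/AlgDef.lean
section


/-!
# S25 / block ALGDEF: `Stmt.AlgDef`

Gluing data on `C_{A/I}` lift to gluing data on `C_A` when `I ^ 2 = ⊥` (indeed for any nil ideal
`I`).  The curve-chart hypotheses are not needed.
-/

set_option autoImplicit false
set_option linter.style.haveILetI false

open TensorProduct

namespace Fermat.Agent.S25.H971

universe u

section Curve

variable (k : Type u) [Field k]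

theorem tensorMapLeft_tmul {A A' : Type u} [CommRing A] [Algebra k A] [CommRing A']
    [Algebra k A'] (φ : A →ₐ[k] A') (B : Type u) [CommRing B] [Algebra k B] (a : A) (b : B) :
    tensorMapLeft k φ B (a ⊗ₜ[k] b) = φ a ⊗ₜ[k] b := by
  simp [tensorMapLeft]

theorem algebraMap_tensor_tmul (A B B' : Type u) [CommRing A] [Algebra k A] [CommRing B]
    [CommRing B'] [Algebra k B] [Algebra k B'] [Algebra B B'] [IsScalarTower k B B'] (a : A)
    (b : B) :
    algebraMap (A ⊗[k] B) (A ⊗[k] B') (a ⊗ₜ[k] b) = a ⊗ₜ[k] algebraMap B B' b := by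
  change tensorMapRight k A B B' (a ⊗ₜ[k] b) = _
  simp [tensorMapRight]

/-- The maps `tensorMapLeft` form a morphism of cospans. -/
theorem tensorMapLeft_comp_algebraMap {A A' : Type u} [CommRing A] [Algebra k A] [CommRing A']
    [Algebra k A'] (φ : A →ₐ[k] A') (B B' : Type u) [CommRing B] [CommRing B'] [Algebra k B]
    [Algebra k B'] [Algebra B B'] [IsScalarTower k B B'] :
    (tensorMapLeft k φ B').comp (algebraMap (A ⊗[k] B) (A ⊗[k] B')) =
      (algebraMap (A' ⊗[k] B) (A' ⊗[k] B')).comp (tensorMapLeft k φ B) := by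
  refine RingHom.ext fun z => ?_
  induction z using TensorProduct.induction_on with
  | zero => simp
  | tmul a b =>
    rw [RingHom.comp_apply, RingHom.comp_apply, algebraMap_tensor_tmul, tensorMapLeft_tmul,
      tensorMapLeft_tmul, algebraMap_tensor_tmul]
  | add x y hx hy => rw [map_add, map_add, hx, hy]

variable {A : Type u} [CommRing A] [Algebra k A] (I : Ideal A) (B : Type u) [CommRing B]
  [Algebra k B]

theorem tensorMapLeft_mk_surjective :
    Function.Surjective (tensorMapLeft k (Ideal.Quotient.mkₐ k I) B) :=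
  Algebra.TensorProduct.map_surjective _ _ (Ideal.Quotient.mkₐ_surjective k I)
    Function.surjective_id

theorem ker_tensorMapLeft_mk :
    RingHom.ker (tensorMapLeft k (Ideal.Quotient.mkₐ k I) B) =
      I.map (Algebra.TensorProduct.includeLeft : A →ₐ[k] A ⊗[k] B) := by
  have h := Algebra.TensorProduct.rTensor_ker (R := k) (S := k) (C := B)
    (Ideal.Quotient.mkₐ k I) (Ideal.Quotient.mkₐ_surjective k I)
  have hk : RingHom.ker (Ideal.Quotient.mkₐ k I) = I :=
    Ideal.ext fun x => by
      rw [RingHom.mem_ker]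
      exact Ideal.Quotient.eq_zero_iff_mem
  rw [hk] at h
  exact h

theorem tensorMapLeft_mk_nil {n : ℕ} (hI : I ^ n = ⊥) :
    ∀ x ∈ RingHom.ker (tensorMapLeft k (Ideal.Quotient.mkₐ k I) B), IsNilpotent x := by
  intro x hx
  rw [ker_tensorMapLeft_mk] at hx
  refine ⟨n, ?_⟩
  have h : x ^ n ∈ (I.map (Algebra.TensorProduct.includeLeft : A →ₐ[k] A ⊗[k] B)) ^ n :=
    Ideal.pow_mem_pow hx n
  rw [← Ideal.map_pow, hI, Ideal.map_bot] at h
  simpa using h

end Curve

section Statement

variable (k : Type u) [Field k] (B₀ B₁ B₀₁ : Type u) [CommRing B₀] [CommRing B₁] [CommRing B₀₁]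
  [Algebra k B₀] [Algebra k B₁] [Algebra k B₀₁] [Algebra B₀ B₀₁] [Algebra B₁ B₀₁]
  [IsScalarTower k B₀ B₀₁] [IsScalarTower k B₁ B₀₁]

/-- Gluing data over `A ⧸ I` lift to gluing data over `A` for every nilpotent ideal `I`. -/
theorem exists_curveGD_lift {A : Type u} [CommRing A] [Algebra k A] (I : Ideal A) {n : ℕ}
    (hI : I ^ n = ⊥) (G₀ : CurveGD k B₀ B₁ B₀₁ (A ⧸ I)) :
    ∃ G : CurveGD k B₀ B₁ B₀₁ A, CurveGD.IsBC (Ideal.Quotient.mkₐ k I) G G₀ :=
  exists_glueDatum_lift (tensorMapLeft k (Ideal.Quotient.mkₐ k I) B₀)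
    (tensorMapLeft k (Ideal.Quotient.mkₐ k I) B₁) (tensorMapLeft k (Ideal.Quotient.mkₐ k I) B₀₁)
    (tensorMapLeft_comp_algebraMap k _ B₀ B₀₁) (tensorMapLeft_comp_algebraMap k _ B₁ B₀₁)
    (tensorMapLeft_mk_surjective k I B₀) (tensorMapLeft_mk_nil k I B₀ hI)
    (tensorMapLeft_mk_surjective k I B₁) (tensorMapLeft_mk_nil k I B₁ hI)
    (tensorMapLeft_mk_surjective k I B₀₁) (tensorMapLeft_mk_nil k I B₀₁ hI) G₀

/-- **ALG-DEF**: `Stmt.AlgDef` holds (for every cospan `B₀ → B₀₁ ← B₁` of `k`-algebras). -/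
theorem algDef : Stmt.AlgDef k B₀ B₁ B₀₁ :=
  fun _ _ _ _ _ _ _ I hI G₀ => exists_curveGD_lift k B₀ B₁ B₀₁ I hI G₀

end Statement

end Fermat.Agent.S25.H971

end
-- ===== PACK-END S25/H971/AlgDef.lean

-- ===== PACK-BEGIN S25/H207/Omega.lean
section



/-!
# Block CURVE / CHART: smoothness and invertibility of the Kähler differentials

For a finitely generated domain `B` over an algebraically closed field `k` which is locally
standard smooth of relative dimension `1`:

* `B` is a smooth `k`-algebra (`smooth_of_locally_isStandardSmooth`, valid in general);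
* `Ω[B⁄k]` is an invertible `B`-module (`invertible_kaehlerDifferential`).

These are exactly the fields `smooth₀`, `smooth₁`, `omega₀`, `omega₁` of `IsCurveChart`.
-/

set_option autoImplicit false

universe u

open TensorProduct

namespace Fermat.Agent.S25.H207

/-- Locally standard smooth (of some relative dimension) implies smooth. -/
theorem smooth_of_locally_isStandardSmooth {k B : Type u} [CommRing k] [CommRing B] [Algebra k B]
    (n : ℕ) (h : RingHom.Locally (RingHom.IsStandardSmoothOfRelativeDimension n) (algebraMap k B)) :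
    Algebra.Smooth k B := by
  rw [← RingHom.smooth_algebraMap, RingHom.smooth_iff_locally_isStandardSmooth]
  exact RingHom.locally_of_locally
    (fun {R S} _ _ f hf => RingHom.IsStandardSmoothOfRelativeDimension.isStandardSmooth n f hf) h

/-- A nontrivial finitely generated module over a Dedekind domain which embeds into the fraction
field is invertible. -/
theorem invertible_of_injective_to_fractionField {R M F : Type*} [CommRing R] [IsDedekindDomain R]
    [AddCommGroup M] [Module R M] [Module.Finite R M] [Nontrivial M]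
    [Field F] [Algebra R F] [IsFractionRing R F]
    (j : M →ₗ[R] F) (hj : Function.Injective j) : Module.Invertible R M := by
  classical
  have hfg : (LinearMap.range j).FG := by
    rw [LinearMap.range_eq_map]
    exact Submodule.FG.map _ (Module.finite_def.mp inferInstance)
  have hfrac : IsFractional (nonZeroDivisors R) (LinearMap.range j) :=
    FractionalIdeal.isFractional_of_fg hfg
  let I : FractionalIdeal (nonZeroDivisors R) F := ⟨LinearMap.range j, hfrac⟩
  have hI : I ≠ 0 := by
    intro h0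
    obtain ⟨m, hm⟩ := exists_ne (0 : M)
    have hmem : j m ∈ (I : Submodule R F) := ⟨m, rfl⟩
    rw [h0, FractionalIdeal.coe_zero, Submodule.mem_bot] at hmem
    exact hm (hj (by rw [hmem, map_zero]))
  have hmul : I * I⁻¹ = 1 := mul_inv_cancel₀ hI
  have hmul' : (I : Submodule R F) * ((I⁻¹ : FractionalIdeal (nonZeroDivisors R) F) :
      Submodule R F) = 1 := by
    rw [← FractionalIdeal.coe_mul, hmul, FractionalIdeal.coe_one]
  haveI : FaithfulSMul R F := (faithfulSMul_iff_algebraMap_injective R F).mpr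
    (IsFractionRing.injective R F)
  let u : (Submodule R F)ˣ := Units.mkOfMulEqOne _ _ hmul'
  haveI : Module.Invertible R (u : Submodule R F) := inferInstance
  have e : (u : Submodule R F) ≃ₗ[R] M := (LinearEquiv.ofInjective j hj).symm
  exact Module.Invertible.congr e

section Omega

variable {k B : Type u} [Field k] [IsAlgClosed k] [CommRing B] [IsDomain B] [Algebra k B]
  [Algebra.FiniteType k B]

omit [IsAlgClosed k] [IsDomain B] [Algebra.FiniteType k B] in
/-- The `Locally` hypothesis in terms of the canonical algebra structure on `Localization.Away`. -/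
theorem exists_cover_isStandardSmooth
    (h : RingHom.Locally (RingHom.IsStandardSmoothOfRelativeDimension 1) (algebraMap k B)) :
    ∃ s : Set B, Ideal.span s = ⊤ ∧
      ∀ t ∈ s, Algebra.IsStandardSmoothOfRelativeDimension 1 k (Localization.Away t) := by
  obtain ⟨s, hs, hP⟩ := h
  refine ⟨s, hs, fun t ht => ?_⟩
  have := hP t ht
  rw [← IsScalarTower.algebraMap_eq, RingHom.isStandardSmoothOfRelativeDimension_algebraMap]
    at this
  exact this

/-- **`Ω[B⁄k]` is an invertible module.** -/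
theorem invertible_kaehlerDifferential
    (h : RingHom.Locally (RingHom.IsStandardSmoothOfRelativeDimension 1) (algebraMap k B)) :
    Module.Invertible B Ω[B⁄k] := by
  haveI hD : IsDedekindDomain B := isDedekindDomain_of_locally_isStandardSmooth h
  haveI hsm : Algebra.Smooth k B := smooth_of_locally_isStandardSmooth 1 h
  haveI hproj : Module.Projective B Ω[B⁄k] := inferInstance
  haveI htf : Module.IsTorsionFree B Ω[B⁄k] := Module.Flat.isTorsionFree
  -- choose a chart
  obtain ⟨s, hs, hP⟩ := exists_cover_isStandardSmooth h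
  obtain ⟨t, hts, ht0⟩ : ∃ t ∈ s, t ≠ 0 := by
    by_contra hcon
    push Not at hcon
    have hle : Ideal.span s ≤ (⊥ : Ideal B) := by
      rw [Ideal.span_le]
      intro x hx
      simpa using hcon x hx
    rw [hs] at hle
    exact bot_ne_top (le_antisymm bot_le hle)
  haveI hdom : IsDomain (Localization.Away t) :=
    IsLocalization.isDomain_of_le_nonZeroDivisors (Localization.Away t)
      (powers_le_nonZeroDivisors_of_noZeroDivisors ht0)
  have hinjBt : Function.Injective (algebraMap B (Localization.Away t)) :=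
    IsLocalization.injective _ (powers_le_nonZeroDivisors_of_noZeroDivisors ht0)
  haveI hss : Algebra.IsStandardSmoothOfRelativeDimension 1 k (Localization.Away t) := hP t hts
  haveI hss' : Algebra.IsStandardSmooth k (Localization.Away t) :=
    Algebra.IsStandardSmoothOfRelativeDimension.isStandardSmooth 1
  haveI hfree : Module.Free (Localization.Away t) Ω[Localization.Away t⁄k] :=
    Algebra.IsStandardSmooth.free_kaehlerDifferential
  have hrank : Module.rank (Localization.Away t) Ω[Localization.Away t⁄k] = 1 := by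
    have := Algebra.IsStandardSmoothOfRelativeDimension.rank_kaehlerDifferential
      (R := k) (S := Localization.Away t) 1
    simpa using this
  have hrank' : Module.rank (Localization.Away t) Ω[Localization.Away t⁄k]
      = Module.rank (Localization.Away t) (Localization.Away t) := by
    rw [hrank, Module.rank_self]
  obtain ⟨e⟩ := nonempty_linearEquiv_of_rank_eq hrank'
  -- the localisation map on differentials
  let f : Ω[B⁄k] →ₗ[B] Ω[Localization.Away t⁄k] :=
    KaehlerDifferential.map k k B (Localization.Away t)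
  haveI hloc : IsLocalizedModule (Submonoid.powers t) f :=
    KaehlerDifferential.isLocalizedModule_map k B (Localization.Away t) (Submonoid.powers t)
  have hpow0 : ∀ c : Submonoid.powers t, (c : B) ≠ 0 := by
    rintro ⟨c, n, rfl⟩
    exact pow_ne_zero n ht0
  have hf_inj : Function.Injective f := by
    rw [injective_iff_map_eq_zero]
    intro ω hω
    obtain ⟨c, hc⟩ := (IsLocalizedModule.eq_zero_iff (Submonoid.powers t) f).mp hω
    have hc' : (c : B) • ω = 0 := hc
    exact (smul_eq_zero.mp hc').resolve_left (hpow0 c)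
  -- `Ω` is nontrivial
  haveI hnt : Nontrivial Ω[B⁄k] := by
    obtain ⟨⟨x, c⟩, hx⟩ := IsLocalizedModule.surj (Submonoid.powers t) f (e.symm 1)
    refine ⟨⟨x, 0, ?_⟩⟩
    rintro rfl
    rw [map_zero] at hx
    have h1 : (c : B) • (e.symm 1) = 0 := hx
    have h2 := congrArg e h1
    rw [map_zero, ← algebraMap_smul (Localization.Away t) (c : B) (e.symm 1), map_smul,
      e.apply_symm_apply, smul_eq_mul, mul_one] at h2
    exact hpow0 c (hinjBt (by rw [h2, map_zero]))
  -- the map to the fraction field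
  have hunit : IsUnit (algebraMap B (FractionRing B) t) := by
    rw [isUnit_iff_ne_zero, Ne, map_eq_zero_iff _ (IsFractionRing.injective B (FractionRing B))]
    exact ht0
  let g : Localization.Away t →+* FractionRing B := IsLocalization.Away.lift t hunit
  have hg_comp : ∀ b : B, g (algebraMap B (Localization.Away t) b)
      = algebraMap B (FractionRing B) b := fun b => IsLocalization.Away.lift_eq t hunit b
  have hg_inj : Function.Injective g := by
    rw [injective_iff_map_eq_zero]
    intro x hx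
    obtain ⟨⟨b, c⟩, hbc⟩ := IsLocalization.surj (Submonoid.powers t) x
    have h1 := congrArg g hbc
    rw [map_mul, hx, zero_mul, hg_comp] at h1
    have hb0 : b = 0 := by
      apply IsFractionRing.injective B (FractionRing B)
      rw [← h1, map_zero]
    rw [hb0, map_zero] at hbc
    have hc0 : algebraMap B (Localization.Away t) (c : B) ≠ 0 := by
      intro h
      exact hpow0 c (hinjBt (by rw [h, map_zero]))
    exact (mul_eq_zero.mp hbc).resolve_right hc0
  let gl : Localization.Away t →ₗ[B] FractionRing B :=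
    { toFun := g
      map_add' := map_add g
      map_smul' := by
        intro b x
        rw [Algebra.smul_def, map_mul, hg_comp, RingHom.id_apply, Algebra.smul_def] }
  let j : Ω[B⁄k] →ₗ[B] FractionRing B :=
    gl ∘ₗ (e.toLinearMap.restrictScalars B) ∘ₗ f
  have hj : Function.Injective j := by
    intro a b hab
    apply hf_inj
    apply e.injective
    apply hg_inj
    exact hab
  exact invertible_of_injective_to_fractionField j hj

end Omega

end Fermat.Agent.S25.H207

end
-- ===== PACK-END S25/H207/Omega.lean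

-- ===== PACK-BEGIN S25/H687/DDDefs.lean
section
/-
S25, block DICTDEG (helper687): interface statements (definitions of `Prop`s only).

`Stmt.DictDeg Ch` is assembled in `DDMain.lean` from
* the dictionary statements `DictSections`, `DictIso`, `DictBC`, `AlgBCExists` (frozen, row-lead),
* `DictUnit`   (block DICT): the unit bundle corresponds to the unit gluing datum,
* `BCId`, `BCComp`, `DegIso` (block GDC): identity / composition of base changes, degree is
  invariant under isomorphism,
* `DegConst`   (block DEGREE): over a domain all fibres of a gluing datum have the same degree,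
* `AbelAlg`    (block ABEL): the Abel family, with the hypothesis "degree zero" in algebraic form,
* `FamilyData` (block DICTDEG, scheme bookkeeping): an algebraic equivalence to zero yields two
  rigidified affine charts of the family which meet at the generic point.
-/


set_option autoImplicit false
universe u
open CategoryTheory CategoryTheory.Limits AlgebraicGeometry AlgebraicGeometry.RelPicard
  NeronModelInfra GoodReductionJacobian
open scoped TensorProduct

namespace Fermat.Agent.S25.H687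

noncomputable section

variable {k : Type u} [Field k] {C : Scheme.{u}} {c : C ⟶ Spec (CommRingCat.of k)}
  {ε : SchemeHomOver (𝟙 (Spec (CommRingCat.of k))) c}

section Alg

variable (k) (B₀ B₁ B₀₁ : Type u) [CommRing B₀] [CommRing B₁] [CommRing B₀₁]
  [Algebra k B₀] [Algebra k B₁] [Algebra k B₀₁] [Algebra B₀ B₀₁] [Algebra B₁ B₀₁]
  [IsScalarTower k B₀ B₀₁] [IsScalarTower k B₁ B₀₁]

/-- GDC: every gluing datum is a base change of itself along the identity. -/
def BCId : Prop :=
  ∀ (A : Type u) [CommRing A] [Algebra k A] (G : CurveGD k B₀ B₁ B₀₁ A),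
    CurveGD.IsBC (AlgHom.id k A) G G

/-- GDC: base changes compose. -/
def BCComp : Prop :=
  ∀ (A A' A'' : Type u) [CommRing A] [Algebra k A] [CommRing A'] [Algebra k A']
    [CommRing A''] [Algebra k A''] (φ : A →ₐ[k] A') (ψ : A' →ₐ[k] A'')
    (G : CurveGD k B₀ B₁ B₀₁ A) (G' : CurveGD k B₀ B₁ B₀₁ A') (G'' : CurveGD k B₀ B₁ B₀₁ A''),
    CurveGD.IsBC φ G G' → CurveGD.IsBC ψ G' G'' → CurveGD.IsBC (ψ.comp φ) G G''

/-- GDC: over a field, isomorphic gluing data have the same degree. -/
def DegIso : Prop :=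
  ∀ (K : Type u) [Field K] [Algebra k K] (G G' : CurveGD k B₀ B₁ B₀₁ K),
    G.IsIso G' → G.degree = G'.degree

/-- DEGREE: over a domain `A`, all fibres of a gluing datum have the same degree
(local constancy of the degree on the connected space `Spec A` + invariance under extension
of the base field). -/
def DegConst : Prop :=
  ∀ (x : B₀) (y : B₁) (e : B₁ →ₐ[k] k), IsCurveChart k B₀ B₁ B₀₁ x y e →
    ∀ (A : Type u) [CommRing A] [IsDomain A] [Algebra k A] (G : CurveGD k B₀ B₁ B₀₁ A)
      (K₁ K₂ : Type u) [Field K₁] [Field K₂] [Algebra k K₁] [Algebra k K₂]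
      (φ₁ : A →ₐ[k] K₁) (φ₂ : A →ₐ[k] K₂)
      (G₁ : CurveGD k B₀ B₁ B₀₁ K₁) (G₂ : CurveGD k B₀ B₁ B₀₁ K₂),
      CurveGD.IsBC φ₁ G G₁ → CurveGD.IsBC φ₂ G G₂ → G₁.degree = G₂.degree

end Alg

variable (Ch : ChartOf c ε)

/-- DICT: the unit line bundle corresponds to the unit gluing datum. -/
def DictUnit : Prop :=
  ∀ (A : Type u) [CommRing A] [Algebra k A],
    Corr Ch A (RigidifiedLineBundle.unit (c := c) (ε := ε) (specStr k A)).L
      (GlueDatum.unit A (A ⊗[k] Ch.B₀) (A ⊗[k] Ch.B₁) (A ⊗[k] Ch.B₀₁))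

/-- ABEL, algebraic form: a proper geometrically integral `X` with a rigidified family which is
trivial at a `k`-point `x₀` and has every line bundle of degree zero (in the sense of gluing
data) over an algebraically closed field as a fibre. -/
def AbelAlg : Prop :=
  ∃ (X : Scheme.{u}) (x : X ⟶ Spec (CommRingCat.of k)) (_ : IsProper x)
    (_ : GeometricallyIntegral x) (M : RigidifiedLineBundle c ε x)
    (x₀ : SchemeHomOver (𝟙 (Spec (CommRingCat.of k))) x),
    Nonempty ((M.pullbackAlong x₀).L ≅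
      SheafOfModules.unit (pullback c (𝟙 (Spec (CommRingCat.of k)))).ringCatSheaf) ∧
      ∀ (K : Type u) [Field K] [IsAlgClosed K] [Algebra k K]
        (L : RigidifiedLineBundle c ε (specStr k K)) (G : CurveGD k Ch.B₀ Ch.B₁ Ch.B₀₁ K),
        Corr Ch K L.L G → G.degree = 0 →
        ∃ p : SchemeHomOver (specStr k K) x, RIso (M.pullbackAlong p) L

end

section Family

variable {k : Type u} [Field k] {C : Scheme.{u}} (c : C ⟶ Spec (CommRingCat.of k))
  (ε : SchemeHomOver (𝟙 (Spec (CommRingCat.of k))) c)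

/-- FAMILY-DATA (scheme bookkeeping; no chart needed): an algebraic equivalence to zero of a
rigidified line bundle `L` over an algebraically closed field `K` yields two rigidified families
`N₀`, `N₁` over domains `A₀`, `A₁`, with `K`-points `a₀`, `a₁` at which the fibres are the trivial
bundle resp. `L`, and which become isomorphic over a common field `F` (the function field of
the parameter space). -/
def FamilyData : Prop :=
  ∀ (K : Type u) [Field K] [IsAlgClosed K] [Algebra k K]
    (L : RigidifiedLineBundle c ε (specStr k K)),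
    IsAlgEquivZero (pullback.snd c (specStr k K)) L.L →
    ∃ (A₀ A₁ F : Type u) (_ : CommRing A₀) (_ : CommRing A₁) (_ : Field F)
      (_ : IsDomain A₀) (_ : IsDomain A₁)
      (_ : Algebra k A₀) (_ : Algebra k A₁) (_ : Algebra k F)
      (N₀ : RigidifiedLineBundle c ε (specStr k A₀))
      (N₁ : RigidifiedLineBundle c ε (specStr k A₁))
      (a₀ : A₀ →ₐ[k] K) (a₁ : A₁ →ₐ[k] K) (b₀ : A₀ →ₐ[k] F) (b₁ : A₁ →ₐ[k] F),
      RIso (N₀.pullbackAlong (specHomOver k a₀)) (RigidifiedLineBundle.unit (specStr k K)) ∧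
      RIso (N₁.pullbackAlong (specHomOver k a₁)) L ∧
      RIso (N₀.pullbackAlong (specHomOver k b₀)) (N₁.pullbackAlong (specHomOver k b₁))

end Family

end Fermat.Agent.S25.H687

end
-- ===== PACK-END S25/H687/DDDefs.lean

-- ===== PACK-BEGIN S25/H265/GDCExist.lean
section


/-!
# S25 / helper265, block GDC, part 5: existence of semilinear base changes

* `exists_semiUP` : base changes exist (tensor product).
* `semiUP_ringHom` : `φ : A → A'` exhibits `A'` as the base change of `A` along `φ`.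
* `invertible_of_semiUP` : a base change of an invertible module is invertible.
* `semiUP_of_isBaseChange` / `isBaseChange_of_semiUP` : comparison with Mathlib's `IsBaseChange`
  for ambient algebra and module structures.
* `semiUP_mkQ` : `P → P ⧸ I • ⊤` is the base change along `A → A ⧸ I`.
-/

set_option autoImplicit false
set_option linter.style.haveILetI false

universe u

open scoped TensorProduct

namespace Fermat.Agent.S25.H265

open Fermat.Agent.S25

section Congr

variable {R R' : Type u} [CommRing R] [CommRing R']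
    {N N' : Type u} [AddCommGroup N] [Module R N] [AddCommGroup N'] [Module R' N']

/-- Transport of the universal property along equalities. -/
theorem SemiUP.congr {ρ ρ' : R →+* R'} (hρ : ρ = ρ') {b : N →ₛₗ[ρ] N'} {b' : N →ₛₗ[ρ'] N'}
    (hb : ∀ n, b n = b' n) (h : SemiUP ρ b) : SemiUP ρ' b' := by
  subst hρ
  have : b = b' := LinearMap.ext hb
  subst this
  exact h

end Congr

section Exist

variable {R R' : Type u} [CommRing R] [CommRing R'] (ρ : R →+* R')

/-- A ring map `ρ : R → R'`, as a `ρ`-semilinear map. -/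
def ringHomSemi : R →ₛₗ[ρ] R' where
  toFun := ρ
  map_add' := map_add ρ
  map_smul' := fun r x => by simp [smul_eq_mul]

@[simp] theorem ringHomSemi_apply (r : R) : ringHomSemi ρ r = ρ r := rfl

/-- `R'` is the base change of `R` along `ρ`. -/
theorem semiUP_ringHom : SemiUP ρ (ringHomSemi ρ) := by
  intro Q _ _ g
  refine ⟨LinearMap.toSpanSingleton R' Q (g 1), fun n => ?_, fun y hy => ?_⟩
  · rw [LinearMap.toSpanSingleton_apply, ringHomSemi_apply, ← LinearMap.map_smulₛₗ,
      smul_eq_mul, mul_one]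
  · ext
    have h1 := hy 1
    rw [ringHomSemi_apply, map_one] at h1
    rw [LinearMap.toSpanSingleton_apply, one_smul, h1]

variable (N : Type u) [AddCommGroup N] [Module R N]

/-- Comparison with Mathlib's `IsBaseChange`, for an ambient algebra structure. -/
theorem semiUP_of_isBaseChange [Algebra R R'] {N' : Type u} [AddCommGroup N'] [Module R N']
    [Module R' N'] [IsScalarTower R R' N'] (f : N →ₗ[R] N') (hf : IsBaseChange R' f)
    (b : N →ₛₗ[algebraMap R R'] N') (hb : ∀ n, b n = f n) : SemiUP (algebraMap R R') b := by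
  intro Q _ _ g
  letI : Module R Q := Module.compHom Q (algebraMap R R')
  haveI : IsScalarTower R R' Q := ⟨fun r r' n => by
    change (r • r') • n = algebraMap R R' r • (r' • n)
    rw [Algebra.smul_def, mul_smul]⟩
  let g₀ : N →ₗ[R] Q :=
    { toFun := fun n => g n
      map_add' := fun m n => g.map_add m n
      map_smul' := fun r n => LinearMap.map_smulₛₗ g r n }
  refine ⟨hf.lift g₀, fun n => by rw [hb]; exact hf.lift_eq g₀ n, fun g' hg' => ?_⟩
  exact hf.algHom_ext _ _ (fun n => by rw [← hb, hg']; exact (hb n ▸ hf.lift_eq g₀ n).symm)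

/-- Comparison with Mathlib's `IsBaseChange`, for an ambient algebra structure. -/
theorem isBaseChange_of_semiUP [Algebra R R'] {N' : Type u} [AddCommGroup N'] [Module R N']
    [Module R' N'] [IsScalarTower R R' N'] (f : N →ₗ[R] N')
    (b : N →ₛₗ[algebraMap R R'] N') (hb : ∀ n, b n = f n) (h : SemiUP (algebraMap R R') b) :
    IsBaseChange R' f := by
  apply IsBaseChange.of_lift_unique
  intro Q _ _ _ _ g
  let g₁ : N →ₛₗ[algebraMap R R'] Q :=
    { toFun := fun n => g n
      map_add' := fun m n => g.map_add m n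
      map_smul' := fun r n => by
        change g (r • n) = algebraMap R R' r • g n
        rw [g.map_smul, algebraMap_smul] }
  obtain ⟨g', hg', huniq⟩ := h Q g₁
  refine ⟨g', ?_, fun y hy => huniq y (fun n => ?_)⟩
  · ext n
    change g' (f n) = g n
    rw [← hb, hg']
    rfl
  · rw [hb]
    exact LinearMap.congr_fun hy n

/-- Base changes exist. -/
theorem exists_semiUP :
    ∃ (N' : Type u) (_ : AddCommGroup N') (_ : Module R' N') (b : N →ₛₗ[ρ] N'), SemiUP ρ b := by
  letI : Algebra R R' := ρ.toAlgebra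
  refine ⟨R' ⊗[R] N, inferInstance, inferInstance,
    { toFun := fun n => (1 : R') ⊗ₜ[R] n
      map_add' := fun m n => TensorProduct.tmul_add _ _ _
      map_smul' := fun r n => by
        change (1 : R') ⊗ₜ[R] (r • n) = ρ r • ((1 : R') ⊗ₜ[R] n)
        rw [TensorProduct.smul_tmul', smul_eq_mul, mul_one, ← TensorProduct.smul_tmul]
        congr 1
        change ρ r * 1 = ρ r
        rw [mul_one] }, ?_⟩
  exact semiUP_of_isBaseChange (R := R) (R' := R') N (TensorProduct.mk R R' N 1)
    (TensorProduct.isBaseChange R N R') _ (fun _ => rfl)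

variable {N}

/-- A base change of an invertible module is invertible. -/
theorem invertible_of_semiUP {N' : Type u} [AddCommGroup N'] [Module R' N'] {b : N →ₛₗ[ρ] N'}
    (h : SemiUP ρ b) [Module.Invertible R N] : Module.Invertible R' N' := by
  letI : Algebra R R' := ρ.toAlgebra
  have h' : SemiUP ρ
      ({ toFun := fun n => (1 : R') ⊗ₜ[R] n
         map_add' := fun m n => TensorProduct.tmul_add _ _ _
         map_smul' := fun r n => by
           change (1 : R') ⊗ₜ[R] (r • n) = ρ r • ((1 : R') ⊗ₜ[R] n)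
           rw [TensorProduct.smul_tmul', smul_eq_mul, mul_one, ← TensorProduct.smul_tmul]
           congr 1
           change ρ r * 1 = ρ r
           rw [mul_one] } : N →ₛₗ[ρ] R' ⊗[R] N) :=
    semiUP_of_isBaseChange (R := R) (R' := R') N (TensorProduct.mk R R' N 1)
      (TensorProduct.isBaseChange R N R') _ (fun _ => rfl)
  obtain ⟨e, -⟩ := h'.exists_equiv h
  exact Module.Invertible.congr e

end Exist

end Fermat.Agent.S25.H265

end
-- ===== PACK-END S25/H265/GDCExist.lean

-- ===== PACK-BEGIN S25/H986/AffineOpenHom.lean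
section




/-!
# S25 / block DICT: morphisms out of a quasi-coherent module, on an affine open

Let `P` be an affine open of a scheme `X`, `f = hP.fromSpec : Spec Γ(X, P) ⟶ X`, and `M`, `M'`
modules on `X` with `M` quasi-coherent.

* `smul_restrict_fromSpec` : the `Γ(X, P)`-module structure on the sections of `M.restrict f`.
* `existsUnique_restrictHom_of_linear` (**AD1**) : an additive map `Γ(M, P) → Γ(M', P)` which is
  `Γ(X, P)`-linear comes from a unique morphism `M.restrict f ⟶ M'.restrict f`.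
-/

set_option autoImplicit false

universe u

open CategoryTheory AlgebraicGeometry TopologicalSpace Opposite

namespace Fermat.Agent.S25.H986

noncomputable section

variable {X : Scheme.{u}} {P : X.Opens} (hP : IsAffineOpen P)

theorem fromSpec_image_le (V : (Spec Γ(X, P)).Opens) : hP.fromSpec ''ᵁ V ≤ P := by
  have h := hP.fromSpec.image_le_opensRange V
  rwa [hP.opensRange_fromSpec] at h

/-- The ring map `Γ(X, P) → Γ(Spec Γ(X, P), V) → Γ(X, fromSpec '' V)` is the restriction. -/
theorem ΓSpecIso_inv_map_appIso_inv (V : (Spec Γ(X, P)).Opens) (r : Γ(X, P)) :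
    (hP.fromSpec.appIso V).inv ((Spec Γ(X, P)).presheaf.map (homOfLE (le_top : V ≤ ⊤)).op
      ((Scheme.ΓSpecIso Γ(X, P)).inv r)) =
    X.presheaf.map (homOfLE (fromSpec_image_le hP V)).op r := by
  have e : V ≤ hP.fromSpec ⁻¹ᵁ P := by rw [hP.fromSpec_preimage_self]; exact le_top
  have h1 := Scheme.Hom.appLE_appIso_inv hP.fromSpec e
  have h2 : hP.fromSpec.appLE P V e =
      (Scheme.ΓSpecIso Γ(X, P)).inv ≫
        (Spec Γ(X, P)).presheaf.map (homOfLE (le_top : V ≤ ⊤)).op := by
    rw [Scheme.Hom.appLE, hP.fromSpec_app_self, Category.assoc, ← Functor.map_comp]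
    rfl
  rw [h2] at h1
  exact congr($h1 r)

open Fermat.Agent.S25.H926 in
/-- The `Γ(X, P)`-module structure on the sections of `M.restrict hP.fromSpec` over `V` is the
restriction of scalars along `Γ(X, P) → Γ(X, fromSpec '' V)` of the module structure of
`Γ(M, fromSpec '' V)`. -/
theorem smul_restrict_fromSpec (M : X.Modules) (V : (Spec Γ(X, P)).Opens) (r : Γ(X, P))
    (s : Γ(M.restrict hP.fromSpec, V)) :
    ofRestr hP.fromSpec M V (r • s) =
      X.presheaf.map (homOfLE (fromSpec_image_le hP V)).op r • ofRestr hP.fromSpec M V s := by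
  rw [Scheme.Modules.smul_Spec_def, ofRestr_smul]
  congr 1
  exact ΓSpecIso_inv_map_appIso_inv hP V r

theorem le_fromSpec_image_top : P ≤ hP.fromSpec ''ᵁ ⊤ := by
  rw [Scheme.Hom.image_top_eq_opensRange, hP.opensRange_fromSpec]

theorem le_opensRange_fromSpec : P ≤ hP.fromSpec.opensRange := by
  rw [hP.opensRange_fromSpec]

/-- Restriction maps compose (functions). -/
theorem presheaf_map_map_fun (X : Scheme.{u}) {U₁ U₂ U₃ : X.Opens} (i : U₁ ⟶ U₂) (j : U₂ ⟶ U₃)
    (l : U₁ ⟶ U₃) (x : Γ(X, U₃)) :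
    X.presheaf.map i.op (X.presheaf.map j.op x) = X.presheaf.map l.op x := by
  rw [← CommRingCat.comp_apply, ← Functor.map_comp, ← op_comp]
  rw [Subsingleton.elim (i ≫ j) l]

theorem presheaf_map_self_fun (X : Scheme.{u}) {U₁ : X.Opens} (i : U₁ ⟶ U₁) (x : Γ(X, U₁)) :
    X.presheaf.map i.op x = x := by
  rw [Subsingleton.elim i (𝟙 _)]
  simp

open Fermat.Agent.S25.H926 in
/-- The `Γ(X, P)`-linear map on global sections of the restrictions to `Spec Γ(X, P)` attached to
a `Γ(X, P)`-linear map `Γ(M, P) → Γ(M', P)`. -/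
def specLinearMap (M M' : X.Modules) (h : Γ(M, P) →+ Γ(M', P))
    (hlin : ∀ (r : Γ(X, P)) (s : Γ(M, P)), h (r • s) = r • h s) :
    Γ(M.restrict hP.fromSpec, ⊤) →ₗ[Γ(X, P)] Γ(M'.restrict hP.fromSpec, ⊤) where
  toFun s := toRestr hP.fromSpec M' ⊤
    (M'.presheaf.map (homOfLE (fromSpec_image_le hP ⊤)).op
      (h (M.presheaf.map (homOfLE (le_fromSpec_image_top hP)).op (ofRestr hP.fromSpec M ⊤ s))))
  map_add' s t := by simp only [map_add]
  map_smul' r s := by
    apply (show Function.Injective (ofRestr hP.fromSpec M' ⊤) from fun _ _ h => h)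
    rw [RingHom.id_apply, smul_restrict_fromSpec, smul_restrict_fromSpec, ofRestr_toRestr,
      ofRestr_toRestr, Scheme.Modules.map_smul, presheaf_map_map_fun X _ _ (𝟙 _),
      presheaf_map_self_fun, hlin, Scheme.Modules.map_smul]

open Fermat.Agent.S25.H926 in
/-- **AD1.** Let `P` be an affine open of `X` and `M` a quasi-coherent module on `X`. A
`Γ(X, P)`-linear map `h : Γ(M, P) → Γ(M', P)` comes from a unique morphism between the
restrictions of `M` and `M'` to `Spec Γ(X, P)`. -/
theorem existsUnique_restrictHom_of_linear (M M' : X.Modules) [M.IsQuasicoherent]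
    (h : Γ(M, P) →+ Γ(M', P))
    (hlin : ∀ (r : Γ(X, P)) (s : Γ(M, P)), h (r • s) = r • h s) :
    ∃! φ : M.restrict hP.fromSpec ⟶ M'.restrict hP.fromSpec,
      ∀ s : Γ(M, P), sectionMap hP.fromSpec φ P (le_opensRange_fromSpec hP) s = h s := by
  have key : ∀ (φ : M.restrict hP.fromSpec ⟶ M'.restrict hP.fromSpec),
      (∀ s : Γ(M, P), sectionMap hP.fromSpec φ P (le_opensRange_fromSpec hP) s = h s) ↔
      ∀ s : Γ(M.restrict hP.fromSpec, ⊤), φ.app ⊤ s = specLinearMap hP M M' h hlin s := by
    intro φ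
    have hnat := fun s => sectionMap_map hP.fromSpec φ (le_opensRange_fromSpec hP)
      (fromSpec_image_le hP ⊤) s
    constructor
    · intro H s
      have h1 := hnat (M.presheaf.map (homOfLE (le_fromSpec_image_top hP)).op
        (ofRestr hP.fromSpec M ⊤ s))
      rw [presheaf_map_map M _ _ (𝟙 _), presheaf_map_self, H, sectionMap_image] at h1
      exact h1
    · intro H s
      have h1 := hnat s
      rw [sectionMap_image] at h1
      have h2 := H (toRestr hP.fromSpec M ⊤
        (M.presheaf.map (homOfLE (fromSpec_image_le hP ⊤)).op s))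
      have h3 : imageMap hP.fromSpec φ ⊤ (M.presheaf.map (homOfLE (fromSpec_image_le hP ⊤)).op s) =
          M'.presheaf.map (homOfLE (fromSpec_image_le hP ⊤)).op
            (h (M.presheaf.map (homOfLE (le_fromSpec_image_top hP)).op
              (M.presheaf.map (homOfLE (fromSpec_image_le hP ⊤)).op s))) := h2
      rw [presheaf_map_map M _ _ (𝟙 _), presheaf_map_self] at h3
      rw [h3] at h1
      have h4 := congrArg (M'.presheaf.map (homOfLE (le_fromSpec_image_top hP)).op) h1
      rw [presheaf_map_map M' _ _ (𝟙 _), presheaf_map_self, presheaf_map_map M' _ _ (𝟙 _),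
        presheaf_map_self] at h4
      exact h4.symm
  haveI : (M.restrict hP.fromSpec).IsQuasicoherent := inferInstance
  obtain ⟨φ, hφ, huniq⟩ := existsUnique_hom_of_ΓLinearMap (M.restrict hP.fromSpec)
    (M'.restrict hP.fromSpec) (specLinearMap hP M M' h hlin)
  exact ⟨φ, (key φ).mpr hφ, fun ψ hψ => huniq ψ ((key ψ).mp hψ)⟩

end

end Fermat.Agent.S25.H986

end
-- ===== PACK-END S25/H986/AffineOpenHom.lean

-- ===== PACK-BEGIN S25/H506/AlgVal.lean
section




/-!
# S25, block ALGVAL: `Stmt.AlgVal` (Gauss lemma route)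

Over a valuation ring `V ⊇ k` with fraction field `K`, two gluing data on the curve chart
which become isomorphic over `K` are isomorphic.  No degree hypothesis is needed: only that
`κ ⊗[k] B₀`, `κ ⊗[k] B₁`, `κ ⊗[k] B₀₁` are domains (or `B₀₁ = 0`), `κ` the residue field of `V`.
-/

set_option autoImplicit false
set_option linter.unusedSectionVars false
set_option linter.style.haveILetI false
universe u
open scoped TensorProduct
open IsLocalRing

namespace Fermat.Agent.S25.H506

open Fermat.Agent.S25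

section Main

variable {k : Type u} [Field k]
variable {B₀ B₁ B₀₁ : Type u} [CommRing B₀] [CommRing B₁] [CommRing B₀₁]
  [Algebra k B₀] [Algebra k B₁] [Algebra k B₀₁] [Algebra B₀ B₀₁] [Algebra B₁ B₀₁]
  [IsScalarTower k B₀ B₀₁] [IsScalarTower k B₁ B₀₁]
variable {V : Type u} [CommRing V] [IsDomain V] [ValuationRing V] [Algebra k V]
  {K : Type u} [Field K] [Algebra V K] [IsFractionRing V K] [Algebra k K] [IsScalarTower k V K]

/-- Compatibility of `genMap` with the maps `A ⊗ B → A ⊗ B'`. -/
theorem genMap_algebraMap_right (B B' : Type u) [CommRing B] [CommRing B'] [Algebra k B]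
    [Algebra k B'] [Algebra B B'] [IsScalarTower k B B'] (x : V ⊗[k] B) :
    genMap k V K B' (algebraMap (V ⊗[k] B) (V ⊗[k] B') x) =
      algebraMap (K ⊗[k] B) (K ⊗[k] B') (genMap k V K B x) := by
  induction x using TensorProduct.induction_on with
  | zero => simp
  | tmul v β =>
    change genMap k V K B' (tensorMapRight k V B B' (v ⊗ₜ β)) =
      tensorMapRight k K B B' (genMap k V K B (v ⊗ₜ β))
    simp [tensorMapRight]
  | add x y hx hy => rw [map_add, map_add, map_add, map_add, hx, hy]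

/-- **ALGVAL, general form.** -/
theorem isIso_of_isIso_generic
    (hP₀ : (maxMap V (V ⊗[k] B₀)).IsPrime) (hP₁ : (maxMap V (V ⊗[k] B₁)).IsPrime)
    (hP₀₁ : Subsingleton (V ⊗[k] B₀₁) ∨ (maxMap V (V ⊗[k] B₀₁)).IsPrime)
    (G G' : CurveGD k B₀ B₁ B₀₁ V) (GK GK' : CurveGD k B₀ B₁ B₀₁ K)
    (hG : CurveGD.IsBC (IsScalarTower.toAlgHom k V K) G GK)
    (hG' : CurveGD.IsBC (IsScalarTower.toAlgHom k V K) G' GK')
    (hK : GK.IsIso GK') : G.IsIso G' := by
  obtain ⟨bc⟩ := hG
  obtain ⟨bc'⟩ := hG'
  obtain ⟨isoK⟩ := hK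
  haveI := G.invertible₀
  haveI := G.invertible₁
  haveI := G'.invertible₀
  haveI := G'.invertible₁
  haveI : Module.Invertible (V ⊗[k] B₀₁) G.N₀₁ :=
    Module.Invertible.congr G.isBaseChange₀.equiv
  haveI : Module.Invertible (V ⊗[k] B₀₁) G'.N₀₁ :=
    Module.Invertible.congr G'.isBaseChange₀.equiv
  -- generic localisations
  have L₀ : IsGenericLoc V (genMap k V K B₀) bc.b₀ :=
    isGenericLoc_of_isSemilinearBaseChange _ (genMap_injective k V K B₀) (genMap_loc k V K B₀)
      (fun _ _ => mul_ne_zero) bc.b₀ bc.isBaseChange₀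
  have L₀' : IsGenericLoc V (genMap k V K B₀) bc'.b₀ :=
    isGenericLoc_of_isSemilinearBaseChange _ (genMap_injective k V K B₀) (genMap_loc k V K B₀)
      (fun _ _ => mul_ne_zero) bc'.b₀ bc'.isBaseChange₀
  have L₁ : IsGenericLoc V (genMap k V K B₁) bc.b₁ :=
    isGenericLoc_of_isSemilinearBaseChange _ (genMap_injective k V K B₁) (genMap_loc k V K B₁)
      (fun _ _ => mul_ne_zero) bc.b₁ bc.isBaseChange₁
  have L₁' : IsGenericLoc V (genMap k V K B₁) bc'.b₁ :=
    isGenericLoc_of_isSemilinearBaseChange _ (genMap_injective k V K B₁) (genMap_loc k V K B₁)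
      (fun _ _ => mul_ne_zero) bc'.b₁ bc'.isBaseChange₁
  have L₀₁' : IsGenericLoc V (genMap k V K B₀₁) bc'.b₀₁ :=
    isGenericLoc_of_isSemilinearBaseChange _ (genMap_injective k V K B₀₁)
      (genMap_loc k V K B₀₁) (fun _ _ => mul_ne_zero) bc'.b₀₁ bc'.isBaseChange₀₁
  -- the core on the two charts
  obtain ⟨a₀, a₀', ha₀, ha₀', e₀, he₀⟩ := exists_equiv_of_loc L₀ L₀' isoK.e₀
  obtain ⟨a₁, a₁', ha₁, ha₁', e₁, he₁⟩ := exists_equiv_of_loc L₁ L₁' isoK.e₁
  -- base change to the overlap
  let E₀ : G.N₀₁ ≃ₗ[V ⊗[k] B₀₁] G'.N₀₁ := baseChangeEquiv G.isBaseChange₀ G'.isBaseChange₀ e₀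
  let E₁ : G.N₀₁ ≃ₗ[V ⊗[k] B₀₁] G'.N₀₁ := baseChangeEquiv G.isBaseChange₁ G'.isBaseChange₁ e₁
  have hE₀ : ∀ s, E₀ (G.r₀ s) = G'.r₀ (e₀ s) := baseChangeEquiv_apply _ _ _
  have hE₁ : ∀ s, E₁ (G.r₁ s) = G'.r₁ (e₁ s) := baseChangeEquiv_apply _ _ _
  rcases hP₀₁ with hsub | hP₀₁
  · -- degenerate case: the overlap is empty
    haveI : Subsingleton G'.N₀₁ := Module.subsingleton (V ⊗[k] B₀₁) _
    exact ⟨⟨e₀, e₁, E₀, fun s => Subsingleton.elim _ _, fun s => Subsingleton.elim _ _⟩⟩
  · have rel₀ : ∀ z, genMap k V K B₀₁ (algebraMap V (V ⊗[k] B₀₁) a₀') • bc'.b₀₁ (E₀ z) =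
        genMap k V K B₀₁ (algebraMap V (V ⊗[k] B₀₁) a₀) • isoK.e₀₁ (bc.b₀₁ z) := by
      intro z
      have := overlap_rel (ρ := genMap k V K B₀) (σ := genMap k V K B₀₁)
        (genMap_algebraMap_right B₀ B₀₁) G.isBaseChange₀ (r' := G'.r₀) (rK := GK.r₀)
        (rK' := GK'.r₀) (b := bc.b₀) (b' := bc'.b₀) (bM := bc.b₀₁) (bM' := bc'.b₀₁)
        bc.comm₀ bc'.comm₀ (f := isoK.e₀) (fM := isoK.e₀₁) isoK.comm₀ (e := e₀) (E := E₀) hE₀
        (c := algebraMap V _ a₀) (c' := algebraMap V _ a₀') he₀ z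
      rwa [← IsScalarTower.algebraMap_apply, ← IsScalarTower.algebraMap_apply] at this
    have rel₁ : ∀ z, genMap k V K B₀₁ (algebraMap V (V ⊗[k] B₀₁) a₁') • bc'.b₀₁ (E₁ z) =
        genMap k V K B₀₁ (algebraMap V (V ⊗[k] B₀₁) a₁) • isoK.e₀₁ (bc.b₀₁ z) := by
      intro z
      have := overlap_rel (ρ := genMap k V K B₁) (σ := genMap k V K B₀₁)
        (genMap_algebraMap_right B₁ B₀₁) G.isBaseChange₁ (r' := G'.r₁) (rK := GK.r₁)
        (rK' := GK'.r₁) (b := bc.b₁) (b' := bc'.b₁) (bM := bc.b₀₁) (bM' := bc'.b₀₁)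
        bc.comm₁ bc'.comm₁ (f := isoK.e₁) (fM := isoK.e₀₁) isoK.comm₁ (e := e₁) (E := E₁) hE₁
        (c := algebraMap V _ a₁) (c' := algebraMap V _ a₁') he₁ z
      rwa [← IsScalarTower.algebraMap_apply, ← IsScalarTower.algebraMap_apply] at this
    have cmp : ∀ z, algebraMap V (V ⊗[k] B₀₁) (a₁ * a₀') • E₀ z =
        algebraMap V (V ⊗[k] B₀₁) (a₀ * a₁') • E₁ z := by
      intro z
      apply L₀₁'.inj
      rw [LinearMap.map_smulₛₗ, LinearMap.map_smulₛₗ, map_mul, map_mul, map_mul, map_mul,
        mul_smul, mul_smul, rel₀, rel₁, smul_comm]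
    obtain ⟨u, hu⟩ := exists_unit_smul_eq E₀ E₁ (mul_ne_zero ha₁ ha₀') (mul_ne_zero ha₀ ha₁') cmp
    let U : (V ⊗[k] B₁)ˣ := Units.map (algebraMap V (V ⊗[k] B₁)).toMonoidHom u
    refine ⟨⟨e₀, e₁ ≪≫ₗ LinearEquiv.smulOfUnit U, E₀, hE₀, fun s => ?_⟩⟩
    rw [hu, hE₁]
    change _ = G'.r₁ ((U : V ⊗[k] B₁) • e₁ s)
    rw [map_smul, ← algebraMap_smul (V ⊗[k] B₀₁) (U : V ⊗[k] B₁) (G'.r₁ (e₁ s))]
    congr 1
    exact IsScalarTower.algebraMap_apply V (V ⊗[k] B₁) (V ⊗[k] B₀₁) (u : V)

/-- **ALGVAL** (`Stmt.AlgVal`, frozen statement of `DefsAlg.lean`) over an algebraically closed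
field.  The degree hypotheses are not used. -/
theorem algVal [IsAlgClosed k] : Stmt.AlgVal k B₀ B₁ B₀₁ := by
  intro x y e hC V _ _ _ _ K _ _ _ _ _ G G' GK GK' _ _ hG hG' hK
  haveI := hC.isDomain₀
  haveI := hC.isDomain₁
  have hP₀ : (maxMap V (V ⊗[k] B₀)).IsPrime := by
    haveI : IsDomain (ResidueField V ⊗[k] B₀) :=
      H567.isDomain_tensorProduct_of_isAlgClosed k _ _
    exact maxMap_isPrime V B₀
  have hP₁ : (maxMap V (V ⊗[k] B₁)).IsPrime := by
    haveI : IsDomain (ResidueField V ⊗[k] B₁) :=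
      H567.isDomain_tensorProduct_of_isAlgClosed k _ _
    exact maxMap_isPrime V B₁
  have hP₀₁ : Subsingleton (V ⊗[k] B₀₁) ∨ (maxMap V (V ⊗[k] B₀₁)).IsPrime := by
    rcases subsingleton_or_nontrivial B₀₁ with hs | hn
    · left
      refine subsingleton_of_zero_eq_one ?_
      rw [Algebra.TensorProduct.one_def, Subsingleton.elim (1 : B₀₁) 0, TensorProduct.tmul_zero]
    · right
      haveI : IsLocalization (Submonoid.powers x) B₀₁ := hC.away₀
      have hx : x ≠ 0 := by
        rintro rfl
        haveI : Subsingleton B₀₁ :=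
          IsLocalization.subsingleton (M := Submonoid.powers (0 : B₀)) (S := B₀₁)
            ⟨1, by simp⟩
        exact not_subsingleton B₀₁ ‹_›
      haveI : IsDomain B₀₁ :=
        IsLocalization.isDomain_of_le_nonZeroDivisors (M := Submonoid.powers x) B₀₁
          (powers_le_nonZeroDivisors_of_noZeroDivisors hx)
      haveI : IsDomain (ResidueField V ⊗[k] B₀₁) :=
        H567.isDomain_tensorProduct_of_isAlgClosed k _ _
      exact maxMap_isPrime V B₀₁
  exact isIso_of_isIso_generic hP₀ hP₁ hP₀₁ G G' GK GK' hG hG' hK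

end Main

end Fermat.Agent.S25.H506

end
-- ===== PACK-END S25/H506/AlgVal.lean

-- ===== PACK-BEGIN S25/H567/FibrePower.lean
section



/-!
# Fibre powers `C^n` of a proper integral scheme over an algebraically closed field (helper567)

Blueprint leaf A3 of row S25 (block ABEL), Mathlib only.

`FibrePower c n` packages an `n`-fold fibre power of `c : C ⟶ S` together with its projections
and its universal property.  `fibrePower c n` is the standard model (iterated `pullback`).
Over `S = Spec k`, `k` algebraically closed, with `C` integral and `c` proper, the structure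
morphism of `C^n` is proper and geometrically integral, and `C^n` is integral.
-/

set_option autoImplicit false

universe u

open CategoryTheory CategoryTheory.Limits AlgebraicGeometry

namespace Fermat.Agent.S25.H567

noncomputable section

/-- An `n`-fold fibre power of `c : C ⟶ S`, with projections and universal property. -/
structure FibrePower {C S : Scheme.{u}} (c : C ⟶ S) (n : ℕ) where
  /-- the total space -/
  X : Scheme.{u}
  /-- the structure morphism -/
  x : X ⟶ S
  /-- the projections -/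
  pr : Fin n → (X ⟶ C)
  pr_comp : ∀ i, pr i ≫ c = x
  /-- the morphism determined by a tuple of `S`-morphisms to `C` -/
  lift : ∀ {T : Scheme.{u}} (t : T ⟶ S) (p : Fin n → (T ⟶ C)), (∀ i, p i ≫ c = t) → (T ⟶ X)
  lift_x : ∀ {T : Scheme.{u}} (t : T ⟶ S) (p : Fin n → (T ⟶ C)) (hp : ∀ i, p i ≫ c = t),
    lift t p hp ≫ x = t
  lift_pr : ∀ {T : Scheme.{u}} (t : T ⟶ S) (p : Fin n → (T ⟶ C)) (hp : ∀ i, p i ≫ c = t)
    (i : Fin n), lift t p hp ≫ pr i = p i
  hom_ext : ∀ {T : Scheme.{u}} (g g' : T ⟶ X), g ≫ x = g' ≫ x →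
    (∀ i, g ≫ pr i = g' ≫ pr i) → g = g'

namespace FibrePower

variable {C S : Scheme.{u}} (c : C ⟶ S)

/-- The zeroth fibre power is the base. -/
def zero : FibrePower c 0 where
  X := S
  x := 𝟙 S
  pr := Fin.elim0
  pr_comp := fun i => i.elim0
  lift := fun t _ _ => t
  lift_x := fun t _ _ => Category.comp_id t
  lift_pr := fun _ _ _ i => i.elim0
  hom_ext := fun g g' h _ => by simpa using h

variable {c}

/-- The next fibre power: `C ×_S C^n`. -/
def succ {n : ℕ} (P : FibrePower c n) : FibrePower c (n + 1) where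
  X := pullback c P.x
  x := pullback.fst c P.x ≫ c
  pr := Fin.cons (pullback.fst c P.x) (fun i => pullback.snd c P.x ≫ P.pr i)
  pr_comp := by
    intro i
    refine Fin.cases ?_ (fun j => ?_) i
    · simp
    · simp only [Fin.cons_succ, Category.assoc, P.pr_comp]
      exact pullback.condition.symm
  lift := fun {T} t p hp =>
    pullback.lift (p 0) (P.lift t (fun i => p i.succ) (fun i => hp i.succ))
      (by rw [hp 0, P.lift_x])
  lift_x := by
    intro T t p hp
    rw [pullback.lift_fst_assoc]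
    exact hp 0
  lift_pr := by
    intro T t p hp i
    refine Fin.cases ?_ (fun j => ?_) i
    · simp only [Fin.cons_zero, pullback.lift_fst]
    · simp only [Fin.cons_succ, pullback.lift_snd_assoc]
      exact P.lift_pr t _ _ j
  hom_ext := by
    intro T g g' h hpr
    apply pullback.hom_ext
    · simpa using hpr 0
    · apply P.hom_ext
      · have h1 : pullback.snd c P.x ≫ P.x = pullback.fst c P.x ≫ c := pullback.condition.symm
        rw [Category.assoc, Category.assoc, h1, ← Category.assoc, ← Category.assoc]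
        exact h
      · intro i
        have := hpr i.succ
        simpa only [Fin.cons_succ, Category.assoc] using this

/-- Morphisms to the fibre power over `S` are tuples of morphisms to `C` over `S`. -/
def homEquiv {n : ℕ} (P : FibrePower c n) {T : Scheme.{u}} (t : T ⟶ S) :
    {g : T ⟶ P.X // g ≫ P.x = t} ≃ {p : Fin n → (T ⟶ C) // ∀ i, p i ≫ c = t} where
  toFun g := ⟨fun i => g.1 ≫ P.pr i, fun i => by rw [Category.assoc, P.pr_comp, g.2]⟩
  invFun p := ⟨P.lift t p.1 p.2, P.lift_x t p.1 p.2⟩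
  left_inv g := by
    apply Subtype.ext
    apply P.hom_ext
    · rw [P.lift_x, g.2]
    · intro i
      rw [P.lift_pr]
  right_inv p := by
    apply Subtype.ext
    funext i
    exact P.lift_pr t p.1 p.2 i

end FibrePower

/-- The standard `n`-fold fibre power (iterated pullbacks). -/
def fibrePower {C S : Scheme.{u}} (c : C ⟶ S) : (n : ℕ) → FibrePower c n
  | 0 => FibrePower.zero c
  | n + 1 => (fibrePower c n).succ

section Properties

variable {C S : Scheme.{u}} (c : C ⟶ S)

theorem fibrePower_succ_X (n : ℕ) :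
    (fibrePower c (n + 1)).X = pullback c (fibrePower c n).x := rfl

theorem fibrePower_succ_x (n : ℕ) :
    (fibrePower c (n + 1)).x = pullback.fst c (fibrePower c n).x ≫ c := rfl

theorem fibrePower_succ_x' (n : ℕ) :
    (fibrePower c (n + 1)).x = pullback.snd c (fibrePower c n).x ≫ (fibrePower c n).x :=
  pullback.condition

/-- Fibre powers of a proper morphism are proper. -/
theorem isProper_fibrePower [IsProper c] (n : ℕ) : IsProper (fibrePower c n).x := by
  induction n with
  | zero => exact (inferInstance : IsProper (𝟙 S))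
  | succ n ih =>
    have h : IsProper (pullback.snd c (fibrePower c n).x ≫ (fibrePower c n).x) := inferInstance
    rw [fibrePower_succ_x']
    exact h

/-- Fibre powers of a morphism locally of finite type are locally of finite type. -/
theorem locallyOfFiniteType_fibrePower [LocallyOfFiniteType c] (n : ℕ) :
    LocallyOfFiniteType (fibrePower c n).x := by
  induction n with
  | zero => exact (inferInstance : LocallyOfFiniteType (𝟙 S))
  | succ n ih =>
    have h : LocallyOfFiniteType (pullback.snd c (fibrePower c n).x ≫ (fibrePower c n).x) :=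
      inferInstance
    rw [fibrePower_succ_x']
    exact h

end Properties

section Field

variable {k : Type u} [Field k] {C : Scheme.{u}}
  (c : C ⟶ Spec (CommRingCat.of k))

/-- Fibre powers over a field are locally noetherian. -/
theorem isLocallyNoetherian_fibrePower [LocallyOfFiniteType c] (n : ℕ) :
    IsLocallyNoetherian (fibrePower c n).X := by
  have := locallyOfFiniteType_fibrePower c n
  exact LocallyOfFiniteType.isLocallyNoetherian (fibrePower c n).x

variable [IsAlgClosed k]

/-- Fibre powers of an integral scheme locally of finite type over an algebraically closed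
field are integral. -/
theorem isIntegral_fibrePower [LocallyOfFiniteType c] [IsIntegral C] (n : ℕ) :
    IsIntegral (fibrePower c n).X := by
  induction n with
  | zero => exact (inferInstance : IsIntegral (Spec (CommRingCat.of k)))
  | succ n ih =>
    have h1 : IsLocallyNoetherian C := LocallyOfFiniteType.isLocallyNoetherian c
    have h2 := isLocallyNoetherian_fibrePower c n
    rw [fibrePower_succ_X]
    exact isIntegral_pullback_of_isIntegral c (fibrePower c n).x

/-- **Fibre powers of an integral scheme locally of finite type over an algebraically closed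
field are geometrically integral.** -/
theorem geometricallyIntegral_fibrePower [LocallyOfFiniteType c] [IsIntegral C] (n : ℕ) :
    GeometricallyIntegral (fibrePower c n).x := by
  have h1 := isIntegral_fibrePower c n
  have h2 := isLocallyNoetherian_fibrePower c n
  exact geometricallyIntegral_of_isAlgClosed (fibrePower c n).x

/-- Summary (blueprint A3): for a proper integral `k`-scheme `C`, `k` algebraically closed,
`C^n ⟶ Spec k` is proper and geometrically integral, and `C^n` is integral. -/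
theorem fibrePower_isProper_and_geometricallyIntegral [IsProper c] [IsIntegral C] (n : ℕ) :
    IsProper (fibrePower c n).x ∧ GeometricallyIntegral (fibrePower c n).x ∧
      IsIntegral (fibrePower c n).X :=
  ⟨isProper_fibrePower c n, geometricallyIntegral_fibrePower c n, isIntegral_fibrePower c n⟩

end Field

end

end Fermat.Agent.S25.H567

end
-- ===== PACK-END S25/H567/FibrePower.lean

-- ===== PACK-BEGIN S25/H747/CartierMul.lean
section
/-
S25 / block ABEL, sub-block AB-ALG (helper747), leaf G5: products of invertible ideals are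
invertible; Cartier triples on a cospan of localizations; products of Cartier triples.
-/


set_option autoImplicit false
universe u
open scoped TensorProduct

namespace Fermat.Agent.S25.H747

open Fermat.Agent.S25

section Mul

variable {R : Type u} [CommRing R]

/-- The multiplication map `I ⊗ J → R`. -/
noncomputable def idealMulMap (I J : Ideal R) : I ⊗[R] J →ₗ[R] R :=
  TensorProduct.lift ((LinearMap.mul R R).compl₁₂ I.subtype J.subtype)

@[simp] theorem idealMulMap_tmul (I J : Ideal R) (a : I) (b : J) :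
    idealMulMap I J (a ⊗ₜ[R] b) = (a : R) * (b : R) := by
  simp [idealMulMap]

theorem range_idealMulMap (I J : Ideal R) : LinearMap.range (idealMulMap I J) = I * J := by
  apply le_antisymm
  · rintro _ ⟨z, rfl⟩
    induction z using TensorProduct.induction_on with
    | zero => simp
    | tmul a b => simpa using Ideal.mul_mem_mul a.2 b.2
    | add z w hz hw => rw [map_add]; exact Ideal.add_mem _ hz hw
  · rw [Ideal.mul_le]
    intro a ha b hb
    exact ⟨(⟨a, ha⟩ : I) ⊗ₜ[R] (⟨b, hb⟩ : J), by simp⟩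

theorem idealMulMap_injective (I J : Ideal R) [Module.Flat R J] :
    Function.Injective (idealMulMap I J) := by
  have h1 : Function.Injective (LinearMap.rTensor J I.subtype) :=
    Module.Flat.rTensor_preserves_injective_linearMap _ I.subtype_injective
  have h2 : idealMulMap I J =
      (J.subtype ∘ₗ (TensorProduct.lid R J).toLinearMap) ∘ₗ LinearMap.rTensor J I.subtype := by
    ext a b
    simp
  rw [h2]
  exact (J.subtype_injective.comp (TensorProduct.lid R J).injective).comp h1

/-- `I ⊗ J ≃ I * J` for a flat ideal `J`. -/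
noncomputable def tensorEquivMul (I J : Ideal R) [Module.Flat R J] :
    I ⊗[R] J ≃ₗ[R] ↥(I * J) :=
  (LinearEquiv.ofInjective (idealMulMap I J) (idealMulMap_injective I J)).trans
    (LinearEquiv.ofEq _ _ (range_idealMulMap I J))

@[simp] theorem tensorEquivMul_tmul (I J : Ideal R) [Module.Flat R J] (a : I) (b : J) :
    ((tensorEquivMul I J (a ⊗ₜ[R] b) : ↥(I * J)) : R) = (a : R) * (b : R) := by
  simp [tensorEquivMul]

/-- The product of two invertible ideals is invertible. -/
theorem invertible_mul (I J : Ideal R) [Module.Invertible R I] [Module.Invertible R J] :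
    Module.Invertible R ↥(I * J) :=
  Module.Invertible.congr (tensorEquivMul I J)

/-- The unit ideal is invertible. -/
theorem invertible_top : Module.Invertible R (⊤ : Ideal R) :=
  Module.Invertible.congr (Submodule.topEquiv (R := R) (M := R)).symm

theorem invertible_one : Module.Invertible R (1 : Ideal R) := by
  rw [Ideal.one_eq_top]; exact invertible_top

end Mul

section Loc

variable {R S : Type u} [CommRing R] [CommRing S] [Algebra R S]

/-- For a localization `R → S`, the restriction `I → I·S` is a base change. -/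
theorem isBaseChange_idealRes_of_isLocalization (M : Submonoid R) [IsLocalization M S]
    (I : Ideal R) (J : Ideal S) (h : I.map (algebraMap R S) = J) :
    IsBaseChange S (idealRes I J h.le) := by
  subst h
  have h1 : IsLocalizedModule M (Algebra.idealMap S I) := inferInstance
  have h2 : IsBaseChange S (Algebra.idealMap S I) :=
    (isLocalizedModule_iff_isBaseChange M S _).mp h1
  exact h2

end Loc

section Triple

variable {R₀ R₁ R₀₁ : Type u} [CommRing R₀] [CommRing R₁] [CommRing R₀₁]
  [Algebra R₀ R₀₁] [Algebra R₁ R₀₁]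

/-- On a cospan of localizations, compatibility and invertibility suffice. -/
theorem IsCartierTriple.of_isLocalization (M₀ : Submonoid R₀) (M₁ : Submonoid R₁)
    [IsLocalization M₀ R₀₁] [IsLocalization M₁ R₀₁]
    {I₀ : Ideal R₀} {I₁ : Ideal R₁} {I₀₁ : Ideal R₀₁}
    (map₀ : I₀.map (algebraMap R₀ R₀₁) = I₀₁) (map₁ : I₁.map (algebraMap R₁ R₀₁) = I₀₁)
    (inv₀ : Module.Invertible R₀ I₀) (inv₁ : Module.Invertible R₁ I₁) :
    IsCartierTriple I₀ I₁ I₀₁ where
  map₀ := map₀
  map₁ := map₁
  inv₀ := inv₀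
  inv₁ := inv₁
  bc₀ := isBaseChange_idealRes_of_isLocalization M₀ I₀ I₀₁ map₀
  bc₁ := isBaseChange_idealRes_of_isLocalization M₁ I₁ I₀₁ map₁

/-- **G5.** Products of Cartier triples are Cartier triples (cospan of localizations). -/
theorem IsCartierTriple.mul (M₀ : Submonoid R₀) (M₁ : Submonoid R₁)
    [IsLocalization M₀ R₀₁] [IsLocalization M₁ R₀₁]
    {I₀ J₀ : Ideal R₀} {I₁ J₁ : Ideal R₁} {I₀₁ J₀₁ : Ideal R₀₁}
    (hI : IsCartierTriple I₀ I₁ I₀₁) (hJ : IsCartierTriple J₀ J₁ J₀₁) :
    IsCartierTriple (I₀ * J₀) (I₁ * J₁) (I₀₁ * J₀₁) :=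
  haveI := hI.inv₀
  haveI := hI.inv₁
  haveI := hJ.inv₀
  haveI := hJ.inv₁
  IsCartierTriple.of_isLocalization M₀ M₁
    (by rw [Ideal.map_mul, hI.map₀, hJ.map₀]) (by rw [Ideal.map_mul, hI.map₁, hJ.map₁])
    (invertible_mul I₀ J₀) (invertible_mul I₁ J₁)

/-- The trivial Cartier triple. -/
theorem IsCartierTriple.one (M₀ : Submonoid R₀) (M₁ : Submonoid R₁)
    [IsLocalization M₀ R₀₁] [IsLocalization M₁ R₀₁] :
    IsCartierTriple (1 : Ideal R₀) (1 : Ideal R₁) (1 : Ideal R₀₁) :=
  IsCartierTriple.of_isLocalization M₀ M₁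
    (by rw [Ideal.one_eq_top, Ideal.map_top, Ideal.one_eq_top])
    (by rw [Ideal.one_eq_top, Ideal.map_top, Ideal.one_eq_top])
    invertible_one invertible_one

/-- Finite products of Cartier triples are Cartier triples. -/
theorem IsCartierTriple.prod (M₀ : Submonoid R₀) (M₁ : Submonoid R₁)
    [IsLocalization M₀ R₀₁] [IsLocalization M₁ R₀₁] {ι : Type*} (s : Finset ι)
    (I₀ : ι → Ideal R₀) (I₁ : ι → Ideal R₁) (I₀₁ : ι → Ideal R₀₁)
    (h : ∀ i ∈ s, IsCartierTriple (I₀ i) (I₁ i) (I₀₁ i)) :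
    IsCartierTriple (∏ i ∈ s, I₀ i) (∏ i ∈ s, I₁ i) (∏ i ∈ s, I₀₁ i) := by
  classical
  induction s using Finset.induction_on with
  | empty => simpa using IsCartierTriple.one M₀ M₁
  | insert a s ha ih =>
    rw [Finset.prod_insert ha, Finset.prod_insert ha, Finset.prod_insert ha]
    exact IsCartierTriple.mul M₀ M₁ (h a (Finset.mem_insert_self a s))
      (ih fun i hi => h i (Finset.mem_insert_of_mem hi))

end Triple

end Fermat.Agent.S25.H747

end
-- ===== PACK-END S25/H747/CartierMul.lean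

-- ===== PACK-BEGIN S25/H747/HomSelf.lean
section
/-
S25 / block ABEL, sub-block AB-ALG (helper747), leaf G1: `ℋom(G, G) ≅ O` for gluing data.
-/


set_option autoImplicit false
universe u
open scoped TensorProduct

namespace Fermat.Agent.S25.H747

open Fermat.Agent.S25

noncomputable section

/-- For an invertible module, `r ↦ r • id` is a linear equivalence `R ≃ End M`. -/
def lsmulEquiv (R : Type u) [CommRing R] (M : Type u) [AddCommGroup M] [Module R M]
    [Module.Invertible R M] : R ≃ₗ[R] (M →ₗ[R] M) :=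
  LinearEquiv.ofBijective (LinearMap.lsmul R M) (by
    have h := Module.Invertible.toModuleEnd_bijective R M
    have e : (LinearMap.lsmul R M : R → (M →ₗ[R] M)) = Module.toModuleEnd R (S := R) M := by
      ext r m; rfl
    rw [e]; exact h)

@[simp] theorem lsmulEquiv_apply (R : Type u) [CommRing R] (M : Type u) [AddCommGroup M]
    [Module R M] [Module.Invertible R M] (r : R) (m : M) : lsmulEquiv R M r m = r • m := rfl

variable {A R₀ R₁ R₀₁ : Type u} [CommRing A] [CommRing R₀] [CommRing R₁]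
    [CommRing R₀₁] [Algebra A R₀] [Algebra A R₁] [Algebra A R₀₁] [Algebra R₀ R₀₁]
    [Algebra R₁ R₀₁] [IsScalarTower A R₀ R₀₁] [IsScalarTower A R₁ R₀₁]

/-- The base change of an invertible module is invertible. -/
theorem invertible_of_isBaseChange {R S : Type u} [CommRing R] [CommRing S] [Algebra R S]
    {M N : Type u} [AddCommGroup M] [Module R M] [AddCommGroup N] [Module R N] [Module S N]
    [IsScalarTower R S N] [Module.Invertible R M] {f : M →ₗ[R] N} (hf : IsBaseChange S f) :
    Module.Invertible S N :=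
  Module.Invertible.congr hf.equiv

/-- The module of sections over the intersection of a gluing datum is invertible. -/
theorem GlueDatum_invertible₀₁ (G : GlueDatum A R₀ R₁ R₀₁) : Module.Invertible R₀₁ G.N₀₁ :=
  haveI := G.invertible₀
  invertible_of_isBaseChange G.isBaseChange₀

/-- Restriction of a homothety is the homothety by the image. -/
theorem linearMapLeftRightHom_lsmul {R S : Type u} [CommRing R] [CommRing S] [Algebra R S]
    {M N : Type u} [AddCommGroup M] [Module R M] [AddCommGroup N] [Module R N] [Module S N]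
    [IsScalarTower R S N] {f : M →ₗ[R] N} (hf : IsBaseChange S f) (r : R) :
    IsBaseChange.linearMapLeftRightHom hf f (LinearMap.lsmul R M r) =
      LinearMap.lsmul S N (algebraMap R S r) := by
  apply hf.algHom_ext
  intro m
  rw [IsBaseChange.linearMapLeftRightHom_comp_apply]
  simp

/-- **G1.** `ℋom(G, G) ≅ O`. -/
theorem homDatum_self_isIso (G : GlueDatum A R₀ R₁ R₀₁) :
    (homDatum G G).IsIso (GlueDatum.unit A R₀ R₁ R₀₁) := by
  haveI := G.invertible₀
  haveI := G.invertible₁
  haveI := GlueDatum_invertible₀₁ G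
  refine ⟨{ e₀ := (lsmulEquiv R₀ G.N₀).symm
            e₁ := (lsmulEquiv R₁ G.N₁).symm
            e₀₁ := (lsmulEquiv R₀₁ G.N₀₁).symm
            comm₀ := ?_
            comm₁ := ?_ }⟩
  · intro s
    obtain ⟨r, rfl⟩ := (lsmulEquiv R₀ G.N₀).surjective s
    change (lsmulEquiv R₀₁ G.N₀₁).symm (IsBaseChange.linearMapLeftRightHom G.isBaseChange₀ G.r₀
      (lsmulEquiv R₀ G.N₀ r)) = algebraMap R₀ R₀₁ ((lsmulEquiv R₀ G.N₀).symm (lsmulEquiv R₀ G.N₀ r))
    rw [LinearEquiv.symm_apply_apply, LinearEquiv.symm_apply_eq]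
    exact linearMapLeftRightHom_lsmul G.isBaseChange₀ r
  · intro s
    obtain ⟨r, rfl⟩ := (lsmulEquiv R₁ G.N₁).surjective s
    change (lsmulEquiv R₀₁ G.N₀₁).symm (IsBaseChange.linearMapLeftRightHom G.isBaseChange₁ G.r₁
      (lsmulEquiv R₁ G.N₁ r)) = algebraMap R₁ R₀₁ ((lsmulEquiv R₁ G.N₁).symm (lsmulEquiv R₁ G.N₁ r))
    rw [LinearEquiv.symm_apply_apply, LinearEquiv.symm_apply_eq]
    exact linearMapLeftRightHom_lsmul G.isBaseChange₁ r

end

end Fermat.Agent.S25.H747

end
-- ===== PACK-END S25/H747/HomSelf.lean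

-- ===== PACK-BEGIN S25/H206/SurjGD.lean
section
/-
S25 / block ABEL / AB-ALG leaf AA6 (helper206): the divisor of a nonzero morphism of gluing data.

For gluing data `E`, `G` over a cospan of domains and a morphism `s : E → G` that is injective
on the charts, the ideals `I_a = { c(t) | t : G_a → E_a }` (where `t ∘ s = c(t) • id`) form a
Cartier triple and `G ≅ ℋom(O(-D), E)` with `O(-D) = ofIdeals I`.
-/




set_option autoImplicit false
set_option linter.style.haveILetI false
set_option linter.unusedSectionVars false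

universe u

open scoped TensorProduct

namespace Fermat.Agent.S25.H206

open Fermat.Agent.S25

noncomputable section

variable {A R₀ R₁ R₀₁ : Type u} [CommRing A] [CommRing R₀] [CommRing R₁]
    [CommRing R₀₁] [Algebra A R₀] [Algebra A R₁] [Algebra A R₀₁] [Algebra R₀ R₀₁]
    [Algebra R₁ R₀₁] [IsScalarTower A R₀ R₀₁] [IsScalarTower A R₁ R₀₁]

/-- The module of sections over the intersection is invertible. -/
theorem invertible_N₀₁ (G : GlueDatum A R₀ R₁ R₀₁) : Module.Invertible R₀₁ G.N₀₁ :=
  haveI := G.invertible₀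
  Module.Invertible.congr G.isBaseChange₀.equiv

section Range

/-! ### The Cartier triple of an injective morphism to the unit datum -/

variable (M : GlueDatum A R₀ R₁ R₀₁) (c₀ : M.N₀ →ₗ[R₀] R₀) (c₁ : M.N₁ →ₗ[R₁] R₁)
  (c₀₁ : M.N₀₁ →ₗ[R₀₁] R₀₁)

theorem map_range_eq₀ (hc₀ : ∀ m, c₀₁ (M.r₀ m) = algebraMap R₀ R₀₁ (c₀ m)) :
    Ideal.map (algebraMap R₀ R₀₁) (LinearMap.range c₀ : Ideal R₀) = LinearMap.range c₀₁ := by
  apply le_antisymm
  · rw [Ideal.map_le_iff_le_comap]
    rintro _ ⟨m, rfl⟩
    exact ⟨M.r₀ m, hc₀ m⟩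
  · rintro _ ⟨n, rfl⟩
    refine M.isBaseChange₀.inductionOn n
      (fun n => c₀₁ n ∈ Ideal.map (algebraMap R₀ R₀₁) (LinearMap.range c₀ : Ideal R₀)) ?_ ?_ ?_ ?_
    · simp
    · intro m
      rw [hc₀]
      exact Ideal.mem_map_of_mem _ ⟨m, rfl⟩
    · intro s n hn
      rw [map_smul]
      exact Ideal.mul_mem_left _ _ hn
    · intro n₁ n₂ h₁ h₂
      rw [map_add]
      exact Ideal.add_mem _ h₁ h₂

theorem map_range_eq₁ (hc₁ : ∀ m, c₀₁ (M.r₁ m) = algebraMap R₁ R₀₁ (c₁ m)) :
    Ideal.map (algebraMap R₁ R₀₁) (LinearMap.range c₁ : Ideal R₁) = LinearMap.range c₀₁ := by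
  apply le_antisymm
  · rw [Ideal.map_le_iff_le_comap]
    rintro _ ⟨m, rfl⟩
    exact ⟨M.r₁ m, hc₁ m⟩
  · rintro _ ⟨n, rfl⟩
    refine M.isBaseChange₁.inductionOn n
      (fun n => c₀₁ n ∈ Ideal.map (algebraMap R₁ R₀₁) (LinearMap.range c₁ : Ideal R₁)) ?_ ?_ ?_ ?_
    · simp
    · intro m
      rw [hc₁]
      exact Ideal.mem_map_of_mem _ ⟨m, rfl⟩
    · intro s n hn
      rw [map_smul]
      exact Ideal.mul_mem_left _ _ hn
    · intro n₁ n₂ h₁ h₂
      rw [map_add]
      exact Ideal.add_mem _ h₁ h₂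

/-- The ranges of an injective morphism `M → unit` form a Cartier triple. -/
theorem isCartierTriple_range
    (hc₀ : ∀ m, c₀₁ (M.r₀ m) = algebraMap R₀ R₀₁ (c₀ m))
    (hc₁ : ∀ m, c₀₁ (M.r₁ m) = algebraMap R₁ R₀₁ (c₁ m))
    (h₀ : Function.Injective c₀) (h₁ : Function.Injective c₁)
    (h₀₁ : Function.Injective c₀₁) :
    H747.IsCartierTriple (LinearMap.range c₀ : Ideal R₀) (LinearMap.range c₁ : Ideal R₁)
      (LinearMap.range c₀₁ : Ideal R₀₁) where
  map₀ := map_range_eq₀ M c₀ c₀₁ hc₀
  map₁ := map_range_eq₁ M c₁ c₀₁ hc₁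
  inv₀ := haveI := M.invertible₀; Module.Invertible.congr (LinearEquiv.ofInjective c₀ h₀)
  inv₁ := haveI := M.invertible₁; Module.Invertible.congr (LinearEquiv.ofInjective c₁ h₁)
  bc₀ := by
    refine (IsBaseChange.iff_of_equiv_comm (LinearEquiv.ofInjective c₀ h₀)
      (LinearEquiv.ofInjective c₀₁ h₀₁) ?_).mp M.isBaseChange₀
    ext m
    simp [hc₀]
  bc₁ := by
    refine (IsBaseChange.iff_of_equiv_comm (LinearEquiv.ofInjective c₁ h₁)
      (LinearEquiv.ofInjective c₀₁ h₀₁) ?_).mp M.isBaseChange₁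
    ext m
    simp [hc₁]

/-- An injective morphism `M → unit` identifies `M` with the datum of its ideal triple. -/
theorem isIso_ofIdeals_range
    (hc₀ : ∀ m, c₀₁ (M.r₀ m) = algebraMap R₀ R₀₁ (c₀ m))
    (hc₁ : ∀ m, c₀₁ (M.r₁ m) = algebraMap R₁ R₀₁ (c₁ m))
    (h₀ : Function.Injective c₀) (h₁ : Function.Injective c₁)
    (h₀₁ : Function.Injective c₀₁) :
    M.IsIso (H747.ofIdeals A (isCartierTriple_range M c₀ c₁ c₀₁ hc₀ hc₁ h₀ h₁ h₀₁)) :=
  ⟨{  e₀ := LinearEquiv.ofInjective c₀ h₀
      e₁ := LinearEquiv.ofInjective c₁ h₁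
      e₀₁ := LinearEquiv.ofInjective c₀₁ h₀₁
      comm₀ := fun m => Subtype.ext (hc₀ m)
      comm₁ := fun m => Subtype.ext (hc₁ m) }⟩

end Range

section Restriction

/-- The restriction map of a gluing datum is injective when `R₀ → R₀₁` is. -/
theorem r₀_injective (G : GlueDatum A R₀ R₁ R₀₁)
    (h : Function.Injective (algebraMap R₀ R₀₁)) : Function.Injective G.r₀ := by
  haveI := G.invertible₀
  have h1 : Function.Injective ((Algebra.linearMap R₀ R₀₁).rTensor G.N₀) :=
    Module.Flat.rTensor_preserves_injective_linearMap _ h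
  have h2 : ∀ n : G.N₀, G.r₀ n =
      G.isBaseChange₀.equiv ((Algebra.linearMap R₀ R₀₁).rTensor G.N₀
        ((TensorProduct.lid R₀ G.N₀).symm n)) := by
    intro n
    simp [IsBaseChange.equiv_tmul]
  intro a b hab
  rw [h2, h2] at hab
  exact (TensorProduct.lid R₀ G.N₀).symm.injective (h1 (G.isBaseChange₀.equiv.injective hab))

theorem r₁_injective (G : GlueDatum A R₀ R₁ R₀₁)
    (h : Function.Injective (algebraMap R₁ R₀₁)) : Function.Injective G.r₁ := by
  haveI := G.invertible₁
  have h1 : Function.Injective ((Algebra.linearMap R₁ R₀₁).rTensor G.N₁) :=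
    Module.Flat.rTensor_preserves_injective_linearMap _ h
  have h2 : ∀ n : G.N₁, G.r₁ n =
      G.isBaseChange₁.equiv ((Algebra.linearMap R₁ R₀₁).rTensor G.N₁
        ((TensorProduct.lid R₁ G.N₁).symm n)) := by
    intro n
    simp [IsBaseChange.equiv_tmul]
  intro a b hab
  rw [h2, h2] at hab
  exact (TensorProduct.lid R₁ G.N₁).symm.injective (h1 (G.isBaseChange₁.equiv.injective hab))

end Restriction

section Div

/-! ### The divisor of a morphism `s : E → G` -/

variable {E G : GlueDatum A R₀ R₁ R₀₁} (s : H10.GDHom E G)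

/-- A morphism injective on chart `0` is injective on the intersection (cospan of domains). -/
theorem f₀₁_injective_of [IsDomain R₀₁] (h : Function.Injective (algebraMap R₀ R₀₁))
    (hs₀ : Function.Injective s.f₀) [Nontrivial R₀] : Function.Injective s.f₀₁ := by
  haveI := invertible_N₀₁ E
  haveI := invertible_N₀₁ G
  haveI := E.invertible₀
  apply injective_of_ne_zero_of_invertible
  intro h0
  obtain ⟨a, ha⟩ := exists_ne_zero_of_invertible (R := R₀) E.N₀
  apply ha
  apply hs₀
  apply r₀_injective G h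
  rw [← s.comm₀, h0, map_zero, map_zero]
  rfl

/-- A morphism injective on chart `1` is injective on the intersection (cospan of domains). -/
theorem f₀₁_injective_of' [IsDomain R₀₁] (h : Function.Injective (algebraMap R₁ R₀₁))
    (hs₁ : Function.Injective s.f₁) [Nontrivial R₁] : Function.Injective s.f₀₁ := by
  haveI := invertible_N₀₁ E
  haveI := invertible_N₀₁ G
  haveI := E.invertible₁
  apply injective_of_ne_zero_of_invertible
  intro h0
  obtain ⟨a, ha⟩ := exists_ne_zero_of_invertible (R := R₁) E.N₁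
  apply ha
  apply hs₁
  apply r₁_injective G h
  rw [← s.comm₁, h0, map_zero, map_zero]
  rfl

/-- A morphism of gluing data over a cospan of domains that is nonzero on one chart is
injective on both charts and on the intersection. -/
theorem injective_of_ne_zero_chart [IsDomain R₀] [IsDomain R₁] [IsDomain R₀₁]
    (h₀ : Function.Injective (algebraMap R₀ R₀₁)) (h₁ : Function.Injective (algebraMap R₁ R₀₁))
    (hs : s.f₀ ≠ 0 ∨ s.f₁ ≠ 0) :
    Function.Injective s.f₀ ∧ Function.Injective s.f₁ ∧ Function.Injective s.f₀₁ := by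
  haveI := E.invertible₀
  haveI := G.invertible₀
  haveI := E.invertible₁
  haveI := G.invertible₁
  haveI := invertible_N₀₁ E
  have key : Function.Injective s.f₀₁ → s.f₀ ≠ 0 ∧ s.f₁ ≠ 0 := by
    intro hinj
    obtain ⟨a, ha⟩ := exists_ne_zero_of_invertible (R := R₀₁) E.N₀₁
    constructor
    · intro h0
      apply ha
      apply hinj
      rw [map_zero]
      have : s.f₀₁ = 0 := by
        apply E.isBaseChange₀.algHom_ext
        intro b
        rw [s.comm₀, h0]
        simp
      rw [this]; rfl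
    · intro h0
      apply ha
      apply hinj
      rw [map_zero]
      have : s.f₀₁ = 0 := by
        apply E.isBaseChange₁.algHom_ext
        intro b
        rw [s.comm₁, h0]
        simp
      rw [this]; rfl
  rcases hs with hs | hs
  · have i₀ := injective_of_ne_zero_of_invertible s.f₀ hs
    have i₀₁ := f₀₁_injective_of s h₀ i₀
    exact ⟨i₀, injective_of_ne_zero_of_invertible s.f₁ (key i₀₁).2, i₀₁⟩
  · have i₁ := injective_of_ne_zero_of_invertible s.f₁ hs
    have i₀₁ := f₀₁_injective_of' s h₁ i₁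
    exact ⟨injective_of_ne_zero_of_invertible s.f₀ (key i₀₁).1, i₁, i₀₁⟩

/-- The scalar of `t ∘ s` on chart `0`. -/
def divC₀ : (G.N₀ →ₗ[R₀] E.N₀) →ₗ[R₀] R₀ :=
  haveI := E.invertible₀
  compScalar s.f₀

/-- The scalar of `t ∘ s` on chart `1`. -/
def divC₁ : (G.N₁ →ₗ[R₁] E.N₁) →ₗ[R₁] R₁ :=
  haveI := E.invertible₁
  compScalar s.f₁

/-- The scalar of `t ∘ s` on the intersection. -/
def divC₀₁ : (G.N₀₁ →ₗ[R₀₁] E.N₀₁) →ₗ[R₀₁] R₀₁ :=
  haveI := invertible_N₀₁ E
  compScalar s.f₀₁

theorem divC₀₁_r₀ (t : G.N₀ →ₗ[R₀] E.N₀) :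
    divC₀₁ s (IsBaseChange.linearMapLeftRightHom G.isBaseChange₀ E.r₀ t) =
      algebraMap R₀ R₀₁ (divC₀ s t) := by
  haveI := invertible_N₀₁ E
  haveI := E.invertible₀
  apply compScalar_unique
  have key : (algebraMap R₀ R₀₁ (divC₀ s t)) • (LinearMap.id : E.N₀₁ →ₗ[R₀₁] E.N₀₁) =
      (IsBaseChange.linearMapLeftRightHom G.isBaseChange₀ E.r₀ t) ∘ₗ s.f₀₁ := by
    apply E.isBaseChange₀.algHom_ext
    intro a
    simp only [LinearMap.smul_apply, LinearMap.id_coe, id_eq, LinearMap.coe_comp,
      Function.comp_apply]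
    rw [s.comm₀, IsBaseChange.linearMapLeftRightHom_comp_apply, algebraMap_smul, ← map_smul]
    congr 1
    exact compScalar_smul s.f₀ t a
  intro a
  exact congrArg (fun f : E.N₀₁ →ₗ[R₀₁] E.N₀₁ => f a) key

theorem divC₀₁_r₁ (t : G.N₁ →ₗ[R₁] E.N₁) :
    divC₀₁ s (IsBaseChange.linearMapLeftRightHom G.isBaseChange₁ E.r₁ t) =
      algebraMap R₁ R₀₁ (divC₁ s t) := by
  haveI := invertible_N₀₁ E
  haveI := E.invertible₁
  apply compScalar_unique
  have key : (algebraMap R₁ R₀₁ (divC₁ s t)) • (LinearMap.id : E.N₀₁ →ₗ[R₀₁] E.N₀₁) =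
      (IsBaseChange.linearMapLeftRightHom G.isBaseChange₁ E.r₁ t) ∘ₗ s.f₀₁ := by
    apply E.isBaseChange₁.algHom_ext
    intro a
    simp only [LinearMap.smul_apply, LinearMap.id_coe, id_eq, LinearMap.coe_comp,
      Function.comp_apply]
    rw [s.comm₁, IsBaseChange.linearMapLeftRightHom_comp_apply, algebraMap_smul, ← map_smul]
    congr 1
    exact compScalar_smul s.f₁ t a
  intro a
  exact congrArg (fun f : E.N₀₁ →ₗ[R₀₁] E.N₀₁ => f a) key

theorem divC₀_injective [IsDomain R₀] (hs₀ : Function.Injective s.f₀) :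
    Function.Injective (divC₀ s) :=
  haveI := E.invertible₀
  haveI := G.invertible₀
  compScalar_injective s.f₀ hs₀

theorem divC₁_injective [IsDomain R₁] (hs₁ : Function.Injective s.f₁) :
    Function.Injective (divC₁ s) :=
  haveI := E.invertible₁
  haveI := G.invertible₁
  compScalar_injective s.f₁ hs₁

theorem divC₀₁_injective [IsDomain R₀₁] (hs₀₁ : Function.Injective s.f₀₁) :
    Function.Injective (divC₀₁ s) :=
  haveI := invertible_N₀₁ E
  haveI := invertible_N₀₁ G
  compScalar_injective s.f₀₁ hs₀₁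

theorem range_divC₀_ne_bot [IsDomain R₀] (hs₀ : Function.Injective s.f₀) :
    (LinearMap.range (divC₀ s) : Ideal R₀) ≠ ⊥ := by
  haveI := E.invertible₀
  haveI := G.invertible₀
  haveI : Module.Invertible R₀ (G.N₀ →ₗ[R₀] E.N₀) := surj_invertible_hom
  obtain ⟨t, ht⟩ := exists_ne_zero_of_invertible (R := R₀) (G.N₀ →ₗ[R₀] E.N₀)
  intro h
  apply ht
  apply divC₀_injective s hs₀
  rw [map_zero]
  have : divC₀ s t ∈ (LinearMap.range (divC₀ s) : Ideal R₀) := ⟨t, rfl⟩
  rw [h] at this
  exact this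

theorem range_divC₁_ne_bot [IsDomain R₁] (hs₁ : Function.Injective s.f₁) :
    (LinearMap.range (divC₁ s) : Ideal R₁) ≠ ⊥ := by
  haveI := E.invertible₁
  haveI := G.invertible₁
  haveI : Module.Invertible R₁ (G.N₁ →ₗ[R₁] E.N₁) := surj_invertible_hom
  obtain ⟨t, ht⟩ := exists_ne_zero_of_invertible (R := R₁) (G.N₁ →ₗ[R₁] E.N₁)
  intro h
  apply ht
  apply divC₁_injective s hs₁
  rw [map_zero]
  have : divC₁ s t ∈ (LinearMap.range (divC₁ s) : Ideal R₁) := ⟨t, rfl⟩
  rw [h] at this
  exact this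

/-- The image of `s` on chart `0` is `I₀ • G.N₀`. -/
theorem range_f₀_eq [IsDomain R₀] :
    LinearMap.range s.f₀ = (LinearMap.range (divC₀ s) : Ideal R₀) • (⊤ : Submodule R₀ G.N₀) :=
  haveI := E.invertible₀
  haveI := G.invertible₀
  range_eq_range_compScalar_smul_top s.f₀

theorem range_f₁_eq [IsDomain R₁] :
    LinearMap.range s.f₁ = (LinearMap.range (divC₁ s) : Ideal R₁) • (⊤ : Submodule R₁ G.N₁) :=
  haveI := E.invertible₁
  haveI := G.invertible₁
  range_eq_range_compScalar_smul_top s.f₁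

theorem range_f₀₁_eq [IsDomain R₀₁] :
    LinearMap.range s.f₀₁ =
      (LinearMap.range (divC₀₁ s) : Ideal R₀₁) • (⊤ : Submodule R₀₁ G.N₀₁) :=
  haveI := invertible_N₀₁ E
  haveI := invertible_N₀₁ G
  range_eq_range_compScalar_smul_top s.f₀₁

variable [IsDomain R₀] [IsDomain R₁] [IsDomain R₀₁]

/-- **The divisor of `s`** is a Cartier triple. -/
theorem divCartier (hs₀ : Function.Injective s.f₀) (hs₁ : Function.Injective s.f₁)
    (hs₀₁ : Function.Injective s.f₀₁) :
    H747.IsCartierTriple (LinearMap.range (divC₀ s) : Ideal R₀)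
      (LinearMap.range (divC₁ s) : Ideal R₁) (LinearMap.range (divC₀₁ s) : Ideal R₀₁) :=
  isCartierTriple_range (H747.homDatum G E) (divC₀ s) (divC₁ s) (divC₀₁ s)
    (divC₀₁_r₀ s) (divC₀₁_r₁ s) (divC₀_injective s hs₀) (divC₁_injective s hs₁)
    (divC₀₁_injective s hs₀₁)

theorem div_comm₀ (hs₀ : Function.Injective s.f₀) (hs₀₁ : Function.Injective s.f₀₁)
    (hmap : Ideal.map (algebraMap R₀ R₀₁) (LinearMap.range (divC₀ s) : Ideal R₀) ≤
      (LinearMap.range (divC₀₁ s) : Ideal R₀₁))
    (γ : G.N₀) (j : (LinearMap.range (divC₀ s) : Ideal R₀)) :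
    haveI := E.invertible₀
    haveI := G.invertible₀
    haveI := invertible_N₀₁ E
    haveI := invertible_N₀₁ G
    divEquiv (divC₀₁ s) (divC₀₁_injective s hs₀₁) (G.r₀ γ) (H747.idealRes _ _ hmap j) =
      E.r₀ (divEquiv (divC₀ s) (divC₀_injective s hs₀) γ j) := by
  haveI := E.invertible₀
  haveI := G.invertible₀
  haveI := invertible_N₀₁ E
  haveI := invertible_N₀₁ G
  obtain ⟨t, ht⟩ := j.2
  rw [divEquiv_apply (divC₀ s) (divC₀_injective s hs₀) γ t j ht.symm]
  rw [divEquiv_apply (divC₀₁ s) (divC₀₁_injective s hs₀₁) (G.r₀ γ)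
    (IsBaseChange.linearMapLeftRightHom G.isBaseChange₀ E.r₀ t) _
    (by rw [divC₀₁_r₀, ht]; rfl)]
  exact IsBaseChange.linearMapLeftRightHom_comp_apply _ _ _ _

theorem div_comm₁ (hs₁ : Function.Injective s.f₁) (hs₀₁ : Function.Injective s.f₀₁)
    (hmap : Ideal.map (algebraMap R₁ R₀₁) (LinearMap.range (divC₁ s) : Ideal R₁) ≤
      (LinearMap.range (divC₀₁ s) : Ideal R₀₁))
    (γ : G.N₁) (j : (LinearMap.range (divC₁ s) : Ideal R₁)) :
    haveI := E.invertible₁
    haveI := G.invertible₁
    haveI := invertible_N₀₁ E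
    haveI := invertible_N₀₁ G
    divEquiv (divC₀₁ s) (divC₀₁_injective s hs₀₁) (G.r₁ γ) (H747.idealRes _ _ hmap j) =
      E.r₁ (divEquiv (divC₁ s) (divC₁_injective s hs₁) γ j) := by
  haveI := E.invertible₁
  haveI := G.invertible₁
  haveI := invertible_N₀₁ E
  haveI := invertible_N₀₁ G
  obtain ⟨t, ht⟩ := j.2
  rw [divEquiv_apply (divC₁ s) (divC₁_injective s hs₁) γ t j ht.symm]
  rw [divEquiv_apply (divC₀₁ s) (divC₀₁_injective s hs₀₁) (G.r₁ γ)
    (IsBaseChange.linearMapLeftRightHom G.isBaseChange₁ E.r₁ t) _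
    (by rw [divC₀₁_r₁, ht]; rfl)]
  exact IsBaseChange.linearMapLeftRightHom_comp_apply _ _ _ _

/-- **`G ≅ ℋom(O(-D), E)`** for the divisor `D` of an injective morphism `s : E → G`. -/
theorem isIso_homDatum_div (hs₀ : Function.Injective s.f₀) (hs₁ : Function.Injective s.f₁)
    (hs₀₁ : Function.Injective s.f₀₁) :
    G.IsIso (H747.homDatum (H747.ofIdeals A (divCartier s hs₀ hs₁ hs₀₁)) E) := by
  haveI := E.invertible₀
  haveI := G.invertible₀
  haveI := E.invertible₁
  haveI := G.invertible₁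
  haveI := invertible_N₀₁ E
  haveI := invertible_N₀₁ G
  refine ⟨{ e₀ := divEquiv (divC₀ s) (divC₀_injective s hs₀)
            e₁ := divEquiv (divC₁ s) (divC₁_injective s hs₁)
            e₀₁ := divEquiv (divC₀₁ s) (divC₀₁_injective s hs₀₁)
            comm₀ := ?_
            comm₁ := ?_ }⟩
  · intro γ
    refine (H747.ofIdeals A (divCartier s hs₀ hs₁ hs₀₁)).isBaseChange₀.algHom_ext _ _ ?_
    intro j
    exact (div_comm₀ s hs₀ hs₀₁ (divCartier s hs₀ hs₁ hs₀₁).map₀.le γ j).trans
      (IsBaseChange.linearMapLeftRightHom_comp_apply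
        (H747.ofIdeals A (divCartier s hs₀ hs₁ hs₀₁)).isBaseChange₀ E.r₀ _ j).symm
  · intro γ
    refine (H747.ofIdeals A (divCartier s hs₀ hs₁ hs₀₁)).isBaseChange₁.algHom_ext _ _ ?_
    intro j
    exact (div_comm₁ s hs₁ hs₀₁ (divCartier s hs₀ hs₁ hs₀₁).map₁.le γ j).trans
      (IsBaseChange.linearMapLeftRightHom_comp_apply
        (H747.ofIdeals A (divCartier s hs₀ hs₁ hs₀₁)).isBaseChange₁ E.r₁ _ j).symm

end Div

section Sections

/-! ### Sections of `ℋom(E, G)` are morphisms -/

variable (E G : GlueDatum A R₀ R₁ R₀₁)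

theorem cech_eq_zero_iff (G : GlueDatum A R₀ R₁ R₀₁) (p : G.N₀ × G.N₁) :
    G.cech p = 0 ↔ G.r₀ p.1 = G.r₁ p.2 := by
  have h : G.cech p = G.r₀ p.1 + -(G.r₁ p.2) := rfl
  rw [h, ← sub_eq_add_neg, sub_eq_zero]

/-- A section of `ℋom(E, G)` is a morphism `E → G`. -/
def gdHomOfSection (φ₀ : E.N₀ →ₗ[R₀] G.N₀) (φ₁ : E.N₁ →ₗ[R₁] G.N₁)
    (h : IsBaseChange.linearMapLeftRightHom E.isBaseChange₀ G.r₀ φ₀ =
      IsBaseChange.linearMapLeftRightHom E.isBaseChange₁ G.r₁ φ₁) : H10.GDHom E G where
  f₀ := φ₀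
  f₁ := φ₁
  f₀₁ := IsBaseChange.linearMapLeftRightHom E.isBaseChange₀ G.r₀ φ₀
  comm₀ := fun a => IsBaseChange.linearMapLeftRightHom_comp_apply _ _ _ _
  comm₁ := fun a => by
    rw [h]
    exact IsBaseChange.linearMapLeftRightHom_comp_apply _ _ _ _

/-- A nonzero section of `ℋom(E, G)` gives a morphism which is nonzero on a chart. -/
theorem exists_gdHom_of_H0_ne_bot (h : (H747.homDatum E G).H0 ≠ ⊥) :
    ∃ s : H10.GDHom E G, s.f₀ ≠ 0 ∨ s.f₁ ≠ 0 := by
  obtain ⟨p, hp, hp0⟩ := Submodule.exists_mem_ne_zero_of_ne_bot h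
  obtain ⟨φ₀, φ₁⟩ := p
  have h1 : (H747.homDatum E G).r₀ φ₀ = (H747.homDatum E G).r₁ φ₁ :=
    (cech_eq_zero_iff (H747.homDatum E G) (φ₀, φ₁)).mp (LinearMap.mem_ker.mp hp)
  refine ⟨gdHomOfSection E G φ₀ φ₁ h1, ?_⟩
  by_contra hcon
  push Not at hcon
  apply hp0
  have h0 : φ₀ = 0 := hcon.1
  have h1' : φ₁ = 0 := hcon.2
  rw [h0, h1']
  rfl

end Sections

section IdealDatum

/-! ### The morphisms `O(-D) → O` and `G → ℋom(O(-D), G)` -/

variable {I₀ : Ideal R₀} {I₁ : Ideal R₁} {I₀₁ : Ideal R₀₁} (hI : H747.IsCartierTriple I₀ I₁ I₀₁)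

/-- The inclusion `O(-D) → O`. -/
def inclHom : H10.GDHom (H747.ofIdeals A hI) (GlueDatum.unit A R₀ R₁ R₀₁) where
  f₀ := Submodule.subtype I₀
  f₁ := Submodule.subtype I₁
  f₀₁ := Submodule.subtype I₀₁
  comm₀ := fun _ => rfl
  comm₁ := fun _ => rfl

theorem inclHom_injective : (inclHom (A := A) hI).Injective :=
  ⟨Subtype.val_injective, Subtype.val_injective⟩

theorem range_inclHom_f₀ : LinearMap.range (inclHom (A := A) hI).f₀ = I₀ :=
  Submodule.range_subtype I₀

theorem range_inclHom_f₁ : LinearMap.range (inclHom (A := A) hI).f₁ = I₁ :=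
  Submodule.range_subtype I₁

theorem range_inclHom_f₀₁ : LinearMap.range (inclHom (A := A) hI).f₀₁ = I₀₁ :=
  Submodule.range_subtype I₀₁

omit [IsScalarTower A R₀ R₀₁] [IsScalarTower A R₁ R₀₁] [Algebra A R₀] [Algebra A R₁]
  [Algebra A R₀₁] [CommRing A] in
/-- `I₀₁` is an invertible module. -/
theorem invertible_I₀₁ {I₀ : Ideal R₀} {I₁ : Ideal R₁} {I₀₁ : Ideal R₀₁}
    (hI : H747.IsCartierTriple I₀ I₁ I₀₁) : Module.Invertible R₀₁ I₀₁ :=
  haveI := hI.inv₀
  Module.Invertible.congr hI.bc₀.equiv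

variable (G : GlueDatum A R₀ R₁ R₀₁)

/-- The canonical morphism `G → ℋom(O(-D), G)`, `γ ↦ (a ↦ a • γ)`. -/
def smulHom : H10.GDHom G (H747.homDatum (H747.ofIdeals A hI) G) where
  f₀ := idealSmulHom I₀ G.N₀
  f₁ := idealSmulHom I₁ G.N₁
  f₀₁ := idealSmulHom I₀₁ G.N₀₁
  comm₀ := fun γ => by
    refine (H747.ofIdeals A hI).isBaseChange₀.algHom_ext _ _ ?_
    intro (a : I₀)
    refine Eq.trans ?_ (IsBaseChange.linearMapLeftRightHom_comp_apply
      (H747.ofIdeals A hI).isBaseChange₀ G.r₀ (idealSmulHom I₀ G.N₀ γ) a).symm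
    show (algebraMap R₀ R₀₁ (a : R₀)) • G.r₀ γ = G.r₀ ((a : R₀) • γ)
    rw [map_smul, algebraMap_smul]
  comm₁ := fun γ => by
    refine (H747.ofIdeals A hI).isBaseChange₁.algHom_ext _ _ ?_
    intro (a : I₁)
    refine Eq.trans ?_ (IsBaseChange.linearMapLeftRightHom_comp_apply
      (H747.ofIdeals A hI).isBaseChange₁ G.r₁ (idealSmulHom I₁ G.N₁ γ) a).symm
    show (algebraMap R₁ R₀₁ (a : R₁)) • G.r₁ γ = G.r₁ ((a : R₁) • γ)
    rw [map_smul, algebraMap_smul]

theorem range_smulHom_f₀ :
    LinearMap.range (smulHom hI G).f₀ = I₀ • (⊤ : Submodule R₀ (I₀ →ₗ[R₀] G.N₀)) :=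
  haveI := hI.inv₀
  range_idealSmulHom I₀

theorem range_smulHom_f₁ :
    LinearMap.range (smulHom hI G).f₁ = I₁ • (⊤ : Submodule R₁ (I₁ →ₗ[R₁] G.N₁)) :=
  haveI := hI.inv₁
  range_idealSmulHom I₁

theorem range_smulHom_f₀₁ :
    LinearMap.range (smulHom hI G).f₀₁ = I₀₁ • (⊤ : Submodule R₀₁ (I₀₁ →ₗ[R₀₁] G.N₀₁)) :=
  haveI := invertible_I₀₁ hI
  range_idealSmulHom I₀₁

theorem smulHom_injective [IsDomain R₀] [IsDomain R₁] : (smulHom hI G).Injective := by
  haveI := hI.inv₀
  haveI := hI.inv₁
  haveI := G.invertible₀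
  haveI := G.invertible₁
  constructor
  · rw [injective_iff_map_eq_zero]
    intro γ hγ
    obtain ⟨a, ha⟩ := exists_ne_zero_of_invertible (R := R₀) I₀
    have h1 : (a : R₀) • γ = 0 := congrArg (fun f : I₀ →ₗ[R₀] G.N₀ => f a) hγ
    exact smul_eq_zero_of_invertible h1 (fun h => ha (Subtype.ext h))
  · rw [injective_iff_map_eq_zero]
    intro γ hγ
    obtain ⟨a, ha⟩ := exists_ne_zero_of_invertible (R := R₁) I₁
    have h1 : (a : R₁) • γ = 0 := congrArg (fun f : I₁ →ₗ[R₁] G.N₁ => f a) hγ
    exact smul_eq_zero_of_invertible h1 (fun h => ha (Subtype.ext h))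

/-- `ofIdeals` only depends on the ideals. -/
theorem ofIdeals_congr {I₀ I₀' : Ideal R₀} {I₁ I₁' : Ideal R₁} {I₀₁ I₀₁' : Ideal R₀₁}
    (h : H747.IsCartierTriple I₀ I₁ I₀₁) (h' : H747.IsCartierTriple I₀' I₁' I₀₁')
    (e₀ : I₀ = I₀') (e₁ : I₁ = I₁') (e₀₁ : I₀₁ = I₀₁') :
    H747.ofIdeals A h = H747.ofIdeals A h' := by
  subst e₀ e₁ e₀₁
  rfl

end IdealDatum

end

end Fermat.Agent.S25.H206

end
-- ===== PACK-END S25/H206/SurjGD.lean

-- ===== PACK-BEGIN S25/H10/K1.lean
section
/-
S25, block CECH (helper10): leaf K1 (assembly) — if the twisted differential `d m` is onto then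
it splits and `H⁰(L(m∞)) = ker (d m)` is a finitely generated projective `A`-module.
Inputs: K0 (helper10), K1b `projective_N01` (helper490), K1a degree bound (as hypothesis here).
-/



set_option autoImplicit false

namespace Fermat.Agent.S25.H10

open Polynomial Submodule

universe u v

variable {A : Type u} [CommRing A] {N0 N1 N01 : Type v}
  [AddCommGroup N0] [AddCommGroup N1] [AddCommGroup N01]
  [Module A N0] [Module A N1] [Module A N01]

/-- K1 with the degree bound K1a as a hypothesis. -/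
theorem H0_finite_projective_of_surjective_of_bound (D : CechOps A N0 N1 N01)
    (h0 : IsFGProj D.X0) (h1 : IsFGProj D.Y1)
    (hr0 : Function.Injective D.r0) (m : ℕ)
    (hbound : ∃ M : Submodule A (N0 × N1), M.FG ∧ D.H0 m ≤ M)
    (hsurj : Function.Surjective (D.d m)) :
    (∃ s : N01 →ₗ[A] N0 × N1, D.d m ∘ₗ s = LinearMap.id) ∧
      Module.Finite A (D.H0 m) ∧ Module.Projective A (D.H0 m) := by
  have : Module.Projective A N01 := Fermat.Agent.S25.H490.projective_N01 D h0 hr0
  have : Module.Projective A N0 := projective_of_isFGProj h0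
  have : Module.Projective A N1 := projective_of_isFGProj h1
  obtain ⟨s, hs⟩ := Module.projective_lifting_property (D.d m) LinearMap.id hsurj
  have hds : ∀ z, D.d m (s z) = z := fun z => by
    have := congrArg (fun f : N01 →ₗ[A] N01 => f z) hs
    simpa using this
  -- the retraction onto the kernel
  let p : (N0 × N1) →ₗ[A] D.H0 m :=
    LinearMap.codRestrict (D.H0 m) (LinearMap.id - s ∘ₗ D.d m) (by
      intro v
      rw [LinearMap.mem_ker]
      simp only [LinearMap.sub_apply, LinearMap.id_coe, id_eq, LinearMap.coe_comp,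
        Function.comp_apply, map_sub]
      rw [hds, sub_self])
  have hp : ∀ h : D.H0 m, p h = h := by
    intro h
    apply Subtype.ext
    show (h : N0 × N1) - s (D.d m h) = h
    rw [LinearMap.mem_ker.mp h.2, map_zero, sub_zero]
  obtain ⟨M, hM, hle⟩ := hbound
  have hfg : (D.H0 m).FG := fg_of_le_fg_of_retract (D.H0 m) M hM hle p hp
  refine ⟨⟨s, hs⟩, Module.Finite.iff_fg.mpr hfg, ?_⟩
  refine Module.Projective.of_split (D.H0 m).subtype p ?_
  ext h : 1
  exact hp h

end Fermat.Agent.S25.H10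

end
-- ===== PACK-END S25/H10/K1.lean

-- ===== PACK-BEGIN S25/H370/CechK6.lean
section
/-
S25, block CECH (squad S25/S10), leaf K6 core (helper370): the finite model
`δ m : H⁰(L(m∞)) → N1 / y^m N1` computes `H⁰`, `H¹` of the Čech complex after every base change.

* `injective_of_isFGProj` (K0c);
* `quotBaseChangeEquiv` : `(A' ⊗ N) ⧸ range (A' ⊗ f) ≃ₗ[A'] A' ⊗ (N ⧸ range f)`;
* `H0BaseChangeEquiv`   : `A' ⊗ H⁰(D, m) ≃ₗ[A'] H⁰(D.baseChange A', m)` when `d m` is onto;
* `finite_model_baseChange` : the base-change part of K6, for every `m` with `d m` onto;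
* `exists_finite_model_of` : K6 (`exists_finite_model` of `CechSkel.lean`) from the conclusions
  of K2 (`d m` onto for some `m`), K1 (`H⁰(L(m∞))` f.g. projective) and K0e.
-/



set_option autoImplicit false

namespace Fermat.Agent.S25.H370

open Polynomial TensorProduct Fermat.Agent.S25.H10

universe u v w

variable {A : Type u} [CommRing A]

/-- K0c. `E` is injective on a retract of `A[X]^n`. -/
theorem injective_of_isFGProj {N : Type v} [AddCommGroup N] [Module A N] {E : Module.End A N}
    (h : IsFGProj E) : Function.Injective E := by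
  obtain ⟨n, ι, π, hπι, hι, -⟩ := h
  have hιinj : Function.Injective ι := by
    intro x y hxy
    have := congrArg π hxy
    rwa [← LinearMap.comp_apply, ← LinearMap.comp_apply, hπι] at this
  intro x y hxy
  apply hιinj
  have h1 : (X : A[X]) • ι x = (X : A[X]) • ι y := by rw [← hι, ← hι, hxy]
  funext i
  have h2 := congrFun h1 i
  simp only [Pi.smul_apply, smul_eq_mul] at h2
  exact (Polynomial.isRegular_X (R := A)).left h2

section BaseChange

variable (A' : Type w) [CommRing A'] [Algebra A A']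

theorem baseChange_surjective' {M : Type*} {P : Type*} [AddCommGroup M] [Module A M]
    [AddCommGroup P] [Module A P] (f : M →ₗ[A] P) (hf : Function.Surjective f) :
    Function.Surjective (f.baseChange A') := by
  rw [LinearMap.baseChange_eq_ltensor]
  exact LinearMap.lTensor_surjective A' hf

theorem baseChange_exact_mkQ {M : Type*} {N : Type*} [AddCommGroup M] [Module A M]
    [AddCommGroup N] [Module A N] (f : M →ₗ[A] N) :
    Function.Exact (f.baseChange A') ((LinearMap.range f).mkQ.baseChange A') := by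
  rw [LinearMap.baseChange_eq_ltensor, LinearMap.baseChange_eq_ltensor]
  refine lTensor_exact A' ?_ (Submodule.mkQ_surjective _)
  rw [LinearMap.exact_iff, Submodule.ker_mkQ]

/-- The canonical map `(A' ⊗ N) ⧸ range (A' ⊗ f) → A' ⊗ (N ⧸ range f)`. -/
noncomputable def quotBaseChangeMap {M : Type*} {N : Type*} [AddCommGroup M] [Module A M]
    [AddCommGroup N] [Module A N] (f : M →ₗ[A] N) :
    ((A' ⊗[A] N) ⧸ LinearMap.range (f.baseChange A')) →ₗ[A']
      A' ⊗[A] (N ⧸ LinearMap.range f) :=
  Submodule.liftQ _ ((LinearMap.range f).mkQ.baseChange A') (by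
    rintro _ ⟨t, rfl⟩
    exact (baseChange_exact_mkQ A' f).apply_apply_eq_zero t)

theorem quotBaseChangeMap_mk {M : Type*} {N : Type*} [AddCommGroup M] [Module A M]
    [AddCommGroup N] [Module A N] (f : M →ₗ[A] N) (z : A' ⊗[A] N) :
    quotBaseChangeMap A' f (Submodule.Quotient.mk z) =
      (LinearMap.range f).mkQ.baseChange A' z := rfl

theorem quotBaseChangeMap_bijective {M : Type*} {N : Type*} [AddCommGroup M] [Module A M]
    [AddCommGroup N] [Module A N] (f : M →ₗ[A] N) :
    Function.Bijective (quotBaseChangeMap A' f) := by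
  constructor
  · rw [← LinearMap.ker_eq_bot, quotBaseChangeMap, Submodule.ker_liftQ,
      (baseChange_exact_mkQ A' f).linearMap_ker_eq, Submodule.mkQ_map_self]
  · intro y
    obtain ⟨t, rfl⟩ := baseChange_surjective' A' _ (Submodule.mkQ_surjective _) y
    exact ⟨Submodule.Quotient.mk t, rfl⟩

/-- Right exactness of base change: `(A' ⊗ N) ⧸ range (A' ⊗ f) ≃ₗ[A'] A' ⊗ (N ⧸ range f)`. -/
noncomputable def quotBaseChangeEquiv {M : Type*} {N : Type*} [AddCommGroup M] [Module A M]
    [AddCommGroup N] [Module A N] (f : M →ₗ[A] N) :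
    ((A' ⊗[A] N) ⧸ LinearMap.range (f.baseChange A')) ≃ₗ[A']
      A' ⊗[A] (N ⧸ LinearMap.range f) :=
  LinearEquiv.ofBijective (quotBaseChangeMap A' f) (quotBaseChangeMap_bijective A' f)

theorem quotBaseChangeEquiv_mk {M : Type*} {N : Type*} [AddCommGroup M] [Module A M]
    [AddCommGroup N] [Module A N] (f : M →ₗ[A] N) (z : A' ⊗[A] N) :
    quotBaseChangeEquiv A' f (Submodule.Quotient.mk z) =
      (LinearMap.range f).mkQ.baseChange A' z := rfl

variable {N0 N1 N01 : Type v}
  [AddCommGroup N0] [AddCommGroup N1] [AddCommGroup N01]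
  [Module A N0] [Module A N1] [Module A N01]

/-- The canonical map `A' ⊗ H⁰(D, m) → H⁰(D.baseChange A', m)`. -/
noncomputable def H0BaseChangeMap (D : CechOps A N0 N1 N01) (m : ℕ) :
    A' ⊗[A] D.H0 m →ₗ[A'] (D.baseChange A').H0 m :=
  LinearMap.codRestrict _
    ((TensorProduct.prodRight A A' A' N0 N1).toLinearMap ∘ₗ (D.H0 m).subtype.baseChange A')
    (fun t => by
      have hz : D.d m ∘ₗ (D.H0 m).subtype = 0 :=
        LinearMap.ext fun x => LinearMap.mem_ker.mp x.2
      rw [LinearMap.mem_ker, LinearMap.comp_apply,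
        ← LinearMap.comp_apply ((D.baseChange A').d m), baseChange_d, ← LinearMap.comp_apply,
        ← LinearMap.baseChange_comp, hz, LinearMap.baseChange_zero, LinearMap.zero_apply])

theorem H0BaseChangeMap_coe (D : CechOps A N0 N1 N01) (m : ℕ) (t : A' ⊗[A] D.H0 m) :
    ((H0BaseChangeMap A' D m t : (D.baseChange A').H0 m) : (A' ⊗[A] N0) × (A' ⊗[A] N1)) =
      TensorProduct.prodRight A A' A' N0 N1 ((D.H0 m).subtype.baseChange A' t) := rfl

theorem H0BaseChangeMap_bijective (D : CechOps A N0 N1 N01)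
    (h0 : IsFGProj D.X0) (hr0 : Function.Injective D.r0) (m : ℕ)
    (hsurj : Function.Surjective (D.d m)) :
    Function.Bijective (H0BaseChangeMap A' D m) := by
  obtain ⟨hinj, hrange⟩ := H0_baseChange_bijective A' D h0 hr0 m hsurj
  constructor
  · intro x y hxy
    apply hinj
    apply (TensorProduct.prodRight A A' A' N0 N1).injective
    rw [← H0BaseChangeMap_coe, ← H0BaseChangeMap_coe, hxy]
  · intro x
    have hx : (TensorProduct.prodRight A A' A' N0 N1).symm (x : (A' ⊗[A] N0) × (A' ⊗[A] N1)) ∈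
        LinearMap.ker ((D.d m).baseChange A') := by
      rw [LinearMap.mem_ker, ← baseChange_d, LinearMap.comp_apply, LinearEquiv.coe_coe,
        LinearEquiv.apply_symm_apply]
      exact LinearMap.mem_ker.mp x.2
    rw [← hrange] at hx
    obtain ⟨t, ht⟩ := hx
    refine ⟨t, Subtype.ext ?_⟩
    rw [H0BaseChangeMap_coe, ht, LinearEquiv.apply_symm_apply]

/-- `A' ⊗ H⁰(D, m) ≃ₗ[A'] H⁰(D.baseChange A', m)` when `d m` is onto. -/
noncomputable def H0BaseChangeEquiv (D : CechOps A N0 N1 N01)
    (h0 : IsFGProj D.X0) (hr0 : Function.Injective D.r0) (m : ℕ)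
    (hsurj : Function.Surjective (D.d m)) :
    A' ⊗[A] D.H0 m ≃ₗ[A'] (D.baseChange A').H0 m :=
  LinearEquiv.ofBijective (H0BaseChangeMap A' D m) (H0BaseChangeMap_bijective A' D h0 hr0 m hsurj)

theorem range_baseChange_Y1_pow (D : CechOps A N0 N1 N01) (m : ℕ) :
    LinearMap.range ((D.baseChange A').Y1 ^ m) =
      LinearMap.range ((D.Y1 ^ m).baseChange A') := by
  show LinearMap.range ((D.Y1.baseChange A') ^ m) = _
  rw [baseChange_pow]

/-- `(A' ⊗ N1) ⧸ y^m ≃ₗ[A'] A' ⊗ (N1 ⧸ y^m)`. -/
noncomputable def quotY1BaseChangeEquiv (D : CechOps A N0 N1 N01) (m : ℕ) :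
    ((A' ⊗[A] N1) ⧸ LinearMap.range ((D.baseChange A').Y1 ^ m)) ≃ₗ[A']
      A' ⊗[A] (N1 ⧸ LinearMap.range (D.Y1 ^ m)) :=
  (Submodule.quotEquivOfEq _ _ (range_baseChange_Y1_pow A' D m)) ≪≫ₗ
    quotBaseChangeEquiv A' (D.Y1 ^ m)

/-- The comparison square for `δ`. -/
theorem quotY1BaseChangeEquiv_δ (D : CechOps A N0 N1 N01) (m : ℕ) (t : A' ⊗[A] D.H0 m) :
    quotY1BaseChangeEquiv A' D m ((D.baseChange A').δ m (H0BaseChangeMap A' D m t)) =
      (D.δ m).baseChange A' t := by
  induction t using TensorProduct.induction_on with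
  | zero => simp
  | tmul a p =>
    obtain ⟨⟨x, y⟩, hxy⟩ := p
    rfl
  | add x y hx hy => simp only [map_add, hx, hy]

/-- **K6, base-change part.** For every `m` with `d m` onto, the map
`δ m : H⁰(L(m∞)) → N1 / y^m N1` computes `H⁰` and `H¹` of the Čech complex after every base
change `A → A'`. -/
theorem finite_model_baseChange (D : CechOps A N0 N1 N01)
    (h0 : IsFGProj D.X0) (h1 : IsFGProj D.Y1) (hr0 : Function.Injective D.r0) (m : ℕ)
    (hsurj : Function.Surjective (D.d m)) :
    Nonempty (LinearMap.ker ((D.δ m).baseChange A') ≃ₗ[A']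
        LinearMap.ker ((D.d 0).baseChange A')) ∧
      Nonempty (((A' ⊗[A] (N1 ⧸ LinearMap.range (D.Y1 ^ m))) ⧸
          LinearMap.range ((D.δ m).baseChange A')) ≃ₗ[A']
        ((A' ⊗[A] N01) ⧸ LinearMap.range ((D.d 0).baseChange A'))) := by
  let α := H0BaseChangeEquiv A' D h0 hr0 m hsurj
  let β := quotY1BaseChangeEquiv A' D m
  let e := TensorProduct.prodRight A A' A' N0 N1
  have hsq : ∀ t, β ((D.baseChange A').δ m (α t)) = (D.δ m).baseChange A' t :=
    quotY1BaseChangeEquiv_δ A' D m
  have hY1' : Function.Injective (D.baseChange A').Y1 :=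
    _root_.Fermat.Agent.S25.H370.injective_of_isFGProj (isFGProj_baseChange A' h1)
  have hsurj' : Function.Surjective ((D.baseChange A').d m) := by
    intro z
    obtain ⟨t, ht⟩ := baseChange_surjective' A' (D.d m) hsurj z
    refine ⟨e t, ?_⟩
    rw [← ht, ← baseChange_d]
    rfl
  constructor
  · -- kernels
    have k1 : LinearMap.ker ((D.δ m).baseChange A') =
        (LinearMap.ker ((D.baseChange A').δ m)).comap α.toLinearMap := by
      ext t
      rw [Submodule.mem_comap, LinearMap.mem_ker, LinearMap.mem_ker, ← hsq,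
        LinearEquiv.map_eq_zero_iff]
      rfl
    have k3 : LinearMap.ker ((D.d 0).baseChange A') =
        (LinearMap.ker ((D.baseChange A').d 0)).comap e.toLinearMap := by
      rw [← baseChange_d, LinearMap.ker_comp]
    exact ⟨(LinearEquiv.ofEq _ _ k1 ≪≫ₗ
        α.ofSubmodule' (LinearMap.ker ((D.baseChange A').δ m))) ≪≫ₗ
      (LinearEquiv.ofInjective ((D.baseChange A').incl m)
          (incl_injective (D.baseChange A') hY1' m) ≪≫ₗ
        LinearEquiv.ofEq _ _ (range_incl_eq_ker_δ (D.baseChange A') m)).symm ≪≫ₗ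
      (LinearEquiv.ofEq _ _ k3 ≪≫ₗ
        e.ofSubmodule' (LinearMap.ker ((D.baseChange A').d 0))).symm⟩
  · -- cokernels
    have c1 : (LinearMap.range ((D.δ m).baseChange A')).map β.symm.toLinearMap =
        LinearMap.range ((D.baseChange A').δ m) := by
      ext z
      constructor
      · rintro ⟨_, ⟨t, rfl⟩, rfl⟩
        refine ⟨α t, ?_⟩
        rw [← hsq]
        exact (β.symm_apply_apply _).symm
      · rintro ⟨x, rfl⟩
        obtain ⟨t, rfl⟩ := α.surjective x
        refine ⟨(D.δ m).baseChange A' t, ⟨t, rfl⟩, ?_⟩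
        rw [← hsq]
        exact β.symm_apply_apply _
    have c3 : LinearMap.range ((D.baseChange A').d 0) =
        LinearMap.range ((D.d 0).baseChange A') := by
      rw [← baseChange_d, LinearMap.range_comp, LinearEquiv.range, Submodule.map_top]
    exact ⟨Submodule.Quotient.equiv _ _ β.symm c1 ≪≫ₗ
      (Submodule.quotEquivOfEq _ _ (range_δ_eq_ker_conn (D.baseChange A') m) ≪≫ₗ
        ((D.baseChange A').conn m).quotKerEquivOfSurjective
          (conn_surjective (D.baseChange A') m hsurj')) ≪≫ₗ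
      Submodule.quotEquivOfEq _ _ c3⟩

end BaseChange

variable {N0 N1 N01 : Type v}
  [AddCommGroup N0] [AddCommGroup N1] [AddCommGroup N01]
  [Module A N0] [Module A N1] [Module A N01]

/-- **K6 (finite model)**, from the conclusions of K2, K1 and K0e. -/
theorem exists_finite_model_of (D : CechOps A N0 N1 N01)
    (h0 : IsFGProj D.X0) (h1 : IsFGProj D.Y1)
    (hr0 : Function.Injective D.r0)
    (hK2 : ∃ m0 : ℕ, ∀ m, m0 ≤ m → Function.Surjective (D.d m))
    (hK1 : ∀ m, Function.Surjective (D.d m) →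
      Module.Finite A (D.H0 m) ∧ Module.Projective A (D.H0 m))
    (hK0e : ∀ m, Module.Finite A (N1 ⧸ LinearMap.range (D.Y1 ^ m)) ∧
      Module.Projective A (N1 ⧸ LinearMap.range (D.Y1 ^ m))) :
    ∃ m : ℕ, Function.Surjective (D.d m) ∧
      Module.Finite A (D.H0 m) ∧ Module.Projective A (D.H0 m) ∧
      Module.Finite A (N1 ⧸ LinearMap.range (D.Y1 ^ m)) ∧
      Module.Projective A (N1 ⧸ LinearMap.range (D.Y1 ^ m)) ∧
      ∀ (A' : Type (max u v)) [CommRing A'] [Algebra A A'],
        Nonempty (LinearMap.ker ((D.δ m).baseChange A') ≃ₗ[A']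
          LinearMap.ker ((D.d 0).baseChange A')) ∧
        Nonempty (((A' ⊗[A] (N1 ⧸ LinearMap.range (D.Y1 ^ m))) ⧸
            LinearMap.range ((D.δ m).baseChange A')) ≃ₗ[A']
          ((A' ⊗[A] N01) ⧸ LinearMap.range ((D.d 0).baseChange A'))) := by
  obtain ⟨m0, hm0⟩ := hK2
  have hs := hm0 m0 le_rfl
  exact ⟨m0, hs, (hK1 m0 hs).1, (hK1 m0 hs).2, (hK0e m0).1, (hK0e m0).2,
    fun A' _ _ => finite_model_baseChange A' D h0 h1 hr0 m0 hs⟩

end Fermat.Agent.S25.H370

end
-- ===== PACK-END S25/H370/CechK6.lean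

-- ===== PACK-BEGIN S25/H325/GDCMor.lean
section
/-
S25 helper (helper325), block GDC item 7, part 2: calculus of morphisms of gluing data.
`GDHom` = `H0 (homGD)`, identities/compositions, isomorphisms from bijective (or, for
invertible data, surjective) morphisms.  Over the frozen `DefsAlg.lean`.  Pure algebra.
-/




set_option autoImplicit false

universe u

open TensorProduct

namespace Fermat.Agent.S25.H325

open Fermat.Agent.S25

noncomputable section

variable {A R₀ R₁ R₀₁ : Type u} [CommRing A] [CommRing R₀] [CommRing R₁]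
    [CommRing R₀₁] [Algebra A R₀] [Algebra A R₁] [Algebra A R₀₁] [Algebra R₀ R₀₁]
    [Algebra R₁ R₀₁] [IsScalarTower A R₀ R₀₁] [IsScalarTower A R₁ R₀₁]

variable {G G' G'' : GlueDatum A R₀ R₁ R₀₁}

/-! ### Basic calculus of `GDHom` -/

@[ext] theorem GDHom.ext' {f g : GDHom G G'} (h₀ : f.f₀ = g.f₀) (h₁ : f.f₁ = g.f₁) : f = g := by
  have h₀₁ : f.f₀₁ = g.f₀₁ := by
    apply G.isBaseChange₀.algHom_ext
    intro s
    rw [f.comm₀, g.comm₀, h₀]
  cases f; cases g
  simp only at h₀ h₁ h₀₁
  subst h₀ h₁ h₀₁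
  rfl

/-- The identity morphism. -/
def GDHom.id (G : GlueDatum A R₀ R₁ R₀₁) : GDHom G G where
  f₀ := LinearMap.id
  f₁ := LinearMap.id
  f₀₁ := LinearMap.id
  comm₀ _ := rfl
  comm₁ _ := rfl

/-- Composition of morphisms. -/
def GDHom.comp (g : GDHom G' G'') (f : GDHom G G') : GDHom G G'' where
  f₀ := g.f₀ ∘ₗ f.f₀
  f₁ := g.f₁ ∘ₗ f.f₁
  f₀₁ := g.f₀₁ ∘ₗ f.f₀₁
  comm₀ s := by simp only [LinearMap.comp_apply, f.comm₀, g.comm₀]
  comm₁ s := by simp only [LinearMap.comp_apply, f.comm₁, g.comm₁]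

/-- The morphism underlying an isomorphism of gluing data. -/
def GDHom.ofIso (e : GlueDatum.Iso G G') : GDHom G G' where
  f₀ := e.e₀.toLinearMap
  f₁ := e.e₁.toLinearMap
  f₀₁ := e.e₀₁.toLinearMap
  comm₀ := e.comm₀
  comm₁ := e.comm₁

/-- A morphism of gluing data is determined by its two chart components; conversely two
chart components whose extensions to the overlap agree define a morphism. -/
def GDHom.mk' (f₀ : G.N₀ →ₗ[R₀] G'.N₀) (f₁ : G.N₁ →ₗ[R₁] G'.N₁)
    (h : G.isBaseChange₀.lift (G'.r₀ ∘ₗ f₀) = G.isBaseChange₁.lift (G'.r₁ ∘ₗ f₁)) :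
    GDHom G G' where
  f₀ := f₀
  f₁ := f₁
  f₀₁ := G.isBaseChange₀.lift (G'.r₀ ∘ₗ f₀)
  comm₀ s := by rw [IsBaseChange.lift_eq]; rfl
  comm₁ s := by rw [h, IsBaseChange.lift_eq]; rfl

theorem GDHom.f₀₁_eq_lift₀ (f : GDHom G G') :
    f.f₀₁ = G.isBaseChange₀.lift (G'.r₀ ∘ₗ f.f₀) := by
  apply G.isBaseChange₀.algHom_ext
  intro s
  rw [f.comm₀, IsBaseChange.lift_eq]
  rfl

theorem GDHom.f₀₁_eq_lift₁ (f : GDHom G G') :
    f.f₀₁ = G.isBaseChange₁.lift (G'.r₁ ∘ₗ f.f₁) := by
  apply G.isBaseChange₁.algHom_ext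
  intro s
  rw [f.comm₁, IsBaseChange.lift_eq]
  rfl

/-! ### Isomorphisms from bijective morphisms -/

/-- The extension to the overlap of a bijective chart component is bijective. -/
theorem GDHom.bijective_f₀₁ (f : GDHom G G') (h₀ : Function.Bijective f.f₀) :
    Function.Bijective f.f₀₁ := by
  let e₀ : G.N₀ ≃ₗ[R₀] G'.N₀ := LinearEquiv.ofBijective f.f₀ h₀
  let g : G'.N₀₁ →ₗ[R₀₁] G.N₀₁ := G'.isBaseChange₀.lift (G.r₀ ∘ₗ e₀.symm.toLinearMap)
  have hg : ∀ s', g (G'.r₀ s') = G.r₀ (e₀.symm s') := fun s' => by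
    simp only [g, IsBaseChange.lift_eq]
    rfl
  have h1 : g ∘ₗ f.f₀₁ = LinearMap.id := by
    apply G.isBaseChange₀.algHom_ext
    intro s
    simp only [LinearMap.comp_apply, f.comm₀, hg, LinearMap.id_apply]
    congr 1
    exact e₀.symm_apply_apply s
  have h2 : f.f₀₁ ∘ₗ g = LinearMap.id := by
    apply G'.isBaseChange₀.algHom_ext
    intro s'
    simp only [LinearMap.comp_apply, f.comm₀, hg, LinearMap.id_apply]
    congr 1
    exact e₀.apply_symm_apply s'
  refine ⟨fun x y hxy => ?_, fun y => ⟨g y, congrArg (fun φ => φ y) h2⟩⟩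
  have := congrArg g hxy
  have hx := congrArg (fun φ => φ x) h1
  have hy := congrArg (fun φ => φ y) h1
  simp only [LinearMap.comp_apply, LinearMap.id_apply] at hx hy
  rw [← hx, ← hy]
  exact this

/-- A morphism of gluing data with bijective chart components is an isomorphism. -/
def isoOfBijective (f : GDHom G G') (h₀ : Function.Bijective f.f₀)
    (h₁ : Function.Bijective f.f₁) : GlueDatum.Iso G G' where
  e₀ := LinearEquiv.ofBijective f.f₀ h₀
  e₁ := LinearEquiv.ofBijective f.f₁ h₁
  e₀₁ := LinearEquiv.ofBijective f.f₀₁ (f.bijective_f₀₁ h₀)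
  comm₀ := f.comm₀
  comm₁ := f.comm₁

theorem isIso_of_bijective (f : GDHom G G') (h₀ : Function.Bijective f.f₀)
    (h₁ : Function.Bijective f.f₁) : G.IsIso G' := ⟨isoOfBijective f h₀ h₁⟩

/-- A morphism of gluing data (of invertible modules) with surjective chart components is an
isomorphism. -/
theorem isIso_of_surjective (f : GDHom G G') (h₀ : Function.Surjective f.f₀)
    (h₁ : Function.Surjective f.f₁) : G.IsIso G' := by
  haveI := G.invertible₀
  haveI := G.invertible₁
  haveI := G'.invertible₀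
  haveI := G'.invertible₁
  exact isIso_of_bijective f (Module.Invertible.bijective_of_surjective h₀)
    (Module.Invertible.bijective_of_surjective h₁)

/-! ### `IsIso` is an equivalence relation -/

theorem isIso_refl (G : GlueDatum A R₀ R₁ R₀₁) : G.IsIso G :=
  ⟨{ e₀ := LinearEquiv.refl _ _, e₁ := LinearEquiv.refl _ _, e₀₁ := LinearEquiv.refl _ _,
     comm₀ := fun _ => rfl, comm₁ := fun _ => rfl }⟩

theorem isIso_symm (h : G.IsIso G') : G'.IsIso G := by
  obtain ⟨e⟩ := h
  refine ⟨{ e₀ := e.e₀.symm, e₁ := e.e₁.symm, e₀₁ := e.e₀₁.symm, comm₀ := ?_, comm₁ := ?_ }⟩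
  · intro s
    rw [LinearEquiv.symm_apply_eq, e.comm₀, LinearEquiv.apply_symm_apply]
  · intro s
    rw [LinearEquiv.symm_apply_eq, e.comm₁, LinearEquiv.apply_symm_apply]

theorem isIso_trans (h : G.IsIso G') (h' : G'.IsIso G'') : G.IsIso G'' := by
  obtain ⟨e⟩ := h
  obtain ⟨e'⟩ := h'
  refine ⟨⟨e.e₀ ≪≫ₗ e'.e₀, e.e₁ ≪≫ₗ e'.e₁, e.e₀₁ ≪≫ₗ e'.e₀₁, ?_, ?_⟩⟩
  · intro s
    simp only [LinearEquiv.trans_apply, e.comm₀, e'.comm₀]
  · intro s
    simp only [LinearEquiv.trans_apply, e.comm₁, e'.comm₁]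

/-! ### `H⁰` of the internal Hom = morphisms -/

/-- The extension of a linear map on the chart `0` to the overlap. -/
def ext₀ (G G' : GlueDatum A R₀ R₁ R₀₁) (f : G.N₀ →ₗ[R₀] G'.N₀) : G.N₀₁ →ₗ[R₀₁] G'.N₀₁ :=
  IsBaseChange.linearMapLeftRightHom G.isBaseChange₀ G'.r₀ f

/-- The extension of a linear map on the chart `1` to the overlap. -/
def ext₁ (G G' : GlueDatum A R₀ R₁ R₀₁) (f : G.N₁ →ₗ[R₁] G'.N₁) : G.N₀₁ →ₗ[R₀₁] G'.N₀₁ :=
  IsBaseChange.linearMapLeftRightHom G.isBaseChange₁ G'.r₁ f

theorem homGD_r₀_eq (f : G.N₀ →ₗ[R₀] G'.N₀) : (homGD G G').r₀ f = ext₀ G G' f := rfl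

theorem homGD_r₁_eq (f : G.N₁ →ₗ[R₁] G'.N₁) : (homGD G G').r₁ f = ext₁ G G' f := rfl

@[simp] theorem ext₀_apply (f : G.N₀ →ₗ[R₀] G'.N₀) (s : G.N₀) :
    ext₀ G G' f (G.r₀ s) = G'.r₀ (f s) :=
  IsBaseChange.linearMapLeftRightHom_comp_apply G.isBaseChange₀ G'.r₀ f s

@[simp] theorem ext₁_apply (f : G.N₁ →ₗ[R₁] G'.N₁) (s : G.N₁) :
    ext₁ G G' f (G.r₁ s) = G'.r₁ (f s) :=
  IsBaseChange.linearMapLeftRightHom_comp_apply G.isBaseChange₁ G'.r₁ f s

theorem GDHom.ext₀_eq (f : GDHom G G') : ext₀ G G' f.f₀ = f.f₀₁ := by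
  apply G.isBaseChange₀.algHom_ext
  intro s
  rw [ext₀_apply, f.comm₀]

theorem GDHom.ext₁_eq (f : GDHom G G') : ext₁ G G' f.f₁ = f.f₀₁ := by
  apply G.isBaseChange₁.algHom_ext
  intro s
  rw [ext₁_apply, f.comm₁]

theorem mem_H0_homGD_iff (f₀ : G.N₀ →ₗ[R₀] G'.N₀) (f₁ : G.N₁ →ₗ[R₁] G'.N₁) :
    ((f₀, f₁) : (homGD G G').N₀ × (homGD G G').N₁) ∈ (homGD G G').H0 ↔
      ext₀ G G' f₀ = ext₁ G G' f₁ := by
  rw [LinearMap.mem_ker]
  simp only [GlueDatum.cech, LinearMap.coprod_apply, LinearMap.coe_restrictScalars,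
    LinearMap.neg_apply]
  rw [← sub_eq_add_neg, sub_eq_zero]
  rfl

/-- A global section of the internal Hom is a morphism of gluing data. -/
def GDHom.ofH0 (x : (homGD G G').H0) : GDHom G G' where
  f₀ := x.1.1
  f₁ := x.1.2
  f₀₁ := ext₀ G G' x.1.1
  comm₀ s := ext₀_apply _ s
  comm₁ s := by
    have h := (mem_H0_homGD_iff (G := G) (G' := G') x.1.1 x.1.2).mp x.2
    rw [h]
    exact ext₁_apply _ s

/-- A morphism of gluing data is a global section of the internal Hom. -/
def GDHom.toH0 (f : GDHom G G') : (homGD G G').H0 :=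
  ⟨(f.f₀, f.f₁), by
    rw [mem_H0_homGD_iff, f.ext₀_eq, f.ext₁_eq]⟩

/-- **`H⁰(Hom(G, G'))` = morphisms `G → G'`.** -/
def gdHomEquivH0 : GDHom G G' ≃ (homGD G G').H0 where
  toFun := GDHom.toH0
  invFun := GDHom.ofH0
  left_inv f := by
    apply GDHom.ext' <;> rfl
  right_inv x := by
    apply Subtype.ext
    rfl

end

end Fermat.Agent.S25.H325

end
-- ===== PACK-END S25/H325/GDCMor.lean

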