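import Mathlib
import Fermat.Agent.Pack.S44C.G0E9L2
import Fermat.Agent.Pack.S44C.G0E4L0
import Fermat.Agent.Pack.S43MC.G0E0L0
import Fermat.Agent.Pack.S43MC.G0E5L3
import Fermat.Agent.Pack.S43MC.G0E5L0
import Fermat.Agent.Pack.S43MC.G0E5L1
import Fermat.Agent.Pack.S43MC.G0E0L3
import Fermat.Agent.Pack.S43MC.G0E1L2
import Fermat.Agent.Pack.S43MC.G0E5L2
import Fermat.Agent.Pack.S43MC.G0E6L0
import Fermat.Agent.Pack.S43MC.G0E6L2
import Fermat.Agent.Pack.S43MC.G0E7L1
import Fermat.Agent.Pack.Fast891

-- ===== PACK-BEGIN S35/H433/Loc.lean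
section


/-!
# S35 / (G) — localisations of a chart inside the function field (helper433)

Elementwise API for `B_n ⊆ F` and `I · B_n ⊆ F` (`B` a subalgebra of a field `F`, `n` a prime of
`B`), bridging to the predicates `LocUnit`, `LocOne`, `OneAt` of `Fermat/Agent/A2/Alg/Spec.lean`.
Mathlib-only mathematics.
-/

set_option autoImplicit false

namespace Fermat.Agent.S35.H433

open Fermat.Agent.A2 Fermat.Agent.A2.Alg

variable {R F : Type*} [CommRing R] [Field F] [Algebra R F] (B : Subalgebra R F)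

/-- `u ∈ I · B_n`: `u = a / b`, `a ∈ I`, `b ∉ n`. -/
def InLoc (n I : Ideal B) (u : F) : Prop :=
  ∃ a b : B, a ∈ I ∧ b ∉ n ∧ u * (b : F) = (a : F)

variable {B}

theorem coe_ne_zero_of_not_mem {n : Ideal B} {b : B} (hb : b ∉ n) : (b : F) ≠ 0 := by
  intro h
  apply hb
  have : b = 0 := Subtype.ext h
  rw [this]
  exact n.zero_mem

theorem InLoc.mono {n I J : Ideal B} (hIJ : I ≤ J) {u : F} (h : InLoc B n I u) : InLoc B n J u := by
  obtain ⟨a, b, ha, hb, hab⟩ := h
  exact ⟨a, b, hIJ ha, hb, hab⟩

theorem InLoc.anti {n n' I : Ideal B} (hn : n' ≤ n) {u : F} (h : InLoc B n I u) :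
    InLoc B n' I u := by
  obtain ⟨a, b, ha, hb, hab⟩ := h
  exact ⟨a, b, ha, fun h' => hb (hn h'), hab⟩

theorem inLoc_zero (n I : Ideal B) [n.IsPrime] : InLoc B n I (0 : F) :=
  ⟨0, 1, I.zero_mem, fun h => (Ideal.IsPrime.ne_top ‹_›) ((Ideal.eq_top_iff_one n).2 h), by simp⟩

theorem inLoc_coe {n I : Ideal B} [n.IsPrime] {a : B} (ha : a ∈ I) : InLoc B n I (a : F) :=
  ⟨a, 1, ha, fun h => (Ideal.IsPrime.ne_top ‹_›) ((Ideal.eq_top_iff_one n).2 h), by simp⟩

theorem inLoc_one (n : Ideal B) [n.IsPrime] : InLoc B n ⊤ (1 : F) :=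
  ⟨1, 1, trivial, fun h => (Ideal.IsPrime.ne_top ‹_›) ((Ideal.eq_top_iff_one n).2 h), by simp⟩

theorem InLoc.add {n I : Ideal B} [hn : n.IsPrime] {u v : F} (hu : InLoc B n I u)
    (hv : InLoc B n I v) : InLoc B n I (u + v) := by
  obtain ⟨a, b, ha, hb, hab⟩ := hu
  obtain ⟨a', b', ha', hb', hab'⟩ := hv
  refine ⟨a * b' + a' * b, b * b', I.add_mem (I.mul_mem_right _ ha) (I.mul_mem_right _ ha'),
    fun h => (hn.mem_or_mem h).elim hb hb', ?_⟩
  push_cast
  rw [← hab, ← hab']
  ring

theorem InLoc.neg {n I : Ideal B} {u : F} (hu : InLoc B n I u) : InLoc B n I (-u) := by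
  obtain ⟨a, b, ha, hb, hab⟩ := hu
  refine ⟨-a, b, I.neg_mem ha, hb, ?_⟩
  push_cast
  rw [← hab]
  ring

theorem InLoc.sub {n I : Ideal B} [n.IsPrime] {u v : F} (hu : InLoc B n I u)
    (hv : InLoc B n I v) : InLoc B n I (u - v) := by
  rw [sub_eq_add_neg]
  exact hu.add hv.neg

/-- `B_n · I B_n ⊆ I B_n`. -/
theorem InLoc.mul {n I : Ideal B} [hn : n.IsPrime] {u v : F} (hu : InLoc B n ⊤ u)
    (hv : InLoc B n I v) : InLoc B n I (u * v) := by
  obtain ⟨a, b, -, hb, hab⟩ := hu
  obtain ⟨a', b', ha', hb', hab'⟩ := hv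
  refine ⟨a * a', b * b', I.mul_mem_left _ ha', fun h => (hn.mem_or_mem h).elim hb hb', ?_⟩
  push_cast
  rw [← hab, ← hab']
  ring

theorem InLoc.mul' {n I : Ideal B} [hn : n.IsPrime] {u v : F} (hu : InLoc B n I u)
    (hv : InLoc B n ⊤ v) : InLoc B n I (u * v) := by
  rw [mul_comm]
  exact hv.mul hu

theorem InLoc.top {n I : Ideal B} {u : F} (hu : InLoc B n I u) : InLoc B n ⊤ u :=
  hu.mono le_top

theorem InLoc.pow {n : Ideal B} [hn : n.IsPrime] {u : F} (hu : InLoc B n ⊤ u) (k : ℕ) :
    InLoc B n ⊤ (u ^ k) := by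
  induction k with
  | zero => rw [pow_zero]; exact inLoc_one n
  | succ k ih => rw [pow_succ]; exact ih.mul hu

/-- Contraction: `I B_n ∩ B_n = I B_n`, in the form: an element of `B_n` lying in `p B_p`
(`p ≤ n` prime) lies in `p B_n`. -/
theorem InLoc.of_le {n p : Ideal B} [hp : p.IsPrime] {u : F} (hu : InLoc B n ⊤ u)
    (hup : InLoc B p p u) : InLoc B n p u := by
  obtain ⟨a, b, -, hb, hab⟩ := hu
  obtain ⟨a', b', ha', hb', hab'⟩ := hup
  refine ⟨a, b, ?_, hb, hab⟩
  have h1 : a * b' = a' * b := by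
    apply Subtype.ext
    push_cast
    rw [← hab, ← hab']
    ring
  have h2 : a * b' ∈ p := by
    rw [h1]
    exact p.mul_mem_right _ ha'
  exact (hp.mem_or_mem h2).resolve_right hb'

/-- `p₁ B_n ∩ p₂ B_n = (p₁ ∩ p₂) B_n`. -/
theorem InLoc.inf {n p₁ p₂ : Ideal B} [hn : n.IsPrime] {u : F} (h₁ : InLoc B n p₁ u)
    (h₂ : InLoc B n p₂ u) : InLoc B n (p₁ ⊓ p₂) u := by
  obtain ⟨a, b, ha, hb, hab⟩ := h₁
  obtain ⟨a', b', ha', hb', hab'⟩ := h₂
  refine ⟨a * b', b * b', ⟨p₁.mul_mem_right _ ha, ?_⟩, fun h => (hn.mem_or_mem h).elim hb hb', ?_⟩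
  · have h1 : a * b' = a' * b := by
      apply Subtype.ext
      push_cast
      rw [← hab, ← hab']
      ring
    rw [h1]
    exact p₂.mul_mem_right _ ha'
  · push_cast
    rw [← hab]
    ring

/-- `(p₁ + p₂) B_n = p₁ B_n + p₂ B_n`. -/
theorem InLoc.exists_add {n p₁ p₂ : Ideal B} {u : F} (h : InLoc B n (p₁ ⊔ p₂) u) :
    ∃ u₁ u₂ : F, InLoc B n p₁ u₁ ∧ InLoc B n p₂ u₂ ∧ u = u₁ + u₂ := by
  obtain ⟨a, b, ha, hb, hab⟩ := h
  obtain ⟨a₁, ha₁, a₂, ha₂, rfl⟩ := Submodule.mem_sup.1 ha
  have hb0 : (b : F) ≠ 0 := coe_ne_zero_of_not_mem hb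
  refine ⟨(a₁ : F) / b, (a₂ : F) / b, ⟨a₁, b, ha₁, hb, by field_simp⟩,
    ⟨a₂, b, ha₂, hb, by field_simp⟩, ?_⟩
  push_cast at hab
  field_simp
  exact hab

/-- An element of `B_p` outside `p B_p` is a unit of `B_p`. -/
theorem inLoc_inv_of_not {p : Ideal B} {u : F} (hu : InLoc B p ⊤ u) (hnu : ¬ InLoc B p p u) :
    InLoc B p ⊤ u⁻¹ := by
  obtain ⟨a, b, -, hb, hab⟩ := hu
  have ha : a ∉ p := fun ha => hnu ⟨a, b, ha, hb, hab⟩
  have ha0 : (a : F) ≠ 0 := coe_ne_zero_of_not_mem ha
  have hb0 : (b : F) ≠ 0 := coe_ne_zero_of_not_mem hb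
  refine ⟨b, a, trivial, ha, ?_⟩
  have hu0 : u ≠ 0 := by
    rintro rfl
    rw [zero_mul] at hab
    exact ha0 hab.symm
  rw [← hab]
  field_simp

/-! ### Bridges to `Alg/Spec.lean` -/

theorem locUnit_ne_zero {n : Ideal B} {u : F} (h : LocUnit B n u) : u ≠ 0 := by
  obtain ⟨a, b, ha, hb, hab⟩ := h
  rintro rfl
  rw [zero_mul] at hab
  exact coe_ne_zero_of_not_mem ha hab.symm

theorem locUnit_iff {n : Ideal B} [hn : n.IsPrime] {u : F} :
    LocUnit B n u ↔ u ≠ 0 ∧ InLoc B n ⊤ u ∧ InLoc B n ⊤ u⁻¹ := by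
  constructor
  · intro h
    have hu0 := locUnit_ne_zero h
    obtain ⟨a, b, ha, hb, hab⟩ := h
    have ha0 : (a : F) ≠ 0 := coe_ne_zero_of_not_mem ha
    have hb0 : (b : F) ≠ 0 := coe_ne_zero_of_not_mem hb
    refine ⟨hu0, ⟨a, b, trivial, hb, hab⟩, ⟨b, a, trivial, ha, ?_⟩⟩
    rw [← hab]
    field_simp
  · rintro ⟨hu0, ⟨a, b, -, hb, hab⟩, ⟨a', b', -, hb', hab'⟩⟩
    have hb0 : (b : F) ≠ 0 := coe_ne_zero_of_not_mem hb
    have hb'0 : (b' : F) ≠ 0 := coe_ne_zero_of_not_mem hb'
    refine ⟨a, b, ?_, hb, hab⟩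
    intro ha
    have h1 : a * a' = b * b' := by
      apply Subtype.ext
      push_cast
      rw [← hab, ← hab']
      field_simp
    have h2 : b * b' ∈ n := by
      rw [← h1]
      exact n.mul_mem_right _ ha
    exact (hn.mem_or_mem h2).elim hb hb'

theorem locOne_iff {n I : Ideal B} {u : F} : LocOne B n I u ↔ InLoc B n I (u - 1) := by
  constructor
  · rintro ⟨a, b, hb, hab, h⟩
    refine ⟨a - b, b, hab, hb, ?_⟩
    push_cast
    rw [← h]
    ring
  · rintro ⟨a, b, ha, hb, h⟩
    refine ⟨a + b, b, hb, by simpa using ha, ?_⟩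
    push_cast
    rw [← h]
    ring

theorem oneAt_iff {p : Ideal B} {u : F} : OneAt B p u ↔ InLoc B p p (u - 1) :=
  locOne_iff

end Fermat.Agent.S35.H433

end
-- ===== PACK-END S35/H433/Loc.lean

-- ===== PACK-BEGIN Ribet/H714/DictLoc.lean
section



/-!
# RIBET, wall at `p`, leaf S2:DICT — from a valuation to the chart (helper714)

Mathlib + `A2/H48/TwoVal` + `A2/Alg/Spec` only.

`B ⊆ F` a subalgebra over `R`, `V ⊇ B` a valuation subring of `F` with uniformiser `w`,
`p = B ∩ w V` the component of the special fibre cut out by `V`, `p'` a second ideal with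
`p ⊓ p' = (w)`, `p' ⊄ p`.

* `exists_frac_not_mem` : every `z ∈ V` which is a fraction of elements of `B` with a denominator
  of bounded valuation is a fraction `a / b` with `b ∈ B ∖ p` (`V = B_p`, elementwise);
* `constAt_of_val_sub_one` : `z ∈ 1 + 𝔪_V ⟹ ConstAt B p z` (with the constant `1`).
-/

set_option autoImplicit false

namespace Fermat.Agent.Ribet.H714

open Fermat.Agent.A2 Fermat.Agent.A2.Alg Fermat.Agent.A2.H48

section Loc

variable {R F : Type*} [CommRing R] [Field F] [Algebra R F]

/-- The data of a component `p = B ∩ w V` of the special fibre of the chart `B` together with a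
complementary ideal `p'`. -/
structure CutCtx (B : Subalgebra R F) (V : ValuationSubring F) (w : R) (p p' : Ideal B) :
    Prop where
  le : ∀ b : B, (b : F) ∈ V
  unif : IsUnif V (algebraMap R F w)
  cut : ∀ b : B, b ∈ p ↔ (b : F) * (algebraMap R F w)⁻¹ ∈ V
  inf_eq : p ⊓ p' = Ideal.span {algebraMap R B w}
  not_le : ¬ p' ≤ p

variable {B : Subalgebra R F} {V : ValuationSubring F} {w : R} {p p' : Ideal B}

theorem CutCtx.mem_iff_val (h : CutCtx B V w p p') (b : B) :
    b ∈ p ↔ V.valuation (b : F) < 1 := by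
  rw [h.cut b, h.unif.mul_inv_mem_iff]

theorem CutCtx.inv_mem_of_not_mem (h : CutCtx B V w p p') {b : B} (hb : b ∉ p) :
    ((b : F))⁻¹ ∈ V := by
  by_contra hcon
  exact hb ((h.cut b).2 (h.unif.gen _ (h.le b) hcon))

theorem CutCtx.coe_algebraMap (B : Subalgebra R F) (w : R) :
    ((algebraMap R B w : B) : F) = algebraMap R F w := rfl

/-- One step: a fraction with denominator in `p` can be rewritten with a denominator of smaller
valuation. -/
theorem CutCtx.exists_frac_not_mem (h : CutCtx B V w p p') (z : F) (hz : z ∈ V) :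
    ∀ (k : ℕ) (a b : B), b ≠ 0 → (algebraMap R F w) ^ k * ((b : F))⁻¹ ∈ V →
      z * (b : F) = (a : F) → ∃ a' b' : B, b' ∉ p ∧ z * (b' : F) = (a' : F) := by
  have hw0 : algebraMap R F w ≠ 0 := h.unif.ne_zero
  obtain ⟨e, he', he⟩ := SetLike.not_le_iff_exists.1 h.not_le
  have heinv : ((e : F))⁻¹ ∈ V := h.inv_mem_of_not_mem he
  have he0 : (e : F) ≠ 0 := by
    intro h0
    apply he
    have : e = 0 := Subtype.ext h0
    rw [this]
    exact p.zero_mem
  intro k
  induction k with
  | zero =>
    intro a b hb0 hk hzb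
    refine ⟨a, b, fun hbp => ?_, hzb⟩
    rw [pow_zero, one_mul] at hk
    apply h.unif.inv_not_mem
    have hb0' : (b : F) ≠ 0 := fun h0 => hb0 (Subtype.ext h0)
    have e1 : (algebraMap R F w)⁻¹ = (b : F) * (algebraMap R F w)⁻¹ * ((b : F))⁻¹ := by
      field_simp
    rw [e1]
    exact V.mul_mem _ _ ((h.cut b).1 hbp) hk
  | succ k ih =>
    intro a b hb0 hk hzb
    by_cases hbp : b ∈ p
    · have hb0' : (b : F) ≠ 0 := fun h0 => hb0 (Subtype.ext h0)
      have hap : a ∈ p := by
        rw [h.cut a, ← hzb, mul_assoc]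
        exact V.mul_mem _ _ hz ((h.cut b).1 hbp)
      have hbe : b * e ∈ p ⊓ p' := ⟨p.mul_mem_right _ hbp, p'.mul_mem_left _ he'⟩
      have hae : a * e ∈ p ⊓ p' := ⟨p.mul_mem_right _ hap, p'.mul_mem_left _ he'⟩
      rw [h.inf_eq, Ideal.mem_span_singleton'] at hbe hae
      obtain ⟨b₁, hb₁⟩ := hbe
      obtain ⟨a₁, ha₁⟩ := hae
      have hb₁F : (b₁ : F) * algebraMap R F w = (b : F) * (e : F) := by
        have := congrArg (fun t : B => (t : F)) hb₁
        simpa using this
      have ha₁F : (a₁ : F) * algebraMap R F w = (a : F) * (e : F) := by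
        have := congrArg (fun t : B => (t : F)) ha₁
        simpa using this
      have hb₁eq : (b₁ : F) = (b : F) * (e : F) * (algebraMap R F w)⁻¹ := by
        rw [← hb₁F]; field_simp
      have ha₁eq : (a₁ : F) = (a : F) * (e : F) * (algebraMap R F w)⁻¹ := by
        rw [← ha₁F]; field_simp
      have hb₁0 : b₁ ≠ 0 := by
        intro h0
        have : (b₁ : F) = 0 := by rw [h0]; rfl
        rw [hb₁eq] at this
        exact (mul_ne_zero (mul_ne_zero hb0' he0) (inv_ne_zero hw0)) this
      refine ih a₁ b₁ hb₁0 ?_ ?_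
      · have e1 : (algebraMap R F w) ^ k * ((b₁ : F))⁻¹ =
            (algebraMap R F w) ^ (k + 1) * ((b : F))⁻¹ * ((e : F))⁻¹ := by
          rw [hb₁eq, pow_succ]
          field_simp
        rw [e1]
        exact V.mul_mem _ _ hk heinv
      · rw [hb₁eq, ha₁eq, ← hzb]
        ring
    · exact ⟨a, b, hbp, hzb⟩

/-- **From the valuation to the chart**: an element `z ≡ 1` modulo the maximal ideal of `V`
which is a fraction of elements of `B` with a denominator of bounded valuation has constant
residue `1` on the component `p = B ∩ w V`. -/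
theorem CutCtx.constAt_of_val_sub_one (h : CutCtx B V w p p') (z : F)
    (hz : V.valuation (z - 1) < 1)
    (hfrac : ∃ (k : ℕ) (a b : B), b ≠ 0 ∧ (algebraMap R F w) ^ k * ((b : F))⁻¹ ∈ V ∧
      z * (b : F) = (a : F)) : ConstAt B p z := by
  have hzV : z ∈ V := by
    rw [← V.valuation_le_one_iff]
    have h1 : V.valuation z = 1 := by
      have := Valuation.map_one_add_of_lt (v := V.valuation) hz
      rwa [add_sub_cancel] at this
    exact h1.le
  obtain ⟨k, a, b, hb0, hk, hzb⟩ := hfrac
  obtain ⟨a', b', hb', hzb'⟩ := h.exists_frac_not_mem z hzV k a b hb0 hk hzb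
  refine ⟨1, isUnit_one, a', b', hb', ?_, hzb'⟩
  rw [map_one, one_mul, h.mem_iff_val]
  have e1 : ((a' - b' : B) : F) = (z - 1) * (b' : F) := by
    rw [sub_mul, one_mul, hzb']
    rfl
  rw [e1, map_mul]
  calc V.valuation (z - 1) * V.valuation (b' : F) ≤ V.valuation (z - 1) * 1 :=
        mul_le_mul_right ((V.valuation_le_one_iff _).2 (h.le b')) _
    _ < 1 := by rw [mul_one]; exact hz

end Loc

end Fermat.Agent.Ribet.H714

end
-- ===== PACK-END Ribet/H714/DictLoc.lean

-- ===== PACK-BEGIN S25/H927/Proper.lean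
section



/-!
# S25, assembly block AS2: `Val → Abel → ProperOfRep`

* `surjective_of_abel_family`: the classifying map `X ⟶ J` of an Abel family is surjective;
* `properOfRep_of_val_abel : Stmt.Val c ε → Stmt.Abel c ε → Stmt.ProperOfRep c ε`.
-/

set_option autoImplicit false
universe u
open CategoryTheory CategoryTheory.Limits AlgebraicGeometry AlgebraicGeometry.RelPicard
  NeronModelInfra GoodReductionJacobian

namespace Fermat.Agent.S25.H927

noncomputable section

variable {k : Type u} [Field k] {C : Scheme.{u}} {c : C ⟶ Spec (CommRingCat.of k)}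
  {ε : SchemeHomOver (𝟙 (Spec (CommRingCat.of k))) c}

/-- The geometric point over `j : J` with values in the algebraic closure of `κ(j)`. -/
def geomPoint (J : Scheme.{u}) (j : J) :
    Spec (CommRingCat.of (AlgebraicClosure (J.residueField j))) ⟶ J :=
  Spec.map (CommRingCat.ofHom (algebraMap (J.residueField j)
    (AlgebraicClosure (J.residueField j)))) ≫ J.fromSpecResidueField j

theorem geomPoint_apply (J : Scheme.{u}) (j : J)
    (s : Spec (CommRingCat.of (AlgebraicClosure (J.residueField j)))) :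
    geomPoint J j s = j := by
  rw [geomPoint, Scheme.Hom.comp_apply, Scheme.fromSpecResidueField_apply]

/-- The classifying map of a family through which every geometric point of the functor factors
is surjective. -/
theorem surjective_of_family {D : RelativePic0Designation k c}
    (h : RepresentsRelSubPic c ε (algEquivZeroCut c ε) D)
    {X : Scheme.{u}} {x : X ⟶ Spec (CommRingCat.of k)} (M : RigidifiedLineBundle c ε x)
    (hall : ∀ (K : Type u) [Field K] [IsAlgClosed K] [Algebra k K]
      (L : RigidifiedLineBundle c ε (specStr k K)), FibrewiseAlgEquivZero L →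
        ∃ p : SchemeHomOver (specStr k K) x, RIso (M.pullbackAlong p) L)
    (α : SchemeHomOver x D.toBase) (hα : RIso (h.poincare.pullbackAlong α) M) :
    Surjective α.1 := by
  refine ⟨fun j => ?_⟩
  obtain ⟨instK, hK⟩ := exists_algebra_specStr (k := k) (AlgebraicClosure (D.P.residueField j))
    (geomPoint D.P j ≫ D.toBase)
  let s : SchemeHomOver (specStr k (AlgebraicClosure (D.P.residueField j))) D.toBase :=
    ⟨geomPoint D.P j, hK.symm⟩
  have hL : FibrewiseAlgEquivZero (h.poincare.pullbackAlong s) :=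
    (algEquivZeroCut c ε).pullback_mem _ _ s _ h.poincare_mem
  obtain ⟨p, hp⟩ := hall (AlgebraicClosure (D.P.residueField j)) _ hL
  have hiso : RIso (h.poincare.pullbackAlong (postComp α p)) (h.poincare.pullbackAlong s) :=
    rIso_trans (rIso_symm (rIso_pullbackAlong_comp _ α p))
      (rIso_trans (rIso_pullbackAlong hα p) hp)
  have heq : postComp α p = s := h.ext_of_iso _ _ _ hiso
  have h1 : p.1 ≫ α.1 = geomPoint D.P j := congrArg Subtype.val heq
  obtain ⟨pt⟩ : Nonempty (Spec (CommRingCat.of (AlgebraicClosure (D.P.residueField j)))) :=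
    inferInstance
  refine ⟨p.1 pt, ?_⟩
  rw [← Scheme.Hom.comp_apply, h1, geomPoint_apply]

/-- **AS2.** `Val → Abel → ProperOfRep`. -/
theorem properOfRep_of_val_abel (hVal : Stmt.Val c ε) (hAbel : Stmt.Abel c ε) :
    Stmt.ProperOfRep c ε := by
  intro D ⟨h⟩ hlft
  obtain ⟨X, x, hx, -, M, hM, hall⟩ := hAbel
  have hsep : IsSeparated D.toBase := isSeparated_of_val hVal D h hlft
  let α := h.classify x M hM
  have hα : RIso (h.poincare.pullbackAlong α) M := h.classify_spec x M hM
  have hsurj : Surjective α.1 := surjective_of_family h M hall α hα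
  have huc : UniversallyClosed (α.1 ≫ D.toBase) := by
    rw [α.2]
    infer_instance
  have : UniversallyClosed D.toBase := UniversallyClosed.of_comp_surjective α.1 D.toBase
  exact { }

end

end Fermat.Agent.S25.H927

end
-- ===== PACK-END S25/H927/Proper.lean

-- ===== PACK-BEGIN S25/H625/ChartsOfAlg.lean
section


/-!
# Row S25, bridge AS9: `Stmt.Charts` from the dictionary and `Stmt.AlgCharts` (formal)

helper625.  The only facts of the calculus of gluing data that are used are proved here:
`isIso_refl'` and `isBC_of_isIso_right` (a base change composed with an isomorphism is a base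
change).
-/

set_option autoImplicit false
universe u
open CategoryTheory CategoryTheory.Limits AlgebraicGeometry AlgebraicGeometry.RelPicard
  NeronModelInfra GoodReductionJacobian
open scoped TensorProduct

namespace Fermat.Agent.S25.H625

section GDC

/-- Composing a semilinear base-change map with a linear equivalence of the target. -/
theorem isSemilinearBaseChange_equiv_comp {R R' : Type u} [CommRing R] [CommRing R']
    (ρ : R →+* R') {N N' N'' : Type u} [AddCommGroup N] [Module R N] [AddCommGroup N']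
    [Module R' N'] [AddCommGroup N''] [Module R' N''] (b : N →ₛₗ[ρ] N')
    (hb : IsSemilinearBaseChange ρ b) (e : N' ≃ₗ[R'] N'') :
    IsSemilinearBaseChange ρ ((e : N' →ₗ[R'] N'').comp b) := by
  unfold IsSemilinearBaseChange at hb ⊢
  letI : Algebra R R' := ρ.toAlgebra
  letI : Module R N' := Module.compHom N' ρ
  letI : Module R N'' := Module.compHom N'' ρ
  haveI : IsScalarTower R R' N' := ⟨fun r r' n => by
    change (ρ r * r') • n = ρ r • (r' • n); rw [mul_smul]⟩
  haveI : IsScalarTower R R' N'' := ⟨fun r r' n => by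
    change (ρ r * r') • n = ρ r • (r' • n); rw [mul_smul]⟩
  exact IsBaseChange.comp hb (IsBaseChange.ofEquiv e)

variable {A R₀ R₁ R₀₁ : Type u} [CommRing A] [CommRing R₀] [CommRing R₁]
    [CommRing R₀₁] [Algebra A R₀] [Algebra A R₁] [Algebra A R₀₁] [Algebra R₀ R₀₁]
    [Algebra R₁ R₀₁] [IsScalarTower A R₀ R₀₁] [IsScalarTower A R₁ R₀₁]
    {A' R₀' R₁' R₀₁' : Type u} [CommRing A'] [CommRing R₀'] [CommRing R₁']
    [CommRing R₀₁'] [Algebra A' R₀'] [Algebra A' R₁'] [Algebra A' R₀₁'] [Algebra R₀' R₀₁']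
    [Algebra R₁' R₀₁'] [IsScalarTower A' R₀' R₀₁'] [IsScalarTower A' R₁' R₀₁']

/-- Every gluing datum is isomorphic to itself. -/
theorem isIso_refl' (G : GlueDatum A R₀ R₁ R₀₁) : G.IsIso G :=
  ⟨⟨LinearEquiv.refl _ _, LinearEquiv.refl _ _, LinearEquiv.refl _ _, fun _ => rfl,
    fun _ => rfl⟩⟩

/-- A base change followed by an isomorphism is a base change. -/
theorem isBC_of_isIso_right {ρ₀ : R₀ →+* R₀'} {ρ₁ : R₁ →+* R₁'} {ρ₀₁ : R₀₁ →+* R₀₁'}
    {G : GlueDatum A R₀ R₁ R₀₁} {G' G'' : GlueDatum A' R₀' R₁' R₀₁'}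
    (h : GlueDatum.IsBC ρ₀ ρ₁ ρ₀₁ G G') (hi : G'.IsIso G'') :
    GlueDatum.IsBC ρ₀ ρ₁ ρ₀₁ G G'' := by
  obtain ⟨m⟩ := h
  obtain ⟨i⟩ := hi
  refine ⟨⟨(i.e₀ : G'.N₀ →ₗ[R₀'] G''.N₀).comp m.b₀, (i.e₁ : G'.N₁ →ₗ[R₁'] G''.N₁).comp m.b₁,
    (i.e₀₁ : G'.N₀₁ →ₗ[R₀₁'] G''.N₀₁).comp m.b₀₁, ?_, ?_,
    isSemilinearBaseChange_equiv_comp ρ₀ m.b₀ m.isBaseChange₀ i.e₀,
    isSemilinearBaseChange_equiv_comp ρ₁ m.b₁ m.isBaseChange₁ i.e₁,
    isSemilinearBaseChange_equiv_comp ρ₀₁ m.b₀₁ m.isBaseChange₀₁ i.e₀₁⟩⟩
  · intro s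
    simp only [LinearMap.coe_comp, LinearEquiv.coe_coe, Function.comp_apply]
    rw [m.comm₀, i.comm₀]
  · intro s
    simp only [LinearMap.coe_comp, LinearEquiv.coe_coe, Function.comp_apply]
    rw [m.comm₁, i.comm₁]

end GDC

variable {k : Type u} [Field k] {C : Scheme.{u}} {c : C ⟶ Spec (CommRingCat.of k)}
  {ε : SchemeHomOver (𝟙 (Spec (CommRingCat.of k))) c}

/-- The scheme-theoretic chart family attached to an algebraic chart family through the
dictionary. -/
theorem nonempty_chartFamily_of_alg (Ch : ChartOf c ε) (hSec : Stmt.DictSections Ch)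
    (hGlue : Stmt.DictGlue Ch) (hIso : Stmt.DictIso Ch) (hBC : Stmt.DictBC Ch)
    (hDeg : Stmt.DictDeg Ch) (hEx : Stmt.AlgBCExists Ch)
    (F : AlgChartFamily k Ch.B₀ Ch.B₁ Ch.B₀₁ Ch.e) : Nonempty (ChartFamily c ε) := by
  classical
  -- the bundles of the charts
  have hb : ∀ i, ∃ M : RigidifiedLineBundle c ε (specStr k (F.R i)),
      Corr Ch (F.R i) M.L (F.datum i) := fun i => hGlue (F.R i) (F.datum i) (F.rig i)
  choose bundle hbundle using hb
  refine ⟨{
    ι := F.ι
    R := F.R
    finiteType := F.finiteType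
    bundle := bundle
    deg0 := fun i => (hDeg (F.R i) (bundle i) (F.datum i) (hbundle i)).2 (F.deg0 i)
    inj := ?_
    locus := ?_ }⟩
  · intro i A _ _ φ ψ hφψ
    obtain ⟨Gφ, hGφ⟩ := hEx (F.R i) A φ (F.datum i)
    obtain ⟨Gψ, hGψ⟩ := hEx (F.R i) A ψ (F.datum i)
    have h1 := hBC (F.R i) A φ (bundle i) (F.datum i) Gφ (hbundle i) hGφ
    have h2 := hBC (F.R i) A ψ (bundle i) (F.datum i) Gψ (hbundle i) hGψ
    exact F.inj i A φ ψ Gφ Gψ hGφ hGψ ((hIso A _ _ Gφ Gψ h1 h2).1 hφψ)
  · intro A _ _ M hM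
    obtain ⟨G, hG, hrig⟩ := hSec A M
    obtain ⟨I, hI, hloc⟩ := F.locus A G hrig ((hDeg A M G hG).1 hM)
    refine ⟨I, hI, fun i A' _ _ ψ => ?_⟩
    obtain ⟨G', hG'⟩ := hEx A A' ψ G
    have hMG' := hBC A A' ψ M G G' hG hG'
    rw [← hloc i A' ψ G' hG']
    constructor
    · rintro ⟨φ, hφ⟩
      obtain ⟨G'', hG''⟩ := hEx (F.R i) A' φ (F.datum i)
      have h1 := hBC (F.R i) A' φ (bundle i) (F.datum i) G'' (hbundle i) hG''
      exact ⟨φ, isBC_of_isIso_right hG'' ((hIso A' _ _ G'' G' h1 hMG').1 hφ)⟩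
    · rintro ⟨φ, hφ⟩
      have h1 := hBC (F.R i) A' φ (bundle i) (F.datum i) G' (hbundle i) hφ
      exact ⟨φ, (hIso A' _ _ G' G' h1 hMG').2 (isIso_refl' G')⟩

/-- AS9: `Stmt.Charts` follows formally from the dictionary and `Stmt.AlgCharts`. -/
theorem charts_of_alg (Ch : ChartOf c ε) (hSec : Stmt.DictSections Ch)
    (hGlue : Stmt.DictGlue Ch) (hIso : Stmt.DictIso Ch) (hBC : Stmt.DictBC Ch)
    (hDeg : Stmt.DictDeg Ch) (hEx : Stmt.AlgBCExists Ch)
    (hCh : Stmt.AlgCharts k Ch.B₀ Ch.B₁ Ch.B₀₁) : Stmt.Charts c ε := by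
  obtain ⟨F⟩ := hCh Ch.x Ch.y Ch.e Ch.isCurveChart
  exact nonempty_chartFamily_of_alg Ch hSec hGlue hIso hBC hDeg hEx F

end Fermat.Agent.S25.H625

end
-- ===== PACK-END S25/H625/ChartsOfAlg.lean

-- ===== PACK-BEGIN S25/H806/GluePullback.lean
section


/-!
# S25 / block GLUE / leaf G1 (helper806): morphisms glue — pullback functors, sectionwise form

For an open immersion `g : Y ⟶ X` and `φ : g^* M ⟶ g^* N` (pullback functors), `onOpen g φ V hV`
is the component `Γ(M, V) ⟶ Γ(N, V)` of `φ` over an open `V ≤ g.opensRange` of `X`, defined via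
the unit of `g^* ⊣ g_*` (an isomorphism on such `V`).

* `pullback_map_eq_iff`: `g^* ψ = φ ↔ ∀ V ≤ range g, ψ.app V = onOpen g φ V`;
* `existsUnique_hom_of_compatOnPullback`: local morphisms with equal components glue uniquely;
* `hom_ext_of_cover_pullback`, `isIso_of_cover_pullback`: joint faithfulness / conservativity.
-/

set_option autoImplicit false

open CategoryTheory AlgebraicGeometry TopologicalSpace Opposite
open AlgebraicGeometry.Scheme.Modules

universe u

namespace Fermat.Agent.S25.H806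

section Single

variable {X Y : Scheme.{u}} (g : Y ⟶ X) {M N : X.Modules}

/-- The unit of the adjunction `g^* ⊣ g_*`, as a morphism of `𝒪_X`-modules. -/
noncomputable def pbUnit (N : X.Modules) : N ⟶ (pushforward g).obj ((pullback g).obj N) :=
  (pullbackPushforwardAdjunction g).unit.app N

/-- The transpose of a morphism `g^* M ⟶ K`. -/
noncomputable def transpose {K : Y.Modules} (φ : (pullback g).obj M ⟶ K) :
    M ⟶ (pushforward g).obj K :=
  (pullbackPushforwardAdjunction g).homEquiv _ _ φ

theorem transpose_eq {K : Y.Modules} (φ : (pullback g).obj M ⟶ K) :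
    transpose g φ = pbUnit g M ≫ (pushforward g).map φ :=
  Adjunction.homEquiv_unit _ _ _ _

theorem transpose_injective {K : Y.Modules} : Function.Injective (transpose g (M := M) (K := K)) :=
  ((pullbackPushforwardAdjunction g).homEquiv _ _).injective

theorem transpose_map (ψ : M ⟶ N) : transpose g ((pullback g).map ψ) = ψ ≫ pbUnit g N := by
  rw [transpose_eq]
  exact ((pullbackPushforwardAdjunction g).unit.naturality ψ).symm

/-- The unit of the restriction adjunction. -/
noncomputable def resUnit [IsOpenImmersion g] (N : X.Modules) :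
    N ⟶ (pushforward g).obj (N.restrict g) :=
  (restrictAdjunction g).unit.app N

theorem pbUnit_eq [IsOpenImmersion g] (N : X.Modules) :
    pbUnit g N = resUnit g N ≫ (pushforward g).map ((restrictFunctorIsoPullback g).hom.app N) :=
  (Adjunction.unit_leftAdjointUniq_hom_app (restrictAdjunction g)
    (pullbackPushforwardAdjunction g) N).symm

theorem isIso_presheaf_map_of_eq (N : X.Modules) {V V' : X.Opens} (h : V = V') (i : V ⟶ V') :
    IsIso (N.presheaf.map i.op) := by
  subst h
  have : i = 𝟙 _ := Subsingleton.elim _ _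
  rw [this, op_id, N.presheaf.map_id]
  infer_instance

theorem isIso_resUnit_app [IsOpenImmersion g] (N : X.Modules) (V : X.Opens)
    (hV : V ≤ g.opensRange) : IsIso ((resUnit g N).app V) := by
  have e : g ''ᵁ (g ⁻¹ᵁ V) = V := by
    rw [Scheme.Hom.image_preimage_eq_opensRange_inf]; exact inf_eq_right.mpr hV
  have h : (resUnit g N).app V = N.presheaf.map (homOfLE (g.image_preimage_le V)).op :=
    restrictAdjunction_unit_app_app g N V
  rw [h]
  exact isIso_presheaf_map_of_eq N e _

theorem isIso_pbUnit_app [IsOpenImmersion g] (N : X.Modules) (V : X.Opens)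
    (hV : V ≤ g.opensRange) : IsIso ((pbUnit g N).app V) := by
  rw [pbUnit_eq, Scheme.Modules.Hom.comp_app]
  have := isIso_resUnit_app g N V hV
  have : IsIso (((pushforward g).map ((restrictFunctorIsoPullback g).hom.app N)).app V) := by
    rw [pushforward_map_app]
    exact Scheme.Modules.Hom.isIso_iff_isIso_app.mp inferInstance _
  infer_instance


theorem app_naturality {X : Scheme.{u}} {M N : X.Modules} (φ : M ⟶ N) {V V' : X.Opens}
    (i : V ⟶ V') : M.presheaf.map i.op ≫ φ.app V = φ.app V' ≫ N.presheaf.map i.op :=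
  φ.mapPresheaf.naturality i.op

variable [IsOpenImmersion g]

/-- The component over an open `V` of `X` contained in the range of the open immersion `g` of a
local morphism `φ : g^* M ⟶ g^* N`, as a map `Γ(M, V) ⟶ Γ(N, V)`. -/
noncomputable def onOpen (φ : (pullback g).obj M ⟶ (pullback g).obj N) (V : X.Opens)
    (hV : V ≤ g.opensRange) : Γ(M, V) ⟶ Γ(N, V) :=
  haveI := isIso_pbUnit_app g N V hV
  (transpose g φ).app V ≫ inv ((pbUnit g N).app V)

theorem onOpen_comp_pbUnit (φ : (pullback g).obj M ⟶ (pullback g).obj N) (V : X.Opens)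
    (hV : V ≤ g.opensRange) :
    onOpen g φ V hV ≫ (pbUnit g N).app V = (transpose g φ).app V := by
  have := isIso_pbUnit_app g N V hV
  rw [onOpen, Category.assoc, IsIso.inv_hom_id, Category.comp_id]

theorem onOpen_eq_iff (φ : (pullback g).obj M ⟶ (pullback g).obj N) (V : X.Opens)
    (hV : V ≤ g.opensRange) (α : Γ(M, V) ⟶ Γ(N, V)) :
    α = onOpen g φ V hV ↔ α ≫ (pbUnit g N).app V = (transpose g φ).app V := by
  have := isIso_pbUnit_app g N V hV
  rw [← onOpen_comp_pbUnit g φ V hV, cancel_mono]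

theorem onOpen_map (ψ : M ⟶ N) (V : X.Opens) (hV : V ≤ g.opensRange) :
    onOpen g ((pullback g).map ψ) V hV = ψ.app V := by
  symm
  rw [onOpen_eq_iff, transpose_map, Scheme.Modules.Hom.comp_app]

theorem onOpen_naturality (φ : (pullback g).obj M ⟶ (pullback g).obj N) {V V' : X.Opens}
    (h : V ≤ V') (hV' : V' ≤ g.opensRange) :
    M.presheaf.map (homOfLE h).op ≫ onOpen g φ V (h.trans hV') =
      onOpen g φ V' hV' ≫ N.presheaf.map (homOfLE h).op := by
  have := isIso_pbUnit_app g N V (h.trans hV')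
  rw [← cancel_mono ((pbUnit g N).app V), Category.assoc, onOpen_comp_pbUnit, Category.assoc,
    app_naturality (pbUnit g N) (homOfLE h), ← Category.assoc, onOpen_comp_pbUnit,
    app_naturality (transpose g φ) (homOfLE h)]

theorem onOpen_smul (φ : (pullback g).obj M ⟶ (pullback g).obj N) (V : X.Opens)
    (hV : V ≤ g.opensRange) (r : Γ(X, V)) (x : Γ(M, V)) :
    onOpen g φ V hV (r • x) = r • onOpen g φ V hV x := by
  have := isIso_pbUnit_app g N V hV
  have hinj : Function.Injective ((pbUnit g N).app V) :=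
    ((ConcreteCategory.isIso_iff_bijective _).mp inferInstance).1
  apply hinj
  have h := fun y => ConcreteCategory.congr_hom (onOpen_comp_pbUnit g φ V hV) y
  simp only [ConcreteCategory.comp_apply] at h
  rw [h, Scheme.Modules.Hom.app_smul, Scheme.Modules.Hom.app_smul, h]

/-- Morphisms into a pushforward along an open immersion are determined by their components on
the opens contained in the range. -/
theorem hom_pushforward_ext {K : Y.Modules} (α β : M ⟶ (pushforward g).obj K)
    (h : ∀ V : X.Opens, V ≤ g.opensRange → α.app V = β.app V) : α = β := by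
  ext V : 1
  have hle : V ⊓ g.opensRange ≤ V := inf_le_left
  have e : g ⁻¹ᵁ (V ⊓ g.opensRange) = g ⁻¹ᵁ V := by
    ext y
    simp
  have hiso : IsIso (((pushforward g).obj K).presheaf.map (homOfLE hle).op) := by
    rw [pushforward_obj_presheaf_map]
    exact isIso_presheaf_map_of_eq K e _
  rw [← cancel_mono (((pushforward g).obj K).presheaf.map (homOfLE hle).op),
    ← app_naturality α (homOfLE hle), ← app_naturality β (homOfLE hle),
    h _ inf_le_right]

theorem pullback_map_eq_iff (ψ : M ⟶ N) (φ : (pullback g).obj M ⟶ (pullback g).obj N) :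
    (pullback g).map ψ = φ ↔ ∀ (V : X.Opens) (hV : V ≤ g.opensRange),
      ψ.app V = onOpen g φ V hV := by
  constructor
  · rintro rfl V hV
    exact (onOpen_map g ψ V hV).symm
  · intro h
    apply transpose_injective g
    rw [transpose_map]
    refine hom_pushforward_ext g _ _ (fun V hV => ?_)
    rw [Scheme.Modules.Hom.comp_app, h V hV, onOpen_comp_pbUnit]

theorem onOpen_ext {φ φ' : (pullback g).obj M ⟶ (pullback g).obj N}
    (h : ∀ (V : X.Opens) (hV : V ≤ g.opensRange), onOpen g φ V hV = onOpen g φ' V hV) :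
    φ = φ' := by
  apply transpose_injective g
  refine hom_pushforward_ext g _ _ (fun V hV => ?_)
  rw [← onOpen_comp_pbUnit g φ V hV, ← onOpen_comp_pbUnit g φ' V hV, h V hV]

end Single

section Family

variable {X : Scheme.{u}} {ι : Type*} {Y : ι → Scheme.{u}} (f : ∀ i, Y i ⟶ X)
  [∀ i, IsOpenImmersion (f i)]

/-- Sectionwise compatibility of a family of local morphisms `φ i : (f i)^* M ⟶ (f i)^* N`
(pullback functors): their components agree on every open of `X` contained in the ranges of
both `f i` and `f j`. -/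
def CompatOnPullback {M N : X.Modules}
    (φ : ∀ i, (pullback (f i)).obj M ⟶ (pullback (f i)).obj N) : Prop :=
  ∀ (i j : ι) (V : X.Opens) (hi : V ≤ (f i).opensRange) (hj : V ≤ (f j).opensRange),
    onOpen (f i) (φ i) V hi = onOpen (f j) (φ j) V hj

theorem isBasis_le_opensRange (hf : ∀ x : X, ∃ i, x ∈ Set.range (f i)) :
    Opens.IsBasis (Set.range
      fun p : {p : ι × X.Opens // p.2 ≤ (f p.1).opensRange} => p.1.2) := by
  rw [Opens.isBasis_iff_nbhd]
  intro W x hx
  obtain ⟨i, hi⟩ := hf x
  exact ⟨_, ⟨⟨⟨i, W ⊓ (f i).opensRange⟩, inf_le_right⟩, rfl⟩, ⟨hx, hi⟩, inf_le_left⟩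

variable {f}

/-- The pullbacks of a global morphism are compatible. -/
theorem compatOnPullback_map {M N : X.Modules} (ψ : M ⟶ N) :
    CompatOnPullback f (fun i => (pullback (f i)).map ψ) := by
  intro i j V hi hj
  rw [onOpen_map, onOpen_map]

/-- **G1, cover form (pullback functors, sectionwise compatibility).** -/
theorem existsUnique_hom_of_compatOnPullback (hf : ∀ x : X, ∃ i, x ∈ Set.range (f i))
    (M N : X.Modules) (φ : ∀ i, (pullback (f i)).obj M ⟶ (pullback (f i)).obj N)
    (hφ : CompatOnPullback f φ) :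
    ∃! ψ : M ⟶ N, ∀ i, (pullback (f i)).map ψ = φ i := by
  obtain ⟨ψ, hψ, huniq⟩ := existsUnique_hom_of_basis (isBasis_le_opensRange f hf) M N
    (fun p => onOpen (f p.1.1) (φ p.1.1) p.1.2 p.2)
    (fun p q h => by
      have h1 := hφ p.1.1 q.1.1 p.1.2 p.2 (le_trans h q.2)
      have h2 := onOpen_naturality (f q.1.1) (φ q.1.1) h q.2
      rw [h1, h2])
    (fun p r x => onOpen_smul (f p.1.1) (φ p.1.1) p.1.2 p.2 r x)
  refine ⟨ψ, fun i => ?_, fun ψ' hψ' => huniq ψ' fun p => ?_⟩
  · exact (pullback_map_eq_iff (f i) ψ (φ i)).mpr fun V hV => hψ ⟨⟨i, V⟩, hV⟩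
  · exact (pullback_map_eq_iff (f p.1.1) ψ' (φ p.1.1)).mp (hψ' p.1.1) p.1.2 p.2

/-- Joint faithfulness of the pullbacks to a cover by open immersions. -/
theorem hom_ext_of_cover_pullback (hf : ∀ x : X, ∃ i, x ∈ Set.range (f i)) {M N : X.Modules}
    (φ ψ : M ⟶ N) (h : ∀ i, (pullback (f i)).map φ = (pullback (f i)).map ψ) : φ = ψ :=
  (existsUnique_hom_of_compatOnPullback hf M N _ (compatOnPullback_map φ)).unique
    (fun _ => rfl) (fun i => (h i).symm)

/-- Joint conservativity of the pullbacks to a cover by open immersions. -/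
theorem isIso_of_cover_pullback (hf : ∀ x : X, ∃ i, x ∈ Set.range (f i)) {M N : X.Modules}
    (φ : M ⟶ N) (h : ∀ i, IsIso ((pullback (f i)).map φ)) : IsIso φ := by
  refine isIso_of_cover hf φ (fun i => ?_)
  have e := (restrictFunctorIsoPullback (f i)).hom.naturality φ
  have : (restrictFunctor (f i)).map φ = (restrictFunctorIsoPullback (f i)).hom.app M ≫
      (pullback (f i)).map φ ≫ (restrictFunctorIsoPullback (f i)).inv.app N := by
    rw [← Category.assoc, ← e, Category.assoc, Iso.hom_inv_id_app, Category.comp_id]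
  rw [this]
  have := h i
  infer_instance

end Family

end Fermat.Agent.S25.H806

end
-- ===== PACK-END S25/H806/GluePullback.lean

-- ===== PACK-BEGIN S25/H507/DimOne.lean
section


set_option autoImplicit false

universe u

open AlgebraicGeometry CategoryTheory TopologicalSpace Opposite

namespace Fermat.Agent.S25.H507

lemma prime_eq_bot_or_eq_maximalIdeal (R : Type*) [CommRing R] [IsDomain R] [ValuationRing R]
    [IsNoetherianRing R] (p : Ideal R) [hp : p.IsPrime] :
    p = ⊥ ∨ p = IsLocalRing.maximalIdeal R := by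
  by_cases h : p = ⊥
  · exact Or.inl h
  · right
    have : IsPrincipalIdealRing R := inferInstance
    have hmax : p.IsMaximal := hp.isMaximal h
    exact IsLocalRing.eq_maximalIdeal hmax

lemma finite_of_isClosed_of_forall_isClosed_singleton {Y : Type*} [TopologicalSpace Y]
    [NoetherianSpace Y] [QuasiSober Y] {Z : Set Y} (hZ : IsClosed Z)
    (h : ∀ z ∈ Z, IsClosed ({z} : Set Y)) : Z.Finite := by
  obtain ⟨S, hSf, hSc, hSi, rfl⟩ := NoetherianSpace.exists_finite_set_isClosed_irreducible hZ
  refine Set.Finite.sUnion hSf fun s hs => ?_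
  obtain ⟨x, hx⟩ := QuasiSober.sober (hSi s hs) (hSc s hs)
  have hxs : x ∈ s := hx.mem
  have hcl : IsClosed ({x} : Set Y) := h x ⟨s, hs, hxs⟩
  have : s = {x} := by
    rw [← hx.def, hcl.closure_eq]
  rw [this]
  exact Set.finite_singleton x

lemma fromSpecStalk_bot {X : Scheme.{u}} [IsIntegral X] (Q : X)
    (b : ↥(Spec (X.presheaf.stalk Q))) (hb : PrimeSpectrum.asIdeal b = ⊥) :
    X.fromSpecStalk Q b = genericPoint X := by
  have hη : genericPoint X ⤳ Q := (genericPoint_spec X).specializes trivial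
  have hmem : genericPoint X ∈ Set.range (X.fromSpecStalk Q) := by
    rw [Scheme.range_fromSpecStalk]; exact hη
  obtain ⟨p', hp'⟩ := hmem
  have h1 : b ⤳ p' := by
    have : (show PrimeSpectrum (X.presheaf.stalk Q) from b) ≤
        (show PrimeSpectrum (X.presheaf.stalk Q) from p') := by
      change PrimeSpectrum.asIdeal b ≤ PrimeSpectrum.asIdeal p'
      rw [hb]
      exact bot_le
    exact (PrimeSpectrum.le_iff_specializes _ _).mp this
  have h2 : X.fromSpecStalk Q b ⤳ genericPoint X := by
    rw [← hp']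
    exact h1.map (X.fromSpecStalk Q).continuous
  have h3 : genericPoint X ⤳ X.fromSpecStalk Q b := (genericPoint_spec X).specializes trivial
  exact (h2.antisymm h3).eq

theorem isClosed_singleton_of_ne_genericPoint {X : Scheme.{u}} [IsIntegral X]
    [IsLocallyNoetherian X] (hval : ∀ P : X, ValuationRing (X.presheaf.stalk P))
    {P : X} (hP : P ≠ genericPoint X) : IsClosed ({P} : Set X) := by
  rw [← closure_eq_iff_isClosed]
  refine subset_antisymm ?_ subset_closure
  intro Q hQ
  have hPQ : P ⤳ Q := specializes_iff_mem_closure.mpr hQ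
  have hmem : P ∈ Set.range (X.fromSpecStalk Q) := by
    rw [Scheme.range_fromSpecStalk]; exact hPQ
  obtain ⟨p, hp⟩ := hmem
  have := hval Q
  have hprime : (PrimeSpectrum.asIdeal p).IsPrime := PrimeSpectrum.isPrime p
  rcases prime_eq_bot_or_eq_maximalIdeal (X.presheaf.stalk Q) (PrimeSpectrum.asIdeal p) with h | h
  · exfalso
    apply hP
    rw [← hp]
    exact fromSpecStalk_bot Q p h
  · have : p = IsLocalRing.closedPoint (X.presheaf.stalk Q) := PrimeSpectrum.ext h
    rw [this, Scheme.fromSpecStalk_closedPoint] at hp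
    exact Set.mem_singleton_iff.mpr hp

end Fermat.Agent.S25.H507

end
-- ===== PACK-END S25/H507/DimOne.lean

-- ===== PACK-BEGIN S25/H130/Affine.lean
section


/-!
# S25 / AS4 (helper130): the chart axioms `inj`, `locus` for affine schemes `Spec A`
with an arbitrary structure morphism `s : Spec A ⟶ Spec k` (no `Algebra` instance needed).
-/

set_option autoImplicit false
set_option linter.style.haveILetI false
universe u
open CategoryTheory CategoryTheory.Limits AlgebraicGeometry AlgebraicGeometry.RelPicard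
  NeronModelInfra GoodReductionJacobian

namespace Fermat.Agent.S25.H130

noncomputable section

variable {k : Type u} [Field k] {C : Scheme.{u}} {c : C ⟶ Spec (CommRingCat.of k)}
  {ε : SchemeHomOver (𝟙 (Spec (CommRingCat.of k))) c}

/-- Every morphism over `k` between spectra of `k`-algebras is `specHomOver` of an algebra map. -/
theorem exists_specHomOver_eq {A B : Type u} [CommRing A] [CommRing B] [Algebra k A] [Algebra k B]
    (g : SchemeHomOver (specStr k A) (specStr k B)) :
    ∃ φ : B →ₐ[k] A, g = specHomOver k φ := by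
  have hg := g.2
  obtain ⟨ρ, hρ⟩ : ∃ ρ : CommRingCat.of B ⟶ CommRingCat.of A, g.1 = Spec.map ρ :=
    ⟨Spec.preimage g.1, (Spec.map_preimage g.1).symm⟩
  have hcomm : CommRingCat.ofHom (algebraMap k B) ≫ ρ = CommRingCat.ofHom (algebraMap k A) := by
    apply Spec.map_injective
    rw [Spec.map_comp, ← hρ]
    exact hg
  refine ⟨{ ρ.hom with commutes' := fun x => ?_ }, Subtype.ext ?_⟩
  · have := congrArg (fun f => f.hom x) hcomm
    simpa using this
  · rw [hρ]
    rfl

/-- `ChartFamily.inj` for `Spec A` with an arbitrary structure morphism. -/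
theorem inj_spec (ch : ChartFamily c ε) (i : ch.ι) (A : CommRingCat.{u})
    (s : Spec A ⟶ Spec (CommRingCat.of k))
    (g g' : SchemeHomOver s (specStr k (ch.R i)))
    (h : RIso ((ch.bundle i).pullbackAlong g) ((ch.bundle i).pullbackAlong g')) : g = g' := by
  obtain ⟨r, rfl⟩ : ∃ r : CommRingCat.of k ⟶ A, s = Spec.map r :=
    ⟨Spec.preimage s, (Spec.map_preimage s).symm⟩
  letI : Algebra k A := r.hom.toAlgebra
  obtain ⟨φ, hφ⟩ := exists_specHomOver_eq (k := k) (A := A) (B := ch.R i) g
  obtain ⟨φ', hφ'⟩ := exists_specHomOver_eq (k := k) (A := A) (B := ch.R i) g'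
  rw [hφ, hφ'] at h
  have := ch.inj i A φ φ' h
  rw [hφ, hφ', this]

/-- `ChartFamily.locus` for `Spec A` with an arbitrary structure morphism. -/
theorem locus_spec (ch : ChartFamily c ε) (A : CommRingCat.{u})
    (s : Spec A ⟶ Spec (CommRingCat.of k)) (M : RigidifiedLineBundle c ε s)
    (hM : FibrewiseAlgEquivZero M) :
    ∃ I : ch.ι → Ideal A, (⨆ i, I i) = ⊤ ∧
      ∀ (i : ch.ι) (A' : CommRingCat.{u}) (s' : Spec A' ⟶ Spec (CommRingCat.of k))
        (g : SchemeHomOver s' s),
        (∃ φ : SchemeHomOver s' (specStr k (ch.R i)),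
          RIso ((ch.bundle i).pullbackAlong φ) (M.pullbackAlong g)) ↔
        (I i).map (Spec.preimage g.1).hom = ⊤ := by
  obtain ⟨r, rfl⟩ : ∃ r : CommRingCat.of k ⟶ A, s = Spec.map r :=
    ⟨Spec.preimage s, (Spec.map_preimage s).symm⟩
  letI : Algebra k A := r.hom.toAlgebra
  obtain ⟨I, hI, hloc⟩ := ch.locus A M hM
  refine ⟨I, hI, fun i A' s' g => ?_⟩
  obtain ⟨ψ, hψ⟩ : ∃ ψ : A ⟶ A', g.1 = Spec.map ψ :=
    ⟨Spec.preimage g.1, (Spec.map_preimage g.1).symm⟩
  obtain rfl : s' = Spec.map (r ≫ ψ) := by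
    rw [← g.2, hψ, Spec.map_comp]
  letI : Algebra k A' := (r ≫ ψ).hom.toAlgebra
  let ψ' : A →ₐ[k] A' := { ψ.hom with commutes' := fun x => rfl }
  have hg : g = specHomOver k ψ' := Subtype.ext hψ
  have hpre : (Spec.preimage g.1).hom = ψ'.toRingHom := by
    rw [hψ, Spec.preimage_map]
  rw [hpre, ← hloc i A' ψ', hg]
  constructor
  · rintro ⟨φ, hφ⟩
    obtain ⟨φ', rfl⟩ := exists_specHomOver_eq (k := k) (A := A') (B := ch.R i) φ
    exact ⟨φ', hφ⟩
  · rintro ⟨φ, hφ⟩
    exact ⟨specHomOver k φ, hφ⟩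

end

end Fermat.Agent.S25.H130

end
-- ===== PACK-END S25/H130/Affine.lean

-- ===== PACK-BEGIN S25/H687/DDFormal.lean
section
/-
S25, block DICTDEG (helper687): formal lemmas about the Prelude's `IsAlgEquivZero` /
`FibrewiseAlgEquivZero`.

* `pullbackIsoOfFac`   : `f^* g^* L ≅ h^* L` when `f ≫ g = h`.
* `pullbackIsoOfSq`    : `f^* g^* L ≅ f'^* g'^* L` when `f ≫ g = f' ≫ g'`.
* `fibrewiseAlgEquivZero_of_trivial_fibre` (FAM): a rigidified line bundle over a locally
  finite type, geometrically integral base `X` whose fibre at one `k`-point is trivial is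
  fibrewise algebraically equivalent to zero.
-/


set_option autoImplicit false
set_option linter.unusedSimpArgs false
universe u
open CategoryTheory CategoryTheory.Limits AlgebraicGeometry AlgebraicGeometry.RelPicard
  NeronModelInfra GoodReductionJacobian

namespace Fermat.Agent.S25.H687

noncomputable section

/-- `f^* g^* L ≅ h^* L` when `f ≫ g = h`. -/
def pullbackIsoOfFac {X Y Z : Scheme.{u}} (f : X ⟶ Y) (g : Y ⟶ Z) (h : X ⟶ Z)
    (e : f ≫ g = h) (L : Z.Modules) :
    (Scheme.Modules.pullback f).obj ((Scheme.Modules.pullback g).obj L) ≅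
      (Scheme.Modules.pullback h).obj L :=
  (Scheme.Modules.pullbackComp f g).app L ≪≫ (Scheme.Modules.pullbackCongr e).app L

/-- `f^* g^* L ≅ f'^* g'^* L` when `f ≫ g = f' ≫ g'`. -/
def pullbackIsoOfSq {X Y Y' Z : Scheme.{u}} (f : X ⟶ Y) (g : Y ⟶ Z) (f' : X ⟶ Y')
    (g' : Y' ⟶ Z) (e : f ≫ g = f' ≫ g') (L : Z.Modules) :
    (Scheme.Modules.pullback f).obj ((Scheme.Modules.pullback g).obj L) ≅
      (Scheme.Modules.pullback f').obj ((Scheme.Modules.pullback g').obj L) :=
  pullbackIsoOfFac f g (f' ≫ g') e L ≪≫ ((Scheme.Modules.pullbackComp f' g').app L).symm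

variable {k : Type u} [Field k] {C : Scheme.{u}} {c : C ⟶ Spec (CommRingCat.of k)}
  {ε : SchemeHomOver (𝟙 (Spec (CommRingCat.of k))) c}

/-- **FAM.** A family of line bundles on `C` parametrised by a locally finite type,
geometrically integral `k`-scheme `X`, one of whose fibres (at a `k`-point `x₀`) is trivial, is
fibrewise algebraically equivalent to zero. -/
theorem fibrewiseAlgEquivZero_of_trivial_fibre {X : Scheme.{u}}
    (x : X ⟶ Spec (CommRingCat.of k)) [LocallyOfFiniteType x] [GeometricallyIntegral x]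
    (M : RigidifiedLineBundle c ε x) (x₀ : SchemeHomOver (𝟙 (Spec (CommRingCat.of k))) x)
    (h₀ : Nonempty ((M.pullbackAlong x₀).L ≅
      SheafOfModules.unit (pullback c (𝟙 (Spec (CommRingCat.of k)))).ringCatSheaf)) :
    FibrewiseAlgEquivZero M := by
  intro K _ _ s
  obtain ⟨e₀⟩ := h₀
  -- the structure map of `Spec K`
  let σ : Spec (CommRingCat.of K) ⟶ Spec (CommRingCat.of k) := s ≫ x
  -- the parameter space `T' = X_K`
  let h : pullback x σ ⟶ Spec (CommRingCat.of K) := pullback.snd x σ
  let a := fibreAt c x s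
  -- the two points
  let t₁ : SchemeHomOver (𝟙 (Spec (CommRingCat.of K))) h :=
    ⟨pullback.lift s (𝟙 _) (by simp [σ]), pullback.lift_snd _ _ _⟩
  let t₀ : SchemeHomOver (𝟙 (Spec (CommRingCat.of K))) h :=
    ⟨pullback.lift (σ ≫ x₀.1) (𝟙 _) (by rw [Category.assoc, x₀.2]; simp),
      pullback.lift_snd _ _ _⟩
  -- the map `F ×_K T' ⟶ C × X`
  have hcond : (pullback.fst a h ≫ pullback.fst (pullback.snd c x) s ≫ pullback.fst c x) ≫ c =
      (pullback.snd a h ≫ pullback.fst x σ) ≫ x := by
    have h1 : pullback.fst (pullback.snd c x) s ≫ pullback.fst c x ≫ c =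
        pullback.snd (pullback.snd c x) s ≫ σ := by
      rw [pullback.condition, ← Category.assoc, pullback.condition, Category.assoc]
    have h2 : pullback.fst a h ≫ a = pullback.snd a h ≫ h := pullback.condition
    simp only [Category.assoc]
    rw [h1, pullback.condition]
    change pullback.fst a h ≫ a ≫ σ = pullback.snd a h ≫ h ≫ σ
    rw [← Category.assoc, h2, Category.assoc]
  let g : pullback a h ⟶ pullback c x :=
    pullback.lift (pullback.fst a h ≫ pullback.fst (pullback.snd c x) s ≫ pullback.fst c x)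
      (pullback.snd a h ≫ pullback.fst x σ) hcond
  refine ⟨pullback x σ, h, inferInstance, inferInstance, (Scheme.Modules.pullback g).obj M.L,
    M.isInvertible.pullback g, t₀, t₁, ⟨?_⟩, ⟨?_⟩⟩
  · -- fibre at `t₀` is trivial
    have hq : (pullback.fst a (𝟙 _) ≫ pullback.fst (pullback.snd c x) s ≫ pullback.fst c x) ≫ c =
        (pullback.snd a (𝟙 (Spec (CommRingCat.of K))) ≫ σ) ≫ 𝟙 _ := by
      have h1 : pullback.fst (pullback.snd c x) s ≫ pullback.fst c x ≫ c =
          pullback.snd (pullback.snd c x) s ≫ σ := by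
        rw [pullback.condition, ← Category.assoc, pullback.condition, Category.assoc]
      simp only [Category.assoc, Category.comp_id]
      rw [h1]
      have h2 : pullback.fst a (𝟙 (Spec (CommRingCat.of K))) ≫ a =
          pullback.snd a (𝟙 _) ≫ 𝟙 _ := pullback.condition
      rw [Category.comp_id] at h2
      change pullback.fst a (𝟙 _) ≫ a ≫ σ = _
      rw [← Category.assoc, h2]
    let q : pullback a (𝟙 (Spec (CommRingCat.of K))) ⟶ pullback c (𝟙 (Spec (CommRingCat.of k))) :=
      pullback.lift (pullback.fst a (𝟙 _) ≫ pullback.fst (pullback.snd c x) s ≫ pullback.fst c x)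
        (pullback.snd a (𝟙 _) ≫ σ) hq
    have hfac : baseChangeSnd a t₀ ≫ g = q ≫ baseChangeSnd c x₀ := by
      apply pullback.hom_ext
      · simp only [baseChangeSnd, g, q, Category.assoc, pullback.lift_fst, pullback.lift_snd,
          pullback.lift_fst_assoc, pullback.lift_snd_assoc, Category.comp_id, Category.id_comp]
      · simp only [baseChangeSnd, g, q, t₀, Category.assoc, pullback.lift_fst, pullback.lift_snd,
          pullback.lift_fst_assoc, pullback.lift_snd_assoc, Category.comp_id, Category.id_comp]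
    exact pullbackIsoOfSq _ _ _ _ hfac M.L ≪≫ (Scheme.Modules.pullback q).mapIso e₀ ≪≫
      Scheme.Modules.pullbackUnitIso q
  · -- fibre at `t₁` is the fibre of `M` at `s`
    have hfac : baseChangeSnd a t₁ ≫ g =
        pullback.fst a (𝟙 _) ≫ pullback.fst (pullback.snd c x) s := by
      apply pullback.hom_ext
      · simp only [baseChangeSnd, g, Category.assoc, pullback.lift_fst, pullback.lift_snd,
          pullback.lift_fst_assoc, pullback.lift_snd_assoc, Category.comp_id, Category.id_comp]
      · simp only [baseChangeSnd, g, t₁, Category.assoc, pullback.lift_snd, pullback.lift_fst,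
          pullback.lift_snd_assoc, pullback.lift_fst_assoc, Category.comp_id, Category.id_comp]
        have h2 : pullback.fst a (𝟙 (Spec (CommRingCat.of K))) ≫ a =
            pullback.snd a (𝟙 _) ≫ 𝟙 _ := pullback.condition
        rw [Category.comp_id] at h2
        rw [pullback.condition, ← h2]
        rfl
    exact pullbackIsoOfSq _ _ _ _ hfac M.L

/-- **FIB (forward).** Geometric fibres of a fibrewise algebraically-equivalent-to-zero family,
written as `pullbackAlong`. -/
theorem isAlgEquivZero_pullbackAlong_of_fibrewise {T : Scheme.{u}}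
    {t : T ⟶ Spec (CommRingCat.of k)} (M : RigidifiedLineBundle c ε t)
    (hM : FibrewiseAlgEquivZero M) (K : Type u) [Field K] [IsAlgClosed K]
    (t' : Spec (CommRingCat.of K) ⟶ Spec (CommRingCat.of k)) (ψ : SchemeHomOver t' t) :
    IsAlgEquivZero (pullback.snd c t') (M.pullbackAlong ψ).L := by
  have hcond : baseChangeSnd c ψ ≫ pullback.snd c t = pullback.snd c t' ≫ ψ.1 := by
    simp only [baseChangeSnd, pullback.lift_snd]
  let e : pullback c t' ⟶ pullback (pullback.snd c t) ψ.1 :=
    pullback.lift (baseChangeSnd c ψ) (pullback.snd c t') hcond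
  have he : e ≫ fibreAt c t ψ.1 = pullback.snd c t' := pullback.lift_snd _ _ _
  have hfst : e ≫ pullback.fst (pullback.snd c t) ψ.1 = baseChangeSnd c ψ :=
    pullback.lift_fst _ _ _
  exact IsAlgEquivZero.of_iso (pullbackIsoOfFac _ _ _ hfst M.L) ((hM K ψ.1).pullback e he)

/-- **FIB (backward), one fibre.** -/
theorem isAlgEquivZero_fibre_of_pullbackAlong {T : Scheme.{u}}
    {t : T ⟶ Spec (CommRingCat.of k)} (M : RigidifiedLineBundle c ε t)
    (K : Type u) [Field K]
    (t' : Spec (CommRingCat.of K) ⟶ Spec (CommRingCat.of k)) (ψ : SchemeHomOver t' t)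
    (h : IsAlgEquivZero (pullback.snd c t') (M.pullbackAlong ψ).L) :
    IsAlgEquivZero (fibreAt c t ψ.1)
      ((Scheme.Modules.pullback (pullback.fst (pullback.snd c t) ψ.1)).obj M.L) := by
  have hcond : (pullback.fst (pullback.snd c t) ψ.1 ≫ pullback.fst c t) ≫ c =
      pullback.snd (pullback.snd c t) ψ.1 ≫ t' := by
    rw [Category.assoc, pullback.condition, ← Category.assoc, pullback.condition,
      Category.assoc, ψ.2]
  let e : pullback (pullback.snd c t) ψ.1 ⟶ pullback c t' :=
    pullback.lift (pullback.fst (pullback.snd c t) ψ.1 ≫ pullback.fst c t)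
      (pullback.snd (pullback.snd c t) ψ.1) hcond
  have he : e ≫ pullback.snd c t' = fibreAt c t ψ.1 := pullback.lift_snd _ _ _
  have hfst : e ≫ baseChangeSnd c ψ = pullback.fst (pullback.snd c t) ψ.1 := by
    apply pullback.hom_ext
    · simp only [baseChangeSnd, e, Category.assoc, pullback.lift_fst, pullback.lift_snd,
        pullback.lift_fst_assoc, pullback.lift_snd_assoc, Category.comp_id, Category.id_comp]
    · simp only [baseChangeSnd, e, Category.assoc, pullback.lift_fst, pullback.lift_snd,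
        pullback.lift_fst_assoc, pullback.lift_snd_assoc, Category.comp_id, Category.id_comp]
      exact pullback.condition.symm
  exact IsAlgEquivZero.of_iso (pullbackIsoOfFac _ _ _ hfst M.L) (h.pullback e he)

/-- **FIB, affine form.** Over an affine base `Spec A`, fibrewise algebraic equivalence to zero
can be tested on the pullbacks along `k`-algebra maps `A → K`, `K` algebraically closed. -/
theorem fibrewiseAlgEquivZero_affine_iff (A : Type u) [CommRing A] [Algebra k A]
    (M : RigidifiedLineBundle c ε (specStr k A)) :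
    FibrewiseAlgEquivZero M ↔
      ∀ (K : Type u) [Field K] [IsAlgClosed K] [Algebra k K] (φ : A →ₐ[k] K),
        IsAlgEquivZero (pullback.snd c (specStr k K)) (M.pullbackAlong (specHomOver k φ)).L := by
  constructor
  · intro hM K _ _ _ φ
    exact isAlgEquivZero_pullbackAlong_of_fibrewise M hM K _ _
  · intro h K _ _ s
    obtain ⟨f, rfl⟩ := Spec.map_surjective s
    let _ : Algebra k K := (f.hom.comp (algebraMap k A)).toAlgebra
    let φ : A →ₐ[k] K := { f.hom with commutes' := fun _ => rfl }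
    have := isAlgEquivZero_fibre_of_pullbackAlong M K _ (specHomOver k φ) (h K φ)
    exact this

end

end Fermat.Agent.S25.H687

end
-- ===== PACK-END S25/H687/DDFormal.lean

-- ===== PACK-BEGIN S25/H986/DictIsoMp.lean
section


/-!
# S25 / block DICT: `Stmt.DictIso`, direction `RIso M M' → G.IsIso G'`

Purely sectionwise: an isomorphism `φ : L ≅ L'` of modules on `C_A` induces additive
isomorphisms on sections over the preimages of `U₀`, `U₁`, `U₀ ⊓ U₁`; transported along the
identifications of `Corr`, they are linear over `A ⊗[k] B` (check on the generators `a ⊗ 1`,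
`1 ⊗ b`) and compatible with the restriction maps.
-/

set_option autoImplicit false
universe u
open CategoryTheory CategoryTheory.Limits AlgebraicGeometry AlgebraicGeometry.RelPicard
  NeronModelInfra GoodReductionJacobian
open scoped TensorProduct

namespace Fermat.Agent.S25.H986

open Fermat.Agent.S25

noncomputable section

variable {k : Type u} [Field k] {C : Scheme.{u}} {c : C ⟶ Spec (CommRingCat.of k)}
  {A : Type u} [CommRing A] [Algebra k A]

/-- An additive map between modules over `A ⊗[k] B` which commutes with the action of the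
elements `a ⊗ 1` and `1 ⊗ b` is linear. -/
theorem map_tmul_smul_of_generators {B : Type u} [CommRing B] [Algebra k B]
    {N N' : Type u} [AddCommGroup N] [Module (A ⊗[k] B) N] [AddCommGroup N']
    [Module (A ⊗[k] B) N'] (h : N →+ N')
    (hA : ∀ (a : A) (n : N), h ((a ⊗ₜ[k] (1 : B)) • n) = (a ⊗ₜ[k] (1 : B)) • h n)
    (hB : ∀ (b : B) (n : N), h (((1 : A) ⊗ₜ[k] b) • n) = ((1 : A) ⊗ₜ[k] b) • h n)
    (r : A ⊗[k] B) (n : N) : h (r • n) = r • h n := by
  induction r using TensorProduct.induction_on generalizing n with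
  | zero => simp
  | tmul a b =>
    have : a ⊗ₜ[k] b = (a ⊗ₜ[k] (1 : B)) * ((1 : A) ⊗ₜ[k] b) := by
      rw [Algebra.TensorProduct.tmul_mul_tmul, mul_one, one_mul]
    rw [this, mul_smul, hA, hB, mul_smul]
  | add r s hr hs => rw [add_smul, map_add, hr, hs, add_smul]

/-- The map on sections induced by a morphism of modules, transported along two
identifications of sections in the sense of `IsSectionsIso`, is `A ⊗[k] B`-linear. -/
theorem isSectionsIso_transport_smul {L L' : (pullback c (specStr k A)).Modules}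
    (φ : L ⟶ L') (U : C.Opens) {B : Type u} [CommRing B] [Algebra k B] (i : Γ(C, U) ≃+* B)
    {N N' : Type u} [AddCommGroup N] [Module (A ⊗[k] B) N] [AddCommGroup N']
    [Module (A ⊗[k] B) N']
    (e : Γ(L, preimageOpen (c := c) A U) ≃+ N) (e' : Γ(L', preimageOpen (c := c) A U) ≃+ N')
    (he : IsSectionsIso A L U i e) (he' : IsSectionsIso A L' U i e')
    (r : A ⊗[k] B) (n : N) :
    e' (φ.app _ (e.symm (r • n))) = r • e' (φ.app _ (e.symm n)) := by
  let h : N →+ N' :=
    (e'.toAddMonoidHom.comp (φ.app (preimageOpen (c := c) A U)).hom).comp e.symm.toAddMonoidHom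
  have key := map_tmul_smul_of_generators (A := A) (k := k) h (fun a n => ?_) (fun b n => ?_) r n
  · exact key
  · change e' (φ.app _ (e.symm ((a ⊗ₜ[k] (1 : B)) • n))) = (a ⊗ₜ[k] (1 : B)) • e' (φ.app _ (e.symm n))
    have h1 : e.symm ((a ⊗ₜ[k] (1 : B)) • n) =
        baseToSections (c := c) A (preimageOpen (c := c) A U) a • e.symm n := by
      apply e.injective
      rw [he.1, AddEquiv.apply_symm_apply, AddEquiv.apply_symm_apply]
    rw [h1, Scheme.Modules.Hom.app_smul, he'.1]
  · change e' (φ.app _ (e.symm (((1 : A) ⊗ₜ[k] b) • n))) = ((1 : A) ⊗ₜ[k] b) • e' (φ.app _ (e.symm n))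
    obtain ⟨f, rfl⟩ := i.surjective b
    have h1 : e.symm (((1 : A) ⊗ₜ[k] i f) • n) =
        curveToSections (c := c) A U f • e.symm n := by
      apply e.injective
      rw [he.2, AddEquiv.apply_symm_apply, AddEquiv.apply_symm_apply]
    rw [h1, Scheme.Modules.Hom.app_smul, he'.2]

/-- The linear equivalence induced by an isomorphism of modules, transported along two
identifications of sections in the sense of `IsSectionsIso`. -/
def sectionsLinearEquiv {L L' : (pullback c (specStr k A)).Modules}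
    (φ : L ≅ L') (U : C.Opens) {B : Type u} [CommRing B] [Algebra k B] (i : Γ(C, U) ≃+* B)
    {N N' : Type u} [AddCommGroup N] [Module (A ⊗[k] B) N] [AddCommGroup N']
    [Module (A ⊗[k] B) N']
    (e : Γ(L, preimageOpen (c := c) A U) ≃+ N) (e' : Γ(L', preimageOpen (c := c) A U) ≃+ N')
    (he : IsSectionsIso A L U i e) (he' : IsSectionsIso A L' U i e') :
    N ≃ₗ[A ⊗[k] B] N' where
  toFun n := e' (φ.hom.app _ (e.symm n))
  invFun n := e (φ.inv.app _ (e'.symm n))
  left_inv n := by
    have h : φ.inv.app (preimageOpen (c := c) A U) (φ.hom.app _ (e.symm n)) = e.symm n := by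
      rw [← ConcreteCategory.comp_apply, ← Scheme.Modules.Hom.comp_app, Iso.hom_inv_id]
      rfl
    simp only [AddEquiv.symm_apply_apply, h, AddEquiv.apply_symm_apply]
  right_inv n := by
    have h : φ.hom.app (preimageOpen (c := c) A U) (φ.inv.app _ (e'.symm n)) = e'.symm n := by
      rw [← ConcreteCategory.comp_apply, ← Scheme.Modules.Hom.comp_app, Iso.inv_hom_id]
      rfl
    simp only [AddEquiv.symm_apply_apply, h, AddEquiv.apply_symm_apply]
  map_add' m n := by simp only [map_add]
  map_smul' r n := isSectionsIso_transport_smul φ.hom U i e e' he he' r n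

@[simp]
theorem sectionsLinearEquiv_apply {L L' : (pullback c (specStr k A)).Modules}
    (φ : L ≅ L') (U : C.Opens) {B : Type u} [CommRing B] [Algebra k B] (i : Γ(C, U) ≃+* B)
    {N N' : Type u} [AddCommGroup N] [Module (A ⊗[k] B) N] [AddCommGroup N']
    [Module (A ⊗[k] B) N']
    (e : Γ(L, preimageOpen (c := c) A U) ≃+ N) (e' : Γ(L', preimageOpen (c := c) A U) ≃+ N')
    (he : IsSectionsIso A L U i e) (he' : IsSectionsIso A L' U i e') (n : N) :
    sectionsLinearEquiv φ U i e e' he he' n = e' (φ.hom.app _ (e.symm n)) := rfl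

variable {ε : SchemeHomOver (𝟙 (Spec (CommRingCat.of k))) c}

/-- Naturality of `Hom.app` with respect to `resMod`. -/
theorem app_resMod {X : Scheme.{u}} {M N : X.Modules} (φ : M ⟶ N) {U V : X.Opens} (h : V ≤ U)
    (s : Γ(M, U)) : φ.app V (resMod M h s) = resMod N h (φ.app U s) :=
  NatTrans.naturality_apply φ.mapPresheaf (homOfLE h).op s

/-- **DictIso, direction `→`**: isomorphic line bundles have isomorphic gluing data. -/
theorem glueDatum_isIso_of_iso (Ch : ChartOf c ε) {L L' : (pullback c (specStr k A)).Modules}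
    (G G' : CurveGD k Ch.B₀ Ch.B₁ Ch.B₀₁ A) (hG : Corr Ch A L G) (hG' : Corr Ch A L' G')
    (φ : L ≅ L') : G.IsIso G' := by
  obtain ⟨e₀, e₁, e₀₁, h₀, h₁, h₀₁, hr₀, hr₁⟩ := hG
  obtain ⟨e₀', e₁', e₀₁', h₀', h₁', h₀₁', hr₀', hr₁'⟩ := hG'
  refine ⟨⟨sectionsLinearEquiv φ Ch.U₀ Ch.i₀ e₀ e₀' h₀ h₀',
    sectionsLinearEquiv φ Ch.U₁ Ch.i₁ e₁ e₁' h₁ h₁',
    sectionsLinearEquiv φ (Ch.U₀ ⊓ Ch.U₁) Ch.i₀₁ e₀₁ e₀₁' h₀₁ h₀₁', fun s => ?_, fun s => ?_⟩⟩
  · rw [sectionsLinearEquiv_apply, sectionsLinearEquiv_apply]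
    have h := hr₀ (e₀.symm s)
    rw [AddEquiv.apply_symm_apply] at h
    rw [← h, AddEquiv.symm_apply_apply, app_resMod, hr₀']
  · rw [sectionsLinearEquiv_apply, sectionsLinearEquiv_apply]
    have h := hr₁ (e₁.symm s)
    rw [AddEquiv.apply_symm_apply] at h
    rw [← h, AddEquiv.symm_apply_apply, app_resMod, hr₁']

/-- **DictIso, direction `→`**, in the shape of the frozen statement. -/
theorem dictIso_mp (Ch : ChartOf c ε) (M M' : RigidifiedLineBundle c ε (specStr k A))
    (G G' : CurveGD k Ch.B₀ Ch.B₁ Ch.B₀₁ A) (hG : Corr Ch A M.L G) (hG' : Corr Ch A M'.L G')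
    (h : RIso M M') : G.IsIso G' :=
  glueDatum_isIso_of_iso Ch G G' hG hG' h.some

end

end Fermat.Agent.S25.H986

end
-- ===== PACK-END S25/H986/DictIsoMp.lean

-- ===== PACK-BEGIN S25/H986/PushoutGen.lean
section




/-!
# S25 / block DICT: functions on `C_A` over the preimage of an affine open of `C`

For an affine open `U ⊆ C`, the ring `Γ(C_A, pr₁⁻¹ U)` is generated by the images of `A` and of
`Γ(C, U)` (F4: it is the pushout `Γ(C, U) ⊗[k] A`).  Consequently an additive map between
modules over it which commutes with these two actions is linear.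

* `subring_eq_top_of_isPushout` : in `CommRingCat`, a subring of a pushout containing the images
  of the two legs is everything.
* `preimageOpen_subring_eq_top` : the statement for `Γ(C_A, pr₁⁻¹ U)`.
* `map_smul_of_generators` : linearity from the generators.
-/

set_option autoImplicit false

universe u

open CategoryTheory CategoryTheory.Limits AlgebraicGeometry AlgebraicGeometry.RelPicard
  NeronModelInfra TopologicalSpace Opposite

namespace Fermat.Agent.S25.H986

open Fermat.Agent.S25

noncomputable section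

/-- In `CommRingCat`, a subring of a pushout which contains the images of the two legs is
everything. -/
theorem subring_eq_top_of_isPushout {R S₁ S₂ Q : CommRingCat.{u}} {f : R ⟶ S₁} {g : R ⟶ S₂}
    {inl : S₁ ⟶ Q} {inr : S₂ ⟶ Q} (H : IsPushout f g inl inr) (S : Subring Q)
    (hl : ∀ a, inl a ∈ S) (hr : ∀ b, inr b ∈ S) : S = ⊤ := by
  let inlS : S₁ ⟶ CommRingCat.of S := CommRingCat.ofHom (inl.hom.codRestrict S hl)
  let inrS : S₂ ⟶ CommRingCat.of S := CommRingCat.ofHom (inr.hom.codRestrict S hr)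
  let incl : CommRingCat.of S ⟶ Q := CommRingCat.ofHom S.subtype
  have hinl : inlS ≫ incl = inl := by ext a; rfl
  have hinr : inrS ≫ incl = inr := by ext b; rfl
  have hw : f ≫ inlS = g ≫ inrS := by
    ext a
    exact congr($(H.w) a)
  let u : Q ⟶ CommRingCat.of S := H.desc inlS inrS hw
  have hu : u ≫ incl = 𝟙 Q := by
    apply H.hom_ext
    · rw [← Category.assoc, H.inl_desc, hinl, Category.comp_id]
    · rw [← Category.assoc, H.inr_desc, hinr, Category.comp_id]
  rw [eq_top_iff]
  intro q _
  have : (incl (u q) : Q) = q := congr($hu q)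
  rw [← this]
  exact (u q).2

variable {k : Type u} [Field k] {C : Scheme.{u}} (c : C ⟶ Spec (CommRingCat.of k))
  (A : Type u) [CommRing A] [Algebra k A]

open Fermat.Agent.S25.H205 in
/-- For an affine open `U ⊆ C`, the ring `Γ(C_A, pr₁⁻¹ U)` is generated by the images of `A` and
of `Γ(C, U)`. -/
theorem preimageOpen_subring_eq_top {U : C.Opens} (hU : IsAffineOpen U)
    (S : Subring Γ(pullback c (specStr k A), preimageOpen (c := c) A U))
    (hA : ∀ a : A, baseToSections (c := c) A (preimageOpen (c := c) A U) a ∈ S)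
    (hB : ∀ f : Γ(C, U), curveToSections (c := c) A U f ∈ S) : S = ⊤ := by
  have H := isPushout_box c (specStr k A) hU (isAffineOpen_top (Spec (CommRingCat.of A)))
  have hle : preimageOpen (c := c) A U ≤ box c (specStr k A) U ⊤ := le_inf le_rfl le_top
  have hge : box c (specStr k A) U ⊤ ≤ preimageOpen (c := c) A U := inf_le_left
  let ρ : Γ(pullback c (specStr k A), box c (specStr k A) U ⊤) ⟶
      Γ(pullback c (specStr k A), preimageOpen (c := c) A U) :=
    (pullback c (specStr k A)).presheaf.map (homOfLE hle).op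
  have hS' : S.comap ρ.hom = ⊤ := by
    refine subring_eq_top_of_isPushout H _ (fun f => ?_) (fun b => ?_)
    · change ρ ((pullback.fst c (specStr k A)).appLE U _ _ f) ∈ S
      have h1 : (pullback.fst c (specStr k A)).appLE U (box c (specStr k A) U ⊤)
          (box_le_fst U ⊤) ≫ ρ = (pullback.fst c (specStr k A)).app U := by
        rw [Scheme.Hom.appLE_map, Scheme.Hom.app_eq_appLE]
      have h2 : ρ ((pullback.fst c (specStr k A)).appLE U _ (box_le_fst U ⊤) f) =
          curveToSections (c := c) A U f := congr($h1 f)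
      rw [h2]
      exact hB f
    · change ρ ((pullback.snd c (specStr k A)).appLE ⊤ _ _ b) ∈ S
      have h1 : (pullback.snd c (specStr k A)).appLE ⊤ (box c (specStr k A) U ⊤)
          (box_le_snd U ⊤) ≫ ρ =
          (pullback.snd c (specStr k A)).appTop ≫
            (pullback c (specStr k A)).presheaf.map
              (homOfLE (le_top : preimageOpen (c := c) A U ≤ ⊤)).op := by
        rw [Scheme.Hom.appLE_map]
        rfl
      have h2 : ρ ((pullback.snd c (specStr k A)).appLE ⊤ _ (box_le_snd U ⊤) b) =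
          baseToSections (c := c) A (preimageOpen (c := c) A U)
            ((Scheme.ΓSpecIso (CommRingCat.of A)).hom b) := by
        have h3 : ρ ((pullback.snd c (specStr k A)).appLE ⊤ _ (box_le_snd U ⊤) b) =
            (pullback c (specStr k A)).presheaf.map
              (homOfLE (le_top : preimageOpen (c := c) A U ≤ ⊤)).op
              ((pullback.snd c (specStr k A)).appTop b) := congr($h1 b)
        have h5 : (Scheme.ΓSpecIso (CommRingCat.of A)).inv
            ((Scheme.ΓSpecIso (CommRingCat.of A)).hom b) = b :=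
          congr($((Scheme.ΓSpecIso (CommRingCat.of A)).hom_inv_id) b)
        rw [h3]
        change _ = (pullback c (specStr k A)).presheaf.map
              (homOfLE (le_top : preimageOpen (c := c) A U ≤ ⊤)).op
              ((pullback.snd c (specStr k A)).appTop
                ((Scheme.ΓSpecIso (CommRingCat.of A)).inv
                  ((Scheme.ΓSpecIso (CommRingCat.of A)).hom b)))
        rw [h5]
      rw [h2]
      exact hA _
  rw [eq_top_iff]
  intro r _
  have h4 : ρ ((pullback c (specStr k A)).presheaf.map (homOfLE hge).op r) = r := by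
    change ((pullback c (specStr k A)).presheaf.map (homOfLE hle).op)
      ((pullback c (specStr k A)).presheaf.map (homOfLE hge).op r) = r
    rw [← CommRingCat.comp_apply, ← Functor.map_comp]
    have : (homOfLE hge).op ≫ (homOfLE hle).op = 𝟙 _ := Subsingleton.elim _ _
    rw [this, CategoryTheory.Functor.map_id]
    rfl
  rw [← h4]
  have : (pullback c (specStr k A)).presheaf.map (homOfLE hge).op r ∈ S.comap ρ.hom := by
    rw [hS']; trivial
  exact this

/-- An additive map between sections over `pr₁⁻¹ U` (`U` affine) which commutes with the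
actions of `A` and of `Γ(C, U)` is `Γ(C_A, pr₁⁻¹ U)`-linear. -/
theorem map_smul_of_generators {U : C.Opens} (hU : IsAffineOpen U)
    {L L' : (pullback c (specStr k A)).Modules}
    (h : Γ(L, preimageOpen (c := c) A U) →+ Γ(L', preimageOpen (c := c) A U))
    (hA : ∀ (a : A) (s : Γ(L, preimageOpen (c := c) A U)),
      h (baseToSections (c := c) A (preimageOpen (c := c) A U) a • s) =
        baseToSections (c := c) A (preimageOpen (c := c) A U) a • h s)
    (hB : ∀ (f : Γ(C, U)) (s : Γ(L, preimageOpen (c := c) A U)),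
      h (curveToSections (c := c) A U f • s) = curveToSections (c := c) A U f • h s)
    (r : Γ(pullback c (specStr k A), preimageOpen (c := c) A U))
    (s : Γ(L, preimageOpen (c := c) A U)) : h (r • s) = r • h s := by
  let S : Subring Γ(pullback c (specStr k A), preimageOpen (c := c) A U) :=
    { carrier := {r | ∀ s, h (r • s) = r • h s}
      mul_mem' := fun {a b} ha hb s => by
        change h ((a * b) • s) = (a * b) • h s
        rw [mul_smul, ha, hb, mul_smul]
      one_mem' := fun s => by
        change h ((1 : Γ(pullback c (specStr k A), preimageOpen (c := c) A U)) • s) = _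
        rw [one_smul, one_smul]
      add_mem' := fun {a b} ha hb s => by
        change h ((a + b) • s) = (a + b) • h s
        rw [add_smul, map_add, ha, hb, add_smul]
      zero_mem' := fun s => by
        change h ((0 : Γ(pullback c (specStr k A), preimageOpen (c := c) A U)) • s) = _
        rw [zero_smul, zero_smul, map_zero]
      neg_mem' := fun {a} ha s => by
        change h ((-a) • s) = (-a) • h s
        rw [neg_smul, map_neg, ha, neg_smul] }
  have hS : S = ⊤ := preimageOpen_subring_eq_top c A hU S hA hB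
  have hr : r ∈ S := by rw [hS]; trivial
  exact hr s

end

end Fermat.Agent.S25.H986

end
-- ===== PACK-END S25/H986/PushoutGen.lean

-- ===== PACK-BEGIN S25/H207/BaseChange.lean
section




/-!
# Block CURVE, leaf A3: base change of an affine smooth curve to a field extension is Dedekind

`k` algebraically closed, `B` a finitely generated `k`-algebra which is a domain and locally
standard smooth of relative dimension `1`, `K` an arbitrary field extension of `k`.  Then
`K ⊗[k] B` is a Dedekind domain and not a field.  (Same statements as the frozen skeleton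
`Fermat/Agent/S25/Curve/Alg/BaseChange.lean` of the squad board.)

Proof: for the algebraic closure `Kbar` of `K` the ring `Kbar ⊗[k] B` is Dedekind by leaf A2, and
`K ⊗[k] B → (K ⊗[k] B) ⊗[K] Kbar ≃ Kbar ⊗[k] B` is faithfully flat and integral; Dedekind-ness
descends along such maps.
-/

set_option autoImplicit false

universe u

open TensorProduct

namespace Fermat.Agent.S25.H207

section Descent

variable (R S : Type*) [CommRing R] [CommRing S] [Algebra R S]

/-- Divisibility descends along a faithfully flat ring map. -/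
theorem dvd_of_algebraMap_dvd_of_faithfullyFlat [Module.FaithfullyFlat R S] {a b : R}
    (h : algebraMap R S b ∣ algebraMap R S a) : b ∣ a := by
  have h1 : a ∈ Ideal.comap (algebraMap R S) (Ideal.map (algebraMap R S) (Ideal.span {b})) := by
    rw [Ideal.mem_comap, Ideal.map_span, Set.image_singleton]
    exact Ideal.mem_span_singleton.mpr h
  rw [Ideal.comap_map_eq_self_of_faithfullyFlat] at h1
  exact Ideal.mem_span_singleton.mp h1

/-- Dimension `≤ 1` descends along an injective integral ring map. -/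
theorem dimensionLEOne_of_isIntegral [IsDomain S] [Algebra.IsIntegral R S]
    [Ring.DimensionLEOne S] (hinj : Function.Injective (algebraMap R S)) :
    Ring.DimensionLEOne R := by
  refine ⟨fun {p} hp0 hp => ?_⟩
  haveI := hp
  obtain ⟨Q, -, hQ, hQp⟩ := Ideal.exists_ideal_over_prime_of_isIntegral p (⊥ : Ideal S) (by
    rw [← RingHom.ker_eq_comap_bot, (RingHom.injective_iff_ker_eq_bot _).mp hinj]
    exact bot_le)
  have hQ0 : Q ≠ ⊥ := by
    rintro rfl
    apply hp0
    rw [← hQp, ← RingHom.ker_eq_comap_bot, (RingHom.injective_iff_ker_eq_bot _).mp hinj]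
  haveI hQmax : Q.IsMaximal := hQ.isMaximal hQ0
  rw [← hQp]
  exact Ideal.isMaximal_comap_of_isIntegral_of_isMaximal Q

/-- Integral closedness descends along a faithfully flat ring map of domains. -/
theorem isIntegrallyClosed_of_faithfullyFlat [IsDomain R] [IsDomain S]
    [Module.FaithfullyFlat R S] [IsIntegrallyClosed S] : IsIntegrallyClosed R := by
  have hinjRS : Function.Injective (algebraMap R S) := FaithfulSMul.algebraMap_injective R S
  have hinjSL : Function.Injective (algebraMap S (FractionRing S)) :=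
    IsFractionRing.injective S (FractionRing S)
  have hinj : Function.Injective (Algebra.ofId R (FractionRing S)) := by
    intro a b hab
    apply hinjRS
    apply hinjSL
    have h1 : ∀ c : R, Algebra.ofId R (FractionRing S) c
        = algebraMap S (FractionRing S) (algebraMap R S c) := fun c =>
      IsScalarTower.algebraMap_apply R S (FractionRing S) c
    rw [← h1, ← h1]
    exact hab
  let f : FractionRing R →ₐ[R] FractionRing S := IsFractionRing.liftAlgHom hinj
  rw [isIntegrallyClosed_iff (FractionRing R)]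
  intro x hx
  have hx' : IsIntegral S (f x) := (hx.map f).tower_top
  obtain ⟨s, hs⟩ := IsIntegrallyClosed.isIntegral_iff.mp hx'
  obtain ⟨a, b, hb, rfl⟩ := IsFractionRing.div_surjective R x
  have hb0 : b ≠ 0 := nonZeroDivisors.ne_zero hb
  have hbK : algebraMap R (FractionRing R) b ≠ 0 := by
    intro h
    exact hb0 ((IsFractionRing.injective R (FractionRing R)) (by rw [h, map_zero]))
  have hfa : ∀ c : R, f (algebraMap R (FractionRing R) c)
      = algebraMap S (FractionRing S) (algebraMap R S c) := by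
    intro c
    rw [AlgHom.commutes]
    exact IsScalarTower.algebraMap_apply R S (FractionRing S) c
  have hbL : algebraMap S (FractionRing S) (algebraMap R S b) ≠ 0 := by
    intro h
    exact hb0 (hinjRS (hinjSL (by rw [h, map_zero, map_zero])))
  -- `s * b = a` in `S`
  have hsb : algebraMap R S b * s = algebraMap R S a := by
    apply hinjSL
    rw [map_mul, hs, map_div₀, hfa, hfa]
    field_simp
  have hdvd : b ∣ a := dvd_of_algebraMap_dvd_of_faithfullyFlat R S ⟨s, hsb.symm⟩
  obtain ⟨c, rfl⟩ := hdvd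
  refine ⟨c, ?_⟩
  rw [map_mul]
  field_simp

/-- **Descent of the Dedekind property** along a faithfully flat integral extension. -/
theorem isDedekindDomain_of_faithfullyFlat_of_isIntegral [IsDomain R] [IsNoetherianRing R]
    [IsDomain S] [Module.FaithfullyFlat R S] [Algebra.IsIntegral R S]
    [Ring.DimensionLEOne S] [IsIntegrallyClosed S] : IsDedekindDomain R := by
  have hinjRS : Function.Injective (algebraMap R S) := FaithfulSMul.algebraMap_injective R S
  haveI : Ring.DimensionLEOne R := dimensionLEOne_of_isIntegral R S hinjRS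
  haveI : IsIntegrallyClosed R := isIntegrallyClosed_of_faithfullyFlat R S
  exact { }

end Descent

section BaseChange

variable {k B : Type u} [Field k] [IsAlgClosed k] [CommRing B] [IsDomain B] [Algebra k B]
  [Algebra.FiniteType k B]

/-- `Kbar ⊗[k] B` is Dedekind and not a field when `Kbar` is algebraically closed. -/
theorem isDedekindDomain_and_not_isField_tensor_of_isAlgClosed
    (h : RingHom.Locally (RingHom.IsStandardSmoothOfRelativeDimension 1) (algebraMap k B))
    (L : Type u) [Field L] [IsAlgClosed L] [Algebra k L] :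
    IsDedekindDomain (L ⊗[k] B) ∧ ¬ IsField (L ⊗[k] B) := by
  haveI : IsDomain (L ⊗[k] B) := isDomain_tensorProduct
  have hloc : RingHom.Locally (RingHom.IsStandardSmoothOfRelativeDimension 1)
      (algebraMap L (L ⊗[k] B)) := by
    have hst := RingHom.locally_isStableUnderBaseChange
      (RingHom.isStandardSmoothOfRelativeDimension_respectsIso (n := 1))
      (RingHom.isStandardSmoothOfRelativeDimension_isStableUnderBaseChange 1)
    letI : Algebra B (L ⊗[k] B) := Algebra.TensorProduct.rightAlgebra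
    haveI : IsScalarTower k B (L ⊗[k] B) := Algebra.TensorProduct.right_isScalarTower
    haveI : Algebra.IsPushout k B L (L ⊗[k] B) := TensorProduct.isPushout'
    exact hst k B L (L ⊗[k] B) h
  exact ⟨isDedekindDomain_of_locally_isStandardSmooth hloc,
    not_isField_of_locally_isStandardSmooth hloc⟩

end BaseChange

section Main

variable {k B : Type u} [Field k] [IsAlgClosed k] [CommRing B] [IsDomain B] [Algebra k B]
  [Algebra.FiniteType k B]

/-- The ring isomorphism `(K ⊗[k] B) ⊗[K] Kbar ≃+* Kbar ⊗[k] B`. -/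
noncomputable def tensorClosureEquiv (k B : Type u) [Field k] [CommRing B] [Algebra k B]
    (K : Type u) [Field K] [Algebra k K] :
    (K ⊗[k] B) ⊗[K] (AlgebraicClosure K) ≃+* (AlgebraicClosure K) ⊗[k] B :=
  ((Algebra.TensorProduct.comm K (K ⊗[k] B) (AlgebraicClosure K)).toRingEquiv).trans
    (Algebra.TensorProduct.cancelBaseChange k K K (AlgebraicClosure K) B).toRingEquiv

/-- Both statements of leaf A3. -/
theorem isDedekindDomain_and_not_isField_tensorProduct
    (h : RingHom.Locally (RingHom.IsStandardSmoothOfRelativeDimension 1) (algebraMap k B))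
    (K : Type u) [Field K] [Algebra k K] :
    IsDedekindDomain (K ⊗[k] B) ∧ ¬ IsField (K ⊗[k] B) := by
  obtain ⟨hD, hnf⟩ := isDedekindDomain_and_not_isField_tensor_of_isAlgClosed h
    (AlgebraicClosure K)
  haveI : IsDomain (K ⊗[k] B) := isDomain_tensorProduct
  haveI : IsNoetherianRing (K ⊗[k] B) := Algebra.FiniteType.isNoetherianRing K (K ⊗[k] B)
  let e := tensorClosureEquiv k B K
  haveI hSdom : IsDomain ((K ⊗[k] B) ⊗[K] (AlgebraicClosure K)) :=
    e.toMulEquiv.isDomain ((AlgebraicClosure K) ⊗[k] B)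
  haveI hSdim : Ring.DimensionLEOne ((K ⊗[k] B) ⊗[K] (AlgebraicClosure K)) :=
    Ring.DimensionLEOne.of_ringEquiv e
  haveI hSic : IsIntegrallyClosed ((K ⊗[k] B) ⊗[K] (AlgebraicClosure K)) :=
    IsIntegrallyClosed.of_equiv e.symm
  refine ⟨isDedekindDomain_of_faithfullyFlat_of_isIntegral (K ⊗[k] B)
    ((K ⊗[k] B) ⊗[K] (AlgebraicClosure K)), ?_⟩
  intro hf
  have hSf : IsField ((K ⊗[k] B) ⊗[K] (AlgebraicClosure K)) :=
    isField_of_isIntegral_of_isField' hf
  exact hnf (MulEquiv.isField hSf e.symm.toMulEquiv)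

end Main

/-- **A3a.** (frozen statement of the squad skeleton `Curve/Alg/BaseChange.lean`) -/
theorem isDedekindDomain_tensorProduct {k B : Type u} [Field k] [IsAlgClosed k]
    [CommRing B] [IsDomain B] [Algebra k B] [Algebra.FiniteType k B]
    (h : RingHom.Locally (RingHom.IsStandardSmoothOfRelativeDimension 1) (algebraMap k B))
    (K : Type u) [Field K] [Algebra k K] : IsDedekindDomain (K ⊗[k] B) :=
  (isDedekindDomain_and_not_isField_tensorProduct h K).1

/-- **A3b.** (frozen statement of the squad skeleton `Curve/Alg/BaseChange.lean`) -/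
theorem not_isField_tensorProduct {k B : Type u} [Field k] [IsAlgClosed k]
    [CommRing B] [IsDomain B] [Algebra k B] [Algebra.FiniteType k B]
    (h : RingHom.Locally (RingHom.IsStandardSmoothOfRelativeDimension 1) (algebraMap k B))
    (K : Type u) [Field K] [Algebra k K] : ¬ IsField (K ⊗[k] B) :=
  (isDedekindDomain_and_not_isField_tensorProduct h K).2

end Fermat.Agent.S25.H207

end
-- ===== PACK-END S25/H207/BaseChange.lean

-- ===== PACK-BEGIN S25/H910/TwistEuler.lean
section
/-
S25, block DEGREE, leaf D4 (helper910), operator-language part: over a field `K`,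
`χ(d (m+1)) = χ(d m) + dim (N1 / Y1 N1)`, hence `χ(d m) = χ(d 0) + m · dim (N1 / Y1 N1)`.
-/





set_option autoImplicit false

namespace Fermat.Agent.S25.H910

open Fermat.Agent.S25.H10 Module

universe u v

variable {K : Type u} [Field K] {N0 N1 N01 : Type v}
  [AddCommGroup N0] [AddCommGroup N1] [AddCommGroup N01]
  [Module K N0] [Module K N1] [Module K N01]

/-- D1 (operator language): over a field, `H⁰(L(m∞))` is finite-dimensional. -/
theorem finiteDimensional_ker_d (D : CechOps K N0 N1 N01) (h0 : IsFGProj D.X0)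
    (h1 : IsFGProj D.Y1) (hr0 : Function.Injective D.r0) (hr1 : Function.Injective D.r1)
    (m : ℕ) : FiniteDimensional K (LinearMap.ker (D.d m)) := by
  obtain ⟨M, hM, hle⟩ := exists_fg_ge_H0 D h0 h1 hr0 hr1 m
  have : Module.Finite K M := Module.Finite.iff_fg.mpr hM
  exact Submodule.finiteDimensional_of_le hle

/-- D1 (operator language): `H¹(L(m∞))` is finite-dimensional. -/
theorem finiteDimensional_coker_d (D : CechOps K N0 N1 N01) (h0 : IsFGProj D.X0) (m : ℕ) :
    FiniteDimensional K (N01 ⧸ LinearMap.range (D.d m)) :=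
  H550.H1_finite D (H130.isFG_of_isFGProj h0) m

/-- The modification `L(m∞) → L((m+1)∞)` on cochains: `(a, b) ↦ (a, Y1 b)`. -/
def twistJ (D : CechOps K N0 N1 N01) : (N0 × N1) →ₗ[K] (N0 × N1) :=
  LinearMap.prodMap LinearMap.id D.Y1

theorem d_succ_comp_twistJ (D : CechOps K N0 N1 N01) (m : ℕ) :
    D.d (m + 1) ∘ₗ twistJ D = D.d m := by
  apply LinearMap.ext
  rintro ⟨a, b⟩
  simp only [LinearMap.comp_apply, twistJ, LinearMap.prodMap_apply, LinearMap.id_apply,
    CechOps.d_apply]
  rw [D.r1_Y1, pow_succ, Module.End.mul_apply, D.T_Tinv_apply]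

theorem twistJ_injective (D : CechOps K N0 N1 N01) (hY : Function.Injective D.Y1) :
    Function.Injective (twistJ D) := by
  rintro ⟨a, b⟩ ⟨a', b'⟩ h
  simp only [twistJ, LinearMap.prodMap_apply, LinearMap.id_apply, Prod.mk.injEq] at h
  exact Prod.ext h.1 (hY h.2)

/-- `coker (twistJ) ≃ N1 / Y1 N1`. -/
theorem nonempty_coker_twistJ_equiv (D : CechOps K N0 N1 N01) :
    Nonempty (((N0 × N1) ⧸ LinearMap.range (twistJ D)) ≃ₗ[K] (N1 ⧸ LinearMap.range D.Y1)) := by
  let q : (N0 × N1) →ₗ[K] (N1 ⧸ LinearMap.range D.Y1) :=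
    (LinearMap.range D.Y1).mkQ ∘ₗ LinearMap.snd K N0 N1
  have hq : Function.Surjective q := by
    intro z
    obtain ⟨b, rfl⟩ := Submodule.Quotient.mk_surjective _ z
    exact ⟨(0, b), rfl⟩
  have hk : LinearMap.range (twistJ D) = LinearMap.ker q := by
    ext ⟨a, b⟩
    simp only [LinearMap.mem_range, LinearMap.mem_ker, q, LinearMap.comp_apply,
      LinearMap.snd_apply, Submodule.mkQ_apply, Submodule.Quotient.mk_eq_zero]
    constructor
    · rintro ⟨⟨a', b'⟩, h⟩
      simp only [twistJ, LinearMap.prodMap_apply, LinearMap.id_apply, Prod.mk.injEq] at h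
      exact ⟨b', h.2⟩
    · rintro ⟨b', h⟩
      exact ⟨(a, b'), by simp [twistJ, h]⟩
  exact ⟨(Submodule.quotEquivOfEq _ _ hk).trans (LinearMap.quotKerEquivOfSurjective q hq)⟩

/-- **D4, one step.** -/
theorem euler_d_succ (D : CechOps K N0 N1 N01) (h0 : IsFGProj D.X0)
    (h1 : IsFGProj D.Y1) (hr0 : Function.Injective D.r0) (hr1 : Function.Injective D.r1)
    (m : ℕ) :
    (finrank K (LinearMap.ker (D.d (m + 1))) : ℤ) -
        finrank K (N01 ⧸ LinearMap.range (D.d (m + 1))) =
      (finrank K (LinearMap.ker (D.d m)) : ℤ) - finrank K (N01 ⧸ LinearMap.range (D.d m)) +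
        finrank K (N1 ⧸ LinearMap.range D.Y1) := by
  obtain ⟨e⟩ := nonempty_coker_twistJ_equiv D
  have hY : Function.Injective D.Y1 := H130.injective_of_isFGProj h1
  have hfq : Module.Finite K (N1 ⧸ LinearMap.range D.Y1) := by
    have := (H130.quotient_pow_finite_projective h1 1).1
    rwa [pow_one] at this
  have hf1 : FiniteDimensional K (LinearMap.ker (D.d (m + 1))) :=
    finiteDimensional_ker_d D h0 h1 hr0 hr1 (m + 1)
  have hf2 : FiniteDimensional K ((N0 × N1) ⧸ LinearMap.range (twistJ D)) :=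
    Module.Finite.equiv e.symm
  have hf3 : FiniteDimensional K (N01 ⧸ LinearMap.range (D.d (m + 1) ∘ₗ twistJ D)) := by
    rw [d_succ_comp_twistJ]
    exact finiteDimensional_coker_d D h0 m
  have key := H10.finrank_ker_add_finrank_coker (twistJ D) (D.d (m + 1))
    (twistJ_injective D hY)
  rw [e.finrank_eq, d_succ_comp_twistJ D m] at key
  omega

/-- **D4 (operator language).** `χ(L(m∞)) = χ(L) + m · dim (N1 / Y1 N1)`. -/
theorem euler_d_nat (D : CechOps K N0 N1 N01) (h0 : IsFGProj D.X0)
    (h1 : IsFGProj D.Y1) (hr0 : Function.Injective D.r0) (hr1 : Function.Injective D.r1)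
    (m : ℕ) :
    (finrank K (LinearMap.ker (D.d m)) : ℤ) - finrank K (N01 ⧸ LinearMap.range (D.d m)) =
      (finrank K (LinearMap.ker (D.d 0)) : ℤ) - finrank K (N01 ⧸ LinearMap.range (D.d 0)) +
        m * finrank K (N1 ⧸ LinearMap.range D.Y1) := by
  induction m with
  | zero => simp
  | succ m ih =>
    rw [euler_d_succ D h0 h1 hr0 hr1 m, ih]
    push_cast
    ring

end Fermat.Agent.S25.H910

end
-- ===== PACK-END S25/H910/TwistEuler.lean

-- ===== PACK-BEGIN S25/H251/ChartCover.lean
section


/-!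
# S25 / block HILB / leaf H1 (helper251): the chart locus

Let `I` be an ideal of `A ⊗[k] B` whose quotient `Q` is finite projective of constant rank `g`
over `A`.  For `β : Fin g → B` we define an ideal `chartLocus β I` of `A` and prove

* `isChartIdeal_baseIdeal_iff`: for every `k`-algebra map `ψ : A → A'`, the base change of `I`
  is a chart ideal for `β` iff `chartLocus β I` generates the unit ideal of `A'`;
* `iSup_chartLocus_eq_top`: the chart loci cover `Spec A`;
* `exists_isChartIdeal_of_isLocalRing`: over a local ring some `β` is a chart.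

General lemmas: `annihilator_map_eq_top_iff`, `surjective_baseChange_iff`,
`bijective_of_surjective_of_rankAtStalk`, `quotBaseChange`.
-/

set_option autoImplicit false

namespace Fermat.Agent.S25.H251

open TensorProduct

universe u v w w' w'' w'''

section Ann

variable {A : Type w} [CommRing A] (C : Type w'') [AddCommGroup C] [Module A C]

/-- For a finite module `C` and a field `K` over `A`: if the annihilator of `C` dies in `K`,
then `K ⊗ C` is nontrivial. -/
lemma nontrivial_tensor_field_of_annihilator_le_ker [Module.Finite A C]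
    (K : Type w') [Field K] [Algebra A K]
    (h : Module.annihilator A C ≤ RingHom.ker (algebraMap A K)) :
    Nontrivial (K ⊗[A] C) := by
  obtain ⟨p, hpdef⟩ : ∃ p : PrimeSpectrum A, p.asIdeal = RingHom.ker (algebraMap A K) :=
    ⟨⟨_, RingHom.ker_isPrime _⟩, rfl⟩
  have hp : p ∈ Module.support A C := by
    rw [Module.support_eq_zeroLocus, PrimeSpectrum.mem_zeroLocus, hpdef]
    exact h
  rw [Module.mem_support_iff_nontrivial_residueField_tensorProduct] at hp
  let f : p.asIdeal.ResidueField →+* K :=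
    Ideal.ResidueField.lift p.asIdeal (algebraMap A K) hpdef.le (by
      intro x hx
      simp only [Submonoid.mem_comap, IsUnit.mem_submonoid_iff]
      exact isUnit_iff_ne_zero.mpr fun h0 => hx (hpdef ▸ (RingHom.mem_ker.mpr h0)))
  let : Algebra p.asIdeal.ResidueField K := f.toAlgebra
  have : IsScalarTower A p.asIdeal.ResidueField K :=
    IsScalarTower.of_algebraMap_eq fun x => by
      rw [RingHom.algebraMap_toAlgebra]
      exact (Ideal.ResidueField.lift_algebraMap (I := p.asIdeal) (algebraMap A K) _ _ x).symm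
  let e : K ⊗[p.asIdeal.ResidueField] (p.asIdeal.ResidueField ⊗[A] C) ≃ₗ[K] K ⊗[A] C :=
    AlgebraTensorModule.cancelBaseChange A p.asIdeal.ResidueField K K C
  rw [← e.nontrivial_congr]
  exact (Module.FaithfullyFlat.nontrivial_tensorProduct_iff_right _ _).mpr hp

variable {A' : Type w'} [CommRing A'] [Algebra A A']

lemma subsingleton_tensor_of_annihilator_map_eq_top
    (h : (Module.annihilator A C).map (algebraMap A A') = ⊤) : Subsingleton (A' ⊗[A] C) := by
  rw [← Module.annihilator_eq_top_iff (R := A'), eq_top_iff, ← h, Ideal.map_le_iff_le_comap]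
  intro x hx
  rw [Ideal.mem_comap, Module.mem_annihilator]
  intro t
  induction t using TensorProduct.induction_on with
  | zero => simp
  | tmul a c =>
    rw [TensorProduct.smul_tmul', smul_eq_mul, ← Algebra.smul_def,
      TensorProduct.smul_tmul, (Module.mem_annihilator.mp hx) c, TensorProduct.tmul_zero]
  | add s t hs ht => rw [smul_add, hs, ht, add_zero]

lemma annihilator_map_eq_top_of_subsingleton_tensor [Module.Finite A C]
    (h : Subsingleton (A' ⊗[A] C)) : (Module.annihilator A C).map (algebraMap A A') = ⊤ := by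
  by_contra hne
  obtain ⟨m, hm, hle⟩ := Ideal.exists_le_maximal _ hne
  let : Field (A' ⧸ m) := Ideal.Quotient.field m
  have h1 : Module.annihilator A C ≤ RingHom.ker (algebraMap A (A' ⧸ m)) := by
    intro x hx
    rw [RingHom.mem_ker, IsScalarTower.algebraMap_apply A A' (A' ⧸ m),
      Ideal.Quotient.algebraMap_eq, Ideal.Quotient.eq_zero_iff_mem]
    exact hle (Ideal.mem_map_of_mem _ hx)
  have h2 := nontrivial_tensor_field_of_annihilator_le_ker C (A' ⧸ m) h1
  let e : (A' ⧸ m) ⊗[A'] (A' ⊗[A] C) ≃ₗ[A' ⧸ m] (A' ⧸ m) ⊗[A] C :=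
    AlgebraTensorModule.cancelBaseChange A A' (A' ⧸ m) (A' ⧸ m) C
  rw [← e.nontrivial_congr] at h2
  exact not_subsingleton ((A' ⧸ m) ⊗[A'] (A' ⊗[A] C)) inferInstance

theorem annihilator_map_eq_top_iff [Module.Finite A C] :
    (Module.annihilator A C).map (algebraMap A A') = ⊤ ↔ Subsingleton (A' ⊗[A] C) :=
  ⟨subsingleton_tensor_of_annihilator_map_eq_top C,
    annihilator_map_eq_top_of_subsingleton_tensor C⟩

end Ann

section Gen

variable {A : Type w} [CommRing A] {M : Type w''} [AddCommGroup M] [Module A M]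
  {N : Type w'''} [AddCommGroup N] [Module A N]

/-- A base-changed linear map is surjective iff the base change of the cokernel vanishes. -/
lemma surjective_baseChange_iff (A' : Type w') [CommRing A'] [Algebra A A'] (f : M →ₗ[A] N) :
    Function.Surjective (f.baseChange A') ↔
      Subsingleton (A' ⊗[A] (N ⧸ LinearMap.range f)) := by
  have hex : Function.Exact f (LinearMap.range f).mkQ := by
    rw [LinearMap.exact_iff, Submodule.ker_mkQ]
  have hsurj : Function.Surjective (LinearMap.range f).mkQ := Submodule.mkQ_surjective _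
  have hex' := lTensor_exact A' hex hsurj
  have hsurj' : Function.Surjective ((LinearMap.range f).mkQ.lTensor A') :=
    LinearMap.lTensor_surjective A' hsurj
  constructor
  · intro h
    refine ⟨fun x y => ?_⟩
    have key : ∀ z : A' ⊗[A] (N ⧸ LinearMap.range f), z = 0 := by
      intro z
      obtain ⟨y, rfl⟩ := hsurj' z
      obtain ⟨x, rfl⟩ := h y
      exact (hex' _).mpr ⟨x, rfl⟩
    rw [key x, key y]
  · intro h y
    have : (LinearMap.range f).mkQ.lTensor A' y = 0 := Subsingleton.elim _ _
    obtain ⟨x, hx⟩ := (hex' y).mp this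
    exact ⟨x, hx⟩

/-- A surjection from `R ^ g` onto a finite projective module of constant rank `g` is
bijective. -/
lemma bijective_of_surjective_of_rankAtStalk [Module.Finite A M] [Module.Projective A M] {g : ℕ}
    (hrank : ∀ p : PrimeSpectrum A, Module.rankAtStalk (R := A) M p = g)
    (f : (Fin g → A) →ₗ[A] M) (hf : Function.Surjective f) : Function.Bijective f := by
  refine ⟨?_, hf⟩
  obtain ⟨s, hs⟩ := Module.projective_lifting_property f LinearMap.id hf
  -- the projection onto the kernel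
  let π : (Fin g → A) →ₗ[A] LinearMap.ker f :=
    (LinearMap.id - s ∘ₗ f).codRestrict (LinearMap.ker f) (fun x => by
      rw [LinearMap.mem_ker, LinearMap.sub_apply, map_sub, LinearMap.id_apply,
        LinearMap.comp_apply]
      have := LinearMap.congr_fun hs (f x)
      simp only [LinearMap.comp_apply, LinearMap.id_apply] at this
      rw [this, sub_self])
  have hπ : ∀ x : LinearMap.ker f, π x = x := by
    intro x
    apply Subtype.ext
    simp [π, LinearMap.mem_ker.mp x.2]
  have hπsurj : Function.Surjective π := fun x => ⟨x, hπ x⟩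
  have : Module.Finite A (LinearMap.ker f) := Module.Finite.of_surjective π hπsurj
  have : Module.Projective A (LinearMap.ker f) :=
    Module.Projective.of_split (LinearMap.ker f).subtype π (LinearMap.ext hπ)
  -- the decomposition `A ^ g ≃ M × ker f`
  let e : (Fin g → A) ≃ₗ[A] M × LinearMap.ker f :=
    LinearEquiv.ofLinearMap (f.prod π) (s.coprod (LinearMap.ker f).subtype)
      (by
        apply LinearMap.ext
        rintro ⟨m, x⟩
        have h1 : f (s m) = m := LinearMap.congr_fun hs m
        have h2 : π (s m) = 0 := by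
          apply Subtype.ext
          simp [π, h1]
        simp [h1, h2, hπ, LinearMap.mem_ker.mp x.2])
      (by
        apply LinearMap.ext
        intro x
        simp [π])
  have hker : Module.rankAtStalk (R := A) (LinearMap.ker f) = 0 := by
    funext p
    have : Nontrivial A := p.nontrivial
    have h1 := Module.rankAtStalk_eq_of_equiv e
    have h2 := congrFun h1 p
    rw [Module.rankAtStalk_prod, Module.rankAtStalk_eq_finrank_of_free] at h2
    simp only [Module.finrank_fin_fun, Pi.natCast_apply, Pi.add_apply, hrank p] at h2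
    simpa using h2
  have hsub : Subsingleton (LinearMap.ker f) := Module.rankAtStalk_eq_zero_iff_subsingleton.mp hker
  rw [← LinearMap.ker_eq_bot]
  exact Submodule.eq_bot_of_subsingleton

end Gen

variable {k : Type u} [CommRing k] {B : Type v} [CommRing B] [Algebra k B] {g : ℕ}
variable {A : Type w} [CommRing A] [Algebra k A]

section QuotBaseChange

variable {A' : Type w'} [CommRing A'] [Algebra k A'] [Algebra A A'] [IsScalarTower k A A']

lemma cancelBaseChange_includeRight (x : A ⊗[k] B) :
    Algebra.TensorProduct.cancelBaseChange k A A' A' B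
      (Algebra.TensorProduct.includeRight (R := A) (A := A') (B := A ⊗[k] B) x) =
      baseMap (IsScalarTower.toAlgHom k A A') x := by
  induction x using TensorProduct.induction_on with
  | zero => simp
  | tmul a b =>
    simp [Algebra.smul_def]
  | add x y hx hy => simp only [map_add, hx, hy]

lemma baseIdeal_eq_map_cancelBaseChange (I : Ideal (A ⊗[k] B)) :
    baseIdeal (IsScalarTower.toAlgHom k A A') I =
      (I.map (Algebra.TensorProduct.includeRight (R := A) (A := A') (B := A ⊗[k] B))).map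
        ((Algebra.TensorProduct.cancelBaseChange k A A' A' B : _ ≃ₐ[A'] _) : _ →+* _) := by
  apply le_antisymm
  · rw [baseIdeal, Ideal.map_le_iff_le_comap]
    intro x hx
    rw [Ideal.mem_comap, ← cancelBaseChange_includeRight]
    exact Ideal.mem_map_of_mem _ (Ideal.mem_map_of_mem _ hx)
  · rw [Ideal.map_le_iff_le_comap, Ideal.map_le_iff_le_comap]
    intro x hx
    rw [Ideal.mem_comap, Ideal.mem_comap]
    change Algebra.TensorProduct.cancelBaseChange k A A' A' B _ ∈ _
    rw [cancelBaseChange_includeRight]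
    exact Ideal.mem_map_of_mem _ hx

/-- Base change of the quotient `(A ⊗ B) ⧸ I` along `A → A'`. -/
noncomputable def quotBaseChange (I : Ideal (A ⊗[k] B)) :
    A' ⊗[A] ((A ⊗[k] B) ⧸ I) ≃ₗ[A']
      (A' ⊗[k] B) ⧸ baseIdeal (IsScalarTower.toAlgHom k A A') I :=
  ((Algebra.TensorProduct.tensorQuotientEquiv (R := A) A' (A ⊗[k] B) A' I).trans
    (Ideal.quotientEquivAlg _ _ (Algebra.TensorProduct.cancelBaseChange k A A' A' B)
      (baseIdeal_eq_map_cancelBaseChange I))).toLinearEquiv

lemma quotBaseChange_tmul_mk (I : Ideal (A ⊗[k] B)) (a' : A') (x : A ⊗[k] B) :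
    quotBaseChange I (a' ⊗ₜ[A] Ideal.Quotient.mk I x) =
      a' • Ideal.Quotient.mk _ (baseMap (IsScalarTower.toAlgHom k A A') x) := by
  induction x using TensorProduct.induction_on with
  | zero => simp
  | tmul a b =>
    simp only [quotBaseChange, baseMap_tmul, IsScalarTower.coe_toAlgHom', AlgEquiv.toLinearEquiv_apply,
      AlgEquiv.trans_apply, Algebra.TensorProduct.tensorQuotientEquiv_apply_tmul,
      Ideal.quotientEquivAlg_mk, Algebra.TensorProduct.cancelBaseChange_tmul]
    rw [Algebra.smul_def, mul_comm, ← smul_eq_mul, ← TensorProduct.smul_tmul']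
    rfl
  | add x y hx hy =>
    simp only [map_add, tmul_add, hx, hy, smul_add]

end QuotBaseChange

section Frame

variable (β : Fin g → B)

/-- The frame map `A ^ g → (A ⊗ B) ⧸ I`, `c ↦ ∑ c i • [1 ⊗ β i]`. -/
noncomputable def frameMap (I : Ideal (A ⊗[k] B)) : (Fin g → A) →ₗ[A] (A ⊗[k] B) ⧸ I :=
  Fintype.linearCombination A (fun i => Ideal.Quotient.mk I (1 ⊗ₜ[k] β i))

lemma frameMap_apply (I : Ideal (A ⊗[k] B)) (c : Fin g → A) :
    frameMap β I c = ∑ i, c i • Ideal.Quotient.mk I (1 ⊗ₜ[k] β i) :=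
  Fintype.linearCombination_apply A _ c

lemma frameMap_single (I : Ideal (A ⊗[k] B)) (i : Fin g) :
    frameMap β I (Pi.single i 1) = Ideal.Quotient.mk I (1 ⊗ₜ[k] β i) := by
  rw [frameMap, Fintype.linearCombination_apply_single, one_smul]

/-- `I` is a chart ideal for `β` iff the frame map is bijective. -/
theorem isChartIdeal_iff_bijective (I : Ideal (A ⊗[k] B)) :
    IsChartIdeal k β A I ↔ Function.Bijective (frameMap β I) := by
  constructor
  · rintro ⟨b, hb⟩
    have h : (frameMap β I : (Fin g → A) → _) = b.equivFun.symm := by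
      funext c
      rw [frameMap_apply, Module.Basis.equivFun_symm_apply]
      exact Finset.sum_congr rfl fun i _ => by rw [hb]
    rw [h]
    exact b.equivFun.symm.bijective
  · intro h
    refine ⟨Module.Basis.ofEquivFun (LinearEquiv.ofBijective (frameMap β I) h).symm, fun i => ?_⟩
    rw [Module.Basis.coe_ofEquivFun, LinearEquiv.symm_symm]
    exact (LinearEquiv.ofBijective_apply (frameMap β I) (Pi.single i 1)).trans
      (frameMap_single β I i)

/-- The chart locus of `β` in `Spec A`: the complement of the zero locus of this ideal is the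
set of points over which `1 ⊗ β i` is a basis of the quotient. -/
noncomputable def chartLocus (I : Ideal (A ⊗[k] B)) : Ideal A :=
  Module.annihilator A (((A ⊗[k] B) ⧸ I) ⧸ LinearMap.range (frameMap β I))

end Frame

section Locus

variable (β : Fin g → B)

section Tower

variable {A' : Type w'} [CommRing A'] [Algebra k A'] [Algebra A A'] [IsScalarTower k A A']

/-- The frame map of the base-changed ideal is the base change of the frame map. -/
lemma frameMap_baseIdeal_comp (I : Ideal (A ⊗[k] B)) :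
    (frameMap β (baseIdeal (IsScalarTower.toAlgHom k A A') I)) ∘ₗ
        (TensorProduct.piScalarRight A A' A' (Fin g)).toLinearMap =
      (quotBaseChange I).toLinearMap ∘ₗ (frameMap β I).baseChange A' := by
  apply LinearMap.ext
  intro x
  induction x using TensorProduct.induction_on with
  | zero => simp
  | tmul a' c =>
    simp only [LinearMap.comp_apply, LinearEquiv.coe_coe, LinearMap.baseChange_tmul,
      TensorProduct.piScalarRight_apply, TensorProduct.piScalarRightHom_tmul]
    rw [frameMap_apply, frameMap_apply, TensorProduct.tmul_sum, map_sum]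
    refine Finset.sum_congr rfl fun i _ => ?_
    have h1 : c i • Ideal.Quotient.mk I ((1 : A) ⊗ₜ[k] β i) =
        Ideal.Quotient.mk I (c i ⊗ₜ[k] β i) := by
      rw [← Ideal.Quotient.mkₐ_eq_mk A, ← map_smul, TensorProduct.smul_tmul', smul_eq_mul,
        mul_one]
    rw [h1, quotBaseChange_tmul_mk, baseMap_tmul, IsScalarTower.coe_toAlgHom']
    have h2 : ((algebraMap A A') (c i) ⊗ₜ[k] β i : A' ⊗[k] B) =
        (algebraMap A A') (c i) • ((1 : A') ⊗ₜ[k] β i) := by
      rw [TensorProduct.smul_tmul', smul_eq_mul, mul_one]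
    rw [h2, ← Ideal.Quotient.mkₐ_eq_mk A', map_smul, smul_smul, Algebra.smul_def, mul_comm]
  | add x y hx hy => simp only [map_add, hx, hy]

lemma surjective_frameMap_baseIdeal_iff (I : Ideal (A ⊗[k] B)) :
    Function.Surjective (frameMap β (baseIdeal (IsScalarTower.toAlgHom k A A') I)) ↔
      Function.Surjective ((frameMap β I).baseChange A') := by
  have h := frameMap_baseIdeal_comp (A' := A') β I
  have h' : ∀ x, frameMap β (baseIdeal (IsScalarTower.toAlgHom k A A') I)
      (TensorProduct.piScalarRight A A' A' (Fin g) x) =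
        quotBaseChange I ((frameMap β I).baseChange A' x) := fun x => LinearMap.congr_fun h x
  constructor
  · intro hs y
    obtain ⟨c, hc⟩ := hs (quotBaseChange I y)
    refine ⟨(TensorProduct.piScalarRight A A' A' (Fin g)).symm c, ?_⟩
    apply (quotBaseChange I).injective
    rw [← h', LinearEquiv.apply_symm_apply, hc]
  · intro hs y
    obtain ⟨x, hx⟩ := hs ((quotBaseChange I).symm y)
    refine ⟨TensorProduct.piScalarRight A A' A' (Fin g) x, ?_⟩
    rw [h', hx, LinearEquiv.apply_symm_apply]

variable {I : Ideal (A ⊗[k] B)} [Module.Finite A ((A ⊗[k] B) ⧸ I)]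
  [Module.Projective A ((A ⊗[k] B) ⧸ I)]

omit [Module.Projective A ((A ⊗[k] B) ⧸ I)] in
/-- The base-changed quotient is finite. -/
lemma finite_quot_baseIdeal :
    Module.Finite A' ((A' ⊗[k] B) ⧸ baseIdeal (IsScalarTower.toAlgHom k A A') I) :=
  Module.Finite.equiv (quotBaseChange (A' := A') I)

omit [Module.Finite A ((A ⊗[k] B) ⧸ I)] in
/-- The base-changed quotient is projective. -/
lemma projective_quot_baseIdeal :
    Module.Projective A' ((A' ⊗[k] B) ⧸ baseIdeal (IsScalarTower.toAlgHom k A A') I) :=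
  Module.Projective.of_equiv (quotBaseChange (A' := A') I)

/-- The base-changed quotient has the same constant rank. -/
lemma rankAtStalk_quot_baseIdeal
    (hrank : ∀ p : PrimeSpectrum A, Module.rankAtStalk (R := A) ((A ⊗[k] B) ⧸ I) p = g)
    (p : PrimeSpectrum A') :
    Module.rankAtStalk (R := A')
      ((A' ⊗[k] B) ⧸ baseIdeal (IsScalarTower.toAlgHom k A A') I) p = g := by
  rw [← Module.rankAtStalk_eq_of_equiv (quotBaseChange (A' := A') I),
    Module.rankAtStalk_baseChange, hrank]

/-- Tower form of `isChartIdeal_baseIdeal_iff`. -/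
theorem isChartIdeal_baseIdeal_iff_of_tower
    (hrank : ∀ p : PrimeSpectrum A, Module.rankAtStalk (R := A) ((A ⊗[k] B) ⧸ I) p = g) :
    IsChartIdeal k β A' (baseIdeal (IsScalarTower.toAlgHom k A A') I) ↔
      (chartLocus β I).map (algebraMap A A') = ⊤ := by
  have := finite_quot_baseIdeal (A' := A') (I := I)
  have := projective_quot_baseIdeal (A' := A') (I := I)
  rw [isChartIdeal_iff_bijective, chartLocus, annihilator_map_eq_top_iff,
    ← surjective_baseChange_iff, ← surjective_frameMap_baseIdeal_iff]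
  exact ⟨fun h => h.2, fun h => bijective_of_surjective_of_rankAtStalk
    (rankAtStalk_quot_baseIdeal hrank) _ h⟩

end Tower

variable {I : Ideal (A ⊗[k] B)} [Module.Finite A ((A ⊗[k] B) ⧸ I)]
  [Module.Projective A ((A ⊗[k] B) ⧸ I)]

/-- **Chart locus.**  If `(A ⊗ B) ⧸ I` is finite projective of constant rank `g` over `A`, then
for every `k`-algebra map `ψ : A → A'` the base change of `I` to `A'` is a chart ideal for `β`
iff the ideal `chartLocus β I` generates the unit ideal of `A'`. -/
theorem isChartIdeal_baseIdeal_iff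
    (hrank : ∀ p : PrimeSpectrum A, Module.rankAtStalk (R := A) ((A ⊗[k] B) ⧸ I) p = g)
    {A' : Type w'} [CommRing A'] [Algebra k A'] (ψ : A →ₐ[k] A') :
    IsChartIdeal k β A' (baseIdeal ψ I) ↔ (chartLocus β I).map ψ.toRingHom = ⊤ := by
  let : Algebra A A' := ψ.toRingHom.toAlgebra
  have : IsScalarTower k A A' := IsScalarTower.of_algebraMap_eq' ψ.comp_algebraMap.symm
  have h1 : IsScalarTower.toAlgHom k A A' = ψ := AlgHom.ext fun _ => rfl
  have h2 := isChartIdeal_baseIdeal_iff_of_tower (A' := A') β hrank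
  rw [h1] at h2
  exact h2

end Locus

section Cover

/-- `A' ⊗[k] B` is spanned over `A'` by the elements `1 ⊗ b`. -/
lemma span_one_tmul_eq_top (A' : Type w') [CommRing A'] [Algebra k A'] :
    Submodule.span A' (Set.range fun b : B => ((1 : A') ⊗ₜ[k] b : A' ⊗[k] B)) = ⊤ := by
  rw [eq_top_iff]
  rintro x -
  induction x using TensorProduct.induction_on with
  | zero => exact Submodule.zero_mem _
  | tmul a b =>
    have h : (a ⊗ₜ[k] b : A' ⊗[k] B) = a • ((1 : A') ⊗ₜ[k] b) := by
      rw [TensorProduct.smul_tmul', smul_eq_mul, mul_one]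
    rw [h]
    exact Submodule.smul_mem _ _ (Submodule.subset_span ⟨b, rfl⟩)
  | add x y hx hy => exact Submodule.add_mem _ hx hy

/-- The quotient `(A' ⊗[k] B) ⧸ I'` is spanned over `A'` by the classes of `1 ⊗ b`. -/
lemma span_mk_one_tmul_eq_top {A' : Type w'} [CommRing A'] [Algebra k A']
    (I' : Ideal (A' ⊗[k] B)) :
    Submodule.span A' (Set.range fun b : B => Ideal.Quotient.mk I' ((1 : A') ⊗ₜ[k] b)) = ⊤ := by
  have h := span_one_tmul_eq_top (k := k) (B := B) A'
  have h2 : (Set.range fun b : B => Ideal.Quotient.mk I' ((1 : A') ⊗ₜ[k] b)) =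
      (Ideal.Quotient.mkₐ A' I').toLinearMap ''
        (Set.range fun b : B => ((1 : A') ⊗ₜ[k] b : A' ⊗[k] B)) := by
    rw [← Set.range_comp]
    rfl
  rw [h2, ← Submodule.map_span, h, Submodule.map_top, LinearMap.range_eq_top]
  exact Ideal.Quotient.mk_surjective

/-- Over a field, every ideal with quotient of dimension `g` is a chart ideal for some `β`. -/
theorem exists_isChartIdeal_of_field {K : Type w'} [Field K] [Algebra k K]
    (I' : Ideal (K ⊗[k] B)) [Module.Finite K ((K ⊗[k] B) ⧸ I')]
    (hg : Module.finrank K ((K ⊗[k] B) ⧸ I') = g) :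
    ∃ β : Fin g → B, IsChartIdeal k β K I' := by
  obtain ⟨s, hsS, hspan, hli⟩ := exists_linearIndependent K
    (Set.range fun b : B => Ideal.Quotient.mk I' ((1 : K) ⊗ₜ[k] b))
  rw [span_mk_one_tmul_eq_top] at hspan
  let bas : Module.Basis s K ((K ⊗[k] B) ⧸ I') :=
    Module.Basis.mk hli (by rw [Subtype.range_coe, hspan])
  have : Fintype s := FiniteDimensional.fintypeBasisIndex bas
  have hcard : Fintype.card s = g := by
    rw [← hg, Module.finrank_eq_card_basis bas]
  let e : s ≃ Fin g := Fintype.equivFinOfCardEq hcard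
  have hex : ∀ i : Fin g, ∃ b : B,
      Ideal.Quotient.mk I' ((1 : K) ⊗ₜ[k] b) = ((e.symm i : s) : (K ⊗[k] B) ⧸ I') :=
    fun i => hsS (e.symm i).2
  choose β hβ using hex
  refine ⟨β, bas.reindex e, fun i => ?_⟩
  rw [Module.Basis.reindex_apply, Module.Basis.mk_apply, hβ]

variable {I : Ideal (A ⊗[k] B)} [Module.Finite A ((A ⊗[k] B) ⧸ I)]
  [Module.Projective A ((A ⊗[k] B) ⧸ I)]

/-- **Covering.**  The chart loci of all `β : Fin g → B` cover `Spec A`. -/
theorem iSup_chartLocus_eq_top
    (hrank : ∀ p : PrimeSpectrum A, Module.rankAtStalk (R := A) ((A ⊗[k] B) ⧸ I) p = g) :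
    (⨆ β : Fin g → B, chartLocus β I) = ⊤ := by
  by_contra hne
  obtain ⟨m, hm, hle⟩ := Ideal.exists_le_maximal _ hne
  let : Field (A ⧸ m) := Ideal.Quotient.field m
  have := finite_quot_baseIdeal (A' := A ⧸ m) (I := I)
  have hfin : Module.finrank (A ⧸ m)
      (((A ⧸ m) ⊗[k] B) ⧸ baseIdeal (IsScalarTower.toAlgHom k A (A ⧸ m)) I) = g := by
    have h := rankAtStalk_quot_baseIdeal (A' := A ⧸ m) hrank ⟨⊥, Ideal.isPrime_bot⟩
    rw [Module.rankAtStalk_eq_finrank_of_free] at h
    simpa using h
  obtain ⟨β, hβ⟩ := exists_isChartIdeal_of_field _ hfin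
  have h1 := (isChartIdeal_baseIdeal_iff_of_tower (A' := A ⧸ m) β hrank).mp hβ
  have h2 : chartLocus β I ≤ m := le_trans (le_iSup (fun β => chartLocus β I) β) hle
  have h3 : (chartLocus β I).map (algebraMap A (A ⧸ m)) ≤ ⊥ := by
    rw [Ideal.map_le_iff_le_comap]
    intro x hx
    rw [Ideal.mem_comap, Ideal.mem_bot, Ideal.Quotient.algebraMap_eq,
      Ideal.Quotient.eq_zero_iff_mem]
    exact h2 hx
  rw [h1] at h3
  exact bot_ne_top (le_antisymm bot_le h3)

omit [Module.Finite A ((A ⊗[k] B) ⧸ I)] [Module.Projective A ((A ⊗[k] B) ⧸ I)] in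
lemma baseIdeal_id : baseIdeal (AlgHom.id k A) I = I := by
  have h : (baseMap (B := B) (AlgHom.id k A) : A ⊗[k] B →ₐ[k] A ⊗[k] B) = AlgHom.id k _ := by
    ext <;> simp [baseMap]
  rw [baseIdeal, h]
  exact Ideal.map_id I

/-- `I` is a chart ideal for `β` iff its chart locus is everything. -/
theorem isChartIdeal_iff_chartLocus_eq_top (β : Fin g → B)
    (hrank : ∀ p : PrimeSpectrum A, Module.rankAtStalk (R := A) ((A ⊗[k] B) ⧸ I) p = g) :
    IsChartIdeal k β A I ↔ chartLocus β I = ⊤ := by
  have h := isChartIdeal_baseIdeal_iff β hrank (AlgHom.id k A)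
  rw [baseIdeal_id] at h
  rw [h]
  exact Iff.of_eq (congrArg (· = ⊤) (Ideal.map_id _))

/-- **Local covering.**  Over a local ring `A`, every ideal of `A ⊗ B` whose quotient is finite
projective of rank `g` is a chart ideal for some `β`. -/
theorem exists_isChartIdeal_of_isLocalRing [IsLocalRing A]
    (hrank : ∀ p : PrimeSpectrum A, Module.rankAtStalk (R := A) ((A ⊗[k] B) ⧸ I) p = g) :
    ∃ β : Fin g → B, IsChartIdeal k β A I := by
  by_contra hcon
  simp only [not_exists] at hcon
  have h := iSup_chartLocus_eq_top (I := I) hrank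
  have h2 : (⨆ β : Fin g → B, chartLocus β I) ≤ IsLocalRing.maximalIdeal A :=
    iSup_le fun β => IsLocalRing.le_maximalIdeal fun htop =>
      hcon β ((isChartIdeal_iff_chartLocus_eq_top β hrank).mpr htop)
  rw [h] at h2
  exact (IsLocalRing.maximalIdeal.isMaximal A).ne_top (top_le_iff.mp h2)

/-- Local covering, free form: over a local ring `A`, every ideal of `A ⊗ B` whose quotient is
free of rank `g` is a chart ideal for some `β`. -/
theorem exists_isChartIdeal_of_isLocalRing_of_free [IsLocalRing A]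
    [Module.Free A ((A ⊗[k] B) ⧸ I)] (hg : Module.finrank A ((A ⊗[k] B) ⧸ I) = g) :
    ∃ β : Fin g → B, IsChartIdeal k β A I :=
  exists_isChartIdeal_of_isLocalRing fun p => by
    rw [Module.rankAtStalk_eq_finrank_of_free]
    simpa using hg

/-- **Locus theorem**, in the shape of `ChartFamily.locus`: the chart loci cover `Spec A` and
are compatible with arbitrary base change. -/
theorem exists_chartLocus
    (hrank : ∀ p : PrimeSpectrum A, Module.rankAtStalk (R := A) ((A ⊗[k] B) ⧸ I) p = g) :
    ∃ J : (Fin g → B) → Ideal A, (⨆ β, J β) = ⊤ ∧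
      ∀ (β : Fin g → B) (A' : Type w) [CommRing A'] [Algebra k A'] (ψ : A →ₐ[k] A'),
        IsChartIdeal k β A' (baseIdeal ψ I) ↔ (J β).map ψ.toRingHom = ⊤ :=
  ⟨fun β => chartLocus β I, iSup_chartLocus_eq_top hrank,
    fun β _ _ _ ψ => isChartIdeal_baseIdeal_iff β hrank ψ⟩

end Cover

end Fermat.Agent.S25.H251

end
-- ===== PACK-END S25/H251/ChartCover.lean

-- ===== PACK-BEGIN S25/H130/GDC.lean
section
/-
S25, block DEGREE, GDC-type leaves (helper130): exact statements of `H10/DegreeSkel.lean`
(`isIso_of_bijective`, `bijective_of_charts`, `gdTwist_one`, `gdTwist_mul`, `gdTwist_isIso`,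
`gdTwist_isIso_of_unit₁`, `euler_eq_of_isIso`, `degree_eq_of_isIso`, `unit_isBC`, `twistE_isBC`).
-/


set_option autoImplicit false
set_option linter.style.haveILetI false
set_option linter.unusedSectionVars false

universe u

open scoped TensorProduct

namespace Fermat.Agent.S25.H130

open Fermat.Agent.S25 Fermat.Agent.S25.H10

noncomputable section

/-! ## General gluing data -/

section General

variable {A R₀ R₁ R₀₁ : Type u} [CommRing A] [CommRing R₀] [CommRing R₁]
    [CommRing R₀₁] [Algebra A R₀] [Algebra A R₁] [Algebra A R₀₁] [Algebra R₀ R₀₁]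
    [Algebra R₁ R₀₁] [IsScalarTower A R₀ R₀₁] [IsScalarTower A R₁ R₀₁]

/-- G-a. A bijective morphism is an isomorphism. -/
theorem isIso_of_bijective {G G' : GlueDatum A R₀ R₁ R₀₁} (f : GDHom G G')
    (hf : f.Bijective) : G.IsIso G' :=
  ⟨{ e₀ := LinearEquiv.ofBijective f.f₀ hf.1
     e₁ := LinearEquiv.ofBijective f.f₁ hf.2.1
     e₀₁ := LinearEquiv.ofBijective f.f₀₁ hf.2.2
     comm₀ := f.comm₀
     comm₁ := f.comm₁ }⟩

/-- G-b. Bijectivity on the two charts suffices. -/
theorem bijective_of_charts {G G' : GlueDatum A R₀ R₁ R₀₁} (f : GDHom G G')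
    (h₀ : Function.Bijective f.f₀) (h₁ : Function.Bijective f.f₁) : f.Bijective := by
  refine ⟨h₀, h₁, ?_⟩
  let e₀ : G.N₀ ≃ₗ[R₀] G'.N₀ := LinearEquiv.ofBijective f.f₀ h₀
  let g : G'.N₀₁ →ₗ[R₀₁] G.N₀₁ := G'.isBaseChange₀.lift (G.r₀.comp e₀.symm.toLinearMap)
  have hg : ∀ s, g (G'.r₀ s) = G.r₀ (e₀.symm s) := fun s =>
    G'.isBaseChange₀.lift_eq _ s
  have h1 : g.comp f.f₀₁ = LinearMap.id := by
    refine G.isBaseChange₀.algHom_ext _ _ fun s => ?_
    rw [LinearMap.comp_apply, f.comm₀, hg, LinearMap.id_apply]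
    congr 1
    exact e₀.symm_apply_apply s
  have h2 : f.f₀₁.comp g = LinearMap.id := by
    refine G'.isBaseChange₀.algHom_ext _ _ fun s => ?_
    rw [LinearMap.comp_apply, hg, f.comm₀, LinearMap.id_apply]
    congr 1
    exact e₀.apply_symm_apply s
  refine ⟨fun a b hab => ?_, fun z => ⟨g z, ?_⟩⟩
  · have := congrArg g hab
    rwa [← LinearMap.comp_apply, ← LinearMap.comp_apply, h1] at this
  · rw [← LinearMap.comp_apply, h2, LinearMap.id_apply]

/-- G-c. Twisting by `1` changes nothing. -/
theorem gdTwist_one (G : GlueDatum A R₀ R₁ R₀₁) : (gdTwist G 1).IsIso G :=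
  ⟨{ e₀ := LinearEquiv.refl R₀ G.N₀
     e₁ := LinearEquiv.refl R₁ G.N₁
     e₀₁ := LinearEquiv.refl R₀₁ G.N₀₁
     comm₀ := fun _ => rfl
     comm₁ := fun (s : G.N₁) => by
      show (((1 : R₀₁ˣ) : R₀₁) • G.r₁ s : G.N₀₁) = G.r₁ s
      rw [Units.val_one, one_smul] }⟩

/-- G-c'. Twists compose. -/
theorem gdTwist_mul (G : GlueDatum A R₀ R₁ R₀₁) (u v : R₀₁ˣ) :
    (gdTwist (gdTwist G u) v).IsIso (gdTwist G (u * v)) :=
  ⟨{ e₀ := LinearEquiv.refl R₀ G.N₀
     e₁ := LinearEquiv.refl R₁ G.N₁
     e₀₁ := LinearEquiv.refl R₀₁ G.N₀₁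
     comm₀ := fun _ => rfl
     comm₁ := fun (s : G.N₁) => by
      show ((v : R₀₁) • ((u : R₀₁) • G.r₁ s) : G.N₀₁) = ((u * v : R₀₁ˣ) : R₀₁) • G.r₁ s
      rw [smul_smul, Units.val_mul, mul_comm] }⟩

/-- G-d. Twisting is functorial for isomorphisms. -/
theorem gdTwist_isIso {G G' : GlueDatum A R₀ R₁ R₀₁} (h : G.IsIso G') (u : R₀₁ˣ) :
    (gdTwist G u).IsIso (gdTwist G' u) := by
  obtain ⟨e⟩ := h
  exact
    ⟨{ e₀ := e.e₀
       e₁ := e.e₁
       e₀₁ := e.e₀₁
       comm₀ := e.comm₀
       comm₁ := fun (s : G.N₁) => by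
        show e.e₀₁ ((u : R₀₁) • G.r₁ s : G.N₀₁) = ((u : R₀₁) • G'.r₁ (e.e₁ s) : G'.N₀₁)
        rw [map_smul, e.comm₁] }⟩

/-- Multiplication by a unit `v` of `R₁` on an `R₁`-module, as a linear equivalence. -/
def unitSMulEquiv₁ (v : R₁ˣ) (N : Type u) [AddCommGroup N] [Module R₁ N] : N ≃ₗ[R₁] N where
  toFun n := (v : R₁) • n
  invFun n := ((v⁻¹ : R₁ˣ) : R₁) • n
  map_add' := smul_add _
  map_smul' r n := by simp [smul_smul, mul_comm]
  left_inv n := by simp [smul_smul]
  right_inv n := by simp [smul_smul]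

/-- G-e. A unit coming from `R₁` does not change the isomorphism class. -/
theorem gdTwist_isIso_of_unit₁ (G : GlueDatum A R₀ R₁ R₀₁) (v : R₁ˣ) (u : R₀₁ˣ)
    (huv : (u : R₀₁) = algebraMap R₁ R₀₁ v) : (gdTwist G u).IsIso G :=
  ⟨{ e₀ := LinearEquiv.refl R₀ G.N₀
     e₁ := unitSMulEquiv₁ v G.N₁
     e₀₁ := LinearEquiv.refl R₀₁ G.N₀₁
     comm₀ := fun _ => rfl
     comm₁ := fun (s : G.N₁) => by
      show ((u : R₀₁) • G.r₁ s : G.N₀₁) = G.r₁ ((v : R₁) • s)
      rw [map_smul, huv, algebraMap_smul] }⟩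

end General

section Field

variable {K R₀ R₁ R₀₁ : Type u} [Field K] [CommRing R₀] [CommRing R₁]
    [CommRing R₀₁] [Algebra K R₀] [Algebra K R₁] [Algebra K R₀₁] [Algebra R₀ R₀₁]
    [Algebra R₁ R₀₁] [IsScalarTower K R₀ R₀₁] [IsScalarTower K R₁ R₀₁]

/-- The `K`-linear equivalence of Čech `0`-cochains induced by an isomorphism. -/
def isoCochain {G G' : GlueDatum K R₀ R₁ R₀₁} (e : GlueDatum.Iso G G') :
    (G.N₀ × G.N₁) ≃ₗ[K] (G'.N₀ × G'.N₁) :=
  (e.e₀.restrictScalars K).prodCongr (e.e₁.restrictScalars K)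

theorem cech_isoCochain {G G' : GlueDatum K R₀ R₁ R₀₁} (e : GlueDatum.Iso G G')
    (s : G.N₀ × G.N₁) : G'.cech (isoCochain e s) = e.e₀₁ (G.cech s) := by
  obtain ⟨a, b⟩ := s
  simp [GlueDatum.cech, isoCochain, e.comm₀, e.comm₁]

theorem cech_isoCochain_symm {G G' : GlueDatum K R₀ R₁ R₀₁} (e : GlueDatum.Iso G G')
    (s : G'.N₀ × G'.N₁) : G.cech ((isoCochain e).symm s) = e.e₀₁.symm (G'.cech s) := by
  apply e.e₀₁.injective
  rw [← cech_isoCochain, LinearEquiv.apply_symm_apply, LinearEquiv.apply_symm_apply]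

theorem finrank_H0_eq_of_iso {G G' : GlueDatum K R₀ R₁ R₀₁} (e : GlueDatum.Iso G G') :
    Module.finrank K G.H0 = Module.finrank K G'.H0 := by
  refine LinearEquiv.finrank_eq (LinearEquiv.ofSubmodules (isoCochain e) G.H0 G'.H0 ?_)
  ext s
  simp only [Submodule.mem_map, LinearMap.mem_ker, LinearEquiv.coe_coe]
  constructor
  · rintro ⟨s', hs', rfl⟩
    rw [cech_isoCochain, hs', map_zero]
  · intro hs
    refine ⟨(isoCochain e).symm s, ?_, LinearEquiv.apply_symm_apply _ _⟩
    rw [cech_isoCochain_symm, hs, map_zero]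

theorem finrank_H1_eq_of_iso {G G' : GlueDatum K R₀ R₁ R₀₁} (e : GlueDatum.Iso G G') :
    Module.finrank K G.H1 = Module.finrank K G'.H1 := by
  refine LinearEquiv.finrank_eq
    (Submodule.Quotient.equiv (LinearMap.range G.cech) (LinearMap.range G'.cech)
      (e.e₀₁.restrictScalars K) ?_)
  ext z
  simp only [Submodule.mem_map, LinearMap.mem_range, LinearEquiv.coe_coe]
  constructor
  · rintro ⟨_, ⟨s, rfl⟩, rfl⟩
    exact ⟨isoCochain e s, cech_isoCochain e s⟩
  · rintro ⟨s, rfl⟩
    refine ⟨G.cech ((isoCochain e).symm s), ⟨_, rfl⟩, ?_⟩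
    rw [cech_isoCochain_symm]
    exact e.e₀₁.apply_symm_apply _

/-- D2-a. -/
theorem euler_eq_of_isIso {G G' : GlueDatum K R₀ R₁ R₀₁} (h : G.IsIso G') :
    G.euler = G'.euler := by
  obtain ⟨e⟩ := h
  unfold GlueDatum.euler
  rw [finrank_H0_eq_of_iso e, finrank_H1_eq_of_iso e]

/-- D2-a'. -/
theorem degree_eq_of_isIso {G G' : GlueDatum K R₀ R₁ R₀₁} (h : G.IsIso G') :
    G.degree = G'.degree := by
  unfold GlueDatum.degree
  rw [euler_eq_of_isIso h]

end Field

/-! ## Curve charts -/

variable {k : Type u} [Field k] {B₀ B₁ B₀₁ : Type u} [CommRing B₀] [CommRing B₁] [CommRing B₀₁]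
  [Algebra k B₀] [Algebra k B₁] [Algebra k B₀₁] [Algebra B₀ B₀₁] [Algebra B₁ B₀₁]
  [IsScalarTower k B₀ B₀₁] [IsScalarTower k B₁ B₀₁]
  {x : B₀} {y : B₁} {e : B₁ →ₐ[k] k}

/-- A ring homomorphism, as a semilinear map over itself. -/
def ringHomSemilinear {R R' : Type u} [CommRing R] [CommRing R'] (ρ : R →+* R') :
    R →ₛₗ[ρ] R' where
  toFun := ρ
  map_add' := map_add ρ
  map_smul' r s := by simp

theorem ringHomSemilinear_isBC {R R' : Type u} [CommRing R] [CommRing R'] (ρ : R →+* R') :
    IsSemilinearBaseChange ρ (ringHomSemilinear ρ) := by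
  letI : Algebra R R' := ρ.toAlgebra
  exact IsBaseChange.linearMap R R'

theorem tensorMapLeft_tensorMapRight {A A' : Type u} [CommRing A] [Algebra k A] [CommRing A']
    [Algebra k A'] (φ : A →ₐ[k] A') (B B' : Type u) [CommRing B] [CommRing B'] [Algebra k B]
    [Algebra k B'] [Algebra B B'] [IsScalarTower k B B'] (s : A ⊗[k] B) :
    tensorMapLeft k φ B' (algebraMap (A ⊗[k] B) (A ⊗[k] B') s) =
      algebraMap (A' ⊗[k] B) (A' ⊗[k] B') (tensorMapLeft k φ B s) := by
  show tensorMapLeft k φ B' (tensorMapRight k A B B' s) =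
    tensorMapRight k A' B B' (tensorMapLeft k φ B s)
  induction s using TensorProduct.induction_on with
  | zero => simp
  | tmul a b => simp [tensorMapLeft, tensorMapRight]
  | add s t hs ht => rw [map_add, map_add, hs, ht, map_add, map_add]

/-- D2-b. The unit datum over `A'` is a base change of the unit datum over `A`. -/
theorem unit_isBC {A A' : Type u} [CommRing A] [Algebra k A] [CommRing A'] [Algebra k A']
    (φ : A →ₐ[k] A') :
    CurveGD.IsBC (B₀ := B₀) (B₁ := B₁) (B₀₁ := B₀₁) φ
      (GlueDatum.unit A (A ⊗[k] B₀) (A ⊗[k] B₁) (A ⊗[k] B₀₁))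
      (GlueDatum.unit A' (A' ⊗[k] B₀) (A' ⊗[k] B₁) (A' ⊗[k] B₀₁)) :=
  ⟨{ b₀ := ringHomSemilinear (tensorMapLeft k φ B₀)
     b₁ := ringHomSemilinear (tensorMapLeft k φ B₁)
     b₀₁ := ringHomSemilinear (tensorMapLeft k φ B₀₁)
     comm₀ := fun s => tensorMapLeft_tensorMapRight φ B₀ B₀₁ s
     comm₁ := fun s => tensorMapLeft_tensorMapRight φ B₁ B₀₁ s
     isBaseChange₀ := ringHomSemilinear_isBC _
     isBaseChange₁ := ringHomSemilinear_isBC _
     isBaseChange₀₁ := ringHomSemilinear_isBC _ }⟩

theorem tensorMapLeft_xUnit (hxy : algebraMap B₀ B₀₁ x * algebraMap B₁ B₀₁ y = 1)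
    {A A' : Type u} [CommRing A] [Algebra k A] [CommRing A'] [Algebra k A'] (φ : A →ₐ[k] A') :
    Units.map (tensorMapLeft k φ B₀₁ : A ⊗[k] B₀₁ →* A' ⊗[k] B₀₁) (xUnit x y hxy A) =
      xUnit x y hxy A' := by
  apply Units.ext
  simp [xUnit, tensorMapLeft]

theorem tensorMapLeft_xUnit_zpow (hxy : algebraMap B₀ B₀₁ x * algebraMap B₁ B₀₁ y = 1)
    {A A' : Type u} [CommRing A] [Algebra k A] [CommRing A'] [Algebra k A'] (φ : A →ₐ[k] A')
    (n : ℤ) :
    tensorMapLeft k φ B₀₁ ((xUnit x y hxy A ^ n : (A ⊗[k] B₀₁)ˣ) : A ⊗[k] B₀₁) =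
      ((xUnit x y hxy A' ^ n : (A' ⊗[k] B₀₁)ˣ) : A' ⊗[k] B₀₁) := by
  rw [← tensorMapLeft_xUnit hxy φ, ← map_zpow]
  rfl

/-- D2-c. Twists commute with base change. -/
theorem twistE_isBC (hC : IsCurveChart k B₀ B₁ B₀₁ x y e) {A A' : Type u} [CommRing A]
    [Algebra k A] [CommRing A'] [Algebra k A'] (φ : A →ₐ[k] A')
    {G : CurveGD k B₀ B₁ B₀₁ A} {G' : CurveGD k B₀ B₁ B₀₁ A'} (h : CurveGD.IsBC φ G G')
    (n : ℤ) :
    CurveGD.IsBC φ (twistE x y hC.mul_eq_one G n) (twistE x y hC.mul_eq_one G' n) := by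
  obtain ⟨bc⟩ := h
  exact
    ⟨{ b₀ := bc.b₀
       b₁ := bc.b₁
       b₀₁ := bc.b₀₁
       comm₀ := bc.comm₀
       comm₁ := fun (s : G.N₁) => by
        show bc.b₀₁ (((xUnit x y hC.mul_eq_one A ^ n : (A ⊗[k] B₀₁)ˣ) : A ⊗[k] B₀₁) •
            G.r₁ s : G.N₀₁) =
          (((xUnit x y hC.mul_eq_one A' ^ n : (A' ⊗[k] B₀₁)ˣ) : A' ⊗[k] B₀₁) •
            G'.r₁ (bc.b₁ s) : G'.N₀₁)
        rw [bc.b₀₁.map_smulₛₗ, bc.comm₁, tensorMapLeft_xUnit_zpow]
       isBaseChange₀ := bc.isBaseChange₀
       isBaseChange₁ := bc.isBaseChange₁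
       isBaseChange₀₁ := bc.isBaseChange₀₁ }⟩

end

end Fermat.Agent.S25.H130

end
-- ===== PACK-END S25/H130/GDC.lean

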