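import Mathlib
import Fermat.Prelude.Def_JacJ1Iface
import Fermat.Prelude.Def_GoodReductionJacobian_RelativeGroupLawKernel
import Fermat.Agent.Pack.S43MC.G0E5L0
import Fermat.Agent.Pack.S43MC.G0E0L0
import Fermat.Agent.Pack.S43MC.G0E5L2
import Fermat.Agent.Pack.S43MC.G0E5L1
import Fermat.Agent.Pack.S43MC.G0E5L3
import Fermat.Agent.Pack.S43MC.G0E6L0
import Fermat.Agent.Pack.S43MC.G0E1L3
import Fermat.Agent.Pack.S43MC.G0E6L2
import Fermat.Agent.Pack.S43MC.G0E6L3
import Fermat.Agent.Pack.Fast891

-- ===== PACK-BEGIN S25/Bridge/Val.lean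
section


/-!
# Row S25, bridge: `Stmt.Val` from the dictionary and `Stmt.AlgVal` (formal)
-/

set_option autoImplicit false
universe u
open CategoryTheory CategoryTheory.Limits AlgebraicGeometry AlgebraicGeometry.RelPicard
  NeronModelInfra GoodReductionJacobian

namespace Fermat.Agent.S25.Bridge

variable {k : Type u} [Field k] {C : Scheme.{u}} {c : C ⟶ Spec (CommRingCat.of k)}
  {ε : SchemeHomOver (𝟙 (Spec (CommRingCat.of k))) c}

/-- `Val` follows formally from the dictionary and `AlgVal`. -/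
theorem val_of_alg (Ch : ChartOf c ε) (hSec : Stmt.DictSections Ch) (hIso : Stmt.DictIso Ch)
    (hBC : Stmt.DictBC Ch) (hDeg : Stmt.DictDeg Ch) (hEx : Stmt.AlgBCExists Ch)
    (hVal : Stmt.AlgVal k Ch.B₀ Ch.B₁ Ch.B₀₁) : Stmt.Val c ε := by
  intro V _ _ _ _ K _ _ _ _ _ M M' hM hM' hK
  obtain ⟨G, hG, -⟩ := hSec V M
  obtain ⟨G', hG', -⟩ := hSec V M'
  obtain ⟨GK, hGK⟩ := hEx V K (IsScalarTower.toAlgHom k V K) G
  obtain ⟨GK', hGK'⟩ := hEx V K (IsScalarTower.toAlgHom k V K) G'
  have h1 := hBC V K _ M G GK hG hGK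
  have h2 := hBC V K _ M' G' GK' hG' hGK'
  have h3 : GK.IsIso GK' := (hIso K _ _ GK GK' h1 h2).1 hK
  have h4 : G.IsIso G' := hVal Ch.x Ch.y Ch.e Ch.isCurveChart V K G G' GK GK'
    ((hDeg V M G hG).1 hM) ((hDeg V M' G' hG').1 hM') hGK hGK' h3
  exact (hIso V M M' G G' hG hG').2 h4

end Fermat.Agent.S25.Bridge

end
-- ===== PACK-END S25/Bridge/Val.lean

-- ===== PACK-BEGIN S25/H551/AlgDefSemi.lean
section




/-!
# S25 / block ALGDEF, semilinear layer (helper551)

The lemmas of `AlgDefCore` in the `IsSemilinearBaseChange` language of `DefsAlg`, plus the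
"side" lemma: base change of a base change along a commutative square of rings.
-/

set_option autoImplicit false
set_option linter.style.haveILetI false

open TensorProduct

universe u

namespace Fermat.Agent.S25.H551

open Fermat.Agent.S25

section Semi

variable {R R' : Type u} [CommRing R] [CommRing R'] (ρ : R →+* R')

/-- Invertible modules lift along a surjection with nil kernel (semilinear form). -/
theorem exists_invertible_semilinear (hs : Function.Surjective ρ)
    (hn : ∀ x ∈ RingHom.ker ρ, IsNilpotent x)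
    (Q : Type u) [AddCommGroup Q] [Module R' Q] [Module.Invertible R' Q] :
    ∃ (P : Type u) (_ : AddCommGroup P) (_ : Module R P) (_ : Module.Invertible R P)
      (b : P →ₛₗ[ρ] Q), IsSemilinearBaseChange ρ b := by
  letI : Algebra R R' := ρ.toAlgebra
  letI : Module R Q := Module.compHom Q ρ
  haveI : IsScalarTower R R' Q := ⟨fun r r' n => by
    change (ρ r * r') • n = ρ r • (r' • n); rw [mul_smul]⟩
  obtain ⟨P, hP1, hP2, hP3, f, hf⟩ :=
    exists_invertible_isBaseChange (R := R) (S := R') hs hn Q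
  refine ⟨P, hP1, hP2, hP3,
    { toFun := fun p => f p
      map_add' := fun x y => f.map_add x y
      map_smul' := fun r x => f.map_smul r x }, ?_⟩
  exact hf

/-- Two finite projective modules with the same (semilinear) base change along a surjection
with nil kernel are isomorphic, compatibly with the base change maps. -/
theorem exists_linearEquiv_of_semilinear (hs : Function.Surjective ρ)
    (hn : ∀ x ∈ RingHom.ker ρ, IsNilpotent x)
    {P P' N : Type u} [AddCommGroup P] [Module R P] [AddCommGroup P'] [Module R P']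
    [Module.Finite R P] [Module.Projective R P] [Module.Finite R P'] [Module.Projective R P']
    [AddCommGroup N] [Module R' N]
    {f : P →ₛₗ[ρ] N} {f' : P' →ₛₗ[ρ] N} (hf : IsSemilinearBaseChange ρ f)
    (hf' : IsSemilinearBaseChange ρ f') :
    ∃ ψ : P ≃ₗ[R] P', ∀ x, f' (ψ x) = f x := by
  letI : Algebra R R' := ρ.toAlgebra
  letI : Module R N := Module.compHom N ρ
  haveI : IsScalarTower R R' N := ⟨fun r r' n => by
    change (ρ r * r') • n = ρ r • (r' • n); rw [mul_smul]⟩
  exact exists_linearEquiv_of_isBaseChange (R := R) (S := R') hs hn hf hf'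

end Semi

section Side

variable {R T R' T' : Type u} [CommRing R] [CommRing T] [CommRing R'] [CommRing T']
  [Algebra R T] [Algebra R' T'] (ρ : R →+* R') (τ : T →+* T')

/-- Base change of a base change along a commutative square of rings: if `b : P → N'` is a
`ρ`-semilinear base change and `r' : N' → M'` is a base change along `R' → T'`, then
`T ⊗[R] P → M'`, `t ⊗ p ↦ τ t • r' (b p)`, is a `τ`-semilinear base change. -/
theorem exists_side (h : ∀ r, τ (algebraMap R T r) = algebraMap R' T' (ρ r))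
    {P N' M' : Type u} [AddCommGroup P] [Module R P] [AddCommGroup N'] [Module R' N']
    [AddCommGroup M'] [Module T' M'] [Module R' M'] [IsScalarTower R' T' M']
    (b : P →ₛₗ[ρ] N') (hb : IsSemilinearBaseChange ρ b)
    (r' : N' →ₗ[R'] M') (hr' : IsBaseChange T' r') :
    ∃ c : (T ⊗[R] P) →ₛₗ[τ] M', IsSemilinearBaseChange τ c ∧
      ∀ p : P, c ((1 : T) ⊗ₜ[R] p) = r' (b p) := by
  letI algRR' : Algebra R R' := ρ.toAlgebra
  letI algTT' : Algebra T T' := τ.toAlgebra
  letI algRT' : Algebra R T' := (τ.comp (algebraMap R T)).toAlgebra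
  haveI towRTT' : IsScalarTower R T T' := IsScalarTower.of_algebraMap_eq (fun r => rfl)
  haveI towRR'T' : IsScalarTower R R' T' := IsScalarTower.of_algebraMap_eq (fun r => h r)
  letI modRN' : Module R N' := Module.compHom N' ρ
  haveI towRR'N' : IsScalarTower R R' N' := ⟨fun r r' n => by
    change (ρ r * r') • n = ρ r • (r' • n); rw [mul_smul]⟩
  letI modTM' : Module T M' := Module.compHom M' τ
  haveI towTT'M' : IsScalarTower T T' M' := ⟨fun r r' n => by
    change (τ r * r') • n = τ r • (r' • n); rw [mul_smul]⟩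
  letI modRM' : Module R M' := Module.compHom M' (τ.comp (algebraMap R T))
  haveI towRT'M' : IsScalarTower R T' M' := ⟨fun r r' n => by
    change (τ (algebraMap R T r) * r') • n = τ (algebraMap R T r) • (r' • n); rw [mul_smul]⟩
  haveI towRTM' : IsScalarTower R T M' := ⟨fun r t n => by
    rw [Algebra.smul_def]
    change τ (algebraMap R T r * t) • n = τ (algebraMap R T r) • (τ t • n)
    rw [map_mul, mul_smul]⟩
  haveI towRR'M' : IsScalarTower R R' M' := ⟨fun r s n => by
    change (ρ r * s) • n = τ (algebraMap R T r) • (s • n)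
    rw [h, algebraMap_smul, mul_smul]⟩
  -- the composite base change `P → N' → M'`
  have hcomp : IsBaseChange T' ((r'.restrictScalars R) ∘ₗ
      (show P →ₗ[R] N' from
        { toFun := fun n => b n
          map_add' := fun m n => b.map_add m n
          map_smul' := fun r n => LinearMap.map_smulₛₗ b r n })) :=
    IsBaseChange.comp hb hr'
  set g : P →ₗ[R] M' := (r'.restrictScalars R) ∘ₗ
      (show P →ₗ[R] N' from
        { toFun := fun n => b n
          map_add' := fun m n => b.map_add m n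
          map_smul' := fun r n => LinearMap.map_smulₛₗ b r n }) with hg
  have hmk : IsBaseChange T (TensorProduct.mk R T P 1) := TensorProduct.isBaseChange R P T
  set c : (T ⊗[R] P) →ₗ[T] M' := hmk.lift g with hc
  have hcmk : (c.restrictScalars R) ∘ₗ (TensorProduct.mk R T P 1) = g := by
    ext p
    exact hmk.lift_eq g p
  have hcbc : IsBaseChange T' c := IsBaseChange.of_comp hmk (hcmk ▸ hcomp)
  refine ⟨{ toFun := fun z => c z
            map_add' := fun x y => c.map_add x y
            map_smul' := fun t x => c.map_smul t x }, hcbc, fun p => ?_⟩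
  exact hmk.lift_eq g p

end Side

end Fermat.Agent.S25.H551

end
-- ===== PACK-END S25/H551/AlgDefSemi.lean

-- ===== PACK-BEGIN S25/H566/BoxRing.lean
section


/-!
# Row S25, block DICT: the ring of functions on the preimage of an affine chart

For an affine open `U ⊆ C` with `i : Γ(C, U) ≃+* B` (compatible with the `k`-structure) and a
`k`-algebra `A`, the ring of sections of `C_A = pullback c (specStr k A)` over the preimage of
`U` is `A ⊗[k] B`:

* `boxRingEquiv : A ⊗[k] B ≃+* Γ(C_A, preimageOpen A U)`,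
* `boxRingEquiv_tmul_one`, `boxRingEquiv_one_tmul`, `boxRingEquiv_tmul` (values on generators),
* `boxRingEquiv_res` (compatibility with restriction to a smaller affine chart).
-/

set_option autoImplicit false
universe u
open CategoryTheory CategoryTheory.Limits AlgebraicGeometry AlgebraicGeometry.RelPicard
  NeronModelInfra GoodReductionJacobian
open scoped TensorProduct

namespace Fermat.Agent.S25.H566

noncomputable section

variable {k : Type u} [Field k] {C : Scheme.{u}} (c : C ⟶ Spec (CommRingCat.of k))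
  (A : Type u) [CommRing A] [Algebra k A]

/-- The geometric pushout square: sections over the preimage of an affine open. -/
theorem isPushout_preimageOpen {U : C.Opens} (hU : IsAffineOpen U) :
    IsPushout (c.appLE ⊤ U le_top) ((specStr k A).appLE ⊤ ⊤ le_top)
      ((pullback.fst c (specStr k A)).appLE U (preimageOpen (c := c) A U) le_rfl)
      ((pullback.snd c (specStr k A)).appLE ⊤ (preimageOpen (c := c) A U) le_top) :=
  (isIso_pushoutSection_iff (IsPullback.of_hasPullback c (specStr k A)) le_top le_top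
    (by simp)).mp
    (isIso_pushoutSection_of_isAffineOpen (IsPullback.of_hasPullback c (specStr k A)) le_top
      le_top (by simp) (isAffineOpen_top _) (isAffineOpen_top _) hU)


variable {c A}

/-- `baseToSections` in terms of `appLE`. -/
theorem baseToSections_eq (V : (pullback c (specStr k A)).Opens) :
    baseToSections (c := c) A V =
      ((Scheme.ΓSpecIso (CommRingCat.of A)).inv ≫
        (pullback.snd c (specStr k A)).appLE ⊤ V le_top).hom := rfl

/-- `curveToSections` in terms of `appLE`. -/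
theorem curveToSections_eq (U : C.Opens) :
    curveToSections (c := c) A U =
      ((pullback.fst c (specStr k A)).appLE U (preimageOpen (c := c) A U) le_rfl).hom := by
  rw [curveToSections, Scheme.Hom.app_eq_appLE]

/-- `sectionsStr` in terms of `appLE`. -/
theorem sectionsStr_eq (U : C.Opens) :
    sectionsStr c U = ((Scheme.ΓSpecIso (CommRingCat.of k)).inv ≫ c.appLE ⊤ U le_top).hom := rfl

section Equiv

variable {U : C.Opens} (hU : IsAffineOpen U) {B : Type u} [CommRing B] [Algebra k B]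
  (i : Γ(C, U) ≃+* B) (hi : ∀ a : k, i (sectionsStr c U a) = algebraMap k B a)

include hU hi in
/-- The algebraic pushout square. -/
theorem isPushout_preimageOpen_alg :
    IsPushout (CommRingCat.ofHom (algebraMap k A)) (CommRingCat.ofHom (algebraMap k B))
      (CommRingCat.ofHom (baseToSections (c := c) A (preimageOpen (c := c) A U)))
      (CommRingCat.ofHom ((curveToSections (c := c) A U).comp i.symm.toRingHom)) := by
  refine ((isPushout_preimageOpen c A hU).of_iso (Scheme.ΓSpecIso (CommRingCat.of k))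
    i.toCommRingCatIso (Scheme.ΓSpecIso (CommRingCat.of A)) (Iso.refl _) ?_ ?_ ?_ ?_).flip
  · ext a
    obtain ⟨a, rfl⟩ : ∃ a' : k, (Scheme.ΓSpecIso (CommRingCat.of k)).inv a' = a :=
      ⟨(Scheme.ΓSpecIso (CommRingCat.of k)).hom a, by simp⟩
    have := hi a
    rw [sectionsStr_eq] at this
    simpa using this
  · exact Scheme.ΓSpecIso_naturality (CommRingCat.ofHom (algebraMap k A))
  · ext f
    simp [curveToSections_eq]
  · ext a
    simp [baseToSections_eq]

/-- **The ring of functions on the preimage of an affine chart** is `A ⊗[k] B`. -/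
def boxRingEquiv : A ⊗[k] B ≃+* Γ(pullback c (specStr k A), preimageOpen (c := c) A U) :=
  ((CommRingCat.isPushout_tensorProduct k A B).isoIsPushout _ _
    (isPushout_preimageOpen_alg hU i hi)).commRingCatIsoToRingEquiv

theorem boxRingEquiv_tmul_one (a : A) :
    boxRingEquiv hU i hi (a ⊗ₜ[k] (1 : B)) =
      baseToSections (c := c) A (preimageOpen (c := c) A U) a := by
  have := (CommRingCat.isPushout_tensorProduct k A B).inl_isoIsPushout_hom _ _
    (isPushout_preimageOpen_alg (c := c) (A := A) hU i hi)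
  exact congrArg (fun φ : CommRingCat.of A ⟶ _ => φ.hom a) this

theorem boxRingEquiv_one_tmul (b : B) :
    boxRingEquiv hU i hi ((1 : A) ⊗ₜ[k] b) = curveToSections (c := c) A U (i.symm b) := by
  have := (CommRingCat.isPushout_tensorProduct k A B).inr_isoIsPushout_hom _ _
    (isPushout_preimageOpen_alg (c := c) (A := A) hU i hi)
  exact congrArg (fun φ : CommRingCat.of B ⟶ _ => φ.hom b) this

theorem boxRingEquiv_tmul (a : A) (b : B) :
    boxRingEquiv hU i hi (a ⊗ₜ[k] b) =
      baseToSections (c := c) A (preimageOpen (c := c) A U) a *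
        curveToSections (c := c) A U (i.symm b) := by
  rw [← boxRingEquiv_tmul_one hU i hi, ← boxRingEquiv_one_tmul hU i hi, ← map_mul,
    Algebra.TensorProduct.tmul_mul_tmul, mul_one, one_mul]

theorem boxRingEquiv_symm_baseToSections (a : A) :
    (boxRingEquiv hU i hi).symm (baseToSections (c := c) A (preimageOpen (c := c) A U) a) =
      a ⊗ₜ[k] (1 : B) := by
  rw [← boxRingEquiv_tmul_one hU i hi, RingEquiv.symm_apply_apply]

theorem boxRingEquiv_symm_curveToSections (f : Γ(C, U)) :
    (boxRingEquiv hU i hi).symm (curveToSections (c := c) A U f) = (1 : A) ⊗ₜ[k] i f := by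
  rw [RingEquiv.symm_apply_eq, boxRingEquiv_one_tmul, RingEquiv.symm_apply_apply]

end Equiv

end

end Fermat.Agent.S25.H566

end
-- ===== PACK-END S25/H566/BoxRing.lean

-- ===== PACK-BEGIN S25/H550/CechK1.lean
section





/-!
# S25 / block CECH / leaf K1 (assembly): the kernel of a surjective twisted differential

`H0_finite_projective_of_surjective` : if `d m` is surjective it has an `A`-linear section and
`H⁰(L(m∞)) = ker (d m)` is a finitely generated projective `A`-module.

Inputs (verbatim hand-ins): K0 (`H130/CechK0.lean`), K1b (`H370/CechK5.lean`),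
K1a (`H550/CechK1a.lean`).
-/

set_option autoImplicit false

namespace Fermat.Agent.S25.H550

open Fermat.Agent.S25.H10

universe u v

variable {A : Type u} [CommRing A]

/-- K1c. A retract contained in a finitely generated submodule is finitely generated. -/
theorem fg_of_le_fg_of_retract {M : Type v} [AddCommGroup M] [Module A M]
    (H M' : Submodule A M) (hM' : M'.FG) (hle : H ≤ M')
    (p : M →ₗ[A] H) (hp : ∀ h : H, p h = h) : H.FG := by
  have : H = M'.map (H.subtype ∘ₗ p) := by
    apply le_antisymm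
    · intro h hh
      refine ⟨h, hle hh, ?_⟩
      have := hp ⟨h, hh⟩
      simp only [LinearMap.coe_comp, Submodule.coe_subtype, Function.comp_apply]
      rw [this]
    · rintro _ ⟨x, -, rfl⟩
      exact (p x).2
  rw [this]
  exact hM'.map _

variable {N0 N1 N01 : Type v}
  [AddCommGroup N0] [AddCommGroup N1] [AddCommGroup N01]
  [Module A N0] [Module A N1] [Module A N01]

/-- The retraction of `N0 × N1` onto `ker (d m)` attached to a section of `d m`. -/
noncomputable def retractH0 (D : CechOps A N0 N1 N01) (m : ℕ) (s : N01 →ₗ[A] N0 × N1)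
    (hs : D.d m ∘ₗ s = LinearMap.id) : (N0 × N1) →ₗ[A] D.H0 m :=
  LinearMap.codRestrict (D.H0 m) (LinearMap.id - s ∘ₗ D.d m) (fun x => by
    rw [LinearMap.mem_ker, LinearMap.sub_apply, map_sub, LinearMap.id_apply,
      LinearMap.comp_apply, ← LinearMap.comp_apply (D.d m) s, hs, LinearMap.id_apply, sub_self])

theorem retractH0_apply_coe (D : CechOps A N0 N1 N01) (m : ℕ) (s : N01 →ₗ[A] N0 × N1)
    (hs : D.d m ∘ₗ s = LinearMap.id) (h : D.H0 m) : retractH0 D m s hs h = h := by
  apply Subtype.ext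
  show (h : N0 × N1) - s (D.d m h) = h
  rw [LinearMap.mem_ker.mp h.2, map_zero, sub_zero]

/-- **K1.** If the twisted differential `d m` is surjective (i.e. `H¹(L(m∞)) = 0`) then it has
an `A`-linear section, and `H⁰(L(m∞))` is a finitely generated projective `A`-module. -/
theorem H0_finite_projective_of_surjective (D : CechOps A N0 N1 N01)
    (h0 : IsFGProj D.X0) (h1 : IsFGProj D.Y1)
    (hr0 : Function.Injective D.r0) (hr1 : Function.Injective D.r1) (m : ℕ)
    (hsurj : Function.Surjective (D.d m)) :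
    (∃ s : N01 →ₗ[A] N0 × N1, D.d m ∘ₗ s = LinearMap.id) ∧
      Module.Finite A (D.H0 m) ∧ Module.Projective A (D.H0 m) := by
  obtain ⟨s, hs⟩ := Fermat.Agent.S25.H370.exists_section_d D h0 hr0 m hsurj
  obtain ⟨M, hM, hle⟩ := exists_fg_ge_H0 D h0 h1 hr0 hr1 m
  have hfg : (D.H0 m).FG :=
    _root_.Fermat.Agent.S25.H550.fg_of_le_fg_of_retract (D.H0 m) M hM hle (retractH0 D m s hs) (retractH0_apply_coe D m s hs)
  have : Module.Projective A N0 := Fermat.Agent.S25.H130.projective_of_isFGProj h0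
  have : Module.Projective A N1 := Fermat.Agent.S25.H130.projective_of_isFGProj h1
  refine ⟨⟨s, hs⟩, Module.Finite.iff_fg.mpr hfg, ?_⟩
  refine Module.Projective.of_split (D.H0 m).subtype (retractH0 D m s hs) ?_
  exact LinearMap.ext fun h => retractH0_apply_coe D m s hs h

end Fermat.Agent.S25.H550

end
-- ===== PACK-END S25/H550/CechK1.lean

-- ===== PACK-BEGIN S25/H505/GlueDatumOfSections.lean
section
/-
S25, dictionary (helper505): packaging modules of sections into a `GlueDatum`.
-/



set_option autoImplicit false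
universe u
open scoped TensorProduct

namespace Fermat.Agent.S25.H505

section Packaging

variable {A R₀ R₁ R₀₁ : Type u} [CommRing A] [CommRing R₀] [CommRing R₁]
    [CommRing R₀₁] [Algebra A R₀] [Algebra A R₁] [Algebra A R₀₁] [Algebra R₀ R₀₁]
    [Algebra R₁ R₀₁] [IsScalarTower A R₀ R₀₁] [IsScalarTower A R₁ R₀₁]
  {S₀ S₁ S₀₁ : Type u} [CommRing S₀] [CommRing S₁] [CommRing S₀₁]
  (τ₀ : R₀ ≃+* S₀) (τ₁ : R₁ ≃+* S₁) (τ₀₁ : R₀₁ ≃+* S₀₁)
  (ρ₀ : S₀ →+* S₀₁) (ρ₁ : S₁ →+* S₀₁)
  (hρ₀ : ∀ x, ρ₀ (τ₀ x) = τ₀₁ (algebraMap R₀ R₀₁ x))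
  (hρ₁ : ∀ x, ρ₁ (τ₁ x) = τ₀₁ (algebraMap R₁ R₀₁ x))
  {P₀ P₁ P₀₁ : Type u} [AddCommGroup P₀] [Module S₀ P₀] [AddCommGroup P₁] [Module S₁ P₁]
  [AddCommGroup P₀₁] [Module S₀₁ P₀₁]
  (r₀ : P₀ →+ P₀₁) (r₁ : P₁ →+ P₀₁)

include hρ₀ hρ₁ in
/-- **Packaging**: modules of sections over rings isomorphic to `R₀, R₁, R₀₁`, with restriction
maps which are base changes, form a gluing datum. -/
theorem exists_glueDatum (h₀ : IsBC ρ₀ r₀) (h₁ : IsBC ρ₁ r₁)
    (i₀ : Module.Invertible S₀ P₀) (i₁ : Module.Invertible S₁ P₁) :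
    ∃ (G : GlueDatum A R₀ R₁ R₀₁) (e₀ : P₀ ≃+ G.N₀) (e₁ : P₁ ≃+ G.N₁) (e₀₁ : P₀₁ ≃+ G.N₀₁),
      (∀ x s, e₀ (τ₀ x • s) = x • e₀ s) ∧ (∀ x s, e₁ (τ₁ x • s) = x • e₁ s) ∧
      (∀ x s, e₀₁ (τ₀₁ x • s) = x • e₀₁ s) ∧
      (∀ s, e₀₁ (r₀ s) = G.r₀ (e₀ s)) ∧ (∀ s, e₀₁ (r₁ s) = G.r₁ (e₁ s)) := by
  letI m₀ : Module R₀ P₀ := Module.compHom P₀ τ₀.toRingHom
  letI m₁ : Module R₁ P₁ := Module.compHom P₁ τ₁.toRingHom
  letI m₀₁ : Module R₀₁ P₀₁ := Module.compHom P₀₁ τ₀₁.toRingHom
  letI mL : Module R₀ P₀₁ := Module.compHom P₀₁ (algebraMap R₀ R₀₁)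
  letI mR : Module R₁ P₀₁ := Module.compHom P₀₁ (algebraMap R₁ R₀₁)
  letI b₀ : Module A P₀ := Module.compHom P₀ (algebraMap A R₀)
  letI b₁ : Module A P₁ := Module.compHom P₁ (algebraMap A R₁)
  letI b₀₁ : Module A P₀₁ := Module.compHom P₀₁ (algebraMap A R₀₁)
  haveI tL : IsScalarTower R₀ R₀₁ P₀₁ := ⟨fun x y n => by
    rw [Algebra.smul_def, mul_smul]; rfl⟩
  haveI tR : IsScalarTower R₁ R₀₁ P₀₁ := ⟨fun x y n => by
    rw [Algebra.smul_def, mul_smul]; rfl⟩
  haveI t₀ : IsScalarTower A R₀ P₀ := ⟨fun x y n => by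
    rw [Algebra.smul_def, mul_smul]; rfl⟩
  haveI t₁ : IsScalarTower A R₁ P₁ := ⟨fun x y n => by
    rw [Algebra.smul_def, mul_smul]; rfl⟩
  haveI t₀₁ : IsScalarTower A R₀₁ P₀₁ := ⟨fun x y n => by
    rw [Algebra.smul_def, mul_smul]; rfl⟩
  have hsm₀ : ∀ (x : R₀) (s : P₀), x • s = τ₀ x • s := fun _ _ => rfl
  have hsm₁ : ∀ (x : R₁) (s : P₁), x • s = τ₁ x • s := fun _ _ => rfl
  have hsm₀₁ : ∀ (x : R₀₁) (s : P₀₁), x • s = τ₀₁ x • s := fun _ _ => rfl
  have hsmL : ∀ (x : R₀) (s : P₀₁), x • s = algebraMap R₀ R₀₁ x • s := fun _ _ => rfl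
  have hsmR : ∀ (x : R₁) (s : P₀₁), x • s = algebraMap R₁ R₀₁ x • s := fun _ _ => rfl
  let r₀' : P₀ →ₗ[R₀] P₀₁ :=
    { toFun := r₀, map_add' := r₀.map_add
      map_smul' := fun x s => by
        simp only [RingHom.id_apply]
        rw [hsm₀, h₀.sl, hρ₀, hsmL, hsm₀₁] }
  let r₁' : P₁ →ₗ[R₁] P₀₁ :=
    { toFun := r₁, map_add' := r₁.map_add
      map_smul' := fun x s => by
        simp only [RingHom.id_apply]
        rw [hsm₁, h₁.sl, hρ₁, hsmR, hsm₀₁] }
  have hb₀ : IsBC (algebraMap R₀ R₀₁) r₀'.toAddMonoidHom :=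
    IsBC.of_square' (α := τ₀.toRingHom) (β := τ₀₁.toRingHom) (a := AddMonoidHom.id P₀)
      (b := AddMonoidHom.id P₀₁) h₀ (fun x s => by
        change r₀ (x • s) = algebraMap R₀ R₀₁ x • r₀ s
        rw [hsm₀, h₀.sl, hρ₀, hsm₀₁])
      (fun x s => rfl) (fun x s => rfl) τ₀.bijective τ₀₁.bijective
      Function.bijective_id Function.bijective_id (fun x => hρ₀ x) (fun s => rfl)
  have hb₁ : IsBC (algebraMap R₁ R₀₁) r₁'.toAddMonoidHom :=
    IsBC.of_square' (α := τ₁.toRingHom) (β := τ₀₁.toRingHom) (a := AddMonoidHom.id P₁)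
      (b := AddMonoidHom.id P₀₁) h₁ (fun x s => by
        change r₁ (x • s) = algebraMap R₁ R₀₁ x • r₁ s
        rw [hsm₁, h₁.sl, hρ₁, hsm₀₁])
      (fun x s => rfl) (fun x s => rfl) τ₁.bijective τ₀₁.bijective
      Function.bijective_id Function.bijective_id (fun x => hρ₁ x) (fun s => rfl)
  have inv₀ : Module.Invertible R₀ P₀ :=
    (isBC_compHom τ₀ (P := P₀)).invertible
  have inv₁ : Module.Invertible R₁ P₁ :=
    (isBC_compHom τ₁ (P := P₁)).invertible
  refine ⟨{ N₀ := P₀, N₁ := P₁, N₀₁ := P₀₁, r₀ := r₀', r₁ := r₁'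
            isBaseChange₀ := IsBC.isBaseChange r₀' hb₀
            isBaseChange₁ := IsBC.isBaseChange r₁' hb₁
            invertible₀ := inv₀, invertible₁ := inv₁ },
    AddEquiv.refl _, AddEquiv.refl _, AddEquiv.refl _, fun x s => rfl, fun x s => rfl,
    fun x s => rfl, fun s => rfl, fun s => rfl⟩

end Packaging

end Fermat.Agent.S25.H505

end
-- ===== PACK-END S25/H505/GlueDatumOfSections.lean

-- ===== PACK-BEGIN S25/H326/Glue.lean
section
/-
S25 helper (helper326), block GLUE, leaf G2 (general covers): gluing of `𝒪_X`-modules along an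
arbitrary family of opens, from sectionwise transition maps satisfying the cocycle condition.
-/



set_option autoImplicit false
set_option linter.unusedVariables false

universe u

noncomputable section

open CategoryTheory AlgebraicGeometry TopologicalSpace Opposite Limits

namespace Fermat.Agent.S25.H326

open Fermat.Agent.S25.H626 (res resO res_res res_smul res_add app_res hom_ext_apply resO_resO)

variable {X : Scheme.{u}}

/-! ### Sections of a multiequalizer of modules -/

section Sections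

/-- Evaluation of abelian presheaves at an open. -/
def evOpen (W : X.Opens) : TopCat.Presheaf Ab.{u} X ⥤ Ab.{u} :=
  (evaluation (X.Opensᵒᵖ) Ab.{u}).obj (op W)

instance (W : X.Opens) : PreservesLimitsOfSize.{u, u} (evOpen (X := X) W) :=
  inferInstanceAs
    (PreservesLimitsOfSize.{u, u} ((evaluation (X.Opensᵒᵖ) Ab.{u}).obj (op W)))

/-- Sections over `W`, as a functor to types. -/
def secFunctor (W : X.Opens) : X.Modules ⥤ Type u :=
  Scheme.Modules.toPresheaf X ⋙ evOpen W ⋙ forget Ab.{u}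

instance (W : X.Opens) : PreservesLimitsOfSize.{u, u} (secFunctor (X := X) W) := by
  unfold secFunctor
  infer_instance

variable {ι : Type u} (I : MulticospanIndex (MulticospanShape.prod ι) X.Modules)

theorem multieq_sections_ext (W : X.Opens) (x y : Γ(multiequalizer I, W))
    (h : ∀ i, (Multiequalizer.ι I i).app W x = (Multiequalizer.ι I i).app W y) : x = y := by
  have hlim := isLimitOfPreserves (secFunctor W) (limit.isLimit I.multicospan)
  apply (Types.isLimitEquivSections hlim).injective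
  apply Subtype.ext
  funext j
  rcases j with i | b
  · exact h i
  · have hx := ((Types.isLimitEquivSections hlim) x).2 (WalkingMulticospan.Hom.fst b)
    have hy := ((Types.isLimitEquivSections hlim) y).2 (WalkingMulticospan.Hom.fst b)
    rw [← hx, ← hy]
    congr 1
    exact h _

theorem multieq_sections_exists (W : X.Opens) (s : ∀ i, Γ(I.left i, W))
    (hs : ∀ p : ι × ι, (I.fst p).app W (s p.1) = (I.snd p).app W (s p.2)) :
    ∃ x : Γ(multiequalizer I, W), ∀ i, (Multiequalizer.ι I i).app W x = s i := by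
  have hlim := isLimitOfPreserves (secFunctor W) (limit.isLimit I.multicospan)
  let sec : (I.multicospan ⋙ secFunctor W).sections :=
    ⟨fun j => match j with
      | WalkingMulticospan.left i => s i
      | WalkingMulticospan.right b => (I.fst b).app W (s b.1), by
      rintro (a | b) (a' | b') (f | f | f)
      · simp only [WalkingMulticospan.Hom.id_eq_id]; rfl
      · rfl
      · exact (hs b').symm
      · simp only [WalkingMulticospan.Hom.id_eq_id]; rfl⟩
  refine ⟨(Types.isLimitEquivSections hlim).symm sec, fun i => ?_⟩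
  exact Types.isLimitEquivSections_symm_apply hlim sec (WalkingMulticospan.left i)

theorem multieq_condition (W : X.Opens) (x : Γ(multiequalizer I, W)) (p : ι × ι) :
    (I.fst p).app W ((Multiequalizer.ι I p.1).app W x) =
      (I.snd p).app W ((Multiequalizer.ι I p.2).app W x) := by
  have h := Multiequalizer.condition I p
  have h2 := congrArg (fun f => Scheme.Modules.Hom.app f W) h
  simp only [Scheme.Modules.Hom.comp_app] at h2
  exact congr($h2 x)

end Sections

/-! ### The module `P` cut down to an open `G` -/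

section Cut

/-- The open `G ∩ W`, in the form in which it appears in the sections of `onOpen G P`. -/
abbrev cut (G W : X.Opens) : X.Opens := G.ι ''ᵁ (G.ι ⁻¹ᵁ W)

theorem cut_eq (G W : X.Opens) : cut G W = G ⊓ W := by
  unfold cut
  rw [Scheme.Hom.image_preimage_eq_opensRange_inf, Scheme.Opens.opensRange_ι]

theorem cut_le_left (G W : X.Opens) : cut G W ≤ G := by
  rw [cut_eq]; exact inf_le_left

theorem cut_le_right (G W : X.Opens) : cut G W ≤ W := by
  rw [cut_eq]; exact inf_le_right

theorem le_cut {G W W' : X.Opens} (h1 : W' ≤ G) (h2 : W' ≤ W) : W' ≤ cut G W := by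
  rw [cut_eq]; exact le_inf h1 h2

theorem cut_mono {G G' W W' : X.Opens} (hG : G' ≤ G) (hW : W' ≤ W) : cut G' W' ≤ cut G W :=
  le_cut ((cut_le_left G' W').trans hG) ((cut_le_right G' W').trans hW)

/-- The module whose sections over `W` are the sections of `P` over `G ∩ W`. -/
def onOpen (G : X.Opens) (P : X.Modules) : X.Modules :=
  (Scheme.Modules.pushforward G.ι).obj (P.restrict G.ι)

variable (G : X.Opens) (P : X.Modules)

/-- Sections of `onOpen G P` over `W` are sections of `P` over `cut G W` (the identity). -/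
def toCut (W : X.Opens) : Γ(onOpen G P, W) →+ Γ(P, cut G W) := AddMonoidHom.id _

/-- Sections of `P` over `cut G W` are sections of `onOpen G P` over `W` (the identity). -/
def ofCut (W : X.Opens) : Γ(P, cut G W) →+ Γ(onOpen G P, W) := AddMonoidHom.id _

@[simp] theorem toCut_ofCut (W : X.Opens) (s : Γ(P, cut G W)) :
    toCut G P W (ofCut G P W s) = s := rfl

@[simp] theorem ofCut_toCut (W : X.Opens) (s : Γ(onOpen G P, W)) :
    ofCut G P W (toCut G P W s) = s := rfl

theorem toCut_res {W W' : X.Opens} (h : W' ≤ W) (s : Γ(onOpen G P, W)) :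
    toCut G P W' (res (onOpen G P) h s) = res P (cut_mono le_rfl h) (toCut G P W s) := rfl

theorem ofCut_res {W W' : X.Opens} (h : W' ≤ W) (s : Γ(P, cut G W)) :
    ofCut G P W' (res P (cut_mono le_rfl h) s) = res (onOpen G P) h (ofCut G P W s) := rfl

theorem toCut_smul (W : X.Opens) (r : Γ(X, W)) (s : Γ(onOpen G P, W)) :
    toCut G P W (r • s) = resO (cut_le_right G W) r • toCut G P W s := by
  have h : (r • s : Γ(onOpen G P, W)) =
      ofCut G P W (((G.ι.appIso (G.ι ⁻¹ᵁ W)).inv ((G.ι.app W) r)) • toCut G P W s) := rfl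
  rw [h, toCut_ofCut]
  congr 1
  exact congr($(G.ι.app_appIso_inv W) r)

theorem ofCut_smul (W : X.Opens) (r : Γ(X, W)) (s : Γ(P, cut G W)) :
    ofCut G P W (resO (cut_le_right G W) r • s) = r • ofCut G P W s := by
  have := toCut_smul G P W r (ofCut G P W s)
  rw [toCut_ofCut] at this
  rw [← this, ofCut_toCut]

end Cut

/-! ### Morphisms between cut-down modules -/

section CutMaps

variable {G G' : X.Opens} {P Q : X.Modules}

/-- Restriction `onOpen G P ⟶ onOpen G' P` for `G' ≤ G`. -/
def cutRes (P : X.Modules) (h : G' ≤ G) : onOpen G P ⟶ onOpen G' P :=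
  mkHom (fun W => (ofCut G' P W).comp ((resHom P (cut_mono h le_rfl)).comp (toCut G P W)))
    (fun W W' h' s => by
      simp only [AddMonoidHom.comp_apply, resHom_apply]
      rw [toCut_res, res_res, ← ofCut_res, res_res])
    (fun W r s => by
      simp only [AddMonoidHom.comp_apply, resHom_apply]
      rw [toCut_smul, res_smul, resO_resO, ofCut_smul])

theorem toCut_cutRes_app (h : G' ≤ G) (W : X.Opens) (s : Γ(onOpen G P, W)) :
    toCut G' P W ((cutRes P h).app W s) = res P (cut_mono h le_rfl) (toCut G P W s) := rfl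

/-- The morphism `onOpen G P ⟶ onOpen G Q` induced by a sectionwise morphism over `G`. -/
def cutMap (φ : LocHom G P Q) : onOpen G P ⟶ onOpen G Q :=
  mkHom (fun W => (ofCut G Q W).comp ((φ.app (cut G W) (cut_le_left G W)).comp (toCut G P W)))
    (fun W W' h' s => by
      simp only [AddMonoidHom.comp_apply]
      rw [toCut_res, φ.app_res (cut G W) (cut G W') (cut_le_left G W) (cut_mono le_rfl h'),
        ofCut_res])
    (fun W r s => by
      simp only [AddMonoidHom.comp_apply]
      rw [toCut_smul, φ.app_smul, ofCut_smul])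

theorem toCut_cutMap_app (φ : LocHom G P Q) (W : X.Opens) (s : Γ(onOpen G P, W)) :
    toCut G Q W ((cutMap φ).app W s) = φ.app (cut G W) (cut_le_left G W) (toCut G P W s) := rfl

end CutMaps

/-! ### Gluing data and the glued module -/

/-- Sectionwise gluing data for `𝒪_X`-modules: modules `P i`, opens `G i`, and sectionwise
transition morphisms `τ i j : P i → P j` over `G i ⊓ G j` satisfying the cocycle condition.
(Only the sections of `P i` over opens contained in `G i` matter.) -/
structure GlueData (X : Scheme.{u}) (ι : Type u) where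
  /-- the opens -/
  G : ι → X.Opens
  /-- the modules -/
  P : ι → X.Modules
  /-- the transition morphisms -/
  τ : ∀ i j, LocHom (G i ⊓ G j) (P i) (P j)
  τ_self : ∀ (i : ι) (W : X.Opens) (hW : W ≤ G i ⊓ G i) (s : Γ(P i, W)),
    (τ i i).app W hW s = s
  τ_cocycle : ∀ (i j k : ι) (W : X.Opens) (hij : W ≤ G i ⊓ G j) (hjk : W ≤ G j ⊓ G k)
    (hik : W ≤ G i ⊓ G k) (s : Γ(P i, W)),
    (τ j k).app W hjk ((τ i j).app W hij s) = (τ i k).app W hik s

namespace GlueData

variable {ι : Type u} (D : GlueData X ι)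

/-- The multicospan whose limit is the glued module. -/
def index : MulticospanIndex (MulticospanShape.prod ι) X.Modules where
  left i := onOpen (D.G i) (D.P i)
  right p := onOpen (D.G p.1 ⊓ D.G p.2) (D.P p.2)
  fst p := cutRes (D.P p.1) inf_le_left ≫ cutMap (D.τ p.1 p.2)
  snd p := cutRes (D.P p.2) inf_le_right

/-- The glued module. -/
def glued : X.Modules := multiequalizer D.index

/-- The canonical morphism from the glued module to the `i`-th cut-down module. -/
def ιhom (i : ι) : D.glued ⟶ onOpen (D.G i) (D.P i) := Multiequalizer.ι D.index i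

/-- The `i`-th component of a section of the glued module. -/
def comp (i : ι) (W : X.Opens) : Γ(D.glued, W) →+ Γ(D.P i, cut (D.G i) W) :=
  (toCut (D.G i) (D.P i) W).comp ((D.ιhom i).app W).hom

theorem comp_apply (i : ι) (W : X.Opens) (x : Γ(D.glued, W)) :
    D.comp i W x = toCut (D.G i) (D.P i) W ((D.ιhom i).app W x) := rfl

theorem comp_res (i : ι) {W W' : X.Opens} (h : W' ≤ W) (x : Γ(D.glued, W)) :
    D.comp i W' (res D.glued h x) = res (D.P i) (cut_mono le_rfl h) (D.comp i W x) := by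
  rw [comp_apply, comp_apply, app_res, toCut_res]

theorem comp_smul (i : ι) (W : X.Opens) (r : Γ(X, W)) (x : Γ(D.glued, W)) :
    D.comp i W (r • x) = resO (cut_le_right (D.G i) W) r • D.comp i W x := by
  rw [comp_apply, comp_apply, Scheme.Modules.Hom.app_smul, toCut_smul]

theorem comp_ext (W : X.Opens) (x y : Γ(D.glued, W)) (h : ∀ i, D.comp i W x = D.comp i W y) :
    x = y :=
  multieq_sections_ext D.index W x y h

theorem comp_condition (i j : ι) (W : X.Opens) (x : Γ(D.glued, W)) :
    (D.τ i j).app (cut (D.G i ⊓ D.G j) W) (cut_le_left _ _)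
        (res (D.P i) (cut_mono inf_le_left le_rfl) (D.comp i W x)) =
      res (D.P j) (cut_mono inf_le_right le_rfl) (D.comp j W x) :=
  multieq_condition D.index W x (i, j)

theorem exists_of_comp (W : X.Opens) (s : ∀ i, Γ(D.P i, cut (D.G i) W))
    (hs : ∀ i j, (D.τ i j).app (cut (D.G i ⊓ D.G j) W) (cut_le_left _ _)
        (res (D.P i) (cut_mono inf_le_left le_rfl) (s i)) =
      res (D.P j) (cut_mono inf_le_right le_rfl) (s j)) :
    ∃ x : Γ(D.glued, W), ∀ i, D.comp i W x = s i :=
  multieq_sections_exists D.index W (fun i => ofCut (D.G i) (D.P i) W (s i))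
    (fun p => hs p.1 p.2)

/-- The projection of the glued module to `P i`, over `G i`. -/
def proj (i : ι) : LocHom (D.G i) D.glued (D.P i) where
  app W hW := (resHom (D.P i) (le_cut hW le_rfl)).comp (D.comp i W)
  app_smul W hW r s := by
    simp only [AddMonoidHom.comp_apply, resHom_apply]
    rw [comp_smul, res_smul, resO_resO]
    congr 1
    exact Fermat.Agent.S25.H626.resO_id r
  app_res W W' hW h s := by
    simp only [AddMonoidHom.comp_apply, resHom_apply]
    rw [comp_res, res_res, res_res]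

theorem proj_app (i : ι) (W : X.Opens) (hW : W ≤ D.G i) (x : Γ(D.glued, W)) :
    (D.proj i).app W hW x = res (D.P i) (le_cut hW le_rfl) (D.comp i W x) := rfl

/-- The component of `x` is the projection of the restriction of `x`. -/
theorem proj_cut (i : ι) (W : X.Opens) (x : Γ(D.glued, W)) :
    (D.proj i).app (cut (D.G i) W) (cut_le_left _ _) (res D.glued (cut_le_right _ _) x) =
      D.comp i W x := by
  rw [proj_app, comp_res, res_res]
  exact Fermat.Agent.S25.H626.res_id _ _

theorem proj_compat (i j : ι) (W : X.Opens) (hW : W ≤ D.G i ⊓ D.G j) (x : Γ(D.glued, W)) :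
    (D.τ i j).app W hW ((D.proj i).app W (hW.trans inf_le_left) x) =
      (D.proj j).app W (hW.trans inf_le_right) x := by
  have h := D.comp_condition i j W x
  have hW' : W ≤ cut (D.G i ⊓ D.G j) W := le_cut hW le_rfl
  have h2 := congrArg (res (D.P j) hW') h
  rw [← (D.τ i j).app_res _ _ (cut_le_left _ _) hW', res_res, res_res] at h2
  exact h2

theorem proj_injective (k : ι) (W : X.Opens) (hW : W ≤ D.G k) :
    Function.Injective ((D.proj k).app W hW) := by
  intro x y hxy
  apply D.comp_ext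
  intro i
  rw [← proj_cut, ← proj_cut]
  have hWi : cut (D.G i) W ≤ D.G k ⊓ D.G i :=
    le_inf ((cut_le_right _ _).trans hW) (cut_le_left _ _)
  rw [← D.proj_compat k i _ hWi, ← D.proj_compat k i _ hWi]
  congr 1
  rw [(D.proj k).app_res W _ hW (cut_le_right _ _), (D.proj k).app_res W _ hW (cut_le_right _ _),
    hxy]

theorem proj_surjective (k : ι) (W : X.Opens) (hW : W ≤ D.G k) :
    Function.Surjective ((D.proj k).app W hW) := by
  intro s
  have hWi : ∀ i, cut (D.G i) W ≤ D.G k ⊓ D.G i := fun i =>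
    le_inf ((cut_le_right _ _).trans hW) (cut_le_left _ _)
  obtain ⟨x, hx⟩ := D.exists_of_comp W
    (fun i => (D.τ k i).app (cut (D.G i) W) (hWi i) (res (D.P k) (cut_le_right _ _) s)) (by
      intro i j
      have h1 : cut (D.G i ⊓ D.G j) W ≤ D.G k ⊓ D.G i :=
        le_inf ((cut_le_right _ _).trans hW) ((cut_le_left _ _).trans inf_le_left)
      have h2 : cut (D.G i ⊓ D.G j) W ≤ D.G k ⊓ D.G j :=
        le_inf ((cut_le_right _ _).trans hW) ((cut_le_left _ _).trans inf_le_right)
      rw [← (D.τ k i).app_res _ _ (hWi i) (cut_mono inf_le_left le_rfl),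
        ← (D.τ k j).app_res _ _ (hWi j) (cut_mono inf_le_right le_rfl), res_res, res_res,
        D.τ_cocycle k i j _ h1 (cut_le_left _ _) h2])
  refine ⟨x, ?_⟩
  rw [proj_app, hx k, ← (D.τ k k).app_res _ _ (hWi k) (le_cut hW le_rfl), res_res, D.τ_self]
  exact Fermat.Agent.S25.H626.res_id _ _

theorem proj_bijective (k : ι) (W : X.Opens) (hW : W ≤ D.G k) :
    Function.Bijective ((D.proj k).app W hW) :=
  ⟨D.proj_injective k W hW, D.proj_surjective k W hW⟩

end GlueData

/-- **G2 (general covers, sectionwise form).**  Sectionwise gluing data glue to a module `M`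
together with sectionwise isomorphisms `M ≅ P i` over `G i`, compatible with the transition
maps. -/
theorem exists_glue {ι : Type u} (D : GlueData X ι) :
    ∃ (M : X.Modules) (e : ∀ i, LocHom (D.G i) M (D.P i)),
      (∀ (i : ι) (W : X.Opens) (hW : W ≤ D.G i), Function.Bijective ((e i).app W hW)) ∧
      ∀ (i j : ι) (W : X.Opens) (hW : W ≤ D.G i ⊓ D.G j) (s : Γ(M, W)),
        (D.τ i j).app W hW ((e i).app W (hW.trans inf_le_left) s) =
          (e j).app W (hW.trans inf_le_right) s :=
  ⟨D.glued, D.proj, D.proj_bijective, D.proj_compat⟩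

end Fermat.Agent.S25.H326

end

end
-- ===== PACK-END S25/H326/Glue.lean

-- ===== PACK-BEGIN S25/H11/ACDefs.lean
section



/-!
# Row S25, block ALGCHARTS: frozen definitions (squad-lead helper11)

Pure commutative algebra on top of the frozen `DefsAlg.lean` and helper491's Hilbert charts.

For a curve chart `(B₀, B₁, B₀₁, x, y, e)` and a gluing datum `G` over `A`:

* `tcech x n G` : the Čech differential of the twist `G(n E₀)`,
  `(a, b) ↦ r₀ a - (1 ⊗ x) ^ n • r₁ b`;  `sec x n G = ker` is `H⁰(G(n E₀))`.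
* `ptIdeal q A` : the ideal of the divisor `Σ q i` on `Spec (A ⊗ B₀)` (`q i` are `k`-points of
  `Spec B₀`);  `secq x n q G` : the sections of `G(n E₀)` vanishing on `Σ q i`.
* `ChartIndex` : the index `(n, m, g, q, β, f)` of a chart; `chartRing i = (Rβ)_f`.
* `IsGen`, `P0 … P3`, `PointCond` : the successive chart conditions.

The chart `i` consists of the `G` such that `G(n E₀ - Σ q)` has `H¹ = 0`, its `H⁰` is free of rank
one on a section `s` which does not vanish on `E₀ = {y = 0}`, and whose divisor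
`D' = div s - Σ q ⊆ Spec (A ⊗ B₀)` lies in the Hilbert chart of `β` and in `D(f)`.
-/

set_option autoImplicit false

universe u

open scoped TensorProduct

namespace Fermat.Agent.S25.H11

open Fermat.Agent.S25

noncomputable section

variable {k : Type u} [Field k] {B₀ B₁ B₀₁ : Type u} [CommRing B₀] [CommRing B₁] [CommRing B₀₁]
  [Algebra k B₀] [Algebra k B₁] [Algebra k B₀₁] [Algebra B₀ B₀₁] [Algebra B₁ B₀₁]
  [IsScalarTower k B₀ B₀₁] [IsScalarTower k B₁ B₀₁]

section Sections

variable {A : Type u} [CommRing A] [Algebra k A]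

variable (k B₀₁) in
/-- The element `1 ⊗ x` of `A ⊗[k] B₀₁` (`x : B₀`). -/
def xElt (A : Type u) [CommRing A] [Algebra k A] (x : B₀) : A ⊗[k] B₀₁ :=
  (1 : A) ⊗ₜ[k] algebraMap B₀ B₀₁ x

variable (k) in
/-- The element `1 ⊗ y` of `A ⊗[k] B₁` (`y : B₁`). -/
def yElt (A : Type u) [CommRing A] [Algebra k A] (y : B₁) : A ⊗[k] B₁ :=
  (1 : A) ⊗ₜ[k] y

/-- The Čech differential of the twist `G(n E₀)`: `(a, b) ↦ r₀ a - (1 ⊗ x) ^ n • r₁ b`. -/
def tcech (x : B₀) (n : ℕ) (G : CurveGD k B₀ B₁ B₀₁ A) : (G.N₀ × G.N₁) →ₗ[A] G.N₀₁ :=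
  (G.r₀.restrictScalars A).coprod
    (-((Algebra.lsmul A A G.N₀₁ (xElt k B₀₁ A x ^ n)).comp (G.r₁.restrictScalars A)))

@[simp] theorem tcech_apply (x : B₀) (n : ℕ) (G : CurveGD k B₀ B₁ B₀₁ A) (p : G.N₀ × G.N₁) :
    tcech x n G p = G.r₀ p.1 - xElt k B₀₁ A x ^ n • G.r₁ p.2 := by
  simp only [tcech, LinearMap.coprod_apply, LinearMap.neg_apply, LinearMap.comp_apply,
    LinearMap.restrictScalars_apply, Algebra.lsmul_coe, sub_eq_add_neg]

/-- `H⁰(G(n E₀))`: pairs `(a, b)` with `r₀ a = (1 ⊗ x) ^ n • r₁ b`. -/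
abbrev sec (x : B₀) (n : ℕ) (G : CurveGD k B₀ B₁ B₀₁ A) : Submodule A (G.N₀ × G.N₁) :=
  LinearMap.ker (tcech x n G)

theorem mem_sec {x : B₀} {n : ℕ} {G : CurveGD k B₀ B₁ B₀₁ A} {p : G.N₀ × G.N₁} :
    p ∈ sec x n G ↔ G.r₀ p.1 = xElt k B₀₁ A x ^ n • G.r₁ p.2 := by
  rw [LinearMap.mem_ker, tcech_apply, sub_eq_zero]

/-- The `A`-point of `Spec B₀` given by a `k`-point `p`. -/
def ptHom (p : B₀ →ₐ[k] k) (A : Type u) [CommRing A] [Algebra k A] : A ⊗[k] B₀ →ₐ[A] A :=
  Algebra.TensorProduct.lift (AlgHom.id A A) ((Algebra.ofId k A).comp p)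
    (fun _ _ => Commute.all _ _)

@[simp] theorem ptHom_tmul (p : B₀ →ₐ[k] k) (a : A) (b : B₀) :
    ptHom p A (a ⊗ₜ[k] b) = a * algebraMap k A (p b) := by
  simp [ptHom, Algebra.ofId_apply]

/-- The ideal of the divisor `Σ q i` on `Spec (A ⊗[k] B₀)`. -/
def ptIdeal {m : ℕ} (q : Fin m → (B₀ →ₐ[k] k)) (A : Type u) [CommRing A] [Algebra k A] :
    Ideal (A ⊗[k] B₀) :=
  ∏ i, RingHom.ker (ptHom (q i) A)

/-- The submodule `I_q • N₀` of sections over `Spec (A ⊗ B₀)` vanishing on `Σ q i`. -/
def vanq {m : ℕ} (q : Fin m → (B₀ →ₐ[k] k)) (G : CurveGD k B₀ B₁ B₀₁ A) :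
    Submodule (A ⊗[k] B₀) G.N₀ :=
  ptIdeal q A • ⊤

/-- The sections of `G(n E₀)` vanishing on `Σ q i`, i.e. `H⁰(G(n E₀ - Σ q))`. -/
def secq (x : B₀) (n : ℕ) {m : ℕ} (q : Fin m → (B₀ →ₐ[k] k)) (G : CurveGD k B₀ B₁ B₀₁ A) :
    Submodule A (G.N₀ × G.N₁) :=
  sec x n G ⊓ ((vanq q G).restrictScalars A).comap (LinearMap.fst A G.N₀ G.N₁)

theorem mem_secq {x : B₀} {n : ℕ} {m : ℕ} {q : Fin m → (B₀ →ₐ[k] k)}
    {G : CurveGD k B₀ B₁ B₀₁ A} {p : G.N₀ × G.N₁} :
    p ∈ secq x n q G ↔ p ∈ sec x n G ∧ p.1 ∈ vanq q G := Iff.rfl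

/-- `b` generates `N₁` modulo `y`: the section `b` of `N₁` does not vanish at any point of
`E₀ = {y = 0}`. -/
def GenModY (y : B₁) (G : CurveGD k B₀ B₁ B₀₁ A) (b : G.N₁) : Prop :=
  ∀ c : G.N₁, ∃ r : A ⊗[k] B₁,
    c - r • b ∈ (Ideal.span {yElt k A y} • ⊤ : Submodule (A ⊗[k] B₁) G.N₁)

/-- `s` is a free generator of `H⁰(G(n E₀ - Σ q))` which does not vanish on `E₀`. -/
structure IsGen (x : B₀) (y : B₁) (n : ℕ) {m : ℕ} (q : Fin m → (B₀ →ₐ[k] k))
    (G : CurveGD k B₀ B₁ B₀₁ A) (s : G.N₀ × G.N₁) : Prop where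
  mem : s ∈ secq x n q G
  span : ∀ t ∈ secq x n q G, ∃ a : A, t = a • s
  gen : GenModY y G s.2

/-- Stage 0: `H¹(G(n E₀)) = 0`. -/
def P0 (x : B₀) (n : ℕ) (G : CurveGD k B₀ B₁ B₀₁ A) : Prop :=
  Function.Surjective (tcech x n G)

/-- Stage 1: moreover `H⁰(G(n E₀)) → N₀ / I_q N₀` is onto, i.e. `H¹(G(n E₀ - Σ q)) = 0`. -/
def P1 (x : B₀) (n : ℕ) {m : ℕ} (q : Fin m → (B₀ →ₐ[k] k)) (G : CurveGD k B₀ B₁ B₀₁ A) :
    Prop :=
  P0 x n G ∧ ∀ a : G.N₀, ∃ s ∈ sec x n G, a - s.1 ∈ vanq q G

/-- Stage 2: moreover `H⁰(G(n E₀ - Σ q))` is free of rank one on a section not vanishing on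
`E₀`. -/
def P2 (x : B₀) (y : B₁) (n : ℕ) {m : ℕ} (q : Fin m → (B₀ →ₐ[k] k))
    (G : CurveGD k B₀ B₁ B₀₁ A) : Prop :=
  P1 x n q G ∧ ∃ s, IsGen x y n q G s

/-- Stage 3: moreover the divisor `D' = div s - Σ q` lies in the Hilbert chart of `β`. -/
def P3 (x : B₀) (y : B₁) (n : ℕ) {m : ℕ} (q : Fin m → (B₀ →ₐ[k] k)) {g : ℕ} (β : Fin g → B₀)
    (G : CurveGD k B₀ B₁ B₀₁ A) : Prop :=
  P1 x n q G ∧ ∃ s, IsGen x y n q G s ∧ ∃ I' : Ideal (A ⊗[k] B₀), H491.IsChart β I' ∧
    Submodule.span (A ⊗[k] B₀) {s.1} = (I' * ptIdeal q A) • (⊤ : Submodule (A ⊗[k] B₀) G.N₀)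

end Sections

/-! ## Chart indices -/

variable (k B₀) in
/-- The index of a chart of the algebraic Picard functor: the twist `n`, the `m` points `q`,
the Hilbert chart `β` of `Hilb^g (Spec B₀)` and an element `f` of its coordinate ring. -/
structure ChartIndex where
  n : ℕ
  m : ℕ
  g : ℕ
  q : Fin m → (B₀ →ₐ[k] k)
  β : Fin g → B₀
  f : H491.Rβ k β

/-- The coordinate ring `(Rβ)_f` of the chart `i`. -/
abbrev chartRing (i : ChartIndex k B₀) : Type u := Localization.Away i.f

/-- The canonical map `Rβ → (Rβ)_f`. -/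
def chartCan (i : ChartIndex k B₀) : H491.Rβ k i.β →ₐ[k] chartRing i :=
  IsScalarTower.toAlgHom k (H491.Rβ k i.β) (chartRing i)

section PointCond

variable {A : Type u} [CommRing A] [Algebra k A]

/-- `G` over `A` is the point of the chart `i` with Hilbert coordinates `φ₀ : Rβ → A`. -/
structure PointCond (x : B₀) (y : B₁) (i : ChartIndex k B₀) (G : CurveGD k B₀ B₁ B₀₁ A)
    (φ₀ : H491.Rβ k i.β →ₐ[k] A) : Prop where
  p1 : P1 x i.n i.q G
  sect : ∃ s, IsGen x y i.n i.q G s ∧
    Submodule.span (A ⊗[k] B₀) {s.1} =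
      ((H491.univIdeal (k := k) i.β).map (H491.bc B₀ φ₀) * ptIdeal i.q A) •
        (⊤ : Submodule (A ⊗[k] B₀) G.N₀)
  unit : IsUnit (φ₀ i.f)

/-- Stage 4 = membership in the chart `i`. -/
def P4 (x : B₀) (y : B₁) (i : ChartIndex k B₀) (G : CurveGD k B₀ B₁ B₀₁ A) : Prop :=
  ∃ φ₀ : H491.Rβ k i.β →ₐ[k] A, PointCond x y i G φ₀

end PointCond

/-- A chart index is *good* if the universal point exists over its coordinate ring. -/
def ChartIndex.Good (x : B₀) (y : B₁) (e : B₁ →ₐ[k] k) (i : ChartIndex k B₀) : Prop :=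
  ∃ D : CurveGD k B₀ B₁ B₀₁ (chartRing i),
    D.Rigidifiable e ∧ D.Deg0 ∧ PointCond x y i D (chartCan i)

variable (B₀₁) in
/-- The numerical constraint on a chart index: `m + g = n · d` with `d = dim_k B₁ / (y)`, and
`g = dim_k H¹(O)` is the genus. -/
def ChartIndex.Numeric (y : B₁) (i : ChartIndex k B₀) : Prop :=
  i.m + i.g = i.n * Module.finrank k (B₁ ⧸ Ideal.span {y}) ∧
    i.g = Module.finrank k (GlueDatum.unit k (k ⊗[k] B₀) (k ⊗[k] B₁) (k ⊗[k] B₀₁)).H1

end

end Fermat.Agent.S25.H11

end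
-- ===== PACK-END S25/H11/ACDefs.lean

-- ===== PACK-BEGIN S25/H565/Section.lean
section





/-!
# S25 / DEGREE D5 (helper565): sections of gluing data over a field

Cospan `R₀ → R₀₁ ← R₁` of `K`-algebras, `K` a field, `R₀`, `R₁` domains finite over `K[x]`,
`K[y]`, `R₀₁ = R₀[1/x] = R₁[1/y]` nontrivial (the situation of a curve chart base-changed to
`K`).  For a gluing datum `G` and a nonzero global section `s ∈ H⁰(G)`:

* `sectionHom G s : GlueHom unit G` is injective with finite-dimensional cokernels;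
* `finCoh_of_section`, `degree_nonneg_of_section`: cohomology of `G` is finite-dimensional and
  `degree G = dim Q₀ + dim Q₁ - dim Q₀₁ ≥ 0`;
* `isIso_unit_of_degree_eq_zero`: if `degree G = 0` then `s` generates `N₀`, `N₁` and
  `G ≅ unit`.
-/

set_option autoImplicit false

namespace Fermat.Agent.S25.H565

open Fermat.Agent.S25 Polynomial

universe u

section SectionHom

variable {A R₀ R₁ R₀₁ : Type u} [CommRing A] [CommRing R₀] [CommRing R₁]
    [CommRing R₀₁] [Algebra A R₀] [Algebra A R₁] [Algebra A R₀₁] [Algebra R₀ R₀₁]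
    [Algebra R₁ R₀₁] [IsScalarTower A R₀ R₀₁] [IsScalarTower A R₁ R₀₁]

theorem mem_H0_iff (G : GlueDatum A R₀ R₁ R₀₁) (p : G.N₀ × G.N₁) :
    p ∈ G.H0 ↔ G.r₀ p.1 = G.r₁ p.2 := by
  rw [LinearMap.mem_ker, GlueHom.cech_apply, sub_eq_zero]

theorem sectionHom_aux₀ (G : GlueDatum A R₀ R₁ R₀₁) (s₀ : G.N₀) (b : R₀) :
    (LinearMap.toSpanSingleton R₀₁ G.N₀₁ (G.r₀ s₀)) (algebraMap R₀ R₀₁ b) =
      G.r₀ (LinearMap.toSpanSingleton R₀ G.N₀ s₀ b) := by
  simp only [LinearMap.toSpanSingleton_apply]
  rw [map_smul, algebraMap_smul]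

theorem sectionHom_aux₁ (G : GlueDatum A R₀ R₁ R₀₁) (s₀ : G.N₀) (s₁ : G.N₁)
    (h : G.r₀ s₀ = G.r₁ s₁) (b : R₁) :
    (LinearMap.toSpanSingleton R₀₁ G.N₀₁ (G.r₀ s₀)) (algebraMap R₁ R₀₁ b) =
      G.r₁ (LinearMap.toSpanSingleton R₁ G.N₁ s₁ b) := by
  simp only [LinearMap.toSpanSingleton_apply]
  rw [map_smul, algebraMap_smul, h]

/-- The morphism `unit → G` defined by a compatible pair of sections. -/
def sectionHom (G : GlueDatum A R₀ R₁ R₀₁) (s₀ : G.N₀) (s₁ : G.N₁)
    (h : G.r₀ s₀ = G.r₁ s₁) : GlueHom (GlueDatum.unit A R₀ R₁ R₀₁) G where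
  f₀ := LinearMap.toSpanSingleton R₀ G.N₀ s₀
  f₁ := LinearMap.toSpanSingleton R₁ G.N₁ s₁
  f₀₁ := LinearMap.toSpanSingleton R₀₁ G.N₀₁ (G.r₀ s₀)
  comm₀ := fun b => sectionHom_aux₀ G s₀ b
  comm₁ := fun b => sectionHom_aux₁ G s₀ s₁ h b

/-- A bijective morphism of gluing data is an isomorphism. -/
theorem GlueHom.isIso_of_bijective {G G' : GlueDatum A R₀ R₁ R₀₁} (φ : GlueHom G G')
    (h₀ : Function.Bijective φ.f₀) (h₁ : Function.Bijective φ.f₁)
    (h₀₁ : Function.Bijective φ.f₀₁) : G.IsIso G' :=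
  ⟨{ e₀ := LinearEquiv.ofBijective φ.f₀ h₀
     e₁ := LinearEquiv.ofBijective φ.f₁ h₁
     e₀₁ := LinearEquiv.ofBijective φ.f₀₁ h₀₁
     comm₀ := φ.comm₀
     comm₁ := φ.comm₁ }⟩

end SectionHom

section Field

variable {K R₀ R₁ R₀₁ : Type u} [Field K] [CommRing R₀] [CommRing R₁]
    [CommRing R₀₁] [Algebra K R₀] [Algebra K R₁] [Algebra K R₀₁] [Algebra R₀ R₀₁]
    [Algebra R₁ R₀₁] [IsScalarTower K R₀ R₀₁] [IsScalarTower K R₁ R₀₁]

/-- The localization map of a torsion-free module at a nonzero element of a domain is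
injective. -/
theorem injective_of_isBaseChange_away {R R' : Type u} [CommRing R] [CommRing R']
    [Algebra R R'] [IsDomain R] [Nontrivial R'] (x : R) [IsLocalization.Away x R']
    {N L : Type u} [AddCommGroup N] [AddCommGroup L] [Module R N] [Module R' L] [Module R L]
    [IsScalarTower R R' L] [Module.IsTorsionFree R N] (r : N →ₗ[R] L)
    (hr : IsBaseChange R' r) : Function.Injective r := by
  have hloc : IsLocalizedModule (Submonoid.powers x) r :=
    (isLocalizedModule_iff_isBaseChange (Submonoid.powers x) R' r).2 hr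
  have hx : x ≠ 0 := by
    intro h0
    have hu : IsUnit (algebraMap R R' x) := IsLocalization.Away.algebraMap_isUnit x
    rw [h0, map_zero] at hu
    exact not_isUnit_zero hu
  rw [← LinearMap.ker_eq_bot, LinearMap.ker_eq_bot']
  intro n hn
  obtain ⟨c, hc⟩ := (IsLocalizedModule.eq_zero_iff (Submonoid.powers x) r).1 hn
  obtain ⟨k, hk⟩ := c.2
  have hc' : (x ^ k) • n = 0 := by
    have : (c : R) • n = 0 := hc
    rwa [← hk] at this
  rcases smul_eq_zero.mp hc' with h | h
  · exact absurd h (pow_ne_zero k hx)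
  · exact h

variable [IsDomain R₀] [IsDomain R₁] [Nontrivial R₀₁]
  (x : R₀) (y : R₁) [IsLocalization.Away x R₀₁] [IsLocalization.Away y R₀₁]

include x in
theorem r₀_injective (G : GlueDatum K R₀ R₁ R₀₁) : Function.Injective G.r₀ := by
  haveI := G.invertible₀
  exact injective_of_isBaseChange_away x G.r₀ G.isBaseChange₀

include y in
theorem r₁_injective (G : GlueDatum K R₀ R₁ R₀₁) : Function.Injective G.r₁ := by
  haveI := G.invertible₁
  exact injective_of_isBaseChange_away y G.r₁ G.isBaseChange₁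

include x y in
/-- Both components of a nonzero global section are nonzero. -/
theorem section_ne_zero (G : GlueDatum K R₀ R₁ R₀₁) {s₀ : G.N₀} {s₁ : G.N₁}
    (h : G.r₀ s₀ = G.r₁ s₁) (hs : s₀ ≠ 0 ∨ s₁ ≠ 0) : s₀ ≠ 0 ∧ s₁ ≠ 0 := by
  constructor
  · intro h0
    rw [h0, map_zero] at h
    have h1 : s₁ = 0 := r₁_injective y G (by rw [← h, map_zero])
    rcases hs with hs | hs
    · exact hs h0
    · exact hs h1
  · intro h1
    rw [h1, map_zero] at h
    have h0 : s₀ = 0 := r₀_injective x G (by rw [h, map_zero])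
    rcases hs with hs | hs
    · exact hs h0
    · exact hs h1

theorem sectionHom_f₀_injective (G : GlueDatum K R₀ R₁ R₀₁) {s₀ : G.N₀} {s₁ : G.N₁}
    (h : G.r₀ s₀ = G.r₁ s₁) (hs₀ : s₀ ≠ 0) : Function.Injective (sectionHom G s₀ s₁ h).f₀ := by
  haveI := G.invertible₀
  intro a b hab
  exact smul_left_injective R₀ hs₀ hab

theorem sectionHom_f₁_injective (G : GlueDatum K R₀ R₁ R₀₁) {s₀ : G.N₀} {s₁ : G.N₁}
    (h : G.r₀ s₀ = G.r₁ s₁) (hs₁ : s₁ ≠ 0) : Function.Injective (sectionHom G s₀ s₁ h).f₁ := by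
  haveI := G.invertible₁
  intro a b hab
  exact smul_left_injective R₁ hs₁ hab

variable (hx : (Polynomial.aeval x : K[X] →ₐ[K] R₀).Finite)
  (hy : (Polynomial.aeval y : K[X] →ₐ[K] R₁).Finite)

include hx in
theorem sectionHom_coker₀_finite (G : GlueDatum K R₀ R₁ R₀₁) {s₀ : G.N₀} {s₁ : G.N₁}
    (h : G.r₀ s₀ = G.r₁ s₁) (hs₀ : s₀ ≠ 0) :
    FiniteDimensional K (sectionHom G s₀ s₁ h).coker₀ := by
  haveI := G.invertible₀
  exact finiteDimensional_quotient_span_singleton x hx s₀ hs₀

include hy in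
theorem sectionHom_coker₁_finite (G : GlueDatum K R₀ R₁ R₀₁) {s₀ : G.N₀} {s₁ : G.N₁}
    (h : G.r₀ s₀ = G.r₁ s₁) (hs₁ : s₁ ≠ 0) :
    FiniteDimensional K (sectionHom G s₀ s₁ h).coker₁ := by
  haveI := G.invertible₁
  exact finiteDimensional_quotient_span_singleton y hy s₁ hs₁

include x y hx hy in
/-- **D5.** A gluing datum with a nonzero global section has finite-dimensional cohomology
(given this for the unit datum) and degree
`dim N₀/R₀s₀ + dim N₁/R₁s₁ - dim N₀₁/R₀₁s ≥ max (dim N₀/R₀s₀, dim N₁/R₁s₁) ≥ 0`. -/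
theorem degree_of_section (hO : FinCoh (GlueDatum.unit K R₀ R₁ R₀₁).cech)
    (G : GlueDatum K R₀ R₁ R₀₁) {s₀ : G.N₀} {s₁ : G.N₁}
    (h : G.r₀ s₀ = G.r₁ s₁) (hs : s₀ ≠ 0 ∨ s₁ ≠ 0) :
    FinCoh G.cech ∧
      G.degree = Module.finrank K (sectionHom G s₀ s₁ h).coker₀
        + Module.finrank K (sectionHom G s₀ s₁ h).coker₁
        - Module.finrank K (sectionHom G s₀ s₁ h).coker₀₁ ∧
      (Module.finrank K (sectionHom G s₀ s₁ h).coker₀ : ℤ) ≤ G.degree ∧
      (Module.finrank K (sectionHom G s₀ s₁ h).coker₁ : ℤ) ≤ G.degree := by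
  obtain ⟨hs₀, hs₁⟩ := section_ne_zero x y G h hs
  haveI := sectionHom_coker₀_finite x hx G h hs₀
  haveI := sectionHom_coker₁_finite y hy G h hs₁
  have hi₀ := sectionHom_f₀_injective G h hs₀
  have hi₁ := sectionHom_f₁_injective G h hs₁
  obtain ⟨hfc, heu⟩ := (sectionHom G s₀ s₁ h).euler_eq x hi₀ hi₁ hO
  obtain ⟨hge₀, hge₁⟩ := (sectionHom G s₀ s₁ h).euler_ge x y hi₀ hi₁ hO
  refine ⟨hfc, ?_, ?_, ?_⟩
  · rw [GlueDatum.degree, heu]; ring
  · rw [GlueDatum.degree]; omega
  · rw [GlueDatum.degree]; omega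

include x y hx hy in
/-- **D5.** A gluing datum with a nonzero global section has degree `≥ 0`. -/
theorem degree_nonneg_of_section (hO : FinCoh (GlueDatum.unit K R₀ R₁ R₀₁).cech)
    (G : GlueDatum K R₀ R₁ R₀₁) {s₀ : G.N₀} {s₁ : G.N₁}
    (h : G.r₀ s₀ = G.r₁ s₁) (hs : s₀ ≠ 0 ∨ s₁ ≠ 0) : 0 ≤ G.degree := by
  have := (degree_of_section x y hx hy hO G h hs).2.2.1
  have h0 : (0 : ℤ) ≤ Module.finrank K (sectionHom G s₀ s₁ h).coker₀ := Int.natCast_nonneg _
  omega

include x y hx hy in
/-- **D5 (degree zero).** A nonzero global section of a gluing datum of degree `0` generates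
`N₀`, `N₁` and `N₀₁`; in particular the datum is isomorphic to the unit datum. -/
theorem sectionHom_bijective_of_degree_eq_zero (hO : FinCoh (GlueDatum.unit K R₀ R₁ R₀₁).cech)
    (G : GlueDatum K R₀ R₁ R₀₁) {s₀ : G.N₀} {s₁ : G.N₁}
    (h : G.r₀ s₀ = G.r₁ s₁) (hs : s₀ ≠ 0 ∨ s₁ ≠ 0) (hdeg : G.degree = 0) :
    Function.Bijective (sectionHom G s₀ s₁ h).f₀ ∧
      Function.Bijective (sectionHom G s₀ s₁ h).f₁ ∧
      Function.Bijective (sectionHom G s₀ s₁ h).f₀₁ := by
  obtain ⟨hs₀, hs₁⟩ := section_ne_zero x y G h hs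
  haveI := sectionHom_coker₀_finite x hx G h hs₀
  haveI := sectionHom_coker₁_finite y hy G h hs₁
  have hi₀ := sectionHom_f₀_injective G h hs₀
  have hi₁ := sectionHom_f₁_injective G h hs₁
  have heq : G.euler = (GlueDatum.unit K R₀ R₁ R₀₁).euler := by
    have := hdeg
    rw [GlueDatum.degree] at this
    omega
  obtain ⟨hsurj₀, hsurj₁⟩ :=
    (sectionHom G s₀ s₁ h).surjective_of_euler_eq x y hi₀ hi₁ hO heq
  refine ⟨⟨hi₀, hsurj₀⟩, ⟨hi₁, hsurj₁⟩, (sectionHom G s₀ s₁ h).f₀₁_injective x hi₀, ?_⟩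
  -- surjectivity on the overlap
  intro z
  have hz : z ∈ LinearMap.range (sectionHom G s₀ s₁ h).fMid ⊔
      LinearMap.range (G.r₀.restrictScalars K) := by
    rw [(sectionHom G s₀ s₁ h).sup_range_r₀ x]; trivial
  obtain ⟨_, ⟨w, rfl⟩, _, ⟨n, rfl⟩, rfl⟩ := Submodule.mem_sup.mp hz
  obtain ⟨b, rfl⟩ := hsurj₀ n
  refine ⟨w + (GlueDatum.unit K R₀ R₁ R₀₁).r₀ b, ?_⟩
  rw [map_add, (sectionHom G s₀ s₁ h).comm₀]
  rfl

include x y hx hy in
/-- **D5 (degree zero).** A gluing datum of degree `0` with a nonzero global section is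
isomorphic to the unit datum. -/
theorem isIso_unit_of_degree_eq_zero (hO : FinCoh (GlueDatum.unit K R₀ R₁ R₀₁).cech)
    (G : GlueDatum K R₀ R₁ R₀₁) {s₀ : G.N₀} {s₁ : G.N₁}
    (h : G.r₀ s₀ = G.r₁ s₁) (hs : s₀ ≠ 0 ∨ s₁ ≠ 0) (hdeg : G.degree = 0) :
    (GlueDatum.unit K R₀ R₁ R₀₁).IsIso G := by
  obtain ⟨h₀, h₁, h₀₁⟩ := sectionHom_bijective_of_degree_eq_zero x y hx hy hO G h hs hdeg
  exact (sectionHom G s₀ s₁ h).isIso_of_bijective h₀ h₁ h₀₁

end Field

end Fermat.Agent.S25.H565

end
-- ===== PACK-END S25/H565/Section.lean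

-- ===== PACK-BEGIN S25/H910/FiniteModel.lean
section
/-
S25, block CECH, leaves K1 (assembly) and K6 (finite model), helper910.
Imports the hand-ins K0 (helper130), K1a (helper910), K1b (helper490), K2 (helper550),
K3 (helper730), K5 (helper670).
-/







set_option autoImplicit false

namespace Fermat.Agent.S25.H910

open Polynomial TensorProduct Fermat.Agent.S25.H10

universe u v w

variable {A : Type u} [CommRing A] {N0 N1 N01 : Type v}
  [AddCommGroup N0] [AddCommGroup N1] [AddCommGroup N01]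
  [Module A N0] [Module A N1] [Module A N01]

/-- K1c. A retract contained in a finitely generated submodule is finitely generated. -/
theorem fg_of_le_fg_of_retract {M : Type v} [AddCommGroup M] [Module A M]
    (H M' : Submodule A M) (hM' : M'.FG) (hle : H ≤ M')
    (p : M →ₗ[A] H) (hp : ∀ h : H, p h = h) : H.FG := by
  have hH : H = M'.map (H.subtype ∘ₗ p) := by
    apply le_antisymm
    · intro h hh
      refine ⟨h, hle hh, ?_⟩
      have := hp ⟨h, hh⟩
      simp only [LinearMap.coe_comp, Submodule.coe_subtype, Function.comp_apply]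
      rw [this]
    · rintro _ ⟨x, _, rfl⟩
      exact (p x).2
  rw [hH]
  exact hM'.map _

/-- **K1.** If the twisted differential `d m` is surjective then it has an `A`-linear section,
and `H⁰(L(m∞))` is a finitely generated projective `A`-module. -/
theorem H0_finite_projective_of_surjective (D : CechOps A N0 N1 N01)
    (h0 : IsFGProj D.X0) (h1 : IsFGProj D.Y1)
    (hr0 : Function.Injective D.r0) (hr1 : Function.Injective D.r1) (m : ℕ)
    (hsurj : Function.Surjective (D.d m)) :
    (∃ s : N01 →ₗ[A] N0 × N1, D.d m ∘ₗ s = LinearMap.id) ∧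
      Module.Finite A (D.H0 m) ∧ Module.Projective A (D.H0 m) := by
  have hP01 : Module.Projective A N01 := H490.projective_N01 D h0 hr0
  obtain ⟨s, hs⟩ := Module.projective_lifting_property (D.d m) LinearMap.id hsurj
  refine ⟨⟨s, hs⟩, ?_⟩
  have hs' : ∀ z, D.d m (s z) = z := fun z => LinearMap.congr_fun hs z
  let p : (N0 × N1) →ₗ[A] D.H0 m :=
    LinearMap.codRestrict (D.H0 m) (LinearMap.id - s ∘ₗ D.d m) (by
      intro x
      rw [LinearMap.mem_ker, LinearMap.sub_apply, LinearMap.id_apply, LinearMap.comp_apply,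
        map_sub, hs', sub_self])
  have hp : ∀ h : D.H0 m, p h = h := by
    intro h
    apply Subtype.ext
    have hh : D.d m (h : N0 × N1) = 0 := h.2
    show (h : N0 × N1) - s (D.d m h) = h
    rw [hh, map_zero, sub_zero]
  obtain ⟨M, hM, hle⟩ := exists_fg_ge_H0 D h0 h1 hr0 hr1 m
  have hfg : (D.H0 m).FG := _root_.Fermat.Agent.S25.H910.fg_of_le_fg_of_retract _ M hM hle p hp
  have : Module.Projective A N0 := H130.projective_of_isFGProj h0
  have : Module.Projective A N1 := H130.projective_of_isFGProj h1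
  refine ⟨Module.Finite.iff_fg.mpr hfg, ?_⟩
  exact Module.Projective.of_split (D.H0 m).subtype p (LinearMap.ext fun h => hp h)

/-! ### Kernel and cokernel of `δ` -/

/-- `ker δ_m ≃ H⁰(L)` (via `incl`). -/
theorem nonempty_ker_δ_equiv (D : CechOps A N0 N1 N01) (hY : Function.Injective D.Y1) (m : ℕ) :
    Nonempty (LinearMap.ker (D.δ m) ≃ₗ[A] D.H0 0) :=
  ⟨((LinearEquiv.ofInjective (D.incl m) (H730.incl_injective D hY m)).trans
      (LinearEquiv.ofEq _ _ (H730.range_incl_eq_ker_δ D m))).symm⟩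

/-- `coker δ_m ≃ H¹(L)` (via `conn`) when `H¹(L(m∞)) = 0`. -/
theorem nonempty_coker_δ_equiv (D : CechOps A N0 N1 N01) (m : ℕ)
    (hsurj : Function.Surjective (D.d m)) :
    Nonempty (((N1 ⧸ LinearMap.range (D.Y1 ^ m)) ⧸ LinearMap.range (D.δ m)) ≃ₗ[A] D.H1 0) :=
  ⟨(Submodule.quotEquivOfEq _ _ (H730.range_δ_eq_ker_conn D m)).trans
      (LinearMap.quotKerEquivOfSurjective (D.conn m) (H730.conn_surjective D m hsurj))⟩

section BaseChange

variable (A' : Type w) [CommRing A'] [Algebra A A']

/-- `H⁰` of the base-changed datum is the kernel of the base-changed differential. -/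
theorem nonempty_H0_baseChange_equiv (D : CechOps A N0 N1 N01) (m : ℕ) :
    Nonempty ((D.baseChange A').H0 m ≃ₗ[A'] LinearMap.ker ((D.d m).baseChange A')) := by
  have h := H670.baseChange_d A' D m
  have hk : LinearMap.ker ((D.d m).baseChange A') =
      Submodule.comap (TensorProduct.prodRight A A' A' N0 N1).toLinearMap
        (LinearMap.ker ((D.baseChange A').d m)) := by
    rw [← h, LinearMap.ker_comp]
  exact ⟨((LinearEquiv.ofEq _ _ hk).trans
    (LinearEquiv.ofSubmodule' (TensorProduct.prodRight A A' A' N0 N1) _)).symm⟩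

/-- `H¹` of the base-changed datum is the cokernel of the base-changed differential. -/
theorem nonempty_H1_baseChange_equiv (D : CechOps A N0 N1 N01) (m : ℕ) :
    Nonempty ((D.baseChange A').H1 m ≃ₗ[A']
      ((A' ⊗[A] N01) ⧸ LinearMap.range ((D.d m).baseChange A'))) := by
  have h := H670.baseChange_d A' D m
  have hr : LinearMap.range ((D.baseChange A').d m) =
      LinearMap.range ((D.d m).baseChange A') := by
    rw [← h, LinearMap.range_comp, LinearEquiv.range, Submodule.map_top]
  exact ⟨Submodule.quotEquivOfEq _ _ hr⟩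

theorem d_baseChange_surjective (D : CechOps A N0 N1 N01) (m : ℕ)
    (hsurj : Function.Surjective (D.d m)) :
    Function.Surjective ((D.baseChange A').d m) := by
  have h := H670.baseChange_d A' D m
  have h2 : Function.Surjective ((D.d m).baseChange A') := by
    rw [LinearMap.baseChange_eq_ltensor]
    exact LinearMap.lTensor_surjective A' hsurj
  intro z
  obtain ⟨w, hw⟩ := h2 z
  refine ⟨TensorProduct.prodRight A A' A' N0 N1 w, ?_⟩
  rw [← hw, ← h]
  rfl

/-- The comparison map `A' ⊗ H⁰(L(m∞)) → H⁰(L'(m∞))`. -/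
noncomputable def alphaMap (D : CechOps A N0 N1 N01) (m : ℕ) :
    A' ⊗[A] (D.H0 m) →ₗ[A'] (D.baseChange A').H0 m :=
  LinearMap.codRestrict _
    ((TensorProduct.prodRight A A' A' N0 N1).toLinearMap ∘ₗ (D.H0 m).subtype.baseChange A') (by
      intro z
      rw [LinearMap.mem_ker]
      have h := H670.baseChange_d A' D m
      rw [LinearMap.comp_apply, ← LinearMap.comp_apply ((D.baseChange A').d m), h,
        ← LinearMap.comp_apply, ← LinearMap.baseChange_comp, LinearMap.comp_ker_subtype,
        LinearMap.baseChange_zero]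
      rfl)

theorem alphaMap_coe (D : CechOps A N0 N1 N01) (m : ℕ) (z : A' ⊗[A] (D.H0 m)) :
    ((alphaMap A' D m z : (D.baseChange A').H0 m) : (A' ⊗[A] N0) × (A' ⊗[A] N1)) =
      TensorProduct.prodRight A A' A' N0 N1 ((D.H0 m).subtype.baseChange A' z) := rfl

theorem alphaMap_bijective (D : CechOps A N0 N1 N01) (h0 : IsFGProj D.X0)
    (hr0 : Function.Injective D.r0) (m : ℕ) (hsurj : Function.Surjective (D.d m)) :
    Function.Bijective (alphaMap A' D m) := by
  obtain ⟨hinj, hrange⟩ := H670.H0_baseChange_bijective A' D h0 hr0 m hsurj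
  constructor
  · intro z z' hzz'
    apply hinj
    apply (TensorProduct.prodRight A A' A' N0 N1).injective
    rw [← alphaMap_coe, ← alphaMap_coe, hzz']
  · rintro ⟨w, hw⟩
    have hw' : (TensorProduct.prodRight A A' A' N0 N1).symm w ∈
        LinearMap.ker ((D.d m).baseChange A') := by
      rw [LinearMap.mem_ker, ← H670.baseChange_d A' D m, LinearMap.comp_apply]
      simp only [LinearEquiv.coe_coe, LinearEquiv.apply_symm_apply]
      exact hw
    rw [← hrange] at hw'
    obtain ⟨z, hz⟩ := hw'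
    refine ⟨z, Subtype.ext ?_⟩
    rw [alphaMap_coe, hz, LinearEquiv.apply_symm_apply]

/-- The comparison map `(A' ⊗ N1) / y^m → A' ⊗ (N1 / y^m)`. -/
noncomputable def gammaMap (D : CechOps A N0 N1 N01) (m : ℕ) :
    ((A' ⊗[A] N1) ⧸ LinearMap.range ((D.baseChange A').Y1 ^ m)) →ₗ[A']
      A' ⊗[A] (N1 ⧸ LinearMap.range (D.Y1 ^ m)) :=
  Submodule.liftQ _ ((LinearMap.range (D.Y1 ^ m)).mkQ.baseChange A') (by
    rintro _ ⟨w, rfl⟩
    rw [LinearMap.mem_ker]
    show ((LinearMap.range (D.Y1 ^ m)).mkQ.baseChange A') (((D.Y1.baseChange A') ^ m) w) = 0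
    rw [← LinearMap.baseChange_pow, ← LinearMap.comp_apply, ← LinearMap.baseChange_comp,
      LinearMap.range_mkQ_comp, LinearMap.baseChange_zero]
    rfl)

theorem gammaMap_mk (D : CechOps A N0 N1 N01) (m : ℕ) (w : A' ⊗[A] N1) :
    gammaMap A' D m (Submodule.Quotient.mk w) =
      (LinearMap.range (D.Y1 ^ m)).mkQ.baseChange A' w := rfl

theorem gammaMap_bijective (D : CechOps A N0 N1 N01) (m : ℕ) :
    Function.Bijective (gammaMap A' D m) := by
  have hex : Function.Exact ((D.Y1 ^ m).baseChange A')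
      ((LinearMap.range (D.Y1 ^ m)).mkQ.baseChange A') := by
    have := lTensor_exact A' (LinearMap.exact_map_mkQ_range (D.Y1 ^ m))
      (Submodule.mkQ_surjective _)
    exact this
  constructor
  · rw [← LinearMap.ker_eq_bot, LinearMap.ker_eq_bot']
    intro q hq
    obtain ⟨w, rfl⟩ := Submodule.Quotient.mk_surjective _ q
    rw [gammaMap_mk] at hq
    obtain ⟨w', hw'⟩ := (hex w).mp hq
    rw [Submodule.Quotient.mk_eq_zero]
    refine ⟨w', ?_⟩
    rw [← hw', LinearMap.baseChange_pow]
    rfl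
  · intro z
    have hs : Function.Surjective ((LinearMap.range (D.Y1 ^ m)).mkQ.baseChange A') := by
      rw [LinearMap.baseChange_eq_ltensor]
      exact LinearMap.lTensor_surjective A' (Submodule.mkQ_surjective _)
    obtain ⟨w, hw⟩ := hs z
    exact ⟨Submodule.Quotient.mk w, by rw [gammaMap_mk, hw]⟩

/-- Compatibility of `δ` with base change. -/
theorem gammaMap_δ_alphaMap (D : CechOps A N0 N1 N01) (m : ℕ) :
    gammaMap A' D m ∘ₗ (D.baseChange A').δ m ∘ₗ alphaMap A' D m = (D.δ m).baseChange A' := by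
  apply TensorProduct.AlgebraTensorModule.curry_injective
  ext h
  simp only [TensorProduct.AlgebraTensorModule.curry_apply, LinearMap.restrictScalars_comp,
    TensorProduct.curry_apply, LinearMap.coe_comp, LinearMap.coe_restrictScalars,
    Function.comp_apply, LinearMap.baseChange_tmul]
  rw [CechOps.δ_apply, alphaMap_coe, LinearMap.baseChange_tmul, Submodule.mkQ_apply,
    gammaMap_mk]
  simp only [Submodule.subtype_apply, TensorProduct.prodRight_tmul, LinearMap.baseChange_tmul]
  rfl

end BaseChange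

/-- **K6 (finite model).** -/
theorem exists_finite_model (D : CechOps A N0 N1 N01)
    (h0 : IsFGProj D.X0) (h1 : IsFGProj D.Y1)
    (hr0 : Function.Injective D.r0) (hr1 : Function.Injective D.r1) :
    ∃ m : ℕ, Function.Surjective (D.d m) ∧
      Module.Finite A (D.H0 m) ∧ Module.Projective A (D.H0 m) ∧
      Module.Finite A (N1 ⧸ LinearMap.range (D.Y1 ^ m)) ∧
      Module.Projective A (N1 ⧸ LinearMap.range (D.Y1 ^ m)) ∧
      ∀ (A' : Type (max u v)) [CommRing A'] [Algebra A A'],
        Nonempty (LinearMap.ker ((D.δ m).baseChange A') ≃ₗ[A']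
          LinearMap.ker ((D.d 0).baseChange A')) ∧
        Nonempty (((A' ⊗[A] (N1 ⧸ LinearMap.range (D.Y1 ^ m))) ⧸
            LinearMap.range ((D.δ m).baseChange A')) ≃ₗ[A']
          ((A' ⊗[A] N01) ⧸ LinearMap.range ((D.d 0).baseChange A'))) := by
  obtain ⟨m0, hm0⟩ := H550.exists_forall_d_surjective D (H130.isFG_of_isFGProj h0)
  have hsurj := hm0 m0 le_rfl
  obtain ⟨-, hfin, hproj⟩ := H0_finite_projective_of_surjective D h0 h1 hr0 hr1 m0 hsurj
  obtain ⟨hqf, hqp⟩ := H130.quotient_pow_finite_projective h1 m0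
  refine ⟨m0, hsurj, hfin, hproj, hqf, hqp, ?_⟩
  intro A' _ _
  have h1' : IsFGProj (D.baseChange A').Y1 := H670.isFGProj_baseChange A' h1
  have hY' : Function.Injective (D.baseChange A').Y1 := H130.injective_of_isFGProj h1'
  have hsurj' := d_baseChange_surjective A' D m0 hsurj
  have hα := alphaMap_bijective A' D h0 hr0 m0 hsurj
  have hγ := gammaMap_bijective A' D m0
  have hcomm := gammaMap_δ_alphaMap A' D m0
  let αe := LinearEquiv.ofBijective (alphaMap A' D m0) hα
  let γe := LinearEquiv.ofBijective (gammaMap A' D m0) hγ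
  constructor
  · -- kernels
    have hk : LinearMap.ker ((D.δ m0).baseChange A') =
        Submodule.comap αe.toLinearMap (LinearMap.ker ((D.baseChange A').δ m0)) := by
      rw [← hcomm]
      ext z
      simp only [LinearMap.mem_ker, Submodule.mem_comap, LinearMap.comp_apply]
      constructor
      · intro hz
        exact hγ.1 (hz.trans (map_zero _).symm)
      · intro hz
        have hz' : (D.baseChange A').δ m0 (alphaMap A' D m0 z) = 0 := hz
        rw [hz', map_zero]
    obtain ⟨e1⟩ := nonempty_ker_δ_equiv (D.baseChange A') hY' m0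
    obtain ⟨e2⟩ := nonempty_H0_baseChange_equiv A' D 0
    exact ⟨(((LinearEquiv.ofEq _ _ hk).trans (LinearEquiv.ofSubmodule' αe _)).trans e1).trans e2⟩
  · -- cokernels
    have hr : Submodule.map γe.toLinearMap (LinearMap.range ((D.baseChange A').δ m0)) =
        LinearMap.range ((D.δ m0).baseChange A') := by
      rw [← hcomm, LinearMap.range_comp, LinearMap.range_comp]
      have : LinearMap.range (alphaMap A' D m0) = ⊤ := LinearMap.range_eq_top.mpr hα.2
      rw [this, Submodule.map_top]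
      rfl
    obtain ⟨e1⟩ := nonempty_coker_δ_equiv (D.baseChange A') m0 hsurj'
    obtain ⟨e2⟩ := nonempty_H1_baseChange_equiv A' D 0
    exact ⟨((Submodule.Quotient.equiv _ _ γe hr).symm.trans e1).trans e2⟩

end Fermat.Agent.S25.H910

end
-- ===== PACK-END S25/H910/FiniteModel.lean

-- ===== PACK-BEGIN S25/H86/HomIso.lean
section
/-
S25 / block ABEL, sub-block AB-ALG (helper86): leaves G1 `homDatum_self_isIso` and
G2 `homDatum_isIso_congr` of helper747's skeleton (general gluing-data calculus).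
-/


set_option autoImplicit false
universe u
open scoped TensorProduct

namespace Fermat.Agent.S25.H86

open Fermat.Agent.S25 Fermat.Agent.S25.H747

noncomputable section

/-- Scalar multiplication `R → End_R(M)` is a linear equivalence for invertible `M`. -/
def lsmulEquiv (R : Type*) (M : Type*) [CommRing R] [AddCommGroup M] [Module R M]
    [Module.Invertible R M] : R ≃ₗ[R] (M →ₗ[R] M) :=
  LinearEquiv.ofBijective (LinearMap.lsmul R M) (by
    have h := Module.Invertible.toModuleEnd_bijective R M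
    have e : ⇑(LinearMap.lsmul R M) = ⇑(Module.toModuleEnd R (S := R) M) := by
      funext r
      ext m
      simp
    rw [e]
    exact h)

@[simp] theorem lsmulEquiv_apply (R : Type*) (M : Type*) [CommRing R] [AddCommGroup M]
    [Module R M] [Module.Invertible R M] (r : R) (m : M) :
    _root_.Fermat.Agent.S25.H86.lsmulEquiv R M r m = r • m := rfl

variable {A R₀ R₁ R₀₁ : Type u} [CommRing A] [CommRing R₀] [CommRing R₁]
    [CommRing R₀₁] [Algebra A R₀] [Algebra A R₁] [Algebra A R₀₁] [Algebra R₀ R₀₁]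
    [Algebra R₁ R₀₁] [IsScalarTower A R₀ R₀₁] [IsScalarTower A R₁ R₀₁]

/-- The module on the overlap of a gluing datum is invertible. -/
theorem invertible₀₁ (G : GlueDatum A R₀ R₁ R₀₁) : Module.Invertible R₀₁ G.N₀₁ :=
  haveI := G.invertible₀
  Module.Invertible.congr G.isBaseChange₀.equiv

/-- Two `S`-linear maps out of a base change agree if they agree on the image. -/
theorem linearMap_ext_of_isBaseChange {R S M P Q : Type*} [CommRing R] [CommRing S]
    [Algebra R S] [AddCommGroup M] [Module R M] [AddCommGroup P] [Module R P] [Module S P]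
    [IsScalarTower R S P] [AddCommGroup Q] [Module S Q]
    {α : M →ₗ[R] P} (j : IsBaseChange S α) {f g : P →ₗ[S] Q}
    (h : ∀ m, f (α m) = g (α m)) : f = g := by
  ext p
  induction p using j.inductionOn with
  | zero => simp
  | tmul m => exact h m
  | smul s p hp => simp [hp]
  | add p q hp hq => simp [hp, hq]

/-- **G1.** `ℋom(G, G) ≅ O`. -/
theorem homDatum_self_isIso (G : GlueDatum A R₀ R₁ R₀₁) :
    (homDatum G G).IsIso (GlueDatum.unit A R₀ R₁ R₀₁) := by
  have := G.invertible₀
  have := G.invertible₁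
  have := invertible₀₁ G
  have key₀ : ∀ a : R₀, (homDatum G G).r₀ (_root_.Fermat.Agent.S25.H86.lsmulEquiv R₀ G.N₀ a) =
      _root_.Fermat.Agent.S25.H86.lsmulEquiv R₀₁ G.N₀₁ (algebraMap R₀ R₀₁ a) := by
    intro a
    apply linearMap_ext_of_isBaseChange G.isBaseChange₀
    intro m
    change IsBaseChange.linearMapLeftRightHom G.isBaseChange₀ G.r₀ _ (G.r₀ m) = _
    rw [IsBaseChange.linearMapLeftRightHom_comp_apply]
    simp
  have key₁ : ∀ a : R₁, (homDatum G G).r₁ (_root_.Fermat.Agent.S25.H86.lsmulEquiv R₁ G.N₁ a) =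
      _root_.Fermat.Agent.S25.H86.lsmulEquiv R₀₁ G.N₀₁ (algebraMap R₁ R₀₁ a) := by
    intro a
    apply linearMap_ext_of_isBaseChange G.isBaseChange₁
    intro m
    change IsBaseChange.linearMapLeftRightHom G.isBaseChange₁ G.r₁ _ (G.r₁ m) = _
    rw [IsBaseChange.linearMapLeftRightHom_comp_apply]
    simp
  refine ⟨{
    e₀ := (_root_.Fermat.Agent.S25.H86.lsmulEquiv R₀ G.N₀).symm
    e₁ := (_root_.Fermat.Agent.S25.H86.lsmulEquiv R₁ G.N₁).symm
    e₀₁ := (_root_.Fermat.Agent.S25.H86.lsmulEquiv R₀₁ G.N₀₁).symm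
    comm₀ := ?_
    comm₁ := ?_ }⟩
  · intro s
    obtain ⟨a, rfl⟩ := (_root_.Fermat.Agent.S25.H86.lsmulEquiv R₀ G.N₀).surjective s
    rw [key₀]
    exact ((_root_.Fermat.Agent.S25.H86.lsmulEquiv R₀₁ G.N₀₁).symm_apply_apply _).trans
      (congrArg (algebraMap R₀ R₀₁) ((_root_.Fermat.Agent.S25.H86.lsmulEquiv R₀ G.N₀).symm_apply_apply a).symm)
  · intro s
    obtain ⟨a, rfl⟩ := (_root_.Fermat.Agent.S25.H86.lsmulEquiv R₁ G.N₁).surjective s
    rw [key₁]
    exact ((_root_.Fermat.Agent.S25.H86.lsmulEquiv R₀₁ G.N₀₁).symm_apply_apply _).trans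
      (congrArg (algebraMap R₁ R₀₁) ((_root_.Fermat.Agent.S25.H86.lsmulEquiv R₁ G.N₁).symm_apply_apply a).symm)

/-- **G2.** `ℋom` respects isomorphisms. -/
theorem homDatum_isIso_congr {G G₁ G' G₁' : GlueDatum A R₀ R₁ R₀₁} (h : G.IsIso G₁)
    (h' : G'.IsIso G₁') : (homDatum G G').IsIso (homDatum G₁ G₁') := by
  obtain ⟨i⟩ := h
  obtain ⟨i'⟩ := h'
  have s₀ : ∀ m, i.e₀₁.symm (G₁.r₀ m) = G.r₀ (i.e₀.symm m) := by
    intro m
    rw [LinearEquiv.symm_apply_eq, i.comm₀, LinearEquiv.apply_symm_apply]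
  have s₁ : ∀ m, i.e₀₁.symm (G₁.r₁ m) = G.r₁ (i.e₁.symm m) := by
    intro m
    rw [LinearEquiv.symm_apply_eq, i.comm₁, LinearEquiv.apply_symm_apply]
  refine ⟨{
    e₀ := LinearEquiv.arrowCongr i.e₀ i'.e₀
    e₁ := LinearEquiv.arrowCongr i.e₁ i'.e₁
    e₀₁ := LinearEquiv.arrowCongr i.e₀₁ i'.e₀₁
    comm₀ := ?_
    comm₁ := ?_ }⟩
  · intro (s : G.N₀ →ₗ[R₀] G'.N₀)
    apply linearMap_ext_of_isBaseChange G₁.isBaseChange₀
    intro m
    have e1 := IsBaseChange.linearMapLeftRightHom_comp_apply G.isBaseChange₀ G'.r₀ s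
      (i.e₀.symm m)
    have e2 := IsBaseChange.linearMapLeftRightHom_comp_apply G₁.isBaseChange₀ G₁'.r₀
      (LinearEquiv.arrowCongr i.e₀ i'.e₀ s) m
    change i'.e₀₁ (IsBaseChange.linearMapLeftRightHom G.isBaseChange₀ G'.r₀ s
        (i.e₀₁.symm (G₁.r₀ m))) =
      IsBaseChange.linearMapLeftRightHom G₁.isBaseChange₀ G₁'.r₀
        (LinearEquiv.arrowCongr i.e₀ i'.e₀ s) (G₁.r₀ m)
    rw [s₀, e1, e2, i'.comm₀]
    rfl
  · intro (s : G.N₁ →ₗ[R₁] G'.N₁)
    apply linearMap_ext_of_isBaseChange G₁.isBaseChange₁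
    intro m
    have e1 := IsBaseChange.linearMapLeftRightHom_comp_apply G.isBaseChange₁ G'.r₁ s
      (i.e₁.symm m)
    have e2 := IsBaseChange.linearMapLeftRightHom_comp_apply G₁.isBaseChange₁ G₁'.r₁
      (LinearEquiv.arrowCongr i.e₁ i'.e₁ s) m
    change i'.e₀₁ (IsBaseChange.linearMapLeftRightHom G.isBaseChange₁ G'.r₁ s
        (i.e₀₁.symm (G₁.r₁ m))) =
      IsBaseChange.linearMapLeftRightHom G₁.isBaseChange₁ G₁'.r₁
        (LinearEquiv.arrowCongr i.e₁ i'.e₁ s) (G₁.r₁ m)
    rw [s₁, e1, e2, i'.comm₁]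
    rfl

end

end Fermat.Agent.S25.H86

end
-- ===== PACK-END S25/H86/HomIso.lean

-- ===== PACK-BEGIN S25/H851/IdealBC.lean
section




/-!
# S25 / ALGCHARTS C1 (helper851): base change of ideal gluing data

* `isSemilinearBaseChange_of_span` : a semilinear map between invertible modules whose image
  spans the target is a (semilinear) base change.
* `idealSL` : the restriction of a ring homomorphism to ideals, as a semilinear map.
* `idealGD_isBC` : the gluing datum `H325.idealGD` of a compatible pair of invertible ideals is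
  compatible with base change along a morphism of cospans.
-/

set_option autoImplicit false
set_option linter.style.haveILetI false

universe u

open TensorProduct

namespace Fermat.Agent.S25.H851

open Fermat.Agent.S25

section Semilinear

variable {R R' : Type u} [CommRing R] [CommRing R'] (ρ : R →+* R')
  {N N' : Type u} [AddCommGroup N] [Module R N] [AddCommGroup N'] [Module R' N']

/-- A semilinear map between invertible modules whose image spans the target is a semilinear
base change. -/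
theorem isSemilinearBaseChange_of_span [Module.Invertible R N] [Module.Invertible R' N']
    (b : N →ₛₗ[ρ] N') (hspan : Submodule.span R' (Set.range b) = ⊤) :
    IsSemilinearBaseChange ρ b := by
  letI : Algebra R R' := ρ.toAlgebra
  letI : Module R N' := Module.compHom N' ρ
  haveI : IsScalarTower R R' N' := ⟨fun r r' n => by
    change (ρ r * r') • n = ρ r • (r' • n); rw [mul_smul]⟩
  let bL : N →ₗ[R] N' :=
    { toFun := fun n => b n
      map_add' := fun m n => b.map_add m n
      map_smul' := fun r n => LinearMap.map_smulₛₗ b r n }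
  show IsBaseChange R' bL
  have hsurj : Function.Surjective (bL.liftBaseChange R') := by
    rw [← LinearMap.range_eq_top, eq_top_iff, ← hspan, Submodule.span_le]
    rintro _ ⟨n, rfl⟩
    exact ⟨(1 : R') ⊗ₜ[R] n, by simp [bL]⟩
  have hbij : Function.Bijective (bL.liftBaseChange R') :=
    Module.Invertible.bijective_of_surjective hsurj
  exact IsBaseChange.of_equiv (LinearEquiv.ofBijective _ hbij) (fun n => by simp)

end Semilinear

section IdealSL

variable {R R' : Type u} [CommRing R] [CommRing R'] (ρ : R →+* R')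

/-- The restriction of a ring homomorphism to ideals `I → I'` (with `ρ(I) ⊆ I'`), as a
semilinear map. -/
def idealSL (I : Ideal R) (I' : Ideal R') (h : I.map ρ ≤ I') : I →ₛₗ[ρ] I' where
  toFun a := ⟨ρ a, h (Ideal.mem_map_of_mem _ a.2)⟩
  map_add' a b := Subtype.ext (by simp)
  map_smul' r a := Subtype.ext (by simp)

@[simp] theorem idealSL_apply_coe (I : Ideal R) (I' : Ideal R') (h : I.map ρ ≤ I') (a : I) :
    ((idealSL ρ I I' h a : I') : R') = ρ a := rfl

theorem span_range_idealSL (I : Ideal R) (I' : Ideal R') (h : I.map ρ = I') :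
    Submodule.span R' (Set.range (idealSL ρ I I' h.le)) = ⊤ := by
  rw [eq_top_iff]
  rintro ⟨y, hy⟩ -
  let T : Submodule R' R' := (Submodule.span R' (Set.range (idealSL ρ I I' h.le))).map I'.subtype
  have hT : I' ≤ T := by
    rw [← h, Ideal.map, Ideal.span_le]
    rintro _ ⟨a, ha, rfl⟩
    exact ⟨idealSL ρ I I' h.le ⟨a, ha⟩, Submodule.subset_span ⟨_, rfl⟩, rfl⟩
  obtain ⟨y', hy', hyy'⟩ := hT hy
  have : y' = ⟨y, hy⟩ := Subtype.ext hyy'
  rw [← this]
  exact hy'

/-- The restriction of a ring homomorphism to invertible ideals `I → I · R'` is a semilinear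
base change. -/
theorem isSemilinearBaseChange_idealSL (I : Ideal R) (I' : Ideal R') (h : I.map ρ = I')
    [Module.Invertible R I] [Module.Invertible R' I'] :
    IsSemilinearBaseChange ρ (idealSL ρ I I' h.le) :=
  isSemilinearBaseChange_of_span ρ _ (span_range_idealSL ρ I I' h)

end IdealSL

section IdealGD

variable {A R₀ R₁ R₀₁ : Type u} [CommRing A] [CommRing R₀] [CommRing R₁]
    [CommRing R₀₁] [Algebra A R₀] [Algebra A R₁] [Algebra A R₀₁] [Algebra R₀ R₀₁]
    [Algebra R₁ R₀₁] [IsScalarTower A R₀ R₀₁] [IsScalarTower A R₁ R₀₁]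
    {A' R₀' R₁' R₀₁' : Type u} [CommRing A'] [CommRing R₀'] [CommRing R₁']
    [CommRing R₀₁'] [Algebra A' R₀'] [Algebra A' R₁'] [Algebra A' R₀₁'] [Algebra R₀' R₀₁']
    [Algebra R₁' R₀₁'] [IsScalarTower A' R₀' R₀₁'] [IsScalarTower A' R₁' R₀₁']
    [Module.Flat R₀ R₀₁] [Module.Flat R₁ R₀₁] [Module.Flat R₀' R₀₁'] [Module.Flat R₁' R₀₁']

/-- The extension `I · R₀₁` of an invertible ideal along a flat map is invertible. -/
theorem invertible_map_of_flat {R S : Type u} [CommRing R] [CommRing S] [Algebra R S]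
    [Module.Flat R S] (I : Ideal R) (J : Ideal S) (h : I.map (algebraMap R S) = J)
    [Module.Invertible R I] : Module.Invertible S J :=
  Module.Invertible.congr (H325.isBaseChange_idealRes I J h).equiv

/-- **Base change of ideal gluing data.**  Along a morphism of cospans `(ρ₀, ρ₁, ρ₀₁)`, the
ideal datum of `(I₀, I₁, I₀₁)` base-changes to the ideal datum of `(I₀', I₁', I₀₁')` as soon as
`I₀' = I₀ · R₀'` and `I₁' = I₁ · R₁'`. -/
theorem idealGD_isBC (ρ₀ : R₀ →+* R₀') (ρ₁ : R₁ →+* R₁') (ρ₀₁ : R₀₁ →+* R₀₁')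
    (hρ₀ : ρ₀₁.comp (algebraMap R₀ R₀₁) = (algebraMap R₀' R₀₁').comp ρ₀)
    (hρ₁ : ρ₀₁.comp (algebraMap R₁ R₀₁) = (algebraMap R₁' R₀₁').comp ρ₁)
    (I₀ : Ideal R₀) (I₁ : Ideal R₁) (I₀₁ : Ideal R₀₁)
    (h₀ : I₀.map (algebraMap R₀ R₀₁) = I₀₁) (h₁ : I₁.map (algebraMap R₁ R₀₁) = I₀₁)
    (inv₀ : Module.Invertible R₀ I₀) (inv₁ : Module.Invertible R₁ I₁)
    (I₀' : Ideal R₀') (I₁' : Ideal R₁') (I₀₁' : Ideal R₀₁')
    (h₀' : I₀'.map (algebraMap R₀' R₀₁') = I₀₁') (h₁' : I₁'.map (algebraMap R₁' R₀₁') = I₀₁')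
    (inv₀' : Module.Invertible R₀' I₀') (inv₁' : Module.Invertible R₁' I₁')
    (e₀ : I₀.map ρ₀ = I₀') (e₁ : I₁.map ρ₁ = I₁') :
    GlueDatum.IsBC ρ₀ ρ₁ ρ₀₁ (H325.idealGD (A := A) I₀ I₁ I₀₁ h₀ h₁ inv₀ inv₁)
      (H325.idealGD (A := A') I₀' I₁' I₀₁' h₀' h₁' inv₀' inv₁') := by
  have e₀₁ : I₀₁.map ρ₀₁ = I₀₁' := by
    rw [← h₀, Ideal.map_map, hρ₀, ← Ideal.map_map, e₀, h₀']
  haveI : Module.Invertible R₀₁ I₀₁ := invertible_map_of_flat I₀ I₀₁ h₀
  haveI : Module.Invertible R₀₁' I₀₁' := invertible_map_of_flat I₀' I₀₁' h₀'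
  refine ⟨{ b₀ := idealSL ρ₀ I₀ I₀' e₀.le
            b₁ := idealSL ρ₁ I₁ I₁' e₁.le
            b₀₁ := idealSL ρ₀₁ I₀₁ I₀₁' e₀₁.le
            comm₀ := ?_
            comm₁ := ?_
            isBaseChange₀ := isSemilinearBaseChange_idealSL ρ₀ I₀ I₀' e₀
            isBaseChange₁ := isSemilinearBaseChange_idealSL ρ₁ I₁ I₁' e₁
            isBaseChange₀₁ := isSemilinearBaseChange_idealSL ρ₀₁ I₀₁ I₀₁' e₀₁ }⟩
  · intro s
    apply Subtype.ext
    exact RingHom.congr_fun hρ₀ s.1
  · intro s
    apply Subtype.ext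
    exact RingHom.congr_fun hρ₁ s.1

end IdealGD

end Fermat.Agent.S25.H851

end
-- ===== PACK-END S25/H851/IdealBC.lean

-- ===== PACK-BEGIN S25/H911/GDCSquare.lean
section


/-!
# S25 / block GDC (helper911): the calculus of semilinear base changes

Pure algebra on the frozen `IsSemilinearBaseChange` of `DefsAlg.lean`.

* `isSemilinearBaseChange_of_equiv` / `IsSemilinearBaseChange.exists_equiv` : a semilinear map
  `b : N →ₛₗ[ρ] N'` is a base change iff the induced map `S ⊗[R] N → N'` is bijective.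
* `isSemilinearBaseChange_comp` : composition.
* `isSemilinearBaseChange_of_comp` : cancellation on the left.
* `exists_semilinear_square` : the fourth side of a base-change square.
* `exists_semilinear_baseChange` : base changes exist.
-/

set_option autoImplicit false
set_option linter.style.haveILetI false

universe u

open scoped TensorProduct

namespace Fermat.Agent.S25.H911

open Fermat.Agent.S25

section Comp

variable {R S T : Type u} [CommRing R] [CommRing S] [CommRing T]
  {N N' N'' : Type u} [AddCommGroup N] [Module R N] [AddCommGroup N'] [Module S N']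
  [AddCommGroup N''] [Module T N'']

/-- **Composition** of semilinear base changes. -/
theorem isSemilinearBaseChange_comp (ρ : R →+* S) (ρ' : S →+* T) (σ : R →+* T)
    (hσ : σ = ρ'.comp ρ) (b : N →ₛₗ[ρ] N') (b' : N' →ₛₗ[ρ'] N'') (c : N →ₛₗ[σ] N'')
    (hc : ∀ n, c n = b' (b n)) (hb : IsSemilinearBaseChange ρ b)
    (hb' : IsSemilinearBaseChange ρ' b') : IsSemilinearBaseChange σ c := by
  subst hσ
  rw [isSemilinearBaseChange_iff] at hb hb' ⊢
  letI : Algebra R S := ρ.toAlgebra
  letI : Algebra S T := ρ'.toAlgebra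
  letI : Algebra R T := (ρ'.comp ρ).toAlgebra
  haveI : IsScalarTower R S T := IsScalarTower.of_algebraMap_eq (fun x => rfl)
  letI : Module R N' := Module.compHom N' ρ
  haveI : IsScalarTower R S N' := ⟨fun r r' n => by
    change (ρ r * r') • n = ρ r • (r' • n); rw [mul_smul]⟩
  letI : Module S N'' := Module.compHom N'' ρ'
  haveI : IsScalarTower S T N'' := ⟨fun r r' n => by
    change (ρ' r * r') • n = ρ' r • (r' • n); rw [mul_smul]⟩
  letI : Module R N'' := Module.compHom N'' (ρ'.comp ρ)
  haveI : IsScalarTower R T N'' := ⟨fun r r' n => by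
    change ((ρ'.comp ρ) r * r') • n = (ρ'.comp ρ) r • (r' • n); rw [mul_smul]⟩
  haveI : IsScalarTower R S N'' := ⟨fun r r' n => by
    change ρ' (ρ r * r') • n = ρ' (ρ r) • (ρ' r' • n); rw [map_mul, mul_smul]⟩
  have h := IsBaseChange.comp hb hb'
  convert h using 1
  ext n
  exact hc n

/-- **Cancellation**: if `b` and `b' ∘ b` are semilinear base changes, so is `b'`. -/
theorem isSemilinearBaseChange_of_comp (ρ : R →+* S) (ρ' : S →+* T) (σ : R →+* T)
    (hσ : σ = ρ'.comp ρ) (b : N →ₛₗ[ρ] N') (b' : N' →ₛₗ[ρ'] N'') (c : N →ₛₗ[σ] N'')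
    (hc : ∀ n, c n = b' (b n)) (hb : IsSemilinearBaseChange ρ b)
    (hcc : IsSemilinearBaseChange σ c) : IsSemilinearBaseChange ρ' b' := by
  subst hσ
  rw [isSemilinearBaseChange_iff] at hb hcc ⊢
  letI : Algebra R S := ρ.toAlgebra
  letI : Algebra S T := ρ'.toAlgebra
  letI : Algebra R T := (ρ'.comp ρ).toAlgebra
  haveI : IsScalarTower R S T := IsScalarTower.of_algebraMap_eq (fun x => rfl)
  letI : Module R N' := Module.compHom N' ρ
  haveI : IsScalarTower R S N' := ⟨fun r r' n => by
    change (ρ r * r') • n = ρ r • (r' • n); rw [mul_smul]⟩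
  letI : Module S N'' := Module.compHom N'' ρ'
  haveI : IsScalarTower S T N'' := ⟨fun r r' n => by
    change (ρ' r * r') • n = ρ' r • (r' • n); rw [mul_smul]⟩
  letI : Module R N'' := Module.compHom N'' (ρ'.comp ρ)
  haveI : IsScalarTower R T N'' := ⟨fun r r' n => by
    change ((ρ'.comp ρ) r * r') • n = (ρ'.comp ρ) r • (r' • n); rw [mul_smul]⟩
  haveI : IsScalarTower R S N'' := ⟨fun r r' n => by
    change ρ' (ρ r * r') • n = ρ' (ρ r) • (ρ' r' • n); rw [map_mul, mul_smul]⟩
  refine IsBaseChange.of_comp hb ?_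
  convert hcc using 1
  ext n
  exact (hc n).symm

end Comp

section Square

variable {R S R' S' : Type u} [CommRing R] [CommRing S] [CommRing R'] [CommRing S']
  {N M N' M' : Type u} [AddCommGroup N] [Module R N] [AddCommGroup M] [Module S M]
  [AddCommGroup N'] [Module R' N'] [AddCommGroup M'] [Module S' M']

/-- **Universal property** of a semilinear base change: a `(α' ∘ ρ)`-semilinear map out of `N`
factors uniquely through the base change `b : N → N'` over `ρ` by an `α'`-semilinear map. -/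
theorem exists_semilinear_factor (ρ : R →+* R') (α' : R' →+* S') (τ : R →+* S')
    (hτ : τ = α'.comp ρ) (b : N →ₛₗ[ρ] N') (hb : IsSemilinearBaseChange ρ b)
    (d : N →ₛₗ[τ] M') : ∃ r' : N' →ₛₗ[α'] M', ∀ n, r' (b n) = d n := by
  subst hτ
  rw [isSemilinearBaseChange_iff] at hb
  letI : Algebra R R' := ρ.toAlgebra
  letI : Module R N' := Module.compHom N' ρ
  haveI : IsScalarTower R R' N' := ⟨fun r r' n => by
    change (ρ r * r') • n = ρ r • (r' • n); rw [mul_smul]⟩
  letI : Module R' M' := Module.compHom M' α'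
  letI : Module R M' := Module.compHom M' (α'.comp ρ)
  haveI : IsScalarTower R R' M' := ⟨fun r r' n => by
    change α' (ρ r * r') • n = α' (ρ r) • (α' r' • n); rw [map_mul, mul_smul]⟩
  let dl : N →ₗ[R] M' :=
    { toFun := fun n => d n
      map_add' := fun m n => d.map_add m n
      map_smul' := fun r n => LinearMap.map_smulₛₗ d r n }
  refine ⟨{ toFun := fun x => hb.lift dl x
            map_add' := fun x y => (hb.lift dl).map_add x y
            map_smul' := fun s x => (hb.lift dl).map_smul s x }, fun n => ?_⟩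
  exact hb.lift_eq dl n

/-- **The fourth side of a base-change square.**  Given a commutative square of rings
`σ ∘ α = α' ∘ ρ` and semilinear base changes `r : N → M` over `α`, `b : N → N'` over `ρ`,
`c : M → M'` over `σ`, there is a semilinear base change `r' : N' → M'` over `α'` with
`r' ∘ b = c ∘ r`. -/
theorem exists_semilinear_square (α : R →+* S) (ρ : R →+* R') (σ : S →+* S') (α' : R' →+* S')
    (h : σ.comp α = α'.comp ρ)
    (r : N →ₛₗ[α] M) (hr : IsSemilinearBaseChange α r)
    (b : N →ₛₗ[ρ] N') (hb : IsSemilinearBaseChange ρ b)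
    (c : M →ₛₗ[σ] M') (hc : IsSemilinearBaseChange σ c) :
    ∃ r' : N' →ₛₗ[α'] M', IsSemilinearBaseChange α' r' ∧ ∀ n, r' (b n) = c (r n) := by
  let d : N →ₛₗ[σ.comp α] M' :=
    { toFun := fun n => c (r n)
      map_add' := fun m n => by rw [map_add, map_add]
      map_smul' := fun x n => by
        rw [LinearMap.map_smulₛₗ, LinearMap.map_smulₛₗ]; rfl }
  have hd : IsSemilinearBaseChange (σ.comp α) d :=
    isSemilinearBaseChange_comp α σ (σ.comp α) rfl r c d (fun _ => rfl) hr hc
  obtain ⟨r', hr'⟩ := exists_semilinear_factor ρ α' (σ.comp α) h b hb d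
  exact ⟨r', isSemilinearBaseChange_of_comp ρ α' (σ.comp α) h b r' d
    (fun n => (hr' n).symm) hb hd, hr'⟩

/-- A ring homomorphism, viewed as a semilinear map, is a semilinear base change. -/
theorem isSemilinearBaseChange_self (σ : S →+* S') :
    IsSemilinearBaseChange σ
      ({ toFun := fun a => σ a
         map_add' := fun a b => map_add σ a b
         map_smul' := fun a b => map_mul σ a b } : S →ₛₗ[σ] S') := by
  letI : Algebra S S' := σ.toAlgebra
  exact IsBaseChange.linearMap S S'

/-- **The fourth side of a base-change square**, mixed form: the horizontal maps are linear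
base changes along `algebraMap R S` and `algebraMap R' S'`, the vertical ones are semilinear
base changes over `ρ` and `σ`. -/
theorem exists_linear_square [Algebra R S] [Algebra R' S'] (ρ : R →+* R') (σ : S →+* S')
    (h : σ.comp (algebraMap R S) = (algebraMap R' S').comp ρ)
    [Module R M] [IsScalarTower R S M] [Module R' M'] [IsScalarTower R' S' M']
    (r : N →ₗ[R] M) (hr : IsBaseChange S r)
    (b : N →ₛₗ[ρ] N') (hb : IsSemilinearBaseChange ρ b)
    (c : M →ₛₗ[σ] M') (hc : IsSemilinearBaseChange σ c) :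
    ∃ r' : N' →ₗ[R'] M', IsBaseChange S' r' ∧ ∀ n, r' (b n) = c (r n) := by
  rw [isSemilinearBaseChange_iff] at hb hc
  letI aRR' : Algebra R R' := ρ.toAlgebra
  letI aSS' : Algebra S S' := σ.toAlgebra
  letI aRS' : Algebra R S' := (σ.comp (algebraMap R S)).toAlgebra
  haveI tRSS' : IsScalarTower R S S' := IsScalarTower.of_algebraMap_eq (fun x => rfl)
  haveI tRR'S' : IsScalarTower R R' S' := IsScalarTower.of_algebraMap_eq (fun x =>
    RingHom.congr_fun h x)
  letI mRN' : Module R N' := Module.compHom N' ρ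
  haveI tN' : IsScalarTower R R' N' := ⟨fun r r' n => by
    change (ρ r * r') • n = ρ r • (r' • n); rw [mul_smul]⟩
  letI mSM' : Module S M' := Module.compHom M' σ
  haveI tSM' : IsScalarTower S S' M' := ⟨fun r r' n => by
    change (σ r * r') • n = σ r • (r' • n); rw [mul_smul]⟩
  letI mRM' : Module R M' := Module.compHom M' (σ.comp (algebraMap R S))
  haveI tRSM' : IsScalarTower R S M' := ⟨fun r s n => by
    change σ (r • s) • n = σ (algebraMap R S r) • (σ s • n)
    rw [Algebra.smul_def, map_mul, mul_smul]⟩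
  haveI tRS'M' : IsScalarTower R S' M' := ⟨fun r s n => by
    change (σ (algebraMap R S r) * s) • n = σ (algebraMap R S r) • (s • n)
    rw [mul_smul]⟩
  haveI tRR'M' : IsScalarTower R R' M' := ⟨fun r s n => by
    change (ρ r * s) • n = σ (algebraMap R S r) • (s • n)
    have h' : σ (algebraMap R S r) = algebraMap R' S' (ρ r) := RingHom.congr_fun h r
    rw [h', mul_smul, algebraMap_smul]⟩
  let bl : N →ₗ[R] N' :=
    { toFun := fun n => b n
      map_add' := fun m n => b.map_add m n
      map_smul' := fun r n => LinearMap.map_smulₛₗ b r n }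
  have hbl : IsBaseChange R' bl := hb
  let cl : M →ₗ[S] M' :=
    { toFun := fun n => c n
      map_add' := fun m n => c.map_add m n
      map_smul' := fun r n => LinearMap.map_smulₛₗ c r n }
  have hcl : IsBaseChange S' cl := hc
  have hcomp : IsBaseChange S' ((cl.restrictScalars R).comp r) := IsBaseChange.comp hr hcl
  let r' : N' →ₗ[R'] M' := hbl.lift ((cl.restrictScalars R).comp r)
  have hr'c : (r'.restrictScalars R).comp bl = (cl.restrictScalars R).comp r :=
    hbl.lift_comp _
  refine ⟨r', IsBaseChange.of_comp hbl (by rw [hr'c]; exact hcomp), fun n => ?_⟩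
  exact LinearMap.congr_fun hr'c n

/-- A `ρ`-semilinear map induced by an isomorphism `R' ⊗[R] N ≃ N'` (for the algebra structure
`ρ.toAlgebra`) is a semilinear base change. -/
theorem isSemilinearBaseChange_of_tensorEquiv (ρ : R →+* R') (b : N →ₛₗ[ρ] N')
    (e : letI : Algebra R R' := ρ.toAlgebra; R' ⊗[R] N ≃ₗ[R'] N')
    (he : letI : Algebra R R' := ρ.toAlgebra; ∀ m : N, e ((1 : R') ⊗ₜ[R] m) = b m) :
    IsSemilinearBaseChange ρ b := by
  rw [isSemilinearBaseChange_iff]
  letI : Algebra R R' := ρ.toAlgebra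
  letI : Module R N' := Module.compHom N' ρ
  haveI : IsScalarTower R R' N' := ⟨fun r r' n => by
    change (ρ r * r') • n = ρ r • (r' • n); rw [mul_smul]⟩
  exact IsBaseChange.of_equiv e he

/-- Base changes of modules exist, in semilinear form, and preserve invertibility. -/
theorem exists_semilinear_baseChange (ρ : R →+* R') (N : Type u) [AddCommGroup N] [Module R N] :
    ∃ (N' : Type u) (_ : AddCommGroup N') (_ : Module R' N') (b : N →ₛₗ[ρ] N'),
      IsSemilinearBaseChange ρ b ∧ (Module.Invertible R N → Module.Invertible R' N') := by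
  letI : Algebra R R' := ρ.toAlgebra
  refine ⟨R' ⊗[R] N, inferInstance, inferInstance,
    { toFun := fun n => (1 : R') ⊗ₜ[R] n
      map_add' := fun m n => TensorProduct.tmul_add _ _ _
      map_smul' := fun r n => by
        rw [TensorProduct.tmul_smul, TensorProduct.smul_tmul', TensorProduct.smul_tmul',
          Algebra.smul_def, smul_eq_mul]
        rfl }, ?_, fun hN => inferInstance⟩
  exact isSemilinearBaseChange_of_tensorEquiv ρ _ (LinearEquiv.refl R' (R' ⊗[R] N))
    (fun x => rfl)

end Square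

end Fermat.Agent.S25.H911

end
-- ===== PACK-END S25/H911/GDCSquare.lean

-- ===== PACK-BEGIN S25/H911/AlgDef.lean
section


/-!
# S25 / block ALGDEF (helper911): `Stmt.AlgDef`

Gluing data on `C_A` lift along square-zero (more generally nilpotent) thickenings
`A → A ⧸ I`: the frozen statement `Stmt.AlgDef k B₀ B₁ B₀₁` of `DefsAlg.lean`, unconditionally
(no hypothesis on the chart is used).
-/

set_option autoImplicit false
set_option linter.style.haveILetI false

universe u

open scoped TensorProduct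

namespace Fermat.Agent.S25.H911

open Fermat.Agent.S25

section TensorMapLeft

variable (k : Type u) [Field k] {A A' : Type u} [CommRing A] [Algebra k A] [CommRing A']
  [Algebra k A'] (φ : A →ₐ[k] A')

theorem tensorMapLeft_tmul (B : Type u) [CommRing B] [Algebra k B] (a : A) (b : B) :
    tensorMapLeft k φ B (a ⊗ₜ[k] b) = φ a ⊗ₜ[k] b :=
  rfl

theorem tensorMapLeft_surjective (hφ : Function.Surjective φ) (B : Type u) [CommRing B]
    [Algebra k B] : Function.Surjective (tensorMapLeft k φ B) :=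
  Algebra.TensorProduct.map_surjective φ (AlgHom.id k B) hφ Function.surjective_id

theorem tensorMapLeft_ker (hφ : Function.Surjective φ) (B : Type u) [CommRing B]
    [Algebra k B] :
    RingHom.ker (tensorMapLeft k φ B) =
      (RingHom.ker φ).map (Algebra.TensorProduct.includeLeft : A →ₐ[k] A ⊗[k] B) :=
  Algebra.TensorProduct.rTensor_ker φ hφ

/-- The kernel of `A ⊗ B → A' ⊗ B` is nil if the kernel of `A → A'` is nilpotent. -/
theorem tensorMapLeft_ker_nil (hφ : Function.Surjective φ) {n : ℕ}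
    (hn : RingHom.ker φ ^ n = ⊥) (B : Type u) [CommRing B] [Algebra k B] :
    ∀ x ∈ RingHom.ker (tensorMapLeft k φ B), IsNilpotent x := by
  intro x hx
  rw [tensorMapLeft_ker k φ hφ B] at hx
  refine ⟨n, ?_⟩
  have h1 : x ^ n ∈ ((RingHom.ker φ).map
      (Algebra.TensorProduct.includeLeft : A →ₐ[k] A ⊗[k] B)) ^ n := Ideal.pow_mem_pow hx n
  have h2 : ((RingHom.ker φ).map
      (Algebra.TensorProduct.includeLeft : A →ₐ[k] A ⊗[k] B)) ^ n = ⊥ := by
    have := Ideal.map_pow (Algebra.TensorProduct.includeLeft : A →ₐ[k] A ⊗[k] B).toRingHom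
      (RingHom.ker φ) n
    rw [hn, Ideal.map_bot] at this
    exact this.symm
  rw [h2] at h1
  exact h1

/-- The base-change maps `A ⊗ B → A' ⊗ B` form a morphism of cospans. -/
theorem tensorMapLeft_comp_algebraMap (B B' : Type u) [CommRing B] [CommRing B'] [Algebra k B]
    [Algebra k B'] [Algebra B B'] [IsScalarTower k B B'] :
    (tensorMapLeft k φ B').comp (algebraMap (A ⊗[k] B) (A ⊗[k] B')) =
      (algebraMap (A' ⊗[k] B) (A' ⊗[k] B')).comp (tensorMapLeft k φ B) := by
  apply RingHom.ext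
  intro z
  induction z using TensorProduct.induction_on with
  | zero => simp
  | tmul a b => rfl
  | add x y hx hy => rw [map_add, map_add, hx, hy]

end TensorMapLeft

section AlgDef

variable (k : Type u) [Field k]
variable (B₀ B₁ B₀₁ : Type u) [CommRing B₀] [CommRing B₁] [CommRing B₀₁]
  [Algebra k B₀] [Algebra k B₁] [Algebra k B₀₁] [Algebra B₀ B₀₁] [Algebra B₁ B₀₁]
  [IsScalarTower k B₀ B₀₁] [IsScalarTower k B₁ B₀₁]

/-- Gluing data lift along any surjection `φ : A → A'` of `k`-algebras with nilpotent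
kernel. -/
theorem exists_curveGD_isBC_of_nilpotent {A A' : Type u} [CommRing A] [Algebra k A]
    [CommRing A'] [Algebra k A'] (φ : A →ₐ[k] A') (hφ : Function.Surjective φ) {n : ℕ}
    (hn : RingHom.ker φ ^ n = ⊥) (G₀ : CurveGD k B₀ B₁ B₀₁ A') :
    ∃ G : CurveGD k B₀ B₁ B₀₁ A, CurveGD.IsBC φ G G₀ :=
  exists_isBC_of_nil (tensorMapLeft k φ B₀) (tensorMapLeft k φ B₁) (tensorMapLeft k φ B₀₁)
    (tensorMapLeft_comp_algebraMap k φ B₀ B₀₁) (tensorMapLeft_comp_algebraMap k φ B₁ B₀₁)
    (tensorMapLeft_surjective k φ hφ B₀) (tensorMapLeft_ker_nil k φ hφ hn B₀)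
    (tensorMapLeft_surjective k φ hφ B₁) (tensorMapLeft_ker_nil k φ hφ hn B₁)
    (tensorMapLeft_surjective k φ hφ B₀₁) (tensorMapLeft_ker_nil k φ hφ hn B₀₁) G₀

/-- **ALGDEF.** The frozen statement `Stmt.AlgDef`. -/
theorem algDef : Stmt.AlgDef k B₀ B₁ B₀₁ := by
  intro x y e _ A _ _ I hI G₀
  refine exists_curveGD_isBC_of_nilpotent k B₀ B₁ B₀₁ (Ideal.Quotient.mkₐ k I)
    (Ideal.Quotient.mkₐ_surjective k I) (n := 2) ?_ G₀
  have : RingHom.ker (Ideal.Quotient.mkₐ k I) = I := Ideal.Quotient.mkₐ_ker k I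
  rw [this, hI]

end AlgDef

end Fermat.Agent.S25.H911

end
-- ===== PACK-END S25/H911/AlgDef.lean

-- ===== PACK-BEGIN S26/SpecPic.lean
section


/-!
# Row S26, blocks PIC / CUBE / AMPLE: frozen interface (architect helper987)

* `PicTheory` : an abstract Picard functor (abelian groups `Pic X`, pull-back homomorphisms).
  Block PIC builds the model by Čech cocycles; block CUBE proves `Stmt.Cube` for that model.
* `CDiv X` : Cartier divisors on an integral scheme as families of local generators in `K(X)`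
  (an invertible fractional ideal sheaf); `CDivDict T` : the class map `CDiv X → T.Pic X`.
* `Stmt.Cube` : the theorem of the cube in functorial form (no products of schemes appear).
Blueprint: `coord/S26.md` §5–§7.  Only definitions here.
-/

set_option autoImplicit false
universe u

open CategoryTheory CategoryTheory.Limits AlgebraicGeometry NeronModelInfra GoodReductionJacobian

namespace Fermat.Agent.S26

noncomputable section

/-- An abstract Picard functor on schemes. -/
structure PicTheory where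
  /-- the Picard group -/
  Pic : Scheme.{u} → Type u
  [addCommGroup : ∀ X, AddCommGroup (Pic X)]
  /-- pull-back of classes -/
  map : ∀ {X Y : Scheme.{u}}, (X ⟶ Y) → (Pic Y →+ Pic X)
  map_id : ∀ (X : Scheme.{u}) (c : Pic X), map (𝟙 X) c = c
  map_comp : ∀ {X Y Z : Scheme.{u}} (f : X ⟶ Y) (g : Y ⟶ Z) (c : Pic Z),
    map (f ≫ g) c = map f (map g c)

attribute [instance] PicTheory.addCommGroup

/-- Every class on the spectrum of a field is trivial. -/
def PicTheory.IsLocal (T : PicTheory.{u}) : Prop :=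
  ∀ (F : Type u) [Field F], ∀ c : T.Pic (Spec (CommRingCat.of F)), c = 0

/-! ## Cartier divisors on an integral scheme -/

section CDiv

variable {X Y : Scheme.{u}} [IsIntegral X] [IsIntegral Y]

/-- The fractional ideal `O_x · f` at `x`. -/
def LS.span1 (f : X.functionField) (x : X) : Submodule (X.presheaf.stalk x) X.functionField :=
  Submodule.span (X.presheaf.stalk x) {f}

/-- A Cartier divisor, given by a local generator of its invertible fractional ideal sheaf at
every point (`I_x = O_x · gen x`). -/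
structure CDiv (X : Scheme.{u}) [IsIntegral X] where
  /-- a generator of the fractional ideal at `x` -/
  gen : X → X.functionField
  gen_ne : ∀ x, gen x ≠ 0
  loc : ∀ x, ∃ U : X.Opens, x ∈ U ∧ ∀ y ∈ U, LS.span1 (gen y) y = LS.span1 (gen x) y

namespace CDiv

/-- Linear equivalence: the fractional ideal sheaves differ by a rational function. -/
def LinEquiv (D D' : CDiv X) : Prop :=
  ∃ h : X.functionField, h ≠ 0 ∧ ∀ x, LS.span1 (D'.gen x) x = LS.span1 (h * D.gen x) x

/-- `D''` is the product (sum of divisors) of `D` and `D'`. -/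
def IsMul (D D' D'' : CDiv X) : Prop :=
  ∀ x, LS.span1 (D''.gen x) x = LS.span1 (D.gen x * D'.gen x) x

/-- `D'` is the `r`-th power of `D`. -/
def IsPow (D : CDiv X) (r : ℕ) (D' : CDiv X) : Prop :=
  ∀ x, LS.span1 (D'.gen x) x = LS.span1 (D.gen x ^ r) x

/-- `D'` is the pull-back of `D` along `φ` (which preserves the generic point). -/
def IsPullback (φ : X ⟶ Y) (h : φ (genericPoint X) = genericPoint Y) (D : CDiv Y)
    (D' : CDiv X) : Prop :=
  ∀ x, LS.span1 (D'.gen x) x = LS.span1 (ffMap φ h (D.gen (φ x))) x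

/-- `D` is the divisor of the invertible sheaf generated by the system `w`. -/
def IsOfSystem {ι : Type} (w : ι → X.functionField) (D : CDiv X) : Prop :=
  ∀ x, LS.span w x = LS.span1 (D.gen x) x

end CDiv

end CDiv

/-- The class map from Cartier divisors to the Picard functor `T`. -/
structure CDivDict (T : PicTheory.{u}) where
  /-- the class of a Cartier divisor -/
  cl : ∀ {X : Scheme.{u}} [IsIntegral X], CDiv X → T.Pic X
  cl_eq_iff : ∀ {X : Scheme.{u}} [IsIntegral X] (D D' : CDiv X),
    cl D = cl D' ↔ CDiv.LinEquiv D D'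
  cl_mul : ∀ {X : Scheme.{u}} [IsIntegral X] (D D' D'' : CDiv X),
    CDiv.IsMul D D' D'' → cl D'' = cl D + cl D'
  cl_pullback : ∀ {X Y : Scheme.{u}} [IsIntegral X] [IsIntegral Y] (φ : X ⟶ Y)
    (h : φ (genericPoint X) = genericPoint Y) (D : CDiv Y) (D' : CDiv X),
    CDiv.IsPullback φ h D D' → cl D' = T.map φ (cl D)

/-! ## Points of an abelian variety -/

namespace AbVar

variable {K : Type u} [Field K] (X : AbVar K)

/-- The constant `S`-valued point with value the `K`-point `x`. -/
def const {S : Scheme.{u}} (s : S ⟶ Spec (CommRingCat.of K)) (x : X.Pt) :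
    SchemeHomOver s X.str :=
  schemeHomOverComp s (Category.comp_id s) x

/-- Translation by a `K`-point. -/
def transl (x : X.Pt) : X.A ⟶ X.A :=
  (X.law.mul X.str RelativeGroupLaw.idPoint (X.const X.str x)).1

/-- The inverse of a `K`-point. -/
def negPt (x : X.Pt) : X.Pt := X.law.inv (𝟙 (Spec (CommRingCat.of K))) x

end AbVar

namespace Stmt

variable (T : PicTheory.{u}) (K : Type u) [Field K] [IsAlgClosed K]

/-- **Theorem of the cube**, functorial form: for three `S`-valued points `a, b, c` of an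
abelian variety and a class `M` on it,
`(a+b+c)^*M - (a+b)^*M - (a+c)^*M - (b+c)^*M + a^*M + b^*M + c^*M = 0`. -/
def Cube : Prop :=
  ∀ (X : AbVar K) {S : Scheme.{u}} (s : S ⟶ Spec (CommRingCat.of K))
    (a b c : SchemeHomOver s X.str) (M : T.Pic X.A),
    T.map (X.law.mul s (X.law.mul s a b) c).1 M - T.map (X.law.mul s a b).1 M
      - T.map (X.law.mul s a c).1 M - T.map (X.law.mul s b c).1 M
      + T.map a.1 M + T.map b.1 M + T.map c.1 M = 0

/-- NQUAD in the Picard group: `[-1]^*M = M ⇒ [n]^*M = n² • M`. -/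
def NQuadPic : Prop :=
  ∀ (X : AbVar K) (M : T.Pic X.A), T.map X.negHom M = M →
    ∀ n : ℕ, T.map (X.nsmulHom n) M = (n ^ 2) • M

/-- Theorem of the square (symmetric form) in the Picard group:
`T_x^*M + T_{-x}^*M = 2 • M`. -/
def SquarePic : Prop :=
  ∀ (X : AbVar K) (M : T.Pic X.A) (x : X.Pt),
    T.map (X.transl x) M + T.map (X.transl (X.negPt x)) M = 2 • M

variable {T} in
/-- Output of blocks PIC + CUBE. -/
def PicCube : Prop :=
  ∃ T : PicTheory.{u}, T.IsLocal ∧ Nonempty (CDivDict T) ∧ Cube T K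

/-- LS1: a base point free system has a divisor. -/
def LSDiv : Prop :=
  ∀ (X : Scheme.{u}) [IsIntegral X] (d : ℕ) (w : Fin (d + 1) → X.functionField),
    LS.BPF w → ∃ D : CDiv X, CDiv.IsOfSystem w D

/-- Pull-backs and powers of Cartier divisors exist. -/
def CDivOps : Prop :=
  ∀ (X : Scheme.{u}) [IsIntegral X] (D : CDiv X),
    (∀ r : ℕ, ∃ D' : CDiv X, CDiv.IsPow D r D') ∧
    (∀ D' : CDiv X, ∃ D'' : CDiv X, CDiv.IsMul D D' D'') ∧
    (∀ (Y : Scheme.{u}) [IsIntegral Y] (φ : Y ⟶ X) (h : φ (genericPoint Y) = genericPoint X),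
      ∃ D' : CDiv Y, CDiv.IsPullback φ h D D')

/-- Compatibility of "divisor of a system" with pull-backs and powers. -/
def LSDivOps : Prop :=
  ∀ (X : Scheme.{u}) [IsIntegral X] (d : ℕ) (w : Fin (d + 1) → X.functionField) (D : CDiv X),
    CDiv.IsOfSystem w D →
    (∀ (r : ℕ) (D' : CDiv X), CDiv.IsPow D r D' → CDiv.IsOfSystem (fun i => w i ^ r) D') ∧
    (∀ (Y : Scheme.{u}) [IsIntegral Y] (φ : Y ⟶ X) (h : φ (genericPoint Y) = genericPoint X)
      (D' : CDiv Y), CDiv.IsPullback φ h D D' → CDiv.IsOfSystem (fun i => ffMap φ h (w i)) D')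

/-- Theorem of the square for Cartier divisors (input of block AMPLE): for a divisor `D` on an
abelian variety and a `K`-point `x`, `T_x^* D + T_{-x}^* D ~ 2 D`. -/
def SquareLS : Prop :=
  ∀ (X : AbVar K) [IsIntegral X.A] (x : X.Pt)
    (hx : X.transl x (genericPoint X.A) = genericPoint X.A)
    (hx' : X.transl (X.negPt x) (genericPoint X.A) = genericPoint X.A)
    (D D₁ D₂ D₃ D₄ : CDiv X.A), CDiv.IsPullback (X.transl x) hx D D₁ →
    CDiv.IsPullback (X.transl (X.negPt x)) hx' D D₂ → CDiv.IsMul D₁ D₂ D₃ →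
    CDiv.IsPow D 2 D₄ → CDiv.LinEquiv D₃ D₄

end Stmt

end

end Fermat.Agent.S26

end
-- ===== PACK-END S26/SpecPic.lean

-- ===== PACK-BEGIN S26/H147/SoftLaw.lean
section
/-
Row S26, block SOFT (architect helper987, sub-architect helper746): leaves S1a, S4, S5a, S5b,
S6a, S6b, S6c for a general `RelativeGroupLaw` (Mathlib + Prelude only; does NOT import the
row's `Spec.lean`).  Statements = `coord/S26-SOFT-skeleton.lean.txt` of origin/helper746.
(helper147)
-/




set_option autoImplicit false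
set_option linter.style.haveILetI false
set_option linter.unusedSectionVars false
universe u

open CategoryTheory CategoryTheory.Limits AlgebraicGeometry NeronModelInfra GoodReductionJacobian

namespace Fermat.Agent.S26.H147

/-- An etale ring homomorphism is quasi-finite. -/
theorem ringHom_quasiFinite_of_etale {R S : Type u} [CommRing R] [CommRing S] {f : R →+* S}
    (hf : f.Etale) : f.QuasiFinite := by
  algebraize [f]
  have : Algebra.Etale R S := hf
  show Algebra.QuasiFinite R S
  infer_instance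

/-- **S4 (QF).** An etale morphism of schemes is locally quasi-finite. -/
theorem locallyQuasiFinite_of_etale {X Y : Scheme.{u}} (f : X ⟶ Y) [Etale f] :
    LocallyQuasiFinite f := by
  have h : Etale f := inferInstance
  rw [HasRingHomProperty.eq_affineLocally @Etale] at h
  rw [HasRingHomProperty.eq_affineLocally @LocallyQuasiFinite]
  exact affineLocally_le (fun hf => ringHom_quasiFinite_of_etale hf) f h

/-- `Stmt.QuasiFiniteOfEtale` of helper527's `Soft/Spec.lean` (same statement, unfolded). -/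
theorem quasiFiniteOfEtale :
    ∀ (X Y : Scheme.{u}) (f : X ⟶ Y), Etale f → LocallyQuasiFinite f :=
  fun _ _ f hf => @locallyQuasiFinite_of_etale _ _ f hf

/-- **S5b.** The rank of a finite flat finitely presented morphism onto a connected scheme is
constant. -/
theorem finrank_eq_of_preconnected {X Y : Scheme.{u}} (φ : X ⟶ Y) [IsFinite φ] [Flat φ]
    [LocallyOfFinitePresentation φ] [PreconnectedSpace Y] (a b : Y) :
    φ.finrank a = φ.finrank b :=
  (Scheme.Hom.isLocallyConstant_finrank φ).apply_eq_of_preconnectedSpace a b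

variable {K : Type u} [Field K]

/-- **S6a.** A finite etale scheme over a separably closed field has exactly `rank` rational
points. -/
theorem card_sections_eq_finrank' [IsSepClosed K] {Z : Scheme.{u}}
    (h : Z ⟶ Spec (CommRingCat.of K)) [IsFinite h] [Etale h] (y : Spec (CommRingCat.of K)) :
    Nat.card (SchemeHomOver (𝟙 (Spec (CommRingCat.of K))) h) = h.finrank y :=
  natCard_sections_eq_finrank h y

/-- **S6a** (exact skeleton statement). -/
theorem card_sections_eq_finrank [IsAlgClosed K] {Z : Scheme.{u}}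
    (h : Z ⟶ Spec (CommRingCat.of K)) [IsFinite h] [Etale h] (y : Spec (CommRingCat.of K)) :
    Nat.card (SchemeHomOver (𝟙 (Spec (CommRingCat.of K))) h) = h.finrank y :=
  natCard_sections_eq_finrank h y

/-- `Stmt.PointsOfFiniteEtale K` of helper527's `Soft/Spec.lean` (same statement, unfolded). -/
theorem pointsOfFiniteEtale (K : Type u) [Field K] [IsAlgClosed K] :
    ∀ (Z : Scheme.{u}) (z : Z ⟶ Spec (CommRingCat.of K)), IsFinite z → Etale z →
      ∀ s : Spec (CommRingCat.of K),
        Nat.card (SchemeHomOver (𝟙 (Spec (CommRingCat.of K))) z) = z.finrank s :=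
  fun _ z hf he s => @card_sections_eq_finrank K _ _ _ z hf he s

section Law

variable {A : Scheme.{u}} {f : A ⟶ Spec (CommRingCat.of K)} (L : RelativeGroupLaw K f)

/-- **S1a.** `[n] ∘ x = n • x` on `T`-valued points. -/
theorem comp_schemeNsmul {T : Scheme.{u}} (t : T ⟶ Spec (CommRingCat.of K)) (n : ℕ)
    (x : SchemeHomOver t f) : x.1 ≫ L.schemeNsmul n = (L.nsmul t n x).1 := by
  have h := L.nsmul_natural f t x.1 x.2 n RelativeGroupLaw.idPoint
  have hx : schemeHomOverComp x.1 x.2 (RelativeGroupLaw.idPoint (f := f)) = x :=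
    Subtype.ext (Category.comp_id _)
  rw [hx] at h
  rw [← h]
  rfl

/-- The zero section as a morphism of schemes. -/
noncomputable def zeroSec : Spec (CommRingCat.of K) ⟶ A :=
  (L.one (𝟙 (Spec (CommRingCat.of K)))).1

theorem zeroSec_comp : zeroSec L ≫ f = 𝟙 _ :=
  (L.one (𝟙 (Spec (CommRingCat.of K)))).2

theorem isTorsionPoint_iff_comp (n : ℕ) (x : SchemeHomOver (𝟙 (Spec (CommRingCat.of K))) f) :
    L.IsTorsionPoint (𝟙 (Spec (CommRingCat.of K))) n x ↔
      x.1 ≫ L.schemeNsmul n = zeroSec L := by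
  rw [comp_schemeNsmul]
  exact ⟨fun h => congrArg Subtype.val h, fun h => Subtype.ext h⟩

/-- **S6b.** The `n`-torsion `K`-points are the `K`-points of the kernel scheme. -/
noncomputable def torsionEquivKerPt (n : ℕ) :
    {x : SchemeHomOver (𝟙 (Spec (CommRingCat.of K))) f //
        L.IsTorsionPoint (𝟙 (Spec (CommRingCat.of K))) n x} ≃
      SchemeHomOver (𝟙 (Spec (CommRingCat.of K))) (L.schemeKerStr n) where
  toFun x :=
    have hx : x.1.1 ≫ L.schemeNsmul n =
        𝟙 _ ≫ (L.one (𝟙 (Spec (CommRingCat.of K)))).1 := by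
      rw [Category.id_comp]
      exact (isTorsionPoint_iff_comp L n x.1).mp x.2
    ⟨pullback.lift x.1.1 (𝟙 _) hx, pullback.lift_snd _ _ _⟩
  invFun s :=
    have h1 : (s.1 ≫ pullback.fst (L.schemeNsmul n)
        (L.one (𝟙 (Spec (CommRingCat.of K)))).1) ≫ L.schemeNsmul n = zeroSec L := by
      have h2 : s.1 ≫ pullback.snd (L.schemeNsmul n)
          (L.one (𝟙 (Spec (CommRingCat.of K)))).1 = 𝟙 _ := s.2
      show (s.1 ≫ pullback.fst _ _) ≫ L.schemeNsmul n =
        (L.one (𝟙 (Spec (CommRingCat.of K)))).1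
      rw [Category.assoc, pullback.condition, ← Category.assoc, h2, Category.id_comp]
    have h3 : (s.1 ≫ pullback.fst (L.schemeNsmul n)
        (L.one (𝟙 (Spec (CommRingCat.of K)))).1) ≫ f = 𝟙 _ := by
      have h4 := L.schemeNsmul_over n
      calc (s.1 ≫ pullback.fst _ _) ≫ f
          = ((s.1 ≫ pullback.fst _ _) ≫ L.schemeNsmul n) ≫ f := by
            rw [Category.assoc (s.1 ≫ pullback.fst _ _), h4]
        _ = 𝟙 _ := by rw [h1, zeroSec_comp]
    ⟨⟨s.1 ≫ pullback.fst _ _, h3⟩, (isTorsionPoint_iff_comp L n _).mpr h1⟩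
  left_inv x := Subtype.ext (Subtype.ext (pullback.lift_fst _ _ _))
  right_inv s := Subtype.ext (pullback.hom_ext (by rw [pullback.lift_fst])
    (by rw [pullback.lift_snd]; exact s.2.symm))

/-- **S6b** (exact skeleton statement). -/
theorem nonempty_torsion_equiv_kerPt (n : ℕ) :
    Nonempty ({x : SchemeHomOver (𝟙 (Spec (CommRingCat.of K))) f //
        L.IsTorsionPoint (𝟙 (Spec (CommRingCat.of K))) n x} ≃
      SchemeHomOver (𝟙 (Spec (CommRingCat.of K))) (L.schemeKerStr n)) :=
  ⟨torsionEquivKerPt L n⟩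

/-- `[n]` is proper. -/
theorem isProper_schemeNsmul (hpr : IsProper f) (n : ℕ) : IsProper (L.schemeNsmul n) := by
  haveI : IsProper (L.schemeNsmul n ≫ f) := by
    rw [L.schemeNsmul_over]; exact hpr
  exact IsProper.of_comp (L.schemeNsmul n) f

/-- **S4.** If `[n]` is etale then it is finite. -/
theorem isFinite_schemeNsmul (hpr : IsProper f) (n : ℕ) (het : Etale (L.schemeNsmul n)) :
    IsFinite (L.schemeNsmul n) := by
  haveI := isProper_schemeNsmul L hpr n
  haveI := locallyQuasiFinite_of_etale (L.schemeNsmul n)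
  exact IsFinite.of_isProper_of_locallyQuasiFinite (L.schemeNsmul n)

end Law

/-- **S5a.** An abelian variety is connected. -/
theorem connectedSpace_of_bundle {A : Scheme.{u}} {f : A ⟶ Spec (CommRingCat.of K)}
    (hA : AbelianSchemePropertyBundle K f) : ConnectedSpace A := by
  have h := hA.connectedFibres (default : Spec (CommRingCat.of K))
  have huniv : f.base ⁻¹' {(default : Spec (CommRingCat.of K))} = Set.univ := by
    ext a
    simp only [Set.mem_preimage, Set.mem_univ, iff_true]
    exact Subsingleton.elim _ _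
  rw [huniv] at h
  exact connectedSpace_iff_univ.mpr h

/-- **S6c** for a general group law: the number of `n`-torsion points is the rank of `[n]`. -/
theorem card_torsion_eq_finrank_law [IsSepClosed K] {A : Scheme.{u}}
    {f : A ⟶ Spec (CommRingCat.of K)} (L : RelativeGroupLaw K f)
    (hA : AbelianSchemePropertyBundle K f) (n : ℕ)
    (hfin : IsFinite (L.schemeNsmul n)) (het : Etale (L.schemeNsmul n)) (a : A) :
    Nat.card {x : SchemeHomOver (𝟙 (Spec (CommRingCat.of K))) f //
        L.IsTorsionPoint (𝟙 (Spec (CommRingCat.of K))) n x} = (L.schemeNsmul n).finrank a := by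
  haveI := connectedSpace_of_bundle hA
  rw [Nat.card_congr (torsionEquivKerPt L n)]
  rw [card_sections_eq_finrank' (L.schemeKerStr n) (default : Spec (CommRingCat.of K))]
  have h := Scheme.Hom.finrank_pullback_snd (L.schemeNsmul n)
    (L.one (𝟙 (Spec (CommRingCat.of K)))).1 (default : Spec (CommRingCat.of K))
  exact h.trans (finrank_eq_of_preconnected _ _ _)

end Fermat.Agent.S26.H147

end
-- ===== PACK-END S26/H147/SoftLaw.lean

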