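import Mathlib
import Fermat.Prelude.Def_ModularCurve_PeriodHomPair
import Fermat.Prelude.Def_ModularForm_HeckeOperatorForms
import Fermat.Prelude.Def_FreyPackage_LevelRaising
import Fermat.Prelude.Def_ModularCurve_PeriodMap
import Mathlib.LinearAlgebra.Matrix.NonsingularInverse
import Mathlib.LinearAlgebra.Matrix.Determinant.Basic
import Mathlib.RingTheory.LocalRing.ResidueField.Basic
import Fermat.Agent.Pack.S43MC.G0E4L3
import Fermat.Agent.Pack.S43MC.G0E0L0
import Fermat.Agent.Pack.S43MC.G0E7L0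
import Fermat.Agent.Pack.S43MC.G0E5L0
import Fermat.Agent.Pack.S43MC.G0E8L0
import Fermat.Agent.Pack.S43MC.G0E8L2
import Fermat.Agent.Pack.S43MC.G0E8L1
import Fermat.Agent.Pack.S43MC.G0E5L2
import Fermat.Agent.Pack.S43GC.G0E5L0
import Fermat.Agent.Pack.S43GC.G0E4L1
import Fermat.Agent.Pack.S44C.G0E8L1
import Fermat.Agent.Pack.S44C.G0E8L3
import Fermat.Agent.Pack.S43MC.G0E7L1
import Fermat.Agent.Pack.S43MC.G0E4L0
import Fermat.Agent.Pack.S43MC.G0E7L3
import Fermat.Agent.Pack.S43MC.G0E9L0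
import Fermat.Agent.Pack.Fast891

-- ===== PACK-BEGIN Lib/Newform/H23/OldEigen.lean
section




/-!
# NEWFORM library (helper23) — `OldEigen`

An eigenvector of the good Hecke operators which lies in the old space `Σ_{p ∣ N} B_p S(N/p)`
forces the eigensystem to occur at some level `N / p`.  Pure linear algebra on
`⨁_{p ∣ N} S(N/p)` (`exists_eigenvector_of_quotient`) + extraction (helper683 E2); the maps
`B_p` are never constructed, only their `q`-coefficients are used.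
-/

set_option autoImplicit false

open CongruenceSubgroup ModularFormClass ModularForm UpperHalfPlane

namespace Fermat.Agent.Lib.Newform.H23

open Fermat.Agent.Lib.Newform

section OldSpace

variable (N : ℕ) [NeZero N]

theorem div_primeFactor_ne_zero (p : N.primeFactors) : N / (p : ℕ) ≠ 0 := by
  have hp := Nat.mem_primeFactors.mp p.2
  have hpos : 0 < N / (p : ℕ) :=
    Nat.div_pos (Nat.le_of_dvd (Nat.pos_of_ne_zero hp.2.2) hp.2.1) hp.1.pos
  exact hpos.ne'

instance neZero_div_primeFactor (p : N.primeFactors) : NeZero (N / (p : ℕ)) :=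
  ⟨div_primeFactor_ne_zero N p⟩

/-- The source of the old space: `⨁_{p ∣ N} S(N/p)`. -/
abbrev OldSrc : Type := (p : N.primeFactors) → CuspForm (Gamma0 (N / (p : ℕ))) 2

/-- The `n`-th `q`-coefficient of `Σ_p B_p g_p`, as a linear functional of `(g_p)`. -/
noncomputable def oldQL (n : ℕ) : OldSrc N →ₗ[ℂ] ℂ :=
  ∑ p : N.primeFactors, if (p : ℕ) ∣ n then
    (H683.coeffLin (N / (p : ℕ)) 2 (n / (p : ℕ))).comp (LinearMap.proj p) else 0

theorem oldQL_apply (n : ℕ) (g : OldSrc N) :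
    oldQL N n g = ∑ p : N.primeFactors,
      if (p : ℕ) ∣ n then qCoeff ⇑(g p) (n / (p : ℕ)) else 0 := by
  rw [oldQL, LinearMap.sum_apply]
  refine Finset.sum_congr rfl (fun p _ => ?_)
  split_ifs <;> simp

/-- The diagonal action of `T_ℓ` (for any prime `ℓ`; it is `T_ℓ` on `S(N/p)` when `ℓ ∤ N`). -/
noncomputable def oldT (ℓ : Nat.Primes) : Module.End ℂ (OldSrc N) :=
  LinearMap.pi fun p => (H683.heckeFamily (N / (p : ℕ)) ℓ).comp (LinearMap.proj p)

theorem oldT_apply (ℓ : Nat.Primes) (g : OldSrc N) (p : N.primeFactors) :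
    oldT N ℓ g p = H683.heckeFamily (N / (p : ℕ)) ℓ (g p) := rfl

theorem oldT_commute (ℓ ℓ' : Nat.Primes) : Commute (oldT N ℓ) (oldT N ℓ') := by
  apply LinearMap.ext
  intro g
  funext p
  have := congrArg (fun f : Module.End ℂ (CuspForm (Gamma0 (N / (p : ℕ))) 2) => f (g p))
    (H683.heckeFamily_commute (M := N / (p : ℕ)) ℓ ℓ').eq
  simpa [oldT_apply] using this

theorem not_dvd_div_of_not_dvd {ℓ : ℕ} (hℓN : ¬ ℓ ∣ N) (p : N.primeFactors) :
    ¬ ℓ ∣ N / (p : ℕ) := fun h =>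
  hℓN (h.trans (Nat.div_dvd_of_dvd (Nat.mem_primeFactors.mp p.2).2.1))

theorem oldT_apply_coe (ℓ : Nat.Primes) (hℓN : ¬ (ℓ : ℕ) ∣ N) (g : OldSrc N)
    (p : N.primeFactors) :
    (⇑(oldT N ℓ g p) : ℍ → ℂ) = heckeT 2 (ℓ : ℕ) ⇑(g p) := by
  rw [oldT_apply, H683.heckeFamily_of_not_dvd ℓ (not_dvd_div_of_not_dvd N hℓN p),
    CuspForm.coe_heckeTLin_apply]

/-- The coefficients of `Σ_p B_p (T_ℓ g_p)` are those of `T_ℓ (Σ_p B_p g_p)`. -/
theorem oldQL_oldT (ℓ : Nat.Primes) (hℓN : ¬ (ℓ : ℕ) ∣ N) (g : OldSrc N) (n : ℕ) :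
    oldQL N n (oldT N ℓ g) = coeffHeckeT 2 (ℓ : ℕ) (fun m => oldQL N m g) n := by
  rw [coeffHeckeT_apply]
  simp only [oldQL_apply]
  have hrw : (if (ℓ : ℕ) ∣ n then ((ℓ : ℕ) : ℂ) ^ ((2 : ℤ) - 1) *
        ∑ p : N.primeFactors, (if (p : ℕ) ∣ n / (ℓ : ℕ) then
          qCoeff ⇑(g p) (n / (ℓ : ℕ) / (p : ℕ)) else 0) else 0) =
      ∑ p : N.primeFactors, (if (ℓ : ℕ) ∣ n then ((ℓ : ℕ) : ℂ) ^ ((2 : ℤ) - 1) *
        (if (p : ℕ) ∣ n / (ℓ : ℕ) then qCoeff ⇑(g p) (n / (ℓ : ℕ) / (p : ℕ)) else 0) else 0) := by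
    split_ifs
    · rw [Finset.mul_sum]
    · simp
  rw [hrw, ← Finset.sum_add_distrib]
  refine Finset.sum_congr rfl (fun p _ => ?_)
  have hp := Nat.mem_primeFactors.mp p.2
  have hpℓ : (p : ℕ) ≠ (ℓ : ℕ) := fun h => hℓN (h ▸ hp.2.1)
  have hcop : Nat.Coprime (p : ℕ) (ℓ : ℕ) := (Nat.coprime_primes hp.1 ℓ.2).mpr hpℓ
  rw [oldT_apply_coe N ℓ hℓN g p, H683.qCoeff_heckeT_cusp 2 (g p) ℓ.2.ne_zero,
    coeffHeckeT_apply]
  by_cases hpn : (p : ℕ) ∣ n
  · have hpnℓ : (p : ℕ) ∣ n * (ℓ : ℕ) := hpn.mul_right _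
    rw [if_pos hpn, if_pos hpnℓ, Nat.div_mul_right_comm hpn]
    congr 1
    by_cases hℓn : (ℓ : ℕ) ∣ n
    · have h1 : (ℓ : ℕ) ∣ n / (p : ℕ) := by
        have : (ℓ : ℕ) ∣ (p : ℕ) * (n / (p : ℕ)) := by rwa [Nat.mul_div_cancel' hpn]
        exact (hcop.symm.dvd_mul_left).mp this
      have h2 : (p : ℕ) ∣ n / (ℓ : ℕ) := by
        have : (p : ℕ) ∣ (ℓ : ℕ) * (n / (ℓ : ℕ)) := by rwa [Nat.mul_div_cancel' hℓn]
        exact (hcop.dvd_mul_left).mp this
      rw [if_pos h1, if_pos hℓn, if_pos h2, Nat.div_div_eq_div_mul, Nat.div_div_eq_div_mul,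
        mul_comm (p : ℕ) (ℓ : ℕ)]
    · have h1 : ¬ (ℓ : ℕ) ∣ n / (p : ℕ) := fun h => hℓn (h.trans (Nat.div_dvd_of_dvd hpn))
      rw [if_neg h1, if_neg hℓn]
  · have hpnℓ : ¬ (p : ℕ) ∣ n * (ℓ : ℕ) := fun h => hpn ((hcop.dvd_mul_right).mp h)
    rw [if_neg hpn, if_neg hpnℓ]
    by_cases hℓn : (ℓ : ℕ) ∣ n
    · have h2 : ¬ (p : ℕ) ∣ n / (ℓ : ℕ) := fun h => hpn (h.trans (Nat.div_dvd_of_dvd hℓn))
      rw [if_pos hℓn, if_neg h2]
      simp
    · rw [if_neg hℓn]
      simp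

/-- Families `(g_p)` with `Σ_p B_p g_p ∈ ℂ h`. -/
noncomputable def oldE (h : CuspForm (Gamma0 N) 2) : Submodule ℂ (OldSrc N) where
  carrier := {g | ∃ c : ℂ, ∀ n, oldQL N n g = c * qCoeff ⇑h n}
  add_mem' := by
    rintro g g' ⟨c, hc⟩ ⟨c', hc'⟩
    exact ⟨c + c', fun n => by rw [map_add, hc n, hc' n, add_mul]⟩
  zero_mem' := ⟨0, fun n => by simp⟩
  smul_mem' := by
    rintro r g ⟨c, hc⟩
    exact ⟨r * c, fun n => by rw [map_smul, hc n, smul_eq_mul, mul_assoc]⟩

/-- Families `(g_p)` with `Σ_p B_p g_p = 0`. -/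
noncomputable def oldF : Submodule ℂ (OldSrc N) where
  carrier := {g | ∀ n, oldQL N n g = 0}
  add_mem' := by
    intro g g' hg hg' n
    rw [map_add, hg n, hg' n, add_zero]
  zero_mem' := fun n => by simp
  smul_mem' := by
    intro r g hg n
    rw [map_smul, hg n, smul_zero]

end OldSpace

/-- **OLD-EIGEN**. -/
theorem oldEigen : OldEigen := by
  intro N _ h hh a heig hold
  obtain ⟨g, hg⟩ := hold
  haveI : ∀ p : N.primeFactors, FiniteDimensional ℂ (CuspForm (Gamma0 (N / (p : ℕ))) 2) :=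
    fun p => H683.finiteDimensional_cuspForm (N / (p : ℕ)) 2
  -- the given family
  set g₀ : OldSrc N := fun p => g p with hg₀
  have hg₀Q : ∀ n, oldQL N n g₀ = qCoeff ⇑h n := by
    intro n
    rw [oldQL_apply, hg n]
    exact Finset.sum_coe_sort N.primeFactors
      (fun p => if p ∣ n then qCoeff ⇑(g p) (n / p) else 0)
  -- some coefficient of `h` is nonzero
  have hcoef : ∃ n, qCoeff ⇑h n ≠ 0 := by
    by_contra hcon
    push Not at hcon
    exact hh (H683.cusp_eq_zero_of_qCoeff 2 h hcon)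
  obtain ⟨n₀, hn₀⟩ := hcoef
  -- eigen-relation for the coefficients of `h`
  have hheig : ∀ (ℓ : Nat.Primes), ¬ (ℓ : ℕ) ∣ N → ∀ n,
      coeffHeckeT 2 (ℓ : ℕ) (qCoeff ⇑h) n = a ℓ * qCoeff ⇑h n := by
    intro ℓ hℓN n
    have h1 := heig ℓ ℓ.2 hℓN
    have h2 := congrArg (fun F : CuspForm (Gamma0 N) 2 => qCoeff ⇑F n) h1
    simp only [CuspForm.coe_heckeTLin_apply] at h2
    rw [H683.qCoeff_heckeT_cusp 2 h ℓ.2.ne_zero, H683.qCoeff_smul_cusp] at h2
    exact h2
  -- apply the linear algebra lemma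
  obtain ⟨v, hvE, hv0, hveig⟩ := exists_eigenvector_of_quotient
    (ι := {ℓ : Nat.Primes // ¬ (ℓ : ℕ) ∣ N}) (fun ℓ => oldT N ℓ.1)
    (fun ℓ ℓ' => oldT_commute N ℓ.1 ℓ'.1) (fun ℓ => a ℓ.1) (oldE N h) (oldF N)
    (fun v hv => ⟨0, fun n => by rw [hv n, zero_mul]⟩)
    (fun hle => by
      have hmem : g₀ ∈ oldE N h := ⟨1, fun n => by rw [hg₀Q n, one_mul]⟩
      have := hle hmem n₀
      rw [hg₀Q n₀] at this
      exact hn₀ this)
    (by
      rintro ⟨ℓ, hℓN⟩ v ⟨c, hc⟩ n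
      rw [map_sub, map_smul, oldQL_oldT N ℓ hℓN v n]
      have : (fun m => oldQL N m v) = fun m => c * qCoeff ⇑h m := funext hc
      rw [this, hc n, coeffHeckeT_apply]
      have h3 := hheig ℓ hℓN n
      rw [coeffHeckeT_apply] at h3
      have h4 : c * qCoeff ⇑h (n * (ℓ : ℕ)) + (if (ℓ : ℕ) ∣ n then
          ((ℓ : ℕ) : ℂ) ^ ((2 : ℤ) - 1) * (c * qCoeff ⇑h (n / (ℓ : ℕ))) else 0) =
          c * (qCoeff ⇑h (n * (ℓ : ℕ)) + if (ℓ : ℕ) ∣ n then
            ((ℓ : ℕ) : ℂ) ^ ((2 : ℤ) - 1) * qCoeff ⇑h (n / (ℓ : ℕ)) else 0) := by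
        split_ifs <;> ring
      rw [h4, h3, smul_eq_mul]
      ring)
  -- a nonzero component
  have hcomp : ∃ p : N.primeFactors, v p ≠ 0 := by
    by_contra hcon
    push Not at hcon
    exact hv0 (funext hcon)
  obtain ⟨p, hp⟩ := hcomp
  have hpmem := Nat.mem_primeFactors.mp p.2
  obtain ⟨G, hG, hGa⟩ := H683.exists_normalizedEigenform_of_eigenvector
    (M := N / (p : ℕ)) (fun ℓ => ¬ ℓ ∣ N) a (v p) hp (by
      intro ℓ hℓ _ hℓN
      have h1 := congrFun (hveig ⟨⟨ℓ, hℓ⟩, hℓN⟩) p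
      have h2 := congrArg (fun F : CuspForm (Gamma0 (N / (p : ℕ))) 2 => (⇑F : ℍ → ℂ)) h1
      simp only [Pi.smul_apply] at h2
      rw [oldT_apply_coe N ⟨ℓ, hℓ⟩ hℓN v p] at h2
      simpa using h2)
  exact ⟨p, hpmem.1, hpmem.2.1, G, hG,
    fun ℓ hℓ hℓN => hGa ℓ hℓ (not_dvd_div_of_not_dvd N hℓN p) hℓN⟩

end Fermat.Agent.Lib.Newform.H23

end
-- ===== PACK-END Lib/Newform/H23/OldEigen.lean

-- ===== PACK-BEGIN S25/H205/BridgeDef.lean
section



/-!
# Row S25, bridge AS7: `Stmt.Def` from the dictionary and `Stmt.AlgDef` (formal)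

* `glueDatum_isIso_refl`, `glueDatum_isIso_symm`, `glueDatum_isIso_trans`: `GlueDatum.IsIso` is an
  equivalence relation (GDC facts).
* `RigLift`: the GDC fact "rigidifiability lifts along square-zero surjections", as a `Prop`.
* `def_of_alg`: `ChartOf → DictSections → DictGlue → DictIso → DictBC → AlgDef → RigLift → Stmt.Def`.
  (No `DictDeg` is needed: geometric points do not see nilpotents, `def_of_lift`.)
-/

set_option autoImplicit false

universe u

open CategoryTheory CategoryTheory.Limits AlgebraicGeometry AlgebraicGeometry.RelPicard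
  NeronModelInfra GoodReductionJacobian
open scoped TensorProduct

namespace Fermat.Agent.S25.H205

section GDC

variable {A R₀ R₁ R₀₁ : Type u} [CommRing A] [CommRing R₀] [CommRing R₁]
    [CommRing R₀₁] [Algebra A R₀] [Algebra A R₁] [Algebra A R₀₁] [Algebra R₀ R₀₁]
    [Algebra R₁ R₀₁] [IsScalarTower A R₀ R₀₁] [IsScalarTower A R₁ R₀₁]

theorem glueDatum_isIso_refl (G : GlueDatum A R₀ R₁ R₀₁) : G.IsIso G :=
  ⟨⟨LinearEquiv.refl _ _, LinearEquiv.refl _ _, LinearEquiv.refl _ _, fun _ => rfl,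
    fun _ => rfl⟩⟩

theorem glueDatum_isIso_symm {G G' : GlueDatum A R₀ R₁ R₀₁} (h : G.IsIso G') : G'.IsIso G := by
  obtain ⟨e⟩ := h
  refine ⟨⟨e.e₀.symm, e.e₁.symm, e.e₀₁.symm, fun s => ?_, fun s => ?_⟩⟩
  · apply e.e₀₁.injective
    rw [LinearEquiv.apply_symm_apply, e.comm₀, LinearEquiv.apply_symm_apply]
  · apply e.e₀₁.injective
    rw [LinearEquiv.apply_symm_apply, e.comm₁, LinearEquiv.apply_symm_apply]

theorem glueDatum_isIso_trans {G G' G'' : GlueDatum A R₀ R₁ R₀₁} (h : G.IsIso G')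
    (h' : G'.IsIso G'') : G.IsIso G'' := by
  obtain ⟨e⟩ := h
  obtain ⟨e'⟩ := h'
  refine ⟨⟨e.e₀.trans e'.e₀, e.e₁.trans e'.e₁, e.e₀₁.trans e'.e₀₁, fun s => ?_, fun s => ?_⟩⟩
  · simp only [LinearEquiv.trans_apply, e.comm₀, e'.comm₀]
  · simp only [LinearEquiv.trans_apply, e.comm₁, e'.comm₁]

end GDC

section Bridge

variable {k : Type u} [Field k]

/-- GDC fact (as a `Prop`): rigidifiability lifts along square-zero surjections. -/
def RigLift (B₀ B₁ B₀₁ : Type u) [CommRing B₀] [CommRing B₁] [CommRing B₀₁]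
    [Algebra k B₀] [Algebra k B₁] [Algebra k B₀₁] [Algebra B₀ B₀₁] [Algebra B₁ B₀₁]
    [IsScalarTower k B₀ B₀₁] [IsScalarTower k B₁ B₀₁] (e : B₁ →ₐ[k] k) : Prop :=
  ∀ (A : Type u) [CommRing A] [Algebra k A] (I : Ideal A), I ^ 2 = ⊥ →
    ∀ (G : CurveGD k B₀ B₁ B₀₁ A) (G₀ : CurveGD k B₀ B₁ B₀₁ (A ⧸ I)),
      CurveGD.IsBC (Ideal.Quotient.mkₐ k I) G G₀ → G₀.Rigidifiable e → G.Rigidifiable e

variable {C : Scheme.{u}} {c : C ⟶ Spec (CommRingCat.of k)}
  {ε : SchemeHomOver (𝟙 (Spec (CommRingCat.of k))) c}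

/-- **AS7**: `Def` follows formally from the dictionary, `AlgDef` and the GDC fact `RigLift`. -/
theorem def_of_alg (Ch : ChartOf c ε) (hSec : Stmt.DictSections Ch) (hGlue : Stmt.DictGlue Ch)
    (hIso : Stmt.DictIso Ch) (hBC : Stmt.DictBC Ch)
    (hDef : Stmt.AlgDef k Ch.B₀ Ch.B₁ Ch.B₀₁) (hRig : RigLift Ch.B₀ Ch.B₁ Ch.B₀₁ Ch.e) :
    Stmt.Def c ε := by
  refine def_of_lift c ε fun A _ _ I hI M₀ _ => ?_
  obtain ⟨G₀, hG₀, hrig₀⟩ := hSec (A ⧸ I) M₀
  obtain ⟨G, hG⟩ := hDef Ch.x Ch.y Ch.e Ch.isCurveChart A I hI G₀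
  obtain ⟨M, hM⟩ := hGlue A G (hRig A I hI G G₀ hG hrig₀)
  refine ⟨M, ?_⟩
  have h1 := hBC A (A ⧸ I) (Ideal.Quotient.mkₐ k I) M G G₀ hM hG
  exact (hIso (A ⧸ I) _ M₀ G₀ G₀ h1 hG₀).2 (glueDatum_isIso_refl G₀)

end Bridge

end Fermat.Agent.S25.H205

end
-- ===== PACK-END S25/H205/BridgeDef.lean

-- ===== PACK-BEGIN S25/H566/DictUnit.lean
section


/-!
# Row S25, block ABEL/DICT, leaf AB-UNIT: `Stmt.DictUnit`

The unit gluing datum is the gluing datum of sections of the unit line bundle: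
`Corr Ch A (unit bundle over Spec A).L (GlueDatum.unit A (A ⊗ B₀) (A ⊗ B₁) (A ⊗ B₀₁))`.

Main results (namespace `Fermat.Agent.S25.H566`):
* `boxRingEquiv_res` : the ring isomorphisms `boxRingEquiv` commute with restriction;
* `unitSections`, `unitSections_smul`, `unitSections_res` : sections of the unit sheaf of modules
  are functions;
* `chart_isAffine₀₁`, `chart_i₀₁_str` : the intersection chart is affine, with compatible
  `k`-structure;
* `dictUnit Ch` : the statement `Stmt.DictUnit Ch` of `H746/AbelDefs.lean`, unfolded.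
-/

set_option autoImplicit false
universe u
open CategoryTheory CategoryTheory.Limits AlgebraicGeometry AlgebraicGeometry.RelPicard
  NeronModelInfra GoodReductionJacobian
open scoped TensorProduct

namespace Fermat.Agent.S25.H566

noncomputable section

variable {k : Type u} [Field k] {C : Scheme.{u}} {c : C ⟶ Spec (CommRingCat.of k)}
  {ε : SchemeHomOver (𝟙 (Spec (CommRingCat.of k))) c}

/-! ## Restriction of functions -/

section Res

variable (A : Type u) [CommRing A] [Algebra k A]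

theorem resRing_baseToSections {V V' : (pullback c (specStr k A)).Opens} (h : V' ≤ V) (a : A) :
    resRing h (baseToSections (c := c) A V a) = baseToSections (c := c) A V' a := by
  simp only [resRing, baseToSections, CommRingCat.hom_comp, RingHom.coe_comp,
    Function.comp_apply]
  rw [← CommRingCat.comp_apply, ← Functor.map_comp]
  rfl

theorem resRing_curveToSections {U U' : C.Opens} (h : U' ≤ U) (f : Γ(C, U)) :
    resRing (X := pullback c (specStr k A))
        (show preimageOpen (c := c) A U' ≤ preimageOpen (c := c) A U from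
          Scheme.Hom.preimage_mono _ h) (curveToSections (c := c) A U f) =
      curveToSections (c := c) A U' (resRing h f) := by
  simp only [resRing, curveToSections]
  rw [← CommRingCat.comp_apply, ← CommRingCat.comp_apply]
  congr 2
  exact ((pullback.fst c (specStr k A)).naturality (homOfLE h).op).symm

theorem sectionsStr_res {U U' : C.Opens} (h : U' ≤ U) (a : k) :
    resRing h (sectionsStr c U a) = sectionsStr c U' a := by
  simp only [resRing, sectionsStr, CommRingCat.hom_comp, RingHom.coe_comp,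
    Function.comp_apply]
  rw [← CommRingCat.comp_apply, ← Functor.map_comp]
  rfl

variable {A}

/-- The ring isomorphisms `boxRingEquiv` commute with restriction to a smaller chart. -/
theorem boxRingEquiv_res {U U' : C.Opens} (hU : IsAffineOpen U) (hU' : IsAffineOpen U')
    (h : U' ≤ U) {B B' : Type u} [CommRing B] [Algebra k B] [CommRing B'] [Algebra k B']
    [Algebra B B'] [IsScalarTower k B B']
    (i : Γ(C, U) ≃+* B) (hi : ∀ a : k, i (sectionsStr c U a) = algebraMap k B a)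
    (i' : Γ(C, U') ≃+* B') (hi' : ∀ a : k, i' (sectionsStr c U' a) = algebraMap k B' a)
    (hres : ∀ f : Γ(C, U), i' (resRing h f) = algebraMap B B' (i f)) (x : A ⊗[k] B) :
    resRing (X := pullback c (specStr k A))
        (show preimageOpen (c := c) A U' ≤ preimageOpen (c := c) A U from
          Scheme.Hom.preimage_mono _ h) (boxRingEquiv hU i hi x) =
      boxRingEquiv hU' i' hi' (tensorMapRight k A B B' x) := by
  induction x using TensorProduct.induction_on with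
  | zero => simp
  | add x y hx hy => simp only [map_add, hx, hy]
  | tmul a b =>
    have hb : i'.symm (algebraMap B B' b) = resRing h (i.symm b) := by
      rw [RingEquiv.symm_apply_eq, hres, RingEquiv.apply_symm_apply]
    have ht : tensorMapRight k A B B' (a ⊗ₜ[k] b) = a ⊗ₜ[k] algebraMap B B' b := by
      simp [tensorMapRight]
    rw [ht, boxRingEquiv_tmul, boxRingEquiv_tmul, map_mul, resRing_baseToSections,
      resRing_curveToSections, hb]

end Res

/-! ## Sections of the unit sheaf of modules -/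

section UnitSections

variable {X : Scheme.{u}}

/-- The unit sheaf of modules, as an object of `X.Modules`. -/
abbrev unitModule (X : Scheme.{u}) : X.Modules := SheafOfModules.unit X.ringCatSheaf

/-- Sections of the unit sheaf of modules are functions. -/
def unitSections (V : X.Opens) : Γ(unitModule X, V) ≃+ Γ(X, V) := AddEquiv.refl _

theorem unitSections_smul (V : X.Opens) (r : Γ(X, V)) (s : Γ(unitModule X, V)) :
    unitSections V (r • s) = r * unitSections V s := rfl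

theorem unitSections_res {V W : X.Opens} (h : W ≤ V) (s : Γ(unitModule X, V)) :
    unitSections W (resMod (unitModule X) h s) = resRing h (unitSections V s) := rfl

end UnitSections

/-! ## The intersection chart -/

section Chart

variable (Ch : ChartOf c ε)

theorem chart_isAffine₀₁ : IsAffineOpen (Ch.U₀ ⊓ Ch.U₁) := by
  rw [Ch.inf_eq₀]
  exact Ch.isAffine₀.basicOpen _

theorem chart_i₀₁_str (a : k) :
    Ch.i₀₁ (sectionsStr c (Ch.U₀ ⊓ Ch.U₁) a) = algebraMap k Ch.B₀₁ a := by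
  rw [← sectionsStr_res (c := c) (inf_le_left : Ch.U₀ ⊓ Ch.U₁ ≤ Ch.U₀), Ch.i₀₁_res₀, Ch.i₀_str,
    ← IsScalarTower.algebraMap_apply]

end Chart

/-! ## The unit bundle and the unit gluing datum -/

section Unit

variable (Ch : ChartOf c ε) (A : Type u) [CommRing A] [Algebra k A]

/-- Sections of the unit bundle over the preimage of an affine chart, identified with
`A ⊗[k] B`. -/
def unitChartEquiv {U : C.Opens} (hU : IsAffineOpen U) {B : Type u} [CommRing B] [Algebra k B]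
    (i : Γ(C, U) ≃+* B) (hi : ∀ a : k, i (sectionsStr c U a) = algebraMap k B a) :
    Γ(unitModule (pullback c (specStr k A)), preimageOpen (c := c) A U) ≃+ A ⊗[k] B :=
  (unitSections _).trans (boxRingEquiv (A := A) hU i hi).symm.toAddEquiv

theorem unitChartEquiv_apply {U : C.Opens} (hU : IsAffineOpen U) {B : Type u} [CommRing B]
    [Algebra k B] (i : Γ(C, U) ≃+* B) (hi : ∀ a : k, i (sectionsStr c U a) = algebraMap k B a)
    (s : Γ(unitModule (pullback c (specStr k A)), preimageOpen (c := c) A U)) :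
    unitChartEquiv A hU i hi s = (boxRingEquiv (A := A) hU i hi).symm (unitSections _ s) := rfl

theorem isSectionsIso_unitChartEquiv {U : C.Opens} (hU : IsAffineOpen U) {B : Type u}
    [CommRing B] [Algebra k B] (i : Γ(C, U) ≃+* B)
    (hi : ∀ a : k, i (sectionsStr c U a) = algebraMap k B a) :
    IsSectionsIso A (unitModule (pullback c (specStr k A))) U i (unitChartEquiv A hU i hi) := by
  refine ⟨fun a s => ?_, fun f s => ?_⟩
  · rw [unitChartEquiv_apply, unitChartEquiv_apply, unitSections_smul, map_mul,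
      boxRingEquiv_symm_baseToSections, smul_eq_mul]
  · rw [unitChartEquiv_apply, unitChartEquiv_apply, unitSections_smul, map_mul,
      boxRingEquiv_symm_curveToSections, smul_eq_mul]

theorem unitChartEquiv_res {U U' : C.Opens} (hU : IsAffineOpen U) (hU' : IsAffineOpen U')
    (h : U' ≤ U) {B B' : Type u} [CommRing B] [Algebra k B] [CommRing B'] [Algebra k B']
    [Algebra B B'] [IsScalarTower k B B']
    (i : Γ(C, U) ≃+* B) (hi : ∀ a : k, i (sectionsStr c U a) = algebraMap k B a)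
    (i' : Γ(C, U') ≃+* B') (hi' : ∀ a : k, i' (sectionsStr c U' a) = algebraMap k B' a)
    (hres : ∀ f : Γ(C, U), i' (resRing h f) = algebraMap B B' (i f))
    (s : Γ(unitModule (pullback c (specStr k A)), preimageOpen (c := c) A U)) :
    unitChartEquiv A hU' i' hi' (resMod (unitModule (pullback c (specStr k A)))
        (show preimageOpen (c := c) A U' ≤ preimageOpen (c := c) A U from
          Scheme.Hom.preimage_mono _ h) s) =
      tensorMapRight k A B B' (unitChartEquiv A hU i hi s) := by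
  rw [unitChartEquiv_apply, unitChartEquiv_apply, unitSections_res, RingEquiv.symm_apply_eq,
    ← boxRingEquiv_res hU hU' h i hi i' hi' hres, RingEquiv.apply_symm_apply]

/-- **AB-UNIT** (`Stmt.DictUnit Ch` of `H746/AbelDefs.lean`, unfolded): the unit gluing datum is
the gluing datum of sections of the unit bundle. -/
theorem dictUnit :
    Corr Ch A (RigidifiedLineBundle.unit (c := c) (ε := ε) (specStr k A)).L
      (GlueDatum.unit A (A ⊗[k] Ch.B₀) (A ⊗[k] Ch.B₁) (A ⊗[k] Ch.B₀₁)) := by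
  refine ⟨unitChartEquiv A Ch.isAffine₀ Ch.i₀ Ch.i₀_str,
    unitChartEquiv A Ch.isAffine₁ Ch.i₁ Ch.i₁_str,
    unitChartEquiv A (chart_isAffine₀₁ Ch) Ch.i₀₁ (chart_i₀₁_str Ch),
    isSectionsIso_unitChartEquiv A _ _ _, isSectionsIso_unitChartEquiv A _ _ _,
    isSectionsIso_unitChartEquiv A _ _ _, fun s => ?_, fun s => ?_⟩
  · exact unitChartEquiv_res A Ch.isAffine₀ (chart_isAffine₀₁ Ch) inf_le_left Ch.i₀ Ch.i₀_str Ch.i₀₁
      (chart_i₀₁_str Ch) Ch.i₀₁_res₀ s
  · exact unitChartEquiv_res A Ch.isAffine₁ (chart_isAffine₀₁ Ch) inf_le_right Ch.i₁ Ch.i₁_str Ch.i₀₁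
      (chart_i₀₁_str Ch) Ch.i₀₁_res₁ s

end Unit

end

end Fermat.Agent.S25.H566

end
-- ===== PACK-END S25/H566/DictUnit.lean

-- ===== PACK-BEGIN S25/H687/DDFamily.lean
section
/-
S25, block DICTDEG (helper687): scheme bookkeeping for `FamilyData`.
-/



set_option autoImplicit false
set_option linter.unusedSimpArgs false
universe u
open CategoryTheory CategoryTheory.Limits AlgebraicGeometry AlgebraicGeometry.RelPicard
  NeronModelInfra GoodReductionJacobian
open scoped TensorProduct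

namespace Fermat.Agent.S25.H687

noncomputable section

variable {k : Type u} [Field k] {C : Scheme.{u}} {c : C ⟶ Spec (CommRingCat.of k)}
  {ε : SchemeHomOver (𝟙 (Spec (CommRingCat.of k))) c}

/-! ### Part A: rigidified pullbacks of a family -/

/-- The pullback of an invertible module `N` on `C × T` along `S ⟶ T`, as a rigidified line
bundle, when the pullback of `N` to `S` along the marked section is trivial. -/
def rigidifiedOfPullback {T S : Scheme.{u}} {τ : T ⟶ Spec (CommRingCat.of k)}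
    {s' : S ⟶ Spec (CommRingCat.of k)} (N : (pullback c τ).Modules)
    (hN : Scheme.Modules.IsInvertible N) (ψ : SchemeHomOver s' τ)
    (hrig : Nonempty ((Scheme.Modules.pullback ψ.1).obj
      ((Scheme.Modules.pullback (rigSection c τ ε)).obj N) ≅
        SheafOfModules.unit S.ringCatSheaf)) :
    RigidifiedLineBundle c ε s' where
  L := (Scheme.Modules.pullback (baseChangeSnd c ψ)).obj N
  isInvertible := hN.pullback _
  rigidified := ⟨pullbackIsoOfSq _ _ _ _ (rigSection_baseChangeSnd c ε ψ) N ≪≫ hrig.some⟩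

/-- Pulling back `rigidifiedOfPullback` further. -/
theorem rigidifiedOfPullback_pullbackAlong {T S S' : Scheme.{u}}
    {τ : T ⟶ Spec (CommRingCat.of k)} {s' : S ⟶ Spec (CommRingCat.of k)}
    {s'' : S' ⟶ Spec (CommRingCat.of k)} (N : (pullback c τ).Modules)
    (hN : Scheme.Modules.IsInvertible N) (ψ : SchemeHomOver s' τ)
    (hrig : Nonempty ((Scheme.Modules.pullback ψ.1).obj
      ((Scheme.Modules.pullback (rigSection c τ ε)).obj N) ≅
        SheafOfModules.unit S.ringCatSheaf))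
    (φ : SchemeHomOver s'' s') (ψ' : SchemeHomOver s'' τ) (hψ : φ.1 ≫ ψ.1 = ψ'.1) :
    Nonempty (((rigidifiedOfPullback (ε := ε) N hN ψ hrig).pullbackAlong φ).L ≅
      (Scheme.Modules.pullback (baseChangeSnd c ψ')).obj N) := by
  have h1 : baseChangeSnd c φ ≫ baseChangeSnd c ψ = baseChangeSnd c ψ' := by
    rw [baseChangeSnd_comp]
    congr 1
    exact Subtype.ext hψ
  exact ⟨pullbackIsoOfFac _ _ _ h1 N⟩

/-! ### Part B: a family over `T' ⟶ Spec K` as a family over `T' ⟶ Spec k` -/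

/-- The canonical map `C ×_k T' ⟶ C_S ×_S T'`. -/
def theta {K : Type u} [CommRing K] {T' : Scheme.{u}} (c : C ⟶ Spec (CommRingCat.of k))
    (σ : Spec (CommRingCat.of K) ⟶ Spec (CommRingCat.of k)) (h : T' ⟶ Spec (CommRingCat.of K)) :
    pullback c (h ≫ σ) ⟶ pullback (pullback.snd c σ) h :=
  pullback.lift
    (pullback.lift (pullback.fst c (h ≫ σ)) (pullback.snd c (h ≫ σ) ≫ h)
      (by rw [pullback.condition, Category.assoc]))
    (pullback.snd c (h ≫ σ)) (pullback.lift_snd _ _ _)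

/-- A section `t` of `h : T' ⟶ S`, as a morphism over `Spec k`. -/
def sectionOver {K : Type u} [CommRing K] {T' : Scheme.{u}} (σ : Spec (CommRingCat.of K) ⟶ Spec (CommRingCat.of k)) {h : T' ⟶ Spec (CommRingCat.of K)}
    (t : SchemeHomOver (𝟙 (Spec (CommRingCat.of K))) h) : SchemeHomOver σ (h ≫ σ) :=
  ⟨t.1, by rw [← Category.assoc, t.2, Category.id_comp]⟩

/-- The inverse of the projection `C_S ×_S S ⟶ C_S`. -/
def idSection {K : Type u} [CommRing K] (c : C ⟶ Spec (CommRingCat.of k))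
    (σ : Spec (CommRingCat.of K) ⟶ Spec (CommRingCat.of k)) :
    pullback c σ ⟶ pullback (pullback.snd c σ) (𝟙 (Spec (CommRingCat.of K))) :=
  pullback.lift (𝟙 _) (pullback.snd c σ) (by simp)

theorem idSection_fst {K : Type u} [CommRing K] (c : C ⟶ Spec (CommRingCat.of k))
    (σ : Spec (CommRingCat.of K) ⟶ Spec (CommRingCat.of k)) :
    idSection c σ ≫ pullback.fst (pullback.snd c σ) (𝟙 (Spec (CommRingCat.of K))) = 𝟙 _ :=
  pullback.lift_fst _ _ _

theorem baseChangeSnd_sectionOver_theta {K : Type u} [CommRing K] {T' : Scheme.{u}}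
    (σ : Spec (CommRingCat.of K) ⟶ Spec (CommRingCat.of k)) {h : T' ⟶ Spec (CommRingCat.of K)} (t : SchemeHomOver (𝟙 (Spec (CommRingCat.of K))) h) :
    baseChangeSnd c (sectionOver σ t) ≫ theta c σ h =
      idSection c σ ≫ baseChangeSnd (pullback.snd c σ) t := by
  apply pullback.hom_ext
  · apply pullback.hom_ext
    · simp only [baseChangeSnd, theta, idSection, sectionOver, Category.assoc, pullback.lift_fst,
        pullback.lift_snd, pullback.lift_fst_assoc, pullback.lift_snd_assoc, Category.comp_id,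
        Category.id_comp]
    · simp only [baseChangeSnd, theta, idSection, sectionOver, Category.assoc, pullback.lift_fst,
        pullback.lift_snd, pullback.lift_fst_assoc, pullback.lift_snd_assoc, Category.comp_id,
        Category.id_comp]
      rw [t.2, Category.comp_id]
  · simp only [baseChangeSnd, theta, idSection, sectionOver, Category.assoc, pullback.lift_fst,
      pullback.lift_snd, pullback.lift_fst_assoc, pullback.lift_snd_assoc, Category.comp_id,
      Category.id_comp]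

/-- The fibre at a section `t` of the family `theta^* N`. -/
def fibreIso {K : Type u} [CommRing K] {T' : Scheme.{u}} (σ : Spec (CommRingCat.of K) ⟶ Spec (CommRingCat.of k)) {h : T' ⟶ Spec (CommRingCat.of K)}
    (N : (pullback (pullback.snd c σ) h).Modules) (t : SchemeHomOver (𝟙 (Spec (CommRingCat.of K))) h) :
    (Scheme.Modules.pullback (baseChangeSnd c (sectionOver σ t))).obj
        ((Scheme.Modules.pullback (theta c σ h)).obj N) ≅
      (Scheme.Modules.pullback (idSection c σ)).obj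
        ((Scheme.Modules.pullback (baseChangeSnd (pullback.snd c σ) t)).obj N) :=
  pullbackIsoOfSq _ _ _ _ (baseChangeSnd_sectionOver_theta σ t) N

/-- If the fibre of `N` at `t` is `fst^* L`, then the fibre of `theta^* N` is `L`. -/
def fibreIsoOfIso {K : Type u} [CommRing K] {T' : Scheme.{u}} (σ : Spec (CommRingCat.of K) ⟶ Spec (CommRingCat.of k)) {h : T' ⟶ Spec (CommRingCat.of K)}
    (N : (pullback (pullback.snd c σ) h).Modules) (t : SchemeHomOver (𝟙 (Spec (CommRingCat.of K))) h)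
    (L : (pullback c σ).Modules)
    (e : (Scheme.Modules.pullback (baseChangeSnd (pullback.snd c σ) t)).obj N ≅
      (Scheme.Modules.pullback (pullback.fst (pullback.snd c σ) (𝟙 (Spec (CommRingCat.of K))))).obj L) :
    (Scheme.Modules.pullback (baseChangeSnd c (sectionOver σ t))).obj
        ((Scheme.Modules.pullback (theta c σ h)).obj N) ≅ L :=
  fibreIso σ N t ≪≫ (Scheme.Modules.pullback (idSection c σ)).mapIso e ≪≫
    pullbackIsoOfFac _ _ _ (idSection_fst c σ) L ≪≫ (Scheme.Modules.pullbackId _).app L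

/-- If the fibre of `N` at `t` is trivial, then so is the fibre of `theta^* N`. -/
def fibreIsoOfUnit {K : Type u} [CommRing K] {T' : Scheme.{u}} (σ : Spec (CommRingCat.of K) ⟶ Spec (CommRingCat.of k)) {h : T' ⟶ Spec (CommRingCat.of K)}
    (N : (pullback (pullback.snd c σ) h).Modules) (t : SchemeHomOver (𝟙 (Spec (CommRingCat.of K))) h)
    (e : (Scheme.Modules.pullback (baseChangeSnd (pullback.snd c σ) t)).obj N ≅
      SheafOfModules.unit (pullback (pullback.snd c σ) (𝟙 (Spec (CommRingCat.of K)))).ringCatSheaf) :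
    (Scheme.Modules.pullback (baseChangeSnd c (sectionOver σ t))).obj
        ((Scheme.Modules.pullback (theta c σ h)).obj N) ≅
      SheafOfModules.unit (pullback c σ).ringCatSheaf :=
  fibreIso σ N t ≪≫ (Scheme.Modules.pullback (idSection c σ)).mapIso e ≪≫
    Scheme.Modules.pullbackUnitIso _

/-! ### Part D: trivialising affine opens -/

/-- An invertible module is trivial after pullback along any morphism factoring through a
trivialising open. -/
theorem nonempty_pullback_iso_unit_of_fac {T S : Scheme.{u}} (E : T.Modules) (U : T.Opens)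
    (hU : Nonempty ((Scheme.Modules.pullback U.ι).obj E ≅
      SheafOfModules.unit U.toScheme.ringCatSheaf))
    (j : S ⟶ T) (g : S ⟶ U.toScheme) (hg : g ≫ U.ι = j) :
    Nonempty ((Scheme.Modules.pullback j).obj E ≅ SheafOfModules.unit S.ringCatSheaf) := by
  obtain ⟨e⟩ := hU
  exact ⟨(pullbackIsoOfFac g U.ι j hg E).symm ≪≫ (Scheme.Modules.pullback g).mapIso e ≪≫
    Scheme.Modules.pullbackUnitIso g⟩

/-- Around every point there is an affine open `W` such that the invertible module `E` becomes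
trivial on `Spec Γ(T, W)`. -/
theorem exists_isAffineOpen_trivial {T : Scheme.{u}} (E : T.Modules)
    (hE : Scheme.Modules.IsInvertible E) (x : T) :
    ∃ (W : T.Opens) (hW : IsAffineOpen W), x ∈ W ∧
      Nonempty ((Scheme.Modules.pullback hW.fromSpec).obj E ≅
        SheafOfModules.unit (Spec Γ(T, W)).ringCatSheaf) := by
  obtain ⟨U, hxU, hU⟩ := hE.exists_trivialization x
  obtain ⟨_, ⟨W, hW', rfl⟩, hxW, hWU'⟩ :=
    T.isBasis_affineOpens.exists_subset_of_mem_open hxU U.isOpen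
  have hW : IsAffineOpen W := hW'
  have hWU : W ≤ U := hWU'
  refine ⟨W, hW, hxW, ?_⟩
  refine nonempty_pullback_iso_unit_of_fac E U hU hW.fromSpec
    (hW.isoSpec.inv ≫ T.homOfLE hWU) ?_
  rw [Category.assoc, Scheme.homOfLE_ι, IsAffineOpen.isoSpec_inv_ι]

/-! ### Part E: `k`-algebra structures -/

/-- A ring homomorphism between `k`-algebras which is compatible with the structure morphisms
of the spectra is a `k`-algebra homomorphism. -/
theorem commutes_of_spec {A R : Type u} [CommRing A] [CommRing R] [Algebra k A] [Algebra k R]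
    (α : A →+* R)
    (h : Spec.map (CommRingCat.ofHom α) ≫ specStr k A = specStr k R) (r : k) :
    α (algebraMap k A r) = algebraMap k R r := by
  have h1 : Spec.map (CommRingCat.ofHom (algebraMap k A) ≫ CommRingCat.ofHom α) =
      Spec.map (CommRingCat.ofHom (algebraMap k R)) := by
    rw [Spec.map_comp]
    exact h
  have h2 := Spec.map_injective h1
  have h3 := congrArg (fun f => f.hom r) h2
  simpa using h3

/-! ### Part F: assembly -/

theorem genericPoint_mem_of_nonempty' {T : Scheme.{u}} [IsIntegral T] (U : T.Opens)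
    (h : Nonempty U) : genericPoint T ∈ U :=
  ((genericPoint_spec T).mem_open_set_iff U.isOpen).mpr (by simpa using h)

/-- **FAMILY-DATA.** -/
theorem familyData (c : C ⟶ Spec (CommRingCat.of k))
    (ε : SchemeHomOver (𝟙 (Spec (CommRingCat.of k))) c) : FamilyData c ε := by
  intro K _ _ _ L hL
  obtain ⟨T', h, hft, hgi, N, hN, t₀, t₁, ⟨e₀⟩, ⟨e₁⟩⟩ := hL
  have hint : IsIntegral T' := GeometricallyIntegral.isIntegral_of_subsingleton h
  let σ : Spec (CommRingCat.of K) ⟶ Spec (CommRingCat.of k) := specStr k K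
  let τ : T' ⟶ Spec (CommRingCat.of k) := h ≫ σ
  let N' : (pullback c τ).Modules := (Scheme.Modules.pullback (theta c σ h)).obj N
  have hN' : Scheme.Modules.IsInvertible N' := hN.pullback _
  let E : T'.Modules := (Scheme.Modules.pullback (rigSection c τ ε)).obj N'
  have hE : Scheme.Modules.IsInvertible E := hN'.pullback _
  -- the two points and their affine neighbourhoods
  let x₀ : T' := t₀.1 (IsLocalRing.closedPoint K)
  let x₁ : T' := t₁.1 (IsLocalRing.closedPoint K)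
  obtain ⟨W₀, hW₀, hx₀, hrig₀⟩ := exists_isAffineOpen_trivial E hE x₀
  obtain ⟨W₁, hW₁, hx₁, hrig₁⟩ := exists_isAffineOpen_trivial E hE x₁
  have hne₀ : Nonempty W₀ := ⟨⟨x₀, hx₀⟩⟩
  have hne₁ : Nonempty W₁ := ⟨⟨x₁, hx₁⟩⟩
  -- ring homomorphisms out of the rings of sections
  let α₀ : Γ(T', W₀) ⟶ CommRingCat.of K :=
    T'.presheaf.germ W₀ x₀ hx₀ ≫ Scheme.stalkClosedPointTo t₀.1
  let α₁ : Γ(T', W₁) ⟶ CommRingCat.of K :=
    T'.presheaf.germ W₁ x₁ hx₁ ≫ Scheme.stalkClosedPointTo t₁.1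
  let β₀ : Γ(T', W₀) ⟶ T'.functionField := T'.germToFunctionField W₀
  let β₁ : Γ(T', W₁) ⟶ T'.functionField := T'.germToFunctionField W₁
  let ηmap : Spec T'.functionField ⟶ T' := T'.fromSpecStalk (genericPoint T')
  have hα₀ : Spec.map α₀ ≫ hW₀.fromSpec = t₀.1 := by
    rw [Spec.map_comp, Category.assoc]
    have := hW₀.fromSpecStalk_eq_fromSpecStalk hx₀
    rw [IsAffineOpen.fromSpecStalk] at this
    rw [this]
    exact Scheme.Spec_stalkClosedPointTo_fromSpecStalk t₀.1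
  have hα₁ : Spec.map α₁ ≫ hW₁.fromSpec = t₁.1 := by
    rw [Spec.map_comp, Category.assoc]
    have := hW₁.fromSpecStalk_eq_fromSpecStalk hx₁
    rw [IsAffineOpen.fromSpecStalk] at this
    rw [this]
    exact Scheme.Spec_stalkClosedPointTo_fromSpecStalk t₁.1
  have hβ₀ : Spec.map β₀ ≫ hW₀.fromSpec = ηmap :=
    hW₀.fromSpecStalk_eq_fromSpecStalk (genericPoint_mem_of_nonempty' W₀ hne₀)
  have hβ₁ : Spec.map β₁ ≫ hW₁.fromSpec = ηmap :=
    hW₁.fromSpecStalk_eq_fromSpecStalk (genericPoint_mem_of_nonempty' W₁ hne₁)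
  -- `k`-algebra structures
  let algA₀ : Algebra k Γ(T', W₀) := (Spec.preimage (hW₀.fromSpec ≫ τ)).hom.toAlgebra
  let algA₁ : Algebra k Γ(T', W₁) := (Spec.preimage (hW₁.fromSpec ≫ τ)).hom.toAlgebra
  let algF : Algebra k T'.functionField := (Spec.preimage (ηmap ≫ τ)).hom.toAlgebra
  have hstr₀ : hW₀.fromSpec ≫ τ = specStr k Γ(T', W₀) := (Spec.map_preimage _).symm
  have hstr₁ : hW₁.fromSpec ≫ τ = specStr k Γ(T', W₁) := (Spec.map_preimage _).symm
  have hstrF : ηmap ≫ τ = specStr k T'.functionField := (Spec.map_preimage _).symm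
  have hstrK₀ : t₀.1 ≫ τ = specStr k K := by
    rw [← Category.assoc, t₀.2, Category.id_comp]
  have hstrK₁ : t₁.1 ≫ τ = specStr k K := by
    rw [← Category.assoc, t₁.2, Category.id_comp]
  -- the algebra homomorphisms
  let a₀ : Γ(T', W₀) →ₐ[k] K :=
    { α₀.hom with
      commutes' := commutes_of_spec α₀.hom (by
        rw [← hstr₀, ← hstrK₀, ← hα₀, Category.assoc]; rfl) }
  let a₁ : Γ(T', W₁) →ₐ[k] K :=
    { α₁.hom with
      commutes' := commutes_of_spec α₁.hom (by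
        rw [← hstr₁, ← hstrK₁, ← hα₁, Category.assoc]; rfl) }
  let b₀ : Γ(T', W₀) →ₐ[k] T'.functionField :=
    { β₀.hom with
      commutes' := commutes_of_spec β₀.hom (by
        rw [← hstr₀, ← hstrF, ← hβ₀, Category.assoc]; rfl) }
  let b₁ : Γ(T', W₁) →ₐ[k] T'.functionField :=
    { β₁.hom with
      commutes' := commutes_of_spec β₁.hom (by
        rw [← hstr₁, ← hstrF, ← hβ₁, Category.assoc]; rfl) }
  -- the rigidified families
  let ψ₀ : SchemeHomOver (specStr k Γ(T', W₀)) τ := ⟨hW₀.fromSpec, hstr₀⟩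
  let ψ₁ : SchemeHomOver (specStr k Γ(T', W₁)) τ := ⟨hW₁.fromSpec, hstr₁⟩
  let N₀ : RigidifiedLineBundle c ε (specStr k Γ(T', W₀)) :=
    rigidifiedOfPullback N' hN' ψ₀ hrig₀
  let N₁ : RigidifiedLineBundle c ε (specStr k Γ(T', W₁)) :=
    rigidifiedOfPullback N' hN' ψ₁ hrig₁
  let η' : SchemeHomOver (specStr k T'.functionField) τ := ⟨ηmap, hstrF⟩
  refine ⟨Γ(T', W₀), Γ(T', W₁), T'.functionField, inferInstance, inferInstance, inferInstance,
    inferInstance, inferInstance, algA₀, algA₁, algF, N₀, N₁, a₀, a₁, b₀, b₁, ?_, ?_, ?_⟩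
  · obtain ⟨i⟩ := rigidifiedOfPullback_pullbackAlong (ε := ε) N' hN' ψ₀ hrig₀
      (specHomOver k a₀) (sectionOver σ t₀) hα₀
    exact ⟨i ≪≫ fibreIsoOfUnit σ N t₀ e₀⟩
  · obtain ⟨i⟩ := rigidifiedOfPullback_pullbackAlong (ε := ε) N' hN' ψ₁ hrig₁
      (specHomOver k a₁) (sectionOver σ t₁) hα₁
    exact ⟨i ≪≫ fibreIsoOfIso σ N t₁ L.L e₁⟩
  · obtain ⟨i⟩ := rigidifiedOfPullback_pullbackAlong (ε := ε) N' hN' ψ₀ hrig₀
      (specHomOver k b₀) η' hβ₀
    obtain ⟨j⟩ := rigidifiedOfPullback_pullbackAlong (ε := ε) N' hN' ψ₁ hrig₁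
      (specHomOver k b₁) η' hβ₁
    exact ⟨i ≪≫ j.symm⟩

end

end Fermat.Agent.S25.H687

end
-- ===== PACK-END S25/H687/DDFamily.lean

-- ===== PACK-BEGIN S25/H986/AffineLocalization.lean
section




/-!
# S25 / block DICT: sections of a quasi-coherent module over basic opens of an affine open

* `exists_pow_smul_eq_map` : for `M` quasi-coherent, `P` affine open, `g ∈ Γ(X, P)` and
  `t ∈ Γ(M, D(g))` there are `n` and `m ∈ Γ(M, P)` with `g ^ n • t = m|_{D(g)}`.
* `eq_of_natural_linear_of_eq_on_affine` (**Lemma U**) : two natural, linear families of maps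
  `Γ(M, W) → Γ(M', W)` (`W ≤ P`) which agree on `P` agree on every `W ≤ P`.
-/

set_option autoImplicit false

universe u

open CategoryTheory AlgebraicGeometry TopologicalSpace Opposite

namespace Fermat.Agent.S25.H986

noncomputable section

variable {X : Scheme.{u}} {P : X.Opens}

open Fermat.Agent.S25.H926 in
/-- Surjectivity part of "sections over a basic open are the localization": for a
quasi-coherent module `M`, every section over `D(g) ⊆ P` becomes a restriction of a section over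
`P` after multiplication by a power of `g`. -/
theorem exists_pow_smul_eq_map (hP : IsAffineOpen P) (M : X.Modules) [M.IsQuasicoherent]
    (g : Γ(X, P))
    (t : Γ(M, X.basicOpen g)) :
    ∃ (n : ℕ) (m : Γ(M, P)),
      (X.presheaf.map (homOfLE (X.basicOpen_le g)).op g) ^ n • t =
        M.presheaf.map (homOfLE (X.basicOpen_le g)).op m := by
  have hN : (M.restrict hP.fromSpec).IsQuasicoherent := inferInstance
  have hiso : IsIso (M.restrict hP.fromSpec).fromTildeΓ := inferInstance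
  have hloc := (isIso_fromTildeΓ_iff_isLocalizing (M.restrict hP.fromSpec)).mp hiso g
  obtain ⟨D, hD⟩ : ∃ D : (Spec Γ(X, P)).Opens, D = PrimeSpectrum.basicOpen g := ⟨_, rfl⟩
  have himg : hP.fromSpec ''ᵁ D = X.basicOpen g := by
    rw [hD]; exact hP.fromSpec_image_basicOpen g
  -- transport `t` to a section of the restriction over `basicOpen g`
  let t' : Γ(M.restrict hP.fromSpec, D) :=
    toRestr hP.fromSpec M _ (M.presheaf.map (homOfLE himg.le).op t)
  have hsurj : ∃ (n : ℕ) (m' : Γ(M.restrict hP.fromSpec, ⊤)),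
      (g ^ n) • t' = (M.restrict hP.fromSpec).presheaf.map (homOfLE (le_top : D ≤ ⊤)).op m' := by
    subst hD
    obtain ⟨⟨m', ⟨_, n, rfl⟩⟩, hm'⟩ := hloc.surj t'
    exact ⟨n, m', hm'⟩
  obtain ⟨n, m', hm'⟩ := hsurj
  refine ⟨n, M.presheaf.map (homOfLE (le_fromSpec_image_top hP)).op (ofRestr hP.fromSpec M ⊤ m'),
    ?_⟩
  -- read the identity `g ^ n • t' = res m'` in `Γ(M, fromSpec '' D(g))`
  have h1 : ofRestr hP.fromSpec M _ ((g ^ n) • t') =
      M.presheaf.map (homOfLE (hP.fromSpec.image_mono (le_top : D ≤ ⊤))).op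
        (ofRestr hP.fromSpec M ⊤ m') := by
    have := congrArg (ofRestr hP.fromSpec M D) hm'
    exact this
  rw [smul_restrict_fromSpec, ofRestr_toRestr] at h1
  -- transport along `fromSpec '' D(g) = X.basicOpen g`
  have h2 := congrArg (M.presheaf.map (homOfLE himg.ge).op) h1
  rw [Scheme.Modules.map_smul, presheaf_map_map M _ _ (𝟙 _), presheaf_map_self,
    presheaf_map_map_fun X _ _ (homOfLE (X.basicOpen_le g)), map_pow,
    presheaf_map_map M _ _ (homOfLE ((X.basicOpen_le g).trans (le_fromSpec_image_top hP)))] at h2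
  rw [h2, presheaf_map_map M _ _ (homOfLE ((X.basicOpen_le g).trans (le_fromSpec_image_top hP)))]

open Fermat.Agent.S25.H926 in
/-- **Lemma U.** Let `P` be an affine open of `X` and `M` a quasi-coherent module. Two families
of additive maps `Γ(M, W) → Γ(M', W)`, `W ≤ P`, which are natural in `W` and linear, and which
agree on `P`, agree on every `W ≤ P`. -/
theorem eq_of_natural_linear_of_eq_on_affine (hP : IsAffineOpen P) (M M' : X.Modules)
    [M.IsQuasicoherent]
    (a b : ∀ W : X.Opens, W ≤ P → (Γ(M, W) →+ Γ(M', W)))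
    (a_nat : ∀ (W W' : X.Opens) (hW : W ≤ P) (h : W' ≤ W) (s : Γ(M, W)),
      a W' (h.trans hW) (M.presheaf.map (homOfLE h).op s) =
        M'.presheaf.map (homOfLE h).op (a W hW s))
    (a_lin : ∀ (W : X.Opens) (hW : W ≤ P) (r : Γ(X, W)) (s : Γ(M, W)),
      a W hW (r • s) = r • a W hW s)
    (b_nat : ∀ (W W' : X.Opens) (hW : W ≤ P) (h : W' ≤ W) (s : Γ(M, W)),
      b W' (h.trans hW) (M.presheaf.map (homOfLE h).op s) =
        M'.presheaf.map (homOfLE h).op (b W hW s))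
    (b_lin : ∀ (W : X.Opens) (hW : W ≤ P) (r : Γ(X, W)) (s : Γ(M, W)),
      b W hW (r • s) = r • b W hW s)
    (hab : ∀ s : Γ(M, P), a P le_rfl s = b P le_rfl s)
    (W : X.Opens) (hW : W ≤ P) (s : Γ(M, W)) : a W hW s = b W hW s := by
  -- Step 1: basic opens
  have step1 : ∀ (g : Γ(X, P)) (t : Γ(M, X.basicOpen g)),
      a (X.basicOpen g) (X.basicOpen_le g) t = b (X.basicOpen g) (X.basicOpen_le g) t := by
    intro g t
    obtain ⟨n, m, hm⟩ := exists_pow_smul_eq_map hP M g t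
    have hu : IsUnit ((X.presheaf.map (homOfLE (X.basicOpen_le g)).op g) ^ n) :=
      (RingedSpace.isUnit_res_basicOpen X.toRingedSpace g).pow n
    have h1 : (X.presheaf.map (homOfLE (X.basicOpen_le g)).op g) ^ n •
        a (X.basicOpen g) (X.basicOpen_le g) t =
        (X.presheaf.map (homOfLE (X.basicOpen_le g)).op g) ^ n •
        b (X.basicOpen g) (X.basicOpen_le g) t := by
      rw [← a_lin, ← b_lin, hm, a_nat P _ le_rfl, b_nat P _ le_rfl, hab]
    exact hu.smul_left_cancel.mp h1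
  -- Step 2: locality
  refine TopCat.Sheaf.eq_of_locally_eq' ⟨M'.presheaf, M'.isSheaf⟩
    (fun g : {g : Γ(X, P) // X.basicOpen g ≤ W} => X.basicOpen g.1) W
    (fun g => homOfLE g.2) ?_ _ _ (fun g => ?_)
  · intro x hx
    obtain ⟨g, hgW, hxg⟩ := hP.exists_basicOpen_le ⟨x, hx⟩ (hW hx)
    exact Opens.mem_iSup.mpr ⟨⟨g, hgW⟩, hxg⟩
  · change M'.presheaf.map (homOfLE g.2).op (a W hW s) = M'.presheaf.map (homOfLE g.2).op (b W hW s)
    rw [← a_nat W _ hW g.2, ← b_nat W _ hW g.2]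
    exact step1 g.1 _

end

end Fermat.Agent.S25.H986

end
-- ===== PACK-END S25/H986/AffineLocalization.lean

-- ===== PACK-BEGIN S41/H581/RestrictCusp.lean
section



/-!
# Row S41, block HK, leaf RC (helper581)

`restrictCusp : Spec.RestrictCuspStatement` — the degeneracy maps `r₁, r₂` preserve cuspidal
classes: `incl` and `conjDelta` preserve the trace and send elements of finite order to elements
of finite order.
-/

set_option autoImplicit false

namespace Fermat.Agent.S41.H581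

open CongruenceSubgroup Matrix.SpecialLinearGroup ModularCurve.Period
open Fermat.Agent.S41.Spec
open scoped MatrixGroups

universe u

theorem trace_incl (N q : ℕ) (γ : Gamma0 (N * q)) :
    (((incl N q γ : Gamma0 N) : SL(2, ℤ)) : Matrix (Fin 2) (Fin 2) ℤ).trace =
      ((γ : SL(2, ℤ)) : Matrix (Fin 2) (Fin 2) ℤ).trace := rfl

theorem trace_conjDelta (N q : ℕ) (γ : Gamma0 (N * q)) :
    (((conjDelta N q γ : Gamma0 N) : SL(2, ℤ)) : Matrix (Fin 2) (Fin 2) ℤ).trace =
      ((γ : SL(2, ℤ)) : Matrix (Fin 2) (Fin 2) ℤ).trace := by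
  change (conjDeltaMatrix q (γ : SL(2, ℤ))).trace = _
  simp [conjDeltaMatrix, Matrix.trace_fin_two]

/-- Composition with a trace-preserving homomorphism preserves cuspidality. -/
theorem isCuspidal_comp_of_trace {A : Type*} [AddCommGroup A] {n m : ℕ}
    (f : Gamma0 m →* Gamma0 n)
    (hf : ∀ γ : Gamma0 m, (((f γ : Gamma0 n) : SL(2, ℤ)) : Matrix (Fin 2) (Fin 2) ℤ).trace =
      ((γ : SL(2, ℤ)) : Matrix (Fin 2) (Fin 2) ℤ).trace)
    (φ : Additive (Gamma0 n) →+ A) (hφ : IsCuspidal φ) :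
    IsCuspidal (φ.comp (MonoidHom.toAdditive f)) := by
  refine ⟨fun γ hγ => ?_, fun γ hγ => ?_⟩
  · exact hφ.1 (f γ) (by rw [hf]; exact hγ)
  · exact hφ.2 (f γ) (f.isOfFinOrder hγ)

/-- (HK-1a) `r₁, r₂` preserve cuspidal classes. -/
theorem restrictCusp : Spec.RestrictCuspStatement.{u} := by
  intro N q A _ φ hφ
  exact ⟨isCuspidal_comp_of_trace (incl N q) (trace_incl N q) φ hφ,
    isCuspidal_comp_of_trace (conjDelta N q) (trace_conjDelta N q) φ hφ⟩

end Fermat.Agent.S41.H581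

end
-- ===== PACK-END S41/H581/RestrictCusp.lean

-- ===== PACK-BEGIN S41/H581/TransferBasic.lean
section



/-!
# Row S41, block HK (helper581): basic facts on Mathlib's transfer and `Spec.transferAlong`

* `transfer_mul_h581`, `transfer_comp_h581` : the transfer is multiplicative in the character and
  natural in the coefficient group;
* `transferAlong_add`, `transferAlong_comp` : the same for `Spec.transferAlong`;
* `transferAlong_eq_zero_of` : the cycle formula in the form "if `ψ` kills every `h` with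
  `f h = t⁻¹ g ^ k t`, then the transfer of `ψ` kills `g`" (`f` may be assumed injective).
-/

set_option autoImplicit false

namespace Fermat.Agent.S41.H581

open Subgroup Subgroup.leftTransversals

section Mul

variable {G : Type*} [Group G] {H : Subgroup G} {A : Type*} [CommGroup A]

theorem diff_mul_h581 [H.FiniteIndex] (ϕ ϕ' : H →* A) (S T : H.LeftTransversal) :
    diff (ϕ * ϕ') S T = diff ϕ S T * diff ϕ' S T := by
  unfold diff
  simp only [MonoidHom.mul_apply]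
  exact Finset.prod_mul_distrib

theorem diff_comp_h581 {B : Type*} [CommGroup B] [H.FiniteIndex] (π : A →* B) (ϕ : H →* A)
    (S T : H.LeftTransversal) :
    diff (π.comp ϕ) S T = π (diff ϕ S T) := by
  unfold diff
  simp only [MonoidHom.comp_apply, map_prod]

theorem transfer_mul_h581 [H.FiniteIndex] (ϕ ϕ' : H →* A) :
    MonoidHom.transfer (ϕ * ϕ') = MonoidHom.transfer ϕ * MonoidHom.transfer ϕ' := by
  ext g
  rw [MonoidHom.mul_apply, MonoidHom.transfer_def (ϕ * ϕ') default g,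
    MonoidHom.transfer_def ϕ default g, MonoidHom.transfer_def ϕ' default g, diff_mul_h581]

theorem transfer_comp_h581 {B : Type*} [CommGroup B] [H.FiniteIndex] (π : A →* B) (ϕ : H →* A) :
    MonoidHom.transfer (π.comp ϕ) = π.comp (MonoidHom.transfer ϕ) := by
  ext g
  rw [MonoidHom.comp_apply, MonoidHom.transfer_def (π.comp ϕ) default g,
    MonoidHom.transfer_def ϕ default g, diff_comp_h581]

/-- Cycle formula, vanishing form. -/
theorem transfer_eq_one_of_h581 [H.FiniteIndex] (ϕ : H →* A) (g : G)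
    (h : ∀ (k : ℕ) (t : G) (hk : t⁻¹ * g ^ k * t ∈ H), ϕ ⟨t⁻¹ * g ^ k * t, hk⟩ = 1) :
    MonoidHom.transfer ϕ g = 1 := by
  classical
  let := H.fintypeQuotientOfFiniteIndex
  rw [MonoidHom.transfer_eq_prod_quotient_orbitRel_zpowers_quot]
  exact Finset.prod_eq_one fun q _ => h _ _ _

end Mul

section Along

open Fermat.Agent.S41.Spec

variable {A : Type*} [AddCommGroup A] {H G : Type*} [Group H] [Group G]

theorem transferAlong_of_not (f : H →* G) (h : ¬ (Function.Injective f ∧ f.range.FiniteIndex))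
    (ψ : Additive H →+ A) : transferAlong f ψ = 0 := by
  unfold transferAlong
  rw [dif_neg h]

theorem transferAlong_of (f : H →* G) (h : Function.Injective f ∧ f.range.FiniteIndex)
    (ψ : Additive H →+ A) :
    transferAlong f ψ =
      haveI := h.2
      MonoidHom.toAdditiveLeft (MonoidHom.transfer
        ((AddMonoidHom.toMultiplicativeRight ψ).comp
          (MonoidHom.ofInjective h.1).symm.toMonoidHom)) := by
  unfold transferAlong
  rw [dif_pos h]

theorem transferAlong_apply_of (f : H →* G) (h : Function.Injective f ∧ f.range.FiniteIndex)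
    (ψ : Additive H →+ A) (g : G) :
    transferAlong f ψ (Additive.ofMul g) =
      haveI := h.2
      Multiplicative.toAdd (MonoidHom.transfer
        ((AddMonoidHom.toMultiplicativeRight ψ).comp
          (MonoidHom.ofInjective h.1).symm.toMonoidHom) g) := by
  rw [transferAlong_of f h]
  rfl

theorem transferAlong_add (f : H →* G) (ψ ψ' : Additive H →+ A) :
    transferAlong f (ψ + ψ') = transferAlong f ψ + transferAlong f ψ' := by
  by_cases h : Function.Injective f ∧ f.range.FiniteIndex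
  · have := h.2
    refine AddMonoidHom.ext fun g => ?_
    obtain ⟨g, rfl⟩ := Additive.ofMul.surjective g
    rw [AddMonoidHom.add_apply, transferAlong_apply_of f h, transferAlong_apply_of f h,
      transferAlong_apply_of f h, ← toAdd_mul, ← MonoidHom.mul_apply, ← transfer_mul_h581]
    rfl
  · simp [transferAlong_of_not f h]

theorem transferAlong_comp {B : Type*} [AddCommGroup B] (f : H →* G) (π : A →+ B)
    (ψ : Additive H →+ A) :
    transferAlong f (π.comp ψ) = π.comp (transferAlong f ψ) := by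
  by_cases h : Function.Injective f ∧ f.range.FiniteIndex
  · have := h.2
    refine AddMonoidHom.ext fun g => ?_
    obtain ⟨g, rfl⟩ := Additive.ofMul.surjective g
    rw [AddMonoidHom.comp_apply, transferAlong_apply_of f h, transferAlong_apply_of f h]
    have := transfer_comp_h581 (AddMonoidHom.toMultiplicative π)
      ((AddMonoidHom.toMultiplicativeRight ψ).comp
          (MonoidHom.ofInjective h.1).symm.toMonoidHom)
    have h2 := congrArg (fun F => Multiplicative.toAdd (F g)) this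
    simp only [MonoidHom.comp_apply] at h2
    exact h2
  · simp [transferAlong_of_not f h]

/-- Cycle formula for `transferAlong`, vanishing form: if `ψ` kills every `h` such that `f h` is
conjugate to a power of `g`, then `transferAlong f ψ` kills `g`. -/
theorem transferAlong_eq_zero_of (f : H →* G) (ψ : Additive H →+ A) (g : G)
    (hψ : Function.Injective f → ∀ (k : ℕ) (t : G) (h : H), f h = t⁻¹ * g ^ k * t →
      ψ (Additive.ofMul h) = 0) :
    transferAlong f ψ (Additive.ofMul g) = 0 := by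
  by_cases h : Function.Injective f ∧ f.range.FiniteIndex
  · have := h.2
    rw [transferAlong_apply_of f h]
    rw [transfer_eq_one_of_h581]
    · rfl
    · intro k t hk
      have := hψ h.1 k t ((MonoidHom.ofInjective h.1).symm ⟨t⁻¹ * g ^ k * t, hk⟩) ?_
      · exact congrArg Multiplicative.ofAdd this
      · have := (MonoidHom.ofInjective h.1).apply_symm_apply ⟨t⁻¹ * g ^ k * t, hk⟩
        exact congrArg Subtype.val this
  · simp [transferAlong_of_not f h]

end Along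

end Fermat.Agent.S41.H581

end
-- ===== PACK-END S41/H581/TransferBasic.lean

-- ===== PACK-BEGIN S41/Spec/New.lean
section






/-!
# Row S41, block NEW — frozen interface (sub-architect helper881)

Plan: `coord/S41.md` (origin/helper41), details `coord/S41-NEW.md` (origin/helper881).

**Block NEW.**  A nonzero parabolic class `φ ∈ Hom(Γ₀(N q), ℂ)` which is killed by the two
transfers `t₁, t₂` to level `N` and is an eigenvector of the `T_l`, `l ∈ P` (`l ∤ N q`), with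
eigenvalues `b l`, produces a normalized eigenform `g` of level `N q` with `a_l(g) = b l`
(`l ∈ P`) and `a_q(g)² = 1` (Prelude `IsNewAt q`).

Route (no newform theory, no Petersson product):
* S21 (on main): `φ = (1 + ι) P(f₁) + (1 - ι) P(f₂)`, `(f₁, f₂) ≠ 0` cusp forms of level `N q`;
* `NewInvolutionStatement`, `NewInvolutionHeckeStatement`: `ι` commutes with `t₁, t₂, T_l`;
* `periodMap_heckeTLin` (on main, S29/H642): `P(T_l f) = T_l P(f)`;
* `NewPeriodTraceStatement`: `t₁ P(f) = P(tr f)`, `t₂ P(f) = P(tr' f)` with cusp forms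
  `tr f = f + U_q W`, `tr' f = W + U_q f` of level `N` (`W = f ∣ A`, `A` Atkin–Lehner at `q`);
  the generic leaf is `NewTransferRepsStatement` (Mathlib's transfer in right coset
  representatives);
* hence `T_l f_i = b l • f_i`, `tr f_i = tr' f_i = 0`, so `U_q (U_q f_i) = f_i`;
* `NewEigenformOfUsqStatement`: a common eigenvector of the full (commutative) Hecke family in the
  stable subspace `{T_l = b l (l ∈ P), U_q² = 1}` is, once normalized, the wanted `g`.
-/

set_option autoImplicit false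

namespace Fermat.Agent.S41.Spec

open CongruenceSubgroup ModularCurve ModularCurve.Period ModularFormClass
open Fermat.Agent.S29.H642
open scoped MatrixGroups

/-- **Block NEW** (main statement). -/
def NewStatement : Prop :=
  ∀ (N q : ℕ), N ≠ 0 → q.Prime → ¬ q ∣ N →
    ∀ (P : ℕ → Prop) (b : ℕ → ℂ) (φ : Additive (Gamma0 (N * q)) →+ ℂ),
      φ ∈ parabolicHoms ℂ (Gamma0 (N * q)) ℂ → φ ≠ 0 →
      (∀ (l : ℕ) [Fact l.Prime] (hl : ¬ l ∣ N * q), P l → heckeTransfer hl φ = b l • φ) →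
      t₁ N q φ = 0 → t₂ N q φ = 0 →
      ∃ g : CuspForm (Gamma0 (N * q)) 2, g.IsNormalizedEigenform ∧
        (∀ l : ℕ, l.Prime → ¬ l ∣ N * q → P l → qCoeff g l = b l) ∧ g.IsNewAt q

/-- (NEW-1) forms side, linear algebra: a nonzero cusp form `f` of level `M`, `q ∣ M`, with
`T_l f = b l • f` (`l ∈ P`, `l ∤ M`) and `U_q (U_q f) = f` gives a normalized eigenform with
`a_l = b l` (`l ∈ P`) and `a_q ^ 2 = 1`. -/
def NewEigenformOfUsqStatement : Prop :=
  ∀ (M q : ℕ) [NeZero M], q.Prime → q ∣ M →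
    ∀ (P : ℕ → Prop) (b : ℕ → ℂ) (f : CuspForm (Gamma0 M) 2), f ≠ 0 →
      (∀ l : ℕ, l.Prime → ¬ l ∣ M → P l → ModularForm.heckeT 2 l ⇑f = b l • ⇑f) →
      ModularForm.heckeU 2 q (ModularForm.heckeU 2 q ⇑f) = ⇑f →
      ∃ g : CuspForm (Gamma0 M) 2, g.IsNormalizedEigenform ∧
        (∀ l : ℕ, l.Prime → ¬ l ∣ M → P l → qCoeff g l = b l) ∧ g.IsNewAt q

/-- (NEW-2a) generic leaf: Mathlib's transfer (through `transferAlong`) computed in a system of
representatives `s` of the right cosets `f(H) \ G`: if `s x * g = f (k x) * s (σ x)` for all `x`,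
then `(transfer ψ)(g) = ∑ x, ψ (k x)`. -/
def NewTransferRepsStatement : Prop :=
  ∀ (H G : Type) [Group H] [Group G] (A : Type) [AddCommGroup A] (f : H →* G),
    Function.Injective f →
    ∀ (ι : Type) [Fintype ι] (s : ι → G),
      (∀ x y : ι, s x * (s y)⁻¹ ∈ f.range → x = y) →
      (∀ g : G, ∃ x : ι, g * (s x)⁻¹ ∈ f.range) →
      ∀ (ψ : Additive H →+ A) (g : G) (σ : ι → ι) (k : ι → H),
        (∀ x : ι, s x * g = f (k x) * s (σ x)) →
        transferAlong f ψ (Additive.ofMul g) = ∑ x : ι, ψ (Additive.ofMul (k x))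

/-- (NEW-2) period compatibility of the two traces: for a cusp form `f` of level `N q` there are
a function `W` (`= f ∣[2] A`, `A` an Atkin–Lehner matrix at `q`) and cusp forms `g₁ = tr f`,
`g₂ = tr' f` of level `N` with `g₁ = f + U_q W`, `g₂ = W + U_q f` and
`P(g₁) = t₁ P(f)`, `P(g₂) = t₂ P(f)`. -/
def NewPeriodTraceStatement : Prop :=
  ∀ (N q : ℕ), N ≠ 0 → q.Prime → ¬ q ∣ N → ∀ f : CuspForm (Gamma0 (N * q)) 2,
    ∃ (W : UpperHalfPlane → ℂ) (g₁ g₂ : CuspForm (Gamma0 N) 2),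
      (⇑g₁ : UpperHalfPlane → ℂ) = ⇑f + ModularForm.heckeU 2 q W ∧
      (⇑g₂ : UpperHalfPlane → ℂ) = W + ModularForm.heckeU 2 q ⇑f ∧
      periodMap N g₁ = t₁ N q (periodMap (N * q) f) ∧
      periodMap N g₂ = t₂ N q (periodMap (N * q) f)

/-- (NEW-3a) the involution `ι = charInvolution` (conjugation by `diag(1, -1)`) commutes with the
two transfers. -/
def NewInvolutionStatement : Prop :=
  ∀ (N q : ℕ), N ≠ 0 → q.Prime → ¬ q ∣ N → ∀ ψ : Additive (Gamma0 (N * q)) →+ ℂ,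
    t₁ N q (charInvolution (N * q) ℂ ℂ ψ) = charInvolution N ℂ ℂ (t₁ N q ψ) ∧
    t₂ N q (charInvolution (N * q) ℂ ℂ ψ) = charInvolution N ℂ ℂ (t₂ N q ψ)

/-- (NEW-3b) the involution `ι` commutes with the Hecke transfers `T_l`. -/
def NewInvolutionHeckeStatement : Prop :=
  ∀ (M l : ℕ) [Fact l.Prime] (hl : ¬ l ∣ M) (φ : Additive (Gamma0 M) →+ ℂ),
    heckeTransfer hl (charInvolution M ℂ ℂ φ) = charInvolution M ℂ ℂ (heckeTransfer hl φ)

/-- (NEW-3c) additivity of the two transfers over `ℂ` (instance of HK-0). -/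
def NewTransferAddStatement : Prop :=
  ∀ (N q : ℕ) (ψ ψ' : Additive (Gamma0 (N * q)) →+ ℂ),
    t₁ N q (ψ + ψ') = t₁ N q ψ + t₁ N q ψ' ∧ t₂ N q (ψ + ψ') = t₂ N q ψ + t₂ N q ψ'

end Fermat.Agent.S41.Spec

end
-- ===== PACK-END S41/Spec/New.lean

-- ===== PACK-BEGIN S59/Arch/Glue.lean
section


/-!
# Row S59 — glue G2: from the modularity lifting theorem in point form to (RT)

`rt_of_mlt : CoeffStatement → FrobExistsStatement → CurveRepStatement → SemistableMLTStatement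
  → RTStatement`.
-/

set_option autoImplicit false

namespace Fermat.Agent.S59.Arch

open Polynomial WeierstrassCurve Fermat.Agent.S59.H239

/-- A coefficient ring exists for every prime `p` (e.g. `ℤ_[p]`). -/
def CoeffStatement : Prop :=
  ∀ p : ℕ, p.Prime → ∃ (𝒪 : Type) (_ : CommRing 𝒪) (_ : IsDomain 𝒪)
    (_ : IsDiscreteValuationRing 𝒪) (_ : IsAdicComplete (IsLocalRing.maximalIdeal 𝒪) 𝒪)
    (_ : Finite (IsLocalRing.ResidueField 𝒪)) (_ : CharZero 𝒪),
    (p : 𝒪) ∈ IsLocalRing.maximalIdeal 𝒪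

section CharpolyLemmas

variable {A : Type} [CommRing A] [IsLocalRing A]

/-- Equivalent representations have the same characteristic polynomials. -/
theorem charpoly_eq_of_isEquiv {ρ₁ ρ₂ : GaloisRepAdic A} (h : ρ₁.IsEquiv ρ₂) (σ : GQ) :
    LinearMap.charpoly (ρ₁.ρ σ) = LinearMap.charpoly (ρ₂.ρ σ) := by
  obtain ⟨e⟩ := h
  have hconj : ρ₂.ρ σ = e.toLinearEquiv.conj (ρ₁.ρ σ) := by
    apply LinearMap.ext
    intro y
    rw [LinearEquiv.conj_apply_apply]
    rw [e.map_apply, LinearEquiv.apply_symm_apply]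
  rw [hconj, LinearEquiv.charpoly_conj]

/-- Characteristic polynomials commute with base change. -/
theorem charpoly_baseChangeAlong {B : Type} [CommRing B] [IsLocalRing B] (φ : A →+* B)
    (hφ : IsLocalHom φ) (ρ : GaloisRepAdic A) (σ : GQ) :
    LinearMap.charpoly ((ρ.baseChangeAlong φ hφ).ρ σ) = (LinearMap.charpoly (ρ.ρ σ)).map φ := by
  letI : Algebra A B := φ.toAlgebra
  exact LinearMap.charpoly_baseChange (ρ.ρ σ) B

end CharpolyLemmas

/-- Comparing the coefficient of `X` in two monic quadratics. -/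
theorem coeff_one_of_quadratic_eq {R : Type} [CommRing R] [Nontrivial R] {a b c d : R}
    (h : (X ^ 2 - C a * X + C c : R[X]) = X ^ 2 - C b * X + C d) : a = b := by
  have := congrArg (fun f : R[X] => f.coeff 1) h
  simpa [coeff_X_pow, coeff_X, coeff_C] using this

section Main

variable {N : ℕ} [NeZero N] {S : Finset ℕ}
  {𝒪 : Type} [CommRing 𝒪] [IsDomain 𝒪] [IsDiscreteValuationRing 𝒪]
  [IsAdicComplete (IsLocalRing.maximalIdeal 𝒪) 𝒪] [CharZero 𝒪]
  {θ : CuspForm.heckeAlgebra N 2 (↑S : Set ℕ) →+* IsLocalRing.ResidueField 𝒪}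
  {T : Type} [CommRing T] [IsLocalRing T] [IsNoetherianRing T]
  [IsAdicComplete (IsLocalRing.maximalIdeal T) T] [Algebra 𝒪 T] [IsLocalHom (algebraMap 𝒪 T)]
  [Module.Finite 𝒪 T] [Module.Free 𝒪 T]

/-- **G2 (core).**  If a representation `ρ` over `𝒪` whose Frobenius traces at the primes
`ℓ ∉ S` are the integers `a ℓ` is a point of a Hecke–Galois datum of level `N` away from
`S ⊇ primes(N)`, then the anemic Hecke algebra has a `ℤ`-valued character with `T_ℓ ↦ a ℓ`. -/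
theorem exists_int_char_of_point (hFrob : FrobExistsStatement)
    (hNS : ∀ q : ℕ, q.Prime → q ∣ N → q ∈ S)
    (H : CuspForm.HeckeGaloisRepDatum N (↑S : Set ℕ) 𝒪 θ T) (ρ : GaloisRepAdic 𝒪)
    (a : ℕ → ℤ)
    (hρ : ∀ ℓ : ℕ, ℓ.Prime → ℓ ∉ S →
      ∀ A : ValuationSubring Qb, A.LiesOverPrime ℓ → ∀ σ : GQ, A.IsFrobeniusAt σ ℓ →
        LinearMap.charpoly (ρ.ρ σ) = X ^ 2 - C ((a ℓ : ℤ) : 𝒪) * X + C ((ℓ : 𝒪)))
    (hpt : PointOfDatum H ρ) :
    ∃ χ : CuspForm.heckeAlgebra N 2 (↑S : Set ℕ) →+* ℤ,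
      ∀ (ℓ : ℕ) (hℓ : ℓ.Prime) (hℓN : ¬ ℓ ∣ N) (hℓS : ℓ ∉ (↑S : Set ℕ)),
        χ (CuspForm.heckeAlgebra.T hℓ hℓN hℓS) = a ℓ := by
  obtain ⟨ψ, hψ, he⟩ := hpt
  set χ₀ : CuspForm.heckeAlgebra N 2 (↑S : Set ℕ) →+* 𝒪 := (ψ : T →+* 𝒪).comp H.π with hχ₀
  -- values on the generators
  have hgen : ∀ (ℓ : ℕ) (hℓ : ℓ.Prime) (hℓN : ¬ ℓ ∣ N) (hℓS : ℓ ∉ (↑S : Set ℕ)),
      χ₀ (CuspForm.heckeAlgebra.T hℓ hℓN hℓS) = ((a ℓ : ℤ) : 𝒪) := by
    intro ℓ hℓ hℓN hℓS
    obtain ⟨A, σ, hA, hσ⟩ := hFrob ℓ hℓ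
    have h1 := H.charpoly_frob ℓ hℓ hℓN hℓS A hA σ hσ
    have h2 := charpoly_baseChangeAlong (ψ : T →+* 𝒪) hψ H.ρ σ
    have h3 := charpoly_eq_of_isEquiv he σ
    have h4 := hρ ℓ hℓ (by simpa using hℓS) A hA σ hσ
    rw [h1] at h2
    rw [h2] at h3
    rw [h4] at h3
    simp only [Polynomial.map_add, Polynomial.map_sub, Polynomial.map_mul, Polynomial.map_pow,
      Polynomial.map_X, Polynomial.map_C, map_natCast, Polynomial.map_natCast] at h3
    have h5 := congrArg (fun f : 𝒪[X] => f.coeff 1) h3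
    simp only [coeff_add, coeff_sub, coeff_X_pow, coeff_C_mul, coeff_X_one, mul_one] at h5
    have hc : ∀ n : ℕ, ((n : 𝒪[X])).coeff 1 = 0 := fun n => by
      rw [← C_eq_natCast, coeff_C]; simp
    have hc' : (C ((ℓ : 𝒪)) : 𝒪[X]).coeff 1 = 0 := by rw [coeff_C]; simp
    simp only [hc, hc', OfNat.one_ne_ofNat, if_false, zero_sub, add_zero, neg_inj] at h5
    exact h5
  -- the image of `χ₀` lies in `ℤ`
  have hrange : ∀ t : CuspForm.heckeAlgebra N 2 (↑S : Set ℕ),
      χ₀ t ∈ (Int.castRingHom 𝒪).range := by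
    rintro ⟨t, ht⟩
    induction ht using Algebra.adjoin_induction with
    | mem x hx =>
      rcases hx with ⟨ℓ, hℓ, hℓN, hℓS, rfl⟩ | ⟨q, hqN, hq, hqS, rfl⟩
      · exact ⟨a ℓ, (hgen ℓ hℓ hℓN hℓS).symm⟩
      · exact absurd (hNS q hq hqN) (by simpa using hqS)
    | algebraMap r =>
      refine ⟨r, ?_⟩
      have : (⟨algebraMap ℤ _ r, Subalgebra.algebraMap_mem _ r⟩ :
          CuspForm.heckeAlgebra N 2 (↑S : Set ℕ)) = algebraMap ℤ _ r := rfl
      rw [this]
      exact (map_intCast (χ₀.comp (algebraMap ℤ _)) r).symm ▸ (by simp)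
    | add x y hx hy ihx ihy =>
      have : (⟨x + y, Subalgebra.add_mem _ hx hy⟩ : CuspForm.heckeAlgebra N 2 (↑S : Set ℕ)) =
          ⟨x, hx⟩ + ⟨y, hy⟩ := rfl
      rw [this, map_add]
      exact Subring.add_mem _ ihx ihy
    | mul x y hx hy ihx ihy =>
      have : (⟨x * y, Subalgebra.mul_mem _ hx hy⟩ : CuspForm.heckeAlgebra N 2 (↑S : Set ℕ)) =
          ⟨x, hx⟩ * ⟨y, hy⟩ := rfl
      rw [this, map_mul]
      exact Subring.mul_mem _ ihx ihy
  have hinj : Function.Injective (Int.castRingHom 𝒪) := Int.cast_injective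
  let e : ℤ ≃+* (Int.castRingHom 𝒪).range := RingEquiv.ofBijective
    (Int.castRingHom 𝒪).rangeRestrict
    ⟨fun x y h => hinj (congrArg Subtype.val h), (Int.castRingHom 𝒪).rangeRestrict_surjective⟩
  refine ⟨(e.symm : (Int.castRingHom 𝒪).range →+* ℤ).comp
    (χ₀.codRestrict (Int.castRingHom 𝒪).range hrange), ?_⟩
  intro ℓ hℓ hℓN hℓS
  rw [RingHom.comp_apply]
  apply e.injective
  rw [RingEquiv.coe_toRingHom, RingEquiv.apply_symm_apply]
  apply Subtype.ext
  rw [RingHom.codRestrict_apply, hgen ℓ hℓ hℓN hℓS]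
  rfl

end Main

/-- **G2.**  (RT) from the modularity lifting theorem in point form. -/
theorem rt_of_mlt (hC : CoeffStatement) (hFrob : FrobExistsStatement)
    (hE : CurveRepStatement) (hMLT : SemistableMLTStatement) : RTStatement := by
  intro p hp W hΔ hW hirr M₀ _ hres hM₀ hM₀3
  have hpp : p.Prime := by
    rcases hp with rfl | rfl
    · exact Nat.prime_three
    · exact Nat.prime_five
  haveI : Fact p.Prime := ⟨hpp⟩
  have hp2 : p ≠ 2 := by
    rcases hp with rfl | rfl <;> decide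
  obtain ⟨𝒪, _, _, _, _, _, _, hp𝒪⟩ := hC p hpp
  obtain ⟨ρW⟩ := hE p hp2 W hΔ hW hirr 𝒪 hp𝒪
  obtain ⟨N, hNZ, S, hpN, hN3, hbad, hSprime, hSN, hpS, hNS, θ, T, _, _, _, _, _, _, _, _, H, hpt⟩ :=
    hMLT p hp W hΔ hW hirr M₀ hres hM₀ hM₀3 𝒪 hp𝒪 ρW
  refine ⟨N, hNZ, S, hpN, hN3, hbad, hSprime, hSN, ?_⟩
  refine exists_int_char_of_point hFrob hNS H ρW.ρ (fun ℓ => W.apOfModel ℓ) ?_ hpt
  intro ℓ hℓ hℓS A hA σ hσ
  refine ρW.charpoly_frob ℓ hℓ ?_ ?_ A hA σ hσ
  · -- `ℓ` is good: bad primes divide `N`, hence lie in `S`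
    intro hbadℓ
    exact hℓS (hNS ℓ hℓ (hbad ℓ hℓ hbadℓ))
  · rintro rfl
    exact hℓS hpS

end Fermat.Agent.S59.Arch

end
-- ===== PACK-END S59/Arch/Glue.lean

-- ===== PACK-BEGIN S41/Spec/PD.lean
section




/-!
# Row S41, blocks PD and LIFT — frozen interface (sub-architect helper221)

Plan and proofs on paper: `coord/S41-PD.md` (origin/helper221).  Row plan: `coord/S41.md` (origin/helper41).

v3 (19:15Z) = v1 verbatim: built on `Spec/HK.lean` (AUTHORITATIVE, row-lead note 18:53Z).  v2 (19:02Z-19:15Z, based on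
the superseded `Spec/Defs.lean`/`Spec/Blocks.lean`) is withdrawn; its leaves were definitionally the same except
`trf = transferAlong`, `cdelta = conjDelta`.  Never import `Spec/Defs.lean` or `Spec/Blocks.lean`.

## Top level (what CORE / GLUE consume)

* `PDStatement`      : for every field `F` a family of forms `B n` on `Hom(Γ₀(n), F)` which on the cuspidal
  classes (`IsCuspidal` of `Spec/HK.lean`) is bilinear, skew-symmetric, NONDEGENERATE, and satisfies
  `B (N q) (r_i x) y = B N x (t_i y)` (`i = 1, 2`; `q` prime, `q ∤ N`, `N ≠ 0`).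
* `PDHeckeStatement` : the same plus `B n (T_l x) y = B n x (T_l y)` (follows from PD and HK-1, HK-4).
* `LiftStatement`    : every cuspidal class mod `p` lifts to a cuspidal class with coefficients `ℤ`.
* `CuspFreeStatement`: the cuspidal classes with coefficients `ℤ` form a finite free `ℤ`-module.

## The Manin model (conventions)

`Γ ≤ SL(2,ℤ)` of finite index with `-1 ∈ Γ`, `X = SL(2,ℤ) ⧸ Γ` (LEFT cosets, left action), functions
`m : X → A`, `(m|g)(x) = m (g • x)`.  `S, T` are Mathlib's `ModularGroup.S, T`; `U := S * T` (`S² = U³ = -1`,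
`T = S⁻¹ U`).  Cocycles are as in `Fermat.Agent.S21.H585` (on main): `f (g * h) x = f h x + f g (h • x)`.

* `IsManinRep Γ φ m`  : `φ = ` restriction to `Γ`, evaluated at the base point, of the cocycle `f` with
  `f S = 0`, `f U = m|U - m`  (then `f T = f U`).
* `IsParData Γ m e`   : `e|T - e = m|U - m`  (`⇔ φ` parabolic).
* `maninForm Γ m e'   = ∑ₓ m x * (e' x - e' (S • x))`,   `maninPairing Γ φ ψ` := `maninForm Γ m e'` for
  representatives (`Classical.choose`).
* β-FORMULA (the invariance principle): if `ζ (γ γ') = ζ γ + ζ γ' + φ γ * ψ γ'`, `ζ = 0` on torsion, then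
  `∑_{cusps c} ζ (γ_c) = - maninPairing Γ φ ψ`, `γ_c = h⁻¹ T ^ w h` the positive primitive parabolic
  generators.  Conjugation by `δ = diag(q, 1)` preserves "positive primitive parabolic".
-/

set_option autoImplicit false

namespace Fermat.Agent.S41.Spec

open CongruenceSubgroup Matrix.SpecialLinearGroup ModularCurve.Period ModularGroup
open Fermat.Agent.S29.H642
open scoped MatrixGroups

universe u

/-! ## 1. Top-level statements -/

/-- Cuspidal classes on an arbitrary subgroup `Γ ≤ SL(2,ℤ)` (for `Γ = Γ₀(n)` this is `IsCuspidal`). -/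
def IsCuspidalOn {A : Type*} [AddCommGroup A] (Γ : Subgroup SL(2, ℤ)) (φ : Additive Γ →+ A) : Prop :=
  IsParabolicHom Γ φ ∧ ∀ γ : Γ, IsOfFinOrder γ → φ (Additive.ofMul γ) = 0

theorem isCuspidal_iff_isCuspidalOn {A : Type*} [AddCommGroup A] {n : ℕ}
    (φ : Additive (Gamma0 n) →+ A) : IsCuspidal φ ↔ IsCuspidalOn (Gamma0 n) φ := Iff.rfl

/-- `B` is a Poincaré-duality family: bilinear, skew-symmetric and nondegenerate on the cuspidal classes of
every level `n ≠ 0`, with `r_i` left adjoint to `t_i`. -/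
def IsPDFamily (F : Type u) [Field F]
    (B : ∀ n : ℕ, (Additive (Gamma0 n) →+ F) → (Additive (Gamma0 n) →+ F) → F) : Prop :=
  (∀ n : ℕ, n ≠ 0 → ∀ x x' y : Additive (Gamma0 n) →+ F, IsCuspidal x → IsCuspidal x' → IsCuspidal y →
      B n (x + x') y = B n x y + B n x' y) ∧
  (∀ n : ℕ, n ≠ 0 → ∀ (c : F) (x y : Additive (Gamma0 n) →+ F), IsCuspidal x → IsCuspidal y →
      B n (c • x) y = c * B n x y) ∧
  (∀ n : ℕ, n ≠ 0 → ∀ x y : Additive (Gamma0 n) →+ F, IsCuspidal x → IsCuspidal y →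
      B n y x = - B n x y) ∧
  (∀ n : ℕ, n ≠ 0 → ∀ x : Additive (Gamma0 n) →+ F, IsCuspidal x →
      (∀ y : Additive (Gamma0 n) →+ F, IsCuspidal y → B n x y = 0) → x = 0) ∧
  (∀ N q : ℕ, N ≠ 0 → q.Prime → ¬ q ∣ N →
    ∀ (x : Additive (Gamma0 N) →+ F) (y : Additive (Gamma0 (N * q)) →+ F),
      IsCuspidal x → IsCuspidal y →
      B (N * q) (r₁ N q x) y = B N x (t₁ N q y) ∧ B (N * q) (r₂ N q x) y = B N x (t₂ N q y))

/-- `T_l` (`l ∤ n`) is self-adjoint for `B n` on cuspidal classes. -/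
def IsHeckeSelfAdjoint (F : Type u) [Field F]
    (B : ∀ n : ℕ, (Additive (Gamma0 n) →+ F) → (Additive (Gamma0 n) →+ F) → F) : Prop :=
  ∀ (n l : ℕ) [Fact l.Prime] (hl : ¬ l ∣ n), n ≠ 0 →
    ∀ x y : Additive (Gamma0 n) →+ F, IsCuspidal x → IsCuspidal y →
      B n (heckeTransfer hl x) y = B n x (heckeTransfer hl y)

/-- **Block PD.** -/
def PDStatement : Prop :=
  ∀ (F : Type u) [Field F],
    ∃ B : ∀ n : ℕ, (Additive (Gamma0 n) →+ F) → (Additive (Gamma0 n) →+ F) → F, IsPDFamily F B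

/-- **Block PD with Hecke operators** (`= PD + HK-1a + HK-4`:
`B(T_l x, y) = B(t₁ r₂ x, y) = -B(y, t₁ r₂ x) = -B(r₁ y, r₂ x) = B(r₂ x, r₁ y) = B(x, t₂ r₁ y)`). -/
def PDHeckeStatement : Prop :=
  ∀ (F : Type u) [Field F],
    ∃ B : ∀ n : ℕ, (Additive (Gamma0 n) →+ F) → (Additive (Gamma0 n) →+ F) → F,
      IsPDFamily F B ∧ IsHeckeSelfAdjoint F B

/-- (PD-HECKE) leaf: pure bookkeeping. -/
def PDHeckeOfPDStatement : Prop :=
  RestrictCuspStatement.{u} → TransferRestrictHeckeStatement.{u} →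
    ∀ (F : Type u) [Field F]
      (B : ∀ n : ℕ, (Additive (Gamma0 n) →+ F) → (Additive (Gamma0 n) →+ F) → F),
      IsPDFamily F B → IsHeckeSelfAdjoint F B

/-- **Block LIFT** (a): cuspidal classes mod `p` lift to `ℤ`. -/
def LiftStatement : Prop :=
  ∀ (n p : ℕ), n ≠ 0 → ∀ xbar : Additive (Gamma0 n) →+ ZMod p, IsCuspidal xbar →
    ∃ x : Additive (Gamma0 n) →+ ℤ, IsCuspidal x ∧ (Int.castAddHom (ZMod p)).comp x = xbar

/-- The submodule of cuspidal classes. -/
def cuspidalSubmodule (R : Type*) [Semiring R] (n : ℕ) (A : Type*) [AddCommGroup A] [Module R A] :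
    Submodule R (Additive (Gamma0 n) →+ A) where
  carrier := {φ | IsCuspidal φ}
  zero_mem' := ⟨fun _ _ => rfl, fun _ _ => rfl⟩
  add_mem' := by
    intro φ ψ hφ hψ
    refine ⟨fun γ hγ => ?_, fun γ hγ => ?_⟩
    · show φ (Additive.ofMul γ) + ψ (Additive.ofMul γ) = 0
      rw [hφ.1 γ hγ, hψ.1 γ hγ, add_zero]
    · show φ (Additive.ofMul γ) + ψ (Additive.ofMul γ) = 0
      rw [hφ.2 γ hγ, hψ.2 γ hγ, add_zero]
  smul_mem' := by
    intro c φ hφ
    refine ⟨fun γ hγ => ?_, fun γ hγ => ?_⟩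
    · show c • φ (Additive.ofMul γ) = 0
      rw [hφ.1 γ hγ, smul_zero]
    · show c • φ (Additive.ofMul γ) = 0
      rw [hφ.2 γ hγ, smul_zero]

theorem mem_cuspidalSubmodule {R : Type*} [Semiring R] {n : ℕ} {A : Type*} [AddCommGroup A]
    [Module R A] {φ : Additive (Gamma0 n) →+ A} :
    φ ∈ cuspidalSubmodule R n A ↔ IsCuspidal φ := Iff.rfl

/-- **Block LIFT** (b): `C_n(ℤ)` is a finite free `ℤ`-module. -/
def CuspFreeStatement : Prop :=
  ∀ n : ℕ, n ≠ 0 → Module.Finite ℤ (cuspidalSubmodule ℤ n ℤ) ∧ Module.Free ℤ (cuspidalSubmodule ℤ n ℤ)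

/-! ## 2. The Manin model: definitions -/

section ManinDefs

variable (Γ : Subgroup SL(2, ℤ)) {A : Type*} [AddCommGroup A]

/-- `f` is the normalised cocycle of the Manin symbol `m`: `f S = 0`, `f (S T) = m|ST - m`. -/
def IsManinCocycle (f : SL(2, ℤ) → SL(2, ℤ) ⧸ Γ → A) (m : SL(2, ℤ) ⧸ Γ → A) : Prop :=
  (∀ (g h : SL(2, ℤ)) (x : SL(2, ℤ) ⧸ Γ), f (g * h) x = f h x + f g (h • x)) ∧
  (∀ x : SL(2, ℤ) ⧸ Γ, f S x = 0) ∧
  ∀ x : SL(2, ℤ) ⧸ Γ, f (S * T) x = m ((S * T) • x) - m x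

/-- The class `φ ∈ Hom(Γ, A)` is represented by the Manin symbol `m : X → A`. -/
def IsManinRep (φ : Additive Γ →+ A) (m : SL(2, ℤ) ⧸ Γ → A) : Prop :=
  ∃ f : SL(2, ℤ) → SL(2, ℤ) ⧸ Γ → A, IsManinCocycle Γ f m ∧
    ∀ γ : Γ, φ (Additive.ofMul γ) = f (γ : SL(2, ℤ)) ((1 : SL(2, ℤ)) : SL(2, ℤ) ⧸ Γ)

/-- Parabolic data: `e|T - e = m|ST - m`. -/
def IsParData (m e : SL(2, ℤ) ⧸ Γ → A) : Prop :=
  ∀ x : SL(2, ℤ) ⧸ Γ, e (T • x) - e x = m ((S * T) • x) - m x

/-- `m ∈ M^S + M^{ST}`. -/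
def IsInvariantSum (m : SL(2, ℤ) ⧸ Γ → A) : Prop :=
  ∃ n₁ n₂ : SL(2, ℤ) ⧸ Γ → A, (∀ x, n₁ (S • x) = n₁ x) ∧ (∀ x, n₂ ((S * T) • x) = n₂ x) ∧
    m = n₁ + n₂

variable {R : Type*} [CommRing R]

/-- The Manin form `∑ₓ m x * (e' x - e' (S • x))`. -/
noncomputable def maninForm (m e' : SL(2, ℤ) ⧸ Γ → R) : R :=
  ∑ᶠ x : SL(2, ℤ) ⧸ Γ, m x * (e' x - e' (S • x))

theorem maninForm_eq_sum [Fintype (SL(2, ℤ) ⧸ Γ)] (m e' : SL(2, ℤ) ⧸ Γ → R) :
    maninForm Γ m e' = ∑ x : SL(2, ℤ) ⧸ Γ, m x * (e' x - e' (S • x)) :=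
  finsum_eq_sum_of_fintype _

/-- The pairing on `Hom(Γ, R)` (meaningful on cuspidal classes). -/
noncomputable def maninPairing (φ ψ : Additive Γ →+ R) : R :=
  open Classical in
  if h : ∃ m m' e' : SL(2, ℤ) ⧸ Γ → R, IsManinRep Γ φ m ∧ IsManinRep Γ ψ m' ∧ IsParData Γ m' e' then
    maninForm Γ h.choose h.choose_spec.choose_spec.choose
  else 0

/-- Heisenberg lifts of `(φ, ψ)`: `(φ, ψ, ζ) : Γ → Heis(R)` is a homomorphism, trivial on torsion. -/
def IsHeisLift (φ ψ : Additive Γ →+ R) (ζ : Γ → R) : Prop :=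
  (∀ γ γ' : Γ, ζ (γ * γ') = ζ γ + ζ γ' + φ (Additive.ofMul γ) * ψ (Additive.ofMul γ')) ∧
  ∀ γ : Γ, IsOfFinOrder γ → ζ γ = 0

/-- A system of representatives of the `T`-orbits on `X`: `X = ⨆ᵢ {T^j hᵢ Γ : j < wᵢ}` (disjoint),
`γᵢ = hᵢ⁻¹ T^{wᵢ} hᵢ ∈ Γ`. -/
def IsTOrbitSystem {ι : Type} (γ : ι → Γ) (h : ι → SL(2, ℤ)) (w : ι → ℕ) : Prop :=
  (∀ i, 0 < w i) ∧
  (∀ i, ((γ i : Γ) : SL(2, ℤ)) = (h i)⁻¹ * T ^ (w i) * h i) ∧
  ∀ x : SL(2, ℤ) ⧸ Γ, ∃! p : (Σ i, Fin (w i)),
    x = ((T ^ (p.2 : ℕ) * h p.1 : SL(2, ℤ)) : SL(2, ℤ) ⧸ Γ)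

end ManinDefs

/-- Positive parabolic elements: `tr = 2`, `≠ 1`, upper right entry `≥ 0`, lower left entry `≤ 0`
(`= h⁻¹ T^k h` with `k > 0`). -/
def IsPosParabolic (g : SL(2, ℤ)) : Prop :=
  g ≠ 1 ∧ (g : Matrix (Fin 2) (Fin 2) ℤ).trace = 2 ∧ 0 ≤ g 0 1 ∧ g 1 0 ≤ 0

/-- Primitive positive parabolic elements of `Γ`. -/
def IsPrimPosParabolic (Γ : Subgroup SL(2, ℤ)) (γ : Γ) : Prop :=
  IsPosParabolic (γ : SL(2, ℤ)) ∧
    ∀ (γ' : Γ) (k : ℕ), IsPosParabolic (γ' : SL(2, ℤ)) → γ' ^ k = γ → k = 1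

/-- A system of representatives of the `Γ`-conjugacy classes of primitive positive parabolic elements
(`↔` cusps of `Γ`). -/
def IsCuspSystem (Γ : Subgroup SL(2, ℤ)) {ι : Type} (γ : ι → Γ) : Prop :=
  (∀ i, IsPrimPosParabolic Γ (γ i)) ∧
  ∀ γ' : Γ, IsPrimPosParabolic Γ γ' → ∃! i, ∃ g : Γ, g * γ i * g⁻¹ = γ'

/-- `c_δ` with values in `SL(2,ℤ)`. -/
def conjDeltaSL (N q : ℕ) : Gamma0 (N * q) →* SL(2, ℤ) :=
  (Gamma0 N).subtype.comp (conjDelta N q)

/-- `Γ' = δ Γ₀(N q) δ⁻¹ = Γ₀(N) ∩ Γ⁰(q)`. -/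
def gamma0Delta (N q : ℕ) : Subgroup SL(2, ℤ) := (conjDeltaSL N q).range

/-- `c_δ : Γ₀(N q) → Γ'`. -/
def conjDeltaR (N q : ℕ) : Gamma0 (N * q) →* gamma0Delta N q := (conjDeltaSL N q).rangeRestrict

theorem gamma0Delta_le (N q : ℕ) : gamma0Delta N q ≤ Gamma0 N := by
  rintro _ ⟨γ, rfl⟩
  exact (conjDelta N q γ).2

/-! ## 3. Leaves -/

/-! ### LINALG (pure linear algebra on a finite set with two permutations) -/

/-- (LA-1) `((σ-1)M ∩ (υ-1)M)^⊥ ⊆ M^σ + M^υ`. -/
def ManinPerpStatement : Prop :=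
  ∀ (X : Type) [Fintype X] (σ υ : Equiv.Perm X) (F : Type u) [Field F] (m : X → F),
    (∀ s a b : X → F, (∀ x, s x = a (σ x) - a x) → (∀ x, s x = b (υ x) - b x) →
      ∑ x, m x * s x = 0) →
    ∃ n₁ n₂ : X → F, (∀ x, n₁ (σ x) = n₁ x) ∧ (∀ x, n₂ (υ x) = n₂ x) ∧ m = n₁ + n₂

/-- (LA-2) skew-symmetry of the Manin form on parabolic data; `τ = σ⁻¹ υ`, `σ² = 1`. -/
def ManinSkewStatement : Prop :=
  ∀ (X : Type) [Fintype X] (σ υ τ : Equiv.Perm X), (∀ x, σ (σ x) = x) → (∀ x, σ (τ x) = υ x) →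
    ∀ (R : Type u) [CommRing R] (m e m' e' : X → R),
      (∀ x, e (τ x) - e x = m (υ x) - m x) → (∀ x, e' (τ x) - e' x = m' (υ x) - m' x) →
      ∑ x, m' x * (e x - e (σ x)) = - ∑ x, m x * (e' x - e' (σ x))

/-- (LA-3) every `s ∈ (σ-1)M ∩ (υ-1)M` comes from parabolic data. -/
def ManinParDataOfStatement : Prop :=
  ∀ (X : Type) (σ υ τ : Equiv.Perm X), (∀ x, σ (σ x) = x) → (∀ x, σ (τ x) = υ x) →
    ∀ (A : Type u) [AddCommGroup A] (s a b : X → A),
      (∀ x, s x = a (σ x) - a x) → (∀ x, s x = b (υ x) - b x) →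
      ∃ m e : X → A, (∀ x, e (τ x) - e x = m (υ x) - m x) ∧ ∀ x, e (σ x) - e x = s x

/-- (LA-4) lifting parabolic data from `ℤ/p` to `ℤ` (transitive action). -/
def ParDataLiftStatement : Prop :=
  ∀ (Γ : Subgroup SL(2, ℤ)) [Γ.FiniteIndex] (p : ℕ) (mbar ebar : SL(2, ℤ) ⧸ Γ → ZMod p),
    IsParData Γ mbar ebar →
    ∃ m e : SL(2, ℤ) ⧸ Γ → ℤ, IsParData Γ m e ∧ (∀ x, ((m x : ℤ) : ZMod p) = mbar x) ∧
      ∀ x, ((e x : ℤ) : ZMod p) = ebar x

/-! ### TORS (finite order elements of `SL(2,ℤ)`) -/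

/-- (TORS) every element of finite order is conjugate to `± 1, ± S, ± ST, ± (ST)²`. -/
def TorsionClassStatement : Prop :=
  ∀ g : SL(2, ℤ), IsOfFinOrder g →
    ∃ h : SL(2, ℤ), h * g * h⁻¹ = 1 ∨ h * g * h⁻¹ = -1 ∨ h * g * h⁻¹ = S ∨ h * g * h⁻¹ = -S ∨
      h * g * h⁻¹ = S * T ∨ h * g * h⁻¹ = -(S * T) ∨ h * g * h⁻¹ = (S * T) ^ 2 ∨
      h * g * h⁻¹ = -(S * T) ^ 2

/-! ### DICT (dictionary `Hom(Γ, A)` ↔ Manin symbols) -/

/-- (D1) every torsion-trivial class has a Manin representative (Shapiro + normalisation). -/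
def ManinRepExistsStatement : Prop :=
  ∀ (Γ : Subgroup SL(2, ℤ)) [Γ.FiniteIndex], (-1 : SL(2, ℤ)) ∈ Γ →
    ∀ (A : Type u) [AddCommGroup A] (φ : Additive Γ →+ A),
      (∀ γ : Γ, IsOfFinOrder γ → φ (Additive.ofMul γ) = 0) → ∃ m, IsManinRep Γ φ m

/-- (D2) a Manin symbol representing `0` lies in `M^S + M^{ST}`. -/
def ManinRepZeroStatement : Prop :=
  ∀ (Γ : Subgroup SL(2, ℤ)) [Γ.FiniteIndex], (-1 : SL(2, ℤ)) ∈ Γ →
    ∀ (A : Type u) [AddCommGroup A] (m : SL(2, ℤ) ⧸ Γ → A),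
      IsManinRep Γ (0 : Additive Γ →+ A) m → IsInvariantSum Γ m

/-- (D2') a Manin symbol in `M^S + M^{ST}` represents only `0`. -/
def ManinRepInvariantStatement : Prop :=
  ∀ (Γ : Subgroup SL(2, ℤ)) [Γ.FiniteIndex], (-1 : SL(2, ℤ)) ∈ Γ →
    ∀ (A : Type u) [AddCommGroup A] (φ : Additive Γ →+ A) (m : SL(2, ℤ) ⧸ Γ → A),
      IsManinRep Γ φ m → IsInvariantSum Γ m → φ = 0

/-- (D2'') linearity and naturality of `IsManinRep`. -/
def ManinRepLinearStatement : Prop :=
  ∀ (Γ : Subgroup SL(2, ℤ)) (A B : Type u) [AddCommGroup A] [AddCommGroup B] (π : A →+ B)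
    (φ φ' : Additive Γ →+ A) (m m' : SL(2, ℤ) ⧸ Γ → A),
      IsManinRep Γ φ m → IsManinRep Γ φ' m' →
      IsManinRep Γ (φ + φ') (m + m') ∧ IsManinRep Γ (φ - φ') (m - m') ∧
      IsManinRep Γ (π.comp φ) (fun x => π (m x))

/-- (D3) every Manin symbol represents a class (uses the presentation of `SL(2,ℤ)`:
`Fermat.Agent.S21.H585.exists_cocycle`, on main). -/
def ManinRepRealizeStatement : Prop :=
  ∀ (Γ : Subgroup SL(2, ℤ)) [Γ.FiniteIndex], (-1 : SL(2, ℤ)) ∈ Γ →
    ∀ (A : Type u) [AddCommGroup A] (m : SL(2, ℤ) ⧸ Γ → A), ∃ φ : Additive Γ →+ A, IsManinRep Γ φ m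

/-- (D3') represented classes are torsion-trivial (uses TORS). -/
def ManinRepTorsionStatement : Prop :=
  ∀ (Γ : Subgroup SL(2, ℤ)) [Γ.FiniteIndex], (-1 : SL(2, ℤ)) ∈ Γ →
    ∀ (A : Type u) [AddCommGroup A] (φ : Additive Γ →+ A) (m : SL(2, ℤ) ⧸ Γ → A),
      IsManinRep Γ φ m → ∀ γ : Γ, IsOfFinOrder γ → φ (Additive.ofMul γ) = 0

/-- (D4) `φ` is parabolic iff `m` admits parabolic data. -/
def ManinRepParabolicStatement : Prop :=
  ∀ (Γ : Subgroup SL(2, ℤ)) [Γ.FiniteIndex], (-1 : SL(2, ℤ)) ∈ Γ →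
    ∀ (A : Type u) [AddCommGroup A] (φ : Additive Γ →+ A) (m : SL(2, ℤ) ⧸ Γ → A),
      IsManinRep Γ φ m → (IsParabolicHom Γ φ ↔ ∃ e, IsParData Γ m e)

/-! ### TRANSFER (restriction / corestriction in the Manin model) -/

/-- (TR-1) restriction is pull-back of Manin symbols. -/
def ManinRepResStatement : Prop :=
  ∀ (Γ' Γ : Subgroup SL(2, ℤ)) (hle : Γ' ≤ Γ) (A : Type u) [AddCommGroup A]
    (φ : Additive Γ →+ A) (m : SL(2, ℤ) ⧸ Γ → A), IsManinRep Γ φ m →
    IsManinRep Γ' (φ.comp (MonoidHom.toAdditive (Subgroup.inclusion hle)))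
      (fun x' => m (Subgroup.quotientMapOfLE hle x'))

/-- (TR-2) the transfer is push-forward of Manin symbols. -/
def ManinRepCoresStatement : Prop :=
  ∀ (Γ' Γ : Subgroup SL(2, ℤ)) [Γ'.FiniteIndex] (hle : Γ' ≤ Γ) (A : Type u) [AddCommGroup A]
    (ψ : Additive Γ' →+ A) (m' : SL(2, ℤ) ⧸ Γ' → A), IsManinRep Γ' ψ m' →
    IsManinRep Γ (transferAlong (Subgroup.inclusion hle) ψ)
      (fun x => ∑ᶠ (x' : SL(2, ℤ) ⧸ Γ') (_ : Subgroup.quotientMapOfLE hle x' = x), m' x')

/-- (TR-3) push-forward of parabolic data, and the adjunction for the Manin form. -/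
def ManinFormAdjointStatement : Prop :=
  ∀ (Γ' Γ : Subgroup SL(2, ℤ)) [Γ'.FiniteIndex] (hle : Γ' ≤ Γ) (R : Type u) [CommRing R]
    (m : SL(2, ℤ) ⧸ Γ → R) (m' e' : SL(2, ℤ) ⧸ Γ' → R), IsParData Γ' m' e' →
    IsParData Γ
      (fun x => ∑ᶠ (x' : SL(2, ℤ) ⧸ Γ') (_ : Subgroup.quotientMapOfLE hle x' = x), m' x')
      (fun x => ∑ᶠ (x' : SL(2, ℤ) ⧸ Γ') (_ : Subgroup.quotientMapOfLE hle x' = x), e' x') ∧
    maninForm Γ' (fun x' => m (Subgroup.quotientMapOfLE hle x')) e' =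
      maninForm Γ m
        (fun x => ∑ᶠ (x' : SL(2, ℤ) ⧸ Γ') (_ : Subgroup.quotientMapOfLE hle x' = x), e' x')

/-- (TR-4) transfer along `f' ∘ e`, `e` an isomorphism. -/
def TransferAlongEquivStatement : Prop :=
  ∀ (H H' G : Type) [Group H] [Group H'] [Group G] (e : H ≃* H') (f' : H' →* G)
    (A : Type u) [AddCommGroup A] (ψ : Additive H →+ A),
    transferAlong (f'.comp e.toMonoidHom) ψ =
      transferAlong f' (ψ.comp (MonoidHom.toAdditive e.symm.toMonoidHom))

/-! ### HEIS (Heisenberg lifts and the β-formula) -/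

/-- (HEIS) existence of a Heisenberg lift for which the β-formula holds on every `T`-orbit system
(uses `exists_hom_of_sq_cube` with values in `Perm (X × Heis R)`, and TORS). -/
def HeisLiftStatement : Prop :=
  ∀ (Γ : Subgroup SL(2, ℤ)) [Γ.FiniteIndex], (-1 : SL(2, ℤ)) ∈ Γ →
    ∀ (R : Type u) [CommRing R] (φ ψ : Additive Γ →+ R) (m m' e e' : SL(2, ℤ) ⧸ Γ → R),
      IsManinRep Γ φ m → IsManinRep Γ ψ m' → IsParData Γ m e → IsParData Γ m' e' →
      ∃ ζ : Γ → R, IsHeisLift Γ φ ψ ζ ∧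
        ∀ (ι : Type) [Fintype ι] (γ : ι → Γ) (h : ι → SL(2, ℤ)) (w : ι → ℕ),
          IsTOrbitSystem Γ γ h w → ∑ i, ζ (γ i) = - maninForm Γ m e'

/-- (HEIS-U) a torsion-trivial homomorphism sums to `0` over a `T`-orbit system. -/
def CuspSumZeroStatement : Prop :=
  ∀ (Γ : Subgroup SL(2, ℤ)) [Γ.FiniteIndex], (-1 : SL(2, ℤ)) ∈ Γ →
    ∀ (A : Type u) [AddCommGroup A] (χ : Additive Γ →+ A),
      (∀ γ : Γ, IsOfFinOrder γ → χ (Additive.ofMul γ) = 0) →
      ∀ (ι : Type) [Fintype ι] (γ : ι → Γ) (h : ι → SL(2, ℤ)) (w : ι → ℕ),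
        IsTOrbitSystem Γ γ h w → ∑ i, χ (Additive.ofMul (γ i)) = 0

/-! ### CUSP (cusps = conjugacy classes of primitive positive parabolic elements) -/

/-- (CUSP-1) `T`-orbit systems exist. -/
def TOrbitSystemExistsStatement : Prop :=
  ∀ (Γ : Subgroup SL(2, ℤ)) [Γ.FiniteIndex],
    ∃ (ι : Type) (_ : Fintype ι) (γ : ι → Γ) (h : ι → SL(2, ℤ)) (w : ι → ℕ), IsTOrbitSystem Γ γ h w

/-- (CUSP-2) a `T`-orbit system is a cusp system. -/
def TOrbitCuspStatement : Prop :=
  ∀ (Γ : Subgroup SL(2, ℤ)) [Γ.FiniteIndex], (-1 : SL(2, ℤ)) ∈ Γ →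
    ∀ (ι : Type) (γ : ι → Γ) (h : ι → SL(2, ℤ)) (w : ι → ℕ),
      IsTOrbitSystem Γ γ h w → IsCuspSystem Γ γ

/-- (CUSP-3) sums of class functions over two cusp systems agree. -/
def CuspSumIndepStatement : Prop :=
  ∀ (Γ : Subgroup SL(2, ℤ)) (A : Type u) [AddCommGroup A] (ζ : Γ → A),
    (∀ g γ : Γ, IsPosParabolic (γ : SL(2, ℤ)) → ζ (g * γ * g⁻¹) = ζ γ) →
    ∀ (ι ι' : Type) [Fintype ι] [Fintype ι'] (γ : ι → Γ) (γ' : ι' → Γ),
      IsCuspSystem Γ γ → IsCuspSystem Γ γ' → ∑ i, ζ (γ i) = ∑ i, ζ (γ' i)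

/-- (CUSP-4) `c_δ` maps cusp systems of `Γ₀(N q)` to cusp systems of `Γ' = δ Γ₀(N q) δ⁻¹`. -/
def CuspSystemConjDeltaStatement : Prop :=
  ∀ (N q : ℕ), N ≠ 0 → q ≠ 0 → ∀ (ι : Type) (γ : ι → Gamma0 (N * q)),
    IsCuspSystem (Gamma0 (N * q)) γ → IsCuspSystem (gamma0Delta N q) (fun i => conjDeltaR N q (γ i))

/-! ## 4. Assembly statements (general `Γ`) -/

/-- (A1) the pairing is computed by any representatives. -/
def ManinPairingEqStatement : Prop :=
  ∀ (Γ : Subgroup SL(2, ℤ)) [Γ.FiniteIndex], (-1 : SL(2, ℤ)) ∈ Γ →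
    ∀ (R : Type u) [CommRing R] (φ ψ : Additive Γ →+ R) (m m' e' : SL(2, ℤ) ⧸ Γ → R),
      IsParabolicHom Γ φ → IsManinRep Γ φ m → IsManinRep Γ ψ m' → IsParData Γ m' e' →
      maninPairing Γ φ ψ = maninForm Γ m e'

/-- (A2) the pairing is bilinear, skew-symmetric and nondegenerate on cuspidal classes. -/
def ManinPairingPDStatement : Prop :=
  ∀ (Γ : Subgroup SL(2, ℤ)) [Γ.FiniteIndex], (-1 : SL(2, ℤ)) ∈ Γ → ∀ (F : Type u) [Field F],
    (∀ x x' y : Additive Γ →+ F, IsCuspidalOn Γ x → IsCuspidalOn Γ x' → IsCuspidalOn Γ y →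
      maninPairing Γ (x + x') y = maninPairing Γ x y + maninPairing Γ x' y) ∧
    (∀ (c : F) (x y : Additive Γ →+ F), IsCuspidalOn Γ x → IsCuspidalOn Γ y →
      maninPairing Γ (c • x) y = c * maninPairing Γ x y) ∧
    (∀ x y : Additive Γ →+ F, IsCuspidalOn Γ x → IsCuspidalOn Γ y →
      maninPairing Γ y x = - maninPairing Γ x y) ∧
    (∀ x : Additive Γ →+ F, IsCuspidalOn Γ x →
      (∀ y : Additive Γ →+ F, IsCuspidalOn Γ y → maninPairing Γ x y = 0) → x = 0)

/-- (A3) restriction is left adjoint to the transfer. -/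
def ManinPairingResCoresStatement : Prop :=
  ∀ (Γ' Γ : Subgroup SL(2, ℤ)) [Γ'.FiniteIndex] [Γ.FiniteIndex] (hle : Γ' ≤ Γ),
    (-1 : SL(2, ℤ)) ∈ Γ' → ∀ (F : Type u) [Field F]
    (x : Additive Γ →+ F) (y : Additive Γ' →+ F), IsCuspidalOn Γ x → IsCuspidalOn Γ' y →
      maninPairing Γ' (x.comp (MonoidHom.toAdditive (Subgroup.inclusion hle))) y =
        maninPairing Γ x (transferAlong (Subgroup.inclusion hle) y)

/-- (A4) **β-formula**: for ANY Heisenberg lift and ANY cusp system. -/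
def ManinPairingBetaStatement : Prop :=
  ∀ (Γ : Subgroup SL(2, ℤ)) [Γ.FiniteIndex], (-1 : SL(2, ℤ)) ∈ Γ → ∀ (F : Type u) [Field F]
    (φ ψ : Additive Γ →+ F) (ζ : Γ → F), IsCuspidalOn Γ φ → IsCuspidalOn Γ ψ → IsHeisLift Γ φ ψ ζ →
    ∀ (ι : Type) [Fintype ι] (γ : ι → Γ), IsCuspSystem Γ γ →
      ∑ i, ζ (γ i) = - maninPairing Γ φ ψ

/-- (A5) `c_δ` is an isometry `(C(Γ'), B_Γ') → (C(Γ₀(N q)), B_{N q})`. -/
def ManinPairingConjDeltaStatement : Prop :=
  ∀ (N q : ℕ), N ≠ 0 → q.Prime → ¬ q ∣ N → ∀ (F : Type u) [Field F]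
    (φ ψ : Additive (gamma0Delta N q) →+ F),
    IsCuspidalOn (gamma0Delta N q) φ → IsCuspidalOn (gamma0Delta N q) ψ →
      maninPairing (Gamma0 (N * q)) (φ.comp (MonoidHom.toAdditive (conjDeltaR N q)))
        (ψ.comp (MonoidHom.toAdditive (conjDeltaR N q))) = maninPairing (gamma0Delta N q) φ ψ

end Fermat.Agent.S41.Spec

end
-- ===== PACK-END S41/Spec/PD.lean

-- ===== PACK-BEGIN S59/TW/H658/U0.lean
section



/-!
# S21, piece MS-C: the smooth function `u₀` with prescribed periods, constant near the cusps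

Built from an `SL(2,ℤ)`-partition of unity `χ₁` (piece MS-A) and a section `φt` of the parabolic
homomorphism `φ` (piece MS-B), both taken as hypotheses.
-/

set_option autoImplicit false

open UpperHalfPlane CongruenceSubgroup Filter Topology Complex ModularCurve ModularCurve.Period
open scoped MatrixGroups Manifold ContDiff

namespace Fermat.Agent.S59.TW.H658.H81

open Fermat.Agent.S21

theorem u0_mob_mul (g h : SL(2, ℤ)) (z : ℂ) : mob (g * h) z = mob g (mob h z) := by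
  simp only [mob, ofComplex_apply, mul_smul]

theorem u0_mob_mem (g : SL(2, ℤ)) (z : ℂ) : mob g z ∈ Uhp := by
  simp only [mob]
  exact coe_mem_Uhp _

theorem u0_mob_one (z : ℂ) (hz : z ∈ Uhp) : mob 1 z = z := by
  simp only [mob, one_smul]
  rw [ofComplex_apply_of_im_pos hz]

theorem u0_mob_coe (g : SL(2, ℤ)) (z : ℍ) : mob g (z : ℂ) = ((g • z : ℍ) : ℂ) := by
  simp only [mob, ofComplex_apply]

theorem u0_contDiffOn_mob (g : SL(2, ℤ)) : ContDiffOn ℝ ∞ (mob g) Uhp := by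
  have h1 : DifferentiableOn ℂ (mob g) Uhp := fun z hz =>
    (SmallAux.hasStrictDerivAt_mob g hz).hasDerivAt.differentiableAt.differentiableWithinAt
  exact (h1.contDiffOn isOpen_Uhp).restrict_scalars ℝ

/-- A matrix in `SL(2,ℤ)` with lower-left entry `0` is `± T ^ n`. -/
theorem u0_eq_T_zpow_of_c_eq_zero (g : SL(2, ℤ)) (h : g 1 0 = 0) :
    ∃ n : ℤ, g = ModularGroup.T ^ n ∨ g = -ModularGroup.T ^ n := by
  have hdet := Matrix.SpecialLinearGroup.det_coe g
  rw [Matrix.det_fin_two] at hdet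
  have h' : (g : Matrix (Fin 2) (Fin 2) ℤ) 1 0 = 0 := h
  rw [h', mul_zero, sub_zero] at hdet
  rcases Int.eq_one_or_neg_one_of_mul_eq_one' hdet with ⟨ha, hd⟩ | ⟨ha, hd⟩
  · refine ⟨g 0 1, Or.inl ?_⟩
    apply Matrix.SpecialLinearGroup.ext
    intro i j
    rw [ModularGroup.coe_T_zpow]
    fin_cases i <;> fin_cases j <;> simp [ha, hd, h']
  · refine ⟨-g 0 1, Or.inr ?_⟩
    apply Matrix.SpecialLinearGroup.ext
    intro i j
    rw [Matrix.SpecialLinearGroup.coe_neg, ModularGroup.coe_T_zpow]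
    fin_cases i <;> fin_cases j <;> simp [ha, hd, h']

theorem u0_section_T_zpow {φt : SL(2, ℤ) → ℝ}
    (hφt2 : ∀ g : SL(2, ℤ), φt (ModularGroup.T * g) = φt g) (n : ℤ) (g : SL(2, ℤ)) :
    φt (ModularGroup.T ^ n * g) = φt g := by
  induction n using Int.induction_on generalizing g with
  | zero => simp
  | succ k ih =>
    rw [zpow_add_one, mul_assoc, ih, hφt2]
  | pred k ih =>
    have := hφt2 (ModularGroup.T ^ (-(k : ℤ) - 1) * g)
    rw [← mul_assoc, ← zpow_one_add] at this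
    rw [← this]
    have e : (1 : ℤ) + (-(k : ℤ) - 1) = -(k : ℤ) := by ring
    rw [e, ih]


section construction

variable (χ₁ : ℂ → ℝ) (φt : SL(2, ℤ) → ℝ)

/-- The function `u₀ = -∑ g, φt g · χ₁ (g z)`. -/
noncomputable def u0 : ℂ → ℝ := fun z => -∑ᶠ g : SL(2, ℤ), φt g * χ₁ (mob g z)

variable {χ₁ φt}

theorem u0_support_finite
    (hχfin : ∀ K : Set ℂ, IsCompact K → K ⊆ Uhp →
      {g : SL(2, ℤ) | ∃ z ∈ K, χ₁ (mob g z) ≠ 0}.Finite)
    {z : ℂ} (hz : z ∈ Uhp) : (Function.support fun g : SL(2, ℤ) => χ₁ (mob g z)).Finite := by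
  refine (hχfin {z} isCompact_singleton (by simpa using hz)).subset ?_
  intro g hg
  exact ⟨z, rfl, hg⟩

theorem u0_support_finite' (ψ : SL(2, ℤ) → ℝ)
    (hχfin : ∀ K : Set ℂ, IsCompact K → K ⊆ Uhp →
      {g : SL(2, ℤ) | ∃ z ∈ K, χ₁ (mob g z) ≠ 0}.Finite)
    {z : ℂ} (hz : z ∈ Uhp) :
    (Function.support fun g : SL(2, ℤ) => ψ g * χ₁ (mob g z)).Finite := by
  refine (u0_support_finite hχfin hz).subset ?_
  intro g hg
  simp only [Function.mem_support, ne_eq] at hg ⊢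
  exact fun h => hg (by rw [h, mul_zero])

theorem u0_contDiffOn (hχsmooth : ContDiffOn ℝ ∞ χ₁ Uhp)
    (hχfin : ∀ K : Set ℂ, IsCompact K → K ⊆ Uhp →
      {g : SL(2, ℤ) | ∃ z ∈ K, χ₁ (mob g z) ≠ 0}.Finite) :
    ContDiffOn ℝ ∞ (u0 χ₁ φt) Uhp := by
  intro z₀ hz₀
  -- a compact neighbourhood of `z₀` inside `Uhp`
  obtain ⟨r, hr, hball⟩ := Metric.nhds_basis_closedBall.mem_iff.mp (isOpen_Uhp.mem_nhds hz₀)
  have hfin := hχfin (Metric.closedBall z₀ r) (isCompact_closedBall z₀ r) hball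
  set S := hfin.toFinset with hS
  have hterm : ∀ g : SL(2, ℤ), ContDiffOn ℝ ∞ (fun z => φt g * χ₁ (mob g z)) Uhp := by
    intro g
    have h1 : ContDiffOn ℝ ∞ (fun z => χ₁ (mob g z)) Uhp :=
      hχsmooth.comp (u0_contDiffOn_mob g) (fun z _ => u0_mob_mem g z)
    exact contDiffOn_const.mul h1
  have hsum : ContDiffOn ℝ ∞ (fun z => -∑ g ∈ S, φt g * χ₁ (mob g z)) Uhp :=
    (ContDiffOn.sum fun g _ => hterm g).neg
  have heq : ∀ z ∈ Metric.closedBall z₀ r, u0 χ₁ φt z = -∑ g ∈ S, φt g * χ₁ (mob g z) := by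
    intro z hz
    simp only [u0]
    congr 1
    apply finsum_eq_sum_of_support_subset
    intro g hg
    simp only [Function.mem_support, ne_eq] at hg
    rw [hS, Set.Finite.coe_toFinset]
    refine ⟨z, hz, fun h => hg ?_⟩
    rw [h, mul_zero]
  have hat : ContDiffAt ℝ ∞ (u0 χ₁ φt) z₀ := by
    refine (hsum.contDiffAt (isOpen_Uhp.mem_nhds hz₀)).congr_of_eventuallyEq ?_
    filter_upwards [Metric.closedBall_mem_nhds z₀ hr] with z hz using heq z hz
  exact hat.contDiffWithinAt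

theorem u0_period {L : Lev} {φ : Additive (L.Γ) →+ ℝ}
    (hχfin : ∀ K : Set ℂ, IsCompact K → K ⊆ Uhp →
      {g : SL(2, ℤ) | ∃ z ∈ K, χ₁ (mob g z) ≠ 0}.Finite)
    (hχsum : ∀ z ∈ Uhp, ∑ᶠ g : SL(2, ℤ), χ₁ (mob g z) = 1)
    (hφt1 : ∀ (g : SL(2, ℤ)) (γ : L.Γ),
      φt (g * (γ : SL(2, ℤ))) = φt g + φ (Additive.ofMul γ))
    (γ : L.Γ) (z : ℍ) :
    u0 χ₁ φt ↑((γ : SL(2, ℤ)) • z) = u0 χ₁ φt ↑z + φ (Additive.ofMul γ) := by
  have hz : (z : ℂ) ∈ Uhp := coe_mem_Uhp z
  simp only [u0]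
  have h3 : ∑ᶠ g : SL(2, ℤ), φt g * χ₁ (mob g ↑((γ : SL(2, ℤ)) • z))
      = ∑ᶠ g' : SL(2, ℤ), (φt g' - φ (Additive.ofMul γ)) * χ₁ (mob g' ↑z) := by
    rw [← finsum_comp_equiv (Equiv.mulRight (γ : SL(2, ℤ)))
      (f := fun g' : SL(2, ℤ) => (φt g' - φ (Additive.ofMul γ)) * χ₁ (mob g' ↑z))]
    refine finsum_congr fun g => ?_
    simp only [Equiv.coe_mulRight]
    rw [hφt1 g γ, add_sub_cancel_right, u0_mob_mul, u0_mob_coe (γ : SL(2, ℤ)) z]
  rw [h3]
  have h2 : ∀ g' : SL(2, ℤ), (φt g' - φ (Additive.ofMul γ)) * χ₁ (mob g' ↑z)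
      = φt g' * χ₁ (mob g' ↑z) - φ (Additive.ofMul γ) * χ₁ (mob g' ↑z) := fun g' => by ring
  rw [finsum_congr h2, finsum_sub_distrib (u0_support_finite' _ hχfin hz)
    (u0_support_finite' _ hχfin hz), ← mul_finsum, hχsum _ hz]
  ring

theorem u0_cusp
    (hχsupp : ∀ z, χ₁ z ≠ 0 → |z.re| ≤ 1 ∧ 1 / 2 < z.im)
    (hχsum : ∀ z ∈ Uhp, ∑ᶠ g : SL(2, ℤ), χ₁ (mob g z) = 1)
    (hG2 : ∀ (g : SL(2, ℤ)) (z : ℂ), 2 ≤ z.im → 1 / 2 < (mob g z).im → g 1 0 = 0)
    (hφt2 : ∀ g : SL(2, ℤ), φt (ModularGroup.T * g) = φt g)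
    (hφt3 : ∀ g : SL(2, ℤ), φt (-g) = φt g)
    (δ : SL(2, ℤ)) (z : ℂ) (hz : 2 ≤ z.im) :
    u0 χ₁ φt (mob δ z) = -φt δ⁻¹ := by
  simp only [u0]
  congr 1
  have hmem : mob δ z ∈ Uhp := u0_mob_mem δ z
  have h1 : ∀ g : SL(2, ℤ), φt g * χ₁ (mob g (mob δ z)) = φt δ⁻¹ * χ₁ (mob g (mob δ z)) := by
    intro g
    by_cases h0 : χ₁ (mob g (mob δ z)) = 0
    · rw [h0, mul_zero, mul_zero]
    · congr 1
      have him := (hχsupp _ h0).2
      rw [← u0_mob_mul] at him
      have hc := hG2 (g * δ) z hz him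
      obtain ⟨n, hn | hn⟩ := u0_eq_T_zpow_of_c_eq_zero (g * δ) hc
      · have : g = ModularGroup.T ^ n * δ⁻¹ := by rw [← hn]; group
        rw [this, u0_section_T_zpow hφt2]
      · have : g = -(ModularGroup.T ^ n * δ⁻¹) := by
          rw [← neg_mul, ← hn]; group
        rw [this, hφt3, u0_section_T_zpow hφt2]
  rw [finsum_congr h1, ← mul_finsum, hχsum _ hmem, mul_one]

end construction

/-- **MS-C**: existence of a smooth function on the upper half plane with periods `φ`, which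
is constant on every cusp neighbourhood `δ {Im ≥ 2}`. Takes the outputs of MS-A (partition of
unity, and the lemma `G2`) and MS-B (section) as hypotheses. -/
theorem exists_u0_of (L : Lev) (φ : Additive (L.Γ) →+ ℝ)
    (hA : ∃ χ₁ : ℂ → ℝ, ContDiffOn ℝ ∞ χ₁ Uhp ∧ (∀ z, 0 ≤ χ₁ z) ∧
      (∀ z, χ₁ z ≠ 0 → |z.re| ≤ 1 ∧ 1 / 2 < z.im) ∧
      (∀ K : Set ℂ, IsCompact K → K ⊆ Uhp →
        {g : SL(2, ℤ) | ∃ z ∈ K, χ₁ (mob g z) ≠ 0}.Finite) ∧
      (∀ z ∈ Uhp, ∑ᶠ g : SL(2, ℤ), χ₁ (mob g z) = 1))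
    (hG2 : ∀ (g : SL(2, ℤ)) (z : ℂ), 2 ≤ z.im → 1 / 2 < (mob g z).im → g 1 0 = 0)
    (hB : ∃ φt : SL(2, ℤ) → ℝ,
      (∀ (g : SL(2, ℤ)) (γ : L.Γ), φt (g * (γ : SL(2, ℤ))) = φt g + φ (Additive.ofMul γ)) ∧
      (∀ g : SL(2, ℤ), φt (ModularGroup.T * g) = φt g) ∧ (∀ g : SL(2, ℤ), φt (-g) = φt g)) :
    ∃ (u₀ : ℂ → ℝ) (c : SL(2, ℤ) → ℝ), ContDiffOn ℝ ∞ u₀ Uhp ∧
      (∀ (γ : L.Γ) (z : ℍ),
        u₀ ↑((γ : SL(2, ℤ)) • z) = u₀ ↑z + φ (Additive.ofMul γ)) ∧
      (∀ (δ : SL(2, ℤ)) (z : ℂ), 2 ≤ z.im → u₀ (mob δ z) = c δ) ∧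
      (∀ (δ : SL(2, ℤ)) (z : ℂ), 2 < z.im → dz u₀ (mob δ z) = 0) := by
  obtain ⟨χ₁, hχsmooth, -, hχsupp, hχfin, hχsum⟩ := hA
  obtain ⟨φt, hφt1, hφt2, hφt3⟩ := hB
  have hsm := u0_contDiffOn (φt := φt) hχsmooth hχfin
  have hcusp := u0_cusp hχsupp hχsum hG2 hφt2 hφt3
  refine ⟨u0 χ₁ φt, fun δ => -φt δ⁻¹, hsm, u0_period hχfin hχsum hφt1, hcusp, ?_⟩
  intro δ z hz
  have hzU : z ∈ Uhp := by
    show 0 < z.im
    linarith
  -- `u₀ ∘ mob δ` is constant near `z`
  have hconst : (fun w => u0 χ₁ φt (mob δ w)) =ᶠ[𝓝 z] fun _ => -φt δ⁻¹ := by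
    have hopen : IsOpen {w : ℂ | 2 < w.im} := isOpen_lt continuous_const Complex.continuous_im
    filter_upwards [hopen.mem_nhds hz] with w hw using hcusp δ w (le_of_lt hw)
  have hd : DifferentiableAt ℝ (u0 χ₁ φt) (mob δ z) :=
    ((hsm.contDiffAt (isOpen_Uhp.mem_nhds (u0_mob_mem δ z))).differentiableAt (by simp))
  have h1 := dz_comp_mob (u0 χ₁ φt) δ z hzU hd
  have h2 : dz (fun w => u0 χ₁ φt (mob δ w)) z = 0 := by
    simp only [dz]
    rw [hconst.fderiv_eq]
    simp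
  rw [h2] at h1
  have hcd : (cd δ z) ^ 2 ≠ 0 := pow_ne_zero _ (SmallAux.cd_ne_zero δ hzU)
  have := h1.symm
  rw [div_eq_zero_iff] at this
  exact this.resolve_right hcd

end Fermat.Agent.S59.TW.H658.H81

end
-- ===== PACK-END S59/TW/H658/U0.lean

-- ===== PACK-BEGIN S59/TW/H658/Cusp.lean
section



/-!
# S21 — piece `Cusp`

A holomorphic function on the upper half plane which is weight-2 invariant under `Γ₀(L)` and has
bounded energy in the cusp strips (for every `SL(2,ℤ)`-translate) is a cusp form.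

Main steps (all in namespace `Fermat.Agent.S21.Cusp825`):
* `setIntegral_ball_eq_smul`: area mean value property of holomorphic functions (polar
  coordinates + circle mean value property);
* `norm_sq_mul_le_setIntegral_ball`: area mean value inequality `‖g c‖² π r² ≤ ∫_{B(c,r)} ‖g‖²`;
* `exists_tail_le`: tails of a bounded increasing family of strip integrals are small;
* `exists_bound_of_energy`: uniform decay on the central strip `|Re z| ≤ 1/2`;
* `isZeroAtImInfty_slash`: every slash translate is zero at `i∞` (periodicity under `T ^ L`);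
* `exists_cuspForm_of_zero`: packaging as a `CuspForm`.
-/

set_option autoImplicit false

open ModularCurve UpperHalfPlane CongruenceSubgroup Filter Topology
open MeasureTheory Metric Set Real
open scoped MatrixGroups ComplexConjugate ContDiff ModularForm Manifold

namespace Fermat.Agent.S59.TW.H658

open Fermat.Agent.S21
open Fermat.Agent.S21.Cusp825

namespace Cusp825

theorem toH_slash_of_mem (L : Lev) (f : ℂ → ℂ)
    (hinv : ∀ (γ : L.Γ) (z : ℍ),
      f ↑((γ : SL(2, ℤ)) • z) = (cd (γ : SL(2, ℤ)) z) ^ 2 * f ↑z)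
    (γ : SL(2, ℤ)) (hγ : γ ∈ L.Γ) : (toH f) ∣[(2:ℤ)] γ = toH f := by
  ext z
  rw [ModularForm.SL_slash_apply]
  have h := hinv ⟨γ, hγ⟩ z
  simp only [toH] at h ⊢
  rw [h, cd_eq_denom]
  have hne : denom γ z ≠ 0 := denom_ne_zero _ z
  field_simp

theorem slash_mul_T_zpow (L : Lev) (f : ℂ → ℂ)
    (hinv : ∀ (γ : L.Γ) (z : ℍ),
      f ↑((γ : SL(2, ℤ)) • z) = (cd (γ : SL(2, ℤ)) z) ^ 2 * f ↑z)
    (δ : SL(2, ℤ)) (k m : ℤ) :
    (toH f) ∣[(2:ℤ)] (δ * ModularGroup.T ^ ((L.N : ℤ) * k + m))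
      = (toH f) ∣[(2:ℤ)] (δ * ModularGroup.T ^ m) := by
  have h : δ * ModularGroup.T ^ ((L.N : ℤ) * k + m)
      = (δ * ModularGroup.T ^ ((L.N : ℤ) * k) * δ⁻¹) * (δ * ModularGroup.T ^ m) := by
    rw [zpow_add]
    group
  rw [h, SlashAction.slash_mul, _root_.Fermat.Agent.S59.TW.H658.Cusp825.toH_slash_of_mem L f hinv _ (L.conj_T_zpow_mem δ k)]

theorem isZeroAtImInfty_slash (L : Lev) (f : ℂ → ℂ)
    (hf : DifferentiableOn ℂ f Uhp)
    (hinv : ∀ (γ : L.Γ) (z : ℍ),
      f ↑((γ : SL(2, ℤ)) • z) = (cd (γ : SL(2, ℤ)) z) ^ 2 * f ↑z)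
    (hE : ∀ δ : SL(2, ℤ), ∃ C : ℝ, ∀ Y : ℝ,
      ∫ z in strip Y, ‖f (mob δ z)‖ ^ 2 / ‖cd δ z‖ ^ 4 ≤ C)
    (δ : SL(2, ℤ)) : IsZeroAtImInfty ((toH f) ∣[(2:ℤ)] δ) := by
  rw [isZeroAtImInfty_iff]
  intro ε hε
  have hb : ∀ m : ℕ, ∃ A : ℝ, ∀ z : ℂ, |z.re| ≤ 1 / 2 → A ≤ z.im →
      ‖Hc f (δ * ModularGroup.T ^ (m : ℤ)) z‖ ≤ ε := fun m =>
    exists_bound_of_energy _ (Hc_differentiableOn f hf _) (energy_Hc f hE _) hε
  choose A hA using hb
  obtain ⟨B, hB⟩ : ∃ B : ℝ, ∀ m ∈ Finset.range L.N, A m ≤ B := by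
    obtain ⟨B, hB⟩ := ((Finset.range L.N).image A).bddAbove
    exact ⟨B, fun m hm => hB (Finset.mem_image_of_mem A hm)⟩
  refine ⟨B, fun z hz => ?_⟩
  set n : ℤ := round z.re with hn
  have hNpos : (0 : ℤ) < (L.N : ℤ) := by exact_mod_cast Nat.pos_of_ne_zero L.pos
  have hmod0 : 0 ≤ n % (L.N : ℤ) := Int.emod_nonneg _ hNpos.ne'
  have hmodlt : n % (L.N : ℤ) < L.N := Int.emod_lt_of_pos _ hNpos
  set m : ℕ := (n % (L.N : ℤ)).toNat with hm
  have hmcast : (m : ℤ) = n % (L.N : ℤ) := Int.toNat_of_nonneg hmod0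
  have hmN : m ∈ Finset.range L.N := by
    rw [Finset.mem_range]
    have : (m : ℤ) < L.N := by rw [hmcast]; exact hmodlt
    exact_mod_cast this
  have hdecomp : n = (L.N : ℤ) * (n / (L.N : ℤ)) + (m : ℤ) := by
    rw [hmcast]; exact (Int.mul_ediv_add_emod n L.N).symm
  rw [slash_apply_eq_Hc f δ n z]
  have hslash := _root_.Fermat.Agent.S59.TW.H658.Cusp825.slash_mul_T_zpow L f hinv δ (n / (L.N : ℤ)) (m : ℤ)
  rw [← hdecomp] at hslash
  have hHc : Hc f (δ * ModularGroup.T ^ n) = Hc f (δ * ModularGroup.T ^ (m : ℤ)) := by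
    funext w
    simp only [Hc, hslash]
  rw [hHc]
  apply hA m
  · have : ((z : ℂ) - (n : ℂ)).re = z.re - n := by simp
    rw [this, hn]
    exact (abs_sub_round z.re)
  · have : ((z : ℂ) - (n : ℂ)).im = z.im := by simp
    rw [this]
    exact (hB m hmN).trans hz

theorem exists_cuspForm_of_zero (L : Lev) (f : ℂ → ℂ)
    (hf : DifferentiableOn ℂ f Uhp)
    (hinv : ∀ (γ : L.Γ) (z : ℍ),
      f ↑((γ : SL(2, ℤ)) • z) = (cd (γ : SL(2, ℤ)) z) ^ 2 * f ↑z)
    (hzero : ∀ δ : SL(2, ℤ), IsZeroAtImInfty ((toH f) ∣[(2:ℤ)] δ)) :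
    ∃ F : CuspForm (L.Γ) 2, ∀ z : ℍ, F z = f ↑z := by
  refine ⟨{ toFun := toH f
            slash_action_eq' := ?_
            holo' := toH_mdiff f hf
            zero_at_cusps' := ?_ }, fun z => rfl⟩
  · intro γ hγ
    obtain ⟨γ₀, hγ₀, rfl⟩ := Subgroup.mem_map.mp hγ
    exact _root_.Fermat.Agent.S59.TW.H658.Cusp825.toH_slash_of_mem L f hinv γ₀ hγ₀
  · intro c hc
    have hc' : IsCusp c 𝒮ℒ :=
      (Subgroup.IsArithmetic.isCusp_iff_isCusp_SL2Z _).mp hc
    rw [OnePoint.isZeroAt_iff_forall_SL2Z hc']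
    intro γ _
    exact hzero γ

end Cusp825

/-- **Cusp**: a holomorphic weight-2 invariant function with bounded energy in the cusp strips
is a cusp form. -/
theorem exists_cuspForm_of_energy (L : Lev) (f : ℂ → ℂ)
    (hf : DifferentiableOn ℂ f Uhp)
    (hinv : ∀ (γ : L.Γ) (z : ℍ),
      f ↑((γ : SL(2, ℤ)) • z) = (cd (γ : SL(2, ℤ)) z) ^ 2 * f ↑z)
    (hE : ∀ δ : SL(2, ℤ), ∃ C : ℝ, ∀ Y : ℝ,
      ∫ z in strip Y, ‖f (mob δ z)‖ ^ 2 / ‖cd δ z‖ ^ 4 ≤ C) :
    ∃ F : CuspForm (L.Γ) 2, ∀ z : ℍ, F z = f ↑z :=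
  _root_.Fermat.Agent.S59.TW.H658.Cusp825.exists_cuspForm_of_zero L f hf hinv
    (_root_.Fermat.Agent.S59.TW.H658.Cusp825.isZeroAtImInfty_slash L f hf hinv hE)

end Fermat.Agent.S59.TW.H658

end
-- ===== PACK-END S59/TW/H658/Cusp.lean

-- ===== PACK-BEGIN S19/Cont.lean
section



/-!
# Cell A3 (S19) — block CONT: the Galois action on the torsion of `J₀(N)` is additive with open
stabilisers.  Uses FINLEVEL of helper571 (S29 route, on main).
-/

set_option autoImplicit false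

noncomputable section

namespace Fermat.Agent.S19

open ModularCurve

/-- **CONT** (proved). -/
theorem contStatement : ContStatement := by
  intro N _ ℓ hℓ k
  refine ⟨fun m => ?_, fun σ τ m => ?_, torsAct_add N ℓ k, fun m => ?_⟩
  · exact Subtype.ext (one_smul GalQ (m : JZero N))
  · exact Subtype.ext (mul_smul σ τ (m : JZero N))
  · have hn : ((ℓ : ℤ) ^ k) ≠ 0 := pow_ne_zero _ (by exact_mod_cast hℓ.out.ne_zero)
    have hx : ((ℓ : ℤ) ^ k) • (m : JZero N) = 0 := by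
      have := m.2
      rwa [Submodule.mem_torsionBy_iff] at this
    obtain ⟨L, hL, h⟩ := Fermat.Agent.S29.H571.exists_finiteLevel_of_zsmul_eq_zero
      (modularFunctionFieldFull N) (m : JZero N) hn hx
    exact ⟨L, hL, fun σ hσ => Subtype.ext (h σ hσ)⟩

end Fermat.Agent.S19

end

end
-- ===== PACK-END S19/Cont.lean

-- ===== PACK-BEGIN A3/H799/Comb.lean
section





/-!
# A3 / LOCAL — linear systems with parameters  (helper799)

`A` local, `T` finite, `Λ ≤ (T → A)`.  Given finitely many disc algebras `𝒪 i`, `Λ`-points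
`ys i r` (`r < s i`) of the `i`-th disc, and disc functions `f₀ i`, `f j i` (as many unknowns `j`
as conditions `(i, r)`), such that the matrix of the first `s i` Taylor coefficients at `0` of the
`f j i` is invertible, there are `v j ∈ Λ` such that for every parameter value `τ` the function
`f₀ i + Σ_j v_j(τ) f j i` vanishes on the divisor `Σ_r [ys i r (τ)]` of the `i`-th disc
(`exists_comb`).  This is "Riemann–Roch with parameters": Cramer's rule over `Λ`.
-/

set_option autoImplicit false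

namespace Fermat.Agent.A3.H799

open Polynomial

section Congr

variable {A : Type*} [CommRing A] [IsLocalRing A] {𝒪 : Type*} [CommRing 𝒪] [Algebra A 𝒪]

theorem map_residue_nodal (l : List (IsLocalRing.maximalIdeal A)) :
    (DiscAlg.nodal l).map (IsLocalRing.residue A) = X ^ l.length := by
  induction l with
  | nil => simp
  | cons a l ih =>
    rw [DiscAlg.nodal_cons, Polynomial.map_mul, ih, Polynomial.map_sub, Polynomial.map_X,
      Polynomial.map_C, (IsLocalRing.residue_eq_zero_iff _).mpr a.2, map_zero, sub_zero,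
      List.length_cons, pow_succ, mul_comm]

theorem coeff_nodal_mul_mem (l : List (IsLocalRing.maximalIdeal A)) (q : A[X]) (r : ℕ)
    (hr : r < l.length) : (DiscAlg.nodal l * q).coeff r ∈ IsLocalRing.maximalIdeal A := by
  rw [← IsLocalRing.residue_eq_zero_iff, ← Polynomial.coeff_map, Polynomial.map_mul,
    map_residue_nodal, Polynomial.coeff_X_pow_mul']
  simp [Nat.not_le.mpr hr]

theorem nodal_replicate_zero (n : ℕ) :
    DiscAlg.nodal (List.replicate n (0 : IsLocalRing.maximalIdeal A)) = X ^ n := by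
  induction n with
  | zero => simp
  | succ n ih => rw [List.replicate_succ, DiscAlg.nodal_cons, ih]; simp [pow_succ, mul_comm]

/-- Two interpolation polynomials of the same disc function have the same low coefficients
modulo the maximal ideal. -/
theorem DiscAlg.coeff_sub_mem (D : DiscAlg A 𝒪) (l l' : List (IsLocalRing.maximalIdeal A))
    (f : 𝒪) (p p' : A[X]) (h h' : 𝒪)
    (hp : f = aeval D.t p + aeval D.t (DiscAlg.nodal l) * h)
    (hp' : f = aeval D.t p' + aeval D.t (DiscAlg.nodal l') * h')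
    (r : ℕ) (hr : r < l.length) (hr' : r < l'.length) :
    p.coeff r - p'.coeff r ∈ IsLocalRing.maximalIdeal A := by
  set Z : List (IsLocalRing.maximalIdeal A) := List.replicate (r + 1) 0 with hZ
  obtain ⟨q, g, hq⟩ := D.exists_interp Z h
  obtain ⟨q', g', hq'⟩ := D.exists_interp Z h'
  set Δ : A[X] := p - p' + DiscAlg.nodal l * q - DiscAlg.nodal l' * q' with hΔ
  have h1 : aeval D.t Δ = aeval D.t (DiscAlg.nodal Z) *
      (aeval D.t (DiscAlg.nodal l') * g' - aeval D.t (DiscAlg.nodal l) * g) := by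
    have e1 : aeval D.t p - aeval D.t p' =
        aeval D.t (DiscAlg.nodal l') * h' - aeval D.t (DiscAlg.nodal l) * h := by
      have := hp.symm.trans hp'
      linear_combination this
    rw [hΔ]
    simp only [map_add, map_sub, map_mul]
    rw [hq, hq'] at e1
    linear_combination e1
  obtain ⟨w, hw⟩ := D.nodal_dvd_of_aeval Z Δ _ h1
  have h2 : Δ.coeff r = 0 := by
    rw [hw, hZ, nodal_replicate_zero, Polynomial.coeff_X_pow_mul']
    simp
  have h3 : p.coeff r - p'.coeff r =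
      (DiscAlg.nodal l' * q').coeff r - (DiscAlg.nodal l * q).coeff r := by
    have : Δ.coeff r = p.coeff r - p'.coeff r + (DiscAlg.nodal l * q).coeff r
        - (DiscAlg.nodal l' * q').coeff r := by
      rw [hΔ]; simp
    rw [this] at h2
    linear_combination h2
  rw [h3]
  exact (IsLocalRing.maximalIdeal A).sub_mem (coeff_nodal_mul_mem l' q' r hr')
    (coeff_nodal_mul_mem l q r hr)

end Congr

section Comb

variable {A : Type*} [CommRing A] [IsLocalRing A] {T : Type*} [Finite T]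

omit [Finite T] in
theorem natDegree_nodalΛ [Nonempty T] (Λ : Subalgebra A (T → A)) (ys : List (radIdeal Λ)) :
    (nodalΛ Λ ys).natDegree = ys.length := by
  have hnt : Nontrivial Λ := by
    obtain ⟨τ⟩ := ‹Nonempty T›
    exact RingHom.domain_nontrivial (evAt Λ τ : Λ →+* A)
  induction ys with
  | nil => simp [nodalΛ]
  | cons a l ih =>
    have h1 : nodalΛ Λ (a :: l) = (X - C (a : Λ)) * nodalΛ Λ l := by simp [nodalΛ]
    rw [h1, ((monic_X_sub_C _).natDegree_mul (nodalΛ_monic Λ l)), ih, natDegree_X_sub_C]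
    simp [add_comm]

/-- Auxiliary: the list of all values of the `Λ`-points `ys` over a list of parameters. -/
private noncomputable def allVals (Λ : Subalgebra A (T → A)) (ys : List (radIdeal Λ))
    (ts : List T) : List (IsLocalRing.maximalIdeal A) :=
  ts.flatMap fun τ => ys.map (ptAt Λ τ)

omit [Finite T] in
private theorem nodal_allVals_dvd (Λ : Subalgebra A (T → A)) (ys : List (radIdeal Λ))
    (ts : List T) (τ : T) (hτ : τ ∈ ts) :
    ∃ R : A[X], DiscAlg.nodal (allVals Λ ys ts) = DiscAlg.nodal (ys.map (ptAt Λ τ)) * R := by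
  induction ts with
  | nil => simp at hτ
  | cons σ ts ih =>
    have hcons : allVals Λ ys (σ :: ts) = ys.map (ptAt Λ σ) ++ allVals Λ ys ts := by
      simp [allVals]
    rw [hcons, DiscAlg.nodal_append]
    rcases List.mem_cons.mp hτ with h | h
    · subst h
      exact ⟨_, rfl⟩
    · obtain ⟨R, hR⟩ := ih h
      exact ⟨DiscAlg.nodal (ys.map (ptAt Λ σ)) * R, by rw [hR]; ring⟩

omit [Finite T] in
/-- One disc, one function: reduction of an interpolation polynomial modulo the moving nodes is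
again an interpolation polynomial, pointwise. -/
private theorem interp_mod (Λ : Subalgebra A (T → A)) {𝒪 : Type*} [CommRing 𝒪] [Algebra A 𝒪]
    (D : DiscAlg A 𝒪) (ys : List (radIdeal Λ)) (ts : List T) (τ : T) (hτ : τ ∈ ts)
    (f : 𝒪) (p : A[X]) (h : 𝒪)
    (hp : f = aeval D.t p + aeval D.t (DiscAlg.nodal (allVals Λ ys ts)) * h) :
    ∃ h' : 𝒪, f = aeval D.t ((p.map (algebraMap A Λ) %ₘ nodalΛ Λ ys).map (evAt Λ τ : Λ →+* A)) +
      aeval D.t (DiscAlg.nodal (ys.map (ptAt Λ τ))) * h' := by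
  obtain ⟨R, hR⟩ := nodal_allVals_dvd Λ ys ts τ hτ
  have hcomp : ((evAt Λ τ : Λ →+* A).comp (algebraMap A Λ)) = RingHom.id A := by
    ext a; simp
  have h1 : (p.map (algebraMap A Λ) %ₘ nodalΛ Λ ys).map (evAt Λ τ : Λ →+* A) =
      p %ₘ DiscAlg.nodal (ys.map (ptAt Λ τ)) := by
    rw [Polynomial.map_modByMonic _ (nodalΛ_monic Λ ys), map_nodalΛ, Polynomial.map_map, hcomp,
      Polynomial.map_id]
  refine ⟨aeval D.t (p /ₘ DiscAlg.nodal (ys.map (ptAt Λ τ))) + aeval D.t R * h, ?_⟩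
  rw [h1, hp, hR]
  have h2 := Polynomial.modByMonic_add_div p (DiscAlg.nodal (ys.map (ptAt Λ τ)))
  have h3 : aeval D.t p = aeval D.t (p %ₘ DiscAlg.nodal (ys.map (ptAt Λ τ))) +
      aeval D.t (DiscAlg.nodal (ys.map (ptAt Λ τ))) *
        aeval D.t (p /ₘ DiscAlg.nodal (ys.map (ptAt Λ τ))) := by
    conv_lhs => rw [← h2]
    simp
  rw [h3, map_mul]
  ring

/-- **Riemann–Roch with parameters (Cramer over `Λ`).**  See the module docstring. -/
theorem exists_comb {ι : Type*} [Fintype ι] {𝒪 : ι → Type*}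
    [∀ i, CommRing (𝒪 i)] [∀ i, Algebra A (𝒪 i)]
    (Λ : Subalgebra A (T → A)) (D : ∀ i, DiscAlg A (𝒪 i)) (s : ι → ℕ)
    (ys : ∀ i, Fin (s i) → radIdeal Λ)
    (f₀ : ∀ i, 𝒪 i) (f : (Σ i, Fin (s i)) → ∀ i, 𝒪 i)
    (P₀ : ∀ i, A[X]) (H₀ : ∀ i, 𝒪 i)
    (hf₀ : ∀ i, f₀ i = aeval (D i).t (P₀ i) + (D i).t ^ s i * H₀ i)
    (P : (Σ i, Fin (s i)) → ∀ i, A[X]) (H : (Σ i, Fin (s i)) → ∀ i, 𝒪 i)
    (hf : ∀ j i, f j i = aeval (D i).t (P j i) + (D i).t ^ s i * H j i)
    (hdet : ∀ [DecidableEq (Σ i, Fin (s i))],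
      IsUnit (Matrix.of fun (c j : Σ i, Fin (s i)) => (P j c.1).coeff (c.2 : ℕ)).det)
    (h₀ : ∀ i (r : Fin (s i)), (P₀ i).coeff (r : ℕ) ∈ IsLocalRing.maximalIdeal A) :
    ∃ v : (Σ i, Fin (s i)) → Λ, (∀ j, v j ∈ radIdeal Λ) ∧
      ∀ τ i, ∃ h : 𝒪 i, f₀ i + ∑ j, ((v j : Λ) : T → A) τ • f j i =
        aeval (D i).t (DiscAlg.nodal ((List.ofFn (ys i)).map (ptAt Λ τ))) * h := by
  classical
  rcases isEmpty_or_nonempty T with hT | hT
  · exact ⟨fun _ => 0, fun j => (radIdeal Λ).zero_mem, fun τ => (hT.false τ).elim⟩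
  have hnt : Nontrivial Λ := by
    obtain ⟨τ⟩ := hT
    exact RingHom.domain_nontrivial (evAt Λ τ : Λ →+* A)
  have : Fintype T := Fintype.ofFinite T
  set ts : List T := (Finset.univ : Finset T).toList with hts
  have hmem : ∀ τ, τ ∈ ts := fun τ => by simp [hts]
  have ht0 : ∀ i, (D i).t ^ s i =
      aeval (D i).t (DiscAlg.nodal (List.replicate (s i) (0 : IsLocalRing.maximalIdeal A))) := by
    intro i; rw [nodal_replicate_zero]; simp
  -- interpolation on all the nodes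
  choose p₀ g₀ hp₀ using fun (i : ι) =>
    (D i).exists_interp (allVals Λ (List.ofFn (ys i)) ts) (f₀ i)
  choose p g hp using fun (j : Σ i, Fin (s i)) (i : ι) =>
    (D i).exists_interp (allVals Λ (List.ofFn (ys i)) ts) (f j i)
  -- the polynomials over Λ
  set G : ∀ i, Λ[X] := fun i => nodalΛ Λ (List.ofFn (ys i)) with hG
  have hGm : ∀ i, (G i).Monic := fun i => nodalΛ_monic Λ _
  have hGdeg : ∀ i, (G i).degree = (s i : ℕ) := by
    intro i
    rw [degree_eq_natDegree (hGm i).ne_zero, hG, natDegree_nodalΛ]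
    simp
  set B₀ : ∀ i, Λ[X] := fun i => (p₀ i).map (algebraMap A Λ) %ₘ G i with hB₀
  set B : (Σ i, Fin (s i)) → ∀ i, Λ[X] := fun j i => (p j i).map (algebraMap A Λ) %ₘ G i with hB
  set M : Matrix (Σ i, Fin (s i)) (Σ i, Fin (s i)) Λ :=
    Matrix.of fun c j => (B j c.1).coeff (c.2 : ℕ) with hM
  set b : (Σ i, Fin (s i)) → Λ := fun c => (B₀ c.1).coeff (c.2 : ℕ) with hb
  -- congruences modulo the maximal ideal
  have hMτ : ∀ τ c j, evAt Λ τ (M c j) - (P j c.1).coeff (c.2 : ℕ) ∈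
      IsLocalRing.maximalIdeal A := by
    intro τ c j
    obtain ⟨h', hh'⟩ := interp_mod Λ (D c.1) (List.ofFn (ys c.1)) ts τ (hmem τ) (f j c.1)
      (p j c.1) (g j c.1) (hp j c.1)
    have hh2 : f j c.1 = aeval (D c.1).t (P j c.1) +
        aeval (D c.1).t (DiscAlg.nodal (List.replicate (s c.1) (0 : IsLocalRing.maximalIdeal A))) * H j c.1 := by
      rw [← ht0]; exact hf j c.1
    have := (D c.1).coeff_sub_mem _ _ (f j c.1) _ (P j c.1) h' (H j c.1) hh' hh2 (c.2 : ℕ)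
      (by simp) (by simp)
    simpa [hM, hB, Polynomial.coeff_map] using this
  have hbτ : ∀ τ c, evAt Λ τ (b c) ∈ IsLocalRing.maximalIdeal A := by
    intro τ c
    obtain ⟨h', hh'⟩ := interp_mod Λ (D c.1) (List.ofFn (ys c.1)) ts τ (hmem τ) (f₀ c.1)
      (p₀ c.1) (g₀ c.1) (hp₀ c.1)
    have hh2 : f₀ c.1 = aeval (D c.1).t (P₀ c.1) +
        aeval (D c.1).t (DiscAlg.nodal (List.replicate (s c.1) (0 : IsLocalRing.maximalIdeal A))) * H₀ c.1 := by
      rw [← ht0]; exact hf₀ c.1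
    have := (D c.1).coeff_sub_mem _ _ (f₀ c.1) _ (P₀ c.1) h' (H₀ c.1) hh' hh2 (c.2 : ℕ)
      (by simp) (by simp)
    have h2 := (IsLocalRing.maximalIdeal A).add_mem this (h₀ c.1 c.2)
    simpa [hb, hB₀, Polynomial.coeff_map] using h2
  -- the determinant is a unit
  have hdetM : IsUnit M.det := by
    have hpt : ∀ τ, IsUnit (((M.det : Λ) : T → A) τ) := by
      intro τ
      refine (IsLocalRing.residue_ne_zero_iff_isUnit (R := A) _).mp ?_
      set φ : Λ →+* IsLocalRing.ResidueField A :=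
        (IsLocalRing.residue A).comp (evAt Λ τ : Λ →+* A) with hφ
      have h1 : IsLocalRing.residue A (((M.det : Λ) : T → A) τ) = φ M.det := rfl
      rw [h1, RingHom.map_det]
      have h2 : φ.mapMatrix M = (IsLocalRing.residue A).mapMatrix
          (Matrix.of fun (c j : Σ i, Fin (s i)) => (P j c.1).coeff (c.2 : ℕ)) := by
        ext c j
        simp only [RingHom.mapMatrix_apply, Matrix.map_apply, Matrix.of_apply, hφ,
          RingHom.comp_apply]
        have := hMτ τ c j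
        rw [← IsLocalRing.residue_eq_zero_iff, map_sub, sub_eq_zero] at this
        exact this
      rw [h2, ← RingHom.map_det]
      exact (IsLocalRing.residue_ne_zero_iff_isUnit (R := A) _).mpr hdet
    obtain ⟨w, hw, hfw⟩ := exists_inv_mem Λ M.det.2 hpt
    exact IsUnit.of_mul_eq_one (⟨w, hw⟩ : Λ) (Subtype.ext hfw)
  -- the solution
  set v : (Σ i, Fin (s i)) → Λ := fun j => -(M⁻¹.mulVec b) j with hv
  have hMv : M.mulVec v = -b := by
    have h1 : v = -(M⁻¹.mulVec b) := rfl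
    rw [h1, Matrix.mulVec_neg, Matrix.mulVec_mulVec, Matrix.mul_nonsing_inv M hdetM,
      Matrix.one_mulVec]
  have hbI : ∀ c, b c ∈ radIdeal Λ := fun c τ => hbτ τ c
  have hvI : ∀ j, v j ∈ radIdeal Λ := by
    intro j
    rw [hv]
    refine (radIdeal Λ).neg_mem ?_
    simp only [Matrix.mulVec, dotProduct]
    exact (radIdeal Λ).sum_mem fun c _ => (radIdeal Λ).mul_mem_left _ (hbI c)
  refine ⟨v, hvI, fun τ i => ?_⟩
  -- divisibility in Λ[X]
  set Ψ : Λ[X] := (p₀ i).map (algebraMap A Λ) + ∑ j, C (v j) * (p j i).map (algebraMap A Λ)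
    with hΨ
  have hΨmod : Ψ %ₘ G i = B₀ i + ∑ j, v j • B j i := by
    rw [hΨ, Polynomial.add_modByMonic]
    congr 1
    have : ∀ q : Λ[X], q %ₘ G i = Polynomial.modByMonicHom (G i) q := fun q => rfl
    rw [this, map_sum]
    refine Finset.sum_congr rfl fun j _ => ?_
    rw [Polynomial.C_mul', map_smul]
    rfl
  have hdeglt : ∀ q : Λ[X], ∀ r : ℕ, s i ≤ r → (q %ₘ G i).coeff r = 0 := by
    intro q r hr
    refine Polynomial.coeff_eq_zero_of_degree_lt ?_
    refine lt_of_lt_of_le (Polynomial.degree_modByMonic_lt q (hGm i)) ?_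
    rw [hGdeg i]
    exact_mod_cast hr
  have hΨ0 : Ψ %ₘ G i = 0 := by
    ext r
    rw [hΨmod, Polynomial.coeff_zero, Polynomial.coeff_add, Polynomial.finsetSum_coeff]
    simp only [Polynomial.coeff_smul, smul_eq_mul]
    by_cases hr : r < s i
    · have h1 := congrFun hMv ⟨i, ⟨r, hr⟩⟩
      simp only [Matrix.mulVec, dotProduct, hM, Matrix.of_apply, Pi.neg_apply, hb] at h1
      have h2 : ∑ j, v j * (B j i).coeff r = ∑ j, (B j i).coeff r * v j :=
        Finset.sum_congr rfl fun j _ => mul_comm _ _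
      rw [h2, h1]
      exact add_neg_cancel _
    · push Not at hr
      rw [hB₀, hdeglt _ r hr]
      have : ∀ j, (B j i).coeff r = 0 := fun j => hdeglt _ r hr
      simp [this]
  obtain ⟨Q, hQ⟩ := (Polynomial.modByMonic_eq_zero_iff_dvd (hGm i)).mp hΨ0
  -- specialise at τ
  have hcomp : ((evAt Λ τ : Λ →+* A).comp (algebraMap A Λ)) = RingHom.id A := by
    ext a; simp
  have hΨτ : Ψ.map (evAt Λ τ : Λ →+* A) = p₀ i + ∑ j, C (((v j : Λ) : T → A) τ) * p j i := by
    rw [hΨ, Polynomial.map_add, Polynomial.map_sum, Polynomial.map_map, hcomp, Polynomial.map_id]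
    congr 1
    refine Finset.sum_congr rfl fun j _ => ?_
    rw [Polynomial.map_mul, Polynomial.map_C, Polynomial.map_map, hcomp, Polynomial.map_id]
    rfl
  have hQτ : p₀ i + ∑ j, C (((v j : Λ) : T → A) τ) * p j i =
      DiscAlg.nodal ((List.ofFn (ys i)).map (ptAt Λ τ)) * Q.map (evAt Λ τ : Λ →+* A) := by
    rw [← hΨτ, hQ, Polynomial.map_mul, hG, map_nodalΛ]
  obtain ⟨R, hR⟩ := nodal_allVals_dvd Λ (List.ofFn (ys i)) ts τ (hmem τ)
  refine ⟨aeval (D i).t (Q.map (evAt Λ τ : Λ →+* A)) +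
    aeval (D i).t R * (g₀ i + ∑ j, ((v j : Λ) : T → A) τ • g j i), ?_⟩
  have h1 : f₀ i + ∑ j, ((v j : Λ) : T → A) τ • f j i =
      aeval (D i).t (p₀ i + ∑ j, C (((v j : Λ) : T → A) τ) * p j i) +
        aeval (D i).t (DiscAlg.nodal (allVals Λ (List.ofFn (ys i)) ts)) *
          (g₀ i + ∑ j, ((v j : Λ) : T → A) τ • g j i) := by
    rw [map_add, map_sum, mul_add, Finset.mul_sum]
    have : ∀ j, ((v j : Λ) : T → A) τ • f j i =
        aeval (D i).t (C (((v j : Λ) : T → A) τ) * p j i) +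
          aeval (D i).t (DiscAlg.nodal (allVals Λ (List.ofFn (ys i)) ts)) *
            (((v j : Λ) : T → A) τ • g j i) := by
      intro j
      conv_lhs => rw [hp j i]
      rw [map_mul, aeval_C, Algebra.smul_def, Algebra.smul_def]
      ring
    rw [Finset.sum_congr rfl fun j _ => this j, Finset.sum_add_distrib]
    conv_lhs => rw [hp₀ i]
    ring
  rw [h1, hQτ, hR, map_mul, map_mul]
  ring

end Comb

end Fermat.Agent.A3.H799

end
-- ===== PACK-END A3/H799/Comb.lean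

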