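import Mathlib
import Fermat.Agent.Pack.S43MC.G0E5L3
import Fermat.Agent.Pack.S43MC.G0E5L2
import Fermat.Agent.Pack.S44C.G0E6L1
import Fermat.Agent.Pack.S43MC.G0E2L1
import Fermat.Agent.Pack.S44C.G0E4L0
import Fermat.Agent.Pack.S44C.G0E2L0
import Fermat.Agent.Pack.S44C.G0E5L3
import Fermat.Agent.Pack.S43MC.G0E3L3
import Fermat.Agent.Pack.S43MC.G0E3L0
import Fermat.Agent.Pack.S44C.G0E1L0
import Fermat.Agent.Pack.S43MC.G0E4L3
import Fermat.Agent.Pack.S44C.G0E2L2
import Fermat.Agent.Pack.S43GC.G0E2L2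
import Fermat.Agent.Pack.S43GC.G0E2L0
import Fermat.Agent.Pack.S43MC.G0E6L0
import Fermat.Agent.Pack.Fast891

-- ===== PACK-BEGIN Lib/Newform/H923/ALTrace.lean
section


/-!
# The trace from `Γ₀(q M)` to `Γ₀(M)` of an Atkin–Lehner translate

For `f` invariant under `Γ₀(q M)` (`q` prime, `q ∤ M`) and an Atkin–Lehner matrix `A` at `q`,
the function `f ∣[k] A + heckeU k q f` is invariant under `Γ₀(M)`
(it is the trace of `f ∣[k] A`, up to normalisation).
-/

set_option autoImplicit false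

noncomputable section

namespace Fermat.Agent.Lib.Newform.H923

open Matrix UpperHalfPlane ModularForm
open scoped MatrixGroups ModularForm OnePoint

theorem IsInt.unique {A : GL (Fin 2) ℝ} {a b c d a' b' c' d' : ℤ} (hA : IsInt A a b c d)
    (hA' : IsInt A a' b' c' d') : a = a' ∧ b = b' ∧ c = c' ∧ d = d' := by
  have h : !![(a : ℝ), (b : ℝ); (c : ℝ), (d : ℝ)] = !![(a' : ℝ), (b' : ℝ); (c' : ℝ), (d' : ℝ)] :=
    hA.symm.trans hA'
  have h00 := congrFun (congrFun h 0) 0
  have h01 := congrFun (congrFun h 0) 1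
  have h10 := congrFun (congrFun h 1) 0
  have h11 := congrFun (congrFun h 1) 1
  simp at h00 h01 h10 h11
  exact ⟨h00, h01, h10, h11⟩

/-- An integral matrix of determinant one with lower left entry divisible by `N` comes from
`Γ₀(N)`. -/
theorem IsInt.exists_mapGL {A : GL (Fin 2) ℝ} {a b c d : ℤ} (hA : IsInt A a b c d)
    (hdet : a * d - b * c = 1) {N : ℕ} (hc : (N : ℤ) ∣ c) :
    ∃ g ∈ CongruenceSubgroup.Gamma0 N, A = Matrix.SpecialLinearGroup.mapGL ℝ g := by
  let g : SL(2, ℤ) := ⟨!![a, b; c, d], by rw [Matrix.det_fin_two_of]; exact hdet⟩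
  refine ⟨g, ?_, hA.ext (isInt_mapGL g) rfl rfl rfl rfl⟩
  rw [CongruenceSubgroup.Gamma0_mem]
  exact (ZMod.intCast_zmod_eq_zero_iff_dvd _ _).mpr hc

theorem InvUnder.slash_isInt {N : ℕ} {k : ℤ} {f : ℍ → ℂ} (hf : InvUnder N k f)
    {A : GL (Fin 2) ℝ} {a b c d : ℤ} (hA : IsInt A a b c d)
    (hdet : a * d - b * c = 1) (hc : (N : ℤ) ∣ c) : f ∣[k] A = f := by
  obtain ⟨g, hg, rfl⟩ := hA.exists_mapGL hdet hc
  exact hf.slash_mapGL hg

/-- The representatives of `Γ₀(q M) \ Γ₀(M)` twisted by the Atkin–Lehner matrix `A`. -/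
def alRep (q : ℕ) (A : GL (Fin 2) ℝ) (x : OnePoint (ZMod q)) : GL (Fin 2) ℝ :=
  x.elim A (fun j ↦ heckeMatrix q j.val)

@[simp] theorem alRep_infty (q : ℕ) (A : GL (Fin 2) ℝ) : alRep q A ∞ = A := rfl

@[simp] theorem alRep_coe (q : ℕ) (A : GL (Fin 2) ℝ) (j : ZMod q) :
    alRep q A j = heckeMatrix q j.val := rfl

theorem slash_add_heckeU_eq_sum {q : ℕ} [NeZero q] (k : ℤ) (A : GL (Fin 2) ℝ) (f : ℍ → ℂ) :
    f ∣[k] A + heckeU k q f = ∑ x : OnePoint (ZMod q), f ∣[k] alRep q A x := by
  rw [heckeU_eq_sum_zmod']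
  exact (Fintype.sum_option (fun x : OnePoint (ZMod q) ↦ f ∣[k] alRep q A x)).symm

/-- Key step: for `g ∈ Γ₀(M)`, right multiplication by `g` permutes the classes of the
representatives `alRep q A x` modulo `Γ₀(q M)`. -/
theorem slash_alRep_mapGL (k : ℤ) {q M : ℕ} (hq : q.Prime) {f : ℍ → ℂ}
    (hf : InvUnder (q * M) k f) {A : GL (Fin 2) ℝ} (hA : IsAL q M A)
    {g : SL(2, ℤ)} (hg : g ∈ CongruenceSubgroup.Gamma0 M)
    (hdet : ¬ ((q : ℕ) : ℤ) ∣ g 0 0 * g 1 1 - g 0 1 * g 1 0) (x : OnePoint (ZMod q)) :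
    haveI : Fact q.Prime := ⟨hq⟩
    (f ∣[k] alRep q A x) ∣[k] (Matrix.SpecialLinearGroup.mapGL ℝ g) =
      f ∣[k] alRep q A (redGL q (g 0 0) (g 0 1) (g 1 0) (g 1 1) hdet • x) := by
  haveI : Fact q.Prime := ⟨hq⟩
  have hq0 : q ≠ 0 := hq.ne_zero
  have hq0' : (q : ℤ) ≠ 0 := by exact_mod_cast hq0
  obtain ⟨a, b, c, d, hInt, h⟩ := id hA
  have hqM : Nat.Coprime q M := by
    have : IsCoprime (q : ℤ) (M : ℤ) := ⟨a * d, -(b * c), by linear_combination h⟩
    exact Nat.isCoprime_iff_coprime.mp this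
  have hcopM : IsCoprime (M : ℤ) (q : ℤ) := (Nat.isCoprime_iff_coprime.mpr hqM).symm
  have hgM : (M : ℤ) ∣ g 1 0 :=
    (ZMod.intCast_zmod_eq_zero_iff_dvd _ _).mp (CongruenceSubgroup.Gamma0_mem.mp hg)
  have hdetg : g 0 0 * g 1 1 - g 0 1 * g 1 0 = 1 := by
    have := g.det_coe
    rwa [Matrix.det_fin_two] at this
  -- the `SL₂(ℤ)`-part of `A`
  have hγ₁det : a * (q * d) - b * (M * c) ≠ 0 := by
    have : a * (q * d) - b * (M * c) = 1 := by linear_combination h
    rw [this]; exact one_ne_zero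
  set γ₁ : GL (Fin 2) ℝ := intGL a b (M * c) (q * d) hγ₁det with hγ₁
  have hγ₁Int : IsInt γ₁ a b (M * c) (q * d) := isInt_intGL _ _ _ _ _
  have hAγ₁ : A = γ₁ * heckeDiagMatrix q := by
    refine hInt.ext (hγ₁Int.mul (isInt_heckeDiagMatrix hq0)) ?_ ?_ ?_ ?_ <;> ring
  obtain ⟨A', a', b', c', d', hA', hdet', h1, -, -, hmul⟩ :=
    exists_hRep_mul (isInt_mapGL g) hdet x
  rw [hdetg] at hdet'
  have hMc' : (M : ℤ) ∣ c' := h1 M hcopM hgM
  obtain ⟨t, ht⟩ := hMc'
  rw [← SlashAction.slash_mul]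
  induction x using OnePoint.rec with
  | infty =>
    rw [alRep_infty]
    rw [hRep_infty] at hmul
    rcases hσ : (redGL q (g 0 0) (g 0 1) (g 1 0) (g 1 1) hdet • (∞ : OnePoint (ZMod q))) with _ | j'
    · -- `∞ ↦ ∞`
      rw [hσ] at hmul
      change heckeDiagMatrix q * _ = A' * heckeDiagMatrix q at hmul
      change f ∣[k] (A * _) = f ∣[k] A
      obtain ⟨-, h01, -, -⟩ := (((isInt_heckeDiagMatrix hq0).mul (isInt_mapGL g)).unique
        (hmul ▸ hA'.mul (isInt_heckeDiagMatrix hq0)))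
      have hb' : b' = q * g 0 1 := by linear_combination -h01
      rw [hAγ₁, mul_assoc, hmul, ← mul_assoc]
      have hInt2 := (hγ₁Int.mul hA').mul (isInt_heckeDiagMatrix hq0)
      refine slash_AL_eq hf (hAγ₁ ▸ hA) (isAL_of_dvd hq0 hInt2 ?_ ?_ ?_ ?_)
      · linear_combination (q : ℤ) * (a' * d' - b' * c') * h + (q : ℤ) * hdet'
      · exact ⟨a * a' + b * c', by ring⟩
      · refine ⟨c * a' + q * d * t, ?_⟩
        rw [ht]; push_cast; ring
      · refine ⟨M * c * g 0 1 + d * d', ?_⟩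
        rw [hb']; ring
    · -- `∞ ↦ j'`
      rw [hσ] at hmul
      change heckeDiagMatrix q * _ = A' * heckeMatrix q j'.val at hmul
      change f ∣[k] (A * _) = f ∣[k] heckeMatrix q j'.val
      obtain ⟨h00, -, -, -⟩ := (((isInt_heckeDiagMatrix hq0).mul (isInt_mapGL g)).unique
        (hmul ▸ hA'.mul (isInt_heckeMatrix hq0 j'.val)))
      have ha' : a' = q * g 0 0 := by linear_combination -h00
      rw [hAγ₁, mul_assoc, hmul, ← mul_assoc, SlashAction.slash_mul]
      congr 1
      refine hf.slash_isInt (hγ₁Int.mul hA') ?_ ?_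
      · linear_combination (a' * d' - b' * c') * h + hdet'
      · refine ⟨c * g 0 0 + d * t, ?_⟩
        rw [ha', ht]; push_cast; ring
  | coe j =>
    rw [alRep_coe]
    rw [hRep_coe] at hmul
    rcases hσ : (redGL q (g 0 0) (g 0 1) (g 1 0) (g 1 1) hdet • (j : OnePoint (ZMod q)))
      with _ | j'
    · -- `j ↦ ∞`
      rw [hσ] at hmul
      change heckeMatrix q j.val * _ = A' * heckeDiagMatrix q at hmul
      change f ∣[k] (heckeMatrix q j.val * _) = f ∣[k] A
      obtain ⟨-, -, -, h11⟩ := (((isInt_heckeMatrix hq0 j.val).mul (isInt_mapGL g)).unique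
        (hmul ▸ hA'.mul (isInt_heckeDiagMatrix hq0)))
      have hd' : d' = q * g 1 1 := by linear_combination -h11
      rw [hmul]
      have hInt2 := hA'.mul (isInt_heckeDiagMatrix hq0)
      refine slash_AL_eq hf hA (isAL_of_dvd hq0 hInt2 ?_ ?_ ?_ ?_)
      · linear_combination (q : ℤ) * hdet'
      · exact ⟨a', by ring⟩
      · refine ⟨t, ?_⟩
        rw [ht]; push_cast; ring
      · refine ⟨g 1 1, ?_⟩
        rw [hd']; ring
    · -- `j ↦ j'`
      rw [hσ] at hmul
      change heckeMatrix q j.val * _ = A' * heckeMatrix q j'.val at hmul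
      change f ∣[k] (heckeMatrix q j.val * _) = f ∣[k] heckeMatrix q j'.val
      obtain ⟨-, -, h10, -⟩ := (((isInt_heckeMatrix hq0 j.val).mul (isInt_mapGL g)).unique
        (hmul ▸ hA'.mul (isInt_heckeMatrix hq0 j'.val)))
      have hc' : c' = q * g 1 0 := by linear_combination -h10
      rw [hmul, SlashAction.slash_mul]
      congr 1
      refine hf.slash_isInt hA' hdet' ?_
      obtain ⟨s, hs⟩ := hgM
      refine ⟨s, ?_⟩
      rw [hc', hs]; push_cast; ring

/-- **Trace formula, invariance part.** For `f` invariant under `Γ₀(q M)` and an Atkin–Lehner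
matrix `A` at the prime `q`, the function `f ∣[k] A + U_q f` is invariant under `Γ₀(M)`. -/
theorem invUnder_slash_AL_add_heckeU (k : ℤ) {q M : ℕ} (hq : q.Prime) {f : ℍ → ℂ}
    (hf : InvUnder (q * M) k f) {A : GL (Fin 2) ℝ} (hA : IsAL q M A) :
    InvUnder M k (f ∣[k] A + heckeU k q f) := by
  haveI : Fact q.Prime := ⟨hq⟩
  haveI : NeZero q := ⟨hq.ne_zero⟩
  rintro _ ⟨g, hg, rfl⟩
  have hdetg : g 0 0 * g 1 1 - g 0 1 * g 1 0 = 1 := by
    have := g.det_coe
    rwa [Matrix.det_fin_two] at this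
  have hdet : ¬ ((q : ℕ) : ℤ) ∣ g 0 0 * g 1 1 - g 0 1 * g 1 0 := by
    rw [hdetg]
    intro hd
    have := Int.eq_one_of_dvd_one (by positivity) hd
    exact hq.one_lt.ne' (by exact_mod_cast this)
  rw [slash_add_heckeU_eq_sum, SlashAction.sum_slash]
  calc ∑ x : OnePoint (ZMod q), (f ∣[k] alRep q A x) ∣[k] (Matrix.SpecialLinearGroup.mapGL ℝ g)
      = ∑ x : OnePoint (ZMod q),
          f ∣[k] alRep q A (redGL q (g 0 0) (g 0 1) (g 1 0) (g 1 1) hdet • x) :=
        Finset.sum_congr rfl fun x _ ↦ slash_alRep_mapGL k hq hf hA hg hdet x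
    _ = ∑ x : OnePoint (ZMod q), f ∣[k] alRep q A x :=
        Equiv.sum_comp (MulAction.toPerm (redGL q (g 0 0) (g 0 1) (g 1 0) (g 1 1) hdet))
          (fun x ↦ f ∣[k] alRep q A x)

end Fermat.Agent.Lib.Newform.H923

end
end
-- ===== PACK-END Lib/Newform/H923/ALTrace.lean

-- ===== PACK-BEGIN Ribet/H943/AtP.lean
section


/-!
# Row RIBET, piece P1p: abstract Mazur-Ribet at `p` (Frey form), pure algebra

`S44_of_atP : Embed → AtPPackage → NotMultiplicativeType → Places → EigenformOfOccurs →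
AlmostAllToWitness → S44Statement`.
-/

set_option autoImplicit false

open WeierstrassCurve WeierstrassCurve.Affine WeierstrassCurve.Affine.Point
open CuspForm ModularFormClass UpperHalfPlane ModularCurve

namespace Fermat.Agent.Ribet

open Spec

/-- A nonzero element of a product has a nonzero coordinate which inherits torsion and
eigen-properties: packaged as `OccursIn`. -/
theorem occursIn_of_pair {M p : ℕ} [NeZero M] {S : Finset ℕ} {a : ℕ → ℤ}
    (y : JZero M × JZero M) (hy : y ≠ 0) (hp : p • y = 0)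
    (hT : ∀ ℓ : Nat.Primes, (ℓ : ℕ) ∉ S →
      (heckeOperatorBar M ℓ y.1, heckeOperatorBar M ℓ y.2) = a ℓ • y) :
    OccursIn M p S a := by
  have hp1 : p • y.1 = 0 := by simpa using congrArg Prod.fst hp
  have hp2 : p • y.2 = 0 := by simpa using congrArg Prod.snd hp
  by_cases h1 : y.1 = 0
  · have h2 : y.2 ≠ 0 := by
      intro h2
      exact hy (Prod.ext h1 h2)
    refine ⟨y.2, h2, hp2, fun ℓ hℓ => ?_⟩
    simpa using congrArg Prod.snd (hT ℓ hℓ)
  · refine ⟨y.1, h1, hp1, fun ℓ hℓ => ?_⟩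
    simpa using congrArg Prod.fst (hT ℓ hℓ)

/-- (P1p) abstract Mazur-Ribet at `p`, Frey form. -/
theorem S44_of_atP (hE : EmbedStatement) (hA : AtPPackageStatement)
    (hNMT : NotMultiplicativeTypeStatement) (hPl : PlacesStatement)
    (hR3 : EigenformOfOccursStatement) (hR3' : AlmostAllToWitnessStatement) :
    S44Statement := by
  intro P N hcond hpN hirr hmod
  have hsq : ¬ P.p ^ 2 ∣ N := hcond.sq_not_dvd P.pp
  refine ⟨N / P.p, Nat.div_dvd_of_dvd hpN, not_dvd_div_of_sq_not_dvd P.pp hpN hsq, ?_⟩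
  have hpabc := hcond.p_dvd_abc hpN
  have hNpos := hcond.pos
  obtain ⟨M', rfl⟩ := hpN
  have hM'pos : 0 < M' := by
    rcases Nat.eq_zero_or_pos M' with h0 | h0
    · subst h0; simp at hNpos
    · exact h0
  rw [Nat.mul_div_cancel_left M' P.pp.pos]
  have hpM' : ¬ P.p ∣ M' := by
    rintro ⟨k, rfl⟩
    exact hsq ⟨k, by ring⟩
  haveI : NeZero M' := ⟨hM'pos.ne'⟩
  haveI : NeZero (P.p * M') := ⟨hNpos.ne'⟩
  obtain ⟨f, W, 𝔪, hwit⟩ := hmod
  have hwit' : P.IsCongruentWitness (P.p * M') f W 𝔪 := hwit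
  obtain ⟨S, ι, hinj, hgal, hhecke⟩ := hE P (P.p * M') hirr f W 𝔪 hwit'
  obtain ⟨A, hA', -⟩ := hPl P.p P.pp
  obtain ⟨𝒲, 𝓕, β, -, htors, hmult, hβeq, hker, hflat⟩ := hA P M' hpM' hpabc A hA'
  have hι𝓕 : ∀ x, ι x ∈ 𝓕 := hflat ι hgal
  by_cases hall : ∀ x, β ⟨ι x, hι𝓕 x⟩ = 0
  · exfalso
    apply hNMT P A hA'
    intro σ hσ c hc x
    have hx𝒲 : ι x ∈ 𝒲 := hker ⟨ι x, hι𝓕 x⟩ (hall x)
    have h1 := hmult σ hσ c hc (ι x) hx𝒲
    apply hinj
    rw [hgal, h1, map_nsmul]
  · push Not at hall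
    obtain ⟨x, hx⟩ := hall
    set S' : Finset ℕ := S ∪ (M' * P.p).primeFactors with hS'
    have hocc : OccursIn M' P.p S' (fun ℓ => W.apOfModel ℓ) := by
      refine occursIn_of_pair (β ⟨ι x, hι𝓕 x⟩) hx ?_ ?_
      · rw [← map_nsmul]
        have : P.p • (⟨ι x, hι𝓕 x⟩ : 𝓕) = 0 := by
          apply Subtype.ext
          simpa using htors (ι x) (hι𝓕 x)
        rw [this, _root_.map_zero]
      · intro ℓ hℓ
        have hℓS : (ℓ : ℕ) ∉ S := fun h => hℓ (Finset.mem_union_left _ h)
        have hℓM : ¬ (ℓ : ℕ) ∣ M' * P.p := by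
          intro h
          apply hℓ
          apply Finset.mem_union_right
          rw [Nat.mem_primeFactors]
          exact ⟨ℓ.2, h, (Nat.mul_pos hM'pos P.pp.pos).ne'⟩
        obtain ⟨hx', hβ⟩ := hβeq ℓ hℓM ⟨ι x, hι𝓕 x⟩
        rw [← hβ, ← map_zsmul]
        congr 1
        apply Subtype.ext
        simpa using hhecke ℓ hℓS x
    obtain ⟨g, 𝔪', hg, hmax, hp, hc⟩ := hR3 M' P.p P.pp S' (fun ℓ => W.apOfModel ℓ) hocc
    exact ⟨g, W, 𝔪', hR3' P M' hM'pos g W 𝔪' S' hg hwit.2.1 hmax hp hc⟩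

end Fermat.Agent.Ribet

end
-- ===== PACK-END Ribet/H943/AtP.lean

-- ===== PACK-BEGIN Ribet/H943/Row37.lean
section



/-!
# Row 37 (S38 | S43): Mazur's principle + the HARD case  (row-lead helper943)

Ribet's level lowering at `q ≠ p`, `q ‖ L`, splits into
* `Spec.MazurPrincipleStatement` (`q ≢ 1 mod p`): the wall at `q` (`Spec.AtQOccursStatement`, the mirror
  of the wall at `p` with `p ≠ q`: inputs A2 + S18), glue `Spec.mazurPrinciple_of_walls`;
* `HardCaseStatement` (`q ≡ 1 mod p`): classically Ribet's pivot through Shimura curves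
  (`Spec.RibetPivotStatement`, glue `S43_of`); Shimura-free route = Taylor's Ihara avoidance
  (two deformation problems at `q`, unipotent and `χ ⊕ χ⁻¹`, which agree modulo `λ`), to be built
  inside the patching machine of row S59.

`S43_of_hard : MazurPrinciple → HardCase → S43` and the support form
`S43_of_wallq_hard : BLR → WALL-q → R3S → R3' → HardCase → S43` are proved here.
-/

set_option autoImplicit false

open WeierstrassCurve WeierstrassCurve.Affine WeierstrassCurve.Affine.Point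
open CuspForm ModularFormClass UpperHalfPlane

namespace Fermat.Agent.Ribet.H943.Row37

open Fermat.Agent.Ribet Fermat.Agent.Ribet.Spec

/-- (HARD)  Level lowering at `q ≠ p`, `q ‖ L`, in the case `q ≡ 1 mod p`, Frey form, general
level `L`. -/
def HardCaseStatement : Prop :=
  ∀ (P : FreyPackage) {L q : ℕ}, 0 < L → q.Prime → q ≠ P.p → q ∣ L → ¬ q ^ 2 ∣ L →
    GaloisRepIsIrreducible (K := AlgebraicClosure ℚ) ℚ P.freyCurve P.p →
    P.ModularRepOfLevel L → P.GaloisRepUnramifiedAt q → P.p ∣ q - 1 →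
    P.ModularRepOfLevel (L / q)

/-- (RIBET)  Level lowering at `q ≠ p`, `q ‖ L`, Frey form, general level `L`. -/
def LevelLoweringStatement : Prop :=
  ∀ (P : FreyPackage) {L q : ℕ}, 0 < L → q.Prime → q ≠ P.p → q ∣ L → ¬ q ^ 2 ∣ L →
    GaloisRepIsIrreducible (K := AlgebraicClosure ℚ) ℚ P.freyCurve P.p →
    P.ModularRepOfLevel L → P.GaloisRepUnramifiedAt q →
    P.ModularRepOfLevel (L / q)

theorem levelLowering_of (hMP : MazurPrincipleStatement) (hH : HardCaseStatement) :
    LevelLoweringStatement := by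
  intro P L q hL hq hqp hqL hsq hirr hmod hunr
  by_cases h1 : P.p ∣ q - 1
  · exact hH P hL hq hqp hqL hsq hirr hmod hunr h1
  · exact hMP P hL hq hqp hqL hsq hirr hmod hunr h1

/-- **S43 from level lowering at general level.** -/
theorem S43_of_levelLowering (hLL : LevelLoweringStatement) : S43Statement := by
  intro P N q hcond hq _ hqp hqN hirr hmod hunr
  have hsq : ¬ q ^ 2 ∣ N := hcond.sq_not_dvd hq
  exact ⟨N / q, Nat.div_dvd_of_dvd hqN, not_dvd_div_of_sq_not_dvd hq hqN hsq,
    hLL P hcond.pos hq hqp hqN hsq hirr hmod hunr⟩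

/-- **S43 from Mazur's principle and the hard case.** -/
theorem S43_of_hard (hMP : MazurPrincipleStatement) (hH : HardCaseStatement) : S43Statement :=
  S43_of_levelLowering (levelLowering_of hMP hH)

/-- **S43 from the wall at `q` (support form) and the hard case.** -/
theorem S43_of_wallq_hard (hE : EmbedStatement) (hWall : AtQOccursStatement)
    (hR3 : EigenformOfOccursAwayStatement) (hR3' : AlmostAllToWitnessStatement)
    (hH : HardCaseStatement) : S43Statement :=
  S43_of_hard (mazurPrinciple_of_walls hE hWall hR3 hR3') hH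

/-- The classical route to the hard case: auxiliary prime, level raising, old/new dichotomy,
Ribet's pivot and Mazur's principle at the auxiliary prime (extracted from `S43_of`; here only
the statement that the pivot chain yields S43). -/
theorem S43_of_pivot (hMP : MazurPrincipleStatement) (hAux : AuxPrimeStatement)
    (hLR : LevelRaisingStatement) (hON : OldNewStatement) (hPiv : RibetPivotStatement)
    (h05 : S05Statement) (hBad : FreyBadPrimeStatement) : S43Statement :=
  S43_of hMP hAux hLR hON hPiv h05 hBad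

end Fermat.Agent.Ribet.H943.Row37

end
-- ===== PACK-END Ribet/H943/Row37.lean

-- ===== PACK-BEGIN S36/H586/Approx586.lean
section


/-!
# Approximation for finitely many pairwise incomparable valuation rings

VERBATIM copy (own namespace `Fermat.Agent.S36.H586.Ap`) of helper253's
`S36/H253/Approx.lean` + `exists_unif_multi` of `S36/H253/NormVal.lean` (origin/helper253,
not on main at 22:10Z), so that the closure of `H586.leafStepA` is self-contained.
All credit: helper253.

Mathlib only.  `V i` (`i : ι`, finite) valuation subrings of a field `F`, pairwise incomparable,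
of ARBITRARY rank.

* `exists_multiplier` (Nagata's trick): for every `x : F` there is `u ∈ ⋂ V i` with
  `x * u ∈ ⋂ V i` and `u` a unit of every `V i` containing `x`;
* `exists_idem_multi` : `E ≡ 1` at `V i`, `E ≡ 0` at the other `V i'`;
* `exists_lift_multi` : every `b ∈ V i` is congruent modulo the maximal ideal of `V i` to an
  element of `⋂ V i'`.
-/

set_option autoImplicit false
set_option linter.unusedSectionVars false

namespace Fermat.Agent.S36.H586.Ap

open scoped BigOperators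
open Fermat.Agent.S35.H253

section Geom

variable {F : Type*} [Field F]

/-- The geometric sum `1 + x + ⋯ + x ^ (s - 1)`. -/
def gsum (x : F) (s : ℕ) : F := ∑ m ∈ Finset.range s, x ^ m

theorem gsum_zero (x : F) : gsum x 0 = 0 := by simp [gsum]

theorem gsum_succ (x : F) (s : ℕ) : gsum x (s + 1) = gsum x s + x ^ s := by
  simp [gsum, Finset.sum_range_succ]

theorem gsum_succ' (x : F) (s : ℕ) : gsum x (s + 1) = 1 + x * gsum x s := by
  unfold gsum
  rw [Finset.sum_range_succ', pow_zero, Finset.mul_sum, add_comm]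
  congr 1
  exact Finset.sum_congr rfl fun m _ => by rw [pow_succ']

theorem gsum_add (x : F) (a b : ℕ) : gsum x (a + b) = gsum x a + x ^ a * gsum x b := by
  unfold gsum
  rw [Finset.sum_range_add, Finset.mul_sum]
  congr 1
  exact Finset.sum_congr rfl fun m _ => by rw [pow_add]

theorem gsum_mem (V : ValuationSubring F) {x : F} (hx : x ∈ V) (s : ℕ) : gsum x s ∈ V :=
  sum_mem fun _ _ => pow_mem hx _

/-- If `x` lies in the maximal ideal, all geometric sums `gsum x (s + 1)` are units. -/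
theorem val_gsum_of_small (V : ValuationSubring F) {x : F} (hx : V.valuation x < 1) (s : ℕ) :
    V.valuation (gsum x (s + 1)) = 1 := by
  rw [gsum_succ']
  refine Valuation.map_one_add_of_lt _ ?_
  exact val_mul_lt_one_left V hx
    ((V.valuation_le_one_iff _).2 (gsum_mem V ((V.valuation_le_one_iff _).1 hx.le) s))

/-- If `x ∉ V`, the geometric sum `gsum x (s + 1)` has the valuation of `x ^ s`. -/
theorem val_gsum_of_big (V : ValuationSubring F) {x : F} (hx : 1 < V.valuation x) (s : ℕ) :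
    V.valuation (gsum x (s + 1)) = V.valuation x ^ s := by
  induction s with
  | zero => simp [gsum]
  | succ s ih =>
    rw [gsum_succ, add_comm]
    have hlt : V.valuation (gsum x (s + 1)) < V.valuation (x ^ (s + 1)) := by
      rw [ih, map_pow, pow_succ]
      have hpos : 0 < V.valuation x ^ s := pow_pos (lt_trans zero_lt_one hx) _
      calc V.valuation x ^ s = V.valuation x ^ s * 1 := (mul_one _).symm
        _ < V.valuation x ^ s * V.valuation x := by gcongr
    rw [Valuation.map_add_eq_of_lt_left _ hlt, map_pow]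

/-- The bad exponents for a unit `x` of `V` are multiples of the smallest one. -/
theorem exists_modulus (V : ValuationSubring F) {x : F} (hx : x ∈ V) :
    ∃ d : ℕ, 2 ≤ d ∧ ∀ s : ℕ, V.valuation (gsum x s) < 1 → d ∣ s := by
  classical
  by_cases hex : ∃ s : ℕ, 0 < s ∧ V.valuation (gsum x s) < 1
  · set d := Nat.find hex with hd
    have hdspec : 0 < d ∧ V.valuation (gsum x d) < 1 := Nat.find_spec hex
    have hdmin : ∀ s, s < d → ¬ (0 < s ∧ V.valuation (gsum x s) < 1) :=
      fun s hs => Nat.find_min hex hs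
    have hxu : V.valuation x = 1 := by
      rcases lt_or_eq_of_le ((V.valuation_le_one_iff _).2 hx) with hlt | heq
      · exfalso
        obtain ⟨d', hd'⟩ : ∃ d', d = d' + 1 := ⟨d - 1, by omega⟩
        have := val_gsum_of_small V hlt d'
        rw [← hd'] at this
        rw [this] at hdspec
        exact lt_irrefl _ hdspec.2
      · exact heq
    have hd2 : 2 ≤ d := by
      rcases Nat.lt_or_ge d 2 with hlt | hge
      · exfalso
        have hd1 : d = 1 := by omega
        have h1 := hdspec.2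
        rw [hd1] at h1
        simp [gsum] at h1
      · exact hge
    -- multiples of `d` are bad
    have hmul : ∀ q : ℕ, V.valuation (gsum x (q * d)) < 1 := by
      intro q
      induction q with
      | zero => rw [Nat.zero_mul, gsum_zero, map_zero]; exact zero_lt_one
      | succ q ih =>
        rw [Nat.succ_mul, gsum_add]
        refine Valuation.map_add_lt _ ih ?_
        exact val_mul_lt_one_right V ((V.valuation_le_one_iff _).2 (pow_mem hx _)) hdspec.2
    refine ⟨d, hd2, fun s hs => ?_⟩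
    have hsdiv : s = (s / d) * d + s % d := by
      rw [Nat.mul_comm]; exact (Nat.div_add_mod s d).symm
    have hr : V.valuation (gsum x (s % d)) < 1 := by
      have h1 : gsum x s = gsum x ((s / d) * d) + x ^ ((s / d) * d) * gsum x (s % d) := by
        conv_lhs => rw [hsdiv]
        exact gsum_add x _ _
      have h2 : x ^ ((s / d) * d) * gsum x (s % d) = gsum x s - gsum x ((s / d) * d) := by
        rw [h1]; ring
      have h3 : V.valuation (x ^ ((s / d) * d) * gsum x (s % d)) < 1 := by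
        rw [h2]; exact Valuation.map_sub_lt _ hs (hmul _)
      rwa [map_mul, map_pow, hxu, one_pow, one_mul] at h3
    have hr0 : s % d = 0 := by
      by_contra hne
      exact hdmin (s % d) (Nat.mod_lt _ hdspec.1) ⟨Nat.pos_of_ne_zero hne, hr⟩
    exact Nat.dvd_of_mod_eq_zero hr0
  · refine ⟨2, le_rfl, fun s hs => ?_⟩
    rcases Nat.eq_zero_or_pos s with h0 | hpos
    · rw [h0]; exact dvd_zero 2
    · exact absurd ⟨s, hpos, hs⟩ hex

end Geom

section Multi

variable {F : Type*} [Field F] {ι : Type*} [Fintype ι]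

/-- **Nagata's trick.**  For every `x : F` there is `u ∈ ⋂ V i` such that `x * u ∈ ⋂ V i` and `u`
is a unit of every `V i` containing `x`. -/
theorem exists_multiplier (V : ι → ValuationSubring F) (x : F) :
    ∃ u : F, (∀ i, u ∈ V i) ∧ (∀ i, x * u ∈ V i) ∧
      (∀ i, x ∈ V i → (V i).valuation u = 1) := by
  classical
  have hd : ∀ i, ∃ d : ℕ, 2 ≤ d ∧
      (x ∈ V i → ∀ s, (V i).valuation (gsum x s) < 1 → d ∣ s) := fun i => by
    by_cases hx : x ∈ V i
    · obtain ⟨d, hd2, hd⟩ := exists_modulus (V i) hx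
      exact ⟨d, hd2, fun _ => hd⟩
    · exact ⟨2, le_rfl, fun h => absurd h hx⟩
  choose d hd2 hd using hd
  set D := ∏ i, d i with hD
  have hDpos : 0 < D := Finset.prod_pos fun i _ => by have := hd2 i; omega
  have hunit : ∀ i, x ∈ V i → (V i).valuation (gsum x (D + 1)) = 1 := by
    intro i hx
    rcases lt_or_eq_of_le (((V i).valuation_le_one_iff _).2 (gsum_mem (V i) hx (D + 1)))
      with hlt | heq
    · exfalso
      have hdvd := hd i hx (D + 1) hlt
      have hdD : d i ∣ D := Finset.dvd_prod_of_mem _ (Finset.mem_univ i)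
      have h1 : d i ∣ 1 := (Nat.dvd_add_right hdD).1 hdvd
      have h2 := Nat.le_of_dvd one_pos h1
      have h3 := hd2 i
      omega
    · exact heq
  have hbig : ∀ i, x ∉ V i → (V i).valuation (gsum x (D + 1)) = (V i).valuation x ^ D :=
    fun i hx => val_gsum_of_big (V i)
      (by rw [← not_le, (V i).valuation_le_one_iff]; exact hx) D
  have hxbig : ∀ i, x ∉ V i → 1 < (V i).valuation x := fun i hx => by
    rw [← not_le, (V i).valuation_le_one_iff]; exact hx
  refine ⟨(gsum x (D + 1))⁻¹, fun i => ?_, fun i => ?_, fun i hx => ?_⟩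
  · rw [← (V i).valuation_le_one_iff, map_inv₀]
    by_cases hx : x ∈ V i
    · rw [hunit i hx, inv_one]
    · rw [hbig i hx]
      exact inv_le_one_of_one_le₀ (one_le_pow₀ (hxbig i hx).le)
  · rw [← (V i).valuation_le_one_iff, map_mul, map_inv₀]
    by_cases hx : x ∈ V i
    · rw [hunit i hx, inv_one, mul_one]
      exact ((V i).valuation_le_one_iff _).2 hx
    · rw [hbig i hx]
      have hpos : 0 < (V i).valuation x ^ D := pow_pos (lt_trans zero_lt_one (hxbig i hx)) _
      rw [mul_inv_le_iff₀ hpos, one_mul]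
      exact le_self_pow₀ (hxbig i hx).le (by omega)
  · rw [map_inv₀, hunit i hx, inv_one]

variable [DecidableEq ι]

/-- Elements which are units at `V i` and small at all other `V i'`. -/
theorem exists_sep_multi (V : ι → ValuationSubring F)
    (hinc : ∀ i i', i ≠ i' → ¬ V i ≤ V i') (i : ι) :
    ∃ w : F, (V i).valuation w = 1 ∧ ∀ i', i' ≠ i → (V i').valuation w < 1 := by
  classical
  have hu : ∀ i', ∃ u : F, (∀ i'', u ∈ V i'') ∧ (V i).valuation u = 1 ∧
      (i' ≠ i → (V i').valuation u < 1) := fun i' => by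
    by_cases hi : i' = i
    · exact ⟨1, fun _ => one_mem _, map_one _, fun h => absurd hi h⟩
    · obtain ⟨x, hx1, hx2⟩ := SetLike.not_le_iff_exists.1 (hinc i i' (fun h => hi h.symm))
      obtain ⟨u, hu1, hu2, hu3⟩ := exists_multiplier V x
      refine ⟨u, hu1, hu3 i hx1, fun _ => ?_⟩
      have hxbig : 1 < (V i').valuation x := by
        rw [← not_le, (V i').valuation_le_one_iff]; exact hx2
      have h1 : (V i').valuation x * (V i').valuation u ≤ 1 := by
        rw [← map_mul]; exact ((V i').valuation_le_one_iff _).2 (hu2 i')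
      by_contra hcon
      rw [not_lt] at hcon
      have : (V i').valuation x * 1 ≤ (V i').valuation x * (V i').valuation u := by gcongr
      rw [mul_one] at this
      exact absurd (lt_of_lt_of_le hxbig (this.trans h1)) (lt_irrefl _)
  choose u hu1 hu2 hu3 using hu
  refine ⟨∏ i', u i', ?_, fun i' hi' => ?_⟩
  · rw [map_prod]
    exact Finset.prod_eq_one fun i' _ => hu2 i'
  · rw [map_prod, ← Finset.mul_prod_erase _ _ (Finset.mem_univ i')]
    have h1 : ∏ x ∈ Finset.univ.erase i', (V i').valuation (u x) ≤ 1 :=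
      Finset.prod_le_one' fun x _ => ((V i').valuation_le_one_iff _).2 (hu1 x i')
    calc (V i').valuation (u i') * ∏ x ∈ Finset.univ.erase i', (V i').valuation (u x)
        ≤ (V i').valuation (u i') * 1 := by gcongr
      _ = (V i').valuation (u i') := mul_one _
      _ < 1 := hu3 i' hi'

/-- **Idempotents.**  `E ≡ 1` at `V i` and `E ≡ 0` at the other `V i'`. -/
theorem exists_idem_multi (V : ι → ValuationSubring F)
    (hinc : ∀ i i', i ≠ i' → ¬ V i ≤ V i') (i : ι) :
    ∃ E : F, (V i).valuation (1 - E) < 1 ∧ ∀ i', i' ≠ i → (V i').valuation E < 1 := by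
  classical
  choose w hw1 hw2 using fun i => exists_sep_multi V hinc i
  set W := ∑ i, w i with hW
  have hWval : ∀ i₀, (V i₀).valuation W = 1 := by
    intro i₀
    have e : W = w i₀ + ∑ x ∈ Finset.univ.erase i₀, w x := by
      rw [hW, Finset.add_sum_erase _ _ (Finset.mem_univ i₀)]
    have hsmall : (V i₀).valuation (∑ x ∈ Finset.univ.erase i₀, w x) < 1 :=
      val_sum_lt_one _ _ _ fun x hx => hw2 x i₀ (Finset.ne_of_mem_erase hx).symm
    rw [e, Valuation.map_add_eq_of_lt_left _ (by rw [hw1]; exact hsmall), hw1]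
  have hW0 : W ≠ 0 := by
    intro h0
    have := hWval i
    rw [h0, map_zero] at this
    exact zero_ne_one this
  refine ⟨w i * W⁻¹, ?_, fun i' hi' => ?_⟩
  · have e : 1 - w i * W⁻¹ = (∑ x ∈ Finset.univ.erase i, w x) * W⁻¹ := by
      have : W = w i + ∑ x ∈ Finset.univ.erase i, w x := by
        rw [hW, Finset.add_sum_erase _ _ (Finset.mem_univ i)]
      field_simp
      rw [this]; ring
    rw [e, map_mul, map_inv₀, hWval i, inv_one, mul_one]
    exact val_sum_lt_one _ _ _ fun x hx => hw2 x i (Finset.ne_of_mem_erase hx).symm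
  · rw [map_mul, map_inv₀, hWval i', inv_one, mul_one]
    exact hw2 i i' hi'

/-- **Lifting residues to `⋂ V i'`.** -/
theorem exists_lift_multi (V : ι → ValuationSubring F)
    (hinc : ∀ i i', i ≠ i' → ¬ V i ≤ V i') (i : ι) {b : F} (hb : b ∈ V i) :
    ∃ g : F, (∀ i', g ∈ V i') ∧ (V i).valuation (g - b) < 1 := by
  classical
  obtain ⟨u, hu1, hu2, hu3⟩ := exists_multiplier V b
  obtain ⟨E, hE1, hE2⟩ := exists_idem_multi V hinc i
  have hEmem : ∀ i', E ∈ V i' := fun i' => by
    by_cases hi : i' = i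
    · subst hi
      have : E = 1 - (1 - E) := by ring
      rw [this]
      exact sub_mem (one_mem _) (((V i').valuation_le_one_iff _).1 hE1.le)
    · exact ((V i').valuation_le_one_iff _).1 (hE2 i' hi).le
  set c := E * u + (1 - E) with hc
  have hcval : ∀ i', (V i').valuation c = 1 := by
    intro i'
    by_cases hi : i' = i
    · subst hi
      have e : c = u + (1 - E) * (1 - u) := by rw [hc]; ring
      have hsm : (V i').valuation ((1 - E) * (1 - u)) < 1 :=
        val_mul_lt_one_left (V i') hE1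
          (((V i').valuation_le_one_iff _).2 (sub_mem (one_mem _) (hu1 i')))
      rw [e, Valuation.map_add_eq_of_lt_left _ (by rw [hu3 i' hb]; exact hsm),
        hu3 i' hb]
    · have e : c = 1 + E * (u - 1) := by rw [hc]; ring
      rw [e]
      refine Valuation.map_one_add_of_lt _ ?_
      exact val_mul_lt_one_left (V i') (hE2 i' hi)
        (((V i').valuation_le_one_iff _).2 (sub_mem (hu1 i') (one_mem _)))
  have hc0 : c ≠ 0 := by
    intro h0
    have := hcval i
    rw [h0, map_zero] at this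
    exact zero_ne_one this
  refine ⟨b * u * c⁻¹, fun i' => ?_, ?_⟩
  · rw [← (V i').valuation_le_one_iff, map_mul, map_inv₀, hcval i', inv_one, mul_one]
    exact ((V i').valuation_le_one_iff _).2 (hu2 i')
  · have e : b * u * c⁻¹ - b = b * ((E - 1) * (1 - u)) * c⁻¹ := by
      field_simp
      rw [hc]; ring
    rw [e, map_mul, map_inv₀, hcval i, inv_one, mul_one]
    refine val_mul_lt_one_right (V i) (((V i).valuation_le_one_iff _).2 hb) ?_
    refine val_mul_lt_one_left (V i) ?_
      (((V i).valuation_le_one_iff _).2 (sub_mem (one_mem _) (hu1 i)))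
    have : E - 1 = -(1 - E) := by ring
    rw [this, Valuation.map_neg]; exact hE1

end Multi

section Unif

variable {F : Type*} [Field F]

/-- **Simultaneous uniformisers.**  For pairwise incomparable valuation rings `V i` and a
generator `τ ≠ 0` of the maximal ideal of `V i` there is `T` with `v i (T) = v i (τ)` which is a
unit at every other `V i'`. -/
theorem exists_unif_multi {ι : Type*} [Fintype ι] (V : ι → ValuationSubring F)
    (hinc : ∀ i i', i ≠ i' → ¬ V i ≤ V i') (i : ι) {τ : F} (hτ0 : τ ≠ 0)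
    (hτ : (V i).valuation τ < 1)
    (hgen : ∀ z : F, (V i).valuation z < 1 → (V i).valuation z ≤ (V i).valuation τ) :
    ∃ T : F, (V i).valuation T = (V i).valuation τ ∧
      ∀ i', i' ≠ i → (V i').valuation T = 1 := by
  classical
  obtain ⟨u, hu1, hu2, hu3⟩ := exists_multiplier V τ
  obtain ⟨E, hE1, hE2⟩ := exists_idem_multi V hinc i
  have hτmem : τ ∈ V i := ((V i).valuation_le_one_iff _).1 hτ.le
  have hui : (V i).valuation u = 1 := hu3 i hτmem
  have hτpos : 0 < (V i).valuation τ := by rw [Valuation.pos_iff]; exact hτ0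
  have hEmem : ∀ i', E ∈ V i' := fun i' => by
    by_cases hi : i' = i
    · subst hi
      have : E = 1 - (1 - E) := by ring
      rw [this]
      exact sub_mem (one_mem _) (((V i').valuation_le_one_iff _).1 hE1.le)
    · exact ((V i').valuation_le_one_iff _).1 (hE2 i' hi).le
  set E' := 1 - (1 - E) ^ 2 with hE'
  have h1 : (V i).valuation (1 - E') < (V i).valuation τ := by
    have e1 : 1 - E' = (1 - E) ^ 2 := by rw [hE']; ring
    rw [e1, map_pow, pow_two]
    calc (V i).valuation (1 - E) * (V i).valuation (1 - E)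
        ≤ (V i).valuation τ * (V i).valuation (1 - E) := by
          gcongr; exact hgen _ hE1
      _ < (V i).valuation τ * 1 := by gcongr
      _ = (V i).valuation τ := mul_one _
  have hE'i : (V i).valuation E' = 1 := by
    have e1 : E' = 1 - (1 - E') := by ring
    rw [e1]
    exact Valuation.map_one_sub_of_lt _ (lt_trans h1 hτ)
  have hE'2 : ∀ i', i' ≠ i → (V i').valuation E' < 1 := by
    intro i' hi
    have e1 : E' = E * (1 + (1 - E)) := by rw [hE']; ring
    rw [e1]
    exact val_mul_lt_one_left (V i') (hE2 i' hi)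
      (((V i').valuation_le_one_iff _).2
        (add_mem (one_mem _) (sub_mem (one_mem _) (hEmem i'))))
  refine ⟨E' * (τ * u) + (1 - E'), ?_, ?_⟩
  · have hA : (V i).valuation (E' * (τ * u)) = (V i).valuation τ := by
      rw [map_mul, map_mul, hE'i, hui, one_mul, mul_one]
    rw [Valuation.map_add_eq_of_lt_left _ (by rw [hA]; exact h1), hA]
  · intro i' hi
    have hB : (V i').valuation (1 - E') = 1 := Valuation.map_one_sub_of_lt _ (hE'2 i' hi)
    have hA : (V i').valuation (E' * (τ * u)) < 1 :=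
      val_mul_lt_one_left (V i') (hE'2 i' hi) (((V i').valuation_le_one_iff _).2 (hu2 i'))
    rw [add_comm, Valuation.map_add_eq_of_lt_left _ (by rw [hB]; exact hA), hB]

/-- `∏ x ^ b i = x ^ ∑ b i` for integer exponents in a commutative group with zero. -/
theorem prod_zpow_eq_zpow_sum {G₀ : Type*} [CommGroupWithZero G₀] {x : G₀} (hx : x ≠ 0)
    {ι : Type*} (s : Finset ι) (b : ι → ℤ) : ∏ i ∈ s, x ^ b i = x ^ ∑ i ∈ s, b i := by
  classical
  induction s using Finset.induction_on with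
  | empty => simp
  | insert i s hi ih => rw [Finset.prod_insert hi, Finset.sum_insert hi, ih, zpow_add₀ hx]

end Unif

end Fermat.Agent.S36.H586.Ap

end
-- ===== PACK-END S36/H586/Approx586.lean

-- ===== PACK-BEGIN S36/H972/LocVal.lean
section



/-!
# S36 / MOD3 (helper972): a locally principal maximal ideal of a noetherian subring gives a
valuation subring

Mathlib-only (+ `H48.IsUnif`).  `L` a field, `S ⊆ L` a noetherian subring with `L = Frac S`,
`𝔪` a maximal ideal of `S`, `z ∈ 𝔪` with `𝔪 S_𝔪 = z S_𝔪` (elementwise: `LocGen`).  Then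

* `locVal S 𝔪 z h hfrac : ValuationSubring L` is the localisation `S_𝔪` inside `L`;
* `mem_locVal_iff` : `f ∈ S_𝔪 ↔ ∃ s t, t ∉ 𝔪 ∧ f * t = s`;
* `isUnif_locVal` : `z` is a uniformiser;
* `exists_sub_mem_locVal` : the residue field of `S_𝔪` is `S / 𝔪`;
* `eq_locVal_of_le` : a valuation subring `V' ⊇ S` with centre `𝔪` on `S` equals `S_𝔪`.
-/

set_option autoImplicit false
set_option linter.style.haveILetI false
set_option linter.unusedSectionVars false

namespace Fermat.Agent.S36.H972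

open Fermat.Agent.A2.H48 IsLocalRing

section LocVal

variable {L : Type*} [Field L] (S : Subring L) (𝔪 : Ideal S) (z : S)

/-- `z ∈ 𝔪`, `z ≠ 0` and `𝔪 S_𝔪 = z S_𝔪`, elementwise. -/
structure LocGen : Prop where
  mem : z ∈ 𝔪
  ne_zero : z ≠ 0
  gen : ∀ s ∈ 𝔪, ∃ t s' : S, t ∉ 𝔪 ∧ s * t = z * s'

/-- `L` is the fraction field of `S`, elementwise. -/
def IsFracOf : Prop := ∀ f : L, ∃ s t : S, t ≠ 0 ∧ f * (t : L) = (s : L)

variable {S 𝔪 z}

theorem isUnit_subtype_of_primeCompl [𝔪.IsMaximal] (t : 𝔪.primeCompl) :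
    IsUnit (S.subtype (t : S)) := by
  have ht : (t : S) ≠ 0 := by
    intro h
    exact t.2 (h ▸ 𝔪.zero_mem)
  exact IsUnit.mk0 _ (fun h => ht (Subtype.ext h))

variable (S 𝔪) in
/-- The canonical map `S_𝔪 → L`. -/
noncomputable def locMap [𝔪.IsMaximal] : Localization.AtPrime 𝔪 →+* L :=
  IsLocalization.lift (M := 𝔪.primeCompl) (g := S.subtype) isUnit_subtype_of_primeCompl

theorem locMap_algebraMap [𝔪.IsMaximal] (s : S) :
    locMap S 𝔪 (algebraMap S (Localization.AtPrime 𝔪) s) = (s : L) :=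
  IsLocalization.lift_eq _ s

theorem locMap_mk' [𝔪.IsMaximal] (s : S) (t : 𝔪.primeCompl) :
    locMap S 𝔪 (IsLocalization.mk' (Localization.AtPrime 𝔪) s t) * ((t : S) : L) = (s : L) := by
  have h := IsLocalization.mk'_spec (Localization.AtPrime 𝔪) s t
  have h2 := congrArg (locMap S 𝔪) h
  rw [map_mul, locMap_algebraMap, locMap_algebraMap] at h2
  exact h2

theorem locMap_injective [𝔪.IsMaximal] : Function.Injective (locMap S 𝔪) := by
  rw [injective_iff_map_eq_zero]
  intro a ha
  obtain ⟨s, t, rfl⟩ := IsLocalization.exists_mk'_eq 𝔪.primeCompl a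
  have h := locMap_mk' (S := S) (𝔪 := 𝔪) s t
  rw [ha, zero_mul] at h
  have hs : s = 0 := Subtype.ext h.symm
  rw [hs, IsLocalization.mk'_zero]

theorem mem_range_locMap_iff [𝔪.IsMaximal] {f : L} :
    f ∈ (locMap S 𝔪).range ↔ ∃ s t : S, t ∉ 𝔪 ∧ f * (t : L) = (s : L) := by
  constructor
  · rintro ⟨a, rfl⟩
    obtain ⟨s, t, rfl⟩ := IsLocalization.exists_mk'_eq 𝔪.primeCompl a
    exact ⟨s, t, t.2, locMap_mk' s t⟩
  · rintro ⟨s, t, ht, hft⟩
    have ht' : t ∈ 𝔪.primeCompl := ht
    refine ⟨IsLocalization.mk' (Localization.AtPrime 𝔪) s (⟨t, ht'⟩ : 𝔪.primeCompl), ?_⟩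
    have h := locMap_mk' (S := S) (𝔪 := 𝔪) s (⟨t, ht'⟩ : 𝔪.primeCompl)
    have ht0 : (t : L) ≠ 0 := by
      intro h0
      apply ht
      have : t = 0 := Subtype.ext h0
      rw [this]
      exact 𝔪.zero_mem
    exact mul_right_cancel₀ ht0 (h.trans hft.symm)

theorem maximalIdeal_eq_span [𝔪.IsMaximal] (h : LocGen S 𝔪 z) :
    maximalIdeal (Localization.AtPrime 𝔪) =
      Ideal.span {algebraMap S (Localization.AtPrime 𝔪) z} := by
  rw [← Localization.AtPrime.map_eq_maximalIdeal]
  apply le_antisymm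
  · rw [Ideal.map_le_iff_le_comap]
    intro s hs
    obtain ⟨t, s', ht, hst⟩ := h.gen s hs
    rw [Ideal.mem_comap, Ideal.mem_span_singleton]
    have ht' : t ∈ 𝔪.primeCompl := ht
    refine ⟨IsLocalization.mk' (Localization.AtPrime 𝔪) s' (⟨t, ht'⟩ : 𝔪.primeCompl), ?_⟩
    rw [IsLocalization.mul_mk'_eq_mk'_of_mul, IsLocalization.eq_mk'_iff_mul_eq, ← map_mul,
      ← hst]
  · rw [Ideal.span_singleton_le_iff_mem]
    exact Ideal.mem_map_of_mem _ h.mem

theorem valuationRing_localization [IsNoetherianRing S] [𝔪.IsMaximal] (h : LocGen S 𝔪 z) :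
    ValuationRing (Localization.AtPrime 𝔪) := by
  have hle : 𝔪.primeCompl ≤ nonZeroDivisors S := by
    intro t ht
    refine mem_nonZeroDivisors_of_ne_zero ?_
    rintro rfl
    exact ht 𝔪.zero_mem
  haveI : IsDomain (Localization.AtPrime 𝔪) :=
    IsLocalization.isDomain_localization hle
  haveI : IsNoetherianRing (Localization.AtPrime 𝔪) :=
    IsLocalization.isNoetherianRing 𝔪.primeCompl _ inferInstance
  refine ((tfae_of_isNoetherianRing_of_isLocalRing_of_isDomain
    (Localization.AtPrime 𝔪)).out 4 1).1 ?_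
  rw [maximalIdeal_eq_span h]
  exact ⟨⟨_, rfl⟩⟩

variable (S 𝔪 z) in
/-- The localisation `S_𝔪` as a valuation subring of `L`. -/
noncomputable def locVal [IsNoetherianRing S] [𝔪.IsMaximal] (h : LocGen S 𝔪 z)
    (hfrac : IsFracOf S) : ValuationSubring L :=
  { (locMap S 𝔪).range with
    mem_or_inv_mem' := by
      intro f
      haveI := valuationRing_localization h
      obtain ⟨s, t, ht, hft⟩ := hfrac f
      have ht0 : (t : L) ≠ 0 := fun h0 => ht (Subtype.ext h0)
      obtain ⟨c, hc | hc⟩ := ValuationRing.cond (algebraMap S (Localization.AtPrime 𝔪) s)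
        (algebraMap S (Localization.AtPrime 𝔪) t)
      · -- `s * c = t`, so `f⁻¹ = c` (or `f = 0`)
        right
        have h2 := congrArg (locMap S 𝔪) hc
        rw [map_mul, locMap_algebraMap, locMap_algebraMap] at h2
        refine ⟨c, ?_⟩
        by_cases hf : f = 0
        · subst hf
          rw [zero_mul] at hft
          rw [← hft, zero_mul] at h2
          exact absurd h2.symm ht0
        · rw [← hft] at h2
          have h3 : f * (locMap S 𝔪 c) = 1 := by
            have : f * (t : L) * locMap S 𝔪 c = (t : L) * 1 := by rw [h2, mul_one]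
            have h4 : (t : L) * (f * locMap S 𝔪 c) = (t : L) * 1 := by
              rw [← this]; ring
            exact mul_left_cancel₀ ht0 h4
          exact eq_inv_of_mul_eq_one_right h3
      · left
        have h2 := congrArg (locMap S 𝔪) hc
        rw [map_mul, locMap_algebraMap, locMap_algebraMap] at h2
        refine ⟨c, ?_⟩
        rw [← hft] at h2
        have h4 : (t : L) * locMap S 𝔪 c = (t : L) * f := by rw [h2]; ring
        exact mul_left_cancel₀ ht0 h4 }


section Props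

variable [IsNoetherianRing S] [h𝔪 : 𝔪.IsMaximal] (h : LocGen S 𝔪 z) (hfrac : IsFracOf S)

theorem mem_locVal_iff {f : L} :
    f ∈ locVal S 𝔪 z h hfrac ↔ ∃ s t : S, t ∉ 𝔪 ∧ f * (t : L) = (s : L) :=
  mem_range_locMap_iff

theorem coe_mem_locVal (s : S) : (s : L) ∈ locVal S 𝔪 z h hfrac :=
  (mem_locVal_iff h hfrac).2 ⟨s, 1, (Ideal.ne_top_iff_one 𝔪).1 h𝔪.ne_top, by simp⟩

theorem coe_ne_zero_of_notMem {t : S} (ht : t ∉ 𝔪) : (t : L) ≠ 0 := by
  intro h0
  apply ht
  have : t = 0 := Subtype.ext h0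
  rw [this]
  exact 𝔪.zero_mem

/-- Elements `s / t` with `s ∈ 𝔪`, `t ∉ 𝔪` are divisible by `z` in `S_𝔪`. -/
theorem mul_inv_mem_locVal {f : L} {s t : S} (hs : s ∈ 𝔪) (ht : t ∉ 𝔪)
    (hft : f * (t : L) = (s : L)) : f * (z : L)⁻¹ ∈ locVal S 𝔪 z h hfrac := by
  obtain ⟨t', s', ht', hst⟩ := h.gen s hs
  have hz0 : (z : L) ≠ 0 := fun h0 => h.ne_zero (Subtype.ext h0)
  refine (mem_locVal_iff h hfrac).2 ⟨s', t * t', ?_, ?_⟩
  · intro hmem
    rcases h𝔪.isPrime.mem_or_mem hmem with h1 | h1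
    · exact ht h1
    · exact ht' h1
  · have hst' : (s : L) * (t' : L) = (z : L) * (s' : L) := by
      have := congrArg (fun x : S => (x : L)) hst
      simpa using this
    push_cast
    have : f * (z : L)⁻¹ * ((t : L) * (t' : L)) = (f * (t : L)) * (t' : L) * (z : L)⁻¹ := by ring
    rw [this, hft, hst']
    field_simp

theorem isUnif_locVal : IsUnif (locVal S 𝔪 z h hfrac) (z : L) where
  mem := coe_mem_locVal h hfrac z
  inv_not_mem := by
    intro hmem
    obtain ⟨s, t, ht, hst⟩ := (mem_locVal_iff h hfrac).1 hmem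
    have hz0 : (z : L) ≠ 0 := fun h0 => h.ne_zero (Subtype.ext h0)
    apply ht
    have h1 : t = z * s := by
      apply Subtype.ext
      push_cast
      rw [← hst]
      field_simp
    rw [h1]
    exact 𝔪.mul_mem_right _ h.mem
  gen := by
    intro f hf hfinv
    obtain ⟨s, t, ht, hst⟩ := (mem_locVal_iff h hfrac).1 hf
    have hs : s ∈ 𝔪 := by
      by_contra hs
      apply hfinv
      by_cases hf0 : f = 0
      · rw [hf0, inv_zero]
        exact zero_mem _
      · refine (mem_locVal_iff h hfrac).2 ⟨t, s, hs, ?_⟩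
        rw [← hst]
        field_simp
    exact mul_inv_mem_locVal h hfrac hs ht hst

/-- The residue field of `S_𝔪` is `S / 𝔪`. -/
theorem exists_sub_mem_locVal {f : L} (hf : f ∈ locVal S 𝔪 z h hfrac) :
    ∃ g : S, (f - (g : L)) * (z : L)⁻¹ ∈ locVal S 𝔪 z h hfrac := by
  obtain ⟨s, t, ht, hst⟩ := (mem_locVal_iff h hfrac).1 hf
  obtain ⟨t', i, hi, hti⟩ := h𝔪.exists_inv ht
  refine ⟨s * t', ?_⟩
  have ht0 : (t : L) ≠ 0 := coe_ne_zero_of_notMem ht
  have hti' : (t' : L) * (t : L) + (i : L) = 1 := by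
    have := congrArg (fun x : S => (x : L)) hti
    simpa using this
  refine mul_inv_mem_locVal h hfrac (s := s * i) (t := t) (𝔪.mul_mem_left _ hi) ht ?_
  push_cast
  have hi' : (i : L) = 1 - (t' : L) * (t : L) := by rw [← hti']; ring
  rw [hi', ← hst]
  ring

/-- A valuation subring containing `S` with centre `𝔪` is `S_𝔪`. -/
theorem eq_locVal_of_le (V' : ValuationSubring L) (hS : ∀ s : S, (s : L) ∈ V')
    (hc : ∀ s : S, s ∈ 𝔪 → s ≠ 0 → (s : L)⁻¹ ∉ V') : V' = locVal S 𝔪 z h hfrac := by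
  have hz0 : (z : L) ≠ 0 := fun h0 => h.ne_zero (Subtype.ext h0)
  have hunit : ∀ t : S, t ∉ 𝔪 → (t : L)⁻¹ ∈ V' := by
    intro t ht
    obtain ⟨t', i, hi, hti⟩ := h𝔪.exists_inv ht
    have hti' : (t' : L) * (t : L) + (i : L) = 1 := by
      have := congrArg (fun x : S => (x : L)) hti
      simpa using this
    have ht0 : (t : L) ≠ 0 := coe_ne_zero_of_notMem ht
    have hiv : V'.valuation (i : L) < 1 := by
      by_cases hi0 : i = 0
      · rw [hi0]; simp
      · have h1 : V'.valuation (i : L) ≤ 1 := (V'.valuation_le_one_iff _).2 (hS i)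
        rcases lt_or_eq_of_le h1 with h2 | h2
        · exact h2
        · exfalso
          apply hc i hi hi0
          rw [← V'.valuation_le_one_iff, map_inv₀, h2, inv_one]
    have h1 : V'.valuation (1 - (i : L)) = 1 := Valuation.map_one_sub_of_lt _ hiv
    have h2 : (1 - (i : L))⁻¹ ∈ V' := by
      rw [← V'.valuation_le_one_iff, map_inv₀, h1, inv_one]
    have h3 : (t : L)⁻¹ = (t' : L) * (1 - (i : L))⁻¹ := by
      have h4 : (1 - (i : L)) = (t' : L) * (t : L) := by rw [← hti']; ring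
      have h5 : (1 - (i : L)) ≠ 0 := by
        intro h0
        rw [h0] at h1
        simp at h1
      rw [h4] at h5 ⊢
      have ht'0 : (t' : L) ≠ 0 := left_ne_zero_of_mul h5
      field_simp
    rw [h3]
    exact mul_mem (hS t') h2
  apply le_antisymm
  · intro f hf
    by_contra hfV
    have hfinv : f⁻¹ ∈ locVal S 𝔪 z h hfrac :=
      ((locVal S 𝔪 z h hfrac).mem_or_inv_mem f).resolve_left hfV
    have h2 : f⁻¹ * (z : L)⁻¹ ∈ locVal S 𝔪 z h hfrac :=
      (isUnif_locVal h hfrac).gen _ hfinv (by rwa [inv_inv])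
    obtain ⟨s, t, ht, hst⟩ := (mem_locVal_iff h hfrac).1 h2
    have hf0 : f ≠ 0 := by
      rintro rfl
      exact hfV (zero_mem _)
    apply hc z h.mem h.ne_zero
    have h3 : (z : L)⁻¹ = f * ((s : L) * (t : L)⁻¹) := by
      have ht0 : (t : L) ≠ 0 := coe_ne_zero_of_notMem ht
      rw [← hst]
      field_simp
    rw [h3]
    exact mul_mem hf (mul_mem (hS s) (hunit t ht))
  · intro f hf
    obtain ⟨s, t, ht, hst⟩ := (mem_locVal_iff h hfrac).1 hf
    have ht0 : (t : L) ≠ 0 := coe_ne_zero_of_notMem ht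
    have h3 : f = (s : L) * (t : L)⁻¹ := by
      rw [← hst]
      field_simp
    rw [h3]
    exact mul_mem (hS s) (hunit t ht)

theorem inv_mem_locVal_of_notMem {t : S} (ht : t ∉ 𝔪) : (t : L)⁻¹ ∈ locVal S 𝔪 z h hfrac :=
  (mem_locVal_iff h hfrac).2 ⟨1, t, ht, by
    rw [inv_mul_cancel₀ (coe_ne_zero_of_notMem ht)]; simp⟩

theorem mul_inv_mem_locVal_of_mem {s : S} (hs : s ∈ 𝔪) :
    (s : L) * (z : L)⁻¹ ∈ locVal S 𝔪 z h hfrac :=
  mul_inv_mem_locVal h hfrac (s := s) (t := 1) hs ((Ideal.ne_top_iff_one 𝔪).1 h𝔪.ne_top)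
    (by simp)

theorem inv_notMem_locVal_of_mem {s : S} (hs : s ∈ 𝔪) (hs0 : s ≠ 0) :
    (s : L)⁻¹ ∉ locVal S 𝔪 z h hfrac := by
  intro hmem
  have h1 := mul_inv_mem_locVal_of_mem h hfrac hs
  apply (isUnif_locVal h hfrac).inv_not_mem
  have hs0' : (s : L) ≠ 0 := fun h0 => hs0 (Subtype.ext h0)
  have : (z : L)⁻¹ = ((s : L) * (z : L)⁻¹) * (s : L)⁻¹ := by field_simp
  rw [this]
  exact mul_mem h1 hmem

end Props

end LocVal

end Fermat.Agent.S36.H972

end
-- ===== PACK-END S36/H972/LocVal.lean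

-- ===== PACK-BEGIN S36/Mod3/H189/Chart3Abs.lean
section



/-!
# S36 / MOD3, cell CHART3 (helper189) — abstract part (Mathlib only)

The chart fields `chart_α`, `chart_β`, `int_α`, `int_β` of `S36.Eng.TripleCtx` and the membership
of the generators in the charts, in abstract form.

* `isIntegral_of_monic_eval₂` : `Φ(a; b) = 0`, `Φ ∈ ℤ[Y][X]` monic in `X`, `b ∈ A` ⟹ `a` integral
  over `A`;
* `mem_triple`, `inv_mem_triple` : valuative criterion for `x = a b c` when `a ~ b ~ c` are
  pairwise integral over each other along the chain `a — b — c`;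
* `mem_chart_of_forall_valuationSubring` : the valuative criterion for the chart `chart R {x}`;
* `chart_map` : `α x' ∈ chart R {x}` ⟹ `α (chart R {x'}) ⊆ chart R {x}`          (`chart_α`, `chart_β`);
* `int_map` : `x` integral over `α (chart R {x'})` ⟹ `chart R {x}` is integral over
  `α (chart R {x'})`, in the polynomial form of `TripleCtx`                  (`int_α`, `int_β`).
-/

set_option autoImplicit false

noncomputable section

namespace Fermat.Agent.S36.Mod3.H189

open Polynomial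
open Fermat.Agent.S18.H138 (chart mem_chart)

section Valuative

variable {K : Type*} [Field K]

/-- `Φ(X = a; Y = b) = 0` with `Φ` monic in `X` and `b` in a valuation subring `V` gives
`a ∈ V`. -/
theorem mem_valuationSubring_of_monic {a b : K} (Φ : Polynomial (Polynomial ℤ))
    (hΦ : Φ.Monic) (h : Φ.eval₂ (Polynomial.aeval (R := ℤ) b).toRingHom a = 0)
    (V : ValuationSubring K) (hb : b ∈ V) : a ∈ V := by
  have hint : IsIntegral V a := by
    refine ⟨Φ.map (Polynomial.aeval (R := ℤ) (⟨b, hb⟩ : V)).toRingHom, hΦ.map _, ?_⟩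
    rw [Polynomial.eval₂_map]
    rw [← h]
    congr 1
    apply Polynomial.ringHom_ext
    · intro n
      simp
    · simp
  obtain ⟨y, hy⟩ := IsIntegrallyClosed.isIntegral_iff (R := V) (K := K) |>.mp hint
  rw [← hy]
  exact y.2

/-- Valuative criterion for a product of three elements along a chain `a — b — c` of mutually
integral elements: a valuation subring containing `a b c` contains `a`, `b`, `c`. -/
theorem mem_triple {a b c : K} (V : ValuationSubring K)
    (hab : a ∈ V → b ∈ V) (hba : b ∈ V → a ∈ V) (hbc : b ∈ V → c ∈ V) (hcb : c ∈ V → b ∈ V)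
    (hx : a * b * c ∈ V) : a ∈ V ∧ b ∈ V ∧ c ∈ V := by
  by_cases ha : a ∈ V
  · exact ⟨ha, hab ha, hbc (hab ha)⟩
  · exfalso
    have hb : b ∉ V := fun h => ha (hba h)
    have hc : c ∉ V := fun h => hb (hcb h)
    have hb0 : b ≠ 0 := fun h => hb (h ▸ V.zero_mem)
    have hc0 : c ≠ 0 := fun h => hc (h ▸ V.zero_mem)
    have hbi : b⁻¹ ∈ V := (V.mem_or_inv_mem b).resolve_left hb
    have hci : c⁻¹ ∈ V := (V.mem_or_inv_mem c).resolve_left hc
    have e : a = a * b * c * b⁻¹ * c⁻¹ := by field_simp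
    exact ha (e ▸ V.mul_mem _ _ (V.mul_mem _ _ hx hbi) hci)

/-- The same at infinity: a valuation subring containing `(a b c)⁻¹` contains `a⁻¹`, `b⁻¹`,
`c⁻¹`. -/
theorem inv_mem_triple {a b c : K} (ha0 : a ≠ 0) (hb0 : b ≠ 0) (hc0 : c ≠ 0)
    (V : ValuationSubring K)
    (hab : a ∈ V → b ∈ V) (hba : b ∈ V → a ∈ V) (hbc : b ∈ V → c ∈ V) (hcb : c ∈ V → b ∈ V)
    (hx : (a * b * c)⁻¹ ∈ V) : a⁻¹ ∈ V ∧ b⁻¹ ∈ V ∧ c⁻¹ ∈ V := by
  have key : ∀ y : K, y ∈ V ∨ y⁻¹ ∈ V := V.mem_or_inv_mem
  refine ⟨?_, ?_, ?_⟩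
  · by_contra h
    have ha : a ∈ V := (key a).resolve_right h
    have hb : b ∈ V := hab ha
    have hc : c ∈ V := hbc hb
    have e : a⁻¹ = b * c * (a * b * c)⁻¹ := by field_simp
    exact h (e ▸ V.mul_mem _ _ (V.mul_mem _ _ hb hc) hx)
  · by_contra h
    have hb : b ∈ V := (key b).resolve_right h
    have ha : a ∈ V := hba hb
    have hc : c ∈ V := hbc hb
    have e : b⁻¹ = a * c * (a * b * c)⁻¹ := by field_simp
    exact h (e ▸ V.mul_mem _ _ (V.mul_mem _ _ ha hc) hx)
  · by_contra h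
    have hc : c ∈ V := (key c).resolve_right h
    have hb : b ∈ V := hcb hc
    have ha : a ∈ V := hba hb
    have e : c⁻¹ = a * b * (a * b * c)⁻¹ := by field_simp
    exact h (e ▸ V.mul_mem _ _ (V.mul_mem _ _ ha hb) hx)

/-- valuative criterion, one element: `a` lies in every valuation subring containing `x`
implies `a` is integral over `ℤ[x]`. -/
theorem isIntegral_closure_of_forall {x a : K}
    (h : ∀ V : ValuationSubring K, x ∈ V → a ∈ V) :
    IsIntegral (Subring.closure ({x} : Set K)) a := by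
  have key := iInf_valuationSubring_superset (K := K) (s := ({x} : Set K))
  have hmem : a ∈ (integralClosure (Subring.closure ({x} : Set K)) K).toSubring := by
    rw [← key]
    rw [Subring.mem_iInf]
    rintro ⟨V, hV⟩
    exact h V (hV (Set.mem_singleton x))
  exact hmem

end Valuative

section Chart

variable {R : Type*} [CommRing R] {K : Type*} [Field K] [Algebra R K]

/-- Integrality over `ℤ[x]` gives membership in the chart `chart R {x}`. -/
theorem mem_chart_of_isIntegral_closure {x a : K}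
    (h : IsIntegral (Subring.closure ({x} : Set K)) a) : a ∈ chart R ({x} : Set K) := by
  rw [mem_chart]
  have hle : Subring.closure ({x} : Set K) ≤ (Algebra.adjoin R ({x} : Set K)).toSubring :=
    Subring.closure_le.mpr (Set.singleton_subset_iff.mpr (Algebra.subset_adjoin rfl))
  have := IsIntegral.map_of_comp_eq (R := Subring.closure ({x} : Set K)) (S := K)
    (T := Algebra.adjoin R ({x} : Set K)) (U := K) (Subring.inclusion hle) (RingHom.id K)
    (by ext; rfl) h
  simpa using this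

/-- The valuative criterion for the chart. -/
theorem mem_chart_of_forall_valuationSubring {x a : K}
    (h : ∀ V : ValuationSubring K, x ∈ V → a ∈ V) : a ∈ chart R ({x} : Set K) :=
  mem_chart_of_isIntegral_closure (isIntegral_closure_of_forall h)

/-- `Φ(X = a; Y = b) = 0` with `Φ` monic in `X` and `b` in a subalgebra `A` gives: `a` is
integral over `A`. -/
theorem isIntegral_of_monic_eval₂ {A : Subalgebra R K} {a b : K}
    (Φ : Polynomial (Polynomial ℤ)) (hΦ : Φ.Monic)
    (h : Φ.eval₂ (Polynomial.aeval (R := ℤ) b).toRingHom a = 0) (hb : b ∈ A) :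
    IsIntegral A a := by
  refine ⟨Φ.map (Polynomial.aeval (R := ℤ) (⟨b, hb⟩ : A)).toRingHom, hΦ.map _, ?_⟩
  rw [Polynomial.eval₂_map]
  rw [← h]
  congr 1
  apply Polynomial.ringHom_ext
  · intro n
    simp
  · simp

end Chart

section Maps

variable {R E F F' : Type*} [CommRing R] [Field E] [Algebra R E]
  [Field F] [Algebra E F] [Algebra R F] [IsScalarTower R E F]
  [Field F'] [Algebra E F'] [Algebra R F'] [IsScalarTower R E F']

/-- The image under `α` of the chart `chart R {x'}`, as a subalgebra of `F`. -/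
def imgChart (α : F' →ₐ[E] F) (x' : F') : Subalgebra R F :=
  (chart R ({x'} : Set F')).map (α.restrictScalars R)

theorem mem_imgChart {α : F' →ₐ[E] F} {x' : F'} {y : F} :
    y ∈ imgChart (R := R) α x' ↔ ∃ b ∈ chart R ({x'} : Set F'), α b = y := by
  unfold imgChart
  rw [Subalgebra.mem_map]
  rfl

/-- **`chart_α` / `chart_β`, abstract form.**  If `α x'` lies in the chart of `x`, then `α` maps
the chart of `x'` into the chart of `x`. -/
theorem chart_map {α : F' →ₐ[E] F} {x : F} {x' : F'}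
    (h : α x' ∈ chart R ({x} : Set F)) :
    ∀ b ∈ chart R ({x'} : Set F'), α b ∈ chart R ({x} : Set F) := by
  intro b hb
  rw [mem_chart] at hb ⊢
  -- `α b` is integral over the image of `R[x']`
  set A : Subalgebra R F := (Algebra.adjoin R ({x'} : Set F')).map (α.restrictScalars R) with hA
  let φ : Algebra.adjoin R ({x'} : Set F') →+* A :=
    { toFun := fun a => ⟨α (a : F'), by
        rw [hA, Subalgebra.mem_map]
        exact ⟨(a : F'), a.2, rfl⟩⟩
      map_one' := Subtype.ext (map_one α)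
      map_mul' := fun a b => Subtype.ext (map_mul α (a : F') (b : F'))
      map_zero' := Subtype.ext (map_zero α)
      map_add' := fun a b => Subtype.ext (map_add α (a : F') (b : F')) }
  have h1 : IsIntegral A (α b) := by
    have := IsIntegral.map_of_comp_eq (R := Algebra.adjoin R ({x'} : Set F')) (S := F')
      (T := A) (U := F) φ (α : F' →+* F) (by ext a; rfl) hb
    simpa using this
  -- the image of `R[x']` is integral over `R[x]`
  refine Fermat.Agent.A2.Mod.H189.isIntegral_of_forall_isIntegral ?_ h1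
  intro a ha
  rw [hA, Subalgebra.mem_map] at ha
  obtain ⟨a₀, ha₀, rfl⟩ := ha
  induction ha₀ using Algebra.adjoin_induction with
  | mem y hy =>
    rw [Set.mem_singleton_iff] at hy
    subst hy
    exact h
  | algebraMap r =>
    have : (α.restrictScalars R) (algebraMap R F' r) = algebraMap R F r :=
      (α.restrictScalars R).commutes r
    rw [this]
    exact isIntegral_algebraMap (R := Algebra.adjoin R ({x} : Set F))
      (x := ⟨algebraMap R F r, Subalgebra.algebraMap_mem _ r⟩)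
  | add y z _ _ hy hz =>
    rw [map_add]
    exact hy.add hz
  | mul y z _ _ hy hz =>
    rw [map_mul]
    exact hy.mul hz

/-- Integrality over the image of a chart, in the polynomial form of `TripleCtx`. -/
theorem exists_poly_of_isIntegral_imgChart {α : F' →ₐ[E] F} {x' : F'} {b : F}
    (h : IsIntegral (imgChart (R := R) α x') b) :
    ∃ p : Polynomial F', p.Monic ∧ (∀ i, p.coeff i ∈ chart R ({x'} : Set F')) ∧
      (p.map (α : F' →+* F)).eval b = 0 := by
  obtain ⟨q, hq, hqb⟩ := h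
  let ψ : chart R ({x'} : Set F') →+* imgChart (R := R) α x' :=
    { toFun := fun a => ⟨α (a : F'), mem_imgChart.mpr ⟨(a : F'), a.2, rfl⟩⟩
      map_one' := Subtype.ext (map_one α)
      map_mul' := fun a b => Subtype.ext (map_mul α (a : F') (b : F'))
      map_zero' := Subtype.ext (map_zero α)
      map_add' := fun a b => Subtype.ext (map_add α (a : F') (b : F')) }
  have hψ : Function.Surjective ψ := by
    rintro ⟨y, hy⟩
    obtain ⟨a, ha, rfl⟩ := mem_imgChart.mp hy
    exact ⟨⟨a, ha⟩, rfl⟩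
  have hl : q ∈ lifts ψ := by
    rw [lifts_iff_coeff_lifts]
    intro n
    exact hψ _
  obtain ⟨p, hpq, -, hp⟩ := lifts_and_degree_eq_and_monic hl hq
  refine ⟨p.map (chart R ({x'} : Set F')).val.toRingHom, hp.map _, fun i => ?_, ?_⟩
  · rw [coeff_map]
    exact (p.coeff i).2
  · rw [Polynomial.map_map, ← hqb, ← hpq, eval₂_map, eval_map]
    rfl

/-- The polynomial form of `TripleCtx` gives integrality over the image of the chart. -/
theorem isIntegral_imgChart_of_poly {α : F' →ₐ[E] F} {x' : F'} {b : F}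
    (h : ∃ p : Polynomial F', p.Monic ∧ (∀ i, p.coeff i ∈ chart R ({x'} : Set F')) ∧
      (p.map (α : F' →+* F)).eval b = 0) : IsIntegral (imgChart (R := R) α x') b := by
  obtain ⟨p, hp, hc, hpb⟩ := h
  have hcoef : ∀ i, (p.map (α : F' →+* F)).coeff i ∈ (imgChart (R := R) α x').toSubring := by
    intro i
    rw [coeff_map]
    exact mem_imgChart.mpr ⟨p.coeff i, hc i, rfl⟩
  have hsub : ((p.map (α : F' →+* F)).coeffs : Set F) ⊆ (imgChart (R := R) α x').toSubring := by
    intro y hy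
    obtain ⟨i, -, rfl⟩ := Polynomial.mem_coeffs_iff.mp (Finset.mem_coe.mp hy)
    exact hcoef i
  refine ⟨(p.map (α : F' →+* F)).toSubring (imgChart (R := R) α x').toSubring hsub, ?_, ?_⟩
  · exact (Polynomial.monic_toSubring _ _ hsub).mpr (hp.map _)
  · have h1 := Polynomial.map_toSubring (p.map (α : F' →+* F))
      (imgChart (R := R) α x').toSubring hsub
    have h2 : eval₂ (algebraMap (imgChart (R := R) α x') F) b
        ((p.map (α : F' →+* F)).toSubring (imgChart (R := R) α x').toSubring hsub) =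
        (((p.map (α : F' →+* F)).toSubring (imgChart (R := R) α x').toSubring hsub).map
          (imgChart (R := R) α x').toSubring.subtype).eval b := by
      rw [eval_map]
      rfl
    rw [h2, h1]
    exact hpb

/-- **`int_α` / `int_β`, abstract form.**  If `x` is integral over the image of the chart of
`x'`, then the chart of `x` is integral over the image of the chart of `x'`. -/
theorem int_map {α : F' →ₐ[E] F} {x : F} {x' : F'}
    (hx : IsIntegral (imgChart (R := R) α x') x) :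
    ∀ b ∈ chart R ({x} : Set F), ∃ p : Polynomial F', p.Monic ∧
      (∀ i, p.coeff i ∈ chart R ({x'} : Set F')) ∧ (p.map (α : F' →+* F)).eval b = 0 := by
  intro b hb
  rw [mem_chart] at hb
  apply exists_poly_of_isIntegral_imgChart
  refine Fermat.Agent.A2.Mod.H189.isIntegral_of_forall_isIntegral ?_ hb
  intro a ha
  induction ha using Algebra.adjoin_induction with
  | mem y hy =>
    rw [Set.mem_singleton_iff] at hy
    subst hy
    exact hx
  | algebraMap r =>
    exact isIntegral_algebraMap (R := imgChart (R := R) α x')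
      (x := ⟨algebraMap R F r, Subalgebra.algebraMap_mem _ r⟩)
  | add y z _ _ hy hz => exact hy.add hz
  | mul y z _ _ hy hz => exact hy.mul hz

end Maps

end Fermat.Agent.S36.Mod3.H189

end

end
-- ===== PACK-END S36/Mod3/H189/Chart3Abs.lean

-- ===== PACK-BEGIN S36/H994/Chart4.lean
section


/-!
# The level-`4` Hauptmodul in a chart (helper994, S36 cell REG, `q` odd)

Mirror of helper890's `Chart9.lean` (level `9`, `q = 2`) for the Hauptmodul `t₄` of `Γ₀(4)`
(helper878 `Haupt4.lean`).  Mathlib + `S18.H138.chart` only.  `F` a field, `R → F`,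
`B = chart R S`, `j, t ∈ F` with the relation of `H878.jq_mul_t4`:

  `j · (t⁴ (t + 16)) = (t² + 256 t + 4096)³`.

* `mem_chart_of_rel4`   : `j ∈ B ⟹ t ∈ B`  (`t` is integral over `ℤ[j]`, degree `6`);
* `inv_mem_of_rel4`     : `j, t, 2⁻¹ ∈ A ⟹ t⁻¹ ∈ A`         (`t ∣ 2³⁶` in `ℤ[j, t]`);
* `add_inv_mem_of_rel4` : `j, t, 2⁻¹ ∈ A ⟹ (t + 16)⁻¹ ∈ A`  (`t + 16 ∣ 2²⁴` in `ℤ[j, t]`);
* `g4_mem_of_rel4`, `g4_inv_mem_of_rel4`, `g4_pow_*` : `g₄ = t² (t + 16)⁵` (`= (θ t₄)⁶ / Δ`,
  helper878 `Theta4.theta_t4`) and its inverse lie in `A`: `g₄` is a unit of every chart on which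
  `2` is invertible, in particular in every odd residue characteristic.
-/

set_option autoImplicit false
set_option linter.unusedSectionVars false

noncomputable section

namespace Fermat.Agent.S36.H994

open Polynomial Fermat.Agent.S18.H138

section Chart

variable {R F : Type*} [CommRing R] [Field F] [Algebra R F]

/-- The chart is integrally closed in `F`. -/
theorem h4_mem_chart_of_isIntegral (S : Set F) {y : F}
    (h : IsIntegral (integralClosure (Algebra.adjoin R S) F) y) : y ∈ chart R S := by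
  rw [mem_chart]
  exact isIntegral_trans y h

/-- The monic polynomial `(T² + 256 T + 4096)³ - c T⁴ (T + 16)` of degree `6`. -/
def poly4 {A : Type*} [CommRing A] (c : A) : Polynomial A :=
  (X ^ 2 + C 256 * X + C 4096) ^ 3 - C c * (X ^ 4 * (X + C 16))

theorem poly4_monic {A : Type*} [CommRing A] [Nontrivial A] (c : A) : (poly4 c).Monic := by
  rw [poly4]
  monicity!

theorem eval₂_poly4 {A B : Type*} [CommRing A] [CommRing B] (f : A →+* B) (c : A) (t : B) :
    (poly4 c).eval₂ f t = (t ^ 2 + 256 * t + 4096) ^ 3 - f c * (t ^ 4 * (t + 16)) := by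
  simp only [poly4, eval₂_sub, eval₂_mul, eval₂_pow, eval₂_add, eval₂_X, eval₂_C]
  simp only [map_ofNat]

/-- `t` is integral over `ℤ[j]`: `j ∈ B ⟹ t ∈ B`. -/
theorem mem_chart_of_rel4 (S : Set F) {j t : F} (hj : j ∈ chart R S)
    (hrel : j * (t ^ 4 * (t + 16)) = (t ^ 2 + 256 * t + 4096) ^ 3) : t ∈ chart R S := by
  apply h4_mem_chart_of_isIntegral
  refine ⟨poly4 (⟨j, hj⟩ : integralClosure (Algebra.adjoin R S) F), poly4_monic _, ?_⟩
  rw [eval₂_poly4]
  show (t ^ 2 + 256 * t + 4096) ^ 3 - j * (t ^ 4 * (t + 16)) = 0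
  rw [hrel, sub_self]

end Chart

/-! ## Units: generic subring form -/

section Units

variable {F : Type*} [Field F]

/-- `t ∣ 2³⁶` in `ℤ[j, t]`. -/
theorem mul_cofactor_of_rel4 {j t : F}
    (hrel : j * (t ^ 4 * (t + 16)) = (t ^ 2 + 256 * t + 4096) ^ 3) :
    t * (j * (t ^ 3 * (t + 16))
      - (t ^ 5 + 768 * t ^ 4 + 208896 * t ^ 3 + 23068672 * t ^ 2
        + 855638016 * t + 12884901888)) = 2 ^ 36 := by
  linear_combination hrel

/-- `t + 16 ∣ 2²⁴` in `ℤ[j, t]`. -/
theorem add_mul_cofactor_of_rel4 {j t : F}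
    (hrel : j * (t ^ 4 * (t + 16)) = (t ^ 2 + 256 * t + 4096) ^ 3) :
    (t + 16) * (j * t ^ 4
      - ((t + 16) ^ 5 + 672 * (t + 16) ^ 4 + 151296 * (t + 16) ^ 3
        + 11583488 * (t + 16) ^ 2 + 38731776 * (t + 16) + 44040192)) = 2 ^ 24 := by
  linear_combination hrel

variable [CharZero F]

theorem h4_two_pow_ne_zero (n : ℕ) : (2 : F) ^ n ≠ 0 := pow_ne_zero n (by norm_num)

/-- `t ≠ 0`. -/
theorem ne_zero_of_rel4 {j t : F}
    (hrel : j * (t ^ 4 * (t + 16)) = (t ^ 2 + 256 * t + 4096) ^ 3) : t ≠ 0 := by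
  have hc := mul_cofactor_of_rel4 hrel
  rintro rfl
  rw [zero_mul] at hc
  exact h4_two_pow_ne_zero (F := F) 36 hc.symm

/-- `t + 16 ≠ 0`. -/
theorem add_ne_zero_of_rel4 {j t : F}
    (hrel : j * (t ^ 4 * (t + 16)) = (t ^ 2 + 256 * t + 4096) ^ 3) : t + 16 ≠ 0 := by
  have hc := add_mul_cofactor_of_rel4 hrel
  intro h
  rw [h, zero_mul] at hc
  exact h4_two_pow_ne_zero (F := F) 24 hc.symm

/-- `t⁻¹ ∈ A` for every subring `A ∋ j, t, 2⁻¹`. -/
theorem inv_mem_of_rel4 {A : Type*} [SetLike A F] [SubringClass A F] (B : A) {j t : F}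
    (hj : j ∈ B) (ht : t ∈ B) (h2 : (2 : F)⁻¹ ∈ B)
    (hrel : j * (t ^ 4 * (t + 16)) = (t ^ 2 + 256 * t + 4096) ^ 3) : t⁻¹ ∈ B := by
  have hc := mul_cofactor_of_rel4 hrel
  have h36 : (2 : F) ^ 36 ≠ 0 := h4_two_pow_ne_zero 36
  have ht0 : t ≠ 0 := ne_zero_of_rel4 hrel
  have e : t⁻¹ = (j * (t ^ 3 * (t + 16))
      - (t ^ 5 + 768 * t ^ 4 + 208896 * t ^ 3 + 23068672 * t ^ 2
        + 855638016 * t + 12884901888)) * (2 : F)⁻¹ ^ 36 := by
    rw [inv_pow, eq_mul_inv_iff_mul_eq₀ h36, ← hc, ← mul_assoc, inv_mul_cancel₀ ht0, one_mul]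
  rw [e]
  have hn : ∀ n : ℕ, (n : F) ∈ B := fun n => natCast_mem B n
  have h16 : t + 16 ∈ B := add_mem ht (by exact_mod_cast hn 16)
  refine mul_mem (sub_mem (mul_mem hj (mul_mem (pow_mem ht 3) h16)) ?_) (pow_mem h2 36)
  refine add_mem (add_mem (add_mem (add_mem (add_mem (pow_mem ht 5) ?_) ?_) ?_) ?_) ?_
  · exact mul_mem (by exact_mod_cast hn 768) (pow_mem ht 4)
  · exact mul_mem (by exact_mod_cast hn 208896) (pow_mem ht 3)
  · exact mul_mem (by exact_mod_cast hn 23068672) (pow_mem ht 2)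
  · exact mul_mem (by exact_mod_cast hn 855638016) ht
  · exact_mod_cast hn 12884901888

/-- `(t + 16)⁻¹ ∈ A` for every subring `A ∋ j, t, 2⁻¹`. -/
theorem add_inv_mem_of_rel4 {A : Type*} [SetLike A F] [SubringClass A F] (B : A) {j t : F}
    (hj : j ∈ B) (ht : t ∈ B) (h2 : (2 : F)⁻¹ ∈ B)
    (hrel : j * (t ^ 4 * (t + 16)) = (t ^ 2 + 256 * t + 4096) ^ 3) : (t + 16)⁻¹ ∈ B := by
  have hc := add_mul_cofactor_of_rel4 hrel
  have h24 : (2 : F) ^ 24 ≠ 0 := h4_two_pow_ne_zero 24
  have hs0 : t + 16 ≠ 0 := add_ne_zero_of_rel4 hrel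
  have e : (t + 16)⁻¹ = (j * t ^ 4
      - ((t + 16) ^ 5 + 672 * (t + 16) ^ 4 + 151296 * (t + 16) ^ 3
        + 11583488 * (t + 16) ^ 2 + 38731776 * (t + 16) + 44040192)) * (2 : F)⁻¹ ^ 24 := by
    rw [inv_pow, eq_mul_inv_iff_mul_eq₀ h24, ← hc, ← mul_assoc, inv_mul_cancel₀ hs0, one_mul]
  rw [e]
  have hn : ∀ n : ℕ, (n : F) ∈ B := fun n => natCast_mem B n
  have h16 : t + 16 ∈ B := add_mem ht (by exact_mod_cast hn 16)
  refine mul_mem (sub_mem (mul_mem hj (pow_mem ht 4)) ?_) (pow_mem h2 24)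
  refine add_mem (add_mem (add_mem (add_mem (add_mem (pow_mem h16 5) ?_) ?_) ?_) ?_) ?_
  · exact mul_mem (by exact_mod_cast hn 672) (pow_mem h16 4)
  · exact mul_mem (by exact_mod_cast hn 151296) (pow_mem h16 3)
  · exact mul_mem (by exact_mod_cast hn 11583488) (pow_mem h16 2)
  · exact mul_mem (by exact_mod_cast hn 38731776) h16
  · exact_mod_cast hn 44040192

/-- `g₄ = t² (t + 16)⁵ ∈ A`. -/
theorem g4_mem_of_mem {A : Type*} [SetLike A F] [SubringClass A F] (B : A) {t : F}
    (ht : t ∈ B) : t ^ 2 * (t + 16) ^ 5 ∈ B := by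
  have hn : ∀ n : ℕ, (n : F) ∈ B := fun n => natCast_mem B n
  have h16 : t + 16 ∈ B := add_mem ht (by exact_mod_cast hn 16)
  exact mul_mem (pow_mem ht 2) (pow_mem h16 5)

/-- `g₄⁻¹ = (t⁻¹)² ((t + 16)⁻¹)⁵ ∈ A`. -/
theorem g4_inv_mem_of_rel4 {A : Type*} [SetLike A F] [SubringClass A F] (B : A) {j t : F}
    (hj : j ∈ B) (ht : t ∈ B) (h2 : (2 : F)⁻¹ ∈ B)
    (hrel : j * (t ^ 4 * (t + 16)) = (t ^ 2 + 256 * t + 4096) ^ 3) :
    (t ^ 2 * (t + 16) ^ 5)⁻¹ ∈ B := by
  rw [mul_inv, ← inv_pow, ← inv_pow]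
  exact mul_mem (pow_mem (inv_mem_of_rel4 B hj ht h2 hrel) 2)
    (pow_mem (add_inv_mem_of_rel4 B hj ht h2 hrel) 5)

/-- `(g₄ ^ k)⁻¹ ∈ A`. -/
theorem g4_pow_inv_mem_of_rel4 {A : Type*} [SetLike A F] [SubringClass A F] (B : A) {j t : F}
    (hj : j ∈ B) (ht : t ∈ B) (h2 : (2 : F)⁻¹ ∈ B)
    (hrel : j * (t ^ 4 * (t + 16)) = (t ^ 2 + 256 * t + 4096) ^ 3) (k : ℕ) :
    ((t ^ 2 * (t + 16) ^ 5) ^ k)⁻¹ ∈ B := by
  rw [← inv_pow]
  exact pow_mem (g4_inv_mem_of_rel4 B hj ht h2 hrel) k

/-- `g₄ ≠ 0`. -/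
theorem g4_ne_zero_of_rel4 {j t : F}
    (hrel : j * (t ^ 4 * (t + 16)) = (t ^ 2 + 256 * t + 4096) ^ 3) :
    t ^ 2 * (t + 16) ^ 5 ≠ 0 :=
  mul_ne_zero (pow_ne_zero 2 (ne_zero_of_rel4 hrel)) (pow_ne_zero 5 (add_ne_zero_of_rel4 hrel))

end Units

/-! ## Valuation form: `t`, `t + 16` are units of every valuation ring containing `j`, `2⁻¹`
in which `t` is integral -/

section Val

variable {F : Type*} [Field F] [CharZero F]

/-- In a valuation subring `V ∋ j, 2⁻¹`, the relation forces `t ∈ V` (integrality). -/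
theorem mem_valuationSubring_of_rel4 (V : ValuationSubring F) {j t : F} (hj : j ∈ V)
    (hrel : j * (t ^ 4 * (t + 16)) = (t ^ 2 + 256 * t + 4096) ^ 3) : t ∈ V := by
  have hint : IsIntegral V t := by
    refine ⟨poly4 (⟨j, hj⟩ : V), poly4_monic _, ?_⟩
    rw [eval₂_poly4]
    show (t ^ 2 + 256 * t + 4096) ^ 3 - j * (t ^ 4 * (t + 16)) = 0
    rw [hrel, sub_self]
  obtain ⟨v, hv⟩ := (IsIntegrallyClosed.isIntegral_iff (R := V) (K := F)).mp hint
  rw [← hv]
  exact v.2

/-- `v(t) = 1` in every valuation subring `V ∋ j, 2⁻¹`. -/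
theorem valuation_eq_one_of_rel4 (V : ValuationSubring F) {j t : F} (hj : j ∈ V)
    (h2 : (2 : F)⁻¹ ∈ V)
    (hrel : j * (t ^ 4 * (t + 16)) = (t ^ 2 + 256 * t + 4096) ^ 3) : V.valuation t = 1 := by
  have ht := mem_valuationSubring_of_rel4 V hj hrel
  have hti := inv_mem_of_rel4 V hj ht h2 hrel
  have ht0 := ne_zero_of_rel4 hrel
  refine le_antisymm ((V.valuation_le_one_iff _).2 ht) ?_
  have h1 : V.valuation t⁻¹ ≤ 1 := (V.valuation_le_one_iff _).2 hti
  rw [map_inv₀] at h1
  exact (inv_le_one₀ (by rw [zero_lt_iff]; exact (_root_.map_ne_zero _).2 ht0)).1 h1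

/-- `v(t + 16) = 1` in every valuation subring `V ∋ j, 2⁻¹`. -/
theorem valuation_add_eq_one_of_rel4 (V : ValuationSubring F) {j t : F} (hj : j ∈ V)
    (h2 : (2 : F)⁻¹ ∈ V)
    (hrel : j * (t ^ 4 * (t + 16)) = (t ^ 2 + 256 * t + 4096) ^ 3) :
    V.valuation (t + 16) = 1 := by
  have ht := mem_valuationSubring_of_rel4 V hj hrel
  have hti := add_inv_mem_of_rel4 V hj ht h2 hrel
  have ht0 := add_ne_zero_of_rel4 hrel
  have h16 : t + 16 ∈ V := add_mem ht (ofNat_mem V 16)
  refine le_antisymm ((V.valuation_le_one_iff _).2 h16) ?_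
  have h1 : V.valuation (t + 16)⁻¹ ≤ 1 := (V.valuation_le_one_iff _).2 hti
  rw [map_inv₀] at h1
  exact (inv_le_one₀ (by rw [zero_lt_iff]; exact (_root_.map_ne_zero _).2 ht0)).1 h1

end Val

end Fermat.Agent.S36.H994

end
end
-- ===== PACK-END S36/H994/Chart4.lean

-- ===== PACK-BEGIN S28/Theta/Bracket.lean
section
/-
S28 / (A-θ): the analytic identity `3 Δ · D E₄ - E₄ · D Δ + E₆ · Δ = 0` on `ℍ`
(a Rankin–Cohen bracket computation: the left side is a level-one modular form of
weight 18 whose `q`-expansion vanishes to order `≥ 2`, hence zero by the Sturm bound).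
-/



set_option autoImplicit false

open UpperHalfPlane hiding I
open Complex Filter Function Topology
open scoped Real Manifold MatrixGroups ModularForm
open Derivative ModularForm

noncomputable section

namespace Fermat.Agent.S28

local notation "𝕢" => Periodic.qParam
local notation "Δ" => ModularForm.discriminant

/-- Pointwise transformation law of `D F` for a weight-`k` slash-invariant `F`. -/
lemma th327_D_smul_apply {k : ℤ} {F : ℍ → ℂ} (hF : MDiff F) (γ : SL(2, ℤ))
    (hinv : F ∣[k] γ = F) (z : ℍ) :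
    D F (γ • z) = denom γ z ^ (k + 2) *
      (D F z + (k : ℂ) * (2 * π * I)⁻¹ * ((γ 1 0 : ℂ) / denom γ z) * F z) := by
  have h := congrFun (normalizedDerivOfComplex_SL_slash (k := k) hF (γ := γ)) z
  rw [hinv] at h
  simp only [Pi.sub_apply, ModularForm.SL_slash_apply] at h
  have hd : denom γ z ≠ 0 := denom_ne_zero γ z
  have hd2 : denom γ z ^ (k + 2) ≠ 0 := zpow_ne_zero _ hd
  rw [zpow_neg] at h
  have h' : D F (γ • z) * (denom γ z ^ (k + 2))⁻¹ =
      D F z + (k : ℂ) * (2 * π * I)⁻¹ * ((γ 1 0 : ℂ) / denom γ z) * F z := by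
    rw [h]; ring
  field_simp at h' ⊢
  linear_combination h'

/-- The weight-18 combination `3 Δ · D E₄ - E₄ · D Δ + E₆ · Δ`. -/
def th327_H : ℍ → ℂ :=
  (3 : ℂ) • (Δ * D (E₄ : ℍ → ℂ)) - (E₄ : ℍ → ℂ) * D Δ + (E₆ : ℍ → ℂ) * Δ

lemma th327_H_apply (z : ℍ) :
    th327_H z = 3 * (Δ z * D (E₄ : ℍ → ℂ) z) - E₄ z * D Δ z + E₆ z * Δ z := rfl

lemma th327_good_E₄ : Th327Good (E₄ : ℍ → ℂ) := Th327Good.of_modularForm E₄
lemma th327_good_E₆ : Th327Good (E₆ : ℍ → ℂ) := Th327Good.of_modularForm E₆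
lemma th327_good_Δ : Th327Good Δ := Th327Good.of_cuspForm CuspForm.discriminant

lemma th327_good_H : Th327Good th327_H :=
  (((th327_good_Δ.mul th327_good_E₄.deriv).smul 3).sub
    (th327_good_E₄.mul th327_good_Δ.deriv)).add (th327_good_E₆.mul th327_good_Δ)

lemma th327_slash_E₄ (γ : SL(2, ℤ)) : (E₄ : ℍ → ℂ) ∣[(4 : ℤ)] γ = E₄ := by
  have hγ : (γ : GL (Fin 2) ℝ) ∈ 𝒮ℒ := ⟨γ, rfl⟩
  have := SlashInvariantForm.slash_action_eqn E₄ _ hγ
  simpa [ModularForm.SL_slash] using this

lemma th327_slash_E₆ (γ : SL(2, ℤ)) : (E₆ : ℍ → ℂ) ∣[(6 : ℤ)] γ = E₆ := by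
  have hγ : (γ : GL (Fin 2) ℝ) ∈ 𝒮ℒ := ⟨γ, rfl⟩
  have := SlashInvariantForm.slash_action_eqn E₆ _ hγ
  simpa [ModularForm.SL_slash] using this

lemma th327_slash_Δ (γ : SL(2, ℤ)) : Δ ∣[(12 : ℤ)] γ = Δ := by
  have hγ : (γ : GL (Fin 2) ℝ) ∈ 𝒮ℒ := ⟨γ, rfl⟩
  have := SlashInvariantForm.slash_action_eqn CuspForm.discriminant _ hγ
  simpa [ModularForm.SL_slash] using this

lemma th327_smul_eq {k : ℤ} {F : ℍ → ℂ} (γ : SL(2, ℤ)) (hinv : F ∣[k] γ = F) (z : ℍ) :
    F (γ • z) = denom γ z ^ k * F z := by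
  have h := congrFun hinv z
  rw [ModularForm.SL_slash_apply, zpow_neg] at h
  have hd : denom γ z ^ k ≠ 0 := zpow_ne_zero _ (denom_ne_zero γ z)
  field_simp at h
  linear_combination h

lemma th327_H_smul (γ : SL(2, ℤ)) (z : ℍ) :
    th327_H (γ • z) = denom γ z ^ (18 : ℤ) * th327_H z := by
  have hd : denom γ z ≠ 0 := denom_ne_zero γ z
  have e4 := th327_smul_eq γ (th327_slash_E₄ γ) z
  have e6 := th327_smul_eq γ (th327_slash_E₆ γ) z
  have eΔ := th327_smul_eq γ (th327_slash_Δ γ) z
  have d4 := th327_D_smul_apply th327_good_E₄.holo γ (th327_slash_E₄ γ) z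
  have dΔ := th327_D_smul_apply th327_good_Δ.holo γ (th327_slash_Δ γ) z
  rw [th327_H_apply, th327_H_apply, e4, e6, eΔ, d4, dΔ]
  have z4 : denom γ z ^ (4 : ℤ) = denom γ z ^ 4 := by norm_cast
  have z6 : denom γ z ^ (6 : ℤ) = denom γ z ^ 6 := by norm_cast
  have z12 : denom γ z ^ (12 : ℤ) = denom γ z ^ 12 := by norm_cast
  have z42 : denom γ z ^ ((4 : ℤ) + 2) = denom γ z ^ 6 := by norm_cast
  have z122 : denom γ z ^ ((12 : ℤ) + 2) = denom γ z ^ 14 := by norm_cast
  have z18 : denom γ z ^ (18 : ℤ) = denom γ z ^ 18 := by norm_cast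
  rw [z4, z6, z12, z42, z122, z18]
  push_cast
  field_simp
  ring

lemma th327_H_slash (γ : SL(2, ℤ)) : th327_H ∣[(18 : ℤ)] γ = th327_H := by
  ext z
  rw [ModularForm.SL_slash_apply, th327_H_smul γ z, zpow_neg]
  have hd : denom γ z ^ (18 : ℤ) ≠ 0 := zpow_ne_zero _ (denom_ne_zero γ z)
  field_simp

/-- `3 Δ · D E₄ - E₄ · D Δ + E₆ · Δ` as a modular form of weight 18 and level one. -/
def th327_Hform : ModularForm 𝒮ℒ 18 where
  toFun := th327_H
  slash_action_eq' := fun _ ⟨γ, hγ⟩ ↦ hγ ▸ th327_H_slash γ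
  holo' := th327_good_H.holo
  bdd_at_cusps' {c} hc := by
    rw [Subgroup.IsArithmetic.isCusp_iff_isCusp_SL2Z] at hc
    rw [OnePoint.isBoundedAt_iff_forall_SL2Z hc]
    intro γ _
    rw [th327_H_slash γ]
    exact th327_good_H.bdd

lemma th327_Hform_coe : (th327_Hform : ℍ → ℂ) = th327_H := rfl

/-! ### `q`-expansion of `H` and the Sturm bound -/

lemma th327_qExpansion_H :
    qExpansion 1 th327_H =
      (3 : ℂ) • (qExpansion 1 Δ * th327_thetaP (qExpansion 1 E₄))
        - qExpansion 1 E₄ * th327_thetaP (qExpansion 1 Δ)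
        + qExpansion 1 E₆ * qExpansion 1 Δ := by
  unfold th327_H
  rw [(((th327_good_Δ.mul th327_good_E₄.deriv).smul 3).sub
      (th327_good_E₄.mul th327_good_Δ.deriv)).qExpansion_add (th327_good_E₆.mul th327_good_Δ),
    ((th327_good_Δ.mul th327_good_E₄.deriv).smul 3).qExpansion_sub
      (th327_good_E₄.mul th327_good_Δ.deriv),
    (th327_good_Δ.mul th327_good_E₄.deriv).qExpansion_smul 3,
    th327_good_Δ.qExpansion_mul th327_good_E₄.deriv,
    th327_good_E₄.qExpansion_mul th327_good_Δ.deriv,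
    th327_good_E₆.qExpansion_mul th327_good_Δ,
    th327_good_E₄.qExpansion_D, th327_good_Δ.qExpansion_D]

lemma th327_coeff_zero_Δ : (qExpansion 1 Δ).coeff 0 = 0 := by
  simpa using CuspFormClass.qExpansion_coeff_zero CuspForm.discriminant one_pos
    one_mem_strictPeriods_SL

lemma th327_coeff_one_Δ : (qExpansion 1 Δ).coeff 1 = 1 := discriminant_qExpansion_coeff_one

lemma th327_coeff_zero_E₄ : (qExpansion 1 E₄).coeff 0 = 1 :=
  EisensteinSeries.E_qExpansion_coeff_zero _ ⟨2, rfl⟩

lemma th327_coeff_zero_E₆ : (qExpansion 1 E₆).coeff 0 = 1 :=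
  EisensteinSeries.E_qExpansion_coeff_zero _ ⟨3, rfl⟩

lemma th327_qExpansion_H_coeff_zero : (qExpansion 1 th327_H).coeff 0 = 0 := by
  rw [th327_qExpansion_H]
  simp [PowerSeries.coeff_mul, -PowerSeries.coeff_zero_eq_constantCoeff, th327_coeff_zero_Δ]

lemma th327_qExpansion_H_coeff_one : (qExpansion 1 th327_H).coeff 1 = 0 := by
  rw [th327_qExpansion_H]
  simp [PowerSeries.coeff_mul, Finset.Nat.antidiagonal_succ,
    -PowerSeries.coeff_zero_eq_constantCoeff, th327_coeff_zero_Δ, th327_coeff_one_Δ,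
    th327_coeff_zero_E₄, th327_coeff_zero_E₆]

theorem th327_H_eq_zero : th327_H = 0 := by
  have h2 : ((2 : ℕ) : ℕ∞) ≤ (qExpansion 1 th327_Hform).order := by
    apply PowerSeries.nat_le_order
    intro i hi
    rw [th327_Hform_coe]
    interval_cases i
    · exact th327_qExpansion_H_coeff_zero
    · exact th327_qExpansion_H_coeff_one
  have h1 : ((((18 : ℤ).toNat / 12 : ℕ)) : ℕ∞) < (qExpansion 1 th327_Hform).order := by
    refine lt_of_lt_of_le ?_ h2
    have h18 : (18 : ℤ).toNat / 12 = 1 := by decide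
    rw [h18]
    exact_mod_cast (by norm_num : (1 : ℕ) < 2)
  have := sturm_bound_levelOne (f := th327_Hform) h1
  rw [← th327_Hform_coe, this]
  rfl

/-- Formal Ramanujan-type identity for the `q`-expansions of `E₄, E₆, Δ` (over `ℂ`). -/
theorem th327_bracket_qExpansion :
    (3 : ℂ) • (qExpansion 1 Δ * th327_thetaP (qExpansion 1 E₄))
        - qExpansion 1 E₄ * th327_thetaP (qExpansion 1 Δ)
        + qExpansion 1 E₆ * qExpansion 1 Δ = 0 := by
  rw [← th327_qExpansion_H, th327_H_eq_zero]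
  exact UpperHalfPlane.qExpansion_zero 1

/-- `E₄³ - E₆² = 1728 Δ` for `q`-expansions. -/
theorem th327_cube_sub_sq_qExpansion :
    qExpansion 1 E₄ ^ 3 - qExpansion 1 E₆ ^ 2 = (1728 : ℂ) • qExpansion 1 Δ := by
  have h : (E₄ : ℍ → ℂ) ^ 3 - (E₆ : ℍ → ℂ) ^ 2 = (1728 : ℂ) • Δ := by
    funext z
    have := discriminant_eq_E₄_cube_sub_E₆_sq z
    simp only [Pi.sub_apply, Pi.pow_apply, Pi.smul_apply, smul_eq_mul]
    rw [this]; ring
  rw [← th327_good_E₄.qExpansion_pow, ← th327_good_E₆.qExpansion_pow,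
    ← (th327_good_E₄.pow 3).qExpansion_sub (th327_good_E₆.pow 2), h,
    th327_good_Δ.qExpansion_smul]

end Fermat.Agent.S28

end
end
-- ===== PACK-END S28/Theta/Bracket.lean

-- ===== PACK-BEGIN S21/H585/Cocycle.lean
section


/-!
# Cocycles on `SL(2, ℤ)` with values in functions on an `SL(2, ℤ)`-set

If `-1` acts trivially on `X`, then any `a c : X → A` with `a + a ∘ S = 0` and
`c + c ∘ ST + c ∘ (ST)² = 0` extend to a cocycle `f : SL(2, ℤ) → X → A`
(`f (g * h) x = f h x + f g (h • x)`) with `f S = a`, `f (S * T) = c`.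
-/

set_option autoImplicit false

namespace Fermat.Agent.S21.H585

open Matrix ModularGroup
open scoped MatrixGroups

lemma S_mul_S_eq_neg_one : (S * S : SL(2, ℤ)) = -1 := by
  apply Subtype.ext
  rw [Matrix.SpecialLinearGroup.coe_mul, Matrix.SpecialLinearGroup.coe_neg,
    Matrix.SpecialLinearGroup.coe_one, S_mul_S_eq]

lemma ST_cube_eq_neg_one : ((S * T) * (S * T) * (S * T) : SL(2, ℤ)) = -1 := by
  apply Subtype.ext
  rw [Matrix.SpecialLinearGroup.coe_mul, Matrix.SpecialLinearGroup.coe_mul, coe_S_mul_T,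
    Matrix.SpecialLinearGroup.coe_neg, Matrix.SpecialLinearGroup.coe_one]
  ext i j
  fin_cases i <;> fin_cases j <;> simp [Matrix.mul_apply, Fin.sum_univ_two]

section

variable {G : Type*} [Group G] {X : Type*} [MulAction G X] {A : Type*} [AddCommGroup A]

/-- The permutation `(x, t) ↦ (g • x, t + m x)` of `X × A`. -/
def affPerm (g : G) (m : X → A) : Equiv.Perm (X × A) where
  toFun z := (g • z.1, z.2 + m z.1)
  invFun z := (g⁻¹ • z.1, z.2 - m (g⁻¹ • z.1))
  left_inv z := by
    rcases z with ⟨x, t⟩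
    simp
  right_inv z := by
    rcases z with ⟨x, t⟩
    simp

@[simp] lemma affPerm_apply (g : G) (m : X → A) (x : X) (t : A) :
    affPerm g m (x, t) = (g • x, t + m x) := rfl

/-- Abstract cocycles. -/
def IsCocycle (f : G → X → A) : Prop := ∀ g h x, f (g * h) x = f h x + f g (h • x)

lemma IsCocycle.map_one {f : G → X → A} (hf : IsCocycle f) (x : X) : f 1 x = 0 := by
  have := hf 1 1 x
  rw [one_mul, one_smul] at this
  exact left_eq_add.mp this

lemma IsCocycle.map_inv {f : G → X → A} (hf : IsCocycle f) (g : G) (x : X) :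
    f g⁻¹ (g • x) = - f g x := by
  have := hf g⁻¹ g x
  rw [inv_mul_cancel, hf.map_one] at this
  exact eq_neg_of_add_eq_zero_right this.symm

lemma IsCocycle.map_inv' {f : G → X → A} (hf : IsCocycle f) (g : G) (x : X) :
    f g⁻¹ x = - f g (g⁻¹ • x) := by
  have := hf.map_inv g (g⁻¹ • x)
  rwa [smul_inv_smul] at this

end

/-- **Existence of cocycles on `SL(2, ℤ)`** with prescribed values on `S` and `S * T`. -/
theorem exists_cocycle {X : Type*} [MulAction SL(2, ℤ) X] {A : Type*} [AddCommGroup A]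
    (hneg : ∀ x : X, (-1 : SL(2, ℤ)) • x = x) (a c : X → A)
    (ha : ∀ x, a x + a (S • x) = 0)
    (hc : ∀ x, c x + c ((S * T) • x) + c ((S * T) • (S * T) • x) = 0) :
    ∃ f : SL(2, ℤ) → X → A, IsCocycle f ∧ f S = a ∧ f (S * T) = c := by
  have hs : (affPerm S a : Equiv.Perm (X × A)) ^ 2 = 1 := by
    ext ⟨x, t⟩ : 1
    rw [pow_two, Equiv.Perm.mul_apply, affPerm_apply, affPerm_apply, Equiv.Perm.one_apply,
      ← mul_smul, S_mul_S_eq_neg_one, hneg, add_assoc, ha, add_zero]
  have hu : (affPerm (S * T) c : Equiv.Perm (X × A)) ^ 3 = 1 := by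
    ext ⟨x, t⟩ : 1
    rw [pow_succ, pow_two, Equiv.Perm.mul_apply, Equiv.Perm.mul_apply, affPerm_apply,
      affPerm_apply, affPerm_apply, Equiv.Perm.one_apply]
    have h1 : (S * T) • (S * T) • (S * T) • x = x := by
      rw [smul_smul, smul_smul, ST_cube_eq_neg_one, hneg]
    rw [h1, add_assoc, add_assoc, ← add_assoc (c x), hc, add_zero]
  obtain ⟨Φ, hΦS, hΦU⟩ := exists_hom_of_sq_cube _ _ hs hu
  -- every `Φ g` is affine over `g`
  have hP : ∀ g : SL(2, ℤ), ∃ m : X → A, ∀ x t, Φ g (x, t) = (g • x, t + m x) := by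
    intro g
    have hg : g ∈ Subgroup.closure ({S, S * T} : Set SL(2, ℤ)) := by
      have hle : Subgroup.closure ({S, T} : Set SL(2, ℤ)) ≤
          Subgroup.closure ({S, S * T} : Set SL(2, ℤ)) := by
        rw [Subgroup.closure_le]
        rintro x (rfl | rfl)
        · exact Subgroup.subset_closure (by simp)
        · have h1 : S ∈ Subgroup.closure ({S, S * T} : Set SL(2, ℤ)) :=
            Subgroup.subset_closure (by simp)
          have h2 : S * T ∈ Subgroup.closure ({S, S * T} : Set SL(2, ℤ)) :=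
            Subgroup.subset_closure (by simp)
          have h3 := mul_mem (inv_mem h1) h2
          rwa [inv_mul_cancel_left] at h3
      apply hle
      rw [_root_.SpecialLinearGroup.SL2Z_generators]; trivial
    induction hg using Subgroup.closure_induction with
    | mem x hx =>
      rcases hx with rfl | rfl
      · exact ⟨a, fun x t => by rw [hΦS, affPerm_apply]⟩
      · exact ⟨c, fun x t => by rw [hΦU, affPerm_apply]⟩
    | one => exact ⟨0, fun x t => by simp⟩
    | mul g h _ _ hg hh =>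
      obtain ⟨m, hm⟩ := hg
      obtain ⟨n, hn⟩ := hh
      refine ⟨fun x => n x + m (h • x), fun x t => ?_⟩
      rw [map_mul, Equiv.Perm.mul_apply, hn, hm, mul_smul, add_assoc]
    | inv g _ hg =>
      obtain ⟨m, hm⟩ := hg
      refine ⟨fun x => - m (g⁻¹ • x), fun x t => ?_⟩
      rw [map_inv, Equiv.Perm.inv_eq_iff_eq, hm, smul_inv_smul]
      simp
  choose m hm using hP
  refine ⟨m, ?_, ?_, ?_⟩
  · intro g h x
    have h1 := hm (g * h) x 0
    rw [map_mul, Equiv.Perm.mul_apply, hm h, hm g, zero_add, zero_add] at h1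
    exact (congrArg Prod.snd h1).symm
  · funext x
    have h1 := hm S x 0
    rw [hΦS, affPerm_apply] at h1
    simpa using (congrArg Prod.snd h1).symm
  · funext x
    have h1 := hm (S * T) x 0
    rw [hΦU, affPerm_apply] at h1
    simpa using (congrArg Prod.snd h1).symm

end Fermat.Agent.S21.H585

end
-- ===== PACK-END S21/H585/Cocycle.lean

-- ===== PACK-BEGIN S41/H701/AbstractNE.lean
section



/-!
# Abstract non-Eisenstein lemma (helper701, S41 piece D2)

A two-dimensional representation `ρ` of a group `Γ` over a field of characteristic `≠ 2`, together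
with a "cyclotomic character" `χ : Γ → X` and its reduction `ε : X → kˣ`, such that every element
is a power of a "Frobenius" `τ` with `ρ(τ)² - a ρ(τ) + ε(χ τ) = 0`, and `a = 2` whenever `χ τ = 1`
(the Eisenstein condition at primes `≡ 1 mod M`), has a stable line, provided some `c ∈ Γ` has
`χ(c)² = 1`, `ε(χ c) = -1`.

No determinant/Weil pairing input: the determinant is recovered from non-scalar Frobenius
elements.
-/

set_option autoImplicit false

open Module

namespace Fermat.Agent.S41.H701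

section AbstractNE

variable {k V Γ X : Type*} [Field k] [AddCommGroup V] [Module k V] [Group Γ] [CommGroup X]

/-- scalar multiples of the identity are injective in the scalar (nontrivial module) -/
lemma smul_one_injective_h701 [Nontrivial V] {s t : k}
    (h : s • (1 : End k V) = t • (1 : End k V)) : s = t := by
  obtain ⟨v, hv⟩ := exists_ne (0 : V)
  have := congrArg (fun f : End k V => f v) h
  simp only [LinearMap.smul_apply, Module.End.one_apply] at this
  have h' : (s - t) • v = 0 := by rw [sub_smul, this, sub_self]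
  rcases smul_eq_zero.mp h' with h'' | h''
  · exact sub_eq_zero.mp h''
  · exact absurd h'' hv

theorem exists_stable_line_of_eisenstein_h701
    (h2 : (2 : k) ≠ 0) (hdim : finrank k V = 2)
    (ρ : Γ →* End k V) (χ : Γ →* X) (ε : X →* kˣ)
    (hF : ∀ σ : Γ, ∃ (τ : Γ) (j : ℕ) (a : k),
        ρ σ = ρ τ ^ j ∧ χ σ = χ τ ^ j ∧ (χ σ = 1 → χ τ = 1) ∧
        ρ τ * ρ τ - a • ρ τ + ((ε (χ τ) : kˣ) : k) • (1 : End k V) = 0 ∧
        (χ τ = 1 → a = 2))
    (c : Γ) (hc2 : χ c * χ c = 1) (hcε : ((ε (χ c) : kˣ) : k) = -1) :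
    ∃ L : Submodule k V, L ≠ ⊥ ∧ L ≠ ⊤ ∧ ∀ g : Γ, ∀ v ∈ L, ρ g v ∈ L := by
  classical
  have hfd : FiniteDimensional k V := FiniteDimensional.of_finrank_pos (by omega)
  have hnt : Nontrivial V := Module.nontrivial_of_finrank_pos (R := k) (by omega)
  -- Step 1: elements of the kernel of `χ` act unipotently
  have hunip : ∀ σ : Γ, χ σ = 1 → (ρ σ - 1) * (ρ σ - 1) = 0 := by
    intro σ hσ
    obtain ⟨τ, j, a, hρ, -, hχ1, hrel, ha⟩ := hF σ
    have hτ := hχ1 hσ
    rw [ha hτ, hτ, map_one, Units.val_one, one_smul, two_smul] at hrel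
    have h1 : (ρ τ - 1) * (ρ τ - 1) = 0 := by
      rw [← hrel]; noncomm_ring
    rw [hρ]
    exact sq_zero_pow_sub_one_h701 _ h1 j
  by_cases hA : ∃ σ₀ : Γ, χ σ₀ = 1 ∧ ρ σ₀ ≠ 1
  · -- Case A: a non-trivial unipotent element
    obtain ⟨σ₀, hσ₀, hρ₀⟩ := hA
    refine ⟨LinearMap.ker (ρ σ₀ - 1), ?_, ?_, ?_⟩
    · intro hbot
      rw [LinearMap.ker_eq_bot] at hbot
      apply hρ₀
      have h0 : ρ σ₀ - 1 = 0 := by
        ext x
        apply hbot
        have := congrArg (fun f : End k V => f x) (hunip σ₀ hσ₀)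
        simpa using this
      exact sub_eq_zero.mp h0
    · intro htop
      rw [LinearMap.ker_eq_top] at htop
      exact hρ₀ (sub_eq_zero.mp htop)
    · intro g v hv
      rw [LinearMap.mem_ker, LinearMap.sub_apply, Module.End.one_apply, sub_eq_zero] at hv ⊢
      have hχ1 : χ (g * σ₀ * g⁻¹) = 1 := by
        rw [map_mul, map_mul, hσ₀, mul_one, ← map_mul, mul_inv_cancel, map_one]
      have hχ2 : χ (g * σ₀ * g⁻¹ * σ₀) = 1 := by rw [map_mul, hχ1, hσ₀, mul_one]
      have hne : ρ (g * σ₀ * g⁻¹) ≠ 1 := by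
        intro h
        apply hρ₀
        have : ρ σ₀ = ρ g⁻¹ * ρ (g * σ₀ * g⁻¹) * ρ g := by
          rw [← map_mul, ← map_mul]; congr 1; group
        rw [this, h, mul_one, ← map_mul, inv_mul_cancel, map_one]
      have huv : (ρ (g * σ₀ * g⁻¹) * ρ σ₀ - 1) * (ρ (g * σ₀ * g⁻¹) * ρ σ₀ - 1) = 0 := by
        rw [← map_mul]; exact hunip _ hχ2
      apply ker_le_of_unipotent_pair_h701 hdim (ρ (g * σ₀ * g⁻¹)) (ρ σ₀) (hunip _ hχ1)
        (hunip _ hσ₀) huv hne hρ₀
      -- `ρ g v` is fixed by `ρ (g σ₀ g⁻¹)`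
      have : ρ (g * σ₀ * g⁻¹) (ρ g v) = ρ (g * σ₀ * g⁻¹ * g) v := by
        rw [map_mul _ _ g]; rfl
      rw [this]
      have e : g * σ₀ * g⁻¹ * g = g * σ₀ := by group
      rw [e, map_mul, Module.End.mul_apply, hv]
  · -- Case B: the kernel of `χ` acts trivially, so the image of `ρ` is abelian
    have hB : ∀ σ : Γ, χ σ = 1 → ρ σ = 1 := by
      intro σ hσ
      by_contra h
      exact hA ⟨σ, hσ, h⟩
    have hcomm : ∀ g₁ g₂ : Γ, ρ g₁ * ρ g₂ = ρ g₂ * ρ g₁ := by
      intro g₁ g₂
      have h1 : χ (g₁ * g₂ * g₁⁻¹ * g₂⁻¹) = 1 := by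
        simp only [map_mul, map_inv]
        rw [mul_comm (χ g₁) (χ g₂), mul_assoc (χ g₂), mul_inv_cancel, mul_one, mul_inv_cancel]
      have h2 := hB _ h1
      have h3 : g₁ * g₂ = (g₁ * g₂ * g₁⁻¹ * g₂⁻¹) * (g₂ * g₁) := by group
      rw [← map_mul, ← map_mul, h3, map_mul, h2, one_mul]
    have hcc : ρ c * ρ c = 1 := by
      rw [← map_mul]
      exact hB _ (by rw [map_mul, hc2])
    by_cases hcs : ∃ s : k, ρ c = s • (1 : End k V)
    · -- `ρ c` scalar
      obtain ⟨s, hs⟩ := hcs
      by_cases hall : ∀ g : Γ, ∃ t : k, ρ g = t • (1 : End k V)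
      · -- everything is scalar: any line is stable
        obtain ⟨v, hv⟩ := exists_ne (0 : V)
        refine ⟨Submodule.span k {v}, ?_, ?_, ?_⟩
        · rw [Ne, Submodule.span_singleton_eq_bot]; exact hv
        · intro htop
          have h1 : finrank k (Submodule.span k {v}) = 1 := finrank_span_singleton hv
          rw [htop, finrank_top, hdim] at h1
          omega
        · intro g w hw
          obtain ⟨t, ht⟩ := hall g
          rw [ht, LinearMap.smul_apply, Module.End.one_apply]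
          exact Submodule.smul_mem _ _ hw
      · exfalso
        rw [not_forall] at hall
        obtain ⟨g₀, hg₀⟩ := hall
        rw [not_exists] at hg₀
        -- determinant of non-scalar elements
        have hdet : ∀ g : Γ, (∀ t : k, ρ g ≠ t • (1 : End k V)) →
            LinearMap.det (ρ g) = ((ε (χ g) : kˣ) : k) := by
          intro g hg
          obtain ⟨τ, j, a, hρ, hχ, -, hrel, -⟩ := hF g
          have hτns : ∀ t : k, ρ τ ≠ t • (1 : End k V) := by
            intro t ht
            apply hg (t ^ j)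
            rw [hρ, ht, smul_pow, one_pow]
          have h1 := det_eq_of_quadratic_h701 hdim (ρ τ) a _ hrel hτns
          rw [hρ, map_pow, h1, hχ, map_pow, Units.val_pow_eq_pow_val]
        have hs2 : s * s = 1 := by
          rw [hs, smul_mul_smul_comm, one_mul] at hcc
          have : (s * s) • (1 : End k V) = (1 : k) • (1 : End k V) := by rw [hcc, one_smul]
          exact smul_one_injective_h701 this
        have hs0 : s ≠ 0 := by
          rintro rfl
          rw [mul_zero] at hs2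
          exact zero_ne_one hs2
        have hcg : ρ (c * g₀) = s • ρ g₀ := by
          rw [map_mul, hs, smul_mul_assoc, one_mul]
        have hcgns : ∀ t : k, ρ (c * g₀) ≠ t • (1 : End k V) := by
          intro t ht
          apply hg₀ (s⁻¹ * t)
          rw [hcg] at ht
          rw [mul_smul, ← ht, smul_smul, inv_mul_cancel₀ hs0, one_smul]
        have hd1 := hdet g₀ hg₀
        have hd2 := hdet (c * g₀) hcgns
        rw [hcg, LinearMap.det_smul, hdim, pow_two, hs2, one_mul, hd1, map_mul, map_mul,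
          Units.val_mul, hcε] at hd2
        have hd3 : (2 : k) * ((ε (χ g₀) : kˣ) : k) = 0 := by linear_combination hd2
        rcases mul_eq_zero.mp hd3 with h | h
        · exact h2 h
        · exact (ε (χ g₀)).ne_zero h
    · -- `ρ c` is a non-scalar involution commuting with everything
      rw [not_exists] at hcs
      refine ⟨LinearMap.ker (ρ c - 1), ?_, ?_, ?_⟩
      · intro hbot
        rw [LinearMap.ker_eq_bot] at hbot
        apply hcs (-1)
        have h0 : ρ c + 1 = 0 := by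
          ext x
          apply hbot
          have : (ρ c - 1) * (ρ c + 1) = 0 := by
            have : (ρ c - 1) * (ρ c + 1) = ρ c * ρ c - 1 := by noncomm_ring
            rw [this, hcc, sub_self]
          have := congrArg (fun f : End k V => f x) this
          simpa using this
        rw [neg_smul, one_smul]
        exact eq_neg_of_add_eq_zero_left h0
      · intro htop
        rw [LinearMap.ker_eq_top] at htop
        apply hcs 1
        rw [one_smul]
        exact sub_eq_zero.mp htop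
      · intro g v hv
        rw [LinearMap.mem_ker, LinearMap.sub_apply, Module.End.one_apply, sub_eq_zero] at hv ⊢
        have := congrArg (fun f : End k V => f v) (hcomm c g)
        simp only [Module.End.mul_apply] at this
        rw [this, hv]

end AbstractNE

end Fermat.Agent.S41.H701

end
-- ===== PACK-END S41/H701/AbstractNE.lean

-- ===== PACK-BEGIN S59/TW/H658/Section.lean
section



/-!
# S21, piece MS-B: a section `φt : SL(2,ℤ) → ℝ` of a parabolic homomorphism

Pure group theory: for a parabolic homomorphism `φ : Γ₀(L) → ℝ` there is a function `φt` on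
`SL(2,ℤ)` which is right-`Γ₀(L)`-equivariant (with cocycle `φ`), left-`T`-invariant and even.
-/

set_option autoImplicit false

open CongruenceSubgroup
open scoped MatrixGroups

namespace Fermat.Agent.S59.TW.H658

open Fermat.Agent.S21

/-- The double coset relation of `⟨T⟩ \ SL(2,ℤ) / Γ₀(L)`. -/
def sectionRel (L : Lev) (g g' : SL(2, ℤ)) : Prop :=
  ∃ (n : ℤ) (γ : L.Γ), g' = ModularGroup.T ^ n * g * (γ : SL(2, ℤ))

theorem sectionRel_refl (L : Lev) (g : SL(2, ℤ)) : _root_.Fermat.Agent.S59.TW.H658.sectionRel L g g :=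
  ⟨0, 1, by simp⟩

theorem sectionRel_symm {L : Lev} {g g' : SL(2, ℤ)} (h : _root_.Fermat.Agent.S59.TW.H658.sectionRel L g g') :
    _root_.Fermat.Agent.S59.TW.H658.sectionRel L g' g := by
  obtain ⟨n, γ, rfl⟩ := h
  refine ⟨-n, γ⁻¹, ?_⟩
  simp only [Subgroup.coe_inv, zpow_neg]
  group

theorem sectionRel_trans {L : Lev} {g g' g'' : SL(2, ℤ)} (h : _root_.Fermat.Agent.S59.TW.H658.sectionRel L g g')
    (h' : _root_.Fermat.Agent.S59.TW.H658.sectionRel L g' g'') : _root_.Fermat.Agent.S59.TW.H658.sectionRel L g g'' := by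
  obtain ⟨n, γ, rfl⟩ := h
  obtain ⟨m, γ', rfl⟩ := h'
  refine ⟨m + n, γ * γ', ?_⟩
  simp only [Subgroup.coe_mul, zpow_add]
  group

/-- The setoid of double cosets `⟨T⟩ \ SL(2,ℤ) / Γ₀(L)`. -/
def sectionSetoid (L : Lev) : Setoid SL(2, ℤ) where
  r := _root_.Fermat.Agent.S59.TW.H658.sectionRel L
  iseqv := ⟨_root_.Fermat.Agent.S59.TW.H658.sectionRel_refl L, _root_.Fermat.Agent.S59.TW.H658.sectionRel_symm, _root_.Fermat.Agent.S59.TW.H658.sectionRel_trans⟩

/-- The chosen representative of the double coset of `g`. -/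
noncomputable def sectionRep (L : Lev) (g : SL(2, ℤ)) : SL(2, ℤ) :=
  @Quotient.out _ (_root_.Fermat.Agent.S59.TW.H658.sectionSetoid L) (@Quotient.mk _ (_root_.Fermat.Agent.S59.TW.H658.sectionSetoid L) g)

theorem sectionRep_rel (L : Lev) (g : SL(2, ℤ)) : _root_.Fermat.Agent.S59.TW.H658.sectionRel L (_root_.Fermat.Agent.S59.TW.H658.sectionRep L g) g :=
  @Quotient.exact _ (_root_.Fermat.Agent.S59.TW.H658.sectionSetoid L) _ _ (@Quotient.out_eq _ (_root_.Fermat.Agent.S59.TW.H658.sectionSetoid L) _)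

theorem sectionRep_eq_of_rel {L : Lev} {g g' : SL(2, ℤ)} (h : _root_.Fermat.Agent.S59.TW.H658.sectionRel L g g') :
    _root_.Fermat.Agent.S59.TW.H658.sectionRep L g = _root_.Fermat.Agent.S59.TW.H658.sectionRep L g' := by
  unfold _root_.Fermat.Agent.S59.TW.H658.sectionRep
  rw [@Quotient.sound _ (_root_.Fermat.Agent.S59.TW.H658.sectionSetoid L) g g' h]

/-- The trace of a conjugate of a power of `T` is `2`. -/
theorem section_trace_conj_T_zpow (r : SL(2, ℤ)) (k : ℤ) :
    ((r⁻¹ * ModularGroup.T ^ k * r : SL(2, ℤ)) : Matrix (Fin 2) (Fin 2) ℤ).trace = 2 := by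
  have h1 : ((r⁻¹ * ModularGroup.T ^ k * r : SL(2, ℤ)) : Matrix (Fin 2) (Fin 2) ℤ)
      = (r⁻¹ : SL(2, ℤ)).1 * (ModularGroup.T ^ k : SL(2, ℤ)).1 * r.1 := by
    simp [Matrix.SpecialLinearGroup.coe_mul]
  rw [h1, Matrix.trace_mul_cycle]
  have h2 : r.1 * (r⁻¹ : SL(2, ℤ)).1 = 1 := by
    rw [← Matrix.SpecialLinearGroup.coe_mul, mul_inv_cancel, Matrix.SpecialLinearGroup.coe_one]
  rw [h2, one_mul]
  show (↑(ModularGroup.T ^ k) : Matrix (Fin 2) (Fin 2) ℤ).trace = 2
  rw [ModularGroup.coe_T_zpow, Matrix.trace_fin_two_of]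
  norm_num

/-- Well-definedness of the section: two decompositions with the same representative
give the same `φ`-value. -/
theorem section_wd (L : Lev) (φ : Additive (L.Γ) →+ ℝ)
    (hφ : ModularCurve.Period.IsParabolicHom (L.Γ) φ) (r : SL(2, ℤ)) (n m : ℤ)
    (γ γ' : L.Γ)
    (h : ModularGroup.T ^ n * r * (γ : SL(2, ℤ)) = ModularGroup.T ^ m * r * (γ' : SL(2, ℤ))) :
    φ (Additive.ofMul γ) = φ (Additive.ofMul γ') := by
  -- γ' * γ⁻¹ = r⁻¹ * T ^ (n - m) * r
  have key : ((γ' * γ⁻¹ : L.Γ) : SL(2, ℤ)) = r⁻¹ * ModularGroup.T ^ (n - m) * r := by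
    have h' : (γ' : SL(2, ℤ)) = (ModularGroup.T ^ m * r)⁻¹
        * (ModularGroup.T ^ n * r * (γ : SL(2, ℤ))) := by
      rw [h]; group
    rw [Subgroup.coe_mul, Subgroup.coe_inv, h', zpow_sub]
    group
  have htr : (((γ' * γ⁻¹ : L.Γ) : SL(2, ℤ)) : Matrix (Fin 2) (Fin 2) ℤ).trace ^ 2 = 4 := by
    rw [key, _root_.Fermat.Agent.S59.TW.H658.section_trace_conj_T_zpow]; norm_num
  have h0 := hφ (γ' * γ⁻¹) htr
  have h1 : φ (Additive.ofMul (γ' * γ⁻¹)) = φ (Additive.ofMul γ') - φ (Additive.ofMul γ) := by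
    rw [ofMul_mul, ofMul_inv, map_add, map_neg, sub_eq_add_neg]
  rw [h1] at h0
  linarith

/-- The section value: `φ γ` for any decomposition `g = T ^ n * rep g * γ`. -/
noncomputable def sectionVal (L : Lev) (φ : Additive (L.Γ) →+ ℝ) (g : SL(2, ℤ)) : ℝ :=
  φ (Additive.ofMul (_root_.Fermat.Agent.S59.TW.H658.sectionRep_rel L g).choose_spec.choose)

theorem sectionVal_spec (L : Lev) (g : SL(2, ℤ)) :
    g = ModularGroup.T ^ (_root_.Fermat.Agent.S59.TW.H658.sectionRep_rel L g).choose * _root_.Fermat.Agent.S59.TW.H658.sectionRep L g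
      * (((_root_.Fermat.Agent.S59.TW.H658.sectionRep_rel L g).choose_spec.choose : L.Γ) : SL(2, ℤ)) :=
  (_root_.Fermat.Agent.S59.TW.H658.sectionRep_rel L g).choose_spec.choose_spec

theorem sectionVal_eq (L : Lev) (φ : Additive (L.Γ) →+ ℝ)
    (hφ : ModularCurve.Period.IsParabolicHom (L.Γ) φ) (g : SL(2, ℤ)) (n : ℤ)
    (γ : L.Γ) (h : g = ModularGroup.T ^ n * _root_.Fermat.Agent.S59.TW.H658.sectionRep L g * (γ : SL(2, ℤ))) :
    _root_.Fermat.Agent.S59.TW.H658.sectionVal L φ g = φ (Additive.ofMul γ) := by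
  unfold _root_.Fermat.Agent.S59.TW.H658.sectionVal
  refine _root_.Fermat.Agent.S59.TW.H658.section_wd L φ hφ (_root_.Fermat.Agent.S59.TW.H658.sectionRep L g) (_root_.Fermat.Agent.S59.TW.H658.sectionRep_rel L g).choose n
    (_root_.Fermat.Agent.S59.TW.H658.sectionRep_rel L g).choose_spec.choose γ ?_
  rw [← _root_.Fermat.Agent.S59.TW.H658.sectionVal_spec L g, ← h]

/-- **MS-B**: a section of a parabolic homomorphism on `SL(2,ℤ)`. -/
theorem exists_section (L : Lev) (φ : Additive (L.Γ) →+ ℝ)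
    (hφ : ModularCurve.Period.IsParabolicHom (L.Γ) φ) :
    ∃ φt : SL(2, ℤ) → ℝ,
      (∀ (g : SL(2, ℤ)) (γ : L.Γ),
          φt (g * (γ : SL(2, ℤ))) = φt g + φ (Additive.ofMul γ)) ∧
      (∀ g : SL(2, ℤ), φt (ModularGroup.T * g) = φt g) ∧
      (∀ g : SL(2, ℤ), φt (-g) = φt g) := by
  have hmul : ∀ (g : SL(2, ℤ)) (γ : L.Γ),
      _root_.Fermat.Agent.S59.TW.H658.sectionVal L φ (g * (γ : SL(2, ℤ))) = _root_.Fermat.Agent.S59.TW.H658.sectionVal L φ g + φ (Additive.ofMul γ) := by
    intro g γ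
    have hrel : _root_.Fermat.Agent.S59.TW.H658.sectionRel L g (g * (γ : SL(2, ℤ))) := ⟨0, γ, by simp⟩
    have hrep : _root_.Fermat.Agent.S59.TW.H658.sectionRep L g = _root_.Fermat.Agent.S59.TW.H658.sectionRep L (g * (γ : SL(2, ℤ))) := _root_.Fermat.Agent.S59.TW.H658.sectionRep_eq_of_rel hrel
    set n := (_root_.Fermat.Agent.S59.TW.H658.sectionRep_rel L g).choose
    set γ₀ := (_root_.Fermat.Agent.S59.TW.H658.sectionRep_rel L g).choose_spec.choose
    have hg : g = ModularGroup.T ^ n * _root_.Fermat.Agent.S59.TW.H658.sectionRep L g * ((γ₀ : L.Γ) : SL(2, ℤ)) :=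
      _root_.Fermat.Agent.S59.TW.H658.sectionVal_spec L g
    have h1 : g * (γ : SL(2, ℤ)) = ModularGroup.T ^ n * _root_.Fermat.Agent.S59.TW.H658.sectionRep L (g * (γ : SL(2, ℤ)))
        * (((γ₀ * γ : L.Γ)) : SL(2, ℤ)) := by
      rw [← hrep, Subgroup.coe_mul, ← mul_assoc, ← hg]
    rw [_root_.Fermat.Agent.S59.TW.H658.sectionVal_eq L φ hφ _ n (γ₀ * γ) h1, ofMul_mul, map_add]
    rfl
  refine ⟨_root_.Fermat.Agent.S59.TW.H658.sectionVal L φ, hmul, ?_, ?_⟩
  · intro g
    have hrel : _root_.Fermat.Agent.S59.TW.H658.sectionRel L g (ModularGroup.T * g) := ⟨1, 1, by simp⟩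
    have hrep : _root_.Fermat.Agent.S59.TW.H658.sectionRep L g = _root_.Fermat.Agent.S59.TW.H658.sectionRep L (ModularGroup.T * g) := _root_.Fermat.Agent.S59.TW.H658.sectionRep_eq_of_rel hrel
    set n := (_root_.Fermat.Agent.S59.TW.H658.sectionRep_rel L g).choose
    set γ₀ := (_root_.Fermat.Agent.S59.TW.H658.sectionRep_rel L g).choose_spec.choose
    have hg : g = ModularGroup.T ^ n * _root_.Fermat.Agent.S59.TW.H658.sectionRep L g * ((γ₀ : L.Γ) : SL(2, ℤ)) :=
      _root_.Fermat.Agent.S59.TW.H658.sectionVal_spec L g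
    have h1 : ModularGroup.T * g = ModularGroup.T ^ (1 + n) * _root_.Fermat.Agent.S59.TW.H658.sectionRep L (ModularGroup.T * g)
        * ((γ₀ : L.Γ) : SL(2, ℤ)) := by
      rw [← hrep, zpow_add, zpow_one, mul_assoc, mul_assoc, ← mul_assoc (ModularGroup.T ^ n),
        ← hg]
    rw [_root_.Fermat.Agent.S59.TW.H658.sectionVal_eq L φ hφ _ (1 + n) γ₀ h1]
    rfl
  · intro g
    have hneg : (-1 : SL(2, ℤ)) ∈ L.Γ := L.neg
    have h := hmul g ⟨-1, hneg⟩
    have h2 : g * ((⟨-1, hneg⟩ : L.Γ) : SL(2, ℤ)) = -g := by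
      simp
    rw [h2] at h
    rw [h]
    have htr : ((((⟨-1, hneg⟩ : L.Γ)) : SL(2, ℤ)) : Matrix (Fin 2) (Fin 2) ℤ).trace ^ 2
        = 4 := by
      simp
    rw [hφ ⟨-1, hneg⟩ htr, add_zero]

end Fermat.Agent.S59.TW.H658

end
-- ===== PACK-END S59/TW/H658/Section.lean

-- ===== PACK-BEGIN S59/TW/H653/Cycle.lean
section



/-!
# S59 / TW-HECKE (helper653): the cycle formula for the transfer of a coset system

* `sum_eq_zero_of_cycle_sums` : for a permutation `σ` of a finite type, a sum over the whole type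
  vanishes as soon as the sums over all cycles vanish;
* `IsCosetSystem.act_pow`, `IsCosetSystem.map_coc_pow` : iterates of the action and the additive
  cocycle formula `φ (coc i (g ^ n)) = ∑_{k < n} φ (coc (i · g ^ k) g)`;
* `IsCosetSystem.transfer_eq_zero_of_cycles` : if `φ` kills every `c` with
  `ρ i * ι' (g ^ m) = ι c * ρ i` (`m ≥ 1`), then the transfer of `φ` kills `g`.
-/

set_option autoImplicit false

namespace Fermat.Agent.S59.TW.H653

open Fermat.Agent.S41.H761

section Perm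

variable {I A : Type*} [AddCommGroup A]

theorem isPeriodicPt_perm [Finite I] (σ : Equiv.Perm I) (i : I) :
    0 < Function.minimalPeriod σ i := by
  have h1 : 0 < orderOf σ := orderOf_pos σ
  have h2 : Function.IsPeriodicPt σ (orderOf σ) i := by
    show (⇑σ)^[orderOf σ] i = i
    rw [Equiv.Perm.iterate_eq_pow, pow_orderOf_eq_one]
    rfl
  exact h2.minimalPeriod_pos h1

theorem sum_eq_zero_of_cycle_sums_aux [Finite I] (σ : Equiv.Perm I) (f : I → A)
    (H : ∀ i, ∑ k ∈ Finset.range (Function.minimalPeriod σ i), f ((⇑σ)^[k] i) = 0) :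
    ∀ s : Finset I, (∀ i ∈ s, σ i ∈ s) → ∑ i ∈ s, f i = 0 := by
  classical
  intro s
  induction s using Finset.strongInduction with
  | H s ih =>
    intro hs
    rcases s.eq_empty_or_nonempty with rfl | ⟨i₀, hi₀⟩
    · simp
    set m := Function.minimalPeriod σ i₀ with hm
    have hmpos : 0 < m := isPeriodicPt_perm σ i₀
    have hper : (⇑σ)^[m] i₀ = i₀ := Function.iterate_minimalPeriod
    set o : Finset I := (Finset.range m).image (fun k => (⇑σ)^[k] i₀) with ho
    have hiter : ∀ k, (⇑σ)^[k] i₀ ∈ s := by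
      intro k
      induction k with
      | zero => exact hi₀
      | succ k ihk =>
        rw [Function.iterate_succ_apply']
        exact hs _ ihk
    have hos : o ⊆ s := by
      intro j hj
      obtain ⟨k, -, rfl⟩ := Finset.mem_image.mp hj
      exact hiter k
    have hi₀o : i₀ ∈ o := Finset.mem_image.mpr ⟨0, Finset.mem_range.mpr hmpos, rfl⟩
    have hmem : ∀ k, (⇑σ)^[k] i₀ ∈ o := by
      intro k
      refine Finset.mem_image.mpr ⟨k % m, Finset.mem_range.mpr (Nat.mod_lt _ hmpos), ?_⟩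
      exact (Function.iterate_mod_minimalPeriod_eq (f := ⇑σ) (x := i₀) (n := k))
    have hsd : ∀ i ∈ s \ o, σ i ∈ s \ o := by
      intro i hi
      obtain ⟨his, hio⟩ := Finset.mem_sdiff.mp hi
      refine Finset.mem_sdiff.mpr ⟨hs i his, fun hσ => hio ?_⟩
      obtain ⟨k, -, hk⟩ := Finset.mem_image.mp hσ
      -- `σ i = σ^k i₀`, so `i = σ^(k + m - 1) i₀`
      have h1 : i = (⇑σ)^[k + (m - 1)] i₀ := by
        apply σ.injective
        rw [← hk, ← Function.iterate_succ_apply' (⇑σ)]
        have : (k + (m - 1)).succ = k + m := by omega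
        rw [this, Function.iterate_add_apply, hper]
      rw [h1]
      exact hmem _
    have hlt : s \ o ⊂ s := by
      refine ⟨Finset.sdiff_subset, fun hsub => ?_⟩
      have := hsub hi₀
      exact (Finset.mem_sdiff.mp this).2 hi₀o
    have h2 := ih (s \ o) hlt hsd
    have h3 : ∑ i ∈ o, f i = 0 := by
      rw [ho, Finset.sum_image]
      · exact H i₀
      · intro a ha b hb hab
        exact (Function.iterate_eq_iterate_iff_of_lt_minimalPeriod
          (Finset.mem_range.mp ha) (Finset.mem_range.mp hb)).mp hab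
    rw [← Finset.sum_sdiff hos, h2, h3, add_zero]

/-- For a permutation `σ` of a finite type, a sum over the whole type vanishes as soon as the
sums over all cycles vanish. -/
theorem sum_eq_zero_of_cycle_sums [Fintype I] (σ : Equiv.Perm I) (f : I → A)
    (H : ∀ i, ∑ k ∈ Finset.range (Function.minimalPeriod σ i), f ((⇑σ)^[k] i) = 0) :
    ∑ i, f i = 0 :=
  sum_eq_zero_of_cycle_sums_aux σ f H Finset.univ (fun _ _ => Finset.mem_univ _)

end Perm

section System

variable {𝒢 Γ Γ' : Type*} [Group 𝒢] [Group Γ] [Group Γ'] {I : Type*}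
variable {ι : Γ →* 𝒢} {ι' : Γ' →* 𝒢} {ρ : I → 𝒢}

theorem act_pow (h : IsCosetSystem ι ι' ρ) (i : I) (g : Γ') (n : ℕ) :
    h.act i (g ^ n) = (⇑(h.actEquiv g))^[n] i := by
  induction n with
  | zero => rw [pow_zero, h.act_one]; rfl
  | succ n ih =>
    rw [pow_succ, h.act_mul, ih, Function.iterate_succ_apply']
    rfl

variable {A : Type*} [AddCommGroup A]

/-- The additive cocycle formula for powers. -/
theorem map_coc_pow (h : IsCosetSystem ι ι' ρ) (φ : Additive Γ →+ A) (i : I) (g : Γ') (n : ℕ) :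
    φ (Additive.ofMul (h.coc i (g ^ n))) =
      ∑ k ∈ Finset.range n, φ (Additive.ofMul (h.coc ((⇑(h.actEquiv g))^[k] i) g)) := by
  induction n with
  | zero => simp [h.coc_one]
  | succ n ih =>
    rw [pow_succ, h.coc_mul, ofMul_mul, map_add, ih, Finset.sum_range_succ, act_pow]

/-- **Cycle formula, vanishing form.**  If `φ` kills every `c` such that
`ρ i * ι' (g ^ m) = ι c * ρ i` for some `i` and `m ≥ 1`, then the transfer of `φ` kills `g`. -/
theorem transfer_eq_zero_of_cycles [Fintype I] (h : IsCosetSystem ι ι' ρ) (φ : Additive Γ →+ A)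
    (g : Γ')
    (H : ∀ (i : I) (m : ℕ) (c : Γ), 0 < m → ρ i * ι' (g ^ m) = ι c * ρ i →
      φ (Additive.ofMul c) = 0) :
    h.transfer φ (Additive.ofMul g) = 0 := by
  rw [h.transfer_apply]
  refine sum_eq_zero_of_cycle_sums (h.actEquiv g) _ fun i => ?_
  rw [← map_coc_pow h φ i g]
  set m := Function.minimalPeriod (⇑(h.actEquiv g)) i with hm
  have hmpos : 0 < m := isPeriodicPt_perm _ i
  have hact : h.act i (g ^ m) = i := by
    rw [act_pow]
    exact Function.iterate_minimalPeriod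
  have hs := h.spec i (g ^ m)
  rw [hact] at hs
  exact H i m _ hmpos hs

end System

end Fermat.Agent.S59.TW.H653

end
-- ===== PACK-END S59/TW/H653/Cycle.lean

-- ===== PACK-BEGIN S19/Glue.lean
section


/-!
# Cell A3 (S19) — top glue: frozen S19 from the three blocks ORD, FIN, ORDER
-/

set_option autoImplicit false

namespace Fermat.Agent.S19

open ModularCurve

/-- The frozen S19 conclusion, for fixed `N, ℓ, k`. -/
def FrozenConclusion (p : ℕ) (ℓ : ℕ) (k : ℕ) : Prop :=
  ∃ (H : Type) (_ : CommRing H) (_ : HopfAlgebra (GaloisRep.ratLocalizedAt ℓ) H),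
    Module.Finite (GaloisRep.ratLocalizedAt ℓ) H ∧ Module.Flat (GaloisRep.ratLocalizedAt ℓ) H ∧
    Coalgebra.IsCocomm (GaloisRep.ratLocalizedAt ℓ) H ∧
    ∃ e : WithConv (H →ₐ[GaloisRep.ratLocalizedAt ℓ] AlgebraicClosure ℚ) ≃
        ↥(Submodule.torsionBy ℤ (JZero p) ((ℓ : ℤ) ^ k)),
      (∀ f g, e (f * g) = e f + e g) ∧
      ∀ (σ : AlgebraicClosure ℚ ≃ₐ[ℚ] AlgebraicClosure ℚ)
        (f g : WithConv (H →ₐ[GaloisRep.ratLocalizedAt ℓ] AlgebraicClosure ℚ)),
        (∀ h : H, g h = σ (f h)) → ((e g : JZero p)) = σ • (e f : JZero p)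

theorem frozen_of_hopfModel (p ℓ k : ℕ) (h : HopfModel ℓ (Tors p ℓ k) (torsAct p ℓ k)) :
    FrozenConclusion p ℓ k := by
  obtain ⟨H, i1, i2, hfin, hflat, hco, e, hmul, hgal⟩ := h
  refine ⟨H, i1, i2, hfin, hflat, hco, e, hmul, ?_⟩
  intro σ f g hfg
  have := hgal σ f g hfg
  rw [this]
  rfl

/-- **Top glue**: frozen S19 from ORD + FIN + ORDER. -/
theorem S19_of_blocks (hord : OrdStatement) (hfin : FinStatement) (horder : OrderStatement)
    (p : ℕ) [NeZero p] (ℓ : ℕ) [Fact ℓ.Prime] (hℓp : ¬ ℓ ∣ p) (k : ℕ) :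
    FrozenConclusion p ℓ k := by
  haveI : Finite (Tors p ℓ k) := hfin p ℓ k
  exact frozen_of_hopfModel p ℓ k (hord ℓ (Tors p ℓ k) (torsAct p ℓ k) (horder p ℓ hℓp k))

end Fermat.Agent.S19

end
-- ===== PACK-END S19/Glue.lean

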