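import Mathlib
import Mathlib.NumberTheory.ModularForms.QExpansion
import Mathlib.NumberTheory.ModularForms.CongruenceSubgroups
import Mathlib.RingTheory.PowerSeries.Expand
import Fermat.Prelude.Thm_CongruenceSubgroup_one_mem_strictPeriods_Gamma0
import Fermat.Prelude.Def_ModularForm_HeckeOperator
import Fermat.Agent.Pack.S43MC.G0E0L0
import Fermat.Agent.Pack.S43MC.G0E1L2
import Fermat.Agent.Pack.S43MC.G0E2L3
import Fermat.Agent.Pack.S44C.G0E4L1
import Fermat.Agent.Pack.S43MC.G0E2L1
import Fermat.Agent.Pack.S43MC.G0E2L0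
import Fermat.Agent.Pack.S44C.G0E4L0
import Fermat.Agent.Pack.S44C.G0E0L1
import Fermat.Agent.Pack.S43MC.G0E3L3
import Fermat.Agent.Pack.S43MC.G0E3L1
import Fermat.Agent.Pack.S43MC.G0E4L3
import Fermat.Agent.Pack.Fast891

-- ===== PACK-BEGIN S25/H250/DegreeBound.lean
section
/-
S25, block CECH (squad S25/S10), leaf K1a (helper250): the degree bound.

`exists_fg_ge_H0` : for an operator-style two-chart Cech datum whose two chart modules are
equivariant retracts of `A[X]^n` and whose restriction maps are injective, the kernel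
`H⁰(L(m∞))` of the twisted Cech differential is contained in a finitely generated
`A`-submodule of `N0 × N1`.

Mathlib-only commutative algebra on top of the frozen definitions in `H10/CechDefs.lean`.
-/


set_option autoImplicit false

namespace Fermat.Agent.S25.H250

open Polynomial
open Fermat.Agent.S25.H10

universe u v

variable {A : Type u} [CommRing A]

/-- Vectors of polynomials all of whose coordinates have degree `≤ d`. -/
noncomputable def degBox (A : Type u) [CommRing A] (n d : ℕ) : Submodule A (Fin n → A[X]) :=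
  Submodule.pi Set.univ (fun _ => Polynomial.degreeLE A (d : WithBot ℕ))

theorem mem_degBox {n d : ℕ} {w : Fin n → A[X]} :
    w ∈ degBox A n d ↔ ∀ j, (w j).degree ≤ (d : WithBot ℕ) := by
  simp [degBox, Polynomial.mem_degreeLE]

theorem degBox_fg (n d : ℕ) : (degBox A n d).FG := by
  classical
  refine Submodule.fg_pi (fun _ => ?_)
  rw [Polynomial.degreeLE_eq_span_X_pow]
  exact Submodule.fg_span (Finset.finite_toSet _)

theorem degBox_mono {n d d' : ℕ} (h : d ≤ d') : degBox A n d ≤ degBox A n d' := by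
  intro w hw
  rw [mem_degBox] at hw ⊢
  intro j
  exact (hw j).trans (by exact_mod_cast h)

theorem exists_mem_degBox (n : ℕ) (w : Fin n → A[X]) : ∃ d, w ∈ degBox A n d := by
  refine ⟨Finset.univ.sup (fun j => (w j).natDegree), ?_⟩
  rw [mem_degBox]
  intro j
  refine (Polynomial.degree_le_natDegree).trans ?_
  have : (w j).natDegree ≤ Finset.univ.sup (fun j => (w j).natDegree) :=
    Finset.le_sup (f := fun j => (w j).natDegree) (Finset.mem_univ j)
  exact_mod_cast this

theorem X_pow_smul_mem_degBox {n d : ℕ} (k : ℕ) {w : Fin n → A[X]} (h : w ∈ degBox A n d) :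
    ((X : A[X]) ^ k) • w ∈ degBox A n (k + d) := by
  rw [mem_degBox] at h ⊢
  intro j
  rw [Pi.smul_apply, smul_eq_mul, Polynomial.degree_le_iff_coeff_zero]
  intro i hi
  have hi' : k + d < i := by exact_mod_cast hi
  obtain ⟨i', rfl⟩ : ∃ i', i = i' + k := ⟨i - k, by omega⟩
  rw [Polynomial.coeff_X_pow_mul]
  refine (Polynomial.degree_le_iff_coeff_zero _ _).1 (h j) i' ?_
  have : d < i' := by omega
  exact_mod_cast this

theorem mem_degBox_of_X_pow_smul {n d : ℕ} (k : ℕ) {w : Fin n → A[X]}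
    (h : ((X : A[X]) ^ k) • w ∈ degBox A n (k + d)) : w ∈ degBox A n d := by
  rw [mem_degBox] at h ⊢
  intro j
  rw [Polynomial.degree_le_iff_coeff_zero]
  intro i hi
  have hi' : d < i := by exact_mod_cast hi
  have hj := (Polynomial.degree_le_iff_coeff_zero _ _).1 (h j) (i + k)
    (by
      have : k + d < i + k := by omega
      exact_mod_cast this)
  rwa [Pi.smul_apply, smul_eq_mul, Polynomial.coeff_X_pow_mul] at hj

section Equivariance

variable {N : Type v} [AddCommGroup N] [Module A N]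

theorem iota_pow_of_equivariant (E : Module.End A N) {n : ℕ} (ι : N →ₗ[A] (Fin n → A[X]))
    (hι : ∀ v, ι (E v) = (X : A[X]) • ι v) (k : ℕ) (v : N) :
    ι ((E ^ k) v) = ((X : A[X]) ^ k) • ι v := by
  induction k generalizing v with
  | zero => simp
  | succ k ih =>
    rw [pow_succ', Module.End.mul_apply, hι, ih, pow_succ', mul_smul]

theorem pi_pow_of_equivariant (E : Module.End A N) {n : ℕ} (π : (Fin n → A[X]) →ₗ[A] N)
    (hπ : ∀ w, π ((X : A[X]) • w) = E (π w)) (k : ℕ) (w : Fin n → A[X]) :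
    π (((X : A[X]) ^ k) • w) = (E ^ k) (π w) := by
  induction k generalizing w with
  | zero => simp
  | succ k ih =>
    rw [pow_succ', mul_smul, hπ, ih, pow_succ', Module.End.mul_apply]

end Equivariance

variable {N0 N1 N01 : Type v}
  [AddCommGroup N0] [AddCommGroup N1] [AddCommGroup N01]
  [Module A N0] [Module A N1] [Module A N01]

/-- The Cech datum with the roles of the two charts exchanged. -/
def cechSwap (D : CechOps A N0 N1 N01) : CechOps A N1 N0 N01 where
  X0 := D.Y1
  Y1 := D.X0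
  T := D.Tinv
  Tinv := D.T
  r0 := D.r1
  r1 := D.r0
  T_mul_Tinv := D.Tinv_mul_T
  Tinv_mul_T := D.T_mul_Tinv
  r0_X0 := D.r1_Y1
  r1_Y1 := D.r0_X0
  loc0 := D.loc1
  loc1 := D.loc0

/-- Uniform transport: a section on the second chart of "degree `≤ e`" becomes, after
multiplication by `x ^ (K + e)`, a section on the first chart of "degree `≤ e + d`". -/
theorem exists_transport_bound (D : CechOps A N0 N1 N01) {n0 n1 : ℕ}
    (ι0 : N0 →ₗ[A] (Fin n0 → A[X])) (hι0 : ∀ v, ι0 (D.X0 v) = (X : A[X]) • ι0 v)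
    (π1 : (Fin n1 → A[X]) →ₗ[A] N1) (hπ1 : ∀ w, π1 ((X : A[X]) • w) = D.Y1 (π1 w)) :
    ∃ K d : ℕ, ∀ (e : ℕ) (w : Fin n1 → A[X]), w ∈ degBox A n1 e →
      ∃ v : N0, ι0 v ∈ degBox A n0 (e + d) ∧ (D.T ^ (K + e)) (D.r1 (π1 w)) = D.r0 v := by
  classical
  have hloc : ∀ j : Fin n1, ∃ (k : ℕ) (n : N0),
      (D.T ^ k) (D.r1 (π1 (Pi.single j 1))) = D.r0 n := fun j => D.loc0 _
  choose k nn hk using hloc
  have hK : ∀ j, k j ≤ Finset.univ.sup k := fun j => Finset.le_sup (Finset.mem_univ j)
  generalize Finset.univ.sup k = K at hK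
  have hnn' : ∀ j, (D.T ^ K) (D.r1 (π1 (Pi.single j 1))) =
      D.r0 ((D.X0 ^ (K - k j)) (nn j)) := by
    intro j
    rw [D.r0_X0_pow, ← hk j, ← Module.End.mul_apply, ← pow_add, Nat.sub_add_cancel (hK j)]
  have hdeg : ∃ d, ∀ j, ι0 ((D.X0 ^ (K - k j)) (nn j)) ∈ degBox A n0 d := by
    choose dd hdd using fun j => exists_mem_degBox n0 (ι0 ((D.X0 ^ (K - k j)) (nn j)))
    exact ⟨Finset.univ.sup dd,
      fun j => degBox_mono (Finset.le_sup (Finset.mem_univ j)) (hdd j)⟩
  obtain ⟨d, hd⟩ := hdeg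
  refine ⟨K, d, fun e => ?_⟩
  have key : degBox A n1 e ≤
      Submodule.comap ((D.T ^ (K + e)) ∘ₗ D.r1 ∘ₗ π1)
        (Submodule.map D.r0 (Submodule.comap ι0 (degBox A n0 (e + d)))) := by
    rw [degBox, ← Submodule.iSup_map_single]
    refine iSup_le fun j => ?_
    rw [Submodule.map_le_iff_le_comap, Polynomial.degreeLE_eq_span_X_pow, Submodule.span_le]
    rintro _ hx
    simp only [Finset.coe_image, Set.mem_image, Finset.mem_coe, Finset.mem_range] at hx
    obtain ⟨i, hi, rfl⟩ := hx
    simp only [SetLike.mem_coe, Submodule.mem_comap, LinearMap.coe_comp, Function.comp_apply,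
      Submodule.mem_map, LinearMap.coe_single]
    refine ⟨(D.X0 ^ (e - i)) ((D.X0 ^ (K - k j)) (nn j)), ?_, ?_⟩
    · rw [iota_pow_of_equivariant D.X0 ι0 hι0]
      exact degBox_mono (by omega) (X_pow_smul_mem_degBox (e - i) (hd j))
    · have h1 : (Pi.single j ((X : A[X]) ^ i) : Fin n1 → A[X]) =
          ((X : A[X]) ^ i) • (Pi.single j 1 : Fin n1 → A[X]) := by
        rw [← Pi.single_smul, smul_eq_mul, mul_one]
      rw [h1, pi_pow_of_equivariant D.Y1 π1 hπ1, D.r1_Y1_pow, D.r0_X0_pow, ← hnn' j]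
      have h2 : K + e = (e - i) + K + i := by omega
      rw [h2, pow_add, Module.End.mul_apply, D.T_pow_Tinv_pow_apply, pow_add,
        Module.End.mul_apply]
  intro w hw
  obtain ⟨v, hv, hv'⟩ := key hw
  exact ⟨v, hv, hv'.symm⟩

/-- The first components of `H⁰(L(m∞))` lie in a finitely generated submodule. -/
theorem exists_fg_fst_H0 (D : CechOps A N0 N1 N01) (h0 : IsFGProj D.X0) (h1 : IsFGProj D.Y1)
    (hr0 : Function.Injective D.r0) (m : ℕ) :
    ∃ M0 : Submodule A N0, M0.FG ∧ ∀ p ∈ D.H0 m, p.1 ∈ M0 := by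
  obtain ⟨n0, ι0, π0, hπι0, hι0, -⟩ := h0
  obtain ⟨n1, ι1, π1, hπι1, -, hπ1⟩ := h1
  obtain ⟨K, d, hA⟩ := exists_transport_bound D ι0 hι0 π1 hπ1
  refine ⟨Submodule.map π0 (degBox A n0 (m + d)), (degBox_fg n0 (m + d)).map π0, ?_⟩
  rintro ⟨a, b⟩ hab
  rw [CechOps.mem_ker_d] at hab
  simp only at hab
  obtain ⟨e, he⟩ := exists_mem_degBox n1 (ι1 b)
  obtain ⟨v, hv, hv'⟩ := hA e (ι1 b) he
  have hb : π1 (ι1 b) = b := by
    have := LinearMap.congr_fun hπι1 b
    simpa using this
  rw [hb] at hv'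
  have h2 : (D.X0 ^ (K + e)) a = (D.X0 ^ m) v := by
    apply hr0
    rw [D.r0_X0_pow, D.r0_X0_pow, hab, ← hv', ← Module.End.mul_apply, ← Module.End.mul_apply,
      ← pow_add, ← pow_add, add_comm]
  have h3 : ((X : A[X]) ^ (K + e)) • ι0 a = ((X : A[X]) ^ m) • ι0 v := by
    rw [← iota_pow_of_equivariant D.X0 ι0 hι0, ← iota_pow_of_equivariant D.X0 ι0 hι0, h2]
  have h4 : ι0 a ∈ degBox A n0 (m + d) := by
    apply mem_degBox_of_X_pow_smul (K + e)
    rw [h3]
    exact degBox_mono (by omega) (X_pow_smul_mem_degBox m hv)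
  refine ⟨ι0 a, h4, ?_⟩
  have := LinearMap.congr_fun hπι0 a
  simpa using this

/-- K1a (degree bound). `H⁰(L(m∞))` is contained in a finitely generated `A`-submodule. -/
theorem exists_fg_ge_H0 (D : CechOps A N0 N1 N01) (h0 : IsFGProj D.X0) (h1 : IsFGProj D.Y1)
    (hr0 : Function.Injective D.r0) (hr1 : Function.Injective D.r1)
    (m : ℕ) : ∃ M : Submodule A (N0 × N1), M.FG ∧ D.H0 m ≤ M := by
  obtain ⟨M0, hM0, h0'⟩ := exists_fg_fst_H0 D h0 h1 hr0 m
  obtain ⟨M1, hM1, h1'⟩ := exists_fg_fst_H0 (cechSwap D) h1 h0 hr1 m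
  refine ⟨M0.prod M1, hM0.prod hM1, ?_⟩
  rintro ⟨a, b⟩ hab
  refine ⟨h0' _ hab, h1' (b, a) ?_⟩
  rw [CechOps.mem_ker_d] at hab ⊢
  show D.r1 b = (D.Tinv ^ m) (D.r0 a)
  simp only at hab
  rw [hab]
  exact (D.Tinv_pow_T_pow_apply m _).symm

end Fermat.Agent.S25.H250

end
-- ===== PACK-END S25/H250/DegreeBound.lean

-- ===== PACK-BEGIN S25/H850/K1a.lean
section


/-!
# S25 / block CECH, leaf K1a: the degree bound

`exists_fg_ge_H0` (exact statement of helper10's `CechSkel`): for a two-chart datum `D` with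
`N0`, `N1` retracts of `A[X]^n` (`IsFGProj`) and injective restriction maps, the kernel
`H⁰(L(m∞))` of the twisted differential is contained in a finitely generated `A`-submodule of
`N0 × N1`.  Polynomial-only proof (no extension of the coordinates to `N01`).
-/

set_option autoImplicit false

namespace Fermat.Agent.S25.H850

open Polynomial Fermat.Agent.S25.H10

universe u v

variable {A : Type u} [CommRing A]

/-- Vectors of polynomials all of whose coordinates have degree `≤ d`. -/
noncomputable def degLE (A : Type u) [CommRing A] (n d : ℕ) : Submodule A (Fin n → A[X]) :=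
  Submodule.pi Set.univ fun _ => Polynomial.degreeLE A d

theorem mem_degLE_iff {n d : ℕ} (w : Fin n → A[X]) :
    w ∈ degLE A n d ↔ ∀ i k, d < k → (w i).coeff k = 0 := by
  simp only [degLE, Submodule.mem_pi, Set.mem_univ, true_imp_iff, Polynomial.mem_degreeLE,
    Polynomial.degree_le_iff_coeff_zero]
  constructor
  · intro h i k hk
    exact h i k (by exact_mod_cast hk)
  · intro h i k hk
    exact h i k (by exact_mod_cast hk)

theorem degLE_fg (n d : ℕ) : (degLE A n d).FG := by
  classical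
  refine Submodule.fg_pi fun _ => ?_
  rw [Polynomial.degreeLE_eq_span_X_pow]
  exact Submodule.fg_span (Finset.finite_toSet _)

theorem degLE_mono {n d d' : ℕ} (h : d ≤ d') : degLE A n d ≤ degLE A n d' := by
  intro w hw
  rw [mem_degLE_iff] at hw ⊢
  exact fun i k hk => hw i k (lt_of_le_of_lt h hk)

theorem exists_mem_degLE {n : ℕ} (w : Fin n → A[X]) : ∃ e, w ∈ degLE A n e := by
  refine ⟨Finset.univ.sup fun i => (w i).natDegree, ?_⟩
  rw [mem_degLE_iff]
  intro i k hk
  apply Polynomial.coeff_eq_zero_of_natDegree_lt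
  exact lt_of_le_of_lt (Finset.le_sup (f := fun i => (w i).natDegree) (Finset.mem_univ i)) hk

theorem X_pow_smul_mem_degLE {n d : ℕ} (k : ℕ) {w : Fin n → A[X]} (hw : w ∈ degLE A n d) :
    (X ^ k : A[X]) • w ∈ degLE A n (d + k) := by
  rw [mem_degLE_iff] at hw ⊢
  intro i j hj
  rw [Pi.smul_apply, smul_eq_mul, Polynomial.coeff_X_pow_mul']
  split_ifs with h
  · exact hw i _ (by omega)
  · rfl

theorem mem_degLE_of_X_pow_smul_mem {n d : ℕ} (k : ℕ) {w : Fin n → A[X]}
    (hw : (X ^ k : A[X]) • w ∈ degLE A n (d + k)) : w ∈ degLE A n d := by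
  rw [mem_degLE_iff] at hw ⊢
  intro i j hj
  have := hw i (j + k) (by omega)
  rwa [Pi.smul_apply, smul_eq_mul, Polynomial.coeff_X_pow_mul] at this

section FGProj

variable {N : Type v} [AddCommGroup N] [Module A N] {E : Module.End A N}

theorem ι_pow_apply {n : ℕ} {ι : N →ₗ[A] (Fin n → A[X])}
    (hι : ∀ v, ι (E v) = (X : A[X]) • ι v) (k : ℕ) (v : N) :
    ι ((E ^ k) v) = (X ^ k : A[X]) • ι v := by
  induction k generalizing v with
  | zero => simp
  | succ k ih => rw [pow_succ', Module.End.mul_apply, hι, ih, pow_succ', mul_smul]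

theorem π_pow_smul {n : ℕ} {π : (Fin n → A[X]) →ₗ[A] N}
    (hπ : ∀ w, π ((X : A[X]) • w) = E (π w)) (k : ℕ) (w : Fin n → A[X]) :
    π ((X ^ k : A[X]) • w) = (E ^ k) (π w) := by
  induction k generalizing w with
  | zero => simp
  | succ k ih => rw [pow_succ', mul_smul, hπ, ih, pow_succ', Module.End.mul_apply]

theorem single_X_pow {n : ℕ} (j : Fin n) (k : ℕ) :
    (Pi.single j (X ^ k : A[X]) : Fin n → A[X]) = (X ^ k : A[X]) • Pi.single j (1 : A[X]) := by
  funext i
  by_cases h : i = j
  · subst h; simp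
  · simp [Pi.single_eq_of_ne h]

/-- To check that a linear map sends `degLE A n e` into a submodule it suffices to check the
vectors `X ^ k • e_j`, `k ≤ e`. -/
theorem degLE_le_comap {n e : ℕ} {P : Type*} [AddCommGroup P] [Module A P]
    (Φ : (Fin n → A[X]) →ₗ[A] P) (S : Submodule A P)
    (h : ∀ (j : Fin n) (k : ℕ), k ≤ e → Φ ((X ^ k : A[X]) • Pi.single j (1 : A[X])) ∈ S) :
    degLE A n e ≤ S.comap Φ := by
  classical
  intro w hw
  rw [Submodule.mem_comap]
  have hsum : w = ∑ j, (LinearMap.single A (fun _ : Fin n => A[X]) j) (w j) := by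
    simp only [LinearMap.coe_single]
    exact (Finset.univ_sum_single w).symm
  rw [hsum, map_sum]
  refine Submodule.sum_mem _ fun j _ => ?_
  have hwj : w j ∈ Polynomial.degreeLE A e := by
    have := hw
    simp only [degLE, Submodule.mem_pi, Set.mem_univ, true_imp_iff] at this
    exact this j
  have hle : Polynomial.degreeLE A e ≤
      S.comap (Φ ∘ₗ LinearMap.single A (fun _ : Fin n => A[X]) j) := by
    rw [Polynomial.degreeLE_eq_span_X_pow, Submodule.span_le]
    intro p hp
    simp only [Finset.coe_image, Finset.coe_range, Set.mem_image, Set.mem_Iio] at hp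
    obtain ⟨k, hk, rfl⟩ := hp
    simp only [SetLike.mem_coe, Submodule.mem_comap, LinearMap.coe_comp, Function.comp_apply,
      LinearMap.coe_single]
    rw [single_X_pow]
    exact h j k (by omega)
  exact hle hwj

end FGProj

variable {N0 N1 N01 : Type v}
  [AddCommGroup N0] [AddCommGroup N1] [AddCommGroup N01]
  [Module A N0] [Module A N1] [Module A N01]

/-- The datum with the two charts exchanged. -/
def cechSwap (D : CechOps A N0 N1 N01) : CechOps A N1 N0 N01 where
  X0 := D.Y1
  Y1 := D.X0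
  T := D.Tinv
  Tinv := D.T
  r0 := D.r1
  r1 := D.r0
  T_mul_Tinv := D.Tinv_mul_T
  Tinv_mul_T := D.T_mul_Tinv
  r0_X0 := D.r1_Y1
  r1_Y1 := D.r0_X0
  loc0 := D.loc1
  loc1 := D.loc0

theorem swap_mem_ker_d (D : CechOps A N0 N1 N01) (m : ℕ) {p : N0 × N1}
    (hp : p ∈ LinearMap.ker (D.d m)) : (p.2, p.1) ∈ LinearMap.ker ((cechSwap D).d m) := by
  rw [CechOps.mem_ker_d] at hp ⊢
  show D.r1 p.2 = (D.Tinv ^ m) (D.r0 p.1)
  rw [hp, D.Tinv_pow_T_pow_apply]

/-- A uniform exponent clearing the denominators of finitely many elements. -/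
theorem exists_pow_r1_eq_r0 (D : CechOps A N0 N1 N01) {n : ℕ} (g : Fin n → N1) :
    ∃ K : ℕ, ∀ j, ∃ a : N0, (D.T ^ K) (D.r1 (g j)) = D.r0 a := by
  choose k a hka using fun j => D.loc0 (D.r1 (g j))
  refine ⟨Finset.univ.sup k, fun j => ⟨(D.X0 ^ (Finset.univ.sup k - k j)) (a j), ?_⟩⟩
  have hle : k j ≤ Finset.univ.sup k := Finset.le_sup (Finset.mem_univ j)
  rw [D.r0_X0_pow, ← hka j, ← Module.End.mul_apply, ← pow_add, Nat.sub_add_cancel hle]

/-- **Degree bound, first chart.** -/
theorem exists_fg_fst (D : CechOps A N0 N1 N01) (h0 : IsFGProj D.X0) (h1 : IsFGProj D.Y1)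
    (hr0 : Function.Injective D.r0) (m : ℕ) :
    ∃ M0 : Submodule A N0, M0.FG ∧ ∀ p : N0 × N1, p ∈ LinearMap.ker (D.d m) → p.1 ∈ M0 := by
  obtain ⟨n0, ι0, π0, hπι0, hι0, hπ0⟩ := h0
  obtain ⟨n1, ι1, π1, hπι1, hι1, hπ1⟩ := h1
  -- generators of `N1` and their numerators in `N0`
  obtain ⟨K, hK⟩ := exists_pow_r1_eq_r0 D fun j : Fin n1 => π1 (Pi.single j (1 : A[X]))
  choose a0 ha0 using hK
  -- a uniform degree bound for the numerators
  have hD : ∃ d, ∀ j, ι0 (a0 j) ∈ degLE A n0 d := by
    choose e he using fun j => exists_mem_degLE (ι0 (a0 j))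
    exact ⟨Finset.univ.sup e, fun j => degLE_mono (Finset.le_sup (Finset.mem_univ j)) (he j)⟩
  obtain ⟨d, hd⟩ := hD
  refine ⟨(degLE A n0 (d + m)).map π0, (degLE_fg n0 (d + m)).map π0, ?_⟩
  rintro ⟨a, b⟩ hab
  rw [CechOps.mem_ker_d] at hab
  simp only at hab
  -- the degree of `b`
  obtain ⟨e, he⟩ := exists_mem_degLE (ι1 b)
  -- key claim: `T^e T^K r1 b` is the restriction of an element of degree `≤ d + e`
  have key : degLE A n1 e ≤
      (((degLE A n0 (d + e)).comap ι0).map D.r0).comap ((D.T ^ e) ∘ₗ (D.T ^ K) ∘ₗ D.r1 ∘ₗ π1) := by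
    refine degLE_le_comap _ _ fun j k hk => ?_
    simp only [LinearMap.coe_comp, Function.comp_apply]
    rw [π_pow_smul hπ1, D.r1_Y1_pow]
    refine ⟨(D.X0 ^ (e - k)) (a0 j), ?_, ?_⟩
    · rw [SetLike.mem_coe, Submodule.mem_comap, ι_pow_apply hι0]
      exact degLE_mono (by omega) (X_pow_smul_mem_degLE (e - k) (hd j))
    · rw [D.r0_X0_pow, ← ha0 j]
      have hcomm : (D.T ^ K) ((D.Tinv ^ k) (D.r1 (π1 (Pi.single j 1)))) =
          (D.Tinv ^ k) ((D.T ^ K) (D.r1 (π1 (Pi.single j 1)))) := by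
        rw [← Module.End.mul_apply, ← Module.End.mul_apply,
          (D.commute_T_Tinv.pow_pow K k).eq]
      rw [hcomm]
      conv_rhs => rw [← Nat.sub_add_cancel hk, pow_add, Module.End.mul_apply,
        D.T_pow_Tinv_pow_apply]
  obtain ⟨a', ha', hra'⟩ := key he
  rw [SetLike.mem_coe, Submodule.mem_comap] at ha'
  simp only [LinearMap.coe_comp, Function.comp_apply] at hra'
  have hb : π1 (ι1 b) = b := LinearMap.congr_fun hπι1 b
  rw [hb] at hra'
  -- compare in `N01` and use injectivity of `r0`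
  have hEq : (D.X0 ^ (e + K)) a = (D.X0 ^ m) a' := by
    apply hr0
    rw [D.r0_X0_pow, D.r0_X0_pow, hab, hra']
    simp only [← Module.End.mul_apply, ← pow_add]
    congr 2
    omega
  have h1 : (X ^ (e + K) : A[X]) • ι0 a ∈ degLE A n0 ((d + m) + (e + K)) := by
    rw [← ι_pow_apply hι0, hEq, ι_pow_apply hι0]
    exact degLE_mono (by omega) (X_pow_smul_mem_degLE m ha')
  have h2 : ι0 a ∈ degLE A n0 (d + m) := mem_degLE_of_X_pow_smul_mem _ h1
  exact ⟨ι0 a, h2, LinearMap.congr_fun hπι0 a⟩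

/-- **K1a (degree bound).** `H⁰(L(m∞))` is contained in a finitely generated `A`-submodule.
(Exact statement of `CechSkel.exists_fg_ge_H0`.) -/
theorem exists_fg_ge_H0 (D : CechOps A N0 N1 N01) (h0 : IsFGProj D.X0) (h1 : IsFGProj D.Y1)
    (hr0 : Function.Injective D.r0) (hr1 : Function.Injective D.r1)
    (m : ℕ) : ∃ M : Submodule A (N0 × N1), M.FG ∧ D.H0 m ≤ M := by
  obtain ⟨M0, hM0, h0'⟩ := exists_fg_fst D h0 h1 hr0 m
  obtain ⟨M1, hM1, h1'⟩ := exists_fg_fst (cechSwap D) h1 h0 hr1 m
  refine ⟨M0.prod M1, hM0.prod hM1, fun p hp => ⟨h0' p hp, ?_⟩⟩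
  exact h1' (p.2, p.1) (swap_mem_ker_d D m hp)

end Fermat.Agent.S25.H850

end
-- ===== PACK-END S25/H850/K1a.lean

-- ===== PACK-BEGIN S25/H325/GDCTensor.lean
section
/-
S25 helper (helper325), block GDC item 7: tensor product of gluing data, over the frozen
`DefsAlg.lean`.  Pure algebra.
-/




set_option autoImplicit false

universe u

open TensorProduct

namespace Fermat.Agent.S25.H325

open Fermat.Agent.S25

noncomputable section

section TensorBaseChange

variable {R S : Type*} [CommRing R] [CommRing S] [Algebra R S]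
  {M : Type*} [AddCommGroup M] [Module R M]
  {M' : Type*} [AddCommGroup M'] [Module R M']
  {P : Type*} [AddCommGroup P] [Module R P] [Module S P] [IsScalarTower R S P]
  {P' : Type*} [AddCommGroup P'] [Module R P'] [Module S P'] [IsScalarTower R S P']

/-- The map `M ⊗[R] M' → P ⊗[S] P'`, `m ⊗ m' ↦ α m ⊗ α' m'`. -/
def tensorRes (α : M →ₗ[R] P) (α' : M' →ₗ[R] P') : M ⊗[R] M' →ₗ[R] P ⊗[S] P' :=
  TensorProduct.lift
    (LinearMap.mk₂ R (fun m m' => α m ⊗ₜ[S] α' m')
      (fun m₁ m₂ m' => by simp only [map_add, TensorProduct.add_tmul])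
      (fun c m m' => by simp only [map_smul, TensorProduct.smul_tmul'])
      (fun m m₁' m₂' => by simp only [map_add, TensorProduct.tmul_add])
      (fun c m m' => by
        simp only [map_smul]
        rw [← algebraMap_smul S c (α' m'), TensorProduct.tmul_smul, algebraMap_smul]))

@[simp] theorem tensorRes_tmul (α : M →ₗ[R] P) (α' : M' →ₗ[R] P') (m : M) (m' : M') :
    tensorRes (S := S) α α' (m ⊗ₜ[R] m') = α m ⊗ₜ[S] α' m' := by
  simp [tensorRes]

/-- The tensor product of two base changes is a base change. -/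
theorem isBaseChange_tensorRes {α : M →ₗ[R] P} (j : IsBaseChange S α) {α' : M' →ₗ[R] P'}
    (j' : IsBaseChange S α') : IsBaseChange S (tensorRes (S := S) α α') := by
  refine IsBaseChange.of_equiv
    ((AlgebraTensorModule.distribBaseChange R S M M') ≪≫ₗ
      (TensorProduct.congr j.equiv j'.equiv)) ?_
  intro x
  induction x using TensorProduct.induction_on with
  | zero => simp
  | tmul m m' =>
    simp [AlgebraTensorModule.distribBaseChange, IsBaseChange.equiv_tmul]
  | add x y hx hy =>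
    rw [TensorProduct.tmul_add, map_add, hx, hy, map_add]

end TensorBaseChange

variable {A R₀ R₁ R₀₁ : Type u} [CommRing A] [CommRing R₀] [CommRing R₁]
    [CommRing R₀₁] [Algebra A R₀] [Algebra A R₁] [Algebra A R₀₁] [Algebra R₀ R₀₁]
    [Algebra R₁ R₀₁] [IsScalarTower A R₀ R₀₁] [IsScalarTower A R₁ R₀₁]

/-- The tensor product of two gluing data. -/
def tensorGD (G G' : GlueDatum A R₀ R₁ R₀₁) : GlueDatum A R₀ R₁ R₀₁ :=
  haveI := G.invertible₀
  haveI := G.invertible₁
  haveI := G'.invertible₀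
  haveI := G'.invertible₁
  { N₀ := G.N₀ ⊗[R₀] G'.N₀
    N₁ := G.N₁ ⊗[R₁] G'.N₁
    N₀₁ := G.N₀₁ ⊗[R₀₁] G'.N₀₁
    r₀ := tensorRes (S := R₀₁) G.r₀ G'.r₀
    r₁ := tensorRes (S := R₀₁) G.r₁ G'.r₁
    isBaseChange₀ := isBaseChange_tensorRes G.isBaseChange₀ G'.isBaseChange₀
    isBaseChange₁ := isBaseChange_tensorRes G.isBaseChange₁ G'.isBaseChange₁
    invertible₀ := inferInstance
    invertible₁ := inferInstance }

end

end Fermat.Agent.S25.H325

end
-- ===== PACK-END S25/H325/GDCTensor.lean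

-- ===== PACK-BEGIN S27/H443/FFInt.lean
section


/-!
# Row S27, leaf FF-ALG, step B: the integral closure of `K[u]` in `F`

For a set `S ⊆ F` we let `ffB K F S` be the integral closure of `K[S]` in `F`, as a
`K`-subalgebra of `F`.  If `Ω[F⁄K]` is one-dimensional, `K` is algebraically closed, `F / K` is
essentially of finite type and `du ≠ 0`, then `ffB K F {u}` is a Dedekind domain, not a field,
finite over `K[u]`, of finite type over `K`, with field of fractions `F`.

Mathlib only.  Author: helper443.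
-/

set_option autoImplicit false
set_option linter.style.haveILetI false

open Polynomial
open scoped IntermediateField.algebraAdjoinAdjoin

namespace Fermat.Agent.S27.H443

section Def

variable (K F : Type*) [Field K] [Field F] [Algebra K F]

/-- The integral closure of `K[S]` in `F`, as a `K`-subalgebra of `F`. -/
def ffB (S : Set F) : Subalgebra K F :=
  (integralClosure (Algebra.adjoin K S) F).restrictScalars K

variable {K F}

theorem mem_ffB {S : Set F} {f : F} : f ∈ ffB K F S ↔ IsIntegral (Algebra.adjoin K S) f :=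
  Iff.rfl

theorem adjoin_le_ffB (S : Set F) : Algebra.adjoin K S ≤ ffB K F S := by
  intro f hf
  rw [mem_ffB]
  exact isIntegral_algebraMap (R := Algebra.adjoin K S) (x := ⟨f, hf⟩)

theorem subset_ffB (S : Set F) : S ⊆ ffB K F S :=
  fun _ hf => adjoin_le_ffB S (Algebra.subset_adjoin hf)

theorem self_mem_ffB (u : F) : u ∈ ffB K F {u} := subset_ffB {u} rfl

theorem ffB_mono {S T : Set F} (h : S ⊆ T) : ffB K F S ≤ ffB K F T := by
  intro f hf
  rw [mem_ffB] at hf ⊢
  letI : Algebra (Algebra.adjoin K S) (Algebra.adjoin K T) :=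
    (Subalgebra.inclusion (Algebra.adjoin_mono h)).toAlgebra
  haveI : IsScalarTower (Algebra.adjoin K S) (Algebra.adjoin K T) F :=
    IsScalarTower.of_algebraMap_eq fun _ => rfl
  exact hf.tower_top

end Def

section Poly

variable {K F : Type*} [Field K] [Field F] [Algebra K F]

/-- `K[u] ≃ K[X]` for transcendental `u`. -/
noncomputable def adjoinEquivPoly {u : F} (h : Transcendental K u) :
    K[X] ≃ₐ[K] Algebra.adjoin K {u} :=
  (AlgEquiv.ofInjective (Polynomial.aeval (R := K) u) (transcendental_iff_injective.mp h)).trans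
    (Subalgebra.equivOfEq _ _ (Algebra.adjoin_singleton_eq_range_aeval K u).symm)

theorem adjoinEquivPoly_coe {u : F} (h : Transcendental K u) (p : K[X]) :
    ((adjoinEquivPoly h p : Algebra.adjoin K {u}) : F) = Polynomial.aeval u p := rfl

theorem adjoin_isPrincipalIdealRing {u : F} (h : Transcendental K u) :
    IsPrincipalIdealRing (Algebra.adjoin K {u}) :=
  IsPrincipalIdealRing.of_surjective (adjoinEquivPoly h).toRingEquiv (adjoinEquivPoly h).surjective

theorem adjoin_not_isField {u : F} (h : Transcendental K u) :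
    ¬ IsField (Algebra.adjoin K {u}) := fun hf =>
  Polynomial.not_isField K ((adjoinEquivPoly h).toRingEquiv.toMulEquiv.isField hf)

end Poly

section Half

variable {K F : Type*} [Field K] [Field F] [Algebra K F] [IsAlgClosed K]
  [Algebra.EssFiniteType K F]

/-- `ffB K F {u}` is a Dedekind domain. -/
theorem ffB_isDedekindDomain (h : Module.finrank F Ω[F⁄K] = 1) {u : F}
    (hu : KaehlerDifferential.D K F u ≠ 0) : IsDedekindDomain (ffB K F {u}) := by
  haveI := adjoin_isPrincipalIdealRing (ffsep_transcendental hu)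
  haveI := ffsep_finite K F h hu
  haveI := ffsep_isSeparable K F h hu
  exact integralClosure.isDedekindDomain (Algebra.adjoin K {u}) (IntermediateField.adjoin K {u}) F

/-- The integral closure of `K[u]` in `F` is a finite `K[u]`-module. -/
theorem ffB_finite_adjoin (h : Module.finrank F Ω[F⁄K] = 1) {u : F}
    (hu : KaehlerDifferential.D K F u ≠ 0) :
    Module.Finite (Algebra.adjoin K {u}) (integralClosure (Algebra.adjoin K {u}) F) := by
  haveI := adjoin_isPrincipalIdealRing (ffsep_transcendental hu)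
  haveI := ffsep_finite K F h hu
  haveI := ffsep_isSeparable K F h hu
  exact IsIntegralClosure.finite (Algebra.adjoin K {u}) (IntermediateField.adjoin K {u}) F _

/-- `ffB K F {u}` is finite over `K[X]` via `X ↦ u`. -/
theorem ffB_aeval_finite (h : Module.finrank F Ω[F⁄K] = 1) {u : F}
    (hu : KaehlerDifferential.D K F u ≠ 0) :
    (Polynomial.aeval (⟨u, self_mem_ffB u⟩ : ffB K F {u}) : K[X] →ₐ[K] ffB K F {u}).Finite := by
  have hfin := ffB_finite_adjoin h hu
  have htr := ffsep_transcendental hu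
  let π : K[X] →+* Algebra.adjoin K {u} := (adjoinEquivPoly htr).toRingEquiv
  let ι : Algebra.adjoin K {u} →+* integralClosure (Algebra.adjoin K {u}) F :=
    algebraMap (Algebra.adjoin K {u}) (integralClosure (Algebra.adjoin K {u}) F)
  have hπ : π.Finite := RingHom.Finite.of_surjective π (adjoinEquivPoly htr).surjective
  have hι : ι.Finite := RingHom.finite_algebraMap.mpr hfin
  have hfin' : (ι.comp π).Finite := hι.comp hπ
  have hcomp : (Polynomial.aeval (⟨u, self_mem_ffB u⟩ : ffB K F {u}) :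
      K[X] →ₐ[K] ffB K F {u}).toRingHom = ι.comp π := by
    apply Polynomial.ringHom_ext
    · intro c
      apply Subtype.ext
      change ((Polynomial.aeval (⟨u, self_mem_ffB u⟩ : ffB K F {u}) (C c) : ffB K F {u}) : F) =
        ((adjoinEquivPoly htr (C c) : Algebra.adjoin K {u}) : F)
      rw [adjoinEquivPoly_coe, Polynomial.aeval_C, Polynomial.aeval_C]
      rfl
    · apply Subtype.ext
      change ((Polynomial.aeval (⟨u, self_mem_ffB u⟩ : ffB K F {u}) X : ffB K F {u}) : F) =
        ((adjoinEquivPoly htr X : Algebra.adjoin K {u}) : F)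
      rw [adjoinEquivPoly_coe, Polynomial.aeval_X, Polynomial.aeval_X]
  change (Polynomial.aeval (⟨u, self_mem_ffB u⟩ : ffB K F {u}) :
      K[X] →ₐ[K] ffB K F {u}).toRingHom.Finite
  rw [hcomp]
  exact hfin'

/-- `ffB K F {u}` is of finite type over `K`. -/
theorem ffB_finiteType (h : Module.finrank F Ω[F⁄K] = 1) {u : F}
    (hu : KaehlerDifferential.D K F u ≠ 0) : Algebra.FiniteType K (ffB K F {u}) := by
  haveI hfin := ffB_finite_adjoin h hu
  have h1 : Algebra.FiniteType K (Algebra.adjoin K {u}) :=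
    Algebra.FiniteType.equiv inferInstance (adjoinEquivPoly (ffsep_transcendental hu))
  have h2 : Algebra.FiniteType (Algebra.adjoin K {u})
      (integralClosure (Algebra.adjoin K {u}) F) := Module.Finite.finiteType _
  have h3 : Algebra.FiniteType K (integralClosure (Algebra.adjoin K {u}) F) :=
    Algebra.FiniteType.trans h1 h2
  exact h3

/-- `ffB K F {u}` is not a field. -/
theorem ffB_not_isField {K F : Type*} [Field K] [Field F] [Algebra K F] [IsAlgClosed K] {u : F}
    (hu : KaehlerDifferential.D K F u ≠ 0) : ¬ IsField (ffB K F {u}) := by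
  intro hf
  have hint : Algebra.IsIntegral (Algebra.adjoin K {u})
      (integralClosure (Algebra.adjoin K {u}) F) := inferInstance
  have hinj : Function.Injective (algebraMap (Algebra.adjoin K {u})
      (integralClosure (Algebra.adjoin K {u}) F)) := by
    intro a b hab
    apply Subtype.ext
    exact congrArg (fun z : integralClosure (Algebra.adjoin K {u}) F => (z : F)) hab
  exact adjoin_not_isField (ffsep_transcendental hu)
    (isField_of_isIntegral_of_isField hinj hf)

omit [IsAlgClosed K] in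
/-- `F` is the field of fractions of `ffB K F {u}`. -/
theorem ffB_frac (h : Module.finrank F Ω[F⁄K] = 1) {u : F}
    (hu : KaehlerDifferential.D K F u ≠ 0) (f : F) :
    ∃ a b : ffB K F {u}, b ≠ 0 ∧ f * (b : F) = (a : F) := by
  haveI := ffsep_finite K F h hu
  haveI : Algebra.IsAlgebraic (IntermediateField.adjoin K {u}) F := Algebra.IsAlgebraic.of_finite _ _
  haveI hloc := IsIntegralClosure.isLocalization (Algebra.adjoin K {u})
    (IntermediateField.adjoin K {u}) F (integralClosure (Algebra.adjoin K {u}) F)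
  obtain ⟨⟨a, s⟩, hs⟩ := IsLocalization.surj (Algebra.algebraMapSubmonoid
    (integralClosure (Algebra.adjoin K {u}) F) (nonZeroDivisors (Algebra.adjoin K {u}))) f
  refine ⟨a, s.1, ?_, hs⟩
  obtain ⟨_, c, hc, rfl⟩ := s
  intro h0
  have h1 : (algebraMap (Algebra.adjoin K {u}) (integralClosure (Algebra.adjoin K {u}) F) c : F)
      = 0 := congrArg (fun z : integralClosure (Algebra.adjoin K {u}) F => (z : F)) h0
  have h2 : c = 0 := Subtype.ext h1
  exact (mem_nonZeroDivisors_iff_ne_zero.mp hc) h2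

end Half

end Fermat.Agent.S27.H443

end
-- ===== PACK-END S27/H443/FFInt.lean

-- ===== PACK-BEGIN S27/H687/AffineLaw.lean
section
/-
Row S27, block GRP: the formal extension lemma (helper687).

A group law on the AFFINE points of `f : J ⟶ Spec R` (natural in the algebra) extends uniquely
to a `RelativeGroupLaw R f`.  Mathlib + Prelude + `S25/Defs` (`specStr`, `specHomOver`) only.
-/



set_option autoImplicit false
universe u
open CategoryTheory CategoryTheory.Limits AlgebraicGeometry NeronModelInfra GoodReductionJacobian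

namespace Fermat.Agent.S27.H687

open Fermat.Agent.S25

noncomputable section

/-! ## Morphisms are determined by, and glue from, their restrictions to affine schemes -/

section Glue

variable {T J : Scheme.{u}}

/-- Two morphisms which agree on all affine test schemes are equal. -/
theorem hom_ext_affine (f₁ f₂ : T ⟶ J)
    (h : ∀ (A : CommRingCat.{u}) (a : Spec A ⟶ T), a ≫ f₁ = a ≫ f₂) : f₁ = f₂ :=
  T.affineOpenCover.openCover.hom_ext f₁ f₂ fun _ => h _ _

/-- Naturality for arbitrary morphisms between spectra. -/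
theorem natural_of_spec (h : ∀ (A : CommRingCat.{u}) (_ : Spec A ⟶ T), Spec A ⟶ J)
    (hh : ∀ (A A' : CommRingCat.{u}) (φ : A ⟶ A') (a : Spec A ⟶ T),
      Spec.map φ ≫ h A a = h A' (Spec.map φ ≫ a))
    {A A' : CommRingCat.{u}} (b : Spec A' ⟶ Spec A) (a : Spec A ⟶ T) :
    b ≫ h A a = h A' (b ≫ a) := by
  have := hh A A' (Spec.preimage b) a
  rwa [Spec.map_preimage] at this

/-- A compatible family of morphisms from all affine test schemes glues to a unique morphism. -/
theorem exists_unique_of_affine (h : ∀ (A : CommRingCat.{u}) (_ : Spec A ⟶ T), Spec A ⟶ J)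
    (hh : ∀ (A A' : CommRingCat.{u}) (φ : A ⟶ A') (a : Spec A ⟶ T),
      Spec.map φ ≫ h A a = h A' (Spec.map φ ≫ a)) :
    ∃! H : T ⟶ J, ∀ (A : CommRingCat.{u}) (a : Spec A ⟶ T), a ≫ H = h A a := by
  let 𝒰 := T.affineOpenCover
  have hf : ∀ i j : 𝒰.openCover.I₀,
      pullback.fst (𝒰.openCover.f i) (𝒰.openCover.f j) ≫ h _ (𝒰.f i) =
        pullback.snd (𝒰.openCover.f i) (𝒰.openCover.f j) ≫ h _ (𝒰.f j) := by
    intro i j
    refine hom_ext_affine _ _ fun B w => ?_
    rw [← Category.assoc, ← Category.assoc]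
    erw [natural_of_spec h hh (w ≫ pullback.fst (𝒰.openCover.f i) (𝒰.openCover.f j)) (𝒰.f i),
      natural_of_spec h hh (w ≫ pullback.snd (𝒰.openCover.f i) (𝒰.openCover.f j)) (𝒰.f j)]
    congr 1
    rw [Category.assoc, Category.assoc]
    congr 1
    exact pullback.condition
  let H : T ⟶ J := 𝒰.openCover.glueMorphisms (fun i => h _ (𝒰.f i)) hf
  have hH : ∀ i, 𝒰.f i ≫ H = h _ (𝒰.f i) := fun i =>
    𝒰.openCover.ι_glueMorphisms (fun i => h _ (𝒰.f i)) hf i
  refine ⟨H, fun A a => ?_, fun H' hH' => ?_⟩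
  · refine Scheme.hom_ext_of_forall _ _ fun x => ?_
    obtain ⟨i, y, hy⟩ := 𝒰.openCover.exists_eq (a x)
    refine ⟨a ⁻¹ᵁ (𝒰.f i).opensRange, ⟨y, hy⟩, ?_⟩
    have hr : Set.range ((a ⁻¹ᵁ (𝒰.f i).opensRange).ι ≫ a) ⊆ Set.range (𝒰.f i) := by
      rintro _ ⟨z, rfl⟩
      exact z.2
    let l : (a ⁻¹ᵁ (𝒰.f i).opensRange).toScheme ⟶ Spec (𝒰.X i) :=
      IsOpenImmersion.lift (𝒰.f i) ((a ⁻¹ᵁ (𝒰.f i).opensRange).ι ≫ a) hr
    have hl : l ≫ 𝒰.f i = (a ⁻¹ᵁ (𝒰.f i).opensRange).ι ≫ a :=
      IsOpenImmersion.lift_fac _ _ hr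
    refine hom_ext_affine _ _ fun B w => ?_
    calc w ≫ (a ⁻¹ᵁ (𝒰.f i).opensRange).ι ≫ a ≫ H
        = (w ≫ l) ≫ 𝒰.f i ≫ H := by
          rw [Category.assoc, ← Category.assoc l, hl, Category.assoc]
      _ = h B ((w ≫ l) ≫ 𝒰.f i) := by rw [hH, natural_of_spec h hh]
      _ = h B ((w ≫ (a ⁻¹ᵁ (𝒰.f i).opensRange).ι) ≫ a) := by
          rw [Category.assoc, hl, Category.assoc]
      _ = w ≫ (a ⁻¹ᵁ (𝒰.f i).opensRange).ι ≫ h A a := by
          rw [← natural_of_spec h hh, Category.assoc]
  · refine 𝒰.openCover.hom_ext _ _ fun i => ?_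
    exact (hH' _ _).trans (hH i).symm

end Glue

/-! ## The same over a base ring, in the language of `SchemeHomOver (specStr R B) _` -/

section Over

variable {R : Type u} [CommRing R]

/-- The `R`-algebra structure on `B` attached to a morphism `Spec B ⟶ Spec R`. -/
abbrev algOf {B : CommRingCat.{u}} (s : Spec B ⟶ Spec (CommRingCat.of R)) : Algebra R B :=
  (Spec.preimage s).hom.toAlgebra

theorem specStr_algOf {B : CommRingCat.{u}} (s : Spec B ⟶ Spec (CommRingCat.of R)) :
    @specStr R _ B _ (algOf s) = s :=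
  Spec.map_preimage s

theorem algOf_specStr (B : Type u) [CommRing B] [I : Algebra R B] :
    algOf (B := CommRingCat.of B) (specStr R B) = I := by
  refine Algebra.algebra_ext _ _ fun r => ?_
  change (Spec.preimage (Spec.map (CommRingCat.ofHom (algebraMap R B)))).hom r = _
  rw [Spec.preimage_map]
  rfl

variable {T J : Scheme.{u}} {t : T ⟶ Spec (CommRingCat.of R)} {f : J ⟶ Spec (CommRingCat.of R)}

/-- Restriction of a `T`-valued point to an affine point of `T`. -/
abbrev res {B : Type u} [CommRing B] [Algebra R B] (a : SchemeHomOver (specStr R B) t)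
    (x : SchemeHomOver t f) : SchemeHomOver (specStr R B) f :=
  schemeHomOverComp a.1 a.2 x

/-- Base change of an affine point along an algebra homomorphism. -/
abbrev bc {S : Scheme.{u}} {s : S ⟶ Spec (CommRingCat.of R)} {B B' : Type u} [CommRing B]
    [Algebra R B] [CommRing B'] [Algebra R B'] (φ : B →ₐ[R] B')
    (x : SchemeHomOver (specStr R B) s) : SchemeHomOver (specStr R B') s :=
  schemeHomOverComp (specHomOver R φ).1 (specHomOver R φ).2 x

theorem res_bc {B B' : Type u} [CommRing B] [Algebra R B] [CommRing B'] [Algebra R B']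
    (φ : B →ₐ[R] B') (a : SchemeHomOver (specStr R B) t) (x : SchemeHomOver t f) :
    bc φ (res a x) = res (bc φ a) x :=
  Subtype.ext (Category.assoc _ _ _).symm

/-- The affine point of `T` attached to a morphism `Spec B ⟶ T`. -/
abbrev ptOf (t : T ⟶ Spec (CommRingCat.of R)) {B : CommRingCat.{u}} (a : Spec B ⟶ T) :
    @SchemeHomOver _ _ _ (@specStr R _ B _ (algOf (a ≫ t))) t :=
  ⟨a, (specStr_algOf (a ≫ t)).symm⟩

/-- Two points which agree on all affine points are equal. -/
theorem pt_ext (x y : SchemeHomOver t f)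
    (h : ∀ (B : Type u) [CommRing B] [Algebra R B] (a : SchemeHomOver (specStr R B) t),
      res a x = res a y) : x = y := by
  refine Subtype.ext (hom_ext_affine _ _ fun B a => ?_)
  letI := algOf (R := R) (a ≫ t)
  exact congrArg Subtype.val (h B (ptOf t a))

theorem congr_of_algebra_eq {S : Scheme.{u}} {s : S ⟶ Spec (CommRingCat.of R)}
    (h : ∀ (B : Type u) [CommRing B] [Algebra R B],
      SchemeHomOver (specStr R B) t → SchemeHomOver (specStr R B) s)
    (B : Type u) [CommRing B] (I I' : Algebra R B) (e : I = I')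
    (a : @SchemeHomOver _ _ _ (@specStr R _ B _ I) t)
    (a' : @SchemeHomOver _ _ _ (@specStr R _ B _ I') t) (ha : a.1 = a'.1) :
    (@h B _ I a).1 = (@h B _ I' a').1 := by
  subst e
  have : a = a' := Subtype.ext ha
  rw [this]

/-- A family of affine points of `f`, indexed by the affine points of `t` and natural in the
algebra, comes from a unique `T`-valued point of `f`. -/
theorem exists_unique_point
    (h : ∀ (B : Type u) [CommRing B] [Algebra R B],
      SchemeHomOver (specStr R B) t → SchemeHomOver (specStr R B) f)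
    (hh : ∀ (B B' : Type u) [CommRing B] [Algebra R B] [CommRing B'] [Algebra R B']
      (φ : B →ₐ[R] B') (a : SchemeHomOver (specStr R B) t), bc φ (h B a) = h B' (bc φ a)) :
    ∃! H : SchemeHomOver t f,
      ∀ (B : Type u) [CommRing B] [Algebra R B] (a : SchemeHomOver (specStr R B) t),
        res a H = h B a := by
  let h₀ : ∀ (A : CommRingCat.{u}) (_ : Spec A ⟶ T), Spec A ⟶ J := fun A a =>
    (@h A _ (algOf (a ≫ t)) (ptOf t a)).1
  have hh₀ : ∀ (A A' : CommRingCat.{u}) (φ : A ⟶ A') (a : Spec A ⟶ T),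
      Spec.map φ ≫ h₀ A a = h₀ A' (Spec.map φ ≫ a) := by
    intro A A' φ a
    letI I : Algebra R A := algOf (a ≫ t)
    letI I' : Algebra R A' := algOf ((Spec.map φ ≫ a) ≫ t)
    have hc : ∀ r : R, φ.hom (algebraMap R A r) = algebraMap R A' r := by
      intro r
      have e : Spec.preimage (a ≫ t) ≫ φ = Spec.preimage ((Spec.map φ ≫ a) ≫ t) := by
        apply Spec.map_injective
        rw [Spec.map_comp, Spec.map_preimage, Spec.map_preimage, Category.assoc]
      exact congrArg (fun ψ : CommRingCat.of R ⟶ A' => ψ.hom r) e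
    let φ' : A →ₐ[R] A' := { φ.hom with commutes' := hc }
    have key := congrArg Subtype.val (hh A A' φ' (ptOf t a))
    exact key.trans (congrArg (fun z => (@h A' _ I' z).1) (Subtype.ext rfl))
  obtain ⟨H₀, hH₀, huniq⟩ := exists_unique_of_affine h₀ hh₀
  have hover : H₀ ≫ f = t := by
    refine hom_ext_affine _ _ fun A a => ?_
    rw [← Category.assoc, hH₀]
    exact (@h A _ (algOf (a ≫ t)) (ptOf t a)).2.trans (specStr_algOf (a ≫ t))
  have hprop : ∀ (B : Type u) [CommRing B] [Algebra R B] (a : SchemeHomOver (specStr R B) t),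
      res a (⟨H₀, hover⟩ : SchemeHomOver t f) = h B a := by
    intro B _ I a
    refine Subtype.ext ?_
    change a.1 ≫ H₀ = (h B a).1
    rw [hH₀ (CommRingCat.of B) a.1]
    refine congr_of_algebra_eq h B _ I ?_ _ _ rfl
    have : a.1 ≫ t = specStr R B := a.2
    rw [this]
    exact algOf_specStr B
  refine ⟨⟨H₀, hover⟩, hprop, fun H' hH' => ?_⟩
  refine Subtype.ext (huniq H'.1 fun A a => ?_)
  letI := algOf (R := R) (a ≫ t)
  exact congrArg Subtype.val (hH' A (ptOf t a))

end Over

/-! ## Group laws on affine points -/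

/-- A group law on the affine points of `f : J ⟶ Spec R`, natural in the algebra. -/
structure AffineLaw (R : Type u) [CommRing R] {J : Scheme.{u}}
    (f : J ⟶ Spec (CommRingCat.of R)) where
  /-- multiplication -/
  mul : ∀ (A : Type u) [CommRing A] [Algebra R A],
    SchemeHomOver (specStr R A) f → SchemeHomOver (specStr R A) f → SchemeHomOver (specStr R A) f
  /-- unit -/
  one : ∀ (A : Type u) [CommRing A] [Algebra R A], SchemeHomOver (specStr R A) f
  /-- inverse -/
  inv : ∀ (A : Type u) [CommRing A] [Algebra R A],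
    SchemeHomOver (specStr R A) f → SchemeHomOver (specStr R A) f
  mul_assoc : ∀ (A : Type u) [CommRing A] [Algebra R A] (x y z : SchemeHomOver (specStr R A) f),
    mul A (mul A x y) z = mul A x (mul A y z)
  one_mul : ∀ (A : Type u) [CommRing A] [Algebra R A] (x : SchemeHomOver (specStr R A) f),
    mul A (one A) x = x
  mul_one : ∀ (A : Type u) [CommRing A] [Algebra R A] (x : SchemeHomOver (specStr R A) f),
    mul A x (one A) = x
  inv_mul_cancel : ∀ (A : Type u) [CommRing A] [Algebra R A]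
    (x : SchemeHomOver (specStr R A) f), mul A (inv A x) x = one A
  mul_natural : ∀ (A A' : Type u) [CommRing A] [Algebra R A] [CommRing A'] [Algebra R A']
    (φ : A →ₐ[R] A') (x y : SchemeHomOver (specStr R A) f),
    bc φ (mul A x y) = mul A' (bc φ x) (bc φ y)

namespace AffineLaw

variable {R : Type u} [CommRing R] {J : Scheme.{u}} {f : J ⟶ Spec (CommRingCat.of R)}
  (L : AffineLaw R f)

/-- The group of `A`-valued points. -/
@[reducible] def group (A : Type u) [CommRing A] [Algebra R A] :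
    Group (SchemeHomOver (specStr R A) f) where
  mul := L.mul A
  one := L.one A
  inv := L.inv A
  mul_assoc := L.mul_assoc A
  one_mul := L.one_mul A
  mul_one := L.mul_one A
  inv_mul_cancel := L.inv_mul_cancel A

/-- Base change is a group homomorphism. -/
def bcHom {A A' : Type u} [CommRing A] [Algebra R A] [CommRing A'] [Algebra R A']
    (φ : A →ₐ[R] A') :
    letI := L.group A
    letI := L.group A'
    SchemeHomOver (specStr R A) f →* SchemeHomOver (specStr R A') f :=
  letI := L.group A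
  letI := L.group A'
  MonoidHom.mk' (bc φ) (L.mul_natural A A' φ)

theorem one_natural {A A' : Type u} [CommRing A] [Algebra R A] [CommRing A'] [Algebra R A']
    (φ : A →ₐ[R] A') : bc φ (L.one A) = L.one A' :=
  letI := L.group A
  letI := L.group A'
  (L.bcHom φ).map_one

theorem inv_natural {A A' : Type u} [CommRing A] [Algebra R A] [CommRing A'] [Algebra R A']
    (φ : A →ₐ[R] A') (x : SchemeHomOver (specStr R A) f) :
    bc φ (L.inv A x) = L.inv A' (bc φ x) :=
  letI := L.group A
  letI := L.group A'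
  (L.bcHom φ).map_inv x

variable {T : Scheme.{u}} (t : T ⟶ Spec (CommRingCat.of R))

theorem existsUnique_mul (x y : SchemeHomOver t f) :
    ∃! H : SchemeHomOver t f,
      ∀ (B : Type u) [CommRing B] [Algebra R B] (a : SchemeHomOver (specStr R B) t),
        res a H = L.mul B (res a x) (res a y) :=
  exists_unique_point (fun B _ _ a => L.mul B (res a x) (res a y)) fun B B' _ _ _ _ φ a => by
    rw [L.mul_natural, res_bc, res_bc]

theorem existsUnique_one :
    ∃! H : SchemeHomOver t f,
      ∀ (B : Type u) [CommRing B] [Algebra R B] (a : SchemeHomOver (specStr R B) t),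
        res a H = L.one B :=
  exists_unique_point (fun B _ _ _ => L.one B) fun B B' _ _ _ _ φ a => L.one_natural φ

theorem existsUnique_inv (x : SchemeHomOver t f) :
    ∃! H : SchemeHomOver t f,
      ∀ (B : Type u) [CommRing B] [Algebra R B] (a : SchemeHomOver (specStr R B) t),
        res a H = L.inv B (res a x) :=
  exists_unique_point (fun B _ _ a => L.inv B (res a x)) fun B B' _ _ _ _ φ a => by
    rw [L.inv_natural, res_bc]

/-- The extended multiplication. -/
def mulT (x y : SchemeHomOver t f) : SchemeHomOver t f := (L.existsUnique_mul t x y).exists.choose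

/-- The extended unit. -/
def oneT : SchemeHomOver t f := (L.existsUnique_one t).exists.choose

/-- The extended inverse. -/
def invT (x : SchemeHomOver t f) : SchemeHomOver t f := (L.existsUnique_inv t x).exists.choose

variable {t}

theorem res_mulT (x y : SchemeHomOver t f) {B : Type u} [CommRing B] [Algebra R B]
    (a : SchemeHomOver (specStr R B) t) :
    res a (L.mulT t x y) = L.mul B (res a x) (res a y) :=
  (L.existsUnique_mul t x y).exists.choose_spec B a

theorem res_oneT {B : Type u} [CommRing B] [Algebra R B] (a : SchemeHomOver (specStr R B) t) :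
    res a (L.oneT t) = L.one B :=
  (L.existsUnique_one t).exists.choose_spec B a

theorem res_invT (x : SchemeHomOver t f) {B : Type u} [CommRing B] [Algebra R B]
    (a : SchemeHomOver (specStr R B) t) :
    res a (L.invT t x) = L.inv B (res a x) :=
  (L.existsUnique_inv t x).exists.choose_spec B a

/-- **The extension lemma**: a group law on affine points extends to a relative group law. -/
def extend : RelativeGroupLaw R f where
  mul t := L.mulT t
  one t := L.oneT t
  inv t := L.invT t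
  mul_assoc t x y z := pt_ext _ _ fun B _ _ a => by
    rw [res_mulT, res_mulT, res_mulT, res_mulT, L.mul_assoc]
  one_mul t x := pt_ext _ _ fun B _ _ a => by rw [res_mulT, res_oneT, L.one_mul]
  mul_one t x := pt_ext _ _ fun B _ _ a => by rw [res_mulT, res_oneT, L.mul_one]
  inv_mul_cancel t x := pt_ext _ _ fun B _ _ a => by
    rw [res_mulT, res_invT, res_oneT, L.inv_mul_cancel]
  mul_natural t t' ψ hψ x y := pt_ext _ _ fun B _ _ a => by
    have e : ∀ z : SchemeHomOver t f, res a (schemeHomOverComp ψ hψ z) =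
        res (schemeHomOverComp (f := t) a.1 a.2 ⟨ψ, hψ⟩) z := fun z =>
      Subtype.ext (Category.assoc _ _ _).symm
    rw [e, res_mulT, res_mulT, e, e]

/-- The identity affine point of `Spec A`. -/
abbrev idPt (A : Type u) [CommRing A] [Algebra R A] :
    SchemeHomOver (specStr R A) (specStr R A) :=
  ⟨𝟙 _, Category.id_comp _⟩

theorem res_idPt {A : Type u} [CommRing A] [Algebra R A] (x : SchemeHomOver (specStr R A) f) :
    res (idPt A) x = x :=
  Subtype.ext (Category.id_comp _)

@[simp] theorem extend_mul_affine (A : Type u) [CommRing A] [Algebra R A]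
    (x y : SchemeHomOver (specStr R A) f) : L.extend.mul (specStr R A) x y = L.mul A x y := by
  have := L.res_mulT x y (idPt A)
  rwa [res_idPt, res_idPt, res_idPt] at this

@[simp] theorem extend_one_affine (A : Type u) [CommRing A] [Algebra R A] :
    L.extend.one (specStr R A) = L.one A := by
  have := L.res_oneT (t := specStr R A) (idPt A)
  rwa [res_idPt] at this

@[simp] theorem extend_inv_affine (A : Type u) [CommRing A] [Algebra R A]
    (x : SchemeHomOver (specStr R A) f) : L.extend.inv (specStr R A) x = L.inv A x := by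
  have := L.res_invT x (idPt A)
  rwa [res_idPt, res_idPt] at this

/-- The extended law restricted to an affine point. -/
theorem res_extend_mul (x y : SchemeHomOver t f) {B : Type u} [CommRing B] [Algebra R B]
    (a : SchemeHomOver (specStr R B) t) :
    res a (L.extend.mul t x y) = L.mul B (res a x) (res a y) :=
  L.res_mulT x y a

theorem extend_isCommutative
    (hc : ∀ (A : Type u) [CommRing A] [Algebra R A] (x y : SchemeHomOver (specStr R A) f),
      L.mul A x y = L.mul A y x) : L.extend.IsCommutative := fun t x y =>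
  pt_ext _ _ fun B _ _ a => by
    change res a (L.mulT t x y) = res a (L.mulT t y x)
    rw [res_mulT, res_mulT, hc]

end AffineLaw

/-- **Extension lemma, existence form.** -/
theorem exists_relativeGroupLaw_of_affineLaw {R : Type u} [CommRing R] {J : Scheme.{u}}
    {f : J ⟶ Spec (CommRingCat.of R)} (L : AffineLaw R f) :
    ∃ G : RelativeGroupLaw R f,
      (∀ (A : Type u) [CommRing A] [Algebra R A] (x y : SchemeHomOver (specStr R A) f),
        G.mul (specStr R A) x y = L.mul A x y) ∧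
      ((∀ (A : Type u) [CommRing A] [Algebra R A] (x y : SchemeHomOver (specStr R A) f),
        L.mul A x y = L.mul A y x) → G.IsCommutative) :=
  ⟨L.extend, L.extend_mul_affine, L.extend_isCommutative⟩

end

end Fermat.Agent.S27.H687

end
-- ===== PACK-END S27/H687/AffineLaw.lean

-- ===== PACK-BEGIN Lib/Haupt/Level.lean
section






/-!
# Level raising `f(τ) ↦ f(dτ)` for level-one modular forms (helper637)

* `res d f` : a level-one form viewed on `Γ₀(d)`;
* `lev d f` : `τ ↦ f (d τ)` as a modular form on `Γ₀(d)`;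
* `qExpansion_lev` : its `q`-expansion is `PowerSeries.expand d` of the `q`-expansion of `f`.
-/

set_option autoImplicit false

open UpperHalfPlane ModularForm CongruenceSubgroup MatrixGroups
open Matrix.SpecialLinearGroup Filter Topology
open scoped Manifold

noncomputable section

namespace Fermat.Agent.Lib.Haupt

open Fermat.Agent.S20.F658

local notation "𝕢" => Function.Periodic.qParam

/-- `Γ₀(d)` as a subgroup of `GL(2, ℝ)`. -/
abbrev G0 (d : ℕ) : Subgroup (GL (Fin 2) ℝ) := (Gamma0 d : Subgroup (GL (Fin 2) ℝ))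

theorem G0_le_SL (d : ℕ) : G0 d ≤ 𝒮ℒ := by
  rintro _ ⟨A, -, rfl⟩
  exact ⟨A, rfl⟩

theorem one_mem_strictPeriods_G0 (d : ℕ) : (1 : ℝ) ∈ (G0 d).strictPeriods :=
  CongruenceSubgroup.one_mem_strictPeriods_Gamma0 d

/-- A level-one modular form, viewed as a modular form on `Γ₀(d)`. -/
def res (d : ℕ) {k : ℤ} (f : ModularForm 𝒮ℒ k) : ModularForm (G0 d) k where
  toFun := f
  slash_action_eq' γ hγ := f.slash_action_eq' γ (G0_le_SL d hγ)
  holo' := f.holo'
  bdd_at_cusps' hc := f.bdd_at_cusps' (hc.mono (G0_le_SL d))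

@[simp] theorem coe_res (d : ℕ) {k : ℤ} (f : ModularForm 𝒮ℒ k) : (res d f : ℍ → ℂ) = f := rfl

open ConjAct Pointwise in
/-- `f ∣[k] diag(d, 1)` as a modular form on `Γ₀(d)`. -/
def levRaw (d : ℕ) [NeZero d] {k : ℤ} (f : ModularForm 𝒮ℒ k) : ModularForm (G0 d) k where
  toFun := (f : ℍ → ℂ) ∣[k] gN d
  slash_action_eq' γ hγ :=
    (ModularForm.translate f (gN d)).slash_action_eq' γ (Gamma0_le_conj d hγ)
  holo' := (ModularForm.translate f (gN d)).holo'
  bdd_at_cusps' hc :=
    (ModularForm.translate f (gN d)).bdd_at_cusps' (hc.mono (Gamma0_le_conj d))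

theorem coe_levRaw (d : ℕ) [NeZero d] {k : ℤ} (f : ModularForm 𝒮ℒ k) :
    (levRaw d f : ℍ → ℂ) = (f : ℍ → ℂ) ∣[k] gN d := rfl

theorem gN_det_pos (d : ℕ) [NeZero d] : 0 < (gN d).det.val := by
  rw [gN_det]
  exact_mod_cast Nat.pos_of_ne_zero (NeZero.ne d)

theorem denom_gN (d : ℕ) [NeZero d] (τ : ℍ) : denom (gN d) τ = 1 := by
  simp [denom, gN_val]

theorem coe_gN_smul (d : ℕ) [NeZero d] (τ : ℍ) : ((gN d • τ : ℍ) : ℂ) = d * (τ : ℂ) := by
  rw [UpperHalfPlane.coe_smul_of_det_pos (gN_det_pos d)]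
  simp [num, denom, gN_val]

theorem levRaw_apply (d : ℕ) [NeZero d] {k : ℤ} (f : ModularForm 𝒮ℒ k) (τ : ℍ) :
    levRaw d f τ = f (gN d • τ) * (d : ℂ) ^ (k - 1) := by
  show ((f : ℍ → ℂ) ∣[k] gN d) τ = _
  rw [ModularForm.slash_apply, denom_gN, one_zpow, mul_one, gN_det]
  have hσ : σ (gN d) = ContinuousAlgEquiv.refl ℝ ℂ := by
    unfold σ
    rw [if_pos (gN_det_pos d)]
  rw [hσ]
  simp

end Fermat.Agent.Lib.Haupt

namespace Fermat.Agent.Lib.Haupt

open Fermat.Agent.S20.F658

local notation "𝕢" => Function.Periodic.qParam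

/-- `τ ↦ f (d τ)` as a modular form on `Γ₀(d)`. -/
def lev (d : ℕ) [NeZero d] {k : ℤ} (f : ModularForm 𝒮ℒ k) : ModularForm (G0 d) k :=
  (((d : ℂ) ^ (k - 1))⁻¹ : ℂ) • levRaw d f

theorem lev_apply (d : ℕ) [NeZero d] {k : ℤ} (f : ModularForm 𝒮ℒ k) (τ : ℍ) :
    lev d f τ = f (gN d • τ) := by
  have hd : ((d : ℂ) ^ (k - 1)) ≠ 0 := zpow_ne_zero _ (by exact_mod_cast NeZero.ne d)
  show (((d : ℂ) ^ (k - 1))⁻¹ • levRaw d f) τ = _
  rw [smul_apply, levRaw_apply, smul_eq_mul]
  field_simp

theorem qParam_gN_smul (d : ℕ) [NeZero d] (τ : ℍ) :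
    𝕢 1 ((gN d • τ : ℍ) : ℂ) = 𝕢 1 (τ : ℂ) ^ d := by
  rw [coe_gN_smul]
  unfold Function.Periodic.qParam
  rw [← Complex.exp_nat_mul]
  congr 1
  ring

theorem hasSum_lev (d : ℕ) [NeZero d] {k : ℤ} (f : ModularForm 𝒮ℒ k) (τ : ℍ) :
    HasSum (fun m : ℕ => (if d ∣ m then (qExpansion 1 f).coeff (m / d) else 0) •
      𝕢 1 (τ : ℂ) ^ m) (lev d f τ) := by
  have hd : 0 < d := Nat.pos_of_ne_zero (NeZero.ne d)
  have h := ModularForm.hasSum_qExpansion (f := f) one_pos one_mem_strictPeriods_SL (gN d • τ)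
  rw [qParam_gN_smul, ← lev_apply] at h
  have hinj : Function.Injective (fun n : ℕ => d * n) := fun a b hab =>
    Nat.eq_of_mul_eq_mul_left hd hab
  rw [← hinj.hasSum_iff]
  · have hfun : ((fun m : ℕ => (if d ∣ m then (qExpansion 1 f).coeff (m / d) else 0) •
        𝕢 1 (τ : ℂ) ^ m) ∘ fun n : ℕ => d * n)
        = fun m : ℕ => (qExpansion 1 f).coeff m * (𝕢 1 (τ : ℂ) ^ d) ^ m := by
      funext n
      simp only [Function.comp_apply, dvd_mul_right, if_true, Nat.mul_div_cancel_left n hd,
        smul_eq_mul, pow_mul]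
    rw [hfun]
    exact h
  · intro m hm
    have : ¬ d ∣ m := fun ⟨c, hc⟩ => hm ⟨c, hc.symm⟩
    simp [this]

end Fermat.Agent.Lib.Haupt

namespace Fermat.Agent.Lib.Haupt

/-- The `q`-expansion of `τ ↦ f (d τ)` is `expand d` of the `q`-expansion of `f`. -/
theorem qExpansion_lev (d : ℕ) [NeZero d] {k : ℤ} (f : ModularForm 𝒮ℒ k) :
    qExpansion 1 (lev d f) = PowerSeries.expand d (NeZero.ne d) (qExpansion 1 f) := by
  ext m
  rw [PowerSeries.coeff_expand]
  exact (ModularFormClass.qExpansion_coeff_unique one_pos (one_mem_strictPeriods_G0 d)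
    (f := lev d f) (hasSum_lev d f) m).symm

theorem qExpansion_res (d : ℕ) {k : ℤ} (f : ModularForm 𝒮ℒ k) :
    qExpansion 1 (res d f) = qExpansion 1 f := rfl

end Fermat.Agent.Lib.Haupt

end
end
-- ===== PACK-END Lib/Haupt/Level.lean

-- ===== PACK-BEGIN S22/H262/Cocycle.lean
section


set_option autoImplicit false

/-!
# The Eichler cocycle via primitive towers
-/

open Complex Filter Function Metric Set
open UpperHalfPlane hiding I
open scoped Real Topology Manifold ModularForm MatrixGroups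

namespace Fermat.Agent.S22.H262

/-- The action of `GL₂(ℝ)` on `ℂ²` (column vectors). -/
def actV (A : GL (Fin 2) ℝ) (v : ℂ × ℂ) : ℂ × ℂ :=
  ((A 0 0 : ℝ) * v.1 + (A 0 1 : ℝ) * v.2, (A 1 0 : ℝ) * v.1 + (A 1 1 : ℝ) * v.2)

theorem actV_mul (A B : GL (Fin 2) ℝ) (v : ℂ × ℂ) : actV (A * B) v = actV A (actV B v) := by
  simp only [actV, Matrix.GeneralLinearGroup.coe_mul, Matrix.mul_apply, Fin.sum_univ_two]
  ext <;> push_cast <;> ring

@[simp] theorem actV_one (v : ℂ × ℂ) : actV 1 v = v := by
  simp [actV]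

/-- The polynomial-valued Eichler integral attached to a tower, evaluated at a vector `v`. -/
noncomputable def bigG (n : ℕ) (E : ℕ → ℍ → ℂ) (z : ℍ) (v : ℂ × ℂ) : ℂ :=
  ∑ j ∈ Finset.range (n + 1),
    (n.descFactorial j : ℂ) * E (j + 1) z * (v.1 - z * v.2) ^ (n - j) * v.2 ^ j

theorem hasDerivAt_bigG (n : ℕ) {h : ℍ → ℂ} {E : ℕ → ℍ → ℂ} (hE : IsTower h E) (v : ℂ × ℂ)
    (z : ℍ) :
    HasDerivAt (fun w : ℂ => bigG n E (ofComplex w) v) (h z * (v.1 - z * v.2) ^ n) (z : ℂ) := by
  -- first the derivative of the version with `w` in place of `↑(ofComplex w)`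
  have key : HasDerivAt (fun w : ℂ => ∑ j ∈ Finset.range (n + 1),
      (n.descFactorial j : ℂ) * (E (j + 1) ∘ ofComplex) w * (v.1 - w * v.2) ^ (n - j) * v.2 ^ j)
      (∑ j ∈ Finset.range (n + 1),
        ((n.descFactorial j : ℂ) * E j z * (v.1 - z * v.2) ^ (n - j) * v.2 ^ j -
         (n.descFactorial (j + 1) : ℂ) * E (j + 1) z * (v.1 - z * v.2) ^ (n - (j + 1)) *
            v.2 ^ (j + 1))) (z : ℂ) := by
    apply HasDerivAt.fun_sum
    intro j _
    have h1 : HasDerivAt (E (j + 1) ∘ ofComplex) (E j z) (z : ℂ) := hE.hasDeriv j z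
    have h2 : HasDerivAt (fun w : ℂ => (v.1 - w * v.2) ^ (n - j))
        (((n - j : ℕ) : ℂ) * (v.1 - z * v.2) ^ (n - j - 1) * (-v.2)) (z : ℂ) := by
      have h3 : HasDerivAt (fun w : ℂ => v.1 - w * v.2) (-v.2) (z : ℂ) := by
        simpa using ((hasDerivAt_id (z : ℂ)).mul_const v.2).const_sub v.1
      exact h3.pow (n - j)
    have h4 := ((h1.const_mul (n.descFactorial j : ℂ)).mul h2).mul_const (v.2 ^ j)
    refine h4.congr_deriv ?_
    have hofz : (E (j + 1) ∘ ofComplex) (z : ℂ) = E (j + 1) z := by simp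
    rw [hofz, Nat.descFactorial_succ]
    have : n - (j + 1) = n - j - 1 := by omega
    rw [this]
    push_cast
    ring
  have hsum : (∑ j ∈ Finset.range (n + 1),
        ((n.descFactorial j : ℂ) * E j z * (v.1 - z * v.2) ^ (n - j) * v.2 ^ j -
         (n.descFactorial (j + 1) : ℂ) * E (j + 1) z * (v.1 - z * v.2) ^ (n - (j + 1)) *
            v.2 ^ (j + 1))) = h z * (v.1 - z * v.2) ^ n := by
    rw [Finset.sum_range_sub' (fun j => (n.descFactorial j : ℂ) * E j z *
      (v.1 - z * v.2) ^ (n - j) * v.2 ^ j)]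
    have hlt : n.descFactorial (n + 1) = 0 := Nat.descFactorial_of_lt (Nat.lt_succ_self n)
    rw [hlt]
    simp [hE.zero]
  rw [hsum] at key
  refine key.congr_of_eventuallyEq ?_
  have hopen : {z : ℂ | 0 < z.im} ∈ 𝓝 (z : ℂ) :=
    (isOpen_lt continuous_const Complex.continuous_im).mem_nhds z.im_pos
  filter_upwards [hopen] with w hw
  simp [bigG, ofComplex_apply_of_im_pos hw]

/-- The key identity `x' - (Az) y' = det A (x - z y) / (cz + d)` where `(x', y') = A v`. -/
theorem actV_sub (A : GL (Fin 2) ℝ) (hA : 0 < A.det.val) (z : ℍ) (v : ℂ × ℂ) :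
    (actV A v).1 - ((A • z : ℍ) : ℂ) * (actV A v).2 =
      (A.det.val : ℂ) * (v.1 - z * v.2) / denom A z := by
  have hd : denom A z ≠ 0 := denom_ne_zero A z
  rw [coe_smul_of_det_pos hA]
  have hdet : (A.det.val : ℂ) = (A 0 0 : ℝ) * (A 1 1 : ℝ) - (A 0 1 : ℝ) * (A 1 0 : ℝ) := by
    rw [Matrix.GeneralLinearGroup.val_det_apply, Matrix.det_fin_two]
    push_cast
    ring
  have key : ((actV A v).1 * denom A z - num A z * (actV A v).2) =
      (A.det.val : ℂ) * (v.1 - z * v.2) := by
    simp only [actV, num, denom, hdet]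
    ring
  rw [eq_div_iff hd, sub_mul, ← key]
  congr 1
  field_simp

theorem hasDerivAt_bigG_smul (n : ℕ) {h : ℍ → ℂ} {E : ℕ → ℍ → ℂ} (hE : IsTower h E)
    (A : GL (Fin 2) ℝ) (hA : 0 < A.det.val) (v : ℂ × ℂ) (z : ℍ) :
    HasDerivAt (fun w : ℂ => bigG n E (A • ofComplex w) (actV A v))
      ((h ∣[(n : ℤ) + 2] A) z * (v.1 - z * v.2) ^ n) (z : ℂ) := by
  have h1 := hasDerivAt_bigG n hE (actV A v) (A • z)
  have h2 : HasDerivAt (fun w : ℂ => ((A • ofComplex w : ℍ) : ℂ))
      (A.det.val / denom A z ^ 2) (z : ℂ) := (hasStrictDerivAt_smul hA z).hasDerivAt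
  have h3 := h1.comp_of_eq (x := (z : ℂ)) h2 (by simp)
  have hd : denom A z ≠ 0 := denom_ne_zero A z
  have hval : h (A • z) * ((actV A v).1 - ((A • z : ℍ) : ℂ) * (actV A v).2) ^ n *
      ((A.det.val : ℂ) / denom A z ^ 2) = (h ∣[(n : ℤ) + 2] A) z * (v.1 - z * v.2) ^ n := by
    rw [actV_sub A hA z v, ModularForm.slash_apply, UpperHalfPlane.σ, if_pos hA]
    simp only [ContinuousAlgEquiv.refl_apply, abs_of_pos hA]
    have e1 : ((n : ℤ) + 2 - 1) = ((n + 1 : ℕ) : ℤ) := by push_cast; ring
    have e2 : -((n : ℤ) + 2) = -((n + 2 : ℕ) : ℤ) := by push_cast; ring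
    rw [e1, e2, zpow_natCast, zpow_neg, zpow_natCast, div_pow, mul_pow]
    field_simp
    ring
  rw [hval] at h3
  refine h3.congr_of_eventuallyEq ?_
  filter_upwards with w
  simp

/-- The difference `G_h(Az, Av) - G_{h|A}(z, v)` does not depend on `z`. -/
theorem bigG_sub_const (n : ℕ) {h : ℍ → ℂ} (A : GL (Fin 2) ℝ) (hA : 0 < A.det.val)
    (hh : HasTower h) (hhA : HasTower (h ∣[(n : ℤ) + 2] A)) (v : ℂ × ℂ) (z w : ℍ) :
    bigG n (tower h) (A • z) (actV A v) - bigG n (tower (h ∣[(n : ℤ) + 2] A)) z v =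
      bigG n (tower h) (A • w) (actV A v) - bigG n (tower (h ∣[(n : ℤ) + 2] A)) w v := by
  let D : ℍ → ℂ := fun z =>
    bigG n (tower h) (A • z) (actV A v) - bigG n (tower (h ∣[(n : ℤ) + 2] A)) z v
  have hD : ∀ z : ℍ, HasDerivAt (D ∘ ofComplex) 0 (z : ℂ) := by
    intro z
    have := (hasDerivAt_bigG_smul n hh.isTower A hA v z).sub
      (hasDerivAt_bigG n hhA.isTower v z)
    rw [sub_self] at this
    exact this
  exact const_of_hasDerivAt_zero hD z w

/-- The Eichler cocycle of `h` at the matrix `A`, evaluated at the vector `v`. -/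
noncomputable def cocyc (n : ℕ) (h : ℍ → ℂ) (A : GL (Fin 2) ℝ) (v : ℂ × ℂ) : ℂ :=
  bigG n (tower h) (A • UpperHalfPlane.I) (actV A v) -
    bigG n (tower (h ∣[(n : ℤ) + 2] A)) UpperHalfPlane.I v

theorem cocyc_eq (n : ℕ) {h : ℍ → ℂ} (A : GL (Fin 2) ℝ) (hA : 0 < A.det.val)
    (hh : HasTower h) (hhA : HasTower (h ∣[(n : ℤ) + 2] A)) (v : ℂ × ℂ) (z : ℍ) :
    cocyc n h A v =
      bigG n (tower h) (A • z) (actV A v) - bigG n (tower (h ∣[(n : ℤ) + 2] A)) z v :=
  bigG_sub_const n A hA hh hhA v _ _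

/-- The cocycle relation. -/
theorem cocyc_mul (n : ℕ) {h : ℍ → ℂ} (A B : GL (Fin 2) ℝ) (hA : 0 < A.det.val)
    (hB : 0 < B.det.val) (hh : HasTower h) (hhA : HasTower (h ∣[(n : ℤ) + 2] A))
    (hhAB : HasTower (h ∣[(n : ℤ) + 2] (A * B))) (v : ℂ × ℂ) :
    cocyc n h (A * B) v = cocyc n h A (actV B v) + cocyc n (h ∣[(n : ℤ) + 2] A) B v := by
  have hAB : 0 < (A * B).det.val := by
    rw [map_mul, Units.val_mul]
    exact mul_pos hA hB
  have hslash : h ∣[(n : ℤ) + 2] (A * B) = (h ∣[(n : ℤ) + 2] A) ∣[(n : ℤ) + 2] B :=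
    SlashAction.slash_mul _ _ _ _
  have hhAB' : HasTower ((h ∣[(n : ℤ) + 2] A) ∣[(n : ℤ) + 2] B) := hslash ▸ hhAB
  rw [cocyc_eq n (A * B) hAB hh hhAB v UpperHalfPlane.I,
    cocyc_eq n A hA hh hhA (actV B v) (B • UpperHalfPlane.I),
    cocyc_eq n B hB hhA hhAB' v UpperHalfPlane.I, actV_mul, mul_smul, hslash]
  ring

end Fermat.Agent.S22.H262

end
-- ===== PACK-END S22/H262/Cocycle.lean

-- ===== PACK-BEGIN S30/H529/TateTensor.lean
section



/-!
# S30 helper (helper529): the Tate module of `O ⊗ J`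

`J` is an abelian group with an action of a group `G` and commuting endomorphisms `T i`.
We transfer torsion statements from `J` to `O ⊗[ℤ] J` (flatness of `O` over `ℤ`) and apply
the core results of `TateCore`.
-/

set_option autoImplicit false
set_option linter.unusedSectionVars false

namespace Fermat.Agent.S30.H529

open IsLocalRing TensorProduct

noncomputable section

section Transfer

variable (O : Type*) [CommRing O] [Module.Flat ℤ O]
variable {J : Type*} [AddCommGroup J]

/-- Elements of `O ⊗ J` killed by `m` come from `O ⊗ J[m]`. -/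
theorem exists_lTensor_eq_of_smul_eq_zero (m : ℤ) (x : O ⊗[ℤ] J) (hx : m • x = 0) :
    ∃ z : O ⊗[ℤ] LinearMap.ker (m • (LinearMap.id : J →ₗ[ℤ] J)),
      (LinearMap.ker (m • (LinearMap.id : J →ₗ[ℤ] J))).subtype.lTensor O z = x := by
  have hex := LinearMap.exact_subtype_ker_map (m • (LinearMap.id : J →ₗ[ℤ] J))
  have hex2 := Module.Flat.lTensor_exact O hex
  have h1 : (m • (LinearMap.id : J →ₗ[ℤ] J)).lTensor O x = 0 := by
    rw [LinearMap.lTensor_smul, LinearMap.lTensor_id, LinearMap.smul_apply, LinearMap.id_apply,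
      hx]
  obtain ⟨z, hz⟩ := (hex2 x).mp h1
  exact ⟨z, hz⟩

/-- An endomorphism of `J` killing the `m`-torsion of `J` has a base change killing the
`m`-torsion of `O ⊗ J`. -/
theorem baseChange_eq_zero_of_torsion (m : ℤ) (A : J →ₗ[ℤ] J)
    (hA : ∀ y : J, m • y = 0 → A y = 0) (x : O ⊗[ℤ] J) (hx : m • x = 0) :
    A.baseChange O x = 0 := by
  obtain ⟨z, rfl⟩ := exists_lTensor_eq_of_smul_eq_zero O m x hx
  have h1 : A ∘ₗ (LinearMap.ker (m • (LinearMap.id : J →ₗ[ℤ] J))).subtype = 0 := by
    apply LinearMap.ext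
    intro y
    have hy := y.2
    rw [LinearMap.mem_ker, LinearMap.smul_apply, LinearMap.id_apply] at hy
    simpa using hA y hy
  have h2 : A.baseChange O ((LinearMap.ker (m • (LinearMap.id : J →ₗ[ℤ] J))).subtype.lTensor O z)
      = (A ∘ₗ (LinearMap.ker (m • (LinearMap.id : J →ₗ[ℤ] J))).subtype).lTensor O z := by
    rw [LinearMap.lTensor_comp]
    rfl
  rw [h2, h1, LinearMap.lTensor_zero, LinearMap.zero_apply]

/-- The `m`-torsion of `O ⊗ J` lies in a finitely generated submodule if `J[m]` is finite. -/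
theorem exists_fg_of_finite_torsion (m : ℤ) (hfin : {y : J | m • y = 0}.Finite) :
    ∃ Y : Submodule O (O ⊗[ℤ] J), Y.FG ∧ ∀ x : O ⊗[ℤ] J, m • x = 0 → x ∈ Y := by
  set K := LinearMap.ker (m • (LinearMap.id : J →ₗ[ℤ] J)) with hK
  have hKfin : Finite K := by
    have : (K : Set J) = {y : J | m • y = 0} := by
      ext y
      simp [hK]
    exact Set.finite_coe_iff.mpr (this ▸ hfin)
  have hmod : Module.Finite ℤ K := Module.Finite.of_finite
  refine ⟨LinearMap.range (K.subtype.baseChange O), ?_, ?_⟩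
  · rw [LinearMap.range_eq_map]
    exact Submodule.FG.map _ (Module.Finite.fg_top)
  · intro x hx
    obtain ⟨z, hz⟩ := exists_lTensor_eq_of_smul_eq_zero O m x hx
    exact ⟨z, hz⟩

end Transfer

/-! ### The action on `O ⊗ J` -/

section TensorAction

variable (O : Type*) [CommRing O]
variable {G : Type*} [Group G]
variable (J : Type*) [AddCommGroup J] [DistribMulAction G J]
variable {ι : Type*} (T : ι → J →+ J)

/-- The action of `γ` as a `ℤ`-linear map. -/
def actLin (γ : G) : J →ₗ[ℤ] J := (DistribSMul.toAddMonoidHom J γ).toIntLinearMap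

@[simp] theorem actLin_apply (γ : G) (x : J) : actLin J γ x = γ • x := rfl

/-- The action of `G` on `O ⊗ J`. -/
def tensorRep : G →* Module.End O (O ⊗[ℤ] J) where
  toFun γ := (actLin J γ).baseChange O
  map_one' := by
    have h : actLin J (1 : G) = LinearMap.id := by
      ext x
      simp
    rw [h, LinearMap.baseChange_id]
    rfl
  map_mul' γ δ := by
    have h : actLin J (γ * δ) = actLin J γ ∘ₗ actLin J δ := by
      ext x
      simp [mul_smul]
    rw [h, LinearMap.baseChange_comp]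
    rfl

theorem tensorRep_apply (γ : G) (x : O ⊗[ℤ] J) :
    tensorRep O J γ x = (actLin J γ).baseChange O x := rfl

variable {J}

/-- The operators on `O ⊗ J`. -/
def tensorOp (i : ι) : O ⊗[ℤ] J →ₗ[O] O ⊗[ℤ] J := (T i).toIntLinearMap.baseChange O

theorem tensorOp_apply (i : ι) (x : O ⊗[ℤ] J) :
    tensorOp O T i x = (T i).toIntLinearMap.baseChange O x := rfl

theorem tensorRep_tensorOp (hT : ∀ (i : ι) (γ : G) (x : J), T i (γ • x) = γ • T i x)
    (γ : G) (i : ι) (x : O ⊗[ℤ] J) :
    tensorRep O J γ (tensorOp O T i x) = tensorOp O T i (tensorRep O J γ x) := by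
  have h : actLin J γ ∘ₗ (T i).toIntLinearMap = (T i).toIntLinearMap ∘ₗ actLin J γ := by
    ext y
    simp [hT]
  have h2 := congrArg (fun f : J →ₗ[ℤ] J => f.baseChange O x) h
  simp only [LinearMap.baseChange_comp, LinearMap.comp_apply] at h2
  exact h2

end TensorAction

/-! ### Main theorem -/

section Main

variable (p : ℕ)
variable (O : Type) [CommRing O] [IsDomain O] [IsDiscreteValuationRing O]
  [IsAdicComplete (maximalIdeal O) O] [CharZero O]
variable {G : Type*} [Group G]
variable (J : Type) [AddCommGroup J] [DistribMulAction G J]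
variable {ι : Type*} (T : ι → J →+ J) (a : ι → O)

theorem natCast_pow_smul (n : ℕ) (x : O ⊗[ℤ] J) :
    ((p : O)) ^ n • x = ((p ^ n : ℕ) : ℤ) • x := by
  rw [← Int.cast_smul_eq_zsmul O]
  push_cast
  rfl

/-- **Abstract Tate module.**  Let `J` be an abelian group with an action of `G` and commuting
endomorphisms `T i`, with finite `p`-torsion, and let `v` be a nonzero compatible sequence of
eigenvectors in `(O ⊗ J)[p ^ (n + 1)]`.  Then there is a nonzero finite free `O`-module `M`
with an action `ρ` of `G` such that: elements of `G` fixing `J[p ^ n]` act trivially on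
`M / 𝔪 ^ n M`; elements fixing `J[p ^ ∞]` act trivially; quadratic relations
`γ² - T i γ + c = 0` on `J[p ^ ∞]` give `ρ γ² - a i ρ γ + c = 0`. -/
theorem exists_adic_eigenmodule (hpO : (p : O) ∈ maximalIdeal O) (hp0 : p ≠ 0)
    (hT : ∀ (i : ι) (γ : G) (x : J), T i (γ • x) = γ • T i x)
    (hfin : {x : J | p • x = 0}.Finite)
    (v : ℕ → O ⊗[ℤ] J) (hv0 : (p : O) • v 0 = 0) (hv : ∀ n, (p : O) • v (n + 1) = v n)
    (hne : v ≠ 0) (heig : ∀ i n, tensorOp O T i (v n) = a i • v n) :
    ∃ (M : Type) (_ : AddCommGroup M) (_ : Module O M) (_ : Module.Free O M)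
      (_ : Module.Finite O M) (ρ : G →* Module.End O M),
      Nontrivial M ∧
      (∀ (n : ℕ) (γ : G), (∀ x : J, p ^ n • x = 0 → γ • x = x) →
        ∀ m : M, ρ γ m - m ∈ (maximalIdeal O ^ n • ⊤ : Submodule O M)) ∧
      (∀ γ : G, (∀ x : J, (∃ n : ℕ, p ^ n • x = 0) → γ • x = x) → ρ γ = 1) ∧
      (∀ (γ : G) (i : ι) (c : ℤ),
        (∀ x : J, (∃ n : ℕ, p ^ n • x = 0) → γ • γ • x - T i (γ • x) + c • x = 0) →
        ρ γ * ρ γ - a i • ρ γ + (c : O) • (1 : Module.End O M) = 0) := by
  have hϖ0 : (p : O) ≠ 0 := by exact_mod_cast hp0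
  have hX : ∃ Y : Submodule O (O ⊗[ℤ] J), Y.FG ∧ ∀ x : O ⊗[ℤ] J, (p : O) • x = 0 → x ∈ Y := by
    obtain ⟨Y, hY, hYX⟩ := exists_fg_of_finite_torsion O (J := J) (p : ℤ) (by
      have : {y : J | (p : ℤ) • y = 0} = {x : J | p • x = 0} := by
        ext y
        simp
      rw [this]
      exact hfin)
    refine ⟨Y, hY, fun x hx => hYX x ?_⟩
    have := natCast_pow_smul p O J 1 x
    simp only [pow_one] at this
    rw [← this]
    exact hx
  have hρ := tensorRep_tensorOp O T hT
  have hfree := tateEigen_free (t := tensorOp O T) (a := a) hpO hϖ0 hX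
  have hfinite := tateEigen_finite (t := tensorOp O T) (a := a) hpO hϖ0 hX
  -- transfer of relations
  have htrans : ∀ (A : J →ₗ[ℤ] J) (n : ℕ), (∀ y : J, p ^ n • y = 0 → A y = 0) →
      ∀ x : O ⊗[ℤ] J, (p : O) ^ n • x = 0 → A.baseChange O x = 0 := by
    intro A n hA x hx
    apply baseChange_eq_zero_of_torsion O ((p ^ n : ℕ) : ℤ) A
    · intro y hy
      apply hA
      rwa [natCast_zsmul] at hy
    · rw [← natCast_pow_smul]
      exact hx
  refine ⟨tateEigen (p : O) (tensorOp O T) a, inferInstance, inferInstance, hfree, hfinite,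
    tateRep (tensorRep O J) hρ, ?_, ?_, ?_, ?_⟩
  · refine ⟨⟨⟨v, hv0, hv, heig⟩, 0, ?_⟩⟩
    intro h
    exact hne (congrArg Subtype.val h)
  · intro n γ hγ m
    apply tateRep_sub_mem (tensorRep O J) hρ hpO n γ
    intro x hx
    have h1 := htrans (actLin J γ - LinearMap.id) n (fun y hy => by
      simp [hγ y hy]) x hx
    rw [LinearMap.baseChange_sub, LinearMap.baseChange_id, LinearMap.sub_apply,
      LinearMap.id_apply, sub_eq_zero] at h1
    exact h1
  · intro γ hγ
    apply tateRep_eq_one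
    rintro x ⟨n, hx⟩
    have h1 := htrans (actLin J γ - LinearMap.id) n (fun y hy => by
      simp [hγ y ⟨n, hy⟩]) x hx
    rw [LinearMap.baseChange_sub, LinearMap.baseChange_id, LinearMap.sub_apply,
      LinearMap.id_apply, sub_eq_zero] at h1
    exact h1
  · intro γ i c hγ
    apply tateRep_quadratic
    rintro x ⟨n, hx⟩
    have h1 := htrans (actLin J γ ∘ₗ actLin J γ - (T i).toIntLinearMap ∘ₗ actLin J γ
      + c • LinearMap.id) n (fun y hy => by
        have := hγ y ⟨n, hy⟩
        simpa using this) x hx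
    rw [LinearMap.baseChange_add, LinearMap.baseChange_sub, LinearMap.baseChange_comp,
      LinearMap.baseChange_comp, LinearMap.baseChange_smul, LinearMap.baseChange_id] at h1
    simp only [LinearMap.add_apply, LinearMap.sub_apply, LinearMap.comp_apply,
      LinearMap.smul_apply, LinearMap.id_apply] at h1
    rw [Int.cast_smul_eq_zsmul]
    exact h1

end Main

end

end Fermat.Agent.S30.H529

end
-- ===== PACK-END S30/H529/TateTensor.lean

-- ===== PACK-BEGIN S24/D5/H108Growth.lean
section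


/-!
# D5: growth adapters and uniqueness for the polynomial principle

Mathlib-only (plus `H108Poly`).  Namespace `Fermat.Agent.S24.H108`.
-/

noncomputable section

open UpperHalfPlane ModularForm SlashInvariantForm SlashInvariantFormClass ModularFormClass
  CuspFormClass MatrixGroups OnePoint Filter EisensteinSeries Asymptotics

open scoped Topology Manifold Real

namespace Fermat.Agent.S24.H108

local notation "Δ" => ModularForm.discriminant

/-! ### Growth of `Δ` at `i∞` -/

lemma discriminant_isBigO_exp :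
    (Δ : ℍ → ℂ) =O[atImInfty] fun τ : ℍ => Real.exp (-(2 * π * τ.im)) := by
  have h := CuspFormClass.exp_decay_atImInfty (h := 1) CuspForm.discriminant one_pos
    one_mem_strictPeriods_SL
  refine h.congr_right fun τ => ?_
  congr 1
  ring

lemma discriminant_pow_isBigO_exp (m : ℕ) :
    (fun τ : ℍ => Δ τ ^ m) =O[atImInfty] fun τ : ℍ => Real.exp (-(2 * π * m * τ.im)) := by
  have h := discriminant_isBigO_exp.pow m
  refine h.congr_right fun τ => ?_
  rw [← Real.exp_nat_mul]
  congr 1
  ring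

lemma norm_qParam_one (τ : ℍ) :
    ‖Complex.exp (2 * π * Complex.I * τ)‖ = Real.exp (-(2 * π * τ.im)) := by
  rw [Complex.norm_exp]
  congr 1
  simp [Complex.mul_re, Complex.mul_im]

lemma discriminant_isBigO_qParam :
    (Δ : ℍ → ℂ) =O[atImInfty] fun τ : ℍ => Complex.exp (2 * π * Complex.I * τ) := by
  refine discriminant_isBigO_exp.trans (IsBigO.of_bound 1 (Eventually.of_forall fun τ => ?_))
  rw [norm_qParam_one, Real.norm_eq_abs, abs_of_pos (Real.exp_pos _), one_mul]

/-! ### Adapters -/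

/-- Exponential growth of order `m` implies `f * Δ ^ m` bounded at `i∞`. -/
lemma isBoundedAtImInfty_mul_discriminant_pow_of_exp_growth {f : ℍ → ℂ} {m : ℕ}
    (hgr : ∃ C A : ℝ, ∀ τ : ℍ, A ≤ τ.im → ‖f τ‖ ≤ C * Real.exp (2 * π * m * τ.im)) :
    IsBoundedAtImInfty (fun τ => f τ * Δ τ ^ m) := by
  obtain ⟨C, A, h⟩ := hgr
  have hf : f =O[atImInfty] fun τ : ℍ => Real.exp (2 * π * m * τ.im) := by
    refine IsBigO.of_bound C ?_
    have hA : ∀ᶠ τ : ℍ in atImInfty, A ≤ τ.im :=
      (Filter.eventually_ge_atTop A).comap UpperHalfPlane.im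
    filter_upwards [hA] with τ hτ
    rw [Real.norm_eq_abs, abs_of_pos (Real.exp_pos _)]
    exact h τ hτ
  have hprod := hf.mul (discriminant_pow_isBigO_exp m)
  rw [IsBoundedAtImInfty, BoundedAtFilter]
  refine hprod.congr_right fun τ => ?_
  rw [← Real.exp_add]
  simp

/-- `f * q ^ m` bounded at `i∞` implies `f * Δ ^ m` bounded at `i∞`. -/
lemma isBoundedAtImInfty_mul_discriminant_pow_of_qParam {f : ℍ → ℂ} {m : ℕ}
    (hbd : IsBoundedAtImInfty (fun τ : ℍ => f τ * Complex.exp (2 * π * Complex.I * τ) ^ m)) :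
    IsBoundedAtImInfty (fun τ => f τ * Δ τ ^ m) := by
  rw [IsBoundedAtImInfty, BoundedAtFilter] at hbd ⊢
  exact ((isBigO_refl f atImInfty).mul (discriminant_isBigO_qParam.pow m)).trans hbd

/-- **D5b.** An `SL(2,ℤ)`-invariant holomorphic function `f : ℍ → ℂ` with
`‖f τ‖ ≤ C * exp (2π m Im τ)` for `Im τ ≥ A` is a polynomial of degree `≤ m` in
`J = E₄³ / Δ`. -/
theorem exists_polynomial_of_invariant_of_exp_growth (f : ℍ → ℂ) (hf : MDiff f)
    (hinv : ∀ (γ : SL(2, ℤ)) (τ : ℍ), f (γ • τ) = f τ) (m : ℕ)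
    (hgr : ∃ C A : ℝ, ∀ τ : ℍ, A ≤ τ.im → ‖f τ‖ ≤ C * Real.exp (2 * π * m * τ.im)) :
    ∃ P : Polynomial ℂ, P.natDegree ≤ m ∧ ∀ τ : ℍ, f τ = P.eval (E₄ τ ^ 3 / Δ τ) :=
  exists_polynomial_of_invariant f hf hinv m
    (isBoundedAtImInfty_mul_discriminant_pow_of_exp_growth hgr)

/-- **D5b'.** Same with the hypothesis `f * q ^ m` bounded at `i∞`, `q = exp (2πiτ)`. -/
theorem exists_polynomial_of_invariant_of_qParam (f : ℍ → ℂ) (hf : MDiff f)
    (hinv : ∀ (γ : SL(2, ℤ)) (τ : ℍ), f (γ • τ) = f τ) (m : ℕ)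
    (hbd : IsBoundedAtImInfty (fun τ : ℍ => f τ * Complex.exp (2 * π * Complex.I * τ) ^ m)) :
    ∃ P : Polynomial ℂ, P.natDegree ≤ m ∧ ∀ τ : ℍ, f τ = P.eval (E₄ τ ^ 3 / Δ τ) :=
  exists_polynomial_of_invariant f hf hinv m
    (isBoundedAtImInfty_mul_discriminant_pow_of_qParam hbd)

end Fermat.Agent.S24.H108

end
end
-- ===== PACK-END S24/D5/H108Growth.lean

-- ===== PACK-BEGIN S35/G/H199/ValAut.lean
section


/-!
# S35 / (G') leaf TORIC — valuation rings stable under an automorphism (helper199)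

Mathlib-only (plus `A2.H48.IsUnif`).  `V` a valuation subring of a field `F`, `σ` an
automorphism of `F` with `σ V ⊆ V` and `σ⁻¹ V ⊆ V` (`StabAut V σ`).

* `StabAut.val_le_one_iff`, `val_eq_one_iff`, `val_lt_one_iff` : `σ` preserves the valuation
  conditions `≤ 1`, `= 1`, `< 1`;
* `StabAut.val_ratio` : if `V` is discrete with uniformiser `π`, then `σ f / f` is a unit of `V`
  for every `f ≠ 0`;
* `exists_pow_sub_mem_maximalIdeal_h199` : in a local ring with algebraically closed residue
  field every unit is an `m`-th power modulo the maximal ideal (`m > 0`).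
-/

set_option autoImplicit false

namespace Fermat.Agent.S35.G.H199

open Fermat.Agent.A2.H48

variable {F : Type*} [Field F]

/-- units of a valuation subring in terms of the valuation -/
theorem val_eq_one_iff_h199 (V : ValuationSubring F) {f : F} (hf : f ≠ 0) :
    V.valuation f = 1 ↔ f ∈ V ∧ f⁻¹ ∈ V := by
  rw [← V.valuation_le_one_iff, ← V.valuation_le_one_iff, map_inv₀]
  have h0 : 0 < V.valuation f := zero_lt_iff.2 ((Valuation.ne_zero_iff _).2 hf)
  constructor
  · intro h
    rw [h]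
    simp
  · rintro ⟨h1, h2⟩
    rw [inv_le_one₀ h0] at h2
    exact le_antisymm h1 h2

theorem val_lt_one_iff_h199 (V : ValuationSubring F) {f : F} :
    V.valuation f < 1 ↔ f ∈ V ∧ (f = 0 ∨ f⁻¹ ∉ V) := by
  by_cases hf : f = 0
  · subst hf
    simp
  have h1 := val_eq_one_iff_h199 V hf
  rw [← V.valuation_le_one_iff] at h1 ⊢
  constructor
  · intro h
    refine ⟨h.le, Or.inr fun h2 => ?_⟩
    have h3 : V.valuation f⁻¹ ≤ 1 := (V.valuation_le_one_iff _).2 h2
    rw [map_inv₀, inv_le_one₀ (zero_lt_iff.2 ((Valuation.ne_zero_iff _).2 hf))] at h3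
    exact absurd h (not_lt.2 h3)
  · rintro ⟨h2, h3 | h3⟩
    · exact absurd h3 hf
    · rcases lt_or_eq_of_le h2 with h4 | h4
      · exact h4
      · exact absurd (h1.1 h4).2 h3

/-- `σ` and `σ⁻¹` map `V` into itself. -/
structure StabAut (V : ValuationSubring F) (σ : F ≃+* F) : Prop where
  map : ∀ f ∈ V, σ f ∈ V
  symm : ∀ f ∈ V, σ.symm f ∈ V

namespace StabAut

variable {V : ValuationSubring F} {σ : F ≃+* F}

theorem mem_iff (h : StabAut V σ) {f : F} : σ f ∈ V ↔ f ∈ V :=
  ⟨fun hf => by simpa using h.symm _ hf, h.map f⟩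

theorem val_le_one_iff (h : StabAut V σ) (f : F) :
    V.valuation (σ f) ≤ 1 ↔ V.valuation f ≤ 1 := by
  rw [V.valuation_le_one_iff, V.valuation_le_one_iff, h.mem_iff]

theorem val_eq_one_iff (h : StabAut V σ) (f : F) :
    V.valuation (σ f) = 1 ↔ V.valuation f = 1 := by
  by_cases hf : f = 0
  · subst hf
    simp
  have hσf : σ f ≠ 0 := (map_ne_zero_iff σ σ.injective).2 hf
  rw [val_eq_one_iff_h199 V hf, val_eq_one_iff_h199 V hσf, ← map_inv₀, h.mem_iff, h.mem_iff]

theorem val_lt_one_iff (h : StabAut V σ) (f : F) :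
    V.valuation (σ f) < 1 ↔ V.valuation f < 1 := by
  rw [lt_iff_le_and_ne, lt_iff_le_and_ne, h.val_le_one_iff, Ne, Ne, h.val_eq_one_iff]

/-- the inverse automorphism -/
theorem inv (h : StabAut V σ) : StabAut V σ.symm :=
  ⟨h.symm, fun f hf => by simpa using h.map f hf⟩

/-- composition -/
theorem comp {τ : F ≃+* F} (h : StabAut V σ) (h' : StabAut V τ) :
    StabAut V (τ.trans σ) :=
  ⟨fun f hf => h.map _ (h'.map f hf), fun f hf => h'.symm _ (h.symm f hf)⟩

/-- **Ratio.**  `V` discrete with uniformiser `π`: `σ f / f` is a unit of `V`. -/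
theorem val_ratio (h : StabAut V σ) {π : F} (hπ : IsUnif V π)
    (hdisc : ∀ x ∈ V, x ≠ 0 → ∃ (n : ℕ) (u : F), u ∈ V ∧ u⁻¹ ∈ V ∧ x = π ^ n * u)
    {f : F} (hf : f ≠ 0) : V.valuation (σ f / f) = 1 := by
  -- the uniformiser
  have hπ0 : π ≠ 0 := hπ.ne_zero
  have hσπ : V.valuation (σ π) < 1 := (h.val_lt_one_iff π).2 hπ.val_lt_one
  have h1 : V.valuation (σ π) ≤ V.valuation π := hπ.val_le_of_lt_one hσπ
  have hσπ' : V.valuation (σ.symm π) < 1 := (h.inv.val_lt_one_iff π).2 hπ.val_lt_one
  have h2 : V.valuation (σ.symm π / π) ≤ 1 := by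
    rw [map_div₀]
    exact div_le_one_of_le₀ (hπ.val_le_of_lt_one hσπ') zero_le
  have h3 : V.valuation (π / σ π) ≤ 1 := by
    have := (h.val_le_one_iff (σ.symm π / π)).2 h2
    rwa [map_div₀, RingEquiv.apply_symm_apply] at this
  have hσπ0 : σ π ≠ 0 := (map_ne_zero_iff σ σ.injective).2 hπ0
  have hπv : V.valuation (σ π) = V.valuation π := by
    refine le_antisymm h1 ?_
    rw [map_div₀] at h3
    rwa [div_le_one₀ (zero_lt_iff.2 ((Valuation.ne_zero_iff _).2 hσπ0))] at h3
  -- elements of `V`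
  have key : ∀ x ∈ V, x ≠ 0 → V.valuation (σ x) = V.valuation x := by
    intro x hx hx0
    obtain ⟨n, u, hu, hui, rfl⟩ := hdisc x hx hx0
    have hu0 : u ≠ 0 := right_ne_zero_of_mul hx0
    have hu1 : V.valuation u = 1 := (val_eq_one_iff_h199 V hu0).2 ⟨hu, hui⟩
    rw [map_mul, map_pow, map_mul, map_mul, map_pow, map_pow, hπv, hu1,
      (h.val_eq_one_iff u).2 hu1]
  have hv : V.valuation (σ f) = V.valuation f := by
    rcases V.mem_or_inv_mem f with hfV | hfV
    · exact key f hfV hf
    · have := key f⁻¹ hfV (inv_ne_zero hf)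
      rwa [map_inv₀, map_inv₀, map_inv₀, inv_inj] at this
  rw [map_div₀, hv, div_self ((Valuation.ne_zero_iff _).2 hf)]

end StabAut

/-- In a local ring with algebraically closed residue field every unit is an `m`-th power of a
unit modulo the maximal ideal. -/
theorem exists_pow_sub_mem_maximalIdeal_h199 {R : Type*} [CommRing R] [IsLocalRing R]
    [IsAlgClosed (IsLocalRing.ResidueField R)] {m : ℕ} (hm : 0 < m) {e : R} (he : IsUnit e) :
    ∃ r : R, IsUnit r ∧ e - r ^ m ∈ IsLocalRing.maximalIdeal R := by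
  obtain ⟨z, hz⟩ := IsAlgClosed.exists_pow_nat_eq (IsLocalRing.residue R e) hm
  obtain ⟨r, rfl⟩ := IsLocalRing.residue_surjective z
  have hr : IsUnit r := by
    by_contra hr
    have h0 : IsLocalRing.residue R r = 0 :=
      (IsLocalRing.residue_eq_zero_iff r).2 ((IsLocalRing.mem_maximalIdeal r).2 hr)
    rw [h0, zero_pow hm.ne'] at hz
    have h1 : e ∈ IsLocalRing.maximalIdeal R := (IsLocalRing.residue_eq_zero_iff e).1 hz.symm
    exact (IsLocalRing.mem_maximalIdeal e).1 h1 he
  refine ⟨r, hr, ?_⟩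
  rw [← IsLocalRing.residue_eq_zero_iff, map_sub, map_pow, hz, sub_self]

end Fermat.Agent.S35.G.H199

namespace Fermat.Agent.S35.G.H199

open Fermat.Agent.A2.H48

variable {F : Type*} [Field F]

/-! ## The conjugate valuation ring `V ∘ e` -/

section Comap

variable (V : ValuationSubring F) (e : F ≃+* F)

theorem comap_val_le_one_iff (z : F) :
    (V.comap (e : F →+* F)).valuation z ≤ 1 ↔ V.valuation (e z) ≤ 1 := by
  rw [ValuationSubring.valuation_le_one_iff, ValuationSubring.valuation_le_one_iff,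
    ValuationSubring.mem_comap]
  rfl

theorem comap_val_eq_one_iff (z : F) :
    (V.comap (e : F →+* F)).valuation z = 1 ↔ V.valuation (e z) = 1 := by
  by_cases hz : z = 0
  · subst hz
    simp
  have hez : e z ≠ 0 := (map_ne_zero_iff e e.injective).2 hz
  rw [val_eq_one_iff_h199 _ hz, val_eq_one_iff_h199 _ hez, ValuationSubring.mem_comap,
    ValuationSubring.mem_comap, ← map_inv₀]
  rfl

theorem comap_val_lt_one_iff (z : F) :
    (V.comap (e : F →+* F)).valuation z < 1 ↔ V.valuation (e z) < 1 := by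
  rw [lt_iff_le_and_ne, lt_iff_le_and_ne, comap_val_le_one_iff, Ne, Ne, comap_val_eq_one_iff]

variable {V e}

theorem isUnif_comap {π : F} (hπ : IsUnif V π) (he : e π = π) :
    IsUnif (V.comap (e : F →+* F)) π where
  mem := by
    rw [ValuationSubring.mem_comap]
    show e π ∈ V
    rw [he]
    exact hπ.mem
  inv_not_mem := by
    rw [ValuationSubring.mem_comap]
    show ¬ e π⁻¹ ∈ V
    rw [map_inv₀, he]
    exact hπ.inv_not_mem
  gen := by
    intro f hf hfi
    rw [ValuationSubring.mem_comap] at hf hfi ⊢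
    show e (f * π⁻¹) ∈ V
    rw [map_mul, map_inv₀, he]
    refine hπ.gen _ hf ?_
    intro h
    apply hfi
    show e f⁻¹ ∈ V
    rwa [map_inv₀]

theorem disc_comap {π : F} (he : e π = π)
    (hdisc : ∀ x ∈ V, x ≠ 0 → ∃ (n : ℕ) (u : F), u ∈ V ∧ u⁻¹ ∈ V ∧ x = π ^ n * u) :
    ∀ x ∈ V.comap (e : F →+* F), x ≠ 0 →
      ∃ (n : ℕ) (u : F), u ∈ V.comap (e : F →+* F) ∧ u⁻¹ ∈ V.comap (e : F →+* F) ∧
        x = π ^ n * u := by
  intro x hx hx0
  rw [ValuationSubring.mem_comap] at hx
  have hex : e x ≠ 0 := (map_ne_zero_iff e e.injective).2 hx0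
  obtain ⟨n, u, hu, hui, hxu⟩ := hdisc (e x) hx hex
  refine ⟨n, e.symm u, ?_, ?_, ?_⟩
  · rw [ValuationSubring.mem_comap]
    show e (e.symm u) ∈ V
    rwa [RingEquiv.apply_symm_apply]
  · rw [ValuationSubring.mem_comap]
    show e (e.symm u)⁻¹ ∈ V
    rwa [map_inv₀, RingEquiv.apply_symm_apply]
  · apply e.injective
    rw [map_mul, map_pow, he, RingEquiv.apply_symm_apply]
    exact hxu

theorem StabAut.comap {σ : F ≃+* F} (h : StabAut V σ) (hc : ∀ f, σ (e f) = e (σ f)) :
    StabAut (V.comap (e : F →+* F)) σ where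
  map := by
    intro f hf
    rw [ValuationSubring.mem_comap] at hf ⊢
    show e (σ f) ∈ V
    rw [← hc]
    exact h.map _ hf
  symm := by
    intro f hf
    rw [ValuationSubring.mem_comap] at hf ⊢
    show e (σ.symm f) ∈ V
    have h1 : e (σ.symm f) = σ.symm (e f) := by
      apply σ.injective
      rw [hc, RingEquiv.apply_symm_apply, RingEquiv.apply_symm_apply]
    rw [h1]
    exact h.symm _ hf

end Comap

end Fermat.Agent.S35.G.H199

namespace Fermat.Agent.S35.G.H199

variable {F : Type*} [Field F]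

/-! ## Local embeddings -/

section Local

variable {K : Type*} [Field K] {O : ValuationSubring K} {V : ValuationSubring F} {φ : K →+* F}

theorem local_val_le_one_iff (h : ∀ a, φ a ∈ V ↔ a ∈ O) (a : K) :
    V.valuation (φ a) ≤ 1 ↔ O.valuation a ≤ 1 := by
  rw [ValuationSubring.valuation_le_one_iff, ValuationSubring.valuation_le_one_iff, h]

theorem local_val_eq_one_iff (h : ∀ a, φ a ∈ V ↔ a ∈ O) (a : K) :
    V.valuation (φ a) = 1 ↔ O.valuation a = 1 := by
  by_cases ha : a = 0
  · subst ha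
    simp
  have hφa : φ a ≠ 0 := (map_ne_zero φ).2 ha
  rw [val_eq_one_iff_h199 _ ha, val_eq_one_iff_h199 _ hφa, ← map_inv₀, h, h]

theorem local_val_lt_one_iff (h : ∀ a, φ a ∈ V ↔ a ∈ O) (a : K) :
    V.valuation (φ a) < 1 ↔ O.valuation a < 1 := by
  rw [lt_iff_le_and_ne, lt_iff_le_and_ne, local_val_le_one_iff h, Ne, Ne, local_val_eq_one_iff h]

end Local

end Fermat.Agent.S35.G.H199

end
-- ===== PACK-END S35/G/H199/ValAut.lean

-- ===== PACK-BEGIN S28/Basis.lean
section
/-
S28: the interface `BasisData` between the CORE (any route) and the valuation layer [V]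
(helper28).  It is K-free and does not ask the basis elements to lie in `F`.

`BasisData N ℓ` : there are `n` integral q-series `y i ∈ ℤ((q))` which
  (B1) are integral over `ℤ_(ℓ)[j]`,
  (B2) span (a space containing) `F = modularFunctionFieldFull N` over `ℚ(j)`
       -- polynomial form, denominators cleared,
  (B3) have reductions mod `ℓ` independent over `𝔽_ℓ[j̄]` -- polynomial form.
Route (a) (prime level + tower, `CoreData`) produces it with monomials in the `j(q^d)`;
route (d) (single modular unit `u`, irreducibility criterion) with `y i = u ^ i`.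
-/



set_option autoImplicit false
open ModularCurve
noncomputable section

namespace Fermat.Agent.S28

/-- The CORE output consumed by the valuation layer [V]. -/
structure BasisData (N : ℕ) [NeZero N] (ℓ : ℕ) [Fact ℓ.Prime] : Prop where
  exists_basis : ∃ (n : ℕ) (y : Fin n → LaurentSeries ℤ),
    -- (B1) each `y i` is a root of a polynomial in `X` over `ℤ[j]` whose leading
    -- coefficient is a constant `c` prime to `ℓ`
    (∀ i, ∃ (c : ℕ) (P : Polynomial (Polynomial ℤ)), ¬ ℓ ∣ c ∧
        P.leadingCoeff = Polynomial.C (c : ℤ) ∧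
        P.eval₂ (evalAt (jqModC ℤ)) (y i) = 0) ∧
    -- (B2) span over `ℚ(j)`, denominators cleared
    (∀ x ∈ modularFunctionFieldFull N, ∃ (g : Polynomial ℤ) (f : Fin n → Polynomial ℤ),
        g ≠ 0 ∧ evalAt (jqModC ℚ) g * x =
          ∑ i, evalAt (jqModC ℚ) (f i) * coeffMap (Int.castRingHom ℚ) (y i)) ∧
    -- (B3) independence mod `ℓ` over `𝔽_ℓ[j̄]`
    (∀ f : Fin n → Polynomial (ZMod ℓ),
        ∑ i, Polynomial.aeval (jqModC (ZMod ℓ)) (f i) *
          coeffMap (Int.castRingHom (ZMod ℓ)) (y i) = 0 → ∀ i, f i = 0)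

end Fermat.Agent.S28

end
end
-- ===== PACK-END S28/Basis.lean

-- ===== PACK-BEGIN S35/H252/FieldAut.lean
section
/-
S35, piece (X-forms) (helper252): commutative algebra.

* `ker_le_of_isIntegral` : two characters `χ ψ : A → ℂ` with `ker χ ≤ ker ψ`, `χ` having integral
  values (in the strong form: every `s` is killed modulo `ker χ` by a monic integral polynomial),
  have the same kernel;
* `exists_ringEquiv_of_ker_eq` : two characters `χ ψ : A → ℂ` with the same kernel and algebraic
  values differ by a ring automorphism of `ℂ`.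
-/


set_option autoImplicit false
set_option linter.style.haveILetI false

namespace Fermat.Agent.S35.H252

open Polynomial

/-- If `ker χ ≤ ker ψ` and every element of `A` is integral over `ℤ` modulo `ker χ`, then
`ker ψ ≤ ker χ`. -/
theorem ker_le_of_isIntegral {A : Type*} [CommRing A] (χ ψ : A →+* ℂ)
    (hker : RingHom.ker χ ≤ RingHom.ker ψ)
    (hint : ∀ s : A, ∃ P : ℤ[X], P.Monic ∧ eval₂ (algebraMap ℤ A) s P ∈ RingHom.ker χ) :
    RingHom.ker ψ ≤ RingHom.ker χ := by
  intro s hs
  rw [RingHom.mem_ker] at hs ⊢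
  by_contra hx
  obtain ⟨P, hPmonic, hP⟩ := hint s
  have hP0 : P ≠ 0 := hPmonic.ne_zero
  obtain ⟨Q, hPQ, hQ⟩ := Polynomial.exists_eq_pow_rootMultiplicity_mul_and_not_dvd P hP0 0
  rw [map_zero, sub_zero] at hPQ hQ
  have hQ0 : Q.eval 0 ≠ 0 := by
    intro h0
    apply hQ
    have : (X - C (0 : ℤ)) ∣ Q := Polynomial.dvd_iff_isRoot.mpr h0
    simpa using this
  have e1 : ∀ R : ℤ[X], χ (eval₂ (algebraMap ℤ A) s R) = eval₂ (Int.castRingHom ℂ) (χ s) R := by
    intro R
    rw [Polynomial.hom_eval₂]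
    congr 1
    exact RingHom.ext_int _ _
  have e2 : ∀ R : ℤ[X], ψ (eval₂ (algebraMap ℤ A) s R) = eval₂ (Int.castRingHom ℂ) (ψ s) R := by
    intro R
    rw [Polynomial.hom_eval₂]
    congr 1
    exact RingHom.ext_int _ _
  have h1 := e1 P
  rw [RingHom.mem_ker.mp hP, hPQ, eval₂_mul, eval₂_pow, eval₂_X] at h1
  have h2 : eval₂ (Int.castRingHom ℂ) (χ s) Q = 0 := by
    rcases mul_eq_zero.mp h1.symm with h | h
    · exact absurd h (pow_ne_zero _ hx)
    · exact h
  have h3 : eval₂ (algebraMap ℤ A) s Q ∈ RingHom.ker ψ := by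
    apply hker
    rw [RingHom.mem_ker, e1 Q, h2]
  rw [RingHom.mem_ker, e2 Q, hs] at h3
  have h4 : ((Q.eval 0 : ℤ) : ℂ) = 0 := by
    rw [← h3, Polynomial.eval₂_at_zero, Polynomial.coeff_zero_eq_eval_zero]
    rfl
  exact hQ0 (by exact_mod_cast h4)

/-- Two characters with values in `ℂ`, with the same kernel and with algebraic values, differ by
a ring automorphism of `ℂ`. -/
theorem exists_ringEquiv_of_ker_eq {A : Type*} [CommRing A] (χ ψ : A →+* ℂ)
    (hker : RingHom.ker χ = RingHom.ker ψ) (halg : ∀ s : A, IsAlgebraic ℚ (χ s)) :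
    ∃ σ : ℂ ≃+* ℂ, ∀ s : A, σ (χ s) = ψ s := by
  classical
  -- `ψ` factors through the range of `χ`
  have hf : Function.Surjective χ.rangeRestrict := χ.rangeRestrict_surjective
  have hfker : RingHom.ker χ.rangeRestrict = RingHom.ker χ := RingHom.ker_rangeRestrict χ
  let ψ' : χ.range →+* ℂ :=
    RingHom.liftOfSurjective χ.rangeRestrict hf ⟨ψ, by rw [hfker, hker]⟩
  have hψ' : ∀ s : A, ψ' (χ.rangeRestrict s) = ψ s := fun s =>
    RingHom.liftOfSurjective_comp_apply χ.rangeRestrict hf ⟨ψ, by rw [hfker, hker]⟩ s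
  have hψ'inj : Function.Injective ψ' := by
    rw [injective_iff_map_eq_zero]
    intro y hy
    obtain ⟨s, rfl⟩ := hf y
    rw [hψ' s] at hy
    have hs : s ∈ RingHom.ker χ := by rw [hker]; exact hy
    exact Subtype.ext hs
  -- the fraction field of the range
  let F := FractionRing χ.range
  let ιF : F →+* ℂ := IsFractionRing.lift (A := χ.range) (K := F) (g := χ.range.subtype)
    Subtype.val_injective
  let ψF : F →+* ℂ := IsFractionRing.lift (A := χ.range) (K := F) (g := ψ') hψ'inj
  have hιF : ∀ y : χ.range, ιF (algebraMap χ.range F y) = (y : ℂ) := fun y =>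
    IsFractionRing.lift_algebraMap _ y
  have hψF : ∀ y : χ.range, ψF (algebraMap χ.range F y) = ψ' y := fun y =>
    IsFractionRing.lift_algebraMap _ y
  haveI : CharZero F := ⟨fun a b hab => Nat.cast_injective (R := ℂ) (by
    have h := congrArg ιF hab
    rwa [map_natCast, map_natCast] at h)⟩
  let ιA : F →ₐ[ℚ] ℂ := ιF.toRatAlgHom
  let ψA : F →ₐ[ℚ] ℂ := ψF.toRatAlgHom
  -- the image field is algebraic over `ℚ`
  have hmem : ∀ z : F, ιF z ∈ algebraicClosure ℚ ℂ := by
    intro z
    obtain ⟨x, y, -, rfl⟩ := IsFractionRing.div_surjective (A := χ.range) z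
    rw [map_div₀, hιF, hιF]
    obtain ⟨s, hs⟩ := hf x
    obtain ⟨s', hs'⟩ := hf y
    refine div_mem ?_ ?_
    · rw [mem_algebraicClosure_iff, ← hs]
      exact halg s
    · rw [mem_algebraicClosure_iff, ← hs']
      exact halg s'
  let e : F ≃ₐ[ℚ] ιA.fieldRange := AlgEquiv.ofInjectiveField ιA
  have he : ∀ z : F, ((e z : ιA.fieldRange) : ℂ) = ιF z := fun z => rfl
  haveI : Algebra.IsAlgebraic ℚ F :=
    ⟨fun z => (isAlgebraic_algHom_iff ιA ιA.injective).mp (mem_algebraicClosure_iff.mp (hmem z))⟩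
  haveI : Algebra.IsAlgebraic ℚ ιA.fieldRange := e.isAlgebraic
  let τ : ιA.fieldRange →ₐ[ℚ] ℂ := ψA.comp e.symm.toAlgHom
  obtain ⟨σ, hσ⟩ := Fermat.Agent.S48.H308.exists_ringEquiv_extending ιA.fieldRange τ
  refine ⟨σ, fun s => ?_⟩
  have h1 := hσ (e (algebraMap χ.range F (χ.rangeRestrict s)))
  rw [he, hιF] at h1
  have h2 : τ (e (algebraMap χ.range F (χ.rangeRestrict s)))
      = ψF (algebraMap χ.range F (χ.rangeRestrict s)) := by
    show ψA (e.symm (e (algebraMap χ.range F (χ.rangeRestrict s)))) = _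
    rw [AlgEquiv.symm_apply_apply]
    rfl
  rw [h2, hψF, hψ'] at h1
  exact h1

end Fermat.Agent.S35.H252

end
-- ===== PACK-END S35/H252/FieldAut.lean

-- ===== PACK-BEGIN Lib/Newform/H958/X/FE.lean
section



/-!
# NEWFORM block X — leaf X3 (`FunctionalEq`)

`Λ_f(2 - s) = - N^{s-1} Λ_{f ∣ W_N}(s)`, from Mathlib's functional equation for
`ModularForm.weakFEPair` and the substitution `t ↦ N t` in the Mellin transform.
-/

set_option autoImplicit false

open CongruenceSubgroup Complex
open UpperHalfPlane hiding I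
open scoped MatrixGroups ModularForm

namespace Fermat.Agent.Lib.Newform.H958.X

open ModularFormClass ModularForm

/-- `W_N = S * diag(N, 1)`. -/
theorem frickeMatrix_eq (N : ℕ) [NeZero N] :
    frickeMatrix N = (ModularGroup.S : GL (Fin 2) ℝ) * heckeDiagMatrix N := by
  apply Matrix.GeneralLinearGroup.ext
  intro i j
  have hN : N ≠ 0 := NeZero.ne N
  rw [Matrix.GeneralLinearGroup.coe_mul, val_heckeDiagMatrix hN]
  fin_cases i <;> fin_cases j <;>
    simp [frickeMatrix, ModularGroup.S, Matrix.mul_apply, Fin.sum_univ_two]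

/-- `(f ∣ W_N)(τ) = N (f ∣ S)(N τ)`. -/
theorem slash_frickeMatrix_apply (N : ℕ) [NeZero N] (f : ℍ → ℂ) (τ : ℍ) :
    (f ∣[(2 : ℤ)] frickeMatrix N) τ =
      (N : ℂ) * (f ∣[(2 : ℤ)] (ModularGroup.S : GL (Fin 2) ℝ)) (heckeDiagMatrix N • τ) := by
  rw [frickeMatrix_eq, SlashAction.slash_mul, slash_heckeDiagMatrix_apply 2 (NeZero.ne N)]
  norm_num

theorem heckeDiagMatrix_smul_ofComplex (N : ℕ) [NeZero N] {t : ℝ} (ht : 0 < t) :
    heckeDiagMatrix N • ofComplex (I * t) = ofComplex (I * (((N : ℝ) * t : ℝ) : ℂ)) := by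
  have hN : (0 : ℝ) < N := Nat.cast_pos.mpr (Nat.pos_of_ne_zero (NeZero.ne N))
  apply UpperHalfPlane.ext
  rw [coe_heckeDiagMatrix_smul (NeZero.ne N)]
  rw [ofComplex_apply_of_im_pos (by simpa using ht),
    ofComplex_apply_of_im_pos (by simpa using mul_pos hN ht)]
  push_cast
  ring

theorem functionalEq : FunctionalEq := by
  intro N _ f f' hf' s
  have hN : (0 : ℝ) < N := Nat.cast_pos.mpr (Nat.pos_of_ne_zero (NeZero.ne N))
  have hNc : (N : ℂ) ≠ 0 := Nat.cast_ne_zero.mpr (NeZero.ne N)
  have hP : IsStrongFEPair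
      (weakFEPair (Γ := (Gamma0 N : Subgroup (GL (Fin 2) ℝ))) (k := 2) two_pos f) :=
    CuspForm.isStrongFEPair two_pos f
  have hfe := (weakFEPair (Γ := (Gamma0 N : Subgroup (GL (Fin 2) ℝ))) (k := 2) two_pos f
    ).functional_equation s
  rw [hP.symm_Λ_eq] at hfe
  have hε : (weakFEPair (Γ := (Gamma0 N : Subgroup (GL (Fin 2) ℝ))) (k := 2) two_pos f).ε
      = -1 := by
    simp [weakFEPair]
  have hk : ((weakFEPair (Γ := (Gamma0 N : Subgroup (GL (Fin 2) ℝ))) (k := 2) two_pos f).k : ℂ)
      = 2 := by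
    simp [weakFEPair]
  rw [hε, hk] at hfe
  -- the Mellin transform of `t ↦ (f ∣ S)(i t)`
  have hmel : mellin
      (weakFEPair (Γ := (Gamma0 N : Subgroup (GL (Fin 2) ℝ))) (k := 2) two_pos f).g s =
      (N : ℂ) ^ (s - 1) * Lam f' s := by
    have h1 : Lam f' = mellin (fun t : ℝ => f' (ofComplex (I * t))) :=
      CuspForm.Λ_eq_mellin two_pos f'
    rw [h1]
    have h2 : mellin
        (weakFEPair (Γ := (Gamma0 N : Subgroup (GL (Fin 2) ℝ))) (k := 2) two_pos f).g s =
        mellin (fun t : ℝ => ((N : ℂ)⁻¹) •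
          (fun u : ℝ => f' (ofComplex (I * u))) ((N : ℝ)⁻¹ * t)) s := by
      refine MeasureTheory.setIntegral_congr_fun measurableSet_Ioi fun t ht => ?_
      have ht' : (0 : ℝ) < t := ht
      have hu : (0 : ℝ) < (N : ℝ)⁻¹ * t := mul_pos (inv_pos.mpr hN) ht'
      dsimp only
      congr 1
      simp only [weakFEPair, smul_eq_mul]
      rw [hf', slash_frickeMatrix_apply, heckeDiagMatrix_smul_ofComplex N hu,
        ← mul_assoc, inv_mul_cancel₀ hNc, one_mul]
      have : (N : ℝ) * ((N : ℝ)⁻¹ * t) = t := by field_simp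
      rw [this]
      rfl
    have h3 := mellin_comp_mul_left (fun u : ℝ => f' (ofComplex (I * u))) s (inv_pos.mpr hN)
    rw [h2, mellin_const_smul]
    dsimp only at h3 ⊢
    rw [h3]
    simp only [smul_eq_mul]
    rw [← mul_assoc]
    congr 1
    rw [ofReal_inv, ofReal_natCast, inv_cpow_eq_ite]
    have harg : ((N : ℂ)).arg ≠ Real.pi := by
      rw [Complex.natCast_arg]
      exact Real.pi_ne_zero.symm
    rw [if_neg harg, Complex.cpow_neg, inv_inv, Complex.cpow_sub _ _ hNc, Complex.cpow_one]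
    field_simp
  show ModularForm.Λ (k := 2) two_pos f (2 - s) = _
  rw [ModularForm.Λ, hfe, hmel]
  simp

end Fermat.Agent.Lib.Newform.H958.X

end
-- ===== PACK-END Lib/Newform/H958/X/FE.lean

-- ===== PACK-BEGIN Lib/Newform/H683/XIndep.lean
section
/-
NEWFORM library, block X (helper683) — **X7 IndepLocal**: independence of the functions
`s ↦ p ^ (-s)`, `p` prime: an identity between products of one-variable polynomials in the
`p ^ (-s)` splits prime by prime, up to constants.

Pure algebra (Dedekind independence of characters + unique factorization); Mathlib only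
(+ the frozen interface `H958/X/Spec.lean`).
-/


set_option autoImplicit false

open Complex Polynomial

namespace Fermat.Agent.Lib.Newform.H683

/-- the integer `∏ p ^ d p` attached to an exponent vector on the primes -/
noncomputable def primeMonomial (d : Nat.Primes →₀ ℕ) : ℕ := d.prod fun p k => (p : ℕ) ^ k

theorem primeMonomial_ne_zero (d : Nat.Primes →₀ ℕ) : primeMonomial d ≠ 0 := by
  unfold primeMonomial Finsupp.prod
  exact Finset.prod_ne_zero_iff.mpr fun p _ => pow_ne_zero _ p.2.ne_zero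

theorem primeMonomial_injective : Function.Injective primeMonomial := by
  intro d d' h
  have hinj : Function.Injective (fun p : Nat.Primes => (p : ℕ)) := Nat.Primes.coe_nat_injective
  have key : ∀ e : Nat.Primes →₀ ℕ,
      (primeMonomial e).factorization = Finsupp.mapDomain (fun p : Nat.Primes => (p : ℕ)) e := by
    intro e
    have h1 : primeMonomial e =
        (Finsupp.mapDomain (fun p : Nat.Primes => (p : ℕ)) e).prod (· ^ ·) := by
      unfold primeMonomial
      rw [Finsupp.prod_mapDomain_index_inj hinj]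
    rw [h1]
    apply Nat.prod_pow_factorization_eq_self
    intro p hp
    have := Finsupp.mapDomain_support hp
    simp only [Finset.mem_image] at this
    obtain ⟨q, -, rfl⟩ := this
    exact q.2
  have h2 := key d
  rw [h, key d'] at h2
  exact (Finsupp.mapDomain_injective hinj h2).symm

/-- the character `s ↦ ∏ (p ^ (-s)) ^ d p` of the additive group of `ℂ` -/
noncomputable def primeChar (d : Nat.Primes →₀ ℕ) : Multiplicative ℂ →* ℂ where
  toFun s := ∏ i ∈ d.support, (((i : ℕ) : ℂ) ^ (-(Multiplicative.toAdd s))) ^ d i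
  map_one' := by simp
  map_mul' s t := by
    rw [← Finset.prod_mul_distrib]
    refine Finset.prod_congr rfl fun i _ => ?_
    have hi : ((i : ℕ) : ℂ) ≠ 0 := Nat.cast_ne_zero.mpr i.2.ne_zero
    rw [← mul_pow, toAdd_mul, neg_add, cpow_add _ _ hi]

theorem primeChar_apply (d : Nat.Primes →₀ ℕ) (s : ℂ) :
    primeChar d (Multiplicative.ofAdd s) = ∏ i ∈ d.support, (((i : ℕ) : ℂ) ^ (-s)) ^ d i := rfl

theorem primeChar_injective : Function.Injective primeChar := by
  intro d d' h
  apply primeMonomial_injective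
  have h1 := congrArg (fun χ : Multiplicative ℂ →* ℂ => χ (Multiplicative.ofAdd (-1))) h
  simp only [primeChar_apply, neg_neg, cpow_one] at h1
  have h2 : ∀ e : Nat.Primes →₀ ℕ,
      (∏ i ∈ e.support, (((i : ℕ) : ℂ)) ^ e i) = ((primeMonomial e : ℕ) : ℂ) := by
    intro e
    unfold primeMonomial Finsupp.prod
    push_cast
    rfl
  rw [h2, h2] at h1
  exact_mod_cast h1

/-- **Independence**: a polynomial in the functions `p ^ (-s)` which vanishes identically
is zero. -/
theorem mvPolynomial_eq_zero_of_eval_primes (G : MvPolynomial Nat.Primes ℂ)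
    (h : ∀ s : ℂ, MvPolynomial.eval (fun p : Nat.Primes => ((p : ℕ) : ℂ) ^ (-s)) G = 0) :
    G = 0 := by
  have hli : LinearIndependent ℂ
      ((fun f : Multiplicative ℂ →* ℂ => (f : Multiplicative ℂ → ℂ)) ∘ primeChar) :=
    (linearIndependent_monoidHom (Multiplicative ℂ) ℂ).comp primeChar primeChar_injective
  have hsum : ∑ d ∈ G.support, G.coeff d •
      ((fun f : Multiplicative ℂ →* ℂ => (f : Multiplicative ℂ → ℂ)) ∘ primeChar) d = 0 := by
    funext s
    have := h (Multiplicative.toAdd s)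
    rw [MvPolynomial.eval_eq] at this
    simp only [Finset.sum_apply, Pi.smul_apply, Function.comp_apply, smul_eq_mul, Pi.zero_apply]
    exact this
  have hzero := linearIndependent_iff'.mp hli G.support (fun d => G.coeff d) hsum
  by_contra hG
  obtain ⟨d, hd⟩ := MvPolynomial.support_nonempty.mpr hG |>.exists_mem
    |> fun ⟨d, hd⟩ => (⟨d, hd⟩ : ∃ d, d ∈ G.support)
  exact (MvPolynomial.mem_support_iff.mp hd) (hzero d hd)

/-- a nonzero complex polynomial has a non-root; two of them have a common non-root -/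
theorem exists_eval_ne_zero_both {P Q : ℂ[X]} (hP : P ≠ 0) (hQ : Q ≠ 0) :
    ∃ x : ℂ, P.eval x ≠ 0 ∧ Q.eval x ≠ 0 := by
  have hPQ : P * Q ≠ 0 := mul_ne_zero hP hQ
  by_contra hcon
  push Not at hcon
  apply hPQ
  apply Polynomial.eq_zero_of_infinite_isRoot
  have : {x : ℂ | (P * Q).IsRoot x} = Set.univ := by
    ext x
    simp only [Set.mem_univ, iff_true, Polynomial.IsRoot, Polynomial.eval_mul]
    by_cases h : P.eval x = 0
    · simp [h]
    · simp [hcon x h]
  rw [this]
  exact Set.infinite_univ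

/-- **X7 IndepLocal.** -/
theorem indepLocal : Fermat.Agent.Lib.Newform.H958.X.IndepLocal := by
  classical
  intro T hT A B hA hB hid q hq
  -- the two polynomials in the variables `X_p`
  let v : {p // p ∈ T} → Nat.Primes := fun p => ⟨p.1, hT p.1 p.2⟩
  let FA : MvPolynomial Nat.Primes ℂ :=
    ∏ p ∈ T.attach, Polynomial.aeval (MvPolynomial.X (v p) : MvPolynomial Nat.Primes ℂ) (A p.1)
  let FB : MvPolynomial Nat.Primes ℂ :=
    ∏ p ∈ T.attach, Polynomial.aeval (MvPolynomial.X (v p) : MvPolynomial Nat.Primes ℂ) (B p.1)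
  have hev : ∀ (P : ℕ → ℂ[X]) (x : Nat.Primes → ℂ),
      MvPolynomial.eval x (∏ p ∈ T.attach,
        Polynomial.aeval (MvPolynomial.X (v p) : MvPolynomial Nat.Primes ℂ) (P p.1))
        = ∏ p ∈ T.attach, (P p.1).eval (x (v p)) := by
    intro P x
    rw [map_prod]
    refine Finset.prod_congr rfl fun p _ => ?_
    have := Polynomial.aeval_algHom_apply (MvPolynomial.aeval x : MvPolynomial Nat.Primes ℂ →ₐ[ℂ] ℂ)
      (MvPolynomial.X (v p)) (P p.1)
    rw [MvPolynomial.aeval_X] at this
    rw [← MvPolynomial.coe_aeval_eq_eval]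
    simpa [Polynomial.aeval_def, Polynomial.eval₂_eq_eval_map] using this.symm
  have heq : FA = FB := by
    refine sub_eq_zero.mp (mvPolynomial_eq_zero_of_eval_primes (FA - FB) fun s => ?_)
    rw [map_sub, hev A, hev B, sub_eq_zero]
    have h1 := hid s
    rw [← Finset.prod_attach T, ← Finset.prod_attach T (fun p => (B p).eval ((p : ℂ) ^ (-s)))]
      at h1
    exact h1
  -- good evaluation points
  have hex : ∀ p : ℕ, ∃ x : ℂ, p ∈ T → ((A p).eval x ≠ 0 ∧ (B p).eval x ≠ 0) := by
    intro p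
    by_cases hp : p ∈ T
    · obtain ⟨x, hx⟩ := exists_eval_ne_zero_both (hA p hp) (hB p hp)
      exact ⟨x, fun _ => hx⟩
    · exact ⟨0, fun h => absurd h hp⟩
  choose x hx using hex
  -- specialise all variables except `X_q`
  let φ : MvPolynomial Nat.Primes ℂ →ₐ[ℂ] ℂ[X] :=
    MvPolynomial.aeval (fun p : Nat.Primes => if (p : ℕ) = q then (X : ℂ[X]) else C (x p))
  have hφ : ∀ (P : ℕ → ℂ[X]),
      φ (∏ p ∈ T.attach,
        Polynomial.aeval (MvPolynomial.X (v p) : MvPolynomial Nat.Primes ℂ) (P p.1))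
        = P q * C (∏ p ∈ T.erase q, (P p).eval (x p)) := by
    intro P
    rw [map_prod]
    have h1 : ∀ p : {p // p ∈ T},
        φ (Polynomial.aeval (MvPolynomial.X (v p) : MvPolynomial Nat.Primes ℂ) (P p.1))
          = (fun p : ℕ => if p = q then P p else C ((P p).eval (x p))) p.1 := by
      intro p
      rw [← Polynomial.aeval_algHom_apply, MvPolynomial.aeval_X]
      by_cases hpq : p.1 = q
      · have : ((v p : Nat.Primes) : ℕ) = q := hpq
        simp only [this, if_true, hpq]
        exact Polynomial.aeval_X_left_apply _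
      · have : ¬ ((v p : Nat.Primes) : ℕ) = q := hpq
        simp only [this, if_false, hpq]
        rw [Polynomial.C_eq_algebraMap, Polynomial.aeval_algebraMap_apply_eq_algebraMap_eval]
        rfl
    rw [Finset.prod_congr rfl (fun p _ => h1 p),
      Finset.prod_attach T (fun p : ℕ => if p = q then P p else C ((P p).eval (x p))),
      ← Finset.mul_prod_erase T _ hq, if_pos rfl, map_prod]
    congr 1
    refine Finset.prod_congr rfl fun p hp => ?_
    rw [if_neg (Finset.ne_of_mem_erase hp)]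
  have hAB : A q * C (∏ p ∈ T.erase q, (A p).eval (x p))
      = B q * C (∏ p ∈ T.erase q, (B p).eval (x p)) := by
    rw [← hφ A, ← hφ B]
    exact congrArg φ heq
  set α : ℂ := ∏ p ∈ T.erase q, (A p).eval (x p) with hα
  set β : ℂ := ∏ p ∈ T.erase q, (B p).eval (x p) with hβ
  have hα0 : α ≠ 0 := Finset.prod_ne_zero_iff.mpr fun p hp =>
    (hx p (Finset.mem_of_mem_erase hp)).1
  have hβ0 : β ≠ 0 := Finset.prod_ne_zero_iff.mpr fun p hp =>
    (hx p (Finset.mem_of_mem_erase hp)).2
  refine ⟨β * α⁻¹, mul_ne_zero hβ0 (inv_ne_zero hα0), ?_⟩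
  calc A q = A q * C α * C α⁻¹ := by
        rw [mul_assoc, ← C_mul, mul_inv_cancel₀ hα0, C_1, mul_one]
    _ = B q * C β * C α⁻¹ := by rw [hAB]
    _ = C (β * α⁻¹) * B q := by rw [C_mul]; ring

end Fermat.Agent.Lib.Newform.H683

end
-- ===== PACK-END Lib/Newform/H683/XIndep.lean

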