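import Mathlib
import Fermat.Prelude.Def_AlgebraicGeometry_RelativePicardFunctor
import Fermat.Agent.Pack.S43MC.G0E5L0
import Fermat.Agent.Pack.S43MC.G0E0L3
import Fermat.Agent.Pack.S43MC.G0E5L2
import Fermat.Agent.Pack.S43MC.G0E5L3
import Fermat.Agent.Pack.S43MC.G0E0L1
import Fermat.Agent.Pack.S43MC.G0E0L0
import Fermat.Agent.Pack.S43MC.G0E5L1
import Fermat.Agent.Pack.S43MC.G0E6L0
import Fermat.Agent.Pack.S43MC.G0E6L1
import Fermat.Agent.Pack.Fast891

-- ===== PACK-BEGIN S25/H626/LocalGen.lean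
section
/-
S25 helper (helper626), block GLUE, leaf G4 (part 3): an invertible module (Prelude's
`Scheme.Modules.IsInvertible`, phrased with `Scheme.Modules.pullback U.ι`) has local generators
in the sectionwise sense.
-/




set_option autoImplicit false

universe u

noncomputable section

open CategoryTheory AlgebraicGeometry TopologicalSpace Opposite

namespace Fermat.Agent.S25.H626

section UnitSections

variable (Y : Scheme.{u})

/-- The unit module `𝒪_Y`. -/
abbrev unitMod : Y.Modules := SheafOfModules.unit Y.ringCatSheaf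

/-- A function on `W` as a section of the unit module. -/
def toUnit (W : Y.Opens) (a : Γ(Y, W)) : Γ(unitMod Y, W) := a

/-- A section of the unit module as a function. -/
def ofUnit (W : Y.Opens) (a : Γ(unitMod Y, W)) : Γ(Y, W) := a

@[simp] theorem toUnit_ofUnit (W : Y.Opens) (a : Γ(unitMod Y, W)) : toUnit Y W (ofUnit Y W a) = a :=
  rfl

@[simp] theorem ofUnit_toUnit (W : Y.Opens) (a : Γ(Y, W)) : ofUnit Y W (toUnit Y W a) = a := rfl

theorem toUnit_bijective (W : Y.Opens) : Function.Bijective (toUnit Y W) :=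
  ⟨fun _ _ h => h, fun a => ⟨ofUnit Y W a, rfl⟩⟩

theorem smul_toUnit_one (W : Y.Opens) (a : Γ(Y, W)) :
    a • toUnit Y W 1 = toUnit Y W a := by
  change a * 1 = a
  exact mul_one a

theorem res_toUnit_one {W W' : Y.Opens} (h : W' ≤ W) :
    res (unitMod Y) h (toUnit Y W 1) = toUnit Y W' 1 := by
  change Y.presheaf.map (homOfLE h).op (1 : Γ(Y, W)) = 1
  exact map_one _

end UnitSections

section Trivial

variable {Y : Scheme.{u}} {N : Y.Modules} (e : N ≅ unitMod Y)

/-- The generator of a trivialised module on `W`. -/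
def genOf (W : Y.Opens) : Γ(N, W) := e.inv.app W (toUnit Y W 1)

theorem res_genOf {W W' : Y.Opens} (h : W' ≤ W) : res N h (genOf e W) = genOf e W' := by
  rw [genOf, genOf, ← app_res, res_toUnit_one]

theorem app_hom_inv_apply (W : Y.Opens) (t : Γ(unitMod Y, W)) :
    e.hom.app W (e.inv.app W t) = t := by
  have h : e.inv.app W ≫ e.hom.app W = 𝟙 _ := by
    rw [← Scheme.Modules.Hom.comp_app, e.inv_hom_id]
    rfl
  exact congr($h t)

theorem app_inv_hom_apply (W : Y.Opens) (t : Γ(N, W)) :
    e.inv.app W (e.hom.app W t) = t := by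
  have h : e.hom.app W ≫ e.inv.app W = 𝟙 _ := by
    rw [← Scheme.Modules.Hom.comp_app, e.hom_inv_id]
    rfl
  exact congr($h t)

theorem smul_genOf (W : Y.Opens) (a : Γ(Y, W)) :
    a • genOf e W = e.inv.app W (toUnit Y W a) := by
  rw [genOf, ← Scheme.Modules.Hom.app_smul, smul_toUnit_one]

theorem bijective_smul_genOf (W : Y.Opens) :
    Function.Bijective (fun a : Γ(Y, W) => a • genOf e W) := by
  constructor
  · intro a b hab
    simp only [smul_genOf] at hab
    have := congrArg (e.hom.app W) hab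
    rw [app_hom_inv_apply, app_hom_inv_apply] at this
    exact this
  · intro t
    refine ⟨ofUnit Y W (e.hom.app W t), ?_⟩
    simp only [smul_genOf, toUnit_ofUnit]
    exact app_inv_hom_apply e W t

end Trivial

section Restrict

variable {X Y : Scheme.{u}} (f : Y ⟶ X) [IsOpenImmersion f] (M : X.Modules)
  (e : M.restrict f ≅ unitMod Y)

/-- The generator on `f ''ᵁ W`, as a section of `M`. -/
def genX (W : Y.Opens) : Γ(M, f ''ᵁ W) := genOf e W

theorem res_genX {W W' : Y.Opens} (h : W' ≤ W) :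
    res M (f.image_mono h) (genX f M e W) = genX f M e W' :=
  res_genOf e h

theorem smul_genX (W : Y.Opens) (r : Γ(X, f ''ᵁ W)) :
    r • genX f M e W = ((f.appIso W).hom r) • genOf e W := by
  have h : (f.appIso W).inv ((f.appIso W).hom r) = r := by
    rw [← ConcreteCategory.comp_apply, Iso.hom_inv_id]
    rfl
  conv_lhs => rw [← h]
  rfl

theorem bijective_smul_genX (W : Y.Opens) :
    Function.Bijective (fun r : Γ(X, f ''ᵁ W) => r • genX f M e W) := by
  have h1 : (fun r : Γ(X, f ''ᵁ W) => r • genX f M e W) =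
      (fun a : Γ(Y, W) => a • genOf e W) ∘ (fun r : Γ(X, f ''ᵁ W) => (f.appIso W).hom r) := by
    funext r
    exact smul_genX f M e W r
  rw [h1]
  refine (bijective_smul_genOf e W).comp ?_
  exact (ConcreteCategory.bijective_of_isIso (f.appIso W).hom)

theorem exists_eq_image {V : X.Opens} (h : V ≤ f ''ᵁ ⊤) : ∃ W : Y.Opens, V = f ''ᵁ W := by
  refine ⟨f ⁻¹ᵁ V, ?_⟩
  rw [Scheme.Hom.image_preimage_eq_opensRange_inf]
  have : f ''ᵁ ⊤ = f.opensRange := by
    ext x
    simp
  rw [← this]
  exact (inf_eq_right.mpr h).symm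

/-- A trivialisation of `M` on an open subscheme gives a local generator. -/
theorem isLocalGenerator_genX : IsLocalGenerator M (f ''ᵁ ⊤) (genX f M e ⊤) := by
  intro V h
  obtain ⟨W, rfl⟩ := exists_eq_image f h
  have hres : res M h (genX f M e ⊤) = genX f M e W := res_genX f M e (le_top : W ≤ ⊤)
  simp only [hres]
  exact bijective_smul_genX f M e W

end Restrict

section Invertible

variable {X : Scheme.{u}} {M : X.Modules}

/-- **Invertible modules have local generators.** -/
theorem hasLocalGenerators_of_isInvertible (hM : Scheme.Modules.IsInvertible M) :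
    HasLocalGenerators M := by
  intro x
  obtain ⟨U, hxU, ⟨e⟩⟩ := hM.exists_trivialization x
  let e' : M.restrict U.ι ≅ unitMod U.toScheme :=
    (Scheme.Modules.restrictFunctorIsoPullback U.ι).app M ≪≫ e
  refine ⟨U.ι ''ᵁ ⊤, ?_, genX U.ι M e' ⊤, isLocalGenerator_genX U.ι M e'⟩
  rw [Scheme.Opens.ι_image_top]
  exact hxU

/-- **G4** for the Prelude's `IsInvertible`: `Γ(X, ⊤) →+* End M` is bijective. -/
theorem smulRingHom_bijective_of_isInvertible (hM : Scheme.Modules.IsInvertible M) :
    Function.Bijective (smulRingHom M) :=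
  smulRingHom_bijective (hasLocalGenerators_of_isInvertible hM)

/-- **G4**: the ring isomorphism `Γ(X, ⊤) ≃+* End M` for an invertible module. -/
def endRingEquiv (hM : Scheme.Modules.IsInvertible M) : Γ(X, ⊤) ≃+* End M :=
  smulRingEquiv (hasLocalGenerators_of_isInvertible hM)

@[simp] theorem endRingEquiv_apply (hM : Scheme.Modules.IsInvertible M) (r : Γ(X, ⊤)) :
    endRingEquiv hM r = smulHom M r := rfl

/-- **G4**, automorphisms: `Γ(X, ⊤)ˣ ≃* Aut M` for an invertible module. -/
def autMulEquiv (hM : Scheme.Modules.IsInvertible M) : (Γ(X, ⊤))ˣ ≃* Aut M :=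
  (Units.mapEquiv (endRingEquiv hM).toMulEquiv).trans (Aut.unitsEndEquivAut M)

theorem autMulEquiv_hom (hM : Scheme.Modules.IsInvertible M) (u : (Γ(X, ⊤))ˣ) :
    (autMulEquiv hM u).hom = smulHom M (u : Γ(X, ⊤)) := rfl

/-- **G4**, torsor form: two isomorphisms `M ≅ N` out of an invertible module differ by a
unique global unit. -/
theorem existsUnique_unit_of_isos (hM : Scheme.Modules.IsInvertible M) {N : X.Modules}
    (e e' : M ≅ N) : ∃! u : (Γ(X, ⊤))ˣ, e'.hom = smulHom M (u : Γ(X, ⊤)) ≫ e.hom := by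
  have hbij := smulRingHom_bijective_of_isInvertible hM
  obtain ⟨r, hr⟩ := hbij.2 (e'.hom ≫ e.inv)
  obtain ⟨r', hr'⟩ := hbij.2 (e.hom ≫ e'.inv)
  rw [smulRingHom_apply] at hr hr'
  have h1 : r * r' = 1 := by
    apply hbij.1
    rw [smulRingHom_apply, smulRingHom_apply, smulHom_mul, hr, hr', smulHom_one]
    simp
  have h2 : r' * r = 1 := by rw [mul_comm]; exact h1
  refine ⟨⟨r, r', h1, h2⟩, ?_, ?_⟩
  · show e'.hom = smulHom M r ≫ e.hom
    rw [hr]
    simp
  · intro u hu
    apply Units.ext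
    apply hbij.1
    show smulHom M (u : Γ(X, ⊤)) = smulHom M r
    rw [hr, hu]
    simp

end Invertible

end Fermat.Agent.S25.H626

end

end
-- ===== PACK-END S25/H626/LocalGen.lean

-- ===== PACK-BEGIN S25/H627/CurveSchemeB.lean
section




/-!
# S25, block CURVE, leaf C1 (scheme level, part B) — helper627

For `c : C ⟶ Spec k` smooth of relative dimension one, `C` integral, `k` algebraically closed:
* `not_isField_of_isAffineOpen`, `isDedekindDomain_of_isAffineOpen`: the coordinate ring of every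
  nonempty affine open is a Dedekind domain which is not a field;
* `finite_of_isClosed_of_ne_univ`: proper closed subsets are finite (`C` quasi-compact);
* `curve_C1`: summary under the exact hypotheses of S25.
-/

set_option autoImplicit false
set_option linter.style.haveILetI false

open AlgebraicGeometry CategoryTheory

universe u

namespace Fermat.Agent.S25.H627


/-- A point of an affine open `U` which corresponds to a maximal ideal of `Γ(C, U)` is a closed
point of `C` (for `C` locally of finite type over a field). -/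
theorem isClosed_singleton_fromSpec_of_isMaximal (k : Type u) [Field k] {C : Scheme.{u}}
    (c : C ⟶ Spec (CommRingCat.of k)) [LocallyOfFiniteType c] {U : C.Opens}
    (hU : IsAffineOpen U) (y : PrimeSpectrum Γ(C, U)) (hy : y.asIdeal.IsMaximal) :
    IsClosed ({hU.fromSpec y} : Set C) := by
  haveI : JacobsonSpace C := LocallyOfFiniteType.jacobsonSpace c
  apply isClosed_singleton_of_isLocallyClosed_singleton
  have hcl : IsClosed ({y} : Set (PrimeSpectrum Γ(C, U))) :=
    (PrimeSpectrum.isClosed_singleton_iff_isMaximal y).mpr hy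
  haveI := hU.isOpenImmersion_fromSpec
  have hemb := hU.fromSpec.isOpenEmbedding
  have := hcl.isLocallyClosed.image hemb.isInducing hemb.isOpen_range.isLocallyClosed
  have h2 : (hU.fromSpec '' ({y} : Set (PrimeSpectrum Γ(C, U)))) = {hU.fromSpec y} :=
    Set.image_singleton
  exact h2 ▸ this

/-- **C1(b).** The coordinate ring of a nonempty affine open of `C` is not a field. -/
theorem not_isField_of_isAffineOpen (k : Type u) [Field k] [IsAlgClosed k] {C : Scheme.{u}}
    (c : C ⟶ Spec (CommRingCat.of k)) [SmoothOfRelativeDimension 1 c] [IsIntegral C]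
    {U : C.Opens} (hU : IsAffineOpen U) (hne : (U : Set C).Nonempty) :
    ¬ IsField Γ(C, U) := by
  haveI : Smooth c := SmoothOfRelativeDimension.smooth 1 c
  haveI : JacobsonSpace C := LocallyOfFiniteType.jacobsonSpace c
  obtain ⟨x, hxU, hxc⟩ := nonempty_inter_closedPoints hne U.isOpen.isLocallyClosed
  haveI := isDiscreteValuationRing_stalk_of_isClosed k c x hxc
  intro hF
  letI : Algebra Γ(C, U) (C.presheaf.stalk x) :=
    TopCat.Presheaf.algebra_section_stalk C.presheaf ⟨x, hxU⟩
  haveI : IsLocalization.AtPrime (C.presheaf.stalk x) (hU.primeIdealOf ⟨x, hxU⟩).asIdeal :=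
    hU.isLocalization_stalk ⟨x, hxU⟩
  have hbij : Function.Bijective (algebraMap Γ(C, U) (C.presheaf.stalk x)) :=
    IsField.localization_map_bijective (M := (hU.primeIdealOf ⟨x, hxU⟩).asIdeal.primeCompl)
      (fun h => h (Ideal.zero_mem _)) hF
  have hF' : IsField (C.presheaf.stalk x) :=
    (RingEquiv.ofBijective _ hbij).symm.toMulEquiv.isField hF
  exact IsDiscreteValuationRing.not_isField _ hF'

/-- **C1(b).** The coordinate ring of a nonempty affine open of `C` is a Dedekind domain. -/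
theorem isDedekindDomain_of_isAffineOpen (k : Type u) [Field k] [IsAlgClosed k]
    {C : Scheme.{u}} (c : C ⟶ Spec (CommRingCat.of k)) [SmoothOfRelativeDimension 1 c]
    [IsIntegral C] {U : C.Opens} (hU : IsAffineOpen U) (hne : (U : Set C).Nonempty) :
    IsDedekindDomain Γ(C, U) := by
  haveI : Smooth c := SmoothOfRelativeDimension.smooth 1 c
  haveI : IsLocallyNoetherian C := isLocallyNoetherian_curve k c
  haveI : IsNoetherianRing Γ(C, U) := IsLocallyNoetherian.component_noetherian ⟨U, hU⟩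
  haveI : Nonempty U := ⟨⟨hne.some, hne.some_mem⟩⟩
  refine isDedekindDomain_of_forall_isMaximal_dvr fun m hm => ?_
  let y : PrimeSpectrum Γ(C, U) := ⟨m, hm.isPrime⟩
  have hyU : hU.fromSpec y ∈ U := by
    rw [← SetLike.mem_coe, ← hU.range_fromSpec]
    exact Set.mem_range_self y
  have hcl := isClosed_singleton_fromSpec_of_isMaximal k c hU y hm
  haveI := isDiscreteValuationRing_stalk_of_isClosed k c _ hcl
  letI : Algebra Γ(C, U) (C.presheaf.stalk (hU.fromSpec y)) :=
    TopCat.Presheaf.algebra_section_stalk C.presheaf ⟨hU.fromSpec y, hyU⟩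
  haveI : IsLocalization.AtPrime (C.presheaf.stalk (hU.fromSpec y)) m :=
    hU.isLocalization_stalk' y hyU
  exact IsDiscreteValuationRing.RingEquivClass.isDiscreteValuationRing
    (IsLocalization.algEquiv m.primeCompl (C.presheaf.stalk (hU.fromSpec y))
      (Localization.AtPrime m))



/-- In an integral scheme, a closed subset containing a nonempty open is everything; hence the
trace of a proper closed subset on an affine open with Dedekind coordinate ring is finite. -/
theorem finite_inter_of_isDedekindDomain {C : Scheme.{u}} [IsIntegral C] {V : C.Opens}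
    (hV : IsAffineOpen V) (hVne : (V : Set C).Nonempty) [IsDedekindDomain Γ(C, V)]
    (Z : Set C) (hZ : IsClosed Z) (hne : Z ≠ Set.univ) : (Z ∩ (V : Set C)).Finite := by
  haveI := hV.isOpenImmersion_fromSpec
  have hcont : Continuous hV.fromSpec := hV.fromSpec.continuous
  have hcl : IsClosed (hV.fromSpec ⁻¹' Z : Set (PrimeSpectrum Γ(C, V))) := hZ.preimage hcont
  obtain ⟨I, hI⟩ := (PrimeSpectrum.isClosed_iff_zeroLocus_ideal _).mp hcl
  have hI0 : I ≠ ⊥ := by
    rintro rfl
    apply hne
    have hsub : (V : Set C) ⊆ Z := by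
      rw [← hV.range_fromSpec]
      rintro _ ⟨y, rfl⟩
      have : y ∈ (hV.fromSpec ⁻¹' Z : Set (PrimeSpectrum Γ(C, V))) := by
        rw [hI]
        exact (PrimeSpectrum.mem_zeroLocus _ _).mpr (fun a ha => by
          rw [SetLike.mem_coe, Ideal.mem_bot] at ha
          rw [ha]
          exact Ideal.zero_mem _)
      exact this
    have hdense : Dense (V : Set C) := V.isOpen.dense hVne
    exact Set.eq_univ_of_univ_subset
      (hdense.closure_eq ▸ (closure_minimal hsub hZ))
  have hfin := finite_zeroLocus_of_ne_bot I hI0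
  rw [← hI] at hfin
  have h3 := hfin.image hV.fromSpec
  have e1 : hV.fromSpec '' (hV.fromSpec ⁻¹' Z) = Z ∩ Set.range hV.fromSpec :=
    Set.image_preimage_eq_inter_range
  have e2 : Set.range hV.fromSpec = (V : Set C) := hV.range_fromSpec
  rw [← e2, ← e1]
  exact h3

/-- **C1(d).** Proper closed subsets of `C` are finite. -/
theorem finite_of_isClosed_of_ne_univ (k : Type u) [Field k] [IsAlgClosed k] {C : Scheme.{u}}
    (c : C ⟶ Spec (CommRingCat.of k)) [SmoothOfRelativeDimension 1 c] [IsIntegral C]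
    [CompactSpace C] (Z : Set C) (hZ : IsClosed Z) (hne : Z ≠ Set.univ) : Z.Finite := by
  choose V hV hx hD _ using exists_dedekind_chart k c
  obtain ⟨t, ht⟩ := isCompact_univ.elim_finite_subcover (fun x : C => (V x : Set C))
    (fun x => (V x).isOpen) (fun x _ => Set.mem_iUnion.mpr ⟨x, hx x⟩)
  have hcover : Z ⊆ ⋃ x ∈ t, Z ∩ (V x : Set C) := by
    intro z hz
    obtain ⟨x, hxt, hzx⟩ := Set.mem_iUnion₂.mp (ht (Set.mem_univ z))
    exact Set.mem_iUnion₂.mpr ⟨x, hxt, hz, hzx⟩
  refine Set.Finite.subset (Set.Finite.biUnion t.finite_toSet fun x _ => ?_) hcover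
  haveI := hD x
  exact finite_inter_of_isDedekindDomain (hV x) ⟨x, hx x⟩ Z hZ hne


/-- **C1, summary** under the hypotheses of S25. -/
theorem curve_C1 (k : Type u) [Field k] [IsAlgClosed k] {C : Scheme.{u}}
    (c : C ⟶ Spec (CommRingCat.of k)) [IsProper c] [SmoothOfRelativeDimension 1 c]
    [IsIntegral C] :
    CompactSpace C ∧ IsLocallyNoetherian C ∧ JacobsonSpace C ∧
      (∀ x : C, ValuationRing (C.presheaf.stalk x)) ∧
      (∀ x : C, IsClosed ({x} : Set C) → IsDiscreteValuationRing (C.presheaf.stalk x)) ∧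
      (∀ Z : Set C, IsClosed Z → Z ≠ Set.univ → Z.Finite) ∧
      (∀ (U : C.Opens), IsAffineOpen U → (U : Set C).Nonempty →
        IsDedekindDomain Γ(C, U) ∧ ¬ IsField Γ(C, U)) := by
  haveI : Smooth c := SmoothOfRelativeDimension.smooth 1 c
  haveI : CompactSpace C := QuasiCompact.compactSpace_of_compactSpace c
  exact ⟨inferInstance, isLocallyNoetherian_curve k c, LocallyOfFiniteType.jacobsonSpace c,
    valuationRing_stalk k c, isDiscreteValuationRing_stalk_of_isClosed k c,
    finite_of_isClosed_of_ne_univ k c,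
    fun U hU hne => ⟨isDedekindDomain_of_isAffineOpen k c hU hne,
      not_isField_of_isAffineOpen k c hU hne⟩⟩

end Fermat.Agent.S25.H627

end
-- ===== PACK-END S25/H627/CurveSchemeB.lean

-- ===== PACK-BEGIN S25/H805/DefReduce.lean
section


/-!
# Row S25 (helper805): the degree condition in `Stmt.Def` is automatic

A geometric point of `Spec A` factors through `Spec (A ⧸ I)` when `I` is nilpotent, so a lift of a
degree-zero rigidified line bundle along a square-zero thickening is automatically of degree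
zero.  Hence `Stmt.Def` follows from the lifting statement `DefNoDeg` without any degree theory.
-/

set_option autoImplicit false
universe u
open CategoryTheory CategoryTheory.Limits AlgebraicGeometry AlgebraicGeometry.RelPicard
  NeronModelInfra GoodReductionJacobian

namespace Fermat.Agent.S25.H805

noncomputable section

variable {k : Type u} [Field k] {C : Scheme.{u}} (c : C ⟶ Spec (CommRingCat.of k))
  (ε : SchemeHomOver (𝟙 (Spec (CommRingCat.of k))) c)

/-- Degree zero can be tested after pulling back along a morphism through which every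
geometric point factors. -/
theorem fibrewiseAlgEquivZero_of_pullbackAlong {c : C ⟶ Spec (CommRingCat.of k)}
    {ε : SchemeHomOver (𝟙 (Spec (CommRingCat.of k))) c} {T T' : Scheme.{u}}
    {t : T ⟶ Spec (CommRingCat.of k)} {t' : T' ⟶ Spec (CommRingCat.of k)}
    (ψ : SchemeHomOver t' t) (M : RigidifiedLineBundle c ε t)
    (hlift : ∀ (K : Type u) [Field K] [IsAlgClosed K] (s : Spec (CommRingCat.of K) ⟶ T),
      ∃ s' : Spec (CommRingCat.of K) ⟶ T', s' ≫ ψ.1 = s)
    (h : FibrewiseAlgEquivZero (M.pullbackAlong ψ)) : FibrewiseAlgEquivZero M := by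
  intro K _ _ s
  obtain ⟨s', hs'⟩ := hlift K s
  exact isAlgEquivZero_fibre_of_factor ψ M s s' hs' (h K s')

/-- Every field-valued point of `Spec A` factors through `Spec (A ⧸ I)` if `I ^ 2 = ⊥`. -/
theorem exists_factor_spec_quotient {A : Type u} [CommRing A] (I : Ideal A) (hI : I ^ 2 = ⊥)
    (K : Type u) [Field K] (s : Spec (CommRingCat.of K) ⟶ Spec (CommRingCat.of A)) :
    ∃ s' : Spec (CommRingCat.of K) ⟶ Spec (CommRingCat.of (A ⧸ I)),
      s' ≫ Spec.map (CommRingCat.ofHom (Ideal.Quotient.mk I)) = s := by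
  let σ : CommRingCat.of A ⟶ CommRingCat.of K := Spec.preimage s
  have hσ : Spec.map σ = s := Spec.map_preimage s
  have hker : ∀ a ∈ I, σ.hom a = 0 := by
    intro a ha
    have h2 : a ^ 2 ∈ I ^ 2 := Ideal.pow_mem_pow ha 2
    rw [hI, Ideal.mem_bot] at h2
    have : σ.hom a ^ 2 = 0 := by rw [← map_pow, h2, map_zero]
    exact pow_eq_zero_iff (two_ne_zero) |>.mp this
  refine ⟨Spec.map (CommRingCat.ofHom (Ideal.Quotient.lift I σ.hom hker)), ?_⟩
  rw [← Spec.map_comp, ← hσ]
  congr 1

/-- DEF without the degree condition: every rigidified line bundle lifts along square-zero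
thickenings of affine bases. -/
def DefNoDeg : Prop :=
  ∀ (A : Type u) [CommRing A] [Algebra k A] (I : Ideal A), I ^ 2 = ⊥ →
    ∀ M₀ : RigidifiedLineBundle c ε (specStr k (A ⧸ I)),
      ∃ M : RigidifiedLineBundle c ε (specStr k A),
        RIso (M.pullbackAlong (specHomOver k (Ideal.Quotient.mkₐ k I))) M₀

/-- DEF with the degree condition only as a HYPOTHESIS on `M₀` (the form the algebraic model
proves if it wants to use degree zero): the conclusion carries no degree condition. -/
def DefWeak : Prop :=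
  ∀ (A : Type u) [CommRing A] [Algebra k A] (I : Ideal A), I ^ 2 = ⊥ →
    ∀ M₀ : RigidifiedLineBundle c ε (specStr k (A ⧸ I)), FibrewiseAlgEquivZero M₀ →
      ∃ M : RigidifiedLineBundle c ε (specStr k A),
        RIso (M.pullbackAlong (specHomOver k (Ideal.Quotient.mkₐ k I))) M₀

theorem def_of_defWeak (h : DefWeak c ε) : Stmt.Def c ε := by
  intro A _ _ I hI M₀ hM₀
  obtain ⟨M, hM⟩ := h A I hI M₀ hM₀
  refine ⟨M, ?_, hM⟩
  refine fibrewiseAlgEquivZero_of_pullbackAlong (specHomOver k (Ideal.Quotient.mkₐ k I)) M ?_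
    (hM₀.congr ⟨hM.some.symm⟩)
  intro K _ _ s
  exact exists_factor_spec_quotient I hI K s

theorem def_of_defNoDeg (h : DefNoDeg c ε) : Stmt.Def c ε :=
  def_of_defWeak c ε fun A _ _ I hI M₀ _ => h A I hI M₀

end

end Fermat.Agent.S25.H805

end
-- ===== PACK-END S25/H805/DefReduce.lean

-- ===== PACK-BEGIN S25/H805/BridgeCharts.lean
section


/-!
# Row S25, bridge AS9 (helper805): `Stmt.Charts` from the dictionary and `Stmt.AlgCharts`

Formal.  The two facts of the gluing-datum calculus that are needed (`IsIso` is reflexive, `IsBC`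
is invariant under `IsIso` of the target) are proved here.
-/

set_option autoImplicit false
set_option linter.style.haveILetI false
universe u
open CategoryTheory CategoryTheory.Limits AlgebraicGeometry AlgebraicGeometry.RelPicard
  NeronModelInfra GoodReductionJacobian
open scoped TensorProduct

namespace Fermat.Agent.S25.H805

section GDC

/-- Post-composing a semilinear base-change map with a linear equivalence of the target. -/
theorem isSemilinearBaseChange_equiv_comp {R R' : Type u} [CommRing R] [CommRing R']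
    (ρ : R →+* R') {N N' N'' : Type u} [AddCommGroup N] [Module R N] [AddCommGroup N']
    [Module R' N'] [AddCommGroup N''] [Module R' N''] (b : N →ₛₗ[ρ] N') (e : N' ≃ₗ[R'] N'')
    (h : IsSemilinearBaseChange ρ b) :
    IsSemilinearBaseChange ρ ((e : N' →ₗ[R'] N'').comp b) := by
  unfold IsSemilinearBaseChange at h ⊢
  letI : Algebra R R' := ρ.toAlgebra
  letI : Module R N' := Module.compHom N' ρ
  letI : Module R N'' := Module.compHom N'' ρ
  haveI : IsScalarTower R R' N' := ⟨fun r r' n => by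
    change (ρ r * r') • n = ρ r • (r' • n); rw [mul_smul]⟩
  haveI : IsScalarTower R R' N'' := ⟨fun r r' n => by
    change (ρ r * r') • n = ρ r • (r' • n); rw [mul_smul]⟩
  refine (IsBaseChange.iff_of_equiv_comm (LinearEquiv.refl R N) e ?_).mp h
  ext n
  rfl

variable {A R₀ R₁ R₀₁ : Type u} [CommRing A] [CommRing R₀] [CommRing R₁]
    [CommRing R₀₁] [Algebra A R₀] [Algebra A R₁] [Algebra A R₀₁] [Algebra R₀ R₀₁]
    [Algebra R₁ R₀₁] [IsScalarTower A R₀ R₀₁] [IsScalarTower A R₁ R₀₁]
    {A' R₀' R₁' R₀₁' : Type u} [CommRing A'] [CommRing R₀'] [CommRing R₁']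
    [CommRing R₀₁'] [Algebra A' R₀'] [Algebra A' R₁'] [Algebra A' R₀₁'] [Algebra R₀' R₀₁']
    [Algebra R₁' R₀₁'] [IsScalarTower A' R₀' R₀₁'] [IsScalarTower A' R₁' R₀₁']

/-- `IsIso` is reflexive. -/
theorem glueDatum_isIso_refl (G : GlueDatum A R₀ R₁ R₀₁) : G.IsIso G :=
  ⟨{ e₀ := LinearEquiv.refl _ _
     e₁ := LinearEquiv.refl _ _
     e₀₁ := LinearEquiv.refl _ _
     comm₀ := fun _ => rfl
     comm₁ := fun _ => rfl }⟩

/-- `IsBC` is invariant under isomorphism of the target. -/
theorem glueDatum_isBC_of_isIso {ρ₀ : R₀ →+* R₀'} {ρ₁ : R₁ →+* R₁'} {ρ₀₁ : R₀₁ →+* R₀₁'}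
    {G : GlueDatum A R₀ R₁ R₀₁} {G' G'' : GlueDatum A' R₀' R₁' R₀₁'}
    (h : GlueDatum.IsBC ρ₀ ρ₁ ρ₀₁ G G') (hiso : G'.IsIso G'') :
    GlueDatum.IsBC ρ₀ ρ₁ ρ₀₁ G G'' := by
  obtain ⟨b⟩ := h
  obtain ⟨e⟩ := hiso
  exact ⟨{
    b₀ := (e.e₀ : G'.N₀ →ₗ[R₀'] G''.N₀).comp b.b₀
    b₁ := (e.e₁ : G'.N₁ →ₗ[R₁'] G''.N₁).comp b.b₁
    b₀₁ := (e.e₀₁ : G'.N₀₁ →ₗ[R₀₁'] G''.N₀₁).comp b.b₀₁
    comm₀ := fun s => by
      change e.e₀₁ (b.b₀₁ (G.r₀ s)) = G''.r₀ (e.e₀ (b.b₀ s))
      rw [b.comm₀, e.comm₀]
    comm₁ := fun s => by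
      change e.e₀₁ (b.b₀₁ (G.r₁ s)) = G''.r₁ (e.e₁ (b.b₁ s))
      rw [b.comm₁, e.comm₁]
    isBaseChange₀ := isSemilinearBaseChange_equiv_comp ρ₀ b.b₀ e.e₀ b.isBaseChange₀
    isBaseChange₁ := isSemilinearBaseChange_equiv_comp ρ₁ b.b₁ e.e₁ b.isBaseChange₁
    isBaseChange₀₁ := isSemilinearBaseChange_equiv_comp ρ₀₁ b.b₀₁ e.e₀₁ b.isBaseChange₀₁ }⟩

end GDC

noncomputable section

variable {k : Type u} [Field k] {C : Scheme.{u}} {c : C ⟶ Spec (CommRingCat.of k)}
  {ε : SchemeHomOver (𝟙 (Spec (CommRingCat.of k))) c}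

/-- The chart family attached to an algebraic chart family by the dictionary. -/
def chartFamilyOfAlg (Ch : ChartOf c ε) (hSec : Stmt.DictSections Ch)
    (hGlue : Stmt.DictGlue Ch) (hIso : Stmt.DictIso Ch) (hBC : Stmt.DictBC Ch)
    (hDeg : Stmt.DictDeg Ch) (hEx : Stmt.AlgBCExists Ch)
    (F : AlgChartFamily k Ch.B₀ Ch.B₁ Ch.B₀₁ Ch.e) : ChartFamily c ε where
  ι := F.ι
  R := F.R
  finiteType := F.finiteType
  bundle i := (hGlue (F.R i) (F.datum i) (F.rig i)).choose
  deg0 i := (hDeg (F.R i) _ (F.datum i) (hGlue (F.R i) (F.datum i) (F.rig i)).choose_spec).2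
    (F.deg0 i)
  inj i A _ _ φ ψ hφψ := by
    have hcorr := (hGlue (F.R i) (F.datum i) (F.rig i)).choose_spec
    obtain ⟨G, hG⟩ := hEx (F.R i) A φ (F.datum i)
    obtain ⟨G', hG'⟩ := hEx (F.R i) A ψ (F.datum i)
    have h1 := hBC (F.R i) A φ _ (F.datum i) G hcorr hG
    have h2 := hBC (F.R i) A ψ _ (F.datum i) G' hcorr hG'
    exact F.inj i A φ ψ G G' hG hG' ((hIso A _ _ G G' h1 h2).1 hφψ)
  locus A _ _ M hM := by
    obtain ⟨G, hG, hrig⟩ := hSec A M
    obtain ⟨I, hI, hloc⟩ := F.locus A G hrig ((hDeg A M G hG).1 hM)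
    refine ⟨I, hI, fun i A' _ _ ψ => ?_⟩
    have hcorr := (hGlue (F.R i) (F.datum i) (F.rig i)).choose_spec
    obtain ⟨G', hG'⟩ := hEx A A' ψ G
    have hM' := hBC A A' ψ M G G' hG hG'
    rw [← hloc i A' ψ G' hG']
    constructor
    · rintro ⟨φ, hφ⟩
      obtain ⟨G'', hG''⟩ := hEx (F.R i) A' φ (F.datum i)
      have h1 := hBC (F.R i) A' φ _ (F.datum i) G'' hcorr hG''
      exact ⟨φ, glueDatum_isBC_of_isIso hG'' ((hIso A' _ _ G'' G' h1 hM').1 hφ)⟩
    · rintro ⟨φ, hφ⟩
      have h1 := hBC (F.R i) A' φ _ (F.datum i) G' hcorr hφ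
      exact ⟨φ, (hIso A' _ _ G' G' h1 hM').2 (glueDatum_isIso_refl G')⟩

/-- **AS9**: `Stmt.Charts` follows formally from the dictionary and `Stmt.AlgCharts`. -/
theorem charts_of_alg (Ch : ChartOf c ε) (hSec : Stmt.DictSections Ch)
    (hGlue : Stmt.DictGlue Ch) (hIso : Stmt.DictIso Ch) (hBC : Stmt.DictBC Ch)
    (hDeg : Stmt.DictDeg Ch) (hEx : Stmt.AlgBCExists Ch)
    (hCharts : Stmt.AlgCharts k Ch.B₀ Ch.B₁ Ch.B₀₁) : Stmt.Charts c ε := by
  obtain ⟨F⟩ := hCharts Ch.x Ch.y Ch.e Ch.isCurveChart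
  exact ⟨chartFamilyOfAlg Ch hSec hGlue hIso hBC hDeg hEx F⟩

end

end Fermat.Agent.S25.H805

end
-- ===== PACK-END S25/H805/BridgeCharts.lean

-- ===== PACK-BEGIN S25/H265/GDCIso.lean
section


/-!
# S25 / helper265, block GDC, part 2: isomorphisms and base change of gluing data

`GlueDatum.IsIso` is an equivalence relation; `GlueDatum.IsBC` has identities, composites,
is unique up to `IsIso`, is invariant under `IsIso` on both sides and satisfies cancellation.
-/

set_option autoImplicit false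
set_option linter.style.haveILetI false

universe u

namespace Fermat.Agent.S25.H265

open Fermat.Agent.S25 GlueDatum

section Iso

variable {A R₀ R₁ R₀₁ : Type u} [CommRing A] [CommRing R₀] [CommRing R₁]
    [CommRing R₀₁] [Algebra A R₀] [Algebra A R₁] [Algebra A R₀₁] [Algebra R₀ R₀₁]
    [Algebra R₁ R₀₁] [IsScalarTower A R₀ R₀₁] [IsScalarTower A R₁ R₀₁]

/-- The identity isomorphism of a gluing datum. -/
def isoRefl (G : GlueDatum A R₀ R₁ R₀₁) : GlueDatum.Iso G G where
  e₀ := LinearEquiv.refl _ _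
  e₁ := LinearEquiv.refl _ _
  e₀₁ := LinearEquiv.refl _ _
  comm₀ := fun _ => rfl
  comm₁ := fun _ => rfl

/-- The inverse of an isomorphism of gluing data. -/
def isoSymm {G G' : GlueDatum A R₀ R₁ R₀₁} (e : GlueDatum.Iso G G') : GlueDatum.Iso G' G where
  e₀ := e.e₀.symm
  e₁ := e.e₁.symm
  e₀₁ := e.e₀₁.symm
  comm₀ := fun s => by
    rw [LinearEquiv.symm_apply_eq, e.comm₀, LinearEquiv.apply_symm_apply]
  comm₁ := fun s => by
    rw [LinearEquiv.symm_apply_eq, e.comm₁, LinearEquiv.apply_symm_apply]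

/-- The composite of two isomorphisms of gluing data. -/
def isoTrans {G G' G'' : GlueDatum A R₀ R₁ R₀₁} (e : GlueDatum.Iso G G')
    (e' : GlueDatum.Iso G' G'') : GlueDatum.Iso G G'' where
  e₀ := e.e₀.trans e'.e₀
  e₁ := e.e₁.trans e'.e₁
  e₀₁ := e.e₀₁.trans e'.e₀₁
  comm₀ := fun s => by
    rw [LinearEquiv.trans_apply, e.comm₀, e'.comm₀, LinearEquiv.trans_apply]
  comm₁ := fun s => by
    rw [LinearEquiv.trans_apply, e.comm₁, e'.comm₁, LinearEquiv.trans_apply]

theorem isIso_refl (G : GlueDatum A R₀ R₁ R₀₁) : G.IsIso G := ⟨isoRefl G⟩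

theorem isIso_symm {G G' : GlueDatum A R₀ R₁ R₀₁} (h : G.IsIso G') : G'.IsIso G :=
  ⟨isoSymm h.some⟩

theorem isIso_trans {G G' G'' : GlueDatum A R₀ R₁ R₀₁} (h : G.IsIso G') (h' : G'.IsIso G'') :
    G.IsIso G'' :=
  ⟨isoTrans h.some h'.some⟩

theorem isIso_equivalence : Equivalence (GlueDatum.IsIso (A := A) (R₀ := R₀) (R₁ := R₁)
    (R₀₁ := R₀₁)) :=
  ⟨isIso_refl, isIso_symm, isIso_trans⟩

/-- `e₀` is `A`-linear. -/
theorem iso_e₀_smul {G G' : GlueDatum A R₀ R₁ R₀₁} (e : GlueDatum.Iso G G') (a : A)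
    (s : G.N₀) : e.e₀ (a • s) = a • e.e₀ s := by
  rw [← algebraMap_smul R₀ a s, map_smul, algebraMap_smul]

/-- `e₁` is `A`-linear. -/
theorem iso_e₁_smul {G G' : GlueDatum A R₀ R₁ R₀₁} (e : GlueDatum.Iso G G') (a : A)
    (s : G.N₁) : e.e₁ (a • s) = a • e.e₁ s := by
  rw [← algebraMap_smul R₁ a s, map_smul, algebraMap_smul]

/-- `e₀₁` is `A`-linear. -/
theorem iso_e₀₁_smul {G G' : GlueDatum A R₀ R₁ R₀₁} (e : GlueDatum.Iso G G') (a : A)
    (s : G.N₀₁) : e.e₀₁ (a • s) = a • e.e₀₁ s := by
  rw [← algebraMap_smul R₀₁ a s, map_smul, algebraMap_smul]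

end Iso

section BC

variable {A R₀ R₁ R₀₁ : Type u} [CommRing A] [CommRing R₀] [CommRing R₁]
    [CommRing R₀₁] [Algebra A R₀] [Algebra A R₁] [Algebra A R₀₁] [Algebra R₀ R₀₁]
    [Algebra R₁ R₀₁] [IsScalarTower A R₀ R₀₁] [IsScalarTower A R₁ R₀₁]
    {A' R₀' R₁' R₀₁' : Type u} [CommRing A'] [CommRing R₀'] [CommRing R₁']
    [CommRing R₀₁'] [Algebra A' R₀'] [Algebra A' R₁'] [Algebra A' R₀₁'] [Algebra R₀' R₀₁']
    [Algebra R₁' R₀₁'] [IsScalarTower A' R₀' R₀₁'] [IsScalarTower A' R₁' R₀₁']
    {A'' R₀'' R₁'' R₀₁'' : Type u} [CommRing A''] [CommRing R₀''] [CommRing R₁'']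
    [CommRing R₀₁''] [Algebra A'' R₀''] [Algebra A'' R₁''] [Algebra A'' R₀₁'']
    [Algebra R₀'' R₀₁''] [Algebra R₁'' R₀₁''] [IsScalarTower A'' R₀'' R₀₁'']
    [IsScalarTower A'' R₁'' R₀₁'']

/-- `r₀` is semilinear over `algebraMap R₀ R₀₁`. -/
theorem r₀_smul (G : GlueDatum A R₀ R₁ R₀₁) (r : R₀) (s : G.N₀) :
    G.r₀ (r • s) = algebraMap R₀ R₀₁ r • G.r₀ s := by
  rw [map_smul, algebraMap_smul]

/-- `r₁` is semilinear over `algebraMap R₁ R₀₁`. -/
theorem r₁_smul (G : GlueDatum A R₀ R₁ R₀₁) (r : R₁) (s : G.N₁) :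
    G.r₁ (r • s) = algebraMap R₁ R₀₁ r • G.r₁ s := by
  rw [map_smul, algebraMap_smul]

variable {ρ₀ : R₀ →+* R₀'} {ρ₁ : R₁ →+* R₁'} {ρ₀₁ : R₀₁ →+* R₀₁'}
  {σ₀ : R₀' →+* R₀''} {σ₁ : R₁' →+* R₁''} {σ₀₁ : R₀₁' →+* R₀₁''}

theorem bcmUp₀ {G : GlueDatum A R₀ R₁ R₀₁} {G' : GlueDatum A' R₀' R₁' R₀₁'}
    (m : BaseChangeMaps ρ₀ ρ₁ ρ₀₁ G G') : SemiUP ρ₀ m.b₀ :=
  semiUP_of_isSemilinearBaseChange _ _ m.isBaseChange₀

theorem bcmUp₁ {G : GlueDatum A R₀ R₁ R₀₁} {G' : GlueDatum A' R₀' R₁' R₀₁'}
    (m : BaseChangeMaps ρ₀ ρ₁ ρ₀₁ G G') : SemiUP ρ₁ m.b₁ :=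
  semiUP_of_isSemilinearBaseChange _ _ m.isBaseChange₁

theorem bcmUp₀₁ {G : GlueDatum A R₀ R₁ R₀₁} {G' : GlueDatum A' R₀' R₁' R₀₁'}
    (m : BaseChangeMaps ρ₀ ρ₁ ρ₀₁ G G') : SemiUP ρ₀₁ m.b₀₁ :=
  semiUP_of_isSemilinearBaseChange _ _ m.isBaseChange₀₁

/-- Every gluing datum is its own base change along the identity. -/
theorem isBC_id (G : GlueDatum A R₀ R₁ R₀₁) :
    GlueDatum.IsBC (RingHom.id R₀) (RingHom.id R₁) (RingHom.id R₀₁) G G :=
  ⟨{ b₀ := LinearMap.id
     b₁ := LinearMap.id
     b₀₁ := LinearMap.id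
     comm₀ := fun _ => rfl
     comm₁ := fun _ => rfl
     isBaseChange₀ := isSemilinearBaseChange_of_semiUP _ _ semiUP_id
     isBaseChange₁ := isSemilinearBaseChange_of_semiUP _ _ semiUP_id
     isBaseChange₀₁ := isSemilinearBaseChange_of_semiUP _ _ semiUP_id }⟩

/-- Transport of `IsBC` along equalities of the ring maps. -/
theorem IsBC.congr {G : GlueDatum A R₀ R₁ R₀₁} {G' : GlueDatum A' R₀' R₁' R₀₁'}
    {ρ₀' : R₀ →+* R₀'} {ρ₁' : R₁ →+* R₁'} {ρ₀₁' : R₀₁ →+* R₀₁'}
    (h₀ : ρ₀ = ρ₀') (h₁ : ρ₁ = ρ₁') (h₀₁ : ρ₀₁ = ρ₀₁')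
    (h : GlueDatum.IsBC ρ₀ ρ₁ ρ₀₁ G G') : GlueDatum.IsBC ρ₀' ρ₁' ρ₀₁' G G' := by
  subst h₀ h₁ h₀₁
  exact h

/-- Composition of base changes. -/
theorem IsBC.comp {G : GlueDatum A R₀ R₁ R₀₁} {G' : GlueDatum A' R₀' R₁' R₀₁'}
    {G'' : GlueDatum A'' R₀'' R₁'' R₀₁''}
    (h : GlueDatum.IsBC ρ₀ ρ₁ ρ₀₁ G G') (h' : GlueDatum.IsBC σ₀ σ₁ σ₀₁ G' G'') :
    GlueDatum.IsBC (σ₀.comp ρ₀) (σ₁.comp ρ₁) (σ₀₁.comp ρ₀₁) G G'' := by
  obtain ⟨m⟩ := h
  obtain ⟨m'⟩ := h'
  haveI : RingHomCompTriple ρ₀ σ₀ (σ₀.comp ρ₀) := ⟨rfl⟩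
  haveI : RingHomCompTriple ρ₁ σ₁ (σ₁.comp ρ₁) := ⟨rfl⟩
  haveI : RingHomCompTriple ρ₀₁ σ₀₁ (σ₀₁.comp ρ₀₁) := ⟨rfl⟩
  exact ⟨{ b₀ := m'.b₀.comp m.b₀
           b₁ := m'.b₁.comp m.b₁
           b₀₁ := m'.b₀₁.comp m.b₀₁
           comm₀ := fun s => by
             rw [LinearMap.comp_apply, LinearMap.comp_apply, m.comm₀, m'.comm₀]
           comm₁ := fun s => by
             rw [LinearMap.comp_apply, LinearMap.comp_apply, m.comm₁, m'.comm₁]
           isBaseChange₀ := isSemilinearBaseChange_of_semiUP _ _ ((bcmUp₀ m).comp (bcmUp₀ m'))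
           isBaseChange₁ := isSemilinearBaseChange_of_semiUP _ _ ((bcmUp₁ m).comp (bcmUp₁ m'))
           isBaseChange₀₁ := isSemilinearBaseChange_of_semiUP _ _ ((bcmUp₀₁ m).comp (bcmUp₀₁ m')) }⟩

/-- Base change is unique up to isomorphism. -/
theorem isIso_of_isBC {G : GlueDatum A R₀ R₁ R₀₁} {G' G'' : GlueDatum A' R₀' R₁' R₀₁'}
    (h : GlueDatum.IsBC ρ₀ ρ₁ ρ₀₁ G G') (h' : GlueDatum.IsBC ρ₀ ρ₁ ρ₀₁ G G'') :
    G'.IsIso G'' := by
  obtain ⟨m⟩ := h
  obtain ⟨m'⟩ := h'
  obtain ⟨e₀, he₀⟩ := (bcmUp₀ m).exists_equiv (bcmUp₀ m')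
  obtain ⟨e₁, he₁⟩ := (bcmUp₁ m).exists_equiv (bcmUp₁ m')
  obtain ⟨e₀₁, he₀₁⟩ := (bcmUp₀₁ m).exists_equiv (bcmUp₀₁ m')
  refine ⟨{ e₀ := e₀, e₁ := e₁, e₀₁ := e₀₁, comm₀ := ?_, comm₁ := ?_ }⟩
  · refine (bcmUp₀ m).funext (algebraMap R₀' R₀₁') (fun s => e₀₁ (G'.r₀ s)) (fun s => G''.r₀ (e₀ s))
      (fun x y => by simp) (fun r x => by rw [r₀_smul, map_smul])
      (fun x y => by simp) (fun r x => by rw [map_smul, r₀_smul]) (fun n => ?_)
    rw [← m.comm₀, he₀₁, he₀, m'.comm₀]
  · refine (bcmUp₁ m).funext (algebraMap R₁' R₀₁') (fun s => e₀₁ (G'.r₁ s)) (fun s => G''.r₁ (e₁ s))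
      (fun x y => by simp) (fun r x => by rw [r₁_smul, map_smul])
      (fun x y => by simp) (fun r x => by rw [map_smul, r₁_smul]) (fun n => ?_)
    rw [← m.comm₁, he₀₁, he₁, m'.comm₁]

/-- `IsBC` is invariant under isomorphism of the target. -/
theorem IsBC.of_isIso_right {G : GlueDatum A R₀ R₁ R₀₁} {G' G'' : GlueDatum A' R₀' R₁' R₀₁'}
    (h : GlueDatum.IsBC ρ₀ ρ₁ ρ₀₁ G G') (e : G'.IsIso G'') :
    GlueDatum.IsBC ρ₀ ρ₁ ρ₀₁ G G'' := by
  obtain ⟨m⟩ := h
  obtain ⟨e⟩ := e
  exact ⟨{ b₀ := (e.e₀ : G'.N₀ →ₗ[R₀'] G''.N₀).comp m.b₀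
           b₁ := (e.e₁ : G'.N₁ →ₗ[R₁'] G''.N₁).comp m.b₁
           b₀₁ := (e.e₀₁ : G'.N₀₁ →ₗ[R₀₁'] G''.N₀₁).comp m.b₀₁
           comm₀ := fun s => by
             simp only [LinearMap.comp_apply, LinearEquiv.coe_coe]
             rw [m.comm₀, e.comm₀]
           comm₁ := fun s => by
             simp only [LinearMap.comp_apply, LinearEquiv.coe_coe]
             rw [m.comm₁, e.comm₁]
           isBaseChange₀ := isSemilinearBaseChange_of_semiUP _ _ ((bcmUp₀ m).comp_equiv e.e₀)
           isBaseChange₁ := isSemilinearBaseChange_of_semiUP _ _ ((bcmUp₁ m).comp_equiv e.e₁)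
           isBaseChange₀₁ := isSemilinearBaseChange_of_semiUP _ _ ((bcmUp₀₁ m).comp_equiv e.e₀₁) }⟩

/-- `IsBC` is invariant under isomorphism of the source. -/
theorem IsBC.of_isIso_left {G G₁ : GlueDatum A R₀ R₁ R₀₁} {G' : GlueDatum A' R₀' R₁' R₀₁'}
    (e : G.IsIso G₁) (h : GlueDatum.IsBC ρ₀ ρ₁ ρ₀₁ G G') :
    GlueDatum.IsBC ρ₀ ρ₁ ρ₀₁ G₁ G' := by
  obtain ⟨m⟩ := h
  obtain ⟨e⟩ := e
  exact ⟨{ b₀ := m.b₀.comp (e.e₀.symm : G₁.N₀ →ₗ[R₀] G.N₀)
           b₁ := m.b₁.comp (e.e₁.symm : G₁.N₁ →ₗ[R₁] G.N₁)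
           b₀₁ := m.b₀₁.comp (e.e₀₁.symm : G₁.N₀₁ →ₗ[R₀₁] G.N₀₁)
           comm₀ := fun s => by
             simp only [LinearMap.comp_apply, LinearEquiv.coe_coe]
             rw [← m.comm₀]
             exact congrArg _ ((isoSymm e).comm₀ s)
           comm₁ := fun s => by
             simp only [LinearMap.comp_apply, LinearEquiv.coe_coe]
             rw [← m.comm₁]
             exact congrArg _ ((isoSymm e).comm₁ s)
           isBaseChange₀ := isSemilinearBaseChange_of_semiUP _ _ ((bcmUp₀ m).equiv_comp e.e₀.symm)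
           isBaseChange₁ := isSemilinearBaseChange_of_semiUP _ _ ((bcmUp₁ m).equiv_comp e.e₁.symm)
           isBaseChange₀₁ :=
             isSemilinearBaseChange_of_semiUP _ _ ((bcmUp₀₁ m).equiv_comp e.e₀₁.symm) }⟩

/-- Cancellation: if `G'` is the base change of `G` along `ρ` and `G''` is the base change of
`G` along `σ ∘ ρ`, where `σ` is a morphism of cospans, then `G''` is the base change of `G'`
along `σ`. -/
theorem IsBC.of_comp {G : GlueDatum A R₀ R₁ R₀₁} {G' : GlueDatum A' R₀' R₁' R₀₁'}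
    {G'' : GlueDatum A'' R₀'' R₁'' R₀₁''}
    (hcosp₀ : ∀ r, σ₀₁ (algebraMap R₀' R₀₁' r) = algebraMap R₀'' R₀₁'' (σ₀ r))
    (hcosp₁ : ∀ r, σ₀₁ (algebraMap R₁' R₀₁' r) = algebraMap R₁'' R₀₁'' (σ₁ r))
    (h : GlueDatum.IsBC ρ₀ ρ₁ ρ₀₁ G G')
    (hc : GlueDatum.IsBC (σ₀.comp ρ₀) (σ₁.comp ρ₁) (σ₀₁.comp ρ₀₁) G G'') :
    GlueDatum.IsBC σ₀ σ₁ σ₀₁ G' G'' := by
  obtain ⟨m⟩ := h
  obtain ⟨m''⟩ := hc
  haveI : RingHomCompTriple ρ₀ σ₀ (σ₀.comp ρ₀) := ⟨rfl⟩
  haveI : RingHomCompTriple ρ₁ σ₁ (σ₁.comp ρ₁) := ⟨rfl⟩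
  haveI : RingHomCompTriple ρ₀₁ σ₀₁ (σ₀₁.comp ρ₀₁) := ⟨rfl⟩
  obtain ⟨b₀, hb₀⟩ := (bcmUp₀ m).exists_lift σ₀ (fun n => m''.b₀ n) (fun x y => by simp)
    (fun r x => by rw [LinearMap.map_smulₛₗ]; rfl)
  obtain ⟨b₁, hb₁⟩ := (bcmUp₁ m).exists_lift σ₁ (fun n => m''.b₁ n) (fun x y => by simp)
    (fun r x => by rw [LinearMap.map_smulₛₗ]; rfl)
  obtain ⟨b₀₁, hb₀₁⟩ := (bcmUp₀₁ m).exists_lift σ₀₁ (fun n => m''.b₀₁ n) (fun x y => by simp)
    (fun r x => by rw [LinearMap.map_smulₛₗ]; rfl)
  have e₀ : (b₀.comp m.b₀ : G.N₀ →ₛₗ[σ₀.comp ρ₀] G''.N₀) = m''.b₀ := LinearMap.ext hb₀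
  have e₁ : (b₁.comp m.b₁ : G.N₁ →ₛₗ[σ₁.comp ρ₁] G''.N₁) = m''.b₁ := LinearMap.ext hb₁
  have e₀₁ : (b₀₁.comp m.b₀₁ : G.N₀₁ →ₛₗ[σ₀₁.comp ρ₀₁] G''.N₀₁) = m''.b₀₁ :=
    LinearMap.ext hb₀₁
  refine ⟨{ b₀ := b₀, b₁ := b₁, b₀₁ := b₀₁, comm₀ := ?_, comm₁ := ?_,
            isBaseChange₀ := ?_, isBaseChange₁ := ?_, isBaseChange₀₁ := ?_ }⟩
  · refine (bcmUp₀ m).funext ((algebraMap R₀'' R₀₁'').comp σ₀)
      (fun s => b₀₁ (G'.r₀ s)) (fun s => G''.r₀ (b₀ s))
      (fun x y => by simp)
      (fun r x => by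
        rw [r₀_smul, LinearMap.map_smulₛₗ, hcosp₀]; rfl)
      (fun x y => by simp)
      (fun r x => by rw [LinearMap.map_smulₛₗ, r₀_smul]; rfl) (fun n => ?_)
    rw [← m.comm₀, hb₀₁, hb₀, m''.comm₀]
  · refine (bcmUp₁ m).funext ((algebraMap R₁'' R₀₁'').comp σ₁)
      (fun s => b₀₁ (G'.r₁ s)) (fun s => G''.r₁ (b₁ s))
      (fun x y => by simp)
      (fun r x => by
        rw [r₁_smul, LinearMap.map_smulₛₗ, hcosp₁]; rfl)
      (fun x y => by simp)
      (fun r x => by rw [LinearMap.map_smulₛₗ, r₁_smul]; rfl) (fun n => ?_)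
    rw [← m.comm₁, hb₀₁, hb₁, m''.comm₁]
  · refine isSemilinearBaseChange_of_semiUP _ _ ((bcmUp₀ m).of_comp (τ := σ₀.comp ρ₀) ?_)
    rw [e₀]
    exact bcmUp₀ m''
  · refine isSemilinearBaseChange_of_semiUP _ _ ((bcmUp₁ m).of_comp (τ := σ₁.comp ρ₁) ?_)
    rw [e₁]
    exact bcmUp₁ m''
  · refine isSemilinearBaseChange_of_semiUP _ _ ((bcmUp₀₁ m).of_comp (τ := σ₀₁.comp ρ₀₁) ?_)
    rw [e₀₁]
    exact bcmUp₀₁ m''

end BC

end Fermat.Agent.S25.H265

end
-- ===== PACK-END S25/H265/GDCIso.lean

-- ===== PACK-BEGIN S25/H250/AdapterProj.lean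
section
/-
S25, squad S25/S10 (helper250): ADAPTER, part 2.  For a curve chart and any gluing datum `G` on
`C_A`, the operators of `toCechOps` satisfy the hypotheses of the Cech core K0-K6:
`IsFGProj X0`, `IsFGProj Y1`, `r0`, `r1` injective.
-/



set_option autoImplicit false
set_option linter.style.haveILetI false
set_option linter.unusedSectionVars false

universe u

open scoped TensorProduct
open Polynomial

namespace Fermat.Agent.S25.H250

open Fermat.Agent.S25 Fermat.Agent.S25.H10

section General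

variable {A : Type u} [CommRing A]

/-- An equivariant retract of an `IsFGProj` operator is `IsFGProj`. -/
theorem isFGProj_of_retract {N W : Type u} [AddCommGroup N] [Module A N] [AddCommGroup W]
    [Module A W] {E : Module.End A N} {F : Module.End A W} (hF : IsFGProj F)
    (ι : N →ₗ[A] W) (π : W →ₗ[A] N) (hπι : π ∘ₗ ι = LinearMap.id)
    (hι : ∀ v, ι (E v) = F (ι v)) (hπ : ∀ w, π (F w) = E (π w)) : IsFGProj E := by
  obtain ⟨n, ι', π', h1, h2, h3⟩ := hF
  refine ⟨n, ι' ∘ₗ ι, π ∘ₗ π', ?_, ?_, ?_⟩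
  · apply LinearMap.ext
    intro v
    have h1' := LinearMap.congr_fun h1 (ι v)
    have h2' := LinearMap.congr_fun hπι v
    simp only [LinearMap.coe_comp, Function.comp_apply, LinearMap.id_coe, id_eq] at h1' h2' ⊢
    rw [h1', h2']
  · intro v
    simp only [LinearMap.coe_comp, Function.comp_apply]
    rw [hι, h2]
  · intro w
    simp only [LinearMap.coe_comp, Function.comp_apply]
    rw [h3, hπ]

/-- Multiplication by `t` on `R^m` is `IsFGProj` when `R ≃ A[X]^n` intertwines `t` and `X`. -/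
theorem isFGProj_lsmul_pi {R : Type u} [CommRing R] [Algebra A R] (t : R) {n : ℕ}
    (Φ : R ≃ₗ[A] (Fin n → A[X])) (hΦ : ∀ z, Φ (t * z) = (X : A[X]) • Φ z) (m : ℕ) :
    IsFGProj (Algebra.lsmul A A (Fin m → R) t) := by
  let Ψ : (Fin m → R) ≃ₗ[A] (Fin (m * n) → A[X]) :=
    (LinearEquiv.piCongrRight (fun _ : Fin m => Φ)) ≪≫ₗ
      (LinearEquiv.curry A A[X] (Fin m) (Fin n)).symm ≪≫ₗ
      (LinearEquiv.funCongrLeft A A[X] finProdFinEquiv.symm)
  have hΨ : ∀ w, Ψ (t • w) = (X : A[X]) • Ψ w := by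
    intro w
    ext1 idx
    show Φ ((t • w) (finProdFinEquiv.symm idx).1) (finProdFinEquiv.symm idx).2 =
      (X : A[X]) * Φ (w (finProdFinEquiv.symm idx).1) (finProdFinEquiv.symm idx).2
    rw [Pi.smul_apply, smul_eq_mul, hΦ]
    rfl
  refine ⟨m * n, Ψ.toLinearMap, Ψ.symm.toLinearMap, ?_, ?_, ?_⟩
  · apply LinearMap.ext; intro v; simp
  · intro v
    exact hΨ v
  · intro w
    simp only [LinearEquiv.coe_coe, Algebra.lsmul_coe]
    rw [LinearEquiv.symm_apply_eq, hΨ, LinearEquiv.apply_symm_apply]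

/-- Multiplication by `t` on a finitely generated projective `R`-module is `IsFGProj` when
`R ≃ A[X]^n` intertwines `t` and `X`. -/
theorem isFGProj_lsmul {R : Type u} [CommRing R] [Algebra A R] (t : R) {n : ℕ}
    (Φ : R ≃ₗ[A] (Fin n → A[X])) (hΦ : ∀ z, Φ (t * z) = (X : A[X]) • Φ z)
    (N : Type u) [AddCommGroup N] [Module R N] [Module A N] [IsScalarTower A R N]
    [Module.Finite R N] [Module.Projective R N] :
    IsFGProj (Algebra.lsmul A A N t) := by
  obtain ⟨m, f, g, -, -, hfg⟩ := Module.Finite.exists_comp_eq_id_of_projective R N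
  refine isFGProj_of_retract (isFGProj_lsmul_pi t Φ hΦ m) (g.restrictScalars A)
    (f.restrictScalars A) ?_ ?_ ?_
  · apply LinearMap.ext
    intro v
    exact LinearMap.congr_fun hfg v
  · intro v
    simp
  · intro w
    simp

/-- An `IsFGProj` operator is injective. -/
theorem injective_of_isFGProj' {N : Type u} [AddCommGroup N] [Module A N] {E : Module.End A N}
    (h : IsFGProj E) : Function.Injective E := by
  obtain ⟨n, ι, π, h1, h2, -⟩ := h
  rw [injective_iff_map_eq_zero]
  intro v hv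
  have h3 : (X : A[X]) • ι v = 0 := by rw [← h2, hv, map_zero]
  have h4 : ι v = 0 := by
    funext i
    have := congrFun h3 i
    simp only [Pi.smul_apply, smul_eq_mul, Pi.zero_apply] at this ⊢
    exact (Polynomial.isRegular_X (R := A)).left.mul_left_eq_zero_iff.1 this
  have := LinearMap.congr_fun h1 v
  simp only [LinearMap.coe_comp, Function.comp_apply, LinearMap.id_coe, id_eq] at this
  rw [← this, h4, map_zero]

theorem injective_pow_of_isFGProj {N : Type u} [AddCommGroup N] [Module A N]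
    {E : Module.End A N} (h : IsFGProj E) (j : ℕ) : Function.Injective (E ^ j) := by
  induction j with
  | zero => exact fun _ _ h => h
  | succ j ih =>
    rw [pow_succ]
    exact ih.comp (injective_of_isFGProj' h)

end General


end Fermat.Agent.S25.H250


namespace Fermat.Agent.S25.H250

open Fermat.Agent.S25 Fermat.Agent.S25.H10

section Chart

variable {k : Type u} [Field k] {B₀ B₁ B₀₁ : Type u} [CommRing B₀] [CommRing B₁] [CommRing B₀₁]
  [Algebra k B₀] [Algebra k B₁] [Algebra k B₀₁] [Algebra B₀ B₀₁] [Algebra B₁ B₀₁]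
  [IsScalarTower k B₀ B₀₁] [IsScalarTower k B₁ B₀₁]
  {x : B₀} {y : B₁} {e : B₁ →ₐ[k] k} {A : Type u} [CommRing A] [Algebra k A]

/-- The operator-style Cech datum of a gluing datum on `C_A`, for a curve chart. -/
noncomputable def chartCechOps (h : IsCurveChart k B₀ B₁ B₀₁ x y e) (G : CurveGD k B₀ B₁ B₀₁ A) :
    CechOps A G.N₀ G.N₁ G.N₀₁ :=
  haveI := h.away₀
  haveI := h.away₁
  toCechOps x y h.mul_eq_one G

theorem chartCechOps_d_zero (h : IsCurveChart k B₀ B₁ B₀₁ x y e) (G : CurveGD k B₀ B₁ B₀₁ A) :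
    (chartCechOps h G).d 0 = G.cech := by
  haveI := h.away₀
  haveI := h.away₁
  exact toCechOps_d_zero x y h.mul_eq_one G

theorem chartCechOps_H0_zero (h : IsCurveChart k B₀ B₁ B₀₁ x y e) (G : CurveGD k B₀ B₁ B₀₁ A) :
    (chartCechOps h G).H0 0 = G.H0 := by
  haveI := h.away₀
  haveI := h.away₁
  exact toCechOps_H0_zero x y h.mul_eq_one G

theorem isFGProj_X0 (h : IsCurveChart k B₀ B₁ B₀₁ x y e) (G : CurveGD k B₀ B₁ B₀₁ A) :
    IsFGProj (chartCechOps h G).X0 := by
  haveI := h.isDomain₀
  haveI := G.invertible₀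
  obtain ⟨n, φ, hφ⟩ := exists_equivariant_equiv (aeval_x_injective h) h.finite₀
  obtain ⟨Φ, hΦ⟩ := exists_equivariant_equiv_tensor φ hφ A
  exact isFGProj_lsmul ((1 : A) ⊗ₜ[k] x) Φ hΦ G.N₀

theorem isFGProj_Y1 (h : IsCurveChart k B₀ B₁ B₀₁ x y e) (G : CurveGD k B₀ B₁ B₀₁ A) :
    IsFGProj (chartCechOps h G).Y1 := by
  haveI := h.isDomain₁
  haveI := G.invertible₁
  obtain ⟨n, φ, hφ⟩ := exists_equivariant_equiv (aeval_y_injective h) h.finite₁
  obtain ⟨Φ, hΦ⟩ := exists_equivariant_equiv_tensor φ hφ A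
  exact isFGProj_lsmul ((1 : A) ⊗ₜ[k] y) Φ hΦ G.N₁

/-- `A ⊗ B[1/x]` is the localization of `A ⊗ B` at `1 ⊗ x`. -/
theorem isLocalization_away_tensor (B B' : Type u) [CommRing B] [CommRing B'] [Algebra k B]
    [Algebra k B'] [Algebra B B'] [IsScalarTower k B B'] (x : B) [IsLocalization.Away x B'] :
    IsLocalization.Away ((1 : A) ⊗ₜ[k] x : A ⊗[k] B) (A ⊗[k] B') := by
  have H : (algebraMap (A ⊗[k] B) (A ⊗[k] B')).comp
      (Algebra.TensorProduct.includeRight (R := k) (A := A) (B := B)).toRingHom =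
      (Algebra.TensorProduct.includeRight (R := k) (A := A) (B := B')).toRingHom.comp
        (algebraMap B B') := by
    ext b
    simp [algebraMap_tensor_tmul]
  have := IsLocalization.tensorProduct_tensorProduct_right k A (Submonoid.powers x) B' H
  rw [Submonoid.map_powers] at this
  exact this

theorem r0_injective (h : IsCurveChart k B₀ B₁ B₀₁ x y e) (G : CurveGD k B₀ B₁ B₀₁ A) :
    Function.Injective (chartCechOps h G).r0 := by
  haveI := h.away₀
  haveI := h.away₁
  haveI : IsLocalization.Away ((1 : A) ⊗ₜ[k] x : A ⊗[k] B₀) (A ⊗[k] B₀₁) :=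
    isLocalization_away_tensor B₀ B₀₁ x
  haveI : IsLocalizedModule (Submonoid.powers ((1 : A) ⊗ₜ[k] x : A ⊗[k] B₀)) G.r₀ :=
    (isLocalizedModule_iff_isBaseChange (Submonoid.powers ((1 : A) ⊗ₜ[k] x : A ⊗[k] B₀))
      (A ⊗[k] B₀₁) G.r₀).2 G.isBaseChange₀
  rw [injective_iff_map_eq_zero]
  intro n hn
  have hn' : G.r₀ n = 0 := hn
  rw [IsLocalizedModule.eq_zero_iff (Submonoid.powers ((1 : A) ⊗ₜ[k] x : A ⊗[k] B₀))] at hn'
  obtain ⟨⟨_, j, rfl⟩, hj⟩ := hn'
  have hj' : ((chartCechOps h G).X0 ^ j) n = 0 := by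
    rw [show chartCechOps h G = toCechOps x y h.mul_eq_one G from rfl, toCechOps_X0_pow_apply]
    exact hj
  exact injective_pow_of_isFGProj (isFGProj_X0 h G) j (by rw [hj', map_zero])

theorem r1_injective (h : IsCurveChart k B₀ B₁ B₀₁ x y e) (G : CurveGD k B₀ B₁ B₀₁ A) :
    Function.Injective (chartCechOps h G).r1 := by
  haveI := h.away₀
  haveI := h.away₁
  haveI : IsLocalization.Away ((1 : A) ⊗ₜ[k] y : A ⊗[k] B₁) (A ⊗[k] B₀₁) :=
    isLocalization_away_tensor B₁ B₀₁ y
  haveI : IsLocalizedModule (Submonoid.powers ((1 : A) ⊗ₜ[k] y : A ⊗[k] B₁)) G.r₁ :=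
    (isLocalizedModule_iff_isBaseChange (Submonoid.powers ((1 : A) ⊗ₜ[k] y : A ⊗[k] B₁))
      (A ⊗[k] B₀₁) G.r₁).2 G.isBaseChange₁
  rw [injective_iff_map_eq_zero]
  intro n hn
  have hn' : G.r₁ n = 0 := hn
  rw [IsLocalizedModule.eq_zero_iff (Submonoid.powers ((1 : A) ⊗ₜ[k] y : A ⊗[k] B₁))] at hn'
  obtain ⟨⟨_, j, rfl⟩, hj⟩ := hn'
  have hj' : ((chartCechOps h G).Y1 ^ j) n = 0 := by
    rw [show chartCechOps h G = toCechOps x y h.mul_eq_one G from rfl, toCechOps_Y1_pow_apply]
    exact hj
  exact injective_pow_of_isFGProj (isFGProj_Y1 h G) j (by rw [hj', map_zero])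

end Chart

end Fermat.Agent.S25.H250

end
-- ===== PACK-END S25/H250/AdapterProj.lean

-- ===== PACK-BEGIN S25/H505/SectionsAffine.lean
section
/-
S25, dictionary (helper505): sections of quasi-coherent / invertible modules over affine opens:
restriction between affine opens is a base change (`resMod_isBC`), sections of an invertible
module over an affine open form an invertible module (`invertible_sections`).
-/




open CategoryTheory AlgebraicGeometry Opposite TopologicalSpace

universe u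

namespace Fermat.Agent.S25.H505

variable {X : Scheme.{u}}

/-- the unit for the identity morphism -/
theorem unitSec_id (M : X.Modules) (U : X.Opens) (s : Γ(M, U)) :
    ((Scheme.Modules.pullbackId X).hom.app M).app ((𝟙 X) ⁻¹ᵁ U) (unitSec (𝟙 X) M U s) = s := by
  have h1 := unit_conjugateEquiv (Adjunction.id (C := X.Modules))
    (Scheme.Modules.pullbackPushforwardAdjunction (𝟙 X)) (Scheme.Modules.pullbackId X).hom M
  rw [Scheme.Modules.conjugateEquiv_pullbackId_hom] at h1
  exact congr((Scheme.Modules.Hom.app $h1 U) s).symm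

/-- **Restriction between affine opens is a base change** (for a quasi-coherent module). -/
theorem resMod_isBC (M : X.Modules) [M.IsQuasicoherent] {U V : X.Opens} (hU : IsAffineOpen U)
    (hV : IsAffineOpen V) (h : V ≤ U) :
    IsBC (X.presheaf.map (homOfLE h).op).hom (M.presheaf.map (homOfLE h).op).hom := by
  have h' : V ≤ (𝟙 X) ⁻¹ᵁ U := h
  have h0 := secMap_isBC (𝟙 X) M hU hV h'
  refine h0.of_square (α := RingHom.id _) (β := RingHom.id _)
    (a := AddMonoidHom.id _) (b := (((Scheme.Modules.pullbackId X).hom.app M).app V).hom)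
    (fun r s => Scheme.Modules.map_smul M (homOfLE h) r s)
    (fun r s => rfl)
    (fun r s => Scheme.Modules.Hom.app_smul _ r s)
    Function.bijective_id Function.bijective_id Function.bijective_id
    (ConcreteCategory.bijective_of_isIso (((Scheme.Modules.pullbackId X).hom.app M).app V))
    (fun r => ?_) (fun s => ?_)
  · simp only [RingHom.id_apply]
    rfl
  · change M.presheaf.map (homOfLE h).op s =
      ((Scheme.Modules.pullbackId X).hom.app M).app V (secMap (𝟙 X) M h' s)
    rw [secMap_apply, hom_app_res, unitSec_id]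
    rfl

/-- **Sections of an invertible module over an affine open form an invertible module.** -/
theorem invertible_sections (M : X.Modules) (hM : Scheme.Modules.IsInvertible M)
    {U : X.Opens} (hU : IsAffineOpen U) : Module.Invertible Γ(X, U) Γ(M, U) := by
  have hF := hM.pullback hU.fromSpec
  have hinv := invertible_Γ_of_isInvertible _ hF
  have hle : (⊤ : (Spec Γ(X, U)).Opens) ≤ hU.fromSpec ⁻¹ᵁ U := by
    rw [hU.fromSpec_preimage_self]
  have hge : U ≤ hU.fromSpec ''ᵁ ⊤ := by
    rw [Scheme.Hom.image_top_eq_opensRange, hU.opensRange_fromSpec]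
  have hbij := secMap_bijective_of_isOpenImmersion hU.fromSpec M hle hge
  have hring : ∀ r : Γ(X, U), (hU.fromSpec.appLE U ⊤ hle).hom r =
      ((Spec Γ(X, U)).presheaf.map (⊤ : (Spec Γ(X, U)).Opens).leTop.op)
        ((Scheme.ΓSpecIso Γ(X, U)).inv r) := by
    intro r
    have h1 : hU.fromSpec.appLE U ⊤ hle = (Scheme.ΓSpecIso Γ(X, U)).inv ≫
        (Spec Γ(X, U)).presheaf.map (⊤ : (Spec Γ(X, U)).Opens).leTop.op := by
      rw [Scheme.Hom.appLE, hU.fromSpec_app_self, Category.assoc, ← Functor.map_comp]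
      rfl
    exact congr($h1 r)
  let e : Γ(M, U) ≃ₗ[Γ(X, U)]
      (moduleSpecΓFunctor.obj ((Scheme.Modules.pullback hU.fromSpec).obj M)) :=
    { toFun := secMap hU.fromSpec M hle
      map_add' := (secMap hU.fromSpec M hle).hom.map_add
      map_smul' := fun r s => by
        simp only [RingHom.id_apply]
        rw [secMap_smul, hring]
        rfl
      invFun := (Equiv.ofBijective _ hbij).symm
      left_inv := (Equiv.ofBijective _ hbij).left_inv
      right_inv := (Equiv.ofBijective _ hbij).right_inv }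
  exact Module.Invertible.congr e.symm

end Fermat.Agent.S25.H505

end
-- ===== PACK-END S25/H505/SectionsAffine.lean

-- ===== PACK-BEGIN S25/H746/AbelDefs.lean
section


/-!
# Row S25, block ABEL: interface between the algebra side and the scheme side (helper746)

The Abel family is the family of line bundles `O(Γ_{p₁} + … + Γ_{p_g} − g·ε)` on `C × C^g`.
On the algebra side it is a rule `F` assigning a gluing datum over `A` to every `g`-tuple of
*chart points* of the curve with values in `A` (a chart point is an `A`-valued point of one of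
the two charts `Spec B₀`, `Spec B₁`), compatible with base change and independent of the choice
of charts.  The scheme side (files `Power`, `AbelGlue`, `AbelFamily` of this directory) turns
such a rule into the frozen statement `Stmt.Abel`.

Only definitions here.
-/

set_option autoImplicit false
universe u
open CategoryTheory CategoryTheory.Limits AlgebraicGeometry AlgebraicGeometry.RelPicard
  NeronModelInfra GoodReductionJacobian
open scoped TensorProduct

namespace Fermat.Agent.S25.H746

open Fermat.Agent.S25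

noncomputable section

section Alg

variable (k : Type u) [Field k] (B₀ B₁ B₀₁ : Type u) [CommRing B₀] [CommRing B₁] [CommRing B₀₁]
  [Algebra k B₀] [Algebra k B₁] [Algebra k B₀₁] [Algebra B₀ B₀₁] [Algebra B₁ B₀₁]
  [IsScalarTower k B₀ B₀₁] [IsScalarTower k B₁ B₀₁]

/-- A chart point of the curve with values in `A`: an `A`-valued point of `Spec B₀` or of
`Spec B₁`. -/
abbrev ChartPt (A : Type u) [CommRing A] [Algebra k A] : Type u :=
  (B₀ →ₐ[k] A) ⊕ (B₁ →ₐ[k] A)

variable {k B₀ B₁ B₀₁}

/-- Base change of a chart point along `ψ : A → A'`. -/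
def ChartPt.map {A A' : Type u} [CommRing A] [Algebra k A] [CommRing A'] [Algebra k A']
    (ψ : A →ₐ[k] A') : ChartPt k B₀ B₁ A → ChartPt k B₀ B₁ A' :=
  Sum.map (fun φ => ψ.comp φ) (fun φ => ψ.comp φ)

variable (B₀₁) in
/-- Two chart points define the same `A`-valued point of the curve: they are equal, or they
are the two chart descriptions of an `A`-valued point of the intersection `Spec B₀₁`. -/
def ChartPt.Same {A : Type u} [CommRing A] [Algebra k A] (P Q : ChartPt k B₀ B₁ A) : Prop :=
  P = Q ∨ ∃ φ : B₀₁ →ₐ[k] A,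
    (P = Sum.inl (φ.comp (IsScalarTower.toAlgHom k B₀ B₀₁)) ∧
        Q = Sum.inr (φ.comp (IsScalarTower.toAlgHom k B₁ B₀₁))) ∨
      (P = Sum.inr (φ.comp (IsScalarTower.toAlgHom k B₁ B₀₁)) ∧
        Q = Sum.inl (φ.comp (IsScalarTower.toAlgHom k B₀ B₀₁)))

variable (k B₀ B₁ B₀₁)

/-- The algebraic Abel family: gluing data `F A P` (think `O(Σ Γ_{P i} − g·ε)`) attached to
`g`-tuples `P` of chart points with values in `A`. -/
structure AlgAbelFamily (e : B₁ →ₐ[k] k) where
  /-- the number of points (the genus) -/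
  g : ℕ
  /-- the gluing datum of `O(Σ Γ_{P i} − g·ε)` -/
  F : ∀ (A : Type u) [CommRing A] [Algebra k A],
    (Fin g → ChartPt k B₀ B₁ A) → CurveGD k B₀ B₁ B₀₁ A
  /-- compatibility with base change -/
  bc : ∀ (A A' : Type u) [CommRing A] [Algebra k A] [CommRing A'] [Algebra k A']
    (ψ : A →ₐ[k] A') (P : Fin g → ChartPt k B₀ B₁ A),
    CurveGD.IsBC ψ (F A P) (F A' (fun i => (P i).map ψ))
  /-- independence of the choice of charts -/
  same : ∀ (A : Type u) [CommRing A] [Algebra k A] (P Q : Fin g → ChartPt k B₀ B₁ A),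
    (∀ i, ChartPt.Same B₀₁ (P i) (Q i)) → (F A P).IsIso (F A Q)
  /-- Zariski-locally on `Spec A` the datum is rigidifiable -/
  locRig : ∀ (A : Type u) [CommRing A] [Algebra k A] (P : Fin g → ChartPt k B₀ B₁ A)
    (𝔭 : Ideal A), 𝔭.IsPrime → ∃ f : A, f ∉ 𝔭 ∧
      ∀ (A' : Type u) [CommRing A'] [Algebra k A'] (ψ : A →ₐ[k] A'), IsUnit (ψ f) →
        (F A' (fun i => (P i).map ψ)).Rigidifiable e
  /-- at the tuple `(ε, …, ε)` the datum is trivial -/
  triv : (F k (fun _ => Sum.inr e)).IsIso (GlueDatum.unit k (k ⊗[k] B₀) (k ⊗[k] B₁) (k ⊗[k] B₀₁))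
  /-- over an algebraically closed field every datum of degree `0` is in the family -/
  surj : ∀ (K : Type u) [Field K] [IsAlgClosed K] [Algebra k K] (G : CurveGD k B₀ B₁ B₀₁ K),
    G.Deg0 → ∃ P : Fin g → ChartPt k B₀ B₁ K, G.IsIso (F K P)

namespace Stmt

/-- ALG-ABEL: every curve chart has an algebraic Abel family. -/
def AlgAbel : Prop :=
  ∀ (x : B₀) (y : B₁) (e : B₁ →ₐ[k] k), IsCurveChart k B₀ B₁ B₀₁ x y e →
    Nonempty (AlgAbelFamily k B₀ B₁ B₀₁ e)

end Stmt

end Alg

section Dict

variable {k : Type u} [Field k] {C : Scheme.{u}} {c : C ⟶ Spec (CommRingCat.of k)}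
  {ε : SchemeHomOver (𝟙 (Spec (CommRingCat.of k))) c}

namespace Stmt

/-- DICT-UNIT: the unit gluing datum is the gluing datum of sections of the unit bundle. -/
def DictUnit (Ch : ChartOf c ε) : Prop :=
  ∀ (A : Type u) [CommRing A] [Algebra k A],
    Corr Ch A (RigidifiedLineBundle.unit (c := c) (ε := ε) (specStr k A)).L
      (GlueDatum.unit A (A ⊗[k] Ch.B₀) (A ⊗[k] Ch.B₁) (A ⊗[k] Ch.B₀₁))

/-- DICT-DEG, direction `⇒` only (this is the direction used to prove `Stmt.Abel`; the
direction `⇐` is a consequence of the Abel family). -/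
def DictDegMp (Ch : ChartOf c ε) : Prop :=
  ∀ (A : Type u) [CommRing A] [Algebra k A] (M : RigidifiedLineBundle c ε (specStr k A))
    (G : CurveGD k Ch.B₀ Ch.B₁ Ch.B₀₁ A), Corr Ch A M.L G →
      FibrewiseAlgEquivZero M → G.Deg0

/-- ABEL-FAMILY: the scheme-level Abel family, in the form needed both for `Stmt.Abel` and
for the direction `⇐` of `Stmt.DictDeg`: a proper geometrically integral `X`, a rigidified
bundle over it that is fibrewise algebraically equivalent to zero, and whose fibres realise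
every line bundle over an algebraically closed field whose gluing datum has degree zero. -/
def AbelFamily (Ch : ChartOf c ε) : Prop :=
  ∃ (X : Scheme.{u}) (x : X ⟶ Spec (CommRingCat.of k)) (_ : IsProper x)
    (_ : GeometricallyIntegral x) (M : RigidifiedLineBundle c ε x),
    FibrewiseAlgEquivZero M ∧
      ∀ (K : Type u) [Field K] [IsAlgClosed K] [Algebra k K]
        (L : RigidifiedLineBundle c ε (specStr k K)) (G : CurveGD k Ch.B₀ Ch.B₁ Ch.B₀₁ K),
        Corr Ch K L.L G → G.Deg0 →
        ∃ p : SchemeHomOver (specStr k K) x, RIso (M.pullbackAlong p) L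

/-- ABEL-FAMILY, pointed form: as `AbelFamily`, but exposing a `k`-point `t₀` of `X` over
which the bundle is trivial (this implies `FibrewiseAlgEquivZero M`). -/
def AbelFamilyPt (Ch : ChartOf c ε) : Prop :=
  ∃ (X : Scheme.{u}) (x : X ⟶ Spec (CommRingCat.of k)) (_ : IsProper x)
    (_ : GeometricallyIntegral x) (M : RigidifiedLineBundle c ε x)
    (t₀ : SchemeHomOver (𝟙 (Spec (CommRingCat.of k))) x),
    RIso (M.pullbackAlong t₀)
        (RigidifiedLineBundle.unit (c := c) (ε := ε) (𝟙 (Spec (CommRingCat.of k)))) ∧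
      ∀ (K : Type u) [Field K] [IsAlgClosed K] [Algebra k K]
        (L : RigidifiedLineBundle c ε (specStr k K)) (G : CurveGD k Ch.B₀ Ch.B₁ Ch.B₀₁ K),
        Corr Ch K L.L G → G.Deg0 →
        ∃ p : SchemeHomOver (specStr k K) x, RIso (M.pullbackAlong p) L

end Stmt

end Dict

end

end Fermat.Agent.S25.H746

end
-- ===== PACK-END S25/H746/AbelDefs.lean

-- ===== PACK-BEGIN S25/H310/DegreeInvariance.lean
section
/-
S25, block DEGREE, leaf D2 (helper310): invariance of `Ȟ⁰`, `Ȟ¹`, `euler` and `degree` of gluing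
data under isomorphism and under base change.

* `BCMaps.H1Equiv` : `A' ⊗[A] Ȟ¹(G) ≃ Ȟ¹(G')` for every base change `G'` of `G` (any `A → A'`);
* `BCMaps.H0Equiv` : `A' ⊗[A] Ȟ⁰(G) ≃ Ȟ⁰(G')` for flat `A → A'`;
* `euler_eq_of_isBC`, `degree_eq_of_isBC` : field extensions `K → K'` do not change `χ`, `deg`;
* `euler_eq_of_isIso`, `degree_eq_of_isIso`.
-/


set_option autoImplicit false

namespace Fermat.Agent.S25.H310

open TensorProduct Fermat.Agent.S25

universe u

section Iso

variable {A R₀ R₁ R₀₁ : Type u} [CommRing A] [CommRing R₀] [CommRing R₁]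
    [CommRing R₀₁] [Algebra A R₀] [Algebra A R₁] [Algebra A R₀₁] [Algebra R₀ R₀₁]
    [Algebra R₁ R₀₁] [IsScalarTower A R₀ R₀₁] [IsScalarTower A R₁ R₀₁]
    {G G' : GlueDatum A R₀ R₁ R₀₁}

/-- The `A`-linear equivalence `N₀ × N₁ ≃ N₀' × N₁'` of an isomorphism of gluing data. -/
noncomputable def isoProdEquiv (e : GlueDatum.Iso G G') : (G.N₀ × G.N₁) ≃ₗ[A] (G'.N₀ × G'.N₁) :=
  (e.e₀.restrictScalars A).prodCongr (e.e₁.restrictScalars A)

theorem cech_isoProdEquiv (e : GlueDatum.Iso G G') (p : G.N₀ × G.N₁) :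
    G'.cech (isoProdEquiv e p) = e.e₀₁ (G.cech p) := by
  simp [isoProdEquiv, GlueDatum.cech, e.comm₀, e.comm₁]

/-- `Ȟ⁰` of isomorphic gluing data. -/
noncomputable def isoH0Equiv (e : GlueDatum.Iso G G') : G.H0 ≃ₗ[A] G'.H0 :=
  LinearEquiv.ofSubmodules (isoProdEquiv e) G.H0 G'.H0 (by
    ext x
    simp only [Submodule.mem_map, LinearMap.mem_ker, LinearEquiv.coe_coe]
    constructor
    · rintro ⟨p, hp, rfl⟩
      rw [cech_isoProdEquiv, hp, map_zero]
    · intro hx
      refine ⟨(isoProdEquiv e).symm x, ?_, by simp⟩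
      apply e.e₀₁.injective
      rw [← cech_isoProdEquiv, LinearEquiv.apply_symm_apply, hx, map_zero])

/-- `Ȟ¹` of isomorphic gluing data. -/
noncomputable def isoH1Equiv (e : GlueDatum.Iso G G') : G.H1 ≃ₗ[A] G'.H1 :=
  Submodule.Quotient.equiv (LinearMap.range G.cech) (LinearMap.range G'.cech)
    (e.e₀₁.restrictScalars A) (by
      ext x
      simp only [Submodule.mem_map, LinearMap.mem_range, LinearEquiv.coe_coe,
        LinearEquiv.restrictScalars_apply]
      constructor
      · rintro ⟨_, ⟨p, rfl⟩, rfl⟩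
        exact ⟨isoProdEquiv e p, cech_isoProdEquiv e p⟩
      · rintro ⟨p, rfl⟩
        refine ⟨G.cech ((isoProdEquiv e).symm p), ⟨_, rfl⟩, ?_⟩
        rw [← cech_isoProdEquiv, LinearEquiv.apply_symm_apply])

end Iso

section IsoField

variable {K R₀ R₁ R₀₁ : Type u} [Field K] [CommRing R₀] [CommRing R₁]
    [CommRing R₀₁] [Algebra K R₀] [Algebra K R₁] [Algebra K R₀₁] [Algebra R₀ R₀₁]
    [Algebra R₁ R₀₁] [IsScalarTower K R₀ R₀₁] [IsScalarTower K R₁ R₀₁]
    {G G' : GlueDatum K R₀ R₁ R₀₁}

theorem finrank_H0_eq_of_isIso (h : G.IsIso G') :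
    Module.finrank K G.H0 = Module.finrank K G'.H0 := by
  obtain ⟨e⟩ := h
  exact (isoH0Equiv e).finrank_eq

theorem finrank_H1_eq_of_isIso (h : G.IsIso G') :
    Module.finrank K G.H1 = Module.finrank K G'.H1 := by
  obtain ⟨e⟩ := h
  exact (isoH1Equiv e).finrank_eq

/-- The Euler characteristic is invariant under isomorphism. -/
theorem euler_eq_of_isIso (h : G.IsIso G') : G.euler = G'.euler := by
  unfold GlueDatum.euler
  rw [finrank_H0_eq_of_isIso h, finrank_H1_eq_of_isIso h]

/-- The degree is invariant under isomorphism. -/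
theorem degree_eq_of_isIso (h : G.IsIso G') : G.degree = G'.degree := by
  unfold GlueDatum.degree
  rw [euler_eq_of_isIso h]

end IsoField

section BC

variable {k : Type u} [Field k] {B₀ B₁ B₀₁ : Type u} [CommRing B₀] [CommRing B₁] [CommRing B₀₁]
  [Algebra k B₀] [Algebra k B₁] [Algebra k B₀₁] [Algebra B₀ B₀₁] [Algebra B₁ B₀₁]
  [IsScalarTower k B₀ B₀₁] [IsScalarTower k B₁ B₀₁]
  {A A' : Type u} [CommRing A] [Algebra k A] [CommRing A'] [Algebra k A'] [Algebra A A']
  [IsScalarTower k A A']
  {G : CurveGD k B₀ B₁ B₀₁ A} {G' : CurveGD k B₀ B₁ B₀₁ A'}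

namespace BCMaps

variable (bm : BCMaps G G')

theorem map_range_cech_baseChange :
    (LinearMap.range (G.cech.baseChange A')).map (bm.equiv₀₁ : _ →ₗ[A'] _) =
      LinearMap.range G'.cech := by
  ext x
  simp only [Submodule.mem_map, LinearMap.mem_range, LinearEquiv.coe_coe]
  constructor
  · rintro ⟨_, ⟨z, rfl⟩, rfl⟩
    exact ⟨bm.equivProd z, bm.cech_equivProd z⟩
  · rintro ⟨p, rfl⟩
    refine ⟨G.cech.baseChange A' (bm.equivProd.symm p), ⟨_, rfl⟩, ?_⟩
    rw [← bm.cech_equivProd, LinearEquiv.apply_symm_apply]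

theorem map_ker_cech_baseChange :
    (LinearMap.ker (G.cech.baseChange A')).map (bm.equivProd : _ →ₗ[A'] _) =
      LinearMap.ker G'.cech := by
  ext x
  simp only [Submodule.mem_map, LinearMap.mem_ker, LinearEquiv.coe_coe]
  constructor
  · rintro ⟨z, hz, rfl⟩
    rw [bm.cech_equivProd, hz, map_zero]
  · intro hx
    refine ⟨bm.equivProd.symm x, ?_, by simp⟩
    apply bm.equiv₀₁.injective
    rw [← bm.cech_equivProd, LinearEquiv.apply_symm_apply, hx, map_zero]

/-- `Ȟ¹` of a base change, as the cokernel of the base-changed differential. -/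
noncomputable def cokerEquiv :
    ((A' ⊗[A] G.N₀₁) ⧸ LinearMap.range (G.cech.baseChange A')) ≃ₗ[A'] G'.H1 :=
  Submodule.Quotient.equiv _ _ bm.equiv₀₁ bm.map_range_cech_baseChange

/-- `Ȟ⁰` of a base change, as the kernel of the base-changed differential. -/
noncomputable def kerEquiv : LinearMap.ker (G.cech.baseChange A') ≃ₗ[A'] G'.H0 :=
  LinearEquiv.ofSubmodules bm.equivProd _ _ bm.map_ker_cech_baseChange

/-- **`Ȟ¹` commutes with every base change.** -/
noncomputable def H1Equiv : A' ⊗[A] G.H1 ≃ₗ[A'] G'.H1 :=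
  (cokerBaseChangeEquiv A' G.cech).symm ≪≫ₗ bm.cokerEquiv

/-- **`Ȟ⁰` commutes with flat base change.** -/
noncomputable def H0Equiv [Module.Flat A A'] : A' ⊗[A] G.H0 ≃ₗ[A'] G'.H0 :=
  LinearMap.tensorKerEquiv A' A' G.cech ≪≫ₗ bm.kerEquiv

include bm in
/-- If `Ȟ¹(G) = 0` then `Ȟ¹(G') = 0` for every base change `G'` of `G`. -/
theorem cech_surjective (h : Function.Surjective G.cech) : Function.Surjective G'.cech := by
  intro x
  have hs : Function.Surjective (G.cech.baseChange A') :=
    LinearMap.lTensor_surjective A' h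
  obtain ⟨z, hz⟩ := hs (bm.equiv₀₁.symm x)
  exact ⟨bm.equivProd z, by rw [bm.cech_equivProd, hz, LinearEquiv.apply_symm_apply]⟩

end BCMaps

/-- The ring map `A ⊗[k] B → A' ⊗[k] B` as a semilinear map. -/
noncomputable def tensorLeftSemilinear (B : Type u) [CommRing B] [Algebra k B] :
    (A ⊗[k] B) →ₛₗ[tensorLeftHom k A A' B] (A' ⊗[k] B) where
  toFun := tensorLeftHom k A A' B
  map_add' := map_add _
  map_smul' := fun r x => by
    rw [smul_eq_mul, map_mul, smul_eq_mul]

@[simp] theorem tensorLeftSemilinear_apply (B : Type u) [CommRing B] [Algebra k B]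
    (x : A ⊗[k] B) :
    tensorLeftSemilinear (k := k) (A := A) (A' := A') B x = tensorLeftHom k A A' B x := rfl

theorem isSemilinearBaseChange_tensorLeftSemilinear (B : Type u) [CommRing B] [Algebra k B] :
    IsSemilinearBaseChange (tensorLeftHom k A A' B)
      (tensorLeftSemilinear (k := k) (A := A) (A' := A') B) := by
  unfold IsSemilinearBaseChange
  let : Algebra (A ⊗[k] B) (A' ⊗[k] B) := (tensorLeftHom k A A' B).toAlgebra
  exact IsBaseChange.linearMap (A ⊗[k] B) (A' ⊗[k] B)

theorem tensorLeftHom_tensorMapRight (B B' : Type u) [CommRing B] [Algebra k B] [CommRing B']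
    [Algebra k B'] [Algebra B B'] [IsScalarTower k B B'] (s : A ⊗[k] B) :
    tensorLeftHom k A A' B' (tensorMapRight k A B B' s) =
      tensorMapRight k A' B B' (tensorLeftHom k A A' B s) := by
  induction s using TensorProduct.induction_on with
  | zero => simp
  | tmul a b => rfl
  | add x y hx hy => simp only [map_add, hx, hy]

/-- The unit gluing datum over `A'` is the base change of the unit gluing datum over `A`. -/
noncomputable def unitBCMaps :
    BCMaps (k := k) (A := A) (A' := A')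
      (GlueDatum.unit A (A ⊗[k] B₀) (A ⊗[k] B₁) (A ⊗[k] B₀₁))
      (GlueDatum.unit A' (A' ⊗[k] B₀) (A' ⊗[k] B₁) (A' ⊗[k] B₀₁)) where
  b₀ := tensorLeftSemilinear B₀
  b₁ := tensorLeftSemilinear B₁
  b₀₁ := tensorLeftSemilinear B₀₁
  comm₀ := fun s => tensorLeftHom_tensorMapRight B₀ B₀₁ s
  comm₁ := fun s => tensorLeftHom_tensorMapRight B₁ B₀₁ s
  isBaseChange₀ := isSemilinearBaseChange_tensorLeftSemilinear B₀
  isBaseChange₁ := isSemilinearBaseChange_tensorLeftSemilinear B₁
  isBaseChange₀₁ := isSemilinearBaseChange_tensorLeftSemilinear B₀₁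

end BC

section FieldExt

variable {k : Type u} [Field k] {B₀ B₁ B₀₁ : Type u} [CommRing B₀] [CommRing B₁] [CommRing B₀₁]
  [Algebra k B₀] [Algebra k B₁] [Algebra k B₀₁] [Algebra B₀ B₀₁] [Algebra B₁ B₀₁]
  [IsScalarTower k B₀ B₀₁] [IsScalarTower k B₁ B₀₁]
  {K K' : Type u} [Field K] [Algebra k K] [Field K'] [Algebra k K']

section Inst

variable [Algebra K K'] [IsScalarTower k K K']
  {G : CurveGD k B₀ B₁ B₀₁ K} {G' : CurveGD k B₀ B₁ B₀₁ K'}

theorem BCMaps.finrank_H0_eq (bm : BCMaps G G') :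
    Module.finrank K' G'.H0 = Module.finrank K G.H0 := by
  rw [← bm.H0Equiv.finrank_eq, Module.finrank_baseChange]

theorem BCMaps.finrank_H1_eq (bm : BCMaps G G') :
    Module.finrank K' G'.H1 = Module.finrank K G.H1 := by
  rw [← bm.H1Equiv.finrank_eq, Module.finrank_baseChange]

theorem BCMaps.euler_eq (bm : BCMaps G G') : G'.euler = G.euler := by
  unfold GlueDatum.euler
  rw [bm.finrank_H0_eq, bm.finrank_H1_eq]

theorem BCMaps.degree_eq (bm : BCMaps G G') : G'.degree = G.degree := by
  unfold GlueDatum.degree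
  rw [bm.euler_eq, (unitBCMaps (k := k) (A := K) (A' := K') (B₀ := B₀) (B₁ := B₁)
    (B₀₁ := B₀₁)).euler_eq]

end Inst

variable {G : CurveGD k B₀ B₁ B₀₁ K} {G' : CurveGD k B₀ B₁ B₀₁ K'}

/-- **D2.** The Euler characteristic of a gluing datum over a field is invariant under extension
of the base field. -/
theorem euler_eq_of_isBC (φ : K →ₐ[k] K') (h : CurveGD.IsBC φ G G') : G'.euler = G.euler := by
  let : Algebra K K' := φ.toRingHom.toAlgebra
  have : IsScalarTower k K K' := IsScalarTower.of_algebraMap_eq' φ.comp_algebraMap.symm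
  have hφ : IsScalarTower.toAlgHom k K K' = φ := AlgHom.ext fun _ => rfl
  rw [← hφ] at h
  obtain ⟨bm⟩ := h
  exact BCMaps.euler_eq bm

/-- **D2.** The degree of a gluing datum over a field is invariant under extension of the base
field. -/
theorem degree_eq_of_isBC (φ : K →ₐ[k] K') (h : CurveGD.IsBC φ G G') :
    G'.degree = G.degree := by
  let : Algebra K K' := φ.toRingHom.toAlgebra
  have : IsScalarTower k K K' := IsScalarTower.of_algebraMap_eq' φ.comp_algebraMap.symm
  have hφ : IsScalarTower.toAlgHom k K K' = φ := AlgHom.ext fun _ => rfl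
  rw [← hφ] at h
  obtain ⟨bm⟩ := h
  exact BCMaps.degree_eq bm

end FieldExt

end Fermat.Agent.S25.H310

end
-- ===== PACK-END S25/H310/DegreeInvariance.lean

-- ===== PACK-BEGIN S25/H611/HilbDiv.lean
section






/-!
# Hilb = Div (helper611, S25 block HILB, leaf H3)

`invertible_of_quotient_finite_projective`: let `A → R` be commutative rings such that the
diagonal ideal `ker (R ⊗[A] R → R)` is an invertible `R ⊗[A] R`-module ("`R` is a smooth relative
curve over `A`").  If `I` is an ideal of `R` such that `R ⧸ I` is a finite projective `A`-module,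
then `I` is an invertible `R`-module.
-/

namespace Fermat.Agent.S25.H611

open scoped TensorProduct

section Trans

variable (R T K : Type*) [CommRing R] [CommRing T] [Algebra R T]
    [AddCommGroup K] [Module T K] [Module R K] [IsScalarTower R T K]

theorem projective_finsupp_of_projective (ι : Type*) [Module.Projective R T] :
    Module.Projective R (ι →₀ T) := by
  classical
  exact Module.Projective.of_equiv' (finsuppLEquivDirectSum R T ι).symm

theorem projective_trans [Module.Projective R T] [Module.Projective T K] :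
    Module.Projective R K := by
  obtain ⟨s, hs⟩ := (inferInstance : Module.Projective T K)
  have := projective_finsupp_of_projective R T K
  exact Module.Projective.of_split (R := R) (s.restrictScalars R)
    ((Finsupp.linearCombination T (id : K → K)).restrictScalars R)
    (LinearMap.ext fun x => hs x)

/-- An invertible module over a finite projective algebra has the same local ranks over the base
as the algebra. -/
theorem rankAtStalk_eq_of_invertible [Module.Finite R T] [Module.Projective R T]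
    [Module.Invertible T K] (p : PrimeSpectrum R) :
    haveI : Module.Finite R K := Module.Finite.trans T K
    haveI : Module.Flat R K := Module.Flat.trans R T K
    Module.rankAtStalk K p = Module.rankAtStalk T p := by
  haveI : Module.Finite R K := Module.Finite.trans T K
  haveI : Module.Flat R K := Module.Flat.trans R T K
  rw [Module.rankAtStalk_eq, Module.rankAtStalk_eq]
  exact finrank_tensor_eq_of_invertible R T K p.asIdeal.ResidueField

end Trans

section Main

/-- Abstract form: an ideal `I` with `I × T ≃ K × R`, where `T` is a finite projective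
`R`-algebra and `K` an invertible `T`-module, is an invertible `R`-module. -/
theorem invertible_of_prod_equiv {R : Type*} [CommRing R] (I : Type*) [AddCommGroup I] [Module R I]
    (T : Type*) [CommRing T] [Algebra R T] [Module.Finite R T] [Module.Projective R T]
    (K : Type*) [AddCommGroup K] [Module T K] [Module R K] [IsScalarTower R T K]
    [Module.Invertible T K] (E : (I × T) ≃ₗ[R] (K × R)) : Module.Invertible R I := by
  have hKfin : Module.Finite R K := Module.Finite.trans T K
  have hKflat : Module.Flat R K := Module.Flat.trans R T K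
  have hKproj : Module.Projective R K := projective_trans R T K
  have hIT : Module.Projective R (I × T) := Module.Projective.of_equiv' E.symm
  have hIproj : Module.Projective R I :=
    Module.Projective.of_split (LinearMap.inl R I T) (LinearMap.fst R I T) (by ext; simp)
  have hIfin : Module.Finite R I :=
    Module.Finite.of_surjective ((LinearMap.fst R I T) ∘ₗ E.symm.toLinearMap)
      (fun x => ⟨E (x, 0), by simp⟩)
  refine invertible_of_rankAtStalk_eq_one R I fun p => ?_
  have : Nontrivial R := ⟨0, 1, fun h01 => p.isPrime.ne_top ((Ideal.eq_top_iff_one _).mpr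
    (h01 ▸ p.asIdeal.zero_mem))⟩
  have h1 := congrFun (Module.rankAtStalk_eq_of_equiv E) p
  have h2 : Module.rankAtStalk (R := R) (I × T) p =
      Module.rankAtStalk (R := R) I p + Module.rankAtStalk (R := R) T p :=
    congrFun (Module.rankAtStalk_prod (R := R) I T) p
  have h3 : Module.rankAtStalk (R := R) (K × R) p =
      Module.rankAtStalk (R := R) K p + Module.rankAtStalk (R := R) R p :=
    congrFun (Module.rankAtStalk_prod (R := R) K R) p
  have h4 : Module.rankAtStalk (R := R) K p = Module.rankAtStalk (R := R) T p :=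
    rankAtStalk_eq_of_invertible R T K p
  have h5 : Module.rankAtStalk (R := R) R p = 1 := by
    rw [Module.rankAtStalk_self, Pi.one_apply]
  omega

variable (A : Type*) {R : Type*} [CommRing A] [CommRing R] [Algebra A R]

/-- The Schanuel isomorphism `I × (R ⊗[A] (R ⧸ I)) ≃ ker ν × R`. -/
theorem nonempty_prod_equiv (I : Ideal R) [Module.Projective A (R ⧸ I)] :
    Nonempty ((I × (R ⊗[A] (R ⧸ I))) ≃ₗ[R] (RingHom.ker (nu A I) × R)) := by
  let π : R →ₗ[R] R ⧸ I := (Ideal.Quotient.mkₐ R I).toLinearMap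
  let ν' : (R ⊗[A] (R ⧸ I)) →ₗ[R] R ⧸ I := (nu A I).toLinearMap
  have hπ : Function.Surjective π := Ideal.Quotient.mk_surjective
  have hν : Function.Surjective ν' := fun q => ⟨(1 : R) ⊗ₜ[A] q, by simp [ν']⟩
  obtain ⟨e⟩ := schanuel π ν' hπ hν
  have hkerπ : LinearMap.ker π = I := by
    ext x
    simp [π, Ideal.Quotient.eq_zero_iff_mem]
  have hkerν : LinearMap.ker ν' = (RingHom.ker (nu A I)).restrictScalars R := by
    ext x
    simp [ν', RingHom.mem_ker]
  let eI : LinearMap.ker π ≃ₗ[R] I := LinearEquiv.ofEq _ _ hkerπ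
  let eK : LinearMap.ker ν' ≃ₗ[R] RingHom.ker (nu A I) :=
    (LinearEquiv.ofEq _ _ hkerν).trans
      ((Submodule.restrictScalarsEquiv R (R ⊗[A] (R ⧸ I)) (R ⊗[A] (R ⧸ I))
        (RingHom.ker (nu A I))).restrictScalars R)
  exact ⟨((eI.symm.prodCongr (LinearEquiv.refl R _)).trans e).trans
      (eK.prodCongr (LinearEquiv.refl R R))⟩

/-- **H3 (Hilb = Div).** If the diagonal ideal of `R` over `A` is invertible and `R ⧸ I` is a
finite projective `A`-module, then `I` is an invertible `R`-module. -/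
theorem invertible_of_quotient_finite_projective
    [Module.Invertible (R ⊗[A] R) (KaehlerDifferential.ideal A R)]
    (I : Ideal R) [Module.Finite A (R ⧸ I)] [Module.Projective A (R ⧸ I)] :
    Module.Invertible R I := by
  have hK : Module.Invertible (R ⊗[A] (R ⧸ I)) (RingHom.ker (nu A I)) := invertible_ker_nu A I
  obtain ⟨E⟩ := nonempty_prod_equiv A I
  exact invertible_of_prod_equiv I (R ⊗[A] (R ⧸ I)) (RingHom.ker (nu A I)) E

end Main

end Fermat.Agent.S25.H611

end
-- ===== PACK-END S25/H611/HilbDiv.lean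

-- ===== PACK-BEGIN S25/H371/SemilinearBC.lean
section




/-!
# S25 / ALGDEF (helper371): toolkit for the frozen `IsSemilinearBaseChange`

Conversions between `IsSemilinearBaseChange ρ b` (frozen in `DefsAlg.lean`) and Mathlib's
`IsBaseChange`, composition / cancellation / universal property in semilinear form, and the
lifting lemmas H4 in semilinear form.
-/

set_option autoImplicit false
set_option linter.style.haveILetI false
open TensorProduct

namespace Fermat.Agent.S25.H371

universe u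

section Conv

variable {R R' : Type u} [CommRing R] [CommRing R']
variable {N N' : Type u} [AddCommGroup N] [Module R N] [AddCommGroup N'] [Module R' N']

/-- auxiliary: transport of `IsSemilinearBaseChange` to arbitrary (propositionally equal)
instances. -/
theorem isBaseChange_of_isSemilinearBaseChange_aux (ρ : R →+* R') (b : N →ₛₗ[ρ] N')
    (h : IsSemilinearBaseChange ρ b)
    [alg : Algebra R R'] [mod : Module R N'] [IsScalarTower R R' N']
    (halg : alg = ρ.toAlgebra) (hmod : mod = Module.compHom N' ρ)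
    (f : N →ₗ[R] N') (hf : ∀ n, f n = b n) : IsBaseChange R' f := by
  subst halg hmod
  letI : Algebra R R' := ρ.toAlgebra
  letI : Module R N' := Module.compHom N' ρ
  have hfe : f = { toFun := fun n => b n
                   map_add' := fun m n => b.map_add m n
                   map_smul' := fun r n => LinearMap.map_smulₛₗ b r n } := LinearMap.ext hf
  subst hfe
  exact h

theorem isSemilinearBaseChange_of_isBaseChange_aux (ρ : R →+* R') (b : N →ₛₗ[ρ] N')
    [alg : Algebra R R'] [mod : Module R N'] [IsScalarTower R R' N']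
    (halg : alg = ρ.toAlgebra) (hmod : mod = Module.compHom N' ρ)
    (f : N →ₗ[R] N') (hf : ∀ n, f n = b n) (h : IsBaseChange R' f) :
    IsSemilinearBaseChange ρ b := by
  subst halg hmod
  letI : Algebra R R' := ρ.toAlgebra
  letI : Module R N' := Module.compHom N' ρ
  have hfe : f = { toFun := fun n => b n
                   map_add' := fun m n => b.map_add m n
                   map_smul' := fun r n => LinearMap.map_smulₛₗ b r n } := LinearMap.ext hf
  subst hfe
  exact h

/-- From the frozen `IsSemilinearBaseChange` to Mathlib's `IsBaseChange`, for any ambient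
algebra and module structures compatible with `ρ`. -/
theorem isBaseChange_of_isSemilinearBaseChange
    [Algebra R R'] [Module R N'] [IsScalarTower R R' N']
    (ρ : R →+* R') (hρ : ∀ r, ρ r = algebraMap R R' r) (b : N →ₛₗ[ρ] N')
    (h : IsSemilinearBaseChange ρ b) (f : N →ₗ[R] N') (hf : ∀ n, f n = b n) :
    IsBaseChange R' f := by
  refine isBaseChange_of_isSemilinearBaseChange_aux ρ b h ?_ ?_ f hf
  · exact Algebra.algebra_ext _ _ fun r => (hρ r).symm
  · refine Module.ext' _ _ fun r n => ?_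
    change r • n = ρ r • n
    rw [hρ, algebraMap_smul]

/-- From Mathlib's `IsBaseChange` to the frozen `IsSemilinearBaseChange`. -/
theorem isSemilinearBaseChange_of_isBaseChange
    [Algebra R R'] [Module R N'] [IsScalarTower R R' N']
    (ρ : R →+* R') (hρ : ∀ r, ρ r = algebraMap R R' r) (b : N →ₛₗ[ρ] N')
    (f : N →ₗ[R] N') (hf : ∀ n, f n = b n) (h : IsBaseChange R' f) :
    IsSemilinearBaseChange ρ b := by
  refine isSemilinearBaseChange_of_isBaseChange_aux ρ b ?_ ?_ f hf h
  · exact Algebra.algebra_ext _ _ fun r => (hρ r).symm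
  · refine Module.ext' _ _ fun r n => ?_
    change r • n = ρ r • n
    rw [hρ, algebraMap_smul]

end Conv

section Tools

variable {R S : Type u} [CommRing R] [CommRing S]

/-- The semilinear map underlying a linear map into a module over an algebra. -/
def toSemilinear [Algebra R S] {N P : Type u} [AddCommGroup N] [Module R N] [AddCommGroup P]
    [Module S P] [Module R P] [IsScalarTower R S P] (f : N →ₗ[R] P) :
    N →ₛₗ[algebraMap R S] P where
  toFun := f
  map_add' := f.map_add
  map_smul' r n := by rw [f.map_smul, algebraMap_smul]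

@[simp] theorem toSemilinear_apply [Algebra R S] {N P : Type u} [AddCommGroup N] [Module R N]
    [AddCommGroup P] [Module S P] [Module R P] [IsScalarTower R S P] (f : N →ₗ[R] P) (n : N) :
    toSemilinear (S := S) f n = f n := rfl

theorem isSemilinearBaseChange_toSemilinear [Algebra R S] {N P : Type u} [AddCommGroup N]
    [Module R N] [AddCommGroup P] [Module S P] [Module R P] [IsScalarTower R S P]
    (f : N →ₗ[R] P) (hf : IsBaseChange S f) :
    IsSemilinearBaseChange (algebraMap R S) (toSemilinear (S := S) f) :=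
  isSemilinearBaseChange_of_isBaseChange _ (fun _ => rfl) _ f (fun _ => rfl) hf

/-- **L1** invertible modules lift, in semilinear form. -/
theorem exists_invertible_semilinear_lift (ρ : R →+* S) (hs : Function.Surjective ρ)
    (hn : IsNilpotent (RingHom.ker ρ)) (P : Type u) [AddCommGroup P] [Module S P]
    [Module.Invertible S P] :
    ∃ (N : Type u) (_ : AddCommGroup N) (_ : Module R N), Module.Invertible R N ∧
      ∃ b : N →ₛₗ[ρ] P, IsSemilinearBaseChange ρ b := by
  letI : Algebra R S := ρ.toAlgebra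
  obtain ⟨N, i1, i2, hinv, ⟨ε⟩⟩ := exists_invertible_lift (R := R) (S := S) hs hn P
  letI : Module R P := Module.compHom P ρ
  haveI : IsScalarTower R S P :=
    ⟨fun r r' n => by change (ρ r * r') • n = ρ r • (r' • n); rw [mul_smul]⟩
  refine ⟨N, i1, i2, hinv, ?_⟩
  let f : N →ₗ[R] P := (ε.toLinearMap.restrictScalars R).comp (TensorProduct.mk R S N 1)
  have hf : IsBaseChange S f := IsBaseChange.of_equiv ε (fun x => rfl)
  exact ⟨toSemilinear (S := S) f, isSemilinearBaseChange_toSemilinear f hf⟩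

/-- **L1'** finitely generated projective modules lift, in semilinear form. -/
theorem exists_projective_semilinear_lift (ρ : R →+* S) (hs : Function.Surjective ρ)
    (hn : IsNilpotent (RingHom.ker ρ)) (P : Type u) [AddCommGroup P] [Module S P]
    [Module.Finite S P] [Module.Projective S P] :
    ∃ (N : Type u) (_ : AddCommGroup N) (_ : Module R N), Module.Finite R N ∧
      Module.Projective R N ∧ ∃ b : N →ₛₗ[ρ] P, IsSemilinearBaseChange ρ b := by
  letI : Algebra R S := ρ.toAlgebra
  obtain ⟨N, i1, i2, hfin, hproj, ⟨ε⟩⟩ := exists_projective_lift (R := R) (S := S) hs hn P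
  letI : Module R P := Module.compHom P ρ
  haveI : IsScalarTower R S P :=
    ⟨fun r r' n => by change (ρ r * r') • n = ρ r • (r' • n); rw [mul_smul]⟩
  refine ⟨N, i1, i2, hfin, hproj, ?_⟩
  let f : N →ₗ[R] P := (ε.toLinearMap.restrictScalars R).comp (TensorProduct.mk R S N 1)
  have hf : IsBaseChange S f := IsBaseChange.of_equiv ε (fun x => rfl)
  exact ⟨toSemilinear (S := S) f, isSemilinearBaseChange_toSemilinear f hf⟩

/-- **L2** two projective lifts of the same module are isomorphic, compatibly with the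
base-change maps. -/
theorem exists_linearEquiv_of_isSemilinearBaseChange (ρ : R →+* S)
    (hs : Function.Surjective ρ) (hn : IsNilpotent (RingHom.ker ρ))
    {M N P : Type u} [AddCommGroup M] [Module R M] [AddCommGroup N] [Module R N]
    [AddCommGroup P] [Module S P] [Module.Projective R M] [Module.Projective R N]
    (βM : M →ₛₗ[ρ] P) (βN : N →ₛₗ[ρ] P) (hM : IsSemilinearBaseChange ρ βM)
    (hN : IsSemilinearBaseChange ρ βN) :
    ∃ e : M ≃ₗ[R] N, ∀ m, βN (e m) = βM m := by
  letI : Algebra R S := ρ.toAlgebra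
  letI : Module R P := Module.compHom P ρ
  haveI : IsScalarTower R S P :=
    ⟨fun r r' n => by change (ρ r * r') • n = ρ r • (r' • n); rw [mul_smul]⟩
  let fM : M →ₗ[R] P :=
    { toFun := fun n => βM n
      map_add' := fun m n => βM.map_add m n
      map_smul' := fun r n => LinearMap.map_smulₛₗ βM r n }
  let fN : N →ₗ[R] P :=
    { toFun := fun n => βN n
      map_add' := fun m n => βN.map_add m n
      map_smul' := fun r n => LinearMap.map_smulₛₗ βN r n }
  have hM' : IsBaseChange S fM := hM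
  have hN' : IsBaseChange S fN := hN
  obtain ⟨e, he⟩ := exists_linearEquiv_one_tmul (R := R) (S := S) hs hn
    (hM'.equiv ≪≫ₗ hN'.equiv.symm)
  refine ⟨e, fun m => ?_⟩
  have h1 := he m
  rw [LinearEquiv.trans_apply, LinearEquiv.symm_apply_eq, IsBaseChange.equiv_tmul,
    IsBaseChange.equiv_tmul, one_smul, one_smul] at h1
  exact h1.symm

end Tools


section Comp

variable {R R' R'' : Type u} [CommRing R] [CommRing R'] [CommRing R'']
variable {N N' N'' : Type u} [AddCommGroup N] [Module R N] [AddCommGroup N'] [Module R' N']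
  [AddCommGroup N''] [Module R'' N'']

/-- **L3a** composition of semilinear base changes. -/
theorem isSemilinearBaseChange_comp (ρ : R →+* R') (σ : R' →+* R'') (τ : R →+* R'')
    (hτ : ∀ r, τ r = σ (ρ r)) (b : N →ₛₗ[ρ] N') (c : N' →ₛₗ[σ] N'') (d : N →ₛₗ[τ] N'')
    (hd : ∀ n, d n = c (b n)) (hb : IsSemilinearBaseChange ρ b)
    (hc : IsSemilinearBaseChange σ c) : IsSemilinearBaseChange τ d := by
  letI : Algebra R R' := ρ.toAlgebra
  letI : Algebra R' R'' := σ.toAlgebra
  letI : Algebra R R'' := τ.toAlgebra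
  haveI : IsScalarTower R R' R'' := IsScalarTower.of_algebraMap_eq hτ
  letI : Module R N' := Module.compHom N' ρ
  letI : Module R' N'' := Module.compHom N'' σ
  letI : Module R N'' := Module.compHom N'' τ
  haveI : IsScalarTower R R' N' :=
    ⟨fun r r' n => by change (ρ r * r') • n = ρ r • (r' • n); rw [mul_smul]⟩
  haveI : IsScalarTower R' R'' N'' :=
    ⟨fun r r' n => by change (σ r * r') • n = σ r • (r' • n); rw [mul_smul]⟩
  haveI : IsScalarTower R R'' N'' :=
    ⟨fun r r' n => by change (τ r * r') • n = τ r • (r' • n); rw [mul_smul]⟩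
  haveI : IsScalarTower R R' N'' :=
    ⟨fun r r' n => by
      change (σ (ρ r * r')) • n = τ r • (σ r' • n)
      rw [map_mul, mul_smul, hτ]⟩
  let fb : N →ₗ[R] N' :=
    { toFun := fun n => b n
      map_add' := fun m n => b.map_add m n
      map_smul' := fun r n => LinearMap.map_smulₛₗ b r n }
  let fc : N' →ₗ[R'] N'' :=
    { toFun := fun n => c n
      map_add' := fun m n => c.map_add m n
      map_smul' := fun r n => LinearMap.map_smulₛₗ c r n }
  have hb' : IsBaseChange R' fb := hb
  have hc' : IsBaseChange R'' fc := hc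
  have hcomp : IsBaseChange R'' ((fc.restrictScalars R).comp fb) := IsBaseChange.comp hb' hc'
  have key : (show N →ₗ[R] N'' from
      { toFun := fun n => d n
        map_add' := fun m n => d.map_add m n
        map_smul' := fun r n => LinearMap.map_smulₛₗ d r n }) = (fc.restrictScalars R).comp fb :=
    LinearMap.ext fun n => hd n
  change IsBaseChange R'' _
  rw [key]
  exact hcomp

/-- **L3b** cancellation: if `b` and `c ∘ b` are base changes, so is `c`. -/
theorem isSemilinearBaseChange_of_comp (ρ : R →+* R') (σ : R' →+* R'') (τ : R →+* R'')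
    (hτ : ∀ r, τ r = σ (ρ r)) (b : N →ₛₗ[ρ] N') (c : N' →ₛₗ[σ] N'') (d : N →ₛₗ[τ] N'')
    (hd : ∀ n, d n = c (b n)) (hb : IsSemilinearBaseChange ρ b)
    (hdb : IsSemilinearBaseChange τ d) : IsSemilinearBaseChange σ c := by
  letI : Algebra R R' := ρ.toAlgebra
  letI : Algebra R' R'' := σ.toAlgebra
  letI : Algebra R R'' := τ.toAlgebra
  haveI : IsScalarTower R R' R'' := IsScalarTower.of_algebraMap_eq hτ
  letI : Module R N' := Module.compHom N' ρ
  letI : Module R' N'' := Module.compHom N'' σ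
  letI : Module R N'' := Module.compHom N'' τ
  haveI : IsScalarTower R R' N' :=
    ⟨fun r r' n => by change (ρ r * r') • n = ρ r • (r' • n); rw [mul_smul]⟩
  haveI : IsScalarTower R' R'' N'' :=
    ⟨fun r r' n => by change (σ r * r') • n = σ r • (r' • n); rw [mul_smul]⟩
  haveI : IsScalarTower R R'' N'' :=
    ⟨fun r r' n => by change (τ r * r') • n = τ r • (r' • n); rw [mul_smul]⟩
  haveI : IsScalarTower R R' N'' :=
    ⟨fun r r' n => by
      change (σ (ρ r * r')) • n = τ r • (σ r' • n)
      rw [map_mul, mul_smul, hτ]⟩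
  let fb : N →ₗ[R] N' :=
    { toFun := fun n => b n
      map_add' := fun m n => b.map_add m n
      map_smul' := fun r n => LinearMap.map_smulₛₗ b r n }
  let fc : N' →ₗ[R'] N'' :=
    { toFun := fun n => c n
      map_add' := fun m n => c.map_add m n
      map_smul' := fun r n => LinearMap.map_smulₛₗ c r n }
  have hb' : IsBaseChange R' fb := hb
  have key : (show N →ₗ[R] N'' from
      { toFun := fun n => d n
        map_add' := fun m n => d.map_add m n
        map_smul' := fun r n => LinearMap.map_smulₛₗ d r n }) = (fc.restrictScalars R).comp fb :=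
    LinearMap.ext fun n => hd n
  have hdb' : IsBaseChange R'' ((fc.restrictScalars R).comp fb) := by
    rw [← key]
    exact hdb
  exact IsBaseChange.of_comp hb' hdb'

/-- **L4** universal property of a semilinear base change. -/
theorem exists_semilinear_lift (ρ : R →+* R') (σ : R' →+* R'') (τ : R →+* R'')
    (hτ : ∀ r, τ r = σ (ρ r)) (b : N →ₛₗ[ρ] N') (hb : IsSemilinearBaseChange ρ b)
    (g : N →ₛₗ[τ] N'') : ∃ g' : N' →ₛₗ[σ] N'', ∀ n, g' (b n) = g n := by
  letI : Algebra R R' := ρ.toAlgebra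
  letI : Module R N' := Module.compHom N' ρ
  letI : Module R' N'' := Module.compHom N'' σ
  letI : Module R N'' := Module.compHom N'' τ
  haveI : IsScalarTower R R' N' :=
    ⟨fun r r' n => by change (ρ r * r') • n = ρ r • (r' • n); rw [mul_smul]⟩
  haveI : IsScalarTower R R' N'' :=
    ⟨fun r r' n => by
      change (σ (ρ r * r')) • n = τ r • (σ r' • n)
      rw [map_mul, mul_smul, hτ]⟩
  let fb : N →ₗ[R] N' :=
    { toFun := fun n => b n
      map_add' := fun m n => b.map_add m n
      map_smul' := fun r n => LinearMap.map_smulₛₗ b r n }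
  let fg : N →ₗ[R] N'' :=
    { toFun := fun n => g n
      map_add' := fun m n => g.map_add m n
      map_smul' := fun r n => LinearMap.map_smulₛₗ g r n }
  have hb' : IsBaseChange R' fb := hb
  refine ⟨{ toFun := fun n => hb'.lift fg n
            map_add' := fun m n => (hb'.lift fg).map_add m n
            map_smul' := fun r n => (hb'.lift fg).map_smul r n }, fun n => ?_⟩
  exact hb'.lift_eq fg n

/-- Composition of a semilinear base change with a linear equivalence. -/
theorem isSemilinearBaseChange_equiv_comp (ρ : R →+* R') (b : N →ₛₗ[ρ] N')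
    {M' : Type u} [AddCommGroup M'] [Module R' M'] (φ : N' ≃ₗ[R'] M') (c : N →ₛₗ[ρ] M')
    (hc : ∀ n, c n = φ (b n)) (hb : IsSemilinearBaseChange ρ b) :
    IsSemilinearBaseChange ρ c := by
  letI : Algebra R R' := ρ.toAlgebra
  letI : Module R N' := Module.compHom N' ρ
  letI : Module R M' := Module.compHom M' ρ
  haveI : IsScalarTower R R' N' :=
    ⟨fun r r' n => by change (ρ r * r') • n = ρ r • (r' • n); rw [mul_smul]⟩
  haveI : IsScalarTower R R' M' :=
    ⟨fun r r' n => by change (ρ r * r') • n = ρ r • (r' • n); rw [mul_smul]⟩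
  let fb : N →ₗ[R] N' :=
    { toFun := fun n => b n
      map_add' := fun m n => b.map_add m n
      map_smul' := fun r n => LinearMap.map_smulₛₗ b r n }
  have hb' : IsBaseChange R' fb := hb
  change IsBaseChange R' _
  refine IsBaseChange.of_equiv (hb'.equiv ≪≫ₗ φ) fun n => ?_
  rw [LinearEquiv.trans_apply, IsBaseChange.equiv_tmul, one_smul]
  exact (hc n).symm

end Comp

end Fermat.Agent.S25.H371

end
-- ===== PACK-END S25/H371/SemilinearBC.lean

-- ===== PACK-BEGIN S25/H310/CechBaseChange.lean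
section
/-
S25, block CECH, leaf K5 (helper310): base change of the operator-style Čech core.

* `isFGProj_baseChange` (K5a): an `X`-equivariant retract of `A[X]^n` base changes to an
  `X`-equivariant retract of `A'[X]^n`;
* `r0_baseChange_injective` (K5b): the restriction map stays injective after base change
  (it is a split injection of `A`-modules, `exists_retraction_r0`);
* `baseChange_d` (K5c): the twisted differential commutes with base change;
* `H0_baseChange_bijective` (K5d): if `d m` is surjective, `H⁰` commutes with base change.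

Statements exactly as in `Fermat/Agent/S25/H10/CechSkel.lean`.
-/





set_option autoImplicit false

namespace Fermat.Agent.S25.H310

open Polynomial TensorProduct Fermat.Agent.S25.H10

universe u v w

variable {A : Type u} [CommRing A]

section PolyVec

variable (A) (A' : Type w) [CommRing A'] [Algebra A A'] (n : ℕ)

/-- The canonical isomorphism `A' ⊗[A] A[X]^n ≃ A'[X]^n`. -/
noncomputable def polyVecBaseChange : A' ⊗[A] (Fin n → A[X]) ≃ₗ[A'] (Fin n → A'[X]) :=
  TensorProduct.piRight A A' A' (fun _ : Fin n => A[X]) ≪≫ₗ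
    LinearEquiv.piCongrRight (fun _ : Fin n => (polyEquivTensor' A A').symm.toLinearEquiv)

theorem polyVecBaseChange_tmul (a : A') (w : Fin n → A[X]) (i : Fin n) :
    polyVecBaseChange A A' n (a ⊗ₜ[A] w) i = a • (w i).map (algebraMap A A') := by
  simp [polyVecBaseChange]

theorem polyVecBaseChange_X_smul (u : A' ⊗[A] (Fin n → A[X])) :
    polyVecBaseChange A A' n
        (((Algebra.lsmul A A (Fin n → A[X]) (X : A[X])).baseChange A') u) =
      (X : A'[X]) • polyVecBaseChange A A' n u := by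
  induction u using TensorProduct.induction_on with
  | zero => simp
  | tmul a w =>
    ext1 i
    rw [LinearMap.baseChange_tmul, polyVecBaseChange_tmul, Pi.smul_apply,
      polyVecBaseChange_tmul]
    simp
  | add x y hx hy => simp only [map_add, hx, hy, smul_add]

theorem polyVecBaseChange_symm_X_smul (w : Fin n → A'[X]) :
    (polyVecBaseChange A A' n).symm ((X : A'[X]) • w) =
      ((Algebra.lsmul A A (Fin n → A[X]) (X : A[X])).baseChange A')
        ((polyVecBaseChange A A' n).symm w) := by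
  apply (polyVecBaseChange A A' n).injective
  rw [polyVecBaseChange_X_smul, LinearEquiv.apply_symm_apply, LinearEquiv.apply_symm_apply]

end PolyVec

section K5
variable (A' : Type w) [CommRing A'] [Algebra A A']

/-- K5a. `IsFGProj` is stable under base change. -/
theorem isFGProj_baseChange {N : Type v} [AddCommGroup N] [Module A N] {E : Module.End A N}
    (h : IsFGProj E) : IsFGProj (E.baseChange A') := by
  obtain ⟨n, ι, π, hπι, hι, hπ⟩ := h
  have hι' : ι ∘ₗ E = Algebra.lsmul A A (Fin n → A[X]) (X : A[X]) ∘ₗ ι :=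
    LinearMap.ext fun v => hι v
  have hπ' : π ∘ₗ Algebra.lsmul A A (Fin n → A[X]) (X : A[X]) = E ∘ₗ π :=
    LinearMap.ext fun w => hπ w
  refine ⟨n, (polyVecBaseChange A A' n).toLinearMap ∘ₗ ι.baseChange A',
    π.baseChange A' ∘ₗ (polyVecBaseChange A A' n).symm.toLinearMap, ?_, ?_, ?_⟩
  · refine LinearMap.ext fun v => ?_
    simp only [LinearMap.comp_apply, LinearEquiv.coe_coe, LinearEquiv.symm_apply_apply,
      LinearMap.id_apply]
    rw [← LinearMap.comp_apply, ← LinearMap.baseChange_comp, hπι, LinearMap.baseChange_id,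
      LinearMap.id_apply]
  · intro v
    simp only [LinearMap.comp_apply, LinearEquiv.coe_coe]
    rw [← polyVecBaseChange_X_smul, ← LinearMap.comp_apply (f := ι.baseChange A'),
      ← LinearMap.baseChange_comp, hι', LinearMap.baseChange_comp, LinearMap.comp_apply]
  · intro w
    simp only [LinearMap.comp_apply, LinearEquiv.coe_coe]
    rw [polyVecBaseChange_symm_X_smul, ← LinearMap.comp_apply (f := π.baseChange A'),
      ← LinearMap.baseChange_comp, hπ', LinearMap.baseChange_comp, LinearMap.comp_apply]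

variable {N0 N1 N01 : Type v}
  [AddCommGroup N0] [AddCommGroup N1] [AddCommGroup N01]
  [Module A N0] [Module A N1] [Module A N01]

/-- K5b. Injectivity of the restriction map is stable under base change. -/
theorem r0_baseChange_injective (D : CechOps A N0 N1 N01) (h0 : IsFGProj D.X0)
    (hr0 : Function.Injective D.r0) : Function.Injective (D.r0.baseChange A') := by
  obtain ⟨s, hs⟩ := exists_retraction_r0 D h0 hr0
  have h1 : s.baseChange A' ∘ₗ D.r0.baseChange A' = LinearMap.id := by
    rw [← LinearMap.baseChange_comp, hs, LinearMap.baseChange_id]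
  exact Function.LeftInverse.injective (g := s.baseChange A')
    (fun x => LinearMap.congr_fun h1 x)

theorem baseChange_pow {N : Type v} [AddCommGroup N] [Module A N] (E : Module.End A N)
    (k : ℕ) : (E.baseChange A') ^ k = (E ^ k).baseChange A' := by
  induction k with
  | zero => simp [Module.End.one_eq_id]
  | succ k ih => rw [pow_succ, ih, pow_succ, LinearMap.baseChange_mul]

/-- K5c. The twisted differential of the base change is the base change of the twisted
differential (up to the canonical iso `A' ⊗ (N0 × N1) ≃ (A' ⊗ N0) × (A' ⊗ N1)`). -/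
theorem baseChange_d (D : CechOps A N0 N1 N01) (m : ℕ) :
    (D.baseChange A').d m ∘ₗ
        ((TensorProduct.prodRight A A' A' N0 N1).toLinearMap) = (D.d m).baseChange A' := by
  apply TensorProduct.AlgebraTensorModule.ext
  intro a p
  have hT : (D.baseChange A').T = D.T.baseChange A' := rfl
  have hr0 : (D.baseChange A').r0 = D.r0.baseChange A' := rfl
  have hr1 : (D.baseChange A').r1 = D.r1.baseChange A' := rfl
  rw [LinearMap.comp_apply, LinearEquiv.coe_coe, TensorProduct.prodRight_tmul,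
    CechOps.d_apply, hT, hr0, hr1, baseChange_pow, LinearMap.baseChange_tmul,
    LinearMap.baseChange_tmul, LinearMap.baseChange_tmul, LinearMap.baseChange_tmul,
    CechOps.d_apply, TensorProduct.tmul_sub]

/-- K5d. If `d m` is surjective, `H⁰` commutes with base change:
`A' ⊗ ker (d m) → ker (A' ⊗ d m)` is bijective. -/
theorem H0_baseChange_bijective (D : CechOps A N0 N1 N01)
    (h0 : IsFGProj D.X0) (hr0 : Function.Injective D.r0) (m : ℕ)
    (hsurj : Function.Surjective (D.d m)) :
    Function.Injective ((D.H0 m).subtype.baseChange A') ∧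
      LinearMap.range ((D.H0 m).subtype.baseChange A') =
        LinearMap.ker ((D.d m).baseChange A') := by
  have : Module.Projective A N01 := Fermat.Agent.S25.H490.projective_N01 D h0 hr0
  obtain ⟨σ, hσ⟩ := Module.projective_lifting_property (D.d m)
    (LinearMap.id : N01 →ₗ[A] N01) hsurj
  have hgi : IsGeneralizedInverse (D.d m) σ := by
    show D.d m ∘ₗ σ ∘ₗ D.d m = D.d m
    rw [← LinearMap.comp_assoc, hσ, LinearMap.id_comp]
  exact ⟨hgi.baseChange_subtype_injective A', (hgi.ker_baseChange A').symm⟩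

end K5

end Fermat.Agent.S25.H310

end
-- ===== PACK-END S25/H310/CechBaseChange.lean

-- ===== PACK-BEGIN S25/H505/AffPush.lean
section
/-
S25, block DICT-GLUE (helper505): the module `affPush a N = (fromSpec)_* (tilde N)` on `X`
attached to a module `N` over the ring of an affine open `V`, its sections over `V`, and the
transition morphisms `affPush a N ⟶ affPush a' N'` attached to a base-change map `N → N'`
for affine opens `V' ≤ V`.
-/


open CategoryTheory AlgebraicGeometry Opposite TopologicalSpace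

universe u

namespace Fermat.Agent.S25.H505

noncomputable section

variable {X : Scheme.{u}}

section AffPush

variable {V : X.Opens} (a : IsAffineOpen V) (N : ModuleCat.{u} Γ(X, V))

/-- The pushforward to `X` of `tilde N` on `Spec Γ(X, V)`, for an affine open `V`. -/
def affPush : X.Modules := (Scheme.Modules.pushforward a.fromSpec).obj (tilde N)

theorem top_le_fromSpec_preimage : (⊤ : (Spec Γ(X, V)).Opens) ≤ a.fromSpec ⁻¹ᵁ V := by
  rw [a.fromSpec_preimage_self]

/-- `N → Γ(affPush a N, V)`. -/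
def affPushTop : N →+ Γ(affPush a N, V) :=
  ((tilde N).presheaf.map (homOfLE (le_top : a.fromSpec ⁻¹ᵁ V ≤ ⊤)).op).hom.comp (tildeTop N)

theorem affPushTop_apply (n : N) :
    affPushTop a N n =
      (tilde N).presheaf.map (homOfLE (le_top : a.fromSpec ⁻¹ᵁ V ≤ ⊤)).op (tildeTop N n) := rfl

theorem affPushTop_bijective : Function.Bijective (affPushTop a N) :=
  (presheaf_map_bijective_of_eq (tilde N) le_top (top_le_fromSpec_preimage a)).comp
    (tildeTop_bijective N)

theorem affPushTop_smul (x : Γ(X, V)) (n : N) :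
    affPushTop a N (x • n) = x • affPushTop a N n := by
  rw [affPushTop_apply, affPushTop_apply, tildeTop_isSL N x n, Scheme.Modules.map_smul]
  refine Eq.trans ?_ (pushforward_smul a.fromSpec (tilde N) V x _).symm
  congr 1
  exact (congr($(a.fromSpec_app_self) x)).symm

end AffPush

section Transition

variable {V V' : X.Opens} (a : IsAffineOpen V) (a' : IsAffineOpen V') (l : V' ≤ V)
  (N : ModuleCat.{u} Γ(X, V)) (N' : ModuleCat.{u} Γ(X, V'))

/-- the restriction of functions, as a morphism of commutative rings -/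
abbrev resCat : Γ(X, V) ⟶ Γ(X, V') := X.presheaf.map (homOfLE l).op

include a a' in
theorem specMap_resCat_fromSpec : Spec.map (resCat l) ≫ a.fromSpec = a'.fromSpec :=
  a.map_fromSpec a' (homOfLE l).op

variable {N N'}

/-- a base-change map `r : N → N'` along the restriction identifies `N'` with the extension
of scalars of `N` -/
theorem exists_extendScalars_iso (r : N →+ N') (hr : IsBC (resCat l).hom r) :
    ∃ e : (ModuleCat.extendScalars (resCat l).hom).obj N ≅ N',
      ∀ n, e.hom (extUnit (resCat l) N n) = r n := by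
  obtain ⟨e, hsl, he⟩ := (extUnit_isBC (resCat l) N).exists_equiv (RingEquiv.refl _) hr
    (fun _ => rfl)
  let e' : (ModuleCat.extendScalars (resCat l).hom).obj N ≃ₗ[Γ(X, V')] N' :=
    { e with map_smul' := fun x n => hsl x n }
  exact ⟨e'.toModuleIso, he⟩

variable (e : (ModuleCat.extendScalars (resCat l).hom).obj N ≅ N')

/-- the isomorphism `(Spec res)^* (tilde N) ≅ tilde N'` induced by `e` -/
def affThetaIso : (Scheme.Modules.pullback (Spec.map (resCat l))).obj (tilde N) ≅ tilde N' :=
  pullbackTildeIso (resCat l) N ≪≫ (tilde.functor _).mapIso e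

/-- the transition morphism `affPush a N ⟶ affPush a' N'` -/
def affTrans : affPush a N ⟶ affPush a' N' :=
  (Scheme.Modules.pushforward a.fromSpec).map
      ((Scheme.Modules.pullbackPushforwardAdjunction (Spec.map (resCat l))).unit.app (tilde N) ≫
        (Scheme.Modules.pushforward (Spec.map (resCat l))).map (affThetaIso l e).hom) ≫
    (Scheme.Modules.pushforwardComp (Spec.map (resCat l)) a.fromSpec).hom.app (tilde N') ≫
    (Scheme.Modules.pushforwardCongr (specMap_resCat_fromSpec a a' l)).hom.app (tilde N')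

theorem preimage_le_of_fac (W : X.Opens) :
    a'.fromSpec ⁻¹ᵁ W ≤ (Spec.map (resCat l)) ⁻¹ᵁ (a.fromSpec ⁻¹ᵁ W) := by
  rw [← Scheme.Hom.comp_preimage, specMap_resCat_fromSpec a a' l]

theorem affTrans_app_apply (W : X.Opens) (s : Γ(affPush a N, W)) :
    (affTrans a a' l e).app W s =
      (tilde N').presheaf.map (homOfLE (preimage_le_of_fac a a' l W)).op
        ((affThetaIso l e).hom.app ((Spec.map (resCat l)) ⁻¹ᵁ (a.fromSpec ⁻¹ᵁ W))
          (unitSec (Spec.map (resCat l)) (tilde N) (a.fromSpec ⁻¹ᵁ W) s)) := rfl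

include a a' in
theorem isOpenImmersion_specMap_resCat : IsOpenImmersion (Spec.map (resCat l)) := by
  have h : IsOpenImmersion (Spec.map (resCat l) ≫ a.fromSpec) := by
    rw [specMap_resCat_fromSpec a a' l]
    infer_instance
  exact IsOpenImmersion.of_comp (Spec.map (resCat l)) a.fromSpec

include a' in
theorem fromSpec_preimage_le_image [IsOpenImmersion (Spec.map (resCat l))] (W : X.Opens)
    (hW : W ⊓ V ≤ V') :
    a.fromSpec ⁻¹ᵁ W ≤
      (Spec.map (resCat l)) ''ᵁ ((Spec.map (resCat l)) ⁻¹ᵁ (a.fromSpec ⁻¹ᵁ W)) := by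
  rw [Scheme.Hom.image_preimage_eq_opensRange_inf]
  refine le_inf ?_ le_rfl
  intro x hx
  have hxV : a.fromSpec x ∈ V := by
    have : a.fromSpec x ∈ a.fromSpec.opensRange := ⟨x, rfl⟩
    rwa [a.opensRange_fromSpec] at this
  have hx' : a.fromSpec x ∈ V' := hW ⟨hx, hxV⟩
  rw [← a'.opensRange_fromSpec] at hx'
  obtain ⟨y, hy⟩ := hx'
  refine ⟨y, ?_⟩
  apply a.fromSpec.isOpenEmbedding.injective
  rw [← hy, ← specMap_resCat_fromSpec a a' l]
  rfl

theorem unitSec_bijective_of_isOpenImmersion {Y : Scheme.{u}} (j : Y ⟶ X) [IsOpenImmersion j]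
    (M : X.Modules) (U : X.Opens) (h' : U ≤ j ''ᵁ (j ⁻¹ᵁ U)) :
    Function.Bijective (unitSec j M U) := by
  have h := secMap_bijective_of_isOpenImmersion j M (le_refl (j ⁻¹ᵁ U)) h'
  have e : ∀ s, secMap j M (le_refl (j ⁻¹ᵁ U)) s = unitSec j M U s := fun s => by
    rw [secMap_apply, presheaf_map_self]
  refine ⟨fun x y hxy => h.1 (by rw [e, e, hxy]), fun y => ?_⟩
  obtain ⟨x, hx⟩ := h.2 y
  exact ⟨x, by rw [← e, hx]⟩

theorem affTrans_app_bijective (W : X.Opens) (hW : W ⊓ V ≤ V') :
    Function.Bijective ((affTrans a a' l e).app W) := by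
  have := isOpenImmersion_specMap_resCat a a' l
  have h1 : Function.Bijective (unitSec (Spec.map (resCat l)) (tilde N) (a.fromSpec ⁻¹ᵁ W)) :=
    unitSec_bijective_of_isOpenImmersion _ _ _ (fromSpec_preimage_le_image a a' l W hW)
  have h2 : Function.Bijective ((affThetaIso l e).hom.app
      ((Spec.map (resCat l)) ⁻¹ᵁ (a.fromSpec ⁻¹ᵁ W))) :=
    ConcreteCategory.bijective_of_isIso _
  have h3 : Function.Bijective ((tilde N').presheaf.map
      (homOfLE (preimage_le_of_fac a a' l W)).op) :=
    presheaf_map_bijective_of_eq _ _ (by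
      rw [← Scheme.Hom.comp_preimage, specMap_resCat_fromSpec a a' l])
  exact h3.comp (h2.comp h1)

theorem affThetaIso_top (r : N →+ N') (he : ∀ n, e.hom (extUnit (resCat l) N n) = r n) (n : N) :
    (affThetaIso l e).hom.app ((Spec.map (resCat l)) ⁻¹ᵁ ⊤)
        (unitSec (Spec.map (resCat l)) (tilde N) ⊤ (tildeTop N n)) =
      tildeTop N' (r n) := by
  have h1 := unit_compat_apply (resCat l) N n
  have h2 : (affThetaIso l e).hom.app ((Spec.map (resCat l)) ⁻¹ᵁ ⊤)
      (unitSec (Spec.map (resCat l)) (tilde N) ⊤ (tildeTop N n)) =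
      ((tilde.functor _).map e.hom).app ⊤ ((pullbackTildeIso (resCat l) N).hom.app ⊤
        (unitSec (Spec.map (resCat l)) (tilde N) ⊤ ((tilde.toOpen N ⊤).hom n))) := rfl
  rw [h2, h1, ← he n]
  have h3 := tilde.toOpen_map_app e.hom ⊤
  exact congr(($h3).hom (((ModuleCat.extendRestrictScalarsAdj (resCat l).hom).unit.app N).hom n))

theorem affTrans_affPushTop (r : N →+ N') (he : ∀ n, e.hom (extUnit (resCat l) N n) = r n)
    (n : N) :
    (affTrans a a' l e).app V'
        ((affPush a N).presheaf.map (homOfLE l).op (affPushTop a N n)) =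
      affPushTop a' N' (r n) := by
  have l1 : a.fromSpec ⁻¹ᵁ V' ≤ (⊤ : (Spec Γ(X, V)).Opens) := le_top
  have h1 : (affPush a N).presheaf.map (homOfLE l).op (affPushTop a N n) =
      (tilde N).presheaf.map (homOfLE l1).op (tildeTop N n) :=
    presheaf_map_map (tilde N) le_top (a.fromSpec.preimage_mono l) (tildeTop N n)
  rw [affTrans_app_apply, h1, unitSec_res, hom_app_res, presheaf_map_map,
    affThetaIso_top l e r he n]
  rfl

end Transition

end

end Fermat.Agent.S25.H505

end
-- ===== PACK-END S25/H505/AffPush.lean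

-- ===== PACK-BEGIN S25/H10/K0e.lean
section
/-
S25, block CECH (helper10): leaf K0e — `N / E^m N` is finitely generated projective over `A`
for an `X`-equivariant retract `N` of `A[X]^n`.  Exact statement of `CechSkel.lean`.
-/


set_option autoImplicit false

namespace Fermat.Agent.S25.H10

open Polynomial Submodule

universe u v

variable {A : Type u} [CommRing A] {N : Type v} [AddCommGroup N] [Module A N]
  {E : Module.End A N}

/-- truncation of a polynomial below degree `m`. -/
noncomputable def truncBelow (m : ℕ) (p : A[X]) : A[X] :=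
  ∑ k ∈ Finset.range m, monomial k (p.coeff k)

theorem coeff_truncBelow (m : ℕ) (p : A[X]) (d : ℕ) :
    (truncBelow m p).coeff d = if d < m then p.coeff d else 0 := by
  classical
  rw [truncBelow, Polynomial.finsetSum_coeff]
  simp only [Polynomial.coeff_monomial]
  split_ifs with h
  · rw [Finset.sum_eq_single d]
    · simp
    · intro b _ hb
      simp [hb]
    · intro hd
      exact absurd (Finset.mem_range.mpr h) hd
  · apply Finset.sum_eq_zero
    intro b hb
    have : b ≠ d := fun hbd => h (hbd ▸ Finset.mem_range.mp hb)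
    simp [this]

theorem exists_eq_truncBelow_add (m : ℕ) (p : A[X]) :
    ∃ q : A[X], p = truncBelow m p + X ^ m * q := by
  have hdvd : (X : A[X]) ^ m ∣ p - truncBelow m p := by
    rw [Polynomial.X_pow_dvd_iff]
    intro d hd
    rw [Polynomial.coeff_sub, coeff_truncBelow, if_pos hd, sub_self]
  obtain ⟨q, hq⟩ := hdvd
  exact ⟨q, by rw [← hq]; ring⟩

/-- K0e. `N / E^m N` is finitely generated projective over `A`. -/
theorem quotient_pow_finite_projective (h : IsFGProj E) (m : ℕ) :
    Module.Finite A (N ⧸ LinearMap.range (E ^ m)) ∧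
      Module.Projective A (N ⧸ LinearMap.range (E ^ m)) := by
  classical
  obtain ⟨n, ι, π, hπι, hι, hπ⟩ := h
  -- coefficient map
  let c : N →ₗ[A] (Fin n × Fin m → A) :=
    { toFun := fun v ik => (ι v ik.1).coeff ik.2
      map_add' := by intro a b; funext ik; simp
      map_smul' := by intro r a; funext ik; simp }
  have hc : LinearMap.range (E ^ m) ≤ LinearMap.ker c := by
    rintro _ ⟨v, rfl⟩
    rw [LinearMap.mem_ker]
    funext ik
    show (ι ((E ^ m) v) ik.1).coeff ik.2 = 0
    rw [ι_pow ι hι, Pi.smul_apply, smul_eq_mul, Polynomial.coeff_X_pow_mul', if_neg]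
    exact not_le.mpr ik.2.2
  let cbar : (N ⧸ LinearMap.range (E ^ m)) →ₗ[A] (Fin n × Fin m → A) :=
    Submodule.liftQ _ c hc
  -- the section
  let t : (Fin n × Fin m → A) →ₗ[A] (Fin n → A[X]) :=
    { toFun := fun a i => ∑ k : Fin m, monomial (k : ℕ) (a (i, k))
      map_add' := by
        intro a b; funext i
        simp [Finset.sum_add_distrib]
      map_smul' := by
        intro r a; funext i
        simp [Finset.smul_sum, Polynomial.smul_monomial] }
  let s : (Fin n × Fin m → A) →ₗ[A] (N ⧸ LinearMap.range (E ^ m)) :=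
    (LinearMap.range (E ^ m)).mkQ ∘ₗ π ∘ₗ t
  have htc : ∀ v : N, t (c v) = fun i => truncBelow m (ι v i) := by
    intro v
    funext i
    show ∑ k : Fin m, monomial (k : ℕ) ((ι v i).coeff k) = truncBelow m (ι v i)
    rw [truncBelow, Finset.sum_range]
  have hsc : s ∘ₗ cbar = LinearMap.id := by
    apply Submodule.linearMap_qext
    ext v
    show (LinearMap.range (E ^ m)).mkQ (π (t (c v))) = (LinearMap.range (E ^ m)).mkQ v
    rw [htc]
    have hq : ∀ i, ∃ q : A[X], ι v i = truncBelow m (ι v i) + X ^ m * q :=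
      fun i => exists_eq_truncBelow_add m (ι v i)
    choose q hq using hq
    have hv : v = π (ι v) := by
      have := congrArg (fun f : N →ₗ[A] N => f v) hπι
      simpa using this.symm
    have hsplit : ι v = (fun i => truncBelow m (ι v i)) + (X : A[X]) ^ m • q := by
      funext i
      simp only [Pi.add_apply, Pi.smul_apply, smul_eq_mul]
      exact hq i
    have : v - π (fun i => truncBelow m (ι v i)) ∈ LinearMap.range (E ^ m) := by
      refine ⟨π q, ?_⟩
      rw [← π_X_pow_smul π hπ]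
      apply eq_sub_of_add_eq
      rw [← map_add, add_comm, ← hsplit, ← hv]
    rw [mkQ_apply, mkQ_apply, eq_comm, Submodule.Quotient.eq]
    exact this
  have hs_surj : Function.Surjective s := by
    intro x
    refine ⟨cbar x, ?_⟩
    have := congrArg (fun f : _ →ₗ[A] _ => f x) hsc
    simpa using this
  exact ⟨Module.Finite.of_surjective s hs_surj, Module.Projective.of_split cbar s hsc⟩

end Fermat.Agent.S25.H10

end
-- ===== PACK-END S25/H10/K0e.lean

-- ===== PACK-BEGIN S26/TopDeg.lean
section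


/-!
# Row S26: `Stmt.Deg` from the second-level blocks (formal glue, architect helper987)
-/

set_option autoImplicit false
universe u

open CategoryTheory CategoryTheory.Limits AlgebraicGeometry NeronModelInfra GoodReductionJacobian

namespace Fermat.Agent.S26

/-- `Stmt.Deg` from the blocks FF, AMPLE (`Alpha`), CUBE (`NQuad`), BETA and the linear-system
calculus. -/
theorem deg_of_blocks (K : Type u) [Field K] [IsAlgClosed K]
    (hInt : Stmt.Integral K) (hGen : Stmt.Generic K) (hFF : Stmt.FFRank K)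
    (hα : Stmt.Alpha K) (hQ : Stmt.NQuad K) (hβ : Stmt.Beta K)
    (hPB : Stmt.LSPullback K) (hPow : Stmt.LSPow K) (hSc : Stmt.LSScale K) :
    Stmt.Deg K := by
  intro X n hn hfin het
  have := hInt X
  obtain ⟨hneg, hgen⟩ := hGen X
  have hη := hgen n hn
  obtain ⟨u, huG, huI, hupos, husym⟩ := hα X hneg
  have hn0 : 0 < n := Nat.pos_of_ne_zero (by rintro rfl; simp at hn)
  have := hfin
  have hover : X.nsmulHom n ≫ X.str = X.str := X.law.schemeNsmul_over n
  obtain ⟨h1G, h1I, h1d⟩ := hPB X.A X.str (X.nsmulHom n) hover hη X.dim u huG huI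
  obtain ⟨h2G, h2I, h2d⟩ := hPow X.A X.str X.dim u (n ^ 2) (by positivity) huG huI
  obtain ⟨h, hh0, hsame⟩ := hQ X hneg X.dim u huG.1 husym n hη
  obtain ⟨h3G, h3I, h3d⟩ :=
    hSc X.A X.str X.dim (fun i => ffMap (X.nsmulHom n) hη (u i)) h hh0
  have : IsProper X.str := X.bundle.proper
  have key := hβ X.A X.str X.dim _ _ (h3G h1G) h2G hsame (h3I h1I) h2I
  rw [h3d, h1d, h2d] at key
  have hdeg : ffDeg (X.nsmulHom n) hη = (n ^ 2) ^ X.dim :=
    Nat.eq_of_mul_eq_mul_right hupos key
  refine ⟨genericPoint X.A, ?_⟩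
  rw [hFF X n hn hfin het hη, hdeg, ← pow_mul]

end Fermat.Agent.S26

end
-- ===== PACK-END S26/TopDeg.lean

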