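import Mathlib
import Fermat.Prelude.Def_JacJ1Iface
import Fermat.Prelude.Def_GoodReductionJacobian_RelativeGroupLawKernel
import Fermat.Agent.Pack.S43MC.G0E5L2
import Fermat.Agent.Pack.S43MC.G0E6L0
import Fermat.Agent.Pack.S43MC.G0E1L3
import Fermat.Agent.Pack.S43MC.G0E5L0
import Fermat.Agent.Pack.S43MC.G0E2L1
import Fermat.Agent.Pack.S44C.G0E9L1
import Fermat.Agent.Pack.S43GC.G0E4L1
import Fermat.Agent.Pack.S43MC.G0E6L1
import Fermat.Agent.Pack.S43MC.G0E3L1
import Fermat.Agent.Pack.S43MC.G0E5L3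
import Fermat.Agent.Pack.S43MC.G0E7L0
import Fermat.Agent.Pack.S43MC.G0E8L3
import Fermat.Agent.Pack.Fast891

-- ===== PACK-BEGIN S26/H911/BCLaw.lean
section




/-!
# Row S26, block CUBE, leaf BC (helper911): base change of a relative group law

Mathlib + Prelude + S25 `H567/GeomIntegral` (tensor products of fields over an algebraically
closed field are domains).

* `bcPt`, `bcLift` : for `ρ : Spec R' ⟶ Spec R` and `f : A ⟶ Spec R`, points of
  `pullback.snd f ρ` with values in `t : T ⟶ Spec R'` are the points of `f` with values in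
  `t ≫ ρ` (functor of points of a base change);
* `bcLaw G ρ` : the base change of a `RelativeGroupLaw`, `bcLaw_isCommutative`,
  `bcLaw_mul_fst` (compatibility with the projection);
* `connectedSpace_of_connectedFibres`, `connectedSpace_pullback_of_isAlgClosed` : a connected
  scheme over an algebraically closed field stays connected after base change to a field;
* `bcBundle` : base change of an `AbelianSchemePropertyBundle` along a field extension of an
  algebraically closed field.
-/

set_option autoImplicit false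
set_option linter.unusedSectionVars false
set_option linter.style.haveILetI false

universe u

open CategoryTheory CategoryTheory.Limits AlgebraicGeometry NeronModelInfra GoodReductionJacobian

namespace Fermat.Agent.S26.H911

noncomputable section

/-! ## Functor of points of a base change -/

section Points

variable {B B' A : Scheme.{u}} (f : A ⟶ B) (ρ : B' ⟶ B)

/-- A point of the base change, pushed to a point of the original scheme. -/
def bcPt {T : Scheme.{u}} {t : T ⟶ B'} (a : SchemeHomOver t (pullback.snd f ρ)) :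
    SchemeHomOver (t ≫ ρ) f :=
  ⟨a.1 ≫ pullback.fst f ρ, by rw [Category.assoc, pullback.condition, ← Category.assoc, a.2]⟩

/-- A point of the original scheme over `t ≫ ρ`, lifted to the base change. -/
def bcLift {T : Scheme.{u}} (t : T ⟶ B') (b : SchemeHomOver (t ≫ ρ) f) :
    SchemeHomOver t (pullback.snd f ρ) :=
  ⟨pullback.lift b.1 t b.2, pullback.lift_snd _ _ _⟩

@[simp]
theorem bcPt_coe {T : Scheme.{u}} {t : T ⟶ B'} (a : SchemeHomOver t (pullback.snd f ρ)) :
    (bcPt f ρ a).1 = a.1 ≫ pullback.fst f ρ := rfl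

@[simp]
theorem bcLift_coe_fst {T : Scheme.{u}} (t : T ⟶ B') (b : SchemeHomOver (t ≫ ρ) f) :
    (bcLift f ρ t b).1 ≫ pullback.fst f ρ = b.1 :=
  pullback.lift_fst _ _ _

@[simp]
theorem bcPt_bcLift {T : Scheme.{u}} (t : T ⟶ B') (b : SchemeHomOver (t ≫ ρ) f) :
    bcPt f ρ (bcLift f ρ t b) = b :=
  Subtype.ext (pullback.lift_fst _ _ _)

@[simp]
theorem bcLift_bcPt {T : Scheme.{u}} {t : T ⟶ B'} (a : SchemeHomOver t (pullback.snd f ρ)) :
    bcLift f ρ t (bcPt f ρ a) = a := by
  apply Subtype.ext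
  apply pullback.hom_ext
  · exact pullback.lift_fst _ _ _
  · exact (pullback.lift_snd _ _ _).trans a.2.symm

theorem bcPt_injective {T : Scheme.{u}} {t : T ⟶ B'} :
    Function.Injective (bcPt f ρ : SchemeHomOver t (pullback.snd f ρ) → _) := by
  intro a b h
  rw [← bcLift_bcPt f ρ a, h, bcLift_bcPt]

/-- Naturality of `bcLift` in the test scheme. -/
theorem schemeHomOverComp_bcLift {T T' : Scheme.{u}} (t : T ⟶ B') (ψ : T' ⟶ T)
    (b : SchemeHomOver (t ≫ ρ) f) :
    schemeHomOverComp ψ rfl (bcLift f ρ t b) =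
      bcLift f ρ (ψ ≫ t) (schemeHomOverComp ψ (Category.assoc _ _ _).symm b) := by
  apply Subtype.ext
  apply pullback.hom_ext
  · have h1 := bcLift_coe_fst f ρ t b
    have h2 := bcLift_coe_fst f ρ (ψ ≫ t) (schemeHomOverComp ψ (Category.assoc _ _ _).symm b)
    rw [h2, schemeHomOverComp_coe, Category.assoc, h1, schemeHomOverComp_coe]
  · have h1 := (bcLift f ρ t b).2
    have h2 := (bcLift f ρ (ψ ≫ t) (schemeHomOverComp ψ (Category.assoc _ _ _).symm b)).2
    rw [h2, schemeHomOverComp_coe, Category.assoc, h1]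

/-- Naturality of `bcPt` in the test scheme. -/
theorem bcPt_schemeHomOverComp {T T' : Scheme.{u}} (t : T ⟶ B') (ψ : T' ⟶ T)
    (a : SchemeHomOver t (pullback.snd f ρ)) :
    bcPt f ρ (schemeHomOverComp ψ rfl a) =
      schemeHomOverComp ψ (Category.assoc _ _ _).symm (bcPt f ρ a) := by
  apply Subtype.ext
  simp [bcPt]

end Points

/-! ## Base change of a group law -/

section Law

variable {R R' : Type u} [CommRing R] [CommRing R'] {A : Scheme.{u}}
  {f : A ⟶ Spec (CommRingCat.of R)} (G : RelativeGroupLaw R f)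
  (ρ : Spec (CommRingCat.of R') ⟶ Spec (CommRingCat.of R))

/-- The base change of a relative group law along `ρ : Spec R' ⟶ Spec R`: on the functor of
points, `(A ×_R R')(T) = A(T)`. -/
def bcLaw : RelativeGroupLaw R' (pullback.snd f ρ) where
  mul t a b := bcLift f ρ t (G.mul (t ≫ ρ) (bcPt f ρ a) (bcPt f ρ b))
  one t := bcLift f ρ t (G.one (t ≫ ρ))
  inv t a := bcLift f ρ t (G.inv (t ≫ ρ) (bcPt f ρ a))
  mul_assoc t x y z := by simp only [bcPt_bcLift, G.mul_assoc]
  one_mul t x := by simp only [bcPt_bcLift, G.one_mul, bcLift_bcPt]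
  mul_one t x := by simp only [bcPt_bcLift, G.mul_one, bcLift_bcPt]
  inv_mul_cancel t x := by simp only [bcPt_bcLift, G.inv_mul_cancel]
  mul_natural t t' ψ hψ x y := by
    subst hψ
    rw [schemeHomOverComp_bcLift, bcPt_schemeHomOverComp, bcPt_schemeHomOverComp,
      G.mul_natural (t ≫ ρ) ((ψ ≫ t) ≫ ρ) ψ (Category.assoc _ _ _).symm]

@[simp]
theorem bcLaw_mul {T : Scheme.{u}} (t : T ⟶ Spec (CommRingCat.of R'))
    (a b : SchemeHomOver t (pullback.snd f ρ)) :
    (bcLaw G ρ).mul t a b = bcLift f ρ t (G.mul (t ≫ ρ) (bcPt f ρ a) (bcPt f ρ b)) := rfl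

theorem bcLaw_mul_fst {T : Scheme.{u}} (t : T ⟶ Spec (CommRingCat.of R'))
    (a b : SchemeHomOver t (pullback.snd f ρ)) :
    ((bcLaw G ρ).mul t a b).1 ≫ pullback.fst f ρ =
      (G.mul (t ≫ ρ) (bcPt f ρ a) (bcPt f ρ b)).1 := by
  rw [bcLaw_mul, bcLift_coe_fst]

theorem bcLaw_one_fst {T : Scheme.{u}} (t : T ⟶ Spec (CommRingCat.of R')) :
    ((bcLaw G ρ).one t).1 ≫ pullback.fst f ρ = (G.one (t ≫ ρ)).1 :=
  bcLift_coe_fst f ρ t _

theorem bcLaw_inv_fst {T : Scheme.{u}} (t : T ⟶ Spec (CommRingCat.of R'))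
    (a : SchemeHomOver t (pullback.snd f ρ)) :
    ((bcLaw G ρ).inv t a).1 ≫ pullback.fst f ρ = (G.inv (t ≫ ρ) (bcPt f ρ a)).1 :=
  bcLift_coe_fst f ρ t _

theorem bcLaw_isCommutative (hG : G.IsCommutative) : (bcLaw G ρ).IsCommutative := by
  intro T t x y
  rw [bcLaw_mul, bcLaw_mul, hG (t ≫ ρ)]

end Law

/-! ## Connectedness -/

section Connected

variable {K : Type u} [Field K]

/-- A scheme over a field whose fibres are connected is connected. -/
theorem connectedSpace_of_connectedFibres {A : Scheme.{u}} (f : A ⟶ Spec (CommRingCat.of K))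
    (h : ∀ s : Spec (CommRingCat.of K), _root_.IsConnected (f.base ⁻¹' {s})) :
    ConnectedSpace A := by
  have hs := h (Classical.arbitrary _)
  have huniv : (f.base ⁻¹' {Classical.arbitrary (Spec (CommRingCat.of K))}) = Set.univ := by
    ext x
    simp only [Set.mem_preimage, Set.mem_singleton_iff, Set.mem_univ, iff_true]
    exact Subsingleton.elim _ _
  rw [huniv] at hs
  exact connectedSpace_iff_univ.mpr hs

/-- The fibres of a connected scheme over a field are connected. -/
theorem connectedFibres_of_connectedSpace {A : Scheme.{u}} [ConnectedSpace A]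
    (f : A ⟶ Spec (CommRingCat.of K)) (s : Spec (CommRingCat.of K)) :
    _root_.IsConnected (f.base ⁻¹' {s}) := by
  have huniv : (f.base ⁻¹' {s}) = Set.univ := by
    ext x
    simp only [Set.mem_preimage, Set.mem_singleton_iff, Set.mem_univ, iff_true]
    exact Subsingleton.elim _ _
  rw [huniv]
  exact isConnected_univ

/-- A geometrically irreducible morphism is geometrically connected. -/
theorem geometricallyConnected_of_geometricallyIrreducible {X Y : Scheme.{u}} (g : X ⟶ Y)
    [GeometricallyIrreducible g] : GeometricallyConnected g := by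
  constructor
  intro L _ y Z fst snd hP
  have : IrreducibleSpace Z :=
    GeometricallyIrreducible.geometrically_irreducibleSpace (f := g) y fst snd hP
  infer_instance

variable [IsAlgClosed K]

/-- Over an algebraically closed field, a connected scheme stays connected after base change
to any field. -/
theorem connectedSpace_pullback_of_isAlgClosed {A : Scheme.{u}} [ConnectedSpace A]
    (f : A ⟶ Spec (CommRingCat.of K)) (K' : Type u) [Field K']
    (ρ : Spec (CommRingCat.of K') ⟶ Spec (CommRingCat.of K)) :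
    ConnectedSpace ↥(pullback f ρ) := by
  haveI : GeometricallyIntegral ρ := Fermat.Agent.S25.H567.geometricallyIntegral_of_field K' ρ
  haveI : GeometricallyConnected ρ := geometricallyConnected_of_geometricallyIrreducible ρ
  infer_instance

/-- Base change of the property bundle of an abelian scheme along a field extension of an
algebraically closed field. -/
theorem bcBundle {A : Scheme.{u}} {f : A ⟶ Spec (CommRingCat.of K)}
    (h : AbelianSchemePropertyBundle K f) (K' : Type u) [Field K']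
    (ρ : Spec (CommRingCat.of K') ⟶ Spec (CommRingCat.of K)) :
    AbelianSchemePropertyBundle K' (pullback.snd f ρ) := by
  haveI := h.smooth
  haveI := h.proper
  haveI : ConnectedSpace A := connectedSpace_of_connectedFibres f h.connectedFibres
  haveI : ConnectedSpace ↥(pullback f ρ) := connectedSpace_pullback_of_isAlgClosed f K' ρ
  obtain ⟨G⟩ := h.hasGroupLaw
  exact
    { smooth := inferInstance
      proper := inferInstance
      connectedFibres := connectedFibres_of_connectedSpace _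
      hasGroupLaw := ⟨bcLaw G ρ⟩ }

end Connected

end

end Fermat.Agent.S26.H911

end
-- ===== PACK-END S26/H911/BCLaw.lean

-- ===== PACK-BEGIN S26/H566/LS2.lean
section



/-!
# Row S26, block LS / BETA, leaf LS2 (helper566): sections in the span have affine loci

`X` an integral scheme, `w : ι → K(X)` a *good* system (`LS.Good`, `SpecDeg.lean`) indexed by a
finite type, `u = Σ_b c_b w_b` a linear combination with coefficients `c_b ∈ Γ(X, ⊤)` (for
instance constants of the base field, or functions on the base `T` for `X × T`).  Then the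
locus `D(u) = {x | u ≠ 0 ∧ I_w(x) = O_x u}` where the section `u` generates is an affine open.

* `GenBy w x u` : `u` generates the system `w` at `x` (so `LS.GenAt w x b ↔ GenBy w x (w b)`).
* `exists_isAffineOpen_genBy` : **LS2**.
* `good_of_linearCombination` : a base point free family of linear combinations of a good system
  is a good system generating the same fractional ideal sheaf.
* `exists_isAffineOpen_genBy_ffStr`, `good_of_linearCombination_ffStr` : the same with constant
  coefficients `c_b ∈ K` (through `ffStr str`).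
-/

set_option autoImplicit false
set_option linter.style.haveILetI false
universe u

open CategoryTheory AlgebraicGeometry TopologicalSpace Opposite

namespace Fermat.Agent.S26.H566

open Fermat.Agent.S26

variable {X : Scheme.{u}} [IsIntegral X] {ι ι' : Type}

/-- The image in the function field of a global section. -/
noncomputable def gcoef (c : Γ(X, ⊤)) : X.functionField :=
  X.presheaf.germ ⊤ (genericPoint X) (Opens.mem_top _) c

theorem gcoef_eq_algebraMap (c : Γ(X, ⊤)) (x : X) :
    gcoef c = algebraMap (X.presheaf.stalk x) X.functionField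
      (X.presheaf.germ ⊤ x (Opens.mem_top _) c) :=
  (algebraMap_germ c x (Opens.mem_top _)).symm

/-- The rational function `u` generates the system `w` at `x`. -/
def GenBy (w : ι → X.functionField) (x : X) (u : X.functionField) : Prop :=
  u ≠ 0 ∧ LS.span w x = Submodule.span (X.presheaf.stalk x) {u}

theorem genAt_iff_genBy (w : ι → X.functionField) (x : X) (b : ι) :
    LS.GenAt w x b ↔ GenBy w x (w b) := Iff.rfl

theorem mem_span_self (w : ι → X.functionField) (x : X) (b : ι) : w b ∈ LS.span w x :=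
  Submodule.subset_span ⟨b, rfl⟩

theorem gcoef_mul_mem_span (w : ι → X.functionField) (x : X) (c : Γ(X, ⊤)) (b : ι) :
    gcoef c * w b ∈ LS.span w x := by
  rw [gcoef_eq_algebraMap c x, ← Algebra.smul_def]
  exact Submodule.smul_mem _ _ (mem_span_self w x b)

theorem sum_gcoef_mul_mem_span [Fintype ι] (w : ι → X.functionField) (x : X)
    (c : ι → Γ(X, ⊤)) : ∑ b, gcoef (c b) * w b ∈ LS.span w x :=
  Submodule.sum_mem _ fun b _ => gcoef_mul_mem_span w x (c b) b

/-- Division by a generator. -/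
theorem regularAt_div_of_mem_span {x : X} {a v : X.functionField} (ha : a ≠ 0)
    (hv : v ∈ Submodule.span (X.presheaf.stalk x) {a}) : RegularAt (v / a) x := by
  obtain ⟨r, rfl⟩ := Submodule.mem_span_singleton.mp hv
  refine ⟨r, ?_⟩
  rw [Algebra.smul_def, mul_div_assoc, div_self ha, mul_one]

/-- If `a` and `b = r • a` generate the same submodule, `r` is a unit. -/
theorem isUnit_of_span_eq {x : X} {a : X.functionField} (ha : a ≠ 0)
    (r : X.presheaf.stalk x)
    (h : Submodule.span (X.presheaf.stalk x) {r • a} = Submodule.span (X.presheaf.stalk x) {a}) :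
    IsUnit r := by
  have h1 : a ∈ Submodule.span (X.presheaf.stalk x) {r • a} := by
    rw [h]; exact Submodule.mem_span_singleton_self a
  obtain ⟨r', hr'⟩ := Submodule.mem_span_singleton.mp h1
  rw [smul_smul, Algebra.smul_def] at hr'
  have h2 : algebraMap (X.presheaf.stalk x) X.functionField (r' * r) = 1 :=
    mul_right_cancel₀ ha (by rw [hr', one_mul])
  have h3 : r' * r = 1 := algebraMap_stalk_injective x (by rw [h2, map_one])
  exact IsUnit.of_mul_eq_one r' (by rw [mul_comm]; exact h3)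

theorem span_smul_eq_of_isUnit {x : X} (a : X.functionField) {r : X.presheaf.stalk x}
    (hr : IsUnit r) :
    Submodule.span (X.presheaf.stalk x) {r • a} = Submodule.span (X.presheaf.stalk x) {a} :=
  Submodule.span_singleton_smul_eq hr a

theorem smul_ne_zero_of_isUnit {x : X} {a : X.functionField} (ha : a ≠ 0)
    {r : X.presheaf.stalk x} (hr : IsUnit r) : r • a ≠ 0 := by
  rw [Algebra.smul_def]
  refine mul_ne_zero ?_ ha
  intro h0
  have : r = 0 := algebraMap_stalk_injective x (by rw [h0, map_zero])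
  exact hr.ne_zero this

/-- Key local computation: if `a` generates at `x` and `v = r • a`, then `v` generates at `x`
iff `r` is a unit. -/
theorem genBy_smul_iff {w : ι → X.functionField} {x : X} {a : X.functionField}
    (ha : GenBy w x a) (r : X.presheaf.stalk x) : GenBy w x (r • a) ↔ IsUnit r := by
  constructor
  · rintro ⟨-, h⟩
    exact isUnit_of_span_eq ha.1 r (h.symm.trans ha.2)
  · intro hr
    exact ⟨smul_ne_zero_of_isUnit ha.1 hr, ha.2.trans (span_smul_eq_of_isUnit a hr).symm⟩

/-- If `a` generates at `x`, `v` lies in the span and `s` is a section near `x` with germ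
`v / a`, then `v` generates at `x` iff `s` is invertible at `x`. -/
theorem genBy_iff_isUnit_germ {w : ι → X.functionField} {x : X} {a v : X.functionField}
    (ha : GenBy w x a) {U : X.Opens} (hx : x ∈ U) (s : Γ(X, U))
    (hs : algebraMap (X.presheaf.stalk x) X.functionField (X.presheaf.germ U x hx s) = v / a) :
    GenBy w x v ↔ IsUnit (X.presheaf.germ U x hx s) := by
  have hv : v = (X.presheaf.germ U x hx s) • a := by
    rw [Algebra.smul_def, hs, div_mul_cancel₀ v ha.1]
  rw [← genBy_smul_iff ha, ← hv]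

/-- **LS2.** For a good system `w` and a linear combination `u = Σ c_b w_b` with coefficients
global sections, the locus where `u` generates is an affine open. -/
theorem exists_isAffineOpen_genBy [Fintype ι] (w : ι → X.functionField) (hw : LS.Good w)
    (c : ι → Γ(X, ⊤)) :
    ∃ U : X.Opens, IsAffineOpen U ∧ ∀ x, x ∈ U ↔ GenBy w x (∑ b, gcoef (c b) * w b) := by
  classical
  set u : X.functionField := ∑ b, gcoef (c b) * w b with hu
  obtain ⟨hbpf, haff⟩ := hw
  choose Ub hUb hmemb using haff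
  have hgen : ∀ b x, x ∈ Ub b → GenBy w x (w b) := fun b x hx => (hmemb b x).1 hx
  have humem : ∀ x, u ∈ LS.span w x := fun x => sum_gcoef_mul_mem_span w x c
  -- the functions `u / w_b` on `U_b`
  have hg : ∀ b, ∃ g : Γ(X, Ub b), ∀ (x : X) (hx : x ∈ Ub b),
      algebraMap (X.presheaf.stalk x) X.functionField (X.presheaf.germ (Ub b) x hx g) =
        u / w b := fun b =>
    exists_section_of_regularAt (Ub b) (u / w b) fun x hx =>
      regularAt_div_of_mem_span (hgen b x hx).1 ((hgen b x hx).2 ▸ humem x)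
  choose g hg using hg
  -- the locus
  let V : X.Opens := ⨆ b, X.basicOpen (g b)
  have hbasic : ∀ b x, x ∈ X.basicOpen (g b) ↔ x ∈ Ub b ∧ GenBy w x u := by
    intro b x
    rw [Scheme.mem_basicOpen'']
    constructor
    · rintro ⟨hx, hunit⟩
      exact ⟨hx, (genBy_iff_isUnit_germ (hgen b x hx) hx (g b) (hg b x hx)).2 hunit⟩
    · rintro ⟨hx, hgb⟩
      exact ⟨hx, (genBy_iff_isUnit_germ (hgen b x hx) hx (g b) (hg b x hx)).1 hgb⟩
  have hV : ∀ x, x ∈ V ↔ GenBy w x u := by
    intro x
    rw [Opens.mem_iSup]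
    constructor
    · rintro ⟨b, hb⟩
      exact ((hbasic b x).1 hb).2
    · intro hx
      obtain ⟨b, hb⟩ := hbpf x
      exact ⟨b, (hbasic b x).2 ⟨(hmemb b x).2 hb, hx⟩⟩
  refine ⟨V, ?_, hV⟩
  -- the functions `w_b / u` on `V`
  have hf : ∀ b, ∃ f : Γ(X, V), ∀ (x : X) (hx : x ∈ V),
      algebraMap (X.presheaf.stalk x) X.functionField (X.presheaf.germ V x hx f) =
        w b / u := fun b =>
    exists_section_of_regularAt V (w b / u) fun x hx =>
      regularAt_div_of_mem_span ((hV x).1 hx).1 (((hV x).1 hx).2 ▸ mem_span_self w x b)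
  choose f hf using hf
  -- basic opens of the `f b`
  have hfb : ∀ b, X.basicOpen (f b) = X.basicOpen (g b) := by
    intro b
    ext x
    simp only [SetLike.mem_coe]
    rw [hbasic b x, Scheme.mem_basicOpen'']
    constructor
    · rintro ⟨hx, hunit⟩
      have hxu := (hV x).1 hx
      have hwb : GenBy w x (w b) :=
        (genBy_iff_isUnit_germ hxu hx (f b) (hf b x hx)).2 hunit
      exact ⟨(hmemb b x).2 hwb, hxu⟩
    · rintro ⟨hx, hxu⟩
      have hxV : x ∈ V := (hV x).2 hxu
      exact ⟨hxV, (genBy_iff_isUnit_germ hxu hxV (f b) (hf b x hxV)).1 (hgen b x hx)⟩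
  by_cases hne : ∃ x, x ∈ V
  swap
  · have hbot : V = ⊥ := by
      ext x
      simp only [SetLike.mem_coe]
      constructor
      · intro hx; exact absurd ⟨x, hx⟩ hne
      · intro hx; exact absurd hx (by simp)
    rw [hbot]
    exact isAffineOpen_bot X
  obtain ⟨x₀, hx₀⟩ := hne
  have hu0 : u ≠ 0 := ((hV x₀).1 hx₀).1
  refine isAffineOpen_of_isAffineOpen_basicOpen V (Set.range f) ?_ ?_
  · -- the `f b` generate the unit ideal: `1 = Σ c_b f_b`
    rw [Ideal.eq_top_iff_one]
    have hone : (1 : Γ(X, V)) = ∑ b, X.presheaf.map (homOfLE le_top).op (c b) * f b := by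
      apply section_ext _ _ x₀ hx₀
      rw [map_one, map_one, map_sum, map_sum]
      have hterm : ∀ b, algebraMap (X.presheaf.stalk x₀) X.functionField
          (X.presheaf.germ V x₀ hx₀ (X.presheaf.map (homOfLE le_top).op (c b) * f b)) =
            gcoef (c b) * w b / u := by
        intro b
        rw [map_mul, map_mul, hf b x₀ hx₀, TopCat.Presheaf.germ_res_apply,
          ← gcoef_eq_algebraMap (c b) x₀, mul_div_assoc]
      rw [Finset.sum_congr rfl (fun b _ => hterm b), ← Finset.sum_div, ← hu, div_self hu0]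
    rw [hone]
    exact Ideal.sum_mem _ fun b _ => Ideal.mul_mem_left _ _ (Ideal.subset_span ⟨b, rfl⟩)
  · rintro _ ⟨b, rfl⟩
    rw [hfb b]
    exact (hUb b).basicOpen (g b)

end Fermat.Agent.S26.H566

namespace Fermat.Agent.S26.H566

open Fermat.Agent.S26

variable {X : Scheme.{u}} [IsIntegral X] {ι ι' : Type}

/-- If every member of `v` lies in the span of `w` at `x` and some member of `v` generates `w`
at `x`, then `v` and `w` have the same span at `x`. -/
theorem span_eq_of_genBy {w : ι → X.functionField} {v : ι' → X.functionField} {x : X}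
    (hv : ∀ j, v j ∈ LS.span w x) {j : ι'} (hj : GenBy w x (v j)) :
    LS.span v x = LS.span w x := by
  apply le_antisymm
  · exact Submodule.span_le.mpr (by rintro _ ⟨i, rfl⟩; exact hv i)
  · rw [hj.2]
    exact Submodule.span_le.mpr (by
      rintro _ rfl
      exact Submodule.subset_span ⟨j, rfl⟩)

/-- **LS2, system form.** A family `v` of linear combinations (with global sections as
coefficients) of a good system `w`, without common zero, is a good system which generates the
same fractional ideal sheaf as `w`. -/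
theorem good_of_linearCombination [Fintype ι] (w : ι → X.functionField) (hw : LS.Good w)
    (c : ι' → ι → Γ(X, ⊤)) (v : ι' → X.functionField)
    (hv : ∀ j, v j = ∑ b, gcoef (c j b) * w b)
    (hbpf : ∀ x, ∃ j, GenBy w x (v j)) :
    LS.Good v ∧ LS.Same v w := by
  have hmem : ∀ x j, v j ∈ LS.span w x := fun x j => by
    rw [hv j]; exact sum_gcoef_mul_mem_span w x (c j)
  have hsame : LS.Same v w := fun x => by
    obtain ⟨j, hj⟩ := hbpf x
    exact span_eq_of_genBy (hmem x) hj
  have hiff : ∀ x j, LS.GenAt v x j ↔ GenBy w x (v j) := fun x j => by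
    unfold LS.GenAt GenBy
    rw [hsame x]
  refine ⟨⟨fun x => ?_, fun j => ?_⟩, hsame⟩
  · obtain ⟨j, hj⟩ := hbpf x
    exact ⟨j, (hiff x j).2 hj⟩
  · obtain ⟨U, hU, hUx⟩ := exists_isAffineOpen_genBy w hw (c j)
    refine ⟨U, hU, fun x => ?_⟩
    rw [hUx x, ← hv j, hiff x j]

/-! ### Constant coefficients -/

section Const

variable {K : Type u} [Field K] (str : X ⟶ Spec (CommRingCat.of K))

/-- The global section of `X` defined by a constant. -/
noncomputable def constSection (a : K) : Γ(X, ⊤) :=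
  str.appTop ((Scheme.ΓSpecIso (CommRingCat.of K)).inv a)

theorem gcoef_constSection (a : K) : gcoef (constSection str a) = ffStr str a := rfl

/-- **LS2 with constant coefficients.** -/
theorem exists_isAffineOpen_genBy_ffStr [Fintype ι] (w : ι → X.functionField)
    (hw : LS.Good w) (c : ι → K) :
    ∃ U : X.Opens, IsAffineOpen U ∧ ∀ x, x ∈ U ↔ GenBy w x (∑ b, ffStr str (c b) * w b) :=
  exists_isAffineOpen_genBy w hw (fun b => constSection str (c b))

/-- **LS2, system form, constant coefficients.** -/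
theorem good_of_linearCombination_ffStr [Fintype ι] (w : ι → X.functionField)
    (hw : LS.Good w) (c : ι' → ι → K) (v : ι' → X.functionField)
    (hv : ∀ j, v j = ∑ b, ffStr str (c j b) * w b)
    (hbpf : ∀ x, ∃ j, GenBy w x (v j)) :
    LS.Good v ∧ LS.Same v w :=
  good_of_linearCombination w hw (fun j b => constSection str (c j b)) v hv hbpf

end Const

end Fermat.Agent.S26.H566

end
-- ===== PACK-END S26/H566/LS2.lean

-- ===== PACK-BEGIN S27/H386/CorrIso.lean
section
/-
Row S27, block GRP (helper386): the correspondence `Corr` between line bundles on `C_A` and gluing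
data is invariant under isomorphisms of gluing data.
-/


set_option autoImplicit false

open CategoryTheory CategoryTheory.Limits AlgebraicGeometry AlgebraicGeometry.RelPicard
  NeronModelInfra GoodReductionJacobian
open scoped TensorProduct

universe u

namespace Fermat.Agent.S27.H386

open Fermat.Agent.S25

variable {k : Type u} [Field k] {C : Scheme.{u}} {c : C ⟶ Spec (CommRingCat.of k)}
  {ε : SchemeHomOver (𝟙 (Spec (CommRingCat.of k))) c} (Ch : ChartOf c ε)
  (A : Type u) [CommRing A] [Algebra k A]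

/-- `Corr` is invariant under isomorphisms of gluing data. -/
theorem corr_of_isIso {L : (pullback c (specStr k A)).Modules}
    {G G' : CurveGD k Ch.B₀ Ch.B₁ Ch.B₀₁ A} (h : Corr Ch A L G) (hG : G.IsIso G') :
    Corr Ch A L G' := by
  obtain ⟨e₀, e₁, e₀₁, h₀, h₁, h₀₁, hr₀, hr₁⟩ := h
  obtain ⟨f⟩ := hG
  refine ⟨e₀.trans f.e₀.toAddEquiv, e₁.trans f.e₁.toAddEquiv, e₀₁.trans f.e₀₁.toAddEquiv,
    ⟨fun a s => ?_, fun b s => ?_⟩, ⟨fun a s => ?_, fun b s => ?_⟩,
    ⟨fun a s => ?_, fun b s => ?_⟩, fun s => ?_, fun s => ?_⟩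
  · change f.e₀ (e₀ _) = _ • f.e₀ (e₀ s)
    rw [h₀.1 a s, map_smul]
  · change f.e₀ (e₀ _) = _ • f.e₀ (e₀ s)
    rw [h₀.2 b s, map_smul]
  · change f.e₁ (e₁ _) = _ • f.e₁ (e₁ s)
    rw [h₁.1 a s, map_smul]
  · change f.e₁ (e₁ _) = _ • f.e₁ (e₁ s)
    rw [h₁.2 b s, map_smul]
  · change f.e₀₁ (e₀₁ _) = _ • f.e₀₁ (e₀₁ s)
    rw [h₀₁.1 a s, map_smul]
  · change f.e₀₁ (e₀₁ _) = _ • f.e₀₁ (e₀₁ s)
    rw [h₀₁.2 b s, map_smul]
  · change f.e₀₁ (e₀₁ _) = G'.r₀ (f.e₀ (e₀ s))
    rw [hr₀ s, f.comm₀]
  · change f.e₀₁ (e₀₁ _) = G'.r₁ (f.e₁ (e₁ s))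
    rw [hr₁ s, f.comm₁]

end Fermat.Agent.S27.H386

end
-- ===== PACK-END S27/H386/CorrIso.lean

-- ===== PACK-BEGIN S27/Dim/Spec.lean
section




/-!
# Row S27, block DIM (the Jacobian has relative dimension `dim Ȟ¹(O)`): frozen interface

Sub-architect: helper566 (subtask 625).  Board: `coord/S27-DIM.md` (origin/helper566).

Only DEFINITIONS (mostly of `Prop`s); nothing is proved, nothing is assumed.  This file does not
import `Fermat/Agent/S27/Spec.lean`: the final statement `Stmt.Main k` below is, after unfolding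
`chartGenus`, the leaf `Stmt.Dim k` of the row architecture.

## Route (`Top.lean` proves the glue)

`Main  ⇐  D1 + Tan`   and   `Tan  ⇐  ChartAt + Loc + PtsDictA + Twist`
(+ the base change lemmas of S25 `H265/GDCCurve.lean`, on main).

* `HasTangentChart f g` : some affine open chart `Spec R ⊆ J` has a `k`-point `x` with
  `dim_k Der_k(R, k_x) = g`.
* `D1` (Mathlib only): smooth + connected + `HasTangentChart f g` ⇒ relative dimension `g`.
* `Tan`: the Jacobian has a tangent chart of dimension `dim_k Ȟ¹(unit datum over k)`.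
  Route A (deformations): the points of `J` with values in `k ⊕ V` (`V` a `k`-vector space,
  `TrivSqZeroExt k V`) lifting `0` are the gluing data `unit twisted by 1 + ξ`, `ξ ∈ V ⊗ B₀₁`;
  the universal tangent vector `R → k ⊕ Der^*` makes the bijection `Der ≃ Ȟ¹` linear.
  Route B (Hilbert charts, helper671) may prove `Tan` directly.
-/

set_option autoImplicit false
set_option linter.style.haveILetI false
universe u
open CategoryTheory CategoryTheory.Limits AlgebraicGeometry AlgebraicGeometry.RelPicard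
  NeronModelInfra GoodReductionJacobian
open scoped TensorProduct

namespace Fermat.Agent.S27.Dim

open Fermat.Agent.S25 Fermat.Agent.S27.H566

noncomputable section

/-! ## Tangent charts -/

/-- The tangent space `Der_k(R, k_x)` of `Spec R` at the `k`-point `x` has dimension `g`. -/
def TangentDim {k R : Type u} [Field k] [CommRing R] [Algebra k R] (x : R →ₐ[k] k) (g : ℕ) :
    Prop :=
  letI := pointModule x
  haveI := pointModule_isScalarTower x
  haveI := pointModule_smulCommClass x
  Module.finrank k (Derivation k R k) = g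

/-- `J` has an affine open chart `j : Spec R ↪ J` (over `k`) with a `k`-point at which the
tangent space has dimension `g`. -/
def HasTangentChart {k : Type u} [Field k] {J : Scheme.{u}} (f : J ⟶ Spec (CommRingCat.of k))
    (g : ℕ) : Prop :=
  ∃ (R : Type u) (_ : CommRing R) (_ : Algebra k R) (j : Spec (CommRingCat.of R) ⟶ J)
    (_ : IsOpenImmersion j) (_ : j ≫ f = specStr k R) (x : R →ₐ[k] k), TangentDim x g

/-! ## Square-zero extensions `k ⊕ V` -/

section Tsz

variable (k : Type u) [Field k] (V : Type u) [AddCommGroup V] [Module k V] [Module kᵐᵒᵖ V]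
  [IsCentralScalar k V]

/-- The augmentation `k ⊕ V → k`. -/
abbrev augHom : TrivSqZeroExt k V →ₐ[k] k := TrivSqZeroExt.fstHom k k V

/-- The structure map `k → k ⊕ V` as an algebra homomorphism. -/
abbrev inlHom : k →ₐ[k] TrivSqZeroExt k V := TrivSqZeroExt.inlAlgHom k k V

end Tsz

/-- The unit gluing datum over `k` of a chart. -/
abbrev unitK (k B₀ B₁ B₀₁ : Type u) [Field k] [CommRing B₀] [CommRing B₁] [CommRing B₀₁]
    [Algebra k B₀] [Algebra k B₁] [Algebra k B₀₁] [Algebra B₀ B₀₁] [Algebra B₁ B₀₁]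
    [IsScalarTower k B₀ B₀₁] [IsScalarTower k B₁ B₀₁] : CurveGD k B₀ B₁ B₀₁ k :=
  GlueDatum.unit k (k ⊗[k] B₀) (k ⊗[k] B₁) (k ⊗[k] B₀₁)

/-- The zero section of the Jacobian as a point over `specStr k k`. -/
def zeroPt {k : Type u} [Field k] {C : Scheme.{u}} {c : C ⟶ Spec (CommRingCat.of k)}
    (D : RelativePic0Designation k c) : SchemeHomOver (specStr k k) D.toBase :=
  ⟨D.zeroSection, D.zeroSection_toBase.trans (by
    rw [specStr, Algebra.algebraMap_self]
    exact (Spec.map_id _).symm)⟩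

namespace Stmt

/-! ## Mathlib-only leaves -/

section Scheme

variable (k : Type u) [Field k]

/-- **D1** (Mathlib only): a smooth connected `k`-scheme with a tangent chart of dimension `g`
is smooth of relative dimension `g`. -/
def D1 : Prop :=
  ∀ {J : Scheme.{u}} (f : J ⟶ Spec (CommRingCat.of k)) (g : ℕ), Smooth f → ConnectedSpace J →
    HasTangentChart f g → SmoothOfRelativeDimension g f

/-- **CHART-AT** (Mathlib only): every `k`-point of a `k`-scheme lies in an affine open chart. -/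
def ChartAt : Prop :=
  ∀ {J : Scheme.{u}} (f : J ⟶ Spec (CommRingCat.of k)) (z : Spec (CommRingCat.of k) ⟶ J),
    z ≫ f = 𝟙 _ →
    ∃ (R : Type u) (_ : CommRing R) (_ : Algebra k R) (j : Spec (CommRingCat.of R) ⟶ J)
      (_ : IsOpenImmersion j) (x : R →ₐ[k] k),
      j ≫ f = specStr k R ∧ Spec.map (CommRingCat.ofHom x.toRingHom) ≫ j = z

/-- **LOC** (Mathlib only): a point of `J` with values in an augmented `k`-algebra `A → k` with
nil kernel, whose restriction to `k` lies in the chart `Spec R`, lies in the chart. -/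
def Loc : Prop :=
  ∀ {J : Scheme.{u}} (f : J ⟶ Spec (CommRingCat.of k)) (R : Type u) [CommRing R] [Algebra k R]
    (j : Spec (CommRingCat.of R) ⟶ J) [IsOpenImmersion j] (_ : j ≫ f = specStr k R)
    (x : R →ₐ[k] k) (A : Type u) [CommRing A] [Algebra k A] (π : A →ₐ[k] k)
    (_ : ∀ a ∈ RingHom.ker π.toRingHom, IsNilpotent a)
    (t : SchemeHomOver (specStr k A) f),
    Spec.map (CommRingCat.ofHom π.toRingHom) ≫ t.1 =
      Spec.map (CommRingCat.ofHom x.toRingHom) ≫ j →
    ∃ φ : R →ₐ[k] A, t.1 = Spec.map (CommRingCat.ofHom φ.toRingHom) ≫ j ∧ π.comp φ = x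

end Scheme

/-! ## The points of the Jacobian with values in any `k`-algebra -/

section Points

variable (k : Type u) [Field k]

/-- **PTS-DICT-A**: for every `k`-algebra `A`, the `A`-points of the Jacobian are the
rigidifiable gluing data of degree zero over `A` up to isomorphism, compatibly with base
change; the zero section is the unit datum.  (Formal from the S25 dictionary on main:
`H505.dictSections`, `H505.dictGlue`, `H986.dictIso`, `H505.dictBC`, `Stmt.DictDeg`,
`H566.dictUnit`, and `hrep.univ`, `hrep.ext_of_iso`, `hrep.zero`.) -/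
def PtsDictA : Prop :=
  ∀ [IsAlgClosed k] {C : Scheme.{u}} (c : C ⟶ Spec (CommRingCat.of k))
    [IsProper c] [SmoothOfRelativeDimension 1 c] [IsIntegral C]
    (ε : SchemeHomOver (𝟙 (Spec (CommRingCat.of k))) c) (Ch : ChartOf c ε)
    (D : RelativePic0Designation k c)
    (hrep : RepresentsRelSubPic c ε (algEquivZeroCut c ε) D),
    (∀ (A : Type u) [CommRing A] [Algebra k A] (t : SchemeHomOver (specStr k A) D.toBase),
      ∃ G : CurveGD k Ch.B₀ Ch.B₁ Ch.B₀₁ A, Corr Ch A (hrep.poincare.pullbackAlong t).L G) ∧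
    (∀ (A : Type u) [CommRing A] [Algebra k A] (G : CurveGD k Ch.B₀ Ch.B₁ Ch.B₀₁ A),
      G.Rigidifiable Ch.e → G.Deg0 →
      ∃ t : SchemeHomOver (specStr k A) D.toBase,
        Corr Ch A (hrep.poincare.pullbackAlong t).L G) ∧
    (∀ (A : Type u) [CommRing A] [Algebra k A] (t t' : SchemeHomOver (specStr k A) D.toBase)
      (G G' : CurveGD k Ch.B₀ Ch.B₁ Ch.B₀₁ A),
      Corr Ch A (hrep.poincare.pullbackAlong t).L G →
      Corr Ch A (hrep.poincare.pullbackAlong t').L G' → (t = t' ↔ G.IsIso G')) ∧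
    (∀ (A A' : Type u) [CommRing A] [Algebra k A] [CommRing A'] [Algebra k A']
      (φ : A →ₐ[k] A') (t : SchemeHomOver (specStr k A) D.toBase)
      (G : CurveGD k Ch.B₀ Ch.B₁ Ch.B₀₁ A) (G' : CurveGD k Ch.B₀ Ch.B₁ Ch.B₀₁ A'),
      Corr Ch A (hrep.poincare.pullbackAlong t).L G → CurveGD.IsBC φ G G' →
      Corr Ch A' (hrep.poincare.pullbackAlong (postComp t (specHomOver k φ))).L G') ∧
    Corr Ch k (hrep.poincare.pullbackAlong (zeroPt D)).L (unitK k Ch.B₀ Ch.B₁ Ch.B₀₁)

end Points

/-! ## Pure algebra -/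

section Algebra

variable (k B₀ B₁ B₀₁ : Type u) [Field k] [CommRing B₀] [CommRing B₁] [CommRing B₀₁]
  [Algebra k B₀] [Algebra k B₁] [Algebra k B₀₁] [Algebra B₀ B₀₁] [Algebra B₁ B₀₁]
  [IsScalarTower k B₀ B₀₁] [IsScalarTower k B₁ B₀₁]

/-- **TWIST** (pure algebra, = D3): first-order deformations of the unit gluing datum.
`tw V ξ` is the unit datum over `k ⊕ V` with `r₁` twisted by the unit `1 + ξ`,
`ξ ∈ V ⊗ B₀₁ ⊆ (k ⊕ V) ⊗ B₀₁`.
* `rig`, `deg0`: it is rigidifiable and of degree zero;
* `red`: its reduction along `k ⊕ V → k` is the unit datum;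
* `ex`: every datum over `k ⊕ V` whose reduction is isomorphic to the unit datum is
  isomorphic to some `tw V ξ`;
* `bc`: base change along `k ⊕ V → k ⊕ V'` induced by a linear map `δ : V → V'`;
* `zero`: `tw k 0` is the base change of the unit datum along `k → k[ε]`;
* `iso`: over the dual numbers, `tw k ξ ≅ tw k ξ'` iff `ξ` and `ξ'` have the same class in
  `Ȟ¹` of the unit datum over `k`. -/
def Twist : Prop :=
  ∀ [IsAlgClosed k] (x : B₀) (y : B₁) (e : B₁ →ₐ[k] k), IsCurveChart k B₀ B₁ B₀₁ x y e →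
    ∃ tw : ∀ (V : Type u) [AddCommGroup V] [Module k V] [Module kᵐᵒᵖ V] [IsCentralScalar k V],
        (V ⊗[k] B₀₁) → CurveGD k B₀ B₁ B₀₁ (TrivSqZeroExt k V),
      (∀ (V : Type u) [AddCommGroup V] [Module k V] [Module kᵐᵒᵖ V] [IsCentralScalar k V]
        (ξ : V ⊗[k] B₀₁), (tw V ξ).Rigidifiable e ∧ (tw V ξ).Deg0 ∧
          CurveGD.IsBC (augHom k V) (tw V ξ) (unitK k B₀ B₁ B₀₁)) ∧
      (∀ (V : Type u) [AddCommGroup V] [Module k V] [Module kᵐᵒᵖ V] [IsCentralScalar k V]
        (G : CurveGD k B₀ B₁ B₀₁ (TrivSqZeroExt k V)) (G' : CurveGD k B₀ B₁ B₀₁ k),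
        CurveGD.IsBC (augHom k V) G G' → G'.IsIso (unitK k B₀ B₁ B₀₁) →
          ∃ ξ : V ⊗[k] B₀₁, G.IsIso (tw V ξ)) ∧
      (∀ (V : Type u) [AddCommGroup V] [Module k V] [Module kᵐᵒᵖ V] [IsCentralScalar k V]
        (V' : Type u) [AddCommGroup V'] [Module k V'] [Module kᵐᵒᵖ V'] [IsCentralScalar k V']
        (δ : V →ₗ[k] V') (ξ : V ⊗[k] B₀₁),
        CurveGD.IsBC (TrivSqZeroExt.map δ) (tw V ξ) (tw V' (LinearMap.rTensor B₀₁ δ ξ))) ∧
      CurveGD.IsBC (inlHom k k) (unitK k B₀ B₁ B₀₁) (tw k 0) ∧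
      ∀ ξ ξ' : k ⊗[k] B₀₁, (tw k ξ).IsIso (tw k ξ') ↔
        (Submodule.Quotient.mk ξ : (unitK k B₀ B₁ B₀₁).H1) = Submodule.Quotient.mk ξ'

end Algebra

/-! ## The tangent space of the Jacobian, and the block statement -/

section Jac

variable (k : Type u) [Field k]

/-- **TAN**: the Jacobian has a tangent chart of dimension `dim_k Ȟ¹(unit datum)`. -/
def Tan : Prop :=
  ∀ [IsAlgClosed k] {C : Scheme.{u}} (c : C ⟶ Spec (CommRingCat.of k))
    [IsProper c] [SmoothOfRelativeDimension 1 c] [IsIntegral C]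
    (ε : SchemeHomOver (𝟙 (Spec (CommRingCat.of k))) c) (Ch : ChartOf c ε)
    (D : RelativePic0Designation k c)
    (_ : RepresentsRelSubPic c ε (algEquivZeroCut c ε) D),
    Smooth D.toBase → IsProper D.toBase → GeometricallyConnected D.toBase →
      HasTangentChart D.toBase (Module.finrank k (unitK k Ch.B₀ Ch.B₁ Ch.B₀₁).H1)

/-- **MAIN** (= the leaf `Stmt.Dim k` of the row): the Jacobian of a curve is smooth of
relative dimension `dim_k Ȟ¹(O)`. -/
def Main : Prop :=
  ∀ [IsAlgClosed k] {C : Scheme.{u}} (c : C ⟶ Spec (CommRingCat.of k))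
    [IsProper c] [SmoothOfRelativeDimension 1 c] [IsIntegral C]
    (ε : SchemeHomOver (𝟙 (Spec (CommRingCat.of k))) c) (Ch : ChartOf c ε)
    (D : RelativePic0Designation k c)
    (_ : RepresentsRelSubPic c ε (algEquivZeroCut c ε) D),
    Smooth D.toBase → IsProper D.toBase → GeometricallyConnected D.toBase →
      SmoothOfRelativeDimension
        (Module.finrank k (GlueDatum.unit k (k ⊗[k] Ch.B₀) (k ⊗[k] Ch.B₁) (k ⊗[k] Ch.B₀₁)).H1)
        D.toBase

end Jac

end Stmt

end

end Fermat.Agent.S27.Dim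

end
-- ===== PACK-END S27/Dim/Spec.lean

-- ===== PACK-BEGIN S28/H386/Twist.lean
section
/-
S28 [L] toolkit (helper386): the twist automorphism `q ↦ ξ q` of `k((q))`.
-/



set_option autoImplicit false

noncomputable section

open ModularCurve HahnSeries Polynomial

namespace Fermat.Agent.S28.H386

variable {k : Type*} [Field k]

/-- Underlying function of the twist `f(q) ↦ f(ξ q)`. -/
def twistFun (ξ : kˣ) (f : LaurentSeries k) : LaurentSeries k where
  coeff n := ((ξ ^ n : kˣ) : k) * f.coeff n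
  isPWO_support' := f.isPWO_support.mono fun n hn => by
    simp only [Function.mem_support, ne_eq] at hn ⊢
    intro h
    exact hn (by rw [h, mul_zero])

@[simp] theorem twistFun_coeff (ξ : kˣ) (f : LaurentSeries k) (n : ℤ) :
    (_root_.Fermat.Agent.S28.H386.twistFun ξ f).coeff n = ((ξ ^ n : kˣ) : k) * f.coeff n := rfl

theorem support_twistFun (ξ : kˣ) (f : LaurentSeries k) :
    (_root_.Fermat.Agent.S28.H386.twistFun ξ f).support = f.support := by
  ext n
  simp only [HahnSeries.mem_support, _root_.Fermat.Agent.S28.H386.twistFun_coeff, ne_eq, mul_eq_zero, Units.ne_zero, false_or]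

/-- The twist `f(q) ↦ f(ξ q)` as a ring homomorphism of `k((q))`. -/
def twist (ξ : kˣ) : LaurentSeries k →+* LaurentSeries k where
  toFun := _root_.Fermat.Agent.S28.H386.twistFun ξ
  map_zero' := by ext n; simp
  map_one' := by
    ext n
    rw [_root_.Fermat.Agent.S28.H386.twistFun_coeff, HahnSeries.coeff_one]
    split_ifs with h
    · subst h; simp
    · simp
  map_add' x y := by ext n; simp [mul_add]
  map_mul' x y := by
    ext n
    rw [_root_.Fermat.Agent.S28.H386.twistFun_coeff, HahnSeries.coeff_mul, HahnSeries.coeff_mul, Finset.mul_sum]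
    refine Finset.sum_congr ?_ fun ij hij => ?_
    · ext ij
      rw [Finset.mem_antidiagonal, Finset.mem_antidiagonal, support_twistFun,
        support_twistFun]
    have hsum : ij.1 + ij.2 = n := (Finset.mem_antidiagonal.mp hij).2.2
    rw [_root_.Fermat.Agent.S28.H386.twistFun_coeff, _root_.Fermat.Agent.S28.H386.twistFun_coeff, ← hsum, zpow_add, Units.val_mul]
    ring

@[simp] theorem twist_coeff (ξ : kˣ) (f : LaurentSeries k) (n : ℤ) :
    (_root_.Fermat.Agent.S28.H386.twist ξ f).coeff n = ((ξ ^ n : kˣ) : k) * f.coeff n := rfl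

theorem twist_one (f : LaurentSeries k) : _root_.Fermat.Agent.S28.H386.twist (1 : kˣ) f = f := by
  ext n; simp

theorem twist_twist (ξ η : kˣ) (f : LaurentSeries k) :
    _root_.Fermat.Agent.S28.H386.twist ξ (_root_.Fermat.Agent.S28.H386.twist η f) = _root_.Fermat.Agent.S28.H386.twist (ξ * η) f := by
  ext n
  simp only [_root_.Fermat.Agent.S28.H386.twist_coeff, mul_zpow, Units.val_mul]
  ring

theorem twist_injective (ξ : kˣ) : Function.Injective (_root_.Fermat.Agent.S28.H386.twist (k := k) ξ) := by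
  intro f g h
  have := congrArg (_root_.Fermat.Agent.S28.H386.twist ξ⁻¹) h
  simpa [twist_twist, twist_one] using this

theorem twist_single (ξ : kˣ) (n : ℤ) (c : k) :
    _root_.Fermat.Agent.S28.H386.twist ξ (HahnSeries.single n c) = HahnSeries.single n (((ξ ^ n : kˣ) : k) * c) := by
  ext m
  rw [_root_.Fermat.Agent.S28.H386.twist_coeff]
  by_cases h : m = n
  · subst h; simp
  · simp [HahnSeries.coeff_single_of_ne h]

theorem twist_C (ξ : kˣ) (c : k) : _root_.Fermat.Agent.S28.H386.twist ξ (HahnSeries.C c) = HahnSeries.C c := by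
  rw [HahnSeries.C_apply, twist_single, zpow_zero, Units.val_one, one_mul]

/-- The twist fixes the range of `V_p` when `ξ ^ p = 1`. -/
theorem twist_qExpand (ξ : kˣ) (p : ℕ) [NeZero p] (hξ : ξ ^ p = 1) (f : LaurentSeries k) :
    _root_.Fermat.Agent.S28.H386.twist ξ (qExpand k p f) = qExpand k p f := by
  ext n
  rw [_root_.Fermat.Agent.S28.H386.twist_coeff]
  by_cases hd : (p : ℤ) ∣ n
  · obtain ⟨m, rfl⟩ := hd
    rw [zpow_mul, zpow_natCast, hξ, one_zpow, Units.val_one, one_mul]
  · rw [qExpand_coeff_of_not_dvd p f hd, mul_zero]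

/-- `twist` commutes with `V_d` up to raising `ξ` to the `d`-th power. -/
theorem qExpand_twist (ξ : kˣ) (d : ℕ) [NeZero d] (f : LaurentSeries k) :
    _root_.Fermat.Agent.S28.H386.twist ξ (qExpand k d f) = qExpand k d (_root_.Fermat.Agent.S28.H386.twist (ξ ^ d) f) := by
  ext n
  rw [_root_.Fermat.Agent.S28.H386.twist_coeff]
  by_cases hd : (d : ℤ) ∣ n
  · obtain ⟨m, rfl⟩ := hd
    rw [qExpand_coeff_mul, qExpand_coeff_mul, _root_.Fermat.Agent.S28.H386.twist_coeff, zpow_mul, zpow_natCast]
  · rw [qExpand_coeff_of_not_dvd d f hd, qExpand_coeff_of_not_dvd d _ hd, mul_zero]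

theorem twist_ne_zero (ξ : kˣ) {f : LaurentSeries k} (hf : f ≠ 0) : _root_.Fermat.Agent.S28.H386.twist ξ f ≠ 0 :=
  fun h => hf (twist_injective ξ (by rw [h, map_zero]))

theorem order_twist (ξ : kˣ) (f : LaurentSeries k) : (_root_.Fermat.Agent.S28.H386.twist ξ f).order = f.order := by
  by_cases hf : f = 0
  · simp [hf]
  refine order_eq_of_coeff ?_ ?_
  · rw [_root_.Fermat.Agent.S28.H386.twist_coeff]
    exact mul_ne_zero (Units.ne_zero _) (HahnSeries.coeff_order_eq_zero.not.mpr hf)
  · intro m hm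
    rw [_root_.Fermat.Agent.S28.H386.twist_coeff, HahnSeries.coeff_eq_zero_of_lt_order hm, mul_zero]

theorem coeff_twist_jqModC_neg_one (ξ : kˣ) :
    (_root_.Fermat.Agent.S28.H386.twist ξ (jqModC k)).coeff (-1) = ((ξ⁻¹ : kˣ) : k) := by
  rw [_root_.Fermat.Agent.S28.H386.twist_coeff, coeff_jqModC_neg_one, mul_one, zpow_neg_one]

end Fermat.Agent.S28.H386

end
end
-- ===== PACK-END S28/H386/Twist.lean

-- ===== PACK-BEGIN S30/H990/Limit.lean
section
/-
S30 top glue (helper990): the quadratic relation for every element of `G_ℚ`.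
* `adic_compactness`: a decreasing sequence of nonempty "closed" subsets of a complete ring with
  finite quotients `R ⧸ I ^ n` has a common point.
* `rel_mod_of_mul`: the quadratic relation is stable under multiplication by elements
  congruent to `1`.
* `exists_rel_of_mod`: relations modulo all `𝔪 ^ n` give an exact relation.
-/


set_option autoImplicit false

namespace Fermat.Agent.S30.H990

section Compactness

variable {R : Type*} [CommRing R] (I : Ideal R)

theorem adic_compactness [IsPrecomplete I R] (hfin : ∀ n, Finite (R ⧸ I ^ n))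
    (A : ℕ → Set R) (hne : ∀ n, (A n).Nonempty) (hanti : ∀ m n, m ≤ n → A n ⊆ A m)
    (hclosed : ∀ n a a', a ∈ A n → a' - a ∈ I ^ n → a' ∈ A n) :
    ∃ a, ∀ n, a ∈ A n := by
  classical
  -- `x` is approximable to order `n` by elements of all `A N`
  let Good : ℕ → R → Prop := fun n x => ∀ N, ∃ a ∈ A N, a - x ∈ I ^ n
  have good0 : Good 0 0 := by
    intro N
    obtain ⟨a, ha⟩ := hne N
    exact ⟨a, ha, by simp⟩
  have step : ∀ n x, Good n x → ∃ y, y - x ∈ I ^ n ∧ Good (n + 1) y := by
    intro n x hx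
    choose a ha hax using hx
    have := hfin (n + 1)
    obtain ⟨y₀, hy₀⟩ := Finite.exists_infinite_fiber
      (fun N : ℕ => Ideal.Quotient.mk (I ^ (n + 1)) (a N))
    have hinf : (((fun N : ℕ => Ideal.Quotient.mk (I ^ (n + 1)) (a N)) ⁻¹' {y₀}) : Set ℕ).Infinite :=
      Set.infinite_coe_iff.mp hy₀
    obtain ⟨N₀, hN₀⟩ := hinf.nonempty
    refine ⟨a N₀, hax N₀, fun N => ?_⟩
    obtain ⟨N', hN', hlt⟩ := hinf.exists_gt N
    refine ⟨a N', hanti N N' hlt.le (ha N'), ?_⟩
    rw [← Ideal.Quotient.eq]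
    have h1 : Ideal.Quotient.mk (I ^ (n + 1)) (a N') = y₀ := hN'
    have h2 : Ideal.Quotient.mk (I ^ (n + 1)) (a N₀) = y₀ := hN₀
    rw [h1, h2]
  let s : (n : ℕ) → {x : R // Good n x} := fun n =>
    Nat.rec (motive := fun n => {x : R // Good n x}) ⟨0, good0⟩
      (fun n prev => ⟨(step n prev.1 prev.2).choose, (step n prev.1 prev.2).choose_spec.2⟩) n
  have hs : ∀ n, (s (n + 1)).1 - (s n).1 ∈ I ^ n := fun n =>
    (step n (s n).1 (s n).2).choose_spec.1
  have hcauchy : ∀ m n, m ≤ n → (s n).1 - (s m).1 ∈ I ^ m := by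
    intro m n hmn
    induction n, hmn using Nat.le_induction with
    | base => simp
    | succ n hmn ih =>
      have h1 : (s (n + 1)).1 - (s n).1 ∈ I ^ m := Ideal.pow_le_pow_right hmn (hs n)
      have : (s (n + 1)).1 - (s m).1 = ((s (n + 1)).1 - (s n).1) + ((s n).1 - (s m).1) := by ring
      rw [this]
      exact (I ^ m).add_mem h1 ih
  obtain ⟨L, hL⟩ := IsPrecomplete.prec' (I := I) (M := R) (fun n => (s n).1) (by
    intro m n hmn
    rw [SModEq.sub_mem, smul_eq_mul, Ideal.mul_top]
    have := hcauchy m n hmn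
    rw [← neg_sub]
    exact (I ^ m).neg_mem this)
  refine ⟨L, fun n => ?_⟩
  obtain ⟨a, ha, hax⟩ := (s n).2 n
  refine hclosed n a L ha ?_
  have h1 := hL n
  rw [SModEq.sub_mem, smul_eq_mul, Ideal.mul_top] at h1
  have : L - a = -((s n).1 - L) - (a - (s n).1) := by ring
  rw [this]
  exact (I ^ n).sub_mem ((I ^ n).neg_mem h1) hax

end Compactness

section ModRel

variable {𝒪 M : Type*} [CommRing 𝒪] [AddCommGroup M] [Module 𝒪 M]

theorem map_mem_smul_top (I : Ideal 𝒪) (f : M →ₗ[𝒪] M) {x : M}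
    (hx : x ∈ I • (⊤ : Submodule 𝒪 M)) : f x ∈ I • (⊤ : Submodule 𝒪 M) := by
  refine Submodule.smul_induction_on hx ?_ ?_
  · intro r hr n _
    rw [map_smul]
    exact Submodule.smul_mem_smul hr Submodule.mem_top
  · intro x y hx hy
    rw [map_add]
    exact Submodule.add_mem _ hx hy

/-- The quadratic relation of `h` passes, modulo `I`, to `h * s` for `s ≡ 1` and `u ≡ 1`. -/
theorem rel_mod_of_mul (I : Ideal 𝒪) (h s : Module.End 𝒪 M) (t b u : 𝒪)
    (hrel : h * h - t • h + b • (1 : Module.End 𝒪 M) = 0)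
    (hs : ∀ v, s v - v ∈ I • (⊤ : Submodule 𝒪 M)) (hu : u - 1 ∈ I) (v : M) :
    (h * s) ((h * s) v) - t • (h * s) v + (b * u) • v ∈ I • (⊤ : Submodule 𝒪 M) := by
  have h0 : h (h v) - t • h v + b • v = 0 := by
    have := congrArg (fun f : Module.End 𝒪 M => f v) hrel
    simpa using this
  have key : (h * s) ((h * s) v) - t • (h * s) v + (b * u) • v
      = h (s (h v) - h v) + h (s (h (s v - v))) - t • h (s v - v) + (b * (u - 1)) • v := by
    simp only [Module.End.mul_apply, map_sub]
    rw [← sub_eq_zero]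
    rw [← h0]
    module
  rw [key]
  have m1 : s v - v ∈ I • (⊤ : Submodule 𝒪 M) := hs v
  have m2 : s (h v) - h v ∈ I • (⊤ : Submodule 𝒪 M) := hs (h v)
  refine Submodule.add_mem _ (Submodule.sub_mem _ (Submodule.add_mem _ ?_ ?_) ?_) ?_
  · exact map_mem_smul_top I h m2
  · exact map_mem_smul_top I h (map_mem_smul_top I s (map_mem_smul_top I h m1))
  · exact Submodule.smul_mem _ _ (map_mem_smul_top I h m1)
  · exact Submodule.smul_mem_smul (I.mul_mem_left _ hu) Submodule.mem_top

end ModRel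

section Exact

variable {𝒪 M G : Type*} [CommRing 𝒪] [IsLocalRing 𝒪] [IsNoetherianRing 𝒪]
  [IsPrecomplete (IsLocalRing.maximalIdeal 𝒪) 𝒪] [Finite (IsLocalRing.ResidueField 𝒪)]
  [AddCommGroup M] [Module 𝒪 M] [Module.Finite 𝒪 M] [Group G]

/-- Relations modulo all powers of the maximal ideal give an exact relation. -/
theorem exists_rel_of_mod (ρ : G →* Module.End 𝒪 M) (d : G →* 𝒪ˣ) (g : G)
    (hmod : ∀ n : ℕ, ∃ a : 𝒪, ∀ v : M,
      ρ g (ρ g v) - a • ρ g v + ((d g : 𝒪ˣ) : 𝒪) • v
        ∈ (IsLocalRing.maximalIdeal 𝒪 ^ n) • (⊤ : Submodule 𝒪 M)) :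
    ∃ a, Rel ρ d g a := by
  have hfin : ∀ n, Finite (𝒪 ⧸ IsLocalRing.maximalIdeal 𝒪 ^ n) := by
    intro n
    have : Finite (𝒪 ⧸ IsLocalRing.maximalIdeal 𝒪) :=
      (inferInstance : Finite (IsLocalRing.ResidueField 𝒪))
    exact Ideal.finite_quotient_pow (IsNoetherian.noetherian _) n
  obtain ⟨a, ha⟩ := adic_compactness (IsLocalRing.maximalIdeal 𝒪) hfin
    (fun n => {a : 𝒪 | ∀ v : M, ρ g (ρ g v) - a • ρ g v + ((d g : 𝒪ˣ) : 𝒪) • v
        ∈ (IsLocalRing.maximalIdeal 𝒪 ^ n) • (⊤ : Submodule 𝒪 M)})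
    (fun n => hmod n)
    (fun m n hmn a ha v =>
      Submodule.smul_mono_left (Ideal.pow_le_pow_right hmn) (ha v))
    (fun n a a' ha haa' v => by
      have : ρ g (ρ g v) - a' • ρ g v + ((d g : 𝒪ˣ) : 𝒪) • v
          = (ρ g (ρ g v) - a • ρ g v + ((d g : 𝒪ˣ) : 𝒪) • v) - (a' - a) • ρ g v := by
        module
      rw [this]
      exact Submodule.sub_mem _ (ha v) (Submodule.smul_mem_smul haa' Submodule.mem_top))
  refine ⟨a, ?_⟩
  unfold Rel
  ext v
  have hv : ρ g (ρ g v) - a • ρ g v + ((d g : 𝒪ˣ) : 𝒪) • v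
      ∈ ⨅ i : ℕ, (IsLocalRing.maximalIdeal 𝒪 ^ i) • (⊤ : Submodule 𝒪 M) := by
    rw [Submodule.mem_iInf]
    exact fun n => ha n v
  rw [Ideal.iInf_pow_smul_eq_bot_of_isLocalRing _ (IsLocalRing.maximalIdeal.isMaximal 𝒪).ne_top,
    Submodule.mem_bot] at hv
  simpa using hv

end Exact

end Fermat.Agent.S30.H990

end
-- ===== PACK-END S30/H990/Limit.lean

-- ===== PACK-BEGIN S31/H22/PowTr.lean
section


/-!
# S31 piece B (helper22): trace of a power from the characteristic polynomial (rank 2)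
-/

set_option autoImplicit false

open Polynomial

namespace Fermat.Agent.S31.H22

open Fermat.Agent.S31

theorem map_powTr {R R' : Type*} [CommRing R] [CommRing R'] (φ : R →+* R') (a d : R) (j : ℕ) :
    φ (powTr a d j) = powTr (φ a) (φ d) j := by
  induction j using Nat.strong_induction_on with
  | _ j ih =>
    match j, ih with
    | 0, _ => simp only [powTr, map_ofNat]
    | 1, _ => simp only [powTr]
    | (j + 2), ih =>
      simp only [powTr, map_sub, map_mul]
      rw [ih (j + 1) (by omega), ih j (by omega)]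

theorem trace_pow_of_charpoly {R : Type*} [CommRing R] {M : Type*} [AddCommGroup M] [Module R M]
    [Module.Free R M] [Module.Finite R M] (hrk : Module.finrank R M = 2) (f : Module.End R M)
    (a d : R) (h : f.charpoly = X ^ 2 - C a * X + C d) (j : ℕ) :
    LinearMap.trace R M (f ^ j) = powTr a d j := by
  rcases subsingleton_or_nontrivial R with hR | hR
  · exact Subsingleton.elim _ _
  -- Cayley–Hamilton
  have hCH : f ^ 2 - a • f + d • (1 : Module.End R M) = 0 := by
    have := LinearMap.aeval_self_charpoly f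
    rw [h] at this
    simpa [Algebra.smul_def, sub_eq_add_neg] using this
  have hrec : ∀ j : ℕ, f ^ (j + 2) = a • f ^ (j + 1) - d • f ^ j := by
    intro j
    have h2 : f ^ 2 = a • f - d • (1 : Module.End R M) := by
      have := hCH
      rw [sub_add_eq_add_sub, sub_eq_zero] at this
      rw [← this]; simp
    calc f ^ (j + 2) = f ^ j * f ^ 2 := by rw [pow_add]
      _ = f ^ j * (a • f - d • (1 : Module.End R M)) := by rw [h2]
      _ = a • f ^ (j + 1) - d • f ^ j := by
          rw [mul_sub, mul_smul_comm, mul_smul_comm, mul_one, pow_succ]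
  -- trace of f
  have htr1 : LinearMap.trace R M f = a := by
    classical
    let b := Module.Free.chooseBasis R M
    have hcard : Fintype.card (Module.Free.ChooseBasisIndex R M) = 2 := by
      rw [← Module.finrank_eq_card_chooseBasisIndex, hrk]
    have : Nonempty (Module.Free.ChooseBasisIndex R M) := by
      rw [← Fintype.card_pos_iff, hcard]; norm_num
    rw [LinearMap.trace_eq_matrix_trace R b f, Matrix.trace_eq_neg_charpoly_coeff,
      LinearMap.charpoly_toMatrix f b, h, hcard]
    simp [coeff_C]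
  induction j using Nat.strong_induction_on with
  | _ j ih =>
    match j, ih with
    | 0, _ =>
      simp only [pow_zero, powTr]
      rw [LinearMap.trace_one, hrk]; norm_num
    | 1, _ => simpa [powTr] using htr1
    | (j + 2), ih =>
      rw [hrec, map_sub, map_smul, map_smul, ih (j + 1) (by omega), ih j (by omega)]
      simp [powTr]

end Fermat.Agent.S31.H22

end
-- ===== PACK-END S31/H22/PowTr.lean

-- ===== PACK-BEGIN S22/H262/Cocycle2.lean
section


set_option autoImplicit false

/-!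
# Further properties of the Eichler cocycle: upper triangular matrices, additivity
-/

open Complex Filter Function Metric Set
open UpperHalfPlane hiding I
open scoped Real Topology Manifold ModularForm MatrixGroups

namespace Fermat.Agent.S22.H262

theorem bigG_add (n : ℕ) (E₁ E₂ : ℕ → ℍ → ℂ) (z : ℍ) (v : ℂ × ℂ) :
    bigG n (E₁ + E₂) z v = bigG n E₁ z v + bigG n E₂ z v := by
  simp only [bigG, Pi.add_apply, ← Finset.sum_add_distrib]
  refine Finset.sum_congr rfl fun j _ => ?_
  ring

theorem bigG_smul (n : ℕ) (c : ℂ) (E : ℕ → ℍ → ℂ) (z : ℍ) (v : ℂ × ℂ) :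
    bigG n (c • E) z v = c * bigG n E z v := by
  simp only [bigG, Pi.smul_apply, smul_eq_mul, Finset.mul_sum]
  refine Finset.sum_congr rfl fun j _ => ?_
  ring

theorem bigG_zero (n : ℕ) (z : ℍ) (v : ℂ × ℂ) : bigG n 0 z v = 0 := by
  simp [bigG]

theorem bigG_sum {ι : Type*} (n : ℕ) (s : Finset ι) (E : ι → ℕ → ℍ → ℂ) (z : ℍ) (v : ℂ × ℂ) :
    bigG n (∑ i ∈ s, E i) z v = ∑ i ∈ s, bigG n (E i) z v := by
  classical
  induction s using Finset.induction_on with
  | empty => simp [bigG_zero]
  | insert a s ha ih => rw [Finset.sum_insert ha, Finset.sum_insert ha, bigG_add, ih]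

/-- On the "diagonal" `v = (z y, y)` only the top term of `bigG` survives. -/
theorem bigG_diag (n : ℕ) (E : ℕ → ℍ → ℂ) (z : ℍ) (y : ℂ) :
    bigG n E z ((z : ℂ) * y, y) = (n.factorial : ℂ) * E (n + 1) z * y ^ n := by
  unfold bigG
  rw [Finset.sum_range_succ, Finset.sum_eq_zero]
  · simp [Nat.descFactorial_self]
  · intro j hj
    have hj' : j < n := Finset.mem_range.mp hj
    have : n - j ≠ 0 := by omega
    simp [this]

theorem cocyc_add (n : ℕ) {h₁ h₂ : ℍ → ℂ} (A : GL (Fin 2) ℝ) (h1 : HasTower h₁)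
    (h2 : HasTower h₂) (h1A : HasTower (h₁ ∣[(n : ℤ) + 2] A))
    (h2A : HasTower (h₂ ∣[(n : ℤ) + 2] A)) (v : ℂ × ℂ) :
    cocyc n (h₁ + h₂) A v = cocyc n h₁ A v + cocyc n h₂ A v := by
  unfold cocyc
  rw [SlashAction.add_slash, tower_add h1 h2, tower_add h1A h2A, bigG_add, bigG_add]
  ring

theorem cocyc_smul (n : ℕ) {h : ℍ → ℂ} (A : GL (Fin 2) ℝ) (hA : 0 < A.det.val)
    (hh : HasTower h) (hhA : HasTower (h ∣[(n : ℤ) + 2] A)) (c : ℂ) (v : ℂ × ℂ) :
    cocyc n (c • h) A v = c * cocyc n h A v := by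
  unfold cocyc
  have hs : (c • h) ∣[(n : ℤ) + 2] A = c • (h ∣[(n : ℤ) + 2] A) := by
    rw [ModularForm.smul_slash, UpperHalfPlane.σ, if_pos hA]
    rfl
  rw [hs, tower_smul hh, tower_smul hhA, bigG_smul, bigG_smul]
  ring

theorem cocyc_sum {ι : Type*} (n : ℕ) (s : Finset ι) (h : ι → ℍ → ℂ) (A : GL (Fin 2) ℝ)
    (hh : ∀ i ∈ s, HasTower (h i)) (hhA : ∀ i ∈ s, HasTower (h i ∣[(n : ℤ) + 2] A))
    (v : ℂ × ℂ) :
    cocyc n (∑ i ∈ s, h i) A v = ∑ i ∈ s, cocyc n (h i) A v := by
  unfold cocyc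
  rw [SlashAction.sum_slash, (tower_sum s h hh).2,
    (tower_sum s (fun i => h i ∣[(n : ℤ) + 2] A) hhA).2, bigG_sum, bigG_sum,
    ← Finset.sum_sub_distrib]

/-- The explicit tower of `h ∣[k] δ` for an upper triangular `δ` with positive determinant. -/
theorem IsTower.slash_upper (n : ℕ) {h : ℍ → ℂ} {E : ℕ → ℍ → ℂ} (hE : IsTower h E)
    (δ : GL (Fin 2) ℝ) (hδ : 0 < δ.det.val) (h10 : δ 1 0 = 0) :
    IsTower (h ∣[(n : ℤ) + 2] δ) (fun r z =>
      (δ.det.val : ℂ) ^ (n + 1) * ((δ 1 1 : ℝ) : ℂ)⁻¹ ^ (n + 2) *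
        (((δ 1 1 : ℝ) : ℂ) ^ 2 / (δ.det.val : ℂ)) ^ r * E r (δ • z)) where
  zero := by
    funext z
    rw [ModularForm.slash_apply, UpperHalfPlane.σ, if_pos hδ]
    simp only [ContinuousAlgEquiv.refl_apply, abs_of_pos hδ, pow_zero, mul_one, hE.zero]
    have e1 : ((n : ℤ) + 2 - 1) = ((n + 1 : ℕ) : ℤ) := by push_cast; ring
    have e2 : -((n : ℤ) + 2) = -((n + 2 : ℕ) : ℤ) := by push_cast; ring
    have hden : denom δ z = ((δ 1 1 : ℝ) : ℂ) := by simp [denom, h10]
    rw [e1, e2, zpow_natCast, zpow_neg, zpow_natCast, hden, inv_pow]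
    ring
  hasDeriv r z := by
    have h1 : HasDerivAt (E (r + 1) ∘ ofComplex) (E r (δ • z)) ((δ • z : ℍ) : ℂ) :=
      hE.hasDeriv r (δ • z)
    have h2 : HasDerivAt (fun w : ℂ => ((δ • ofComplex w : ℍ) : ℂ))
        (δ.det.val / denom δ z ^ 2) (z : ℂ) := (hasStrictDerivAt_smul hδ z).hasDerivAt
    have h3 := h1.comp_of_eq (x := (z : ℂ)) h2 (by simp)
    have h4 := h3.const_mul ((δ.det.val : ℂ) ^ (n + 1) * ((δ 1 1 : ℝ) : ℂ)⁻¹ ^ (n + 2) *
        (((δ 1 1 : ℝ) : ℂ) ^ 2 / (δ.det.val : ℂ)) ^ (r + 1))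
    have hden : denom δ z = ((δ 1 1 : ℝ) : ℂ) := by simp [denom, h10]
    have hdet : (δ.det.val : ℂ) ≠ 0 := by exact_mod_cast hδ.ne'
    have hd : ((δ 1 1 : ℝ) : ℂ) ≠ 0 := by
      rw [← hden]
      exact denom_ne_zero δ z
    refine (h4.congr_deriv ?_).congr_of_eventuallyEq ?_
    · rw [hden, pow_succ (((δ 1 1 : ℝ) : ℂ) ^ 2 / (δ.det.val : ℂ)) r]
      field_simp
    · filter_upwards with w
      simp [Function.comp_def]
  isZero r := by
    have h1 : Tendsto (fun z : ℍ => E (r + 1) (δ • z)) atImInfty (𝓝 0) :=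
      (hE.isZero r).comp (tendsto_smul_atImInfty h10)
    have h2 := h1.const_mul ((δ.det.val : ℂ) ^ (n + 1) * ((δ 1 1 : ℝ) : ℂ)⁻¹ ^ (n + 2) *
        (((δ 1 1 : ℝ) : ℂ) ^ 2 / (δ.det.val : ℂ)) ^ (r + 1))
    rw [mul_zero] at h2
    exact h2

theorem HasTower.slash_upper (n : ℕ) {h : ℍ → ℂ} (hh : HasTower h)
    (δ : GL (Fin 2) ℝ) (hδ : 0 < δ.det.val) (h10 : δ 1 0 = 0) :
    HasTower (h ∣[(n : ℤ) + 2] δ) :=
  ⟨_, hh.isTower.slash_upper n δ hδ h10⟩

/-- The cocycle vanishes on upper triangular matrices. -/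
theorem cocyc_upper (n : ℕ) {h : ℍ → ℂ} (hh : HasTower h)
    (δ : GL (Fin 2) ℝ) (hδ : 0 < δ.det.val) (h10 : δ 1 0 = 0) (v : ℂ × ℂ) :
    cocyc n h δ v = 0 := by
  unfold cocyc
  rw [(hh.isTower.slash_upper n δ hδ h10).tower_eq, sub_eq_zero]
  unfold bigG
  refine Finset.sum_congr rfl fun j hj => ?_
  have hj' : j ≤ n := Nat.lt_succ_iff.mp (Finset.mem_range.mp hj)
  have hden : denom δ UpperHalfPlane.I = ((δ 1 1 : ℝ) : ℂ) := by simp [denom, h10]
  have hdet : (δ.det.val : ℂ) ≠ 0 := by exact_mod_cast hδ.ne'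
  have hd : ((δ 1 1 : ℝ) : ℂ) ≠ 0 := by
    rw [← hden]
    exact denom_ne_zero δ _
  rw [actV_sub δ hδ, hden]
  have hv2 : (actV δ v).2 = ((δ 1 1 : ℝ) : ℂ) * v.2 := by simp [actV, h10]
  rw [hv2]
  obtain ⟨m, rfl⟩ : ∃ m, n = j + m := ⟨n - j, by omega⟩
  simp only [Nat.add_sub_cancel_left, div_pow, mul_pow, inv_pow]
  field_simp
  ring

end Fermat.Agent.S22.H262

end
-- ===== PACK-END S22/H262/Cocycle2.lean

-- ===== PACK-BEGIN S35/H991/Flat.lean
section
/-
S35 mid layer (helper991): the flatness bridge.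

`exists_lTensor_subtype_eq`: let `J` be an abelian group with finite `m`-torsion, `f c : J → J' c`
a family of additive maps and `K ≤ J` a subgroup containing every `m`-torsion element killed by
all the `f c`.  Then every `m`-torsion element of `O ⊗ J` killed by all the `1 ⊗ f c` comes from
`O ⊗ K` (`O` flat over `ℤ`).
-/


set_option autoImplicit false

namespace Fermat.Agent.S35.H991

open TensorProduct

section Pi

variable (O : Type*) [CommRing O]
variable {I : Type*} [Finite I] {M : I → Type*} [∀ i, AddCommGroup (M i)]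

/-- An element of `O ⊗ ∏ M i` (finite product) all of whose components vanish is zero. -/
theorem eq_zero_of_proj_lTensor_eq_zero (z : O ⊗[ℤ] (∀ i, M i))
    (hz : ∀ i, (LinearMap.proj (R := ℤ) (φ := M) i).lTensor O z = 0) : z = 0 := by
  classical
  have : Fintype I := Fintype.ofFinite I
  have h1 : TensorProduct.piRight ℤ ℤ O M z = 0 := by
    funext i
    have h2 : ∀ w : O ⊗[ℤ] (∀ i, M i),
        TensorProduct.piRight ℤ ℤ O M w i = (LinearMap.proj (R := ℤ) (φ := M) i).lTensor O w := by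
      intro w
      induction w using TensorProduct.induction_on with
      | zero => simp
      | tmul x g => simp
      | add a b ha hb => rw [map_add, map_add, Pi.add_apply, ha, hb]
    rw [h2, hz i]
    rfl
  exact (TensorProduct.piRight ℤ ℤ O M).injective (by rw [h1, map_zero])

end Pi

section Flat

variable (O : Type*) [CommRing O] [Module.Flat ℤ O]
variable {J : Type*} [AddCommGroup J]

/-- **Flatness bridge.** -/
theorem exists_lTensor_subtype_eq (m : ℕ) (hfin : {x : J | m • x = 0}.Finite)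
    {C : Type*} {J' : C → Type*} [∀ c, AddCommGroup (J' c)] (f : ∀ c, J →ₗ[ℤ] J' c)
    (K : Submodule ℤ J) (hK : ∀ x : J, m • x = 0 → (∀ c, f c x = 0) → x ∈ K)
    (y : O ⊗[ℤ] J) (hy : (m : ℤ) • y = 0) (hfy : ∀ c, (f c).lTensor O y = 0) :
    ∃ s : O ⊗[ℤ] K, K.subtype.lTensor O s = y := by
  classical
  -- step 1: `y` comes from `O ⊗ J[m]`
  set Jm := LinearMap.ker ((m : ℤ) • (LinearMap.id : J →ₗ[ℤ] J)) with hJm
  obtain ⟨y', hy'⟩ := Fermat.Agent.S30.H529.exists_lTensor_eq_of_smul_eq_zero O (m : ℤ) y hy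
  have hmem : ∀ x : J, x ∈ Jm ↔ m • x = 0 := by
    intro x
    rw [hJm, LinearMap.mem_ker, LinearMap.smul_apply, LinearMap.id_apply, natCast_zsmul]
  have hJmfin : Finite Jm := by
    have : (Jm : Set J) = {x : J | m • x = 0} := by
      ext x
      exact hmem x
    exact Set.finite_coe_iff.mpr (this ▸ hfin)
  -- step 2: finitely many of the maps suffice
  have hex : ∀ x : {x : Jm // (x : J) ∉ K}, ∃ c : C, f c (x : Jm) ≠ 0 := by
    rintro ⟨x, hx⟩
    by_contra hcon
    push Not at hcon
    exact hx (hK x ((hmem x).mp x.2) hcon)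
  choose c hc using hex
  let F : Jm →ₗ[ℤ] (∀ x : {x : Jm // (x : J) ∉ K}, J' (c x)) :=
    LinearMap.pi fun x => (f (c x)).comp Jm.subtype
  have hFK : ∀ z : Jm, F z = 0 → (z : J) ∈ K := by
    intro z hz
    by_contra hzK
    have := congrFun hz ⟨z, hzK⟩
    exact hc ⟨z, hzK⟩ this
  -- step 3: flatness
  have hexact := Module.Flat.lTensor_exact O (LinearMap.exact_subtype_ker_map F)
  have hFy : F.lTensor O y' = 0 := by
    apply eq_zero_of_proj_lTensor_eq_zero O
    intro x
    have h1 : (LinearMap.proj (R := ℤ) (φ := fun x : {x : Jm // (x : J) ∉ K} => J' (c x)) x).comp F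
        = (f (c x)).comp Jm.subtype := by
      apply LinearMap.ext
      intro z
      rfl
    rw [← LinearMap.comp_apply, ← LinearMap.lTensor_comp, h1, LinearMap.lTensor_comp,
      LinearMap.comp_apply, hy', hfy]
  obtain ⟨s', hs'⟩ := (hexact y').mp hFy
  -- step 4: push to `K`
  let incl : LinearMap.ker F →ₗ[ℤ] K :=
    { toFun := fun z => ⟨((z : Jm) : J), hFK z z.2⟩
      map_add' := fun a b => rfl
      map_smul' := fun r a => rfl }
  refine ⟨incl.lTensor O s', ?_⟩
  have h2 : K.subtype.comp incl = Jm.subtype.comp (LinearMap.ker F).subtype := by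
    apply LinearMap.ext
    intro z
    rfl
  rw [← LinearMap.comp_apply, ← LinearMap.lTensor_comp, h2, LinearMap.lTensor_comp,
    LinearMap.comp_apply, hs', hy']

end Flat

end Fermat.Agent.S35.H991

end
-- ===== PACK-END S35/H991/Flat.lean

-- ===== PACK-BEGIN Lib/Newform/H683/XDeplete.lean
section
/-
NEWFORM library, block X (helper683) — **X5 Deplete**: multiplying the Dirichlet series of a
normalized eigenform by the Euler polynomials at the primes of a finite set `T` removes the
coefficients `a_n` with `gcd(n, T) ≠ 1`.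

`deplete_of : DirichletSeries → Deplete` (frozen interface `H958/X/Spec.lean`).
-/



set_option autoImplicit false

open CongruenceSubgroup UpperHalfPlane Complex Polynomial ModularFormClass

namespace Fermat.Agent.Lib.Newform.H683

open Fermat.Agent.Lib.Newform.H958.X

/-! ### Shifting a Dirichlet series by a prime -/

/-- the shift `b ↦ (n ↦ [p ∣ n] b (n / p))` on coefficient sequences -/
def dShift (p : ℕ) (b : ℕ → ℂ) (n : ℕ) : ℂ := if p ∣ n then b (n / p) else 0

theorem dShift_mul {p : ℕ} (hp : 0 < p) (b : ℕ → ℂ) (m : ℕ) : dShift p b (m * p) = b m := by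
  simp [dShift, Nat.mul_div_cancel m hp]

theorem dShift_of_not_dvd {p : ℕ} (b : ℕ → ℂ) {n : ℕ} (h : ¬ p ∣ n) : dShift p b n = 0 := by
  simp [dShift, h]

theorem hasSum_dShift {p : ℕ} (hp : 0 < p) (b : ℕ → ℂ) (s L : ℂ)
    (h : HasSum (fun n : ℕ => b n / (n : ℂ) ^ s) L) :
    HasSum (fun n : ℕ => dShift p b n / (n : ℂ) ^ s) ((p : ℂ) ^ (-s) * L) := by
  have hinj : Function.Injective (fun m : ℕ => m * p) := fun a c hac =>
    Nat.eq_of_mul_eq_mul_right hp hac
  have hzero : ∀ x : ℕ, x ∉ Set.range (fun m : ℕ => m * p) →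
      dShift p b x / (x : ℂ) ^ s = 0 := by
    intro x hx
    have : ¬ p ∣ x := fun ⟨m, hm⟩ => hx ⟨m, by simp [hm, mul_comm]⟩
    simp [dShift, this]
  rw [← hinj.hasSum_iff hzero]
  have hfun : ((fun n : ℕ => dShift p b n / (n : ℂ) ^ s) ∘ fun m : ℕ => m * p)
      = fun m : ℕ => (p : ℂ) ^ (-s) * (b m / (m : ℂ) ^ s) := by
    funext m
    simp only [Function.comp_apply, dShift_mul hp]
    rw [Nat.cast_mul, natCast_mul_natCast_cpow, cpow_neg]
    field_simp
  rw [hfun]
  exact h.mul_left _

/-! ### The local relation -/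

/-- the depleted coefficient sequence -/
noncomputable def depl (T : Finset ℕ) (a : ℕ → ℂ) (n : ℕ) : ℂ :=
  haveI : Decidable (∀ p ∈ T, ¬ p ∣ n) := Classical.dec _
  if ∀ p ∈ T, ¬ p ∣ n then a n else 0

theorem depl_pos {T : Finset ℕ} {a : ℕ → ℂ} {n : ℕ} (h : ∀ p ∈ T, ¬ p ∣ n) :
    depl T a n = a n := by
  unfold depl; exact if_pos h

theorem depl_neg {T : Finset ℕ} {a : ℕ → ℂ} {n : ℕ} (h : ¬ ∀ p ∈ T, ¬ p ∣ n) :
    depl T a n = 0 := by
  unfold depl; exact if_neg h

theorem depl_insert_eq {N : ℕ} (f : CuspForm (Gamma0 N) 2) (hf : f.IsNormalizedEigenform)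
    (T : Finset ℕ) (hT : ∀ q ∈ T, q.Prime) {p : ℕ} (hp : p.Prime) (hpT : p ∉ T) (n : ℕ) :
    depl (insert p T) (qCoeff ⇑f) n =
      depl T (qCoeff ⇑f) n - qCoeff ⇑f p * dShift p (depl T (qCoeff ⇑f)) n
        + (if p ∣ N then 0 else (p : ℂ)) * dShift p (dShift p (depl T (qCoeff ⇑f))) n := by
  have hcond : ∀ m : ℕ, (∀ q ∈ T, ¬ q ∣ m * p) ↔ (∀ q ∈ T, ¬ q ∣ m) := by
    intro m
    refine forall₂_congr (fun q hq => ?_)
    have hqp : ¬ q ∣ p := fun h =>
      hpT (((Nat.prime_dvd_prime_iff_eq (hT q hq) hp).mp h) ▸ hq)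
    constructor
    · exact fun h h' => h (Dvd.dvd.mul_right h' p)
    · intro h h'
      rcases ((hT q hq).dvd_mul).mp h' with h1 | h1
      · exact h h1
      · exact hqp h1
  by_cases hpn : p ∣ n
  · obtain ⟨m, rfl⟩ := hpn
    have hins : ¬ (∀ q ∈ insert p T, ¬ q ∣ p * m) := fun h =>
      h p (Finset.mem_insert_self p T) (dvd_mul_right p m)
    rw [depl_neg hins, mul_comm p m, dShift_mul hp.pos]
    by_cases hpN : p ∣ N
    · have r := coeff_mul_prime_of_dvd hf hp hpN m
      rw [if_pos hpN, zero_mul, add_zero]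
      by_cases hm : ∀ q ∈ T, ¬ q ∣ m
      · rw [depl_pos ((hcond m).mpr hm), depl_pos hm, r]; ring
      · rw [depl_neg (fun h => hm ((hcond m).mp h)), depl_neg hm]; ring
    · have r := coeff_mul_prime_of_not_dvd hf hp hpN m
      rw [if_neg hpN]
      by_cases hpm : p ∣ m
      · obtain ⟨m', rfl⟩ := hpm
        rw [mul_comm p m'] at r ⊢
        rw [if_pos (dvd_mul_left p m'), Nat.mul_div_cancel m' hp.pos] at r
        rw [dShift_mul hp.pos, dShift_mul hp.pos]
        by_cases hm : ∀ q ∈ T, ¬ q ∣ m'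
        · have hm1 : ∀ q ∈ T, ¬ q ∣ m' * p := (hcond m').mpr hm
          have hm2 : ∀ q ∈ T, ¬ q ∣ m' * p * p := (hcond (m' * p)).mpr hm1
          rw [depl_pos hm2, depl_pos hm1, depl_pos hm]
          linear_combination (-1 : ℂ) * r
        · have hm1 : ¬ ∀ q ∈ T, ¬ q ∣ m' * p := fun h => hm ((hcond m').mp h)
          have hm2 : ¬ ∀ q ∈ T, ¬ q ∣ m' * p * p := fun h => hm1 ((hcond (m' * p)).mp h)
          rw [depl_neg hm2, depl_neg hm1, depl_neg hm]; ring
      · rw [if_neg hpm, add_zero] at r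
        rw [dShift_mul hp.pos, dShift_of_not_dvd _ hpm, mul_zero, add_zero]
        by_cases hm : ∀ q ∈ T, ¬ q ∣ m
        · rw [depl_pos ((hcond m).mpr hm), depl_pos hm, r]; ring
        · rw [depl_neg (fun h => hm ((hcond m).mp h)), depl_neg hm]; ring
  · have hiff : (∀ q ∈ insert p T, ¬ q ∣ n) ↔ (∀ q ∈ T, ¬ q ∣ n) := by
      constructor
      · exact fun h q hq => h q (Finset.mem_insert_of_mem hq)
      · intro h q hq
        rcases Finset.mem_insert.mp hq with rfl | hq
        · exact hpn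
        · exact h q hq
    rw [dShift_of_not_dvd _ hpn, dShift_of_not_dvd _ hpn, mul_zero, mul_zero, sub_zero, add_zero]
    by_cases hm : ∀ q ∈ T, ¬ q ∣ n
    · rw [depl_pos (hiff.mpr hm), depl_pos hm]
    · rw [depl_neg (fun h => hm (hiff.mp h)), depl_neg hm]

/-- the Spec's depleted sequence is `depl` -/
theorem ite_eq_depl (T : Finset ℕ) (a : ℕ → ℂ) (n : ℕ) [Decidable (∀ p ∈ T, ¬ p ∣ n)] :
    (if ∀ p ∈ T, ¬ p ∣ n then a n else 0) = depl T a n := by
  by_cases h : ∀ p ∈ T, ¬ p ∣ n
  · rw [if_pos h, depl_pos h]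
  · rw [if_neg h, depl_neg h]

theorem eval_eulerPoly (N : ℕ) (a : ℕ → ℂ) (p : ℕ) (x : ℂ) :
    (eulerPoly N a p).eval x = 1 - a p * x + (if p ∣ N then 0 else (p : ℂ)) * x ^ 2 := by
  unfold eulerPoly
  by_cases h : p ∣ N
  · simp [h]
  · simp [h]

/-- **X5 Deplete**, from the Dirichlet series `X4`. -/
theorem deplete_of (h4 : DirichletSeries) : Deplete := by
  classical
  intro N _ f hf T
  induction T using Finset.induction_on with
  | empty =>
    intro _ s hs
    simpa using h4 N f s hs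
  | insert p T hpT ih =>
    intro hT s hs
    have hp : p.Prime := hT p (Finset.mem_insert_self p T)
    have hT' : ∀ q ∈ T, q.Prime := fun q hq => hT q (Finset.mem_insert_of_mem hq)
    have h0 := ih hT' s hs
    set L : ℂ := Lam f s * (2 / Gammaℂ s) *
      ∏ q ∈ T, (eulerPoly N (qCoeff ⇑f) q).eval ((q : ℂ) ^ (-s)) with hL
    have hb : HasSum (fun n : ℕ => depl T (qCoeff ⇑f) n / (n : ℂ) ^ s) L := by
      convert h0 using 2 with n
      rw [ite_eq_depl]
    have hb1 := hasSum_dShift hp.pos _ s L hb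
    have hb2 := hasSum_dShift hp.pos _ s _ hb1
    have hsum := (hb.sub (hb1.mul_left (qCoeff ⇑f p))).add
      (hb2.mul_left (if p ∣ N then 0 else (p : ℂ)))
    have hfun : (fun n : ℕ => (if ∀ q ∈ insert p T, ¬ q ∣ n then qCoeff ⇑f n else 0)
        / (n : ℂ) ^ s) =
        fun n : ℕ => depl T (qCoeff ⇑f) n / (n : ℂ) ^ s
          - qCoeff ⇑f p * (dShift p (depl T (qCoeff ⇑f)) n / (n : ℂ) ^ s)
          + (if p ∣ N then 0 else (p : ℂ)) *
              (dShift p (dShift p (depl T (qCoeff ⇑f))) n / (n : ℂ) ^ s) := by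
      funext n
      rw [ite_eq_depl, depl_insert_eq f hf T hT' hp hpT n]
      ring
    rw [hfun, Finset.prod_insert hpT, eval_eulerPoly]
    have hval : (L - qCoeff ⇑f p * ((p : ℂ) ^ (-s) * L)
        + (if p ∣ N then 0 else (p : ℂ)) * ((p : ℂ) ^ (-s) * ((p : ℂ) ^ (-s) * L)))
        = Lam f s * (2 / Gammaℂ s) *
          ((1 - qCoeff ⇑f p * (p : ℂ) ^ (-s)
              + (if p ∣ N then 0 else (p : ℂ)) * ((p : ℂ) ^ (-s)) ^ 2) *
            ∏ q ∈ T, (eulerPoly N (qCoeff ⇑f) q).eval ((q : ℂ) ^ (-s))) := by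
      rw [hL]; ring
    rw [hval] at hsum
    exact hsum

end Fermat.Agent.Lib.Newform.H683

end
-- ===== PACK-END Lib/Newform/H683/XDeplete.lean

-- ===== PACK-BEGIN Lib/Newform/H16/XFricke.lean
section



/-!
# NEWFORM block X (helper16): the Fricke leaves `X1`, `X1b`, `X1c`

The Fricke matrix `W_N = [[0, -1], [N, 0]]` is the Atkin–Lehner matrix at `q = N` for the level
`N * 1`, so all three leaves follow from the Atkin–Lehner calculus of `H923/AL.lean`:

* `frickeOp     : H958.X.FrickeOp`     (`f ∣[2] W_N` is a cusp form on `Γ₀(N)`),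
* `frickeInvol  : H958.X.FrickeInvol`  (`W_N² = -N`, scalars act trivially in weight `2`),
* `frickeHecke  : H958.X.FrickeHecke`  (`T_ℓ` commutes with `W_N`, `ℓ ∤ N`).
-/

set_option autoImplicit false

noncomputable section

namespace Fermat.Agent.Lib.Newform.H16

open Matrix UpperHalfPlane ModularForm CongruenceSubgroup ConjAct
open scoped MatrixGroups ModularForm Pointwise
open Fermat.Agent.Lib.Newform

theorem isInt_frickeMatrix (N : ℕ) [NeZero N] :
    H923.IsInt (H958.X.frickeMatrix N) 0 (-1) N 0 := by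
  unfold H923.IsInt H958.X.frickeMatrix
  simp

/-- The Fricke matrix is the Atkin–Lehner matrix at `q = N` for the level `N * 1`. -/
theorem isAL_frickeMatrix (N : ℕ) [NeZero N] : H923.IsAL N 1 (H958.X.frickeMatrix N) := by
  refine ⟨0, -1, 1, 0, ?_, by norm_num⟩
  have h := isInt_frickeMatrix N
  unfold H923.IsInt at h ⊢
  rw [h]
  simp

theorem invUnder_mul_one {N : ℕ} {k : ℤ} {f : ℍ → ℂ} (hf : H923.InvUnder N k f) :
    H923.InvUnder (N * 1) k f := by
  rwa [Nat.mul_one]

theorem invUnder_of_mul_one {N : ℕ} {k : ℤ} {f : ℍ → ℂ} (hf : H923.InvUnder (N * 1) k f) :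
    H923.InvUnder N k f := by
  rwa [Nat.mul_one] at hf

/-- `Γ₀(N) ≤ W⁻¹ Γ₀(N) W`. -/
theorem Gamma0_le_conj_frickeMatrix (N : ℕ) [NeZero N] :
    (Gamma0 N : Subgroup (GL (Fin 2) ℝ)) ≤
      toConjAct (H958.X.frickeMatrix N)⁻¹ • (Gamma0 N : Subgroup (GL (Fin 2) ℝ)) := by
  rintro _ ⟨g, hg, rfl⟩
  have hg' : g ∈ Gamma0 (N * 1) := by rwa [Nat.mul_one]
  obtain ⟨g', hg'mem, hmul⟩ :=
    (isAL_frickeMatrix N).exists_eq_mul ((isAL_frickeMatrix N).mul_mapGL hg')
  rw [Subgroup.mem_pointwise_smul_iff_inv_smul_mem, ← toConjAct_inv, inv_inv, toConjAct_smul,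
    hmul, mul_inv_cancel_right]
  refine Subgroup.mem_map_of_mem _ ?_
  rwa [Nat.mul_one] at hg'mem

/-- The Fricke operator on cusp forms of weight `2` and level `Γ₀(N)`. -/
def frickeCusp {N : ℕ} [NeZero N] (f : CuspForm (Gamma0 N) 2) : CuspForm (Gamma0 N) 2 where
  toFun := (⇑f : ℍ → ℂ) ∣[(2 : ℤ)] H958.X.frickeMatrix N
  slash_action_eq' γ hγ :=
    (CuspForm.translate f (H958.X.frickeMatrix N)).slash_action_eq' γ
      (Gamma0_le_conj_frickeMatrix N hγ)
  holo' := (CuspForm.translate f (H958.X.frickeMatrix N)).holo'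
  zero_at_cusps' hc :=
    (CuspForm.translate f (H958.X.frickeMatrix N)).zero_at_cusps'
      (hc.mono (Gamma0_le_conj_frickeMatrix N))

@[simp] theorem coe_frickeCusp {N : ℕ} [NeZero N] (f : CuspForm (Gamma0 N) 2) :
    (⇑(frickeCusp f) : ℍ → ℂ) = (⇑f : ℍ → ℂ) ∣[(2 : ℤ)] H958.X.frickeMatrix N := rfl

/-- **X1**: the Fricke involution preserves `S₂(Γ₀(N))`. -/
theorem frickeOp : H958.X.FrickeOp := fun _ _ f => ⟨frickeCusp f, rfl⟩

/-- `W_N * W_N` is the scalar matrix `-N`. -/
theorem frickeMatrix_mul_self (N : ℕ) [NeZero N] :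
    H958.X.frickeMatrix N * H958.X.frickeMatrix N =
      Matrix.GeneralLinearGroup.scalar (Fin 2)
        (Units.mk0 (-(N : ℝ)) (neg_ne_zero.mpr (Nat.cast_ne_zero.mpr (NeZero.ne N)))) := by
  apply Units.ext
  rw [Units.val_mul, Matrix.GeneralLinearGroup.coe_scalar, isInt_frickeMatrix N]
  ext i j
  fin_cases i <;> fin_cases j <;> simp [Matrix.mul_apply, Fin.sum_univ_two]

/-- **X1b**: the Fricke operator is an involution in weight `2` (on all functions). -/
theorem frickeInvol : H958.X.FrickeInvol := by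
  intro N _ f
  rw [← SlashAction.slash_mul, frickeMatrix_mul_self, H923.slash_two_scalar]

/-- **X1c**: the Fricke operator commutes with `T_ℓ`, `ℓ ∤ N`. -/
theorem frickeHecke : H958.X.FrickeHecke := by
  intro N _ ℓ hℓ hℓN f
  have hf : H923.InvUnder (N * 1) 2 (⇑f : ℍ → ℂ) :=
    invUnder_mul_one (H923.invUnder_of_slashInvariantFormClass f)
  exact (H923.heckeT_slash_AL 2 (NeZero.ne N) hℓ (by rwa [Nat.mul_one]) hf
    (isAL_frickeMatrix N)).symm

end Fermat.Agent.Lib.Newform.H16

end
end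
-- ===== PACK-END Lib/Newform/H16/XFricke.lean

-- ===== PACK-BEGIN S36/H253/NormRam.lean
section


/-!
# Norms commute with reduction: several extensions WITH ramification (helper253)

Mathlib only (on top of `S35/H253/NormRed2.lean`).  `F / K` a finite field extension, `O` a
valuation subring of `K` with uniformiser `ϖ`, `V i` (`i : ι`, finite) valuation subrings of `F`
lying over `O`, `t i` an element of the maximal ideal of `V i` with `ϖ = unit * t i ^ e i` in
`V i`, reductions `π : O → k`, `ρ i : V i → κ i`.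

`RamFamily` : an adapted family `m (i, s, j) = r i j s * t i ^ s` (`s < e i`, `j : J i`), where
the `r i j s` are residually independent at `V i` and `m (i, s, j) ∈ ϖ V i'` for `i' ≠ i`.

`RamFamily.norm_red` : if the residues of the `r i · s` are bases of `κ i / k` and
`∑ i, e i * #(J i) = [F : K]`, then for `y ∈ ⋂ V i`

  `N_{F/K} y ∈ O`   and   `π (N_{F/K} y) = ∏ i, N_{κ i / k} (ρ i y) ^ e i`.
-/

set_option autoImplicit false
set_option linter.unusedSectionVars false

namespace Fermat.Agent.S36.H253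

open scoped BigOperators
open Fermat.Agent.S35.H253

section Defs

variable {K F : Type*} [Field K] [Field F] [Algebra K F]

/-- The hypotheses on an adapted family (see the module docstring). -/
structure RamFamily (O : ValuationSubring K) (ϖ : K) {ι : Type*} (V : ι → ValuationSubring F)
    (t : ι → F) (e : ι → ℕ) {J : ι → Type*} [∀ i, Fintype (J i)]
    (r : (i : ι) → J i → Fin (e i) → F) : Prop where
  isOver : ∀ i, Over O (V i)
  ne_zero : ϖ ≠ 0
  unifO : O.valuation ϖ < 1
  genO : ∀ a : K, O.valuation a < 1 → O.valuation a ≤ O.valuation ϖ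
  unif : ∀ i, (V i).valuation (t i) < 1
  ram : ∀ i, (V i).valuation (algebraMap K F ϖ) = (V i).valuation (t i) ^ (e i)
  r_mem : ∀ i j s, r i j s ∈ V i
  small : ∀ i j (s : Fin (e i)) i', i' ≠ i →
    (V i').valuation (r i j s * t i ^ (s : ℕ)) ≤ (V i').valuation (algebraMap K F ϖ)
  indep : ∀ i (s : Fin (e i)) (a : J i → K), (∀ j, a j ∈ O) →
    (V i).valuation (∑ j, algebraMap K F (a j) * r i j s) < 1 → ∀ j, O.valuation (a j) < 1

/-- Index type of the blocks: `(i, s)` with `s < e i`. -/
abbrev Blk {ι : Type*} (e : ι → ℕ) : Type _ := Σ i : ι, Fin (e i)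

/-- Index type of the adapted family. -/
abbrev Idx {ι : Type*} (e : ι → ℕ) (J : ι → Type*) : Type _ := Σ a : Blk e, J a.1

/-- The adapted family `m (i, s, j) = r i j s * t i ^ s`. -/
def fam {ι : Type*} (t : ι → F) (e : ι → ℕ) {J : ι → Type*}
    (r : (i : ι) → J i → Fin (e i) → F) : Idx e J → F :=
  fun l => r l.1.1 l.2 l.1.2 * t l.1.1 ^ (l.1.2 : ℕ)

end Defs

namespace RamFamily

variable {K F : Type*} [Field K] [Field F] [Algebra K F]
variable {O : ValuationSubring K} {ϖ : K} {ι : Type*} [Fintype ι] [DecidableEq ι]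
  {V : ι → ValuationSubring F}
  {t : ι → F} {e : ι → ℕ} {J : ι → Type*} [∀ i, Fintype (J i)]
  {r : (i : ι) → J i → Fin (e i) → F}

theorem t_ne_zero (h : RamFamily O ϖ V t e r) (i : ι) : t i ≠ 0 := by
  intro h0
  have h1 := h.ram i
  by_cases he : e i = 0
  · rw [he, pow_zero] at h1
    have := (h.isOver i).val_lt_one_iff ϖ |>.2 h.unifO
    rw [h1] at this
    exact lt_irrefl _ this
  · rw [h0, map_zero, zero_pow he, Valuation.zero_iff, map_eq_zero] at h1
    exact h.ne_zero h1

theorem val_t_pos (h : RamFamily O ϖ V t e r) (i : ι) : 0 < (V i).valuation (t i) := by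
  rw [Valuation.pos_iff]; exact h.t_ne_zero i

theorem e_pos (h : RamFamily O ϖ V t e r) (i : ι) : 0 < e i := by
  rcases Nat.eq_zero_or_pos (e i) with he | he
  · have h1 := h.ram i
    rw [he, pow_zero] at h1
    have := (h.isOver i).val_lt_one_iff ϖ |>.2 h.unifO
    rw [h1] at this
    exact absurd this (lt_irrefl _)
  · exact he

/-- Elements of the maximal ideal of `O` are divisible by `ϖ` in every `V i`. -/
theorem val_le_of_small (h : RamFamily O ϖ V t e r) (i : ι) {a : K} (ha : O.valuation a < 1) :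
    (V i).valuation (algebraMap K F a) ≤ (V i).valuation (algebraMap K F ϖ) := by
  have h1 : O.valuation (a * ϖ⁻¹) ≤ 1 := by
    rw [map_mul, map_inv₀]
    have hpos : 0 < O.valuation ϖ := by rw [Valuation.pos_iff]; exact h.ne_zero
    calc O.valuation a * (O.valuation ϖ)⁻¹ ≤ O.valuation ϖ * (O.valuation ϖ)⁻¹ := by
          gcongr; exact h.genO a ha
      _ = 1 := mul_inv_cancel₀ hpos.ne'
  have h2 := ((h.isOver i).val_le_one_iff _).2 h1
  have h3 : algebraMap K F a = algebraMap K F (a * ϖ⁻¹) * algebraMap K F ϖ := by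
    rw [← map_mul, inv_mul_cancel_right₀ h.ne_zero]
  rw [h3, map_mul]
  calc (V i).valuation (algebraMap K F (a * ϖ⁻¹)) * (V i).valuation (algebraMap K F ϖ)
      ≤ 1 * (V i).valuation (algebraMap K F ϖ) := by gcongr
    _ = _ := one_mul _

theorem val_pow_le_pow (h : RamFamily O ϖ V t e r) (i : ι) {a b : ℕ} (hab : a ≤ b) :
    (V i).valuation (t i) ^ b ≤ (V i).valuation (t i) ^ a :=
  pow_le_pow_of_le_one zero_le (h.unif i).le hab

theorem fam_mem (h : RamFamily O ϖ V t e r) (l : Idx e J) (i : ι) : fam t e r l ∈ V i := by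
  rw [← (V i).valuation_le_one_iff]
  by_cases hi : i = l.1.1
  · subst hi
    unfold fam
    rw [map_mul, map_pow]
    calc (V l.1.1).valuation (r l.1.1 l.2 l.1.2) * (V l.1.1).valuation (t l.1.1) ^ (l.1.2 : ℕ)
        ≤ 1 * 1 := by
          gcongr
          · exact ((V l.1.1).valuation_le_one_iff _).2 (h.r_mem _ _ _)
          · exact pow_le_one₀ zero_le (h.unif _).le
      _ = 1 := one_mul 1
  · refine le_trans (h.small l.1.1 l.2 l.1.2 i hi) ?_
    exact ((h.isOver i).val_lt_one_iff ϖ |>.2 h.unifO).le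

theorem sum_split (a : Idx e J → K) (a₀ : Blk e) :
    ∑ l, algebraMap K F (a l) * fam t e r l =
      (∑ j : J a₀.1, algebraMap K F (a ⟨a₀, j⟩) * fam t e r ⟨a₀, j⟩) +
        ∑ b ∈ Finset.univ.erase a₀,
          ∑ j : J b.1, algebraMap K F (a ⟨b, j⟩) * fam t e r ⟨b, j⟩ := by
  rw [Fintype.sum_sigma, ← Finset.add_sum_erase _ _ (Finset.mem_univ a₀)]

theorem val_coeff_le_one (h : RamFamily O ϖ V t e r) (i : ι) {a : K} (ha : a ∈ O) :
    (V i).valuation (algebraMap K F a) ≤ 1 :=
  ((h.isOver i).val_le_one_iff a).2 ((O.valuation_le_one_iff a).2 ha)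

/-- The part of an integral combination outside the block `(i, s)` is divisible by
`t i ^ (s + 1)` in `V i`, provided the coefficients of the lower levels of the block `i` are
small. -/
theorem val_rest_le (h : RamFamily O ϖ V t e r) (a : Idx e J → K) (ha : ∀ l, a l ∈ O)
    (i : ι) (s : Fin (e i))
    (hlow : ∀ (s' : Fin (e i)) (j' : J i), (s' : ℕ) < (s : ℕ) →
      O.valuation (a ⟨⟨i, s'⟩, j'⟩) < 1) :
    (V i).valuation (∑ b ∈ Finset.univ.erase (⟨i, s⟩ : Blk e),
        ∑ j : J b.1, algebraMap K F (a ⟨b, j⟩) * fam t e r ⟨b, j⟩) ≤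
        (V i).valuation (t i) ^ ((s : ℕ) + 1) := by
  have hle : (s : ℕ) + 1 ≤ e i := s.2
  refine Valuation.map_sum_le _ fun b hb => Valuation.map_sum_le _ fun j' _ => ?_
  have hb' : b ≠ ⟨i, s⟩ := Finset.ne_of_mem_erase hb
  obtain ⟨i', s'⟩ := b
  rw [map_mul]
  by_cases hi : i' = i
  · subst hi
    have hne : s' ≠ s := fun hh => hb' (by rw [hh])
    rcases lt_or_gt_of_ne (fun hh => hne (Fin.ext hh) : (s' : ℕ) ≠ (s : ℕ)) with hlt | hgt
    · -- lower level: coefficient small
      have h1 : O.valuation (a ⟨⟨i', s'⟩, j'⟩) < 1 := hlow s' j' hlt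
      have h2 := h.val_le_of_small i' h1
      have h3 : (V i').valuation (fam t e r ⟨⟨i', s'⟩, j'⟩) ≤ 1 :=
        ((V i').valuation_le_one_iff _).2 (h.fam_mem _ _)
      calc (V i').valuation (algebraMap K F (a ⟨⟨i', s'⟩, j'⟩)) *
            (V i').valuation (fam t e r ⟨⟨i', s'⟩, j'⟩)
          ≤ (V i').valuation (algebraMap K F ϖ) * 1 := by gcongr
        _ = (V i').valuation (t i') ^ (e i') := by rw [mul_one, h.ram]
        _ ≤ (V i').valuation (t i') ^ ((s : ℕ) + 1) := h.val_pow_le_pow i' hle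
    · -- higher level
      have h3 : (V i').valuation (fam t e r ⟨⟨i', s'⟩, j'⟩) ≤
          (V i').valuation (t i') ^ (s' : ℕ) := by
        unfold fam
        rw [map_mul, map_pow]
        calc (V i').valuation (r i' j' s') * (V i').valuation (t i') ^ (s' : ℕ)
            ≤ 1 * (V i').valuation (t i') ^ (s' : ℕ) := by
              gcongr
              exact ((V i').valuation_le_one_iff _).2 (h.r_mem _ _ _)
          _ = _ := one_mul _
      calc (V i').valuation (algebraMap K F (a ⟨⟨i', s'⟩, j'⟩)) *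
            (V i').valuation (fam t e r ⟨⟨i', s'⟩, j'⟩)
          ≤ 1 * (V i').valuation (t i') ^ (s' : ℕ) := by
            gcongr
            exact h.val_coeff_le_one i' (ha _)
        _ = (V i').valuation (t i') ^ (s' : ℕ) := one_mul _
        _ ≤ (V i').valuation (t i') ^ ((s : ℕ) + 1) := h.val_pow_le_pow i' (by omega)
  · -- another valuation
    have h3 := h.small i' j' s' i (fun hh => hi hh.symm)
    calc (V i).valuation (algebraMap K F (a ⟨⟨i', s'⟩, j'⟩)) *
          (V i).valuation (fam t e r ⟨⟨i', s'⟩, j'⟩)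
        ≤ 1 * (V i).valuation (algebraMap K F ϖ) := by
          gcongr
          · exact h.val_coeff_le_one i (ha _)
          · exact h3
      _ = (V i).valuation (t i) ^ (e i) := by rw [one_mul, h.ram]
      _ ≤ (V i).valuation (t i) ^ ((s : ℕ) + 1) := h.val_pow_le_pow i hle

theorem block_eq (a : Idx e J → K) (i : ι) (s : Fin (e i)) :
    (∑ j : J i, algebraMap K F (a ⟨⟨i, s⟩, j⟩) * r i j s) * t i ^ (s : ℕ) =
      (∑ l, algebraMap K F (a l) * fam t e r l) -
        ∑ b ∈ Finset.univ.erase (⟨i, s⟩ : Blk e),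
          ∑ j : J b.1, algebraMap K F (a ⟨b, j⟩) * fam t e r ⟨b, j⟩ := by
  rw [sum_split a ⟨i, s⟩, Finset.sum_mul, add_sub_cancel_right]
  refine Finset.sum_congr rfl fun j _ => ?_
  unfold fam; ring

/-- **Key lemma.**  If an integral combination of the adapted family is divisible by `t i ^ s₀`
in `V i` (`s₀ ≤ e i`), then its coefficients in the block `i` at the levels `s < s₀` lie in the
maximal ideal of `O`. -/
theorem coeff_small_below (h : RamFamily O ϖ V t e r) (a : Idx e J → K) (ha : ∀ l, a l ∈ O)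
    (i : ι) : ∀ s₀ : ℕ, s₀ ≤ e i →
    (V i).valuation (∑ l, algebraMap K F (a l) * fam t e r l) ≤ (V i).valuation (t i) ^ s₀ →
    ∀ (s : Fin (e i)) (j : J i), (s : ℕ) < s₀ → O.valuation (a ⟨⟨i, s⟩, j⟩) < 1 := by
  intro s₀
  induction s₀ with
  | zero => intro _ _ s j hs; exact absurd hs (Nat.not_lt_zero _)
  | succ s₀ ih =>
    intro hle hz s j hs
    have IH := ih (Nat.le_of_succ_le hle) (hz.trans (h.val_pow_le_pow i (Nat.le_succ s₀)))
    by_cases hs' : (s : ℕ) < s₀
    · exact IH s j hs'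
    have hss : (s : ℕ) = s₀ := by omega
    refine h.indep i s (fun j => a ⟨⟨i, s⟩, j⟩) (fun j => ha _) ?_ j
    have hrest := h.val_rest_le a ha i s (fun s' j' hlt => IH s' j' (by omega))
    have hval : (V i).valuation ((∑ j : J i, algebraMap K F (a ⟨⟨i, s⟩, j⟩) * r i j s) *
        t i ^ (s : ℕ)) ≤ (V i).valuation (t i) ^ ((s : ℕ) + 1) := by
      rw [block_eq a i s]
      exact Valuation.map_sub_le _ (by rw [hss]; exact hz) hrest
    rw [map_mul, map_pow, pow_succ'] at hval
    have hpos : 0 < (V i).valuation (t i) ^ (s : ℕ) := pow_pos (h.val_t_pos i) _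
    have := le_of_mul_le_mul_right hval hpos
    exact lt_of_le_of_lt this (h.unif i)

/-- **Level identification.**  If an integral combination `z` of the adapted family equals
`rz * t i ^ s` with `rz ∈ V i`, then the block `(i, s)` of the coefficients computes the residue
of `rz`. -/
theorem block_congr (h : RamFamily O ϖ V t e r) (a : Idx e J → K) (ha : ∀ l, a l ∈ O)
    (i : ι) (s : Fin (e i)) {rz : F} (hrz : rz ∈ V i)
    (hz : (∑ l, algebraMap K F (a l) * fam t e r l) = rz * t i ^ (s : ℕ)) :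
    (V i).valuation ((∑ j : J i, algebraMap K F (a ⟨⟨i, s⟩, j⟩) * r i j s) - rz) < 1 := by
  have hzle : (V i).valuation (∑ l, algebraMap K F (a l) * fam t e r l) ≤
      (V i).valuation (t i) ^ (s : ℕ) := by
    rw [hz, map_mul, map_pow]
    calc (V i).valuation rz * (V i).valuation (t i) ^ (s : ℕ)
        ≤ 1 * (V i).valuation (t i) ^ (s : ℕ) := by
          gcongr
          exact ((V i).valuation_le_one_iff _).2 hrz
      _ = _ := one_mul _
  have hlow := h.coeff_small_below a ha i (s : ℕ) s.2.le hzle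
  have hrest := h.val_rest_le a ha i s (fun s' j' hlt => hlow s' j' hlt)
  have e1 : ((∑ j : J i, algebraMap K F (a ⟨⟨i, s⟩, j⟩) * r i j s) - rz) * t i ^ (s : ℕ) =
      -(∑ b ∈ Finset.univ.erase (⟨i, s⟩ : Blk e),
          ∑ j : J b.1, algebraMap K F (a ⟨b, j⟩) * fam t e r ⟨b, j⟩) := by
    rw [sub_mul, block_eq a i s, hz]; ring
  have hval : (V i).valuation (((∑ j : J i, algebraMap K F (a ⟨⟨i, s⟩, j⟩) * r i j s) - rz) *
      t i ^ (s : ℕ)) ≤ (V i).valuation (t i) ^ ((s : ℕ) + 1) := by
    rw [e1, Valuation.map_neg]; exact hrest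
  rw [map_mul, map_pow, pow_succ'] at hval
  have hpos : 0 < (V i).valuation (t i) ^ (s : ℕ) := pow_pos (h.val_t_pos i) _
  exact lt_of_le_of_lt (le_of_mul_le_mul_right hval hpos) (h.unif i)

/-- **Lattice lemma.**  An integral combination divisible by `ϖ` in every `V i` has all its
coefficients in the maximal ideal of `O`. -/
theorem coeff_small (h : RamFamily O ϖ V t e r) (a : Idx e J → K) (ha : ∀ l, a l ∈ O)
    (hz : ∀ i, (V i).valuation (∑ l, algebraMap K F (a l) * fam t e r l) ≤
      (V i).valuation (algebraMap K F ϖ)) (l : Idx e J) : O.valuation (a l) < 1 := by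
  obtain ⟨⟨i, s⟩, j⟩ := l
  exact h.coeff_small_below a ha i (e i) le_rfl (by rw [← h.ram]; exact hz i) s j s.2

/-- Coordinates of elements of `⋂ V i` with respect to the adapted family lie in `O`. -/
theorem coeff_mem (h : RamFamily O ϖ V t e r) (a : Idx e J → K)
    (hz : ∀ i, (∑ l, algebraMap K F (a l) * fam t e r l) ∈ V i) (l : Idx e J) : a l ∈ O := by
  classical
  by_contra hl
  have : Nonempty (Idx e J) := ⟨l⟩
  obtain ⟨l₀, hl₀⟩ := Finite.exists_max (fun l => O.valuation (a l))
  have hbig : 1 < O.valuation (a l₀) := by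
    have : ¬ O.valuation (a l) ≤ 1 := fun hh => hl ((O.valuation_le_one_iff _).1 hh)
    exact lt_of_lt_of_le (not_le.1 this) (hl₀ l)
  have h0 : a l₀ ≠ 0 := by
    intro h0; rw [h0, map_zero] at hbig; exact not_lt.2 zero_le_one hbig
  have hinv : O.valuation (a l₀)⁻¹ < 1 := by
    rw [map_inv₀]; exact inv_lt_one_of_one_lt₀ hbig
  set c : Idx e J → K := fun l => a l * (a l₀)⁻¹ with hc
  have hcO : ∀ l, c l ∈ O := fun l => by
    rw [← O.valuation_le_one_iff, hc, map_mul, map_inv₀]
    have hpos : 0 < O.valuation (a l₀) := lt_trans zero_lt_one hbig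
    calc O.valuation (a l) * (O.valuation (a l₀))⁻¹
        ≤ O.valuation (a l₀) * (O.valuation (a l₀))⁻¹ := by gcongr; exact hl₀ l
      _ = 1 := mul_inv_cancel₀ hpos.ne'
  have hsum : (∑ l, algebraMap K F (c l) * fam t e r l) =
      (∑ l, algebraMap K F (a l) * fam t e r l) * algebraMap K F (a l₀)⁻¹ := by
    rw [Finset.sum_mul]
    refine Finset.sum_congr rfl fun l _ => ?_
    rw [hc, map_mul]; ring
  have hs : ∀ i, (V i).valuation (∑ l, algebraMap K F (c l) * fam t e r l) ≤
      (V i).valuation (algebraMap K F ϖ) := fun i => by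
    rw [hsum, map_mul]
    calc (V i).valuation (∑ l, algebraMap K F (a l) * fam t e r l) *
          (V i).valuation (algebraMap K F (a l₀)⁻¹)
        ≤ 1 * (V i).valuation (algebraMap K F ϖ) := by
          gcongr
          · exact ((V i).valuation_le_one_iff _).2 (hz i)
          · exact h.val_le_of_small i hinv
      _ = _ := one_mul _
  have hlt := h.coeff_small c hcO hs l₀
  have hc₀ : c l₀ = 1 := by rw [hc]; exact mul_inv_cancel₀ h0
  rw [hc₀, map_one] at hlt
  exact lt_irrefl _ hlt

theorem eq_zero_of_sum_eq_zero (h : RamFamily O ϖ V t e r) (a : Idx e J → K)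
    (hz : (∑ l, algebraMap K F (a l) * fam t e r l) = 0) (l : Idx e J) : a l = 0 := by
  classical
  by_contra hl
  have : Nonempty (Idx e J) := ⟨l⟩
  obtain ⟨l₀, hl₀⟩ := Finite.exists_max (fun l => O.valuation (a l))
  have hpos : 0 < O.valuation (a l₀) :=
    lt_of_lt_of_le (by rw [Valuation.pos_iff]; exact hl) (hl₀ l)
  have h0 : a l₀ ≠ 0 := by
    intro h0; rw [h0, map_zero] at hpos; exact lt_irrefl _ hpos
  set c : Idx e J → K := fun l => a l * (a l₀)⁻¹ with hc
  have hcO : ∀ l, c l ∈ O := fun l => by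
    rw [← O.valuation_le_one_iff, hc, map_mul, map_inv₀]
    calc O.valuation (a l) * (O.valuation (a l₀))⁻¹
        ≤ O.valuation (a l₀) * (O.valuation (a l₀))⁻¹ := by gcongr; exact hl₀ l
      _ = 1 := mul_inv_cancel₀ hpos.ne'
  have hsum : (∑ l, algebraMap K F (c l) * fam t e r l) =
      (∑ l, algebraMap K F (a l) * fam t e r l) * algebraMap K F (a l₀)⁻¹ := by
    rw [Finset.sum_mul]
    refine Finset.sum_congr rfl fun l _ => ?_
    rw [hc, map_mul]; ring
  rw [hz, zero_mul] at hsum
  have hlt := h.coeff_small c hcO (fun i => by rw [hsum, map_zero]; exact zero_le) l₀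
  have hc₀ : c l₀ = 1 := by rw [hc]; exact mul_inv_cancel₀ h0
  rw [hc₀, map_one] at hlt
  exact lt_irrefl _ hlt

theorem linearIndependent (h : RamFamily O ϖ V t e r) : LinearIndependent K (fam t e r) := by
  rw [Fintype.linearIndependent_iff]
  intro a ha l
  refine h.eq_zero_of_sum_eq_zero a ?_ l
  rw [← ha]
  exact Finset.sum_congr rfl fun l _ => (Algebra.smul_def _ _).symm

theorem sum_repr_eq (bas : Module.Basis (Idx e J) K F) (hbas : ⇑bas = fam t e r) (z : F) :
    (∑ l, algebraMap K F (bas.repr z l) * fam t e r l) = z := by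
  conv_rhs => rw [← bas.sum_repr z]
  refine Finset.sum_congr rfl fun l _ => ?_
  rw [Algebra.smul_def, hbas]

/-- Coordinates of elements of `⋂ V i` in an adapted basis lie in `O`. -/
theorem repr_mem (h : RamFamily O ϖ V t e r) (bas : Module.Basis (Idx e J) K F)
    (hbas : ⇑bas = fam t e r) {z : F} (hz : ∀ i, z ∈ V i) (l : Idx e J) :
    bas.repr z l ∈ O :=
  h.coeff_mem (fun l => bas.repr z l) (fun i => by rw [sum_repr_eq bas hbas]; exact hz i) l

/-- The matrix, with entries in `O`, of multiplication by `y ∈ ⋂ V i` in an adapted basis. -/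
noncomputable def intMatrix (h : RamFamily O ϖ V t e r) (bas : Module.Basis (Idx e J) K F)
    (hbas : ⇑bas = fam t e r) {y : F} (hy : ∀ i, y ∈ V i) :
    Matrix (Idx e J) (Idx e J) O :=
  fun k l => ⟨bas.repr (y * fam t e r l) k,
    h.repr_mem bas hbas (fun i => mul_mem (hy i) (h.fam_mem l i)) k⟩

theorem intMatrix_map [DecidableEq (Idx e J)] (h : RamFamily O ϖ V t e r)
    (bas : Module.Basis (Idx e J) K F) (hbas : ⇑bas = fam t e r) {y : F}
    (hy : ∀ i, y ∈ V i) :
    (h.intMatrix bas hbas hy).map O.subtype = Algebra.leftMulMatrix bas y := by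
  ext k l
  rw [Matrix.map_apply, Algebra.leftMulMatrix_eq_repr_mul, hbas]
  rfl

theorem norm_eq_det_intMatrix [DecidableEq (Idx e J)] (h : RamFamily O ϖ V t e r)
    (bas : Module.Basis (Idx e J) K F) (hbas : ⇑bas = fam t e r) {y : F}
    (hy : ∀ i, y ∈ V i) :
    Algebra.norm K y = (((h.intMatrix bas hbas hy).det : O) : K) := by
  rw [Algebra.norm_eq_matrix_det bas, ← h.intMatrix_map bas hbas hy]
  have := RingHom.map_det O.subtype (h.intMatrix bas hbas hy)
  rw [RingHom.mapMatrix_apply] at this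
  rw [← this]
  rfl

theorem card_idx : Fintype.card (Idx e J) = ∑ i, e i * Fintype.card (J i) := by
  rw [Fintype.card_sigma, Fintype.sum_sigma]
  refine Finset.sum_congr rfl fun i _ => ?_
  show ∑ _s : Fin (e i), Fintype.card (J i) = _
  rw [Finset.sum_const, Finset.card_univ, Fintype.card_fin, smul_eq_mul]

end RamFamily

section Norm

variable {K F : Type*} [Field K] [Field F] [Algebra K F]
variable {O : ValuationSubring K} {ϖ : K} {ι : Type*} [Fintype ι] [DecidableEq ι]
  {V : ι → ValuationSubring F}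
  {t : ι → F} {e : ι → ℕ} {J : ι → Type*} [∀ i, Fintype (J i)]
  {r : (i : ι) → J i → Fin (e i) → F}
  {k : Type*} [Field k] {κ : ι → Type*} [∀ i, Field (κ i)] [∀ i, Algebra k (κ i)]

/-- The order of the blocks: lexicographic in `(i, s)`, decreasing in `s`. -/
noncomputable def blkKey [LinearOrder ι] (e : ι → ℕ) (a : Blk e) : ι ×ₗ ℕᵒᵈ :=
  toLex (a.1, OrderDual.toDual (a.2 : ℕ))

theorem blkKey_injective [LinearOrder ι] (e : ι → ℕ) : Function.Injective (blkKey e) := by
  rintro ⟨i, s⟩ ⟨i', s'⟩ hh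
  have h0 := toLex.injective hh
  have h1 : i = i' := (Prod.mk.inj h0).1
  subst h1
  have h2 : (s : ℕ) = (s' : ℕ) := OrderDual.toDual.injective (Prod.mk.inj h0).2
  rw [Fin.ext h2]

theorem blkKey_lt_iff [LinearOrder ι] (e : ι → ℕ) (a a' : Blk e) :
    blkKey e a < blkKey e a' ↔ a.1 < a'.1 ∨ (a.1 = a'.1 ∧ (a'.2 : ℕ) < (a.2 : ℕ)) := by
  unfold blkKey
  rw [Prod.Lex.toLex_lt_toLex]
  simp only [OrderDual.toDual_lt_toDual]

/-- Type synonym of `Blk e` carrying the block order (`Sigma` types have another order). -/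
def BlkO {ι : Type*} (e : ι → ℕ) : Type _ := Blk e

/-- The identity `Blk e → BlkO e`. -/
def toBlkO {ι : Type*} (e : ι → ℕ) (a : Blk e) : BlkO e := a

noncomputable instance instLinearOrderBlkO [LinearOrder ι] (e : ι → ℕ) : LinearOrder (BlkO e) :=
  LinearOrder.lift' (fun a : BlkO e => blkKey e a) (blkKey_injective e)

instance instFintypeBlkO (e : ι → ℕ) : Fintype (BlkO e) :=
  inferInstanceAs (Fintype (Blk e))

theorem toBlkO_lt_iff [LinearOrder ι] (e : ι → ℕ) (a a' : Blk e) :
    toBlkO e a < toBlkO e a' ↔ a.1 < a'.1 ∨ (a.1 = a'.1 ∧ (a'.2 : ℕ) < (a.2 : ℕ)) :=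
  blkKey_lt_iff e a a'

theorem prod_blkO {M : Type*} [CommMonoid M] (e : ι → ℕ) (f : BlkO e → M) :
    ∏ a : BlkO e, f a = ∏ i : ι, ∏ s : Fin (e i), f (toBlkO e ⟨i, s⟩) :=
  Fintype.prod_sigma (fun a : Blk e => f (toBlkO e a))

/-- **Norms commute with reduction: several extensions with ramification.** -/
theorem RamFamily.norm_red [Nonempty ι] (h : RamFamily O ϖ V t e r)
    (hcard : ∑ i, e i * Fintype.card (J i) = Module.finrank K F)
    (π : O →+* k) (ρ : ∀ i, V i →+* κ i)
    (hπ : ∀ a : O, O.valuation (a : K) < 1 → π a = 0)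
    (hρ : ∀ i (z : V i), (V i).valuation (z : F) < 1 → ρ i z = 0)
    (hc : ∀ i (a : O), ρ i ⟨algebraMap K F a, ((h.isOver i) a).2 a.2⟩ = algebraMap k (κ i) (π a))
    (b : ∀ i, Fin (e i) → Module.Basis (J i) k (κ i))
    (hb : ∀ i j s, ρ i ⟨r i j s, h.r_mem i j s⟩ = b i s j)
    {y : F} (hy : ∀ i, y ∈ V i) :
    ∃ hN : Algebra.norm K y ∈ O,
      π ⟨Algebra.norm K y, hN⟩ = ∏ i, Algebra.norm k (ρ i ⟨y, hy i⟩) ^ e i := by
  classical
  let _ : LinearOrder ι := LinearOrder.lift' (Fintype.equivFin ι) (Equiv.injective _)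
  have hlt : ∀ a a' : Blk e, toBlkO e a < toBlkO e a' ↔
      a.1 < a'.1 ∨ (a.1 = a'.1 ∧ (a'.2 : ℕ) < (a.2 : ℕ)) :=
    fun a a' => toBlkO_lt_iff e a a'
  -- nonemptiness of the index type
  have hne : Nonempty (Idx e J) := by
    obtain ⟨i₀⟩ := (inferInstance : Nonempty ι)
    have s₀ : Fin (e i₀) := ⟨0, h.e_pos i₀⟩
    have : Nonempty (J i₀) := by
      by_contra hemp
      rw [not_nonempty_iff] at hemp
      have : Subsingleton (κ i₀) :=
        ⟨fun x y => (b i₀ s₀).ext_elem fun j => (IsEmpty.false j).elim⟩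
      exact one_ne_zero (Subsingleton.elim (1 : κ i₀) 0)
    obtain ⟨j₀⟩ := this
    exact ⟨⟨⟨i₀, s₀⟩, j₀⟩⟩
  have hcard' : Fintype.card (Idx e J) = Module.finrank K F := by
    rw [RamFamily.card_idx]; exact hcard
  set bas : Module.Basis (Idx e J) K F :=
    basisOfLinearIndependentOfCardEqFinrank h.linearIndependent hcard' with hbasdef
  have hbas : ⇑bas = fam t e r := coe_basisOfLinearIndependentOfCardEqFinrank _ _
  set A := h.intMatrix bas hbas hy with hA
  have hnorm := h.norm_eq_det_intMatrix bas hbas hy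
  have hAO : ∀ l k', ((A k' l : O) : K) ∈ O := fun l k' => (A k' l).2
  have hcol : ∀ l, (∑ k', algebraMap K F ((A k' l : O) : K) * fam t e r k') =
      y * fam t e r l := fun l => RamFamily.sum_repr_eq bas hbas (y * fam t e r l)
  -- block triangularity of the reduced matrix
  have htri : (π.mapMatrix A).BlockTriangular (fun l : Idx e J => toBlkO e l.1) := by
    intro k' l hkl
    rw [RingHom.mapMatrix_apply, Matrix.map_apply]
    refine hπ _ ?_
    obtain ⟨⟨i', s'⟩, j'⟩ := k'
    obtain ⟨⟨i, s⟩, j⟩ := l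
    rcases (hlt _ _).1 hkl with hii | ⟨hii, hss⟩
    · -- different valuations
      have hi : i' ≠ i := fun hh => (ne_of_lt hii) hh.symm
      refine h.coeff_small_below (fun k' => ((A k' ⟨⟨i, s⟩, j⟩ : O) : K))
        (fun k' => hAO _ k') i' (e i') le_rfl ?_ s' j' s'.2
      rw [hcol, ← h.ram, map_mul]
      calc (V i').valuation y * (V i').valuation (fam t e r ⟨⟨i, s⟩, j⟩)
          ≤ 1 * (V i').valuation (algebraMap K F ϖ) := by
            gcongr
            · exact ((V i').valuation_le_one_iff _).2 (hy i')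
            · exact h.small i j s i' hi
        _ = _ := one_mul _
    · -- same valuation, lower level
      simp only at hii hss
      subst hii
      refine h.coeff_small_below (fun k' => ((A k' ⟨⟨i, s⟩, j⟩ : O) : K))
        (fun k' => hAO _ k') i (s : ℕ) s.2.le ?_ s' j' hss
      rw [hcol]
      unfold fam
      simp only
      rw [map_mul, map_mul, map_pow]
      calc (V i).valuation y * ((V i).valuation (r i j s) * (V i).valuation (t i) ^ (s : ℕ))
          ≤ 1 * (1 * (V i).valuation (t i) ^ (s : ℕ)) := by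
            gcongr
            · exact ((V i).valuation_le_one_iff _).2 (hy i)
            · exact ((V i).valuation_le_one_iff _).2 (h.r_mem _ _ _)
        _ = _ := by rw [one_mul, one_mul]
  -- the diagonal blocks
  have hblock : ∀ (i : ι) (s : Fin (e i)),
      ((π.mapMatrix A).toSquareBlock (fun l : Idx e J => toBlkO e l.1) (toBlkO e ⟨i, s⟩)).det =
      Algebra.norm k (ρ i ⟨y, hy i⟩) := by
    intro i s
    let ε : J i ≃ {l : Idx e J // toBlkO e l.1 = toBlkO e ⟨i, s⟩} :=
      (Equiv.sigmaSubtype (β := fun a : Blk e => J a.1) (⟨i, s⟩ : Blk e)).symm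
    refine (Matrix.det_submatrix_equiv_self ε _).symm.trans ?_
    rw [Algebra.norm_eq_matrix_det (b i s)]
    congr 1
    ext j' j
    rw [Matrix.submatrix_apply, Algebra.leftMulMatrix_eq_repr_mul]
    show π (A ⟨⟨i, s⟩, j'⟩ ⟨⟨i, s⟩, j⟩) = _
    -- the congruence
    have hrz : y * r i j s ∈ V i := mul_mem (hy i) (h.r_mem i j s)
    have hcong := h.block_congr (fun k' => ((A k' ⟨⟨i, s⟩, j⟩ : O) : K)) (fun k' => hAO _ k')
      i s hrz (by rw [hcol]; unfold fam; ring)
    have hmem : (∑ j' : J i, algebraMap K F ((A ⟨⟨i, s⟩, j'⟩ ⟨⟨i, s⟩, j⟩ : O) : K) * r i j' s)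
        ∈ V i := by
      refine sum_mem fun j' _ => mul_mem ?_ (h.r_mem _ _ _)
      exact ((h.isOver i) _).2 (hAO _ _)
    have h0 : ρ i (⟨_, hmem⟩ - ⟨y * r i j s, hrz⟩) = 0 := hρ i _ hcong
    rw [map_sub, sub_eq_zero] at h0
    have e1 : (⟨_, hmem⟩ : V i) = ∑ j' : J i,
        (⟨algebraMap K F ((A ⟨⟨i, s⟩, j'⟩ ⟨⟨i, s⟩, j⟩ : O) : K),
          ((h.isOver i) _).2 (hAO _ _)⟩ : V i) * ⟨r i j' s, h.r_mem i j' s⟩ := by
      apply Subtype.ext
      rw [AddSubmonoidClass.coe_finsetSum]
      simp only [MulMemClass.coe_mul]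
    have e2 : (⟨y * r i j s, hrz⟩ : V i) = ⟨y, hy i⟩ * ⟨r i j s, h.r_mem i j s⟩ := rfl
    rw [e1, e2, map_sum, map_mul, hb] at h0
    have h1 : ρ i ⟨y, hy i⟩ * b i s j =
        ∑ j' : J i, π (A ⟨⟨i, s⟩, j'⟩ ⟨⟨i, s⟩, j⟩) • b i s j' := by
      rw [← h0]
      refine Finset.sum_congr rfl fun j' _ => ?_
      rw [map_mul, hb, Algebra.smul_def, ← hc]
    rw [h1, (b i s).repr_sum_self]
  have hN : Algebra.norm K y ∈ O := by rw [hnorm]; exact (A.det).2
  refine ⟨hN, ?_⟩
  have e0 : (⟨Algebra.norm K y, hN⟩ : O) = A.det := Subtype.ext hnorm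
  rw [e0, RingHom.map_det, htri.det_fintype, prod_blkO]
  refine Finset.prod_congr rfl fun i _ => ?_
  rw [Finset.prod_congr rfl (fun s _ => hblock i s), Finset.prod_const, Finset.card_univ,
    Fintype.card_fin]

end Norm

section Main

variable {K F : Type*} [Field K] [Field F] [Algebra K F]

/-- Multiplication by a nonzero element of an extension field, as a linear equivalence. -/
noncomputable def mulLinearEquiv (k : Type*) {κ : Type*} [Field k] [Field κ] [Algebra k κ]
    (c : κ) (hc : c ≠ 0) : κ ≃ₗ[k] κ :=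
  LinearEquiv.ofLinearMap (LinearMap.mulLeft k c) (LinearMap.mulLeft k c⁻¹)
    (by ext x; simp [hc]) (by ext x; simp [hc])

@[simp] theorem mulLinearEquiv_apply (k : Type*) {κ : Type*} [Field k] [Field κ] [Algebra k κ]
    (c : κ) (hc : c ≠ 0) (x : κ) : mulLinearEquiv k c hc x = c * x := rfl

/-- **Norms commute with reduction: `r` extensions with ramification.**
`O ⊆ K` a valuation ring with uniformiser `ϖ`; `V i ⊆ F` pairwise incomparable valuation rings
over `O` with uniformisers `t i`, `ϖ = unit * t i ^ e i` in `V i`; surjective reductions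
`π : O → k`, `ρ i : V i → κ i` onto fields with `κ i / k` finite; `∑ e i * [κ i : k] = [F : K]`.
Then for `y ∈ ⋂ V i`: `N_{F/K} y ∈ O` and `π (N y) = ∏ i, N_{κ i / k} (ρ i y) ^ e i`. -/
theorem norm_red_ram {ι : Type*} [Fintype ι] [Nonempty ι]
    {O : ValuationSubring K} {ϖ : K} {V : ι → ValuationSubring F} {t : ι → F} {e : ι → ℕ}
    (hover : ∀ i, Over O (V i)) (hinc : ∀ i i', i ≠ i' → ¬ V i ≤ V i')
    (hϖ0 : ϖ ≠ 0) (hϖ : O.valuation ϖ < 1)
    (hgenO : ∀ a : K, O.valuation a < 1 → O.valuation a ≤ O.valuation ϖ)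
    (ht : ∀ i, (V i).valuation (t i) < 1)
    (hgen : ∀ i (z : F), (V i).valuation z < 1 → (V i).valuation z ≤ (V i).valuation (t i))
    (hram : ∀ i, (V i).valuation (algebraMap K F ϖ) = (V i).valuation (t i) ^ e i)
    {k : Type*} [Field k] {κ : ι → Type*} [∀ i, Field (κ i)] [∀ i, Algebra k (κ i)]
    [∀ i, Module.Finite k (κ i)]
    (π : O →+* k) (ρ : ∀ i, V i →+* κ i)
    (hπ : Function.Surjective π) (hρ : ∀ i, Function.Surjective (ρ i))
    (hc : ∀ i (a : O), ρ i ⟨algebraMap K F a, ((hover i) a).2 a.2⟩ = algebraMap k (κ i) (π a))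
    (hdeg : ∑ i, e i * Module.finrank k (κ i) = Module.finrank K F)
    {y : F} (hy : ∀ i, y ∈ V i) :
    ∃ hN : Algebra.norm K y ∈ O,
      π ⟨Algebra.norm K y, hN⟩ = ∏ i, Algebra.norm k (ρ i ⟨y, hy i⟩) ^ e i := by
  classical
  have hker : ∀ i (z : V i), ρ i z = 0 ↔ (V i).valuation (z : F) < 1 :=
    fun i z => map_eq_zero_iff_val_lt_one (ρ i) (hρ i) z
  have hkerO : ∀ a : O, π a = 0 ↔ O.valuation (a : K) < 1 :=
    fun a => map_eq_zero_iff_val_lt_one π hπ a
  -- idempotents
  choose E hE1 hE2 using fun i => exists_idem_multi V hinc i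
  have hEmem : ∀ i i', E i ∈ V i' := fun i i' => by
    by_cases hi : i' = i
    · subst hi
      have : E i' = 1 - (1 - E i') := by ring
      rw [this]
      exact sub_mem (one_mem _) (((V i').valuation_le_one_iff _).1 (hE1 i').le)
    · exact ((V i').valuation_le_one_iff _).1 (hE2 i i' hi).le
  have hρE : ∀ i, ρ i ⟨E i, hEmem i i⟩ = 1 := fun i => by
    have h0 : ρ i (1 - ⟨E i, hEmem i i⟩) = 0 := (hker i _).2 (hE1 i)
    rw [map_sub, map_one, sub_eq_zero] at h0
    exact h0.symm
  set N := ∑ i, e i with hNdef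
  have hNe : ∀ i, e i ≤ N := fun i =>
    Finset.single_le_sum (f := e) (fun _ _ => Nat.zero_le _) (Finset.mem_univ i)
  have hEN : ∀ i i', i' ≠ i → (V i').valuation (E i ^ N) ≤ (V i').valuation (algebraMap K F ϖ) :=
    fun i i' hi => by
      rw [map_pow, hram]
      calc (V i').valuation (E i) ^ N ≤ (V i').valuation (t i') ^ N :=
            pow_le_pow_left₀ zero_le (hgen i' _ (hE2 i i' hi)) N
        _ ≤ (V i').valuation (t i') ^ e i' := pow_le_pow_of_le_one zero_le (ht i').le (hNe i')
  -- residue bases and their lifts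
  let J : ι → Type := fun i => Fin (Module.finrank k (κ i))
  let b₀ : ∀ i, Module.Basis (J i) k (κ i) := fun i => Module.finBasis k (κ i)
  choose z hz using fun (i : ι) (j : J i) => hρ i (b₀ i j)
  choose G hG1 hG2 using fun (i : ι) (j : J i) => exists_lift_multi V hinc i (z i j).2
  have hρG : ∀ i j, ρ i ⟨G i j, hG1 i j i⟩ = b₀ i j := fun i j => by
    rw [← hz i j, ← sub_eq_zero, ← map_sub, hker]
    exact hG2 i j
  -- uniformisers in the intersection
  choose u hu1 hu2 hu3 using fun i => exists_multiplier V (t i)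
  have htmem : ∀ i, t i ∈ V i := fun i => ((V i).valuation_le_one_iff _).1 (ht i).le
  have hρu : ∀ i, ρ i ⟨u i, hu1 i i⟩ ≠ 0 := fun i h0 => by
    have := (hker i _).1 h0
    simp only at this
    rw [hu3 i i (htmem i)] at this
    exact lt_irrefl _ this
  -- the adapted family
  let r : (i : ι) → J i → Fin (e i) → F := fun i j s => E i ^ N * G i j * u i ^ (s : ℕ)
  have hrmem : ∀ i j s, r i j s ∈ V i := fun i j s =>
    mul_mem (mul_mem (pow_mem (hEmem i i) _) (hG1 i j i)) (pow_mem (hu1 i i) _)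
  have hρr : ∀ i j s, ρ i ⟨r i j s, hrmem i j s⟩ =
      ρ i ⟨u i, hu1 i i⟩ ^ (s : ℕ) * b₀ i j := fun i j (s : Fin (e i)) => by
    have e1 : (⟨r i j s, hrmem i j s⟩ : V i) =
        ⟨E i, hEmem i i⟩ ^ N * ⟨G i j, hG1 i j i⟩ * ⟨u i, hu1 i i⟩ ^ (s : ℕ) := rfl
    rw [e1, map_mul, map_mul, map_pow, map_pow, hρE, one_pow, one_mul, hρG, mul_comm]
  have hfam : RamFamily O ϖ V t e r :=
    { isOver := hover
      ne_zero := hϖ0
      unifO := hϖ
      genO := hgenO
      unif := ht
      ram := hram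
      r_mem := hrmem
      small := by
        intro i j s i' hi
        have e1 : r i j s * t i ^ (s : ℕ) = E i ^ N * (G i j * (t i * u i) ^ (s : ℕ)) := by
          simp only [r]; ring
        rw [e1, map_mul]
        calc (V i').valuation (E i ^ N) * (V i').valuation (G i j * (t i * u i) ^ (s : ℕ))
            ≤ (V i').valuation (algebraMap K F ϖ) * 1 := by
              gcongr
              · exact hEN i i' hi
              · exact ((V i').valuation_le_one_iff _).2
                  (mul_mem (hG1 i j i') (pow_mem (hu2 i i') _))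
          _ = _ := mul_one _
      indep := by
        intro i s a ha hsmall j
        have hmem : (∑ j, algebraMap K F (a j) * r i j s) ∈ V i :=
          ((V i).valuation_le_one_iff _).1 hsmall.le
        have h0 : ρ i ⟨_, hmem⟩ = 0 := (hker i ⟨_, hmem⟩).2 hsmall
        have e1 : (⟨_, hmem⟩ : V i) =
            ∑ j, (⟨algebraMap K F (a j), ((hover i) (a j)).2 (ha j)⟩ : V i) *
              ⟨r i j s, hrmem i j s⟩ := by
          apply Subtype.ext
          rw [AddSubmonoidClass.coe_finsetSum]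
          simp only [MulMemClass.coe_mul]
        rw [e1, map_sum] at h0
        have h1 : ρ i ⟨u i, hu1 i i⟩ ^ (s : ℕ) * ∑ j, π ⟨a j, ha j⟩ • b₀ i j = 0 := by
          rw [← h0, Finset.mul_sum]
          refine Finset.sum_congr rfl fun j _ => ?_
          rw [map_mul, hρr, Algebra.smul_def, ← hc]
          ring
        have h2 : ∑ j, π ⟨a j, ha j⟩ • b₀ i j = 0 :=
          (mul_eq_zero.1 h1).resolve_left (pow_ne_zero _ (hρu i))
        have := Fintype.linearIndependent_iff.1 (b₀ i).linearIndependent _ h2 j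
        exact (hkerO ⟨a j, ha j⟩).1 this }
  refine hfam.norm_red (J := J) ?_ π ρ (fun a ha => (hkerO a).2 ha)
    (fun i z hz => (hker i z).2 hz) hc
    (fun i s => (b₀ i).map (mulLinearEquiv k (ρ i ⟨u i, hu1 i i⟩ ^ (s : ℕ))
      (pow_ne_zero _ (hρu i)))) ?_ hy
  · rw [← hdeg]
    refine Finset.sum_congr rfl fun i _ => ?_
    rw [Fintype.card_fin]
  · intro i j s
    rw [hρr, Module.Basis.map_apply, mulLinearEquiv_apply]

end Main

end Fermat.Agent.S36.H253

end
-- ===== PACK-END S36/H253/NormRam.lean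

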