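import Mathlib
import Fermat.Prelude.Def_ModularCurve_PeriodMap
import Fermat.Prelude.Def_GaloisRep_Adic
import Fermat.Prelude.Def_GaloisRep_Flat
import Fermat.Prelude.Def_ModularForm_HeckeOperatorForms
import Fermat.Agent.Pack.S43MC.G0E7L2
import Fermat.Agent.Pack.S43MC.G0E0L0
import Fermat.Agent.Pack.S43MC.G0E8L1
import Fermat.Agent.Pack.S43MC.G0E8L3
import Fermat.Agent.Pack.S43MC.G0E7L3
import Fermat.Agent.Pack.S43GC.G0E5L0
import Fermat.Agent.Pack.S44C.G0E6L1
import Fermat.Agent.Pack.S43MC.G0E3L3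
import Fermat.Agent.Pack.S43MC.G0E3L2
import Fermat.Agent.Pack.S43MC.G0E3L0
import Fermat.Agent.Pack.S43GC.G0E4L2
import Fermat.Agent.Pack.S43MC.G0E7L1
import Fermat.Agent.Pack.S43MC.G0E4L3
import Fermat.Agent.Pack.S44C.G0E8L2
import Fermat.Agent.Pack.S43MC.G0E4L2
import Fermat.Agent.Pack.S43MC.G0E9L1
import Fermat.Agent.Pack.Fast891

-- ===== PACK-BEGIN Ribet/H943/AtQ.lean
section


/-!
# Row RIBET, piece P1q: abstract Mazur principle at `q ≠ p` (Frey form), pure algebra

`mazurPrinciple_of : Embed → ToricPackage → DetFrob → TorsionRank → NonEisenstein → Places →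
EigenformOfOccurs → AlmostAllToWitness → MazurPrincipleStatement`.
-/

set_option autoImplicit false

open WeierstrassCurve WeierstrassCurve.Affine WeierstrassCurve.Affine.Point
open CuspForm ModularFormClass UpperHalfPlane ModularCurve

namespace Fermat.Agent.Ribet

open Spec

theorem freyTorsion_nsmul (P : FreyPackage) (x : FreyTorsion P) : P.p • x = 0 := by
  apply Subtype.ext
  have h := x.2
  rw [Submodule.mem_torsionBy_iff] at h
  rw [Submodule.coe_smul_of_tower, ZeroMemClass.coe_zero, ← h, Nat.cast_smul_eq_nsmul]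

/-- Bezout: if `d * q + e * p = 1` and `p • y = 0` then `d • (q • y) = y`. -/
theorem bezout_zsmul_nsmul {G : Type*} [AddCommGroup G] (y : G) (p q : ℕ) (d e : ℤ)
    (hde : d * (q : ℤ) + e * (p : ℤ) = 1) (hp : p • y = 0) : d • (q • y) = y := by
  have h : y = d • (q • y) + e • (p • y) := by
    match_scalars
    push_cast
    linear_combination -hde
  rw [hp, smul_zero, add_zero] at h
  exact h.symm

/-- Bezout, integer version: if `d * c + e * p = 1` and `p • y = 0` then `d • (c • y) = y`. -/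
theorem bezout_zsmul_zsmul {G : Type*} [AddCommGroup G] (y : G) (p : ℕ) (c d e : ℤ)
    (hde : d * c + e * (p : ℤ) = 1) (hp : p • y = 0) : d • (c • y) = y := by
  have h : y = d • (c • y) + e • (p • y) := by
    match_scalars
    push_cast
    linear_combination -hde
  rw [hp, smul_zero, add_zero] at h
  exact h.symm

/-- Linear algebra core: an `𝔽_p`-linear involution `U` commuting with an irreducible action
is `±1`; if moreover `φ = c·U` with `c` a scalar then `det φ = c ^ 2` in rank two. -/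
theorem det_eq_sq_of_involution (P : FreyPackage)
    (hirr : GaloisRepIsIrreducible (K := AlgebraicClosure ℚ) ℚ P.freyCurve P.p)
    (hdim : Module.finrank (ZMod P.p) (FreyTorsion P) = 2)
    (U : FreyTorsion P →ₗ[ZMod P.p] FreyTorsion P)
    (hUG : ∀ (σ : GQ) (x : FreyTorsion P), U (σ • x) = σ • U x)
    (hUU : ∀ x, U (U x) = x) (φ : GQ) (c : ZMod P.p)
    (hφ : ∀ x : FreyTorsion P, φ • x = c • U x) :
    LinearMap.det (galoisRepModuleEnd (S := ℚ) (K := AlgebraicClosure ℚ) P.freyCurve P.p φ)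
      = c ^ 2 := by
  haveI : Fact P.p.Prime := ⟨P.pp⟩
  have hp2 : (2 : ZMod P.p) ≠ 0 := by
    intro h
    have h2 : ((2 : ℕ) : ZMod P.p) = 0 := by exact_mod_cast h
    rw [ZMod.natCast_eq_zero_iff] at h2
    have := Nat.le_of_dvd (by norm_num) h2
    have := P.hp5
    omega
  let Vp : Submodule (ZMod P.p) (FreyTorsion P) := LinearMap.ker (U - LinearMap.id)
  let Vm : Submodule (ZMod P.p) (FreyTorsion P) := LinearMap.ker (U + LinearMap.id)
  have hVp : ∀ x, x ∈ Vp ↔ U x = x := fun x => by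
    simp only [Vp, LinearMap.mem_ker, LinearMap.sub_apply, LinearMap.id_apply, sub_eq_zero]
  have hVm : ∀ x, x ∈ Vm ↔ U x = -x := fun x => by
    simp only [Vm, LinearMap.mem_ker, LinearMap.add_apply, LinearMap.id_apply,
      add_eq_zero_iff_eq_neg]
  have hsp : IsGaloisStable ℚ Vp := fun σ x hx => by
    rw [hVp] at hx ⊢
    rw [hUG, hx]
  have hsm : IsGaloisStable ℚ Vm := fun σ x hx => by
    rw [hVm] at hx ⊢
    rw [hUG, hx, smul_neg]
  have key : (∀ x, U x = x) ∨ (∀ x, U x = -x) := by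
    rcases hirr.2 Vp hsp with hp | hp
    · rcases hirr.2 Vm hsm with hm | hm
      · exfalso
        obtain ⟨x, y, hxy⟩ := hirr.1
        have hz : ∀ z : FreyTorsion P, z = 0 := by
          intro z
          have h1 : z + U z ∈ Vp := by
            rw [hVp, map_add, hUU, add_comm]
          rw [hp, Submodule.mem_bot] at h1
          have h2 : z ∈ Vm := by
            rw [hVm]
            exact (eq_neg_of_add_eq_zero_right h1)
          rwa [hm, Submodule.mem_bot] at h2
        exact hxy ((hz x).trans (hz y).symm)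
      · right
        intro x
        exact (hVm x).1 (hm ▸ Submodule.mem_top)
    · left
      intro x
      exact (hVp x).1 (hp ▸ Submodule.mem_top)
  rcases key with h | h
  · have e : galoisRepModuleEnd (S := ℚ) (K := AlgebraicClosure ℚ) P.freyCurve P.p φ
        = c • (LinearMap.id : FreyTorsion P →ₗ[ZMod P.p] FreyTorsion P) := by
      ext x
      rw [galoisRepModuleEnd_apply, hφ, h]
      rfl
    rw [e, LinearMap.det_smul, hdim, LinearMap.det_id, mul_one]
  · have e : galoisRepModuleEnd (S := ℚ) (K := AlgebraicClosure ℚ) P.freyCurve P.p φ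
        = (-c) • (LinearMap.id : FreyTorsion P →ₗ[ZMod P.p] FreyTorsion P) := by
      ext x
      rw [galoisRepModuleEnd_apply, hφ, h]
      simp
    rw [e, LinearMap.det_smul, hdim, LinearMap.det_id, mul_one, neg_sq]

/-- (P1q) abstract Mazur principle at `q ≠ p`, Frey form. -/
theorem mazurPrinciple_of (hE : EmbedStatement) (hT : ToricPackageStatement)
    (hDet : DetFrobStatement) (hDim : TorsionRankStatement) (hNE : NonEisensteinStatement)
    (hPl : PlacesStatement) (hR3 : EigenformOfOccursStatement)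
    (hR3' : AlmostAllToWitnessStatement) : MazurPrincipleStatement := by
  intro P L q hLpos hq hqp hqL hsq hirr hmod hunr hq1
  obtain ⟨M', rfl⟩ := hqL
  have hM'pos : 0 < M' := by
    rcases Nat.eq_zero_or_pos M' with h0 | h0
    · subst h0; simp at hLpos
    · exact h0
  rw [Nat.mul_div_cancel_left M' hq.pos]
  have hqM' : ¬ q ∣ M' := by
    rintro ⟨k, rfl⟩
    exact hsq ⟨k, by ring⟩
  haveI : NeZero M' := ⟨hM'pos.ne'⟩
  haveI : NeZero (q * M') := ⟨hLpos.ne'⟩
  haveI : Fact P.p.Prime := ⟨P.pp⟩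
  obtain ⟨f, W, 𝔪, hwit⟩ := hmod
  have hwit' : P.IsCongruentWitness (q * M') f W 𝔪 := hwit
  obtain ⟨S, ι, hinj, hgal, hhecke⟩ := hE P (q * M') hirr f W 𝔪 hwit'
  obtain ⟨A, hA', φ, hφ⟩ := hPl q hq
  obtain ⟨𝒯, 𝓕, β, u, -, -, hEis, hβeq, hker, huG, -, huu, hφ𝒯⟩ :=
    hT M' q P.p hq P.pp hqp hqM' A hA'
  have hp_tors : ∀ x, P.p • ι x = 0 := fun x => by
    rw [← map_nsmul, freyTorsion_nsmul, _root_.map_zero]
  have hfix : ∀ σ ∈ A.inertiaSubgroupIn ℚ, ∀ x, σ • ι x = ι x := fun σ hσ x => by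
    rw [← hgal]
    exact congrArg ι (hunr A hA' σ hσ x)
  -- a non-Eisenstein prime puts `ι(E[p])` in the finite part
  set S' : Finset ℕ := S ∪ (q * M' * P.p).primeFactors with hS'
  obtain ⟨ℓ, hℓ, hℓS', -, hne⟩ := hNE P W hwit.2.1 hirr S'
  have hℓS : ℓ ∉ S := fun h => hℓS' (Finset.mem_union_left _ h)
  have hℓN : ¬ ℓ ∣ q * M' * P.p := by
    intro h
    apply hℓS'
    apply Finset.mem_union_right
    rw [Nat.mem_primeFactors]
    exact ⟨hℓ, h, (Nat.mul_pos hLpos P.pp.pos).ne'⟩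
  have hι𝓕 : ∀ x, ι x ∈ 𝓕 := by
    intro x
    have h1 : (W.apOfModel ℓ - ((ℓ : ℤ) + 1)) • ι x ∈ 𝓕 := by
      have h := hEis (ι x) (hp_tors x) (fun σ hσ => hfix σ hσ x) ⟨ℓ, hℓ⟩ hℓN
      rw [hhecke ⟨ℓ, hℓ⟩ hℓS x] at h
      have e : (W.apOfModel ℓ - ((ℓ : ℤ) + 1)) • ι x
          = W.apOfModel ℓ • ι x - (ℓ + 1) • ι x := by
        rw [sub_smul]
        congr 1
      rw [e]
      exact h
    have hcop : IsCoprime (W.apOfModel ℓ - ((ℓ : ℤ) + 1)) (P.p : ℤ) := by
      rw [isCoprime_comm]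
      exact (Nat.prime_iff_prime_int.mp P.pp).coprime_iff_not_dvd.2 hne
    obtain ⟨d, e, hde⟩ := hcop
    rw [← bezout_zsmul_zsmul (ι x) P.p _ d e hde (hp_tors x)]
    exact 𝓕.zsmul_mem h1 d
  by_cases hall : ∀ x, β ⟨ι x, hι𝓕 x⟩ = 0
  · exfalso
    have hι𝒯 : ∀ x, ι x ∈ 𝒯 := fun x => hker ⟨ι x, hι𝓕 x⟩ (hall x)
    have hcopq : IsCoprime (q : ℤ) (P.p : ℤ) := by
      rw [isCoprime_comm]
      refine (Nat.prime_iff_prime_int.mp P.pp).coprime_iff_not_dvd.2 ?_
      intro h
      have h' : P.p ∣ q := by exact_mod_cast h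
      exact hqp ((Nat.prime_dvd_prime_iff_eq P.pp hq).1 h').symm
    obtain ⟨d, e, hde⟩ := hcopq
    have hu : ∀ x, u (ι x) = ι (d • (φ • x)) := by
      intro x
      have h1 : φ • ι x = q • u (ι x) := hφ𝒯 φ hφ (ι x) (hι𝒯 x)
      have h2 : P.p • u (ι x) = 0 := by rw [← map_nsmul, hp_tors, _root_.map_zero]
      calc u (ι x) = d • (q • u (ι x)) := (bezout_zsmul_nsmul _ P.p q d e hde h2).symm
        _ = d • (φ • ι x) := by rw [h1]
        _ = ι (d • (φ • x)) := by rw [map_zsmul, hgal]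
    -- the involution on `E[p]`
    let U : FreyTorsion P →ₗ[ZMod P.p] FreyTorsion P :=
      (d : ZMod P.p) • galoisRepModuleEnd (S := ℚ) (K := AlgebraicClosure ℚ) P.freyCurve P.p φ
    have hUdef : ∀ x, U x = d • (φ • x) := fun x => by
      show (d : ZMod P.p) • (φ • x) = d • (φ • x)
      exact Int.cast_smul_eq_zsmul (ZMod P.p) d (φ • x)
    have hιU : ∀ x, ι (U x) = u (ι x) := fun x => by rw [hUdef, hu]
    have hUG : ∀ (σ : GQ) (x : FreyTorsion P), U (σ • x) = σ • U x := fun σ x => by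
      apply hinj
      rw [hιU, hgal, huG, hgal, hιU]
    have hUU : ∀ x, U (U x) = x := fun x => by
      apply hinj
      rw [hιU, hιU, huu _ (hι𝒯 x)]
    have hφU : ∀ x : FreyTorsion P, φ • x = (q : ZMod P.p) • U x := fun x => by
      rw [hUdef, Nat.cast_smul_eq_nsmul]
      have h3 : d • (q • (φ • x)) = φ • x :=
        bezout_zsmul_nsmul _ P.p q d e hde (freyTorsion_nsmul P _)
      rw [smul_comm] at h3
      exact h3.symm
    have hdet := det_eq_sq_of_involution P hirr (hDim P) U hUG hUU φ (q : ZMod P.p) hφU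
    rw [hDet P q hq hqp A hA' φ hφ] at hdet
    -- `q = q²` in `𝔽_p` forces `p ∣ q - 1`
    have hq0 : (q : ZMod P.p) ≠ 0 := by
      intro h
      rw [ZMod.natCast_eq_zero_iff] at h
      exact hqp ((Nat.prime_dvd_prime_iff_eq P.pp hq).1 h).symm
    have hq1' : (q : ZMod P.p) = 1 := by
      have : (q : ZMod P.p) * ((q : ZMod P.p) - 1) = 0 := by
        rw [mul_sub, mul_one, ← pow_two, ← hdet, sub_self]
      rcases mul_eq_zero.1 this with h | h
      · exact absurd h hq0
      · exact sub_eq_zero.1 h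
    apply hq1
    have : ((q - 1 : ℕ) : ZMod P.p) = 0 := by
      rw [Nat.cast_sub hq.one_le, hq1']
      simp
    exact (ZMod.natCast_eq_zero_iff _ _).1 this
  · push Not at hall
    obtain ⟨x, hx⟩ := hall
    have hocc : OccursIn M' P.p S' (fun ℓ => W.apOfModel ℓ) := by
      refine occursIn_of_pair (β ⟨ι x, hι𝓕 x⟩) hx ?_ ?_
      · rw [← map_nsmul]
        have : P.p • (⟨ι x, hι𝓕 x⟩ : 𝓕) = 0 := by
          apply Subtype.ext
          simpa using hp_tors x
        rw [this, _root_.map_zero]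
      · intro r hr
        have hrS : (r : ℕ) ∉ S := fun h => hr (Finset.mem_union_left _ h)
        have hrM : ¬ (r : ℕ) ∣ q * M' * P.p := by
          intro h
          apply hr
          apply Finset.mem_union_right
          rw [Nat.mem_primeFactors]
          exact ⟨r.2, h, (Nat.mul_pos hLpos P.pp.pos).ne'⟩
        obtain ⟨hx', hβ⟩ := hβeq r hrM ⟨ι x, hι𝓕 x⟩
        rw [← hβ, ← map_zsmul]
        congr 1
        apply Subtype.ext
        simpa using hhecke r hrS x
    obtain ⟨g, 𝔪', hg, hmax, hp, hc⟩ := hR3 M' P.p P.pp S' (fun ℓ => W.apOfModel ℓ) hocc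
    exact ⟨g, W, 𝔪', hR3' P M' hM'pos g W 𝔪' S' hg hwit.2.1 hmax hp hc⟩

end Fermat.Agent.Ribet

end
-- ===== PACK-END Ribet/H943/AtQ.lean

-- ===== PACK-BEGIN Ribet/H723/Row37Split.lean
section


/-!
# Row 37 (S38 | S43): the split scalar / non-scalar Frobenius  (helper723)

`Row37.HardCaseStatement` (on main) is level lowering at `q ‖ L` for ALL `q ≡ 1 mod p`, while
Mazur's principle `Spec.MazurPrincipleStatement` / the wall `Spec.AtQOccursStatement` are stated
for `q ≢ 1 mod p` only.  The Ihara-avoidance route treats the case where `ρ̄|_{D_q}` is SCALAR.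
The remaining case (`q ≡ 1 mod p`, Frobenius at `q` NOT scalar on `E[p]`) is covered by the proof
of Mazur's principle verbatim: that proof shows that Frobenius acts on `E[p]` through the
scalar `± q`, and only then uses `det = q` to get `q ≡ 1 mod p`.

This file freezes the two refined interfaces and proves the glue:

* `AtQOccursPlusStatement` / `MazurPrinciplePlusStatement` : exclusion
  `¬ p ∣ q - 1 ∨ ¬ FrobScalarAt P q`;
* `HardScalarStatement` : level lowering under `p ∣ q - 1` AND `FrobScalarAt P q`;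
* `hardCase_of_split`, `levelLowering_of_split`, `S43_of_split`, `S43_of_wallqPlus_hardScalar`.

No new mathematics: definitions and logic only.
-/

set_option autoImplicit false
set_option linter.style.haveILetI false

open WeierstrassCurve WeierstrassCurve.Affine WeierstrassCurve.Affine.Point
open CuspForm ModularFormClass UpperHalfPlane ModularCurve

namespace Fermat.Agent.Ribet.H723

open Fermat.Agent.Ribet Fermat.Agent.Ribet.Spec Fermat.Agent.Ribet.H943

/-- Every Frobenius element at every place over `q` acts on `E[p]` as a scalar. -/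
def FrobScalarAt (P : FreyPackage) (q : ℕ) : Prop :=
  ∀ A : ValuationSubring (AlgebraicClosure ℚ), A.LiesOverPrime q →
    ∀ σ : GQ, A.IsFrobeniusAt σ q → ∃ c : ℤ, ∀ x : FreyTorsion P, σ • x = c • x

/-- Some Frobenius element at some place over `q` does not act on `E[p]` as a scalar. -/
theorem not_frobScalarAt_iff (P : FreyPackage) (q : ℕ) :
    ¬ FrobScalarAt P q ↔
      ∃ A : ValuationSubring (AlgebraicClosure ℚ), A.LiesOverPrime q ∧
        ∃ σ : GQ, A.IsFrobeniusAt σ q ∧ ∀ c : ℤ, ∃ x : FreyTorsion P, σ • x ≠ c • x := by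
  unfold FrobScalarAt
  push Not
  constructor
  · rintro ⟨A, hA, σ, hσ, h⟩
    exact ⟨A, hA, σ, hσ, h⟩
  · rintro ⟨A, hA, σ, hσ, h⟩
    exact ⟨A, hA, σ, hσ, h⟩

/-- (WALL-q⁺)  Mazur's principle at `q ≠ p`, support form, with the SHARP exclusion: either
`q ≢ 1 mod p` or Frobenius at `q` is not scalar on `E[p]`. -/
def AtQOccursPlusStatement : Prop :=
  ∀ (P : FreyPackage) (M' q : ℕ) [NeZero M'] [NeZero (q * M')], q.Prime → q ≠ P.p →
    ¬ q ∣ M' →
    GaloisRepIsIrreducible (K := AlgebraicClosure ℚ) ℚ P.freyCurve P.p →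
    P.GaloisRepUnramifiedAt q → (¬ P.p ∣ q - 1 ∨ ¬ FrobScalarAt P q) →
    ∀ (S : Finset ℕ) (a : ℕ → ℤ), FreyEmbedsIn P (q * M') S a →
      ∃ S' : Finset ℕ, S ⊆ S' ∧ OccursIn M' P.p S' a

/-- (MPq⁺)  Mazur's principle at `q ≠ p`, Frey form, general level, SHARP exclusion. -/
def MazurPrinciplePlusStatement : Prop :=
  ∀ (P : FreyPackage) {L q : ℕ}, 0 < L → q.Prime → q ≠ P.p → q ∣ L → ¬ q ^ 2 ∣ L →
    GaloisRepIsIrreducible (K := AlgebraicClosure ℚ) ℚ P.freyCurve P.p →
    P.ModularRepOfLevel L → P.GaloisRepUnramifiedAt q →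
    (¬ P.p ∣ q - 1 ∨ ¬ FrobScalarAt P q) →
    P.ModularRepOfLevel (L / q)

/-- (HARD-scalar)  Level lowering at `q ≠ p`, `q ‖ L`, when `q ≡ 1 mod p` and Frobenius at `q`
acts on `E[p]` as a scalar (the only case that needs the pivot / Ihara avoidance). -/
def HardScalarStatement : Prop :=
  ∀ (P : FreyPackage) {L q : ℕ}, 0 < L → q.Prime → q ≠ P.p → q ∣ L → ¬ q ^ 2 ∣ L →
    GaloisRepIsIrreducible (K := AlgebraicClosure ℚ) ℚ P.freyCurve P.p →
    P.ModularRepOfLevel L → P.GaloisRepUnramifiedAt q → P.p ∣ q - 1 → FrobScalarAt P q →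
    P.ModularRepOfLevel (L / q)

/-- The sharp wall implies the wall on main. -/
theorem atQOccurs_of_plus (h : AtQOccursPlusStatement) : AtQOccursStatement :=
  fun P M' q _ _ hq hqp hqM' hirr hunr hq1 S a hemb =>
    h P M' q hq hqp hqM' hirr hunr (Or.inl hq1) S a hemb

/-- The sharp Mazur principle implies the one on main. -/
theorem mazurPrinciple_of_plus (h : MazurPrinciplePlusStatement) : MazurPrincipleStatement :=
  fun P _ _ hL hq hqp hqL hsq hirr hmod hunr hq1 =>
    h P hL hq hqp hqL hsq hirr hmod hunr (Or.inl hq1)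

/-- The hard case on main implies the scalar hard case. -/
theorem hardScalar_of_hardCase (h : Row37.HardCaseStatement) : HardScalarStatement :=
  fun P _ _ hL hq hqp hqL hsq hirr hmod hunr hq1 _ =>
    h P hL hq hqp hqL hsq hirr hmod hunr hq1

/-- **The hard case on main from the sharp Mazur principle and the scalar hard case.** -/
theorem hardCase_of_split (hMP : MazurPrinciplePlusStatement) (hH : HardScalarStatement) :
    Row37.HardCaseStatement := by
  intro P L q hL hq hqp hqL hsq hirr hmod hunr hq1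
  by_cases hsc : FrobScalarAt P q
  · exact hH P hL hq hqp hqL hsq hirr hmod hunr hq1 hsc
  · exact hMP P hL hq hqp hqL hsq hirr hmod hunr (Or.inr hsc)

/-- **Level lowering from the sharp Mazur principle and the scalar hard case.** -/
theorem levelLowering_of_split (hMP : MazurPrinciplePlusStatement) (hH : HardScalarStatement) :
    Row37.LevelLoweringStatement :=
  Row37.levelLowering_of (mazurPrinciple_of_plus hMP) (hardCase_of_split hMP hH)

/-- **S43 from the sharp Mazur principle and the scalar hard case.** -/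
theorem S43_of_split (hMP : MazurPrinciplePlusStatement) (hH : HardScalarStatement) :
    S43Statement :=
  Row37.S43_of_levelLowering (levelLowering_of_split hMP hH)

/-- The sharp Mazur principle from the sharp support-form wall at `q`:
`MPq⁺ ⇐ BLR + WALL-q⁺ + R3S + R3'` (same proof as `Spec.mazurPrinciple_of_walls`). -/
theorem mazurPrinciplePlus_of_walls (hE : EmbedStatement) (hWall : AtQOccursPlusStatement)
    (hR3 : EigenformOfOccursAwayStatement) (hR3' : AlmostAllToWitnessStatement) :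
    MazurPrinciplePlusStatement := by
  intro P L q hLpos hq hqp hqL hsq hirr hmod hunr hq1
  obtain ⟨M', rfl⟩ := hqL
  have hM'pos : 0 < M' := by
    rcases Nat.eq_zero_or_pos M' with h0 | h0
    · subst h0; simp at hLpos
    · exact h0
  rw [Nat.mul_div_cancel_left M' hq.pos]
  have hqM' : ¬ q ∣ M' := by
    rintro ⟨k, rfl⟩
    exact hsq ⟨k, by ring⟩
  haveI : NeZero M' := ⟨hM'pos.ne'⟩
  haveI : NeZero (q * M') := ⟨hLpos.ne'⟩
  obtain ⟨f, W, 𝔪, hwit⟩ := hmod
  have hwit' : P.IsCongruentWitness (q * M') f W 𝔪 := hwit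
  obtain ⟨S, hemb⟩ := hE P (q * M') hirr f W 𝔪 hwit'
  obtain ⟨S', -, hocc⟩ := hWall P M' q hq hqp hqM' hirr hunr hq1 S _ hemb
  obtain ⟨g, 𝔪', hg, hmax, hp, hc⟩ := exists_eigenform_of_occursIn hR3 P.pp hocc
  exact ⟨g, W, 𝔪', hR3' P M' hM'pos g W 𝔪' _ hg hwit.2.1 hmax hp hc⟩

/-- **S43 from the sharp wall at `q` (support form) and the scalar hard case.** -/
theorem S43_of_wallqPlus_hardScalar (hE : EmbedStatement) (hWall : AtQOccursPlusStatement)
    (hR3 : EigenformOfOccursAwayStatement) (hR3' : AlmostAllToWitnessStatement)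
    (hH : HardScalarStatement) : S43Statement :=
  S43_of_split (mazurPrinciplePlus_of_walls hE hWall hR3 hR3') hH

end Fermat.Agent.Ribet.H723

end
-- ===== PACK-END Ribet/H723/Row37Split.lean

-- ===== PACK-BEGIN S25/H927/GeomConn.lean
section



/-!
# S25, assembly block AS3: `Abel → GeomConnOfRep`

`geomConnOfRep_of_abel : Stmt.Abel c ε → Stmt.GeomConnOfRep c ε`.
-/

set_option autoImplicit false
universe u
open CategoryTheory CategoryTheory.Limits AlgebraicGeometry AlgebraicGeometry.RelPicard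
  NeronModelInfra GoodReductionJacobian

namespace Fermat.Agent.S25.H927

noncomputable section

variable {k : Type u} [Field k] {C : Scheme.{u}} {c : C ⟶ Spec (CommRingCat.of k)}
  {ε : SchemeHomOver (𝟙 (Spec (CommRingCat.of k))) c}

/-- The target of a surjective morphism from a geometrically integral scheme is geometrically
connected. -/
theorem geometricallyConnected_of_surjective {X J S : Scheme.{u}} (a : X ⟶ J) (f : J ⟶ S)
    [Surjective a] [GeometricallyIntegral (a ≫ f)] : GeometricallyConnected f := by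
  refine ⟨geometrically_iff_of_isClosedUnderIsomorphisms.mpr fun K _ y => ?_⟩
  -- `X ×_S Spec K` is integral, hence connected
  have hint : IsIntegral (pullback (a ≫ f) y) :=
    pullback_of_geometrically (GeometricallyIntegral.geometrically_isIntegral (f := a ≫ f)) K y
  have hconn : ConnectedSpace (pullback (a ≫ f) y : Scheme.{u}) := inferInstance
  -- `X ×_J (J ×_S Spec K) ≅ X ×_S Spec K`
  let e := pullbackRightPullbackFstIso f y a
  have hconn' : ConnectedSpace (pullback a (pullback.fst f y) : Scheme.{u}) :=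
    e.hom.homeomorph.connectedSpace_iff.mpr hconn
  -- the projection to `J ×_S Spec K` is surjective
  have hsurj : Surjective (pullback.snd a (pullback.fst f y)) := inferInstance
  exact (pullback.snd a (pullback.fst f y)).surjective.connectedSpace
    (pullback.snd a (pullback.fst f y)).continuous

/-- **AS3.** `Abel → GeomConnOfRep`. -/
theorem geomConnOfRep_of_abel (hAbel : Stmt.Abel c ε) : Stmt.GeomConnOfRep c ε := by
  intro D ⟨h⟩ _
  obtain ⟨X, x, -, hgi, M, hM, hall⟩ := hAbel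
  let α := h.classify x M hM
  have hα : RIso (h.poincare.pullbackAlong α) M := h.classify_spec x M hM
  have hsurj : Surjective α.1 := surjective_of_family h M hall α hα
  have hgi' : GeometricallyIntegral (α.1 ≫ D.toBase) := by
    rw [α.2]
    exact hgi
  exact geometricallyConnected_of_surjective α.1 D.toBase

end

end Fermat.Agent.S25.H927

end
-- ===== PACK-END S25/H927/GeomConn.lean

-- ===== PACK-BEGIN S25/H265/GDCCurve.lean
section


/-!
# S25 / helper265, block GDC, part 3: base change calculus for `CurveGD`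

`CurveGD.IsBC φ` (base change of gluing data on `C_A` along `φ : A → A'`): identities,
composites, uniqueness up to isomorphism, invariance under isomorphism, cancellation.
-/

set_option autoImplicit false
set_option linter.style.haveILetI false

universe u

open scoped TensorProduct

namespace Fermat.Agent.S25.H265

open Fermat.Agent.S25 GlueDatum

section Maps

variable {k : Type u} [Field k]

theorem tensorMapLeft_apply_tmul {A A' : Type u} [CommRing A] [Algebra k A] [CommRing A']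
    [Algebra k A'] (φ : A →ₐ[k] A') (B : Type u) [CommRing B] [Algebra k B] (a : A) (b : B) :
    tensorMapLeft k φ B (a ⊗ₜ[k] b) = φ a ⊗ₜ[k] b := by
  simp [tensorMapLeft]

theorem tensorMapLeft_id (A : Type u) [CommRing A] [Algebra k A] (B : Type u) [CommRing B]
    [Algebra k B] : tensorMapLeft k (AlgHom.id k A) B = RingHom.id (A ⊗[k] B) := by
  refine RingHom.ext fun x => ?_
  induction x using TensorProduct.induction_on with
  | zero => simp
  | tmul a b => simp [tensorMapLeft_apply_tmul]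
  | add x y hx hy => simp [hx, hy]

theorem tensorMapLeft_comp {A A' A'' : Type u} [CommRing A] [Algebra k A] [CommRing A']
    [Algebra k A'] [CommRing A''] [Algebra k A''] (φ : A →ₐ[k] A') (ψ : A' →ₐ[k] A'')
    (B : Type u) [CommRing B] [Algebra k B] :
    tensorMapLeft k (ψ.comp φ) B = (tensorMapLeft k ψ B).comp (tensorMapLeft k φ B) := by
  refine RingHom.ext fun x => ?_
  induction x using TensorProduct.induction_on with
  | zero => simp
  | tmul a b => simp [tensorMapLeft_apply_tmul]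
  | add x y hx hy => simp [hx, hy]

theorem algebraMap_tensor_apply_tmul (A B B' : Type u) [CommRing A] [Algebra k A] [CommRing B]
    [CommRing B'] [Algebra k B] [Algebra k B'] [Algebra B B'] [IsScalarTower k B B'] (a : A)
    (b : B) : algebraMap (A ⊗[k] B) (A ⊗[k] B') (a ⊗ₜ[k] b) = a ⊗ₜ[k] algebraMap B B' b := by
  change tensorMapRight k A B B' (a ⊗ₜ[k] b) = _
  simp [tensorMapRight]

/-- `tensorMapLeft φ` is a morphism of cospans. -/
theorem tensorMapLeft_algebraMap {A A' : Type u} [CommRing A] [Algebra k A] [CommRing A']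
    [Algebra k A'] (φ : A →ₐ[k] A') (B B' : Type u) [CommRing B] [CommRing B'] [Algebra k B]
    [Algebra k B'] [Algebra B B'] [IsScalarTower k B B'] (r : A ⊗[k] B) :
    tensorMapLeft k φ B' (algebraMap (A ⊗[k] B) (A ⊗[k] B') r) =
      algebraMap (A' ⊗[k] B) (A' ⊗[k] B') (tensorMapLeft k φ B r) := by
  induction r using TensorProduct.induction_on with
  | zero => simp
  | tmul a b => simp [tensorMapLeft_apply_tmul, algebraMap_tensor_apply_tmul]
  | add x y hx hy => simp [hx, hy]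

end Maps

section CurveBC

variable {k : Type u} [Field k] {B₀ B₁ B₀₁ : Type u} [CommRing B₀] [CommRing B₁] [CommRing B₀₁]
  [Algebra k B₀] [Algebra k B₁] [Algebra k B₀₁] [Algebra B₀ B₀₁] [Algebra B₁ B₀₁]
  [IsScalarTower k B₀ B₀₁] [IsScalarTower k B₁ B₀₁]
  {A A' A'' : Type u} [CommRing A] [Algebra k A] [CommRing A'] [Algebra k A']
  [CommRing A''] [Algebra k A'']

/-- Every gluing datum is its own base change along the identity. -/
theorem curveGD_isBC_id (G : CurveGD k B₀ B₁ B₀₁ A) : CurveGD.IsBC (AlgHom.id k A) G G :=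
  IsBC.congr (tensorMapLeft_id A B₀).symm (tensorMapLeft_id A B₁).symm
    (tensorMapLeft_id A B₀₁).symm (isBC_id G)

/-- Composition of base changes of curve gluing data. -/
theorem curveGD_isBC_comp {φ : A →ₐ[k] A'} {ψ : A' →ₐ[k] A''} {G : CurveGD k B₀ B₁ B₀₁ A}
    {G' : CurveGD k B₀ B₁ B₀₁ A'} {G'' : CurveGD k B₀ B₁ B₀₁ A''}
    (h : CurveGD.IsBC φ G G') (h' : CurveGD.IsBC ψ G' G'') :
    CurveGD.IsBC (ψ.comp φ) G G'' :=
  IsBC.congr (tensorMapLeft_comp φ ψ B₀).symm (tensorMapLeft_comp φ ψ B₁).symm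
    (tensorMapLeft_comp φ ψ B₀₁).symm (IsBC.comp h h')

/-- Base change of curve gluing data is unique up to isomorphism. -/
theorem curveGD_isIso_of_isBC {φ : A →ₐ[k] A'} {G : CurveGD k B₀ B₁ B₀₁ A}
    {G' G'' : CurveGD k B₀ B₁ B₀₁ A'} (h : CurveGD.IsBC φ G G') (h' : CurveGD.IsBC φ G G'') :
    G'.IsIso G'' :=
  isIso_of_isBC h h'

/-- `CurveGD.IsBC` is invariant under isomorphism of the target. -/
theorem curveGD_isBC_of_isIso_right {φ : A →ₐ[k] A'} {G : CurveGD k B₀ B₁ B₀₁ A}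
    {G' G'' : CurveGD k B₀ B₁ B₀₁ A'} (h : CurveGD.IsBC φ G G') (e : G'.IsIso G'') :
    CurveGD.IsBC φ G G'' :=
  IsBC.of_isIso_right h e

/-- `CurveGD.IsBC` is invariant under isomorphism of the source. -/
theorem curveGD_isBC_of_isIso_left {φ : A →ₐ[k] A'} {G G₁ : CurveGD k B₀ B₁ B₀₁ A}
    {G' : CurveGD k B₀ B₁ B₀₁ A'} (e : G.IsIso G₁) (h : CurveGD.IsBC φ G G') :
    CurveGD.IsBC φ G₁ G' :=
  IsBC.of_isIso_left e h

/-- Cancellation for base change of curve gluing data. -/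
theorem curveGD_isBC_of_comp {φ : A →ₐ[k] A'} {ψ : A' →ₐ[k] A''} {G : CurveGD k B₀ B₁ B₀₁ A}
    {G' : CurveGD k B₀ B₁ B₀₁ A'} {G'' : CurveGD k B₀ B₁ B₀₁ A''}
    (h : CurveGD.IsBC φ G G') (hc : CurveGD.IsBC (ψ.comp φ) G G'') :
    CurveGD.IsBC ψ G' G'' :=
  IsBC.of_comp (tensorMapLeft_algebraMap ψ B₀ B₀₁) (tensorMapLeft_algebraMap ψ B₁ B₀₁) h
    (IsBC.congr (tensorMapLeft_comp φ ψ B₀) (tensorMapLeft_comp φ ψ B₁)
      (tensorMapLeft_comp φ ψ B₀₁) hc)

/-- Variant of cancellation with the composite given up to equality. -/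
theorem curveGD_isBC_of_comp_eq {φ : A →ₐ[k] A'} {ψ : A' →ₐ[k] A''} {χ : A →ₐ[k] A''}
    (hχ : χ = ψ.comp φ) {G : CurveGD k B₀ B₁ B₀₁ A}
    {G' : CurveGD k B₀ B₁ B₀₁ A'} {G'' : CurveGD k B₀ B₁ B₀₁ A''}
    (h : CurveGD.IsBC φ G G') (hc : CurveGD.IsBC χ G G'') :
    CurveGD.IsBC ψ G' G'' := by
  subst hχ
  exact curveGD_isBC_of_comp h hc

end CurveBC

end Fermat.Agent.S25.H265

end
-- ===== PACK-END S25/H265/GDCCurve.lean

-- ===== PACK-BEGIN S36/H890/Unit9B.lean
section


/-!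
# `g₉` is a unit of every chart in residue characteristic `2` (helper890, S36 cell REG, `q = 2`)

Mathlib + `S18.H138.chart` only.

* `three_inv_mem_of_two_mem_nonunits` : `2 ∈ 𝔪_V ⟹ 3⁻¹ ∈ V`;
* `exists_g9_unit` : `B` a subalgebra of `F` containing `j`, `t`, `3⁻¹`, with
  `j t⁹ Q(t) = (t + 9)³ (t³ + 243 Q(t))³`: for every `k` there are `g, g' ∈ B` with
  `g = (Q(t)⁵ (t³)⁻¹) ^ k` in `F` and `g g' = 1`;
* `not_mem_of_mul_eq_one` : a unit of `B` lies in no proper ideal — so `g ∉ 𝔪` at EVERY closed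
  point `𝔪` of the chart: hypothesis `hg` of `H878.principalAt_of_unit_self'` with the `g` of
  `H934.hres_transfer9`.
-/

set_option autoImplicit false

noncomputable section

namespace Fermat.Agent.S36.H890

open Fermat.Agent.S18.H138

/-- `2 ∈ 𝔪_V ⟹ 3` is a unit of `V`. -/
theorem three_inv_mem_of_two_mem_nonunits {L : Type*} [Field L] (V : ValuationSubring L)
    (h2 : (2 : L) ∈ V.nonunits) : (3 : L)⁻¹ ∈ V := by
  have hv2 : V.valuation (2 : L) < 1 := (V.mem_nonunits_iff).1 h2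
  have hv1 : V.valuation (1 : L) = 1 := map_one _
  have h3 : V.valuation (3 : L) = 1 := by
    have e : (3 : L) = 2 + 1 := by norm_num
    rw [e]
    have := Valuation.map_add_eq_of_lt_right V.valuation (x := (2 : L)) (y := (1 : L))
      (by rw [hv1]; exact hv2)
    rw [this, hv1]
  rw [← V.valuation_le_one_iff, map_inv₀, h3, inv_one]

theorem not_mem_of_mul_eq_one {B : Type*} [CommRing B] {g g' : B} (h : g * g' = 1)
    (𝔪 : Ideal B) (h𝔪 : 𝔪 ≠ ⊤) : g ∉ 𝔪 := fun hg =>
  h𝔪 ((Ideal.eq_top_iff_one 𝔪).2 (h ▸ 𝔪.mul_mem_right g' hg))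

section Sub

variable {R F : Type*} [CommRing R] [Field F] [CharZero F] [Algebra R F]

/-- **`g₉ ^ k` is a unit of `B`.** -/
theorem exists_g9_unit (B : Subalgebra R F) {j t : F} (hj : j ∈ B) (ht : t ∈ B)
    (h3 : (3 : F)⁻¹ ∈ B)
    (hrel : j * (t ^ 9 * (t ^ 2 + 9 * t + 27))
      = (t + 9) ^ 3 * (t ^ 3 + 243 * (t ^ 2 + 9 * t + 27)) ^ 3) (k : ℕ) :
    ∃ g g' : B, (g : F) = ((t ^ 2 + 9 * t + 27) ^ 5 * (t ^ 3)⁻¹) ^ k ∧ g * g' = 1 := by
  have hg := g9_mem_of_rel9 B hj ht h3 hrel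
  have hg' := g9_inv_mem_of_rel9 B hj ht h3 hrel
  have hc := mul_cofactor_of_rel9 hrel
  have hcQ := quad_mul_cofactor_of_rel9 hrel
  have ht0 : t ≠ 0 := by
    rintro rfl
    rw [zero_mul] at hc
    exact h9_three_pow_ne_zero 30 hc.symm
  have hQ0 : t ^ 2 + 9 * t + 27 ≠ 0 := by
    intro h
    rw [h, zero_mul] at hcQ
    exact h9_three_pow_ne_zero 18 hcQ.symm
  have hg0 : (t ^ 2 + 9 * t + 27) ^ 5 * (t ^ 3)⁻¹ ≠ 0 :=
    mul_ne_zero (pow_ne_zero 5 hQ0) (inv_ne_zero (pow_ne_zero 3 ht0))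
  refine ⟨⟨_, pow_mem hg k⟩, ⟨_, pow_mem hg' k⟩, rfl, ?_⟩
  apply Subtype.ext
  show ((t ^ 2 + 9 * t + 27) ^ 5 * (t ^ 3)⁻¹) ^ k
      * (((t ^ 2 + 9 * t + 27) ^ 5 * (t ^ 3)⁻¹)⁻¹) ^ k = 1
  rw [← mul_pow, mul_inv_cancel₀ hg0, one_pow]

/-- The same in the chart `B = chart R S`, from `j ∈ B` and `3⁻¹ ∈ B` only. -/
theorem exists_g9_unit_chart (S : Set F) {j t : F} (hj : j ∈ chart R S)
    (h3 : (3 : F)⁻¹ ∈ chart R S)
    (hrel : j * (t ^ 9 * (t ^ 2 + 9 * t + 27))
      = (t + 9) ^ 3 * (t ^ 3 + 243 * (t ^ 2 + 9 * t + 27)) ^ 3) (k : ℕ) :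
    ∃ g g' : chart R S, (g : F) = ((t ^ 2 + 9 * t + 27) ^ 5 * (t ^ 3)⁻¹) ^ k ∧ g * g' = 1 :=
  exists_g9_unit (chart R S) hj (mem_chart_of_rel9 S hj hrel) h3 hrel k

end Sub

end Fermat.Agent.S36.H890

end
end
-- ===== PACK-END S36/H890/Unit9B.lean

-- ===== PACK-BEGIN S41/H281/HeckeRestrict.lean
section




/-!
# S41 / block HK, leaf HR (helper281): `T_l` commutes with the degeneracy maps `r₁`, `r₂`

* `repInt_eq_mul` : distinct Hecke representatives lie in distinct left `SL(2, ℤ)`-cosets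
  (`α_y = ε α_z`, `ε ∈ SL(2, ℤ)` forces `y = z`, `ε = 1`);
* `hElt_unique_int` : strong uniqueness for the Hecke relation: `α_x γ = δ α_y` with `δ ∈ SL(2, ℤ)`
  forces `y = π_γ x` and `δ = γ_x`;
* `heckeRestrict : Spec.HeckeRestrictStatement`.
-/

set_option autoImplicit false

namespace Fermat.Agent.S41.H281

open CongruenceSubgroup Matrix.SpecialLinearGroup
open P2MW.S_ModularForm_heckeT_slash_eq_self_of_mem_Gamma0.ModularForm.HeckeSlashInvariance
open Fermat.Agent.S29.H642 Fermat.Agent.S41.Spec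
open scoped MatrixGroups

variable {p : ℕ} {N : ℕ}

theorem sl_ext_entries (ε ε' : SL(2, ℤ)) (h00 : ε 0 0 = ε' 0 0) (h01 : ε 0 1 = ε' 0 1)
    (h10 : ε 1 0 = ε' 1 0) (h11 : ε 1 1 = ε' 1 1) : ε = ε' := by
  ext i j
  fin_cases i <;> fin_cases j <;> assumption

/-- Distinct Hecke representatives lie in distinct left `SL(2, ℤ)`-cosets. -/
theorem repInt_eq_mul [Fact p.Prime] (ε : SL(2, ℤ)) (y z : OnePoint (ZMod p))
    (h : repInt p y = (ε : Matrix (Fin 2) (Fin 2) ℤ) * repInt p z) : y = z ∧ ε = 1 := by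
  have hp : p.Prime := Fact.out
  have hp0 : (p : ℤ) ≠ 0 := by exact_mod_cast hp.ne_zero
  have hp1 : ¬ (p : ℤ) ∣ 1 := by
    intro hd
    have := Int.natCast_dvd_natCast.mp (by simpa using hd : ((p : ℕ) : ℤ) ∣ ((1 : ℕ) : ℤ))
    exact hp.one_lt.ne' (Nat.dvd_one.mp this)
  have h00 := congrFun (congrFun h 0) 0
  have h01 := congrFun (congrFun h 0) 1
  have h10 := congrFun (congrFun h 1) 0
  have h11 := congrFun (congrFun h 1) 1
  induction y using OnePoint.rec with
  | infty =>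
    induction z using OnePoint.rec with
    | infty =>
      simp only [repInt_infty, Matrix.mul_apply, Fin.sum_univ_two, Matrix.of_apply,
        Matrix.cons_val', Matrix.cons_val_zero, Matrix.cons_val_one, Matrix.cons_val_fin_one,
        mul_zero, mul_one, add_zero, zero_add] at h00 h01 h10 h11
      refine ⟨rfl, sl_ext_entries _ _ ?_ ?_ ?_ ?_⟩
      · have : (ε 0 0 - 1) * (p : ℤ) = 0 := by linear_combination -h00
        have := (mul_eq_zero.mp this).resolve_right hp0
        simp only [coe_one, Matrix.one_apply_eq]; linarith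
      · simp only [coe_one]; rw [← h01]; simp
      · have : (ε 1 0) * (p : ℤ) = 0 := by linear_combination -h10
        have := (mul_eq_zero.mp this).resolve_right hp0
        simp only [coe_one]; rw [this]; simp
      · simp only [coe_one, Matrix.one_apply_eq]; rw [← h11]
    | coe j =>
      exfalso
      simp only [repInt_infty, repInt_coe, Matrix.mul_apply, Fin.sum_univ_two, Matrix.of_apply,
        Matrix.cons_val', Matrix.cons_val_zero, Matrix.cons_val_one, Matrix.cons_val_fin_one,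
        mul_zero, mul_one, add_zero] at h00 h01 h10 h11
      apply hp1
      refine ⟨ε 1 1, ?_⟩
      rw [← h10] at h11
      linear_combination h11
  | coe j =>
    induction z using OnePoint.rec with
    | infty =>
      exfalso
      simp only [repInt_infty, repInt_coe, Matrix.mul_apply, Fin.sum_univ_two, Matrix.of_apply,
        Matrix.cons_val', Matrix.cons_val_zero, Matrix.cons_val_one, Matrix.cons_val_fin_one,
        mul_zero, mul_one, add_zero] at h00 h01 h10 h11
      apply hp1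
      exact ⟨ε 0 0, by linear_combination h00⟩
    | coe j' =>
      simp only [repInt_coe, Matrix.mul_apply, Fin.sum_univ_two, Matrix.of_apply,
        Matrix.cons_val', Matrix.cons_val_zero, Matrix.cons_val_one, Matrix.cons_val_fin_one,
        mul_zero, mul_one, add_zero] at h00 h01 h10 h11
      have hjj : j = j' := by
        have hc := congrArg (Int.cast : ℤ → ZMod p) h01
        push_cast at hc
        rw [ZMod.natCast_zmod_val, ZMod.natCast_zmod_val, ← h00] at hc
        simpa using hc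
      subst hjj
      refine ⟨rfl, sl_ext_entries _ _ ?_ ?_ ?_ ?_⟩
      · simp only [coe_one, Matrix.one_apply_eq]; exact h00.symm
      · have : (ε 0 1) * (p : ℤ) = 0 := by rw [← h00] at h01; linear_combination -h01
        have := (mul_eq_zero.mp this).resolve_right hp0
        simp only [coe_one]; rw [this]; simp
      · simp only [coe_one]; rw [← h10]; simp
      · have : (ε 1 1 - 1) * (p : ℤ) = 0 := by rw [← h10] at h11; linear_combination -h11
        have := (mul_eq_zero.mp this).resolve_right hp0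
        simp only [coe_one, Matrix.one_apply_eq]; linarith

/-- Strong uniqueness in the Hecke relation: `α_x γ = δ α_y` with `δ ∈ SL(2, ℤ)` forces
`y = π_γ x` and `δ = γ_x`. -/
theorem hElt_unique_int [Fact p.Prime] (hpN : ¬ p ∣ N) (γ : Gamma0 N) (x y : OnePoint (ZMod p))
    (δ : SL(2, ℤ))
    (h : repInt p x * ((γ : SL(2, ℤ)) : Matrix (Fin 2) (Fin 2) ℤ) =
      (δ : Matrix (Fin 2) (Fin 2) ℤ) * repInt p y) :
    y = hPerm p (γ : SL(2, ℤ)) x ∧ δ = ((hElt hpN γ x : Gamma0 N) : SL(2, ℤ)) := by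
  have h1 := hElt_spec_int hpN γ x
  rw [h] at h1
  have h2 : repInt p y = ((δ⁻¹ * ((hElt hpN γ x : Gamma0 N) : SL(2, ℤ)) : SL(2, ℤ)) :
      Matrix (Fin 2) (Fin 2) ℤ) * repInt p (hPerm p (γ : SL(2, ℤ)) x) := by
    rw [coe_mul, Matrix.mul_assoc, ← h1, ← Matrix.mul_assoc, ← coe_mul, inv_mul_cancel, coe_one,
      Matrix.one_mul]
  obtain ⟨hy, hε⟩ := repInt_eq_mul _ _ _ h2
  exact ⟨hy, (inv_mul_eq_one.mp hε)⟩


/-! ## `T_l` commutes with `r₁` -/

section R1

variable {l q : ℕ}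

theorem hElt_incl [Fact l.Prime] (hl : ¬ l ∣ N) (hl' : ¬ l ∣ N * q) (γ : Gamma0 (N * q))
    (x : OnePoint (ZMod l)) :
    incl N q (hElt hl' γ x) = hElt hl (incl N q γ) x := by
  apply hElt_unique
  exact hElt_spec hl' γ x

end R1

/-! ## `T_l` commutes with `r₂` -/

section R2

variable {l q : ℕ}

/-- `δ = diag(q, 1)` as an integral matrix. -/
def dMat (q : ℕ) : Matrix (Fin 2) (Fin 2) ℤ := !![(q : ℤ), 0; 0, 1]

theorem dMat_mul_coe (γ : SL(2, ℤ)) (h : (q : ℤ) ∣ γ 1 0) :
    dMat q * (γ : Matrix (Fin 2) (Fin 2) ℤ) = conjDeltaMatrix q γ * dMat q := by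
  obtain ⟨k, hk⟩ := h
  rcases eq_or_ne q 0 with rfl | hq
  · simp only [Nat.cast_zero, zero_mul] at hk
    ext i j
    fin_cases i <;> fin_cases j <;>
      simp [dMat, conjDeltaMatrix, Matrix.mul_apply, Fin.sum_univ_two, hk]
  · have hq' : (q : ℤ) ≠ 0 := by exact_mod_cast hq
    ext i j
    fin_cases i <;> fin_cases j <;>
      simp [dMat, conjDeltaMatrix, Matrix.mul_apply, Fin.sum_univ_two, hk,
        Int.mul_ediv_cancel_left _ hq'] <;> ring

theorem mul_dMat_cancel (hq : q ≠ 0) (M M' : Matrix (Fin 2) (Fin 2) ℤ)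
    (h : M * dMat q = M' * dMat q) : M = M' := by
  have hq' : (q : ℤ) ≠ 0 := by exact_mod_cast hq
  have h0 : ∀ i, M i 0 = M' i 0 := by
    intro i
    have := congrFun (congrFun h i) 0
    simp only [dMat, Matrix.mul_apply, Fin.sum_univ_two, Matrix.of_apply, Matrix.cons_val',
      Matrix.cons_val_zero, Matrix.cons_val_one, Matrix.cons_val_fin_one, mul_zero,
      add_zero] at this
    exact mul_right_cancel₀ hq' this
  have h1 : ∀ i, M i 1 = M' i 1 := by
    intro i
    have := congrFun (congrFun h i) 1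
    simpa [dMat, Matrix.mul_apply, Fin.sum_univ_two] using this
  ext i j
  fin_cases j
  · exact h0 i
  · exact h1 i

/-- The permutation `x ↦ q x` of `ℙ¹(𝔽_l)` (as a map). -/
def sigmaPt (l q : ℕ) (x : OnePoint (ZMod l)) : OnePoint (ZMod l) :=
  x.elim OnePoint.infty (fun j => (((q : ZMod l) * j : ZMod l) : OnePoint (ZMod l)))

@[simp] theorem sigmaPt_infty : sigmaPt l q OnePoint.infty = OnePoint.infty := rfl

@[simp] theorem sigmaPt_coe (j : ZMod l) :
    sigmaPt l q (j : OnePoint (ZMod l)) = (((q : ZMod l) * j : ZMod l) : OnePoint (ZMod l)) := rfl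

theorem sigmaPt_injective [Fact l.Prime] (hlq : ¬ l ∣ q) : Function.Injective (sigmaPt l q) := by
  have hq : (q : ZMod l) ≠ 0 := by
    rw [Ne, ZMod.natCast_eq_zero_iff]
    exact hlq
  intro x y hxy
  induction x using OnePoint.rec with
  | infty =>
    induction y using OnePoint.rec with
    | infty => rfl
    | coe j => simp at hxy
  | coe j =>
    induction y using OnePoint.rec with
    | infty => simp at hxy
    | coe j' =>
      simp only [sigmaPt_coe, OnePoint.coe_eq_coe] at hxy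
      rw [mul_right_inj' hq] at hxy
      rw [hxy]

/-- The permutation `x ↦ q x` of `ℙ¹(𝔽_l)`. -/
noncomputable def sigmaEquiv (l q : ℕ) [Fact l.Prime] (hlq : ¬ l ∣ q) :
    OnePoint (ZMod l) ≃ OnePoint (ZMod l) :=
  Equiv.ofBijective (sigmaPt l q) (sigmaPt_injective hlq).bijective_of_finite

@[simp] theorem sigmaEquiv_apply [Fact l.Prime] (hlq : ¬ l ∣ q) (x : OnePoint (ZMod l)) :
    sigmaEquiv l q hlq x = sigmaPt l q x := rfl

/-- The unipotent correction `u_x` with `δ α_x = u_x α_{q x} δ`. -/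
def uSL (l q : ℕ) (x : OnePoint (ZMod l)) : SL(2, ℤ) :=
  x.elim 1 (fun j => ⟨!![1, ((q * j.val / l : ℕ) : ℤ); 0, 1], by simp⟩)

@[simp] theorem uSL_infty : uSL l q OnePoint.infty = 1 := rfl

@[simp] theorem uSL_coe (j : ZMod l) :
    ((uSL l q (j : OnePoint (ZMod l)) : SL(2, ℤ)) : Matrix (Fin 2) (Fin 2) ℤ) =
      !![1, ((q * j.val / l : ℕ) : ℤ); 0, 1] := rfl

theorem uSL_mem_Gamma0 (l q N : ℕ) (x : OnePoint (ZMod l)) : uSL l q x ∈ Gamma0 N := by
  induction x using OnePoint.rec with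
  | infty => exact one_mem _
  | coe j => rw [Gamma0_mem, uSL_coe]; simp

theorem val_natCast_mul [NeZero l] (j : ZMod l) :
    (((q : ZMod l) * j : ZMod l).val : ℤ) + ((q * j.val / l : ℕ) : ℤ) * l = q * j.val := by
  have h1 : ((q : ZMod l) * j : ZMod l) = ((q * j.val : ℕ) : ZMod l) := by
    push_cast
    rw [ZMod.natCast_zmod_val]
  rw [h1, ZMod.val_natCast]
  have := Nat.mod_add_div (q * j.val) l
  have h2 : ((q * j.val % l : ℕ) : ℤ) + (l : ℤ) * ((q * j.val / l : ℕ) : ℤ) =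
      ((q * j.val : ℕ) : ℤ) := by exact_mod_cast this
  push_cast at h2 ⊢
  linear_combination h2

theorem dMat_mul_repInt [NeZero l] (x : OnePoint (ZMod l)) :
    dMat q * repInt l x =
      (uSL l q x : Matrix (Fin 2) (Fin 2) ℤ) * repInt l (sigmaPt l q x) * dMat q := by
  induction x using OnePoint.rec with
  | infty =>
    ext i j
    fin_cases i <;> fin_cases j <;>
      simp [dMat, Matrix.mul_apply, Fin.sum_univ_two, mul_comm]
  | coe j =>
    have hv := val_natCast_mul (q := q) j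
    rw [sigmaPt_coe, repInt_coe, repInt_coe, uSL_coe]
    generalize ((((q : ZMod l) * j : ZMod l).val : ℕ) : ℤ) = a at hv ⊢
    generalize (((q * j.val / l : ℕ)) : ℤ) = b at hv ⊢
    generalize ((j.val : ℕ) : ℤ) = c at hv ⊢
    ext i k
    fin_cases i <;> fin_cases k <;>
      simp [dMat, Matrix.mul_apply, Fin.sum_univ_two]
    linear_combination -hv

/-- The Hecke relation at level `N`, conjugated by `δ`. -/
theorem hElt_conjDelta [Fact l.Prime] (hl : ¬ l ∣ N) (hl' : ¬ l ∣ N * q) (γ : Gamma0 (N * q))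
    (x : OnePoint (ZMod l)) :
    sigmaPt l q (hPerm l (γ : SL(2, ℤ)) x) =
        hPerm l ((conjDelta N q γ : Gamma0 N) : SL(2, ℤ)) (sigmaPt l q x) ∧
      (uSL l q x)⁻¹ * ((conjDelta N q (hElt hl' γ x) : Gamma0 N) : SL(2, ℤ)) *
          uSL l q (hPerm l (γ : SL(2, ℤ)) x) =
        ((hElt hl (conjDelta N q γ) (sigmaPt l q x) : Gamma0 N) : SL(2, ℤ)) := by
  have hq : q ≠ 0 := by
    rintro rfl
    exact hl' (by simp)
  apply hElt_unique_int hl (conjDelta N q γ) (sigmaPt l q x)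
  -- cancel `u_x` on the left and `δ` on the right
  have key : (uSL l q x : Matrix (Fin 2) (Fin 2) ℤ) *
      (repInt l (sigmaPt l q x) * (((conjDelta N q γ : Gamma0 N) : SL(2, ℤ)) :
        Matrix (Fin 2) (Fin 2) ℤ)) =
      (((conjDelta N q (hElt hl' γ x) : Gamma0 N) : SL(2, ℤ)) : Matrix (Fin 2) (Fin 2) ℤ) *
        ((uSL l q (hPerm l (γ : SL(2, ℤ)) x) : Matrix (Fin 2) (Fin 2) ℤ) *
          repInt l (sigmaPt l q (hPerm l (γ : SL(2, ℤ)) x))) := by
    apply mul_dMat_cancel hq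
    have e1 : (((conjDelta N q γ : Gamma0 N) : SL(2, ℤ)) : Matrix (Fin 2) (Fin 2) ℤ) =
        conjDeltaMatrix q (γ : SL(2, ℤ)) := rfl
    have e2 : (((conjDelta N q (hElt hl' γ x) : Gamma0 N) : SL(2, ℤ)) :
        Matrix (Fin 2) (Fin 2) ℤ) =
        conjDeltaMatrix q ((hElt hl' γ x : Gamma0 (N * q)) : SL(2, ℤ)) := rfl
    rw [e1, e2]
    calc (uSL l q x : Matrix (Fin 2) (Fin 2) ℤ) *
          (repInt l (sigmaPt l q x) * conjDeltaMatrix q (γ : SL(2, ℤ))) * dMat q
        = ((uSL l q x : Matrix (Fin 2) (Fin 2) ℤ) * repInt l (sigmaPt l q x)) *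
            (conjDeltaMatrix q (γ : SL(2, ℤ)) * dMat q) := by
          simp only [Matrix.mul_assoc]
      _ = ((uSL l q x : Matrix (Fin 2) (Fin 2) ℤ) * repInt l (sigmaPt l q x) * dMat q) *
            ((γ : SL(2, ℤ)) : Matrix (Fin 2) (Fin 2) ℤ) := by
          rw [← dMat_mul_coe _ (dvd_of_mem_gamma0_mul γ).1]
          simp only [Matrix.mul_assoc]
      _ = dMat q * (repInt l x * ((γ : SL(2, ℤ)) : Matrix (Fin 2) (Fin 2) ℤ)) := by
          rw [← dMat_mul_repInt, Matrix.mul_assoc]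
      _ = dMat q * ((((hElt hl' γ x : Gamma0 (N * q)) : SL(2, ℤ)) : Matrix (Fin 2) (Fin 2) ℤ) *
            repInt l (hPerm l (γ : SL(2, ℤ)) x)) := by
          rw [hElt_spec_int hl' γ x]
      _ = (conjDeltaMatrix q ((hElt hl' γ x : Gamma0 (N * q)) : SL(2, ℤ)) * dMat q) *
            repInt l (hPerm l (γ : SL(2, ℤ)) x) := by
          rw [← dMat_mul_coe _ (dvd_of_mem_gamma0_mul (hElt hl' γ x)).1]
          simp only [Matrix.mul_assoc]
      _ = conjDeltaMatrix q ((hElt hl' γ x : Gamma0 (N * q)) : SL(2, ℤ)) *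
            ((uSL l q (hPerm l (γ : SL(2, ℤ)) x) : Matrix (Fin 2) (Fin 2) ℤ) *
              repInt l (sigmaPt l q (hPerm l (γ : SL(2, ℤ)) x))) * dMat q := by
          rw [Matrix.mul_assoc, dMat_mul_repInt]
          simp only [Matrix.mul_assoc]
  rw [coe_mul, coe_mul, Matrix.mul_assoc, Matrix.mul_assoc, ← key, ← Matrix.mul_assoc,
    ← coe_mul, inv_mul_cancel, coe_one, Matrix.one_mul]

end R2

/-! ## The leaf -/

section Leaf

universe u

theorem heckeTransfer_r₁ {N q l : ℕ} [Fact l.Prime] (hl : ¬ l ∣ N) (hl' : ¬ l ∣ N * q)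
    {A : Type u} [AddCommGroup A] (φ : Additive (Gamma0 N) →+ A) :
    heckeTransfer hl' (r₁ N q φ) = r₁ N q (heckeTransfer hl φ) := by
  refine AddMonoidHom.ext fun γ' => ?_
  obtain ⟨γ, rfl⟩ : ∃ γ : Gamma0 (N * q), Additive.ofMul γ = γ' := ⟨Additive.toMul γ', rfl⟩
  rw [heckeTransfer_apply]
  show _ = heckeTransfer hl φ (Additive.ofMul (incl N q γ))
  rw [heckeTransfer_apply]
  refine Finset.sum_congr rfl fun x _ => ?_
  show φ (Additive.ofMul (incl N q (hElt hl' γ x))) = _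
  rw [hElt_incl hl hl']

theorem heckeTransfer_r₂ {N q l : ℕ} [Fact l.Prime] (hl : ¬ l ∣ N) (hl' : ¬ l ∣ N * q)
    {A : Type u} [AddCommGroup A] (φ : Additive (Gamma0 N) →+ A) :
    heckeTransfer hl' (r₂ N q φ) = r₂ N q (heckeTransfer hl φ) := by
  have hlq : ¬ l ∣ q := fun h => hl' (h.mul_left N)
  refine AddMonoidHom.ext fun γ' => ?_
  obtain ⟨γ, rfl⟩ : ∃ γ : Gamma0 (N * q), Additive.ofMul γ = γ' := ⟨Additive.toMul γ', rfl⟩
  rw [heckeTransfer_apply]
  show _ = heckeTransfer hl φ (Additive.ofMul (conjDelta N q γ))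
  rw [heckeTransfer_apply]
  rw [← Equiv.sum_comp (sigmaEquiv l q hlq)
    (fun y => φ (Additive.ofMul (hElt hl (conjDelta N q γ) y)))]
  simp only [sigmaEquiv_apply]
  -- the unipotent corrections as elements of `Γ₀(N)`
  set u : OnePoint (ZMod l) → Gamma0 N := fun x => ⟨uSL l q x, uSL_mem_Gamma0 l q N x⟩ with hu
  have hx : ∀ x : OnePoint (ZMod l),
      φ (Additive.ofMul (hElt hl (conjDelta N q γ) (sigmaPt l q x))) =
        (r₂ N q φ) (Additive.ofMul (hElt hl' γ x)) +
          φ (Additive.ofMul (u (hPerm l (γ : SL(2, ℤ)) x))) - φ (Additive.ofMul (u x)) := by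
    intro x
    have h := (hElt_conjDelta hl hl' γ x).2
    have h' : hElt hl (conjDelta N q γ) (sigmaPt l q x) =
        (u x)⁻¹ * conjDelta N q (hElt hl' γ x) * u (hPerm l (γ : SL(2, ℤ)) x) := by
      apply Subtype.ext
      rw [← h]
      rfl
    rw [h', ofMul_mul, ofMul_mul, ofMul_inv, map_add, map_add, map_neg]
    show _ = φ (Additive.ofMul (conjDelta N q (hElt hl' γ x))) + _ - _
    abel
  simp only [hx]
  rw [Finset.sum_sub_distrib, Finset.sum_add_distrib]
  have hperm : ∑ x : OnePoint (ZMod l), φ (Additive.ofMul (u (hPerm l (γ : SL(2, ℤ)) x))) =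
      ∑ x : OnePoint (ZMod l), φ (Additive.ofMul (u x)) :=
    Equiv.sum_comp (hPerm l (γ : SL(2, ℤ))) (fun y => φ (Additive.ofMul (u y)))
  rw [hperm, add_sub_cancel_right]

/-- **Leaf HR** of block HK: `T_l` commutes with the degeneracy maps `r₁`, `r₂`. -/
theorem heckeRestrict : HeckeRestrictStatement.{u} := by
  intro N q l _ hl hl' A _ φ
  exact ⟨heckeTransfer_r₁ hl hl' φ, heckeTransfer_r₂ hl hl' φ⟩

end Leaf

end Fermat.Agent.S41.H281

end
-- ===== PACK-END S41/H281/HeckeRestrict.lean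

-- ===== PACK-BEGIN S59/H127/Bridge.lean
section



/-!
# E-side foundation, part 6: bridge between the finite levels and the Tate module

Abstract algebra (Mathlib only).  Let `cb : CompatBasis A p h`, let `f` be an additive
endomorphism of `A` and `T = cb.tateEnd f` the induced `ℤ_p`-linear endomorphism of `ℤ_p^h`.
For every `n` and EVERY `ZMod (p^n)`-module structure on `A[p^n] = torsionBy ℤ A (p^n)`:

* `cb.levelBasis n` : the basis `(B n i)_i` of `A[p^n]` over `ZMod (p^n)`; in particular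
  `A[p^n]` is free of rank `h` over `ZMod (p^n)`;
* `toMatrix_level` : the matrix of (the restriction of) `f` to `A[p^n]` in this basis is the
  reduction mod `p^n` of the matrix of `T`;
* `charpoly_level`, `det_level`, `trace_level` : consequently the characteristic polynomial,
  determinant and trace of `f` on `A[p^n]` are the reductions of those of `T`;
* `charpoly_eq_of_level`, `det_sub_mem_of_level` : conversely, `charpoly T` / `det T` are
  determined by the finite levels.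
-/

open PadicInt Polynomial

namespace Fermat.Agent.S59.H127

variable {A : Type*} [AddCommGroup A] {p h : ℕ} [hp : Fact p.Prime]

namespace CompatBasis

variable (cb : CompatBasis A p h)

section level

variable (n : ℕ)

omit hp in
lemma B_mem (i : Fin h) : cb.B n i ∈ Submodule.torsionBy ℤ A ((p ^ n : ℕ) : ℤ) := by
  rw [Submodule.mem_torsionBy_iff, natCast_zsmul]
  exact cb.pow_smul_self n i

/-- the basis vectors, as elements of `A[p^n]` -/
def levelVec (i : Fin h) : Submodule.torsionBy ℤ A ((p ^ n : ℕ) : ℤ) := ⟨cb.B n i, cb.B_mem n i⟩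

omit hp in
lemma coe_sum_zsmul_levelVec (c : Fin h → ℤ) :
    ((∑ i, c i • cb.levelVec n i : Submodule.torsionBy ℤ A ((p ^ n : ℕ) : ℤ)) : A)
      = ∑ i, c i • cb.B n i := by
  rw [Submodule.coe_sum]
  refine Finset.sum_congr rfl fun j _ => ?_
  rw [Submodule.coe_smul_of_tower]
  rfl

variable [Module (ZMod (p ^ n)) (Submodule.torsionBy ℤ A ((p ^ n : ℕ) : ℤ))]

omit hp in
lemma sum_smul_levelVec_eq (g : Fin h → ZMod (p ^ n)) (c : Fin h → ℤ)
    (hc : ∀ i, ((c i : ℤ) : ZMod (p ^ n)) = g i) :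
    ∑ i, g i • cb.levelVec n i = ∑ i, c i • cb.levelVec n i := by
  refine Finset.sum_congr rfl fun j _ => ?_
  rw [← hc j, Int.cast_smul_eq_zsmul]

omit hp in
lemma linearIndependent_levelVec :
    LinearIndependent (ZMod (p ^ n)) (cb.levelVec n) := by
  rw [Fintype.linearIndependent_iff]
  intro g hg i
  have hc : ∀ i, (((g i).cast : ℤ) : ZMod (p ^ n)) = g i := fun i => ZMod.intCast_zmod_cast _
  rw [cb.sum_smul_levelVec_eq n g (fun i => ((g i).cast : ℤ)) hc] at hg
  have h1 := congrArg (Subtype.val) hg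
  rw [cb.coe_sum_zsmul_levelVec, Submodule.coe_zero] at h1
  have h2 := cb.indep n _ h1 i
  rw [← hc i, ZMod.intCast_zmod_eq_zero_iff_dvd, Nat.cast_pow]
  exact h2

omit hp in
lemma span_levelVec :
    ⊤ ≤ Submodule.span (ZMod (p ^ n)) (Set.range (cb.levelVec n)) := by
  intro x _
  have hx : p ^ n • (x : A) = 0 := by
    have := x.2
    rwa [Submodule.mem_torsionBy_iff, natCast_zsmul] at this
  obtain ⟨c, hc⟩ := cb.span n x hx
  have hx' : x = ∑ i, ((c i : ℤ) : ZMod (p ^ n)) • cb.levelVec n i := by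
    rw [cb.sum_smul_levelVec_eq n _ c (fun _ => rfl)]
    apply Subtype.ext
    rw [cb.coe_sum_zsmul_levelVec, hc]
  rw [hx']
  exact Submodule.sum_mem _ fun i _ =>
    Submodule.smul_mem _ _ (Submodule.subset_span (Set.mem_range_self i))

/-- **the basis `(B n i)_i` of `A[p^n]` over `ZMod (p^n)`** -/
noncomputable def levelBasis :
    Module.Basis (Fin h) (ZMod (p ^ n)) (Submodule.torsionBy ℤ A ((p ^ n : ℕ) : ℤ)) :=
  Module.Basis.mk (cb.linearIndependent_levelVec n) (cb.span_levelVec n)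

omit hp in
@[simp] lemma levelBasis_apply (i : Fin h) : cb.levelBasis n i = cb.levelVec n i := by
  rw [levelBasis, Module.Basis.mk_apply]

omit hp in
lemma coe_levelBasis (i : Fin h) :
    ((cb.levelBasis n i : Submodule.torsionBy ℤ A ((p ^ n : ℕ) : ℤ)) : A) = cb.B n i := by
  rw [levelBasis_apply]
  rfl

omit hp in
include cb in
/-- `A[p^n]` is free over `ZMod (p^n)` -/
theorem free_level : Module.Free (ZMod (p ^ n)) (Submodule.torsionBy ℤ A ((p ^ n : ℕ) : ℤ)) :=
  Module.Free.of_basis (cb.levelBasis n)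

omit hp in
include cb in
/-- `A[p^n]` is finite over `ZMod (p^n)` -/
theorem finite_level :
    Module.Finite (ZMod (p ^ n)) (Submodule.torsionBy ℤ A ((p ^ n : ℕ) : ℤ)) :=
  Module.Finite.of_basis (cb.levelBasis n)

omit hp in
/-- coordinates in the level basis -/
lemma levelBasis_repr_eq (x : Submodule.torsionBy ℤ A ((p ^ n : ℕ) : ℤ)) (c : Fin h → ℤ)
    (hc : (x : A) = ∑ i, c i • cb.B n i) (i : Fin h) :
    (cb.levelBasis n).repr x i = ((c i : ℤ) : ZMod (p ^ n)) := by
  have hx : x = ∑ i, ((c i : ℤ) : ZMod (p ^ n)) • cb.levelBasis n i := by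
    simp only [levelBasis_apply]
    rw [cb.sum_smul_levelVec_eq n _ c (fun _ => rfl)]
    apply Subtype.ext
    rw [cb.coe_sum_zsmul_levelVec, hc]
  conv_lhs => rw [hx]
  rw [map_sum, Finset.sum_apply']
  simp only [map_smul, Module.Basis.repr_self, Finsupp.smul_apply, smul_eq_mul]
  rw [Finset.sum_eq_single i]
  · rw [Finsupp.single_eq_same, mul_one]
  · intro j _ hji
    rw [Finsupp.single_eq_of_ne hji.symm, mul_zero]
  · intro hi
    exact absurd (Finset.mem_univ i) hi

end level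

section matrix

variable (n : ℕ) [Module (ZMod (p ^ n)) (Submodule.torsionBy ℤ A ((p ^ n : ℕ) : ℤ))]

omit [Module (ZMod (p ^ n)) (Submodule.torsionBy ℤ A ((p ^ n : ℕ) : ℤ))] in
/-- the image of a basis vector under `f` in terms of the matrix of `tateEnd f` -/
lemma apply_B_eq (f : AddMonoid.End A) (j : Fin h) (c : Fin h → ℤ)
    (hc : ∀ i, ((c i : ℤ) : ZMod (p ^ n)) =
      toZModPow n (cb.tateEnd f (Pi.single j (1 : ℤ_[p])) i)) :
    f (cb.B n j) = ∑ i, c i • cb.B n i := by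
  rw [← cb.Φ_single j n, ← cb.Φ_tateEnd]
  exact cb.Φ_eq_of_cast _ n c hc

/-- **the matrix of `f` on `A[p^n]` is the reduction of the matrix of `tateEnd f`** -/
theorem toMatrix_level (f : AddMonoid.End A)
    (g : Module.End (ZMod (p ^ n)) (Submodule.torsionBy ℤ A ((p ^ n : ℕ) : ℤ)))
    (hg : ∀ x, ((g x : Submodule.torsionBy ℤ A ((p ^ n : ℕ) : ℤ)) : A) = f (x : A)) :
    LinearMap.toMatrix (cb.levelBasis n) (cb.levelBasis n) g
      = (LinearMap.toMatrix' (cb.tateEnd f)).map (toZModPow n) := by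
  ext i j
  rw [LinearMap.toMatrix_apply, Matrix.map_apply, LinearMap.toMatrix'_apply]
  have h1 : ((g (cb.levelBasis n j) : Submodule.torsionBy ℤ A ((p ^ n : ℕ) : ℤ)) : A)
      = ∑ i, (((cb.tateEnd f (Pi.single j (1 : ℤ_[p])) i).appr n : ℕ) : ℤ) • cb.B n i := by
    rw [hg, cb.coe_levelBasis]
    exact cb.apply_B_eq n f j _ fun i => appr_cast_eq_toZModPow n _
  rw [cb.levelBasis_repr_eq n _ _ h1 i, appr_cast_eq_toZModPow]

/-- the characteristic polynomial of `f` on `A[p^n]` is the reduction of that of `tateEnd f` -/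
theorem charpoly_level [Module.Free (ZMod (p ^ n)) (Submodule.torsionBy ℤ A ((p ^ n : ℕ) : ℤ))]
    [Module.Finite (ZMod (p ^ n)) (Submodule.torsionBy ℤ A ((p ^ n : ℕ) : ℤ))]
    (f : AddMonoid.End A)
    (g : Module.End (ZMod (p ^ n)) (Submodule.torsionBy ℤ A ((p ^ n : ℕ) : ℤ)))
    (hg : ∀ x, ((g x : Submodule.torsionBy ℤ A ((p ^ n : ℕ) : ℤ)) : A) = f (x : A)) :
    LinearMap.charpoly g = (LinearMap.charpoly (cb.tateEnd f)).map (toZModPow n) := by
  rw [← LinearMap.charpoly_toMatrix g (cb.levelBasis n), cb.toMatrix_level n f g hg,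
    ← LinearMap.charpoly_toMatrix (cb.tateEnd f) (Pi.basisFun ℤ_[p] (Fin h)),
    Matrix.charpoly_map]
  rfl

/-- the determinant of `f` on `A[p^n]` is the reduction of that of `tateEnd f` -/
theorem det_level (f : AddMonoid.End A)
    (g : Module.End (ZMod (p ^ n)) (Submodule.torsionBy ℤ A ((p ^ n : ℕ) : ℤ)))
    (hg : ∀ x, ((g x : Submodule.torsionBy ℤ A ((p ^ n : ℕ) : ℤ)) : A) = f (x : A)) :
    LinearMap.det g = toZModPow n (LinearMap.det (cb.tateEnd f)) := by
  rw [← LinearMap.det_toMatrix (cb.levelBasis n), cb.toMatrix_level n f g hg,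
    ← LinearMap.det_toMatrix (Pi.basisFun ℤ_[p] (Fin h)) (cb.tateEnd f), RingHom.map_det]
  rfl

/-- the trace of `f` on `A[p^n]` is the reduction of that of `tateEnd f` -/
theorem trace_level (f : AddMonoid.End A)
    (g : Module.End (ZMod (p ^ n)) (Submodule.torsionBy ℤ A ((p ^ n : ℕ) : ℤ)))
    (hg : ∀ x, ((g x : Submodule.torsionBy ℤ A ((p ^ n : ℕ) : ℤ)) : A) = f (x : A)) :
    LinearMap.trace (ZMod (p ^ n)) _ g
      = toZModPow n (LinearMap.trace ℤ_[p] _ (cb.tateEnd f)) := by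
  rw [LinearMap.trace_eq_matrix_trace (ZMod (p ^ n)) (cb.levelBasis n), cb.toMatrix_level n f g hg,
    LinearMap.trace_eq_matrix_trace ℤ_[p] (Pi.basisFun ℤ_[p] (Fin h)), Matrix.trace,
    Matrix.trace, map_sum]
  rfl

end matrix

end CompatBasis

section lift

/-- a polynomial over `ℤ_p` is determined by its reductions modulo all `p^n` -/
theorem poly_eq_of_map_toZModPow {P Q : ℤ_[p][X]}
    (hPQ : ∀ n : ℕ, P.map (toZModPow n) = Q.map (toZModPow n)) : P = Q := by
  ext k
  apply ext_of_toZModPow.mp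
  intro n
  have := congrArg (fun R => R.coeff k) (hPQ n)
  simpa only [coeff_map] using this

end lift

end Fermat.Agent.S59.H127

end
-- ===== PACK-END S59/H127/Bridge.lean

-- ===== PACK-BEGIN S21/H585/LowerBound.lean
section





/-!
# Lower bound for the dimension of the space of parabolic homomorphisms

For a finite index subgroup `Γ ≤ SL(2, ℤ)` containing `-1`, `X = SL(2, ℤ) ⧸ Γ` and any field `K`:
`#X + 2 ≤ dim Hom_par(Γ, K) + #(⟨S⟩\X) + #(⟨ST⟩\X) + #(⟨T⟩\X)`.
-/

set_option autoImplicit false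

namespace Fermat.Agent.S21.H585

open Matrix ModularGroup ModularCurve.Period
open scoped MatrixGroups

section Quot

variable (Γ : Subgroup SL(2, ℤ))

/-- The base point of `SL(2, ℤ) ⧸ Γ`. -/
def basePt : SL(2, ℤ) ⧸ Γ := ((1 : SL(2, ℤ)) : SL(2, ℤ) ⧸ Γ)

lemma smul_basePt_eq (g : SL(2, ℤ)) : g • basePt Γ = (g : SL(2, ℤ) ⧸ Γ) := by
  rw [basePt, MulAction.Quotient.smul_mk, smul_eq_mul, mul_one]

lemma smul_basePt_of_mem {γ : SL(2, ℤ)} (hγ : γ ∈ Γ) : γ • basePt Γ = basePt Γ := by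
  rw [smul_basePt_eq, basePt, QuotientGroup.eq, mul_one]
  exact inv_mem hγ

lemma out_smul_basePt (x : SL(2, ℤ) ⧸ Γ) : (Quotient.out x : SL(2, ℤ)) • basePt Γ = x := by
  rw [smul_basePt_eq, QuotientGroup.out_eq']

variable {Γ}

lemma neg_one_smul_quot (hneg : (-1 : SL(2, ℤ)) ∈ Γ) (x : SL(2, ℤ) ⧸ Γ) :
    (-1 : SL(2, ℤ)) • x = x := by
  induction x using QuotientGroup.induction_on with
  | H h =>
    rw [MulAction.Quotient.smul_mk, smul_eq_mul, QuotientGroup.eq]
    have : ((-1 : SL(2, ℤ)) * h)⁻¹ * h = -1 := by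
      rw [_root_.mul_inv_rev, mul_assoc]
      have h1 : (-1 : SL(2, ℤ))⁻¹ * h = h * (-1) := by
        have h2 : (-1 : SL(2, ℤ))⁻¹ = -1 := by
          rw [inv_eq_iff_eq_inv, eq_inv_iff_mul_eq_one]; simp
        rw [h2]; simp
      rw [h1, ← mul_assoc, inv_mul_cancel, one_mul]
    rw [this]; exact hneg

variable (Γ)

lemma sec_mem (g : SL(2, ℤ)) (x : SL(2, ℤ) ⧸ Γ) :
    (Quotient.out (g • x) : SL(2, ℤ))⁻¹ * g * Quotient.out x ∈ Γ := by
  rw [mul_assoc, ← QuotientGroup.eq, QuotientGroup.out_eq']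
  conv_lhs => rw [← QuotientGroup.out_eq' x]
  rw [MulAction.Quotient.smul_mk, smul_eq_mul]

end Quot


section Hom

variable (Γ : Subgroup SL(2, ℤ)) {A : Type*} [AddCommGroup A]

/-- The homomorphism `Γ → A` attached to a cocycle. -/
def homOfCocycle (f : SL(2, ℤ) → (SL(2, ℤ) ⧸ Γ) → A) (hf : IsCocycle f) : Additive Γ →+ A where
  toFun γ := f ((Additive.toMul γ : Γ) : SL(2, ℤ)) (basePt Γ)
  map_zero' := hf.map_one _
  map_add' γ δ := by
    show f (((Additive.toMul γ * Additive.toMul δ : Γ)) : SL(2, ℤ)) _ = _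
    rw [Subgroup.coe_mul, hf, smul_basePt_of_mem Γ (Additive.toMul δ).2, add_comm]

@[simp] lemma homOfCocycle_apply (f : SL(2, ℤ) → (SL(2, ℤ) ⧸ Γ) → A) (hf : IsCocycle f) (γ : Γ) :
    homOfCocycle Γ f hf (Additive.ofMul γ) = f (γ : SL(2, ℤ)) (basePt Γ) := rfl

variable {Γ}

lemma IsCocycle.zpow_of_cobd {X : Type*} [MulAction SL(2, ℤ) X] {f : SL(2, ℤ) → X → A}
    (hf : IsCocycle f) (g : SL(2, ℤ)) (h : X → A) (hg : ∀ x, f g x = h (g • x) - h x) (k : ℤ)
    (x : X) : f (g ^ k) x = h (g ^ k • x) - h x := by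
  induction k using Int.induction_on generalizing x with
  | zero => simp [hf.map_one]
  | succ n ih =>
    rw [_root_.zpow_add_one, hf, hg, ih, mul_smul]
    abel
  | pred n ih =>
    rw [_root_.zpow_sub_one, hf, ih, hf.map_inv', hg, smul_inv_smul, mul_smul]
    abel

lemma IsCocycle.conj_apply {f : SL(2, ℤ) → (SL(2, ℤ) ⧸ Γ) → A} (hf : IsCocycle f)
    (g t : SL(2, ℤ)) (hfix : (g * t * g⁻¹) • basePt Γ = basePt Γ) :
    f (g * t * g⁻¹) (basePt Γ) = f t (g⁻¹ • basePt Γ) := by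
  have h1 : t • g⁻¹ • basePt Γ = g⁻¹ • basePt Γ := by
    calc t • g⁻¹ • basePt Γ = g⁻¹ • (g * t * g⁻¹) • basePt Γ := by
          simp only [mul_smul, inv_smul_smul]
      _ = g⁻¹ • basePt Γ := by rw [hfix]
  have h2 := hf.map_inv g (g⁻¹ • basePt Γ)
  rw [smul_inv_smul] at h2
  rw [mul_assoc, hf, hf, mul_smul, h1, h2]
  abel

end Hom


section Construct

variable (Γ : Subgroup SL(2, ℤ)) {A : Type*} [AddCommGroup A]

/-- The cocycle induced by a homomorphism `ψ : Γ → A` (w.r.t. the section `Quotient.out`). -/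
noncomputable def indc (ψ : Additive Γ →+ A) (g : SL(2, ℤ)) (x : SL(2, ℤ) ⧸ Γ) : A :=
  ψ (Additive.ofMul
    (⟨(Quotient.out (g • x) : SL(2, ℤ))⁻¹ * g * Quotient.out x, sec_mem Γ g x⟩ : Γ))

variable {Γ}

lemma IsCocycle.eq_indc_add {f : SL(2, ℤ) → (SL(2, ℤ) ⧸ Γ) → A} (hf : IsCocycle f)
    (g : SL(2, ℤ)) (x : SL(2, ℤ) ⧸ Γ) :
    f g x = indc Γ (homOfCocycle Γ f hf) g x
      + f (Quotient.out (g • x)) (basePt Γ) - f (Quotient.out x) (basePt Γ) := by
  rw [indc, homOfCocycle_apply]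
  show f g x = f ((Quotient.out (g • x) : SL(2, ℤ))⁻¹ * g * Quotient.out x) (basePt Γ) + _ - _
  rw [mul_assoc, hf, hf, out_smul_basePt, mul_smul, out_smul_basePt]
  have h2 := hf.map_inv (Quotient.out (g • x)) (basePt Γ)
  rw [out_smul_basePt] at h2
  rw [h2]
  abel

theorem exists_parabolicHom_of_osum (hneg : (-1 : SL(2, ℤ)) ∈ Γ) (K : Type*) [Field K]
    [Fintype (SL(2, ℤ) ⧸ Γ)] (a c : (SL(2, ℤ) ⧸ Γ) → K)
    (ha : osum K S a = 0) (hc : osum K (S * T) c = 0) (hT : osum K T (c - a) = 0) :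
    ∃ (ψ : Additive Γ →+ K) (n : (SL(2, ℤ) ⧸ Γ) → K), IsParabolicHom Γ ψ ∧
      (∀ x, a x = indc Γ ψ S x + (n (S • x) - n x)) ∧
      (∀ x, c x = indc Γ ψ (S * T) x + (n ((S * T) • x) - n x)) := by
  have hn := neg_one_smul_quot hneg
  -- pointwise relations
  obtain ⟨ea, hea⟩ := exists_cobd_of_osum_eq_zero K S ha
  obtain ⟨ec, hec⟩ := exists_cobd_of_osum_eq_zero K (S * T) hc
  have ha' : ∀ x, a x + a (S • x) = 0 := by
    intro x
    rw [hea, hea, smul_smul, S_mul_S_eq_neg_one, hn]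
    ring
  have hc' : ∀ x, c x + c ((S * T) • x) + c ((S * T) • (S * T) • x) = 0 := by
    intro x
    have h1 : (S * T) • (S * T) • (S * T) • x = x := by
      rw [smul_smul, smul_smul, ST_cube_eq_neg_one, hn]
    rw [hec, hec, hec, h1]
    ring
  obtain ⟨f, hf, hfS, hfU⟩ := exists_cocycle hn a c ha' hc'
  -- `f (-1) = 0`
  have hfneg : ∀ x, f (-1) x = 0 := by
    intro x
    rw [← S_mul_S_eq_neg_one, hf, hfS]
    exact ha' x
  -- `f T`
  have hfT : ∀ x, f T x = c x - a (T • x) := by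
    intro x
    have h1 : T = S⁻¹ * (S * T) := by rw [inv_mul_cancel_left]
    have h2 : S⁻¹ • (S * T) • x = T • x := by rw [smul_smul, inv_mul_cancel_left]
    conv_lhs => rw [h1]
    rw [hf, hf.map_inv', hfU, hfS, h2]
    ring
  have hosT : osum K T (f T) = 0 := by
    have h1 : f T = c - fun x => a (T • x) := by
      funext x; rw [hfT]; rfl
    rw [h1, map_sub, osum_comp_smul, ← map_sub]
    exact hT
  obtain ⟨eT, heT⟩ := exists_cobd_of_osum_eq_zero K T hosT
  have hzpow := hf.zpow_of_cobd T eT heT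
  refine ⟨homOfCocycle Γ f hf, fun x => f (Quotient.out x) (basePt Γ), ?_, ?_, ?_⟩
  · -- parabolic
    intro γ hγ
    rw [homOfCocycle_apply]
    have key : ∀ (g : SL(2, ℤ)) (k : ℤ), (g * T ^ k * g⁻¹) • basePt Γ = basePt Γ →
        f (g * T ^ k * g⁻¹) (basePt Γ) = 0 := by
      intro g k hfix
      rw [hf.conj_apply g (T ^ k) hfix, hzpow]
      have h1 : T ^ k • g⁻¹ • basePt Γ = g⁻¹ • basePt Γ := by
        calc T ^ k • g⁻¹ • basePt Γ = g⁻¹ • (g * T ^ k * g⁻¹) • basePt Γ := by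
              simp only [mul_smul, inv_smul_smul]
          _ = g⁻¹ • basePt Γ := by rw [hfix]
      rw [h1, sub_self]
    obtain ⟨g, k, h | h⟩ := exists_conj_T_zpow (γ : SL(2, ℤ)) hγ
    · rw [h]
      apply key
      rw [← h]
      exact smul_basePt_of_mem Γ γ.2
    · have h1 : (γ : SL(2, ℤ)) = (-1) * (g * T ^ k * g⁻¹) := by
        rw [h]; simp
      have h2 : (g * T ^ k * g⁻¹) • basePt Γ = basePt Γ := by
        have h3 : g * T ^ k * g⁻¹ = (-1) * (γ : SL(2, ℤ)) := by
          rw [h]; simp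
        rw [h3, mul_smul, smul_basePt_of_mem Γ γ.2, hn]
      rw [h1, hf, hfneg, add_zero]
      exact key g k h2
  · intro x
    have := hf.eq_indc_add S x
    rw [hfS] at this
    rw [this]; ring
  · intro x
    have := hf.eq_indc_add (S * T) x
    rw [hfU] at this
    rw [this]; ring

end Construct


section Finite

/-- `Hom(H, K)` is finite dimensional for a finitely generated group `H`. -/
lemma finite_addMonoidHom_of_fg (H : Type*) [Group H] [Group.FG H] (K : Type*) [Field K] :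
    Module.Finite K (Additive H →+ K) := by
  obtain ⟨s, hs⟩ := Group.fg_def.mp (inferInstance : Group.FG H)
  let L : (Additive H →+ K) →ₗ[K] (s → K) :=
    { toFun := fun φ x => φ (Additive.ofMul (x : H))
      map_add' := fun _ _ => rfl
      map_smul' := fun _ _ => rfl }
  have hL : Function.Injective L := by
    rw [← LinearMap.ker_eq_bot, LinearMap.ker_eq_bot']
    intro φ hφ
    have h0 : ∀ x ∈ s, φ (Additive.ofMul x) = 0 := fun x hx => congrFun hφ ⟨x, hx⟩
    have key : ∀ h : H, φ (Additive.ofMul h) = 0 := by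
      intro h
      have hg : h ∈ Subgroup.closure (s : Set H) := by rw [hs]; trivial
      induction hg using Subgroup.closure_induction with
      | mem x hx => exact h0 x hx
      | one => exact map_zero φ
      | mul x y _ _ hx hy =>
        rw [ofMul_mul, map_add, hx, hy, add_zero]
      | inv x _ hx =>
        rw [ofMul_inv, map_neg, hx, neg_zero]
    exact AddMonoidHom.ext fun g => key (Additive.toMul g)
  exact Module.Finite.of_injective L hL

instance groupFG_SL2Z : Group.FG SL(2, ℤ) :=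
  Group.fg_iff.mpr ⟨{S, T}, _root_.SpecialLinearGroup.SL2Z_generators, Set.toFinite _⟩

lemma finite_parabolicHoms (Γ : Subgroup SL(2, ℤ)) [Γ.FiniteIndex] (K : Type*) [Field K] :
    Module.Finite K (parabolicHoms K Γ K) := by
  have : Group.FG Γ := Subgroup.fg_of_index_ne_zero Γ
  have := finite_addMonoidHom_of_fg Γ K
  infer_instance

end Finite


section Count

variable (K : Type*) [Field K] (X : Type*) [MulAction SL(2, ℤ) X] [Fintype X]

/-- The sum functional. -/
def sumL (ι : Type*) [Fintype ι] : (ι → K) →ₗ[K] K where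
  toFun z := ∑ i, z i
  map_add' z z' := by simp [Finset.sum_add_distrib]
  map_smul' t z := by simp [Finset.mul_sum]

@[simp] lemma sumL_apply (ι : Type*) [Fintype ι] (z : ι → K) : sumL K ι z = ∑ i, z i := rfl

/-- The constraint map `(a, c) ↦ (orbit sums of a, of c, of c - a)`. -/
noncomputable def lamL : ((X → K) × (X → K)) →ₗ[K]
    ((Orb S X → K) × (Orb (S * T) X → K) × (Orb T X → K)) :=
  ((osum K S).comp (LinearMap.fst K _ _)).prod
    (((osum K (S * T)).comp (LinearMap.snd K _ _)).prod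
      ((osum K T).comp (LinearMap.snd K _ _ - LinearMap.fst K _ _)))

lemma lamL_apply (a c : X → K) :
    lamL K X (a, c) = (osum K S a, osum K (S * T) c, osum K T (c - a)) := rfl

lemma mem_ker_lamL (a c : X → K) :
    (a, c) ∈ LinearMap.ker (lamL K X) ↔
      osum K S a = 0 ∧ osum K (S * T) c = 0 ∧ osum K T (c - a) = 0 := by
  rw [LinearMap.mem_ker, lamL_apply, Prod.mk_eq_zero, Prod.mk_eq_zero]

variable [Fintype (Orb S X)] [Fintype (Orb (S * T) X)] [Fintype (Orb T X)]

/-- The linear relation between the constraints. -/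
noncomputable def epsL :
    ((Orb S X → K) × (Orb (S * T) X → K) × (Orb T X → K)) →ₗ[K] K :=
  (sumL K _).comp ((LinearMap.snd K _ _).comp (LinearMap.snd K _ _))
    - (sumL K _).comp ((LinearMap.fst K _ _).comp (LinearMap.snd K _ _))
    + (sumL K _).comp (LinearMap.fst K _ _)

omit [Fintype X] in
lemma epsL_apply (p : Orb S X → K) (q : Orb (S * T) X → K) (z : Orb T X → K) :
    epsL K X (p, q, z) = ∑ i, z i - ∑ i, q i + ∑ i, p i := rfl

lemma range_lamL_le_ker_epsL : LinearMap.range (lamL K X) ≤ LinearMap.ker (epsL K X) := by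
  rintro _ ⟨⟨a, c⟩, rfl⟩
  rw [LinearMap.mem_ker, lamL_apply, epsL_apply, sum_osum, sum_osum, sum_osum]
  simp only [Pi.sub_apply, Finset.sum_sub_distrib]
  ring

omit [Fintype X] in
lemma epsL_surjective [Nonempty X] : Function.Surjective (epsL K X) := by
  classical
  obtain ⟨x⟩ := (inferInstance : Nonempty X)
  intro t
  refine ⟨(0, 0, Pi.single (orbMk T x) t), ?_⟩
  rw [epsL_apply]
  simp

lemma finrank_ker_epsL [Nonempty X] :
    Module.finrank K (LinearMap.ker (epsL K X)) + 1 =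
      Nat.card (Orb S X) + Nat.card (Orb (S * T) X) + Nat.card (Orb T X) := by
  have h := LinearMap.finrank_range_add_finrank_ker (epsL K X)
  rw [LinearMap.range_eq_top.mpr (epsL_surjective K X), finrank_top, Module.finrank_self,
    Module.finrank_prod, Module.finrank_prod, finrank_orb_fun, finrank_orb_fun,
    finrank_orb_fun] at h
  omega

/-- The dimension of the solution space of the orbit sum constraints. -/
theorem finrank_ker_lamL_ge [Nonempty X] :
    2 * Fintype.card X + 1 ≤ Module.finrank K (LinearMap.ker (lamL K X))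
      + Nat.card (Orb S X) + Nat.card (Orb (S * T) X) + Nat.card (Orb T X) := by
  have h1 := LinearMap.finrank_range_add_finrank_ker (lamL K X)
  rw [Module.finrank_prod, Module.finrank_fintype_fun_eq_card] at h1
  have h2 := Submodule.finrank_mono (range_lamL_le_ker_epsL K X)
  have h3 := finrank_ker_epsL K X
  omega

end Count


section Main

variable (Γ : Subgroup SL(2, ℤ)) (K : Type*) [Field K]

/-- `indc` as a linear map in `ψ`. -/
noncomputable def indcL (g : SL(2, ℤ)) :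
    (Additive Γ →+ K) →ₗ[K] ((SL(2, ℤ) ⧸ Γ) → K) where
  toFun ψ x := indc Γ ψ g x
  map_add' _ _ := rfl
  map_smul' _ _ := rfl

/-- The comparison map `(ψ, m) ↦ (ψ^S + (m ∘ S - m), ψ^{ST} + (m ∘ ST - m))`. -/
noncomputable def thetaL :
    (parabolicHoms K Γ K × ((SL(2, ℤ) ⧸ Γ) → K)) →ₗ[K]
      (((SL(2, ℤ) ⧸ Γ) → K) × ((SL(2, ℤ) ⧸ Γ) → K)) :=
  (((indcL Γ K S).comp ((parabolicHoms K Γ K).subtype.comp (LinearMap.fst K _ _)))
      + (cobd K S).comp (LinearMap.snd K _ _)).prod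
    (((indcL Γ K (S * T)).comp ((parabolicHoms K Γ K).subtype.comp (LinearMap.fst K _ _)))
      + (cobd K (S * T)).comp (LinearMap.snd K _ _))

lemma thetaL_apply (ψ : parabolicHoms K Γ K) (m : (SL(2, ℤ) ⧸ Γ) → K) :
    thetaL Γ K (ψ, m) =
      ((fun x => indc Γ (ψ : Additive Γ →+ K) S x) + cobd K S m,
       (fun x => indc Γ (ψ : Additive Γ →+ K) (S * T) x) + cobd K (S * T) m) := rfl

variable {Γ}

lemma ker_lamL_le_range_thetaL [Fintype (SL(2, ℤ) ⧸ Γ)] (hneg : (-1 : SL(2, ℤ)) ∈ Γ) :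
    LinearMap.ker (lamL K (SL(2, ℤ) ⧸ Γ)) ≤ LinearMap.range (thetaL Γ K) := by
  rintro ⟨a, c⟩ hac
  rw [mem_ker_lamL] at hac
  obtain ⟨ψ, n, hψ, h1, h2⟩ := exists_parabolicHom_of_osum hneg K a c hac.1 hac.2.1 hac.2.2
  refine ⟨(⟨ψ, hψ⟩, n), ?_⟩
  rw [thetaL_apply]
  refine Prod.ext ?_ ?_
  · funext x
    exact (h1 x).symm
  · funext x
    exact (h2 x).symm

lemma one_le_finrank_ker_thetaL [Γ.FiniteIndex] :
    1 ≤ Module.finrank K (LinearMap.ker (thetaL Γ K)) := by
  haveI := finite_parabolicHoms Γ K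
  haveI : Finite (SL(2, ℤ) ⧸ Γ) := Subgroup.finite_quotient_of_finiteIndex
  rw [Nat.succ_le_iff]
  refine (Module.finrank_pos_iff_exists_ne_zero (R := K)).mpr
    ⟨(⟨(0, fun _ => 1), ?_⟩ : LinearMap.ker (thetaL Γ K)), ?_⟩
  · rw [LinearMap.mem_ker, thetaL_apply]
    refine Prod.ext ?_ ?_
    · funext x
      simp [indc]
    · funext x
      simp [indc]
  · intro h
    have h1 := congrArg (fun z : LinearMap.ker (thetaL Γ K) => z.1.2 (basePt Γ)) h
    simp at h1

/-- **Lower bound for the dimension of the space of parabolic homomorphisms.** -/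
theorem card_add_two_le_finrank_parabolicHoms [Γ.FiniteIndex] (hneg : (-1 : SL(2, ℤ)) ∈ Γ) :
    Nat.card (SL(2, ℤ) ⧸ Γ) + 2 ≤
      Module.finrank K (parabolicHoms K Γ K)
        + Nat.card (MulAction.orbitRel.Quotient (Subgroup.zpowers S) (SL(2, ℤ) ⧸ Γ))
        + Nat.card (MulAction.orbitRel.Quotient (Subgroup.zpowers (S * T)) (SL(2, ℤ) ⧸ Γ))
        + Nat.card (MulAction.orbitRel.Quotient (Subgroup.zpowers T) (SL(2, ℤ) ⧸ Γ)) := by
  classical
  haveI := finite_parabolicHoms Γ K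
  haveI : Finite (SL(2, ℤ) ⧸ Γ) := Subgroup.finite_quotient_of_finiteIndex
  letI : Fintype (SL(2, ℤ) ⧸ Γ) := Fintype.ofFinite _
  letI : Fintype (Orb S (SL(2, ℤ) ⧸ Γ)) := Fintype.ofFinite _
  letI : Fintype (Orb (S * T) (SL(2, ℤ) ⧸ Γ)) := Fintype.ofFinite _
  letI : Fintype (Orb T (SL(2, ℤ) ⧸ Γ)) := Fintype.ofFinite _
  haveI : Nonempty (SL(2, ℤ) ⧸ Γ) := ⟨basePt Γ⟩
  have h1 : 2 * Fintype.card (SL(2, ℤ) ⧸ Γ) + 1 ≤
      Module.finrank K (LinearMap.ker (lamL K (SL(2, ℤ) ⧸ Γ)))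
        + Nat.card (MulAction.orbitRel.Quotient (Subgroup.zpowers S) (SL(2, ℤ) ⧸ Γ))
        + Nat.card (MulAction.orbitRel.Quotient (Subgroup.zpowers (S * T)) (SL(2, ℤ) ⧸ Γ))
        + Nat.card (MulAction.orbitRel.Quotient (Subgroup.zpowers T) (SL(2, ℤ) ⧸ Γ)) :=
    finrank_ker_lamL_ge K (SL(2, ℤ) ⧸ Γ)
  have h2 := Submodule.finrank_mono (ker_lamL_le_range_thetaL K hneg)
  have h3 := LinearMap.finrank_range_add_finrank_ker (thetaL Γ K)
  rw [Module.finrank_prod, Module.finrank_fintype_fun_eq_card] at h3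
  have h4 := one_le_finrank_ker_thetaL (Γ := Γ) K
  rw [Nat.card_eq_fintype_card (α := SL(2, ℤ) ⧸ Γ)]
  omega

end Main

end Fermat.Agent.S21.H585

end
-- ===== PACK-END S21/H585/LowerBound.lean

-- ===== PACK-BEGIN S59/H307/Glue.lean
section





/-!
# S59 / layer G4, piece GLUE (helper307): descent of `ρ` from the points `O i` to `T`

Main results:

* `exists_glued_rep` : **GLUE**.  `T` local with `2` a unit, `ψ i : T →+* O i` local homs, jointly
  injective, topologically separating (`htop`, PTS-style: for every `n` a finite set of indices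
  and `n'`), `ρ' i : GaloisRepAdic (O i)` with traces `ψ i (τ σ)`, an involution `c` with
  `τ c = 0`, and one `ρ' i₀` residually irreducible.  Then there is `ρ : GaloisRepAdic T` with
  `ρ.trace = τ` and `ρ ⊗ O i ≅ ρ' i` for all `i`.
* `exists_glued_rep_of_hausdorff` : the same with joint injectivity deduced from `htop` and
  `IsHausdorff`.
* `isEquiv_of_trace_eq` : **UNIQ** (Carayol/Serre in the odd case).  Two `GaloisRepAdic A` with
  the same traces, trace `0` at an involution, one of them residually irreducible, are equivalent.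
* `charpoly_eq_of_baseChange_isEquiv` : characteristic polynomials descend along a jointly
  injective family of base changes.
-/

set_option autoImplicit false
set_option linter.unusedSectionVars false
set_option linter.unusedVariables false

noncomputable section

namespace Fermat.Agent.S59.H307

open scoped TensorProduct
open Matrix Polynomial

section Main

variable {T : Type} [CommRing T] [IsLocalRing T]
  {ι : Type*} {O : ι → Type} [∀ i, CommRing (O i)] [∀ i, IsLocalRing (O i)]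

/-- **GLUE**: descent of a family of 2-dimensional Galois representations over the points `O i`
of `T` to a representation over `T`. -/
theorem exists_glued_rep (h2 : IsUnit (2 : T))
    (ψ : ∀ i, T →+* O i) (hψ : ∀ i, IsLocalHom (ψ i))
    (hinj : ∀ t : T, (∀ i, ψ i t = 0) → t = 0)
    (htop : ∀ n : ℕ, ∃ (F : Finset ι) (n' : ℕ), ∀ t : T,
      (∀ i ∈ F, ψ i t ∈ IsLocalRing.maximalIdeal (O i) ^ n') →
        t ∈ IsLocalRing.maximalIdeal T ^ n)
    (ρ' : ∀ i, GaloisRepAdic (O i)) (τ : GalQ → T)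
    (hτ : ∀ i σ, ψ i (τ σ) = (ρ' i).trace σ)
    (c : GalQ) (hcc : c * c = 1) (hτc : τ c = 0)
    (i₀ : ι) (hirr : (ρ' i₀).residual.IsIrreducible) :
    ∃ ρ : GaloisRepAdic T, (∀ σ, ρ.trace σ = τ σ) ∧
      ∀ i, (ρ.baseChangeAlong (ψ i) (hψ i)).IsEquiv (ρ' i) := by
  classical
  choose e m hreal using fun i => exists_realizes (ρ' i)
  obtain ⟨M, hMtr, hM⟩ := exists_glued ψ hψ hinj h2 m τ
    (fun i σ => by rw [hτ, (hreal i).trace_eq]) c hcc hτc i₀
    (fun P Q hPQ hQP =>
      ⟨((hreal i₀).conj hPQ hQP).exists_isUnit_01 hirr,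
        ((hreal i₀).conj hPQ hQP).exists_isUnit_10 hirr⟩)
  choose P Q hPQ hQP hMi using hM
  have hcont : EntrywiseContinuous M := by
    intro n
    obtain ⟨F, n', hF⟩ := htop n
    have hex : ∀ i, ∃ L : IntermediateField ℚ (AlgebraicClosure ℚ), FiniteDimensional ℚ L ∧
        ∀ σ : GalQ, (∀ x ∈ L, σ x = x) →
          ∀ j k, (Q i * m i σ * P i - 1) j k ∈ IsLocalRing.maximalIdeal (O i) ^ n' :=
      fun i => ((hreal i).entrywiseContinuous.conj (hQP i)) n'
    choose L hL hLc using hex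
    refine ⟨⨆ i ∈ F, L i, IntermediateField.finiteDimensional_iSup_of_finset' fun i _ => hL i,
      fun σ hσ j k => ?_⟩
    apply hF
    intro i hi
    have hσi : ∀ x ∈ L i, σ x = x := fun x hx =>
      hσ x ((le_iSup₂ (f := fun i (_ : i ∈ F) => L i) i hi) hx)
    have := hLc i σ hσi j k
    rw [← hMi i σ] at this
    convert this using 1
    rw [Matrix.sub_apply, Matrix.sub_apply, map_sub, Matrix.map_apply, Matrix.one_apply,
      Matrix.one_apply]
    split_ifs
    · rw [map_one]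
    · rw [map_zero]
  refine ⟨ofMat M hcont, fun σ => by rw [trace_ofMat, hMtr], fun i => ?_⟩
  exact baseChange_ofMat_isEquiv (ψ i) (hψ i) M hcont ((hreal i).conj (hPQ i) (hQP i))
    (fun σ => hMi i σ)

/-- **GLUE**, with joint injectivity deduced from topological separation and Hausdorffness. -/
theorem exists_glued_rep_of_hausdorff [IsHausdorff (IsLocalRing.maximalIdeal T) T]
    (h2 : IsUnit (2 : T))
    (ψ : ∀ i, T →+* O i) (hψ : ∀ i, IsLocalHom (ψ i))
    (htop : ∀ n : ℕ, ∃ (F : Finset ι) (n' : ℕ), ∀ t : T,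
      (∀ i ∈ F, ψ i t ∈ IsLocalRing.maximalIdeal (O i) ^ n') →
        t ∈ IsLocalRing.maximalIdeal T ^ n)
    (ρ' : ∀ i, GaloisRepAdic (O i)) (τ : GalQ → T)
    (hτ : ∀ i σ, ψ i (τ σ) = (ρ' i).trace σ)
    (c : GalQ) (hcc : c * c = 1) (hτc : τ c = 0)
    (i₀ : ι) (hirr : (ρ' i₀).residual.IsIrreducible) :
    ∃ ρ : GaloisRepAdic T, (∀ σ, ρ.trace σ = τ σ) ∧
      ∀ i, (ρ.baseChangeAlong (ψ i) (hψ i)).IsEquiv (ρ' i) := by
  refine exists_glued_rep h2 ψ hψ ?_ htop ρ' τ hτ c hcc hτc i₀ hirr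
  intro t ht
  apply IsHausdorff.haus (I := IsLocalRing.maximalIdeal T) ‹_› t
  intro n
  obtain ⟨F, n', hF⟩ := htop n
  have : t ∈ IsLocalRing.maximalIdeal T ^ n :=
    hF t fun i _ => by rw [ht i]; exact Ideal.zero_mem _
  rw [SModEq.zero, smul_eq_mul, Ideal.mul_top]
  exact this

end Main

section Uniq

variable {A : Type} [CommRing A] [IsLocalRing A]

/-- **UNIQ** (Carayol–Serre rigidity, odd case): two representations over a local ring in which
`2` is a unit with the same traces, trace `0` at an involution `c`, and one of them residually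
irreducible, are equivalent. -/
theorem isEquiv_of_trace_eq (h2 : IsUnit (2 : A)) (ρ₁ ρ₂ : GaloisRepAdic A)
    (htr : ∀ σ, ρ₁.trace σ = ρ₂.trace σ) (c : GalQ) (hcc : c * c = 1) (hc : ρ₁.trace c = 0)
    (hirr : ρ₁.residual.IsIrreducible) : ρ₁.IsEquiv ρ₂ := by
  classical
  obtain ⟨e₁, m₁, h₁⟩ := exists_realizes ρ₁
  obtain ⟨e₂, m₂, h₂⟩ := exists_realizes ρ₂
  have hloc : ∀ i : Bool, IsLocalHom (RingHom.id A) := fun _ => ⟨fun a ha => ha⟩
  obtain ⟨M, -, hM⟩ := exists_glued (G := GalQ) (T := A) (ι := Bool) (O := fun _ => A)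
    (fun _ => RingHom.id A) hloc (fun t ht => ht true) h2
    (fun i => if i then m₁ else m₂) (fun σ => ρ₁.trace σ)
    (fun i σ => by
      cases i
      · simp only [Bool.false_eq_true, if_false, RingHom.id_apply]
        rw [htr, h₂.trace_eq]
      · simp only [if_true, RingHom.id_apply]
        rw [h₁.trace_eq]) c hcc hc true
    (fun P Q hPQ hQP => by
      simp only [if_true]
      exact ⟨(h₁.conj hPQ hQP).exists_isUnit_01 hirr, (h₁.conj hPQ hQP).exists_isUnit_10 hirr⟩)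
  obtain ⟨P₁, Q₁, hPQ₁, hQP₁, hM₁⟩ := hM true
  obtain ⟨P₂, Q₂, hPQ₂, hQP₂, hM₂⟩ := hM false
  simp only [if_true] at hM₁
  simp only [Bool.false_eq_true, if_false] at hM₂
  have hr₁ := h₁.conj hPQ₁ hQP₁
  have hr₂ := h₂.conj hPQ₂ hQP₂
  have : (fun σ => Q₁ * m₁ σ * P₁) = fun σ => Q₂ * m₂ σ * P₂ := by
    funext σ
    rw [← hM₁ σ, ← hM₂ σ]
  rw [this] at hr₁
  exact isEquiv_of_realizes hr₁ hr₂

end Uniq

section Charpoly

variable {T : Type} [CommRing T] [IsLocalRing T]
  {ι : Type*} {O : ι → Type} [∀ i, CommRing (O i)] [∀ i, IsLocalRing (O i)]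

/-- Equivalent representations have the same characteristic polynomials. -/
theorem charpoly_eq_of_isEquiv {A : Type} [CommRing A] [IsLocalRing A] {ρ₁ ρ₂ : GaloisRepAdic A}
    (h : ρ₁.IsEquiv ρ₂) (σ : GalQ) :
    LinearMap.charpoly (ρ₁.ρ σ) = LinearMap.charpoly (ρ₂.ρ σ) := by
  obtain ⟨E⟩ := h
  rw [← LinearEquiv.charpoly_conj E.toLinearEquiv (ρ₁.ρ σ)]
  congr 1
  apply LinearMap.ext
  intro w
  rw [LinearEquiv.conj_apply_apply, E.map_apply, LinearEquiv.apply_symm_apply]

/-- Characteristic polynomial of a base change. -/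
theorem charpoly_baseChangeAlong {A B : Type} [CommRing A] [IsLocalRing A] [CommRing B]
    [IsLocalRing B] (φ : A →+* B) (hφ : IsLocalHom φ) (ρ : GaloisRepAdic A) (σ : GalQ) :
    LinearMap.charpoly ((ρ.baseChangeAlong φ hφ).ρ σ) = (LinearMap.charpoly (ρ.ρ σ)).map φ := by
  letI : Algebra A B := φ.toAlgebra
  exact LinearMap.charpoly_baseChange (ρ.ρ σ) B

/-- Characteristic polynomials descend along a jointly injective family of base changes. -/
theorem charpoly_eq_of_baseChange_isEquiv (ψ : ∀ i, T →+* O i) (hψ : ∀ i, IsLocalHom (ψ i))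
    (hinj : ∀ t : T, (∀ i, ψ i t = 0) → t = 0) (ρ : GaloisRepAdic T)
    (ρ' : ∀ i, GaloisRepAdic (O i))
    (hρ : ∀ i, (ρ.baseChangeAlong (ψ i) (hψ i)).IsEquiv (ρ' i)) (σ : GalQ) (p : T[X])
    (hp : ∀ i, LinearMap.charpoly ((ρ' i).ρ σ) = p.map (ψ i)) :
    LinearMap.charpoly (ρ.ρ σ) = p := by
  apply Polynomial.ext
  intro n
  rw [← sub_eq_zero]
  apply hinj
  intro i
  have h1 := charpoly_eq_of_isEquiv (hρ i) σ
  rw [charpoly_baseChangeAlong, hp i] at h1
  have h2 := congrArg (fun q => q.coeff n) h1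
  simp only [Polynomial.coeff_map] at h2
  rw [map_sub, h2, sub_self]

end Charpoly

end Fermat.Agent.S59.H307

end
end
-- ===== PACK-END S59/H307/Glue.lean

-- ===== PACK-BEGIN S59/H294/ResFlatHopf.lean
section




/-!
# Row S59, cell LO, leaf ResFlat — transfer of Hopf models (helper294)

`isFlatAt_ofResidual_of_embedding294`: if `ρ_T` over a local ring `T` is flat at `p` and a residual
representation `ρ_E` (over any field `k` with finite residue field, e.g. `𝔽_p`) embeds
additively and Galois-equivariantly into the residual representation of `ρ_T`, then `ρ_E` is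
flat at `p`.  (Closure of Hopf models under subquotients, `H779.HopfSubquotSpec`.)
-/

set_option autoImplicit false

open IsLocalRing
open scoped TensorProduct

namespace Fermat.Agent.S59.H294

open Fermat.Agent.S59.H779 Fermat.Agent.S19

section

variable {p : ℕ} {T : Type} [CommRing T] [IsLocalRing T]

/-- `a ∈ 𝔪_T` kills `k_T ⊗ V`. -/
theorem one_tmul_eq_zero_of_mem294 (ρ : GaloisRepAdic T) (x : ρ.V)
    (hx : x ∈ (maximalIdeal T) • (⊤ : Submodule T ρ.V)) :
    (1 : ResidueField T) ⊗ₜ[T] x = 0 := by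
  refine Submodule.smul_induction_on
    (p := fun x => (1 : ResidueField T) ⊗ₜ[T] x = (0 : ResidueField T ⊗[T] ρ.V)) hx ?_ ?_
  · intro a ha w _
    rw [TensorProduct.tmul_smul, TensorProduct.smul_tmul', Algebra.smul_def,
      IsLocalRing.ResidueField.algebraMap_eq, (IsLocalRing.residue_eq_zero_iff a).mpr ha,
      zero_mul, TensorProduct.zero_tmul]
  · intro x y hx hy
    rw [TensorProduct.tmul_add, hx, hy, add_zero]

/-- The canonical map `V / 𝔪 V → k_T ⊗ V`. -/
noncomputable def quotToResidual294 (ρ : GaloisRepAdic T) :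
    (ρ.V ⧸ ((maximalIdeal T) • (⊤ : Submodule T ρ.V))) →ₗ[T] (ResidueField T ⊗[T] ρ.V) :=
  Submodule.liftQ _ (TensorProduct.mk T (ResidueField T) ρ.V 1) (fun x hx => by
    rw [LinearMap.mem_ker]
    exact one_tmul_eq_zero_of_mem294 ρ x hx)

theorem quotToResidual294_mk (ρ : GaloisRepAdic T) (v : ρ.V) :
    quotToResidual294 ρ (Submodule.Quotient.mk v) = (1 : ResidueField T) ⊗ₜ[T] v := rfl

theorem quotToResidual294_surjective (ρ : GaloisRepAdic T) :
    Function.Surjective (quotToResidual294 ρ) := by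
  intro w
  induction w using TensorProduct.induction_on with
  | zero => exact ⟨0, map_zero _⟩
  | tmul c v =>
    obtain ⟨a, rfl⟩ := IsLocalRing.residue_surjective c
    refine ⟨Submodule.Quotient.mk (a • v), ?_⟩
    rw [quotToResidual294_mk, TensorProduct.tmul_smul, TensorProduct.smul_tmul', Algebra.smul_def,
      IsLocalRing.ResidueField.algebraMap_eq, mul_one]
  | add x y hx hy =>
    obtain ⟨x', rfl⟩ := hx
    obtain ⟨y', rfl⟩ := hy
    exact ⟨x' + y', map_add _ _ _⟩

theorem quotToResidual294_equivariant (ρ : GaloisRepAdic T)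
    (σ : AlgebraicClosure ℚ ≃ₐ[ℚ] AlgebraicClosure ℚ)
    (x : ρ.V ⧸ ((maximalIdeal T) • (⊤ : Submodule T ρ.V))) :
    quotToResidual294 ρ (ρ.levelAction (maximalIdeal T) σ x)
      = ρ.residual.ρ σ (quotToResidual294 ρ x) := by
  obtain ⟨v, rfl⟩ := Submodule.Quotient.mk_surjective _ x
  show quotToResidual294 ρ (Submodule.Quotient.mk (ρ.ρ σ v))
    = (ρ.ρ σ).baseChange (ResidueField T) ((1 : ResidueField T) ⊗ₜ[T] v)
  rw [quotToResidual294_mk, LinearMap.baseChange_tmul]

/-- A flat `ρ` has a Hopf model on its residual representation. -/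
theorem hopfModel_residual_of_isFlatAt294 (hSub : HopfSubquotSpec p) (ρ : GaloisRepAdic T)
    (hflat : ρ.IsFlatAt p) :
    HopfModel p ρ.residual.V (fun σ x => ρ.residual.ρ σ x) := by
  have hfin : Finite (T ⧸ maximalIdeal T) := hflat.1
  have h0 : HopfModel p (ρ.V ⧸ ((maximalIdeal T) • (⊤ : Submodule T ρ.V)))
      (fun σ x => ρ.levelAction (maximalIdeal T) σ x) := hflat.2 (maximalIdeal T) hfin
  exact HopfModel.quotient hSub (quotToResidual294 ρ).toAddMonoidHom
    (quotToResidual294_surjective ρ) (fun σ x => quotToResidual294_equivariant ρ σ x) h0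

end

/-- **Transfer.**  If `ρ_E` has a Hopf model, then `ofResidualGaloisRep ρ_E` is flat. -/
theorem isFlatAt_ofResidual_of_hopfModel294 {p : ℕ} (hSub : HopfSubquotSpec p)
    {k : Type} [Field k] [Finite k] (ρE : ResidualGaloisRep k)
    (h : HopfModel p ρE.V (fun σ x => ρE.ρ σ x)) :
    (GaloisRepAdic.ofResidualGaloisRep ρE).IsFlatAt p := by
  refine ⟨?_, fun I _ => ?_⟩
  · exact Finite.of_surjective (IsLocalRing.residue k) IsLocalRing.residue_surjective
  · have hq : HopfModel p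
        ((GaloisRepAdic.ofResidualGaloisRep ρE).V ⧸
          (I • (⊤ : Submodule k (GaloisRepAdic.ofResidualGaloisRep ρE).V)))
        (fun σ x => (GaloisRepAdic.ofResidualGaloisRep ρE).levelAction I σ x) :=
      HopfModel.quotient hSub
        (Submodule.mkQ (I • (⊤ : Submodule k (GaloisRepAdic.ofResidualGaloisRep ρE).V))).toAddMonoidHom
        (Submodule.mkQ_surjective _) (fun σ x => rfl) h
    exact hq

/-- **ResFlat, transfer form.** -/
theorem isFlatAt_ofResidual_of_embedding294 {p : ℕ} (hSub : HopfSubquotSpec p)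
    {T : Type} [CommRing T] [IsLocalRing T] (ρT : GaloisRepAdic T) (hflat : ρT.IsFlatAt p)
    {k : Type} [Field k] [Finite k] (ρE : ResidualGaloisRep k)
    (i : ρE.V →+ ρT.residual.V) (hi : Function.Injective i)
    (hequiv : ∀ σ v, i (ρE.ρ σ v) = ρT.residual.ρ σ (i v)) :
    (GaloisRepAdic.ofResidualGaloisRep ρE).IsFlatAt p :=
  isFlatAt_ofResidual_of_hopfModel294 hSub ρE
    (HopfModel.sub hSub i hi hequiv (hopfModel_residual_of_isFlatAt294 hSub ρT hflat))

end Fermat.Agent.S59.H294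

end
-- ===== PACK-END S59/H294/ResFlatHopf.lean

-- ===== PACK-BEGIN S59/H314/TwT.lean
section


/-!
# S59, cell TW: hypothesis (T) of TW-ALG from nilpotency  (helper314)

`twT_core`: in the setting of `twCmp_core` (hypotheses `hX`, `hb` of `TW.AlgStatement`), if `w` has finite
`p`-power order and SOME power `(w - 1)^k` maps `V` into `(dia g_j - 1) V`, then `(w - 1) V ⊆ (dia g_j - 1) V`,
i.e. hypothesis (T).  Application: the inertia value `w` at a Taylor–Wiles prime `q_j`; on the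
`Δ_{q_j}`-coinvariants the Hecke algebra acts through a level with `q_j ∥ N'`, where inertia is unipotent
(S34) and `charpoly ρ(σ) = (X - w)(X - w⁻¹)` (INO), so `(w - 1)^2 = 0` there.
-/

set_option autoImplicit false

namespace Fermat.Agent.S59.H314

open Polynomial Finset

section BasisForm

variable {𝒪 T V : Type*} [CommRing 𝒪] [CommRing T] [Algebra 𝒪 T] [AddCommGroup V] [Module T V]
  [Module 𝒪 V] [IsScalarTower 𝒪 T V]

/-- The regrouped basis: from the unique-representation hypothesis `hb` of `TW.AlgStatement` to an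
`𝒪`-basis of the form `X_j ^ k (e i)`. -/
theorem twCmp_basis (p : ℕ) (r : ℕ) (G : Fin r → Type*) [∀ j, CommGroup (G j)] (m : Fin r → ℕ)
    (dia : (∀ j : Fin r, G j) →* Module.End T V) (g : ∀ j : Fin r, G j)
    (d : ℕ) (b : Fin d → V)
    (hb : ∀ y : V, ∃! c : Fin d → (∀ j : Fin r, Fin (p ^ m j)) → 𝒪,
      y = ∑ i, ∑ e, algebraMap 𝒪 T (c i e) • dia (fun j => g j ^ (e j : ℕ)) (b i))
    (j : Fin r) :
    ∃ (e : (Fin d × (∀ j' : {j' : Fin r // j' ≠ j}, Fin (p ^ m j'))) → V)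
      (B : Module.Basis (Fin (p ^ m j) × (Fin d × (∀ j' : {j' : Fin r // j' ≠ j}, Fin (p ^ m j'))))
        𝒪 V),
      ∀ z, B z = (dia (Pi.mulSingle j (g j)) ^ (z.1 : ℕ)) (e z.2) := by
  classical
  have hsm : ∀ (c : 𝒪) (v : V), algebraMap 𝒪 T c • v = c • v := fun c v =>
    algebraMap_smul T c v
  obtain ⟨v, hv⟩ : ∃ v : Fin d × (∀ j : Fin r, Fin (p ^ m j)) → V,
      ∀ z, v z = dia (fun j => g j ^ (z.2 j : ℕ)) (b z.1) := ⟨_, fun _ => rfl⟩
  have hsum : ∀ c : Fin d → (∀ j : Fin r, Fin (p ^ m j)) → 𝒪,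
      (∑ i, ∑ e, algebraMap 𝒪 T (c i e) • dia (fun j => g j ^ (e j : ℕ)) (b i)) =
        ∑ z : Fin d × (∀ j : Fin r, Fin (p ^ m j)), c z.1 z.2 • v z := by
    intro c
    rw [Fintype.sum_prod_type]
    apply Finset.sum_congr rfl
    intro i _
    apply Finset.sum_congr rfl
    intro e _
    rw [hv, hsm]
  have hli : LinearIndependent 𝒪 v := by
    rw [Fintype.linearIndependent_iff]
    intro c hc z
    have h1 : (0 : V) = ∑ i, ∑ e, algebraMap 𝒪 T ((fun i e => c (i, e)) i e) •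
        dia (fun j => g j ^ (e j : ℕ)) (b i) := by
      rw [hsum (fun i e => c (i, e))]
      exact hc.symm
    have h2 : (0 : V) = ∑ i : Fin d, ∑ e : (∀ j : Fin r, Fin (p ^ m j)),
        algebraMap 𝒪 T ((fun (_ : Fin d) (_ : ∀ j : Fin r, Fin (p ^ m j)) => (0 : 𝒪)) i e) •
        dia (fun j => g j ^ (e j : ℕ)) (b i) := by
      simp
    have := (hb 0).unique h1 h2
    exact congrFun (congrFun this z.1) z.2
  have hsp : ⊤ ≤ Submodule.span 𝒪 (Set.range v) := by
    intro y _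
    obtain ⟨c, hc, -⟩ := hb y
    rw [hc, hsum]
    apply Submodule.sum_mem
    intro z _
    exact Submodule.smul_mem _ _ (Submodule.subset_span ⟨z, rfl⟩)
  obtain ⟨B₀, hB₀⟩ : ∃ B₀ : Module.Basis (Fin d × (∀ j : Fin r, Fin (p ^ m j))) 𝒪 V,
      ∀ z, B₀ z = v z := ⟨Module.Basis.mk hli hsp, fun z => by rw [Module.Basis.mk_apply]⟩
  obtain ⟨eqv, heqv⟩ : ∃ eqv : (Fin d × (∀ j : Fin r, Fin (p ^ m j))) ≃
      Fin (p ^ m j) × (Fin d × (∀ j' : {j' : Fin r // j' ≠ j}, Fin (p ^ m j'))),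
      ∀ u, eqv.symm u =
        (u.2.1, (Equiv.piSplitAt j (fun j => Fin (p ^ m j))).symm (u.1, u.2.2)) :=
    ⟨(Equiv.prodCongr (Equiv.refl (Fin d)) (Equiv.piSplitAt j (fun j => Fin (p ^ m j)))).trans
      ((Equiv.prodAssoc _ _ _).symm.trans
        ((Equiv.prodCongr (Equiv.prodComm _ _) (Equiv.refl _)).trans (Equiv.prodAssoc _ _ _))),
      fun u => rfl⟩
  refine ⟨fun u => dia (fun j' => if h : j' = j then 1 else g j' ^ (u.2 ⟨j', h⟩ : ℕ)) (b u.1),
    B₀.reindex eqv, ?_⟩
  intro z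
  rw [Module.Basis.reindex_apply, hB₀, hv, heqv]
  rw [← map_pow, ← Module.End.mul_apply, ← map_mul]
  congr 2
  funext j'
  by_cases h : j' = j
  · subst h
    simp [Equiv.piSplitAt_symm_apply]
  · simp [Equiv.piSplitAt_symm_apply, h]

end BasisForm

section TCore

/-- **(T) from nilpotency** (Mathlib only; setting of `twCmp_core`). -/
theorem twT_core (p : ℕ) (hp : p.Prime) (𝒪 : Type*) [CommRing 𝒪]
    (hpnzd : ∀ c : 𝒪, (p : 𝒪) * c = 0 → c = 0)
    (T : Type*) [CommRing T] [Algebra 𝒪 T] (V : Type*) [AddCommGroup V] [Module T V]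
    (r : ℕ) (G : Fin r → Type*) [∀ j, CommGroup (G j)] (m : Fin r → ℕ)
    (dia : (∀ j : Fin r, G j) →* Module.End T V) (g : ∀ j : Fin r, G j)
    (hX : ∀ j, dia (Pi.mulSingle j (g j)) ^ (p ^ m j) = 1)
    (d : ℕ) (b : Fin d → V)
    (hb : ∀ y : V, ∃! c : Fin d → (∀ j : Fin r, Fin (p ^ m j)) → 𝒪,
      y = ∑ i, ∑ e, algebraMap 𝒪 T (c i e) • dia (fun j => g j ^ (e j : ℕ)) (b i))
    (j : Fin r) (w : T) (a : ℕ) (hw : w ^ (p ^ a) = 1) (k : ℕ)
    (hk : ∀ y : V, ∃ y' : V, (w - 1) ^ k • y = dia (Pi.mulSingle j (g j)) y' - y') :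
    ∀ y : V, ∃ y' : V, w • y - y = dia (Pi.mulSingle j (g j)) y' - y' := by
  classical
  let _inst : Module 𝒪 V := Module.compHom V (algebraMap 𝒪 T)
  have _tower : IsScalarTower 𝒪 T V := ⟨fun c t v => by
    show (c • t) • v = algebraMap 𝒪 T c • (t • v)
    rw [Algebra.smul_def, mul_smul]⟩
  rcases subsingleton_or_nontrivial 𝒪 with h𝒪 | h𝒪
  · intro y
    have : Subsingleton V := Module.subsingleton 𝒪 V
    exact ⟨0, Subsingleton.elim _ _⟩
  obtain ⟨e, B, hB⟩ := twCmp_basis (𝒪 := 𝒪) p r G m dia g d b hb j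
  obtain ⟨δT, hδT⟩ : ∃ δT : Module.End T V, δT = dia (Pi.mulSingle j (g j)) := ⟨_, rfl⟩
  rw [← hδT] at hk hB ⊢
  have hXj : δT ^ (p ^ m j) = 1 := by rw [hδT]; exact hX j
  obtain ⟨δ, hδ⟩ : ∃ δ : Module.End 𝒪 V, ∀ y, δ y = δT y := ⟨δT.restrictScalars 𝒪, fun _ => rfl⟩
  have hδpow : ∀ (k : ℕ) (y : V), (δ ^ k) y = (δT ^ k) y := by
    intro k
    induction k with
    | zero => intro y; simp
    | succ k ih =>
      intro y
      rw [pow_succ, pow_succ, Module.End.mul_apply, Module.End.mul_apply, hδ, ih]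
  have hδ1 : δ ^ (p ^ m j) = 1 := by
    ext y
    rw [hδpow, hXj]
    rfl
  have hB' : ∀ z, B z = (δ ^ (z.1 : ℕ)) (e z.2) := by
    intro z
    rw [hB, hδpow]
  have hq : 0 < p ^ m j := pow_pos hp.pos _
  -- torsion-freeness
  have htf : ∀ x : V, (p : 𝒪) • x = 0 → x = 0 := by
    intro x hx
    apply B.repr.injective
    ext z
    have := congrArg (fun y => B.repr y z) hx
    simp only [map_smul, Finsupp.smul_apply, smul_eq_mul, map_zero, Finsupp.zero_apply] at this
    simpa using hpnzd _ this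
  -- F1
  have hF : (∑ i ∈ range (p ^ m j), (X : 𝒪[X]) ^ i).Monic := monic_geom_sum_X hq.ne'
  have hFG : (∑ i ∈ range (p ^ m j), (X : 𝒪[X]) ^ i) * (X - 1) = X ^ (p ^ m j) - 1 :=
    geom_sum_mul X _
  have hpT : ∀ y : V, (p : T) • y = (p : 𝒪) • y := by
    intro y
    rw [Nat.cast_smul_eq_nsmul, Nat.cast_smul_eq_nsmul]
  have F1 : ∀ y z : V, (p : T) • y = δT z - z → ∃ y' : V, y = δT y' - y' := by
    intro y z hyz
    have h1 : aeval δ (∑ i ∈ range (p ^ m j), (X : 𝒪[X]) ^ i) y = 0 := by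
      apply htf
      rw [← map_smul, ← hpT, hyz]
      have h2 : δT z - z = aeval δ (X - 1 : 𝒪[X]) z := by
        simp [hδ]
      rw [h2, ← Module.End.mul_apply, ← map_mul, hFG]
      simp [hδ1]
    obtain ⟨y', hy'⟩ := twBasis_ker_range (p ^ m j) hq δ e B hB' hδ1 _ _ hF hFG y h1
    refine ⟨y', ?_⟩
    rw [hy']
    simp [hδ]
  have F1s : ∀ (s : ℕ) (y z : V), (p : T) ^ s • y = δT z - z → ∃ y' : V, y = δT y' - y' := by
    intro s
    induction s with
    | zero => intro y z h; exact ⟨z, by simpa using h⟩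
    | succ s ih =>
      intro y z h
      rw [pow_succ', mul_smul] at h
      obtain ⟨z', hz'⟩ := F1 _ _ h
      exact ih y z' hz'
  -- binomial expansion
  obtain ⟨c, hc⟩ : ∃ c : T, (p : T) ^ a * (w - 1) = (w - 1) ^ 2 * c := by
    have hbin : ∀ (u : T) (n : ℕ), ∃ c : T, (1 + u) ^ n = 1 + (n : T) * u + u ^ 2 * c := by
      intro u n
      induction n with
      | zero => exact ⟨0, by simp⟩
      | succ n ih =>
        obtain ⟨c, hc⟩ := ih
        refine ⟨(n : T) + c + c * u, ?_⟩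
        rw [pow_succ, hc]
        push_cast
        ring
    obtain ⟨c, hc⟩ := hbin (w - 1) (p ^ a)
    refine ⟨-c, ?_⟩
    have : (1 + (w - 1)) ^ (p ^ a) = 1 := by rw [add_sub_cancel, hw]
    rw [this] at hc
    push_cast at hc
    linear_combination -hc
  -- the range is stable under T
  have hstab : ∀ (t : T) (y : V), (∃ y' : V, y = δT y' - y') → ∃ y' : V, t • y = δT y' - y' := by
    rintro t _ ⟨y', rfl⟩
    exact ⟨t • y', by rw [smul_sub, map_smul]⟩
  -- descending induction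
  have hdesc : ∀ (n : ℕ), (∀ y : V, ∃ y' : V, (w - 1) ^ (n + 2) • y = δT y' - y') →
      ∀ y : V, ∃ y' : V, (w - 1) ^ (n + 1) • y = δT y' - y' := by
    intro n hn y
    obtain ⟨z, hz⟩ := hn (c • y)
    apply F1s a _ z
    rw [← hz, ← mul_smul, ← mul_smul]
    congr 1
    rw [pow_succ, ← mul_assoc, mul_comm ((p : T) ^ a), mul_assoc, hc]
    ring
  have hall : ∀ (n : ℕ), (∀ y : V, ∃ y' : V, (w - 1) ^ (n + 1) • y = δT y' - y') →
      ∀ y : V, ∃ y' : V, (w - 1) • y = δT y' - y' := by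
    intro n
    induction n with
    | zero => intro h y; simpa using h y
    | succ n ih => intro h; exact ih (hdesc n h)
  intro y
  have h1 : ∃ y' : V, (w - 1) • y = δT y' - y' := by
    rcases Nat.eq_zero_or_pos k with hk0 | hk0
    · subst hk0
      obtain ⟨z, hz⟩ := hk y
      rw [pow_zero, one_smul] at hz
      exact hstab (w - 1) y ⟨z, hz⟩
    · obtain ⟨n, rfl⟩ : ∃ n, k = n + 1 := ⟨k - 1, by omega⟩
      exact hall n hk y
  obtain ⟨y', hy'⟩ := h1
  exact ⟨y', by rw [← hy', sub_smul, one_smul]⟩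

end TCore

end Fermat.Agent.S59.H314

end
-- ===== PACK-END S59/H314/TwT.lean

-- ===== PACK-BEGIN S59/TW/H658/DefsMS.lean
section



/-!
# S59 / TW-ES (helper658): partition of unity and symmetrization for a general level

Port of `Fermat.Agent.S21.chi`, `Fermat.Agent.S21.sym` from `Γ₀(N)` to a level `L : Lev`.
-/

set_option autoImplicit false

open UpperHalfPlane CongruenceSubgroup
open scoped MatrixGroups ContDiff

namespace Fermat.Agent.S59.TW.H658

open Fermat.Agent.S21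

/-- The `L.Γ`-partition of unity built from an `SL(2,ℤ)`-partition `χ₁`
(sum over representatives of the left cosets `g L.Γ`), extended by `0` off the upper half
plane. -/
noncomputable def chi (L : Lev) (χ₁ : ℂ → ℝ) : ℂ → ℝ :=
  Set.indicator Uhp fun z => ∑ᶠ q : SL(2, ℤ) ⧸ L.Γ, χ₁ (mob (Quotient.out q) z)

/-- `L.Γ`-symmetrization of a test function. -/
noncomputable def sym (L : Lev) (η : ℂ → ℝ) : ℂ → ℝ :=
  fun z => ∑ᶠ γ : L.Γ, η (mob (γ : SL(2, ℤ)) z)

end Fermat.Agent.S59.TW.H658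

end
-- ===== PACK-END S59/TW/H658/DefsMS.lean

-- ===== PACK-BEGIN S48/H548/Forms.lean
section




/-!
# S48 / P0 (helper548): diamond operators and `T_p` on `S_k(Γ₁(N))` (bundled)

* `mkCusp` : bundle a function into `CuspForm (Gamma1 N) k`;
* `dia a f` : `f ∣ a` for `a ∈ Γ₀(N)` (diamond operator);
* `Tp σ f` : `U_p f + (f ∣ σ) ∣ diag(p,1)` (Hecke operator, `σ ∈ Γ₀(N)` of class `p`).
-/

set_option autoImplicit false

noncomputable section

namespace Fermat.Agent.S48.H548

open Matrix.SpecialLinearGroup UpperHalfPlane ModularForm CongruenceSubgroup ModularFormClass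
open scoped MatrixGroups ModularForm OnePoint Manifold

variable {N : ℕ} {k : ℤ}

theorem one_mem_strictPeriods_Gamma1 (N : ℕ) :
    (1 : ℝ) ∈ ((Gamma1 N).map (mapGL ℝ)).strictPeriods := by
  simp [CongruenceSubgroup.strictPeriods_Gamma1]

theorem coe_inv1 (f : CuspForm (Gamma1 N) k) : Inv1 N k ⇑f := fun γ hγ ↦
  SlashInvariantFormClass.slash_action_eq f _ (Subgroup.mem_map_of_mem (mapGL ℝ) hγ)

theorem coe_nice [NeZero N] (f : CuspForm (Gamma1 N) k) : Nice (⇑f : ℍ → ℂ) where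
  per := SlashInvariantFormClass.periodic_comp_ofComplex f (one_mem_strictPeriods_Gamma1 N)
  hol := ModularFormClass.holo f
  bdd := ModularFormClass.bdd_at_infty f

theorem coe_qCoeff_zero [NeZero N] (f : CuspForm (Gamma1 N) k) : qCoeff (⇑f : ℍ → ℂ) 0 = 0 :=
  CuspFormClass.qExpansion_coeff_zero f one_pos (one_mem_strictPeriods_Gamma1 N)

/-- Bundle a `Γ₁(N)`-invariant holomorphic function vanishing at the cusps. -/
def mkCusp (F : ℍ → ℂ) (hinv : Inv1 N k F) (hhol : MDiff F)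
    (hzero : ∀ {c : OnePoint ℝ}, IsCusp c ((Gamma1 N).map (mapGL ℝ)) → c.IsZeroAt F k) :
    CuspForm (Gamma1 N) k where
  toFun := F
  slash_action_eq' := by
    rintro γ ⟨g, hg, rfl⟩
    exact hinv g hg
  holo' := hhol
  zero_at_cusps' := hzero

@[simp] theorem coe_mkCusp (F : ℍ → ℂ) (hinv : Inv1 N k F) (hhol : MDiff F)
    (hzero : ∀ {c : OnePoint ℝ}, IsCusp c ((Gamma1 N).map (mapGL ℝ)) → c.IsZeroAt F k) :
    (⇑(mkCusp F hinv hhol hzero) : ℍ → ℂ) = F := rfl

theorem isZeroAt_sub {c : OnePoint ℝ} {F G : ℍ → ℂ} (hF : c.IsZeroAt F k)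
    (hG : c.IsZeroAt G k) : c.IsZeroAt (F - G) k := by
  intro g hg
  rw [sub_eq_add_neg, SlashAction.add_slash, SlashAction.neg_slash]
  exact (hF g hg).add (hG g hg).neg

theorem isCusp_smul_mapGL [NeZero N] {c : OnePoint ℝ}
    (hc : IsCusp c ((Gamma1 N).map (mapGL ℝ))) (a : SL(2, ℤ)) :
    IsCusp (mapGL ℝ a • c) ((Gamma1 N).map (mapGL ℝ)) := by
  rw [Subgroup.IsArithmetic.isCusp_iff_isCusp_SL2Z] at hc ⊢
  exact hc.smul_of_mem ⟨a, rfl⟩

/-- The diamond operator `f ↦ f ∣ a`, `a ∈ Γ₀(N)`. -/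
def dia [NeZero N] (a : SL(2, ℤ)) (ha : a ∈ Gamma0 N) (f : CuspForm (Gamma1 N) k) :
    CuspForm (Gamma1 N) k :=
  mkCusp (⇑f ∣[k] mapGL ℝ a) ((coe_inv1 f).slash a ha) ((ModularFormClass.holo f).slash k _)
    (fun {_} hc ↦ OnePoint.IsZeroAt.smul_iff.mp
      (CuspFormClass.zero_at_cusps f (isCusp_smul_mapGL hc a)))

@[simp] theorem coe_dia [NeZero N] (a : SL(2, ℤ)) (ha : a ∈ Gamma0 N)
    (f : CuspForm (Gamma1 N) k) : (⇑(dia a ha f) : ℍ → ℂ) = ⇑f ∣[k] mapGL ℝ a := rfl

section Tp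

variable {p : ℕ} [Fact p.Prime] [NeZero N]

theorem diag_eq_heckeT_sub (k : ℤ) (p : ℕ) (F : ℍ → ℂ) :
    F ∣[k] heckeDiagMatrix p = heckeT k p F - heckeU k p F := by
  rw [heckeT_eq_heckeU_add, add_sub_cancel_left]

/-- The Hecke operator `T_p` on `S_k(Γ₁(N))`, `p ∤ N`. -/
def Tp (hpN : ¬ p ∣ N) (σ : SL(2, ℤ)) (hσ : σ ∈ Gamma0 N)
    (hσp : ((σ 1 1 : ℤ) : ZMod N) = (p : ZMod N)) (f : CuspForm (Gamma1 N) k) :
    CuspForm (Gamma1 N) k :=
  mkCusp (heckeU k p ⇑f + (⇑f ∣[k] mapGL ℝ σ) ∣[k] heckeDiagMatrix p)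
    ((coe_inv1 f).heckeT1 hpN σ hσ hσp)
    ((mdifferentiable_heckeU (ModularFormClass.holo f) k p).add
      (((ModularFormClass.holo f).slash k _).slash k _))
    (fun {c} hc ↦ by
      refine (CuspFormClass.isZeroAt_heckeU f p hc).add ?_
      rw [← coe_dia σ hσ f, diag_eq_heckeT_sub]
      exact isZeroAt_sub (CuspFormClass.isZeroAt_heckeT (dia σ hσ f) p hc)
        (CuspFormClass.isZeroAt_heckeU (dia σ hσ f) p hc))

@[simp] theorem coe_Tp (hpN : ¬ p ∣ N) (σ : SL(2, ℤ)) (hσ : σ ∈ Gamma0 N)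
    (hσp : ((σ 1 1 : ℤ) : ZMod N) = (p : ZMod N)) (f : CuspForm (Gamma1 N) k) :
    (⇑(Tp hpN σ hσ hσp f) : ℍ → ℂ) =
      heckeU k p ⇑f + (⇑f ∣[k] mapGL ℝ σ) ∣[k] heckeDiagMatrix p := rfl

end Tp

end Fermat.Agent.S48.H548

end
end
-- ===== PACK-END S48/H548/Forms.lean

-- ===== PACK-BEGIN S59/TW/Aut/H673/FrontAbs.lean
section


/-!
# S59 / cell TW, AUT leaf CMP, part (R), FRONT — abstract form  (helper673)

`front_abs` : `T` a local ring, finite over the complete discrete valuation ring `𝒪`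
(characteristic zero, finite residue field), acting `𝒪`-linearly on an `𝒪`-torsion-free module `V`
through `a`; `G` a finite commutative group acting through `d`, commuting with `a`; `y ≠ 0` in `V`
with PRIME annihilator in `T`, killed by `1 + d g₀ + … + d g₀ ^ (n - 1)`.

Then there are a complete discrete valuation ring `𝒪'` (characteristic zero, finite residue
field, local over `𝒪`), a local `𝒪`-algebra homomorphism `x : T → 𝒪'` with kernel `Ann_T(y)` and
a character `χ : G → 𝒪'` with `1 + χ g₀ + … + χ g₀ ^ (n - 1) = 0`, such that EVERY `𝒪`-linear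
relation `∑ c_i a(s_i) d(g_i) = 0` between the operators on `V` holds for `(x, χ)`:
`∑ c_i x(s_i) χ(g_i) = 0`.

(`B = T ⊗_𝒪 𝒪[G]` acts on `V`; an associated prime `𝔔` of `B y`; `𝒪'` = the integral closure
of `𝒪` in `Frac (B ⧸ 𝔔)`.)
-/

set_option autoImplicit false
set_option linter.style.haveILetI false
set_option linter.unusedSectionVars false

open IsLocalRing
open scoped TensorProduct

namespace Fermat.Agent.S59.TW.Aut.H673

section Theta

variable {𝒪 T G V : Type*} [CommRing 𝒪] [CommRing T] [Algebra 𝒪 T] [CommGroup G]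
  [AddCommGroup V] [Module 𝒪 V]
  (a : T →ₐ[𝒪] Module.End 𝒪 V) (d : G →* Module.End 𝒪 V)

theorem commute_lift_h673 (hcomm : ∀ s g, Commute (a s) (d g)) (s : T)
    (b : MonoidAlgebra 𝒪 G) :
    Commute (a s) (MonoidAlgebra.lift 𝒪 (Module.End 𝒪 V) G d b) := by
  induction b using MonoidAlgebra.induction_on with
  | of g =>
    rw [MonoidAlgebra.lift_of]
    exact hcomm s g
  | add b₁ b₂ h₁ h₂ =>
    rw [map_add]
    exact h₁.add_right h₂
  | smul c b h =>
    rw [map_smul]
    exact h.smul_right c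

/-- The action of `B = T ⊗ 𝒪[G]` on `V`. -/
noncomputable def thetaH673 (hcomm : ∀ s g, Commute (a s) (d g)) :
    T ⊗[𝒪] MonoidAlgebra 𝒪 G →ₐ[𝒪] Module.End 𝒪 V :=
  Algebra.TensorProduct.lift a (MonoidAlgebra.lift 𝒪 (Module.End 𝒪 V) G d)
    (fun s b => commute_lift_h673 a d hcomm s b)

theorem thetaH673_tmul (hcomm : ∀ s g, Commute (a s) (d g)) (s : T) (g : G) :
    thetaH673 a d hcomm (s ⊗ₜ[𝒪] MonoidAlgebra.of 𝒪 G g) = a s * d g := by
  rw [thetaH673, Algebra.TensorProduct.lift_tmul, MonoidAlgebra.lift_of]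

theorem thetaH673_left (hcomm : ∀ s g, Commute (a s) (d g)) (s : T) :
    thetaH673 a d hcomm
      ((Algebra.TensorProduct.includeLeft : T →ₐ[𝒪] T ⊗[𝒪] MonoidAlgebra 𝒪 G) s) = a s := by
  rw [Algebra.TensorProduct.includeLeft_apply, thetaH673, Algebra.TensorProduct.lift_tmul,
    map_one, mul_one]

theorem thetaH673_right (hcomm : ∀ s g, Commute (a s) (d g)) (g : G) :
    thetaH673 a d hcomm ((1 : T) ⊗ₜ[𝒪] MonoidAlgebra.of 𝒪 G g) = d g := by
  rw [thetaH673_tmul, map_one, one_mul]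

end Theta

theorem front_abs
    (𝒪 : Type) [CommRing 𝒪] [IsDomain 𝒪] [IsDiscreteValuationRing 𝒪]
    [IsAdicComplete (maximalIdeal 𝒪) 𝒪] [Finite (ResidueField 𝒪)] [CharZero 𝒪]
    (T : Type) [CommRing T] [IsLocalRing T] [Algebra 𝒪 T] [Module.Finite 𝒪 T]
    (G : Type) [CommGroup G] [Finite G]
    (V : Type) [AddCommGroup V] [Module 𝒪 V]
    (htf : ∀ (c : 𝒪) (v : V), c • v = 0 → c = 0 ∨ v = 0)
    (a : T →ₐ[𝒪] Module.End 𝒪 V) (d : G →* Module.End 𝒪 V)
    (hcomm : ∀ s g, Commute (a s) (d g))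
    (y : V) (hy : y ≠ 0) (hprime : ∀ s t : T, a (s * t) y = 0 → a s y = 0 ∨ a t y = 0)
    (g₀ : G) (n : ℕ) (hΦ : (∑ k ∈ Finset.range n, d g₀ ^ k) y = 0) :
    ∃ (𝒪' : Type) (_ : CommRing 𝒪') (_ : IsDomain 𝒪') (_ : IsDiscreteValuationRing 𝒪')
      (_ : IsAdicComplete (maximalIdeal 𝒪') 𝒪') (_ : Finite (ResidueField 𝒪')) (_ : CharZero 𝒪')
      (_ : Algebra 𝒪 𝒪') (x : T →ₐ[𝒪] 𝒪') (χ : G →* 𝒪'),
      IsLocalHom (algebraMap 𝒪 𝒪') ∧ Function.Injective (algebraMap 𝒪 𝒪') ∧
      IsLocalHom x.toRingHom ∧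
      (∀ s, x s = 0 ↔ a s y = 0) ∧ (∑ k ∈ Finset.range n, χ g₀ ^ k = 0) ∧
      ∀ (ι : Type) (F : Finset ι) (c : ι → 𝒪) (s : ι → T) (g : ι → G),
        (∑ i ∈ F, c i • (a (s i) * d (g i)) = 0) →
          ∑ i ∈ F, algebraMap 𝒪 𝒪' (c i) * x (s i) * χ (g i) = 0 := by
  classical
  haveI : Fintype G := Fintype.ofFinite G
  haveI : Module.Finite 𝒪 (T ⊗[𝒪] MonoidAlgebra 𝒪 G) := inferInstance
  haveI : IsNoetherianRing (T ⊗[𝒪] MonoidAlgebra 𝒪 G) :=
    IsNoetherianRing.of_finite 𝒪 _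
  haveI : Algebra.IsIntegral 𝒪 T := Algebra.IsIntegral.of_finite 𝒪 T
  set Θ := thetaH673 a d hcomm with hΘ
  letI : Module (T ⊗[𝒪] MonoidAlgebra 𝒪 G) V := Module.compHom V Θ.toRingHom
  have hsmul : ∀ (b : T ⊗[𝒪] MonoidAlgebra 𝒪 G) (v : V), b • v = Θ b v := fun _ _ => rfl
  haveI : IsScalarTower 𝒪 (T ⊗[𝒪] MonoidAlgebra 𝒪 G) V := ⟨fun c b v => by
    rw [hsmul, hsmul, map_smul, LinearMap.smul_apply]⟩
  -- the elements killing `y`
  set z₀ : T ⊗[𝒪] MonoidAlgebra 𝒪 G :=
    ∑ k ∈ Finset.range n, ((1 : T) ⊗ₜ[𝒪] MonoidAlgebra.of 𝒪 G g₀) ^ k with hz₀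
  have hΘz₀ : Θ z₀ = ∑ k ∈ Finset.range n, d g₀ ^ k := by
    rw [hz₀, map_sum]
    refine Finset.sum_congr rfl fun k _ => ?_
    rw [map_pow, thetaH673_right]
  obtain ⟨𝔔, h𝔔p, hZ𝔔, h𝔔T, h𝔔𝒪⟩ := exists_prime_over_ann
    (Algebra.TensorProduct.includeLeft : T →ₐ[𝒪] T ⊗[𝒪] MonoidAlgebra 𝒪 G) htf y hy
    (fun s t hst => by
      rw [hsmul, thetaH673_left] at hst
      rw [hsmul, hsmul, thetaH673_left, thetaH673_left]
      exact hprime s t hst)
    ({b | Θ b = 0} ∪ {z₀})
    (fun z hz => by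
      rcases hz with hz | hz
      · rw [hsmul, (hz : Θ z = 0), LinearMap.zero_apply]
      · rw [Set.mem_singleton_iff.mp hz, hsmul, hΘz₀]
        exact hΦ)
  haveI := h𝔔p
  obtain ⟨𝒪', i1, i2, i3, i4, i5, i6, i7, ev, hloc, hinj, hev⟩ :=
    exists_dvr_point 𝒪 (T ⊗[𝒪] MonoidAlgebra 𝒪 G) 𝔔 h𝔔𝒪
  let x : T →ₐ[𝒪] 𝒪' := ev.comp Algebra.TensorProduct.includeLeft
  let χ : G →* 𝒪' := (ev : T ⊗[𝒪] MonoidAlgebra 𝒪 G →* 𝒪').comp
    (((Algebra.TensorProduct.includeRight : MonoidAlgebra 𝒪 G →ₐ[𝒪] T ⊗[𝒪] MonoidAlgebra 𝒪 G) :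
      MonoidAlgebra 𝒪 G →* T ⊗[𝒪] MonoidAlgebra 𝒪 G).comp (MonoidAlgebra.of 𝒪 G))
  have hχ : ∀ g, χ g = ev ((1 : T) ⊗ₜ[𝒪] MonoidAlgebra.of 𝒪 G g) := fun g => rfl
  have hx : ∀ s, x s = ev (s ⊗ₜ[𝒪] (1 : MonoidAlgebra 𝒪 G)) := fun s => rfl
  refine ⟨𝒪', i1, i2, i3, i4, i5, i6, i7, x, χ, hloc, hinj, ?_, ?_, ?_, ?_⟩
  · haveI := hloc
    exact isLocalHom_of_integral_h673 𝒪 T 𝒪' x.toRingHom (fun c => x.commutes c)
  · intro s
    rw [hx, hev, ← Algebra.TensorProduct.includeLeft_apply (R := 𝒪) (S := 𝒪), h𝔔T, hsmul,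
      thetaH673_left]
  · have h1 : ev z₀ = 0 := (hev z₀).mpr (hZ𝔔 (Or.inr rfl))
    rw [hz₀, map_sum] at h1
    rw [← h1]
    refine Finset.sum_congr rfl fun k _ => ?_
    rw [map_pow, hχ]
  · intro ι F c s g hrel
    have h1 : Θ (∑ i ∈ F, c i • (s i ⊗ₜ[𝒪] MonoidAlgebra.of 𝒪 G (g i))) = 0 := by
      rw [map_sum, ← hrel]
      refine Finset.sum_congr rfl fun i _ => ?_
      rw [map_smul, thetaH673_tmul]
    have h2 : ev (∑ i ∈ F, c i • (s i ⊗ₜ[𝒪] MonoidAlgebra.of 𝒪 G (g i))) = 0 :=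
      (hev _).mpr (hZ𝔔 (Or.inl h1))
    rw [map_sum] at h2
    rw [← h2]
    refine Finset.sum_congr rfl fun i _ => ?_
    rw [map_smul, Algebra.smul_def, mul_assoc]
    congr 1
    rw [hx, hχ, ← map_mul, Algebra.TensorProduct.tmul_mul_tmul, mul_one, one_mul]

end Fermat.Agent.S59.TW.Aut.H673

end
-- ===== PACK-END S59/TW/Aut/H673/FrontAbs.lean

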