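import Mathlib
import Fermat.Prelude.Def_ModularForm_HeckeOperator
import Fermat.Prelude.Def_ModularCurve_X0ModL
import Mathlib.AlgebraicGeometry.EllipticCurve.VariableChange
import Fermat.Prelude.Def_GaloisRep_Adic
import Fermat.Agent.Pack.S43MC.G0E7L0
import Fermat.Agent.Pack.S43MC.G0E0L0
import Fermat.Agent.Pack.S43MC.G0E8L2
import Fermat.Agent.Pack.S43MC.G0E5L2
import Fermat.Agent.Pack.S43MC.G0E5L1
import Fermat.Agent.Pack.S43MC.G0E8L3
import Fermat.Agent.Pack.S43MC.G0E5L3
import Fermat.Agent.Pack.S43MC.G0E5L0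
import Fermat.Agent.Pack.S43MC.G0E0L2
import Fermat.Agent.Pack.S43MC.G0E2L2
import Fermat.Agent.Pack.S43MC.G0E7L2
import Fermat.Agent.Pack.S44C.G0E0L1
import Fermat.Agent.Pack.S44C.G0E6L3
import Fermat.Agent.Pack.S43GC.G0E5L0
import Fermat.Agent.Pack.S43MC.G0E3L1
import Fermat.Agent.Pack.S43MC.G0E7L3
import Fermat.Agent.Pack.S43GC.G0E3L1
import Fermat.Agent.Pack.S43MC.G0E7L1
import Fermat.Agent.Pack.Fast891

-- ===== PACK-BEGIN Lib/Newform/H803/Bridge.lean
section





/-!
# Bridge between `Γ₀(N)` cusp forms and `Γ⁰(N)`-invariant functions (helper803)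
-/

set_option autoImplicit false

namespace Fermat.Agent.Lib.Newform.H803

open Matrix Matrix.SpecialLinearGroup CongruenceSubgroup UpperHalfPlane ModularForm OnePoint
open scoped MatrixGroups ModularForm Manifold Pointwise Real

variable {k : ℤ}

/-! ### Conjugation by diagonal matrices -/

theorem mem_Gamma0_iff_dvd {N : ℕ} {g : SL(2, ℤ)} : g ∈ Gamma0 N ↔ (N : ℤ) ∣ g 1 0 := by
  rw [Gamma0_mem, ZMod.intCast_zmod_eq_zero_iff_dvd]

/-- `diag(1, N) γ = γ' diag(1, N)` with `γ' ∈ Γ₀(N)` for `γ ∈ Γ⁰(N)`. -/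
theorem heckeMatrix_zero_mul_mapGL {N : ℕ} (hN : N ≠ 0) {g : SL(2, ℤ)} (hg : g ∈ GammaU N) :
    ∃ g' ∈ Gamma0 N, heckeMatrix N 0 * mapGL ℝ g = mapGL ℝ g' * heckeMatrix N 0 := by
  obtain ⟨e, he⟩ := mem_GammaU.mp hg
  have hdet := det_eq_one' g
  obtain ⟨g', hg'⟩ : ∃ g' : SL(2, ℤ),
      (g' : Matrix (Fin 2) (Fin 2) ℤ) = !![g 0 0, e; N * g 1 0, g 1 1] := by
    refine ⟨⟨!![g 0 0, e; N * g 1 0, g 1 1], ?_⟩, rfl⟩
    rw [Matrix.det_fin_two_of]
    linear_combination hdet + (g 1 0) * he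
  refine ⟨g', ?_, ?_⟩
  · rw [mem_Gamma0_iff_dvd]
    have : g' 1 0 = N * g 1 0 := by rw [hg']; rfl
    rw [this]
    exact Dvd.intro _ rfl
  · apply Units.ext
    rw [Units.val_mul, Units.val_mul, val_heckeMatrix hN, mapGL_coe_matrix, mapGL_coe_matrix]
    have he' : ((g 0 1 : ℤ) : ℝ) = N * e := by exact_mod_cast he
    ext i j
    fin_cases i <;> fin_cases j <;>
      simp [Matrix.mul_apply, Fin.sum_univ_two, he', hg'] <;> ring

/-- `diag(d, 1) γ = γ' diag(d, 1)` with `γ' ∈ Γ⁰(d)` for `γ ∈ Γ₀(d)`. -/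
theorem heckeDiagMatrix_mul_mapGL {d : ℕ} (hd : d ≠ 0) {g : SL(2, ℤ)} (hg : g ∈ Gamma0 d) :
    ∃ g' ∈ GammaU d, heckeDiagMatrix d * mapGL ℝ g = mapGL ℝ g' * heckeDiagMatrix d := by
  obtain ⟨e, he⟩ := mem_Gamma0_iff_dvd.mp hg
  have hdet := det_eq_one' g
  obtain ⟨g', hg'⟩ : ∃ g' : SL(2, ℤ),
      (g' : Matrix (Fin 2) (Fin 2) ℤ) = !![g 0 0, d * g 0 1; e, g 1 1] := by
    refine ⟨⟨!![g 0 0, d * g 0 1; e, g 1 1], ?_⟩, rfl⟩
    rw [Matrix.det_fin_two_of]
    linear_combination hdet + (g 0 1) * he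
  refine ⟨g', ?_, ?_⟩
  · rw [mem_GammaU]
    have : g' 0 1 = d * g 0 1 := by rw [hg']; rfl
    rw [this]
    exact Dvd.intro _ rfl
  · apply Units.ext
    rw [Units.val_mul, Units.val_mul, val_heckeDiagMatrix hd, mapGL_coe_matrix, mapGL_coe_matrix]
    have he' : ((g 1 0 : ℤ) : ℝ) = d * e := by exact_mod_cast he
    ext i j
    fin_cases i <;> fin_cases j <;>
      simp [Matrix.mul_apply, Fin.sum_univ_two, he', hg'] <;> ring

/-- Upper triangular rational matrices. -/
noncomputable def upperTriQ (a b d : ℚ) (had : a * d ≠ 0) : GL (Fin 2) ℚ :=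
  Matrix.GeneralLinearGroup.mkOfDetNeZero !![a, b; 0, d]
    (by rwa [Matrix.det_fin_two_of, mul_zero, sub_zero])

theorem heckeMatrix_eq_map {p : ℕ} (hp : p ≠ 0) (j : ℕ) :
    heckeMatrix p j =
      (upperTriQ 1 j p (by rw [one_mul]; exact_mod_cast hp)).map (Rat.castHom ℝ) := by
  apply Units.ext
  rw [val_heckeMatrix hp]
  ext i j
  fin_cases i <;> fin_cases j <;> simp [upperTriQ]

theorem heckeDiagMatrix_eq_map {p : ℕ} (hp : p ≠ 0) :
    heckeDiagMatrix p =
      (upperTriQ p 0 1 (by rw [mul_one]; exact_mod_cast hp)).map (Rat.castHom ℝ) := by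
  apply Units.ext
  rw [val_heckeDiagMatrix hp]
  ext i j
  fin_cases i <;> fin_cases j <;> simp [upperTriQ]

theorem IsCuspidal.slash_heckeMatrix {F : ℍ → ℂ} (hF : IsCuspidal k F) {p : ℕ} (hp : p ≠ 0)
    (j : ℕ) : IsCuspidal k (F ∣[k] heckeMatrix p j) := by
  rw [heckeMatrix_eq_map hp]
  exact hF.slash_rat _

theorem IsCuspidal.slash_heckeDiagMatrix {F : ℍ → ℂ} (hF : IsCuspidal k F) {p : ℕ} (hp : p ≠ 0) :
    IsCuspidal k (F ∣[k] heckeDiagMatrix p) := by
  rw [heckeDiagMatrix_eq_map hp]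
  exact hF.slash_rat _

theorem sl_slash_mapGL (F : ℍ → ℂ) (γ : SL(2, ℤ)) : F ∣[k] γ = F ∣[k] (mapGL ℝ γ) := rfl

/-- The hat transform `f ↦ f ∣ diag(1, N)` of a `Γ₀(N)`-invariant function is
`Γ⁰(N)`-invariant. -/
theorem slInv_hat {N : ℕ} (hN : N ≠ 0) {f : ℍ → ℂ} (hf : SlInv k (Gamma0 N) f) :
    SlInv k (GammaU N) (f ∣[k] heckeMatrix N 0) := by
  intro g hg
  obtain ⟨g', hg', e⟩ := heckeMatrix_zero_mul_mapGL hN hg
  rw [sl_slash_mapGL, ← SlashAction.slash_mul, e, SlashAction.slash_mul,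
    ← sl_slash_mapGL, hf g' hg']

/-- The inverse transform `G ↦ G ∣ diag(d, 1)` of a `Γ⁰(d)`-invariant function is
`Γ₀(d)`-invariant. -/
theorem slInv_unhat {d : ℕ} (hd : d ≠ 0) {G : ℍ → ℂ} (hG : SlInv k (GammaU d) G) :
    SlInv k (Gamma0 d) (G ∣[k] heckeDiagMatrix d) := by
  intro g hg
  obtain ⟨g', hg', e⟩ := heckeDiagMatrix_mul_mapGL hd hg
  rw [sl_slash_mapGL, ← SlashAction.slash_mul, e, SlashAction.slash_mul,
    ← sl_slash_mapGL, hG g' hg']

theorem slInv_of_cuspForm {Γ : Subgroup SL(2, ℤ)} (f : CuspForm Γ k) :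
    SlInv k Γ (f : ℍ → ℂ) := fun γ hγ =>
  f.slash_action_eq' _ ⟨γ, hγ, rfl⟩

end Fermat.Agent.Lib.Newform.H803

end
-- ===== PACK-END Lib/Newform/H803/Bridge.lean

-- ===== PACK-BEGIN Lib/Newform/H743/SpecLemma16.lean
section



/-!
# NEWFORM library (helper743): `Lemma16` in the row-lead's Spec shape

`lemma16` is (definitionally) `Fermat.Agent.Lib.Newform.H23.Lemma16`; `lemma16_any_weight` is the
same for every weight, and `vanish_of_not_dvd` is the companion statement for `q ∤ N`.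
-/

set_option autoImplicit false

open CongruenceSubgroup
open scoped MatrixGroups

namespace Fermat.Agent.Lib.Newform.H743

open ModularFormClass

theorem lemma16_any_weight (k : ℤ) (N q : ℕ) [NeZero N] (hq : q.Prime) (hqN : q ∣ N)
    (f : CuspForm (Gamma0 N) k) (h0 : ∀ n : ℕ, ¬ q ∣ n → qCoeff f n = 0) :
    ∃ g : CuspForm (Gamma0 (N / q)) k, (∀ n : ℕ, qCoeff g n = qCoeff f (q * n)) ∧
      (⇑g : UpperHalfPlane → ℂ) = ModularForm.heckeU k q ⇑f ∧
      ∀ τ : UpperHalfPlane, f τ = g (ModularForm.heckeDiagMatrix q • τ) := by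
  have hNq : N / q ≠ 0 :=
    (Nat.div_pos (Nat.le_of_dvd (Nat.pos_of_ne_zero (NeZero.ne N)) hqN) hq.pos).ne'
  haveI : NeZero (N / q) := ⟨hNq⟩
  have hNM : N ∣ q * (N / q) := by rw [Nat.mul_div_cancel' hqN]
  refine ⟨heckeULower hq hNM f h0, fun n => ?_, rfl, fun τ => apply_eq_heckeULower hq hNM f h0 τ⟩
  rw [qCoeff_heckeULower, mul_comm]

/-- **LEMMA 16** in the exact shape of `H23.Lemma16`. -/
theorem lemma16 :
    ∀ (N q : ℕ) [NeZero N], q.Prime → q ∣ N → ∀ f : CuspForm (Gamma0 N) 2,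
      (∀ n : ℕ, ¬ q ∣ n → qCoeff f n = 0) →
      ∃ g : CuspForm (Gamma0 (N / q)) 2, ∀ n : ℕ, qCoeff g n = qCoeff f (q * n) := by
  intro N q _ hq hqN f h0
  obtain ⟨g, hg, -, -⟩ := lemma16_any_weight 2 N q hq hqN f h0
  exact ⟨g, hg⟩

/-- Companion of Lemma 16 for `q ∤ N`. -/
theorem vanish_of_not_dvd :
    ∀ (k : ℤ) (N q : ℕ) [NeZero N], q.Prime → ¬ q ∣ N → ∀ f : CuspForm (Gamma0 N) k,
      (∀ n : ℕ, ¬ q ∣ n → qCoeff f n = 0) → f = 0 := by
  intro k N q _ hq hqN f h0
  exact eq_zero_of_qCoeff_eq_zero_of_not_dvd_level hq hqN f h0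

end Fermat.Agent.Lib.Newform.H743

end
-- ===== PACK-END Lib/Newform/H743/SpecLemma16.lean

-- ===== PACK-BEGIN S25/H551/RigLiftCore.lean
section




/-!
# S25 / GDC: rigidifiability lifts along nilpotent thickenings (helper551)

Semilinear base change calculus (`comp`, `of_comp`, existence, post-composition with an
equivalence) and the theorem `rigidifiable_of_isBC`:
if `G₀` over `A ⧸ I` (`I` nilpotent) is a base change of `G` over `A` and `G₀` is rigidifiable,
then `G` is rigidifiable.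
-/

set_option autoImplicit false
set_option linter.style.haveILetI false

open TensorProduct

universe u

namespace Fermat.Agent.S25.H551

open Fermat.Agent.S25

section Calculus

variable {R R' R'' : Type u} [CommRing R] [CommRing R'] [CommRing R'']

/-- Composition of semilinear base changes. -/
theorem isSemilinearBaseChange_comp (ρ : R →+* R') (σ : R' →+* R'') (τ : R →+* R'')
    (hτ : ∀ r, τ r = σ (ρ r))
    {N N' N'' : Type u} [AddCommGroup N] [Module R N] [AddCommGroup N'] [Module R' N']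
    [AddCommGroup N''] [Module R'' N'']
    (b : N →ₛₗ[ρ] N') (hb : IsSemilinearBaseChange ρ b)
    (b' : N' →ₛₗ[σ] N'') (hb' : IsSemilinearBaseChange σ b')
    (c : N →ₛₗ[τ] N'') (hc : ∀ n, c n = b' (b n)) : IsSemilinearBaseChange τ c := by
  unfold IsSemilinearBaseChange at hb hb' ⊢
  letI : Algebra R R' := ρ.toAlgebra
  letI : Algebra R' R'' := σ.toAlgebra
  letI : Algebra R R'' := τ.toAlgebra
  haveI : IsScalarTower R R' R'' := IsScalarTower.of_algebraMap_eq (fun r => hτ r)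
  letI : Module R N' := Module.compHom N' ρ
  haveI : IsScalarTower R R' N' := ⟨fun r r' n => by
    change (ρ r * r') • n = ρ r • (r' • n); rw [mul_smul]⟩
  letI : Module R' N'' := Module.compHom N'' σ
  haveI : IsScalarTower R' R'' N'' := ⟨fun r r' n => by
    change (σ r * r') • n = σ r • (r' • n); rw [mul_smul]⟩
  letI : Module R N'' := Module.compHom N'' τ
  haveI : IsScalarTower R R'' N'' := ⟨fun r r' n => by
    change (τ r * r') • n = τ r • (r' • n); rw [mul_smul]⟩
  haveI : IsScalarTower R R' N'' := ⟨fun r r' n => by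
    change σ (ρ r * r') • n = τ r • (σ r' • n)
    rw [map_mul, mul_smul, hτ]⟩
  have h := IsBaseChange.comp hb hb'
  convert h using 1
  ext n
  exact hc n

/-- Cancellation: if `b` and `b' ∘ b` are semilinear base changes, so is `b'`. -/
theorem isSemilinearBaseChange_of_comp (ρ : R →+* R') (σ : R' →+* R'') (τ : R →+* R'')
    (hτ : ∀ r, τ r = σ (ρ r))
    {N N' N'' : Type u} [AddCommGroup N] [Module R N] [AddCommGroup N'] [Module R' N']
    [AddCommGroup N''] [Module R'' N'']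
    (b : N →ₛₗ[ρ] N') (hb : IsSemilinearBaseChange ρ b)
    (b' : N' →ₛₗ[σ] N'')
    (c : N →ₛₗ[τ] N'') (hc : ∀ n, c n = b' (b n)) (hcb : IsSemilinearBaseChange τ c) :
    IsSemilinearBaseChange σ b' := by
  unfold IsSemilinearBaseChange at hb hcb ⊢
  letI : Algebra R R' := ρ.toAlgebra
  letI : Algebra R' R'' := σ.toAlgebra
  letI : Algebra R R'' := τ.toAlgebra
  haveI : IsScalarTower R R' R'' := IsScalarTower.of_algebraMap_eq (fun r => hτ r)
  letI : Module R N' := Module.compHom N' ρ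
  haveI : IsScalarTower R R' N' := ⟨fun r r' n => by
    change (ρ r * r') • n = ρ r • (r' • n); rw [mul_smul]⟩
  letI : Module R' N'' := Module.compHom N'' σ
  haveI : IsScalarTower R' R'' N'' := ⟨fun r r' n => by
    change (σ r * r') • n = σ r • (r' • n); rw [mul_smul]⟩
  letI : Module R N'' := Module.compHom N'' τ
  haveI : IsScalarTower R R'' N'' := ⟨fun r r' n => by
    change (τ r * r') • n = τ r • (r' • n); rw [mul_smul]⟩
  haveI : IsScalarTower R R' N'' := ⟨fun r r' n => by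
    change σ (ρ r * r') • n = τ r • (σ r' • n)
    rw [map_mul, mul_smul, hτ]⟩
  refine IsBaseChange.of_comp hb ?_
  convert hcb using 1
  ext n
  exact (hc n).symm

/-- Recognising a semilinear base change from an equivalence with the tensor product. -/
theorem isSemilinearBaseChange_of_equiv (ρ : R →+* R') {N Q : Type u} [AddCommGroup N]
    [Module R N] [AddCommGroup Q] [Module R' Q] (f : N →ₛₗ[ρ] Q) :
    letI : Algebra R R' := ρ.toAlgebra
    ∀ (e : R' ⊗[R] N ≃ₗ[R'] Q), (∀ x, e ((1 : R') ⊗ₜ[R] x) = f x) →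
      IsSemilinearBaseChange ρ f := by
  intro e he
  unfold IsSemilinearBaseChange
  letI : Algebra R R' := ρ.toAlgebra
  letI : Module R Q := Module.compHom Q ρ
  haveI : IsScalarTower R R' Q := ⟨fun r r' n => by
    change (ρ r * r') • n = ρ r • (r' • n); rw [mul_smul]⟩
  exact IsBaseChange.of_equiv e he

/-- Existence of a semilinear base change along any ring homomorphism. -/
theorem exists_isSemilinearBaseChange (ρ : R →+* R') (N : Type u) [AddCommGroup N]
    [Module R N] :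
    ∃ (Q : Type u) (_ : AddCommGroup Q) (_ : Module R' Q) (m : N →ₛₗ[ρ] Q),
      IsSemilinearBaseChange ρ m ∧ (Module.Invertible R N → Module.Invertible R' Q) := by
  letI : Algebra R R' := ρ.toAlgebra
  refine ⟨R' ⊗[R] N, inferInstance, inferInstance,
    { toFun := fun n => (1 : R') ⊗ₜ[R] n
      map_add' := fun x y => TensorProduct.tmul_add _ _ _
      map_smul' := fun r x => by
        rw [← TensorProduct.smul_tmul, TensorProduct.smul_tmul', Algebra.smul_def, smul_eq_mul]
        rfl }, ?_, fun h => inferInstance⟩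
  exact isSemilinearBaseChange_of_equiv ρ _ (LinearEquiv.refl R' (R' ⊗[R] N)) (fun x => rfl)

/-- Post-composition of a semilinear base change with a linear equivalence. -/
theorem isSemilinearBaseChange_equiv_comp' (ρ : R →+* R') {N N' N'' : Type u}
    [AddCommGroup N] [Module R N] [AddCommGroup N']
    [Module R' N'] [AddCommGroup N''] [Module R' N''] (b : N →ₛₗ[ρ] N')
    (hb : IsSemilinearBaseChange ρ b) (e : N' ≃ₗ[R'] N'') :
    IsSemilinearBaseChange ρ ((e : N' →ₗ[R'] N'').comp b) := by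
  unfold IsSemilinearBaseChange at hb ⊢
  letI : Algebra R R' := ρ.toAlgebra
  letI : Module R N' := Module.compHom N' ρ
  letI : Module R N'' := Module.compHom N'' ρ
  haveI : IsScalarTower R R' N' := ⟨fun r r' n => by
    change (ρ r * r') • n = ρ r • (r' • n); rw [mul_smul]⟩
  haveI : IsScalarTower R R' N'' := ⟨fun r r' n => by
    change (ρ r * r') • n = ρ r • (r' • n); rw [mul_smul]⟩
  exact IsBaseChange.comp hb (IsBaseChange.ofEquiv e)

/-- The ring homomorphism itself, as a semilinear base change `R → R'`. -/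
theorem isSemilinearBaseChange_ringHom (ρ : R →+* R') :
    IsSemilinearBaseChange ρ
      ({ toFun := fun r => ρ r
         map_add' := fun x y => map_add ρ x y
         map_smul' := fun r x => by
          rw [smul_eq_mul, map_mul, smul_eq_mul] } : R →ₛₗ[ρ] R') := by
  unfold IsSemilinearBaseChange
  letI : Algebra R R' := ρ.toAlgebra
  exact IsBaseChange.linearMap R R'

/-- Universal property: a semilinear base change `c` along `σ ∘ ρ` factors through a
semilinear base change `m` along `ρ`, and the factor is a semilinear base change along `σ`. -/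
theorem exists_factor (ρ : R →+* R') (σ : R' →+* R'') (τ : R →+* R'')
    (hτ : ∀ r, τ r = σ (ρ r))
    {N N' N'' : Type u} [AddCommGroup N] [Module R N] [AddCommGroup N'] [Module R' N']
    [AddCommGroup N''] [Module R'' N'']
    (m : N →ₛₗ[ρ] N') (hm : IsSemilinearBaseChange ρ m)
    (c : N →ₛₗ[τ] N'') (hc : IsSemilinearBaseChange τ c) :
    ∃ b' : N' →ₛₗ[σ] N'', IsSemilinearBaseChange σ b' ∧ ∀ n, b' (m n) = c n := by
  have hm' := hm
  unfold IsSemilinearBaseChange at hm'
  letI : Algebra R R' := ρ.toAlgebra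
  letI : Module R N' := Module.compHom N' ρ
  haveI : IsScalarTower R R' N' := ⟨fun r r' n => by
    change (ρ r * r') • n = ρ r • (r' • n); rw [mul_smul]⟩
  letI : Module R' N'' := Module.compHom N'' σ
  letI : Module R N'' := Module.compHom N'' τ
  haveI : IsScalarTower R R' N'' := ⟨fun r r' n => by
    change σ (ρ r * r') • n = τ r • (σ r' • n)
    rw [map_mul, mul_smul, hτ]⟩
  let clin : N →ₗ[R] N'' :=
    { toFun := fun n => c n
      map_add' := fun x y => c.map_add x y
      map_smul' := fun r n => LinearMap.map_smulₛₗ c r n }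
  let b'lin : N' →ₗ[R'] N'' := hm'.lift clin
  have hb'm : ∀ n, b'lin (m n) = c n := fun n => hm'.lift_eq clin n
  let b' : N' →ₛₗ[σ] N'' :=
    { toFun := fun n => b'lin n
      map_add' := fun x y => b'lin.map_add x y
      map_smul' := fun r n => b'lin.map_smul r n }
  refine ⟨b', ?_, hb'm⟩
  exact isSemilinearBaseChange_of_comp ρ σ τ hτ m hm b' c (fun n => (hb'm n).symm) hc

end Calculus

end Fermat.Agent.S25.H551

end
-- ===== PACK-END S25/H551/RigLiftCore.lean

-- ===== PACK-BEGIN S25/H550/CechK6.lean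
section







/-!
# S25 / block CECH / leaf K6 (assembly): the finite model of the Čech complex

`exists_finite_model` : for a two-chart Čech datum whose charts are retracts of `A[X]^n` with
injective restriction maps, there is `m` such that `δ m : H⁰(L(m∞)) → N1 / y^m N1` is a map of
finitely generated projective `A`-modules which computes `H⁰` and `H¹` of the Čech complex
universally (after every base change).

Inputs (verbatim hand-ins): K0 (`H130/CechK0.lean`), K1b + K5 (`H370/CechK5.lean`),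
K3 (`H730/K3.lean`), K1a, K1, K2 (`H550`).
-/

set_option autoImplicit false

namespace Fermat.Agent.S25.H550

open Fermat.Agent.S25.H10 TensorProduct

universe u v w

section Generic

variable {R : Type*} [CommRing R] {M N M' N' P Q : Type*}
  [AddCommGroup M] [AddCommGroup N] [AddCommGroup M'] [AddCommGroup N']
  [AddCommGroup P] [AddCommGroup Q]
  [Module R M] [Module R N] [Module R M'] [Module R N'] [Module R P] [Module R Q]

/-- A commutative square with bijective vertical maps identifies kernels. -/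
theorem nonempty_ker_equiv_of_square (f : M →ₗ[R] N) (f' : M' →ₗ[R] N')
    (e1 : M ≃ₗ[R] M') (e2 : N →ₗ[R] N') (he2 : Function.Injective e2)
    (h : ∀ x, e2 (f x) = f' (e1 x)) :
    Nonempty (LinearMap.ker f ≃ₗ[R] LinearMap.ker f') := by
  refine ⟨LinearEquiv.ofSubmodules e1 _ _ ?_⟩
  ext y
  simp only [Submodule.mem_map, LinearMap.mem_ker, LinearEquiv.coe_coe]
  constructor
  · rintro ⟨x, hx, rfl⟩
    rw [← h, hx, map_zero]
  · intro hy
    refine ⟨e1.symm y, he2 ?_, e1.apply_symm_apply y⟩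
    rw [h, e1.apply_symm_apply, hy, map_zero]

/-- A commutative square with bijective vertical maps identifies cokernels. -/
theorem nonempty_coker_equiv_of_square (f : M →ₗ[R] N) (f' : M' →ₗ[R] N')
    (e1 : M →ₗ[R] M') (he1 : Function.Surjective e1) (e2 : N ≃ₗ[R] N')
    (h : ∀ x, e2 (f x) = f' (e1 x)) :
    Nonempty ((N ⧸ LinearMap.range f) ≃ₗ[R] (N' ⧸ LinearMap.range f')) := by
  refine ⟨Submodule.Quotient.equiv _ _ e2 ?_⟩
  ext y
  simp only [Submodule.mem_map, LinearMap.mem_range, LinearEquiv.coe_coe]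
  constructor
  · rintro ⟨_, ⟨x, rfl⟩, rfl⟩
    exact ⟨e1 x, (h x).symm⟩
  · rintro ⟨x', rfl⟩
    obtain ⟨x, rfl⟩ := he1 x'
    exact ⟨f x, ⟨x, rfl⟩, h x⟩

/-- Left exactness `0 → P → M → N` identifies `P` with the kernel. -/
theorem nonempty_equiv_ker_of_exact (i : P →ₗ[R] M) (f : M →ₗ[R] N)
    (hi : Function.Injective i) (h : LinearMap.range i = LinearMap.ker f) :
    Nonempty (LinearMap.ker f ≃ₗ[R] P) :=
  ⟨((LinearEquiv.ofInjective i hi).trans (LinearEquiv.ofEq _ _ h)).symm⟩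

/-- Right exactness `M → N → Q → 0` identifies `Q` with the cokernel. -/
theorem nonempty_coker_equiv_of_exact (f : M →ₗ[R] N) (c : N →ₗ[R] Q)
    (hc : Function.Surjective c) (h : LinearMap.range f = LinearMap.ker c) :
    Nonempty ((N ⧸ LinearMap.range f) ≃ₗ[R] Q) :=
  ⟨(Submodule.quotEquivOfEq _ _ h).trans (c.quotKerEquivOfSurjective hc)⟩

end Generic

section BaseChangeQuot

variable {A : Type u} [CommRing A] (A' : Type w) [CommRing A'] [Algebra A A']
  {N : Type v} [AddCommGroup N] [Module A N]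

/-- The comparison map `(A' ⊗ N) ⧸ range (A' ⊗ E) → A' ⊗ (N ⧸ range E)`. -/
noncomputable def quotBaseChange (E : Module.End A N) :
    ((A' ⊗[A] N) ⧸ LinearMap.range (E.baseChange A')) →ₗ[A']
      A' ⊗[A] (N ⧸ LinearMap.range E) :=
  Submodule.liftQ _ ((LinearMap.range E).mkQ.baseChange A') (by
    rintro _ ⟨t, rfl⟩
    rw [LinearMap.mem_ker, ← LinearMap.comp_apply, ← LinearMap.baseChange_comp]
    have : (LinearMap.range E).mkQ ∘ₗ E = 0 := by
      refine LinearMap.ext fun x => ?_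
      simp
    rw [this, LinearMap.baseChange_zero, LinearMap.zero_apply])

theorem quotBaseChange_mk (E : Module.End A N) (t : A' ⊗[A] N) :
    quotBaseChange A' E (Submodule.Quotient.mk t) = (LinearMap.range E).mkQ.baseChange A' t :=
  rfl

theorem quotBaseChange_bijective (E : Module.End A N) :
    Function.Bijective (quotBaseChange A' E) := by
  have hex : Function.Exact (E.baseChange A') ((LinearMap.range E).mkQ.baseChange A') := by
    have := lTensor_exact A' (LinearMap.exact_map_mkQ_range E)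
      (Submodule.mkQ_surjective _)
    intro t
    have h1 := this t
    simpa [LinearMap.baseChange_eq_ltensor] using h1
  constructor
  · rw [← LinearMap.ker_eq_bot, quotBaseChange, Submodule.ker_liftQ_eq_bot']
    exact hex.linearMap_ker_eq.symm
  · intro z
    obtain ⟨t, rfl⟩ : ∃ t, (LinearMap.range E).mkQ.baseChange A' t = z := by
      have := LinearMap.lTensor_surjective A' (Submodule.mkQ_surjective (LinearMap.range E))
      obtain ⟨t, ht⟩ := this z
      exact ⟨t, by simpa [LinearMap.baseChange_eq_ltensor] using ht⟩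
    exact ⟨Submodule.Quotient.mk t, rfl⟩

end BaseChangeQuot

variable {A : Type u} [CommRing A] {N0 N1 N01 : Type v}
  [AddCommGroup N0] [AddCommGroup N1] [AddCommGroup N01]
  [Module A N0] [Module A N1] [Module A N01]

section BaseChange

variable (A' : Type w) [CommRing A'] [Algebra A A']

theorem baseChange_d_surjective (D : CechOps A N0 N1 N01) (m : ℕ)
    (hsurj : Function.Surjective (D.d m)) : Function.Surjective ((D.baseChange A').d m) := by
  have h1 : Function.Surjective ((D.d m).baseChange A') := by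
    have := LinearMap.lTensor_surjective A' hsurj
    intro z
    obtain ⟨t, ht⟩ := this z
    exact ⟨t, by simpa [LinearMap.baseChange_eq_ltensor] using ht⟩
  rw [← Fermat.Agent.S25.H370.baseChange_d] at h1
  exact Function.Surjective.of_comp h1

/-- The comparison `A' ⊗ H⁰(L(m∞)) ≃ H⁰(L_{A'}(m∞))` when `d m` is surjective. -/
theorem exists_H0_baseChange_equiv (D : CechOps A N0 N1 N01)
    (h0 : IsFGProj D.X0) (hr0 : Function.Injective D.r0) (m : ℕ)
    (hsurj : Function.Surjective (D.d m)) :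
    ∃ e : (A' ⊗[A] D.H0 m) ≃ₗ[A'] (D.baseChange A').H0 m, ∀ t,
      ((e t : (D.baseChange A').H0 m) : (A' ⊗[A] N0) × (A' ⊗[A] N1)) =
        TensorProduct.prodRight A A' A' N0 N1 ((D.H0 m).subtype.baseChange A' t) := by
  obtain ⟨hinj, hrange⟩ :=
    Fermat.Agent.S25.H370.H0_baseChange_bijective A' D h0 hr0 m hsurj
  have hmap : (LinearMap.ker ((D.d m).baseChange A')).map
      ((TensorProduct.prodRight A A' A' N0 N1).toLinearMap) = (D.baseChange A').H0 m := by
    ext y
    simp only [Submodule.mem_map, LinearMap.mem_ker, LinearEquiv.coe_coe]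
    constructor
    · rintro ⟨x, hx, rfl⟩
      rw [← Fermat.Agent.S25.H370.baseChange_d] at hx
      exact hx
    · intro hy
      refine ⟨(TensorProduct.prodRight A A' A' N0 N1).symm y, ?_, LinearEquiv.apply_symm_apply _ _⟩
      rw [← Fermat.Agent.S25.H370.baseChange_d, LinearMap.comp_apply, LinearEquiv.coe_coe,
        LinearEquiv.apply_symm_apply]
      exact hy
  refine ⟨((LinearEquiv.ofInjective _ hinj).trans (LinearEquiv.ofEq _ _ hrange)).trans
    (LinearEquiv.ofSubmodules (TensorProduct.prodRight A A' A' N0 N1) _ _ hmap), fun t => rfl⟩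

end BaseChange

/-- **K6 (finite model).** There are `m` and the map `δ m : H⁰(L(m∞)) → N1/y^m N1` between
finitely generated projective `A`-modules which computes `H⁰` and `H¹` of the Čech complex
universally: after every base change `A → A'` its kernel and cokernel are those of `A' ⊗ d 0`. -/
theorem exists_finite_model (D : CechOps A N0 N1 N01)
    (h0 : IsFGProj D.X0) (h1 : IsFGProj D.Y1)
    (hr0 : Function.Injective D.r0) (hr1 : Function.Injective D.r1) :
    ∃ m : ℕ, Function.Surjective (D.d m) ∧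
      Module.Finite A (D.H0 m) ∧ Module.Projective A (D.H0 m) ∧
      Module.Finite A (N1 ⧸ LinearMap.range (D.Y1 ^ m)) ∧
      Module.Projective A (N1 ⧸ LinearMap.range (D.Y1 ^ m)) ∧
      ∀ (A' : Type (max u v)) [CommRing A'] [Algebra A A'],
        Nonempty (LinearMap.ker ((D.δ m).baseChange A') ≃ₗ[A']
          LinearMap.ker ((D.d 0).baseChange A')) ∧
        Nonempty (((A' ⊗[A] (N1 ⧸ LinearMap.range (D.Y1 ^ m))) ⧸
            LinearMap.range ((D.δ m).baseChange A')) ≃ₗ[A']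
          ((A' ⊗[A] N01) ⧸ LinearMap.range ((D.d 0).baseChange A'))) := by
  obtain ⟨m0, hm0⟩ := exists_forall_d_surjective D (Fermat.Agent.S25.H130.isFG_of_isFGProj h0)
  have hsurj := hm0 m0 le_rfl
  obtain ⟨-, hfin, hproj⟩ := H0_finite_projective_of_surjective D h0 h1 hr0 hr1 m0 hsurj
  obtain ⟨hqfin, hqproj⟩ := Fermat.Agent.S25.H130.quotient_pow_finite_projective h1 m0
  refine ⟨m0, hsurj, hfin, hproj, hqfin, hqproj, fun A' _ _ => ?_⟩
  -- the base-changed datum
  have h1' : IsFGProj (D.baseChange A').Y1 := Fermat.Agent.S25.H370.isFGProj_baseChange A' h1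
  have hY' : Function.Injective (D.baseChange A').Y1 :=
    Fermat.Agent.S25.H130.injective_of_isFGProj h1'
  have hsurj' := baseChange_d_surjective A' D m0 hsurj
  -- K3 for the base-changed datum
  obtain ⟨k1⟩ := nonempty_equiv_ker_of_exact (R := A') (P := (D.baseChange A').H0 0)
    (M := (D.baseChange A').H0 m0) (i := (D.baseChange A').incl m0)
    (f := (D.baseChange A').δ m0) (Fermat.Agent.S25.H730.incl_injective (D.baseChange A') hY' m0)
    (Fermat.Agent.S25.H730.range_incl_eq_ker_δ (D.baseChange A') m0)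
  obtain ⟨c1⟩ := nonempty_coker_equiv_of_exact (R := A') (M := (D.baseChange A').H0 m0)
    (Q := (D.baseChange A').H1 0) (f := (D.baseChange A').δ m0)
    (c := (D.baseChange A').conn m0)
    (Fermat.Agent.S25.H730.conn_surjective (D.baseChange A') m0 hsurj')
    (Fermat.Agent.S25.H730.range_δ_eq_ker_conn (D.baseChange A') m0)
  -- comparison of `δ`
  obtain ⟨e1, he1⟩ := exists_H0_baseChange_equiv A' D h0 hr0 m0 hsurj
  have hpow : (D.baseChange A').Y1 ^ m0 = (D.Y1 ^ m0).baseChange A' :=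
    Fermat.Agent.S25.H370.baseChange_pow A' D.Y1 m0
  let q : ((A' ⊗[A] N1) ⧸ LinearMap.range ((D.baseChange A').Y1 ^ m0)) ≃ₗ[A']
      A' ⊗[A] (N1 ⧸ LinearMap.range (D.Y1 ^ m0)) :=
    (Submodule.quotEquivOfEq _ _ (by rw [hpow])).trans
      (LinearEquiv.ofBijective (quotBaseChange A' (D.Y1 ^ m0))
        (quotBaseChange_bijective A' (D.Y1 ^ m0)))
  have hsq : ∀ t : A' ⊗[A] D.H0 m0,
      q.symm ((D.δ m0).baseChange A' t) = (D.baseChange A').δ m0 (e1 t) := by
    intro t
    rw [LinearEquiv.symm_apply_eq]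
    induction t using TensorProduct.induction_on with
    | zero => simp
    | tmul a p =>
      rw [CechOps.δ_apply, he1]
      simp only [LinearMap.baseChange_tmul, Submodule.coe_subtype,
        TensorProduct.prodRight_tmul, CechOps.δ_apply]
      rfl
    | add x y hx hy => simp only [map_add, hx, hy]
  obtain ⟨k2⟩ := nonempty_ker_equiv_of_square (R := A') (M' := (D.baseChange A').H0 m0)
    (f := (D.δ m0).baseChange A')
    (f' := (D.baseChange A').δ m0) e1 q.symm.toLinearMap q.symm.injective hsq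
  obtain ⟨c2⟩ := nonempty_coker_equiv_of_square (R := A') (M' := (D.baseChange A').H0 m0)
    (f := (D.δ m0).baseChange A')
    (f' := (D.baseChange A').δ m0) e1.toLinearMap e1.surjective q.symm hsq
  -- comparison of `d 0`
  have hd0 := Fermat.Agent.S25.H370.baseChange_d A' D 0
  obtain ⟨k3⟩ := nonempty_ker_equiv_of_square ((D.d 0).baseChange A')
    ((D.baseChange A').d 0) (TensorProduct.prodRight A A' A' N0 N1) LinearMap.id
    Function.injective_id (fun x => by rw [← hd0]; rfl)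
  obtain ⟨c3⟩ := nonempty_coker_equiv_of_square ((D.d 0).baseChange A')
    ((D.baseChange A').d 0) (TensorProduct.prodRight A A' A' N0 N1).toLinearMap
    (TensorProduct.prodRight A A' A' N0 N1).surjective (LinearEquiv.refl A' _)
    (fun x => by rw [← hd0]; rfl)
  exact ⟨⟨(k2.trans k1).trans k3.symm⟩, ⟨(c2.trans c1).trans c3.symm⟩⟩

end Fermat.Agent.S25.H550

end
-- ===== PACK-END S25/H550/CechK6.lean

-- ===== PACK-BEGIN S25/H326/Rig.lean
section
/-
S25 helper (helper326), block GLUE / AS6: sectionwise form of a rigidification.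

For a morphism `f : T' ⟶ X` and an `𝒪_X`-module `L`, a morphism `(pullback f).obj L ⟶ 𝒪_{T'}`
is the same as (adjunction) an "evaluation" `ev : L ⟶ f_* 𝒪_{T'}`.  We show:
* `isIso_of_isRigidifying` : if `ev` sends local generators near `f(T')` to units, then the
  adjoint morphism `(pullback f).obj L ⟶ 𝒪_{T'}` is an isomorphism;
* `isUnit_ev_of_iso` : conversely, for an isomorphism `ρ : (pullback f).obj L ≅ 𝒪_{T'}` the
  adjoint evaluation sends every local generator to a unit.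
-/




set_option autoImplicit false
set_option linter.unusedVariables false

universe u

noncomputable section

open CategoryTheory AlgebraicGeometry TopologicalSpace Opposite Limits

namespace Fermat.Agent.S25.H326

open Fermat.Agent.S25.H626 (res resO res_res res_smul res_add app_res hom_ext_apply resO_resO
  unitMod toUnit ofUnit IsLocalGenerator eq_of_locally_eq_M)

/-! ### Gluing sections of a module -/

section GlueSections

variable {Y : Scheme.{u}} (N : Y.Modules)

/-- Compatible local sections of a module glue. -/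
theorem exists_gluing_M {ι : Type*} (U : ι → Y.Opens) (V : Y.Opens) (hUV : ∀ i, U i ≤ V)
    (hcover : V ≤ iSup U) (n : ∀ i, Γ(N, U i))
    (hn : ∀ i j, res N (inf_le_left : U i ⊓ U j ≤ U i) (n i) =
      res N (inf_le_right : U i ⊓ U j ≤ U j) (n j)) :
    ∃ g : Γ(N, V), ∀ i, res N (hUV i) g = n i := by
  obtain ⟨g, hg, -⟩ := TopCat.Sheaf.existsUnique_gluing'
    (⟨N.presheaf, N.isSheaf⟩ : TopCat.Sheaf Ab Y) U V (fun i => homOfLE (hUV i))
    hcover n (fun i j => hn i j)
  exact ⟨g, hg⟩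

end GlueSections

/-! ### Sections of the unit module -/

section UnitMod

variable {Y : Scheme.{u}}

theorem unit_smul_eq (V : Y.Opens) (a : Γ(Y, V)) (b : Γ(unitMod Y, V)) :
    a • b = toUnit Y V (a * ofUnit Y V b) := rfl

theorem eq_smul_one (V : Y.Opens) (b : Γ(unitMod Y, V)) :
    b = ofUnit Y V b • toUnit Y V 1 := by
  rw [unit_smul_eq]
  change b = toUnit Y V (ofUnit Y V b * 1)
  rw [mul_one]
  rfl

/-- A morphism out of the unit module is determined by the images of `1`. -/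
theorem unitHom_app_eq {N : Y.Modules} (g : unitMod Y ⟶ N) (V : Y.Opens) (b : Γ(unitMod Y, V)) :
    g.app V b = ofUnit Y V b • g.app V (toUnit Y V 1) := by
  conv_lhs => rw [eq_smul_one V b]
  rw [Scheme.Modules.Hom.app_smul]

theorem res_unit_one {V V' : Y.Opens} (h : V' ≤ V) :
    res (unitMod Y) h (toUnit Y V 1) = toUnit Y V' 1 :=
  Fermat.Agent.S25.H626.res_toUnit_one Y h

theorem unitHom_app_one_res {N : Y.Modules} (g : unitMod Y ⟶ N) {V V' : Y.Opens} (h : V' ≤ V) :
    g.app V' (toUnit Y V' 1) = res N h (g.app V (toUnit Y V 1)) := by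
  rw [← app_res, res_unit_one]

/-- The morphism `𝒪_Y ⟶ N` attached to a global section of `N`. -/
def unitHomOfSection (N : Y.Modules) (n : Γ(N, ⊤)) : unitMod Y ⟶ N :=
  mkHom (fun V =>
      { toFun := fun b => ofUnit Y V b • res N (le_top : V ≤ ⊤) n
        map_zero' := by
          change (0 : Γ(Y, V)) • res N (le_top : V ≤ ⊤) n = 0
          exact zero_smul _ _
        map_add' := fun b b' => by
          change (ofUnit Y V b + ofUnit Y V b') • res N (le_top : V ≤ ⊤) n = _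
          exact add_smul _ _ _ })
    (fun V V' h b => by
      change ofUnit Y V' (res (unitMod Y) h b) • res N (le_top : V' ≤ ⊤) n =
        res N h (ofUnit Y V b • res N (le_top : V ≤ ⊤) n)
      rw [res_smul, res_res]
      rfl)
    (fun V r b => by
      change ofUnit Y V (r • b) • res N (le_top : V ≤ ⊤) n =
        r • (ofUnit Y V b • res N (le_top : V ≤ ⊤) n)
      rw [smul_smul]
      rfl)

theorem unitHomOfSection_app (N : Y.Modules) (n : Γ(N, ⊤)) (V : Y.Opens) (b : Γ(unitMod Y, V)) :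
    (unitHomOfSection N n).app V b = ofUnit Y V b • res N (le_top : V ≤ ⊤) n := rfl

end UnitMod

/-! ### Sections of a pushforward -/

section Pushforward

variable {X T' : Scheme.{u}} (f : T' ⟶ X)

/-- Sections of `f_* N` over `W` are sections of `N` over `f⁻¹ W` (the identity). -/
def pfTo (N : T'.Modules) (W : X.Opens) (n : Γ((Scheme.Modules.pushforward f).obj N, W)) :
    Γ(N, f ⁻¹ᵁ W) := n

/-- Sections of `N` over `f⁻¹ W` are sections of `f_* N` over `W` (the identity). -/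
def pfOf (N : T'.Modules) (W : X.Opens) (n : Γ(N, f ⁻¹ᵁ W)) :
    Γ((Scheme.Modules.pushforward f).obj N, W) := n

variable {f}

@[simp] theorem pfTo_pfOf (N : T'.Modules) (W : X.Opens) (n : Γ(N, f ⁻¹ᵁ W)) :
    pfTo f N W (pfOf f N W n) = n := rfl

@[simp] theorem pfOf_pfTo (N : T'.Modules) (W : X.Opens)
    (n : Γ((Scheme.Modules.pushforward f).obj N, W)) : pfOf f N W (pfTo f N W n) = n := rfl

theorem pfTo_injective (N : T'.Modules) (W : X.Opens) : Function.Injective (pfTo f N W) :=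
  fun _ _ h => h

theorem pfTo_smul (N : T'.Modules) (W : X.Opens) (r : Γ(X, W))
    (n : Γ((Scheme.Modules.pushforward f).obj N, W)) :
    pfTo f N W (r • n) = (f.app W r) • pfTo f N W n := rfl

theorem pfTo_res (N : T'.Modules) {W W' : X.Opens} (h : W' ≤ W)
    (n : Γ((Scheme.Modules.pushforward f).obj N, W)) :
    pfTo f N W' (res ((Scheme.Modules.pushforward f).obj N) h n) =
      res N (f.preimage_mono h) (pfTo f N W n) := rfl

theorem pfTo_map {N N' : T'.Modules} (g : N ⟶ N') (W : X.Opens)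
    (n : Γ((Scheme.Modules.pushforward f).obj N, W)) :
    pfTo f N' W (((Scheme.Modules.pushforward f).map g).app W n) =
      g.app (f ⁻¹ᵁ W) (pfTo f N W n) := rfl

theorem pfTo_add (N : T'.Modules) (W : X.Opens)
    (n n' : Γ((Scheme.Modules.pushforward f).obj N, W)) :
    pfTo f N W (n + n') = pfTo f N W n + pfTo f N W n' := rfl

/-- Restriction of functions commutes with `f.app`. -/
theorem app_resO {W W' : X.Opens} (h : W' ≤ W) (r : Γ(X, W)) :
    f.app W' (resO h r) = resO (f.preimage_mono h) (f.app W r) := by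
  have := f.naturality (homOfLE h).op
  exact congr($this r)

end Pushforward

/-! ### Evaluations and rigidifications -/

section Rig

variable {X T' : Scheme.{u}} (f : T' ⟶ X)

/-- The module `f_* 𝒪_{T'}` on `X`. -/
abbrev funMod : X.Modules := (Scheme.Modules.pushforward f).obj (unitMod T')

variable {f} {L : X.Modules}

/-- The value of an evaluation `ev : L ⟶ f_* 𝒪_{T'}` on a section, as a function on `f⁻¹ W`. -/
def evFun (ev : L ⟶ funMod f) (W : X.Opens) (s : Γ(L, W)) : Γ(T', f ⁻¹ᵁ W) :=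
  ofUnit T' _ (pfTo f (unitMod T') W (ev.app W s))

theorem evFun_smul (ev : L ⟶ funMod f) (W : X.Opens) (r : Γ(X, W)) (s : Γ(L, W)) :
    evFun ev W (r • s) = f.app W r * evFun ev W s := by
  unfold evFun
  rw [Scheme.Modules.Hom.app_smul, pfTo_smul]
  rfl

theorem evFun_res (ev : L ⟶ funMod f) {W W' : X.Opens} (h : W' ≤ W) (s : Γ(L, W)) :
    evFun ev W' (res L h s) = resO (f.preimage_mono h) (evFun ev W s) := by
  unfold evFun
  rw [app_res, pfTo_res]
  rfl

/-- The value of a morphism `ψ : L ⟶ f_* N` on a section, as a section of `N` over `f⁻¹ W`. -/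
def pfVal {N : T'.Modules} (ψ : L ⟶ (Scheme.Modules.pushforward f).obj N) (W : X.Opens)
    (s : Γ(L, W)) : Γ(N, f ⁻¹ᵁ W) :=
  pfTo f N W (ψ.app W s)

theorem pfVal_smul {N : T'.Modules} (ψ : L ⟶ (Scheme.Modules.pushforward f).obj N) (W : X.Opens)
    (r : Γ(X, W)) (s : Γ(L, W)) : pfVal ψ W (r • s) = f.app W r • pfVal ψ W s := by
  unfold pfVal
  rw [Scheme.Modules.Hom.app_smul, pfTo_smul]

theorem pfVal_res {N : T'.Modules} (ψ : L ⟶ (Scheme.Modules.pushforward f).obj N)
    {W W' : X.Opens} (h : W' ≤ W) (s : Γ(L, W)) :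
    pfVal ψ W' (res L h s) = res N (f.preimage_mono h) (pfVal ψ W s) := by
  unfold pfVal
  rw [app_res, pfTo_res]

theorem pfVal_ext {N : T'.Modules} {ψ ψ' : L ⟶ (Scheme.Modules.pushforward f).obj N}
    (h : ∀ (W : X.Opens) (s : Γ(L, W)), pfVal ψ W s = pfVal ψ' W s) : ψ = ψ' :=
  hom_ext_apply (fun W s => h W s)

/-- The value of `ev ≫ f_* g` for `g : 𝒪_{T'} ⟶ N`. -/
theorem pfVal_comp_map {N : T'.Modules} (ev : L ⟶ funMod f) (g : unitMod T' ⟶ N)
    (W : X.Opens) (s : Γ(L, W)) :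
    pfVal (ev ≫ (Scheme.Modules.pushforward f).map g) W s =
      evFun ev W s • g.app (f ⁻¹ᵁ W) (toUnit T' _ 1) := by
  have h : pfVal (ev ≫ (Scheme.Modules.pushforward f).map g) W s =
      g.app (f ⁻¹ᵁ W) (pfTo f (unitMod T') W (ev.app W s)) := rfl
  rw [h, unitHom_app_eq]
  rfl

/-- `ev` is *rigidifying*: near every point of `f(T')` there is a local generator of `L`
whose value is a unit. -/
def IsRigidifying (ev : L ⟶ funMod f) : Prop :=
  ∀ t : T', ∃ (W : X.Opens) (s : Γ(L, W)), t ∈ f ⁻¹ᵁ W ∧ IsLocalGenerator L W s ∧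
    IsUnit (evFun ev W s)

/-- Key local computation: if `s` is a local generator on `W` and `ev(s) • n = ψ(s)`, then
`ev(s') • n = ψ(s')` on `f⁻¹(W' ∩ W)` for every section `s'` over `W'`. -/
theorem key_local {N : T'.Modules} (ev : L ⟶ funMod f)
    (ψ : L ⟶ (Scheme.Modules.pushforward f).obj N) {W : X.Opens} {s : Γ(L, W)}
    (hs : IsLocalGenerator L W s) (n : Γ(N, f ⁻¹ᵁ W)) (hn : evFun ev W s • n = pfVal ψ W s)
    {W' : X.Opens} (s' : Γ(L, W')) :
    resO (f.preimage_mono (inf_le_left : W' ⊓ W ≤ W')) (evFun ev W' s') •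
        res N (f.preimage_mono (inf_le_right : W' ⊓ W ≤ W)) n =
      res N (f.preimage_mono (inf_le_left : W' ⊓ W ≤ W')) (pfVal ψ W' s') := by
  obtain ⟨r, hr⟩ := (hs (W' ⊓ W) inf_le_right).2 (res L inf_le_left s')
  simp only at hr
  rw [← evFun_res ev (inf_le_left : W' ⊓ W ≤ W') s', ← pfVal_res ψ (inf_le_left : W' ⊓ W ≤ W') s',
    ← hr, evFun_smul, pfVal_smul, evFun_res, pfVal_res, ← hn, res_smul, mul_smul]

theorem isUnit_resO {Y : Scheme.{u}} {V V' : Y.Opens} (h : V' ≤ V) {a : Γ(Y, V)}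
    (ha : IsUnit a) : IsUnit (resO h a) :=
  ha.map (Y.presheaf.map (homOfLE h).op).hom

/-- Uniqueness of the local section `n` with `ev(s) • n = ψ(s)`. -/
theorem key_unique {N : T'.Modules} (ev : L ⟶ funMod f) {W : X.Opens} {s : Γ(L, W)}
    (hu : IsUnit (evFun ev W s)) {V : T'.Opens} (hV : V ≤ f ⁻¹ᵁ W) (n n' : Γ(N, V))
    (h : resO hV (evFun ev W s) • n = resO hV (evFun ev W s) • n') : n = n' :=
  (isUnit_resO hV hu).smul_left_cancel.mp h

theorem comp_map_injective (ev : L ⟶ funMod f) (h : IsRigidifying ev) (N : T'.Modules) :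
    Function.Injective
      (fun g : unitMod T' ⟶ N => ev ≫ (Scheme.Modules.pushforward f).map g) := by
  intro g g' hgg'
  simp only at hgg'
  choose W s htW hs hu using h
  -- `g` and `g'` agree on `1` over each `f⁻¹ (W t)`
  have h1 : ∀ t, g.app (f ⁻¹ᵁ W t) (toUnit T' _ 1) = g'.app (f ⁻¹ᵁ W t) (toUnit T' _ 1) := by
    intro t
    have e1 := pfVal_comp_map ev g (W t) (s t)
    have e2 := pfVal_comp_map ev g' (W t) (s t)
    rw [hgg'] at e1
    have e3 := e1.symm.trans e2
    exact (hu t).smul_left_cancel.mp e3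
  apply hom_ext_apply
  intro V b
  rw [unitHom_app_eq g, unitHom_app_eq g']
  congr 1
  refine eq_of_locally_eq_M N (fun t => V ⊓ f ⁻¹ᵁ W t) V (fun _ => inf_le_left) ?_ _ _ ?_
  · intro t ht
    exact Opens.mem_iSup.mpr ⟨t, ⟨ht, htW t⟩⟩
  · intro t
    rw [← unitHom_app_one_res g, ← unitHom_app_one_res g',
      unitHom_app_one_res g (inf_le_right : V ⊓ f ⁻¹ᵁ W t ≤ f ⁻¹ᵁ W t),
      unitHom_app_one_res g' (inf_le_right : V ⊓ f ⁻¹ᵁ W t ≤ f ⁻¹ᵁ W t), h1 t]

theorem comp_map_surjective (ev : L ⟶ funMod f) (h : IsRigidifying ev) (N : T'.Modules) :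
    Function.Surjective
      (fun g : unitMod T' ⟶ N => ev ≫ (Scheme.Modules.pushforward f).map g) := by
  intro ψ
  choose W s htW hs hu using h
  -- the local sections
  obtain ⟨n, hn⟩ : ∃ n : ∀ t, Γ(N, f ⁻¹ᵁ W t),
      ∀ t, evFun ev (W t) (s t) • n t = pfVal ψ (W t) (s t) := by
    refine ⟨fun t =>
      (((hu t).unit⁻¹ : (Γ(T', f ⁻¹ᵁ W t))ˣ) : Γ(T', f ⁻¹ᵁ W t)) • pfVal ψ (W t) (s t), ?_⟩
    intro t
    rw [smul_smul, IsUnit.mul_val_inv, one_smul]
  -- compatibility on `f⁻¹ (W t' ⊓ W t)`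
  have hcompat' : ∀ t t', res N (f.preimage_mono (inf_le_right : W t' ⊓ W t ≤ W t)) (n t) =
      res N (f.preimage_mono (inf_le_left : W t' ⊓ W t ≤ W t')) (n t') := by
    intro t t'
    have h1 := key_local ev ψ (hs t) (n t) (hn t) (s t')
    rw [← hn t', res_smul] at h1
    exact (isUnit_resO _ (hu t')).smul_left_cancel.mp h1
  have hcompat : ∀ t t', res N (inf_le_left : f ⁻¹ᵁ W t ⊓ f ⁻¹ᵁ W t' ≤ f ⁻¹ᵁ W t) (n t) =
      res N (inf_le_right : f ⁻¹ᵁ W t ⊓ f ⁻¹ᵁ W t' ≤ f ⁻¹ᵁ W t') (n t') := by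
    intro t t'
    have hle : f ⁻¹ᵁ W t ⊓ f ⁻¹ᵁ W t' ≤ f ⁻¹ᵁ (W t' ⊓ W t) := fun x hx => ⟨hx.2, hx.1⟩
    have := congrArg (res N hle) (hcompat' t t')
    rwa [res_res, res_res] at this
  obtain ⟨n₀, hn₀⟩ := exists_gluing_M N (fun t => f ⁻¹ᵁ W t) ⊤ (fun _ => le_top)
    (fun x _ => Opens.mem_iSup.mpr ⟨x, htW x⟩) n hcompat
  refine ⟨unitHomOfSection N n₀, ?_⟩
  apply pfVal_ext
  intro W' s'
  rw [pfVal_comp_map, unitHomOfSection_app]
  have h1 : ofUnit T' (f ⁻¹ᵁ W') (toUnit T' (f ⁻¹ᵁ W') 1) = 1 := rfl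
  rw [h1, one_smul]
  refine eq_of_locally_eq_M N (fun t => f ⁻¹ᵁ (W' ⊓ W t)) (f ⁻¹ᵁ W')
    (fun t => f.preimage_mono inf_le_left) ?_ _ _ ?_
  · intro x hx
    exact Opens.mem_iSup.mpr ⟨x, ⟨hx, htW x⟩⟩
  · intro t
    rw [res_smul, res_res, ← key_local ev ψ (hs t) (n t) (hn t) s', ← hn₀ t, res_res]

theorem comp_map_bijective (ev : L ⟶ funMod f) (h : IsRigidifying ev) (N : T'.Modules) :
    Function.Bijective
      (fun g : unitMod T' ⟶ N => ev ≫ (Scheme.Modules.pushforward f).map g) :=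
  ⟨comp_map_injective ev h N, comp_map_surjective ev h N⟩

/-- The morphism `(pullback f).obj L ⟶ 𝒪_{T'}` adjoint to an evaluation. -/
def adjHom (ev : L ⟶ funMod f) : (Scheme.Modules.pullback f).obj L ⟶ unitMod T' :=
  ((Scheme.Modules.pullbackPushforwardAdjunction f).homEquiv L (unitMod T')).symm ev

/-- **R2.** The adjoint of a rigidifying evaluation is an isomorphism. -/
theorem isIso_adjHom (ev : L ⟶ funMod f) (h : IsRigidifying ev) : IsIso (adjHom ev) := by
  rw [isIso_iff_coyoneda_map_bijective]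
  intro N
  rw [← ((Scheme.Modules.pullbackPushforwardAdjunction f).homEquiv _ _).bijective.of_comp_iff']
  convert comp_map_bijective ev h N using 1
  funext g
  simp only [Function.comp_apply, adjHom, Adjunction.homEquiv_naturality_right,
    Equiv.apply_symm_apply]

/-- **R2.** A module with a rigidifying evaluation is rigidified. -/
theorem nonempty_iso_of_isRigidifying (ev : L ⟶ funMod f) (h : IsRigidifying ev) :
    Nonempty ((Scheme.Modules.pullback f).obj L ≅ unitMod T') :=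
  ⟨@asIso _ _ _ _ (adjHom ev) (isIso_adjHom ev h)⟩

end Rig

/-! ### Coordinates with respect to a local generator -/

section Coord

variable {X : Scheme.{u}} {L : X.Modules} {W : X.Opens} {s : Γ(L, W)}

/-- The coordinate of a section with respect to a local generator. -/
def coord (hs : IsLocalGenerator L W s) {W' : X.Opens} (h : W' ≤ W) (x : Γ(L, W')) : Γ(X, W') :=
  (Equiv.ofBijective _ (hs W' h)).symm x

theorem coord_smul_gen (hs : IsLocalGenerator L W s) {W' : X.Opens} (h : W' ≤ W)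
    (x : Γ(L, W')) : coord hs h x • res L h s = x :=
  (Equiv.ofBijective _ (hs W' h)).apply_symm_apply x

theorem coord_eq_of_smul_eq (hs : IsLocalGenerator L W s) {W' : X.Opens} (h : W' ≤ W)
    (x : Γ(L, W')) (r : Γ(X, W')) (hr : r • res L h s = x) : coord hs h x = r := by
  apply (hs W' h).1
  simp only
  rw [coord_smul_gen, hr]

theorem coord_smul (hs : IsLocalGenerator L W s) {W' : X.Opens} (h : W' ≤ W) (r : Γ(X, W'))
    (x : Γ(L, W')) : coord hs h (r • x) = r * coord hs h x := by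
  apply coord_eq_of_smul_eq
  rw [mul_smul, coord_smul_gen]

theorem coord_add (hs : IsLocalGenerator L W s) {W' : X.Opens} (h : W' ≤ W)
    (x y : Γ(L, W')) : coord hs h (x + y) = coord hs h x + coord hs h y := by
  apply coord_eq_of_smul_eq
  rw [add_smul, coord_smul_gen, coord_smul_gen]

theorem coord_res (hs : IsLocalGenerator L W s) {W' W'' : X.Opens} (h : W' ≤ W)
    (h' : W'' ≤ W') (x : Γ(L, W')) :
    coord hs (h'.trans h) (res L h' x) = resO h' (coord hs h x) := by
  apply coord_eq_of_smul_eq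
  rw [← res_res L h h' s, ← res_smul, coord_smul_gen]

theorem coord_gen (hs : IsLocalGenerator L W s) {W' : X.Opens} (h : W' ≤ W) :
    coord hs h (res L h s) = 1 := by
  apply coord_eq_of_smul_eq
  rw [one_smul]

/-- The coordinate as an additive map. -/
def coordHom (hs : IsLocalGenerator L W s) {W' : X.Opens} (h : W' ≤ W) : Γ(L, W') →+ Γ(X, W') :=
  AddMonoidHom.mk' (coord hs h) (coord_add hs h)

@[simp] theorem coordHom_apply (hs : IsLocalGenerator L W s) {W' : X.Opens} (h : W' ≤ W)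
    (x : Γ(L, W')) : coordHom hs h x = coord hs h x := rfl

end Coord

/-! ### The probe morphism and the converse direction -/

section Probe

variable {X T' : Scheme.{u}} (f : T' ⟶ X) {L : X.Modules} {W : X.Opens} {s : Γ(L, W)}
  (hs : IsLocalGenerator L W s)

theorem cut_preimage_le (W W' : X.Opens) : cut (f ⁻¹ᵁ W) (f ⁻¹ᵁ W') ≤ f ⁻¹ᵁ (W' ⊓ W) :=
  fun x hx => ⟨cut_le_right (f ⁻¹ᵁ W) (f ⁻¹ᵁ W') hx, cut_le_left (f ⁻¹ᵁ W) (f ⁻¹ᵁ W') hx⟩

/-- The value of the probe morphism: the pullback of the coordinate of `s'` with respect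
to `s`, as a function on `f⁻¹ W ∩ f⁻¹ W'`. -/
def probeVal (W' : X.Opens) (s' : Γ(L, W')) : Γ(T', cut (f ⁻¹ᵁ W) (f ⁻¹ᵁ W')) :=
  resO (cut_preimage_le f W W')
    (f.app (W' ⊓ W) (coord hs inf_le_right (res L (inf_le_left : W' ⊓ W ≤ W') s')))

theorem probeVal_add (W' : X.Opens) (s' s'' : Γ(L, W')) :
    probeVal f hs W' (s' + s'') = probeVal f hs W' s' + probeVal f hs W' s'' := by
  unfold probeVal
  rw [res_add, coord_add, map_add]
  exact map_add _ _ _

theorem probeVal_res {W' W'' : X.Opens} (h : W'' ≤ W') (s' : Γ(L, W')) :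
    probeVal f hs W'' (res L h s') =
      resO (cut_mono le_rfl (f.preimage_mono h)) (probeVal f hs W' s') := by
  unfold probeVal
  have h2 : W'' ⊓ W ≤ W' ⊓ W := inf_le_inf h le_rfl
  have e : res L (inf_le_left : W'' ⊓ W ≤ W'') (res L h s') =
      res L h2 (res L (inf_le_left : W' ⊓ W ≤ W') s') := by
    rw [res_res, res_res]
  rw [e, coord_res hs inf_le_right h2, app_resO, resO_resO, resO_resO]

theorem probeVal_smul (W' : X.Opens) (r : Γ(X, W')) (s' : Γ(L, W')) :
    probeVal f hs W' (r • s') =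
      resO (cut_le_right (f ⁻¹ᵁ W) (f ⁻¹ᵁ W')) (f.app W' r) * probeVal f hs W' s' := by
  unfold probeVal
  rw [res_smul, coord_smul, map_mul, Fermat.Agent.S25.H626.resO_mul, app_resO, resO_resO]

theorem probeVal_gen : probeVal f hs W s = 1 := by
  unfold probeVal
  rw [coord_gen hs (inf_le_right : W ⊓ W ≤ W), map_one]
  exact Fermat.Agent.S25.H626.resO_one _

/-- The probe morphism `L ⟶ f_* (𝒪_{T'} cut down to f⁻¹ W)`, sending the local generator `s`
to `1`. -/
def probe : L ⟶ (Scheme.Modules.pushforward f).obj (onOpen (f ⁻¹ᵁ W) (unitMod T')) :=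
  mkHom (fun W' => AddMonoidHom.mk'
      (fun s' => pfOf f _ W' (ofCut (f ⁻¹ᵁ W) (unitMod T') (f ⁻¹ᵁ W')
        (toUnit T' _ (probeVal f hs W' s'))))
      (fun s' s'' => by
        rw [probeVal_add]
        rfl))
    (fun W' W'' h s' => by
      simp only [AddMonoidHom.mk'_apply]
      rw [probeVal_res]
      rfl)
    (fun W' r s' => by
      simp only [AddMonoidHom.mk'_apply]
      rw [probeVal_smul]
      apply pfTo_injective
      rw [pfTo_smul, pfTo_pfOf, pfTo_pfOf, ← ofCut_smul]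
      rfl)

theorem probe_val (W' : X.Opens) (s' : Γ(L, W')) :
    ofUnit T' _ (toCut (f ⁻¹ᵁ W) (unitMod T') (f ⁻¹ᵁ W') (pfVal (probe f hs) W' s')) =
      probeVal f hs W' s' := rfl

/-- **R1.** For an isomorphism `ρ : (pullback f).obj L ≅ 𝒪_{T'}`, the adjoint evaluation
sends every local generator to a unit. -/
theorem isUnit_evFun_of_iso (hs : IsLocalGenerator L W s)
    (ρ : (Scheme.Modules.pullback f).obj L ≅ unitMod T') :
    IsUnit (evFun ((Scheme.Modules.pullbackPushforwardAdjunction f).homEquiv L (unitMod T')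
      ρ.hom) W s) := by
  set adj := Scheme.Modules.pullbackPushforwardAdjunction f
  set ev := adj.homEquiv L (unitMod T') ρ.hom with hev
  let g : unitMod T' ⟶ onOpen (f ⁻¹ᵁ W) (unitMod T') :=
    ρ.inv ≫ (adj.homEquiv L _).symm (probe f hs)
  have hψ : ev ≫ (Scheme.Modules.pushforward f).map g = probe f hs := by
    rw [hev, ← Adjunction.homEquiv_naturality_right]
    simp only [g, Iso.hom_inv_id_assoc, Equiv.apply_symm_apply]
  have h1 := pfVal_comp_map ev g W s
  rw [hψ] at h1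
  have h2 := congrArg (fun x => ofUnit T' _ (toCut (f ⁻¹ᵁ W) (unitMod T') (f ⁻¹ᵁ W) x)) h1
  simp only at h2
  rw [probe_val, probeVal_gen, toCut_smul] at h2
  have h3 : IsUnit (resO (cut_le_right (f ⁻¹ᵁ W) (f ⁻¹ᵁ W)) (evFun ev W s)) :=
    IsUnit.of_mul_eq_one _ h2.symm
  have hle : f ⁻¹ᵁ W ≤ cut (f ⁻¹ᵁ W) (f ⁻¹ᵁ W) := le_cut le_rfl le_rfl
  have h4 := isUnit_resO hle h3
  rwa [resO_resO_cancel] at h4

end Probe

end Fermat.Agent.S25.H326

end

end
-- ===== PACK-END S25/H326/Rig.lean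

-- ===== PACK-BEGIN S25/H927/AbAlgIdeal.lean
section
/-
S25 / block ABEL, sub-block AB-ALG (skeleton of helper747), base-change chain, helper927.

* **G6 (strong form)** `isSemilinearBaseChange_idealMapSL` : for invertible ideals `I ⊆ R`,
  `I' ⊆ R'` with `I.map ρ = I'` the restriction `I → I'` of `ρ` is a semilinear base change
  (a surjection onto an invertible module from an invertible module is bijective).
  In particular products of ideals need no separate treatment.
* **G4** `ofIdeals_isBC` : exact statement of `H747/Skel/AbAlgSkel.lean`;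
  `ofIdeals_isBC_of_map` : the same without the three base-change hypotheses.
-/



set_option autoImplicit false
set_option linter.style.haveILetI false
universe u
open scoped TensorProduct

namespace Fermat.Agent.S25.H927

open Fermat.Agent.S25

noncomputable section

section G6

variable {R R' : Type u} [CommRing R] [CommRing R']

/-- **G6 (strong form).** For invertible ideals `I`, `I'` with `I.map ρ = I'`, the restriction
`I → I'` of `ρ` is a semilinear base change. -/
theorem isSemilinearBaseChange_idealMapSL (ρ : R →+* R') (I : Ideal R) (I' : Ideal R')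
    (e : I.map ρ = I') (hI : Module.Invertible R I) (hI' : Module.Invertible R' I') :
    IsSemilinearBaseChange ρ (H747.idealMapₛₗ ρ I I' e.le) := by
  letI : Algebra R R' := ρ.toAlgebra
  letI : Module R I' := Module.compHom I' ρ
  haveI : IsScalarTower R R' I' := ⟨fun r r' n => by
    change (ρ r * r') • n = ρ r • (r' • n); rw [mul_smul]⟩
  -- the underlying linear map
  let f : I →ₗ[R] I' :=
    { toFun := fun n => H747.idealMapₛₗ ρ I I' e.le n
      map_add' := fun m n => (H747.idealMapₛₗ ρ I I' e.le).map_add m n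
      map_smul' := fun r n => LinearMap.map_smulₛₗ (H747.idealMapₛₗ ρ I I' e.le) r n }
  have hf : ∀ a : I, ((f a : I') : R') = ρ a := fun _ => rfl
  let L : R' ⊗[R] I →ₗ[R'] I' := LinearMap.liftBaseChange R' f
  have hL : ∀ (s : R') (a : I), L (s ⊗ₜ[R] a) = s • f a := fun s a => by
    simp [L]
  have hsurj : Function.Surjective L := by
    rintro ⟨x, hx⟩
    have hx' : x ∈ Ideal.span (ρ '' (I : Set R)) := by
      rw [← Ideal.map, e]; exact hx
    suffices h : ∀ (x : R') (_ : x ∈ Ideal.span (ρ '' (I : Set R))),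
        ∃ z : R' ⊗[R] I, ((L z : I') : R') = x by
      obtain ⟨z, hz⟩ := h x hx'
      exact ⟨z, Subtype.ext hz⟩
    intro x hx
    induction hx using Submodule.span_induction with
    | mem x hx =>
      obtain ⟨a, ha, rfl⟩ := hx
      exact ⟨1 ⊗ₜ[R] ⟨a, ha⟩, by rw [hL, one_smul, hf]⟩
    | zero => exact ⟨0, by simp⟩
    | add x y _ _ hx hy =>
      obtain ⟨z, hz⟩ := hx
      obtain ⟨w, hw⟩ := hy
      exact ⟨z + w, by rw [map_add, Submodule.coe_add, hz, hw]⟩
    | smul r x _ hx =>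
      obtain ⟨z, hz⟩ := hx
      exact ⟨r • z, by rw [map_smul, Submodule.coe_smul, hz]⟩
  haveI : Module.Invertible R I := hI
  haveI : Module.Invertible R' I' := hI'
  have hbij : Function.Bijective L := Module.Invertible.bijective_of_surjective hsurj
  have key : IsBaseChange R' f :=
    IsBaseChange.of_equiv (LinearEquiv.ofBijective L hbij) (fun a => by
      rw [LinearEquiv.ofBijective_apply, hL, one_smul])
  exact key

end G6

section G4

variable {A R₀ R₁ R₀₁ : Type u} [CommRing A] [CommRing R₀] [CommRing R₁]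
    [CommRing R₀₁] [Algebra A R₀] [Algebra A R₁] [Algebra A R₀₁] [Algebra R₀ R₀₁]
    [Algebra R₁ R₀₁] [IsScalarTower A R₀ R₀₁] [IsScalarTower A R₁ R₀₁]
    {A' R₀' R₁' R₀₁' : Type u} [CommRing A'] [CommRing R₀'] [CommRing R₁']
    [CommRing R₀₁'] [Algebra A' R₀'] [Algebra A' R₁'] [Algebra A' R₀₁'] [Algebra R₀' R₀₁']
    [Algebra R₁' R₀₁'] [IsScalarTower A' R₀' R₀₁'] [IsScalarTower A' R₁' R₀₁']

/-- **G4.** Base change of the gluing datum of a Cartier triple.
(Exact statement of `H747.Skel.ofIdeals_isBC`.) -/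
theorem ofIdeals_isBC (ρ₀ : R₀ →+* R₀') (ρ₁ : R₁ →+* R₁') (ρ₀₁ : R₀₁ →+* R₀₁')
    (h₀ : ρ₀₁.comp (algebraMap R₀ R₀₁) = (algebraMap R₀' R₀₁').comp ρ₀)
    (h₁ : ρ₀₁.comp (algebraMap R₁ R₀₁) = (algebraMap R₁' R₀₁').comp ρ₁)
    {I₀ : Ideal R₀} {I₁ : Ideal R₁} {I₀₁ : Ideal R₀₁} (hD : H747.IsCartierTriple I₀ I₁ I₀₁)
    {I₀' : Ideal R₀'} {I₁' : Ideal R₁'} {I₀₁' : Ideal R₀₁'}
    (hD' : H747.IsCartierTriple I₀' I₁' I₀₁')
    (e₀ : I₀.map ρ₀ = I₀') (e₁ : I₁.map ρ₁ = I₁') (e₀₁ : I₀₁.map ρ₀₁ = I₀₁')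
    (b₀ : IsSemilinearBaseChange ρ₀ (H747.idealMapₛₗ ρ₀ I₀ I₀' e₀.le))
    (b₁ : IsSemilinearBaseChange ρ₁ (H747.idealMapₛₗ ρ₁ I₁ I₁' e₁.le))
    (b₀₁ : IsSemilinearBaseChange ρ₀₁ (H747.idealMapₛₗ ρ₀₁ I₀₁ I₀₁' e₀₁.le)) :
    GlueDatum.IsBC ρ₀ ρ₁ ρ₀₁ (H747.ofIdeals A hD) (H747.ofIdeals A' hD') :=
  ⟨{ b₀ := H747.idealMapₛₗ ρ₀ I₀ I₀' e₀.le
     b₁ := H747.idealMapₛₗ ρ₁ I₁ I₁' e₁.le
     b₀₁ := H747.idealMapₛₗ ρ₀₁ I₀₁ I₀₁' e₀₁.le
     comm₀ := fun (s : I₀) => Subtype.ext (RingHom.congr_fun h₀ (s : R₀))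
     comm₁ := fun (s : I₁) => Subtype.ext (RingHom.congr_fun h₁ (s : R₁))
     isBaseChange₀ := b₀
     isBaseChange₁ := b₁
     isBaseChange₀₁ := b₀₁ }⟩

/-- The ideal on the intersection of a Cartier triple is invertible. -/
theorem IsCartierTriple_inv₀₁ {I₀ : Ideal R₀} {I₁ : Ideal R₁} {I₀₁ : Ideal R₀₁}
    (hD : H747.IsCartierTriple I₀ I₁ I₀₁) : Module.Invertible R₀₁ I₀₁ :=
  haveI := hD.inv₀
  Module.Invertible.congr hD.bc₀.equiv

/-- **G4 + G6.** Base change of the gluing datum of a Cartier triple: it suffices that the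
ideals of the target are the extensions of the ideals of the source. -/
theorem ofIdeals_isBC_of_map (ρ₀ : R₀ →+* R₀') (ρ₁ : R₁ →+* R₁') (ρ₀₁ : R₀₁ →+* R₀₁')
    (h₀ : ρ₀₁.comp (algebraMap R₀ R₀₁) = (algebraMap R₀' R₀₁').comp ρ₀)
    (h₁ : ρ₀₁.comp (algebraMap R₁ R₀₁) = (algebraMap R₁' R₀₁').comp ρ₁)
    {I₀ : Ideal R₀} {I₁ : Ideal R₁} {I₀₁ : Ideal R₀₁} (hD : H747.IsCartierTriple I₀ I₁ I₀₁)
    {I₀' : Ideal R₀'} {I₁' : Ideal R₁'} {I₀₁' : Ideal R₀₁'}
    (hD' : H747.IsCartierTriple I₀' I₁' I₀₁')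
    (e₀ : I₀.map ρ₀ = I₀') (e₁ : I₁.map ρ₁ = I₁') :
    GlueDatum.IsBC ρ₀ ρ₁ ρ₀₁ (H747.ofIdeals A hD) (H747.ofIdeals A' hD') := by
  have e₀₁ : I₀₁.map ρ₀₁ = I₀₁' := by
    rw [← hD.map₀, Ideal.map_map, h₀, ← Ideal.map_map, e₀, hD'.map₀]
  exact ofIdeals_isBC ρ₀ ρ₁ ρ₀₁ h₀ h₁ hD hD' e₀ e₁ e₀₁
    (isSemilinearBaseChange_idealMapSL ρ₀ I₀ I₀' e₀ hD.inv₀ hD'.inv₀)
    (isSemilinearBaseChange_idealMapSL ρ₁ I₁ I₁' e₁ hD.inv₁ hD'.inv₁)
    (isSemilinearBaseChange_idealMapSL ρ₀₁ I₀₁ I₀₁' e₀₁ (IsCartierTriple_inv₀₁ hD)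
      (IsCartierTriple_inv₀₁ hD'))

end G4

end

end Fermat.Agent.S25.H927

end
-- ===== PACK-END S25/H927/AbAlgIdeal.lean

-- ===== PACK-BEGIN S25/H11/ACLeaves.lean
section


/-!
# Row S25, block ALGCHARTS: the leaves as `Prop`s (squad-lead helper11) — FROZEN

Each leaf of the skeleton `origin/helper11:coord/S25-ALGCHARTS-skeleton.lean` as a `Prop`.
A leaf owner proves, in his own file, either the skeleton statement verbatim or
`theorem … [IsAlgClosed k] : H11.Leaf.X k B₀ B₁ B₀₁` (the two are the same statement).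
`ACTop.lean` proves `Stmt.AlgCharts` from the leaves (through helper926's
`H926.algCharts_of_atlas`).
-/

set_option autoImplicit false

universe u

open scoped TensorProduct

namespace Fermat.Agent.S25.H11

open Fermat.Agent.S25

namespace Leaf

variable (k : Type u) [Field k] (B₀ B₁ B₀₁ : Type u) [CommRing B₀] [CommRing B₁] [CommRing B₀₁]
  [Algebra k B₀] [Algebra k B₁] [Algebra k B₀₁] [Algebra B₀ B₀₁] [Algebra B₁ B₀₁]
  [IsScalarTower k B₀ B₀₁] [IsScalarTower k B₁ B₀₁]

/-- STAGE 0: the locus `H¹(G(nE₀)) = 0`. -/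
def Stage0 : Prop :=
  ∀ (x : B₀) (y : B₁) (e : B₁ →ₐ[k] k), IsCurveChart k B₀ B₁ B₀₁ x y e →
  ∀ (n : ℕ) (A : Type u) [CommRing A] [Algebra k A] (G : CurveGD k B₀ B₁ B₀₁ A),
    ∃ J : Ideal A, ∀ (A' : Type u) [CommRing A'] [Algebra k A'] (ψ : A →ₐ[k] A')
      (G' : CurveGD k B₀ B₁ B₀₁ A'), CurveGD.IsBC ψ G G' →
        (P0 x n G' ↔ J.map ψ.toRingHom = ⊤)

/-- STAGE 1: given `P0`, the locus where `H⁰(G(nE₀)) → N₀ / I_q N₀` is onto. -/
def Stage1 : Prop :=
  ∀ (x : B₀) (y : B₁) (e : B₁ →ₐ[k] k), IsCurveChart k B₀ B₁ B₀₁ x y e →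
  ∀ (n : ℕ) {m : ℕ} (q : Fin m → (B₀ →ₐ[k] k)) (A : Type u) [CommRing A] [Algebra k A]
    (G : CurveGD k B₀ B₁ B₀₁ A), P0 x n G →
    ∃ J : Ideal A, ∀ (A' : Type u) [CommRing A'] [Algebra k A'] (ψ : A →ₐ[k] A')
      (G' : CurveGD k B₀ B₁ B₀₁ A'), CurveGD.IsBC ψ G G' →
        (P1 x n q G' ↔ J.map ψ.toRingHom = ⊤)

/-- STAGE 2: given `P1`, the locus where `H⁰(G(nE₀ - Σq))` (of rank one) generates
`N₁ / y N₁`; there it is free on a generator. -/
def Stage2 : Prop :=
  ∀ (x : B₀) (y : B₁) (e : B₁ →ₐ[k] k), IsCurveChart k B₀ B₁ B₀₁ x y e →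
  ∀ (i : ChartIndex k B₀), i.Numeric B₀₁ y →
  ∀ (A : Type u) [CommRing A] [Algebra k A] (G : CurveGD k B₀ B₁ B₀₁ A),
    G.Rigidifiable e → G.Deg0 → P1 x i.n i.q G →
    ∃ J : Ideal A, ∀ (A' : Type u) [CommRing A'] [Algebra k A'] (ψ : A →ₐ[k] A')
      (G' : CurveGD k B₀ B₁ B₀₁ A'), CurveGD.IsBC ψ G G' →
        (P2 x y i.n i.q G' ↔ J.map ψ.toRingHom = ⊤)

/-- STAGE 3: given `P2`, the locus where `D' = div s - Σq` lies in the Hilbert chart `β`. -/
def Stage3 : Prop :=
  ∀ (x : B₀) (y : B₁) (e : B₁ →ₐ[k] k), IsCurveChart k B₀ B₁ B₀₁ x y e →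
  ∀ (i : ChartIndex k B₀), i.Numeric B₀₁ y →
  ∀ (A : Type u) [CommRing A] [Algebra k A] (G : CurveGD k B₀ B₁ B₀₁ A),
    G.Rigidifiable e → G.Deg0 → P2 x y i.n i.q G →
    ∃ J : Ideal A, ∀ (A' : Type u) [CommRing A'] [Algebra k A'] (ψ : A →ₐ[k] A')
      (G' : CurveGD k B₀ B₁ B₀₁ A'), CurveGD.IsBC ψ G G' →
        (P3 x y i.n i.q i.β G' ↔ J.map ψ.toRingHom = ⊤)

/-- STAGE 4: given `P3`, the locus where `f` is invertible. -/
def Stage4 : Prop :=
  ∀ (x : B₀) (y : B₁) (e : B₁ →ₐ[k] k), IsCurveChart k B₀ B₁ B₀₁ x y e →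
  ∀ (i : ChartIndex k B₀), i.Numeric B₀₁ y →
  ∀ (A : Type u) [CommRing A] [Algebra k A] (G : CurveGD k B₀ B₁ B₀₁ A),
    G.Rigidifiable e → G.Deg0 → P3 x y i.n i.q i.β G →
    ∃ J : Ideal A, ∀ (A' : Type u) [CommRing A'] [Algebra k A'] (ψ : A →ₐ[k] A')
      (G' : CurveGD k B₀ B₁ B₀₁ A'), CurveGD.IsBC ψ G G' →
        (P4 x y i G' ↔ J.map ψ.toRingHom = ⊤)

/-- PT-BC: the point conditions are compatible with base change, with Hilbert coordinates
`ψ ∘ φ₀`. -/
def PointBC : Prop :=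
  ∀ (x : B₀) (y : B₁) (e : B₁ →ₐ[k] k), IsCurveChart k B₀ B₁ B₀₁ x y e →
  ∀ (i : ChartIndex k B₀), i.Numeric B₀₁ y →
  ∀ (A A' : Type u) [CommRing A] [Algebra k A] [CommRing A'] [Algebra k A']
    (G : CurveGD k B₀ B₁ B₀₁ A) (G' : CurveGD k B₀ B₁ B₀₁ A') (ψ : A →ₐ[k] A'),
    CurveGD.IsBC ψ G G' → G.Rigidifiable e → G.Deg0 →
    ∀ φ₀ : H491.Rβ k i.β →ₐ[k] A, PointCond x y i G φ₀ → PointCond x y i G' (ψ.comp φ₀)

/-- PT-UNIQ: the Hilbert coordinates of a point are unique. -/
def PointUnique : Prop :=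
  ∀ (x : B₀) (y : B₁) (e : B₁ →ₐ[k] k), IsCurveChart k B₀ B₁ B₀₁ x y e →
  ∀ (i : ChartIndex k B₀) (A : Type u) [CommRing A] [Algebra k A]
    (G : CurveGD k B₀ B₁ B₀₁ A) (φ₀ φ₀' : H491.Rβ k i.β →ₐ[k] A),
    PointCond x y i G φ₀ → PointCond x y i G φ₀' → φ₀ = φ₀'

/-- PT-ISO: two gluing data with the same Hilbert coordinates are isomorphic. -/
def PointIso : Prop :=
  ∀ (x : B₀) (y : B₁) (e : B₁ →ₐ[k] k), IsCurveChart k B₀ B₁ B₀₁ x y e →
  ∀ (i : ChartIndex k B₀) (A : Type u) [CommRing A] [Algebra k A]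
    (G G' : CurveGD k B₀ B₁ B₀₁ A) (φ₀ : H491.Rβ k i.β →ₐ[k] A),
    PointCond x y i G φ₀ → PointCond x y i G' φ₀ → G.IsIso G'

/-- COVER: over an algebraically closed field every rigidifiable gluing datum of degree zero
is a point of a good chart. -/
def Cover : Prop :=
  ∀ (x : B₀) (y : B₁) (e : B₁ →ₐ[k] k), IsCurveChart k B₀ B₁ B₀₁ x y e →
  ∀ (K : Type u) [Field K] [Algebra k K] [IsAlgClosed K] (G : CurveGD k B₀ B₁ B₀₁ K),
    G.Rigidifiable e → G.degree = 0 →
    ∃ i : ChartIndex k B₀, i.Numeric B₀₁ y ∧ ∃ D : CurveGD k B₀ B₁ B₀₁ (chartRing i),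
      D.Rigidifiable e ∧ D.Deg0 ∧ PointCond x y i D (chartCan i) ∧
        ∃ φ : chartRing i →ₐ[k] K, CurveGD.IsBC φ D G

end Leaf

end Fermat.Agent.S25.H11

end
-- ===== PACK-END S25/H11/ACLeaves.lean

-- ===== PACK-BEGIN S25/H791/ACStage0.lean
section







/-!
# S25 / ALGCHARTS, leaf ST0 (helper791): the locus `H¹(G(nE₀)) = 0`

`stage0_locus` : exact statement of `coord/S25-ALGCHARTS-skeleton.lean` (squad-lead helper11).
The ideal is the annihilator of the finitely generated `A`-module `H¹(G(nE₀))`.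

Reusable:
* `tcech_eq_d` : the twisted Čech differential of `ACDefs` is `(chartCechOps hC G).d n`;
* `finite_coker_tcech` : `H¹(G(nE₀))` is a finite `A`-module;
* `BCEquivs` / `exists_bcEquivs` : the three `A'`-linear comparison isomorphisms
  `A' ⊗[A] Nᵢ ≃ Nᵢ'` of a base change of gluing data, compatible with `tcech`;
* `p0_iff_baseChange_surjective`, `p0_iff_annihilator_map`, `P0.baseChange`.
-/

set_option autoImplicit false
set_option linter.style.haveILetI false
set_option linter.unusedSectionVars false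

universe u

open scoped TensorProduct

namespace Fermat.Agent.S25.H791

open Fermat.Agent.S25 Fermat.Agent.S25.H11

section Core

variable {k : Type u} [Field k]
  {B₀ B₁ B₀₁ : Type u} [CommRing B₀] [CommRing B₁] [CommRing B₀₁]
  [Algebra k B₀] [Algebra k B₁] [Algebra k B₀₁] [Algebra B₀ B₀₁] [Algebra B₁ B₀₁]
  [IsScalarTower k B₀ B₀₁] [IsScalarTower k B₁ B₀₁]
  {x : B₀} {y : B₁} {e : B₁ →ₐ[k] k}

section Finite

variable {A : Type u} [CommRing A] [Algebra k A]

/-- The twisted Čech differential of `ACDefs` is the twisted differential of the operator-style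
Čech datum of the chart. -/
theorem tcech_eq_d (hC : IsCurveChart k B₀ B₁ B₀₁ x y e) (n : ℕ)
    (G : CurveGD k B₀ B₁ B₀₁ A) : tcech x n G = (H250.chartCechOps hC G).d n := by
  haveI := hC.away₀
  haveI := hC.away₁
  apply LinearMap.ext
  rintro ⟨a, b⟩
  rw [tcech_apply, H10.CechOps.d_apply]
  show G.r₀ a - xElt k B₀₁ A x ^ n • G.r₁ b =
    G.r₀ a - ((H250.toCechOps x y hC.mul_eq_one G).T ^ n) (G.r₁ b)
  rw [H250.toCechOps_T_pow_apply]
  rfl

/-- `H¹(G(nE₀))` is a finitely generated `A`-module. -/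
theorem finite_coker_tcech (hC : IsCurveChart k B₀ B₁ B₀₁ x y e) (n : ℕ)
    (G : CurveGD k B₀ B₁ B₀₁ A) :
    Module.Finite A (G.N₀₁ ⧸ LinearMap.range (tcech x n G)) := by
  have h := H790.H1_finite (H250.chartCechOps hC G)
    (H10.isFG_of_isFGProj (H250.isFGProj_X0 hC G)) n
  have h' : Module.Finite A (G.N₀₁ ⧸ LinearMap.range ((H250.chartCechOps hC G).d n)) := h
  rw [← tcech_eq_d hC n G] at h'
  exact h'

end Finite

section BaseChange

variable {A A' : Type u} [CommRing A] [Algebra k A] [CommRing A'] [Algebra k A'] [Algebra A A']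
  [IsScalarTower k A A']

/-- The `A'`-linear comparison isomorphisms `A' ⊗[A] Nᵢ ≃ Nᵢ'` attached to base change maps
of gluing data. -/
structure BCEquivs (ψ : A →ₐ[k] A') {G : CurveGD k B₀ B₁ B₀₁ A} {G' : CurveGD k B₀ B₁ B₀₁ A'}
    (bc : GlueDatum.BaseChangeMaps (tensorMapLeft k ψ B₀) (tensorMapLeft k ψ B₁)
      (tensorMapLeft k ψ B₀₁) G G') where
  E₀ : A' ⊗[A] G.N₀ ≃ₗ[A'] G'.N₀
  E₁ : A' ⊗[A] G.N₁ ≃ₗ[A'] G'.N₁
  E₀₁ : A' ⊗[A] G.N₀₁ ≃ₗ[A'] G'.N₀₁
  E₀_tmul : ∀ (s : A') (n : G.N₀), E₀ (s ⊗ₜ[A] n) = s • bc.b₀ n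
  E₁_tmul : ∀ (s : A') (n : G.N₁), E₁ (s ⊗ₜ[A] n) = s • bc.b₁ n
  E₀₁_tmul : ∀ (s : A') (n : G.N₀₁), E₀₁ (s ⊗ₜ[A] n) = s • bc.b₀₁ n

/-- The comparison isomorphisms exist. -/
theorem exists_bcEquivs (ψ : A →ₐ[k] A') (hψ : ∀ a, ψ a = algebraMap A A' a)
    {G : CurveGD k B₀ B₁ B₀₁ A} {G' : CurveGD k B₀ B₁ B₀₁ A'}
    (bc : GlueDatum.BaseChangeMaps (tensorMapLeft k ψ B₀) (tensorMapLeft k ψ B₁)
      (tensorMapLeft k ψ B₀₁) G G') : Nonempty (BCEquivs ψ bc) := by
  obtain ⟨E₀, hE₀⟩ :=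
    H550.exists_equiv_of_isSemilinearBaseChange_tensor ψ hψ B₀ bc.b₀ bc.isBaseChange₀
  obtain ⟨E₁, hE₁⟩ :=
    H550.exists_equiv_of_isSemilinearBaseChange_tensor ψ hψ B₁ bc.b₁ bc.isBaseChange₁
  obtain ⟨E₀₁, hE₀₁⟩ :=
    H550.exists_equiv_of_isSemilinearBaseChange_tensor ψ hψ B₀₁ bc.b₀₁ bc.isBaseChange₀₁
  exact ⟨⟨E₀, E₁, E₀₁, hE₀, hE₁, hE₀₁⟩⟩

omit [Algebra A A'] [IsScalarTower k A A'] in
/-- `tensorMapLeft` fixes `1 ⊗ x`. -/
theorem tensorMapLeft_xElt (ψ : A →ₐ[k] A') (x : B₀) :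
    tensorMapLeft k ψ B₀₁ (xElt k B₀₁ A x) = xElt k B₀₁ A' x := by
  simp [tensorMapLeft, xElt]

omit [Algebra A A'] [IsScalarTower k A A'] in
/-- Base change maps commute with the twisted Čech differentials. -/
theorem tcech_bc (ψ : A →ₐ[k] A') {G : CurveGD k B₀ B₁ B₀₁ A} {G' : CurveGD k B₀ B₁ B₀₁ A'}
    (bc : GlueDatum.BaseChangeMaps (tensorMapLeft k ψ B₀) (tensorMapLeft k ψ B₁)
      (tensorMapLeft k ψ B₀₁) G G') (x : B₀) (n : ℕ) (a : G.N₀) (b : G.N₁) :
    tcech x n G' (bc.b₀ a, bc.b₁ b) = bc.b₀₁ (tcech x n G (a, b)) := by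
  rw [tcech_apply, tcech_apply, map_sub, bc.comm₀, bc.b₀₁.map_smulₛₗ, bc.comm₁, map_pow,
    tensorMapLeft_xElt]

namespace BCEquivs

variable {ψ : A →ₐ[k] A'} {G : CurveGD k B₀ B₁ B₀₁ A} {G' : CurveGD k B₀ B₁ B₀₁ A'}
  {bc : GlueDatum.BaseChangeMaps (tensorMapLeft k ψ B₀) (tensorMapLeft k ψ B₁)
      (tensorMapLeft k ψ B₀₁) G G'} (E : BCEquivs ψ bc)

/-- The comparison isomorphism on Čech cochains. -/
noncomputable def prod : A' ⊗[A] (G.N₀ × G.N₁) ≃ₗ[A'] (G'.N₀ × G'.N₁) :=
  (TensorProduct.prodRight A A' A' G.N₀ G.N₁).trans (E.E₀.prodCongr E.E₁)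

theorem prod_tmul (s : A') (p : G.N₀ × G.N₁) :
    E.prod (s ⊗ₜ[A] p) = (s • bc.b₀ p.1, s • bc.b₁ p.2) := by
  obtain ⟨a, b⟩ := p
  rw [prod, LinearEquiv.trans_apply, TensorProduct.prodRight_tmul]
  show (E.E₀ (s ⊗ₜ[A] a), E.E₁ (s ⊗ₜ[A] b)) = _
  rw [E.E₀_tmul, E.E₁_tmul]

/-- The comparison isomorphisms intertwine the twisted Čech differentials. -/
theorem tcech_prod (x : B₀) (n : ℕ) (t : A' ⊗[A] (G.N₀ × G.N₁)) :
    tcech x n G' (E.prod t) = E.E₀₁ ((tcech x n G).baseChange A' t) := by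
  induction t using TensorProduct.induction_on with
  | zero => simp
  | add t u ht hu => simp only [map_add, ht, hu]
  | tmul s p =>
    have hsm : (s • bc.b₀ p.1, s • bc.b₁ p.2) =
        s • ((bc.b₀ p.1, bc.b₁ p.2) : G'.N₀ × G'.N₁) := rfl
    rw [prod_tmul, LinearMap.baseChange_tmul, E.E₀₁_tmul, ← tcech_bc ψ bc x n p.1 p.2,
      hsm, map_smul]

/-- `P0` for the base change is surjectivity of the base-changed differential. -/
theorem p0_iff (E : BCEquivs ψ bc) (x : B₀) (n : ℕ) :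
    P0 x n G' ↔ Function.Surjective ((tcech x n G).baseChange A') := by
  constructor
  · intro h z
    obtain ⟨p, hp⟩ := h (E.E₀₁ z)
    refine ⟨E.prod.symm p, E.E₀₁.injective ?_⟩
    rw [← E.tcech_prod, LinearEquiv.apply_symm_apply, hp]
  · intro h z
    obtain ⟨t, ht⟩ := h (E.E₀₁.symm z)
    refine ⟨E.prod t, ?_⟩
    rw [E.tcech_prod, ht, LinearEquiv.apply_symm_apply]

end BCEquivs

/-- `P0` for a base change `G'` of `G` along `A → A'`, in terms of the annihilator of
`H¹(G(nE₀))`. -/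
theorem p0_iff_annihilator_map (hC : IsCurveChart k B₀ B₁ B₀₁ x y e) (n : ℕ)
    (ψ : A →ₐ[k] A') (hψ : ∀ a, ψ a = algebraMap A A' a)
    {G : CurveGD k B₀ B₁ B₀₁ A} {G' : CurveGD k B₀ B₁ B₀₁ A'} (h : CurveGD.IsBC ψ G G') :
    P0 x n G' ↔
      (Module.annihilator A (G.N₀₁ ⧸ LinearMap.range (tcech x n G))).map
        (algebraMap A A') = ⊤ := by
  obtain ⟨bc⟩ := h
  obtain ⟨E⟩ := exists_bcEquivs ψ hψ bc
  haveI := finite_coker_tcech hC n G
  rw [E.p0_iff x n, baseChange_surjective_iff_subsingleton, subsingleton_tensorProduct_iff]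

/-- `P0` is stable under base change. -/
theorem p0_baseChange (n : ℕ)
    (ψ : A →ₐ[k] A') (hψ : ∀ a, ψ a = algebraMap A A' a)
    {G : CurveGD k B₀ B₁ B₀₁ A} {G' : CurveGD k B₀ B₁ B₀₁ A'} (h : CurveGD.IsBC ψ G G')
    (h0 : P0 x n G) : P0 x n G' := by
  obtain ⟨bc⟩ := h
  obtain ⟨E⟩ := exists_bcEquivs ψ hψ bc
  rw [E.p0_iff x n]
  exact LinearMap.lTensor_surjective A' h0

end BaseChange

end Core

section Main

variable {k : Type u} [Field k] [IsAlgClosed k]
  {B₀ B₁ B₀₁ : Type u} [CommRing B₀] [CommRing B₁] [CommRing B₀₁]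
  [Algebra k B₀] [Algebra k B₁] [Algebra k B₀₁] [Algebra B₀ B₀₁] [Algebra B₁ B₀₁]
  [IsScalarTower k B₀ B₀₁] [IsScalarTower k B₁ B₀₁]
  {x : B₀} {y : B₁} {e : B₁ →ₐ[k] k}
  {A : Type u} [CommRing A] [Algebra k A]

/-- **STAGE 0** (exact skeleton statement): the locus `H¹(G(nE₀)) = 0`. -/
theorem stage0_locus (hC : IsCurveChart k B₀ B₁ B₀₁ x y e) (n : ℕ)
    (G : CurveGD k B₀ B₁ B₀₁ A) :
    ∃ J : Ideal A, ∀ (A' : Type u) [CommRing A'] [Algebra k A'] (ψ : A →ₐ[k] A')
      (G' : CurveGD k B₀ B₁ B₀₁ A'), CurveGD.IsBC ψ G G' →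
        (P0 x n G' ↔ J.map ψ.toRingHom = ⊤) := by
  refine ⟨Module.annihilator A (G.N₀₁ ⧸ LinearMap.range (tcech x n G)), ?_⟩
  intro A' _ _ ψ G' h
  letI : Algebra A A' := ψ.toRingHom.toAlgebra
  haveI : IsScalarTower k A A' := IsScalarTower.of_algebraMap_eq' (by
    ext c
    exact (ψ.commutes c).symm)
  exact p0_iff_annihilator_map hC n ψ (fun _ => rfl) h

end Main

end Fermat.Agent.S25.H791

end
-- ===== PACK-END S25/H791/ACStage0.lean

-- ===== PACK-BEGIN S36/Mod3/H276/CuspVal.lean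
section



/-!
# S36 / MOD3, cell REG (R-I) and INC (`cusp_single`): valuations at the cusps (helper276)

Abstract part (Mathlib + `S15.H962.NewtonVal`).  `Φ ∈ ℤ[X][Y]` of modular shape of level `q ≥ 2`
(`S15.H962.IsModularShape`), `a, b, c` in a field `K` with `Φ(a, b) = 0 = Φ(b, c)` (think of
`a = j`, `b = j_q`, `c = j_{q²}`), `v` a valuation of `K` with `1 < v a` (a "cusp").  The Newton
polygon (`S15.H962.val_root_of_isModularShape`) leaves the four patterns

    (v a, v b, v c) = (A, A^q, A^{q²}), (A, A^q, A), (B^q, B, B^q), (C^{q²}, C^q, C)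

and in all of them

* `val_pair`    : `1 < v b`, `v b ≤ v a ^ q`, `v a ≤ v b ^ q`;
* `val_triple`  : `v b ≤ v a ^ (q - 1) * v c`;
* `tcusp_mem`   : `(c - a) * b * (a ^ q * c)⁻¹ ∈ V` for every valuation subring `V` with
                  `a⁻¹ ∈ V` (the local parameter of the middle component at its cusps).
-/

set_option autoImplicit false

namespace Fermat.Agent.S36.Mod3.H276

open Polynomial
open Fermat.Agent.S15.H962 (IsModularShape eval2 val_root_of_isModularShape)

section Val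

variable {K : Type*} [Field K] {Γ₀ : Type*} [LinearOrderedCommGroupWithZero Γ₀]
  (v : Valuation K Γ₀)

/-- The two bounds which hold in both Newton patterns. -/
theorem val_pair {q : ℕ} (hq : 0 < q) {Φ : ℤ[X][X]} (hΦ : IsModularShape q Φ) {a b : K}
    (ha : 1 < v a) (h : eval2 Φ a b = 0) :
    1 < v b ∧ v b ≤ v a ^ q ∧ v a ≤ v b ^ q := by
  have hq0 : q ≠ 0 := hq.ne'
  rcases val_root_of_isModularShape v hq hΦ ha h with h1 | h1
  · refine ⟨?_, h1.le, ?_⟩
    · rw [h1]
      exact one_lt_pow₀ ha hq0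
    · rw [h1, ← pow_mul]
      exact le_self_pow₀ ha.le (Nat.mul_ne_zero hq0 hq0)
  · have hb : 1 < v b := by
      by_contra hcon
      rw [not_lt] at hcon
      have : v b ^ q ≤ 1 := pow_le_one₀ zero_le hcon
      rw [h1] at this
      exact absurd ha (not_lt.mpr this)
    refine ⟨hb, ?_, h1.ge⟩
    calc v b ≤ v b ^ q := le_self_pow₀ hb.le hq0
      _ = v a := h1
      _ ≤ v a ^ q := le_self_pow₀ ha.le hq0

/-- The bound along the chain `a — b — c`. -/
theorem val_triple {q : ℕ} (hq : 2 ≤ q) {Φ : ℤ[X][X]} (hΦ : IsModularShape q Φ) {a b c : K}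
    (ha : 1 < v a) (hab : eval2 Φ a b = 0) (hbc : eval2 Φ b c = 0) :
    v b ≤ v a ^ (q - 1) * v c := by
  have hq0 : 0 < q := by omega
  have hq0' : q ≠ 0 := hq0.ne'
  obtain ⟨hb, -, -⟩ := val_pair v hq0 hΦ ha hab
  obtain ⟨hc, -, -⟩ := val_pair v hq0 hΦ hb hbc
  have hA1 : 1 ≤ v a ^ (q - 1) := one_le_pow₀ ha.le
  rcases val_root_of_isModularShape v hq0 hΦ hb hbc with h2 | h2
  · -- `v c = v b ^ q`
    calc v b ≤ v b ^ q := le_self_pow₀ hb.le hq0'
      _ = v c := h2.symm
      _ = 1 * v c := (one_mul _).symm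
      _ ≤ v a ^ (q - 1) * v c := by gcongr
  · rcases val_root_of_isModularShape v hq0 hΦ ha hab with h1 | h1
    · -- `v b = v a ^ q`, `v c ^ q = v b`: `v c = v a`
      have hca : v c = v a := by
        have h3 : v c ^ q = v a ^ q := by rw [h2, h1]
        rcases lt_trichotomy (v c) (v a) with hlt | heq | hgt
        · exact absurd h3 (pow_lt_pow_left₀ hlt zero_le hq0').ne
        · exact heq
        · exact absurd h3 (pow_lt_pow_left₀ hgt zero_le hq0').ne'
      rw [hca, h1]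
      have : v a ^ (q - 1) * v a = v a ^ q := by
        rw [← pow_succ]
        congr 1
        omega
      rw [this]
    · -- `v b ^ q = v a`, `v c ^ q = v b`
      calc v b ≤ v b ^ q := le_self_pow₀ hb.le hq0'
        _ = v a := h1
        _ ≤ v a ^ (q - 1) := le_self_pow₀ ha.le (by omega)
        _ = v a ^ (q - 1) * 1 := (mul_one _).symm
        _ ≤ v a ^ (q - 1) * v c := by gcongr

end Val

/-! ## Valuation subrings -/

section ValSub

variable {K : Type*} [Field K]

/-- The two evaluation conventions agree. -/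
theorem eval2_eq_aeval (Φ : ℤ[X][X]) (a b : K) :
    eval2 Φ a b = Φ.eval₂ (Polynomial.aeval (R := ℤ) a).toRingHom b := by
  have e : Polynomial.eval₂RingHom (Int.castRingHom K) a =
      (Polynomial.aeval (R := ℤ) a).toRingHom := by
    apply Polynomial.ringHom_ext
    · intro n
      simp
    · simp
  unfold eval2
  rw [e]

/-- `Φ(a, b) = 0`, `Φ` monic in the outer variable, `a ∈ V` ⟹ `b ∈ V`. -/
theorem mem_of_eval2 {Φ : ℤ[X][X]} (hΦ : Φ.Monic) {a b : K} (h : eval2 Φ a b = 0)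
    (V : ValuationSubring K) (ha : a ∈ V) : b ∈ V :=
  H189.mem_valuationSubring_of_monic Φ hΦ (by rw [← eval2_eq_aeval]; exact h) V ha

theorem one_lt_val_iff (V : ValuationSubring K) {a : K} : 1 < V.valuation a ↔ a ∉ V := by
  rw [← V.valuation_le_one_iff, not_le]

/-- `v x ≤ v y`, `y ≠ 0` ⟹ `x / y ∈ V`. -/
theorem mul_inv_mem_of_val_le (V : ValuationSubring K) {x y : K} (hy : y ≠ 0)
    (h : V.valuation x ≤ V.valuation y) : x * y⁻¹ ∈ V := by
  rw [← V.valuation_le_one_iff, map_mul, map_inv₀]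
  have hy0 : V.valuation y ≠ 0 := (Valuation.ne_zero_iff _).mpr hy
  calc V.valuation x * (V.valuation y)⁻¹ ≤ V.valuation y * (V.valuation y)⁻¹ := by gcongr
    _ = 1 := mul_inv_cancel₀ hy0

/-- `v x < v y` ⟹ `x / y ∈ 𝔪_V`. -/
theorem mul_inv_mem_nonunits_of_val_lt (V : ValuationSubring K) {x y : K}
    (h : V.valuation x < V.valuation y) : x * y⁻¹ ∈ V.nonunits := by
  have hy0 : V.valuation y ≠ 0 := fun h0 => by
    rw [h0] at h
    exact not_lt_zero h
  rw [V.mem_nonunits_iff, map_mul, map_inv₀]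
  have hpos : 0 < (V.valuation y)⁻¹ := by
    rw [zero_lt_iff]
    exact inv_ne_zero hy0
  calc V.valuation x * (V.valuation y)⁻¹ < V.valuation y * (V.valuation y)⁻¹ :=
        mul_lt_mul_of_pos_right h hpos
    _ = 1 := mul_inv_cancel₀ hy0

theorem ne_zero_of_not_mem (V : ValuationSubring K) {a : K} (ha : a ∉ V) : a ≠ 0 :=
  fun h => ha (h ▸ V.zero_mem)

variable {q : ℕ} {Φ : ℤ[X][X]}

/-- `b / a ^ q ∈ V` as soon as `a⁻¹, b⁻¹ ∈ V`  (`j_q / j ^ q` lies in the chart at infinity). -/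
theorem pair_mem (hq : 0 < q) (hΦ : IsModularShape q Φ) {a b : K}
    (hab : eval2 Φ a b = 0) (V : ValuationSubring K) (hu : a⁻¹ ∈ V) :
    b * (a ^ q)⁻¹ ∈ V := by
  by_cases ha : a ∈ V
  · have hb : b ∈ V := mem_of_eval2 hΦ.monic hab V ha
    rw [← inv_pow]
    exact V.mul_mem _ _ hb (V.pow_mem hu q)
  · have ha0 := ne_zero_of_not_mem V ha
    have ha1 := (one_lt_val_iff V).mpr ha
    obtain ⟨-, h2, -⟩ := val_pair V.valuation hq hΦ ha1 hab
    refine mul_inv_mem_of_val_le V (pow_ne_zero q ha0) ?_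
    rw [map_pow]
    exact h2

/-- `a / b ^ q ∈ V` as soon as `a⁻¹, b⁻¹ ∈ V`  (`j / j_q ^ q` lies in the chart at infinity). -/
theorem pair_mem' (hq : 0 < q) (hΦ : IsModularShape q Φ) {a b : K}
    (hab : eval2 Φ a b = 0) (V : ValuationSubring K) (hs : b⁻¹ ∈ V) :
    a * (b ^ q)⁻¹ ∈ V := by
  by_cases ha : a ∈ V
  · rw [← inv_pow]
    exact V.mul_mem _ _ ha (V.pow_mem hs q)
  · have ha1 := (one_lt_val_iff V).mpr ha
    obtain ⟨hb1, -, h3⟩ := val_pair V.valuation hq hΦ ha1 hab
    have hb0 : b ≠ 0 := ne_zero_of_not_mem V ((one_lt_val_iff V).mp hb1)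
    refine mul_inv_mem_of_val_le V (pow_ne_zero q hb0) ?_
    rw [map_pow]
    exact h3

/-- **The local parameter at the cusps of the middle component lies in the chart at infinity.** -/
theorem tcusp_mem (hq : 2 ≤ q) (hΦ : IsModularShape q Φ) {a b c : K}
    (hab : eval2 Φ a b = 0) (hbc : eval2 Φ b c = 0) (V : ValuationSubring K)
    (hu : a⁻¹ ∈ V) (hr : c⁻¹ ∈ V) :
    (c - a) * b * (a ^ q * c)⁻¹ ∈ V := by
  have hq0 : 0 < q := by omega
  by_cases ha : a ∈ V
  · have hb : b ∈ V := mem_of_eval2 hΦ.monic hab V ha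
    have hc : c ∈ V := mem_of_eval2 hΦ.monic hbc V hb
    rw [mul_inv, ← inv_pow]
    exact V.mul_mem _ _ (V.mul_mem _ _ (sub_mem hc ha) hb)
      (V.mul_mem _ _ (V.pow_mem hu q) hr)
  · have ha0 := ne_zero_of_not_mem V ha
    have ha1 := (one_lt_val_iff V).mpr ha
    obtain ⟨hb1, h2, -⟩ := val_pair V.valuation hq0 hΦ ha1 hab
    obtain ⟨hc1, -, -⟩ := val_pair V.valuation hq0 hΦ hb1 hbc
    have hc0 : c ≠ 0 := ne_zero_of_not_mem V ((one_lt_val_iff V).mp hc1)
    have h3 := val_triple V.valuation hq hΦ ha1 hab hbc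
    have e : (c - a) * b * (a ^ q * c)⁻¹ = b * (a ^ q)⁻¹ - b * (a ^ (q - 1) * c)⁻¹ := by
      have hqq : a ^ q = a ^ (q - 1) * a := by
        rw [← pow_succ]
        congr 1
        omega
      rw [hqq]
      field_simp
    rw [e]
    refine sub_mem ?_ ?_
    · refine mul_inv_mem_of_val_le V (pow_ne_zero q ha0) ?_
      rw [map_pow]
      exact h2
    · refine mul_inv_mem_of_val_le V (mul_ne_zero (pow_ne_zero _ ha0) hc0) ?_
      rw [map_mul, map_pow]
      exact h3

/-- At a cusp (`(a b c)⁻¹ ∈ 𝔪_V`) the three inverses are non-units. -/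
theorem inv_mem_nonunits_of_cusp (hq : 0 < q) (hΦ : IsModularShape q Φ) {a b c : K}
    (hab : eval2 Φ a b = 0) (hbc : eval2 Φ b c = 0) (habc : a * b * c ≠ 0)
    (V : ValuationSubring K) (hx : (a * b * c)⁻¹ ∈ V.nonunits) :
    a⁻¹ ∈ V.nonunits ∧ b⁻¹ ∈ V.nonunits ∧ c⁻¹ ∈ V.nonunits := by
  have ha : a ∉ V := by
    intro ha
    have hb : b ∈ V := mem_of_eval2 hΦ.monic hab V ha
    have hc : c ∈ V := mem_of_eval2 hΦ.monic hbc V hb
    have h1 : V.valuation (a * b * c) ≤ 1 :=
      (V.valuation_le_one_iff _).mpr (V.mul_mem _ _ (V.mul_mem _ _ ha hb) hc)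
    rw [V.mem_nonunits_iff, map_inv₀] at hx
    have h0 : V.valuation (a * b * c) ≠ 0 := (Valuation.ne_zero_iff _).mpr habc
    have h2 : 1 ≤ (V.valuation (a * b * c))⁻¹ := (one_le_inv₀ (zero_lt_iff.mpr h0)).mpr h1
    exact absurd hx (not_lt.mpr h2)
  have ha1 := (one_lt_val_iff V).mpr ha
  obtain ⟨hb1, -, -⟩ := val_pair V.valuation hq hΦ ha1 hab
  obtain ⟨hc1, -, -⟩ := val_pair V.valuation hq hΦ hb1 hbc
  have key : ∀ {y : K}, 1 < V.valuation y → y⁻¹ ∈ V.nonunits := by
    intro y hy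
    rw [V.mem_nonunits_iff, map_inv₀]
    exact inv_lt_one_of_one_lt₀ hy
  exact ⟨key ha1, key hb1, key hc1⟩

end ValSub

/-! ## A valuation ring dominating a closed point -/

section Dominate

variable {R : Type*} [CommRing R] {K : Type*} [Field K] [Algebra R K]

/-- Every closed point `𝔪` of a subalgebra `B` of a field is dominated by a valuation ring:
`B ⊆ V` and `𝔪 = B ∩ 𝔪_V`. -/
theorem exists_dominating (B : Subalgebra R K) (𝔪 : Ideal B) (h𝔪 : 𝔪.IsMaximal) :
    ∃ V : ValuationSubring K, (∀ b : B, (b : K) ∈ V) ∧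
      ∀ b : B, b ∈ 𝔪 ↔ (b : K) ∈ V.nonunits := by
  classical
  let A : Subring K := B.toSubring
  let φ : A →+* B := (A.subtype).codRestrict B (fun x => x.2)
  have hI : 𝔪.comap φ ≠ ⊤ := by
    intro h
    have h1 : (1 : A) ∈ 𝔪.comap φ := by rw [h]; trivial
    rw [Ideal.mem_comap, map_one] at h1
    exact h𝔪.ne_top ((Ideal.eq_top_iff_one _).mpr h1)
  obtain ⟨V, hAV, hsub⟩ := Ideal.image_subset_nonunits_valuationSubring (𝔪.comap φ) hI
  have hBV : ∀ b : B, (b : K) ∈ V := fun b => hAV b.2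
  have hfwd : ∀ b : B, b ∈ 𝔪 → (b : K) ∈ V.nonunits := by
    intro b hb
    apply hsub
    refine ⟨⟨b.1, b.2⟩, ?_, rfl⟩
    show φ ⟨b.1, b.2⟩ ∈ 𝔪
    have : φ ⟨b.1, b.2⟩ = b := Subtype.ext rfl
    rw [this]
    exact hb
  refine ⟨V, hBV, fun b => ⟨hfwd b, fun hb => ?_⟩⟩
  by_contra hbm
  obtain ⟨c, i, hi, hc⟩ := h𝔪.exists_inv hbm
  -- `1 - c * b ∈ 𝔪`
  have h1 : ((1 - c * b : B) : K) ∈ V.nonunits := by
    apply hfwd
    have : 1 - c * b = i := by rw [← hc]; ring
    rw [this]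
    exact hi
  have h2 : ((c * b : B) : K) ∈ V.nonunits := by
    rw [V.mem_nonunits_iff] at hb ⊢
    push_cast
    rw [map_mul]
    have hcV : V.valuation (c : K) ≤ 1 := (V.valuation_le_one_iff _).mpr (hBV c)
    calc V.valuation (c : K) * V.valuation (b : K) ≤ 1 * V.valuation (b : K) := by gcongr
      _ = V.valuation (b : K) := one_mul _
      _ < 1 := hb
  rw [V.mem_nonunits_iff] at h1 h2
  have h3 : V.valuation (1 : K) < 1 := by
    have e : (1 : K) = ((1 - c * b : B) : K) + ((c * b : B) : K) := by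
      push_cast
      ring
    rw [e]
    exact lt_of_le_of_lt (V.valuation.map_add _ _) (max_lt h1 h2)
  rw [map_one] at h3
  exact lt_irrefl _ h3

end Dominate

end Fermat.Agent.S36.Mod3.H276

end
-- ===== PACK-END S36/Mod3/H276/CuspVal.lean

-- ===== PACK-BEGIN S28/H739/Integrality.lean
section
/-
S28 helper (helper739): piece [L], integrality.  From the modular polynomials `Φ_p` at the
primes `p ∣ N`, every `j(q^d)`, `d ∣ N`, is integral over `ℤ[j]` (the `integral` field of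
`CoreData`).
-/





set_option autoImplicit false

noncomputable section

open ModularCurve HahnSeries Polynomial

namespace Fermat.Agent.S28.H739

/-- Transitivity of integrality in the form we need: if `y` is integral over `R` (along `f`) and
`x` is a root of a monic polynomial whose coefficients are `ℤ`-polynomials in `y`, then `x` is
integral over `R`. -/
theorem isIntegralElem_of_eval₂ {R S : Type*} [CommRing R] [CommRing S] (f : R →+* S) {y x : S}
    (hy : f.IsIntegralElem y) (g : Polynomial ℤ →+* S) (hg : g Polynomial.X = y)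
    (Φ : Polynomial (Polynomial ℤ)) (hΦ : Φ.Monic) (h : Φ.eval₂ g x = 0) :
    f.IsIntegralElem x := by
  let _ : Algebra R S := f.toAlgebra
  have hy' : IsIntegral R y := hy
  have hT : Algebra.IsIntegral R (Algebra.adjoin R ({y} : Set S)) :=
    Algebra.IsIntegral.adjoin (fun z hz => by
      rw [Set.mem_singleton_iff] at hz
      rw [hz]
      exact hy')
  let g' : Polynomial ℤ →+* Algebra.adjoin R ({y} : Set S) :=
    Polynomial.eval₂RingHom (Int.castRingHom _) ⟨y, Algebra.subset_adjoin rfl⟩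
  have hg' : (algebraMap (Algebra.adjoin R ({y} : Set S)) S).comp g' = g := by
    refine Polynomial.ringHom_ext' (Subsingleton.elim _ _) ?_
    simp [g', hg]
  have hx : IsIntegral (Algebra.adjoin R ({y} : Set S)) x :=
    ⟨Φ.map g', hΦ.map _, by rw [Polynomial.eval₂_map, hg']; exact h⟩
  exact isIntegral_trans x hx

/-- `Φ_p(j(q^e), j(q^{ep})) = 0` in `ℤ((q))`. -/
theorem modPoly_eval_level {p : ℕ} [NeZero p] (Φ : ModPolyData p) (e : ℕ) [NeZero e]
    [NeZero (e * p)] :
    Φ.Φ.eval₂ (evalAt (qExpand ℤ e (jqModC ℤ))) (qExpand ℤ (e * p) (jqModC ℤ)) = 0 := by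
  have h := congrArg (qExpand ℤ e) Φ.eval_jp
  rwa [Polynomial.hom_eval₂, H145.qExpand_comp_evalAt, qExpand_qExpand, map_zero] at h

/-- **Integrality.** -/
theorem exists_monic_of_modPolyData (N : ℕ)
    (hΦ : ∀ (p : ℕ) [NeZero p], p.Prime → p ∣ N → Nonempty (ModPolyData p)) :
    ∀ (d : ℕ) [NeZero d], d ∣ N →
      ∃ P : Polynomial (Polynomial ℤ), P.Monic ∧
        P.eval₂ (evalAt (jqModC ℤ)) (qExpand ℤ d (jqModC ℤ)) = 0 := by
  intro d
  induction d using Nat.strong_induction_on with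
  | _ d ih =>
    intro inst hd
    by_cases hd1 : d = 1
    · subst hd1
      refine ⟨Polynomial.X - Polynomial.C Polynomial.X, Polynomial.monic_X_sub_C _, ?_⟩
      rw [qExpand_one_apply]
      simp [evalAt]
    obtain ⟨p, hp, hpd⟩ := Nat.exists_prime_and_dvd hd1
    obtain ⟨e, he⟩ := hpd
    have hde : d = e * p := by rw [he, mul_comm]
    subst hde
    have he0 : e ≠ 0 := by
      rintro rfl
      exact (NeZero.ne (0 * p)) (zero_mul p)
    have inste : NeZero e := ⟨he0⟩
    have instp : NeZero p := ⟨hp.ne_zero⟩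
    have hlt : e < e * p := by
      have := hp.one_lt
      have := Nat.pos_of_ne_zero he0
      nlinarith
    have heN : e ∣ N := (Dvd.intro p rfl).trans hd
    have hpN : p ∣ N := (Dvd.intro_left e rfl).trans hd
    obtain ⟨Φ⟩ := hΦ p hp hpN
    have IH : (evalAt (jqModC ℤ)).IsIntegralElem (qExpand ℤ e (jqModC ℤ)) := ih e hlt heN
    exact isIntegralElem_of_eval₂ (evalAt (jqModC ℤ)) IH (evalAt (qExpand ℤ e (jqModC ℤ)))
      (by simp [evalAt]) Φ.Φ Φ.monic (modPoly_eval_level Φ e)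

end Fermat.Agent.S28.H739

end

end
-- ===== PACK-END S28/H739/Integrality.lean

-- ===== PACK-BEGIN S41/H105/TransferAlongComp.lean
section



/-!
# `transferAlong f (φ ∘ f) = [G : f(H)] • φ` (helper105, row S41, block HK, leaf TR)
-/

set_option autoImplicit false

namespace Fermat.Agent.S41.H105

open Fermat.Agent.S41.Spec

/-- The transfer along an injective `f : H →* G` with range of finite index of `φ ∘ f` is
`[G : f(H)] • φ`. -/
theorem transferAlong_comp {H G : Type*} [Group H] [Group G] {A : Type*} [AddCommGroup A]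
    (f : H →* G) (hf : Function.Injective f) (hfi : f.range.FiniteIndex)
    (φ : Additive G →+ A) :
    transferAlong f (φ.comp (MonoidHom.toAdditive f)) = f.range.index • φ := by
  classical
  have h : Function.Injective f ∧ f.range.FiniteIndex := ⟨hf, hfi⟩
  unfold transferAlong
  rw [dif_pos h]
  have hcomp : (AddMonoidHom.toMultiplicativeRight (φ.comp (MonoidHom.toAdditive f))).comp
      (MonoidHom.ofInjective h.1).symm.toMonoidHom
      = (AddMonoidHom.toMultiplicativeRight φ).comp f.range.subtype := by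
    ext x
    obtain ⟨y, hy⟩ := x.2
    have hx : x = MonoidHom.ofInjective h.1 y := Subtype.ext hy.symm
    rw [hx]
    simp [AddMonoidHom.coe_toMultiplicativeRight, MonoidHom.ofInjective_apply]
  refine DFunLike.ext _ _ fun g => ?_
  rw [hcomp]
  rw [MonoidHom.coe_toAdditiveLeft, Function.comp_apply, Function.comp_apply,
    transfer_comp_subtype]
  simp [AddMonoidHom.coe_toMultiplicativeRight]

end Fermat.Agent.S41.H105

end
-- ===== PACK-END S41/H105/TransferAlongComp.lean

-- ===== PACK-BEGIN S59/H240/Node/NormalForm.lean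
section





/-!
# S59 / CR-I (helper240): existence of the nodal normal form

`K` algebraically closed with a valuation `v`, `2 ≠ 0`; `W` a Weierstrass curve with integral
coefficients, `v c₄ = 1`, `Δ ≠ 0`, and an integral point `(x₀, y₀)` of `W` whose reduction is
singular (`v gX < 1`, `v gY < 1`).  Then there is an integral change of variables `C`
(`v u = 1`, `r s t` integral) with `C • W = nodeCurve a`, `0 < v a < 1`.

Construction: `r = e` a root of the 2-division polynomial with `e ≡ x₀`, `t = -(a₁ e + a₃)/2`,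
`s` a root of `s² + a₁ s - (a₂ + 3 e)`, `u = a₁ + 2 s`.
-/

set_option autoImplicit false
set_option linter.unusedSectionVars false
set_option linter.unusedVariables false

namespace Fermat.Agent.S59.H240

open WeierstrassCurve WeierstrassCurve.Affine
open Fermat.Agent.S05.SameRed (IntegralCoeffs)

variable {K : Type*} [Field K] {Γ₀ : Type*} [LinearOrderedCommGroupWithZero Γ₀]
  {v : Valuation K Γ₀}

section identities

variable (W : WeierstrassCurve K) (x y : K)

lemma gY_sq {x y : K} (h : W.toAffine.Equation x y) :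
    gY W x y ^ 2 = 4 * x ^ 3 + W.b₂ * x ^ 2 + 2 * W.b₄ * x + W.b₆ := by
  rw [Affine.equation_iff] at h
  simp only [gY, WeierstrassCurve.b₂, WeierstrassCurve.b₄, WeierstrassCurve.b₆]
  linear_combination 4 * h

lemma twoDiv_deriv :
    12 * x ^ 2 + 2 * W.b₂ * x + 2 * W.b₄ = 2 * W.a₁ * gY W x y - 4 * gX W x y := by
  simp only [gX, gY, WeierstrassCurve.b₂, WeierstrassCurve.b₄]
  ring

lemma c₄_shift : (W.b₂ + 12 * x) ^ 2 = W.c₄ + 12 * (12 * x ^ 2 + 2 * W.b₂ * x + 2 * W.b₄) := by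
  simp only [WeierstrassCurve.c₄]
  ring

end identities

lemma val_eq_one_of_sq {g : Γ₀} (h : g * g = 1) : g = 1 := by
  rcases lt_trichotomy g 1 with hlt | heq | hgt
  · exfalso
    have : g * g < 1 := by
      calc g * g ≤ g * 1 := mul_le_mul' le_rfl hlt.le
        _ = g := mul_one _
        _ < 1 := hlt
    exact absurd h this.ne
  · exact heq
  · exfalso
    have : 1 < g * g := by
      calc (1 : Γ₀) < g := hgt
        _ = g * 1 := (mul_one _).symm
        _ ≤ g * g := mul_le_mul' le_rfl hgt.le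
    exact absurd h this.ne'

lemma vnatmul_le {n : ℕ} {a : K} {g : Γ₀} (ha : v a ≤ g) : v ((n : K) * a) ≤ g :=
  (vmul_le_of_le_one_left (vnat_le_one n)).trans ha

lemma vnatmul_lt {n : ℕ} {a : K} {g : Γ₀} (ha : v a < g) : v ((n : K) * a) < g :=
  lt_of_le_of_lt (vmul_le_of_le_one_left (vnat_le_one n)) ha

lemma vmul_le_one {a b : K} (ha : v a ≤ 1) (hb : v b ≤ 1) : v (a * b) ≤ 1 := by
  rw [map_mul]; exact mul_le_one' ha hb

lemma vpow_le_one {a : K} (ha : v a ≤ 1) (n : ℕ) : v (a ^ n) ≤ 1 := by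
  rw [map_pow]; exact pow_le_one₀ zero_le ha

lemma vmul_lt_one_left {a b : K} (ha : v a < 1) (hb : v b ≤ 1) : v (a * b) < 1 := by
  rw [map_mul]
  exact lt_of_le_of_lt (mul_le_of_le_one_right' hb) ha

lemma vmul_lt_one_right {a b : K} (ha : v a ≤ 1) (hb : v b < 1) : v (a * b) < 1 := by
  rw [map_mul]
  exact lt_of_le_of_lt (mul_le_of_le_one_left' ha) hb

/-- **Existence of the nodal normal form.** -/
theorem exists_nodeForm [IsAlgClosed K] (h2 : (2 : K) ≠ 0) {W : WeierstrassCurve K}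
    (hW : IntegralCoeffs W.toAffine v) (hc₄ : v W.c₄ = 1) (hΔ : W.Δ ≠ 0)
    {x₀ y₀ : K} (h₀ : W.toAffine.Equation x₀ y₀) (hx₀ : v x₀ ≤ 1) (hy₀ : v y₀ ≤ 1)
    (hG₀ : v (gX W x₀ y₀) < 1) (hH₀ : v (gY W x₀ y₀) < 1) :
    ∃ (C : VariableChange K) (a : K), v (C.u : K) = 1 ∧ v C.r ≤ 1 ∧ v C.s ≤ 1 ∧ v C.t ≤ 1 ∧
      a ≠ 0 ∧ v a < 1 ∧ C • W = nodeCurve a := by
  have h4 : (4 : K) ≠ 0 := by
    have : (4 : K) = 2 * 2 := by norm_num
    rw [this]; exact mul_ne_zero h2 h2
  have ha₁ := hW.a₁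
  have ha₂ := hW.a₂
  have ha₃ := hW.a₃
  have ha₄ := hW.a₄
  have ha₆ := hW.a₆
  have hv2 : v (2 : K) ≤ 1 := vtwo_le_one
  have hv3 : v (3 : K) ≤ 1 := vthree_le_one
  have hv4 : v (4 : K) ≤ 1 := by simpa using vnat_le_one (v := v) 4
  have hv12 : v (12 : K) ≤ 1 := by simpa using vnat_le_one (v := v) 12
  have hv48 : v (48 : K) ≤ 1 := by simpa using vnat_le_one (v := v) 48
  -- Step A: the root `e` of the 2-division polynomial
  obtain ⟨B₂, hB₂⟩ : ∃ B₂ : K, B₂ = W.b₂ + 12 * x₀ := ⟨_, rfl⟩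
  obtain ⟨B₄, hB₄⟩ : ∃ B₄ : K, B₄ = 12 * x₀ ^ 2 + 2 * W.b₂ * x₀ + 2 * W.b₄ := ⟨_, rfl⟩
  obtain ⟨B₆, hB₆⟩ : ∃ B₆ : K, B₆ = 4 * x₀ ^ 3 + W.b₂ * x₀ ^ 2 + 2 * W.b₄ * x₀ + W.b₆ := ⟨_, rfl⟩
  have hB₆v : v B₆ < 1 := by
    rw [hB₆, ← gY_sq W h₀, map_pow]
    exact pow_lt_one₀ zero_le hH₀ (by norm_num)
  have hB₄v : v B₄ < 1 := by
    rw [hB₄, twoDiv_deriv W x₀ y₀]
    refine vsub_lt ?_ ?_
    · rw [mul_assoc]
      exact vmul_lt_one_right hv2 (vmul_lt_one_right ha₁ hH₀)
    · exact vmul_lt_one_right hv4 hG₀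
  have hB₂v : v B₂ = 1 := by
    have e := c₄_shift W x₀
    rw [← hB₂, ← hB₄] at e
    have h1 : v (B₂ ^ 2) = 1 := by
      rw [e, vadd_eq_left, hc₄]
      rw [hc₄]
      exact vmul_lt_one_right hv12 hB₄v
    rw [map_pow, pow_two] at h1
    exact val_eq_one_of_sq h1
  obtain ⟨ε, hε, hεv⟩ := exists_small_root h4 hB₂v hB₄v hB₆v
  obtain ⟨e, he⟩ : ∃ e : K, e = x₀ + ε := ⟨_, rfl⟩
  have hev : v e ≤ 1 := by rw [he]; exact vadd_le hx₀ hεv.le
  have hFe : 4 * e ^ 3 + W.b₂ * e ^ 2 + 2 * W.b₄ * e + W.b₆ = 0 := by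
    rw [he, ← hε, hB₂, hB₄, hB₆]; ring
  -- Step B: the 2-torsion point `(e, t)`
  obtain ⟨t, ht⟩ : ∃ t : K, t = -(W.a₁ * e + W.a₃) / 2 := ⟨_, rfl⟩
  have h2t : 2 * t = -(W.a₁ * e + W.a₃) := by rw [ht]; field_simp
  have hgY : gY W e t = 0 := by
    simp only [gY]; linear_combination h2t
  have hEq : W.toAffine.Equation e t := by
    rw [Affine.equation_iff]
    have hF := hFe
    simp only [WeierstrassCurve.b₂, WeierstrassCurve.b₄, WeierstrassCurve.b₆] at hF
    have h4t : 4 * (t ^ 2 + W.a₁ * e * t + W.a₃ * t) =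
        4 * (e ^ 3 + W.a₂ * e ^ 2 + W.a₄ * e + W.a₆) := by
      linear_combination (2 * t + W.a₁ * e + W.a₃) * h2t - hF
    exact mul_left_cancel₀ h4 h4t
  -- `δ = t - y₀` is small
  obtain ⟨δ, hδ⟩ : ∃ δ : K, δ = t - y₀ := ⟨_, rfl⟩
  obtain ⟨m, hm⟩ : ∃ m : K, m = gY W x₀ y₀ + W.a₁ * ε := ⟨_, rfl⟩
  obtain ⟨m', hm'⟩ : ∃ m' : K, m' = ε * (e ^ 2 + e * x₀ + x₀ ^ 2 + W.a₂ * (e + x₀) + W.a₄ - W.a₁ * y₀) := ⟨_, rfl⟩
  have hmv : v m < 1 := by rw [hm]; exact vadd_lt hH₀ (vmul_lt_one_right ha₁ hεv)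
  have hm'v : v m' < 1 := by
    rw [hm']
    refine vmul_lt_one_left hεv ?_
    refine vsub_le (vadd_le (vadd_le (vadd_le (vadd_le ?_ ?_) ?_) ?_) ha₄) (vmul_le_one ha₁ hy₀)
    · exact vpow_le_one hev 2
    · exact vmul_le_one hev hx₀
    · exact vpow_le_one hx₀ 2
    · exact vmul_le_one ha₂ (vadd_le hev hx₀)
  have hδm : δ * (δ + m) = m' := by
    have e1 := (Affine.equation_iff e t).mp hEq
    have e0 := (Affine.equation_iff x₀ y₀).mp h₀
    rw [hδ, hm, hm']
    simp only [gY]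
    have hε' : ε = e - x₀ := by rw [he]; ring
    rw [hε']
    linear_combination e1 - e0
  have hδv : v δ < 1 := by
    by_contra hge
    rw [not_lt] at hge
    have h1 : v (δ + m) = v δ := vadd_eq_left (lt_of_lt_of_le hmv hge)
    have h3 := congrArg v hδm
    rw [map_mul, h1] at h3
    have h5 : (1 : Γ₀) ≤ v δ * v δ := by
      calc (1 : Γ₀) = 1 * 1 := (one_mul 1).symm
        _ ≤ v δ * v δ := mul_le_mul' hge hge
    rw [h3] at h5
    exact absurd hm'v (not_lt.mpr h5)
  have htv : v t ≤ 1 := by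
    have : t = y₀ + δ := by rw [hδ]; ring
    rw [this]; exact vadd_le hy₀ hδv.le
  -- `g_T = gX (e, t)` is small and nonzero
  obtain ⟨gT, hgT⟩ : ∃ gT : K, gT = gX W e t := ⟨_, rfl⟩
  have hgTv : v gT < 1 := by
    have : gT = gX W x₀ y₀ + (W.a₁ * δ - ε * (3 * (e + x₀) + 2 * W.a₂)) := by
      rw [hgT, hδ]
      have hε' : ε = e - x₀ := by rw [he]; ring
      rw [hε']
      simp only [gX]; ring
    rw [this]
    refine vadd_lt hG₀ (vsub_lt (vmul_lt_one_right ha₁ hδv) (vmul_lt_one_left hεv ?_))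
    exact vadd_le (vmul_le_one hv3 (vadd_le hev hx₀)) (vmul_le_one hv2 ha₂)
  have hgT0 : gT ≠ 0 := by
    have hns := (W.toAffine.equation_iff_nonsingular_of_Δ_ne_zero hΔ).mp hEq
    rw [Affine.nonsingular_iff'] at hns
    rcases hns.2 with h | h
    · rw [hgT]; exact h
    · exact absurd hgY h
  -- Step C: the shear `s`
  obtain ⟨s, hs⟩ := exists_quadratic_root (c₂ := (1 : K)) (c₁ := W.a₁) (c₀ := -(W.a₂ + 3 * e))
    one_ne_zero
  have hs' : s ^ 2 + W.a₁ * s + -(W.a₂ + 3 * e) = 0 := by linear_combination hs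
  have hsv : v s ≤ 1 :=
    val_le_one_of_monic_quadratic ha₁ (vneg_le (vadd_le ha₂ (vmul_le_one hv3 hev))) hs'
  -- Step D: the scaling `u`
  obtain ⟨u, hu⟩ : ∃ u : K, u = W.a₁ + 2 * s := ⟨_, rfl⟩
  have hu2 : u ^ 2 = W.b₂ + 12 * e := by
    rw [hu]; simp only [WeierstrassCurve.b₂]; linear_combination 4 * hs'
  have hu4 : (u ^ 2) ^ 2 = W.c₄ - 48 * gT := by
    rw [hu2, c₄_shift W e, twoDiv_deriv W e t, hgY, hgT]; ring
  have huv : v u = 1 := by
    have h1 : v ((u ^ 2) ^ 2) = 1 := by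
      rw [hu4, sub_eq_add_neg, vadd_eq_left, hc₄]
      rw [hc₄, Valuation.map_neg]
      exact vmul_lt_one_right hv48 hgTv
    rw [map_pow, pow_two] at h1
    have h2' := val_eq_one_of_sq h1
    rw [map_pow, pow_two] at h2'
    exact val_eq_one_of_sq h2'
  have hu0 : u ≠ 0 := by
    rintro h0
    rw [h0, map_zero] at huv
    exact zero_ne_one huv
  -- Step E: the change of variables
  refine ⟨⟨Units.mk0 u hu0, e, s, t⟩, -gT / u ^ 4, ?_, hev, hsv, htv, ?_, ?_, ?_⟩
  · simpa using huv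
  · exact div_ne_zero (neg_ne_zero.mpr hgT0) (pow_ne_zero 4 hu0)
  · rw [map_div₀, Valuation.map_neg, map_pow, huv, one_pow, div_one]
    exact hgTv
  · have e1 := (Affine.equation_iff e t).mp hEq
    ext
    · simp only [variableChange_a₁, nodeCurve_a₁, Units.val_inv_eq_inv_val, Units.val_mk0]
      rw [← hu]; field_simp
    · simp only [variableChange_a₂, nodeCurve_a₂, Units.val_inv_eq_inv_val, Units.val_mk0]
      rw [mul_eq_zero]; right
      linear_combination -hs'
    · simp only [variableChange_a₃, nodeCurve_a₃, Units.val_inv_eq_inv_val, Units.val_mk0]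
      rw [mul_eq_zero]; right
      linear_combination h2t
    · simp only [variableChange_a₄, nodeCurve_a₄, Units.val_inv_eq_inv_val, Units.val_mk0]
      rw [hgT]; simp only [gX]
      field_simp
      linear_combination (-s) * h2t
    · simp only [variableChange_a₆, nodeCurve_a₆, Units.val_inv_eq_inv_val, Units.val_mk0]
      rw [mul_eq_zero]; right
      linear_combination -e1

end Fermat.Agent.S59.H240

end
-- ===== PACK-END S59/H240/Node/NormalForm.lean

-- ===== PACK-BEGIN S59/G4/H307/AbsIrr.lean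
section




/-!
# S59 / G4 / DESC (helper307): absolute irreducibility in matrix terms

* `HasEigenline m` : the matrices `m σ` have a common eigenvector.
* `toRes_isIrreducible_iff` : irreducibility of a matrix residual representation.
* `absIrr_iff_of_isEquiv`   : absolute irreducibility = no common eigenvector over `k̄`.
* `isIrreducible_of_absIrr` : absolutely irreducible implies irreducible.
* `residual_absIrr_of_baseChange` : if `ρ ⊗ O ≅ ρ'` and `ρ'` is residually absolutely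
  irreducible, so is `ρ`.
-/

set_option autoImplicit false
set_option linter.unusedSectionVars false
set_option linter.unusedVariables false
set_option linter.unusedSimpArgs false

noncomputable section

namespace Fermat.Agent.S59.G4.H307

open scoped TensorProduct
open Matrix Fermat.Agent.S53

section Eigen

variable {k : Type} [Field k]

/-- The matrices `m σ` have a common eigenvector. -/
def HasEigenline (m : GQ → M2 k) : Prop :=
  ∃ v : Fin 2 → k, v ≠ 0 ∧ ∀ σ, ∃ c : k, (m σ).mulVec v = c • v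

theorem HasEigenline.map {k' : Type} [Field k'] (φ : k →+* k') {m : GQ → M2 k}
    (h : HasEigenline m) : HasEigenline (fun σ => (m σ).map φ) := by
  obtain ⟨v, hv, hm⟩ := h
  refine ⟨fun i => φ (v i), ?_, fun σ => ?_⟩
  · intro h0
    apply hv
    ext i
    have := congrFun h0 i
    apply φ.injective
    rw [Pi.zero_apply, map_zero]
    exact this
  · obtain ⟨c, hc⟩ := hm σ
    refine ⟨φ c, ?_⟩
    ext i
    have := congrArg φ (congrFun hc i)
    simp only [Matrix.mulVec, dotProduct, Pi.smul_apply, smul_eq_mul, map_sum, map_mul,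
      Matrix.map_apply] at this ⊢
    exact this

theorem toRes_isIrreducible_iff (rb : GQ →* M2 k) (h : GaloisFactorsThroughFiniteLevel rb) :
    (toRes rb h).IsIrreducible ↔ ¬ HasEigenline rb := by
  constructor
  · rintro hirr ⟨v, hv, hm⟩
    have hirr' : ∀ W : Submodule k (Fin 2 → k),
        (∀ σ : GQ, ∀ x ∈ W, (rb σ).mulVec x ∈ W) → W = ⊥ ∨ W = ⊤ := hirr
    rcases hirr' (Submodule.span k {v}) (by
      intro σ x hx
      obtain ⟨a, rfl⟩ := Submodule.mem_span_singleton.mp hx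
      obtain ⟨c, hc⟩ := hm σ
      rw [Matrix.mulVec_smul, hc]
      exact Submodule.smul_mem _ _ (Submodule.smul_mem _ _ (Submodule.mem_span_singleton_self _)))
      with hW | hW
    · have : v ∈ Submodule.span k {v} := Submodule.mem_span_singleton_self _
      rw [hW] at this
      exact hv ((Submodule.mem_bot k).mp this)
    · have h1 : Module.finrank k (Submodule.span k {v}) = 1 := finrank_span_singleton hv
      rw [hW, finrank_top, Module.finrank_fin_fun] at h1
      omega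
  · intro hne
    have key : ∀ W : Submodule k (Fin 2 → k),
        (∀ σ : GQ, ∀ x ∈ W, (rb σ).mulVec x ∈ W) → W = ⊥ ∨ W = ⊤ := by
      intro W hW
      by_contra hcon
      rw [not_or] at hcon
      obtain ⟨hbot, htop⟩ := hcon
      have h1 : 0 < Module.finrank k W := by
        haveI : Nontrivial W := (Submodule.nontrivial_iff_ne_bot).mpr hbot
        exact Module.finrank_pos
      have h2 : Module.finrank k W < Module.finrank k (Fin 2 → k) :=
        Submodule.finrank_lt htop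
      rw [Module.finrank_fin_fun] at h2
      have h3 : Module.finrank k W = 1 := by omega
      obtain ⟨w, hw, hall⟩ := finrank_eq_one_iff'.mp h3
      apply hne
      refine ⟨(w : Fin 2 → k), fun h0 => hw (Subtype.ext h0), fun σ => ?_⟩
      obtain ⟨c, hc⟩ := hall ⟨(rb σ).mulVec (w : Fin 2 → k), hW σ _ w.2⟩
      refine ⟨c, ?_⟩
      have := congrArg Subtype.val hc
      exact this.symm
    exact key

/-- Absolute irreducibility in matrix terms. -/
theorem absIrr_iff_of_isEquiv (ρbar : ResidualGaloisRep k) (rb : GQ →* M2 k)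
    (h : GaloisFactorsThroughFiniteLevel rb) (he : ρbar.IsEquiv (toRes rb h)) :
    ρbar.IsAbsolutelyIrreducible ↔
      ¬ HasEigenline (mapRep (algebraMap k (AlgebraicClosure k)) rb) := by
  obtain ⟨e⟩ := he
  obtain ⟨e'⟩ := baseChange_toRes (AlgebraicClosure k) rb h
  have E := (resEquivBaseChange (AlgebraicClosure k) e).trans e'
  rw [← toRes_isIrreducible_iff _ (factors_mapRep (algebraMap k (AlgebraicClosure k)) h)]
  exact ⟨fun hh => isIrreducible_of_equiv E hh, fun hh => isIrreducible_of_equiv E.symm hh⟩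

/-- Absolutely irreducible implies irreducible. -/
theorem isIrreducible_of_absIrr (ρbar : ResidualGaloisRep k)
    (h : ρbar.IsAbsolutelyIrreducible) : ρbar.IsIrreducible := by
  obtain ⟨rb, hrb, he⟩ := exists_toRes ρbar
  have h1 := (absIrr_iff_of_isEquiv ρbar rb hrb he).mp h
  have h2 : ¬ HasEigenline rb := fun hE => h1 (hE.map (algebraMap k (AlgebraicClosure k)))
  have h3 := (toRes_isIrreducible_iff rb hrb).mpr h2
  obtain ⟨e⟩ := he
  exact isIrreducible_of_equiv e.symm h3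

end Eigen

section BaseChange

open IsLocalRing

variable {T O : Type} [CommRing T] [IsLocalRing T] [CommRing O] [IsLocalRing O]

/-- If `ρ ⊗ O ≅ ρ'` and `ρ'` is residually absolutely irreducible, so is `ρ`. -/
theorem residual_absIrr_of_baseChange (ψ : T →+* O) (hψ : IsLocalHom ψ) (ρ : GaloisRepAdic T)
    (ρ' : GaloisRepAdic O) (h : (ρ.baseChangeAlong ψ hψ).IsEquiv ρ')
    (habs : ρ'.residual.IsAbsolutelyIrreducible) : ρ.residual.IsAbsolutelyIrreducible := by
  have := hψ
  obtain ⟨r, hr, ⟨e0⟩⟩ := exists_toAdic ρ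
  obtain ⟨e1⟩ := residual_toAdic r hr
  have hρ : ρ.residual.IsEquiv (toRes (mapRep (residue T) r) hr.factors_residue) :=
    ⟨e0.residual.trans e1⟩
  obtain ⟨e2⟩ := baseChangeAlong_toAdic ψ hψ r hr
  obtain ⟨e3⟩ := h
  have e4 : GaloisRepAdic.Equiv ρ' (toAdic (mapRep ψ r) (hr.map ψ hψ)) :=
    (e3.symm.trans (e0.baseChangeAlong ψ hψ)).trans e2
  obtain ⟨e5⟩ := residual_toAdic (mapRep ψ r) (hr.map ψ hψ)
  have hρ' : ρ'.residual.IsEquiv
      (toRes (mapRep (residue O) (mapRep ψ r)) (hr.map ψ hψ).factors_residue) :=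
    ⟨e4.residual.trans e5⟩
  rw [absIrr_iff_of_isEquiv _ _ _ hρ]
  have h' := (absIrr_iff_of_isEquiv _ _ _ hρ').mp habs
  intro hE
  apply h'
  let _ : Algebra (ResidueField T) (AlgebraicClosure (ResidueField O)) :=
    ((algebraMap (ResidueField O) (AlgebraicClosure (ResidueField O))).comp
      (ResidueField.map ψ)).toAlgebra
  let j : AlgebraicClosure (ResidueField T) →ₐ[ResidueField T]
      AlgebraicClosure (ResidueField O) := IsAlgClosed.lift
  have hj := hE.map (j : AlgebraicClosure (ResidueField T) →+*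
    AlgebraicClosure (ResidueField O))
  have hfun : (fun σ => ((mapRep (algebraMap (ResidueField T)
      (AlgebraicClosure (ResidueField T))) (mapRep (residue T) r)) σ).map
        (j : AlgebraicClosure (ResidueField T) →+* AlgebraicClosure (ResidueField O))) =
      (mapRep (algebraMap (ResidueField O) (AlgebraicClosure (ResidueField O)))
        (mapRep (residue O) (mapRep ψ r))) := by
    funext σ
    ext a b
    simp only [mapRep_apply, Matrix.map_apply]
    have h1 : (j : AlgebraicClosure (ResidueField T) →+* AlgebraicClosure (ResidueField O))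
        (algebraMap (ResidueField T) (AlgebraicClosure (ResidueField T))
          (residue T (r σ a b))) =
        algebraMap (ResidueField T) (AlgebraicClosure (ResidueField O))
          (residue T (r σ a b)) := j.commutes _
    rw [h1]
    show (algebraMap (ResidueField O) (AlgebraicClosure (ResidueField O)))
      (ResidueField.map ψ (residue T (r σ a b))) = _
    rw [ResidueField.map_residue]
  rw [hfun] at hj
  exact hj

end BaseChange

end Fermat.Agent.S59.G4.H307

end
end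
-- ===== PACK-END S59/G4/H307/AbsIrr.lean

-- ===== PACK-BEGIN A3/H619/Lattice.lean
section
/-
A3 / piece ORD (helper619): "good" lattices of functions and their tensor products.

A linear map `φ : M → (X → ℚ̄)` from an `R`-module is *good* if a finite `R`-basis of `M` is mapped
to a `ℚ̄`-linearly independent family.  Good maps are injective and `φ ⊠ ψ : M ⊗ N → (X × Y → ℚ̄)`
is good if `φ` and `ψ` are.
-/


set_option autoImplicit false

noncomputable section

namespace Fermat.Agent.A3.H619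

open GaloisRep TensorProduct Module

variable {p : ℕ}

section Good

variable {M N : Type} [AddCommGroup M] [Module (ratLocalizedAt p) M]
  [AddCommGroup N] [Module (ratLocalizedAt p) N] {X Y : Type}

/-- A linear map into a function space is *good* if some finite basis is mapped to a
`ℚ̄`-linearly independent family. -/
def IsGood (φ : M →ₗ[ratLocalizedAt p] (X → Qb)) : Prop :=
  ∃ (ι : Type) (_ : Fintype ι) (b : Basis ι (ratLocalizedAt p) M),
    LinearIndependent Qb (fun i => φ (b i))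

theorem IsGood.injective {φ : M →ₗ[ratLocalizedAt p] (X → Qb)} (h : IsGood φ) :
    Function.Injective φ := by
  classical
  obtain ⟨ι, _, b, hb⟩ := h
  rw [← LinearMap.ker_eq_bot, LinearMap.ker_eq_bot']
  intro m hm
  have h1 : φ m = ∑ i, (algebraMap (ratLocalizedAt p) Qb (b.repr m i)) • φ (b i) := by
    conv_lhs => rw [← b.sum_repr m]
    rw [map_sum]
    refine Finset.sum_congr rfl fun i _ => ?_
    rw [map_smul, algebraMap_smul]
  rw [hm] at h1
  have h2 := (Fintype.linearIndependent_iff.mp hb) _ h1.symm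
  apply b.repr.injective
  refine Finsupp.ext fun i => ?_
  have := h2 i
  rw [map_zero, Finsupp.zero_apply]
  exact algebraMap_ratLoc_Qb_injective p (this.trans (map_zero _).symm)

/-- The external product of two linear maps into function spaces. -/
def boxLin (φ : M →ₗ[ratLocalizedAt p] (X → Qb)) (ψ : N →ₗ[ratLocalizedAt p] (Y → Qb)) :
    M ⊗[ratLocalizedAt p] N →ₗ[ratLocalizedAt p] (X × Y → Qb) :=
  TensorProduct.lift
    (LinearMap.mk₂ (ratLocalizedAt p) (fun m n => fun xy : X × Y => φ m xy.1 * ψ n xy.2)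
      (fun m₁ m₂ n => by funext xy; simp [add_mul])
      (fun c m n => by funext xy; simp [Algebra.smul_def, mul_assoc])
      (fun m n₁ n₂ => by funext xy; simp [mul_add])
      (fun c m n => by funext xy; simp [Algebra.smul_def, mul_left_comm]))

@[simp]
theorem boxLin_tmul (φ : M →ₗ[ratLocalizedAt p] (X → Qb)) (ψ : N →ₗ[ratLocalizedAt p] (Y → Qb))
    (m : M) (n : N) (xy : X × Y) : boxLin φ ψ (m ⊗ₜ n) xy = φ m xy.1 * ψ n xy.2 := by
  simp [boxLin]

/-- Products of `ℚ̄`-independent families of functions are independent. -/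
theorem linearIndependent_box {ι κ : Type} [Fintype ι] [Fintype κ] (u : ι → (X → Qb))
    (v : κ → (Y → Qb)) (hu : LinearIndependent Qb u) (hv : LinearIndependent Qb v) :
    LinearIndependent Qb (fun ij : ι × κ => fun xy : X × Y => u ij.1 xy.1 * v ij.2 xy.2) := by
  classical
  rw [Fintype.linearIndependent_iff]
  intro c hc
  -- fix `y`; get a relation between the `u i`
  have key : ∀ (y : Y) (i : ι), ∑ j, c (i, j) * v j y = 0 := by
    intro y
    apply Fintype.linearIndependent_iff.mp hu (fun i => ∑ j, c (i, j) * v j y)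
    funext x
    have := congrFun hc (x, y)
    simp only [Finset.sum_apply, Pi.smul_apply, smul_eq_mul, Pi.zero_apply] at this ⊢
    rw [Fintype.sum_prod_type] at this
    rw [← this]
    refine Finset.sum_congr rfl fun i _ => ?_
    rw [Finset.sum_mul]
    refine Finset.sum_congr rfl fun j _ => ?_
    ring
  rintro ⟨i, j⟩
  apply Fintype.linearIndependent_iff.mp hv (fun j => c (i, j))
  funext y
  have := key y i
  simpa using this

theorem IsGood.box {φ : M →ₗ[ratLocalizedAt p] (X → Qb)} {ψ : N →ₗ[ratLocalizedAt p] (Y → Qb)}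
    (hφ : IsGood φ) (hψ : IsGood ψ) : IsGood (boxLin φ ψ) := by
  obtain ⟨ι, _, b, hb⟩ := hφ
  obtain ⟨κ, _, c, hc⟩ := hψ
  refine ⟨ι × κ, inferInstance, b.tensorProduct c, ?_⟩
  have := linearIndependent_box _ _ hb hc
  convert this using 1
  funext ij xy
  rw [Basis.tensorProduct_apply', boxLin_tmul]

end Good

end Fermat.Agent.A3.H619

end
end
-- ===== PACK-END A3/H619/Lattice.lean

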