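import Mathlib
import Fermat.Agent.Pack.S43MC.G0E6L0
import Fermat.Agent.Pack.S43MC.G0E1L3
import Fermat.Agent.Pack.S43MC.G0E1L1
import Fermat.Agent.Pack.S43MC.G0E2L1
import Fermat.Agent.Pack.S44C.G0E7L2
import Fermat.Agent.Pack.S44C.G0E9L2
import Fermat.Agent.Pack.S43GC.G0E4L1
import Fermat.Agent.Pack.S43MC.G0E5L2
import Fermat.Agent.Pack.S43MC.G0E5L1
import Fermat.Agent.Pack.S44C.G0E4L0
import Fermat.Agent.Pack.S43MC.G0E7L2
import Fermat.Agent.Pack.Fast891

-- ===== PACK-BEGIN S26/H478/Generic.lean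
section


/-!
# Row S26, leaf SOFT:GEN — `[-1]` and `[n]` preserve the generic point (helper478)

* `inv_natural` : the inverse of a `RelativeGroupLaw` is natural in the test scheme.
* `negHom_comp_negHom` : `[-1] ≫ [-1] = 𝟙`, hence `[-1]` is an isomorphism.
* `map_genericPoint_of_denseRange`, `map_genericPoint_of_isOpenMap` : a dominant (e.g. open)
  morphism of irreducible schemes sends the generic point to the generic point.
* `generic_of_etale`, `generic_of_soft` : `Stmt.Generic K` from etaleness of `[n]`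
  (in particular from `Stmt.Soft K`).
-/

set_option autoImplicit false
universe u

open CategoryTheory CategoryTheory.Limits AlgebraicGeometry NeronModelInfra GoodReductionJacobian

namespace Fermat.Agent.S26.H478

section GroupLaw

variable {R : Type u} [CommRing R] {A : Scheme.{u}} {f : A ⟶ Spec (CommRingCat.of R)}

/-- The inverse of a relative group law is natural in the test scheme. -/
theorem inv_natural (G : RelativeGroupLaw R f) {T T' : Scheme.{u}}
    (t : T ⟶ Spec (CommRingCat.of R)) (t' : T' ⟶ Spec (CommRingCat.of R))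
    (ψ : T' ⟶ T) (hψ : ψ ≫ t = t') (x : SchemeHomOver t f) :
    schemeHomOverComp ψ hψ (G.inv t x) = G.inv t' (schemeHomOverComp ψ hψ x) := by
  have h : G.mul t' (schemeHomOverComp ψ hψ (G.inv t x)) (schemeHomOverComp ψ hψ x) =
      G.one t' := by
    rw [← G.mul_natural t t' ψ hψ, G.inv_mul_cancel, G.one_natural t t' ψ hψ]
  let _ := G.pointGroup t'
  exact eq_inv_of_mul_eq_one_left h

/-- The inverse of a relative group law is an involution. -/
theorem inv_inv_point (G : RelativeGroupLaw R f) {T : Scheme.{u}}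
    (t : T ⟶ Spec (CommRingCat.of R)) (x : SchemeHomOver t f) :
    G.inv t (G.inv t x) = x := by
  let _ := G.pointGroup t
  exact inv_inv x

/-- Pulling back the tautological point along (the morphism underlying) a point gives back
that point. -/
theorem schemeHomOverComp_idPoint (x : SchemeHomOver f f) :
    schemeHomOverComp x.1 x.2 (RelativeGroupLaw.idPoint (f := f)) = x :=
  Subtype.ext (by simp)

/-- The scheme morphism `[-1]` of a relative group law squares to the identity. -/
theorem schemeInv_comp_schemeInv (G : RelativeGroupLaw R f) :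
    (G.inv f RelativeGroupLaw.idPoint).1 ≫ (G.inv f RelativeGroupLaw.idPoint).1 = 𝟙 A := by
  have h := inv_natural G f f (G.inv f RelativeGroupLaw.idPoint).1
    (G.inv f RelativeGroupLaw.idPoint).2 RelativeGroupLaw.idPoint
  rw [schemeHomOverComp_idPoint, inv_inv_point] at h
  exact congrArg Subtype.val h

end GroupLaw

section Topology

variable {X Y : Scheme.{u}} [IrreducibleSpace X] [IrreducibleSpace Y]

/-- A dominant morphism of irreducible schemes maps the generic point to the generic point. -/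
theorem map_genericPoint_of_denseRange (φ : X ⟶ Y) (hφ : DenseRange φ) :
    φ (genericPoint X) = genericPoint Y := by
  apply ((genericPoint_spec Y).eq _).symm
  have h := (genericPoint_spec X).image φ.continuous
  rw [isGenericPoint_def] at h ⊢
  rw [h, Set.image_univ]
  exact hφ.closure_range

/-- An open morphism of irreducible schemes maps the generic point to the generic point. -/
theorem map_genericPoint_of_isOpenMap (φ : X ⟶ Y) (hφ : IsOpenMap φ) :
    φ (genericPoint X) = genericPoint Y :=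
  map_genericPoint_of_denseRange φ
    (hφ.isOpen_range.dense ⟨φ (genericPoint X), Set.mem_range_self _⟩)

/-- A surjective morphism of irreducible schemes maps the generic point to the generic
point. -/
theorem map_genericPoint_of_surjective (φ : X ⟶ Y) (hφ : Function.Surjective φ) :
    φ (genericPoint X) = genericPoint Y :=
  map_genericPoint_of_denseRange φ hφ.denseRange

/-- A flat morphism locally of finite presentation between irreducible schemes maps the
generic point to the generic point. -/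
theorem map_genericPoint_of_flat (φ : X ⟶ Y) [Flat φ] [LocallyOfFinitePresentation φ] :
    φ (genericPoint X) = genericPoint Y :=
  map_genericPoint_of_isOpenMap φ φ.isOpenMap

/-- An etale morphism between irreducible schemes maps the generic point to the generic
point. -/
theorem map_genericPoint_of_etale (φ : X ⟶ Y) [Etale φ] :
    φ (genericPoint X) = genericPoint Y :=
  map_genericPoint_of_flat φ

end Topology

section AbVar

variable {K : Type u} [Field K] (X : AbVar K)

/-- `[-1]` is a morphism over `Spec K`. -/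
theorem negHom_over : X.negHom ≫ X.str = X.str :=
  (X.law.inv X.str RelativeGroupLaw.idPoint).2

/-- `[n]` is a morphism over `Spec K`. -/
theorem nsmulHom_over (n : ℕ) : X.nsmulHom n ≫ X.str = X.str :=
  X.law.schemeNsmul_over n

/-- `[-1] ≫ [-1] = 𝟙`. -/
theorem negHom_comp_negHom : X.negHom ≫ X.negHom = 𝟙 X.A :=
  schemeInv_comp_schemeInv X.law

/-- `[-1]` is an isomorphism. -/
instance isIso_negHom : IsIso X.negHom :=
  ⟨⟨X.negHom, negHom_comp_negHom X, negHom_comp_negHom X⟩⟩

/-- `[-1]` as an automorphism of the scheme `A`. -/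
noncomputable def negIso : X.A ≅ X.A where
  hom := X.negHom
  inv := X.negHom
  hom_inv_id := negHom_comp_negHom X
  inv_hom_id := negHom_comp_negHom X

/-- `[-1]` is an involution on points of the underlying space. -/
theorem negHom_negHom_apply (a : X.A) : X.negHom (X.negHom a) = a := by
  have h := congrArg (fun φ : X.A ⟶ X.A => φ a) (negHom_comp_negHom X)
  simpa using h

/-- `[-1]` preserves the generic point. -/
theorem negHom_genericPoint [IsIntegral X.A] :
    X.negHom (genericPoint X.A) = genericPoint X.A :=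
  genericPoint_eq_of_isOpenImmersion X.negHom

/-- `[n]` preserves the generic point as soon as it is etale. -/
theorem nsmulHom_genericPoint_of_etale [IsIntegral X.A] (n : ℕ) [Etale (X.nsmulHom n)] :
    X.nsmulHom n (genericPoint X.A) = genericPoint X.A :=
  map_genericPoint_of_etale (X.nsmulHom n)

/-- `[n]` preserves the generic point as soon as it is surjective. -/
theorem nsmulHom_genericPoint_of_surjective [IsIntegral X.A] (n : ℕ)
    (h : Function.Surjective (X.nsmulHom n)) :
    X.nsmulHom n (genericPoint X.A) = genericPoint X.A :=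
  map_genericPoint_of_surjective (X.nsmulHom n) h

end AbVar

section Main

variable (K : Type u) [Field K]

/-- SOFT:GEN from etaleness of `[n]` for `n` invertible in `K`. -/
theorem generic_of_etale
    (h : ∀ (X : AbVar K) (n : ℕ), (n : K) ≠ 0 → Etale (X.nsmulHom n)) :
    Stmt.Generic K := by
  intro X _
  refine ⟨negHom_genericPoint X, fun n hn => ?_⟩
  have := h X n hn
  exact nsmulHom_genericPoint_of_etale X n

/-- SOFT:GEN from `Stmt.Soft`. -/
theorem generic_of_soft (h : Stmt.Soft K) : Stmt.Generic K :=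
  generic_of_etale K fun X n hn => (h X n hn).2.1

end Main

end Fermat.Agent.S26.H478

end
-- ===== PACK-END S26/H478/Generic.lean

-- ===== PACK-BEGIN S26/H687/Integral.lean
section
/-
Row S26, block SOFT, leaf INT (subtask 501; helper687): `Stmt.Integral K` — an abelian variety
over an algebraically closed field is integral.

* reduced: a scheme smooth over the spectrum of a domain is reduced (standard smooth = etale
  over a polynomial ring; etale over a domain is flat with reduced generic fibre);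
* irreducible: the translations `transl G a` (built from the `RelativeGroupLaw` by Yoneda) act
  transitively on the closed points (= `K`-points); a noetherian connected Jacobson space with
  a transitive group of homeomorphisms on closed points is irreducible.
-/


set_option autoImplicit false
universe u
open CategoryTheory CategoryTheory.Limits AlgebraicGeometry NeronModelInfra GoodReductionJacobian
open scoped TensorProduct

namespace Fermat.Agent.S26.H687

noncomputable section

/-! ## Reducedness -/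

/-- An algebra that is etale over a domain is reduced. -/
theorem isReduced_of_etale_of_isDomain (P S : Type*) [CommRing P] [IsDomain P] [CommRing S]
    [Algebra P S] [Algebra.Etale P S] : IsReduced S := by
  have hinj : Function.Injective
      (Algebra.TensorProduct.includeRight (R := P) (A := FractionRing P) (B := S)) :=
    Algebra.TensorProduct.includeRight_injective (IsFractionRing.injective P (FractionRing P))
  have : IsReduced (FractionRing P ⊗[P] S) :=
    Algebra.FormallyUnramified.isReduced_of_field (FractionRing P) (FractionRing P ⊗[P] S)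
  exact isReduced_of_injective _ hinj

/-- A standard smooth algebra over a domain is reduced. -/
theorem isReduced_of_isStandardSmooth {R S : Type*} [CommRing R] [IsDomain R] [CommRing S]
    (f : R →+* S) (hf : f.IsStandardSmooth) : IsReduced S := by
  obtain ⟨n, g, -, hg⟩ := hf.exists_etale_mvPolynomial
  algebraize [g]
  exact isReduced_of_etale_of_isDomain (MvPolynomial (Fin n) R) S

/-- A scheme that is smooth over the spectrum of a domain is reduced. -/
theorem isReduced_of_smooth {X : Scheme.{u}} {R : CommRingCat.{u}} [IsDomain R]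
    (f : X ⟶ Spec R) [Smooth f] : AlgebraicGeometry.IsReduced X := by
  have (x : X) : _root_.IsReduced (X.presheaf.stalk x) := by
    obtain ⟨U, hU, V, hV, hxV, e, h⟩ := Smooth.exists_isStandardSmooth f x
    have : Nonempty U := ⟨⟨f x, e hxV⟩⟩
    have : _root_.IsReduced Γ(X, V) := isReduced_of_isStandardSmooth _ h
    let := X.presheaf.algebra_section_stalk ⟨x, hxV⟩
    have := hV.isLocalization_stalk ⟨x, hxV⟩
    exact isReduced_localizationPreserves (hV.primeIdealOf ⟨x, hxV⟩).asIdeal.primeCompl _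
      inferInstance
  exact isReduced_of_isReduced_stalk X

/-! ## Homogeneous spaces -/

/-- The preimage of an irreducible component under a homeomorphism is an irreducible
component. -/
theorem preimage_mem_irreducibleComponents {X : Type*} [TopologicalSpace X] (φ : X ≃ₜ X)
    {Z : Set X} (hZ : Z ∈ irreducibleComponents X) : φ ⁻¹' Z ∈ irreducibleComponents X := by
  refine ⟨?_, fun W hW hle => ?_⟩
  · rw [← φ.image_symm]
    exact hZ.1.image _ φ.symm.continuous.continuousOn
  · have h1 : Z ⊆ φ '' W := by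
      rw [← φ.image_preimage Z]
      exact Set.image_mono hle
    have h2 : φ '' W ⊆ Z := hZ.2 (hW.image _ φ.continuous.continuousOn) h1
    intro w hw
    exact h2 ⟨w, hw, rfl⟩

/-- A noetherian, connected Jacobson space on whose closed points a group of homeomorphisms
acts transitively is irreducible. -/
theorem irreducibleSpace_of_homogeneous {X : Type*} [TopologicalSpace X]
    [TopologicalSpace.NoetherianSpace X] [ConnectedSpace X] [JacobsonSpace X]
    (h : ∀ x y : X, IsClosed {x} → IsClosed {y} → ∃ φ : X ≃ₜ X, φ x = y) :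
    IrreducibleSpace X := by
  classical
  have hfin : (irreducibleComponents X).Finite :=
    TopologicalSpace.NoetherianSpace.finite_irreducibleComponents
  obtain ⟨x₀⟩ := (inferInstance : Nonempty X)
  set Z₁ := irreducibleComponent x₀ with hZ₁def
  have hZ₁ : Z₁ ∈ irreducibleComponents X := irreducibleComponent_mem_irreducibleComponents x₀
  set T := ⋃₀ (irreducibleComponents X \ {Z₁}) with hTdef
  have hT : IsClosed T := by
    rw [hTdef, Set.sUnion_eq_biUnion]
    exact (hfin.subset Set.sdiff_subset).isClosed_biUnion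
      fun Z hZ => isClosed_of_mem_irreducibleComponents Z hZ.1
  have hU : (Tᶜ).Nonempty := by
    by_contra hne
    rw [Set.not_nonempty_iff_eq_empty, Set.compl_empty_iff] at hne
    have := mem_of_subset_sUnion_irreducibleComponents Z₁ hZ₁ _ (hfin.subset Set.sdiff_subset)
      Set.sdiff_subset (hne ▸ Set.subset_univ _)
    exact this.2 rfl
  obtain ⟨y, hyU, hyc⟩ := nonempty_inter_closedPoints hU hT.isOpen_compl.isLocallyClosed
  have hy : ∀ Z ∈ irreducibleComponents X, y ∈ Z → Z = Z₁ := by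
    intro Z hZ hyZ
    by_contra hne
    exact hyU (Set.mem_sUnion.2 ⟨Z, ⟨hZ, hne⟩, hyZ⟩)
  have hx : ∀ x, IsClosed {x} → ∀ Z ∈ irreducibleComponents X,
      ∀ Z' ∈ irreducibleComponents X, x ∈ Z → x ∈ Z' → Z = Z' := by
    intro x hxc Z hZ Z' hZ' hxZ hxZ'
    obtain ⟨φ, hφ⟩ := h y x hyc hxc
    have e1 := hy _ (preimage_mem_irreducibleComponents φ hZ) (by simpa [hφ] using hxZ)
    have e2 := hy _ (preimage_mem_irreducibleComponents φ hZ') (by simpa [hφ] using hxZ')
    exact φ.surjective.preimage_injective (e1.trans e2.symm)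
  have hdisj : ∀ Z ∈ irreducibleComponents X, ∀ Z' ∈ irreducibleComponents X,
      Z ≠ Z' → Disjoint Z Z' := by
    intro Z hZ Z' hZ' hne
    rw [Set.disjoint_iff_inter_eq_empty]
    by_contra hne'
    obtain ⟨x, ⟨hxZ, hxZ'⟩, hxc⟩ := nonempty_inter_closedPoints
      (Set.nonempty_iff_ne_empty.2 hne')
      ((isClosed_of_mem_irreducibleComponents Z hZ).inter
        (isClosed_of_mem_irreducibleComponents Z' hZ')).isLocallyClosed
    exact hne (hx x hxc Z hZ Z' hZ' hxZ hxZ')
  have hcompl : Z₁ᶜ = T := by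
    ext p
    constructor
    · intro hp
      have hp' : p ∈ ⋃₀ irreducibleComponents X := by
        rw [sUnion_irreducibleComponents]; exact Set.mem_univ p
      obtain ⟨Z, hZ, hpZ⟩ := Set.mem_sUnion.1 hp'
      exact ⟨Z, ⟨hZ, fun e => hp (e ▸ hpZ)⟩, hpZ⟩
    · rintro ⟨Z, ⟨hZ, hne⟩, hpZ⟩ hpZ₁
      exact (Set.disjoint_left.1 (hdisj Z hZ Z₁ hZ₁ hne)) hpZ hpZ₁
  have hclopen : IsClopen Z₁ :=
    ⟨isClosed_of_mem_irreducibleComponents Z₁ hZ₁, by rw [← isClosed_compl_iff, hcompl]; exact hT⟩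
  rcases isClopen_iff.1 hclopen with h0 | h1
  · exact absurd h0 (Set.Nonempty.ne_empty ⟨x₀, mem_irreducibleComponent⟩)
  · have h2 : IsIrreducible (Set.univ : Set X) := by
      rw [← h1]; exact hZ₁.1
    exact (irreducibleSpace_def X).2 h2

/-! ## Translations of a relative group law -/

section Transl

variable {R : Type u} [CommRing R] {A : Scheme.{u}} {f : A ⟶ Spec (CommRingCat.of R)}
  (G : RelativeGroupLaw R f)

/-- The constant `T`-point with value the section `a`. -/
def constPt {T : Scheme.{u}} (t : T ⟶ Spec (CommRingCat.of R))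
    (a : SchemeHomOver (𝟙 (Spec (CommRingCat.of R))) f) : SchemeHomOver t f :=
  schemeHomOverComp t (Category.comp_id t) a

theorem constPt_id (a : SchemeHomOver (𝟙 (Spec (CommRingCat.of R))) f) :
    constPt (𝟙 _) a = a :=
  Subtype.ext (Category.id_comp _)

theorem schemeHomOverComp_constPt {T T' : Scheme.{u}} (t : T ⟶ Spec (CommRingCat.of R))
    (t' : T' ⟶ Spec (CommRingCat.of R)) (ψ : T' ⟶ T) (hψ : ψ ≫ t = t')
    (a : SchemeHomOver (𝟙 (Spec (CommRingCat.of R))) f) :
    schemeHomOverComp ψ hψ (constPt t a) = constPt t' a :=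
  Subtype.ext (by simp [constPt, ← hψ])

theorem constPt_mul {T : Scheme.{u}} (t : T ⟶ Spec (CommRingCat.of R))
    (a b : SchemeHomOver (𝟙 (Spec (CommRingCat.of R))) f) :
    constPt t (G.mul (𝟙 _) a b) = G.mul t (constPt t a) (constPt t b) :=
  G.mul_natural (𝟙 _) t t (Category.comp_id t) a b

theorem constPt_one {T : Scheme.{u}} (t : T ⟶ Spec (CommRingCat.of R)) :
    constPt t (G.one (𝟙 _)) = G.one t :=
  G.one_natural (𝟙 _) t t (Category.comp_id t)

/-- Translation by the section `a`, as a morphism `A ⟶ A`. -/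
def transl (a : SchemeHomOver (𝟙 (Spec (CommRingCat.of R))) f) : A ⟶ A :=
  (G.mul f RelativeGroupLaw.idPoint (constPt f a)).1

theorem transl_over (a : SchemeHomOver (𝟙 (Spec (CommRingCat.of R))) f) :
    transl G a ≫ f = f :=
  (G.mul f RelativeGroupLaw.idPoint (constPt f a)).2

/-- Translation on `T`-valued points. -/
theorem comp_transl {T : Scheme.{u}} (t : T ⟶ Spec (CommRingCat.of R)) (x : SchemeHomOver t f)
    (a : SchemeHomOver (𝟙 (Spec (CommRingCat.of R))) f) :
    x.1 ≫ transl G a = (G.mul t x (constPt t a)).1 := by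
  have h := G.mul_natural f t x.1 x.2 RelativeGroupLaw.idPoint (constPt f a)
  have h1 : schemeHomOverComp x.1 x.2 (RelativeGroupLaw.idPoint (f := f)) = x :=
    Subtype.ext (Category.comp_id _)
  rw [h1, schemeHomOverComp_constPt] at h
  exact congrArg Subtype.val h

theorem transl_comp (a b : SchemeHomOver (𝟙 (Spec (CommRingCat.of R))) f) :
    transl G a ≫ transl G b = transl G (G.mul (𝟙 _) a b) := by
  have h := comp_transl G f (G.mul f RelativeGroupLaw.idPoint (constPt f a)) b
  rw [G.mul_assoc, ← constPt_mul] at h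
  exact h

theorem transl_one : transl G (G.one (𝟙 _)) = 𝟙 A := by
  unfold transl
  rw [constPt_one, G.mul_one]

/-- Translation by `a` as an automorphism of `A`. -/
def translIso (a : SchemeHomOver (𝟙 (Spec (CommRingCat.of R))) f) : A ≅ A where
  hom := transl G a
  inv := transl G (G.inv (𝟙 _) a)
  hom_inv_id := by rw [transl_comp, G.mul_inv_cancel, transl_one]
  inv_hom_id := by rw [transl_comp, G.inv_mul_cancel, transl_one]

/-- Translation on sections. -/
theorem pt_comp_transl (b a : SchemeHomOver (𝟙 (Spec (CommRingCat.of R))) f) :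
    b.1 ≫ transl G a = (G.mul (𝟙 _) b a).1 := by
  rw [comp_transl, constPt_id]

/-- The translations act transitively on sections. -/
theorem exists_translIso (b c : SchemeHomOver (𝟙 (Spec (CommRingCat.of R))) f) :
    ∃ a : SchemeHomOver (𝟙 (Spec (CommRingCat.of R))) f, b.1 ≫ (translIso G a).hom = c.1 := by
  refine ⟨G.mul (𝟙 _) (G.inv (𝟙 _) b) c, ?_⟩
  show b.1 ≫ transl G _ = c.1
  rw [pt_comp_transl, ← G.mul_assoc, G.mul_inv_cancel, G.one_mul]

end Transl

/-! ## Abelian varieties are integral -/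

section Main

variable {K : Type u} [Field K] [IsAlgClosed K]

/-- A connected scheme, smooth and of finite type over an algebraically closed field, with a
group law on its functor of points, is integral. -/
theorem isIntegral_of_groupLaw {A : Scheme.{u}} (f : A ⟶ Spec (CommRingCat.of K)) [Smooth f]
    [QuasiCompact f] [ConnectedSpace A] (G : RelativeGroupLaw K f) : IsIntegral A := by
  have hred : AlgebraicGeometry.IsReduced A := isReduced_of_smooth f
  have : JacobsonSpace A := LocallyOfFiniteType.jacobsonSpace f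
  have : CompactSpace A := QuasiCompact.compactSpace_of_compactSpace f
  have : IsNoetherian A := { __ := LocallyOfFiniteType.isLocallyNoetherian f }
  have : IrreducibleSpace A := by
    refine irreducibleSpace_of_homogeneous fun x y hx hy => ?_
    let px := (pointEquivClosedPoint f).symm ⟨x, hx⟩
    let py := (pointEquivClosedPoint f).symm ⟨y, hy⟩
    have hpx : px.1 (IsLocalRing.closedPoint K) = x :=
      congrArg Subtype.val ((pointEquivClosedPoint f).apply_symm_apply ⟨x, hx⟩)
    have hpy : py.1 (IsLocalRing.closedPoint K) = y :=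
      congrArg Subtype.val ((pointEquivClosedPoint f).apply_symm_apply ⟨y, hy⟩)
    obtain ⟨a, ha⟩ := exists_translIso G px py
    refine ⟨Scheme.homeoOfIso (translIso G a), ?_⟩
    rw [Scheme.homeoOfIso_apply, ← hpx, ← Scheme.Hom.comp_apply, ha, hpy]
  exact isIntegral_of_irreducibleSpace_of_isReduced A

/-- **SOFT S2 / INT**: an abelian variety over an algebraically closed field is integral. -/
theorem integral (K : Type u) [Field K] [IsAlgClosed K] : Stmt.Integral K := by
  intro X
  have : Smooth X.str := X.bundle.smooth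
  have : IsProper X.str := X.bundle.proper
  have hconn : _root_.IsConnected (Set.univ : Set X.A) := by
    have h := X.bundle.connectedFibres (IsLocalRing.closedPoint K)
    convert h using 1
    exact (Set.eq_univ_of_forall fun a => Subsingleton.elim _ _).symm
  have : ConnectedSpace X.A := connectedSpace_iff_univ.mpr hconn
  exact isIntegral_of_groupLaw X.str X.law

end Main

end

end Fermat.Agent.S26.H687

end
-- ===== PACK-END S26/H687/Integral.lean

-- ===== PACK-BEGIN S26/LS/H798/Pow.lean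
section



/-!
# S26, block LS: `Stmt.LSScale` and `Stmt.LSPow` (helper798)

* `lsScale : Stmt.LSScale K` — scaling a system by a nonzero rational function changes neither
  goodness, nor independence of the affine coordinates, nor the degree.
* `lsPow : Stmt.LSPow K` — the `r`-th power of a good system with independent affine coordinates
  is good with independent affine coordinates, and its degree is `r ^ g` times the degree
  (field theory: `FieldPow.lean`).

No normality of the local rings is needed for `GenAt (w ^ r) x b → GenAt w x b`: base point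
freeness of `w` provides a generator `w b'` at `x`, and `w b = a • w b'`,
`w b' ^ r = c • w b ^ r` force `c * a ^ r = 1`.
-/

set_option autoImplicit false
universe u

open CategoryTheory CategoryTheory.Limits AlgebraicGeometry

namespace Fermat.Agent.S26.LS.H798

open Fermat.Agent.S26

noncomputable section

variable {X : Scheme.{u}} [IsIntegral X]

/-! ### Scaling -/

section Scale

variable {ι : Type}

theorem span_scale (w : ι → X.functionField) (h : X.functionField) (x : X) :
    LS.span (fun i => h * w i) x =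
      (LS.span w x).map (LinearMap.mulLeft (X.presheaf.stalk x) h) := by
  unfold LS.span
  rw [Submodule.map_span]
  congr 1
  ext y
  simp only [Set.mem_range, Set.mem_image, LinearMap.mulLeft_apply]
  constructor
  · rintro ⟨i, rfl⟩
    exact ⟨w i, ⟨i, rfl⟩, rfl⟩
  · rintro ⟨_, ⟨i, rfl⟩, rfl⟩
    exact ⟨i, rfl⟩

theorem mulLeft_injective_of_ne_zero (h : X.functionField) (hh : h ≠ 0) (x : X) :
    Function.Injective (LinearMap.mulLeft (X.presheaf.stalk x) h) := by
  intro a b hab
  simp only [LinearMap.mulLeft_apply] at hab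
  exact mul_left_cancel₀ hh hab

theorem genAt_scale_iff (w : ι → X.functionField) (h : X.functionField) (hh : h ≠ 0) (x : X)
    (b : ι) : LS.GenAt (fun i => h * w i) x b ↔ LS.GenAt w x b := by
  unfold LS.GenAt
  have hsing : Submodule.span (X.presheaf.stalk x) ({h * w b} : Set X.functionField) =
      (Submodule.span (X.presheaf.stalk x) ({w b} : Set X.functionField)).map
        (LinearMap.mulLeft (X.presheaf.stalk x) h) := by
    rw [Submodule.map_span, Set.image_singleton, LinearMap.mulLeft_apply]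
  rw [span_scale, hsing]
  constructor
  · rintro ⟨h1, h2⟩
    exact ⟨right_ne_zero_of_mul h1,
      Submodule.map_injective_of_injective (mulLeft_injective_of_ne_zero h hh x) h2⟩
  · rintro ⟨h1, h2⟩
    exact ⟨mul_ne_zero hh h1, by rw [h2]⟩

theorem good_scale (w : ι → X.functionField) (h : X.functionField) (hh : h ≠ 0)
    (hw : LS.Good w) : LS.Good (fun i => h * w i) := by
  obtain ⟨hbpf, haff⟩ := hw
  refine ⟨fun x => ?_, fun b => ?_⟩
  · obtain ⟨b, hb⟩ := hbpf x
    exact ⟨b, (genAt_scale_iff w h hh x b).mpr hb⟩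
  · obtain ⟨U, hU, hx⟩ := haff b
    exact ⟨U, hU, fun x => (hx x).trans (genAt_scale_iff w h hh x b).symm⟩

theorem ratios_scale {g : ℕ} (w : Fin (g + 1) → X.functionField) (h : X.functionField)
    (hh : h ≠ 0) : LS.ratios (fun i => h * w i) = LS.ratios w := by
  funext i
  unfold LS.ratios
  exact mul_div_mul_left _ _ hh

end Scale

/-! ### Systems with the same affine coordinates -/

section Ratios

variable {K : Type u} [Field K]

theorem indep_of_ratios_eq (str : X ⟶ Spec (CommRingCat.of K)) {g : ℕ}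
    {w w' : Fin (g + 1) → X.functionField} (h : LS.ratios w' = LS.ratios w)
    (hw : LS.Indep str w) : LS.Indep str w' := by
  unfold LS.Indep at hw ⊢
  rw [h]
  exact hw

theorem deg_of_ratios_eq (str : X ⟶ Spec (CommRingCat.of K)) {g : ℕ}
    {w w' : Fin (g + 1) → X.functionField} (h : LS.ratios w' = LS.ratios w) :
    LS.deg str w' = LS.deg str w := by
  unfold LS.deg LS.coordField
  rw [h]

end Ratios

/-- **LSScale** (`SpecDeg.lean`). -/
theorem lsScale (K : Type u) [Field K] [IsAlgClosed K] : Stmt.LSScale K := by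
  intro X _ str g w h hh
  exact ⟨good_scale w h hh, indep_of_ratios_eq str (ratios_scale w h hh),
    deg_of_ratios_eq str (ratios_scale w h hh)⟩

/-! ### Powers -/

section Pow

variable {ι : Type}

theorem genAt_pow (w : ι → X.functionField) (r : ℕ) (x : X) (b : ι) (hb : LS.GenAt w x b) :
    LS.GenAt (fun i => w i ^ r) x b := by
  obtain ⟨h0, hspan⟩ := hb
  refine ⟨pow_ne_zero r h0, ?_⟩
  unfold LS.span at hspan ⊢
  apply le_antisymm
  · rw [Submodule.span_le]
    rintro _ ⟨i, rfl⟩
    have hi : w i ∈ Submodule.span (X.presheaf.stalk x) ({w b} : Set X.functionField) := by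
      rw [← hspan]
      exact Submodule.subset_span ⟨i, rfl⟩
    obtain ⟨a, ha⟩ := Submodule.mem_span_singleton.mp hi
    refine Submodule.mem_span_singleton.mpr ⟨a ^ r, ?_⟩
    change a ^ r • w b ^ r = w i ^ r
    rw [← ha, Algebra.smul_def, Algebra.smul_def, map_pow, mul_pow]
  · rw [Submodule.span_le]
    intro y hy
    rw [Set.mem_singleton_iff] at hy
    subst hy
    exact Submodule.subset_span ⟨b, rfl⟩

theorem genAt_of_genAt_pow (w : ι → X.functionField) (r : ℕ) (hr : 0 < r) (x : X) (b : ι)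
    (hbpf : LS.BPF w) (hb : LS.GenAt (fun i => w i ^ r) x b) : LS.GenAt w x b := by
  obtain ⟨b', hb'0, hb'⟩ := hbpf x
  obtain ⟨hb0, hbr⟩ := hb
  have hwb0 : w b ≠ 0 := by
    intro h
    apply hb0
    change w b ^ r = 0
    rw [h, zero_pow hr.ne']
  refine ⟨hwb0, ?_⟩
  unfold LS.span at hb' hbr ⊢
  -- `w b = a • w b'`
  have h1 : w b ∈ Submodule.span (X.presheaf.stalk x) ({w b'} : Set X.functionField) := by
    rw [← hb']
    exact Submodule.subset_span ⟨b, rfl⟩
  obtain ⟨a, ha⟩ := Submodule.mem_span_singleton.mp h1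
  -- `w b' ^ r = c • w b ^ r`
  have h2 : w b' ^ r ∈ Submodule.span (X.presheaf.stalk x) ({w b ^ r} : Set X.functionField) := by
    rw [← hbr]
    exact Submodule.subset_span ⟨b', rfl⟩
  obtain ⟨c, hc⟩ := Submodule.mem_span_singleton.mp h2
  -- `c * a ^ r = 1`
  have h3 : algebraMap (X.presheaf.stalk x) X.functionField (c * a ^ r) = 1 := by
    have h4 : algebraMap (X.presheaf.stalk x) X.functionField (c * a ^ r) * w b' ^ r =
        1 * w b' ^ r := by
      rw [one_mul]
      conv_rhs => rw [← hc, ← ha]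
      rw [Algebra.smul_def, Algebra.smul_def, map_mul, map_pow, mul_pow, mul_assoc]
    exact mul_right_cancel₀ (pow_ne_zero r hb'0) h4
  have h5 : c * a ^ r = 1 := by
    apply IsFractionRing.injective (X.presheaf.stalk x) X.functionField
    rw [h3, map_one]
  have hunit : IsUnit a := by
    obtain ⟨k, rfl⟩ : ∃ k, r = k + 1 := ⟨r - 1, by omega⟩
    refine IsUnit.of_mul_eq_one (c * a ^ k) ?_
    rw [← h5, pow_succ]
    ring
  rw [hb', ← ha, Submodule.span_singleton_smul_eq hunit]

theorem good_pow (w : ι → X.functionField) (r : ℕ) (hr : 0 < r) (hw : LS.Good w) :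
    LS.Good (fun i => w i ^ r) := by
  obtain ⟨hbpf, haff⟩ := hw
  refine ⟨fun x => ?_, fun b => ?_⟩
  · obtain ⟨b, hb⟩ := hbpf x
    exact ⟨b, genAt_pow w r x b hb⟩
  · obtain ⟨U, hU, hx⟩ := haff b
    exact ⟨U, hU, fun x => (hx x).trans
      ⟨genAt_pow w r x b, genAt_of_genAt_pow w r hr x b hbpf⟩⟩

theorem ratios_pow {g : ℕ} (w : Fin (g + 1) → X.functionField) (r : ℕ) :
    LS.ratios (fun i => w i ^ r) = fun i => LS.ratios w i ^ r := by
  funext i
  unfold LS.ratios
  exact (div_pow _ _ _).symm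

variable {K : Type u} [Field K]

theorem indep_pow (str : X ⟶ Spec (CommRingCat.of K)) {g : ℕ}
    (w : Fin (g + 1) → X.functionField) (r : ℕ) (hr : 0 < r) (hw : LS.Indep str w) :
    LS.Indep str (fun i => w i ^ r) := by
  unfold LS.Indep at hw ⊢
  intro p hp
  rw [ratios_pow] at hp
  have h1 : MvPolynomial.eval₂ (ffStr str) (LS.ratios w) (MvPolynomial.expand r p) = 0 := by
    rw [MvPolynomial.eval₂_expand]
    exact hp
  exact (MvPolynomial.expand_eq_zero hr).mp (hw _ h1)

theorem deg_pow (str : X ⟶ Spec (CommRingCat.of K)) {g : ℕ}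
    (w : Fin (g + 1) → X.functionField) (r : ℕ) (hr : 0 < r) (hw : LS.Indep str w) :
    LS.deg str (fun i => w i ^ r) = r ^ g * LS.deg str w := by
  unfold LS.deg LS.coordField
  rw [ratios_pow]
  exact finrank_closure_range_pow (ffStr str) (LS.ratios w) hw r hr

end Pow

/-- **LSPow** (`SpecDeg.lean`). -/
theorem lsPow (K : Type u) [Field K] [IsAlgClosed K] : Stmt.LSPow K := by
  intro X _ str g w r hr hgood hind
  exact ⟨good_pow w r hr hgood, indep_pow str w r hr hind, deg_pow str w r hr hind⟩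

end

end Fermat.Agent.S26.LS.H798

end
-- ===== PACK-END S26/LS/H798/Pow.lean

-- ===== PACK-BEGIN S26/Beta/H867/Beta.lean
section
/-
Row S26, block BETA (helper867): the frozen statement `Stmt.Beta` of `SpecDeg.lean`.

  theorem beta [IsAlgClosed K] : Stmt.Beta K

and the stronger `deg_eq_of_bpf` (only `LS.BPF`, `LS.Same`, `LS.Indep` and properness are used;
`LS.Good`, i.e. affineness of the charts, is not needed, nor is `IsAlgClosed`).

Route (no product `X × T`, no family, no discrete valuation ring):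
* `exists_stalk_le_valuationSubring`: valuative criterion at the generic point — a valuation
  ring of `K(X)` containing `K` contains the local ring of some point of `X`;
* `valBPF_of_bpf_same`: hence at every such valuation ring some `w b` divides all `w' j`;
* `BetaAlg.finrank_coordSub_eq`: integrality over the Rees algebra + Hilbert-function sandwich.
-/



set_option autoImplicit false

universe u

open CategoryTheory AlgebraicGeometry

namespace Fermat.Agent.S26.Beta.H867

variable {K : Type u} [Field K] {X : Scheme.{u}} [IsIntegral X]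

theorem fromSpecStalk_comp_str (str : X ⟶ Spec (CommRingCat.of K)) :
    X.fromSpecStalk (genericPoint X) ≫ str = Spec.map (CommRingCat.ofHom (ffStr str)) := by
  have h1 : CommRingCat.ofHom (ffStr str) =
      (Scheme.ΓSpecIso (CommRingCat.of K)).inv ≫ str.appTop ≫
        X.presheaf.germ ⊤ (genericPoint X) (TopologicalSpace.Opens.mem_top _) := rfl
  rw [h1, Spec.map_comp, Spec.map_comp, ← Scheme.fromSpecStalk_toSpecΓ]
  simp only [Category.assoc]
  rw [← Scheme.toSpecΓ_naturality_assoc, toSpecΓ_SpecMap_ΓSpecIso_inv, Category.comp_id]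

/-- Valuative criterion at the generic point: a valuation ring of the function field
containing the constants contains the local ring of some point. -/
theorem exists_stalk_le_valuationSubring (str : X ⟶ Spec (CommRingCat.of K)) [IsProper str]
    (V : ValuationSubring X.functionField) (hV : ∀ c : K, ffStr str c ∈ V) :
    ∃ x : X, ∀ f : X.presheaf.stalk x,
      algebraMap (X.presheaf.stalk x) X.functionField f ∈ V := by
  have hc : ValuativeCriterion.Existence str := by
    have : UniversallyClosed str := inferInstance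
    rw [UniversallyClosed.eq_valuativeCriterion] at this
    exact this.1
  let φ : K →+* V := (ffStr str).codRestrict V.toSubring hV
  have hsq : CommSq (X.fromSpecStalk (genericPoint X))
      (Spec.map (CommRingCat.ofHom (algebraMap V X.functionField))) str
      (Spec.map (CommRingCat.ofHom φ)) := by
    have e : CommRingCat.ofHom (ffStr str) =
        CommRingCat.ofHom φ ≫ CommRingCat.ofHom (algebraMap V X.functionField) := rfl
    exact ⟨(fromSpecStalk_comp_str str).trans ((congrArg Spec.map e).trans (Spec.map_comp _ _))⟩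
  let S : ValuativeCommSq str :=
    ⟨V, X.functionField, X.fromSpecStalk (genericPoint X), Spec.map (CommRingCat.ofHom φ), hsq⟩
  obtain ⟨⟨l, hl₁, -⟩⟩ := (hc S).exists_lift
  replace hl₁ : Spec.map (CommRingCat.ofHom (algebraMap V X.functionField)) ≫ l =
      X.fromSpecStalk (genericPoint X) := hl₁
  refine ⟨l (IsLocalRing.closedPoint V), fun f => ?_⟩
  have hspec : genericPoint X ⤳ l (IsLocalRing.closedPoint V) :=
    (genericPoint_spec X).specializes trivial
  have h2 : Spec.map (Scheme.stalkClosedPointTo l ≫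
      CommRingCat.ofHom (algebraMap V X.functionField)) ≫
        X.fromSpecStalk (l (IsLocalRing.closedPoint V)) =
      Spec.map (X.presheaf.stalkSpecializes hspec) ≫
        X.fromSpecStalk (l (IsLocalRing.closedPoint V)) := by
    rw [Scheme.SpecMap_stalkSpecializes_fromSpecStalk, Spec.map_comp, Category.assoc,
      Scheme.Spec_stalkClosedPointTo_fromSpecStalk, hl₁]
  have h3 := Spec.map_injective ((cancel_mono _).mp h2)
  have h4 : algebraMap (X.presheaf.stalk (l (IsLocalRing.closedPoint V))) X.functionField f =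
      (X.presheaf.stalkSpecializes hspec).hom f := rfl
  rw [h4, ← h3]
  exact ((Scheme.stalkClosedPointTo l).hom f).2

/-- A base point free system `w` dominates, at every valuation ring of the function field
containing the constants, every system `w'` generating the same fractional ideals. -/
theorem valBPF_of_bpf_same (str : X ⟶ Spec (CommRingCat.of K)) [IsProper str] {ι ι' : Type}
    (w : ι → X.functionField) (w' : ι' → X.functionField) (hbpf : LS.BPF w)
    (hsame : LS.Same w w') :
    @ValBPF K X.functionField _ _ (ffStr str).toAlgebra ι ι' w w' := by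
  intro V hV
  obtain ⟨x, hx⟩ := exists_stalk_le_valuationSubring str V hV
  obtain ⟨b, hb0, hspan⟩ := hbpf x
  refine ⟨b, hb0, fun j => ?_⟩
  have hj : w' j ∈ LS.span w' x := Submodule.subset_span ⟨j, rfl⟩
  rw [← hsame x, hspan] at hj
  obtain ⟨a, ha⟩ := Submodule.mem_span_singleton.mp hj
  rw [← ha, Algebra.smul_def, mul_div_assoc, div_self hb0, mul_one]
  exact hx a

/-- **BETA** (stronger form): only base point freeness is used. -/
theorem deg_eq_of_bpf (str : X ⟶ Spec (CommRingCat.of K)) [IsProper str] (g : ℕ)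
    (w w' : Fin (g + 1) → X.functionField) (hw : LS.BPF w) (hw' : LS.BPF w')
    (hsame : LS.Same w w') (hi : LS.Indep str w) (hi' : LS.Indep str w') :
    LS.deg str w = LS.deg str w' := by
  letI := (ffStr str).toAlgebra
  have h := valBPF_of_bpf_same str w w' hw hsame
  have h' := valBPF_of_bpf_same str w' w hw' (fun x => (hsame x).symm)
  exact finrank_coordSub_eq w w' h h' hi hi'

/-- **BETA**: the frozen statement `Stmt.Beta` of `SpecDeg.lean`. -/
theorem beta [IsAlgClosed K] : Stmt.Beta K := by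
  intro X _ str _ g w w' hw hw' hsame hi hi'
  exact deg_eq_of_bpf str g w w' hw.1 hw'.1 hsame hi hi'

end Fermat.Agent.S26.Beta.H867

end
-- ===== PACK-END S26/Beta/H867/Beta.lean

-- ===== PACK-BEGIN S26/H87/BetaB2.lean
section





/-!
# Row S26, block BETA, leaf B2 (helper87) — linear system form

`Y` integral, proper over `Spec R₀`; `u : Fin (g + 1) → K(Y)` a base point free system, and `U` an
affine open with `U = D_0(u) = {x | u 0 generates the system at x}`.  Then the affine
coordinates `u i / u 0` are sections `t i ∈ Γ(Y, U)` and `Γ(Y, U)` is a finite module over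
`R₀[X_1, …, X_g]` (`X_i ↦ t i`): the morphism `D_0(u) ⟶ 𝔸^g` is finite.
-/

set_option autoImplicit false

universe u

open CategoryTheory AlgebraicGeometry TopologicalSpace Opposite

namespace Fermat.Agent.S26.H87

open Fermat.Agent.S26

noncomputable section

variable {Y : Scheme.{u}} [IsIntegral Y] {g : ℕ} (u : Fin (g + 1) → Y.functionField)

/-- On `D_0(u)` the affine coordinates are regular. -/
theorem ratio_mem_range_of_genAt {x : Y} (h : LS.GenAt u x 0) (i : Fin g) :
    LS.ratios u i ∈ Set.range (algebraMap (Y.presheaf.stalk x) Y.functionField) := by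
  obtain ⟨h0, hspan⟩ := h
  have hmem : u i.succ ∈ LS.span u x := Submodule.subset_span ⟨i.succ, rfl⟩
  rw [hspan, Submodule.mem_span_singleton] at hmem
  obtain ⟨a, ha⟩ := hmem
  refine ⟨a, ?_⟩
  rw [LS.ratios, ← ha, Algebra.smul_def, mul_div_assoc, div_self h0, mul_one]

/-- The affine coordinates of a system as sections over (an open inside) `D_0(u)`. -/
theorem exists_sections_of_genAt (U : Y.Opens) (hU : ∀ x, x ∈ U → LS.GenAt u x 0) :
    ∃ t : Fin g → Γ(Y, U), ∀ (i : Fin g) (hη : genericPoint Y ∈ U),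
      Y.presheaf.germ U (genericPoint Y) hη (t i) = LS.ratios u i := by
  have h : ∀ i : Fin g, ∃ s : Γ(Y, U), ∀ hη : genericPoint Y ∈ U,
      Y.presheaf.germ U (genericPoint Y) hη s = LS.ratios u i := fun i =>
    exists_section_of_forall_mem_range U (LS.ratios u i)
      (fun x hx => ratio_mem_range_of_genAt u (hU x hx) i)
  choose t ht using h
  exact ⟨t, ht⟩

/-- An open not containing the generic point is empty. -/
theorem eq_bot_of_genericPoint_notMem (V : Y.Opens) (h : genericPoint Y ∉ V) : V = ⊥ := by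
  ext x
  simp only [SetLike.mem_coe, Opens.coe_bot, Set.mem_empty_iff_false, iff_false]
  exact fun hx => h (genericPoint_mem_of_mem hx)

/-- **The pole condition of a base point free system**: outside `D_0(u)` one of the affine
coordinates `u i / u 0` has a pole. -/
theorem poleCond_of_bpf (hbpf : LS.BPF u) (U : Y.Opens)
    (hU : ∀ x, x ∈ U ↔ LS.GenAt u x 0) (t : Fin g → Γ(Y, U))
    (ht : ∀ (i : Fin g) (hη : genericPoint Y ∈ U),
      Y.presheaf.germ U (genericPoint Y) hη (t i) = LS.ratios u i) : PoleCond U t := by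
  intro P hP
  obtain ⟨b, hb0, hb⟩ := hbpf P
  have hbne : b ≠ 0 := by
    rintro rfl
    exact hP ((hU P).mpr ⟨hb0, hb⟩)
  obtain ⟨i, rfl⟩ := Fin.exists_succ_eq.mpr hbne
  by_cases hη : genericPoint Y ∈ U
  · -- the main case
    have h0 : u 0 ≠ 0 := ((hU _).mp hη).1
    have hmem : u 0 ∈ LS.span u P := Submodule.subset_span ⟨0, rfl⟩
    rw [hb, Submodule.mem_span_singleton] at hmem
    obtain ⟨a, ha⟩ := hmem
    have hau : ¬ IsUnit a := by
      intro hau
      apply hP
      rw [hU]
      refine ⟨h0, ?_⟩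
      rw [hb, ← ha]
      exact (Submodule.span_singleton_smul_eq hau (u i.succ)).symm
    obtain ⟨W, hPW, τ, hτ⟩ := Y.presheaf.exists_germ_eq a
    refine ⟨i, W, τ, hPW, ?_, ?_⟩
    · rw [Scheme.mem_basicOpen _ _ _ hPW, hτ]
      exact hau
    · have hηW : genericPoint Y ∈ W := genericPoint_mem_of_mem hPW
      have hηUW : genericPoint Y ∈ U ⊓ W := ⟨hη, hηW⟩
      apply eq_of_germ_genericPoint_eq hηUW
      rw [map_mul, map_one, germ_genericPoint_res, germ_genericPoint_res, ht i hη,
        ← algebraMap_germ hPW, hτ]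
      have ha' : algebraMap (Y.presheaf.stalk P) Y.functionField a * u i.succ = u 0 := by
        rw [← Algebra.smul_def]
        exact ha
      have ha0 : algebraMap (Y.presheaf.stalk P) Y.functionField a ≠ 0 := by
        intro h
        rw [h, zero_mul] at ha'
        exact h0 ha'.symm
      rw [LS.ratios, ← ha']
      field_simp
  · -- `U` is empty
    have hUbot : U ⊓ (⊤ : Y.Opens) = ⊥ := by
      rw [inf_top_eq]
      exact eq_bot_of_genericPoint_notMem U hη
    refine ⟨i, ⊤, 0, trivial, ?_, ?_⟩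
    · rw [Scheme.basicOpen_zero]
      exact fun h => h
    · have hsub : Subsingleton Γ(Y, U ⊓ (⊤ : Y.Opens)) := by
        rw [hUbot]
        infer_instance
      exact Subsingleton.elim _ _

variable {R₀ : Type u} [CommRing R₀] (f : Y ⟶ Spec (CommRingCat.of R₀))

/-- **Leaf B2 (linear system form).**  `Y` integral and proper over `Spec R₀`, `u` a base point
free system of `g + 1` rational functions, `U = D_0(u)` affine.  Then the affine coordinates
`u i / u 0` are sections `t i` over `U`, and `Γ(Y, U)` is finite over `R₀[X_1, …, X_g]`. -/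
theorem exists_finite_of_bpf [IsProper f] (hbpf : LS.BPF u) (U : Y.Opens) (hUaff : IsAffineOpen U)
    (hU : ∀ x, x ∈ U ↔ LS.GenAt u x 0) :
    ∃ t : Fin g → Γ(Y, U),
      (∀ (i : Fin g) (hη : genericPoint Y ∈ U),
        Y.presheaf.germ U (genericPoint Y) hη (t i) = LS.ratios u i) ∧
      (tRingHom f U t).Finite ∧ IsFinite (tMap f U t) := by
  obtain ⟨t, ht⟩ := exists_sections_of_genAt u U (fun x hx => (hU x).mp hx)
  have hpole := poleCond_of_bpf u hbpf U hU t ht
  exact ⟨t, ht, finite_tRingHom f U hUaff t hpole, isFinite_tMap f U hUaff t hpole⟩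

end

end Fermat.Agent.S26.H87

end
-- ===== PACK-END S26/H87/BetaB2.lean

-- ===== PACK-BEGIN S37/H518/OrdGE.lean
section



/-!
# S37 / RIM (helper518): "vanishing to order at least `n`" at a place

`OrdGE v n f` means `f = 0 ∨ n ≤ v.ord f`.  This removes the junk value `ord 0 = 0` from all
ultrametric arguments.  Built on helper504's `PlaceOrd` / `Residue` API (on main).
-/

set_option autoImplicit false

namespace Fermat.Agent.S37.H518

open AlgebraicCurve Fermat.Agent.S24.H504

variable {K F : Type*} [Field K] [Field F] [Algebra K F] (v : Place K F)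

/-- `f` vanishes to order at least `n` at `v` (and `0` vanishes to every order). -/
def OrdGE (n : ℤ) (f : F) : Prop := f = 0 ∨ n ≤ v.ord f

variable {v}

theorem ordGE_zero_right (n : ℤ) : OrdGE v n (0 : F) := Or.inl rfl

theorem OrdGE.mono {m n : ℤ} {f : F} (h : OrdGE v n f) (hmn : m ≤ n) : OrdGE v m f := by
  rcases h with rfl | h
  · exact ordGE_zero_right m
  · exact Or.inr (hmn.trans h)

theorem ordGE_of_ord {n : ℤ} {f : F} (h : n ≤ v.ord f) : OrdGE v n f := Or.inr h

theorem OrdGE.le_ord {n : ℤ} {f : F} (h : OrdGE v n f) (hf : f ≠ 0) : n ≤ v.ord f :=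
  h.resolve_left hf

theorem ordGE_zero_iff {f : F} : OrdGE v 0 f ↔ 0 ≤ v.ord f := by
  constructor
  · rintro (rfl | h)
    · simp
    · exact h
  · exact fun h => Or.inr h

theorem ordGE_one_iff {f : F} : OrdGE v 1 f ↔ InMax v f := by
  unfold OrdGE InMax
  constructor
  · rintro (h | h)
    · exact Or.inl h
    · exact Or.inr (by omega)
  · rintro (h | h)
    · exact Or.inl h
    · exact Or.inr (by omega)

theorem OrdGE.add {n : ℤ} {f g : F} (hf : OrdGE v n f) (hg : OrdGE v n g) :
    OrdGE v n (f + g) := by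
  rcases eq_or_ne f 0 with rfl | hf0
  · rwa [zero_add]
  rcases eq_or_ne g 0 with rfl | hg0
  · rwa [add_zero]
  by_cases h0 : f + g = 0
  · exact Or.inl h0
  exact Or.inr ((le_min (hf.resolve_left hf0) (hg.resolve_left hg0)).trans
    (ord_add_ge v hf0 hg0 h0))

theorem OrdGE.neg {n : ℤ} {f : F} (hf : OrdGE v n f) : OrdGE v n (-f) := by
  rcases hf with rfl | hf
  · simpa using ordGE_zero_right (v := v) n
  · exact Or.inr (by rwa [ord_neg])

theorem OrdGE.sub {n : ℤ} {f g : F} (hf : OrdGE v n f) (hg : OrdGE v n g) :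
    OrdGE v n (f - g) := by
  rw [sub_eq_add_neg]
  exact hf.add hg.neg

theorem OrdGE.mul {m n : ℤ} {f g : F} (hf : OrdGE v m f) (hg : OrdGE v n g) :
    OrdGE v (m + n) (f * g) := by
  rcases hf with rfl | hf
  · left; simp
  rcases hg with rfl | hg
  · left; simp
  rcases eq_or_ne f 0 with rfl | hf0
  · left; simp
  rcases eq_or_ne g 0 with rfl | hg0
  · left; simp
  right
  rw [v.ord_mul hf0 hg0]
  omega

theorem OrdGE.mul_left {n : ℤ} {f g : F} (hg : OrdGE v n g) (hf : OrdGE v 0 f) :
    OrdGE v n (f * g) := by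
  simpa using hf.mul hg

theorem OrdGE.mul_right {n : ℤ} {f g : F} (hf : OrdGE v n f) (hg : OrdGE v 0 g) :
    OrdGE v n (f * g) := by
  simpa using hf.mul hg

theorem ordGE_algebraMap (c : K) : OrdGE v 0 (algebraMap K F c) :=
  Or.inr (by rw [ord_algebraMap])

theorem OrdGE.const_mul {n : ℤ} {f : F} (hf : OrdGE v n f) (c : K) :
    OrdGE v n (algebraMap K F c * f) :=
  hf.mul_left (ordGE_algebraMap c)

theorem OrdGE.smul {n : ℤ} {f : F} (hf : OrdGE v n f) (c : K) : OrdGE v n (c • f) := by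
  rw [Algebra.smul_def]
  exact hf.const_mul c

theorem ordGE_one_right : OrdGE v 0 (1 : F) := Or.inr (by simp)

theorem OrdGE.pow {n : ℤ} {f : F} (hf : OrdGE v n f) (k : ℕ) : OrdGE v (k * n) (f ^ k) := by
  induction k with
  | zero => simpa using ordGE_one_right (v := v)
  | succ k ih =>
    rw [pow_succ]
    have := ih.mul hf
    convert this using 1
    push_cast
    ring

theorem ordGE_sum {ι : Type*} (s : Finset ι) {n : ℤ} (f : ι → F)
    (h : ∀ i ∈ s, OrdGE v n (f i)) : OrdGE v n (∑ i ∈ s, f i) := by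
  classical
  induction s using Finset.induction_on with
  | empty => simpa using ordGE_zero_right (v := v) n
  | insert a s ha ih =>
    rw [Finset.sum_insert ha]
    exact (h a (Finset.mem_insert_self a s)).add
      (ih fun i hi => h i (Finset.mem_insert_of_mem hi))

theorem ordGE_prod_nonneg {ι : Type*} (s : Finset ι) (f : ι → F)
    (h : ∀ i ∈ s, OrdGE v 0 (f i)) : OrdGE v 0 (∏ i ∈ s, f i) := by
  classical
  induction s using Finset.induction_on with
  | empty => simpa using ordGE_one_right (v := v)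
  | insert a s ha ih =>
    rw [Finset.prod_insert ha]
    exact (h a (Finset.mem_insert_self a s)).mul_right
      (ih fun i hi => h i (Finset.mem_insert_of_mem hi))

theorem not_ordGE_of_ord_lt {n : ℤ} {f : F} (hf : f ≠ 0) (h : v.ord f < n) : ¬ OrdGE v n f := by
  rintro (h0 | h1)
  · exact hf h0
  · omega

/-- Leading-term principle: a nonzero `f` plus something of strictly larger order has the
order of `f`. -/
theorem ord_add_of_ordGE {f g : F} (hf : f ≠ 0) (hg : OrdGE v (v.ord f + 1) g) :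
    f + g ≠ 0 ∧ v.ord (f + g) = v.ord f := by
  rcases hg with rfl | hg
  · simpa using hf
  rcases eq_or_ne g 0 with rfl | hg0
  · simpa using hf
  have hlt : v.ord f < v.ord g := by omega
  have h := ord_add_eq_of_lt v hf hg0 hlt
  refine ⟨?_, h⟩
  intro h0
  have : g = -f := by linear_combination h0
  rw [this, ord_neg] at hlt
  exact lt_irrefl _ hlt

theorem OrdGE.div {m n : ℤ} {f g : F} (hf : OrdGE v m f) (hg0 : g ≠ 0) (hg : v.ord g = n) :
    OrdGE v (m - n) (f / g) := by
  rcases hf with rfl | hf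
  · left; simp
  rcases eq_or_ne f 0 with rfl | hf0
  · left; simp
  right
  rw [ord_div v hf0 hg0]
  omega

/-- The value of a function at a place is unique. -/
theorem value_unique {f : F} {c c' : K} (h : InMax v (f - algebraMap K F c))
    (h' : InMax v (f - algebraMap K F c')) : c = c' := by
  by_contra hne
  have h1 : InMax v (algebraMap K F (c' - c)) := by
    have := h.sub h'
    have e : f - algebraMap K F c - (f - algebraMap K F c') = algebraMap K F (c' - c) := by
      rw [map_sub]; ring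
    rwa [e] at this
  exact not_inMax_algebraMap (sub_ne_zero.mpr (Ne.symm hne)) h1

theorem inMax_of_ordGE {n : ℤ} {f : F} (hn : 1 ≤ n) (h : OrdGE v n f) : InMax v f :=
  ordGE_one_iff.mp (h.mono hn)

theorem InMax.ordGE {f : F} (h : InMax v f) : OrdGE v 1 f := ordGE_one_iff.mpr h

theorem InMax.ordGE_zero {f : F} (h : InMax v f) : OrdGE v 0 f :=
  (InMax.ordGE h).mono (by norm_num)

/-- A unit (order `0`, nonzero) is not in the maximal ideal. -/
theorem not_inMax_of_ord_eq_zero {f : F} (hf : f ≠ 0) (h : v.ord f = 0) : ¬ InMax v f := by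
  rintro (h0 | h1)
  · exact hf h0
  · omega

end Fermat.Agent.S37.H518

end
-- ===== PACK-END S37/H518/OrdGE.lean

-- ===== PACK-BEGIN Lib/Haupt/Coeffs.lean
section


/-!
# The four formal modular identities, up to the Sturm bound (helper637)

`Phi1 … Phi4 : PowerSeries ℤ` are the differences of the two sides of the modular-form identities
behind the Hauptmodul relations for `Γ₀(2)` and `Γ₀(3)`.  Here we check by a kernel computation
that their coefficients vanish up to the Sturm bound.
-/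

set_option autoImplicit false

noncomputable section

namespace Fermat.Agent.Lib.Haupt

open PowerSeries

/-- The formal `E₄`. -/
abbrev E4Z : PowerSeries ℤ := ModularCurve.eisenstein4

/-- The formal `Δ = X · ∏ (1 - Xⁿ)²⁴` over `ℤ`. -/
def DeltaZ : PowerSeries ℤ := X * ModularCurve.etaProd ^ 24

/-- `f(X^d)`. -/
abbrev ex (d : ℕ) [NeZero d] (f : PowerSeries ℤ) : PowerSeries ℤ := expand d (NeZero.ne d) f

/-- `E₄³ Δ Δ₂ - (Δ + 256 Δ₂)³`. -/
def Phi1 : PowerSeries ℤ :=
  E4Z ^ 3 * (DeltaZ * ex 2 DeltaZ) - (DeltaZ + C 256 * ex 2 DeltaZ) ^ 3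

/-- `E₄(2τ)³ Δ Δ₂ - (Δ + 16 Δ₂)³`. -/
def Phi2 : PowerSeries ℤ :=
  ex 2 E4Z ^ 3 * (DeltaZ * ex 2 DeltaZ) - (DeltaZ + C 16 * ex 2 DeltaZ) ^ 3

/-- `Δ Δ₃ (E₄³ - 756 Δ - 19131876 Δ₃)² - (Δ² + 196830 Δ Δ₃ + 387420489 Δ₃²)²`. -/
def Phi3 : PowerSeries ℤ :=
  (DeltaZ * ex 3 DeltaZ) * (E4Z ^ 3 - (C 756 * DeltaZ + C 19131876 * ex 3 DeltaZ)) ^ 2
    - (DeltaZ ^ 2 + (C 196830 * (DeltaZ * ex 3 DeltaZ) + C 387420489 * ex 3 DeltaZ ^ 2)) ^ 2

/-- `Δ Δ₃ (E₄(3τ)³ - 36 Δ - 756 Δ₃)² - (Δ² + 270 Δ Δ₃ + 729 Δ₃²)²`. -/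
def Phi4 : PowerSeries ℤ :=
  (DeltaZ * ex 3 DeltaZ) * (ex 3 E4Z ^ 3 - (C 36 * DeltaZ + C 756 * ex 3 DeltaZ)) ^ 2
    - (DeltaZ ^ 2 + (C 270 * (DeltaZ * ex 3 DeltaZ) + C 729 * ex 3 DeltaZ ^ 2)) ^ 2

theorem tr_DeltaZ (M : ℕ) : tr M DeltaZ = lshift M 1 (lpow M (lEuler M M) 24) := by
  rw [DeltaZ, ← pow_one (X : PowerSeries ℤ), tr_X_pow_mul, tr_pow, tr_etaProd]

set_option maxRecDepth 1000000 in
theorem tr_Phi1 : tr 13 Phi1 = List.replicate 13 0 := by
  simp only [Phi1, tr_sub, tr_mul, tr_pow, tr_add, tr_C, tr_expand, tr_DeltaZ,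
    tr_eisenstein4]
  decide

end Fermat.Agent.Lib.Haupt

namespace Fermat.Agent.Lib.Haupt

open PowerSeries

set_option maxRecDepth 1000000 in
theorem tr_Phi2 : tr 13 Phi2 = List.replicate 13 0 := by
  simp only [Phi2, tr_sub, tr_mul, tr_pow, tr_add, tr_C, tr_expand, tr_DeltaZ,
    tr_eisenstein4]
  decide

set_option maxRecDepth 1000000 in
theorem tr_Phi3 : tr 37 Phi3 = List.replicate 37 0 := by
  simp only [Phi3, tr_sub, tr_mul, tr_pow, tr_add, tr_C, tr_expand, tr_DeltaZ,
    tr_eisenstein4]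
  decide

set_option maxRecDepth 1000000 in
theorem tr_Phi4 : tr 37 Phi4 = List.replicate 37 0 := by
  simp only [Phi4, tr_sub, tr_mul, tr_pow, tr_add, tr_C, tr_expand, tr_DeltaZ,
    tr_eisenstein4]
  decide

theorem coeff_Phi1 {n : ℕ} (hn : n < 13) : coeff n Phi1 = 0 := coeff_eq_zero_of_tr_eq tr_Phi1 hn
theorem coeff_Phi2 {n : ℕ} (hn : n < 13) : coeff n Phi2 = 0 := coeff_eq_zero_of_tr_eq tr_Phi2 hn
theorem coeff_Phi3 {n : ℕ} (hn : n < 37) : coeff n Phi3 = 0 := coeff_eq_zero_of_tr_eq tr_Phi3 hn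
theorem coeff_Phi4 {n : ℕ} (hn : n < 37) : coeff n Phi4 = 0 := coeff_eq_zero_of_tr_eq tr_Phi4 hn

end Fermat.Agent.Lib.Haupt

end
end
-- ===== PACK-END Lib/Haupt/Coeffs.lean

-- ===== PACK-BEGIN S30/H990/Lattice.lean
section
/-
S30 top glue (helper990): pure algebra, part 4.
Restriction of a representation to a stable saturated lattice; congruences pass to saturated
lattices; rank one lattices give characters.
-/


set_option autoImplicit false

namespace Fermat.Agent.S30.H990

open Module Polynomial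

section Restrict

variable {𝒪 M G : Type*} [CommRing 𝒪] [AddCommGroup M] [Module 𝒪 M] [Group G]

/-- Restriction of a representation to a stable submodule. -/
def restrictRep (ρ : G →* Module.End 𝒪 M) (Λ : Submodule 𝒪 M)
    (h : ∀ g, ∀ x ∈ Λ, ρ g x ∈ Λ) : G →* Module.End 𝒪 Λ where
  toFun g := (ρ g).restrict (h g)
  map_one' := by
    ext x
    simp
  map_mul' g g' := by
    ext x
    simp

@[simp] theorem restrictRep_apply (ρ : G →* Module.End 𝒪 M) (Λ : Submodule 𝒪 M)
    (h : ∀ g, ∀ x ∈ Λ, ρ g x ∈ Λ) (g : G) (x : Λ) :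
    ((restrictRep ρ Λ h g x : Λ) : M) = ρ g (x : M) := rfl

theorem rel_restrictRep (ρ : G →* Module.End 𝒪 M) (d : G →* 𝒪ˣ) (Λ : Submodule 𝒪 M)
    (h : ∀ g, ∀ x ∈ Λ, ρ g x ∈ Λ) {g : G} {a : 𝒪} (hr : Rel ρ d g a) :
    Rel (restrictRep ρ Λ h) d g a := by
  unfold Rel
  ext x
  have := rel_apply ρ d hr (x : M)
  simpa using this

end Restrict

section SatCong

variable {𝒪 M : Type*} [CommRing 𝒪] [IsDomain 𝒪] [IsPrincipalIdealRing 𝒪]
  [AddCommGroup M] [Module 𝒪 M]

/-- Congruences modulo an ideal pass to saturated submodules. -/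
theorem mem_smul_top_sat (N : Submodule 𝒪 M) (I : Ideal 𝒪) (x : sat N)
    (hx : (x : M) ∈ I • (⊤ : Submodule 𝒪 M)) :
    x ∈ I • (⊤ : Submodule 𝒪 (sat N)) := by
  obtain ⟨ϖ, hϖ⟩ := IsPrincipalIdealRing.principal I
  have hI : I = Ideal.span {ϖ} := hϖ
  rw [hI, Submodule.ideal_span_singleton_smul, Submodule.mem_smul_pointwise_iff_exists] at hx
  obtain ⟨m, -, hm⟩ := hx
  by_cases h0 : ϖ = 0
  · have : x = 0 := by
      apply Subtype.ext
      rw [← hm, h0, zero_smul]; rfl
    rw [this]; exact Submodule.zero_mem _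
  · have hmem : m ∈ sat N := by
      apply mem_sat_of_smul_mem h0
      rw [hm]; exact x.2
    have : x = ϖ • (⟨m, hmem⟩ : sat N) := Subtype.ext hm.symm
    rw [this]
    exact Submodule.smul_mem_smul (hI ▸ Ideal.subset_span (Set.mem_singleton ϖ))
      Submodule.mem_top

end SatCong

section RankOne

variable {𝒪 V : Type*} [CommRing 𝒪] [IsDomain 𝒪] [AddCommGroup V] [Module 𝒪 V]
  [Module.Free 𝒪 V] [Module.Finite 𝒪 V]

/-- On a free module of rank one every endomorphism is multiplication by its determinant. -/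
theorem apply_eq_det_smul (h1 : Module.finrank 𝒪 V = 1) (f : Module.End 𝒪 V) (x : V) :
    f x = LinearMap.det f • x := by
  classical
  let b : Basis (Fin 1) 𝒪 V := Module.finBasisOfFinrankEq 𝒪 V h1
  have hdet : LinearMap.det f = b.repr (f (b 0)) 0 := by
    rw [← LinearMap.det_toMatrix b f, Matrix.det_fin_one, LinearMap.toMatrix_apply]
  have hb : f (b 0) = LinearMap.det f • b 0 := by
    conv_lhs => rw [← b.sum_repr (f (b 0))]
    rw [Fin.sum_univ_one, hdet]
  have hx : x = b.repr x 0 • b 0 := by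
    conv_lhs => rw [← b.sum_repr x]
    rw [Fin.sum_univ_one]
  rw [hx, map_smul, hb, smul_comm]

/-- In a free module of rank one, `r • e ∈ I • ⊤` for a basis vector `e` forces `r ∈ I`. -/
theorem mem_of_smul_basis_mem (h1 : Module.finrank 𝒪 V = 1) (I : Ideal 𝒪) (r : 𝒪)
    (h : ∀ x : V, r • x ∈ I • (⊤ : Submodule 𝒪 V)) : r ∈ I := by
  classical
  let b : Basis (Fin 1) 𝒪 V := Module.finBasisOfFinrankEq 𝒪 V h1
  have key : ∀ y ∈ I • (⊤ : Submodule 𝒪 V), b.repr y 0 ∈ I := by
    intro y hy
    refine Submodule.smul_induction_on hy ?_ ?_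
    · intro i hi n _
      rw [map_smul, Finsupp.smul_apply, smul_eq_mul]
      exact I.mul_mem_right _ hi
    · intro y z hy hz
      rw [map_add, Finsupp.add_apply]
      exact I.add_mem hy hz
  have := key _ (h (b 0))
  rwa [map_smul, Finsupp.smul_apply, Basis.repr_self, Finsupp.single_eq_same, smul_eq_mul,
    mul_one] at this

end RankOne

end Fermat.Agent.S30.H990

end
-- ===== PACK-END S30/H990/Lattice.lean

-- ===== PACK-BEGIN S31/H22/TraceCont.lean
section


/-!
# S31 piece C (helper22): traces are locally constant modulo `m ^ n`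
-/

set_option autoImplicit false

open Polynomial

namespace Fermat.Agent.S31.H22

open Fermat.Agent.S31

/-- coordinates of an element of `I • ⊤` lie in `I` -/
lemma repr_mem_of_mem_smul_top {R : Type*} [CommRing R] {M : Type*} [AddCommGroup M] [Module R M]
    {ι : Type*} (b : Module.Basis ι R M) (I : Ideal R) {x : M}
    (hx : x ∈ I • (⊤ : Submodule R M)) (i : ι) : b.repr x i ∈ I := by
  refine Submodule.smul_induction_on (p := fun x => b.repr x i ∈ I) hx ?_ ?_
  · intro a ha w _
    rw [map_smul, Finsupp.smul_apply, smul_eq_mul]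
    exact I.mul_mem_right _ ha
  · intro x y hx hy
    rw [map_add, Finsupp.add_apply]
    exact I.add_mem hx hy

/-- an endomorphism of a finite free module with image in `I • ⊤` has trace in `I` -/
lemma trace_mem_of_range_le {R : Type*} [CommRing R] {M : Type*} [AddCommGroup M] [Module R M]
    [Module.Free R M] [Module.Finite R M] (I : Ideal R) (f : Module.End R M)
    (hf : ∀ v, f v ∈ I • (⊤ : Submodule R M)) : LinearMap.trace R M f ∈ I := by
  classical
  let b := Module.Free.chooseBasis R M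
  rw [LinearMap.trace_eq_matrix_trace R b f, Matrix.trace]
  refine I.sum_mem fun i _ => ?_
  rw [Matrix.diag_apply, LinearMap.toMatrix_apply]
  exact repr_mem_of_mem_smul_top b I (hf _) i

/-- **C**.  From `GaloisActionIsAdicContinuous`. -/
theorem trace_congr_of_agree {A : Type} [CommRing A] [IsLocalRing A] (ρ : GaloisRepAdic A)
    (n : ℕ) :
    ∃ L : IntermediateField ℚ Qb, FiniteDimensional ℚ L ∧
      ∀ g g' : GQ, (∀ x ∈ L, g x = g' x) →
        ρ.trace g - ρ.trace g' ∈ IsLocalRing.maximalIdeal A ^ n := by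
  obtain ⟨L, hL, h1⟩ := ρ.isAdicContinuous n
  refine ⟨L, hL, fun g g' hgg' => ?_⟩
  have hσ : ∀ x ∈ L, (g'⁻¹ * g) x = x := by
    intro x hx
    rw [AlgEquiv.mul_apply, hgg' x hx]
    exact (g'.symm_apply_apply x)
  have hg : g = g' * (g'⁻¹ * g) := by group
  have key : ρ.ρ g - ρ.ρ g' = ρ.ρ g' * (ρ.ρ (g'⁻¹ * g) - 1) := by
    rw [mul_sub, mul_one, ← map_mul, ← hg]
  have : ρ.trace g - ρ.trace g' = LinearMap.trace A ρ.V (ρ.ρ g' * (ρ.ρ (g'⁻¹ * g) - 1)) := by
    rw [← key, map_sub]; rfl
  rw [this]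
  refine trace_mem_of_range_le _ _ fun v => ?_
  rw [Module.End.mul_apply]
  have h2 : (ρ.ρ (g'⁻¹ * g) - 1) v ∈ (IsLocalRing.maximalIdeal A ^ n) • (⊤ : Submodule A ρ.V) := by
    simpa using h1 _ hσ v
  have h3 : ((IsLocalRing.maximalIdeal A ^ n) • (⊤ : Submodule A ρ.V)).map (ρ.ρ g') ≤
      (IsLocalRing.maximalIdeal A ^ n) • (⊤ : Submodule A ρ.V) := by
    rw [Submodule.map_smul'']
    exact Submodule.smul_mono le_rfl le_top
  exact h3 (Submodule.mem_map_of_mem h2)

end Fermat.Agent.S31.H22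

end
-- ===== PACK-END S31/H22/TraceCont.lean

-- ===== PACK-BEGIN Lib/Newform/H263/Eigenform.lean
section
/-
NEWFORM library (helper263) — part 3: consequences of the strict trivial bound for normalized
eigenforms and for the Hecke operators on `S₂(Γ₀(N))`.

* `norm_qCoeff_lt`            : `‖a_ℓ(f)‖ < ℓ + 1` for a normalized eigenform, `ℓ ∤ N`;
* `qCoeff_sq_ne`              : `a_ℓ(f)² ≠ (ℓ + 1)²`;
* `root_sq_ne_one`            : roots `α` of `X² - a_ℓ X + ℓ` satisfy `α² ≠ 1`;
* `not_isNewAt_of_root`       : an eigenform whose `q`-th coefficient is such a root is not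
                                `IsNewAt q` (`q`-old stabilisations are never new at `q`);
* `heckeTLin_sub_smul_injective/bijective`, `ribetDet_injective/bijective`, `isUnit_ribetDet` :
  `T_ℓ - c` (`‖c‖ ≥ ℓ + 1`) and `ribetDet = T_ℓ² - (ℓ + 1)²` are bijective on `S₂(Γ₀(N))`
  (the determinant of Ribet's level-raising matrix `[[ℓ+1, T_ℓ], [T_ℓ, ℓ+1]]` is invertible
  over `ℂ`).
-/




set_option autoImplicit false

open CongruenceSubgroup ModularFormClass ModularForm UpperHalfPlane

namespace Fermat.Agent.Lib.Newform.H263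

variable {N : ℕ}

/-- **Strict trivial bound** for the coefficients of a normalized eigenform at good primes. -/
theorem norm_qCoeff_lt {f : CuspForm (Gamma0 N) 2} (hf : f.IsNormalizedEigenform) {ℓ : ℕ}
    (hℓ : ℓ.Prime) (hℓN : ¬ ℓ ∣ N) : ‖qCoeff ⇑f ℓ‖ < ℓ + 1 :=
  norm_lt_of_heckeTLin_eq hf.ne_zero hℓ hℓN (H683.heckeTLin_eq_of_eigenform hf hℓ hℓN)

/-- Trivial bound for the coefficients of a normalized eigenform at bad primes. -/
theorem norm_qCoeff_le_of_dvd [NeZero N] {f : CuspForm (Gamma0 N) 2}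
    (hf : f.IsNormalizedEigenform) {q : ℕ} (hq : q.Prime) (hqN : q ∣ N) : ‖qCoeff ⇑f q‖ ≤ q :=
  norm_le_of_heckeULin_eq hf.ne_zero hq.ne_zero hqN (H683.heckeULin_eq_of_eigenform hf hq hqN)

/-- `a_ℓ(f)² ≠ (ℓ + 1)²` for a normalized eigenform and a good prime `ℓ`. -/
theorem qCoeff_sq_ne {f : CuspForm (Gamma0 N) 2} (hf : f.IsNormalizedEigenform) {ℓ : ℕ}
    (hℓ : ℓ.Prime) (hℓN : ¬ ℓ ∣ N) : qCoeff ⇑f ℓ ^ 2 ≠ ((ℓ : ℂ) + 1) ^ 2 :=
  sq_ne_of_heckeTLin_eq hf.ne_zero hℓ hℓN (H683.heckeTLin_eq_of_eigenform hf hℓ hℓN)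

/-- The roots of the Hecke polynomial `X² - a_ℓ X + ℓ` of a normalized eigenform at a good prime
are different from `±1`. -/
theorem root_sq_ne_one {f : CuspForm (Gamma0 N) 2} (hf : f.IsNormalizedEigenform) {ℓ : ℕ}
    (hℓ : ℓ.Prime) (hℓN : ¬ ℓ ∣ N) {α : ℂ} (hα : α ^ 2 - qCoeff ⇑f ℓ * α + ℓ = 0) :
    α ^ 2 ≠ 1 := by
  intro h1
  refine qCoeff_sq_ne hf hℓ hℓN ?_
  have h2 : qCoeff ⇑f ℓ * α = (ℓ : ℂ) + 1 := by
    have := hα
    rw [h1] at this
    linear_combination -this
  calc qCoeff ⇑f ℓ ^ 2 = (qCoeff ⇑f ℓ * α) ^ 2 := by rw [mul_pow, h1, mul_one]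
    _ = ((ℓ : ℂ) + 1) ^ 2 := by rw [h2]

/-- An eigenform (of any level) whose `q`-th coefficient is a root of the Hecke polynomial
`X² - a_q(f) X + q` of a normalized eigenform `f` of level prime to `q` is not `IsNewAt q`:
the `q`-old stabilisations of `f` are never new at `q`. -/
theorem not_isNewAt_of_root {f : CuspForm (Gamma0 N) 2} (hf : f.IsNormalizedEigenform) {q : ℕ}
    (hq : q.Prime) (hqN : ¬ q ∣ N) {M : ℕ} (g : CuspForm (Gamma0 M) 2)
    (hg : qCoeff ⇑g q ^ 2 - qCoeff ⇑f q * qCoeff ⇑g q + q = 0) : ¬ g.IsNewAt q :=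
  fun h ↦ root_sq_ne_one hf hq hqN hg h

/-! ### Linear algebra on `S₂(Γ₀(N))` -/

/-- `T_ℓ - c` is injective on `S₂(Γ₀(N))` as soon as `‖c‖ ≥ ℓ + 1`. -/
theorem heckeTLin_sub_smul_injective {ℓ : ℕ} (hℓ : ℓ.Prime) (hℓN : ¬ ℓ ∣ N) {c : ℂ}
    (hc : (ℓ : ℝ) + 1 ≤ ‖c‖) :
    Function.Injective
      (CuspForm.heckeTLin (N := N) 2 hℓ hℓN - c • (1 : Module.End ℂ (CuspForm (Gamma0 N) 2))) := by
  rw [← LinearMap.ker_eq_bot, LinearMap.ker_eq_bot']
  intro f hf
  by_contra hne
  have h : CuspForm.heckeTLin 2 hℓ hℓN f = c • f := by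
    have := hf
    simp only [LinearMap.sub_apply, LinearMap.smul_apply, Module.End.one_apply] at this
    exact sub_eq_zero.mp this
  exact absurd (norm_lt_of_heckeTLin_eq hne hℓ hℓN h) (not_lt.mpr hc)

/-- `T_ℓ - c` is bijective on `S₂(Γ₀(N))` as soon as `‖c‖ ≥ ℓ + 1`. -/
theorem heckeTLin_sub_smul_bijective {ℓ : ℕ} (hℓ : ℓ.Prime) (hℓN : ¬ ℓ ∣ N) {c : ℂ}
    (hc : (ℓ : ℝ) + 1 ≤ ‖c‖) :
    Function.Bijective
      (CuspForm.heckeTLin (N := N) 2 hℓ hℓN - c • (1 : Module.End ℂ (CuspForm (Gamma0 N) 2))) := by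
  have : NeZero N := ⟨fun h0 ↦ hℓN (h0 ▸ dvd_zero ℓ)⟩
  have := H683.finiteDimensional_cuspForm N 2
  have hinj := heckeTLin_sub_smul_injective (N := N) hℓ hℓN hc
  exact ⟨hinj, LinearMap.surjective_of_injective hinj⟩

/-- Every eigenvalue of `T_ℓ` on `S₂(Γ₀(N))` has norm `< ℓ + 1`. -/
theorem norm_lt_of_hasEigenvalue {ℓ : ℕ} (hℓ : ℓ.Prime) (hℓN : ¬ ℓ ∣ N) {c : ℂ}
    (hc : Module.End.HasEigenvalue (CuspForm.heckeTLin (N := N) 2 hℓ hℓN) c) : ‖c‖ < ℓ + 1 := by
  obtain ⟨f, hf⟩ := hc.exists_hasEigenvector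
  exact norm_lt_of_heckeTLin_eq hf.2 hℓ hℓN (hf.apply_eq_smul)

/-- The endomorphism `T_ℓ² - (ℓ + 1)²` of `S₂(Γ₀(N))`: minus the determinant of Ribet's
level-raising matrix `[[ℓ + 1, T_ℓ], [T_ℓ, ℓ + 1]]`. -/
noncomputable def ribetDet (N : ℕ) {ℓ : ℕ} (hℓ : ℓ.Prime) (hℓN : ¬ ℓ ∣ N) :
    Module.End ℂ (CuspForm (Gamma0 N) 2) :=
  (CuspForm.heckeTLin 2 hℓ hℓN) ^ 2 - (((ℓ : ℂ) + 1) ^ 2) • 1

theorem ribetDet_apply {ℓ : ℕ} (hℓ : ℓ.Prime) (hℓN : ¬ ℓ ∣ N) (f : CuspForm (Gamma0 N) 2) :
    ribetDet N hℓ hℓN f =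
      CuspForm.heckeTLin 2 hℓ hℓN (CuspForm.heckeTLin 2 hℓ hℓN f) - (((ℓ : ℂ) + 1) ^ 2) • f := by
  simp [ribetDet, pow_two]

/-- `T_ℓ² - (ℓ + 1)²` is injective on `S₂(Γ₀(N))`. -/
theorem ribetDet_injective {ℓ : ℕ} (hℓ : ℓ.Prime) (hℓN : ¬ ℓ ∣ N) :
    Function.Injective (ribetDet N hℓ hℓN) := by
  rw [← LinearMap.ker_eq_bot, LinearMap.ker_eq_bot']
  intro f hf
  rw [ribetDet_apply, sub_eq_zero] at hf
  have hnorm : ‖((ℓ : ℂ) + 1)‖ = (ℓ : ℝ) + 1 := by
    have : ((ℓ : ℂ) + 1) = (((ℓ + 1 : ℕ) : ℝ) : ℂ) := by push_cast; ring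
    rw [this, Complex.norm_real, Real.norm_of_nonneg (by positivity)]
    push_cast; ring
  by_contra hne
  by_cases hg : CuspForm.heckeTLin 2 hℓ hℓN f + ((ℓ : ℂ) + 1) • f = 0
  · have h : CuspForm.heckeTLin 2 hℓ hℓN f = (-((ℓ : ℂ) + 1)) • f := by
      exact (eq_neg_of_add_eq_zero_left hg).trans (_root_.neg_smul _ _).symm
    have := norm_lt_of_heckeTLin_eq hne hℓ hℓN h
    rw [norm_neg, hnorm] at this
    exact lt_irrefl _ this
  · have h : CuspForm.heckeTLin 2 hℓ hℓN (CuspForm.heckeTLin 2 hℓ hℓN f + ((ℓ : ℂ) + 1) • f)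
        = ((ℓ : ℂ) + 1) • (CuspForm.heckeTLin 2 hℓ hℓN f + ((ℓ : ℂ) + 1) • f) := by
      rw [map_add, map_smul, hf, smul_add, smul_smul, pow_two]
      abel
    have := norm_lt_of_heckeTLin_eq hg hℓ hℓN h
    rw [hnorm] at this
    exact lt_irrefl _ this

/-- `T_ℓ² - (ℓ + 1)²` is bijective on `S₂(Γ₀(N))`: the determinant of Ribet's matrix
`[[ℓ + 1, T_ℓ], [T_ℓ, ℓ + 1]]` is invertible over `ℂ`. -/
theorem ribetDet_bijective {ℓ : ℕ} (hℓ : ℓ.Prime) (hℓN : ¬ ℓ ∣ N) :
    Function.Bijective (ribetDet N hℓ hℓN) := by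
  have : NeZero N := ⟨fun h0 ↦ hℓN (h0 ▸ dvd_zero ℓ)⟩
  have := H683.finiteDimensional_cuspForm N 2
  have hinj := ribetDet_injective (N := N) hℓ hℓN
  exact ⟨hinj, LinearMap.surjective_of_injective hinj⟩

/-- `T_ℓ² - (ℓ + 1)²` is a unit of `End(S₂(Γ₀(N)))`. -/
theorem isUnit_ribetDet {ℓ : ℕ} (hℓ : ℓ.Prime) (hℓN : ¬ ℓ ∣ N) : IsUnit (ribetDet N hℓ hℓN) :=
  (Module.End.isUnit_iff _).mpr (ribetDet_bijective hℓ hℓN)

end Fermat.Agent.Lib.Newform.H263

end
-- ===== PACK-END Lib/Newform/H263/Eigenform.lean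

-- ===== PACK-BEGIN S36/H972/EisSplit.lean
section




/-!
# S36 / MOD3 (helper972): the two extensions of a discrete valuation in an "Eisenstein-split"
simple extension

Mathlib-only (+ `H48.IsUnif`).  `O ⊆ K` a discrete valuation ring with uniformiser `ϖ`
(elementwise: `IsUnif O ϖ` + `arch`), `L = K(y)` finite over `K`, `Ψ ∈ O[X]` the minimal
polynomial of `y`, and

  `Ψ = (X - a) (X - c) ^ n + ϖ G`,  `a - c ∈ Oˣ`,  `G(c) ∈ Oˣ`,  `n ≥ 1`.

Then `L` has EXACTLY two valuation subrings over `O`: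

* `V_a` : `y ≡ a`, unramified (`ϖ` is a uniformiser), residue degree `1`;
* `V_c` : `π := y - c` is a uniformiser, `π ^ n = ϖ · unit`, residue degree `1`.

Application (S36, level `q² M'` over level `q M'`): `y = j_{q²}`, `c = j`, `a = j^{q²}`,
`Ψ = Φ_q(j_q, Y) / (Y - j)`, `n = q - 1`: `V_a = V_FF` (Gauss valuation), `V_c = V_mid`.
-/

set_option autoImplicit false
set_option linter.style.haveILetI false
set_option linter.unusedSectionVars false

noncomputable section

namespace Fermat.Agent.S36.H972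

open Fermat.Agent.A2.H48 Polynomial

section DVR

variable {K : Type*} [Field K] {O : ValuationSubring K} {ϖ : K}

theorem mem_or_mul_inv_mem (hO : IsUnif O ϖ) {x : K} (hx : x ∈ O) :
    x⁻¹ ∈ O ∨ x * ϖ⁻¹ ∈ O := by
  by_cases h : x⁻¹ ∈ O
  · exact Or.inl h
  · exact Or.inr (hO.gen x hx h)

/-- Every nonzero element is `ϖ ^ n · unit`. -/
theorem exists_pow_mul_unit (hO : IsUnif O ϖ) (harch : ∀ a : K, ∃ k : ℕ, ϖ ^ k * a ∈ O)
    {x : K} (hx : x ∈ O) (hx0 : x ≠ 0) :
    ∃ (n : ℕ) (u : K), u ∈ O ∧ u⁻¹ ∈ O ∧ x = ϖ ^ n * u := by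
  classical
  have hϖ0 : ϖ ≠ 0 := hO.ne_zero
  have hex : ∃ k : ℕ, ϖ ^ k * x⁻¹ ∈ O := harch x⁻¹
  set n := Nat.find hex with hn
  have hn1 : ϖ ^ n * x⁻¹ ∈ O := Nat.find_spec hex
  refine ⟨n, x * (ϖ ^ n)⁻¹, ?_, ?_, ?_⟩
  · rcases Nat.eq_zero_or_pos n with h0 | hpos
    · rw [h0, pow_zero, inv_one, mul_one]; exact hx
    · have hmin : ¬ ϖ ^ (n - 1) * x⁻¹ ∈ O := Nat.find_min hex (by omega)
      have h1 : (ϖ ^ (n - 1) * x⁻¹)⁻¹ ∈ O := (O.mem_or_inv_mem _).resolve_left hmin
      have h2 := hO.gen _ h1 (by rwa [inv_inv])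
      have h3 : (ϖ ^ (n - 1) * x⁻¹)⁻¹ * ϖ⁻¹ = x * (ϖ ^ n)⁻¹ := by
        have : ϖ ^ n = ϖ ^ (n - 1) * ϖ := by
          rw [← pow_succ]; congr 1; omega
        rw [this]
        field_simp
      rwa [h3] at h2
  · have : (x * (ϖ ^ n)⁻¹)⁻¹ = ϖ ^ n * x⁻¹ := by field_simp
    rw [this]; exact hn1
  · field_simp

theorem isUnit_of_inv_mem {u : O} (hu0 : (u : K) ≠ 0) (hu : (u : K)⁻¹ ∈ O) : IsUnit u := by
  refine IsUnit.of_mul_eq_one ⟨(u : K)⁻¹, hu⟩ ?_
  apply Subtype.ext
  push_cast
  exact mul_inv_cancel₀ hu0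

theorem inv_mem_of_isUnit {u : O} (hu : IsUnit u) : (u : K)⁻¹ ∈ O := by
  obtain ⟨v, hv⟩ := hu.exists_right_inv
  have h1 : (u : K) * (v : K) = 1 := by
    have := congrArg (fun x : O => (x : K)) hv
    simpa using this
  rw [inv_eq_of_mul_eq_one_right h1]
  exact v.2

theorem isDiscreteValuationRing_of_isUnif (hO : IsUnif O ϖ)
    (harch : ∀ a : K, ∃ k : ℕ, ϖ ^ k * a ∈ O) : IsDiscreteValuationRing O := by
  apply IsDiscreteValuationRing.ofHasUnitMulPowIrreducibleFactorization
  have hϖ0 : ϖ ≠ 0 := hO.ne_zero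
  refine ⟨⟨ϖ, hO.mem⟩, ?_, ?_⟩
  · rw [irreducible_iff]
    refine ⟨fun hu => hO.inv_not_mem (inv_mem_of_isUnit hu), ?_⟩
    intro a b hab
    have hab' : ϖ = (a : K) * (b : K) := by
      have := congrArg (fun x : O => (x : K)) hab
      simpa using this
    have ha0 : (a : K) ≠ 0 := by
      intro h0; rw [h0, zero_mul] at hab'; exact hϖ0 hab'
    have hb0 : (b : K) ≠ 0 := by
      intro h0; rw [h0, mul_zero] at hab'; exact hϖ0 hab'
    by_contra hcon
    rw [not_or] at hcon
    have ha : (a : K)⁻¹ ∉ O := fun h => hcon.1 (isUnit_of_inv_mem ha0 h)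
    have hb : (b : K)⁻¹ ∉ O := fun h => hcon.2 (isUnit_of_inv_mem hb0 h)
    have h1 := hO.gen _ a.2 ha
    have h2 := hO.gen _ b.2 hb
    apply hO.inv_not_mem
    have h3 : ϖ⁻¹ = ((a : K) * ϖ⁻¹) * ((b : K) * ϖ⁻¹) := by
      have : ((a : K) * ϖ⁻¹) * ((b : K) * ϖ⁻¹) = ((a : K) * (b : K)) * (ϖ⁻¹ * ϖ⁻¹) := by ring
      rw [this, ← hab']
      field_simp
    rw [h3]
    exact mul_mem h1 h2
  · intro x hx
    have hx0 : (x : K) ≠ 0 := fun h0 => hx (Subtype.ext h0)
    obtain ⟨n, u, hu, hu', hxu⟩ := exists_pow_mul_unit hO harch x.2 hx0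
    have hu0 : u ≠ 0 := by
      rintro rfl
      rw [mul_zero] at hxu
      exact hx0 hxu
    refine ⟨n, ?_⟩
    have hunit : IsUnit (⟨u, hu⟩ : O) := isUnit_of_inv_mem hu0 hu'
    refine ⟨hunit.unit, ?_⟩
    apply Subtype.ext
    rw [IsUnit.unit_spec]
    push_cast
    exact hxu.symm

end DVR

section Core

variable {K L : Type*} [Field K] [Field L] [Algebra K L]
variable (O : ValuationSubring K) (y : L)

/-- `O → L`. -/
def phi : O →+* L := (algebraMap K L).comp O.subtype

theorem phi_apply (a : O) : phi (L := L) O a = algebraMap K L (a : K) := rfl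

theorem phi_injective : Function.Injective (phi (L := L) O) :=
  (algebraMap K L).injective.comp Subtype.val_injective

/-- `S₀ = O[y] ⊆ L`. -/
def adjoinRing : Subring L := (Polynomial.eval₂RingHom (phi O) y).range

/-- `O[X] → O[y]`, `P ↦ P(y)`. -/
def evS : O[X] →+* adjoinRing O y := (Polynomial.eval₂RingHom (phi O) y).rangeRestrict

theorem coe_evS (P : O[X]) : ((evS O y P : adjoinRing O y) : L) = P.eval₂ (phi O) y := rfl

theorem evS_surjective : Function.Surjective (evS O y) :=
  RingHom.rangeRestrict_surjective _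

theorem eval₂_phi_eq_aeval (P : O[X]) :
    P.eval₂ (phi O) y = Polynomial.aeval y (P.map O.subtype) := by
  rw [Polynomial.aeval_def, Polynomial.eval₂_map]
  rfl

variable {O y}

/-- **Presentation** `O[y] = O[X] / (Ψ)`. -/
theorem dvd_of_eval₂_eq_zero {Ψ : O[X]} (hΨ : Ψ.Monic)
    (hmin : minpoly K y = Ψ.map O.subtype) {P : O[X]} (hP : P.eval₂ (phi O) y = 0) :
    Ψ ∣ P := by
  have hΨy : Ψ.eval₂ (phi O) y = 0 := by
    rw [eval₂_phi_eq_aeval, ← hmin, minpoly.aeval]
  rw [← Polynomial.modByMonic_eq_zero_iff_dvd hΨ]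
  by_contra hR
  have hRy : (P %ₘ Ψ).eval₂ (phi O) y = 0 := by
    have h1 := Polynomial.modByMonic_add_div P Ψ
    have h2 : P.eval₂ (phi O) y =
        (P %ₘ Ψ).eval₂ (phi O) y + Ψ.eval₂ (phi O) y * (P /ₘ Ψ).eval₂ (phi O) y := by
      conv_lhs => rw [← h1]
      rw [Polynomial.eval₂_add, Polynomial.eval₂_mul]
    rw [hP, hΨy, zero_mul, add_zero] at h2
    exact h2.symm
  have hinj : Function.Injective (O.subtype : O →+* K) := Subtype.val_injective
  have hR' : (P %ₘ Ψ).map O.subtype ≠ 0 := by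
    intro h0
    apply hR
    exact Polynomial.map_injective _ hinj (by rw [h0, Polynomial.map_zero])
  have hle := minpoly.degree_le_of_ne_zero K y hR' (by rw [← eval₂_phi_eq_aeval]; exact hRy)
  rw [hmin, Polynomial.degree_map_eq_of_injective hinj,
    Polynomial.degree_map_eq_of_injective hinj] at hle
  exact absurd (Polynomial.degree_modByMonic_lt P hΨ) (not_lt.2 hle)

variable (O y) in
/-- The ideal of `O[y]` of the `P(y)` with `P(r) ∈ ϖ O`. -/
def maxAt (ϖ : K) (r : O) : Ideal (adjoinRing O y) where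
  carrier := {s | ∃ P : O[X], evS O y P = s ∧ ((P.eval r : O) : K) * ϖ⁻¹ ∈ O}
  zero_mem' := ⟨0, by simp, by simp⟩
  add_mem' := by
    rintro s₁ s₂ ⟨P₁, h₁, h₁'⟩ ⟨P₂, h₂, h₂'⟩
    refine ⟨P₁ + P₂, by rw [map_add, h₁, h₂], ?_⟩
    rw [Polynomial.eval_add]
    push_cast
    rw [add_mul]
    exact add_mem h₁' h₂'
  smul_mem' := by
    rintro c s ⟨P, h, h'⟩
    obtain ⟨Q, rfl⟩ := evS_surjective O y c
    refine ⟨Q * P, by rw [map_mul, h, smul_eq_mul], ?_⟩
    rw [Polynomial.eval_mul]
    push_cast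
    rw [mul_assoc]
    exact mul_mem (Q.eval r).2 h'

theorem evS_mem_maxAt_of {ϖ : K} {r : O} {P : O[X]} (h : ((P.eval r : O) : K) * ϖ⁻¹ ∈ O) :
    evS O y P ∈ maxAt O y ϖ r :=
  ⟨P, rfl, h⟩

theorem evS_mem_maxAt_iff {ϖ : K} {r : O} {Ψ : O[X]} (hΨ : Ψ.Monic)
    (hmin : minpoly K y = Ψ.map O.subtype) (hr : ((Ψ.eval r : O) : K) * ϖ⁻¹ ∈ O) (P : O[X]) :
    evS O y P ∈ maxAt O y ϖ r ↔ ((P.eval r : O) : K) * ϖ⁻¹ ∈ O := by
  constructor
  · rintro ⟨P', hP', h'⟩
    have h0 : (P - P').eval₂ (phi O) y = 0 := by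
      have := congrArg (fun s : adjoinRing O y => (s : L)) hP'
      simp only [coe_evS] at this
      rw [Polynomial.eval₂_sub, this, sub_self]
    obtain ⟨Q, hQ⟩ := dvd_of_eval₂_eq_zero hΨ hmin h0
    have h1 : P.eval r = P'.eval r + Ψ.eval r * Q.eval r := by
      have := congrArg (Polynomial.eval r) hQ
      rw [Polynomial.eval_sub, Polynomial.eval_mul] at this
      rw [← this]; ring
    rw [h1]
    push_cast
    have : ((P'.eval r : O) : K) + ((Ψ.eval r : O) : K) * ((Q.eval r : O) : K) =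
        ((P'.eval r : O) : K) + ((Ψ.eval r : O) : K) * ((Q.eval r : O) : K) := rfl
    rw [add_mul]
    refine add_mem h' ?_
    have : ((Ψ.eval r : O) : K) * ((Q.eval r : O) : K) * ϖ⁻¹ =
        (((Ψ.eval r : O) : K) * ϖ⁻¹) * ((Q.eval r : O) : K) := by ring
    rw [this]
    exact mul_mem hr (Q.eval r).2
  · exact evS_mem_maxAt_of

theorem isMaximal_maxAt {ϖ : K} (hO : IsUnif O ϖ) {r : O} {Ψ : O[X]} (hΨ : Ψ.Monic)
    (hmin : minpoly K y = Ψ.map O.subtype) (hr : ((Ψ.eval r : O) : K) * ϖ⁻¹ ∈ O) :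
    (maxAt O y ϖ r).IsMaximal := by
  rw [Ideal.isMaximal_iff]
  constructor
  · intro h1
    have h2 : evS O y 1 ∈ maxAt O y ϖ r := by rwa [map_one]
    rw [evS_mem_maxAt_iff hΨ hmin hr] at h2
    apply hO.inv_not_mem
    simpa using h2
  · intro J x hIJ hxI hxJ
    obtain ⟨P, rfl⟩ := evS_surjective O y x
    have hPr : ¬ ((P.eval r : O) : K) * ϖ⁻¹ ∈ O := fun h => hxI (evS_mem_maxAt_of h)
    have hu : ((P.eval r : O) : K)⁻¹ ∈ O :=
      (mem_or_mul_inv_mem hO (P.eval r).2).resolve_right hPr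
    have hu0 : ((P.eval r : O) : K) ≠ 0 := by
      intro h0
      apply hPr
      rw [h0, zero_mul]
      exact zero_mem _
    set v : O := ⟨((P.eval r : O) : K)⁻¹, hu⟩ with hv
    have hvu : v * P.eval r = 1 := by
      apply Subtype.ext
      push_cast
      exact inv_mul_cancel₀ hu0
    have h3 : evS O y (Polynomial.C v * (P - Polynomial.C (P.eval r))) ∈ maxAt O y ϖ r := by
      apply evS_mem_maxAt_of
      simp
    have h4 : (1 : adjoinRing O y) =
        evS O y (Polynomial.C v) * evS O y P -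
          evS O y (Polynomial.C v * (P - Polynomial.C (P.eval r))) := by
      rw [← map_mul, ← map_sub]
      have : Polynomial.C v * P - Polynomial.C v * (P - Polynomial.C (P.eval r)) = 1 := by
        rw [mul_sub, sub_sub_cancel, ← Polynomial.C_mul, hvu, Polynomial.C_1]
      rw [this, map_one]
    rw [h4]
    exact J.sub_mem (J.mul_mem_left _ hxJ) (hIJ h3)


theorem coe_evS_C (k : O) :
    ((evS O y (Polynomial.C k) : adjoinRing O y) : L) = algebraMap K L (k : K) := by
  rw [coe_evS, Polynomial.eval₂_C]; rfl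

theorem coe_evS_X_sub_C (r : O) :
    ((evS O y (Polynomial.X - Polynomial.C r) : adjoinRing O y) : L) =
      y - algebraMap K L (r : K) := by
  rw [coe_evS, Polynomial.eval₂_sub, Polynomial.eval₂_X, Polynomial.eval₂_C]; rfl

theorem evS_C_mem_maxAt {ϖ : K} (hO : IsUnif O ϖ) (r : O) (k : O) :
    evS O y (Polynomial.C (⟨ϖ, hO.mem⟩ * k)) ∈ maxAt O y ϖ r := by
  apply evS_mem_maxAt_of
  rw [Polynomial.eval_C]
  push_cast
  have : ϖ * (k : K) * ϖ⁻¹ = (k : K) := by
    have := hO.ne_zero
    field_simp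
  rw [this]
  exact k.2

theorem evS_X_sub_C_mem_maxAt {ϖ : K} (r : O) :
    evS O y (Polynomial.X - Polynomial.C r) ∈ maxAt O y ϖ r := by
  apply evS_mem_maxAt_of
  simp

theorem exists_decomp_of_mem_maxAt {ϖ : K} (hO : IsUnif O ϖ) {r : O} {s : adjoinRing O y}
    (hs : s ∈ maxAt O y ϖ r) :
    ∃ s₁ s₂ : adjoinRing O y,
      s = evS O y (Polynomial.C ⟨ϖ, hO.mem⟩) * s₁ +
        evS O y (Polynomial.X - Polynomial.C r) * s₂ := by
  obtain ⟨P, rfl, hP⟩ := hs
  obtain ⟨P₁, hP₁⟩ := Polynomial.X_sub_C_dvd_sub_C_eval (a := r) (p := P)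
  have hϖ0 : ϖ ≠ 0 := hO.ne_zero
  have h1 : P.eval r = ⟨ϖ, hO.mem⟩ * ⟨((P.eval r : O) : K) * ϖ⁻¹, hP⟩ := by
    apply Subtype.ext
    push_cast
    field_simp
  refine ⟨evS O y (Polynomial.C ⟨((P.eval r : O) : K) * ϖ⁻¹, hP⟩), evS O y P₁, ?_⟩
  have h2 : P = Polynomial.C ⟨ϖ, hO.mem⟩ * Polynomial.C ⟨((P.eval r : O) : K) * ϖ⁻¹, hP⟩ +
      (Polynomial.X - Polynomial.C r) * P₁ := by
    rw [← hP₁, ← Polynomial.C_mul, ← h1]
    ring
  conv_lhs => rw [h2]
  rw [map_add, map_mul, map_mul]

end Core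

section Main

variable {K L : Type*} [Field K] [Field L] [Algebra K L]
variable {O : ValuationSubring K} {y : L} {ϖ : K}

/-- Clearing denominators. -/
theorem exists_pow_mul_coeff_mem (harch : ∀ a : K, ∃ k : ℕ, ϖ ^ k * a ∈ O) (hO : IsUnif O ϖ)
    (p : K[X]) : ∃ k : ℕ, ∀ i, ϖ ^ k * p.coeff i ∈ O := by
  classical
  choose kk hkk using harch
  refine ⟨p.support.sup fun i => kk (p.coeff i), fun i => ?_⟩
  by_cases hi : i ∈ p.support
  · have hle : kk (p.coeff i) ≤ p.support.sup fun i => kk (p.coeff i) :=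
      Finset.le_sup (f := fun i => kk (p.coeff i)) hi
    obtain ⟨d, hd⟩ := Nat.exists_eq_add_of_le hle
    rw [hd, pow_add, mul_assoc, mul_comm (ϖ ^ d), ← mul_assoc]
    exact mul_mem (hkk _) (pow_mem hO.mem d)
  · rw [Polynomial.notMem_support_iff.1 hi, mul_zero]
    exact zero_mem _

theorem isFracOf_adjoinRing (hO : IsUnif O ϖ) (harch : ∀ a : K, ∃ k : ℕ, ϖ ^ k * a ∈ O)
    (hgen : ∀ f : L, ∃ P : K[X], Polynomial.aeval y P = f) : IsFracOf (adjoinRing O y) := by
  intro f
  obtain ⟨p, rfl⟩ := hgen f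
  obtain ⟨k, hk⟩ := exists_pow_mul_coeff_mem harch hO p
  have hlift : Polynomial.C (ϖ ^ k) * p ∈ Polynomial.lifts (O.subtype : O →+* K) := by
    rw [Polynomial.lifts_iff_coeff_lifts]
    intro i
    rw [Polynomial.coeff_C_mul]
    exact ⟨⟨_, hk i⟩, rfl⟩
  obtain ⟨P, hP⟩ := (Polynomial.mem_lifts _).1 hlift
  refine ⟨evS O y P, evS O y (Polynomial.C (⟨ϖ, hO.mem⟩ ^ k)), ?_, ?_⟩
  · intro h0
    have h1 : algebraMap K L (ϖ ^ k) = 0 := by
      have h2 := congrArg (fun s : adjoinRing O y => (s : L)) h0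
      simp only [coe_evS_C] at h2
      simpa using h2
    exact (map_ne_zero (algebraMap K L)).2 (pow_ne_zero k hO.ne_zero) h1
  · rw [coe_evS_C, coe_evS, eval₂_phi_eq_aeval, hP, map_mul, Polynomial.aeval_C]
    push_cast
    ring


/-- Hypotheses of the Eisenstein-split theorem. -/
structure EisData (O : ValuationSubring K) (ϖ : K) (y : L) (Ψ G : O[X]) (a c : O) (n : ℕ) :
    Prop where
  unif : IsUnif O ϖ
  arch : ∀ a : K, ∃ k : ℕ, ϖ ^ k * a ∈ O
  monic : Ψ.Monic
  minpoly_eq : minpoly K y = Ψ.map O.subtype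
  gen : ∀ f : L, ∃ P : K[X], Polynomial.aeval y P = f
  pos : 1 ≤ n
  dec : Ψ = (Polynomial.X - Polynomial.C a) * (Polynomial.X - Polynomial.C c) ^ n +
    Polynomial.C ⟨ϖ, unif.mem⟩ * G
  unit_sub : IsUnit (a - c)
  unit_G : IsUnit (G.eval c)

namespace EisData

variable {Ψ G : O[X]} {a c : O} {n : ℕ} (h : EisData O ϖ y Ψ G a c n)

/-- The uniformiser of `O` as an element of `O`. -/
abbrev pi₀ : O := ⟨ϖ, h.unif.mem⟩

include h

theorem isNoetherianRing : IsNoetherianRing (adjoinRing O y) := by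
  haveI := isDiscreteValuationRing_of_isUnif h.unif h.arch
  exact isNoetherianRing_of_surjective O[X] _ (evS O y) (evS_surjective O y)

theorem eval_a : Ψ.eval a = h.pi₀ * G.eval a := by
  conv_lhs => rw [h.dec]
  simp

theorem eval_c : Ψ.eval c = h.pi₀ * G.eval c := by
  conv_lhs => rw [h.dec]
  have hn : n ≠ 0 := by have := h.pos; omega
  simp [hn]

theorem eval_a_mem : ((Ψ.eval a : O) : K) * ϖ⁻¹ ∈ O := by
  rw [h.eval_a]
  push_cast
  have : ϖ * ((G.eval a : O) : K) * ϖ⁻¹ = ((G.eval a : O) : K) := by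
    have := h.unif.ne_zero
    field_simp
  rw [this]
  exact (G.eval a).2

theorem eval_c_mem : ((Ψ.eval c : O) : K) * ϖ⁻¹ ∈ O := by
  rw [h.eval_c]
  push_cast
  have : ϖ * ((G.eval c : O) : K) * ϖ⁻¹ = ((G.eval c : O) : K) := by
    have := h.unif.ne_zero
    field_simp
  rw [this]
  exact (G.eval c).2

theorem isMaximal_a : (maxAt O y ϖ a).IsMaximal :=
  isMaximal_maxAt h.unif h.monic h.minpoly_eq h.eval_a_mem

theorem isMaximal_c : (maxAt O y ϖ c).IsMaximal :=
  isMaximal_maxAt h.unif h.monic h.minpoly_eq h.eval_c_mem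

theorem notMem_of_isUnit {r : O} (hr : ((Ψ.eval r : O) : K) * ϖ⁻¹ ∈ O) {P : O[X]}
    (hP : IsUnit (P.eval r)) : evS O y P ∉ maxAt O y ϖ r := by
  rw [evS_mem_maxAt_iff h.monic h.minpoly_eq hr]
  intro hmem
  apply h.unif.inv_not_mem
  have hu := inv_mem_of_isUnit hP
  have hu0 : ((P.eval r : O) : K) ≠ 0 := by
    intro h0
    exact hP.ne_zero (Subtype.ext h0)
  have : ϖ⁻¹ = (((P.eval r : O) : K) * ϖ⁻¹) * ((P.eval r : O) : K)⁻¹ := by field_simp
  rw [this]
  exact mul_mem hmem hu

theorem rel : evS O y (Polynomial.X - Polynomial.C a) * evS O y (Polynomial.X - Polynomial.C c) ^ n +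
    evS O y (Polynomial.C h.pi₀) * evS O y G = 0 := by
  have h0 : evS O y Ψ = 0 := by
    apply Subtype.ext
    rw [coe_evS, eval₂_phi_eq_aeval, ← h.minpoly_eq, minpoly.aeval]
    rfl
  have h1 := h0
  rw [h.dec, map_add, map_mul, map_mul, map_pow] at h1
  exact h1

theorem G_notMem : evS O y G ∉ maxAt O y ϖ c :=
  h.notMem_of_isUnit h.eval_c_mem h.unit_G

theorem alpha_notMem : evS O y (Polynomial.X - Polynomial.C a) ∉ maxAt O y ϖ c := by
  apply h.notMem_of_isUnit h.eval_c_mem
  rw [Polynomial.eval_sub, Polynomial.eval_X, Polynomial.eval_C]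
  have : c - a = -(a - c) := by ring
  rw [this]
  exact h.unit_sub.neg

theorem pi_notMem : evS O y (Polynomial.X - Polynomial.C c) ∉ maxAt O y ϖ a := by
  apply h.notMem_of_isUnit h.eval_a_mem
  rw [Polynomial.eval_sub, Polynomial.eval_X, Polynomial.eval_C]
  exact h.unit_sub

theorem pi_pow_notMem : evS O y (Polynomial.X - Polynomial.C c) ^ n ∉ maxAt O y ϖ a := by
  intro hmem
  haveI := h.isMaximal_a
  exact h.pi_notMem (Ideal.IsPrime.mem_of_pow_mem inferInstance n hmem)

theorem evS_pi₀_ne_zero : evS O y (Polynomial.C h.pi₀) ≠ 0 := by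
  intro h0
  have h1 := congrArg (fun s : adjoinRing O y => (s : L)) h0
  simp only [coe_evS_C] at h1
  exact (map_ne_zero (algebraMap K L)).2 h.unif.ne_zero (by simpa using h1)

theorem evS_pi₀_mem (r : O) : evS O y (Polynomial.C h.pi₀) ∈ maxAt O y ϖ r := by
  have := evS_C_mem_maxAt (y := y) h.unif r 1
  rwa [mul_one] at this

/-- `𝔪_a O[y]_{𝔪_a} = ϖ O[y]_{𝔪_a}`. -/
theorem locGen_a : LocGen (adjoinRing O y) (maxAt O y ϖ a) (evS O y (Polynomial.C h.pi₀)) where
  mem := h.evS_pi₀_mem a
  ne_zero := h.evS_pi₀_ne_zero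
  gen := by
    intro s hs
    obtain ⟨s₁, s₂, rfl⟩ := exists_decomp_of_mem_maxAt h.unif hs
    refine ⟨evS O y (Polynomial.X - Polynomial.C c) ^ n,
      evS O y (Polynomial.X - Polynomial.C c) ^ n * s₁ - evS O y G * s₂, h.pi_pow_notMem, ?_⟩
    have hrel := h.rel
    have h2 : evS O y (Polynomial.X - Polynomial.C a) *
        evS O y (Polynomial.X - Polynomial.C c) ^ n =
        - (evS O y (Polynomial.C h.pi₀) * evS O y G) := eq_neg_of_add_eq_zero_left hrel
    calc (evS O y (Polynomial.C h.pi₀) * s₁ + evS O y (Polynomial.X - Polynomial.C a) * s₂) *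
          evS O y (Polynomial.X - Polynomial.C c) ^ n
        = evS O y (Polynomial.C h.pi₀) * s₁ * evS O y (Polynomial.X - Polynomial.C c) ^ n +
          (evS O y (Polynomial.X - Polynomial.C a) *
            evS O y (Polynomial.X - Polynomial.C c) ^ n) * s₂ := by ring
      _ = evS O y (Polynomial.C h.pi₀) *
          (evS O y (Polynomial.X - Polynomial.C c) ^ n * s₁ - evS O y G * s₂) := by
        rw [h2]; ring

theorem evS_pi_ne_zero : evS O y (Polynomial.X - Polynomial.C c) ≠ 0 := by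
  intro h0
  have hrel := h.rel
  rw [h0, zero_pow (by have := h.pos; omega), mul_zero, zero_add] at hrel
  rcases mul_eq_zero.1 hrel with h1 | h1
  · exact h.evS_pi₀_ne_zero h1
  · apply h.G_notMem
    rw [h1]
    exact (maxAt O y ϖ c).zero_mem

/-- `𝔪_c O[y]_{𝔪_c} = (y - c) O[y]_{𝔪_c}`. -/
theorem locGen_c :
    LocGen (adjoinRing O y) (maxAt O y ϖ c) (evS O y (Polynomial.X - Polynomial.C c)) where
  mem := evS_X_sub_C_mem_maxAt c
  ne_zero := h.evS_pi_ne_zero
  gen := by
    intro s hs
    obtain ⟨s₁, s₂, rfl⟩ := exists_decomp_of_mem_maxAt h.unif hs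
    obtain ⟨m, hm⟩ : ∃ m, n = m + 1 := ⟨n - 1, by have := h.pos; omega⟩
    refine ⟨evS O y G, evS O y G * s₂ - evS O y (Polynomial.X - Polynomial.C a) *
      evS O y (Polynomial.X - Polynomial.C c) ^ m * s₁, h.G_notMem, ?_⟩
    have hrel := h.rel
    have h2 : evS O y (Polynomial.C h.pi₀) * evS O y G =
        - (evS O y (Polynomial.X - Polynomial.C a) *
          evS O y (Polynomial.X - Polynomial.C c) ^ n) := eq_neg_of_add_eq_zero_right hrel
    calc (evS O y (Polynomial.C h.pi₀) * s₁ + evS O y (Polynomial.X - Polynomial.C c) * s₂) *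
          evS O y G
        = (evS O y (Polynomial.C h.pi₀) * evS O y G) * s₁ +
          evS O y (Polynomial.X - Polynomial.C c) * s₂ * evS O y G := by ring
      _ = evS O y (Polynomial.X - Polynomial.C c) *
          (evS O y G * s₂ - evS O y (Polynomial.X - Polynomial.C a) *
            evS O y (Polynomial.X - Polynomial.C c) ^ m * s₁) := by
        rw [h2, hm, pow_succ]; ring

theorem isFracOf : IsFracOf (adjoinRing O y) := isFracOf_adjoinRing h.unif h.arch h.gen

/-- The unramified extension `V_a` (`y ≡ a`). -/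
def Va : ValuationSubring L :=
  @locVal L _ (adjoinRing O y) (maxAt O y ϖ a) (evS O y (Polynomial.C h.pi₀))
    h.isNoetherianRing h.isMaximal_a h.locGen_a h.isFracOf

/-- The ramified extension `V_c` (`y ≡ c`, uniformiser `y - c`). -/
def Vc : ValuationSubring L :=
  @locVal L _ (adjoinRing O y) (maxAt O y ϖ c) (evS O y (Polynomial.X - Polynomial.C c))
    h.isNoetherianRing h.isMaximal_c h.locGen_c h.isFracOf


/-! ### Properties of `V_a` and `V_c` -/

theorem coe_pi₀ : ((evS O y (Polynomial.C h.pi₀) : adjoinRing O y) : L) = algebraMap K L ϖ :=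
  coe_evS_C _

theorem mem_Va_iff {f : L} :
    f ∈ h.Va ↔ ∃ s t : adjoinRing O y, t ∉ maxAt O y ϖ a ∧ f * (t : L) = (s : L) :=
  @mem_locVal_iff L _ _ _ _ h.isNoetherianRing h.isMaximal_a h.locGen_a h.isFracOf f

theorem mem_Vc_iff {f : L} :
    f ∈ h.Vc ↔ ∃ s t : adjoinRing O y, t ∉ maxAt O y ϖ c ∧ f * (t : L) = (s : L) :=
  @mem_locVal_iff L _ _ _ _ h.isNoetherianRing h.isMaximal_c h.locGen_c h.isFracOf f

theorem isUnif_Va : IsUnif h.Va (algebraMap K L ϖ) := by
  have := @isUnif_locVal L _ _ _ _ h.isNoetherianRing h.isMaximal_a h.locGen_a h.isFracOf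
  rwa [h.coe_pi₀] at this

theorem isUnif_Vc : IsUnif h.Vc (y - algebraMap K L (c : K)) := by
  have := @isUnif_locVal L _ _ _ _ h.isNoetherianRing h.isMaximal_c h.locGen_c h.isFracOf
  rwa [coe_evS_X_sub_C] at this

theorem coe_mem_Va (s : adjoinRing O y) : (s : L) ∈ h.Va :=
  @coe_mem_locVal L _ _ _ _ h.isNoetherianRing h.isMaximal_a h.locGen_a h.isFracOf s

theorem coe_mem_Vc (s : adjoinRing O y) : (s : L) ∈ h.Vc :=
  @coe_mem_locVal L _ _ _ _ h.isNoetherianRing h.isMaximal_c h.locGen_c h.isFracOf s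

theorem y_mem_Va : y ∈ h.Va := by
  have := h.coe_mem_Va (evS O y Polynomial.X)
  rwa [coe_evS, Polynomial.eval₂_X] at this

theorem y_mem_Vc : y ∈ h.Vc := by
  have := h.coe_mem_Vc (evS O y Polynomial.X)
  rwa [coe_evS, Polynomial.eval₂_X] at this

/-- `y ≡ a` modulo `ϖ V_a`. -/
theorem sub_a_mem : (y - algebraMap K L (a : K)) * (algebraMap K L ϖ)⁻¹ ∈ h.Va := by
  have := @mul_inv_mem_locVal_of_mem L _ _ _ _ h.isNoetherianRing h.isMaximal_a h.locGen_a
    h.isFracOf _ (evS_X_sub_C_mem_maxAt (y := y) (ϖ := ϖ) a)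
  rwa [coe_evS_X_sub_C, h.coe_pi₀] at this

/-- `(y - c) ^ n = ϖ · unit` in `V_c`. -/
theorem exists_unit_Vc :
    ∃ u : L, u ∈ h.Vc ∧ u⁻¹ ∈ h.Vc ∧ (y - algebraMap K L (c : K)) ^ n = algebraMap K L ϖ * u := by
  have hα := @inv_mem_locVal_of_notMem L _ _ _ _ h.isNoetherianRing h.isMaximal_c h.locGen_c
    h.isFracOf _ h.alpha_notMem
  have hG := @inv_mem_locVal_of_notMem L _ _ _ _ h.isNoetherianRing h.isMaximal_c h.locGen_c
    h.isFracOf _ h.G_notMem
  have hα0 : ((evS O y (Polynomial.X - Polynomial.C a) : adjoinRing O y) : L) ≠ 0 :=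
    @coe_ne_zero_of_notMem L _ _ _ h.isNoetherianRing h.isMaximal_c _ h.alpha_notMem
  have hG0 : ((evS O y G : adjoinRing O y) : L) ≠ 0 :=
    @coe_ne_zero_of_notMem L _ _ _ h.isNoetherianRing h.isMaximal_c _ h.G_notMem
  have hrel := congrArg (fun s : adjoinRing O y => (s : L)) h.rel
  simp only [Subring.coe_add, Subring.coe_mul, Subring.coe_pow, Subring.coe_zero] at hrel
  rw [h.coe_pi₀, coe_evS_X_sub_C c] at hrel
  refine ⟨-((evS O y G : adjoinRing O y) : L) *
    ((evS O y (Polynomial.X - Polynomial.C a) : adjoinRing O y) : L)⁻¹, ?_, ?_, ?_⟩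
  · exact mul_mem (neg_mem (h.coe_mem_Vc _)) hα
  · have : (-((evS O y G : adjoinRing O y) : L) *
        ((evS O y (Polynomial.X - Polynomial.C a) : adjoinRing O y) : L)⁻¹)⁻¹ =
        -((evS O y (Polynomial.X - Polynomial.C a) : adjoinRing O y) : L) *
          ((evS O y G : adjoinRing O y) : L)⁻¹ := by
      field_simp
    rw [this]
    exact mul_mem (neg_mem (h.coe_mem_Vc _)) hG
  · have h2 : (y - algebraMap K L (c : K)) ^ n *
        ((evS O y (Polynomial.X - Polynomial.C a) : adjoinRing O y) : L) =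
        -(algebraMap K L ϖ * ((evS O y G : adjoinRing O y) : L)) := by
      rw [eq_neg_iff_add_eq_zero, ← hrel]; ring
    field_simp
    rw [h2]

theorem algebraMap_mem_locVal_iff {r : O} {z : adjoinRing O y}
    (hm : (maxAt O y ϖ r).IsMaximal) (hz : LocGen (adjoinRing O y) (maxAt O y ϖ r) z) (k : K) :
    algebraMap K L k ∈ @locVal L _ (adjoinRing O y) (maxAt O y ϖ r) z h.isNoetherianRing hm hz
      h.isFracOf ↔ k ∈ O := by
  constructor
  · intro hk
    by_contra hkO
    have hk0 : k ≠ 0 := by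
      rintro rfl
      exact hkO (zero_mem _)
    have h1 : k⁻¹ ∈ O := (O.mem_or_inv_mem k).resolve_left hkO
    have h2 : k⁻¹ * ϖ⁻¹ ∈ O := h.unif.gen _ h1 (by rwa [inv_inv])
    have h3 : evS O y (Polynomial.C (h.pi₀ * ⟨k⁻¹ * ϖ⁻¹, h2⟩)) ∈ maxAt O y ϖ r :=
      evS_C_mem_maxAt h.unif r _
    have h4 : ((evS O y (Polynomial.C (h.pi₀ * ⟨k⁻¹ * ϖ⁻¹, h2⟩)) : adjoinRing O y) : L) =
        (algebraMap K L k)⁻¹ := by
      rw [coe_evS_C, ← map_inv₀]
      congr 1
      push_cast
      have := h.unif.ne_zero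
      field_simp
    have h5 : evS O y (Polynomial.C (h.pi₀ * ⟨k⁻¹ * ϖ⁻¹, h2⟩)) ≠ 0 := by
      intro h0
      rw [h0] at h4
      have : (algebraMap K L k)⁻¹ = 0 := by rw [← h4]; rfl
      rw [inv_eq_zero] at this
      exact (map_ne_zero (algebraMap K L)).2 hk0 this
    have h6 := @inv_notMem_locVal_of_mem L _ _ _ _ h.isNoetherianRing hm hz h.isFracOf _ h3 h5
    rw [h4, inv_inv] at h6
    exact h6 hk
  · intro hk
    have := @coe_mem_locVal L _ _ _ _ h.isNoetherianRing hm hz h.isFracOf
      (evS O y (Polynomial.C ⟨k, hk⟩))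
    rwa [coe_evS_C] at this

theorem algebraMap_mem_Va_iff (k : K) : algebraMap K L k ∈ h.Va ↔ k ∈ O :=
  h.algebraMap_mem_locVal_iff h.isMaximal_a h.locGen_a k

theorem algebraMap_mem_Vc_iff (k : K) : algebraMap K L k ∈ h.Vc ↔ k ∈ O :=
  h.algebraMap_mem_locVal_iff h.isMaximal_c h.locGen_c k

theorem residue_locVal {r : O} {z : adjoinRing O y}
    (hm : (maxAt O y ϖ r).IsMaximal) (hz : LocGen (adjoinRing O y) (maxAt O y ϖ r) z)
    {f : L} (hf : f ∈ @locVal L _ (adjoinRing O y) (maxAt O y ϖ r) z h.isNoetherianRing hm hz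
      h.isFracOf) :
    ∃ g ∈ O, (f - algebraMap K L g) * (z : L)⁻¹ ∈
      @locVal L _ (adjoinRing O y) (maxAt O y ϖ r) z h.isNoetherianRing hm hz h.isFracOf := by
  obtain ⟨s, hs⟩ := @exists_sub_mem_locVal L _ _ _ _ h.isNoetherianRing hm hz h.isFracOf f hf
  obtain ⟨P, rfl⟩ := evS_surjective O y s
  refine ⟨(P.eval r : O), (P.eval r).2, ?_⟩
  have h1 : evS O y (P - Polynomial.C (P.eval r)) ∈ maxAt O y ϖ r := by
    apply evS_mem_maxAt_of
    simp
  have h2 := @mul_inv_mem_locVal_of_mem L _ _ _ _ h.isNoetherianRing hm hz h.isFracOf _ h1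
  have h3 : ((evS O y (P - Polynomial.C (P.eval r)) : adjoinRing O y) : L) =
      ((evS O y P : adjoinRing O y) : L) - algebraMap K L ((P.eval r : O) : K) := by
    rw [map_sub, AddSubgroupClass.coe_sub, coe_evS_C]
  rw [h3] at h2
  have h4 : (f - algebraMap K L ((P.eval r : O) : K)) * (z : L)⁻¹ =
      (f - ((evS O y P : adjoinRing O y) : L)) * (z : L)⁻¹ +
        (((evS O y P : adjoinRing O y) : L) - algebraMap K L ((P.eval r : O) : K)) * (z : L)⁻¹ := by
    ring
  rw [h4]
  exact add_mem hs h2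

/-- Residue degree one at `V_a`. -/
theorem residue_Va {f : L} (hf : f ∈ h.Va) :
    ∃ g ∈ O, (f - algebraMap K L g) * (algebraMap K L ϖ)⁻¹ ∈ h.Va := by
  have := h.residue_locVal h.isMaximal_a h.locGen_a hf
  rwa [h.coe_pi₀] at this

/-- Residue degree one at `V_c`. -/
theorem residue_Vc {f : L} (hf : f ∈ h.Vc) :
    ∃ g ∈ O, (f - algebraMap K L g) * (y - algebraMap K L (c : K))⁻¹ ∈ h.Vc := by
  have := h.residue_locVal h.isMaximal_c h.locGen_c hf
  rwa [coe_evS_X_sub_C] at this

theorem Va_ne_Vc : h.Va ≠ h.Vc := by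
  intro heq
  have h1 := h.isUnif_Vc.inv_not_mem
  have h2 := @inv_mem_locVal_of_notMem L _ _ _ _ h.isNoetherianRing h.isMaximal_a h.locGen_a
    h.isFracOf _ h.pi_notMem
  rw [coe_evS_X_sub_C] at h2
  apply h1
  rw [← heq]
  exact h2


omit h in
theorem val_lt_one_of_inv_notMem {V' : ValuationSubring L} {x : L} (hx : x ∈ V')
    (hx' : x⁻¹ ∉ V') : V'.valuation x < 1 := by
  have h1 : V'.valuation x ≤ 1 := (V'.valuation_le_one_iff x).2 hx
  rcases lt_or_eq_of_le h1 with h2 | h2
  · exact h2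
  · exfalso
    apply hx'
    rw [← V'.valuation_le_one_iff, map_inv₀, h2, inv_one]

omit h in
theorem inv_notMem_of_val_lt_one {V' : ValuationSubring L} {x : L} (hx0 : x ≠ 0)
    (hx : V'.valuation x < 1) : x⁻¹ ∉ V' := by
  intro hmem
  have h1 : V'.valuation x⁻¹ ≤ 1 := (V'.valuation_le_one_iff _).2 hmem
  rw [map_inv₀] at h1
  have h2 : V'.valuation x ≠ 0 := (Valuation.ne_zero_iff _).2 hx0
  have h3 : 1 ≤ V'.valuation x := by
    rwa [inv_le_one₀ (zero_lt_iff.2 h2)] at h1
  exact absurd hx (not_lt.2 h3)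

theorem y_mem_of_le (V' : ValuationSubring L)
    (hV' : ∀ k : K, algebraMap K L k ∈ V' ↔ k ∈ O) : y ∈ V' := by
  let ψ : O →+* V' := (phi O).codRestrict V' (fun a => (hV' _).2 a.2)
  have hint : IsIntegral V' y := by
    refine ⟨Ψ.map ψ, h.monic.map ψ, ?_⟩
    rw [Polynomial.eval₂_map]
    have hcomp : (algebraMap V' L).comp ψ = phi O := by
      ext a
      rfl
    rw [hcomp, eval₂_phi_eq_aeval, ← h.minpoly_eq, minpoly.aeval]
  obtain ⟨z, hz⟩ := IsIntegrallyClosed.isIntegral_iff.1 hint
  rw [← hz]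
  exact z.2

theorem coe_mem_of_le (V' : ValuationSubring L)
    (hV' : ∀ k : K, algebraMap K L k ∈ V' ↔ k ∈ O) (s : adjoinRing O y) : (s : L) ∈ V' := by
  have hy := h.y_mem_of_le V' hV'
  obtain ⟨P, rfl⟩ := evS_surjective O y s
  rw [coe_evS]
  induction P using Polynomial.induction_on' with
  | add p q hp hq =>
    rw [Polynomial.eval₂_add]
    exact add_mem hp hq
  | monomial n a =>
    rw [Polynomial.eval₂_monomial]
    exact mul_mem ((hV' _).2 a.2) (pow_mem hy n)

/-- **Uniqueness**: `V_a` and `V_c` are the only valuation subrings of `L` over `O`. -/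
theorem eq_Va_or_eq_Vc (V' : ValuationSubring L)
    (hV' : ∀ k : K, algebraMap K L k ∈ V' ↔ k ∈ O) : V' = h.Va ∨ V' = h.Vc := by
  have hS := h.coe_mem_of_le V' hV'
  have hϖ : V'.valuation (algebraMap K L ϖ) < 1 := by
    apply val_lt_one_of_inv_notMem ((hV' _).2 h.unif.mem)
    rw [← map_inv₀, hV']
    exact h.unif.inv_not_mem
  have hrel := congrArg (fun s : adjoinRing O y => (s : L)) h.rel
  simp only [Subring.coe_add, Subring.coe_mul, Subring.coe_pow, Subring.coe_zero] at hrel
  rw [h.coe_pi₀] at hrel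
  set α : L := ((evS O y (Polynomial.X - Polynomial.C a) : adjoinRing O y) : L) with hα
  set π : L := ((evS O y (Polynomial.X - Polynomial.C c) : adjoinRing O y) : L) with hπ
  set g : L := ((evS O y G : adjoinRing O y) : L) with hg
  have hαV : V'.valuation α ≤ 1 := (V'.valuation_le_one_iff _).2 (hS _)
  have hπV : V'.valuation π ≤ 1 := (V'.valuation_le_one_iff _).2 (hS _)
  have hgV : V'.valuation g ≤ 1 := (V'.valuation_le_one_iff _).2 (hS _)
  have hprod : V'.valuation α * V'.valuation π ^ n < 1 := by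
    have h1 : α * π ^ n = -(algebraMap K L ϖ * g) := eq_neg_of_add_eq_zero_left hrel
    have h2 : V'.valuation (α * π ^ n) = V'.valuation (algebraMap K L ϖ) * V'.valuation g := by
      rw [h1, Valuation.map_neg, map_mul]
    rw [map_mul, map_pow] at h2
    rw [h2]
    calc V'.valuation (algebraMap K L ϖ) * V'.valuation g
        ≤ V'.valuation (algebraMap K L ϖ) * 1 := mul_le_mul_right hgV _
      _ < 1 := by rw [mul_one]; exact hϖ
  have hcases : V'.valuation α < 1 ∨ V'.valuation π < 1 := by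
    by_contra hcon
    rw [not_or, not_lt, not_lt] at hcon
    have h1 : V'.valuation α = 1 := le_antisymm hαV hcon.1
    have h2 : V'.valuation π = 1 := le_antisymm hπV hcon.2
    rw [h1, h2, one_pow, one_mul] at hprod
    exact lt_irrefl _ hprod
  have key : ∀ (r : O) (z : L), z = ((evS O y (Polynomial.X - Polynomial.C r) : adjoinRing O y) : L) →
      V'.valuation z < 1 → ∀ s : adjoinRing O y, s ∈ maxAt O y ϖ r → s ≠ 0 → (s : L)⁻¹ ∉ V' := by
    intro r z hz hzV s hs hs0
    obtain ⟨s₁, s₂, rfl⟩ := exists_decomp_of_mem_maxAt h.unif hs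
    apply inv_notMem_of_val_lt_one (fun h0 => hs0 (Subtype.ext h0))
    push_cast
    rw [h.coe_pi₀, ← hz]
    apply Valuation.map_add_lt
    · rw [map_mul]
      calc V'.valuation (algebraMap K L ϖ) * V'.valuation (s₁ : L)
          ≤ V'.valuation (algebraMap K L ϖ) * 1 :=
            mul_le_mul_right ((V'.valuation_le_one_iff _).2 (hS _)) _
        _ < 1 := by rw [mul_one]; exact hϖ
    · rw [map_mul]
      calc V'.valuation z * V'.valuation (s₂ : L)
          ≤ V'.valuation z * 1 :=
            mul_le_mul_right ((V'.valuation_le_one_iff _).2 (hS _)) _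
        _ < 1 := by rw [mul_one]; exact hzV
  rcases hcases with h1 | h1
  · left
    exact @eq_locVal_of_le L _ _ _ _ h.isNoetherianRing h.isMaximal_a h.locGen_a h.isFracOf V' hS
      (key a α rfl h1)
  · right
    exact @eq_locVal_of_le L _ _ _ _ h.isNoetherianRing h.isMaximal_c h.locGen_c h.isFracOf V' hS
      (key c π rfl h1)

end EisData

/-- **Eisenstein-split theorem** (packaged form). -/
theorem exists_two_extensions {Ψ G : O[X]} {a c : O} {n : ℕ} (h : EisData O ϖ y Ψ G a c n) :
    ∃ Va Vc : ValuationSubring L,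
      (∀ k : K, algebraMap K L k ∈ Va ↔ k ∈ O) ∧
      (∀ k : K, algebraMap K L k ∈ Vc ↔ k ∈ O) ∧
      y ∈ Va ∧ y ∈ Vc ∧
      IsUnif Va (algebraMap K L ϖ) ∧
      (y - algebraMap K L (a : K)) * (algebraMap K L ϖ)⁻¹ ∈ Va ∧
      IsUnif Vc (y - algebraMap K L (c : K)) ∧
      (∃ u : L, u ∈ Vc ∧ u⁻¹ ∈ Vc ∧
        (y - algebraMap K L (c : K)) ^ n = algebraMap K L ϖ * u) ∧
      (∀ f ∈ Va, ∃ g ∈ O, (f - algebraMap K L g) * (algebraMap K L ϖ)⁻¹ ∈ Va) ∧
      (∀ f ∈ Vc, ∃ g ∈ O, (f - algebraMap K L g) * (y - algebraMap K L (c : K))⁻¹ ∈ Vc) ∧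
      (∀ V' : ValuationSubring L, (∀ k : K, algebraMap K L k ∈ V' ↔ k ∈ O) →
        V' = Va ∨ V' = Vc) ∧
      Va ≠ Vc :=
  ⟨h.Va, h.Vc, h.algebraMap_mem_Va_iff, h.algebraMap_mem_Vc_iff, h.y_mem_Va, h.y_mem_Vc,
    h.isUnif_Va, h.sub_a_mem, h.isUnif_Vc, h.exists_unit_Vc, fun _ hf => h.residue_Va hf,
    fun _ hf => h.residue_Vc hf, h.eq_Va_or_eq_Vc, h.Va_ne_Vc⟩

/-! ### Producing the hypotheses -/

/-- `L = K[y]` from the degree. -/
theorem gen_of_natDegree_eq [FiniteDimensional K L] {Ψ : O[X]}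
    (hmin : minpoly K y = Ψ.map O.subtype) (hdeg : Ψ.natDegree = Module.finrank K L) :
    ∀ f : L, ∃ P : K[X], Polynomial.aeval y P = f := by
  have hinj : Function.Injective (O.subtype : O →+* K) := Subtype.val_injective
  have htop : IntermediateField.adjoin K {y} = ⊤ := by
    rw [Field.primitive_element_iff_minpoly_natDegree_eq, hmin,
      Polynomial.natDegree_map_eq_of_injective hinj, hdeg]
  intro f
  have hf : f ∈ (IntermediateField.adjoin K {y}).toSubalgebra := by
    rw [htop]
    exact IntermediateField.mem_top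
  rw [IntermediateField.adjoin_simple_toSubalgebra_of_isAlgebraic
    (Algebra.IsAlgebraic.isAlgebraic y), Algebra.adjoin_singleton_eq_range_aeval] at hf
  exact hf

/-- The minimal polynomial from a monic annihilating polynomial of prime degree `[L : K]`. -/
theorem minpoly_eq_map_of_prime [FiniteDimensional K L] {Ψ : O[X]} (hΨ : Ψ.Monic)
    (hprime : (Module.finrank K L).Prime) (hdeg : Ψ.natDegree = Module.finrank K L)
    (hy : Ψ.eval₂ (phi O) y = 0) (hyK : y ∉ (algebraMap K L).range) :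
    minpoly K y = Ψ.map O.subtype := by
  have hinj : Function.Injective (O.subtype : O →+* K) := Subtype.val_injective
  have hint : IsIntegral K y := Algebra.IsIntegral.isIntegral y
  have hdvd : minpoly K y ∣ Ψ.map O.subtype :=
    minpoly.dvd K y (by rw [← eval₂_phi_eq_aeval]; exact hy)
  have h1 : (minpoly K y).natDegree ∣ Module.finrank K L := by
    rw [← IntermediateField.adjoin.finrank hint]
    exact ⟨_, (Module.finrank_mul_finrank K (IntermediateField.adjoin K {y}) L).symm⟩
  have h2 : (minpoly K y).natDegree = Module.finrank K L := by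
    rcases (Nat.dvd_prime hprime).1 h1 with h3 | h3
    · exfalso
      exact hyK ((minpoly.natDegree_eq_one_iff).1 h3)
    · exact h3
  symm
  refine Polynomial.eq_of_monic_of_dvd_of_natDegree_le (minpoly.monic hint) (hΨ.map _) hdvd ?_
  rw [Polynomial.natDegree_map_eq_of_injective hinj, hdeg, h2]

end Main

end Fermat.Agent.S36.H972

end
end
-- ===== PACK-END S36/H972/EisSplit.lean

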