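import Mathlib
import Fermat.Prelude.Def_AlgebraicCurve_DivisorClassGroup
import Fermat.Prelude.Def_AlgebraicCurve_IsCurveOver
import Fermat.Prelude.Def_AlgebraicCurve_Repartitions
import Fermat.Prelude.Def_GoodReductionJacobian_RelativeGroupLawKernel
import Mathlib.NumberTheory.LSeries.Injectivity
import Fermat.Prelude.Def_AlgebraicCurve_BaseChangeGalois
import Fermat.Agent.Pack.S43MC.G0E6L0
import Fermat.Agent.Pack.S43MC.G0E5L2
import Fermat.Agent.Pack.S43MC.G0E1L3
import Fermat.Agent.Pack.S43MC.G0E6L3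
import Fermat.Agent.Pack.S43MC.G0E2L0
import Fermat.Agent.Pack.S43MC.G0E5L0
import Fermat.Agent.Pack.S43MC.G0E2L1
import Fermat.Agent.Pack.S43GC.G0E4L1
import Fermat.Agent.Pack.S44C.G0E6L1
import Fermat.Agent.Pack.S43MC.G0E6L2
import Fermat.Agent.Pack.S44C.G0E0L1
import Fermat.Agent.Pack.S43MC.G0E7L2
import Fermat.Agent.Pack.S43MC.G0E7L0
import Fermat.Agent.Pack.S44C.G0E6L2
import Fermat.Agent.Pack.S43MC.G0E8L0
import Fermat.Agent.Pack.Fast891

-- ===== PACK-BEGIN S26/FF/H660/FFRank.lean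
section


/-!
# Row S26, block FF, leaf FFRank (helper660)

For a finite flat morphism `φ : X ⟶ Y` of integral schemes preserving the generic point, the rank
of `φ` at the generic point of `Y` is the degree of the extension of function fields.
-/

set_option autoImplicit false
universe u

open CategoryTheory CategoryTheory.Limits AlgebraicGeometry

namespace Fermat.Agent.S26.FF.H660

noncomputable section

/-- Over a domain, the rank at any stalk of a finite flat algebra which is a domain is the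
degree of the extension of fraction fields. -/
theorem rankAtStalk_eq_finrank_frac660 (R S K L : Type*) [CommRing R] [CommRing S] [IsDomain R]
    [Algebra R S] [Module.Finite R S] [Module.Flat R S]
    [CommRing K] [CommRing L] [Algebra R K] [IsFractionRing R K] [Algebra S L]
    [IsFractionRing S L] [Module K L] [Algebra R L] [IsScalarTower R K L] [IsScalarTower R S L]
    (p : PrimeSpectrum R) : Module.rankAtStalk S p = Module.finrank K L := by
  rw [IsFractionRing.finrank_eq R K S L]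
  exact (Ideal.finrank_fiber_eq_rankAtStalk (M := S) p.asIdeal).symm.trans
    (Ideal.finrank_fiber_eq_finrank p.asIdeal)

/-- The degree `[L : σ K]` computed with the algebra structure given by `σ`. -/
theorem finrank_fieldRange660 {K L : Type*} [Field K] [Field L] (σ : K →+* L) :
    Module.finrank σ.fieldRange L = @Module.finrank K L _ _ σ.toAlgebra.toModule := by
  let _ : Algebra K L := σ.toAlgebra
  refine (Algebra.finrank_eq_of_equiv_equiv σ.rangeRestrictFieldEquiv (RingEquiv.refl L) ?_).symm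
  ext x
  rfl

section General

variable {X Y : Scheme.{u}} [IsIntegral X] [IsIntegral Y]

/-- The map of function fields on germs. -/
theorem ffMap_germ660 (φ : X ⟶ Y) (h : φ (genericPoint X) = genericPoint Y) (V : Y.Opens)
    (hV : genericPoint Y ∈ V) (s : Γ(Y, V)) :
    ffMap φ h (Y.presheaf.germ V (genericPoint Y) hV s) =
      X.presheaf.germ (φ ⁻¹ᵁ V) (genericPoint X)
        (show φ (genericPoint X) ∈ V from h ▸ hV) (φ.app V s) := by
  unfold ffMap
  simp only [TopCat.Presheaf.stalkCongr_hom, CommRingCat.hom_comp, RingHom.comp_apply]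
  have e1 := TopCat.Presheaf.germ_stalkSpecializes_apply Y.presheaf (U := V) (y := genericPoint Y)
    hV (x := φ (genericPoint X)) (Inseparable.of_eq h.symm).ge s
  have e2 := Scheme.Hom.germ_stalkMap_apply φ V (genericPoint X) (h ▸ hV) s
  exact (congrArg (φ.stalkMap (genericPoint X)) e1).trans e2

/-- **FF2.**  The rank at the generic point of a finite flat morphism of integral schemes
preserving the generic point is the degree of the extension of function fields. -/
theorem finrank_genericPoint_eq_ffDeg660 (φ : X ⟶ Y) [IsFinite φ] [Flat φ]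
    (h : φ (genericPoint X) = genericPoint Y) :
    φ.finrank (genericPoint Y) = ffDeg φ h := by
  obtain ⟨V, hV, hηV⟩ : ∃ V : Y.Opens, IsAffineOpen V ∧ genericPoint Y ∈ V := by
    obtain ⟨_, ⟨V, hV, rfl⟩, hx, -⟩ :=
      Y.isBasis_affineOpens.exists_subset_of_mem_open (Set.mem_univ (genericPoint Y)) isOpen_univ
    exact ⟨V, hV, hx⟩
  have hU : IsAffineOpen (φ ⁻¹ᵁ V) := hV.preimage φ
  have hηU : genericPoint X ∈ φ ⁻¹ᵁ V := show φ (genericPoint X) ∈ V from h ▸ hηV
  have : Nonempty V := ⟨⟨_, hηV⟩⟩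
  have : Nonempty (φ ⁻¹ᵁ V) := ⟨⟨_, hηU⟩⟩
  have H : IsPullback (Spec.map (φ.app V)) hU.fromSpec hV.fromSpec φ := by
    apply IsOpenImmersion.isPullback
    · rw [← Scheme.Hom.appLE_eq_app]
      exact (IsAffineOpen.SpecMap_appLE_fromSpec φ hV hU le_rfl).symm
    · simp
  have hfin : IsFinite (Spec.map (φ.app V)) := MorphismProperty.of_isPullback H.flip ‹_›
  have hflat : Flat (Spec.map (φ.app V)) := MorphismProperty.of_isPullback H.flip ‹_›
  rw [IsFinite.SpecMap_iff] at hfin
  rw [Flat.SpecMap_iff] at hflat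
  obtain ⟨y, hy⟩ : ∃ y : Spec Γ(Y, V), hV.fromSpec y = genericPoint Y :=
    ⟨hV.primeIdealOf ⟨_, hηV⟩, hV.fromSpec_primeIdealOf _⟩
  have e1 : φ.finrank (genericPoint Y) = Scheme.Hom.finrank (Spec.map (φ.app V)) y := by
    rw [Scheme.Hom.finrank_of_isPullback _ _ _ _ H.flip, hy]
  rw [e1, Scheme.Hom.finrank_SpecMap_eq_finrank hfin hflat, ffDeg, finrank_fieldRange660]
  let _ : Algebra Γ(Y, V) Γ(X, φ ⁻¹ᵁ V) := (φ.app V).hom.toAlgebra
  let _ : Algebra Y.functionField X.functionField := (ffMap φ h).toAlgebra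
  let _ : Algebra Γ(Y, V) X.functionField :=
    ((algebraMap Γ(X, φ ⁻¹ᵁ V) X.functionField).comp (algebraMap Γ(Y, V) Γ(X, φ ⁻¹ᵁ V))).toAlgebra
  have : IsScalarTower Γ(Y, V) Γ(X, φ ⁻¹ᵁ V) X.functionField := .of_algebraMap_eq' rfl
  have : IsScalarTower Γ(Y, V) Y.functionField X.functionField :=
    .of_algebraMap_eq' (by ext s; exact (ffMap_germ660 φ h V hηV s).symm)
  have := functionField_isFractionRing_of_isAffineOpen X _ hU
  have := functionField_isFractionRing_of_isAffineOpen Y V hV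
  have : Module.Finite Γ(Y, V) Γ(X, φ ⁻¹ᵁ V) := hfin
  have : Module.Flat Γ(Y, V) Γ(X, φ ⁻¹ᵁ V) := hflat
  exact rankAtStalk_eq_finrank_frac660 Γ(Y, V) Γ(X, φ ⁻¹ᵁ V) Y.functionField X.functionField _

end General

/-- **Leaf FFRank of row S26**: the rank of the finite etale morphism `[n]` at the generic point
is the degree of the extension of function fields. -/
theorem ffRank660 (K : Type u) [Field K] [IsAlgClosed K] : Stmt.FFRank K := by
  intro X _ n _ hfin het h
  have : Flat (X.nsmulHom n) := inferInstance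
  exact finrank_genericPoint_eq_ffDeg660 _ h

end

end Fermat.Agent.S26.FF.H660

end
-- ===== PACK-END S26/FF/H660/FFRank.lean

-- ===== PACK-BEGIN S26/H841/SumIrred.lean
section



/-!
# S26 / block CUBE / leaf C4c (helper841): sums of irreducible closed subsets
-/

set_option autoImplicit false
set_option linter.style.haveILetI false
set_option linter.unusedSectionVars false

universe u

open CategoryTheory CategoryTheory.Limits AlgebraicGeometry TopologicalSpace

namespace Fermat.Agent.S26.H841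

noncomputable section

/-! ## 1. The reduced induced closed subscheme structure on a closed subset -/

section ReducedInduced

variable {X : Scheme.{u}} (Z : Closeds X)

/-- The reduced induced closed subscheme on the closed subset `Z`. -/
abbrev redSub : Scheme.{u} := (Scheme.IdealSheafData.vanishingIdeal Z).subscheme

/-- The closed immersion of the reduced induced subscheme. -/
abbrev redSubι : redSub Z ⟶ X := (Scheme.IdealSheafData.vanishingIdeal Z).subschemeι

lemma range_redSubι : Set.range (redSubι Z) = (Z : Set X) := by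
  rw [Scheme.IdealSheafData.range_subschemeι]
  simp

instance isReduced_redSub : IsReduced (redSub Z) := by
  refine @IsReduced.of_openCover _
    (Scheme.IdealSheafData.vanishingIdeal Z).subschemeCover.openCover ?_
  intro (U : X.affineOpens)
  change IsReduced (Spec (.of (Γ(X, U.1) ⧸ (Scheme.IdealSheafData.vanishingIdeal Z).ideal U)))
  have hrad : ((Scheme.IdealSheafData.vanishingIdeal Z).ideal U).IsRadical := by
    rw [Scheme.IdealSheafData.vanishingIdeal_ideal]
    exact PrimeSpectrum.isRadical_vanishingIdeal _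
  haveI : _root_.IsReduced (Γ(X, U.1) ⧸ (Scheme.IdealSheafData.vanishingIdeal Z).ideal U) :=
    (Ideal.isRadical_iff_quotient_reduced _).1 hrad
  infer_instance

/-- A space with an inducing map onto an irreducible set is irreducible. -/
lemma irreducibleSpace_of_isInducing_range {A X : Type*} [TopologicalSpace A] [TopologicalSpace X]
    {e : A → X} (he : Topology.IsInducing e) (h : IsIrreducible (Set.range e)) :
    IrreducibleSpace A := by
  obtain ⟨-, a, rfl⟩ := h.nonempty
  haveI : Nonempty A := ⟨a⟩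
  refine { isPreirreducible_univ := ?_, toNonempty := ⟨a⟩ }
  intro u v hu hv hxu hyv
  obtain ⟨u', hu', rfl⟩ := he.isOpen_iff.1 hu
  obtain ⟨v', hv', rfl⟩ := he.isOpen_iff.1 hv
  obtain ⟨x, -, hx⟩ := hxu
  obtain ⟨y, -, hy⟩ := hyv
  obtain ⟨-, ⟨w, rfl⟩, hw1, hw2⟩ := h.2 u' v' hu' hv' ⟨e x, ⟨x, rfl⟩, hx⟩ ⟨e y, ⟨y, rfl⟩, hy⟩
  exact ⟨w, Set.mem_univ _, hw1, hw2⟩

lemma irreducibleSpace_redSub (hZ : IsIrreducible (Z : Set X)) : IrreducibleSpace (redSub Z) := by
  have h : IsIrreducible (Set.range (redSubι Z)) := by rw [range_redSubι]; exact hZ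
  exact irreducibleSpace_of_isInducing_range (redSubι Z).isEmbedding.isInducing h

lemma isIntegral_redSub (hZ : IsIrreducible (Z : Set X)) : IsIntegral (redSub Z) := by
  haveI := irreducibleSpace_redSub Z hZ
  exact isIntegral_of_irreducibleSpace_of_isReduced _

end ReducedInduced

/-! ## 2. Products of irreducible closed subsets over an algebraically closed field -/

section Product

variable {k : Type u} [Field k] [IsAlgClosed k] {X Y : Scheme.{u}}
  (f : X ⟶ Spec (CommRingCat.of k)) (g : Y ⟶ Spec (CommRingCat.of k))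

/-- **Products of irreducible sets are irreducible** (over an algebraically closed field):
`B ⊆ X` irreducible, `Γ ⊆ Y` irreducible and closed, `Y` locally noetherian; then
`B × Γ = p₁⁻¹ B ∩ p₂⁻¹ Γ ⊆ X ×ₖ Y` is irreducible. -/
theorem isIrreducible_prod [IsLocallyNoetherian Y] {B : Set X} (hB : IsIrreducible B)
    {Γ : Set Y} (hΓ : IsIrreducible Γ) (hΓc : IsClosed Γ) :
    IsIrreducible ((pullback.fst f g) ⁻¹' B ∩ (pullback.snd f g) ⁻¹' Γ) := by
  let Z : Closeds Y := ⟨Γ, hΓc⟩
  let ι : redSub Z ⟶ Y := redSubι Z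
  have hι : Set.range ι = Γ := range_redSubι Z
  haveI : IsIntegral (redSub Z) := isIntegral_redSub Z hΓ
  haveI : IsLocallyNoetherian (redSub Z) := LocallyOfFiniteType.isLocallyNoetherian ι
  haveI : GeometricallyIntegral (ι ≫ g) :=
    Fermat.Agent.S25.H567.geometricallyIntegral_of_isAlgClosed (ι ≫ g)
  let p : pullback f (ι ≫ g) ⟶ X := pullback.fst f (ι ≫ g)
  have hW : IsIrreducible (p ⁻¹' B) := p.isIrreducible_preimage p.isOpenMap hB
  let j : pullback f (ι ≫ g) ⟶ pullback f g :=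
    pullback.map f (ι ≫ g) f g (𝟙 X) ι (𝟙 _) (by simp) (by simp)
  have hj1 : j ≫ pullback.fst f g = p := by
    simp only [j, p, pullback.map]
    rw [pullback.lift_fst]
    simp
  have hj2 : j ≫ pullback.snd f g = pullback.snd f (ι ≫ g) ≫ ι := by
    simp only [j, pullback.map]
    rw [pullback.lift_snd]
  have himg : j '' (p ⁻¹' B) = (pullback.fst f g) ⁻¹' B ∩ (pullback.snd f g) ⁻¹' Γ := by
    ext y
    constructor
    · rintro ⟨z, hz, rfl⟩
      refine ⟨?_, ?_⟩
      · show pullback.fst f g (j z) ∈ B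
        rw [← Scheme.Hom.comp_apply, hj1]
        exact hz
      · show pullback.snd f g (j z) ∈ Γ
        rw [← Scheme.Hom.comp_apply, hj2, Scheme.Hom.comp_apply, ← hι]
        exact ⟨_, rfl⟩
    · rintro ⟨hy1, hy2⟩
      have hy : y ∈ Set.range j := by
        rw [Scheme.Pullback.range_map]
        refine ⟨⟨pullback.fst f g y, rfl⟩, ?_⟩
        show pullback.snd f g y ∈ Set.range ι
        rw [hι]
        exact hy2
      obtain ⟨z, rfl⟩ := hy
      refine ⟨z, ?_, rfl⟩
      show p z ∈ B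
      rw [← hj1, Scheme.Hom.comp_apply]
      exact hy1
  rw [← himg]
  exact hW.image j j.continuous.continuousOn

end Product

/-! ## 3. The sum of two subsets with respect to an "addition" morphism -/

section Sum

variable {k : Type u} [Field k] [IsAlgClosed k] {A : Scheme.{u}}
  (a : A ⟶ Spec (CommRingCat.of k)) (m : pullback a a ⟶ A)

/-- `B + Γ`: the image of `B × Γ ⊆ A ×ₖ A` under the "addition" `m`. -/
def sumSet (B Γ : Set A) : Set A :=
  m '' ((pullback.fst a a) ⁻¹' B ∩ (pullback.snd a a) ⁻¹' Γ)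

/-- `B + Γ` is irreducible if `B` and `Γ` are (and `Γ` is closed). -/
theorem isIrreducible_sumSet [IsLocallyNoetherian A] {B Γ : Set A} (hB : IsIrreducible B)
    (hΓ : IsIrreducible Γ) (hΓc : IsClosed Γ) : IsIrreducible (sumSet a m B Γ) :=
  (isIrreducible_prod a a hB hΓ hΓc).image m m.continuous.continuousOn

/-- A `k`-morphism `A ×ₖ A ⟶ A` is proper if `A` is proper over `k`. -/
theorem isProper_of_comp_eq [IsProper a] (hm : m ≫ a = pullback.fst a a ≫ a) : IsProper m := by
  haveI : IsProper (m ≫ a) := by rw [hm]; infer_instance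
  exact IsProper.of_comp m a

/-- `B + Γ` is closed if `B` and `Γ` are and `A` is proper. -/
theorem isClosed_sumSet [IsProper a] (hm : m ≫ a = pullback.fst a a ≫ a) {B Γ : Set A}
    (hB : IsClosed B) (hΓ : IsClosed Γ) : IsClosed (sumSet a m B Γ) := by
  haveI : IsProper m := isProper_of_comp_eq a m hm
  exact m.isClosedMap _ ((hB.preimage (pullback.fst a a).continuous).inter
    (hΓ.preimage (pullback.snd a a).continuous))

variable (o : Spec (CommRingCat.of k) ⟶ A) (ho : o ≫ a = 𝟙 _)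

/-- `B ⊆ B + Γ` if `0 ∈ Γ` (right unit law). -/
theorem subset_sumSet_left
    (hunit : pullback.lift (𝟙 A) (a ≫ o) (by rw [Category.assoc, ho]; simp) ≫ m = 𝟙 A)
    {B Γ : Set A} (hΓ : Set.range o ⊆ Γ) : B ⊆ sumSet a m B Γ := by
  intro b hb
  refine ⟨pullback.lift (𝟙 A) (a ≫ o) (by rw [Category.assoc, ho]; simp) b, ⟨?_, ?_⟩, ?_⟩
  · show pullback.fst a a (pullback.lift (𝟙 A) (a ≫ o) _ b) ∈ B
    rw [← Scheme.Hom.comp_apply, pullback.lift_fst]
    exact hb
  · show pullback.snd a a (pullback.lift (𝟙 A) (a ≫ o) _ b) ∈ Γ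
    rw [← Scheme.Hom.comp_apply, pullback.lift_snd, Scheme.Hom.comp_apply]
    exact hΓ ⟨_, rfl⟩
  · rw [← Scheme.Hom.comp_apply, hunit]
    rfl

/-- `Γ ⊆ B + Γ` if `0 ∈ B` (left unit law). -/
theorem subset_sumSet_right
    (hunit : pullback.lift (a ≫ o) (𝟙 A) (by rw [Category.assoc, ho]; simp) ≫ m = 𝟙 A)
    {B Γ : Set A} (hB : Set.range o ⊆ B) : Γ ⊆ sumSet a m B Γ := by
  intro c hc
  refine ⟨pullback.lift (a ≫ o) (𝟙 A) (by rw [Category.assoc, ho]; simp) c, ⟨?_, ?_⟩, ?_⟩
  · show pullback.fst a a (pullback.lift (a ≫ o) (𝟙 A) _ c) ∈ B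
    rw [← Scheme.Hom.comp_apply, pullback.lift_fst, Scheme.Hom.comp_apply]
    exact hB ⟨_, rfl⟩
  · show pullback.snd a a (pullback.lift (a ≫ o) (𝟙 A) _ c) ∈ Γ
    rw [← Scheme.Hom.comp_apply, pullback.lift_snd]
    exact hc
  · rw [← Scheme.Hom.comp_apply, hunit]
    rfl

end Sum

/-! ## 4. `k`-points of `B + Γ` -/

section KPoints

variable {k : Type u} [Field k] [IsAlgClosed k] {A : Scheme.{u}}
  (a : A ⟶ Spec (CommRingCat.of k)) (m : pullback a a ⟶ A)

/-- The image of a `k`-point is a closed point. -/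
theorem isClosed_singleton_kpoint [LocallyOfFiniteType a] (x : Spec (CommRingCat.of k) ⟶ A)
    (hx : x ≫ a = 𝟙 _) : IsClosed ({x (IsLocalRing.closedPoint k)} : Set A) :=
  (pointEquivClosedPoint a ⟨x, hx⟩).2

/-- The range of a `k`-point is a singleton. -/
theorem range_kpoint (x : Spec (CommRingCat.of k) ⟶ A) :
    Set.range x = {x (IsLocalRing.closedPoint k)} := by
  ext y
  constructor
  · rintro ⟨t, rfl⟩
    rw [Subsingleton.elim t (IsLocalRing.closedPoint k)]
    rfl
  · rintro rfl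
    exact ⟨_, rfl⟩

/-- **`k`-points of `B + Γ` are sums of `k`-points of `B` and `Γ`.** -/
theorem exists_kpoints_of_mem_sumSet [LocallyOfFiniteType a]
    (hm : m ≫ a = pullback.fst a a ≫ a) {B Γ : Set A} (hB : IsClosed B) (hΓ : IsClosed Γ)
    (x : Spec (CommRingCat.of k) ⟶ A) (hx : x ≫ a = 𝟙 _)
    (hxs : Set.range x ⊆ sumSet a m B Γ) :
    ∃ (q r : Spec (CommRingCat.of k) ⟶ A) (hq : q ≫ a = 𝟙 _) (hr : r ≫ a = 𝟙 _),
      Set.range q ⊆ B ∧ Set.range r ⊆ Γ ∧
        pullback.lift q r (by rw [hq, hr]) ≫ m = x := by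
  set pt : A := x (IsLocalRing.closedPoint k) with hpt
  have hptc : IsClosed ({pt} : Set A) := isClosed_singleton_kpoint a x hx
  obtain ⟨z₀, ⟨hz₀B, hz₀Γ⟩, hz₀m⟩ := hxs ⟨IsLocalRing.closedPoint k, rfl⟩
  haveI : LocallyOfFiniteType (pullback.fst a a ≫ a) := inferInstance
  haveI : JacobsonSpace (pullback a a : Scheme.{u}) :=
    LocallyOfFiniteType.jacobsonSpace (pullback.fst a a ≫ a)
  let F : Set (pullback a a : Scheme.{u}) :=
    ((pullback.fst a a) ⁻¹' B ∩ (pullback.snd a a) ⁻¹' Γ) ∩ m ⁻¹' {pt}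
  have hFc : IsClosed F :=
    ((hB.preimage (pullback.fst a a).continuous).inter
      (hΓ.preimage (pullback.snd a a).continuous)).inter (hptc.preimage m.continuous)
  have hFne : F.Nonempty := ⟨z₀, ⟨hz₀B, hz₀Γ⟩, hz₀m⟩
  obtain ⟨z₁, ⟨⟨hz₁B, hz₁Γ⟩, hz₁m⟩, hz₁c⟩ := nonempty_inter_closedPoints hFne hFc.isLocallyClosed
  have hz₁c' : IsClosed ({z₁} : Set (pullback a a : Scheme.{u})) := hz₁c
  let zz : Spec (CommRingCat.of k) ⟶ pullback a a :=
    pointOfClosedPoint (pullback.fst a a ≫ a) z₁ hz₁c'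
  have hzz : zz ≫ pullback.fst a a ≫ a = 𝟙 _ := pointOfClosedPoint_comp _ _ _
  have hzz' : zz ≫ pullback.snd a a ≫ a = 𝟙 _ := by rw [← pullback.condition]; exact hzz
  have hzzpt : ∀ t, zz t = z₁ := fun t => pointOfClosedPoint_apply _ _ _ t
  refine ⟨zz ≫ pullback.fst a a, zz ≫ pullback.snd a a, by rw [Category.assoc]; exact hzz,
    by rw [Category.assoc]; exact hzz', ?_, ?_, ?_⟩
  · rintro _ ⟨t, rfl⟩
    rw [Scheme.Hom.comp_apply, hzzpt]
    exact hz₁B
  · rintro _ ⟨t, rfl⟩
    rw [Scheme.Hom.comp_apply, hzzpt]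
    exact hz₁Γ
  · have hlift : pullback.lift (zz ≫ pullback.fst a a) (zz ≫ pullback.snd a a)
        (by rw [Category.assoc, Category.assoc, pullback.condition]) = zz := by
      apply pullback.hom_ext
      · rw [pullback.lift_fst]
      · rw [pullback.lift_snd]
    rw [hlift]
    refine ext_of_apply_closedPoint_eq a ?_ hx ?_
    · rw [Category.assoc, hm]; exact hzz
    · exact (congrArg m (hzzpt _)).trans hz₁m

end KPoints

/-! ## 5. Chains of irreducible closed subsets of a locally noetherian scheme are finite -/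

section Chains

variable {X : Scheme.{u}}

/-- In a locally noetherian scheme every point has finite codimension. -/
theorem coheight_lt_top_of_isLocallyNoetherian [IsLocallyNoetherian X] (x : X) :
    Order.coheight x < ⊤ := by
  have h := ringKrullDim_stalk_eq_coheight x
  have h2 : ringKrullDim (X.presheaf.stalk x) < ⊤ := ringKrullDim_lt_top
  rw [h, ← WithBot.coe_top, WithBot.coe_lt_coe] at h2
  exact h2

/-- The codimension of (the closure of) a point, as a natural number. -/
def ptCodim (x : X) : ℕ := (Order.coheight x).toNat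

theorem ptCodim_lt [IsLocallyNoetherian X] {x y : X} (h : y < x) : ptCodim x < ptCodim y := by
  have h1 := Order.coheight_strictAnti h (coheight_lt_top_of_isLocallyNoetherian x)
  have hx := coheight_lt_top_of_isLocallyNoetherian x
  have hy := coheight_lt_top_of_isLocallyNoetherian y
  obtain ⟨n, hn⟩ := ENat.ne_top_iff_exists.mp hx.ne
  obtain ⟨n', hn'⟩ := ENat.ne_top_iff_exists.mp hy.ne
  rw [← hn, ← hn'] at h1
  simp only [ptCodim, ← hn, ← hn', ENat.toNat_natCast]
  exact_mod_cast h1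

/-- Strict inclusions of irreducible closed subsets give strict specializations of their
generic points. -/
theorem genericPoint_lt_of_ssubset {Z Z' : Set X} {z z' : X} (hz : IsGenericPoint z Z)
    (hz' : IsGenericPoint z' Z') (h : Z ⊆ Z') (hne : Z ≠ Z') : z < z' := by
  have h1 : z' ⤳ z := by
    rw [specializes_iff_mem_closure, hz'.def]
    exact h hz.mem
  refine ⟨h1, fun h2 => hne ?_⟩
  have h2' : z ⤳ z' := h2
  have : z = z' := (h2'.antisymm h1).eq
  rw [← hz.def, ← hz'.def, this]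

/-- **Maximal irreducible closed subsets with a property exist** in a locally noetherian scheme
(chains of irreducible closed subsets through a given one are finite). -/
theorem exists_maximal_isIrreducible_isClosed [IsLocallyNoetherian X] (P : Set X → Prop)
    (Z₀ : Set X) (h₀ : IsIrreducible Z₀) (h₀c : IsClosed Z₀) (hP : P Z₀) :
    ∃ Z, IsIrreducible Z ∧ IsClosed Z ∧ Z₀ ⊆ Z ∧ P Z ∧
      ∀ Z', IsIrreducible Z' → IsClosed Z' → Z ⊆ Z' → P Z' → Z' = Z := by
  classical
  -- the set of codimensions of the generic points of the admissible `Z`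
  let S : Set ℕ := {n | ∃ Z z, IsIrreducible Z ∧ IsClosed Z ∧ Z₀ ⊆ Z ∧ P Z ∧
    IsGenericPoint z Z ∧ ptCodim z = n}
  obtain ⟨z₀, hz₀⟩ := QuasiSober.sober h₀ h₀c
  have hS : S.Nonempty := ⟨_, Z₀, z₀, h₀, h₀c, le_rfl, hP, hz₀, rfl⟩
  obtain ⟨Z, z, hZ, hZc, hZ₀, hPZ, hz, hn⟩ := Nat.sInf_mem hS
  refine ⟨Z, hZ, hZc, hZ₀, hPZ, ?_⟩
  intro Z' hZ' hZ'c hZZ' hPZ'
  by_contra hne
  obtain ⟨z', hz'⟩ := QuasiSober.sober hZ' hZ'c
  have hlt : z < z' := genericPoint_lt_of_ssubset hz hz' hZZ' (fun h => hne h.symm)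
  have h1 : ptCodim z' < ptCodim z := ptCodim_lt hlt
  have h2 : sInf S ≤ ptCodim z' :=
    Nat.sInf_le ⟨Z', z', hZ', hZ'c, hZ₀.trans hZZ', hPZ', hz', rfl⟩
  omega

end Chains

/-! ## 6. Curves generate: the abstract climbing argument -/

section Generate

variable {k : Type u} [Field k] [IsAlgClosed k] {A : Scheme.{u}}
  (a : A ⟶ Spec (CommRingCat.of k)) (m : pullback a a ⟶ A)
  (o : Spec (CommRingCat.of k) ⟶ A) (ho : o ≫ a = 𝟙 _)

/-- **Curves generate (abstract form).**  Let `A` be proper over an algebraically closed field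
`k`, with a `k`-morphism `m : A ×ₖ A ⟶ A` and a `k`-point `o` which is a two-sided unit for `m`.
Let `H` be a set of `k`-points containing `o` and closed under `m`.  Suppose that every
irreducible closed `B ∋ o`, `B ≠ A`, admits an irreducible closed `Γ ∋ o` with `Γ ⊄ B` all of
whose `k`-points lie in `H`.  Then `H` contains all `k`-points. -/
theorem kpoints_generated [IsProper a]
    (hm : m ≫ a = pullback.fst a a ≫ a)
    (hunitr : pullback.lift (𝟙 A) (a ≫ o) (by rw [Category.assoc, ho]; simp) ≫ m = 𝟙 A)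
    (hunitl : pullback.lift (a ≫ o) (𝟙 A) (by rw [Category.assoc, ho]; simp) ≫ m = 𝟙 A)
    (H : (Spec (CommRingCat.of k) ⟶ A) → Prop) (hHo : H o)
    (hHadd : ∀ (q r : Spec (CommRingCat.of k) ⟶ A) (hq : q ≫ a = 𝟙 _) (hr : r ≫ a = 𝟙 _),
      H q → H r → H (pullback.lift q r (by rw [hq, hr]) ≫ m))
    (hcurve : ∀ B : Set A, IsIrreducible B → IsClosed B → Set.range o ⊆ B → B ≠ Set.univ →
      ∃ Γ : Set A, IsIrreducible Γ ∧ IsClosed Γ ∧ Set.range o ⊆ Γ ∧ ¬ Γ ⊆ B ∧
        ∀ x : Spec (CommRingCat.of k) ⟶ A, x ≫ a = 𝟙 _ → Set.range x ⊆ Γ → H x)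
    (x : Spec (CommRingCat.of k) ⟶ A) (hx : x ≫ a = 𝟙 _) : H x := by
  haveI : IsLocallyNoetherian A := LocallyOfFiniteType.isLocallyNoetherian a
  let P : Set A → Prop := fun Z =>
    ∀ y : Spec (CommRingCat.of k) ⟶ A, y ≫ a = 𝟙 _ → Set.range y ⊆ Z → H y
  have hZ₀irr : IsIrreducible (Set.range o) := by
    rw [range_kpoint]; exact isIrreducible_singleton
  have hZ₀c : IsClosed (Set.range o) := by
    rw [range_kpoint]; exact isClosed_singleton_kpoint a o ho
  have hP₀ : P (Set.range o) := by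
    intro y hy hyo
    have : y = o := by
      refine ext_of_apply_closedPoint_eq a hy ho ?_
      have h1 := hyo ⟨IsLocalRing.closedPoint k, rfl⟩
      rw [range_kpoint] at h1
      exact h1
    rw [this]; exact hHo
  obtain ⟨Z, hZ, hZc, hZ₀, hPZ, hmax⟩ :=
    exists_maximal_isIrreducible_isClosed P (Set.range o) hZ₀irr hZ₀c hP₀
  by_cases hZu : Z = Set.univ
  · exact hPZ x hx (by rw [hZu]; exact Set.subset_univ _)
  · exfalso
    obtain ⟨Γ, hΓ, hΓc, hoΓ, hΓZ, hΓH⟩ := hcurve Z hZ hZc hZ₀ hZu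
    have h1 : IsIrreducible (sumSet a m Z Γ) := isIrreducible_sumSet a m hZ hΓ hΓc
    have h2 : IsClosed (sumSet a m Z Γ) := isClosed_sumSet a m hm hZc hΓc
    have h3 : Z ⊆ sumSet a m Z Γ := subset_sumSet_left a m o ho hunitr hoΓ
    have h4 : Γ ⊆ sumSet a m Z Γ := subset_sumSet_right a m o ho hunitl hZ₀
    have h5 : P (sumSet a m Z Γ) := by
      intro y hy hys
      obtain ⟨q, r, hq, hr, hqZ, hrΓ, hqr⟩ :=
        exists_kpoints_of_mem_sumSet a m hm hZc hΓc y hy hys
      rw [← hqr]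
      exact hHadd q r hq hr (hPZ q hq hqZ) (hΓH r hr hrΓ)
    have h6 := hmax _ h1 h2 h3 h5
    exact hΓZ (h6 ▸ h4)

end Generate

end

end Fermat.Agent.S26.H841

end
-- ===== PACK-END S26/H841/SumIrred.lean

-- ===== PACK-BEGIN S26/H445/UFDSmooth.lean
section




/-!
# S26 / leaf UFD / U4 : local rings of smooth algebras are unique factorisation domains
(helper445, assembly of U1 (H445), U2 (H626), U3 (H925))

`K` algebraically closed, `B` a smooth `K`-algebra, `m` a maximal ideal of `B`, `R = B_m`.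
Then `R` is a UFD; in particular every prime ideal of height one of `R` is principal.
-/

set_option autoImplicit false

universe u

open IsLocalRing

namespace Fermat.Agent.S26.H445

/-- **U4.** The local ring of a smooth algebra over an algebraically closed field at a maximal
ideal is a unique factorisation domain. -/
theorem ufd_of_smooth_localization (K : Type u) [Field K] [IsAlgClosed K] (B : Type u)
    [CommRing B] [Algebra K B] [Algebra.Smooth K B] (m : Ideal B) [m.IsMaximal] (R : Type u)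
    [CommRing R] [Algebra B R] [IsLocalization.AtPrime R m] :
    IsDomain R ∧ UniqueFactorizationMonoid R := by
  have : IsLocalRing R := IsLocalization.AtPrime.isLocalRing R m
  have : IsNoetherianRing B := Algebra.FiniteType.isNoetherianRing K B
  have : IsNoetherianRing R := IsLocalization.isNoetherianRing m.primeCompl R inferInstance
  obtain ⟨g, τ, h1, h2⟩ := Fermat.Agent.S26.H626.exists_formalChart_of_smooth K B m R
  have : IsDomain (MvPowerSeries (Fin g) K) := NoZeroDivisors.to_isDomain _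
  have : UniqueFactorizationMonoid (MvPowerSeries (Fin g) K) :=
    uniqueFactorizationMonoid_mvPowerSeries_fin K g
  exact Fermat.Agent.S26.H925.ufd_of_chart τ h1 h2

/-- **U4, corollary.** Every prime ideal of height one of the local ring of a smooth algebra
over an algebraically closed field at a maximal ideal is principal. -/
theorem isPrincipal_of_height_eq_one (K : Type u) [Field K] [IsAlgClosed K] (B : Type u)
    [CommRing B] [Algebra K B] [Algebra.Smooth K B] (m : Ideal B) [m.IsMaximal] (R : Type u)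
    [CommRing R] [Algebra B R] [IsLocalization.AtPrime R m]
    (P : Ideal R) [P.IsPrime] (hP : P.height = 1) : P.IsPrincipal := by
  obtain ⟨hdom, hufd⟩ := ufd_of_smooth_localization K B m R
  exact Fermat.Agent.S26.H925.isPrincipal_of_height_eq_one_of_ufd P hP

end Fermat.Agent.S26.H445

end
-- ===== PACK-END S26/H445/UFDSmooth.lean

-- ===== PACK-BEGIN S26/H86/Trdeg.lean
section


/-!
# Row S26, block AMPLE — leaf FF5 / AMPLE-IND (helper86)

Transcendence degree of the function field of a smooth integral scheme over a perfect field,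
via Kähler differentials, and the consequence needed by `Stmt.Alpha`:
a linear system of `g + 1` rational functions of *finite positive degree* on a smooth integral
scheme of relative dimension `g` has algebraically independent affine coordinates.

Main results (namespace `Fermat.Agent.S26.H86`):

* `finrank_kaehler_of_algebraicIndependent_of_isSeparable` :
  `dim_L Ω[L/K] = #ι` for a separating transcendence basis `v : ι → L`;
* `finrank_kaehler_eq_trdeg_of_perfectField` : `dim_L Ω[L/K] = trdeg_K L` (`K` perfect,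
  `L/K` finitely generated);
* `finrank_kaehler_fractionRing_of_isStandardSmooth` : `dim_F Ω[F/K] = g` for `F = Frac R`,
  `R` a standard smooth domain of relative dimension `g`;
* `trdeg_fractionRing_of_isStandardSmooth` : `trdeg_K Frac R = g`;
* `algebraicIndependent_of_isAlgebraic_of_trdeg` : `g` elements over which `F` is algebraic are
  algebraically independent when `trdeg_K F = g`;
* `trdeg_functionField` : `trdeg_K K(X) = g` for `X` integral, smooth of relative dimension `g`;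
* `ls_indep_of_deg_pos`, `abVar_indep_of_deg_pos` : `0 < LS.deg str w → LS.Indep str w`.
-/

set_option autoImplicit false
set_option linter.style.haveILetI false

universe u v w

open scoped TensorProduct
open KaehlerDifferential CategoryTheory AlgebraicGeometry

namespace Fermat.Agent.S26.H86

/-! ## Algebra -/

open scoped IntermediateField.algebraAdjoinAdjoin in
/-- Over a separably generated extension `L/K` with separating transcendence basis `v`,
the module of Kähler differentials has dimension `#ι`. -/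
theorem finrank_kaehler_of_algebraicIndependent_of_isSeparable
    {K : Type u} {L : Type v} {ι : Type w} [Field K] [Field L] [Algebra K L] [Fintype ι]
    {v : ι → L} (hb : AlgebraicIndependent K v)
    [Algebra.IsSeparable (IntermediateField.adjoin K (Set.range v)) L] :
    Module.finrank L Ω[L⁄K] = Fintype.card ι := by
  letI alg1 : Algebra (MvPolynomial ι K) (Algebra.adjoin K (Set.range v)) :=
    hb.aevalEquiv.toRingEquiv.toRingHom.toAlgebra
  letI alg2 : Algebra (MvPolynomial ι K) (IntermediateField.adjoin K (Set.range v)) :=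
    ((algebraMap (Algebra.adjoin K (Set.range v)) (IntermediateField.adjoin K (Set.range v))).comp
      (algebraMap (MvPolynomial ι K) (Algebra.adjoin K (Set.range v)))).toAlgebra
  letI alg3 : Algebra (MvPolynomial ι K) L :=
    ((algebraMap (IntermediateField.adjoin K (Set.range v)) L).comp
      (algebraMap (MvPolynomial ι K) (IntermediateField.adjoin K (Set.range v)))).toAlgebra
  haveI st1 : IsScalarTower (MvPolynomial ι K) (Algebra.adjoin K (Set.range v))
      (IntermediateField.adjoin K (Set.range v)) := IsScalarTower.of_algebraMap_eq' rfl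
  haveI st2 : IsScalarTower (MvPolynomial ι K) (IntermediateField.adjoin K (Set.range v)) L :=
    IsScalarTower.of_algebraMap_eq' rfl
  haveI st3 : IsScalarTower K (MvPolynomial ι K) L := by
    refine IsScalarTower.of_algebraMap_eq' ?_
    ext x
    change algebraMap K L x =
      ((hb.aevalEquiv (algebraMap K (MvPolynomial ι K) x) : Algebra.adjoin K (Set.range v)) : L)
    rw [AlgEquiv.commutes]
    rfl
  haveI fe1 : Algebra.FormallyEtale (MvPolynomial ι K) (Algebra.adjoin K (Set.range v)) :=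
    Algebra.FormallyEtale.of_equiv (A := MvPolynomial ι K)
      (AlgEquiv.ofRingEquiv (f := hb.aevalEquiv.toRingEquiv) (fun x => rfl))
  haveI fe2 : Algebra.FormallyEtale (Algebra.adjoin K (Set.range v))
      (IntermediateField.adjoin K (Set.range v)) :=
    .of_isLocalization (nonZeroDivisors _)
  haveI fe3 : Algebra.FormallyEtale (IntermediateField.adjoin K (Set.range v)) L :=
    Algebra.FormallyEtale.of_isSeparable _ L
  haveI fe4 : Algebra.FormallyEtale (MvPolynomial ι K)
      (IntermediateField.adjoin K (Set.range v)) :=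
    .comp _ (Algebra.adjoin K (Set.range v)) _
  haveI fe5 : Algebra.FormallyEtale (MvPolynomial ι K) L :=
    .comp _ (IntermediateField.adjoin K (Set.range v)) _
  have e := KaehlerDifferential.tensorKaehlerEquivOfFormallyEtale K (MvPolynomial ι K) L
  rw [← e.finrank_eq, Module.finrank_baseChange,
    Module.finrank_eq_card_basis (KaehlerDifferential.mvPolynomialBasis K ι)]

/-- Over a perfect field `K`, a finitely generated field extension `L` has
`dim_L Ω[L/K] = trdeg_K L`. -/
theorem finrank_kaehler_eq_trdeg_of_perfectField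
    (K : Type u) (L : Type v) [Field K] [Field L] [Algebra K L] [PerfectField K]
    [Algebra.EssFiniteType K L] :
    (Module.finrank L Ω[L⁄K] : Cardinal.{v}) = Algebra.trdeg K L := by
  obtain ⟨s, hs, H⟩ := exists_isTranscendenceBasis_and_isSeparable_of_perfectField K L
  haveI : Algebra.IsSeparable (↥(IntermediateField.adjoin K (Set.range ((↑) : s → L)))) L := by
    convert! H <;> simp
  rw [finrank_kaehler_of_algebraicIndependent_of_isSeparable hs.1, ← hs.cardinalMk_eq_trdeg]
  simp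

/-- If `R` is a domain, standard smooth of relative dimension `g` over a field `K`, then its
fraction field `F` has `dim_F Ω[F/K] = g`. -/
theorem finrank_kaehler_fractionRing_of_isStandardSmooth
    (K : Type u) (R : Type v) (F : Type w) [Field K] [CommRing R] [IsDomain R] [Algebra K R]
    [Field F] [Algebra R F] [Algebra K F] [IsScalarTower K R F] [IsFractionRing R F] (g : ℕ)
    [Algebra.IsStandardSmoothOfRelativeDimension g K R] :
    Module.finrank F Ω[F⁄K] = g := by
  haveI : Algebra.FormallyEtale R F := .of_isLocalization (nonZeroDivisors R)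
  have e := KaehlerDifferential.tensorKaehlerEquivOfFormallyEtale K R F
  have h1 :=
    Algebra.IsStandardSmoothOfRelativeDimension.rank_kaehlerDifferential (R := K) (S := R) g
  haveI : Algebra.IsStandardSmooth K R :=
    Algebra.IsStandardSmoothOfRelativeDimension.isStandardSmooth g
  rw [← e.finrank_eq, Module.finrank_baseChange]
  exact Module.finrank_eq_of_rank_eq h1

/-- The fraction field of a finitely generated algebra is essentially of finite type. -/
theorem essFiniteType_fractionRing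
    (K : Type u) (R : Type v) (F : Type w) [CommRing K] [CommRing R] [Algebra K R]
    [CommRing F] [Algebra R F] [Algebra K F] [IsScalarTower K R F] [IsFractionRing R F]
    [Algebra.FiniteType K R] : Algebra.EssFiniteType K F := by
  haveI : Algebra.EssFiniteType R F := Algebra.EssFiniteType.of_isLocalization F (nonZeroDivisors R)
  exact Algebra.EssFiniteType.comp K R F

/-- If `R` is a domain, standard smooth of relative dimension `g` over a perfect field `K`, then
its fraction field has transcendence degree `g` over `K`. -/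
theorem trdeg_fractionRing_of_isStandardSmooth
    (K : Type u) (R : Type v) (F : Type w) [Field K] [PerfectField K] [CommRing R] [IsDomain R]
    [Algebra K R] [Field F] [Algebra R F] [Algebra K F] [IsScalarTower K R F]
    [IsFractionRing R F] (g : ℕ) [Algebra.IsStandardSmoothOfRelativeDimension g K R] :
    Algebra.trdeg K F = g := by
  haveI : Algebra.IsStandardSmooth K R :=
    Algebra.IsStandardSmoothOfRelativeDimension.isStandardSmooth g
  haveI : Algebra.FinitePresentation K R := Algebra.IsStandardSmooth.finitePresentation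
  haveI : Algebra.FiniteType K R := Algebra.FiniteType.of_finitePresentation
  haveI : Algebra.EssFiniteType K F := essFiniteType_fractionRing K R F
  rw [← finrank_kaehler_eq_trdeg_of_perfectField K F,
    finrank_kaehler_fractionRing_of_isStandardSmooth K R F g]

open scoped IntermediateField.algebraAdjoinAdjoin in
/-- If `trdeg_K F = g` and `F` is algebraic over `K(x₁, …, x_g)`, then `x₁, …, x_g` are
algebraically independent over `K`. -/
theorem algebraicIndependent_of_isAlgebraic_of_trdeg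
    {K : Type u} {F : Type v} [Field K] [Field F] [Algebra K F] {g : ℕ}
    (htr : Algebra.trdeg K F = g) (x : Fin g → F)
    [Algebra.IsAlgebraic (IntermediateField.adjoin K (Set.range x)) F] :
    AlgebraicIndependent K x := by
  haveI : Algebra.IsAlgebraic (Algebra.adjoin K (Set.range x))
      (IntermediateField.adjoin K (Set.range x)) :=
    IsLocalization.isAlgebraic _ (nonZeroDivisors (Algebra.adjoin K (Set.range x)))
  haveI : Algebra.IsAlgebraic (Algebra.adjoin K (Set.range x)) F :=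
    Algebra.IsAlgebraic.trans _ (IntermediateField.adjoin K (Set.range x)) _
  have := Algebra.IsAlgebraic.isTranscendenceBasis_of_lift_le_trdeg_of_finite K x
    (by rw [htr]; simp)
  exact this.1

end Fermat.Agent.S26.H86

namespace Fermat.Agent.S26.H86

/-! ## Schemes -/

section Scheme

variable {K : Type u} [Field K] {X : Scheme.{u}} [IsIntegral X]
  (str : X ⟶ Spec (CommRingCat.of K))

/-- The `K`-algebra structure on the function field of a scheme over `Spec K` given by `ffStr`. -/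
@[reducible] noncomputable def ffAlgebra : Algebra K X.functionField := (ffStr str).toAlgebra

/-- Every nonempty open of `Spec K` is everything. -/
theorem opens_spec_field_eq_top (U : (Spec (CommRingCat.of K)).Opens)
    (y : Spec (CommRingCat.of K)) (hy : y ∈ U) : U = ⊤ := by
  rw [eq_top_iff]
  intro z _
  have : z = y := Subsingleton.elim (α := PrimeSpectrum K) z y
  rw [this]
  exact hy

/-- The function field of an integral scheme, smooth of relative dimension `g` over a perfect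
field `K`, has transcendence degree `g` over `K`. -/
theorem trdeg_functionField [PerfectField K] (g : ℕ) [SmoothOfRelativeDimension g str] :
    letI := ffAlgebra str
    Algebra.trdeg K X.functionField = g := by
  letI := ffAlgebra str
  obtain ⟨U, hU, V, hV, hxV, e, hsm⟩ :=
    SmoothOfRelativeDimension.exists_isStandardSmoothOfRelativeDimension (f := str) (n := g)
      (genericPoint X)
  obtain rfl : U = ⊤ := opens_spec_field_eq_top U (str (genericPoint X)) (e hxV)
  haveI : Nonempty V := ⟨⟨genericPoint X, hxV⟩⟩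
  letI algR : Algebra K Γ(X, V) :=
    ((str.appLE ⊤ V e).hom.comp (Scheme.ΓSpecIso (CommRingCat.of K)).inv.hom).toAlgebra
  haveI : IsScalarTower K Γ(X, V) X.functionField := by
    refine IsScalarTower.of_algebraMap_eq' ?_
    have h : str.appTop ≫ X.presheaf.germ ⊤ (genericPoint X) (TopologicalSpace.Opens.mem_top _) =
        str.appLE ⊤ V e ≫ X.germToFunctionField V := by
      rw [Scheme.Hom.appLE, Category.assoc]
      erw [X.presheaf.germ_res]
      rfl
    change ffStr str = _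
    rw [ffStr, h]
    rfl
  haveI : IsFractionRing Γ(X, V) X.functionField :=
    functionField_isFractionRing_of_isAffineOpen X V hV
  haveI : IsDomain Γ(X, V) := inferInstance
  haveI : Algebra.IsStandardSmoothOfRelativeDimension g K Γ(X, V) :=
    RingHom.isStandardSmoothOfRelativeDimension_respectsIso.2 (str.appLE ⊤ V e).hom
      (Scheme.ΓSpecIso (CommRingCat.of K)).symm.commRingCatIsoToRingEquiv hsm
  exact trdeg_fractionRing_of_isStandardSmooth K Γ(X, V) X.functionField g

/-- **FF5 / AMPLE-IND.** On an integral scheme, smooth of relative dimension `g` over a perfect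
field, a system of `g + 1` rational functions of finite (positive) degree has algebraically
independent affine coordinates. -/
theorem ls_indep_of_deg_pos [PerfectField K] (g : ℕ) [SmoothOfRelativeDimension g str]
    (w : Fin (g + 1) → X.functionField) (h : 0 < LS.deg str w) : LS.Indep str w := by
  letI := ffAlgebra str
  have htr := trdeg_functionField str g
  haveI hfin : Module.Finite (LS.coordField str w) X.functionField :=
    Module.finite_of_finrank_pos h
  haveI halg : Algebra.IsAlgebraic (LS.coordField str w) X.functionField :=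
    Algebra.IsAlgebraic.of_finite _ _
  haveI : Algebra.IsAlgebraic (IntermediateField.adjoin K (Set.range (LS.ratios w)))
      X.functionField := by
    refine ⟨fun y => ?_⟩
    let f : LS.coordField str w →+* IntermediateField.adjoin K (Set.range (LS.ratios w)) :=
      { toFun := fun x => ⟨x.1, x.2⟩
        map_one' := rfl
        map_mul' := fun _ _ => rfl
        map_zero' := rfl
        map_add' := fun _ _ => rfl }
    have hf : Function.Injective f := fun a b hab => Subtype.ext (congrArg Subtype.val hab)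
    exact (halg.isAlgebraic y).ringHom_of_comp_eq f (RingHom.id X.functionField) hf rfl
  have hind := algebraicIndependent_of_isAlgebraic_of_trdeg htr (LS.ratios w)
  rw [algebraicIndependent_iff] at hind
  intro p hp
  exact hind p (by rw [MvPolynomial.aeval_def]; exact hp)

end Scheme

/-- **AMPLE-IND** for abelian varieties: the independence clause of `Stmt.Alpha` follows from the
positivity of the degree. -/
theorem abVar_indep_of_deg_pos {K : Type u} [Field K] [PerfectField K] (X : AbVar K)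
    [IsIntegral X.A] (w : Fin (X.dim + 1) → X.A.functionField) (h : 0 < LS.deg X.str w) :
    LS.Indep X.str w :=
  haveI := X.smoothDim
  ls_indep_of_deg_pos X.str X.dim w h

end Fermat.Agent.S26.H86

end
-- ===== PACK-END S26/H86/Trdeg.lean

-- ===== PACK-BEGIN S27/Spec.lean
section






/-!
# Row S27 (torsion of `Pic⁰` of a function field): frozen interface (architect helper87)

S27 : for the function field `F` of a curve over an algebraically closed field `K` of
characteristic `0`, `#Pic⁰(F)[ℓ^k] = ℓ^(2 g k)`, `g = genusFF K F`.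

Route: `F` is the function field of a smooth proper curve `C` with a two-chart presentation
(`S25.ChartOf`); S25 (a hypothesis here) gives its Jacobian `J`; the tensor product of gluing
data gives the group law of `J`; the tangent space at `0` is `Ȟ¹(O)`, so `J` has relative
dimension `g`; `J(K) = Pic⁰(F)` as groups; S26 (a hypothesis here) counts the torsion.

Only definitions here.  Blueprint: `coord/S27.md` (origin/helper87).  Glue: `Top.lean`.
-/

set_option autoImplicit false
universe u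
open CategoryTheory CategoryTheory.Limits AlgebraicGeometry AlgebraicGeometry.RelPicard
  NeronModelInfra GoodReductionJacobian AlgebraicCurve
open scoped TensorProduct

namespace Fermat.Agent.S27

open Fermat.Agent.S25

noncomputable section

/-! ## The two frozen statements used as hypotheses -/

/-- The statement of S25 (verbatim), as a hypothesis. -/
def S25Stmt : Prop :=
  ∀ (k : Type u) [Field k] [IsAlgClosed k] {C : Scheme.{u}} (c : C ⟶ Spec (CommRingCat.of k))
    [IsProper c] [SmoothOfRelativeDimension 1 c] [IsIntegral C]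
    (ε : SchemeHomOver (𝟙 (Spec (CommRingCat.of k))) c),
    ∃ D : RelativePic0Designation k c,
      Nonempty (RepresentsRelSubPic c ε (algEquivZeroCut c ε) D) ∧
        Smooth D.toBase ∧ IsProper D.toBase ∧ GeometricallyConnected D.toBase

/-- The statement of S26 (verbatim), as a hypothesis. -/
def S26Stmt : Prop :=
  ∀ (K : Type u) [Field K] [IsAlgClosed K] {A : Scheme.{u}} (f : A ⟶ Spec (CommRingCat.of K))
    (L : RelativeGroupLaw K f) (_ : L.IsCommutative) (_ : AbelianSchemePropertyBundle K f)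
    (g : ℕ) [SmoothOfRelativeDimension g f] (n : ℕ) (_ : (n : K) ≠ 0),
    Nat.card {x : SchemeHomOver (𝟙 (Spec (CommRingCat.of K))) f //
        L.IsTorsionPoint (𝟙 (Spec (CommRingCat.of K))) n x} = n ^ (2 * g)

/-! ## Tensor products of gluing data -/

section Tensor

variable {A R₀ R₁ R₀₁ : Type u} [CommRing A] [CommRing R₀] [CommRing R₁]
    [CommRing R₀₁] [Algebra A R₀] [Algebra A R₁] [Algebra A R₀₁] [Algebra R₀ R₀₁]
    [Algebra R₁ R₀₁] [IsScalarTower A R₀ R₀₁] [IsScalarTower A R₁ R₀₁]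

/-- Bilinear maps exhibiting `G''` as the tensor product of the gluing data `G` and `G'`. -/
structure TensorMaps (G G' G'' : GlueDatum A R₀ R₁ R₀₁) where
  β₀ : G.N₀ →ₗ[R₀] G'.N₀ →ₗ[R₀] G''.N₀
  β₁ : G.N₁ →ₗ[R₁] G'.N₁ →ₗ[R₁] G''.N₁
  β₀₁ : G.N₀₁ →ₗ[R₀₁] G'.N₀₁ →ₗ[R₀₁] G''.N₀₁
  comm₀ : ∀ s s', β₀₁ (G.r₀ s) (G'.r₀ s') = G''.r₀ (β₀ s s')
  comm₁ : ∀ s s', β₀₁ (G.r₁ s) (G'.r₁ s') = G''.r₁ (β₁ s s')
  bijective₀ : Function.Bijective (TensorProduct.lift β₀)
  bijective₁ : Function.Bijective (TensorProduct.lift β₁)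
  bijective₀₁ : Function.Bijective (TensorProduct.lift β₀₁)

/-- `G''` is a tensor product of `G` and `G'`. -/
def IsTensor (G G' G'' : GlueDatum A R₀ R₁ R₀₁) : Prop := Nonempty (TensorMaps G G' G'')

end Tensor

/-! ## The curve model of a function field -/

section Model

variable (K F : Type u) [Field K] [Field F] [Algebra K F]

/-- `j : B → F` exhibits `F` as the field of fractions of `B`. -/
def IsFracMap {B : Type u} [CommRing B] [Algebra K B] (j : B →ₐ[K] F) : Prop :=
  Function.Injective j ∧ ∀ f : F, ∃ a b : B, j b ≠ 0 ∧ f * j b = j a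

/-- A curve chart (in the sense of row S25) with field of fractions `F`. -/
structure FFChart where
  B₀ : Type u
  B₁ : Type u
  B₀₁ : Type u
  [commRing₀ : CommRing B₀]
  [commRing₁ : CommRing B₁]
  [commRing₀₁ : CommRing B₀₁]
  [algebra₀ : Algebra K B₀]
  [algebra₁ : Algebra K B₁]
  [algebra₀₁ : Algebra K B₀₁]
  [algebraL : Algebra B₀ B₀₁]
  [algebraR : Algebra B₁ B₀₁]
  [towerL : IsScalarTower K B₀ B₀₁]
  [towerR : IsScalarTower K B₁ B₀₁]
  x : B₀
  y : B₁
  e : B₁ →ₐ[K] K
  isCurveChart : IsCurveChart K B₀ B₁ B₀₁ x y e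
  j₀ : B₀ →ₐ[K] F
  j₁ : B₁ →ₐ[K] F
  j₀₁ : B₀₁ →ₐ[K] F
  j₀₁_algebraMap₀ : ∀ b : B₀, j₀₁ (algebraMap B₀ B₀₁ b) = j₀ b
  j₀₁_algebraMap₁ : ∀ b : B₁, j₀₁ (algebraMap B₁ B₀₁ b) = j₁ b
  isFracMap : IsFracMap K F j₀₁

attribute [instance] FFChart.commRing₀ FFChart.commRing₁ FFChart.commRing₀₁ FFChart.algebra₀
  FFChart.algebra₁ FFChart.algebra₀₁ FFChart.algebraL FFChart.algebraR FFChart.towerL
  FFChart.towerR

/-- A smooth proper integral pointed curve over `K`, with a two-chart presentation whose rings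
have field of fractions `F`. -/
structure CurveModel where
  C : Scheme.{u}
  c : C ⟶ Spec (CommRingCat.of K)
  isProper : IsProper c
  smooth : SmoothOfRelativeDimension 1 c
  isIntegral : IsIntegral C
  ε : SchemeHomOver (𝟙 (Spec (CommRingCat.of K))) c
  Ch : ChartOf c ε
  j₀ : Ch.B₀ →ₐ[K] F
  j₁ : Ch.B₁ →ₐ[K] F
  j₀₁ : Ch.B₀₁ →ₐ[K] F
  j₀₁_algebraMap₀ : ∀ b : Ch.B₀, j₀₁ (algebraMap Ch.B₀ Ch.B₀₁ b) = j₀ b
  j₀₁_algebraMap₁ : ∀ b : Ch.B₁, j₀₁ (algebraMap Ch.B₁ Ch.B₀₁ b) = j₁ b
  isFracMap : IsFracMap K F j₀₁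

attribute [instance] CurveModel.isProper CurveModel.smooth CurveModel.isIntegral

variable {K F}

/-- Gluing data over `K` on the curve model. -/
abbrev CurveModel.GD (M : CurveModel K F) : Type (u + 1) :=
  CurveGD K M.Ch.B₀ M.Ch.B₁ M.Ch.B₀₁ K

/-- The genus of the chart: `dim_K Ȟ¹(O)`. -/
def chartGenus {c₀ : Scheme.{u}} {c : c₀ ⟶ Spec (CommRingCat.of K)}
    {ε : SchemeHomOver (𝟙 (Spec (CommRingCat.of K))) c} (Ch : ChartOf c ε) : ℕ :=
  Module.finrank K
    (GlueDatum.unit K (K ⊗[K] Ch.B₀) (K ⊗[K] Ch.B₁) (K ⊗[K] Ch.B₀₁)).H1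

end Model

/-! ## The Jacobian package -/

/-- Everything S26 needs about the Jacobian of `F`, together with the identification of its
group of `K`-points with `Pic⁰(F)`. -/
structure JacPackage (K F : Type u) [Field K] [Field F] [Algebra K F] where
  J : Scheme.{u}
  f : J ⟶ Spec (CommRingCat.of K)
  law : RelativeGroupLaw K f
  comm : law.IsCommutative
  bundle : AbelianSchemePropertyBundle K f
  smoothDim : SmoothOfRelativeDimension (genusFF K F) f
  pts : Pic0 K F ≃ SchemeHomOver (𝟙 (Spec (CommRingCat.of K))) f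
  pts_add : ∀ x y : Pic0 K F,
    pts (x + y) = law.mul (𝟙 (Spec (CommRingCat.of K))) (pts x) (pts y)

/-- A point over `𝟙` as a point over `specStr K K`. -/
def toSpecStrPoint {K : Type u} [Field K] {J : Scheme.{u}} {f : J ⟶ Spec (CommRingCat.of K)}
    (g : SchemeHomOver (𝟙 (Spec (CommRingCat.of K))) f) : SchemeHomOver (specStr K K) f :=
  ⟨g.1, g.2.trans (by
    rw [specStr, Algebra.algebraMap_self]
    exact (Spec.map_id _).symm)⟩

namespace Stmt

/-! ## The blocks -/

section Blocks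

variable (K F : Type u) [Field K] [Field F] [Algebra K F]

/-- **S27 in one universe.** -/
def Uniform : Prop :=
  ∀ [IsAlgClosed K] [CharZero K] [IsCurveOver K F] [Algebra.EssFiniteType K F]
    (ℓ : ℕ) [Fact ℓ.Prime] (k : ℕ),
    Nat.card (Pic0.torsion K F (ℓ ^ k)) = ℓ ^ (2 * genusFF K F * k)

/-- **JAC**: the Jacobian package exists. -/
def Jac : Prop :=
  ∀ [IsAlgClosed K] [CharZero K] [IsCurveOver K F] [Algebra.EssFiniteType K F],
    Nonempty (JacPackage K F)

/-- **FF-ALG** (pure algebra): a function field of a curve has a curve chart. -/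
def FFAlg : Prop :=
  ∀ [IsAlgClosed K] [CharZero K] [IsCurveOver K F] [Algebra.EssFiniteType K F],
    Nonempty (FFChart K F)

/-- **MODEL**: a function field of a curve is the function field of a smooth proper pointed
curve with a two-chart presentation. -/
def Model : Prop :=
  ∀ [IsAlgClosed K] [CharZero K] [IsCurveOver K F] [Algebra.EssFiniteType K F],
    Nonempty (CurveModel K F)

/-- **GENUS**: the genus of `F` (Weil repartitions) is `dim Ȟ¹(O)` of the chart. -/
def Genus : Prop :=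
  ∀ [IsAlgClosed K] [IsCurveOver K F] (M : CurveModel K F), genusFF K F = chartGenus M.Ch

/-- **PIC-CL**: the divisor class of a gluing datum of degree zero over `K`. -/
def PicCl : Prop :=
  ∀ [IsAlgClosed K] [IsCurveOver K F] (M : CurveModel K F),
    ∃ cl : {G : M.GD // G.degree = 0} → Pic0 K F,
      Function.Surjective cl ∧ (∀ G G', cl G = cl G' ↔ G.1.IsIso G'.1) ∧
        ∀ (G G' : {G : M.GD // G.degree = 0}) (G'' : M.GD), IsTensor G.1 G'.1 G'' →
          ∃ h : G''.degree = 0, cl ⟨G'', h⟩ = cl G + cl G'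

end Blocks

/-- **TENSOR-EXISTS** (pure algebra): tensor products of gluing data exist. -/
def TensorExists : Prop :=
  ∀ (A R₀ R₁ R₀₁ : Type u) [CommRing A] [CommRing R₀] [CommRing R₁]
    [CommRing R₀₁] [Algebra A R₀] [Algebra A R₁] [Algebra A R₀₁] [Algebra R₀ R₀₁]
    [Algebra R₁ R₀₁] [IsScalarTower A R₀ R₀₁] [IsScalarTower A R₁ R₀₁]
    (G G' : GlueDatum A R₀ R₁ R₀₁), ∃ G'' : GlueDatum A R₀ R₁ R₀₁, IsTensor G G' G''

section Geometric

variable (k : Type u) [Field k]

/-- **CURVE-SCHEME**: a curve chart is the two-chart presentation of a smooth proper integral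
pointed curve. -/
def CurveScheme : Prop :=
  ∀ [IsAlgClosed k] (B₀ B₁ B₀₁ : Type u) [CommRing B₀] [CommRing B₁] [CommRing B₀₁]
    [Algebra k B₀] [Algebra k B₁] [Algebra k B₀₁] [Algebra B₀ B₀₁] [Algebra B₁ B₀₁]
    [IsScalarTower k B₀ B₀₁] [IsScalarTower k B₁ B₀₁] (x : B₀) (y : B₁) (e : B₁ →ₐ[k] k),
    IsCurveChart k B₀ B₁ B₀₁ x y e →
    ∃ (C : Scheme.{u}) (c : C ⟶ Spec (CommRingCat.of k)) (_ : IsProper c)
      (_ : SmoothOfRelativeDimension 1 c) (_ : IsIntegral C)
      (ε : SchemeHomOver (𝟙 (Spec (CommRingCat.of k))) c) (Ch : ChartOf c ε)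
      (φ₀ : Ch.B₀ ≃ₐ[k] B₀) (φ₁ : Ch.B₁ ≃ₐ[k] B₁) (φ₀₁ : Ch.B₀₁ ≃ₐ[k] B₀₁),
      (∀ b, φ₀₁ (algebraMap Ch.B₀ Ch.B₀₁ b) = algebraMap B₀ B₀₁ (φ₀ b)) ∧
        ∀ b, φ₀₁ (algebraMap Ch.B₁ Ch.B₀₁ b) = algebraMap B₁ B₀₁ (φ₁ b)

/-- **CONN**: the Jacobian has connected fibres over `Spec k`. -/
def Conn : Prop :=
  ∀ [IsAlgClosed k] {J : Scheme.{u}} (f : J ⟶ Spec (CommRingCat.of k)) [IsProper f]
    [GeometricallyConnected f] (_ : SchemeHomOver (𝟙 (Spec (CommRingCat.of k))) f),
    ∀ s : Spec (CommRingCat.of k), _root_.IsConnected (f.base ⁻¹' {s})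

/-- **GRP**: the Jacobian of a curve carries a commutative group law, which on affine test
schemes is the tensor product of gluing data. -/
def Grp : Prop :=
  ∀ [IsAlgClosed k] {C : Scheme.{u}} (c : C ⟶ Spec (CommRingCat.of k))
    [IsProper c] [SmoothOfRelativeDimension 1 c] [IsIntegral C]
    (ε : SchemeHomOver (𝟙 (Spec (CommRingCat.of k))) c) (Ch : ChartOf c ε)
    (D : RelativePic0Designation k c)
    (hrep : RepresentsRelSubPic c ε (algEquivZeroCut c ε) D),
    ∃ L : RelativeGroupLaw k D.toBase, L.IsCommutative ∧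
      ∀ (A : Type u) [CommRing A] [Algebra k A] (g g' : SchemeHomOver (specStr k A) D.toBase)
        (G G' G'' : CurveGD k Ch.B₀ Ch.B₁ Ch.B₀₁ A),
        Corr Ch A (hrep.poincare.pullbackAlong g).L G →
        Corr Ch A (hrep.poincare.pullbackAlong g').L G' → IsTensor G G' G'' →
        Corr Ch A (hrep.poincare.pullbackAlong (L.mul (specStr k A) g g')).L G''

/-- **DIM**: the Jacobian of a curve is smooth of relative dimension `dim Ȟ¹(O)`. -/
def Dim : Prop :=
  ∀ [IsAlgClosed k] {C : Scheme.{u}} (c : C ⟶ Spec (CommRingCat.of k))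
    [IsProper c] [SmoothOfRelativeDimension 1 c] [IsIntegral C]
    (ε : SchemeHomOver (𝟙 (Spec (CommRingCat.of k))) c) (Ch : ChartOf c ε)
    (D : RelativePic0Designation k c)
    (_ : RepresentsRelSubPic c ε (algEquivZeroCut c ε) D),
    Smooth D.toBase → IsProper D.toBase → GeometricallyConnected D.toBase →
      SmoothOfRelativeDimension (chartGenus Ch) D.toBase

/-- **PTS-DICT**: over the base field, the points of the Jacobian are the gluing data of
degree zero up to isomorphism. -/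
def PtsDict : Prop :=
  ∀ [IsAlgClosed k] {C : Scheme.{u}} (c : C ⟶ Spec (CommRingCat.of k))
    [IsProper c] [SmoothOfRelativeDimension 1 c] [IsIntegral C]
    (ε : SchemeHomOver (𝟙 (Spec (CommRingCat.of k))) c) (Ch : ChartOf c ε)
    (D : RelativePic0Designation k c)
    (hrep : RepresentsRelSubPic c ε (algEquivZeroCut c ε) D),
    (∀ g : SchemeHomOver (specStr k k) D.toBase, ∃ G : CurveGD k Ch.B₀ Ch.B₁ Ch.B₀₁ k,
      G.degree = 0 ∧ Corr Ch k (hrep.poincare.pullbackAlong g).L G) ∧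
    (∀ G : CurveGD k Ch.B₀ Ch.B₁ Ch.B₀₁ k, G.degree = 0 →
      ∃ g : SchemeHomOver (specStr k k) D.toBase,
        Corr Ch k (hrep.poincare.pullbackAlong g).L G) ∧
    ∀ (g g' : SchemeHomOver (specStr k k) D.toBase) (G G' : CurveGD k Ch.B₀ Ch.B₁ Ch.B₀₁ k),
      Corr Ch k (hrep.poincare.pullbackAlong g).L G →
      Corr Ch k (hrep.poincare.pullbackAlong g').L G' → (g = g' ↔ G.IsIso G')

end Geometric

end Stmt

end

end Fermat.Agent.S27

namespace Fermat.Agent.S27.Stmt

open AlgebraicCurve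

universe u₁ u₂ v

/-- **TRANSPORT** (formal): everything in S27 is invariant under isomorphisms of the pair
`(K, F)`; used to move `K` and `F` into one universe. -/
def Transport : Prop :=
  ∀ (K : Type u₁) (F : Type u₂) [Field K] [Field F] [Algebra K F]
    (K' : Type v) (F' : Type v) [Field K'] [Field F'] [Algebra K' F']
    (σ : K ≃+* K') (τ : F ≃+* F'),
    (∀ a : K, τ (algebraMap K F a) = algebraMap K' F' (σ a)) →
    (IsCurveOver K F → IsCurveOver K' F') ∧
      (Algebra.EssFiniteType K F → Algebra.EssFiniteType K' F') ∧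
      genusFF K F = genusFF K' F' ∧
      ∀ n : ℕ, Nat.card (Pic0.torsion K F n) = Nat.card (Pic0.torsion K' F' n)

end Fermat.Agent.S27.Stmt

end
-- ===== PACK-END S27/Spec.lean

-- ===== PACK-BEGIN S31/H262/Points.lean
section




/-!
# S31 / piece D (helper262): `pts_of_reduced`, verbatim, by the `ℚ_[p] ⊗ R` route

For a reduced commutative ring `R`, finite and torsion-free over `ℤ`, the algebra
`E = ℚ_[p] ⊗[ℤ] R` is a finite reduced `ℚ_[p]`-algebra, hence (Artinian decomposition) the product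
of the finitely many fields `L_J = E ⧸ J`, finite over `ℚ_[p]`.  The rings of integers
`intRing p L_J` are complete discrete valuation rings of characteristic zero with finite residue
field (`PadicDVR.lean`), and the points `R → intRing p L_J` are jointly `p`-adically strict
(`Strict.lean`).  This gives the topological separation statement `PTS p R` of the row interface
without any use of completions of number fields.
-/

set_option autoImplicit false
set_option linter.unusedSectionVars false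
set_option linter.style.haveILetI false

noncomputable section

namespace Fermat.Agent.S31.H262

open scoped TensorProduct
open IsLocalRing

section Points

variable (p : ℕ) [Fact p.Prime]
variable (B : Type) [CommRing B] [Module.Finite ℤ B] [Module.Free ℤ B] [IsReduced B]

attribute [local instance] IsArtinianRing.fieldOfSubtypeIsMaximal

theorem isArtinianRing_padic_tensor : IsArtinianRing (ℚ_[p] ⊗[ℤ] B) :=
  isArtinian_of_tower ℚ_[p] inferInstance

theorem isReduced_padic_tensor : IsReduced (ℚ_[p] ⊗[ℤ] B) :=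
  isReduced_field_tensor B ℚ_[p]

/-- **Strict `p`-adic points** (unbundled form): a reduced ring, finite free over `ℤ`, has finitely
many points with values in complete discrete valuation rings of characteristic zero with finite
residue fields of characteristic `p`, which are jointly `p`-adically strict. -/
theorem exists_padic_points :
    ∃ (ι : Type) (_ : Finite ι) (𝒪 : ι → Type) (_ : ∀ j, CommRing (𝒪 j))
      (_ : ∀ j, IsDomain (𝒪 j)) (_ : ∀ j, IsDiscreteValuationRing (𝒪 j))
      (_ : ∀ j, IsAdicComplete (maximalIdeal (𝒪 j)) (𝒪 j))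
      (_ : ∀ j, Finite (ResidueField (𝒪 j))) (_ : ∀ j, CharZero (𝒪 j))
      (χ : ∀ j, B →+* 𝒪 j),
      (∀ j, ((p : ℕ) : 𝒪 j) ∈ maximalIdeal (𝒪 j)) ∧
      ∀ n : ℕ, ∃ m : ℕ, ∀ t : B, (∀ j, χ j t ∈ maximalIdeal (𝒪 j) ^ m) →
        t ∈ Ideal.span {((p : ℕ) : B) ^ n} := by
  haveI := isArtinianRing_padic_tensor p B
  haveI := isReduced_padic_tensor p B
  let E := ℚ_[p] ⊗[ℤ] B
  let L : MaximalSpectrum E → Type := fun J => E ⧸ J.asIdeal
  let Φ : E →ₐ[ℚ_[p]] (∀ J, L J) := ((IsArtinianRing.equivPi E).restrictScalars ℚ_[p]).toAlgHom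
  have hΦ : Function.Injective Φ := ((IsArtinianRing.equivPi E).restrictScalars ℚ_[p]).injective
  refine ⟨MaximalSpectrum E, inferInstance, fun J => intRing p (L J), fun J => inferInstance,
    fun J => inferInstance, fun J => inferInstance, fun J => inferInstance,
    fun J => inferInstance, fun J => inferInstance, fun J => pt p B L Φ J, ?_, ?_⟩
  · intro J
    exact natCast_p_mem_maximalIdeal p (L J)
  · intro n
    exact strict_of_injective hΦ n

end Points

section PTS

open Fermat.Agent.S31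

/-- **Piece D of row S31** (`Skeleton.pts_of_reduced`, verbatim).  A reduced, torsion-free
commutative ring, finite over `ℤ`, has topologically separating `p`-adic points. -/
theorem pts_of_reduced (p : ℕ) (hp : p.Prime) (R : Type) [CommRing R] [Module.Finite ℤ R]
    [IsReduced R] [IsAddTorsionFree R] : PTS p R := by
  classical
  haveI : Fact p.Prime := ⟨hp⟩
  obtain ⟨ι, hι, 𝒪, i1, i2, i3, i4, i5, i6, χ, hpm, hstrict⟩ := exists_padic_points p R
  haveI : Fintype ι := Fintype.ofFinite ι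
  intro m _ hpmem n
  obtain ⟨n', hn'⟩ := hstrict n
  refine ⟨(Finset.univ : Finset ι).toList.map
    (fun j => (⟨𝒪 j, hpm j, χ j⟩ : PadicPoint p R)), n', fun t ht => ?_⟩
  have h1 : t ∈ Ideal.span {((p : ℕ) : R) ^ n} := by
    apply hn'
    intro j
    exact ht ⟨𝒪 j, hpm j, χ j⟩ (List.mem_map.mpr ⟨j, by simp, rfl⟩)
  have h2 : Ideal.span {((p : ℕ) : R) ^ n} ≤ m ^ n := by
    rw [Ideal.span_le, Set.singleton_subset_iff]
    exact Ideal.pow_mem_pow hpmem n
  exact h2 h1

end PTS

end Fermat.Agent.S31.H262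

end
end
-- ===== PACK-END S31/H262/Points.lean

-- ===== PACK-BEGIN Lib/EulerProd/EulerNF.lean
section



/-!
# Euler products for the Dedekind zeta function and class-group L-series of a number field
-/

set_option autoImplicit false
set_option linter.style.haveILetI false
set_option linter.unusedSectionVars false

namespace Fermat.Agent.Lib.EulerProd

open NumberField Ideal Filter Topology Finset
open scoped nonZeroDivisors

variable (K : Type*) [Field K] [NumberField K]

/-- The type of nonzero prime ideals of `𝓞 K`, as prime elements of the monoid of ideals. -/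
abbrev PrimeIdeal : Type _ := {𝔭 : Ideal (𝓞 K) // Prime 𝔭}

variable {K}

theorem PrimeIdeal.ne_bot (𝔭 : PrimeIdeal K) : 𝔭.1 ≠ ⊥ := 𝔭.2.ne_zero

theorem PrimeIdeal.isPrime (𝔭 : PrimeIdeal K) : 𝔭.1.IsPrime := Ideal.isPrime_of_prime 𝔭.2

theorem PrimeIdeal.ne_top (𝔭 : PrimeIdeal K) : 𝔭.1 ≠ ⊤ := 𝔭.isPrime.ne_top

theorem PrimeIdeal.two_le_absNorm (𝔭 : PrimeIdeal K) : 2 ≤ absNorm 𝔭.1 := by
  have h0 : absNorm 𝔭.1 ≠ 0 := fun h => 𝔭.ne_bot (Ideal.absNorm_eq_zero_iff.mp h)
  have h1 : absNorm 𝔭.1 ≠ 1 := fun h => 𝔭.ne_top (Ideal.absNorm_eq_one_iff.mp h)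
  omega

/-- `x_𝔭 = N(𝔭)^(-s)`. -/
noncomputable def PrimeIdeal.x (𝔭 : PrimeIdeal K) (s : ℝ) : ℝ := ((absNorm 𝔭.1 : ℕ) : ℝ) ^ (-s)

theorem PrimeIdeal.x_pos (𝔭 : PrimeIdeal K) (s : ℝ) : 0 < 𝔭.x s := by
  have : (0 : ℝ) < ((absNorm 𝔭.1 : ℕ) : ℝ) := by
    have := 𝔭.two_le_absNorm
    positivity
  exact Real.rpow_pos_of_pos this _

theorem PrimeIdeal.x_le_inv (𝔭 : PrimeIdeal K) {s : ℝ} (hs : 1 ≤ s) :
    𝔭.x s ≤ ((absNorm 𝔭.1 : ℕ) : ℝ)⁻¹ := by
  have h1 : (1 : ℝ) ≤ ((absNorm 𝔭.1 : ℕ) : ℝ) := by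
    have := 𝔭.two_le_absNorm
    exact_mod_cast (by omega : 1 ≤ absNorm 𝔭.1)
  rw [PrimeIdeal.x, ← Real.rpow_neg_one]
  exact Real.rpow_le_rpow_of_exponent_le h1 (by linarith)

theorem PrimeIdeal.x_le_half (𝔭 : PrimeIdeal K) {s : ℝ} (hs : 1 ≤ s) : 𝔭.x s ≤ 1 / 2 := by
  refine (𝔭.x_le_inv hs).trans ?_
  have h2 : (2 : ℝ) ≤ ((absNorm 𝔭.1 : ℕ) : ℝ) := by exact_mod_cast 𝔭.two_le_absNorm
  rw [one_div]
  exact inv_anti₀ (by norm_num) h2

variable (K)

/-- Euler product of the Dedekind zeta function (real argument `s > 1`). -/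
theorem hasProd_zetaR {s : ℝ} (hs : 1 < s) :
    HasProd (fun 𝔭 : PrimeIdeal K ↦ (1 - 𝔭.x s)⁻¹) (zetaR K s) := by
  have hs0 : -s ≠ 0 := by linarith
  have h := hasProd_one_sub_inv (M := Ideal (𝓞 K)) (F := ℝ)
    (f := fun I => ((absNorm I : ℕ) : ℝ) ^ (-s))
    (by simp [Real.zero_rpow hs0]) (by simp)
    (fun a b => by
      simp only [map_mul, Nat.cast_mul]
      exact Real.mul_rpow (Nat.cast_nonneg _) (Nat.cast_nonneg _))
    (by
      refine (summable_absNorm_rpow K hs).congr fun I => ?_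
      rw [Real.norm_of_nonneg (by positivity)])
  exact h


/-! ### Class group characters -/

/-- Extension by zero of a class group character to all ideals. -/
noncomputable def chiI (χ : ClassGroup (𝓞 K) →* ℂˣ) (I : Ideal (𝓞 K)) : ℂ :=
  if h : I = ⊥ then 0 else (χ (ClassGroup.mk0 ⟨I, mem_nonZeroDivisors_iff_ne_zero.mpr h⟩) : ℂ)

variable {K}

theorem chiI_bot (χ : ClassGroup (𝓞 K) →* ℂˣ) : chiI K χ ⊥ = 0 := by
  rw [chiI, dif_pos rfl]

theorem chiI_zero (χ : ClassGroup (𝓞 K) →* ℂˣ) : chiI K χ 0 = 0 := chiI_bot χ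

theorem chiI_of_ne_bot (χ : ClassGroup (𝓞 K) →* ℂˣ) {I : Ideal (𝓞 K)} (h : I ≠ ⊥) :
    chiI K χ I = (χ (ClassGroup.mk0 ⟨I, mem_nonZeroDivisors_iff_ne_zero.mpr h⟩) : ℂ) := by
  rw [chiI, dif_neg h]

theorem chiI_coe (χ : ClassGroup (𝓞 K) →* ℂˣ) (I : (Ideal (𝓞 K))⁰) :
    chiI K χ (I : Ideal (𝓞 K)) = (χ (ClassGroup.mk0 I) : ℂ) := by
  rw [chiI_of_ne_bot χ (nonZeroDivisors.coe_ne_zero I)]

theorem chiI_one (χ : ClassGroup (𝓞 K) →* ℂˣ) : chiI K χ 1 = 1 := by
  have h := chiI_coe χ (1 : (Ideal (𝓞 K))⁰)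
  rw [map_one, map_one, Units.val_one] at h
  exact h

theorem chiI_mul (χ : ClassGroup (𝓞 K) →* ℂˣ) (I J : Ideal (𝓞 K)) :
    chiI K χ (I * J) = chiI K χ I * chiI K χ J := by
  by_cases hI : I = ⊥
  · subst hI
    rw [Ideal.bot_mul, chiI_bot, zero_mul]
  by_cases hJ : J = ⊥
  · subst hJ
    rw [Ideal.mul_bot, chiI_bot, mul_zero]
  have h := chiI_coe χ ((⟨I, mem_nonZeroDivisors_iff_ne_zero.mpr hI⟩ : (Ideal (𝓞 K))⁰) *
    (⟨J, mem_nonZeroDivisors_iff_ne_zero.mpr hJ⟩ : (Ideal (𝓞 K))⁰))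
  rw [map_mul, map_mul, Units.val_mul] at h
  rw [chiI_of_ne_bot χ hI, chiI_of_ne_bot χ hJ]
  rw [← h]
  rfl

theorem chi_pow_card (χ : ClassGroup (𝓞 K) →* ℂˣ) (c : ClassGroup (𝓞 K)) :
    ((χ c : ℂˣ) : ℂ) ^ Fintype.card (ClassGroup (𝓞 K)) = 1 := by
  rw [← Units.val_pow_eq_pow_val, ← map_pow, pow_card_eq_one, map_one, Units.val_one]

theorem norm_chi (χ : ClassGroup (𝓞 K) →* ℂˣ) (c : ClassGroup (𝓞 K)) :
    ‖((χ c : ℂˣ) : ℂ)‖ = 1 :=
  Complex.norm_eq_one_of_pow_eq_one (chi_pow_card χ c) Fintype.card_ne_zero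

theorem norm_chiI_le (χ : ClassGroup (𝓞 K) →* ℂˣ) (I : Ideal (𝓞 K)) : ‖chiI K χ I‖ ≤ 1 := by
  by_cases hI : I = ⊥
  · subst hI
    rw [chiI_bot, norm_zero]
    exact zero_le_one
  · rw [chiI_of_ne_bot χ hI, norm_chi]

theorem norm_chiI_of_ne_bot (χ : ClassGroup (𝓞 K) →* ℂˣ) {I : Ideal (𝓞 K)} (hI : I ≠ ⊥) :
    ‖chiI K χ I‖ = 1 := by
  rw [chiI_of_ne_bot χ hI, norm_chi]

theorem chiI_pow_char (χ : ClassGroup (𝓞 K) →* ℂˣ) (k : ℕ) {I : Ideal (𝓞 K)} (hI : I ≠ ⊥) :
    chiI K (χ ^ k) I = chiI K χ I ^ k := by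
  rw [chiI_of_ne_bot _ hI, chiI_of_ne_bot _ hI, MonoidHom.pow_apply, Units.val_pow_eq_pow_val]

theorem chiI_one_char {I : Ideal (𝓞 K)} (hI : I ≠ ⊥) :
    chiI K (1 : ClassGroup (𝓞 K) →* ℂˣ) I = 1 := by
  rw [chiI_of_ne_bot _ hI, MonoidHom.one_apply, Units.val_one]

variable (K)

/-- The class L-series at a real argument, as a sum over all ideals. -/
noncomputable def classL (χ : ClassGroup (𝓞 K) →* ℂˣ) (s : ℝ) : ℂ :=
  ∑' I : Ideal (𝓞 K), chiI K χ I * ((((absNorm I : ℕ) : ℝ) ^ (-s) : ℝ) : ℂ)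

theorem classL_eq_tsum_nonZeroDivisors (χ : ClassGroup (𝓞 K) →* ℂˣ) (s : ℝ) :
    classL K χ s = ∑' I : (Ideal (𝓞 K))⁰,
      (χ (ClassGroup.mk0 I) : ℂ) * ((((absNorm (I : Ideal (𝓞 K)) : ℕ) : ℝ) ^ (-s) : ℝ) : ℂ) := by
  rw [classL]
  have hinj : Function.Injective (Subtype.val : (Ideal (𝓞 K))⁰ → Ideal (𝓞 K)) :=
    Subtype.val_injective
  rw [← hinj.tsum_eq (f := fun I : Ideal (𝓞 K) =>
    chiI K χ I * ((((absNorm I : ℕ) : ℝ) ^ (-s) : ℝ) : ℂ))]
  · refine tsum_congr fun I => ?_
    rw [chiI_coe]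
  · intro I hI
    rw [Function.mem_support] at hI
    have hI0 : I ≠ ⊥ := by
      rintro rfl
      exact hI (by rw [chiI_bot, zero_mul])
    exact ⟨⟨I, mem_nonZeroDivisors_iff_ne_zero.mpr hI0⟩, rfl⟩

theorem summable_norm_classL_term (χ : ClassGroup (𝓞 K) →* ℂˣ) {s : ℝ} (hs : 1 < s) :
    Summable (fun I : Ideal (𝓞 K) =>
      ‖chiI K χ I * ((((absNorm I : ℕ) : ℝ) ^ (-s) : ℝ) : ℂ)‖) := by
  refine Summable.of_nonneg_of_le (fun _ => norm_nonneg _) (fun I => ?_)
    (summable_absNorm_rpow K hs)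
  rw [norm_mul, Complex.norm_real, Real.norm_of_nonneg (by positivity)]
  calc ‖chiI K χ I‖ * ((absNorm I : ℕ) : ℝ) ^ (-s)
      ≤ 1 * ((absNorm I : ℕ) : ℝ) ^ (-s) := by
        gcongr
        exact norm_chiI_le χ I
    _ = _ := one_mul _

/-- Euler product of a class L-series (real argument `s > 1`). -/
theorem hasProd_classL (χ : ClassGroup (𝓞 K) →* ℂˣ) {s : ℝ} (hs : 1 < s) :
    HasProd (fun 𝔭 : PrimeIdeal K ↦ (1 - chiI K χ 𝔭.1 * ((𝔭.x s : ℝ) : ℂ))⁻¹)
      (classL K χ s) := by
  have hs0 : -s ≠ 0 := by linarith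
  have h := hasProd_one_sub_inv (M := Ideal (𝓞 K)) (F := ℂ)
    (f := fun I => chiI K χ I * ((((absNorm I : ℕ) : ℝ) ^ (-s) : ℝ) : ℂ))
    (by rw [chiI_zero, zero_mul]) (by
      rw [chiI_one, one_mul, Ideal.one_eq_top, Ideal.absNorm_top, Nat.cast_one, Real.one_rpow,
        Complex.ofReal_one])
    (fun a b => by
      simp only [map_mul, Nat.cast_mul, chiI_mul]
      rw [Real.mul_rpow (Nat.cast_nonneg _) (Nat.cast_nonneg _)]
      push_cast
      ring)
    (summable_norm_classL_term K χ hs)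
  exact h

theorem classL_one {s : ℝ} (hs : 1 < s) :
    classL K (1 : ClassGroup (𝓞 K) →* ℂˣ) s = ((zetaR K s : ℝ) : ℂ) := by
  have hs0 : -s ≠ 0 := by linarith
  rw [classL, zetaR, Complex.ofReal_tsum]
  refine tsum_congr fun I => ?_
  by_cases hI : I = ⊥
  · subst hI
    rw [chiI_bot, zero_mul, Ideal.absNorm_bot, Nat.cast_zero, Real.zero_rpow hs0,
      Complex.ofReal_zero]
  · rw [chiI_one_char hI, one_mul]

end Fermat.Agent.Lib.EulerProd

end
-- ===== PACK-END Lib/EulerProd/EulerNF.lean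

-- ===== PACK-BEGIN S35/G/H60/NormRedAbs.lean
section


/-!
# Norm reduction for a degeneracy map at a prime of bad reduction — abstract form (helper60)

Mathlib + `S35.H253`.  `F / K` of degree `q + 1`, `q` prime; `O ⊆ K` a valuation ring of residue
characteristic `q`; `V₁`, `V₂` incomparable valuation rings of `F` over `O`; an element `z ∈ V₂`
with `z ^ q ≡ c` (`c ∈ O`) where `c` is NOT a `q`-th power modulo the maximal ideal of `O`.
Then the residue degrees are `1` and `q` (the second purely inseparable on the elements we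
need), and for `y ∈ V₁ ∩ V₂` with `y ≡ U` at `V₁`, `y ^ q ≡ T` at `V₂` (`U, T ∈ O`):

  `N_{F/K} y ∈ O`  and  `N_{F/K} y ≡ U * T` modulo the maximal ideal of `O`.
-/

set_option autoImplicit false
set_option linter.style.haveILetI false

namespace Fermat.Agent.S35.G.H60

open Fermat.Agent.S35.H253 Polynomial

section NormRedAbs

variable {K F : Type*} [Field K] [Field F] [Algebra K F]

/-- The local homomorphism `O → V` of a valuation ring `V` of `F` over `O`. -/
def overHom {O : ValuationSubring K} {V : ValuationSubring F} (h : Over O V) : O →+* V where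
  toFun a := ⟨algebraMap K F a, (h a).2 a.2⟩
  map_one' := Subtype.ext (map_one _)
  map_mul' _ _ := Subtype.ext (map_mul _ _ _)
  map_zero' := Subtype.ext (map_zero _)
  map_add' _ _ := Subtype.ext (map_add _ _ _)

theorem isLocalHom_overHom {O : ValuationSubring K} {V : ValuationSubring F} (h : Over O V) :
    IsLocalHom (overHom h) := by
  refine ⟨fun a ha => ?_⟩
  rw [ValuationSubring.valuation_eq_one_iff] at ha ⊢
  have h1 : V.valuation (algebraMap K F (a : K)) = 1 := ha
  have h2 : O.valuation (a : K) ≤ 1 := O.valuation_le_one a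
  refine le_antisymm h2 (not_lt.1 fun hlt => ?_)
  have := (h.val_lt_one_iff (a : K)).2 hlt
  rw [h1] at this
  exact lt_irrefl _ this

theorem residue_eq_iff_val {V : ValuationSubring F} (a b : V) :
    IsLocalRing.residue V a = IsLocalRing.residue V b ↔ V.valuation ((a : F) - (b : F)) < 1 := by
  rw [← sub_eq_zero, ← map_sub, IsLocalRing.residue_eq_zero_iff,
    ValuationSubring.valuation_lt_one_iff]
  rfl

/-- **Norm reduction, abstract form.** -/
theorem norm_red_abs (q : ℕ) (hq : q.Prime) (hdeg : Module.finrank K F = q + 1)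
    {O : ValuationSubring K} {V₁ V₂ : ValuationSubring F}
    (h₁ : Over O V₁) (h₂ : Over O V₂) (hne₁ : ¬ V₁ ≤ V₂) (hne₂ : ¬ V₂ ≤ V₁)
    (hqO : O.valuation (q : K) < 1)
    {z : F} (hz : z ∈ V₂) {c : K} (hc : c ∈ O)
    (hzc : V₂.valuation (z ^ q - algebraMap K F c) < 1)
    (hnp : ∀ a ∈ O, ¬ O.valuation (a ^ q - c) < 1)
    {y : F} (hy₁ : y ∈ V₁) (hy₂ : y ∈ V₂) {U T : K} (hU : U ∈ O) (hT : T ∈ O)
    (hyU : V₁.valuation (y - algebraMap K F U) < 1)
    (hyT : V₂.valuation (y ^ q - algebraMap K F T) < 1) :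
    Algebra.norm K y ∈ O ∧ O.valuation (Algebra.norm K y - U * T) < 1 := by
  classical
  haveI : Fact q.Prime := ⟨hq⟩
  haveI : FiniteDimensional K F := Module.finite_of_finrank_pos (by rw [hdeg]; omega)
  -- residue fields
  haveI := isLocalHom_overHom h₁
  haveI := isLocalHom_overHom h₂
  letI : Algebra (IsLocalRing.ResidueField O) (IsLocalRing.ResidueField V₁) :=
    (IsLocalRing.ResidueField.map (overHom h₁)).toAlgebra
  letI : Algebra (IsLocalRing.ResidueField O) (IsLocalRing.ResidueField V₂) :=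
    (IsLocalRing.ResidueField.map (overHom h₂)).toAlgebra
  set π : O →+* IsLocalRing.ResidueField O := IsLocalRing.residue O with hπdef
  set ρ₁ : V₁ →+* IsLocalRing.ResidueField V₁ := IsLocalRing.residue V₁ with hρ₁def
  set ρ₂ : V₂ →+* IsLocalRing.ResidueField V₂ := IsLocalRing.residue V₂ with hρ₂def
  have hπ : Function.Surjective π := IsLocalRing.residue_surjective
  have hρ₁ : Function.Surjective ρ₁ := IsLocalRing.residue_surjective
  have hρ₂ : Function.Surjective ρ₂ := IsLocalRing.residue_surjective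
  have hc₁ : ∀ a : O, ρ₁ ⟨algebraMap K F a, (h₁ a).2 a.2⟩ =
      algebraMap (IsLocalRing.ResidueField O) (IsLocalRing.ResidueField V₁) (π a) := fun a => rfl
  have hc₂ : ∀ a : O, ρ₂ ⟨algebraMap K F a, (h₂ a).2 a.2⟩ =
      algebraMap (IsLocalRing.ResidueField O) (IsLocalRing.ResidueField V₂) (π a) := fun a => rfl
  -- characteristic
  have hq0 : (q : IsLocalRing.ResidueField O) = 0 := by
    have h : π ((q : ℕ) : O) = 0 := by
      rw [hπdef, IsLocalRing.residue_eq_zero_iff, ValuationSubring.valuation_lt_one_iff]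
      simpa using hqO
    simpa using h
  haveI : CharP (IsLocalRing.ResidueField O) q := by
    obtain ⟨p, hp⟩ := CharP.exists (IsLocalRing.ResidueField O)
    have hdvd : p ∣ q := (CharP.cast_eq_zero_iff (IsLocalRing.ResidueField O) p q).1 hq0
    rcases (Nat.dvd_prime hq).1 hdvd with h | h
    · exact absurd h (CharP.char_ne_one (IsLocalRing.ResidueField O) p)
    · rwa [h] at hp
  -- fundamental inequality
  obtain ⟨hf₁, hf₂, hle⟩ :=
    finite_and_finrank_add_le h₁ h₂ hne₁ hne₂ π ρ₁ ρ₂ hπ hρ₁ hρ₂ hc₁ hc₂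
  have hpos₁ : 0 < Module.finrank (IsLocalRing.ResidueField O) (IsLocalRing.ResidueField V₁) :=
    Module.finrank_pos
  -- the residue degree at `V₂` is at least `q`
  have hirr : Irreducible (X ^ q - C (π ⟨c, hc⟩) : (IsLocalRing.ResidueField O)[X]) := by
    refine X_pow_sub_C_irreducible_of_prime hq fun b hb => ?_
    obtain ⟨a, rfl⟩ := hπ b
    rw [← map_pow, hπdef, residue_eq_iff_val] at hb
    exact hnp a a.2 hb
  have hroot : Polynomial.aeval (ρ₂ ⟨z, hz⟩)
      (X ^ q - C (π ⟨c, hc⟩) : (IsLocalRing.ResidueField O)[X]) = 0 := by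
    rw [map_sub, map_pow, aeval_X, aeval_C, ← hc₂ ⟨c, hc⟩, ← map_pow, sub_eq_zero, hρ₂def,
      residue_eq_iff_val]
    exact hzc
  have hmonic : (X ^ q - C (π ⟨c, hc⟩) : (IsLocalRing.ResidueField O)[X]).Monic :=
    monic_X_pow_sub_C _ hq.ne_zero
  have hmin : minpoly (IsLocalRing.ResidueField O) (ρ₂ ⟨z, hz⟩) =
      X ^ q - C (π ⟨c, hc⟩) := (minpoly.eq_of_irreducible_of_monic hirr hroot hmonic).symm
  have hge₂ : q ≤ Module.finrank (IsLocalRing.ResidueField O) (IsLocalRing.ResidueField V₂) := by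
    have h := minpoly.natDegree_le (A := IsLocalRing.ResidueField O) (ρ₂ ⟨z, hz⟩)
    rwa [hmin, natDegree_X_pow_sub_C] at h
  rw [hdeg] at hle
  have hdeg₁ : Module.finrank (IsLocalRing.ResidueField O) (IsLocalRing.ResidueField V₁) = 1 := by
    omega
  have hdeg₂ : Module.finrank (IsLocalRing.ResidueField O) (IsLocalRing.ResidueField V₂) = q := by
    omega
  -- the norm formula
  have ha : algebraMap (IsLocalRing.ResidueField O) (IsLocalRing.ResidueField V₂) (π ⟨T, hT⟩) =
      ρ₂ ⟨y, hy₂⟩ ^ q := by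
    rw [← hc₂ ⟨T, hT⟩, ← map_pow, eq_comm, hρ₂def, residue_eq_iff_val]
    exact hyT
  obtain ⟨hN, hred⟩ := norm_red_insep h₁ h₂ hne₁ hne₂ q π ρ₁ ρ₂ hπ hρ₁ hρ₂ hc₁ hc₂ hdeg₁ hdeg₂
    hdeg hy₁ hy₂ ha
  refine ⟨hN, ?_⟩
  have hyU' : ρ₁ ⟨y, hy₁⟩ =
      algebraMap (IsLocalRing.ResidueField O) (IsLocalRing.ResidueField V₁) (π ⟨U, hU⟩) := by
    rw [← hc₁ ⟨U, hU⟩, hρ₁def, residue_eq_iff_val]
    exact hyU
  rw [hyU', ← map_mul, ← map_mul] at hred
  have hinj := (algebraMap (IsLocalRing.ResidueField O) (IsLocalRing.ResidueField V₁)).injective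
  have h3 := hinj hred
  rw [hπdef, residue_eq_iff_val] at h3
  exact h3

end NormRedAbs

end Fermat.Agent.S35.G.H60

end
-- ===== PACK-END S35/G/H60/NormRedAbs.lean

-- ===== PACK-BEGIN S28/H208/RootList.lean
section
/-
S28 [L3]: consequences of `ModPolyData` over arbitrary coefficient rings and the
root list of `Φ_p(X, j(t^p))` over a field containing a primitive `p`-th root of unity.
-/




set_option autoImplicit false

noncomputable section

open ModularCurve Polynomial

namespace Fermat.Agent.S28.H208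

section Hom

variable {S S' : Type*} [CommRing S] [CommRing S']

/-- Evaluation `ℤ[Y] → S`, `Y ↦ y` (same as `evalAt`, for an arbitrary target ring). -/
abbrev evZ (y : S) : Polynomial ℤ →+* S := (Polynomial.aeval (R := ℤ) y).toRingHom

theorem evZ_comp (h : S →+* S') (y : S) : h.comp (evZ y) = evZ (h y) := by
  refine Polynomial.ringHom_ext' (Subsingleton.elim _ _) ?_
  simp [evZ]

theorem evalAt_eq_evZ {A : Type*} [CommRing A] (y : LaurentSeries A) : evalAt y = evZ y := by
  refine Polynomial.ringHom_ext' (Subsingleton.elim _ _) ?_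
  simp [evZ, evalAt]

theorem eval₂_evZ_hom (h : S →+* S') (Φ : Polynomial (Polynomial ℤ)) (y x : S)
    (hx : Φ.eval₂ (evZ y) x = 0) : Φ.eval₂ (evZ (h y)) (h x) = 0 := by
  rw [← evZ_comp, ← Polynomial.hom_eval₂, hx, map_zero]

theorem map_map_evZ (h : S →+* S') (Φ : Polynomial (Polynomial ℤ)) (y : S) :
    (Φ.map (evZ y)).map h = Φ.map (evZ (h y)) := by
  rw [Polynomial.map_map, evZ_comp]

end Hom

section Ring

variable (A : Type*) [CommRing A] {p : ℕ} [NeZero p] (D : ModPolyData p)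

theorem coeffMap_int_jd (d : ℕ) [NeZero d] :
    coeffMap (Int.castRingHom A) (qExpand ℤ d (jqModC ℤ)) = qExpand A d (jqModC A) := by
  rw [coeffMap_qExpand, coeffMap_jqModC]

/-- `Φ_p(j(q^p), j(q)) = 0` over any commutative ring. -/
theorem eval_jp_ring : D.Φ.eval₂ (evZ (jqModC A)) (qExpand A p (jqModC A)) = 0 := by
  have h := eval₂_evZ_hom (coeffMap (Int.castRingHom A)) D.Φ (jqModC ℤ)
    (qExpand ℤ p (jqModC ℤ)) (by rw [← evalAt_eq_evZ]; exact D.eval_jp)
  rwa [coeffMap_int_jd, coeffMap_jqModC] at h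

/-- `Φ_p(j(q), j(q^p)) = 0` over any commutative ring. -/
theorem eval_j_ring : D.Φ.eval₂ (evZ (qExpand A p (jqModC A))) (jqModC A) = 0 := by
  have h := eval₂_evZ_hom (coeffMap (Int.castRingHom A)) D.Φ (qExpand ℤ p (jqModC ℤ))
    (jqModC ℤ) (by rw [← evalAt_eq_evZ]; exact D.eval_j)
  rwa [coeffMap_int_jd, coeffMap_jqModC] at h

/-- `Φ_p(j(q^{mp}), j(q^m)) = 0`. -/
theorem eval_jp_ring_qExpand (m : ℕ) [NeZero m] [NeZero (m * p)] :
    D.Φ.eval₂ (evZ (qExpand A m (jqModC A))) (qExpand A (m * p) (jqModC A)) = 0 := by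
  have h := eval₂_evZ_hom (qExpand A m) D.Φ _ _ (eval_jp_ring A D)
  rwa [qExpand_qExpand] at h

/-- `Φ_p(j(q^m), j(q^{mp})) = 0`. -/
theorem eval_j_ring_qExpand (m : ℕ) [NeZero m] [NeZero (m * p)] :
    D.Φ.eval₂ (evZ (qExpand A (m * p) (jqModC A))) (qExpand A m (jqModC A)) = 0 := by
  have h := eval₂_evZ_hom (qExpand A m) D.Φ _ _ (eval_j_ring A D)
  rwa [qExpand_qExpand] at h

end Ring

section Coeff

variable (A : Type*) [CommRing A]

theorem coeff_jd_neg (d : ℕ) [NeZero d] :
    (qExpand A d (jqModC A)).coeff (-(d : ℤ)) = 1 := by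
  have h := qExpand_coeff_mul (R := A) d (jqModC A) (-1)
  rw [coeff_jqModC_neg_one] at h
  rwa [mul_neg, mul_one] at h

theorem coeff_jd_of_lt (d : ℕ) [NeZero d] {n : ℤ} (hn : n < -(d : ℤ)) :
    (qExpand A d (jqModC A)).coeff n = 0 := by
  by_cases hdn : (d : ℤ) ∣ n
  · obtain ⟨a, rfl⟩ := hdn
    rw [qExpand_coeff_mul]
    have hd : (0 : ℤ) < d := by exact_mod_cast Nat.pos_of_ne_zero (NeZero.ne d)
    have ha : a < -1 := by
      by_contra hcon
      have hcon' : -1 ≤ a := not_lt.mp hcon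
      nlinarith
    have := coeff_jqModC_pow_of_lt A (b := 1) (m := a) (by simpa using ha)
    simpa using this
  · exact qExpand_coeff_of_not_dvd d _ hdn

end Coeff

section Field

variable {K : Type*} [Field K] {p : ℕ} [NeZero p] (D : ModPolyData p)

/-- The `p + 1` roots of `Φ_p(X, j(t^p))` in `K((t))`: `j(t^{p²})` and `j(ζ^b t)`, `b < p`. -/
def rootAt (ζ : K) (hζ : ζ ≠ 0) : Option (Fin p) → LaurentSeries K
  | none => qExpand K (p * p) (jqModC K)
  | some b => tw (ζ ^ (b : ℕ)) (pow_ne_zero _ hζ) (jqModC K)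

theorem rootAt_none_coeff_neg_one (hp : 1 < p) (ζ : K) (hζ : ζ ≠ 0) :
    (rootAt (p := p) ζ hζ none).coeff (-1) = 0 := by
  apply qExpand_coeff_of_not_dvd
  intro h
  have h1 : ((p * p : ℕ) : ℤ) ∣ 1 := by simpa using (dvd_neg.mpr h)
  have h2 : (p * p : ℕ) ∣ 1 := by exact_mod_cast h1
  have h3 := Nat.le_of_dvd one_pos h2
  nlinarith

theorem rootAt_some_coeff_neg_one (ζ : K) (hζ : ζ ≠ 0) (b : Fin p) :
    (rootAt (p := p) ζ hζ (some b)).coeff (-1) = (ζ ^ (b : ℕ))⁻¹ := by
  show (tw _ _ (jqModC K)).coeff (-1) = _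
  rw [tw_coeff, coeff_jqModC_neg_one, mul_one, zpow_neg_one]

theorem rootAt_injective (hp : 1 < p) (ζ : K) (hζ : IsPrimitiveRoot ζ p) :
    Function.Injective (rootAt (p := p) ζ (hζ.ne_zero (NeZero.ne p))) := by
  have hζ0 : ζ ≠ 0 := hζ.ne_zero (NeZero.ne p)
  intro a b hab
  have hc : (rootAt ζ hζ0 a).coeff (-1) = (rootAt ζ hζ0 b).coeff (-1) := by rw [hab]
  rcases a with _ | a <;> rcases b with _ | b
  · rfl
  · rw [rootAt_none_coeff_neg_one hp, rootAt_some_coeff_neg_one] at hc
    exact absurd hc.symm (inv_ne_zero (pow_ne_zero _ hζ0))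
  · rw [rootAt_none_coeff_neg_one hp, rootAt_some_coeff_neg_one] at hc
    exact absurd hc (inv_ne_zero (pow_ne_zero _ hζ0))
  · rw [rootAt_some_coeff_neg_one, rootAt_some_coeff_neg_one] at hc
    have h := hζ.pow_inj a.2 b.2 (inv_injective hc)
    exact congrArg some (Fin.ext h)

theorem rootAt_isRoot (ζ : K) (hζ : IsPrimitiveRoot ζ p) (i : Option (Fin p)) :
    (D.Φ.map (evZ (qExpand K p (jqModC K)))).IsRoot (rootAt ζ (hζ.ne_zero (NeZero.ne p)) i) := by
  have hζ0 : ζ ≠ 0 := hζ.ne_zero (NeZero.ne p)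
  rw [Polynomial.IsRoot, Polynomial.eval_map]
  rcases i with _ | b
  · have h := eval_jp_ring_qExpand K D p
    exact h
  · have h := eval₂_evZ_hom (tw (ζ ^ (b : ℕ)) (pow_ne_zero _ hζ0)) D.Φ _ _ (eval_j_ring K D)
    rwa [tw_qExpand_of_pow_eq_one] at h
    rw [← pow_mul, mul_comm, pow_mul, hζ.pow_eq_one, one_pow]

/-- **Root list** of the modular polynomial at prime level. -/
theorem map_eq_prod_rootAt (hp : 1 < p) (ζ : K) (hζ : IsPrimitiveRoot ζ p) :
    D.Φ.map (evZ (qExpand K p (jqModC K))) =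
      ∏ i : Option (Fin p), (X - C (rootAt ζ (hζ.ne_zero (NeZero.ne p)) i)) := by
  have hmonic : (D.Φ.map (evZ (qExpand K p (jqModC K)))).Monic := D.monic.map _
  have hprod_monic : (∏ i : Option (Fin p),
      (X - C (rootAt ζ (hζ.ne_zero (NeZero.ne p)) i))).Monic :=
    Polynomial.monic_prod_of_monic _ _ fun i _ => Polynomial.monic_X_sub_C _
  have hdvd : (∏ i : Option (Fin p), (X - C (rootAt ζ (hζ.ne_zero (NeZero.ne p)) i))) ∣
      D.Φ.map (evZ (qExpand K p (jqModC K))) := by
    refine Finset.prod_dvd_of_coprime ?_ ?_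
    · intro i _ j _ hij
      exact Polynomial.pairwise_coprime_X_sub_C (rootAt_injective hp ζ hζ) hij
    · intro i _
      exact Polynomial.dvd_iff_isRoot.mpr (rootAt_isRoot D ζ hζ i)
  refine Polynomial.eq_of_monic_of_dvd_of_natDegree_le hprod_monic hmonic hdvd ?_
  rw [D.monic.natDegree_map, D.natDegree_eq, Polynomial.natDegree_prod_of_monic _ _
    fun i _ => Polynomial.monic_X_sub_C _]
  simp

/-- Root list after the substitution `t ↦ t^m`. -/
theorem map_eq_prod_rootAt_qExpand (hp : 1 < p) (ζ : K) (hζ : IsPrimitiveRoot ζ p)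
    (m : ℕ) [NeZero m] [NeZero (m * p)] :
    D.Φ.map (evZ (qExpand K (m * p) (jqModC K))) =
      ∏ i : Option (Fin p),
        (X - C (qExpand K m (rootAt ζ (hζ.ne_zero (NeZero.ne p)) i))) := by
  have h := congrArg (Polynomial.map (qExpand K m)) (map_eq_prod_rootAt D hp ζ hζ)
  rw [map_map_evZ, qExpand_qExpand, Polynomial.map_prod] at h
  rw [h]
  refine Finset.prod_congr rfl fun i _ => ?_
  rw [Polynomial.map_sub, Polynomial.map_X, Polynomial.map_C]

end Field

end Fermat.Agent.S28.H208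

end

end
-- ===== PACK-END S28/H208/RootList.lean

-- ===== PACK-BEGIN Lib/Newform/H958/X/Basic.lean
section



/-!
# NEWFORM block X — basic facts on `Lam` and the Euler polynomials
-/

set_option autoImplicit false

open CongruenceSubgroup Complex Polynomial
open UpperHalfPlane hiding I
open scoped MatrixGroups ModularForm

namespace Fermat.Agent.Lib.Newform.H958.X

open ModularFormClass

variable {N : ℕ} [NeZero N]

theorem Lam_eq_mellin (f : CuspForm (Gamma0 N) 2) :
    Lam f = mellin (fun t : ℝ => f (ofComplex (I * t))) :=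
  CuspForm.Λ_eq_mellin two_pos f

theorem differentiable_Lam (f : CuspForm (Gamma0 N) 2) : Differentiable ℂ (Lam f) :=
  CuspForm.differentiable_Λ two_pos f

theorem Lam_smul (c : ℂ) (f : CuspForm (Gamma0 N) 2) (s : ℂ) :
    Lam (c • f) s = c * Lam f s := by
  rw [Lam_eq_mellin, Lam_eq_mellin]
  have : (fun t : ℝ => (c • f) (ofComplex (I * t))) =
      fun t : ℝ => c • (fun t : ℝ => f (ofComplex (I * t))) t := by
    funext t
    rfl
  rw [this, mellin_const_smul, smul_eq_mul]

theorem term_eq_div (a : ℕ → ℂ) {s : ℂ} (hs : 2 < s.re) (n : ℕ) :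
    LSeries.term a s n = a n / (n : ℂ) ^ s := by
  have hs0 : s ≠ 0 := by
    rintro rfl
    simp at hs
    linarith
  exact LSeries.term_of_ne_zero' hs0 a n

theorem lseriesHasSum_of_hasSum {a : ℕ → ℂ} {s c : ℂ} (hs : 2 < s.re)
    (h : HasSum (fun n : ℕ => a n / (n : ℂ) ^ s) c) : LSeriesHasSum a s c := by
  unfold LSeriesHasSum
  have : LSeries.term a s = fun n : ℕ => a n / (n : ℂ) ^ s :=
    funext (term_eq_div a hs)
  rw [this]
  exact h

theorem lseries_qCoeff (hD : DirichletSeries) (f : CuspForm (Gamma0 N) 2) {s : ℂ}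
    (hs : 2 < s.re) : LSeries (fun n => qCoeff f n) s = Lam f s * (2 / Gammaℂ s) :=
  (lseriesHasSum_of_hasSum hs (hD N f s hs)).LSeries_eq

theorem abscissa_qCoeff_lt_top (hD : DirichletSeries) (f : CuspForm (Gamma0 N) 2) :
    LSeries.abscissaOfAbsConv (fun n => qCoeff f n) < ⊤ := by
  refine lt_of_le_of_lt
    (LSeries.abscissaOfAbsConv_le_of_forall_lt_LSeriesSummable (x := 2) fun y hy => ?_)
    (EReal.coe_lt_top 2)
  have hy' : 2 < ((y : ℝ) : ℂ).re := by simpa using hy
  exact (lseriesHasSum_of_hasSum hy' (hD N f _ hy')).LSeriesSummable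

/-- `Lam f` does not vanish identically on `Re s > 2` if `a_1(f) = 1`. -/
theorem exists_Lam_ne_zero (hD : DirichletSeries) (f : CuspForm (Gamma0 N) 2)
    (h1 : qCoeff f 1 = 1) : ∃ s : ℂ, 2 < s.re ∧ Lam f s ≠ 0 := by
  by_contra hcon
  replace hcon : ∀ s : ℂ, 2 < s.re → Lam f s = 0 := by
    intro s hs
    by_contra h
    exact hcon ⟨s, hs, h⟩
  have hlim := LSeries.tendsto_atTop (abscissa_qCoeff_lt_top hD f)
  have hzero : (fun x : ℝ => LSeries (fun n => qCoeff f n) x) =ᶠ[Filter.atTop] fun _ => 0 := by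
    filter_upwards [Filter.eventually_gt_atTop (2 : ℝ)] with x hx
    have hx' : 2 < ((x : ℝ) : ℂ).re := by simpa using hx
    rw [lseries_qCoeff hD f hx', hcon _ hx', zero_mul]
  have h0 : Filter.Tendsto (fun x : ℝ => LSeries (fun n => qCoeff f n) x) Filter.atTop
      (nhds 0) := (tendsto_const_nhds).congr' hzero.symm
  have := tendsto_nhds_unique hlim h0
  rw [h1] at this
  exact one_ne_zero this

/-! ## Euler polynomials -/

theorem eulerPoly_coeff_zero (N : ℕ) (a : ℕ → ℂ) (p : ℕ) : (eulerPoly N a p).coeff 0 = 1 := by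
  unfold eulerPoly
  split_ifs <;> simp

theorem eulerPoly_ne_zero (N : ℕ) (a : ℕ → ℂ) (p : ℕ) : eulerPoly N a p ≠ 0 := by
  intro h
  have := eulerPoly_coeff_zero N a p
  rw [h] at this
  simp at this

theorem eulerPolyRev_coeff_two (N : ℕ) (a : ℕ → ℂ) (p : ℕ) :
    (eulerPolyRev N a p).coeff 2 = 1 := by
  unfold eulerPolyRev
  split_ifs <;> simp

theorem eulerPolyRev_ne_zero (N : ℕ) (a : ℕ → ℂ) (p : ℕ) : eulerPolyRev N a p ≠ 0 := by
  intro h
  have := eulerPolyRev_coeff_two N a p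
  rw [h] at this
  simp at this

/-- `X² P(p⁻² / X) = P~(X)` for `X ≠ 0`. -/
theorem eval_eulerPolyRev (N : ℕ) (a : ℕ → ℂ) {p : ℕ} (hp : p ≠ 0) {x : ℂ} (hx : x ≠ 0) :
    (eulerPolyRev N a p).eval x = x ^ 2 * (eulerPoly N a p).eval (((p : ℂ) ^ 2)⁻¹ / x) := by
  have hpc : (p : ℂ) ≠ 0 := Nat.cast_ne_zero.mpr hp
  unfold eulerPolyRev eulerPoly
  split_ifs
  · simp only [eval_add, eval_sub, eval_pow, eval_X, eval_mul, eval_C, eval_zero, eval_one]
    field_simp
    ring
  · simp only [eval_add, eval_sub, eval_pow, eval_X, eval_mul, eval_C, eval_one]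
    field_simp

end Fermat.Agent.Lib.Newform.H958.X

end
-- ===== PACK-END Lib/Newform/H958/X/Basic.lean

-- ===== PACK-BEGIN S36/H586/G1Approx.lean
section



/-!
# S36 engine, ALG3 leaf STEP-A (helper586), part 2: approximation at three DVRs

Mathlib + helper253's approximation lemmas (copied in `Approx586.lean`).

* `exists_approx_ord3` : prescribed orders at three distinct discrete valuation subrings;
* `exists_approx_res3` : prescribed residues (of units) at three distinct discrete valuation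
                         subrings.
-/

set_option autoImplicit false

namespace Fermat.Agent.S36.H586

section Approx3

variable {F : Type*} [Field F]

/-- The family of three valuation subrings. -/
def fam3 (V₁ V₂ V₃ : ValuationSubring F) : Fin 3 → ValuationSubring F := ![V₁, V₂, V₃]

theorem fam3_inc (V₁ V₂ V₃ : ValuationSubring F) [IsDiscreteValuationRing V₁]
    [IsDiscreteValuationRing V₂] [IsDiscreteValuationRing V₃]
    (h12 : V₁ ≠ V₂) (h13 : V₁ ≠ V₃) (h23 : V₂ ≠ V₃) :
    ∀ i i' : Fin 3, i ≠ i' → ¬ fam3 V₁ V₂ V₃ i ≤ fam3 V₁ V₂ V₃ i' := by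
  intro i i' hii'
  fin_cases i <;> fin_cases i' <;> simp only [fam3] at *
  · exact absurd rfl hii'
  · exact not_le_of_dvr_ne V₁ V₂ h12
  · exact not_le_of_dvr_ne V₁ V₃ h13
  · exact not_le_of_dvr_ne V₂ V₁ (Ne.symm h12)
  · exact absurd rfl hii'
  · exact not_le_of_dvr_ne V₂ V₃ h23
  · exact not_le_of_dvr_ne V₃ V₁ (Ne.symm h13)
  · exact not_le_of_dvr_ne V₃ V₂ (Ne.symm h23)
  · exact absurd rfl hii'

theorem val_le_of_gen {V : ValuationSubring F} {t : F} (ht0 : t ≠ 0)
    (hgen : ∀ f ∈ V.nonunits, f * t⁻¹ ∈ V) (z : F) (hz : V.valuation z < 1) :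
    V.valuation z ≤ V.valuation t := by
  have h1 : z * t⁻¹ ∈ V := hgen z ((ValuationSubring.mem_nonunits_iff V).2 hz)
  have h2 := (ValuationSubring.valuation_le_one_iff V _).2 h1
  rw [map_mul, map_inv₀] at h2
  have ht : 0 < V.valuation t := zero_lt_iff.2 ((Valuation.ne_zero_iff _).2 ht0)
  have := mul_le_mul_of_nonneg_right h2 ht.le
  rwa [mul_assoc, inv_mul_cancel₀ ht.ne', mul_one, one_mul] at this

/-- **Prescribed orders** at three distinct discrete valuation subrings. -/
theorem exists_approx_ord3 (V₁ V₂ V₃ : ValuationSubring F) [IsDiscreteValuationRing V₁]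
    [IsDiscreteValuationRing V₂] [IsDiscreteValuationRing V₃]
    (h12 : V₁ ≠ V₂) (h13 : V₁ ≠ V₃) (h23 : V₂ ≠ V₃) {t₁ t₂ t₃ : F}
    (h₁0 : t₁ ≠ 0) (h₁ : t₁ ∈ V₁.nonunits) (hg₁ : ∀ f ∈ V₁.nonunits, f * t₁⁻¹ ∈ V₁)
    (h₂0 : t₂ ≠ 0) (h₂ : t₂ ∈ V₂.nonunits) (hg₂ : ∀ f ∈ V₂.nonunits, f * t₂⁻¹ ∈ V₂)
    (h₃0 : t₃ ≠ 0) (h₃ : t₃ ∈ V₃.nonunits) (hg₃ : ∀ f ∈ V₃.nonunits, f * t₃⁻¹ ∈ V₃)
    (a b c : ℤ) : ∃ g : F, IsOrd V₁ t₁ g a ∧ IsOrd V₂ t₂ g b ∧ IsOrd V₃ t₃ g c := by
  have hinc := fam3_inc V₁ V₂ V₃ h12 h13 h23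
  obtain ⟨T₁, hT₁, hT₁'⟩ := Fermat.Agent.S36.H586.Ap.exists_unif_multi (fam3 V₁ V₂ V₃) hinc 0
    (τ := t₁) h₁0 (val_lt_one_of_mem_nonunits h₁) (val_le_of_gen h₁0 hg₁)
  obtain ⟨T₂, hT₂, hT₂'⟩ := Fermat.Agent.S36.H586.Ap.exists_unif_multi (fam3 V₁ V₂ V₃) hinc 1
    (τ := t₂) h₂0 (val_lt_one_of_mem_nonunits h₂) (val_le_of_gen h₂0 hg₂)
  obtain ⟨T₃, hT₃, hT₃'⟩ := Fermat.Agent.S36.H586.Ap.exists_unif_multi (fam3 V₁ V₂ V₃) hinc 2
    (τ := t₃) h₃0 (val_lt_one_of_mem_nonunits h₃) (val_le_of_gen h₃0 hg₃)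
  have e10 : V₁.valuation T₁ = V₁.valuation t₁ := hT₁
  have e11 : V₂.valuation T₁ = 1 := hT₁' 1 (by decide)
  have e12 : V₃.valuation T₁ = 1 := hT₁' 2 (by decide)
  have e20 : V₁.valuation T₂ = 1 := hT₂' 0 (by decide)
  have e21 : V₂.valuation T₂ = V₂.valuation t₂ := hT₂
  have e22 : V₃.valuation T₂ = 1 := hT₂' 2 (by decide)
  have e30 : V₁.valuation T₃ = 1 := hT₃' 0 (by decide)
  have e31 : V₂.valuation T₃ = 1 := hT₃' 1 (by decide)
  have e32 : V₃.valuation T₃ = V₃.valuation t₃ := hT₃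
  refine ⟨T₁ ^ a * T₂ ^ b * T₃ ^ c, ?_, ?_, ?_⟩
  · unfold IsOrd
    rw [map_mul, map_mul, map_zpow₀, map_zpow₀, map_zpow₀, e10, e20, e30, one_zpow, one_zpow,
      mul_one, mul_one]
  · unfold IsOrd
    rw [map_mul, map_mul, map_zpow₀, map_zpow₀, map_zpow₀, e11, e21, e31, one_zpow, one_zpow,
      mul_one, one_mul]
  · unfold IsOrd
    rw [map_mul, map_mul, map_zpow₀, map_zpow₀, map_zpow₀, e12, e22, e32, one_zpow, one_zpow,
      one_mul, one_mul]

theorem val_lt_one_of_three {V : ValuationSubring F} {a b c : F} (ha : V.valuation a < 1)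
    (hb : V.valuation b < 1) (hc : V.valuation c < 1) : V.valuation (a + b + c) < 1 :=
  Valuation.map_add_lt _ (Valuation.map_add_lt _ ha hb) hc

theorem val_mul_lt_one_of_lt_of_le {V : ValuationSubring F} {a b : F} (ha : V.valuation a < 1)
    (hb : V.valuation b ≤ 1) : V.valuation (a * b) < 1 := by
  rw [map_mul]
  calc V.valuation a * V.valuation b ≤ V.valuation a * 1 := by gcongr
    _ = V.valuation a := mul_one _
    _ < 1 := ha

theorem val_sub_comm_lt {V : ValuationSubring F} {a b : F} (h : V.valuation (a - b) < 1) :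
    V.valuation (b - a) < 1 := by
  rwa [← Valuation.map_neg, neg_sub]

/-- **Prescribed residues** at three distinct discrete valuation subrings. -/
theorem exists_approx_res3 (V₁ V₂ V₃ : ValuationSubring F) [IsDiscreteValuationRing V₁]
    [IsDiscreteValuationRing V₂] [IsDiscreteValuationRing V₃]
    (h12 : V₁ ≠ V₂) (h13 : V₁ ≠ V₃) (h23 : V₂ ≠ V₃) (g₁ g₂ g₃ : F)
    (hg₁ : V₁.valuation g₁ = 1) (hg₂ : V₂.valuation g₂ = 1) (hg₃ : V₃.valuation g₃ = 1) :
    ∃ g : F, PU V₁ (g / g₁) ∧ PU V₂ (g / g₂) ∧ PU V₃ (g / g₃) := by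
  have hinc := fam3_inc V₁ V₂ V₃ h12 h13 h23
  have m₁ : g₁ ∈ fam3 V₁ V₂ V₃ 0 := (ValuationSubring.valuation_le_one_iff V₁ _).1 hg₁.le
  have m₂ : g₂ ∈ fam3 V₁ V₂ V₃ 1 := (ValuationSubring.valuation_le_one_iff V₂ _).1 hg₂.le
  have m₃ : g₃ ∈ fam3 V₁ V₂ V₃ 2 := (ValuationSubring.valuation_le_one_iff V₃ _).1 hg₃.le
  obtain ⟨L₁, hL₁, hL₁'⟩ := Fermat.Agent.S36.H586.Ap.exists_lift_multi (fam3 V₁ V₂ V₃) hinc 0 m₁
  obtain ⟨L₂, hL₂, hL₂'⟩ := Fermat.Agent.S36.H586.Ap.exists_lift_multi (fam3 V₁ V₂ V₃) hinc 1 m₂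
  obtain ⟨L₃, hL₃, hL₃'⟩ := Fermat.Agent.S36.H586.Ap.exists_lift_multi (fam3 V₁ V₂ V₃) hinc 2 m₃
  obtain ⟨E₁, hE₁, hE₁'⟩ := Fermat.Agent.S36.H586.Ap.exists_idem_multi (fam3 V₁ V₂ V₃) hinc 0
  obtain ⟨E₂, hE₂, hE₂'⟩ := Fermat.Agent.S36.H586.Ap.exists_idem_multi (fam3 V₁ V₂ V₃) hinc 1
  obtain ⟨E₃, hE₃, hE₃'⟩ := Fermat.Agent.S36.H586.Ap.exists_idem_multi (fam3 V₁ V₂ V₃) hinc 2
  -- memberships and smallness, spelled out
  have l10 : V₁.valuation L₁ ≤ 1 := (ValuationSubring.valuation_le_one_iff V₁ _).2 (hL₁ 0)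
  have l11 : V₂.valuation L₁ ≤ 1 := (ValuationSubring.valuation_le_one_iff V₂ _).2 (hL₁ 1)
  have l12 : V₃.valuation L₁ ≤ 1 := (ValuationSubring.valuation_le_one_iff V₃ _).2 (hL₁ 2)
  have l20 : V₁.valuation L₂ ≤ 1 := (ValuationSubring.valuation_le_one_iff V₁ _).2 (hL₂ 0)
  have l21 : V₂.valuation L₂ ≤ 1 := (ValuationSubring.valuation_le_one_iff V₂ _).2 (hL₂ 1)
  have l22 : V₃.valuation L₂ ≤ 1 := (ValuationSubring.valuation_le_one_iff V₃ _).2 (hL₂ 2)
  have l30 : V₁.valuation L₃ ≤ 1 := (ValuationSubring.valuation_le_one_iff V₁ _).2 (hL₃ 0)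
  have l31 : V₂.valuation L₃ ≤ 1 := (ValuationSubring.valuation_le_one_iff V₂ _).2 (hL₃ 1)
  have l32 : V₃.valuation L₃ ≤ 1 := (ValuationSubring.valuation_le_one_iff V₃ _).2 (hL₃ 2)
  have d1 : V₁.valuation (L₁ - g₁) < 1 := hL₁'
  have d2 : V₂.valuation (L₂ - g₂) < 1 := hL₂'
  have d3 : V₃.valuation (L₃ - g₃) < 1 := hL₃'
  have s10 : V₁.valuation (E₁ - 1) < 1 := val_sub_comm_lt hE₁
  have s11 : V₂.valuation E₁ < 1 := hE₁' 1 (by decide)
  have s12 : V₃.valuation E₁ < 1 := hE₁' 2 (by decide)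
  have s20 : V₁.valuation E₂ < 1 := hE₂' 0 (by decide)
  have s21 : V₂.valuation (E₂ - 1) < 1 := val_sub_comm_lt hE₂
  have s22 : V₃.valuation E₂ < 1 := hE₂' 2 (by decide)
  have s30 : V₁.valuation E₃ < 1 := hE₃' 0 (by decide)
  have s31 : V₂.valuation E₃ < 1 := hE₃' 1 (by decide)
  have s32 : V₃.valuation (E₃ - 1) < 1 := val_sub_comm_lt hE₃
  refine ⟨E₁ * L₁ + E₂ * L₂ + E₃ * L₃, ?_, ?_, ?_⟩
  · refine pu_div_of_sub hg₁ ?_
    have e : E₁ * L₁ + E₂ * L₂ + E₃ * L₃ - g₁ =
        ((E₁ - 1) * L₁ + (L₁ - g₁)) + E₂ * L₂ + E₃ * L₃ := by ring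
    rw [e]
    exact val_lt_one_of_three
      (Valuation.map_add_lt _ (val_mul_lt_one_of_lt_of_le s10 l10) d1)
      (val_mul_lt_one_of_lt_of_le s20 l20) (val_mul_lt_one_of_lt_of_le s30 l30)
  · refine pu_div_of_sub hg₂ ?_
    have e : E₁ * L₁ + E₂ * L₂ + E₃ * L₃ - g₂ =
        E₁ * L₁ + ((E₂ - 1) * L₂ + (L₂ - g₂)) + E₃ * L₃ := by ring
    rw [e]
    exact val_lt_one_of_three (val_mul_lt_one_of_lt_of_le s11 l11)
      (Valuation.map_add_lt _ (val_mul_lt_one_of_lt_of_le s21 l21) d2)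
      (val_mul_lt_one_of_lt_of_le s31 l31)
  · refine pu_div_of_sub hg₃ ?_
    have e : E₁ * L₁ + E₂ * L₂ + E₃ * L₃ - g₃ =
        E₁ * L₁ + E₂ * L₂ + ((E₃ - 1) * L₃ + (L₃ - g₃)) := by ring
    rw [e]
    exact val_lt_one_of_three (val_mul_lt_one_of_lt_of_le s12 l12)
      (val_mul_lt_one_of_lt_of_le s22 l22)
      (Valuation.map_add_lt _ (val_mul_lt_one_of_lt_of_le s32 l32) d3)

end Approx3

end Fermat.Agent.S36.H586

end
-- ===== PACK-END S36/H586/G1Approx.lean

-- ===== PACK-BEGIN S36/H630/LabNorm.lean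
section


/-!
# S36 engine, LABEL core (helper630), part 4: LAB-NORM (norm compatibility of the values)

`F' ⊆ F` a finite extension of function fields (level `qM'` inside level `q²M'` via `α` or via
`β`), `A ⊆ F'`, `B ⊆ F` the charts, `n` a closed point of `B` over the closed point `N₁` of `A`.

Interface to the cell NR (norm–residue formulas, `S36/H253`, `S36/H203`), elementwise:

* `NormResSplit V' V₁ V₂ e` : `V₁` (`e = f = 1`) and `V₂` (ramification `e`, `f = 1`) are the
  extensions of `V'`:   `res_{V'} (N y) = res_{V₁} y · (res_{V₂} y) ^ e`;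
* `NormResInsep V' V q`    : `V` is the only extension of `V'`, purely inseparable residue
  extension of degree `q`:   `res_{V'} (N y) = (res_V y) ^ q`.

Interface to MOD3 (residue rings of the components):

* `ResLift A B V`      : `B / p_V = A / p_{V'}`  (`f = 1`, `A / p_{V'}` normal);
* `ResLiftPow A B V q` : `(B / p_V) ^ q ⊆ A / p_{V'}`  (purely inseparable of degree `q`).

Results:

* `valAt_norm_split` : values `η₁`, `η₂` of `d` at `n` along `V₁`, `V₂`  ⟹  `N d` has the value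
  `η₁ η₂ ^ e` at `N₁` along `V'`;
* `valAt_norm_insep` : value `η` of `d` at `n` along `V`  ⟹  `N d` has the value `η ^ q` at `N₁`
  along `V'`;
* `label_eq_of_norm` (**the label equation**) : if `u d ^ m ∈ B_{N₁}` (purity at the unique point
  `n` over the node `N₁`) and `N u = k ^ m` with `k ≡ ξ₁` on `V₁'`, `k ≡ ξ₂` on `V₂'`, then

      `ξ₁ · η_FF · η_mid ^ e  ≡  ξ₂ · η_VV ^ q`   modulo `N₁`.
-/

set_option autoImplicit false
set_option linter.unusedSectionVars false

namespace Fermat.Agent.S36.H630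

variable {R : Type*} [CommRing R] {F' : Type*} [Field F'] [Algebra R F']
variable {F : Type*} [Field F] [Algebra R F] [Algebra F' F] [IsScalarTower R F' F]

/-- Norm–residue formula, split case with ramification `e` on the second sheet. -/
def NormResSplit (V' : ValuationSubring F') (V₁ V₂ : ValuationSubring F) (e : ℕ) : Prop :=
  ∀ y : F, y ∈ V₁ → y ∈ V₂ → ∀ y₁ y₂ : F',
    y - algebraMap F' F y₁ ∈ V₁.nonunits → y - algebraMap F' F y₂ ∈ V₂.nonunits →
      Algebra.norm F' y - y₁ * y₂ ^ e ∈ V'.nonunits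

/-- Norm–residue formula, purely inseparable case of degree `q`. -/
def NormResInsep (V' : ValuationSubring F') (V : ValuationSubring F) (q : ℕ) : Prop :=
  ∀ y : F, y ∈ V → ∀ y' : F', y ^ q - algebraMap F' F y' ∈ V.nonunits →
    Algebra.norm F' y - y' ∈ V'.nonunits

/-- The residue ring of `B` on the sheet `V` is the residue ring of `A`. -/
def ResLift (A : Subalgebra R F') (B : Subalgebra R F) (V : ValuationSubring F) : Prop :=
  ∀ b : B, ∃ a : A, (b : F) - algebraMap F' F (a : F') ∈ V.nonunits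

/-- The `q`-th powers of the residue ring of `B` on the sheet `V` lie in the residue ring of
`A`. -/
def ResLiftPow (A : Subalgebra R F') (B : Subalgebra R F) (V : ValuationSubring F) (q : ℕ) :
    Prop :=
  ∀ b : B, ∃ a : A, (b : F) ^ q - algebraMap F' F (a : F') ∈ V.nonunits

section Lift

variable {A : Subalgebra R F'} {B : Subalgebra R F}
variable {N₁ : Ideal A} {n : Ideal B}

/-- `x ^ q - y ^ q ∈ (x - y) V`. -/
theorem pow_sub_pow_mem_nonunits (V : ValuationSubring F) {x y : F} (hx : x ∈ V) (hy : y ∈ V)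
    (h : x - y ∈ V.nonunits) (q : ℕ) : x ^ q - y ^ q ∈ V.nonunits := by
  rw [← geom_sum₂_mul]
  exact vnu_mul_left V h
    (V.sum_mem fun i _ => V.mul_mem _ _ (V.pow_mem hx i) (V.pow_mem hy _))

/-- `x ^ q - y ^ q ∈ (x - y) B`. -/
theorem pow_sub_pow_mem_ideal (I : Ideal B) {x y : B} (h : x - y ∈ I) (q : ℕ) :
    x ^ q - y ^ q ∈ I := by
  rw [← geom_sum₂_mul]
  exact I.mul_mem_left _ h

/-- **Lifting the residue to the base, `f = 1`.**  If `d` has the value `η` at `n` along `V`
and the residue ring of `B` on `V` is that of `A`, then `d ≡ y₁` on `V` for some `y₁ ∈ A_{N₁}`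
with value `η` at `N₁`. -/
theorem exists_lift_of_valAt [n.IsPrime]
    (hAB : ∀ a : A, algebraMap F' F (a : F') ∈ B)
    (hNn : ∀ a : A, a ∈ N₁ ↔ (⟨algebraMap F' F (a : F'), hAB a⟩ : B) ∈ n)
    {V : ValuationSubring F} (hBV : ChartLe B V) (hth : PassThrough B n V)
    (hlift : ResLift A B V) {d : F} {η : R} (h : ValAt B n V d η) :
    ∃ (a₁ b₁ : A), b₁ ∉ N₁ ∧ a₁ - algebraMap R A η * b₁ ∈ N₁ ∧
      algebraMap F' F (b₁ : F') * d - algebraMap F' F (a₁ : F') ∈ V.nonunits := by
  have hdV : d ∈ V := h.mem hBV hth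
  obtain ⟨a, b, hb, hV, hn⟩ := h
  obtain ⟨a₁, ha₁⟩ := hlift a
  obtain ⟨b₁, hb₁⟩ := hlift b
  -- the differences as elements of `B`
  have hda : a - (⟨_, hAB a₁⟩ : B) ∈ n := hth _ ha₁
  have hdb : b - (⟨_, hAB b₁⟩ : B) ∈ n := hth _ hb₁
  refine ⟨a₁, b₁, ?_, ?_, ?_⟩
  · intro h1
    apply hb
    have h2 := (hNn b₁).1 h1
    have : b = (b - (⟨_, hAB b₁⟩ : B)) + (⟨_, hAB b₁⟩ : B) := by ring
    rw [this]
    exact n.add_mem hdb h2
  · rw [hNn]
    have h3 : (⟨algebraMap F' F ((a₁ - algebraMap R A η * b₁ : A) : F'), hAB _⟩ : B)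
        = (a - algebraMap R B η * b) - (a - (⟨_, hAB a₁⟩ : B))
          + algebraMap R B η * (b - (⟨_, hAB b₁⟩ : B)) := by
      apply Subtype.ext
      have e1 : ((a₁ - algebraMap R A η * b₁ : A) : F')
          = (a₁ : F') - algebraMap R F' η * (b₁ : F') := rfl
      show algebraMap F' F ((a₁ - algebraMap R A η * b₁ : A) : F') = _
      rw [e1, map_sub, map_mul, ← IsScalarTower.algebraMap_apply]
      show _ = ((a : F) - algebraMap R F η * (b : F)) - ((a : F) - algebraMap F' F (a₁ : F'))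
          + algebraMap R F η * ((b : F) - algebraMap F' F (b₁ : F'))
      ring
    rw [h3]
    exact n.add_mem (n.sub_mem hn hda) (n.mul_mem_left _ hdb)
  · have : algebraMap F' F (b₁ : F') * d - algebraMap F' F (a₁ : F')
        = ((b : F) * d - a) - ((b : F) - algebraMap F' F (b₁ : F')) * d
          + ((a : F) - algebraMap F' F (a₁ : F')) := by ring
    rw [this]
    exact vnu_add V (vnu_sub V hV (vnu_mul_right V hb₁ hdV)) ha₁

/-- **Lifting the residue to the base, purely inseparable case.** -/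
theorem exists_lift_pow_of_valAt [n.IsPrime]
    (hAB : ∀ a : A, algebraMap F' F (a : F') ∈ B)
    (hNn : ∀ a : A, a ∈ N₁ ↔ (⟨algebraMap F' F (a : F'), hAB a⟩ : B) ∈ n)
    {V : ValuationSubring F} (hBV : ChartLe B V) (hth : PassThrough B n V)
    {q : ℕ} (hlift : ResLiftPow A B V q) {d : F} {η : R} (h : ValAt B n V d η) :
    ∃ (a₁ b₁ : A), b₁ ∉ N₁ ∧ a₁ - algebraMap R A (η ^ q) * b₁ ∈ N₁ ∧
      algebraMap F' F (b₁ : F') * d ^ q - algebraMap F' F (a₁ : F') ∈ V.nonunits := by
  have hdV : d ∈ V := h.mem hBV hth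
  obtain ⟨a, b, hb, hV, hn⟩ := h
  obtain ⟨a₁, ha₁⟩ := hlift a
  obtain ⟨b₁, hb₁⟩ := hlift b
  have hda : a ^ q - (⟨_, hAB a₁⟩ : B) ∈ n := hth _ ha₁
  have hdb : b ^ q - (⟨_, hAB b₁⟩ : B) ∈ n := hth _ hb₁
  have hbq : b ^ q ∉ n := fun h1 => hb (Ideal.IsPrime.mem_of_pow_mem ‹n.IsPrime› q h1)
  have hnq : a ^ q - (algebraMap R B η * b) ^ q ∈ n := pow_sub_pow_mem_ideal n hn q
  refine ⟨a₁, b₁, ?_, ?_, ?_⟩
  · intro h1
    apply hbq
    have h2 := (hNn b₁).1 h1
    have : b ^ q = (b ^ q - (⟨_, hAB b₁⟩ : B)) + (⟨_, hAB b₁⟩ : B) := by ring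
    rw [this]
    exact n.add_mem hdb h2
  · rw [hNn]
    have h3 : (⟨algebraMap F' F ((a₁ - algebraMap R A (η ^ q) * b₁ : A) : F'), hAB _⟩ : B)
        = (a ^ q - (algebraMap R B η * b) ^ q) - (a ^ q - (⟨_, hAB a₁⟩ : B))
          + algebraMap R B (η ^ q) * (b ^ q - (⟨_, hAB b₁⟩ : B)) := by
      apply Subtype.ext
      have e1 : ((a₁ - algebraMap R A (η ^ q) * b₁ : A) : F')
          = (a₁ : F') - algebraMap R F' (η ^ q) * (b₁ : F') := rfl
      show algebraMap F' F ((a₁ - algebraMap R A (η ^ q) * b₁ : A) : F') = _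
      rw [e1, map_sub, map_mul, ← IsScalarTower.algebraMap_apply]
      show _ = ((a : F) ^ q - (algebraMap R F η * (b : F)) ^ q)
          - ((a : F) ^ q - algebraMap F' F (a₁ : F'))
          + algebraMap R F (η ^ q) * ((b : F) ^ q - algebraMap F' F (b₁ : F'))
      rw [map_pow]
      ring
    rw [h3]
    exact n.add_mem (n.sub_mem hnq hda) (n.mul_mem_left _ hdb)
  · have hbd : (b : F) * d ∈ V := V.mul_mem _ _ (hBV b) hdV
    have h4 : ((b : F) * d) ^ q - (a : F) ^ q ∈ V.nonunits :=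
      pow_sub_pow_mem_nonunits V hbd (hBV a) hV q
    have : algebraMap F' F (b₁ : F') * d ^ q - algebraMap F' F (a₁ : F')
        = (((b : F) * d) ^ q - (a : F) ^ q) - ((b : F) ^ q - algebraMap F' F (b₁ : F')) * d ^ q
          + ((a : F) ^ q - algebraMap F' F (a₁ : F')) := by ring
    rw [this]
    exact vnu_add V (vnu_sub V h4 (vnu_mul_right V hb₁ (V.pow_mem hdV q))) ha₁

/-- From `b₁ d ≡ a₁` on `V` with `b₁ ∉ N₁`: `d ≡ a₁ / b₁` on `V`. -/
theorem sub_div_mem_nonunits [n.IsPrime]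
    (hAB : ∀ a : A, algebraMap F' F (a : F') ∈ B)
    (hNn : ∀ a : A, a ∈ N₁ ↔ (⟨algebraMap F' F (a : F'), hAB a⟩ : B) ∈ n)
    {V : ValuationSubring F} (hBV : ChartLe B V) (hth : PassThrough B n V)
    {a₁ b₁ : A} (hb₁ : b₁ ∉ N₁) {y : F}
    (h : algebraMap F' F (b₁ : F') * y - algebraMap F' F (a₁ : F') ∈ V.nonunits) :
    y - algebraMap F' F ((a₁ : F') / (b₁ : F')) ∈ V.nonunits := by
  have hbn : (⟨_, hAB b₁⟩ : B) ∉ n := fun h1 => hb₁ ((hNn b₁).2 h1)
  have hbu : algebraMap F' F (b₁ : F') ∉ V.nonunits := fun h1 => hbn (hth ⟨_, hAB b₁⟩ h1)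
  have hbV : algebraMap F' F (b₁ : F') ∈ V := hBV ⟨_, hAB b₁⟩
  have hb0 : algebraMap F' F (b₁ : F') ≠ 0 := by
    intro h0
    apply hbu
    rw [h0]
    exact vnu_zero V
  have : y - algebraMap F' F ((a₁ : F') / (b₁ : F'))
      = (algebraMap F' F (b₁ : F'))⁻¹
        * (algebraMap F' F (b₁ : F') * y - algebraMap F' F (a₁ : F')) := by
    rw [map_div₀]
    field_simp
  rw [this]
  exact vnu_mul_left V h (vnu_inv_mem V hbV hbu)

end Lift

section Norm

variable {A : Subalgebra R F'} {B : Subalgebra R F}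
variable {N₁ : Ideal A} {n : Ideal B}

/-- a quotient `a₁ / b₁` with `b₁ ∉ N₁` has the value of its numerator -/
theorem valAt_div [N₁.IsPrime] {V' : ValuationSubring F'} {a₁ b₁ : A} (hb₁ : b₁ ∉ N₁) {η : R}
    (hη : a₁ - algebraMap R A η * b₁ ∈ N₁) : ValAt A N₁ V' ((a₁ : F') / (b₁ : F')) η := by
  have hb0 : (b₁ : F') ≠ 0 := by
    intro h0
    apply hb₁
    have : b₁ = 0 := Subtype.ext h0
    rw [this]
    exact N₁.zero_mem
  exact ValAt.of_frac hb₁ (mul_div_cancel₀ _ hb0) hη

/-- **LAB-NORM, split side.** -/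
theorem valAt_norm_split [n.IsPrime] [N₁.IsPrime]
    (hAB : ∀ a : A, algebraMap F' F (a : F') ∈ B)
    (hNn : ∀ a : A, a ∈ N₁ ↔ (⟨algebraMap F' F (a : F'), hAB a⟩ : B) ∈ n)
    {V' : ValuationSubring F'} (hAV' : ChartLe A V') (hth' : PassThrough A N₁ V')
    {V₁ V₂ : ValuationSubring F} (hBV₁ : ChartLe B V₁) (hth₁ : PassThrough B n V₁)
    (hBV₂ : ChartLe B V₂) (hth₂ : PassThrough B n V₂)
    (hlift₁ : ResLift A B V₁) (hlift₂ : ResLift A B V₂)
    {e : ℕ} (hNR : NormResSplit V' V₁ V₂ e)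
    {d : F} {η₁ η₂ : R} (h₁ : ValAt B n V₁ d η₁) (h₂ : ValAt B n V₂ d η₂) :
    ValAt A N₁ V' (Algebra.norm F' d) (η₁ * η₂ ^ e) := by
  obtain ⟨a₁, b₁, hb₁, hη₁, hd₁⟩ := exists_lift_of_valAt hAB hNn hBV₁ hth₁ hlift₁ h₁
  obtain ⟨a₂, b₂, hb₂, hη₂, hd₂⟩ := exists_lift_of_valAt hAB hNn hBV₂ hth₂ hlift₂ h₂
  have hy₁ := sub_div_mem_nonunits hAB hNn hBV₁ hth₁ hb₁ hd₁
  have hy₂ := sub_div_mem_nonunits hAB hNn hBV₂ hth₂ hb₂ hd₂
  have hN := hNR d (h₁.mem hBV₁ hth₁) (h₂.mem hBV₂ hth₂) _ _ hy₁ hy₂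
  have hv₁ : ValAt A N₁ V' ((a₁ : F') / (b₁ : F')) η₁ := valAt_div hb₁ hη₁
  have hv₂ : ValAt A N₁ V' ((a₂ : F') / (b₂ : F')) η₂ := valAt_div hb₂ hη₂
  have hv : ValAt A N₁ V' ((a₁ : F') / (b₁ : F') * ((a₂ : F') / (b₂ : F')) ^ e) (η₁ * η₂ ^ e) :=
    hv₁.mul hAV' hth' (hv₂.pow hAV' hth' e)
  refine hv.congr hAV' ?_
  have : (a₁ : F') / (b₁ : F') * ((a₂ : F') / (b₂ : F')) ^ e - Algebra.norm F' d
      = -(Algebra.norm F' d - (a₁ : F') / (b₁ : F') * ((a₂ : F') / (b₂ : F')) ^ e) := by ring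
  rw [this]
  exact vnu_neg V' hN

/-- **LAB-NORM, purely inseparable side.** -/
theorem valAt_norm_insep [n.IsPrime] [N₁.IsPrime]
    (hAB : ∀ a : A, algebraMap F' F (a : F') ∈ B)
    (hNn : ∀ a : A, a ∈ N₁ ↔ (⟨algebraMap F' F (a : F'), hAB a⟩ : B) ∈ n)
    {V' : ValuationSubring F'} (hAV' : ChartLe A V')
    {V : ValuationSubring F} (hBV : ChartLe B V) (hth : PassThrough B n V)
    {q : ℕ} (hlift : ResLiftPow A B V q) (hNR : NormResInsep V' V q)
    {d : F} {η : R} (h : ValAt B n V d η) :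
    ValAt A N₁ V' (Algebra.norm F' d) (η ^ q) := by
  obtain ⟨a₁, b₁, hb₁, hη₁, hd₁⟩ := exists_lift_pow_of_valAt hAB hNn hBV hth hlift h
  have hy := sub_div_mem_nonunits hAB hNn hBV hth hb₁ hd₁
  have hN := hNR d (h.mem hBV hth) _ hy
  have hv : ValAt A N₁ V' ((a₁ : F') / (b₁ : F')) (η ^ q) := valAt_div hb₁ hη₁
  refine hv.congr hAV' ?_
  have : (a₁ : F') / (b₁ : F') - Algebra.norm F' d
      = -(Algebra.norm F' d - (a₁ : F') / (b₁ : F')) := by ring
  rw [this]
  exact vnu_neg V' hN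

end Norm

end Fermat.Agent.S36.H630

end
-- ===== PACK-END S36/H630/LabNorm.lean

-- ===== PACK-BEGIN S35/H909/CubicAbs.lean
section



/-!
# S35 / cell FROB, leaf QNF, part Q0 (abstract): a cubic Kummer identity gives a cubic relation on
`Pic0` (helper909)

Prelude language, any `K`, `F`.  `x = [D]`, `m D = div f`, `g` a semilinear automorphism with
ring automorphism `τ`.  If

  `τ³ f · (τ f) ^ (1 + 2Q) = h ^ m · (τ² f) ^ (2 + Q) · f ^ Q`

then `g³ x + (1 + 2Q) g x = (2 + Q) g² x + Q x`, i.e. `(g - Q)(g - 1)² x = 0`.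
-/

set_option autoImplicit false

namespace Fermat.Agent.S35.H909

open AlgebraicCurve

variable {K F : Type*} [Field K] [Field F] [Algebra K F]

/-- **Q0, abstract form.** -/
theorem cubic_of_kummer (g : SemilinearAut K F) (m : ℕ) (hm : m ≠ 0) (Q : ℕ)
    (D : Divisor.degZero (K := K) (F := F)) {f : F} (hf : f ≠ 0)
    (hfD : ∀ v : Place K F, v.ord f = (m : ℤ) * (D : Divisor K F) v)
    {h : F} (hh : h ≠ 0)
    (hid : SemilinearAut.toRingAut g (SemilinearAut.toRingAut g (SemilinearAut.toRingAut g f)) *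
        (SemilinearAut.toRingAut g f) ^ (1 + 2 * Q) =
      h ^ m * (SemilinearAut.toRingAut g (SemilinearAut.toRingAut g f)) ^ (2 + Q) * f ^ Q) :
    g • g • g • Pic0.mk D + (1 + 2 * Q) • (g • Pic0.mk D) =
      (2 + Q) • (g • g • Pic0.mk D) + Q • Pic0.mk D := by
  set τ := SemilinearAut.toRingAut g with hτ
  set G := SemilinearAut.degZeroSMulHom (K := K) (F := F) g with hG
  have hτ1 : τ f ≠ 0 := by simpa using hf
  have hτ2 : τ (τ f) ≠ 0 := by simpa using hf
  have hτ3 : τ (τ (τ f)) ≠ 0 := by simpa using hf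
  -- the divisor `E = (g - Q)(g - 1)² D`
  set E : Divisor.degZero (K := K) (F := F) :=
    G (G (G D)) + (1 + 2 * Q) • G D - ((2 + Q) • G (G D) + Q • D) with hE
  have hgoal : g • g • g • Pic0.mk D + (1 + 2 * Q) • (g • Pic0.mk D)
      - ((2 + Q) • (g • g • Pic0.mk D) + Q • Pic0.mk D) = Pic0.mk E := by
    rw [SemilinearAut.pic0_smul_mk, SemilinearAut.pic0_smul_mk, SemilinearAut.pic0_smul_mk]
    rfl
  rw [← sub_eq_zero, hgoal]
  refine (QuotientAddGroup.eq_zero_iff E).2 ?_
  rw [AddSubgroup.mem_addSubgroupOf]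
  refine ⟨h, hh, fun w => ?_⟩
  have hEw : (E : Divisor K F) w =
      (D : Divisor K F) (g⁻¹ • (g⁻¹ • (g⁻¹ • w))) + ((1 + 2 * Q : ℕ) : ℤ) *
          (D : Divisor K F) (g⁻¹ • w)
        - (((2 + Q : ℕ) : ℤ) * (D : Divisor K F) (g⁻¹ • (g⁻¹ • w)) +
            (Q : ℤ) * (D : Divisor K F) w) := by
    simp only [hE, hG, AddSubgroupClass.coe_sub, AddSubgroup.coe_add, AddSubgroup.coe_nsmul,
      SemilinearAut.coe_degZeroSMulHom, Finsupp.sub_apply, Finsupp.add_apply,
      Finsupp.smul_apply, SemilinearAut.divisor_smul_apply, nsmul_eq_mul]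
  have e1 : ∀ (k : F) (v : Place K F), v.ord (τ k) = (g⁻¹ • v).ord k := fun k v => by
    rw [hτ]; exact Fermat.Agent.A2.H129.ord_smul_eq g v k
  have hL : w.ord (τ (τ (τ f)) * (τ f) ^ (1 + 2 * Q)) =
      (g⁻¹ • (g⁻¹ • (g⁻¹ • w))).ord f + ((1 + 2 * Q : ℕ) : ℤ) * (g⁻¹ • w).ord f := by
    rw [w.ord_mul hτ3 (pow_ne_zero _ hτ1), Fermat.Agent.A2.H129.ord_pow, e1, e1, e1, e1]
  have hR : w.ord (h ^ m * (τ (τ f)) ^ (2 + Q) * f ^ Q) =
      (m : ℤ) * w.ord h + ((2 + Q : ℕ) : ℤ) * (g⁻¹ • (g⁻¹ • w)).ord f + (Q : ℤ) * w.ord f := by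
    rw [w.ord_mul (mul_ne_zero (pow_ne_zero _ hh) (pow_ne_zero _ hτ2)) (pow_ne_zero _ hf),
      w.ord_mul (pow_ne_zero _ hh) (pow_ne_zero _ hτ2), Fermat.Agent.A2.H129.ord_pow,
      Fermat.Agent.A2.H129.ord_pow, Fermat.Agent.A2.H129.ord_pow, e1, e1]
  have hmE : (m : ℤ) * (E : Divisor K F) w = (m : ℤ) * w.ord h := by
    have h3 := hL
    rw [hid, hR, hfD, hfD, hfD, hfD] at h3
    rw [hEw]
    linear_combination (-1 : ℤ) * h3
  have hm' : (m : ℤ) ≠ 0 := by exact_mod_cast hm
  exact mul_left_cancel₀ hm' hmE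

end Fermat.Agent.S35.H909

end
-- ===== PACK-END S35/H909/CubicAbs.lean

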