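import Mathlib
import Fermat.Prelude.Def_AlgebraicCurve_IsCurveOver
import Fermat.Prelude.Def_AlgebraicCurve_DivisorClassGroup
import Fermat.Prelude.Def_CuspForm_HeckeAlgebra
import Fermat.Prelude.Def_ModularCurve_PeriodHomPair
import Fermat.Agent.Pack.S43MC.G0E8L2
import Fermat.Agent.Pack.S43MC.G0E0L1
import Fermat.Agent.Pack.S43MC.G0E0L0
import Fermat.Agent.Pack.S43MC.G0E5L0
import Fermat.Agent.Pack.S43MC.G0E5L2
import Fermat.Agent.Pack.S43MC.G0E8L3
import Fermat.Agent.Pack.S43MC.G0E6L1
import Fermat.Agent.Pack.S43MC.G0E1L1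
import Fermat.Agent.Pack.S44C.G0E11L3
import Fermat.Agent.Pack.S43MC.G0E9L0
import Fermat.Agent.Pack.S43MC.G0E9L1
import Fermat.Agent.Pack.S44C.G0E1L2
import Fermat.Agent.Pack.S43MC.G0E9L3
import Fermat.Agent.Pack.S44C.G1E0L0
import Fermat.Agent.Pack.S43MC.G0E2L1
import Fermat.Agent.Pack.S44C.G0E10L2
import Fermat.Agent.Pack.S44C.G0E7L0
import Fermat.Agent.Pack.S43GC.G0E4L1
import Fermat.Agent.Pack.S44C.G0E0L3
import Fermat.Agent.Pack.S44C.G0E12L2
import Fermat.Agent.Pack.Fast891

-- ===== PACK-BEGIN S25/H505/GlueTwo.lean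
section
/-
S25, block DICT-GLUE (helper505): two-chart gluing of modules as a fibre product
`P₀ ×_{P₀₁} P₁`: sections of the fibre product, and the criterion for the restriction of a
module along an open immersion to be isomorphic to a given module.
-/




open CategoryTheory AlgebraicGeometry Opposite TopologicalSpace Limits

universe u

namespace Fermat.Agent.S25.H505

noncomputable section

variable {X : Scheme.{u}}

section Pullback

variable {P₀ P₁ P₀₁ : X.Modules} (σ₀ : P₀ ⟶ P₀₁) (σ₁ : P₁ ⟶ P₀₁)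

theorem isPullback_sections (W : X.Opens) :
    IsPullback ((H326.secFunctor W).map (pullback.fst σ₀ σ₁))
      ((H326.secFunctor W).map (pullback.snd σ₀ σ₁))
      ((H326.secFunctor W).map σ₀) ((H326.secFunctor W).map σ₁) := by
  have : PreservesLimitsOfSize.{0, 0} (H326.secFunctor (X := X) W) :=
    preservesLimitsOfSize_shrink.{0, u, 0, u} _
  exact (IsPullback.of_hasPullback σ₀ σ₁).map (H326.secFunctor W)

theorem pullback_sections_ext (W : X.Opens) (x y : Γ(pullback σ₀ σ₁, W))
    (h₀ : (pullback.fst σ₀ σ₁).app W x = (pullback.fst σ₀ σ₁).app W y)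
    (h₁ : (pullback.snd σ₀ σ₁).app W x = (pullback.snd σ₀ σ₁).app W y) : x = y :=
  Limits.Types.ext_of_isPullback (isPullback_sections σ₀ σ₁ W) h₀ h₁

theorem pullback_sections_exists (W : X.Opens) (s₀ : Γ(P₀, W)) (s₁ : Γ(P₁, W))
    (h : σ₀.app W s₀ = σ₁.app W s₁) :
    ∃ x : Γ(pullback σ₀ σ₁, W),
      (pullback.fst σ₀ σ₁).app W x = s₀ ∧ (pullback.snd σ₀ σ₁).app W x = s₁ :=
  Limits.Types.exists_of_isPullback (isPullback_sections σ₀ σ₁ W) s₀ s₁ h

theorem pullback_condition_apply (W : X.Opens) (x : Γ(pullback σ₀ σ₁, W)) :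
    σ₀.app W ((pullback.fst σ₀ σ₁).app W x) = σ₁.app W ((pullback.snd σ₀ σ₁).app W x) := by
  have h := pullback.condition (f := σ₀) (g := σ₁)
  exact congr((Scheme.Modules.Hom.app $h W) x)

theorem pullback_fst_app_bijective (W : X.Opens) (h : Function.Bijective (σ₁.app W)) :
    Function.Bijective ((pullback.fst σ₀ σ₁).app W) := by
  refine ⟨fun x y hxy => pullback_sections_ext σ₀ σ₁ W x y hxy (h.1 ?_), fun s₀ => ?_⟩
  · rw [← pullback_condition_apply, ← pullback_condition_apply, hxy]
  · obtain ⟨s₁, hs₁⟩ := h.2 (σ₀.app W s₀)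
    obtain ⟨x, hx, -⟩ := pullback_sections_exists σ₀ σ₁ W s₀ s₁ hs₁.symm
    exact ⟨x, hx⟩

theorem pullback_snd_app_bijective (W : X.Opens) (h : Function.Bijective (σ₀.app W)) :
    Function.Bijective ((pullback.snd σ₀ σ₁).app W) := by
  refine ⟨fun x y hxy => pullback_sections_ext σ₀ σ₁ W x y (h.1 ?_) hxy, fun s₁ => ?_⟩
  · rw [pullback_condition_apply, pullback_condition_apply, hxy]
  · obtain ⟨s₀, hs₀⟩ := h.2 (σ₁.app W s₁)
    obtain ⟨x, -, hx⟩ := pullback_sections_exists σ₀ σ₁ W s₀ s₁ hs₀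
    exact ⟨x, hx⟩

end Pullback

section Restrict

variable {Y : Scheme.{u}} (j : Y ⟶ X) [IsOpenImmersion j] {L : X.Modules} {T : Y.Modules}
  (p : L ⟶ (Scheme.Modules.pushforward j).obj T)

/-- If `p : L ⟶ j_* T` is bijective on sections over the opens contained in the range of the
open immersion `j`, then its adjoint `L|_Y ⟶ T` is an isomorphism. -/
theorem isIso_restrict_of_bijective (hp : ∀ U : Y.Opens, Function.Bijective (p.app (j ''ᵁ U))) :
    IsIso ((Scheme.Modules.restrictFunctor j).map p ≫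
      (Scheme.Modules.restrictAdjunction j).counit.app T) := by
  rw [Scheme.Modules.Hom.isIso_iff_isIso_app]
  intro U
  rw [Scheme.Modules.Hom.comp_app]
  have h1 : IsIso (((Scheme.Modules.restrictFunctor j).map p).app U) := by
    rw [ConcreteCategory.isIso_iff_bijective]
    exact hp U
  infer_instance

theorem nonempty_pullback_iso_of_bijective
    (hp : ∀ U : Y.Opens, Function.Bijective (p.app (j ''ᵁ U))) :
    Nonempty ((Scheme.Modules.pullback j).obj L ≅ T) := by
  have := isIso_restrict_of_bijective j p hp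
  exact ⟨(Scheme.Modules.restrictFunctorIsoPullback j).symm.app L ≪≫
    asIso ((Scheme.Modules.restrictFunctor j).map p ≫
      (Scheme.Modules.restrictAdjunction j).counit.app T)⟩

end Restrict

/-- Invertibility is local, pointwise form with arbitrary open immersions. -/
theorem isInvertible_of_forall_exists (M : X.Modules)
    (h : ∀ x : X, ∃ (U : Scheme.{u}) (j : U ⟶ X) (_ : IsOpenImmersion j),
      x ∈ Set.range j ∧ Scheme.Modules.IsInvertible ((Scheme.Modules.pullback j).obj M)) :
    Scheme.Modules.IsInvertible M := by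
  choose U j hj hx hM using h
  exact H206.isInvertible_of_openImmersion_cover M U j (fun x => ⟨x, hx x⟩) hM

end

end Fermat.Agent.S25.H505

end
-- ===== PACK-END S25/H505/GlueTwo.lean

-- ===== PACK-BEGIN S25/H250/DegreeD1.lean
section
/-
S25, block DEGREE (squad S25/S10), leaf D1 (helper250): finiteness of Cech cohomology of a
gluing datum on a curve chart.  Exact statements of `H10/DegreeSkel.lean`.

* `finite_H1` : `Ȟ¹(G)` is a finite module over any base ring (E1/K2a + adapter);
* `finite_H0` : `Ȟ⁰(G)` is finite-dimensional over a field (K1a + adapter).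
-/





set_option autoImplicit false
set_option linter.style.haveILetI false
set_option linter.unusedSectionVars false

universe u

open scoped TensorProduct

namespace Fermat.Agent.S25.H250

open Fermat.Agent.S25 Fermat.Agent.S25.H10

variable {k : Type u} [Field k] {B₀ B₁ B₀₁ : Type u} [CommRing B₀] [CommRing B₁] [CommRing B₀₁]
  [Algebra k B₀] [Algebra k B₁] [Algebra k B₀₁] [Algebra B₀ B₀₁] [Algebra B₁ B₀₁]
  [IsScalarTower k B₀ B₀₁] [IsScalarTower k B₁ B₀₁]
  {x : B₀} {y : B₁} {e : B₁ →ₐ[k] k}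

/-- D1-a. `Ȟ¹` is a finite module over any base ring (E1 + adapter). -/
theorem finite_H1 (hC : IsCurveChart k B₀ B₁ B₀₁ x y e) {A : Type u} [CommRing A]
    [Algebra k A] (G : CurveGD k B₀ B₁ B₀₁ A) : Module.Finite A G.H1 := by
  have h := H790.H1_finite (chartCechOps hC G) (H10.isFG_of_isFGProj (isFGProj_X0 hC G)) 0
  have hd := chartCechOps_d_zero hC G
  show Module.Finite A (G.N₀₁ ⧸ LinearMap.range G.cech)
  rw [← hd]
  exact h

/-- `Ȟ⁰` lies in a finitely generated submodule, over any base ring. -/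
theorem exists_fg_ge_H0_curve (hC : IsCurveChart k B₀ B₁ B₀₁ x y e) {A : Type u} [CommRing A]
    [Algebra k A] (G : CurveGD k B₀ B₁ B₀₁ A) :
    ∃ M : Submodule A (G.N₀ × G.N₁), M.FG ∧ G.H0 ≤ M := by
  obtain ⟨M, hM, hle⟩ := exists_fg_ge_H0 (chartCechOps hC G) (isFGProj_X0 hC G)
    (isFGProj_Y1 hC G) (r0_injective hC G) (r1_injective hC G) 0
  refine ⟨M, hM, ?_⟩
  rw [← chartCechOps_H0_zero hC G]
  exact hle

/-- D1-b. `Ȟ⁰` is finite-dimensional over a field (K1a + adapter). -/
theorem finite_H0 (hC : IsCurveChart k B₀ B₁ B₀₁ x y e) {K : Type u} [Field K]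
    [Algebra k K] (G : CurveGD k B₀ B₁ B₀₁ K) : Module.Finite K G.H0 := by
  obtain ⟨M, hM, hle⟩ := exists_fg_ge_H0_curve hC G
  haveI : Module.Finite K M := Module.Finite.iff_fg.2 hM
  exact Module.Finite.of_injective (Submodule.inclusion hle) (Submodule.inclusion_injective hle)

/-- `Ȟ¹` is finite-dimensional over a field. -/
theorem finite_H1_field (hC : IsCurveChart k B₀ B₁ B₀₁ x y e) {K : Type u} [Field K]
    [Algebra k K] (G : CurveGD k B₀ B₁ B₀₁ K) : Module.Finite K G.H1 :=
  _root_.Fermat.Agent.S25.H250.finite_H1 hC G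

end Fermat.Agent.S25.H250

end
-- ===== PACK-END S25/H250/DegreeD1.lean

-- ===== PACK-BEGIN S25/H910/EulerRank.lean
section
/-
S25, block DEGREE (helper910): the fibrewise Euler characteristic of a two-chart Čech datum
over an arbitrary ring `A` is the difference of the ranks of two finitely generated projective
`A`-modules.  Consequences: it depends only on the prime `ker (A → K)` (invariance under field
extension, blueprint D2) and it is locally constant on `Spec A` (blueprint D9).
-/


set_option autoImplicit false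

namespace Fermat.Agent.S25.H910

open Polynomial TensorProduct Fermat.Agent.S25.H10 Module

universe u v w

variable {A : Type u} [CommRing A] {N0 N1 N01 : Type v}
  [AddCommGroup N0] [AddCommGroup N1] [AddCommGroup N01]
  [Module A N0] [Module A N1] [Module A N01]

/-- **Finite model, base-change part, for a fixed twist `m` and any universe.**  If `d m` is
surjective, then after every base change `A → A'` the kernel and cokernel of `A' ⊗ δ m` are those
of `A' ⊗ d 0`. -/
theorem finite_model_baseChange (D : CechOps A N0 N1 N01)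
    (h0 : IsFGProj D.X0) (h1 : IsFGProj D.Y1) (hr0 : Function.Injective D.r0) (m : ℕ)
    (hsurj : Function.Surjective (D.d m)) (A' : Type w) [CommRing A'] [Algebra A A'] :
    Nonempty (LinearMap.ker ((D.δ m).baseChange A') ≃ₗ[A']
        LinearMap.ker ((D.d 0).baseChange A')) ∧
      Nonempty (((A' ⊗[A] (N1 ⧸ LinearMap.range (D.Y1 ^ m))) ⧸
          LinearMap.range ((D.δ m).baseChange A')) ≃ₗ[A']
        ((A' ⊗[A] N01) ⧸ LinearMap.range ((D.d 0).baseChange A'))) := by
  have h1' : IsFGProj (D.baseChange A').Y1 := H670.isFGProj_baseChange A' h1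
  have hY' : Function.Injective (D.baseChange A').Y1 := H130.injective_of_isFGProj h1'
  have hsurj' := d_baseChange_surjective A' D m hsurj
  have hα := alphaMap_bijective A' D h0 hr0 m hsurj
  have hγ := gammaMap_bijective A' D m
  have hcomm := gammaMap_δ_alphaMap A' D m
  let αe := LinearEquiv.ofBijective (alphaMap A' D m) hα
  let γe := LinearEquiv.ofBijective (gammaMap A' D m) hγ
  constructor
  · have hk : LinearMap.ker ((D.δ m).baseChange A') =
        Submodule.comap αe.toLinearMap (LinearMap.ker ((D.baseChange A').δ m)) := by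
      rw [← hcomm]
      ext z
      simp only [LinearMap.mem_ker, Submodule.mem_comap, LinearMap.comp_apply]
      constructor
      · intro hz
        exact hγ.1 (hz.trans (map_zero _).symm)
      · intro hz
        have hz' : (D.baseChange A').δ m (alphaMap A' D m z) = 0 := hz
        rw [hz', map_zero]
    obtain ⟨e1⟩ := nonempty_ker_δ_equiv (D.baseChange A') hY' m
    obtain ⟨e2⟩ := nonempty_H0_baseChange_equiv A' D 0
    exact ⟨(((LinearEquiv.ofEq _ _ hk).trans (LinearEquiv.ofSubmodule' αe _)).trans e1).trans e2⟩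
  · have hr : Submodule.map γe.toLinearMap (LinearMap.range ((D.baseChange A').δ m)) =
        LinearMap.range ((D.δ m).baseChange A') := by
      rw [← hcomm, LinearMap.range_comp, LinearMap.range_comp]
      have : LinearMap.range (alphaMap A' D m) = ⊤ := LinearMap.range_eq_top.mpr hα.2
      rw [this, Submodule.map_top]
      rfl
    obtain ⟨e1⟩ := nonempty_coker_δ_equiv (D.baseChange A') m hsurj'
    obtain ⟨e2⟩ := nonempty_H1_baseChange_equiv A' D 0
    exact ⟨((Submodule.Quotient.equiv _ _ γe hr).symm.trans e1).trans e2⟩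

/-- The candidate Euler characteristic function on `Spec A`: `rank H⁰(L(m∞)) - rank N1/y^m N1`. -/
noncomputable def eulerFun (D : CechOps A N0 N1 N01) (m : ℕ) : PrimeSpectrum A → ℤ := fun q =>
  (rankAtStalk (D.H0 m) q : ℤ) - (rankAtStalk (N1 ⧸ LinearMap.range (D.Y1 ^ m)) q : ℤ)

/-- **D9 (core).** The Euler characteristic function is locally constant on `Spec A`. -/
theorem isLocallyConstant_eulerFun (D : CechOps A N0 N1 N01)
    (h0 : IsFGProj D.X0) (h1 : IsFGProj D.Y1)
    (hr0 : Function.Injective D.r0) (hr1 : Function.Injective D.r1) (m : ℕ)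
    (hsurj : Function.Surjective (D.d m)) : IsLocallyConstant (eulerFun D m) := by
  obtain ⟨-, hfin, hproj⟩ := H0_finite_projective_of_surjective D h0 h1 hr0 hr1 m hsurj
  obtain ⟨hqf, hqp⟩ := H130.quotient_pow_finite_projective h1 m
  have hfp1 : Module.FinitePresentation A (D.H0 m) := Module.finitePresentation_of_projective _ _
  have hfp2 : Module.FinitePresentation A (N1 ⧸ LinearMap.range (D.Y1 ^ m)) :=
    Module.finitePresentation_of_projective _ _
  have hP : IsLocallyConstant (rankAtStalk (R := A) (D.H0 m)) := isLocallyConstant_rankAtStalk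
  have hQ : IsLocallyConstant (rankAtStalk (R := A) (N1 ⧸ LinearMap.range (D.Y1 ^ m))) :=
    isLocallyConstant_rankAtStalk
  intro s
  have hP' := hP.prodMk hQ
  have := hP' ((fun pq : ℕ × ℕ => ((pq.1 : ℤ) - (pq.2 : ℤ))) ⁻¹' s)
  exact this

/-- **D2 + D9 (core).** For every field `K` over `A` (any universe), `K ⊗ H⁰` and `K ⊗ H¹` of the
Čech complex are finite-dimensional and the Euler characteristic `dim H⁰ - dim H¹` is the value of
`eulerFun` at the prime `ker (A → K)`. -/
theorem euler_field (D : CechOps A N0 N1 N01)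
    (h0 : IsFGProj D.X0) (h1 : IsFGProj D.Y1)
    (hr0 : Function.Injective D.r0) (hr1 : Function.Injective D.r1) (m : ℕ)
    (hsurj : Function.Surjective (D.d m)) (K : Type w) [Field K] [Algebra A K] :
    Module.Finite K (LinearMap.ker ((D.d 0).baseChange K)) ∧
      Module.Finite K ((K ⊗[A] N01) ⧸ LinearMap.range ((D.d 0).baseChange K)) ∧
      (finrank K (LinearMap.ker ((D.d 0).baseChange K)) : ℤ) -
          (finrank K ((K ⊗[A] N01) ⧸ LinearMap.range ((D.d 0).baseChange K)) : ℤ) =
        eulerFun D m (PrimeSpectrum.comap (algebraMap A K) ⟨⊥, Ideal.isPrime_bot⟩) := by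
  obtain ⟨-, hfin, hproj⟩ := H0_finite_projective_of_surjective D h0 h1 hr0 hr1 m hsurj
  obtain ⟨hqf, hqp⟩ := H130.quotient_pow_finite_projective h1 m
  obtain ⟨⟨e1⟩, ⟨e2⟩⟩ := finite_model_baseChange D h0 h1 hr0 m hsurj K
  have hf1 : Module.Finite K (LinearMap.ker ((D.d 0).baseChange K)) := Module.Finite.equiv e1
  have hf2 : Module.Finite K ((K ⊗[A] N01) ⧸ LinearMap.range ((D.d 0).baseChange K)) :=
    Module.Finite.equiv e2
  refine ⟨hf1, hf2, ?_⟩
  have hrn := LinearMap.finrank_range_add_finrank_ker ((D.δ m).baseChange K)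
  have hq := Submodule.finrank_quotient_add_finrank (LinearMap.range ((D.δ m).baseChange K))
  have hP : finrank K (K ⊗[A] (D.H0 m)) = rankAtStalk (D.H0 m)
      (PrimeSpectrum.comap (algebraMap A K) ⟨⊥, Ideal.isPrime_bot⟩) := by
    rw [← rankAtStalk_baseChange, rankAtStalk_eq_finrank_of_free]
    rfl
  have hQ : finrank K (K ⊗[A] (N1 ⧸ LinearMap.range (D.Y1 ^ m))) =
      rankAtStalk (N1 ⧸ LinearMap.range (D.Y1 ^ m))
        (PrimeSpectrum.comap (algebraMap A K) ⟨⊥, Ideal.isPrime_bot⟩) := by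
    rw [← rankAtStalk_baseChange, rankAtStalk_eq_finrank_of_free]
    rfl
  rw [← e1.finrank_eq, ← e2.finrank_eq, eulerFun, ← hP, ← hQ]
  omega

/-- **D2 + D9, existential packaging.**  There is a locally constant function `χ` on `Spec A`
computing the Euler characteristic of every fibre. -/
theorem exists_euler_locallyConstant (D : CechOps A N0 N1 N01)
    (h0 : IsFGProj D.X0) (h1 : IsFGProj D.Y1)
    (hr0 : Function.Injective D.r0) (hr1 : Function.Injective D.r1) :
    ∃ m : ℕ, Function.Surjective (D.d m) ∧ IsLocallyConstant (eulerFun D m) := by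
  obtain ⟨m0, hm0⟩ := H550.exists_forall_d_surjective D (H130.isFG_of_isFGProj h0)
  exact ⟨m0, hm0 m0 le_rfl, isLocallyConstant_eulerFun D h0 h1 hr0 hr1 m0 (hm0 m0 le_rfl)⟩

end Fermat.Agent.S25.H910

end
-- ===== PACK-END S25/H910/EulerRank.lean

-- ===== PACK-BEGIN S25/H611/ACHilbCore.lean
section




/-!
# From the cokernel of a section to the Hilbert point (helper611, S25/ALGCHARTS, ST3 core, part C)

Let `R` be an `A`-algebra, `M` an invertible `R`-module and `s : M` such that `M ⧸ R s` is a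
finite projective `A`-module.  Then `R ⧸ I'`, `I' = (R s : M)` the colon ideal, is a finite
projective `A`-module with the same local ranks as `M ⧸ R s`, and `I' • M = R s`.
-/

namespace Fermat.Agent.S25.H611

open scoped TensorProduct

section HilbCore

variable (A : Type*) {R : Type*} [CommRing A] [CommRing R] [Algebra A R]
  {M : Type*} [AddCommGroup M] [Module R M] [Module A M] [IsScalarTower A R M]
  [Module.Invertible R M]

/-- `R ⧸ (R s : M)` is a retract of a finite power of `M ⧸ R s`. -/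
theorem exists_retract_quotient_colonIdeal (s : M) :
    ∃ (ι : Type) (_ : Fintype ι)
      (σ : (R ⧸ colonIdeal (R := R) s) →ₗ[R] (ι → M ⧸ Submodule.span R {s}))
      (π : (ι → M ⧸ Submodule.span R {s}) →ₗ[R] (R ⧸ colonIdeal (R := R) s)),
      π ∘ₗ σ = LinearMap.id := by
  classical
  obtain ⟨S, hS⟩ := exists_dual_sum_eq_one (R := R) (M := M)
  let N : Submodule R M := Submodule.span R {s}
  let I' : Ideal R := colonIdeal (R := R) s
  -- the finite index type: `Fin n` via an enumeration of `S`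
  let ι := Fin S.card
  let en : ι ≃ S := (S.equivFin).symm
  let f : ι → Module.Dual R M := fun i => (en i).1.1
  let m : ι → M := fun i => (en i).1.2
  have hsum : ∑ i, f i (m i) = 1 := by
    rw [← hS]
    rw [← Finset.sum_coe_sort S (fun i => i.1 i.2)]
    exact Fintype.sum_equiv en _ _ (fun i => rfl)
  -- `σ`
  let σ₀ : R →ₗ[R] (ι → M ⧸ N) :=
    LinearMap.pi fun i => N.mkQ ∘ₗ LinearMap.toSpanSingleton R M (m i)
  have hσ₀ : I' ≤ LinearMap.ker σ₀ := by
    intro r hr
    rw [LinearMap.mem_ker]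
    ext i
    simp only [σ₀, LinearMap.pi_apply, LinearMap.comp_apply, LinearMap.toSpanSingleton_apply,
      Pi.zero_apply, Submodule.mkQ_apply, Submodule.Quotient.mk_eq_zero]
    exact hr (m i)
  let σ : (R ⧸ I') →ₗ[R] (ι → M ⧸ N) := Submodule.liftQ I' σ₀ hσ₀
  -- `π`
  have hπ : ∀ i, N ≤ LinearMap.ker ((Submodule.mkQ I') ∘ₗ (f i)) := by
    intro i
    rw [Submodule.span_le]
    intro z hz
    rw [Set.mem_singleton_iff.mp hz, SetLike.mem_coe, LinearMap.mem_ker, LinearMap.comp_apply,
      Submodule.mkQ_apply, Submodule.Quotient.mk_eq_zero]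
    exact dual_apply_mem_colonIdeal (f i) s
  let π : (ι → M ⧸ N) →ₗ[R] (R ⧸ I') :=
    ∑ i, (Submodule.liftQ N ((Submodule.mkQ I') ∘ₗ (f i)) (hπ i)) ∘ₗ LinearMap.proj i
  refine ⟨ι, inferInstance, σ, π, ?_⟩
  apply LinearMap.ext
  intro t
  obtain ⟨r, rfl⟩ := Submodule.mkQ_surjective I' t
  simp only [LinearMap.comp_apply, LinearMap.id_apply, π, σ, LinearMap.sum_apply,
    LinearMap.proj_apply, Submodule.mkQ_apply, Submodule.liftQ_apply, σ₀, LinearMap.pi_apply,
    LinearMap.toSpanSingleton_apply]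
  have h1 : ∑ i, f i (r • m i) = r := by
    simp only [map_smul, smul_eq_mul]
    rw [← Finset.mul_sum, hsum, mul_one]
  have h2 := map_sum (Submodule.mkQ I') (fun i => f i (r • m i)) Finset.univ
  simp only [Submodule.mkQ_apply] at h2
  rw [← h2, h1]

/-- A finite power of a projective module is projective. -/
theorem projective_pi_of_fintype (ι : Type*) [Fintype ι] (Q : Type*) [AddCommGroup Q]
    [Module A Q] [Module.Projective A Q] : Module.Projective A (ι → Q) := by
  classical
  exact Module.Projective.of_equiv (DFinsupp.linearEquivFunOnFintype (R := A) (M := fun _ : ι => Q))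

/-- If `M ⧸ R s` is finite projective over `A`, so is `R ⧸ (R s : M)`. -/
theorem quotient_colonIdeal_finite_projective (s : M)
    [Module.Finite A (M ⧸ Submodule.span R {s})]
    [Module.Projective A (M ⧸ Submodule.span R {s})] :
    Module.Finite A (R ⧸ colonIdeal (R := R) s) ∧
      Module.Projective A (R ⧸ colonIdeal (R := R) s) := by
  obtain ⟨ι, _, σ, π, hπσ⟩ := exists_retract_quotient_colonIdeal (R := R) s
  have hsurj : Function.Surjective (π.restrictScalars A) := fun t =>
    ⟨σ t, by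
      have := congrArg (fun g => g t) hπσ
      simpa using this⟩
  refine ⟨Module.Finite.of_surjective (π.restrictScalars A) hsurj, ?_⟩
  haveI := projective_pi_of_fintype A ι (M ⧸ Submodule.span R {s})
  refine Module.Projective.of_split (σ.restrictScalars A) (π.restrictScalars A) ?_
  apply LinearMap.ext
  intro t
  have := congrArg (fun g => g t) hπσ
  simpa using this

/-- `R ⧸ (R s : M)` has the same local ranks over `A` as `M ⧸ R s`. -/
theorem rankAtStalk_quotient_colonIdeal (s : M)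
    [Module.Finite A (M ⧸ Submodule.span R {s})]
    [Module.Projective A (M ⧸ Submodule.span R {s})] (p : PrimeSpectrum A) :
    Module.rankAtStalk (R := A) (R ⧸ colonIdeal (R := R) s) p =
      Module.rankAtStalk (R := A) (M ⧸ Submodule.span R {s}) p := by
  obtain ⟨hfin, hproj⟩ := quotient_colonIdeal_finite_projective A (R := R) s
  let T := R ⧸ colonIdeal (R := R) s
  let e₁ : (T ⊗[R] M) ≃ₗ[R] M ⧸ (colonIdeal (R := R) s • ⊤ : Submodule R M) :=
    TensorProduct.quotTensorEquivQuotSMul M (colonIdeal (R := R) s)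
  let e₂ : (M ⧸ (colonIdeal (R := R) s • ⊤ : Submodule R M)) ≃ₗ[R] M ⧸ Submodule.span R {s} :=
    Submodule.quotEquivOfEq _ _ (colonIdeal_smul_top s)
  let e : (T ⊗[R] M) ≃ₗ[A] M ⧸ Submodule.span R {s} := (e₁ ≪≫ₗ e₂).restrictScalars A
  have h1 := rankAtStalk_eq_of_invertible A T (T ⊗[R] M) p
  have h2 := congrFun (Module.rankAtStalk_eq_of_equiv e) p
  rw [← h1, ← h2]

end HilbCore

end Fermat.Agent.S25.H611

end
-- ===== PACK-END S25/H611/ACHilbCore.lean

-- ===== PACK-BEGIN Lib/RR/H439/Adeles.lean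
section


/-!
# RR library, layer L4 (repartitions and `H¹(D)`), hypothesis-explicit version (helper439)

Everything is proved on top of layer L1 (`Fermat.Agent.Lib.RR.Basic`, on main).  The two inputs
from layer L3 (Riemann's theorem) enter as explicit hypotheses:

* `hR : ∀ D, deg D + 1 - g ≤ ℓ(D)`         (Riemann's inequality for the constant `g`),
* `h₀ : ℓ(D₀) = deg D₀ + 1 - g`            (the bound is attained at some `D₀`).

Main results (namespace `Fermat.Agent.Lib.RR.H439`):

* `mem_repartitions_iff`   : `α ∈ repartitions K F ↔ {v | ord_v (α v) < 0}.Finite`;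
* `H1_step`                : `H¹(D + P)` finite ⇒ `H¹(D)` finite and
                             `i(D) + ℓ(D + P) = i(D + P) + ℓ(D) + 1`;
* `sup_eq_top_of_attains`  : `ℓ(B) = deg B + 1 - g` ⇒ `𝔸 = 𝔸(B) + F`;
* `finite_H1_and_formula`  : `H¹(D)` is finite-dimensional and
                             `ℓ(D) - dim H¹(D) = deg D + 1 - g` for every divisor `D`.
-/

set_option autoImplicit false

noncomputable section

open AlgebraicCurve

namespace Fermat.Agent.Lib.RR.H439

open Fermat.Agent.Lib.RR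

variable {K F : Type*} [Field K] [Field F] [Algebra K F]

/-! ### L4.0: repartitions = families with finitely many poles -/

/-- A constant has finitely many poles. -/
theorem finite_poles_const [HasPrincipalDivisors K F] (f : F) :
    {v : Place K F | v.ord f < 0}.Finite := by
  rcases eq_or_ne f 0 with rfl | hf
  · simp
  obtain ⟨D, hD, -⟩ := HasPrincipalDivisors.exists_divisor (K := K) f hf
  refine D.support.finite_toSet.subset fun v hv => ?_
  have hv' : v.ord f < 0 := hv
  rw [Finset.mem_coe, Finsupp.mem_support_iff, hD v]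
  omega

theorem ord_add_nonneg (v : Place K F) {f g : F} (hf : 0 ≤ v.ord f) (hg : 0 ≤ v.ord g) :
    0 ≤ v.ord (f + g) :=
  ord_nonneg_of_mem v (add_mem (mem_of_ord_nonneg v hf) (mem_of_ord_nonneg v hg))

theorem ord_mul_nonneg (v : Place K F) {f g : F} (hf : 0 ≤ v.ord f) (hg : 0 ≤ v.ord g) :
    0 ≤ v.ord (f * g) :=
  ord_nonneg_of_mem v (mul_mem (mem_of_ord_nonneg v hf) (mem_of_ord_nonneg v hg))

/-- **L4.0**: the repartitions are exactly the families with finitely many poles. -/
theorem mem_repartitions_iff [HasPrincipalDivisors K F] {α : Place K F → F} :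
    α ∈ repartitions K F ↔ {v : Place K F | v.ord (α v) < 0}.Finite := by
  refine ⟨fun h => ?_, mem_repartitions_of_finite_ord⟩
  unfold repartitions at h
  induction h using Algebra.adjoin_induction with
  | mem x hx =>
    have hx' : {v : Place K F | ¬v.adicValuation (x v) ≤ 1}.Finite := hx
    rwa [show {v : Place K F | ¬v.adicValuation (x v) ≤ 1}
        = {v : Place K F | v.ord (x v) < 0} from
      Set.ext fun v => v.not_adicValuation_le_one_iff] at hx'
  | algebraMap f => exact finite_poles_const f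
  | add x y _ _ hx hy =>
    refine (hx.union hy).subset fun v hv => ?_
    have hv' : v.ord (x v + y v) < 0 := hv
    by_contra hcon
    rw [Set.mem_union, not_or] at hcon
    have h1 : 0 ≤ v.ord (x v) := not_lt.mp hcon.1
    have h2 : 0 ≤ v.ord (y v) := not_lt.mp hcon.2
    have := ord_add_nonneg v h1 h2
    omega
  | mul x y _ _ hx hy =>
    refine (hx.union hy).subset fun v hv => ?_
    have hv' : v.ord (x v * y v) < 0 := hv
    by_contra hcon
    rw [Set.mem_union, not_or] at hcon
    have h1 : 0 ≤ v.ord (x v) := not_lt.mp hcon.1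
    have h2 : 0 ≤ v.ord (y v) := not_lt.mp hcon.2
    have := ord_mul_nonneg v h1 h2
    omega

/-! ### The repartition supported at one place -/

open scoped Classical in
/-- The repartition with value `t` at `v` and `0` elsewhere. -/
def single (v : Place K F) (t : F) : ↥(repartitions K F) :=
  ⟨Pi.single v t, mem_repartitions_of_finite_ord <|
    (Set.finite_singleton v).subset fun w hw => by
      have hw' : w.ord ((Pi.single v t : Place K F → F) w) < 0 := hw
      by_contra hne
      rw [Set.mem_singleton_iff] at hne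
      rw [Pi.single_eq_of_ne hne, Place.ord_zero] at hw'
      exact lt_irrefl _ hw'⟩

@[simp] theorem single_apply_self (v : Place K F) (t : F) :
    (single v t : Place K F → F) v = t := by
  classical
  simp [single]

theorem single_apply_of_ne {v w : Place K F} (h : w ≠ v) (t : F) :
    (single v t : Place K F → F) w = 0 := by
  classical
  simp [single, Pi.single_eq_of_ne h]

theorem coe_smul_apply (c : K) (α : ↥(repartitions K F)) (w : Place K F) :
    ((c • α : ↥(repartitions K F)) : Place K F → F) w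
      = algebraMap K F c * (α : Place K F → F) w := by
  show (c • (α : Place K F → F)) w = _
  rw [Pi.smul_apply, Algebra.smul_def]

theorem coe_sub_apply (α β : ↥(repartitions K F)) (w : Place K F) :
    ((α - β : ↥(repartitions K F)) : Place K F → F) w
      = (α : Place K F → F) w - (β : Place K F → F) w := rfl

theorem coe_add_apply (α β : ↥(repartitions K F)) (w : Place K F) :
    ((α + β : ↥(repartitions K F)) : Place K F → F) w
      = (α : Place K F → F) w + (β : Place K F → F) w := rfl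

theorem single_mem_repartitionsOf (v : Place K F) (D : Divisor K F) {t : F}
    (ht : v.ord t = -(D v + 1)) : single v t ∈ repartitionsOf (D + prim v) := by
  rw [mem_repartitionsOf_iff]
  intro w
  by_cases hw : w = v
  · subst hw
    right
    rw [single_apply_self, ht]
    simp only [Finsupp.coe_add, Pi.add_apply, prim_apply_self]
    omega
  · left
    exact single_apply_of_ne hw t

/-! ### Lemma A: `𝔸(D + P) = 𝔸(D) + K α₀` -/

theorem repartitionsOf_add_prim_le (v : Place K F) (hv : v.deg = 1) (D : Divisor K F) {t : F}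
    (ht0 : t ≠ 0) (ht : v.ord t = -(D v + 1)) :
    repartitionsOf (D + prim v) ≤ repartitionsOf D ⊔ Submodule.span K {single v t} := by
  intro β hβ
  rw [mem_repartitionsOf_iff] at hβ
  obtain ⟨b, hb⟩ : ∃ b : F, b = (β : Place K F → F) v := ⟨_, rfl⟩
  have hg : 0 ≤ v.ord (b * t⁻¹) := by
    rcases eq_or_ne b 0 with h0 | h0
    · rw [h0, zero_mul, Place.ord_zero]
    · have h1 := (hβ v).resolve_left (hb ▸ h0)
      simp only [Finsupp.coe_add, Pi.add_apply, prim_apply_self] at h1
      rw [← hb] at h1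
      rw [v.ord_mul h0 (inv_ne_zero ht0), v.ord_inv, ht]
      omega
  obtain ⟨c, hc⟩ := exists_const_sub v hv hg
  have hdecomp : β = (β - c • single v t) + c • single v t := by abel
  rw [hdecomp]
  refine Submodule.add_mem _ (Submodule.mem_sup_left ?_)
    (Submodule.mem_sup_right (Submodule.smul_mem _ _ (Submodule.mem_span_singleton_self _)))
  rw [mem_repartitionsOf_iff]
  intro w
  rw [coe_sub_apply, coe_smul_apply]
  by_cases hw : w = v
  · subst hw
    rw [single_apply_self]
    have hfac : b - algebraMap K F c * t = (b * t⁻¹ - algebraMap K F c) * t := by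
      field_simp
    rw [← hb, hfac]
    rcases hc with hc | hc
    · left; rw [hc, zero_mul]
    · rcases eq_or_ne (b * t⁻¹ - algebraMap K F c) 0 with h0 | h0
      · left; rw [h0, zero_mul]
      right
      rw [w.ord_mul h0 ht0, ht]
      omega
  · rw [single_apply_of_ne hw, mul_zero, sub_zero]
    have := hβ w
    simpa [prim_apply_of_ne hw] using this

/-! ### Lemma B: `α₀ ∈ 𝔸(D) + F` iff `L(D + P) ≠ L(D)` -/

theorem ord_eq_of_mem_of_not_mem (v : Place K F) (D : Divisor K F) {f₀ : F}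
    (hf₀ : f₀ ∈ riemannRochSpace (D + prim v)) (hf₀' : f₀ ∉ riemannRochSpace D) :
    f₀ ≠ 0 ∧ v.ord f₀ = -(D v + 1) := by
  have hf₀0 : f₀ ≠ 0 := fun h => hf₀' (h ▸ Submodule.zero_mem _)
  refine ⟨hf₀0, ?_⟩
  have h1 := (mem_L_iff.mp hf₀ v).resolve_left hf₀0
  simp only [Finsupp.coe_add, Pi.add_apply, prim_apply_self] at h1
  by_contra hne
  apply hf₀'
  rw [mem_L_iff]
  intro w
  right
  by_cases hw : w = v
  · subst hw; omega
  · have h2 := (mem_L_iff.mp hf₀ w).resolve_left hf₀0
    simpa [prim_apply_of_ne hw] using h2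

/-- The constant repartition attached to `f`. -/
def const (f : F) : ↥(repartitions K F) := algebraMap F ↥(repartitions K F) f

@[simp] theorem const_apply (f : F) (w : Place K F) :
    (const (K := K) f : Place K F → F) w = f := rfl

theorem const_mem_principal (f : F) : const (K := K) f ∈ principalRepartitions K F :=
  mem_principalRepartitions_iff.mpr ⟨f, rfl⟩

theorem single_mem_sup_of_not_le (v : Place K F) (hv : v.deg = 1) (D : Divisor K F) {t : F}
    (ht0 : t ≠ 0) (ht : v.ord t = -(D v + 1))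
    (h : ¬ riemannRochSpace (D + prim v) ≤ riemannRochSpace D) :
    single v t ∈ repartitionsOf D ⊔ principalRepartitions K F := by
  obtain ⟨f₀, hf₀, hf₀'⟩ := SetLike.not_le_iff_exists.mp h
  obtain ⟨hf₀0, hord⟩ := ord_eq_of_mem_of_not_mem v D hf₀ hf₀'
  have hg0 : v.ord (f₀ * t⁻¹) = 0 := by
    rw [v.ord_mul hf₀0 (inv_ne_zero ht0), v.ord_inv, ht, hord]; omega
  obtain ⟨c, hc⟩ := exists_const_sub v hv (le_of_eq hg0.symm)
  have hc0 : c ≠ 0 := by
    rintro rfl
    rw [map_zero, sub_zero] at hc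
    rcases hc with hc | hc
    · exact (mul_ne_zero hf₀0 (inv_ne_zero ht0)) hc
    · omega
  have hcF : algebraMap K F c ≠ 0 := by simpa using hc0
  -- `α₀ = c⁻¹ f₀ - (c⁻¹ f₀ - α₀)`
  have hdecomp : single v t
      = (single v t - c⁻¹ • const (K := K) f₀) + c⁻¹ • const (K := K) f₀ := by abel
  rw [hdecomp]
  refine Submodule.add_mem _ (Submodule.mem_sup_left ?_)
    (Submodule.mem_sup_right (Submodule.smul_mem _ _ (const_mem_principal f₀)))
  rw [mem_repartitionsOf_iff]
  intro w
  rw [coe_sub_apply, coe_smul_apply, const_apply]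
  by_cases hw : w = v
  · subst hw
    rw [single_apply_self]
    have hfac : t - algebraMap K F c⁻¹ * f₀
        = -(algebraMap K F c⁻¹ * ((f₀ * t⁻¹ - algebraMap K F c) * t)) := by
      rw [map_inv₀]
      field_simp
      ring
    rw [hfac]
    rcases hc with hc | hc
    · left; rw [hc, zero_mul, mul_zero, neg_zero]
    · right
      have hne : f₀ * t⁻¹ - algebraMap K F c ≠ 0 := by
        intro h0; rw [h0, Place.ord_zero] at hc; exact lt_irrefl _ hc
      have hcinv : algebraMap K F c⁻¹ ≠ 0 := by simpa using hc0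
      rw [ord_neg, w.ord_mul hcinv (mul_ne_zero hne ht0), ord_algebraMap, w.ord_mul hne ht0, ht]
      omega
  · rw [single_apply_of_ne hw, zero_sub]
    have h2 := (mem_L_iff.mp hf₀ w).resolve_left hf₀0
    right
    have hcinv : algebraMap K F c⁻¹ ≠ 0 := by simpa using hc0
    rw [ord_neg, w.ord_mul hcinv hf₀0, ord_algebraMap]
    simpa [prim_apply_of_ne hw] using h2

theorem not_le_of_single_mem_sup (v : Place K F) (D : Divisor K F) {t : F}
    (ht0 : t ≠ 0) (ht : v.ord t = -(D v + 1))
    (h : single v t ∈ repartitionsOf D ⊔ principalRepartitions K F) :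
    ¬ riemannRochSpace (D + prim v) ≤ riemannRochSpace D := by
  obtain ⟨β, hβ, γ, hγ, hsum⟩ := Submodule.mem_sup.mp h
  obtain ⟨f, hf⟩ := mem_principalRepartitions_iff.mp hγ
  rw [mem_repartitionsOf_iff] at hβ
  -- values
  have hval : ∀ w, (single v t : Place K F → F) w = (β : Place K F → F) w + f := by
    intro w
    have := congrArg (fun x : ↥(repartitions K F) => (x : Place K F → F) w) hsum
    simp only [coe_add_apply, hf] at this
    exact this.symm
  have hv := hval v
  rw [single_apply_self] at hv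
  -- `f = t - β v` has order exactly `-(D v + 1)` at `v`
  have hfv : f = t + -(β : Place K F → F) v := by rw [hv]; ring
  have hford : f ≠ 0 ∧ v.ord f = -(D v + 1) := by
    rcases eq_or_ne ((β : Place K F → F) v) 0 with h0 | h0
    · rw [hfv, h0, neg_zero, add_zero]; exact ⟨ht0, ht⟩
    · have h1 := (hβ v).resolve_left h0
      have hlt : v.ord t < v.ord (-(β : Place K F → F) v) := by rw [ord_neg, ht]; omega
      have := ord_add_eq_of_lt v ht0 (neg_ne_zero.mpr h0) hlt
      rw [← hfv] at this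
      refine ⟨?_, this.trans ht⟩
      intro hf0
      rw [hf0, Place.ord_zero, ht] at this
      rw [hf0] at hfv
      have h2 : (β : Place K F → F) v = t := by
        have := congrArg (fun x => x + (β : Place K F → F) v) hfv
        simpa using this
      rw [h2, ht] at h1
      omega
  intro hle
  have hfL : f ∈ riemannRochSpace (D + prim v) := by
    rw [mem_L_iff]
    intro w
    right
    by_cases hw : w = v
    · subst hw
      simp only [Finsupp.coe_add, Pi.add_apply, prim_apply_self]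
      have := hford.2
      omega
    · have hw' := hval w
      rw [single_apply_of_ne hw] at hw'
      have hβw : (β : Place K F → F) w = -f := by
        have := congrArg (fun x => x - f) hw'
        simpa using this.symm
      have hβ0 : (β : Place K F → F) w ≠ 0 := by rw [hβw]; exact neg_ne_zero.mpr hford.1
      have h1 := (hβ w).resolve_left hβ0
      rw [hβw, ord_neg] at h1
      simpa [prim_apply_of_ne hw] using h1
  have := (mem_L_iff.mp (hle hfL) v).resolve_left hford.1
  rw [hford.2] at this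
  omega

theorem single_mem_sup_iff (v : Place K F) (hv : v.deg = 1) (D : Divisor K F) {t : F}
    (ht0 : t ≠ 0) (ht : v.ord t = -(D v + 1)) :
    single v t ∈ repartitionsOf D ⊔ principalRepartitions K F ↔
      ¬ riemannRochSpace (D + prim v) ≤ riemannRochSpace D :=
  ⟨not_le_of_single_mem_sup v D ht0 ht, single_mem_sup_of_not_le v hv D ht0 ht⟩

/-- A function with prescribed order at `v`. -/
theorem exists_ord_eq (v : Place K F) (n : ℤ) : ∃ t : F, t ≠ 0 ∧ v.ord t = n := by
  obtain ⟨π, hπ⟩ := exists_ord_eq_one v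
  have hπ0 : π ≠ 0 := ne_zero_of_ord_ne_zero v (by rw [hπ]; exact one_ne_zero)
  exact ⟨π ^ n, zpow_ne_zero n hπ0, by rw [v.ord_zpow, hπ, mul_one]⟩

end Fermat.Agent.Lib.RR.H439

end
end
-- ===== PACK-END Lib/RR/H439/Adeles.lean

-- ===== PACK-BEGIN S37/H518/Ineq.lean
section


/-!
# S37 / RIM (helper518): zeros can only merge under reduction

Abstract setting.  `A` is a valuation ring of a field `L` with residue map `π : A → k`,
`F / L` and `Fk / k` are fields ("function fields" of the generic and the special fibre),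
`V` is an `A`-algebra of "integral functions" with ring homs `ι : V → F` (generic fibre) and
`ρ : V → Fk` (reduction).  `B ⊆ V` is a chart algebra, `Q` a place of `Fk` centred on the chart at
which the special fibre is normal, and `P i` finitely many distinct places of `F` centred on the
chart, reducing to `Q`.

Main result `LocalChart.sum_ord_le`:  for `y ∈ B` with `ρ y ≠ 0`,
`∑ i, ord_{P i} (ι y) ≤ ord_Q (ρ y)`.

Proof: `M = B / J`, `J = {z ∈ B | ord_{P i} z ≥ ord_{P i} y}` is a finitely generated `A`-module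
(`B` is finite over `A[x]`); `M / 𝔪 M` is spanned by `ord_Q (ρ y)` elements (jets at `Q`), hence so
is `M` (Nakayama); but `M ⊗ L` contains `∑ ord_{P i} y` independent elements.
-/

set_option autoImplicit false

namespace Fermat.Agent.S37.H518

open AlgebraicCurve Fermat.Agent.S24.H504 Polynomial

variable {L : Type*} [Field L] {A : ValuationSubring L} {k : Type*} [Field k]
variable {F : Type*} [Field F] [Algebra L F] {Fk : Type*} [Field Fk] [Algebra k Fk]
variable {V : Type*} [CommRing V] [Algebra A V]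

/-- A reduction structure: integral functions `V` with generic fibre `ι` and reduction `ρ`. -/
structure RedStr (π : A →+* k) (ι : V →+* F) (ρ : V →+* Fk) : Prop where
  pi_surj : Function.Surjective π
  iota_alg : ∀ a : A, ι (algebraMap A V a) = algebraMap L F (a : L)
  rho_alg : ∀ a : A, ρ (algebraMap A V a) = algebraMap k Fk (π a)

namespace RedStr

variable {π : A →+* k} {ι : V →+* F} {ρ : V →+* Fk} (h : RedStr π ι ρ)
include h

theorem iota_smul (a : A) (z : V) : ι (a • z) = algebraMap L F (a : L) * ι z := by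
  rw [Algebra.smul_def, map_mul, h.iota_alg]

theorem rho_smul (a : A) (z : V) : ρ (a • z) = algebraMap k Fk (π a) * ρ z := by
  rw [Algebra.smul_def, map_mul, h.rho_alg]

theorem ker_pi_eq : RingHom.ker π = IsLocalRing.maximalIdeal A :=
  IsLocalRing.eq_maximalIdeal (RingHom.ker_isMaximal_of_surjective π h.pi_surj)

theorem pi_eq_zero_iff (a : A) : π a = 0 ↔ a ∈ IsLocalRing.maximalIdeal A := by
  rw [← h.ker_pi_eq, RingHom.mem_ker]

theorem isUnit_of_pi_ne_zero {a : A} (ha : π a ≠ 0) : IsUnit a := by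
  rw [← IsLocalRing.notMem_maximalIdeal, ← h.pi_eq_zero_iff]
  exact ha

end RedStr

/-- Local chart data at a place `Q` of the special fibre, together with finitely many places
`P i` of the generic fibre reducing to `Q`. -/
structure LocalChart (π : A →+* k) (ι : V →+* F) (ρ : V →+* Fk) (B : Subalgebra A V)
    (Q : Place k Fk) {I : Type*} (P : I → Place L F) : Prop extends RedStr π ι ρ where
  /-- q-expansion principle: the kernel of reduction on the chart is `𝔪 B` -/
  ker : ∀ b ∈ B, ρ b = 0 → ∃ μ : A, π μ = 0 ∧ ∃ b' ∈ B, b = μ • b'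
  /-- `Q` is centred on the chart -/
  Q_int : ∀ b ∈ B, 0 ≤ Q.ord (ρ b)
  /-- normality of the special fibre at `Q`: the local ring of `Q` is the localisation of `ρ B` -/
  Q_loc : ∀ f : Fk, 0 ≤ Q.ord f → ∃ a ∈ B, ∃ s ∈ B, ¬ InMax Q (ρ s) ∧ f * ρ s = ρ a
  /-- `Q` is a rational place -/
  Q_val : ∀ f : Fk, 0 ≤ Q.ord f → ∃ c : k, InMax Q (f - algebraMap k Fk c)
  P_inj : Function.Injective P
  /-- the `P i` are centred on the chart -/
  P_int : ∀ i, ∀ b ∈ B, 0 ≤ (P i).ord (ι b)
  /-- values of chart functions at `P i` are integral -/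
  P_val : ∀ i, ∀ b ∈ B, ∃ c : A, InMax (P i) (ι b - algebraMap L F (c : L))
  /-- `P i` reduces to `Q` -/
  P_red : ∀ i, ∀ b ∈ B, ∀ c : A, InMax (P i) (ι b - algebraMap L F (c : L)) →
    InMax Q (ρ b - algebraMap k Fk (π c))
  /-- normality of the generic fibre at `P i`: local uniformisers in the chart -/
  P_unif : ∀ i, ∃ w ∈ B, (P i).ord (ι w) = 1
  /-- the chart separates the `P i` -/
  P_sep : ∀ i j, i ≠ j → ∃ s ∈ B, ¬ InMax (P i) (ι s) ∧ InMax (P j) (ι s)

namespace LocalChart

variable {π : A →+* k} {ι : V →+* F} {ρ : V →+* Fk} {B : Subalgebra A V}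
  {Q : Place k Fk} {I : Type*} {P : I → Place L F}

/-- The `A`-submodule (and `B`-ideal) of chart functions vanishing to order `≥ m i` at `P i`. -/
def J (h : LocalChart π ι ρ B Q P) (m : I → ℕ) : Submodule A V where
  carrier := {z | z ∈ B ∧ ∀ i, OrdGE (P i) (m i) (ι z)}
  add_mem' := by
    rintro a b ⟨ha, ha'⟩ ⟨hb, hb'⟩
    refine ⟨B.add_mem ha hb, fun i => ?_⟩
    rw [map_add]
    exact (ha' i).add (hb' i)
  zero_mem' := ⟨B.zero_mem, fun i => by rw [map_zero]; exact ordGE_zero_right _⟩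
  smul_mem' := by
    rintro c z ⟨hz, hz'⟩
    refine ⟨B.smul_mem hz c, fun i => ?_⟩
    rw [h.iota_smul]
    exact (hz' i).const_mul _

theorem sub_algebraMap_mem {u : V} (hu : u ∈ B) (c : A) : u - algebraMap A V c ∈ B :=
  B.sub_mem hu (B.algebraMap_mem c)

variable (h : LocalChart π ι ρ B Q P) (m : I → ℕ)
include h

theorem mem_J {z : V} : z ∈ h.J m ↔ z ∈ B ∧ ∀ i, OrdGE (P i) (m i) (ι z) := Iff.rfl

theorem J_le : h.J m ≤ Subalgebra.toSubmodule B := fun _ hz => hz.1

theorem mul_mem_J {b z : V} (hb : b ∈ B) (hz : z ∈ h.J m) : b * z ∈ h.J m := by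
  refine ⟨B.mul_mem hb hz.1, fun i => ?_⟩
  rw [map_mul]
  exact (hz.2 i).mul_left (ordGE_zero_iff.mpr (h.P_int i b hb))

theorem mul_mem_J' {b z : V} (hb : b ∈ B) (hz : z ∈ h.J m) : z * b ∈ h.J m := by
  rw [mul_comm]; exact h.mul_mem_J m hb hz

theorem iota_sub_algebraMap (u : V) (c : A) :
    ι (u - algebraMap A V c) = ι u - algebraMap L F (c : L) := by
  rw [map_sub, h.iota_alg]

theorem rho_sub_algebraMap (u : V) (c : A) :
    ρ (u - algebraMap A V c) = ρ u - algebraMap k Fk (π c) := by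
  rw [map_sub, h.rho_alg]

/-- For `u ∈ B` with values `c i` at `P i`, the product `∏ (u - c i) ^ m i` lies in `J`. -/
theorem prod_mem_J [Fintype I] [DecidableEq I] {u : V} (hu : u ∈ B) (c : I → A)
    (hc : ∀ i, InMax (P i) (ι u - algebraMap L F (c i : L))) :
    ∏ i, (u - algebraMap A V (c i)) ^ m i ∈ h.J m := by
  refine ⟨B.prod_mem fun i _ => B.pow_mem (sub_algebraMap_mem hu (c i)) _, fun j => ?_⟩
  rw [← Finset.mul_prod_erase Finset.univ _ (Finset.mem_univ j), map_mul, map_pow,
    h.iota_sub_algebraMap]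
  have h1 : OrdGE (P j) (m j) ((ι u - algebraMap L F (c j : L)) ^ m j) := by
    simpa using (InMax.ordGE (hc j)).pow (m j)
  refine h1.mul_right ?_
  rw [map_prod]
  refine ordGE_prod_nonneg _ _ fun i _ => ?_
  rw [map_pow]
  have := (ordGE_zero_iff.mpr (h.P_int j _ (sub_algebraMap_mem hu (c i)))).pow (m i)
  simpa using this

omit h in
theorem ne_zero_and_ord_eq_zero_of_not_inMax {K' F' : Type*} [Field K'] [Field F'] [Algebra K' F']
    {v : Place K' F'} {g : F'} (hg : 0 ≤ v.ord g) (hn : ¬ InMax v g) : g ≠ 0 ∧ v.ord g = 0 := by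
  have h0 : g ≠ 0 := fun h0 => hn (Or.inl h0)
  refine ⟨h0, ?_⟩
  by_contra hne
  exact hn (Or.inr (lt_of_le_of_ne hg (Ne.symm hne)))

/-- Chart functions `e j` whose reductions have order exactly `j` at `Q`. -/
theorem exists_jet_basis :
    ∃ e : ℕ → V, ∀ j, e j ∈ B ∧ ρ (e j) ≠ 0 ∧ Q.ord (ρ (e j)) = j := by
  obtain ⟨ϖ, hϖ⟩ := exists_ord_eq_one Q
  have hϖ0 : ϖ ≠ 0 := ne_zero_of_ord_ne_zero Q (by rw [hϖ]; norm_num)
  have key : ∀ j : ℕ, ∃ a : V, a ∈ B ∧ ρ a ≠ 0 ∧ Q.ord (ρ a) = j := by
    intro j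
    have hj : Q.ord (ϖ ^ j) = j := by rw [ord_pow, hϖ, mul_one]
    obtain ⟨a, ha, s, hs, hsn, hfs⟩ := h.Q_loc (ϖ ^ j) (by rw [hj]; positivity)
    obtain ⟨hs0, hsord⟩ := ne_zero_and_ord_eq_zero_of_not_inMax (h.Q_int s hs) hsn
    refine ⟨a, ha, ?_, ?_⟩
    · rw [← hfs]
      exact mul_ne_zero (pow_ne_zero _ hϖ0) hs0
    · rw [← hfs, Q.ord_mul (pow_ne_zero _ hϖ0) hs0, hj, hsord, add_zero]
  choose e he using key
  exact ⟨e, he⟩

/-- Successive approximation at `Q` by the jet basis. -/
theorem exists_approx (e : ℕ → V) (he : ∀ j, e j ∈ B ∧ ρ (e j) ≠ 0 ∧ Q.ord (ρ (e j)) = j)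
    {z : V} (hz : z ∈ B) (n : ℕ) :
    ∃ c : ℕ → A, OrdGE Q n (ρ z - ∑ j ∈ Finset.range n, algebraMap k Fk (π (c j)) * ρ (e j)) := by
  induction n with
  | zero =>
    refine ⟨fun _ => 0, ?_⟩
    simpa using ordGE_zero_iff.mpr (h.Q_int z hz)
  | succ n ih =>
    obtain ⟨c, hc⟩ := ih
    set r := ρ z - ∑ j ∈ Finset.range n, algebraMap k Fk (π (c j)) * ρ (e j) with hr
    have hf : OrdGE Q 0 (r / ρ (e n)) := by
      have := hc.div (he n).2.1 (he n).2.2
      simpa using this
    obtain ⟨γ, hγ⟩ := h.Q_val _ (ordGE_zero_iff.mp hf)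
    obtain ⟨cn, rfl⟩ := h.pi_surj γ
    refine ⟨Function.update c n cn, ?_⟩
    rw [Finset.sum_range_succ]
    have e1 : ∑ j ∈ Finset.range n, algebraMap k Fk (π (Function.update c n cn j)) * ρ (e j)
        = ∑ j ∈ Finset.range n, algebraMap k Fk (π (c j)) * ρ (e j) := by
      refine Finset.sum_congr rfl fun j hj => ?_
      rw [Function.update_of_ne (Finset.mem_range.mp hj).ne]
    rw [e1, Function.update_self]
    have e2 : ρ z - (∑ j ∈ Finset.range n, algebraMap k Fk (π (c j)) * ρ (e j)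
        + algebraMap k Fk (π cn) * ρ (e n))
        = ρ (e n) * (r / ρ (e n) - algebraMap k Fk (π cn)) := by
      rw [hr]
      field_simp [(he n).2.1]
      ring
    rw [e2]
    have h1 : OrdGE Q n (ρ (e n)) := ordGE_of_ord (by rw [(he n).2.2])
    have := h1.mul (InMax.ordGE hγ)
    simpa using this

omit h in
theorem aeval_mem_of_mem {s : V} (hs : s ∈ B) (p : A[X]) : aeval s p ∈ B := by
  have := (aeval (⟨s, hs⟩ : B) p).2
  rwa [← Subalgebra.aeval_coe] at this

/-- Key step on the special fibre: every chart function is, modulo `J + 𝔪 B`, an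
`A`-combination of the first `b = ord_Q (ρ y)` jet functions. -/
theorem exists_decomp [Fintype I] (e : ℕ → V)
    (he : ∀ j, e j ∈ B ∧ ρ (e j) ≠ 0 ∧ Q.ord (ρ (e j)) = j)
    {y : V} (hy : y ∈ B) (hy0 : ρ y ≠ 0) (hm : ∀ i, (m i : ℤ) = (P i).ord (ι y))
    (b : ℕ) (hb : (b : ℤ) = Q.ord (ρ y)) {z : V} (hz : z ∈ B) :
    ∃ c : ℕ → A, ∃ u ∈ h.J m, ∃ μ : A, π μ = 0 ∧ ∃ b' ∈ B,
      z = ∑ j ∈ Finset.range b, c j • e j + u + μ • b' := by
  classical
  have hyJ : y ∈ h.J m := ⟨hy, fun i => Or.inr (by rw [hm])⟩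
  obtain ⟨c, hc⟩ := h.exists_approx e he hz b
  set z' := z - ∑ j ∈ Finset.range b, c j • e j with hz'
  have hz'B : z' ∈ B :=
    B.sub_mem hz (B.sum_mem fun j _ => B.smul_mem (he j).1 _)
  have hρz' : ρ z' = ρ z - ∑ j ∈ Finset.range b, algebraMap k Fk (π (c j)) * ρ (e j) := by
    rw [hz', map_sub, map_sum]
    congr 1
    exact Finset.sum_congr rfl fun j _ => h.rho_smul _ _
  rw [← hρz'] at hc
  have hf : OrdGE Q 0 (ρ z' / ρ y) := by
    have := hc.div hy0 hb.symm
    simpa using this
  obtain ⟨a', ha', s, hs, hsn, hfs⟩ := h.Q_loc _ (ordGE_zero_iff.mp hf)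
  have hprod : ρ (z' * s - y * a') = 0 := by
    rw [map_sub, map_mul, map_mul, ← hfs]
    field_simp
    ring
  obtain ⟨μ, hμ, b'', hb'', hker⟩ := h.ker _ (B.sub_mem (B.mul_mem hz'B hs) (B.mul_mem hy ha')) hprod
  -- values of `s` at the `P i`
  choose cs hcs using fun i => h.P_val i s hs
  have hunit : ∀ i, IsUnit (cs i) := by
    intro i
    refine h.isUnit_of_pi_ne_zero fun h0 => hsn ?_
    have := h.P_red i s hs (cs i) (hcs i)
    rwa [h0, map_zero, sub_zero] at this
  set G : A[X] := ∏ i, (X - C (cs i)) ^ m i with hG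
  have hGs : aeval s G = ∏ i, (s - algebraMap A V (cs i)) ^ m i := by
    rw [hG, map_prod]
    refine Finset.prod_congr rfl fun i _ => ?_
    rw [map_pow, map_sub, aeval_X, aeval_C]
  have hgJ : aeval s G ∈ h.J m := by
    rw [hGs]
    exact h.prod_mem_J m hs cs hcs
  have hu0 : IsUnit (G.coeff 0) := by
    rw [coeff_zero_eq_eval_zero, hG, eval_prod]
    refine IsUnit.prod_univ_iff.mpr fun i => ?_  
    rw [eval_pow, eval_sub, eval_X, eval_C, zero_sub]
    exact (hunit i).neg.pow _
  obtain ⟨v0, hv0⟩ := hu0.exists_left_inv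
  set q := aeval s G.divX with hq
  have hqB : q ∈ B := aeval_mem_of_mem hs _
  have hsplit : q * s + algebraMap A V (G.coeff 0) = aeval s G := by
    have := congrArg (aeval s) (divX_mul_X_add G)
    rwa [map_add, map_mul, aeval_X, aeval_C] at this
  -- `u₀ • z' ∈ J + 𝔪 B`
  have hkey : G.coeff 0 • z' = (z' * aeval s G - q * (y * a')) + (-μ) • (q * b'') := by
    have h1 : z' * s = y * a' + algebraMap A V μ * b'' := by
      rw [← Algebra.smul_def, ← hker]; ring
    rw [Algebra.smul_def, Algebra.smul_def, map_neg]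
    linear_combination z' * hsplit - q * h1
  have hu1 : z' * aeval s G - q * (y * a') ∈ h.J m := by
    refine (h.J m).sub_mem (h.mul_mem_J m hz'B hgJ) (h.mul_mem_J m hqB ?_)
    exact h.mul_mem_J' m ha' hyJ
  refine ⟨c, v0 • (z' * aeval s G - q * (y * a')), (h.J m).smul_mem _ hu1, v0 * (-μ), ?_,
    q * b'', B.mul_mem hqB hb'', ?_⟩
  · rw [map_mul, map_neg, hμ, neg_zero, mul_zero]
  · have h3 : z' = v0 • (G.coeff 0 • z') := by
      rw [smul_smul, hv0, one_smul]
    have h4 : z = ∑ j ∈ Finset.range b, c j • e j + z' := by rw [hz']; ring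
    have h5 : z' = v0 • (z' * aeval s G - q * (y * a')) + (v0 * -μ) • (q * b'') := by
      conv_lhs => rw [h3, hkey]
      rw [smul_add, smul_smul]
    rw [add_assoc, ← h5]
    exact h4

/-- Nakayama: the chart is spanned, modulo `J`, by the first `b = ord_Q (ρ y)` jet functions. -/
theorem exists_span [Fintype I] (e : ℕ → V)
    (he : ∀ j, e j ∈ B ∧ ρ (e j) ≠ 0 ∧ Q.ord (ρ (e j)) = j)
    {y : V} (hy : y ∈ B) (hy0 : ρ y ≠ 0) (hm : ∀ i, (m i : ℤ) = (P i).ord (ι y))
    (b : ℕ) (hb : (b : ℤ) = Q.ord (ρ y))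
    {x : V} (hx : x ∈ B)
    (hfin : ∀ g : A[X], g.Monic → ∃ (r : ℕ) (e' : Fin r → V), (∀ j, e' j ∈ B) ∧
      ∀ z ∈ B, ∃ α : Fin r → A, ∃ z' ∈ B, z = ∑ j, α j • e' j + aeval x g * z')
    {z : V} (hz : z ∈ B) :
    ∃ α : Fin b → A, z - ∑ j, α j • e j ∈ h.J m := by
  classical
  choose cx hcx using fun i => h.P_val i x hx
  set g : A[X] := ∏ i, (X - C (cx i)) ^ m i with hg
  have hmonic : g.Monic :=
    monic_prod_of_monic _ _ fun i _ => (monic_X_sub_C (cx i)).pow _
  have hgx : aeval x g = ∏ i, (x - algebraMap A V (cx i)) ^ m i := by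
    rw [hg, map_prod]
    refine Finset.prod_congr rfl fun i _ => ?_
    rw [map_pow, map_sub, aeval_X, aeval_C]
  have hgJ : aeval x g ∈ h.J m := by
    rw [hgx]
    exact h.prod_mem_J m hx cx hcx
  obtain ⟨r, e', he', hgen⟩ := hfin g hmonic
  set mk := (h.J m).mkQ with hmk
  set T : Submodule A (V ⧸ h.J m) := (Subalgebra.toSubmodule B).map mk with hT
  set N : Submodule A (V ⧸ h.J m) := Submodule.span A (Set.range fun j : Fin b => mk (e j))
    with hN
  have hmkJ : ∀ u ∈ h.J m, mk u = 0 := fun u hu => by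
    rw [hmk, Submodule.mkQ_apply, Submodule.Quotient.mk_eq_zero]
    exact hu
  have hTeq : T = Submodule.span A (Set.range fun j : Fin r => mk (e' j)) := by
    apply le_antisymm
    · rintro _ ⟨w, hw, rfl⟩
      obtain ⟨α, w', hw', rfl⟩ := hgen w hw
      rw [map_add, map_sum, hmkJ _ (h.mul_mem_J' m hw' hgJ), add_zero]
      refine Submodule.sum_mem _ fun j _ => ?_
      rw [map_smul]
      exact Submodule.smul_mem _ _ (Submodule.subset_span ⟨j, rfl⟩)
    · rw [Submodule.span_le]
      rintro _ ⟨j, rfl⟩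
      exact ⟨e' j, he' j, rfl⟩
  have hTfg : T.FG := by
    rw [hTeq]
    exact Submodule.fg_span (Set.finite_range _)
  have hle : T ≤ N ⊔ IsLocalRing.maximalIdeal A • T := by
    rintro _ ⟨w, hw, rfl⟩
    obtain ⟨c, u, hu, μ, hμ, w', hw', rfl⟩ := h.exists_decomp m e he hy hy0 hm b hb hw
    rw [map_add, map_add, hmkJ u hu, add_zero, map_sum, map_smul]
    refine Submodule.add_mem_sup ?_ ?_
    · rw [Finset.sum_range]
      refine Submodule.sum_mem _ fun j _ => ?_
      rw [map_smul]
      exact Submodule.smul_mem _ _ (Submodule.subset_span ⟨j, rfl⟩)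
    · exact Submodule.smul_mem_smul ((h.pi_eq_zero_iff μ).mp hμ) ⟨w', hw', rfl⟩
  have hTN : T ≤ N :=
    Submodule.le_of_le_smul_of_le_jacobson_bot hTfg (IsLocalRing.maximalIdeal_le_jacobson _) hle
  have hzN : mk z ∈ N := hTN ⟨z, hz, rfl⟩
  rw [hN, Submodule.mem_span_range_iff_exists_fun] at hzN
  obtain ⟨α, hα⟩ := hzN
  refine ⟨α, ?_⟩
  rw [← Submodule.Quotient.mk_eq_zero, ← Submodule.mkQ_apply, ← hmk, map_sub, map_sum, ← hα,
    sub_eq_zero]
  exact Finset.sum_congr rfl fun j _ => (map_smul _ _ _).symm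

omit h in
theorem prod_ne_zero_ord_zero {K' F' : Type*} [Field K'] [Field F'] [Algebra K' F']
    (v : Place K' F') {ι' : Type*} (s : Finset ι') (f : ι' → F')
    (hf : ∀ i ∈ s, f i ≠ 0 ∧ v.ord (f i) = 0) :
    (∏ i ∈ s, f i) ≠ 0 ∧ v.ord (∏ i ∈ s, f i) = 0 := by
  classical
  induction s using Finset.induction_on with
  | empty => simp
  | insert a s ha ih =>
    rw [Finset.prod_insert ha]
    obtain ⟨h1, h2⟩ := hf a (Finset.mem_insert_self a s)
    obtain ⟨h3, h4⟩ := ih fun i hi => hf i (Finset.mem_insert_of_mem hi)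
    exact ⟨mul_ne_zero h1 h3, by rw [v.ord_mul h1 h3, h2, h4, add_zero]⟩

/-- Independent chart functions: `w ⟨i, e⟩` has order exactly `e` at `P i` and order `≥ m j` at
`P j`, `j ≠ i`. -/
theorem exists_indep [Fintype I] :
    ∃ w : (Σ i, Fin (m i)) → V, (∀ p, w p ∈ B) ∧
      (∀ p, ι (w p) ≠ 0 ∧ (P p.1).ord (ι (w p)) = (p.2 : ℕ)) ∧
      ∀ p j, j ≠ p.1 → OrdGE (P j) (m j) (ι (w p)) := by
  classical
  choose wu hwuB hwu1 using h.P_unif
  have sep : ∀ i j, ∃ s ∈ B, i ≠ j → (¬ InMax (P i) (ι s) ∧ InMax (P j) (ι s)) := by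
    intro i j
    by_cases hij : i = j
    · exact ⟨1, B.one_mem, fun h' => absurd hij h'⟩
    · obtain ⟨s, hs, h1⟩ := h.P_sep i j hij
      exact ⟨s, hs, fun _ => h1⟩
  choose ss hssB hss using sep
  set uu : I → V := fun i => ∏ j ∈ Finset.univ.erase i, (ss i j) ^ m j with huu
  have huuB : ∀ i, uu i ∈ B := fun i => B.prod_mem fun j _ => B.pow_mem (hssB i j) _
  have huu0 : ∀ i, ι (uu i) ≠ 0 ∧ (P i).ord (ι (uu i)) = 0 := by
    intro i
    rw [huu, map_prod]
    refine prod_ne_zero_ord_zero (P i) _ _ fun j hj => ?_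
    have hji : i ≠ j := fun e => (Finset.ne_of_mem_erase hj) e.symm
    obtain ⟨h1, h2⟩ := ne_zero_and_ord_eq_zero_of_not_inMax (h.P_int i _ (hssB i j)) (hss i j hji).1
    rw [map_pow]
    exact ⟨pow_ne_zero _ h1, by rw [ord_pow, h2, mul_zero]⟩
  have hwu0 : ∀ i, ι (wu i) ≠ 0 := fun i =>
    ne_zero_of_ord_ne_zero (P i) (by rw [hwu1]; norm_num)
  refine ⟨fun p => uu p.1 * (wu p.1) ^ (p.2 : ℕ), fun p => B.mul_mem (huuB _) (B.pow_mem (hwuB _) _),
    fun p => ?_, fun p j hj => ?_⟩
  · rw [map_mul, map_pow]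
    refine ⟨mul_ne_zero (huu0 _).1 (pow_ne_zero _ (hwu0 _)), ?_⟩
    rw [(P p.1).ord_mul (huu0 _).1 (pow_ne_zero _ (hwu0 _)), (huu0 _).2, ord_pow, hwu1]
    ring
  · rw [map_mul, map_pow]
    have hjmem : j ∈ Finset.univ.erase p.1 := Finset.mem_erase.mpr ⟨hj, Finset.mem_univ _⟩
    have h1 : OrdGE (P j) (m j) (ι (uu p.1)) := by
      have e1 : uu p.1 = (ss p.1 j) ^ m j *
          ∏ i ∈ (Finset.univ.erase p.1).erase j, (ss p.1 i) ^ m i :=
        (Finset.mul_prod_erase _ _ hjmem).symm
      rw [e1, map_mul, map_pow]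
      have h2 : OrdGE (P j) (m j) (ι (ss p.1 j) ^ m j) := by
        simpa using (InMax.ordGE (hss p.1 j (Ne.symm hj)).2).pow (m j)
      refine h2.mul_right ?_
      rw [map_prod]
      refine ordGE_prod_nonneg _ _ fun i _ => ?_
      rw [map_pow]
      simpa using (ordGE_zero_iff.mpr (h.P_int j _ (hssB p.1 i))).pow (m i)
    refine h1.mul_right ?_
    simpa using (ordGE_zero_iff.mpr (h.P_int j _ (hwuB p.1))).pow (p.2 : ℕ)

/-- **Zeros can only merge under reduction.**  For a chart function `y` with nonzero reduction,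
the total order of vanishing of `y` at finitely many distinct places `P i` reducing to `Q` is at
most the order of vanishing of the reduction of `y` at `Q`. -/
theorem sum_ord_le [Fintype I] {y : V} (hy : y ∈ B) (hy0 : ρ y ≠ 0) {x : V} (hx : x ∈ B)
    (hfin : ∀ g : A[X], g.Monic → ∃ (r : ℕ) (e' : Fin r → V), (∀ j, e' j ∈ B) ∧
      ∀ z ∈ B, ∃ α : Fin r → A, ∃ z' ∈ B, z = ∑ j, α j • e' j + aeval x g * z') :
    ∑ i, (P i).ord (ι y) ≤ Q.ord (ρ y) := by
  classical
  have hPy : ∀ i, 0 ≤ (P i).ord (ι y) := fun i => h.P_int i y hy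
  have hQy : 0 ≤ Q.ord (ρ y) := h.Q_int y hy
  set m : I → ℕ := fun i => ((P i).ord (ι y)).toNat with hmdef
  have hm : ∀ i, (m i : ℤ) = (P i).ord (ι y) := fun i => Int.toNat_of_nonneg (hPy i)
  set b : ℕ := (Q.ord (ρ y)).toNat with hbdef
  have hb : (b : ℤ) = Q.ord (ρ y) := Int.toNat_of_nonneg hQy
  obtain ⟨e, he⟩ := h.exists_jet_basis
  obtain ⟨w, hwB, hw1, hw2⟩ := h.exists_indep m
  choose α hα using fun p => h.exists_span m e he hy hy0 hm b hb hx hfin (hwB p)
  by_contra hlt
  rw [not_le] at hlt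
  have hcard : b < Fintype.card (Σ i, Fin (m i)) := by
    rw [Fintype.card_sigma]
    simp only [Fintype.card_fin]
    have : ((b : ℕ) : ℤ) < ((∑ i, m i : ℕ) : ℤ) := by
      rw [hb]
      push_cast
      simp only [hm]
      exact hlt
    exact_mod_cast this
  -- linear dependence of the coefficient vectors
  have hdep : ¬ LinearIndependent L
      (fun p : (Σ i, Fin (m i)) => fun j : Fin b => ((α p j : A) : L)) := by
    intro hli
    have := hli.fintype_card_le_finrank
    rw [Module.finrank_fintype_fun_eq_card, Fintype.card_fin] at this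
    omega
  rw [Fintype.not_linearIndependent_iff] at hdep
  obtain ⟨g, hg0, p₁, hp₁⟩ := hdep
  obtain ⟨d, hd⟩ := IsLocalization.exist_integer_multiples (nonZeroDivisors A) Finset.univ g
  have hd' : ∀ p, ∃ c : A, (c : L) = ((d : A) : L) * g p := by
    intro p
    obtain ⟨c, hc⟩ := hd p (Finset.mem_univ p)
    refine ⟨c, ?_⟩
    rw [Submonoid.smul_def, Algebra.smul_def] at hc
    exact hc
  choose cc hcc using hd'
  have hd0 : ((d : A) : L) ≠ 0 := by
    have := nonZeroDivisors.coe_ne_zero d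
    simp only [ne_eq, ZeroMemClass.coe_eq_zero]
    exact this
  have hrel : ∀ j, ∑ p, cc p * α p j = 0 := by
    intro j
    apply Subtype.coe_injective
    have h1 := congrFun hg0 j
    simp only [Finset.sum_apply, Pi.smul_apply, smul_eq_mul, Pi.zero_apply] at h1
    push_cast
    simp only [hcc, mul_assoc]
    rw [← Finset.mul_sum, h1, mul_zero]
  -- the resulting element of `J`
  have hWJ : ∑ p, cc p • w p ∈ h.J m := by
    have e1 : ∑ p, cc p • w p = ∑ p, cc p • (w p - ∑ j, α p j • e j) := by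
      rw [← sub_eq_zero, ← Finset.sum_sub_distrib]
      simp only [← smul_sub, sub_sub_cancel, Finset.smul_sum, smul_smul]
      rw [Finset.sum_comm]
      refine Finset.sum_eq_zero fun j _ => ?_
      rw [← Finset.sum_smul, hrel, zero_smul]
    rw [e1]
    exact Submodule.sum_mem _ fun p _ => Submodule.smul_mem _ _ (hα p)
  -- contradiction with independence
  obtain ⟨i₀, e₁⟩ := p₁
  have hcc1 : cc ⟨i₀, e₁⟩ ≠ 0 := by
    intro h0
    have := hcc ⟨i₀, e₁⟩
    rw [h0] at this
    simp only [ZeroMemClass.coe_zero] at this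
    exact (mul_ne_zero hd0 hp₁) this.symm
  set S : Finset (Fin (m i₀)) := Finset.univ.filter fun e' => cc ⟨i₀, e'⟩ ≠ 0 with hS
  have hSne : S.Nonempty := ⟨e₁, by simp [hS, hcc1]⟩
  set e₀ := S.min' hSne with he₀
  have he₀S : e₀ ∈ S := Finset.min'_mem S hSne
  have hcc0 : cc ⟨i₀, e₀⟩ ≠ 0 := by
    have := he₀S
    simp only [hS, Finset.mem_filter, Finset.mem_univ, true_and] at this
    exact this
  have hmin : ∀ e' : Fin (m i₀), e' < e₀ → cc ⟨i₀, e'⟩ = 0 := by
    intro e' hlt'
    by_contra hne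
    have : e' ∈ S := by simp [hS, hne]
    exact absurd (Finset.min'_le S e' this) (not_le.mpr hlt')
  have hιW : ι (∑ p, cc p • w p) = ∑ p, algebraMap L F (cc p : L) * ι (w p) := by
    rw [map_sum]
    exact Finset.sum_congr rfl fun p _ => h.iota_smul _ _
  set T₀ := algebraMap L F (cc ⟨i₀, e₀⟩ : L) * ι (w ⟨i₀, e₀⟩) with hT₀
  have hccL : algebraMap L F (cc ⟨i₀, e₀⟩ : L) ≠ 0 := by
    rw [Ne, map_eq_zero]
    simpa using hcc0
  have hT₀ne : T₀ ≠ 0 := mul_ne_zero hccL (hw1 ⟨i₀, e₀⟩).1
  have hT₀ord : (P i₀).ord T₀ = (e₀ : ℕ) := by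
    rw [hT₀, (P i₀).ord_mul hccL (hw1 ⟨i₀, e₀⟩).1, ord_algebraMap, zero_add]
    exact (hw1 ⟨i₀, e₀⟩).2
  have hsplit : ∑ p, algebraMap L F (cc p : L) * ι (w p) =
      T₀ + ∑ p ∈ Finset.univ.erase (⟨i₀, e₀⟩ : Σ i, Fin (m i)),
        algebraMap L F (cc p : L) * ι (w p) :=
    (Finset.add_sum_erase _ _ (Finset.mem_univ _)).symm
  have hR : OrdGE (P i₀) ((P i₀).ord T₀ + 1)
      (∑ p ∈ Finset.univ.erase (⟨i₀, e₀⟩ : Σ i, Fin (m i)),
        algebraMap L F (cc p : L) * ι (w p)) := by
    rw [hT₀ord]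
    refine ordGE_sum _ _ fun p hp => ?_
    have hpne : p ≠ ⟨i₀, e₀⟩ := Finset.ne_of_mem_erase hp
    obtain ⟨i, e'⟩ := p
    by_cases hi : i = i₀
    · subst hi
      have hne' : e' ≠ e₀ := fun h' => hpne (by rw [h'])
      rcases lt_or_gt_of_ne hne' with hlt' | hgt'
      · rw [hmin e' hlt']
        simp only [ZeroMemClass.coe_zero, map_zero, zero_mul]
        exact ordGE_zero_right _
      · refine OrdGE.const_mul ?_ _
        refine ordGE_of_ord ?_
        rw [(hw1 ⟨i, e'⟩).2]
        have : (e₀ : ℕ) < (e' : ℕ) := hgt'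
        exact_mod_cast this
    · refine OrdGE.const_mul ?_ _
      refine (hw2 ⟨i, e'⟩ i₀ (Ne.symm hi)).mono ?_
      have : (e₀ : ℕ) < m i₀ := e₀.2
      exact_mod_cast this
  obtain ⟨hne, hord⟩ := ord_add_of_ordGE hT₀ne hR
  have hJi := hWJ.2 i₀
  rw [hιW, hsplit] at hJi
  have := hJi.le_ord hne
  rw [hord, hT₀ord] at this
  have h2 : (e₀ : ℕ) < m i₀ := e₀.2
  have : (m i₀ : ℤ) ≤ ((e₀ : ℕ) : ℤ) := this
  omega

end LocalChart

end Fermat.Agent.S37.H518

end
-- ===== PACK-END S37/H518/Ineq.lean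

-- ===== PACK-BEGIN S27/Dim/Top.lean
section


/-!
# Row S27, block DIM: the top glue (proved)

* `connectedSpace_of_geometricallyConnected` : geometrically connected over a field ⇒ connected.
* `main_of_tan` : `D1 + Tan ⇒ Main`.
-/

set_option autoImplicit false
set_option linter.style.haveILetI false
universe u
open CategoryTheory CategoryTheory.Limits AlgebraicGeometry AlgebraicGeometry.RelPicard
  NeronModelInfra GoodReductionJacobian
open scoped TensorProduct

namespace Fermat.Agent.S27.Dim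

open Fermat.Agent.S25 Fermat.Agent.S27.H566

/-- A geometrically connected scheme over a field is connected. -/
theorem connectedSpace_of_geometricallyConnected {k : Type u} [Field k] {J : Scheme.{u}}
    (f : J ⟶ Spec (CommRingCat.of k)) (hf : GeometricallyConnected f) : ConnectedSpace J := by
  have := hf
  have h := f.isConnected_preimage_singleton (IsLocalRing.closedPoint k)
  refine connectedSpace_iff_univ.mpr ?_
  convert h using 1
  ext p
  simp only [Set.mem_preimage, Set.mem_univ, true_iff]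
  exact Subsingleton.elim _ _

/-- **DIM from D1 and TAN.** -/
theorem main_of_tan (k : Type u) [Field k] (hD1 : Stmt.D1 k) (hTan : Stmt.Tan k) :
    Stmt.Main k := by
  intro _ C c _ _ _ ε Ch D hrep hs hp hc
  exact hD1 D.toBase _ hs (connectedSpace_of_geometricallyConnected D.toBase hc)
    (hTan c ε Ch D hrep hs hp hc)

end Fermat.Agent.S27.Dim

end
-- ===== PACK-END S27/Dim/Top.lean

-- ===== PACK-BEGIN S27/H386/FF1Bridge.lean
section
/-
Row S27 by-product (helper386): the bridge from the RR library's standing hypothesis `FF1 K F`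
to the Prelude's `IsCurveOver K F` (over a perfect field), so that the torsion count of S27
applies to the function fields of (reductions of) modular curves.

* `essFiniteType_of_ff1` : `FF1 K F → Algebra.EssFiniteType K F`;
* `trdeg_eq_one_of_ff1`  : `FF1 K F → Algebra.trdeg K F = 1`;
* `isCurveOver_of_ff1`   : `FF1 K F → IsCurveOver K F` for `K` perfect.
-/




set_option autoImplicit false
set_option linter.style.haveILetI false

universe u

open AlgebraicCurve
open scoped IntermediateField.algebraAdjoinAdjoin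

namespace Fermat.Agent.S27.H386

open Fermat.Agent.Lib.RR

variable (K F : Type u) [Field K] [Field F] [Algebra K F]

/-- A function field in the sense of the RR library is essentially of finite type. -/
theorem essFiniteType_of_ff1 [h : FF1 K F] : Algebra.EssFiniteType K F := by
  obtain ⟨x, -, hfin⟩ := h.exists_finite
  haveI := hfin
  haveI : Algebra.EssFiniteType K (IntermediateField.adjoin K {x}) :=
    IntermediateField.essFiniteType_iff.mpr
      (IntermediateField.fg_adjoin_of_finite (Set.finite_singleton x))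
  exact Algebra.EssFiniteType.comp K (IntermediateField.adjoin K {x}) F

/-- A function field in the sense of the RR library has transcendence degree one. -/
theorem trdeg_eq_one_of_ff1 [h : FF1 K F] : Algebra.trdeg K F = 1 := by
  obtain ⟨x, hx, hfin⟩ := h.exists_finite
  haveI := hfin
  have hind : AlgebraicIndependent K (fun _ : PUnit.{u+1} => x) :=
    algebraicIndependent_unique_type_iff.mpr hx
  have hr : Set.range (fun _ : PUnit.{u+1} => x) = {x} := Set.range_const
  have halg : Algebra.IsAlgebraic (Algebra.adjoin K (Set.range fun _ : PUnit.{u+1} => x)) F := by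
    rw [hr]
    haveI : Algebra.IsAlgebraic (IntermediateField.adjoin K {x}) F :=
      Algebra.IsAlgebraic.of_finite _ _
    exact (IsFractionRing.comap_isAlgebraic_iff
      (A := Algebra.adjoin K {x}) (K := IntermediateField.adjoin K {x}) (C := F)).mpr
      inferInstance
  have hb : IsTranscendenceBasis K (fun _ : PUnit.{u+1} => x) :=
    hind.isTranscendenceBasis_iff_isAlgebraic.mpr halg
  rw [← hb.cardinalMk_eq_trdeg]
  simp

/-- **`FF1 ⟹ IsCurveOver`** over a perfect field. -/
theorem isCurveOver_of_ff1 [PerfectField K] [h : FF1 K F] : IsCurveOver K F := by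
  haveI := essFiniteType_of_ff1 K F
  refine { toHasPrincipalDivisors := h.hpd, finiteResidue := fun v => ?_,
           kaehler_free_rank_one := ⟨Module.Free.of_divisionRing F _, ?_⟩ }
  · have h1 : Module.finrank K v.ResidueField = 1 := h.deg_eq_one v
    exact Module.finite_of_finrank_pos (by omega)
  · have h1 := Fermat.Agent.S26.H86.finrank_kaehler_eq_trdeg_of_perfectField K F
    rw [trdeg_eq_one_of_ff1 K F] at h1
    exact_mod_cast h1

end Fermat.Agent.S27.H386

end
-- ===== PACK-END S27/H386/FF1Bridge.lean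

-- ===== PACK-BEGIN S18/H905/PlaceExists.lean
section





/-!
# S18 / H905 — existence of places, char-free (T2/T3 generic core)

`K ⊆ F` fields such that `F` is finite over `K(x)` for every transcendental `x`
(function field of one variable).  No hypothesis on the characteristic, no separability,
`K` arbitrary.

* `isPrincipalIdealRing_of_finite` : every valuation subring of `F` containing `K` is a PID
  (Stichtenoth Thm 1.1.6);
* `exists_place_ord_pos` : every transcendental `u` has a zero: a `Place` `v` with `0 < v.ord u`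
  (Chevalley + the previous item);
* `exists_place_ord_neg` : every transcendental `u` has a pole;
* `constOfOrdZero_of_finite` : for `K` algebraically closed, a function without zeros and poles is
  constant (shape of `H94.ConstOfOrdZero`).
-/

set_option autoImplicit false

open AlgebraicCurve IntermediateField Polynomial

namespace Fermat.Agent.S18.H905

variable {K F : Type*} [Field K] [Field F] [Algebra K F]

/-- The valuation of a valuation subring containing `K` is trivial on `K`. -/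
theorem valuation_algebraMap_eq_one (O : ValuationSubring F)
    (hK : ∀ c : K, algebraMap K F c ∈ O) (c : K) (hc : c ≠ 0) :
    O.valuation (algebraMap K F c) = 1 := by
  have h1 : O.valuation (algebraMap K F c) ≤ 1 := (O.valuation_le_one_iff _).mpr (hK c)
  have h2 : O.valuation (algebraMap K F c⁻¹) ≤ 1 := (O.valuation_le_one_iff _).mpr (hK c⁻¹)
  rw [map_inv₀, map_inv₀] at h2
  have h0 : O.valuation (algebraMap K F c) ≠ 0 :=
    (O.valuation.ne_zero_iff).mpr (by simpa using hc)
  refine le_antisymm h1 ?_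
  rwa [inv_le_one₀ (zero_lt_iff.mpr h0)] at h2

/-- Nonzero nonunits of a valuation subring containing `K` are transcendental over `K`. -/
theorem transcendental_of_mem_nonunits (O : ValuationSubring F)
    (hK : ∀ c : K, algebraMap K F c ∈ O) {x : F} (hx0 : x ≠ 0) (hx : x ∈ O.nonunits) :
    Transcendental K x := by
  rintro ⟨p, hp, hpx⟩
  have hlt : O.valuation x < 1 := (O.mem_nonunits_iff).mp hx
  obtain ⟨a, ha⟩ := exists_val_aeval_eq_pow O.valuation (valuation_algebraMap_eq_one O hK) hlt hp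
  rw [hpx, map_zero] at ha
  exact (O.valuation.ne_zero_iff).mpr hx0 (pow_eq_zero_iff (n := a + 1) (by omega) |>.mp (by
    rw [pow_succ, ← ha, zero_mul]))

/-- **Stichtenoth 1.1.6 (ACC part).** In a function field, a valuation subring containing the
constants has well-founded strict divisibility. -/
theorem wfDvdMonoid_of_finite (O : ValuationSubring F) (hK : ∀ c : K, algebraMap K F c ∈ O)
    (hfin : ∀ x : F, Transcendental K x → FiniteDimensional K⟮x⟯ F) : WfDvdMonoid O := by
  refine ⟨wellFounded_iff_isEmpty_descending_chain.mpr ⟨?_⟩⟩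
  rintro ⟨f, hf⟩
  set v := O.valuation with hv
  -- strict monotonicity of the values
  have hstep : ∀ n, v (f n : F) < v (f (n + 1) : F) := by
    intro n
    obtain ⟨hne, c, hc, hfc⟩ := hf n
    have hcv : v (c : F) < 1 := by
      rcases O.valuation_lt_one_or_eq_one c with h | h
      · exact h
      · exact absurd ((O.valuation_eq_one_iff c).mpr h) hc
    have hne' : v (f (n + 1) : F) ≠ 0 :=
      (v.ne_zero_iff).mpr (fun h => hne (Subtype.ext h))
    have : (f n : F) = (f (n + 1) : F) * (c : F) := by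
      rw [hfc]; rfl
    rw [this, map_mul]
    calc v (f (n + 1) : F) * v (c : F) < v (f (n + 1) : F) * 1 :=
          mul_lt_mul_of_pos_left hcv (zero_lt_iff.mpr hne')
      _ = v (f (n + 1) : F) := mul_one _
  have hmono : StrictMono fun n => v (f n : F) := strictMono_nat_of_lt_succ hstep
  have hle1 : ∀ n, v (f n : F) ≤ 1 := fun n => (O.valuation_le_one_iff _).mpr (f n).2
  have hlt1 : ∀ n, v (f n : F) < 1 := fun n => lt_of_lt_of_le (hstep n) (hle1 (n + 1))
  -- the base point `x = f 1`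
  have hx0 : (f 1 : F) ≠ 0 := fun h => (hf 0).1 (Subtype.ext h)
  have hxn : (f 1 : F) ∈ O.nonunits := (O.mem_nonunits_iff).mpr (hlt1 1)
  have htr : Transcendental K (f 1 : F) := transcendental_of_mem_nonunits O hK hx0 hxn
  have := hfin _ htr
  set d := Module.finrank K⟮(f 1 : F)⟯ F with hd
  have hcard := card_le_finrank_of_val_chain v (valuation_algebraMap_eq_one O hK) hx0 (hlt1 1)
    (fun i : Fin (d + 1) => (f (i.1 + 1) : F))
    (fun i j hij => by
      have := hmono.injective hij
      exact Fin.ext (by omega))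
    (fun i => hmono.monotone (by omega))
    (fun i => hlt1 _)
  rw [Fintype.card_fin] at hcard
  omega

/-- **Stichtenoth 1.1.6.** In a function field, every valuation subring containing the constants
is a principal ideal ring. -/
theorem isPrincipalIdealRing_of_finite (O : ValuationSubring F)
    (hK : ∀ c : K, algebraMap K F c ∈ O)
    (hfin : ∀ x : F, Transcendental K x → FiniteDimensional K⟮x⟯ F) :
    IsPrincipalIdealRing O :=
  ((IsBezout.TFAE (R := O)).out 3 1).mp (wfDvdMonoid_of_finite O hK hfin)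

/-- A valuation subring containing `K` in which a given nonzero element is a nonunit yields a
place. -/
def placeOfValuationSubring (O : ValuationSubring F) (hK : ∀ c : K, algebraMap K F c ∈ O)
    (hfin : ∀ x : F, Transcendental K x → FiniteDimensional K⟮x⟯ F)
    {u : F} (hu0 : u ≠ 0) (hu : u ∈ O.nonunits) : Place K F where
  toValuationSubring := O
  algebraMap_mem' := hK
  ne_top' := by
    rintro rfl
    have h1 : (⊤ : ValuationSubring F).valuation u < 1 :=
      ((⊤ : ValuationSubring F).mem_nonunits_iff).mp hu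
    have h2 : u⁻¹ ∈ (⊤ : ValuationSubring F) := ValuationSubring.mem_top _
    have h3 := ((⊤ : ValuationSubring F).valuation_le_one_iff _).mpr h2
    rw [map_inv₀] at h3
    have h0 : (⊤ : ValuationSubring F).valuation u ≠ 0 :=
      (Valuation.ne_zero_iff _).mpr hu0
    rw [inv_le_one₀ (zero_lt_iff.mpr h0)] at h3
    exact absurd h1 (not_lt.mpr h3)
  isPrincipalIdealRing' := isPrincipalIdealRing_of_finite O hK hfin

/-- **Existence of zeros.** In a function field every transcendental element has a zero. -/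
theorem exists_place_ord_pos
    (hfin : ∀ x : F, Transcendental K x → FiniteDimensional K⟮x⟯ F)
    (u : F) (hu : Transcendental K u) : ∃ v : Place K F, 0 < v.ord u := by
  have hu0 : u ≠ 0 := by
    rintro rfl
    exact hu ⟨X, X_ne_zero, by simp⟩
  -- the subring `K[u]` and its ideal `(u)`
  let A : Subring F := (Algebra.adjoin K {u}).toSubring
  have huA : u ∈ A := Algebra.self_mem_adjoin_singleton K u
  let I : Ideal A := Ideal.span {⟨u, huA⟩}
  have hI : I ≠ ⊤ := by
    intro h
    rw [Ideal.span_singleton_eq_top] at h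
    obtain ⟨⟨w, hw⟩, hw1⟩ := isUnit_iff_exists_inv.mp h
    have hw' : w ∈ Algebra.adjoin K {u} := hw
    rw [Algebra.adjoin_singleton_eq_range_aeval] at hw'
    obtain ⟨p, rfl⟩ := hw'
    have h1 : u * aeval u p = 1 := congrArg Subtype.val hw1
    apply hu
    refine ⟨X * p - 1, ?_, by simp [h1]⟩
    intro h0
    have := congrArg (fun q : K[X] => q.coeff 0) h0
    simp at this
  obtain ⟨O, hAO, hIO⟩ := Ideal.image_subset_nonunits_valuationSubring I hI
  have hK : ∀ c : K, algebraMap K F c ∈ O := fun c =>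
    hAO ((Algebra.adjoin K {u}).algebraMap_mem c)
  have huO : u ∈ O.nonunits :=
    hIO ⟨⟨u, huA⟩, Ideal.subset_span rfl, rfl⟩
  refine ⟨placeOfValuationSubring O hK hfin hu0 huO, ?_⟩
  exact (Fermat.Agent.S24.FF.ord_pos_iff_mem_nonunits _ hu0).mpr huO

/-- **Existence of poles.** In a function field every transcendental element has a pole. -/
theorem exists_place_ord_neg
    (hfin : ∀ x : F, Transcendental K x → FiniteDimensional K⟮x⟯ F)
    (u : F) (hu : Transcendental K u) : ∃ v : Place K F, v.ord u < 0 := by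
  have hinv : Transcendental K u⁻¹ := by
    intro h
    exact hu (by simpa using h.inv)
  obtain ⟨v, hv⟩ := exists_place_ord_pos hfin u⁻¹ hinv
  refine ⟨v, ?_⟩
  rw [v.ord_inv] at hv
  omega

/-- Finiteness over `K(x)` for one transcendental `x` gives it for all. -/
theorem finite_of_finite {x : F} (hx : Transcendental K x) [FiniteDimensional K⟮x⟯ F] :
    ∀ y : F, Transcendental K y → FiniteDimensional K⟮y⟯ F := fun _ hy =>
  Fermat.Agent.S24.FF.finiteDimensional_adjoin_of_transcendental hx hy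

/-- **CONST (char-free).** Over an algebraically closed constant field, a function without zeros
and poles is constant. -/
theorem constOfOrdZero_of_finite [IsAlgClosed K] {x : F} (hx : Transcendental K x)
    [FiniteDimensional K⟮x⟯ F] (u : F) (_hu0 : u ≠ 0) (hu : ∀ v : Place K F, v.ord u = 0) :
    ∃ c : K, u = algebraMap K F c := by
  by_contra hne
  have hur : u ∉ (algebraMap K F).range := fun ⟨c, hc⟩ => hne ⟨c, hc.symm⟩
  have htr := Fermat.Agent.S24.FF.transcendental_of_not_mem_range hur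
  obtain ⟨v, hv⟩ := exists_place_ord_pos (finite_of_finite hx) u htr
  rw [hu v] at hv
  exact lt_irrefl _ hv

end Fermat.Agent.S18.H905

end
-- ===== PACK-END S18/H905/PlaceExists.lean

-- ===== PACK-BEGIN S30/H709/PeriodLattice.lean
section






/-!
# S30-OCC, the period lattice

`perFun N γ` is the period functional `f ↦ ∫_z^{γ z} f` on `S₂(Γ₀(N))` (Prelude `periodMap`),
`perLattice N` is the subgroup of the dual of `S₂(Γ₀(N))` generated by the period functionals.
It is a finitely generated free abelian group; under the hypothesis `PeriodHecke N fac`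
(Hecke-equivariance of the period map: `λ_γ ∘ T_ℓ = ∑_{δ ∈ fac ℓ γ} λ_δ`) it is stable under the
transposes of all elements of the Hecke algebra, and the Hecke algebra acts faithfully on it
(`perRho`, `perRho_injective`).
-/

set_option autoImplicit false

noncomputable section

namespace Fermat.Agent.S30.H709

open CongruenceSubgroup ModularCurve ModularCurve.Period
open scoped MatrixGroups

/-- `SL(2, ℤ)` is finitely generated. -/
theorem fg_SL2Z : Group.FG SL(2, ℤ) :=
  Group.fg_iff.mpr ⟨{ModularGroup.S, ModularGroup.T}, SpecialLinearGroup.SL2Z_generators,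
    Set.toFinite _⟩

/-- `Γ₀(N)` is finitely generated (Schreier). -/
theorem fg_Gamma0 (N : ℕ) [NeZero N] : Group.FG (Gamma0 N) := by
  have := fg_SL2Z
  exact Subgroup.fg_of_index_ne_zero (Gamma0 N)

section PerFun

variable (N : ℕ) [NeZero N]

/-- The period functional `λ_γ : f ↦ periodMap N f γ` on weight-2 cusp forms. -/
def perFun (γ : Gamma0 N) : Module.Dual ℂ (CuspForm (Gamma0 N) 2) where
  toFun f := periodMap N f (Additive.ofMul γ)
  map_add' f g := by rw [Fermat.Agent.S21.H381.periodMap_add]; rfl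
  map_smul' a f := by rw [Fermat.Agent.S21.H381.periodMap_smul]; rfl

theorem perFun_apply (γ : Gamma0 N) (f : CuspForm (Gamma0 N) 2) :
    perFun N γ f = periodMap N f (Additive.ofMul γ) := rfl

theorem perFun_mul (γ δ : Gamma0 N) : perFun N (γ * δ) = perFun N γ + perFun N δ := by
  refine LinearMap.ext fun f => ?_
  rw [LinearMap.add_apply, perFun_apply, perFun_apply, perFun_apply, ofMul_mul, map_add]

theorem perFun_one : perFun N 1 = 0 := by
  refine LinearMap.ext fun f => ?_
  rw [perFun_apply, ofMul_one, map_zero, LinearMap.zero_apply]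

theorem perFun_inv (γ : Gamma0 N) : perFun N γ⁻¹ = - perFun N γ := by
  refine LinearMap.ext fun f => ?_
  rw [LinearMap.neg_apply, perFun_apply, perFun_apply, ofMul_inv, map_neg]

/-- Period functionals vanish on elements of trace `±2`. -/
theorem perFun_eq_zero_of_trace (γ : Gamma0 N)
    (hγ : ((γ : SL(2, ℤ)) : Matrix (Fin 2) (Fin 2) ℤ).trace ^ 2 = 4) : perFun N γ = 0 := by
  refine LinearMap.ext fun f => ?_
  rw [perFun_apply, LinearMap.zero_apply]
  exact (mem_parabolicHoms_iff.mp (Fermat.Agent.S21.H381.periodMap_mem_parabolicHoms f)) γ hγ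

/-- The period map is injective on cusp forms. -/
theorem periodMap_eq_zero {f : CuspForm (Gamma0 N) 2} (hf : periodMap N f = 0) : f = 0 := by
  have hinj := Fermat.Agent.S21.H81.injective_periodHomPair_of N
    (Fermat.Agent.S21.H381.existsPeriodMapLinear N)
    (fun f => Fermat.Agent.S21.H381.exists_hasEquivariantPrimitive f)
  have h0 : periodHomPair N (f, f) = periodHomPair N 0 := by
    rw [Fermat.Agent.S21.H381.periodHomPair_apply, hf, map_zero, map_zero]
    simp
  have := hinj h0
  exact congrArg Prod.fst this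

/-- The period lattice: the subgroup of the dual of `S₂(Γ₀(N))` generated by the period
functionals. -/
def perLattice : Submodule ℤ (Module.Dual ℂ (CuspForm (Gamma0 N) 2)) :=
  Submodule.span ℤ (Set.range (perFun N))

theorem perFun_mem_perLattice (γ : Gamma0 N) : perFun N γ ∈ perLattice N :=
  Submodule.subset_span ⟨γ, rfl⟩

theorem perLattice_fg : (perLattice N).FG := by
  obtain ⟨G, hG, hfin⟩ := Group.fg_iff.mp (fg_Gamma0 N)
  have hle : perLattice N ≤ Submodule.span ℤ (perFun N '' G) := by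
    refine Submodule.span_le.mpr ?_
    rintro _ ⟨γ, rfl⟩
    have hγ : γ ∈ Subgroup.closure G := by rw [hG]; exact Subgroup.mem_top γ
    induction hγ using Subgroup.closure_induction with
    | mem x hx => exact Submodule.subset_span ⟨x, hx, rfl⟩
    | one => rw [perFun_one]; exact Submodule.zero_mem _
    | mul x y _ _ hx hy => rw [perFun_mul]; exact Submodule.add_mem _ hx hy
    | inv x _ hx => rw [perFun_inv]; exact Submodule.neg_mem _ hx
  have heq : perLattice N = Submodule.span ℤ (perFun N '' G) :=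
    le_antisymm hle (Submodule.span_mono (Set.image_subset_range _ _))
  rw [heq]
  exact Submodule.fg_span (hfin.image _)

instance perLattice_finite : Module.Finite ℤ (perLattice N) :=
  Module.Finite.iff_fg.mpr (perLattice_fg N)

instance perLattice_free : Module.Free ℤ (perLattice N) :=
  Module.free_of_finite_type_torsion_free'

end PerFun

section Hecke

variable (N : ℕ) [NeZero N]

/-- **Hypothesis `PeriodHecke`** (Hecke-equivariance of the period map, to be supplied by the
`M4a`/`E2a` owners): for every prime `ℓ ∤ N`, the period of `T_ℓ f` along `γ` is the sum of the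
periods of `f` along the elements of the multiset `fac ℓ γ`
(`= {γ'ᵢ}` with `αᵢ γ = γ'ᵢ α_{π i}`, `αᵢ` the standard coset representatives of `T_ℓ`). -/
def PeriodHecke (fac : ℕ → Gamma0 N → Multiset (Gamma0 N)) : Prop :=
  ∀ (ℓ : ℕ) (hℓ : ℓ.Prime) (hℓN : ¬ ℓ ∣ N) (f : CuspForm (Gamma0 N) 2) (γ : Gamma0 N),
    periodMap N (CuspForm.heckeTLin 2 hℓ hℓN f) (Additive.ofMul γ)
      = ((fac ℓ γ).map fun δ => periodMap N f (Additive.ofMul δ)).sum

variable {N}

theorem PeriodHecke.transpose_perFun {fac : ℕ → Gamma0 N → Multiset (Gamma0 N)}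
    (hPH : PeriodHecke N fac) {ℓ : ℕ} (hℓ : ℓ.Prime) (hℓN : ¬ ℓ ∣ N) (γ : Gamma0 N) :
    Module.Dual.transpose (CuspForm.heckeTLin 2 hℓ hℓN) (perFun N γ)
      = ((fac ℓ γ).map (perFun N)).sum := by
  refine LinearMap.ext fun f => ?_
  rw [Module.Dual.transpose_apply, LinearMap.comp_apply, perFun_apply, hPH ℓ hℓ hℓN f γ]
  have : ∀ m : Multiset (Gamma0 N),
      ((m.map (perFun N)).sum : Module.Dual ℂ (CuspForm (Gamma0 N) 2)) f
        = (m.map fun δ => periodMap N f (Additive.ofMul δ)).sum := by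
    intro m
    induction m using Multiset.induction_on with
    | empty => simp
    | cons a m ih =>
      rw [Multiset.map_cons, Multiset.sum_cons, LinearMap.add_apply, ih, Multiset.map_cons,
        Multiset.sum_cons, perFun_apply]
  rw [this]

/-- Under `PeriodHecke`, and when `S` contains the primes dividing `N`, the period lattice is
stable under the transpose of every element of the Hecke algebra. -/
theorem transpose_mem_perLattice {fac : ℕ → Gamma0 N → Multiset (Gamma0 N)}
    (hPH : PeriodHecke N fac) {S : Set ℕ} (hNS : ∀ q : ℕ, q.Prime → q ∣ N → q ∈ S)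
    {t : Module.End ℂ (CuspForm (Gamma0 N) 2)} (ht : t ∈ CuspForm.heckeAlgebra N 2 S)
    {x : Module.Dual ℂ (CuspForm (Gamma0 N) 2)} (hx : x ∈ perLattice N) :
    Module.Dual.transpose t x ∈ perLattice N := by
  induction ht using Algebra.adjoin_induction generalizing x with
  | mem t ht =>
    rcases ht with ⟨ℓ, hℓ, hℓN, -, rfl⟩ | ⟨q, hqN, hq, hqS, rfl⟩
    · induction hx using Submodule.span_induction with
      | mem y hy =>
        obtain ⟨γ, rfl⟩ := hy
        rw [hPH.transpose_perFun hℓ hℓN γ]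
        refine multiset_sum_mem _ ?_
        intro z hz
        obtain ⟨δ, -, rfl⟩ := Multiset.mem_map.mp hz
        exact perFun_mem_perLattice N δ
      | zero => rw [map_zero]; exact Submodule.zero_mem _
      | add y z _ _ hy hz => rw [map_add]; exact Submodule.add_mem _ hy hz
      | smul n y _ hy =>
        have : Module.Dual.transpose (CuspForm.heckeTLin 2 hℓ hℓN) (n • y)
            = n • Module.Dual.transpose (CuspForm.heckeTLin 2 hℓ hℓN) y := map_zsmul _ _ _
        rw [this]
        exact Submodule.smul_mem _ _ hy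
    · exact absurd (hNS q hq hqN) hqS
  | algebraMap n =>
    have : Module.Dual.transpose (algebraMap ℤ (Module.End ℂ (CuspForm (Gamma0 N) 2)) n) x
        = n • x := by
      refine LinearMap.ext fun f => ?_
      rw [Module.Dual.transpose_apply, LinearMap.comp_apply, Module.algebraMap_end_apply,
        map_zsmul, LinearMap.smul_apply]
    rw [this]
    exact Submodule.smul_mem _ _ hx
  | add t s _ _ iht ihs =>
    rw [map_add, LinearMap.add_apply]
    exact Submodule.add_mem _ (iht hx) (ihs hx)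
  | mul t s _ _ iht ihs =>
    have : Module.Dual.transpose (t * s) x
        = Module.Dual.transpose s (Module.Dual.transpose t x) := by
      refine LinearMap.ext fun f => ?_
      simp only [Module.Dual.transpose_apply, LinearMap.comp_apply, Module.End.mul_apply]
    rw [this]
    exact ihs (iht hx)

/-- The transpose of a Hecke operator, restricted to the period lattice. -/
def perRhoAux {fac : ℕ → Gamma0 N → Multiset (Gamma0 N)}
    (hPH : PeriodHecke N fac) {S : Set ℕ} (hNS : ∀ q : ℕ, q.Prime → q ∣ N → q ∈ S)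
    (t : CuspForm.heckeAlgebra N 2 S) : Module.End ℤ (perLattice N) :=
  ((Module.Dual.transpose (R := ℂ)
      (t : Module.End ℂ (CuspForm (Gamma0 N) 2))).restrictScalars ℤ).restrict
        (p := perLattice N) (q := perLattice N) (fun _ hx => transpose_mem_perLattice hPH hNS t.2 hx)

theorem perRhoAux_apply {fac : ℕ → Gamma0 N → Multiset (Gamma0 N)}
    (hPH : PeriodHecke N fac) {S : Set ℕ} (hNS : ∀ q : ℕ, q.Prime → q ∣ N → q ∈ S)
    (t : CuspForm.heckeAlgebra N 2 S) (x : perLattice N) (f : CuspForm (Gamma0 N) 2) :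
    ((perRhoAux hPH hNS t x : perLattice N) : Module.Dual ℂ (CuspForm (Gamma0 N) 2)) f
      = (x : Module.Dual ℂ (CuspForm (Gamma0 N) 2))
          ((t : Module.End ℂ (CuspForm (Gamma0 N) 2)) f) :=
  rfl

/-- The action of the Hecke algebra on the period lattice (by transposes). -/
def perRho {fac : ℕ → Gamma0 N → Multiset (Gamma0 N)}
    (hPH : PeriodHecke N fac) {S : Set ℕ} (hNS : ∀ q : ℕ, q.Prime → q ∣ N → q ∈ S) :
    CuspForm.heckeAlgebra N 2 S →+* Module.End ℤ (perLattice N) where
  toFun t := perRhoAux hPH hNS t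
  map_one' := by
    refine LinearMap.ext fun x => Subtype.ext ?_
    refine LinearMap.ext fun f => ?_
    rw [perRhoAux_apply]
    rfl
  map_mul' t s := by
    refine LinearMap.ext fun x => Subtype.ext ?_
    refine LinearMap.ext fun f => ?_
    rw [Module.End.mul_apply, perRhoAux_apply, perRhoAux_apply, perRhoAux_apply, mul_comm t s]
    rfl
  map_zero' := by
    refine LinearMap.ext fun x => Subtype.ext ?_
    refine LinearMap.ext fun f => ?_
    rw [perRhoAux_apply]
    simp
  map_add' t s := by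
    refine LinearMap.ext fun x => Subtype.ext ?_
    refine LinearMap.ext fun f => ?_
    rw [LinearMap.add_apply, Submodule.coe_add, LinearMap.add_apply, perRhoAux_apply,
      perRhoAux_apply, perRhoAux_apply, Subalgebra.coe_add, LinearMap.add_apply, map_add]

theorem perRho_apply_apply {fac : ℕ → Gamma0 N → Multiset (Gamma0 N)}
    (hPH : PeriodHecke N fac) {S : Set ℕ} (hNS : ∀ q : ℕ, q.Prime → q ∣ N → q ∈ S)
    (t : CuspForm.heckeAlgebra N 2 S) (x : perLattice N) (f : CuspForm (Gamma0 N) 2) :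
    ((perRho hPH hNS t x : perLattice N) : Module.Dual ℂ (CuspForm (Gamma0 N) 2)) f
      = (x : Module.Dual ℂ (CuspForm (Gamma0 N) 2))
          ((t : Module.End ℂ (CuspForm (Gamma0 N) 2)) f) :=
  rfl

/-- The Hecke algebra acts faithfully on the period lattice. -/
theorem perRho_injective {fac : ℕ → Gamma0 N → Multiset (Gamma0 N)}
    (hPH : PeriodHecke N fac) {S : Set ℕ} (hNS : ∀ q : ℕ, q.Prime → q ∣ N → q ∈ S) :
    Function.Injective (perRho hPH hNS : CuspForm.heckeAlgebra N 2 S →+* _) := by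
  rw [injective_iff_map_eq_zero]
  intro t ht
  apply Subtype.ext
  refine LinearMap.ext fun f => ?_
  rw [ZeroMemClass.coe_zero, LinearMap.zero_apply]
  apply periodMap_eq_zero N
  refine AddMonoidHom.ext fun γ => ?_
  obtain ⟨γ, rfl⟩ : ∃ γ' : Gamma0 N, Additive.ofMul γ' = γ := ⟨Additive.toMul γ, rfl⟩
  have h1 := congrArg (fun u : Module.End ℤ (perLattice N) =>
    ((u ⟨perFun N γ, perFun_mem_perLattice N γ⟩ : perLattice N) :
      Module.Dual ℂ (CuspForm (Gamma0 N) 2)) f) ht
  simp only [perRho_apply_apply, perFun_apply,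
    LinearMap.zero_apply, ZeroMemClass.coe_zero] at h1
  rw [h1, AddMonoidHom.zero_apply]

end Hecke

end Fermat.Agent.S30.H709

end
end
-- ===== PACK-END S30/H709/PeriodLattice.lean

-- ===== PACK-BEGIN S31/H22/Assembly.lean
section




/-!
# S31 piece E (helper22): assembly

`unramified_of_parts`: from `S30Statement`, `ChebStatement`, `PTS` and the trace criterion (piece A,
taken here as a hypothesis `hA` on the given representation) deduce that `H.ρ` is unramified
outside `S`.
-/

set_option autoImplicit false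

open Polynomial

namespace Fermat.Agent.S31.H22

open Fermat.Agent.S31

/-! ### E0: pulling back powers of the maximal ideal along an injective map from a DVR -/

lemma exists_pow_comap_le {O O' : Type} [CommRing O] [IsDomain O] [IsDiscreteValuationRing O]
    [CommRing O'] [IsLocalRing O'] [IsNoetherianRing O'] (φ : O →+* O')
    (hφ : Function.Injective φ) (n : ℕ) :
    ∃ k : ℕ, ∀ x : O, φ x ∈ IsLocalRing.maximalIdeal O' ^ k → x ∈ IsLocalRing.maximalIdeal O ^ n := by
  by_contra hcon
  push Not at hcon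
  obtain ⟨ϖ, hϖ⟩ := IsDiscreteValuationRing.exists_irreducible O
  have hm : IsLocalRing.maximalIdeal O = Ideal.span {ϖ} := hϖ.maximalIdeal_eq
  -- `φ (ϖ ^ n)` lies in every power of the maximal ideal
  have hall : ∀ k : ℕ, φ (ϖ ^ n) ∈ IsLocalRing.maximalIdeal O' ^ k := by
    intro k
    obtain ⟨x, hx, hxn⟩ := hcon k
    have hx0 : x ≠ 0 := by
      rintro rfl
      exact hxn (Ideal.zero_mem _)
    obtain ⟨a, u, rfl⟩ := IsDiscreteValuationRing.eq_unit_mul_pow_irreducible hx0 hϖ
    have han : a < n := by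
      by_contra h
      push Not at h
      apply hxn
      rw [hm, Ideal.span_singleton_pow, Ideal.mem_span_singleton]
      exact Dvd.dvd.mul_left (pow_dvd_pow ϖ h) _
    have : ϖ ^ n = (ϖ ^ (n - a) * ↑u⁻¹) * (↑u * ϖ ^ a) := by
      have h1 : ϖ ^ n = ϖ ^ (n - a) * ϖ ^ a := by
        rw [← pow_add]; congr 1; omega
      rw [h1]
      have h2 : (↑u⁻¹ : O) * ↑u = 1 := by simp
      calc ϖ ^ (n - a) * ϖ ^ a = ϖ ^ (n - a) * ((↑u⁻¹ : O) * ↑u) * ϖ ^ a := by rw [h2, mul_one]
        _ = _ := by ring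
    rw [this, map_mul]
    exact Ideal.mul_mem_left _ _ hx
  have hzero : φ (ϖ ^ n) = 0 := by
    have h1 : φ (ϖ ^ n) ∈ ⨅ k, IsLocalRing.maximalIdeal O' ^ k := by
      rw [Ideal.mem_iInf]; exact hall
    rw [Ideal.iInf_pow_eq_bot_of_isLocalRing _ (Ideal.IsMaximal.ne_top inferInstance)] at h1
    simpa using h1
  have : ϖ ^ n = 0 := hφ (by rw [hzero, map_zero])
  exact pow_ne_zero n hϖ.ne_zero this

/-! ### E1: approximating traces by Hecke elements -/

section E1

variable {N : ℕ} [NeZero N] {S : Finset ℕ}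

/-- the Hecke element computing the trace of the `j`-th power of a Frobenius at `ℓ` -/
noncomputable def heckePow {ℓ : ℕ} (hℓ : ℓ.Prime) (hℓN : ¬ ℓ ∣ N) (hℓS : ℓ ∉ (↑S : Set ℕ))
    (j : ℕ) : CuspForm.heckeAlgebra N 2 (↑S : Set ℕ) :=
  powTr (CuspForm.heckeAlgebra.T hℓ hℓN hℓS) (ℓ : CuspForm.heckeAlgebra N 2 (↑S : Set ℕ)) j

/-- the Frobenius condition relating a representation over `A` and a character of the Hecke
algebra -/
def FrobCond {A : Type} [CommRing A] [IsLocalRing A] (ρ : GaloisRepAdic A)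
    (φ : CuspForm.heckeAlgebra N 2 (↑S : Set ℕ) →+* A) : Prop :=
  ∀ (ℓ : ℕ) (hℓ : ℓ.Prime) (hℓN : ¬ ℓ ∣ N) (hℓS : ℓ ∉ (↑S : Set ℕ)),
    ∀ B : ValuationSubring Qb, B.LiesOverPrime ℓ →
      ∀ σ : GQ, B.IsFrobeniusAt σ ℓ →
        LinearMap.charpoly (ρ.ρ σ) =
          X ^ 2 - C (φ (CuspForm.heckeAlgebra.T hℓ hℓN hℓS)) * X + C ((ℓ : A))

lemma trace_sub_hecke_mem {A : Type} [CommRing A] [IsLocalRing A] (ρ : GaloisRepAdic A)
    (φ : CuspForm.heckeAlgebra N 2 (↑S : Set ℕ) →+* A) (hfrob : FrobCond ρ φ)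
    (n : ℕ) (L : IntermediateField ℚ Qb)
    (hL : ∀ g g' : GQ, (∀ x ∈ L, g x = g' x) →
      ρ.trace g - ρ.trace g' ∈ IsLocalRing.maximalIdeal A ^ n)
    (g : GQ) {ℓ : ℕ} (hℓ : ℓ.Prime) (hℓN : ¬ ℓ ∣ N) (hℓS : ℓ ∉ (↑S : Set ℕ))
    (B : ValuationSubring Qb) (hB : B.LiesOverPrime ℓ) (σ : GQ) (hσ : B.IsFrobeniusAt σ ℓ)
    (j : ℕ) (hj : ∀ x ∈ L, (σ ^ j) x = g x) :
    ρ.trace g - φ (heckePow hℓ hℓN hℓS j) ∈ IsLocalRing.maximalIdeal A ^ n := by
  have h1 := hL g (σ ^ j) (fun x hx => (hj x hx).symm)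
  have h2 : ρ.trace (σ ^ j) = φ (heckePow hℓ hℓN hℓS j) := by
    rw [heckePow, map_powTr, map_natCast]
    show LinearMap.trace A ρ.V (ρ.ρ (σ ^ j)) = _
    rw [map_pow]
    exact trace_pow_of_charpoly ρ.finrank_eq _ _ _ (hfrob ℓ hℓ hℓN hℓS B hB σ hσ) j
  rwa [h2] at h1

end E1

/-! ### E3: the per-point lemma -/

section E3

variable {p : ℕ} {N : ℕ} [NeZero N] {S : Finset ℕ}

/-- `τ` lies in an inertia group at a prime outside `S`. -/
def IsInertialOutside (S : Finset ℕ) (τ : GQ) : Prop :=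
  ∃ q : ℕ, q.Prime ∧ q ∉ S ∧ ∃ B : ValuationSubring Qb, B.LiesOverPrime q ∧
    τ ∈ B.inertiaSubgroupIn ℚ

lemma exists_field_of_point (h30 : S30Statement) (hp : p.Prime) (hpS : p ∈ S)
    (hNS : ∀ q : ℕ, q.Prime → q ∣ N → q ∈ S)
    (P : PadicPoint p (CuspForm.heckeAlgebra N 2 (↑S : Set ℕ))) (n' : ℕ) :
    ∃ L : IntermediateField ℚ Qb, FiniteDimensional ℚ L ∧
      ∀ (g τ : GQ), IsInertialOutside S τ →
      ∀ {ℓ : ℕ} (hℓ : ℓ.Prime) (hℓN : ¬ ℓ ∣ N) (hℓS : ℓ ∉ (↑S : Set ℕ))
        (B : ValuationSubring Qb) (_ : B.LiesOverPrime ℓ) (σ : GQ) (_ : B.IsFrobeniusAt σ ℓ)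
        (j : ℕ) (_ : ∀ x ∈ L, (σ ^ j) x = g x)
        {ℓ' : ℕ} (hℓ' : ℓ'.Prime) (hℓN' : ¬ ℓ' ∣ N) (hℓS' : ℓ' ∉ (↑S : Set ℕ))
        (B' : ValuationSubring Qb) (_ : B'.LiesOverPrime ℓ') (σ' : GQ)
        (_ : B'.IsFrobeniusAt σ' ℓ')
        (j' : ℕ) (_ : ∀ x ∈ L, (σ' ^ j') x = (g * τ) x),
        P.χ (heckePow hℓ hℓN hℓS j - heckePow hℓ' hℓN' hℓS' j') ∈
          IsLocalRing.maximalIdeal P.O ^ n' := by
  have : Fact p.Prime := ⟨hp⟩
  obtain ⟨O'', i1, i2, i3, i4, i5, i6, i7, i8, i9, hinj, ρ'', hfrob, hunr⟩ :=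
    h30 p N S hpS hNS P.O P.hp P.χ
  obtain ⟨k, hk⟩ := exists_pow_comap_le (algebraMap P.O O'') hinj n'
  obtain ⟨L, hLfin, hL⟩ := trace_congr_of_agree ρ'' k
  refine ⟨L, hLfin, ?_⟩
  intro g τ hτ ℓ hℓ hℓN hℓS B hB σ hσ j hj ℓ' hℓ' hℓN' hℓS' B' hB' σ' hσ' j' hj'
  have hfc : FrobCond ρ'' ((algebraMap P.O O'').comp P.χ) := by
    intro ℓ hℓ hℓN hℓS B hB σ hσ
    exact hfrob ℓ hℓ hℓN hℓS B hB σ hσ
  have e1 := trace_sub_hecke_mem ρ'' _ hfc k L hL g hℓ hℓN hℓS B hB σ hσ j hj
  have e2 := trace_sub_hecke_mem ρ'' _ hfc k L hL (g * τ) hℓ' hℓN' hℓS' B' hB' σ' hσ' j' hj'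
  -- `ρ''` is unramified at `τ`
  obtain ⟨q, hq, hqS, Bq, hBq, hτq⟩ := hτ
  have hqN : ¬ q ∣ N := fun h => hqS (hNS q hq h)
  have hqp : q ≠ p := fun h => hqS (h ▸ hpS)
  have hτ1 : ρ''.ρ τ = 1 := hunr q hq hqN hqp Bq hBq τ hτq
  have htr : ρ''.trace (g * τ) = ρ''.trace g := by
    show LinearMap.trace O'' ρ''.V (ρ''.ρ (g * τ)) = LinearMap.trace O'' ρ''.V (ρ''.ρ g)
    rw [map_mul, hτ1, mul_one]
  rw [htr] at e2
  apply hk
  have : algebraMap P.O O'' (P.χ (heckePow hℓ hℓN hℓS j - heckePow hℓ' hℓN' hℓS' j')) =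
      (ρ''.trace g - ((algebraMap P.O O'').comp P.χ) (heckePow hℓ' hℓN' hℓS' j')) -
      (ρ''.trace g - ((algebraMap P.O O'').comp P.χ) (heckePow hℓ hℓN hℓS j)) := by
    simp only [RingHom.comp_apply, map_sub]
    ring
  rw [this]
  exact Ideal.sub_mem _ e2 e1

end E3

/-! ### finite suprema of finite-dimensional intermediate fields -/

lemma exists_sup_of_list {α : Type*} (F : List α) (L : α → IntermediateField ℚ Qb)
    (hL : ∀ a, FiniteDimensional ℚ (L a)) :
    ∃ E : IntermediateField ℚ Qb, FiniteDimensional ℚ E ∧ ∀ a ∈ F, L a ≤ E := by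
  induction F with
  | nil => exact ⟨⊥, inferInstance, by simp⟩
  | cons a F ih =>
    obtain ⟨E, hE, hle⟩ := ih
    have := hL a
    refine ⟨L a ⊔ E, IntermediateField.finiteDimensional_sup _ _, ?_⟩
    intro b hb
    rcases List.mem_cons.mp hb with rfl | hb
    · exact le_sup_left
    · exact (hle b hb).trans le_sup_right

/-! ### E: the main argument -/

section Main

variable {p : ℕ} {N : ℕ} [NeZero N] {S : Finset ℕ}
  {𝒪 : Type} [CommRing 𝒪] [IsDomain 𝒪] [IsDiscreteValuationRing 𝒪]
  [IsAdicComplete (IsLocalRing.maximalIdeal 𝒪) 𝒪]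
  {θ : CuspForm.heckeAlgebra N 2 (↑S : Set ℕ) →+* IsLocalRing.ResidueField 𝒪}
  {T : Type} [CommRing T] [IsLocalRing T] [IsNoetherianRing T]
  [IsAdicComplete (IsLocalRing.maximalIdeal T) T] [Algebra 𝒪 T] [IsLocalHom (algebraMap 𝒪 T)]
  [Module.Finite 𝒪 T] [Module.Free 𝒪 T]

/-- traces are invariant under right multiplication by inertia outside `S` -/
theorem trace_mul_inertia (h30 : S30Statement) (hcheb : ChebStatement) (hp : p.Prime)
    (hp𝒪 : (p : 𝒪) ∈ IsLocalRing.maximalIdeal 𝒪) (hpS : p ∈ S)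
    (hNS : ∀ q : ℕ, q.Prime → q ∣ N → q ∈ S)
    (hPTS : PTS p (CuspForm.heckeAlgebra N 2 (↑S : Set ℕ)))
    (H : CuspForm.HeckeGaloisRepDatum N (↑S : Set ℕ) 𝒪 θ T)
    (τ : GQ) (hτ : IsInertialOutside S τ) (g : GQ) :
    H.ρ.trace (g * τ) = H.ρ.trace g := by
  -- Krull intersection
  rw [← sub_eq_zero]
  have hK : (⨅ n, IsLocalRing.maximalIdeal T ^ n) = ⊥ :=
    Ideal.iInf_pow_eq_bot_of_isLocalRing _ (Ideal.IsMaximal.ne_top inferInstance)
  suffices h : H.ρ.trace (g * τ) - H.ρ.trace g ∈ ⨅ n, IsLocalRing.maximalIdeal T ^ n by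
    rw [hK] at h; simpa using h
  rw [Ideal.mem_iInf]
  intro n
  -- the prime `m` of the Hecke algebra
  set m : Ideal (CuspForm.heckeAlgebra N 2 (↑S : Set ℕ)) :=
    Ideal.comap H.π (IsLocalRing.maximalIdeal T) with hm
  have hmprime : m.IsPrime := Ideal.comap_isPrime _ _
  have hpT : (p : T) ∈ IsLocalRing.maximalIdeal T := by
    have h1 : (p : T) = algebraMap 𝒪 T (p : 𝒪) := by simp
    rw [h1, IsLocalRing.mem_maximalIdeal, mem_nonunits_iff]
    intro hu
    exact (IsLocalRing.mem_maximalIdeal _).mp hp𝒪 (isUnit_of_map_unit (algebraMap 𝒪 T) _ hu)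
  have hpm : (p : CuspForm.heckeAlgebra N 2 (↑S : Set ℕ)) ∈ m := by
    rw [hm, Ideal.mem_comap, map_natCast]; exact hpT
  obtain ⟨F, n', hF⟩ := hPTS m hmprime hpm n
  -- fields
  have hpt := fun P : PadicPoint p (CuspForm.heckeAlgebra N 2 (↑S : Set ℕ)) =>
    exists_field_of_point h30 hp hpS hNS P n'
  choose LP hLPfin hLP using hpt
  obtain ⟨E₁, hE₁fin, hE₁⟩ := exists_sup_of_list F LP hLPfin
  obtain ⟨L₀, hL₀fin, hL₀⟩ := trace_congr_of_agree H.ρ n
  have := hE₁fin
  have := hL₀fin
  set E : IntermediateField ℚ Qb := L₀ ⊔ E₁ with hE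
  have hEfin : FiniteDimensional ℚ E := IntermediateField.finiteDimensional_sup _ _
  -- Frobenius data for `g` and `g * τ`
  obtain ⟨ℓ, B, σ, k, j, hℓ, hℓS, hB, hσ, -, -, hj⟩ := hcheb E hEfin g S
  obtain ⟨ℓ', B', σ', k', j', hℓ', hℓS', hB', hσ', -, -, hj'⟩ := hcheb E hEfin (g * τ) S
  have hℓN : ¬ ℓ ∣ N := fun h => hℓS (hNS ℓ hℓ h)
  have hℓN' : ¬ ℓ' ∣ N := fun h => hℓS' (hNS ℓ' hℓ' h)
  have hℓS1 : ℓ ∉ (↑S : Set ℕ) := by simpa using hℓS
  have hℓS1' : ℓ' ∉ (↑S : Set ℕ) := by simpa using hℓS'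
  have hL₀E : L₀ ≤ E := le_sup_left
  have hE₁E : E₁ ≤ E := le_sup_right
  -- approximation for `H.ρ`
  have hfc : FrobCond H.ρ H.π := fun ℓ hℓ hℓN hℓS B hB σ hσ =>
    H.charpoly_frob ℓ hℓ hℓN hℓS B hB σ hσ
  have e1 := trace_sub_hecke_mem H.ρ H.π hfc n L₀ hL₀ g hℓ hℓN hℓS1 B hB σ hσ j
    (fun x hx => hj x (hL₀E hx))
  have e2 := trace_sub_hecke_mem H.ρ H.π hfc n L₀ hL₀ (g * τ) hℓ' hℓN' hℓS1' B' hB' σ' hσ' j'
    (fun x hx => hj' x (hL₀E hx))
  -- the difference of the Hecke elements lies in `m ^ n`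
  have hdiff : heckePow hℓ hℓN hℓS1 j - heckePow hℓ' hℓN' hℓS1' j' ∈ m ^ n := by
    apply hF
    intro P hP
    exact hLP P g τ hτ hℓ hℓN hℓS1 B hB σ hσ j (fun x hx => hj x (hE₁E (hE₁ P hP hx)))
      hℓ' hℓN' hℓS1' B' hB' σ' hσ' j' (fun x hx => hj' x (hE₁E (hE₁ P hP hx)))
  have hπ : H.π (heckePow hℓ hℓN hℓS1 j - heckePow hℓ' hℓN' hℓS1' j') ∈
      IsLocalRing.maximalIdeal T ^ n := by
    have h1 : (m ^ n).map H.π ≤ IsLocalRing.maximalIdeal T ^ n := by
      rw [Ideal.map_pow]
      exact Ideal.pow_right_mono (Ideal.map_comap_le) n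
    exact h1 (Ideal.mem_map_of_mem _ hdiff)
  have : H.ρ.trace (g * τ) - H.ρ.trace g =
      (H.ρ.trace (g * τ) - H.π (heckePow hℓ' hℓN' hℓS1' j')) -
      (H.ρ.trace g - H.π (heckePow hℓ hℓN hℓS1 j)) -
      H.π (heckePow hℓ hℓN hℓS1 j - heckePow hℓ' hℓN' hℓS1' j') := by
    rw [map_sub]; ring
  rw [this]
  exact Ideal.sub_mem _ (Ideal.sub_mem _ e2 e1) hπ

/-- **E** with the trace criterion (piece A) as a hypothesis on `H.ρ`. -/
theorem unramified_of_parts_of_criterion (h30 : S30Statement) (hcheb : ChebStatement)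
    (hp : p.Prime)
    (hp𝒪 : (p : 𝒪) ∈ IsLocalRing.maximalIdeal 𝒪) (hpS : p ∈ S)
    (hNS : ∀ q : ℕ, q.Prime → q ∣ N → q ∈ S)
    (hPTS : PTS p (CuspForm.heckeAlgebra N 2 (↑S : Set ℕ)))
    (H : CuspForm.HeckeGaloisRepDatum N (↑S : Set ℕ) 𝒪 θ T)
    (hA : ∀ τ : GQ, (∀ g : GQ, H.ρ.trace (g * τ) = H.ρ.trace g) → H.ρ.ρ τ = 1)
    (q : ℕ) (hq : q.Prime) (hqS : q ∉ S) :
    H.ρ.IsUnramifiedAt q := by
  intro P hP τ hτ
  exact hA τ fun g =>
    trace_mul_inertia h30 hcheb hp hp𝒪 hpS hNS hPTS H τ ⟨q, hq, hqS, P, hP, hτ⟩ g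

end Main

end Fermat.Agent.S31.H22

end
-- ===== PACK-END S31/H22/Assembly.lean

-- ===== PACK-BEGIN Lib/Cheb/H943/Bridge.lean
section



/-!
# CHEB piece F6: `Spec.BridgeDivisionStatement` (helper943)

From the finite-level Frobenius density statement (`Spec.FrobFiniteStatement`, about abstract
Galois number fields) to the Prelude-level statement about `Gal(ℚ̄/ℚ)`, valuation subrings of
`ℚ̄` and `ValuationSubring.IsFrobeniusAt`.

Proof: `L₀` := normal closure of `E` in `ℚ̄`; apply the finite-level statement to `L₀` and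
`σ|L₀`; take a valuation subring `A` of `ℚ̄` whose maximal ideal contains `P`
(`Ideal.image_subset_nonunits_valuationSubring`); any Frobenius `τ` at `A`
(`Fermat.Agent.S37.H99.exists_isFrobeniusAt`, landed) restricts to an arithmetic Frobenius at
`P`, which is unique because the inertia group at `P` is trivial; elements of the inertia group
at `A` restrict to the inertia group at `P`, hence act trivially on `L₀ ⊇ E`.
-/

set_option autoImplicit false
set_option linter.unusedSectionVars false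
set_option linter.style.haveILetI false

open NumberField
open scoped Pointwise

namespace Fermat.Agent.Lib.Cheb.H943

open Fermat.Agent.Lib.Cheb.Spec

section Bridge

variable (L₀ : IntermediateField ℚ Qb)

/-- The embedding of the ring of integers of `L₀ ⊆ ℚ̄` into `ℚ̄`. -/
noncomputable def emb : 𝓞 L₀ →+* Qb :=
  (algebraMap L₀ Qb).comp (algebraMap (𝓞 L₀) L₀)

lemma emb_apply (x : 𝓞 L₀) : emb L₀ x = ((x : L₀) : Qb) := rfl

lemma emb_injective : Function.Injective (emb L₀) := by
  intro x y h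
  have h1 : ((x : L₀) : Qb) = ((y : L₀) : Qb) := h
  exact RingOfIntegers.ext (Subtype.ext h1)

lemma emb_isIntegral (x : 𝓞 L₀) : IsIntegral ℤ (emb L₀ x) := by
  have h1 : IsIntegral ℤ (x : L₀) := RingOfIntegers.isIntegral_coe x
  exact h1.map (IsScalarTower.toAlgHom ℤ L₀ Qb)

lemma emb_mem (A : ValuationSubring Qb) (x : 𝓞 L₀) : emb L₀ x ∈ A :=
  Fermat.Agent.S54.isIntegral_mem_valuationSubring A (emb_isIntegral L₀ x)

/-- The embedding into the ring of all algebraic integers. -/
noncomputable def embInt : 𝓞 L₀ →+* integralClosure ℤ Qb :=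
  RingHom.codRestrict (emb L₀) (integralClosure ℤ Qb) (emb_isIntegral L₀)

lemma coe_embInt (x : 𝓞 L₀) : ((embInt L₀ x : integralClosure ℤ Qb) : Qb) = emb L₀ x := rfl

/-- Lemma 1: a valuation subring of `ℚ̄` whose maximal ideal contains a given proper ideal
of `𝓞 L₀`. -/
lemma exists_valuationSubring_over (P : Ideal (𝓞 L₀)) (hP : P ≠ ⊤) :
    ∃ A : ValuationSubring Qb, ∀ x ∈ P, emb L₀ x ∈ A.nonunits := by
  let A₀ : Subring Qb := (emb L₀).range
  let I : Ideal A₀ := P.map (emb L₀).rangeRestrict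
  have hI : I ≠ ⊤ := by
    intro h
    have h1 : (1 : A₀) ∈ I := by rw [h]; trivial
    rw [Ideal.mem_map_iff_of_surjective _ (emb L₀).rangeRestrict_surjective] at h1
    obtain ⟨x, hx, hx1⟩ := h1
    have h2 : emb L₀ x = emb L₀ 1 := by
      have := congrArg Subtype.val hx1
      simpa using this
    have h3 : x = 1 := emb_injective L₀ h2
    exact hP ((Ideal.eq_top_iff_one P).mpr (h3 ▸ hx))
  obtain ⟨A, -, hA⟩ := Ideal.image_subset_nonunits_valuationSubring I hI
  refine ⟨A, fun x hx => hA ⟨(emb L₀).rangeRestrict x, Ideal.mem_map_of_mem _ hx, rfl⟩⟩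

/-- Lemma 2: contraction of the maximal ideal of `A` to `𝓞 L₀` is `P`. -/
lemma mem_of_emb_mem_nonunits {P : Ideal (𝓞 L₀)} (hP : P.IsMaximal)
    {A : ValuationSubring Qb} (hA : ∀ x ∈ P, emb L₀ x ∈ A.nonunits)
    {x : 𝓞 L₀} (hx : emb L₀ x ∈ A.nonunits) : x ∈ P := by
  let J : Ideal (𝓞 L₀) := Ideal.comap (embInt L₀) (Fermat.Agent.S54.primeBelow A)
  have hJ : ∀ y, y ∈ J ↔ emb L₀ y ∈ A.nonunits := fun y => Iff.rfl
  have hPJ : P ≤ J := fun y hy => (hJ y).mpr (hA y hy)
  have hJtop : J ≠ ⊤ := by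
    intro h
    have h1 : (1 : 𝓞 L₀) ∈ J := by rw [h]; trivial
    rw [hJ, map_one, ValuationSubring.mem_nonunits_iff] at h1
    simp at h1
  have := hP.eq_of_le hJtop hPJ
  rw [this]
  exact (hJ x).mpr hx

lemma under_eq_span {p : ℕ} (hp : p.Prime) {P : Ideal (𝓞 L₀)} (hP : P.IsPrime)
    (hpP : (p : 𝓞 L₀) ∈ P) : P.under ℤ = Ideal.span {(p : ℤ)} := by
  have hmax : (Ideal.span {(p : ℤ)}).IsMaximal :=
    PrincipalIdealRing.isMaximal_of_irreducible (Nat.prime_iff_prime_int.mp hp).irreducible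
  have hle : Ideal.span {(p : ℤ)} ≤ P.under ℤ := by
    rw [Ideal.span_le, Set.singleton_subset_iff]
    show algebraMap ℤ (𝓞 L₀) (p : ℤ) ∈ P
    simpa using hpP
  exact (hmax.eq_of_le (Ideal.IsPrime.under ℤ P).ne_top hle).symm

lemma card_quot_under {p : ℕ} (hp : p.Prime) {P : Ideal (𝓞 L₀)} (hP : P.IsPrime)
    (hpP : (p : 𝓞 L₀) ∈ P) : Nat.card (ℤ ⧸ P.under ℤ) = p := by
  rw [under_eq_span L₀ hp hP hpP]
  exact Int.card_ideal_quot p

variable [Normal ℚ L₀]

lemma emb_restrict_smul (τ : GQ) (x : 𝓞 L₀) :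
    emb L₀ ((AlgEquiv.restrictNormalHom L₀ τ) • x) = τ (emb L₀ x) := by
  rw [emb_apply, emb_apply]
  exact AlgEquiv.restrictNormal_commutes τ L₀ (x : L₀)

/-- Lemma 3: a Frobenius at `A` restricts to an arithmetic Frobenius at `P`. -/
lemma isArithFrobAt_restrict {p : ℕ} (hp : p.Prime) {P : Ideal (𝓞 L₀)} (hP : P.IsMaximal)
    (hpP : (p : 𝓞 L₀) ∈ P) {A : ValuationSubring Qb} (hA : ∀ x ∈ P, emb L₀ x ∈ A.nonunits)
    {τ : GQ} (hτ : A.IsFrobeniusAt τ p) :
    IsArithFrobAt ℤ (AlgEquiv.restrictNormalHom L₀ τ) P := by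
  intro x
  rw [card_quot_under L₀ hp hP.isPrime hpP]
  apply mem_of_emb_mem_nonunits L₀ hP hA
  have h0 : emb L₀ ((MulSemiringAction.toAlgHom ℤ (𝓞 L₀) (AlgEquiv.restrictNormalHom L₀ τ)) x
      - x ^ p) = τ (emb L₀ x) - (emb L₀ x) ^ p := by
    rw [map_sub, map_pow]
    congr 1
    exact emb_restrict_smul L₀ τ x
  rw [h0]
  obtain ⟨hτd, hτF⟩ := hτ
  have h1 := hτF (IsLocalRing.residue A ⟨emb L₀ x, emb_mem L₀ A x⟩)
  rw [← IsLocalRing.ResidueField.residue_smul, ← map_pow, ← sub_eq_zero, ← map_sub,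
      IsLocalRing.residue_eq_zero_iff, ← ValuationSubring.coe_mem_nonunits_iff] at h1
  exact h1

/-- Lemma 4: an element of the inertia group at `A` restricts to an element acting trivially
modulo `P`. -/
lemma inertia_restrict {P : Ideal (𝓞 L₀)} (hP : P.IsMaximal)
    {A : ValuationSubring Qb} (hA : ∀ x ∈ P, emb L₀ x ∈ A.nonunits)
    {ι : GQ} (hι : ι ∈ A.inertiaSubgroupIn ℚ) (x : 𝓞 L₀) :
    (AlgEquiv.restrictNormalHom L₀ ι) • x - x ∈ P := by
  apply mem_of_emb_mem_nonunits L₀ hP hA
  rw [map_sub, emb_restrict_smul]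
  obtain ⟨ι', hι', rfl⟩ := hι
  have h1 : ι' • (IsLocalRing.residue A ⟨emb L₀ x, emb_mem L₀ A x⟩)
      = IsLocalRing.residue A ⟨emb L₀ x, emb_mem L₀ A x⟩ := by
    have := congrArg (fun f => f (IsLocalRing.residue A ⟨emb L₀ x, emb_mem L₀ A x⟩))
      (MonoidHom.mem_ker.mp hι')
    simpa using this
  rw [← IsLocalRing.ResidueField.residue_smul, ← sub_eq_zero, ← map_sub,
      IsLocalRing.residue_eq_zero_iff, ← ValuationSubring.coe_mem_nonunits_iff] at h1
  exact h1

end Bridge

/-- Every finite extension of `ℚ` inside `ℚ̄` is contained in a finite Galois one. -/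
lemma exists_galois_ge (E : IntermediateField ℚ Qb) [FiniteDimensional ℚ E] :
    ∃ L₀ : IntermediateField ℚ Qb, E ≤ L₀ ∧ FiniteDimensional ℚ L₀ ∧ Normal ℚ L₀ := by
  haveI : Algebra.IsAlgebraic ℚ Qb := AlgebraicClosure.isAlgebraic ℚ
  haveI : IsAlgClosure ℚ Qb := ⟨inferInstance, inferInstance⟩
  haveI : Normal ℚ Qb := IsAlgClosure.normal ℚ Qb
  refine ⟨IntermediateField.normalClosure ℚ E Qb, ?_, ?_, ?_⟩
  · exact IntermediateField.le_normalClosure E
  · exact normalClosure.is_finiteDimensional ℚ E Qb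
  · exact normalClosure.normal ℚ E Qb

lemma exists_pow_of_zpowers_eq {G : Type*} [Group G] [Finite G] {a b : G}
    (h : Subgroup.zpowers a = Subgroup.zpowers b) : ∃ k : ℕ, a = b ^ k := by
  have h1 : a ∈ Subgroup.zpowers b := h ▸ Subgroup.mem_zpowers a
  rw [← mem_powers_iff_mem_zpowers, Submonoid.mem_powers_iff] at h1
  obtain ⟨k, hk⟩ := h1
  exact ⟨k, hk.symm⟩

/-- **Piece F6** of row CHEB: `Spec.BridgeDivisionStatement`. -/
theorem bridgeDivisionStatement : Spec.BridgeDivisionStatement := by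
  intro hFF E hE σ S
  haveI := hE
  obtain ⟨L₀, hEL, hfin, hnorm⟩ := exists_galois_ge E
  haveI := hfin
  haveI := hnorm
  haveI : IsGalois ℚ L₀ := ⟨⟩
  haveI : NumberField L₀ := { to_charZero := inferInstance, to_finiteDimensional := hfin }
  obtain ⟨p, P, τ₀, hp, hpS, hP, hpP, hI, hτ₀, hz⟩ :=
    hFF L₀ (AlgEquiv.restrictNormalHom L₀ σ) S
  have hPne : P ≠ ⊥ := by
    rintro rfl
    rw [Ideal.mem_bot] at hpP
    exact hp.ne_zero (by exact_mod_cast hpP)
  have hPmax : P.IsMaximal := Ideal.IsPrime.isMaximal hP hPne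
  obtain ⟨A, hA⟩ := exists_valuationSubring_over L₀ P hP.ne_top
  have hAp : A.LiesOverPrime p := by
    have := hA _ hpP
    rw [emb_apply] at this
    show (p : Qb) ∈ A.nonunits
    simpa using this
  obtain ⟨τ, hτ⟩ := Fermat.Agent.S37.H99.exists_isFrobeniusAt p hp A hAp
  -- the restriction of `τ` is the Frobenius `τ₀`
  have hτ₁ : IsArithFrobAt ℤ (AlgEquiv.restrictNormalHom L₀ τ) P :=
    isArithFrobAt_restrict L₀ hp hPmax hpP hA hτ
  have hττ₀ : AlgEquiv.restrictNormalHom L₀ τ = τ₀ := by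
    have h1 : (AlgEquiv.restrictNormalHom L₀ τ) * τ₀⁻¹ = 1 := by
      apply hI
      intro x
      exact IsArithFrobAt.mul_inv_mem_inertia hτ₁ hτ₀ x
    exact mul_inv_eq_one.mp h1
  obtain ⟨k, hk⟩ := exists_pow_of_zpowers_eq hz
  obtain ⟨j, hj⟩ := exists_pow_of_zpowers_eq hz.symm
  have hcoe : ∀ (g : GQ) (x : Qb) (hx : x ∈ L₀),
      (((AlgEquiv.restrictNormalHom L₀ g) ⟨x, hx⟩ : L₀) : Qb) = g x := fun g x hx =>
    AlgEquiv.restrictNormal_commutes g L₀ ⟨x, hx⟩
  refine ⟨p, A, τ, k, j, hp, hpS, hAp, hτ, ?_, ?_, ?_⟩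
  · intro ι hι x hx
    have h1 : AlgEquiv.restrictNormalHom L₀ ι = 1 := by
      apply hI
      intro y
      exact inertia_restrict L₀ hPmax hA hι y
    have h2 := hcoe ι x (hEL hx)
    rw [h1] at h2
    exact h2.symm
  · intro x hx
    rw [← hcoe τ x (hEL hx), ← hcoe (σ ^ k) x (hEL hx), hττ₀, hk, map_pow]
  · intro x hx
    rw [← hcoe (τ ^ j) x (hEL hx), ← hcoe σ x (hEL hx), map_pow, hττ₀, ← hj]

end Fermat.Agent.Lib.Cheb.H943

end
-- ===== PACK-END Lib/Cheb/H943/Bridge.lean

-- ===== PACK-BEGIN S22/H262/IntMat.lean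
section


set_option autoImplicit false

/-!
# Integer matrices of positive determinant inside `GL₂(ℝ)`; Hermite decomposition
-/

open Complex Filter Function Metric Set
open UpperHalfPlane hiding I
open scoped Real Topology Manifold ModularForm MatrixGroups

namespace Fermat.Agent.S22.H262

open Matrix.SpecialLinearGroup

/-- Integer matrices of positive determinant, as a submonoid of `GL₂(ℝ)`. -/
def posInt : Submonoid (GL (Fin 2) ℝ) where
  carrier := {A | (∀ i j, ∃ m : ℤ, A i j = m) ∧ 0 < A.det.val}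
  one_mem' := by
    refine ⟨fun i j => ?_, by simp⟩
    by_cases h : i = j
    · exact ⟨1, by simp [h]⟩
    · exact ⟨0, by simp [h]⟩
  mul_mem' := by
    rintro A B ⟨hA, hA'⟩ ⟨hB, hB'⟩
    refine ⟨fun i j => ?_, ?_⟩
    · obtain ⟨a0, ha0⟩ := hA i 0
      obtain ⟨a1, ha1⟩ := hA i 1
      obtain ⟨b0, hb0⟩ := hB 0 j
      obtain ⟨b1, hb1⟩ := hB 1 j
      refine ⟨a0 * b0 + a1 * b1, ?_⟩
      simp only [Matrix.GeneralLinearGroup.coe_mul, Matrix.mul_apply, Fin.sum_univ_two, ha0, ha1,
        hb0, hb1]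
      push_cast
      ring
    · rw [map_mul, Units.val_mul]
      exact mul_pos hA' hB'

theorem mem_posInt {A : GL (Fin 2) ℝ} :
    A ∈ posInt ↔ (∀ i j, ∃ m : ℤ, A i j = m) ∧ 0 < A.det.val := Iff.rfl

theorem det_pos_of_mem_posInt {A : GL (Fin 2) ℝ} (hA : A ∈ posInt) : 0 < A.det.val := hA.2

theorem mapGL_mem_posInt (g : SL(2, ℤ)) : (mapGL ℝ g : GL (Fin 2) ℝ) ∈ posInt := by
  refine ⟨fun i j => ⟨g i j, by simp⟩, by simp⟩

/-- Integer vectors in `ℂ²`. -/
def Vint : Set (ℂ × ℂ) := {v | ∃ x y : ℤ, v = ((x : ℂ), (y : ℂ))}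

theorem actV_mem_Vint {A : GL (Fin 2) ℝ} (hA : A ∈ posInt) {v : ℂ × ℂ} (hv : v ∈ Vint) :
    actV A v ∈ Vint := by
  obtain ⟨x, y, rfl⟩ := hv
  obtain ⟨a, ha⟩ := hA.1 0 0
  obtain ⟨b, hb⟩ := hA.1 0 1
  obtain ⟨c, hc⟩ := hA.1 1 0
  obtain ⟨d, hd⟩ := hA.1 1 1
  refine ⟨a * x + b * y, c * x + d * y, ?_⟩
  simp only [actV, ha, hb, hc, hd]
  push_cast
  rfl

/-- The element of `GL₂(ℝ)` attached to an integer matrix with positive determinant. -/
noncomputable def glOfInt (M : Matrix (Fin 2) (Fin 2) ℤ) (hM : 0 < M.det) : GL (Fin 2) ℝ :=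
  Matrix.GeneralLinearGroup.mkOfDetNeZero (M.map (Int.castRingHom ℝ)) (by
    have : (M.map (Int.castRingHom ℝ)).det = ((M.det : ℤ) : ℝ) := by
      rw [← RingHom.mapMatrix_apply, ← RingHom.map_det]
      rfl
    rw [this]
    exact_mod_cast hM.ne')

theorem glOfInt_apply (M : Matrix (Fin 2) (Fin 2) ℤ) (hM : 0 < M.det) (i j : Fin 2) :
    (glOfInt M hM) i j = (M i j : ℝ) := rfl

theorem det_glOfInt (M : Matrix (Fin 2) (Fin 2) ℤ) (hM : 0 < M.det) :
    (glOfInt M hM).det.val = (M.det : ℝ) := by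
  rw [Matrix.GeneralLinearGroup.val_det_apply]
  show (M.map (Int.castRingHom ℝ)).det = _
  rw [← RingHom.mapMatrix_apply, ← RingHom.map_det]
  rfl

theorem glOfInt_mem_posInt (M : Matrix (Fin 2) (Fin 2) ℤ) (hM : 0 < M.det) :
    glOfInt M hM ∈ posInt :=
  ⟨fun i j => ⟨M i j, rfl⟩, by rw [det_glOfInt]; exact_mod_cast hM⟩

theorem exists_eq_glOfInt {A : GL (Fin 2) ℝ} (hA : A ∈ posInt) :
    ∃ (M : Matrix (Fin 2) (Fin 2) ℤ) (hM : 0 < M.det), A = glOfInt M hM := by
  choose m hm using hA.1
  let M : Matrix (Fin 2) (Fin 2) ℤ := Matrix.of m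
  have hAM : (A : Matrix (Fin 2) (Fin 2) ℝ) = M.map (Int.castRingHom ℝ) := by
    ext i j
    simp [M, hm i j]
  have hdet : ((M.det : ℤ) : ℝ) = A.det.val := by
    rw [Matrix.GeneralLinearGroup.val_det_apply, hAM, ← RingHom.mapMatrix_apply,
      ← RingHom.map_det]
    rfl
  have hM : 0 < M.det := by
    have := hA.2
    rw [← hdet] at this
    exact_mod_cast this
  refine ⟨M, hM, ?_⟩
  ext i j
  rw [glOfInt_apply]
  exact hm i j

/-- Hermite decomposition of integer matrices with nonzero determinant. -/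
theorem exists_SL_mul_upper (m : ℤ) (hm : m ≠ 0) (A : FixedDetMatrix (Fin 2) ℤ m) :
    ∃ (g : SL(2, ℤ)) (D : FixedDetMatrix (Fin 2) ℤ m), D.1 1 0 = 0 ∧ A.1 = g.1 * D.1 := by
  induction A using FixedDetMatrices.induction_on hm with
  | h0 A h _ _ _ => exact ⟨1, A, h, by simp⟩
  | hS B ih =>
    obtain ⟨g, D, hD, hB⟩ := ih
    exact ⟨ModularGroup.S * g, D, hD, by
      rw [FixedDetMatrices.smul_coe, hB, Matrix.SpecialLinearGroup.coe_mul, Matrix.mul_assoc]⟩
  | hT B ih =>
    obtain ⟨g, D, hD, hB⟩ := ih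
    exact ⟨ModularGroup.T * g, D, hD, by
      rw [FixedDetMatrices.smul_coe, hB, Matrix.SpecialLinearGroup.coe_mul, Matrix.mul_assoc]⟩

/-- Hermite decomposition inside `GL₂(ℝ)`. -/
theorem exists_mapGL_mul_upper {A : GL (Fin 2) ℝ} (hA : A ∈ posInt) :
    ∃ (g : SL(2, ℤ)) (δ : GL (Fin 2) ℝ), δ ∈ posInt ∧ δ 1 0 = 0 ∧ A = mapGL ℝ g * δ := by
  obtain ⟨M, hM, rfl⟩ := exists_eq_glOfInt hA
  obtain ⟨g, D, hD, hMD⟩ := exists_SL_mul_upper M.det hM.ne' ⟨M, rfl⟩
  have hDdet : 0 < D.1.det := by rw [D.2]; exact hM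
  refine ⟨g, glOfInt D.1 hDdet, glOfInt_mem_posInt _ _, ?_, ?_⟩
  · rw [glOfInt_apply, hD]
    simp
  · ext i j
    simp only [Matrix.GeneralLinearGroup.coe_mul, Matrix.mul_apply, Fin.sum_univ_two,
      glOfInt_apply]
    have := congrFun (congrFun hMD i) j
    simp only [Matrix.mul_apply, Fin.sum_univ_two] at this
    have h2 : (M i j : ℝ) = ((g.1 i 0 * D.1 0 j + g.1 i 1 * D.1 1 j : ℤ) : ℝ) := by
      exact_mod_cast congrArg (Int.cast : ℤ → ℝ) this
    rw [h2]
    simp

end Fermat.Agent.S22.H262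

end
-- ===== PACK-END S22/H262/IntMat.lean

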