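import Mathlib.AlgebraicGeometry.Morphisms.Flat
import Mathlib
import Fermat.Prelude.Def_ModularCurve_ReductionModL
import Fermat.Prelude.Def_FLTPrelim_Ramification
import Fermat.Prelude.Def_CuspForm_HeckeGaloisRepDatum
import Fermat.Prelude.Def_GaloisRep_Adic
import Mathlib.RingTheory.Valuation.LocalSubring
import Mathlib.RingTheory.RootsOfUnity.AlgebraicallyClosed
import Fermat.Agent.Pack.S43MC.G0E6L0
import Fermat.Agent.Pack.S43MC.G0E5L2
import Fermat.Agent.Pack.S43MC.G0E6L3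
import Fermat.Agent.Pack.S43MC.G0E1L1
import Fermat.Agent.Pack.S43MC.G0E1L2
import Fermat.Agent.Pack.S43MC.G0E6L1
import Fermat.Agent.Pack.S43MC.G0E2L3
import Fermat.Agent.Pack.S43MC.G0E5L0
import Fermat.Agent.Pack.S43MC.G0E0L0
import Fermat.Agent.Pack.S44C.G0E0L3
import Fermat.Agent.Pack.S44C.G0E5L1
import Fermat.Agent.Pack.S44C.G0E8L3
import Fermat.Agent.Pack.S44C.G0E6L0
import Fermat.Agent.Pack.S43GC.G0E4L1
import Fermat.Agent.Pack.S43MC.G0E6L2
import Fermat.Agent.Pack.S44C.G0E9L3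
import Fermat.Agent.Pack.S44C.G0E4L3
import Fermat.Agent.Pack.S43MC.G0E8L2
import Fermat.Agent.Pack.Fast891

-- ===== PACK-BEGIN S26/H219/LSPullback.lean
section


/-!
# Row S26, block LS: `Stmt.LSPullback` (helper219)

Pull-back of a good linear system along a finite morphism preserving the generic point:
`theorem lsPullback : Stmt.LSPullback K`.

Reusable lemmas (general `φ : X ⟶ Y` between integral schemes, `φ η_X = η_Y`):
* `ffMap_algebraMap`   : `φ^*` restricted to `O_{Y, φ x}` is the stalk map `φ_x`;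
* `ffMap_ffStr`        : `φ^*` is a `K`-algebra map when `φ` is a `K`-morphism;
* `genAt_iff`          : elementwise form of `LS.GenAt`;
* `genAt_pullback_iff` : `GenAt (φ^* w) x b ↔ GenAt w (φ x) b` for base point free `w`;
* `good_pullback`      : `φ` affine, `w` good `⇒ φ^* w` good;
* `finrank_map_eq`     : `[L : σ F] = [L : σ L] · [L : F]` for a field endomorphism `σ`.
-/

set_option autoImplicit false
universe u

open CategoryTheory CategoryTheory.Limits AlgebraicGeometry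

namespace Fermat.Agent.S26.H219

noncomputable section

section StalkFF

variable {X Y : Scheme.{u}} [IsIntegral X] [IsIntegral Y]

/-- `ffMap` is compatible with the stalk maps: for `a ∈ O_{Y, φ x}`,
`φ^* (a) = φ_x (a)` inside the function fields. -/
theorem ffMap_algebraMap (φ : X ⟶ Y) (h : φ (genericPoint X) = genericPoint Y) (x : X)
    (a : Y.presheaf.stalk (φ x)) :
    ffMap φ h (algebraMap (Y.presheaf.stalk (φ x)) Y.functionField a) =
      algebraMap (X.presheaf.stalk x) X.functionField (φ.stalkMap x a) := by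
  have hx : genericPoint X ⤳ x := (genericPoint_spec X).specializes trivial
  have key := Scheme.Hom.stalkSpecializes_stalkMap_apply φ (genericPoint X) x hx a
  simp only [ffMap, RingHom.algebraMap_toAlgebra]
  rw [← key]
  simp only [CommRingCat.hom_comp, RingHom.coe_comp, Function.comp_apply,
    TopCat.Presheaf.stalkCongr_hom]
  congr 1
  exact TopCat.Presheaf.stalkSpecializes_comp_apply _ _ _ _

theorem ffMap_injective (φ : X ⟶ Y) (h : φ (genericPoint X) = genericPoint Y) :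
    Function.Injective (ffMap φ h) :=
  (ffMap φ h).injective

/-- `ffMap` of a `K`-morphism is a `K`-algebra map. -/
theorem ffMap_ffStr {K : Type u} [Field K] (strX : X ⟶ Spec (CommRingCat.of K))
    (strY : Y ⟶ Spec (CommRingCat.of K)) (φ : X ⟶ Y) (hφ : φ ≫ strY = strX)
    (h : φ (genericPoint X) = genericPoint Y) (k : K) :
    ffMap φ h (ffStr strY k) = ffStr strX k := by
  subst hφ
  simp only [ffMap, ffStr, CommRingCat.hom_comp, RingHom.coe_comp, Function.comp_apply,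
    TopCat.Presheaf.stalkCongr_hom]
  rw [TopCat.Presheaf.germ_stalkSpecializes_apply]
  rw [Scheme.Hom.germ_stalkMap_apply]
  rfl

end StalkFF

section GenAt

variable {X Y : Scheme.{u}} [IsIntegral X] [IsIntegral Y] {ι : Type}

/-- Elementwise form of `LS.GenAt`. -/
theorem genAt_iff (w : ι → X.functionField) (x : X) (b : ι) :
    LS.GenAt w x b ↔
      w b ≠ 0 ∧ ∀ i, ∃ a : X.presheaf.stalk x,
        w i = algebraMap (X.presheaf.stalk x) X.functionField a * w b := by
  unfold LS.GenAt LS.span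
  refine and_congr_right fun _ => ?_
  constructor
  · intro hs i
    have hi : w i ∈ Submodule.span (X.presheaf.stalk x) (Set.range w) :=
      Submodule.subset_span ⟨i, rfl⟩
    rw [hs, Submodule.mem_span_singleton] at hi
    obtain ⟨a, ha⟩ := hi
    exact ⟨a, by rw [← ha, Algebra.smul_def]⟩
  · intro hall
    apply le_antisymm
    · rw [Submodule.span_le]
      rintro _ ⟨i, rfl⟩
      obtain ⟨a, ha⟩ := hall i
      rw [SetLike.mem_coe, Submodule.mem_span_singleton]
      exact ⟨a, by rw [ha, Algebra.smul_def]⟩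
    · apply Submodule.span_mono
      rintro _ rfl
      exact ⟨b, rfl⟩

/-- The easy direction: generators pull back to generators. -/
theorem genAt_pullback_of_genAt (φ : X ⟶ Y) (h : φ (genericPoint X) = genericPoint Y)
    (w : ι → Y.functionField) (x : X) (b : ι) (hb : LS.GenAt w (φ x) b) :
    LS.GenAt (fun i => ffMap φ h (w i)) x b := by
  rw [genAt_iff] at hb ⊢
  refine ⟨fun h0 => hb.1 (ffMap_injective φ h (by rw [h0, map_zero])), fun i => ?_⟩
  obtain ⟨a, ha⟩ := hb.2 i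
  refine ⟨φ.stalkMap x a, ?_⟩
  simp only
  rw [ha, map_mul, ffMap_algebraMap]

/-- For a base point free system, `GenAt (φ^* w) x b ↔ GenAt w (φ x) b`
(the stalk map is a local homomorphism). -/
theorem genAt_pullback_iff (φ : X ⟶ Y) (h : φ (genericPoint X) = genericPoint Y)
    (w : ι → Y.functionField) (hw : LS.BPF w) (x : X) (b : ι) :
    LS.GenAt (fun i => ffMap φ h (w i)) x b ↔ LS.GenAt w (φ x) b := by
  refine ⟨fun hb => ?_, genAt_pullback_of_genAt φ h w x b⟩
  obtain ⟨b₀, hb₀⟩ := hw (φ x)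
  rw [genAt_iff] at hb hb₀ ⊢
  obtain ⟨hne, hgen⟩ := hb
  obtain ⟨hne₀, hgen₀⟩ := hb₀
  have hwb : w b ≠ 0 := fun h0 => hne (by simp only [h0, map_zero])
  obtain ⟨a, ha⟩ := hgen₀ b
  obtain ⟨c, hc⟩ := hgen b₀
  -- `φ^* w_{b₀} = c · φ_x(a) · φ^* w_{b₀}`
  have h1 : ffMap φ h (w b₀) =
      algebraMap (X.presheaf.stalk x) X.functionField (c * φ.stalkMap x a) *
        ffMap φ h (w b₀) := by
    conv_lhs => rw [hc, ha, map_mul, ffMap_algebraMap]
    rw [map_mul, mul_assoc]
  have hne₀' : ffMap φ h (w b₀) ≠ 0 := fun h0 =>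
    hne₀ (ffMap_injective φ h (by rw [h0, map_zero]))
  have h2 : algebraMap (X.presheaf.stalk x) X.functionField (c * φ.stalkMap x a) = 1 := by
    have := mul_right_cancel₀ hne₀' (h1.symm.trans (one_mul _).symm)
    exact this
  have h3 : c * φ.stalkMap x a = 1 :=
    IsFractionRing.injective (X.presheaf.stalk x) X.functionField (by rw [h2, map_one])
  have hu' : IsUnit (φ.stalkMap x a) := IsUnit.of_mul_eq_one _ (by rw [mul_comm]; exact h3)
  have hu : IsUnit a := isUnit_of_map_unit (φ.stalkMap x).hom a hu'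
  obtain ⟨u, rfl⟩ := hu
  -- `w_{b₀} = u⁻¹ w_b`
  have h4 : w b₀ = algebraMap (Y.presheaf.stalk (φ x)) Y.functionField (↑u⁻¹) * w b := by
    rw [ha, ← mul_assoc, ← map_mul, Units.inv_mul, map_one, one_mul]
  refine ⟨hwb, fun i => ?_⟩
  obtain ⟨d, hd⟩ := hgen₀ i
  exact ⟨d * ↑u⁻¹, by rw [hd, h4, map_mul, mul_assoc]⟩

/-- Pull-back of a good system along an affine morphism is good. -/
theorem good_pullback (φ : X ⟶ Y) [IsAffineHom φ] (h : φ (genericPoint X) = genericPoint Y)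
    (w : ι → Y.functionField) (hw : LS.Good w) :
    LS.Good (fun i => ffMap φ h (w i)) := by
  refine ⟨fun x => ?_, fun b => ?_⟩
  · obtain ⟨b, hb⟩ := hw.1 (φ x)
    exact ⟨b, genAt_pullback_of_genAt φ h w x b hb⟩
  · obtain ⟨U, hU, hUb⟩ := hw.2 b
    refine ⟨φ ⁻¹ᵁ U, hU.preimage φ, fun x => ?_⟩
    rw [genAt_pullback_iff φ h w hw.1 x b, ← hUb]
    rfl

end GenAt

section Field

variable {L : Type*} [Field L]

/-- Tower law for the image of a subfield under a field endomorphism: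
`[L : σ F] = [L : σ L] · [L : F]` (as natural numbers, `0` for infinite degree). -/
theorem finrank_map_eq (σ : L →+* L) (F : Subfield L) :
    Module.finrank (F.map σ) L = Module.finrank σ.fieldRange L * Module.finrank F L := by
  have hle : F.map σ ≤ σ.fieldRange := by
    rintro _ ⟨y, -, rfl⟩
    exact RingHom.mem_fieldRange.mpr ⟨y, rfl⟩
  rw [← Subfield.relfinrank_mul_finrank_top hle, mul_comm]
  congr 1
  rw [RingHom.fieldRange_eq_map, Subfield.relfinrank_map_map, Subfield.relfinrank_top_right]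

end Field

section Final

variable {K : Type u} [Field K] {X : Scheme.{u}} [IsIntegral X]

theorem ratios_map (σ : X.functionField →+* X.functionField) {g : ℕ}
    (w : Fin (g + 1) → X.functionField) :
    LS.ratios (fun i => σ (w i)) = fun i => σ (LS.ratios w i) := by
  funext i
  simp only [LS.ratios, map_div₀]

theorem coordField_pullback (str : X ⟶ Spec (CommRingCat.of K)) (φ : X ⟶ X)
    (hφ : φ ≫ str = str) (h : φ (genericPoint X) = genericPoint X) {g : ℕ}
    (w : Fin (g + 1) → X.functionField) :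
    LS.coordField str (fun i => ffMap φ h (w i)) =
      (LS.coordField str w).map (ffMap φ h) := by
  have h1 : Set.range (⇑(ffMap φ h) ∘ ⇑(ffStr str)) = Set.range ⇑(ffStr str) := by
    congr 1
    funext k
    exact ffMap_ffStr str str φ hφ h k
  have h2 : Set.range (LS.ratios fun i => ffMap φ h (w i)) =
      Set.range (⇑(ffMap φ h) ∘ LS.ratios w) := by
    rw [ratios_map]
    rfl
  unfold LS.coordField
  rw [RingHom.map_field_closure, Set.image_union, ← Set.range_comp, ← Set.range_comp, h1, h2]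

theorem indep_pullback (str : X ⟶ Spec (CommRingCat.of K)) (φ : X ⟶ X)
    (hφ : φ ≫ str = str) (h : φ (genericPoint X) = genericPoint X) {g : ℕ}
    (w : Fin (g + 1) → X.functionField) (hw : LS.Indep str w) :
    LS.Indep str (fun i => ffMap φ h (w i)) := by
  intro p hp
  apply hw p
  apply ffMap_injective φ h
  rw [map_zero, MvPolynomial.eval₂_comp_left (ffMap φ h) (ffStr str) (LS.ratios w) p]
  rw [ratios_map] at hp
  have hcomp : (ffMap φ h).comp (ffStr str) = ffStr str :=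
    RingHom.ext fun k => ffMap_ffStr str str φ hφ h k
  rw [hcomp]
  exact hp

theorem deg_pullback (str : X ⟶ Spec (CommRingCat.of K)) (φ : X ⟶ X)
    (hφ : φ ≫ str = str) (h : φ (genericPoint X) = genericPoint X) {g : ℕ}
    (w : Fin (g + 1) → X.functionField) :
    LS.deg str (fun i => ffMap φ h (w i)) = ffDeg φ h * LS.deg str w := by
  unfold LS.deg ffDeg
  rw [coordField_pullback str φ hφ h w]
  exact finrank_map_eq (ffMap φ h) (LS.coordField str w)

end Final

/-- **LS3 + LS5** (`Stmt.LSPullback`): pull-back of a good system along a finite morphism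
preserving the generic point is good, its coordinates stay independent and the degree is
multiplied by the degree of the morphism. -/
theorem lsPullback (K : Type u) [Field K] [IsAlgClosed K] : Stmt.LSPullback K := by
  intro X _ str φ hφ _ h g w hgood hindep
  exact ⟨good_pullback φ h w hgood, indep_pullback str φ hφ h w hindep,
    deg_pullback str φ hφ h w⟩

end

end Fermat.Agent.S26.H219

end
-- ===== PACK-END S26/H219/LSPullback.lean

-- ===== PACK-BEGIN S25/H926/GlueIso.lean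
section
/-
S25, block GLUE, piece G1 (helper926), layer (c): isomorphisms glue; being an isomorphism is
local on an open cover.
-/


set_option autoImplicit false

universe u

open CategoryTheory AlgebraicGeometry TopologicalSpace Opposite

namespace Fermat.Agent.S25.H926

variable {X Y : Scheme.{u}} {M M' M'' : X.Modules}

section SectionMapFunctorial

variable (f : Y ⟶ X) [IsOpenImmersion f]

lemma imageMap_id (V : Y.Opens) (s : Γ(M, f ''ᵁ V)) :
    imageMap f (𝟙 (M.restrict f)) V s = s := rfl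

lemma imageMap_comp (ψ : M.restrict f ⟶ M'.restrict f) (ψ' : M'.restrict f ⟶ M''.restrict f)
    (V : Y.Opens) (s : Γ(M, f ''ᵁ V)) :
    imageMap f (ψ ≫ ψ') V s = imageMap f ψ' V (imageMap f ψ V s) := rfl

lemma sectionMap_id (W : X.Opens) (hW : W ≤ f.opensRange) (s : Γ(M, W)) :
    sectionMap f (𝟙 (M.restrict f)) W hW s = s := by
  rw [sectionMap_apply, imageMap_id, presheaf_map_map M _ _ (𝟙 _)]
  simp

lemma sectionMap_comp (ψ : M.restrict f ⟶ M'.restrict f) (ψ' : M'.restrict f ⟶ M''.restrict f)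
    (W : X.Opens) (hW : W ≤ f.opensRange) (s : Γ(M, W)) :
    sectionMap f (ψ ≫ ψ') W hW s = sectionMap f ψ' W hW (sectionMap f ψ W hW s) := by
  rw [sectionMap_apply, sectionMap_apply, sectionMap_apply, imageMap_comp]
  congr 2
  rw [presheaf_map_map M' _ _ (𝟙 _)]
  simp

lemma sectionMap_inv_hom (e : M.restrict f ≅ M'.restrict f) (W : X.Opens)
    (hW : W ≤ f.opensRange) (s : Γ(M, W)) :
    sectionMap f e.inv W hW (sectionMap f e.hom W hW s) = s := by
  rw [← sectionMap_comp, e.hom_inv_id, sectionMap_id]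

lemma sectionMap_hom_inv (e : M.restrict f ≅ M'.restrict f) (W : X.Opens)
    (hW : W ≤ f.opensRange) (s : Γ(M', W)) :
    sectionMap f e.hom W hW (sectionMap f e.inv W hW s) = s := by
  rw [← sectionMap_comp, e.inv_hom_id, sectionMap_id]

end SectionMapFunctorial

section Cover

variable {ι : Type*} {Z : ι → Scheme.{u}} (f : ∀ i, Z i ⟶ X) [∀ i, IsOpenImmersion (f i)]

/-- **G1, isomorphisms glue.** -/
theorem exists_iso_of_cover (hf : ⨆ i, (f i).opensRange = ⊤)
    (e : ∀ i, M.restrict (f i) ≅ M'.restrict (f i))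
    (he : ∀ (i j : ι) (W : X.Opens) (hi : W ≤ (f i).opensRange) (hj : W ≤ (f j).opensRange)
      (s : Γ(M, W)), sectionMap (f i) (e i).hom W hi s = sectionMap (f j) (e j).hom W hj s) :
    ∃ g : M ≅ M', ∀ i, (Scheme.Modules.restrictFunctor (f i)).mapIso g = e i := by
  have he' : ∀ (i j : ι) (W : X.Opens) (hi : W ≤ (f i).opensRange) (hj : W ≤ (f j).opensRange)
      (s : Γ(M', W)), sectionMap (f i) (e i).inv W hi s = sectionMap (f j) (e j).inv W hj s := by
    intro i j W hi hj s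
    have h1 := he i j W hi hj (sectionMap (f i) (e i).inv W hi s)
    rw [sectionMap_hom_inv] at h1
    have h2 := congrArg (sectionMap (f j) (e j).inv W hj) h1
    rw [sectionMap_inv_hom] at h2
    exact h2.symm
  obtain ⟨g, hg, -⟩ := existsUnique_hom_of_cover f hf (fun i => (e i).hom) he
  obtain ⟨g', hg', -⟩ := existsUnique_hom_of_cover f hf (fun i => (e i).inv) he'
  refine ⟨⟨g, g', ?_, ?_⟩, fun i => ?_⟩
  · apply hom_ext_of_cover f hf
    intro i
    rw [CategoryTheory.Functor.map_comp, hg, hg', CategoryTheory.Functor.map_id, Iso.hom_inv_id]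
  · apply hom_ext_of_cover f hf
    intro i
    rw [CategoryTheory.Functor.map_comp, hg', hg, CategoryTheory.Functor.map_id, Iso.inv_hom_id]
  · ext1
    exact hg i

/-- Being an isomorphism is local on an open cover. -/
theorem isIso_of_cover (hf : ⨆ i, (f i).opensRange = ⊤) (g : M ⟶ M')
    (h : ∀ i, IsIso ((Scheme.Modules.restrictFunctor (f i)).map g)) : IsIso g := by
  obtain ⟨e, he⟩ := exists_iso_of_cover (M := M) (M' := M') f hf
    (fun i => @asIso _ _ _ _ ((Scheme.Modules.restrictFunctor (f i)).map g) (h i))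
    (fun i j W hi hj s => by
      simp only [asIso_hom]
      rw [sectionMap_restrictFunctor_map, sectionMap_restrictFunctor_map])
  have : e.hom = g := by
    apply hom_ext_of_cover f hf
    intro i
    have := congrArg Iso.hom (he i)
    simpa using this
  rw [← this]
  infer_instance

end Cover

end Fermat.Agent.S25.H926

end
-- ===== PACK-END S25/H926/GlueIso.lean

-- ===== PACK-BEGIN S26/H605/Twist.lean
section


/-!
# Row S26, block PIC, leaf P5 (helper605): twisted sections of a cocycle along a morphism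

For `f : Y' ⟶ Y` and a cocycle `c` on `Y` (point-indexed model of `Pic/Defs.lean`) a *twisted
family* is `σ y ∈ Γ(Y', f⁻¹ U_y)` (`y : Y`) with `f^* g_{yz} · σ_z = σ_y` on overlaps, i.e. a
global section of the pulled back line bundle.  `exists_twisted` extends a twisted family given
on an arbitrary refinement to all charts (sheaf gluing).
-/

set_option autoImplicit false

open AlgebraicGeometry CategoryTheory TopologicalSpace Opposite

universe u

namespace Fermat.Agent.S26.H605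

noncomputable section

variable {Y' Y : Scheme.{u}} (f : Y' ⟶ Y) (c : Pic.Cocycle Y)

/-- The pulled-back transition function `f^* g_{yz}` on an open `W ⊆ f⁻¹ U_y ∩ f⁻¹ U_z`. -/
def tg (y z : Y) {W : Y'.Opens} (hy : W ≤ f ⁻¹ᵁ c.U y) (hz : W ≤ f ⁻¹ᵁ c.U z) : Γ(Y', W) :=
  pl f (show W ≤ f ⁻¹ᵁ (c.U y ⊓ c.U z) from le_inf hy hz) (c.g y z : Γ(Y, c.U y ⊓ c.U z))

lemma rr_tg (y z : Y) {W W' : Y'.Opens} (hy : W ≤ f ⁻¹ᵁ c.U y) (hz : W ≤ f ⁻¹ᵁ c.U z)
    (h : W' ≤ W) : rr h (tg f c y z hy hz) = tg f c y z (h.trans hy) (h.trans hz) := by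
  simp only [tg, rr_pl]

lemma tg_mul (x y z : Y) {W : Y'.Opens} (hx : W ≤ f ⁻¹ᵁ c.U x) (hy : W ≤ f ⁻¹ᵁ c.U y)
    (hz : W ≤ f ⁻¹ᵁ c.U z) : tg f c x y hx hy * tg f c y z hy hz = tg f c x z hx hz := by
  have hW : W ≤ f ⁻¹ᵁ (c.U x ⊓ c.U y ⊓ c.U z) := le_inf (le_inf hx hy) hz
  have := congrArg (fun a : Γ(Y, c.U x ⊓ c.U y ⊓ c.U z)ˣ => pl f hW (a : Γ(Y, _)))
    (c.cocycle x y z)
  simp only [Units.val_mul, coe_res, map_mul, pl_rr] at this
  exact this

lemma tg_self (y : Y) {W : Y'.Opens} (hy : W ≤ f ⁻¹ᵁ c.U y) : tg f c y y hy hy = 1 := by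
  have h := tg_mul f c y y y hy hy hy
  have hu : IsUnit (tg f c y y hy hy) := (Units.isUnit (c.g y y)).map _
  exact hu.mul_left_cancel (by rw [h, mul_one])

lemma tg_symm (y z : Y) {W : Y'.Opens} (hy : W ≤ f ⁻¹ᵁ c.U y) (hz : W ≤ f ⁻¹ᵁ c.U z) :
    tg f c y z hy hz * tg f c z y hz hy = 1 := by
  rw [tg_mul, tg_self]

lemma isUnit_tg (y z : Y) {W : Y'.Opens} (hy : W ≤ f ⁻¹ᵁ c.U y) (hz : W ≤ f ⁻¹ᵁ c.U z) :
    IsUnit (tg f c y z hy hz) :=
  (Units.isUnit (c.g y z)).map _

/-- A twisted family: a global section of the pull-back along `f` of the line bundle of `c`,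
given in all charts `f⁻¹ U_y`. -/
def IsTw (σ : ∀ y : Y, Γ(Y', f ⁻¹ᵁ c.U y)) : Prop :=
  ∀ y z : Y, tg f c y z (inf_le_left : f ⁻¹ᵁ c.U y ⊓ f ⁻¹ᵁ c.U z ≤ _) inf_le_right *
    rr inf_le_right (σ z) = rr inf_le_left (σ y)

variable {f c}

lemma IsTw.on {σ : ∀ y : Y, Γ(Y', f ⁻¹ᵁ c.U y)} (hσ : IsTw f c σ) (y z : Y) {W : Y'.Opens}
    (hy : W ≤ f ⁻¹ᵁ c.U y) (hz : W ≤ f ⁻¹ᵁ c.U z) :
    tg f c y z hy hz * rr hz (σ z) = rr hy (σ y) := by
  have := congrArg (rr (le_inf hy hz : W ≤ f ⁻¹ᵁ c.U y ⊓ f ⁻¹ᵁ c.U z)) (hσ y z)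
  simpa only [map_mul, rr_tg, rr_rr] using this

/-- **Extension from a refinement.**  A family of local sections on a cover `W a` subordinate
to the charts `f⁻¹ U_{ρ a}`, compatible through the transition functions, extends uniquely to a
twisted family; it consists of units if the local sections are units. -/
theorem exists_twisted {J : Type u} (W : J → Y'.Opens) (ρ : J → Y)
    (hW : ∀ a, W a ≤ f ⁻¹ᵁ c.U (ρ a)) (hcov : ∀ y' : Y', ∃ a, y' ∈ W a)
    (s : ∀ a, Γ(Y', W a))
    (hs : ∀ a b, tg f c (ρ a) (ρ b) (inf_le_left.trans (hW a)) (inf_le_right.trans (hW b)) *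
      rr (inf_le_right : W a ⊓ W b ≤ W b) (s b) = rr (inf_le_left : W a ⊓ W b ≤ W a) (s a)) :
    ∃ σ : ∀ y : Y, Γ(Y', f ⁻¹ᵁ c.U y), IsTw f c σ ∧ (∀ a, rr (hW a) (σ (ρ a)) = s a) ∧
      ((∀ a, IsUnit (s a)) → ∀ y, IsUnit (σ y)) := by
  -- the relation on any open inside `W a ⊓ W b`
  have hs' : ∀ (a b : J) {V : Y'.Opens} (ha : V ≤ W a) (hb : V ≤ W b),
      tg f c (ρ a) (ρ b) (ha.trans (hW a)) (hb.trans (hW b)) * rr hb (s b) = rr ha (s a) := by
    intro a b V ha hb
    have := congrArg (rr (le_inf ha hb : V ≤ W a ⊓ W b)) (hs a b)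
    simpa only [map_mul, rr_tg, rr_rr] using this
  -- local pieces of `σ y`
  let τ : ∀ (y : Y) (a : J), Γ(Y', f ⁻¹ᵁ c.U y ⊓ W a) := fun y a =>
    tg f c y (ρ a) inf_le_left (inf_le_right.trans (hW a)) * rr inf_le_right (s a)
  have hτ : ∀ (y : Y) (a : J) {V : Y'.Opens} (hy : V ≤ f ⁻¹ᵁ c.U y) (ha : V ≤ W a),
      rr (le_inf hy ha) (τ y a) = tg f c y (ρ a) hy (ha.trans (hW a)) * rr ha (s a) := by
    intro y a V hy ha
    simp only [τ, map_mul, rr_tg, rr_rr]
  have hcompat : ∀ (y : Y) (a b : J),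
      rr (inf_le_left : (f ⁻¹ᵁ c.U y ⊓ W a) ⊓ (f ⁻¹ᵁ c.U y ⊓ W b) ≤ _) (τ y a) =
        rr inf_le_right (τ y b) := by
    intro y a b
    have h1 := hτ y a (V := (f ⁻¹ᵁ c.U y ⊓ W a) ⊓ (f ⁻¹ᵁ c.U y ⊓ W b))
      (inf_le_left.trans inf_le_left) (inf_le_left.trans inf_le_right)
    have h2 := hτ y b (V := (f ⁻¹ᵁ c.U y ⊓ W a) ⊓ (f ⁻¹ᵁ c.U y ⊓ W b))
      (inf_le_left.trans inf_le_left) (inf_le_right.trans inf_le_right)
    rw [h1, h2, ← hs' a b (inf_le_left.trans inf_le_right) (inf_le_right.trans inf_le_right),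
      ← mul_assoc, tg_mul]
  have hcovy : ∀ y : Y, f ⁻¹ᵁ c.U y ≤ ⨆ a, f ⁻¹ᵁ c.U y ⊓ W a := by
    intro y y' hy'
    obtain ⟨a, ha⟩ := hcov y'
    exact Opens.mem_iSup.mpr ⟨a, hy', ha⟩
  choose σ hσ using fun y => exists_glue (fun a => f ⁻¹ᵁ c.U y ⊓ W a) (fun a => inf_le_left)
    (hcovy y) (τ y) (hcompat y)
  -- values of `σ` on any open inside a chart and a member of the cover
  have hσ' : ∀ (y : Y) (a : J) {V : Y'.Opens} (hy : V ≤ f ⁻¹ᵁ c.U y) (ha : V ≤ W a),
      rr hy (σ y) = tg f c y (ρ a) hy (ha.trans (hW a)) * rr ha (s a) := by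
    intro y a V hy ha
    rw [← hτ y a hy ha, ← hσ y a, rr_rr]
  refine ⟨σ, ?_, ?_, ?_⟩
  · intro y z
    refine ext_of_cover (fun a => (f ⁻¹ᵁ c.U y ⊓ f ⁻¹ᵁ c.U z) ⊓ W a) (fun a => inf_le_left)
      (fun y' hy' => ?_) _ _ fun a => ?_
    · obtain ⟨a, ha⟩ := hcov y'
      exact Opens.mem_iSup.mpr ⟨a, hy', ha⟩
    · simp only [map_mul, rr_tg, rr_rr]
      rw [hσ' z a (inf_le_left.trans inf_le_right) inf_le_right,
        hσ' y a (inf_le_left.trans inf_le_left) inf_le_right, ← mul_assoc, tg_mul]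
  · intro a
    rw [hσ' (ρ a) a (hW a) le_rfl, tg_self, one_mul, rr_self]
  · intro hu y
    refine isUnit_of_cover (fun a => f ⁻¹ᵁ c.U y ⊓ W a) (fun a => inf_le_left) (hcovy y) _
      fun a => ?_
    rw [hσ' y a inf_le_left inf_le_right]
    exact (isUnit_tg f c _ _ _ _).mul ((hu a).map _)

end

end Fermat.Agent.S26.H605

end
-- ===== PACK-END S26/H605/Twist.lean

-- ===== PACK-BEGIN S26/H605/BCGeom.lean
section




/-!
# Row S26, block PIC, leaf P5 (helper605): flat base change of twisted Čech sections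

Cartesian square `Y' = S' ×_X Y` with `ξ : S' ⟶ X` flat, `S'` affine mapping into the affine
open `X₀ ⊆ X`.  For a finite family of affine opens `V t ⊆ p⁻¹ X₀` of `Y` with quasi-compact
pairwise intersections and arbitrary "transition functions" `g t t'` on `V t ∩ V t'`:
every twisted-compatible family on the `π⁻¹ V t` is a `Γ(S')`-linear combination of pull-backs
of twisted-compatible families on the `V t`.
-/

set_option autoImplicit false

open AlgebraicGeometry CategoryTheory CategoryTheory.Limits TopologicalSpace Opposite TensorProduct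

universe u

namespace Fermat.Agent.S26.H605

noncomputable section

variable {X Y S' Y' : Scheme.{u}} {p : Y ⟶ X} {ξ : S' ⟶ X} {π : Y' ⟶ Y} {q' : Y' ⟶ S'}

/-- The algebra structure on functions induced by a morphism. -/
@[reducible] def algOfLE {X Y : Scheme.{u}} (p : Y ⟶ X) {X₀ : X.Opens} {V : Y.Opens}
    (hV : V ≤ p ⁻¹ᵁ X₀) : Algebra Γ(X, X₀) Γ(Y, V) :=
  (pl p hV).toAlgebra

lemma pl_comm_sq (H : IsPullback π q' p ξ) {X₀ : X.Opens} {UT : S'.Opens} {V : Y.Opens}
    {W : Y'.Opens} (hξ : UT ≤ ξ ⁻¹ᵁ X₀) (hV : V ≤ p ⁻¹ᵁ X₀) (hWq : W ≤ q' ⁻¹ᵁ UT)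
    (hWπ : W ≤ π ⁻¹ᵁ V) (a : Γ(X, X₀)) :
    pl q' hWq (pl ξ hξ a) = pl π hWπ (pl p hV a) := by
  rw [pl_pl, pl_pl]
  exact (pl_congr H.w _ a).symm

section one

lemma preimage_eq_inf_top (π : Y' ⟶ Y) (q' : Y' ⟶ S') (V : Y.Opens) :
    π ⁻¹ᵁ V = π ⁻¹ᵁ V ⊓ q' ⁻¹ᵁ (⊤ : S'.Opens) :=
  (inf_of_le_left (fun _ _ => trivial)).symm

variable (H : IsPullback π q' p ξ) {X₀ : X.Opens} (hξ : (⊤ : S'.Opens) ≤ ξ ⁻¹ᵁ X₀)
  {V : Y.Opens} (hV : V ≤ p ⁻¹ᵁ X₀)

/-- The comparison map `Γ(S') ⊗ Γ(Y, V) → Γ(Y', π⁻¹ V)` as a ring homomorphism, through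
Mathlib's `pushoutSection`. -/
lemma exists_ringHom_mulHom :
    letI := algOfLE ξ hξ
    letI := algOfLE p hV
    ∃ (e : (Γ(S', ⊤) ⊗[Γ(X, X₀)] Γ(Y, V)) ≃+*
        ↑(pushout (p.appLE X₀ V hV) (ξ.appLE X₀ ⊤ hξ))),
      ∀ z, mulHom (A := Γ(X, X₀)) (pl q' (le_preimage_top q' (π ⁻¹ᵁ V)))
        (pl π (le_refl (π ⁻¹ᵁ V))) (pl_comm_sq H hξ hV (le_preimage_top q' _) le_rfl) z =
          (pushoutSection H hξ hV (UY := π ⁻¹ᵁ V) (preimage_eq_inf_top π q' V)).hom (e z) := by
  letI := algOfLE ξ hξ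
  letI := algOfLE p hV
  let E := (CommRingCat.isPushout_tensorProduct Γ(X, X₀) Γ(S', ⊤) Γ(Y, V)).flip.isoPushout
  let Psec := pushoutSection H hξ hV (UY := π ⁻¹ᵁ V) (preimage_eq_inf_top π q' V)
  let Ψ : (Γ(S', ⊤) ⊗[Γ(X, X₀)] Γ(Y, V)) →+* Γ(Y', π ⁻¹ᵁ V) := Psec.hom.comp E.hom.hom
  refine ⟨E.commRingCatIsoToRingEquiv, fun z => ?_⟩
  have h1 : ∀ c : Γ(S', ⊤), Ψ (c ⊗ₜ 1) = pl q' (le_preimage_top q' (π ⁻¹ᵁ V)) c := by
    intro c
    have h : E.hom.hom (c ⊗ₜ 1) = (pushout.inr (p.appLE X₀ V hV) (ξ.appLE X₀ ⊤ hξ)).hom c :=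
      congr($((CommRingCat.isPushout_tensorProduct Γ(X, X₀) Γ(S', ⊤)
        Γ(Y, V)).flip.inr_isoPushout_hom) c)
    change Psec.hom (E.hom.hom (c ⊗ₜ 1)) = _
    rw [h]
    have h' : pushout.inr (p.appLE X₀ V hV) (ξ.appLE X₀ ⊤ hξ) ≫ Psec = q'.appLE ⊤ (π ⁻¹ᵁ V) _ :=
      pushout.inr_desc _ _ _
    exact congr($h' c)
  have h2 : ∀ b : Γ(Y, V), Ψ (1 ⊗ₜ b) = pl π (le_refl (π ⁻¹ᵁ V)) b := by
    intro b
    have h : E.hom.hom (1 ⊗ₜ b) = (pushout.inl (p.appLE X₀ V hV) (ξ.appLE X₀ ⊤ hξ)).hom b :=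
      congr($((CommRingCat.isPushout_tensorProduct Γ(X, X₀) Γ(S', ⊤)
        Γ(Y, V)).flip.inl_isoPushout_hom) b)
    change Psec.hom (E.hom.hom (1 ⊗ₜ b)) = _
    rw [h]
    have h' : pushout.inl (p.appLE X₀ V hV) (ξ.appLE X₀ ⊤ hξ) ≫ Psec = π.appLE V (π ⁻¹ᵁ V) _ :=
      pushout.inl_desc _ _ _
    exact congr($h' b)
  change _ = Ψ z
  induction z using TensorProduct.induction_on with
  | zero => simp only [map_zero]
  | add z z' hz hz' => simp only [map_add, hz, hz']
  | tmul c b =>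
    rw [mulHom_tmul]
    have : (c ⊗ₜ[Γ(X, X₀)] b : Γ(S', ⊤) ⊗[Γ(X, X₀)] Γ(Y, V)) = (c ⊗ₜ 1) * (1 ⊗ₜ b) := by
      rw [Algebra.TensorProduct.tmul_mul_tmul, mul_one, one_mul]
    rw [this, map_mul, h1, h2]

include H in
lemma mulHom_surjective_of_isAffineOpen (hX₀ : IsAffineOpen X₀)
    (hS' : IsAffineOpen (⊤ : S'.Opens)) (hVaff : IsAffineOpen V) :
    letI := algOfLE ξ hξ
    letI := algOfLE p hV
    Function.Surjective (mulHom (A := Γ(X, X₀)) (pl q' (le_preimage_top q' (π ⁻¹ᵁ V)))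
        (pl π (le_refl (π ⁻¹ᵁ V))) (pl_comm_sq H hξ hV (le_preimage_top q' _) le_rfl)) := by
  letI := algOfLE ξ hξ
  letI := algOfLE p hV
  obtain ⟨e, he⟩ := exists_ringHom_mulHom H hξ hV
  have hiso : IsIso (pushoutSection H hξ hV (UY := π ⁻¹ᵁ V) (preimage_eq_inf_top π q' V)) :=
    isIso_pushoutSection_of_isAffineOpen H hξ hV _ hX₀ hS' hVaff
  have hbij := (ConcreteCategory.isIso_iff_bijective _).mp hiso
  intro b'
  obtain ⟨z, hz⟩ := hbij.2 b'
  obtain ⟨w, rfl⟩ := e.surjective z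
  exact ⟨w, (he w).trans hz⟩

include H in
lemma mulHom_injective_of_isCompact [Flat ξ] (hX₀ : IsAffineOpen X₀)
    (hS' : IsAffineOpen (⊤ : S'.Opens)) (hVc : IsCompact (V : Set Y)) :
    letI := algOfLE ξ hξ
    letI := algOfLE p hV
    Function.Injective (mulHom (A := Γ(X, X₀)) (pl q' (le_preimage_top q' (π ⁻¹ᵁ V)))
        (pl π (le_refl (π ⁻¹ᵁ V))) (pl_comm_sq H hξ hV (le_preimage_top q' _) le_rfl)) := by
  letI := algOfLE ξ hξ
  letI := algOfLE p hV
  obtain ⟨e, he⟩ := exists_ringHom_mulHom H hξ hV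
  have hmono : Mono (pushoutSection H hξ hV (UY := π ⁻¹ᵁ V) (preimage_eq_inf_top π q' V)) :=
    mono_pushoutSection_of_isCompact_of_flat_right H hξ hV _ hX₀ hS' hVc
  have hinj := (ConcreteCategory.mono_iff_injective_of_preservesPullback _).mp hmono
  intro z z' h
  rw [he, he] at h
  exact e.injective (hinj h)

end one

/-- **Flat base change of twisted Čech sections.** -/
theorem twisted_baseChange (H : IsPullback π q' p ξ) [Flat ξ] {X₀ : X.Opens}
    (hX₀ : IsAffineOpen X₀) (hS' : IsAffineOpen (⊤ : S'.Opens))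
    (hξ : (⊤ : S'.Opens) ≤ ξ ⁻¹ᵁ X₀)
    {T : Type*} [Finite T] (V : T → Y.Opens) (hV : ∀ t, V t ≤ p ⁻¹ᵁ X₀)
    (hVaff : ∀ t, IsAffineOpen (V t))
    (hVc : ∀ t t', IsCompact ((V t ⊓ V t' : Y.Opens) : Set Y))
    (g : ∀ t t', Γ(Y, V t ⊓ V t'))
    (e' : ∀ t, Γ(Y', π ⁻¹ᵁ V t))
    (he' : ∀ t t', rr (π.preimage_mono (inf_le_left : V t ⊓ V t' ≤ V t)) (e' t) =
        pl π (le_refl (π ⁻¹ᵁ (V t ⊓ V t'))) (g t t') *
          rr (π.preimage_mono (inf_le_right : V t ⊓ V t' ≤ V t')) (e' t')) :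
    ∃ S : Finset (Γ(S', ⊤) × (∀ t, Γ(Y, V t))),
      (∀ i ∈ S, ∀ t t', rr (inf_le_left : V t ⊓ V t' ≤ V t) (i.2 t) =
        g t t' * rr (inf_le_right : V t ⊓ V t' ≤ V t') (i.2 t')) ∧
      ∀ t, e' t = ∑ i ∈ S, pl q' (le_preimage_top q' (π ⁻¹ᵁ V t)) i.1 *
        pl π (le_refl (π ⁻¹ᵁ V t)) (i.2 t) := by
  classical
  cases nonempty_fintype T
  letI : Algebra Γ(X, X₀) Γ(S', ⊤) := algOfLE ξ hξ
  haveI : Module.Flat Γ(X, X₀) Γ(S', ⊤) := ξ.flat_appLE hX₀ hS' hξ
  letI : ∀ t, Algebra Γ(X, X₀) Γ(Y, V t) := fun t => algOfLE p (hV t)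
  letI : ∀ tt : T × T, Algebra Γ(X, X₀) Γ(Y, V tt.1 ⊓ V tt.2) :=
    fun tt => algOfLE p (inf_le_left.trans (hV tt.1))
  obtain ⟨S, hS₁, hS₂⟩ := exists_sum_twisted_of_flat (A := Γ(X, X₀)) (R' := Γ(S', ⊤))
    (B := fun t => Γ(Y, V t)) (B' := fun t => Γ(Y', π ⁻¹ᵁ V t))
    (C := fun tt : T × T => Γ(Y, V tt.1 ⊓ V tt.2))
    (C' := fun tt : T × T => Γ(Y', π ⁻¹ᵁ (V tt.1 ⊓ V tt.2)))
    (fun t => pl q' (le_preimage_top q' (π ⁻¹ᵁ V t)))
    (fun t => pl π (le_refl (π ⁻¹ᵁ V t)))
    (fun t => pl_comm_sq H hξ (hV t) (le_preimage_top q' _) le_rfl)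
    (fun tt => pl q' (le_preimage_top q' (π ⁻¹ᵁ (V tt.1 ⊓ V tt.2))))
    (fun tt => pl π (le_refl (π ⁻¹ᵁ (V tt.1 ⊓ V tt.2))))
    (fun tt => pl_comm_sq H hξ (inf_le_left.trans (hV tt.1)) (le_preimage_top q' _) le_rfl)
    (fun tt => { toRingHom := rr (inf_le_left : V tt.1 ⊓ V tt.2 ≤ V tt.1)
                 commutes' := fun a => rr_pl p _ _ a })
    (fun tt => { toRingHom := rr (inf_le_right : V tt.1 ⊓ V tt.2 ≤ V tt.2)
                 commutes' := fun a => rr_pl p _ _ a })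
    (fun tt => rr (π.preimage_mono (inf_le_left : V tt.1 ⊓ V tt.2 ≤ V tt.1)))
    (fun tt => rr (π.preimage_mono (inf_le_right : V tt.1 ⊓ V tt.2 ≤ V tt.2)))
    (fun tt b => (rr_pl π _ _ b).trans (pl_rr π _ _ b).symm)
    (fun tt b => (rr_pl π _ _ b).trans (pl_rr π _ _ b).symm)
    (fun tt c => rr_pl q' _ _ c)
    (fun tt c => rr_pl q' _ _ c)
    (fun tt => g tt.1 tt.2)
    (fun t => mulHom_surjective_of_isAffineOpen H hξ (hV t) hX₀ hS' (hVaff t))
    (fun tt => mulHom_injective_of_isCompact H hξ (inf_le_left.trans (hV tt.1)) hX₀ hS'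
      (hVc tt.1 tt.2))
    e' (fun tt => he' tt.1 tt.2)
  exact ⟨S, fun i hi t t' => hS₁ i hi (t, t'), hS₂⟩

end

end Fermat.Agent.S26.H605

end
-- ===== PACK-END S26/H605/BCGeom.lean

-- ===== PACK-BEGIN S26/H626/NormCurve.lean
section
/-
Row S26, block CUBE, leaf C4b (helper626): the scheme side of the normalisation of an integral
curve.  For an integral scheme `Γ` with `γ : Γ ⟶ Spec K` locally of finite type, the
normalisation `normScheme Γ` of `Γ` in its function field (Mathlib's relative normalisation of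
the generic point `Spec K(Γ) ⟶ Γ`) with `normHom Γ : normScheme Γ ⟶ Γ` is integral;
* `isFinite_normHom` (N2, `K` perfect), `surjective_normHom` (N4), `isProper_normHom_comp` (N3);
* `smoothOfRelativeDimension_normHom_comp` (N5, `K` algebraically closed, `trdeg_K K(Γ) = 1`).
Uses T1 (H626), T2 and T3 (H507).
-/





set_option autoImplicit false
set_option linter.style.haveILetI false
set_option linter.unusedSectionVars false
universe u
open CategoryTheory CategoryTheory.Limits AlgebraicGeometry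

namespace Fermat.Agent.S26.H626

/-- Dedekind domains transport along ring isomorphisms. -/
theorem isDedekindDomain_of_ringEquiv {R S : Type*} [CommRing R] [CommRing S] (e : R ≃+* S)
    [IsDedekindDomain S] : IsDedekindDomain R := by
  haveI : IsDomain R := e.toMulEquiv.isDomain S
  haveI : IsNoetherianRing R := isNoetherianRing_of_ringEquiv S e.symm
  haveI : Ring.DimensionLEOne R := Ring.DimensionLEOne.of_ringEquiv e
  haveI : IsIntegrallyClosed R := IsIntegrallyClosed.of_equiv e.symm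
  exact { }


noncomputable section

/-- generic point morphism -/
abbrev genHom (Γ : Scheme.{u}) [IsIntegral Γ] : Spec Γ.functionField ⟶ Γ :=
  Γ.fromSpecStalk (genericPoint Γ)

variable (Γ : Scheme.{u}) [IsIntegral Γ]

theorem genericPoint_mem_of_nonempty (U : Γ.Opens) [hU : Nonempty U] : genericPoint Γ ∈ U :=
  ((genericPoint_spec Γ).mem_open_set_iff U.2).mpr (by
    obtain ⟨x, hx⟩ := hU
    exact ⟨x, ⟨trivial, hx⟩⟩)

theorem genHom_preimage_eq_top (U : Γ.Opens) [Nonempty U] :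
    (genHom Γ) ⁻¹ᵁ U = ⊤ := by
  have hg : genericPoint Γ ∈ U := genericPoint_mem_of_nonempty Γ U
  ext x
  simp only [TopologicalSpace.Opens.map_coe, Set.mem_preimage, SetLike.mem_coe,
    TopologicalSpace.Opens.coe_top, Set.mem_univ, iff_true]
  have hx : (genHom Γ) x ⤳ genericPoint Γ := by
    have : (genHom Γ) x ∈ Set.range (Γ.fromSpecStalk (genericPoint Γ)) := ⟨x, rfl⟩
    rw [Scheme.range_fromSpecStalk] at this
    exact this
  exact hx.mem_open U.2 hg

/-- The sections of `Spec K(Γ)` over the preimage of a nonempty open are `K(Γ)`. -/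
def genSecIso (U : Γ.Opens) [Nonempty U] :
    Γ((Spec Γ.functionField), (genHom Γ) ⁻¹ᵁ U) ≅ Γ.functionField :=
  (Spec Γ.functionField).presheaf.mapIso (eqToIso (genHom_preimage_eq_top Γ U).symm).op ≪≫
    Scheme.ΓSpecIso _

theorem genHom_app_genSecIso (U : Γ.Opens) [Nonempty U] :
    (genHom Γ).app U ≫ (genSecIso Γ U).hom = Γ.germToFunctionField U := by
  unfold genSecIso Scheme.germToFunctionField
  rw [Scheme.fromSpecStalk_app (genericPoint_mem_of_nonempty Γ U)]
  simp only [Category.assoc, Functor.mapIso_hom, Iso.trans_hom, Iso.op_hom, eqToIso.hom, eqToHom_op]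
  rw [← Functor.map_comp_assoc]
  have : ((homOfLE le_top : (genHom Γ) ⁻¹ᵁ U ⟶ ⊤).op ≫ eqToHom (by rw [genHom_preimage_eq_top])) = 𝟙 _ := rfl
  erw [this]
  simp

/-- The sections of `Spec K(Γ)` over the preimage of a nonempty open, as an algebra over
`Γ(Γ, U)`, are `K(Γ)`. -/
def genSecAlgEquiv (U : Γ.Opens) [Nonempty U] :
    letI := ((genHom Γ).app U).hom.toAlgebra
    Γ((Spec Γ.functionField), (genHom Γ) ⁻¹ᵁ U) ≃ₐ[Γ(Γ, U)] Γ.functionField :=
  letI := ((genHom Γ).app U).hom.toAlgebra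
  { (genSecIso Γ U).commRingCatIsoToRingEquiv with
    commutes' := fun r => by
      have := congrArg (fun φ => φ.hom r) (genHom_app_genSecIso Γ U)
      exact this }

variable {K : Type u} [Field K] (γ : Γ ⟶ Spec (CommRingCat.of K))

/-- The `K`-algebra structure on the sections of a `K`-scheme. -/
abbrev secAlgebra (U : Γ.Opens) : Algebra K Γ(Γ, U) :=
  ((γ.appLE ⊤ U le_top).hom.comp (Scheme.ΓSpecIso (CommRingCat.of K)).inv.hom).toAlgebra

theorem finiteType_secAlgebra [LocallyOfFiniteType γ] (U : Γ.Opens) (hU : IsAffineOpen U) :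
    letI := secAlgebra Γ γ U
    Algebra.FiniteType K Γ(Γ, U) := by
  letI := secAlgebra Γ γ U
  have h1 : (γ.appLE ⊤ U le_top).hom.FiniteType :=
    γ.finiteType_appLE (isAffineOpen_top _) hU le_top
  have h2 : ((γ.appLE ⊤ U le_top).hom.comp (Scheme.ΓSpecIso (CommRingCat.of K)).inv.hom).FiniteType :=
    h1.comp (RingHom.FiniteType.of_surjective _
      (ConcreteCategory.bijective_of_isIso (Scheme.ΓSpecIso (CommRingCat.of K)).inv).2)
  exact h2

/-- **Chart finiteness**: the integral closure of `Γ(Γ, U)` in the sections of `Spec K(Γ)` is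
a finite module, for `Γ` integral and locally of finite type over a perfect field. -/
theorem finite_integralClosure_chart [PerfectField K] [LocallyOfFiniteType γ] (U : Γ.Opens)
    (hU : IsAffineOpen U) [Nonempty U] :
    letI := ((genHom Γ).app U).hom.toAlgebra
    Module.Finite Γ(Γ, U) (integralClosure Γ(Γ, U) Γ((Spec Γ.functionField), (genHom Γ) ⁻¹ᵁ U)) := by
  letI := ((genHom Γ).app U).hom.toAlgebra
  letI := secAlgebra Γ γ U
  haveI := finiteType_secAlgebra Γ γ U hU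
  haveI : IsFractionRing Γ(Γ, U) Γ.functionField :=
    functionField_isFractionRing_of_isAffineOpen Γ U hU
  letI : Algebra K Γ.functionField :=
    ((algebraMap Γ(Γ, U) Γ.functionField).comp (algebraMap K Γ(Γ, U))).toAlgebra
  haveI : IsScalarTower K Γ(Γ, U) Γ.functionField := IsScalarTower.of_algebraMap_eq (fun _ => rfl)
  haveI : Module.IsTorsionFree Γ(Γ, U) Γ.functionField := inferInstance
  have hL : Algebra.IsAlgebraic Γ(Γ, U) Γ.functionField :=
    IsLocalization.isAlgebraic _ (nonZeroDivisors Γ(Γ, U))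
  have hfg : Algebra.EssFiniteType K Γ.functionField := by
    haveI : Algebra.EssFiniteType Γ(Γ, U) Γ.functionField :=
      Algebra.EssFiniteType.of_isLocalization _ (nonZeroDivisors Γ(Γ, U))
    exact Algebra.EssFiniteType.comp K Γ(Γ, U) Γ.functionField
  haveI := finite_integralClosure K Γ(Γ, U) Γ.functionField hL hfg
  exact Module.Finite.equiv (AlgEquiv.mapIntegralClosure (genSecAlgEquiv Γ U)).symm.toLinearEquiv


/-! ## Finiteness of the normalisation -/

/-- The normalisation of an integral scheme (in its function field). -/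
abbrev normScheme : Scheme.{u} := (genHom Γ).normalization

/-- The normalisation morphism. -/
abbrev normHom : normScheme Γ ⟶ Γ := (genHom Γ).fromNormalization

instance isIntegral_normScheme : IsIntegral (normScheme Γ) := by
  unfold normScheme; infer_instance

/-- **N2.** The normalisation of an integral scheme locally of finite type over a perfect field
is finite. -/
theorem isFinite_normHom [PerfectField K] [LocallyOfFiniteType γ] : IsFinite (normHom Γ) := by
  haveI : IsAffineHom (normHom Γ) := inferInstance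
  refine ⟨fun U hU => ?_⟩
  letI := ((genHom Γ).app U).hom.toAlgebra
  rw [(genHom Γ).fromNormalization_app hU]
  have h2 : ((genHom Γ).normalizationObjIso hU).inv.hom.Finite :=
    RingHom.Finite.of_surjective _
      (ConcreteCategory.bijective_of_isIso ((genHom Γ).normalizationObjIso hU).inv).2
  refine RingHom.Finite.comp h2 ?_
  change Module.Finite Γ(Γ, U) (integralClosure Γ(Γ, U) Γ((Spec Γ.functionField), (genHom Γ) ⁻¹ᵁ U))
  by_cases hne : Nonempty U
  · exact finite_integralClosure_chart Γ γ U hU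
  · have hU0 : U = ⊥ := by
      ext x
      simp only [TopologicalSpace.Opens.coe_bot, Set.mem_empty_iff_false, iff_false]
      exact fun hx => hne ⟨⟨x, hx⟩⟩
    haveI : Subsingleton Γ((Spec Γ.functionField), (genHom Γ) ⁻¹ᵁ U) := by
      have : (genHom Γ) ⁻¹ᵁ U = ⊥ := by rw [hU0]; rfl
      rw [this]
      infer_instance
    infer_instance


/-- **N4.** The normalisation morphism is surjective. -/
theorem surjective_normHom : Function.Surjective (normHom Γ) := by
  have hcl : IsClosed (Set.range (normHom Γ)) :=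
    (normHom Γ).isClosedMap.isClosed_range
  have hg : genericPoint Γ ∈ Set.range (normHom Γ) := by
    refine ⟨(genHom Γ).toNormalization (IsLocalRing.closedPoint _), ?_⟩
    rw [← Scheme.Hom.comp_apply, (genHom Γ).toNormalization_fromNormalization]
    exact Scheme.fromSpecStalk_closedPoint
  have huniv : Set.range (normHom Γ) = Set.univ := by
    refine Set.eq_univ_of_univ_subset ?_
    rw [← genericPoint_closure Γ]
    exact hcl.closure_subset_iff.mpr (Set.singleton_subset_iff.mpr hg)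
  exact Set.range_eq_univ.mp huniv

/-- **N3.** The normalisation of a proper integral scheme over a perfect field is proper. -/
theorem isProper_normHom_comp [PerfectField K] [IsProper γ] : IsProper (normHom Γ ≫ γ) := by
  haveI := isFinite_normHom Γ γ
  infer_instance


/-! ## Smoothness of the normalisation of a curve -/

/-- The structure map `K → K(Γ)` of the function field of an integral `K`-scheme (the same
formula as `Fermat.Agent.S26.ffStr`). -/
def ffStrK : K →+* Γ.functionField :=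
  ((Scheme.ΓSpecIso (CommRingCat.of K)).inv ≫ γ.appTop ≫
    Γ.presheaf.germ ⊤ (genericPoint Γ) (TopologicalSpace.Opens.mem_top _)).hom

theorem ffStrK_eq (U : Γ.Opens) [Nonempty U] :
    letI := secAlgebra Γ γ U
    ffStrK Γ γ = (algebraMap Γ(Γ, U) Γ.functionField).comp (algebraMap K Γ(Γ, U)) := by
  letI := secAlgebra Γ γ U
  ext a
  change _ = (Γ.germToFunctionField U).hom ((γ.appLE ⊤ U le_top).hom
    ((Scheme.ΓSpecIso (CommRingCat.of K)).inv.hom a))
  unfold ffStrK Scheme.germToFunctionField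
  rw [Scheme.Hom.appLE]
  simp only [CommRingCat.hom_comp, RingHom.coe_comp, Function.comp_apply]
  erw [TopCat.Presheaf.germ_res_apply]
  rfl


/-- The chart ring of the normalisation over a nonempty affine open is (isomorphic to) the
integral closure of `Γ(Γ, U)` in `K(Γ)`. -/
def normChartEquiv (U : Γ.Opens) (hU : IsAffineOpen U) [Nonempty U] :
    Γ(normScheme Γ, normHom Γ ⁻¹ᵁ U) ≃+* integralClosure Γ(Γ, U) Γ.functionField :=
  letI := ((genHom Γ).app U).hom.toAlgebra
  ((genHom Γ).normalizationObjIso hU).commRingCatIsoToRingEquiv.trans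
    (AlgEquiv.mapIntegralClosure (genSecAlgEquiv Γ U)).toRingEquiv

/-- The chart rings of the normalisation of a curve over a perfect field are Dedekind domains
and not fields. -/
theorem isDedekindDomain_normChart [PerfectField K] [LocallyOfFiniteType γ]
    (htr : letI := (ffStrK Γ γ).toAlgebra; Algebra.trdeg K Γ.functionField = 1)
    (U : Γ.Opens) (hU : IsAffineOpen U) [Nonempty U] :
    IsDedekindDomain Γ(normScheme Γ, normHom Γ ⁻¹ᵁ U) ∧
      ¬ IsField Γ(normScheme Γ, normHom Γ ⁻¹ᵁ U) := by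
  letI := secAlgebra Γ γ U
  haveI := finiteType_secAlgebra Γ γ U hU
  haveI : IsFractionRing Γ(Γ, U) Γ.functionField :=
    functionField_isFractionRing_of_isAffineOpen Γ U hU
  letI : Algebra K Γ.functionField :=
    ((algebraMap Γ(Γ, U) Γ.functionField).comp (algebraMap K Γ(Γ, U))).toAlgebra
  haveI : IsScalarTower K Γ(Γ, U) Γ.functionField := IsScalarTower.of_algebraMap_eq (fun _ => rfl)
  have htr' : Algebra.trdeg K Γ.functionField = 1 := by
    have h := ffStrK_eq Γ γ U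
    convert htr using 2
    rw [h]
  have hL : Algebra.IsAlgebraic Γ(Γ, U) Γ.functionField :=
    IsLocalization.isAlgebraic _ (nonZeroDivisors Γ(Γ, U))
  have hfg : Algebra.EssFiniteType K Γ.functionField := by
    haveI : Algebra.EssFiniteType Γ(Γ, U) Γ.functionField :=
      Algebra.EssFiniteType.of_isLocalization _ (nonZeroDivisors Γ(Γ, U))
    exact Algebra.EssFiniteType.comp K Γ(Γ, U) Γ.functionField
  obtain ⟨hD, hF, -, -⟩ := H507.integralClosure_curve K Γ(Γ, U) Γ.functionField hL hfg htr'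
  exact ⟨isDedekindDomain_of_ringEquiv (normChartEquiv Γ U hU),
    fun h => hF ((normChartEquiv Γ U hU).symm.toMulEquiv.isField h)⟩

/-- **N5.** The normalisation of an integral curve locally of finite type over an algebraically
closed field is smooth of relative dimension one. -/
theorem smoothOfRelativeDimension_normHom_comp [IsAlgClosed K] [LocallyOfFiniteType γ]
    (htr : letI := (ffStrK Γ γ).toAlgebra; Algebra.trdeg K Γ.functionField = 1) :
    SmoothOfRelativeDimension 1 (normHom Γ ≫ γ) := by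
  haveI := isFinite_normHom Γ γ
  let ι := {U : Γ.affineOpens // Nonempty U.1}
  let V : ι → (normScheme Γ).affineOpens :=
    fun i => ⟨normHom Γ ⁻¹ᵁ i.1.1, i.1.2.preimage (normHom Γ)⟩
  have hV : ⨆ i, (V i : (normScheme Γ).Opens) = ⊤ := by
    rw [eq_top_iff]
    intro x _
    obtain ⟨W, hW, hxW, -⟩ := TopologicalSpace.Opens.isBasis_iff_nbhd.mp Γ.isBasis_affineOpens
      (U := ⊤) (x := normHom Γ x) trivial
    exact TopologicalSpace.Opens.mem_iSup.mpr ⟨⟨⟨W, hW⟩, ⟨⟨normHom Γ x, hxW⟩⟩⟩, hxW⟩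
  rw [HasRingHomProperty.iff_of_iSup_eq_top (P := @SmoothOfRelativeDimension 1) V hV]
  rintro ⟨⟨U, hU⟩, hne⟩
  haveI : Nonempty U := hne
  obtain ⟨hD, hF⟩ := isDedekindDomain_normChart Γ γ htr U hU
  letI := secAlgebra (normScheme Γ) (normHom Γ ≫ γ) (normHom Γ ⁻¹ᵁ U)
  haveI := finiteType_secAlgebra (normScheme Γ) (normHom Γ ≫ γ) (normHom Γ ⁻¹ᵁ U)
    (hU.preimage (normHom Γ))
  have h := H507.locally_isStandardSmooth_of_isDedekindDomain K
    Γ(normScheme Γ, normHom Γ ⁻¹ᵁ U) hF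
  have hresp := RingHom.locally_respectsIso
    (RingHom.isStandardSmoothOfRelativeDimension_respectsIso (n := 1))
  have h2 := hresp.2 _ (Scheme.ΓSpecIso (CommRingCat.of K)).commRingCatIsoToRingEquiv h
  have heq : ((normHom Γ ≫ γ).appLE ⊤ (normHom Γ ⁻¹ᵁ U) le_top).hom =
      (algebraMap K Γ(normScheme Γ, normHom Γ ⁻¹ᵁ U)).comp
        (Scheme.ΓSpecIso (CommRingCat.of K)).commRingCatIsoToRingEquiv.toRingHom := by
    ext a
    change _ = ((normHom Γ ≫ γ).appLE ⊤ (normHom Γ ⁻¹ᵁ U) le_top).hom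
      ((Scheme.ΓSpecIso (CommRingCat.of K)).inv.hom
        ((Scheme.ΓSpecIso (CommRingCat.of K)).hom.hom a))
    rw [← CommRingCat.comp_apply (Scheme.ΓSpecIso (CommRingCat.of K)).hom, Iso.hom_inv_id]
    rfl
  exact heq ▸ h2

end
end Fermat.Agent.S26.H626

end
-- ===== PACK-END S26/H626/NormCurve.lean

-- ===== PACK-BEGIN S27/H443/FFLoc.lean
section


/-!
# Row S27, leaf FF-ALG, step C: the intersection of the two charts

For `u ≠ 0` in `F`, the integral closure of `K[u, u⁻¹]` in `F` is the localisation away from `u`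
of the integral closure of `K[u]`:  if `f` is integral over `K[u, u⁻¹]` then `u ^ k * f` is
integral over `K[u]` for some `k` (`ffB_pair_exists_pow_mul_mem`), whence
`ffB_isLocalization_away`.

Mathlib only.  Author: helper443.
-/

set_option autoImplicit false
set_option linter.style.haveILetI false

open Polynomial

namespace Fermat.Agent.S27.H443

/-- A criterion for `IsLocalization.Away`, for an injective algebra map. -/
theorem isLocalization_away_of_injective {R S : Type*} [CommRing R] [CommRing S] [Algebra R S]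
    (hinj : Function.Injective (algebraMap R S)) (x : R) (hx : IsUnit (algebraMap R S x))
    (hsurj : ∀ s : S, ∃ (k : ℕ) (r : R), s * algebraMap R S x ^ k = algebraMap R S r) :
    IsLocalization.Away x S := by
  rw [IsLocalization.Away, isLocalization_iff]
  refine ⟨?_, ?_, ?_⟩
  · rintro ⟨_, k, rfl⟩
    rw [map_pow]
    exact hx.pow k
  · intro s
    obtain ⟨k, r, h⟩ := hsurj s
    exact ⟨(r, ⟨x ^ k, k, rfl⟩), by rw [map_pow]; exact h⟩
  · intro a b h
    exact ⟨1, by rw [hinj h]⟩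

section Pair

variable {K F : Type*} [Field K] [Field F] [Algebra K F]

/-- Every element of `K[u, u⁻¹]` becomes an element of `K[u]` after multiplication by a power of
`u`. -/
theorem adjoin_pair_exists_pow_mul_mem {u : F} (hu : u ≠ 0) {a : F}
    (ha : a ∈ Algebra.adjoin K ({u, u⁻¹} : Set F)) :
    ∃ k : ℕ, u ^ k * a ∈ Algebra.adjoin K ({u} : Set F) := by
  induction ha using Algebra.adjoin_induction with
  | mem x hx =>
    rcases hx with rfl | hx
    · exact ⟨0, by simp [Algebra.self_mem_adjoin_singleton K x]⟩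
    · rw [Set.mem_singleton_iff] at hx
      subst hx
      exact ⟨1, by rw [pow_one, mul_inv_cancel₀ hu]; exact one_mem _⟩
  | algebraMap r => exact ⟨0, by simp⟩
  | add x y _ _ hx hy =>
    obtain ⟨k, hk⟩ := hx
    obtain ⟨l, hl⟩ := hy
    refine ⟨k + l, ?_⟩
    have hupow : ∀ n : ℕ, u ^ n ∈ Algebra.adjoin K ({u} : Set F) := fun n =>
      Subalgebra.pow_mem _ (Algebra.self_mem_adjoin_singleton K u) n
    have : u ^ (k + l) * (x + y) = u ^ l * (u ^ k * x) + u ^ k * (u ^ l * y) := by ring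
    rw [this]
    exact add_mem (mul_mem (hupow l) hk) (mul_mem (hupow k) hl)
  | mul x y _ _ hx hy =>
    obtain ⟨k, hk⟩ := hx
    obtain ⟨l, hl⟩ := hy
    refine ⟨k + l, ?_⟩
    have : u ^ (k + l) * (x * y) = (u ^ k * x) * (u ^ l * y) := by ring
    rw [this]
    exact mul_mem hk hl

/-- **Key lemma**: if `f` is integral over `K[u, u⁻¹]`, then `u ^ k * f` is integral over `K[u]`
for some `k`. -/
theorem ffB_pair_exists_pow_mul_mem {u : F} (hu : u ≠ 0) {f : F}
    (hf : f ∈ ffB K F ({u, u⁻¹} : Set F)) : ∃ k : ℕ, u ^ k * f ∈ ffB K F ({u} : Set F) := by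
  rw [mem_ffB] at hf
  have hle : Algebra.adjoin K ({u} : Set F) ≤ Algebra.adjoin K ({u, u⁻¹} : Set F) :=
    Algebra.adjoin_mono (by simp)
  letI alg : Algebra (Algebra.adjoin K ({u} : Set F)) (Algebra.adjoin K ({u, u⁻¹} : Set F)) :=
    (Subalgebra.inclusion hle).toRingHom.toAlgebra
  haveI tower : IsScalarTower (Algebra.adjoin K ({u} : Set F))
      (Algebra.adjoin K ({u, u⁻¹} : Set F)) F := IsScalarTower.of_algebraMap_eq fun _ => rfl
  let uA : Algebra.adjoin K ({u} : Set F) := ⟨u, Algebra.self_mem_adjoin_singleton K u⟩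
  have hinvmem : u⁻¹ ∈ Algebra.adjoin K ({u, u⁻¹} : Set F) :=
    Algebra.subset_adjoin (by simp)
  haveI hloc : IsLocalization.Away uA (Algebra.adjoin K ({u, u⁻¹} : Set F)) := by
    refine isLocalization_away_of_injective (Subalgebra.inclusion_injective hle) uA ?_ ?_
    · refine IsUnit.of_mul_eq_one (⟨u⁻¹, hinvmem⟩ : Algebra.adjoin K ({u, u⁻¹} : Set F)) ?_
      apply Subtype.ext
      change u * u⁻¹ = 1
      exact mul_inv_cancel₀ hu
    · rintro ⟨a, ha⟩
      obtain ⟨k, hk⟩ := adjoin_pair_exists_pow_mul_mem hu ha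
      refine ⟨k, ⟨u ^ k * a, hk⟩, ?_⟩
      apply Subtype.ext
      change a * u ^ k = u ^ k * a
      ring
  obtain ⟨⟨m, k, rfl⟩, hm⟩ := IsIntegral.exists_multiple_integral_of_isLocalization
    (Submonoid.powers uA) f hf
  refine ⟨k, ?_⟩
  rw [mem_ffB]
  have : u ^ k * f = (⟨uA ^ k, k, rfl⟩ : Submonoid.powers uA) • f := by
    rw [Submonoid.smul_def, Algebra.smul_def]
    rfl
  rw [this]
  exact hm

end Pair

end Fermat.Agent.S27.H443

end
-- ===== PACK-END S27/H443/FFLoc.lean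

-- ===== PACK-BEGIN S27/H866/Curve.lean
section



/-!
# Row S27, leaf SCHEME (helper866): the curve glued from a two-chart presentation

`curve B₀ B₁ B₀₁ = Spec B₀ ∪ Spec B₁` glued along `Spec B₀₁`, with its structure morphism
to `Spec k`, its two charts and the `ChartOf` dictionary data.
-/

set_option autoImplicit false

open CategoryTheory CategoryTheory.Limits AlgebraicGeometry Opposite
open AlgebraicGeometry.RelPicard NeronModelInfra GoodReductionJacobian

universe u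

namespace Fermat.Agent.S27.H866

open Fermat.Agent.S25

noncomputable section

variable (k : Type u) [Field k] (B₀ B₁ B₀₁ : Type u) [CommRing B₀] [CommRing B₁] [CommRing B₀₁]
  [Algebra k B₀] [Algebra k B₁] [Algebra k B₀₁] [Algebra B₀ B₀₁] [Algebra B₁ B₀₁]
  [IsScalarTower k B₀ B₀₁] [IsScalarTower k B₁ B₀₁]

/-- The open immersion `Spec B₀₁ ⟶ Spec B₀`. -/
abbrev j₀ : Spec (CommRingCat.of B₀₁) ⟶ Spec (CommRingCat.of B₀) :=
  Spec.map (CommRingCat.ofHom (algebraMap B₀ B₀₁))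

/-- The open immersion `Spec B₀₁ ⟶ Spec B₁`. -/
abbrev j₁ : Spec (CommRingCat.of B₀₁) ⟶ Spec (CommRingCat.of B₁) :=
  Spec.map (CommRingCat.ofHom (algebraMap B₁ B₀₁))

variable [IsOpenImmersion (j₀ B₀ B₀₁)] [IsOpenImmersion (j₁ B₁ B₀₁)]

/-- The glued curve. -/
def curve : Scheme.{u} := pushout (j₀ B₀ B₀₁) (j₁ B₁ B₀₁)

/-- The first chart. -/
def ι₀ : Spec (CommRingCat.of B₀) ⟶ curve B₀ B₁ B₀₁ := pushout.inl _ _

/-- The second chart. -/
def ι₁ : Spec (CommRingCat.of B₁) ⟶ curve B₀ B₁ B₀₁ := pushout.inr _ _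

instance : IsOpenImmersion (ι₀ B₀ B₁ B₀₁) := isOpenImmersion_pushout_inl _ _

instance : IsOpenImmersion (ι₁ B₀ B₁ B₀₁) := isOpenImmersion_pushout_inr _ _

lemma j₀_ι₀ : j₀ B₀ B₀₁ ≫ ι₀ B₀ B₁ B₀₁ = j₁ B₁ B₀₁ ≫ ι₁ B₀ B₁ B₀₁ := pushout.condition

/-- The chart of the overlap. -/
def ι₀₁ : Spec (CommRingCat.of B₀₁) ⟶ curve B₀ B₁ B₀₁ := j₀ B₀ B₀₁ ≫ ι₀ B₀ B₁ B₀₁

instance : IsOpenImmersion (ι₀₁ B₀ B₁ B₀₁) := by
  unfold ι₀₁; infer_instance

lemma ι₀₁_eq₀ : ι₀₁ B₀ B₁ B₀₁ = j₀ B₀ B₀₁ ≫ ι₀ B₀ B₁ B₀₁ := rfl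

lemma ι₀₁_eq₁ : ι₀₁ B₀ B₁ B₀₁ = j₁ B₁ B₀₁ ≫ ι₁ B₀ B₁ B₀₁ := j₀_ι₀ B₀ B₁ B₀₁

/-- The two charts as opens of the curve. -/
def U₀ : (curve B₀ B₁ B₀₁).Opens := (ι₀ B₀ B₁ B₀₁).opensRange

/-- The two charts as opens of the curve. -/
def U₁ : (curve B₀ B₁ B₀₁).Opens := (ι₁ B₀ B₁ B₀₁).opensRange

lemma isAffineOpen_U₀ : IsAffineOpen (U₀ B₀ B₁ B₀₁) :=
  isAffineOpen_opensRange (ι₀ B₀ B₁ B₀₁)

lemma isAffineOpen_U₁ : IsAffineOpen (U₁ B₀ B₁ B₀₁) :=
  isAffineOpen_opensRange (ι₁ B₀ B₁ B₀₁)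

lemma U₀_sup_U₁ : U₀ B₀ B₁ B₀₁ ⊔ U₁ B₀ B₁ B₀₁ = ⊤ :=
  pushout_opensRange_sup _ _

lemma opensRange_ι₀₁ : (ι₀₁ B₀ B₁ B₀₁).opensRange = U₀ B₀ B₁ B₀₁ ⊓ U₁ B₀ B₁ B₀₁ :=
  pushout_opensRange_inf _ _

lemma curve_cases (p : curve B₀ B₁ B₀₁) :
    (∃ x, ι₀ B₀ B₁ B₀₁ x = p) ∨ (∃ y, ι₁ B₀ B₁ B₀₁ y = p) :=
  pushout_jointly_surjective _ _ p

/-- The structure morphism of the curve. -/
def str : curve B₀ B₁ B₀₁ ⟶ Spec (CommRingCat.of k) :=
  pushout.desc (Spec.map (CommRingCat.ofHom (algebraMap k B₀)))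
    (Spec.map (CommRingCat.ofHom (algebraMap k B₁))) (by
      rw [← Spec.map_comp, ← Spec.map_comp, ← CommRingCat.ofHom_comp, ← CommRingCat.ofHom_comp,
        ← IsScalarTower.algebraMap_eq, ← IsScalarTower.algebraMap_eq])

@[reassoc]
lemma ι₀_str : ι₀ B₀ B₁ B₀₁ ≫ str k B₀ B₁ B₀₁ = Spec.map (CommRingCat.ofHom (algebraMap k B₀)) :=
  pushout.inl_desc _ _ _

@[reassoc]
lemma ι₁_str : ι₁ B₀ B₁ B₀₁ ≫ str k B₀ B₁ B₀₁ = Spec.map (CommRingCat.ofHom (algebraMap k B₁)) :=
  pushout.inr_desc _ _ _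

/-- The ring of functions of the first chart. -/
def i₀ : Γ(curve B₀ B₁ B₀₁, U₀ B₀ B₁ B₀₁) ≃+* B₀ :=
  secEquiv (R := CommRingCat.of B₀) (ι₀ B₀ B₁ B₀₁) (U₀ B₀ B₁ B₀₁) rfl

/-- The ring of functions of the second chart. -/
def i₁ : Γ(curve B₀ B₁ B₀₁, U₁ B₀ B₁ B₀₁) ≃+* B₁ :=
  secEquiv (R := CommRingCat.of B₁) (ι₁ B₀ B₁ B₀₁) (U₁ B₀ B₁ B₀₁) rfl

/-- The ring of functions of the overlap. -/
def i₀₁ : Γ(curve B₀ B₁ B₀₁, U₀ B₀ B₁ B₀₁ ⊓ U₁ B₀ B₁ B₀₁) ≃+* B₀₁ :=
  secEquiv (R := CommRingCat.of B₀₁) (ι₀₁ B₀ B₁ B₀₁) _ (opensRange_ι₀₁ B₀ B₁ B₀₁)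

lemma i₀_str (a : k) :
    i₀ B₀ B₁ B₀₁ (sectionsStr (str k B₀ B₁ B₀₁) (U₀ B₀ B₁ B₀₁) a) = algebraMap k B₀ a := by
  have h := pullHom_str (R := CommRingCat.of B₀) (A := CommRingCat.of k) (ι₀ B₀ B₁ B₀₁)
    (str k B₀ B₁ B₀₁) (CommRingCat.ofHom (algebraMap k B₀)) (ι₀_str k B₀ B₁ B₀₁) (U₀ B₀ B₁ B₀₁)
    (top_le_preimage_of_opensRange_eq _ _ rfl)
  exact congrArg (fun φ => φ.hom a) h

lemma i₁_str (a : k) :
    i₁ B₀ B₁ B₀₁ (sectionsStr (str k B₀ B₁ B₀₁) (U₁ B₀ B₁ B₀₁) a) = algebraMap k B₁ a := by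
  have h := pullHom_str (R := CommRingCat.of B₁) (A := CommRingCat.of k) (ι₁ B₀ B₁ B₀₁)
    (str k B₀ B₁ B₀₁) (CommRingCat.ofHom (algebraMap k B₁)) (ι₁_str k B₀ B₁ B₀₁) (U₁ B₀ B₁ B₀₁)
    (top_le_preimage_of_opensRange_eq _ _ rfl)
  exact congrArg (fun φ => φ.hom a) h

lemma i₀₁_res₀ (f : Γ(curve B₀ B₁ B₀₁, U₀ B₀ B₁ B₀₁)) :
    i₀₁ B₀ B₁ B₀₁ (resRing inf_le_left f) = algebraMap B₀ B₀₁ (i₀ B₀ B₁ B₀₁ f) := by
  have h1 := pullHom_res (R := CommRingCat.of B₀₁) (ι₀₁ B₀ B₁ B₀₁)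
    (inf_le_left : U₀ B₀ B₁ B₀₁ ⊓ U₁ B₀ B₁ B₀₁ ≤ U₀ B₀ B₁ B₀₁)
    (top_le_preimage_of_opensRange_eq _ _ (opensRange_ι₀₁ B₀ B₁ B₀₁))
  have h2 := pullHom_comp (R := CommRingCat.of B₀) (R' := CommRingCat.of B₀₁) (ι₀ B₀ B₁ B₀₁)
    (CommRingCat.ofHom (algebraMap B₀ B₀₁)) (U₀ B₀ B₁ B₀₁)
    (top_le_preimage_of_opensRange_eq _ _ rfl)
    ((top_le_preimage_of_opensRange_eq _ _ (opensRange_ι₀₁ B₀ B₁ B₀₁)).trans
      ((ι₀₁ B₀ B₁ B₀₁).preimage_mono inf_le_left))
  have h3 := h1.trans h2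
  exact congrArg (fun φ => φ.hom f) h3

lemma i₀₁_res₁ (f : Γ(curve B₀ B₁ B₀₁, U₁ B₀ B₁ B₀₁)) :
    i₀₁ B₀ B₁ B₀₁ (resRing inf_le_right f) = algebraMap B₁ B₀₁ (i₁ B₀ B₁ B₀₁ f) := by
  have h1 := pullHom_res (R := CommRingCat.of B₀₁) (ι₀₁ B₀ B₁ B₀₁)
    (inf_le_right : U₀ B₀ B₁ B₀₁ ⊓ U₁ B₀ B₁ B₀₁ ≤ U₁ B₀ B₁ B₀₁)
    (top_le_preimage_of_opensRange_eq _ _ (opensRange_ι₀₁ B₀ B₁ B₀₁))
  have h0 := pullHom_congr (ι₀₁_eq₁ B₀ B₁ B₀₁) (U₁ B₀ B₁ B₀₁)
    ((top_le_preimage_of_opensRange_eq _ _ (opensRange_ι₀₁ B₀ B₁ B₀₁)).trans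
      ((ι₀₁ B₀ B₁ B₀₁).preimage_mono inf_le_right))
  have h2 := pullHom_comp (R := CommRingCat.of B₁) (R' := CommRingCat.of B₀₁) (ι₁ B₀ B₁ B₀₁)
    (CommRingCat.ofHom (algebraMap B₁ B₀₁)) (U₁ B₀ B₁ B₀₁)
    (top_le_preimage_of_opensRange_eq _ _ rfl)
    (ι₀₁_eq₁ B₀ B₁ B₀₁ ▸ (top_le_preimage_of_opensRange_eq _ _ (opensRange_ι₀₁ B₀ B₁ B₀₁)).trans
      ((ι₀₁ B₀ B₁ B₀₁).preimage_mono inf_le_right))
  have h3 := h1.trans (h0.trans h2)
  exact congrArg (fun φ => φ.hom f) h3

lemma opensRange_specMap_away {R S : Type u} [CommRing R] [CommRing S] [Algebra R S] (r : R)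
    [IsLocalization.Away r S]
    [IsOpenImmersion (Spec.map (CommRingCat.ofHom (algebraMap R S)))] :
    (Spec.map (CommRingCat.ofHom (algebraMap R S))).opensRange = PrimeSpectrum.basicOpen r :=
  TopologicalSpace.Opens.ext (PrimeSpectrum.localization_away_comap_range S r)

lemma opensRange_congr {X Y : Scheme.{u}} {f g : X ⟶ Y} (h : f = g) [IsOpenImmersion f]
    [IsOpenImmersion g] : f.opensRange = g.opensRange := by
  subst h; rfl

lemma opensRange_ι₀₁_eq₀ (x : B₀) [IsLocalization.Away x B₀₁] :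
    (ι₀₁ B₀ B₁ B₀₁).opensRange = ι₀ B₀ B₁ B₀₁ ''ᵁ (PrimeSpectrum.basicOpen x) := by
  have h1 : (ι₀₁ B₀ B₁ B₀₁).opensRange = (j₀ B₀ B₀₁ ≫ ι₀ B₀ B₁ B₀₁).opensRange := rfl
  rw [h1, Scheme.Hom.opensRange_comp, opensRange_specMap_away x]

lemma opensRange_ι₀₁_eq₁ (y : B₁) [IsLocalization.Away y B₀₁] :
    (ι₀₁ B₀ B₁ B₀₁).opensRange = ι₁ B₀ B₁ B₀₁ ''ᵁ (PrimeSpectrum.basicOpen y) := by
  have h1 : (ι₀₁ B₀ B₁ B₀₁).opensRange = (j₁ B₁ B₀₁ ≫ ι₁ B₀ B₁ B₀₁).opensRange :=
    opensRange_congr (ι₀₁_eq₁ B₀ B₁ B₀₁)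
  rw [h1, Scheme.Hom.opensRange_comp, opensRange_specMap_away y]

lemma inf_eq₀ (x : B₀) [IsLocalization.Away x B₀₁] :
    U₀ B₀ B₁ B₀₁ ⊓ U₁ B₀ B₁ B₀₁ = (curve B₀ B₁ B₀₁).basicOpen ((i₀ B₀ B₁ B₀₁).symm x) := by
  have h1 := basicOpen_secEquiv_symm (R := CommRingCat.of B₀) (ι₀ B₀ B₁ B₀₁) (U₀ B₀ B₁ B₀₁) rfl x
  rw [i₀, h1, ← opensRange_ι₀₁]
  exact opensRange_ι₀₁_eq₀ B₀ B₁ B₀₁ x

lemma inf_eq₁ (y : B₁) [IsLocalization.Away y B₀₁] :
    U₀ B₀ B₁ B₀₁ ⊓ U₁ B₀ B₁ B₀₁ = (curve B₀ B₁ B₀₁).basicOpen ((i₁ B₀ B₁ B₀₁).symm y) := by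
  have h1 := basicOpen_secEquiv_symm (R := CommRingCat.of B₁) (ι₁ B₀ B₁ B₀₁) (U₁ B₀ B₁ B₀₁) rfl y
  rw [i₁, h1, ← opensRange_ι₀₁]
  exact opensRange_ι₀₁_eq₁ B₀ B₁ B₀₁ y

/-- The marked point. -/
def eps (e : B₁ →ₐ[k] k) : SchemeHomOver (𝟙 (Spec (CommRingCat.of k))) (str k B₀ B₁ B₀₁) :=
  ⟨Spec.map (CommRingCat.ofHom (e : B₁ →+* k)) ≫ ι₁ B₀ B₁ B₀₁, by
    rw [Category.assoc, ι₁_str, ← Spec.map_comp, ← CommRingCat.ofHom_comp]
    have : (e : B₁ →+* k).comp (algebraMap k B₁) = RingHom.id k := by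
      ext a; simp
    rw [this]
    exact Spec.map_id _⟩

lemma eps_mem (e : B₁ →ₐ[k] k) : (eps k B₀ B₁ B₀₁ e).1 ⁻¹ᵁ U₁ B₀ B₁ B₀₁ = ⊤ := by
  rw [eq_top_iff]
  intro p _
  exact ⟨_, rfl⟩

lemma e_eq (e : B₁ →ₐ[k] k) (f : Γ(curve B₀ B₁ B₀₁, U₁ B₀ B₁ B₀₁)) :
    e (i₁ B₀ B₁ B₀₁ f) =
      evalAt (str k B₀ B₁ B₀₁) (eps k B₀ B₁ B₀₁ e) (U₁ B₀ B₁ B₀₁) (eps_mem k B₀ B₁ B₀₁ e) f := by
  have h2 := pullHom_comp (R := CommRingCat.of B₁) (R' := CommRingCat.of k) (ι₁ B₀ B₁ B₀₁)
    (CommRingCat.ofHom (e : B₁ →+* k)) (U₁ B₀ B₁ B₀₁)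
    (top_le_preimage_of_opensRange_eq _ _ rfl) (le_of_eq (eps_mem k B₀ B₁ B₀₁ e).symm)
  exact (congrArg (fun φ => φ.hom f) h2).symm


end

end Fermat.Agent.S27.H866

end
-- ===== PACK-END S27/H866/Curve.lean

-- ===== PACK-BEGIN S25/H731/Twist.lean
section




/-!
# S25 / DEGREE D4 (helper731): twisting a gluing datum by a unit of `R₀₁`

For a gluing datum `G = (N₀, N₁, N₀₁, r₀, r₁)` over the cospan `R₀ → R₀₁ ← R₁` and a unit `u`
of `R₀₁`, `G.twist u := (N₀, N₁, N₀₁, r₀, u • r₁)`.  If `x ∈ R₀`, `y ∈ R₁` satisfy `x y = 1`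
in `R₀₁`, then `G.twist (x ^ n)` is `G(n E₀)`, where `E₀` is the divisor of `y`, and there are
canonical morphisms of gluing data

* `twistUpHom : G ⟶ G.twist (x ^ n)` and `twistDownHom : G.twist (y ^ n) ⟶ G`,

both the identity on `N₀`, `N₀₁` and multiplication by `y ^ n` on `N₁`.

Main results (over a field `K`, `R₀₁ = R₀[1/x]`, `y` a nonzerodivisor on `N₁`,
`N₁ / y N₁` finite-dimensional):

* `euler_twist_up`   : `χ(G.twist (x ^ n)) = χ(G) + n * dim (N₁ / y N₁)`;
* `euler_twist_down` : `χ(G) = χ(G.twist (y ^ n)) + n * dim (N₁ / y N₁)`;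
* `finrank_quot_smul_eq` : `dim (N / y N) = dim (R / y R)` for an invertible module `N` over
  `R` when `R / y R` is finite-dimensional (Picard group of a semilocal ring is trivial).
-/

set_option autoImplicit false
set_option linter.style.haveILetI false
set_option linter.unusedSectionVars false

universe u

open scoped TensorProduct

namespace Fermat.Agent.S25.H731

open Fermat.Agent.S25 Fermat.Agent.S25.H565

noncomputable section

/-! ## Linear algebra: cokernel of a power of an injective endomorphism -/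

section LinAlg

variable {K : Type*} [Field K] {V : Type*} [AddCommGroup V] [Module K V]

/-- For an injective endomorphism `T` with finite-dimensional cokernel,
`dim coker (T ^ n) = n * dim coker T`. -/
theorem finrank_coker_pow (T : V →ₗ[K] V) (hT : Function.Injective T)
    [FiniteDimensional K (V ⧸ LinearMap.range T)] (n : ℕ) :
    FiniteDimensional K (V ⧸ LinearMap.range (T ^ n)) ∧
      Module.finrank K (V ⧸ LinearMap.range (T ^ n)) =
        n * Module.finrank K (V ⧸ LinearMap.range T) := by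
  induction n with
  | zero =>
    have h1 : LinearMap.range (T ^ 0) = ⊤ := by
      rw [pow_zero]; exact LinearMap.range_id
    have hsub : Subsingleton (V ⧸ LinearMap.range (T ^ 0)) := by
      rw [Submodule.Quotient.subsingleton_iff]; exact h1
    refine ⟨inferInstance, ?_⟩
    rw [zero_mul]
    exact Module.finrank_zero_of_subsingleton
  | succ n ih =>
    obtain ⟨hfd, hrank⟩ := ih
    have hTn : Function.Injective (T ^ n) := by
      rw [Module.End.coe_pow]; exact hT.iterate n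
    have hFC : FinCoh (T ^ n) := by
      refine ⟨?_, hfd⟩
      rw [LinearMap.ker_eq_bot.2 hTn]
      infer_instance
    obtain ⟨hFC', -, hone⟩ := finCoh_comp_left (T ^ n) T hT hFC
    have hcomp : T ∘ₗ (T ^ n) = T ^ (n + 1) := by
      rw [pow_succ']; rfl
    rw [hcomp] at hFC' hone
    refine ⟨hFC'.2, ?_⟩
    have : Module.finrank K (V ⧸ LinearMap.range (T ^ (n + 1))) =
        Module.finrank K (V ⧸ LinearMap.range (T ^ n)) +
          Module.finrank K (V ⧸ LinearMap.range T) := hone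
    rw [this, hrank]
    ring

end LinAlg


/-! ## The twist of a gluing datum by a unit of `R₀₁` -/

section Twist

variable {A R₀ R₁ R₀₁ : Type u} [CommRing A] [CommRing R₀] [CommRing R₁]
    [CommRing R₀₁] [Algebra A R₀] [Algebra A R₁] [Algebra A R₀₁] [Algebra R₀ R₀₁]
    [Algebra R₁ R₀₁] [IsScalarTower A R₀ R₀₁] [IsScalarTower A R₁ R₀₁]

/-- `u • r₁` as an `R₁`-linear map. -/
def twistMap (G : GlueDatum A R₀ R₁ R₀₁) (u : R₀₁ˣ) : G.N₁ →ₗ[R₁] G.N₀₁ :=
  ((LinearEquiv.smulOfUnit u : G.N₀₁ ≃ₗ[R₀₁] G.N₀₁).toLinearMap.restrictScalars R₁) ∘ₗ G.r₁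

@[simp] theorem twistMap_apply (G : GlueDatum A R₀ R₁ R₀₁) (u : R₀₁ˣ) (s : G.N₁) :
    twistMap G u s = (u : R₀₁) • G.r₁ s := rfl

theorem isBaseChange_twistMap (G : GlueDatum A R₀ R₁ R₀₁) (u : R₀₁ˣ) :
    IsBaseChange R₀₁ (twistMap G u) :=
  IsBaseChange.comp G.isBaseChange₁
    (IsBaseChange.ofEquiv (LinearEquiv.smulOfUnit u : G.N₀₁ ≃ₗ[R₀₁] G.N₀₁))

/-- The twist `(N₀, N₁, N₀₁, r₀, u • r₁)` of a gluing datum by a unit `u` of `R₀₁`. -/
def twist (G : GlueDatum A R₀ R₁ R₀₁) (u : R₀₁ˣ) : GlueDatum A R₀ R₁ R₀₁ where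
  N₀ := G.N₀
  N₁ := G.N₁
  N₀₁ := G.N₀₁
  r₀ := G.r₀
  r₁ := twistMap G u
  isBaseChange₀ := G.isBaseChange₀
  isBaseChange₁ := isBaseChange_twistMap G u
  invertible₀ := G.invertible₀
  invertible₁ := G.invertible₁

@[simp] theorem twist_r₀ (G : GlueDatum A R₀ R₁ R₀₁) (u : R₀₁ˣ) (s : G.N₀) :
    (twist G u).r₀ s = G.r₀ s := rfl

@[simp] theorem twist_r₁ (G : GlueDatum A R₀ R₁ R₀₁) (u : R₀₁ˣ) (s : G.N₁) :
    (twist G u).r₁ s = (u : R₀₁) • G.r₁ s := rfl

theorem twist_cech_apply (G : GlueDatum A R₀ R₁ R₀₁) (u : R₀₁ˣ) (p : G.N₀ × G.N₁) :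
    (twist G u).cech p = G.r₀ p.1 - (u : R₀₁) • G.r₁ p.2 := by
  rw [GlueHom.cech_apply]; rfl

/-- The unit of `R₀₁` attached to `x ∈ R₀`, `y ∈ R₁` with `x y = 1`. -/
def unitOfMulEqOne (x : R₀) (y : R₁) (hxy : algebraMap R₀ R₀₁ x * algebraMap R₁ R₀₁ y = 1) :
    R₀₁ˣ :=
  ⟨algebraMap R₀ R₀₁ x, algebraMap R₁ R₀₁ y, hxy, by rw [mul_comm]; exact hxy⟩

@[simp] theorem val_unitOfMulEqOne (x : R₀) (y : R₁)
    (hxy : algebraMap R₀ R₀₁ x * algebraMap R₁ R₀₁ y = 1) :
    ((unitOfMulEqOne x y hxy : R₀₁ˣ) : R₀₁) = algebraMap R₀ R₀₁ x := rfl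

@[simp] theorem val_inv_unitOfMulEqOne (x : R₀) (y : R₁)
    (hxy : algebraMap R₀ R₀₁ x * algebraMap R₁ R₀₁ y = 1) :
    (((unitOfMulEqOne x y hxy)⁻¹ : R₀₁ˣ) : R₀₁) = algebraMap R₁ R₀₁ y := rfl

variable (x : R₀) (y : R₁) (hxy : algebraMap R₀ R₀₁ x * algebraMap R₁ R₀₁ y = 1)

/-- Multiplication by `y ^ n` on `N₁`, as an `R₁`-linear map. -/
def smulY (G : GlueDatum A R₀ R₁ R₀₁) (y : R₁) (n : ℕ) : G.N₁ →ₗ[R₁] G.N₁ :=
  LinearMap.lsmul R₁ G.N₁ (y ^ n)

@[simp] theorem smulY_apply (G : GlueDatum A R₀ R₁ R₀₁) (n : ℕ) (s : G.N₁) :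
    smulY G y n s = y ^ n • s := rfl

include hxy in
theorem unit_pow_smul_r₁ (G : GlueDatum A R₀ R₁ R₀₁) (n : ℕ) (s : G.N₁) :
    (((unitOfMulEqOne x y hxy) ^ n : R₀₁ˣ) : R₀₁) • G.r₁ (y ^ n • s) = G.r₁ s := by
  rw [map_smul, ← algebraMap_smul R₀₁ (y ^ n) (G.r₁ s), smul_smul, Units.val_pow_eq_pow_val,
    val_unitOfMulEqOne, map_pow, ← mul_pow, hxy, one_pow, one_smul]

/-- The canonical morphism `G ⟶ G(n E₀) = G.twist (x ^ n)`: identity on `N₀`, `N₀₁`,
multiplication by `y ^ n` on `N₁`. -/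
def twistUpHom (G : GlueDatum A R₀ R₁ R₀₁) (n : ℕ) :
    GlueHom G (twist G ((unitOfMulEqOne x y hxy) ^ n)) where
  f₀ := LinearMap.id
  f₁ := smulY G y n
  f₀₁ := LinearMap.id
  comm₀ _ := rfl
  comm₁ s := by
    show G.r₁ s = (((unitOfMulEqOne x y hxy) ^ n : R₀₁ˣ) : R₀₁) • G.r₁ (y ^ n • s)
    rw [unit_pow_smul_r₁]

include hxy in
theorem unit_inv_pow_smul_r₁ (G : GlueDatum A R₀ R₁ R₀₁) (n : ℕ) (s : G.N₁) :
    (((unitOfMulEqOne x y hxy)⁻¹ ^ n : R₀₁ˣ) : R₀₁) • G.r₁ s = G.r₁ (y ^ n • s) := by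
  rw [map_smul, ← algebraMap_smul R₀₁ (y ^ n) (G.r₁ s), Units.val_pow_eq_pow_val,
    val_inv_unitOfMulEqOne, map_pow]

/-- The canonical morphism `G(-n E₀) = G.twist (y ^ n) ⟶ G`: identity on `N₀`, `N₀₁`,
multiplication by `y ^ n` on `N₁`. -/
def twistDownHom (G : GlueDatum A R₀ R₁ R₀₁) (n : ℕ) :
    GlueHom (twist G ((unitOfMulEqOne x y hxy)⁻¹ ^ n)) G where
  f₀ := LinearMap.id
  f₁ := smulY G y n
  f₀₁ := LinearMap.id
  comm₀ _ := rfl
  comm₁ s := unit_inv_pow_smul_r₁ x y hxy G n s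

/-! ### The morphism defined by a section -/

theorem sectionHom_comm₀ (G : GlueDatum A R₀ R₁ R₀₁) (s₀ : G.N₀) (a : R₀) :
    (algebraMap R₀ R₀₁ a) • G.r₀ s₀ = G.r₀ (a • s₀) := by
  rw [map_smul, algebraMap_smul]

theorem sectionHom_comm₁ (G : GlueDatum A R₀ R₁ R₀₁) (u : R₀₁ˣ) (s₀ : G.N₀) (s₁ : G.N₁)
    (hs : G.r₀ s₀ = ((u⁻¹ : R₀₁ˣ) : R₀₁) • G.r₁ s₁) (b : R₁) :
    ((u : R₀₁) • algebraMap R₁ R₀₁ b) • G.r₀ s₀ = G.r₁ (b • s₁) := by
  rw [hs, smul_smul, smul_eq_mul, mul_comm (u : R₀₁), mul_assoc, ← Units.val_mul,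
    mul_inv_cancel, Units.val_one, mul_one, map_smul, algebraMap_smul]

/-- A section `(s₀, s₁)` of `G.twist u⁻¹` defines a morphism `unit.twist u ⟶ G`. -/
def sectionHom (G : GlueDatum A R₀ R₁ R₀₁) (u : R₀₁ˣ) (s₀ : G.N₀) (s₁ : G.N₁)
    (hs : G.r₀ s₀ = ((u⁻¹ : R₀₁ˣ) : R₀₁) • G.r₁ s₁) :
    GlueHom (twist (GlueDatum.unit A R₀ R₁ R₀₁) u) G where
  f₀ := LinearMap.toSpanSingleton R₀ G.N₀ s₀
  f₁ := LinearMap.toSpanSingleton R₁ G.N₁ s₁
  f₀₁ := LinearMap.toSpanSingleton R₀₁ G.N₀₁ (G.r₀ s₀)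
  comm₀ a := sectionHom_comm₀ G s₀ a
  comm₁ b := sectionHom_comm₁ G u s₀ s₁ hs b

/-- A nonzero element of `H⁰(G.twist u)`, with its components in `G.N₀`, `G.N₁`. -/
theorem exists_twisted_section {K R₀ R₁ R₀₁ : Type u} [Field K] [CommRing R₀] [CommRing R₁]
    [CommRing R₀₁] [Algebra K R₀] [Algebra K R₁] [Algebra K R₀₁] [Algebra R₀ R₀₁]
    [Algebra R₁ R₀₁] [IsScalarTower K R₀ R₀₁] [IsScalarTower K R₁ R₀₁]
    (G : GlueDatum K R₀ R₁ R₀₁) (u : R₀₁ˣ) (hF : FinCoh (twist G u).cech)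
    (h : 1 ≤ (twist G u).euler) :
    ∃ (s₀ : G.N₀) (s₁ : G.N₁), G.r₀ s₀ = (u : R₀₁) • G.r₁ s₁ ∧ (s₀ ≠ 0 ∨ s₁ ≠ 0) := by
  have h0 : 0 < Module.finrank K (twist G u).H0 := by
    rw [GlueDatum.euler] at h
    omega
  haveI := hF.1
  rw [Module.finrank_pos_iff_exists_ne_zero] at h0
  obtain ⟨⟨p, hp⟩, hne⟩ := h0
  have hp' : G.r₀ p.1 - (u : R₀₁) • G.r₁ p.2 = 0 := by
    rw [← twist_cech_apply]
    exact hp
  refine ⟨p.1, p.2, sub_eq_zero.1 hp', ?_⟩
  by_contra hcon
  rw [not_or, not_not, not_not] at hcon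
  apply hne
  apply Subtype.ext
  exact Prod.ext hcon.1 hcon.2

end Twist


/-! ## Euler characteristic of a twist (over a field) -/

section Euler

variable {K R₀ R₁ R₀₁ : Type u} [Field K] [CommRing R₀] [CommRing R₁]
    [CommRing R₀₁] [Algebra K R₀] [Algebra K R₁] [Algebra K R₀₁] [Algebra R₀ R₀₁]
    [Algebra R₁ R₀₁] [IsScalarTower K R₀ R₀₁] [IsScalarTower K R₁ R₀₁]

/-- A morphism of gluing data which is bijective on `N₀` and `N₀₁` and injective on `N₁`
with finite-dimensional cokernel changes `χ` by the dimension of that cokernel. -/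
theorem GlueHom_euler_of_surjective {G G' : GlueDatum K R₀ R₁ R₀₁} (φ : GlueHom G G')
    (x : R₀) [IsLocalization.Away x R₀₁]
    (h₀ : Function.Injective φ.f₀) (h₀' : Function.Surjective φ.f₀)
    (h₀₁' : Function.Surjective φ.f₀₁) (h₁ : Function.Injective φ.f₁)
    [FiniteDimensional K φ.coker₁] (hG : FinCoh G.cech) :
    FinCoh G'.cech ∧ G'.euler = G.euler + Module.finrank K φ.coker₁ := by
  have hr0 : LinearMap.range (φ.f₀.restrictScalars K) = ⊤ :=
    LinearMap.range_eq_top.2 h₀'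
  have hr01 : LinearMap.range φ.fMid = ⊤ := LinearMap.range_eq_top.2 h₀₁'
  have hs0 : Subsingleton φ.coker₀ := by
    rw [Submodule.Quotient.subsingleton_iff]; exact hr0
  have hs01 : Subsingleton φ.coker₀₁ := by
    rw [Submodule.Quotient.subsingleton_iff]; exact hr01
  have : FiniteDimensional K φ.coker₀ := inferInstance
  obtain ⟨hF, he⟩ := φ.euler_eq x h₀ h₁ hG
  refine ⟨hF, ?_⟩
  have z0 : Module.finrank K φ.coker₀ = 0 := Module.finrank_zero_of_subsingleton
  have z01 : Module.finrank K φ.coker₀₁ = 0 := Module.finrank_zero_of_subsingleton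
  rw [he, z0, z01]
  simp

variable (x : R₀) (y : R₁) (hxy : algebraMap R₀ R₀₁ x * algebraMap R₁ R₀₁ y = 1)

/-- Multiplication by `y` on `N₁` as a `K`-linear endomorphism. -/
def smulYK (G : GlueDatum K R₀ R₁ R₀₁) (y : R₁) : G.N₁ →ₗ[K] G.N₁ :=
  (LinearMap.lsmul R₁ G.N₁ y).restrictScalars K

@[simp] theorem smulYK_apply (G : GlueDatum K R₀ R₁ R₀₁) (s : G.N₁) :
    smulYK G y s = y • s := rfl

theorem smulYK_pow_apply (G : GlueDatum K R₀ R₁ R₀₁) (n : ℕ) (s : G.N₁) :
    (smulYK G y ^ n) s = y ^ n • s := by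
  induction n generalizing s with
  | zero => simp
  | succ n ih =>
    rw [pow_succ, Module.End.mul_apply, ih, smulYK_apply, smul_smul, pow_succ]

theorem smulY_restrictScalars (G : GlueDatum K R₀ R₁ R₀₁) (n : ℕ) :
    (smulY G y n).restrictScalars K = smulYK G y ^ n := by
  apply LinearMap.ext
  intro s
  rw [smulYK_pow_apply]
  rfl

/-- The number `dim_K (N₁ / y N₁)`. -/
def quotYRank (G : GlueDatum K R₀ R₁ R₀₁) (y : R₁) : ℕ :=
  Module.finrank K (G.N₁ ⧸ LinearMap.range (smulYK G y))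

/-- Facts about the cokernel of multiplication by `y ^ n` on `N₁`. -/
theorem cokerY_facts (G : GlueDatum K R₀ R₁ R₀₁)
    (hy : Function.Injective (smulYK G y))
    [FiniteDimensional K (G.N₁ ⧸ LinearMap.range (smulYK G y))] (n : ℕ) :
    FiniteDimensional K (G.N₁ ⧸ LinearMap.range ((smulY G y n).restrictScalars K)) ∧
      Module.finrank K (G.N₁ ⧸ LinearMap.range ((smulY G y n).restrictScalars K)) =
        n * quotYRank G y ∧ Function.Injective (smulY G y n) := by
  obtain ⟨hfd, hrank⟩ := finrank_coker_pow (smulYK G y) hy n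
  have hinj : Function.Injective (smulYK G y ^ n) := by
    rw [Module.End.coe_pow]; exact hy.iterate n
  rw [smulY_restrictScalars]
  refine ⟨hfd, hrank, ?_⟩
  intro a b hab
  apply hinj
  rw [smulYK_pow_apply, smulYK_pow_apply]
  exact hab

include hxy in
/-- **D4 (twist up).** `χ(G(n E₀)) = χ(G) + n · dim (N₁ / y N₁)`. -/
theorem euler_twist_up [IsLocalization.Away x R₀₁] (G : GlueDatum K R₀ R₁ R₀₁)
    (hy : Function.Injective (smulYK G y))
    [FiniteDimensional K (G.N₁ ⧸ LinearMap.range (smulYK G y))]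
    (hG : FinCoh G.cech) (n : ℕ) :
    FinCoh (twist G ((unitOfMulEqOne x y hxy) ^ n)).cech ∧
      (twist G ((unitOfMulEqOne x y hxy) ^ n)).euler = G.euler + n * quotYRank G y := by
  obtain ⟨hfd, hrank, h₁⟩ := cokerY_facts y G hy n
  let φ := twistUpHom x y hxy G n
  have hfd' : FiniteDimensional K φ.coker₁ := hfd
  have hrank' : Module.finrank K φ.coker₁ = n * quotYRank G y := hrank
  have h₁' : Function.Injective φ.f₁ := h₁
  obtain ⟨hF, he⟩ := GlueHom_euler_of_surjective φ x (fun a b h => h) (fun a => ⟨a, rfl⟩)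
    (fun a => ⟨a, rfl⟩) h₁' hG
  refine ⟨hF, ?_⟩
  rw [he, hrank']
  push_cast
  ring

include hxy in
/-- **D4 (twist down).** `χ(G) = χ(G(-n E₀)) + n · dim (N₁ / y N₁)`, and finiteness of the
cohomology of `G(-n E₀)` follows from that of `G`. -/
theorem euler_twist_down [IsLocalization.Away x R₀₁] (G : GlueDatum K R₀ R₁ R₀₁)
    (hy : Function.Injective (smulYK G y))
    [FiniteDimensional K (G.N₁ ⧸ LinearMap.range (smulYK G y))]
    (hG : FinCoh G.cech) (n : ℕ) :
    FinCoh (twist G ((unitOfMulEqOne x y hxy)⁻¹ ^ n)).cech ∧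
      G.euler = (twist G ((unitOfMulEqOne x y hxy)⁻¹ ^ n)).euler + n * quotYRank G y := by
  obtain ⟨hfd, hrank, h₁⟩ := cokerY_facts y G hy n
  let φ := twistDownHom x y hxy G n
  have hfd' : FiniteDimensional K φ.coker₁ := hfd
  have hrank' : Module.finrank K φ.coker₁ = n * quotYRank G y := hrank
  have h₁' : Function.Injective φ.f₁ := h₁
  have hfd0 : FiniteDimensional K φ.coker₀ := by
    have : Subsingleton φ.coker₀ := by
      rw [Submodule.Quotient.subsingleton_iff]
      exact LinearMap.range_eq_top.2 (fun a => ⟨a, rfl⟩)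
    infer_instance
  have hF : FinCoh (twist G ((unitOfMulEqOne x y hxy)⁻¹ ^ n)).cech :=
    φ.finCoh_of_finCoh x (fun a b h => h) h₁' hG
  obtain ⟨-, he⟩ := GlueHom_euler_of_surjective φ x (fun a b h => h) (fun a => ⟨a, rfl⟩)
    (fun a => ⟨a, rfl⟩) h₁' hF
  refine ⟨hF, ?_⟩
  rw [he, hrank']
  push_cast
  ring

end Euler


/-! ## `N / y N ≅ R / y R` for an invertible module -/

section Invertible

variable {K R : Type u} [Field K] [CommRing R] [Algebra K R]
  (N : Type u) [AddCommGroup N] [Module R N] [Module K N] [IsScalarTower K R N]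

/-- The range of multiplication by `y`, as a `K`-subspace, is `(y) • ⊤`. -/
theorem range_lsmul_restrictScalars (y : R) :
    LinearMap.range ((LinearMap.lsmul R N y).restrictScalars K) =
      ((Ideal.span {y} • (⊤ : Submodule R N) : Submodule R N)).restrictScalars K := by
  ext n
  simp only [LinearMap.mem_range, LinearMap.coe_restrictScalars, LinearMap.lsmul_apply,
    Submodule.restrictScalars_mem]
  rw [Submodule.ideal_span_singleton_smul, Submodule.mem_smul_pointwise_iff_exists]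
  constructor
  · rintro ⟨m, rfl⟩
    exact ⟨m, Submodule.mem_top, rfl⟩
  · rintro ⟨m, -, rfl⟩
    exact ⟨m, rfl⟩

/-- For an invertible `R`-module `N` and `y ∈ R` with `R / y R` finite-dimensional over `K`:
`N / y N ≅ R / y R` as `K`-vector spaces. -/
theorem nonempty_quot_smul_equiv [Module.Invertible R N] (y : R)
    [Module.Finite K (R ⧸ Ideal.span {y})] :
    Nonempty ((N ⧸ LinearMap.range ((LinearMap.lsmul R N y).restrictScalars K)) ≃ₗ[K]
      (R ⧸ Ideal.span {y})) := by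
  have : IsArtinianRing (R ⧸ Ideal.span {y}) := IsArtinianRing.of_finite K (R ⧸ Ideal.span {y})
  have : Module.Free (R ⧸ Ideal.span {y}) ((R ⧸ Ideal.span {y}) ⊗[R] N) := inferInstance
  obtain ⟨e⟩ := Module.Invertible.free_iff_linearEquiv.mp
    (inferInstance : Module.Free (R ⧸ Ideal.span {y}) ((R ⧸ Ideal.span {y}) ⊗[R] N))
  let e1 := TensorProduct.quotTensorEquivQuotSMul N (Ideal.span {y})
  let e2 : (N ⧸ (Ideal.span {y} • (⊤ : Submodule R N) : Submodule R N)) ≃ₗ[R]
      (R ⧸ Ideal.span {y}) := e1.symm ≪≫ₗ (e.restrictScalars R)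
  let e3 := Submodule.Quotient.restrictScalarsEquiv K
    (Ideal.span {y} • (⊤ : Submodule R N) : Submodule R N)
  let e4 := Submodule.quotEquivOfEq _ _ (range_lsmul_restrictScalars (K := K) N y)
  exact ⟨e4 ≪≫ₗ e3 ≪≫ₗ (e2.restrictScalars K)⟩

end Invertible

end

end Fermat.Agent.S25.H731

end
-- ===== PACK-END S25/H731/Twist.lean

-- ===== PACK-BEGIN S37/H280/IntQ.lean
section







/-!
# S37 / INT-Q (helper280): integral elements of `ℚ̄(X₀(N))` have `A`-integral `q`-expansions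

`A` a valuation subring of `ℚ̄` over a prime `ℓ`.  If `f ∈ F = modularFunctionFieldBar N ⊆ ℚ̄((q))`
is integral over the ring of `A`-integral `q`-series lying in `F` (e.g. over `A[j]`, `A[j⁻¹]`,
`A[t₂]`, …), then `f` itself is an `A`-integral `q`-series: `f = coeffMap A.subtype y`,
`y ∈ A((q))`.  UNCONDITIONAL (no completion, no Weierstrass preparation, no hypothesis).

Proof.
1. (`isIntegrallyClosed_laurentSeries`) For a principal ideal domain `R`, `R⟦X⟧` is a UFD
   (Mathlib), hence integrally closed, hence so is its localisation `R((X))`.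
2. (`exists_coeffMap_eq_of_isIntegral`) Hence a fraction `a / b` of elements of `R((q))` inside
   `E((q))` (`E ⊇ R` a field) which is integral over `R((q))` lies in `R((q))`.
3. (`laurentBaseChange_le_fracSubfield`) every element of `E(j(q^d) : d ∣ N)` is such a fraction
   (the generators have integer coefficients), for `R` a valuation subring of `E`.
4. (`intQ`) descent to a number field `E ⊆ ℚ̄` (helper602's `S18/H602`): `f` and the finitely many
   coefficients of an integrality equation are defined over `E`; `R = A ∩ E` is a DVR.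
-/

set_option autoImplicit false
set_option linter.style.haveILetI false
set_option linter.unusedSectionVars false

noncomputable section

namespace Fermat.Agent.S37.H280.IntQ

open ModularCurve HahnSeries IntermediateField Polynomial
open Fermat.Agent.S18.H602

local notation "Q̄" => AlgebraicClosure ℚ

/-! ## 1. `R((X))` is integrally closed for a PID `R` -/

section Normal

variable (R : Type*) [CommRing R] [IsDomain R] [IsPrincipalIdealRing R]

/-- Laurent series over a principal ideal domain form an integrally closed domain. -/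
theorem isIntegrallyClosed_laurentSeries : IsIntegrallyClosed (LaurentSeries R) := by
  haveI : IsIntegrallyClosed (PowerSeries R) := UniqueFactorizationMonoid.instIsIntegrallyClosed
  exact isIntegrallyClosed_of_isLocalization (R := PowerSeries R) (S := LaurentSeries R)
    (Submonoid.powers (PowerSeries.X : PowerSeries R))
    (powers_le_nonZeroDivisors_of_noZeroDivisors PowerSeries.X_ne_zero)

end Normal

section Frac

variable {R E : Type*} [CommRing R] [IsDomain R] [Field E] (φ : R →+* E)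

/-- A fraction of two elements of `R((q))` inside `E((q))` which is integral over `R((q))`
lies in `R((q))`, for `R` a principal ideal domain. -/
theorem exists_coeffMap_eq_of_isIntegral [IsPrincipalIdealRing R] (hφ : Function.Injective φ)
    (f : LaurentSeries E) (a b : LaurentSeries R) (hb : b ≠ 0)
    (hab : f * coeffMap φ b = coeffMap φ a)
    (p : Polynomial (LaurentSeries R)) (hp : p.Monic) (hpf : p.eval₂ (coeffMap φ) f = 0) :
    ∃ y : LaurentSeries R, coeffMap φ y = f := by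
  haveI := isIntegrallyClosed_laurentSeries R
  have hinj : Function.Injective (coeffMap φ) := coeffMap_injective φ hφ
  letI : Algebra (LaurentSeries R) (LaurentSeries E) := (coeffMap φ).toAlgebra
  have halg : ∀ x : LaurentSeries R, algebraMap (LaurentSeries R) (LaurentSeries E) x
      = coeffMap φ x := fun _ => rfl
  haveI : FaithfulSMul (LaurentSeries R) (LaurentSeries E) :=
    (faithfulSMul_iff_algebraMap_injective _ _).mpr hinj
  let K' := FractionRing (LaurentSeries R)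
  let ψ : K' →ₐ[LaurentSeries R] LaurentSeries E :=
    IsFractionRing.liftAlgHom (K := K') (g := Algebra.ofId (LaurentSeries R) (LaurentSeries E))
      (by exact hinj)
  have hψ : Function.Injective ψ := ψ.toRingHom.injective
  have hb' : algebraMap (LaurentSeries R) K' b ≠ 0 := by
    rw [Ne, map_eq_zero_iff _ (IsFractionRing.injective (LaurentSeries R) K')]
    exact hb
  have hbE : coeffMap φ b ≠ 0 := by
    rw [Ne, map_eq_zero_iff _ hinj]
    exact hb
  set x' : K' := algebraMap (LaurentSeries R) K' a / algebraMap (LaurentSeries R) K' b with hx'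
  have hψx : ψ x' = f := by
    rw [hx', map_div₀, AlgHom.commutes, AlgHom.commutes, halg, halg, ← hab,
      mul_div_assoc, div_self hbE, mul_one]
  have hint : IsIntegral (LaurentSeries R) x' := by
    rw [← isIntegral_algHom_iff ψ hψ, hψx]
    exact ⟨p, hp, hpf⟩
  obtain ⟨y, hy⟩ := IsIntegrallyClosed.isIntegral_iff.mp hint
  refine ⟨y, ?_⟩
  rw [← hψx, ← hy, AlgHom.commutes]
  rfl

variable (hφ : Function.Injective φ)

/-- The subfield of `E((q))` of fractions of elements of `R((q))`. -/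
def fracSubfield (hφ : Function.Injective φ) : Subfield (LaurentSeries E) where
  carrier := {x | ∃ a b : LaurentSeries R, b ≠ 0 ∧ x * coeffMap φ b = coeffMap φ a}
  mul_mem' := by
    rintro x x' ⟨a, b, hb, h⟩ ⟨a', b', hb', h'⟩
    refine ⟨a * a', b * b', mul_ne_zero hb hb', ?_⟩
    rw [map_mul, map_mul, ← h, ← h']
    ring
  one_mem' := ⟨1, 1, one_ne_zero, by simp⟩
  add_mem' := by
    rintro x x' ⟨a, b, hb, h⟩ ⟨a', b', hb', h'⟩
    refine ⟨a * b' + a' * b, b * b', mul_ne_zero hb hb', ?_⟩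
    rw [map_add, map_mul, map_mul, map_mul, ← h, ← h']
    ring
  zero_mem' := ⟨0, 1, one_ne_zero, by simp⟩
  neg_mem' := by
    rintro x ⟨a, b, hb, h⟩
    exact ⟨-a, b, hb, by rw [map_neg, ← h]; ring⟩
  inv_mem' := by
    rintro x ⟨a, b, hb, h⟩
    have hinj : Function.Injective (coeffMap φ) := coeffMap_injective φ hφ
    by_cases ha : a = 0
    · refine ⟨0, 1, one_ne_zero, ?_⟩
      have hbE : coeffMap φ b ≠ 0 := by
        rw [Ne, map_eq_zero_iff _ hinj]; exact hb
      have hx0 : x = 0 := by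
        rw [ha, map_zero] at h
        exact (mul_eq_zero.mp h).resolve_right hbE
      simp [hx0]
    · refine ⟨b, a, ha, ?_⟩
      have haE : coeffMap φ a ≠ 0 := by
        rw [Ne, map_eq_zero_iff _ hinj]; exact ha
      have hx0 : x ≠ 0 := by
        rintro rfl
        rw [zero_mul] at h
        exact haE h.symm
      rw [← h]
      field_simp

theorem mem_fracSubfield {x : LaurentSeries E} :
    x ∈ fracSubfield φ hφ ↔
      ∃ a b : LaurentSeries R, b ≠ 0 ∧ x * coeffMap φ b = coeffMap φ a := Iff.rfl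

theorem coeffMap_mem_fracSubfield (a : LaurentSeries R) : coeffMap φ a ∈ fracSubfield φ hφ :=
  ⟨a, 1, one_ne_zero, by simp⟩

end Frac

/-! ## 3. Elements of `E(j(q^d) : d ∣ N)` are fractions of integral series -/

section BaseChange

variable {E : Type*} [Field E] [Algebra ℚ E] (R : ValuationSubring E) (N : ℕ) [NeZero N]

theorem single_mem_fracSubfield (c : E) :
    (HahnSeries.single (0 : ℤ) c : LaurentSeries E) ∈
      fracSubfield R.subtype Subtype.val_injective := by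
  rcases R.mem_or_inv_mem c with hc | hc
  · have := coeffMap_mem_fracSubfield R.subtype Subtype.val_injective
      (HahnSeries.single (0 : ℤ) (⟨c, hc⟩ : R))
    rwa [coeffMap_single] at this
  · by_cases hc0 : c = 0
    · rw [hc0, HahnSeries.single_eq_zero]
      exact zero_mem _
    have h1 := coeffMap_mem_fracSubfield R.subtype Subtype.val_injective
      (HahnSeries.single (0 : ℤ) (⟨c⁻¹, hc⟩ : R))
    rw [coeffMap_single] at h1
    have h2 := inv_mem h1
    have h3 : ((HahnSeries.single (0 : ℤ) (c⁻¹ : E) : LaurentSeries E))⁻¹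
        = HahnSeries.single (0 : ℤ) c := by
      apply inv_eq_of_mul_eq_one_left
      rw [HahnSeries.single_mul_single, add_zero, mul_inv_cancel₀ hc0]
      rfl
    change ((HahnSeries.single (0 : ℤ) (c⁻¹ : E) : LaurentSeries E))⁻¹ ∈ _ at h2
    rwa [h3] at h2

/-- Every element of `E(j(q^d) : d ∣ N)` is a fraction of two series over the valuation
subring `R` of `E`. -/
theorem laurentBaseChange_le_fracSubfield :
    (laurentBaseChange E (modularFunctionFieldFull N)).toSubfield ≤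
      fracSubfield R.subtype Subtype.val_injective := by
  intro x hx
  have hx' : x ∈ laurentBaseChange E (modularFunctionFieldFull N) := hx
  rw [mem_laurentBaseChange_iff] at hx'
  refine Subfield.closure_le.mpr ?_ hx'
  rintro y (⟨c, rfl⟩ | ⟨z, hz, rfl⟩)
  · rw [algebraMap_laurentSeries_eq_single]
    exact single_mem_fracSubfield R c
  · -- `z ∈ ℚ(j(q^d))`
    have hz' : z ∈ (fracSubfield R.subtype Subtype.val_injective).comap (coeffEmb E) := by
      have hz2 : z ∈ Subfield.closure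
          (Set.range (algebraMap ℚ (LaurentSeries ℚ)) ∪ divisorExpansions N) := hz
      refine Subfield.closure_le.mpr ?_ hz2
      rintro w (⟨c, rfl⟩ | ⟨d, hd, hdN, rfl⟩)
      · rw [SetLike.mem_coe, Subfield.mem_comap]
        have : coeffEmb E (algebraMap ℚ (LaurentSeries ℚ) c)
            = HahnSeries.single (0 : ℤ) (algebraMap ℚ E c) := by
          rw [coeffEmb, algebraMap_laurentSeries_eq_single, coeffMap_single]
        rw [this]
        exact single_mem_fracSubfield R _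
      · rw [SetLike.mem_coe, Subfield.mem_comap]
        haveI := hd
        rw [coeffEmb_qExpand_jq]
        have h1 : qExpand E d (jqModC E) = coeffMap R.subtype (jqNModC R d) := by
          rw [coeffMap_jqNModC]
          rfl
        rw [h1]
        exact coeffMap_mem_fracSubfield _ _ _
    exact hz'

end BaseChange

/-! ## 4. Descent and the main statement -/

section Main

variable (A : ValuationSubring Q̄)

/-- Finitely many elements of `laurentBaseChange Q̄ F₀` are defined over a common finite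
extension of `ℚ`. -/
theorem exists_finite_descent_finset {F₀ : IntermediateField ℚ (LaurentSeries ℚ)}
    {ι : Type*} (s : Finset ι) (x : ι → LaurentSeries Q̄)
    (hx : ∀ i ∈ s, x i ∈ laurentBaseChange Q̄ F₀) :
    ∃ E : IntermediateField ℚ Q̄, FiniteDimensional ℚ E ∧ ∀ i ∈ s, DescendsTo F₀ E (x i) := by
  classical
  induction s using Finset.induction_on with
  | empty => exact ⟨⊥, inferInstance, fun i hi => by simp at hi⟩
  | insert a s ha ih =>
    obtain ⟨E₁, hE₁, h₁⟩ := ih fun i hi => hx i (Finset.mem_insert_of_mem hi)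
    obtain ⟨E₂, hE₂, h₂⟩ := exists_finite_descent (hx a (Finset.mem_insert_self a s))
    refine ⟨E₁ ⊔ E₂, IntermediateField.finiteDimensional_sup E₁ E₂, fun i hi => ?_⟩
    rcases Finset.mem_insert.mp hi with rfl | hi
    · exact h₂.mono le_sup_right
    · exact (h₁ i hi).mono le_sup_left

/-- **INT-Q.**  Let `A` be a valuation subring of `ℚ̄` over `ℓ`.  An element `f` of
`ℚ̄(X₀(N)) ⊆ ℚ̄((q))` which is a root of a monic polynomial whose coefficients are `A`-integral
`q`-series lying in `ℚ̄(X₀(N))` is itself an `A`-integral `q`-series. -/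
theorem intQ {ℓ : ℕ} (hℓ : ℓ ≠ 0) (hA : A.LiesOverPrime ℓ) (N : ℕ) [NeZero N]
    (f : LaurentSeries Q̄) (hf : f ∈ modularFunctionFieldBar N)
    (p : Polynomial (LaurentSeries A)) (hp : p.Monic)
    (hcoef : ∀ i, coeffMap A.subtype (p.coeff i) ∈ modularFunctionFieldBar N)
    (hpf : p.eval₂ (coeffMap A.subtype) f = 0) :
    ∃ y : LaurentSeries A, coeffMap A.subtype y = f := by
  classical
  -- a common field of definition
  obtain ⟨E, hE, hdesc⟩ := exists_finite_descent_finset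
    (F₀ := modularFunctionFieldFull N) (Finset.univ : Finset (Option (Fin (p.natDegree + 1))))
    (fun o => match o with
      | none => f
      | some i => coeffMap A.subtype (p.coeff i))
    (fun o _ => by
      cases o with
      | none => exact hf
      | some i => exact hcoef i)
  have hfE : DescendsTo (modularFunctionFieldFull N) E f := hdesc none (Finset.mem_univ _)
  have hcE : ∀ i : ℕ, ∃ V : LaurentSeries (RE A E), coeffMap (toA A E) V = p.coeff i := by
    intro i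
    by_cases hi : i < p.natDegree + 1
    · have h := hdesc (some ⟨i, hi⟩) (Finset.mem_univ _)
      obtain ⟨V, -, hV⟩ := exists_series_descent (p.coeff i) h
      exact ⟨V, hV⟩
    · refine ⟨0, ?_⟩
      rw [map_zero, Polynomial.coeff_eq_zero_of_natDegree_lt (by omega)]
  -- the DVR
  haveI : IsDiscreteValuationRing (RE A E) := isDiscreteValuationRing_RE A E hℓ hA
  -- lift the polynomial
  have hlift : p ∈ Polynomial.lifts (coeffMap (toA A E)) := by
    rw [Polynomial.lifts_iff_coeff_lifts]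
    intro i
    obtain ⟨V, hV⟩ := hcE i
    exact ⟨V, hV⟩
  obtain ⟨pE, hpE, -, hpEm⟩ := Polynomial.lifts_and_natDegree_eq_and_monic hlift hp
  obtain ⟨fE, hfEmem, hfEf⟩ := hfE
  have hinjE : Function.Injective (coeffMap (algebraMap E Q̄)) :=
    coeffMap_injective _ (algebraMap E Q̄).injective
  -- the integrality equation over `R_E((q))`
  have heq : pE.eval₂ (coeffMap (RE A E).subtype) fE = 0 := by
    apply hinjE
    rw [map_zero, Polynomial.hom_eval₂, hfEf]
    have hcomp : (coeffMap (algebraMap E Q̄)).comp (coeffMap (RE A E).subtype)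
        = (coeffMap A.subtype).comp (coeffMap (toA A E)) := by
      ext V : 1
      simp only [RingHom.comp_apply]
      rw [coeffMap_coeffMap, coeffMap_coeffMap, subtype_comp_toA]
    rw [hcomp, ← Polynomial.eval₂_map, hpE]
    exact hpf
  -- `fE` is a fraction
  obtain ⟨a, b, hb, hab⟩ := laurentBaseChange_le_fracSubfield (RE A E) N hfEmem
  obtain ⟨yE, hyE⟩ := exists_coeffMap_eq_of_isIntegral (RE A E).subtype Subtype.val_injective
    fE a b hb hab pE hpEm heq
  refine ⟨coeffMap (toA A E) yE, ?_⟩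
  rw [coeffMap_coeffMap, subtype_comp_toA, ← coeffMap_coeffMap, hyE, hfEf]

end Main

end Fermat.Agent.S37.H280.IntQ

end
end
-- ===== PACK-END S37/H280/IntQ.lean

-- ===== PACK-BEGIN S30/H330/AdicDefs.lean
section
/-
S30 (p-adic Galois representation attached to a Hecke eigensystem) -- ADIC MODULE LAYER.
Interface definitions (sorry-free).  helper330.  Namespace `Fermat.Agent.S30.H330`.

The layer turns
  * the frozen statement S37 (through "torsion relations" on `J₀(N)(ℚ̄)[p^∞]`),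
  * a Kummer map on `ℚ/ℤ`-valued parabolic characters (p-adic form of S29 piece M4b),
  * an eigen parabolic character with values in `𝒪'` (characteristic-0 form of S29 piece M4a)
into a nonzero finite free `𝒪'`-module with adically continuous `G_ℚ`-action, unramified outside
`N p`, on which every Frobenius at `ℓ ∉ S` satisfies `σ² - χ(T_ℓ) σ + ℓ = 0` (`HasAdicFrobModule`).
The top glue of S30 (helper990) consumes `HasAdicFrobModule`.
-/



set_option autoImplicit false

noncomputable section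

namespace Fermat.Agent.S30.H330

open Fermat.Agent.S29 ModularCurve

/-- `ℚ/ℤ`, the value group of finite-order characters. -/
abbrev QZ : Type := AddCircle (1 : ℚ)

/-- OUTPUT of the adic module layer: a nonzero finite free `O`-module with an adically continuous
action of `G_ℚ`, unramified at all primes `ℓ ∤ S`, on which all Frobenii at the primes `ℓ` with
`good ℓ` satisfy `σ² - a ℓ • σ + ℓ = 0`. -/
def HasAdicFrobModule (O : Type) [CommRing O] [IsLocalRing O] (S : ℕ) (good : ℕ → Prop)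
    (a : ℕ → O) : Prop :=
  ∃ (M : Type) (_ : AddCommGroup M) (_ : Module O M) (_ : Module.Free O M) (_ : Module.Finite O M)
    (ρ : GQ →* Module.End O M),
    Nontrivial M ∧ GaloisActionIsAdicContinuous O ρ ∧
    (∀ ℓ : ℕ, ℓ.Prime → ¬ ℓ ∣ S → ∀ A : VQ, A.LiesOverPrime ℓ →
      ∀ σ ∈ A.inertiaSubgroupIn ℚ, ρ σ = 1) ∧
    (∀ ℓ : ℕ, ℓ.Prime → good ℓ → ∀ A : VQ, A.LiesOverPrime ℓ →
      ∀ σ : GQ, A.IsFrobeniusAt σ ℓ →
        ρ σ * ρ σ - a ℓ • ρ σ + (ℓ : O) • (1 : Module.End O M) = 0)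

/-- INPUT (K): the Kummer map on `ℚ/ℤ`-valued parabolic characters of `Γ₀(N)`:
additive, injective, onto the torsion of `J₀(N)(ℚ̄)`, Hecke-equivariant.
(`κ c = ` class of `div(h)`, `h` any nonzero meromorphic function on `ℍ ∪ cusps` with
`h(γ z) = exp(2πi c(γ)) h(z)`; S29 piece M4b is the restriction to `(1/p)ℤ/ℤ`.) -/
def KummerStatement (N : ℕ) [NeZero N] (p : ℕ) : Prop :=
  ∃ κ : (G0 N → QZ) → JZero N,
    (∀ c c', IsParHom c → IsParHom c' → κ (c + c') = κ c + κ c') ∧
    (∀ c, IsParHom c → κ c = 0 → c = 0) ∧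
    (∀ x : JZero N, (∃ n : ℕ, (p ^ n) • x = 0) → ∃ c, IsParHom c ∧ κ c = x) ∧
    (∀ ℓ : Nat.Primes, ¬ (ℓ : ℕ) ∣ N * p → ∀ c, IsParHom c →
      κ (heckeCoh N ℓ c) = heckeOperatorBar N ℓ (κ c))

/-- INPUT (P): the eigensystem `χ` occurs in the parabolic cohomology with coefficients in `O`. -/
def ParEigenStatement (N : ℕ) [NeZero N] (S : Finset ℕ) (O : Type) [CommRing O]
    (χ : CuspForm.heckeAlgebra N 2 (↑S : Set ℕ) →+* O) : Prop :=
  ∃ c : G0 N → O, IsParHom c ∧ c ≠ 0 ∧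
    ∀ (ℓ : ℕ) (hℓ : ℓ.Prime) (hℓN : ¬ ℓ ∣ N) (hℓS : ℓ ∉ (↑S : Set ℕ)) (γ : G0 N),
      heckeCoh N ℓ c γ = χ (CuspForm.heckeAlgebra.T hℓ hℓN hℓS) * c γ

/-- INPUT (T): the consequences of S37 on the `p`-power torsion of `J₀(N)(ℚ̄)`
(inertia acts trivially, Eichler–Shimura relation), for all primes `ℓ ∤ N p`. -/
def TorsionRelations (N : ℕ) [NeZero N] (p : ℕ) : Prop :=
  ∀ (ℓ : ℕ) (hℓ : ℓ.Prime), ¬ ℓ ∣ N * p → ∀ A : VQ, A.LiesOverPrime ℓ →
    (∀ σ ∈ A.inertiaSubgroupIn ℚ, ∀ x : JZero N, (∃ n : ℕ, (p ^ n) • x = 0) → σ • x = x) ∧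
    (∀ σ : GQ, A.IsFrobeniusAt σ ℓ → ∀ x : JZero N, (∃ n : ℕ, (p ^ n) • x = 0) →
      σ • σ • x - heckeOperatorBar N ⟨ℓ, hℓ⟩ (σ • x) + ℓ • x = 0)

/-- INPUT (Sm) = S29 piece M3. -/
def SmoothStatement (N : ℕ) [NeZero N] : Prop :=
  ∀ x : JZero N, ∃ L : IntermediateField ℚ (AlgebraicClosure ℚ), FiniteDimensional ℚ L ∧
    ∀ σ : GQ, (∀ y ∈ L, σ y = y) → σ • x = x

/-- INPUT (GH) = S29 piece M2. -/
def GaloisHeckeStatement (N : ℕ) [NeZero N] : Prop :=
  ∀ (σ : GQ) (ℓ : Nat.Primes) (x : JZero N),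
    σ • heckeOperatorBar N ℓ x = heckeOperatorBar N ℓ (σ • x)

/-- The eigenvalue function attached to `χ`. -/
def eigenvalue {N : ℕ} [NeZero N] {S : Finset ℕ} {O : Type} [CommRing O]
    (χ : CuspForm.heckeAlgebra N 2 (↑S : Set ℕ) →+* O) (ℓ : ℕ) : O :=
  open Classical in
  if h : ℓ.Prime ∧ ¬ ℓ ∣ N ∧ ℓ ∉ (↑S : Set ℕ) then χ (CuspForm.heckeAlgebra.T h.1 h.2.1 h.2.2) else 0

end Fermat.Agent.S30.H330

end
end
-- ===== PACK-END S30/H330/AdicDefs.lean

-- ===== PACK-BEGIN S31/H202/PieceA.lean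
section



/-!
# S31 piece A (`trace_criterion`), exact skeleton shape (helper202)
-/

set_option autoImplicit false

namespace Fermat.Agent.S31.H202

open Fermat.Agent.S31

/-- **A**.  If `ρ` is residually absolutely irreducible and `tr ρ(g τ) = tr ρ(g)` for all `g`,
then `ρ(τ) = 1`. -/
theorem trace_criterion {T : Type} [CommRing T] [IsLocalRing T] (ρ : GaloisRepAdic T)
    (hirr : ρ.residual.IsAbsolutelyIrreducible) (τ : GQ)
    (h : ∀ g : GQ, ρ.trace (g * τ) = ρ.trace g) : ρ.ρ τ = 1 :=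
  rho_eq_one_of_trace_invariant ρ hirr τ h

end Fermat.Agent.S31.H202

end
-- ===== PACK-END S31/H202/PieceA.lean

-- ===== PACK-BEGIN S30/H529/AdicEigen.lean
section




/-!
# S30 helper (helper529): the adic eigenmodule attached to a Galois module with finite
`p`-torsion

Specialisation of `exists_adic_eigenmodule` to `G = Gal(ℚ̄/ℚ)`, with the conclusion in the
language of the Prelude (`GaloisActionIsAdicContinuous`).
-/

set_option autoImplicit false
set_option linter.unusedSectionVars false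

namespace Fermat.Agent.S30.H529

open IsLocalRing TensorProduct

noncomputable section

/-- If `J[p]` is finite then `J[p ^ n]` is finite. -/
theorem finite_torsion_pow (J : Type*) [AddCommGroup J] (p : ℕ)
    (hfin : {x : J | p • x = 0}.Finite) (n : ℕ) : {x : J | p ^ n • x = 0}.Finite := by
  induction n with
  | zero =>
    have : {x : J | p ^ 0 • x = 0} = {0} := by
      ext x
      simp
    rw [this]
    exact Set.finite_singleton 0
  | succ n ih =>
    have hsub : {x : J | p ^ (n + 1) • x = 0}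
        ⊆ ⋃ y ∈ {y : J | p ^ n • y = 0}, {x : J | p • x = y} := by
      intro x hx
      simp only [Set.mem_ofPred_eq] at hx
      simp only [Set.mem_iUnion, Set.mem_ofPred_eq, exists_prop]
      refine ⟨p • x, ?_, rfl⟩
      rw [← mul_smul, ← pow_succ]
      exact hx
    refine Set.Finite.subset (Set.Finite.biUnion ih ?_) hsub
    intro y _
    by_cases hy : ∃ x₀ : J, p • x₀ = y
    · obtain ⟨x₀, hx₀⟩ := hy
      have hsub2 : {x : J | p • x = y} ⊆ (fun z => x₀ + z) '' {z : J | p • z = 0} := by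
        intro x hx
        simp only [Set.mem_ofPred_eq] at hx
        refine ⟨x - x₀, ?_, add_sub_cancel x₀ x⟩
        simp only [Set.mem_ofPred_eq]
        rw [smul_sub, hx, hx₀, sub_self]
      exact Set.Finite.subset (hfin.image _) hsub2
    · have : {x : J | p • x = y} = ∅ := by
        ext x
        simp only [Set.mem_ofPred_eq, Set.mem_empty_iff_false, iff_false]
        intro hx
        exact hy ⟨x, hx⟩
      rw [this]
      exact Set.finite_empty

/-- A common finite level for finitely many smooth vectors. -/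
theorem exists_common_level {J : Type*} [AddCommGroup J]
    [DistribMulAction (AlgebraicClosure ℚ ≃ₐ[ℚ] AlgebraicClosure ℚ) J] (S : Set J)
    (hS : S.Finite)
    (hsm : ∀ x ∈ S, ∃ L : IntermediateField ℚ (AlgebraicClosure ℚ), FiniteDimensional ℚ L ∧
      ∀ σ : AlgebraicClosure ℚ ≃ₐ[ℚ] AlgebraicClosure ℚ, (∀ y ∈ L, σ y = y) → σ • x = x) :
    ∃ L : IntermediateField ℚ (AlgebraicClosure ℚ), FiniteDimensional ℚ L ∧
      ∀ σ : AlgebraicClosure ℚ ≃ₐ[ℚ] AlgebraicClosure ℚ, (∀ y ∈ L, σ y = y) →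
        ∀ x ∈ S, σ • x = x := by
  induction S, hS using Set.Finite.induction_on with
  | empty =>
    exact ⟨⊥, inferInstance, fun _ _ x hx => absurd hx (Set.notMem_empty x)⟩
  | @insert b S _ _ ih =>
    obtain ⟨L₁, hL₁, h₁⟩ := ih (fun x hx => hsm x (Set.mem_insert_of_mem _ hx))
    obtain ⟨L₂, hL₂, h₂⟩ := hsm b (Set.mem_insert _ _)
    refine ⟨L₁ ⊔ L₂, inferInstance, fun σ hσ x hx => ?_⟩
    rcases Set.mem_insert_iff.mp hx with rfl | hx
    · exact h₂ σ (fun y hy => hσ y ((le_sup_right : L₂ ≤ L₁ ⊔ L₂) hy))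
    · exact h₁ σ (fun y hy => hσ y ((le_sup_left : L₁ ≤ L₁ ⊔ L₂) hy)) x hx

section Main

variable (p : ℕ)
variable (O : Type) [CommRing O] [IsDomain O] [IsDiscreteValuationRing O]
  [IsAdicComplete (maximalIdeal O) O] [CharZero O]
variable (J : Type) [AddCommGroup J]
  [DistribMulAction (AlgebraicClosure ℚ ≃ₐ[ℚ] AlgebraicClosure ℚ) J]
variable {ι : Type*} (T : ι → J →+ J) (a : ι → O)

/-- **Adic eigenmodule from a smooth Galois module with finite `p`-torsion.** -/
theorem exists_adic_galois_eigenmodule (hpO : (p : O) ∈ maximalIdeal O) (hp0 : p ≠ 0)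
    (hT : ∀ (i : ι) (γ : AlgebraicClosure ℚ ≃ₐ[ℚ] AlgebraicClosure ℚ) (x : J),
      T i (γ • x) = γ • T i x)
    (hfin : {x : J | p • x = 0}.Finite)
    (hsm : ∀ x : J, (∃ n : ℕ, p ^ n • x = 0) →
      ∃ L : IntermediateField ℚ (AlgebraicClosure ℚ), FiniteDimensional ℚ L ∧
        ∀ σ : AlgebraicClosure ℚ ≃ₐ[ℚ] AlgebraicClosure ℚ, (∀ y ∈ L, σ y = y) → σ • x = x)
    (v : ℕ → O ⊗[ℤ] J) (hv0 : (p : O) • v 0 = 0) (hv : ∀ n, (p : O) • v (n + 1) = v n)
    (hne : v ≠ 0) (heig : ∀ i n, tensorOp O T i (v n) = a i • v n) :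
    ∃ (M : Type) (_ : AddCommGroup M) (_ : Module O M) (_ : Module.Free O M)
      (_ : Module.Finite O M)
      (ρ : (AlgebraicClosure ℚ ≃ₐ[ℚ] AlgebraicClosure ℚ) →* Module.End O M),
      Nontrivial M ∧ GaloisActionIsAdicContinuous O ρ ∧
      (∀ γ : AlgebraicClosure ℚ ≃ₐ[ℚ] AlgebraicClosure ℚ,
        (∀ x : J, (∃ n : ℕ, p ^ n • x = 0) → γ • x = x) → ρ γ = 1) ∧
      (∀ (γ : AlgebraicClosure ℚ ≃ₐ[ℚ] AlgebraicClosure ℚ) (i : ι) (c : ℤ),
        (∀ x : J, (∃ n : ℕ, p ^ n • x = 0) → γ • γ • x - T i (γ • x) + c • x = 0) →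
        ρ γ * ρ γ - a i • ρ γ + (c : O) • (1 : Module.End O M) = 0) := by
  obtain ⟨M, i1, i2, i3, i4, ρ, hnt, hcont, hunr, hquad⟩ :=
    exists_adic_eigenmodule p O J T a hpO hp0 hT hfin v hv0 hv hne heig
  refine ⟨M, i1, i2, i3, i4, ρ, hnt, ?_, hunr, hquad⟩
  intro n
  obtain ⟨L, hL, hLfix⟩ := exists_common_level {x : J | p ^ n • x = 0}
    (finite_torsion_pow J p hfin n) (fun x hx => hsm x ⟨n, hx⟩)
  exact ⟨L, hL, fun σ hσ m => hcont n σ (fun x hx => hLfix σ hσ x hx) m⟩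

end Main

end

end Fermat.Agent.S30.H529

end
-- ===== PACK-END S30/H529/AdicEigen.lean

-- ===== PACK-BEGIN A2/H552/KummerConst.lean
section





/-!
# A2 / ALG, COVER-CONST (helper552): a Kummer cover `K(u^{1/m})`, `u ≡ 1 mod w`, has no new
constants over a Henselian base

`R` a Henselian discrete valuation ring with algebraically closed residue field, uniformiser `w`,
`E = Frac R` of characteristic zero, `m` invertible in the residue field.

* `exists_isPrimitiveRoot_of_henselian` : `R` contains a primitive `m`-th root of unity.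
* `kummer_no_new_constants` : `K ⊇ R` a field with a valuation subring `V ⊇ R` with uniformiser
  `w` (in the application: the Gauss valuation ring `V∞` of the function field), `Ω = K[z]`,
  `z ^ m = 1 + w t`, `t ∈ V`.  Then `E` is algebraically closed in `Ω`.
* `kummer_isIntegral_mem_range` : hence `R` is integrally closed in `Ω`
  (= hypothesis `hRF` of `A2.H193.kummer_root_mem` / `S18.H138.connected_special_fibre`
  for the cover `Ω`).
-/

set_option autoImplicit false

namespace Fermat.Agent.A2.H552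

open Polynomial IsLocalRing

section Roots

variable {R : Type*} [CommRing R] [HenselianLocalRing R] [IsAlgClosed (ResidueField R)]

/-- A Henselian local ring with algebraically closed residue field contains a primitive `m`-th
root of unity, for `m` invertible in the residue field. -/
theorem exists_isPrimitiveRoot_of_henselian (m : ℕ) (hm : (m : ResidueField R) ≠ 0) :
    ∃ ζ : R, IsPrimitiveRoot ζ m := by
  have hm0 : m ≠ 0 := by
    rintro rfl
    exact hm (by simp)
  have : NeZero (m : ResidueField R) := ⟨hm⟩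
  obtain ⟨ζb, hζb⟩ := HasEnoughRootsOfUnity.prim (M := ResidueField R) (n := m)
  have hζb0 : ζb ≠ 0 := hζb.ne_zero hm0
  obtain ⟨ζ, hζ, hres⟩ := exists_root_of_residue_simple_root (X ^ m - C (1 : R))
    (monic_X_pow_sub_C 1 hm0) ζb
    (by simp [hζb.pow_eq_one])
    (by
      simp only [Polynomial.map_sub, Polynomial.map_pow, map_X, map_C, derivative_sub,
        derivative_X_pow, derivative_C, sub_zero, eval_mul, eval_C, eval_pow, eval_X]
      exact mul_ne_zero hm (pow_ne_zero _ hζb0))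
  have hζm : ζ ^ m = 1 := by
    have : (X ^ m - C (1 : R)).eval ζ = 0 := hζ
    simpa [sub_eq_zero] using this
  refine ⟨ζ, hζm, fun l hl => ?_⟩
  apply hζb.dvd_of_pow_eq_one
  rw [← hres, ← map_pow, hl, map_one]

end Roots

section Cover

variable {R E K Ω : Type*} [CommRing R] [IsDomain R] [IsDiscreteValuationRing R]
  [HenselianLocalRing R] [IsAlgClosed (ResidueField R)]
  [Field E] [CharZero E] [Algebra R E] [IsFractionRing R E]
  [Field K] [Algebra R K] [Field Ω] [Algebra K Ω] [Algebra E Ω] [Algebra R Ω]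
  [IsScalarTower R E Ω] [IsScalarTower R K Ω]

/-- **COVER-CONST.**  A Kummer cover `Ω = K[z]`, `z ^ m = 1 + w t`, of a field `K` carrying an
unramified discrete valuation ring `V ⊇ R` has no new constants: `E = Frac R` is algebraically
closed in `Ω`. -/
theorem kummer_no_new_constants (w : R) (hw : Irreducible w) (V : ValuationSubring K)
    (hRV : ∀ r : R, algebraMap R K r ∈ V)
    (hwV : (algebraMap R K w)⁻¹ ∉ V)
    (hVgen : ∀ a ∈ V, a⁻¹ ∉ V → a * (algebraMap R K w)⁻¹ ∈ V)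
    (hdisc : ∀ c : K, ∃ k : ℕ, algebraMap R K w ^ k * c ∈ V)
    (m : ℕ) (hm : (m : ResidueField R) ≠ 0)
    (t : K) (ht : t ∈ V) (z : Ω)
    (hz : z ^ m = algebraMap K Ω (1 + algebraMap R K w * t))
    (hgen : ∀ b : Ω, b ∈ Algebra.adjoin K ({z} : Set Ω))
    (y : Ω) (hy : IsAlgebraic E y) : y ∈ (algebraMap E Ω).range := by
  have hm0 : m ≠ 0 := by
    rintro rfl
    exact hm (by simp)
  have hinjRE : Function.Injective (algebraMap R E) := IsFractionRing.injective R E
  have hinjRΩ : Function.Injective (algebraMap R Ω) := by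
    rw [IsScalarTower.algebraMap_eq R E Ω]
    exact (algebraMap E Ω).injective.comp hinjRE
  have hinjRK : Function.Injective (algebraMap R K) := by
    intro a b h
    apply hinjRΩ
    rw [IsScalarTower.algebraMap_apply R K Ω, IsScalarTower.algebraMap_apply R K Ω, h]
  have hwK0 : algebraMap R K w ≠ 0 := fun h => hw.ne_zero (hinjRK (by rw [h, map_zero]))
  -- roots of unity and `1/m`
  obtain ⟨ζ, hζ⟩ := exists_isPrimitiveRoot_of_henselian (R := R) m hm
  have hζK : IsPrimitiveRoot (algebraMap R K ζ) m := hζ.map_of_injective hinjRK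
  have hmu : IsUnit ((m : ℕ) : R) := by
    rw [← IsLocalRing.notMem_maximalIdeal, ← residue_eq_zero_iff, map_natCast]
    exact hm
  obtain ⟨mi, hmi⟩ := hmu.exists_right_inv
  have hmK : (m : K) * algebraMap R K mi = 1 := by
    have := congrArg (algebraMap R K) hmi
    simpa using this
  have hmK0 : (m : K) ≠ 0 := left_ne_zero_of_mul_eq_one hmK
  have hmKinv : ((m : K))⁻¹ ∈ V := by
    rw [inv_eq_of_mul_eq_one_right hmK]
    exact hRV mi
  -- a valuation subring of `Ω` dominating `V`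
  obtain ⟨W, hle, hloc⟩ := (LocalSubring.range
    ((algebraMap K Ω).comp V.subtype)).exists_le_valuationSubring
  have hVW : ∀ a ∈ V, algebraMap K Ω a ∈ W := fun a ha =>
    hle ⟨⟨a, ha⟩, rfl⟩
  have hwW : (algebraMap K Ω (algebraMap R K w))⁻¹ ∉ W := by
    intro hmem
    set f := (algebraMap K Ω).comp V.subtype with hf
    have hwr : algebraMap K Ω (algebraMap R K w) ∈ (LocalSubring.range f).toSubring :=
      ⟨⟨algebraMap R K w, hRV w⟩, rfl⟩
    have hu : IsUnit (Subring.inclusion hle ⟨_, hwr⟩) := by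
      refine IsUnit.of_mul_eq_one ⟨(algebraMap K Ω (algebraMap R K w))⁻¹, hmem⟩
        (Subtype.ext ?_)
      change algebraMap K Ω (algebraMap R K w) * (algebraMap K Ω (algebraMap R K w))⁻¹ = 1
      exact mul_inv_cancel₀ (fun h => hwK0 ((algebraMap K Ω).injective (by rw [h, map_zero])))
    have hu' := hloc.map_nonunit _ hu
    obtain ⟨c, hc⟩ := hu'.exists_right_inv
    obtain ⟨⟨b, hb⟩, hbc⟩ := c.2
    have h1 : algebraMap K Ω (algebraMap R K w) * algebraMap K Ω b = 1 := by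
      have := congrArg Subtype.val hc
      simp only [Subring.coe_mul, Subring.coe_one] at this
      rw [← this, ← hbc]
      rfl
    have h2 : algebraMap R K w * b = 1 := by
      apply (algebraMap K Ω).injective
      rw [map_mul, h1, map_one]
    apply hwV
    rw [inv_eq_of_mul_eq_one_right h2]
    exact hb
  have hunr := (kummer_unramified V W hVW (algebraMap R K w) (hRV w) hwK0 hwW hVgen hdisc m
    (Nat.pos_of_ne_zero hm0) hmK0 hmKinv (algebraMap R K ζ) hζK t ht z hz hgen).1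
  have hRW : ∀ r : R, algebraMap R Ω r ∈ W := fun r => by
    rw [IsScalarTower.algebraMap_apply R K Ω]
    exact hVW _ (hRV r)
  rw [← IsScalarTower.algebraMap_apply R K Ω] at hwW hunr
  exact mem_range_of_isAlgebraic_of_valuationSubring w hw W hRW hwW hunr y hy

variable (E) in
include E in
/-- **COVER-CONST, integral form**: `R` is integrally closed in the Kummer cover `Ω`. -/
theorem kummer_isIntegral_mem_range (w : R) (hw : Irreducible w) (V : ValuationSubring K)
    (hRV : ∀ r : R, algebraMap R K r ∈ V)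
    (hwV : (algebraMap R K w)⁻¹ ∉ V)
    (hVgen : ∀ a ∈ V, a⁻¹ ∉ V → a * (algebraMap R K w)⁻¹ ∈ V)
    (hdisc : ∀ c : K, ∃ k : ℕ, algebraMap R K w ^ k * c ∈ V)
    (m : ℕ) (hm : (m : ResidueField R) ≠ 0)
    (t : K) (ht : t ∈ V) (z : Ω)
    (hz : z ^ m = algebraMap K Ω (1 + algebraMap R K w * t))
    (hgen : ∀ b : Ω, b ∈ Algebra.adjoin K ({z} : Set Ω))
    (y : Ω) (hy : IsIntegral R y) : y ∈ Set.range (algebraMap R Ω) := by
  have hyalg : IsAlgebraic E y :=
    (IsFractionRing.isAlgebraic_iff R E Ω).mp hy.isAlgebraic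
  obtain ⟨e, rfl⟩ := kummer_no_new_constants (E := E) w hw V hRV hwV hVgen hdisc m hm t ht z hz
    hgen y hyalg
  have he : IsIntegral R e :=
    (isIntegral_algebraMap_iff (algebraMap E Ω).injective).mp hy
  obtain ⟨r, rfl⟩ := (IsIntegrallyClosed.isIntegral_iff (R := R) (K := E)).mp he
  exact ⟨r, IsScalarTower.algebraMap_apply R E Ω r⟩

end Cover

end Fermat.Agent.A2.H552

end
-- ===== PACK-END A2/H552/KummerConst.lean

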