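import Mathlib
import Fermat.Prelude.Def_GaloisRep_Adic
import Fermat.Prelude.Def_CuspForm_HeckeGaloisRepDatum
import Fermat.Agent.Pack.S43MC.G0E10L2
import Fermat.Agent.Pack.S43MC.G0E6L1
import Fermat.Agent.Pack.S44C.G0E10L2
import Fermat.Agent.Pack.S43MC.G0E9L1
import Fermat.Agent.Pack.S43MC.G0E9L2
import Fermat.Agent.Pack.S43MC.G0E0L1
import Fermat.Agent.Pack.S43MC.G0E7L0
import Fermat.Agent.Pack.S43MC.G0E10L1
import Fermat.Agent.Pack.S44C.G0E1L0
import Fermat.Agent.Pack.S43MC.G0E10L3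
import Fermat.Agent.Pack.S43MC.G0E3L0
import Fermat.Agent.Pack.S44C.G0E0L3
import Fermat.Agent.Pack.S43MC.G0E7L1
import Fermat.Agent.Pack.S43MC.G0E4L1
import Fermat.Agent.Pack.S43MC.G0E4L3
import Fermat.Agent.Pack.S43GC.G0E7L1
import Fermat.Agent.Pack.S43MC.G0E11L0
import Fermat.Agent.Pack.Fast891

-- ===== PACK-BEGIN Lib/Newform/H23/MultOne.lean
section


/-!
# NEWFORM library (helper23) — same-level multiplicity one, from the main lemma

`multOne_of : MainLemma → MultOne` and `multOneEigen_of : MainLemma → MultOneEigen`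
(hypothesis-parametrised assembly; `OldEigen`, `EigenT` are already proved).
-/

set_option autoImplicit false

open CongruenceSubgroup ModularFormClass ModularForm UpperHalfPlane

namespace Fermat.Agent.Lib.Newform.H23

open Fermat.Agent.Lib.Newform

/-- `EigenT` (adapter around helper683's E1). -/
theorem eigenT : H958.EigenT :=
  fun _ _ hg _ hp hpN => H683.heckeTLin_eq_of_eigenform hg hp hpN

/-- `EigenU` (adapter around helper683's E1). -/
theorem eigenU : H958.EigenU :=
  fun _ _ _ hg _ hp hpN => H683.heckeULin_eq_of_eigenform hg hp hpN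

/-- A good eigenvector with `a_1 = 0` has `a_n = 0` for all `n` prime to the level. -/
theorem qCoeff_eq_zero_of_coprime {N : ℕ} (h : CuspForm (Gamma0 N) 2) (a : ℕ → ℂ)
    (heig : ∀ ℓ : ℕ, ℓ.Prime → ¬ ℓ ∣ N → heckeT 2 ℓ ⇑h = a ℓ • ⇑h)
    (h1 : qCoeff ⇑h 1 = 0) : ∀ n : ℕ, n.Coprime N → qCoeff ⇑h n = 0 := by
  intro n
  induction n using Nat.strong_induction_on with
  | _ n ih =>
    intro hcop
    rcases Nat.eq_zero_or_pos n with rfl | hn
    · exact H683.qCoeff_zero_cusp 2 h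
    rcases Nat.eq_or_lt_of_le (Nat.succ_le_of_lt hn) with h' | h'
    · rw [← h']; exact h1
    · have hn1 : n ≠ 1 := by omega
      obtain ⟨p, hp, hpn⟩ := Nat.exists_prime_and_dvd hn1
      obtain ⟨m, rfl⟩ := hpn
      have hm : 0 < m := Nat.pos_of_ne_zero (by rintro rfl; simp at hn)
      have hlt : m < p * m := by
        have := hp.one_lt
        nlinarith
      have hpN : ¬ p ∣ N := by
        intro hdvd
        have h2 : p ∣ Nat.gcd (p * m) N := Nat.dvd_gcd (dvd_mul_right p m) hdvd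
        rw [hcop.gcd_eq_one] at h2
        exact hp.one_lt.ne' (Nat.dvd_one.mp h2)
      have hmcop : m.Coprime N := Nat.Coprime.coprime_dvd_left (dvd_mul_left m p) hcop
      have := H683.coeff_of_heckeT_eq h hp (a p) (heig p hp hpN) m
      rw [ih m hlt hmcop, mul_zero] at this
      rw [mul_comm p m]
      by_cases hpm : p ∣ m
      · have hdiv : (m / p).Coprime N :=
          Nat.Coprime.coprime_dvd_left (Nat.div_dvd_of_dvd hpm) hmcop
        rw [if_pos hpm, ih (m / p) (lt_of_le_of_lt (Nat.div_le_self m p) hlt) hdiv, mul_zero,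
          add_zero] at this
        exact this
      · rw [if_neg hpm, add_zero] at this
        exact this

/-- **MULT-ONE** from the main lemma. -/
theorem multOne_of (hML : MainLemma) : MultOne := by
  intro N _ f hf h heig
  by_contra hne
  set h' : CuspForm (Gamma0 N) 2 := h - qCoeff ⇑h 1 • f with hh'
  have hh'0 : h' ≠ 0 := fun h0 => hne (sub_eq_zero.mp h0)
  have hfeig : ∀ (ℓ : ℕ) (hℓ : ℓ.Prime) (hℓN : ¬ ℓ ∣ N),
      CuspForm.heckeTLin 2 hℓ hℓN f = qCoeff ⇑f ℓ • f :=
    fun ℓ hℓ hℓN => H683.heckeTLin_eq_of_eigenform hf.1 hℓ hℓN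
  have hh'eig : ∀ (ℓ : ℕ) (hℓ : ℓ.Prime) (hℓN : ¬ ℓ ∣ N),
      CuspForm.heckeTLin 2 hℓ hℓN h' = qCoeff ⇑f ℓ • h' := by
    intro ℓ hℓ hℓN
    rw [hh', map_sub, map_smul, heig ℓ hℓ hℓN, hfeig ℓ hℓ hℓN, smul_sub, smul_comm]
  have hh'1 : qCoeff ⇑h' 1 = 0 := by
    rw [hh', H683.qCoeff_sub_cusp, H683.qCoeff_smul_cusp, hf.1.qCoeff_one, mul_one, sub_self]
  have hvanish : ∀ n : ℕ, n.Coprime N → qCoeff ⇑h' n = 0 := by
    apply qCoeff_eq_zero_of_coprime h' (fun ℓ => qCoeff ⇑f ℓ) _ hh'1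
    intro ℓ hℓ hℓN
    have := congrArg (fun F : CuspForm (Gamma0 N) 2 => (⇑F : ℍ → ℂ)) (hh'eig ℓ hℓ hℓN)
    simpa using this
  obtain ⟨p, hp, hpN, G, hG, hGa⟩ :=
    _root_.Fermat.Agent.Lib.Newform.H23.oldEigen N h' hh'0 (fun ℓ => qCoeff ⇑f ℓ) hh'eig (hML N h' hvanish)
  have hN : N ≠ 0 := NeZero.ne N
  exact hf.2 (N / p) (Nat.div_dvd_of_dvd hpN)
    (Nat.div_lt_self (Nat.pos_of_ne_zero hN) hp.one_lt).ne ⟨G, hG, hGa⟩

/-- **MULT-ONE'** from **MULT-ONE**. -/
theorem multOneEigen_of (hM : MultOne) : MultOneEigen := by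
  intro N _ f g hf hg hfg
  have := hM N f hf g (fun ℓ hℓ hℓN => by
    rw [H683.heckeTLin_eq_of_eigenform hg hℓ hℓN, hfg ℓ hℓ hℓN])
  rw [hg.qCoeff_one, one_smul] at this
  exact this

end Fermat.Agent.Lib.Newform.H23

end
-- ===== PACK-END Lib/Newform/H23/MultOne.lean

-- ===== PACK-BEGIN S28/H508/CoreToBasis.lean
section
/-
S28 (Igusa) -- helper508: adapter `CoreData N (ZMod ℓ) → BasisData N ℓ`
(captain interfaces `Fermat/Agent/S28/Defs.lean`, `Fermat/Agent/S28/Basis.lean`).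
-/



set_option autoImplicit false

noncomputable section

open ModularCurve HahnSeries Polynomial

namespace Fermat.Agent.S28.H508

/-- Elements of `ℤ[j(q^d) : d ∣ N]` are integral over `ℤ[j]` as soon as the generators are. -/
theorem isIntegralElem_of_mem_closure (N : ℕ)
    (hint : ∀ (d : ℕ) [NeZero d], d ∣ N →
      ∃ P : Polynomial (Polynomial ℤ), P.Monic ∧
        P.eval₂ (evalAt (jqModC ℤ)) (qExpand ℤ d (jqModC ℤ)) = 0)
    {y : LaurentSeries ℤ} (hy : y ∈ Subring.closure (intDivisorExpansions N)) :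
    (evalAt (jqModC ℤ)).IsIntegralElem y := by
  induction hy using Subring.closure_induction with
  | mem x hx =>
    obtain ⟨d, hd, hdN, rfl⟩ := hx
    exact hint d hdN
  | zero => exact (evalAt (jqModC ℤ)).isIntegralElem_zero
  | one => exact (evalAt (jqModC ℤ)).isIntegralElem_one
  | add x y _ _ hx hy => exact RingHom.IsIntegralElem.add _ hx hy
  | neg x _ hx => exact RingHom.IsIntegralElem.neg _ hx
  | mul x y _ _ hx hy => exact RingHom.IsIntegralElem.mul _ hx hy

theorem evalAt_C (a : ℤ) : evalAt (jqModC ℚ) (C a) = (a : LaurentSeries ℚ) := by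
  simp [evalAt]

/-- Every element of `ℚ(j)` is a quotient of two integer polynomials in `j`. -/
theorem exists_int_fraction {c : LaurentSeries ℚ} (hc : c ∈ jField ℚ) :
    ∃ f g : Polynomial ℤ, evalAt (jqModC ℚ) g ≠ 0 ∧
      evalAt (jqModC ℚ) g * c = evalAt (jqModC ℚ) f := by
  unfold jField at hc
  induction hc using IntermediateField.adjoin_induction with
  | mem x hx =>
    rw [Set.mem_singleton_iff] at hx
    subst hx
    refine ⟨X, 1, ?_, ?_⟩
    · rw [map_one]; exact one_ne_zero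
    · rw [map_one, one_mul]
      simp [evalAt]
  | algebraMap r =>
    refine ⟨C r.num, C (r.den : ℤ), ?_, ?_⟩
    · rw [evalAt_C, Int.cast_natCast, ← map_natCast (HahnSeries.C (Γ := ℤ) (R := ℚ))]
      exact (map_ne_zero_iff _ HahnSeries.C_injective).mpr (by exact_mod_cast r.den_ne_zero)
    · rw [evalAt_C, evalAt_C]
      have h : ((r.den : ℚ)) * r = (r.num : ℚ) := by
        rw [mul_comm]; exact Rat.mul_den_eq_num r
      have h2 := congrArg (algebraMap ℚ (LaurentSeries ℚ)) h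
      rw [map_mul, map_natCast, map_intCast] at h2
      exact_mod_cast h2
  | add x y _ _ hx hy =>
    obtain ⟨f₁, g₁, hg₁, h₁⟩ := hx
    obtain ⟨f₂, g₂, hg₂, h₂⟩ := hy
    refine ⟨f₁ * g₂ + f₂ * g₁, g₁ * g₂, ?_, ?_⟩
    · rw [map_mul]; exact mul_ne_zero hg₁ hg₂
    · rw [map_mul, map_add, map_mul, map_mul, ← h₁, ← h₂]; ring
  | inv x _ hx =>
    obtain ⟨f, g, hg, h⟩ := hx
    by_cases hf : evalAt (jqModC ℚ) f = 0
    · have hx0 : x = 0 := by
        rw [hf] at h
        exact (mul_eq_zero.mp h).resolve_left hg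
      refine ⟨0, 1, ?_, ?_⟩
      · rw [map_one]; exact one_ne_zero
      · rw [hx0, inv_zero, mul_zero, map_zero]
    · refine ⟨g, f, hf, ?_⟩
      have hx0 : x ≠ 0 := by
        rintro rfl
        rw [mul_zero] at h
        exact hf h.symm
      rw [← h]
      field_simp
  | mul x y _ _ hx hy =>
    obtain ⟨f₁, g₁, hg₁, h₁⟩ := hx
    obtain ⟨f₂, g₂, hg₂, h₂⟩ := hy
    refine ⟨f₁ * f₂, g₁ * g₂, ?_, ?_⟩
    · rw [map_mul]; exact mul_ne_zero hg₁ hg₂
    · rw [map_mul, map_mul, ← h₁, ← h₂]; ring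

/-- Clearing denominators in a `ℚ(j)`-linear combination. -/
theorem exists_cleared_of_mem_span {n : ℕ} (v : Fin n → LaurentSeries ℚ) {x : LaurentSeries ℚ}
    (hx : x ∈ Submodule.span (jField ℚ) (Set.range v)) :
    ∃ (g : Polynomial ℤ) (f : Fin n → Polynomial ℤ), g ≠ 0 ∧
      evalAt (jqModC ℚ) g * x = ∑ i, evalAt (jqModC ℚ) (f i) * v i := by
  obtain ⟨c, rfl⟩ := (Submodule.mem_span_range_iff_exists_fun (jField ℚ)).mp hx
  have hc : ∀ i, ∃ f g : Polynomial ℤ, evalAt (jqModC ℚ) g ≠ 0 ∧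
      evalAt (jqModC ℚ) g * (c i : LaurentSeries ℚ) = evalAt (jqModC ℚ) f :=
    fun i => exists_int_fraction (c i).2
  choose f g hg hfg using hc
  refine ⟨∏ i, g i, fun i => f i * ∏ k ∈ Finset.univ.erase i, g k, ?_, ?_⟩
  · intro h0
    have : evalAt (jqModC ℚ) (∏ i, g i) = 0 := by rw [h0, map_zero]
    rw [map_prod] at this
    obtain ⟨i, -, hi⟩ := Finset.prod_eq_zero_iff.mp this
    exact hg i hi
  · rw [Finset.mul_sum]
    refine Finset.sum_congr rfl fun i _ => ?_
    rw [← Finset.mul_prod_erase Finset.univ g (Finset.mem_univ i), map_mul, map_mul,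
      IntermediateField.smul_def, smul_eq_mul, ← hfg i]
    ring

/-- The adapter: the field-theoretic core output `CoreData` (over `𝔽_ℓ`) gives the K-free
interface `BasisData` consumed by the valuation layer. -/
theorem basisData_of_coreData (N : ℕ) [NeZero N] (ℓ : ℕ) [Fact ℓ.Prime]
    (h : CoreData N (ZMod ℓ)) : BasisData N ℓ := by
  obtain ⟨n, y, hy, hspan, hind⟩ := h.exists_basis
  refine ⟨n, y, ?_, ?_, ?_⟩
  · intro i
    obtain ⟨P, hP, hPy⟩ := isIntegralElem_of_mem_closure N h.integral (hy i)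
    refine ⟨1, P, ?_, ?_, hPy⟩
    · exact (Nat.Prime.one_lt (Fact.out : ℓ.Prime)).ne' ∘ Nat.dvd_one.mp
    · rw [hP.leadingCoeff]; simp
  · intro x hx
    exact exists_cleared_of_mem_span _ (hspan x hx)
  · intro f hf
    have hmem : ∀ i, Polynomial.aeval (jqModC (ZMod ℓ)) (f i) ∈ jField (ZMod ℓ) := fun i =>
      IntermediateField.algebra_adjoin_le_adjoin _ _ (Polynomial.aeval_mem_adjoin_singleton _ _)
    have h0 := Fintype.linearIndependent_iff.mp hind
      (fun i => ⟨Polynomial.aeval (jqModC (ZMod ℓ)) (f i), hmem i⟩) (by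
        simpa [IntermediateField.smul_def] using hf)
    intro i
    have hi := congrArg Subtype.val (h0 i)
    simp only [ZeroMemClass.coe_zero] at hi
    exact h88_aeval_jqModC_injective (ZMod ℓ) (by rw [hi, map_zero])

end Fermat.Agent.S28.H508

end
end
-- ===== PACK-END S28/H508/CoreToBasis.lean

-- ===== PACK-BEGIN S35/H991/NewSub.lean
section
/-
S35 mid layer (helper991): the adic eigenmodule of the NEW part.

Abstract setting: `J` a Galois module with finite `p`-torsion and commuting operators `T i`;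
`f c : J → J' c` a family of operator-equivariant additive maps ("degeneracy maps") such that the
eigensystem `a` does NOT occur in the Tate modules of the `J' c`.  Then the adic eigenmodule can be
built inside the Galois-stable subgroup

  `newSub f = {x | ∀ γ c, f c (γ • x) = 0}`,

so that it inherits every quadratic relation which holds on the `p`-power torsion of `newSub f`
only (not necessarily on all of `J[p^∞]`).

Main result: `exists_adic_eigenmodule_new`.
-/



set_option autoImplicit false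

namespace Fermat.Agent.S35.H991

open TensorProduct IsLocalRing Fermat.Agent.S30.H529

section NewSub

variable {G : Type*} [Group G] {J : Type*} [AddCommGroup J] [DistribMulAction G J]
variable {C : Type*} {J' : C → Type*} [∀ c, AddCommGroup (J' c)]

/-- The `G`-stable subgroup of `J` cut out by the additive maps `f c`. -/
def newSub (G : Type*) [Group G] [DistribMulAction G J] (f : ∀ c, J →+ J' c) :
    Submodule ℤ J where
  carrier := {x | ∀ (γ : G) (c : C), f c (γ • x) = 0}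
  zero_mem' := by
    intro γ c
    rw [smul_zero, map_zero]
  add_mem' := by
    intro x y hx hy γ c
    rw [smul_add, map_add, hx γ c, hy γ c, add_zero]
  smul_mem' := by
    intro r x hx γ c
    have h1 : γ • (r • x) = r • (γ • x) := by
      have := map_zsmul (DistribSMul.toAddMonoidHom J γ) r x
      exact this
    rw [h1, map_zsmul, hx γ c, smul_zero]

theorem mem_newSub {f : ∀ c, J →+ J' c} {x : J} :
    x ∈ newSub G f ↔ ∀ (γ : G) (c : C), f c (γ • x) = 0 := Iff.rfl

theorem smul_mem_newSub {f : ∀ c, J →+ J' c} (γ : G) {x : J} (hx : x ∈ newSub G f) :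
    γ • x ∈ newSub G f := by
  intro γ' c
  rw [← mul_smul]
  exact hx (γ' * γ) c

/-- The Galois action on the new subgroup. -/
@[reducible] def newSubAction (f : ∀ c, J →+ J' c) : DistribMulAction G (newSub G f) where
  smul γ x := ⟨γ • (x : J), smul_mem_newSub γ x.2⟩
  one_smul x := Subtype.ext (one_smul G (x : J))
  mul_smul γ δ x := Subtype.ext (mul_smul γ δ (x : J))
  smul_zero γ := Subtype.ext (smul_zero γ)
  smul_add γ x y := Subtype.ext (smul_add γ (x : J) (y : J))

end NewSub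

section Main

/-- The absolute Galois group of `ℚ`. -/
local notation "Γℚ" => (AlgebraicClosure ℚ ≃ₐ[ℚ] AlgebraicClosure ℚ)

variable {O : Type} [CommRing O] [IsDomain O] [IsDiscreteValuationRing O]
  [IsAdicComplete (maximalIdeal O) O] [CharZero O]

/-- **The adic eigenmodule of the new part.** -/
theorem exists_adic_eigenmodule_new {p : ℕ} (hpO : (p : O) ∈ maximalIdeal O) (hp0 : p ≠ 0)
    {J : Type} [AddCommGroup J] [DistribMulAction Γℚ J]
    {ι : Type} (T : ι → J →+ J) (a : ι → O)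
    (hT : ∀ (i : ι) (γ : Γℚ) (x : J), T i (γ • x) = γ • T i x)
    (hfin : {x : J | p • x = 0}.Finite)
    (hsm : ∀ x : J, (∃ n : ℕ, p ^ n • x = 0) →
      ∃ L : IntermediateField ℚ (AlgebraicClosure ℚ), FiniteDimensional ℚ L ∧
        ∀ σ : Γℚ, (∀ y ∈ L, σ y = y) → σ • x = x)
    {C : Type} {J' : C → Type} [∀ c, AddCommGroup (J' c)]
    (T' : ∀ c, ι → J' c →+ J' c) (f : ∀ c, J →+ J' c)
    (hf : ∀ (c : C) (i : ι) (x : J), f c (T i x) = T' c i (f c x))
    (hexcl : ∀ (c : C) (z : ℕ → O ⊗[ℤ] J' c), (p : O) • z 0 = 0 →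
      (∀ n, (p : O) • z (n + 1) = z n) →
      (∀ i n, tensorOp O (T' c) i (z n) = a i • z n) → z = 0)
    (v : ℕ → O ⊗[ℤ] J) (hv0 : (p : O) • v 0 = 0) (hv : ∀ n, (p : O) • v (n + 1) = v n)
    (hne : v ≠ 0) (heig : ∀ i n, tensorOp O T i (v n) = a i • v n) :
    ∃ (M : Type) (_ : AddCommGroup M) (_ : Module O M) (_ : Module.Free O M)
      (_ : Module.Finite O M) (ρ : Γℚ →* Module.End O M),
      Nontrivial M ∧ GaloisActionIsAdicContinuous O ρ ∧
      (∀ γ : Γℚ,
        (∀ x : J, (∃ n : ℕ, p ^ n • x = 0) → (∀ (γ' : Γℚ) (c : C), f c (γ' • x) = 0) →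
          γ • x = x) → ρ γ = 1) ∧
      (∀ (γ : Γℚ) (i : ι) (c : ℤ),
        (∀ x : J, (∃ n : ℕ, p ^ n • x = 0) → (∀ (γ' : Γℚ) (c' : C), f c' (γ' • x) = 0) →
          γ • γ • x - T i (γ • x) + c • x = 0) →
        ρ γ * ρ γ - a i • ρ γ + (c : O) • (1 : Module.End O M) = 0) ∧
      (∀ (γ : Γℚ) (b c : ℤ),
        (∀ x : J, (∃ n : ℕ, p ^ n • x = 0) → (∀ (γ' : Γℚ) (c' : C), f c' (γ' • x) = 0) →
          γ • γ • x - b • (γ • x) + c • x = 0) →
        ρ γ * ρ γ - (b : O) • ρ γ + (c : O) • (1 : Module.End O M) = 0) := by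
  classical
  -- the new subgroup, with its Galois action
  let K : Submodule ℤ J := newSub Γℚ f
  letI actK : DistribMulAction Γℚ K := newSubAction f
  have hsmulK : ∀ (γ : Γℚ) (x : K), ((γ • x : K) : J) = γ • (x : J) := fun _ _ => rfl
  -- the operators on `K`
  have hTK : ∀ (i : ι) (x : J), x ∈ K → T i x ∈ K := by
    intro i x hx γ c
    rw [← hT, hf, hx γ c, map_zero]
  let TK : ι ⊕ ℤ → K →+ K := fun j =>
    match j with
    | Sum.inl i =>
      { toFun := fun x => ⟨T i (x : J), hTK i (x : J) x.2⟩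
        map_zero' := Subtype.ext (map_zero (T i))
        map_add' := fun x y => Subtype.ext (map_add (T i) (x : J) (y : J)) }
    | Sum.inr b => zsmulAddGroupHom b
  let aK : ι ⊕ ℤ → O := fun j =>
    match j with
    | Sum.inl i => a i
    | Sum.inr b => (b : O)
  have hTKl : ∀ (i : ι) (x : K), ((TK (Sum.inl i) x : K) : J) = T i (x : J) := fun _ _ => rfl
  have hTKr : ∀ (b : ℤ) (x : K), TK (Sum.inr b) x = b • x := fun _ _ => rfl
  have hTKG : ∀ (j : ι ⊕ ℤ) (γ : Γℚ) (x : K), TK j (γ • x) = γ • TK j x := by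
    intro j γ x
    cases j with
    | inl i =>
      apply Subtype.ext
      rw [hTKl, hsmulK, hsmulK, hTKl]
      exact hT i γ (x : J)
    | inr b =>
      rw [hTKr, hTKr]
      apply Subtype.ext
      rw [hsmulK]
      have h1 : (((b • (γ • x) : K)) : J) = b • (γ • (x : J)) := rfl
      have h2 : ((b • x : K) : J) = b • (x : J) := rfl
      rw [h1, h2]
      exact (map_zsmul (DistribSMul.toAddMonoidHom J γ) b (x : J)).symm
  have hfinK : {x : K | p • x = 0}.Finite := by
    refine Set.Finite.of_finite_image (f := fun x : K => (x : J)) ?_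
      (fun x _ y _ h => Subtype.ext h)
    refine hfin.subset ?_
    rintro _ ⟨x, hx, rfl⟩
    show p • (x : J) = 0
    have : ((p • x : K) : J) = 0 := by rw [hx]; rfl
    exact this
  have hsmK : ∀ x : K, (∃ n : ℕ, p ^ n • x = 0) →
      ∃ L : IntermediateField ℚ (AlgebraicClosure ℚ), FiniteDimensional ℚ L ∧
        ∀ σ : Γℚ, (∀ y ∈ L, σ y = y) → σ • x = x := by
    rintro x ⟨n, hn⟩
    obtain ⟨L, hL, hLx⟩ := hsm (x : J) ⟨n, by
      have : ((p ^ n • x : K) : J) = 0 := by rw [hn]; rfl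
      exact this⟩
    exact ⟨L, hL, fun σ hσ => Subtype.ext (hLx σ hσ)⟩
  -- the eigen-sequence lies in `O ⊗ K`
  have hvpow : ∀ n, ((p ^ (n + 1) : ℕ) : ℤ) • v n = 0 := by
    intro n
    have h1 : (p : O) ^ (n + 1) • v n = 0 :=
      tate_pow_succ_smul (ϖ := (p : O)) (t := tensorOp O T) (a := a) ⟨hv0, hv, heig⟩ n
    rw [← natCast_pow_smul]
    exact h1
  have hinj : Function.Injective (K.subtype.baseChange O) := by
    have := Module.Flat.lTensor_preserves_injective_linearMap (M := O) K.subtype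
      K.injective_subtype
    exact this
  -- vanishing of the images under the degeneracy maps
  have hvan : ∀ (γ : Γℚ) (c : C) (n : ℕ),
      ((f c).toIntLinearMap.comp (actLin J γ)).baseChange O (v n) = 0 := by
    intro γ c n
    have hz := hexcl c (fun n => ((f c).toIntLinearMap.comp (actLin J γ)).baseChange O (v n))
      (by rw [← map_smul, hv0, map_zero])
      (fun n => by rw [← map_smul, hv n])
      (fun i n => by
        show ((T' c i).toIntLinearMap.baseChange O)
            (((f c).toIntLinearMap.comp (actLin J γ)).baseChange O (v n))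
          = a i • ((f c).toIntLinearMap.comp (actLin J γ)).baseChange O (v n)
        have h1 : (T' c i).toIntLinearMap.comp ((f c).toIntLinearMap.comp (actLin J γ))
            = ((f c).toIntLinearMap.comp (actLin J γ)).comp (T i).toIntLinearMap := by
          apply LinearMap.ext
          intro x
          show T' c i (f c (γ • x)) = f c (γ • T i x)
          rw [← hT, hf]
        rw [← LinearMap.comp_apply, ← LinearMap.baseChange_comp, h1, LinearMap.baseChange_comp,
          LinearMap.comp_apply]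
        have h2 : (T i).toIntLinearMap.baseChange O (v n) = a i • v n := heig i n
        rw [h2, map_smul])
    exact congrFun hz n
  have hlift : ∀ n, ∃ s : O ⊗[ℤ] K, K.subtype.baseChange O s = v n := by
    intro n
    have hfin' : {x : J | p ^ (n + 1) • x = 0}.Finite := finite_torsion_pow J p hfin (n + 1)
    obtain ⟨s, hs⟩ := exists_lTensor_subtype_eq O (p ^ (n + 1)) hfin'
      (C := Γℚ × C) (J' := fun γc => J' γc.2)
      (fun γc => (f γc.2).toIntLinearMap.comp (actLin J γc.1)) K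
      (fun x _ hx γ c => hx (γ, c)) (v n) (hvpow n) (fun γc => hvan γc.1 γc.2 n)
    exact ⟨s, hs⟩
  choose s hs using hlift
  have hs0 : (p : O) • s 0 = 0 := by
    apply hinj
    rw [map_smul, hs, hv0, map_zero]
  have hss : ∀ n, (p : O) • s (n + 1) = s n := by
    intro n
    apply hinj
    rw [map_smul, hs, hs, hv n]
  have hsne : s ≠ 0 := by
    intro h
    apply hne
    funext n
    rw [← hs n, h]
    simp
  have hseig : ∀ j n, tensorOp O TK j (s n) = aK j • s n := by
    intro j n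
    cases j with
    | inl i =>
      apply hinj
      show K.subtype.baseChange O ((TK (Sum.inl i)).toIntLinearMap.baseChange O (s n))
        = K.subtype.baseChange O (a i • s n)
      have h1 : K.subtype.comp (TK (Sum.inl i)).toIntLinearMap
          = (T i).toIntLinearMap.comp K.subtype := by
        apply LinearMap.ext
        intro x
        rfl
      rw [← LinearMap.comp_apply, ← LinearMap.baseChange_comp, h1, LinearMap.baseChange_comp,
        LinearMap.comp_apply, hs, map_smul, hs]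
      exact heig i n
    | inr b =>
      show (TK (Sum.inr b)).toIntLinearMap.baseChange O (s n) = (b : O) • s n
      have h1 : (TK (Sum.inr b)).toIntLinearMap = b • (LinearMap.id : K →ₗ[ℤ] K) := by
        apply LinearMap.ext
        intro x
        rfl
      rw [h1, LinearMap.baseChange_smul, LinearMap.baseChange_id, LinearMap.smul_apply,
        LinearMap.id_apply, Int.cast_smul_eq_zsmul]
  obtain ⟨M, i1, i2, i3, i4, ρ, hnt, hcont, hunr, hquad⟩ :=
    exists_adic_galois_eigenmodule p O K TK aK hpO hp0 hTKG hfinK hsmK s hs0 hss hsne hseig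
  refine ⟨M, i1, i2, i3, i4, ρ, hnt, hcont, ?_, ?_, ?_⟩
  · intro γ hγ
    refine hunr γ ?_
    rintro x ⟨n, hn⟩
    apply Subtype.ext
    rw [hsmulK]
    refine hγ (x : J) ⟨n, ?_⟩ x.2
    have : ((p ^ n • x : K) : J) = 0 := by rw [hn]; rfl
    exact this
  · intro γ i c hγ
    refine hquad γ (Sum.inl i) c ?_
    rintro x ⟨n, hn⟩
    apply Subtype.ext
    have h1 := hγ (x : J) ⟨n, by
      have : ((p ^ n • x : K) : J) = 0 := by rw [hn]; rfl
      exact this⟩ x.2
    exact h1
  · intro γ b c hγ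
    have h2 := hquad γ (Sum.inr b) c ?_
    · exact h2
    rintro x ⟨n, hn⟩
    apply Subtype.ext
    have h1 := hγ (x : J) ⟨n, by
      have : ((p ^ n • x : K) : J) = 0 := by rw [hn]; rfl
      exact this⟩ x.2
    exact h1

end Main

end Fermat.Agent.S35.H991

end
-- ===== PACK-END S35/H991/NewSub.lean

-- ===== PACK-BEGIN Lib/Newform/H683/SpecLeaves.lean
section
/-
NEWFORM library (helper683) — the leaves `EigenT`, `EigenU` (and, again, `Occurs`, `Descent`)
of the frozen interface `Fermat.Agent.Lib.Newform.H958` (Spec.lean), from `H683/Eigen.lean`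
and `H683/Extract.lean`.
-/



set_option autoImplicit false

open CongruenceSubgroup ModularFormClass ModularForm UpperHalfPlane

namespace Fermat.Agent.Lib.Newform.H683

theorem eigenT : Fermat.Agent.Lib.Newform.H958.EigenT :=
  fun _ _ hg _ hp hpN => heckeTLin_eq_of_eigenform hg hp hpN

theorem eigenU : Fermat.Agent.Lib.Newform.H958.EigenU :=
  fun _ _ _ hg _ hp hpN => heckeULin_eq_of_eigenform hg hp hpN

theorem occurs' : Fermat.Agent.Lib.Newform.H958.Occurs := by
  intro M _ h hh P a heig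
  refine exists_normalizedEigenform_of_eigenvector (fun ℓ => ℓ ∈ P) a h hh ?_
  intro ℓ hℓ hℓM hP
  have := congrArg (fun g : CuspForm (Gamma0 M) 2 => (⇑g : ℍ → ℂ)) (heig ℓ hℓ hℓM hP)
  simpa using this

theorem descent' : Fermat.Agent.Lib.Newform.H958.Descent :=
  fun N _ f hf => exists_newform_below (NeZero.ne N) f hf

end Fermat.Agent.Lib.Newform.H683

end
-- ===== PACK-END Lib/Newform/H683/SpecLeaves.lean

-- ===== PACK-BEGIN S59/H240/Node/Main.lean
section



/-!
# S59 / CR-I (helper240): two points in the same component differ by a point of `E₀`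

General integral Weierstrass curve `W` over an algebraically closed valued field, multiplicative
reduction (`v c₄ = 1`), `Δ ≠ 0`.  Intrinsic invariants of an integral point `P = (x, y)`:

* `rad W v x y = max (v gX) (v gY)` (distance to the node; `< 1` iff the reduction is singular),
* the direction `[gX : gY]` modulo the maximal ideal.

`sub_inE0` : if `P`, `P'` are integral points with singular reduction, `rad P' = rad P` and
`v (gX P * gY P' - gX P' * gY P) < rad P ^ 2`, then `P' - P ∈ E₀`.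
-/

set_option autoImplicit false
set_option linter.unusedSectionVars false
set_option linter.unusedVariables false

namespace Fermat.Agent.S59.H240

open WeierstrassCurve WeierstrassCurve.Affine
open Fermat.Agent.S05.SameRed (IntegralCoeffs)
open Fermat.Agent.Lib.VC

variable {K : Type*} [Field K] {Γ₀ : Type*} [LinearOrderedCommGroupWithZero Γ₀]
  {v : Valuation K Γ₀}

/-- The intrinsic distance of an integral point to the singular point of the reduction. -/
def rad (W : WeierstrassCurve K) (v : Valuation K Γ₀) (x y : K) : Γ₀ :=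
  max (v (gX W x y)) (v (gY W x y))

/-! ### invariants of the classes of the normal form -/

section node

variable {a x y x' y' : K}

lemma ClM.val_gX (ha0 : a ≠ 0) (ha : v a < 1) (hM : ClM v a x) (h : NodeEq a x y) :
    v (gX (nodeCurve a) x y) = v a := by
  rw [nodeCurve_gX]
  have e : y - 3 * x ^ 2 - a = (y - a) + -(3 * x ^ 2) := by ring
  have h1 := hM.val_y_sub ha0 ha h
  rw [e, vadd_eq_left, h1]
  rw [h1, Valuation.map_neg]
  exact lt_of_le_of_lt (vmul_le_of_le_one_left vthree_le_one) (hM.val_x_sq_lt ha0 ha)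

lemma ClM.val_gY (ha0 : a ≠ 0) (ha : v a < 1) (hM : ClM v a x) (h : NodeEq a x y) :
    v (gY (nodeCurve a) x y) ≤ v a := by
  rw [nodeCurve_gY]
  exact vadd_le ((vmul_le_of_le_one_left vtwo_le_one).trans (hM.val_y_le ha0 ha h)) hM

lemma ClM.rad_eq (ha0 : a ≠ 0) (ha : v a < 1) (hM : ClM v a x) (h : NodeEq a x y) :
    rad (nodeCurve a) v x y = v a := by
  rw [rad, hM.val_gX ha0 ha h]
  exact max_eq_left (hM.val_gY ha0 ha h)

lemma BrP.val_gY (hP : BrP v a x y) : v (gY (nodeCurve a) x y) = v x := by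
  rw [nodeCurve_gY, add_comm]
  exact vadd_eq_left (lt_of_le_of_lt (vmul_le_of_le_one_left vtwo_le_one) hP.2)

lemma val_x_ne_zero_of_lt (h : v a < v x) : x ≠ 0 := by
  rintro rfl
  rw [map_zero] at h
  exact not_lt_zero h

lemma BrP.val_gX (hx : v x < 1) (hP : BrP v a x y) : v (gX (nodeCurve a) x y) < v x := by
  rw [nodeCurve_gX]
  refine vsub_lt (vsub_lt hP.2 ?_) hP.1
  exact lt_of_le_of_lt (vmul_le_of_le_one_left vthree_le_one)
    (vsq_lt_self (val_x_ne_zero_of_lt hP.1) hx)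

lemma BrP.rad_eq (hx : v x < 1) (hP : BrP v a x y) : rad (nodeCurve a) v x y = v x := by
  rw [rad, hP.val_gY]
  exact max_eq_right (hP.val_gX hx).le

lemma BrN.val_gY (hN : BrN v a x y) : v (gY (nodeCurve a) x y) = v x := by
  rw [nodeCurve_gY]
  have e : 2 * y + x = -x + 2 * (y + x) := by ring
  rw [e, vadd_eq_left, Valuation.map_neg]
  rw [Valuation.map_neg]
  exact lt_of_le_of_lt (vmul_le_of_le_one_left vtwo_le_one) hN.2

lemma BrN.val_sub (hx : v x < 1) (hN : BrN v a x y) :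
    v (gX (nodeCurve a) x y - gY (nodeCurve a) x y) < v x := by
  rw [nodeCurve_gX, nodeCurve_gY]
  have e : y - 3 * x ^ 2 - a - (2 * y + x) = -(y + x) - 3 * x ^ 2 - a := by ring
  rw [e]
  refine vsub_lt (vsub_lt (vneg_lt hN.2) ?_) hN.1
  exact lt_of_le_of_lt (vmul_le_of_le_one_left vthree_le_one)
    (vsq_lt_self (val_x_ne_zero_of_lt hN.1) hx)

lemma BrN.val_gX (hx : v x < 1) (hN : BrN v a x y) : v (gX (nodeCurve a) x y) = v x := by
  have e : gX (nodeCurve a) x y
      = gY (nodeCurve a) x y + (gX (nodeCurve a) x y - gY (nodeCurve a) x y) := by ring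
  rw [e, vadd_eq_left, hN.val_gY]
  rw [hN.val_gY]
  exact hN.val_sub hx

lemma BrN.rad_eq (hx : v x < 1) (hN : BrN v a x y) : rad (nodeCurve a) v x y = v x := by
  rw [rad, hN.val_gY, hN.val_gX hx]
  exact max_self _

/-- Equal invariants force equal classes. -/
theorem node_same_class (ha0 : a ≠ 0) (ha : v a < 1) (h : NodeEq a x y) (h' : NodeEq a x' y')
    (hx : v x < 1) (hx' : v x' < 1)
    (heq : rad (nodeCurve a) v x' y' = rad (nodeCurve a) v x y)
    (hcross : v (gX (nodeCurve a) x y * gY (nodeCurve a) x' y'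
      - gX (nodeCurve a) x' y' * gY (nodeCurve a) x y)
      < rad (nodeCurve a) v x y * rad (nodeCurve a) v x y) :
    (ClM v a x ∧ ClM v a x') ∨ (v x = v x' ∧ BrP v a x y ∧ BrP v a x' y') ∨
      (v x = v x' ∧ BrN v a x y ∧ BrN v a x' y') := by
  rcases h.class_cases hx with hM | hP | hN
  · rcases h'.class_cases hx' with hM' | hP' | hN'
    · exact Or.inl ⟨hM, hM'⟩
    · exfalso
      rw [hM.rad_eq ha0 ha h, hP'.rad_eq hx'] at heq
      exact absurd hP'.1 (by rw [heq]; exact lt_irrefl _)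
    · exfalso
      rw [hM.rad_eq ha0 ha h, hN'.rad_eq hx'] at heq
      exact absurd hN'.1 (by rw [heq]; exact lt_irrefl _)
  · rcases h'.class_cases hx' with hM' | hP' | hN'
    · exfalso
      rw [hM'.rad_eq ha0 ha h', hP.rad_eq hx] at heq
      exact absurd hP.1 (by rw [heq]; exact lt_irrefl _)
    · rw [hP.rad_eq hx, hP'.rad_eq hx'] at heq
      exact Or.inr (Or.inl ⟨heq.symm, hP, hP'⟩)
    · exfalso
      have hxx : v x' = v x := by rw [hP.rad_eq hx, hN'.rad_eq hx'] at heq; exact heq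
      have hx0 : 0 < v x := lt_of_le_of_lt zero_le hP.1
      rw [hP.rad_eq hx] at hcross
      have h1 : v (gX (nodeCurve a) x y * gY (nodeCurve a) x' y') < v x * v x := by
        rw [map_mul, hN'.val_gY, hxx]
        exact mul_lt_mul_of_pos_right (hP.val_gX hx) hx0
      have h2 : v (gX (nodeCurve a) x' y' * gY (nodeCurve a) x y) = v x * v x := by
        rw [map_mul, hN'.val_gX hx', hP.val_gY, hxx]
      have h3 : v (gX (nodeCurve a) x y * gY (nodeCurve a) x' y'
          - gX (nodeCurve a) x' y' * gY (nodeCurve a) x y) = v x * v x := by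
        rw [sub_eq_add_neg, vadd_eq_right, Valuation.map_neg, h2]
        rw [Valuation.map_neg, h2]; exact h1
      rw [h3] at hcross
      exact lt_irrefl _ hcross
  · rcases h'.class_cases hx' with hM' | hP' | hN'
    · exfalso
      rw [hM'.rad_eq ha0 ha h', hN.rad_eq hx] at heq
      exact absurd hN.1 (by rw [heq]; exact lt_irrefl _)
    · exfalso
      have hxx : v x' = v x := by rw [hN.rad_eq hx, hP'.rad_eq hx'] at heq; exact heq
      have hx0 : 0 < v x := lt_of_le_of_lt zero_le hN.1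
      rw [hN.rad_eq hx] at hcross
      have h1 : v (gX (nodeCurve a) x' y' * gY (nodeCurve a) x y) < v x * v x := by
        rw [map_mul, hN.val_gY]
        have := hP'.val_gX hx'
        rw [hxx] at this
        exact mul_lt_mul_of_pos_right this hx0
      have h2 : v (gX (nodeCurve a) x y * gY (nodeCurve a) x' y') = v x * v x := by
        rw [map_mul, hN.val_gX hx, hP'.val_gY, hxx]
      have h3 : v (gX (nodeCurve a) x y * gY (nodeCurve a) x' y'
          - gX (nodeCurve a) x' y' * gY (nodeCurve a) x y) = v x * v x := by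
        rw [sub_eq_add_neg, vadd_eq_left, h2]
        rw [Valuation.map_neg, h2]; exact h1
      rw [h3] at hcross
      exact lt_irrefl _ hcross
    · rw [hN.rad_eq hx, hN'.rad_eq hx'] at heq
      exact Or.inr (Or.inr ⟨heq.symm, hN, hN'⟩)

end node

/-! ### transfer along an integral change of variables -/

section transfer

variable (W : WeierstrassCurve K) (C : VariableChange K)

lemma gY_vc (x y : K) : gY W (vcX C x) (vcY C x y) = (C.u : K) ^ 3 * gY (C • W) x y :=
  polynomialY_eval_vc W C x y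

lemma gX_vc (x y : K) : gX W (vcX C x) (vcY C x y)
    = (C.u : K) ^ 4 * gX (C • W) x y - C.s * ((C.u : K) ^ 3 * gY (C • W) x y) :=
  polynomialX_eval_vc W C x y

variable {W C}

lemma val_gY_vc (hu : v (C.u : K) = 1) (x y : K) :
    v (gY W (vcX C x) (vcY C x y)) = v (gY (C • W) x y) := by
  rw [gY_vc, map_mul, map_pow, hu, one_pow, one_mul]

lemma rad_vc (hu : v (C.u : K) = 1) (hs : v C.s ≤ 1) (x y : K) :
    rad W v (vcX C x) (vcY C x y) = rad (C • W) v x y := by
  have hu3 : v ((C.u : K) ^ 3) = 1 := by rw [map_pow, hu, one_pow]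
  have hu4 : v ((C.u : K) ^ 4) = 1 := by rw [map_pow, hu, one_pow]
  have hu0 : (C.u : K) ≠ 0 := C.u.ne_zero
  unfold rad
  rw [val_gY_vc hu]
  apply le_antisymm
  · refine max_le ?_ (le_max_right _ _)
    rw [gX_vc]
    refine vsub_le ?_ ?_
    · rw [map_mul, hu4, one_mul]; exact le_max_left _ _
    · rw [map_mul, map_mul, hu3, one_mul]
      exact (mul_le_of_le_one_left' hs).trans (le_max_right _ _)
  · refine max_le ?_ (le_max_right _ _)
    have e : (C.u : K) ^ 4 * gX (C • W) x y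
        = gX W (vcX C x) (vcY C x y) + C.s * ((C.u : K) ^ 3 * gY (C • W) x y) := by
      rw [gX_vc]; ring
    have : v (gX (C • W) x y) = v ((C.u : K) ^ 4 * gX (C • W) x y) := by
      rw [map_mul, hu4, one_mul]
    rw [this, e]
    refine vadd_le (le_max_left _ _) ?_
    rw [map_mul, map_mul, hu3, one_mul]
    exact (mul_le_of_le_one_left' hs).trans (le_max_right _ _)

lemma cross_vc (x y x' y' : K) :
    gX W (vcX C x) (vcY C x y) * gY W (vcX C x') (vcY C x' y')
      - gX W (vcX C x') (vcY C x' y') * gY W (vcX C x) (vcY C x y)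
    = (C.u : K) ^ 7 * (gX (C • W) x y * gY (C • W) x' y' - gX (C • W) x' y' * gY (C • W) x y) := by
  rw [gX_vc, gX_vc, gY_vc, gY_vc]; ring

lemma val_cross_vc (hu : v (C.u : K) = 1) (x y x' y' : K) :
    v (gX W (vcX C x) (vcY C x y) * gY W (vcX C x') (vcY C x' y')
      - gX W (vcX C x') (vcY C x' y') * gY W (vcX C x) (vcY C x y))
    = v (gX (C • W) x y * gY (C • W) x' y' - gX (C • W) x' y' * gY (C • W) x y) := by
  rw [cross_vc, map_mul, map_pow, hu, one_pow, one_mul]

lemma val_vcX_le (hu : v (C.u : K) = 1) (hr : v C.r ≤ 1) {x : K} :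
    v (vcX C x) ≤ 1 ↔ v x ≤ 1 := by
  have hu2 : v ((C.u : K) ^ 2) = 1 := by rw [map_pow, hu, one_pow]
  unfold vcX
  constructor
  · intro h
    have e : (C.u : K) ^ 2 * x = ((C.u : K) ^ 2 * x + C.r) - C.r := by ring
    have : v x = v ((C.u : K) ^ 2 * x) := by rw [map_mul, hu2, one_mul]
    rw [this, e]
    exact vsub_le h hr
  · intro h
    refine vadd_le ?_ hr
    rw [map_mul, hu2, one_mul]; exact h

variable [DecidableEq K]

/-- `E₀` is preserved by an integral change of variables. -/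
lemma inE0_vcPoint (hu : v (C.u : K) = 1) (hr : v C.r ≤ 1) (hs : v C.s ≤ 1)
    (hN : IntegralCoeffs (C • W).toAffine v) (P : (C • W).toAffine.Point)
    (hP : InE0 (C • W).toAffine v P) : InE0 W.toAffine v (vcPoint W C P) := by
  rcases P with _ | ⟨x, y, h⟩
  · exact inE0_zero _
  · rw [vcPoint_some, inE0_some]
    rw [inE0_some] at hP
    by_cases hx : v x ≤ 1
    · right
      have hP' : v (gX (C • W) x y) = 1 ∨ v (gY (C • W) x y) = 1 := by
        rcases hP with h1 | h1
        · exact absurd hx (not_le.mpr h1)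
        · exact h1
      -- `y` is integral
      have hy : v y ≤ 1 := by
        by_contra hy
        rw [not_le] at hy
        have e := (Affine.equation_iff x y).mp h.1
        have hy2 : y ^ 2 = x ^ 3 + (C • W).a₂ * x ^ 2 + (C • W).a₄ * x + (C • W).a₆
            - (C • W).a₁ * x * y - (C • W).a₃ * y := by
          linear_combination e
        have h0 : (0 : Γ₀) < v y := lt_trans zero_lt_one hy
        have hlt : v y < v y ^ 2 := by
          rw [pow_two]
          calc v y = v y * 1 := (mul_one _).symm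
            _ < v y * v y := mul_lt_mul_of_pos_left hy h0
        have hle : v (x ^ 3 + (C • W).a₂ * x ^ 2 + (C • W).a₄ * x + (C • W).a₆
            - (C • W).a₁ * x * y - (C • W).a₃ * y) ≤ v y := by
          refine vsub_le (vsub_le (vadd_le (vadd_le (vadd_le ?_ ?_) ?_) ?_) ?_) ?_
          · exact (vpow_le_one hx 3).trans hy.le
          · exact (vmul_le_one hN.a₂ (vpow_le_one hx 2)).trans hy.le
          · exact (vmul_le_one hN.a₄ hx).trans hy.le
          · exact hN.a₆.trans hy.le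
          · exact vmul_le_of_le_one_left (vmul_le_one hN.a₁ hx)
          · exact vmul_le_of_le_one_left hN.a₃
        rw [← hy2, map_pow] at hle
        exact absurd hle (not_le.mpr hlt)
      have hgY1 : v (gY (C • W) x y) ≤ 1 := by
        unfold gY
        exact vadd_le (vadd_le (vmul_le_one vtwo_le_one hy) (vmul_le_one hN.a₁ hx)) hN.a₃
      rcases eq_or_lt_of_le hgY1 with h1 | h1
      · right
        rw [val_gY_vc hu]; exact h1
      · left
        have hX1 : v (gX (C • W) x y) = 1 := by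
          rcases hP' with h2 | h2
          · exact h2
          · exact absurd h2 h1.ne
        rw [gX_vc, sub_eq_add_neg, vadd_eq_left]
        · rw [map_mul, map_pow, hu, one_pow, one_mul, hX1]
        · rw [Valuation.map_neg, map_mul, map_mul, map_pow, hu, one_pow, one_mul,
            map_mul, map_pow, hu, one_pow, one_mul, hX1]
          exact lt_of_le_of_lt (mul_le_of_le_one_left' hs) h1
    · left
      rw [not_le] at hx
      unfold vcX
      have hu2 : v ((C.u : K) ^ 2 * x) = v x := by rw [map_mul, map_pow, hu, one_pow, one_mul]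
      rw [vadd_eq_left (by rw [hu2]; exact lt_of_le_of_lt hr hx), hu2]
      exact hx

end transfer

/-! ### the main theorem -/

lemma nodeCurve_integral {a : K} (ha : v a < 1) : IntegralCoeffs (nodeCurve a).toAffine v :=
  ⟨by simp [nodeCurve], by simp [nodeCurve], by simp [nodeCurve], ha.le, by simp [nodeCurve]⟩

variable [DecidableEq K]

/-- `node_sub_inE0` for a curve which is equal to the normal form. -/
lemma node_sub_inE0' {N : WeierstrassCurve K} {a : K} (hN : N = nodeCurve a)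
    (ha0 : a ≠ 0) (ha : v a < 1) {x y x' y' : K}
    (h : N.toAffine.Nonsingular x y) (h' : N.toAffine.Nonsingular x' y')
    (hx : v x ≤ 1) (hx' : v x' ≤ 1) (hrad : rad N v x y < 1)
    (heq : rad N v x' y' = rad N v x y)
    (hcross : v (gX N x y * gY N x' y' - gX N x' y' * gY N x y) < rad N v x y * rad N v x y) :
    InE0 N.toAffine v (Point.some x' y' h' - Point.some x y h) := by
  subst hN
  have hE := nodeCurve_equation_iff.mp h.1
  have hE' := nodeCurve_equation_iff.mp h'.1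
  -- both points lie in the annulus
  have hann : ∀ {x y : K} (h : (nodeCurve a).toAffine.Nonsingular x y), v x ≤ 1 →
      rad (nodeCurve a) v x y < 1 → v x < 1 := by
    intro x y h hx hr
    by_contra hge
    rw [not_lt] at hge
    have := node_inE0_of_le ha h hge
    rw [inE0_some] at this
    rcases this with h1 | h1 | h1
    · exact absurd hx (not_le.mpr h1)
    · have : (1 : Γ₀) ≤ rad (nodeCurve a) v x y := by rw [rad, ← h1]; exact le_max_left _ _
      exact absurd hr (not_lt.mpr this)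
    · have : (1 : Γ₀) ≤ rad (nodeCurve a) v x y := by rw [rad, ← h1]; exact le_max_right _ _
      exact absurd hr (not_lt.mpr this)
  have hx1 := hann h hx hrad
  have hx1' := hann h' hx' (by rw [heq]; exact hrad)
  exact node_sub_inE0 ha0 ha h h' hx1 hx1' (node_same_class ha0 ha hE hE' hx1 hx1' heq hcross)

/-- **Main theorem.**  Two integral points with singular reduction and the same invariants differ
by a point of `E₀`. -/
theorem sub_inE0 [IsAlgClosed K] (h2 : (2 : K) ≠ 0) {W : WeierstrassCurve K}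
    (hW : IntegralCoeffs W.toAffine v) (hc₄ : v W.c₄ = 1) (hΔ : W.Δ ≠ 0)
    {x y x' y' : K} (h : W.toAffine.Nonsingular x y) (h' : W.toAffine.Nonsingular x' y')
    (hx : v x ≤ 1) (hy : v y ≤ 1) (hx' : v x' ≤ 1)
    (hrad : rad W v x y < 1) (heq : rad W v x' y' = rad W v x y)
    (hcross : v (gX W x y * gY W x' y' - gX W x' y' * gY W x y) < rad W v x y * rad W v x y) :
    InE0 W.toAffine v (Point.some x' y' h' - Point.some x y h) := by
  have hG : v (gX W x y) < 1 := lt_of_le_of_lt (le_max_left _ _) hrad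
  have hH : v (gY W x y) < 1 := lt_of_le_of_lt (le_max_right _ _) hrad
  obtain ⟨C, a, hu, hr, hs, ht, ha0, ha, hCW⟩ := exists_nodeForm h2 hW hc₄ hΔ h.1 hx hy hG hH
  -- the points in the new coordinates
  obtain ⟨Q, hQ⟩ := (vcPoint W C).surjective (Point.some x y h)
  obtain ⟨Q', hQ'⟩ := (vcPoint W C).surjective (Point.some x' y' h')
  rcases Q with _ | ⟨X, Y, hXY⟩
  · change (vcPoint W C) 0 = _ at hQ
    rw [vcPoint_zero] at hQ; exact absurd hQ.symm (Point.some_ne_zero h)
  rcases Q' with _ | ⟨X', Y', hXY'⟩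
  · change (vcPoint W C) 0 = _ at hQ'
    rw [vcPoint_zero] at hQ'; exact absurd hQ'.symm (Point.some_ne_zero h')
  have hQc := hQ
  have hQc' := hQ'
  rw [vcPoint_some, Point.some.injEq] at hQc hQc'
  obtain ⟨eX, eY⟩ := hQc
  obtain ⟨eX', eY'⟩ := hQc'
  have hN : IntegralCoeffs (C • W).toAffine v := by rw [hCW]; exact nodeCurve_integral ha
  have hXv : v X ≤ 1 := (val_vcX_le hu hr).mp (by rw [eX]; exact hx)
  have hXv' : v X' ≤ 1 := (val_vcX_le hu hr).mp (by rw [eX']; exact hx')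
  have hr1 : rad (C • W) v X Y = rad W v x y := by rw [← rad_vc hu hs, eX, eY]
  have hr1' : rad (C • W) v X' Y' = rad W v x' y' := by rw [← rad_vc hu hs, eX', eY']
  have hc1 : v (gX (C • W) X Y * gY (C • W) X' Y' - gX (C • W) X' Y' * gY (C • W) X Y)
      = v (gX W x y * gY W x' y' - gX W x' y' * gY W x y) := by
    rw [← val_cross_vc hu, eX, eY, eX', eY']
  have key := node_sub_inE0' hCW ha0 ha hXY hXY' hXv hXv' (by rw [hr1]; exact hrad)
    (by rw [hr1, hr1', heq]) (by rw [hc1, hr1]; exact hcross)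
  have := inE0_vcPoint hu hr hs hN _ key
  rwa [map_sub, hQ, hQ'] at this

end Fermat.Agent.S59.H240

end
-- ===== PACK-END S59/H240/Node/Main.lean

-- ===== PACK-BEGIN S41/H768/Tors.lean
section



/-!
# S41 / PD / TORS (helper768): elements of finite order of `SL(2, ℤ)`

Every element of finite order of `SL(2, ℤ)` is conjugate to one of
`± 1, ± S, ± S T, ± (S T)²`  (`torsion_class_h768`, Mathlib-only).

Proof.  (1) With `t = tr g` one has `g ^ (n+1) = a_{n+1} g - a_n`, where `a₀ = 0`, `a₁ = 1`,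
`a_{n+2} = t a_{n+1} - a_n`; if `|t| ≥ 2` then `|a_n|` is strictly increasing, so `g ^ (n+1) = 1`
forces `g` to be scalar.  (2) If `|t| ≤ 1`, conjugation by `[[1,k],[0,1]]` makes `2 |a| ≤ |c|`, and
either `|b| < |c|` (conjugate by `S`, induction on `|c|`) or `|c| = 1`, `a = 0`, and `g` is one of
six explicit matrices.
-/

set_option autoImplicit false

namespace Fermat.Agent.S41.H768

open Matrix Matrix.SpecialLinearGroup ModularGroup
open scoped MatrixGroups

/-! ## Explicit elements -/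

/-- The element `[[a, b], [c, d]]` of `SL(2, ℤ)`. -/
def mk2 (a b c d : ℤ) (h : a * d - b * c = 1) : SL(2, ℤ) :=
  ⟨!![a, b; c, d], by rw [Matrix.det_fin_two_of]; exact h⟩

@[simp] lemma mk2_00 (a b c d : ℤ) (h : a * d - b * c = 1) : (mk2 a b c d h) 0 0 = a := rfl
@[simp] lemma mk2_01 (a b c d : ℤ) (h : a * d - b * c = 1) : (mk2 a b c d h) 0 1 = b := rfl
@[simp] lemma mk2_10 (a b c d : ℤ) (h : a * d - b * c = 1) : (mk2 a b c d h) 1 0 = c := rfl
@[simp] lemma mk2_11 (a b c d : ℤ) (h : a * d - b * c = 1) : (mk2 a b c d h) 1 1 = d := rfl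

lemma sl2_ext {g g' : SL(2, ℤ)} (h00 : g 0 0 = g' 0 0) (h01 : g 0 1 = g' 0 1)
    (h10 : g 1 0 = g' 1 0) (h11 : g 1 1 = g' 1 1) : g = g' := by
  apply Matrix.SpecialLinearGroup.ext
  intro i j
  fin_cases i <;> fin_cases j
  · exact h00
  · exact h01
  · exact h10
  · exact h11

lemma mul_00 (g h : SL(2, ℤ)) : (g * h) 0 0 = g 0 0 * h 0 0 + g 0 1 * h 1 0 := by
  simp [Matrix.SpecialLinearGroup.coe_mul, Matrix.mul_apply, Fin.sum_univ_two]
lemma mul_01 (g h : SL(2, ℤ)) : (g * h) 0 1 = g 0 0 * h 0 1 + g 0 1 * h 1 1 := by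
  simp [Matrix.SpecialLinearGroup.coe_mul, Matrix.mul_apply, Fin.sum_univ_two]
lemma mul_10 (g h : SL(2, ℤ)) : (g * h) 1 0 = g 1 0 * h 0 0 + g 1 1 * h 1 0 := by
  simp [Matrix.SpecialLinearGroup.coe_mul, Matrix.mul_apply, Fin.sum_univ_two]
lemma mul_11 (g h : SL(2, ℤ)) : (g * h) 1 1 = g 1 0 * h 0 1 + g 1 1 * h 1 1 := by
  simp [Matrix.SpecialLinearGroup.coe_mul, Matrix.mul_apply, Fin.sum_univ_two]

lemma det_entries (g : SL(2, ℤ)) : g 0 0 * g 1 1 - g 0 1 * g 1 0 = 1 := by
  have := g.det_coe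
  rwa [Matrix.det_fin_two] at this

lemma trace_entries (g : SL(2, ℤ)) : (g : Matrix (Fin 2) (Fin 2) ℤ).trace = g 0 0 + g 1 1 :=
  Matrix.trace_fin_two _

lemma neg_entry (g : SL(2, ℤ)) (i j : Fin 2) : (-g) i j = - g i j := by
  simp [Matrix.SpecialLinearGroup.coe_neg]

lemma S_00 : (S : SL(2, ℤ)) 0 0 = 0 := by simp [coe_S]
lemma S_01 : (S : SL(2, ℤ)) 0 1 = -1 := by simp [coe_S]
lemma S_10 : (S : SL(2, ℤ)) 1 0 = 1 := by simp [coe_S]
lemma S_11 : (S : SL(2, ℤ)) 1 1 = 0 := by simp [coe_S]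
lemma T_00 : (T : SL(2, ℤ)) 0 0 = 1 := by simp [coe_T]
lemma T_01 : (T : SL(2, ℤ)) 0 1 = 1 := by simp [coe_T]
lemma T_10 : (T : SL(2, ℤ)) 1 0 = 0 := by simp [coe_T]
lemma T_11 : (T : SL(2, ℤ)) 1 1 = 1 := by simp [coe_T]

lemma conj_eq_of_mul_eq {g g' k : SL(2, ℤ)} (h : k * g = g' * k) : k * g * k⁻¹ = g' := by
  rw [h, mul_inv_cancel_right]

/-! ## Step 1: finite order forces `|tr| ≤ 1` or `g = ± 1` -/

/-- The sequence `a₀ = 0`, `a₁ = 1`, `a_{n+2} = t a_{n+1} - a_n`. -/
def cheb (t : ℤ) : ℕ → ℤ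
  | 0 => 0
  | 1 => 1
  | (n + 2) => t * cheb t (n + 1) - cheb t n

lemma cheb_growth (t : ℤ) (ht : 2 ≤ |t|) (n : ℕ) : |cheb t n| + 1 ≤ |cheb t (n + 1)| := by
  induction n with
  | zero => simp [cheb]
  | succ n ih =>
    have h1 : cheb t (n + 1 + 1) = t * cheb t (n + 1) - cheb t n := rfl
    rw [h1]
    have h2 : |t * cheb t (n + 1)| - |cheb t n| ≤ |t * cheb t (n + 1) - cheb t n| :=
      abs_sub_abs_le_abs_sub _ _
    rw [abs_mul] at h2
    have h3 : 2 * |cheb t (n + 1)| ≤ |t| * |cheb t (n + 1)| :=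
      mul_le_mul_of_nonneg_right ht (abs_nonneg _)
    linarith

lemma cheb_ne_zero (t : ℤ) (ht : 2 ≤ |t|) (n : ℕ) : cheb t (n + 1) ≠ 0 := by
  intro h
  have := cheb_growth t ht n
  rw [h, abs_zero] at this
  have := abs_nonneg (cheb t n)
  linarith

lemma sq_eq_h768 (M : Matrix (Fin 2) (Fin 2) ℤ) (h : M.det = 1) :
    M * M = M.trace • M - 1 := by
  rw [Matrix.det_fin_two] at h
  ext i j
  fin_cases i <;> fin_cases j
  · simp only [Matrix.mul_apply, Fin.sum_univ_two, Matrix.trace_fin_two, Matrix.sub_apply,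
      Matrix.smul_apply, Matrix.one_apply, smul_eq_mul, Fin.zero_eta, Fin.isValue, if_true]
    linear_combination (-1 : ℤ) * h
  · simp only [Matrix.mul_apply, Fin.sum_univ_two, Matrix.trace_fin_two, Matrix.sub_apply,
      Matrix.smul_apply, Matrix.one_apply, smul_eq_mul, Fin.zero_eta, Fin.mk_one, Fin.isValue]
    simp
    ring
  · simp only [Matrix.mul_apply, Fin.sum_univ_two, Matrix.trace_fin_two, Matrix.sub_apply,
      Matrix.smul_apply, Matrix.one_apply, smul_eq_mul, Fin.zero_eta, Fin.mk_one, Fin.isValue]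
    simp
    ring
  · simp only [Matrix.mul_apply, Fin.sum_univ_two, Matrix.trace_fin_two, Matrix.sub_apply,
      Matrix.smul_apply, Matrix.one_apply, smul_eq_mul, Fin.mk_one, Fin.isValue, if_true]
    linear_combination (-1 : ℤ) * h

lemma pow_succ_eq_h768 (M : Matrix (Fin 2) (Fin 2) ℤ) (h : M.det = 1) (n : ℕ) :
    M ^ (n + 1) = cheb M.trace (n + 1) • M - cheb M.trace n • (1 : Matrix (Fin 2) (Fin 2) ℤ) := by
  induction n with
  | zero => simp [cheb]
  | succ n ih =>
    have h1 : cheb M.trace (n + 1 + 1) = M.trace * cheb M.trace (n + 1) - cheb M.trace n := rfl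
    rw [pow_succ, ih, h1, Matrix.sub_mul, Matrix.smul_mul, Matrix.smul_mul, Matrix.one_mul,
      sq_eq_h768 M h]
    ext i j
    simp only [Matrix.sub_apply, Matrix.smul_apply, smul_eq_mul, Matrix.one_apply]
    ring

/-- An element of finite order of `SL(2, ℤ)` is `± 1` or has `|tr| ≤ 1`. -/
lemma trace_of_isOfFinOrder (g : SL(2, ℤ)) (hg : IsOfFinOrder g) :
    g = 1 ∨ g = -1 ∨ |(g : Matrix (Fin 2) (Fin 2) ℤ).trace| ≤ 1 := by
  by_cases ht : |(g : Matrix (Fin 2) (Fin 2) ℤ).trace| ≤ 1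
  · exact Or.inr (Or.inr ht)
  have ht2 : 2 ≤ |(g : Matrix (Fin 2) (Fin 2) ℤ).trace| := by omega
  obtain ⟨k, hk, hgk⟩ := isOfFinOrder_iff_pow_eq_one.1 hg
  obtain ⟨n, rfl⟩ : ∃ n, k = n + 1 := ⟨k - 1, by omega⟩
  have hM : (g : Matrix (Fin 2) (Fin 2) ℤ) ^ (n + 1) = 1 := by
    have := congrArg (fun x : SL(2, ℤ) => (x : Matrix (Fin 2) (Fin 2) ℤ)) hgk
    simpa using this
  rw [pow_succ_eq_h768 _ g.det_coe n] at hM
  set a := cheb (g : Matrix (Fin 2) (Fin 2) ℤ).trace (n + 1) with ha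
  set a' := cheb (g : Matrix (Fin 2) (Fin 2) ℤ).trace n with ha'
  have hane : a ≠ 0 := cheb_ne_zero _ ht2 n
  have e01 := congrFun (congrFun hM 0) 1
  have e10 := congrFun (congrFun hM 1) 0
  simp only [Matrix.sub_apply, Matrix.smul_apply, smul_eq_mul, Matrix.one_apply] at e01 e10
  have h01 : g 0 1 = 0 := by
    have : a * g 0 1 = 0 := by simpa using e01
    rcases mul_eq_zero.1 this with h | h
    · exact absurd h hane
    · exact h
  have h10 : g 1 0 = 0 := by
    have : a * g 1 0 = 0 := by simpa using e10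
    rcases mul_eq_zero.1 this with h | h
    · exact absurd h hane
    · exact h
  have hdet := det_entries g
  rw [h01, zero_mul, sub_zero] at hdet
  rcases Int.eq_one_or_neg_one_of_mul_eq_one' hdet with ⟨h0, h1⟩ | ⟨h0, h1⟩
  · left
    apply sl2_ext <;> simp [h0, h1, h01, h10]
  · right; left
    apply sl2_ext <;> simp [neg_entry, h0, h1, h01, h10]

/-! ## Step 2: reduction -/

/-- The conclusion of TORS. -/
def Good (g : SL(2, ℤ)) : Prop :=
  ∃ h : SL(2, ℤ), h * g * h⁻¹ = 1 ∨ h * g * h⁻¹ = -1 ∨ h * g * h⁻¹ = S ∨ h * g * h⁻¹ = -S ∨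
    h * g * h⁻¹ = S * T ∨ h * g * h⁻¹ = -(S * T) ∨ h * g * h⁻¹ = (S * T) ^ 2 ∨
    h * g * h⁻¹ = -(S * T) ^ 2

lemma Good.of_conj {g : SL(2, ℤ)} (k : SL(2, ℤ)) (h : Good (k * g * k⁻¹)) : Good g := by
  obtain ⟨h', hh'⟩ := h
  refine ⟨h' * k, ?_⟩
  have : h' * k * g * (h' * k)⁻¹ = h' * (k * g * k⁻¹) * h'⁻¹ := by group
  rw [this]
  exact hh'

lemma good_of_eq {g : SL(2, ℤ)}
    (h : g = 1 ∨ g = -1 ∨ g = S ∨ g = -S ∨ g = S * T ∨ g = -(S * T) ∨ g = (S * T) ^ 2 ∨
      g = -(S * T) ^ 2) : Good g :=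
  ⟨1, by simpa using h⟩

/-- Balanced remainder. -/
lemma exists_balanced (a c : ℤ) (hc : c ≠ 0) : ∃ k : ℤ, 2 * |a + k * c| ≤ |c| := by
  have hcpos : 0 < |c| := abs_pos.2 hc
  have h1 := Int.emod_nonneg a (abs_pos.2 hc).ne'
  have h2 := Int.emod_lt_of_pos a hcpos
  have h3 := Int.emod_add_mul_ediv a |c|
  -- a = a % |c| + |c| * (a / |c|)
  obtain ⟨s, hs⟩ : ∃ s : ℤ, |c| = s * c := by
    rcases abs_choice c with h | h
    · exact ⟨1, by rw [h]; ring⟩
    · exact ⟨-1, by rw [h]; ring⟩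
  by_cases hr : 2 * (a % |c|) ≤ |c|
  · refine ⟨-(a / |c|) * s, ?_⟩
    have : a + -(a / |c|) * s * c = a % |c| := by
      have : -(a / |c|) * s * c = -(|c| * (a / |c|)) := by rw [hs]; ring
      rw [this]; linarith
    rw [this, abs_of_nonneg h1]
    exact hr
  · refine ⟨(-(a / |c|) - 1) * s, ?_⟩
    have : a + (-(a / |c|) - 1) * s * c = a % |c| - |c| := by
      have : (-(a / |c|) - 1) * s * c = -(|c| * (a / |c|)) - |c| := by
        have h4 : (-(a / |c|) - 1) * s * c = (-(a / |c|) - 1) * (s * c) := by ring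
        rw [h4, ← hs]; ring
      rw [this]; linarith
    rw [this, abs_of_nonpos (by linarith)]
    linarith

/-- The six reduced matrices. -/
lemma good_reduced (g : SL(2, ℤ)) (ha : g 0 0 = 0)
    (hc : g 1 0 = 1 ∨ g 1 0 = -1) (ht : g 1 1 = 0 ∨ g 1 1 = 1 ∨ g 1 1 = -1) : Good g := by
  have hdet := det_entries g
  rw [ha, zero_mul, zero_sub] at hdet
  rcases hc with hc | hc <;> rcases ht with ht | ht | ht
  · -- c = 1, t = 0 : S
    have hb : g 0 1 = -1 := by rw [hc] at hdet; linarith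
    refine good_of_eq (Or.inr (Or.inr (Or.inl ?_)))
    apply sl2_ext <;> simp [S_00, S_01, S_10, S_11, ha, hb, hc, ht]
  · -- c = 1, t = 1 : S T
    have hb : g 0 1 = -1 := by rw [hc] at hdet; linarith
    refine good_of_eq (Or.inr (Or.inr (Or.inr (Or.inr (Or.inl ?_)))))
    apply sl2_ext <;>
      simp [mul_00, mul_01, mul_10, mul_11, S_00, S_01, S_10, S_11, T_00, T_01, T_10, T_11,
        ha, hb, hc, ht]
  · -- c = 1, t = -1 : conjugate by S to (S T)^2
    have hb : g 0 1 = -1 := by rw [hc] at hdet; linarith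
    refine ⟨S, Or.inr (Or.inr (Or.inr (Or.inr (Or.inr (Or.inr (Or.inl ?_))))))⟩
    apply conj_eq_of_mul_eq
    apply sl2_ext <;>
      simp [pow_two, mul_00, mul_01, mul_10, mul_11, S_00, S_01, S_10, S_11, T_00, T_01, T_10,
        T_11, ha, hb, hc, ht]
  · -- c = -1, t = 0 : -S
    have hb : g 0 1 = 1 := by rw [hc] at hdet; linarith
    refine good_of_eq (Or.inr (Or.inr (Or.inr (Or.inl ?_))))
    apply sl2_ext <;> simp [neg_entry, S_00, S_01, S_10, S_11, ha, hb, hc, ht]
  · -- c = -1, t = 1 : conjugate by S to -(S T)^2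
    have hb : g 0 1 = 1 := by rw [hc] at hdet; linarith
    refine ⟨S, Or.inr (Or.inr (Or.inr (Or.inr (Or.inr (Or.inr (Or.inr ?_))))))⟩
    apply conj_eq_of_mul_eq
    apply sl2_ext <;>
      simp [pow_two, neg_entry, mul_00, mul_01, mul_10, mul_11, S_00, S_01, S_10, S_11, T_00,
        T_01, T_10, T_11, ha, hb, hc, ht]
  · -- c = -1, t = -1 : -(S T)
    have hb : g 0 1 = 1 := by rw [hc] at hdet; linarith
    refine good_of_eq (Or.inr (Or.inr (Or.inr (Or.inr (Or.inr (Or.inl ?_))))))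
    apply sl2_ext <;>
      simp [neg_entry, mul_00, mul_01, mul_10, mul_11, S_00, S_01, S_10, S_11, T_00, T_01, T_10,
        T_11, ha, hb, hc, ht]

/-- Conjugation by `[[1, k], [0, 1]]`: same `c`, `a ↦ a + k c`. -/
lemma exists_conj_upper (g : SL(2, ℤ)) (k : ℤ) :
    ∃ u g' : SL(2, ℤ), u * g * u⁻¹ = g' ∧ g' 0 0 = g 0 0 + k * g 1 0 ∧ g' 1 0 = g 1 0 ∧
      g' 1 1 = g 1 1 - k * g 1 0 := by
  have hdet := det_entries g
  refine ⟨mk2 1 k 0 1 (by ring),
    mk2 (g 0 0 + k * g 1 0) (g 0 1 + k * (g 1 1 - g 0 0) - k ^ 2 * g 1 0) (g 1 0)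
      (g 1 1 - k * g 1 0) (by linear_combination hdet), ?_, rfl, rfl, rfl⟩
  apply conj_eq_of_mul_eq
  apply sl2_ext <;> simp [mul_00, mul_01, mul_10, mul_11] <;> ring

/-- Conjugation by `S`: `[[a, b], [c, d]] ↦ [[d, -c], [-b, a]]`. -/
lemma exists_conj_S (g : SL(2, ℤ)) :
    ∃ g' : SL(2, ℤ), S * g * S⁻¹ = g' ∧ g' 0 0 = g 1 1 ∧ g' 1 0 = - g 0 1 ∧ g' 1 1 = g 0 0 := by
  have hdet := det_entries g
  refine ⟨mk2 (g 1 1) (- g 1 0) (- g 0 1) (g 0 0) (by linear_combination hdet), ?_, rfl, rfl, rfl⟩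
  apply conj_eq_of_mul_eq
  apply sl2_ext <;> simp [mul_00, mul_01, mul_10, mul_11, S_00, S_01, S_10, S_11]

lemma good_of_trace_le (n : ℕ) : ∀ g : SL(2, ℤ),
    |(g : Matrix (Fin 2) (Fin 2) ℤ).trace| ≤ 1 → (g 1 0).natAbs = n → Good g := by
  induction n using Nat.strong_induction_on with
  | _ n ih =>
    intro g ht hn
    rw [trace_entries] at ht
    have hdet := det_entries g
    -- `c ≠ 0`
    have hc : g 1 0 ≠ 0 := by
      intro h0
      rw [h0, mul_zero, sub_zero] at hdet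
      rcases Int.eq_one_or_neg_one_of_mul_eq_one' hdet with ⟨h0', h1⟩ | ⟨h0', h1⟩
      · rw [h0', h1] at ht; norm_num at ht
      · rw [h0', h1] at ht; norm_num at ht
    obtain ⟨k, hk⟩ := exists_balanced (g 0 0) (g 1 0) hc
    obtain ⟨u, g', hug, h00, h10, h11⟩ := exists_conj_upper g k
    refine Good.of_conj u ?_
    rw [hug]
    have ht' : |g' 0 0 + g' 1 1| ≤ 1 := by rw [h00, h11]; simpa using ht
    have hdet' := det_entries g'
    rw [← h00, ← h10] at hk
    by_cases hb : |g' 0 1| < |g' 1 0|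
    · -- conjugate by `S`
      obtain ⟨g'', hSg, k00, k10, k11⟩ := exists_conj_S g'
      refine Good.of_conj S ?_
      rw [hSg]
      refine ih (g'' 1 0).natAbs ?_ g'' ?_ rfl
      · rw [← hn, k10, Int.natAbs_neg, ← h10]
        rw [Int.abs_eq_natAbs, Int.abs_eq_natAbs] at hb
        exact_mod_cast hb
      · rw [trace_entries, k00, k11, add_comm]; exact ht'
    · -- reduced
      push Not at hb
      have habs : |g' 0 1| * |g' 1 0| = g' 0 0 * g' 1 1 - 1 ∨
          |g' 0 1| * |g' 1 0| = -(g' 0 0 * g' 1 1 - 1) := by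
        rw [← abs_mul]
        have : g' 0 1 * g' 1 0 = g' 0 0 * g' 1 1 - 1 := by linarith
        rw [this]
        rcases abs_choice (g' 0 0 * g' 1 1 - 1) with h | h
        · exact Or.inl h
        · exact Or.inr h
      have hcpos : 0 < |g' 1 0| := abs_pos.2 (by rw [h10]; exact hc)
      have hc1 : |g' 1 0| = 1 := by
        have hsq : |g' 1 0| * |g' 1 0| ≤ |g' 0 1| * |g' 1 0| :=
          mul_le_mul_of_nonneg_right hb (abs_nonneg _)
        have ha2 : g' 0 0 * g' 0 0 = |g' 0 0| * |g' 0 0| := (abs_mul_abs_self _).symm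
        have habs_t := abs_le.1 ht'
        have ha0 := abs_nonneg (g' 0 0)
        -- a d - 1 = a (t - a) - 1
        by_contra hne
        have hc2 : 2 ≤ |g' 1 0| := by omega
        rcases habs with h | h
        · -- a d - 1 ≥ 0 impossible-ish: a d = a t - a² ≤ |a| - a²
          have : g' 0 0 * g' 1 1 ≤ |g' 0 0| - |g' 0 0| * |g' 0 0| := by
            have e : g' 0 0 * g' 1 1 = g' 0 0 * (g' 0 0 + g' 1 1) - g' 0 0 * g' 0 0 := by ring
            rw [e, ha2]
            have : g' 0 0 * (g' 0 0 + g' 1 1) ≤ |g' 0 0| := by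
              calc g' 0 0 * (g' 0 0 + g' 1 1) ≤ |g' 0 0 * (g' 0 0 + g' 1 1)| := le_abs_self _
                _ = |g' 0 0| * |g' 0 0 + g' 1 1| := abs_mul _ _
                _ ≤ |g' 0 0| * 1 := mul_le_mul_of_nonneg_left ht' ha0
                _ = |g' 0 0| := mul_one _
            linarith
          nlinarith
        · have : -(g' 0 0 * g' 1 1) ≤ |g' 0 0| + |g' 0 0| * |g' 0 0| := by
            have e : -(g' 0 0 * g' 1 1) = -(g' 0 0 * (g' 0 0 + g' 1 1)) + g' 0 0 * g' 0 0 := by
              ring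
            rw [e, ha2]
            have : -(g' 0 0 * (g' 0 0 + g' 1 1)) ≤ |g' 0 0| := by
              calc -(g' 0 0 * (g' 0 0 + g' 1 1)) ≤ |g' 0 0 * (g' 0 0 + g' 1 1)| := neg_le_abs _
                _ = |g' 0 0| * |g' 0 0 + g' 1 1| := abs_mul _ _
                _ ≤ |g' 0 0| * 1 := mul_le_mul_of_nonneg_left ht' ha0
                _ = |g' 0 0| := mul_one _
            linarith
          nlinarith
      have ha0 : g' 0 0 = 0 := by
        rw [hc1] at hk
        have := abs_nonneg (g' 0 0)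
        have : |g' 0 0| = 0 := by omega
        exact abs_eq_zero.1 this
      refine good_reduced g' ha0 ?_ ?_
      · rcases abs_choice (g' 1 0) with h | h
        · left; rw [← h]; exact hc1
        · right; rw [h] at hc1; linarith
      · rw [ha0, zero_add] at ht'
        have := abs_le.1 ht'
        omega

/-- **TORS.**  Every element of finite order of `SL(2, ℤ)` is conjugate to one of
`± 1, ± S, ± S T, ± (S T)²`. -/
theorem torsion_class_h768 (g : SL(2, ℤ)) (hg : IsOfFinOrder g) :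
    ∃ h : SL(2, ℤ), h * g * h⁻¹ = 1 ∨ h * g * h⁻¹ = -1 ∨ h * g * h⁻¹ = S ∨ h * g * h⁻¹ = -S ∨
      h * g * h⁻¹ = S * T ∨ h * g * h⁻¹ = -(S * T) ∨ h * g * h⁻¹ = (S * T) ^ 2 ∨
      h * g * h⁻¹ = -(S * T) ^ 2 := by
  rcases trace_of_isOfFinOrder g hg with h | h | h
  · exact good_of_eq (Or.inl h)
  · exact good_of_eq (Or.inr (Or.inl h))
  · exact good_of_trace_le _ g h rfl

/-- **TORS**, exact shape of `Spec/PD.lean`. -/
theorem torsionClass : Fermat.Agent.S41.Spec.TorsionClassStatement :=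
  fun g hg => torsion_class_h768 g hg

end Fermat.Agent.S41.H768

end
-- ===== PACK-END S41/H768/Tors.lean

-- ===== PACK-BEGIN S59/H294/ResFlatBN.lean
section








/-!
# Row S59, cell LO, leaf ResFlat — Brauer–Nesbitt for residual representations (helper294)

* `residual_isEquiv_of_charpoly294` : two residual representations over a field `K` (`2 ≠ 0`)
  with the same characteristic polynomials, one of them irreducible with an involution of
  determinant `-1`, are equivalent (Carayol–Serre rigidity `H307.isEquiv_of_trace_eq` over the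
  local ring `K`).
* `datum_residual_isEquiv294` : the residual representation of a Hecke–Galois datum is the base
  change of any irreducible odd `ρ̄` with Frobenius character `θ`
  (this is the field `hres` of `TW.H959.HeckePkg`).
-/

set_option autoImplicit false

open Polynomial IsLocalRing
open scoped TensorProduct

namespace Fermat.Agent.S59.H294

/-- The trace of an endomorphism of a plane is minus the coefficient of `X` of its
characteristic polynomial. -/
theorem trace_eq_neg_coeff_charpoly294 {K : Type*} [Field K] {V : Type*} [AddCommGroup V]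
    [Module K V] [Module.Finite K V] (hV : Module.finrank K V = 2) (T : Module.End K V) :
    LinearMap.trace K V T = - (LinearMap.charpoly T).coeff 1 := by
  classical
  let b : Module.Basis (Fin 2) K V := Module.finBasisOfFinrankEq K V hV
  rw [LinearMap.trace_eq_matrix_trace K b, Matrix.trace_eq_neg_charpoly_coeff,
    LinearMap.charpoly_toMatrix]
  simp

/-- An involution of determinant `-1` of a plane has trace `0`. -/
theorem trace_eq_zero_of_involution294 {K : Type*} [Field K] {V : Type*} [AddCommGroup V]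
    [Module K V] [Module.Finite K V] (hV : Module.finrank K V = 2) (T : Module.End K V)
    (hT : T * T = 1) (hdet : LinearMap.det T = -1) : LinearMap.trace K V T = 0 := by
  classical
  let b : Module.Basis (Fin 2) K V := Module.finBasisOfFinrankEq K V hV
  have hcp : LinearMap.charpoly T = X ^ 2 - C (LinearMap.trace K V T) * X + C (LinearMap.det T) := by
    rw [← LinearMap.charpoly_toMatrix T b, Matrix.charpoly_fin_two,
      ← LinearMap.trace_eq_matrix_trace K b T, LinearMap.det_toMatrix b T]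
  have h := LinearMap.aeval_self_charpoly T
  rw [hcp, hdet] at h
  simp only [map_add, map_sub, map_mul, map_pow, aeval_X, aeval_C, map_neg, map_one] at h
  rw [pow_two, hT] at h
  -- `1 - tr • T - 1 = 0`
  have h1 : algebraMap K (Module.End K V) (LinearMap.trace K V T) * T = 0 := by
    have : (1 : Module.End K V) - algebraMap K (Module.End K V) (LinearMap.trace K V T) * T
        + -1 = 0 := h
    have h' : algebraMap K (Module.End K V) (LinearMap.trace K V T) * T
        = -((1 : Module.End K V) - algebraMap K (Module.End K V) (LinearMap.trace K V T) * T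
          + -1) := by abel
    rw [h', this, neg_zero]
  have h2 := congrArg (fun f => f * T) h1
  simp only [mul_assoc, hT, mul_one, zero_mul] at h2
  -- `algebraMap tr = 0`
  have hinj : Function.Injective (algebraMap K (Module.End K V)) := by
    have : Nontrivial V := Module.nontrivial_of_finrank_pos (R := K) (by rw [hV]; norm_num)
    exact (algebraMap K (Module.End K V)).injective
  exact hinj (by rw [h2, map_zero])

/-- **Brauer–Nesbitt in the odd irreducible case**, for residual representations. -/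
theorem residual_isEquiv_of_charpoly294 {K : Type} [Field K] (h2 : (2 : K) ≠ 0)
    (ρ₁ ρ₂ : ResidualGaloisRep K)
    (hcp : ∀ σ, LinearMap.charpoly (ρ₁.ρ σ) = LinearMap.charpoly (ρ₂.ρ σ))
    (hirr : ρ₁.IsIrreducible) (c : GQ294) (hcc : c * c = 1)
    (hdet : LinearMap.det (ρ₁.ρ c) = -1) :
    ρ₁.IsEquiv ρ₂ := by
  have hu : IsUnit (2 : K) := isUnit_iff_ne_zero.mpr h2
  have htr : ∀ σ, (GaloisRepAdic.ofResidualGaloisRep ρ₁).trace σ
      = (GaloisRepAdic.ofResidualGaloisRep ρ₂).trace σ := by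
    intro σ
    show LinearMap.trace K ρ₁.V (ρ₁.ρ σ) = LinearMap.trace K ρ₂.V (ρ₂.ρ σ)
    rw [trace_eq_neg_coeff_charpoly294 ρ₁.finrank_eq, trace_eq_neg_coeff_charpoly294 ρ₂.finrank_eq,
      hcp σ]
  have hc : (GaloisRepAdic.ofResidualGaloisRep ρ₁).trace c = 0 := by
    show LinearMap.trace K ρ₁.V (ρ₁.ρ c) = 0
    refine trace_eq_zero_of_involution294 ρ₁.finrank_eq (ρ₁.ρ c) ?_ hdet
    rw [← map_mul, hcc, map_one]
  have hirr' : (GaloisRepAdic.ofResidualGaloisRep ρ₁).residual.IsIrreducible := fun L hL =>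
    Fermat.Agent.S58.H273.eq_bot_or_eq_top_of_involution h2 ρ₁.finrank_eq ρ₁.ρ hirr c hcc hdet
      (ResidueField K) L hL
  obtain ⟨e⟩ := Fermat.Agent.S59.H307.isEquiv_of_trace_eq hu
    (GaloisRepAdic.ofResidualGaloisRep ρ₁) (GaloisRepAdic.ofResidualGaloisRep ρ₂) htr c hcc hc
    hirr'
  exact ⟨{ toLinearEquiv := e.toLinearEquiv, map_apply := e.map_apply }⟩

/-- **The residual representation of a Hecke–Galois datum** is the base change of any
irreducible odd `ρ̄` with Frobenius character `θ` (`hRF` is `G4.ResFrobCond ρbar θ` unfolded). -/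
theorem datum_residual_isEquiv294 (hcheb : Fermat.Agent.Lib.Cheb.Spec.ChebotarevStatement)
    {N : ℕ} [NeZero N] {S : Finset ℕ}
    {𝒪 : Type} [CommRing 𝒪] [IsDomain 𝒪] [IsDiscreteValuationRing 𝒪]
    [IsAdicComplete (maximalIdeal 𝒪) 𝒪]
    {θ : CuspForm.heckeAlgebra N 2 (↑S : Set ℕ) →+* ResidueField 𝒪}
    {T : Type} [CommRing T] [IsLocalRing T] [IsNoetherianRing T]
    [IsAdicComplete (maximalIdeal T) T] [Algebra 𝒪 T] [IsLocalHom (algebraMap 𝒪 T)]
    [Module.Finite 𝒪 T] [Module.Free 𝒪 T]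
    (H : CuspForm.HeckeGaloisRepDatum N (↑S : Set ℕ) 𝒪 θ T)
    (h2 : (2 : ResidueField 𝒪) ≠ 0)
    (ρbar : ResidualGaloisRep (ResidueField 𝒪))
    (hRF : ∀ (ℓ : ℕ) (hℓ : ℓ.Prime) (hℓN : ¬ ℓ ∣ N) (hℓS : ℓ ∉ (↑S : Set ℕ)),
      ∀ B : ValuationSubring (AlgebraicClosure ℚ), B.LiesOverPrime ℓ →
        ∀ σ : GQ294, B.IsFrobeniusAt σ ℓ →
          LinearMap.charpoly (ρbar.ρ σ) =
            X ^ 2 - C (θ (CuspForm.heckeAlgebra.T hℓ hℓN hℓS)) * X + C ((ℓ : ResidueField 𝒪)))
    (hirr : ρbar.IsIrreducible) (c : GQ294) (hcc : c * c = 1)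
    (hdet : LinearMap.det (ρbar.ρ c) = -1) :
    H.ρ.residual.IsEquiv (ρbar.baseChangeAlong (ResidueField.map (algebraMap 𝒪 T))) := by
  classical
  set φ : ResidueField 𝒪 →+* ResidueField T := ResidueField.map (algebraMap 𝒪 T) with hφ
  letI : Algebra (ResidueField 𝒪) (ResidueField T) := φ.toAlgebra
  have h2K : (2 : ResidueField T) ≠ 0 := by
    intro h
    apply h2
    apply φ.injective
    rw [map_ofNat, h, map_zero]
  have hirr₁ : (ρbar.baseChange (ResidueField T)).IsIrreducible := fun L hL =>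
    Fermat.Agent.S58.H273.eq_bot_or_eq_top_of_involution h2 ρbar.finrank_eq ρbar.ρ hirr c hcc hdet
      (ResidueField T) L hL
  have hdet₁ : LinearMap.det ((ρbar.baseChange (ResidueField T)).ρ c) = -1 := by
    have h1 : (ρbar.baseChange (ResidueField T)).ρ c = (ρbar.ρ c).baseChange (ResidueField T) :=
      rfl
    rw [h1, LinearMap.det_baseChange, hdet, map_neg, map_one]
  -- the finite set of bad primes
  have hN : N ≠ 0 := NeZero.ne N
  have hfrob : ∀ ℓ : ℕ, ℓ.Prime → ℓ ∉ S ∪ N.primeFactors →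
      ∀ B : ValuationSubring (AlgebraicClosure ℚ), B.LiesOverPrime ℓ →
        ∀ σ : GQ294, B.IsFrobeniusAt σ ℓ →
          LinearMap.charpoly ((ρbar.baseChange (ResidueField T)).ρ σ)
            = (LinearMap.charpoly (H.ρ.residual.ρ σ)).map (RingHom.id (ResidueField T)) := by
    intro ℓ hℓ hℓS' B hB σ hσ
    rw [Finset.mem_union, not_or] at hℓS'
    have hℓS : ℓ ∉ (↑S : Set ℕ) := fun h => hℓS'.1 (Finset.mem_coe.mp h)
    have hℓN : ¬ ℓ ∣ N := fun h => hℓS'.2 (Nat.mem_primeFactors.mpr ⟨hℓ, h, hN⟩)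
    have e1 : LinearMap.charpoly ((ρbar.baseChange (ResidueField T)).ρ σ)
        = LinearMap.charpoly ((ρbar.ρ σ).baseChange (ResidueField T)) := rfl
    have e2 : LinearMap.charpoly (H.ρ.residual.ρ σ)
        = LinearMap.charpoly ((H.ρ.ρ σ).baseChange (ResidueField T)) := rfl
    rw [Polynomial.map_id, e1, e2, LinearMap.charpoly_baseChange, LinearMap.charpoly_baseChange,
      hRF ℓ hℓ hℓN hℓS B hB σ hσ, H.charpoly_frob ℓ hℓ hℓN hℓS B hB σ hσ,
      IsLocalRing.ResidueField.algebraMap_eq]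
    have hπ := H.residue_π (CuspForm.heckeAlgebra.T hℓ hℓN hℓS)
    have halg : algebraMap (ResidueField 𝒪) (ResidueField T) = φ := rfl
    simp only [Polynomial.map_add, Polynomial.map_sub, Polynomial.map_mul, Polynomial.map_pow,
      Polynomial.map_X, Polynomial.map_C, map_natCast, Polynomial.map_natCast]
    rw [hπ, halg]
  have hcp : ∀ σ, LinearMap.charpoly ((ρbar.baseChange (ResidueField T)).ρ σ)
      = LinearMap.charpoly (H.ρ.residual.ρ σ) := by
    intro σ
    have h := charpoly_eq_of_frob294 hcheb (RingHom.id (ResidueField T)) H.ρ.residual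
      (ρbar.baseChange (ResidueField T)) (S ∪ N.primeFactors) hfrob σ
    rwa [Polynomial.map_id] at h
  obtain ⟨e⟩ := residual_isEquiv_of_charpoly294 h2K (ρbar.baseChange (ResidueField T))
    H.ρ.residual hcp hirr₁ c hcc hdet₁
  exact ⟨e.symm⟩

end Fermat.Agent.S59.H294

end
-- ===== PACK-END S59/H294/ResFlatBN.lean

-- ===== PACK-BEGIN S59/H314/TwPt.lean
section


/-!
# S59, cell TW: the hypotheses (T) and (R) of TW-ALG from POINTWISE statements  (helper314)

Mathlib only.  `T` a Noetherian ring, `V` a `T`-module with an `𝒪`-basis of the form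
`dia (g^e) b_i` (hypotheses `hX`, `hb` of `TW.AlgStatement`), `w ∈ T` of finite `p`-power order.
An **eigenvector** is a nonzero `y ∈ V` whose annihilator in `T` is a prime ideal.

* `twNil_of_pt` : if `w` fixes every eigenvector of a finite `T`-module `N`, then `(w - 1)^k N = 0`
  for some `k` (minimal primes of the annihilator are associated primes).
* `twT_of_pt` : if `w` fixes every eigenvector fixed by `dia g_j`, then
  `(w - 1) V ⊆ (dia g_j - 1) V`  — hypothesis (T) of `twCmp_core`.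
* `twR_of_ptCore` : if `w` fixes no eigenvector killed by `Φ`, then `w y = y`, `Φ y = 0` imply
  `y = 0`  — hypothesis (R) of `twCmp_core`.
* `twCmp_of_pt` : both together give the range equality `(w - 1) V = (dia g_j - 1) V`.
-/

set_option autoImplicit false

namespace Fermat.Agent.S59.H314

open Polynomial Finset

section Nil

variable {T : Type*} [CommRing T] [IsNoetherianRing T] {N : Type*} [AddCommGroup N] [Module T N]

/-- If `x` kills every eigenvector of `N`, then some power of `x` kills `N`. -/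
theorem twNil_of_pt [Module.Finite T N] (x : T)
    (hpt : ∀ y : N, y ≠ 0 → (∀ s t : T, (s * t) • y = 0 → s • y = 0 ∨ t • y = 0) → x • y = 0) :
    ∃ k : ℕ, ∀ y : N, x ^ k • y = 0 := by
  have hrad : x ∈ (Module.annihilator T N).radical := by
    rw [← Ideal.sInf_minimalPrimes, Ideal.mem_sInf]
    intro 𝔮 h𝔮
    have hass := Module.associatedPrimes.minimalPrimes_annihilator_subset_associatedPrimes T N h𝔮
    have hass' : IsAssociatedPrime 𝔮 N := hass
    rw [isAssociatedPrime_iff] at hass'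
    obtain ⟨hprime, v, hv⟩ := hass'
    have hmem : ∀ s : T, s ∈ 𝔮 ↔ s • v = 0 := by
      intro s
      rw [hv, Submodule.mem_colon_singleton, Submodule.mem_bot]
    have hv0 : v ≠ 0 := by
      intro h
      apply hprime.ne_top
      rw [Ideal.eq_top_iff_one, hmem, h, smul_zero]
    rw [hmem]
    apply hpt v hv0
    intro s t hst
    rw [← hmem] at hst ⊢
    rw [← hmem]
    exact hprime.mem_or_mem hst
  obtain ⟨k, hk⟩ := hrad
  exact ⟨k, fun y => Module.mem_annihilator.mp hk y⟩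

/-- If `w` fixes no eigenvector killed by `Φ`, then `w y = y` and `Φ y = 0` imply `y = 0`. -/
theorem twR_of_ptCore (Φ : Module.End T N) (w : T)
    (hpt : ∀ y : N, y ≠ 0 → (∀ s t : T, (s * t) • y = 0 → s • y = 0 ∨ t • y = 0) →
      Φ y = 0 → w • y ≠ y) :
    ∀ y : N, w • y = y → Φ y = 0 → y = 0 := by
  classical
  intro y hwy hΦy
  by_contra hy0
  obtain ⟨K, hK⟩ : ∃ K : Submodule T N, ∀ z, z ∈ K ↔ w • z = z ∧ Φ z = 0 := by
    refine ⟨LinearMap.ker (LinearMap.lsmul T N (w - 1)) ⊓ LinearMap.ker Φ, fun z => ?_⟩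
    rw [Submodule.mem_inf, LinearMap.mem_ker, LinearMap.mem_ker, LinearMap.lsmul_apply, sub_smul,
      one_smul, sub_eq_zero]
  have hyK : y ∈ K := (hK y).mpr ⟨hwy, hΦy⟩
  have hx : (⟨y, hyK⟩ : K) ≠ 0 := fun h => hy0 (congrArg Subtype.val h)
  obtain ⟨I, hI, -⟩ := exists_le_isAssociatedPrime_of_isNoetherianRing T (⟨y, hyK⟩ : K) hx
  rw [isAssociatedPrime_iff] at hI
  obtain ⟨hprime, v, hv⟩ := hI
  have hmem : ∀ s : T, s ∈ I ↔ s • (v : N) = 0 := by
    intro s
    rw [hv, Submodule.mem_colon_singleton, Submodule.mem_bot]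
    constructor
    · intro h
      have := congrArg Subtype.val h
      simpa using this
    · intro h
      apply Subtype.ext
      simpa using h
  have hv0 : (v : N) ≠ 0 := by
    intro h
    apply hprime.ne_top
    rw [Ideal.eq_top_iff_one, hmem, h, smul_zero]
  have hvK := (hK v).mp v.2
  refine hpt (v : N) hv0 ?_ hvK.2 hvK.1
  intro s t hst
  rw [← hmem] at hst ⊢
  rw [← hmem]
  exact hprime.mem_or_mem hst

end Nil

section Pt

/-- **(T) from the pointwise statement** (Mathlib only; hypotheses `hX`, `hb` of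
`TW.AlgStatement`). -/
theorem twT_of_pt (p : ℕ) (hp : p.Prime) (𝒪 : Type*) [CommRing 𝒪]
    (hpnzd : ∀ c : 𝒪, (p : 𝒪) * c = 0 → c = 0)
    (T : Type*) [CommRing T] [IsNoetherianRing T] [Algebra 𝒪 T]
    (V : Type*) [AddCommGroup V] [Module T V]
    (r : ℕ) (G : Fin r → Type*) [∀ j, CommGroup (G j)] (m : Fin r → ℕ)
    (dia : (∀ j : Fin r, G j) →* Module.End T V) (g : ∀ j : Fin r, G j)
    (hX : ∀ j, dia (Pi.mulSingle j (g j)) ^ (p ^ m j) = 1)
    (d : ℕ) (b : Fin d → V)
    (hb : ∀ y : V, ∃! c : Fin d → (∀ j : Fin r, Fin (p ^ m j)) → 𝒪,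
      y = ∑ i, ∑ e, algebraMap 𝒪 T (c i e) • dia (fun j => g j ^ (e j : ℕ)) (b i))
    (j : Fin r) (w : T) (a : ℕ) (hw : w ^ (p ^ a) = 1)
    (hpt : ∀ y : V, y ≠ 0 → (∀ s t : T, (s * t) • y = 0 → s • y = 0 ∨ t • y = 0) →
      dia (Pi.mulSingle j (g j)) y = y → w • y = y) :
    ∀ y : V, ∃ y' : V, w • y - y = dia (Pi.mulSingle j (g j)) y' - y' := by
  classical
  let _inst : Module 𝒪 V := Module.compHom V (algebraMap 𝒪 T)
  have _tower : IsScalarTower 𝒪 T V := ⟨fun c t v => by
    show (c • t) • v = algebraMap 𝒪 T c • (t • v)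
    rw [Algebra.smul_def, mul_smul]⟩
  rcases subsingleton_or_nontrivial 𝒪 with h𝒪 | h𝒪
  · intro y
    have : Subsingleton V := Module.subsingleton 𝒪 V
    exact ⟨0, Subsingleton.elim _ _⟩
  obtain ⟨e, B, hB⟩ := twCmp_basis (𝒪 := 𝒪) p r G m dia g d b hb j
  have hfin𝒪 : Module.Finite 𝒪 V := Module.Finite.of_basis B
  have hfinT : Module.Finite T V := Module.Finite.of_restrictScalars_finite 𝒪 T V
  have hnoeth : IsNoetherian T V := isNoetherian_of_isNoetherianRing_of_finite T V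
  obtain ⟨δT, hδT⟩ : ∃ δT : Module.End T V, δT = dia (Pi.mulSingle j (g j)) := ⟨_, rfl⟩
  rw [← hδT] at hpt hB ⊢
  have hXj : δT ^ (p ^ m j) = 1 := by rw [hδT]; exact hX j
  obtain ⟨δ, hδ⟩ : ∃ δ : Module.End 𝒪 V, ∀ y, δ y = δT y := ⟨δT.restrictScalars 𝒪, fun _ => rfl⟩
  have hδpow : ∀ (k : ℕ) (y : V), (δ ^ k) y = (δT ^ k) y := by
    intro k
    induction k with
    | zero => intro y; simp
    | succ k ih =>
      intro y
      rw [pow_succ, pow_succ, Module.End.mul_apply, Module.End.mul_apply, hδ, ih]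
  have hδ1 : δ ^ (p ^ m j) = 1 := by
    ext y
    rw [hδpow, hXj]
    rfl
  have hB' : ∀ z, B z = (δ ^ (z.1 : ℕ)) (e z.2) := by
    intro z
    rw [hB, hδpow]
  have hq : 0 < p ^ m j := pow_pos hp.pos _
  have hF : (∑ i ∈ range (p ^ m j), (X : 𝒪[X]) ^ i).Monic := monic_geom_sum_X hq.ne'
  have hFG : (∑ i ∈ range (p ^ m j), (X : 𝒪[X]) ^ i) * (X - 1) = X ^ (p ^ m j) - 1 :=
    geom_sum_mul X _
  -- the fixed submodule
  obtain ⟨K, hK⟩ : ∃ K : Submodule T V, ∀ z, z ∈ K ↔ δT z = z := by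
    refine ⟨LinearMap.ker (δT - 1), fun z => ?_⟩
    rw [LinearMap.mem_ker, LinearMap.sub_apply, Module.End.one_apply, sub_eq_zero]
  have hKfin : Module.Finite T K := Module.IsNoetherian.finite T K
  obtain ⟨k, hk⟩ := twNil_of_pt (T := T) (N := K) (w - 1) (by
    intro y hy hprime
    have hy' : (y : V) ≠ 0 := fun h => hy (Subtype.ext h)
    have h1 := hpt (y : V) hy' (by
      intro s t hst
      have h2 : (s * t) • y = 0 := Subtype.ext (by simpa using hst)
      rcases hprime s t h2 with h3 | h3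
      · left
        have := congrArg Subtype.val h3
        simpa using this
      · right
        have := congrArg Subtype.val h3
        simpa using this) ((hK y).mp y.2)
    apply Subtype.ext
    rw [Submodule.coe_smul, sub_smul, one_smul, h1, sub_self]
    rfl)
  -- the norm
  obtain ⟨ν, hν⟩ : ∃ ν : Module.End T V, ν = ∑ i ∈ range (p ^ m j), δT ^ i := ⟨_, rfl⟩
  have hνK : ∀ y : V, ν y ∈ K := by
    intro y
    rw [hK]
    have h1 : δT * ν = ν + (δT ^ (p ^ m j) - 1) := by
      rw [hν]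
      have h2 := mul_geom_sum δT (p ^ m j)
      have h3 : (δT - 1) * ∑ i ∈ range (p ^ m j), δT ^ i = δT ^ (p ^ m j) - 1 := h2
      rw [sub_mul, one_mul] at h3
      rw [← h3]
      abel
    have h4 := congrArg (fun f : Module.End T V => f y) h1
    simp only [Module.End.mul_apply, hXj, sub_self, add_zero] at h4
    exact h4
  have hνδ : ∀ y : V, ν y = aeval δ (∑ i ∈ range (p ^ m j), (X : 𝒪[X]) ^ i) y := by
    intro y
    rw [hν, map_sum, LinearMap.sum_apply, LinearMap.sum_apply]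
    apply Finset.sum_congr rfl
    intro i _
    rw [map_pow, aeval_X, hδpow]
  have hkey : ∀ y : V, ∃ y' : V, (w - 1) ^ k • y = δT y' - y' := by
    intro y
    have h1 : ν ((w - 1) ^ k • y) = 0 := by
      rw [map_smul]
      have := hk ⟨ν y, hνK y⟩
      have h2 := congrArg Subtype.val this
      simpa using h2
    rw [hνδ] at h1
    obtain ⟨y', hy'⟩ := twBasis_ker_range (p ^ m j) hq δ e B hB' hδ1 _ _ hF hFG _ h1
    refine ⟨y', ?_⟩
    rw [hy']
    simp [hδ]
  rw [hδT] at hkey ⊢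
  exact twT_core p hp 𝒪 hpnzd T V r G m dia g hX d b hb j w a hw k hkey

/-- **TW-ALG from the pointwise statements** (Mathlib only): (T) and (R) on eigenvectors give the
range equality `(w - 1) V = (dia g_j - 1) V`. -/
theorem twCmp_of_pt (p : ℕ) (hp : p.Prime) (hp2 : p ≠ 2) (𝒪 : Type*) [CommRing 𝒪]
    (hpJ : (p : 𝒪) ∈ Ideal.jacobson (⊥ : Ideal 𝒪)) (hpnzd : ∀ c : 𝒪, (p : 𝒪) * c = 0 → c = 0)
    (T : Type*) [CommRing T] [IsNoetherianRing T] [Algebra 𝒪 T]
    (V : Type*) [AddCommGroup V] [Module T V]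
    (r : ℕ) (G : Fin r → Type*) [∀ j, CommGroup (G j)] (m : Fin r → ℕ)
    (dia : (∀ j : Fin r, G j) →* Module.End T V) (g : ∀ j : Fin r, G j)
    (hX : ∀ j, dia (Pi.mulSingle j (g j)) ^ (p ^ m j) = 1)
    (d : ℕ) (b : Fin d → V)
    (hb : ∀ y : V, ∃! c : Fin d → (∀ j : Fin r, Fin (p ^ m j)) → 𝒪,
      y = ∑ i, ∑ e, algebraMap 𝒪 T (c i e) • dia (fun j => g j ^ (e j : ℕ)) (b i))
    (j : Fin r) (w : T) (a : ℕ) (hw : w ^ (p ^ a) = 1)
    (hTpt : ∀ y : V, y ≠ 0 → (∀ s t : T, (s * t) • y = 0 → s • y = 0 ∨ t • y = 0) →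
      dia (Pi.mulSingle j (g j)) y = y → w • y = y)
    (hRpt : ∀ y : V, y ≠ 0 → (∀ s t : T, (s * t) • y = 0 → s • y = 0 ∨ t • y = 0) →
      (∑ k ∈ Finset.range p, dia (Pi.mulSingle j (g j)) ^ k) y = 0 → w • y ≠ y) :
    ∀ y : V, (∃ y' : V, y = w • y' - y') ↔ ∃ y' : V, y = dia (Pi.mulSingle j (g j)) y' - y' := by
  classical
  let _inst : Module 𝒪 V := Module.compHom V (algebraMap 𝒪 T)
  have _tower : IsScalarTower 𝒪 T V := ⟨fun c t v => by
    show (c • t) • v = algebraMap 𝒪 T c • (t • v)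
    rw [Algebra.smul_def, mul_smul]⟩
  have hT := twT_of_pt p hp 𝒪 hpnzd T V r G m dia g hX d b hb j w a hw hTpt
  rcases subsingleton_or_nontrivial 𝒪 with h𝒪 | h𝒪
  · intro y
    have : Subsingleton V := Module.subsingleton 𝒪 V
    exact ⟨fun _ => ⟨0, Subsingleton.elim _ _⟩, fun _ => ⟨0, Subsingleton.elim _ _⟩⟩
  have hR := twR_of_ptCore (T := T) (N := V)
    (∑ k ∈ Finset.range p, dia (Pi.mulSingle j (g j)) ^ k) w hRpt
  exact twCmp_core p hp hp2 𝒪 hpJ hpnzd T V r G m dia g hX d b hb j w a hw hT hR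

end Pt

end Fermat.Agent.S59.H314

end
-- ===== PACK-END S59/H314/TwPt.lean

-- ===== PACK-BEGIN S41/H45/Root.lean
section



/-!
# S41, block NE, leaf ROOT (helper45)

A Frobenius element at a place over `ℓ ∤ M` acts on the `M`-th roots of unity of `ℚ̄` by
`t ↦ t ^ ℓ`:  `frobRoot_h45 : Spec.FrobRootStatement`.
-/

set_option autoImplicit false

namespace Fermat.Agent.S41.H45

open Fermat.Agent.S55.Bridge Fermat.Agent.S29.H872

/-- A natural number prime to `ℓ` is a unit at a place over `ℓ`. -/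
theorem val_natCast_eq_one_h45 {A : ValuationSubring (AlgebraicClosure ℚ)} {ℓ M : ℕ}
    (hA : A.LiesOverPrime ℓ) (hℓ : ℓ.Prime) (hM : ¬ ℓ ∣ M) :
    A.valuation (M : AlgebraicClosure ℚ) = 1 := by
  have hq' : A.valuation (ℓ : AlgebraicClosure ℚ) < 1 := (A.mem_nonunits_iff).mp hA
  have hcop : IsCoprime (ℓ : ℤ) (M : ℤ) := by
    rw [Int.isCoprime_iff_gcd_eq_one, Int.gcd_natCast_natCast]
    exact (Nat.Prime.coprime_iff_not_dvd hℓ).2 hM
  obtain ⟨u, w, huw⟩ := hcop
  have h1 : (u : AlgebraicClosure ℚ) * (ℓ : AlgebraicClosure ℚ)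
      + (w : AlgebraicClosure ℚ) * (M : AlgebraicClosure ℚ) = 1 := by
    exact_mod_cast congrArg (Int.cast : ℤ → AlgebraicClosure ℚ) huw
  have hsmall : A.valuation ((u : AlgebraicClosure ℚ) * (ℓ : AlgebraicClosure ℚ)) < 1 := by
    rw [map_mul]
    exact (mul_le_of_le_one_left' (val_intCast_le_one u)).trans_lt hq'
  have hwn : A.valuation ((w : AlgebraicClosure ℚ) * (M : AlgebraicClosure ℚ)) = 1 := by
    have : (w : AlgebraicClosure ℚ) * (M : AlgebraicClosure ℚ)
        = 1 + -((u : AlgebraicClosure ℚ) * (ℓ : AlgebraicClosure ℚ)) := by linear_combination h1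
    rw [this, (A.valuation).map_add_eq_of_lt_left
      (by rw [Valuation.map_neg, map_one]; exact hsmall), map_one]
  rw [map_mul] at hwn
  have hp1 : A.valuation (M : AlgebraicClosure ℚ) ≤ 1 := by
    have := val_intCast_le_one (A := A) (M : ℤ)
    simpa using this
  refine le_antisymm hp1 ?_
  calc (1 : A.ValueGroup)
      = A.valuation (w : AlgebraicClosure ℚ) * A.valuation (M : AlgebraicClosure ℚ) := hwn.symm
    _ ≤ 1 * A.valuation (M : AlgebraicClosure ℚ) := mul_le_mul_left (val_intCast_le_one w) _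
    _ = A.valuation (M : AlgebraicClosure ℚ) := one_mul _

/-- **Leaf ROOT.** -/
theorem frobRoot_h45 : Spec.FrobRootStatement := by
  intro M ℓ hM hℓ hℓM A τ hA hτ t ht
  by_contra hne
  have hpv := val_natCast_eq_one_h45 hA hℓ hℓM
  have hM0 : M ≠ 0 := hM.ne'
  have hσt : (τ t) ^ M = 1 := by rw [← map_pow, ht, map_one]
  have htl : (t ^ ℓ) ^ M = 1 := by rw [← pow_mul, mul_comm, pow_mul, ht, one_pow]
  have h1 := val_sub_roots_eq_one (A := A) hM0 hpv hσt htl hne
  have hvt : A.valuation t ≤ 1 := by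
    have h : (A.valuation t) ^ M = 1 := by rw [← map_pow, ht, map_one]
    exact ((pow_eq_one_iff.1 h).resolve_right hM0).le
  have h2 := frob_val_sub_lt_one A hτ t hvt
  rw [h1] at h2
  exact lt_irrefl _ h2

end Fermat.Agent.S41.H45

end
-- ===== PACK-END S41/H45/Root.lean

-- ===== PACK-BEGIN S59/TW/H658/PerG.lean
section


/-!
# S59 / TW-ES (helper658): periods of weight-2 cusp forms on a finite-index subgroup `Γ ≤ SL(2,ℤ)`

* `IsPrimG f F` : `F` is a holomorphic primitive of `f` on `ℍ`;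
* `perG f : Additive Γ →+ ℂ` : the period homomorphism `γ ↦ F(γ z) - F(z)`;
* `perGL` : `perG` as a `ℂ`-linear map; `perG_parabolic` : `perG f` kills parabolic elements;
* `exists_cusp_limitG` : a primitive has a limit at every cusp.

Port of `S21/H381` (level `Γ₀(N)`) to a general finite-index `Γ`, reusing its generic lemmas.
-/

set_option autoImplicit false
set_option linter.unusedSectionVars false

noncomputable section

namespace Fermat.Agent.S59.TW.H658

open CongruenceSubgroup ModularCurve ModularCurve.Period Filter Topology Function Complex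
open UpperHalfPlane hiding I
open Matrix.SpecialLinearGroup
open scoped Manifold MatrixGroups ModularForm

/-- `F` is a primitive of `f` on the upper half plane. -/
def IsPrimG (f F : ℍ → ℂ) : Prop := ∀ τ : ℍ, HasDerivAt (F ∘ ofComplex) (f τ) ↑τ

theorem IsPrimG.add {f g F G : ℍ → ℂ} (hF : IsPrimG f F) (hG : IsPrimG g G) :
    IsPrimG (f + g) (F + G) := fun τ ↦ (hF τ).add (hG τ)

theorem IsPrimG.smul {f F : ℍ → ℂ} (a : ℂ) (hF : IsPrimG f F) : IsPrimG (a • f) (a • F) :=
  fun τ ↦ (hF τ).const_smul a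

theorem IsPrimG.sub_const {f F G : ℍ → ℂ} (hF : IsPrimG f F) (hG : IsPrimG f G) (z w : ℍ) :
    F z - G z = F w - G w :=
  Fermat.Agent.S21.H381.sub_const_of_hasDerivAt hF hG z w

theorem IsPrimG.comp_smul {f F : ℍ → ℂ} (hF : IsPrimG f F) (γ : SL(2, ℤ)) :
    IsPrimG (f ∣[(2 : ℤ)] γ) (fun w : ℍ ↦ F (γ • w)) := fun τ ↦
  Fermat.Agent.S21.H381.hasDerivAt_comp_smul hF γ τ

variable {Γ : Subgroup SL(2, ℤ)} [Γ.FiniteIndex]

/-- `f ∣[2] δ` is holomorphic. -/
theorem mdiff_slashG (f : CuspForm Γ 2) (δ : SL(2, ℤ)) :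
    MDiff ((f : ℍ → ℂ) ∣[(2 : ℤ)] δ) := by
  rw [← CuspForm.coe_translate f δ]
  exact CuspFormClass.holo _

theorem isZeroAtImInfty_slashG (f : CuspForm Γ 2) (δ : SL(2, ℤ)) :
    IsZeroAtImInfty ((f : ℍ → ℂ) ∣[(2 : ℤ)] δ) :=
  CuspFormClass.zero_at_infty_slash f δ

/-- There is a common positive integer period for all `f ∣[2] δ`. -/
theorem exists_period_slashG (f : CuspForm Γ 2) :
    ∃ h : ℕ, 0 < h ∧
      ∀ δ : SL(2, ℤ), Periodic (((f : ℍ → ℂ) ∣[(2 : ℤ)] δ) ∘ ofComplex) (h : ℝ) := by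
  obtain ⟨h, hh, hper⟩ := Subgroup.IsArithmetic.exists_nat_mem_strictPeriods_conj
    ((Γ : Subgroup SL(2, ℤ)) : Subgroup (GL (Fin 2) ℝ))
  refine ⟨h, hh, fun δ ↦ ?_⟩
  have h1 := hper δ⁻¹
  rw [map_inv] at h1
  have h2 := SlashInvariantFormClass.periodic_comp_ofComplex
    (CuspForm.translate f (δ : GL (Fin 2) ℝ)) h1
  rw [CuspForm.coe_translate f δ] at h2
  exact_mod_cast h2

/-- Every slash translate of a weight-2 cusp form has a primitive tending to `0` at `i∞`. -/
theorem exists_prim_slashG (f : CuspForm Γ 2) (δ : SL(2, ℤ)) :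
    ∃ G : ℍ → ℂ, IsPrimG ((f : ℍ → ℂ) ∣[(2 : ℤ)] δ) G ∧ Tendsto G atImInfty (𝓝 0) := by
  obtain ⟨h, hh, hper⟩ := exists_period_slashG f
  exact Fermat.Agent.S21.H381.exists_primitive_tendsto_zero (Nat.cast_pos.mpr hh) (hper δ)
    (mdiff_slashG f δ) (isZeroAtImInfty_slashG f δ)

theorem exists_isPrimG (f : CuspForm Γ 2) : ∃ F : ℍ → ℂ, IsPrimG (⇑f) F := by
  obtain ⟨G, hG, -⟩ := exists_prim_slashG f 1
  rw [SlashAction.slash_one] at hG
  exact ⟨G, hG⟩

/-- A primitive of a cusp form has a limit at every cusp. -/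
theorem exists_cusp_limitG (f : CuspForm Γ 2) {F : ℍ → ℂ} (hF : IsPrimG (⇑f) F)
    (δ : SL(2, ℤ)) : ∃ L : ℂ, Tendsto (fun w : ℍ ↦ F (δ • w)) atImInfty (𝓝 L) := by
  obtain ⟨G, hGd, hG0⟩ := exists_prim_slashG f δ
  have hδ := hF.comp_smul δ
  set c : ℂ := F (δ • UpperHalfPlane.I) - G UpperHalfPlane.I with hc
  refine ⟨c, ?_⟩
  have hEq : (fun w : ℍ ↦ F (δ • w)) = fun w ↦ G w + c := by
    funext w
    have := hδ.sub_const hGd w UpperHalfPlane.I
    rw [hc, ← this]
    ring
  rw [hEq]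
  simpa using hG0.add_const c

omit [Γ.FiniteIndex] in
theorem slash_eq_self_of_memG (f : CuspForm Γ 2) (γ : Γ) :
    ((f : ℍ → ℂ) ∣[(2 : ℤ)] (γ : SL(2, ℤ))) = f := by
  have hmem : ((γ : SL(2, ℤ)) : GL (Fin 2) ℝ) ∈
      ((Γ : Subgroup SL(2, ℤ)) : Subgroup (GL (Fin 2) ℝ)) :=
    Subgroup.mem_map_of_mem _ γ.2
  exact SlashInvariantForm.slash_action_eqn f _ hmem

omit [Γ.FiniteIndex] in
/-- A primitive of a cusp form on `Γ` is equivariant. -/
theorem IsPrimG.isEquivariant (f : CuspForm Γ 2) {F : ℍ → ℂ} (hF : IsPrimG (⇑f) F) :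
    IsEquivariantPrimitive Γ F := by
  intro γ
  refine ⟨F ((γ : SL(2, ℤ)) • UpperHalfPlane.I) - F UpperHalfPlane.I, fun z ↦ ?_⟩
  have hγ : IsPrimG (⇑f) (fun w : ℍ ↦ F ((γ : SL(2, ℤ)) • w)) := by
    have := hF.comp_smul (γ : SL(2, ℤ))
    rwa [slash_eq_self_of_memG f γ] at this
  exact hγ.sub_const hF z UpperHalfPlane.I

/-- The period homomorphism of a weight-2 cusp form on `Γ`. -/
def perG (f : CuspForm Γ 2) : Additive Γ →+ ℂ :=
  ((exists_isPrimG f).choose_spec.isEquivariant f).periodHom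

theorem perG_apply (f : CuspForm Γ 2) {F : ℍ → ℂ} (hF : IsPrimG (⇑f) F)
    (γ : Γ) (z : ℍ) :
    perG f (Additive.ofMul γ) = F ((γ : SL(2, ℤ)) • z) - F z := by
  set F₀ := (exists_isPrimG f).choose with hF₀def
  have hF₀ : IsPrimG (⇑f) F₀ := (exists_isPrimG f).choose_spec
  have h1 : perG f (Additive.ofMul γ) = F₀ ((γ : SL(2, ℤ)) • z) - F₀ z := by
    show (hF₀.isEquivariant f).periodHom (Additive.ofMul γ) = _
    rw [IsEquivariantPrimitive.periodHom_apply, ← (hF₀.isEquivariant f).sub_eq_period γ z]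
  rw [h1]
  have h2 := hF₀.sub_const hF ((γ : SL(2, ℤ)) • z) z
  linear_combination h2

theorem perG_add (f g : CuspForm Γ 2) : perG (f + g) = perG f + perG g := by
  obtain ⟨F, hF⟩ := exists_isPrimG f
  obtain ⟨G, hG⟩ := exists_isPrimG g
  refine AddMonoidHom.ext fun γ ↦ ?_
  obtain ⟨γ, rfl⟩ : ∃ γ' : Γ, Additive.ofMul γ' = γ := ⟨Additive.toMul γ, rfl⟩
  have hFG : IsPrimG (⇑(f + g)) (F + G) := by
    rw [FunLike.coe_add]
    exact hF.add hG
  rw [AddMonoidHom.add_apply, perG_apply (f + g) hFG γ UpperHalfPlane.I,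
    perG_apply f hF γ UpperHalfPlane.I, perG_apply g hG γ UpperHalfPlane.I]
  simp only [Pi.add_apply]
  ring

theorem perG_smul (a : ℂ) (f : CuspForm Γ 2) : perG (a • f) = a • perG f := by
  obtain ⟨F, hF⟩ := exists_isPrimG f
  refine AddMonoidHom.ext fun γ ↦ ?_
  obtain ⟨γ, rfl⟩ : ∃ γ' : Γ, Additive.ofMul γ' = γ := ⟨Additive.toMul γ, rfl⟩
  have hFa : IsPrimG (⇑(a • f)) (a • F) := by
    rw [FunLike.coe_smul]
    exact hF.smul a
  rw [AddMonoidHom.smul_apply, perG_apply (a • f) hFa γ UpperHalfPlane.I,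
    perG_apply f hF γ UpperHalfPlane.I]
  simp only [Pi.smul_apply, smul_eq_mul]
  ring

/-- The period map as a linear map. -/
def perGL (Γ : Subgroup SL(2, ℤ)) [Γ.FiniteIndex] :
    CuspForm Γ 2 →ₗ[ℂ] (Additive Γ →+ ℂ) where
  toFun := perG
  map_add' := perG_add
  map_smul' := perG_smul

@[simp] theorem perGL_apply (f : CuspForm Γ 2) : perGL Γ f = perG f := rfl

/-- Periods of cusp forms are parabolic homomorphisms. -/
theorem perG_parabolic (f : CuspForm Γ 2) : IsParabolicHom Γ (perG f) := by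
  intro γ hγ
  obtain ⟨F, hF⟩ := exists_isPrimG f
  obtain ⟨δ, n, hδ⟩ := Fermat.Agent.S21.H381.exists_conj_T_zpow (γ : SL(2, ℤ)) hγ
  obtain ⟨L, hL⟩ := exists_cusp_limitG f hF δ
  have hconst : ∀ w : ℍ, perG f (Additive.ofMul γ)
      = F (δ • (ModularGroup.T ^ n • w)) - F (δ • w) := by
    intro w
    rw [perG_apply f hF γ (δ • w), hδ w]
  have h1 : Tendsto (fun w : ℍ ↦ F (δ • (ModularGroup.T ^ n • w)) - F (δ • w)) atImInfty
      (𝓝 (L - L)) :=
    (hL.comp (Fermat.Agent.S21.H381.tendsto_T_zpow_smul_atImInfty n)).sub hL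
  have h2 : Tendsto (fun w : ℍ ↦ F (δ • (ModularGroup.T ^ n • w)) - F (δ • w)) atImInfty
      (𝓝 (perG f (Additive.ofMul γ))) := by
    have : (fun w : ℍ ↦ F (δ • (ModularGroup.T ^ n • w)) - F (δ • w))
        = fun _ ↦ perG f (Additive.ofMul γ) := funext fun w ↦ (hconst w).symm
    rw [this]
    exact tendsto_const_nhds
  have := tendsto_nhds_unique h2 h1
  rw [sub_self] at this
  exact this

theorem perG_mem_parabolicHoms (f : CuspForm Γ 2) : perG f ∈ parabolicHoms ℂ Γ ℂ :=
  perG_parabolic f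

end Fermat.Agent.S59.TW.H658

end
end
-- ===== PACK-END S59/TW/H658/PerG.lean

-- ===== PACK-BEGIN S59/TW/H658/IntA.lean
section



/-!
# S21 — INT-A: the `Γ₀(L)`-partition of unity `chi L χ₁` built from an `SL(2,ℤ)`-partition `χ₁`
-/

set_option autoImplicit false
set_option linter.unusedSectionVars false
set_option linter.style.haveILetI false

open UpperHalfPlane CongruenceSubgroup MeasureTheory
open scoped MatrixGroups ContDiff

namespace Fermat.Agent.S59.TW.H658

open Fermat.Agent.S21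

namespace IntAAux

theorem mob_mem_Uhp (g : SL(2, ℤ)) (z : ℂ) : mob g z ∈ Uhp := (g • ofComplex z).im_pos

theorem mob_mul (g h : SL(2, ℤ)) (z : ℂ) : mob (g * h) z = mob g (mob h z) := by
  simp only [mob, ofComplex_apply, mul_smul]

theorem continuousOn_mob (g : SL(2, ℤ)) : ContinuousOn (mob g) Uhp := by
  intro z hz
  have h1 : ContinuousAt (ofComplex : ℂ → ℍ) z := (contMDiffAt_ofComplex (n := 0) hz).continuousAt
  have h2 : ContinuousAt (fun w : ℍ => g • w) (ofComplex z) :=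
    (continuous_const_smul (g : GL (Fin 2) ℝ)).continuousAt
  have h3 : ContinuousAt (fun w : ℍ => (w : ℂ)) (g • ofComplex z) :=
    UpperHalfPlane.continuous_coe.continuousAt
  have h4 : ContinuousAt (fun w : ℂ => g • ofComplex w) z :=
    ContinuousAt.comp (f := (ofComplex : ℂ → ℍ)) (g := fun w : ℍ => g • w) h2 h1
  exact (ContinuousAt.comp (f := fun w : ℂ => g • ofComplex w)
    (g := fun w : ℍ => (w : ℂ)) h3 h4).continuousWithinAt

/-- The support of `g ↦ χ₁ (mob g z)` is finite. -/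
theorem finite_support (χ₁ : ℂ → ℝ) (hχ : IsSL2ZPartition χ₁) (z : ℂ) (hz : z ∈ Uhp) :
    (Function.support fun g : SL(2, ℤ) => χ₁ (mob g z)).Finite := by
  refine (hχ.locfin {z} isCompact_singleton (by simpa using hz)).subset ?_
  intro g hg
  exact ⟨z, rfl, hg⟩

/-- `chi` on the upper half plane. -/
theorem chi_of_mem (L : Lev) (χ₁ : ℂ → ℝ) {z : ℂ} (hz : z ∈ Uhp) :
    _root_.Fermat.Agent.S59.TW.H658.chi L χ₁ z = ∑ᶠ q : SL(2, ℤ) ⧸ L.Γ, χ₁ (mob (Quotient.out q) z) := by
  unfold _root_.Fermat.Agent.S59.TW.H658.chi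
  rw [Set.indicator_of_mem hz]

theorem chi_of_notMem (L : Lev) (χ₁ : ℂ → ℝ) {z : ℂ} (hz : z ∉ Uhp) :
    _root_.Fermat.Agent.S59.TW.H658.chi L χ₁ z = 0 := by
  unfold _root_.Fermat.Agent.S59.TW.H658.chi
  rw [Set.indicator_of_notMem hz]

/-- The bijection `(γ, q) ↦ q.out * γ`. -/
noncomputable def prodEquiv (Γ : Subgroup SL(2, ℤ)) : Γ × (SL(2, ℤ) ⧸ Γ) ≃ SL(2, ℤ) where
  toFun p := Quotient.out p.2 * (p.1 : SL(2, ℤ))
  invFun g := (⟨(Quotient.out (QuotientGroup.mk g : SL(2, ℤ) ⧸ Γ))⁻¹ * g, by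
      rw [← QuotientGroup.eq]
      exact QuotientGroup.out_eq' _⟩, QuotientGroup.mk g)
  left_inv := by
    rintro ⟨γ, q⟩
    have h : (QuotientGroup.mk (Quotient.out q * (γ : SL(2, ℤ))) : SL(2, ℤ) ⧸ Γ) = q := by
      rw [QuotientGroup.mk_mul_of_mem _ γ.2]
      exact QuotientGroup.out_eq' q
    ext1
    · apply Subtype.ext
      simp only [h]
      group
    · exact h
  right_inv := by
    intro g
    simp

theorem prodEquiv_apply (Γ : Subgroup SL(2, ℤ)) (γ : Γ) (q : SL(2, ℤ) ⧸ Γ) :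
    prodEquiv Γ (γ, q) = Quotient.out q * (γ : SL(2, ℤ)) := rfl

end IntAAux

open Fermat.Agent.S59.TW.H658.IntAAux

section INT

variable (L : Lev) {χ₁ : ℂ → ℝ}

theorem chi_nonneg (hχ : IsSL2ZPartition χ₁) (z : ℂ) : 0 ≤ _root_.Fermat.Agent.S59.TW.H658.chi L χ₁ z := by
  unfold _root_.Fermat.Agent.S59.TW.H658.chi
  exact Set.indicator_nonneg (fun w _ => finsum_nonneg fun q => hχ.nonneg _) z

theorem chi_le_one (hχ : IsSL2ZPartition χ₁) (z : ℂ) : _root_.Fermat.Agent.S59.TW.H658.chi L χ₁ z ≤ 1 := by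
  by_cases hz : z ∈ Uhp
  · rw [chi_of_mem L χ₁ hz, ← hχ.sum_eq_one z hz]
    have hfin := finite_support χ₁ hχ z hz
    -- rewrite the left-hand side as a sum over `SL(2,ℤ)` supported on the range of `Quotient.out`
    classical
    have hinj : Function.Injective (Quotient.out : SL(2, ℤ) ⧸ L.Γ → SL(2, ℤ)) :=
      Quotient.out_injective
    have h1 : ∑ᶠ q : SL(2, ℤ) ⧸ L.Γ, χ₁ (mob (Quotient.out q) z)
        = ∑ᶠ g ∈ Set.range (Quotient.out : SL(2, ℤ) ⧸ L.Γ → SL(2, ℤ)), χ₁ (mob g z) :=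
      (finsum_mem_range (f := fun g : SL(2, ℤ) => χ₁ (mob g z)) hinj).symm
    rw [h1, finsum_mem_def]
    refine finsum_le_finsum' ?_ hfin (fun g => ?_)
    · refine hfin.subset fun g hg => ?_
      simp only [Function.mem_support, ne_eq] at hg ⊢
      intro h0
      apply hg
      rw [Set.indicator_apply, h0, ite_self]
    · show Set.indicator _ _ g ≤ _
      rw [Set.indicator_apply]
      split_ifs
      · exact le_rfl
      · exact hχ.nonneg _
  · rw [chi_of_notMem L χ₁ hz]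
    exact zero_le_one

theorem continuousOn_chi (hχ : IsSL2ZPartition χ₁) : ContinuousOn (_root_.Fermat.Agent.S59.TW.H658.chi L χ₁) Uhp := by
  haveI : Finite (SL(2, ℤ) ⧸ L.Γ) := Subgroup.finite_quotient_of_finiteIndex
  letI : Fintype (SL(2, ℤ) ⧸ L.Γ) := Fintype.ofFinite _
  have h : ContinuousOn
      (fun z => ∑ q : SL(2, ℤ) ⧸ L.Γ, χ₁ (mob (Quotient.out q) z)) Uhp := by
    refine continuousOn_finsetSum _ fun q _ => ?_
    exact hχ.smooth.continuousOn.comp (_root_.Fermat.Agent.S59.TW.H658.IntAAux.continuousOn_mob _) fun z _ => _root_.Fermat.Agent.S59.TW.H658.IntAAux.mob_mem_Uhp _ z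
  refine h.congr fun z hz => ?_
  rw [chi_of_mem L χ₁ hz, finsum_eq_sum_of_fintype]

theorem measurable_chi (hχ : IsSL2ZPartition χ₁) : Measurable (_root_.Fermat.Agent.S59.TW.H658.chi L χ₁) := by
  classical
  have h1 : _root_.Fermat.Agent.S59.TW.H658.chi L χ₁ = Uhp.piecewise (_root_.Fermat.Agent.S59.TW.H658.chi L χ₁) (fun _ => (0 : ℝ)) := by
    funext z
    by_cases hz : z ∈ Uhp
    · rw [Set.piecewise_eq_of_mem _ _ _ hz]
    · rw [Set.piecewise_eq_of_notMem _ _ _ hz, chi_of_notMem L χ₁ hz]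
  rw [h1]
  exact (_root_.Fermat.Agent.S59.TW.H658.continuousOn_chi L hχ).measurable_piecewise continuousOn_const isOpen_Uhp.measurableSet

theorem chi_locfin (hχ : IsSL2ZPartition χ₁) (K : Set ℂ) (hK : IsCompact K) (hKU : K ⊆ Uhp) :
    {γ : L.Γ | ∃ z ∈ K, _root_.Fermat.Agent.S59.TW.H658.chi L χ₁ (mob (γ : SL(2, ℤ)) z) ≠ 0}.Finite := by
  haveI : Finite (SL(2, ℤ) ⧸ L.Γ) := Subgroup.finite_quotient_of_finiteIndex
  have hF := hχ.locfin K hK hKU
  -- the finite set of all `q.out⁻¹ * g`, `g ∈ F`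
  have hfin : (Set.image2 (fun (q : SL(2, ℤ) ⧸ L.Γ) (g : SL(2, ℤ)) => (Quotient.out q)⁻¹ * g)
      Set.univ {g : SL(2, ℤ) | ∃ z ∈ K, χ₁ (mob g z) ≠ 0}).Finite :=
    Set.Finite.image2 _ Set.finite_univ hF
  refine Set.Finite.of_finite_image (f := fun γ : L.Γ => (γ : SL(2, ℤ)))
    (hfin.subset ?_) Subtype.val_injective.injOn
  rintro _ ⟨γ, ⟨z, hzK, hz⟩, rfl⟩
  rw [chi_of_mem L χ₁ (_root_.Fermat.Agent.S59.TW.H658.IntAAux.mob_mem_Uhp _ z)] at hz
  obtain ⟨q, hq⟩ : ∃ q : SL(2, ℤ) ⧸ L.Γ,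
      χ₁ (mob (Quotient.out q) (mob (γ : SL(2, ℤ)) z)) ≠ 0 := by
    by_contra hcon
    push Not at hcon
    exact hz (by simp [hcon])
  refine ⟨q, Set.mem_univ _, Quotient.out q * (γ : SL(2, ℤ)), ⟨z, hzK, ?_⟩, by group⟩
  rwa [_root_.Fermat.Agent.S59.TW.H658.IntAAux.mob_mul]

theorem chi_sum_eq_one (hχ : IsSL2ZPartition χ₁) (z : ℂ) (hz : z ∈ Uhp) :
    ∑ᶠ γ : L.Γ, _root_.Fermat.Agent.S59.TW.H658.chi L χ₁ (mob (γ : SL(2, ℤ)) z) = 1 := by
  have hfin := finite_support χ₁ hχ z hz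
  have h1 : ∀ γ : L.Γ, _root_.Fermat.Agent.S59.TW.H658.chi L χ₁ (mob (γ : SL(2, ℤ)) z)
      = ∑ᶠ q : SL(2, ℤ) ⧸ L.Γ, χ₁ (mob (prodEquiv (L.Γ) (γ, q)) z) := by
    intro γ
    rw [chi_of_mem L χ₁ (_root_.Fermat.Agent.S59.TW.H658.IntAAux.mob_mem_Uhp _ z)]
    refine finsum_congr fun q => ?_
    rw [prodEquiv_apply, _root_.Fermat.Agent.S59.TW.H658.IntAAux.mob_mul]
  simp only [h1]
  have hfin' : (Function.support fun p : L.Γ × (SL(2, ℤ) ⧸ L.Γ) =>
      χ₁ (mob (prodEquiv (L.Γ) p) z)).Finite := by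
    have : (Function.support fun p : L.Γ × (SL(2, ℤ) ⧸ L.Γ) =>
        χ₁ (mob (prodEquiv (L.Γ) p) z))
        = (prodEquiv (L.Γ)) ⁻¹' (Function.support fun g : SL(2, ℤ) => χ₁ (mob g z)) := rfl
    rw [this]
    exact hfin.preimage (prodEquiv (L.Γ)).injective.injOn
  rw [← finsum_curry (fun p : L.Γ × (SL(2, ℤ) ⧸ L.Γ) =>
      χ₁ (mob (prodEquiv (L.Γ) p) z)) hfin']
  rw [finsum_comp_equiv (prodEquiv (L.Γ)) (f := fun g : SL(2, ℤ) => χ₁ (mob g z))]
  exact hχ.sum_eq_one z hz

end INT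

end Fermat.Agent.S59.TW.H658

end
-- ===== PACK-END S59/TW/H658/IntA.lean

-- ===== PACK-BEGIN S59/G4/H109/Points.lean
section



/-!
# Row S59, layer G4, piece POINTS — part 3, assembly (helper109)

`points : PointsStatement`.  For a reduced local ring `T`, finite free over a complete DVR `𝒪` of
characteristic zero with fraction field `K`, the algebra `E = K ⊗[𝒪] T` is a finite reduced
`K`-algebra, hence (Artinian decomposition) the product of the finitely many fields `L_J = E ⧸ J`,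
finite over `K`.  The rings of integers `integralClosure 𝒪 L_J` are complete discrete valuation
rings of characteristic zero with finite residue field (`PointsDVR.lean`), the points
`T → integralClosure 𝒪 L_J` are jointly strict (`PointsStrict.lean`) and local homomorphisms
(integrality of `T` over `𝒪`).
(Port of `S31/H262/Points.lean` (helper262) from `ℤ_[p]` to a general `𝒪`.)
-/

set_option autoImplicit false
set_option linter.unusedSectionVars false
set_option linter.style.haveILetI false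

noncomputable section

namespace Fermat.Agent.S59.G4.H109

open scoped TensorProduct
open IsLocalRing

section Local

/-- A ring homomorphism of local rings over a local base `𝒪`, with integral source and with
target a local `𝒪`-algebra, is local. -/
theorem isLocalHom_of_isIntegral (𝒪 T O : Type) [CommRing 𝒪] [IsLocalRing 𝒪] [CommRing T]
    [IsLocalRing T] [Algebra 𝒪 T] [Algebra.IsIntegral 𝒪 T] [CommRing O] [IsLocalRing O]
    [Algebra 𝒪 O] [IsLocalHom (algebraMap 𝒪 O)] (χ : T →+* O)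
    (hχ : ∀ a, χ (algebraMap 𝒪 T a) = algebraMap 𝒪 O a) : IsLocalHom χ := by
  set q : Ideal T := (maximalIdeal O).comap χ with hq
  haveI : q.IsPrime := Ideal.comap_isPrime χ _
  have hcomap : q.comap (algebraMap 𝒪 T) = maximalIdeal 𝒪 := by
    have h1 : q.comap (algebraMap 𝒪 T) = (maximalIdeal O).comap (algebraMap 𝒪 O) := by
      ext a
      simp only [hq, Ideal.mem_comap, hχ]
    rw [h1]
    exact IsLocalRing.maximalIdeal_comap (algebraMap 𝒪 O)
  have hmax : q.IsMaximal := by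
    apply Ideal.isMaximal_of_isIntegral_of_isMaximal_comap (R := 𝒪) q
    rw [hcomap]
    exact IsLocalRing.maximalIdeal.isMaximal 𝒪
  have hqm : q = maximalIdeal T := IsLocalRing.eq_maximalIdeal hmax
  exact ((IsLocalRing.local_hom_TFAE χ).out 0 4).mpr hqm

/-- The structure map of a local integral algebra over a local ring is local. -/
theorem algebraMap_mem_maximalIdeal (𝒪 T : Type) [CommRing 𝒪] [IsLocalRing 𝒪] [CommRing T]
    [IsLocalRing T] [Algebra 𝒪 T] [Algebra.IsIntegral 𝒪 T] (a : 𝒪) (ha : a ∈ maximalIdeal 𝒪) :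
    algebraMap 𝒪 T a ∈ maximalIdeal T := by
  have hmax : ((maximalIdeal T).comap (algebraMap 𝒪 T)).IsMaximal :=
    Ideal.isMaximal_comap_of_isIntegral_of_isMaximal (R := 𝒪) (maximalIdeal T)
  have h : (maximalIdeal T).comap (algebraMap 𝒪 T) = maximalIdeal 𝒪 :=
    IsLocalRing.eq_maximalIdeal hmax
  rw [← h] at ha
  exact ha

end Local

section Points

variable (p : ℕ)
variable (𝒪 : Type) [CommRing 𝒪] [IsDomain 𝒪] [IsDiscreteValuationRing 𝒪]
  [IsAdicComplete (maximalIdeal 𝒪) 𝒪] [Finite (ResidueField 𝒪)] [CharZero 𝒪]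
variable (K : Type) [Field K] [Algebra 𝒪 K] [IsFractionRing 𝒪 K]
variable (T : Type) [CommRing T] [Algebra 𝒪 T] [Module.Finite 𝒪 T] [Module.Free 𝒪 T]

attribute [local instance] IsArtinianRing.fieldOfSubtypeIsMaximal

theorem isArtinianRing_tensorO : IsArtinianRing (K ⊗[𝒪] T) :=
  isArtinian_of_tower K inferInstance

attribute [local instance] Algebra.TensorProduct.rightAlgebra in
theorem isReduced_tensorO [IsReduced T] : IsReduced (K ⊗[𝒪] T) := by
  haveI : IsLocalization (Algebra.algebraMapSubmonoid T (nonZeroDivisors 𝒪)) (K ⊗[𝒪] T) :=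
    IsLocalization.tensorRight (R := 𝒪) (S := T) K (nonZeroDivisors 𝒪)
  exact isReduced_localizationPreserves
    (Algebra.algebraMapSubmonoid T (nonZeroDivisors 𝒪)) (K ⊗[𝒪] T) inferInstance

include K in
/-- **Strict points** (unbundled form, generic fraction field). -/
theorem exists_points_aux [IsLocalRing T] [IsReduced T] (hp𝒪 : (p : 𝒪) ∈ maximalIdeal 𝒪) :
    ∃ (ι : Type) (_ : Finite ι) (O : ι → Type) (_ : ∀ j, CommRing (O j))
      (_ : ∀ j, IsDomain (O j)) (_ : ∀ j, IsDiscreteValuationRing (O j))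
      (_ : ∀ j, IsAdicComplete (maximalIdeal (O j)) (O j))
      (_ : ∀ j, Finite (ResidueField (O j))) (_ : ∀ j, CharZero (O j))
      (χ : ∀ j, T →+* O j),
      (∀ j, ((p : ℕ) : O j) ∈ maximalIdeal (O j)) ∧ (∀ j, IsLocalHom (χ j)) ∧
      ∀ n : ℕ, ∃ m : ℕ, ∀ t : T, (∀ j, χ j t ∈ maximalIdeal (O j) ^ m) →
        t ∈ maximalIdeal T ^ n := by
  haveI := isArtinianRing_tensorO 𝒪 K T
  haveI := isReduced_tensorO 𝒪 K T
  let E := K ⊗[𝒪] T
  let L : MaximalSpectrum E → Type := fun J => E ⧸ J.asIdeal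
  let Φ : E →ₐ[K] (∀ J, L J) := ((IsArtinianRing.equivPi E).restrictScalars K).toAlgHom
  have hΦ : Function.Injective Φ := ((IsArtinianRing.equivPi E).restrictScalars K).injective
  haveI hloc : ∀ J, IsLocalRing (intRingO 𝒪 (L J)) := fun J => intRingO_isLocalRing 𝒪 K (L J)
  haveI hlh : ∀ J, IsLocalHom (algebraMap 𝒪 (intRingO 𝒪 (L J))) :=
    fun J => intRingO_isLocalHom 𝒪 K (L J)
  obtain ⟨ϖ, hϖ⟩ := IsDiscreteValuationRing.exists_irreducible 𝒪
  refine ⟨MaximalSpectrum E, inferInstance, fun J => intRingO 𝒪 (L J), fun J => inferInstance,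
    fun J => inferInstance, fun J => intRingO_isDiscreteValuationRing 𝒪 K (L J),
    fun J => intRingO_isAdicComplete 𝒪 K (L J),
    fun J => intRingO_finite_residueField 𝒪 K (L J),
    fun J => intRingO_charZero 𝒪 K (L J), fun J => pt 𝒪 K T L Φ J, ?_, ?_, ?_⟩
  · intro J
    have h1 : ((p : ℕ) : intRingO 𝒪 (L J)) = algebraMap 𝒪 (intRingO 𝒪 (L J)) (p : 𝒪) :=
      (map_natCast _ p).symm
    rw [h1]
    exact algebraMap_mem_maximalIdeal 𝒪 (intRingO 𝒪 (L J)) _ hp𝒪
  · intro J
    exact isLocalHom_of_isIntegral 𝒪 T (intRingO 𝒪 (L J)) (pt 𝒪 K T L Φ J)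
      (pt_algebraMap 𝒪 K T L Φ J)
  · intro n
    obtain ⟨m, hm⟩ := strict_of_injective hΦ hϖ n
    refine ⟨m, fun t ht => ?_⟩
    have h1 : t ∈ Ideal.span {algebraMap 𝒪 T ϖ ^ n} := hm t ht
    have h2 : Ideal.span {algebraMap 𝒪 T ϖ ^ n} ≤ maximalIdeal T ^ n := by
      rw [Ideal.span_le, Set.singleton_subset_iff]
      exact Ideal.pow_mem_pow (algebraMap_mem_maximalIdeal 𝒪 T ϖ
        ((IsLocalRing.mem_maximalIdeal _).mpr hϖ.not_isUnit)) n
    exact h2 h1

end Points

section Statement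

open Fermat.Agent.S31

/-- **Piece POINTS of row S59, layer G4.** -/
theorem points : Fermat.Agent.S59.G4.PointsStatement := by
  classical
  intro p _ 𝒪 _ _ _ _ _ _ hp𝒪 T _ _ _ _ _ _
  obtain ⟨ι, hι, O, i1, i2, i3, i4, i5, i6, χ, hpm, hloc, hstrict⟩ :=
    exists_points_aux p 𝒪 (FractionRing 𝒪) T hp𝒪
  haveI : Fintype ι := Fintype.ofFinite ι
  refine ⟨(Finset.univ : Finset ι).toList.map
    (fun j => (⟨O j, hpm j, χ j⟩ : PadicPoint p T)), ?_, ?_⟩
  · intro n
    obtain ⟨n', hn'⟩ := hstrict n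
    refine ⟨n', fun t ht => ?_⟩
    apply hn'
    intro j
    exact ht ⟨O j, hpm j, χ j⟩ (List.mem_map.mpr ⟨j, by simp, rfl⟩)
  · intro P hP
    obtain ⟨j, -, rfl⟩ := List.mem_map.mp hP
    exact hloc j

end Statement

end Fermat.Agent.S59.G4.H109

end
end
-- ===== PACK-END S59/G4/H109/Points.lean

-- ===== PACK-BEGIN A3/H799/Local.lean
section


/-!
# A3 / LOCAL — the abstract LOCAL theorem  (helper799)

Combination of `exists_comb` (Cramer over `Λ`) and `root_mem` (Weierstrass + Hensel for algebraic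
families).  In the application (addition law of the Jacobian in disc coordinates):

* `ι = Fin g`, `𝒪 i` = integral functions on the residue disc of `Q_i`, `E = Σ P_i`, `Ē = Σ Q_i`
  non-special, `s i = 2`, `ys i = (z_i(x), z_i(y))`, `f₀ i = t_i³ · 1`, `f j i = t_i³ · φ_j` with
  `1, φ_j` an integral basis of `L(3E)`; the unique `φ = 1 + Σ v_j φ_j` vanishing on `D_x + D_y`
  has divisor `D_x + D_y + D_{-(x+y)} - 3E`, so `c i = z_i(-(x+y))`;
* negation: `s i = 1`, `L(2E)`, `c i = z_i(-x)`.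

The hypothesis `hgeo` is the only geometric input and it is POINTWISE (one parameter value `τ`,
honest functions over the valuation ring `A`).
-/

set_option autoImplicit false

namespace Fermat.Agent.A3.H799

open Polynomial

variable {A : Type*} [CommRing A] [IsLocalRing A] {T : Type*} [Finite T]

/-- **Abstract LOCAL theorem.**  If the linear system "`f₀ + Σ a_j f_j` vanishes on the moving
nodes" is non-degenerate modulo `𝔪` and every solution has exactly one further zero `c i τ` in the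
`i`-th disc, then `τ ↦ c i τ` lies in every algebra `Λ` of functions containing the nodes. -/
theorem local_mem {ι : Type*} [Fintype ι] {𝒪 : ι → Type*}
    [∀ i, CommRing (𝒪 i)] [∀ i, Algebra A (𝒪 i)]
    (Λ : Subalgebra A (T → A)) (D : ∀ i, DiscAlg A (𝒪 i)) (s : ι → ℕ)
    (ys : ∀ i, Fin (s i) → radIdeal Λ)
    (f₀ : ∀ i, 𝒪 i) (f : (Σ i, Fin (s i)) → ∀ i, 𝒪 i)
    (P₀ : ∀ i, A[X]) (H₀ : ∀ i, 𝒪 i)
    (hf₀ : ∀ i, f₀ i = aeval (D i).t (P₀ i) + (D i).t ^ s i * H₀ i)
    (P : (Σ i, Fin (s i)) → ∀ i, A[X]) (H : (Σ i, Fin (s i)) → ∀ i, 𝒪 i)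
    (hf : ∀ j i, f j i = aeval (D i).t (P j i) + (D i).t ^ s i * H j i)
    (hdet : ∀ [DecidableEq (Σ i, Fin (s i))],
      IsUnit (Matrix.of fun (c j : Σ i, Fin (s i)) => (P j c.1).coeff (c.2 : ℕ)).det)
    (h₀ : ∀ i (r : Fin (s i)), (P₀ i).coeff (r : ℕ) ∈ IsLocalRing.maximalIdeal A)
    (c : ι → T → IsLocalRing.maximalIdeal A)
    (hgeo : ∀ (τ : T) (a : (Σ i, Fin (s i)) → IsLocalRing.maximalIdeal A),
      (∀ i, ∃ h : 𝒪 i, f₀ i + ∑ j, ((a j : IsLocalRing.maximalIdeal A) : A) • f j i =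
        aeval (D i).t (DiscAlg.nodal ((List.ofFn (ys i)).map (ptAt Λ τ))) * h) →
      ∀ i, ∃ u : 𝒪 i, IsUnit ((D i).ev (c i τ) u) ∧
        f₀ i + ∑ j, ((a j : IsLocalRing.maximalIdeal A) : A) • f j i =
          aeval (D i).t (DiscAlg.nodal ((List.ofFn (ys i)).map (ptAt Λ τ))) *
            ((D i).t - algebraMap A (𝒪 i) ((c i τ : IsLocalRing.maximalIdeal A) : A)) * u) :
    ∀ i, (fun τ => ((c i τ : IsLocalRing.maximalIdeal A) : A)) ∈ Λ := by
  classical
  obtain ⟨v, hvI, hv⟩ := exists_comb Λ D s ys f₀ f P₀ H₀ hf₀ P H hf hdet h₀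
  intro i
  refine root_mem Λ (D i) (κ := Option (Σ i, Fin (s i)))
    (fun o => o.elim (f₀ i) fun j => f j i) (fun o => o.elim 1 v) (List.ofFn (ys i)) (c i) ?_
  intro τ
  obtain ⟨u, hu, hW⟩ := hgeo τ (fun j => ⟨((v j : Λ) : T → A) τ, hvI j τ⟩) (hv τ) i
  refine ⟨u, hu, ?_⟩
  rw [← hW, Fintype.sum_option]
  simp

end Fermat.Agent.A3.H799
end
-- ===== PACK-END A3/H799/Local.lean

-- ===== PACK-BEGIN S59/TW/H81/DictTFront.lean
section


/-!
# S59 / cell TW, AUT leaf CMP, leaf DICT-T: the Betti point of a FIXED eigenvector  (helper81)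

`frontT_abs` (variant of helper673's `front_abs`, same cores `exists_prime_over_ann`,
`exists_dvr_point`): `T` local, finite over the complete discrete valuation ring `𝒪`, acting on
the `𝒪`-torsion-free module `V` through `a`; `G` a finite commutative group acting through `d`,
commuting with `a`; `y ≠ 0` in `V` with PRIME annihilator in `T`, FIXED by `d g` for `g ∈ G₀`.

Then there are a complete discrete valuation ring `𝒪'` and an `𝒪`-algebra homomorphism
`ev : T ⊗ 𝒪[G] → 𝒪'` such that `ev` kills every element acting by `0` on `V`,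
`ev (s ⊗ 1) = 0 ↔ a s y = 0`, `s ↦ ev (s ⊗ 1)` is local and `ev (1 ⊗ g) = 1` for `g ∈ G₀`.
-/

set_option autoImplicit false
set_option linter.style.haveILetI false
set_option linter.unusedSectionVars false

open IsLocalRing
open scoped TensorProduct

namespace Fermat.Agent.S59.TW.H81

open Fermat.Agent.S59.TW.Aut.H673

theorem frontT_abs
    (𝒪 : Type) [CommRing 𝒪] [IsDomain 𝒪] [IsDiscreteValuationRing 𝒪]
    [IsAdicComplete (maximalIdeal 𝒪) 𝒪] [Finite (ResidueField 𝒪)] [CharZero 𝒪]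
    (T : Type) [CommRing T] [IsLocalRing T] [Algebra 𝒪 T] [Module.Finite 𝒪 T]
    (G : Type) [CommGroup G] [Finite G]
    (V : Type) [AddCommGroup V] [Module 𝒪 V]
    (htf : ∀ (c : 𝒪) (v : V), c • v = 0 → c = 0 ∨ v = 0)
    (a : T →ₐ[𝒪] Module.End 𝒪 V) (d : G →* Module.End 𝒪 V)
    (hcomm : ∀ s g, Commute (a s) (d g))
    (y : V) (hy : y ≠ 0) (hprime : ∀ s t : T, a (s * t) y = 0 → a s y = 0 ∨ a t y = 0)
    (G₀ : Set G) (hfix : ∀ g ∈ G₀, d g y = y) :
    ∃ (𝒪' : Type) (_ : CommRing 𝒪') (_ : IsDomain 𝒪') (_ : IsDiscreteValuationRing 𝒪')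
      (_ : IsAdicComplete (maximalIdeal 𝒪') 𝒪') (_ : Finite (ResidueField 𝒪')) (_ : CharZero 𝒪')
      (_ : Algebra 𝒪 𝒪') (ev : T ⊗[𝒪] MonoidAlgebra 𝒪 G →ₐ[𝒪] 𝒪'),
      IsLocalHom (algebraMap 𝒪 𝒪') ∧ Function.Injective (algebraMap 𝒪 𝒪') ∧
      IsLocalHom (ev.comp
        (Algebra.TensorProduct.includeLeft : T →ₐ[𝒪] T ⊗[𝒪] MonoidAlgebra 𝒪 G)).toRingHom ∧
      (∀ s : T, ev (s ⊗ₜ[𝒪] (1 : MonoidAlgebra 𝒪 G)) = 0 ↔ a s y = 0) ∧
      (∀ g ∈ G₀, ev ((1 : T) ⊗ₜ[𝒪] MonoidAlgebra.of 𝒪 G g) = 1) ∧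
      ∀ b : T ⊗[𝒪] MonoidAlgebra 𝒪 G, thetaH673 a d hcomm b = 0 → ev b = 0 := by
  classical
  haveI : Fintype G := Fintype.ofFinite G
  haveI : Module.Finite 𝒪 (T ⊗[𝒪] MonoidAlgebra 𝒪 G) := inferInstance
  haveI : IsNoetherianRing (T ⊗[𝒪] MonoidAlgebra 𝒪 G) :=
    IsNoetherianRing.of_finite 𝒪 _
  haveI : Algebra.IsIntegral 𝒪 T := Algebra.IsIntegral.of_finite 𝒪 T
  set Θ := thetaH673 a d hcomm with hΘ
  letI : Module (T ⊗[𝒪] MonoidAlgebra 𝒪 G) V := Module.compHom V Θ.toRingHom
  have hsmul : ∀ (b : T ⊗[𝒪] MonoidAlgebra 𝒪 G) (v : V), b • v = Θ b v := fun _ _ => rfl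
  haveI : IsScalarTower 𝒪 (T ⊗[𝒪] MonoidAlgebra 𝒪 G) V := ⟨fun c b v => by
    rw [hsmul, hsmul, map_smul, LinearMap.smul_apply]⟩
  obtain ⟨𝔔, h𝔔p, hZ𝔔, h𝔔T, h𝔔𝒪⟩ := exists_prime_over_ann
    (Algebra.TensorProduct.includeLeft : T →ₐ[𝒪] T ⊗[𝒪] MonoidAlgebra 𝒪 G) htf y hy
    (fun s t hst => by
      rw [hsmul, thetaH673_left] at hst
      rw [hsmul, hsmul, thetaH673_left, thetaH673_left]
      exact hprime s t hst)
    ({b | Θ b = 0} ∪ {z | ∃ g ∈ G₀, z = (1 : T) ⊗ₜ[𝒪] MonoidAlgebra.of 𝒪 G g - 1})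
    (fun z hz => by
      rcases hz with hz | ⟨g, hg, rfl⟩
      · rw [hsmul, (hz : Θ z = 0), LinearMap.zero_apply]
      · rw [hsmul, map_sub, map_one, thetaH673_right, LinearMap.sub_apply, hfix g hg,
          Module.End.one_apply, sub_self])
  haveI := h𝔔p
  obtain ⟨𝒪', i1, i2, i3, i4, i5, i6, i7, ev, hloc, hinj, hev⟩ :=
    exists_dvr_point 𝒪 (T ⊗[𝒪] MonoidAlgebra 𝒪 G) 𝔔 h𝔔𝒪
  refine ⟨𝒪', i1, i2, i3, i4, i5, i6, i7, ev, hloc, hinj, ?_, ?_, ?_, ?_⟩
  · haveI := hloc
    exact isLocalHom_of_integral_h673 𝒪 T 𝒪' _ (fun c => AlgHom.commutes _ c)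
  · intro s
    rw [hev, ← Algebra.TensorProduct.includeLeft_apply (R := 𝒪) (S := 𝒪), h𝔔T, hsmul,
      thetaH673_left]
  · intro g hg
    have h1 : ev ((1 : T) ⊗ₜ[𝒪] MonoidAlgebra.of 𝒪 G g - 1) = 0 :=
      (hev _).mpr (hZ𝔔 (Or.inr ⟨g, hg, rfl⟩))
    rw [map_sub, map_one, sub_eq_zero] at h1
    exact h1
  · intro b hb
    exact (hev b).mpr (hZ𝔔 (Or.inl hb))

end Fermat.Agent.S59.TW.H81

end
-- ===== PACK-END S59/TW/H81/DictTFront.lean

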