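import Mathlib
import Fermat.Agent.Pack.S43MC.G0E6L0
import Fermat.Agent.Pack.S43MC.G0E8L3
import Fermat.Agent.Pack.S43MC.G0E8L1
import Fermat.Agent.Pack.S43MC.G0E5L2
import Fermat.Agent.Pack.S43MC.G0E6L1
import Fermat.Agent.Pack.S43MC.G0E5L0
import Fermat.Agent.Pack.S43MC.G0E0L0
import Fermat.Agent.Pack.S43MC.G0E8L2
import Fermat.Agent.Pack.S43MC.G0E1L2
import Fermat.Agent.Pack.S43MC.G0E2L3
import Fermat.Agent.Pack.S43MC.G0E8L0
import Fermat.Agent.Pack.S44C.G0E11L3
import Fermat.Agent.Pack.S43MC.G0E9L2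
import Fermat.Agent.Pack.Fast891

-- ===== PACK-BEGIN S25/H910/TwistDegree.lean
section
/-
S25, block DEGREE, leaves D1 + D4 (helper910), frozen language of `DefsAlg`/`H10.DegreeDefs`:
`finite_H1`, `finite_H0`, `euler_twistE`, `degree_twistE`, `chartDeg_pos`
(statements exactly as in `H10/DegreeSkel.lean`).
-/




set_option autoImplicit false
set_option linter.style.haveILetI false
set_option linter.unusedSectionVars false

namespace Fermat.Agent.S25.H910

open TensorProduct Module Fermat.Agent.S25 Fermat.Agent.S25.H10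

universe u

/-- An invertible module modulo an ideal `I` with `R ⧸ I` finite-dimensional over a field has
the same dimension as `R ⧸ I` (invertible modules over semilocal rings are free). -/
theorem finrank_quotient_smul_top_eq (K R : Type u) [Field K] [CommRing R] [Algebra K R]
    (I : Ideal R) [Module.Finite K (R ⧸ I)] (N : Type u) [AddCommGroup N] [Module R N]
    [Module K N] [IsScalarTower K R N] [Module.Invertible R N] :
    finrank K (N ⧸ (I • ⊤ : Submodule R N)) = finrank K (R ⧸ I) := by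
  have hart : IsArtinianRing (R ⧸ I) := IsArtinianRing.of_finite K (R ⧸ I)
  have hfree : Module.Free (R ⧸ I) ((R ⧸ I) ⊗[R] N) :=
    CommRing.Pic.subsingleton_iff.mp inferInstance ((R ⧸ I) ⊗[R] N) inferInstance
  obtain ⟨e2⟩ := Module.Invertible.free_iff_linearEquiv.mp hfree
  let e1 : ((R ⧸ I) ⊗[R] N) ≃ₗ[R] N ⧸ (I • (⊤ : Submodule R N)) :=
    TensorProduct.quotTensorEquivQuotSMul N I
  have h1 := (e1.restrictScalars K).finrank_eq
  have h2 := (e2.restrictScalars K).finrank_eq
  rw [← h1, h2]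

section Quot

variable {k : Type u} [Field k]

/-- `(K ⊗ B) / (1 ⊗ y) = K ⊗ (B / y)`. -/
theorem nonempty_tensor_quotient_span_equiv (K : Type u) [Field K] [Algebra k K] (B : Type u)
    [CommRing B] [Algebra k B] (y : B) :
    Nonempty ((K ⊗[k] (B ⧸ Ideal.span {y})) ≃ₗ[K]
      ((K ⊗[k] B) ⧸ Ideal.span {(1 : K) ⊗ₜ[k] y})) := by
  have hI : (Ideal.span {y}).map (Algebra.TensorProduct.includeRight (R := k) (A := K) (B := B))
      = Ideal.span {(1 : K) ⊗ₜ[k] y} := by
    rw [Ideal.map_span, Set.image_singleton]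
    rfl
  let e := Algebra.TensorProduct.tensorQuotientEquiv (R := k) K B K (Ideal.span {y})
  exact ⟨e.toLinearEquiv.trans
    ((Ideal.quotientEquivAlgOfEq K hI).toLinearEquiv)⟩

theorem finrank_tensor_quotient_span (K : Type u) [Field K] [Algebra k K] (B : Type u)
    [CommRing B] [Algebra k B] (y : B) :
    finrank K ((K ⊗[k] B) ⧸ Ideal.span {(1 : K) ⊗ₜ[k] y}) = finrank k (B ⧸ Ideal.span {y}) := by
  obtain ⟨e⟩ := nonempty_tensor_quotient_span_equiv (k := k) K B y
  rw [← e.finrank_eq, Module.finrank_baseChange]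

/-- If `B` is finite over `k[y]`, then `B / (y)` is finite over `k`. -/
theorem finite_quotient_span_of_finite_aeval (B : Type u) [CommRing B] [Algebra k B] (y : B)
    (h : (Polynomial.aeval y : Polynomial k →ₐ[k] B).Finite) :
    Module.Finite k (B ⧸ Ideal.span {y}) := by
  classical
  letI : Algebra (Polynomial k) B := (Polynomial.aeval y : Polynomial k →ₐ[k] B).toRingHom.toAlgebra
  have hfin : Module.Finite (Polynomial k) B := h
  obtain ⟨s, hs⟩ := hfin.fg_top
  refine ⟨⟨s.image (Ideal.Quotient.mk (Ideal.span {y})), ?_⟩⟩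
  rw [eq_top_iff]
  rintro z -
  obtain ⟨b, rfl⟩ := Ideal.Quotient.mk_surjective z
  have hb : b ∈ Submodule.span (Polynomial k) (s : Set B) := by rw [hs]; trivial
  induction hb using Submodule.span_induction with
  | mem b hb =>
    apply Submodule.subset_span
    rw [Finset.coe_image]
    exact ⟨b, hb, rfl⟩
  | zero => rw [map_zero]; exact Submodule.zero_mem _
  | add b c _ _ hb hc => rw [map_add]; exact Submodule.add_mem _ hb hc
  | smul p b _ hb =>
    have h1 : p • b = Polynomial.aeval y p * b := rfl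
    have h2 : Ideal.Quotient.mk (Ideal.span {y}) (Polynomial.aeval y p) =
        algebraMap k (B ⧸ Ideal.span {y}) (p.coeff 0) := by
      obtain ⟨q, hq⟩ := Polynomial.X_dvd_sub_C (p := p)
      have hp : p = Polynomial.C (p.coeff 0) + Polynomial.X * q := by
        rw [← hq]; ring
      conv_lhs => rw [hp]
      rw [map_add, map_mul, Polynomial.aeval_X, Polynomial.aeval_C, map_add, map_mul]
      have hy : Ideal.Quotient.mk (Ideal.span {y}) y = 0 :=
        Ideal.Quotient.eq_zero_iff_mem.mpr (Ideal.subset_span rfl)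
      rw [hy, zero_mul, add_zero]
      rfl
    rw [h1, map_mul, h2, ← Algebra.smul_def]
    exact Submodule.smul_mem _ _ hb

end Quot

section Chart

variable {k : Type u} [Field k] {B₀ B₁ B₀₁ : Type u} [CommRing B₀] [CommRing B₁] [CommRing B₀₁]
  [Algebra k B₀] [Algebra k B₁] [Algebra k B₀₁] [Algebra B₀ B₀₁] [Algebra B₁ B₀₁]
  [IsScalarTower k B₀ B₀₁] [IsScalarTower k B₁ B₀₁]
  {x : B₀} {y : B₁} {e : B₁ →ₐ[k] k}

/-- D4-c. `d > 0`. -/
theorem chartDeg_pos (hC : IsCurveChart k B₀ B₁ B₀₁ x y e) : 0 < chartDeg k y := by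
  have hfin : Module.Finite k (B₁ ⧸ Ideal.span {y}) :=
    finite_quotient_span_of_finite_aeval B₁ y hC.finite₁
  have hne : Ideal.span {y} ≠ (⊤ : Ideal B₁) := by
    intro htop
    have hu : IsUnit y := Ideal.span_singleton_eq_top.mp htop
    have := hu.map e
    rw [hC.e_y] at this
    exact not_isUnit_zero this
  have : Nontrivial (B₁ ⧸ Ideal.span {y}) := Ideal.Quotient.nontrivial_iff.mpr hne
  exact Module.finrank_pos

/-- D1-a. `Ȟ¹` is a finite module over any base ring. -/
theorem finite_H1 (hC : IsCurveChart k B₀ B₁ B₀₁ x y e) {A : Type u} [CommRing A]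
    [Algebra k A] (G : CurveGD k B₀ B₁ B₀₁ A) : Module.Finite A G.H1 := by
  have h := H550.H1_finite (H250.chartCechOps hC G)
    (H130.isFG_of_isFGProj (H250.isFGProj_X0 hC G)) 0
  have hd := H250.chartCechOps_d_zero hC G
  show Module.Finite A (G.N₀₁ ⧸ LinearMap.range G.cech)
  rw [← hd]
  exact h

/-- D1-b. `Ȟ⁰` is finite-dimensional over a field. -/
theorem finite_H0 (hC : IsCurveChart k B₀ B₁ B₀₁ x y e) {K : Type u} [Field K]
    [Algebra k K] (G : CurveGD k B₀ B₁ B₀₁ K) : Module.Finite K G.H0 := by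
  have h := finiteDimensional_ker_d (H250.chartCechOps hC G) (H250.isFGProj_X0 hC G)
    (H250.isFGProj_Y1 hC G) (H250.r0_injective hC G) (H250.r1_injective hC G) 0
  have hd := H250.chartCechOps_d_zero hC G
  show Module.Finite K (LinearMap.ker G.cech)
  rw [← hd]
  exact h

/-- The dimension of `N₁ / y N₁` is the degree `d` of the chart. -/
theorem finrank_quotient_Y1 (hC : IsCurveChart k B₀ B₁ B₀₁ x y e) {K : Type u} [Field K]
    [Algebra k K] (G : CurveGD k B₀ B₁ B₀₁ K) :
    finrank K (G.N₁ ⧸ LinearMap.range (H250.chartCechOps hC G).Y1) = chartDeg k y := by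
  have hfin0 : Module.Finite k (B₁ ⧸ Ideal.span {y}) :=
    finite_quotient_span_of_finite_aeval B₁ y hC.finite₁
  obtain ⟨e0⟩ := nonempty_tensor_quotient_span_equiv (k := k) K B₁ y
  have hfin : Module.Finite K ((K ⊗[k] B₁) ⧸ Ideal.span {(1 : K) ⊗ₜ[k] y}) :=
    Module.Finite.equiv e0
  have hinv : Module.Invertible (K ⊗[k] B₁) G.N₁ := G.invertible₁
  have key := finrank_quotient_smul_top_eq K (K ⊗[k] B₁) (Ideal.span {(1 : K) ⊗ₜ[k] y}) G.N₁
  rw [finrank_tensor_quotient_span] at key
  have hrange : LinearMap.range (H250.chartCechOps hC G).Y1 =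
      ((Ideal.span {(1 : K) ⊗ₜ[k] y} • ⊤ : Submodule (K ⊗[k] B₁) G.N₁)).restrictScalars K := by
    ext n
    rw [Submodule.restrictScalars_mem, Submodule.ideal_span_singleton_smul,
      Submodule.mem_smul_pointwise_iff_exists]
    simp only [LinearMap.mem_range, Submodule.mem_top, true_and]
    rfl
  rw [chartDeg, ← key]
  exact ((Submodule.quotEquivOfEq _ _ hrange).trans
    (Submodule.Quotient.restrictScalarsEquiv K _)).finrank_eq

theorem cech_twistE_natCast_apply (hC : IsCurveChart k B₀ B₁ B₀₁ x y e) {K : Type u} [Field K]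
    [Algebra k K] (G : CurveGD k B₀ B₁ B₀₁ K) (n : ℕ) (a : G.N₀) (b : G.N₁) :
    (twistE x y hC.mul_eq_one G (n : ℤ)).cech (a, b) = (H250.chartCechOps hC G).d n (a, b) := by
  haveI := hC.away₀
  haveI := hC.away₁
  have h := gdTwist_cech_apply G (xUnit x y hC.mul_eq_one K ^ (n : ℤ)) a b
  refine h.trans ?_
  rw [CechOps.d_apply,
    show H250.chartCechOps hC G = H250.toCechOps x y hC.mul_eq_one G from rfl,
    H250.toCechOps_T_pow_apply, zpow_natCast, Units.val_pow_eq_pow_val]
  rfl

/-- The Čech differential of the `n`-fold twist (`n ≥ 0`) is the twisted differential `d n`. -/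
theorem cech_twistE_natCast (hC : IsCurveChart k B₀ B₁ B₀₁ x y e) {K : Type u} [Field K]
    [Algebra k K] (G : CurveGD k B₀ B₁ B₀₁ K) (n : ℕ) :
    (twistE x y hC.mul_eq_one G (n : ℤ)).cech = (H250.chartCechOps hC G).d n :=
  LinearMap.ext fun p => cech_twistE_natCast_apply hC G n p.1 p.2

theorem cech_twistE_twistE_neg_apply (hC : IsCurveChart k B₀ B₁ B₀₁ x y e) {K : Type u}
    [Field K] [Algebra k K] (G : CurveGD k B₀ B₁ B₀₁ K) (n : ℤ) (a : G.N₀) (b : G.N₁) :
    (twistE x y hC.mul_eq_one (twistE x y hC.mul_eq_one G (-n)) n).cech (a, b) =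
      G.cech (a, b) := by
  have h1 : G.cech (a, b) = G.r₀ a - G.r₁ b := by
    simp [GlueDatum.cech, sub_eq_add_neg]
  have h := gdTwist_cech_apply (gdTwist G (xUnit x y hC.mul_eq_one K ^ (-n)))
    (xUnit x y hC.mul_eq_one K ^ n) a b
  refine h.trans ?_
  show (G.r₀ a - ((xUnit x y hC.mul_eq_one K ^ n : (K ⊗[k] B₀₁)ˣ) : K ⊗[k] B₀₁) •
    (((xUnit x y hC.mul_eq_one K ^ (-n) : (K ⊗[k] B₀₁)ˣ) : K ⊗[k] B₀₁) • G.r₁ b) : G.N₀₁) =
      G.cech (a, b)
  rw [h1, smul_smul, ← Units.val_mul, ← zpow_add, add_neg_cancel, zpow_zero, Units.val_one,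
    one_smul]

/-- Twisting by `-n` and then by `n` gives back the original Čech differential. -/
theorem cech_twistE_twistE_neg (hC : IsCurveChart k B₀ B₁ B₀₁ x y e) {K : Type u} [Field K]
    [Algebra k K] (G : CurveGD k B₀ B₁ B₀₁ K) (n : ℤ) :
    (twistE x y hC.mul_eq_one (twistE x y hC.mul_eq_one G (-n)) n).cech = G.cech :=
  LinearMap.ext fun p => cech_twistE_twistE_neg_apply hC G n p.1 p.2

theorem euler_twistE_natCast (hC : IsCurveChart k B₀ B₁ B₀₁ x y e) {K : Type u} [Field K]
    [Algebra k K] (G : CurveGD k B₀ B₁ B₀₁ K) (n : ℕ) :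
    (twistE x y hC.mul_eq_one G (n : ℤ)).euler = G.euler + n * chartDeg k y := by
  have h := euler_d_nat (H250.chartCechOps hC G) (H250.isFGProj_X0 hC G)
    (H250.isFGProj_Y1 hC G) (H250.r0_injective hC G) (H250.r1_injective hC G) n
  rw [finrank_quotient_Y1 hC G, H250.chartCechOps_d_zero hC G,
    ← cech_twistE_natCast hC G n] at h
  exact h

/-- D4-a. `χ(G(n)) = χ(G) + n d`. -/
theorem euler_twistE (hC : IsCurveChart k B₀ B₁ B₀₁ x y e) {K : Type u} [Field K]
    [Algebra k K] (G : CurveGD k B₀ B₁ B₀₁ K) (n : ℤ) :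
    (twistE x y hC.mul_eq_one G n).euler = G.euler + n * chartDeg k y := by
  obtain ⟨m, rfl | rfl⟩ := Int.eq_nat_or_neg n
  · exact euler_twistE_natCast hC G m
  · have h1 := euler_twistE_natCast hC (twistE x y hC.mul_eq_one G (-(m : ℤ))) m
    have h2 : (twistE x y hC.mul_eq_one (twistE x y hC.mul_eq_one G (-(m : ℤ))) (m : ℤ)).euler =
        G.euler := by
      have hc := cech_twistE_twistE_neg hC G (m : ℤ)
      show (finrank K (LinearMap.ker (twistE x y hC.mul_eq_one
          (twistE x y hC.mul_eq_one G (-(m : ℤ))) (m : ℤ)).cech) : ℤ) -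
        finrank K (G.N₀₁ ⧸ LinearMap.range (twistE x y hC.mul_eq_one
          (twistE x y hC.mul_eq_one G (-(m : ℤ))) (m : ℤ)).cech) = _
      rw [hc]
      rfl
    rw [h2] at h1
    rw [h1]
    ring

/-- D4-b. `deg G(n) = deg G + n d`. -/
theorem degree_twistE (hC : IsCurveChart k B₀ B₁ B₀₁ x y e) {K : Type u} [Field K]
    [Algebra k K] (G : CurveGD k B₀ B₁ B₀₁ K) (n : ℤ) :
    (twistE x y hC.mul_eq_one G n).degree = G.degree + n * chartDeg k y := by
  rw [GlueDatum.degree, GlueDatum.degree, _root_.Fermat.Agent.S25.H910.euler_twistE hC G n]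
  ring

end Chart

end Fermat.Agent.S25.H910

end
-- ===== PACK-END S25/H910/TwistDegree.lean

-- ===== PACK-BEGIN S25/H190/D1.lean
section
/-
S25, block DEGREE, leaf D1 (helper190): finiteness of Čech cohomology of a gluing datum on a
curve chart, EXACT statements of `H10/DegreeSkel.lean` (`finite_H1`, `finite_H0`).

* `finite_H1` : `Ȟ¹(G)` is a finite `A`-module, for every `k`-algebra `A` (E1/K2a + adapter);
* `finite_H0` : `Ȟ⁰(G)` is finite-dimensional over a field (K1a + adapter).

Everything is a transfer of the operator-style statements (`H790.H1_finite`,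
`H850.exists_fg_ge_H0`) along the adapter `H250.chartCechOps`.
-/





set_option autoImplicit false

universe u

open scoped TensorProduct

namespace Fermat.Agent.S25.H190

open Fermat.Agent.S25 Fermat.Agent.S25.H10

variable {k : Type u} [Field k] {B₀ B₁ B₀₁ : Type u} [CommRing B₀] [CommRing B₁] [CommRing B₀₁]
  [Algebra k B₀] [Algebra k B₁] [Algebra k B₀₁] [Algebra B₀ B₀₁] [Algebra B₁ B₀₁]
  [IsScalarTower k B₀ B₀₁] [IsScalarTower k B₁ B₀₁]
  {x : B₀} {y : B₁} {e : B₁ →ₐ[k] k}

/-- D1-a. `Ȟ¹` is a finite module over any base ring (E1 + adapter). -/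
theorem finite_H1 (hC : IsCurveChart k B₀ B₁ B₀₁ x y e) {A : Type u} [CommRing A]
    [Algebra k A] (G : CurveGD k B₀ B₁ B₀₁ A) : Module.Finite A G.H1 := by
  have h := H790.H1_finite (H250.chartCechOps hC G)
    (isFG_of_isFGProj (H250.isFGProj_X0 hC G)) 0
  have hd : (H250.chartCechOps hC G).d 0 = G.cech := H250.chartCechOps_d_zero hC G
  have h' : Module.Finite A (G.N₀₁ ⧸ LinearMap.range ((H250.chartCechOps hC G).d 0)) := h
  rw [hd] at h'
  exact h'

/-- D1-a'. `Ȟ⁰` is contained in a finitely generated submodule, over any base ring. -/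
theorem exists_fg_ge_H0_curve (hC : IsCurveChart k B₀ B₁ B₀₁ x y e) {A : Type u} [CommRing A]
    [Algebra k A] (G : CurveGD k B₀ B₁ B₀₁ A) :
    ∃ M : Submodule A (G.N₀ × G.N₁), M.FG ∧ G.H0 ≤ M := by
  obtain ⟨M, hM, hle⟩ := H850.exists_fg_ge_H0 (H250.chartCechOps hC G)
    (H250.isFGProj_X0 hC G) (H250.isFGProj_Y1 hC G) (H250.r0_injective hC G)
    (H250.r1_injective hC G) 0
  refine ⟨M, hM, ?_⟩
  have h0 : (H250.chartCechOps hC G).H0 0 = G.H0 := H250.chartCechOps_H0_zero hC G
  rw [← h0]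
  exact hle

/-- D1-b. `Ȟ⁰` is finite-dimensional over a field (K1a + adapter). -/
theorem finite_H0 (hC : IsCurveChart k B₀ B₁ B₀₁ x y e) {K : Type u} [Field K]
    [Algebra k K] (G : CurveGD k B₀ B₁ B₀₁ K) : Module.Finite K G.H0 := by
  obtain ⟨M, hM, hle⟩ := exists_fg_ge_H0_curve hC G
  haveI : Module.Finite K M := Module.Finite.iff_fg.2 hM
  exact Module.Finite.of_injective (Submodule.inclusion hle) (Submodule.inclusion_injective hle)

end Fermat.Agent.S25.H190

end
-- ===== PACK-END S25/H190/D1.lean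

-- ===== PACK-BEGIN S25/H671/UnitH0.lean
section





/-!
# S25 / DEGREE (helper671): global functions on the curve are constant

For a curve chart `(B₀, B₁, B₀₁, x, y, e)` over an algebraically closed field `k`:
* `H0_finite_of_field` : `H⁰` of a gluing datum over a field is finite-dimensional;
* `exists_algebraMap_eq_of_glue` : `b₀ ∈ B₀`, `b₁ ∈ B₁` with the same image in `B₀₁` are one
  and the same constant `c ∈ k`;
* `mem_unit_H0_iff` : over any `k`-algebra `A`, `H⁰` of the unit gluing datum consists of the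
  pairs `(a ⊗ 1, a ⊗ 1)`, `a ∈ A`;
* `finrank_unit_H0` : over a field `K ⊇ k`, `dim H⁰(unit) = 1`.
-/

set_option autoImplicit false

open scoped TensorProduct

namespace Fermat.Agent.S25.H671

open Fermat.Agent.S25 Fermat.Agent.S25.H10 Fermat.Agent.S25.H250

universe u

variable {k : Type u} [Field k] {B₀ B₁ B₀₁ : Type u} [CommRing B₀] [CommRing B₁] [CommRing B₀₁]
  [Algebra k B₀] [Algebra k B₁] [Algebra k B₀₁] [Algebra B₀ B₀₁] [Algebra B₁ B₀₁]
  [IsScalarTower k B₀ B₀₁] [IsScalarTower k B₁ B₀₁]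
  {x : B₀} {y : B₁} {e : B₁ →ₐ[k] k}

/-- `H⁰` of a gluing datum over a field is finite-dimensional. -/
theorem H0_finite_of_field (hC : IsCurveChart k B₀ B₁ B₀₁ x y e) {K : Type u} [Field K]
    [Algebra k K] (G : CurveGD k B₀ B₁ B₀₁ K) : Module.Finite K G.H0 := by
  obtain ⟨M, hM, hle⟩ := exists_fg_ge_H0 (chartCechOps hC G) (isFGProj_X0 hC G)
    (isFGProj_Y1 hC G) (r0_injective hC G) (r1_injective hC G) 0
  rw [chartCechOps_H0_zero] at hle
  have : Module.Finite K M := Module.Finite.iff_fg.2 hM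
  exact Module.Finite.of_injective (Submodule.inclusion hle) (Submodule.inclusion_injective hle)

/-- The unit gluing datum on `C_A`. -/
noncomputable abbrev unitGD (k : Type u) [Field k] (B₀ B₁ B₀₁ : Type u) [CommRing B₀] [CommRing B₁]
    [CommRing B₀₁] [Algebra k B₀] [Algebra k B₁] [Algebra k B₀₁] [Algebra B₀ B₀₁] [Algebra B₁ B₀₁]
    [IsScalarTower k B₀ B₀₁] [IsScalarTower k B₁ B₀₁] (A : Type u) [CommRing A] [Algebra k A] :
    CurveGD k B₀ B₁ B₀₁ A :=
  GlueDatum.unit A (A ⊗[k] B₀) (A ⊗[k] B₁) (A ⊗[k] B₀₁)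

theorem unit_cech_apply {A : Type u} [CommRing A] [Algebra k A]
    (s₀ : A ⊗[k] B₀) (s₁ : A ⊗[k] B₁) :
    @Eq (A ⊗[k] B₀₁) ((unitGD k B₀ B₁ B₀₁ A).cech (s₀, s₁))
      (algebraMap (A ⊗[k] B₀) (A ⊗[k] B₀₁) s₀ - algebraMap (A ⊗[k] B₁) (A ⊗[k] B₀₁) s₁) :=
  (sub_eq_add_neg (algebraMap (A ⊗[k] B₀) (A ⊗[k] B₀₁) s₀)
    (algebraMap (A ⊗[k] B₁) (A ⊗[k] B₀₁) s₁)).symm

theorem mem_unit_H0 {A : Type u} [CommRing A] [Algebra k A]
    (s₀ : A ⊗[k] B₀) (s₁ : A ⊗[k] B₁) :
    (s₀, s₁) ∈ (unitGD k B₀ B₁ B₀₁ A).H0 ↔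
      algebraMap (A ⊗[k] B₀) (A ⊗[k] B₀₁) s₀ = algebraMap (A ⊗[k] B₁) (A ⊗[k] B₀₁) s₁ :=
  ⟨fun h => sub_eq_zero.1 ((unit_cech_apply s₀ s₁).symm.trans h),
    fun h => (unit_cech_apply s₀ s₁).trans (sub_eq_zero.2 h)⟩

section AlgClosed

variable [IsAlgClosed k]

/-- Over `k` itself: elements of `H⁰(unit)` are constants. -/
theorem exists_eq_algebraMap_of_mem_unit_H0 (hC : IsCurveChart k B₀ B₁ B₀₁ x y e)
    (s₀ : k ⊗[k] B₀) (s₁ : k ⊗[k] B₁)
    (h : algebraMap (k ⊗[k] B₀) (k ⊗[k] B₀₁) s₀ = algebraMap (k ⊗[k] B₁) (k ⊗[k] B₀₁) s₁) :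
    ∃ c : k, s₀ = algebraMap k (k ⊗[k] B₀) c ∧ s₁ = algebraMap k (k ⊗[k] B₁) c := by
  let f : ((k ⊗[k] B₀) × (k ⊗[k] B₁)) →ₐ[k] k ⊗[k] B₀₁ :=
    (tensorMapRight k k B₀ B₀₁).comp (AlgHom.fst k _ _)
  let g : ((k ⊗[k] B₀) × (k ⊗[k] B₁)) →ₐ[k] k ⊗[k] B₀₁ :=
    (tensorMapRight k k B₁ B₀₁).comp (AlgHom.snd k _ _)
  let S : Subalgebra k ((k ⊗[k] B₀) × (k ⊗[k] B₁)) := AlgHom.equalizer f g
  have hS : ∀ t : (k ⊗[k] B₀) × (k ⊗[k] B₁), t ∈ S ↔
      algebraMap (k ⊗[k] B₀) (k ⊗[k] B₀₁) t.1 = algebraMap (k ⊗[k] B₁) (k ⊗[k] B₀₁) t.2 :=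
    fun t => Iff.rfl
  -- finiteness
  have hfin : Module.Finite k (unitGD k B₀ B₁ B₀₁ k).H0 := H0_finite_of_field hC _
  have hSfin : Module.Finite k S := by
    let φ : (unitGD k B₀ B₁ B₀₁ k).H0 →ₗ[k] S :=
      { toFun := fun t => ⟨(t.1.1, t.1.2), (hS _).2 ((mem_unit_H0 t.1.1 t.1.2).1 t.2)⟩
        map_add' := fun a b => rfl
        map_smul' := fun c a => rfl }
    refine Module.Finite.of_surjective φ ?_
    rintro ⟨⟨t₀, t₁⟩, ht⟩
    exact ⟨⟨(t₀, t₁), (mem_unit_H0 t₀ t₁).2 ((hS _).1 ht)⟩, rfl⟩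
  -- domain
  have hinj₁ : Function.Injective (algebraMap (k ⊗[k] B₁) (k ⊗[k] B₀₁)) :=
    r1_injective hC (unitGD k B₀ B₁ B₀₁ k)
  have hdom₀ : IsDomain B₀ := hC.isDomain₀
  let π : S →+* B₀ := (Algebra.TensorProduct.lid k B₀).toAlgHom.toRingHom.comp
    ((RingHom.fst _ _).comp S.val.toRingHom)
  have hπ : Function.Injective π := by
    rw [injective_iff_map_eq_zero]
    rintro ⟨⟨t₀, t₁⟩, ht⟩ h0
    have h0' : Algebra.TensorProduct.lid k B₀ t₀ = 0 := h0
    have ht₀ : t₀ = 0 := by simpa using h0'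
    have ht' := (hS _).1 ht
    simp only at ht'
    rw [ht₀, map_zero] at ht'
    have ht₁ : t₁ = 0 := hinj₁ (by rw [← ht', map_zero])
    apply Subtype.ext
    simp [ht₀, ht₁]
  have hSdom : IsDomain S := hπ.isDomain π
  have hbij := IsAlgClosed.algebraMap_bijective_of_isIntegral (k := k) (K := S)
  obtain ⟨c, hc⟩ := hbij.2 ⟨(s₀, s₁), (hS _).2 h⟩
  have hc' := congrArg Subtype.val hc
  refine ⟨c, ?_, ?_⟩
  · exact (congrArg Prod.fst hc').symm
  · exact (congrArg Prod.snd hc').symm

/-- **Global functions are constant.** Elements `b₀ ∈ B₀`, `b₁ ∈ B₁` which agree in `B₀₁` are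
one and the same constant. -/
theorem exists_algebraMap_eq_of_glue (hC : IsCurveChart k B₀ B₁ B₀₁ x y e) (b₀ : B₀) (b₁ : B₁)
    (h : algebraMap B₀ B₀₁ b₀ = algebraMap B₁ B₀₁ b₁) :
    ∃ c : k, b₀ = algebraMap k B₀ c ∧ b₁ = algebraMap k B₁ c := by
  obtain ⟨c, h₀, h₁⟩ := exists_eq_algebraMap_of_mem_unit_H0 hC ((1 : k) ⊗ₜ[k] b₀)
    ((1 : k) ⊗ₜ[k] b₁) (by rw [algebraMap_tensor_tmul, algebraMap_tensor_tmul, h])
  refine ⟨c, ?_, ?_⟩
  · have := congrArg (Algebra.TensorProduct.lid k B₀) h₀
    simpa [Algebra.algebraMap_eq_smul_one] using this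
  · have := congrArg (Algebra.TensorProduct.lid k B₁) h₁
    simpa [Algebra.algebraMap_eq_smul_one] using this

/-- The Čech differential of the unit datum over `k`, on the rings `B₀`, `B₁`, `B₀₁`. -/
noncomputable def cechRing (k : Type u) [Field k] (B₀ B₁ B₀₁ : Type u) [CommRing B₀] [CommRing B₁]
    [CommRing B₀₁] [Algebra k B₀] [Algebra k B₁] [Algebra k B₀₁] [Algebra B₀ B₀₁] [Algebra B₁ B₀₁]
    [IsScalarTower k B₀ B₀₁] [IsScalarTower k B₁ B₀₁] : (B₀ × B₁) →ₗ[k] B₀₁ :=
  ((Algebra.linearMap B₀ B₀₁).restrictScalars k).coprod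
    (-((Algebra.linearMap B₁ B₀₁).restrictScalars k))

/-- The diagonal `k → B₀ × B₁`. -/
noncomputable def diagRing (k : Type u) [Field k] (B₀ B₁ : Type u) [CommRing B₀] [CommRing B₁]
    [Algebra k B₀] [Algebra k B₁] : k →ₗ[k] (B₀ × B₁) :=
  (Algebra.linearMap k B₀).prod (Algebra.linearMap k B₁)

theorem exact_diagRing_cechRing (hC : IsCurveChart k B₀ B₁ B₀₁ x y e) :
    Function.Exact (diagRing k B₀ B₁) (cechRing k B₀ B₁ B₀₁) := by
  rintro ⟨b₀, b₁⟩
  constructor
  · intro h
    have h' : algebraMap B₀ B₀₁ b₀ = algebraMap B₁ B₀₁ b₁ := by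
      have : algebraMap B₀ B₀₁ b₀ + -(algebraMap B₁ B₀₁ b₁) = 0 := h
      rwa [← sub_eq_add_neg, sub_eq_zero] at this
    obtain ⟨c, h₀, h₁⟩ := exists_algebraMap_eq_of_glue hC b₀ b₁ h'
    exact ⟨c, by rw [h₀, h₁]; rfl⟩
  · rintro ⟨c, hc⟩
    have h₀ : algebraMap k B₀ c = b₀ := congrArg Prod.fst hc
    have h₁ : algebraMap k B₁ c = b₁ := congrArg Prod.snd hc
    change algebraMap B₀ B₀₁ b₀ + -(algebraMap B₁ B₀₁ b₁) = 0
    rw [← h₀, ← h₁, ← IsScalarTower.algebraMap_apply, ← IsScalarTower.algebraMap_apply,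
      add_neg_cancel]

omit [IsAlgClosed k] in
theorem lTensor_cechRing_apply (A : Type u) [CommRing A] [Algebra k A]
    (z : A ⊗[k] (B₀ × B₁)) :
    (cechRing k B₀ B₁ B₀₁).lTensor A z =
      algebraMap (A ⊗[k] B₀) (A ⊗[k] B₀₁) (TensorProduct.prodRight k A A B₀ B₁ z).1 -
        algebraMap (A ⊗[k] B₁) (A ⊗[k] B₀₁) (TensorProduct.prodRight k A A B₀ B₁ z).2 := by
  induction z with
  | zero => simp
  | tmul a b =>
    obtain ⟨b₀, b₁⟩ := b
    rw [LinearMap.lTensor_tmul, TensorProduct.prodRight_tmul]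
    simp only [algebraMap_tensor_tmul]
    rw [← TensorProduct.tmul_sub]
    congr 1
    change algebraMap B₀ B₀₁ b₀ + -(algebraMap B₁ B₀₁ b₁) = _
    rw [sub_eq_add_neg]
  | add z w hz hw =>
    rw [map_add, hz, hw, map_add, Prod.fst_add, Prod.snd_add, map_add, map_add]
    abel

/-- **`H⁰` of the unit datum over any `k`-algebra `A` is `A`.** -/
theorem exists_eq_algebraMap_of_glue_tensor (hC : IsCurveChart k B₀ B₁ B₀₁ x y e)
    (A : Type u) [CommRing A] [Algebra k A] (s₀ : A ⊗[k] B₀) (s₁ : A ⊗[k] B₁)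
    (h : algebraMap (A ⊗[k] B₀) (A ⊗[k] B₀₁) s₀ = algebraMap (A ⊗[k] B₁) (A ⊗[k] B₀₁) s₁) :
    ∃ a : A, s₀ = algebraMap A (A ⊗[k] B₀) a ∧ s₁ = algebraMap A (A ⊗[k] B₁) a := by
  have hex := Module.Flat.lTensor_exact A (exact_diagRing_cechRing hC)
  set z := (TensorProduct.prodRight k A A B₀ B₁).symm (s₀, s₁) with hz
  have hz0 : (cechRing k B₀ B₁ B₀₁).lTensor A z = 0 := by
    rw [lTensor_cechRing_apply, hz, LinearEquiv.apply_symm_apply, sub_eq_zero]
    exact h
  obtain ⟨w, hw⟩ := (hex z).1 hz0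
  refine ⟨TensorProduct.rid k A w, ?_⟩
  have hw' : w = (TensorProduct.rid k A w) ⊗ₜ[k] (1 : k) := by
    conv_lhs => rw [← (TensorProduct.rid k A).symm_apply_apply w]
    rfl
  have key : (s₀, s₁) = TensorProduct.prodRight k A A B₀ B₁ z := by
    rw [hz, LinearEquiv.apply_symm_apply]
  rw [← hw, hw', LinearMap.lTensor_tmul] at key
  have hd : diagRing k B₀ B₁ (1 : k) = ((1 : B₀), (1 : B₁)) := by
    simp [diagRing]
  rw [hd, TensorProduct.prodRight_tmul] at key
  constructor
  · rw [Algebra.TensorProduct.algebraMap_apply]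
    exact congrArg Prod.fst key
  · rw [Algebra.TensorProduct.algebraMap_apply]
    exact congrArg Prod.snd key

theorem mem_unit_H0_iff (hC : IsCurveChart k B₀ B₁ B₀₁ x y e)
    (A : Type u) [CommRing A] [Algebra k A] (s₀ : A ⊗[k] B₀) (s₁ : A ⊗[k] B₁) :
    (s₀, s₁) ∈ (unitGD k B₀ B₁ B₀₁ A).H0 ↔
      ∃ a : A, s₀ = algebraMap A (A ⊗[k] B₀) a ∧ s₁ = algebraMap A (A ⊗[k] B₁) a := by
  rw [mem_unit_H0]
  constructor
  · exact exists_eq_algebraMap_of_glue_tensor hC A s₀ s₁
  · rintro ⟨a, rfl, rfl⟩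
    rw [← IsScalarTower.algebraMap_apply, ← IsScalarTower.algebraMap_apply]

omit [IsAlgClosed k] in
theorem unit_glue_algebraMap (A : Type u) [CommRing A] [Algebra k A] (a : A) :
    algebraMap (A ⊗[k] B₀) (A ⊗[k] B₀₁) (algebraMap A (A ⊗[k] B₀) a) =
      algebraMap (A ⊗[k] B₁) (A ⊗[k] B₀₁) (algebraMap A (A ⊗[k] B₁) a) := by
  rw [← IsScalarTower.algebraMap_apply, ← IsScalarTower.algebraMap_apply]

variable (k B₀ B₁ B₀₁) in
omit [IsAlgClosed k] in
/-- The diagonal map `A → H⁰(unit)`. -/
noncomputable def unitH0Map (A : Type u) [CommRing A] [Algebra k A] :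
    A →ₗ[A] (unitGD k B₀ B₁ B₀₁ A).H0 :=
  LinearMap.codRestrict (unitGD k B₀ B₁ B₀₁ A).H0
    (show A →ₗ[A] (unitGD k B₀ B₁ B₀₁ A).N₀ × (unitGD k B₀ B₁ B₀₁ A).N₁ from
      (Algebra.linearMap A (A ⊗[k] B₀)).prod (Algebra.linearMap A (A ⊗[k] B₁)))
    (fun a => (mem_unit_H0 (algebraMap A (A ⊗[k] B₀) a) (algebraMap A (A ⊗[k] B₁) a)).2
      (unit_glue_algebraMap A a))

theorem unitH0Map_surjective (hC : IsCurveChart k B₀ B₁ B₀₁ x y e)
    (A : Type u) [CommRing A] [Algebra k A] :
    Function.Surjective (unitH0Map k B₀ B₁ B₀₁ A) := by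
  rintro ⟨⟨s₀, s₁⟩, hs⟩
  obtain ⟨a, h₀, h₁⟩ := (mem_unit_H0_iff hC A s₀ s₁).1 hs
  refine ⟨a, Subtype.ext ?_⟩
  change (algebraMap A (A ⊗[k] B₀) a, algebraMap A (A ⊗[k] B₁) a) = (s₀, s₁)
  exact Prod.ext h₀.symm h₁.symm

omit [IsAlgClosed k] in
theorem unitH0Map_injective (hC : IsCurveChart k B₀ B₁ B₀₁ x y e)
    (A : Type u) [CommRing A] [Algebra k A] :
    Function.Injective (unitH0Map k B₀ B₁ B₀₁ A) := by
  have hdom₀ : IsDomain B₀ := hC.isDomain₀
  have hinj : Function.Injective (algebraMap A (A ⊗[k] B₀)) :=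
    Algebra.TensorProduct.includeLeft_injective (S := A) (algebraMap k B₀).injective
  intro a b hab
  apply hinj
  exact congrArg (fun t : (unitGD k B₀ B₁ B₀₁ A).H0 => (t.1.1 : A ⊗[k] B₀)) hab

/-- `H⁰(unit) ≅ A`. -/
noncomputable def unitH0Equiv (hC : IsCurveChart k B₀ B₁ B₀₁ x y e)
    (A : Type u) [CommRing A] [Algebra k A] : A ≃ₗ[A] (unitGD k B₀ B₁ B₀₁ A).H0 :=
  LinearEquiv.ofBijective (unitH0Map k B₀ B₁ B₀₁ A)
    ⟨unitH0Map_injective hC A, unitH0Map_surjective hC A⟩

/-- Over a field, `dim H⁰(unit) = 1`. -/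
theorem finrank_unit_H0 (hC : IsCurveChart k B₀ B₁ B₀₁ x y e)
    (K : Type u) [Field K] [Algebra k K] :
    Module.finrank K (GlueDatum.unit K (K ⊗[k] B₀) (K ⊗[k] B₁) (K ⊗[k] B₀₁)).H0 = 1 := by
  rw [← (unitH0Equiv hC K).finrank_eq, Module.finrank_self]

/-- Euler characteristic of the unit datum over a field: `χ(O) = 1 - h¹(O)`. -/
theorem euler_unit (hC : IsCurveChart k B₀ B₁ B₀₁ x y e) (K : Type u) [Field K] [Algebra k K] :
    (GlueDatum.unit K (K ⊗[k] B₀) (K ⊗[k] B₁) (K ⊗[k] B₀₁)).euler =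
      1 - (Module.finrank K (GlueDatum.unit K (K ⊗[k] B₀) (K ⊗[k] B₁) (K ⊗[k] B₀₁)).H1 : ℤ) := by
  rw [GlueDatum.euler, finrank_unit_H0 hC K]
  rfl

/-- **Riemann–Roch, definitional form**: `h⁰(G) - h¹(G) = deg G + 1 - h¹(O)`. -/
theorem finrank_H0_sub_finrank_H1 (hC : IsCurveChart k B₀ B₁ B₀₁ x y e) (K : Type u) [Field K]
    [Algebra k K] (G : CurveGD k B₀ B₁ B₀₁ K) :
    (Module.finrank K G.H0 : ℤ) - (Module.finrank K G.H1 : ℤ) =
      G.degree + 1 -
        (Module.finrank K (GlueDatum.unit K (K ⊗[k] B₀) (K ⊗[k] B₁) (K ⊗[k] B₀₁)).H1 : ℤ) := by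
  have h := euler_unit hC K
  rw [GlueDatum.degree, h, GlueDatum.euler]
  ring

/-- **Riemann inequality** `h⁰(G) ≥ deg G + 1 - g`, `g = h¹(O)`. -/
theorem riemann_inequality (hC : IsCurveChart k B₀ B₁ B₀₁ x y e) (K : Type u) [Field K]
    [Algebra k K] (G : CurveGD k B₀ B₁ B₀₁ K) :
    G.degree + 1 -
        (Module.finrank K (GlueDatum.unit K (K ⊗[k] B₀) (K ⊗[k] B₁) (K ⊗[k] B₀₁)).H1 : ℤ) ≤
      (Module.finrank K G.H0 : ℤ) := by
  have h := finrank_H0_sub_finrank_H1 hC K G
  have h1 : (0 : ℤ) ≤ (Module.finrank K G.H1 : ℤ) := Int.natCast_nonneg _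
  linarith

end AlgClosed

end Fermat.Agent.S25.H671

end
-- ===== PACK-END S25/H671/UnitH0.lean

-- ===== PACK-BEGIN S25/H911/ACSpan.lean
section


/-!
# S25 / ALGCHARTS (helper911): spans and semilinear base change

For a semilinear base change `b : N →ₛₗ[ρ] N'` (frozen `IsSemilinearBaseChange`):

* `span_range_eq_top_of_isSemilinearBaseChange` : the image of `b` spans `N'`;
* `span_singleton_map_of_isSemilinearBaseChange` : `R s = J N ⇒ R' b(s) = (J R') N'`;
* `genMod_map_of_isSemilinearBaseChange` : if `s` generates `N` modulo `t` then `b s` generates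
  `N'` modulo `ρ t`.
-/

set_option autoImplicit false
set_option linter.style.haveILetI false

universe u

open scoped TensorProduct

namespace Fermat.Agent.S25.H911

open Fermat.Agent.S25

variable {R R' : Type u} [CommRing R] [CommRing R'] {ρ : R →+* R'}
  {N N' : Type u} [AddCommGroup N] [Module R N] [AddCommGroup N'] [Module R' N']

/-- Induction principle for the target of a semilinear base change. -/
theorem isSemilinearBaseChange_induction {b : N →ₛₗ[ρ] N'} (hb : IsSemilinearBaseChange ρ b)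
    (motive : N' → Prop) (zero : motive 0) (base : ∀ n, motive (b n))
    (smul : ∀ (r : R') (n : N'), motive n → motive (r • n))
    (add : ∀ n₁ n₂, motive n₁ → motive n₂ → motive (n₁ + n₂)) (x : N') : motive x := by
  rw [isSemilinearBaseChange_iff] at hb
  letI : Algebra R R' := ρ.toAlgebra
  letI : Module R N' := Module.compHom N' ρ
  haveI : IsScalarTower R R' N' := ⟨fun r r' n => by
    change (ρ r * r') • n = ρ r • (r' • n); rw [mul_smul]⟩
  exact hb.inductionOn x motive zero base smul add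

/-- The image of a semilinear base change spans the target. -/
theorem span_range_eq_top_of_isSemilinearBaseChange {b : N →ₛₗ[ρ] N'}
    (hb : IsSemilinearBaseChange ρ b) : Submodule.span R' (Set.range b) = ⊤ := by
  rw [eq_top_iff]
  rintro x -
  exact isSemilinearBaseChange_induction hb (fun x => x ∈ Submodule.span R' (Set.range b)) (Submodule.zero_mem _)
    (fun n => Submodule.subset_span ⟨n, rfl⟩) (fun r n h => Submodule.smul_mem _ r h)
    (fun _ _ h₁ h₂ => Submodule.add_mem _ h₁ h₂) x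

/-- The image of `J • ⊤` under a semilinear map lies in `J.map ρ • ⊤`. -/
theorem map_mem_smul_top (b : N →ₛₗ[ρ] N') (J : Ideal R) {n : N}
    (hn : n ∈ (J • ⊤ : Submodule R N)) : b n ∈ (J.map ρ • ⊤ : Submodule R' N') := by
  refine Submodule.smul_induction_on (p := fun n => b n ∈ (J.map ρ • ⊤ : Submodule R' N')) hn
    (fun r hr n _ => ?_) (fun x y hx hy => ?_)
  · change b (r • n) ∈ _
    rw [LinearMap.map_smulₛₗ]
    exact Submodule.smul_mem_smul (Ideal.mem_map_of_mem ρ hr) Submodule.mem_top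
  · rw [map_add]
    exact Submodule.add_mem _ hx hy

/-- **Base change of a divisor of a section**: if `R s = J N` then `R' b(s) = (J R') N'`. -/
theorem span_singleton_map_of_isSemilinearBaseChange {b : N →ₛₗ[ρ] N'}
    (hb : IsSemilinearBaseChange ρ b) (J : Ideal R) (s : N)
    (hs : Submodule.span R {s} = (J • ⊤ : Submodule R N)) :
    Submodule.span R' {b s} = (J.map ρ • ⊤ : Submodule R' N') := by
  apply le_antisymm
  · rw [Submodule.span_singleton_le_iff_mem]
    apply map_mem_smul_top b J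
    rw [← hs]
    exact Submodule.mem_span_singleton_self s
  · rw [Submodule.smul_le]
    intro r' hr' n' _
    -- first for `r' = ρ j`
    have key : ∀ j ∈ J, ∀ n' : N', ρ j • n' ∈ Submodule.span R' {b s} := by
      intro j hj n'
      refine isSemilinearBaseChange_induction hb (fun n' => ρ j • n' ∈ Submodule.span R' {b s}) ?_ ?_ ?_ ?_ n'
      · rw [smul_zero]; exact Submodule.zero_mem _
      · intro n
        have h1 : j • n ∈ (J • ⊤ : Submodule R N) :=
          Submodule.smul_mem_smul hj Submodule.mem_top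
        rw [← hs, Submodule.mem_span_singleton] at h1
        obtain ⟨c, hc⟩ := h1
        rw [← LinearMap.map_smulₛₗ, ← hc, LinearMap.map_smulₛₗ]
        exact Submodule.smul_mem _ _ (Submodule.mem_span_singleton_self _)
      · intro r n h
        rw [smul_comm]
        exact Submodule.smul_mem _ r h
      · intro n₁ n₂ h₁ h₂
        rw [smul_add]
        exact Submodule.add_mem _ h₁ h₂
    refine Submodule.span_induction (p := fun r' _ => r' • n' ∈ Submodule.span R' {b s})
      ?_ ?_ ?_ ?_ hr'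
    · rintro _ ⟨j, hj, rfl⟩
      exact key j hj n'
    · rw [zero_smul]; exact Submodule.zero_mem _
    · intro x y _ _ hx hy
      rw [add_smul]
      exact Submodule.add_mem _ hx hy
    · intro a x _ hx
      rw [smul_eq_mul, mul_smul]
      exact Submodule.smul_mem _ a hx

/-- **Base change of generation modulo `t`**. -/
theorem genMod_map_of_isSemilinearBaseChange {b : N →ₛₗ[ρ] N'}
    (hb : IsSemilinearBaseChange ρ b) (t : R) (s : N)
    (hs : ∀ c : N, ∃ r : R, c - r • s ∈ (Ideal.span {t} • ⊤ : Submodule R N)) :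
    ∀ c : N', ∃ r : R', c - r • b s ∈ (Ideal.span {ρ t} • ⊤ : Submodule R' N') := by
  have hmap : (Ideal.span {t}).map ρ = Ideal.span {ρ t} := by
    rw [Ideal.map_span, Set.image_singleton]
  intro c
  refine isSemilinearBaseChange_induction hb
    (fun c => ∃ r : R', c - r • b s ∈ (Ideal.span {ρ t} • ⊤ : Submodule R' N')) ?_ ?_ ?_ ?_ c
  · exact ⟨0, by rw [zero_smul, sub_zero]; exact Submodule.zero_mem _⟩
  · intro n
    obtain ⟨r, hr⟩ := hs n
    refine ⟨ρ r, ?_⟩
    have h := map_mem_smul_top b (Ideal.span {t}) hr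
    rw [hmap, map_sub, LinearMap.map_smulₛₗ] at h
    exact h
  · rintro r n ⟨r', hr'⟩
    refine ⟨r * r', ?_⟩
    have : r • n - (r * r') • b s = r • (n - r' • b s) := by
      rw [smul_sub, mul_smul]
    rw [this]
    exact Submodule.smul_mem _ r hr'
  · rintro n₁ n₂ ⟨r₁, h₁⟩ ⟨r₂, h₂⟩
    refine ⟨r₁ + r₂, ?_⟩
    have : n₁ + n₂ - (r₁ + r₂) • b s = (n₁ - r₁ • b s) + (n₂ - r₂ • b s) := by
      rw [add_smul]; abel
    rw [this]
    exact Submodule.add_mem _ h₁ h₂

end Fermat.Agent.S25.H911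

end
-- ===== PACK-END S25/H911/ACSpan.lean

-- ===== PACK-BEGIN S25/H10/DegreeTwist.lean
section
/-
S25, block DEGREE (helper10): D1 and D4 in the frozen `DefsAlg` language.

* `finite_H1`, `finite_H0`, `finCoh_cech` (D1);
* `twistStep` : the morphism `G(n) → G(n+1)` (identity on `N₀`, `N₀₁`, multiplication by `y` on `N₁`);
* `finrank_quot_y` : `dim_K N₁ / y N₁ = d`;
* `euler_twistE`, `degree_twistE` (D4): `χ(G(n)) = χ(G) + n d`, `deg G(n) = deg G + n d`;
* `chartDeg_pos`.
-/







set_option autoImplicit false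
set_option linter.unusedSectionVars false

universe u

open scoped TensorProduct

namespace Fermat.Agent.S25.H10

open Fermat.Agent.S25

noncomputable section

variable {k : Type u} [Field k] {B₀ B₁ B₀₁ : Type u} [CommRing B₀] [CommRing B₁] [CommRing B₀₁]
  [Algebra k B₀] [Algebra k B₁] [Algebra k B₀₁] [Algebra B₀ B₀₁] [Algebra B₁ B₀₁]
  [IsScalarTower k B₀ B₀₁] [IsScalarTower k B₁ B₀₁]
  {x : B₀} {y : B₁} {e : B₁ →ₐ[k] k}

/-! ### D1 -/

/-- D1-a. `Ȟ¹` is a finite module over any base ring. -/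
theorem finite_H1 (hC : IsCurveChart k B₀ B₁ B₀₁ x y e) {A : Type u} [CommRing A]
    [Algebra k A] (G : CurveGD k B₀ B₁ B₀₁ A) : Module.Finite A G.H1 := by
  have h := H790.H1_finite (H250.chartCechOps hC G) (isFG_of_isFGProj (H250.isFGProj_X0 hC G)) 0
  have hd := H250.chartCechOps_d_zero hC G
  have e : ((H250.chartCechOps hC G).H1 0) ≃ₗ[A] G.H1 :=
    Submodule.quotEquivOfEq _ _ (by rw [hd])
  exact Module.Finite.equiv e

/-- D1-b. `Ȟ⁰` is finite-dimensional over a field. -/
theorem finite_H0 (hC : IsCurveChart k B₀ B₁ B₀₁ x y e) {K : Type u} [Field K]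
    [Algebra k K] (G : CurveGD k B₀ B₁ B₀₁ K) : Module.Finite K G.H0 := by
  obtain ⟨M, hM, hle⟩ := H250.exists_fg_ge_H0 (H250.chartCechOps hC G) (H250.isFGProj_X0 hC G)
    (H250.isFGProj_Y1 hC G) (H250.r0_injective hC G) (H250.r1_injective hC G) 0
  rw [H250.chartCechOps_H0_zero hC G] at hle
  have : Module.Finite K M := Module.Finite.iff_fg.mpr hM
  exact Module.Finite.of_injective (Submodule.inclusion hle) (Submodule.inclusion_injective hle)

/-- D1. Finite cohomology, in the form used by `H565`. -/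
theorem finCoh_cech (hC : IsCurveChart k B₀ B₁ B₀₁ x y e) {K : Type u} [Field K]
    [Algebra k K] (G : CurveGD k B₀ B₁ B₀₁ K) : H565.FinCoh G.cech :=
  ⟨finite_H0 hC G, finite_H1 hC G⟩

/-! ### The morphism `G(n) → G(n+1)` -/

section Step

variable {A : Type u} [CommRing A] [Algebra k A]

theorem xUnit_inv_val (hxy : algebraMap B₀ B₀₁ x * algebraMap B₁ B₀₁ y = 1) :
    (((xUnit x y hxy A)⁻¹ : (A ⊗[k] B₀₁)ˣ) : A ⊗[k] B₀₁) = (1 : A) ⊗ₜ[k] algebraMap B₁ B₀₁ y :=
  rfl

theorem algebraMap_one_tmul_y :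
    algebraMap (A ⊗[k] B₁) (A ⊗[k] B₀₁) ((1 : A) ⊗ₜ[k] y) = (1 : A) ⊗ₜ[k] algebraMap B₁ B₀₁ y :=
  H250.algebraMap_tensor_tmul A B₁ B₀₁ 1 y

/-- The morphism `G(n) → G(n+1)`: the identity on `N₀` and `N₀₁`, multiplication by `1 ⊗ y` on
`N₁`. -/
def twistStep (hxy : algebraMap B₀ B₀₁ x * algebraMap B₁ B₀₁ y = 1)
    (G : CurveGD k B₀ B₁ B₀₁ A) (n : ℤ) :
    H565.GlueHom (twistE x y hxy G n) (twistE x y hxy G (n + 1)) where
  f₀ := (LinearMap.id : G.N₀ →ₗ[A ⊗[k] B₀] G.N₀)
  f₁ := (LinearMap.lsmul (A ⊗[k] B₁) G.N₁ ((1 : A) ⊗ₜ[k] y) : G.N₁ →ₗ[A ⊗[k] B₁] G.N₁)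
  f₀₁ := (LinearMap.id : G.N₀₁ →ₗ[A ⊗[k] B₀₁] G.N₀₁)
  comm₀ _ := rfl
  comm₁ s := by
    show ((xUnit x y hxy A ^ n : (A ⊗[k] B₀₁)ˣ) : A ⊗[k] B₀₁) • G.r₁ s =
      ((xUnit x y hxy A ^ (n + 1) : (A ⊗[k] B₀₁)ˣ) : A ⊗[k] B₀₁) •
        G.r₁ (((1 : A) ⊗ₜ[k] y : A ⊗[k] B₁) • s)
    have h1 : G.r₁ (((1 : A) ⊗ₜ[k] y : A ⊗[k] B₁) • s) =
        ((1 : A) ⊗ₜ[k] y : A ⊗[k] B₁) • G.r₁ s := G.r₁.map_smul _ _
    have h2 : (((1 : A) ⊗ₜ[k] y : A ⊗[k] B₁) • G.r₁ s : G.N₀₁) =
        (((xUnit x y hxy A)⁻¹ : (A ⊗[k] B₀₁)ˣ) : A ⊗[k] B₀₁) • G.r₁ s := by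
      rw [← algebraMap_smul (A ⊗[k] B₀₁) ((1 : A) ⊗ₜ[k] y : A ⊗[k] B₁) (G.r₁ s),
        algebraMap_one_tmul_y, xUnit_inv_val hxy]
    rw [h1, h2, smul_smul, ← Units.val_mul, zpow_add_one, mul_inv_cancel_right]

end Step

/-! ### `dim_K N₁ / y N₁ = d` -/

section Dim

theorem finrank_quot_tensor_invertible {K R N : Type u} [Field K] [CommRing R] [Algebra K R]
    [AddCommGroup N] [Module R N] [Module.Invertible R N] (I : Ideal R)
    [Module.Finite K (R ⧸ I)] :
    Module.finrank K ((R ⧸ I) ⊗[R] N) = Module.finrank K (R ⧸ I) := by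
  rcases subsingleton_or_nontrivial (R ⧸ I) with h | h
  · have : Subsingleton ((R ⧸ I) ⊗[R] N) := Module.subsingleton (R ⧸ I) _
    rw [Module.finrank_zero_of_subsingleton, Module.finrank_zero_of_subsingleton]
  · have : IsArtinianRing (R ⧸ I) := IsArtinianRing.of_finite K _
    have h1 : Module.finrank (R ⧸ I) ((R ⧸ I) ⊗[R] N) = 1 :=
      Module.Invertible.finrank_eq_one _ _
    have h2 := Module.finrank_mul_finrank K (R ⧸ I) ((R ⧸ I) ⊗[R] N)
    rw [h1, mul_one] at h2
    exact h2.symm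

/-- For an invertible module `N` over a `K`-algebra `R` and `t : R` with `R / (t)`
finite-dimensional: `dim_K N / t N = dim_K R / (t)`. -/
theorem finrank_quot_smul_invertible {K R N : Type u} [Field K] [CommRing R] [Algebra K R]
    [AddCommGroup N] [Module R N] [Module K N] [IsScalarTower K R N] [Module.Invertible R N]
    (t : R) [Module.Finite K (R ⧸ Ideal.span {t})] :
    Module.finrank K (N ⧸ LinearMap.range ((LinearMap.lsmul R N t).restrictScalars K)) =
      Module.finrank K (R ⧸ Ideal.span {t}) := by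
  rw [← finrank_quot_tensor_invertible (N := N) (Ideal.span {t})]
  have e1 : ((R ⧸ Ideal.span {t}) ⊗[R] N) ≃ₗ[K] N ⧸ (Ideal.span {t} • (⊤ : Submodule R N)) :=
    (TensorProduct.quotTensorEquivQuotSMul N (Ideal.span {t})).restrictScalars K
  have hEq : ((Ideal.span {t} • (⊤ : Submodule R N)).restrictScalars K) =
      LinearMap.range ((LinearMap.lsmul R N t).restrictScalars K) := by
    ext n
    rw [Submodule.restrictScalars_mem, Submodule.ideal_span_singleton_smul,
      Submodule.mem_smul_pointwise_iff_exists]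
    simp [LinearMap.mem_range]
  have e2 : (N ⧸ LinearMap.range ((LinearMap.lsmul R N t).restrictScalars K)) ≃ₗ[K]
      N ⧸ (Ideal.span {t} • (⊤ : Submodule R N)) :=
    (Submodule.quotEquivOfEq _ _ hEq.symm).trans
      (Submodule.Quotient.restrictScalarsEquiv K _)
  exact (e2.trans e1.symm).finrank_eq

/-- `B / (y)` is finite over `k` when `B` is finite over `k[y]`. -/
theorem finite_quot_span_of_aeval_finite {B : Type u} [CommRing B] [Algebra k B] (y : B)
    (h : (Polynomial.aeval y : Polynomial k →ₐ[k] B).Finite) :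
    Module.Finite k (B ⧸ Ideal.span {y}) := by
  apply H250.finite_of_aeval_zero_finite
  have h1 : (Polynomial.aeval (0 : B ⧸ Ideal.span {y}) :
      Polynomial k →ₐ[k] (B ⧸ Ideal.span {y})).toRingHom =
      (Ideal.Quotient.mk (Ideal.span {y})).comp
        (Polynomial.aeval y : Polynomial k →ₐ[k] B).toRingHom := by
    apply Polynomial.ringHom_ext
    · intro a
      simp
    · simp
  show (Polynomial.aeval (0 : B ⧸ Ideal.span {y}) :
      Polynomial k →ₐ[k] (B ⧸ Ideal.span {y})).toRingHom.Finite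
  rw [h1]
  exact (RingHom.Finite.of_surjective _ Ideal.Quotient.mk_surjective).comp h

/-- The base change of `B / (y)` to `K`. -/
def tensorQuotSpanEquiv (K : Type u) [Field K] [Algebra k K] {B : Type u} [CommRing B]
    [Algebra k B] (y : B) :
    (K ⊗[k] (B ⧸ Ideal.span {y})) ≃ₗ[K] (K ⊗[k] B) ⧸ Ideal.span {(1 : K) ⊗ₜ[k] y} :=
  (Algebra.TensorProduct.tensorQuotientEquiv (R := k) K B K (Ideal.span {y})).toLinearEquiv.trans
    ((Submodule.quotEquivOfEq
      ((Ideal.span {y}).map (Algebra.TensorProduct.includeRight (R := k) (A := K) (B := B)))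
      (Ideal.span {(1 : K) ⊗ₜ[k] y}) (by
        rw [Ideal.map_span, Set.image_singleton]
        rfl)).restrictScalars K)

theorem finite_tensor_quot_span (K : Type u) [Field K] [Algebra k K] {B : Type u} [CommRing B]
    [Algebra k B] (y : B) [Module.Finite k (B ⧸ Ideal.span {y})] :
    Module.Finite K ((K ⊗[k] B) ⧸ Ideal.span {(1 : K) ⊗ₜ[k] y}) :=
  Module.Finite.equiv (tensorQuotSpanEquiv K y)

theorem finrank_tensor_quot_span (K : Type u) [Field K] [Algebra k K] {B : Type u} [CommRing B]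
    [Algebra k B] (y : B) :
    Module.finrank K ((K ⊗[k] B) ⧸ Ideal.span {(1 : K) ⊗ₜ[k] y}) =
      Module.finrank k (B ⧸ Ideal.span {y}) := by
  rw [← (tensorQuotSpanEquiv K y).finrank_eq, Module.finrank_baseChange]

end Dim

/-! ### D4 -/

section Main

variable {K : Type u} [Field K] [Algebra k K]

theorem finite_quot_smul_invertible {K R N : Type u} [Field K] [CommRing R] [Algebra K R]
    [AddCommGroup N] [Module R N] [Module K N] [IsScalarTower K R N] [Module.Invertible R N]
    (t : R) [Module.Finite K (R ⧸ Ideal.span {t})] :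
    Module.Finite K (N ⧸ LinearMap.range ((LinearMap.lsmul R N t).restrictScalars K)) := by
  have e1 : ((R ⧸ Ideal.span {t}) ⊗[R] N) ≃ₗ[K] N ⧸ (Ideal.span {t} • (⊤ : Submodule R N)) :=
    (TensorProduct.quotTensorEquivQuotSMul N (Ideal.span {t})).restrictScalars K
  have hEq : ((Ideal.span {t} • (⊤ : Submodule R N)).restrictScalars K) =
      LinearMap.range ((LinearMap.lsmul R N t).restrictScalars K) := by
    ext n
    rw [Submodule.restrictScalars_mem, Submodule.ideal_span_singleton_smul,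
      Submodule.mem_smul_pointwise_iff_exists]
    simp [LinearMap.mem_range]
  have e2 : (N ⧸ LinearMap.range ((LinearMap.lsmul R N t).restrictScalars K)) ≃ₗ[K]
      N ⧸ (Ideal.span {t} • (⊤ : Submodule R N)) :=
    (Submodule.quotEquivOfEq _ _ hEq.symm).trans
      (Submodule.Quotient.restrictScalarsEquiv K _)
  have : Module.Finite K ((R ⧸ Ideal.span {t}) ⊗[R] N) :=
    Module.Finite.trans (R ⧸ Ideal.span {t}) _
  exact Module.Finite.equiv (e2.trans e1.symm).symm

theorem finrank_quot_range_id {N : Type u} [AddCommGroup N] [Module K N] :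
    Module.finrank K (N ⧸ LinearMap.range (LinearMap.id : N →ₗ[K] N)) = 0 := by
  have : Subsingleton (N ⧸ LinearMap.range (LinearMap.id : N →ₗ[K] N)) := by
    rw [Submodule.Quotient.subsingleton_iff, LinearMap.range_id]
  exact Module.finrank_zero_of_subsingleton

/-- `χ(G(n+1)) = χ(G(n)) + d`. -/
theorem euler_twistE_succ (hC : IsCurveChart k B₀ B₁ B₀₁ x y e)
    (G : CurveGD k B₀ B₁ B₀₁ K) (n : ℤ) :
    (twistE x y hC.mul_eq_one G (n + 1)).euler =
      (twistE x y hC.mul_eq_one G n).euler + chartDeg k y := by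
  have := hC.away₀
  have hloc : IsLocalization.Away ((1 : K) ⊗ₜ[k] x : K ⊗[k] B₀) (K ⊗[k] B₀₁) :=
    H250.isLocalization_away_tensor B₀ B₀₁ x
  have hfin : Module.Finite k (B₁ ⧸ Ideal.span {y}) :=
    finite_quot_span_of_aeval_finite y hC.finite₁
  have hfinK : Module.Finite K ((K ⊗[k] B₁) ⧸ Ideal.span {(1 : K) ⊗ₜ[k] y}) :=
    finite_tensor_quot_span K y
  have hinv : Module.Invertible (K ⊗[k] B₁) G.N₁ := G.invertible₁
  set φ := twistStep hC.mul_eq_one G n with hφ
  have h0inj : Function.Injective φ.f₀ := fun _ _ h => h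
  have h1inj : Function.Injective φ.f₁ := by
    have h := injective_of_isFGProj (H250.isFGProj_Y1 hC G)
    exact h
  have hc0 : Module.finrank K φ.coker₀ = 0 := finrank_quot_range_id (K := K) (N := G.N₀)
  have hc01 : Module.finrank K φ.coker₀₁ = 0 := finrank_quot_range_id (K := K) (N := G.N₀₁)
  have hc1 : Module.finrank K φ.coker₁ = chartDeg k y := by
    have h := finrank_quot_smul_invertible (K := K) (R := K ⊗[k] B₁) (N := G.N₁)
      ((1 : K) ⊗ₜ[k] y)
    rw [finrank_tensor_quot_span] at h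
    exact h
  have hf0 : FiniteDimensional K φ.coker₀ := by
    have : Subsingleton (G.N₀ ⧸ LinearMap.range (LinearMap.id : G.N₀ →ₗ[K] G.N₀)) := by
      rw [Submodule.Quotient.subsingleton_iff, LinearMap.range_id]
    exact (inferInstance :
      Module.Finite K (G.N₀ ⧸ LinearMap.range (LinearMap.id : G.N₀ →ₗ[K] G.N₀)))
  have hf1 : FiniteDimensional K φ.coker₁ :=
    finite_quot_smul_invertible (K := K) (R := K ⊗[k] B₁) (N := G.N₁) ((1 : K) ⊗ₜ[k] y)
  have h := (φ.euler_eq ((1 : K) ⊗ₜ[k] x) h0inj h1inj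
    (finCoh_cech hC (twistE x y hC.mul_eq_one G n))).2
  rw [h, hc0, hc01, hc1]
  simp

end Main

section Main2

variable {K : Type u} [Field K] [Algebra k K]

theorem gdTwist_one_cech {A R₀ R₁ R₀₁ : Type u} [CommRing A] [CommRing R₀] [CommRing R₁]
    [CommRing R₀₁] [Algebra A R₀] [Algebra A R₁] [Algebra A R₀₁] [Algebra R₀ R₀₁]
    [Algebra R₁ R₀₁] [IsScalarTower A R₀ R₀₁] [IsScalarTower A R₁ R₀₁]
    (G : GlueDatum A R₀ R₁ R₀₁) :
    ((gdTwist G 1).cech : (G.N₀ × G.N₁) →ₗ[A] G.N₀₁) = G.cech := by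
  apply LinearMap.ext
  rintro ⟨a, b⟩
  rw [gdTwist_cech_apply, Units.val_one, one_smul, sub_eq_add_neg]
  rfl

theorem gdTwist_one_euler {R₀ R₁ R₀₁ : Type u} [CommRing R₀] [CommRing R₁]
    [CommRing R₀₁] [Algebra K R₀] [Algebra K R₁] [Algebra K R₀₁] [Algebra R₀ R₀₁]
    [Algebra R₁ R₀₁] [IsScalarTower K R₀ R₀₁] [IsScalarTower K R₁ R₀₁]
    (G : GlueDatum K R₀ R₁ R₀₁) : (gdTwist G 1).euler = G.euler := by
  show H565.chi ((gdTwist G 1).cech : (G.N₀ × G.N₁) →ₗ[K] G.N₀₁) = H565.chi G.cech
  rw [gdTwist_one_cech]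
  rfl

/-- D4-a. `χ(G(n)) = χ(G) + n d`. -/
theorem euler_twistE (hC : IsCurveChart k B₀ B₁ B₀₁ x y e)
    (G : CurveGD k B₀ B₁ B₀₁ K) (n : ℤ) :
    (twistE x y hC.mul_eq_one G n).euler = G.euler + n * chartDeg k y := by
  induction n using Int.induction_on with
  | zero =>
    have h : twistE x y hC.mul_eq_one G 0 = gdTwist G 1 := by
      unfold twistE
      rw [zpow_zero]
    rw [h, gdTwist_one_euler]
    simp
  | succ n ih =>
    rw [euler_twistE_succ hC G n, ih]
    ring
  | pred n ih =>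
    have h := euler_twistE_succ hC G (-(n : ℤ) - 1)
    rw [sub_add_cancel, ih] at h
    have h' : (twistE x y hC.mul_eq_one G (-(n : ℤ) - 1)).euler =
        G.euler + -(n : ℤ) * chartDeg k y - chartDeg k y := by
      rw [h]; ring
    rw [h']
    ring

/-- D4-b. `deg G(n) = deg G + n d`. -/
theorem degree_twistE (hC : IsCurveChart k B₀ B₁ B₀₁ x y e)
    (G : CurveGD k B₀ B₁ B₀₁ K) (n : ℤ) :
    (twistE x y hC.mul_eq_one G n).degree = G.degree + n * chartDeg k y := by
  unfold GlueDatum.degree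
  rw [euler_twistE hC G n]
  ring

/-- D4-c. `d > 0`. -/
theorem chartDeg_pos (hC : IsCurveChart k B₀ B₁ B₀₁ x y e) : 0 < chartDeg k y := by
  have hfin : Module.Finite k (B₁ ⧸ Ideal.span {y}) :=
    finite_quot_span_of_aeval_finite y hC.finite₁
  have hne : Ideal.span {y} ≠ (⊤ : Ideal B₁) := by
    intro h
    have h1 : (1 : B₁) ∈ Ideal.span {y} := by rw [h]; trivial
    rw [Ideal.mem_span_singleton'] at h1
    obtain ⟨a, ha⟩ := h1
    have := congrArg e ha
    rw [map_mul, hC.e_y, mul_zero, map_one] at this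
    exact zero_ne_one this
  have : Nontrivial (B₁ ⧸ Ideal.span {y}) := Ideal.Quotient.nontrivial_iff.mpr hne
  exact Module.finrank_pos

end Main2

end

end Fermat.Agent.S25.H10

end
-- ===== PACK-END S25/H10/DegreeTwist.lean

-- ===== PACK-BEGIN S25/H310/DegreeD2.lean
section
/-
S25, block DEGREE (helper310): leaves D2 (invariance under isomorphism / field extension),
`unit_isBC`, `twistE_isBC`, D8-c (`cech_surjective_of_isBC`, `mapH0_isBaseChange`), in the EXACT
shapes of `H10/DegreeSkel.lean` (namespace `Fermat.Agent.S25.H310.D2`).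

None of these needs the curve-chart hypothesis `hC` (it is kept for the frozen shape): only that
`k` is a field, so that `A ⊗[k] B₀₁` is a free `A`-module.
-/




set_option autoImplicit false

universe u

open scoped TensorProduct

namespace Fermat.Agent.S25.H310

open Fermat.Agent.S25 Fermat.Agent.S25.H10

/-! ### Projectivity over the base ring -/

section Proj

/-- A projective module over an `A`-algebra `R` which is free as an `A`-module is projective over
`A`. -/
theorem projective_of_tower (A R M : Type*) [CommRing A] [CommRing R] [Algebra A R]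
    [Module.Free A R] [AddCommGroup M] [Module R M] [Module A M] [IsScalarTower A R M]
    [Module.Projective R M] : Module.Projective A M := by
  obtain ⟨s, hs⟩ := (Module.projective_def' (R := R) (P := M)).mp inferInstance
  exact Module.Projective.of_split (s.restrictScalars A)
    ((Finsupp.linearCombination R (id : M → M)).restrictScalars A)
    (LinearMap.ext fun m => LinearMap.congr_fun hs m)

variable {A R₀ R₁ R₀₁ : Type u} [CommRing A] [CommRing R₀] [CommRing R₁]
    [CommRing R₀₁] [Algebra A R₀] [Algebra A R₁] [Algebra A R₀₁] [Algebra R₀ R₀₁]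
    [Algebra R₁ R₀₁] [IsScalarTower A R₀ R₀₁] [IsScalarTower A R₁ R₀₁]

/-- `N₀₁` is projective over `R₀₁`. -/
theorem projective_N₀₁ (G : GlueDatum A R₀ R₁ R₀₁) : Module.Projective R₀₁ G.N₀₁ := by
  have := G.invertible₀
  exact Module.Projective.of_equiv G.isBaseChange₀.equiv

/-- `N₀₁` is projective over the base ring `A` when `R₀₁` is `A`-free. -/
theorem projective_N₀₁_base (G : GlueDatum A R₀ R₁ R₀₁) [Module.Free A R₀₁] :
    Module.Projective A G.N₀₁ := by
  have := projective_N₀₁ G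
  exact projective_of_tower A R₀₁ G.N₀₁

/-- A surjective Čech differential has an `A`-linear section (when `R₀₁` is `A`-free). -/
theorem exists_section_cech (G : GlueDatum A R₀ R₁ R₀₁) [Module.Free A R₀₁]
    (h : Function.Surjective G.cech) : ∃ σ : G.N₀₁ →ₗ[A] G.N₀ × G.N₁, G.cech ∘ₗ σ = LinearMap.id := by
  have := projective_N₀₁_base G
  exact Module.projective_lifting_property G.cech LinearMap.id h

end Proj

variable {k : Type u} [Field k] {B₀ B₁ B₀₁ : Type u} [CommRing B₀] [CommRing B₁] [CommRing B₀₁]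
  [Algebra k B₀] [Algebra k B₁] [Algebra k B₀₁] [Algebra B₀ B₀₁] [Algebra B₁ B₀₁]
  [IsScalarTower k B₀ B₀₁] [IsScalarTower k B₁ B₀₁]

/-! ### Passing from `φ : A →ₐ[k] A'` to an `Algebra A A'` instance -/

section Phi

variable {A A' : Type u} [CommRing A] [Algebra k A] [CommRing A'] [Algebra k A']

/-- `Ȟ¹ = 0` is preserved by every base change. -/
theorem cech_surjective_of_isBC' (φ : A →ₐ[k] A')
    {G : CurveGD k B₀ B₁ B₀₁ A} {G' : CurveGD k B₀ B₁ B₀₁ A'} (h : CurveGD.IsBC φ G G')
    (hs : Function.Surjective G.cech) : Function.Surjective G'.cech := by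
  let : Algebra A A' := φ.toRingHom.toAlgebra
  have : IsScalarTower k A A' := IsScalarTower.of_algebraMap_eq' φ.comp_algebraMap.symm
  have hφ : IsScalarTower.toAlgHom k A A' = φ := AlgHom.ext fun _ => rfl
  rw [← hφ] at h
  obtain ⟨bm⟩ := h
  exact BCMaps.cech_surjective bm hs

/-- The unit datum over `A'` is a base change of the unit datum over `A`. -/
theorem unit_isBC' (φ : A →ₐ[k] A') :
    CurveGD.IsBC (B₀ := B₀) (B₁ := B₁) (B₀₁ := B₀₁) φ
      (GlueDatum.unit A (A ⊗[k] B₀) (A ⊗[k] B₁) (A ⊗[k] B₀₁))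
      (GlueDatum.unit A' (A' ⊗[k] B₀) (A' ⊗[k] B₁) (A' ⊗[k] B₀₁)) := by
  let : Algebra A A' := φ.toRingHom.toAlgebra
  have : IsScalarTower k A A' := IsScalarTower.of_algebraMap_eq' φ.comp_algebraMap.symm
  have hφ : IsScalarTower.toAlgHom k A A' = φ := AlgHom.ext fun _ => rfl
  rw [← hφ]
  exact ⟨unitBCMaps⟩

/-- Twists commute with base change. -/
theorem twistE_isBC' {x : B₀} {y : B₁}
    (hxy : algebraMap B₀ B₀₁ x * algebraMap B₁ B₀₁ y = 1) (φ : A →ₐ[k] A')
    {G : CurveGD k B₀ B₁ B₀₁ A} {G' : CurveGD k B₀ B₁ B₀₁ A'} (h : CurveGD.IsBC φ G G')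
    (n : ℤ) : CurveGD.IsBC φ (twistE x y hxy G n) (twistE x y hxy G' n) := by
  obtain ⟨bm⟩ := h
  have hu : Units.map (tensorMapLeft k φ B₀₁ : A ⊗[k] B₀₁ →* A' ⊗[k] B₀₁) (xUnit x y hxy A) =
      xUnit x y hxy A' := by
    apply Units.ext
    change tensorMapLeft k φ B₀₁ ((1 : A) ⊗ₜ[k] algebraMap B₀ B₀₁ x) =
      (1 : A') ⊗ₜ[k] algebraMap B₀ B₀₁ x
    simp [tensorMapLeft]
  have hun : tensorMapLeft k φ B₀₁ ((xUnit x y hxy A ^ n : (A ⊗[k] B₀₁)ˣ) : A ⊗[k] B₀₁) =
      ((xUnit x y hxy A' ^ n : (A' ⊗[k] B₀₁)ˣ) : A' ⊗[k] B₀₁) := by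
    rw [← hu, ← map_zpow]
    rfl
  exact ⟨{ b₀ := bm.b₀
           b₁ := bm.b₁
           b₀₁ := bm.b₀₁
           comm₀ := bm.comm₀
           comm₁ := fun s => by
             change bm.b₀₁ (((xUnit x y hxy A ^ n : (A ⊗[k] B₀₁)ˣ) : A ⊗[k] B₀₁) • G.r₁ s) =
               ((xUnit x y hxy A' ^ n : (A' ⊗[k] B₀₁)ˣ) : A' ⊗[k] B₀₁) • G'.r₁ (bm.b₁ s)
             rw [LinearMap.map_smulₛₗ, bm.comm₁, hun]
           isBaseChange₀ := bm.isBaseChange₀
           isBaseChange₁ := bm.isBaseChange₁
           isBaseChange₀₁ := bm.isBaseChange₀₁ }⟩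

end Phi

/-! ### `Ȟ⁰` commutes with base change when `Ȟ¹ = 0` -/

section H0BC

variable {A A' : Type u} [CommRing A] [Algebra k A] [CommRing A'] [Algebra k A']
  [Algebra A A'] [IsScalarTower k A A']
  {G : CurveGD k B₀ B₁ B₀₁ A} {G' : CurveGD k B₀ B₁ B₀₁ A'}

/-- If `Ȟ¹(G) = 0` then `A' ⊗[A] Ȟ⁰(G) ≃ Ȟ⁰(G')` for EVERY base change `G'` of `G`. -/
theorem BCMaps.exists_H0Equiv_of_surjective (bm : BCMaps G G')
    (hs : Function.Surjective G.cech) :
    ∃ e : A' ⊗[A] G.H0 ≃ₗ[A'] G'.H0, ∀ (a : A') (s : G.H0),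
      ((e (a ⊗ₜ[A] s) : G'.H0) : G'.N₀ × G'.N₁) =
        (a • bm.b₀ (s : G.N₀ × G.N₁).1, a • bm.b₁ (s : G.N₀ × G.N₁).2) := by
  obtain ⟨σ, hσ⟩ := exists_section_cech G hs
  have hgi : IsGeneralizedInverse G.cech σ := by
    show G.cech ∘ₗ σ ∘ₗ G.cech = G.cech
    rw [← LinearMap.comp_assoc, hσ, LinearMap.id_comp]
  have hinj := hgi.baseChange_subtype_injective A'
  have hrange := hgi.ker_baseChange A'
  -- the canonical map `A' ⊗ ker → ker (A' ⊗ cech)`
  let j : A' ⊗[A] G.H0 →ₗ[A'] LinearMap.ker (G.cech.baseChange A') :=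
    LinearMap.codRestrict _ ((LinearMap.ker G.cech).subtype.baseChange A') (fun z => by
      rw [hrange]
      exact ⟨z, rfl⟩)
  have hj : Function.Bijective j := by
    constructor
    · intro z z' hzz'
      apply hinj
      exact congrArg Subtype.val hzz'
    · rintro ⟨w, hw⟩
      rw [hrange] at hw
      obtain ⟨z, rfl⟩ := hw
      exact ⟨z, Subtype.ext rfl⟩
  refine ⟨(LinearEquiv.ofBijective j hj) ≪≫ₗ BCMaps.kerEquiv bm, fun a s => ?_⟩
  change bm.equivProd ((LinearMap.ker G.cech).subtype.baseChange A' (a ⊗ₜ[A] s)) = _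
  rw [LinearMap.baseChange_tmul, BCMaps.equivProd_tmul]
  rfl

end H0BC

/-! ### The exact shapes of `DegreeSkel.lean` -/

namespace D2

section Field

variable {K R₀ R₁ R₀₁ : Type u} [Field K] [CommRing R₀] [CommRing R₁]
    [CommRing R₀₁] [Algebra K R₀] [Algebra K R₁] [Algebra K R₀₁] [Algebra R₀ R₀₁]
    [Algebra R₁ R₀₁] [IsScalarTower K R₀ R₀₁] [IsScalarTower K R₁ R₀₁]

/-- D2-a. -/
theorem euler_eq_of_isIso {G G' : GlueDatum K R₀ R₁ R₀₁} (h : G.IsIso G') :
    G.euler = G'.euler := Fermat.Agent.S25.H310.euler_eq_of_isIso h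

/-- D2-a'. -/
theorem degree_eq_of_isIso {G G' : GlueDatum K R₀ R₁ R₀₁} (h : G.IsIso G') :
    G.degree = G'.degree := Fermat.Agent.S25.H310.degree_eq_of_isIso h

end Field

variable {x : B₀} {y : B₁} {e : B₁ →ₐ[k] k}

/-- D2-b. The unit datum over `A'` is a base change of the unit datum over `A`. -/
theorem unit_isBC {A A' : Type u} [CommRing A] [Algebra k A] [CommRing A'] [Algebra k A']
    (φ : A →ₐ[k] A') :
    CurveGD.IsBC (B₀ := B₀) (B₁ := B₁) (B₀₁ := B₀₁) φ
      (GlueDatum.unit A (A ⊗[k] B₀) (A ⊗[k] B₁) (A ⊗[k] B₀₁))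
      (GlueDatum.unit A' (A' ⊗[k] B₀) (A' ⊗[k] B₁) (A' ⊗[k] B₀₁)) := unit_isBC' φ

/-- D2-c. Twists commute with base change. -/
theorem twistE_isBC (hC : IsCurveChart k B₀ B₁ B₀₁ x y e) {A A' : Type u} [CommRing A]
    [Algebra k A] [CommRing A'] [Algebra k A'] (φ : A →ₐ[k] A')
    {G : CurveGD k B₀ B₁ B₀₁ A} {G' : CurveGD k B₀ B₁ B₀₁ A'} (h : CurveGD.IsBC φ G G')
    (n : ℤ) :
    CurveGD.IsBC φ (twistE x y hC.mul_eq_one G n) (twistE x y hC.mul_eq_one G' n) :=
  twistE_isBC' hC.mul_eq_one φ h n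

/-- D2-d. Flat base change: `χ` is invariant under field extension. -/
theorem euler_eq_of_isBC (_hC : IsCurveChart k B₀ B₁ B₀₁ x y e) {K K' : Type u} [Field K]
    [Field K'] [Algebra k K] [Algebra k K'] (φ : K →ₐ[k] K') {G : CurveGD k B₀ B₁ B₀₁ K}
    {G' : CurveGD k B₀ B₁ B₀₁ K'} (h : CurveGD.IsBC φ G G') : G'.euler = G.euler :=
  Fermat.Agent.S25.H310.euler_eq_of_isBC φ h

/-- D2-d'. More precisely `h⁰` and `h¹` are invariant. -/
theorem finrank_H0_eq_of_isBC (_hC : IsCurveChart k B₀ B₁ B₀₁ x y e) {K K' : Type u} [Field K]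
    [Field K'] [Algebra k K] [Algebra k K'] (φ : K →ₐ[k] K') {G : CurveGD k B₀ B₁ B₀₁ K}
    {G' : CurveGD k B₀ B₁ B₀₁ K'} (h : CurveGD.IsBC φ G G') :
    Module.finrank K' G'.H0 = Module.finrank K G.H0 := by
  let : Algebra K K' := φ.toRingHom.toAlgebra
  have : IsScalarTower k K K' := IsScalarTower.of_algebraMap_eq' φ.comp_algebraMap.symm
  have hφ : IsScalarTower.toAlgHom k K K' = φ := AlgHom.ext fun _ => rfl
  rw [← hφ] at h
  obtain ⟨bm⟩ := h
  exact BCMaps.finrank_H0_eq bm

theorem finrank_H1_eq_of_isBC (_hC : IsCurveChart k B₀ B₁ B₀₁ x y e) {K K' : Type u} [Field K]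
    [Field K'] [Algebra k K] [Algebra k K'] (φ : K →ₐ[k] K') {G : CurveGD k B₀ B₁ B₀₁ K}
    {G' : CurveGD k B₀ B₁ B₀₁ K'} (h : CurveGD.IsBC φ G G') :
    Module.finrank K' G'.H1 = Module.finrank K G.H1 := by
  let : Algebra K K' := φ.toRingHom.toAlgebra
  have : IsScalarTower k K K' := IsScalarTower.of_algebraMap_eq' φ.comp_algebraMap.symm
  have hφ : IsScalarTower.toAlgHom k K K' = φ := AlgHom.ext fun _ => rfl
  rw [← hφ] at h
  obtain ⟨bm⟩ := h
  exact BCMaps.finrank_H1_eq bm

/-- D2-e. The degree is invariant under field extension. -/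
theorem degree_eq_of_isBC (_hC : IsCurveChart k B₀ B₁ B₀₁ x y e) {K K' : Type u} [Field K]
    [Field K'] [Algebra k K] [Algebra k K'] (φ : K →ₐ[k] K') {G : CurveGD k B₀ B₁ B₀₁ K}
    {G' : CurveGD k B₀ B₁ B₀₁ K'} (h : CurveGD.IsBC φ G G') : G'.degree = G.degree :=
  Fermat.Agent.S25.H310.degree_eq_of_isBC φ h

/-- D8-c. If `Ȟ¹ = 0` then `Ȟ¹` of every base change vanishes. -/
theorem cech_surjective_of_isBC (_hC : IsCurveChart k B₀ B₁ B₀₁ x y e) {A A' : Type u}
    [CommRing A] [Algebra k A] [CommRing A'] [Algebra k A'] (φ : A →ₐ[k] A')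
    {G : CurveGD k B₀ B₁ B₀₁ A} {G' : CurveGD k B₀ B₁ B₀₁ A'} (h : CurveGD.IsBC φ G G')
    (hs : Function.Surjective G.cech) : Function.Surjective G'.cech :=
  cech_surjective_of_isBC' φ h hs

/-- D8-c'. If `Ȟ¹ = 0` then `Ȟ⁰` commutes with every base change. -/
theorem mapH0_isBaseChange (_hC : IsCurveChart k B₀ B₁ B₀₁ x y e) {A A' : Type u}
    [CommRing A] [Algebra k A] [CommRing A'] [Algebra k A'] (φ : A →ₐ[k] A')
    {G : CurveGD k B₀ B₁ B₀₁ A} {G' : CurveGD k B₀ B₁ B₀₁ A'}
    (bc : GlueDatum.BaseChangeMaps (tensorMapLeft k φ B₀) (tensorMapLeft k φ B₁)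
      (tensorMapLeft k φ B₀₁) G G') (hs : Function.Surjective G.cech) :
    IsSemilinearBaseChange φ.toRingHom (mapH0 φ bc) := by
  let : Algebra A A' := φ.toRingHom.toAlgebra
  have : IsScalarTower k A A' := IsScalarTower.of_algebraMap_eq' φ.comp_algebraMap.symm
  have hφ : IsScalarTower.toAlgHom k A A' = φ := rfl
  obtain ⟨e, he⟩ := BCMaps.exists_H0Equiv_of_surjective (G := G) (G' := G')
    (show BCMaps G G' from bc) hs
  unfold IsSemilinearBaseChange
  let : Module A G'.H0 := Module.compHom G'.H0 φ.toRingHom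
  have : IsScalarTower A A' G'.H0 := ⟨fun r r' n => by
    change (φ.toRingHom r * r') • n = φ.toRingHom r • (r' • n)
    rw [mul_smul]⟩
  refine IsBaseChange.of_equiv e (fun s => ?_)
  apply Subtype.ext
  rw [he]
  simp only [one_smul]
  rfl

end D2

end Fermat.Agent.S25.H310

end
-- ===== PACK-END S25/H310/DegreeD2.lean

-- ===== PACK-BEGIN S25/H325/GDCSemiOps.lean
section
/-
S25 helper (helper325), block GDC item 7, part 4: semilinear base change of tensor products
and of `Hom` (frozen `IsSemilinearBaseChange` of `DefsAlg.lean`).  Pure algebra.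
-/






set_option autoImplicit false
set_option linter.style.haveILetI false

universe u

open TensorProduct

namespace Fermat.Agent.S25.H325

open Fermat.Agent.S25

noncomputable section

variable {R R' : Type u} [CommRing R] [CommRing R'] (ρ : R →+* R')
  {N N' M M' : Type u} [AddCommGroup N] [Module R N] [AddCommGroup N'] [Module R' N']
  [AddCommGroup M] [Module R M] [AddCommGroup M'] [Module R' M']

/-- The linear map underlying a semilinear map, for the module structure on the target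
obtained by restriction of scalars along `ρ`. -/
def semiToLin (b : N →ₛₗ[ρ] N') :
    letI : Module R N' := Module.compHom N' ρ
    N →ₗ[R] N' :=
  letI : Module R N' := Module.compHom N' ρ
  { toFun := fun n => b n
    map_add' := fun m n => b.map_add m n
    map_smul' := fun r n => LinearMap.map_smulₛₗ b r n }

/-- The tensor product of two `ρ`-semilinear maps. -/
def semiTensor (b : N →ₛₗ[ρ] N') (c : M →ₛₗ[ρ] M') : N ⊗[R] M →ₛₗ[ρ] N' ⊗[R'] M' :=
  letI : Algebra R R' := ρ.toAlgebra
  letI : Module R N' := Module.compHom N' ρ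
  letI : Module R M' := Module.compHom M' ρ
  haveI : IsScalarTower R R' N' := ⟨fun r r' n => by
    change (ρ r * r') • n = ρ r • (r' • n); rw [mul_smul]⟩
  haveI : IsScalarTower R R' M' := ⟨fun r r' n => by
    change (ρ r * r') • n = ρ r • (r' • n); rw [mul_smul]⟩
  { toFun := fun z => tensorRes (S := R') (semiToLin ρ b) (semiToLin ρ c) z
    map_add' := fun x y => map_add _ x y
    map_smul' := fun r z => by
      rw [map_smul]
      change r • _ = (algebraMap R R' r) • _
      rw [algebraMap_smul] }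

@[simp] theorem semiTensor_tmul (b : N →ₛₗ[ρ] N') (c : M →ₛₗ[ρ] M') (n : N) (m : M) :
    semiTensor ρ b c (n ⊗ₜ[R] m) = b n ⊗ₜ[R'] c m := by
  letI : Algebra R R' := ρ.toAlgebra
  letI : Module R N' := Module.compHom N' ρ
  letI : Module R M' := Module.compHom M' ρ
  haveI : IsScalarTower R R' N' := ⟨fun r r' n => by
    change (ρ r * r') • n = ρ r • (r' • n); rw [mul_smul]⟩
  haveI : IsScalarTower R R' M' := ⟨fun r r' n => by
    change (ρ r * r') • n = ρ r • (r' • n); rw [mul_smul]⟩
  exact tensorRes_tmul (S := R') (semiToLin ρ b) (semiToLin ρ c) n m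

/-- The tensor product of two semilinear base changes is a semilinear base change. -/
theorem isSemilinearBaseChange_semiTensor {b : N →ₛₗ[ρ] N'} {c : M →ₛₗ[ρ] M'}
    (hb : IsSemilinearBaseChange ρ b) (hc : IsSemilinearBaseChange ρ c) :
    IsSemilinearBaseChange ρ (semiTensor ρ b c) := by
  letI : Algebra R R' := ρ.toAlgebra
  letI : Module R N' := Module.compHom N' ρ
  letI : Module R M' := Module.compHom M' ρ
  haveI : IsScalarTower R R' N' := ⟨fun r r' n => by
    change (ρ r * r') • n = ρ r • (r' • n); rw [mul_smul]⟩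
  haveI : IsScalarTower R R' M' := ⟨fun r r' n => by
    change (ρ r * r') • n = ρ r • (r' • n); rw [mul_smul]⟩
  have hb' : IsBaseChange R' (semiToLin ρ b) := hb
  have hc' : IsBaseChange R' (semiToLin ρ c) := hc
  exact H371.isSemilinearBaseChange_of_isBaseChange ρ (fun _ => rfl) (semiTensor ρ b c)
    (tensorRes (S := R') (semiToLin ρ b) (semiToLin ρ c)) (fun _ => rfl)
    (isBaseChange_tensorRes hb' hc')

/-- The base change of `Hom`: `f ↦` the unique `R'`-linear `f'` with `f' ∘ b = c ∘ f`. -/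
def semiHom {b : N →ₛₗ[ρ] N'} (hb : IsSemilinearBaseChange ρ b) (c : M →ₛₗ[ρ] M') :
    (N →ₗ[R] M) →ₛₗ[ρ] (N' →ₗ[R'] M') :=
  letI : Algebra R R' := ρ.toAlgebra
  letI : Module R N' := Module.compHom N' ρ
  letI : Module R M' := Module.compHom M' ρ
  haveI : IsScalarTower R R' N' := ⟨fun r r' n => by
    change (ρ r * r') • n = ρ r • (r' • n); rw [mul_smul]⟩
  haveI : IsScalarTower R R' M' := ⟨fun r r' n => by
    change (ρ r * r') • n = ρ r • (r' • n); rw [mul_smul]⟩
  have hb' : IsBaseChange R' (semiToLin ρ b) := hb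
  { toFun := fun f => IsBaseChange.linearMapLeftRightHom hb' (semiToLin ρ c) f
    map_add' := fun x y => map_add _ x y
    map_smul' := fun r f => by
      rw [map_smul]
      change r • _ = (algebraMap R R' r) • _
      rw [algebraMap_smul] }

@[simp] theorem semiHom_apply {b : N →ₛₗ[ρ] N'} (hb : IsSemilinearBaseChange ρ b)
    (c : M →ₛₗ[ρ] M') (f : N →ₗ[R] M) (n : N) :
    semiHom ρ hb c f (b n) = c (f n) := by
  letI : Algebra R R' := ρ.toAlgebra
  letI : Module R N' := Module.compHom N' ρ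
  letI : Module R M' := Module.compHom M' ρ
  haveI : IsScalarTower R R' N' := ⟨fun r r' n => by
    change (ρ r * r') • n = ρ r • (r' • n); rw [mul_smul]⟩
  haveI : IsScalarTower R R' M' := ⟨fun r r' n => by
    change (ρ r * r') • n = ρ r • (r' • n); rw [mul_smul]⟩
  have hb' : IsBaseChange R' (semiToLin ρ b) := hb
  exact IsBaseChange.linearMapLeftRightHom_comp_apply hb' (semiToLin ρ c) f n

/-- `Hom` of a finite projective module commutes with semilinear base change. -/
theorem isSemilinearBaseChange_semiHom [Module.Finite R N] [Module.Projective R N]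
    {b : N →ₛₗ[ρ] N'} (hb : IsSemilinearBaseChange ρ b) {c : M →ₛₗ[ρ] M'}
    (hc : IsSemilinearBaseChange ρ c) : IsSemilinearBaseChange ρ (semiHom ρ hb c) := by
  letI : Algebra R R' := ρ.toAlgebra
  letI : Module R N' := Module.compHom N' ρ
  letI : Module R M' := Module.compHom M' ρ
  haveI : IsScalarTower R R' N' := ⟨fun r r' n => by
    change (ρ r * r') • n = ρ r • (r' • n); rw [mul_smul]⟩
  haveI : IsScalarTower R R' M' := ⟨fun r r' n => by
    change (ρ r * r') • n = ρ r • (r' • n); rw [mul_smul]⟩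
  have hb' : IsBaseChange R' (semiToLin ρ b) := hb
  have hc' : IsBaseChange R' (semiToLin ρ c) := hc
  exact H371.isSemilinearBaseChange_of_isBaseChange ρ (fun _ => rfl) (semiHom ρ hb c)
    (IsBaseChange.linearMapLeftRightHom hb' (semiToLin ρ c)) (fun _ => rfl)
    (isBaseChange_linearMapLeftRightHom hb' hc')

/-- A ring homomorphism is a semilinear base change of the free modules of rank one. -/
theorem isSemilinearBaseChange_ringHom :
    IsSemilinearBaseChange ρ (ρ.toSemilinearMap : R →ₛₗ[ρ] R') := by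
  letI : Algebra R R' := ρ.toAlgebra
  exact H371.isSemilinearBaseChange_of_isBaseChange ρ (fun _ => rfl) _
    (Algebra.linearMap R R') (fun _ => rfl) (IsBaseChange.linearMap R R')

end

end Fermat.Agent.S25.H325

end
-- ===== PACK-END S25/H325/GDCSemiOps.lean

-- ===== PACK-BEGIN S26/Pic/Theory.lean
section



/-!
# Row S26, block PIC: the Čech model as a `PicTheory` (helper347)

`cechPic : PicTheory` with `cechPic.Pic X = Additive (PicGrp X)`, and `cechPic.IsLocal`.
-/

set_option autoImplicit false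

open AlgebraicGeometry CategoryTheory TopologicalSpace Opposite

universe u

namespace Fermat.Agent.S26.Pic

noncomputable section

variable {X Y : Scheme.{u}}

/-- The Picard functor by Čech cocycles indexed by points. -/
def cechPic : PicTheory.{u} where
  Pic X := Additive (PicGrp X)
  addCommGroup _ := Additive.addCommGroup
  map f := MonoidHom.toAdditive (PicGrp.map f)
  map_id _ c := PicGrp.map_id c.toMul
  map_comp f g c := PicGrp.map_comp f g c.toMul

/-- The class of a cocycle in `cechPic.Pic X`. -/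
def cl (c : Cocycle X) : cechPic.Pic X := Additive.ofMul (PicGrp.mk c)

lemma cl_surjective : Function.Surjective (cl : Cocycle X → cechPic.Pic X) := fun a => by
  obtain ⟨c, hc⟩ := PicGrp.mk_surjective (Additive.toMul a)
  exact ⟨c, congrArg Additive.ofMul hc⟩

lemma cl_eq_cl {c c' : Cocycle X} : cl c = cl c' ↔ Cocycle.Rel c c' :=
  Additive.ofMul.injective.eq_iff.trans PicGrp.mk_eq_mk

lemma cl_mul (c c' : Cocycle X) : cl (c.mul c') = cl c + cl c' := rfl

lemma cl_one : cl (Cocycle.one X) = 0 := rfl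

lemma cl_inv (c : Cocycle X) : cl c.inv = -cl c := rfl

lemma map_cl (f : X ⟶ Y) (c : Cocycle Y) : cechPic.map f (cl c) = cl (c.pullback f) := rfl

/-- A class is trivial iff the cocycle is a coboundary after shrinking. -/
lemma cl_eq_zero_iff {c : Cocycle X} :
    cl c = 0 ↔ ∃ (V : X → X.Opens) (_ : ∀ x, x ∈ V x) (hc : ∀ x, V x ≤ c.U x)
      (h : ∀ x, Γ(X, V x)ˣ), ∀ x y,
        res (inf_le_inf (hc x) (hc y)) (c.g x y) * res (inf_le_right : V x ⊓ V y ≤ V y) (h y) =
          res (inf_le_left : V x ⊓ V y ≤ V x) (h x) := by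
  rw [← cl_one, cl_eq_cl]
  constructor
  · rintro ⟨V, hV, hc, _, h, H⟩
    refine ⟨V, hV, hc, h, fun x y => ?_⟩
    have := H x y
    simpa only [map_one, mul_one] using this
  · rintro ⟨V, hV, hc, h, H⟩
    refine ⟨V, hV, hc, fun _ => le_top, h, fun x y => ?_⟩
    simpa only [map_one, mul_one] using H x y

/-- On a scheme with at most one point every class is trivial. -/
lemma eq_zero_of_subsingleton [Subsingleton X] (a : cechPic.Pic X) : a = 0 := by
  obtain ⟨c, rfl⟩ := cl_surjective a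
  rw [cl_eq_zero_iff]
  refine ⟨c.U, c.mem, fun _ => le_rfl, fun _ => 1, fun x y => ?_⟩
  obtain rfl := Subsingleton.elim x y
  simp only [map_one, mul_one]
  exact c.g_self_on _

/-- `cechPic` is local: classes on the spectrum of a field vanish. -/
theorem cechPic_isLocal : cechPic.{u}.IsLocal := fun F _ a =>
  haveI : Subsingleton (Spec (CommRingCat.of F)) :=
    inferInstanceAs (Subsingleton (PrimeSpectrum F))
  eq_zero_of_subsingleton a

end

end Fermat.Agent.S26.Pic

end
-- ===== PACK-END S26/Pic/Theory.lean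

-- ===== PACK-BEGIN S26/SpecCube.lean
section


/-!
# Row S26, block CUBE: frozen interface (architect helper987)

Everything is in functorial form: `X.SPt s` = points of the abelian variety with values in a
`K`-scheme `s : S ⟶ Spec K`.  Products of `K`-schemes are `Limits.pullback` of the structure maps.
Blueprint: `coord/S26.md` §6.  Only definitions here; the formal part C2 is proved in `CubeFormal.lean`.
-/

set_option autoImplicit false
universe u

open CategoryTheory CategoryTheory.Limits AlgebraicGeometry NeronModelInfra GoodReductionJacobian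

namespace Fermat.Agent.S26

noncomputable section

/-- `K`-points of a `K`-scheme. -/
abbrev KPt {K : Type u} [Field K] {Y : Scheme.{u}} (y : Y ⟶ Spec (CommRingCat.of K)) : Type u :=
  SchemeHomOver (𝟙 (Spec (CommRingCat.of K))) y

namespace AbVar

variable {K : Type u} [Field K] (X : AbVar K) (T : PicTheory.{u})

/-- Points of the abelian variety with values in `s : S ⟶ Spec K`. -/
abbrev SPt {S : Scheme.{u}} (s : S ⟶ Spec (CommRingCat.of K)) : Type u := SchemeHomOver s X.str

/-- `Λ(b, c; P) = (b+c)^*P - b^*P - c^*P`. -/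
def lam {S : Scheme.{u}} (s : S ⟶ Spec (CommRingCat.of K)) (b c : X.SPt s) (P : T.Pic X.A) :
    T.Pic S :=
  T.map (X.law.mul s b c).1 P - T.map b.1 P - T.map c.1 P

/-- `Θ(a, b, c; M)`, the left-hand side of the theorem of the cube. -/
def theta {S : Scheme.{u}} (s : S ⟶ Spec (CommRingCat.of K)) (a b c : X.SPt s)
    (M : T.Pic X.A) : T.Pic S :=
  T.map (X.law.mul s (X.law.mul s a b) c).1 M - T.map (X.law.mul s a b).1 M
    - T.map (X.law.mul s a c).1 M - T.map (X.law.mul s b c).1 M
    + T.map a.1 M + T.map b.1 M + T.map c.1 M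

/-- `P ∈ Pic⁰`: `Λ(b, c; P) = 0` for all points `b, c`. -/
def IsPic0 (P : T.Pic X.A) : Prop :=
  ∀ (S : Scheme.{u}) (s : S ⟶ Spec (CommRingCat.of K)) (b c : X.SPt s), X.lam T s b c P = 0

/-- `x ∈ H_M`: the cube bundle of `M` vanishes on `x × A × A`. -/
def InH (M : T.Pic X.A) (x : X.Pt) : Prop :=
  ∀ (S : Scheme.{u}) (s : S ⟶ Spec (CommRingCat.of K)) (b c : X.SPt s),
    X.theta T s (X.const s x) b c M = 0

/-- A pointed smooth proper curve mapping to the abelian variety, base point to `0`. -/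
structure PtdCurve where
  /-- the curve -/
  C : Scheme.{u}
  /-- its structure map -/
  str : C ⟶ Spec (CommRingCat.of K)
  [proper : IsProper str]
  [smooth : SmoothOfRelativeDimension 1 str]
  [integral : IsIntegral C]
  /-- the map to the abelian variety -/
  ι : C ⟶ X.A
  ι_str : ι ≫ X.str = str
  /-- the base point -/
  base : KPt str
  base_zero : base.1 ≫ ι = X.zero.1

/-- The image in `A(K)` of a `K`-point of a pointed curve. -/
def PtdCurve.image {X : AbVar K} (Γ : X.PtdCurve) (p : KPt Γ.str) : X.Pt :=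
  ⟨p.1 ≫ Γ.ι, by rw [Category.assoc, Γ.ι_str, p.2]⟩

end AbVar

/-! ## Products and faces -/

section Prod

variable {K : Type u} [Field K]

/-- The structure map of `Y ×_K Z`. -/
abbrev prodStr {Y Z : Scheme.{u}} (y : Y ⟶ Spec (CommRingCat.of K))
    (z : Z ⟶ Spec (CommRingCat.of K)) : pullback y z ⟶ Spec (CommRingCat.of K) :=
  pullback.fst y z ≫ y

/-- `Z → Y ×_K Z`, `q ↦ (y₀, q)`. -/
def inr {Y Z : Scheme.{u}} (y : Y ⟶ Spec (CommRingCat.of K)) (z : Z ⟶ Spec (CommRingCat.of K))
    (y₀ : KPt y) : Z ⟶ pullback y z :=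
  pullback.lift (z ≫ y₀.1) (𝟙 Z) (by rw [Category.assoc, y₀.2, Category.comp_id, Category.id_comp])

/-- `Y → Y ×_K Z`, `p ↦ (p, z₀)`. -/
def inl {Y Z : Scheme.{u}} (y : Y ⟶ Spec (CommRingCat.of K)) (z : Z ⟶ Spec (CommRingCat.of K))
    (z₀ : KPt z) : Y ⟶ pullback y z :=
  pullback.lift (𝟙 Y) (y ≫ z₀.1) (by rw [Category.assoc, z₀.2, Category.comp_id, Category.id_comp])

theorem inr_prodStr {Y Z : Scheme.{u}} (y : Y ⟶ Spec (CommRingCat.of K))
    (z : Z ⟶ Spec (CommRingCat.of K)) (y₀ : KPt y) : inr y z y₀ ≫ prodStr y z = z := by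
  rw [inr, prodStr, pullback.lift_fst_assoc, Category.assoc, y₀.2, Category.comp_id]

theorem inl_prodStr {Y Z : Scheme.{u}} (y : Y ⟶ Spec (CommRingCat.of K))
    (z : Z ⟶ Spec (CommRingCat.of K)) (z₀ : KPt z) : inl y z z₀ ≫ prodStr y z = y := by
  rw [inl, prodStr, pullback.lift_fst_assoc, Category.id_comp]

/-- `id × f : C ×_K Z → C ×_K Z'` for `f : Z → Z'` over `K`. -/
def prodMapRight {C Z Z' : Scheme.{u}} (c : C ⟶ Spec (CommRingCat.of K))
    (z : Z ⟶ Spec (CommRingCat.of K)) (z' : Z' ⟶ Spec (CommRingCat.of K)) (f : Z ⟶ Z')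
    (hf : f ≫ z' = z) : pullback c z ⟶ pullback c z' :=
  pullback.map c z c z' (𝟙 C) f (𝟙 _) (by simp) (by simp [hf])

/-- `f × id : X' ×_K W → X ×_K W` for `f : X' → X` over `K`. -/
def prodMapLeft {X X' W : Scheme.{u}} (x : X ⟶ Spec (CommRingCat.of K))
    (x' : X' ⟶ Spec (CommRingCat.of K)) (w : W ⟶ Spec (CommRingCat.of K)) (f : X' ⟶ X)
    (hf : f ≫ x = x') : pullback x' w ⟶ pullback x w :=
  pullback.map x' w x w f (𝟙 W) (𝟙 _) (by simp [hf]) (by simp)

/-- Transport of a point along a morphism of schemes covering a morphism of bases. -/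
def pushPt {K' : Type u} [Field K'] {A A' : Scheme.{u}} {f : A ⟶ Spec (CommRingCat.of K)}
    {f' : A' ⟶ Spec (CommRingCat.of K')} {ρ : Spec (CommRingCat.of K') ⟶ Spec (CommRingCat.of K)}
    (π : A' ⟶ A) (hπ : π ≫ f = f' ≫ ρ) {S : Scheme.{u}} (s : S ⟶ Spec (CommRingCat.of K'))
    (a : SchemeHomOver s f') : SchemeHomOver (s ≫ ρ) f :=
  ⟨a.1 ≫ π, by rw [Category.assoc, hπ, ← Category.assoc, a.2]⟩

end Prod

namespace Stmt

variable (T : PicTheory.{u}) (K : Type u) [Field K] [IsAlgClosed K]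

/-- **C1, the cube for a curve.**  A class on `C × (Y × Z)` (`C` a smooth proper integral
curve, `Y`, `Z` proper geometrically integral, all pointed) which vanishes on the three faces
`c₀ × (Y × Z)`, `C × (y₀ × Z)`, `C × (Y × z₀)` vanishes. -/
def CurveCube : Prop :=
  ∀ (C : Scheme.{u}) (c : C ⟶ Spec (CommRingCat.of K)) [IsProper c]
    [SmoothOfRelativeDimension 1 c] [IsIntegral C] (c₀ : KPt c)
    (Y Z : Scheme.{u}) (y : Y ⟶ Spec (CommRingCat.of K)) (z : Z ⟶ Spec (CommRingCat.of K))
    [IsProper y] [GeometricallyIntegral y] [IsProper z] [GeometricallyIntegral z]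
    (y₀ : KPt y) (z₀ : KPt z) (N : T.Pic (pullback c (prodStr y z))),
    T.map (inr c (prodStr y z) c₀) N = 0 →
    T.map (prodMapRight c z (prodStr y z) (inr y z y₀) (inr_prodStr y z y₀)) N = 0 →
    T.map (prodMapRight c y (prodStr y z) (inl y z z₀) (inl_prodStr y z z₀)) N = 0 →
    N = 0

/-- **C4, curves generate.**  A subgroup of `A(K)` containing the images of all pointed smooth
proper curves is everything. -/
def CurvesGenerate : Prop :=
  ∀ (X : AbVar K) (H : X.Pt → Prop), H X.zero →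
    (∀ x y, H x → H y → H (X.law.mul (𝟙 _) x y)) → (∀ x, H x → H (X.negPt x)) →
    (∀ (Γ : X.PtdCurve) (p : KPt Γ.str), H (Γ.image p)) → ∀ x, H x

/-- **P4, local triviality over the base.**  A class on `X × W` (`W` proper geometrically
integral with a `K`-point) that is trivial over the members of an open cover of `X` is the
pull-back of its restriction to `X × w₀`. -/
def LocalOnBase : Prop :=
  ∀ (X W : Scheme.{u}) (x : X ⟶ Spec (CommRingCat.of K)) (w : W ⟶ Spec (CommRingCat.of K))
    [IsProper w] [GeometricallyIntegral w] (w₀ : KPt w) (N : T.Pic (pullback x w)),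
    (∀ p : X, ∃ U : X.Opens, p ∈ U ∧
      T.map (prodMapLeft x (U.ι ≫ x) w U.ι rfl) N = 0) →
    N = T.map (pullback.fst x w) (T.map (inl x w w₀) N)

/-- **P5, generic triviality.**  A class on `X × W` (`X` integral of finite type, `W` proper
geometrically integral) whose pull-back to `Spec K' × W` along a geometric generic point
`ξ : Spec K' ⟶ X` vanishes, vanishes over a nonempty open subset of `X`. -/
def GenericTrivial : Prop :=
  ∀ (X W : Scheme.{u}) (x : X ⟶ Spec (CommRingCat.of K)) (w : W ⟶ Spec (CommRingCat.of K))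
    [IsIntegral X] [LocallyOfFiniteType x] [IsProper w] [GeometricallyIntegral w]
    (N : T.Pic (pullback x w)) (K' : Type u) [Field K'] [IsAlgClosed K']
    (ξ : Spec (CommRingCat.of K') ⟶ X), (∀ p, ξ p = genericPoint X) →
    T.map (prodMapLeft x (ξ ≫ x) w ξ rfl) N = 0 →
    ∃ U : X.Opens, (U : Set X).Nonempty ∧ T.map (prodMapLeft x (U.ι ≫ x) w U.ι rfl) N = 0

/-- **BC, base change of an abelian variety** to an algebraically closed extension field. -/
def BaseChange : Prop :=
  ∀ (X : AbVar K) (K' : Type u) [Field K'] [IsAlgClosed K'] (φ : K →+* K'),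
    ∃ (X' : AbVar K') (π : X'.A ⟶ X.A)
      (hπ : π ≫ X.str = X'.str ≫ Spec.map (CommRingCat.ofHom φ)),
      IsPullback π X'.str X.str (Spec.map (CommRingCat.ofHom φ)) ∧ X'.dim = X.dim ∧
      ∀ {S : Scheme.{u}} (s : S ⟶ Spec (CommRingCat.of K')) (a b : X'.SPt s),
        (X'.law.mul s a b).1 ≫ π =
          (X.law.mul (s ≫ Spec.map (CommRingCat.ofHom φ))
            (pushPt π hπ s a) (pushPt π hπ s b)).1

end Stmt

end

end Fermat.Agent.S26

end
-- ===== PACK-END S26/SpecCube.lean

-- ===== PACK-BEGIN S26/H926/AmpleSpec.lean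
section


/-!
# Row S26, block AMPLE (`Stmt.Alpha`): leaf statements (helper926)

`Stmt.Alpha` asks for a symmetric good system of `g + 1` rational functions on an abelian
variety `A` of dimension `g` with algebraically independent affine coordinates and finite
degree (a finite morphism `A → P^g` given by a symmetric line bundle).

Route (Mumford, Abelian Varieties §6, "every abelian variety is projective"):

* `SymmAffine` : a nonempty affine open `U` with `-U = U`;
* `Boundary`   : an effective Cartier divisor `D₀` with support `A ∖ U`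
                 (fractional ideal `I₀ ⊇ O`, `I₀ = O` exactly on `U`);
  put `D := D₀ · [-1]^* D₀` (symmetric, same support);
* theorem of the square (`Stmt.SquareLS`): for every `K`-point `x` there is `h_x ≠ 0` with
  `h_x · T_x^* I · T_{-x}^* I = I²`;  `h_x` is a section of `I²` whose non-vanishing locus is
  `(U - x) ∩ (U + x)`, an affine open (`TranslAffine`);
* `Cover`      : finitely many `(U - x_j) ∩ (U + x_j)` cover `A`; so `w := (h_{x_j})_j` is a
                 good system with divisor `D²`;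
* `Project`    : a good system on `A` can be replaced by `g + 1` linear combinations of its
                 members (graded Noether normalisation), which form a good system of the same
                 sheaf with independent coordinates and finite degree.

The glue `alpha_of` (file `AmpleTop.lean`) is proved from these leaves, `Stmt.CDivOps`,
`Stmt.LSDivOps`, `Stmt.SquareLS` and two general facts on function fields (`FFStalk`,
`NegInvol`).  Only definitions here.
-/

set_option autoImplicit false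
universe u

open CategoryTheory CategoryTheory.Limits AlgebraicGeometry NeronModelInfra GoodReductionJacobian

namespace Fermat.Agent.S26.H926

open Fermat.Agent.S26

noncomputable section

namespace Ample

/-! ## General facts on function fields -/

/-- `f` is regular at `x`: it lies in the image of the local ring at `x`. -/
def InO {X : Scheme.{u}} [IsIntegral X] (x : X) (f : X.functionField) : Prop :=
  f ∈ LS.span1 (1 : X.functionField) x

/-- `f` is a unit of the local ring at `x`. -/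
def Triv {X : Scheme.{u}} [IsIntegral X] (x : X) (f : X.functionField) : Prop :=
  LS.span1 f x = LS.span1 (1 : X.functionField) x

/-- FF-STALK: the map of function fields is compatible with the (local) maps of local rings:
it maps functions regular at `φ x` to functions regular at `x`, and a function regular at
`φ x` whose pull-back is a unit at `x` is a unit at `φ x`. -/
def FFStalk : Prop :=
  ∀ (X Y : Scheme.{u}) [IsIntegral X] [IsIntegral Y] (φ : X ⟶ Y)
    (h : φ (genericPoint X) = genericPoint Y) (x : X) (f : Y.functionField),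
    InO (φ x) f → (InO x (ffMap φ h f) ∧ (Triv x (ffMap φ h f) → Triv (φ x) f))

variable (K : Type u) [Field K] [IsAlgClosed K]

/-- NEG-INVOL: `[-1]` is an involution, on points and on the function field. -/
def NegInvol : Prop :=
  ∀ (X : AbVar K) [IsIntegral X.A]
    (hneg : X.negHom (genericPoint X.A) = genericPoint X.A),
    (∀ a : X.A, X.negHom (X.negHom a) = a) ∧
      ∀ f : X.A.functionField, ffMap X.negHom hneg (ffMap X.negHom hneg f) = f

/-- TRANSL-GENERIC: translations preserve the generic point. -/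
def TranslGeneric : Prop :=
  ∀ (X : AbVar K) [IsIntegral X.A] (x : X.Pt),
    X.transl x (genericPoint X.A) = genericPoint X.A

/-! ## The leaves of block AMPLE -/

/-- AM1: a nonempty symmetric affine open. -/
def SymmAffine : Prop :=
  ∀ (X : AbVar K) [IsIntegral X.A],
    ∃ U : X.A.Opens, IsAffineOpen U ∧ (∃ a : X.A, a ∈ U) ∧ ∀ a : X.A, X.negHom a ∈ U ↔ a ∈ U

/-- AM2: the complement of a nonempty affine open is the support of an effective Cartier
divisor: there is an invertible fractional ideal sheaf `I ⊇ O` with `I_a = O_a ⇔ a ∈ U`.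
(Needs: the local rings of `A` are factorial, the complement of an affine open has pure
codimension one.) -/
def Boundary : Prop :=
  ∀ (X : AbVar K) [IsIntegral X.A] (U : X.A.Opens), IsAffineOpen U → (∃ a : X.A, a ∈ U) →
    ∃ D : CDiv X.A, (∀ a : X.A, (1 : X.A.functionField) ∈ LS.span1 (D.gen a) a) ∧
      ∀ a : X.A, a ∈ U ↔ Triv a (D.gen a)

/-- AM3a: for an affine open `U` and a `K`-point `x`, `(U - x) ∩ (U + x)` is an affine
open. -/
def TranslAffine : Prop :=
  ∀ (X : AbVar K) [IsIntegral X.A] (U : X.A.Opens), IsAffineOpen U → ∀ x : X.Pt,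
    ∃ V : X.A.Opens, IsAffineOpen V ∧
      ∀ a : X.A, a ∈ V ↔ (X.transl x a ∈ U ∧ X.transl (X.negPt x) a ∈ U)

/-- AM3b: finitely many `(U - x) ∩ (U + x)` cover `A`. -/
def Cover : Prop :=
  ∀ (X : AbVar K) [IsIntegral X.A] (U : X.A.Opens), (∃ a : X.A, a ∈ U) →
    ∃ (N : ℕ) (x : Fin (N + 1) → X.Pt),
      ∀ a : X.A, ∃ j, X.transl (x j) a ∈ U ∧ X.transl (X.negPt (x j)) a ∈ U

/-- AM4: a good system on an abelian variety of dimension `g` can be projected to `g + 1`
members: there is a good system of `g + 1` sections of the same sheaf with algebraically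
independent affine coordinates and finite degree. -/
def Project : Prop :=
  ∀ (X : AbVar K) [IsIntegral X.A] (N : ℕ) (w : Fin (N + 1) → X.A.functionField),
    LS.Good w → ∃ u : Fin (X.dim + 1) → X.A.functionField,
      LS.Good u ∧ LS.Indep X.str u ∧ 0 < LS.deg X.str u ∧ LS.Same u w

end Ample

end

end Fermat.Agent.S26.H926

end
-- ===== PACK-END S26/H926/AmpleSpec.lean

-- ===== PACK-BEGIN S26/Ample/Spec.lean
section


/-!
# Row S26, block AMPLE: frozen interface (sub-architect helper752)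

Target of the block: `Stmt.Alpha K` (`SpecDeg.lean`): on an abelian variety `A` of dimension `g`
there is a symmetric GOOD system of `g + 1` rational functions with algebraically independent
affine coordinates and finite degree (a finite morphism `A ⟶ P^g` given by a symmetric sheaf).

Route (Mumford AV §6, "2D is base point free"; everything in CDiv / LS language, no `Pic`):

* A1  `AffSym`      : a nonempty symmetric affine open `U ⊆ A`.
* A2  `ComplDiv`    : the complement of a nonempty affine open `U` is (the support of) an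
                      effective Cartier divisor `D`, trivial exactly on `U`, canonical
                      (stable under every automorphism that preserves `U`).
* A3  `Sections`    : a GOOD system `w` for `2D` (sections `h_x`, `x ∈ A(K)`, with affine
                      non-vanishing loci `(U - x) ∩ (U + x)`; from the theorem of the square).
* A4  `Project`     : `g + 1` members of the `K`-span of a GOOD system which still form a GOOD
                      system for the same sheaf, with algebraically independent coordinates and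
                      finite degree (graded Noether normalisation).

All declarations of the block live in the namespace `Fermat.Agent.S26.Ample`
(`Ample.Effective`, `Ample.TrivAt`, `Ample.Stmt.AffSym`, ...).

Glue (proved, sorry-free) is in `Ample/Top.lean`:
`sections_of_blocks` (A3 from the small leaves below) and `alpha_of_blocks`.
Only definitions here.
-/

set_option autoImplicit false
universe u

open CategoryTheory CategoryTheory.Limits AlgebraicGeometry NeronModelInfra GoodReductionJacobian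

namespace Fermat.Agent.S26

noncomputable section

namespace Ample

section Defs

variable {X : Scheme.{u}} [IsIntegral X]

/-- The divisor is effective: `O_x ⊆ I_x` for the invertible fractional ideal sheaf `I`
(the constant function `1` is a section of the sheaf). -/
def Effective (D : CDiv X) : Prop :=
  ∀ x, (1 : X.functionField) ∈ LS.span1 (D.gen x) x

/-- The divisor is trivial at `x`: `I_x = O_x`. -/
def TrivAt (D : CDiv X) (x : X) : Prop :=
  LS.span1 (D.gen x) x = LS.span1 1 x

end Defs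

namespace Stmt

variable (K : Type u) [Field K] [IsAlgClosed K]

/-! ## Basic calculus (small leaves) -/

/-- FF-STALK: the map of function fields restricts to the map of local rings.
(Mathlib: `Scheme.Hom.stalkSpecializes_stalkMap`.) -/
def FFStalkMap : Prop :=
  ∀ (X Y : Scheme.{u}) [IsIntegral X] [IsIntegral Y] (φ : X ⟶ Y)
    (h : φ (genericPoint X) = genericPoint Y) (x : X) (r : Y.presheaf.stalk (φ x)),
    ffMap φ h (algebraMap (Y.presheaf.stalk (φ x)) Y.functionField r) =
      algebraMap (X.presheaf.stalk x) X.functionField ((φ.stalkMap x).hom r)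

/-- TRANSL: translations by `K`-points and `[-1]` are isomorphisms and preserve the generic
point. -/
def TranslIso : Prop :=
  ∀ (X : AbVar K) [IsIntegral X.A],
    IsIso X.negHom ∧ ∀ x : X.Pt, IsIso (X.transl x) ∧
      X.transl x (genericPoint X.A) = genericPoint X.A

/-- A1: there is a nonempty symmetric affine open subset. -/
def AffSym : Prop :=
  ∀ (X : AbVar K) [IsIntegral X.A],
    ∃ U : X.A.Opens, IsAffineOpen U ∧ (∃ x, x ∈ U) ∧ ∀ x : X.A, X.negHom x ∈ U ↔ x ∈ U

/-- A3a: for an affine open `U` and a `K`-point `x` the set `(U - x) ∩ (U + x)` is an affine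
open. (`A` is separated, translations are isomorphisms.) -/
def TranslAffine : Prop :=
  ∀ (X : AbVar K) [IsIntegral X.A] (U : X.A.Opens), IsAffineOpen U → ∀ x : X.Pt,
    ∃ W : X.A.Opens, IsAffineOpen W ∧
      ∀ y : X.A, y ∈ W ↔ (X.transl x y ∈ U ∧ X.transl (X.negPt x) y ∈ U)

/-- A3b: the sets `(U - x) ∩ (U + x)`, `x ∈ A(K)`, cover `A` (every point, closed or not). -/
def Cover : Prop :=
  ∀ (X : AbVar K) [IsIntegral X.A] (U : X.A.Opens), (∃ x, x ∈ U) →
    ∀ y : X.A, ∃ x : X.Pt, X.transl x y ∈ U ∧ X.transl (X.negPt x) y ∈ U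

/-! ## The three geometric leaves -/

/-- A2: the complement of a nonempty affine open is an effective Cartier divisor, canonical.
Inputs: local rings of `A` are noetherian UFDs (leaf UFD), algebraic Hartogs (leaf HARTOGS). -/
def ComplDiv : Prop :=
  ∀ (X : AbVar K) [IsIntegral X.A] (U : X.A.Opens), IsAffineOpen U → (∃ x, x ∈ U) →
    ∃ D : CDiv X.A, Effective D ∧ (∀ x, x ∈ U ↔ TrivAt D x) ∧
      ∀ (σ : X.A ⟶ X.A) [IsIso σ] (hσ : σ (genericPoint X.A) = genericPoint X.A),
        (∀ x, σ x ∈ U ↔ x ∈ U) → CDiv.IsPullback σ hσ D D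

/-- A3: for an effective divisor `D` which is trivial exactly on a nonempty affine open `U`,
the sheaf of `2D` is generated by finitely many sections with affine non-vanishing loci. -/
def Sections : Prop :=
  ∀ (X : AbVar K) [IsIntegral X.A] (U : X.A.Opens), IsAffineOpen U → (∃ x, x ∈ U) →
    ∀ D : CDiv X.A, Effective D → (∀ x, x ∈ U ↔ TrivAt D x) →
    ∀ D2 : CDiv X.A, CDiv.IsPow D 2 D2 →
      ∃ (N : ℕ) (w : Fin (N + 1) → X.A.functionField), LS.Good w ∧ CDiv.IsOfSystem w D2

/-- A4 (graded Noether normalisation + LS2): from a GOOD system one can select `g + 1` members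
of its `K`-span which form a GOOD system generating the same sheaf, with algebraically
independent affine coordinates and finite degree. -/
def Project : Prop :=
  ∀ (X : AbVar K) [IsIntegral X.A] (N : ℕ) (w : Fin (N + 1) → X.A.functionField),
    LS.Good w →
    ∃ u : Fin (X.dim + 1) → X.A.functionField,
      LS.Good u ∧ LS.Same u w ∧ LS.Indep X.str u ∧ 0 < LS.deg X.str u

end Stmt

end Ample

end

end Fermat.Agent.S26

end
-- ===== PACK-END S26/Ample/Spec.lean

-- ===== PACK-BEGIN S27/H443/DSOmega.lean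
section



/-!
# Row S27 / S26-C4b, leaf DS (continued): the differentials of a Dedekind curve are invertible

For a Dedekind domain `B`, not a field, of finite type over an algebraically closed field `K`,
the module `Ω[B⁄K]` is invertible.  Together with `ds_smooth` these are the fields `smooth₀/₁` and
`omega₀/₁` of `Fermat.Agent.S25.IsCurveChart`.

Author: helper443.
-/

set_option autoImplicit false
universe u

namespace Fermat.Agent.S27.H443

/-- The Kähler differentials of a Dedekind domain, not a field, of finite type over an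
algebraically closed field form an invertible module. -/
theorem ds_invertible_kaehlerDifferential (K : Type u) [Field K] [IsAlgClosed K]
    (B : Type u) [CommRing B] [Algebra K B] [Algebra.FiniteType K B] [IsDedekindDomain B]
    (hB : ¬ IsField B) : Module.Invertible B Ω[B⁄K] :=
  Fermat.Agent.S25.H207.invertible_kaehlerDifferential (ds_locally_isStandardSmooth K B hB)

end Fermat.Agent.S27.H443

end
-- ===== PACK-END S27/H443/DSOmega.lean

-- ===== PACK-BEGIN Lib/RR/H638/Cech.lean
section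



/-!
# Čech formula for the Riemann genus (helper638)

For a function field `F / K` satisfying the standing hypotheses `FF1 K F` of the RR library and two
disjoint nonempty finite sets of places `Tz`, `Ti` ("zeros" and "poles"), put

* `B₀ = holOff Ti` (functions regular outside `Ti`),
* `B∞ = holOff Tz`,
* `Bm = holOff (Tz ∪ Ti)`.

Then `Bm / (B₀ + B∞)` is finite-dimensional of dimension `g`, the genus in the sense of
Riemann's theorem (`IsRiemannGenus K F g`; for `g = genusR K F` this is `exists_degree_bound` of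
the RR library, see `CechGenusR.lean`).
(`H¹` of the structure sheaf computed on the cover `{X ∖ Ti, X ∖ Tz}`).

Main results: `finrank_cech_map`, `finrank_cech_quot`, `genus_le_of_span`, `le_genus_of_indep`,
and the versions for the zeros and poles of a nonconstant function `x` (`zerosOf`, `polesOf`,
`finrank_cech_of_fun`).
-/

set_option autoImplicit false

noncomputable section

open AlgebraicCurve

namespace Fermat.Agent.Lib.RR.H638

open Fermat.Agent.Lib.RR

variable {K F : Type*} [Field K] [Field F] [Algebra K F]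

variable (K F) in
/-- `g` is the genus of `F / K` in the sense of Riemann's theorem:
`ℓ(D) = deg D + 1 - g` for all divisors of sufficiently large degree. -/
def IsRiemannGenus (g : ℕ) : Prop :=
  ∃ c : ℤ, ∀ D : Divisor K F, c ≤ Divisor.degree D →
    (ell D : ℤ) = Divisor.degree D + 1 - (g : ℤ)

/-- Functions regular outside the set `T` of places. -/
def holOff (T : Set (Place K F)) : Subalgebra K F where
  carrier := {f | ∀ v : Place K F, v ∉ T → 0 ≤ v.ord f}
  mul_mem' := by
    intro f g hf hg v hv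
    rw [← mem_iff_ord_nonneg] at *
    exact mul_mem ((mem_iff_ord_nonneg v f).mpr (hf v hv)) ((mem_iff_ord_nonneg v g).mpr (hg v hv))
  add_mem' := by
    intro f g hf hg v hv
    rw [← mem_iff_ord_nonneg] at *
    exact add_mem ((mem_iff_ord_nonneg v f).mpr (hf v hv)) ((mem_iff_ord_nonneg v g).mpr (hg v hv))
  algebraMap_mem' := by
    intro c v _
    rw [ord_algebraMap]

theorem mem_holOff {T : Set (Place K F)} {f : F} :
    f ∈ holOff T ↔ ∀ v : Place K F, v ∉ T → 0 ≤ v.ord f := Iff.rfl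

theorem holOff_mono {T T' : Set (Place K F)} (h : T ⊆ T') : holOff T ≤ holOff T' :=
  fun _ hf v hv => hf v (fun hvT => hv (h hvT))

/-- The reduced divisor `∑_{v ∈ T} v`. -/
def divT (T : Finset (Place K F)) : Divisor K F := ∑ v ∈ T, prim v

open scoped Classical in
theorem divT_apply (T : Finset (Place K F)) (v : Place K F) :
    divT T v = if v ∈ T then 1 else 0 := by
  unfold divT
  rw [Finsupp.finsetSum_apply]
  by_cases hv : v ∈ T
  · rw [if_pos hv, Finset.sum_eq_single v]
    · exact prim_apply_self v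
    · intro w _ hw; exact prim_apply_of_ne (Ne.symm hw)
    · intro h; exact absurd hv h
  · rw [if_neg hv]
    refine Finset.sum_eq_zero fun w hw => prim_apply_of_ne ?_
    rintro rfl; exact hv hw

theorem divT_apply_mem {T : Finset (Place K F)} {v : Place K F} (hv : v ∈ T) : divT T v = 1 := by
  classical
  rw [divT_apply, if_pos hv]

theorem divT_apply_not_mem {T : Finset (Place K F)} {v : Place K F} (hv : v ∉ T) :
    divT T v = 0 := by
  classical
  rw [divT_apply, if_neg hv]

theorem divT_nonneg (T : Finset (Place K F)) (v : Place K F) : 0 ≤ divT T v := by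
  by_cases hv : v ∈ T
  · rw [divT_apply_mem hv]; exact zero_le_one
  · rw [divT_apply_not_mem hv]

theorem degree_divT [FF1 K F] (T : Finset (Place K F)) : Divisor.degree (divT T) = T.card := by
  unfold divT
  rw [map_sum]
  simp

/-- `L(n T) ⊆ holOff T`. -/
theorem L_le_holOff (T : Finset (Place K F)) (n : ℕ) :
    riemannRochSpace (n • divT T) ≤ Subalgebra.toSubmodule (holOff (T : Set (Place K F))) := by
  intro f hf v hv
  have hv' : v ∉ T := fun h => hv (Finset.mem_coe.mpr h)
  rcases mem_L_iff.mp hf v with h | h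
  · rw [h, v.ord_zero]
  · simpa [divT_apply_not_mem hv'] using h

/-- `holOff T = ⋃ₙ L(n T)`. -/
theorem exists_mem_L_of_mem_holOff (T : Finset (Place K F)) {f : F}
    (hf : f ∈ holOff (T : Set (Place K F))) :
    ∃ n : ℕ, f ∈ riemannRochSpace (n • divT T) := by
  classical
  refine ⟨∑ v ∈ T, (v.ord f).natAbs, ?_⟩
  rw [mem_L_iff]
  intro v
  right
  by_cases hv : v ∈ T
  · have h1 : (v.ord f).natAbs ≤ ∑ w ∈ T, (w.ord f).natAbs :=
      Finset.single_le_sum (f := fun w => (w.ord f).natAbs) (fun _ _ => Nat.zero_le _) hv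
    simp only [Finsupp.coe_smul, Pi.smul_apply, divT_apply_mem hv, mul_one, nsmul_eq_mul]
    omega
  · have := hf v (fun h => hv (Finset.mem_coe.mp h))
    simp only [Finsupp.coe_smul, Pi.smul_apply, divT_apply_not_mem hv, nsmul_eq_mul, mul_zero,
      neg_zero]
    exact this

theorem nsmul_divT_mono (T : Finset (Place K F)) {m n : ℕ} (h : m ≤ n) :
    m • divT T ≤ n • divT T := by
  rw [Finsupp.le_def]
  intro v
  simp only [Finsupp.coe_smul, Pi.smul_apply, nsmul_eq_mul]
  exact mul_le_mul_of_nonneg_right (by exact_mod_cast h) (divT_nonneg T v)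

/-! ### The two-chart computation -/

section Cech

variable (Tz Ti : Finset (Place K F))

/-- The divisor `n (Tz + Ti)`. -/
def divM (n : ℕ) : Divisor K F := n • divT Tz + n • divT Ti

theorem divM_apply (n : ℕ) (v : Place K F) :
    divM Tz Ti n v = n * divT Tz v + n * divT Ti v := by
  simp [divM]

theorem divM_mono {m n : ℕ} (h : m ≤ n) : divM Tz Ti m ≤ divM Tz Ti n :=
  add_le_add (nsmul_divT_mono Tz h) (nsmul_divT_mono Ti h)

theorem nsmul_divT_le_divM_right (n : ℕ) : n • divT Ti ≤ divM Tz Ti n := by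
  rw [Finsupp.le_def]; intro v
  have := divT_nonneg Tz v
  rw [divM_apply]
  simp only [Finsupp.coe_smul, Pi.smul_apply, nsmul_eq_mul]
  nlinarith [Nat.cast_nonneg (α := ℤ) n]

theorem nsmul_divT_le_divM_left (n : ℕ) : n • divT Tz ≤ divM Tz Ti n := by
  rw [Finsupp.le_def]; intro v
  have := divT_nonneg Ti v
  rw [divM_apply]
  simp only [Finsupp.coe_smul, Pi.smul_apply, nsmul_eq_mul]
  nlinarith [Nat.cast_nonneg (α := ℤ) n]

theorem L_sup_le (n : ℕ) :
    riemannRochSpace (n • divT Ti) ⊔ riemannRochSpace (n • divT Tz) ≤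
      riemannRochSpace (divM Tz Ti n) :=
  sup_le (L_mono (nsmul_divT_le_divM_right Tz Ti n)) (L_mono (nsmul_divT_le_divM_left Tz Ti n))

theorem LM_le_holOff (n : ℕ) :
    riemannRochSpace (divM Tz Ti n) ≤
      Subalgebra.toSubmodule (holOff ((Tz : Set (Place K F)) ∪ Ti)) := by
  intro f hf v hv
  have hvz : v ∉ Tz := fun h => hv (Or.inl (Finset.mem_coe.mpr h))
  have hvi : v ∉ Ti := fun h => hv (Or.inr (Finset.mem_coe.mpr h))
  rcases mem_L_iff.mp hf v with h | h
  · rw [h, v.ord_zero]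
  · simpa [divM_apply, divT_apply_not_mem hvz, divT_apply_not_mem hvi] using h

theorem exists_mem_LM_of_mem_holOff {f : F}
    (hf : f ∈ holOff ((Tz : Set (Place K F)) ∪ Ti)) :
    ∃ n : ℕ, f ∈ riemannRochSpace (divM Tz Ti n) := by
  classical
  refine ⟨∑ v ∈ Tz, (v.ord f).natAbs + ∑ v ∈ Ti, (v.ord f).natAbs, ?_⟩
  rw [mem_L_iff]
  intro v
  right
  rw [divM_apply]
  have hz := divT_nonneg Tz v
  have hi := divT_nonneg Ti v
  by_cases hvz : v ∈ Tz
  · have h1 : (v.ord f).natAbs ≤ ∑ w ∈ Tz, (w.ord f).natAbs :=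
      Finset.single_le_sum (f := fun w => (w.ord f).natAbs) (fun _ _ => Nat.zero_le _) hvz
    rw [divT_apply_mem hvz]
    push_cast
    have h2 : (0 : ℤ) ≤ ∑ x ∈ Ti, |x.ord f| := Finset.sum_nonneg fun _ _ => abs_nonneg _
    have h3 : (|v.ord f| : ℤ) ≤ ∑ x ∈ Tz, |x.ord f| :=
      Finset.single_le_sum (f := fun w => |w.ord f|) (fun _ _ => abs_nonneg _) hvz
    have h4 := neg_abs_le (v.ord f)
    have h5 : (0 : ℤ) ≤ (∑ x ∈ Tz, |x.ord f| + ∑ x ∈ Ti, |x.ord f|) * divT Ti v :=
      mul_nonneg (by linarith [abs_nonneg (v.ord f)]) hi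
    linarith
  · by_cases hvi : v ∈ Ti
    · rw [divT_apply_mem hvi, divT_apply_not_mem hvz]
      push_cast
      have h2 : (0 : ℤ) ≤ ∑ x ∈ Tz, |x.ord f| := Finset.sum_nonneg fun _ _ => abs_nonneg _
      have h3 : (|v.ord f| : ℤ) ≤ ∑ x ∈ Ti, |x.ord f| :=
        Finset.single_le_sum (f := fun w => |w.ord f|) (fun _ _ => abs_nonneg _) hvi
      have h4 := neg_abs_le (v.ord f)
      linarith
    · have := hf v (by
        rintro (h | h)
        · exact hvz (Finset.mem_coe.mp h)
        · exact hvi (Finset.mem_coe.mp h))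
      rw [divT_apply_not_mem hvz, divT_apply_not_mem hvi]
      simpa using this

/-- `m ≤ ord (f - g)` if `m ≤ 0`, `m ≤ ord f`, `m ≤ ord g` (no nonvanishing needed). -/
theorem le_ord_sub (v : Place K F) {f g : F} {m : ℤ} (hm : m ≤ 0) (hf : m ≤ v.ord f)
    (hg : m ≤ v.ord g) : m ≤ v.ord (f - g) := by
  have h := ord_add_of_le v (f := f) (g := -g) (n := m) (Or.inr hf)
    (Or.inr (by rw [ord_neg]; exact hg))
  rw [← sub_eq_add_neg] at h
  rcases h with h | h
  · rw [h, v.ord_zero]; exact hm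
  · exact h

/-- Key separation: an element of `B₀ + B∞` lying in `L(n(Tz + Ti))` lies in
`L(n Ti) + L(n Tz)`. -/
theorem sup_inf_L_le (hdisj : Disjoint Tz Ti) (n : ℕ) :
    (Subalgebra.toSubmodule (holOff (Ti : Set (Place K F))) ⊔
        Subalgebra.toSubmodule (holOff (Tz : Set (Place K F)))) ⊓
        riemannRochSpace (divM Tz Ti n) ≤
      riemannRochSpace (n • divT Ti) ⊔ riemannRochSpace (n • divT Tz) := by
  classical
  rintro f ⟨hf1, hf2⟩
  obtain ⟨a, ha, b, hb, rfl⟩ := Submodule.mem_sup.mp hf1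
  have ha' : ∀ v : Place K F, v ∉ Ti → 0 ≤ v.ord a := fun v hv =>
    ha v (fun h => hv (Finset.mem_coe.mp h))
  have hb' : ∀ v : Place K F, v ∉ Tz → 0 ≤ v.ord b := fun v hv =>
    hb v (fun h => hv (Finset.mem_coe.mp h))
  have hab : ∀ v : Place K F, -(divM Tz Ti n v) ≤ v.ord (a + b) := by
    intro v
    rcases mem_L_iff.mp hf2 v with h | h
    · rw [h, v.ord_zero, divM_apply]
      have hz := divT_nonneg Tz v
      have hi := divT_nonneg Ti v
      nlinarith [Nat.cast_nonneg (α := ℤ) n]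
    · exact h
  refine Submodule.add_mem_sup ?_ ?_
  · rw [mem_L_iff]; intro v; right
    by_cases hv : v ∈ Ti
    · have hv0 : v ∉ Tz := Finset.disjoint_right.mp hdisj hv
      have h1 := hab v
      rw [divM_apply, divT_apply_mem hv, divT_apply_not_mem hv0] at h1
      simp only [Finsupp.coe_smul, Pi.smul_apply, nsmul_eq_mul, divT_apply_mem hv, mul_one]
      have h2 := le_ord_sub v (f := a + b) (g := b) (m := -(n : ℤ)) (by omega) (by omega)
        (by have := hb' v hv0; omega)
      simpa using h2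
    · have := ha' v hv
      simp only [Finsupp.coe_smul, Pi.smul_apply, nsmul_eq_mul, divT_apply_not_mem hv, mul_zero,
        neg_zero]
      exact this
  · rw [mem_L_iff]; intro v; right
    by_cases hv : v ∈ Tz
    · have hv0 : v ∉ Ti := Finset.disjoint_left.mp hdisj hv
      have h1 := hab v
      rw [divM_apply, divT_apply_mem hv, divT_apply_not_mem hv0] at h1
      simp only [Finsupp.coe_smul, Pi.smul_apply, nsmul_eq_mul, divT_apply_mem hv, mul_one]
      have h2 := le_ord_sub v (f := a + b) (g := a) (m := -(n : ℤ)) (by omega) (by omega)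
        (by have := ha' v hv0; omega)
      simpa using h2
    · have := hb' v hv
      simp only [Finsupp.coe_smul, Pi.smul_apply, nsmul_eq_mul, divT_apply_not_mem hv, mul_zero,
        neg_zero]
      exact this

theorem sup_inf_L_eq (hdisj : Disjoint Tz Ti) (n : ℕ) :
    (Subalgebra.toSubmodule (holOff (Ti : Set (Place K F))) ⊔
        Subalgebra.toSubmodule (holOff (Tz : Set (Place K F)))) ⊓
        riemannRochSpace (divM Tz Ti n) =
      riemannRochSpace (n • divT Ti) ⊔ riemannRochSpace (n • divT Tz) := by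
  apply le_antisymm (sup_inf_L_le Tz Ti hdisj n)
  exact le_inf (sup_le_sup (L_le_holOff Ti n) (L_le_holOff Tz n)) (L_sup_le Tz Ti n)

/-- `L(n Ti) ∩ L(n Tz) = L(0)`. -/
theorem L_inf_eq (hdisj : Disjoint Tz Ti) (n : ℕ) :
    riemannRochSpace (n • divT Ti) ⊓ riemannRochSpace (n • divT Tz) =
      riemannRochSpace (0 : Divisor K F) := by
  classical
  apply le_antisymm
  · rintro f ⟨h1, h2⟩
    rw [mem_L_iff]
    intro v
    by_cases hv : v ∈ Ti
    · have hv0 : v ∉ Tz := Finset.disjoint_right.mp hdisj hv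
      have := mem_L_iff.mp h2 v
      simpa [divT_apply_not_mem hv0] using this
    · have := mem_L_iff.mp h1 v
      simpa [divT_apply_not_mem hv] using this
  · refine le_inf (L_mono ?_) (L_mono ?_)
    · rw [Finsupp.le_def]; intro v
      have := divT_nonneg Ti v
      simp only [Finsupp.coe_zero, Pi.zero_apply, Finsupp.coe_smul, Pi.smul_apply, nsmul_eq_mul]
      positivity
    · rw [Finsupp.le_def]; intro v
      have := divT_nonneg Tz v
      simp only [Finsupp.coe_zero, Pi.zero_apply, Finsupp.coe_smul, Pi.smul_apply, nsmul_eq_mul]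
      positivity

end Cech

/-! ### Dimension count and the main theorem -/

section Main

variable [FF1 K F] (Tz Ti : Finset (Place K F))

theorem degree_nsmul_divT (T : Finset (Place K F)) (n : ℕ) :
    Divisor.degree (n • divT T) = n * T.card := by
  rw [map_nsmul, degree_divT]; simp

theorem degree_divM (n : ℕ) :
    Divisor.degree (divM Tz Ti n) = n * Tz.card + n * Ti.card := by
  rw [divM, map_add, degree_nsmul_divT, degree_nsmul_divT]

/-- **Čech formula for the genus** (image form): the image of `Bm = holOff (Tz ∪ Ti)` in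
`F ⧸ (B₀ + B∞)`, `B₀ = holOff Ti`, `B∞ = holOff Tz`, has dimension `g`. -/
theorem finrank_cech_map {g : ℕ} (hg : IsRiemannGenus K F g)
    (hdisj : Disjoint Tz Ti) (hz : Tz.Nonempty) (hi : Ti.Nonempty) :
    Module.Finite K ↥((Subalgebra.toSubmodule (holOff ((Tz : Set (Place K F)) ∪ Ti))).map
        (Subalgebra.toSubmodule (holOff (Ti : Set (Place K F))) ⊔
          Subalgebra.toSubmodule (holOff (Tz : Set (Place K F)))).mkQ) ∧
      Module.finrank K ↥((Subalgebra.toSubmodule (holOff ((Tz : Set (Place K F)) ∪ Ti))).map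
        (Subalgebra.toSubmodule (holOff (Ti : Set (Place K F))) ⊔
          Subalgebra.toSubmodule (holOff (Tz : Set (Place K F)))).mkQ) = g := by
  obtain ⟨c, hc⟩ := hg
  have hz1 : 1 ≤ Tz.card := Finset.card_pos.mpr hz
  have hi1 : 1 ≤ Ti.card := Finset.card_pos.mpr hi
  refine finrank_map_mkQ_of_exhaust _ _ (fun n => riemannRochSpace (divM Tz Ti n))
    (fun m n h => L_mono (divM_mono Tz Ti h)) (fun n => inferInstance)
    (fun n => LM_le_holOff Tz Ti n) (fun f hf => exists_mem_LM_of_mem_holOff Tz Ti hf)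
    g c.toNat ?_
  intro n hn
  have hcn : c ≤ n := by
    have := Int.self_le_toNat c
    have : ((c.toNat : ℕ) : ℤ) ≤ (n : ℤ) := by exact_mod_cast hn
    omega
  have hnn : (0 : ℤ) ≤ n := Int.natCast_nonneg n
  have hzc : (n : ℤ) ≤ n * Tz.card := by
    have : (1 : ℤ) ≤ Tz.card := by exact_mod_cast hz1
    nlinarith
  have hic : (n : ℤ) ≤ n * Ti.card := by
    have : (1 : ℤ) ≤ Ti.card := by exact_mod_cast hi1
    nlinarith
  have e1 := hc (n • divT Ti) (by rw [degree_nsmul_divT]; omega)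
  have e2 := hc (n • divT Tz) (by rw [degree_nsmul_divT]; omega)
  have e3 := hc (divM Tz Ti n) (by rw [degree_divM]; omega)
  rw [degree_nsmul_divT] at e1 e2
  rw [degree_divM] at e3
  rw [sup_inf_L_eq Tz Ti hdisj n]
  have h4 := Submodule.finrank_sup_add_finrank_inf_eq (riemannRochSpace (n • divT Ti))
    (riemannRochSpace (n • divT Tz))
  rw [L_inf_eq Tz Ti hdisj n] at h4
  have h5 : Module.finrank K ↥(riemannRochSpace (0 : Divisor K F)) = 1 := ell_zero
  rw [h5] at h4
  unfold ell at e1 e2 e3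
  have h6 : (Module.finrank K ↥(riemannRochSpace (n • divT Ti) ⊔ riemannRochSpace (n • divT Tz)) : ℤ)
      + 1 = Module.finrank K ↥(riemannRochSpace (n • divT Ti)) +
        Module.finrank K ↥(riemannRochSpace (n • divT Tz)) := by exact_mod_cast h4
  have h7 : (Module.finrank K ↥(riemannRochSpace (divM Tz Ti n)) : ℤ) =
      Module.finrank K ↥(riemannRochSpace (n • divT Ti) ⊔ riemannRochSpace (n • divT Tz)) +
        g := by
    rw [e3]; linarith
  exact_mod_cast h7

end Main

/-! ### Packaged form and corollaries -/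

section Corollaries

variable (Tz Ti : Finset (Place K F))

/-- `B₀ + B∞`, the sum of the two chart algebras (as a `K`-subspace of `F`). -/
def cechW : Submodule K F :=
  Subalgebra.toSubmodule (holOff (Ti : Set (Place K F))) ⊔
    Subalgebra.toSubmodule (holOff (Tz : Set (Place K F)))

/-- `Bm`, the functions regular on the intersection of the two charts. -/
def cechM : Submodule K F :=
  Subalgebra.toSubmodule (holOff ((Tz : Set (Place K F)) ∪ Ti))

/-- The Čech `H¹`: the image of `Bm` in `F ⧸ (B₀ + B∞)`. -/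
def cechH1 : Submodule K (F ⧸ cechW Tz Ti) := (cechM Tz Ti).map (cechW Tz Ti).mkQ

theorem cechW_le_cechM : cechW Tz Ti ≤ cechM Tz Ti :=
  sup_le (holOff_mono (fun _ h => Or.inr h)) (holOff_mono (fun _ h => Or.inl h))

variable [FF1 K F]

theorem finite_cechH1 {g : ℕ} (hg : IsRiemannGenus K F g)
    (hdisj : Disjoint Tz Ti) (hz : Tz.Nonempty) (hi : Ti.Nonempty) :
    Module.Finite K ↥(cechH1 Tz Ti) :=
  (finrank_cech_map Tz Ti hg hdisj hz hi).1

/-- **Čech formula for the genus.** -/
theorem finrank_cechH1 {g : ℕ} (hg : IsRiemannGenus K F g)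
    (hdisj : Disjoint Tz Ti) (hz : Tz.Nonempty) (hi : Ti.Nonempty) :
    Module.finrank K ↥(cechH1 Tz Ti) = g :=
  (finrank_cech_map Tz Ti hg hdisj hz hi).2

/-- The quotient `Bm ⧸ (B₀ + B∞)` is isomorphic to the Čech `H¹`. -/
def cechQuotEquiv :
    (↥(cechM Tz Ti) ⧸ (cechW Tz Ti).submoduleOf (cechM Tz Ti)) ≃ₗ[K] ↥(cechH1 Tz Ti) :=
  ((Submodule.quotEquivOfEq _ _ (by
      rw [LinearMap.ker_comp, Submodule.ker_mkQ]; rfl)).trans
    (LinearMap.quotKerEquivRange ((cechW Tz Ti).mkQ.comp (cechM Tz Ti).subtype))).trans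
    (LinearEquiv.ofEq _ _ (by
      rw [LinearMap.range_comp, Submodule.range_subtype]; rfl))

/-- **Čech formula for the genus**, quotient form:
`dim_K Bm ⧸ (B₀ + B∞) = g`. -/
theorem finrank_cech_quot {g : ℕ} (hg : IsRiemannGenus K F g)
    (hdisj : Disjoint Tz Ti) (hz : Tz.Nonempty) (hi : Ti.Nonempty) :
    Module.Finite K (↥(cechM Tz Ti) ⧸ (cechW Tz Ti).submoduleOf (cechM Tz Ti)) ∧
      Module.finrank K (↥(cechM Tz Ti) ⧸ (cechW Tz Ti).submoduleOf (cechM Tz Ti)) = g := by
  have hfin := finite_cechH1 Tz Ti hg hdisj hz hi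
  refine ⟨Module.Finite.equiv (cechQuotEquiv Tz Ti).symm, ?_⟩
  rw [(cechQuotEquiv Tz Ti).finrank_eq]
  exact finrank_cechH1 Tz Ti hg hdisj hz hi

/-- Upper bound for the genus: if `Bm` is spanned by `B₀ + B∞` and a finite family `h`, then
`g ≤ #h`. -/
theorem genus_le_of_span {g : ℕ} (hg : IsRiemannGenus K F g)
    (hdisj : Disjoint Tz Ti) (hz : Tz.Nonempty) (hi : Ti.Nonempty)
    {ι : Type*} [Fintype ι] (h : ι → F)
    (hspan : cechM Tz Ti ≤ Submodule.span K (Set.range h) ⊔ cechW Tz Ti) :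
    g ≤ Fintype.card ι := by
  have h1 : cechH1 Tz Ti ≤ (Submodule.span K (Set.range h)).map (cechW Tz Ti).mkQ := by
    unfold cechH1
    refine (Submodule.map_mono hspan).trans ?_
    rw [Submodule.map_sup]
    rw [Submodule.mkQ_map_self, sup_bot_eq]
  have hfs : Module.Finite K ↥(Submodule.span K (Set.range h)) :=
    FiniteDimensional.span_of_finite K (Set.finite_range h)
  have h2 := Submodule.finrank_mono h1
  rw [finrank_cechH1 Tz Ti hg hdisj hz hi] at h2
  have h3 : Module.finrank K ↥((Submodule.span K (Set.range h)).map (cechW Tz Ti).mkQ) ≤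
      Module.finrank K ↥(Submodule.span K (Set.range h)) :=
    Submodule.finrank_map_le _ _
  have h4 : Module.finrank K ↥(Submodule.span K (Set.range h)) ≤ Fintype.card ι :=
    finrank_range_le_card (R := K) h
  omega

/-- Lower bound for the genus: a finite family in `Bm` which is linearly independent modulo
`B₀ + B∞` has at most `g` elements. -/
theorem le_genus_of_indep {g : ℕ} (hg : IsRiemannGenus K F g)
    (hdisj : Disjoint Tz Ti) (hz : Tz.Nonempty) (hi : Ti.Nonempty)
    {ι : Type*} [Fintype ι] (h : ι → F) (hM : ∀ i, h i ∈ cechM Tz Ti)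
    (hind : LinearIndependent K (fun i => (cechW Tz Ti).mkQ (h i))) :
    Fintype.card ι ≤ g := by
  have hfin := finite_cechH1 Tz Ti hg hdisj hz hi
  let b : ι → ↥(cechH1 Tz Ti) := fun i => ⟨(cechW Tz Ti).mkQ (h i), Submodule.mem_map_of_mem (hM i)⟩
  have hb : LinearIndependent K b := by
    apply LinearIndependent.of_comp (cechH1 Tz Ti).subtype
    exact hind
  have := hb.fintype_card_le_finrank
  rwa [finrank_cechH1 Tz Ti hg hdisj hz hi] at this

/-- Elementary form of the independence hypothesis. -/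
theorem le_genus_of_indep' {g : ℕ} (hg : IsRiemannGenus K F g)
    (hdisj : Disjoint Tz Ti) (hz : Tz.Nonempty) (hi : Ti.Nonempty)
    {ι : Type*} [Fintype ι] (h : ι → F) (hM : ∀ i, h i ∈ cechM Tz Ti)
    (hind : ∀ c : ι → K, ∑ i, c i • h i ∈ cechW Tz Ti → c = 0) :
    Fintype.card ι ≤ g := by
  refine le_genus_of_indep Tz Ti hg hdisj hz hi h hM ?_
  rw [Fintype.linearIndependent_iff]
  intro c hc i
  have h1 : (cechW Tz Ti).mkQ (∑ i, c i • h i) = 0 := by
    rw [map_sum]
    simpa [map_smul] using hc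
  have h2 : ∑ i, c i • h i ∈ cechW Tz Ti := by
    rwa [Submodule.mkQ_apply, Submodule.Quotient.mk_eq_zero] at h1
  exact congrFun (hind c h2) i

end Corollaries

end Fermat.Agent.Lib.RR.H638

end
end
-- ===== PACK-END Lib/RR/H638/Cech.lean

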