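import Mathlib
import Mathlib.NumberTheory.ModularForms.CuspFormSubmodule
import Fermat.Agent.Pack.S43MC.G0E8L2
import Fermat.Agent.Pack.S43MC.G0E5L2
import Fermat.Agent.Pack.S43MC.G0E0L3
import Fermat.Agent.Pack.S43MC.G0E0L0
import Fermat.Agent.Pack.S43MC.G0E8L3
import Fermat.Agent.Pack.S43MC.G0E0L2
import Fermat.Agent.Pack.S43MC.G0E6L0
import Fermat.Agent.Pack.S43MC.G0E6L2
import Fermat.Agent.Pack.S43MC.G0E8L1
import Fermat.Agent.Pack.S43MC.G0E8L0
import Fermat.Agent.Pack.S43MC.G0E6L1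
import Fermat.Agent.Pack.S43MC.G0E9L3
import Fermat.Agent.Pack.S44C.G0E2L1
import Fermat.Agent.Pack.S44C.G0E1L2
import Fermat.Agent.Pack.S44C.G1E0L0
import Fermat.Agent.Pack.S43MC.G0E9L2
import Fermat.Agent.Pack.S43MC.G0E9L0
import Fermat.Agent.Pack.S44C.G0E5L1
import Fermat.Agent.Pack.S43MC.G0E9L1
import Fermat.Agent.Pack.S43MC.G0E2L3
import Fermat.Agent.Pack.S43MC.G0E10L1
import Fermat.Agent.Pack.Fast891

-- ===== PACK-BEGIN S25/H791/ACPtIdeal.lean
section




/-!
# S25 / ALGCHARTS, shared sub-lemma SH2 (helper791): the ideal of the points `q`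

For `k`-points `q i : B₀ →ₐ[k] k` and a `k`-algebra `A`, `ptIdeal q A = ∏ ker (ptHom (q i) A)`.

* `ker_ptHom_eq_span` : `ker (ptHom p A)` is generated by the `1 ⊗ b - p b ⊗ 1`;
* `ptHom_tensorMapLeft` : naturality of `ptHom` in `A`;
* `map_ker_ptHom`, `map_ptIdeal` : `(ptIdeal q A) · (A' ⊗ B₀) = ptIdeal q A'`;
* `aeval_ptPoly_mem_ptIdeal` : the monic polynomial `∏ (X - q i x)` evaluated at `1 ⊗ x` lies
  in `ptIdeal q A`;
* `finite_aeval_tmul` : `A ⊗ B₀` is finite over `A[X]` via `X ↦ 1 ⊗ x` (curve chart);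
* `finite_quotient_ptIdeal_smul` : `N ⧸ ptIdeal q A • ⊤` is a finite `A`-module for every
  finitely generated `A ⊗ B₀`-module `N`;  `finite_quotient_vanq`.
-/

set_option autoImplicit false
set_option linter.style.haveILetI false
set_option linter.unusedSectionVars false

universe u

open scoped TensorProduct
open Polynomial

namespace Fermat.Agent.S25.H791

open Fermat.Agent.S25 Fermat.Agent.S25.H11

variable {k : Type u} [Field k]
  {B₀ B₁ B₀₁ : Type u} [CommRing B₀] [CommRing B₁] [CommRing B₀₁]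
  [Algebra k B₀] [Algebra k B₁] [Algebra k B₀₁] [Algebra B₀ B₀₁] [Algebra B₁ B₀₁]
  [IsScalarTower k B₀ B₀₁] [IsScalarTower k B₁ B₀₁]

section Ker

variable (A : Type u) [CommRing A] [Algebra k A]

/-- The generator `1 ⊗ b - p b ⊗ 1` of the kernel of the point `p`. -/
def ptGen (p : B₀ →ₐ[k] k) (b : B₀) : A ⊗[k] B₀ :=
  (1 : A) ⊗ₜ[k] b - (algebraMap k A (p b)) ⊗ₜ[k] (1 : B₀)

theorem ptHom_ptGen (p : B₀ →ₐ[k] k) (b : B₀) : ptHom p A (ptGen A p b) = 0 := by
  simp [ptGen]

theorem ptHom_algebraMap (p : B₀ →ₐ[k] k) (a : A) :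
    ptHom p A (algebraMap A (A ⊗[k] B₀) a) = a := by
  rw [Algebra.TensorProduct.algebraMap_apply, ptHom_tmul]
  simp

/-- `z - ι (p z)` lies in the ideal generated by the `ptGen`. -/
theorem sub_algebraMap_ptHom_mem (p : B₀ →ₐ[k] k) (z : A ⊗[k] B₀) :
    z - algebraMap A (A ⊗[k] B₀) (ptHom p A z) ∈
      Ideal.span (Set.range (ptGen A p)) := by
  induction z using TensorProduct.induction_on with
  | zero => simp
  | add z w hz hw =>
    have : z + w - algebraMap A (A ⊗[k] B₀) (ptHom p A (z + w)) =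
        (z - algebraMap A (A ⊗[k] B₀) (ptHom p A z)) +
          (w - algebraMap A (A ⊗[k] B₀) (ptHom p A w)) := by
      rw [map_add, map_add]; ring
    rw [this]
    exact Ideal.add_mem _ hz hw
  | tmul a b =>
    have : a ⊗ₜ[k] b - algebraMap A (A ⊗[k] B₀) (ptHom p A (a ⊗ₜ[k] b)) =
        (a ⊗ₜ[k] (1 : B₀)) * ptGen A p b := by
      rw [ptHom_tmul, Algebra.TensorProduct.algebraMap_apply, ptGen, mul_sub,
        Algebra.TensorProduct.tmul_mul_tmul, Algebra.TensorProduct.tmul_mul_tmul]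
      simp
    rw [this]
    exact Ideal.mul_mem_left _ _ (Ideal.subset_span ⟨b, rfl⟩)

/-- The kernel of the point `p` is generated by the `1 ⊗ b - p b ⊗ 1`. -/
theorem ker_ptHom_eq_span (p : B₀ →ₐ[k] k) :
    RingHom.ker (ptHom p A) = Ideal.span (Set.range (ptGen A p)) := by
  apply le_antisymm
  · intro z hz
    have h := sub_algebraMap_ptHom_mem A p z
    rw [RingHom.mem_ker] at hz
    rwa [hz, map_zero, sub_zero] at h
  · rw [Ideal.span_le]
    rintro _ ⟨b, rfl⟩
    exact ptHom_ptGen A p b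

end Ker

section Map

variable {A A' : Type u} [CommRing A] [Algebra k A] [CommRing A'] [Algebra k A']

theorem tensorMapLeft_tmul (ψ : A →ₐ[k] A') (a : A) (b : B₀) :
    tensorMapLeft k ψ B₀ (a ⊗ₜ[k] b) = ψ a ⊗ₜ[k] b := by
  simp [tensorMapLeft]

/-- Naturality of the points in the base ring. -/
theorem ptHom_tensorMapLeft (ψ : A →ₐ[k] A') (p : B₀ →ₐ[k] k) (z : A ⊗[k] B₀) :
    ptHom p A' (tensorMapLeft k ψ B₀ z) = ψ (ptHom p A z) := by
  induction z using TensorProduct.induction_on with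
  | zero => simp
  | add z w hz hw => simp only [map_add, hz, hw]
  | tmul a b => rw [tensorMapLeft_tmul, ptHom_tmul, ptHom_tmul, map_mul, AlgHom.commutes]

theorem tensorMapLeft_ptGen (ψ : A →ₐ[k] A') (p : B₀ →ₐ[k] k) (b : B₀) :
    tensorMapLeft k ψ B₀ (ptGen A p b) = ptGen A' p b := by
  rw [ptGen, map_sub, tensorMapLeft_tmul, tensorMapLeft_tmul, map_one, AlgHom.commutes]
  rfl

/-- The ideal of a point commutes with base change. -/
theorem map_ker_ptHom (ψ : A →ₐ[k] A') (p : B₀ →ₐ[k] k) :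
    (RingHom.ker (ptHom p A)).map (tensorMapLeft k ψ B₀) = RingHom.ker (ptHom p A') := by
  rw [ker_ptHom_eq_span, ker_ptHom_eq_span, Ideal.map_span]
  congr 1
  ext z
  constructor
  · rintro ⟨_, ⟨b, rfl⟩, rfl⟩
    exact ⟨b, (tensorMapLeft_ptGen ψ p b).symm⟩
  · rintro ⟨b, rfl⟩
    exact ⟨_, ⟨b, rfl⟩, tensorMapLeft_ptGen ψ p b⟩

/-- **SH2.** The ideal of the divisor `Σ q i` commutes with base change. -/
theorem map_ptIdeal (ψ : A →ₐ[k] A') {m : ℕ} (q : Fin m → (B₀ →ₐ[k] k)) :
    (ptIdeal q A).map (tensorMapLeft k ψ B₀) = ptIdeal q A' := by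
  rw [ptIdeal, ptIdeal]
  have h := map_prod (Ideal.mapHom (tensorMapLeft k ψ B₀))
    (fun i => RingHom.ker (ptHom (q i) A)) Finset.univ
  simp only [Ideal.mapHom_apply] at h
  rw [h]
  exact Finset.prod_congr rfl (fun i _ => map_ker_ptHom ψ (q i))

end Map

section Finite

variable (A : Type u) [CommRing A] [Algebra k A]

/-- The monic polynomial `∏ (X - q i x)` over `A`. -/
noncomputable def ptPoly (x : B₀) {m : ℕ} (q : Fin m → (B₀ →ₐ[k] k)) : A[X] :=
  ∏ i, (X - C (algebraMap k A (q i x)))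

theorem ptPoly_monic (x : B₀) {m : ℕ} (q : Fin m → (B₀ →ₐ[k] k)) : (ptPoly A x q).Monic :=
  monic_prod_of_monic _ _ (fun _ _ => monic_X_sub_C _)

/-- `∏ (x - q i x)` vanishes on the divisor `Σ q i`. -/
theorem aeval_ptPoly_mem_ptIdeal (x : B₀) {m : ℕ} (q : Fin m → (B₀ →ₐ[k] k)) :
    aeval ((1 : A) ⊗ₜ[k] x : A ⊗[k] B₀) (ptPoly A x q) ∈ ptIdeal q A := by
  rw [ptPoly, map_prod, ptIdeal]
  refine Ideal.prod_mem_prod (fun i _ => ?_)
  rw [RingHom.mem_ker, map_sub, aeval_X, aeval_C, map_sub, ptHom_tmul, ptHom_algebraMap,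
    one_mul, sub_self]

/-- For a curve chart, `A ⊗ B₀` is finite over `A[X]` via `X ↦ 1 ⊗ x`. -/
theorem finite_aeval_tmul {x : B₀} {y : B₁} {e : B₁ →ₐ[k] k}
    (hC : IsCurveChart k B₀ B₁ B₀₁ x y e) :
    (aeval ((1 : A) ⊗ₜ[k] x : A ⊗[k] B₀) : A[X] →ₐ[A] A ⊗[k] B₀).Finite := by
  haveI := hC.isDomain₀
  obtain ⟨n, φ, hφ⟩ := H250.exists_equivariant_equiv (H250.aeval_x_injective hC) hC.finite₀
  obtain ⟨Φ, hΦ⟩ := H250.exists_equivariant_equiv_tensor φ hφ A
  exact finite_aeval_of_equivariant _ Φ hΦ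

variable {A}

/-- For a finitely generated `A ⊗ B₀`-module `N`, the quotient `N ⧸ I_q N` is a finite
`A`-module. -/
theorem finite_quotient_ptIdeal_smul {x : B₀} {y : B₁} {e : B₁ →ₐ[k] k}
    (hC : IsCurveChart k B₀ B₁ B₀₁ x y e) {m : ℕ} (q : Fin m → (B₀ →ₐ[k] k))
    (N : Type u) [AddCommGroup N] [Module (A ⊗[k] B₀) N] [Module A N]
    [IsScalarTower A (A ⊗[k] B₀) N] [Module.Finite (A ⊗[k] B₀) N] :
    Module.Finite A (N ⧸ (ptIdeal q A • ⊤ : Submodule (A ⊗[k] B₀) N)) := by
  refine finite_of_monic_aeval_smul_eq_zero ((1 : A) ⊗ₜ[k] x : A ⊗[k] B₀)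
    (finite_aeval_tmul A hC) (ptPoly A x q) (ptPoly_monic A x q) (fun z => ?_)
  obtain ⟨n, rfl⟩ := Submodule.Quotient.mk_surjective _ z
  rw [← Submodule.Quotient.mk_smul, Submodule.Quotient.mk_eq_zero]
  exact Submodule.smul_mem_smul (aeval_ptPoly_mem_ptIdeal A x q) Submodule.mem_top

/-- `N₀ ⧸ I_q N₀` is a finite `A`-module. -/
theorem finite_quotient_vanq {x : B₀} {y : B₁} {e : B₁ →ₐ[k] k}
    (hC : IsCurveChart k B₀ B₁ B₀₁ x y e) {m : ℕ} (q : Fin m → (B₀ →ₐ[k] k))
    (G : CurveGD k B₀ B₁ B₀₁ A) : Module.Finite A (G.N₀ ⧸ vanq q G) := by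
  haveI := G.invertible₀
  exact finite_quotient_ptIdeal_smul hC q G.N₀

end Finite

end Fermat.Agent.S25.H791

end
-- ===== PACK-END S25/H791/ACPtIdeal.lean

-- ===== PACK-BEGIN S25/H565/ChartField.lean
section






/-!
# S25 / DEGREE (helper565): a curve chart base-changed to a field

For `hC : IsCurveChart k B₀ B₁ B₀₁ x y e`, `k` algebraically closed and a field `K ⊇ k`, the
cospan `K ⊗ B₀ → K ⊗ B₀₁ ← K ⊗ B₁` satisfies the hypotheses of `H565/Section.lean`:
domains, `K ⊗ B₀₁` nontrivial, localizations away from `1 ⊗ x`, `1 ⊗ y`, finiteness over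
`K[1 ⊗ x]`, `K[1 ⊗ y]`.
-/

set_option autoImplicit false
set_option linter.style.haveILetI false
set_option linter.unusedSectionVars false

namespace Fermat.Agent.S25.H565

open Fermat.Agent.S25 Polynomial
open scoped TensorProduct

universe u

section FiniteTensor

variable {k : Type u} [Field k] {B : Type u} [CommRing B] [Algebra k B]

/-- Finiteness over the polynomial ring is stable under base change of the ground field. -/
theorem aeval_tensor_finite (x : B) (hfin : (Polynomial.aeval x : k[X] →ₐ[k] B).Finite)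
    (K : Type u) [Field K] [Algebra k K] :
    (Polynomial.aeval ((1 : K) ⊗ₜ[k] x) : K[X] →ₐ[K] K ⊗[k] B).Finite := by
  classical
  -- generators of `B` over `k[x]`
  have hB : ∃ S : Finset B, ∀ b : B, ∃ p : B → k[X],
      b = ∑ e ∈ S, Polynomial.aeval x (p e) * e := by
    letI : Algebra k[X] B := (Polynomial.aeval x : k[X] →ₐ[k] B).toRingHom.toAlgebra
    have h1 : Module.Finite k[X] B := hfin
    obtain ⟨S, hS⟩ := h1.fg_top
    refine ⟨S, fun b => ?_⟩
    have hb : b ∈ Submodule.span k[X] (S : Set B) := by rw [hS]; trivial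
    obtain ⟨p, -, hp⟩ := Submodule.mem_span_finset.mp hb
    exact ⟨p, hp.symm⟩
  obtain ⟨S, hS⟩ := hB
  letI : Algebra K[X] (K ⊗[k] B) :=
    (Polynomial.aeval ((1 : K) ⊗ₜ[k] x) : K[X] →ₐ[K] K ⊗[k] B).toRingHom.toAlgebra
  show Module.Finite K[X] (K ⊗[k] B)
  have hsmul : ∀ (q : K[X]) (z : K ⊗[k] B),
      q • z = Polynomial.aeval ((1 : K) ⊗ₜ[k] x) q * z := fun q z => by
    rw [Algebra.smul_def, RingHom.algebraMap_toAlgebra]; rfl
  have hev : ∀ (c : K) (p : k[X]),
      Polynomial.aeval ((1 : K) ⊗ₜ[k] x) (Polynomial.C c * p.map (algebraMap k K)) =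
        c ⊗ₜ[k] Polynomial.aeval x p := by
    intro c p
    rw [map_mul, Polynomial.aeval_C, Polynomial.aeval_map_algebraMap]
    have h1 : Polynomial.aeval ((1 : K) ⊗ₜ[k] x) p =
        (Algebra.TensorProduct.includeRight : B →ₐ[k] K ⊗[k] B) (Polynomial.aeval x p) := by
      rw [← Polynomial.aeval_algHom_apply]
      rfl
    rw [h1, Algebra.TensorProduct.algebraMap_apply, Algebra.TensorProduct.includeRight_apply,
      Algebra.TensorProduct.tmul_mul_tmul, mul_one, one_mul]
    rfl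
  refine Module.finite_def.2 ⟨S.image (fun e => (1 : K) ⊗ₜ[k] e), ?_⟩
  rw [eq_top_iff]
  rintro z -
  induction z using TensorProduct.induction_on with
  | zero => exact Submodule.zero_mem _
  | add a b ha hb => exact Submodule.add_mem _ ha hb
  | tmul c b =>
    obtain ⟨p, hp⟩ := hS b
    have h1 : c ⊗ₜ[k] b = ∑ e ∈ S,
        (Polynomial.C c * (p e).map (algebraMap k K)) • ((1 : K) ⊗ₜ[k] e) := by
      conv_lhs => rw [hp]
      rw [TensorProduct.tmul_sum]
      refine Finset.sum_congr rfl fun e _ => ?_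
      rw [hsmul, hev, Algebra.TensorProduct.tmul_mul_tmul, mul_one]
    rw [h1]
    refine Submodule.sum_mem _ fun e he => Submodule.smul_mem _ _ (Submodule.subset_span ?_)
    rw [Finset.coe_image]
    exact ⟨e, he, rfl⟩

end FiniteTensor

section Chart

variable {k : Type u} [Field k] {B₀ B₁ B₀₁ : Type u} [CommRing B₀] [CommRing B₁] [CommRing B₀₁]
  [Algebra k B₀] [Algebra k B₁] [Algebra k B₀₁] [Algebra B₀ B₀₁] [Algebra B₁ B₀₁]
  [IsScalarTower k B₀ B₀₁] [IsScalarTower k B₁ B₀₁]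
  {x : B₀} {y : B₁} {e : B₁ →ₐ[k] k}

theorem chart_away₀ (hC : IsCurveChart k B₀ B₁ B₀₁ x y e) (K : Type u) [Field K]
    [Algebra k K] :
    IsLocalization.Away ((1 : K) ⊗ₜ[k] x : K ⊗[k] B₀) (K ⊗[k] B₀₁) := by
  haveI := hC.away₀
  exact H250.isLocalization_away_tensor B₀ B₀₁ x

theorem chart_away₁ (hC : IsCurveChart k B₀ B₁ B₀₁ x y e) (K : Type u) [Field K]
    [Algebra k K] :
    IsLocalization.Away ((1 : K) ⊗ₜ[k] y : K ⊗[k] B₁) (K ⊗[k] B₀₁) := by
  haveI := hC.away₁
  exact H250.isLocalization_away_tensor B₁ B₀₁ y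

theorem chart_finite₀ (hC : IsCurveChart k B₀ B₁ B₀₁ x y e) (K : Type u) [Field K]
    [Algebra k K] :
    (Polynomial.aeval ((1 : K) ⊗ₜ[k] x) : K[X] →ₐ[K] K ⊗[k] B₀).Finite :=
  aeval_tensor_finite x hC.finite₀ K

theorem chart_finite₁ (hC : IsCurveChart k B₀ B₁ B₀₁ x y e) (K : Type u) [Field K]
    [Algebra k K] :
    (Polynomial.aeval ((1 : K) ⊗ₜ[k] y) : K[X] →ₐ[K] K ⊗[k] B₁).Finite :=
  aeval_tensor_finite y hC.finite₁ K

theorem chart_nontrivial₀₁ (hC : IsCurveChart k B₀ B₁ B₀₁ x y e) (K : Type u) [Field K]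
    [Algebra k K] : Nontrivial (K ⊗[k] B₀₁) := by
  haveI := H250.nontrivial_B01 hC
  exact (Algebra.TensorProduct.includeLeft_injective (R := k) (S := k) (A := K) (B := B₀₁)
    (algebraMap k B₀₁).injective).nontrivial

theorem chart_isDomain₀ [IsAlgClosed k] (hC : IsCurveChart k B₀ B₁ B₀₁ x y e) (K : Type u)
    [Field K] [Algebra k K] : IsDomain (K ⊗[k] B₀) := by
  haveI := hC.isDomain₀
  exact H567.isDomain_tensorProduct_of_isAlgClosed k K B₀

theorem chart_isDomain₁ [IsAlgClosed k] (hC : IsCurveChart k B₀ B₁ B₀₁ x y e) (K : Type u)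
    [Field K] [Algebra k K] : IsDomain (K ⊗[k] B₁) := by
  haveI := hC.isDomain₁
  exact H567.isDomain_tensorProduct_of_isAlgClosed k K B₁

end Chart

end Fermat.Agent.S25.H565

end
-- ===== PACK-END S25/H565/ChartField.lean

-- ===== PACK-BEGIN S25/H851/HilbGD.lean
section











/-!
# S25 / ALGCHARTS C1 in frozen language (helper851): the gluing datum of a Hilbert point

For a curve chart `hC : IsCurveChart k B₀ B₁ B₀₁ x y e` over an algebraically closed field and an
ideal `I ⊆ A ⊗ B₀` with `(A ⊗ B₀) ⧸ I` finite projective over `A` (a relative effective divisor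
`D ⊆ U₀ × Spec A`, finite flat over `A`):

* `hilb_invertible` : `I` is an invertible `A ⊗ B₀`-module (H2 + H3);
* `hilb_contr_invertible` : the contraction `contr I ⊆ A ⊗ B₁` is an invertible module (H6);
* `hilbGD hC I : CurveGD k B₀ B₁ B₀₁ A` : the gluing datum `O(-D) = (I, contr I, I · R₀₁)`;
* `hilbGD_rigidifiable` : it is rigidifiable along `e`;
* `hilbGD_isBC` : for `φ : A →ₐ[k] A'` it base-changes to the datum of `I · (A' ⊗ B₀)`.
-/

set_option autoImplicit false
set_option linter.style.haveILetI false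
set_option linter.unusedSectionVars false

universe u

open TensorProduct

namespace Fermat.Agent.S25.H851

open Fermat.Agent.S25

section Chart

variable {k : Type u} [Field k] {B₀ B₁ B₀₁ : Type u} [CommRing B₀] [CommRing B₁] [CommRing B₀₁]
  [Algebra k B₀] [Algebra k B₁] [Algebra k B₀₁] [Algebra B₀ B₀₁] [Algebra B₁ B₀₁]
  [IsScalarTower k B₀ B₀₁] [IsScalarTower k B₁ B₀₁] {x : B₀} {y : B₁} {e : B₁ →ₐ[k] k}

/-- The diagonal ideal of the first chart is invertible. -/
theorem diag_invertible₀ [IsAlgClosed k] (hC : IsCurveChart k B₀ B₁ B₀₁ x y e) :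
    Module.Invertible (B₀ ⊗[k] B₀) (KaehlerDifferential.ideal k B₀) := by
  haveI := hC.isDomain₀
  haveI : IsDomain (B₀ ⊗[k] B₀) := H567.isDomain_tensorProduct_of_isAlgClosed k B₀ B₀
  haveI := hC.omega₀
  haveI := hC.smooth₀
  haveI : Algebra.FiniteType k B₀ := inferInstance
  exact H431.diagonal_invertible k B₀

variable (A : Type u) [CommRing A] [Algebra k A]

/-- **H3 in chart form.** -/
theorem hilb_invertible [IsAlgClosed k] (hC : IsCurveChart k B₀ B₁ B₀₁ x y e)
    (I : Ideal (A ⊗[k] B₀)) [Module.Finite A ((A ⊗[k] B₀) ⧸ I)]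
    [Module.Projective A ((A ⊗[k] B₀) ⧸ I)] : Module.Invertible (A ⊗[k] B₀) I := by
  haveI := diag_invertible₀ hC
  exact H11.hilb_ideal_invertible k B₀ A I

theorem away_tensor₀ (hC : IsCurveChart k B₀ B₁ B₀₁ x y e) :
    IsLocalization.Away ((1 : A) ⊗ₜ[k] x : A ⊗[k] B₀) (A ⊗[k] B₀₁) := by
  haveI := hC.away₀
  exact H250.isLocalization_away_tensor (A := A) B₀ B₀₁ x

theorem away_tensor₁ (hC : IsCurveChart k B₀ B₁ B₀₁ x y e) :
    IsLocalization.Away ((1 : A) ⊗ₜ[k] y : A ⊗[k] B₁) (A ⊗[k] B₀₁) := by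
  haveI := hC.away₁
  exact H250.isLocalization_away_tensor (A := A) B₁ B₀₁ y

theorem tensor_xy (hC : IsCurveChart k B₀ B₁ B₀₁ x y e) :
    algebraMap (A ⊗[k] B₀) (A ⊗[k] B₀₁) ((1 : A) ⊗ₜ[k] x) *
      algebraMap (A ⊗[k] B₁) (A ⊗[k] B₀₁) ((1 : A) ⊗ₜ[k] y) = 1 := by
  rw [H250.algebraMap_tensor_tmul, H250.algebraMap_tensor_tmul,
    Algebra.TensorProduct.tmul_mul_tmul, hC.mul_eq_one, mul_one]
  rfl

theorem flat_tensor₀ (hC : IsCurveChart k B₀ B₁ B₀₁ x y e) :
    Module.Flat (A ⊗[k] B₀) (A ⊗[k] B₀₁) := by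
  haveI := away_tensor₀ A hC
  exact IsLocalization.flat (A ⊗[k] B₀₁) (Submonoid.powers ((1 : A) ⊗ₜ[k] x : A ⊗[k] B₀))

theorem flat_tensor₁ (hC : IsCurveChart k B₀ B₁ B₀₁ x y e) :
    Module.Flat (A ⊗[k] B₁) (A ⊗[k] B₀₁) := by
  haveI := away_tensor₁ A hC
  exact IsLocalization.flat (A ⊗[k] B₀₁) (Submonoid.powers ((1 : A) ⊗ₜ[k] y : A ⊗[k] B₁))

theorem injective_tensor₁ (hC : IsCurveChart k B₀ B₁ B₀₁ x y e) :
    Function.Injective (algebraMap (A ⊗[k] B₁) (A ⊗[k] B₀₁)) := by
  have h1 : Function.Injective (IsScalarTower.toAlgHom k B₁ B₀₁).toLinearMap :=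
    H250.algebraMap_B1_injective hC
  have h2 := Module.Flat.lTensor_preserves_injective_linearMap (M := A)
    (IsScalarTower.toAlgHom k B₁ B₀₁).toLinearMap h1
  intro a b hab
  apply h2
  have key : ∀ z : A ⊗[k] B₁, (LinearMap.lTensor A (IsScalarTower.toAlgHom k B₁ B₀₁).toLinearMap) z
      = algebraMap (A ⊗[k] B₁) (A ⊗[k] B₀₁) z := by
    intro z
    induction z using TensorProduct.induction_on with
    | zero => simp
    | tmul a b => rw [H250.algebraMap_tensor_tmul]; rfl
    | add z w hz hw => rw [map_add, map_add, hz, hw]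
  rw [key, key, hab]

/-- **H6 in chart form.** -/
theorem hilb_contr_invertible [IsAlgClosed k] (hC : IsCurveChart k B₀ B₁ B₀₁ x y e)
    (I : Ideal (A ⊗[k] B₀)) [Module.Finite A ((A ⊗[k] B₀) ⧸ I)]
    [Module.Projective A ((A ⊗[k] B₀) ⧸ I)] :
    Module.Invertible (A ⊗[k] B₁) (contr (A ⊗[k] B₁) (A ⊗[k] B₀₁) I) := by
  haveI := hilb_invertible A hC I
  haveI := away_tensor₀ A hC
  haveI := away_tensor₁ A hC
  exact contr_invertible (A := A) ((1 : A) ⊗ₜ[k] x) ((1 : A) ⊗ₜ[k] y) (tensor_xy A hC)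
    (injective_tensor₁ A hC) I

/-- The gluing datum `O(-D) = (I, contr I, I · R₀₁)` of a Hilbert point `I`. -/
noncomputable def hilbGD [IsAlgClosed k] (hC : IsCurveChart k B₀ B₁ B₀₁ x y e)
    (I : Ideal (A ⊗[k] B₀)) [Module.Finite A ((A ⊗[k] B₀) ⧸ I)]
    [Module.Projective A ((A ⊗[k] B₀) ⧸ I)] : CurveGD k B₀ B₁ B₀₁ A :=
  haveI := flat_tensor₀ A hC
  haveI := flat_tensor₁ A hC
  haveI := away_tensor₁ A hC
  H325.idealGD I (contr (A ⊗[k] B₁) (A ⊗[k] B₀₁) I)
    (I.map (algebraMap (A ⊗[k] B₀) (A ⊗[k] B₀₁))) rfl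
    (map_contr ((1 : A) ⊗ₜ[k] y) I) (hilb_invertible A hC I) (hilb_contr_invertible A hC I)

theorem epsHom_one_tmul (hC : IsCurveChart k B₀ B₁ B₀₁ x y e) :
    epsHom e A ((1 : A) ⊗ₜ[k] y) = 0 := by
  simp [epsHom, hC.e_y]

/-- The contraction of a Hilbert point contains an element which is `1` at the marked point. -/
theorem exists_mem_contr_epsHom_eq_one (hC : IsCurveChart k B₀ B₁ B₀₁ x y e)
    (I : Ideal (A ⊗[k] B₀)) [Module.Finite A ((A ⊗[k] B₀) ⧸ I)] :
    ∃ u ∈ contr (A ⊗[k] B₁) (A ⊗[k] B₀₁) I, epsHom e A u = 1 := by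
  obtain ⟨u, hu, r, hr⟩ := exists_mem_contr_isCoprime (A := A) ((1 : A) ⊗ₜ[k] x)
    ((1 : A) ⊗ₜ[k] y) (tensor_xy A hC) I
  refine ⟨u, hu, ?_⟩
  rw [hr, map_add, map_mul, epsHom_one_tmul A hC, mul_zero, add_zero, map_one]

/-- The restriction of `epsHom` to an ideal, as a semilinear map. -/
def epsSL (e : B₁ →ₐ[k] k) (J : Ideal (A ⊗[k] B₁)) : J →ₛₗ[(epsHom e A).toRingHom] A where
  toFun c := epsHom e A c.1
  map_add' a b := by simp
  map_smul' r a := by simp

/-- **Rigidification.** The datum of a Hilbert point is rigidifiable along `e`. -/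
theorem hilbGD_rigidifiable [IsAlgClosed k] (hC : IsCurveChart k B₀ B₁ B₀₁ x y e)
    (I : Ideal (A ⊗[k] B₀)) [Module.Finite A ((A ⊗[k] B₀) ⧸ I)]
    [Module.Projective A ((A ⊗[k] B₀) ⧸ I)] : (hilbGD A hC I).Rigidifiable e := by
  haveI := hilb_contr_invertible A hC I
  refine ⟨epsSL A e (contr (A ⊗[k] B₁) (A ⊗[k] B₀₁) I), ?_⟩
  refine isSemilinearBaseChange_of_span (N := contr (A ⊗[k] B₁) (A ⊗[k] B₀₁) I)
    (epsHom e A).toRingHom _ ?_
  obtain ⟨u, hu, hu1⟩ := exists_mem_contr_epsHom_eq_one A hC I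
  rw [eq_top_iff]
  intro a _
  have h1 : (1 : A) ∈ Submodule.span A
      (Set.range (epsSL A e (contr (A ⊗[k] B₁) (A ⊗[k] B₀₁) I))) :=
    Submodule.subset_span ⟨⟨u, hu⟩, hu1⟩
  have := Submodule.smul_mem _ a h1
  simpa using this

end Chart

section BaseChange

variable {k : Type u} [Field k] {B₀ B₁ B₀₁ : Type u} [CommRing B₀] [CommRing B₁] [CommRing B₀₁]
  [Algebra k B₀] [Algebra k B₁] [Algebra k B₀₁] [Algebra B₀ B₀₁] [Algebra B₁ B₀₁]
  [IsScalarTower k B₀ B₀₁] [IsScalarTower k B₁ B₀₁] {x : B₀} {y : B₁} {e : B₁ →ₐ[k] k}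
  {A A' : Type u} [CommRing A] [Algebra k A] [CommRing A'] [Algebra k A']

theorem tensorMapLeft_tmul (φ : A →ₐ[k] A') (B : Type u) [CommRing B] [Algebra k B] (a : A)
    (b : B) : tensorMapLeft k φ B (a ⊗ₜ[k] b) = φ a ⊗ₜ[k] b := by
  simp [tensorMapLeft]

/-- `tensorMapLeft` is a morphism of cospans. -/
theorem tensorMapLeft_comp_algebraMap (φ : A →ₐ[k] A') (B B' : Type u) [CommRing B]
    [CommRing B'] [Algebra k B] [Algebra k B'] [Algebra B B'] [IsScalarTower k B B'] :
    (tensorMapLeft k φ B').comp (algebraMap (A ⊗[k] B) (A ⊗[k] B')) =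
      (algebraMap (A' ⊗[k] B) (A' ⊗[k] B')).comp (tensorMapLeft k φ B) := by
  apply RingHom.ext
  intro z
  induction z using TensorProduct.induction_on with
  | zero => simp
  | tmul a b =>
    simp only [RingHom.comp_apply, H250.algebraMap_tensor_tmul, tensorMapLeft_tmul]
  | add z w hz hw => rw [map_add, map_add, hz, hw]

/-- **Contraction commutes with base change** (chart form). -/
theorem contr_tensorMapLeft (hC : IsCurveChart k B₀ B₁ B₀₁ x y e) (φ : A →ₐ[k] A')
    (I : Ideal (A ⊗[k] B₀)) [Module.Finite A ((A ⊗[k] B₀) ⧸ I)] :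
    (contr (A ⊗[k] B₁) (A ⊗[k] B₀₁) I).map (tensorMapLeft k φ B₁) =
      contr (A' ⊗[k] B₁) (A' ⊗[k] B₀₁) (I.map (tensorMapLeft k φ B₀)) := by
  haveI := away_tensor₁ A hC
  obtain ⟨u, hu, r, hr⟩ := exists_mem_contr_isCoprime (A := A) ((1 : A) ⊗ₜ[k] x)
    ((1 : A) ⊗ₜ[k] y) (tensor_xy A hC) I
  have hy : tensorMapLeft k φ B₁ ((1 : A) ⊗ₜ[k] y) = (1 : A') ⊗ₜ[k] y := by
    rw [tensorMapLeft_tmul, map_one]
  haveI : IsLocalization.Away (tensorMapLeft k φ B₁ ((1 : A) ⊗ₜ[k] y)) (A' ⊗[k] B₀₁) := by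
    rw [hy]; exact away_tensor₁ A' hC
  refine map_contr_baseChange ((1 : A) ⊗ₜ[k] y) (tensorMapLeft k φ B₀) (tensorMapLeft k φ B₁)
    (tensorMapLeft k φ B₀₁) (tensorMapLeft_comp_algebraMap φ B₀ B₀₁)
    (tensorMapLeft_comp_algebraMap φ B₁ B₀₁) I hu ⟨1, -r, ?_⟩
  rw [hr]; ring

/-- Base change preserves finiteness of the quotient. -/
theorem finite_quot_map (φ : A →ₐ[k] A') (B : Type u) [CommRing B] [Algebra k B]
    (I : Ideal (A ⊗[k] B)) [Module.Finite A ((A ⊗[k] B) ⧸ I)] :
    Module.Finite A' ((A' ⊗[k] B) ⧸ I.map (tensorMapLeft k φ B)) := by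
  let _ : Algebra A A' := φ.toRingHom.toAlgebra
  have : IsScalarTower k A A' := IsScalarTower.of_algebraMap_eq' φ.comp_algebraMap.symm
  have hφ : IsScalarTower.toAlgHom k A A' = φ := by ext; rfl
  have h := H251.finite_quot_baseIdeal (k := k) (B := B) (A := A) (A' := A') (I := I)
  rw [hφ] at h
  exact h

/-- Base change preserves projectivity of the quotient. -/
theorem projective_quot_map (φ : A →ₐ[k] A') (B : Type u) [CommRing B] [Algebra k B]
    (I : Ideal (A ⊗[k] B)) [Module.Projective A ((A ⊗[k] B) ⧸ I)] :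
    Module.Projective A' ((A' ⊗[k] B) ⧸ I.map (tensorMapLeft k φ B)) := by
  let _ : Algebra A A' := φ.toRingHom.toAlgebra
  have : IsScalarTower k A A' := IsScalarTower.of_algebraMap_eq' φ.comp_algebraMap.symm
  have hφ : IsScalarTower.toAlgHom k A A' = φ := by ext; rfl
  have h := H251.projective_quot_baseIdeal (k := k) (B := B) (A := A) (A' := A') (I := I)
  rw [hφ] at h
  exact h

/-- **Base change.** The datum of a Hilbert point `I` base-changes along `φ : A → A'` to the
datum of `I' = I · (A' ⊗ B₀)`. -/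
theorem hilbGD_isBC [IsAlgClosed k] (hC : IsCurveChart k B₀ B₁ B₀₁ x y e) (φ : A →ₐ[k] A')
    (I : Ideal (A ⊗[k] B₀)) [Module.Finite A ((A ⊗[k] B₀) ⧸ I)]
    [Module.Projective A ((A ⊗[k] B₀) ⧸ I)]
    (I' : Ideal (A' ⊗[k] B₀)) [Module.Finite A' ((A' ⊗[k] B₀) ⧸ I')]
    [Module.Projective A' ((A' ⊗[k] B₀) ⧸ I')]
    (hI' : I.map (tensorMapLeft k φ B₀) = I') :
    CurveGD.IsBC φ (hilbGD A hC I) (hilbGD A' hC I') := by
  haveI := flat_tensor₀ A hC
  haveI := flat_tensor₁ A hC
  haveI := flat_tensor₀ A' hC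
  haveI := flat_tensor₁ A' hC
  haveI := away_tensor₁ A hC
  haveI := away_tensor₁ A' hC
  subst hI'
  exact idealGD_isBC (tensorMapLeft k φ B₀) (tensorMapLeft k φ B₁) (tensorMapLeft k φ B₀₁)
    (tensorMapLeft_comp_algebraMap φ B₀ B₀₁) (tensorMapLeft_comp_algebraMap φ B₁ B₀₁)
    I _ _ rfl (map_contr ((1 : A) ⊗ₜ[k] y) I) (hilb_invertible A hC I)
    (hilb_contr_invertible A hC I)
    (I.map (tensorMapLeft k φ B₀)) _ _ rfl
    (map_contr ((1 : A') ⊗ₜ[k] y) (I.map (tensorMapLeft k φ B₀)))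
    (hilb_invertible A' hC _) (hilb_contr_invertible A' hC _) rfl
    (contr_tensorMapLeft hC φ I)

/-- **Base change, existence form.** -/
theorem hilbGD_isBC_map [IsAlgClosed k] (hC : IsCurveChart k B₀ B₁ B₀₁ x y e) (φ : A →ₐ[k] A')
    (I : Ideal (A ⊗[k] B₀)) [Module.Finite A ((A ⊗[k] B₀) ⧸ I)]
    [Module.Projective A ((A ⊗[k] B₀) ⧸ I)] :
    haveI := finite_quot_map φ B₀ I
    haveI := projective_quot_map φ B₀ I
    CurveGD.IsBC φ (hilbGD A hC I) (hilbGD A' hC (I.map (tensorMapLeft k φ B₀))) := by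
  haveI := finite_quot_map φ B₀ I
  haveI := projective_quot_map φ B₀ I
  exact hilbGD_isBC hC φ I _ rfl

end BaseChange

end Fermat.Agent.S25.H851

end
-- ===== PACK-END S25/H851/HilbGD.lean

-- ===== PACK-BEGIN S25/H370/CechK6Full.lean
section
/-
S25, block CECH (squad S25/S10), leaf K6 (helper370): `exists_finite_model`, exactly as in
`CechSkel.lean` (origin/helper10).  Assembly of
* K0a, K0e, K1 (`Fermat.Agent.S25.H10`), K1a (`Fermat.Agent.S25.H850`),
  K2 (`Fermat.Agent.S25.H790`), and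
* the base-change core `finite_model_baseChange` (K3 + K5, `Fermat.Agent.S25.H370`).
-/






set_option autoImplicit false

namespace Fermat.Agent.S25.H370

open Polynomial TensorProduct Fermat.Agent.S25.H10

universe u v

variable {A : Type u} [CommRing A] {N0 N1 N01 : Type v}
  [AddCommGroup N0] [AddCommGroup N1] [AddCommGroup N01]
  [Module A N0] [Module A N1] [Module A N01]

/-- **K1**, exactly as in `CechSkel.lean`. -/
theorem H0_finite_projective_of_surjective (D : CechOps A N0 N1 N01)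
    (h0 : IsFGProj D.X0) (h1 : IsFGProj D.Y1)
    (hr0 : Function.Injective D.r0) (hr1 : Function.Injective D.r1) (m : ℕ)
    (hsurj : Function.Surjective (D.d m)) :
    (∃ s : N01 →ₗ[A] N0 × N1, D.d m ∘ₗ s = LinearMap.id) ∧
      Module.Finite A (D.H0 m) ∧ Module.Projective A (D.H0 m) :=
  Fermat.Agent.S25.H10.H0_finite_projective_of_surjective_of_bound D h0 h1 hr0 m
    (Fermat.Agent.S25.H850.exists_fg_ge_H0 D h0 h1 hr0 hr1 m) hsurj

/-- **K6 (finite model).** There are `m` and the map `δ m : H⁰(L(m∞)) → N1/y^m N1` between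
finitely generated projective `A`-modules which computes `H⁰` and `H¹` of the Čech complex
universally: after every base change `A → A'` its kernel and cokernel are those of `A' ⊗ d 0`. -/
theorem exists_finite_model (D : CechOps A N0 N1 N01)
    (h0 : IsFGProj D.X0) (h1 : IsFGProj D.Y1)
    (hr0 : Function.Injective D.r0) (hr1 : Function.Injective D.r1) :
    ∃ m : ℕ, Function.Surjective (D.d m) ∧
      Module.Finite A (D.H0 m) ∧ Module.Projective A (D.H0 m) ∧
      Module.Finite A (N1 ⧸ LinearMap.range (D.Y1 ^ m)) ∧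
      Module.Projective A (N1 ⧸ LinearMap.range (D.Y1 ^ m)) ∧
      ∀ (A' : Type (max u v)) [CommRing A'] [Algebra A A'],
        Nonempty (LinearMap.ker ((D.δ m).baseChange A') ≃ₗ[A']
          LinearMap.ker ((D.d 0).baseChange A')) ∧
        Nonempty (((A' ⊗[A] (N1 ⧸ LinearMap.range (D.Y1 ^ m))) ⧸
            LinearMap.range ((D.δ m).baseChange A')) ≃ₗ[A']
          ((A' ⊗[A] N01) ⧸ LinearMap.range ((D.d 0).baseChange A'))) :=
  exists_finite_model_of D h0 h1 hr0
    (Fermat.Agent.S25.H790.exists_forall_d_surjective D (isFG_of_isFGProj h0))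
    (fun m hs => (H0_finite_projective_of_surjective D h0 h1 hr0 hr1 m hs).2)
    (fun m => quotient_pow_finite_projective h1 m)

/-- K6 for **every** sufficiently large twist, and for base rings `A'` in every universe. -/
theorem exists_forall_finite_model (D : CechOps A N0 N1 N01)
    (h0 : IsFGProj D.X0) (h1 : IsFGProj D.Y1)
    (hr0 : Function.Injective D.r0) (hr1 : Function.Injective D.r1) :
    ∃ m0 : ℕ, ∀ m, m0 ≤ m → Function.Surjective (D.d m) ∧
      Module.Finite A (D.H0 m) ∧ Module.Projective A (D.H0 m) ∧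
      Module.Finite A (N1 ⧸ LinearMap.range (D.Y1 ^ m)) ∧
      Module.Projective A (N1 ⧸ LinearMap.range (D.Y1 ^ m)) ∧
      ∀ (A' : Type*) [CommRing A'] [Algebra A A'],
        Nonempty (LinearMap.ker ((D.δ m).baseChange A') ≃ₗ[A']
          LinearMap.ker ((D.d 0).baseChange A')) ∧
        Nonempty (((A' ⊗[A] (N1 ⧸ LinearMap.range (D.Y1 ^ m))) ⧸
            LinearMap.range ((D.δ m).baseChange A')) ≃ₗ[A']
          ((A' ⊗[A] N01) ⧸ LinearMap.range ((D.d 0).baseChange A'))) := by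
  obtain ⟨m0, hm0⟩ := Fermat.Agent.S25.H790.exists_forall_d_surjective D (isFG_of_isFGProj h0)
  refine ⟨m0, fun m hm => ?_⟩
  have hs := hm0 m hm
  have hK1 := (H0_finite_projective_of_surjective D h0 h1 hr0 hr1 m hs).2
  have hK0 := quotient_pow_finite_projective h1 m
  exact ⟨hs, hK1.1, hK1.2, hK0.1, hK0.2,
    fun A' _ _ => finite_model_baseChange A' D h0 h1 hr0 m hs⟩

end Fermat.Agent.S25.H370

end
-- ===== PACK-END S25/H370/CechK6Full.lean

-- ===== PACK-BEGIN S26/H164/LSDiv.lean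
section


/-!
# Row S26, subtask LS:DIV (helper164): `Stmt.LSDiv`, `Stmt.CDivOps`, `Stmt.LSDivOps`

Cartier divisors as families of local generators in the function field:
* `lsDiv`     : a base point free system has a divisor (openness of `GenAt`);
* `cDivOps`   : powers, products and pull-backs of Cartier divisors exist;
* `lsDivOps`  : the divisor of a system is compatible with powers and pull-backs.

Key tools: `exists_open_forall_mem_range` (a rational function regular at `x` is regular near `x`)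
and `ffMap_algebraMap` (`ffMap` restricted to the local ring at `φ x` is the stalk map at `x`).
-/

set_option autoImplicit false
universe u

open CategoryTheory CategoryTheory.Limits AlgebraicGeometry NeronModelInfra GoodReductionJacobian

namespace Fermat.Agent.S26.H164

noncomputable section

/-! ## Pure algebra: spans of singletons -/

section Alg

variable {R K : Type*} [CommRing R] [Field K] [Algebra R K]

lemma span_singleton_eq_of_smul {f g : K} (a b : R) (h1 : f = a • g) (h2 : g = b • f) :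
    Submodule.span R {f} = Submodule.span R {g} := by
  apply le_antisymm
  · rw [Submodule.span_singleton_le_iff_mem]
    exact Submodule.mem_span_singleton.mpr ⟨a, h1.symm⟩
  · rw [Submodule.span_singleton_le_iff_mem]
    exact Submodule.mem_span_singleton.mpr ⟨b, h2.symm⟩

lemma exists_smul_of_span_singleton_eq {f g : K}
    (h : Submodule.span R {f} = Submodule.span R {g}) :
    (∃ a : R, f = a • g) ∧ ∃ b : R, g = b • f := by
  constructor
  · have : f ∈ Submodule.span R {g} := h ▸ Submodule.mem_span_singleton_self f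
    obtain ⟨a, ha⟩ := Submodule.mem_span_singleton.mp this
    exact ⟨a, ha.symm⟩
  · have : g ∈ Submodule.span R {f} := h.symm ▸ Submodule.mem_span_singleton_self g
    obtain ⟨b, hb⟩ := Submodule.mem_span_singleton.mp this
    exact ⟨b, hb.symm⟩

end Alg

/-! ## Stalks inside the function field -/

section Stalk

variable {X : Scheme.{u}} [IsIntegral X]

lemma algebraMap_stalk_injective (x : X) :
    Function.Injective (algebraMap (X.presheaf.stalk x) X.functionField) :=
  IsFractionRing.injective _ _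

/-- A rational function which is regular at `x` is regular on a neighbourhood of `x`. -/
lemma exists_open_forall_mem_range {x : X} {a : X.functionField}
    (ha : a ∈ (algebraMap (X.presheaf.stalk x) X.functionField).range) :
    ∃ U : X.Opens, x ∈ U ∧
      ∀ y ∈ U, a ∈ (algebraMap (X.presheaf.stalk y) X.functionField).range := by
  obtain ⟨s, rfl⟩ := ha
  obtain ⟨U, hxU, t, rfl⟩ := X.presheaf.exists_germ_eq s
  refine ⟨U, hxU, fun y hy => ⟨X.presheaf.germ U y hy t, ?_⟩⟩
  have : Nonempty U := ⟨⟨x, hxU⟩⟩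
  rw [Scheme.algebraMap_germ_eq_germToFunctionField,
    Scheme.algebraMap_germ_eq_germToFunctionField]

/-- Finite version. -/
lemma exists_open_forall_mem_range_fin {x : X} {n : ℕ} (a : Fin n → X.functionField)
    (ha : ∀ i, a i ∈ (algebraMap (X.presheaf.stalk x) X.functionField).range) :
    ∃ U : X.Opens, x ∈ U ∧
      ∀ y ∈ U, ∀ i, a i ∈ (algebraMap (X.presheaf.stalk y) X.functionField).range := by
  choose U hxU hU using fun i => exists_open_forall_mem_range (ha i)
  refine ⟨⟨⋂ i, (U i : Set X), isOpen_iInter_of_finite fun i => (U i).isOpen⟩, ?_, ?_⟩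
  · exact Set.mem_iInter.mpr fun i => hxU i
  · intro y hy i
    exact hU i y (Set.mem_iInter.mp hy i)

end Stalk

/-! ## `ffMap` and stalk maps -/

section FF

variable {X Y : Scheme.{u}} [IsIntegral X] [IsIntegral Y]

/-- `ffMap φ` restricted to the local ring of `Y` at `φ x` is the stalk map of `φ` at `x`. -/
lemma ffMap_algebraMap (φ : X ⟶ Y) (h : φ (genericPoint X) = genericPoint Y) (x : X)
    (s : Y.presheaf.stalk (φ x)) :
    ffMap φ h (algebraMap (Y.presheaf.stalk (φ x)) Y.functionField s) =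
      algebraMap (X.presheaf.stalk x) X.functionField (φ.stalkMap x s) := by
  have hx : genericPoint X ⤳ x := (genericPoint_spec X).specializes trivial
  have key := Scheme.Hom.stalkSpecializes_stalkMap_apply φ (genericPoint X) x hx s
  simp only [ffMap, RingHom.algebraMap_toAlgebra, CommRingCat.hom_comp, RingHom.comp_apply,
    TopCat.Presheaf.stalkCongr_hom]
  rw [← key]
  congr 1
  exact TopCat.Presheaf.stalkSpecializes_comp_apply _ _ _ s

lemma ffMap_smul (φ : X ⟶ Y) (h : φ (genericPoint X) = genericPoint Y) (x : X)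
    (s : Y.presheaf.stalk (φ x)) (g : Y.functionField) :
    ffMap φ h (s • g) = (φ.stalkMap x s) • ffMap φ h g := by
  rw [Algebra.smul_def, Algebra.smul_def, map_mul, ffMap_algebraMap]

lemma ffMap_ne_zero (φ : X ⟶ Y) (h : φ (genericPoint X) = genericPoint Y) {g : Y.functionField}
    (hg : g ≠ 0) : ffMap φ h g ≠ 0 :=
  (map_ne_zero_iff _ (ffMap φ h).injective).mpr hg

end FF

/-! ## Transport of equalities of principal fractional ideals -/

section Span1

variable {X Y : Scheme.{u}} [IsIntegral X] [IsIntegral Y]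

lemma span1_pow {x : X} {f g : X.functionField} (h : LS.span1 f x = LS.span1 g x) (r : ℕ) :
    LS.span1 (f ^ r) x = LS.span1 (g ^ r) x := by
  obtain ⟨⟨a, ha⟩, ⟨b, hb⟩⟩ := exists_smul_of_span_singleton_eq h
  refine span_singleton_eq_of_smul (a ^ r) (b ^ r) ?_ ?_
  · conv_lhs => rw [ha]
    rw [Algebra.smul_def, Algebra.smul_def, mul_pow, map_pow]
  · conv_lhs => rw [hb]
    rw [Algebra.smul_def, Algebra.smul_def, mul_pow, map_pow]

lemma span1_mul {x : X} {f g f' g' : X.functionField} (h : LS.span1 f x = LS.span1 g x)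
    (h' : LS.span1 f' x = LS.span1 g' x) :
    LS.span1 (f * f') x = LS.span1 (g * g') x := by
  obtain ⟨⟨a, ha⟩, ⟨b, hb⟩⟩ := exists_smul_of_span_singleton_eq h
  obtain ⟨⟨a', ha'⟩, ⟨b', hb'⟩⟩ := exists_smul_of_span_singleton_eq h'
  refine span_singleton_eq_of_smul (a * a') (b * b') ?_ ?_
  · conv_lhs => rw [ha, ha']
    simp only [Algebra.smul_def, map_mul]
    ring
  · conv_lhs => rw [hb, hb']
    simp only [Algebra.smul_def, map_mul]
    ring

lemma span1_ffMap (φ : X ⟶ Y) (hφ : φ (genericPoint X) = genericPoint Y) {x : X}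
    {f g : Y.functionField} (h : LS.span1 f (φ x) = LS.span1 g (φ x)) :
    LS.span1 (ffMap φ hφ f) x = LS.span1 (ffMap φ hφ g) x := by
  obtain ⟨⟨a, ha⟩, ⟨b, hb⟩⟩ := exists_smul_of_span_singleton_eq h
  refine span_singleton_eq_of_smul (φ.stalkMap x a) (φ.stalkMap x b) ?_ ?_
  · conv_lhs => rw [ha]
    exact ffMap_smul φ hφ x a g
  · conv_lhs => rw [hb]
    exact ffMap_smul φ hφ x b f

end Span1

/-! ## LSDiv -/

section LSDiv

variable {X : Scheme.{u}} [IsIntegral X]

/-- `GenAt` is an open condition. -/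
lemma exists_open_genAt {d : ℕ} (w : Fin (d + 1) → X.functionField) {x : X} {b : Fin (d + 1)}
    (hb : LS.GenAt w x b) :
    ∃ U : X.Opens, x ∈ U ∧ ∀ y ∈ U, LS.GenAt w y b := by
  obtain ⟨hb0, hspan⟩ := hb
  have hmem : ∀ i, w i / w b ∈ (algebraMap (X.presheaf.stalk x) X.functionField).range := by
    intro i
    have : w i ∈ LS.span w x := Submodule.subset_span ⟨i, rfl⟩
    rw [hspan] at this
    obtain ⟨a, ha⟩ := Submodule.mem_span_singleton.mp this
    refine ⟨a, ?_⟩
    rw [Algebra.smul_def] at ha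
    rw [← ha, mul_div_assoc, div_self hb0, mul_one]
  obtain ⟨U, hxU, hU⟩ := exists_open_forall_mem_range_fin (fun i => w i / w b) hmem
  refine ⟨U, hxU, fun y hy => ⟨hb0, ?_⟩⟩
  apply le_antisymm
  · refine Submodule.span_le.mpr ?_
    rintro _ ⟨i, rfl⟩
    obtain ⟨a, ha⟩ := hU y hy i
    refine Submodule.mem_span_singleton.mpr ⟨a, ?_⟩
    rw [Algebra.smul_def, ha, div_mul_cancel₀ _ hb0]
  · exact Submodule.span_mono (Set.singleton_subset_iff.mpr ⟨b, rfl⟩)

/-- **LS1.** A base point free system has a divisor. -/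
theorem lsDiv : Stmt.LSDiv.{u} := by
  intro X _ d w hBPF
  choose b hb using hBPF
  refine ⟨⟨fun x => w (b x), fun x => (hb x).1, ?_⟩, ?_⟩
  · intro x
    obtain ⟨U, hxU, hU⟩ := exists_open_genAt w (hb x)
    refine ⟨U, hxU, fun y hy => ?_⟩
    have h1 : LS.span w y = LS.span1 (w (b y)) y := (hb y).2
    have h2 : LS.span w y = LS.span1 (w (b x)) y := (hU y hy).2
    exact h1.symm.trans h2
  · intro x
    exact (hb x).2

end LSDiv

/-! ## CDivOps -/

section CDivOps

/-- The `r`-th power of a Cartier divisor. -/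
def cdivPow {X : Scheme.{u}} [IsIntegral X] (D : CDiv X) (r : ℕ) : CDiv X where
  gen x := D.gen x ^ r
  gen_ne x := pow_ne_zero r (D.gen_ne x)
  loc x := by
    obtain ⟨U, hxU, hU⟩ := D.loc x
    exact ⟨U, hxU, fun y hy => span1_pow (hU y hy) r⟩

/-- The product of two Cartier divisors. -/
def cdivMul {X : Scheme.{u}} [IsIntegral X] (D D' : CDiv X) : CDiv X where
  gen x := D.gen x * D'.gen x
  gen_ne x := mul_ne_zero (D.gen_ne x) (D'.gen_ne x)
  loc x := by
    obtain ⟨U, hxU, hU⟩ := D.loc x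
    obtain ⟨U', hxU', hU'⟩ := D'.loc x
    exact ⟨U ⊓ U', ⟨hxU, hxU'⟩, fun y hy => span1_mul (hU y hy.1) (hU' y hy.2)⟩

/-- The pull-back of a Cartier divisor along a morphism preserving the generic point. -/
def cdivPullback {X Y : Scheme.{u}} [IsIntegral X] [IsIntegral Y] (φ : Y ⟶ X)
    (h : φ (genericPoint Y) = genericPoint X) (D : CDiv X) : CDiv Y where
  gen y := ffMap φ h (D.gen (φ y))
  gen_ne y := ffMap_ne_zero φ h (D.gen_ne (φ y))
  loc y := by
    obtain ⟨U, hxU, hU⟩ := D.loc (φ y)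
    exact ⟨φ ⁻¹ᵁ U, hxU, fun y' hy' => span1_ffMap φ h (hU (φ y') hy')⟩

/-- Powers, products and pull-backs of Cartier divisors exist. -/
theorem cDivOps : Stmt.CDivOps.{u} := by
  intro X _ D
  refine ⟨fun r => ⟨cdivPow D r, fun x => rfl⟩, fun D' => ⟨cdivMul D D', fun x => rfl⟩, ?_⟩
  intro Y _ φ h
  exact ⟨cdivPullback φ h D, fun y => rfl⟩

end CDivOps

/-! ## LSDivOps -/

section LSDivOps

variable {X : Scheme.{u}} [IsIntegral X]

/-- If the system `w` generates `O_x · g` at `x` (`g ≠ 0`), then `w i = a i • g` with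
`a i ∈ O_x`, `g = ∑ c i • w i`, and some `a i` is a unit. -/
lemma exists_coeffs {d : ℕ} (w : Fin (d + 1) → X.functionField) {x : X} {g : X.functionField}
    (hg : g ≠ 0) (h : LS.span w x = LS.span1 g x) :
    ∃ a c : Fin (d + 1) → X.presheaf.stalk x, (∀ i, w i = a i • g) ∧ g = ∑ i, c i • w i ∧
      ∃ i, IsUnit (a i) := by
  have h1 : ∀ i, ∃ a : X.presheaf.stalk x, w i = a • g := by
    intro i
    have : w i ∈ LS.span w x := Submodule.subset_span ⟨i, rfl⟩
    rw [h] at this
    obtain ⟨a, ha⟩ := Submodule.mem_span_singleton.mp this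
    exact ⟨a, ha.symm⟩
  choose a ha using h1
  have h2 : g ∈ LS.span w x := by
    rw [h]; exact Submodule.mem_span_singleton_self g
  obtain ⟨c, hc⟩ := (Submodule.mem_span_range_iff_exists_fun _).mp h2
  refine ⟨a, c, ha, hc.symm, ?_⟩
  -- `∑ c i * a i = 1`
  have hsum : (∑ i, c i * a i) • g = (1 : X.presheaf.stalk x) • g := by
    rw [one_smul, Finset.sum_smul]
    conv_rhs => rw [← hc]
    refine Finset.sum_congr rfl fun i _ => ?_
    rw [mul_smul, ← ha i]
  have hone : ∑ i, c i * a i = 1 := by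
    apply algebraMap_stalk_injective x
    have := hsum
    rw [Algebra.smul_def, Algebra.smul_def] at this
    exact mul_right_cancel₀ hg this
  by_contra hcon
  push Not at hcon
  have hmem : ∑ i, c i * a i ∈ IsLocalRing.maximalIdeal (X.presheaf.stalk x) :=
    Ideal.sum_mem _ fun i _ => Ideal.mul_mem_left _ _ ((IsLocalRing.mem_maximalIdeal _).mpr (hcon i))
  rw [hone] at hmem
  exact (Ideal.ne_top_iff_one _).mp (IsLocalRing.maximalIdeal.isMaximal _).ne_top hmem

/-- Compatibility of "divisor of a system" with powers and pull-backs. -/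
theorem lsDivOps : Stmt.LSDivOps.{u} := by
  intro X _ d w D hD
  constructor
  · intro r D' hD' x
    rw [hD' x]
    obtain ⟨a, c, ha, -, i₀, hi₀⟩ := exists_coeffs w (D.gen_ne x) (hD x)
    apply le_antisymm
    · refine Submodule.span_le.mpr ?_
      rintro _ ⟨i, rfl⟩
      refine Submodule.mem_span_singleton.mpr ⟨a i ^ r, ?_⟩
      change a i ^ r • D.gen x ^ r = w i ^ r
      rw [ha i, Algebra.smul_def, Algebra.smul_def, mul_pow, map_pow]
    · rw [LS.span1, Submodule.span_singleton_le_iff_mem]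
      obtain ⟨u, hu⟩ := hi₀
      have hw : D.gen x ^ r = ((u⁻¹ : (X.presheaf.stalk x)ˣ) : X.presheaf.stalk x) ^ r • w i₀ ^ r := by
        rw [ha i₀, ← hu, Algebra.smul_def, Algebra.smul_def, mul_pow, ← mul_assoc, ← map_pow,
          ← map_mul, ← mul_pow, Units.inv_mul, one_pow, map_one, one_mul]
      rw [hw]
      exact Submodule.smul_mem _ _ (Submodule.subset_span ⟨i₀, rfl⟩)
  · intro Y _ φ h D' hD' y
    rw [hD' y]
    obtain ⟨a, c, ha, hc, -⟩ := exists_coeffs w (D.gen_ne (φ y)) (hD (φ y))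
    apply le_antisymm
    · refine Submodule.span_le.mpr ?_
      rintro _ ⟨i, rfl⟩
      refine Submodule.mem_span_singleton.mpr ⟨φ.stalkMap y (a i), ?_⟩
      change φ.stalkMap y (a i) • ffMap φ h (D.gen (φ y)) = ffMap φ h (w i)
      rw [← ffMap_smul, ← ha i]
    · rw [LS.span1, Submodule.span_singleton_le_iff_mem]
      have : ffMap φ h (D.gen (φ y)) = ∑ i, φ.stalkMap y (c i) • ffMap φ h (w i) := by
        conv_lhs => rw [hc]
        rw [map_sum]
        exact Finset.sum_congr rfl fun i _ => ffMap_smul φ h y (c i) (w i)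
      rw [this]
      exact Submodule.sum_mem _ fun i _ =>
        Submodule.smul_mem _ _ (Submodule.subset_span ⟨i, rfl⟩)

end LSDivOps

end

end Fermat.Agent.S26.H164

end
-- ===== PACK-END S26/H164/LSDiv.lean

-- ===== PACK-BEGIN S27/Top.lean
section


/-!
# Row S27: the top glue (architect helper87)

* `uniform_of_jac`   : S26 (hypothesis) + `Stmt.Jac` ⇒ S27 for `K`, `F` in one universe.
* `result_of_uniform` : `Stmt.Transport` + S27 in one universe ⇒ S27 (any universes).
-/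

set_option autoImplicit false
set_option linter.style.haveILetI false
universe u
open CategoryTheory CategoryTheory.Limits AlgebraicGeometry AlgebraicGeometry.RelPicard
  NeronModelInfra GoodReductionJacobian AlgebraicCurve
open scoped TensorProduct

namespace Fermat.Agent.S27

open Fermat.Agent.S25

noncomputable section

section Count

variable {K F : Type u} [Field K] [Field F] [Algebra K F]

/-- The identity of the group law is the image of `0`. -/
theorem JacPackage.pts_zero (P : JacPackage K F) :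
    P.pts 0 = P.law.one (𝟙 (Spec (CommRingCat.of K))) := by
  set t := 𝟙 (Spec (CommRingCat.of K))
  have hidem : P.law.mul t (P.pts 0) (P.pts 0) = P.pts 0 := by
    rw [← P.pts_add, add_zero]
  calc P.pts 0 = P.law.mul t (P.law.one t) (P.pts 0) := (P.law.one_mul t _).symm
    _ = P.law.mul t (P.law.mul t (P.law.inv t (P.pts 0)) (P.pts 0)) (P.pts 0) := by
        rw [P.law.inv_mul_cancel]
    _ = P.law.mul t (P.law.inv t (P.pts 0)) (P.law.mul t (P.pts 0) (P.pts 0)) :=
        P.law.mul_assoc t _ _ _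
    _ = P.law.mul t (P.law.inv t (P.pts 0)) (P.pts 0) := by rw [hidem]
    _ = P.law.one t := P.law.inv_mul_cancel t _

/-- `pts` turns multiples into multiples. -/
theorem JacPackage.pts_nsmul (P : JacPackage K F) (n : ℕ) (x : Pic0 K F) :
    P.pts (n • x) = P.law.nsmul (𝟙 (Spec (CommRingCat.of K))) n (P.pts x) := by
  induction n with
  | zero => rw [zero_nsmul, P.pts_zero]; rfl
  | succ n ih => rw [succ_nsmul, P.pts_add, ih]; rfl

/-- The torsion of `Pic⁰` is the torsion of the Jacobian. -/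
def JacPackage.torsionEquiv (P : JacPackage K F) (n : ℕ) :
    Pic0.torsion K F n ≃
      {x : SchemeHomOver (𝟙 (Spec (CommRingCat.of K))) P.f //
        P.law.IsTorsionPoint (𝟙 (Spec (CommRingCat.of K))) n x} :=
  P.pts.subtypeEquiv fun x => by
    show x ∈ Pic0.torsion K F n ↔ P.law.nsmul _ n (P.pts x) = P.law.one _
    rw [Pic0.mem_torsion, natCast_zsmul, ← P.pts_nsmul, ← P.pts_zero]
    exact P.pts.injective.eq_iff.symm

/-- **S27 in one universe**, from S26 and the Jacobian package. -/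
theorem uniform_of_jac (hS26 : S26Stmt.{u}) (hJ : Stmt.Jac K F) : Stmt.Uniform K F := by
  intro _ _ _ _ ℓ hℓ k
  obtain ⟨P⟩ := hJ
  have hn : ((ℓ ^ k : ℕ) : K) ≠ 0 := by
    rw [Nat.cast_ne_zero]
    exact pow_ne_zero _ hℓ.out.ne_zero
  haveI := P.smoothDim
  have h := hS26 K P.f P.law P.comm P.bundle (genusFF K F) (ℓ ^ k) hn
  rw [Nat.card_congr (P.torsionEquiv (ℓ ^ k)), h, ← pow_mul]
  congr 1
  ring

end Count

section Universe

universe u₁ u₂

/-- Algebraic closedness is invariant under ring isomorphisms (across universes). -/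
theorem isAlgClosed_of_ringEquiv {K : Type u₁} {L : Type u₂} [Field K] [Field L]
    [IsAlgClosed K] (σ : K ≃+* L) : IsAlgClosed L := by
  apply IsAlgClosed.of_exists_root
  intro p _ hirr
  have hdeg : (p.map (σ.symm : L →+* K)).degree ≠ 0 := by
    rw [Polynomial.degree_map]
    exact (Polynomial.degree_pos_of_irreducible hirr).ne'
  obtain ⟨x, hx⟩ := IsAlgClosed.exists_root (p.map (σ.symm : L →+* K)) hdeg
  refine ⟨σ x, ?_⟩
  rw [Polynomial.IsRoot, Polynomial.eval_map] at hx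
  have h := congrArg (σ : K →+* L) hx
  rw [Polynomial.hom_eval₂, map_zero] at h
  have hid : (σ : K →+* L).comp (σ.symm : L →+* K) = RingHom.id L := by
    ext a
    simp
  rw [hid, Polynomial.eval₂_id] at h
  exact h

/-- **S27**, from the transport statement and S27 in one universe. -/
theorem result_of_uniform (hT : Stmt.Transport.{u₁, u₂, max u₁ u₂})
    (hU : ∀ (K F : Type (max u₁ u₂)) [Field K] [Field F] [Algebra K F], Stmt.Uniform K F)
    (K : Type u₁) (F : Type u₂) [Field K] [Field F] [Algebra K F] [IsAlgClosed K] [CharZero K]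
    [IsCurveOver K F] [Algebra.EssFiniteType K F] (ℓ : ℕ) [Fact ℓ.Prime] (k : ℕ) :
    Nat.card (Pic0.torsion K F (ℓ ^ k)) = ℓ ^ (2 * genusFF K F * k) := by
  let σ : K ≃+* ULift.{u₂} K := ULift.ringEquiv.symm
  let τ : F ≃+* ULift.{u₁} F := ULift.ringEquiv.symm
  letI : Algebra (ULift.{u₂} K) (ULift.{u₁} F) :=
    ((τ.toRingHom.comp (algebraMap K F)).comp σ.symm.toRingHom).toAlgebra
  have hcompat : ∀ a : K, τ (algebraMap K F a) =
      algebraMap (ULift.{u₂} K) (ULift.{u₁} F) (σ a) := fun a => rfl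
  obtain ⟨h1, h2, h3, h4⟩ := hT K F (ULift.{u₂} K) (ULift.{u₁} F) σ τ hcompat
  haveI : IsAlgClosed (ULift.{u₂} K) := isAlgClosed_of_ringEquiv σ
  haveI : CharZero (ULift.{u₂} K) := charZero_of_injective_ringHom σ.toRingHom.injective
  haveI : IsCurveOver (ULift.{u₂} K) (ULift.{u₁} F) := h1 inferInstance
  haveI : Algebra.EssFiniteType (ULift.{u₂} K) (ULift.{u₁} F) := h2 inferInstance
  rw [h3, h4]
  exact hU (ULift.{u₂} K) (ULift.{u₁} F) ℓ k

end Universe

end

end Fermat.Agent.S27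

end
-- ===== PACK-END S27/Top.lean

-- ===== PACK-BEGIN S27/H660/Conn.lean
section


/-!
# Row S27, leaf CONN (helper660)

A geometrically connected scheme over a field has connected fibres.
-/

set_option autoImplicit false
universe u

open CategoryTheory AlgebraicGeometry

namespace Fermat.Agent.S27.H660

/-- **CONN.** -/
theorem conn (k : Type u) [Field k] : Stmt.Conn k := by
  intro _ J f _ _ _ s
  exact f.isConnected_preimage_singleton s

end Fermat.Agent.S27.H660

end
-- ===== PACK-END S27/H660/Conn.lean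

-- ===== PACK-BEGIN S18/H504/ConstFree.lean
section




/-!
# S18 / T3 generic core (CHAR-FREE): zeros exist, functions without zeros are constant

* `exists_valuationSubring_nonunit` : Chevalley — a transcendental `u` is a non-unit of some
  valuation ring of `F` containing `K`.
* `exists_place_ord_pos` : `u` transcendental, `F` finite over `K(u)` ⟹ `∃ v, 0 < v.ord u`.
* `exists_place_eq` : every nontrivial valuation ring of `F` containing `K` is a `Place`.
* `constOfOrdZero_of_finite` : `K` algebraically closed, `F` finite over `K(x)`, `x`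
  transcendental ⟹ a nonzero function without zeros and poles is constant
  (`= H94.ConstOfOrdZero K F`, unfolded).  No assumption on the characteristic.
-/

set_option autoImplicit false

namespace Fermat.Agent.S18.H504

open AlgebraicCurve IntermediateField Polynomial Fermat.Agent.S24

variable {K F : Type*} [Field K] [Field F] [Algebra K F]

/-- **Chevalley.** A transcendental element is a non-unit in some valuation ring over `K`. -/
theorem exists_valuationSubring_nonunit {u : F} (hu : Transcendental K u) :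
    ∃ O : ValuationSubring F, (∀ a : K, algebraMap K F a ∈ O) ∧ u ∈ O ∧ u⁻¹ ∉ O := by
  set A : Subring F := (Algebra.adjoin K {u}).toSubring with hA
  have huA : u ∈ A := Algebra.self_mem_adjoin_singleton K u
  have hne : Ideal.span {(⟨u, huA⟩ : A)} ≠ ⊤ := by
    intro htop
    rw [Ideal.span_singleton_eq_top] at htop
    obtain ⟨⟨b, hb⟩, hub⟩ := isUnit_iff_exists_inv.mp htop
    have hb' : b ∈ Algebra.adjoin K {u} := hb
    rw [Algebra.adjoin_singleton_eq_range_aeval] at hb'
    obtain ⟨p, hp⟩ := hb'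
    have hmul : u * b = 1 := congrArg Subtype.val hub
    apply hu
    refine ⟨X * p - 1, ?_, ?_⟩
    · intro h0
      have := congrArg (fun q => q.coeff 0) h0
      simp at this
    · have hp' : aeval u p = b := hp
      simp [hp', hmul]
  obtain ⟨O, hAO, hsub⟩ := Ideal.image_subset_nonunits_valuationSubring _ hne
  have hunon : u ∈ O.nonunits := hsub ⟨⟨u, huA⟩, Ideal.subset_span rfl, rfl⟩
  refine ⟨O, fun a => hAO (Subalgebra.algebraMap_mem _ a), ?_, ?_⟩
  · exact O.nonunits_subset hunon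
  · intro hinv
    have h1 : O.valuation u < 1 := (O.mem_nonunits_iff).mp hunon
    have h2 : O.valuation u⁻¹ ≤ 1 := (O.valuation_le_one_iff _).mpr hinv
    rw [map_inv₀] at h2
    have hu0 : O.valuation u ≠ 0 := by
      rw [Valuation.ne_zero_iff]
      rintro rfl
      exact hu (isAlgebraic_zero)
    have := (inv_le_one₀ (zero_lt_iff.mpr hu0)).mp h2
    exact absurd h1 (not_lt.mpr this)

/-- **Zeros exist** (char-free). -/
theorem exists_place_ord_pos {u : F} (hu : Transcendental K u) [FiniteDimensional K⟮u⟯ F] :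
    ∃ v : Place K F, 0 < v.ord u := by
  obtain ⟨O, hK, huO, huO'⟩ := exists_valuationSubring_nonunit hu
  refine ⟨placeOfValuationSubring O hK huO huO', ?_⟩
  set v := placeOfValuationSubring O hK huO huO' with hv
  have h1 : 0 ≤ v.ord u := (S24.H504.mem_iff_ord_nonneg' v u).mp huO
  have h2 : ¬ 0 ≤ v.ord u⁻¹ := fun h => huO' ((S24.H504.mem_iff_ord_nonneg' v u⁻¹).mpr h)
  rw [Place.ord_inv] at h2
  omega

/-- A nonzero non-unit of a valuation ring containing `K` is transcendental over `K`. -/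
theorem transcendental_of_nonunit (O : ValuationSubring F) (hK : ∀ a : K, algebraMap K F a ∈ O)
    {u : F} (hu' : u⁻¹ ∉ O) : Transcendental K u := by
  intro halg
  apply hu'
  have hinv : IsAlgebraic K u⁻¹ := halg.inv
  have hint : IsIntegral K u⁻¹ := hinv.isIntegral
  obtain ⟨p, hpm, hp⟩ := hint
  -- `u⁻¹` is integral over `O`
  let φ : K →+* O := (algebraMap K F).codRestrict O.toSubring hK
  have hint' : IsIntegral O u⁻¹ := by
    refine ⟨p.map φ, hpm.map φ, ?_⟩
    rw [eval₂_map]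
    have : (algebraMap O F).comp φ = algebraMap K F := by
      ext a; rfl
    rw [this]
    exact hp
  obtain ⟨y, hy⟩ := IsIntegrallyClosed.isIntegral_iff.mp hint'
  rw [← hy]
  exact y.2

/-- **Every nontrivial valuation ring of a function field is a place** (char-free). -/
theorem exists_place_eq {x : F} (hx : Transcendental K x) [FiniteDimensional K⟮x⟯ F]
    (O : ValuationSubring F) (hK : ∀ a : K, algebraMap K F a ∈ O) (hO : O ≠ ⊤) :
    ∃ v : Place K F, v.toValuationSubring = O := by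
  have hex : ∃ f : F, f ∉ O := by
    by_contra h
    push Not at h
    exact hO (SetLike.ext fun f => ⟨fun _ => ValuationSubring.mem_top f, fun _ => h f⟩)
  obtain ⟨f, hf⟩ := hex
  have hfi : f⁻¹ ∈ O := (O.mem_or_inv_mem f).resolve_left hf
  have hfi' : (f⁻¹)⁻¹ ∉ O := by rwa [inv_inv]
  have htr : Transcendental K f⁻¹ := transcendental_of_nonunit O hK hfi'
  have : FiniteDimensional K⟮f⁻¹⟯ F := FF.finiteDimensional_adjoin_of_transcendental hx htr
  exact ⟨placeOfValuationSubring O hK hfi hfi', rfl⟩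

/-- **CONST, char-free.** Over an algebraically closed constant field, a function without zeros
is constant. -/
theorem const_of_forall_ord_le_zero_charFree [IsAlgClosed K] {x : F} (hx : Transcendental K x)
    [FiniteDimensional K⟮x⟯ F] (u : F) (h : ∀ v : Place K F, v.ord u ≤ 0) :
    ∃ c : K, u = algebraMap K F c := by
  by_contra hc
  have hnr : u ∉ (algebraMap K F).range := fun ⟨c, hc'⟩ => hc ⟨c, hc'.symm⟩
  have hut : Transcendental K u := FF.transcendental_of_not_mem_range hnr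
  have : FiniteDimensional K⟮u⟯ F := FF.finiteDimensional_adjoin_of_transcendental hx hut
  obtain ⟨v, hv⟩ := exists_place_ord_pos hut
  have := h v
  omega

/-- **T3 generic core** (`= H94.ConstOfOrdZero K F`, unfolded; any characteristic). -/
theorem constOfOrdZero_of_finite [IsAlgClosed K] {x : F} (hx : Transcendental K x)
    [FiniteDimensional K⟮x⟯ F] :
    ∀ u : F, u ≠ 0 → (∀ v : Place K F, v.ord u = 0) → ∃ c : K, u = algebraMap K F c :=
  fun u _ h => const_of_forall_ord_le_zero_charFree hx u fun v => (h v).le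

end Fermat.Agent.S18.H504

end
-- ===== PACK-END S18/H504/ConstFree.lean

-- ===== PACK-BEGIN S27/H551/SqZeroGD.lean
section





/-!
# S27 / DIM (helper551): gluing data which are trivial modulo a nil ideal — cospan level

Pure algebra on the S25 `GlueDatum`s over a cospan `R₀ → R₀₁ ← R₁`.

* `unitTwist u` : the unit datum with `r₁` multiplied by the unit `u` of `R₀₁`
  (`= H731.twist unit u`).
* `unitTwist_isIso_iff` : `unitTwist u ≅ unitTwist u'` iff `u * a₀ = u' * a₁` for units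
  `a₀ ∈ R₀`, `a₁ ∈ R₁`.
* `exists_unitTwist_isIso` : a gluing datum whose base change along surjections with nil
  kernels `ρ₀, ρ₁` is the unit datum is isomorphic to `unitTwist u` with `ρ₀₁ u = 1`.
* `isBC_unitTwist` : base change of `unitTwist u` is `unitTwist (ρ₀₁ u)`.
-/

set_option autoImplicit false
set_option linter.style.haveILetI false
set_option linter.unusedSectionVars false

universe u

open scoped TensorProduct

namespace Fermat.Agent.S27.H551

open Fermat.Agent.S25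

noncomputable section

section Generic

variable {A R₀ R₁ R₀₁ : Type u} [CommRing A] [CommRing R₀] [CommRing R₁]
    [CommRing R₀₁] [Algebra A R₀] [Algebra A R₁] [Algebra A R₀₁] [Algebra R₀ R₀₁]
    [Algebra R₁ R₀₁] [IsScalarTower A R₀ R₀₁] [IsScalarTower A R₁ R₀₁]

variable (A R₀ R₁) in
/-- The unit gluing datum twisted by a unit `u` of `R₀₁`: `(R₀, R₁, R₀₁, can, u • can)`. -/
abbrev unitTwist (u : R₀₁ˣ) : GlueDatum A R₀ R₁ R₀₁ :=
  H731.twist (GlueDatum.unit A R₀ R₁ R₀₁) u

theorem unitTwist_r₀ (u : R₀₁ˣ) (s : R₀) :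
    (unitTwist A R₀ R₁ u).r₀ s = algebraMap R₀ R₀₁ s := rfl

theorem unitTwist_r₁ (u : R₀₁ˣ) (s : R₁) :
    (unitTwist A R₀ R₁ u).r₁ s = (u : R₀₁) * algebraMap R₁ R₀₁ s := rfl

/-- The twist by `1` is the unit datum. -/
theorem unitTwist_one_isIso :
    (unitTwist A R₀ R₁ (1 : R₀₁ˣ)).IsIso (GlueDatum.unit A R₀ R₁ R₀₁) :=
  ⟨{ e₀ := LinearEquiv.refl R₀ R₀
     e₁ := LinearEquiv.refl R₁ R₁
     e₀₁ := LinearEquiv.refl R₀₁ R₀₁
     comm₀ := fun (s : R₀) => rfl
     comm₁ := fun (s : R₁) => by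
      show ((1 : R₀₁ˣ) : R₀₁) * algebraMap R₁ R₀₁ s = algebraMap R₁ R₀₁ s
      rw [Units.val_one, one_mul] }⟩

/-- Isomorphisms between twists of the unit datum. -/
theorem unitTwist_isIso_iff (u u' : R₀₁ˣ) :
    (unitTwist A R₀ R₁ u).IsIso (unitTwist A R₀ R₁ u') ↔
      ∃ (a₀ : R₀ˣ) (a₁ : R₁ˣ),
        (u : R₀₁) * algebraMap R₀ R₀₁ a₀ = (u' : R₀₁) * algebraMap R₁ R₀₁ a₁ := by
  constructor
  · rintro ⟨e⟩
    let f₀ : R₀ ≃ₗ[R₀] R₀ := e.e₀
    let f₁ : R₁ ≃ₗ[R₁] R₁ := e.e₁
    let f₀₁ : R₀₁ ≃ₗ[R₀₁] R₀₁ := e.e₀₁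
    have c0 : f₀₁ (algebraMap R₀ R₀₁ 1) = algebraMap R₀ R₀₁ (f₀ 1) := e.comm₀ (1 : R₀)
    have c1 : f₀₁ ((u : R₀₁) * algebraMap R₁ R₀₁ 1) = (u' : R₀₁) * algebraMap R₁ R₀₁ (f₁ 1) :=
      e.comm₁ (1 : R₁)
    have h01 : ∀ s : R₀₁, f₀₁ s = s * f₀₁ 1 := fun s => by
      have := f₀₁.map_smul s (1 : R₀₁)
      rw [smul_eq_mul, mul_one] at this
      rw [this, smul_eq_mul]
    have u0 : f₀ 1 * f₀.symm 1 = 1 := by
      have h := f₀.apply_symm_apply 1
      have h2 := f₀.map_smul (f₀.symm 1) (1 : R₀)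
      rw [smul_eq_mul, mul_one, smul_eq_mul] at h2
      rw [h2] at h
      rw [mul_comm]; exact h
    have u1 : f₁ 1 * f₁.symm 1 = 1 := by
      have h := f₁.apply_symm_apply 1
      have h2 := f₁.map_smul (f₁.symm 1) (1 : R₁)
      rw [smul_eq_mul, mul_one, smul_eq_mul] at h2
      rw [h2] at h
      rw [mul_comm]; exact h
    refine ⟨⟨f₀ 1, f₀.symm 1, u0, by rw [mul_comm]; exact u0⟩,
      ⟨f₁ 1, f₁.symm 1, u1, by rw [mul_comm]; exact u1⟩, ?_⟩
    rw [map_one] at c0
    rw [map_one, mul_one, h01, c0] at c1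
    exact c1
  · rintro ⟨a₀, a₁, h⟩
    refine ⟨{ e₀ := LinearEquiv.smulOfUnit a₀
              e₁ := LinearEquiv.smulOfUnit a₁
              e₀₁ := LinearEquiv.smulOfUnit (Units.map (algebraMap R₀ R₀₁).toMonoidHom a₀)
              comm₀ := fun (s : R₀) => ?_
              comm₁ := fun (s : R₁) => ?_ }⟩
    · show (algebraMap R₀ R₀₁ a₀) * algebraMap R₀ R₀₁ s = algebraMap R₀ R₀₁ ((a₀ : R₀) * s)
      rw [map_mul]
    · show (algebraMap R₀ R₀₁ a₀) * ((u : R₀₁) * algebraMap R₁ R₀₁ s) =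
        (u' : R₀₁) * algebraMap R₁ R₀₁ ((a₁ : R₁) * s)
      rw [map_mul, ← mul_assoc, ← mul_assoc, ← h]
      ring

variable {A' R₀' R₁' R₀₁' : Type u} [CommRing A'] [CommRing R₀'] [CommRing R₁']
    [CommRing R₀₁'] [Algebra A' R₀'] [Algebra A' R₁'] [Algebra A' R₀₁'] [Algebra R₀' R₀₁']
    [Algebra R₁' R₀₁'] [IsScalarTower A' R₀' R₀₁'] [IsScalarTower A' R₁' R₀₁']

/-- Base change of a twist of the unit datum along a morphism of cospans. -/
theorem isBC_unitTwist (ρ₀ : R₀ →+* R₀') (ρ₁ : R₁ →+* R₁') (ρ₀₁ : R₀₁ →+* R₀₁')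
    (h₀ : ∀ r, ρ₀₁ (algebraMap R₀ R₀₁ r) = algebraMap R₀' R₀₁' (ρ₀ r))
    (h₁ : ∀ r, ρ₀₁ (algebraMap R₁ R₀₁ r) = algebraMap R₁' R₀₁' (ρ₁ r)) (u : R₀₁ˣ) :
    GlueDatum.IsBC ρ₀ ρ₁ ρ₀₁ (unitTwist A R₀ R₁ u)
      (unitTwist A' R₀' R₁' (Units.map ρ₀₁.toMonoidHom u)) :=
  ⟨{ b₀ := ρ₀.toSemilinearMap
     b₁ := ρ₁.toSemilinearMap
     b₀₁ := ρ₀₁.toSemilinearMap
     comm₀ := fun (s : R₀) => h₀ s
     comm₁ := fun (s : R₁) => by
      show ρ₀₁ ((u : R₀₁) * algebraMap R₁ R₀₁ s) = ρ₀₁ u * algebraMap R₁' R₀₁' (ρ₁ s)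
      rw [map_mul, h₁]
     isBaseChange₀ := by
      letI : Algebra R₀ R₀' := ρ₀.toAlgebra
      exact IsBaseChange.linearMap R₀ R₀'
     isBaseChange₁ := by
      letI : Algebra R₁ R₁' := ρ₁.toAlgebra
      exact IsBaseChange.linearMap R₁ R₁'
     isBaseChange₀₁ := by
      letI : Algebra R₀₁ R₀₁' := ρ₀₁.toAlgebra
      exact IsBaseChange.linearMap R₀₁ R₀₁' }⟩

/-- A free generator of `N₀₁` from a free generator of `N₀`. -/
theorem bijective_toSpanSingleton_of_equiv (G : GlueDatum A R₀ R₁ R₀₁) (ψ : R₀ ≃ₗ[R₀] G.N₀) :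
    Function.Bijective (LinearMap.toSpanSingleton R₀₁ G.N₀₁ (G.r₀ (ψ 1))) := by
  have hc : IsBaseChange R₀₁ ((G.r₀.restrictScalars R₀).comp ψ.toLinearMap) :=
    IsBaseChange.comp (IsBaseChange.ofEquiv ψ) G.isBaseChange₀
  have hu : IsBaseChange R₀₁ (Algebra.linearMap R₀ R₀₁) := IsBaseChange.linearMap R₀ R₀₁
  let E : R₀₁ ≃ₗ[R₀₁] G.N₀₁ := hu.equiv.symm ≪≫ₗ hc.equiv
  have hE : ∀ c : R₀₁, E c = LinearMap.toSpanSingleton R₀₁ G.N₀₁ (G.r₀ (ψ 1)) c := by
    intro c
    have h1 : hu.equiv.symm c = c ⊗ₜ[R₀] (1 : R₀) := by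
      rw [LinearEquiv.symm_apply_eq, IsBaseChange.equiv_tmul, Algebra.linearMap_apply,
        map_one, smul_eq_mul, mul_one]
    show hc.equiv (hu.equiv.symm c) = _
    rw [h1, IsBaseChange.equiv_tmul]
    rfl
  have : (LinearMap.toSpanSingleton R₀₁ G.N₀₁ (G.r₀ (ψ 1)) : R₀₁ → G.N₀₁) = E :=
    funext fun c => (hE c).symm
  rw [this]
  exact E.bijective

/-- Same on the other chart. -/
theorem bijective_toSpanSingleton_of_equiv' (G : GlueDatum A R₀ R₁ R₀₁) (ψ : R₁ ≃ₗ[R₁] G.N₁) :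
    Function.Bijective (LinearMap.toSpanSingleton R₀₁ G.N₀₁ (G.r₁ (ψ 1))) := by
  have hc : IsBaseChange R₀₁ ((G.r₁.restrictScalars R₁).comp ψ.toLinearMap) :=
    IsBaseChange.comp (IsBaseChange.ofEquiv ψ) G.isBaseChange₁
  have hu : IsBaseChange R₀₁ (Algebra.linearMap R₁ R₀₁) := IsBaseChange.linearMap R₁ R₀₁
  let E : R₀₁ ≃ₗ[R₀₁] G.N₀₁ := hu.equiv.symm ≪≫ₗ hc.equiv
  have hE : ∀ c : R₀₁, E c = LinearMap.toSpanSingleton R₀₁ G.N₀₁ (G.r₁ (ψ 1)) c := by
    intro c
    have h1 : hu.equiv.symm c = c ⊗ₜ[R₁] (1 : R₁) := by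
      rw [LinearEquiv.symm_apply_eq, IsBaseChange.equiv_tmul, Algebra.linearMap_apply,
        map_one, smul_eq_mul, mul_one]
    show hc.equiv (hu.equiv.symm c) = _
    rw [h1, IsBaseChange.equiv_tmul]
    rfl
  have : (LinearMap.toSpanSingleton R₀₁ G.N₀₁ (G.r₁ (ψ 1)) : R₀₁ → G.N₀₁) = E :=
    funext fun c => (hE c).symm
  rw [this]
  exact E.bijective

/-- **Normal form.**  A gluing datum whose base change along `(ρ₀, ρ₁, ρ₀₁)` is the unit
datum, `ρ₀` and `ρ₁` surjective with nil kernels, is a twist of the unit datum by a unit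
`u` with `ρ₀₁ u = 1`. -/
theorem exists_unitTwist_isIso (ρ₀ : R₀ →+* R₀') (ρ₁ : R₁ →+* R₁') (ρ₀₁ : R₀₁ →+* R₀₁')
    (hs₀ : Function.Surjective ρ₀) (hn₀ : ∀ x ∈ RingHom.ker ρ₀, IsNilpotent x)
    (hs₁ : Function.Surjective ρ₁) (hn₁ : ∀ x ∈ RingHom.ker ρ₁, IsNilpotent x)
    (G : GlueDatum A R₀ R₁ R₀₁)
    (h : GlueDatum.IsBC ρ₀ ρ₁ ρ₀₁ G (GlueDatum.unit A' R₀' R₁' R₀₁')) :
    ∃ u : R₀₁ˣ, ρ₀₁ u = 1 ∧ (unitTwist A R₀ R₁ u).IsIso G := by
  obtain ⟨bc⟩ := h
  haveI := G.invertible₀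
  haveI := G.invertible₁
  have hb₀ : IsSemilinearBaseChange ρ₀ ρ₀.toSemilinearMap := by
    letI : Algebra R₀ R₀' := ρ₀.toAlgebra
    exact IsBaseChange.linearMap R₀ R₀'
  have hb₁ : IsSemilinearBaseChange ρ₁ ρ₁.toSemilinearMap := by
    letI : Algebra R₁ R₁' := ρ₁.toAlgebra
    exact IsBaseChange.linearMap R₁ R₁'
  obtain ⟨ψ₀, hψ₀⟩ := Fermat.Agent.S25.H551.exists_linearEquiv_of_semilinear ρ₀ hs₀ hn₀
    (P := R₀) (P' := G.N₀) hb₀ bc.isBaseChange₀
  obtain ⟨ψ₁, hψ₁⟩ := Fermat.Agent.S25.H551.exists_linearEquiv_of_semilinear ρ₁ hs₁ hn₁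
    (P := R₁) (P' := G.N₁) hb₁ bc.isBaseChange₁
  set g₀ : G.N₀₁ := G.r₀ (ψ₀ 1) with hg₀
  set g₁ : G.N₀₁ := G.r₁ (ψ₁ 1) with hg₁
  let E₀ : R₀₁ ≃ₗ[R₀₁] G.N₀₁ :=
    LinearEquiv.ofBijective _ (bijective_toSpanSingleton_of_equiv G ψ₀)
  let E₁ : R₀₁ ≃ₗ[R₀₁] G.N₀₁ :=
    LinearEquiv.ofBijective _ (bijective_toSpanSingleton_of_equiv' G ψ₁)
  have hE₀ : ∀ c : R₀₁, E₀ c = c • g₀ := fun c => rfl
  have hE₁ : ∀ c : R₀₁, E₁ c = c • g₁ := fun c => rfl
  set a : R₀₁ := E₀.symm g₁ with ha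
  set b : R₀₁ := E₁.symm g₀ with hb
  have hag : a • g₀ = g₁ := by rw [← hE₀, ha, LinearEquiv.apply_symm_apply]
  have hbg : b • g₁ = g₀ := by rw [← hE₁, hb, LinearEquiv.apply_symm_apply]
  have hba : b * a = 1 := by
    apply E₀.injective
    rw [hE₀, hE₀, mul_smul, hag, hbg, one_smul]
  let u : R₀₁ˣ := ⟨a, b, by rw [mul_comm]; exact hba, hba⟩
  have hbg₀ : bc.b₀₁ g₀ = (1 : R₀₁') := by
    have h1 : bc.b₀₁ g₀ = algebraMap R₀' R₀₁' (bc.b₀ (ψ₀ 1)) := bc.comm₀ (ψ₀ 1)
    have h2 : bc.b₀ (ψ₀ 1) = ρ₀ 1 := hψ₀ 1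
    rw [h1, h2, map_one, map_one]
  have hbg₁ : bc.b₀₁ g₁ = (1 : R₀₁') := by
    have h1 : bc.b₀₁ g₁ = algebraMap R₁' R₀₁' (bc.b₁ (ψ₁ 1)) := bc.comm₁ (ψ₁ 1)
    have h2 : bc.b₁ (ψ₁ 1) = ρ₁ 1 := hψ₁ 1
    rw [h1, h2, map_one, map_one]
  refine ⟨u, ?_, ⟨{ e₀ := ψ₀
                    e₁ := ψ₁
                    e₀₁ := E₀
                    comm₀ := fun (s : R₀) => ?_
                    comm₁ := fun (s : R₁) => ?_ }⟩⟩
  · have h1 : bc.b₀₁ (a • g₀) = ρ₀₁ a • bc.b₀₁ g₀ := bc.b₀₁.map_smulₛₗ a g₀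
    rw [hag, hbg₁, hbg₀] at h1
    have h2 : (1 : R₀₁') = ρ₀₁ a * 1 := h1
    rw [mul_one] at h2
    exact h2.symm
  · show E₀ (algebraMap R₀ R₀₁ s) = G.r₀ (ψ₀ s)
    have h1 : ψ₀ s = s • ψ₀ 1 := by
      rw [← ψ₀.map_smul, smul_eq_mul, mul_one]
    rw [hE₀, h1, map_smul, algebraMap_smul]
  · show E₀ (a * algebraMap R₁ R₀₁ s) = G.r₁ (ψ₁ s)
    have h1 : ψ₁ s = s • ψ₁ 1 := by
      rw [← ψ₁.map_smul, smul_eq_mul, mul_one]
    rw [hE₀, h1, map_smul, mul_comm, mul_smul, hag, algebraMap_smul]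

end Generic

end

end Fermat.Agent.S27.H551

end
-- ===== PACK-END S27/H551/SqZeroGD.lean

-- ===== PACK-BEGIN Lib/Haupt/Analytic.lean
section





/-!
# `q`-expansions of `E₄`, `Δ` and their level-raised versions (helper637)
-/

set_option autoImplicit false

open UpperHalfPlane ModularForm CongruenceSubgroup MatrixGroups
open Matrix.SpecialLinearGroup Filter Topology
open scoped Manifold

noncomputable section

namespace Fermat.Agent.Lib.Haupt

open Fermat.Agent.S24.JFun

local notation "𝕢" => Function.Periodic.qParam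

/-- The discriminant as a level-one modular form. -/
def DeltaMF : ModularForm 𝒮ℒ 12 := CuspForm.toModularFormₗ CuspForm.discriminant

theorem coe_DeltaMF : (DeltaMF : ℍ → ℂ) = ModularForm.discriminant := rfl

theorem analyticAt_qParam : AnalyticAt ℂ (cuspFunction 1 (fun τ : ℍ => 𝕢 1 (τ : ℂ))) 0 :=
  ofQ_analyticAt (g := fun q => q) differentiableOn_id

theorem qExpansion_qParam : qExpansion 1 (fun τ : ℍ => 𝕢 1 (τ : ℂ)) = PowerSeries.X := by
  ext m
  rw [PowerSeries.coeff_X]
  refine qExpansion_coeff_unique_fun (c := fun m => if m = 1 then 1 else 0) analyticAt_qParam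
    (fun τ => ?_) m
  have h := hasSum_ite_eq (1 : ℕ) (𝕢 1 (τ : ℂ))
  have hfun : (fun m : ℕ => (if m = 1 then (1 : ℂ) else 0) • 𝕢 1 (τ : ℂ) ^ m)
      = fun m : ℕ => if m = 1 then 𝕢 1 (τ : ℂ) else 0 := by
    funext m
    split_ifs with hm
    · rw [hm, pow_one, one_smul]
    · rw [zero_smul]
  rw [hfun]
  exact h

theorem qExpansion_DeltaMF :
    qExpansion 1 DeltaMF = DeltaZ.map (Int.castRingHom ℂ) := by
  have hfun : (DeltaMF : ℍ → ℂ) = (fun τ : ℍ => 𝕢 1 (τ : ℂ)) * (fun τ => eulerFun τ ^ 24) := by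
    funext τ
    rw [coe_DeltaMF]
    exact discriminant_eq_q_mul_eulerFun τ
  rw [hfun, qExpansion_mul analyticAt_qParam (analyticAt_eulerFun_pow 24), qExpansion_qParam,
    qExpansion_eulerFun_pow, DeltaZ, map_mul, map_pow, PowerSeries.map_X]

theorem qExpansion_E4 :
    qExpansion 1 (E₄ : ModularForm 𝒮ℒ 4) = ModularCurve.eisenstein4.map (Int.castRingHom ℂ) :=
  qExpansion_E₄

end Fermat.Agent.Lib.Haupt

end
end
-- ===== PACK-END Lib/Haupt/Analytic.lean

-- ===== PACK-BEGIN S28/H386/PrimeLevel.lean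
section
/-
S28 [L] (helper386): prime level.  From `ModPolyData p` (the modular polynomial `Φ_p` with
`Φ_p(j_p, j) = 0 = Φ_p(j, j_p)`) we derive, purely formally in `k((q))`:

* `Φ_p(X, j) = (X - j_p) · B'` with `B'` irreducible over `k((q))` of degree `p`;
* degrees of `j_p` over fields containing `j`, and of `j` over subfields of the range of `V_p`.
-/



set_option autoImplicit false

noncomputable section

open ModularCurve HahnSeries Polynomial

namespace Fermat.Agent.S28.H386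

/-! ### Generalities on `Φ(X, y)` -/

section PhiAt

variable {S T : Type*} [CommRing S] [CommRing T]

/-- Evaluation `ℤ[Y] → S`, `Y ↦ y` (instance-free form). -/
def intEval (y : S) : Polynomial ℤ →+* S := Polynomial.eval₂RingHom (Int.castRingHom S) y

@[simp] theorem intEval_X (y : S) : intEval y Polynomial.X = y := by simp [intEval]

theorem eq_intEval (h : Polynomial ℤ →+* S) : h = intEval (h Polynomial.X) := by
  refine Polynomial.ringHom_ext' (Subsingleton.elim _ _) ?_
  simp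

theorem ringHom_comp_intEval (g : S →+* T) (y : S) :
    g.comp (intEval y) = intEval (g y) := by
  rw [eq_intEval (g.comp (intEval y))]; simp

/-- `Φ(X, y)` as a polynomial over `S`. -/
def phiAt (Φ : Polynomial (Polynomial ℤ)) (y : S) : S[X] :=
  Φ.map (intEval y)

theorem phiAt_map (Φ : Polynomial (Polynomial ℤ)) (g : S →+* T) (y : S) :
    (phiAt Φ y).map g = phiAt Φ (g y) := by
  rw [phiAt, Polynomial.map_map, ringHom_comp_intEval, phiAt]

theorem eval_phiAt (Φ : Polynomial (Polynomial ℤ)) (y x : S) :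
    (phiAt Φ y).eval x = Φ.eval₂ (intEval y) x :=
  Polynomial.eval_map _ _

theorem phiAt_monic {Φ : Polynomial (Polynomial ℤ)} (h : Φ.Monic) (y : S) :
    (phiAt Φ y).Monic := h.map _

theorem natDegree_phiAt [Nontrivial S] {Φ : Polynomial (Polynomial ℤ)} (h : Φ.Monic) (y : S) :
    (phiAt Φ y).natDegree = Φ.natDegree := h.natDegree_map _

theorem eval_phiAt_hom (Φ : Polynomial (Polynomial ℤ)) (g : S →+* T) (y x : S) :
    (phiAt Φ (g y)).eval (g x) = g ((phiAt Φ y).eval x) := by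
  rw [← phiAt_map, Polynomial.eval_map, Polynomial.eval₂_hom]

theorem evalAt_eq_intEval {A : Type*} [CommRing A] (y : LaurentSeries A) :
    evalAt y = intEval y := by
  rw [eq_intEval (evalAt y)]; simp [evalAt]

end PhiAt

variable {k : Type*} [Field k]

/-- `j(q^d)`. -/
abbrev jd (k : Type*) [Field k] (d : ℕ) [NeZero d] : LaurentSeries k := qExpand k d (jqModC k)

theorem jd_ne_zero (d : ℕ) [NeZero d] : jd k d ≠ 0 := qExpand_ne_zero d jqModC_ne_zero

theorem order_jd (d : ℕ) [NeZero d] : (jd k d).order = -(d : ℤ) := by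
  rw [jd, order_qExpand, order_jqModC]; ring

theorem jd_injective {d e : ℕ} [NeZero d] [NeZero e] (h : jd k d = jd k e) : d = e := by
  have := congrArg HahnSeries.order h
  rw [order_jd, order_jd] at this
  omega

theorem qExpand_jd (e d : ℕ) [NeZero e] [NeZero d] :
    qExpand k e (jd k d) = jd k (e * d) := qExpand_qExpand d e _

theorem coeffMap_comp_evalAt (k : Type*) [Field k] (y : LaurentSeries ℤ) :
    (coeffMap (Int.castRingHom k)).comp (evalAt y)
      = intEval (coeffMap (Int.castRingHom k) y) := by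
  rw [evalAt_eq_intEval, ringHom_comp_intEval]

section Data

variable {p : ℕ} [NeZero p] (D : ModPolyData p)

/-- `Φ_p(j_p, j) = 0` over any field. -/
theorem eval_jp_field (k : Type*) [Field k] :
    (phiAt D.Φ (jqModC k)).eval (jd k p) = 0 := by
  have h := congrArg (coeffMap (Int.castRingHom k)) D.eval_jp
  rw [Polynomial.hom_eval₂, map_zero, coeffMap_comp_evalAt, coeffMap_qExpand,
    coeffMap_jqModC] at h
  rw [eval_phiAt]
  exact h

/-- `Φ_p(j, j_p) = 0` over any field. -/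
theorem eval_j_field (k : Type*) [Field k] :
    (phiAt D.Φ (jd k p)).eval (jqModC k) = 0 := by
  have h := congrArg (coeffMap (Int.castRingHom k)) D.eval_j
  rw [Polynomial.hom_eval₂, map_zero, coeffMap_comp_evalAt, coeffMap_qExpand,
    coeffMap_jqModC] at h
  rw [eval_phiAt]
  exact h

/-- `Φ_p(j_{dp}, j_d) = 0`. -/
theorem eval_jdp (k : Type*) [Field k] (d : ℕ) [NeZero d] :
    (phiAt D.Φ (jd k d)).eval (jd k (d * p)) = 0 := by
  have h := congrArg (qExpand k d) (eval_jp_field D k)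
  rw [map_zero, ← eval_phiAt_hom, qExpand_jd] at h
  exact h

/-- `Φ_p(j_d, j_{dp}) = 0`. -/
theorem eval_jd (k : Type*) [Field k] (d : ℕ) [NeZero d] :
    (phiAt D.Φ (jd k (d * p))).eval (jd k d) = 0 := by
  have h := congrArg (qExpand k d) (eval_j_field D k)
  rw [map_zero, ← eval_phiAt_hom, qExpand_jd] at h
  exact h

end Data

/-! ### The factorisation `Φ_p(X, j) = (X - j_p) · B'` over `k((q))` -/

section Factor

variable {p : ℕ} [NeZero p] (D : ModPolyData p) (k : Type*) [Field k]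

/-- The cofactor `B' = Φ_p(X, j) / (X - j_p)`. -/
def cofB : (LaurentSeries k)[X] := phiAt D.Φ (jqModC k) /ₘ (X - Polynomial.C (jd k p))

theorem phiAt_j_eq : phiAt D.Φ (jqModC k) = (X - Polynomial.C (jd k p)) * cofB D k :=
  (Polynomial.mul_divByMonic_eq_iff_isRoot.mpr (eval_jp_field D k)).symm

theorem cofB_monic : (cofB D k).Monic := by
  have h := phiAt_monic D.monic (jqModC k)
  rw [phiAt_j_eq] at h
  exact (Polynomial.monic_X_sub_C _).of_mul_monic_left h

theorem natDegree_cofB : (cofB D k).natDegree = p := by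
  rw [cofB, Polynomial.natDegree_divByMonic _ (Polynomial.monic_X_sub_C _),
    natDegree_phiAt D.monic, D.natDegree_eq, Polynomial.natDegree_X_sub_C]
  omega

theorem cofB_ne_one : cofB D k ≠ 1 := by
  intro h
  have := natDegree_cofB D k
  rw [h, Polynomial.natDegree_one] at this
  exact NeZero.ne p this.symm

theorem cofB_ne_zero : cofB D k ≠ 0 := (cofB_monic D k).ne_zero

/-- `Φ_p(X, j_p) = (X - j_{p²}) · V_p(B')`. -/
theorem phiAt_jp_eq :
    phiAt D.Φ (jd k p) = (X - Polynomial.C (qExpand k p (jd k p))) * (cofB D k).map (qExpand k p) := by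
  have h := congrArg (Polynomial.map (qExpand k p)) (phiAt_j_eq D k)
  rw [phiAt_map, Polynomial.map_mul, Polynomial.map_sub, Polynomial.map_X,
    Polynomial.map_C] at h
  exact h

theorem jq_ne_qExpand_jd (hp : 1 < p) : jqModC k ≠ qExpand k p (jd k p) := by
  intro h
  have := congrArg HahnSeries.order h
  rw [order_jqModC, order_qExpand, order_jd] at this
  have hp' : (1 : ℤ) < p := by exact_mod_cast hp
  nlinarith

theorem eval_j_cofB_map (hp : 1 < p) :
    ((cofB D k).map (qExpand k p)).eval (jqModC k) = 0 := by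
  have h := eval_j_field D k
  rw [phiAt_jp_eq, Polynomial.eval_mul, Polynomial.eval_sub, Polynomial.eval_X,
    Polynomial.eval_C, mul_eq_zero] at h
  rcases h with h | h
  · exact absurd (sub_eq_zero.mp h) (jq_ne_qExpand_jd k hp)
  · exact h

/-- `B'` is the "minimal polynomial of `j` over the range of `V_p`", in lifted form. -/
theorem cofB_dvd_of_eval_map (hp : 1 < p) (G : (LaurentSeries k)[X])
    (h : (G.map (qExpand k p)).eval (jqModC k) = 0) : cofB D k ∣ G := by
  rw [← Polynomial.modByMonic_eq_zero_iff_dvd (cofB_monic D k)]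
  by_contra hR
  have hdeg : (G %ₘ cofB D k).natDegree < p := by
    have := Polynomial.natDegree_modByMonic_lt G (cofB_monic D k) (cofB_ne_one D k)
    rwa [natDegree_cofB] at this
  have hG := Polynomial.modByMonic_add_div G (cofB D k)
  have h2 : ((G %ₘ cofB D k).map (qExpand k p)).eval (jqModC k) = 0 := by
    have h3 := congrArg (fun P => (P.map (qExpand k p)).eval (jqModC k)) hG
    simp only [Polynomial.map_add, Polynomial.map_mul, Polynomial.eval_add,
      Polynomial.eval_mul, eval_j_cofB_map D k hp, zero_mul, add_zero] at h3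
    rw [h3, h]
  refine eval_jqModC_ne_zero_of_natDegree_lt p ((G %ₘ cofB D k).map (qExpand k p)) ?_ ?_ ?_ h2
  · exact (Polynomial.map_ne_zero_iff (qExpand_injective p)).mpr hR
  · exact lt_of_le_of_lt Polynomial.natDegree_map_le hdeg
  · intro i
    rw [Polynomial.coeff_map]
    exact ⟨_, rfl⟩

/-- `B'` is irreducible over `k((q))`. -/
theorem cofB_irreducible (hp : 1 < p) : Irreducible (cofB D k) := by
  rw [(cofB_monic D k).irreducible_iff_natDegree]
  refine ⟨cofB_ne_one D k, fun f g hf hg hfg => ?_⟩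
  have hdeg : f.natDegree + g.natDegree = p := by
    rw [← hf.natDegree_mul hg, hfg, natDegree_cofB]
  have hev := eval_j_cofB_map D k hp
  rw [← hfg, Polynomial.map_mul, Polynomial.eval_mul, mul_eq_zero] at hev
  rcases hev with h | h
  · have hd := Polynomial.natDegree_le_of_dvd (cofB_dvd_of_eval_map D k hp f h) hf.ne_zero
    rw [natDegree_cofB] at hd
    right; omega
  · have hd := Polynomial.natDegree_le_of_dvd (cofB_dvd_of_eval_map D k hp g h) hg.ne_zero
    rw [natDegree_cofB] at hd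
    left; omega

/-- `B'` has no roots in `k((q))`. -/
theorem cofB_eval_ne_zero (hp : 1 < p) (c : LaurentSeries k) : (cofB D k).eval c ≠ 0 := by
  intro h
  have h1 := Polynomial.degree_eq_one_of_irreducible_of_root (cofB_irreducible D k hp) h
  have h2 : (cofB D k).natDegree = 1 :=
    Polynomial.natDegree_eq_of_degree_eq_some (by rw [h1]; rfl)
  rw [natDegree_cofB] at h2
  omega

end Factor

/-! ### Degrees over intermediate fields -/

section Fields

variable {p : ℕ} [NeZero p] (D : ModPolyData p) {k : Type*} [Field k]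

include D

theorem aeval_phiAt_mk (F : IntermediateField k (LaurentSeries k)) {y : LaurentSeries k}
    (hy : y ∈ F) (x : LaurentSeries k) :
    Polynomial.aeval x (phiAt D.Φ (⟨y, hy⟩ : F)) = (phiAt D.Φ y).eval x := by
  rw [Polynomial.aeval_def, Polynomial.eval₂_eq_eval_map, phiAt_map]
  rfl

/-- (U1) `j_{dp}` is integral over any field containing `j_d`. -/
theorem isIntegral_jdp (F : IntermediateField k (LaurentSeries k)) (d : ℕ) [NeZero d]
    (hj : jd k d ∈ F) : IsIntegral F (jd k (d * p)) :=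
  ⟨phiAt D.Φ (⟨jd k d, hj⟩ : F), phiAt_monic D.monic _, by
    rw [← Polynomial.aeval_def, aeval_phiAt_mk, eval_jdp]⟩

/-- (U1) `j_{dp}` has degree `≤ p + 1` over any field containing `j_d`. -/
theorem natDegree_minpoly_jdp_le (F : IntermediateField k (LaurentSeries k)) (d : ℕ) [NeZero d]
    (hj : jd k d ∈ F) : (minpoly F (jd k (d * p))).natDegree ≤ p + 1 := by
  have hdvd : minpoly F (jd k (d * p)) ∣ phiAt D.Φ (⟨jd k d, hj⟩ : F) :=
    minpoly.dvd F _ (by rw [aeval_phiAt_mk, eval_jdp])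
  have := Polynomial.natDegree_le_of_dvd hdvd (phiAt_monic D.monic _).ne_zero
  rwa [natDegree_phiAt D.monic, D.natDegree_eq] at this

/-- `j_d` is integral over any field containing `j_{dp}`. -/
theorem isIntegral_jd_of_jdp (F : IntermediateField k (LaurentSeries k)) (d : ℕ) [NeZero d]
    (hj : jd k (d * p) ∈ F) : IsIntegral F (jd k d) :=
  ⟨phiAt D.Φ (⟨jd k (d * p), hj⟩ : F), phiAt_monic D.monic _, by
    rw [← Polynomial.aeval_def, aeval_phiAt_mk, eval_jd]⟩

theorem natDegree_minpoly_jd_of_jdp_le (F : IntermediateField k (LaurentSeries k)) (d : ℕ)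
    [NeZero d] (hj : jd k (d * p) ∈ F) : (minpoly F (jd k d)).natDegree ≤ p + 1 := by
  have hdvd : minpoly F (jd k d) ∣ phiAt D.Φ (⟨jd k (d * p), hj⟩ : F) :=
    minpoly.dvd F _ (by rw [aeval_phiAt_mk, eval_jd])
  have := Polynomial.natDegree_le_of_dvd hdvd (phiAt_monic D.monic _).ne_zero
  rwa [natDegree_phiAt D.monic, D.natDegree_eq] at this

/-- (U2) If `j_d` and `j_{dp}` lie in `F`, then `j_{dp²}` is a root of a monic polynomial of
degree `p` over `F`. -/
theorem exists_monic_natDegree_eq_aeval_jdpp (hp : 1 < p)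
    (F : IntermediateField k (LaurentSeries k)) (d : ℕ) [NeZero d]
    (hj : jd k d ∈ F) (hjp : jd k (d * p) ∈ F) :
    ∃ Q : F[X], Q.Monic ∧ Q.natDegree = p ∧ Polynomial.aeval (jd k (d * p * p)) Q = 0 := by
  set A₀ : F[X] := phiAt D.Φ (⟨jd k (d * p), hjp⟩ : F) with hA₀
  set a : F := ⟨jd k d, hj⟩ with ha
  have hroot : A₀.IsRoot a := by
    have h1 : algebraMap F (LaurentSeries k) (A₀.eval a) = 0 := by
      rw [← Polynomial.aeval_algebraMap_apply_eq_algebraMap_eval, aeval_phiAt_mk]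
      exact eval_jd D k d
    exact (map_eq_zero_iff _ (algebraMap F (LaurentSeries k)).injective).mp h1
  have hfac : (X - Polynomial.C a) * (A₀ /ₘ (X - Polynomial.C a)) = A₀ :=
    Polynomial.mul_divByMonic_eq_iff_isRoot.mpr hroot
  have hA₀monic : A₀.Monic := phiAt_monic D.monic _
  refine ⟨A₀ /ₘ (X - Polynomial.C a), ?_, ?_, ?_⟩
  · have h := hA₀monic
    rw [← hfac] at h
    exact (Polynomial.monic_X_sub_C _).of_mul_monic_left h
  · rw [Polynomial.natDegree_divByMonic _ (Polynomial.monic_X_sub_C _),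
      natDegree_phiAt D.monic, D.natDegree_eq, Polynomial.natDegree_X_sub_C]
    omega
  · have h0 : Polynomial.aeval (jd k (d * p * p)) A₀ = 0 := by
      rw [aeval_phiAt_mk]; exact eval_jdp D k (d * p)
    rw [← hfac, map_mul, mul_eq_zero] at h0
    rcases h0 with h0 | h0
    · exfalso
      rw [map_sub, Polynomial.aeval_X, Polynomial.aeval_C, sub_eq_zero] at h0
      have h1 : jd k (d * p * p) = jd k d := h0
      have h2 := jd_injective h1
      have hd : 0 < d := Nat.pos_of_ne_zero (NeZero.ne d)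
      have : d * 1 < d * p * p := by
        rw [mul_assoc]
        exact Nat.mul_lt_mul_of_pos_left (by nlinarith) hd
      omega
    · exact h0

theorem natDegree_minpoly_jdpp_le (hp : 1 < p)
    (F : IntermediateField k (LaurentSeries k)) (d : ℕ) [NeZero d]
    (hj : jd k d ∈ F) (hjp : jd k (d * p) ∈ F) :
    (minpoly F (jd k (d * p * p))).natDegree ≤ p := by
  obtain ⟨Q, hQ, hdeg, h0⟩ := exists_monic_natDegree_eq_aeval_jdpp D hp F d hj hjp
  have := Polynomial.natDegree_le_of_dvd (minpoly.dvd F _ h0) hQ.ne_zero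
  rwa [hdeg] at this

/-- (b2) If `j ∈ F` and `j_p ∉ F` then `j_p` has degree exactly `p + 1` over `F`. -/
theorem natDegree_minpoly_jp_eq (hp : 1 < p) (F : IntermediateField k (LaurentSeries k))
    (hj : jqModC k ∈ F) (hjp : jd k p ∉ F) :
    (minpoly F (jd k p)).natDegree = p + 1 := by
  have hj1 : jd k 1 ∈ F := by rwa [jd, qExpand_one_apply]
  have hint : IsIntegral F (jd k p) := by
    have := isIntegral_jdp D F 1 hj1
    simpa using this
  set m := minpoly F (jd k p) with hm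
  have hmonic : m.Monic := minpoly.monic hint
  set mL := m.map (algebraMap F (LaurentSeries k)) with hmL
  have hmLmonic : mL.Monic := hmonic.map _
  have hroot : mL.IsRoot (jd k p) := by
    show mL.eval (jd k p) = 0
    rw [hmL, Polynomial.eval_map, ← Polynomial.aeval_def]
    exact minpoly.aeval F _
  have hfac : (X - Polynomial.C (jd k p)) * (mL /ₘ (X - Polynomial.C (jd k p))) = mL :=
    Polynomial.mul_divByMonic_eq_iff_isRoot.mpr hroot
  set m2 := mL /ₘ (X - Polynomial.C (jd k p)) with hm2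
  have hm2monic : m2.Monic := by
    have h := hmLmonic
    rw [← hfac] at h
    exact (Polynomial.monic_X_sub_C _).of_mul_monic_left h
  have hdvd0 : m ∣ phiAt D.Φ (⟨jqModC k, hj⟩ : F) :=
    minpoly.dvd F _ (by rw [aeval_phiAt_mk]; exact eval_jp_field D k)
  have hdvd : mL ∣ phiAt D.Φ (jqModC k) := by
    have := Polynomial.map_dvd (algebraMap F (LaurentSeries k)) hdvd0
    rwa [phiAt_map] at this
  rw [← hfac, phiAt_j_eq] at hdvd
  have hdvd2 : m2 ∣ cofB D k :=
    (mul_dvd_mul_iff_left (Polynomial.X_sub_C_ne_zero _)).mp hdvd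
  obtain ⟨r, hr⟩ := hdvd2
  have hrmonic : r.Monic := by
    have h := cofB_monic D k
    rw [hr] at h
    exact hm2monic.of_mul_monic_left h
  have hdegsum : m2.natDegree + r.natDegree = p := by
    rw [← hm2monic.natDegree_mul hrmonic, ← hr, natDegree_cofB]
  have hmLdeg : mL.natDegree = 1 + m2.natDegree := by
    rw [← hfac, (Polynomial.monic_X_sub_C _).natDegree_mul hm2monic,
      Polynomial.natDegree_X_sub_C]
  have hmdeg : m.natDegree = mL.natDegree := (hmonic.natDegree_map _).symm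
  rcases ((cofB_monic D k).irreducible_iff_natDegree.mp (cofB_irreducible D k hp)).2 m2 r
    hm2monic hrmonic hr.symm with h | h
  · exfalso
    have h1 : m.natDegree = 1 := by omega
    have h2 : m.degree = 1 := by
      rw [Polynomial.degree_eq_natDegree hmonic.ne_zero, h1]; rfl
    obtain ⟨y, hy⟩ := minpoly.mem_range_of_degree_eq_one F (jd k p) h2
    exact hjp (hy ▸ y.2)
  · omega

/-- (b1) `j` has degree at least `p` over any subfield of the range of `V_p` containing `j_p`. -/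
theorem le_natDegree_minpoly_j (hp : 1 < p) (F : IntermediateField k (LaurentSeries k))
    (hF : ∀ x ∈ F, x ∈ Set.range (qExpand k p)) (hjp : jd k p ∈ F) :
    p ≤ (minpoly F (jqModC k)).natDegree := by
  have hjp1 : jd k (1 * p) ∈ F := by simpa using hjp
  have hint : IsIntegral F (jqModC k) := by
    have := isIntegral_jd_of_jdp D F 1 hjp1
    rwa [jd, qExpand_one_apply] at this
  set m := minpoly F (jqModC k) with hm
  have hmonic : m.Monic := minpoly.monic hint
  set mL := m.map (algebraMap F (LaurentSeries k)) with hmL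
  have hlift : mL ∈ Polynomial.lifts (qExpand k p) := by
    rw [Polynomial.lifts_iff_coeff_lifts]
    intro n
    rw [hmL, Polynomial.coeff_map]
    exact hF _ (m.coeff n).2
  obtain ⟨G, hG⟩ := (Polynomial.mem_lifts _).mp hlift
  have hev : (G.map (qExpand k p)).eval (jqModC k) = 0 := by
    rw [hG, hmL, Polynomial.eval_map, ← Polynomial.aeval_def]
    exact minpoly.aeval F _
  have hGne : G ≠ 0 := by
    intro h
    rw [h, Polynomial.map_zero] at hG
    exact (hmonic.map (algebraMap F (LaurentSeries k))).ne_zero hG.symm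
  have h1 := Polynomial.natDegree_le_of_dvd (cofB_dvd_of_eval_map D k hp G hev) hGne
  rw [natDegree_cofB] at h1
  have h2 : G.natDegree = mL.natDegree := by
    rw [← hG, Polynomial.natDegree_map_eq_of_injective (qExpand_injective p)]
  have h3 : mL.natDegree = m.natDegree := hmonic.natDegree_map _
  omega

/-- (b3) `j` has degree exactly `p + 1` over any subfield `F` of the range of `V_p` with
`j_p ∈ F` and `j_{p²} ∉ F`. -/
theorem natDegree_minpoly_j_eq (hp : 1 < p) (F : IntermediateField k (LaurentSeries k))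
    (hF : ∀ x ∈ F, x ∈ Set.range (qExpand k p)) (hjp : jd k p ∈ F)
    (hjpp : qExpand k p (jd k p) ∉ F) :
    (minpoly F (jqModC k)).natDegree = p + 1 := by
  have hjp1 : jd k (1 * p) ∈ F := by simpa using hjp
  have hint : IsIntegral F (jqModC k) := by
    have := isIntegral_jd_of_jdp D F 1 hjp1
    rwa [jd, qExpand_one_apply] at this
  have hge := le_natDegree_minpoly_j D hp F hF hjp
  set m := minpoly F (jqModC k) with hm
  have hmonic : m.Monic := minpoly.monic hint
  set A₀ : F[X] := phiAt D.Φ (⟨jd k p, hjp⟩ : F) with hA₀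
  have hA₀monic : A₀.Monic := phiAt_monic D.monic _
  have hdvd : m ∣ A₀ := minpoly.dvd F _ (by rw [aeval_phiAt_mk]; exact eval_j_field D k)
  obtain ⟨N, hN⟩ := hdvd
  have hNmonic : N.Monic := by
    have h := hA₀monic
    rw [hN] at h
    exact hmonic.of_mul_monic_left h
  have hdegsum : m.natDegree + N.natDegree = p + 1 := by
    rw [← hmonic.natDegree_mul hNmonic, ← hN, natDegree_phiAt D.monic, D.natDegree_eq]
  by_contra hne
  have hN1 : N.natDegree = 1 := by omega
  have hNeq := hNmonic.eq_X_add_C hN1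
  set c : F := N.coeff 0 with hc
  have hrootN : N.eval (-c) = 0 := by
    rw [hNeq]; simp
  have hrootA : A₀.eval (-c) = 0 := by
    rw [hN, Polynomial.eval_mul, hrootN, mul_zero]
  have hrootL : (phiAt D.Φ (jd k p)).eval ((-c : F) : LaurentSeries k) = 0 := by
    have h1 : algebraMap F (LaurentSeries k) (A₀.eval (-c)) = 0 := by rw [hrootA, map_zero]
    rw [← Polynomial.aeval_algebraMap_apply_eq_algebraMap_eval, aeval_phiAt_mk] at h1
    exact h1
  obtain ⟨c', hc'⟩ := hF _ (-c).2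
  rw [phiAt_jp_eq, Polynomial.eval_mul, Polynomial.eval_sub, Polynomial.eval_X,
    Polynomial.eval_C, mul_eq_zero] at hrootL
  rcases hrootL with h | h
  · apply hjpp
    rw [← sub_eq_zero.mp h]
    exact (-c).2
  · rw [← hc', Polynomial.eval_map, Polynomial.eval₂_at_apply] at h
    exact cofB_eval_ne_zero D k hp c'
      ((map_eq_zero_iff _ (qExpand_injective p)).mp h)

end Fields

end Fermat.Agent.S28.H386

end
end
-- ===== PACK-END S28/H386/PrimeLevel.lean

-- ===== PACK-BEGIN S30/H330/AdicAssembly.lean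
section
/-
S30 -- ADIC MODULE LAYER, pieces 2-4 (helper330): eigenvector, finiteness of `J[p]`, assembly.
`hasAdicFrobModule_of_inputs` : (K) + (P) + (T) + (Sm) + (GH)  ⟹  `HasAdicFrobModule`.
-/



set_option autoImplicit false

noncomputable section

namespace Fermat.Agent.S30.H330

open Fermat.Agent.S29 ModularCurve
open scoped MatrixGroups

/-! ### Generalities on parabolic characters -/

section ParHom

variable {N : ℕ}

theorem isParHom_zero {A : Type*} [AddCommGroup A] : IsParHom (0 : G0 N → A) :=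
  ⟨fun _ _ => by simp, fun _ _ => rfl, fun _ _ _ _ => rfl⟩

theorem isParHom_add {A : Type*} [AddCommGroup A] {c c' : G0 N → A} (hc : IsParHom c)
    (hc' : IsParHom c') : IsParHom (c + c') :=
  ⟨fun γ γ' => by simp only [Pi.add_apply, hc.map_mul, hc'.map_mul]; abel,
    fun γ h => by simp only [Pi.add_apply, hc.parabolic γ h, hc'.parabolic γ h, add_zero],
    fun γ n hn h => by
      simp only [Pi.add_apply, hc.elliptic γ n hn h, hc'.elliptic γ n hn h, add_zero]⟩

theorem isParHom_nsmul {A : Type*} [AddCommGroup A] {c : G0 N → A} (hc : IsParHom c) (n : ℕ) :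
    IsParHom (n • c) := by
  induction n with
  | zero => rw [zero_nsmul]; exact isParHom_zero
  | succ n ih => rw [succ_nsmul]; exact isParHom_add ih hc

/-- Push-forward of a parabolic character along an additive map. -/
theorem isParHom_comp {A B : Type*} [AddCommGroup A] [AddCommGroup B] {c : G0 N → A}
    (hc : IsParHom c) (φ : A →+ B) : IsParHom (fun γ => φ (c γ)) :=
  ⟨fun γ γ' => by simp only [hc.map_mul, map_add],
    fun γ h => by simp only [hc.parabolic γ h, map_zero],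
    fun γ n hn h => by simp only [hc.elliptic γ n hn h, map_zero]⟩

theorem isParHom_map_one {A : Type*} [AddCommGroup A] {c : G0 N → A} (hc : IsParHom c) :
    c 1 = 0 := by
  have := hc.map_mul 1 1
  rw [mul_one] at this
  exact left_eq_add.mp this

theorem heckeCoh_comp {A B : Type*} [AddCommGroup A] [AddCommGroup B] (ℓ : ℕ) (c : G0 N → A)
    (φ : A →+ B) : heckeCoh N ℓ (fun γ => φ (c γ)) = fun γ => φ (heckeCoh N ℓ c γ) := by
  funext γ
  simp only [heckeCoh, map_sum]

end ParHom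

/-! ### Consequences of the Kummer statement -/

section Kummer

variable {N : ℕ}

theorem kummer_zero {κ : (G0 N → QZ) → JZero N}
    (hadd : ∀ c c', IsParHom c → IsParHom c' → κ (c + c') = κ c + κ c') : κ 0 = 0 := by
  have := hadd 0 0 isParHom_zero isParHom_zero
  rw [add_zero] at this
  exact left_eq_add.mp this

theorem kummer_nsmul {κ : (G0 N → QZ) → JZero N}
    (hadd : ∀ c c', IsParHom c → IsParHom c' → κ (c + c') = κ c + κ c') {c : G0 N → QZ}
    (hc : IsParHom c) (n : ℕ) : κ (n • c) = n • κ c := by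
  induction n with
  | zero => rw [zero_nsmul, zero_nsmul]; exact kummer_zero hadd
  | succ n ih => rw [succ_nsmul, succ_nsmul, hadd _ _ (isParHom_nsmul hc n) hc, ih]

end Kummer

/-! ### Piece 3: finiteness of the `p`-torsion -/

section Fin

variable {N : ℕ} [NeZero N]

theorem fg_SL2Z : Group.FG SL(2, ℤ) := by
  rw [Group.fg_iff]
  exact ⟨{ModularGroup.S, ModularGroup.T}, SpecialLinearGroup.SL2Z_generators,
    Set.toFinite _⟩

theorem fg_G0 : Group.FG (G0 N) := by
  have := fg_SL2Z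
  exact Subgroup.fg_of_index_ne_zero (CongruenceSubgroup.Gamma0 N)

/-- The `p`-torsion of `ℚ/ℤ` is finite. -/
theorem finite_QZ_torsion {p : ℕ} (hp : p.Prime) : {y : QZ | p • y = 0}.Finite := by
  have h1 := AddCircle.finite_setOfPred_addOrderOf_eq (1 : ℚ) (n := 1) one_pos
  have hp' := AddCircle.finite_setOfPred_addOrderOf_eq (1 : ℚ) (n := p) hp.pos
  refine (h1.union hp').subset ?_
  intro y hy
  have hdvd : addOrderOf y ∣ p := addOrderOf_dvd_of_nsmul_eq_zero hy
  rcases (Nat.dvd_prime hp).mp hdvd with h | h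
  · exact Or.inl h
  · exact Or.inr h

/-- A parabolic character as a monoid homomorphism. -/
def parHomToMonoidHom {c : G0 N → QZ} (hc : IsParHom c) : G0 N →* Multiplicative QZ where
  toFun γ := Multiplicative.ofAdd (c γ)
  map_one' := by rw [isParHom_map_one hc]; rfl
  map_mul' γ γ' := by rw [hc.map_mul]; rfl

omit [NeZero N] in
theorem parHom_ext {S₀ : Set (G0 N)} (hS₀ : Subgroup.closure S₀ = ⊤) {c c' : G0 N → QZ}
    (hc : IsParHom c) (hc' : IsParHom c') (h : ∀ s ∈ S₀, c s = c' s) : c = c' := by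
  have heq : parHomToMonoidHom hc = parHomToMonoidHom hc' := by
    refine MonoidHom.eq_of_eqOn_dense hS₀ ?_
    intro s hs
    show Multiplicative.ofAdd (c s) = Multiplicative.ofAdd (c' s)
    rw [h s hs]
  funext γ
  have := congrArg (fun φ : G0 N →* Multiplicative QZ => Multiplicative.toAdd (φ γ)) heq
  exact this

/-- The set of parabolic characters of exponent `p` is finite. -/
theorem finite_parHom_torsion {p : ℕ} (hp : p.Prime) :
    {c : G0 N → QZ | IsParHom c ∧ p • c = 0}.Finite := by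
  classical
  obtain ⟨S₀, hS₀, hS₀fin⟩ := Group.fg_iff.mp (fg_G0 (N := N))
  have : Finite S₀ := hS₀fin.to_subtype
  let f : (G0 N → QZ) → (S₀ → QZ) := fun c s => c s
  refine Set.Finite.of_finite_image (f := f) ?_ ?_
  · refine (Set.Finite.pi (t := fun _ : S₀ => {y : QZ | p • y = 0})
      (fun _ => finite_QZ_torsion hp)).subset ?_
    rintro _ ⟨c, ⟨-, hc⟩, rfl⟩
    intro s _
    show p • c s = 0
    have := congrFun hc s
    simpa using this
  · rintro c ⟨hc, -⟩ c' ⟨hc', -⟩ h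
    refine parHom_ext hS₀ hc hc' fun s hs => ?_
    exact congrFun h ⟨s, hs⟩

/-- PIECE 3: finiteness of the `p`-torsion of `J₀(N)(ℚ̄)`. -/
theorem finite_torsion {p : ℕ} [Fact p.Prime] (hK : KummerStatement N p) :
    {x : JZero N | p • x = 0}.Finite := by
  obtain ⟨κ, hadd, hinj, hsurj, -⟩ := hK
  refine ((finite_parHom_torsion (N := N) (Fact.out : p.Prime)).image κ).subset ?_
  intro x hx
  obtain ⟨c, hc, rfl⟩ := hsurj x ⟨1, by simpa using hx⟩
  refine ⟨c, ⟨hc, ?_⟩, rfl⟩
  apply hinj _ (isParHom_nsmul hc p)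
  rw [kummer_nsmul hadd hc]
  exact hx

end Fin

/-! ### Piece 2: the eigenvector -/

section Eigen

/-- A nonzero additive character `ϑ : L → ℚ/ℤ` killing `O`, with `ϑ(1/ϖ) ≠ 0`. -/
theorem exists_character {O : Type} [CommRing O] [IsDomain O] {ϖ : O} (hϖ : Irreducible ϖ) :
    ∃ ϑ : FractionRing O →+ QZ, (∀ r : O, ϑ (algebraMap O (FractionRing O) r) = 0) ∧
      ϑ ((algebraMap O (FractionRing O) ϖ)⁻¹) ≠ 0 := by
  let Osub : AddSubgroup (FractionRing O) := (algebraMap O (FractionRing O)).toAddMonoidHom.range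
  have hne : (QuotientAddGroup.mk ((algebraMap O (FractionRing O) ϖ)⁻¹) : FractionRing O ⧸ Osub)
      ≠ 0 := by
    intro h
    rw [QuotientAddGroup.eq_zero_iff] at h
    obtain ⟨r, hr⟩ := h
    have hϖ0 : algebraMap O (FractionRing O) ϖ ≠ 0 := algebraMap_irreducible_ne_zero hϖ
    have h1 : algebraMap O (FractionRing O) (r * ϖ) = algebraMap O (FractionRing O) 1 := by
      rw [map_mul, map_one]
      have : algebraMap O (FractionRing O) r = (algebraMap O (FractionRing O) ϖ)⁻¹ := hr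
      rw [this, inv_mul_cancel₀ hϖ0]
    have h2 : r * ϖ = 1 := IsFractionRing.injective O (FractionRing O) h1
    exact hϖ.not_isUnit (IsUnit.of_mul_eq_one r (by rw [mul_comm]; exact h2))
  obtain ⟨ϑ₀, hϑ₀⟩ := CharacterModule.exists_character_apply_ne_zero_of_ne_zero hne
  refine ⟨(show (FractionRing O ⧸ Osub) →+ QZ from ϑ₀).comp (QuotientAddGroup.mk' Osub),
    fun r => ?_, hϑ₀⟩
  show ϑ₀ (QuotientAddGroup.mk (algebraMap O (FractionRing O) r)) = 0
  have : (QuotientAddGroup.mk (algebraMap O (FractionRing O) r) : FractionRing O ⧸ Osub) = 0 := by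
    rw [QuotientAddGroup.eq_zero_iff]
    exact ⟨r, rfl⟩
  rw [this, map_zero]

theorem eigenvalue_eq {N : ℕ} [NeZero N] {S : Finset ℕ} {O : Type} [CommRing O]
    (χ : CuspForm.heckeAlgebra N 2 (↑S : Set ℕ) →+* O) {ℓ : ℕ} (hℓ : ℓ.Prime) (hℓN : ¬ ℓ ∣ N)
    (hℓS : ℓ ∉ (↑S : Set ℕ)) : eigenvalue χ ℓ = χ (CuspForm.heckeAlgebra.T hℓ hℓN hℓS) := by
  unfold eigenvalue
  rw [dif_pos ⟨hℓ, hℓN, hℓS⟩]

/-- PIECE 2: the eigenvector `f(x) = κ(γ ↦ ϑ(c(γ) x))`. -/
theorem exists_eigenHom {p : ℕ} [Fact p.Prime] {N : ℕ} [NeZero N] {S : Finset ℕ}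
    (hpS : p ∈ S) (hNS : ∀ q : ℕ, q.Prime → q ∣ N → q ∈ S)
    {O : Type} [CommRing O] [IsDomain O] [IsDiscreteValuationRing O]
    (χ : CuspForm.heckeAlgebra N 2 (↑S : Set ℕ) →+* O)
    (hK : KummerStatement N p) (hP : ParEigenStatement N S O χ) :
    ∃ f : FractionRing O →+ JZero N,
      (∀ r : O, f (algebraMap O (FractionRing O) r) = 0) ∧ f ≠ 0 ∧
      ∀ (ℓ : Nat.Primes), (ℓ : ℕ) ∉ S → ∀ x,
        heckeOperatorBar N ℓ (f x) =
          f (algebraMap O (FractionRing O) (eigenvalue χ ℓ) * x) := by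
  classical
  obtain ⟨κ, hadd, hinj, -, hhecke⟩ := hK
  obtain ⟨c, hc, hc0, hceig⟩ := hP
  obtain ⟨ϖ, hϖ⟩ := IsDiscreteValuationRing.exists_irreducible O
  obtain ⟨ϑ, hϑ0, hϑ1⟩ := exists_character hϖ
  -- the additive map `r ↦ ϑ (r x)`
  let φ : FractionRing O → (O →+ QZ) := fun x =>
    ϑ.comp ((AddMonoidHom.mulRight x).comp (algebraMap O (FractionRing O)).toAddMonoidHom)
  have hφ : ∀ x r, φ x r = ϑ (algebraMap O (FractionRing O) r * x) := fun x r => rfl
  let cx : FractionRing O → (G0 N → QZ) := fun x γ => φ x (c γ)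
  have hcx : ∀ x, IsParHom (cx x) := fun x => isParHom_comp hc (φ x)
  have hcx_add : ∀ x y, cx (x + y) = cx x + cx y := by
    intro x y
    funext γ
    show φ (x + y) (c γ) = φ x (c γ) + φ y (c γ)
    rw [hφ, hφ, hφ, mul_add, map_add]
  let f : FractionRing O →+ JZero N := AddMonoidHom.mk' (fun x => κ (cx x)) (fun x y => by
    show κ (cx (x + y)) = κ (cx x) + κ (cx y)
    rw [hcx_add, hadd _ _ (hcx x) (hcx y)])
  have hf : ∀ x, f x = κ (cx x) := fun x => rfl
  refine ⟨f, fun r => ?_, ?_, fun ℓ hℓS x => ?_⟩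
  · rw [hf]
    have : cx (algebraMap O (FractionRing O) r) = 0 := by
      funext γ
      show φ _ (c γ) = 0
      rw [hφ, ← map_mul]
      exact hϑ0 _
    rw [this]
    exact kummer_zero hadd
  · intro hf0
    obtain ⟨γ₀, hγ₀⟩ : ∃ γ₀, c γ₀ ≠ 0 := by
      by_contra h
      push Not at h
      exact hc0 (funext h)
    have hcγ : algebraMap O (FractionRing O) (c γ₀) ≠ 0 := by
      simpa using hγ₀
    set x₀ : FractionRing O :=
      (algebraMap O (FractionRing O) (c γ₀))⁻¹ * (algebraMap O (FractionRing O) ϖ)⁻¹ with hx₀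
    have h1 : κ (cx x₀) = 0 := by
      rw [← hf, hf0]
      rfl
    have h2 := hinj _ (hcx x₀) h1
    have h3 : cx x₀ γ₀ = 0 := by rw [h2]; rfl
    apply hϑ1
    have h4 : cx x₀ γ₀ = ϑ ((algebraMap O (FractionRing O) ϖ)⁻¹) := by
      show φ x₀ (c γ₀) = _
      rw [hφ, hx₀, mul_inv_cancel_left₀ hcγ]
    rw [← h4, h3]
  · have hℓ : (ℓ : ℕ).Prime := ℓ.2
    have hℓN : ¬ (ℓ : ℕ) ∣ N := fun h => hℓS (hNS _ hℓ h)
    have hℓS' : (ℓ : ℕ) ∉ (↑S : Set ℕ) := by simpa using hℓS
    have hℓNp : ¬ (ℓ : ℕ) ∣ N * p := by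
      intro h
      rcases (Nat.Prime.dvd_mul hℓ).mp h with h | h
      · exact hℓN h
      · have : (ℓ : ℕ) = p := (Nat.prime_dvd_prime_iff_eq hℓ (Fact.out : p.Prime)).mp h
        exact hℓS (this ▸ hpS)
    rw [hf, hf, ← hhecke ℓ hℓNp _ (hcx x)]
    congr 1
    rw [show cx x = fun γ => φ x (c γ) from rfl, heckeCoh_comp]
    funext γ
    show φ x (heckeCoh N ℓ c γ) = φ _ (c γ)
    rw [hφ, hφ, hceig ℓ hℓ hℓN hℓS' γ, eigenvalue_eq χ hℓ hℓN hℓS']
    congr 1
    rw [map_mul (algebraMap O (FractionRing O))]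
    ring

end Eigen

/-! ### Piece 4: assembly -/

/-- ASSEMBLY of the adic module layer: (K) + (P) + (T) + (Sm) + (GH) ⟹ `HasAdicFrobModule`. -/
theorem hasAdicFrobModule_of_inputs {p : ℕ} [Fact p.Prime] {N : ℕ} [NeZero N] {S : Finset ℕ}
    (hpS : p ∈ S) (hNS : ∀ q : ℕ, q.Prime → q ∣ N → q ∈ S)
    {O : Type} [CommRing O] [IsDomain O] [IsDiscreteValuationRing O]
    [IsAdicComplete (IsLocalRing.maximalIdeal O) O] [Finite (IsLocalRing.ResidueField O)]
    [CharZero O] (hpO : (p : O) ∈ IsLocalRing.maximalIdeal O)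
    (χ : CuspForm.heckeAlgebra N 2 (↑S : Set ℕ) →+* O)
    (hK : KummerStatement N p) (hP : ParEigenStatement N S O χ) (hT : TorsionRelations N p)
    (hSm : SmoothStatement N) (hGH : GaloisHeckeStatement N) :
    HasAdicFrobModule O (N * p) (fun ℓ => ℓ ∉ S) (eigenvalue χ) := by
  classical
  obtain ⟨f, hf0, hf, hfe⟩ := exists_eigenHom hpS hNS χ hK hP
  have hfin := finite_torsion hK
  -- index set of Hecke operators
  let t : {ℓ : Nat.Primes // (ℓ : ℕ) ∉ S} → JZero N →+ JZero N := fun i =>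
    (heckeOperatorBar N i.1).toAddMonoidHom
  let a : {ℓ : Nat.Primes // (ℓ : ℕ) ∉ S} → O := fun i => eigenvalue χ (i.1 : ℕ)
  have ht : ∀ i (σ : GQ) (x : JZero N), σ • t i x = t i (σ • x) := fun i σ x => hGH σ i.1 x
  obtain ⟨M, i1, i2, i3, i4, ρ, hnt, hcont, hunr, hquad⟩ :=
    adicModule_of_torsion (J := JZero N) (Fact.out : p.Prime) hpO (fun x => hSm x) hfin t ht a f
      hf0 hf (fun i x => hfe i.1 i.2 x)
  refine ⟨M, i1, i2, i3, i4, ρ, hnt, hcont, ?_, ?_⟩
  · intro ℓ hℓ hℓNp A hA σ hσ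
    exact hunr σ fun x hx => (hT ℓ hℓ hℓNp A hA).1 σ hσ x hx
  · intro ℓ hℓ hℓS A hA σ hσ
    have hℓN : ¬ ℓ ∣ N := fun h => hℓS (hNS _ hℓ h)
    have hℓNp : ¬ ℓ ∣ N * p := by
      intro h
      rcases (Nat.Prime.dvd_mul hℓ).mp h with h | h
      · exact hℓN h
      · have : ℓ = p := (Nat.prime_dvd_prime_iff_eq hℓ (Fact.out : p.Prime)).mp h
        exact hℓS (this ▸ hpS)
    exact hquad ⟨⟨ℓ, hℓ⟩, hℓS⟩ ℓ σ fun x hx => (hT ℓ hℓ hℓNp A hA).2 σ hσ x hx

end Fermat.Agent.S30.H330

end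
end
-- ===== PACK-END S30/H330/AdicAssembly.lean

-- ===== PACK-BEGIN S30/H990/TwoDim.lean
section
/-
S30 top glue (helper990): pure algebra, part 5: the two-dimensional representation.
-/


set_option autoImplicit false

namespace Fermat.Agent.S30.H990

open Module Polynomial

/-- Output of the extraction: a rank two representation with prescribed characteristic
polynomials, as congruent to `1` as the input data. -/
structure TwoDimOut {𝒪 M G : Type} [CommRing 𝒪] [AddCommGroup M] [Module 𝒪 M] [Group G]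
    (ρ : G →* Module.End 𝒪 M) (d : G →* 𝒪ˣ) : Type 1 where
  V : Type
  [instAddCommGroup : AddCommGroup V]
  [instModule : Module 𝒪 V]
  [instFree : Module.Free 𝒪 V]
  [instFinite : Module.Finite 𝒪 V]
  finrank_eq : Module.finrank 𝒪 V = 2
  ρ₂ : G →* Module.End 𝒪 V
  charpoly_eq : ∀ (g : G) (a : 𝒪), Rel ρ d g a →
    LinearMap.charpoly (ρ₂ g) = X ^ 2 - C a * X + C ((d g : 𝒪ˣ) : 𝒪)
  cong : ∀ (I : Ideal 𝒪) (g : G), (∀ v : M, ρ g v - v ∈ I • (⊤ : Submodule 𝒪 M)) →
    ((d g : 𝒪ˣ) : 𝒪) - 1 ∈ I → ∀ v : V, ρ₂ g v - v ∈ I • (⊤ : Submodule 𝒪 V)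

attribute [instance] TwoDimOut.instAddCommGroup TwoDimOut.instModule TwoDimOut.instFree
  TwoDimOut.instFinite

section Constructions

variable {𝒪 M G : Type} [CommRing 𝒪] [IsDomain 𝒪] [IsPrincipalIdealRing 𝒪]
  [AddCommGroup M] [Module 𝒪 M] [Module.Free 𝒪 M] [Module.Finite 𝒪 M] [Group G]
  (ρ : G →* Module.End 𝒪 M) (d : G →* 𝒪ˣ)

/-- Stability of the saturation of a span, checked on generators. -/
theorem sat_span_stable (s : Set M)
    (h : ∀ g, ∀ x ∈ s, ∃ r : 𝒪, r ≠ 0 ∧ r • ρ g x ∈ Submodule.span 𝒪 s) :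
    ∀ g, ∀ x ∈ sat (Submodule.span 𝒪 s), ρ g x ∈ sat (Submodule.span 𝒪 s) := by
  intro g x hx
  refine map_mem_sat (ρ g) (fun y hy => ?_) hx
  refine map_span_le_sat (ρ g) (fun z hz => ?_) hy
  obtain ⟨r, hr, hrz⟩ := h g z hz
  exact ⟨r, hr, hrz⟩

/-- The rank two case. -/
theorem twoDim_of_rank_two (hrel : ∀ g, ∃ a, Rel ρ d g a) (h2 : (2 : 𝒪) ≠ 0)
    (c : G) (hdc : d c = -1)
    (u w : M) (ε : 𝒪) (hε : ε * ε = 1) (hu0 : u ≠ 0) (hw0 : w ≠ 0)
    (hu : ρ c u = ε • u) (hw : ρ c w = -ε • w)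
    (hsu : ∀ g, ∃ r : 𝒪, r ≠ 0 ∧ r • ρ g u ∈ Submodule.span 𝒪 {u, w})
    (hsw : ∀ g, ∃ r : 𝒪, r ≠ 0 ∧ r • ρ g w ∈ Submodule.span 𝒪 {u, w}) :
    Nonempty (TwoDimOut ρ d) := by
  classical
  have hε0 : ε ≠ 0 := by rintro rfl; simp at hε
  -- linear independence
  have hli : LinearIndependent 𝒪 ![u, w] := by
    rw [LinearIndependent.pair_iff]
    intro s t hst
    have h1 := congrArg (ρ c) hst
    rw [map_add, map_smul, map_smul, hu, hw, map_zero] at h1
    have h3 : (2 * ε * s) • u = 0 := by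
      have : (2 * ε * s) • u = ε • (s • u + t • w) + (s • ε • u + t • (-ε • w)) := by
        module
      rw [this, hst, h1, smul_zero, add_zero]
    have hs : s = 0 := by
      rcases smul_eq_zero.mp h3 with h | h
      · rcases mul_eq_zero.mp h with h | h
        · exact absurd h (mul_ne_zero h2 hε0)
        · exact h
      · exact absurd h hu0
    refine ⟨hs, ?_⟩
    rw [hs, zero_smul, zero_add] at hst
    exact (smul_eq_zero.mp hst).resolve_right hw0
  have hrange : Set.range ![u, w] = ({u, w} : Set M) := by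
    ext x
    simp only [Set.mem_range, Set.mem_insert_iff, Set.mem_singleton_iff]
    constructor
    · rintro ⟨i, rfl⟩
      fin_cases i <;> simp
    · rintro (rfl | rfl)
      · exact ⟨0, rfl⟩
      · exact ⟨1, rfl⟩
  set Λ : Submodule 𝒪 M := sat (Submodule.span 𝒪 ({u, w} : Set M)) with hΛ
  have hfr : Module.finrank 𝒪 Λ = 2 := by
    have := finrank_sat_span ![u, w] hli
    rwa [hrange] at this
  have hstab : ∀ g, ∀ x ∈ Λ, ρ g x ∈ Λ := by
    apply sat_span_stable
    intro g x hx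
    rcases hx with rfl | hx
    · exact hsu g
    · rw [Set.mem_singleton_iff] at hx
      subst hx
      exact hsw g
  have huΛ : u ∈ Λ := le_sat _ (Submodule.subset_span (by simp))
  have hwΛ : w ∈ Λ := le_sat _ (Submodule.subset_span (by simp))
  set ρΛ := restrictRep ρ Λ hstab with hρΛ
  let b : Basis (Fin 2) 𝒪 Λ := Module.finBasisOfFinrankEq 𝒪 Λ hfr
  let A : G →* Matrix (Fin 2) (Fin 2) 𝒪 :=
    ((LinearMap.toMatrixAlgEquiv b : Module.End 𝒪 Λ ≃ₐ[𝒪] Matrix (Fin 2) (Fin 2) 𝒪) :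
      Module.End 𝒪 Λ →* Matrix (Fin 2) (Fin 2) 𝒪).comp ρΛ
  have hA : ∀ g, A g = LinearMap.toMatrixAlgEquiv b (ρΛ g) := fun g => rfl
  have hArel : ∀ g a, Rel ρ d g a →
      A g * A g - a • A g + ((d g : 𝒪ˣ) : 𝒪) • (1 : Matrix (Fin 2) (Fin 2) 𝒪) = 0 := by
    intro g a hr
    have := rel_restrictRep ρ d Λ hstab hr
    unfold Rel at this
    have h' := congrArg (LinearMap.toMatrixAlgEquiv b) this
    simpa only [map_add, map_sub, map_mul, map_smul, map_one, map_zero, hA] using h'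
  have hcns : ¬ ∃ l : 𝒪, A c = l • (1 : Matrix (Fin 2) (Fin 2) 𝒪) := by
    rintro ⟨l, hl⟩
    have h1 : ρΛ c = l • (1 : Module.End 𝒪 Λ) := by
      apply (LinearMap.toMatrixAlgEquiv b).injective
      rw [← hA, hl, map_smul, map_one]
    have e1 : ρ c u = l • u := by
      have := congrArg (fun f : Module.End 𝒪 Λ => ((f ⟨u, huΛ⟩ : Λ) : M)) h1
      exact this
    have e2 : ρ c w = l • w := by
      have := congrArg (fun f : Module.End 𝒪 Λ => ((f ⟨w, hwΛ⟩ : Λ) : M)) h1
      exact this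
    have f1 : l = ε := by
      have : (l - ε) • u = 0 := by rw [sub_smul, ← e1, ← hu, sub_self]
      exact sub_eq_zero.mp ((smul_eq_zero.mp this).resolve_right hu0)
    have f2 : l = -ε := by
      have : (l - -ε) • w = 0 := by rw [sub_smul, ← e2, ← hw, sub_self]
      exact sub_eq_zero.mp ((smul_eq_zero.mp this).resolve_right hw0)
    have : 2 * ε = 0 := by
      have := f1.symm.trans f2
      linear_combination this
    exact mul_ne_zero h2 hε0 this
  refine ⟨{ V := Λ
            finrank_eq := hfr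
            ρ₂ := ρΛ
            charpoly_eq := ?_
            cong := ?_ }⟩
  · intro g a hr
    obtain ⟨ht, hd⟩ := mat2_trace_det_of_rel A d (fun g => by
      obtain ⟨a, ha⟩ := hrel g
      exact ⟨a, hArel g a ha⟩) c hdc hcns g a (hArel g a hr)
    rw [← LinearMap.charpoly_toMatrix (ρΛ g) b]
    have : LinearMap.toMatrix b b (ρΛ g) = A g := rfl
    rw [this, Matrix.charpoly_fin_two, ht, hd]
  · intro I g hg _ v
    have hmem : ((ρΛ g v - v : Λ) : M) ∈ I • (⊤ : Submodule 𝒪 M) := hg (v : M)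
    exact mem_smul_top_sat _ I _ hmem

end Constructions

end Fermat.Agent.S30.H990

end
-- ===== PACK-END S30/H990/TwoDim.lean

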