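import Mathlib.RingTheory.Valuation.LocalSubring
import Mathlib.RingTheory.Valuation.Integral
import Mathlib.RingTheory.Valuation.ValuationRing
import Fermat.Prelude.Def_ModularForm_HeckeOperatorForms
import Mathlib
import Fermat.Prelude.Def_AlgebraicGeometry_RelativePicardFunctor
import Fermat.Agent.Pack.S44C.G0E4L0
import Fermat.Agent.Pack.S43MC.G2E0L0
import Fermat.Agent.Pack.S43MC.G0E7L2
import Fermat.Agent.Pack.S43MC.G0E0L1
import Fermat.Agent.Pack.S43MC.G0E8L1
import Fermat.Agent.Pack.S43MC.G0E8L3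
import Fermat.Agent.Pack.S43MC.G0E5L0
import Fermat.Agent.Pack.S43MC.G0E8L0
import Fermat.Agent.Pack.S43MC.G0E0L0
import Fermat.Agent.Pack.S43MC.G0E5L3
import Fermat.Agent.Pack.S43MC.G0E0L3
import Fermat.Agent.Pack.S43MC.G0E7L1
import Fermat.Agent.Pack.S44C.G0E2L0
import Fermat.Agent.Pack.Fast891

-- ===== PACK-BEGIN A2/Alg/H348/ConstDvr.lean
section






/-!
# A2 / ALG / GLUE, `hconst` part, step 4: constants of a split Kummer extension

`R` henselian DVR with algebraically closed residue field, `E = Frac R` of characteristic `0`,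
`F ⊇ E` a field with a discrete valuation subring `V ⊇ R` with uniformiser `w` (the uniformiser of
`R`), `m` invertible in `R`, `u ∈ 1 + w V`, `L = F(z)` with `z ^ m = u`.  Then every element of `L`
which is integral over `R` lies in `R` (`const_of_dvr`).

Proof: extend `V` to a valuation subring `W` of `L` (Chevalley,
`Ideal.image_subset_nonunits_valuationSubring`); then `W ∩ F = V` and, by `H93.CoverSplit`
(route G, C2), the maximal ideal of `W` is `w W`; conclude by `H313.hens_integral`.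
-/

set_option autoImplicit false
set_option linter.unusedSectionVars false
set_option linter.style.haveILetI false

open IsLocalRing

namespace Fermat.Agent.A2.Alg.H348

open Fermat.Agent.A2.H93

section Ext

variable {F L : Type*} [Field F] [Field L] [Algebra F L]

/-- **Chevalley extension** of a valuation subring with principal maximal ideal, with
`W ∩ F = V`. -/
theorem exists_valuationSubring_ext (V : ValuationSubring F) (w : F) (hw_inv : w⁻¹ ∉ V)
    (hw_gen : ∀ f ∈ V, f⁻¹ ∉ V → f * w⁻¹ ∈ V) :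
    ∃ W : ValuationSubring L, (∀ f : F, algebraMap F L f ∈ W ↔ f ∈ V) ∧
      algebraMap F L w ∈ W.nonunits := by
  have hw0 : w ≠ 0 := by
    rintro rfl
    apply hw_inv
    rw [inv_zero]
    exact V.zero_mem
  have hwV : w ∈ V := (V.mem_or_inv_mem w).resolve_right hw_inv
  set A : Subring L := V.toSubring.map (algebraMap F L) with hA
  have hmemA : ∀ {f : F}, f ∈ V → algebraMap F L f ∈ A := fun {f} hf => ⟨f, hf, rfl⟩
  set wA : A := ⟨algebraMap F L w, hmemA hwV⟩ with hwA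
  have hI : Ideal.span ({wA} : Set A) ≠ ⊤ := by
    rw [Ne, Ideal.span_singleton_eq_top]
    intro hu
    obtain ⟨a, ha⟩ := hu.exists_right_inv
    obtain ⟨v, hv, hva⟩ := a.2
    have h1 : algebraMap F L w * algebraMap F L v = 1 := by
      have h0 : algebraMap F L w * (a : L) = 1 := congrArg Subtype.val ha
      rw [hva]
      exact h0
    have h2 : w * v = 1 := by
      apply (algebraMap F L).injective
      rw [map_mul, h1, map_one]
    apply hw_inv
    rw [inv_eq_of_mul_eq_one_right h2]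
    exact hv
  obtain ⟨W, hAW, hIW⟩ := Ideal.image_subset_nonunits_valuationSubring _ hI
  have hwW : algebraMap F L w ∈ W.nonunits :=
    hIW ⟨wA, Ideal.mem_span_singleton_self _, rfl⟩
  refine ⟨W, fun f => ⟨fun hf => ?_, fun hf => hAW (hmemA hf)⟩, hwW⟩
  by_contra hfV
  have hf0 : f ≠ 0 := by
    rintro rfl
    exact hfV V.zero_mem
  have hfi : f⁻¹ ∈ V := (V.mem_or_inv_mem f).resolve_left hfV
  have hv : f⁻¹ * w⁻¹ ∈ V := hw_gen _ hfi (by rwa [inv_inv])
  have h1 : algebraMap F L f * (algebraMap F L w * algebraMap F L (f⁻¹ * w⁻¹)) = 1 := by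
    rw [← map_mul, ← map_mul, ← map_one (algebraMap F L)]
    congr 1
    field_simp
  have h2 : W.valuation (algebraMap F L f) ≤ 1 := (W.valuation_le_one_iff _).2 hf
  have h3 : W.valuation (algebraMap F L w) < 1 := (W.mem_nonunits_iff).1 hwW
  have h4 : W.valuation (algebraMap F L (f⁻¹ * w⁻¹)) ≤ 1 :=
    (W.valuation_le_one_iff _).2 (hAW (hmemA hv))
  have h5 : W.valuation (algebraMap F L f * (algebraMap F L w * algebraMap F L (f⁻¹ * w⁻¹)))
      < 1 := by
    rw [map_mul, map_mul]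
    calc W.valuation (algebraMap F L f) *
          (W.valuation (algebraMap F L w) * W.valuation (algebraMap F L (f⁻¹ * w⁻¹)))
        ≤ 1 * (W.valuation (algebraMap F L w) * 1) := by gcongr
      _ = W.valuation (algebraMap F L w) := by rw [one_mul, mul_one]
      _ < 1 := h3
  rw [h1, map_one] at h5
  exact lt_irrefl _ h5

end Ext

section Const

/-- **Constants of a split Kummer extension.** -/
theorem const_of_dvr {R : Type*} (E : Type*) {F L : Type*}
    [CommRing R] [IsDomain R] [IsDiscreteValuationRing R]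
    [HenselianLocalRing R] [IsAlgClosed (ResidueField R)]
    [Field E] [CharZero E] [Algebra R E] [IsFractionRing R E]
    [Field F] [Algebra E F] [Algebra R F] [IsScalarTower R E F]
    [Field L] [Algebra F L] [Algebra E L] [Algebra R L] [IsScalarTower R E L]
    [IsScalarTower R F L]
    (w : R) (hw : Irreducible w) (V : ValuationSubring F)
    (hRV : ∀ r : R, algebraMap R F r ∈ V)
    (hw_inv : (algebraMap R F w)⁻¹ ∉ V)
    (hw_gen : ∀ f ∈ V, f⁻¹ ∉ V → f * (algebraMap R F w)⁻¹ ∈ V)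
    (hw_disc : ∀ f : F, ∃ k : ℕ, f * algebraMap R F w ^ k ∈ V)
    (m : ℕ) (hm : 0 < m) (ζ : R) (hζ : IsPrimitiveRoot ζ m) (hmu : IsUnit (m : R))
    (u : F) (hu : u ∈ V) (hu' : u⁻¹ ∈ V) (hu1 : (u - 1) * (algebraMap R F w)⁻¹ ∈ V)
    (z : L) (hz : z ^ m = algebraMap F L u) (hgen : Algebra.adjoin F ({z} : Set L) = ⊤)
    (y : L) (hy : IsIntegral R y) : y ∈ Set.range (algebraMap R L) := by
  have hinjRE : Function.Injective (algebraMap R E) := IsFractionRing.injective R E
  have hinjRF : Function.Injective (algebraMap R F) := by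
    rw [IsScalarTower.algebraMap_eq R E F]
    exact (algebraMap E F).injective.comp hinjRE
  obtain ⟨W, hext, hwW⟩ := exists_valuationSubring_ext (L := L) V (algebraMap R F w) hw_inv hw_gen
  have hRL : ∀ r : R, algebraMap R L r = algebraMap F L (algebraMap R F r) := fun r =>
    IsScalarTower.algebraMap_apply R F L r
  have hu0 : u ≠ 0 := by
    rintro rfl
    apply hw_inv
    have : (algebraMap R F w)⁻¹ = -(((0 : F) - 1) * (algebraMap R F w)⁻¹) := by ring
    rw [this]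
    exact V.neg_mem _ hu1
  have D : CoverSplit V W (algebraMap R F w) m (algebraMap R F ζ) (fun _ : Unit => z)
      (fun _ => u) (fun _ => 1) :=
    { ext := hext
      w_inv_notMem := hw_inv
      w_gen := hw_gen
      w_disc := hw_disc
      zeta := hζ.map_of_injective hinjRF
      m_pos := hm
      m_inv := by
        obtain ⟨r, hr⟩ := hmu.exists_right_inv
        have h1 : (m : F) * algebraMap R F r = 1 := by
          rw [← map_natCast (algebraMap R F), ← map_mul, hr, map_one]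
        rw [inv_eq_of_mul_eq_one_right h1]
        exact hRV r
      pow_eq := fun _ => hz
      g_mem := fun _ => hu
      g_ne_zero := fun _ => hu0
      g_inv := fun _ => hu'
      c_mem := fun _ => V.one_mem
      cong := fun _ => by rw [one_pow]; exact hu1
      gen := by rw [Set.range_const]; exact hgen }
  have hRW : ∀ r : R, algebraMap R L r ∈ W := fun r => by
    rw [hRL]; exact (hext _).2 (hRV r)
  have hw1 : algebraMap R L w ∈ W.nonunits := by rw [hRL]; exact hwW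
  have hw2 : ∀ x ∈ W.nonunits, ∃ t ∈ W, x = algebraMap R L w * t := by
    intro x hx
    have hxv : W.valuation x < 1 := (W.mem_nonunits_iff).1 hx
    have hxW : x ∈ W := (W.valuation_le_one_iff _).1 hxv.le
    rcases eq_or_ne x 0 with rfl | hx0
    · exact ⟨0, W.zero_mem, by rw [mul_zero]⟩
    · have hxi : x⁻¹ ∉ W := inv_notMem_of_val_lt_one W hx0 hxv
      refine ⟨x * (algebraMap F L (algebraMap R F w))⁻¹, D.mul_inv_mem hxW hxi, ?_⟩
      rw [hRL]
      have := D.φw_ne_zero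
      field_simp
  -- `y ∈ W`
  have hyW : y ∈ W := by
    let ι : R →+* W := (algebraMap R L).codRestrict W.toSubring hRW
    have h1 : IsIntegral W y := by
      have := IsIntegral.map_of_comp_eq (R := R) (S := L) (T := W) (U := L) ι (RingHom.id L)
        (by ext r; rfl) hy
      simpa using this
    obtain ⟨y', hy'⟩ := (IsIntegrallyClosed.isIntegral_iff (R := W) (K := L)).1 h1
    rw [← hy']
    exact y'.2
  obtain ⟨b, hb⟩ := Fermat.Agent.A2.H313.hens_integral (E := E) w hw W hRW hw1 hw2 y hyW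
    (hy.isAlgebraic.extendScalars hinjRE)
  exact ⟨b, hb⟩

end Const

end Fermat.Agent.A2.Alg.H348

end
-- ===== PACK-END A2/Alg/H348/ConstDvr.lean

-- ===== PACK-BEGIN Lib/Newform/H923/TraceALProof.lean
section




/-!
# The leaf `TraceAL` of the NEWFORM library

We package the Atkin–Lehner operator `W_q` on cusp forms of level `q M` (`q ∤ M`) as a linear map,
and prove the frozen interface statement `Fermat.Agent.Lib.Newform.H958.TraceAL`:
`W_q` commutes with all `T_ℓ` (`ℓ ∤ N`) and both `f + U_q (W_q f)` and `W_q f + U_q f` are cusp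
forms of level `N / q`.
-/

set_option autoImplicit false

noncomputable section

namespace Fermat.Agent.Lib.Newform.H923

open Matrix UpperHalfPlane ModularForm CongruenceSubgroup
open scoped MatrixGroups ModularForm OnePoint Manifold Pointwise

theorem IsAL.det_pos {q M : ℕ} (hq : q ≠ 0) {A : GL (Fin 2) ℝ} (hA : IsAL q M A) :
    0 < (A.det : ℝ) := by
  obtain ⟨a, b, c, d, hInt, h⟩ := hA
  rw [hInt.det]
  have : (q * a : ℤ) * (q * d) - b * (q * M * c) = q := by linear_combination (q : ℤ) * h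
  rw [this]
  exact_mod_cast Nat.pos_of_ne_zero hq

theorem IsAL.σ_eq {q M : ℕ} (hq : q ≠ 0) {A : GL (Fin 2) ℝ} (hA : IsAL q M A) :
    UpperHalfPlane.σ A = .refl ℝ ℂ := by
  rw [UpperHalfPlane.σ, if_pos (hA.det_pos hq)]

/-- An Atkin–Lehner matrix normalises `Γ₀(q M)` (one inclusion). -/
theorem IsAL.conj_le {q M : ℕ} {A : GL (Fin 2) ℝ} (hA : IsAL q M A) :
    ConjAct.toConjAct A • (Gamma0 (q * M) : Subgroup (GL (Fin 2) ℝ)) ≤
      (Gamma0 (q * M) : Subgroup (GL (Fin 2) ℝ)) := by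
  intro x hx
  rw [Subgroup.mem_pointwise_smul_iff_inv_smul_mem, ← ConjAct.toConjAct_inv,
    ConjAct.toConjAct_smul, inv_inv] at hx
  obtain ⟨g, hg, hgx⟩ := hx
  obtain ⟨g', hg', h⟩ := hA.exists_eq_mul (hA.mul_mapGL hg)
  refine ⟨g', hg', ?_⟩
  have h1 : A * (A⁻¹ * x * A) = x * A := by group
  rw [← hgx] at h1
  rw [h] at h1
  exact mul_right_cancel h1

theorem IsAL.isCusp_smul {q M : ℕ} {A : GL (Fin 2) ℝ} (hA : IsAL q M A) {c : OnePoint ℝ}
    (hc : IsCusp c (Gamma0 (q * M) : Subgroup (GL (Fin 2) ℝ))) :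
    IsCusp (A • c) (Gamma0 (q * M) : Subgroup (GL (Fin 2) ℝ)) :=
  (hc.smul A).mono hA.conj_le

/-- The Atkin–Lehner operator on cusp forms of level `q M`. -/
def alCusp (k : ℤ) {q M : ℕ} {A : GL (Fin 2) ℝ} (hA : IsAL q M A)
    (f : CuspForm (Gamma0 (q * M)) k) : CuspForm (Gamma0 (q * M)) k where
  toFun := ⇑f ∣[k] A
  slash_action_eq' := slash_AL_invariant (invUnder_of_slashInvariantFormClass f) hA
  holo' := (CuspFormClass.holo f).slash k A
  zero_at_cusps' := fun {c} hc => by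
    rw [← OnePoint.IsZeroAt.smul_iff]
    exact CuspFormClass.zero_at_cusps f (hA.isCusp_smul hc)

@[simp] theorem coe_alCusp (k : ℤ) {q M : ℕ} {A : GL (Fin 2) ℝ} (hA : IsAL q M A)
    (f : CuspForm (Gamma0 (q * M)) k) : ⇑(alCusp k hA f) = ⇑f ∣[k] A := rfl

/-- The Atkin–Lehner operator as a linear map. -/
def alLin (k : ℤ) {q M : ℕ} (hq : q ≠ 0) {A : GL (Fin 2) ℝ} (hA : IsAL q M A) :
    CuspForm (Gamma0 (q * M)) k →ₗ[ℂ] CuspForm (Gamma0 (q * M)) k where
  toFun := alCusp k hA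
  map_add' f g := DFunLike.coe_injective <| by
    rw [coe_alCusp, CuspForm.coe_add, SlashAction.add_slash, CuspForm.coe_add, coe_alCusp,
      coe_alCusp]
  map_smul' c f := DFunLike.coe_injective <| by
    rw [coe_alCusp, CuspForm.IsGLPos.coe_smul, ModularForm.smul_slash, hA.σ_eq hq,
      RingHom.id_apply, CuspForm.IsGLPos.coe_smul, coe_alCusp]
    rfl

@[simp] theorem coe_alLin (k : ℤ) {q M : ℕ} (hq : q ≠ 0) {A : GL (Fin 2) ℝ} (hA : IsAL q M A)
    (f : CuspForm (Gamma0 (q * M)) k) : ⇑(alLin k hq hA f) = ⇑f ∣[k] A := rfl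

/-- Cusps of `Γ₀(M)` are cusps of `Γ₀(N)` (both are all of `ℙ¹(ℚ)`). -/
theorem isCusp_Gamma0_of_isCusp_Gamma0 {M N : ℕ} [NeZero M] [NeZero N] {c : OnePoint ℝ}
    (hc : IsCusp c (Gamma0 M : Subgroup (GL (Fin 2) ℝ))) :
    IsCusp c (Gamma0 N : Subgroup (GL (Fin 2) ℝ)) := by
  rw [Subgroup.IsArithmetic.isCusp_iff_isCusp_SL2Z] at hc ⊢
  exact hc

/-- A function which is a cusp form of level `N` and is invariant under `Γ₀(M)` is a cusp form
of level `M`. -/
def descendCusp (k : ℤ) {M N : ℕ} [NeZero M] [NeZero N] (F : CuspForm (Gamma0 N) k)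
    (hinv : InvUnder M k ⇑F) : CuspForm (Gamma0 M) k where
  toFun := ⇑F
  slash_action_eq' := hinv
  holo' := CuspFormClass.holo F
  zero_at_cusps' := fun {c} hc =>
    CuspFormClass.zero_at_cusps F (isCusp_Gamma0_of_isCusp_Gamma0 hc)

@[simp] theorem coe_descendCusp (k : ℤ) {M N : ℕ} [NeZero M] [NeZero N]
    (F : CuspForm (Gamma0 N) k) (hinv : InvUnder M k ⇑F) :
    ⇑(descendCusp k F hinv) = ⇑F := rfl

/-- The statement `TraceAL` for the level written as `q * M`. -/
theorem traceAL_aux {q M : ℕ} [NeZero (q * M)] (hq : q.Prime) (hqM : ¬ q ∣ M) :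
    ∃ W : CuspForm (Gamma0 (q * M)) 2 →ₗ[ℂ] CuspForm (Gamma0 (q * M)) 2,
      (∀ (ℓ : ℕ) (hℓ : ℓ.Prime) (hℓN : ¬ ℓ ∣ q * M) (f : CuspForm (Gamma0 (q * M)) 2),
        W (CuspForm.heckeTLin 2 hℓ hℓN f) = CuspForm.heckeTLin 2 hℓ hℓN (W f)) ∧
      (∀ f : CuspForm (Gamma0 (q * M)) 2, ∃ g : CuspForm (Gamma0 M) 2,
        (⇑g : UpperHalfPlane → ℂ) = ⇑f + ModularForm.heckeU 2 q ⇑(W f)) ∧
      (∀ f : CuspForm (Gamma0 (q * M)) 2, ∃ g : CuspForm (Gamma0 M) 2,
        (⇑g : UpperHalfPlane → ℂ) = ⇑(W f) + ModularForm.heckeU 2 q ⇑f) := by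
  have hq0 : q ≠ 0 := hq.ne_zero
  have hM0 : M ≠ 0 := fun h => NeZero.ne (q * M) (by rw [h, mul_zero])
  haveI : NeZero M := ⟨hM0⟩
  have hcop : Nat.Coprime q M := (Nat.Prime.coprime_iff_not_dvd hq).mpr hqM
  obtain ⟨A, hA⟩ := exists_isAL hq0 hcop
  have hqN : q ∣ q * M := Dvd.intro _ rfl
  refine ⟨alLin 2 hq0 hA, ?_, ?_, ?_⟩
  · intro ℓ hℓ hℓN f
    apply DFunLike.coe_injective
    rw [coe_alLin, CuspForm.coe_heckeTLin_apply, CuspForm.coe_heckeTLin_apply, coe_alLin]
    exact heckeT_slash_AL 2 hq0 hℓ hℓN (invUnder_of_slashInvariantFormClass f) hA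
  · intro f
    have hinv : InvUnder M 2 ⇑(f + CuspForm.heckeULin 2 hqN (alLin 2 hq0 hA f)) := by
      have h1 := invUnder_slash_AL_add_heckeU 2 hq
        (invUnder_of_slashInvariantFormClass (alLin 2 hq0 hA f)) hA
      rw [coe_alLin, slash_AL_slash_AL hq0 (invUnder_of_slashInvariantFormClass f) hA] at h1
      rw [CuspForm.coe_add, CuspForm.coe_heckeULin_apply, coe_alLin]
      exact h1
    refine ⟨descendCusp 2 _ hinv, ?_⟩
    rw [coe_descendCusp, CuspForm.coe_add, CuspForm.coe_heckeULin_apply]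
  · intro f
    have hinv : InvUnder M 2 ⇑(alLin 2 hq0 hA f + CuspForm.heckeULin 2 hqN f) := by
      have h1 := invUnder_slash_AL_add_heckeU 2 hq (invUnder_of_slashInvariantFormClass f) hA
      rw [CuspForm.coe_add, CuspForm.coe_heckeULin_apply, coe_alLin]
      exact h1
    refine ⟨descendCusp 2 _ hinv, ?_⟩
    rw [coe_descendCusp, CuspForm.coe_add, CuspForm.coe_heckeULin_apply]

/-- **The leaf `TraceAL`.** -/
theorem traceAL : Fermat.Agent.Lib.Newform.H958.TraceAL := by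
  intro N q _ hq hqN hq2
  obtain ⟨M, rfl⟩ := hqN
  have hqM : ¬ q ∣ M := by
    intro h
    apply hq2
    rw [pow_two]
    exact Nat.mul_dvd_mul_left q h
  rw [Nat.mul_div_cancel_left M hq.pos]
  exact traceAL_aux hq hqM

end Fermat.Agent.Lib.Newform.H923

end
end
-- ===== PACK-END Lib/Newform/H923/TraceALProof.lean

-- ===== PACK-BEGIN S35/H433/Cong.lean
section


/-!
# S35 / (G) — congruences in localisations of a chart, normality, patching (helper433)

* `InLoc`-calculus of congruences `x ≡ y mod I B_n` (`InLoc B n I (x - y)`);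
* `exists_res_of_pow` (Lemma N): `B / p` integrally closed, `y ∈ B_p`, `y ^ m ≡ z mod p B_p` with
  `z ∈ B_n` (`p ≤ n`)  ⟹  `y ≡ ρ mod p B_p` for some `ρ ∈ B_n`;
* `exists_patch_smooth`, `exists_patch_node`: elements of `B_n` with prescribed residues on the two
  components.
-/

set_option autoImplicit false

namespace Fermat.Agent.S35.H433

open Fermat.Agent.A2 Fermat.Agent.A2.Alg

variable {R F : Type*} [CommRing R] [Field F] [Algebra R F] {B : Subalgebra R F}

/-! ### congruence calculus -/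

theorem cong_mul {n I : Ideal B} [n.IsPrime] {x y x' y' : F} (hx : InLoc B n ⊤ x)
    (hy' : InLoc B n ⊤ y') (h : InLoc B n I (x - y)) (h' : InLoc B n I (x' - y')) :
    InLoc B n I (x * x' - y * y') := by
  have e : x * x' - y * y' = x * (x' - y') + (x - y) * y' := by ring
  rw [e]
  exact (hx.mul h').add (h.mul' hy')

theorem inLoc_of_cong {n I : Ideal B} [n.IsPrime] {x y : F} (hy : InLoc B n ⊤ y)
    (h : InLoc B n I (x - y)) : InLoc B n ⊤ x := by
  have e : x = y + (x - y) := by ring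
  rw [e]
  exact hy.add h.top

theorem cong_pow {n I : Ideal B} [n.IsPrime] {x y : F} (hx : InLoc B n ⊤ x)
    (hy : InLoc B n ⊤ y) (h : InLoc B n I (x - y)) (k : ℕ) :
    InLoc B n I (x ^ k - y ^ k) := by
  induction k with
  | zero => simpa using inLoc_zero n I
  | succ k ih =>
    rw [pow_succ, pow_succ]
    exact cong_mul (hx.pow k) hy ih h

theorem cong_symm {n I : Ideal B} {x y : F} (h : InLoc B n I (x - y)) : InLoc B n I (y - x) := by
  have := h.neg
  rwa [neg_sub] at this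

theorem cong_trans {n I : Ideal B} [n.IsPrime] {x y z : F} (h : InLoc B n I (x - y))
    (h' : InLoc B n I (y - z)) : InLoc B n I (x - z) := by
  have e : x - z = (x - y) + (y - z) := by ring
  rw [e]
  exact h.add h'

/-- `1 ∉ n B_n`. -/
theorem not_inLoc_one {n : Ideal B} : ¬ InLoc B n n (1 : F) := by
  rintro ⟨a, b, ha, hb, hab⟩
  rw [one_mul] at hab
  have : b = a := Subtype.ext hab
  exact hb (this ▸ ha)

/-- A unit of `B_n` is not in `n B_n`. -/
theorem not_inLoc_of_locUnit {n : Ideal B} [hn : n.IsPrime] {x : F} (hx : LocUnit B n x) :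
    ¬ InLoc B n n x := by
  intro h
  obtain ⟨hx0, -, hxi⟩ := locUnit_iff.1 hx
  have := h.mul' hxi
  rw [mul_inv_cancel₀ hx0] at this
  exact not_inLoc_one this

/-- `x ∈ B_n ∖ n B_n` is a unit of `B_n`. -/
theorem locUnit_of_not_inLoc {n : Ideal B} [hn : n.IsPrime] {x : F} (hx : InLoc B n ⊤ x)
    (hnx : ¬ InLoc B n n x) : LocUnit B n x := by
  have hx0 : x ≠ 0 := by
    rintro rfl
    exact hnx (inLoc_zero n n)
  exact locUnit_iff.2 ⟨hx0, hx, inLoc_inv_of_not hx hnx⟩

/-- Units are stable under congruence modulo `n B_n`. -/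
theorem locUnit_of_cong {n : Ideal B} [hn : n.IsPrime] {x y : F} (hy : LocUnit B n y)
    (h : InLoc B n n (x - y)) : LocUnit B n x := by
  have hy' := (locUnit_iff.1 hy).2.1
  refine locUnit_of_not_inLoc (inLoc_of_cong hy' h) ?_
  intro hx
  apply not_inLoc_of_locUnit hy
  have e : y = x - (x - y) := by ring
  rw [e]
  exact hx.sub h

theorem locUnit_mul {n : Ideal B} [hn : n.IsPrime] {x y : F} (hx : LocUnit B n x)
    (hy : LocUnit B n y) : LocUnit B n (x * y) := by
  obtain ⟨hx0, hx1, hx2⟩ := locUnit_iff.1 hx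
  obtain ⟨hy0, hy1, hy2⟩ := locUnit_iff.1 hy
  refine locUnit_iff.2 ⟨mul_ne_zero hx0 hy0, hx1.mul hy1, ?_⟩
  rw [mul_inv]
  exact hx2.mul hy2

theorem locUnit_inv {n : Ideal B} [hn : n.IsPrime] {x : F} (hx : LocUnit B n x) :
    LocUnit B n x⁻¹ := by
  obtain ⟨hx0, hx1, hx2⟩ := locUnit_iff.1 hx
  refine locUnit_iff.2 ⟨inv_ne_zero hx0, hx2, ?_⟩
  rwa [inv_inv]

theorem locUnit_one (n : Ideal B) [hn : n.IsPrime] : LocUnit B n (1 : F) :=
  locUnit_iff.2 ⟨one_ne_zero, inLoc_one n, by rw [inv_one]; exact inLoc_one n⟩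

theorem locUnit_pow {n : Ideal B} [hn : n.IsPrime] {x : F} (hx : LocUnit B n x) (k : ℕ) :
    LocUnit B n (x ^ k) := by
  induction k with
  | zero => rw [pow_zero]; exact locUnit_one n
  | succ k ih => rw [pow_succ]; exact locUnit_mul ih hx

theorem LocUnit_anti {n p : Ideal B} (hpn : p ≤ n) {x : F} (hx : LocUnit B n x) :
    LocUnit B p x := by
  obtain ⟨a, b, ha, hb, hab⟩ := hx
  exact ⟨a, b, fun h => ha (hpn h), fun h => hb (hpn h), hab⟩

/-- Inverses of congruent units are congruent. -/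
theorem cong_inv {n I : Ideal B} [hn : n.IsPrime] {x y : F} (hx : LocUnit B n x)
    (hy : LocUnit B n y) (h : InLoc B n I (x - y)) : InLoc B n I (x⁻¹ - y⁻¹) := by
  obtain ⟨hx0, -, hx2⟩ := locUnit_iff.1 hx
  obtain ⟨hy0, -, hy2⟩ := locUnit_iff.1 hy
  have e : x⁻¹ - y⁻¹ = x⁻¹ * ((y - x) * y⁻¹) := by
    field_simp
  rw [e]
  exact hx2.mul ((cong_symm h).mul' hy2)

/-! ### Lemma D: glueing the two components -/

/-- `z ∈ B_n`, `z ≡ 1` on both components  ⟹  `z ∈ 1 + (p₁ ∩ p₂) B_n`. -/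
theorem inLoc_inf_of_oneAt {n p₁ p₂ : Ideal B} [hp₁ : p₁.IsPrime] [hp₂ : p₂.IsPrime] {z : F}
    (hz : InLoc B n ⊤ z) (h₁ : InLoc B p₁ p₁ (z - 1)) (h₂ : InLoc B p₂ p₂ (z - 1)) :
    InLoc B n (p₁ ⊓ p₂) (z - 1) := by
  obtain ⟨a, b, -, hb, hab⟩ := hz
  have key : ∀ (p : Ideal B), p.IsPrime → InLoc B p p (z - 1) → a - b ∈ p := by
    rintro p hp ⟨a', b', ha', hb', hab'⟩
    have h1 : (a - b) * b' = a' * b := by
      apply Subtype.ext
      push_cast
      rw [← hab, ← hab']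
      ring
    have h2 : (a - b) * b' ∈ p := by
      rw [h1]
      exact p.mul_mem_right _ ha'
    exact (hp.mem_or_mem h2).resolve_right hb'
  refine ⟨a - b, b, ⟨key p₁ hp₁ h₁, key p₂ hp₂ h₂⟩, hb, ?_⟩
  push_cast
  rw [← hab]
  ring

/-! ### Lemma N: normality of the components -/

/-- Abstract core of Lemma N: in a ring `A` with `A / p` an integrally closed domain,
`a ^ m e₂ ≡ e₁ b ^ m mod p`, `b ∉ p`, `0 < m`  ⟹  `e₂ a ≡ g b mod p` for some `g`. -/
theorem exists_root_mod {A : Type*} [CommRing A] (p : Ideal A) [hp : p.IsPrime]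
    (hnorm : IsIntegrallyClosed (A ⧸ p)) {m : ℕ} (hm : 0 < m) {a b e₁ e₂ : A} (hb : b ∉ p)
    (hkey : a ^ m * e₂ - e₁ * b ^ m ∈ p) : ∃ g : A, e₂ * a - g * b ∈ p := by
  let K := FractionRing (A ⧸ p)
  let ι : A →+* K := (algebraMap (A ⧸ p) K).comp (Ideal.Quotient.mk p)
  have hι : ∀ t : A, ι t = 0 ↔ t ∈ p := by
    intro t
    show algebraMap (A ⧸ p) K (Ideal.Quotient.mk p t) = 0 ↔ _
    rw [map_eq_zero_iff _ (IsFractionRing.injective (A ⧸ p) K), Ideal.Quotient.eq_zero_iff_mem]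
  have hιb : ι b ≠ 0 := fun h' => hb ((hι b).1 h')
  have hkey' : ι a ^ m * ι e₂ = ι e₁ * ι b ^ m := by
    have := (hι _).2 hkey
    rw [map_sub, map_mul, map_mul, map_pow, map_pow, sub_eq_zero] at this
    exact this
  set Y : K := ι (e₂ * a) / ι b with hY
  have hYm : Y ^ m = ι (e₂ ^ (m - 1) * e₁) := by
    obtain ⟨k, rfl⟩ : ∃ k, m = k + 1 := ⟨m - 1, by omega⟩
    rw [hY, div_pow, map_mul, mul_pow, Nat.add_sub_cancel, map_mul, map_pow]
    rw [div_eq_iff (pow_ne_zero _ hιb)]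
    calc ι e₂ ^ (k + 1) * ι a ^ (k + 1) = ι e₂ ^ k * (ι a ^ (k + 1) * ι e₂) := by ring
      _ = ι e₂ ^ k * (ι e₁ * ι b ^ (k + 1)) := by rw [hkey']
      _ = ι e₂ ^ k * ι e₁ * ι b ^ (k + 1) := by ring
  have hint : IsIntegral (A ⧸ p) Y := by
    refine ⟨Polynomial.X ^ m - Polynomial.C (Ideal.Quotient.mk p (e₂ ^ (m - 1) * e₁)),
      Polynomial.monic_X_pow_sub_C _ hm.ne', ?_⟩
    rw [Polynomial.eval₂_sub, Polynomial.eval₂_pow, Polynomial.eval₂_X, Polynomial.eval₂_C]
    show Y ^ m - ι (e₂ ^ (m - 1) * e₁) = 0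
    rw [hYm, sub_self]
  obtain ⟨gbar, hg⟩ := IsIntegrallyClosed.isIntegral_iff.1 hint
  obtain ⟨g, rfl⟩ := Ideal.Quotient.mk_surjective gbar
  have hg' : ι g * ι b = ι (e₂ * a) := by
    have : ι g = Y := hg
    rw [this, hY, div_mul_cancel₀ _ hιb]
  refine ⟨g, ?_⟩
  rw [← hι, map_sub, sub_eq_zero, ← hg', map_mul]

/-- **Lemma N.**  `B / p` integrally closed, `p ≤ n`, `y ∈ B_p` with `y ^ m ≡ z mod p B_p`,
`z ∈ B_n`, `0 < m`  ⟹  `y ≡ ρ mod p B_p` for some `ρ ∈ B_n`. -/
theorem exists_res_of_pow {n p : Ideal B} [hp : p.IsPrime] (hpn : p ≤ n)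
    (hnorm : IsIntegrallyClosed (B ⧸ p)) {m : ℕ} (hm : 0 < m) {y z : F}
    (hy : InLoc B p ⊤ y) (hz : InLoc B n ⊤ z) (h : InLoc B p p (y ^ m - z)) :
    ∃ ρ : F, InLoc B n ⊤ ρ ∧ InLoc B p p (y - ρ) := by
  obtain ⟨a, b, -, hb, hab⟩ := hy
  obtain ⟨e₁, e₂, -, he₂, he⟩ := hz
  obtain ⟨a₃, b₃, ha₃, hb₃, h₃⟩ := h
  have he₂p : e₂ ∉ p := fun h' => he₂ (hpn h')
  have hb0 : (b : F) ≠ 0 := coe_ne_zero_of_not_mem hb
  have he0 : (e₂ : F) ≠ 0 := coe_ne_zero_of_not_mem he₂
  -- the key congruence in `B`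
  have hkey : a ^ m * e₂ - e₁ * b ^ m ∈ p := by
    have h1 : (a ^ m * e₂ - e₁ * b ^ m) * b₃ = a₃ * (b ^ m * e₂) := by
      apply Subtype.ext
      push_cast
      rw [← h₃, ← hab, ← he]
      ring
    have h2 : (a ^ m * e₂ - e₁ * b ^ m) * b₃ ∈ p := by
      rw [h1]
      exact p.mul_mem_right _ ha₃
    exact (hp.mem_or_mem h2).resolve_right hb₃
  obtain ⟨g, hgp⟩ := exists_root_mod p hnorm hm hb hkey
  refine ⟨(g : F) / e₂, ⟨g, e₂, trivial, he₂, by field_simp⟩,
    ⟨e₂ * a - g * b, b * e₂, hgp, fun h' => (hp.mem_or_mem h').elim hb he₂p, ?_⟩⟩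
  push_cast
  rw [← hab]
  field_simp

/-! ### patching -/

/-- **Patching at a smooth point**: `p₁ ≤ n`, `p₂ ⊄ n`, `p₁ ⊄ p₂`. -/
theorem exists_patch_smooth {n p₁ p₂ : Ideal B} [hn : n.IsPrime] [hp₁ : p₁.IsPrime]
    [hp₂ : p₂.IsPrime] (h1n : p₁ ≤ n) (h2n : ¬ p₂ ≤ n) (h12 : ¬ p₁ ≤ p₂) {ρ₁ ρ₂ : F}
    (hρ₁ : InLoc B n ⊤ ρ₁) (hρ₂ : InLoc B p₂ ⊤ ρ₂) :
    ∃ η : F, InLoc B n ⊤ η ∧ InLoc B p₁ p₁ (η - ρ₁) ∧ InLoc B p₂ p₂ (η - ρ₂) := by
  obtain ⟨a₁, b₁, -, hb₁, hab₁⟩ := hρ₁
  obtain ⟨a₂, b₂, -, hb₂, hab₂⟩ := hρ₂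
  obtain ⟨t, ht2, htn⟩ := SetLike.not_le_iff_exists.1 h2n
  obtain ⟨s, hs1, hs2⟩ := SetLike.not_le_iff_exists.1 h12
  have hb₁p : b₁ ∉ p₁ := fun h => hb₁ (h1n h)
  have hD : t * b₁ + s * b₂ ∉ n := by
    intro h
    have h1 : t * b₁ ∈ n := by
      have : t * b₁ = (t * b₁ + s * b₂) - s * b₂ := by ring
      rw [this]
      exact n.sub_mem h (n.mul_mem_right _ (h1n hs1))
    exact (hn.mem_or_mem h1).elim htn hb₁
  have hD1 : t * b₁ + s * b₂ ∉ p₁ := fun h => hD (h1n h)
  have hD2 : t * b₁ + s * b₂ ∉ p₂ := by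
    intro h
    have h1 : s * b₂ ∈ p₂ := by
      have : s * b₂ = (t * b₁ + s * b₂) - t * b₁ := by ring
      rw [this]
      exact p₂.sub_mem h (p₂.mul_mem_right _ ht2)
    exact (hp₂.mem_or_mem h1).elim hs2 hb₂
  have hD0 : ((t * b₁ + s * b₂ : B) : F) ≠ 0 := coe_ne_zero_of_not_mem hD
  have hb₁0 : (b₁ : F) ≠ 0 := coe_ne_zero_of_not_mem hb₁
  have hb₂0 : (b₂ : F) ≠ 0 := coe_ne_zero_of_not_mem hb₂
  have hρ₁e : ρ₁ = (a₁ : F) / b₁ := by field_simp; exact hab₁
  have hρ₂e : ρ₂ = (a₂ : F) / b₂ := by field_simp; exact hab₂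
  refine ⟨((t * a₁ + s * a₂ : B) : F) / ((t * b₁ + s * b₂ : B) : F),
    ⟨t * a₁ + s * a₂, t * b₁ + s * b₂, trivial, hD, by field_simp⟩,
    ⟨s * (a₂ * b₁ - a₁ * b₂), (t * b₁ + s * b₂) * b₁, p₁.mul_mem_right _ hs1,
      fun h => (hp₁.mem_or_mem h).elim hD1 hb₁p, ?_⟩,
    ⟨t * (a₁ * b₂ - a₂ * b₁), (t * b₁ + s * b₂) * b₂, p₂.mul_mem_right _ ht2,
      fun h => (hp₂.mem_or_mem h).elim hD2 hb₂, ?_⟩⟩
  · rw [hρ₁e]
    push_cast at hD0 ⊢
    field_simp
    ring
  · rw [hρ₂e]
    push_cast at hD0 ⊢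
    field_simp
    ring

/-- **Patching at a crossing point**: residues agreeing modulo `(p₁ + p₂) B_n`. -/
theorem exists_patch_node {n p₁ p₂ : Ideal B} [hn : n.IsPrime] (h1n : p₁ ≤ n) (h2n : p₂ ≤ n)
    {ρ₁ ρ₂ : F} (hρ₁ : InLoc B n ⊤ ρ₁) (h : InLoc B n (p₁ ⊔ p₂) (ρ₁ - ρ₂)) :
    ∃ η : F, InLoc B n ⊤ η ∧ InLoc B p₁ p₁ (η - ρ₁) ∧ InLoc B p₂ p₂ (η - ρ₂) := by
  obtain ⟨π₁, π₂, hπ₁, hπ₂, e⟩ := h.exists_add
  refine ⟨ρ₁ - π₁, hρ₁.sub hπ₁.top, ?_, ?_⟩
  · have : ρ₁ - π₁ - ρ₁ = -π₁ := by ring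
    rw [this]
    exact (hπ₁.anti h1n).neg
  · have : ρ₁ - π₁ - ρ₂ = π₂ := by rw [sub_right_comm, e]; ring
    rw [this]
    exact hπ₂.anti h2n

end Fermat.Agent.S35.H433

end
-- ===== PACK-END S35/H433/Cong.lean

-- ===== PACK-BEGIN S25/H146/Eval.lean
section
/-
S25 helper (helper146), assembly AS6, part 1: the EVALUATION MORPHISM of a rigidified module.

For `σ : T ⟶ X` and a module `L` on `X`, a morphism `ρ : σ^* L ⟶ 𝒪_T` is the same as a morphism
`e : L ⟶ σ_* 𝒪_T` (adjunction); the latter is explicit on sections: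
`e.app W : Γ(L, W) → Γ(T, σ⁻¹ W)`.  If `ρ` is an isomorphism, then `e` has the universal property
`IsRigidification` (every `L ⟶ σ_* N` factors through `e`), and `e` sends local generators of `L`
to units (`isUnit_evalSec`).
-/




set_option autoImplicit false

universe u

noncomputable section

open CategoryTheory AlgebraicGeometry TopologicalSpace Opposite

namespace Fermat.Agent.S25.H146

open Fermat.Agent.S25.H626

variable {X T : Scheme.{u}} (σ : T ⟶ X)

/-- The target of evaluation morphisms: `σ_* 𝒪_T`. -/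
abbrev pushUnit : X.Modules := (Scheme.Modules.pushforward σ).obj (unitMod T)

/-- The evaluation morphism `L ⟶ σ_* 𝒪_T` attached to `ρ : σ^* L ⟶ 𝒪_T`. -/
def evalHom {L : X.Modules} (ρ : (Scheme.Modules.pullback σ).obj L ⟶ unitMod T) :
    L ⟶ pushUnit σ :=
  (Scheme.Modules.pullbackPushforwardAdjunction σ).homEquiv _ _ ρ

variable {σ}

/-- The value of an evaluation morphism on a section, as a function on `σ⁻¹ W`. -/
def evalSec {L : X.Modules} (e : L ⟶ pushUnit σ) (W : X.Opens) (s : Γ(L, W)) :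
    Γ(T, σ ⁻¹ᵁ W) :=
  e.app W s

theorem evalSec_add {L : X.Modules} (e : L ⟶ pushUnit σ) (W : X.Opens) (s s' : Γ(L, W)) :
    evalSec e W (s + s') = evalSec e W s + evalSec e W s' :=
  map_add _ s s'

theorem evalSec_smul {L : X.Modules} (e : L ⟶ pushUnit σ) (W : X.Opens) (r : Γ(X, W))
    (s : Γ(L, W)) : evalSec e W (r • s) = σ.app W r * evalSec e W s := by
  have h := Scheme.Modules.Hom.app_smul e (U := W) r s
  exact h

theorem evalSec_res {L : X.Modules} (e : L ⟶ pushUnit σ) {W W' : X.Opens} (h : W' ≤ W)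
    (s : Γ(L, W)) :
    evalSec e W' (res L h s) = resO (σ.preimage_mono h) (evalSec e W s) := by
  have := app_res e h s
  exact this

/-- **Universal property** of an evaluation morphism coming from an isomorphism
`σ^* L ≅ 𝒪_T`: every morphism `L ⟶ σ_* N` factors through `e`. -/
def IsRigidification {L : X.Modules} (e : L ⟶ pushUnit σ) : Prop :=
  ∀ (N : T.Modules) (h : L ⟶ (Scheme.Modules.pushforward σ).obj N),
    ∃ m : unitMod T ⟶ N, e ≫ (Scheme.Modules.pushforward σ).map m = h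

theorem isRigidification_evalHom {L : X.Modules}
    (ρ : (Scheme.Modules.pullback σ).obj L ≅ unitMod T) :
    IsRigidification (evalHom σ ρ.hom) := by
  intro N h
  refine ⟨ρ.inv ≫ ((Scheme.Modules.pullbackPushforwardAdjunction σ).homEquiv _ _).symm h, ?_⟩
  unfold evalHom
  rw [← Adjunction.homEquiv_naturality_right, Iso.hom_inv_id_assoc, Equiv.apply_symm_apply]

section TrivForm

variable (σ) (W : X.Opens)

/-- The canonical morphism `𝒪_W ⟶ (σ|_W)_* 𝒪_{σ⁻¹W}`. -/
def unitToPush : unitMod W.toScheme ⟶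
    (Scheme.Modules.pushforward (σ ∣_ W)).obj (unitMod (σ ⁻¹ᵁ W).toScheme) :=
  SheafOfModules.unitToPushforwardObjUnit (σ ∣_ W).toRingCatSheafHom

/-- The module `N = j'_* 𝒪_{σ⁻¹W}` on `T`. -/
abbrev pushOpen : T.Modules :=
  (Scheme.Modules.pushforward (σ ⁻¹ᵁ W).ι).obj (unitMod (σ ⁻¹ᵁ W).toScheme)

/-- `j_* (σ|_W)_* 𝒪 ≅ σ_* j'_* 𝒪`. -/
def pushSquareIso :
    (Scheme.Modules.pushforward W.ι).obj
      ((Scheme.Modules.pushforward (σ ∣_ W)).obj (unitMod (σ ⁻¹ᵁ W).toScheme)) ≅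
    (Scheme.Modules.pushforward σ).obj (pushOpen σ W) :=
  (Scheme.Modules.pushforwardComp (σ ∣_ W) W.ι).app _ ≪≫
    (Scheme.Modules.pushforwardCongr (morphismRestrict_ι σ W)).app _ ≪≫
    ((Scheme.Modules.pushforwardComp (σ ⁻¹ᵁ W).ι σ).app _).symm

variable {σ W}
variable {L : X.Modules} (g : L.restrict W.ι ≅ unitMod W.toScheme)

/-- The test morphism `L ⟶ σ_* N`. -/
def testHom : L ⟶ (Scheme.Modules.pushforward σ).obj (pushOpen σ W) :=
  (Scheme.Modules.restrictAdjunction W.ι).homEquiv _ _ (g.hom ≫ unitToPush σ W) ≫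
    (pushSquareIso σ W).hom

theorem testHom_app_genX :
    (testHom g).app (W.ι ''ᵁ ⊤) (genX W.ι L g ⊤) = (1 : Γ((σ ⁻¹ᵁ W).toScheme, _)) := by
  unfold testHom pushSquareIso
  rw [Adjunction.homEquiv_unit]
  simp only [Scheme.Modules.Hom.comp_app, Iso.trans_hom, Iso.app_hom, Iso.symm_hom, Iso.app_inv,
    Scheme.Modules.pushforwardComp_hom_app_app, Scheme.Modules.pushforwardComp_inv_app_app,
    Scheme.Modules.pushforwardCongr_hom_app_app, Scheme.Modules.pushforward_map_app,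
    Scheme.Modules.restrictAdjunction_unit_app_app]
  have h1 : L.presheaf.map (homOfLE (W.ι.image_preimage_le (W.ι ''ᵁ ⊤))).op (genX W.ι L g ⊤) =
      genX W.ι L g (W.ι ⁻¹ᵁ W.ι ''ᵁ ⊤) :=
    res_genX W.ι L g (le_top : W.ι ⁻¹ᵁ W.ι ''ᵁ ⊤ ≤ ⊤)
  have h2 : g.hom.app (W.ι ⁻¹ᵁ W.ι ''ᵁ ⊤) (genX W.ι L g (W.ι ⁻¹ᵁ W.ι ''ᵁ ⊤)) =
      toUnit _ _ 1 := app_hom_inv_apply g _ _
  have h3 : (unitToPush σ W).app (W.ι ⁻¹ᵁ W.ι ''ᵁ ⊤) (toUnit _ _ 1) =
      (1 : Γ((σ ⁻¹ᵁ W).toScheme, (σ ∣_ W) ⁻¹ᵁ (W.ι ⁻¹ᵁ W.ι ''ᵁ ⊤))) := by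
    change (σ ∣_ W).app (W.ι ⁻¹ᵁ W.ι ''ᵁ ⊤) 1 = 1
    exact map_one _
  change ((unitMod (σ ⁻¹ᵁ W).toScheme).presheaf.map (eqToHom _).op)
    (((unitToPush σ W).app (W.ι ⁻¹ᵁ W.ι ''ᵁ ⊤)) ((g.hom.app (W.ι ⁻¹ᵁ W.ι ''ᵁ ⊤))
      ((L.presheaf.map (homOfLE (W.ι.image_preimage_le (W.ι ''ᵁ ⊤))).op) (genX W.ι L g ⊤)))) =
      toUnit _ _ 1
  rw [h1, h2, h3]
  change (σ ⁻¹ᵁ W).toScheme.presheaf.map _ 1 = 1
  exact map_one _

theorem isUnit_evalSec_genX {e : L ⟶ pushUnit σ} (hE : IsRigidification e) :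
    IsUnit (evalSec e (W.ι ''ᵁ ⊤) (genX W.ι L g ⊤)) := by
  obtain ⟨m, hm⟩ := hE (pushOpen σ W) (testHom g)
  have h := congrArg (fun φ => φ.app (W.ι ''ᵁ ⊤) (genX W.ι L g ⊤)) hm
  simp only at h
  rw [testHom_app_genX] at h
  set V : T.Opens := σ ⁻¹ᵁ (W.ι ''ᵁ ⊤) with hV
  set E : Γ(T, V) := evalSec e (W.ι ''ᵁ ⊤) (genX W.ι L g ⊤) with hEdef
  have hVle : V ≤ (σ ⁻¹ᵁ W).ι.opensRange := by
    rw [Scheme.Opens.opensRange_ι, hV, Scheme.Opens.ι_image_top]
  -- the value of `m` on `E`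
  have h1 : m.app V (toUnit T V E) = m.app V (E • toUnit T V 1) := by
    rw [smul_toUnit_one]
  have h2 : m.app V (E • toUnit T V 1) = E • m.app V (toUnit T V 1) :=
    Scheme.Modules.Hom.app_smul m E _
  have h3 : (E • m.app V (toUnit T V 1) : Γ(pushOpen σ W, V)) =
      (show Γ((σ ⁻¹ᵁ W).toScheme, (σ ⁻¹ᵁ W).ι ⁻¹ᵁ V) from
        ((σ ⁻¹ᵁ W).ι.app V E) *
          (show Γ((σ ⁻¹ᵁ W).toScheme, (σ ⁻¹ᵁ W).ι ⁻¹ᵁ V) from m.app V (toUnit T V 1))) := rfl
  have h4 : (e ≫ (Scheme.Modules.pushforward σ).map m).app (W.ι ''ᵁ ⊤) (genX W.ι L g ⊤) =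
      m.app V (toUnit T V E) := rfl
  rw [h4, h1, h2, h3] at h
  have hu : IsUnit ((σ ⁻¹ᵁ W).ι.app V E) := IsUnit.of_mul_eq_one _ h
  have hiso : IsIso ((σ ⁻¹ᵁ W).ι.app V) := Scheme.Hom.isIso_app _ V hVle
  have hbij := (ConcreteCategory.isIso_iff_bijective _).mp hiso
  have := hu.map (inv ((σ ⁻¹ᵁ W).ι.app V)).hom
  rwa [← ConcreteCategory.comp_apply, IsIso.hom_inv_id] at this

end TrivForm


/-! ## Local generators -/

section LocalGenerators

variable {L : X.Modules}

theorem isLocalGenerator_res {W W' : X.Opens} {s : Γ(L, W)} (hs : IsLocalGenerator L W s)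
    (h : W' ≤ W) : IsLocalGenerator L W' (res L h s) := by
  intro V hV
  have := hs V (hV.trans h)
  simpa only [res_res] using this

theorem bijective_smul_of_isLocalGenerator {W : X.Opens} {s : Γ(L, W)}
    (hs : IsLocalGenerator L W s) : Function.Bijective (fun r : Γ(X, W) => r • s) := by
  have := hs W le_rfl
  simpa only [res_id] using this

/-- The ratio of two local generators is a unit. -/
theorem isUnit_of_smul_eq_of_isLocalGenerator {W : X.Opens} {s s' : Γ(L, W)}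
    (hs : IsLocalGenerator L W s) (hs' : IsLocalGenerator L W s') {r : Γ(X, W)}
    (hr : r • s = s') : IsUnit r := by
  obtain ⟨r', hr'⟩ := (bijective_smul_of_isLocalGenerator hs').2 s
  simp only at hr'
  have h1 : (r' * r) • s = (1 : Γ(X, W)) • s := by
    rw [mul_smul, hr, hr', one_smul]
  have h2 : r' * r = 1 := (bijective_smul_of_isLocalGenerator hs).1 h1
  exact IsUnit.of_mul_eq_one_right r' h2

end LocalGenerators

/-! ## Units are local -/

theorem isUnit_of_locally_isUnit (Y : Scheme.{u}) (V : Y.Opens) (f : Γ(Y, V))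
    (h : ∀ x ∈ V, ∃ (V' : Y.Opens) (hle : V' ≤ V), x ∈ V' ∧ IsUnit (resO hle f)) : IsUnit f := by
  apply RingedSpace.isUnit_of_isUnit_germ Y.toRingedSpace V f
  intro x hx
  obtain ⟨V', hle, hxV', hu⟩ := h x hx
  have h1 : Y.presheaf.germ V' x hxV' (resO hle f) = Y.presheaf.germ V x hx f :=
    Y.presheaf.germ_res_apply (homOfLE hle) x hxV' f
  have h2 := hu.map (Y.presheaf.germ V' x hxV').hom
  rw [← h1]
  exact h2

/-! ## Evaluation sends local generators to units -/

/-- **Claim A.** For an invertible module `L` and a rigidification `e : L ⟶ σ_* 𝒪_T`,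
the value of `e` on a local generator is a unit. -/
theorem isUnit_evalSec {L : X.Modules} (hL : Scheme.Modules.IsInvertible L)
    {e : L ⟶ pushUnit σ} (hE : IsRigidification e) {W : X.Opens} {s : Γ(L, W)}
    (hs : IsLocalGenerator L W s) : IsUnit (evalSec e W s) := by
  apply isUnit_of_locally_isUnit
  intro x hx
  obtain ⟨U, hxU, ⟨iso⟩⟩ := hL.exists_trivialization (σ x)
  let g : L.restrict U.ι ≅ unitMod U.toScheme :=
    (Scheme.Modules.restrictFunctorIsoPullback U.ι).app L ≪≫ iso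
  have hU₀ : U.ι ''ᵁ ⊤ = U := Scheme.Opens.ι_image_top U
  have hs₀ : IsLocalGenerator L (U.ι ''ᵁ ⊤) (genX U.ι L g ⊤) := isLocalGenerator_genX U.ι L g
  have hu₀ : IsUnit (evalSec e (U.ι ''ᵁ ⊤) (genX U.ι L g ⊤)) := isUnit_evalSec_genX g hE
  have hxU₀ : σ x ∈ U.ι ''ᵁ ⊤ := by rw [hU₀]; exact hxU
  have hsW' := isLocalGenerator_res hs (inf_le_left : W ⊓ U.ι ''ᵁ ⊤ ≤ W)
  have hs₀W' := isLocalGenerator_res hs₀ (inf_le_right : W ⊓ U.ι ''ᵁ ⊤ ≤ U.ι ''ᵁ ⊤)
  obtain ⟨r, hr⟩ := (bijective_smul_of_isLocalGenerator hs₀W').2 (res L inf_le_left s)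
  simp only at hr
  have hru : IsUnit r := isUnit_of_smul_eq_of_isLocalGenerator hs₀W' hsW' hr
  refine ⟨σ ⁻¹ᵁ (W ⊓ U.ι ''ᵁ ⊤), σ.preimage_mono inf_le_left, ⟨hx, hxU₀⟩, ?_⟩
  rw [← evalSec_res e inf_le_left s, ← hr, evalSec_smul, evalSec_res e inf_le_right]
  exact (hru.map (σ.app _).hom).mul (hu₀.map (T.presheaf.map _).hom)

end Fermat.Agent.S25.H146

end
end
-- ===== PACK-END S25/H146/Eval.lean

-- ===== PACK-BEGIN S25/H507/ChartFibre.lean
section


set_option autoImplicit false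

universe u

open AlgebraicGeometry CategoryTheory TopologicalSpace Opposite

namespace Fermat.Agent.S25.H507

section Line

variable {k : Type u} [Field k] {Y : Scheme.{u}}

lemma toLine_appTop (g : Y ⟶ Spec (CommRingCat.of k)) (x : Γ(Y, ⊤)) (p : Polynomial k) :
    (toLine g x).appTop ((Scheme.ΓSpecIso (CommRingCat.of (Polynomial k))).inv p) =
      lineRingHom g x p := by
  simp only [toLine, Scheme.Hom.comp_appTop, Scheme.toSpecΓ_appTop,
    Scheme.ΓSpecIso_naturality]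
  simp

instance lineStr_locallyOfFiniteType : LocallyOfFiniteType (lineStr k) := by
  rw [lineStr, HasRingHomProperty.Spec_iff (P := @LocallyOfFiniteType)]
  have h : (CommRingCat.ofHom (Polynomial.C : k →+* Polynomial k)).hom =
      algebraMap k (Polynomial k) := rfl
  rw [h, RingHom.finiteType_algebraMap]
  infer_instance

lemma mem_preimage_basicOpen_toLine (g : Y ⟶ Spec (CommRingCat.of k)) (x : Γ(Y, ⊤))
    (p : Polynomial k) (z : Y) :
    p ∉ PrimeSpectrum.asIdeal (toLine g x z) ↔ z ∈ Y.basicOpen (lineRingHom g x p) := by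
  rw [← toLine_appTop, ← Scheme.preimage_basicOpen_top, basicOpen_eq_of_affine]
  rfl

/-- The image of a `k`-rational closed point under a `k`-morphism to the affine line is closed. -/
lemma isClosed_singleton_apply_of_section [IsAlgClosed k] (φ : Y ⟶ Spec (CommRingCat.of (Polynomial k)))
    (σ : Spec (CommRingCat.of k) ⟶ Y) (hσ : σ ≫ φ ≫ lineStr k = 𝟙 _) :
    IsClosed ({φ (σ (IsLocalRing.closedPoint k))} : Set (Spec (CommRingCat.of (Polynomial k)))) := by
  have h := ((pointEquivClosedPoint (lineStr k)) ⟨σ ≫ φ, by rw [Category.assoc]; exact hσ⟩).2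
  exact h

end Line

variable {k : Type u} [Field k] {X : Scheme.{u}} [IsIntegral X] (c : X ⟶ Spec (CommRingCat.of k))

/-- The generic point, as a point of the regular locus. -/
noncomputable def regGeneric (t : X.functionField) : (regOpen X t).toScheme :=
  ⟨genericPoint X, genericPoint_mem_regOpen X t⟩

instance nonempty_regOpen (t : X.functionField) : Nonempty (regOpen X t) :=
  ⟨regGeneric t⟩

lemma regGeneric_eq (t : X.functionField) :
    regGeneric t = genericPoint (regOpen X t).toScheme := by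
  apply (regOpen X t).ι.isOpenEmbedding.injective
  rw [genericPoint_eq_of_isOpenImmersion]
  rfl

lemma genericPoint_mem_basicOpen_iff {Y : Scheme.{u}} [IsIntegral Y] (s : Γ(Y, ⊤)) :
    genericPoint Y ∈ Y.basicOpen s ↔ s ≠ 0 := by
  rw [Scheme.mem_basicOpen_top]
  constructor
  · rintro h rfl
    rw [map_zero] at h
    exact not_isUnit_zero h
  · intro h
    have hinj := germ_injective_of_isIntegral Y (genericPoint Y) (U := ⊤) trivial
    have : Y.presheaf.germ ⊤ (genericPoint Y) trivial s ≠ 0 := by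
      intro h0
      apply h
      apply hinj
      rw [h0, map_zero]
    exact (isUnit_iff_ne_zero (G₀ := Y.functionField)).mpr this

/-- The generic point does not map to a closed point under a chart given by a transcendental
function. -/
lemma not_isClosed_chartHom_regGeneric (t : X.functionField)
    (hinj : Function.Injective
      (lineRingHom ((regOpen X t).ι ≫ c) ((regOpen X t).topIso.inv (regSection X t)))) :
    ¬ IsClosed ({chartHom c t (regGeneric t)} :
      Set (Spec (CommRingCat.of (Polynomial k)))) := by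
  intro hcl
  have hmax : (PrimeSpectrum.asIdeal (chartHom c t (regGeneric t))).IsMaximal :=
    (PrimeSpectrum.isClosed_singleton_iff_isMaximal _).mp hcl
  have hne : PrimeSpectrum.asIdeal (chartHom c t (regGeneric t)) ≠ ⊥ := by
    intro h
    rw [h] at hmax
    exact Polynomial.not_isField k (Ring.isField_iff_maximal_bot.mpr hmax)
  obtain ⟨p, hp, hp0⟩ := Submodule.exists_mem_ne_zero_of_ne_bot hne
  have h1 := (mem_preimage_basicOpen_toLine ((regOpen X t).ι ≫ c)
    ((regOpen X t).topIso.inv (regSection X t)) p (regGeneric t)).not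
  rw [not_not] at h1
  have h2 := h1.mp hp
  rw [regGeneric_eq, genericPoint_mem_basicOpen_iff, not_not] at h2
  exact hp0 (hinj (h2.trans (map_zero _).symm))

end Fermat.Agent.S25.H507

end
-- ===== PACK-END S25/H507/ChartFibre.lean

-- ===== PACK-BEGIN S25/H130/PB.lean
section


/-!
# S25 / AS4 (helper130): the relation "`N` is a pullback of `M` along `f`"

`IsPB M f N` says that the rigidified line bundle `N` (over `t' : T' ⟶ Spec k`) is isomorphic to
the pullback of `M` (over `t : T ⟶ Spec k`) along the morphism of schemes `f : T' ⟶ T`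
(which is then automatically a morphism over `k`).  The morphism `f` is a plain morphism of
schemes, so that equalities of morphisms can be rewritten freely.
-/

set_option autoImplicit false
universe u
open CategoryTheory CategoryTheory.Limits AlgebraicGeometry AlgebraicGeometry.RelPicard
  NeronModelInfra GoodReductionJacobian

namespace Fermat.Agent.S25.H130

noncomputable section

variable {k : Type u} [Field k] {C : Scheme.{u}} {c : C ⟶ Spec (CommRingCat.of k)}
  {ε : SchemeHomOver (𝟙 (Spec (CommRingCat.of k))) c}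

variable {T T' T'' : Scheme.{u}} {t : T ⟶ Spec (CommRingCat.of k)}
  {t' : T' ⟶ Spec (CommRingCat.of k)} {t'' : T'' ⟶ Spec (CommRingCat.of k)}

/-- `N` is isomorphic to the pullback of `M` along `f`. -/
def IsPB (M : RigidifiedLineBundle c ε t) (f : T' ⟶ T) (N : RigidifiedLineBundle c ε t') : Prop :=
  ∃ h : f ≫ t = t', RIso (M.pullbackAlong (⟨f, h⟩ : SchemeHomOver t' t)) N

theorem IsPB.w {M : RigidifiedLineBundle c ε t} {f : T' ⟶ T} {N : RigidifiedLineBundle c ε t'}
    (h : IsPB M f N) : f ≫ t = t' := h.1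

theorem isPB_pullbackAlong (M : RigidifiedLineBundle c ε t) (g : SchemeHomOver t' t) :
    IsPB M g.1 (M.pullbackAlong g) :=
  ⟨g.2, rIso_refl _⟩

theorem isPB_mk (M : RigidifiedLineBundle c ε t) (f : T' ⟶ T) (h : f ≫ t = t') :
    IsPB M f (M.pullbackAlong (⟨f, h⟩ : SchemeHomOver t' t)) :=
  ⟨h, rIso_refl _⟩

theorem isPB_restrictOpen (M : RigidifiedLineBundle c ε t) (U : T.Opens) :
    IsPB M U.ι (restrictOpen M U) :=
  ⟨rfl, rIso_refl _⟩

theorem IsPB.of_rIso_right {M : RigidifiedLineBundle c ε t} {f : T' ⟶ T}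
    {N N' : RigidifiedLineBundle c ε t'} (h : IsPB M f N) (e : RIso N N') : IsPB M f N' :=
  ⟨h.1, rIso_trans h.2 e⟩

theorem IsPB.of_rIso_left {M M' : RigidifiedLineBundle c ε t} {f : T' ⟶ T}
    {N : RigidifiedLineBundle c ε t'} (h : IsPB M f N) (e : RIso M M') : IsPB M' f N :=
  ⟨h.1, rIso_trans (rIso_pullbackAlong (rIso_symm e) _) h.2⟩

theorem IsPB.rIso {M : RigidifiedLineBundle c ε t} {f : T' ⟶ T}
    {N N' : RigidifiedLineBundle c ε t'} (h : IsPB M f N) (h' : IsPB M f N') : RIso N N' :=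
  rIso_trans (rIso_symm h.2) h'.2

theorem IsPB.of_eq {M : RigidifiedLineBundle c ε t} {f f' : T' ⟶ T}
    {N : RigidifiedLineBundle c ε t'} (h : IsPB M f N) (e : f = f') : IsPB M f' N := by
  subst e
  exact h

theorem IsPB.comp {M : RigidifiedLineBundle c ε t} {f : T' ⟶ T}
    {N : RigidifiedLineBundle c ε t'} {f' : T'' ⟶ T'} {N' : RigidifiedLineBundle c ε t''}
    (h : IsPB M f N) (h' : IsPB N f' N') : IsPB M (f' ≫ f) N' := by
  obtain ⟨hw, e⟩ := h
  obtain ⟨hw', e'⟩ := h'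
  refine ⟨by rw [Category.assoc, hw, hw'], ?_⟩
  refine rIso_trans ?_ e'
  refine rIso_trans ?_ (rIso_pullbackAlong e _)
  exact rIso_symm (rIso_pullbackAlong_of_comp_eq M ⟨f, hw⟩ ⟨f', hw'⟩ _ rfl)

theorem isPB_id (M : RigidifiedLineBundle c ε t) : IsPB M (𝟙 T) M :=
  ⟨Category.id_comp t, rIso_pullbackAlong_id M _⟩

theorem isPB_id_iff {M N : RigidifiedLineBundle c ε t} : IsPB M (𝟙 T) N ↔ RIso M N :=
  ⟨fun h => (isPB_id M).rIso h, fun h => (isPB_id M).of_rIso_right h⟩

theorem IsPB.deg0 {M : RigidifiedLineBundle c ε t} {f : T' ⟶ T}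
    {N : RigidifiedLineBundle c ε t'} (h : IsPB M f N) (hM : FibrewiseAlgEquivZero M) :
    FibrewiseAlgEquivZero N :=
  deg0_of_rIso h.2 (deg0_pullbackAlong hM _)

/-- Existence of a pullback along any morphism, with prescribed structure morphism. -/
theorem exists_isPB (M : RigidifiedLineBundle c ε t) (f : T' ⟶ T) (h : f ≫ t = t') :
    ∃ N : RigidifiedLineBundle c ε t', IsPB M f N :=
  ⟨_, isPB_mk M f h⟩

/-- Pullback along an isomorphism can be inverted. -/
theorem IsPB.symm_of_inv {M : RigidifiedLineBundle c ε t} {f : T' ⟶ T}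
    {N : RigidifiedLineBundle c ε t'} (h : IsPB M f N) (g : T ⟶ T') (hgf : g ≫ f = 𝟙 T) :
    IsPB N g M := by
  have hw : g ≫ t' = t := by rw [← h.w, ← Category.assoc, hgf, Category.id_comp]
  have h1 : IsPB N g (N.pullbackAlong (⟨g, hw⟩ : SchemeHomOver t t')) := isPB_mk N g hw
  have h2 : IsPB M (𝟙 T) (N.pullbackAlong (⟨g, hw⟩ : SchemeHomOver t t')) :=
    (h.comp h1).of_eq hgf
  exact h1.of_rIso_right (rIso_symm (isPB_id_iff.1 h2))

/-- Two-out-of-three: if `N'` is a pullback of `M` along `f' ≫ f` and `N` is a pullback of `M`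
along `f`, then `N'` is a pullback of `N` along `f'`. -/
theorem IsPB.of_comp {M : RigidifiedLineBundle c ε t} {f : T' ⟶ T}
    {N : RigidifiedLineBundle c ε t'} {f' : T'' ⟶ T'} {N' : RigidifiedLineBundle c ε t''}
    (h : IsPB M f N) (h' : IsPB M (f' ≫ f) N') : IsPB N f' N' := by
  have hw : f' ≫ t' = t'' := by rw [← h.w, ← Category.assoc, h'.w]
  have h1 : IsPB N f' (N.pullbackAlong (⟨f', hw⟩ : SchemeHomOver t'' t')) := isPB_mk N f' hw
  exact h1.of_rIso_right ((h.comp h1).rIso h')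

end

end Fermat.Agent.S25.H130

end
-- ===== PACK-END S25/H130/PB.lean

-- ===== PACK-BEGIN S25/H805/BridgeDef.lean
section




/-!
# Row S25, bridge AS7 (helper805): `Stmt.Def` from the dictionary and `Stmt.AlgDef`

Formal.  No degree theory is needed (`DefReduce`): the only fact of the gluing-datum calculus
that enters is that rigidifiability lifts along square-zero thickenings (`RigLifts`).
-/

set_option autoImplicit false
set_option linter.style.haveILetI false
universe u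
open CategoryTheory CategoryTheory.Limits AlgebraicGeometry AlgebraicGeometry.RelPicard
  NeronModelInfra GoodReductionJacobian
open scoped TensorProduct

namespace Fermat.Agent.S25.H805

/-- GDC fact: rigidifiability of a gluing datum lifts along square-zero thickenings. -/
def RigLifts (k : Type u) [Field k] (B₀ B₁ B₀₁ : Type u) [CommRing B₀] [CommRing B₁]
    [CommRing B₀₁] [Algebra k B₀] [Algebra k B₁] [Algebra k B₀₁] [Algebra B₀ B₀₁]
    [Algebra B₁ B₀₁] [IsScalarTower k B₀ B₀₁] [IsScalarTower k B₁ B₀₁] (e : B₁ →ₐ[k] k) :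
    Prop :=
  ∀ (A : Type u) [CommRing A] [Algebra k A] (I : Ideal A), I ^ 2 = ⊥ →
    ∀ (G : CurveGD k B₀ B₁ B₀₁ A) (G₀ : CurveGD k B₀ B₁ B₀₁ (A ⧸ I)),
      CurveGD.IsBC (Ideal.Quotient.mkₐ k I) G G₀ → G₀.Rigidifiable e → G.Rigidifiable e

variable {k : Type u} [Field k] {C : Scheme.{u}} {c : C ⟶ Spec (CommRingCat.of k)}
  {ε : SchemeHomOver (𝟙 (Spec (CommRingCat.of k))) c}

/-- **AS7**: `Stmt.Def` follows formally from the dictionary, `Stmt.AlgDef` and `RigLifts`. -/
theorem def_of_alg (Ch : ChartOf c ε) (hSec : Stmt.DictSections Ch)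
    (hGlue : Stmt.DictGlue Ch) (hIso : Stmt.DictIso Ch) (hBC : Stmt.DictBC Ch)
    (hDef : Stmt.AlgDef k Ch.B₀ Ch.B₁ Ch.B₀₁) (hRig : RigLifts k Ch.B₀ Ch.B₁ Ch.B₀₁ Ch.e) :
    Stmt.Def c ε := by
  refine def_of_defNoDeg c ε ?_
  intro A _ _ I hI M₀
  obtain ⟨G₀, hG₀, hrig₀⟩ := hSec (A ⧸ I) M₀
  obtain ⟨G, hG⟩ := hDef Ch.x Ch.y Ch.e Ch.isCurveChart A I hI G₀
  obtain ⟨M, hM⟩ := hGlue A G (hRig A I hI G G₀ hG hrig₀)
  have h1 := hBC A (A ⧸ I) (Ideal.Quotient.mkₐ k I) M G G₀ hM hG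
  exact ⟨M, (hIso (A ⧸ I) _ M₀ G₀ G₀ h1 hG₀).2 (glueDatum_isIso_refl G₀)⟩

end Fermat.Agent.S25.H805

end
-- ===== PACK-END S25/H805/BridgeDef.lean

-- ===== PACK-BEGIN S25/H687/DDMain.lean
section
/-
S25, block DICTDEG (helper687): assembly of `Stmt.DictDeg Ch` and of `Stmt.Abel c ε` from the
interface statements of `DDDefs.lean` (all hypotheses are explicit; nothing is assumed).
-/



set_option autoImplicit false
universe u
open CategoryTheory CategoryTheory.Limits AlgebraicGeometry AlgebraicGeometry.RelPicard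
  NeronModelInfra GoodReductionJacobian
open scoped TensorProduct

namespace Fermat.Agent.S25.H687

variable {k : Type u} [Field k] {C : Scheme.{u}} {c : C ⟶ Spec (CommRingCat.of k)}
  {ε : SchemeHomOver (𝟙 (Spec (CommRingCat.of k))) c}

/-- The Abel family of `AbelAlg` is fibrewise algebraically equivalent to zero (by FAM). -/
theorem isAlgEquivZero_of_degree_eq_zero (Ch : ChartOf c ε) (hAbel : AbelAlg Ch)
    (K : Type u) [Field K] [IsAlgClosed K] [Algebra k K]
    (L : RigidifiedLineBundle c ε (specStr k K)) (G : CurveGD k Ch.B₀ Ch.B₁ Ch.B₀₁ K)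
    (hG : Corr Ch K L.L G) (hdeg : G.degree = 0) :
    IsAlgEquivZero (pullback.snd c (specStr k K)) L.L := by
  obtain ⟨X, x, hx, hgi, M, x₀, h₀, hsurj⟩ := hAbel
  have hM : FibrewiseAlgEquivZero M := fibrewiseAlgEquivZero_of_trivial_fibre x M x₀ h₀
  obtain ⟨p, ⟨e⟩⟩ := hsurj K L G hG hdeg
  exact (isAlgEquivZero_pullbackAlong_of_fibrewise M hM K _ p).of_iso e

/-- **DICTDEG, direction (⇐)**: fibrewise degree zero implies fibrewise algebraically
equivalent to zero. -/
theorem fibrewiseAlgEquivZero_of_deg0 (Ch : ChartOf c ε) (hAbel : AbelAlg Ch)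
    (hBC : Stmt.DictBC Ch) (hEx : Stmt.AlgBCExists Ch)
    (A : Type u) [CommRing A] [Algebra k A] (M : RigidifiedLineBundle c ε (specStr k A))
    (G : CurveGD k Ch.B₀ Ch.B₁ Ch.B₀₁ A) (hG : Corr Ch A M.L G) (hdeg : G.Deg0) :
    FibrewiseAlgEquivZero M := by
  rw [fibrewiseAlgEquivZero_affine_iff]
  intro K _ _ _ φ
  obtain ⟨G', hG'⟩ := hEx A K φ G
  exact isAlgEquivZero_of_degree_eq_zero Ch hAbel K _ G' (hBC A K φ M G G' hG hG')
    (hdeg K φ G' hG')

/-- Core of direction (⇒): over an algebraically closed field, a line bundle algebraically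
equivalent to zero has degree zero. -/
theorem degree_eq_zero_of_isAlgEquivZero (Ch : ChartOf c ε)
    (hSec : Stmt.DictSections Ch) (hIso : Stmt.DictIso Ch) (hBC : Stmt.DictBC Ch)
    (hEx : Stmt.AlgBCExists Ch) (hUnit : DictUnit Ch)
    (hDegIso : DegIso k Ch.B₀ Ch.B₁ Ch.B₀₁) (hDegConst : DegConst k Ch.B₀ Ch.B₁ Ch.B₀₁)
    (hFam : FamilyData c ε)
    (K : Type u) [Field K] [IsAlgClosed K] [Algebra k K]
    (L : RigidifiedLineBundle c ε (specStr k K)) (G : CurveGD k Ch.B₀ Ch.B₁ Ch.B₀₁ K)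
    (hG : Corr Ch K L.L G) (hL : IsAlgEquivZero (pullback.snd c (specStr k K)) L.L) :
    G.degree = 0 := by
  obtain ⟨A₀, A₁, F, _, _, _, _, _, _, _, _, N₀, N₁, a₀, a₁, b₀, b₁, h0, h1, hF⟩ := hFam K L hL
  -- gluing data of the two families
  obtain ⟨H₀, hH₀, -⟩ := hSec A₀ N₀
  obtain ⟨H₁, hH₁, -⟩ := hSec A₁ N₁
  -- their fibres
  obtain ⟨H₀a, hH₀a⟩ := hEx A₀ K a₀ H₀
  obtain ⟨H₁a, hH₁a⟩ := hEx A₁ K a₁ H₁
  obtain ⟨H₀b, hH₀b⟩ := hEx A₀ F b₀ H₀
  obtain ⟨H₁b, hH₁b⟩ := hEx A₁ F b₁ H₁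
  have c0a := hBC A₀ K a₀ N₀ H₀ H₀a hH₀ hH₀a
  have c1a := hBC A₁ K a₁ N₁ H₁ H₁a hH₁ hH₁a
  have c0b := hBC A₀ F b₀ N₀ H₀ H₀b hH₀ hH₀b
  have c1b := hBC A₁ F b₁ N₁ H₁ H₁b hH₁ hH₁b
  -- fibre of `N₁` at `a₁` is `L`
  have e1 : H₁a.IsIso G := (hIso K _ L H₁a G c1a hG).1 h1
  -- fibre of `N₀` at `a₀` is trivial
  have e0 : H₀a.IsIso (GlueDatum.unit K (K ⊗[k] Ch.B₀) (K ⊗[k] Ch.B₁) (K ⊗[k] Ch.B₀₁)) :=
    (hIso K _ (RigidifiedLineBundle.unit (specStr k K)) H₀a _ c0a (hUnit K)).1 h0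
  -- generic fibres agree
  have eF : H₀b.IsIso H₁b := (hIso F _ _ H₀b H₁b c0b c1b).1 hF
  have d1 : H₁a.degree = H₁b.degree :=
    hDegConst Ch.x Ch.y Ch.e Ch.isCurveChart A₁ H₁ K F a₁ b₁ H₁a H₁b hH₁a hH₁b
  have d0 : H₀a.degree = H₀b.degree :=
    hDegConst Ch.x Ch.y Ch.e Ch.isCurveChart A₀ H₀ K F a₀ b₀ H₀a H₀b hH₀a hH₀b
  have du : (GlueDatum.unit K (K ⊗[k] Ch.B₀) (K ⊗[k] Ch.B₁) (K ⊗[k] Ch.B₀₁)).degree = 0 := by
    simp [GlueDatum.degree]
  calc G.degree = H₁a.degree := (hDegIso K H₁a G e1).symm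
    _ = H₁b.degree := d1
    _ = H₀b.degree := (hDegIso F H₀b H₁b eF).symm
    _ = H₀a.degree := d0.symm
    _ = _ := hDegIso K H₀a _ e0
    _ = 0 := du

/-- **DICTDEG, direction (⇒)**: fibrewise algebraically equivalent to zero implies fibrewise
degree zero. -/
theorem deg0_of_fibrewiseAlgEquivZero (Ch : ChartOf c ε)
    (hSec : Stmt.DictSections Ch) (hIso : Stmt.DictIso Ch) (hBC : Stmt.DictBC Ch)
    (hEx : Stmt.AlgBCExists Ch) (hUnit : DictUnit Ch)
    (hId : BCId k Ch.B₀ Ch.B₁ Ch.B₀₁) (hComp : BCComp k Ch.B₀ Ch.B₁ Ch.B₀₁)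
    (hDegIso : DegIso k Ch.B₀ Ch.B₁ Ch.B₀₁) (hDegConst : DegConst k Ch.B₀ Ch.B₁ Ch.B₀₁)
    (hFam : FamilyData c ε)
    (A : Type u) [CommRing A] [Algebra k A] (M : RigidifiedLineBundle c ε (specStr k A))
    (G : CurveGD k Ch.B₀ Ch.B₁ Ch.B₀₁ A) (hG : Corr Ch A M.L G)
    (hM : FibrewiseAlgEquivZero M) : G.Deg0 := by
  intro K _ _ φ G' hG'
  -- pass to the algebraic closure
  let Kbar := AlgebraicClosure K
  let ι : K →ₐ[k] Kbar := IsScalarTower.toAlgHom k K Kbar
  obtain ⟨G'', hG''⟩ := hEx K Kbar ι G'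
  have hcomp : CurveGD.IsBC (ι.comp φ) G G'' := hComp A K Kbar φ ι G G' G'' hG' hG''
  have hcorr := hBC A Kbar (ι.comp φ) M G G'' hG hcomp
  have hz := isAlgEquivZero_pullbackAlong_of_fibrewise M hM Kbar _ (specHomOver k (ι.comp φ))
  have h0 : G''.degree = 0 :=
    degree_eq_zero_of_isAlgEquivZero Ch hSec hIso hBC hEx hUnit hDegIso hDegConst hFam Kbar
      _ G'' hcorr hz
  have h1 : G'.degree = G''.degree :=
    hDegConst Ch.x Ch.y Ch.e Ch.isCurveChart K G' K Kbar (AlgHom.id k K) ι G' G''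
      (hId K G') hG''
  rw [h1, h0]

/-- **DICTDEG.** -/
theorem dictDeg (Ch : ChartOf c ε)
    (hSec : Stmt.DictSections Ch) (hIso : Stmt.DictIso Ch) (hBC : Stmt.DictBC Ch)
    (hEx : Stmt.AlgBCExists Ch) (hUnit : DictUnit Ch)
    (hId : BCId k Ch.B₀ Ch.B₁ Ch.B₀₁) (hComp : BCComp k Ch.B₀ Ch.B₁ Ch.B₀₁)
    (hDegIso : DegIso k Ch.B₀ Ch.B₁ Ch.B₀₁) (hDegConst : DegConst k Ch.B₀ Ch.B₁ Ch.B₀₁)
    (hFam : FamilyData c ε) (hAbel : AbelAlg Ch) : Stmt.DictDeg Ch := by
  intro A _ _ M G hG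
  exact ⟨deg0_of_fibrewiseAlgEquivZero Ch hSec hIso hBC hEx hUnit hId hComp hDegIso hDegConst
    hFam A M G hG, fibrewiseAlgEquivZero_of_deg0 Ch hAbel hBC hEx A M G hG⟩

/-- **ABEL** from its algebraic form. -/
theorem abel_of_abelAlg (Ch : ChartOf c ε)
    (hSec : Stmt.DictSections Ch) (hId : BCId k Ch.B₀ Ch.B₁ Ch.B₀₁)
    (hDeg : Stmt.DictDeg Ch) (hAbel : AbelAlg Ch) : Stmt.Abel c ε := by
  obtain ⟨X, x, hx, hgi, M, x₀, h₀, hsurj⟩ := hAbel
  refine ⟨X, x, hx, hgi, M, fibrewiseAlgEquivZero_of_trivial_fibre x M x₀ h₀, ?_⟩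
  intro K _ _ _ L hL
  obtain ⟨G, hG, -⟩ := hSec K L
  have hdeg : G.Deg0 := (hDeg K L G hG).1 hL
  exact hsurj K L G hG (hdeg K (AlgHom.id k K) G (hId K G))

end Fermat.Agent.S25.H687

end
-- ===== PACK-END S25/H687/DDMain.lean

-- ===== PACK-BEGIN S25/H747/AbAlgDefs.lean
section
/-
S25 / block ABEL, sub-block AB-ALG = `Stmt.AlgAbel` (sub-block owner helper747).
FROZEN definitions: ideals of a chart point, the algebraic Abel datum
`abelDatum e g A P = ℋom(O(-Σ Γ_{P i}), O(-g·ε))`.  Only definitions, no proofs needed.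
Board: origin/helper747:coord/S25-ABALG.md.
-/




set_option autoImplicit false
universe u
open scoped TensorProduct

namespace Fermat.Agent.S25.H747

open Fermat.Agent.S25

noncomputable section

variable {k : Type u} [Field k]

section Graph

variable {A : Type u} [CommRing A] [Algebra k A] {B : Type u} [CommRing B] [Algebra k B]

/-- Evaluation `A ⊗[k] B → A`, `a ⊗ b ↦ a * φ b`, at an `A`-valued point `φ` of `Spec B`. -/
def evalHom (φ : B →ₐ[k] A) : A ⊗[k] B →ₐ[A] A :=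
  Algebra.TensorProduct.lift (AlgHom.id A A) φ (fun _ _ => Commute.all _ _)

@[simp] theorem evalHom_tmul (φ : B →ₐ[k] A) (a : A) (b : B) :
    evalHom φ (a ⊗ₜ[k] b) = a * φ b := by
  simp [evalHom]

/-- The ideal of the graph of an `A`-valued point `φ` of `Spec B`. -/
def graphIdeal (φ : B →ₐ[k] A) : Ideal (A ⊗[k] B) := RingHom.ker (evalHom φ)

end Graph

section Chart

variable {B₀ B₁ B₀₁ : Type u} [CommRing B₀] [CommRing B₁] [CommRing B₀₁]
  [Algebra k B₀] [Algebra k B₁] [Algebra k B₀₁] [Algebra B₀ B₀₁] [Algebra B₁ B₀₁]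
  [IsScalarTower k B₀ B₀₁] [IsScalarTower k B₁ B₀₁]
  {A : Type u} [CommRing A] [Algebra k A]

variable (B₀₁) in
/-- The ideal on the chart `Spec (A ⊗ B₀)` of (the graph of) a chart point. -/
def ptI₀ : H746.ChartPt k B₀ B₁ A → Ideal (A ⊗[k] B₀)
  | Sum.inl φ => graphIdeal φ
  | Sum.inr φ => ((graphIdeal φ).map (algebraMap (A ⊗[k] B₁) (A ⊗[k] B₀₁))).comap
      (algebraMap (A ⊗[k] B₀) (A ⊗[k] B₀₁))

variable (B₀₁) in
/-- The ideal on the chart `Spec (A ⊗ B₁)` of (the graph of) a chart point. -/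
def ptI₁ : H746.ChartPt k B₀ B₁ A → Ideal (A ⊗[k] B₁)
  | Sum.inl φ => ((graphIdeal φ).map (algebraMap (A ⊗[k] B₀) (A ⊗[k] B₀₁))).comap
      (algebraMap (A ⊗[k] B₁) (A ⊗[k] B₀₁))
  | Sum.inr φ => graphIdeal φ

variable (B₀₁) in
/-- The ideal on the intersection `Spec (A ⊗ B₀₁)` of (the graph of) a chart point. -/
def ptI₀₁ : H746.ChartPt k B₀ B₁ A → Ideal (A ⊗[k] B₀₁)
  | Sum.inl φ => (graphIdeal φ).map (algebraMap (A ⊗[k] B₀) (A ⊗[k] B₀₁))
  | Sum.inr φ => (graphIdeal φ).map (algebraMap (A ⊗[k] B₁) (A ⊗[k] B₀₁))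

variable (B₀₁) in
/-- The ideal on chart `0` of the divisor `Σ Γ_{P i}` of a tuple of chart points. -/
def tupI₀ {g : ℕ} (P : Fin g → H746.ChartPt k B₀ B₁ A) : Ideal (A ⊗[k] B₀) :=
  ∏ i, ptI₀ B₀₁ (P i)

variable (B₀₁) in
/-- The ideal on chart `1` of the divisor `Σ Γ_{P i}` of a tuple of chart points. -/
def tupI₁ {g : ℕ} (P : Fin g → H746.ChartPt k B₀ B₁ A) : Ideal (A ⊗[k] B₁) :=
  ∏ i, ptI₁ B₀₁ (P i)

variable (B₀₁) in
/-- The ideal on the intersection of the divisor `Σ Γ_{P i}` of a tuple of chart points. -/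
def tupI₀₁ {g : ℕ} (P : Fin g → H746.ChartPt k B₀ B₁ A) : Ideal (A ⊗[k] B₀₁) :=
  ∏ i, ptI₀₁ B₀₁ (P i)

variable (B₀) in
/-- The marked point `ε`, base changed to `A`, as a chart point. -/
def epsPt (e : B₁ →ₐ[k] k) (A : Type u) [CommRing A] [Algebra k A] : H746.ChartPt k B₀ B₁ A :=
  Sum.inr ((Algebra.ofId k A).comp e)

/-- The tuple of chart points `P` defines an effective Cartier divisor on `C_A`. -/
def TupCartier {g : ℕ} (P : Fin g → H746.ChartPt k B₀ B₁ A) : Prop :=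
  IsCartierTriple (tupI₀ B₀₁ P) (tupI₁ B₀₁ P) (tupI₀₁ B₀₁ P)

open Classical in
/-- **The algebraic Abel datum** `ℋom(O(-Σ Γ_{P i}), O(-g·ε)) = O(Σ Γ_{P i} - g·ε)` of a
`g`-tuple of chart points.  (The `else` branch never occurs for a curve chart: leaf AA1.) -/
def abelDatum (e : B₁ →ₐ[k] k) (g : ℕ) (A : Type u) [CommRing A] [Algebra k A]
    (P : Fin g → H746.ChartPt k B₀ B₁ A) : CurveGD k B₀ B₁ B₀₁ A :=
  if h : TupCartier (B₀₁ := B₀₁) P ∧ TupCartier (B₀₁ := B₀₁) (fun _ : Fin g => epsPt B₀ e A) then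
    homDatum (ofIdeals A h.1) (ofIdeals A h.2)
  else GlueDatum.unit A (A ⊗[k] B₀) (A ⊗[k] B₁) (A ⊗[k] B₀₁)

theorem abelDatum_eq (e : B₁ →ₐ[k] k) (g : ℕ) (A : Type u) [CommRing A] [Algebra k A]
    (P : Fin g → H746.ChartPt k B₀ B₁ A) (h : TupCartier (B₀₁ := B₀₁) P)
    (h' : TupCartier (B₀₁ := B₀₁) (fun _ : Fin g => epsPt B₀ e A)) :
    abelDatum (B₀₁ := B₀₁) e g A P = homDatum (ofIdeals A h) (ofIdeals A h') := by
  rw [abelDatum, dif_pos ⟨h, h'⟩]

variable (k B₀ B₁ B₀₁) in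
/-- The genus: `dim_k Ȟ¹` of the unit gluing datum over `k`. -/
def genus : ℕ :=
  Module.finrank k (GlueDatum.unit k (k ⊗[k] B₀) (k ⊗[k] B₁) (k ⊗[k] B₀₁)).H1

end Chart

end

end Fermat.Agent.S25.H747

end
-- ===== PACK-END S25/H747/AbAlgDefs.lean

-- ===== PACK-BEGIN S25/H611/HilbSkelH3.lean
section




/-!
# S25 / HILB / leaf H3 in the exact shape of the squad skeleton (helper611)

`hilb_ideal_invertible` and `hilb_ideal_generator_regular` are stated verbatim as in
`coord/S25-HILB-skeleton.lean` (up to the namespace).  The hypotheses `hdom` and `hinf`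
of the skeleton are not needed.
-/

namespace Fermat.Agent.S25.H611

open TensorProduct

universe u

/-- An ideal `I` of `A ⊗[k] B` with finite projective quotient over `A` is invertible, as soon
as the diagonal ideal of `B` over `k` is invertible and `A` is flat over `k`. -/
theorem invertible_ideal_of_quotient_finite_projective_tensor
    (k A B : Type*) [CommRing k] [CommRing A] [CommRing B] [Algebra k A] [Algebra k B]
    [Module.Flat k A] [Module.Invertible (B ⊗[k] B) (KaehlerDifferential.ideal k B)]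
    (I : Ideal (A ⊗[k] B))
    [Module.Finite A ((A ⊗[k] B) ⧸ I)] [Module.Projective A ((A ⊗[k] B) ⧸ I)] :
    Module.Invertible (A ⊗[k] B) I := by
  haveI := invertible_diag_baseChange k A B
  exact invertible_of_quotient_finite_projective A I

/-- A generator of an invertible principal ideal is a nonzerodivisor. -/
theorem mem_nonZeroDivisors_of_invertible_span {R : Type*} [CommRing R] (f : R)
    [Module.Invertible R (Ideal.span {f})] : f ∈ nonZeroDivisors R := by
  rw [mem_nonZeroDivisors_iff_right]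
  intro g hg
  have hfaith : FaithfulSMul R (Ideal.span {f}) := inferInstance
  apply hfaith.eq_of_smul_eq_smul (M := R)
  rintro ⟨x, hx⟩
  obtain ⟨c, rfl⟩ := Ideal.mem_span_singleton'.mp hx
  apply Subtype.ext
  change g * (c * f) = 0 * (c * f)
  rw [zero_mul, mul_left_comm, hg, mul_zero]

/-- **H3.** An ideal of `A ⊗ B` whose quotient is finite projective over `A` is an invertible
module (`B` = coordinate ring of a smooth geometrically integral affine curve). -/
theorem hilb_ideal_invertible (k : Type u) [Field k] (B : Type u) [CommRing B] [Algebra k B]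
    [Module.Invertible (B ⊗[k] B) (KaehlerDifferential.ideal k B)]
    (hdom : ∀ (K : Type u) [Field K] [Algebra k K], IsDomain (K ⊗[k] B))
    (hinf : ¬ Module.Finite k B)
    (A : Type u) [CommRing A] [Algebra k A] (I : Ideal (A ⊗[k] B))
    [Module.Finite A ((A ⊗[k] B) ⧸ I)] [Module.Projective A ((A ⊗[k] B) ⧸ I)] :
    Module.Invertible (A ⊗[k] B) I :=
  invertible_ideal_of_quotient_finite_projective_tensor k A B I

/-- **H3'.** Same hypotheses: a generator of `I` (when `I` is principal) is a nonzerodivisor. -/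
theorem hilb_ideal_generator_regular (k : Type u) [Field k] (B : Type u) [CommRing B]
    [Algebra k B] [Module.Invertible (B ⊗[k] B) (KaehlerDifferential.ideal k B)]
    (hdom : ∀ (K : Type u) [Field K] [Algebra k K], IsDomain (K ⊗[k] B))
    (hinf : ¬ Module.Finite k B)
    (A : Type u) [CommRing A] [Algebra k A] (f : A ⊗[k] B)
    [Module.Finite A ((A ⊗[k] B) ⧸ Ideal.span {f})]
    [Module.Projective A ((A ⊗[k] B) ⧸ Ideal.span {f})] :
    f ∈ nonZeroDivisors (A ⊗[k] B) := by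
  haveI := invertible_ideal_of_quotient_finite_projective_tensor k A B (Ideal.span {f})
  exact mem_nonZeroDivisors_of_invertible_span f

end Fermat.Agent.S25.H611

end
-- ===== PACK-END S25/H611/HilbSkelH3.lean

-- ===== PACK-BEGIN S25/H927/AbAlgHom.lean
section
/-
S25 / block ABEL, sub-block AB-ALG (skeleton of helper747), base-change chain, helper927.

* `semilinear_ext`, `semilinear_induction` : extensionality / induction for a semilinear
  base change (frozen `IsSemilinearBaseChange`).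
* `homMapSL hb c` : the `ρ`-semilinear map `Hom_R(N, M) → Hom_R'(N', M')` induced by
  semilinear base changes `b : N → N'`, `c : M → M'`; it is a semilinear base change when `N`
  is finitely generated projective (`isSemilinearBaseChange_homMapSL`).
* **G3** `homDatum_isBC` : exact statement of `H747/Skel/AbAlgSkel.lean`.
-/



set_option autoImplicit false
set_option linter.style.haveILetI false
universe u
open scoped TensorProduct

namespace Fermat.Agent.S25.H927

open Fermat.Agent.S25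

noncomputable section

section SemilinearHom

variable {R R' : Type u} [CommRing R] [CommRing R'] {ρ : R →+* R'}
  {N N' M M' : Type u} [AddCommGroup N] [Module R N] [AddCommGroup N'] [Module R' N']
  [AddCommGroup M] [Module R M] [AddCommGroup M'] [Module R' M']

/-- Induction principle for the target of a semilinear base change. -/
theorem semilinear_induction {b : N →ₛₗ[ρ] N'} (hb : IsSemilinearBaseChange ρ b)
    (motive : N' → Prop) (zero : motive 0) (base : ∀ n, motive (b n))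
    (smul : ∀ (r : R') (n : N'), motive n → motive (r • n))
    (add : ∀ n₁ n₂, motive n₁ → motive n₂ → motive (n₁ + n₂)) (x : N') : motive x := by
  letI : Algebra R R' := ρ.toAlgebra
  letI : Module R N' := Module.compHom N' ρ
  haveI : IsScalarTower R R' N' := ⟨fun r r' n => by
    change (ρ r * r') • n = ρ r • (r' • n); rw [mul_smul]⟩
  have hb' : IsBaseChange R' (show N →ₗ[R] N' from
    { toFun := fun n => b n
      map_add' := fun m n => b.map_add m n
      map_smul' := fun r n => LinearMap.map_smulₛₗ b r n }) := hb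
  exact hb'.inductionOn x motive zero base smul add

/-- Linear maps out of the target of a semilinear base change are determined by their values
on the image. -/
theorem semilinear_ext {b : N →ₛₗ[ρ] N'} (hb : IsSemilinearBaseChange ρ b)
    {X : Type*} [AddCommGroup X] [Module R' X] (f g : N' →ₗ[R'] X)
    (h : ∀ n, f (b n) = g (b n)) : f = g := by
  ext x
  refine semilinear_induction hb (fun x => f x = g x) (by simp) h ?_ ?_ x
  · intro r n hn
    rw [map_smul, map_smul, hn]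
  · intro n₁ n₂ h₁ h₂
    rw [map_add, map_add, h₁, h₂]

/-- The `ρ`-semilinear map `Hom_R(N, M) → Hom_R'(N', M')` induced by a semilinear base change
`b : N → N'` and a semilinear map `c : M → M'`. -/
def homMapSL {b : N →ₛₗ[ρ] N'} (hb : IsSemilinearBaseChange ρ b) (c : M →ₛₗ[ρ] M') :
    (N →ₗ[R] M) →ₛₗ[ρ] (N' →ₗ[R'] M') :=
  letI : Algebra R R' := ρ.toAlgebra
  letI : Module R N' := Module.compHom N' ρ
  letI : Module R M' := Module.compHom M' ρ
  haveI : IsScalarTower R R' N' := ⟨fun r r' n => by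
    change (ρ r * r') • n = ρ r • (r' • n); rw [mul_smul]⟩
  haveI : IsScalarTower R R' M' := ⟨fun r r' n => by
    change (ρ r * r') • n = ρ r • (r' • n); rw [mul_smul]⟩
  have hb' : IsBaseChange R' (show N →ₗ[R] N' from
    { toFun := fun n => b n
      map_add' := fun m n => b.map_add m n
      map_smul' := fun r n => LinearMap.map_smulₛₗ b r n }) := hb
  let c' : M →ₗ[R] M' :=
    { toFun := fun n => c n
      map_add' := fun m n => c.map_add m n
      map_smul' := fun r n => LinearMap.map_smulₛₗ c r n }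
  { toFun := fun f => IsBaseChange.linearMapLeftRightHom hb' c' f
    map_add' := fun f g => map_add _ f g
    map_smul' := fun r f => by
      rw [map_smul]
      ext x
      rfl }

theorem homMapSL_apply {b : N →ₛₗ[ρ] N'} (hb : IsSemilinearBaseChange ρ b) (c : M →ₛₗ[ρ] M')
    (f : N →ₗ[R] M) (n : N) : homMapSL hb c f (b n) = c (f n) := by
  letI : Algebra R R' := ρ.toAlgebra
  letI : Module R N' := Module.compHom N' ρ
  letI : Module R M' := Module.compHom M' ρ
  haveI : IsScalarTower R R' N' := ⟨fun r r' n => by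
    change (ρ r * r') • n = ρ r • (r' • n); rw [mul_smul]⟩
  haveI : IsScalarTower R R' M' := ⟨fun r r' n => by
    change (ρ r * r') • n = ρ r • (r' • n); rw [mul_smul]⟩
  have hb' : IsBaseChange R' (show N →ₗ[R] N' from
    { toFun := fun n => b n
      map_add' := fun m n => b.map_add m n
      map_smul' := fun r n => LinearMap.map_smulₛₗ b r n }) := hb
  let c' : M →ₗ[R] M' :=
    { toFun := fun n => c n
      map_add' := fun m n => c.map_add m n
      map_smul' := fun r n => LinearMap.map_smulₛₗ c r n }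
  exact IsBaseChange.linearMapLeftRightHom_comp_apply hb' c' f n

/-- **Base change of `Hom`, semilinear form.** -/
theorem isSemilinearBaseChange_homMapSL [Module.Finite R N] [Module.Projective R N]
    {b : N →ₛₗ[ρ] N'} (hb : IsSemilinearBaseChange ρ b) {c : M →ₛₗ[ρ] M'}
    (hc : IsSemilinearBaseChange ρ c) : IsSemilinearBaseChange ρ (homMapSL hb c) := by
  letI : Algebra R R' := ρ.toAlgebra
  letI : Module R N' := Module.compHom N' ρ
  letI : Module R M' := Module.compHom M' ρ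
  haveI : IsScalarTower R R' N' := ⟨fun r r' n => by
    change (ρ r * r') • n = ρ r • (r' • n); rw [mul_smul]⟩
  haveI : IsScalarTower R R' M' := ⟨fun r r' n => by
    change (ρ r * r') • n = ρ r • (r' • n); rw [mul_smul]⟩
  have hb' : IsBaseChange R' (show N →ₗ[R] N' from
    { toFun := fun n => b n
      map_add' := fun m n => b.map_add m n
      map_smul' := fun r n => LinearMap.map_smulₛₗ b r n }) := hb
  have hc' : IsBaseChange R' (show M →ₗ[R] M' from
    { toFun := fun n => c n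
      map_add' := fun m n => c.map_add m n
      map_smul' := fun r n => LinearMap.map_smulₛₗ c r n }) := hc
  exact H371.isSemilinearBaseChange_of_isBaseChange ρ (fun _ => rfl) (homMapSL hb c)
    (IsBaseChange.linearMapLeftRightHom hb' _) (fun _ => rfl)
    (H747.isBaseChange_linearMapLeftRightHom hb' hc')

end SemilinearHom

section G3

variable {A R₀ R₁ R₀₁ : Type u} [CommRing A] [CommRing R₀] [CommRing R₁]
    [CommRing R₀₁] [Algebra A R₀] [Algebra A R₁] [Algebra A R₀₁] [Algebra R₀ R₀₁]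
    [Algebra R₁ R₀₁] [IsScalarTower A R₀ R₀₁] [IsScalarTower A R₁ R₀₁]
    {A' R₀' R₁' R₀₁' : Type u} [CommRing A'] [CommRing R₀'] [CommRing R₁']
    [CommRing R₀₁'] [Algebra A' R₀'] [Algebra A' R₁'] [Algebra A' R₀₁'] [Algebra R₀' R₀₁']
    [Algebra R₁' R₀₁'] [IsScalarTower A' R₀' R₀₁'] [IsScalarTower A' R₁' R₀₁']

/-- Compatibility of `homMapSL` with restriction maps that are base changes: the square
of `Hom`-modules commutes. -/
theorem homMapSL_restrict {S S₁ S' S₁' : Type u} [CommRing S] [CommRing S₁] [CommRing S']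
    [CommRing S₁'] [Algebra S S₁] [Algebra S' S₁'] {σ : S →+* S'} {σ₁ : S₁ →+* S₁'}
    {N N₁ M M₁ N' N₁' M' M₁' : Type u}
    [AddCommGroup N] [Module S N] [AddCommGroup N₁] [Module S₁ N₁] [Module S N₁]
    [IsScalarTower S S₁ N₁]
    [AddCommGroup M] [Module S M] [AddCommGroup M₁] [Module S₁ M₁] [Module S M₁]
    [IsScalarTower S S₁ M₁]
    [AddCommGroup N'] [Module S' N'] [AddCommGroup N₁'] [Module S₁' N₁'] [Module S' N₁']
    [IsScalarTower S' S₁' N₁']
    [AddCommGroup M'] [Module S' M'] [AddCommGroup M₁'] [Module S₁' M₁'] [Module S' M₁']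
    [IsScalarTower S' S₁' M₁']
    {rN : N →ₗ[S] N₁} (hrN : IsBaseChange S₁ rN) (rM : M →ₗ[S] M₁)
    {rN' : N' →ₗ[S'] N₁'} (hrN' : IsBaseChange S₁' rN') (rM' : M' →ₗ[S'] M₁')
    {bN : N →ₛₗ[σ] N'} (hbN : IsSemilinearBaseChange σ bN) (bM : M →ₛₗ[σ] M')
    {bN₁ : N₁ →ₛₗ[σ₁] N₁'} (hbN₁ : IsSemilinearBaseChange σ₁ bN₁) (bM₁ : M₁ →ₛₗ[σ₁] M₁')
    (cN : ∀ s, bN₁ (rN s) = rN' (bN s)) (cM : ∀ s, bM₁ (rM s) = rM' (bM s))
    (f : N →ₗ[S] M) :
    homMapSL hbN₁ bM₁ (IsBaseChange.linearMapLeftRightHom hrN rM f) =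
      IsBaseChange.linearMapLeftRightHom hrN' rM' (homMapSL hbN bM f) := by
  refine semilinear_ext hbN₁ _ _ fun m => ?_
  rw [homMapSL_apply]
  refine hrN.inductionOn m _ ?_ ?_ ?_ ?_
  · simp
  · intro n
    rw [IsBaseChange.linearMapLeftRightHom_comp_apply, cM, cN,
      IsBaseChange.linearMapLeftRightHom_comp_apply, homMapSL_apply]
  · intro s n hn
    rw [map_smul, map_smulₛₗ, map_smulₛₗ, map_smul, hn]
  · intro n₁ n₂ h₁ h₂
    rw [map_add, map_add, map_add, map_add, h₁, h₂]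

/-- **G3.** `ℋom` commutes with base change along a morphism of cospans.
(Exact statement of `H747.Skel.homDatum_isBC`.) -/
theorem homDatum_isBC (ρ₀ : R₀ →+* R₀') (ρ₁ : R₁ →+* R₁') (ρ₀₁ : R₀₁ →+* R₀₁')
    (h₀ : ρ₀₁.comp (algebraMap R₀ R₀₁) = (algebraMap R₀' R₀₁').comp ρ₀)
    (h₁ : ρ₀₁.comp (algebraMap R₁ R₀₁) = (algebraMap R₁' R₀₁').comp ρ₁)
    {G G' : GlueDatum A R₀ R₁ R₀₁} {G₁ G₁' : GlueDatum A' R₀' R₁' R₀₁'}
    (hG : GlueDatum.IsBC ρ₀ ρ₁ ρ₀₁ G G₁) (hG' : GlueDatum.IsBC ρ₀ ρ₁ ρ₀₁ G' G₁') :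
    GlueDatum.IsBC ρ₀ ρ₁ ρ₀₁ (H747.homDatum G G') (H747.homDatum G₁ G₁') := by
  obtain ⟨B⟩ := hG
  obtain ⟨B'⟩ := hG'
  haveI := G.invertible₀
  haveI := G.invertible₁
  haveI : Module.Invertible R₀₁ G.N₀₁ := Module.Invertible.congr G.isBaseChange₀.equiv
  exact ⟨{
    b₀ := homMapSL B.isBaseChange₀ B'.b₀
    b₁ := homMapSL B.isBaseChange₁ B'.b₁
    b₀₁ := homMapSL B.isBaseChange₀₁ B'.b₀₁
    comm₀ := fun f => homMapSL_restrict G.isBaseChange₀ G'.r₀ G₁.isBaseChange₀ G₁'.r₀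
      B.isBaseChange₀ B'.b₀ B.isBaseChange₀₁ B'.b₀₁ B.comm₀ B'.comm₀ f
    comm₁ := fun f => homMapSL_restrict G.isBaseChange₁ G'.r₁ G₁.isBaseChange₁ G₁'.r₁
      B.isBaseChange₁ B'.b₁ B.isBaseChange₀₁ B'.b₀₁ B.comm₁ B'.comm₁ f
    isBaseChange₀ := isSemilinearBaseChange_homMapSL B.isBaseChange₀ B'.isBaseChange₀
    isBaseChange₁ := isSemilinearBaseChange_homMapSL B.isBaseChange₁ B'.isBaseChange₁
    isBaseChange₀₁ := isSemilinearBaseChange_homMapSL B.isBaseChange₀₁ B'.isBaseChange₀₁ }⟩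

end G3

end

end Fermat.Agent.S25.H927

end
-- ===== PACK-END S25/H927/AbAlgHom.lean

-- ===== PACK-BEGIN S25/H207/ChartDedekind.lean
section






/-!
# Dedekind property from the `IsCurveChart` hypotheses

The frozen algebraic interface `IsCurveChart` of row S25 does not contain the hypothesis
"locally standard smooth of relative dimension one"; it contains instead
`Module.Invertible B Ω[B⁄k]` (and smoothness).  This file shows that for a finitely generated
domain `B` over an algebraically closed field `k` the invertibility of `Ω[B⁄k]` alone implies: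

* every localisation of `B` at a maximal ideal is a discrete valuation ring;
* `B` is a Dedekind domain and not a field;
* for every field extension `K` of `k`, `K ⊗[k] B` is a Dedekind domain and not a field, and
  `Ω[K ⊗[k] B⁄K]` is an invertible `K ⊗[k] B`-module.
-/

set_option autoImplicit false

universe u

open TensorProduct

namespace Fermat.Agent.S25.H207

section InvertibleOmega

/-- `(B/m) ⊗ Ω[B/k]` is generated by one element when `Ω[B/k]` is invertible. -/
theorem exists_generator_tensor_of_invertible (k : Type*) {B : Type*} [Field k]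
    [CommRing B] [Algebra k B] [Module.Invertible B Ω[B⁄k]] (m : Ideal B) [hm : m.IsMaximal] :
    ∃ w₀ : (B ⧸ m) ⊗[B] Ω[B⁄k], ∀ w : (B ⧸ m) ⊗[B] Ω[B⁄k], ∃ c : B, c • w₀ = w := by
  letI := Ideal.Quotient.field m
  haveI hinv : Module.Invertible (B ⧸ m) ((B ⧸ m) ⊗[B] Ω[B⁄k]) := inferInstance
  have hrank : Module.rank (B ⧸ m) ((B ⧸ m) ⊗[B] Ω[B⁄k]) = 1 :=
    Module.Invertible.rank_eq_one (B ⧸ m) ((B ⧸ m) ⊗[B] Ω[B⁄k])
  obtain ⟨w₀, -, hw₀⟩ := rank_eq_one_iff.mp hrank
  refine ⟨w₀, fun w => ?_⟩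
  obtain ⟨r, hr⟩ := hw₀ w
  obtain ⟨c, rfl⟩ := Ideal.Quotient.mk_surjective r
  refine ⟨c, ?_⟩
  rw [← hr]
  exact (algebraMap_smul (B ⧸ m) c w₀).symm

/-- Cyclicity of the cotangent space from a generator of `(B/m) ⊗ Ω`. -/
theorem exists_le_span_sup_sq_of_generator (k : Type*) {B : Type*} [Field k] [IsAlgClosed k]
    [CommRing B] [Algebra k B] [Algebra.FiniteType k B] (m : Ideal B) [hm : m.IsMaximal]
    (hgen : ∃ w₀ : (B ⧸ m) ⊗[B] Ω[B⁄k], ∀ w : (B ⧸ m) ⊗[B] Ω[B⁄k], ∃ c : B, c • w₀ = w) :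
    ∃ t ∈ m, m ≤ Ideal.span {t} ⊔ m ^ 2 := by
  classical
  have hker : RingHom.ker (algebraMap B (B ⧸ m)) = m := Ideal.mk_ker
  set I := RingHom.ker (algebraMap B (B ⧸ m)) with hI
  have hinj : Function.Injective (KaehlerDifferential.kerCotangentToTensor k B (B ⧸ m)) :=
    kerCotangentToTensor_injective k m
  obtain ⟨w₀, hw₀⟩ := hgen
  have hkill : ∀ (z : B), z ∈ m → ∀ w : (B ⧸ m) ⊗[B] Ω[B⁄k], z • w = 0 := by
    intro z hz w
    induction w using TensorProduct.induction_on with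
    | zero => simp
    | tmul x y =>
      rw [TensorProduct.smul_tmul']
      have : z • x = 0 := by
        rw [Algebra.smul_def]
        have : algebraMap B (B ⧸ m) z = 0 := Ideal.Quotient.eq_zero_iff_mem.mpr hz
        rw [this, zero_mul]
      rw [this, TensorProduct.zero_tmul]
    | add x y hx hy => rw [smul_add, hx, hy, add_zero]
  -- the cotangent space is cyclic
  have hcyc : ∃ u₀ : I.Cotangent, ∀ v : I.Cotangent, ∃ c : B, c • u₀ = v := by
    by_cases hall : ∀ v : I.Cotangent, v = 0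
    · exact ⟨0, fun v => ⟨0, by rw [hall v]; simp⟩⟩
    · push Not at hall
      obtain ⟨u, hu⟩ := hall
      refine ⟨u, fun v => ?_⟩
      set φ := KaehlerDifferential.kerCotangentToTensor k B (B ⧸ m) with hφ
      obtain ⟨a, ha⟩ := hw₀ (φ u)
      obtain ⟨b, hb⟩ := hw₀ (φ v)
      -- `a ∉ m`, since otherwise `φ u = 0`
      have ha_notin : a ∉ m := by
        intro ham
        apply hu
        apply hinj
        rw [map_zero, ← ha]
        exact hkill a ham w₀
      -- invert `a` modulo `m`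
      obtain ⟨a', ha'⟩ : ∃ a' : B, a' * a - 1 ∈ m := by
        obtain ⟨y, hy⟩ := Ideal.IsMaximal.exists_inv hm ha_notin
        obtain ⟨i, hi, hyi⟩ := hy
        refine ⟨y, ?_⟩
        have : y * a - 1 = -i := by linear_combination hyi
        rw [this]
        exact neg_mem hi
      refine ⟨b * a', ?_⟩
      apply hinj
      rw [map_smul, ← ha, ← hb, smul_smul]
      have h1 : (b * a' * a) • w₀ = b • w₀ + (b * (a' * a - 1)) • w₀ := by
        rw [← add_smul]
        congr 1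
        ring
      rw [h1, hkill _ (Ideal.mul_mem_left _ _ ha'), add_zero]
  obtain ⟨u₀, hu₀⟩ := hcyc
  obtain ⟨t, rfl⟩ := I.toCotangent_surjective u₀
  refine ⟨t.1, hker ▸ t.2, ?_⟩
  intro x hx
  have hxI : x ∈ I := hker.symm ▸ hx
  obtain ⟨c, hc⟩ := hu₀ (I.toCotangent ⟨x, hxI⟩)
  rw [← map_smul] at hc
  have h2 := (Ideal.toCotangent_eq I).mp hc
  have h3 : x = c * t.1 - ((c • t : I).1 - x) := by
    simp
  rw [h3]
  refine sub_mem (Ideal.mem_sup_left (Ideal.mem_span_singleton'.mpr ⟨c, rfl⟩)) ?_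
  refine Ideal.mem_sup_right ?_
  have : m ^ 2 = I ^ 2 := by rw [hker]
  rw [this]
  exact h2

/-- A maximal ideal of `B` is nonzero (when `Ω[B/k]` is invertible and `B` is nontrivial). -/
theorem maximal_ne_bot_of_invertible (k : Type*) {B : Type*} [Field k] [IsAlgClosed k]
    [CommRing B] [Algebra k B] [Algebra.FiniteType k B] [Module.Invertible B Ω[B⁄k]]
    (m : Ideal B) [hm : m.IsMaximal] : m ≠ ⊥ := by
  intro h0
  haveI : Nontrivial B := ⟨⟨0, 1, fun h => hm.ne_top ((Ideal.eq_top_iff_one m).mpr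
    (h ▸ m.zero_mem))⟩⟩
  have hbij := algebraMap_quotient_bijective k m
  have hsurj : Function.Surjective (algebraMap k B) := by
    intro b
    obtain ⟨c, hc⟩ := hbij.2 (Ideal.Quotient.mk m b)
    refine ⟨c, ?_⟩
    have h1 : Ideal.Quotient.mk m (algebraMap k B c) = Ideal.Quotient.mk m b := by
      rw [← hc]; rfl
    have h2 := (Ideal.Quotient.eq).mp h1
    rw [h0, Ideal.mem_bot, sub_eq_zero] at h2
    exact h2
  have hsub : Subsingleton Ω[B⁄k] := KaehlerDifferential.subsingleton_of_surjective k B hsurj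
  -- an invertible module over a nontrivial ring is faithful, hence nontrivial
  have h01 : (0 : B) = 1 := by
    apply FaithfulSMul.eq_of_smul_eq_smul (α := Ω[B⁄k])
    intro ω
    exact Subsingleton.elim _ _
  exact zero_ne_one h01

/-- **The localisation at a maximal ideal is a DVR** (hypothesis: `Ω[B/k]` invertible). -/
theorem isDiscreteValuationRing_of_invertible (k : Type*) {B : Type*} [Field k]
    [IsAlgClosed k] [CommRing B] [IsDomain B] [Algebra k B] [Algebra.FiniteType k B]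
    [Module.Invertible B Ω[B⁄k]] (m : Ideal B) [hm : m.IsMaximal]
    (R : Type*) [CommRing R] [IsDomain R] [Algebra B R] [IsLocalization.AtPrime R m] :
    IsDiscreteValuationRing R := by
  have hBn : IsNoetherianRing B := Algebra.FiniteType.isNoetherianRing k B
  have hRn : IsNoetherianRing R := IsLocalization.isNoetherianRing m.primeCompl R hBn
  have hRl : IsLocalRing R := IsLocalization.AtPrime.isLocalRing R m
  have hinjBR : Function.Injective (algebraMap B R) :=
    IsLocalization.injective R (Ideal.primeCompl_le_nonZeroDivisors m)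
  have hmax : Ideal.map (algebraMap B R) m = IsLocalRing.maximalIdeal R :=
    IsLocalization.AtPrime.map_eq_maximalIdeal m R
  have hnf : ¬ IsField R := by
    intro hf
    have h0 : IsLocalRing.maximalIdeal R = ⊥ := IsLocalRing.isField_iff_maximalIdeal_eq.mp hf
    rw [← hmax, Ideal.map_eq_bot_iff_of_injective hinjBR] at h0
    exact maximal_ne_bot_of_invertible k m h0
  obtain ⟨t, htm, hle⟩ := exists_le_span_sup_sq_of_generator k m
    (exists_generator_tensor_of_invertible k m)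
  have hprinc : (IsLocalRing.maximalIdeal R).IsPrincipal := by
    refine ⟨⟨algebraMap B R t, ?_⟩⟩
    apply le_antisymm
    · have hfg : (IsLocalRing.maximalIdeal R).FG := (isNoetherianRing_iff_ideal_fg R).mp hRn _
      have h1 : IsLocalRing.maximalIdeal R ≤
          Ideal.span {algebraMap B R t} ⊔
            (IsLocalRing.maximalIdeal R) • (IsLocalRing.maximalIdeal R) := by
        rw [← hmax]
        have := Ideal.map_mono (f := algebraMap B R) hle
        rw [Ideal.map_sup, Ideal.map_span, Set.image_singleton, Ideal.map_pow, pow_two] at this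
        exact this
      exact Submodule.le_of_le_smul_of_le_jacobson_bot hfg
        (IsLocalRing.maximalIdeal_le_jacobson ⊥) h1
    · rw [Ideal.submodule_span_eq, Ideal.span_le, Set.singleton_subset_iff, ← hmax]
      exact Ideal.mem_map_of_mem _ htm
  exact ((IsDiscreteValuationRing.TFAE R hnf).out 0 4).mpr hprinc

/-- **`B` is a Dedekind domain** (hypothesis: `Ω[B/k]` invertible). -/
theorem isDedekindDomain_of_invertible_kaehler (k : Type*) {B : Type*} [Field k]
    [IsAlgClosed k] [CommRing B] [IsDomain B] [Algebra k B] [Algebra.FiniteType k B]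
    [Module.Invertible B Ω[B⁄k]] : IsDedekindDomain B := by
  haveI hBn : IsNoetherianRing B := Algebra.FiniteType.isNoetherianRing k B
  exact isDedekindDomain_of_forall_maximal_dvr
    (fun m _ => isDiscreteValuationRing_of_invertible k m _)

/-- **`B` is not a field** (hypothesis: `Ω[B/k]` invertible). -/
theorem not_isField_of_invertible_kaehler (k : Type*) {B : Type*} [Field k]
    [IsAlgClosed k] [CommRing B] [IsDomain B] [Algebra k B] [Algebra.FiniteType k B]
    [Module.Invertible B Ω[B⁄k]] : ¬ IsField B := by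
  intro hf
  have hm : (⊥ : Ideal B).IsMaximal := by
    letI := hf.toField
    exact Ideal.bot_isMaximal
  exact maximal_ne_bot_of_invertible k (⊥ : Ideal B) rfl

end InvertibleOmega

section BaseChange

/-- Invertibility of the Kähler differentials is stable under base change. -/
theorem invertible_kaehler_tensor (k : Type*) (B : Type*) [CommRing k]
    [CommRing B] [Algebra k B] [Module.Invertible B Ω[B⁄k]]
    (K : Type*) [CommRing K] [Algebra k K] :
    Module.Invertible (K ⊗[k] B) Ω[K ⊗[k] B⁄K] := by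
  letI : Algebra B (K ⊗[k] B) := Algebra.TensorProduct.rightAlgebra
  haveI : IsScalarTower k B (K ⊗[k] B) := Algebra.TensorProduct.right_isScalarTower
  haveI : Algebra.IsPushout k K B (K ⊗[k] B) := TensorProduct.isPushout
  haveI : Module.Invertible (K ⊗[k] B) ((K ⊗[k] B) ⊗[B] Ω[B⁄k]) := inferInstance
  exact Module.Invertible.congr (KaehlerDifferential.tensorKaehlerEquiv k K B (K ⊗[k] B))

/-- **Curve chart rings stay Dedekind after every base field extension.** -/
theorem isDedekindDomain_and_not_isField_tensor_of_invertible {k B : Type u} [Field k]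
    [IsAlgClosed k] [CommRing B] [IsDomain B] [Algebra k B] [Algebra.FiniteType k B]
    [Module.Invertible B Ω[B⁄k]] (K : Type u) [Field K] [Algebra k K] :
    IsDedekindDomain (K ⊗[k] B) ∧ ¬ IsField (K ⊗[k] B) := by
  -- the algebraically closed case, applied to the algebraic closure of `K`
  haveI : IsDomain (AlgebraicClosure K ⊗[k] B) := isDomain_tensorProduct
  haveI : Module.Invertible (AlgebraicClosure K ⊗[k] B)
      Ω[AlgebraicClosure K ⊗[k] B⁄AlgebraicClosure K] :=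
    invertible_kaehler_tensor k B (AlgebraicClosure K)
  have hD : IsDedekindDomain (AlgebraicClosure K ⊗[k] B) :=
    isDedekindDomain_of_invertible_kaehler (AlgebraicClosure K)
  have hnf : ¬ IsField (AlgebraicClosure K ⊗[k] B) :=
    not_isField_of_invertible_kaehler (AlgebraicClosure K)
  haveI : IsDomain (K ⊗[k] B) := isDomain_tensorProduct
  haveI : IsNoetherianRing (K ⊗[k] B) := Algebra.FiniteType.isNoetherianRing K (K ⊗[k] B)
  let e := tensorClosureEquiv k B K
  haveI hSdom : IsDomain ((K ⊗[k] B) ⊗[K] (AlgebraicClosure K)) :=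
    e.toMulEquiv.isDomain ((AlgebraicClosure K) ⊗[k] B)
  haveI hSdim : Ring.DimensionLEOne ((K ⊗[k] B) ⊗[K] (AlgebraicClosure K)) :=
    Ring.DimensionLEOne.of_ringEquiv e
  haveI hSic : IsIntegrallyClosed ((K ⊗[k] B) ⊗[K] (AlgebraicClosure K)) :=
    IsIntegrallyClosed.of_equiv e.symm
  refine ⟨isDedekindDomain_of_faithfullyFlat_of_isIntegral (K ⊗[k] B)
    ((K ⊗[k] B) ⊗[K] (AlgebraicClosure K)), ?_⟩
  intro hf
  have hSf : IsField ((K ⊗[k] B) ⊗[K] (AlgebraicClosure K)) :=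
    isField_of_isIntegral_of_isField' hf
  exact hnf (MulEquiv.isField hSf e.symm.toMulEquiv)

end BaseChange

end Fermat.Agent.S25.H207

end
-- ===== PACK-END S25/H207/ChartDedekind.lean

-- ===== PACK-BEGIN S36/H153/IncCtx.lean
section



/-!
# S36 engine, cell INCIDENCE (helper153) — the fields `incidence`, `unique_α`, `unique_β` of
`Eng.TripleCtx`, in chart / valuation-subring vocabulary

Imports: Mathlib + `S18.H138.Charts` (for `chart`) + `H153.Incidence/IncFull` (abstract part).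
The statements are written with `Eng.Through` / `Eng.IsTriple` UNFOLDED
(`Through B 𝔪 V := ∀ b : B, (b : F) ∈ V.nonunits → b ∈ 𝔪`), so this file does not depend on
`S36/Eng/Spec.lean`; `IncSpec.lean` restates the results in the vocabulary of the Spec.

Setting: `F'` (level `q M'`), `F` (level `q² M'`) fields, `α β : F' →+* F`,
`B' ⊆ F'`, `B ⊆ F` subalgebras over `R` (the finite charts), valuation subrings
`V₁ V₂ V₃` of `F` (`FF`, `mid`, `VV`) and `V₁' V₂'` of `F'` (`∞`, `0`).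

Hypotheses (`ChartInc`), all of them elementwise:

* `B ⊆ V₁ ∩ V₂ ∩ V₃`;  `α B' ⊆ B`, `β B' ⊆ B`;  `B` integral over `α B'` and over `β B'`;
  `B'` integrally closed in `F'`;
* the comap table of the Spec;
* `w`-cover: a product `b₁ b₂ ^ e b₃` with `bᵢ ∈ B ∩ 𝔪_{Vᵢ}` is divisible by `w` in `B`
  (from `Qep3` and the multiplicities `1, q - 1, 1`: `mul_of_qep3`);
* incomparability at level `q`: `B' ∩ 𝔪_{V₁'} ⊄ 𝔪_{V₂'}` and `B' ∩ 𝔪_{V₂'} ⊄ 𝔪_{V₁'}`;
* radicial: `b ^ k ≡ α b' mod 𝔪_{V₃}` and `b ^ k ≡ β b' mod 𝔪_{V₁}` for suitable `k > 0`,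
  `b' ∈ B'` (purely inseparable residue extensions of degree `q`, `k = q`).

Results: `ChartInc.incData` (the abstract `IncData` of `Incidence.lean`), and the three fields
`ChartInc.incidence`, `ChartInc.unique_α`, `ChartInc.unique_β` for maximal ideals (prime ideals
for `incidence`).
-/

set_option autoImplicit false
set_option linter.style.haveILetI false
set_option linter.unusedSectionVars false

namespace Fermat.Agent.S36.H153

open Fermat.Agent.S18.H138 (chart)

/-! ## Vertical primes of a subalgebra -/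

section VPrime

variable {R F : Type*} [CommRing R] [Field F] [Algebra R F]

theorem nonunits_add_mem (V : ValuationSubring F) {a b : F} (ha : a ∈ V.nonunits)
    (hb : b ∈ V.nonunits) : a + b ∈ V.nonunits := by
  rw [ValuationSubring.mem_nonunits_iff] at ha hb ⊢
  exact lt_of_le_of_lt (V.valuation.map_add a b) (max_lt ha hb)

theorem nonunits_mul_mem (V : ValuationSubring F) {a b : F} (ha : a ∈ V)
    (hb : b ∈ V.nonunits) : a * b ∈ V.nonunits := by
  rw [ValuationSubring.mem_nonunits_iff] at hb ⊢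
  rw [map_mul]
  have h1 : V.valuation a ≤ 1 := (V.valuation_le_one_iff a).mpr ha
  calc V.valuation a * V.valuation b ≤ 1 * V.valuation b := by gcongr
    _ = V.valuation b := one_mul _
    _ < 1 := hb

theorem nonunits_sub_mem (V : ValuationSubring F) {a b : F} (ha : a ∈ V.nonunits)
    (hb : b ∈ V.nonunits) : a - b ∈ V.nonunits := by
  have h : -b ∈ V.nonunits := by
    rw [ValuationSubring.mem_nonunits_iff] at hb ⊢
    rwa [Valuation.map_neg]
  simpa [sub_eq_add_neg] using nonunits_add_mem V ha h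

theorem mem_of_mem_nonunits (V : ValuationSubring F) {a : F} (ha : a ∈ V.nonunits) : a ∈ V := by
  rw [ValuationSubring.mem_nonunits_iff] at ha
  exact (V.valuation_le_one_iff a).mp ha.le

theorem mem_nonunits_or_of_mul (V : ValuationSubring F) {a b : F} (ha : a ∈ V) (hb : b ∈ V)
    (hab : a * b ∈ V.nonunits) : a ∈ V.nonunits ∨ b ∈ V.nonunits := by
  rw [ValuationSubring.mem_nonunits_iff] at hab
  by_contra hcon
  push Not at hcon
  obtain ⟨h1, h2⟩ := hcon
  rw [ValuationSubring.mem_nonunits_iff, not_lt] at h1 h2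
  have h1' : V.valuation a = 1 := le_antisymm ((V.valuation_le_one_iff a).mpr ha) h1
  have h2' : V.valuation b = 1 := le_antisymm ((V.valuation_le_one_iff b).mpr hb) h2
  rw [map_mul, h1', h2', one_mul] at hab
  exact lt_irrefl _ hab

theorem one_not_mem_nonunits (V : ValuationSubring F) : (1 : F) ∉ V.nonunits := by
  rw [ValuationSubring.mem_nonunits_iff, map_one]
  exact lt_irrefl _

theorem pow_mem_nonunits (V : ValuationSubring F) {a : F} (ha : a ∈ V.nonunits) {k : ℕ}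
    (hk : 0 < k) : a ^ k ∈ V.nonunits := by
  obtain ⟨j, rfl⟩ : ∃ j, k = j + 1 := ⟨k - 1, by omega⟩
  rw [pow_succ]
  exact nonunits_mul_mem V (V.pow_mem (mem_of_mem_nonunits V ha) j) ha

/-- Membership in the maximal ideal of a comap, for a homomorphism of fields. -/
theorem mem_nonunits_comap {F' : Type*} [Field F'] (α : F' →+* F) (V : ValuationSubring F)
    (b : F') : b ∈ (V.comap α).nonunits ↔ α b ∈ V.nonunits := by
  rw [ValuationSubring.mem_nonunits_iff, ValuationSubring.mem_nonunits_iff]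
  by_cases hb : b = 0
  · subst hb; simp
  · have hαb : α b ≠ 0 := (map_ne_zero α).mpr hb
    constructor
    · intro h
      by_contra hcon
      rw [not_lt] at hcon
      have h1 : (α b)⁻¹ ∈ V := by
        rw [← V.valuation_le_one_iff, map_inv₀]
        exact inv_le_one_of_one_le₀ hcon
      have h2 : b⁻¹ ∈ V.comap α := by
        rw [ValuationSubring.mem_comap, map_inv₀]; exact h1
      have h3 : (V.comap α).valuation b⁻¹ ≤ 1 := ((V.comap α).valuation_le_one_iff _).mpr h2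
      rw [map_inv₀] at h3
      have h4 : (V.comap α).valuation b ≠ 0 := ((V.comap α).valuation.ne_zero_iff).mpr hb
      have h5 : 1 ≤ (V.comap α).valuation b := by
        have := (inv_le_one₀ (zero_lt_iff.mpr h4)).mp h3
        exact this
      exact absurd h (not_lt.mpr h5)
    · intro h
      by_contra hcon
      rw [not_lt] at hcon
      have h1 : b⁻¹ ∈ V.comap α := by
        rw [← (V.comap α).valuation_le_one_iff, map_inv₀]
        exact inv_le_one_of_one_le₀ hcon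
      have h2 : (α b)⁻¹ ∈ V := by
        rw [ValuationSubring.mem_comap, map_inv₀] at h1; exact h1
      have h3 : V.valuation (α b)⁻¹ ≤ 1 := (V.valuation_le_one_iff _).mpr h2
      rw [map_inv₀] at h3
      have h4 : V.valuation (α b) ≠ 0 := (V.valuation.ne_zero_iff).mpr hαb
      have h5 : 1 ≤ V.valuation (α b) := (inv_le_one₀ (zero_lt_iff.mpr h4)).mp h3
      exact absurd h (not_lt.mpr h5)

/-- The vertical prime `B ∩ 𝔪_V` of a subalgebra `B ⊆ V`. -/
def vprime (B : Subalgebra R F) (V : ValuationSubring F) (hBV : ∀ b ∈ B, b ∈ V) : Ideal B where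
  carrier := {b | (b : F) ∈ V.nonunits}
  zero_mem' := by
    show ((0 : B) : F) ∈ V.nonunits
    rw [ValuationSubring.mem_nonunits_iff]; simp
  add_mem' := fun {a b} ha hb => by
    show ((a + b : B) : F) ∈ V.nonunits
    rw [Subalgebra.coe_add]
    exact nonunits_add_mem V ha hb
  smul_mem' := fun c b hb => by
    show ((c • b : B) : F) ∈ V.nonunits
    rw [smul_eq_mul, Subalgebra.coe_mul]
    exact nonunits_mul_mem V (hBV _ c.2) hb

theorem mem_vprime {B : Subalgebra R F} {V : ValuationSubring F} {hBV : ∀ b ∈ B, b ∈ V} {b : B} :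
    b ∈ vprime B V hBV ↔ (b : F) ∈ V.nonunits := Iff.rfl

theorem vprime_isPrime (B : Subalgebra R F) (V : ValuationSubring F) (hBV : ∀ b ∈ B, b ∈ V) :
    (vprime B V hBV).IsPrime := by
  refine ⟨?_, ?_⟩
  · intro h
    have h1 : (1 : B) ∈ vprime B V hBV := by rw [h]; trivial
    rw [mem_vprime, Subalgebra.coe_one] at h1
    exact one_not_mem_nonunits V h1
  · intro a b hab
    rw [mem_vprime, Subalgebra.coe_mul] at hab
    exact mem_nonunits_or_of_mul V (hBV _ a.2) (hBV _ b.2) hab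

/-- `Through B 𝔪 V` (unfolded) is `vprime B V ≤ 𝔪`. -/
theorem through_iff {B : Subalgebra R F} {V : ValuationSubring F} {hBV : ∀ b ∈ B, b ∈ V}
    {𝔪 : Ideal B} : (∀ b : B, (b : F) ∈ V.nonunits → b ∈ 𝔪) ↔ vprime B V hBV ≤ 𝔪 :=
  Iff.rfl

/-- A chart is contained in every valuation subring containing `R` and the coordinate. -/
theorem chart_le_valuationSubring (V : ValuationSubring F) {S : Set F}
    (hR : ∀ r : R, algebraMap R F r ∈ V) (hS : ∀ s ∈ S, s ∈ V) : ∀ b ∈ chart R S, b ∈ V := by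
  intro b hb
  rw [Fermat.Agent.S18.H138.mem_chart] at hb
  have hadj : ∀ a ∈ Algebra.adjoin R S, a ∈ V := by
    intro a ha
    induction ha using Algebra.adjoin_induction with
    | mem y hy => exact hS y hy
    | algebraMap r => exact hR r
    | add y z _ _ hy hz => exact V.add_mem _ _ hy hz
    | mul y z _ _ hy hz => exact V.mul_mem _ _ hy hz
  obtain ⟨p, hp, hpb⟩ := hb
  have hint : IsIntegral V b := by
    refine ⟨p.map ((Algebra.adjoin R S).val.toRingHom.codRestrict V (fun a => hadj a a.2)),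
      hp.map _, ?_⟩
    rw [Polynomial.eval₂_map]
    exact hpb
  obtain ⟨y, hy⟩ := (IsIntegrallyClosed.isIntegral_iff (R := V) (K := F)).mp hint
  rw [← hy]
  exact y.2

end VPrime

/-! ## Restriction of a field homomorphism to subalgebras -/

section Res

variable {R F F' : Type*} [CommRing R] [Field F] [Algebra R F] [Field F'] [Algebra R F']

/-- The restriction of `α : F' → F` to subalgebras `B' → B`. -/
def resHom (α : F' →+* F) (B' : Subalgebra R F') (B : Subalgebra R F)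
    (h : ∀ b ∈ B', α b ∈ B) : B' →+* B :=
  (α.comp B'.val.toRingHom).codRestrict B (fun b => h b b.2)

@[simp]
theorem coe_resHom (α : F' →+* F) (B' : Subalgebra R F') (B : Subalgebra R F)
    (h : ∀ b ∈ B', α b ∈ B) (b : B') : ((resHom α B' B h b : B) : F) = α (b : F') := rfl

theorem resHom_injective (α : F' →+* F) (B' : Subalgebra R F') (B : Subalgebra R F)
    (h : ∀ b ∈ B', α b ∈ B) : Function.Injective (resHom α B' B h) := by
  intro a b hab
  have h1 : α (a : F') = α (b : F') := congrArg (fun z : B => (z : F)) hab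
  exact Subtype.ext (α.injective h1)

theorem resHom_isIntegral (α : F' →+* F) (B' : Subalgebra R F') (B : Subalgebra R F)
    (h : ∀ b ∈ B', α b ∈ B)
    (hint : ∀ b ∈ B, ∃ p : Polynomial F', p.Monic ∧ (∀ i, p.coeff i ∈ B') ∧
      (p.map α).eval b = 0) : (resHom α B' B h).IsIntegral := by
  intro b
  obtain ⟨p, hp, hc, he⟩ := hint b b.2
  have hl : p ∈ Polynomial.lifts B'.val.toRingHom := by
    rw [Polynomial.lifts_iff_coeff_lifts]
    intro n
    exact ⟨⟨p.coeff n, hc n⟩, rfl⟩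
  obtain ⟨P, hPp, -, hPm⟩ := Polynomial.lifts_and_degree_eq_and_monic hl hp
  refine ⟨P, hPm, ?_⟩
  apply Subtype.ext
  have h1 : ((Polynomial.eval₂ (resHom α B' B h) b P : B) : F) =
      Polynomial.eval₂ (B.val.toRingHom.comp (resHom α B' B h)) (b : F) P := by
    have := Polynomial.hom_eval₂ P (resHom α B' B h) B.val.toRingHom b
    simpa using this
  rw [h1]
  have h2 : B.val.toRingHom.comp (resHom α B' B h) = α.comp B'.val.toRingHom := by
    ext z; rfl
  rw [h2, ← Polynomial.eval₂_map, hPp, Polynomial.eval₂_eq_eval_map]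
  simpa using he

theorem comap_vprime (α : F' →+* F) (B' : Subalgebra R F') (B : Subalgebra R F)
    (h : ∀ b ∈ B', α b ∈ B) (V : ValuationSubring F) (V' : ValuationSubring F')
    (hBV : ∀ b ∈ B, b ∈ V) (hBV' : ∀ b ∈ B', b ∈ V') (hcomap : V.comap α = V') :
    (vprime B V hBV).comap (resHom α B' B h) = vprime B' V' hBV' := by
  ext b
  rw [Ideal.mem_comap, mem_vprime, mem_vprime, coe_resHom, ← hcomap, mem_nonunits_comap]

/-- A subalgebra of a field which is integrally closed in the field is an integrally closed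
domain. -/
theorem isIntegrallyClosed_of_closed (B' : Subalgebra R F')
    (hcl : ∀ f : F', IsIntegral B' f → f ∈ B') : IsIntegrallyClosed B' := by
  haveI : IsIntegrallyClosedIn B' F' := by
    rw [isIntegrallyClosedIn_iff]
    refine ⟨Subtype.val_injective, fun {x} hx => ⟨⟨x, hcl x hx⟩, rfl⟩⟩
  exact IsIntegrallyClosed.of_isIntegrallyClosedIn B' F'

/-- Charts are integrally closed in the ambient field. -/
theorem chart_closed (S : Set F') (f : F') (hf : IsIntegral (chart R S) f) : f ∈ chart R S := by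
  rw [Fermat.Agent.S18.H138.mem_chart]
  have h1 : IsIntegral (integralClosure (Algebra.adjoin R S) F') f := hf
  exact isIntegral_trans (A := integralClosure (Algebra.adjoin R S) F') f h1

end Res

/-! ## The chart-level incidence datum -/

section Chart

variable {R F F' : Type*} [CommRing R] [Field F] [Algebra R F] [Field F'] [Algebra R F']

/-- **Chart-level incidence hypotheses** (all elementwise; see the header). -/
structure ChartInc (w : R) (e : ℕ) (α β : F' →+* F) (B' : Subalgebra R F') (B : Subalgebra R F)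
    (V₁ V₂ V₃ : ValuationSubring F) (V₁' V₂' : ValuationSubring F') : Prop where
  B_le₁ : ∀ b ∈ B, b ∈ V₁
  B_le₂ : ∀ b ∈ B, b ∈ V₂
  B_le₃ : ∀ b ∈ B, b ∈ V₃
  chart_α : ∀ b ∈ B', α b ∈ B
  chart_β : ∀ b ∈ B', β b ∈ B
  int_α : ∀ b ∈ B, ∃ p : Polynomial F', p.Monic ∧ (∀ i, p.coeff i ∈ B') ∧ (p.map α).eval b = 0
  int_β : ∀ b ∈ B, ∃ p : Polynomial F', p.Monic ∧ (∀ i, p.coeff i ∈ B') ∧ (p.map β).eval b = 0
  closed' : ∀ f : F', IsIntegral B' f → f ∈ B'
  comap_α₁ : V₁.comap α = V₁'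
  comap_α₂ : V₂.comap α = V₁'
  comap_α₃ : V₃.comap α = V₂'
  comap_β₁ : V₁.comap β = V₁'
  comap_β₂ : V₂.comap β = V₂'
  comap_β₃ : V₃.comap β = V₂'
  α_w : α (algebraMap R F' w) = algebraMap R F w
  β_w : β (algebraMap R F' w) = algebraMap R F w
  w_mem₁ : algebraMap R F w ∈ V₁.nonunits
  w_mem₃ : algebraMap R F w ∈ V₃.nonunits
  /-- `w B ⊇ p_FF · p_mid ^ e · p_VV` -/
  cover : ∀ b₁ b₂ b₃ : B, (b₁ : F) ∈ V₁.nonunits → (b₂ : F) ∈ V₂.nonunits →
    (b₃ : F) ∈ V₃.nonunits → ∃ c : B, b₁ * b₂ ^ e * b₃ = algebraMap R B w * c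
  /-- the two vertical primes of level `q` are incomparable -/
  inc₁₂ : ∃ b' ∈ B', b' ∈ V₁'.nonunits ∧ b' ∉ V₂'.nonunits
  inc₂₁ : ∃ b' ∈ B', b' ∈ V₂'.nonunits ∧ b' ∉ V₁'.nonunits
  /-- `VV` is radicial over level `q` via `α` -/
  rad_α : ∀ b ∈ B, ∃ k : ℕ, 0 < k ∧ ∃ b' ∈ B', b ^ k - α b' ∈ V₃.nonunits
  /-- `FF` is radicial over level `q` via `β` -/
  rad_β : ∀ b ∈ B, ∃ k : ℕ, 0 < k ∧ ∃ b' ∈ B', b ^ k - β b' ∈ V₁.nonunits

namespace ChartInc

variable {w : R} {e : ℕ} {α β : F' →+* F} {B' : Subalgebra R F'} {B : Subalgebra R F}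
  {V₁ V₂ V₃ : ValuationSubring F} {V₁' V₂' : ValuationSubring F'}

theorem B'_le₁ (D : ChartInc w e α β B' B V₁ V₂ V₃ V₁' V₂') : ∀ b ∈ B', b ∈ V₁' := by
  intro b hb
  rw [← D.comap_α₁, ValuationSubring.mem_comap]
  exact D.B_le₁ _ (D.chart_α b hb)

theorem B'_le₂ (D : ChartInc w e α β B' B V₁ V₂ V₃ V₁' V₂') : ∀ b ∈ B', b ∈ V₂' := by
  intro b hb
  rw [← D.comap_α₃, ValuationSubring.mem_comap]
  exact D.B_le₃ _ (D.chart_α b hb)

/-- The two degeneracy maps on the charts. -/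
noncomputable abbrev aHom (D : ChartInc w e α β B' B V₁ V₂ V₃ V₁' V₂') : B' →+* B :=
  resHom α B' B D.chart_α

noncomputable abbrev bHom (D : ChartInc w e α β B' B V₁ V₂ V₃ V₁' V₂') : B' →+* B :=
  resHom β B' B D.chart_β

/-- The cover statement: a prime of `B` containing `w` lies on one of the three components. -/
theorem cover_prime (D : ChartInc w e α β B' B V₁ V₂ V₃ V₁' V₂') (p : Ideal B) (hp : p.IsPrime)
    (hw : algebraMap R B w ∈ p) :
    vprime B V₁ D.B_le₁ ≤ p ∨ vprime B V₂ D.B_le₂ ≤ p ∨ vprime B V₃ D.B_le₃ ≤ p := by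
  by_contra hcon
  push Not at hcon
  obtain ⟨h1, h2, h3⟩ := hcon
  obtain ⟨b₁, hb₁, hb₁p⟩ := Set.not_subset.mp h1
  obtain ⟨b₂, hb₂, hb₂p⟩ := Set.not_subset.mp h2
  obtain ⟨b₃, hb₃, hb₃p⟩ := Set.not_subset.mp h3
  obtain ⟨c, hc⟩ := D.cover b₁ b₂ b₃ hb₁ hb₂ hb₃
  have hmem : b₁ * b₂ ^ e * b₃ ∈ p := by rw [hc]; exact p.mul_mem_right _ hw
  rcases hp.mem_or_mem hmem with h12 | h3'
  · rcases hp.mem_or_mem h12 with h1' | h2'
    · exact hb₁p h1'
    · exact hb₂p (hp.mem_of_pow_mem e h2')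
  · exact hb₃p h3'

/-- **The abstract incidence datum of the charts.** -/
theorem incData (D : ChartInc w e α β B' B V₁ V₂ V₃ V₁' V₂') :
    IncData D.aHom D.bHom (vprime B' V₁' D.B'_le₁) (vprime B' V₂' D.B'_le₂)
      (vprime B V₁ D.B_le₁) (vprime B V₂ D.B_le₂) (vprime B V₃ D.B_le₃) := by
  have aint := resHom_isIntegral α B' B D.chart_α D.int_α
  have bint := resHom_isIntegral β B' B D.chart_β D.int_β
  have aFF := comap_vprime α B' B D.chart_α V₁ V₁' D.B_le₁ D.B'_le₁ D.comap_α₁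
  have amid := comap_vprime α B' B D.chart_α V₂ V₁' D.B_le₂ D.B'_le₁ D.comap_α₂
  have aVV := comap_vprime α B' B D.chart_α V₃ V₂' D.B_le₃ D.B'_le₂ D.comap_α₃
  have bFF := comap_vprime β B' B D.chart_β V₁ V₁' D.B_le₁ D.B'_le₁ D.comap_β₁
  have bmid := comap_vprime β B' B D.chart_β V₂ V₂' D.B_le₂ D.B'_le₂ D.comap_β₂
  have bVV := comap_vprime β B' B D.chart_β V₃ V₂' D.B_le₃ D.B'_le₂ D.comap_β₃
  have h12 : ¬ vprime B' V₁' D.B'_le₁ ≤ vprime B' V₂' D.B'_le₂ := by
    obtain ⟨b', hb', h1, h2⟩ := D.inc₁₂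
    intro hle
    exact h2 (hle (show (⟨b', hb'⟩ : B') ∈ vprime B' V₁' D.B'_le₁ from h1))
  have h21 : ¬ vprime B' V₂' D.B'_le₂ ≤ vprime B' V₁' D.B'_le₁ := by
    obtain ⟨b', hb', h1, h2⟩ := D.inc₂₁
    intro hle
    exact h2 (hle (show (⟨b', hb'⟩ : B') ∈ vprime B' V₂' D.B'_le₂ from h1))
  -- `w` at level `q`
  have hw₂' : algebraMap R B' w ∈ vprime B' V₂' D.B'_le₂ := by
    show ((algebraMap R B' w : B') : F') ∈ V₂'.nonunits
    rw [← D.comap_α₃, mem_nonunits_comap]
    have : α ((algebraMap R B' w : B') : F') = algebraMap R F w := D.α_w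
    rw [this]; exact D.w_mem₃
  have hw₁' : algebraMap R B' w ∈ vprime B' V₁' D.B'_le₁ := by
    show ((algebraMap R B' w : B') : F') ∈ V₁'.nonunits
    rw [← D.comap_α₁, mem_nonunits_comap]
    have : α ((algebraMap R B' w : B') : F') = algebraMap R F w := D.α_w
    rw [this]; exact D.w_mem₁
  have haw : D.aHom (algebraMap R B' w) = algebraMap R B w := Subtype.ext D.α_w
  have hbw : D.bHom (algebraMap R B' w) = algebraMap R B w := Subtype.ext D.β_w
  haveI := vprime_isPrime B V₁ D.B_le₁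
  haveI := vprime_isPrime B V₂ D.B_le₂
  haveI := vprime_isPrime B V₃ D.B_le₃
  refine
    { a_inj := resHom_injective α B' B D.chart_α
      b_inj := resHom_injective β B' B D.chart_β
      a_int := aint
      b_int := bint
      primeP1 := vprime_isPrime B' V₁' D.B'_le₁
      primeP2 := vprime_isPrime B' V₂' D.B'_le₂
      primeFF := vprime_isPrime B V₁ D.B_le₁
      primeMid := vprime_isPrime B V₂ D.B_le₂
      primeVV := vprime_isPrime B V₃ D.B_le₃
      a_FF := aFF
      a_mid := amid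
      a_VV := aVV
      b_FF := bFF
      b_mid := bmid
      b_VV := bVV
      a_only := ?_
      b_only := ?_
      a_rad := ?_
      b_rad := ?_ }
  · -- `VV` is the only prime over `C₂'` via `α`
    intro p hp hc
    refine only_of_cover D.aHom aint (P := vprime B' V₂' D.B'_le₂)
      (p₁ := vprime B V₁ D.B_le₁) (p₂ := vprime B V₂ D.B_le₂) (p₃ := vprime B V₃ D.B_le₃)
      hw₂' (fun p hp hwp => D.cover_prime p hp (haw ▸ hwp)) ?_ ?_ aVV p hp hc
    · rw [aFF]; exact h12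
    · rw [amid]; exact h12
  · -- `FF` is the only prime over `C₁'` via `β`
    intro p hp hc
    refine only_of_cover D.bHom bint (P := vprime B' V₁' D.B'_le₁)
      (p₁ := vprime B V₃ D.B_le₃) (p₂ := vprime B V₂ D.B_le₂) (p₃ := vprime B V₁ D.B_le₁)
      hw₁' (fun p hp hwp => ?_) ?_ ?_ bFF p hp hc
    · rcases D.cover_prime p hp (hbw ▸ hwp) with h | h | h
      · exact Or.inr (Or.inr h)
      · exact Or.inr (Or.inl h)
      · exact Or.inl h
    · rw [bVV]; exact h21
    · rw [bmid]; exact h21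
  · intro b
    obtain ⟨k, hk, b', hb', h⟩ := D.rad_α b b.2
    exact ⟨k, hk, ⟨b', hb'⟩, h⟩
  · intro b
    obtain ⟨k, hk, b', hb', h⟩ := D.rad_β b b.2
    exact ⟨k, hk, ⟨b', hb'⟩, h⟩

/-- **Field `incidence` of `Eng.TripleCtx`** (for prime ideals): a point of the chart on two of
the three components is a triple point. -/
theorem incidence (D : ChartInc w e α β B' B V₁ V₂ V₃ V₁' V₂') (𝔪 : Ideal B) (h𝔪 : 𝔪.IsPrime)
    (h : ((∀ b : B, (b : F) ∈ V₁.nonunits → b ∈ 𝔪) ∧ (∀ b : B, (b : F) ∈ V₂.nonunits → b ∈ 𝔪)) ∨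
      ((∀ b : B, (b : F) ∈ V₁.nonunits → b ∈ 𝔪) ∧ (∀ b : B, (b : F) ∈ V₃.nonunits → b ∈ 𝔪)) ∨
      ((∀ b : B, (b : F) ∈ V₂.nonunits → b ∈ 𝔪) ∧ (∀ b : B, (b : F) ∈ V₃.nonunits → b ∈ 𝔪))) :
    (∀ b : B, (b : F) ∈ V₁.nonunits → b ∈ 𝔪) ∧ (∀ b : B, (b : F) ∈ V₂.nonunits → b ∈ 𝔪) ∧
      (∀ b : B, (b : F) ∈ V₃.nonunits → b ∈ 𝔪) := by
  haveI := h𝔪
  haveI : IsIntegrallyClosed B' := isIntegrallyClosed_of_closed B' D.closed'
  exact D.incData.triple_of_two 𝔪 h

/-- The contraction of a maximal ideal along an integral map, order form. -/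
theorem comap_eq_of_forall {A C : Type*} [CommRing A] [CommRing C] (a : A →+* C)
    (ha : a.IsIntegral) (𝔪 𝔪' : Ideal C) (h𝔪 : 𝔪.IsMaximal) (h𝔪' : 𝔪'.IsMaximal)
    (h : ∀ x : A, a x ∈ 𝔪 → a x ∈ 𝔪') : 𝔪'.comap a = 𝔪.comap a := by
  haveI := h𝔪
  haveI := h𝔪'
  haveI : (𝔪.comap a).IsMaximal := Ideal.isMaximal_comap_of_isIntegral_of_isMaximal' a ha 𝔪
  have hne : 𝔪'.comap a ≠ ⊤ := (Ideal.comap_isPrime a 𝔪').ne_top
  exact (Ideal.IsMaximal.eq_of_le ‹(𝔪.comap a).IsMaximal› hne (fun x hx => h x hx)).symm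

/-- **Field `unique_α` of `Eng.TripleCtx`**: a closed point on `VV` (in particular a triple
point) is the only closed point of the chart over its image under `α`. -/
theorem unique_α_of_vv (D : ChartInc w e α β B' B V₁ V₂ V₃ V₁' V₂') (𝔪 𝔪' : Ideal B)
    (h𝔪 : 𝔪.IsMaximal) (h𝔪' : 𝔪'.IsMaximal)
    (ht : ∀ b : B, (b : F) ∈ V₃.nonunits → b ∈ 𝔪)
    (h : ∀ (b' : F') (hb' : b' ∈ B'), (⟨α b', D.chart_α b' hb'⟩ : B) ∈ 𝔪 →
      (⟨α b', D.chart_α b' hb'⟩ : B) ∈ 𝔪') : 𝔪' = 𝔪 := by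
  haveI : IsIntegrallyClosed B' := isIntegrallyClosed_of_closed B' D.closed'
  haveI := h𝔪.isPrime
  haveI := h𝔪'.isPrime
  have hc : 𝔪'.comap D.aHom = 𝔪.comap D.aHom :=
    comap_eq_of_forall D.aHom D.incData.a_int 𝔪 𝔪' h𝔪 h𝔪' (fun x hx => h x.1 x.2 hx)
  exact D.incData.unique_over_a 𝔪 𝔪' ht hc

theorem unique_α (D : ChartInc w e α β B' B V₁ V₂ V₃ V₁' V₂') (𝔪 𝔪' : Ideal B)
    (h𝔪 : 𝔪.IsMaximal) (h𝔪' : 𝔪'.IsMaximal)
    (ht : (∀ b : B, (b : F) ∈ V₁.nonunits → b ∈ 𝔪) ∧ (∀ b : B, (b : F) ∈ V₂.nonunits → b ∈ 𝔪) ∧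
      (∀ b : B, (b : F) ∈ V₃.nonunits → b ∈ 𝔪))
    (h : ∀ (b' : F') (hb' : b' ∈ B'), (⟨α b', D.chart_α b' hb'⟩ : B) ∈ 𝔪 →
      (⟨α b', D.chart_α b' hb'⟩ : B) ∈ 𝔪') : 𝔪' = 𝔪 :=
  D.unique_α_of_vv 𝔪 𝔪' h𝔪 h𝔪' ht.2.2 h

/-- **Field `unique_β` of `Eng.TripleCtx`**: a closed point on `FF` (in particular a triple
point) is the only closed point of the chart over its image under `β`. -/
theorem unique_β_of_ff (D : ChartInc w e α β B' B V₁ V₂ V₃ V₁' V₂') (𝔪 𝔪' : Ideal B)
    (h𝔪 : 𝔪.IsMaximal) (h𝔪' : 𝔪'.IsMaximal)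
    (ht : ∀ b : B, (b : F) ∈ V₁.nonunits → b ∈ 𝔪)
    (h : ∀ (b' : F') (hb' : b' ∈ B'), (⟨β b', D.chart_β b' hb'⟩ : B) ∈ 𝔪 →
      (⟨β b', D.chart_β b' hb'⟩ : B) ∈ 𝔪') : 𝔪' = 𝔪 := by
  haveI : IsIntegrallyClosed B' := isIntegrallyClosed_of_closed B' D.closed'
  haveI := h𝔪.isPrime
  haveI := h𝔪'.isPrime
  have hc : 𝔪'.comap D.bHom = 𝔪.comap D.bHom :=
    comap_eq_of_forall D.bHom D.incData.b_int 𝔪 𝔪' h𝔪 h𝔪' (fun x hx => h x.1 x.2 hx)
  exact D.incData.unique_over_b 𝔪 𝔪' ht hc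

theorem unique_β (D : ChartInc w e α β B' B V₁ V₂ V₃ V₁' V₂') (𝔪 𝔪' : Ideal B)
    (h𝔪 : 𝔪.IsMaximal) (h𝔪' : 𝔪'.IsMaximal)
    (ht : (∀ b : B, (b : F) ∈ V₁.nonunits → b ∈ 𝔪) ∧ (∀ b : B, (b : F) ∈ V₂.nonunits → b ∈ 𝔪) ∧
      (∀ b : B, (b : F) ∈ V₃.nonunits → b ∈ 𝔪))
    (h : ∀ (b' : F') (hb' : b' ∈ B'), (⟨β b', D.chart_β b' hb'⟩ : B) ∈ 𝔪 →
      (⟨β b', D.chart_β b' hb'⟩ : B) ∈ 𝔪') : 𝔪' = 𝔪 :=
  D.unique_β_of_ff 𝔪 𝔪' h𝔪 h𝔪' ht.1 h

end ChartInc

end Chart

/-! ## Adapters for the hypotheses `cover`, `rad_α`, `rad_β` -/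

section Adapters

variable {R F F' : Type*} [CommRing R] [Field F] [Algebra R F] [Field F'] [Algebra R F']

/-- `cover` from the `q`-expansion principle `Qep3` (unfolded) and the multiplicities:
`w` divides every element of `𝔪_{V₁}` and of `𝔪_{V₃}`, and the `e`-th power of every element of
`𝔪_{V₂}` (`e = q - 1`). -/
theorem cover_of_qep (w : R) (e : ℕ) (B : Subalgebra R F) (V₁ V₂ V₃ : ValuationSubring F)
    (hB₁ : ∀ b ∈ B, b ∈ V₁) (hB₂ : ∀ b ∈ B, b ∈ V₂) (hB₃ : ∀ b ∈ B, b ∈ V₃)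
    (qep : ∀ b : B, (b : F) * (algebraMap R F w)⁻¹ ∈ V₁ → (b : F) * (algebraMap R F w)⁻¹ ∈ V₂ →
      (b : F) * (algebraMap R F w)⁻¹ ∈ V₃ → ∃ c : B, b = algebraMap R B w * c)
    (u₁ : ∀ f ∈ V₁.nonunits, f * (algebraMap R F w)⁻¹ ∈ V₁)
    (u₂ : ∀ f ∈ V₂.nonunits, f ^ e * (algebraMap R F w)⁻¹ ∈ V₂)
    (u₃ : ∀ f ∈ V₃.nonunits, f * (algebraMap R F w)⁻¹ ∈ V₃)
    (b₁ b₂ b₃ : B) (h₁ : (b₁ : F) ∈ V₁.nonunits) (h₂ : (b₂ : F) ∈ V₂.nonunits)
    (h₃ : (b₃ : F) ∈ V₃.nonunits) : ∃ c : B, b₁ * b₂ ^ e * b₃ = algebraMap R B w * c := by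
  refine qep (b₁ * b₂ ^ e * b₃) ?_ ?_ ?_
  · have : ((b₁ * b₂ ^ e * b₃ : B) : F) * (algebraMap R F w)⁻¹ =
        ((b₁ : F) * (algebraMap R F w)⁻¹) * ((b₂ : F) ^ e * (b₃ : F)) := by
      push_cast; ring
    rw [this]
    exact V₁.mul_mem _ _ (u₁ _ h₁)
      (V₁.mul_mem _ _ (V₁.pow_mem (hB₁ _ b₂.2) e) (hB₁ _ b₃.2))
  · have : ((b₁ * b₂ ^ e * b₃ : B) : F) * (algebraMap R F w)⁻¹ =
        ((b₂ : F) ^ e * (algebraMap R F w)⁻¹) * ((b₁ : F) * (b₃ : F)) := by
      push_cast; ring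
    rw [this]
    exact V₂.mul_mem _ _ (u₂ _ h₂) (V₂.mul_mem _ _ (hB₂ _ b₁.2) (hB₂ _ b₃.2))
  · have : ((b₁ * b₂ ^ e * b₃ : B) : F) * (algebraMap R F w)⁻¹ =
        ((b₃ : F) * (algebraMap R F w)⁻¹) * ((b₁ : F) * (b₂ : F) ^ e) := by
      push_cast; ring
    rw [this]
    exact V₃.mul_mem _ _ (u₃ _ h₃)
      (V₃.mul_mem _ _ (hB₃ _ b₁.2) (V₃.pow_mem (hB₃ _ b₂.2) e))

/-- The hypothesis `u₂` of `cover_of_qep` from a uniformiser `t ≠ 0` of `V₂` with
`w = unit · t ^ e`  (field `ram₂` of the Spec). -/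
theorem pow_div_mem_of_ram (V : ValuationSubring F) (ϖ t : F) (e : ℕ) (ht : t ≠ 0)
    (hunif : ∀ f ∈ V.nonunits, f * t⁻¹ ∈ V) (hram : (ϖ * (t ^ e)⁻¹)⁻¹ ∈ V) :
    ∀ f ∈ V.nonunits, f ^ e * ϖ⁻¹ ∈ V := by
  intro f hf
  by_cases hϖ : ϖ = 0
  · subst hϖ
    simp [V.zero_mem]
  have h1 : f ^ e * ϖ⁻¹ = (f * t⁻¹) ^ e * (ϖ * (t ^ e)⁻¹)⁻¹ := by
    have hte : t ^ e ≠ 0 := pow_ne_zero e ht
    rw [mul_pow, inv_pow, mul_inv, inv_inv]
    field_simp
  rw [h1]
  exact V.mul_mem _ _ (V.pow_mem (hunif f hf) e) hram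

/-- Congruent elements of `V` have congruent values under a polynomial with coefficients in
`V`. -/
theorem eval_sub_eval_mem_nonunits (V : ValuationSubring F) (p : Polynomial F)
    (hp : ∀ i, p.coeff i ∈ V) {a b : F} (ha : a ∈ V) (hb : b ∈ V) (hab : a - b ∈ V.nonunits) :
    p.eval a - p.eval b ∈ V.nonunits := by
  obtain ⟨c, hc⟩ : ∃ c ∈ V, p.eval a - p.eval b = c * (a - b) := by
    have key : ∀ n : ℕ, ∃ c ∈ V, a ^ n - b ^ n = c * (a - b) := by
      intro n
      induction n with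
      | zero => exact ⟨0, V.zero_mem, by simp⟩
      | succ n ih =>
        obtain ⟨c, hcV, hc⟩ := ih
        refine ⟨a ^ n + c * b, V.add_mem _ _ (V.pow_mem ha n) (V.mul_mem _ _ hcV hb), ?_⟩
        have : a ^ (n + 1) - b ^ (n + 1) = a ^ n * (a - b) + (a ^ n - b ^ n) * b := by ring
        rw [this, hc]; ring
    choose c hcV hc using key
    refine ⟨∑ i ∈ p.support, p.coeff i * c i,
      V.toSubring.sum_mem (fun i _ => V.mul_mem _ _ (hp i) (hcV i)), ?_⟩
    rw [Polynomial.eval_eq_sum, Polynomial.eval_eq_sum, Polynomial.sum, Polynomial.sum,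
      ← Finset.sum_sub_distrib, Finset.sum_mul]
    refine Finset.sum_congr rfl (fun i _ => ?_)
    rw [← mul_sub, hc i]; ring
  obtain ⟨hcV, hc⟩ := hc
  rw [hc]
  exact nonunits_mul_mem V hcV hab

/-- **Radicial from valuation-level inseparability and normality of the component of level
`q`.**  If every element of `V` has its `k`-th power congruent modulo `𝔪_V` to an element of
`β F'`, and `B'` is `NormalAlong V' = V.comap β` (unfolded), then every element of `B` has its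
`k`-th power congruent modulo `𝔪_V` to an element of `β B'`. -/
theorem rad_of_insep_normal (β : F' →+* F) (B' : Subalgebra R F') (B : Subalgebra R F)
    (V : ValuationSubring F) (V' : ValuationSubring F') (k : ℕ)
    (hBV : ∀ b ∈ B, b ∈ V) (hBV' : ∀ b ∈ B', b ∈ V') (hcomap : V.comap β = V')
    (hint : ∀ b ∈ B, ∃ p : Polynomial F', p.Monic ∧ (∀ i, p.coeff i ∈ B') ∧
      (p.map β).eval b = 0)
    (insep : ∀ f ∈ V, ∃ g : F', f ^ k - β g ∈ V.nonunits)
    (normal' : ∀ (f : F') (p : Polynomial B'), p.Monic →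
      Polynomial.aeval f p ∈ V'.nonunits → ∃ b : B', f - (b : F') ∈ V'.nonunits) :
    ∀ b ∈ B, ∃ b' ∈ B', b ^ k - β b' ∈ V.nonunits := by
  intro b hb
  have hbk : b ^ k ∈ B := B.pow_mem hb k
  obtain ⟨g, hg⟩ := insep b (hBV b hb)
  obtain ⟨p, hp, hc, he⟩ := hint (b ^ k) hbk
  -- `β g ∈ V`
  have hβg : β g ∈ V := by
    have h1 : β g = b ^ k - (b ^ k - β g) := by ring
    rw [h1]
    exact V.toSubring.sub_mem (hBV _ hbk) (mem_of_mem_nonunits V hg)
  -- `p(g) ∈ 𝔪_{V'}`
  have hcoef : ∀ i, (p.map β).coeff i ∈ V := by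
    intro i
    rw [Polynomial.coeff_map]
    have : p.coeff i ∈ V' := hBV' _ (hc i)
    rw [← hcomap, ValuationSubring.mem_comap] at this
    exact this
  have h2 : (p.map β).eval (β g) ∈ V.nonunits := by
    have h3 := eval_sub_eval_mem_nonunits V (p.map β) hcoef (hBV _ hbk) hβg hg
    rw [he, zero_sub] at h3
    have h4 : -(-(Polynomial.eval (β g) (Polynomial.map β p))) ∈ V.nonunits := by
      rw [ValuationSubring.mem_nonunits_iff] at h3 ⊢
      rwa [Valuation.map_neg]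
    simpa using h4
  have h5 : p.eval g ∈ V'.nonunits := by
    rw [← hcomap, mem_nonunits_comap, ← Polynomial.eval₂_hom, ← Polynomial.eval_map]
    exact h2
  -- lift the coefficients to `B'`
  have hl : p ∈ Polynomial.lifts B'.val.toRingHom := by
    rw [Polynomial.lifts_iff_coeff_lifts]
    intro n
    exact ⟨⟨p.coeff n, hc n⟩, rfl⟩
  obtain ⟨P, hPp, -, hPm⟩ := Polynomial.lifts_and_degree_eq_and_monic hl hp
  have h6 : Polynomial.aeval g P = p.eval g := by
    rw [← hPp, Polynomial.eval_map]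
    rfl
  obtain ⟨b', hb'⟩ := normal' g P hPm (h6 ▸ h5)
  refine ⟨b', b'.2, ?_⟩
  have h7 : β (g - (b' : F')) ∈ V.nonunits := by
    rw [← mem_nonunits_comap, hcomap]; exact hb'
  have h8 : b ^ k - β (b' : F') = (b ^ k - β g) + β (g - (b' : F')) := by
    rw [map_sub]; ring
  rw [h8]
  exact nonunits_add_mem V hg h7

end Adapters

end Fermat.Agent.S36.H153

end
-- ===== PACK-END S36/H153/IncCtx.lean

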