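import Mathlib
import Fermat.Prelude.Thm_Subgroup_IsArithmetic_exists_nat_mem_strictPeriods_conj
import Fermat.Prelude.Def_CuspForm_HeckeAlgebra
import Fermat.Agent.Pack.S43MC.G0E8L2
import Fermat.Agent.Pack.S43MC.G0E8L3
import Fermat.Agent.Pack.S43MC.G0E1L3
import Fermat.Agent.Pack.S43MC.G0E1L1
import Fermat.Agent.Pack.S43MC.G0E6L0
import Fermat.Agent.Pack.S43MC.G0E5L0
import Fermat.Agent.Pack.S43MC.G0E5L2
import Fermat.Agent.Pack.S43MC.G0E5L1
import Fermat.Agent.Pack.S43MC.G0E0L0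
import Fermat.Agent.Pack.S43MC.G0E1L2
import Fermat.Agent.Pack.S43MC.G0E6L2
import Fermat.Agent.Pack.S43MC.G0E6L1
import Fermat.Agent.Pack.S43MC.G0E8L0
import Fermat.Agent.Pack.S43MC.G0E9L2
import Fermat.Agent.Pack.S43MC.G0E9L1
import Fermat.Agent.Pack.S43MC.G0E9L3
import Fermat.Agent.Pack.S43MC.G0E10L0
import Fermat.Agent.Pack.Fast891

-- ===== PACK-BEGIN S25/H490/ACPtIso.lean
section
/-
S25, block ALGCHARTS, leaf PT-ISO (helper490): two gluing data with the same Hilbert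
coordinates are isomorphic.  Elementary route (no localisation of modules, no McCoy):
* elements `≡ 1 mod y` of `A ⊗ B₁` are nonzerodivisors (`y`-adic separatedness);
* hence the sections `s₀`, `s₁`, `σ = r₁ s₁` are torsion-free (SH1 / INJ);
* `N₀ ≅ N₀'` by `DivGen.equiv` (both carry a section with divisor `J`);
* `N₀₁ ≅ N₀₁'` by base change, and it matches `r₁ N₁` with `r₁' N₁'` by the sheaf property for
  the cover `D(y) ∪ D(v)` of `Spec (A ⊗ B₁)`.
-/




set_option autoImplicit false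
set_option linter.style.haveILetI false
set_option linter.unusedSectionVars false

universe u

open scoped TensorProduct
open Polynomial

namespace Fermat.Agent.S25.H490

open Fermat.Agent.S25 Fermat.Agent.S25.H11

variable {k : Type u} [Field k] [IsAlgClosed k]
  {B₀ B₁ B₀₁ : Type u} [CommRing B₀] [CommRing B₁] [CommRing B₀₁]
  [Algebra k B₀] [Algebra k B₁] [Algebra k B₀₁] [Algebra B₀ B₀₁] [Algebra B₁ B₀₁]
  [IsScalarTower k B₀ B₀₁] [IsScalarTower k B₁ B₀₁]
  {x : B₀} {y : B₁} {e : B₁ →ₐ[k] k}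

section Facts

variable {A : Type u} [CommRing A] [Algebra k A]

/-- Elements `≡ 1 mod y` of `A ⊗ B₁` are nonzerodivisors. -/
theorem eq_zero_of_mul_eq_zero_of_sub_one_mem_yElt (hC : IsCurveChart k B₀ B₁ B₀₁ x y e)
    (v r : A ⊗[k] B₁) (hv : v - 1 ∈ Ideal.span {yElt k A y}) (h : v * r = 0) : r = 0 := by
  haveI := hC.isDomain₁
  obtain ⟨n, φ, hφ⟩ := H250.exists_equivariant_equiv (H250.aeval_y_injective hC) hC.finite₁
  obtain ⟨Φ, hΦ⟩ := H250.exists_equivariant_equiv_tensor φ hφ A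
  exact eq_zero_of_mul_eq_zero_of_sub_one_mem (yElt k A y) Φ hΦ v r hv h

theorem algebraMap_yElt :
    algebraMap (A ⊗[k] B₁) (A ⊗[k] B₀₁) (yElt k A y) = (1 : A) ⊗ₜ[k] algebraMap B₁ B₀₁ y :=
  H250.algebraMap_tensor_tmul A B₁ B₀₁ 1 y

theorem xElt_mul_yElt (hC : IsCurveChart k B₀ B₁ B₀₁ x y e) :
    xElt k B₀₁ A x * algebraMap (A ⊗[k] B₁) (A ⊗[k] B₀₁) (yElt k A y) = 1 := by
  rw [algebraMap_yElt, xElt, Algebra.TensorProduct.tmul_mul_tmul, one_mul, hC.mul_eq_one]
  rfl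

theorem isUnit_xElt (hC : IsCurveChart k B₀ B₁ B₀₁ x y e) : IsUnit (xElt k B₀₁ A x) :=
  IsUnit.of_mul_eq_one _ (xElt_mul_yElt hC)

theorem isUnit_algebraMap_yElt (hC : IsCurveChart k B₀ B₁ B₀₁ x y e) :
    IsUnit (algebraMap (A ⊗[k] B₁) (A ⊗[k] B₀₁) (yElt k A y)) :=
  IsUnit.of_mul_eq_one _ (by rw [mul_comm]; exact xElt_mul_yElt hC)

theorem algebraMap_R0_injective (hC : IsCurveChart k B₀ B₁ B₀₁ x y e) :
    Function.Injective (algebraMap (A ⊗[k] B₀) (A ⊗[k] B₀₁)) :=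
  H250.r0_injective hC (GlueDatum.unit A (A ⊗[k] B₀) (A ⊗[k] B₁) (A ⊗[k] B₀₁))

variable (G : CurveGD k B₀ B₁ B₀₁ A)

theorem r1_inj (hC : IsCurveChart k B₀ B₁ B₀₁ x y e) : Function.Injective G.r₁ :=
  H250.r1_injective hC G

theorem r0_inj (hC : IsCurveChart k B₀ B₁ B₀₁ x y e) : Function.Injective G.r₀ :=
  H250.r0_injective hC G

/-- Localisation property of `r₁`, with `R₁`-scalars. -/
theorem exists_yElt_pow_smul_eq (hC : IsCurveChart k B₀ B₁ B₀₁ x y e) (z : G.N₀₁) :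
    ∃ (a : ℕ) (n : G.N₁), (yElt k A y) ^ a • z = G.r₁ n := by
  haveI := hC.away₀
  haveI := hC.away₁
  obtain ⟨a, ha⟩ := H250.exists_pow_smul_eq (A := A) B₁ B₀₁ y G.r₁ G.isBaseChange₁ z
  obtain ⟨n, hn⟩ := ha a le_rfl
  refine ⟨a, n, ?_⟩
  rw [← hn, ← algebraMap_smul (A ⊗[k] B₀₁) ((yElt k A y) ^ a) z, map_pow, algebraMap_yElt]

/-- The data of a section with divisor `J` not vanishing on `E₀`. -/
structure SecDiv (x : B₀) (y : B₁) (n : ℕ) (G : CurveGD k B₀ B₁ B₀₁ A) (s : G.N₀ × G.N₁)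
    (J : Ideal (A ⊗[k] B₀)) : Prop where
  mem : s ∈ sec x n G
  gen : GenModY y G s.2
  span : Submodule.span (A ⊗[k] B₀) {s.1} = J • (⊤ : Submodule (A ⊗[k] B₀) G.N₀)

variable {G} {n : ℕ} {s : G.N₀ × G.N₁} {J : Ideal (A ⊗[k] B₀)}

/-- (F1) Nakayama. -/
theorem SecDiv.exists_v (h : SecDiv x y n G s J) :
    ∃ v : A ⊗[k] B₁, v - 1 ∈ Ideal.span {yElt k A y} ∧
      ∀ m : G.N₁, ∃ ρ : A ⊗[k] B₁, v • m = ρ • s.2 := by
  haveI := G.invertible₁
  exact exists_sub_one_mem_forall_smul_eq (yElt k A y) s.2 h.gen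

/-- (F2) `s₁` is torsion-free. -/
theorem SecDiv.tf₁ (hC : IsCurveChart k B₀ B₁ B₀₁ x y e) (h : SecDiv x y n G s J)
    (r : A ⊗[k] B₁) (hr : r • s.2 = 0) : r = 0 := by
  haveI := G.invertible₁
  obtain ⟨v, hv, hgen⟩ := h.exists_v
  have h1 : v * r = 0 := by
    apply eq_zero_of_forall_smul_eq_zero (M := G.N₁)
    intro m
    obtain ⟨ρ, hρ⟩ := hgen m
    rw [mul_comm, mul_smul, hρ, smul_comm, hr, smul_zero]
  exact eq_zero_of_mul_eq_zero_of_sub_one_mem_yElt hC v r hv h1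

/-- (F3) `σ = r₁ s₁` is torsion-free over `A ⊗ B₀₁`. -/
theorem SecDiv.tf₀₁ (hC : IsCurveChart k B₀ B₁ B₀₁ x y e) (h : SecDiv x y n G s J)
    (ρ' : A ⊗[k] B₀₁) (hρ' : ρ' • G.r₁ s.2 = 0) : ρ' = 0 := by
  haveI := hC.away₀
  haveI := hC.away₁
  haveI : IsLocalization.Away ((1 : A) ⊗ₜ[k] y : A ⊗[k] B₁) (A ⊗[k] B₀₁) :=
    H250.isLocalization_away_tensor B₁ B₀₁ y
  obtain ⟨a, ρ₁, hρ₁⟩ := IsLocalization.Away.surj ((1 : A) ⊗ₜ[k] y : A ⊗[k] B₁) ρ'
  have h1 : ρ₁ • G.r₁ s.2 = 0 := by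
    rw [← algebraMap_smul (A ⊗[k] B₀₁) ρ₁ (G.r₁ s.2), ← hρ₁, mul_comm, mul_smul, hρ', smul_zero]
  have h2 : ρ₁ = 0 := by
    apply h.tf₁ hC
    apply r1_inj G hC
    rw [map_smul, h1, map_zero]
  rw [h2, map_zero] at hρ₁
  have hu : IsUnit (algebraMap (A ⊗[k] B₁) (A ⊗[k] B₀₁) ((1 : A) ⊗ₜ[k] y) ^ a) :=
    (isUnit_algebraMap_yElt (A := A) hC).pow a
  exact (hu.mul_left_eq_zero).mp hρ₁

theorem SecDiv.r₀_eq (h : SecDiv x y n G s J) :
    G.r₀ s.1 = xElt k B₀₁ A x ^ n • G.r₁ s.2 := mem_sec.mp h.mem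

/-- (F4) `s₀` is torsion-free. -/
theorem SecDiv.tf₀ (hC : IsCurveChart k B₀ B₁ B₀₁ x y e) (h : SecDiv x y n G s J)
    (r : A ⊗[k] B₀) (hr : r • s.1 = 0) : r = 0 := by
  apply algebraMap_R0_injective (A := A) hC
  rw [map_zero]
  have h1 : (algebraMap (A ⊗[k] B₀) (A ⊗[k] B₀₁) r * xElt k B₀₁ A x ^ n) • G.r₁ s.2 = 0 := by
    rw [mul_smul, ← h.r₀_eq, algebraMap_smul, ← map_smul, hr, map_zero]
  have h2 := h.tf₀₁ hC _ h1
  exact (((isUnit_xElt (A := A) hC).pow n).mul_left_eq_zero).mp h2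

/-- (F5) `J` acts faithfully on elements of `N₀`. -/
theorem SecDiv.sep₀ (hC : IsCurveChart k B₀ B₁ B₀₁ x y e) (h : SecDiv x y n G s J)
    (m : G.N₀) (hm : ∀ j ∈ J, j • m = 0) : m = 0 := by
  haveI := G.invertible₀
  rw [← Module.forall_dual_apply_eq_zero_iff (A ⊗[k] B₀)]
  intro φ
  apply h.tf₀ hC
  have hs : s.1 ∈ J • (⊤ : Submodule (A ⊗[k] B₀) G.N₀) := by
    rw [← h.span]
    exact Submodule.mem_span_singleton_self _
  refine Submodule.smul_induction_on hs ?_ ?_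
  · intro j hj z _
    have : φ m * j = 0 := by
      rw [mul_comm, ← smul_eq_mul, ← map_smul, hm j hj, map_zero]
    rw [smul_smul, this, zero_smul]
  · intro z z' hz hz'
    rw [smul_add, hz, hz', add_zero]

theorem SecDiv.divGen (hC : IsCurveChart k B₀ B₁ B₀₁ x y e) (h : SecDiv x y n G s J) :
    DivGen J s.1 :=
  ⟨h.span, h.tf₀ hC, h.sep₀ hC⟩

end Facts

section Iso

variable {A : Type u} [CommRing A] [Algebra k A]
  {G G' : CurveGD k B₀ B₁ B₀₁ A} {n : ℕ} {s : G.N₀ × G.N₁} {s' : G'.N₀ × G'.N₁}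
  {J : Ideal (A ⊗[k] B₀)}

/-- The isomorphism on the first chart. -/
noncomputable def iso₀ (hC : IsCurveChart k B₀ B₁ B₀₁ x y e) (h : SecDiv x y n G s J)
    (h' : SecDiv x y n G' s' J) : G.N₀ ≃ₗ[A ⊗[k] B₀] G'.N₀ :=
  (h.divGen hC).equiv (h'.divGen hC)

theorem iso₀_apply (hC : IsCurveChart k B₀ B₁ B₀₁ x y e) (h : SecDiv x y n G s J)
    (h' : SecDiv x y n G' s' J) : iso₀ hC h h' s.1 = s'.1 :=
  (h.divGen hC).equiv_apply_self (h'.divGen hC)

/-- The isomorphism on the intersection. -/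
noncomputable def iso₀₁ (hC : IsCurveChart k B₀ B₁ B₀₁ x y e) (h : SecDiv x y n G s J)
    (h' : SecDiv x y n G' s' J) : G.N₀₁ ≃ₗ[A ⊗[k] B₀₁] G'.N₀₁ :=
  bcEquiv G.isBaseChange₀ G'.isBaseChange₀ (iso₀ hC h h')

theorem iso₀₁_r₀ (hC : IsCurveChart k B₀ B₁ B₀₁ x y e) (h : SecDiv x y n G s J)
    (h' : SecDiv x y n G' s' J) (m : G.N₀) :
    iso₀₁ hC h h' (G.r₀ m) = G'.r₀ (iso₀ hC h h' m) :=
  bcEquiv_apply _ _ _ m

theorem iso₀₁_symm_r₀ (hC : IsCurveChart k B₀ B₁ B₀₁ x y e) (h : SecDiv x y n G s J)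
    (h' : SecDiv x y n G' s' J) (m : G'.N₀) :
    (iso₀₁ hC h h').symm (G'.r₀ m) = G.r₀ ((iso₀ hC h h').symm m) :=
  bcEquiv_symm_apply _ _ _ m

/-- (F7) the isomorphism matches `σ` and `σ'`. -/
theorem iso₀₁_σ (hC : IsCurveChart k B₀ B₁ B₀₁ x y e) (h : SecDiv x y n G s J)
    (h' : SecDiv x y n G' s' J) : iso₀₁ hC h h' (G.r₁ s.2) = G'.r₁ s'.2 := by
  have h1 : xElt k B₀₁ A x ^ n • iso₀₁ hC h h' (G.r₁ s.2) =
      xElt k B₀₁ A x ^ n • G'.r₁ s'.2 := by
    rw [← map_smul, ← h.r₀_eq, iso₀₁_r₀, iso₀_apply, h'.r₀_eq]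
  exact ((isUnit_xElt (A := A) hC).pow n).smul_left_cancel.mp h1

theorem iso₀₁_symm_σ (hC : IsCurveChart k B₀ B₁ B₀₁ x y e) (h : SecDiv x y n G s J)
    (h' : SecDiv x y n G' s' J) : (iso₀₁ hC h h').symm (G'.r₁ s'.2) = G.r₁ s.2 := by
  rw [LinearEquiv.symm_apply_eq, iso₀₁_σ]

theorem exists_common_v (h : SecDiv x y n G s J) (h' : SecDiv x y n G' s' J) :
    ∃ w : A ⊗[k] B₁, w - 1 ∈ Ideal.span {yElt k A y} ∧
      (∀ m : G.N₁, ∃ ρ : A ⊗[k] B₁, w • m = ρ • s.2) ∧
      (∀ m : G'.N₁, ∃ ρ : A ⊗[k] B₁, w • m = ρ • s'.2) := by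
  obtain ⟨v, hv, hg⟩ := h.exists_v
  obtain ⟨v', hv', hg'⟩ := h'.exists_v
  refine ⟨v * v', ?_, fun m => ?_, fun m => ?_⟩
  · have : v * v' - 1 = v * (v' - 1) + (v - 1) := by ring
    rw [this]
    exact Ideal.add_mem _ (Ideal.mul_mem_left _ _ hv') hv
  · obtain ⟨ρ, hρ⟩ := hg m
    exact ⟨v' * ρ, by rw [mul_comm v v', mul_smul, hρ, mul_smul]⟩
  · obtain ⟨ρ, hρ⟩ := hg' m
    exact ⟨v * ρ, by rw [mul_smul, hρ, mul_smul]⟩

/-- (F8) an isomorphism over the intersection matching `σ` and `σ'` maps `r₁ N₁` into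
`r₁' N₁'`. -/
theorem mem_range_of_map_σ (hC : IsCurveChart k B₀ B₁ B₀₁ x y e) (h : SecDiv x y n G s J)
    (h' : SecDiv x y n G' s' J) (E : G.N₀₁ ≃ₗ[A ⊗[k] B₀₁] G'.N₀₁)
    (hE : E (G.r₁ s.2) = G'.r₁ s'.2) (m : G.N₁) :
    E (G.r₁ m) ∈ LinearMap.range G'.r₁ := by
  obtain ⟨w, hw, hg, hg'⟩ := exists_common_v h h'
  rw [mem_range_iff_of_sub_one_mem G'.r₁ (yElt k A y) w hw s'.2
    (exists_yElt_pow_smul_eq G' hC) hg']
  obtain ⟨ρ, hρ⟩ := hg m
  refine ⟨ρ, ?_⟩
  have hsm : ∀ (c : A ⊗[k] B₁) (z : G.N₀₁), E (c • z) = c • E z := by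
    intro c z
    rw [← algebraMap_smul (A ⊗[k] B₀₁) c z, map_smul, algebraMap_smul]
  rw [← hE, ← hsm, ← hsm, ← map_smul, hρ, map_smul]

/-- The isomorphism on the second chart. -/
noncomputable def iso₁ (hC : IsCurveChart k B₀ B₁ B₀₁ x y e) (h : SecDiv x y n G s J)
    (h' : SecDiv x y n G' s' J) : G.N₁ ≃ₗ[A ⊗[k] B₁] G'.N₁ :=
  restrictLinearEquiv (r1_inj G hC) (r1_inj G' hC) (iso₀₁ hC h h')
    (mem_range_of_map_σ hC h h' _ (iso₀₁_σ hC h h'))
    (mem_range_of_map_σ hC h' h _ (iso₀₁_symm_σ hC h h'))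

theorem iso₁_apply (hC : IsCurveChart k B₀ B₁ B₀₁ x y e) (h : SecDiv x y n G s J)
    (h' : SecDiv x y n G' s' J) (m : G.N₁) :
    G'.r₁ (iso₁ hC h h' m) = iso₀₁ hC h h' (G.r₁ m) :=
  restrictLinearEquiv_apply _ _ _ _ _ m

/-- Two gluing data carrying sections (of the same twist) with the same divisor, not vanishing
on `E₀`, are isomorphic. -/
theorem isIso_of_secDiv (hC : IsCurveChart k B₀ B₁ B₀₁ x y e) (h : SecDiv x y n G s J)
    (h' : SecDiv x y n G' s' J) : G.IsIso G' :=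
  ⟨⟨iso₀ hC h h', iso₁ hC h h', iso₀₁ hC h h', iso₀₁_r₀ hC h h',
    fun m => (iso₁_apply hC h h' m).symm⟩⟩

end Iso

section Main

variable {A : Type u} [CommRing A] [Algebra k A]

/-- **PT-ISO**: two gluing data with the same Hilbert coordinates are isomorphic. -/
theorem pointCond_iso (hC : IsCurveChart k B₀ B₁ B₀₁ x y e) (i : ChartIndex k B₀)
    {G G' : CurveGD k B₀ B₁ B₀₁ A} {φ₀ : H491.Rβ k i.β →ₐ[k] A}
    (h : PointCond x y i G φ₀) (h' : PointCond x y i G' φ₀) : G.IsIso G' := by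
  obtain ⟨s, hs, hspan⟩ := h.sect
  obtain ⟨s', hs', hspan'⟩ := h'.sect
  exact isIso_of_secDiv hC (n := i.n) ⟨(mem_secq.mp hs.mem).1, hs.gen, hspan⟩
    ⟨(mem_secq.mp hs'.mem).1, hs'.gen, hspan'⟩

end Main

end Fermat.Agent.S25.H490

end
-- ===== PACK-END S25/H490/ACPtIso.lean

-- ===== PACK-BEGIN S25/H671/ACGen.lean
section



/-!
# S25 / ALGCHARTS (helper671): generators of `H⁰(G(nE₀ - Σq))` and base change

Reusable lemmas for the stage lemmas and the point lemmas of block ALGCHARTS: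
* `sbc_induction` : induction principle for a semilinear base change;
* `ker_ptHom`, `ptIdeal_map` : the ideal of `Σ q i` commutes with base change;
* `isUnit_of_genModY_smul`, `isGen_exists_isUnit_smul`, `isGen_of_mem_of_genModY` : a generator
  is unique up to a unit of `A`;
* `isGen_span_fst_eq` : the submodule generated by `s.1` does not depend on the generator `s`;
* `mem_secq_bcPair`, `genModY_baseChange`, `isGen_bcPair`, `span_fst_bcPair` : behaviour of the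
  data of a generator under `GlueDatum.BaseChangeMaps`.
-/

set_option autoImplicit false
set_option linter.unusedSectionVars false
set_option linter.style.haveILetI false

universe u

open scoped TensorProduct

namespace Fermat.Agent.S25.H671

open Fermat.Agent.S25 Fermat.Agent.S25.H11

/-- Induction principle for a semilinear base change. -/
theorem sbc_induction {R R' : Type u} [CommRing R] [CommRing R'] (ρ : R →+* R')
    {N N' : Type u} [AddCommGroup N] [Module R N] [AddCommGroup N'] [Module R' N']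
    (b : N →ₛₗ[ρ] N') (hb : IsSemilinearBaseChange ρ b) (P : N' → Prop)
    (h0 : P 0) (himg : ∀ n, P (b n)) (hsmul : ∀ (r' : R') (n' : N'), P n' → P (r' • n'))
    (hadd : ∀ n₁ n₂, P n₁ → P n₂ → P (n₁ + n₂)) (z : N') : P z := by
  let _ : Algebra R R' := ρ.toAlgebra
  let _ : Module R N' := Module.compHom N' ρ
  have : IsScalarTower R R' N' := ⟨fun r r' n => by
    change (ρ r * r') • n = ρ r • (r' • n); rw [mul_smul]⟩
  exact IsBaseChange.inductionOn hb z P h0 himg hsmul hadd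

variable {k : Type u} [Field k]
  {B₀ B₁ B₀₁ : Type u} [CommRing B₀] [CommRing B₁] [CommRing B₀₁]
  [Algebra k B₀] [Algebra k B₁] [Algebra k B₀₁] [Algebra B₀ B₀₁] [Algebra B₁ B₀₁]
  [IsScalarTower k B₀ B₀₁] [IsScalarTower k B₁ B₀₁]
  {x : B₀} {y : B₁} {e : B₁ →ₐ[k] k}

section PtIdeal

variable {A A' : Type u} [CommRing A] [Algebra k A] [CommRing A'] [Algebra k A']

theorem sub_ptHom_mem (p : B₀ →ₐ[k] k) (z : A ⊗[k] B₀) :
    z - (ptHom p A z) ⊗ₜ[k] (1 : B₀) ∈
      (RingHom.ker (p : B₀ →+* k)).map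
        (Algebra.TensorProduct.includeRight : B₀ →ₐ[k] A ⊗[k] B₀) := by
  induction z with
  | zero => simp
  | tmul a b =>
    have h1 : a ⊗ₜ[k] b - (ptHom p A (a ⊗ₜ[k] b)) ⊗ₜ[k] (1 : B₀)
        = (a ⊗ₜ[k] (1 : B₀)) * ((1 : A) ⊗ₜ[k] (b - algebraMap k B₀ (p b))) := by
      rw [ptHom_tmul, Algebra.TensorProduct.tmul_mul_tmul, mul_one, one_mul,
        TensorProduct.tmul_sub, Algebra.algebraMap_eq_smul_one, Algebra.algebraMap_eq_smul_one,
        TensorProduct.tmul_smul, mul_smul_comm, mul_one, TensorProduct.smul_tmul']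
    rw [h1]
    refine Ideal.mul_mem_left _ _ (Ideal.mem_map_of_mem _ ?_)
    rw [RingHom.mem_ker]
    simp
  | add z w hz hw =>
    rw [map_add, TensorProduct.add_tmul, add_sub_add_comm]
    exact Ideal.add_mem _ hz hw

/-- The ideal of an `A`-point coming from a `k`-point `p` is generated by `1 ⊗ ker p`. -/
theorem ker_ptHom (p : B₀ →ₐ[k] k) :
    RingHom.ker (ptHom p A) =
      (RingHom.ker (p : B₀ →+* k)).map
        (Algebra.TensorProduct.includeRight : B₀ →ₐ[k] A ⊗[k] B₀) := by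
  apply le_antisymm
  · intro z hz
    have := sub_ptHom_mem (A := A) p z
    rw [RingHom.mem_ker] at hz
    rwa [hz, TensorProduct.zero_tmul, sub_zero] at this
  · rw [Ideal.map_le_iff_le_comap]
    intro b hb
    rw [RingHom.mem_ker] at hb
    rw [Ideal.mem_comap, RingHom.mem_ker]
    change ptHom p A ((1 : A) ⊗ₜ[k] b) = 0
    rw [ptHom_tmul]
    have : p b = 0 := hb
    rw [this, map_zero, mul_zero]

theorem ker_ptHom_map (ψ : A →ₐ[k] A') (p : B₀ →ₐ[k] k) :
    (RingHom.ker (ptHom p A)).map (tensorMapLeft k ψ B₀) = RingHom.ker (ptHom p A') := by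
  rw [ker_ptHom, ker_ptHom]
  have hcomp : ∀ b : B₀, tensorMapLeft k ψ B₀
      ((Algebra.TensorProduct.includeRight : B₀ →ₐ[k] A ⊗[k] B₀) b) =
        (Algebra.TensorProduct.includeRight : B₀ →ₐ[k] A' ⊗[k] B₀) b := by
    intro b
    simp [tensorMapLeft]
  apply le_antisymm
  · rw [Ideal.map_le_iff_le_comap, Ideal.map_le_iff_le_comap]
    intro b hb
    rw [Ideal.mem_comap, Ideal.mem_comap, hcomp]
    exact Ideal.mem_map_of_mem _ hb
  · rw [Ideal.map_le_iff_le_comap]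
    intro b hb
    rw [Ideal.mem_comap, ← hcomp]
    exact Ideal.mem_map_of_mem _ (Ideal.mem_map_of_mem _ hb)

/-- `ptIdeal` commutes with base change. -/
theorem ptIdeal_map (ψ : A →ₐ[k] A') {m : ℕ} (q : Fin m → (B₀ →ₐ[k] k)) :
    (ptIdeal q A).map (tensorMapLeft k ψ B₀) = ptIdeal q A' := by
  have h := map_prod (Ideal.mapHom (tensorMapLeft k ψ B₀))
    (fun i => RingHom.ker (ptHom (q i) A)) Finset.univ
  simp only [Ideal.mapHom_apply] at h
  rw [ptIdeal, ptIdeal, h]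
  exact Finset.prod_congr rfl fun i _ => ker_ptHom_map ψ (q i)

theorem tensorMapLeft_xElt (ψ : A →ₐ[k] A') (x : B₀) :
    tensorMapLeft k ψ B₀₁ (xElt k B₀₁ A x) = xElt k B₀₁ A' x := by
  simp [tensorMapLeft, xElt]

theorem tensorMapLeft_yElt (ψ : A →ₐ[k] A') (y : B₁) :
    tensorMapLeft k ψ B₁ (yElt k A y) = yElt k A' y := by
  simp [tensorMapLeft, yElt]

theorem epsHom_yElt (hC : IsCurveChart k B₀ B₁ B₀₁ x y e) :
    epsHom e A (yElt k A y) = 0 := by
  simp [epsHom, yElt, hC.e_y]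

end PtIdeal

/-! ### Generic semilinear base change lemmas -/

section Semilinear

variable {R R' : Type u} [CommRing R] [CommRing R'] {ρ : R →+* R'}
  {N N' : Type u} [AddCommGroup N] [Module R N] [AddCommGroup N'] [Module R' N']

/-- A semilinear map sends `I • N` into `I.map ρ • N'`. -/
theorem map_mem_map_smul_top (b : N →ₛₗ[ρ] N') (I : Ideal R) {n : N}
    (hn : n ∈ I • (⊤ : Submodule R N)) : b n ∈ I.map ρ • (⊤ : Submodule R' N') := by
  refine Submodule.smul_induction_on hn ?_ ?_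
  · intro r hr m _
    rw [map_smulₛₗ]
    exact Submodule.smul_mem_smul (Ideal.mem_map_of_mem ρ hr) Submodule.mem_top
  · intro a c ha hc
    rw [map_add]
    exact Submodule.add_mem _ ha hc

/-- **Base change of the divisor of a section**: if `R s = I • N` then `R' b(s) = I R' • N'`. -/
theorem span_singleton_baseChange (b : N →ₛₗ[ρ] N') (hb : IsSemilinearBaseChange ρ b)
    (I : Ideal R) {s : N} (hs : Submodule.span R {s} = I • (⊤ : Submodule R N)) :
    Submodule.span R' {b s} = I.map ρ • (⊤ : Submodule R' N') := by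
  apply le_antisymm
  · rw [Submodule.span_singleton_le_iff_mem]
    apply map_mem_map_smul_top b I
    rw [← hs]
    exact Submodule.mem_span_singleton_self s
  · rw [Submodule.smul_le]
    intro r' hr' n' _
    suffices h : ∀ n' : N', r' • n' ∈ Submodule.span R' {b s} from h n'
    refine Submodule.span_induction (p := fun r' _ => ∀ n' : N', r' • n' ∈ Submodule.span R' {b s})
      ?_ ?_ ?_ ?_ hr'
    · rintro _ ⟨r, hr, rfl⟩ n'
      refine sbc_induction ρ b hb (fun n' => ρ r • n' ∈ Submodule.span R' {b s}) ?_ ?_ ?_ ?_ n'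
      · simp
      · intro n
        have h1 : r • n ∈ Submodule.span R {s} := by
          rw [hs]
          exact Submodule.smul_mem_smul hr Submodule.mem_top
        obtain ⟨c, hc⟩ := Submodule.mem_span_singleton.1 h1
        rw [← map_smulₛₗ, ← hc, map_smulₛₗ]
        exact Submodule.smul_mem _ _ (Submodule.mem_span_singleton_self _)
      · intro t n' hn'
        rw [smul_comm]
        exact Submodule.smul_mem _ _ hn'
      · intro n₁ n₂ h₁ h₂
        rw [smul_add]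
        exact Submodule.add_mem _ h₁ h₂
    · intro n'
      simp
    · intro a c _ _ ha hc n'
      rw [add_smul]
      exact Submodule.add_mem _ (ha n') (hc n')
    · intro t a _ ha n'
      rw [smul_eq_mul, mul_smul]
      exact Submodule.smul_mem _ _ (ha n')

end Semilinear

/-! ### Generators are unique up to a unit -/

section Gen

variable {A : Type u} [CommRing A] [Algebra k A]

/-- If `b` and `a • b` both generate `N₁` modulo `y`, then `a` is a unit (evaluate at the marked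
point `e`, where `y = 0`). -/
theorem isUnit_of_genModY_smul (hC : IsCurveChart k B₀ B₁ B₀₁ x y e)
    (G : CurveGD k B₀ B₁ B₀₁ A) {b : G.N₁} {a : A} (hb : GenModY y G b)
    (hab : GenModY y G (a • b)) : IsUnit a := by
  haveI : Module.Invertible (A ⊗[k] B₁) G.N₁ := G.invertible₁
  obtain ⟨r, hr⟩ := hab b
  set Y : Submodule (A ⊗[k] B₁) G.N₁ := Ideal.span {yElt k A y} • ⊤ with hY
  set u : A ⊗[k] B₁ := 1 - r * algebraMap A (A ⊗[k] B₁) a with hu
  have hub : u • b ∈ Y := by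
    have : u • b = b - r • a • b := by
      rw [hu, sub_smul, one_smul, mul_smul, algebraMap_smul]
    rw [this]
    exact hr
  have huc : ∀ c : G.N₁, u • c ∈ Y := by
    intro c
    obtain ⟨rc, hrc⟩ := hb c
    have : u • c = u • (c - rc • b) + rc • (u • b) := by
      rw [smul_sub, smul_comm rc u b]
      abel
    rw [this]
    exact Y.add_mem (Y.smul_mem _ hrc) (Y.smul_mem _ hub)
  have hle : Ideal.span {u} • (⊤ : Submodule (A ⊗[k] B₁) G.N₁) ≤ Ideal.span {yElt k A y} • ⊤ := by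
    rw [Submodule.smul_le]
    intro r' hr' n _
    obtain ⟨t, rfl⟩ := Ideal.mem_span_singleton'.1 hr'
    rw [mul_smul]
    exact Y.smul_mem _ (huc n)
  have hmem : u ∈ Ideal.span {yElt k A y} :=
    ideal_le_of_smul_top_le hle (Ideal.mem_span_singleton_self u)
  obtain ⟨t, ht⟩ := Ideal.mem_span_singleton'.1 hmem
  have h0 : epsHom e A u = 0 := by
    rw [← ht, map_mul, epsHom_yElt hC, mul_zero]
  have h1 : epsHom e A u = 1 - epsHom e A r * a := by
    rw [hu, map_sub, map_one, map_mul, AlgHom.commutes]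
    rfl
  rw [h1, sub_eq_zero] at h0
  exact IsUnit.of_mul_eq_one _ (by rw [mul_comm]; exact h0.symm)

variable {n m : ℕ} {q : Fin m → (B₀ →ₐ[k] k)} {G : CurveGD k B₀ B₁ B₀₁ A}

/-- Any section of `H⁰(G(nE₀ - Σq))` not vanishing on `E₀` is a unit multiple of a given
generator. -/
theorem isGen_exists_isUnit_smul (hC : IsCurveChart k B₀ B₁ B₀₁ x y e) {s t : G.N₀ × G.N₁}
    (hs : IsGen x y n q G s) (ht : t ∈ secq x n q G) (htg : GenModY y G t.2) :
    ∃ a : A, IsUnit a ∧ t = a • s := by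
  obtain ⟨a, ha⟩ := hs.span t ht
  refine ⟨a, ?_, ha⟩
  have h2 : t.2 = a • s.2 := by rw [ha]; rfl
  rw [h2] at htg
  exact isUnit_of_genModY_smul hC G hs.gen htg

/-- Any section of `H⁰(G(nE₀ - Σq))` not vanishing on `E₀` is a generator, as soon as there is
one. -/
theorem isGen_of_mem_of_genModY (hC : IsCurveChart k B₀ B₁ B₀₁ x y e) {s t : G.N₀ × G.N₁}
    (hs : IsGen x y n q G s) (ht : t ∈ secq x n q G) (htg : GenModY y G t.2) :
    IsGen x y n q G t := by
  obtain ⟨a, ha, hta⟩ := isGen_exists_isUnit_smul hC hs ht htg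
  obtain ⟨a', ha'⟩ := ha.exists_left_inv
  refine ⟨ht, fun t' ht' => ?_, htg⟩
  obtain ⟨c, hc⟩ := hs.span t' ht'
  refine ⟨c * a', ?_⟩
  rw [hta, ← mul_smul, mul_assoc, ha', mul_one, hc]

/-- The submodule of `N₀` generated by the first component of a generator does not depend on
the generator. -/
theorem isGen_span_fst_eq (hC : IsCurveChart k B₀ B₁ B₀₁ x y e) {s t : G.N₀ × G.N₁}
    (hs : IsGen x y n q G s) (ht : IsGen x y n q G t) :
    Submodule.span (A ⊗[k] B₀) {t.1} = Submodule.span (A ⊗[k] B₀) {s.1} := by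
  obtain ⟨a, ha, hta⟩ := isGen_exists_isUnit_smul hC hs ht.mem ht.gen
  have h1 : t.1 = algebraMap A (A ⊗[k] B₀) a • s.1 := by
    rw [hta, algebraMap_smul]
    rfl
  rw [h1]
  exact Submodule.span_singleton_smul_eq (ha.map (algebraMap A (A ⊗[k] B₀))) s.1

end Gen

/-! ### Base change of sections -/

section BC

variable {A A' : Type u} [CommRing A] [Algebra k A] [CommRing A'] [Algebra k A']
  {ψ : A →ₐ[k] A'} {G : CurveGD k B₀ B₁ B₀₁ A} {G' : CurveGD k B₀ B₁ B₀₁ A'}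
  {n m : ℕ} {q : Fin m → (B₀ →ₐ[k] k)}

/-- The image of a pair of sections under a base change. -/
def bcPair (bm : GlueDatum.BaseChangeMaps (tensorMapLeft k ψ B₀) (tensorMapLeft k ψ B₁)
    (tensorMapLeft k ψ B₀₁) G G') (s : G.N₀ × G.N₁) : G'.N₀ × G'.N₁ :=
  (bm.b₀ s.1, bm.b₁ s.2)

theorem mem_sec_bcPair (bm : GlueDatum.BaseChangeMaps (tensorMapLeft k ψ B₀)
    (tensorMapLeft k ψ B₁) (tensorMapLeft k ψ B₀₁) G G') {s : G.N₀ × G.N₁}
    (hs : s ∈ sec x n G) : bcPair bm s ∈ sec x n G' := by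
  rw [mem_sec] at hs ⊢
  change G'.r₀ (bm.b₀ s.1) = xElt k B₀₁ A' x ^ n • G'.r₁ (bm.b₁ s.2)
  rw [← bm.comm₀, ← bm.comm₁, hs, map_smulₛₗ, map_pow, tensorMapLeft_xElt]

theorem mem_vanq_baseChange (bm : GlueDatum.BaseChangeMaps (tensorMapLeft k ψ B₀)
    (tensorMapLeft k ψ B₁) (tensorMapLeft k ψ B₀₁) G G') {a : G.N₀} (ha : a ∈ vanq q G) :
    bm.b₀ a ∈ vanq q G' := by
  have := map_mem_map_smul_top bm.b₀ (ptIdeal q A) ha
  rwa [ptIdeal_map] at this

theorem mem_secq_bcPair (bm : GlueDatum.BaseChangeMaps (tensorMapLeft k ψ B₀)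
    (tensorMapLeft k ψ B₁) (tensorMapLeft k ψ B₀₁) G G') {s : G.N₀ × G.N₁}
    (hs : s ∈ secq x n q G) : bcPair bm s ∈ secq x n q G' :=
  mem_secq.2 ⟨mem_sec_bcPair bm (mem_secq.1 hs).1, mem_vanq_baseChange bm (mem_secq.1 hs).2⟩

theorem genModY_baseChange (bm : GlueDatum.BaseChangeMaps (tensorMapLeft k ψ B₀)
    (tensorMapLeft k ψ B₁) (tensorMapLeft k ψ B₀₁) G G') {b : G.N₁} (hb : GenModY y G b) :
    GenModY y G' (bm.b₁ b) := by
  intro c'
  set Y' : Submodule (A' ⊗[k] B₁) G'.N₁ := Ideal.span {yElt k A' y} • ⊤ with hY'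
  refine sbc_induction _ bm.b₁ bm.isBaseChange₁
    (fun c' => ∃ r : A' ⊗[k] B₁, c' - r • bm.b₁ b ∈ Y') ?_ ?_ ?_ ?_ c'
  · exact ⟨0, by simp⟩
  · intro c
    obtain ⟨r, hr⟩ := hb c
    refine ⟨tensorMapLeft k ψ B₁ r, ?_⟩
    have h1 := map_mem_map_smul_top bm.b₁ _ hr
    rw [Ideal.map_span, Set.image_singleton, tensorMapLeft_yElt, map_sub, map_smulₛₗ] at h1
    exact h1
  · rintro t c' ⟨r, hr⟩
    refine ⟨t * r, ?_⟩
    have : t • c' - (t * r) • bm.b₁ b = t • (c' - r • bm.b₁ b) := by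
      rw [smul_sub, mul_smul]
    rw [this]
    exact Y'.smul_mem _ hr
  · rintro c₁ c₂ ⟨r₁, h₁⟩ ⟨r₂, h₂⟩
    refine ⟨r₁ + r₂, ?_⟩
    have : c₁ + c₂ - (r₁ + r₂) • bm.b₁ b = (c₁ - r₁ • bm.b₁ b) + (c₂ - r₂ • bm.b₁ b) := by
      rw [add_smul]
      abel
    rw [this]
    exact Y'.add_mem h₁ h₂

/-- **Base change of a generator**: if `G'` has a generator, then the image of a generator of `G`
is a generator of `G'`. -/
theorem isGen_bcPair (hC : IsCurveChart k B₀ B₁ B₀₁ x y e)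
    (bm : GlueDatum.BaseChangeMaps (tensorMapLeft k ψ B₀) (tensorMapLeft k ψ B₁)
      (tensorMapLeft k ψ B₀₁) G G') {s : G.N₀ × G.N₁} (hs : IsGen x y n q G s)
    {s' : G'.N₀ × G'.N₁} (hs' : IsGen x y n q G' s') : IsGen x y n q G' (bcPair bm s) :=
  isGen_of_mem_of_genModY hC hs' (mem_secq_bcPair bm hs.mem) (genModY_baseChange bm hs.gen)

/-- **Base change of the divisor of a generator.** -/
theorem span_fst_bcPair (bm : GlueDatum.BaseChangeMaps (tensorMapLeft k ψ B₀)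
    (tensorMapLeft k ψ B₁) (tensorMapLeft k ψ B₀₁) G G') {s : G.N₀ × G.N₁}
    {I' : Ideal (A ⊗[k] B₀)}
    (hs : Submodule.span (A ⊗[k] B₀) {s.1} =
      (I' * ptIdeal q A) • (⊤ : Submodule (A ⊗[k] B₀) G.N₀)) :
    Submodule.span (A' ⊗[k] B₀) {(bcPair bm s).1} =
      (I'.map (tensorMapLeft k ψ B₀) * ptIdeal q A') •
        (⊤ : Submodule (A' ⊗[k] B₀) G'.N₀) := by
  have h := span_singleton_baseChange bm.b₀ bm.isBaseChange₀ _ hs
  rw [Ideal.map_mul, ptIdeal_map] at h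
  exact h

end BC

end Fermat.Agent.S25.H671

end
-- ===== PACK-END S25/H671/ACGen.lean

-- ===== PACK-BEGIN S25/H250/AdapterTwist.lean
section
/-
S25, block DEGREE (squad S25/S10), ADAPTER leaf AD3 (helper250): the adapter `toCechOps` and
the twists `twistE` of `H10/DegreeDefs.lean`.

* `toCechOps_twistE_d` : for `z : ℤ`, `n m : ℕ` with `z + n = m`,
  `(toCechOps (twistE G z)).d n = (toCechOps G).d m`;
* `toCechOps_twistE_d_zero` : `(toCechOps (twistE G n)).d 0 = (toCechOps G).d n`;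
* `toCechOps_twistE_neg_d` : `(toCechOps (twistE G (-n))).d n = (toCechOps G).d 0`;
* `twistE_cech_eq_d` : `(twistE G n).cech = (toCechOps G).d n`;
* `twistE_neg_cech_apply` : `(twistE G (-n)).cech (a, b) = r₀ a - Tinv ^ n (r₁ b)`;
* the same for `chartCechOps`.
-/





set_option autoImplicit false
set_option linter.style.haveILetI false
set_option linter.unusedSectionVars false

universe u

open scoped TensorProduct

namespace Fermat.Agent.S25.H250

open Fermat.Agent.S25 Fermat.Agent.S25.H10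

variable {k : Type u} [Field k] {B₀ B₁ B₀₁ : Type u} [CommRing B₀] [CommRing B₁] [CommRing B₀₁]
  [Algebra k B₀] [Algebra k B₁] [Algebra k B₀₁] [Algebra B₀ B₀₁] [Algebra B₁ B₀₁]
  [IsScalarTower k B₀ B₀₁] [IsScalarTower k B₁ B₀₁]
  {A : Type u} [CommRing A] [Algebra k A]

section

variable (x : B₀) (y : B₁) [IsLocalization.Away x B₀₁] [IsLocalization.Away y B₀₁]
  (hxy : algebraMap B₀ B₀₁ x * algebraMap B₁ B₀₁ y = 1) (G : CurveGD k B₀ B₁ B₀₁ A)

theorem xUnit_val : ((xUnit x y hxy A : (A ⊗[k] B₀₁)ˣ) : A ⊗[k] B₀₁) =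
    (1 : A) ⊗ₜ[k] algebraMap B₀ B₀₁ x := rfl

theorem xUnit_zpow_add_val (z : ℤ) (n m : ℕ) (h : z + n = m) :
    ((1 : A) ⊗ₜ[k] algebraMap B₀ B₀₁ x : A ⊗[k] B₀₁) ^ n *
      (((xUnit x y hxy A) ^ z : (A ⊗[k] B₀₁)ˣ) : A ⊗[k] B₀₁) =
    ((1 : A) ⊗ₜ[k] algebraMap B₀ B₀₁ x : A ⊗[k] B₀₁) ^ m := by
  rw [← xUnit_val x y hxy, ← Units.val_pow_eq_pow_val, ← Units.val_pow_eq_pow_val,
    ← Units.val_mul, ← zpow_natCast, ← zpow_natCast, ← zpow_add, ← h, add_comm]

theorem twistE_cech_apply (z : ℤ) (a : G.N₀) (b : G.N₁) :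
    (twistE x y hxy G z).cech (a, b) =
      (G.r₀ a - (((xUnit x y hxy A) ^ z : (A ⊗[k] B₀₁)ˣ) : A ⊗[k] B₀₁) • G.r₁ b : G.N₀₁) :=
  gdTwist_cech_apply G _ a b

/-- AD3, general form, applied. -/
theorem toCechOps_twistE_d_apply (z : ℤ) (n m : ℕ) (h : z + n = m) (a : G.N₀) (b : G.N₁) :
    ((toCechOps x y hxy (twistE x y hxy G z)).d n : (G.N₀ × G.N₁) →ₗ[A] G.N₀₁) (a, b) =
      (toCechOps x y hxy G).d m (a, b) := by
  show (G.r₀ a + -(((toCechOps x y hxy G).T ^ n)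
      ((((xUnit x y hxy A) ^ z : (A ⊗[k] B₀₁)ˣ) : A ⊗[k] B₀₁) • G.r₁ b)) : G.N₀₁) =
    G.r₀ a + -(((toCechOps x y hxy G).T ^ m) (G.r₁ b))
  rw [toCechOps_T_pow_apply, toCechOps_T_pow_apply, smul_smul,
    xUnit_zpow_add_val x y hxy z n m h]

/-- AD3, general form. -/
theorem toCechOps_twistE_d (z : ℤ) (n m : ℕ) (h : z + n = m) :
    ((toCechOps x y hxy (twistE x y hxy G z)).d n : (G.N₀ × G.N₁) →ₗ[A] G.N₀₁) =
      (toCechOps x y hxy G).d m :=
  LinearMap.ext fun p => toCechOps_twistE_d_apply x y hxy G z n m h p.1 p.2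

/-- AD3. -/
theorem toCechOps_twistE_d_zero (n : ℕ) :
    ((toCechOps x y hxy (twistE x y hxy G (n : ℤ))).d 0 : (G.N₀ × G.N₁) →ₗ[A] G.N₀₁) =
      (toCechOps x y hxy G).d n :=
  toCechOps_twistE_d x y hxy G (n : ℤ) 0 n (by simp)

/-- AD3, negative twists: `G(-n)(n) = G`. -/
theorem toCechOps_twistE_neg_d (n : ℕ) :
    ((toCechOps x y hxy (twistE x y hxy G (-(n : ℤ)))).d n : (G.N₀ × G.N₁) →ₗ[A] G.N₀₁) =
      (toCechOps x y hxy G).d 0 :=
  toCechOps_twistE_d x y hxy G (-(n : ℤ)) n 0 (by simp)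

/-- The Cech differential of `G(n)` is the `n`-fold twisted differential of `G`. -/
theorem twistE_cech_eq_d (n : ℕ) :
    ((twistE x y hxy G (n : ℤ)).cech : (G.N₀ × G.N₁) →ₗ[A] G.N₀₁) =
      (toCechOps x y hxy G).d n := by
  have h1 := toCechOps_d_zero x y hxy (twistE x y hxy G (n : ℤ))
  have h2 := toCechOps_twistE_d_zero x y hxy G n
  exact h1.symm.trans h2

theorem twistE_H0_eq (n : ℕ) :
    ((twistE x y hxy G (n : ℤ)).H0 : Submodule A (G.N₀ × G.N₁)) =
      (toCechOps x y hxy G).H0 n :=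
  congrArg LinearMap.ker (twistE_cech_eq_d x y hxy G n)

theorem twistE_range_cech_eq (n : ℕ) :
    (LinearMap.range (twistE x y hxy G (n : ℤ)).cech : Submodule A G.N₀₁) =
      LinearMap.range ((toCechOps x y hxy G).d n) :=
  congrArg LinearMap.range (twistE_cech_eq_d x y hxy G n)

/-- The Cech differential of `G(-n)`: `(a, b) ↦ r₀ a - Tinv ^ n (r₁ b)`. -/
theorem twistE_neg_cech_apply (n : ℕ) (a : G.N₀) (b : G.N₁) :
    ((twistE x y hxy G (-(n : ℤ))).cech (a, b) : G.N₀₁) =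
      (toCechOps x y hxy G).r0 a -
        ((toCechOps x y hxy G).Tinv ^ n) ((toCechOps x y hxy G).r1 b) := by
  rw [twistE_cech_apply]
  show (G.r₀ a - _ : G.N₀₁) = G.r₀ a - ((toCechOps x y hxy G).Tinv ^ n) (G.r₁ b)
  congr 1
  -- `u ^ (-n) • z = Tinv ^ n z`
  have h := (toCechOps x y hxy G).Tinv_pow_T_pow_apply n
    ((((xUnit x y hxy A) ^ (-(n : ℤ)) : (A ⊗[k] B₀₁)ˣ) : A ⊗[k] B₀₁) • G.r₁ b)
  rw [← h, toCechOps_T_pow_apply, smul_smul, xUnit_zpow_add_val x y hxy (-(n : ℤ)) n 0 (by simp),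
    pow_zero, one_smul]

/-- `G(-n)` in terms of `G`: `(G(-n)).cech (a, b) = G.cech (a, (1 ⊗ y) ^ n • b)`. -/
theorem twistE_neg_cech_apply' (n : ℕ) (a : G.N₀) (b : G.N₁) :
    ((twistE x y hxy G (-(n : ℤ))).cech (a, b) : G.N₀₁) =
      G.cech (a, ((toCechOps x y hxy G).Y1 ^ n) b) := by
  rw [twistE_neg_cech_apply, ← (toCechOps x y hxy G).r1_Y1_pow, ← toCechOps_d_zero x y hxy G,
    CechOps.d_apply]
  simp only [pow_zero, Module.End.one_apply]

end

section Chart

variable {x : B₀} {y : B₁} {e : B₁ →ₐ[k] k}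

theorem chartCechOps_twistE_d (hC : IsCurveChart k B₀ B₁ B₀₁ x y e) (G : CurveGD k B₀ B₁ B₀₁ A)
    (z : ℤ) (n m : ℕ) (h : z + n = m) :
    ((chartCechOps hC (twistE x y hC.mul_eq_one G z)).d n : (G.N₀ × G.N₁) →ₗ[A] G.N₀₁) =
      (chartCechOps hC G).d m := by
  haveI := hC.away₀
  haveI := hC.away₁
  exact toCechOps_twistE_d x y hC.mul_eq_one G z n m h

theorem chartCechOps_twistE_cech (hC : IsCurveChart k B₀ B₁ B₀₁ x y e)
    (G : CurveGD k B₀ B₁ B₀₁ A) (n : ℕ) :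
    ((twistE x y hC.mul_eq_one G (n : ℤ)).cech : (G.N₀ × G.N₁) →ₗ[A] G.N₀₁) =
      (chartCechOps hC G).d n := by
  haveI := hC.away₀
  haveI := hC.away₁
  exact twistE_cech_eq_d x y hC.mul_eq_one G n

/-- K2 for gluing data: large twists kill `Ȟ¹`, over any base ring. -/
theorem exists_forall_twistE_cech_surjective (hC : IsCurveChart k B₀ B₁ B₀₁ x y e)
    (G : CurveGD k B₀ B₁ B₀₁ A) :
    ∃ n₀ : ℕ, ∀ n : ℕ, n₀ ≤ n →
      Function.Surjective (twistE x y hC.mul_eq_one G (n : ℤ)).cech := by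
  obtain ⟨n₀, h⟩ := H790.exists_forall_d_surjective (chartCechOps hC G)
    (H10.isFG_of_isFGProj (isFGProj_X0 hC G))
  refine ⟨n₀, fun n hn => ?_⟩
  have h1 := h n hn
  rw [← chartCechOps_twistE_cech hC G n] at h1
  exact h1

end Chart

end Fermat.Agent.S25.H250

end
-- ===== PACK-END S25/H250/AdapterTwist.lean

-- ===== PACK-BEGIN S25/H911/GDCBase.lean
section




/-!
# S25 / block GDC (helper911): the calculus of gluing data

Pure algebra on the frozen `GlueDatum`, `GlueDatum.IsBC`, `CurveGD.IsBC` of `DefsAlg.lean`.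

* `exists_glueDatum_baseChange` : base changes of gluing data exist along every morphism of
  cospans; `curveGD_exists_isBC` is the curve case (`AlgBCExists` / `BCExists`).
* `glueDatum_isBC_comp`, `curveGD_isBC_comp` : base changes compose (`BCComp`).
* `glueDatum_isBC_refl`, `curveGD_isBC_id` : identity (`BCId`).
* `curveGD_rigidifiable_of_isBC` : rigidifiability is stable under base change (`BCRig`).
* `glueDatum_degree_eq_of_isIso` : the degree is invariant under isomorphism (`DegIso`).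
-/

set_option autoImplicit false
set_option linter.style.haveILetI false

universe u

open scoped TensorProduct

namespace Fermat.Agent.S25.H911

open Fermat.Agent.S25

section Cospan

variable {A R₀ R₁ R₀₁ : Type u} [CommRing A] [CommRing R₀] [CommRing R₁]
    [CommRing R₀₁] [Algebra A R₀] [Algebra A R₁] [Algebra A R₀₁] [Algebra R₀ R₀₁]
    [Algebra R₁ R₀₁] [IsScalarTower A R₀ R₀₁] [IsScalarTower A R₁ R₀₁]
    {A' R₀' R₁' R₀₁' : Type u} [CommRing A'] [CommRing R₀'] [CommRing R₁']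
    [CommRing R₀₁'] [Algebra A' R₀'] [Algebra A' R₁'] [Algebra A' R₀₁'] [Algebra R₀' R₀₁']
    [Algebra R₁' R₀₁'] [IsScalarTower A' R₀' R₀₁'] [IsScalarTower A' R₁' R₀₁']
    {A'' R₀'' R₁'' R₀₁'' : Type u} [CommRing A''] [CommRing R₀''] [CommRing R₁'']
    [CommRing R₀₁''] [Algebra A'' R₀''] [Algebra A'' R₁''] [Algebra A'' R₀₁'']
    [Algebra R₀'' R₀₁''] [Algebra R₁'' R₀₁''] [IsScalarTower A'' R₀'' R₀₁'']
    [IsScalarTower A'' R₁'' R₀₁'']

/-- **Base changes of gluing data exist** along every morphism of cospans. -/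
theorem exists_glueDatum_baseChange (ρ₀ : R₀ →+* R₀') (ρ₁ : R₁ →+* R₁') (ρ₀₁ : R₀₁ →+* R₀₁')
    (h₀ : ρ₀₁.comp (algebraMap R₀ R₀₁) = (algebraMap R₀' R₀₁').comp ρ₀)
    (h₁ : ρ₀₁.comp (algebraMap R₁ R₀₁) = (algebraMap R₁' R₀₁').comp ρ₁)
    (G : GlueDatum A R₀ R₁ R₀₁) :
    ∃ G' : GlueDatum A' R₀' R₁' R₀₁', GlueDatum.IsBC ρ₀ ρ₁ ρ₀₁ G G' := by
  obtain ⟨N₀', _, _, b₀, hb₀, hi₀⟩ := exists_semilinear_baseChange ρ₀ G.N₀
  obtain ⟨N₁', _, _, b₁, hb₁, hi₁⟩ := exists_semilinear_baseChange ρ₁ G.N₁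
  obtain ⟨N₀₁', _, _, c, hc, -⟩ := exists_semilinear_baseChange ρ₀₁ G.N₀₁
  letI mL : Module R₀' N₀₁' := Module.compHom N₀₁' (algebraMap R₀' R₀₁')
  haveI tL : IsScalarTower R₀' R₀₁' N₀₁' := ⟨fun r s n => by
    change (r • s) • n = algebraMap R₀' R₀₁' r • (s • n)
    rw [Algebra.smul_def, mul_smul]⟩
  letI mR : Module R₁' N₀₁' := Module.compHom N₀₁' (algebraMap R₁' R₀₁')
  haveI tR : IsScalarTower R₁' R₀₁' N₀₁' := ⟨fun r s n => by
    change (r • s) • n = algebraMap R₁' R₀₁' r • (s • n)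
    rw [Algebra.smul_def, mul_smul]⟩
  obtain ⟨r₀', hr₀', hr₀c⟩ :=
    exists_linear_square ρ₀ ρ₀₁ h₀ G.r₀ G.isBaseChange₀ b₀ hb₀ c hc
  obtain ⟨r₁', hr₁', hr₁c⟩ :=
    exists_linear_square ρ₁ ρ₀₁ h₁ G.r₁ G.isBaseChange₁ b₁ hb₁ c hc
  refine ⟨H971.glueDatumOfModules A' N₀' N₁' N₀₁' r₀' r₁' hr₀' hr₁' (hi₀ G.invertible₀)
    (hi₁ G.invertible₁), ⟨?_⟩⟩
  exact
    { b₀ := b₀
      b₁ := b₁
      b₀₁ := c
      comm₀ := fun s => (hr₀c s).symm
      comm₁ := fun s => (hr₁c s).symm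
      isBaseChange₀ := hb₀
      isBaseChange₁ := hb₁
      isBaseChange₀₁ := hc }

/-- Composition of semilinear maps over a composite ring homomorphism (by hand, avoiding
`RingHomCompTriple`). -/
def semilinearComp {R S T : Type u} [CommRing R] [CommRing S] [CommRing T]
    {N N' N'' : Type u} [AddCommGroup N] [Module R N] [AddCommGroup N'] [Module S N']
    [AddCommGroup N''] [Module T N''] (ρ : R →+* S) (ρ' : S →+* T) (σ : R →+* T)
    (hσ : σ = ρ'.comp ρ) (b : N →ₛₗ[ρ] N') (b' : N' →ₛₗ[ρ'] N'') : N →ₛₗ[σ] N'' where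
  toFun n := b' (b n)
  map_add' m n := by rw [map_add, map_add]
  map_smul' r n := by
    subst hσ
    rw [LinearMap.map_smulₛₗ, LinearMap.map_smulₛₗ]; rfl

/-- **Base changes of gluing data compose.** -/
theorem glueDatum_isBC_comp (ρ₀ : R₀ →+* R₀') (ρ₁ : R₁ →+* R₁') (ρ₀₁ : R₀₁ →+* R₀₁')
    (ρ₀' : R₀' →+* R₀'') (ρ₁' : R₁' →+* R₁'') (ρ₀₁' : R₀₁' →+* R₀₁'')
    (σ₀ : R₀ →+* R₀'') (σ₁ : R₁ →+* R₁'') (σ₀₁ : R₀₁ →+* R₀₁'')
    (hσ₀ : σ₀ = ρ₀'.comp ρ₀) (hσ₁ : σ₁ = ρ₁'.comp ρ₁) (hσ₀₁ : σ₀₁ = ρ₀₁'.comp ρ₀₁)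
    {G : GlueDatum A R₀ R₁ R₀₁} {G' : GlueDatum A' R₀' R₁' R₀₁'}
    {G'' : GlueDatum A'' R₀'' R₁'' R₀₁''}
    (h : GlueDatum.IsBC ρ₀ ρ₁ ρ₀₁ G G') (h' : GlueDatum.IsBC ρ₀' ρ₁' ρ₀₁' G' G'') :
    GlueDatum.IsBC σ₀ σ₁ σ₀₁ G G'' := by
  obtain ⟨m⟩ := h
  obtain ⟨m'⟩ := h'
  exact ⟨
    { b₀ := semilinearComp ρ₀ ρ₀' σ₀ hσ₀ m.b₀ m'.b₀
      b₁ := semilinearComp ρ₁ ρ₁' σ₁ hσ₁ m.b₁ m'.b₁
      b₀₁ := semilinearComp ρ₀₁ ρ₀₁' σ₀₁ hσ₀₁ m.b₀₁ m'.b₀₁
      comm₀ := fun s => by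
        change m'.b₀₁ (m.b₀₁ (G.r₀ s)) = G''.r₀ (m'.b₀ (m.b₀ s))
        rw [m.comm₀, m'.comm₀]
      comm₁ := fun s => by
        change m'.b₀₁ (m.b₀₁ (G.r₁ s)) = G''.r₁ (m'.b₁ (m.b₁ s))
        rw [m.comm₁, m'.comm₁]
      isBaseChange₀ := isSemilinearBaseChange_comp ρ₀ ρ₀' σ₀ hσ₀ m.b₀ m'.b₀ _ (fun _ => rfl)
        m.isBaseChange₀ m'.isBaseChange₀
      isBaseChange₁ := isSemilinearBaseChange_comp ρ₁ ρ₁' σ₁ hσ₁ m.b₁ m'.b₁ _ (fun _ => rfl)
        m.isBaseChange₁ m'.isBaseChange₁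
      isBaseChange₀₁ := isSemilinearBaseChange_comp ρ₀₁ ρ₀₁' σ₀₁ hσ₀₁ m.b₀₁ m'.b₀₁ _
        (fun _ => rfl) m.isBaseChange₀₁ m'.isBaseChange₀₁ }⟩

/-- The identity, as a semilinear map over a ring endomorphism which is the identity. -/
def semilinearRefl {R : Type u} [CommRing R] {N : Type u} [AddCommGroup N] [Module R N]
    (ρ : R →+* R) (hρ : ρ = RingHom.id R) : N →ₛₗ[ρ] N where
  toFun n := n
  map_add' _ _ := rfl
  map_smul' r n := by subst hρ; rfl

/-- A bijective semilinear map over a surjective ring homomorphism is a semilinear base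
change. -/
theorem isSemilinearBaseChange_of_bijective_of_surjective {R R' : Type u} [CommRing R]
    [CommRing R'] (ρ : R →+* R') (hρ : Function.Surjective ρ) {N N' : Type u} [AddCommGroup N]
    [Module R N] [AddCommGroup N'] [Module R' N'] (b : N →ₛₗ[ρ] N')
    (hb : Function.Bijective b) : IsSemilinearBaseChange ρ b := by
  rw [isSemilinearBaseChange_iff]
  letI : Algebra R R' := ρ.toAlgebra
  letI : Module R N' := Module.compHom N' ρ
  haveI : IsScalarTower R R' N' := ⟨fun r r' n => by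
    change (ρ r * r') • n = ρ r • (r' • n); rw [mul_smul]⟩
  apply IsBaseChange.of_lift_unique
  intro Q _ _ _ _ g
  let bl : N →ₗ[R] N' :=
    { toFun := fun n => b n
      map_add' := fun m n => b.map_add m n
      map_smul' := fun r n => LinearMap.map_smulₛₗ b r n }
  have hbl : Function.Bijective bl := hb
  let e : N ≃ₗ[R] N' := LinearEquiv.ofBijective bl hbl
  have he : ∀ m, e.symm (bl m) = m := fun m => e.symm_apply_apply m
  refine ⟨{ toFun := fun n => g (e.symm n)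
            map_add' := fun a b => by rw [map_add, map_add]
            map_smul' := ?_ }, ?_, ?_⟩
  · intro s n
    obtain ⟨r, rfl⟩ := hρ s
    simp only [RingHom.id_apply]
    have h1 : ρ r • n = r • n := rfl
    have h2 : ρ r • g (e.symm n) = r • g (e.symm n) := (algebraMap_smul R' r _)
    rw [h1, h2, map_smul, map_smul]
  · ext m
    change g (e.symm (bl m)) = g m
    rw [he]
  · intro g' hg'
    ext n
    obtain ⟨m, rfl⟩ := hbl.2 n
    have := congrFun (congrArg DFunLike.coe hg') m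
    change g' (bl m) = g (e.symm (bl m))
    rw [he]
    exact this

theorem isSemilinearBaseChange_semilinearRefl {R : Type u} [CommRing R] {N : Type u}
    [AddCommGroup N] [Module R N] (ρ : R →+* R) (hρ : ρ = RingHom.id R) :
    IsSemilinearBaseChange ρ (semilinearRefl (N := N) ρ hρ) :=
  isSemilinearBaseChange_of_bijective_of_surjective ρ (by subst hρ; exact fun r => ⟨r, rfl⟩) _
    ⟨fun _ _ h => h, fun n => ⟨n, rfl⟩⟩

/-- **Every gluing datum is a base change of itself** along (maps equal to) the identity. -/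
theorem glueDatum_isBC_refl (ρ₀ : R₀ →+* R₀) (ρ₁ : R₁ →+* R₁) (ρ₀₁ : R₀₁ →+* R₀₁)
    (h₀ : ρ₀ = RingHom.id R₀) (h₁ : ρ₁ = RingHom.id R₁) (h₀₁ : ρ₀₁ = RingHom.id R₀₁)
    (G : GlueDatum A R₀ R₁ R₀₁) : GlueDatum.IsBC ρ₀ ρ₁ ρ₀₁ G G :=
  ⟨{ b₀ := semilinearRefl ρ₀ h₀
     b₁ := semilinearRefl ρ₁ h₁
     b₀₁ := semilinearRefl ρ₀₁ h₀₁
     comm₀ := fun _ => rfl
     comm₁ := fun _ => rfl
     isBaseChange₀ := isSemilinearBaseChange_semilinearRefl ρ₀ h₀
     isBaseChange₁ := isSemilinearBaseChange_semilinearRefl ρ₁ h₁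
     isBaseChange₀₁ := isSemilinearBaseChange_semilinearRefl ρ₀₁ h₀₁ }⟩

end Cospan

section Degree

variable {K R₀ R₁ R₀₁ : Type u} [Field K] [CommRing R₀] [CommRing R₁]
    [CommRing R₀₁] [Algebra K R₀] [Algebra K R₁] [Algebra K R₀₁] [Algebra R₀ R₀₁]
    [Algebra R₁ R₀₁] [IsScalarTower K R₀ R₀₁] [IsScalarTower K R₁ R₀₁]

/-- Isomorphic gluing data have isomorphic `Ȟ⁰` and `Ȟ¹`. -/
theorem glueDatum_finrank_eq_of_isIso {G G' : GlueDatum K R₀ R₁ R₀₁} (h : G.IsIso G') :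
    Module.finrank K G.H0 = Module.finrank K G'.H0 ∧
      Module.finrank K G.H1 = Module.finrank K G'.H1 := by
  obtain ⟨i⟩ := h
  let E : (G.N₀ × G.N₁) ≃ₗ[K] (G'.N₀ × G'.N₁) :=
    (i.e₀.restrictScalars K).prodCongr (i.e₁.restrictScalars K)
  let E₀₁ : G.N₀₁ ≃ₗ[K] G'.N₀₁ := i.e₀₁.restrictScalars K
  have hcomm : ∀ x, G'.cech (E x) = E₀₁ (G.cech x) := by
    rintro ⟨s₀, s₁⟩
    change G'.r₀ (i.e₀ s₀) + -(G'.r₁ (i.e₁ s₁)) = i.e₀₁ (G.r₀ s₀ + -(G.r₁ s₁))
    rw [map_add, map_neg, i.comm₀, i.comm₁]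
  constructor
  · refine LinearEquiv.finrank_eq (E.ofSubmodules _ _ ?_)
    ext y
    simp only [Submodule.mem_map, LinearMap.mem_ker]
    constructor
    · rintro ⟨x, hx, rfl⟩
      change G'.cech (E x) = 0
      rw [hcomm, hx, map_zero]
    · intro hy
      refine ⟨E.symm y, ?_, E.apply_symm_apply y⟩
      have := hcomm (E.symm y)
      rw [E.apply_symm_apply, hy] at this
      exact (E₀₁.map_eq_zero_iff).1 this.symm
  · refine LinearEquiv.finrank_eq (Submodule.Quotient.equiv _ _ E₀₁ ?_)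
    ext y
    simp only [Submodule.mem_map, LinearMap.mem_range]
    constructor
    · rintro ⟨_, ⟨x, rfl⟩, rfl⟩
      exact ⟨E x, hcomm x⟩
    · rintro ⟨x, rfl⟩
      refine ⟨G.cech (E.symm x), ⟨_, rfl⟩, ?_⟩
      have := hcomm (E.symm x)
      rw [E.apply_symm_apply] at this
      exact this.symm

/-- **The degree is invariant under isomorphism** of gluing data. -/
theorem glueDatum_degree_eq_of_isIso {G G' : GlueDatum K R₀ R₁ R₀₁} (h : G.IsIso G') :
    G.degree = G'.degree := by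
  obtain ⟨h0, h1⟩ := glueDatum_finrank_eq_of_isIso h
  unfold GlueDatum.degree GlueDatum.euler
  rw [h0, h1]

end Degree

section Curve

variable {k : Type u} [Field k] {B₀ B₁ B₀₁ : Type u} [CommRing B₀] [CommRing B₁] [CommRing B₀₁]
  [Algebra k B₀] [Algebra k B₁] [Algebra k B₀₁] [Algebra B₀ B₀₁] [Algebra B₁ B₀₁]
  [IsScalarTower k B₀ B₀₁] [IsScalarTower k B₁ B₀₁]
  {A A' A'' : Type u} [CommRing A] [Algebra k A] [CommRing A'] [Algebra k A'] [CommRing A'']
  [Algebra k A'']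

theorem tensorMapLeft_comp (φ : A →ₐ[k] A') (ψ : A' →ₐ[k] A'') (B : Type u) [CommRing B]
    [Algebra k B] :
    tensorMapLeft k (ψ.comp φ) B = (tensorMapLeft k ψ B).comp (tensorMapLeft k φ B) := by
  apply RingHom.ext
  intro z
  induction z using TensorProduct.induction_on with
  | zero => simp
  | tmul a b => rfl
  | add x y hx hy => rw [map_add, map_add, hx, hy]

theorem tensorMapLeft_id (B : Type u) [CommRing B] [Algebra k B] :
    tensorMapLeft k (AlgHom.id k A) B = RingHom.id (A ⊗[k] B) := by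
  apply RingHom.ext
  intro z
  induction z using TensorProduct.induction_on with
  | zero => simp
  | tmul a b => rfl
  | add x y hx hy => rw [map_add, map_add, hx, hy]

theorem epsHom_apply_tmul (e : B₁ →ₐ[k] k) (a : A) (b : B₁) :
    epsHom e A (a ⊗ₜ[k] b) = a * algebraMap k A (e b) := by
  simp [epsHom, Algebra.ofId_apply]

/-- The marked point is compatible with base change. -/
theorem epsHom_tensorMapLeft (e : B₁ →ₐ[k] k) (φ : A →ₐ[k] A') :
    φ.toRingHom.comp (epsHom e A).toRingHom =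
      (epsHom e A').toRingHom.comp (tensorMapLeft k φ B₁) := by
  refine RingHom.ext fun z => ?_
  induction z using TensorProduct.induction_on with
  | zero => simp
  | tmul a b =>
    change φ (epsHom e A (a ⊗ₜ[k] b)) = epsHom e A' (tensorMapLeft k φ B₁ (a ⊗ₜ[k] b))
    rw [tensorMapLeft_tmul, epsHom_apply_tmul, epsHom_apply_tmul, map_mul, AlgHom.commutes]
  | add x y hx hy => rw [map_add, map_add, hx, hy]

/-- **GDC, existence**: base changes of gluing data on `C_A` exist. -/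
theorem curveGD_exists_isBC (φ : A →ₐ[k] A') (G : CurveGD k B₀ B₁ B₀₁ A) :
    ∃ G' : CurveGD k B₀ B₁ B₀₁ A', CurveGD.IsBC φ G G' :=
  exists_glueDatum_baseChange (tensorMapLeft k φ B₀) (tensorMapLeft k φ B₁)
    (tensorMapLeft k φ B₀₁) (tensorMapLeft_comp_algebraMap k φ B₀ B₀₁)
    (tensorMapLeft_comp_algebraMap k φ B₁ B₀₁) G

/-- **GDC, composition**: base changes of gluing data on `C_A` compose. -/
theorem curveGD_isBC_comp (φ : A →ₐ[k] A') (ψ : A' →ₐ[k] A'') {G : CurveGD k B₀ B₁ B₀₁ A}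
    {G' : CurveGD k B₀ B₁ B₀₁ A'} {G'' : CurveGD k B₀ B₁ B₀₁ A''}
    (h : CurveGD.IsBC φ G G') (h' : CurveGD.IsBC ψ G' G'') : CurveGD.IsBC (ψ.comp φ) G G'' :=
  glueDatum_isBC_comp _ _ _ _ _ _ _ _ _ (tensorMapLeft_comp φ ψ B₀) (tensorMapLeft_comp φ ψ B₁)
    (tensorMapLeft_comp φ ψ B₀₁) h h'

/-- **GDC, identity**: every gluing datum is a base change of itself along the identity. -/
theorem curveGD_isBC_id (G : CurveGD k B₀ B₁ B₀₁ A) : CurveGD.IsBC (AlgHom.id k A) G G :=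
  glueDatum_isBC_refl _ _ _ (tensorMapLeft_id B₀) (tensorMapLeft_id B₁) (tensorMapLeft_id B₀₁) G

/-- **GDC, rigidifiability** is stable under base change. -/
theorem curveGD_rigidifiable_of_isBC (e : B₁ →ₐ[k] k) (φ : A →ₐ[k] A')
    {G : CurveGD k B₀ B₁ B₀₁ A} {G' : CurveGD k B₀ B₁ B₀₁ A'} (h : CurveGD.IsBC φ G G')
    (hr : G.Rigidifiable e) : G'.Rigidifiable e := by
  obtain ⟨m⟩ := h
  obtain ⟨b, hb⟩ := hr
  obtain ⟨r', hr', -⟩ := exists_semilinear_square (epsHom e A).toRingHom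
    (tensorMapLeft k φ B₁) φ.toRingHom (epsHom e A').toRingHom (epsHom_tensorMapLeft e φ)
    b hb m.b₁ m.isBaseChange₁ _ (isSemilinearBaseChange_self φ.toRingHom)
  exact ⟨r', hr'⟩

/-- **GDC, degree**: over a field, isomorphic gluing data on `C_K` have the same degree. -/
theorem curveGD_degree_eq_of_isIso {K : Type u} [Field K] [Algebra k K]
    {G G' : CurveGD k B₀ B₁ B₀₁ K} (h : G.IsIso G') : G.degree = G'.degree :=
  glueDatum_degree_eq_of_isIso h

end Curve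

end Fermat.Agent.S25.H911

end
-- ===== PACK-END S25/H911/GDCBase.lean

-- ===== PACK-BEGIN S25/H250/TwistEulerCore.lean
section
/-
S25, block DEGREE (squad S25/S10), leaf D4 core (helper250), operator language over a field:
Euler characteristic of the twisted differential,
`h⁰(m) + h¹(0) = h⁰(0) + m · dim (N1 / Y1 N1) + h¹(m)`.
-/





set_option autoImplicit false
set_option linter.style.haveILetI false
set_option linter.unusedSectionVars false

universe u v

namespace Fermat.Agent.S25.H250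

open Fermat.Agent.S25.H10

section Pow

variable {K : Type u} [Field K] {N : Type v} [AddCommGroup N] [Module K N]

/-- `dim N / E^m N = m · dim N / E N` for an `IsFGProj` operator over a field. -/
theorem finrank_quotient_range_pow {E : Module.End K N} (h : IsFGProj E) (m : ℕ) :
    Module.finrank K (N ⧸ LinearMap.range (E ^ m)) =
      m * Module.finrank K (N ⧸ LinearMap.range E) := by
  induction m with
  | zero =>
    have : LinearMap.range (E ^ 0) = ⊤ := by
      rw [pow_zero]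
      exact LinearMap.range_eq_top.2 (fun z => ⟨z, rfl⟩)
    rw [this, Nat.zero_mul]
    haveI : Subsingleton (N ⧸ (⊤ : Submodule K N)) := Submodule.Quotient.subsingleton_iff.2 rfl
    exact Module.finrank_zero_of_subsingleton
  | succ m ih =>
    have hE : Function.Injective E := injective_of_isFGProj h
    have hEm : Function.Injective (E ^ m) := pow_injective_of_isFGProj h m
    have hcomp : (E ^ m) ∘ₗ E = E ^ (m + 1) := by
      rw [pow_succ]; rfl
    haveI : FiniteDimensional K (LinearMap.ker (E ^ m)) := by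
      rw [LinearMap.ker_eq_bot.2 hEm]; infer_instance
    haveI : FiniteDimensional K (N ⧸ LinearMap.range E) := by
      have := (quotient_pow_finite_projective h 1).1
      rwa [pow_one] at this
    haveI : FiniteDimensional K (N ⧸ LinearMap.range ((E ^ m) ∘ₗ E)) := by
      rw [hcomp]
      exact (quotient_pow_finite_projective h (m + 1)).1
    have key := finrank_ker_add_finrank_coker E (E ^ m) hE
    have hk1 : Module.finrank K (LinearMap.ker (E ^ m)) = 0 := by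
      rw [LinearMap.ker_eq_bot.2 hEm]; exact finrank_bot K N
    have hk2 : Module.finrank K (LinearMap.ker ((E ^ m) ∘ₗ E)) = 0 := by
      have hinj : Function.Injective ((E ^ m) ∘ₗ E) := fun a b hab => hE (hEm hab)
      rw [LinearMap.ker_eq_bot.2 hinj]; exact finrank_bot K N
    rw [hk1, hk2, hcomp, ih] at key
    rw [Nat.succ_mul]
    omega

end Pow

section Twist

variable {K : Type u} [Field K] {N0 N1 N01 : Type v}
  [AddCommGroup N0] [AddCommGroup N1] [AddCommGroup N01]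
  [Module K N0] [Module K N1] [Module K N01]

/-- The modification `(a, b) ↦ (a, Y1^m b)`. -/
noncomputable def twistIncl (D : CechOps K N0 N1 N01) (m : ℕ) : (N0 × N1) →ₗ[K] (N0 × N1) :=
  LinearMap.prodMap LinearMap.id (D.Y1 ^ m)

theorem d_comp_twistIncl (D : CechOps K N0 N1 N01) (m : ℕ) :
    D.d m ∘ₗ twistIncl D m = D.d 0 := by
  apply LinearMap.ext
  rintro ⟨a, b⟩
  simp only [LinearMap.coe_comp, Function.comp_apply, twistIncl, LinearMap.prodMap_apply,
    LinearMap.id_coe, id_eq, CechOps.d_apply, pow_zero, Module.End.one_apply]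
  rw [D.r1_Y1_pow, D.T_pow_Tinv_pow_apply]

theorem twistIncl_injective (D : CechOps K N0 N1 N01) (h1 : IsFGProj D.Y1) (m : ℕ) :
    Function.Injective (twistIncl D m) := by
  rintro ⟨a, b⟩ ⟨a', b'⟩ hab
  simp only [twistIncl, LinearMap.prodMap_apply, LinearMap.id_coe, id_eq, Prod.mk.injEq] at hab
  obtain ⟨h1', h2'⟩ := hab
  rw [h1', pow_injective_of_isFGProj h1 m h2']

/-- The cokernel of `twistIncl` is `N1 / Y1^m N1`. -/
noncomputable def cokerTwistInclEquiv (D : CechOps K N0 N1 N01) (m : ℕ) :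
    ((N0 × N1) ⧸ LinearMap.range (twistIncl D m)) ≃ₗ[K] (N1 ⧸ LinearMap.range (D.Y1 ^ m)) := by
  let f : (N0 × N1) →ₗ[K] (N1 ⧸ LinearMap.range (D.Y1 ^ m)) :=
    (LinearMap.range (D.Y1 ^ m)).mkQ ∘ₗ LinearMap.snd K N0 N1
  have hf : Function.Surjective f := by
    intro z
    obtain ⟨b, rfl⟩ := Submodule.Quotient.mk_surjective _ z
    exact ⟨(0, b), rfl⟩
  have hker : LinearMap.range (twistIncl D m) = LinearMap.ker f := by
    ext ⟨a, b⟩
    simp only [LinearMap.mem_range, LinearMap.mem_ker, f, LinearMap.coe_comp,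
      Function.comp_apply, LinearMap.snd_apply, Submodule.mkQ_apply,
      Submodule.Quotient.mk_eq_zero, twistIncl, LinearMap.prodMap_apply, LinearMap.id_coe, id_eq,
      Prod.mk.injEq, Prod.exists]
    constructor
    · rintro ⟨a', b', -, hb⟩
      exact ⟨b', hb⟩
    · rintro ⟨b', hb⟩
      exact ⟨a, b', rfl, hb⟩
  exact (Submodule.quotEquivOfEq _ _ hker).trans (f.quotKerEquivOfSurjective hf)

/-- **D4 core.**  `h⁰(m) + h¹(0) = h⁰(0) + m · dim (N1 / Y1 N1) + h¹(m)`. -/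
theorem finrank_twist (D : CechOps K N0 N1 N01) (h1 : IsFGProj D.Y1) (m : ℕ)
    [FiniteDimensional K (LinearMap.ker (D.d m))]
    [FiniteDimensional K (N01 ⧸ LinearMap.range (D.d 0))] :
    Module.finrank K (LinearMap.ker (D.d m)) + Module.finrank K (N01 ⧸ LinearMap.range (D.d 0)) =
      Module.finrank K (LinearMap.ker (D.d 0)) + m * Module.finrank K (N1 ⧸ LinearMap.range D.Y1)
        + Module.finrank K (N01 ⧸ LinearMap.range (D.d m)) := by
  haveI : FiniteDimensional K (N1 ⧸ LinearMap.range (D.Y1 ^ m)) :=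
    (quotient_pow_finite_projective h1 m).1
  haveI : FiniteDimensional K ((N0 × N1) ⧸ LinearMap.range (twistIncl D m)) :=
    Module.Finite.equiv (cokerTwistInclEquiv D m).symm
  haveI : FiniteDimensional K (N01 ⧸ LinearMap.range (D.d m ∘ₗ twistIncl D m)) := by
    rw [d_comp_twistIncl]; infer_instance
  have key := finrank_ker_add_finrank_coker (twistIncl D m) (D.d m) (twistIncl_injective D h1 m)
  rw [d_comp_twistIncl, (cokerTwistInclEquiv D m).finrank_eq, finrank_quotient_range_pow h1 m]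
    at key
  exact key

end Twist

end Fermat.Agent.S25.H250

end
-- ===== PACK-END S25/H250/TwistEulerCore.lean

-- ===== PACK-BEGIN S25/H325/GDCIso.lean
section
/-
S25 helper (helper325), block GDC item 7, part 3: the dual gluing datum and the canonical
isomorphisms of the "Picard calculus" of gluing data:
`G^∨ ⊗ G ≅ unit`, `unit ⊗ G ≅ G`, `G ⊗ G' ≅ G' ⊗ G`, `Hom(G, G') ≅ G^∨ ⊗ G'`,
and the congruences of `tensorGD`, `homGD` with respect to `IsIso`.
Over the frozen `DefsAlg.lean`.  Pure algebra.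
-/






set_option autoImplicit false

universe u

open TensorProduct

namespace Fermat.Agent.S25.H325

open Fermat.Agent.S25

noncomputable section

variable {A R₀ R₁ R₀₁ : Type u} [CommRing A] [CommRing R₀] [CommRing R₁]
    [CommRing R₀₁] [Algebra A R₀] [Algebra A R₁] [Algebra A R₀₁] [Algebra R₀ R₀₁]
    [Algebra R₁ R₀₁] [IsScalarTower A R₀ R₀₁] [IsScalarTower A R₁ R₀₁]

variable (G G' G'' : GlueDatum A R₀ R₁ R₀₁)

/-- The dual gluing datum `G^∨ = Hom(G, unit)`. -/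
def dualGD : GlueDatum A R₀ R₁ R₀₁ := homGD G (GlueDatum.unit A R₀ R₁ R₀₁)

variable {G G' G''}

/-- Constructor for morphisms out of a tensor product: the compatibility with restriction
only has to be checked on pure tensors. -/
def GDHom.ofTensor {H : GlueDatum A R₀ R₁ R₀₁}
    (f₀ : G.N₀ ⊗[R₀] G'.N₀ →ₗ[R₀] H.N₀) (f₁ : G.N₁ ⊗[R₁] G'.N₁ →ₗ[R₁] H.N₁)
    (f₀₁ : G.N₀₁ ⊗[R₀₁] G'.N₀₁ →ₗ[R₀₁] H.N₀₁)
    (h₀ : ∀ n n', f₀₁ (G.r₀ n ⊗ₜ[R₀₁] G'.r₀ n') = H.r₀ (f₀ (n ⊗ₜ[R₀] n')))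
    (h₁ : ∀ n n', f₀₁ (G.r₁ n ⊗ₜ[R₀₁] G'.r₁ n') = H.r₁ (f₁ (n ⊗ₜ[R₁] n'))) :
    GDHom (tensorGD G G') H where
  f₀ := f₀
  f₁ := f₁
  f₀₁ := f₀₁
  comm₀ s := by
    change f₀₁ (tensorRes (S := R₀₁) G.r₀ G'.r₀ s) = H.r₀ (f₀ s)
    induction s using TensorProduct.induction_on with
    | zero => simp
    | tmul n n' => rw [tensorRes_tmul, h₀]
    | add x y hx hy => simp only [map_add, hx, hy]
  comm₁ s := by
    change f₀₁ (tensorRes (S := R₀₁) G.r₁ G'.r₁ s) = H.r₁ (f₁ s)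
    induction s using TensorProduct.induction_on with
    | zero => simp
    | tmul n n' => rw [tensorRes_tmul, h₁]
    | add x y hx hy => simp only [map_add, hx, hy]

/-! ### `unit ⊗ G ≅ G` -/

theorem tensorGD_unit_left_isIso (G : GlueDatum A R₀ R₁ R₀₁) :
    (tensorGD (GlueDatum.unit A R₀ R₁ R₀₁) G).IsIso G := by
  refine isIso_of_bijective
    (GDHom.ofTensor (G := GlueDatum.unit A R₀ R₁ R₀₁) (G' := G) (H := G)
      (TensorProduct.lid R₀ G.N₀).toLinearMap (TensorProduct.lid R₁ G.N₁).toLinearMap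
      (TensorProduct.lid R₀₁ G.N₀₁).toLinearMap ?_ ?_)
    (TensorProduct.lid R₀ G.N₀).bijective (TensorProduct.lid R₁ G.N₁).bijective
  · intro a n
    change (TensorProduct.lid R₀₁ G.N₀₁) (algebraMap R₀ R₀₁ a ⊗ₜ[R₀₁] G.r₀ n) =
      G.r₀ ((TensorProduct.lid R₀ G.N₀) (a ⊗ₜ[R₀] n))
    rw [TensorProduct.lid_tmul, TensorProduct.lid_tmul, algebraMap_smul, map_smul]
  · intro a n
    change (TensorProduct.lid R₀₁ G.N₀₁) (algebraMap R₁ R₀₁ a ⊗ₜ[R₀₁] G.r₁ n) =
      G.r₁ ((TensorProduct.lid R₁ G.N₁) (a ⊗ₜ[R₁] n))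
    rw [TensorProduct.lid_tmul, TensorProduct.lid_tmul, algebraMap_smul, map_smul]

/-! ### `G ⊗ G' ≅ G' ⊗ G` -/

theorem tensorGD_comm_isIso (G G' : GlueDatum A R₀ R₁ R₀₁) :
    (tensorGD G G').IsIso (tensorGD G' G) := by
  refine isIso_of_bijective
    (GDHom.ofTensor (G := G) (G' := G') (H := tensorGD G' G)
      (TensorProduct.comm R₀ G.N₀ G'.N₀).toLinearMap
      (TensorProduct.comm R₁ G.N₁ G'.N₁).toLinearMap
      (TensorProduct.comm R₀₁ G.N₀₁ G'.N₀₁).toLinearMap ?_ ?_)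
    (TensorProduct.comm R₀ G.N₀ G'.N₀).bijective (TensorProduct.comm R₁ G.N₁ G'.N₁).bijective
  · intro n n'
    change (TensorProduct.comm R₀₁ G.N₀₁ G'.N₀₁) (G.r₀ n ⊗ₜ[R₀₁] G'.r₀ n') =
      tensorRes (S := R₀₁) G'.r₀ G.r₀ ((TensorProduct.comm R₀ G.N₀ G'.N₀) (n ⊗ₜ[R₀] n'))
    rw [TensorProduct.comm_tmul, TensorProduct.comm_tmul, tensorRes_tmul]
  · intro n n'
    change (TensorProduct.comm R₀₁ G.N₀₁ G'.N₀₁) (G.r₁ n ⊗ₜ[R₀₁] G'.r₁ n') =
      tensorRes (S := R₀₁) G'.r₁ G.r₁ ((TensorProduct.comm R₁ G.N₁ G'.N₁) (n ⊗ₜ[R₁] n'))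
    rw [TensorProduct.comm_tmul, TensorProduct.comm_tmul, tensorRes_tmul]

theorem tensorGD_unit_right_isIso (G : GlueDatum A R₀ R₁ R₀₁) :
    (tensorGD G (GlueDatum.unit A R₀ R₁ R₀₁)).IsIso G :=
  isIso_trans (tensorGD_comm_isIso _ _) (tensorGD_unit_left_isIso G)

/-! ### Congruence of the tensor product -/

theorem tensorGD_isIso_congr {G₁ G₂ G₁' G₂' : GlueDatum A R₀ R₁ R₀₁} (h : G₁.IsIso G₂)
    (h' : G₁'.IsIso G₂') : (tensorGD G₁ G₁').IsIso (tensorGD G₂ G₂') := by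
  obtain ⟨e⟩ := h
  obtain ⟨e'⟩ := h'
  refine isIso_of_bijective
    (GDHom.ofTensor (G := G₁) (G' := G₁') (H := tensorGD G₂ G₂')
      (TensorProduct.congr e.e₀ e'.e₀).toLinearMap (TensorProduct.congr e.e₁ e'.e₁).toLinearMap
      (TensorProduct.congr e.e₀₁ e'.e₀₁).toLinearMap ?_ ?_)
    (TensorProduct.congr e.e₀ e'.e₀).bijective (TensorProduct.congr e.e₁ e'.e₁).bijective
  · intro n n'
    change (TensorProduct.congr e.e₀₁ e'.e₀₁) (G₁.r₀ n ⊗ₜ[R₀₁] G₁'.r₀ n') =
      tensorRes (S := R₀₁) G₂.r₀ G₂'.r₀ ((TensorProduct.congr e.e₀ e'.e₀) (n ⊗ₜ[R₀] n'))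
    rw [TensorProduct.congr_tmul, TensorProduct.congr_tmul, tensorRes_tmul, e.comm₀, e'.comm₀]
  · intro n n'
    change (TensorProduct.congr e.e₀₁ e'.e₀₁) (G₁.r₁ n ⊗ₜ[R₀₁] G₁'.r₁ n') =
      tensorRes (S := R₀₁) G₂.r₁ G₂'.r₁ ((TensorProduct.congr e.e₁ e'.e₁) (n ⊗ₜ[R₁] n'))
    rw [TensorProduct.congr_tmul, TensorProduct.congr_tmul, tensorRes_tmul, e.comm₁, e'.comm₁]

/-! ### `G^∨ ⊗ G ≅ unit` -/

theorem tensorGD_dual_isIso_unit (G : GlueDatum A R₀ R₁ R₀₁) :
    (tensorGD (dualGD G) G).IsIso (GlueDatum.unit A R₀ R₁ R₀₁) := by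
  haveI := G.invertible₀
  haveI := G.invertible₁
  refine isIso_of_bijective
    (GDHom.ofTensor (G := dualGD G) (G' := G) (H := GlueDatum.unit A R₀ R₁ R₀₁)
      (contractLeft R₀ G.N₀) (contractLeft R₁ G.N₁) (contractLeft R₀₁ G.N₀₁) ?_ ?_)
    (Module.Invertible.bijective (R := R₀) (M := G.N₀))
    (Module.Invertible.bijective (R := R₁) (M := G.N₁))
  · rintro (φ : G.N₀ →ₗ[R₀] (GlueDatum.unit A R₀ R₁ R₀₁).N₀) (n : G.N₀)
    change (contractLeft R₀₁ G.N₀₁) ((ext₀ G (GlueDatum.unit A R₀ R₁ R₀₁) φ) ⊗ₜ[R₀₁] G.r₀ n) =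
      (GlueDatum.unit A R₀ R₁ R₀₁).r₀ (φ n)
    rw [contractLeft_apply]
    exact ext₀_apply (G := G) (G' := GlueDatum.unit A R₀ R₁ R₀₁) φ n
  · rintro (φ : G.N₁ →ₗ[R₁] (GlueDatum.unit A R₀ R₁ R₀₁).N₁) (n : G.N₁)
    change (contractLeft R₀₁ G.N₀₁) ((ext₁ G (GlueDatum.unit A R₀ R₁ R₀₁) φ) ⊗ₜ[R₀₁] G.r₁ n) =
      (GlueDatum.unit A R₀ R₁ R₀₁).r₁ (φ n)
    rw [contractLeft_apply]
    exact ext₁_apply (G := G) (G' := GlueDatum.unit A R₀ R₁ R₀₁) φ n

/-! ### `Hom(G, G') ≅ G^∨ ⊗ G'` -/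

theorem tensorGD_dual_isIso_homGD (G G' : GlueDatum A R₀ R₁ R₀₁) :
    (tensorGD (dualGD G) G').IsIso (homGD G G') := by
  haveI := G.invertible₀
  haveI := G.invertible₁
  refine isIso_of_bijective
    (GDHom.ofTensor (G := dualGD G) (G' := G') (H := homGD G G')
      (dualTensorHom R₀ G.N₀ G'.N₀) (dualTensorHom R₁ G.N₁ G'.N₁)
      (dualTensorHom R₀₁ G.N₀₁ G'.N₀₁) ?_ ?_)
    (dualTensorHom_bijective ..) (dualTensorHom_bijective ..)
  · rintro (φ : G.N₀ →ₗ[R₀] (GlueDatum.unit A R₀ R₁ R₀₁).N₀) (n' : G'.N₀)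
    change dualTensorHom R₀₁ G.N₀₁ G'.N₀₁
        ((ext₀ G (GlueDatum.unit A R₀ R₁ R₀₁) φ) ⊗ₜ[R₀₁] G'.r₀ n') =
      ext₀ G G' (dualTensorHom R₀ G.N₀ G'.N₀ (φ ⊗ₜ[R₀] n'))
    apply G.isBaseChange₀.algHom_ext
    intro n
    have h1 : (ext₀ G (GlueDatum.unit A R₀ R₁ R₀₁) φ) (G.r₀ n) = algebraMap R₀ R₀₁ (φ n) :=
      ext₀_apply (G := G) (G' := GlueDatum.unit A R₀ R₁ R₀₁) φ n
    have h2 := ext₀_apply (G := G) (G' := G') (dualTensorHom R₀ G.N₀ G'.N₀ (φ ⊗ₜ[R₀] n')) n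
    rw [h2, dualTensorHom_apply, dualTensorHom_apply, map_smul]
    refine (congrArg (· • G'.r₀ n') h1).trans ?_
    exact algebraMap_smul R₀₁ (show R₀ from φ n) (G'.r₀ n')
  · rintro (φ : G.N₁ →ₗ[R₁] (GlueDatum.unit A R₀ R₁ R₀₁).N₁) (n' : G'.N₁)
    change dualTensorHom R₀₁ G.N₀₁ G'.N₀₁
        ((ext₁ G (GlueDatum.unit A R₀ R₁ R₀₁) φ) ⊗ₜ[R₀₁] G'.r₁ n') =
      ext₁ G G' (dualTensorHom R₁ G.N₁ G'.N₁ (φ ⊗ₜ[R₁] n'))
    apply G.isBaseChange₁.algHom_ext
    intro n
    have h1 : (ext₁ G (GlueDatum.unit A R₀ R₁ R₀₁) φ) (G.r₁ n) = algebraMap R₁ R₀₁ (φ n) :=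
      ext₁_apply (G := G) (G' := GlueDatum.unit A R₀ R₁ R₀₁) φ n
    have h2 := ext₁_apply (G := G) (G' := G') (dualTensorHom R₁ G.N₁ G'.N₁ (φ ⊗ₜ[R₁] n')) n
    rw [h2, dualTensorHom_apply, dualTensorHom_apply, map_smul]
    refine (congrArg (· • G'.r₁ n') h1).trans ?_
    exact algebraMap_smul R₀₁ (show R₁ from φ n) (G'.r₁ n')

theorem homGD_isIso_tensorGD_dual (G G' : GlueDatum A R₀ R₁ R₀₁) :
    (homGD G G').IsIso (tensorGD (dualGD G) G') :=
  isIso_symm (tensorGD_dual_isIso_homGD G G')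

/-! ### Congruence of the internal Hom -/

theorem homGD_isIso_congr {G₁ G₂ G₁' G₂' : GlueDatum A R₀ R₁ R₀₁} (h : G₁.IsIso G₂)
    (h' : G₁'.IsIso G₂') : (homGD G₁ G₁').IsIso (homGD G₂ G₂') := by
  obtain ⟨e⟩ := h
  obtain ⟨e'⟩ := h'
  have hsymm₀ : ∀ m, e.e₀₁.symm (G₂.r₀ m) = G₁.r₀ (e.e₀.symm m) := fun m => by
    rw [LinearEquiv.symm_apply_eq, e.comm₀, LinearEquiv.apply_symm_apply]
  have hsymm₁ : ∀ m, e.e₀₁.symm (G₂.r₁ m) = G₁.r₁ (e.e₁.symm m) := fun m => by
    rw [LinearEquiv.symm_apply_eq, e.comm₁, LinearEquiv.apply_symm_apply]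
  let F : GDHom (homGD G₁ G₁') (homGD G₂ G₂') :=
    { f₀ := (LinearEquiv.arrowCongr e.e₀ e'.e₀).toLinearMap
      f₁ := (LinearEquiv.arrowCongr e.e₁ e'.e₁).toLinearMap
      f₀₁ := (LinearEquiv.arrowCongr e.e₀₁ e'.e₀₁).toLinearMap
      comm₀ := fun f => by
        change (LinearEquiv.arrowCongr e.e₀₁ e'.e₀₁) (ext₀ G₁ G₁' f) =
          ext₀ G₂ G₂' ((LinearEquiv.arrowCongr e.e₀ e'.e₀) f)
        apply G₂.isBaseChange₀.algHom_ext
        intro m
        rw [ext₀_apply, LinearEquiv.arrowCongr_apply, LinearEquiv.arrowCongr_apply, hsymm₀,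
          ext₀_apply, e'.comm₀]
      comm₁ := fun f => by
        change (LinearEquiv.arrowCongr e.e₀₁ e'.e₀₁) (ext₁ G₁ G₁' f) =
          ext₁ G₂ G₂' ((LinearEquiv.arrowCongr e.e₁ e'.e₁) f)
        apply G₂.isBaseChange₁.algHom_ext
        intro m
        rw [ext₁_apply, LinearEquiv.arrowCongr_apply, LinearEquiv.arrowCongr_apply, hsymm₁,
          ext₁_apply, e'.comm₁] }
  exact isIso_of_bijective F (LinearEquiv.arrowCongr e.e₀ e'.e₀).bijective
    (LinearEquiv.arrowCongr e.e₁ e'.e₁).bijective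

theorem dualGD_isIso_congr {G₁ G₂ : GlueDatum A R₀ R₁ R₀₁} (h : G₁.IsIso G₂) :
    (dualGD G₁).IsIso (dualGD G₂) :=
  homGD_isIso_congr h (isIso_refl _)

/-! ### Consequences -/

/-- `Hom(unit, G) ≅ G`. -/
theorem homGD_unit_isIso (G : GlueDatum A R₀ R₁ R₀₁) :
    (homGD (GlueDatum.unit A R₀ R₁ R₀₁) G).IsIso G := by
  let F : GDHom (homGD (GlueDatum.unit A R₀ R₁ R₀₁) G) G :=
    { f₀ := (LinearMap.ringLmapEquivSelf R₀ R₀ G.N₀).toLinearMap
      f₁ := (LinearMap.ringLmapEquivSelf R₁ R₁ G.N₁).toLinearMap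
      f₀₁ := (LinearMap.ringLmapEquivSelf R₀₁ R₀₁ G.N₀₁).toLinearMap
      comm₀ := fun (f : (GlueDatum.unit A R₀ R₁ R₀₁).N₀ →ₗ[R₀] G.N₀) => by
        change (ext₀ (GlueDatum.unit A R₀ R₁ R₀₁) G f) (1 : R₀₁) = G.r₀ (f (1 : R₀))
        have h := ext₀_apply (G := GlueDatum.unit A R₀ R₁ R₀₁) (G' := G) f (1 : R₀)
        rw [← h]
        congr 1
        exact (map_one (algebraMap R₀ R₀₁)).symm
      comm₁ := fun (f : (GlueDatum.unit A R₀ R₁ R₀₁).N₁ →ₗ[R₁] G.N₁) => by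
        change (ext₁ (GlueDatum.unit A R₀ R₁ R₀₁) G f) (1 : R₀₁) = G.r₁ (f (1 : R₁))
        have h := ext₁_apply (G := GlueDatum.unit A R₀ R₁ R₀₁) (G' := G) f (1 : R₁)
        rw [← h]
        congr 1
        exact (map_one (algebraMap R₁ R₀₁)).symm }
  exact isIso_of_bijective F (LinearMap.ringLmapEquivSelf R₀ R₀ G.N₀).bijective
    (LinearMap.ringLmapEquivSelf R₁ R₁ G.N₁).bijective

/-- The dual of the unit is the unit. -/
theorem dualGD_unit_isIso :
    (dualGD (GlueDatum.unit A R₀ R₁ R₀₁)).IsIso (GlueDatum.unit A R₀ R₁ R₀₁) :=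
  homGD_unit_isIso _

/-- `G ⊗ G^∨ ≅ unit`. -/
theorem tensorGD_dual_right_isIso_unit (G : GlueDatum A R₀ R₁ R₀₁) :
    (tensorGD G (dualGD G)).IsIso (GlueDatum.unit A R₀ R₁ R₀₁) :=
  isIso_trans (tensorGD_comm_isIso _ _) (tensorGD_dual_isIso_unit G)

end

end Fermat.Agent.S25.H325

end
-- ===== PACK-END S25/H325/GDCIso.lean

-- ===== PACK-BEGIN S26/TopPic.lean
section


/-!
# Row S26: formal consequences of the theorem of the cube (glue, architect helper987)

* `nquadPic_of_cube`  : `Cube ⇒ ([-1]^*M = M ⇒ [n]^*M = n² • M)`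
* `squarePic_of_cube` : `Cube ⇒ T_x^*M + T_{-x}^*M = 2 • M`
* `nquad_of`, `squareLS_of` : the same for linear systems / Cartier divisors
  (`Stmt.NQuad`, `Stmt.SquareLS`).
-/

set_option autoImplicit false
universe u

open CategoryTheory CategoryTheory.Limits AlgebraicGeometry NeronModelInfra GoodReductionJacobian

namespace Fermat.Agent.S26

variable {K : Type u} [Field K]

section Points

variable (X : AbVar K) (T : PicTheory.{u})

theorem AbVar.const_coe {S : Scheme.{u}} (s : S ⟶ Spec (CommRingCat.of K)) (x : X.Pt) :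
    (X.const s x).1 = s ≫ x.1 := rfl

theorem AbVar.const_mul {S : Scheme.{u}} (s : S ⟶ Spec (CommRingCat.of K)) (x y : X.Pt) :
    X.law.mul s (X.const s x) (X.const s y) =
      X.const s (X.law.mul (𝟙 (Spec (CommRingCat.of K))) x y) :=
  (X.law.mul_natural (𝟙 _) s s (Category.comp_id s) x y).symm

theorem AbVar.const_one {S : Scheme.{u}} (s : S ⟶ Spec (CommRingCat.of K)) :
    X.const s (X.law.one (𝟙 (Spec (CommRingCat.of K)))) = X.law.one s :=
  X.law.one_natural (𝟙 _) s s (Category.comp_id s)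

variable {X T}

/-- Pull-back along a constant point kills every class. -/
theorem map_const_eq_zero (hT : T.IsLocal) {S : Scheme.{u}}
    (s : S ⟶ Spec (CommRingCat.of K)) (x : X.Pt) (M : T.Pic X.A) :
    T.map (X.const s x).1 M = 0 := by
  rw [AbVar.const_coe, T.map_comp, hT K (T.map x.1 M), map_zero]

theorem map_one_eq_zero (hT : T.IsLocal) {S : Scheme.{u}}
    (s : S ⟶ Spec (CommRingCat.of K)) (M : T.Pic X.A) :
    T.map (X.law.one s).1 M = 0 := by
  rw [← AbVar.const_one]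
  exact map_const_eq_zero hT s _ M

theorem map_idPoint (M : T.Pic X.A) :
    T.map (RelativeGroupLaw.idPoint (f := X.str)).1 M = M :=
  T.map_id _ M

end Points

section Cube

variable [IsAlgClosed K] {T : PicTheory.{u}}

/-- The recursion `[n+1]^*M = 2 [n]^*M - [n-1]^*M + M + [-1]^*M`. -/
theorem nsmul_rec (hT : T.IsLocal) (hC : Stmt.Cube T K) (X : AbVar K) (M : T.Pic X.A) (n : ℕ) :
    T.map (X.nsmulHom (n + 2)) M =
      2 • T.map (X.nsmulHom (n + 1)) M - T.map (X.nsmulHom n) M + M + T.map X.negHom M := by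
  letI := X.law.pointGroup X.str
  set i : SchemeHomOver X.str X.str := RelativeGroupLaw.idPoint with hi
  set a : SchemeHomOver X.str X.str := X.law.nsmul X.str (n + 1) i with ha
  have h1 : X.law.mul X.str (X.law.mul X.str a i) (X.law.inv X.str i) = a := by
    rw [X.law.mul_assoc, X.law.mul_inv_cancel, X.law.mul_one]
  have h2 : X.law.mul X.str a i = X.law.nsmul X.str (n + 2) i := rfl
  have h3 : X.law.mul X.str a (X.law.inv X.str i) = X.law.nsmul X.str n i := by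
    rw [ha, RelativeGroupLaw.nsmul_succ, X.law.mul_assoc, X.law.mul_inv_cancel, X.law.mul_one]
  have h4 : X.law.mul X.str i (X.law.inv X.str i) = X.law.one X.str :=
    X.law.mul_inv_cancel X.str i
  have key := hC X X.str a i (X.law.inv X.str i) M
  rw [h1, h2, h3, h4, map_one_eq_zero hT, map_idPoint] at key
  have e1 : T.map (X.law.nsmul X.str (n + 2) i).1 M = T.map (X.nsmulHom (n + 2)) M := rfl
  have e2 : T.map (X.law.nsmul X.str n i).1 M = T.map (X.nsmulHom n) M := rfl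
  have e3 : T.map a.1 M = T.map (X.nsmulHom (n + 1)) M := rfl
  have e4 : T.map (X.law.inv X.str i).1 M = T.map X.negHom M := rfl
  rw [e1, e2, e3, e4] at key
  have : T.map (X.nsmulHom (n + 2)) M =
      (T.map (X.nsmulHom (n + 1)) M - T.map (X.nsmulHom (n + 2)) M - T.map (X.nsmulHom n) M - 0
        + T.map (X.nsmulHom (n + 1)) M + M + T.map X.negHom M) + T.map (X.nsmulHom (n + 2)) M := by
    rw [key, zero_add]
  rw [this]
  abel

theorem nquadPic_of_cube (hT : T.IsLocal) (hC : Stmt.Cube T K) : Stmt.NQuadPic T K := by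
  intro X M hM
  have h0 : T.map (X.nsmulHom 0) M = 0 := map_one_eq_zero hT X.str M
  have h1 : T.map (X.nsmulHom 1) M = M := by
    have : X.law.nsmul X.str 1 RelativeGroupLaw.idPoint = RelativeGroupLaw.idPoint :=
      X.law.nsmul_one_apply X.str _
    show T.map (X.law.nsmul X.str 1 RelativeGroupLaw.idPoint).1 M = M
    rw [this]
    exact map_idPoint M
  have main : ∀ n : ℕ, T.map (X.nsmulHom n) M = ((n : ℤ) ^ 2) • M ∧
      T.map (X.nsmulHom (n + 1)) M = (((n : ℤ) + 1) ^ 2) • M := by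
    intro n
    induction n with
    | zero => exact ⟨by simpa using h0, by simpa using h1⟩
    | succ n ih =>
      refine ⟨by simpa using ih.2, ?_⟩
      rw [nsmul_rec hT hC X M n, ih.1, ih.2, hM]
      push_cast
      module
  intro n
  rw [(main n).1]
  norm_cast

theorem squarePic_of_cube (hT : T.IsLocal) (hC : Stmt.Cube T K) : Stmt.SquarePic T K := by
  intro X M x
  set i : SchemeHomOver X.str X.str := RelativeGroupLaw.idPoint with hi
  set b := X.const X.str x with hb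
  set c := X.const X.str (X.negPt x) with hc
  have hbc : X.law.mul X.str b c = X.law.one X.str := by
    rw [hb, hc, AbVar.const_mul, AbVar.negPt, X.law.mul_inv_cancel, AbVar.const_one]
  have h1 : X.law.mul X.str (X.law.mul X.str i b) c = i := by
    rw [X.law.mul_assoc, hbc, X.law.mul_one]
  have key := hC X X.str i b c M
  rw [h1, hbc, map_one_eq_zero hT, map_const_eq_zero hT, map_const_eq_zero hT,
    map_idPoint] at key
  have e1 : T.map (X.law.mul X.str i b).1 M = T.map (X.transl x) M := rfl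
  have e2 : T.map (X.law.mul X.str i c).1 M = T.map (X.transl (X.negPt x)) M := rfl
  rw [e1, e2] at key
  have : T.map (X.transl x) M + T.map (X.transl (X.negPt x)) M =
      2 • M - (M - T.map (X.transl x) M - T.map (X.transl (X.negPt x)) M - 0 + M + 0 + 0) := by
    abel
  rw [this, key, sub_zero]

end Cube

end Fermat.Agent.S26

end
-- ===== PACK-END S26/TopPic.lean

-- ===== PACK-BEGIN S26/H147/SoftGlue.lean
section
/-
Row S26, block SOFT (architect helper987): `Stmt.Soft` follows from leaf S3 ("`[n]` is etale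
for `n` invertible in `K`").  AbVar forms of S4, S5, S6c.  (helper147)
-/



set_option autoImplicit false
set_option linter.style.haveILetI false
universe u

open CategoryTheory CategoryTheory.Limits AlgebraicGeometry NeronModelInfra GoodReductionJacobian

namespace Fermat.Agent.S26.H147

variable {K : Type u} [Field K]

/-- `Stmt.KerPoints K` of helper527's `Soft/Spec.lean` (same statement, unfolded). -/
theorem kerPoints (K : Type u) [Field K] :
    ∀ (X : AbVar K) (n : ℕ),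
      Nonempty (SchemeHomOver (𝟙 (Spec (CommRingCat.of K))) (X.law.schemeKerStr n) ≃
        X.Torsion n) :=
  fun X n => ⟨(torsionEquivKerPt X.law n).symm⟩

/-- **S6c** (exact skeleton statement). -/
theorem card_torsion_eq_finrank [IsAlgClosed K] (X : AbVar K) (n : ℕ)
    (hfin : IsFinite (X.nsmulHom n)) (het : Etale (X.nsmulHom n)) (a : X.A) :
    Nat.card (X.Torsion n) = (X.nsmulHom n).finrank a :=
  card_torsion_eq_finrank_law X.law X.bundle n hfin het a

/-- **SOFT, glue.** `Stmt.Soft` follows from leaf S3 (`[n]` is etale). -/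
theorem soft_of_etale (K : Type u) [Field K] [IsAlgClosed K]
    (h : ∀ (X : AbVar K) (n : ℕ), (n : K) ≠ 0 → Etale (X.nsmulHom n)) : Stmt.Soft K := by
  intro X n hn
  have het : Etale (X.nsmulHom n) := h X n hn
  have hfin : IsFinite (X.nsmulHom n) := isFinite_schemeNsmul X.law X.bundle.proper n het
  exact ⟨hfin, het, fun a => card_torsion_eq_finrank X n hfin het a⟩

end Fermat.Agent.S26.H147

end
-- ===== PACK-END S26/H147/SoftGlue.lean

-- ===== PACK-BEGIN S27/H866/Proper.lean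
section


/-!
# Row S27, leaf SCHEME (helper866): the valuative criterion for a two-chart curve
-/

set_option autoImplicit false
set_option linter.style.haveILetI false
set_option linter.unusedSectionVars false

open CategoryTheory CategoryTheory.Limits AlgebraicGeometry Opposite Polynomial

universe u

namespace Fermat.Agent.S27.H866

noncomputable section

section Alg

variable {k B R K : Type u} [CommRing k] [CommRing B] [Algebra k B]
  [CommRing R] [IsDomain R] [ValuationRing R] [Field K] [Algebra R K] [IsFractionRing R K]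

/-- A ring map from `B` (finite over `k[x]`) to the fraction field of a valuation ring `R`
which maps `k` and `x` into `R` maps `B` into `R`. -/
lemma exists_factor_of_finite (x : B) (hfin : (Polynomial.aeval x : k[X] →ₐ[k] B).Finite)
    (α : B →+* K) (κ : k →+* R)
    (hκ : α.comp (algebraMap k B) = (algebraMap R K).comp κ)
    (hx : ∃ r : R, algebraMap R K r = α x) :
    ∃ β : B →+* R, (algebraMap R K).comp β = α := by
  obtain ⟨r, hr⟩ := hx
  have hint : (Polynomial.aeval x : k[X] →ₐ[k] B).toRingHom.IsIntegral :=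
    RingHom.Finite.to_isIntegral hfin
  let ψ : k[X] →+* R := Polynomial.eval₂RingHom κ r
  have hψ : α.comp (Polynomial.aeval x : k[X] →ₐ[k] B).toRingHom = (algebraMap R K).comp ψ := by
    apply Polynomial.ringHom_ext
    · intro a
      have := congrArg (fun f => f a) hκ
      simpa [ψ] using this
    · simp [ψ, hr]
  have hmem : ∀ b : B, ∃ s : R, algebraMap R K s = α b := by
    intro b
    obtain ⟨p, hp, hpb⟩ := hint b
    have h1 : Polynomial.eval₂ (α.comp (Polynomial.aeval x : k[X] →ₐ[k] B).toRingHom) (α b) p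
        = 0 := by
      rw [← Polynomial.hom_eval₂, hpb, map_zero]
    rw [hψ, ← Polynomial.eval₂_map] at h1
    have h2 : IsIntegral R (α b) := ⟨p.map ψ, hp.map ψ, h1⟩
    exact IsIntegrallyClosed.isIntegral_iff.mp h2
  have hinj : Function.Injective (algebraMap R K) := IsFractionRing.injective R K
  choose β' hβ' using hmem
  refine ⟨{ toFun := β', map_one' := ?_, map_mul' := ?_, map_zero' := ?_, map_add' := ?_ }, ?_⟩
  · apply hinj; rw [hβ', map_one, map_one]
  · intro a b; apply hinj; rw [hβ', map_mul, map_mul, hβ', hβ']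
  · apply hinj; rw [hβ', map_zero, map_zero]
  · intro a b; apply hinj; rw [hβ', map_add, map_add, hβ', hβ']
  · ext b; exact hβ' b

end Alg

section SpecLemmas

variable {A B D : Type u} [CommRing A] [CommRing B] [CommRing D]

lemma specMap_comp_ofHom (f : A →+* B) (g : B →+* D) :
    Spec.map (CommRingCat.ofHom g) ≫ Spec.map (CommRingCat.ofHom f) =
      Spec.map (CommRingCat.ofHom (g.comp f)) := by
  rw [← Spec.map_comp, ← CommRingCat.ofHom_comp]

@[reassoc]
lemma specMap_comp_ofHom' {X : Scheme.{u}} (f : A →+* B) (g : B →+* D)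
    (h : Spec (CommRingCat.of A) ⟶ X) :
    Spec.map (CommRingCat.ofHom g) ≫ Spec.map (CommRingCat.ofHom f) ≫ h =
      Spec.map (CommRingCat.ofHom (g.comp f)) ≫ h := by
  rw [← Category.assoc, specMap_comp_ofHom]

lemma ofHom_eq_of_specMap_eq {f g : A →+* B}
    (h : Spec.map (CommRingCat.ofHom f) = Spec.map (CommRingCat.ofHom g)) : f = g := by
  have := Spec.map_injective h
  exact congrArg CommRingCat.Hom.hom this

/-- A morphism from the spectrum of a local ring whose closed point lands in the range of an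
open immersion factors through it. -/
lemma range_subset_of_closedPoint [IsLocalRing A] {X Y : Scheme.{u}}
    (l : Spec (CommRingCat.of A) ⟶ Y) (ι : X ⟶ Y) [IsOpenImmersion ι]
    (h : l (IsLocalRing.closedPoint A) ∈ Set.range ι) : Set.range l ⊆ Set.range ι := by
  rintro _ ⟨p, rfl⟩
  have h1 : p ⤳ IsLocalRing.closedPoint A := IsLocalRing.specializes_closedPoint p
  have h2 : l p ⤳ l (IsLocalRing.closedPoint A) := h1.map l.continuous
  exact h2.mem_open ι.isOpenEmbedding.isOpen_range h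

end SpecLemmas

variable (k : Type u) [Field k] (B₀ B₁ B₀₁ : Type u) [CommRing B₀] [CommRing B₁] [CommRing B₀₁]
  [Algebra k B₀] [Algebra k B₁] [Algebra k B₀₁] [Algebra B₀ B₀₁] [Algebra B₁ B₀₁]
  [IsScalarTower k B₀ B₀₁] [IsScalarTower k B₁ B₀₁]

/-- An abstract scheme with a two-chart presentation (so that the two charts can be swapped). -/
structure TwoChart {C : Scheme.{u}} (c : C ⟶ Spec (CommRingCat.of k)) where
  /-- first chart -/
  ι₀ : Spec (CommRingCat.of B₀) ⟶ C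
  /-- second chart -/
  ι₁ : Spec (CommRingCat.of B₁) ⟶ C
  open₀ : IsOpenImmersion ι₀
  open₁ : IsOpenImmersion ι₁
  glue : j₀ B₀ B₀₁ ≫ ι₀ = j₁ B₁ B₀₁ ≫ ι₁
  str₀ : ι₀ ≫ c = Spec.map (CommRingCat.ofHom (algebraMap k B₀))
  str₁ : ι₁ ≫ c = Spec.map (CommRingCat.ofHom (algebraMap k B₁))
  cover : ∀ p : C, (∃ a, ι₀ a = p) ∨ (∃ b, ι₁ b = p)
  inter : ∀ a b, ι₀ a = ι₁ b → ∃ z, j₀ B₀ B₀₁ z = a ∧ j₁ B₁ B₀₁ z = b

variable {k B₀ B₁ B₀₁}

/-- Swap the two charts. -/
def TwoChart.symm {C : Scheme.{u}} {c : C ⟶ Spec (CommRingCat.of k)}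
    (T : TwoChart k B₀ B₁ B₀₁ c) : TwoChart k B₁ B₀ B₀₁ c where
  ι₀ := T.ι₁
  ι₁ := T.ι₀
  open₀ := T.open₁
  open₁ := T.open₀
  glue := T.glue.symm
  str₀ := T.str₁
  str₁ := T.str₀
  cover p := (T.cover p).symm
  inter a b h := by
    obtain ⟨z, h1, h2⟩ := T.inter b a h.symm
    exact ⟨z, h2, h1⟩

/-- The two-chart presentation of the glued curve. -/
def curveTwoChart [IsOpenImmersion (j₀ B₀ B₀₁)] [IsOpenImmersion (j₁ B₁ B₀₁)] :
    TwoChart k B₀ B₁ B₀₁ (str k B₀ B₁ B₀₁) where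
  ι₀ := ι₀ B₀ B₁ B₀₁
  ι₁ := ι₁ B₀ B₁ B₀₁
  open₀ := inferInstance
  open₁ := inferInstance
  glue := j₀_ι₀ B₀ B₁ B₀₁
  str₀ := ι₀_str k B₀ B₁ B₀₁
  str₁ := ι₁_str k B₀ B₁ B₀₁
  cover := curve_cases B₀ B₁ B₀₁
  inter _ _ h := (pushout_inl_eq_inr_iff _ _).mp h

section Valuative

variable {C : Scheme.{u}} {c : C ⟶ Spec (CommRingCat.of k)} (T : TwoChart k B₀ B₁ B₀₁ c)

/-- A morphism from the spectrum of a local ring factors through one of the two charts. -/
lemma exists_factor_local {A : Type u} [CommRing A] [IsLocalRing A]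
    (l : Spec (CommRingCat.of A) ⟶ C) :
    (∃ β : B₀ →+* A, l = Spec.map (CommRingCat.ofHom β) ≫ T.ι₀) ∨
      (∃ β : B₁ →+* A, l = Spec.map (CommRingCat.ofHom β) ≫ T.ι₁) := by
  haveI := T.open₀
  haveI := T.open₁
  rcases T.cover (l (IsLocalRing.closedPoint A)) with ⟨a, ha⟩ | ⟨b, hb⟩
  · left
    have h := range_subset_of_closedPoint l T.ι₀ ⟨a, ha⟩
    refine ⟨(Spec.preimage (IsOpenImmersion.lift T.ι₀ l h)).hom, ?_⟩
    rw [CommRingCat.ofHom_hom, Spec.map_preimage, IsOpenImmersion.lift_fac]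
  · right
    have h := range_subset_of_closedPoint l T.ι₁ ⟨b, hb⟩
    refine ⟨(Spec.preimage (IsOpenImmersion.lift T.ι₁ l h)).hom, ?_⟩
    rw [CommRingCat.ofHom_hom, Spec.map_preimage, IsOpenImmersion.lift_fac]

variable {R K : Type u} [CommRing R] [IsDomain R] [ValuationRing R] [Field K] [Algebra R K]
  [IsFractionRing R K]

/-- Two lifts through the same chart with the same generic point agree. -/
lemma eq_of_factor_same (β β' : B₀ →+* R)
    (h : Spec.map (CommRingCat.ofHom (algebraMap R K)) ≫ Spec.map (CommRingCat.ofHom β) ≫ T.ι₀ =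
      Spec.map (CommRingCat.ofHom (algebraMap R K)) ≫ Spec.map (CommRingCat.ofHom β') ≫ T.ι₀) :
    β = β' := by
  haveI := T.open₀
  rw [specMap_comp_ofHom', specMap_comp_ofHom', cancel_mono] at h
  have h2 := ofHom_eq_of_specMap_eq h
  ext b
  exact IsFractionRing.injective R K (congrArg (fun f => f b) h2)

/-- A lift through the first chart whose generic point lies in the second chart also factors
through the second chart, if some lift through the second chart has the same generic point. -/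
lemma exists_factor_switch (x : B₀) (y : B₁) [IsLocalization.Away x B₀₁]
    (hxy : algebraMap B₀ B₀₁ x * algebraMap B₁ B₀₁ y = 1)
    (β : B₀ →+* R) (β' : B₁ →+* R)
    (h : Spec.map (CommRingCat.ofHom (algebraMap R K)) ≫ Spec.map (CommRingCat.ofHom β) ≫ T.ι₀ =
      Spec.map (CommRingCat.ofHom (algebraMap R K)) ≫ Spec.map (CommRingCat.ofHom β') ≫ T.ι₁) :
    ∃ β'' : B₁ →+* R,
      Spec.map (CommRingCat.ofHom β) ≫ T.ι₀ = Spec.map (CommRingCat.ofHom β'') ≫ T.ι₁ := by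
  haveI := T.open₀
  haveI := T.open₁
  haveI : IsOpenImmersion (j₀ B₀ B₀₁) := IsOpenImmersion.of_isLocalization x
  rw [specMap_comp_ofHom', specMap_comp_ofHom'] at h
  set g : Spec (CommRingCat.of K) ⟶ Spec (CommRingCat.of B₀) :=
    Spec.map (CommRingCat.ofHom ((algebraMap R K).comp β)) with hg
  set g' : Spec (CommRingCat.of K) ⟶ Spec (CommRingCat.of B₁) :=
    Spec.map (CommRingCat.ofHom ((algebraMap R K).comp β')) with hg'
  -- the generic point lies in the overlap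
  have hpt : T.ι₀ (g (IsLocalRing.closedPoint K)) = T.ι₁ (g' (IsLocalRing.closedPoint K)) := by
    rw [← Scheme.Hom.comp_apply, ← Scheme.Hom.comp_apply, h]
  obtain ⟨z, hz, -⟩ := T.inter _ _ hpt
  have hrange := range_subset_of_closedPoint g (j₀ B₀ B₀₁) ⟨z, hz⟩
  set ρ : B₀₁ →+* K := (Spec.preimage (IsOpenImmersion.lift (j₀ B₀ B₀₁) g hrange)).hom with hρ
  have hρ₀ : Spec.map (CommRingCat.ofHom ρ) ≫ j₀ B₀ B₀₁ = g := by
    rw [hρ, CommRingCat.ofHom_hom, Spec.map_preimage, IsOpenImmersion.lift_fac]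
  have hρ₁ : Spec.map (CommRingCat.ofHom ρ) ≫ j₁ B₁ B₀₁ = g' := by
    rw [← cancel_mono T.ι₁, Category.assoc, ← T.glue, ← Category.assoc, hρ₀, h]
  have e₀ : ρ.comp (algebraMap B₀ B₀₁) = (algebraMap R K).comp β := by
    apply ofHom_eq_of_specMap_eq
    rw [← specMap_comp_ofHom]
    exact hρ₀
  have e₁ : ρ.comp (algebraMap B₁ B₀₁) = (algebraMap R K).comp β' := by
    apply ofHom_eq_of_specMap_eq
    rw [← specMap_comp_ofHom]
    exact hρ₁
  have hu : β x * β' y = 1 := by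
    apply IsFractionRing.injective R K
    have h0 : algebraMap R K (β x) = ρ (algebraMap B₀ B₀₁ x) := (congrArg (fun f => f x) e₀).symm
    have h1 : algebraMap R K (β' y) = ρ (algebraMap B₁ B₀₁ y) :=
      (congrArg (fun f => f y) e₁).symm
    rw [map_mul, h0, h1, ← map_mul, hxy, map_one, map_one]
  have hux : IsUnit (β x) := IsUnit.of_mul_eq_one _ hu
  refine ⟨(IsLocalization.Away.lift x hux).comp (algebraMap B₁ B₀₁), ?_⟩
  rw [← specMap_comp_ofHom, Category.assoc]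
  have h3 : Spec.map (CommRingCat.ofHom (algebraMap B₁ B₀₁)) ≫ T.ι₁ =
      Spec.map (CommRingCat.ofHom (algebraMap B₀ B₀₁)) ≫ T.ι₀ := T.glue.symm
  rw [h3, ← Category.assoc, specMap_comp_ofHom, IsLocalization.Away.lift_comp]


/-- Existence part: a `K`-point in the first chart extends to an `R`-point. -/
lemma exists_lift_of_chart (x : B₀) (y : B₁) [IsLocalization.Away x B₀₁]
    (hxy : algebraMap B₀ B₀₁ x * algebraMap B₁ B₀₁ y = 1)
    (fin₀ : (Polynomial.aeval x : k[X] →ₐ[k] B₀).Finite)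
    (fin₁ : (Polynomial.aeval y : k[X] →ₐ[k] B₁).Finite)
    (κ : k →+* R) (α : B₀ →+* K)
    (hκ : α.comp (algebraMap k B₀) = (algebraMap R K).comp κ) :
    ∃ l : Spec (CommRingCat.of R) ⟶ C,
      Spec.map (CommRingCat.ofHom (algebraMap R K)) ≫ l =
          Spec.map (CommRingCat.ofHom α) ≫ T.ι₀ ∧
        l ≫ c = Spec.map (CommRingCat.ofHom κ) := by
  have hinj : Function.Injective (algebraMap R K) := IsFractionRing.injective R K
  by_cases hx : ∃ r : R, algebraMap R K r = α x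
  · obtain ⟨β, hβ⟩ := exists_factor_of_finite x fin₀ α κ hκ hx
    refine ⟨Spec.map (CommRingCat.ofHom β) ≫ T.ι₀, ?_, ?_⟩
    · rw [specMap_comp_ofHom', hβ]
    · rw [Category.assoc, T.str₀, specMap_comp_ofHom]
      have : β.comp (algebraMap k B₀) = κ := by
        ext a
        apply hinj
        have h1 : α (algebraMap k B₀ a) = algebraMap R K (κ a) := congrArg (fun f => f a) hκ
        have h2 : algebraMap R K (β (algebraMap k B₀ a)) = α (algebraMap k B₀ a) :=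
          congrArg (fun f => f (algebraMap k B₀ a)) hβ
        rw [RingHom.comp_apply, h2, h1]
      rw [this]
  · have hx' : ∃ r : R, algebraMap R K r = (α x)⁻¹ := by
      rcases ValuationRing.isInteger_or_isInteger R (α x) with h | h
      · exact absurd h hx
      · exact h
    have hne : α x ≠ 0 := by
      intro h0
      exact hx ⟨0, by rw [map_zero, h0]⟩
    have hu : IsUnit (α x) := isUnit_iff_ne_zero.mpr hne
    set α₀₁ : B₀₁ →+* K := IsLocalization.Away.lift x hu with hα₀₁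
    have h01 : α₀₁.comp (algebraMap B₀ B₀₁) = α := IsLocalization.Away.lift_comp x hu
    set α₁ : B₁ →+* K := α₀₁.comp (algebraMap B₁ B₀₁) with hα₁
    have hy : α₁ y = (α x)⁻¹ := by
      have h1 : α₀₁ (algebraMap B₀ B₀₁ x) * α₀₁ (algebraMap B₁ B₀₁ y) = 1 := by
        rw [← map_mul, hxy, map_one]
      have h2 : α₀₁ (algebraMap B₀ B₀₁ x) = α x := congrArg (fun f => f x) h01
      rw [h2] at h1
      exact eq_inv_of_mul_eq_one_right h1
    have hκ₁ : α₁.comp (algebraMap k B₁) = (algebraMap R K).comp κ := by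
      rw [← hκ, ← h01, hα₁, RingHom.comp_assoc, RingHom.comp_assoc,
        ← IsScalarTower.algebraMap_eq, ← IsScalarTower.algebraMap_eq]
    obtain ⟨β, hβ⟩ := exists_factor_of_finite y fin₁ α₁ κ hκ₁ (by rw [hy]; exact hx')
    have h3 : Spec.map (CommRingCat.ofHom (algebraMap B₁ B₀₁)) ≫ T.ι₁ =
        Spec.map (CommRingCat.ofHom (algebraMap B₀ B₀₁)) ≫ T.ι₀ := T.glue.symm
    refine ⟨Spec.map (CommRingCat.ofHom β) ≫ T.ι₁, ?_, ?_⟩
    · rw [specMap_comp_ofHom', hβ, hα₁, ← specMap_comp_ofHom, Category.assoc, h3,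
        ← Category.assoc, specMap_comp_ofHom, h01]
    · rw [Category.assoc, T.str₁, specMap_comp_ofHom]
      have : β.comp (algebraMap k B₁) = κ := by
        ext a
        apply hinj
        have h1 : α₁ (algebraMap k B₁ a) = algebraMap R K (κ a) := congrArg (fun f => f a) hκ₁
        have h2 : algebraMap R K (β (algebraMap k B₁ a)) = α₁ (algebraMap k B₁ a) :=
          congrArg (fun f => f (algebraMap k B₁ a)) hβ
        rw [RingHom.comp_apply, h2, h1]
      rw [this]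

/-- Uniqueness part: two `R`-points with the same generic point agree. -/
lemma lift_unique (T : TwoChart k B₀ B₁ B₀₁ c) (x : B₀) (y : B₁) [IsLocalization.Away x B₀₁]
    (hxy : algebraMap B₀ B₀₁ x * algebraMap B₁ B₀₁ y = 1)
    (l l' : Spec (CommRingCat.of R) ⟶ C)
    (h : Spec.map (CommRingCat.ofHom (algebraMap R K)) ≫ l =
      Spec.map (CommRingCat.ofHom (algebraMap R K)) ≫ l') : l = l' := by
  rcases exists_factor_local T l with ⟨β, rfl⟩ | ⟨β, rfl⟩ <;>
    rcases exists_factor_local T l' with ⟨β', rfl⟩ | ⟨β', rfl⟩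
  · rw [eq_of_factor_same T β β' h]
  · obtain ⟨β'', hβ''⟩ := exists_factor_switch T x y hxy β β' h
    rw [hβ''] at h ⊢
    rw [eq_of_factor_same T.symm β'' β' h]
  · obtain ⟨β'', hβ''⟩ := exists_factor_switch T x y hxy β' β h.symm
    rw [hβ''] at h ⊢
    rw [eq_of_factor_same T.symm β β'' h]
  · rw [eq_of_factor_same T.symm β β' h]

/-- The valuative criterion for a two-chart curve. -/
theorem valuativeCriterion_of_twoChart (T : TwoChart k B₀ B₁ B₀₁ c) (x : B₀) (y : B₁)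
    [IsLocalization.Away x B₀₁]
    [IsLocalization.Away y B₀₁]
    (hxy : algebraMap B₀ B₀₁ x * algebraMap B₁ B₀₁ y = 1)
    (fin₀ : (Polynomial.aeval x : k[X] →ₐ[k] B₀).Finite)
    (fin₁ : (Polynomial.aeval y : k[X] →ₐ[k] B₁).Finite) : ValuativeCriterion c := by
  rw [ValuativeCriterion.iff]
  refine ⟨?_, ?_⟩
  · intro S
    have hκ' : Spec.map (CommRingCat.ofHom (Spec.preimage S.i₂).hom) = S.i₂ := by
      rw [CommRingCat.ofHom_hom, Spec.map_preimage]
    have hw := S.commSq.w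
    rcases exists_factor_local T S.i₁ with ⟨α, hα⟩ | ⟨α, hα⟩
    · have hκ : α.comp (algebraMap k B₀) = (algebraMap S.R S.K).comp (Spec.preimage S.i₂).hom := by
        apply ofHom_eq_of_specMap_eq
        rw [← specMap_comp_ofHom, ← specMap_comp_ofHom, hκ', ← hw, hα, Category.assoc, T.str₀]
      obtain ⟨l, hl₁, hl₂⟩ := exists_lift_of_chart T x y hxy fin₀ fin₁ _ α hκ
      exact ⟨⟨{ l := l, fac_left := hl₁.trans hα.symm, fac_right := hl₂.trans hκ' }⟩⟩
    · have hκ : α.comp (algebraMap k B₁) = (algebraMap S.R S.K).comp (Spec.preimage S.i₂).hom := by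
        apply ofHom_eq_of_specMap_eq
        rw [← specMap_comp_ofHom, ← specMap_comp_ofHom, hκ', ← hw, hα, Category.assoc, T.str₁]
      have hyx : algebraMap B₁ B₀₁ y * algebraMap B₀ B₀₁ x = 1 := by rw [mul_comm]; exact hxy
      obtain ⟨l, hl₁, hl₂⟩ := exists_lift_of_chart T.symm y x hyx fin₁ fin₀ _ α hκ
      exact ⟨⟨{ l := l, fac_left := hl₁.trans hα.symm, fac_right := hl₂.trans hκ' }⟩⟩
  · intro S
    constructor
    rintro ⟨l, hl, -⟩ ⟨l', hl', -⟩
    have := lift_unique T x y hxy l l' (hl.trans hl'.symm)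
    subst this
    rfl

end Valuative

end

end Fermat.Agent.S27.H866

end
-- ===== PACK-END S27/H866/Proper.lean

-- ===== PACK-BEGIN S25/H551/AlgDefAbstract.lean
section




/-!
# S25 / block ALGDEF, abstract lifting of gluing data (helper551)

Given a morphism of cospans of rings `(R₀ → R₀₁ ← R₁) → (R₀' → R₀₁' ← R₁')` whose three legs
are surjective with nil kernel, every gluing datum over the target cospan is a base change of
a gluing datum over the source cospan.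
-/

set_option autoImplicit false
set_option linter.style.haveILetI false

open TensorProduct

universe u

namespace Fermat.Agent.S25.H551

open Fermat.Agent.S25

section Abstract

variable {A R₀ R₁ R₀₁ : Type u} [CommRing A] [CommRing R₀] [CommRing R₁]
    [CommRing R₀₁] [Algebra A R₀] [Algebra A R₁] [Algebra A R₀₁] [Algebra R₀ R₀₁]
    [Algebra R₁ R₀₁] [IsScalarTower A R₀ R₀₁] [IsScalarTower A R₁ R₀₁]
    {A' R₀' R₁' R₀₁' : Type u} [CommRing A'] [CommRing R₀'] [CommRing R₁']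
    [CommRing R₀₁'] [Algebra A' R₀'] [Algebra A' R₁'] [Algebra A' R₀₁'] [Algebra R₀' R₀₁']
    [Algebra R₁' R₀₁'] [IsScalarTower A' R₀' R₀₁'] [IsScalarTower A' R₁' R₀₁']

/-- Gluing data lift along a morphism of cospans with surjective legs with nil kernels. -/
theorem exists_glueDatum_lift (ρ₀ : R₀ →+* R₀') (ρ₁ : R₁ →+* R₁') (ρ₀₁ : R₀₁ →+* R₀₁')
    (h₀ : ∀ r, ρ₀₁ (algebraMap R₀ R₀₁ r) = algebraMap R₀' R₀₁' (ρ₀ r))
    (h₁ : ∀ r, ρ₀₁ (algebraMap R₁ R₀₁ r) = algebraMap R₁' R₀₁' (ρ₁ r))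
    (hs₀ : Function.Surjective ρ₀) (hn₀ : ∀ x ∈ RingHom.ker ρ₀, IsNilpotent x)
    (hs₁ : Function.Surjective ρ₁) (hn₁ : ∀ x ∈ RingHom.ker ρ₁, IsNilpotent x)
    (hs₀₁ : Function.Surjective ρ₀₁) (hn₀₁ : ∀ x ∈ RingHom.ker ρ₀₁, IsNilpotent x)
    (G' : GlueDatum A' R₀' R₁' R₀₁') :
    ∃ G : GlueDatum A R₀ R₁ R₀₁, GlueDatum.IsBC ρ₀ ρ₁ ρ₀₁ G G' := by
  haveI := G'.invertible₀
  haveI := G'.invertible₁
  obtain ⟨P₀, iP₀a, iP₀m, hP₀, b₀, hb₀⟩ := exists_invertible_semilinear ρ₀ hs₀ hn₀ G'.N₀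
  obtain ⟨P₁, iP₁a, iP₁m, hP₁, b₁, hb₁⟩ := exists_invertible_semilinear ρ₁ hs₁ hn₁ G'.N₁
  obtain ⟨c₀, hc₀, hc₀'⟩ := exists_side ρ₀ ρ₀₁ h₀ b₀ hb₀ G'.r₀ G'.isBaseChange₀
  obtain ⟨c₁, hc₁, hc₁'⟩ := exists_side ρ₁ ρ₀₁ h₁ b₁ hb₁ G'.r₁ G'.isBaseChange₁
  obtain ⟨ψ, hψ⟩ := exists_linearEquiv_of_semilinear ρ₀₁ hs₀₁ hn₀₁ hc₁ hc₀
  -- module structures on the lift
  letI modA₀ : Module A P₀ := Module.compHom P₀ (algebraMap A R₀)
  haveI towA₀ : IsScalarTower A R₀ P₀ := ⟨fun a r n => by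
    rw [Algebra.smul_def]
    change (algebraMap A R₀ a * r) • n = algebraMap A R₀ a • (r • n)
    rw [mul_smul]⟩
  letI modA₁ : Module A P₁ := Module.compHom P₁ (algebraMap A R₁)
  haveI towA₁ : IsScalarTower A R₁ P₁ := ⟨fun a r n => by
    rw [Algebra.smul_def]
    change (algebraMap A R₁ a * r) • n = algebraMap A R₁ a • (r • n)
    rw [mul_smul]⟩
  -- the second restriction map
  let r₁ : P₁ →ₗ[R₁] (R₀₁ ⊗[R₀] P₀) :=
    (ψ.restrictScalars R₁).toLinearMap ∘ₗ (TensorProduct.mk R₁ R₀₁ P₁ 1)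
  have hr₁ : IsBaseChange R₀₁ r₁ := IsBaseChange.of_equiv ψ (fun x => rfl)
  refine ⟨{ N₀ := P₀
            N₁ := P₁
            N₀₁ := R₀₁ ⊗[R₀] P₀
            addCommGroup₀ := iP₀a
            addCommGroup₁ := iP₁a
            addCommGroup₀₁ := inferInstance
            module₀ := iP₀m
            module₁ := iP₁m
            module₀₁ := inferInstance
            moduleL := inferInstance
            moduleR := inferInstance
            towerL := inferInstance
            towerR := inferInstance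
            baseModule₀ := modA₀
            baseModule₁ := modA₁
            baseModule₀₁ := inferInstance
            baseTower₀ := towA₀
            baseTower₁ := towA₁
            baseTower₀₁ := inferInstance
            r₀ := TensorProduct.mk R₀ R₀₁ P₀ 1
            r₁ := r₁
            isBaseChange₀ := TensorProduct.isBaseChange R₀ P₀ R₀₁
            isBaseChange₁ := hr₁
            invertible₀ := hP₀
            invertible₁ := hP₁ },
    ⟨{ b₀ := b₀
       b₁ := b₁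
       b₀₁ := c₀
       comm₀ := fun s => hc₀' s
       comm₁ := fun s => (hψ _).trans (hc₁' s)
       isBaseChange₀ := hb₀
       isBaseChange₁ := hb₁
       isBaseChange₀₁ := hc₀ }⟩⟩

end Abstract

end Fermat.Agent.S25.H551

end
-- ===== PACK-END S25/H551/AlgDefAbstract.lean

-- ===== PACK-BEGIN S27/H351/ChartLoc.lean
section


/-!
# Row S27, block DIM: the Mathlib-only leaves CHART-AT and LOC (helper351)

* `chartAt k : Dim.Stmt.ChartAt k` — every `k`-point of a `k`-scheme lies in an affine open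
  chart `Spec R ⊆ J`, `R` a `k`-algebra, and is given by a `k`-algebra homomorphism `R → k`.
* `loc k : Dim.Stmt.Loc k` — a point with values in an augmented `k`-algebra `A → k` with nil
  kernel whose restriction to `k` lies in a chart lies in the chart.
-/

set_option autoImplicit false
set_option linter.style.haveILetI false

universe u

open CategoryTheory CategoryTheory.Limits AlgebraicGeometry NeronModelInfra GoodReductionJacobian

namespace Fermat.Agent.S27.H351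

open Fermat.Agent.S25

section Aux

variable {k : Type u} [Field k]

/-- The spectrum of a field has exactly one point. -/
lemma spec_field_point_eq (t t' : Spec (CommRingCat.of k)) : t = t' := by
  have hss : Subsingleton (PrimeSpectrum k) := inferInstance
  exact hss.elim t t'

lemma spec_field_nonempty : Nonempty (Spec (CommRingCat.of k)) := by
  have hne : Nonempty (PrimeSpectrum k) := inferInstance
  exact hne

/-- Every point of `Spec A` comes from `Spec C` if `π : A → C` is onto with nil kernel. -/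
lemma exists_specMap_eq_of_nil {A C : Type u} [CommRing A] [CommRing C] (π : A →+* C)
    (hsurj : Function.Surjective π) (hker : ∀ a ∈ RingHom.ker π, IsNilpotent a)
    (t : Spec (CommRingCat.of A)) :
    ∃ t₀ : Spec (CommRingCat.of C), Spec.map (CommRingCat.ofHom π) t₀ = t := by
  have hrange := range_comap_of_surjective _ π hsurj
  have huniv : PrimeSpectrum.zeroLocus (RingHom.ker π : Set A) = Set.univ := by
    rw [PrimeSpectrum.zeroLocus_eq_univ_iff]
    intro a ha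
    rw [SetLike.mem_coe, mem_nilradical]
    exact hker a ha
  have ht : (t : PrimeSpectrum A) ∈ Set.range (PrimeSpectrum.comap π) := by
    rw [hrange, huniv]
    exact Set.mem_univ _
  obtain ⟨t₀, ht₀⟩ := ht
  exact ⟨t₀, ht₀⟩

end Aux

/-- **CHART-AT.** -/
theorem chartAt (k : Type u) [Field k] : Dim.Stmt.ChartAt k := by
  intro J f z hz
  obtain ⟨pt⟩ := spec_field_nonempty (k := k)
  obtain ⟨W₀, hW₀, hmem, -⟩ := exists_isAffineOpen_mem_and_subset
    (x := z pt) (U := ⊤) trivial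
  -- the structure homomorphism `k → Γ(J, W₀)`
  let σ : CommRingCat.of k ⟶ Γ(J, W₀) := Spec.preimage (hW₀.fromSpec ≫ f)
  have hσ : Spec.map σ = hW₀.fromSpec ≫ f := Spec.map_preimage _
  letI : Algebra k Γ(J, W₀) := σ.hom.toAlgebra
  -- the point as a ring homomorphism
  have hr : Set.range z ⊆ Set.range hW₀.fromSpec := by
    rw [hW₀.range_fromSpec]
    rintro _ ⟨t, rfl⟩
    rw [spec_field_point_eq t pt]
    exact hmem
  let ψ : Γ(J, W₀) ⟶ CommRingCat.of k := Spec.preimage (IsOpenImmersion.lift hW₀.fromSpec z hr)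
  have hψ : Spec.map ψ ≫ hW₀.fromSpec = z := by
    rw [Spec.map_preimage, IsOpenImmersion.lift_fac]
  have hcomm : σ ≫ ψ = 𝟙 _ := by
    apply Spec.map_injective
    rw [Spec.map_comp, hσ, ← Category.assoc, hψ, hz, Spec.map_id]
  refine ⟨Γ(J, W₀), inferInstance, inferInstance, hW₀.fromSpec, inferInstance,
    { ψ.hom with
      commutes' := fun c =>
        congrArg (fun g : CommRingCat.of k ⟶ CommRingCat.of k => g.hom c) hcomm }, ?_, ?_⟩
  · exact hσ.symm
  · exact hψ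

/-- **LOC.** -/
theorem loc (k : Type u) [Field k] : Dim.Stmt.Loc k := by
  intro J f R _ _ j _ hj x A _ _ π hπ t ht
  have hπsurj : Function.Surjective π.toRingHom := fun c =>
    ⟨algebraMap k A c, π.commutes c⟩
  -- the point factors through the chart
  have hr : Set.range t.1 ⊆ Set.range j := by
    rintro _ ⟨a, rfl⟩
    obtain ⟨b, rfl⟩ := exists_specMap_eq_of_nil π.toRingHom hπsurj hπ a
    refine ⟨Spec.map (CommRingCat.ofHom x.toRingHom) b, ?_⟩
    have := congrArg (fun g : Spec (CommRingCat.of k) ⟶ J => g b) ht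
    exact this.symm
  let t' : Spec (CommRingCat.of A) ⟶ Spec (CommRingCat.of R) := IsOpenImmersion.lift j t.1 hr
  have ht' : t' ≫ j = t.1 := IsOpenImmersion.lift_fac _ _ _
  let φ₀ : CommRingCat.of R ⟶ CommRingCat.of A := Spec.preimage t'
  have hφ₀ : Spec.map φ₀ = t' := Spec.map_preimage _
  have hlin : CommRingCat.ofHom (algebraMap k R) ≫ φ₀ = CommRingCat.ofHom (algebraMap k A) := by
    apply Spec.map_injective
    rw [Spec.map_comp, hφ₀]
    change t' ≫ specStr k R = specStr k A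
    rw [← hj, ← Category.assoc, ht']
    exact t.2
  let φ : R →ₐ[k] A :=
    { φ₀.hom with
      commutes' := fun c =>
        congrArg (fun g : CommRingCat.of k ⟶ CommRingCat.of A => g.hom c) hlin }
  have hφ : Spec.map (CommRingCat.ofHom φ.toRingHom) = t' := hφ₀
  refine ⟨φ, ?_, ?_⟩
  · rw [hφ, ht']
  · have h1 : Spec.map (CommRingCat.ofHom (π.comp φ).toRingHom) ≫ j =
        Spec.map (CommRingCat.ofHom x.toRingHom) ≫ j := by
      rw [← ht, ← ht', ← hφ, ← Category.assoc, ← Spec.map_comp]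
      rfl
    have h2 := Spec.map_injective ((cancel_mono j).1 h1)
    ext r
    exact congrArg (fun g : CommRingCat.of R ⟶ CommRingCat.of k => g.hom r) h2

end Fermat.Agent.S27.H351

end
-- ===== PACK-END S27/H351/ChartLoc.lean

-- ===== PACK-BEGIN Lib/EulerProd/PrimeCount.lean
section



/-!
# Counting prime ideals above a rational prime; primes of degree `≥ 2` are sparse

* `PrimeIdeal.exists_prime_mem`: every nonzero prime contains a rational prime `q`,
  and then `absNorm 𝔭 = q ^ k`, `1 ≤ k`.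
* `card_le_finrank_of_mem`: at most `[K : ℚ]` primes contain a given rational prime.
* `sum_inv_absNorm_le_of_not_prime`: finite sums of `N(𝔭)⁻¹` over primes whose norm is not a
  prime number are bounded by `[K : ℚ] * ∑ m, 1 / m ^ 2`.
-/

set_option autoImplicit false
set_option linter.style.haveILetI false
set_option linter.unusedSectionVars false

namespace Fermat.Agent.Lib.EulerProd

open NumberField Ideal Filter Topology Finset

variable {K : Type*} [Field K] [NumberField K]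

theorem absNorm_span_natCast (q : ℕ) :
    absNorm (span {(q : 𝓞 K)}) = q ^ Module.finrank ℚ K := by
  rw [Ideal.absNorm_span_singleton]
  have h : ((q : ℕ) : 𝓞 K) = algebraMap ℤ (𝓞 K) (q : ℤ) := by simp
  rw [h, Algebra.norm_algebraMap, RingOfIntegers.rank, Int.natAbs_pow, Int.natAbs_natCast]

/-- Every nonzero prime ideal contains a rational prime. -/
theorem PrimeIdeal.exists_prime_mem (𝔭 : PrimeIdeal K) :
    ∃ q : ℕ, q.Prime ∧ (q : 𝓞 K) ∈ 𝔭.1 := by
  classical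
  have hex : ∃ m : ℕ, 2 ≤ m ∧ (m : 𝓞 K) ∈ 𝔭.1 := ⟨absNorm 𝔭.1, 𝔭.two_le_absNorm, absNorm_mem 𝔭.1⟩
  refine ⟨Nat.find hex, ?_, (Nat.find_spec hex).2⟩
  have h2 := (Nat.find_spec hex).1
  rw [Nat.prime_def]
  refine ⟨h2, fun a ha => ?_⟩
  obtain ⟨b, hb⟩ := ha
  by_contra hcon
  simp only [not_or] at hcon
  have hmem : ((a * b : ℕ) : 𝓞 K) ∈ 𝔭.1 := hb ▸ (Nat.find_spec hex).2
  rw [Nat.cast_mul] at hmem
  have hpos : 0 < Nat.find hex := by omega
  have ha0 : a ≠ 0 := by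
    rintro rfl
    rw [zero_mul] at hb
    omega
  have hb0 : b ≠ 0 := by
    rintro rfl
    rw [mul_zero] at hb
    omega
  have halt : a < Nat.find hex := by
    have hle : a ≤ Nat.find hex := Nat.le_of_dvd hpos ⟨b, hb⟩
    exact lt_of_le_of_ne hle hcon.2
  have hblt : b < Nat.find hex := by
    have hle : b ≤ Nat.find hex := Nat.le_of_dvd hpos ⟨a, by rw [hb, mul_comm]⟩
    refine lt_of_le_of_ne hle ?_
    intro hbe
    rw [hbe] at hb
    have : a = 1 := by
      have h1 : 1 * Nat.find hex = a * Nat.find hex := by rw [one_mul]; exact hb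
      exact (Nat.eq_of_mul_eq_mul_right hpos h1).symm
    exact hcon.1 this
  rcases 𝔭.isPrime.mem_or_mem hmem with h | h
  · have ha2 : 2 ≤ a := by
      rcases Nat.lt_or_ge a 2 with h1 | h1
      · exfalso
        have : a = 1 := by omega
        exact hcon.1 this
      · exact h1
    exact Nat.find_min hex halt ⟨ha2, h⟩
  · have hb2 : 2 ≤ b := by
      rcases Nat.lt_or_ge b 2 with h1 | h1
      · exfalso
        have hb1 : b = 1 := by omega
        rw [hb1, mul_one] at hb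
        exact hcon.2 hb.symm
      · exact h1
    exact Nat.find_min hex hblt ⟨hb2, h⟩

theorem PrimeIdeal.absNorm_eq_pow_of_mem (𝔭 : PrimeIdeal K) {q : ℕ} (hq : q.Prime)
    (hmem : (q : 𝓞 K) ∈ 𝔭.1) :
    ∃ k : ℕ, 1 ≤ k ∧ k ≤ Module.finrank ℚ K ∧ absNorm 𝔭.1 = q ^ k := by
  have hle : span {(q : 𝓞 K)} ≤ 𝔭.1 := (Ideal.span_singleton_le_iff_mem _).mpr hmem
  have hdvd := Ideal.absNorm_dvd_absNorm_of_le hle
  rw [absNorm_span_natCast] at hdvd
  obtain ⟨k, hk, hk'⟩ := (Nat.dvd_prime_pow hq).1 hdvd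
  refine ⟨k, ?_, hk, hk'⟩
  rcases Nat.eq_zero_or_pos k with rfl | hpos
  · exfalso
    have := 𝔭.two_le_absNorm
    rw [hk', pow_zero] at this
    omega
  · exact hpos

/-- The rational prime below a prime ideal. -/
noncomputable def PrimeIdeal.below (𝔭 : PrimeIdeal K) : ℕ := (absNorm 𝔭.1).minFac

theorem PrimeIdeal.below_spec (𝔭 : PrimeIdeal K) :
    𝔭.below.Prime ∧ (𝔭.below : 𝓞 K) ∈ 𝔭.1 ∧
      ∃ k : ℕ, 1 ≤ k ∧ k ≤ Module.finrank ℚ K ∧ absNorm 𝔭.1 = 𝔭.below ^ k := by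
  obtain ⟨q, hq, hmem⟩ := 𝔭.exists_prime_mem
  obtain ⟨k, hk1, hkn, hk⟩ := 𝔭.absNorm_eq_pow_of_mem hq hmem
  have hb : 𝔭.below = q := by
    rw [PrimeIdeal.below, hk, hq.pow_minFac (by omega)]
  rw [hb]
  exact ⟨hq, hmem, k, hk1, hkn, hk⟩

theorem PrimeIdeal.below_prime (𝔭 : PrimeIdeal K) : 𝔭.below.Prime := 𝔭.below_spec.1

theorem PrimeIdeal.below_mem (𝔭 : PrimeIdeal K) : (𝔭.below : 𝓞 K) ∈ 𝔭.1 := 𝔭.below_spec.2.1

theorem PrimeIdeal.below_sq_le_of_not_prime (𝔭 : PrimeIdeal K) (h : ¬ (absNorm 𝔭.1).Prime) :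
    𝔭.below ^ 2 ≤ absNorm 𝔭.1 := by
  obtain ⟨hq, -, k, hk1, -, hk⟩ := 𝔭.below_spec
  have hk2 : 2 ≤ k := by
    rcases Nat.lt_or_ge k 2 with h1 | h1
    · exfalso
      have : k = 1 := by omega
      rw [this, pow_one] at hk
      exact h (hk ▸ hq)
    · exact h1
  rw [hk]
  exact Nat.pow_le_pow_right hq.pos hk2

theorem PrimeIdeal.below_eq_absNorm_of_prime (𝔭 : PrimeIdeal K) (h : (absNorm 𝔭.1).Prime) :
    𝔭.below = absNorm 𝔭.1 := h.minFac_eq

/-- At most `[K : ℚ]` prime ideals contain a given rational prime. -/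
theorem card_le_finrank_of_mem {q : ℕ} (hq : q.Prime) (G : Finset (PrimeIdeal K))
    (hG : ∀ 𝔭 ∈ G, (q : 𝓞 K) ∈ 𝔭.1) : G.card ≤ Module.finrank ℚ K := by
  classical
  have hdvd : ∏ 𝔭 ∈ G.image Subtype.val, 𝔭 ∣ span {(q : 𝓞 K)} := by
    refine Finset.prod_primes_dvd _ (fun a ha => ?_) (fun a ha => ?_)
    · obtain ⟨𝔭, -, rfl⟩ := Finset.mem_image.mp ha
      exact 𝔭.2
    · obtain ⟨𝔭, h𝔭, rfl⟩ := Finset.mem_image.mp ha
      exact Ideal.dvd_iff_le.mpr ((Ideal.span_singleton_le_iff_mem _).mpr (hG 𝔭 h𝔭))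
  rw [Finset.prod_image (fun x _ y _ h => Subtype.ext h)] at hdvd
  have hnorm : absNorm (∏ 𝔭 ∈ G, 𝔭.1) ∣ q ^ Module.finrank ℚ K := by
    have := Ideal.absNorm_dvd_absNorm_of_le (Ideal.dvd_iff_le.mp hdvd)
    rwa [absNorm_span_natCast] at this
  rw [map_prod] at hnorm
  have hpow : q ^ G.card ∣ ∏ 𝔭 ∈ G, absNorm 𝔭.1 := by
    rw [← Finset.prod_const]
    refine Finset.prod_dvd_prod_of_dvd _ _ fun 𝔭 h𝔭 => ?_
    obtain ⟨k, hk1, -, hk⟩ := 𝔭.absNorm_eq_pow_of_mem hq (hG 𝔭 h𝔭)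
    rw [hk]
    exact dvd_pow_self q (by omega)
  exact (Nat.pow_dvd_pow_iff_le_right hq.one_lt).mp (hpow.trans hnorm)


/-- The constant bounding the contribution of primes of degree `≥ 2`. -/
noncomputable def degTwoBound (K : Type*) [Field K] [NumberField K] : ℝ :=
  Module.finrank ℚ K * ∑' m : ℕ, (((m : ℝ)) ^ 2)⁻¹

theorem degTwoBound_nonneg : 0 ≤ degTwoBound K := by
  unfold degTwoBound
  have : 0 ≤ ∑' m : ℕ, (((m : ℝ)) ^ 2)⁻¹ := tsum_nonneg fun m => by positivity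
  positivity

/-- Finite sums of `f (below 𝔭)` are bounded by `[K:ℚ] * ∑' f` for summable nonnegative `f`. -/
theorem sum_comp_below_le (f : ℕ → ℝ) (hf : ∀ m, 0 ≤ f m) (hsum : Summable f)
    (T : Finset (PrimeIdeal K)) :
    ∑ 𝔭 ∈ T, f 𝔭.below ≤ Module.finrank ℚ K * ∑' m : ℕ, f m := by
  classical
  rw [Finset.sum_comp f (fun 𝔭 : PrimeIdeal K => 𝔭.below)]
  calc ∑ q ∈ T.image (fun 𝔭 : PrimeIdeal K => 𝔭.below),
        (T.filter fun 𝔭 => 𝔭.below = q).card • f q
      ≤ ∑ q ∈ T.image (fun 𝔭 : PrimeIdeal K => 𝔭.below), (Module.finrank ℚ K : ℝ) * f q := by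
        refine Finset.sum_le_sum fun q hq => ?_
        rw [nsmul_eq_mul]
        refine mul_le_mul_of_nonneg_right ?_ (hf q)
        obtain ⟨𝔭₀, -, h𝔭₀⟩ := Finset.mem_image.mp hq
        have hqp : q.Prime := h𝔭₀ ▸ 𝔭₀.below_prime
        exact_mod_cast card_le_finrank_of_mem hqp _ fun 𝔭 h𝔭 => by
          have := (Finset.mem_filter.mp h𝔭).2
          exact this ▸ 𝔭.below_mem
    _ = (Module.finrank ℚ K : ℝ) * ∑ q ∈ T.image (fun 𝔭 : PrimeIdeal K => 𝔭.below), f q := by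
        rw [Finset.mul_sum]
    _ ≤ Module.finrank ℚ K * ∑' m : ℕ, f m := by
        refine mul_le_mul_of_nonneg_left ?_ (Nat.cast_nonneg _)
        exact hsum.sum_le_tsum _ fun m _ => hf m

/-- Finite sums of `N(𝔭)⁻¹` over primes whose norm is not a prime number are bounded. -/
theorem sum_inv_absNorm_le_of_not_prime (T : Finset (PrimeIdeal K))
    (hT : ∀ 𝔭 ∈ T, ¬ (absNorm 𝔭.1).Prime) :
    ∑ 𝔭 ∈ T, (((absNorm 𝔭.1 : ℕ) : ℝ))⁻¹ ≤ degTwoBound K := by
  have hsum : Summable fun m : ℕ => (((m : ℝ)) ^ 2)⁻¹ :=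
    Real.summable_nat_pow_inv.mpr (by norm_num)
  refine le_trans (Finset.sum_le_sum fun 𝔭 h𝔭 => ?_)
    (sum_comp_below_le (fun m : ℕ => (((m : ℝ)) ^ 2)⁻¹) (fun m => by positivity) hsum T)
  have h1 := 𝔭.below_sq_le_of_not_prime (hT 𝔭 h𝔭)
  have hpos : (0 : ℝ) < ((𝔭.below : ℕ) : ℝ) ^ 2 := by
    have := 𝔭.below_prime.pos
    positivity
  have h2 : (((𝔭.below : ℕ) : ℝ)) ^ 2 ≤ ((absNorm 𝔭.1 : ℕ) : ℝ) := by exact_mod_cast h1
  exact inv_anti₀ hpos h2

/-- Finite sums of `N(𝔭)⁻²` over all primes are bounded. -/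
theorem sum_inv_absNorm_sq_le (T : Finset (PrimeIdeal K)) :
    ∑ 𝔭 ∈ T, ((((absNorm 𝔭.1 : ℕ) : ℝ)) ^ 2)⁻¹ ≤ degTwoBound K := by
  have hsum : Summable fun m : ℕ => (((m : ℝ)) ^ 2)⁻¹ :=
    Real.summable_nat_pow_inv.mpr (by norm_num)
  refine le_trans (Finset.sum_le_sum fun 𝔭 h𝔭 => ?_)
    (sum_comp_below_le (fun m : ℕ => (((m : ℝ)) ^ 2)⁻¹) (fun m => by positivity) hsum T)
  obtain ⟨hq, -, k, hk1, -, hk⟩ := 𝔭.below_spec
  have hpos : (0 : ℝ) < ((𝔭.below : ℕ) : ℝ) ^ 2 := by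
    have := hq.pos
    positivity
  have h1 : 𝔭.below ≤ absNorm 𝔭.1 := by
    rw [hk]
    exact Nat.le_self_pow (by omega) _
  have h2 : (((𝔭.below : ℕ) : ℝ)) ^ 2 ≤ (((absNorm 𝔭.1 : ℕ) : ℝ)) ^ 2 := by
    have : ((𝔭.below : ℕ) : ℝ) ≤ ((absNorm 𝔭.1 : ℕ) : ℝ) := by exact_mod_cast h1
    exact pow_le_pow_left₀ (Nat.cast_nonneg _) this 2
  exact inv_anti₀ hpos h2

end Fermat.Agent.Lib.EulerProd

end
-- ===== PACK-END Lib/EulerProd/PrimeCount.lean

-- ===== PACK-BEGIN S22/H262/Nice.lean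
section




set_option autoImplicit false

/-!
# Towers exist for `f ∣[k] A`, `f` a cusp form on `Γ₀(N)`, `A` an integer matrix of positive
determinant.
-/

open Complex Filter Function Metric Set
open UpperHalfPlane hiding I
open scoped Real Topology Manifold ModularForm MatrixGroups Pointwise

namespace Fermat.Agent.S22.H262

open Matrix.SpecialLinearGroup in
theorem hasTower_slash_SL {N : ℕ} [NeZero N] {k : ℤ}
    (f : CuspForm (CongruenceSubgroup.Gamma0 N) k) (g : SL(2, ℤ)) :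
    HasTower (⇑f ∣[k] (mapGL ℝ g)) := by
  obtain ⟨M, hM, hper⟩ := Subgroup.IsArithmetic.exists_nat_mem_strictPeriods_conj
    ((CongruenceSubgroup.Gamma0 N).map (mapGL ℝ))
  have hM' : (0 : ℝ) < M := by exact_mod_cast hM
  have h1 := hper g⁻¹
  rw [map_inv] at h1
  let F := CuspForm.translate f (mapGL ℝ g)
  have hF : ⇑F = ⇑f ∣[k] (mapGL ℝ g) := rfl
  rw [← hF]
  refine exists_isTower hM' (SlashInvariantFormClass.periodic_comp_ofComplex F h1)
    (CuspFormClass.holo F) ?_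
  rw [hF]
  exact CuspFormClass.zero_at_infty_slash f g

end Fermat.Agent.S22.H262

end
-- ===== PACK-END S22/H262/Nice.lean

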