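import Mathlib
import Fermat.Prelude.Def_CuspForm_HeckeAlgebra
import Fermat.Prelude.Def_GaloisRep_Adic
import Fermat.Prelude.Def_GaloisRep_ComplexConjugation
import Fermat.Agent.Pack.S43MC.G0E0L0
import Fermat.Agent.Pack.S43MC.G0E5L1
import Fermat.Agent.Pack.S43MC.G0E8L1
import Fermat.Agent.Pack.S43MC.G0E10L3
import Fermat.Agent.Pack.S43MC.G0E9L2
import Fermat.Agent.Pack.S44C.G0E12L0
import Fermat.Agent.Pack.S44C.G0E8L0
import Fermat.Agent.Pack.S44C.G0E0L1
import Fermat.Agent.Pack.S43MC.G0E6L0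
import Fermat.Agent.Pack.S43MC.G0E9L3
import Fermat.Agent.Pack.S43MC.G0E6L1
import Fermat.Agent.Pack.S43MC.G0E0L1
import Fermat.Agent.Pack.S43MC.G0E9L1
import Fermat.Agent.Pack.S43MC.G0E10L0
import Fermat.Agent.Pack.S43MC.G0E3L2
import Fermat.Agent.Pack.S43GC.G0E5L0
import Fermat.Agent.Pack.S43GC.G0E2L2
import Fermat.Agent.Pack.S43GC.G0E7L1
import Fermat.Agent.Pack.S43MC.G0E10L1
import Fermat.Agent.Pack.S44C.G0E1L3
import Fermat.Agent.Pack.S43MC.G0E9L0
import Fermat.Agent.Pack.Fast891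

-- ===== PACK-BEGIN S25/Assembly/Top.lean
section





/-!
# Row S25, assembly: the frozen statement from the four pillars `Rep`, `Def`, `Val`, `Abel`
-/

set_option autoImplicit false
universe u
open CategoryTheory CategoryTheory.Limits AlgebraicGeometry AlgebraicGeometry.RelPicard
  NeronModelInfra GoodReductionJacobian

namespace Fermat.Agent.S25.Assembly

variable {k : Type u} [Field k] {C : Scheme.{u}} (c : C ⟶ Spec (CommRingCat.of k))
  (ε : SchemeHomOver (𝟙 (Spec (CommRingCat.of k))) c)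

/-- S25 from the four pillars. -/
theorem result_of_pillars (hRep : Stmt.Rep c ε) (hDef : Stmt.Def c ε) (hVal : Stmt.Val c ε)
    (hAbel : Stmt.Abel c ε) :
    ∃ D : RelativePic0Designation k c,
      Nonempty (RepresentsRelSubPic c ε (algEquivZeroCut c ε) D) ∧
        Smooth D.toBase ∧ IsProper D.toBase ∧ GeometricallyConnected D.toBase :=
  result_of_stmts c ε hRep (H805.smoothOfRep_of_def hDef)
    (H927.properOfRep_of_val_abel hVal hAbel) (H927.geomConnOfRep_of_abel hAbel)

end Fermat.Agent.S25.Assembly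

end
-- ===== PACK-END S25/Assembly/Top.lean

-- ===== PACK-BEGIN S30/H649/TateAdapter.lean
section
/-
S30 (p-adic Eichler–Shimura), helper649: PIECE `Tate` of the S30 skeleton (squad-lead helper49).

`exists_adicFrobModule_of_lattice` has EXACTLY the type of the skeleton statement
`Fermat.Agent.S30.exists_adicFrobModule_of_tate` (with `GQ` unfolded).  It is the landed abstract
Tate eigenmodule `Fermat.Agent.S30.H529.exists_adic_galois_eigenmodule` fed with the compatible
eigen-sequence `n ↦ (κ (n+1)).baseChange 𝒪 v`; the only new mathematics is that this sequence is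
nonzero: `𝒪` is flat over `ℤ`, so `(κ n).baseChange 𝒪 v = 0` forces `v ∈ pⁿ (𝒪 ⊗ Λ)`, and
`⋂ₙ 𝔪ⁿ (𝒪 ⊗ Λ) = 0` (Krull).
-/


set_option autoImplicit false

namespace Fermat.Agent.S30.H649

open TensorProduct IsLocalRing

section Nonvanishing

variable {𝒪 : Type*} [CommRing 𝒪] [IsDomain 𝒪] [IsDiscreteValuationRing 𝒪] [CharZero 𝒪]
variable {J : Type*} [AddCommGroup J] {Λ : Type*} [AddCommGroup Λ]

omit [IsDomain 𝒪] [IsDiscreteValuationRing 𝒪] [CharZero 𝒪] in
/-- An integer acts on `𝒪 ⊗[ℤ] X` as its image in `𝒪`. -/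
theorem intCast_smul_tensor {X : Type*} [AddCommGroup X] (m : ℤ) (w : 𝒪 ⊗[ℤ] X) :
    (m : 𝒪) • w = m • w :=
  Int.cast_smul_eq_zsmul 𝒪 m w

omit [IsDiscreteValuationRing 𝒪] in
/-- If the kernel of `κ` is `m Λ`, the kernel of `1 ⊗ κ` on `𝒪 ⊗ Λ` is `m (𝒪 ⊗ Λ)`
(flatness of `𝒪` over `ℤ`). -/
theorem exists_eq_smul_of_baseChange_eq_zero (m : ℤ) (κ : Λ →ₗ[ℤ] J)
    (hκ : ∀ x : Λ, κ x = 0 ↔ ∃ y : Λ, x = m • y) (v : 𝒪 ⊗[ℤ] Λ)
    (hv : κ.baseChange 𝒪 v = 0) : ∃ z : 𝒪 ⊗[ℤ] Λ, v = (m : 𝒪) • z := by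
  have hex : Function.Exact (m • (LinearMap.id : Λ →ₗ[ℤ] Λ)) κ := by
    intro x
    rw [hκ x]
    constructor
    · rintro ⟨y, rfl⟩
      exact ⟨y, rfl⟩
    · rintro ⟨y, rfl⟩
      exact ⟨y, rfl⟩
  have hex2 := Module.Flat.lTensor_exact 𝒪 hex
  have h1 : κ.lTensor 𝒪 v = 0 := hv
  obtain ⟨z, hz⟩ := (hex2 v).mp h1
  refine ⟨z, ?_⟩
  rw [← hz, LinearMap.lTensor_smul, LinearMap.lTensor_id, LinearMap.smul_apply,
    LinearMap.id_apply, intCast_smul_tensor]

/-- **Nonvanishing of the Kummer sequence.**  If `ker (κ n) = pⁿ Λ` for all `n` and `p ∈ 𝔪`, a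
nonzero `v ∈ 𝒪 ⊗ Λ` has a nonzero image under some `1 ⊗ κ n`. -/
theorem exists_baseChange_ne_zero [Module.Finite ℤ Λ] {p : ℕ}
    (hp𝒪 : (p : 𝒪) ∈ maximalIdeal 𝒪) (κ : ℕ → Λ →ₗ[ℤ] J)
    (hκ0 : ∀ (n : ℕ) (x : Λ), κ n x = 0 ↔ ∃ y : Λ, x = ((p : ℤ) ^ n) • y)
    (v : 𝒪 ⊗[ℤ] Λ) (hv : v ≠ 0) : ∃ n : ℕ, (κ n).baseChange 𝒪 v ≠ 0 := by
  by_contra hcon
  push Not at hcon
  apply hv
  have hmem : ∀ n : ℕ, v ∈ (maximalIdeal 𝒪 ^ n • ⊤ : Submodule 𝒪 (𝒪 ⊗[ℤ] Λ)) := by
    intro n
    obtain ⟨z, hz⟩ := exists_eq_smul_of_baseChange_eq_zero (𝒪 := 𝒪) ((p : ℤ) ^ n) (κ n)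
      (hκ0 n) v (hcon n)
    rw [hz]
    refine Submodule.smul_mem_smul ?_ Submodule.mem_top
    have : (((p : ℤ) ^ n : ℤ) : 𝒪) = (p : 𝒪) ^ n := by push_cast; rfl
    rw [this]
    exact Ideal.pow_mem_pow hp𝒪 n
  have hbot : (⨅ i : ℕ, (maximalIdeal 𝒪 ^ i • ⊤ : Submodule 𝒪 (𝒪 ⊗[ℤ] Λ))) = ⊥ :=
    Ideal.iInf_pow_smul_eq_bot_of_isLocalRing (maximalIdeal 𝒪)
      (Ideal.IsMaximal.ne_top inferInstance)
  have h2 : v ∈ (⨅ i : ℕ, (maximalIdeal 𝒪 ^ i • ⊤ : Submodule 𝒪 (𝒪 ⊗[ℤ] Λ))) :=
    (Submodule.mem_iInf _).mpr hmem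
  rw [hbot] at h2
  exact (Submodule.mem_bot 𝒪).mp h2

end Nonvanishing

section Main

/-- **PIECE `Tate`** (type of `Fermat.Agent.S30.exists_adicFrobModule_of_tate`, `GQ` unfolded). -/
theorem exists_adicFrobModule_of_lattice
    {𝒪 : Type} [CommRing 𝒪] [IsDomain 𝒪] [IsDiscreteValuationRing 𝒪]
    [IsAdicComplete (IsLocalRing.maximalIdeal 𝒪) 𝒪] [Finite (IsLocalRing.ResidueField 𝒪)]
    [CharZero 𝒪] {p : ℕ} (hp : p.Prime) (hp𝒪 : (p : 𝒪) ∈ IsLocalRing.maximalIdeal 𝒪)
    {J : Type} [AddCommGroup J]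
    [DistribMulAction (AlgebraicClosure ℚ ≃ₐ[ℚ] AlgebraicClosure ℚ) J]
    {ι : Type} (T : ι → J →ₗ[ℤ] J)
    (hTG : ∀ (i : ι) (σ : AlgebraicClosure ℚ ≃ₐ[ℚ] AlgebraicClosure ℚ) (x : J),
      T i (σ • x) = σ • T i x)
    (hfin : Finite {x : J // (p : ℤ) • x = 0})
    (hsmooth : ∀ x : J, (∃ n : ℕ, ((p : ℤ) ^ n) • x = 0) →
      ∃ L : IntermediateField ℚ (AlgebraicClosure ℚ), FiniteDimensional ℚ L ∧
        ∀ σ : AlgebraicClosure ℚ ≃ₐ[ℚ] AlgebraicClosure ℚ, (∀ y ∈ L, σ y = y) → σ • x = x)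
    {Λ : Type} [AddCommGroup Λ] [Module.Free ℤ Λ] [Module.Finite ℤ Λ]
    (TΛ : ι → Λ →ₗ[ℤ] Λ) (κ : ℕ → Λ →ₗ[ℤ] J)
    (hκ0 : ∀ (n : ℕ) (x : Λ), κ n x = 0 ↔ ∃ y : Λ, x = ((p : ℤ) ^ n) • y)
    (hκs : ∀ (n : ℕ) (x : Λ), (p : ℤ) • κ (n + 1) x = κ n x)
    (hκT : ∀ (i : ι) (n : ℕ) (x : Λ), κ n (TΛ i x) = T i (κ n x))
    (a : ι → 𝒪) (v : 𝒪 ⊗[ℤ] Λ) (hv : v ≠ 0)
    (hva : ∀ i : ι, (TΛ i).baseChange 𝒪 v = a i • v) :
    ∃ (M : Type) (_ : AddCommGroup M) (_ : Module 𝒪 M) (_ : Module.Free 𝒪 M)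
      (_ : Module.Finite 𝒪 M)
      (ρ : (AlgebraicClosure ℚ ≃ₐ[ℚ] AlgebraicClosure ℚ) →* Module.End 𝒪 M),
      Nontrivial M ∧ GaloisActionIsAdicContinuous 𝒪 ρ ∧
      (∀ σ : AlgebraicClosure ℚ ≃ₐ[ℚ] AlgebraicClosure ℚ,
        (∀ x : J, (∃ n : ℕ, ((p : ℤ) ^ n) • x = 0) → σ • x = x) → ρ σ = 1) ∧
      (∀ (σ : AlgebraicClosure ℚ ≃ₐ[ℚ] AlgebraicClosure ℚ) (i : ι) (c : ℤ),
        (∀ x : J, (∃ n : ℕ, ((p : ℤ) ^ n) • x = 0) →
          σ • σ • x - T i (σ • x) + c • x = 0) →
        ρ σ * ρ σ - a i • ρ σ + (c : 𝒪) • (1 : Module.End 𝒪 M) = 0) := by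
  classical
  -- conversions between `ℤ`- and `ℕ`-torsion
  have hpow : ∀ (n : ℕ) (x : J), ((p : ℤ) ^ n) • x = p ^ n • x := by
    intro n x
    rw [← Nat.cast_pow, natCast_zsmul]
  have htors : ∀ x : J, (∃ n : ℕ, p ^ n • x = 0) ↔ (∃ n : ℕ, ((p : ℤ) ^ n) • x = 0) := by
    intro x
    constructor
    · rintro ⟨n, hn⟩; exact ⟨n, by rw [hpow]; exact hn⟩
    · rintro ⟨n, hn⟩; exact ⟨n, by rw [← hpow]; exact hn⟩
  -- the operators as additive maps
  let T' : ι → J →+ J := fun i => (T i).toAddMonoidHom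
  have hT' : ∀ i, (T' i).toIntLinearMap = T i := fun i => LinearMap.ext fun _ => rfl
  have hfin' : {x : J | p • x = 0}.Finite := by
    have h1 : {x : J | (p : ℤ) • x = 0}.Finite := Set.finite_coe_iff.mp hfin
    refine h1.subset fun x hx => ?_
    show (p : ℤ) • x = 0
    rw [natCast_zsmul]
    exact hx
  -- the Kummer sequence
  have hκzero : ∀ w : 𝒪 ⊗[ℤ] Λ, (κ 0).baseChange 𝒪 w = 0 := by
    have h0 : κ 0 = 0 := by
      apply LinearMap.ext
      intro x
      rw [LinearMap.zero_apply, hκ0 0 x]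
      exact ⟨x, by rw [pow_zero, one_smul]⟩
    intro w
    rw [h0, LinearMap.baseChange_zero, LinearMap.zero_apply]
  have hκsucc : ∀ (n : ℕ) (w : 𝒪 ⊗[ℤ] Λ),
      (p : 𝒪) • (κ (n + 1)).baseChange 𝒪 w = (κ n).baseChange 𝒪 w := by
    intro n w
    have h1 : (p : ℤ) • κ (n + 1) = κ n := LinearMap.ext fun x => hκs n x
    have h2 : ((p : ℤ) : 𝒪) • (κ (n + 1)).baseChange 𝒪 w
        = (p : ℤ) • (κ (n + 1)).baseChange 𝒪 w := intCast_smul_tensor _ _
    rw [Int.cast_natCast] at h2
    rw [h2, ← LinearMap.smul_apply, ← LinearMap.baseChange_smul, h1]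
  obtain ⟨n₀, hn₀⟩ := exists_baseChange_ne_zero (𝒪 := 𝒪) hp𝒪 κ hκ0 v hv
  obtain ⟨m₀, rfl⟩ : ∃ m₀, n₀ = m₀ + 1 := by
    cases n₀ with
    | zero => exact absurd (hκzero v) hn₀
    | succ m => exact ⟨m, rfl⟩
  let seq : ℕ → 𝒪 ⊗[ℤ] J := fun n => (κ (n + 1)).baseChange 𝒪 v
  have hseq0 : (p : 𝒪) • seq 0 = 0 := by
    show (p : 𝒪) • (κ (0 + 1)).baseChange 𝒪 v = 0
    rw [hκsucc 0 v, hκzero v]
  have hseqs : ∀ n, (p : 𝒪) • seq (n + 1) = seq n := fun n => hκsucc (n + 1) v
  have hseqne : seq ≠ 0 := fun h => hn₀ (congrFun h m₀)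
  have hseqeig : ∀ i n, H529.tensorOp 𝒪 T' i (seq n) = a i • seq n := by
    intro i n
    show ((T' i).toIntLinearMap.baseChange 𝒪) ((κ (n + 1)).baseChange 𝒪 v)
      = a i • (κ (n + 1)).baseChange 𝒪 v
    have h1 : T i ∘ₗ κ (n + 1) = κ (n + 1) ∘ₗ TΛ i :=
      LinearMap.ext fun x => (hκT i (n + 1) x).symm
    rw [hT' i, ← LinearMap.comp_apply, ← LinearMap.baseChange_comp, h1,
      LinearMap.baseChange_comp, LinearMap.comp_apply, hva i, map_smul]
  obtain ⟨M, i1, i2, i3, i4, ρ, hnt, hcont, hunr, hquad⟩ :=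
    H529.exists_adic_galois_eigenmodule p 𝒪 J T' a hp𝒪 hp.ne_zero
      (fun i γ x => hTG i γ x) hfin'
      (fun x hx => hsmooth x ((htors x).mp hx)) seq hseq0 hseqs hseqne hseqeig
  refine ⟨M, i1, i2, i3, i4, ρ, hnt, hcont, ?_, ?_⟩
  · intro σ hσ
    exact hunr σ fun x hx => hσ x ((htors x).mp hx)
  · intro σ i c hσ
    exact hquad σ i c fun x hx => hσ x ((htors x).mp hx)

end Main

end Fermat.Agent.S30.H649

end
-- ===== PACK-END S30/H649/TateAdapter.lean

-- ===== PACK-BEGIN S31/H622/Chi.lean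
section





/-!
# Row S31, piece SS (helper622) — the `Γ₀(N)`-partition of unity on `ℍ`

`chiH N : ℍ → ℝ` is continuous, takes values in `[0,1]`, satisfies `∑_{γ ∈ Γ₀(N)} chiH (γ • τ) = 1`
and is integrable for the hyperbolic measure of `ℍ`.
-/

set_option autoImplicit false
set_option linter.style.haveILetI false

open UpperHalfPlane CongruenceSubgroup MeasureTheory
open scoped MatrixGroups ModularForm

namespace Fermat.Agent.S31.H622

open Fermat.Agent.S21

/-- A fixed smooth `SL(2,ℤ)`-partition of unity on the upper half plane. -/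
noncomputable def chi1 : ℂ → ℝ := Classical.choose exists_partition_SL2Z

theorem chi1_spec : IsSL2ZPartition chi1 := by
  obtain ⟨h1, h2, h3, h4, h5⟩ := Classical.choose_spec exists_partition_SL2Z
  exact ⟨h1, h2, h3, h4, h5⟩

/-- The `Γ₀(N)`-partition of unity as a function on `ℍ`. -/
noncomputable def chiH (N : ℕ) (τ : ℍ) : ℝ := chi N chi1 (τ : ℂ)

theorem mob_coe' (g : SL(2, ℤ)) (w : ℍ) : mob g (w : ℂ) = ((g • w : ℍ) : ℂ) := by
  simp [mob]

instance countable_SL2Z : Countable SL(2, ℤ) :=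
  haveI : Countable (Matrix (Fin 2) (Fin 2) ℤ) := inferInstanceAs (Countable (Fin 2 → Fin 2 → ℤ))
  Subtype.val_injective.countable

section

variable (N : ℕ) [NeZero N]

theorem chiH_nonneg (τ : ℍ) : 0 ≤ chiH N τ := chi_nonneg N chi1_spec _

theorem chiH_le_one (τ : ℍ) : chiH N τ ≤ 1 := chi_le_one N chi1_spec _

theorem continuous_chiH : Continuous (chiH N) := by
  have h := continuousOn_chi N chi1_spec
  exact h.comp_continuous UpperHalfPlane.continuous_coe fun τ => coe_mem_Uhp τ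

theorem measurable_chiH : Measurable (chiH N) := (continuous_chiH N).measurable

theorem abs_chiH_le (τ : ℍ) : ‖chiH N τ‖ ≤ 1 := by
  rw [Real.norm_of_nonneg (chiH_nonneg N τ)]
  exact chiH_le_one N τ

/-- The defining property: the `Γ₀(N)`-translates of `chiH` sum to `1`. -/
theorem hasSum_chiH (τ : ℍ) :
    HasSum (fun γ : Gamma0 N => chiH N ((γ : SL(2, ℤ)) • τ)) 1 := by
  have h1 := chi_sum_eq_one N chi1_spec (τ : ℂ) (coe_mem_Uhp τ)
  have hfin : (Function.support fun γ : Gamma0 N => chiH N ((γ : SL(2, ℤ)) • τ)).Finite := by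
    refine (chi_locfin N chi1_spec {(τ : ℂ)} isCompact_singleton
      (by simpa using coe_mem_Uhp τ)).subset ?_
    intro γ hγ
    refine ⟨(τ : ℂ), rfl, ?_⟩
    rw [mob_coe']
    exact hγ
  have h2 : ∑ᶠ γ : Gamma0 N, chiH N ((γ : SL(2, ℤ)) • τ) = 1 := by
    rw [← h1]
    refine finsum_congr fun γ => ?_
    rw [mob_coe']
    rfl
  rw [← h2, finsum_eq_sum _ hfin]
  exact hasSum_sum_of_ne_finset_zero fun γ hγ => by simpa using hγ

theorem sum_chiH_le_one (s : Finset (Gamma0 N)) (τ : ℍ) :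
    ∑ γ ∈ s, chiH N ((γ : SL(2, ℤ)) • τ) ≤ 1 :=
  sum_le_hasSum s (fun _ _ => chiH_nonneg N _) (hasSum_chiH N τ)

theorem exists_chiH_pos (τ : ℍ) : ∃ γ : Gamma0 N, 0 < chiH N ((γ : SL(2, ℤ)) • τ) := by
  by_contra hcon
  push Not at hcon
  have h0 : ∀ γ : Gamma0 N, chiH N ((γ : SL(2, ℤ)) • τ) = 0 := fun γ =>
    le_antisymm (hcon γ) (chiH_nonneg N _)
  have h1 := hasSum_chiH N τ
  simp only [h0] at h1
  exact zero_ne_one (h1.unique hasSum_zero).symm

end

/-! ### Finite volume and integrability -/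

/-- The cusp region `{|Re τ| ≤ 1, 1/2 < Im τ}`. -/
def cuspBox : Set ℍ := {τ | |τ.re| ≤ 1 ∧ 1 / 2 < τ.im}

theorem volume_cuspBox_lt_top : volume cuspBox < ⊤ := by
  rw [volume_eq_lintegral]
  set e := Complex.measurableEquivRealProd with he
  set G : ℝ × ℝ → ENNReal := fun p => 1 * ENNReal.ofReal (p.2 ^ (-2 : ℝ)) with hG
  have hsub : (UpperHalfPlane.coe '' cuspBox) ⊆ e ⁻¹' (Set.Icc (-1) 1 ×ˢ Set.Ioi (1 / 2)) := by
    rintro _ ⟨τ, ⟨h1, h2⟩, rfl⟩
    have h3 := abs_le.mp h1
    refine ⟨⟨?_, ?_⟩, ?_⟩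
    · exact h3.1
    · exact h3.2
    · exact h2
  have hpt : ∀ z ∈ e ⁻¹' (Set.Icc (-1 : ℝ) 1 ×ˢ Set.Ioi (1 / 2 : ℝ)),
      (((1 / ‖z.im‖₊) ^ 2 : NNReal) : ENNReal) = G (e z) := by
    intro z hz
    have hz2 : (1 / 2 : ℝ) < z.im := hz.2
    have hpos : 0 < z.im := by linarith
    simp only [hG, one_mul]
    rw [← ENNReal.ofReal_coe_nnreal]
    congr 1
    have : (e z).2 = z.im := rfl
    rw [this, Real.rpow_neg hpos.le, Real.rpow_two]
    push_cast
    rw [Real.norm_of_nonneg hpos.le]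
    simp
  calc ∫⁻ z in UpperHalfPlane.coe '' cuspBox, (((1 / ‖z.im‖₊) ^ 2 : NNReal) : ENNReal)
      ≤ ∫⁻ z in e ⁻¹' (Set.Icc (-1) 1 ×ˢ Set.Ioi (1 / 2)),
          (((1 / ‖z.im‖₊) ^ 2 : NNReal) : ENNReal) := lintegral_mono_set hsub
    _ = ∫⁻ z in e ⁻¹' (Set.Icc (-1) 1 ×ˢ Set.Ioi (1 / 2)), G (e z) :=
        setLIntegral_congr_fun (e.measurable (measurableSet_Icc.prod measurableSet_Ioi)) hpt
    _ = ∫⁻ p in Set.Icc (-1) 1 ×ˢ Set.Ioi (1 / 2), G p :=
        Complex.volume_preserving_equiv_real_prod.setLIntegral_comp_preimage_emb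
          e.measurableEmbedding G _
    _ = (∫⁻ _ in Set.Icc (-1 : ℝ) 1, 1) *
          ∫⁻ y in Set.Ioi (1 / 2 : ℝ), ENNReal.ofReal (y ^ (-2 : ℝ)) := by
        rw [Measure.volume_eq_prod, ← Measure.prod_restrict]
        have hm : Measurable fun y : ℝ => ENNReal.ofReal (y ^ (-2 : ℝ)) := by fun_prop
        exact lintegral_prod_mul (f := fun _ : ℝ => (1 : ENNReal))
          (g := fun y : ℝ => ENNReal.ofReal (y ^ (-2 : ℝ))) aemeasurable_const hm.aemeasurable
    _ < ⊤ := by
        refine ENNReal.mul_lt_top ?_ ?_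
        · simp
        · exact (integrableOn_Ioi_rpow_of_lt (by norm_num) (by norm_num)).lintegral_lt_top




theorem measurableSet_cuspBox : MeasurableSet cuspBox := by
  have h1 : MeasurableSet {τ : ℍ | |τ.re| ≤ 1} :=
    (isClosed_le (continuous_abs.comp UpperHalfPlane.continuous_re) continuous_const).measurableSet
  have h2 : MeasurableSet {τ : ℍ | 1 / 2 < τ.im} :=
    (isOpen_lt continuous_const UpperHalfPlane.continuous_im).measurableSet
  exact h1.inter h2

/-- `chi1` on `ℍ`. -/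
noncomputable def chi1H (τ : ℍ) : ℝ := chi1 (τ : ℂ)

theorem continuous_chi1H : Continuous chi1H :=
  chi1_spec.smooth.continuousOn.comp_continuous UpperHalfPlane.continuous_coe
    fun τ => coe_mem_Uhp τ

theorem chi1H_nonneg (τ : ℍ) : 0 ≤ chi1H τ := chi1_spec.nonneg _

theorem chi1H_le_one (τ : ℍ) : chi1H τ ≤ 1 := by
  have h1 := chi1_spec.sum_eq_one (τ : ℂ) (coe_mem_Uhp τ)
  have hfin := IntAAux.finite_support chi1 chi1_spec (τ : ℂ) (coe_mem_Uhp τ)
  have h2 := single_le_finsum (1 : SL(2, ℤ)) hfin fun g => chi1_spec.nonneg _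
  rw [h1] at h2
  simpa [chi1H, mob] using h2

theorem chi1H_eq_zero_of_notMem {τ : ℍ} (h : τ ∉ cuspBox) : chi1H τ = 0 := by
  by_contra h0
  exact h (chi1_spec.supp _ h0)

theorem integrable_chi1H : Integrable chi1H (volume : Measure ℍ) := by
  have h1 : IntegrableOn chi1H cuspBox volume := by
    refine Measure.integrableOn_of_bounded (M := 1) volume_cuspBox_lt_top.ne
      continuous_chi1H.aestronglyMeasurable (Filter.Eventually.of_forall fun τ => ?_)
    rw [Real.norm_of_nonneg (chi1H_nonneg τ)]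
    exact chi1H_le_one τ
  have h2 : cuspBox.indicator chi1H = chi1H := by
    funext τ
    by_cases h : τ ∈ cuspBox
    · rw [Set.indicator_of_mem h]
    · rw [Set.indicator_of_notMem h, chi1H_eq_zero_of_notMem h]
  rw [← h2]
  exact (integrable_indicator_iff measurableSet_cuspBox).mpr h1

theorem integrable_comp_smul {E : Type*} [NormedAddCommGroup E] {F : ℍ → E}
    (hF : Integrable F (volume : Measure ℍ)) (g : GL (Fin 2) ℝ) :
    Integrable (fun τ => F (g • τ)) (volume : Measure ℍ) :=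
  ((measurePreserving_smul g (volume : Measure ℍ)).integrable_comp_emb
    (MeasurableEquiv.smul g).measurableEmbedding).mpr hF

theorem integrable_chiH (N : ℕ) [NeZero N] : Integrable (chiH N) (volume : Measure ℍ) := by
  haveI : Finite (SL(2, ℤ) ⧸ Gamma0 N) := Subgroup.finite_quotient_of_finiteIndex
  letI : Fintype (SL(2, ℤ) ⧸ Gamma0 N) := Fintype.ofFinite _
  have h : chiH N = fun τ => ∑ q : SL(2, ℤ) ⧸ Gamma0 N,
      chi1H (((Quotient.out q : SL(2, ℤ)) : GL (Fin 2) ℝ) • τ) := by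
    funext τ
    rw [chiH, IntAAux.chi_of_mem N chi1 (coe_mem_Uhp τ), finsum_eq_sum_of_fintype]
    refine Finset.sum_congr rfl fun q _ => ?_
    rw [mob_coe']
    rfl
  rw [h]
  exact integrable_finsetSum _ fun q _ => integrable_comp_smul integrable_chi1H _

/-! ### Positivity of the measure on open sets -/

instance isOpenPosMeasure_uhp : (volume : Measure ℍ).IsOpenPosMeasure := by
  refine ⟨fun U hU hne => ?_⟩
  rw [volume_eq_lintegral]
  have hopen : IsOpen (UpperHalfPlane.coe '' U) := isOpenEmbedding_coe.isOpenMap U hU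
  have hpos : 0 < volume (UpperHalfPlane.coe '' U) := hopen.measure_pos volume (hne.image _)
  have hm : Measurable fun z : ℂ => (((1 / ‖z.im‖₊) ^ 2 : NNReal) : ENNReal) := by fun_prop
  refine ((setLIntegral_pos_iff hm).mpr ?_).ne'
  refine lt_of_lt_of_le hpos (measure_mono ?_)
  rintro _ ⟨τ, hτ, rfl⟩
  refine ⟨?_, ⟨τ, hτ, rfl⟩⟩
  simp only [Function.mem_support, ne_eq, ENNReal.coe_eq_zero]
  simpa using τ.im_ne_zero

theorem eq_zero_of_integral_eq_zero {F : ℍ → ℝ} (hc : Continuous F) (h0 : ∀ τ, 0 ≤ F τ)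
    (hi : Integrable F (volume : Measure ℍ)) (h : ∫ τ, F τ = 0) : ∀ τ, F τ = 0 := by
  have h1 : F =ᵐ[volume] 0 := (integral_eq_zero_iff_of_nonneg h0 hi).mp h
  have h2 : F = 0 := (hc.ae_eq_iff_eq volume continuous_const).mp h1
  exact fun τ => congrFun h2 τ

end Fermat.Agent.S31.H622

end
-- ===== PACK-END S31/H622/Chi.lean

-- ===== PACK-BEGIN S28/H208/Gcd.lean
section
/-
S28 [L4]: the gcd / generation lemma.  For distinct primes `p ≠ r` invertible in `k`,
`j(q^{pr}) ∈ k(j(q^r), j(q^p))`, because it is the unique common root of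
`Φ_p(X, j(q^r))` and `Φ_r(X, j(q^p))`.
-/





set_option autoImplicit false

noncomputable section

open ModularCurve Polynomial

namespace Fermat.Agent.S28.H208

section Gcd

variable (k : Type*) [Field k]

/-- The embedding `k((q)) → k̄((t))`, `q ↦ t^e`. -/
def iotaE (e : ℕ) [NeZero e] : LaurentSeries k →+* LaurentSeries (AlgebraicClosure k) :=
  (qExpand (AlgebraicClosure k) e).comp (coeffMap (algebraMap k (AlgebraicClosure k)))

theorem iotaE_jd (e : ℕ) [NeZero e] (d : ℕ) [NeZero d] :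
    iotaE k e (qExpand k d (jqModC k)) =
      qExpand (AlgebraicClosure k) (e * d) (jqModC (AlgebraicClosure k)) := by
  rw [iotaE, RingHom.comp_apply, coeffMap_qExpand, coeffMap_jqModC, qExpand_qExpand]

theorem iotaE_injective (e : ℕ) [NeZero e] : Function.Injective (iotaE k e) :=
  (iotaE k e).injective

variable {k}

theorem qExpand_coeff_neg_eq_zero_of_not_dvd {A : Type*} [CommRing A] (a b : ℕ) [NeZero a]
    (h : ¬ a ∣ b) (f : LaurentSeries A) : (qExpand A a f).coeff (-(b : ℤ)) = 0 := by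
  apply qExpand_coeff_of_not_dvd
  intro h'
  exact h (by exact_mod_cast (dvd_neg.mp h'))

theorem qExpand_rootAt_some_coeff {K : Type*} [Field K] {p : ℕ} [NeZero p] (ζ : K) (hζ : ζ ≠ 0)
    (m : ℕ) [NeZero m] (b : Fin p) :
    (qExpand K m (rootAt (p := p) ζ hζ (some b))).coeff (-(m : ℤ)) = (ζ ^ (b : ℕ))⁻¹ := by
  have h := qExpand_coeff_mul (R := K) m (rootAt (p := p) ζ hζ (some b)) (-1)
  rw [rootAt_some_coeff_neg_one, mul_neg, mul_one] at h
  exact h

theorem qExpand_rootAt_none {K : Type*} [Field K] {p : ℕ} [NeZero p] (ζ : K) (hζ : ζ ≠ 0)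
    (m : ℕ) [NeZero m] :
    qExpand K m (rootAt (p := p) ζ hζ none) = qExpand K (m * (p * p)) (jqModC K) := by
  show qExpand K m (qExpand K (p * p) (jqModC K)) = _
  rw [qExpand_qExpand]

/-- Key coprimality: the "new" roots of `Φ_p(X, j(t^{r²p}))` are not roots of
`Φ_r(X, j(t^{p²r}))`. -/
theorem gcd_core {K : Type*} [Field K] {p r : ℕ} [NeZero p] [NeZero r]
    (hp : p.Prime) (hr : r.Prime) (hpr : p ≠ r) (Dr : ModPolyData r)
    (ζp ζr : K) (hζp : IsPrimitiveRoot ζp p) (hζr : IsPrimitiveRoot ζr r) :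
    IsCoprime
      (∏ b : Fin p, (X - C (qExpand K (r * r) (rootAt ζp (hζp.ne_zero (NeZero.ne p)) (some b)))))
      (Dr.Φ.map (evZ (qExpand K (p * p * r) (jqModC K)))) := by
  have hζp0 : ζp ≠ 0 := hζp.ne_zero (NeZero.ne p)
  have hζr0 : ζr ≠ 0 := hζr.ne_zero (NeZero.ne r)
  rw [map_eq_prod_rootAt_qExpand Dr hr.one_lt ζr hζr (p * p)]
  refine IsCoprime.prod_left fun b _ => IsCoprime.prod_right fun i _ => ?_
  refine Polynomial.isCoprime_X_sub_C_of_isUnit_sub (IsUnit.mk0 _ (sub_ne_zero.mpr ?_))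
  intro heq
  have hc : (qExpand K (r * r) (rootAt ζp hζp0 (some b))).coeff (-((r * r : ℕ) : ℤ)) =
      (qExpand K (p * p) (rootAt ζr hζr0 i)).coeff (-((r * r : ℕ) : ℤ)) := by rw [heq]
  rw [qExpand_rootAt_some_coeff, qExpand_coeff_neg_eq_zero_of_not_dvd] at hc
  · exact inv_ne_zero (pow_ne_zero _ hζp0) hc
  · intro hdvd
    have h1 : p ∣ r * r := dvd_trans (dvd_mul_right p p) hdvd
    have h2 : p ∣ r := by
      rcases (Nat.Prime.dvd_mul hp).mp h1 with h | h <;> exact h
    exact hpr ((Nat.prime_dvd_prime_iff_eq hp hr).mp h2)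

end Gcd

section Main

variable (k : Type*) [Field k]

/-- **gcd lemma**: `j(q^{pr}) ∈ k(j(q^r), j(q^p))` for distinct primes `p, r` invertible
in `k`. -/
theorem jpr_mem_adjoin {p r : ℕ} [NeZero p] [NeZero r]
    (hp : p.Prime) (hr : r.Prime) (hpr : p ≠ r) (hpk : (p : k) ≠ 0) (hrk : (r : k) ≠ 0)
    (Dp : ModPolyData p) (Dr : ModPolyData r) :
    qExpand k (p * r) (jqModC k) ∈
      IntermediateField.adjoin k
        ({qExpand k r (jqModC k), qExpand k p (jqModC k)} : Set (LaurentSeries k)) := by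
  classical
  -- notation
  set E := IntermediateField.adjoin k
    ({qExpand k r (jqModC k), qExpand k p (jqModC k)} : Set (LaurentSeries k)) with hE
  set x : LaurentSeries k := qExpand k (p * r) (jqModC k) with hx
  have hr_mem : qExpand k r (jqModC k) ∈ E :=
    IntermediateField.subset_adjoin k _ (Set.mem_insert _ _)
  have hp_mem : qExpand k p (jqModC k) ∈ E :=
    IntermediateField.subset_adjoin k _ (Set.mem_insert_of_mem _ rfl)
  let yr : E := ⟨_, hr_mem⟩
  let yp : E := ⟨_, hp_mem⟩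
  let AE : Polynomial E := Dp.Φ.map (evZ yr)
  let BE : Polynomial E := Dr.Φ.map (evZ yp)
  have hAE_map : AE.map (algebraMap E (LaurentSeries k)) =
      Dp.Φ.map (evZ (qExpand k r (jqModC k))) := map_map_evZ _ _ _
  have hBE_map : BE.map (algebraMap E (LaurentSeries k)) =
      Dr.Φ.map (evZ (qExpand k p (jqModC k))) := map_map_evZ _ _ _
  have hAx : Polynomial.aeval x AE = 0 := by
    rw [Polynomial.aeval_def, ← Polynomial.eval_map, hAE_map, Polynomial.eval_map, hx,
      qExpand_congr (mul_comm p r)]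
    exact eval_jp_ring_qExpand k Dp r
  have hBx : Polynomial.aeval x BE = 0 := by
    rw [Polynomial.aeval_def, ← Polynomial.eval_map, hBE_map, Polynomial.eval_map, hx]
    exact eval_jp_ring_qExpand k Dr p
  have hAE_monic : AE.Monic := Dp.monic.map _
  have hint : IsIntegral E x := ⟨AE, hAE_monic, by rwa [Polynomial.aeval_def] at hAx⟩
  have hμA : minpoly E x ∣ AE := minpoly.dvd E x hAx
  have hμB : minpoly E x ∣ BE := minpoly.dvd E x hBx
  -- roots of unity upstairs
  haveI : NeZero ((p : ℕ) : k) := ⟨hpk⟩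
  haveI : NeZero ((r : ℕ) : k) := ⟨hrk⟩
  obtain ⟨ζp, hζp⟩ := HasEnoughRootsOfUnity.exists_primitiveRoot (AlgebraicClosure k) p
  obtain ⟨ζr, hζr⟩ := HasEnoughRootsOfUnity.exists_primitiveRoot (AlgebraicClosure k) r
  have hζp0 : ζp ≠ 0 := hζp.ne_zero (NeZero.ne p)
  -- the embedding
  let φ : E →+* LaurentSeries (AlgebraicClosure k) :=
    (iotaE k (p * r)).comp (algebraMap E (LaurentSeries k))
  have hAφ : AE.map φ = Dp.Φ.map (evZ (qExpand (AlgebraicClosure k) (r * r * p)
      (jqModC (AlgebraicClosure k)))) := by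
    rw [← Polynomial.map_map, hAE_map, map_map_evZ, iotaE_jd]
    rw [qExpand_congr (show p * r * r = r * r * p by ring)]
  have hBφ : BE.map φ = Dr.Φ.map (evZ (qExpand (AlgebraicClosure k) (p * p * r)
      (jqModC (AlgebraicClosure k)))) := by
    rw [← Polynomial.map_map, hBE_map, map_map_evZ, iotaE_jd]
    rw [qExpand_congr (show p * r * p = p * p * r by ring)]
  have hcop := gcd_core hp hr hpr Dr ζp ζr hζp hζr
  rw [← hBφ] at hcop
  have hAfac : AE.map φ =
      (X - C (qExpand (AlgebraicClosure k) (r * r * (p * p)) (jqModC (AlgebraicClosure k)))) *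
      ∏ b : Fin p, (X - C (qExpand (AlgebraicClosure k) (r * r) (rootAt ζp hζp0 (some b)))) := by
    rw [hAφ, map_eq_prod_rootAt_qExpand Dp hp.one_lt ζp hζp (r * r), Fintype.prod_option,
      qExpand_rootAt_none]
  have hμφA : (minpoly E x).map φ ∣ AE.map φ := Polynomial.map_dvd φ hμA
  have hμφB : (minpoly E x).map φ ∣ BE.map φ := Polynomial.map_dvd φ hμB
  have hcop' : IsCoprime ((minpoly E x).map φ)
      (∏ b : Fin p, (X - C (qExpand (AlgebraicClosure k) (r * r) (rootAt ζp hζp0 (some b))))) :=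
    IsCoprime.of_isCoprime_of_dvd_left hcop.symm hμφB
  rw [hAfac] at hμφA
  have hdvd := hcop'.dvd_of_dvd_mul_right hμφA
  have hdeg : (minpoly E x).natDegree ≤ 1 := by
    have h1 := Polynomial.natDegree_le_of_dvd hdvd (Polynomial.X_sub_C_ne_zero _)
    rwa [Polynomial.natDegree_map, Polynomial.natDegree_X_sub_C] at h1
  have hpos : 0 < (minpoly E x).natDegree := minpoly.natDegree_pos hint
  have hone : (minpoly E x).natDegree = 1 := le_antisymm hdeg hpos
  obtain ⟨e, he⟩ := (minpoly.natDegree_eq_one_iff).mp hone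
  rw [← he]
  exact e.2

/-- gcd lemma, after the substitution `q ↦ q^c`. -/
theorem jpr_mem_adjoin_qExpand {p r : ℕ} [NeZero p] [NeZero r]
    (hp : p.Prime) (hr : r.Prime) (hpr : p ≠ r) (hpk : (p : k) ≠ 0) (hrk : (r : k) ≠ 0)
    (Dp : ModPolyData p) (Dr : ModPolyData r) (c : ℕ) [NeZero c] :
    qExpand k (c * (p * r)) (jqModC k) ∈
      IntermediateField.adjoin k
        ({qExpand k (c * r) (jqModC k), qExpand k (c * p) (jqModC k)} :
          Set (LaurentSeries k)) := by
  have h := jpr_mem_adjoin k hp hr hpr hpk hrk Dp Dr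
  have h2 : qExpandAlgHomC k c (qExpand k (p * r) (jqModC k)) ∈
      (IntermediateField.adjoin k
        ({qExpand k r (jqModC k), qExpand k p (jqModC k)} : Set (LaurentSeries k))).map
        (qExpandAlgHomC k c) := ⟨_, h, rfl⟩
  rw [IntermediateField.adjoin_map, qExpandAlgHomC_apply, qExpand_qExpand, Set.image_pair,
    qExpandAlgHomC_apply, qExpandAlgHomC_apply, qExpand_qExpand, qExpand_qExpand] at h2
  exact h2

end Main

end Fermat.Agent.S28.H208

end

end
-- ===== PACK-END S28/H208/Gcd.lean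

-- ===== PACK-BEGIN Lib/Newform/H958/X/Eigen.lean
section




/-!
# NEWFORM block X — step X2: a newform is an eigenvector of the Fricke involution,
and the functional equation of its `L`-function
-/

set_option autoImplicit false

open CongruenceSubgroup Complex Polynomial
open UpperHalfPlane hiding I
open scoped MatrixGroups ModularForm

namespace Fermat.Agent.Lib.Newform.H958.X

open ModularFormClass ModularForm

variable {N : ℕ} [NeZero N]

theorem det_frickeMatrix (N : ℕ) [NeZero N] : ((frickeMatrix N).det : ℝ) = N := by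
  rw [Matrix.GeneralLinearGroup.val_det_apply]
  simp [frickeMatrix, Matrix.det_fin_two_of]

theorem σ_frickeMatrix (N : ℕ) [NeZero N] : UpperHalfPlane.σ (frickeMatrix N) = .refl ℝ ℂ := by
  have hN : (0 : ℝ) < N := Nat.cast_pos.mpr (Nat.pos_of_ne_zero (NeZero.ne N))
  rw [UpperHalfPlane.σ, if_pos (by rw [det_frickeMatrix]; exact hN)]

theorem smul_slash_frickeMatrix (N : ℕ) [NeZero N] (c : ℂ) (f : ℍ → ℂ) :
    (c • f) ∣[(2 : ℤ)] frickeMatrix N = c • (f ∣[(2 : ℤ)] frickeMatrix N) := by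
  rw [ModularForm.smul_slash, σ_frickeMatrix, ContinuousAlgEquiv.refl_apply]

/-- **X2**: the Fricke involution acts on a newform by a sign. -/
theorem frickeEigen_of (hO : FrickeOp) (hI : FrickeInvol) (hH : FrickeHecke) (hM : MultOne)
    (hET : Fermat.Agent.Lib.Newform.H958.EigenT)
    {f : CuspForm (Gamma0 N) 2} (hf : f.IsNewform) :
    ∃ w : ℂ, w ^ 2 = 1 ∧ ∀ f' : CuspForm (Gamma0 N) 2,
      (⇑f' : ℍ → ℂ) = ⇑f ∣[(2 : ℤ)] frickeMatrix N → f' = w • f := by
  obtain ⟨f₁, hf₁⟩ := hO N f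
  -- `f₁` is an eigenvector of all `T_ℓ`
  have heig : ∀ (ℓ : ℕ) (hℓ : ℓ.Prime) (hℓN : ¬ ℓ ∣ N),
      CuspForm.heckeTLin 2 hℓ hℓN f₁ = qCoeff f ℓ • f₁ := by
    intro ℓ hℓ hℓN
    apply DFunLike.coe_injective
    have h1 := congrArg (fun F : CuspForm (Gamma0 N) 2 => (⇑F : ℍ → ℂ))
      (hET N f hf.1 ℓ hℓ hℓN)
    simp only [CuspForm.coe_heckeTLin_apply] at h1
    rw [CuspForm.coe_heckeTLin_apply, hf₁, hH N ℓ hℓ hℓN f, h1]
    have h2 : (⇑(qCoeff f ℓ • f) : ℍ → ℂ) = qCoeff f ℓ • (⇑f : ℍ → ℂ) := rfl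
    have h3 : (⇑(qCoeff f ℓ • f₁) : ℍ → ℂ) = qCoeff f ℓ • (⇑f₁ : ℍ → ℂ) := rfl
    rw [h2, h3, smul_slash_frickeMatrix, hf₁]
  have hf₁w := hM N f hf f₁ heig
  set w := qCoeff f₁ 1 with hw
  refine ⟨w, ?_, ?_⟩
  · -- `f = (f ∣ W) ∣ W = w² f`
    have h4 : (⇑f : ℍ → ℂ) = (w * w) • (⇑f : ℍ → ℂ) := by
      have h5 := hI N (⇑f : ℍ → ℂ)
      rw [← hf₁] at h5
      have h6 : (⇑f₁ : ℍ → ℂ) = w • (⇑f : ℍ → ℂ) := by
        rw [hf₁w]
        rfl
      rw [h6, smul_slash_frickeMatrix, ← hf₁, h6, smul_smul] at h5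
      exact h5.symm
    have hfne : (⇑f : ℍ → ℂ) ≠ 0 := by
      intro h
      exact hf.ne_zero (DFunLike.coe_injective h)
    have h7 : (1 - w * w) • (⇑f : ℍ → ℂ) = 0 := by
      rw [sub_smul, one_smul, ← h4, sub_self]
    rcases smul_eq_zero.mp h7 with h | h
    · rw [pow_two]
      exact (sub_eq_zero.mp h).symm
    · exact absurd h hfne
  · intro f' hf'
    have : f' = f₁ := DFunLike.coe_injective (by rw [hf', hf₁])
    rw [this]
    exact hf₁w

/-- Functional equation of a newform: `Λ_f(2 - s) = - w N^{s-1} Λ_f(s)`, `w = ±1`. -/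
theorem functionalEq_newform_of (hO : FrickeOp) (hI : FrickeInvol) (hH : FrickeHecke)
    (hM : MultOne) (hET : Fermat.Agent.Lib.Newform.H958.EigenT)
    {f : CuspForm (Gamma0 N) 2} (hf : f.IsNewform) :
    ∃ w : ℂ, w ^ 2 = 1 ∧ ∀ s : ℂ, Lam f (2 - s) = -(w * (N : ℂ) ^ (s - 1)) * Lam f s := by
  obtain ⟨w, hw, hfw⟩ := frickeEigen_of hO hI hH hM hET hf
  obtain ⟨f₁, hf₁⟩ := hO N f
  refine ⟨w, hw, fun s => ?_⟩
  rw [functionalEq N f f₁ hf₁ s, hfw f₁ hf₁, Lam_smul]
  ring

end Fermat.Agent.Lib.Newform.H958.X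

end
-- ===== PACK-END Lib/Newform/H958/X/Eigen.lean

-- ===== PACK-BEGIN Lib/Newform/H683/XDepleteMain.lean
section
/-
NEWFORM library, block X (helper683) — **X5 Deplete**, unconditional
(`H958.X.dirichletSeries` is on main).
-/



set_option autoImplicit false

namespace Fermat.Agent.Lib.Newform.H683

/-- **X5 Deplete** (unconditional). -/
theorem deplete : Fermat.Agent.Lib.Newform.H958.X.Deplete :=
  deplete_of Fermat.Agent.Lib.Newform.H958.X.dirichletSeries

end Fermat.Agent.Lib.Newform.H683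

end
-- ===== PACK-END Lib/Newform/H683/XDepleteMain.lean

-- ===== PACK-BEGIN S36/H253/NormVal.lean
section


/-!
# Valuation of a norm: `v (N y) = ∑ f i * v i (y)` (helper253)

Mathlib only (on top of `NormRam.lean`).  Same setting as `norm_red_ram`: `F / K` finite, `O` a
valuation subring of `K` with uniformiser `ϖ`, `V i` pairwise incomparable valuation subrings of
`F` over `O` with uniformisers `t i`, `ϖ = unit * t i ^ e i` in `V i`, surjective reductions
`π : O → k`, `ρ i : V i → κ i`, `∑ e i * [κ i : k] = [F : K]`.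

* `RamFamily.norm_mem_pow` : `y ∈ ⋂ V i`, `v i₀ (y) ≤ v i₀ (t i₀)` ⇒ `N y ∈ ϖ ^ #(J i₀) * O`.
* `exists_ramFamily` : adapted families exist.
* `val_norm_eq_one` : `y` a unit at all `V i` ⇒ `N y` is a unit of `O`.
* `exists_unif_multi` : simultaneous uniformisers `T i` (`v i (T i) = v i (t i)`, units elsewhere).
* `val_norm_ram` (**NV**) : `v i (y) = v i (t i) ^ a i` for all `i` ⇒
  `v (N y) = v ϖ ^ ∑ i, [κ i : k] * a i`.
* `exists_zpow_val` : if the value group of `O` is generated by `v ϖ`, that of `V i` is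
  generated by `v i (t i)`.
-/

set_option autoImplicit false
set_option linter.unusedSectionVars false

namespace Fermat.Agent.S36.H253

open scoped BigOperators
open Fermat.Agent.S35.H253

section Col

variable {K F : Type*} [Field K] [Field F] [Algebra K F]
variable {O : ValuationSubring K} {ϖ : K} {ι : Type*} [Fintype ι] [DecidableEq ι]
  {V : ι → ValuationSubring F}
  {t : ι → F} {e : ι → ℕ} {J : ι → Type*} [∀ i, Fintype (J i)]
  {r : (i : ι) → J i → Fin (e i) → F}

/-- In an adapted family the top layer `s = e i₀ - 1` of the block `i₀` is multiplied into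
`ϖ * ⋂ V i` by every `y ∈ ⋂ V i` with `v i₀ (y) ≤ v i₀ (t i₀)`. -/
theorem RamFamily.top_mul_mem (h : RamFamily O ϖ V t e r) {y : F} (hy : ∀ i, y ∈ V i)
    (i₀ : ι) (hy0 : (V i₀).valuation y ≤ (V i₀).valuation (t i₀))
    (l : Idx e J) (hl1 : l.1.1 = i₀) (hl2 : (l.1.2 : ℕ) + 1 = e l.1.1) (i : ι) :
    y * fam t e r l * (algebraMap K F ϖ)⁻¹ ∈ V i := by
  have hϖF : algebraMap K F ϖ ≠ 0 := by
    rw [Ne, map_eq_zero]; exact h.ne_zero
  have hpos : 0 < (V i).valuation (algebraMap K F ϖ) := by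
    rw [Valuation.pos_iff]; exact hϖF
  rw [← (V i).valuation_le_one_iff, map_mul, map_inv₀]
  have key : (V i).valuation (y * fam t e r l) ≤ (V i).valuation (algebraMap K F ϖ) := by
    by_cases hi : i = l.1.1
    · subst hi
      subst hl1
      unfold fam
      have hpow : (V l.1.1).valuation (t l.1.1) ^ e l.1.1 =
          (V l.1.1).valuation (t l.1.1) * (V l.1.1).valuation (t l.1.1) ^ (l.1.2 : ℕ) := by
        rw [← pow_succ', hl2]
      rw [map_mul, map_mul, map_pow, h.ram, hpow]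
      calc (V l.1.1).valuation y *
            ((V l.1.1).valuation (r l.1.1 l.2 l.1.2) * (V l.1.1).valuation (t l.1.1) ^ (l.1.2 : ℕ))
          ≤ (V l.1.1).valuation (t l.1.1) *
            (1 * (V l.1.1).valuation (t l.1.1) ^ (l.1.2 : ℕ)) := by
            gcongr
            exact ((V l.1.1).valuation_le_one_iff _).2 (h.r_mem _ _ _)
        _ = _ := by rw [one_mul]
    · rw [map_mul]
      calc (V i).valuation y * (V i).valuation (fam t e r l)
          ≤ 1 * (V i).valuation (algebraMap K F ϖ) := by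
            gcongr
            · exact ((V i).valuation_le_one_iff _).2 (hy i)
            · exact h.small l.1.1 l.2 l.1.2 i hi
        _ = _ := one_mul _
  calc (V i).valuation (y * fam t e r l) * ((V i).valuation (algebraMap K F ϖ))⁻¹
      ≤ (V i).valuation (algebraMap K F ϖ) * ((V i).valuation (algebraMap K F ϖ))⁻¹ := by
        gcongr
    _ = 1 := mul_inv_cancel₀ hpos.ne'

/-- The number of indices in the top layer of the block `i₀`. -/
theorem RamFamily.prod_top (h : RamFamily O ϖ V t e r) {M : Type*} [CommMonoid M] (c : M)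
    (i₀ : ι) :
    (∏ l : Idx e J, if (l.1.1 = i₀ ∧ (l.1.2 : ℕ) + 1 = e l.1.1) then c else 1) =
      c ^ Fintype.card (J i₀) := by
  classical
  rw [Fintype.prod_sigma]
  have h1 : ∀ a : Blk e, (∏ j : J a.1,
      if ((⟨a, j⟩ : Idx e J).1.1 = i₀ ∧ ((⟨a, j⟩ : Idx e J).1.2 : ℕ) + 1 =
        e (⟨a, j⟩ : Idx e J).1.1) then c else 1) =
      if (a.1 = i₀ ∧ (a.2 : ℕ) + 1 = e a.1) then c ^ Fintype.card (J a.1) else 1 := by
    intro a
    by_cases hc : a.1 = i₀ ∧ (a.2 : ℕ) + 1 = e a.1
    · rw [if_pos hc]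
      simp only [if_pos hc]
      rw [Finset.prod_const, Finset.card_univ]
    · rw [if_neg hc]
      simp only [if_neg hc]
      rw [Finset.prod_const_one]
  rw [Finset.prod_congr rfl fun a _ => h1 a, Fintype.prod_sigma]
  rw [Finset.prod_eq_single i₀]
  · have he := h.e_pos i₀
    rw [Finset.prod_eq_single (⟨e i₀ - 1, by omega⟩ : Fin (e i₀))]
    · rw [if_pos]
      exact ⟨rfl, by simp only; omega⟩
    · intro s _ hs
      rw [if_neg]
      rintro ⟨-, h2⟩
      apply hs
      apply Fin.ext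
      simp only at h2 ⊢
      omega
    · intro hh; exact absurd (Finset.mem_univ _) hh
  · intro i _ hi
    refine Finset.prod_eq_one fun s _ => ?_
    rw [if_neg]
    rintro ⟨h2, -⟩
    exact hi h2
  · intro hh; exact absurd (Finset.mem_univ _) hh

/-- **Column divisibility.**  If `y ∈ ⋂ V i` and `v i₀ (y) ≤ v i₀ (t i₀)`, then
`N_{F/K} y ∈ ϖ ^ #(J i₀) * O`. -/
theorem RamFamily.norm_mem_pow (h : RamFamily O ϖ V t e r)
    (hcard : ∑ i, e i * Fintype.card (J i) = Module.finrank K F)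
    {y : F} (hy : ∀ i, y ∈ V i) (i₀ : ι)
    (hy0 : (V i₀).valuation y ≤ (V i₀).valuation (t i₀)) :
    ∃ w : K, w ∈ O ∧ Algebra.norm K y = ϖ ^ Fintype.card (J i₀) * w := by
  classical
  have hcard' : Fintype.card (Idx e J) = Module.finrank K F := by
    rw [RamFamily.card_idx]; exact hcard
  by_cases hne : Nonempty (Idx e J)
  · set bas : Module.Basis (Idx e J) K F :=
      basisOfLinearIndependentOfCardEqFinrank h.linearIndependent hcard' with hbasdef
    have hbas : ⇑bas = fam t e r := coe_basisOfLinearIndependentOfCardEqFinrank _ _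
    set A := h.intMatrix bas hbas hy with hA
    have hnorm := h.norm_eq_det_intMatrix bas hbas hy
    have hϖO : ϖ ∈ O := (O.valuation_le_one_iff _).1 h.unifO.le
    have hϖF : algebraMap K F ϖ ≠ 0 := by
      rw [Ne, map_eq_zero]; exact h.ne_zero
    let cond : Idx e J → Prop := fun l => l.1.1 = i₀ ∧ (l.1.2 : ℕ) + 1 = e l.1.1
    have zmem : ∀ l, cond l → ∀ i, y * fam t e r l * (algebraMap K F ϖ)⁻¹ ∈ V i :=
      fun l hl i => h.top_mul_mem hy i₀ hy0 l hl.1 hl.2 i
    let D : Idx e J → O := fun l => if cond l then ⟨ϖ, hϖO⟩ else 1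
    let A' : Matrix (Idx e J) (Idx e J) O := fun k l =>
      if hc : cond l then
        ⟨bas.repr (y * fam t e r l * (algebraMap K F ϖ)⁻¹) k,
          h.repr_mem bas hbas (zmem l hc) k⟩
      else A k l
    have hAeq : A = A' * Matrix.diagonal D := by
      ext k l
      rw [Matrix.mul_diagonal]
      by_cases hc : cond l
      · simp only [A', D, dif_pos hc, if_pos hc]
        show bas.repr (y * fam t e r l) k =
          bas.repr (y * fam t e r l * (algebraMap K F ϖ)⁻¹) k * ϖ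
        have e1 : y * fam t e r l = ϖ • (y * fam t e r l * (algebraMap K F ϖ)⁻¹) := by
          rw [Algebra.smul_def, mul_comm (algebraMap K F ϖ), inv_mul_cancel_right₀ hϖF]
        conv_lhs => rw [e1]
        rw [map_smul, Finsupp.smul_apply, smul_eq_mul, mul_comm]
      · simp only [A', D, dif_neg hc, if_neg hc, mul_one]
    have hdet : A.det = A'.det * ⟨ϖ, hϖO⟩ ^ Fintype.card (J i₀) := by
      rw [hAeq, Matrix.det_mul, Matrix.det_diagonal]
      congr 1
      exact h.prod_top (⟨ϖ, hϖO⟩ : O) i₀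
    refine ⟨(A'.det : O), (A'.det).2, ?_⟩
    rw [hnorm, hdet, mul_comm]
    rfl
  · rw [not_nonempty_iff] at hne
    have hJ : Fintype.card (J i₀) = 0 := by
      rw [Fintype.card_eq_zero_iff]
      refine ⟨fun j => hne.false ⟨⟨i₀, ⟨0, h.e_pos i₀⟩⟩, j⟩⟩
    have hfin : ¬ Module.Finite K F := by
      intro hfin
      have := Module.finrank_pos (R := K) (M := F)
      rw [← hcard', Fintype.card_eq_zero] at this
      exact lt_irrefl _ this
    refine ⟨1, one_mem _, ?_⟩
    rw [hJ, pow_zero, one_mul, Algebra.norm_eq_one_of_not_module_finite hfin]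

end Col

section Unif

variable {F : Type*} [Field F]

/-- **Simultaneous uniformisers.**  For pairwise incomparable valuation rings `V i` and a
generator `τ ≠ 0` of the maximal ideal of `V i` there is `T` with `v i (T) = v i (τ)` which is a
unit at every other `V i'`. -/
theorem exists_unif_multi {ι : Type*} [Fintype ι] (V : ι → ValuationSubring F)
    (hinc : ∀ i i', i ≠ i' → ¬ V i ≤ V i') (i : ι) {τ : F} (hτ0 : τ ≠ 0)
    (hτ : (V i).valuation τ < 1)
    (hgen : ∀ z : F, (V i).valuation z < 1 → (V i).valuation z ≤ (V i).valuation τ) :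
    ∃ T : F, (V i).valuation T = (V i).valuation τ ∧
      ∀ i', i' ≠ i → (V i').valuation T = 1 := by
  classical
  obtain ⟨u, hu1, hu2, hu3⟩ := exists_multiplier V τ
  obtain ⟨E, hE1, hE2⟩ := exists_idem_multi V hinc i
  have hτmem : τ ∈ V i := ((V i).valuation_le_one_iff _).1 hτ.le
  have hui : (V i).valuation u = 1 := hu3 i hτmem
  have hτpos : 0 < (V i).valuation τ := by rw [Valuation.pos_iff]; exact hτ0
  have hEmem : ∀ i', E ∈ V i' := fun i' => by
    by_cases hi : i' = i
    · subst hi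
      have : E = 1 - (1 - E) := by ring
      rw [this]
      exact sub_mem (one_mem _) (((V i').valuation_le_one_iff _).1 hE1.le)
    · exact ((V i').valuation_le_one_iff _).1 (hE2 i' hi).le
  set E' := 1 - (1 - E) ^ 2 with hE'
  have h1 : (V i).valuation (1 - E') < (V i).valuation τ := by
    have e1 : 1 - E' = (1 - E) ^ 2 := by rw [hE']; ring
    rw [e1, map_pow, pow_two]
    calc (V i).valuation (1 - E) * (V i).valuation (1 - E)
        ≤ (V i).valuation τ * (V i).valuation (1 - E) := by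
          gcongr; exact hgen _ hE1
      _ < (V i).valuation τ * 1 := by gcongr
      _ = (V i).valuation τ := mul_one _
  have hE'i : (V i).valuation E' = 1 := by
    have e1 : E' = 1 - (1 - E') := by ring
    rw [e1]
    exact Valuation.map_one_sub_of_lt _ (lt_trans h1 hτ)
  have hE'2 : ∀ i', i' ≠ i → (V i').valuation E' < 1 := by
    intro i' hi
    have e1 : E' = E * (1 + (1 - E)) := by rw [hE']; ring
    rw [e1]
    exact val_mul_lt_one_left (V i') (hE2 i' hi)
      (((V i').valuation_le_one_iff _).2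
        (add_mem (one_mem _) (sub_mem (one_mem _) (hEmem i'))))
  refine ⟨E' * (τ * u) + (1 - E'), ?_, ?_⟩
  · have hA : (V i).valuation (E' * (τ * u)) = (V i).valuation τ := by
      rw [map_mul, map_mul, hE'i, hui, one_mul, mul_one]
    rw [Valuation.map_add_eq_of_lt_left _ (by rw [hA]; exact h1), hA]
  · intro i' hi
    have hB : (V i').valuation (1 - E') = 1 := Valuation.map_one_sub_of_lt _ (hE'2 i' hi)
    have hA : (V i').valuation (E' * (τ * u)) < 1 :=
      val_mul_lt_one_left (V i') (hE'2 i' hi) (((V i').valuation_le_one_iff _).2 (hu2 i'))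
    rw [add_comm, Valuation.map_add_eq_of_lt_left _ (by rw [hB]; exact hA), hB]

/-- `∏ x ^ b i = x ^ ∑ b i` for integer exponents in a commutative group with zero. -/
theorem prod_zpow_eq_zpow_sum {G₀ : Type*} [CommGroupWithZero G₀] {x : G₀} (hx : x ≠ 0)
    {ι : Type*} (s : Finset ι) (b : ι → ℤ) : ∏ i ∈ s, x ^ b i = x ^ ∑ i ∈ s, b i := by
  classical
  induction s using Finset.induction_on with
  | empty => simp
  | insert i s hi ih => rw [Finset.prod_insert hi, Finset.sum_insert hi, ih, zpow_add₀ hx]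

end Unif

section NV

variable {K F : Type*} [Field K] [Field F] [Algebra K F]

/-- The norm commutes with integer powers of nonzero elements. -/
theorem norm_zpow_of_ne_zero {x : F} (hx : x ≠ 0) (n : ℤ) :
    Algebra.norm K (x ^ n) = Algebra.norm K x ^ n := by
  have h1 : ((Units.map (Algebra.norm K : F →* K) ((Units.mk0 x hx) ^ n) : Kˣ) : K) =
      (((Units.map (Algebra.norm K : F →* K) (Units.mk0 x hx)) ^ n : Kˣ) : K) := by
    rw [map_zpow]
  rw [Units.coe_map, Units.val_zpow_eq_zpow_val, Units.val_zpow_eq_zpow_val,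
    Units.coe_map] at h1
  exact h1

variable {ι : Type*} [Fintype ι] [Nonempty ι]
    {O : ValuationSubring K} {ϖ : K} {V : ι → ValuationSubring F} {t : ι → F} {e : ι → ℕ}
    (hover : ∀ i, Over O (V i)) (hinc : ∀ i i', i ≠ i' → ¬ V i ≤ V i')
    (hϖ0 : ϖ ≠ 0) (hϖ : O.valuation ϖ < 1)
    (hgenO : ∀ a : K, O.valuation a < 1 → O.valuation a ≤ O.valuation ϖ)
    (ht : ∀ i, (V i).valuation (t i) < 1)
    (hgen : ∀ i (z : F), (V i).valuation z < 1 → (V i).valuation z ≤ (V i).valuation (t i))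
    (hram : ∀ i, (V i).valuation (algebraMap K F ϖ) = (V i).valuation (t i) ^ e i)
    {k : Type*} [Field k] {κ : ι → Type*} [∀ i, Field (κ i)] [∀ i, Algebra k (κ i)]
    [∀ i, Module.Finite k (κ i)]
    (π : O →+* k) (ρ : ∀ i, V i →+* κ i)
    (hπ : Function.Surjective π) (hρ : ∀ i, Function.Surjective (ρ i))
    (hc : ∀ i (a : O), ρ i ⟨algebraMap K F a, ((hover i) a).2 a.2⟩ = algebraMap k (κ i) (π a))
    (hdeg : ∑ i, e i * Module.finrank k (κ i) = Module.finrank K F)

include hover hinc hϖ0 hϖ hgenO ht hgen hram hπ hρ hc in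
/-- Adapted families exist (the construction used in `norm_red_ram`). -/
theorem exists_ramFamily [DecidableEq ι] :
    ∃ r : (i : ι) → Fin (Module.finrank k (κ i)) → Fin (e i) → F, RamFamily O ϖ V t e r := by
  classical
  have hker : ∀ i (z : V i), ρ i z = 0 ↔ (V i).valuation (z : F) < 1 :=
    fun i z => map_eq_zero_iff_val_lt_one (ρ i) (hρ i) z
  have hkerO : ∀ a : O, π a = 0 ↔ O.valuation (a : K) < 1 :=
    fun a => map_eq_zero_iff_val_lt_one π hπ a
  choose E hE1 hE2 using fun i => exists_idem_multi V hinc i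
  have hEmem : ∀ i i', E i ∈ V i' := fun i i' => by
    by_cases hi : i' = i
    · subst hi
      have : E i' = 1 - (1 - E i') := by ring
      rw [this]
      exact sub_mem (one_mem _) (((V i').valuation_le_one_iff _).1 (hE1 i').le)
    · exact ((V i').valuation_le_one_iff _).1 (hE2 i i' hi).le
  have hρE : ∀ i, ρ i ⟨E i, hEmem i i⟩ = 1 := fun i => by
    have h0 : ρ i (1 - ⟨E i, hEmem i i⟩) = 0 := (hker i _).2 (hE1 i)
    rw [map_sub, map_one, sub_eq_zero] at h0
    exact h0.symm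
  set N := ∑ i, e i with hNdef
  have hNe : ∀ i, e i ≤ N := fun i =>
    Finset.single_le_sum (f := e) (fun _ _ => Nat.zero_le _) (Finset.mem_univ i)
  have hEN : ∀ i i', i' ≠ i → (V i').valuation (E i ^ N) ≤ (V i').valuation (algebraMap K F ϖ) :=
    fun i i' hi => by
      rw [map_pow, hram]
      calc (V i').valuation (E i) ^ N ≤ (V i').valuation (t i') ^ N :=
            pow_le_pow_left₀ zero_le (hgen i' _ (hE2 i i' hi)) N
        _ ≤ (V i').valuation (t i') ^ e i' := pow_le_pow_of_le_one zero_le (ht i').le (hNe i')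
  let J : ι → Type := fun i => Fin (Module.finrank k (κ i))
  let b₀ : ∀ i, Module.Basis (J i) k (κ i) := fun i => Module.finBasis k (κ i)
  choose z hz using fun (i : ι) (j : J i) => hρ i (b₀ i j)
  choose G hG1 hG2 using fun (i : ι) (j : J i) => exists_lift_multi V hinc i (z i j).2
  have hρG : ∀ i j, ρ i ⟨G i j, hG1 i j i⟩ = b₀ i j := fun i j => by
    rw [← hz i j, ← sub_eq_zero, ← map_sub, hker]
    exact hG2 i j
  choose u hu1 hu2 hu3 using fun i => exists_multiplier V (t i)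
  have htmem : ∀ i, t i ∈ V i := fun i => ((V i).valuation_le_one_iff _).1 (ht i).le
  have hρu : ∀ i, ρ i ⟨u i, hu1 i i⟩ ≠ 0 := fun i h0 => by
    have := (hker i _).1 h0
    simp only at this
    rw [hu3 i i (htmem i)] at this
    exact lt_irrefl _ this
  let r : (i : ι) → J i → Fin (e i) → F := fun i j s => E i ^ N * G i j * u i ^ (s : ℕ)
  have hrmem : ∀ i j s, r i j s ∈ V i := fun i j s =>
    mul_mem (mul_mem (pow_mem (hEmem i i) _) (hG1 i j i)) (pow_mem (hu1 i i) _)
  have hρr : ∀ i j s, ρ i ⟨r i j s, hrmem i j s⟩ =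
      ρ i ⟨u i, hu1 i i⟩ ^ (s : ℕ) * b₀ i j := fun i j (s : Fin (e i)) => by
    have e1 : (⟨r i j s, hrmem i j s⟩ : V i) =
        ⟨E i, hEmem i i⟩ ^ N * ⟨G i j, hG1 i j i⟩ * ⟨u i, hu1 i i⟩ ^ (s : ℕ) := rfl
    rw [e1, map_mul, map_mul, map_pow, map_pow, hρE, one_pow, one_mul, hρG, mul_comm]
  refine ⟨r, ?_⟩
  exact
    { isOver := hover
      ne_zero := hϖ0
      unifO := hϖ
      genO := hgenO
      unif := ht
      ram := hram
      r_mem := hrmem
      small := by
        intro i j s i' hi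
        have e1 : r i j s * t i ^ (s : ℕ) = E i ^ N * (G i j * (t i * u i) ^ (s : ℕ)) := by
          simp only [r]; ring
        rw [e1, map_mul]
        calc (V i').valuation (E i ^ N) * (V i').valuation (G i j * (t i * u i) ^ (s : ℕ))
            ≤ (V i').valuation (algebraMap K F ϖ) * 1 := by
              gcongr
              · exact hEN i i' hi
              · exact ((V i').valuation_le_one_iff _).2
                  (mul_mem (hG1 i j i') (pow_mem (hu2 i i') _))
          _ = _ := mul_one _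
      indep := by
        intro i s a ha hsmall j
        have hmem : (∑ j, algebraMap K F (a j) * r i j s) ∈ V i :=
          ((V i).valuation_le_one_iff _).1 hsmall.le
        have h0 : ρ i ⟨_, hmem⟩ = 0 := (hker i ⟨_, hmem⟩).2 hsmall
        have e1 : (⟨_, hmem⟩ : V i) =
            ∑ j, (⟨algebraMap K F (a j), ((hover i) (a j)).2 (ha j)⟩ : V i) *
              ⟨r i j s, hrmem i j s⟩ := by
          apply Subtype.ext
          rw [AddSubmonoidClass.coe_finsetSum]
          simp only [MulMemClass.coe_mul]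
        rw [e1, map_sum] at h0
        have h1 : ρ i ⟨u i, hu1 i i⟩ ^ (s : ℕ) * ∑ j, π ⟨a j, ha j⟩ • b₀ i j = 0 := by
          rw [← h0, Finset.mul_sum]
          refine Finset.sum_congr rfl fun j _ => ?_
          rw [map_mul, hρr, Algebra.smul_def, ← hc]
          ring
        have h2 : ∑ j, π ⟨a j, ha j⟩ • b₀ i j = 0 :=
          (mul_eq_zero.1 h1).resolve_left (pow_ne_zero _ (hρu i))
        have := Fintype.linearIndependent_iff.1 (b₀ i).linearIndependent _ h2 j
        exact (hkerO ⟨a j, ha j⟩).1 this }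

include hover hinc hϖ0 hϖ hgenO ht hgen hram hπ hρ hc hdeg

/-- `N_{F/K}` maps `⋂ V i` into `O`. -/
theorem norm_mem_ram {y : F} (hy : ∀ i, y ∈ V i) : Algebra.norm K y ∈ O :=
  (norm_red_ram hover hinc hϖ0 hϖ hgenO ht hgen hram π ρ hπ hρ hc hdeg hy).1

/-- If `y ∈ ⋂ V i` lies in the maximal ideal of `V i₀`, then
`N_{F/K} y ∈ ϖ ^ [κ i₀ : k] * O`. -/
theorem norm_mem_pow_ram {y : F} (hy : ∀ i, y ∈ V i) (i₀ : ι)
    (hy0 : (V i₀).valuation y < 1) :
    ∃ w : K, w ∈ O ∧ Algebra.norm K y = ϖ ^ Module.finrank k (κ i₀) * w := by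
  classical
  obtain ⟨r, hfam⟩ := exists_ramFamily hover hinc hϖ0 hϖ hgenO ht hgen hram π ρ hπ hρ hc
  have hcard : ∑ i, e i * Fintype.card (Fin (Module.finrank k (κ i))) = Module.finrank K F := by
    rw [← hdeg]
    exact Finset.sum_congr rfl fun i _ => by rw [Fintype.card_fin]
  obtain ⟨w, hw, hN⟩ := hfam.norm_mem_pow hcard hy i₀ (hgen i₀ y hy0)
  refine ⟨w, hw, ?_⟩
  rw [hN, Fintype.card_fin]

/-- If `y` is a unit at every `V i`, then `N_{F/K} y` is a unit of `O`. -/
theorem val_norm_eq_one {y : F} (hy : ∀ i, (V i).valuation y = 1) :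
    O.valuation (Algebra.norm K y) = 1 := by
  have hy0 : y ≠ 0 := by
    obtain ⟨i⟩ := (inferInstance : Nonempty ι)
    intro h0
    have := hy i
    rw [h0, map_zero] at this
    exact zero_ne_one this
  have hmem : ∀ i, y ∈ V i := fun i => ((V i).valuation_le_one_iff _).1 (hy i).le
  have hmem' : ∀ i, y⁻¹ ∈ V i := fun i =>
    ((V i).valuation_le_one_iff _).1 (by rw [map_inv₀, hy i, inv_one])
  have h1 := norm_mem_ram hover hinc hϖ0 hϖ hgenO ht hgen hram π ρ hπ hρ hc hdeg hmem
  have h2 := norm_mem_ram hover hinc hϖ0 hϖ hgenO ht hgen hram π ρ hπ hρ hc hdeg hmem'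
  have e1 : Algebra.norm K y * Algebra.norm K y⁻¹ = 1 := by
    rw [← map_mul, mul_inv_cancel₀ hy0, map_one]
  have l1 := (O.valuation_le_one_iff _).2 h1
  have l2 := (O.valuation_le_one_iff _).2 h2
  have e2 : O.valuation (Algebra.norm K y) * O.valuation (Algebra.norm K y⁻¹) = 1 := by
    rw [← map_mul, e1, map_one]
  refine le_antisymm l1 ?_
  calc (1 : O.ValueGroup) = O.valuation (Algebra.norm K y) * O.valuation (Algebra.norm K y⁻¹) :=
        e2.symm
    _ ≤ O.valuation (Algebra.norm K y) * 1 := by gcongr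
    _ = _ := mul_one _

/-- **NV: the valuation of a norm.**  If `v i (y) = v i (t i) ^ a i` for all `i`, then
`v (N_{F/K} y) = v ϖ ^ ∑ i, [κ i : k] * a i`. -/
theorem val_norm_ram {y : F} (a : ι → ℤ)
    (hya : ∀ i, (V i).valuation y = (V i).valuation (t i) ^ a i) :
    O.valuation (Algebra.norm K y) =
      O.valuation ϖ ^ (∑ i, (Module.finrank k (κ i) : ℤ) * a i) := by
  classical
  obtain ⟨r, hfam⟩ := exists_ramFamily hover hinc hϖ0 hϖ hgenO ht hgen hram π ρ hπ hρ hc
  have ht0 : ∀ i, t i ≠ 0 := hfam.t_ne_zero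
  have he : ∀ i, 0 < e i := hfam.e_pos
  have htpos : ∀ i, 0 < (V i).valuation (t i) := hfam.val_t_pos
  have hvϖ : O.valuation ϖ ≠ 0 := by rw [Ne, Valuation.zero_iff]; exact hϖ0
  have hϖF : algebraMap K F ϖ ≠ 0 := by rw [Ne, map_eq_zero]; exact hϖ0
  choose T hT1 hT2 using fun i => exists_unif_multi V hinc i (ht0 i) (ht i) (hgen i)
  have hTmem : ∀ i i', T i ∈ V i' := fun i i' => by
    rw [← (V i').valuation_le_one_iff]
    by_cases hi : i' = i
    · subst hi; rw [hT1]; exact (ht i').le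
    · rw [hT2 i i' hi]
  have hT0 : ∀ i, T i ≠ 0 := fun i h0 => by
    have := hT1 i
    rw [h0, map_zero] at this
    exact (htpos i).ne this
  have hprod : ∀ (b : ι → ℤ) (i' : ι),
      (V i').valuation (∏ i, T i ^ b i) = (V i').valuation (t i') ^ b i' := by
    intro b i'
    rw [map_prod, Finset.prod_eq_single i']
    · rw [map_zpow₀, hT1]
    · intro i _ hi
      rw [map_zpow₀, hT2 i i' (Ne.symm hi), one_zpow]
    · intro hh; exact absurd (Finset.mem_univ _) hh
  choose w hwO hwN using fun i =>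
    norm_mem_pow_ram hover hinc hϖ0 hϖ hgenO ht hgen hram π ρ hπ hρ hc hdeg (hTmem i) i
      (by rw [hT1]; exact ht i)
  -- the product trick
  set P := ∏ i, T i ^ ((e i : ℕ) : ℤ) with hPdef
  have hP : ∀ i', (V i').valuation P = (V i').valuation (algebraMap K F ϖ) := by
    intro i'
    rw [hPdef, hprod, zpow_natCast, hram]
  set U := P * (algebraMap K F ϖ)⁻¹ with hUdef
  have hU : ∀ i, (V i).valuation U = 1 := by
    intro i
    rw [hUdef, map_mul, map_inv₀, hP, mul_inv_cancel₀]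
    rw [Ne, Valuation.zero_iff]; exact hϖF
  have hNU := val_norm_eq_one hover hinc hϖ0 hϖ hgenO ht hgen hram π ρ hπ hρ hc hdeg hU
  have hNP : Algebra.norm K P = ϖ ^ Module.finrank K F * Algebra.norm K U := by
    have e1 : P = algebraMap K F ϖ * U := by
      rw [hUdef, mul_comm, inv_mul_cancel_right₀ hϖF]
    conv_lhs => rw [e1]
    rw [map_mul, Algebra.norm_algebraMap]
  have hNP' : Algebra.norm K P = ϖ ^ Module.finrank K F * ∏ i, w i ^ e i := by
    rw [hPdef, map_prod]
    have e1 : ∀ i, Algebra.norm K (T i ^ ((e i : ℕ) : ℤ)) =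
        ϖ ^ (e i * Module.finrank k (κ i)) * w i ^ e i := by
      intro i
      rw [zpow_natCast, map_pow, hwN, mul_pow, ← pow_mul, mul_comm (e i)]
    rw [Finset.prod_congr rfl fun i _ => e1 i, Finset.prod_mul_distrib,
      Finset.prod_pow_eq_pow_sum, hdeg]
  have hw1 : O.valuation (∏ i, w i ^ e i) = 1 := by
    have e1 : ∏ i, w i ^ e i = Algebra.norm K U :=
      mul_left_cancel₀ (pow_ne_zero (Module.finrank K F) hϖ0) (hNP'.symm.trans hNP)
    rw [e1, hNU]
  have hwv : ∀ i, O.valuation (w i) = 1 := by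
    intro i
    by_contra hne
    have hle : ∀ j, O.valuation (w j) ≤ 1 := fun j => (O.valuation_le_one_iff _).2 (hwO j)
    have hlt : O.valuation (w i) < 1 := lt_of_le_of_ne (hle i) hne
    have hbad : O.valuation (∏ i, w i ^ e i) < 1 := by
      rw [map_prod, ← Finset.mul_prod_erase _ _ (Finset.mem_univ i)]
      have h1 : ∏ j ∈ Finset.univ.erase i, O.valuation (w j ^ e j) ≤ 1 :=
        Finset.prod_le_one' fun j _ => by
          rw [map_pow]; exact pow_le_one₀ zero_le (hle j)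
      calc O.valuation (w i ^ e i) * ∏ j ∈ Finset.univ.erase i, O.valuation (w j ^ e j)
          ≤ O.valuation (w i ^ e i) * 1 := by gcongr
        _ = O.valuation (w i) ^ e i := by rw [mul_one, map_pow]
        _ ≤ O.valuation (w i) ^ 1 := pow_le_pow_of_le_one zero_le hlt.le (he i)
        _ < 1 := by rw [pow_one]; exact hlt
    rw [hw1] at hbad
    exact lt_irrefl _ hbad
  have hNT : ∀ i, O.valuation (Algebra.norm K (T i)) =
      O.valuation ϖ ^ Module.finrank k (κ i) := by
    intro i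
    rw [hwN, map_mul, map_pow, hwv, mul_one]
  -- general `y`
  set Q := ∏ i, T i ^ a i with hQdef
  have hQ : ∀ i', (V i').valuation Q = (V i').valuation (t i') ^ a i' := hprod a
  have hQ0 : Q ≠ 0 := Finset.prod_ne_zero_iff.2 fun i _ => zpow_ne_zero _ (hT0 i)
  have hy' : ∀ i, (V i).valuation (y * Q⁻¹) = 1 := by
    intro i
    rw [map_mul, map_inv₀, hya, hQ, mul_inv_cancel₀ (zpow_ne_zero _ (htpos i).ne')]
  have hNy' := val_norm_eq_one hover hinc hϖ0 hϖ hgenO ht hgen hram π ρ hπ hρ hc hdeg hy'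
  have e1 : y = (y * Q⁻¹) * Q := by rw [inv_mul_cancel_right₀ hQ0]
  conv_lhs => rw [e1]
  rw [map_mul, map_mul, hNy', one_mul, hQdef, map_prod, map_prod]
  have e2 : ∀ i, O.valuation (Algebra.norm K (T i ^ a i)) =
      O.valuation ϖ ^ ((Module.finrank k (κ i) : ℤ) * a i) := by
    intro i
    rw [norm_zpow_of_ne_zero (hT0 i), map_zpow₀, hNT, ← zpow_natCast, ← zpow_mul]
  rw [Finset.prod_congr rfl fun i _ => e2 i]
  exact prod_zpow_eq_zpow_sum hvϖ _ _

end NV

section Dvr

variable {K F : Type*} [Field K] [Field F] [Algebra K F]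

/-- In a valuation ring whose maximal ideal is generated by `τ`, an element some power of whose
valuation is a power of `v τ` has itself valuation a power of `v τ`. -/
theorem exists_zpow_val_of_pow {V : ValuationSubring F} {τ y : F} (hτ0 : τ ≠ 0)
    (hτ : V.valuation τ < 1)
    (hgen : ∀ z : F, V.valuation z < 1 → V.valuation z ≤ V.valuation τ)
    {d : ℕ} (hd : 0 < d) {s : ℤ} (h : V.valuation y ^ d = V.valuation τ ^ s) :
    ∃ n : ℤ, V.valuation y = V.valuation τ ^ n := by
  have hτpos : 0 < V.valuation τ := by rw [Valuation.pos_iff]; exact hτ0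
  have hτne : V.valuation τ ≠ 0 := hτpos.ne'
  set a : ℤ := s / (d : ℤ) with ha
  have hdZ : (0 : ℤ) < (d : ℤ) := by exact_mod_cast hd
  obtain ⟨r, hr⟩ : ∃ r : ℕ, (r : ℤ) = s % (d : ℤ) :=
    ⟨(s % (d : ℤ)).toNat, Int.toNat_of_nonneg (Int.emod_nonneg _ hdZ.ne')⟩
  have hrd : r < d := by
    have := Int.emod_lt_of_pos s hdZ
    rw [← hr] at this
    exact_mod_cast this
  have hs : s = a * (d : ℤ) + (r : ℤ) := by
    rw [hr, ha, mul_comm]; exact (Int.mul_ediv_add_emod s d).symm
  set δ := y * (τ ^ a)⁻¹ with hδ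
  have hδd : V.valuation δ ^ d = V.valuation τ ^ r := by
    rw [hδ, map_mul, map_inv₀, map_zpow₀, mul_pow, h, hs, zpow_add₀ hτne, zpow_mul,
      zpow_natCast, zpow_natCast, inv_pow]
    rw [mul_comm ((V.valuation τ ^ a) ^ d), mul_assoc,
      mul_inv_cancel₀ (pow_ne_zero _ (zpow_ne_zero _ hτne)), mul_one]
  have hδ1 : V.valuation δ = 1 := by
    rcases lt_trichotomy (V.valuation δ) 1 with hlt | heq | hgt
    · exfalso
      have h1 : V.valuation δ ^ d ≤ V.valuation τ ^ d :=
        pow_le_pow_left₀ zero_le (hgen _ hlt) d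
      have h2 : V.valuation τ ^ d < V.valuation τ ^ r :=
        pow_lt_pow_right_of_lt_one₀ hτpos hτ hrd
      rw [hδd] at h1
      exact lt_irrefl _ (lt_of_le_of_lt h1 h2)
    · exact heq
    · exfalso
      have h1 : 1 < V.valuation δ ^ d := one_lt_pow₀ hgt hd.ne'
      have h2 : V.valuation τ ^ r ≤ 1 := pow_le_one₀ zero_le hτ.le
      rw [hδd] at h1
      exact lt_irrefl _ (lt_of_lt_of_le h1 h2)
  refine ⟨a, ?_⟩
  have e1 : y = δ * τ ^ a := by
    rw [hδ, inv_mul_cancel_right₀ (zpow_ne_zero _ hτ0)]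
  conv_lhs => rw [e1]
  rw [map_mul, hδ1, one_mul, map_zpow₀]

/-- For `y ≠ 0` algebraic over `K`, some power `v (y) ^ d` (`d ≥ 1`) is the valuation of a
nonzero element of `K`. -/
theorem exists_pow_val_eq [Algebra.IsAlgebraic K F] (V : ValuationSubring F) {y : F}
    (hy : y ≠ 0) :
    ∃ d : ℕ, 0 < d ∧ ∃ c : K, c ≠ 0 ∧ V.valuation y ^ d = V.valuation (algebraMap K F c) := by
  classical
  obtain ⟨p, hp0, hp⟩ := (Algebra.IsAlgebraic.isAlgebraic (R := K) y)
  rw [Polynomial.aeval_def, Polynomial.eval₂_eq_sum, Polynomial.sum_def] at hp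
  set g : ℕ → F := fun j => algebraMap K F (p.coeff j) * y ^ j with hg
  have hg0 : ∀ j ∈ p.support, V.valuation (g j) ≠ 0 := by
    intro j hj
    rw [Ne, Valuation.zero_iff, hg]
    simp only
    refine mul_ne_zero ?_ (pow_ne_zero _ hy)
    rw [Ne, map_eq_zero]
    exact Polynomial.mem_support_iff.1 hj
  have hsupp : p.support.Nonempty := by
    rw [Finset.nonempty_iff_ne_empty, Ne, Polynomial.support_eq_empty]; exact hp0
  obtain ⟨j₀, hj₀, hmax⟩ := Finset.exists_max_image p.support (fun j => V.valuation (g j)) hsupp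
  have hex : ∃ j₁ ∈ p.support, j₁ ≠ j₀ ∧ V.valuation (g j₁) = V.valuation (g j₀) := by
    by_contra hcon
    push Not at hcon
    have hlt : ∀ i ∈ p.support \ {j₀}, V.valuation (g i) < V.valuation (g j₀) := by
      intro i hi
      rw [Finset.mem_sdiff, Finset.mem_singleton] at hi
      exact lt_of_le_of_ne (hmax i hi.1) (hcon i hi.1 hi.2)
    have := Valuation.map_sum_eq_of_lt V.valuation hj₀ hlt
    rw [hp, map_zero] at this
    exact hg0 j₀ hj₀ this.symm
  obtain ⟨j₁, hj₁, hne, heq⟩ := hex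
  have hc₀ : p.coeff j₀ ≠ 0 := Polynomial.mem_support_iff.1 hj₀
  have hc₁ : p.coeff j₁ ≠ 0 := Polynomial.mem_support_iff.1 hj₁
  have hvy : V.valuation y ≠ 0 := by rw [Ne, Valuation.zero_iff]; exact hy
  have hv₀ : V.valuation (algebraMap K F (p.coeff j₀)) ≠ 0 := by
    rw [Ne, Valuation.zero_iff, map_eq_zero]; exact hc₀
  have hv₁ : V.valuation (algebraMap K F (p.coeff j₁)) ≠ 0 := by
    rw [Ne, Valuation.zero_iff, map_eq_zero]; exact hc₁
  simp only [hg, map_mul, map_pow] at heq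
  -- `v c₁ * v y ^ j₁ = v c₀ * v y ^ j₀`
  rcases Nat.lt_or_gt_of_ne hne with hlt | hgt
  · -- `j₁ < j₀` : `v y ^ (j₀ - j₁) = v (c₁ / c₀)`
    refine ⟨j₀ - j₁, by omega, p.coeff j₁ / p.coeff j₀, div_ne_zero hc₁ hc₀, ?_⟩
    rw [map_div₀, map_div₀, eq_div_iff hv₀]
    have e1 : V.valuation y ^ j₀ = V.valuation y ^ (j₀ - j₁) * V.valuation y ^ j₁ := by
      rw [← pow_add]; congr 1; omega
    rw [e1] at heq
    have e2 : V.valuation (algebraMap K F (p.coeff j₁)) * V.valuation y ^ j₁ =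
        (V.valuation y ^ (j₀ - j₁) * V.valuation (algebraMap K F (p.coeff j₀))) *
          V.valuation y ^ j₁ := by
      rw [heq]; ac_rfl
    exact (mul_right_cancel₀ (pow_ne_zero _ hvy) e2).symm
  · refine ⟨j₁ - j₀, by omega, p.coeff j₀ / p.coeff j₁, div_ne_zero hc₀ hc₁, ?_⟩
    rw [map_div₀, map_div₀, eq_div_iff hv₁]
    have e1 : V.valuation y ^ j₁ = V.valuation y ^ (j₁ - j₀) * V.valuation y ^ j₀ := by
      rw [← pow_add]; congr 1; omega
    rw [e1] at heq
    have e2 : V.valuation (algebraMap K F (p.coeff j₀)) * V.valuation y ^ j₀ =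
        (V.valuation y ^ (j₁ - j₀) * V.valuation (algebraMap K F (p.coeff j₁))) *
          V.valuation y ^ j₀ := by
      rw [← heq]; ac_rfl
    exact (mul_right_cancel₀ (pow_ne_zero _ hvy) e2).symm

/-- Over a valuation ring `O`, the valuation of `V` on `K` is determined by that of `O`:
units of `O` are units of `V`. -/
theorem Over_val_eq_one {O : ValuationSubring K} {V : ValuationSubring F} (h : Over O V)
    {a : K} (ha : O.valuation a = 1) : V.valuation (algebraMap K F a) = 1 := by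
  refine le_antisymm ((h.val_le_one_iff a).2 ha.le) ?_
  rw [← not_lt, h.val_lt_one_iff, ha]
  exact lt_irrefl _

/-- **Discreteness goes up.**  If the value group of `O` is generated by `v ϖ` and the maximal
ideal of `V` (over `O`, in an algebraic extension) is generated by `τ` with
`ϖ = unit * τ ^ e`, then the value group of `V` is generated by `v τ`. -/
theorem exists_zpow_val [Algebra.IsAlgebraic K F] {O : ValuationSubring K} {ϖ : K}
    {V : ValuationSubring F} {τ : F} (hover : Over O V) (hϖ0 : ϖ ≠ 0)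
    (hdvr : ∀ a : K, a ≠ 0 → ∃ n : ℤ, O.valuation a = O.valuation ϖ ^ n)
    (hτ0 : τ ≠ 0) (hτ : V.valuation τ < 1)
    (hgen : ∀ z : F, V.valuation z < 1 → V.valuation z ≤ V.valuation τ)
    {e : ℕ} (hram : V.valuation (algebraMap K F ϖ) = V.valuation τ ^ e)
    {y : F} (hy : y ≠ 0) : ∃ n : ℤ, V.valuation y = V.valuation τ ^ n := by
  obtain ⟨d, hd, c, hc0, hdc⟩ := exists_pow_val_eq (K := K) V hy
  obtain ⟨n, hn⟩ := hdvr c hc0
  have hvϖ : O.valuation ϖ ≠ 0 := by rw [Ne, Valuation.zero_iff]; exact hϖ0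
  have hunit : O.valuation (c * (ϖ ^ n)⁻¹) = 1 := by
    rw [map_mul, map_inv₀, map_zpow₀, hn, mul_inv_cancel₀ (zpow_ne_zero _ hvϖ)]
  have h1 := Over_val_eq_one hover hunit
  have hc : V.valuation (algebraMap K F c) = V.valuation τ ^ ((e : ℤ) * n) := by
    have e1 : c = (c * (ϖ ^ n)⁻¹) * ϖ ^ n := by
      rw [inv_mul_cancel_right₀ (zpow_ne_zero _ hϖ0)]
    conv_lhs => rw [e1]
    rw [map_mul, map_mul, h1, one_mul, map_zpow₀, map_zpow₀, hram, ← zpow_natCast, ← zpow_mul]
  exact exists_zpow_val_of_pow hτ0 hτ hgen hd (hdc.trans hc)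

end Dvr

section NVdvr

variable {K F : Type*} [Field K] [Field F] [Algebra K F]

/-- **NV, discrete form.**  In the setting of `norm_red_ram`, if moreover the value group of `O`
is generated by `v ϖ` and `F / K` is algebraic: every `y ≠ 0` has `v i (y) = v i (t i) ^ a i`
and `v (N_{F/K} y) = v ϖ ^ ∑ i, [κ i : k] * a i`. -/
theorem val_norm_ram_dvr [Algebra.IsAlgebraic K F] {ι : Type*} [Fintype ι] [Nonempty ι]
    {O : ValuationSubring K} {ϖ : K} {V : ι → ValuationSubring F} {t : ι → F} {e : ι → ℕ}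
    (hover : ∀ i, Over O (V i)) (hinc : ∀ i i', i ≠ i' → ¬ V i ≤ V i')
    (hϖ0 : ϖ ≠ 0) (hϖ : O.valuation ϖ < 1)
    (hdvr : ∀ a : K, a ≠ 0 → ∃ n : ℤ, O.valuation a = O.valuation ϖ ^ n)
    (ht : ∀ i, (V i).valuation (t i) < 1)
    (hgen : ∀ i (z : F), (V i).valuation z < 1 → (V i).valuation z ≤ (V i).valuation (t i))
    (hram : ∀ i, (V i).valuation (algebraMap K F ϖ) = (V i).valuation (t i) ^ e i)
    {k : Type*} [Field k] {κ : ι → Type*} [∀ i, Field (κ i)] [∀ i, Algebra k (κ i)]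
    [∀ i, Module.Finite k (κ i)]
    (π : O →+* k) (ρ : ∀ i, V i →+* κ i)
    (hπ : Function.Surjective π) (hρ : ∀ i, Function.Surjective (ρ i))
    (hc : ∀ i (a : O), ρ i ⟨algebraMap K F a, ((hover i) a).2 a.2⟩ = algebraMap k (κ i) (π a))
    (hdeg : ∑ i, e i * Module.finrank k (κ i) = Module.finrank K F)
    {y : F} (hy : y ≠ 0) :
    ∃ a : ι → ℤ, (∀ i, (V i).valuation y = (V i).valuation (t i) ^ a i) ∧
      O.valuation (Algebra.norm K y) =
        O.valuation ϖ ^ (∑ i, (Module.finrank k (κ i) : ℤ) * a i) := by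
  classical
  have hvϖ : O.valuation ϖ ≠ 0 := by rw [Ne, Valuation.zero_iff]; exact hϖ0
  have hgenO : ∀ a : K, O.valuation a < 1 → O.valuation a ≤ O.valuation ϖ := by
    intro a ha
    by_cases ha0 : a = 0
    · rw [ha0, map_zero]; exact zero_le
    obtain ⟨n, hn⟩ := hdvr a ha0
    rw [hn] at ha ⊢
    -- `v ϖ ^ n < 1` forces `n ≥ 1`
    have hn1 : 1 ≤ n := by
      by_contra hcon
      have hle : n ≤ 0 := by omega
      have : (1 : O.ValueGroup) ≤ O.valuation ϖ ^ n := by
        obtain ⟨m, hm⟩ : ∃ m : ℕ, n = -(m : ℤ) := ⟨(-n).toNat, by omega⟩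
        rw [hm, zpow_neg, zpow_natCast]
        exact (one_le_inv₀ (pow_pos (zero_lt_iff.2 hvϖ) _)).2 (pow_le_one₀ zero_le hϖ.le)
      exact lt_irrefl _ (lt_of_le_of_lt this ha)
    obtain ⟨m, hm⟩ : ∃ m : ℕ, n = (m : ℤ) + 1 := ⟨(n - 1).toNat, by omega⟩
    rw [hm, zpow_add₀ hvϖ, zpow_one, zpow_natCast]
    calc O.valuation ϖ ^ m * O.valuation ϖ ≤ 1 * O.valuation ϖ := by
          gcongr; exact pow_le_one₀ zero_le hϖ.le
      _ = _ := one_mul _
  have ht0 : ∀ i, t i ≠ 0 := by
    intro i h0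
    have h1 := hram i
    by_cases he : e i = 0
    · rw [he, pow_zero] at h1
      have := (hover i).val_lt_one_iff ϖ |>.2 hϖ
      rw [h1] at this
      exact lt_irrefl _ this
    · rw [h0, map_zero, zero_pow he, Valuation.zero_iff, map_eq_zero] at h1
      exact hϖ0 h1
  choose a ha using fun i =>
    exists_zpow_val (hover i) hϖ0 hdvr (ht0 i) (ht i) (hgen i) (hram i) hy
  exact ⟨a, ha, val_norm_ram hover hinc hϖ0 hϖ hgenO ht hgen hram π ρ hπ hρ hc hdeg a ha⟩

end NVdvr

end Fermat.Agent.S36.H253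

end
-- ===== PACK-END S36/H253/NormVal.lean

-- ===== PACK-BEGIN S36/H153/IncCusp.lean
section



/-!
# S36 engine, cell INCIDENCE (helper153) — the field `cusp_single` of `Eng.TripleCtx`
(chart / valuation-subring vocabulary) and the builder of `ChartInc` for charts

* `chartInc_of_chart` : `ChartInc` for `B' = chart R {x'}`, `B = chart R {x}` from hypotheses in
  the shape of the fields of `Eng.TripleCtx` (+ incomparability at level `q` + radicial);
* `cusp_single_of`    : the points at infinity of level `q²` lie on ONE component, from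
  "cusps are not nodes" at level `q` (`hnode`, = `CuspNode.no_node_at_infinity` in A2 vocabulary),
  the two Kronecker congruences at infinity and the comap table.

Mathlib + `S18.H138.Charts` only.
-/

set_option autoImplicit false
set_option linter.style.haveILetI false
set_option linter.unusedSectionVars false

namespace Fermat.Agent.S36.H153

open Fermat.Agent.S18.H138 (chart)

section Builder

variable {R F F' : Type*} [CommRing R] [Field F] [Algebra R F] [Field F'] [Algebra R F']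

/-- **Builder**: the chart-level incidence datum of the finite charts `chart R {x'}`,
`chart R {x}` from hypotheses in the shape of the fields of `Eng.TripleCtx`. -/
theorem chartInc_of_chart (w : R) (e : ℕ) (α β : F' →+* F) (x : F) (x' : F')
    (V₁ V₂ V₃ : ValuationSubring F) (V₁' V₂' : ValuationSubring F')
    (hR₁ : ∀ r : R, algebraMap R F r ∈ V₁) (hR₂ : ∀ r : R, algebraMap R F r ∈ V₂)
    (hR₃ : ∀ r : R, algebraMap R F r ∈ V₃)
    (hx₁ : x ∈ V₁) (hx₂ : x ∈ V₂) (hx₃ : x ∈ V₃)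
    (chart_α : ∀ b ∈ chart R ({x'} : Set F'), α b ∈ chart R ({x} : Set F))
    (chart_β : ∀ b ∈ chart R ({x'} : Set F'), β b ∈ chart R ({x} : Set F))
    (int_α : ∀ b ∈ chart R ({x} : Set F), ∃ p : Polynomial F', p.Monic ∧
      (∀ i, p.coeff i ∈ chart R ({x'} : Set F')) ∧ (p.map α).eval b = 0)
    (int_β : ∀ b ∈ chart R ({x} : Set F), ∃ p : Polynomial F', p.Monic ∧
      (∀ i, p.coeff i ∈ chart R ({x'} : Set F')) ∧ (p.map β).eval b = 0)
    (comap_α₁ : V₁.comap α = V₁') (comap_α₂ : V₂.comap α = V₁') (comap_α₃ : V₃.comap α = V₂')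
    (comap_β₁ : V₁.comap β = V₁') (comap_β₂ : V₂.comap β = V₂') (comap_β₃ : V₃.comap β = V₂')
    (α_w : α (algebraMap R F' w) = algebraMap R F w)
    (β_w : β (algebraMap R F' w) = algebraMap R F w)
    (w_mem₁ : algebraMap R F w ∈ V₁.nonunits) (w_mem₃ : algebraMap R F w ∈ V₃.nonunits)
    (qep : ∀ b : chart R ({x} : Set F), (b : F) * (algebraMap R F w)⁻¹ ∈ V₁ →
      (b : F) * (algebraMap R F w)⁻¹ ∈ V₂ → (b : F) * (algebraMap R F w)⁻¹ ∈ V₃ →
      ∃ c : chart R ({x} : Set F), b = algebraMap R (chart R ({x} : Set F)) w * c)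
    (u₁ : ∀ f ∈ V₁.nonunits, f * (algebraMap R F w)⁻¹ ∈ V₁)
    (u₂ : ∀ f ∈ V₂.nonunits, f ^ e * (algebraMap R F w)⁻¹ ∈ V₂)
    (u₃ : ∀ f ∈ V₃.nonunits, f * (algebraMap R F w)⁻¹ ∈ V₃)
    (inc₁₂ : ∃ b' ∈ chart R ({x'} : Set F'), b' ∈ V₁'.nonunits ∧ b' ∉ V₂'.nonunits)
    (inc₂₁ : ∃ b' ∈ chart R ({x'} : Set F'), b' ∈ V₂'.nonunits ∧ b' ∉ V₁'.nonunits)
    (rad_α : ∀ b ∈ chart R ({x} : Set F), ∃ k : ℕ, 0 < k ∧
      ∃ b' ∈ chart R ({x'} : Set F'), b ^ k - α b' ∈ V₃.nonunits)
    (rad_β : ∀ b ∈ chart R ({x} : Set F), ∃ k : ℕ, 0 < k ∧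
      ∃ b' ∈ chart R ({x'} : Set F'), b ^ k - β b' ∈ V₁.nonunits) :
    ChartInc w e α β (chart R ({x'} : Set F')) (chart R ({x} : Set F)) V₁ V₂ V₃ V₁' V₂' := by
  have hB₁ : ∀ b ∈ chart R ({x} : Set F), b ∈ V₁ :=
    chart_le_valuationSubring V₁ hR₁ (fun s hs => by rw [Set.mem_singleton_iff.mp hs]; exact hx₁)
  have hB₂ : ∀ b ∈ chart R ({x} : Set F), b ∈ V₂ :=
    chart_le_valuationSubring V₂ hR₂ (fun s hs => by rw [Set.mem_singleton_iff.mp hs]; exact hx₂)
  have hB₃ : ∀ b ∈ chart R ({x} : Set F), b ∈ V₃ :=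
    chart_le_valuationSubring V₃ hR₃ (fun s hs => by rw [Set.mem_singleton_iff.mp hs]; exact hx₃)
  exact
    { B_le₁ := hB₁
      B_le₂ := hB₂
      B_le₃ := hB₃
      chart_α := chart_α
      chart_β := chart_β
      int_α := int_α
      int_β := int_β
      closed' := chart_closed _
      comap_α₁ := comap_α₁
      comap_α₂ := comap_α₂
      comap_α₃ := comap_α₃
      comap_β₁ := comap_β₁
      comap_β₂ := comap_β₂
      comap_β₃ := comap_β₃
      α_w := α_w
      β_w := β_w
      w_mem₁ := w_mem₁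
      w_mem₃ := w_mem₃
      cover := cover_of_qep w e _ V₁ V₂ V₃ hB₁ hB₂ hB₃ qep u₁ u₂ u₃
      inc₁₂ := inc₁₂
      inc₂₁ := inc₂₁
      rad_α := rad_α
      rad_β := rad_β }

end Builder

section Cusp

variable {R F F' : Type*} [CommRing R] [Field F] [Algebra R F] [Field F'] [Algebra R F']

/-- **Field `cusp_single` of `Eng.TripleCtx`** (abstract form).  `Bi' ⊆ F'`, `Bi ⊆ F` the charts
at infinity of level `q`, `q²`; `u = 1/j`, `u_q = 1/j_q` at level `q`; `z = 1/(j j_q j_{q²})`.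
A prime of `Bi` containing `z` lies on at most one of the three components. -/
theorem cusp_single_of (α β : F' →+* F) (Bi' : Subalgebra R F') (Bi : Subalgebra R F)
    (V₁ V₂ V₃ : ValuationSubring F) (V₁' V₂' : ValuationSubring F')
    (hB₁ : ∀ b ∈ Bi, b ∈ V₁) (hB₂ : ∀ b ∈ Bi, b ∈ V₂) (hB₃ : ∀ b ∈ Bi, b ∈ V₃)
    (chart_α : ∀ b ∈ Bi', α b ∈ Bi) (chart_β : ∀ b ∈ Bi', β b ∈ Bi)
    (comap_α₁ : V₁.comap α = V₁') (comap_α₂ : V₂.comap α = V₁') (comap_α₃ : V₃.comap α = V₂')
    (comap_β₁ : V₁.comap β = V₁') (comap_β₂ : V₂.comap β = V₂') (comap_β₃ : V₃.comap β = V₂')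
    (u uq : F') (hu : u ∈ Bi') (huq : uq ∈ Bi') (hab : α uq = β u) (e : ℕ) (he : 0 < e)
    (h1 : uq - u ^ e ∈ V₁'.nonunits) (h2 : u - uq ^ e ∈ V₂'.nonunits)
    (hnode : ∀ N : Ideal Bi', N.IsPrime → (∀ b : Bi', (b : F') ∈ V₁'.nonunits → b ∈ N) →
      (∀ b : Bi', (b : F') ∈ V₂'.nonunits → b ∈ N) →
      (⟨u * uq, Bi'.mul_mem hu huq⟩ : Bi') ∉ N)
    (𝔪 : Ideal Bi) (h𝔪 : 𝔪.IsPrime) (z : Bi) (hz : (z : F) = α u * α uq * β uq)
    (hzm : z ∈ 𝔪) :
    ¬ ((∀ b : Bi, (b : F) ∈ V₁.nonunits → b ∈ 𝔪) ∧ (∀ b : Bi, (b : F) ∈ V₂.nonunits → b ∈ 𝔪)) ∧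
    ¬ ((∀ b : Bi, (b : F) ∈ V₁.nonunits → b ∈ 𝔪) ∧ (∀ b : Bi, (b : F) ∈ V₃.nonunits → b ∈ 𝔪)) ∧
    ¬ ((∀ b : Bi, (b : F) ∈ V₂.nonunits → b ∈ 𝔪) ∧ (∀ b : Bi, (b : F) ∈ V₃.nonunits → b ∈ 𝔪)) := by
  haveI := h𝔪
  have hB₁' : ∀ b ∈ Bi', b ∈ V₁' := fun b hb => by
    rw [← comap_α₁, ValuationSubring.mem_comap]; exact hB₁ _ (chart_α b hb)
  have hB₂' : ∀ b ∈ Bi', b ∈ V₂' := fun b hb => by
    rw [← comap_α₃, ValuationSubring.mem_comap]; exact hB₃ _ (chart_α b hb)
  have key : ∀ h : ((vprime Bi V₁ hB₁ ≤ 𝔪 ∧ vprime Bi V₂ hB₂ ≤ 𝔪) ∨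
      (vprime Bi V₁ hB₁ ≤ 𝔪 ∧ vprime Bi V₃ hB₃ ≤ 𝔪) ∨
      (vprime Bi V₂ hB₂ ≤ 𝔪 ∧ vprime Bi V₃ hB₃ ≤ 𝔪)), False := by
    intro h
    have hfin := finite_of_two_components (resHom α Bi' Bi chart_α) (resHom β Bi' Bi chart_β)
      (P1 := vprime Bi' V₁' hB₁') (P2 := vprime Bi' V₂' hB₂')
      (pFF := vprime Bi V₁ hB₁) (pmid := vprime Bi V₂ hB₂) (pVV := vprime Bi V₃ hB₃)
      (comap_vprime α Bi' Bi chart_α V₁ V₁' hB₁ hB₁' comap_α₁).ge
      (comap_vprime α Bi' Bi chart_α V₃ V₂' hB₃ hB₂' comap_α₃).ge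
      (comap_vprime α Bi' Bi chart_α V₂ V₁' hB₂ hB₁' comap_α₂).ge
      (comap_vprime β Bi' Bi chart_β V₁ V₁' hB₁ hB₁' comap_β₁).ge
      (comap_vprime β Bi' Bi chart_β V₂ V₂' hB₂ hB₂' comap_β₂).ge
      (comap_vprime β Bi' Bi chart_β V₃ V₂' hB₃ hB₂' comap_β₃).ge
      (u := ⟨u, hu⟩) (uq := ⟨uq, huq⟩) (e := e) he (Subtype.ext hab)
      (show ((⟨uq, huq⟩ - ⟨u, hu⟩ ^ e : Bi') : F') ∈ V₁'.nonunits from h1)
      (show ((⟨u, hu⟩ - ⟨uq, huq⟩ ^ e : Bi') : F') ∈ V₂'.nonunits from h2)
      (fun N hN hP1 hP2 => hnode N hN hP1 hP2) 𝔪 h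
    apply hfin
    have hzeq : z = resHom α Bi' Bi chart_α ⟨u, hu⟩ * resHom α Bi' Bi chart_α ⟨uq, huq⟩ *
        resHom β Bi' Bi chart_β ⟨uq, huq⟩ := Subtype.ext hz
    rw [← hzeq]
    exact hzm
  refine ⟨fun h => key (Or.inl h), fun h => key (Or.inr (Or.inl h)),
    fun h => key (Or.inr (Or.inr h))⟩

end Cusp

end Fermat.Agent.S36.H153

end
-- ===== PACK-END S36/H153/IncCusp.lean

-- ===== PACK-BEGIN S36/H153/ChartMap.lean
section


/-!
# S36 engine, cell INCIDENCE (helper153) — field homomorphisms map charts to charts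

`map_mem_chart` : if `α : F' → F` is `R`-linear and maps the generators `S'` into `chart R S`,
then `α (chart R S') ⊆ chart R S`.  (Mathlib + `S18.H138.Charts` only.)
-/

set_option autoImplicit false
set_option linter.style.haveILetI false
set_option linter.unusedSectionVars false

namespace Fermat.Agent.S36.H153

open Fermat.Agent.S18.H138 (chart)

section

variable {R F F' : Type*} [CommRing R] [Field F] [Algebra R F] [Field F'] [Algebra R F']

theorem map_mem_chart (α : F' →+* F) (hα : ∀ r : R, α (algebraMap R F' r) = algebraMap R F r)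
    (S' : Set F') (S : Set F) (hS : ∀ s ∈ S', α s ∈ chart R S) :
    ∀ b ∈ chart R S', α b ∈ chart R S := by
  have hadj : ∀ a ∈ Algebra.adjoin R S', α a ∈ chart R S := by
    intro a ha
    induction ha using Algebra.adjoin_induction with
    | mem y hy => exact hS y hy
    | algebraMap r => rw [hα]; exact Subalgebra.algebraMap_mem _ r
    | add y z _ _ hy hz => rw [map_add]; exact Subalgebra.add_mem _ hy hz
    | mul y z _ _ hy hz => rw [map_mul]; exact Subalgebra.mul_mem _ hy hz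
  intro b hb
  rw [Fermat.Agent.S18.H138.mem_chart] at hb
  obtain ⟨p, hp, hpb⟩ := hb
  apply chart_closed
  refine ⟨p.map ((α.comp (Algebra.adjoin R S').val.toRingHom).codRestrict (chart R S)
    (fun a => hadj a a.2)), hp.map _, ?_⟩
  rw [Polynomial.eval₂_map]
  have h1 := Polynomial.hom_eval₂ p (algebraMap (Algebra.adjoin R S') F') α b
  rw [hpb, map_zero] at h1
  rw [h1]
  rfl

/-- Special case: one generator. -/
theorem map_mem_chart_singleton (α : F' →+* F)
    (hα : ∀ r : R, α (algebraMap R F' r) = algebraMap R F r) (y : F') (S : Set F)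
    (hy : α y ∈ chart R S) : ∀ b ∈ chart R ({y} : Set F'), α b ∈ chart R S :=
  map_mem_chart α hα _ S (fun s hs => by rw [Set.mem_singleton_iff.mp hs]; exact hy)

end

end Fermat.Agent.S36.H153

end
-- ===== PACK-END S36/H153/ChartMap.lean

-- ===== PACK-BEGIN S41/H761/HKTransfer.lean
section





/-!
# `transferAlong` as the transfer of a coset system (helper761, row S41, block HK)
-/

set_option autoImplicit false

namespace Fermat.Agent.S41.H761

open CongruenceSubgroup Matrix.SpecialLinearGroup ModularForm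
open Fermat.Agent.S29.H642 Fermat.Agent.S41.Spec
open P2MW.S_ModularForm_heckeT_slash_eq_self_of_mem_Gamma0.ModularForm.HeckeSlashInvariance
open scoped MatrixGroups

section General

variable {H' G 𝒢 : Type*} [Group H'] [Group G] [Group 𝒢] {A : Type*} [AddCommGroup A]

/-- `transferAlong f` is the transfer of the coset system `ofTransfer f`. -/
theorem transferAlong_eq (f : H' →* G) (hf : Function.Injective f) [hfin : f.range.FiniteIndex]
    [Fintype (G ⧸ f.range)] (ι : G →* 𝒢) (hι : Function.Injective ι) (ψ : Additive H' →+ A) :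
    transferAlong f ψ = (IsCosetSystem.ofTransfer f hf ι hι).transfer ψ := by
  refine AddMonoidHom.ext fun g' => ?_
  obtain ⟨g, rfl⟩ : ∃ g : G, Additive.ofMul g = g' := ⟨Additive.toMul g', rfl⟩
  rw [IsCosetSystem.transfer_apply]
  unfold transferAlong
  rw [dif_pos ⟨hf, hfin⟩]
  show Multiplicative.toAdd (MonoidHom.transfer _ g) = _
  rw [transfer_eq_prod_out, toAdd_prod]
  refine Finset.sum_congr (by ext; simp) fun q _ => ?_
  show ψ (Additive.ofMul ((MonoidHom.ofInjective hf).symm _)) = _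
  congr 2
  apply hf
  rw [(IsCosetSystem.ofTransfer_act f hf ι hι q g).2]
  exact congrArg Subtype.val ((MonoidHom.ofInjective hf).apply_symm_apply _)

/-- The transfer of a restricted class is the multiplication by the index. -/
theorem transferAlong_comp (f : H' →* G) (hf : Function.Injective f) [hfin : f.range.FiniteIndex]
    (φ : Additive G →+ A) :
    transferAlong f (φ.comp (MonoidHom.toAdditive f)) = (Nat.card (G ⧸ f.range)) • φ := by
  classical
  let _ : Fintype (G ⧸ f.range) := f.range.fintypeQuotientOfFiniteIndex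
  rw [transferAlong_eq f hf (MonoidHom.id G) Function.injective_id]
  refine AddMonoidHom.ext fun g' => ?_
  obtain ⟨g, rfl⟩ : ∃ g : G, Additive.ofMul g = g' := ⟨Additive.toMul g', rfl⟩
  rw [IsCosetSystem.transfer_apply]
  have h1 : ∀ q : G ⧸ f.range,
      (φ.comp (MonoidHom.toAdditive f))
        (Additive.ofMul ((IsCosetSystem.ofTransfer f hf (MonoidHom.id G)
          Function.injective_id).coc q g)) =
      - φ (Additive.ofMul q.out) + φ (Additive.ofMul g) + φ (Additive.ofMul (g⁻¹ • q).out) := by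
    intro q
    show φ (Additive.ofMul (f ((IsCosetSystem.ofTransfer f hf (MonoidHom.id G)
      Function.injective_id).coc q g))) = _
    rw [(IsCosetSystem.ofTransfer_act f hf (MonoidHom.id G) Function.injective_id q g).2]
    simp only [ofMul_mul, ofMul_inv, map_add, map_neg]
  simp only [h1, Finset.sum_add_distrib, Finset.sum_neg_distrib, Finset.sum_const,
    Finset.card_univ]
  have h2 : ∑ q : G ⧸ f.range, φ (Additive.ofMul (g⁻¹ • q).out) =
      ∑ q : G ⧸ f.range, φ (Additive.ofMul q.out) :=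
    Equiv.sum_comp (MulAction.toPerm g⁻¹) (fun q : G ⧸ f.range => φ (Additive.ofMul q.out))
  rw [h2, Nat.card_eq_fintype_card]
  simp only [AddMonoidHom.coe_smul, Pi.smul_apply]
  abel

end General

end Fermat.Agent.S41.H761

end
-- ===== PACK-END S41/H761/HKTransfer.lean

-- ===== PACK-BEGIN S59/H105/UqSystem.lean
section





/-!
# Row S59, cell TW, leaf TW-CTRL (helper105): the operator `U_q` on `Hom(Γ₀(M), A)`, `q ∣ M`

`U_q` is the transfer of the coset system `[[1, j], [0, q]]`, `j ∈ ℤ/q` (the Prelude's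
`heckeMatrix q j`, i.e. the representatives of `ModularForm.heckeU`), from `Γ₀(M)` to `Γ₀(M)`.

* `uqSystem hq : IsCosetSystem (ιN M) (ιN M) (fun j : ZMod q => heckeRep q j)`;
* `Uq hq φ` : the operator;
* `uqSystem_transitive` : `Γ₀(M)` permutes the `q` cosets transitively.
-/

set_option autoImplicit false

namespace Fermat.Agent.S59.H105

open CongruenceSubgroup Matrix.SpecialLinearGroup ModularForm
open Fermat.Agent.S29.H642 Fermat.Agent.S41.Spec Fermat.Agent.S41.H761
open P2MW.S_ModularForm_heckeT_slash_eq_self_of_mem_Gamma0.ModularForm.HeckeSlashInvariance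
open scoped MatrixGroups

variable {M q : ℕ} [Fact q.Prime]

/-- The representatives `[[1, j], [0, q]]` of `U_q`. -/
noncomputable def uqRep (q : ℕ) (j : ZMod q) : GL (Fin 2) ℝ := heckeRep q (j : OnePoint (ZMod q))

theorem coe_uqRep (j : ZMod q) :
    ((uqRep q j : GL (Fin 2) ℝ) : Matrix (Fin 2) (Fin 2) ℝ) = !![(1 : ℝ), (j.val : ℝ); 0, (q : ℝ)] :=
  coe_heckeRep_coe j

/-- The `U_q` coset system at a level `M` divisible by `q`. -/
theorem uqSystem (hq : q ∣ M) : IsCosetSystem (ιN M) (ιN M) (uqRep q) where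
  inj := ιN_injective M
  exists_mul := by
    intro j γ
    have hM : (M : ℤ) ∣ (γ : SL(2, ℤ)) 1 0 := dvd_of_mem_Gamma0 γ.2
    have hc : (q : ℤ) ∣ (γ : SL(2, ℤ)) 1 0 := (Int.natCast_dvd_natCast.mpr hq).trans hM
    obtain ⟨g', hg', hmul⟩ := heckeMatrix_mul_of_dvd (γ : SL(2, ℤ)) hc j
    refine ⟨affinePerm (γ : SL(2, ℤ)) ((ZMod.intCast_zmod_eq_zero_iff_dvd _ _).mpr hc) j,
      ⟨g', mem_Gamma0_of_dvd (by rw [hg']; exact Dvd.dvd.mul_left hM _)⟩, ?_⟩
    rw [ιN_apply, ιN_apply]
    exact hmul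
  eq_of_mul := by
    intro i j g e
    rw [ιN_apply] at e
    have h := heckeRep_eq_of_mul (x := (i : OnePoint (ZMod q))) (y := (j : OnePoint (ZMod q))) e
    exact OnePoint.coe_injective h

variable {A : Type*} [AddCommGroup A]

/-- The operator `U_q` on `Hom(Γ₀(M), A)`, for `q ∣ M`. -/
noncomputable def Uq (hq : q ∣ M) (φ : Additive (Gamma0 M) →+ A) : Additive (Gamma0 M) →+ A :=
  (uqSystem hq).transfer φ

theorem Uq_apply (hq : q ∣ M) (φ : Additive (Gamma0 M) →+ A) (γ : Gamma0 M) :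
    Uq hq φ (Additive.ofMul γ) = ∑ j : ZMod q, φ (Additive.ofMul ((uqSystem hq).coc j γ)) := rfl

theorem Uq_add (hq : q ∣ M) (φ ψ : Additive (Gamma0 M) →+ A) :
    Uq hq (φ + ψ) = Uq hq φ + Uq hq ψ :=
  (uqSystem hq).transfer_add φ ψ

theorem Uq_comp {B : Type*} [AddCommGroup B] (hq : q ∣ M) (π : A →+ B)
    (φ : Additive (Gamma0 M) →+ A) : Uq hq (π.comp φ) = π.comp (Uq hq φ) :=
  (uqSystem hq).transfer_comp_left π φ

/-- The upper unipotent element `[[1, k], [0, 1]]` of `Γ₀(M)`. -/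
def upperUnip (M : ℕ) (k : ℤ) : Gamma0 M := mkGamma0 M 1 k 0 1 (by ring) (dvd_zero _)

theorem upperUnip_entries (M : ℕ) (k : ℤ) :
    ((upperUnip M k : Gamma0 M) : SL(2, ℤ)) 0 0 = 1 ∧
    ((upperUnip M k : Gamma0 M) : SL(2, ℤ)) 0 1 = k ∧
    ((upperUnip M k : Gamma0 M) : SL(2, ℤ)) 1 0 = 0 ∧
    ((upperUnip M k : Gamma0 M) : SL(2, ℤ)) 1 1 = 1 :=
  mkGamma0_apply M 1 k 0 1 (by ring) (dvd_zero _)

/-- `ρ_j * [[1, j' - j], [0, 1]] = ρ_{j'}`. -/
theorem uqRep_mul_upperUnip (j j' : ZMod q) :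
    uqRep q j * ιN M (upperUnip M ((j'.val : ℤ) - (j.val : ℤ))) = ιN M 1 * uqRep q j' := by
  obtain ⟨u00, u01, u10, u11⟩ := upperUnip_entries M ((j'.val : ℤ) - (j.val : ℤ))
  rw [map_one, one_mul]
  apply gl_ext <;>
    simp only [coe_mul_apply, coe_ιN_apply, coe_uqRep, Matrix.of_apply,
      Matrix.cons_val', Matrix.cons_val_zero, Matrix.cons_val_one, Matrix.cons_val_fin_one,
      u00, u01, u10, u11] <;>
    push_cast <;> ring

/-- `Γ₀(M)` acts transitively on the cosets of `U_q`. -/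
theorem uqSystem_transitive (hq : q ∣ M) (j j' : ZMod q) :
    ∃ γ : Gamma0 M, (uqSystem hq).act j γ = j' :=
  ⟨upperUnip M ((j'.val : ℤ) - (j.val : ℤ)),
    (uqSystem hq).act_eq (g := 1) (uqRep_mul_upperUnip j j')⟩

end Fermat.Agent.S59.H105

end
-- ===== PACK-END S59/H105/UqSystem.lean

-- ===== PACK-BEGIN S59/G4/H307/Desc.lean
section







/-!
# S59 / G4 / DESC (helper307): `descent : G4.DescentStatement`

Wiles' descent of the representations at a strict family of points of `T` to a representation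
over `T`, in the exact shape of `Fermat/Agent/S59/G4/Spec.lean`.

Proof: `Fermat.Agent.S59.H307.exists_glued_rep_of_hausdorff` (GLUE) with `c` = complex
conjugation (`c ≠ 1`, so `det ρ_P(c) = -1`, hence `tr ρ_P(c) = 0`), `2 ∈ Tˣ` since `p` is odd and
the points are local, and `residual_absIrr_of_baseChange` for the absolute irreducibility of the
reduction.
-/

set_option autoImplicit false
set_option linter.unusedSectionVars false
set_option linter.unusedVariables false
set_option linter.unusedSimpArgs false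
set_option linter.style.haveILetI false

noncomputable section

namespace Fermat.Agent.S59.G4.H307

open scoped TensorProduct
open Matrix Polynomial IsLocalRing
open Fermat.Agent.S31 Fermat.Agent.S59.G4 Fermat.Agent.S59.H307

/-- Complex conjugation is not the identity of `ℚ̄`. -/
theorem complexConjugation_ne_one : complexConjugation ≠ 1 := by
  intro h
  obtain ⟨x, hx⟩ := IsAlgClosed.exists_pow_nat_eq (-1 : AlgebraicClosure ℚ) (n := 2) (by norm_num)
  have h1 := complexEmbedding_complexConjugation x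
  rw [h, AlgEquiv.one_apply] at h1
  have hz : (complexEmbedding x) ^ 2 = -1 := by
    rw [← map_pow, hx, map_neg, map_one]
  obtain ⟨r, hr⟩ := Complex.conj_eq_iff_real.mp h1.symm
  rw [hr] at hz
  have h2 : (r : ℂ) ^ 2 = ((r ^ 2 : ℝ) : ℂ) := by push_cast; ring
  rw [h2] at hz
  have h3 : (r ^ 2 : ℝ) = -1 := by exact_mod_cast hz
  nlinarith [sq_nonneg r]

section TraceZero

variable {A : Type} [CommRing A] [IsLocalRing A]

/-- An involution with determinant `-1` has trace `0`. -/
theorem trace_eq_zero_of_det_eq_neg_one (ρ : GaloisRepAdic A) (c : GalQ) (hcc : c * c = 1)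
    (hdet : LinearMap.det (ρ.ρ c) = -1) : ρ.trace c = 0 := by
  obtain ⟨e, m, h⟩ := exists_realizes ρ
  rw [h.trace_eq]
  have hconj : e.conj (ρ.ρ c) =
      (e : ρ.V →ₗ[A] (Fin 2 → A)) ∘ₗ (ρ.ρ c) ∘ₗ (e.symm : (Fin 2 → A) →ₗ[A] ρ.V) := by
    rw [LinearEquiv.conj_apply, LinearMap.comp_assoc]
  have hdet' : (m c).det = -1 := by
    rw [← hdet, ← LinearMap.det_conj (ρ.ρ c) e, ← hconj, h.conj_eq, LinearMap.det_toLin']
  have hsq : m c * m c = 1 := by rw [← map_mul, hcc, map_one]
  have h00 : m c 0 0 * m c 0 0 + m c 0 1 * m c 1 0 = 1 := by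
    have := congrFun (congrFun hsq 0) 0
    rw [mat2_mul_apply] at this
    exact this
  have h01 : m c 0 0 * m c 0 1 + m c 0 1 * m c 1 1 = 0 := by
    have := congrFun (congrFun hsq 0) 1
    rw [mat2_mul_apply] at this
    exact this
  rw [Matrix.det_fin_two] at hdet'
  rw [Matrix.trace_fin_two]
  linear_combination (m c 0 0) * hdet' + (m c 1 0) * h01 - (m c 1 1) * h00

end TraceZero

section Two

/-- `2` is a unit in a local ring containing an odd prime in its maximal ideal. -/
theorem isUnit_two_of_odd_mem {O : Type*} [CommRing O] [IsLocalRing O] {p : ℕ}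
    (hp : p.Prime) (hp2 : p ≠ 2) (hpO : (p : O) ∈ maximalIdeal O) : IsUnit (2 : O) := by
  by_contra h2
  have h2m : (2 : O) ∈ maximalIdeal O := (IsLocalRing.mem_maximalIdeal _).mpr h2
  obtain ⟨k, hk⟩ := (hp.eq_two_or_odd').resolve_left hp2
  have h1 : (1 : O) = (p : O) - 2 * (k : O) := by
    rw [hk]; push_cast; ring
  have h1m : (1 : O) ∈ maximalIdeal O := by
    rw [h1]
    exact Ideal.sub_mem _ hpO (Ideal.mul_mem_right _ _ h2m)
  exact (IsLocalRing.mem_maximalIdeal _).mp h1m isUnit_one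

end Two

section Desc

variable {T : Type} [CommRing T] [IsLocalRing T]
  {ι : Type*} {O : ι → Type} [∀ i, CommRing (O i)] [∀ i, IsLocalRing (O i)]

/-- Joint injectivity of a topologically separating family on a Hausdorff local ring. -/
theorem eq_zero_of_forall_map_eq_zero [IsHausdorff (maximalIdeal T) T]
    (ψ : ∀ i, T →+* O i)
    (htop : ∀ n : ℕ, ∃ (F : Finset ι) (n' : ℕ), ∀ t : T,
      (∀ i ∈ F, ψ i t ∈ maximalIdeal (O i) ^ n') → t ∈ maximalIdeal T ^ n)
    (t : T) (ht : ∀ i, ψ i t = 0) : t = 0 := by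
  apply IsHausdorff.haus (I := maximalIdeal T) ‹_› t
  intro n
  obtain ⟨F, n', hF⟩ := htop n
  have : t ∈ maximalIdeal T ^ n :=
    hF t fun i _ => by rw [ht i]; exact Ideal.zero_mem _
  rw [SModEq.zero, smul_eq_mul, Ideal.mul_top]
  exact this

end Desc

/-- **DESC**: the descent statement of layer G4. -/
theorem descent : DescentStatement := by
  intro p _ hp2 T _ _ _ _ F hF hstrict hloc hodd habs hτ
  classical
  obtain ⟨τ, hτ⟩ := hτ
  have hmem : ∀ i : Fin F.length, F.get i ∈ F := fun i => List.get_mem F i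
  have hex : ∀ P ∈ F, ∃ i : Fin F.length, F.get i = P := fun P hP => List.get_of_mem hP
  have hlen : 0 < F.length := List.length_pos_iff.mpr hF
  let i₀ : Fin F.length := ⟨0, hlen⟩
  have hψ : ∀ i : Fin F.length, IsLocalHom (F.get i).pt.χ := fun i => hloc _ (hmem i)
  -- `2` is a unit of `T`
  have h2 : IsUnit (2 : T) := by
    have := hψ i₀
    apply isUnit_of_map_unit (F.get i₀).pt.χ
    rw [map_ofNat]
    exact isUnit_two_of_odd_mem (Fact.out : p.Prime) hp2 (F.get i₀).pt.hp
  -- topological separation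
  have htop : ∀ n : ℕ, ∃ (Fs : Finset (Fin F.length)) (n' : ℕ), ∀ t : T,
      (∀ i ∈ Fs, (F.get i).pt.χ t ∈ maximalIdeal (F.get i).pt.O ^ n') →
        t ∈ maximalIdeal T ^ n := by
    intro n
    obtain ⟨n', hn'⟩ := hstrict n
    refine ⟨Finset.univ, n', fun t ht => hn' t ?_⟩
    intro P hP
    obtain ⟨Q, hQ, rfl⟩ := List.mem_map.mp hP
    obtain ⟨i, rfl⟩ := hex Q hQ
    exact ht i (Finset.mem_univ i)
  -- traces at complex conjugation
  have htr0 : ∀ i : Fin F.length, (F.get i).ρ.trace complexConjugation = 0 := fun i =>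
    trace_eq_zero_of_det_eq_neg_one _ _ complexConjugation_mul_self
      (hodd _ (hmem i) complexConjugation complexConjugation_mul_self complexConjugation_ne_one)
  have hτ' : ∀ (i : Fin F.length) (σ : GalQ), (F.get i).pt.χ (τ σ) = (F.get i).ρ.trace σ :=
    fun i σ => hτ _ (hmem i) σ
  have hτc : τ complexConjugation = 0 :=
    eq_zero_of_forall_map_eq_zero (O := fun i : Fin F.length => (F.get i).pt.O)
      (fun i => (F.get i).pt.χ) htop _ fun i => by rw [hτ', htr0]
  have hirr : ((F.get i₀).ρ).residual.IsIrreducible :=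
    isIrreducible_of_absIrr _ (habs _ (hmem i₀))
  obtain ⟨ρ, -, hρ⟩ := exists_glued_rep_of_hausdorff (O := fun i : Fin F.length => (F.get i).pt.O)
    h2 (fun i => (F.get i).pt.χ) hψ htop (fun i => (F.get i).ρ) τ hτ' complexConjugation
    complexConjugation_mul_self hτc i₀ hirr
  refine ⟨ρ, ?_, ?_⟩
  · intro P hP σ
    obtain ⟨i, rfl⟩ := hex P hP
    rw [← charpoly_baseChangeAlong _ (hψ i), charpoly_eq_of_isEquiv (hρ i)]
  · exact residual_absIrr_of_baseChange _ (hψ i₀) ρ _ (hρ i₀) (habs _ (hmem i₀))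

end Fermat.Agent.S59.G4.H307

end
end
-- ===== PACK-END S59/G4/H307/Desc.lean

-- ===== PACK-BEGIN S30/H529/HomTate.lean
section





/-!
# S30 helper (helper529): the adic module `Hom(L/O, J)` — piece 1 of the adic module layer

`adicModule_of_torsion`: the statement of the piece `adicModule_of_torsion` of the adic module
layer (interface of helper330), proved from `TateCore` applied to the `O`-module
`X = Hom_ℤ(O, J)` (`O` acting by precomposition).
-/

set_option autoImplicit false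
set_option linter.unusedSectionVars false

namespace Fermat.Agent.S30.H529

open IsLocalRing

noncomputable section

/-- `Hom_ℤ(O, J)` with `O` acting by precomposition. -/
def PreHom (O J : Type*) [CommRing O] [AddCommGroup J] : Type _ := O →+ J

namespace PreHom

variable {O J : Type*} [CommRing O] [AddCommGroup J]

instance : AddCommGroup (PreHom O J) := inferInstanceAs (AddCommGroup (O →+ J))

/-- The underlying homomorphism. -/
def toHom (h : PreHom O J) : O →+ J := h

/-- The element attached to a homomorphism. -/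
def ofHom (h : O →+ J) : PreHom O J := h

@[simp] theorem toHom_ofHom (h : O →+ J) : toHom (ofHom h) = h := rfl

@[simp] theorem toHom_add (h h' : PreHom O J) : toHom (h + h') = toHom h + toHom h' := rfl

@[simp] theorem toHom_zero : toHom (0 : PreHom O J) = 0 := rfl

@[simp] theorem toHom_sub (h h' : PreHom O J) : toHom (h - h') = toHom h - toHom h' := rfl

@[simp] theorem toHom_neg (h : PreHom O J) : toHom (-h) = -toHom h := rfl

theorem ext {h h' : PreHom O J} (H : ∀ x, toHom h x = toHom h' x) : h = h' :=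
  AddMonoidHom.ext H

theorem ext_iff' {h h' : PreHom O J} : h = h' ↔ ∀ x, toHom h x = toHom h' x :=
  ⟨fun H _ => by rw [H], ext⟩

instance : SMul O (PreHom O J) where
  smul a h := ofHom ((toHom h).comp (AddMonoidHom.mulLeft a))

@[simp] theorem smul_apply (a : O) (h : PreHom O J) (x : O) :
    toHom (a • h) x = toHom h (a * x) := rfl

instance : Module O (PreHom O J) where
  one_smul h := ext fun x => by simp
  mul_smul a b h := ext fun x => by
    simp only [smul_apply]
    congr 1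
    ring
  smul_zero a := ext fun x => by simp
  smul_add a h h' := ext fun x => by simp
  add_smul a b h := ext fun x => by
    simp only [smul_apply, toHom_add, AddMonoidHom.add_apply, add_mul, map_add]
  zero_smul h := ext fun x => by simp

/-- Postcomposition with an endomorphism of `J`. -/
def post (φ : J →+ J) : PreHom O J →ₗ[O] PreHom O J where
  toFun h := ofHom (φ.comp (toHom h))
  map_add' h h' := ext fun x => by simp
  map_smul' a h := ext fun x => by simp

@[simp] theorem post_apply (φ : J →+ J) (h : PreHom O J) (x : O) :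
    toHom (post φ h) x = φ (toHom h x) := rfl

theorem natCast_pow_smul_apply (p n : ℕ) (h : PreHom O J) (x : O) :
    toHom (((p : O)) ^ n • h) x = p ^ n • toHom h x := by
  rw [smul_apply]
  have h1 : ((p : O)) ^ n * x = (p ^ n) • x := by
    rw [nsmul_eq_mul]
    push_cast
    rfl
  rw [h1, map_nsmul]

theorem natCast_smul_apply (n : ℕ) (h : PreHom O J) (x : O) :
    toHom ((n : O) • h) x = n • toHom h x := by
  rw [smul_apply]
  have h1 : (n : O) * x = n • x := by
    rw [nsmul_eq_mul]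
  rw [h1, map_nsmul]

end PreHom

section Finiteness

variable {O : Type*} [CommRing O] [IsDomain O] [IsDiscreteValuationRing O]
  [Finite (ResidueField O)]
variable {J : Type*} [AddCommGroup J]

theorem finite_quotient_maximalIdeal_pow (N : ℕ) : Finite (O ⧸ maximalIdeal O ^ N) := by
  have h1 : Finite (O ⧸ maximalIdeal O) := inferInstanceAs (Finite (ResidueField O))
  exact Ideal.finite_quotient_pow (IsNoetherian.noetherian _) N

/-- The `p`-torsion of `Hom(O, J)` is finite. -/
theorem preHom_torsion_finite (p : ℕ) (hp0 : (p : O) ≠ 0)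
    (hfin : {x : J | p • x = 0}.Finite) :
    {h : PreHom O J | (p : O) • h = 0}.Finite := by
  obtain ⟨N, hN⟩ := exists_pow_maximalIdeal_le_span hp0
  have hQ : Finite (O ⧸ maximalIdeal O ^ N) := finite_quotient_maximalIdeal_pow N
  have hJ : Finite {x : J // p • x = 0} := Set.finite_coe_iff.mpr hfin
  have hval : ∀ (h : PreHom O J), (p : O) • h = 0 → ∀ y : O, p • PreHom.toHom h y = 0 := by
    intro h hh y
    have h1 := PreHom.natCast_smul_apply p h y
    rw [hh] at h1
    rw [← h1]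
    rfl
  let Φ : {h : PreHom O J // (p : O) • h = 0} →
      ((O ⧸ maximalIdeal O ^ N) → {x : J // p • x = 0}) :=
    fun h q => ⟨PreHom.toHom h.1 (Quotient.out q), hval h.1 h.2 _⟩
  have hΦ : Function.Injective Φ := by
    intro h h' hh
    apply Subtype.ext
    apply PreHom.ext
    intro x
    have hx : x - Quotient.out (Ideal.Quotient.mk (maximalIdeal O ^ N) x)
        ∈ maximalIdeal O ^ N := by
      rw [← Ideal.Quotient.eq]
      exact (Quotient.out_eq _).symm
    obtain ⟨y, hy⟩ := Ideal.mem_span_singleton'.mp (hN hx)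
    have key : ∀ g : {h : PreHom O J // (p : O) • h = 0},
        PreHom.toHom g.1 x
          = PreHom.toHom g.1 (Quotient.out (Ideal.Quotient.mk (maximalIdeal O ^ N) x)) := by
      intro g
      have h2 : x = Quotient.out (Ideal.Quotient.mk (maximalIdeal O ^ N) x) + (p : O) * y := by
        rw [mul_comm, hy]
        ring
      have h3 : PreHom.toHom g.1 ((p : O) * y) = 0 := by
        have := PreHom.smul_apply (p : O) g.1 y
        rw [g.2] at this
        exact this.symm
      conv_lhs => rw [h2]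
      rw [map_add, h3, add_zero]
    rw [key h, key h']
    have := congrFun hh (Ideal.Quotient.mk (maximalIdeal O ^ N) x)
    exact congrArg Subtype.val this
  have : Finite {h : PreHom O J // (p : O) • h = 0} := Finite.of_injective Φ hΦ
  exact Set.finite_coe_iff.mp this

end Finiteness

section Main

open Fermat.Agent.S29

variable {O : Type} [CommRing O] [IsDomain O]
variable {J : Type} [AddCommGroup J] [DistribMulAction GQ J]

/-- The action of the Galois group on `Hom(O, J)`. -/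
def preHomRep (O : Type) [CommRing O] (J : Type) [AddCommGroup J] [DistribMulAction GQ J] :
    GQ →* Module.End O (PreHom O J) where
  toFun σ := PreHom.post (DistribSMul.toAddMonoidHom J σ)
  map_one' := by
    apply LinearMap.ext
    intro h
    apply PreHom.ext
    intro x
    simp
  map_mul' σ τ := by
    apply LinearMap.ext
    intro h
    apply PreHom.ext
    intro x
    simp [mul_smul]

@[simp] theorem preHomRep_apply (σ : GQ) (h : PreHom O J) (x : O) :
    PreHom.toHom (preHomRep O J σ h) x = σ • PreHom.toHom h x := rfl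

/-- The sequence attached to a homomorphism `L/O → J`. -/
def seqOfHom (p : ℕ) (f : FractionRing O →+ J) (n : ℕ) : PreHom O J :=
  PreHom.ofHom (f.comp ((AddMonoidHom.mulRight
    ((algebraMap O (FractionRing O) (p : O) ^ (n + 1))⁻¹)).comp
      (algebraMap O (FractionRing O)).toAddMonoidHom))

theorem seqOfHom_apply (p : ℕ) (f : FractionRing O →+ J) (n : ℕ) (x : O) :
    PreHom.toHom (seqOfHom p f n) x
      = f (algebraMap O (FractionRing O) x
          * (algebraMap O (FractionRing O) (p : O) ^ (n + 1))⁻¹) := rfl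

/-- **Piece 1 of the adic module layer** (statement of helper330's `adicModule_of_torsion`). -/
theorem adicModule_of_torsion
    {p : ℕ} (hp : p.Prime)
    {O : Type} [CommRing O] [IsDomain O] [IsDiscreteValuationRing O]
    [IsAdicComplete (IsLocalRing.maximalIdeal O) O] [Finite (IsLocalRing.ResidueField O)]
    [CharZero O] (hpO : (p : O) ∈ IsLocalRing.maximalIdeal O)
    {J : Type} [AddCommGroup J] [DistribMulAction GQ J]
    (hsm : ∀ x : J, ∃ L : IntermediateField ℚ (AlgebraicClosure ℚ), FiniteDimensional ℚ L ∧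
      ∀ σ : GQ, (∀ y ∈ L, σ y = y) → σ • x = x)
    (hfin : {x : J | p • x = 0}.Finite)
    {ι : Type} (t : ι → J →+ J) (ht : ∀ i (σ : GQ) (x : J), σ • t i x = t i (σ • x))
    (a : ι → O)
    (f : FractionRing O →+ J) (hf0 : ∀ r : O, f (algebraMap O (FractionRing O) r) = 0)
    (hf : f ≠ 0)
    (hfe : ∀ i x, t i (f x) = f (algebraMap O (FractionRing O) (a i) * x)) :
    ∃ (M : Type) (_ : AddCommGroup M) (_ : Module O M) (_ : Module.Free O M)
      (_ : Module.Finite O M) (ρ : GQ →* Module.End O M),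
      Nontrivial M ∧ GaloisActionIsAdicContinuous O ρ ∧
      (∀ σ : GQ, (∀ x : J, (∃ n : ℕ, p ^ n • x = 0) → σ • x = x) → ρ σ = 1) ∧
      (∀ (i : ι) (n : ℕ) (σ : GQ),
        (∀ x : J, (∃ k : ℕ, p ^ k • x = 0) → σ • σ • x - t i (σ • x) + n • x = 0) →
        ρ σ * ρ σ - a i • ρ σ + (n : O) • (1 : Module.End O M) = 0) := by
  have hϖ0 : (p : O) ≠ 0 := by exact_mod_cast hp.ne_zero
  have hpL : algebraMap O (FractionRing O) (p : O) ≠ 0 := by
    intro h
    exact hϖ0 ((IsFractionRing.injective O (FractionRing O)) (by rw [h, map_zero]))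
  -- operators
  set t' : ι → PreHom O J →ₗ[O] PreHom O J := fun i => PreHom.post (t i) with ht'
  have hρ : ∀ (σ : GQ) (i : ι) (h : PreHom O J),
      preHomRep O J σ (t' i h) = t' i (preHomRep O J σ h) := by
    intro σ i h
    apply PreHom.ext
    intro x
    simp only [ht', preHomRep_apply, PreHom.post_apply]
    exact ht i σ _
  -- finiteness
  have hX : ∃ Y : Submodule O (PreHom O J), Y.FG ∧
      ∀ h : PreHom O J, (p : O) • h = 0 → h ∈ Y := by
    have hfinX := preHom_torsion_finite (O := O) (J := J) p hϖ0 hfin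
    exact ⟨Submodule.span O {h : PreHom O J | (p : O) • h = 0},
      Submodule.fg_span hfinX, fun h hh => Submodule.subset_span hh⟩
  have hfree := tateEigen_free (t := t') (a := a) hpO hϖ0 hX
  have hfinite := tateEigen_finite (t := t') (a := a) hpO hϖ0 hX
  -- torsion values
  have hval : ∀ (k : ℕ) (h : PreHom O J), (p : O) ^ k • h = 0 →
      ∀ x : O, p ^ k • PreHom.toHom h x = 0 := by
    intro k h hh x
    rw [← PreHom.natCast_pow_smul_apply, hh]
    rfl
  refine ⟨tateEigen (p : O) t' a, inferInstance, inferInstance, hfree, hfinite,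
    tateRep (preHomRep O J) hρ, ?_, ?_, ?_, ?_⟩
  · -- nontrivial
    have hmem : seqOfHom p f ∈ tateEigen (p : O) t' a := by
      refine ⟨?_, ?_, ?_⟩
      · apply PreHom.ext
        intro x
        rw [PreHom.smul_apply, seqOfHom_apply, (algebraMap O (FractionRing O)).map_mul]
        have : algebraMap O (FractionRing O) (p : O) * algebraMap O (FractionRing O) x
            * (algebraMap O (FractionRing O) (p : O) ^ (0 + 1))⁻¹
            = algebraMap O (FractionRing O) x := by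
          field_simp
          ring
        rw [this, hf0]
        rfl
      · intro n
        apply PreHom.ext
        intro x
        rw [PreHom.smul_apply, seqOfHom_apply, seqOfHom_apply,
          (algebraMap O (FractionRing O)).map_mul]
        congr 1
        field_simp
        ring
      · intro i n
        apply PreHom.ext
        intro x
        rw [PreHom.smul_apply, seqOfHom_apply]
        simp only [ht', PreHom.post_apply]
        rw [seqOfHom_apply, hfe, (algebraMap O (FractionRing O)).map_mul, mul_assoc]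
    have hne : seqOfHom p f ≠ 0 := by
      intro h0
      apply hf
      apply AddMonoidHom.ext
      intro y
      obtain ⟨x, s, hs, rfl⟩ := IsFractionRing.div_surjective (A := O) y
      have hs0 : s ≠ 0 := nonZeroDivisors.ne_zero hs
      obtain ⟨k, c, hc⟩ := exists_dvd_pow_of_mem_maximalIdeal hpO hs0
      have h1 := congrArg (fun h => PreHom.toHom h (x * c * (p : O))) (congrFun h0 k)
      simp only [seqOfHom_apply] at h1
      have hsL : algebraMap O (FractionRing O) s ≠ 0 := by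
        intro h
        exact hs0 ((IsFractionRing.injective O (FractionRing O)) (by rw [h, map_zero]))
      have h2 : algebraMap O (FractionRing O) (x * c * (p : O))
          * (algebraMap O (FractionRing O) (p : O) ^ (k + 1))⁻¹
          = algebraMap O (FractionRing O) x / algebraMap O (FractionRing O) s := by
        have h3 : algebraMap O (FractionRing O) (p : O) ^ k
            = algebraMap O (FractionRing O) s * algebraMap O (FractionRing O) c := by
          rw [← map_pow, hc, map_mul]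
        rw [pow_succ, h3, (algebraMap O (FractionRing O)).map_mul,
          (algebraMap O (FractionRing O)).map_mul]
        have hcL : algebraMap O (FractionRing O) c ≠ 0 := by
          intro h
          rw [h, mul_zero] at h3
          exact hpL (pow_eq_zero_iff (by
            intro hk
            subst hk
            simp at h3) |>.mp h3)
        field_simp
      rw [h2] at h1
      rw [h1]
      rfl
    refine ⟨⟨⟨seqOfHom p f, hmem⟩, 0, ?_⟩⟩
    intro h
    exact hne (congrArg Subtype.val h)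
  · -- continuity
    intro n
    obtain ⟨L, hL, hLfix⟩ := exists_common_level {x : J | p ^ n • x = 0}
      (finite_torsion_pow J p hfin n) (fun x _ => hsm x)
    refine ⟨L, hL, fun σ hσ m => ?_⟩
    apply tateRep_sub_mem (preHomRep O J) hρ hpO n σ
    intro h hh
    apply PreHom.ext
    intro x
    rw [preHomRep_apply]
    exact hLfix σ hσ _ (hval n h hh x)
  · -- trivial action
    intro σ hσ
    apply tateRep_eq_one
    rintro h ⟨k, hh⟩
    apply PreHom.ext
    intro x
    rw [preHomRep_apply]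
    exact hσ _ ⟨k, hval k h hh x⟩
  · -- quadratic relations
    intro i n σ hσ
    apply tateRep_quadratic
    rintro h ⟨k, hh⟩
    apply PreHom.ext
    intro x
    have h1 := hσ (PreHom.toHom h x) ⟨k, hval k h hh x⟩
    simp only [ht', PreHom.toHom_add, PreHom.toHom_sub, AddMonoidHom.add_apply,
      AddMonoidHom.sub_apply, preHomRep_apply, PreHom.post_apply, PreHom.natCast_smul_apply,
      PreHom.toHom_zero, AddMonoidHom.zero_apply]
    exact h1

end Main

end

end Fermat.Agent.S30.H529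

end
-- ===== PACK-END S30/H529/HomTate.lean

-- ===== PACK-BEGIN S59/G4/H532/TraceFnCore.lean
section




/-!
# Row S59, layer G4, piece TRFN (helper532): the trace function with values in `T`

`traceFn_of : Lib.Cheb.Spec.ChebotarevStatement → G4.TraceFnStatement`.

For `σ ∈ GQ` and `m`, all the representations at the points of the family factor modulo the
`m`-th power of the maximal ideal through a common finite level `E` (`exists_common_level`);
by Chebotarev `σ` agrees on `E` with a Frobenius element at a prime `ℓ ∉ S`, `ℓ ∤ N`, so that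
`t := π (T_ℓ)` satisfies `χ_P t ≡ tr ρ_P σ` modulo `𝔪_P ^ m` at every point (`exists_approx`).
Strictness makes a suitable sequence of such `t` Cauchy in `T`; its limit has the exact traces
because the coefficient rings of the points are Hausdorff.
-/

set_option autoImplicit false

open Polynomial IsLocalRing

namespace Fermat.Agent.S59.G4.H532

open Fermat.Agent.S31 Fermat.Agent.S59.G4

/-- A common finite level modulo `𝔪 ^ m` for the traces of a finite family of
representations. -/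
theorem exists_common_level {p : ℕ} {T : Type} [CommRing T] (F : List (RepPoint p T)) (m : ℕ) :
    ∃ E : IntermediateField ℚ Qb, FiniteDimensional ℚ E ∧
      ∀ P ∈ F, ∀ g g' : GQ, (∀ x ∈ E, g x = g' x) →
        P.ρ.trace g - P.ρ.trace g' ∈ maximalIdeal P.pt.O ^ m := by
  induction F with
  | nil =>
    refine ⟨⊥, ?_, ?_⟩
    · infer_instance
    · intro P hP
      simp at hP
  | cons P F ih =>
    obtain ⟨E, hE, h⟩ := ih
    obtain ⟨L, hL, hP⟩ := H22.trace_congr_of_agree P.ρ m
    refine ⟨L ⊔ E, ?_, ?_⟩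
    · exact IntermediateField.finiteDimensional_sup L E
    · intro Q hQ g g' hgg'
      rcases List.mem_cons.mp hQ with rfl | hQ
      · exact hP g g' fun x hx => hgg' x ((le_sup_left : L ≤ L ⊔ E) hx)
      · exact h Q hQ g g' fun x hx => hgg' x ((le_sup_right : E ≤ L ⊔ E) hx)

/-- Approximation of the traces at all points modulo `𝔪 ^ m` by the image of a Hecke
operator. -/
theorem exists_approx (hcheb : Fermat.Agent.Lib.Cheb.Spec.ChebotarevStatement)
    {p : ℕ} {N : ℕ} [NeZero N] (S : Finset ℕ)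
    {T : Type} [CommRing T] (π : CuspForm.heckeAlgebra N 2 (↑S : Set ℕ) →+* T)
    (F : List (RepPoint p T)) (hF : ∀ P ∈ F, FrobCond P.ρ (P.pt.χ.comp π)) (σ : GQ) (m : ℕ) :
    ∃ t : T, ∀ P ∈ F, P.pt.χ t - P.ρ.trace σ ∈ maximalIdeal P.pt.O ^ m := by
  obtain ⟨E, hE, h⟩ := exists_common_level F m
  obtain ⟨ℓ, A, τ, hℓ, hℓS, hA, hτ, -, hτσ⟩ := hcheb E hE σ (S ∪ N.primeFactors)
  have hℓS' : ℓ ∉ (↑S : Set ℕ) := fun h' => hℓS (Finset.mem_union_left _ h')
  have hℓN : ¬ ℓ ∣ N := fun h' =>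
    hℓS (Finset.mem_union_right _ (Nat.mem_primeFactors.mpr ⟨hℓ, h', NeZero.ne N⟩))
  refine ⟨π (CuspForm.heckeAlgebra.T hℓ hℓN hℓS'), fun P hP => ?_⟩
  have hcp := hF P hP ℓ hℓ hℓN hℓS' A hA τ hτ
  have htr : P.ρ.trace τ = P.pt.χ (π (CuspForm.heckeAlgebra.T hℓ hℓN hℓS')) := by
    have h1 := H22.trace_pow_of_charpoly P.ρ.finrank_eq (P.ρ.ρ τ) _ _ hcp 1
    rw [pow_one] at h1
    exact h1
  rw [← htr]
  exact h P hP τ σ hτσ

/-- **TRFN**, from Chebotarev. -/
theorem traceFn_of (hcheb : Fermat.Agent.Lib.Cheb.Spec.ChebotarevStatement) :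
    TraceFnStatement := by
  intro p _ N _ S T _ _ _ _ π F hstrict hloc hF
  choose n' hn' using hstrict
  let M : ℕ → ℕ := fun n => n + ∑ k ∈ Finset.range (n + 1), n' k
  have hM1 : ∀ n, n ≤ M n := fun n => Nat.le_add_right _ _
  have hM2 : ∀ n, n' n ≤ M n := fun n =>
    (Finset.single_le_sum (f := n') (fun _ _ => Nat.zero_le _)
      (Finset.mem_range.mpr (Nat.lt_succ_self n))).trans (Nat.le_add_left _ _)
  have hMmono : Monotone M := by
    intro a b hab
    exact Nat.add_le_add hab (Finset.sum_le_sum_of_subset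
      (Finset.range_mono (Nat.succ_le_succ hab)))
  have key : ∀ σ : GQ, ∃ t : T, ∀ P ∈ F, P.pt.χ t = P.ρ.trace σ := by
    intro σ
    choose t ht using fun n => exists_approx hcheb S π F hF σ (M n)
    have hC : ∀ {m n}, m ≤ n →
        t m ≡ t n [SMOD (maximalIdeal T ^ m • ⊤ : Submodule T T)] := by
      intro m n hmn
      rw [SModEq.sub_mem, smul_eq_mul, Ideal.mul_top]
      apply hn' m
      intro Q hQ
      obtain ⟨P, hP, rfl⟩ := List.mem_map.mp hQ
      have h1 : P.pt.χ (t m) - P.ρ.trace σ ∈ maximalIdeal P.pt.O ^ n' m :=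
        Ideal.pow_le_pow_right (hM2 m) (ht m P hP)
      have h2 : P.pt.χ (t n) - P.ρ.trace σ ∈ maximalIdeal P.pt.O ^ n' m :=
        Ideal.pow_le_pow_right ((hM2 m).trans (hMmono hmn)) (ht n P hP)
      have h3 : P.pt.χ (t m - t n) =
          (P.pt.χ (t m) - P.ρ.trace σ) - (P.pt.χ (t n) - P.ρ.trace σ) := by
        rw [map_sub]; ring
      rw [h3]
      exact Ideal.sub_mem _ h1 h2
    obtain ⟨L, hL⟩ := IsPrecomplete.prec (inferInstance : IsPrecomplete (maximalIdeal T) T) hC
    refine ⟨L, fun P hP => ?_⟩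
    have hlocP : IsLocalHom P.pt.χ := hloc P hP
    rw [← sub_eq_zero]
    apply IsHausdorff.haus (inferInstance : IsHausdorff (maximalIdeal P.pt.O) P.pt.O)
    intro n
    rw [SModEq.zero, smul_eq_mul, Ideal.mul_top]
    have h1 : t n - L ∈ maximalIdeal T ^ n := by
      have := hL n
      rwa [SModEq.sub_mem, smul_eq_mul, Ideal.mul_top] at this
    have h2 : P.pt.χ (t n - L) ∈ maximalIdeal P.pt.O ^ n := by
      have hle : (maximalIdeal T ^ n).map P.pt.χ ≤ maximalIdeal P.pt.O ^ n := by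
        rw [Ideal.map_pow]
        exact Ideal.pow_right_mono (((local_hom_TFAE P.pt.χ).out 0 2).mp hlocP) n
      exact hle (Ideal.mem_map_of_mem _ h1)
    have h3 : P.pt.χ (t n) - P.ρ.trace σ ∈ maximalIdeal P.pt.O ^ n :=
      Ideal.pow_le_pow_right (hM1 n) (ht n P hP)
    have h4 : P.pt.χ L - P.ρ.trace σ =
        (P.pt.χ (t n) - P.ρ.trace σ) - P.pt.χ (t n - L) := by
      rw [map_sub]; ring
    rw [h4]
    exact Ideal.sub_mem _ h3 h2
  choose τ hτ using key
  exact ⟨τ, fun P hP σ => hτ σ P hP⟩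

end Fermat.Agent.S59.G4.H532

end
-- ===== PACK-END S59/G4/H532/TraceFnCore.lean

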