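import Mathlib
import Mathlib.AlgebraicGeometry.Morphisms.Flat
import Mathlib.AlgebraicGeometry.Morphisms.QuasiSeparated
import Mathlib.AlgebraicGeometry.FunctionField
import Fermat.Agent.Pack.S43MC.G0E10L0
import Fermat.Agent.Pack.S43MC.G0E0L0
import Fermat.Agent.Pack.S43MC.G0E10L1
import Fermat.Agent.Pack.S43MC.G0E10L3
import Fermat.Agent.Pack.S43MC.G0E6L0
import Fermat.Agent.Pack.S43MC.G0E11L3
import Fermat.Agent.Pack.S43MC.G0E11L0
import Fermat.Agent.Pack.S43MC.G0E1L0
import Fermat.Agent.Pack.S43MC.G0E11L1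
import Fermat.Agent.Pack.S43MC.G0E1L3
import Fermat.Agent.Pack.S43MC.G0E8L1
import Fermat.Agent.Pack.S43MC.G0E5L2
import Fermat.Agent.Pack.S43MC.G0E9L1
import Fermat.Agent.Pack.S43MC.G0E6L3
import Fermat.Agent.Pack.S43MC.G0E9L2
import Fermat.Agent.Pack.S43MC.G0E9L3
import Fermat.Agent.Pack.S44C.G0E14L3
import Fermat.Agent.Pack.S44C.G0E8L2
import Fermat.Agent.Pack.Fast891

-- ===== PACK-BEGIN S25/H130/SheafPB.lean
section


/-!
# S25 / AS4 (helper130): the descent statements and the chart axioms in `IsPB` form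
-/

set_option autoImplicit false
universe u
open CategoryTheory CategoryTheory.Limits AlgebraicGeometry AlgebraicGeometry.RelPicard
  NeronModelInfra GoodReductionJacobian

namespace Fermat.Agent.S25.H130

noncomputable section

variable {k : Type u} [Field k] {C : Scheme.{u}} {c : C ⟶ Spec (CommRingCat.of k)}
  {ε : SchemeHomOver (𝟙 (Spec (CommRingCat.of k))) c}

variable {T : Scheme.{u}} {t : T ⟶ Spec (CommRingCat.of k)}

/-- The three descent hypotheses of block AS4, bundled (so that they can be passed around as a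
single opaque proof). -/
structure Hyp (c : C ⟶ Spec (CommRingCat.of k))
    (ε : SchemeHomOver (𝟙 (Spec (CommRingCat.of k))) c) : Prop where
  sep : Stmt.SheafSep c ε
  glue : Stmt.SheafGlue c ε
  locP : Stmt.LocalP c ε

/-- SHEAF-SEP in `IsPB` form. -/
theorem sheafSep_isPB (hSep : Stmt.SheafSep c ε) {ι : Type u} (U : ι → T.Opens)
    (hU : (⨆ i, U i) = ⊤) (M M' : RigidifiedLineBundle c ε t)
    (h : ∀ i, ∃ (s : (U i).toScheme ⟶ Spec (CommRingCat.of k))
      (N : RigidifiedLineBundle c ε s), IsPB M (U i).ι N ∧ IsPB M' (U i).ι N) :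
    RIso M M' := by
  refine hSep t U hU M M' fun i => ?_
  obtain ⟨s, N, h1, h2⟩ := h i
  obtain rfl : (U i).ι ≫ t = s := h1.w
  exact rIso_trans ((isPB_restrictOpen M (U i)).rIso h1)
    (rIso_symm ((isPB_restrictOpen M' (U i)).rIso h2))

/-- SHEAF-GLUE in `IsPB` form. -/
theorem sheafGlue_isPB (hGlue : Stmt.SheafGlue c ε) {ι : Type u} (U : ι → T.Opens)
    (hU : (⨆ i, U i) = ⊤) (s : ∀ i, (U i).toScheme ⟶ Spec (CommRingCat.of k))
    (hs : ∀ i, (U i).ι ≫ t = s i)
    (N : ∀ i, RigidifiedLineBundle c ε (s i))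
    (h : ∀ i j, ∃ (r : (U i ⊓ U j).toScheme ⟶ Spec (CommRingCat.of k))
      (L : RigidifiedLineBundle c ε r),
      IsPB (N i) (T.homOfLE (inf_le_left : U i ⊓ U j ≤ U i)) L ∧
        IsPB (N j) (T.homOfLE (inf_le_right : U i ⊓ U j ≤ U j)) L) :
    ∃ M₀ : RigidifiedLineBundle c ε t, ∀ i, IsPB M₀ (U i).ι (N i) := by
  obtain rfl : (fun i => (U i).ι ≫ t) = s := funext hs
  obtain ⟨M₀, hM₀⟩ := hGlue t U hU N fun i j => by
    obtain ⟨r, L, h1, h2⟩ := h i j
    have e1 : IsPB (N i) (T.homOfLE (inf_le_left : U i ⊓ U j ≤ U i))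
        (restrictLE (N i) (inf_le_left : U i ⊓ U j ≤ U i)) :=
      ⟨by rw [← Category.assoc, Scheme.homOfLE_ι], rIso_refl _⟩
    have e2 : IsPB (N j) (T.homOfLE (inf_le_right : U i ⊓ U j ≤ U j))
        (restrictLE (N j) (inf_le_right : U i ⊓ U j ≤ U j)) :=
      ⟨by rw [← Category.assoc, Scheme.homOfLE_ι], rIso_refl _⟩
    obtain rfl : (U i ⊓ U j).ι ≫ t = r := by
      rw [← h1.w, ← Category.assoc, Scheme.homOfLE_ι]
    exact rIso_trans (e1.rIso h1) (rIso_symm (e2.rIso h2))
  exact ⟨M₀, fun i => (isPB_restrictOpen M₀ (U i)).of_rIso_right (hM₀ i)⟩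

/-- LOCAL-P in `IsPB` form. -/
theorem localP_isPB (hLoc : Stmt.LocalP c ε) {ι : Type u} (U : ι → T.Opens)
    (hU : (⨆ i, U i) = ⊤) (M : RigidifiedLineBundle c ε t)
    (h : ∀ i, ∃ (s : (U i).toScheme ⟶ Spec (CommRingCat.of k))
      (N : RigidifiedLineBundle c ε s), IsPB M (U i).ι N ∧ FibrewiseAlgEquivZero N) :
    FibrewiseAlgEquivZero M := by
  refine hLoc t U hU M fun i => ?_
  obtain ⟨s, N, h1, h2⟩ := h i
  obtain rfl : (U i).ι ≫ t = s := h1.w
  exact deg0_of_rIso (rIso_symm ((isPB_restrictOpen M (U i)).rIso h1)) h2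

/-- `ChartFamily.inj` for affine schemes, `IsPB` form. -/
theorem inj_spec_isPB (ch : ChartFamily c ε) (i : ch.ι) (A : CommRingCat.{u})
    {s : Spec A ⟶ Spec (CommRingCat.of k)} (N : RigidifiedLineBundle c ε s)
    {φ φ' : Spec A ⟶ Spec (CommRingCat.of (ch.R i))}
    (h : IsPB (ch.bundle i) φ N) (h' : IsPB (ch.bundle i) φ' N) : φ = φ' :=
  congrArg Subtype.val
    (inj_spec ch i A s ⟨φ, h.w⟩ ⟨φ', h'.w⟩ (rIso_trans h.2 (rIso_symm h'.2)))

/-- `ChartFamily.inj` for arbitrary schemes: classifying maps into a chart are unique. -/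
theorem inj_scheme (ch : ChartFamily c ε) (i : ch.ι) (N : RigidifiedLineBundle c ε t)
    {φ φ' : T ⟶ Spec (CommRingCat.of (ch.R i))}
    (h : IsPB (ch.bundle i) φ N) (h' : IsPB (ch.bundle i) φ' N) : φ = φ' := by
  refine Scheme.Cover.hom_ext T.affineOpenCover.openCover _ _ fun j => ?_
  have hN := isPB_mk N (T.affineOpenCover.f j) rfl
  exact inj_spec_isPB ch i _ _ (h.comp hN) (h'.comp hN)

/-- `ChartFamily.locus` for affine schemes, `IsPB` form. -/
theorem locus_spec_isPB (ch : ChartFamily c ε) (A : CommRingCat.{u})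
    {s : Spec A ⟶ Spec (CommRingCat.of k)} (M : RigidifiedLineBundle c ε s)
    (hM : FibrewiseAlgEquivZero M) :
    ∃ I : ch.ι → Ideal A, (⨆ i, I i) = ⊤ ∧
      ∀ (i : ch.ι) (A' : CommRingCat.{u}) (ψ : A ⟶ A')
        {s' : Spec A' ⟶ Spec (CommRingCat.of k)} (N : RigidifiedLineBundle c ε s'),
        IsPB M (Spec.map ψ) N →
        ((∃ φ : Spec A' ⟶ Spec (CommRingCat.of (ch.R i)), IsPB (ch.bundle i) φ N) ↔
          (I i).map ψ.hom = ⊤) := by
  obtain ⟨I, hI, hloc⟩ := locus_spec ch A s M hM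
  refine ⟨I, hI, fun i A' ψ s' N hN => ?_⟩
  have key := hloc i A' s' ⟨Spec.map ψ, hN.w⟩
  simp only [Spec.preimage_map] at key
  rw [← key]
  constructor
  · rintro ⟨φ, hφ⟩
    exact ⟨⟨φ, hφ.w⟩, rIso_trans hφ.2 (rIso_symm hN.2)⟩
  · rintro ⟨φ, hφ⟩
    exact ⟨φ.1, φ.2, rIso_trans hφ hN.2⟩

end

end Fermat.Agent.S25.H130

end
-- ===== PACK-END S25/H130/SheafPB.lean

-- ===== PACK-BEGIN S25/H551/RigLift.lean
section




/-!
# S25 / GDC: rigidifiability lifts along nilpotent thickenings (helper551)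

`rigidifiable_of_isBC`: if `G₀` over `A ⧸ I` (`I` nilpotent) is a base change of `G` over `A`
and `G₀` is rigidifiable, then `G` is rigidifiable.
-/

set_option autoImplicit false
set_option linter.style.haveILetI false

open TensorProduct

universe u

namespace Fermat.Agent.S25.H551

open Fermat.Agent.S25

section Rig

variable {k : Type u} [Field k] {B₀ B₁ B₀₁ : Type u} [CommRing B₀] [CommRing B₁]
  [CommRing B₀₁] [Algebra k B₀] [Algebra k B₁] [Algebra k B₀₁] [Algebra B₀ B₀₁]
  [Algebra B₁ B₀₁] [IsScalarTower k B₀ B₀₁] [IsScalarTower k B₁ B₀₁]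

theorem epsHom_tmul (e : B₁ →ₐ[k] k) (A : Type u) [CommRing A] [Algebra k A] (a : A) (b : B₁) :
    epsHom e A (a ⊗ₜ[k] b) = a * algebraMap k A (e b) := by
  simp [epsHom, Algebra.ofId_apply]

/-- The marked section commutes with base change. -/
theorem epsHom_tensorMapLeft (e : B₁ →ₐ[k] k) {A A' : Type u} [CommRing A] [Algebra k A]
    [CommRing A'] [Algebra k A'] (φ : A →ₐ[k] A') (r : A ⊗[k] B₁) :
    φ (epsHom e A r) = epsHom e A' (tensorMapLeft k φ B₁ r) := by
  induction r using TensorProduct.induction_on with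
  | zero => simp
  | tmul a b =>
    change φ (epsHom e A (a ⊗ₜ[k] b)) = epsHom e A' (φ a ⊗ₜ[k] b)
    rw [epsHom_tmul, epsHom_tmul, map_mul, AlgHom.commutes]
  | add x y hx hy => rw [map_add, map_add, map_add, map_add, hx, hy]

/-- Rigidifiability lifts along a nilpotent thickening `A → A ⧸ I`. -/
theorem rigidifiable_of_isBC (e : B₁ →ₐ[k] k) {A : Type u} [CommRing A] [Algebra k A]
    (I : Ideal A) {n : ℕ} (hI : I ^ n = ⊥)
    (G : CurveGD k B₀ B₁ B₀₁ A) (G₀ : CurveGD k B₀ B₁ B₀₁ (A ⧸ I))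
    (hBC : CurveGD.IsBC (Ideal.Quotient.mkₐ k I) G G₀) (hrig : G₀.Rigidifiable e) :
    G.Rigidifiable e := by
  obtain ⟨bc⟩ := hBC
  obtain ⟨bbar, hbbar⟩ := hrig
  have hsq : ∀ r, ((Ideal.Quotient.mk I).comp (epsHom e A).toRingHom) r =
      (epsHom e (A ⧸ I)).toRingHom (tensorMapLeft k (Ideal.Quotient.mkₐ k I) B₁ r) := fun r =>
    epsHom_tensorMapLeft e (Ideal.Quotient.mkₐ k I) r
  have hs : Function.Surjective (Ideal.Quotient.mk I) := Ideal.Quotient.mk_surjective
  have hn : ∀ x ∈ RingHom.ker (Ideal.Quotient.mk I), IsNilpotent x := by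
    intro x hx
    rw [Ideal.mk_ker] at hx
    refine ⟨n, ?_⟩
    have h1 : x ^ n ∈ I ^ n := Ideal.pow_mem_pow hx n
    rw [hI] at h1
    simpa using h1
  -- the composite base change `N₁ → A ⧸ I`
  let β : G.N₁ →ₛₗ[(Ideal.Quotient.mk I).comp (epsHom e A).toRingHom] (A ⧸ I) :=
    { toFun := fun z => bbar (bc.b₁ z)
      map_add' := fun x y => by rw [map_add, map_add]
      map_smul' := fun r z => by
        rw [LinearMap.map_smulₛₗ, LinearMap.map_smulₛₗ, hsq] }
  have hβ : IsSemilinearBaseChange ((Ideal.Quotient.mk I).comp (epsHom e A).toRingHom) β :=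
    isSemilinearBaseChange_comp (tensorMapLeft k (Ideal.Quotient.mkₐ k I) B₁)
      (epsHom e (A ⧸ I)).toRingHom ((Ideal.Quotient.mk I).comp (epsHom e A).toRingHom) hsq
      bc.b₁ bc.isBaseChange₁ bbar hbbar β (fun _ => rfl)
  obtain ⟨Q, iQ1, iQ2, m, hm, hinv⟩ :=
    exists_isSemilinearBaseChange (epsHom e A).toRingHom G.N₁
  haveI : Module.Invertible A Q := hinv G.invertible₁
  obtain ⟨c, hc, hcm⟩ := exists_factor (epsHom e A).toRingHom (Ideal.Quotient.mk I)
    ((Ideal.Quotient.mk I).comp (epsHom e A).toRingHom) (fun r => rfl) m hm β hβ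
  obtain ⟨ψ, hψ⟩ := exists_linearEquiv_of_semilinear (Ideal.Quotient.mk I) hs hn hc
    (isSemilinearBaseChange_ringHom (Ideal.Quotient.mk I))
  exact ⟨(ψ : Q →ₗ[A] A).comp m,
    isSemilinearBaseChange_equiv_comp' (epsHom e A).toRingHom m hm ψ⟩

end Rig

end Fermat.Agent.S25.H551

end
-- ===== PACK-END S25/H551/RigLift.lean

-- ===== PACK-BEGIN S25/H265/GDCDeg.lean
section


/-!
# S25 / helper265, block GDC, part 4: invariance of cohomology, degree and `Deg0`

Isomorphic gluing data have isomorphic `Ȟ⁰`, `Ȟ¹`, hence the same Euler characteristic and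
degree.  `CurveGD.Deg0` is invariant under isomorphism, stable under base change, and
descends along nilpotent thickenings of the base.
-/

set_option autoImplicit false
set_option linter.style.haveILetI false

universe u

open scoped TensorProduct

namespace Fermat.Agent.S25.H265

open Fermat.Agent.S25 GlueDatum

section Coh

variable {A R₀ R₁ R₀₁ : Type u} [CommRing A] [CommRing R₀] [CommRing R₁]
    [CommRing R₀₁] [Algebra A R₀] [Algebra A R₁] [Algebra A R₀₁] [Algebra R₀ R₀₁]
    [Algebra R₁ R₀₁] [IsScalarTower A R₀ R₀₁] [IsScalarTower A R₁ R₀₁]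

/-- The `A`-linear equivalence on pairs of sections induced by an isomorphism. -/
def isoPair {G G' : GlueDatum A R₀ R₁ R₀₁} (e : GlueDatum.Iso G G') :
    (G.N₀ × G.N₁) ≃ₗ[A] (G'.N₀ × G'.N₁) :=
  LinearEquiv.prodCongr (e.e₀.restrictScalars A) (e.e₁.restrictScalars A)

/-- The `A`-linear equivalence on sections over the intersection induced by an isomorphism. -/
def isoInter {G G' : GlueDatum A R₀ R₁ R₀₁} (e : GlueDatum.Iso G G') :
    G.N₀₁ ≃ₗ[A] G'.N₀₁ :=
  e.e₀₁.restrictScalars A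

theorem isoInter_cech {G G' : GlueDatum A R₀ R₁ R₀₁} (e : GlueDatum.Iso G G')
    (s : G.N₀ × G.N₁) : isoInter e (G.cech s) = G'.cech (isoPair e s) := by
  obtain ⟨s₀, s₁⟩ := s
  simp only [GlueDatum.cech, isoInter, isoPair, LinearMap.coprod_apply, LinearMap.neg_apply,
    LinearMap.restrictScalars_apply, LinearEquiv.restrictScalars_apply, map_add, map_neg,
    LinearEquiv.prodCongr_apply]
  rw [e.comm₀, e.comm₁]

/-- Isomorphic gluing data have isomorphic `Ȟ⁰`. -/
def isoH0 {G G' : GlueDatum A R₀ R₁ R₀₁} (e : GlueDatum.Iso G G') : G.H0 ≃ₗ[A] G'.H0 :=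
  LinearEquiv.ofSubmodules (isoPair e) G.H0 G'.H0 (by
    ext t
    simp only [Submodule.mem_map, LinearMap.mem_ker]
    constructor
    · rintro ⟨s, hs, rfl⟩
      change G'.cech (isoPair e s) = 0
      rw [← isoInter_cech, hs, map_zero]
    · intro ht
      refine ⟨(isoPair e).symm t, ?_, by simp⟩
      apply (isoInter e).injective
      rw [isoInter_cech, LinearEquiv.apply_symm_apply, ht, map_zero])

/-- Isomorphic gluing data have isomorphic `Ȟ¹`. -/
def isoH1 {G G' : GlueDatum A R₀ R₁ R₀₁} (e : GlueDatum.Iso G G') : G.H1 ≃ₗ[A] G'.H1 :=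
  Submodule.Quotient.equiv _ _ (isoInter e) (by
    ext t
    simp only [Submodule.mem_map, LinearMap.mem_range]
    constructor
    · rintro ⟨_, ⟨s, rfl⟩, rfl⟩
      exact ⟨isoPair e s, (isoInter_cech e s).symm⟩
    · rintro ⟨s', rfl⟩
      refine ⟨G.cech ((isoPair e).symm s'), ⟨_, rfl⟩, ?_⟩
      exact (isoInter_cech e _).trans (by rw [LinearEquiv.apply_symm_apply]))

end Coh

section Field

variable {K R₀ R₁ R₀₁ : Type u} [Field K] [CommRing R₀] [CommRing R₁]
    [CommRing R₀₁] [Algebra K R₀] [Algebra K R₁] [Algebra K R₀₁] [Algebra R₀ R₀₁]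
    [Algebra R₁ R₀₁] [IsScalarTower K R₀ R₀₁] [IsScalarTower K R₁ R₀₁]

theorem euler_eq_of_isIso {G G' : GlueDatum K R₀ R₁ R₀₁} (h : G.IsIso G') :
    G.euler = G'.euler := by
  obtain ⟨e⟩ := h
  unfold GlueDatum.euler
  rw [(isoH0 e).finrank_eq, (isoH1 e).finrank_eq]

/-- Isomorphic gluing data over a field have the same degree. -/
theorem degree_eq_of_isIso {G G' : GlueDatum K R₀ R₁ R₀₁} (h : G.IsIso G') :
    G.degree = G'.degree := by
  unfold GlueDatum.degree
  rw [euler_eq_of_isIso h]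

end Field

section Deg0

variable {k : Type u} [Field k] {B₀ B₁ B₀₁ : Type u} [CommRing B₀] [CommRing B₁] [CommRing B₀₁]
  [Algebra k B₀] [Algebra k B₁] [Algebra k B₀₁] [Algebra B₀ B₀₁] [Algebra B₁ B₀₁]
  [IsScalarTower k B₀ B₀₁] [IsScalarTower k B₁ B₀₁]
  {A A' : Type u} [CommRing A] [Algebra k A] [CommRing A'] [Algebra k A']

/-- `Deg0` is invariant under isomorphism. -/
theorem deg0_of_isIso {G G₁ : CurveGD k B₀ B₁ B₀₁ A} (e : G.IsIso G₁) (h : G.Deg0) :
    G₁.Deg0 := by
  intro K _ _ φ G' hbc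
  exact h K φ G' (curveGD_isBC_of_isIso_left (isIso_symm e) hbc)

/-- `Deg0` is stable under base change. -/
theorem deg0_of_isBC {φ : A →ₐ[k] A'} {G : CurveGD k B₀ B₁ B₀₁ A}
    {G' : CurveGD k B₀ B₁ B₀₁ A'} (hbc : CurveGD.IsBC φ G G') (h : G.Deg0) : G'.Deg0 := by
  intro K _ _ ψ G'' hbc'
  exact h K (ψ.comp φ) G'' (curveGD_isBC_comp hbc hbc')

/-- `Deg0` descends along a quotient by an ideal of nilpotent elements: if the reduction of
`G` modulo `I` has degree zero on all fibres, so has `G`. -/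
theorem deg0_of_isBC_quotient (I : Ideal A) (hI : ∀ a ∈ I, IsNilpotent a)
    {G : CurveGD k B₀ B₁ B₀₁ A} {G₀ : CurveGD k B₀ B₁ B₀₁ (A ⧸ I)}
    (hbc : CurveGD.IsBC (Ideal.Quotient.mkₐ k I) G G₀) (h : G₀.Deg0) : G.Deg0 := by
  intro K _ _ χ G' hbc'
  have hχ : ∀ a ∈ I, χ a = 0 := fun a ha => by
    obtain ⟨n, hn⟩ := hI a ha
    have : χ a ^ n = 0 := by rw [← map_pow, hn, map_zero]
    exact eq_zero_of_pow_eq_zero this
  let ψ : (A ⧸ I) →ₐ[k] K := Ideal.Quotient.liftₐ I χ hχ
  have hfac : χ = ψ.comp (Ideal.Quotient.mkₐ k I) := by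
    ext a
    exact (Ideal.Quotient.liftₐ_apply I χ hχ (Ideal.Quotient.mk I a)).symm ▸
      (Ideal.Quotient.lift_mk I (χ : A →+* K) hχ).symm
  exact h K ψ G' (curveGD_isBC_of_comp_eq hfac hbc hbc')

/-- Special case: square-zero ideals. -/
theorem deg0_of_isBC_quotient_sq (I : Ideal A) (hI : I ^ 2 = ⊥)
    {G : CurveGD k B₀ B₁ B₀₁ A} {G₀ : CurveGD k B₀ B₁ B₀₁ (A ⧸ I)}
    (hbc : CurveGD.IsBC (Ideal.Quotient.mkₐ k I) G G₀) (h : G₀.Deg0) : G.Deg0 :=
  deg0_of_isBC_quotient I (fun a ha => ⟨2, by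
    have : a ^ 2 ∈ I ^ 2 := Ideal.pow_mem_pow ha 2
    rw [hI] at this
    exact this⟩) hbc h

end Deg0

end Fermat.Agent.S25.H265

end
-- ===== PACK-END S25/H265/GDCDeg.lean

-- ===== PACK-BEGIN S25/H250/TwistEuler.lean
section
/-
S25, block DEGREE (squad S25/S10), leaf D4 (helper250): twists.
Exact statements of `H10/DegreeSkel.lean`:

* `euler_twistE`  : `χ(G(n)) = χ(G) + n d`;
* `degree_twistE` : `deg G(n) = deg G + n d`;
* `chartDeg_pos`  : `0 < d`.
-/





set_option autoImplicit false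
set_option linter.style.haveILetI false
set_option linter.unusedSectionVars false

universe u

open scoped TensorProduct
open Polynomial

namespace Fermat.Agent.S25.H250

open Fermat.Agent.S25 Fermat.Agent.S25.H10

section Artin

variable {K : Type u} [Field K] {R : Type u} [CommRing R] [Algebra K R]

/-- The range of multiplication by `t` is `(t) • ⊤`. -/
theorem range_lsmul_eq (t : R) (N : Type u) [AddCommGroup N] [Module R N] [Module K N]
    [IsScalarTower K R N] :
    LinearMap.range (Algebra.lsmul K K N t) =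
      ((Ideal.span {t} : Ideal R) • (⊤ : Submodule R N)).restrictScalars K := by
  ext n
  rw [Submodule.restrictScalars_mem, Submodule.ideal_span_singleton_smul,
    Submodule.mem_smul_pointwise_iff_exists]
  simp only [LinearMap.mem_range, Algebra.lsmul_coe, Submodule.mem_top, true_and]

/-- `N / t N ≃ (R / t) ⊗ N`, `K`-linearly. -/
noncomputable def quotientLsmulEquiv (t : R) (N : Type u) [AddCommGroup N] [Module R N]
    [Module K N] [IsScalarTower K R N] :
    (N ⧸ LinearMap.range (Algebra.lsmul K K N t)) ≃ₗ[K] ((R ⧸ Ideal.span {t}) ⊗[R] N) :=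
  (Submodule.quotEquivOfEq _ _ (range_lsmul_eq (K := K) t N)).trans
    ((Submodule.Quotient.restrictScalarsEquiv K
      ((Ideal.span {t} : Ideal R) • (⊤ : Submodule R N))).trans
      ((TensorProduct.quotTensorEquivQuotSMul N (Ideal.span {t} : Ideal R)).restrictScalars
        K).symm)

/-- `R / t R ≃ R / (t)`, `K`-linearly (operator quotient versus ring quotient). -/
noncomputable def quotientLsmulEquivSelf (t : R) :
    (R ⧸ LinearMap.range (Algebra.lsmul K K R t)) ≃ₗ[K] (R ⧸ Ideal.span {t}) :=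
  (quotientLsmulEquiv (K := K) t R).trans
    ((TensorProduct.rid R (R ⧸ Ideal.span {t})).restrictScalars K)

/-- For an invertible module `N` over a `K`-algebra `R` and `t ∈ R` with `R / t` finite over
the field `K`: `dim N / t N = dim R / t`. -/
theorem finrank_quotient_lsmul (t : R) [Module.Finite K (R ⧸ Ideal.span {t})]
    (N : Type u) [AddCommGroup N] [Module R N] [Module K N] [IsScalarTower K R N]
    [Module.Invertible R N] :
    Module.finrank K (N ⧸ LinearMap.range (Algebra.lsmul K K N t)) =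
      Module.finrank K (R ⧸ Ideal.span {t}) := by
  haveI : IsArtinianRing (R ⧸ Ideal.span {t}) := IsArtinianRing.of_finite K _
  haveI : Module.Free (R ⧸ Ideal.span {t}) ((R ⧸ Ideal.span {t}) ⊗[R] N) := inferInstance
  obtain ⟨e1⟩ := (Module.Invertible.free_iff_linearEquiv
    (R := R ⧸ Ideal.span {t}) (M := (R ⧸ Ideal.span {t}) ⊗[R] N)).1 inferInstance
  rw [(quotientLsmulEquiv (K := K) t N).finrank_eq, (e1.restrictScalars K).finrank_eq]

end Artin

section Chart

variable {k : Type u} [Field k] {B₀ B₁ B₀₁ : Type u} [CommRing B₀] [CommRing B₁] [CommRing B₀₁]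
  [Algebra k B₀] [Algebra k B₁] [Algebra k B₀₁] [Algebra B₀ B₀₁] [Algebra B₁ B₀₁]
  [IsScalarTower k B₀ B₀₁] [IsScalarTower k B₁ B₀₁]
  {x : B₀} {y : B₁} {e : B₁ →ₐ[k] k}

/-- `B₁ / (y)` is finite-dimensional over `k`. -/
theorem finite_quotient_y (hC : IsCurveChart k B₀ B₁ B₀₁ x y e) :
    Module.Finite k (B₁ ⧸ Ideal.span {y}) := by
  haveI := hC.isDomain₁
  obtain ⟨n, φ, hφ⟩ := exists_equivariant_equiv (aeval_y_injective hC) hC.finite₁
  have hproj : IsFGProj (Algebra.lsmul k k B₁ y) := by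
    refine ⟨n, φ.toLinearMap, φ.symm.toLinearMap, ?_, ?_, ?_⟩
    · apply LinearMap.ext; intro v; simp
    · intro v
      exact hφ v
    · intro w
      simp only [LinearEquiv.coe_coe, Algebra.lsmul_coe, smul_eq_mul]
      rw [LinearEquiv.symm_apply_eq, hφ, LinearEquiv.apply_symm_apply]
  have h1 := (quotient_pow_finite_projective hproj 1).1
  rw [pow_one] at h1
  exact Module.Finite.equiv (quotientLsmulEquivSelf (K := k) y)

/-- D4-c. `d > 0`. -/
theorem chartDeg_pos (hC : IsCurveChart k B₀ B₁ B₀₁ x y e) : 0 < chartDeg k y := by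
  haveI := finite_quotient_y hC
  haveI : Nontrivial (B₁ ⧸ Ideal.span {y}) := by
    apply Ideal.Quotient.nontrivial_iff.2
    rw [Ne, Ideal.span_singleton_eq_top]
    intro hu
    have hu' : IsUnit (e y) := hu.map e
    rw [hC.e_y] at hu'
    exact not_isUnit_zero hu'
  exact Module.finrank_pos

/-- `dim_K (K ⊗ B₁) / (1 ⊗ y) = d`. -/
theorem finrank_tensor_quotient_y (hC : IsCurveChart k B₀ B₁ B₀₁ x y e) (K : Type u) [Field K]
    [Algebra k K] :
    Module.Finite K ((K ⊗[k] B₁) ⧸ Ideal.span {(1 : K) ⊗ₜ[k] y}) ∧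
      Module.finrank K ((K ⊗[k] B₁) ⧸ Ideal.span {(1 : K) ⊗ₜ[k] y}) = chartDeg k y := by
  haveI := finite_quotient_y hC
  have hI : (Ideal.span {y} : Ideal B₁).map
      (Algebra.TensorProduct.includeRight (R := k) (A := K) (B := B₁)) =
      Ideal.span {(1 : K) ⊗ₜ[k] y} := by
    rw [Ideal.map_span, Set.image_singleton]
    rfl
  have e1 := (Algebra.TensorProduct.tensorQuotientEquiv (R := k) K B₁ K
    (Ideal.span {y} : Ideal B₁)).toLinearEquiv
  rw [hI] at e1
  refine ⟨Module.Finite.equiv e1, ?_⟩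
  rw [← e1.finrank_eq, Module.finrank_baseChange]
  rfl

/-- `dim_K N₁ / (1 ⊗ y) N₁ = d` for every gluing datum over a field. -/
theorem finrank_quotient_Y1 (hC : IsCurveChart k B₀ B₁ B₀₁ x y e) {K : Type u} [Field K]
    [Algebra k K] (G : CurveGD k B₀ B₁ B₀₁ K) :
    Module.finrank K (G.N₁ ⧸ LinearMap.range (chartCechOps hC G).Y1) = chartDeg k y := by
  obtain ⟨hfin, hrank⟩ := finrank_tensor_quotient_y hC K
  haveI := hfin
  haveI := G.invertible₁
  rw [← hrank]
  exact finrank_quotient_lsmul (K := K) ((1 : K) ⊗ₜ[k] y) G.N₁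

/-- Euler characteristic of a linear map (kernel minus cokernel). -/
noncomputable def eulerMap {K : Type u} [Field K] {M N : Type u} [AddCommGroup M]
    [AddCommGroup N] [Module K M] [Module K N] (f : M →ₗ[K] N) : ℤ :=
  (Module.finrank K (LinearMap.ker f) : ℤ) - (Module.finrank K (N ⧸ LinearMap.range f) : ℤ)

theorem euler_eq_eulerMap {K : Type u} [Field K] [Algebra k K] (G : CurveGD k B₀ B₁ B₀₁ K) :
    G.euler = eulerMap G.cech := rfl

/-- D4 core for the adapter: `χ(d m) = χ(d 0) + m d`. -/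
theorem eulerMap_d (hC : IsCurveChart k B₀ B₁ B₀₁ x y e) {K : Type u} [Field K]
    [Algebra k K] (G : CurveGD k B₀ B₁ B₀₁ K) (m : ℕ) :
    eulerMap ((chartCechOps hC G).d m) = eulerMap ((chartCechOps hC G).d 0) + m * chartDeg k y := by
  haveI : FiniteDimensional K (LinearMap.ker ((chartCechOps hC G).d m)) := by
    have h := _root_.Fermat.Agent.S25.H250.finite_H0 hC (twistE x y hC.mul_eq_one G (m : ℤ))
    have h2 := chartCechOps_twistE_cech hC G m
    have h3 : ((twistE x y hC.mul_eq_one G (m : ℤ)).H0 : Submodule K (G.N₀ × G.N₁)) =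
        LinearMap.ker ((chartCechOps hC G).d m) := congrArg LinearMap.ker h2
    rw [← h3]
    exact h
  haveI : FiniteDimensional K (G.N₀₁ ⧸ LinearMap.range ((chartCechOps hC G).d 0)) := by
    rw [chartCechOps_d_zero]
    exact _root_.Fermat.Agent.S25.H250.finite_H1 hC G
  have key := finrank_twist (chartCechOps hC G) (isFGProj_Y1 hC G) m
  rw [finrank_quotient_Y1 hC G] at key
  unfold eulerMap
  have key' : ((Module.finrank K (LinearMap.ker ((chartCechOps hC G).d m)) : ℤ)) +
      (Module.finrank K (G.N₀₁ ⧸ LinearMap.range ((chartCechOps hC G).d 0)) : ℤ) =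
      (Module.finrank K (LinearMap.ker ((chartCechOps hC G).d 0)) : ℤ) + m * chartDeg k y +
        (Module.finrank K (G.N₀₁ ⧸ LinearMap.range ((chartCechOps hC G).d m)) : ℤ) := by
    exact_mod_cast key
  linarith

/-- D4-a. `χ(G(n)) = χ(G) + n d`. -/
theorem euler_twistE (hC : IsCurveChart k B₀ B₁ B₀₁ x y e) {K : Type u} [Field K]
    [Algebra k K] (G : CurveGD k B₀ B₁ B₀₁ K) (n : ℤ) :
    (twistE x y hC.mul_eq_one G n).euler = G.euler + n * chartDeg k y := by
  have hG : G.euler = eulerMap ((chartCechOps hC G).d 0) := by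
    rw [chartCechOps_d_zero]; rfl
  obtain ⟨m, rfl | rfl⟩ := Int.eq_nat_or_neg n
  · -- `n = m ≥ 0`
    have h1 : (twistE x y hC.mul_eq_one G (m : ℤ)).euler =
        eulerMap ((chartCechOps hC G).d m) := by
      have h2 := chartCechOps_twistE_cech hC G m
      exact congrArg eulerMap h2
    rw [h1, hG, eulerMap_d hC G m]
  · -- `n = -m ≤ 0`
    have h0 := eulerMap_d hC (twistE x y hC.mul_eq_one G (-(m : ℤ))) m
    have h1 : eulerMap ((chartCechOps hC (twistE x y hC.mul_eq_one G (-(m : ℤ)))).d m :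
        (G.N₀ × G.N₁) →ₗ[K] G.N₀₁) = eulerMap ((chartCechOps hC G).d 0) :=
      congrArg eulerMap (chartCechOps_twistE_d hC G (-(m : ℤ)) m 0 (by simp))
    have h2 : (twistE x y hC.mul_eq_one G (-(m : ℤ))).euler =
        eulerMap ((chartCechOps hC (twistE x y hC.mul_eq_one G (-(m : ℤ)))).d 0) := by
      rw [chartCechOps_d_zero]; rfl
    have h0' : eulerMap ((chartCechOps hC G).d 0) =
        (twistE x y hC.mul_eq_one G (-(m : ℤ))).euler + m * chartDeg k y := by
      rw [h2, ← h1]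
      exact h0
    rw [hG, h0']
    ring

/-- D4-b. `deg G(n) = deg G + n d`. -/
theorem degree_twistE (hC : IsCurveChart k B₀ B₁ B₀₁ x y e) {K : Type u} [Field K]
    [Algebra k K] (G : CurveGD k B₀ B₁ B₀₁ K) (n : ℤ) :
    (twistE x y hC.mul_eq_one G n).degree = G.degree + n * chartDeg k y := by
  show (twistE x y hC.mul_eq_one G n).euler - _ = G.euler - _ + n * chartDeg k y
  rw [_root_.Fermat.Agent.S25.H250.euler_twistE hC G n]
  ring

end Chart

end Fermat.Agent.S25.H250

end
-- ===== PACK-END S25/H250/TwistEuler.lean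

-- ===== PACK-BEGIN S26/TopPic2.lean
section


/-!
# Row S26: from the Picard functor to linear systems (glue, architect helper987)

`nquad_of : PicCube → LSDiv → CDivOps → LSDivOps → Stmt.NQuad` and
`squareLS_of : PicCube → Stmt.SquareLS`.
-/

set_option autoImplicit false
universe u

open CategoryTheory CategoryTheory.Limits AlgebraicGeometry NeronModelInfra GoodReductionJacobian

namespace Fermat.Agent.S26

section Span

variable {X : Scheme.{u}} [IsIntegral X]

/-- Multiplication by a rational function, as a linear map over the local ring at `x`. -/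
noncomputable def LS.mulL (x : X) (h : X.functionField) :
    X.functionField →ₗ[X.presheaf.stalk x] X.functionField :=
  LinearMap.mulLeft (X.presheaf.stalk x) h

theorem LS.span_mul {ι : Type} (w : ι → X.functionField) (h : X.functionField) (x : X) :
    LS.span (fun i => h * w i) x = (LS.span w x).map (LS.mulL x h) := by
  rw [LS.span, LS.span, Submodule.map_span]
  congr 1
  ext f
  constructor
  · rintro ⟨i, rfl⟩
    exact ⟨w i, ⟨i, rfl⟩, rfl⟩
  · rintro ⟨_, ⟨i, rfl⟩, rfl⟩
    exact ⟨i, rfl⟩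

theorem LS.span1_mul (f h : X.functionField) (x : X) :
    LS.span1 (h * f) x = (LS.span1 f x).map (LS.mulL x h) := by
  rw [LS.span1, LS.span1, Submodule.map_span, Set.image_singleton]
  rfl

theorem LS.map_mulL_injective (x : X) {h : X.functionField} (hh : h ≠ 0) :
    Function.Injective (Submodule.map (LS.mulL x h)) :=
  Submodule.map_injective_of_injective (f := LS.mulL x h) (fun a b hab => by
    simpa [LS.mulL, hh] using hab)

end Span

variable {K : Type u} [Field K] [IsAlgClosed K]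

/-- A linear equivalence of the divisors of two systems is an equivalence of the systems. -/
theorem LS.equiv_of_linEquiv {X : Scheme.{u}} [IsIntegral X] {ι ι' : Type}
    {w : ι → X.functionField} {w' : ι' → X.functionField} {D D' : CDiv X}
    (hD : CDiv.IsOfSystem w D) (hD' : CDiv.IsOfSystem w' D') (h : CDiv.LinEquiv D D') :
    LS.Equiv w w' := by
  obtain ⟨f, hf, hff⟩ := h
  refine ⟨f, hf, fun x => ?_⟩
  rw [LS.span_mul, hD x, hD' x, hff x, LS.span1_mul]

theorem CDiv.linEquiv_of_equiv {X : Scheme.{u}} [IsIntegral X] {ι ι' : Type}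
    {w : ι → X.functionField} {w' : ι' → X.functionField} {D D' : CDiv X}
    (hD : CDiv.IsOfSystem w D) (hD' : CDiv.IsOfSystem w' D') (h : LS.Equiv w w') :
    CDiv.LinEquiv D D' := by
  obtain ⟨f, hf, hff⟩ := h
  refine ⟨f, hf, fun x => ?_⟩
  rw [LS.span1_mul, ← hD x, ← hD' x, ← LS.span_mul]
  exact (hff x).symm

/-- The class of a power. -/
theorem CDivDict.cl_pow {T : PicTheory.{u}} (dict : CDivDict T)
    (hOps : Stmt.CDivOps.{u}) {X : Scheme.{u}} [IsIntegral X] (D : CDiv X) :
    ∀ (r : ℕ) (D' : CDiv X), CDiv.IsPow D r D' → dict.cl D' = r • dict.cl D := by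
  intro r
  induction r with
  | zero =>
    intro D' h
    -- `D'` is the trivial divisor: compare with its own square
    have hmul : CDiv.IsMul D' D' D' := by
      intro x
      have h1 := h x
      simp only [pow_zero] at h1
      rw [LS.span1_mul, h1, ← LS.span1_mul, mul_one]
      exact h1.symm
    have := dict.cl_mul D' D' D' hmul
    rw [zero_smul]
    exact left_eq_add.mp this
  | succ r ih =>
    intro D' h
    obtain ⟨Dr, hDr⟩ := (hOps X D).1 r
    have hmul : CDiv.IsMul Dr D D' := by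
      intro x
      rw [h x, pow_succ, mul_comm (D.gen x ^ r), LS.span1_mul, ← hDr x, ← LS.span1_mul,
        mul_comm]
    rw [dict.cl_mul Dr D D' hmul, ih Dr hDr, succ_nsmul]

theorem nquad_of (hPC : Stmt.PicCube K) (hDiv : Stmt.LSDiv.{u}) (hOps : Stmt.CDivOps.{u})
    (hLO : Stmt.LSDivOps.{u}) : Stmt.NQuad K := by
  intro X _ hneg d w hw hsym n hn
  obtain ⟨T, hT, ⟨dict⟩, hC⟩ := hPC
  obtain ⟨D, hD⟩ := hDiv X.A d w hw
  obtain ⟨hpow, -, hpb⟩ := hOps X.A D
  obtain ⟨hLpow, hLpb⟩ := hLO X.A d w D hD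
  obtain ⟨Dneg, hDneg⟩ := hpb X.A X.negHom hneg
  obtain ⟨Dn, hDn⟩ := hpb X.A (X.nsmulHom n) hn
  obtain ⟨Dp, hDp⟩ := hpow (n ^ 2)
  have hsymD : dict.cl Dneg = dict.cl D :=
    (dict.cl_eq_iff _ _).2 (CDiv.linEquiv_of_equiv (hLpb X.A X.negHom hneg Dneg hDneg) hD hsym)
  have hM : T.map X.negHom (dict.cl D) = dict.cl D := by
    rw [← dict.cl_pullback X.negHom hneg D Dneg hDneg, hsymD]
  have h1 : dict.cl Dn = dict.cl Dp := by
    rw [dict.cl_pullback (X.nsmulHom n) hn D Dn hDn, nquadPic_of_cube hT hC X _ hM n,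
      dict.cl_pow hOps D (n ^ 2) Dp hDp]
  exact LS.equiv_of_linEquiv (hLpb X.A (X.nsmulHom n) hn Dn hDn) (hLpow (n ^ 2) Dp hDp)
    ((dict.cl_eq_iff _ _).1 h1)

theorem squareLS_of (hPC : Stmt.PicCube K) (hOps : Stmt.CDivOps.{u}) : Stmt.SquareLS K := by
  intro X _ x hx hx' D D₁ D₂ D₃ D₄ h1 h2 h3 h4
  obtain ⟨T, hT, ⟨dict⟩, hC⟩ := hPC
  rw [← dict.cl_eq_iff, dict.cl_mul D₁ D₂ D₃ h3, dict.cl_pullback _ hx D D₁ h1,
    dict.cl_pullback _ hx' D D₂ h2, dict.cl_pow hOps D 2 D₄ h4]
  exact squarePic_of_cube hT hC X (dict.cl D) x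

end Fermat.Agent.S26

end
-- ===== PACK-END S26/TopPic2.lean

-- ===== PACK-BEGIN S26/Soft/H746/Soft.lean
section



/-!
# Row S26, block SOFT: `Stmt.Soft K` (helper746, sub-architect of SOFT)

`[n]` is finite etale and `#A(K)[n]` is its rank, for `n` invertible in `K`.
Leaf S3 (`[n]` etale) = `H746.etale_schemeNsmul`; leaves S4, S5, S6 and the glue = helper147.
-/

set_option autoImplicit false
universe u

open CategoryTheory AlgebraicGeometry NeronModelInfra GoodReductionJacobian

namespace Fermat.Agent.S26.Soft.H746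

/-- **Block SOFT.** -/
theorem soft (K : Type u) [Field K] [IsAlgClosed K] : Stmt.Soft K :=
  H147.soft_of_etale K fun X n hn =>
    etale_schemeNsmul X.law X.comm X.bundle.smooth n hn

end Fermat.Agent.S26.Soft.H746

end
-- ===== PACK-END S26/Soft/H746/Soft.lean

-- ===== PACK-BEGIN S26/Pic/Sections.lean
section


/-!
# Row S26, block PIC: API of the Čech model (helper347)

* `cl_eq_zero_of_sec` (P2): a cocycle with a nowhere vanishing section has trivial class.
* `CoverCocycle` : cocycles for an arbitrary indexed open cover, `CoverCocycle.cl`, independence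
  of the choice of indices, comparison of two cocycles on the same cover.
* `map_cl_eq_zero_iff` : triviality of the restriction of a class to an open subscheme
  (`j : V ⟶ X` an open immersion), expressed by opens and units of `X`.
-/

set_option autoImplicit false

open AlgebraicGeometry CategoryTheory TopologicalSpace Opposite

universe u

namespace Fermat.Agent.S26.Pic

noncomputable section

variable {X Y : Scheme.{u}}

/-! ## Restriction of functions -/

/-- Restriction of functions, as a ring homomorphism. -/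
def resR {U V : X.Opens} (h : V ≤ U) : Γ(X, U) →+* Γ(X, V) :=
  (X.presheaf.map (homOfLE h).op).hom

lemma coe_res {U V : X.Opens} (h : V ≤ U) (a : Γ(X, U)ˣ) :
    ((res h a : Γ(X, V)ˣ) : Γ(X, V)) = resR h (a : Γ(X, U)) := rfl

lemma resR_resR {U V W : X.Opens} (h : V ≤ U) (h' : W ≤ V) (a : Γ(X, U)) :
    resR h' (resR h a) = resR (h'.trans h) a := by
  simp only [resR]
  rw [← CommRingCat.comp_apply, ← Functor.map_comp]
  rfl

/-! ## P2: sections -/

/-- A section of the invertible sheaf attached to a cocycle: functions `s x` on `U x` with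
`s x = g x y * s y` on `U x ⊓ U y`. -/
structure Cocycle.Sec (c : Cocycle X) where
  /-- the local function -/
  s : ∀ x, Γ(X, c.U x)
  compat : ∀ x y, resR (inf_le_left : c.U x ⊓ c.U y ≤ c.U x) (s x) =
    (c.g x y : Γ(X, c.U x ⊓ c.U y)) * resR (inf_le_right : c.U x ⊓ c.U y ≤ c.U y) (s y)

/-- **P2.** A cocycle with a nowhere vanishing section has trivial class. -/
theorem cl_eq_zero_of_sec (c : Cocycle X) (σ : c.Sec) (hσ : ∀ x, x ∈ X.basicOpen (σ.s x)) :
    cl c = 0 := by
  rw [cl_eq_zero_iff]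
  have hu : ∀ x, IsUnit (resR (X.basicOpen_le (σ.s x)) (σ.s x)) := fun x =>
    X.toRingedSpace.isUnit_res_basicOpen (σ.s x)
  refine ⟨fun x => X.basicOpen (σ.s x), hσ, fun x => X.basicOpen_le _,
    fun x => (hu x).unit, fun x y => ?_⟩
  ext
  simp only [Units.val_mul, coe_res, IsUnit.unit_spec]
  rw [resR_resR, resR_resR]
  have := congrArg (resR (inf_le_inf (X.basicOpen_le (σ.s x)) (X.basicOpen_le (σ.s y))))
    (σ.compat x y)
  rw [map_mul, resR_resR, resR_resR] at this
  exact this.symm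

/-! ## Cocycles for arbitrary covers -/

/-- A Čech 1-cocycle of `𝒪ˣ` for an indexed family of opens. -/
structure CoverCocycle (X : Scheme.{u}) (ι : Type*) where
  /-- the opens -/
  W : ι → X.Opens
  /-- the transition units -/
  g : ∀ i j, Γ(X, W i ⊓ W j)ˣ
  cocycle : ∀ i j k,
    res (inf_le_left : W i ⊓ W j ⊓ W k ≤ W i ⊓ W j) (g i j) *
      res (le_inf (inf_le_left.trans inf_le_right) inf_le_right :
        W i ⊓ W j ⊓ W k ≤ W j ⊓ W k) (g j k) =
      res (le_inf (inf_le_left.trans inf_le_left) inf_le_right :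
        W i ⊓ W j ⊓ W k ≤ W i ⊓ W k) (g i k)

namespace CoverCocycle

variable {ι : Type*} (C : CoverCocycle X ι)

lemma cocycle_on {i j k : ι} {W' : X.Opens} (hij : W' ≤ C.W i ⊓ C.W j)
    (hjk : W' ≤ C.W j ⊓ C.W k) (hik : W' ≤ C.W i ⊓ C.W k) :
    res hij (C.g i j) * res hjk (C.g j k) = res hik (C.g i k) := by
  have hW : W' ≤ C.W i ⊓ C.W j ⊓ C.W k := le_inf hij (hjk.trans inf_le_right)
  have := congrArg (res hW) (C.cocycle i j k)
  simpa only [map_mul, res_res] using this

/-- The cocycle indexed by points obtained from a choice of indices. -/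
@[reducible] def toCocycle (idx : X → ι) (hidx : ∀ x, x ∈ C.W (idx x)) : Cocycle X where
  U x := C.W (idx x)
  mem := hidx
  g x y := C.g (idx x) (idx y)
  cocycle x y z := C.cocycle (idx x) (idx y) (idx z)

/-- The class does not depend on the choice of indices. -/
lemma toCocycle_rel (idx idx' : X → ι) (hidx : ∀ x, x ∈ C.W (idx x))
    (hidx' : ∀ x, x ∈ C.W (idx' x)) :
    Cocycle.Rel (C.toCocycle idx hidx) (C.toCocycle idx' hidx') := by
  refine ⟨fun x => C.W (idx x) ⊓ C.W (idx' x), fun x => ⟨hidx x, hidx' x⟩,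
    fun x => inf_le_left, fun x => inf_le_right, fun x => C.g (idx x) (idx' x), fun x y => ?_⟩
  rw [C.cocycle_on (k := idx' y) _ _ (le_inf (inf_le_left.trans inf_le_left)
      (inf_le_right.trans inf_le_right)),
    C.cocycle_on (j := idx' x) _ _ (le_inf (inf_le_left.trans inf_le_left)
      (inf_le_right.trans inf_le_right))]

/-- The class of a cocycle on an open cover. -/
def cl (hcov : ∀ x, ∃ i, x ∈ C.W i) : cechPic.Pic X :=
  Pic.cl (C.toCocycle (fun x => (hcov x).choose) fun x => (hcov x).choose_spec)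

lemma cl_eq (hcov : ∀ x, ∃ i, x ∈ C.W i) (idx : X → ι) (hidx : ∀ x, x ∈ C.W (idx x)) :
    C.cl hcov = Pic.cl (C.toCocycle idx hidx) :=
  cl_eq_cl.mpr (C.toCocycle_rel _ _ _ _)

/-- Two cocycles, the first on a cover refining index-wise the cover of the second, which differ
by a coboundary, have the same class. -/
lemma cl_eq_cl_of_coboundary (C' : CoverCocycle X ι) (hW : ∀ i, C.W i ≤ C'.W i)
    (hcov : ∀ x, ∃ i, x ∈ C.W i) (hcov' : ∀ x, ∃ i, x ∈ C'.W i)
    (h : ∀ i, Γ(X, C.W i)ˣ)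
    (H : ∀ i j, C.g i j * res (inf_le_right : C.W i ⊓ C.W j ≤ C.W j) (h j) =
      res (inf_le_left : C.W i ⊓ C.W j ≤ C.W i) (h i) *
        res (inf_le_inf (hW i) (hW j)) (C'.g i j)) :
    C.cl hcov = C'.cl hcov' := by
  have hidx' : ∀ x, x ∈ C'.W ((hcov x).choose) := fun x => hW _ (hcov x).choose_spec
  rw [C'.cl_eq hcov' (fun x => (hcov x).choose) hidx', _root_.Fermat.Agent.S26.Pic.CoverCocycle.cl, cl_eq_cl]
  refine ⟨fun x => C.W (hcov x).choose, fun x => (hcov x).choose_spec, fun x => le_rfl,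
    fun x => hW _, fun x => h _, fun x y => ?_⟩
  rw [res_self]
  exact H _ _

end CoverCocycle

/-! ## Restriction to an open subscheme -/

section OpenImmersion

variable {V : Scheme.{u}} (j : V ⟶ X) [IsOpenImmersion j]

lemma pull_image_injective (A : V.Opens) (e : A ≤ j ⁻¹ᵁ (j ''ᵁ A)) :
    Function.Injective (pull j e) := by
  have : pull j e = Units.map (j.appIso A).hom.hom := by
    rw [Scheme.Hom.appIso_hom']; rfl
  rw [this]
  intro a b hab
  apply Units.ext
  have h2 := congrArg Units.val hab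
  simp only [Units.coe_map, MonoidHom.coe_coe] at h2
  exact (ConcreteCategory.bijective_of_isIso (j.appIso A).hom).1 h2

lemma pull_image_surjective (A : V.Opens) (e : A ≤ j ⁻¹ᵁ (j ''ᵁ A)) :
    Function.Surjective (pull j e) := by
  have : pull j e = Units.map (j.appIso A).hom.hom := by
    rw [Scheme.Hom.appIso_hom']; rfl
  rw [this]
  intro b
  refine ⟨Units.map (j.appIso A).inv.hom b, ?_⟩
  apply Units.ext
  simp only [Units.coe_map, MonoidHom.coe_coe]
  rw [← CommRingCat.comp_apply, Iso.inv_hom_id]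
  rfl

/-- Pull-back of units along an open immersion is injective on opens inside the range. -/
lemma pull_injective_of_le_opensRange {B : X.Opens} (hB : B ≤ j.opensRange) {A : V.Opens}
    (e : A ≤ j ⁻¹ᵁ B) (e' : j ⁻¹ᵁ B ≤ A) : Function.Injective (pull j e) := by
  have hBA : j ''ᵁ A = B := by
    rw [le_antisymm e e', j.image_preimage_eq_opensRange_inf, inf_eq_right.mpr hB]
  intro a b hab
  have h1 : ∀ a : Γ(X, B)ˣ, pull j e a =
      pull j (j.preimage_image_eq A).ge (res (le_of_eq hBA) a) := fun a => by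
    rw [pull_res]
  rw [h1, h1] at hab
  have h2 := pull_image_injective j A _ hab
  have h3 := congrArg (res (le_of_eq hBA.symm)) h2
  simpa only [res_res, res_self] using h3

/-- The restriction of the class of `c` to an open subscheme `j : V ⟶ X` is trivial iff `c` is a
coboundary over the range of `j`, after shrinking. -/
theorem map_cl_eq_zero_iff (c : Cocycle X) :
    cechPic.map j (cl c) = 0 ↔
      ∃ (V' : V → X.Opens) (_ : ∀ v, j v ∈ V' v) (hle : ∀ v, V' v ≤ c.U (j v))
        (_ : ∀ v, V' v ≤ j.opensRange) (h : ∀ v, Γ(X, V' v)ˣ), ∀ v w,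
          res (inf_le_inf (hle v) (hle w)) (c.g (j v) (j w)) *
            res (inf_le_right : V' v ⊓ V' w ≤ V' w) (h w) =
          res (inf_le_left : V' v ⊓ V' w ≤ V' v) (h v) := by
  rw [map_cl, cl_eq_zero_iff]
  constructor
  · rintro ⟨V'', hmem, hle, h'', H⟩
    have hle' : ∀ v, j ''ᵁ V'' v ≤ c.U (j v) := fun v =>
      (j.image_mono (hle v)).trans (j.image_preimage_eq_opensRange_inf _ ▸ inf_le_right)
    choose h hh using fun v => pull_image_surjective j (V'' v) (j.preimage_image_eq _).ge (h'' v)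
    refine ⟨fun v => j ''ᵁ V'' v, fun v => ⟨v, hmem v, rfl⟩, hle',
      fun v => j.image_le_opensRange _, h, fun v w => ?_⟩
    have e : V'' v ⊓ V'' w ≤ j ⁻¹ᵁ (j ''ᵁ V'' v ⊓ j ''ᵁ V'' w) :=
      le_inf (inf_le_left.trans (j.preimage_image_eq _).ge)
        (inf_le_right.trans (j.preimage_image_eq _).ge)
    have e' : j ⁻¹ᵁ (j ''ᵁ V'' v ⊓ j ''ᵁ V'' w) ≤ V'' v ⊓ V'' w :=
      le_inf ((j.preimage_mono inf_le_left).trans (j.preimage_image_eq _).le)
        ((j.preimage_mono inf_le_right).trans (j.preimage_image_eq _).le)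
    apply pull_injective_of_le_opensRange j (inf_le_left.trans (j.image_le_opensRange _)) e e'
    have := H v w
    simp only [res_pull] at this
    simp only [map_mul, pull_res]
    rw [← hh v, ← hh w] at this
    simp only [res_pull] at this
    exact this
  · rintro ⟨V', hmem, hle, -, h, H⟩
    refine ⟨fun v => j ⁻¹ᵁ V' v, hmem, fun v => j.preimage_mono (hle v),
      fun v => pull j le_rfl (h v), fun v w => ?_⟩
    have := congrArg (pull j (inf_preimage_le j (V' v) (V' w))) (H v w)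
    simp only [map_mul, pull_res] at this
    simp only [res_pull]
    exact this

end OpenImmersion

end

end Fermat.Agent.S26.Pic

end
-- ===== PACK-END S26/Pic/Sections.lean

-- ===== PACK-BEGIN S26/H687/CurveCube.lean
section
/-
Row S26, block CUBE, leaf C1 (subtask 543; helper687): the cube for a curve.

* `S25Statement` : the statement of row S25 (existence of the Jacobian), as a `Prop`
  (to be fed with `Fermat.Agent.S25.result`).
* `ModDict T`    : DICT26, the dictionary between the classes of a Picard theory `T` and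
  invertible sheaves of modules (to be provided by block PIC for its model).
* `trivial_of_trivial_on_axes` : C1 in the language of rigidified line bundles: a rigidified
  line bundle on `C × (Y × Z)` which is trivial on `C × (y₀ × Z)` and on `C × (Y × z₀)` is
  trivial (classifying map to the Jacobian + rigidity lemma).
* `curveCube` : `S25Statement → ModDict T → Stmt.CurveCube T K`.
-/





set_option autoImplicit false
universe u
open CategoryTheory CategoryTheory.Limits AlgebraicGeometry AlgebraicGeometry.RelPicard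
  NeronModelInfra GoodReductionJacobian

namespace Fermat.Agent.S26.H687

noncomputable section

/-- The statement of row S25: the degree-zero relative Picard functor of a smooth proper
integral pointed curve over an algebraically closed field is representable by a smooth, proper,
geometrically connected scheme. -/
def S25Statement : Prop :=
  ∀ (k : Type u) [Field k] [IsAlgClosed k] {C : Scheme.{u}} (c : C ⟶ Spec (CommRingCat.of k))
    [IsProper c] [SmoothOfRelativeDimension 1 c] [IsIntegral C]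
    (ε : SchemeHomOver (𝟙 (Spec (CommRingCat.of k))) c),
    ∃ D : RelativePic0Designation k c,
      Nonempty (RepresentsRelSubPic c ε (algEquivZeroCut c ε) D) ∧
        Smooth D.toBase ∧ IsProper D.toBase ∧ GeometricallyConnected D.toBase

/-- DICT26: a dictionary between the classes of a Picard theory and invertible sheaves of
modules.  `Rep c L` : "the invertible module `L` represents the class `c`". -/
structure ModDict (T : PicTheory.{u}) where
  /-- `L` represents the class `c` -/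
  Rep : ∀ {X : Scheme.{u}}, T.Pic X → X.Modules → Prop
  exists_rep : ∀ {X : Scheme.{u}} (c : T.Pic X),
    ∃ L : X.Modules, Scheme.Modules.IsInvertible L ∧ Rep c L
  rep_zero_iff : ∀ {X : Scheme.{u}} (c : T.Pic X) (L : X.Modules), Rep c L →
    (c = 0 ↔ Nonempty (L ≅ SheafOfModules.unit X.ringCatSheaf))
  rep_pullback : ∀ {X Y : Scheme.{u}} (f : X ⟶ Y) (c : T.Pic Y) (L : Y.Modules), Rep c L →
    Rep (T.map f c) ((Scheme.Modules.pullback f).obj L)

section Core

variable {k : Type u} [Field k] {C : Scheme.{u}} {c : C ⟶ Spec (CommRingCat.of k)}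
  {ε : SchemeHomOver (𝟙 (Spec (CommRingCat.of k))) c}

/-- Pull-back of rigidified line bundles is compatible with composition. -/
def pullbackAlongCompIso {T T' T'' : Scheme.{u}} {t : T ⟶ Spec (CommRingCat.of k)}
    {t' : T' ⟶ Spec (CommRingCat.of k)} {t'' : T'' ⟶ Spec (CommRingCat.of k)}
    (M : RigidifiedLineBundle c ε t) (φ : SchemeHomOver t' t) (ψ : SchemeHomOver t'' t') :
    ((M.pullbackAlong φ).pullbackAlong ψ).L ≅ (M.pullbackAlong (postComp φ ψ)).L :=
  S25.H687.pullbackIsoOfFac _ _ _ (baseChangeSnd_comp c φ ψ) M.L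

/-- Pull-back of the unit rigidified line bundle is the unit. -/
def unitPullbackAlongIso {T T' : Scheme.{u}} {t : T ⟶ Spec (CommRingCat.of k)}
    {t' : T' ⟶ Spec (CommRingCat.of k)} (ψ : SchemeHomOver t' t) :
    ((RigidifiedLineBundle.unit (c := c) (ε := ε) t).pullbackAlong ψ).L ≅
      (RigidifiedLineBundle.unit (c := c) (ε := ε) t').L :=
  Scheme.Modules.pullbackUnitIso _

/-- A rigidified line bundle isomorphic to the unit pulls back to one isomorphic to the unit. -/
theorem pullbackAlong_iso_unit {T T' : Scheme.{u}} {t : T ⟶ Spec (CommRingCat.of k)}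
    {t' : T' ⟶ Spec (CommRingCat.of k)} (M : RigidifiedLineBundle c ε t)
    (h : Nonempty (M.L ≅ (RigidifiedLineBundle.unit (c := c) (ε := ε) t).L))
    (ψ : SchemeHomOver t' t) :
    Nonempty ((M.pullbackAlong ψ).L ≅ (RigidifiedLineBundle.unit (c := c) (ε := ε) t').L) := by
  obtain ⟨e⟩ := RigidifiedLineBundle.pullbackAlong_congr ψ h
  exact ⟨e ≪≫ unitPullbackAlongIso ψ⟩

/-- The pull-back of the Poincaré bundle along the zero section (composed with a structure
map) is trivial. -/
theorem poincare_pullbackAlong_zero {D : RelativePic0Designation k c}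
    (hrep : RepresentsRelSubPic c ε (algEquivZeroCut c ε) D)
    {T : Scheme.{u}} (t : T ⟶ Spec (CommRingCat.of k)) (g : SchemeHomOver t D.toBase)
    (hg : g.1 = t ≫ D.zeroSection) :
    Nonempty ((hrep.poincare.pullbackAlong g).L ≅
      (RigidifiedLineBundle.unit (c := c) (ε := ε) t).L) := by
  let z₀ : SchemeHomOver (𝟙 (Spec (CommRingCat.of k))) D.toBase :=
    ⟨D.zeroSection, D.zeroSection_toBase⟩
  let τ : SchemeHomOver t (𝟙 (Spec (CommRingCat.of k))) := ⟨t, Category.comp_id t⟩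
  have hgz : g = postComp z₀ τ := Subtype.ext hg
  obtain ⟨e⟩ := pullbackAlong_iso_unit (hrep.poincare.pullbackAlong z₀) hrep.zero τ
  rw [hgz]
  exact ⟨(pullbackAlongCompIso hrep.poincare z₀ τ).symm ≪≫ e⟩

variable [IsAlgClosed k]

/-- **C1 for rigidified line bundles.**  Let `D` represent the degree-zero Picard functor of
`(C, ε)`.  A rigidified line bundle on `C × (Y × Z)` (`Y`, `Z` proper, geometrically integral,
pointed) which is trivial on `C × (y₀ × Z)` and on `C × (Y × z₀)` is trivial. -/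
theorem trivial_of_trivial_on_axes {D : RelativePic0Designation k c}
    (hrep : RepresentsRelSubPic c ε (algEquivZeroCut c ε) D) [IsProper D.toBase]
    {Y Z : Scheme.{u}} (y : Y ⟶ Spec (CommRingCat.of k)) (z : Z ⟶ Spec (CommRingCat.of k))
    [IsProper y] [GeometricallyIntegral y] [IsProper z] [GeometricallyIntegral z]
    (y₀ : KPt y) (z₀ : KPt z) (M : RigidifiedLineBundle c ε (prodStr y z))
    (hZ : Nonempty ((M.pullbackAlong
        (⟨inr y z y₀, inr_prodStr y z y₀⟩ : SchemeHomOver z (prodStr y z))).L ≅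
      (RigidifiedLineBundle.unit (c := c) (ε := ε) z).L))
    (hY : Nonempty ((M.pullbackAlong
        (⟨inl y z z₀, inl_prodStr y z z₀⟩ : SchemeHomOver y (prodStr y z))).L ≅
      (RigidifiedLineBundle.unit (c := c) (ε := ε) y).L)) :
    Nonempty (M.L ≅ (RigidifiedLineBundle.unit (c := c) (ε := ε) (prodStr y z)).L) := by
  let ψZ : SchemeHomOver z (prodStr y z) := ⟨inr y z y₀, inr_prodStr y z y₀⟩
  let ψY : SchemeHomOver y (prodStr y z) := ⟨inl y z z₀, inl_prodStr y z z₀⟩
  -- `Y × Z` is geometrically integral and of finite type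
  have : IsIntegral Y := GeometricallyIntegral.isIntegral_of_subsingleton y
  have : IsIntegral Z := GeometricallyIntegral.isIntegral_of_subsingleton z
  have : IsLocallyNoetherian Z := LocallyOfFiniteType.isLocallyNoetherian z
  have : IsIntegral (pullback y z) := inferInstance
  have : LocallyOfFiniteType (prodStr y z) := inferInstance
  have : IsLocallyNoetherian (pullback y z) :=
    LocallyOfFiniteType.isLocallyNoetherian (prodStr y z)
  have : GeometricallyIntegral (prodStr y z) :=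
    S25.H567.geometricallyIntegral_of_isAlgClosed (prodStr y z)
  -- the fibre at `(y₀, z₀)` is trivial
  let w₀ : SchemeHomOver (𝟙 (Spec (CommRingCat.of k))) (prodStr y z) := postComp ψZ z₀
  have h₀ : Nonempty ((M.pullbackAlong w₀).L ≅
      SheafOfModules.unit (pullback c (𝟙 (Spec (CommRingCat.of k)))).ringCatSheaf) := by
    obtain ⟨e⟩ := pullbackAlong_iso_unit (M.pullbackAlong ψZ) hZ z₀
    exact ⟨(pullbackAlongCompIso M ψZ z₀).symm ≪≫ e⟩
  have hM : FibrewiseAlgEquivZero M :=
    S25.H687.fibrewiseAlgEquivZero_of_trivial_fibre (prodStr y z) M w₀ h₀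
  -- the classifying map
  let g : SchemeHomOver (prodStr y z) D.toBase := hrep.classify (prodStr y z) M hM
  obtain ⟨eg⟩ := hrep.classify_spec (prodStr y z) M hM
  -- it is zero on the two axes
  have hgZ : inr y z y₀ ≫ g.1 = z ≫ D.zeroSection := by
    let g₁ : SchemeHomOver z D.toBase := postComp g ψZ
    let g₂ : SchemeHomOver z D.toBase :=
      ⟨z ≫ D.zeroSection, by rw [Category.assoc, D.zeroSection_toBase, Category.comp_id]⟩
    have h12 : g₁ = g₂ := by
      apply hrep.ext_of_iso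
      obtain ⟨e₂⟩ := poincare_pullbackAlong_zero hrep z g₂ rfl
      obtain ⟨e₁⟩ := RigidifiedLineBundle.pullbackAlong_congr ψZ ⟨eg⟩
      obtain ⟨e₃⟩ := hZ
      exact ⟨(pullbackAlongCompIso hrep.poincare g ψZ).symm ≪≫ e₁ ≪≫ e₃ ≪≫ e₂.symm⟩
    exact congrArg Subtype.val h12
  have hgY : inl y z z₀ ≫ g.1 = y ≫ D.zeroSection := by
    let g₁ : SchemeHomOver y D.toBase := postComp g ψY
    let g₂ : SchemeHomOver y D.toBase :=
      ⟨y ≫ D.zeroSection, by rw [Category.assoc, D.zeroSection_toBase, Category.comp_id]⟩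
    have h12 : g₁ = g₂ := by
      apply hrep.ext_of_iso
      obtain ⟨e₂⟩ := poincare_pullbackAlong_zero hrep y g₂ rfl
      obtain ⟨e₁⟩ := RigidifiedLineBundle.pullbackAlong_congr ψY ⟨eg⟩
      obtain ⟨e₃⟩ := hY
      exact ⟨(pullbackAlongCompIso hrep.poincare g ψY).symm ≪≫ e₁ ≪≫ e₃ ≪≫ e₂.symm⟩
    exact congrArg Subtype.val h12
  -- rigidity
  have hconst : g.1 = prodStr y z ≫ D.zeroSection :=
    H686.rigidity_const y z D.toBase y₀.1 y₀.2 z₀.1 z₀.2 D.zeroSection g.1 g.2 hgY hgZ
  obtain ⟨e⟩ := poincare_pullbackAlong_zero hrep (prodStr y z) g hconst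
  exact ⟨eg.symm ≪≫ e⟩

end Core

/-- **C1, the cube for a curve**, for any Picard theory with a dictionary to invertible
modules, from the existence of Jacobians (row S25). -/
theorem curveCube (hS25 : S25Statement.{u}) (T : PicTheory.{u}) (dict : ModDict T)
    (K : Type u) [Field K] [IsAlgClosed K] : Stmt.CurveCube T K := by
  intro C c _ _ _ c₀ Y Z y z _ _ _ _ y₀ z₀ N h₁ h₂ h₃
  obtain ⟨D, ⟨hrep⟩, -, hproper, -⟩ := hS25 K c c₀
  obtain ⟨L, hL, hrepL⟩ := dict.exists_rep N
  -- rigidification from the first face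
  have e₁ := (dict.rep_zero_iff _ _ (dict.rep_pullback (inr c (prodStr y z) c₀) N L hrepL)).1 h₁
  let M : RigidifiedLineBundle c c₀ (prodStr y z) := ⟨L, hL, e₁⟩
  have e₂ := (dict.rep_zero_iff _ _ (dict.rep_pullback _ N L hrepL)).1 h₂
  have e₃ := (dict.rep_zero_iff _ _ (dict.rep_pullback _ N L hrepL)).1 h₃
  have hM := trivial_of_trivial_on_axes hrep y z y₀ z₀ M e₂ e₃
  exact (dict.rep_zero_iff N L hrepL).2 hM

end

end Fermat.Agent.S26.H687

end
-- ===== PACK-END S26/H687/CurveCube.lean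

-- ===== PACK-BEGIN S26/H911/BaseChange.lean
section



/-!
# Row S26, block CUBE, leaf BC (helper911): `Stmt.BaseChange`

Base change of an abelian variety `X : AbVar K` (`K` algebraically closed) along a ring
homomorphism `φ : K →+* K'` to a field `K'`:
`X' := pullback X.str (Spec.map φ)` with the group law `bcLaw` induced on the functor of points.

* `AbVar.baseChange X K' ρ : AbVar K'` (any field `K'`, `ρ : Spec K' ⟶ Spec K`);
* `baseChange : Stmt.BaseChange K` (the frozen leaf of `SpecCube.lean`).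
-/

set_option autoImplicit false
set_option linter.unusedSectionVars false
set_option linter.style.haveILetI false

universe u

open CategoryTheory CategoryTheory.Limits AlgebraicGeometry NeronModelInfra GoodReductionJacobian

namespace Fermat.Agent.S26.H911

noncomputable section

variable {K : Type u} [Field K] [IsAlgClosed K]

/-- The base change of an abelian variety over an algebraically closed field to a field. -/
def abVarBaseChange (X : AbVar K) (K' : Type u) [Field K']
    (ρ : Spec (CommRingCat.of K') ⟶ Spec (CommRingCat.of K)) : AbVar K' where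
  A := pullback X.str ρ
  str := pullback.snd X.str ρ
  law := bcLaw X.law ρ
  comm := bcLaw_isCommutative X.law ρ X.comm
  bundle := bcBundle X.bundle K' ρ
  dim := X.dim
  smoothDim :=
    (smoothOfRelativeDimension_isStableUnderBaseChange X.dim).of_isPullback
      (IsPullback.of_hasPullback X.str ρ) X.smoothDim

@[simp]
theorem abVarBaseChange_dim (X : AbVar K) (K' : Type u) [Field K']
    (ρ : Spec (CommRingCat.of K') ⟶ Spec (CommRingCat.of K)) :
    (abVarBaseChange X K' ρ).dim = X.dim := rfl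

/-- **Leaf CUBE:BC.** -/
theorem baseChange : Stmt.BaseChange K := by
  intro X K' _ _ φ
  refine ⟨abVarBaseChange X K' (Spec.map (CommRingCat.ofHom φ)),
    pullback.fst X.str (Spec.map (CommRingCat.ofHom φ)), pullback.condition,
    IsPullback.of_hasPullback _ _, rfl, ?_⟩
  intro S s a b
  exact bcLaw_mul_fst X.law (Spec.map (CommRingCat.ofHom φ)) s a b

end

end Fermat.Agent.S26.H911

end
-- ===== PACK-END S26/H911/BaseChange.lean

-- ===== PACK-BEGIN S26/H605/GenTrivPrep.lean
section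






/-!
# Row S26, block PIC, leaf P5 (helper605): geometric preparations

* `isPullback_prodMapLeft` : `X' ×_K W` is the base change of `X ×_K W → X` along `X' → X`.
* `flat_of_forall_eq_genericPoint` : a morphism into an integral scheme whose image is the
  generic point is flat.
* `exists_finite_affine_cover` : finite affine covers of quasi-compact opens, subordinate to a
  point-indexed cover.
-/

set_option autoImplicit false

open AlgebraicGeometry CategoryTheory CategoryTheory.Limits TopologicalSpace Opposite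

universe u

namespace Fermat.Agent.S26.H605

noncomputable section

section pullback

variable {K : Type u} [Field K] {X X' W : Scheme.{u}} (x : X ⟶ Spec (CommRingCat.of K))
  (w : W ⟶ Spec (CommRingCat.of K)) (f : X' ⟶ X)

lemma prodMapLeft_fst :
    prodMapLeft x (f ≫ x) w f rfl ≫ pullback.fst x w = pullback.fst (f ≫ x) w ≫ f := by
  simp only [prodMapLeft, pullback.map]
  exact pullback.lift_fst _ _ _

lemma prodMapLeft_snd :
    prodMapLeft x (f ≫ x) w f rfl ≫ pullback.snd x w = pullback.snd (f ≫ x) w := by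
  simp only [prodMapLeft, pullback.map]
  exact (pullback.lift_snd _ _ _).trans (Category.comp_id _)

/-- `X' ×_K W` is the base change of `pr₁ : X ×_K W ⟶ X` along `f : X' ⟶ X`. -/
theorem isPullback_prodMapLeft :
    IsPullback (prodMapLeft x (f ≫ x) w f rfl) (pullback.fst (f ≫ x) w)
      (pullback.fst x w) f := by
  refine IsPullback.of_right ?_ (prodMapLeft_fst x w f) (IsPullback.of_hasPullback x w).flip
  rw [prodMapLeft_snd]
  exact (IsPullback.of_hasPullback (f ≫ x) w).flip

end pullback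

section flat

variable {X S' : Scheme.{u}} [IsIntegral X]

/-- A morphism into an integral scheme whose image is the generic point is flat. -/
theorem flat_of_forall_eq_genericPoint (ξ : S' ⟶ X) (hξ : ∀ s, ξ s = genericPoint X) :
    Flat ξ := by
  rw [Flat.iff_flat_stalkMap]
  intro s
  have hfield : ∀ z : X, z = genericPoint X → IsField (X.presheaf.stalk z) := by
    rintro z rfl
    exact Field.toIsField X.functionField
  have hF := hfield (ξ s) (hξ s)
  letI := hF.toField
  letI := (ξ.stalkMap s).hom.toAlgebra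
  show Module.Flat (X.presheaf.stalk (ξ s)) (S'.presheaf.stalk s)
  infer_instance

end flat

section cover

variable {Y : Scheme.{u}}

/-- A quasi-compact open `Ω` has a finite cover by affine opens subordinate to a given
point-indexed family of opens. -/
theorem exists_finite_affine_cover (Ω : Y.Opens) (hΩ : IsCompact (Ω : Set Y))
    (U : Y → Y.Opens) (hU : ∀ y, y ∈ U y) :
    ∃ (T : Type u) (_ : Finite T) (V : T → Y.Opens) (yp : T → Y),
      (∀ t, IsAffineOpen (V t)) ∧ (∀ t, V t ≤ U (yp t)) ∧ (∀ t, V t ≤ Ω) ∧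
      ∀ y ∈ Ω, ∃ t, y ∈ V t := by
  have hex : ∀ y : Y, ∃ V : Y.Opens, IsAffineOpen V ∧ V ≤ U y ⊓ Ω ∧ (y ∈ Ω → y ∈ V) := by
    intro y
    by_cases hy : y ∈ Ω
    · obtain ⟨V, hV, hyV, hVle⟩ := (Opens.isBasis_iff_nbhd.mp Y.isBasis_affineOpens)
        (show y ∈ U y ⊓ Ω from ⟨hU y, hy⟩)
      exact ⟨V, hV, hVle, fun _ => hyV⟩
    · exact ⟨⊥, isAffineOpen_bot Y, bot_le, fun h => (hy h).elim⟩
  choose V hVaff hVle hVmem using hex
  obtain ⟨s, hs, hcov⟩ := hΩ.elim_nhds_subcover (fun y => (V y : Set Y))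
    (fun y hy => (V y).isOpen.mem_nhds (hVmem y hy))
  refine ⟨{y // y ∈ s}, inferInstance, fun t => V t.1, fun t => t.1, fun t => hVaff t.1,
    fun t => (hVle t.1).trans inf_le_left, fun t => (hVle t.1).trans inf_le_right,
    fun y hy => ?_⟩
  obtain ⟨z, hz, hyz⟩ := Set.mem_iUnion₂.mp (hcov hy)
  exact ⟨⟨z, hz⟩, hyz⟩

end cover

end

end Fermat.Agent.S26.H605

end
-- ===== PACK-END S26/H605/GenTrivPrep.lean

-- ===== PACK-BEGIN S27/H443/FFChart.lean
section




/-!
# Row S27, leaf FF-ALG: the curve chart of a function field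

Let `F / K` be a field extension, essentially of finite type, with `K` algebraically closed and
`Ω[F⁄K]` of dimension one (e.g. `IsCurveOver K F`).  Choose `x ∈ F` with `dx ≠ 0` and put

* `B₀  = ffB K F {x}`       (integral closure of `K[x]` in `F`),
* `B₁  = ffB K F {x⁻¹}`     (integral closure of `K[x⁻¹]` in `F`),
* `B₀₁ = ffB K F {x, x⁻¹}`  (integral closure of `K[x, x⁻¹]` in `F`).

Then `(B₀, B₁, B₀₁, x, x⁻¹, e)` is a curve chart in the sense of row S25 (`IsCurveChart`), for a
suitable `K`-point `e` of `B₁` with `e (x⁻¹) = 0`, and `F` is the field of fractions of `B₀`.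
This is `ffalg_exists_chart`.  No assumption on the characteristic.

Author: helper443.
-/

set_option autoImplicit false
set_option linter.style.haveILetI false

universe u

open Polynomial

namespace Fermat.Agent.S27.H443

section Point

variable {K F : Type*} [Field K] [Field F] [Algebra K F]

/-- The generator `u` of `K[u]` is not a unit, for transcendental `u`. -/
theorem adjoin_gen_not_isUnit {u : F} (h : Transcendental K u) :
    ¬ IsUnit (⟨u, Algebra.self_mem_adjoin_singleton K u⟩ : Algebra.adjoin K ({u} : Set F)) := by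
  intro hunit
  have h1 : adjoinEquivPoly h X = ⟨u, Algebra.self_mem_adjoin_singleton K u⟩ := by
    apply Subtype.ext
    rw [adjoinEquivPoly_coe, Polynomial.aeval_X]
  rw [← h1] at hunit
  have h2 : IsUnit (X : K[X]) := by
    have := hunit.map (adjoinEquivPoly h).symm
    simpa using this
  exact Polynomial.not_isUnit_X h2

/-- There is a maximal ideal of `ffB K F {u}` containing `u`, for transcendental `u`. -/
theorem ffB_exists_maximal_mem {u : F} (h : Transcendental K u) :
    ∃ Q : Ideal (ffB K F ({u} : Set F)), Q.IsMaximal ∧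
      (⟨u, self_mem_ffB u⟩ : ffB K F ({u} : Set F)) ∈ Q := by
  set uA : Algebra.adjoin K ({u} : Set F) := ⟨u, Algebra.self_mem_adjoin_singleton K u⟩ with huA
  have hne : Ideal.span {uA} ≠ ⊤ := by
    rw [Ne, Ideal.span_singleton_eq_top]
    exact adjoin_gen_not_isUnit h
  obtain ⟨P, hP, hle⟩ := Ideal.exists_le_maximal _ hne
  haveI : Algebra.IsIntegral (Algebra.adjoin K ({u} : Set F))
      (integralClosure (Algebra.adjoin K ({u} : Set F)) F) := inferInstance
  have hinj : Function.Injective (algebraMap (Algebra.adjoin K ({u} : Set F))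
      (integralClosure (Algebra.adjoin K ({u} : Set F)) F)) := by
    intro a b hab
    apply Subtype.ext
    exact congrArg (fun z : integralClosure (Algebra.adjoin K ({u} : Set F)) F => (z : F)) hab
  obtain ⟨Q, hQ, hQP⟩ := Ideal.exists_ideal_over_maximal_of_isIntegral
    (S := integralClosure (Algebra.adjoin K ({u} : Set F)) F) P
    (by rw [(RingHom.injective_iff_ker_eq_bot _).mp hinj]; exact bot_le)
  refine ⟨Q, hQ, ?_⟩
  have hmem : uA ∈ Q.comap (algebraMap (Algebra.adjoin K ({u} : Set F))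
      (integralClosure (Algebra.adjoin K ({u} : Set F)) F)) := by
    rw [hQP]
    exact hle (Ideal.mem_span_singleton_self uA)
  exact hmem

/-- A `K`-point of `ffB K F {u}` at which `u` vanishes. -/
theorem ffB_exists_point [IsAlgClosed K] [Algebra.EssFiniteType K F] (h : Module.finrank F Ω[F⁄K] = 1) {u : F}
    (hu : KaehlerDifferential.D K F u ≠ 0) :
    ∃ e : ffB K F ({u} : Set F) →ₐ[K] K, e ⟨u, self_mem_ffB u⟩ = 0 := by
  obtain ⟨Q, hQ, hmem⟩ := ffB_exists_maximal_mem (ffsep_transcendental hu)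
  haveI := ffB_finiteType h hu
  have hbij := ds_algebraMap_quotient_bijective K Q
  let ε : K ≃ₐ[K] (ffB K F ({u} : Set F) ⧸ Q) :=
    AlgEquiv.ofBijective (Algebra.ofId K _) hbij
  refine ⟨ε.symm.toAlgHom.comp (Ideal.Quotient.mkₐ K Q), ?_⟩
  rw [AlgHom.comp_apply, Ideal.Quotient.mkₐ_eq_mk, Ideal.Quotient.eq_zero_iff_mem.mpr hmem]
  exact map_zero _

end Point

section Chart

open Fermat.Agent.S25

variable {K F : Type u} [Field K] [Field F] [Algebra K F]

/-- If `dx ≠ 0` then `x ≠ 0`. -/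
theorem ne_zero_of_D_ne_zero {x : F} (hx : KaehlerDifferential.D K F x ≠ 0) : x ≠ 0 := by
  rintro rfl
  exact hx (map_zero _)

/-- If `dx ≠ 0` then `d(x⁻¹) ≠ 0`. -/
theorem D_inv_ne_zero {x : F} (hx : KaehlerDifferential.D K F x ≠ 0) :
    KaehlerDifferential.D K F x⁻¹ ≠ 0 := by
  have hx0 := ne_zero_of_D_ne_zero hx
  intro h
  have h1 : KaehlerDifferential.D K F (x * x⁻¹) = 0 := by
    rw [mul_inv_cancel₀ hx0]
    exact Derivation.map_one_eq_zero _
  rw [Derivation.leibniz, h, smul_zero, zero_add] at h1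
  rcases smul_eq_zero.mp h1 with h2 | h2
  · exact inv_ne_zero hx0 h2
  · exact hx h2

/-- The inclusion `ffB K F S → ffB K F T` for `S ⊆ T`, as an algebra structure. -/
noncomputable abbrev ffBAlgebra {S T : Set F} (h : S ⊆ T) : Algebra (ffB K F S) (ffB K F T) :=
  (Subalgebra.inclusion (ffB_mono h)).toRingHom.toAlgebra

theorem ffBAlgebra_isScalarTower {S T : Set F} (h : S ⊆ T) :
    letI := ffBAlgebra (K := K) h
    IsScalarTower K (ffB K F S) (ffB K F T) :=
  letI := ffBAlgebra (K := K) h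
  IsScalarTower.of_algebraMap_eq fun _ => rfl

theorem ffBAlgebra_coe {S T : Set F} (h : S ⊆ T) (b : ffB K F S) :
    letI := ffBAlgebra (K := K) h
    ((algebraMap (ffB K F S) (ffB K F T) b : ffB K F T) : F) = (b : F) := by
  letI := ffBAlgebra (K := K) h
  rw [RingHom.algebraMap_toAlgebra]
  exact Subalgebra.coe_inclusion _ _

theorem ffBAlgebra_val {S T : Set F} (h : S ⊆ T) (b : ffB K F S) :
    (ffB K F T).val (@algebraMap _ _ _ _ (ffBAlgebra (K := K) h) b) = (ffB K F S).val b :=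
  ffBAlgebra_coe (K := K) h b

theorem ffBAlgebra_injective {S T : Set F} (h : S ⊆ T) :
    letI := ffBAlgebra (K := K) h
    Function.Injective (algebraMap (ffB K F S) (ffB K F T)) :=
  Subalgebra.inclusion_injective (ffB_mono h)

/-- `ffB K F {u, u⁻¹}` is the localisation of `ffB K F {u}` away from `u`. -/
theorem ffB_isLocalization_away {u : F} (hu : u ≠ 0) {T : Set F} (hT : T = {u, u⁻¹}) :
    letI := ffBAlgebra (K := K) (show ({u} : Set F) ⊆ T by rw [hT]; simp)
    IsLocalization.Away (⟨u, self_mem_ffB u⟩ : ffB K F ({u} : Set F)) (ffB K F T) := by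
  subst hT
  letI := ffBAlgebra (K := K) (show ({u} : Set F) ⊆ {u, u⁻¹} by simp)
  refine isLocalization_away_of_injective (ffBAlgebra_injective _) _ ?_ ?_
  · have hinv : u⁻¹ ∈ ffB K F ({u, u⁻¹} : Set F) := subset_ffB _ (by simp)
    refine IsUnit.of_mul_eq_one (⟨u⁻¹, hinv⟩ : ffB K F ({u, u⁻¹} : Set F)) ?_
    apply Subtype.ext
    change u * u⁻¹ = 1
    exact mul_inv_cancel₀ hu
  · rintro ⟨f, hf⟩
    obtain ⟨k, hk⟩ := ffB_pair_exists_pow_mul_mem hu hf
    refine ⟨k, ⟨u ^ k * f, hk⟩, ?_⟩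
    apply Subtype.ext
    change f * u ^ k = u ^ k * f
    ring

variable [IsAlgClosed K] [Algebra.EssFiniteType K F]

/-- **FF-ALG, explicit form.**  The three integral closures form a curve chart. -/
theorem ffalg_isCurveChart (h : Module.finrank F Ω[F⁄K] = 1) {x : F}
    (hx : KaehlerDifferential.D K F x ≠ 0) :
    ∃ e : ffB K F ({x⁻¹} : Set F) →ₐ[K] K,
      letI := ffBAlgebra (K := K) (show ({x} : Set F) ⊆ {x, x⁻¹} by simp)
      letI := ffBAlgebra (K := K) (show ({x⁻¹} : Set F) ⊆ {x, x⁻¹} by simp)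
      haveI := ffBAlgebra_isScalarTower (K := K) (show ({x} : Set F) ⊆ {x, x⁻¹} by simp)
      haveI := ffBAlgebra_isScalarTower (K := K) (show ({x⁻¹} : Set F) ⊆ {x, x⁻¹} by simp)
      IsCurveChart K (ffB K F ({x} : Set F)) (ffB K F ({x⁻¹} : Set F))
        (ffB K F ({x, x⁻¹} : Set F)) ⟨x, self_mem_ffB x⟩ ⟨x⁻¹, self_mem_ffB x⁻¹⟩ e := by
  have hx0 := ne_zero_of_D_ne_zero hx
  have hy := D_inv_ne_zero hx
  obtain ⟨e, he⟩ := ffB_exists_point h hy
  refine ⟨e, ?_⟩
  letI a₀ := ffBAlgebra (K := K) (show ({x} : Set F) ⊆ {x, x⁻¹} by simp)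
  letI a₁ := ffBAlgebra (K := K) (show ({x⁻¹} : Set F) ⊆ {x, x⁻¹} by simp)
  haveI t₀ := ffBAlgebra_isScalarTower (K := K) (show ({x} : Set F) ⊆ {x, x⁻¹} by simp)
  haveI t₁ := ffBAlgebra_isScalarTower (K := K) (show ({x⁻¹} : Set F) ⊆ {x, x⁻¹} by simp)
  haveI d₀ := ffB_isDedekindDomain h hx
  haveI d₁ := ffB_isDedekindDomain h hy
  haveI f₀ := ffB_finiteType h hx
  haveI f₁ := ffB_finiteType h hy
  exact
    { isDomain₀ := inferInstance
      isDomain₁ := inferInstance
      away₀ := ffB_isLocalization_away hx0 rfl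
      away₁ := ffB_isLocalization_away (inv_ne_zero hx0) (by rw [inv_inv, Set.pair_comm])
      mul_eq_one := by
        apply Subtype.ext
        change x * x⁻¹ = 1
        exact mul_inv_cancel₀ hx0
      finite₀ := ffB_aeval_finite h hx
      finite₁ := ffB_aeval_finite h hy
      smooth₀ := ds_smooth K _
      smooth₁ := ds_smooth K _
      omega₀ := ds_invertible_kaehlerDifferential K _ (ffB_not_isField hx)
      omega₁ := ds_invertible_kaehlerDifferential K _ (ffB_not_isField hy)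
      e_y := he }

/-- **FF-ALG, neutral form.**  A function field of a curve over an algebraically closed field
has a curve chart `(B₀, B₁, B₀₁, x, y, e)` made of subrings of `F`, and `F` is the field of
fractions of `B₀`. -/
theorem ffalg_exists_chart (K F : Type u) [Field K] [Field F] [Algebra K F] [IsAlgClosed K]
    [Algebra.EssFiniteType K F] (h : Module.finrank F Ω[F⁄K] = 1) :
    ∃ (B₀ B₁ B₀₁ : Type u) (_ : CommRing B₀) (_ : CommRing B₁) (_ : CommRing B₀₁)
      (_ : Algebra K B₀) (_ : Algebra K B₁) (_ : Algebra K B₀₁) (_ : Algebra B₀ B₀₁)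
      (_ : Algebra B₁ B₀₁) (_ : IsScalarTower K B₀ B₀₁) (_ : IsScalarTower K B₁ B₀₁)
      (x : B₀) (y : B₁) (e : B₁ →ₐ[K] K) (j₀ : B₀ →ₐ[K] F) (j₁ : B₁ →ₐ[K] F)
      (j₀₁ : B₀₁ →ₐ[K] F),
      IsCurveChart K B₀ B₁ B₀₁ x y e ∧
      (∀ b : B₀, j₀₁ (algebraMap B₀ B₀₁ b) = j₀ b) ∧
      (∀ b : B₁, j₀₁ (algebraMap B₁ B₀₁ b) = j₁ b) ∧
      Function.Injective j₀ ∧ Function.Injective j₁ ∧ Function.Injective j₀₁ ∧
      (∀ f : F, ∃ a b : B₀, b ≠ 0 ∧ f * j₀ b = j₀ a) ∧
      (∀ f : F, ∃ a b : B₁, b ≠ 0 ∧ f * j₁ b = j₁ a) := by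
  obtain ⟨x, hx⟩ := ffsep_exists_D_ne_zero K F h
  have hy := D_inv_ne_zero hx
  obtain ⟨e, he⟩ := ffalg_isCurveChart h hx
  exact ⟨ffB K F ({x} : Set F), ffB K F ({x⁻¹} : Set F), ffB K F ({x, x⁻¹} : Set F),
    inferInstance, inferInstance, inferInstance, inferInstance, inferInstance, inferInstance,
    ffBAlgebra (K := K) (show ({x} : Set F) ⊆ {x, x⁻¹} by simp),
    ffBAlgebra (K := K) (show ({x⁻¹} : Set F) ⊆ {x, x⁻¹} by simp),
    ffBAlgebra_isScalarTower (K := K) (show ({x} : Set F) ⊆ {x, x⁻¹} by simp),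
    ffBAlgebra_isScalarTower (K := K) (show ({x⁻¹} : Set F) ⊆ {x, x⁻¹} by simp),
    ⟨x, self_mem_ffB x⟩, ⟨x⁻¹, self_mem_ffB x⁻¹⟩, e,
    (ffB K F ({x} : Set F)).val, (ffB K F ({x⁻¹} : Set F)).val,
    (ffB K F ({x, x⁻¹} : Set F)).val, he,
    fun b => ffBAlgebra_val (K := K) (show ({x} : Set F) ⊆ {x, x⁻¹} by simp) b,
    fun b => ffBAlgebra_val (K := K) (show ({x⁻¹} : Set F) ⊆ {x, x⁻¹} by simp) b,
    Subtype.val_injective, Subtype.val_injective, Subtype.val_injective,
    fun f => ffB_frac h hx f, fun f => ffB_frac h hy f⟩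

end Chart

end Fermat.Agent.S27.H443

end
-- ===== PACK-END S27/H443/FFChart.lean

-- ===== PACK-BEGIN S27/H866/Main.lean
section




/-!
# Row S27, leaf CURVE-SCHEME (helper866)

`curveScheme : Stmt.CurveScheme k` : a curve chart `(B₀, B₁, B₀₁, x, y, e)` is the two-chart
presentation of the smooth proper integral pointed curve `Spec B₀ ∪ Spec B₁` (glued along
`Spec B₀₁`).
-/

set_option autoImplicit false
set_option linter.style.haveILetI false
set_option linter.unusedSectionVars false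

open CategoryTheory CategoryTheory.Limits AlgebraicGeometry Opposite
open AlgebraicGeometry.RelPicard NeronModelInfra GoodReductionJacobian
open scoped KaehlerDifferential

universe u

namespace Fermat.Agent.S27.H866

open Fermat.Agent.S25

section Smooth

lemma locally_isStandardSmooth_one (k B : Type u) [Field k] [CommRing B] [Algebra k B]
    [IsDomain B] [Algebra.Smooth k B] [Module.Invertible B Ω[B⁄k]] :
    RingHom.Locally (RingHom.IsStandardSmoothOfRelativeDimension 1) (algebraMap k B) := by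
  obtain ⟨s, hs, h⟩ := Algebra.Smooth.exists_span_eq_top_isStandardSmooth k B
  refine ⟨s \ {0}, ?_, ?_⟩
  · rw [← hs]
    exact Submodule.span_sdiff_singleton_zero
  · rintro t ⟨hts, ht0⟩
    have ht0' : t ≠ 0 := fun h0 => ht0 (by simpa using h0)
    rw [← IsScalarTower.algebraMap_eq, RingHom.isStandardSmoothOfRelativeDimension_algebraMap]
    haveI := h t hts
    haveI : Nontrivial (Localization.Away t) :=
      (IsLocalization.injective (Localization.Away t)
        (powers_le_nonZeroDivisors_of_noZeroDivisors ht0')).nontrivial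
    rw [Algebra.IsStandardSmoothOfRelativeDimension.iff_of_isStandardSmooth]
    haveI : Module.Invertible (Localization.Away t) Ω[Localization.Away t⁄k] :=
      Module.Invertible.congr
        (KaehlerDifferential.tensorKaehlerEquivOfFormallyEtale k B (Localization.Away t))
    exact_mod_cast Module.Invertible.rank_eq_one (R := Localization.Away t)
      (M := Ω[Localization.Away t⁄k])

lemma smoothOfRelativeDimension_one_specMap (k B : Type u) [Field k] [CommRing B] [Algebra k B]
    [IsDomain B] [Algebra.Smooth k B] [Module.Invertible B Ω[B⁄k]] :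
    SmoothOfRelativeDimension 1 (Spec.map (CommRingCat.ofHom (algebraMap k B))) := by
  rw [HasRingHomProperty.Spec_iff (P := @SmoothOfRelativeDimension 1)]
  exact locally_isStandardSmooth_one k B

end Smooth

noncomputable section

variable (k : Type u) [Field k] (B₀ B₁ B₀₁ : Type u) [CommRing B₀] [CommRing B₁] [CommRing B₀₁]
  [Algebra k B₀] [Algebra k B₁] [Algebra k B₀₁] [Algebra B₀ B₀₁] [Algebra B₁ B₀₁]
  [IsScalarTower k B₀ B₀₁] [IsScalarTower k B₁ B₀₁]
  [IsOpenImmersion (j₀ B₀ B₀₁)] [IsOpenImmersion (j₁ B₁ B₀₁)]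

/-- The two charts as an open cover. -/
def chartCover : (curve B₀ B₁ B₀₁).OpenCover :=
  Scheme.Cover.mkOfCovers Bool
    (fun b => Bool.rec (Spec (CommRingCat.of B₀)) (Spec (CommRingCat.of B₁)) b)
    (fun b => Bool.rec (motive := fun b => (Bool.rec (Spec (CommRingCat.of B₀))
      (Spec (CommRingCat.of B₁)) b : Scheme.{u}) ⟶ curve B₀ B₁ B₀₁)
      (ι₀ B₀ B₁ B₀₁) (ι₁ B₀ B₁ B₀₁) b)
    (fun p => by
      rcases curve_cases B₀ B₁ B₀₁ p with ⟨x, hx⟩ | ⟨y, hy⟩
      · exact ⟨false, x, hx⟩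
      · exact ⟨true, y, hy⟩)
    (fun b => by
      cases b
      · exact inferInstanceAs (IsOpenImmersion (ι₀ B₀ B₁ B₀₁))
      · exact inferInstanceAs (IsOpenImmersion (ι₁ B₀ B₁ B₀₁)))

lemma isReduced_curve [IsDomain B₀] [IsDomain B₁] : IsReduced (curve B₀ B₁ B₀₁) := by
  have : ∀ i, IsReduced ((chartCover B₀ B₁ B₀₁).X i) := by
    intro i
    cases i
    · exact inferInstanceAs (IsReduced (Spec (CommRingCat.of B₀)))
    · exact inferInstanceAs (IsReduced (Spec (CommRingCat.of B₁)))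
  exact IsReduced.of_openCover _ (chartCover B₀ B₁ B₀₁)

lemma irreducibleSpace_curve [IsDomain B₀] [IsDomain B₁] [Nontrivial B₀₁] :
    IrreducibleSpace (curve B₀ B₁ B₀₁) := by
  set η : Spec (CommRingCat.of B₀) := genericPoint (Spec (CommRingCat.of B₀)) with hη
  have hgen : closure ({η} : Set (Spec (CommRingCat.of B₀))) = Set.univ :=
    (genericPoint_spec (Spec (CommRingCat.of B₀))).def
  set Z : Set (curve B₀ B₁ B₀₁) := closure {ι₀ B₀ B₁ B₀₁ η} with hZ
  have hU₀ : ∀ a, ι₀ B₀ B₁ B₀₁ a ∈ Z := by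
    intro a
    have h1 : a ∈ closure ({η} : Set (Spec (CommRingCat.of B₀))) := by rw [hgen]; trivial
    have h2 := image_closure_subset_closure_image (ι₀ B₀ B₁ B₀₁).continuous
      (Set.mem_image_of_mem _ h1)
    rwa [Set.image_singleton] at h2
  have hU₁ : ∀ b, ι₁ B₀ B₁ B₀₁ b ∈ Z := by
    intro b
    by_contra hb
    have hWo : IsOpen ((ι₁ B₀ B₁ B₀₁) ⁻¹' Zᶜ) :=
      (isClosed_closure.isOpen_compl).preimage (ι₁ B₀ B₁ B₀₁).continuous
    have hVo : IsOpen (Set.range (j₁ B₁ B₀₁)) := (j₁ B₁ B₀₁).isOpenEmbedding.isOpen_range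
    obtain ⟨z⟩ : Nonempty (Spec (CommRingCat.of B₀₁)) :=
      inferInstanceAs (Nonempty (PrimeSpectrum B₀₁))
    obtain ⟨q, hq1, hq2⟩ := nonempty_preirreducible_inter hWo hVo ⟨b, hb⟩ ⟨_, ⟨z, rfl⟩⟩
    obtain ⟨z', rfl⟩ := hq2
    apply hq1
    have : ι₁ B₀ B₁ B₀₁ (j₁ B₁ B₀₁ z') = ι₀ B₀ B₁ B₀₁ (j₀ B₀ B₀₁ z') := by
      rw [← Scheme.Hom.comp_apply, ← Scheme.Hom.comp_apply, j₀_ι₀]
    rw [this]
    exact hU₀ _
  have hZuniv : Z = Set.univ := by
    rw [Set.eq_univ_iff_forall]
    intro p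
    rcases curve_cases B₀ B₁ B₀₁ p with ⟨a, rfl⟩ | ⟨b, rfl⟩
    · exact hU₀ a
    · exact hU₁ b
  have hirr : IsIrreducible Z := isIrreducible_singleton.closure
  rw [hZuniv] at hirr
  exact (irreducibleSpace_def _).mpr hirr

lemma isIntegral_curve [IsDomain B₀] [IsDomain B₁] [Nontrivial B₀₁] :
    IsIntegral (curve B₀ B₁ B₀₁) := by
  have := isReduced_curve B₀ B₁ B₀₁
  have := irreducibleSpace_curve B₀ B₁ B₀₁
  exact isIntegral_of_irreducibleSpace_of_isReduced _

lemma smooth_str [IsDomain B₀] [IsDomain B₁] [Algebra.Smooth k B₀] [Algebra.Smooth k B₁]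
    [Module.Invertible B₀ Ω[B₀⁄k]] [Module.Invertible B₁ Ω[B₁⁄k]] :
    SmoothOfRelativeDimension 1 (str k B₀ B₁ B₀₁) := by
  refine IsZariskiLocalAtSource.of_openCover (P := @SmoothOfRelativeDimension 1)
    (chartCover B₀ B₁ B₀₁) ?_
  intro i
  cases i
  · change SmoothOfRelativeDimension 1 (ι₀ B₀ B₁ B₀₁ ≫ str k B₀ B₁ B₀₁)
    rw [ι₀_str]
    exact smoothOfRelativeDimension_one_specMap k B₀
  · change SmoothOfRelativeDimension 1 (ι₁ B₀ B₁ B₀₁ ≫ str k B₀ B₁ B₀₁)
    rw [ι₁_str]
    exact smoothOfRelativeDimension_one_specMap k B₁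

lemma compactSpace_curve : CompactSpace (curve B₀ B₁ B₀₁) := by
  haveI : ∀ i, CompactSpace ((chartCover B₀ B₁ B₀₁).X i) := by
    intro i
    cases i
    · exact inferInstanceAs (CompactSpace (Spec (CommRingCat.of B₀)))
    · exact inferInstanceAs (CompactSpace (Spec (CommRingCat.of B₁)))
  haveI : Finite (chartCover B₀ B₁ B₀₁).I₀ := inferInstanceAs (Finite Bool)
  exact Scheme.OpenCover.compactSpace (chartCover B₀ B₁ B₀₁)

lemma isCompact_inf : IsCompact (X := curve B₀ B₁ B₀₁)
    ((U₀ B₀ B₁ B₀₁ : Set (curve B₀ B₁ B₀₁)) ∩ U₁ B₀ B₁ B₀₁) := by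
  have h : ((U₀ B₀ B₁ B₀₁ ⊓ U₁ B₀ B₁ B₀₁ : (curve B₀ B₁ B₀₁).Opens) : Set (curve B₀ B₁ B₀₁)) =
      Set.range (ι₀₁ B₀ B₁ B₀₁) := by
    rw [← opensRange_ι₀₁]
    rfl
  have h2 : IsCompact (Set.range (ι₀₁ B₀ B₁ B₀₁)) :=
    isCompact_range (ι₀₁ B₀ B₁ B₀₁).continuous
  rw [← h] at h2
  exact h2

lemma quasiSeparatedSpace_curve : QuasiSeparatedSpace (curve B₀ B₁ B₀₁) := by
  refine Scheme.quasiSeparatedSpace_of_isOpenCover
    (fun b : Bool => Bool.rec (U₀ B₀ B₁ B₀₁) (U₁ B₀ B₁ B₀₁) b) ?_ ?_ ?_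
  · rw [TopologicalSpace.IsOpenCover, eq_top_iff, ← U₀_sup_U₁ B₀ B₁ B₀₁]
    exact sup_le (le_iSup (fun b : Bool => (Bool.rec (U₀ B₀ B₁ B₀₁) (U₁ B₀ B₁ B₀₁) b :
      (curve B₀ B₁ B₀₁).Opens)) false)
      (le_iSup (fun b : Bool => (Bool.rec (U₀ B₀ B₁ B₀₁) (U₁ B₀ B₁ B₀₁) b :
      (curve B₀ B₁ B₀₁).Opens)) true)
  · intro i
    cases i
    · exact isAffineOpen_U₀ B₀ B₁ B₀₁
    · exact isAffineOpen_U₁ B₀ B₁ B₀₁
  · intro i j
    cases i <;> cases j
    · simpa using (isAffineOpen_U₀ B₀ B₁ B₀₁).isCompact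
    · exact isCompact_inf B₀ B₁ B₀₁
    · rw [Set.inter_comm]
      exact isCompact_inf B₀ B₁ B₀₁
    · simpa using (isAffineOpen_U₁ B₀ B₁ B₀₁).isCompact

lemma isProper_str (x : B₀) (y : B₁) [IsLocalization.Away x B₀₁] [IsLocalization.Away y B₀₁]
    (hxy : algebraMap B₀ B₀₁ x * algebraMap B₁ B₀₁ y = 1)
    (fin₀ : (Polynomial.aeval x : Polynomial k →ₐ[k] B₀).Finite)
    (fin₁ : (Polynomial.aeval y : Polynomial k →ₐ[k] B₁).Finite)
    [IsDomain B₀] [IsDomain B₁] [Algebra.Smooth k B₀] [Algebra.Smooth k B₁]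
    [Module.Invertible B₀ Ω[B₀⁄k]] [Module.Invertible B₁ Ω[B₁⁄k]] :
    IsProper (str k B₀ B₁ B₀₁) := by
  haveI := compactSpace_curve B₀ B₁ B₀₁
  haveI := quasiSeparatedSpace_curve B₀ B₁ B₀₁
  haveI := smooth_str k B₀ B₁ B₀₁
  haveI : QuasiCompact (str k B₀ B₁ B₀₁) := inferInstance
  haveI : QuasiSeparated (str k B₀ B₁ B₀₁) := inferInstance
  haveI : Smooth (str k B₀ B₁ B₀₁) := SmoothOfRelativeDimension.smooth 1 _
  haveI : LocallyOfFiniteType (str k B₀ B₁ B₀₁) := inferInstance
  exact IsProper.of_valuativeCriterion _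
    (valuativeCriterion_of_twoChart (curveTwoChart (k := k)) x y hxy fin₀ fin₁)

end

/-- **CURVE-SCHEME** (leaf of row S27): a curve chart is the two-chart presentation of a smooth
proper integral pointed curve. -/
theorem curveScheme (k : Type u) [Field k] : Stmt.CurveScheme k := by
  intro _ B₀ B₁ B₀₁ _ _ _ _ _ _ _ _ _ _ x y e hC
  haveI := hC.away₀
  haveI := hC.away₁
  haveI := hC.isDomain₀
  haveI := hC.isDomain₁
  haveI := hC.smooth₀
  haveI := hC.smooth₁
  haveI := hC.omega₀
  haveI := hC.omega₁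
  haveI : IsOpenImmersion (j₀ B₀ B₀₁) := IsOpenImmersion.of_isLocalization x
  haveI : IsOpenImmersion (j₁ B₁ B₀₁) := IsOpenImmersion.of_isLocalization y
  haveI : Nontrivial B₀₁ := H250.nontrivial_B01 hC
  refine ⟨curve B₀ B₁ B₀₁, str k B₀ B₁ B₀₁,
    isProper_str k B₀ B₁ B₀₁ x y hC.mul_eq_one hC.finite₀ hC.finite₁,
    smooth_str k B₀ B₁ B₀₁, isIntegral_curve B₀ B₁ B₀₁, eps k B₀ B₁ B₀₁ e,
    { B₀ := B₀
      B₁ := B₁
      B₀₁ := B₀₁
      x := x
      y := y
      e := e
      isCurveChart := hC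
      U₀ := U₀ B₀ B₁ B₀₁
      U₁ := U₁ B₀ B₁ B₀₁
      isAffine₀ := isAffineOpen_U₀ B₀ B₁ B₀₁
      isAffine₁ := isAffineOpen_U₁ B₀ B₁ B₀₁
      cover := U₀_sup_U₁ B₀ B₁ B₀₁
      i₀ := i₀ B₀ B₁ B₀₁
      i₁ := i₁ B₀ B₁ B₀₁
      i₀₁ := i₀₁ B₀ B₁ B₀₁
      i₀_str := i₀_str k B₀ B₁ B₀₁
      i₁_str := i₁_str k B₀ B₁ B₀₁
      i₀₁_res₀ := i₀₁_res₀ B₀ B₁ B₀₁
      i₀₁_res₁ := i₀₁_res₁ B₀ B₁ B₀₁
      inf_eq₀ := inf_eq₀ B₀ B₁ B₀₁ x
      inf_eq₁ := inf_eq₁ B₀ B₁ B₀₁ y
      eps_mem := eps_mem k B₀ B₁ B₀₁ e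
      e_eq := e_eq k B₀ B₁ B₀₁ e },
    AlgEquiv.refl, AlgEquiv.refl, AlgEquiv.refl, fun _ => rfl, fun _ => rfl⟩

end Fermat.Agent.S27.H866

end
-- ===== PACK-END S27/H866/Main.lean

-- ===== PACK-BEGIN Lib/RR/H638/CechFun.lean
section


/-!
# Čech formula for the two charts of a nonconstant function (helper638)

For a nonconstant `x : F` the finite sets `zerosOf x`, `polesOf x` are disjoint and nonempty, and

* `holOff (polesOf x) = {f | ∀ v, 0 ≤ ord_v x → 0 ≤ ord_v f}`  (the "finite chart" `B₀`),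
* `holOff (zerosOf x) = {f | ∀ v, ord_v x ≤ 0 → 0 ≤ ord_v f}`  (the "chart at infinity" `B∞`),
* `holOff (zerosOf x ∪ polesOf x) = {f | ∀ v, ord_v x = 0 → 0 ≤ ord_v f}`  (`Bm`).

Hence `dim_K Bm / (B₀ + B∞) = g` (`finrank_cech_of_fun`).
-/

set_option autoImplicit false

noncomputable section

open AlgebraicCurve

namespace Fermat.Agent.Lib.RR.H638

open Fermat.Agent.Lib.RR

variable {K F : Type*} [Field K] [Field F] [Algebra K F] [FF1 K F]

open scoped Classical in
/-- The zeros of a nonzero function. -/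
def zerosOf (x : F) (hx : x ≠ 0) : Finset (Place K F) :=
  (divOf (K := K) x hx).support.filter (fun v => 0 < v.ord x)

open scoped Classical in
/-- The poles of a nonzero function. -/
def polesOf (x : F) (hx : x ≠ 0) : Finset (Place K F) :=
  (divOf (K := K) x hx).support.filter (fun v => v.ord x < 0)

theorem mem_zerosOf {x : F} {hx : x ≠ 0} {v : Place K F} :
    v ∈ zerosOf (K := K) x hx ↔ 0 < v.ord x := by
  classical
  unfold zerosOf
  rw [Finset.mem_filter, Finsupp.mem_support_iff, divOf_apply]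
  exact ⟨fun h => h.2, fun h => ⟨ne_of_gt h, h⟩⟩

theorem mem_polesOf {x : F} {hx : x ≠ 0} {v : Place K F} :
    v ∈ polesOf (K := K) x hx ↔ v.ord x < 0 := by
  classical
  unfold polesOf
  rw [Finset.mem_filter, Finsupp.mem_support_iff, divOf_apply]
  exact ⟨fun h => h.2, fun h => ⟨ne_of_lt h, h⟩⟩

theorem disjoint_zerosOf_polesOf (x : F) (hx : x ≠ 0) :
    Disjoint (zerosOf (K := K) x hx) (polesOf (K := K) x hx) := by
  rw [Finset.disjoint_left]
  intro v hz hp
  rw [mem_zerosOf] at hz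
  rw [mem_polesOf] at hp
  omega

/-- A function without poles is constant. -/
theorem mem_range_of_polesOf_eq_empty {x : F} {hx : x ≠ 0}
    (h : polesOf (K := K) x hx = ∅) : x ∈ Set.range (algebraMap K F) := by
  have hL : x ∈ riemannRochSpace (0 : Divisor K F) := by
    rw [mem_L_iff]
    intro v
    right
    have hv : v ∉ polesOf (K := K) x hx := by rw [h]; exact Finset.notMem_empty v
    rw [mem_polesOf] at hv
    simpa using not_lt.mp hv
  rw [L_zero] at hL
  obtain ⟨c, hc⟩ := hL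
  exact ⟨c, hc⟩

theorem polesOf_nonempty {x : F} (hx : x ≠ 0) (hxc : x ∉ Set.range (algebraMap K F)) :
    (polesOf (K := K) x hx).Nonempty := by
  rw [Finset.nonempty_iff_ne_empty]
  exact fun h => hxc (mem_range_of_polesOf_eq_empty h)

theorem zerosOf_nonempty {x : F} (hx : x ≠ 0) (hxc : x ∉ Set.range (algebraMap K F)) :
    (zerosOf (K := K) x hx).Nonempty := by
  have hinv : x⁻¹ ∉ Set.range (algebraMap K F) := by
    rintro ⟨c, hc⟩
    apply hxc
    refine ⟨c⁻¹, ?_⟩
    rw [map_inv₀, hc, inv_inv]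
  obtain ⟨v, hv⟩ := polesOf_nonempty (K := K) (inv_ne_zero hx) hinv
  refine ⟨v, ?_⟩
  rw [mem_polesOf, v.ord_inv] at hv
  rw [mem_zerosOf]
  omega

theorem mem_holOff_polesOf {x : F} {hx : x ≠ 0} {f : F} :
    f ∈ holOff ((polesOf (K := K) x hx : Finset (Place K F)) : Set (Place K F)) ↔
      ∀ v : Place K F, 0 ≤ v.ord x → 0 ≤ v.ord f := by
  rw [mem_holOff]
  refine forall_congr' fun v => ?_
  rw [Finset.mem_coe, mem_polesOf, not_lt]

theorem mem_holOff_zerosOf {x : F} {hx : x ≠ 0} {f : F} :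
    f ∈ holOff ((zerosOf (K := K) x hx : Finset (Place K F)) : Set (Place K F)) ↔
      ∀ v : Place K F, v.ord x ≤ 0 → 0 ≤ v.ord f := by
  rw [mem_holOff]
  refine forall_congr' fun v => ?_
  rw [Finset.mem_coe, mem_zerosOf, not_lt]

theorem mem_holOff_zerosOf_union_polesOf {x : F} {hx : x ≠ 0} {f : F} :
    f ∈ holOff (((zerosOf (K := K) x hx : Finset (Place K F)) : Set (Place K F)) ∪
        (polesOf (K := K) x hx : Finset (Place K F))) ↔
      ∀ v : Place K F, v.ord x = 0 → 0 ≤ v.ord f := by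
  rw [mem_holOff]
  refine forall_congr' fun v => ?_
  rw [Set.mem_union, Finset.mem_coe, Finset.mem_coe, mem_zerosOf, mem_polesOf]
  constructor
  · intro h h0; exact h (by omega)
  · intro h h0; exact h (by omega)

/-- `B₀ + B∞` for the function `x`. -/
def funW (x : F) (hx : x ≠ 0) : Submodule K F :=
  cechW (zerosOf (K := K) x hx) (polesOf (K := K) x hx)

/-- `Bm` for the function `x`. -/
def funM (x : F) (hx : x ≠ 0) : Submodule K F :=
  cechM (zerosOf (K := K) x hx) (polesOf (K := K) x hx)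

theorem mem_funM {x : F} {hx : x ≠ 0} {f : F} :
    f ∈ funM (K := K) x hx ↔ ∀ v : Place K F, v.ord x = 0 → 0 ≤ v.ord f :=
  mem_holOff_zerosOf_union_polesOf

theorem mem_funW {x : F} {hx : x ≠ 0} {f : F} :
    f ∈ funW (K := K) x hx ↔ ∃ a b : F, (∀ v : Place K F, 0 ≤ v.ord x → 0 ≤ v.ord a) ∧
      (∀ v : Place K F, v.ord x ≤ 0 → 0 ≤ v.ord b) ∧ a + b = f := by
  unfold funW cechW
  rw [Submodule.mem_sup]
  constructor
  · rintro ⟨a, ha, b, hb, rfl⟩
    exact ⟨a, b, mem_holOff_polesOf.mp ha, mem_holOff_zerosOf.mp hb, rfl⟩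
  · rintro ⟨a, b, ha, hb, rfl⟩
    exact ⟨a, mem_holOff_polesOf.mpr ha, b, mem_holOff_zerosOf.mpr hb, rfl⟩

/-- **Čech formula for the genus, for the two charts `x ≠ ∞`, `x ≠ 0`** of a nonconstant
function `x`:  `dim_K Bm ⧸ (B₀ + B∞) = g`. -/
theorem finrank_cech_of_fun {g : ℕ} (hg : IsRiemannGenus K F g) {x : F} (hx : x ≠ 0)
    (hxc : x ∉ Set.range (algebraMap K F)) :
    Module.Finite K (↥(funM (K := K) x hx) ⧸ (funW (K := K) x hx).submoduleOf (funM x hx)) ∧
      Module.finrank K (↥(funM (K := K) x hx) ⧸ (funW (K := K) x hx).submoduleOf (funM x hx))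
        = g :=
  finrank_cech_quot _ _ hg (disjoint_zerosOf_polesOf x hx) (zerosOf_nonempty hx hxc)
    (polesOf_nonempty hx hxc)

/-- Upper bound: `g ≤ #h` if `Bm ⊆ span h + B₀ + B∞`. -/
theorem genus_le_of_span_fun {g : ℕ} (hg : IsRiemannGenus K F g) {x : F} (hx : x ≠ 0)
    (hxc : x ∉ Set.range (algebraMap K F)) {ι : Type*} [Fintype ι] (h : ι → F)
    (hspan : funM (K := K) x hx ≤ Submodule.span K (Set.range h) ⊔ funW x hx) :
    g ≤ Fintype.card ι :=
  genus_le_of_span _ _ hg (disjoint_zerosOf_polesOf x hx) (zerosOf_nonempty hx hxc)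
    (polesOf_nonempty hx hxc) h hspan

/-- Lower bound: `#h ≤ g` if the `h i ∈ Bm` are linearly independent modulo `B₀ + B∞`. -/
theorem le_genus_of_indep_fun {g : ℕ} (hg : IsRiemannGenus K F g) {x : F} (hx : x ≠ 0)
    (hxc : x ∉ Set.range (algebraMap K F)) {ι : Type*} [Fintype ι] (h : ι → F)
    (hM : ∀ i, h i ∈ funM (K := K) x hx)
    (hind : ∀ c : ι → K, ∑ i, c i • h i ∈ funW (K := K) x hx → c = 0) :
    Fintype.card ι ≤ g :=
  le_genus_of_indep' _ _ hg (disjoint_zerosOf_polesOf x hx) (zerosOf_nonempty hx hxc)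
    (polesOf_nonempty hx hxc) h hM hind

end Fermat.Agent.Lib.RR.H638

end
end
-- ===== PACK-END Lib/RR/H638/CechFun.lean

-- ===== PACK-BEGIN S37/H697/LiftCore.lean
section





/-!
# S37 / board v3, leaf D3 (helper697): the core of `LiftLeaf`

For a number field `E ⊆ ℚ̄` and the concrete model `(Ec, Fc, Rc, Vc)` of row S18 at level `M`:

* `Red M A E f c` : the reduction relation between `Vc M A E ⊆ F_M` and `k((q))`
  (`f = U₁/U₂`, `c = Ū₁/Ū₂`); it is functional, a ring homomorphism, compatible with inverses,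
  and surjective onto `κ_E(j̄(q^d) : d ∣ M)` (`exists_red_of_mem_closure`);
* `lift_core` : for a good model with coordinate `y = toOm Y` (`Y` an integral series) and the
  normality statement (D2): `H759.LiftAtLevel A M E y Ȳ`.
-/

set_option autoImplicit false
set_option synthInstance.maxHeartbeats 400000
set_option maxHeartbeats 1600000
set_option linter.unusedSectionVars false
set_option linter.unusedVariables false
set_option linter.style.haveILetI false

noncomputable section

namespace Fermat.Agent.S37.H697.Lift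

open ModularCurve AlgebraicCurve HahnSeries IsLocalRing Polynomial
open Fermat.Agent.S18 Fermat.Agent.S18.Mod Fermat.Agent.S18.Mod.H216 Fermat.Agent.S37.Red

variable (M : ℕ) (A : ValuationSubring _root_.Fermat.Agent.S18.Qb) (E : IntermediateField ℚ _root_.Fermat.Agent.S18.Qb)

/-- the residue field of `A` -/
abbrev kA : Type := ResidueField A

/-- The reduction relation: `f = U₁/U₂`, `c = Ū₁/Ū₂` with `E`-rational integral series. -/
def Red (f : Om M) (c : LaurentSeries (_root_.Fermat.Agent.S37.H697.Lift.kA A)) : Prop :=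
  ∃ U₁ U₂ : ↥(intE M A E), redE M A E U₂ ≠ 0 ∧ f * toOm M A E U₂ = toOm M A E U₁ ∧
    c * redE M A E U₂ = redE M A E U₁

variable {M A E}

theorem Red.mem_Vc {f : Om M} {c : LaurentSeries (_root_.Fermat.Agent.S37.H697.Lift.kA A)} (h : Red M A E f c) :
    f ∈ Vc M A E := by
  obtain ⟨U₁, U₂, hne, hf, -⟩ := h
  exact (mem_Vc_iff' M A E).mpr ⟨U₁, U₂, hne, hf⟩

theorem exists_red_of_mem_Vc {f : Om M} (hf : f ∈ Vc M A E) : ∃ c, Red M A E f c := by
  obtain ⟨U₁, U₂, hne, hf⟩ := (mem_Vc_iff' M A E).mp hf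
  exact ⟨redE M A E U₁ * (redE M A E U₂)⁻¹, U₁, U₂, hne, hf, by
    rw [mul_assoc, inv_mul_cancel₀ hne, mul_one]⟩

theorem Red.unique {f : Om M} {c c' : LaurentSeries (_root_.Fermat.Agent.S37.H697.Lift.kA A)} (h : Red M A E f c)
    (h' : Red M A E f c') : c = c' := by
  obtain ⟨U₁, U₂, hne, hf, hc⟩ := h
  obtain ⟨W₁, W₂, kne, kf, kc⟩ := h'
  have h1 : toOm M A E (U₁ * W₂) = toOm M A E (W₁ * U₂) := by
    rw [map_mul, map_mul, ← hf, ← kf]
    ring
  have h2 : U₁ * W₂ = W₁ * U₂ := toOm_injective M A E h1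
  have h3 : redE M A E U₁ * redE M A E W₂ = redE M A E W₁ * redE M A E U₂ := by
    rw [← map_mul, ← map_mul, h2]
  have h4 : (c - c') * (redE M A E U₂ * redE M A E W₂) = 0 := by
    have e1 : c * (redE M A E U₂ * redE M A E W₂) = redE M A E U₁ * redE M A E W₂ := by
      rw [← mul_assoc, hc]
    have e2 : c' * (redE M A E U₂ * redE M A E W₂) = redE M A E W₁ * redE M A E U₂ := by
      rw [mul_comm (redE M A E U₂), ← mul_assoc, kc]
    rw [sub_mul, e1, e2, h3, sub_self]
  rcases mul_eq_zero.mp h4 with h | h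
  · exact sub_eq_zero.mp h
  · exact absurd h (mul_ne_zero hne kne)

theorem Red.ofInt (U : ↥(intE M A E)) : Red M A E (toOm M A E U) (redE M A E U) :=
  ⟨U, 1, by rw [map_one]; exact one_ne_zero, by rw [map_one, mul_one], by rw [map_one, mul_one]⟩

theorem Red.zero : Red M A E (0 : Om M) 0 := by
  simpa using Red.ofInt (M := M) (A := A) (E := E) 0

theorem Red.one : Red M A E (1 : Om M) 1 := by
  simpa using Red.ofInt (M := M) (A := A) (E := E) 1

theorem Red.add {f g : Om M} {c d : LaurentSeries (_root_.Fermat.Agent.S37.H697.Lift.kA A)} (h : Red M A E f c)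
    (h' : Red M A E g d) : Red M A E (f + g) (c + d) := by
  obtain ⟨U₁, U₂, hne, hf, hc⟩ := h
  obtain ⟨W₁, W₂, kne, kf, kc⟩ := h'
  refine ⟨U₁ * W₂ + W₁ * U₂, U₂ * W₂, ?_, ?_, ?_⟩
  · rw [map_mul]
    exact mul_ne_zero hne kne
  · rw [map_add, map_mul, map_mul, map_mul, ← hf, ← kf]
    ring
  · rw [map_add, map_mul, map_mul, map_mul, ← hc, ← kc]
    ring

theorem Red.mul {f g : Om M} {c d : LaurentSeries (_root_.Fermat.Agent.S37.H697.Lift.kA A)} (h : Red M A E f c)
    (h' : Red M A E g d) : Red M A E (f * g) (c * d) := by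
  obtain ⟨U₁, U₂, hne, hf, hc⟩ := h
  obtain ⟨W₁, W₂, kne, kf, kc⟩ := h'
  refine ⟨U₁ * W₁, U₂ * W₂, ?_, ?_, ?_⟩
  · rw [map_mul]
    exact mul_ne_zero hne kne
  · rw [map_mul, map_mul, ← hf, ← kf]
    ring
  · rw [map_mul, map_mul, ← hc, ← kc]
    ring

theorem Red.neg {f : Om M} {c : LaurentSeries (_root_.Fermat.Agent.S37.H697.Lift.kA A)} (h : Red M A E f c) :
    Red M A E (-f) (-c) := by
  obtain ⟨U₁, U₂, hne, hf, hc⟩ := h
  refine ⟨-U₁, U₂, hne, ?_, ?_⟩
  · rw [map_neg, ← hf]
    ring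
  · rw [map_neg, ← hc]
    ring

theorem Red.sub {f g : Om M} {c d : LaurentSeries (_root_.Fermat.Agent.S37.H697.Lift.kA A)} (h : Red M A E f c)
    (h' : Red M A E g d) : Red M A E (f - g) (c - d) := by
  rw [sub_eq_add_neg, sub_eq_add_neg]
  exact h.add h'.neg

theorem Red.inv {f : Om M} {c : LaurentSeries (_root_.Fermat.Agent.S37.H697.Lift.kA A)} (h : Red M A E f c) (hc0 : c ≠ 0) :
    Red M A E f⁻¹ c⁻¹ := by
  obtain ⟨U₁, U₂, hne, hf, hc⟩ := h
  have h1 : redE M A E U₁ ≠ 0 := by
    rw [← hc]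
    exact mul_ne_zero hc0 hne
  have h1' : toOm M A E U₁ ≠ 0 := toOm_ne_zero_of_redE M A E h1
  have h2' : toOm M A E U₂ ≠ 0 := toOm_ne_zero_of_redE M A E hne
  have hf0 : f ≠ 0 := by
    rintro rfl
    rw [zero_mul] at hf
    exact h1' hf.symm
  refine ⟨U₂, U₁, h1, ?_, ?_⟩
  · rw [← hf]
    field_simp
  · rw [← hc]
    field_simp

/-- the ring of compatible pairs -/
def redRing (M : ℕ) (A : ValuationSubring _root_.Fermat.Agent.S18.Qb) (E : IntermediateField ℚ _root_.Fermat.Agent.S18.Qb) :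
    Subring (Om M × LaurentSeries (_root_.Fermat.Agent.S37.H697.Lift.kA A)) where
  carrier := {p | Red M A E p.1 p.2}
  zero_mem' := Red.zero
  one_mem' := Red.one
  add_mem' := fun h h' => h.add h'
  mul_mem' := fun h h' => h.mul h'
  neg_mem' := fun h => h.neg

theorem mem_redRing {p : Om M × LaurentSeries (_root_.Fermat.Agent.S37.H697.Lift.kA A)} :
    p ∈ redRing M A E ↔ Red M A E p.1 p.2 := Iff.rfl


/-! ### Generators -/

theorem Red.const {a : _root_.Fermat.Agent.S18.Qb} (haA : a ∈ A) (haE : a ∈ E) :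
    Red M A E (algebraMap _root_.Fermat.Agent.S18.Qb (Om M) a)
      (algebraMap (_root_.Fermat.Agent.S37.H697.Lift.kA A) (LaurentSeries (_root_.Fermat.Agent.S37.H697.Lift.kA A)) (residue A ⟨a, haA⟩)) := by
  have h := Red.ofInt (cInt M A E haA haE)
  rw [toOm_cInt, redE_cInt] at h
  rw [algebraMap_laurentSeries_eq_single, ← HahnSeries.C_apply]
  exact h

theorem jqNModC_mem_intE (d : ℕ) [NeZero d] (hd : d ∣ M) :
    (jqNModC ↥A d : LaurentSeries ↥A) ∈ intE M A E := by
  rw [mem_intE]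
  refine ⟨fun n => ?_, jd M d hd, Subfield.subset_closure (Or.inr ⟨d, inferInstance, hd, rfl⟩), ?_⟩
  · have h1 : jqNModC ↥A d = coeffMap (Int.castRingHom ↥A) (jqNModC ℤ d) :=
      (coeffMap_jqNModC (Int.castRingHom ↥A) d).symm
    rw [h1, coeffMap_coeff]
    simp only [eq_intCast, SubringClass.coe_intCast]
    exact intCast_mem E _
  · show coeffEmb _root_.Fermat.Agent.S18.Qb (qExpand ℚ d jq) = coeffMap A.subtype (jqNModC ↥A d)
    rw [coeffMap_jqNModC, Fermat.Agent.S18.H602.coeffEmb_qExpand_jq]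
    rfl

theorem Red.jd (d : ℕ) [NeZero d] (hd : d ∣ M) :
    Red M A E (jd M d hd) (qExpand (_root_.Fermat.Agent.S37.H697.Lift.kA A) d (jqModC (_root_.Fermat.Agent.S37.H697.Lift.kA A))) := by
  have h := Red.ofInt (M := M) (A := A) (E := E) ⟨jqNModC ↥A d, jqNModC_mem_intE d hd⟩
  have h1 : H216.toOm M A E ⟨jqNModC ↥A d, jqNModC_mem_intE d hd⟩ = Mod.jd M d hd := by
    apply Subtype.ext
    rw [coe_toOm]
    show coeffMap A.subtype (jqNModC ↥A d) = coeffEmb _root_.Fermat.Agent.S18.Qb (qExpand ℚ d jq)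
    rw [coeffMap_jqNModC, Fermat.Agent.S18.H602.coeffEmb_qExpand_jq]
    rfl
  have h2 : redE M A E ⟨jqNModC ↥A d, jqNModC_mem_intE d hd⟩ =
      qExpand (_root_.Fermat.Agent.S37.H697.Lift.kA A) d (jqModC (_root_.Fermat.Agent.S37.H697.Lift.kA A)) := by
    show coeffMap (residue ↥A) (jqNModC ↥A d) = _
    rw [coeffMap_jqNModC]
    rfl
  rw [h1, h2] at h
  exact h

/-- **Surjectivity of the reduction** onto `κ_E(j̄(q^d) : d ∣ M)`. -/
theorem exists_red_of_mem_closure {c : LaurentSeries (_root_.Fermat.Agent.S37.H697.Lift.kA A)}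
    (hc : c ∈ Subfield.closure (H759.constk A E ∪ divisorExpansionsC (_root_.Fermat.Agent.S37.H697.Lift.kA A) M)) :
    ∃ f, Red M A E f c := by
  induction hc using Subfield.closure_induction with
  | mem c hc =>
    rcases hc with ⟨a, haE, rfl⟩ | ⟨d, hd, hdM, rfl⟩
    · exact ⟨_, Red.const a.2 haE⟩
    · haveI := hd
      exact ⟨_, Red.jd d hdM⟩
  | one => exact ⟨1, Red.one⟩
  | add x y _ _ hx hy =>
    obtain ⟨f, hf⟩ := hx
    obtain ⟨g, hg⟩ := hy
    exact ⟨f + g, hf.add hg⟩
  | neg x _ hx =>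
    obtain ⟨f, hf⟩ := hx
    exact ⟨-f, hf.neg⟩
  | inv x _ hx =>
    obtain ⟨f, hf⟩ := hx
    by_cases h0 : x = 0
    · subst h0
      exact ⟨0, by rw [inv_zero]; exact Red.zero⟩
    · exact ⟨f⁻¹, hf.inv h0⟩
  | mul x y _ _ hx hy =>
    obtain ⟨f, hf⟩ := hx
    obtain ⟨g, hg⟩ := hy
    exact ⟨f * g, hf.mul hg⟩

/-! ### The kernel of the reduction -/

section Kernel

variable {V : Subring (Om M)} {w x : Om M} {S : Finset (Om M)}

theorem Red.mul_inv_w_mem (G : Alg.GoodModel (Lc M) (Ec M E) (Fc M E) (Rc M A E) V w x S)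
    (hV : (V : Set (Om M)) = VcSet M A E) {f : Om M} (h : Red M A E f 0) : f * w⁻¹ ∈ V := by
  have hVc : V = Vc M A E := SetLike.coe_injective hV
  by_cases hf0 : f = 0
  · rw [hf0, zero_mul]
    exact zero_mem V
  · refine G.V_gen f (hVc ▸ h.mem_Vc) ?_
    intro hinv
    obtain ⟨d, hd⟩ := exists_red_of_mem_Vc (hVc ▸ hinv : f⁻¹ ∈ Vc M A E)
    have h1 := h.mul hd
    rw [mul_inv_cancel₀ hf0, zero_mul] at h1
    exact one_ne_zero (h1.unique Red.one).symm

theorem Red.unif (G : Alg.GoodModel (Lc M) (Ec M E) (Fc M E) (Rc M A E) V w x S) :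
    Red M A E w 0 := by
  obtain ⟨a, haA, haE, rfl⟩ := (mem_Rc_iff M A E).mp G.w_mem
  have h := Red.const (M := M) haA haE
  have hres : residue A ⟨a, haA⟩ = 0 := by
    rw [residue_eq_zero_iff, mem_maximalIdeal, mem_nonunits_iff]
    intro hu
    apply G.w_inv_not_mem
    have ha0 : a ≠ 0 := by
      rintro rfl
      exact G.w_ne_zero (map_zero _)
    have hinvA : a⁻¹ ∈ A := by
      obtain ⟨u, hu'⟩ := hu
      have h1 : ((↑u⁻¹ : A) : _root_.Fermat.Agent.S18.Qb) = a⁻¹ := by
        have h2 : ((↑u : A) : _root_.Fermat.Agent.S18.Qb) * ((↑u⁻¹ : A) : _root_.Fermat.Agent.S18.Qb) = 1 := by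
          rw [← A.coe_mul, Units.mul_inv, A.coe_one]
        rw [hu'] at h2
        exact eq_inv_of_mul_eq_one_right h2
      rw [← h1]
      exact (↑u⁻¹ : A).2
    rw [← map_inv₀]
    exact (mem_Rc_iff M A E).mpr ⟨a⁻¹, hinvA, inv_mem haE, rfl⟩
  rw [hres, map_zero] at h
  exact h

theorem Red.of_sub_mul_inv_w_mem (G : Alg.GoodModel (Lc M) (Ec M E) (Fc M E) (Rc M A E) V w x S)
    (hV : (V : Set (Om M)) = VcSet M A E) {f b : Om M} {c : LaurentSeries (_root_.Fermat.Agent.S37.H697.Lift.kA A)}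
    (h : Red M A E f c) (hb : (f - b) * w⁻¹ ∈ V) : Red M A E b c := by
  have hVc : V = Vc M A E := SetLike.coe_injective hV
  obtain ⟨d, hd⟩ := exists_red_of_mem_Vc (hVc ▸ hb : (f - b) * w⁻¹ ∈ Vc M A E)
  have h1 := hd.mul (Red.unif G)
  rw [mul_zero, mul_assoc, inv_mul_cancel₀ G.w_ne_zero, mul_one] at h1
  have h2 := h.sub h1
  rw [sub_sub_cancel, sub_zero] at h2
  exact h2

end Kernel


/-! ### Lifting the integrality equation -/

section Graph

variable (M A E) in
/-- generators of the graph of the reduction on `R[y]` -/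
def graphGens (y : Om M) (s : LaurentSeries (_root_.Fermat.Agent.S37.H697.Lift.kA A)) : Set (Om M × LaurentSeries (_root_.Fermat.Agent.S37.H697.Lift.kA A)) :=
  {p | ∃ a : A, (a : _root_.Fermat.Agent.S18.Qb) ∈ E ∧ p = (algebraMap _root_.Fermat.Agent.S18.Qb (Om M) (a : _root_.Fermat.Agent.S18.Qb),
    algebraMap (_root_.Fermat.Agent.S37.H697.Lift.kA A) (LaurentSeries (_root_.Fermat.Agent.S37.H697.Lift.kA A)) (residue A a))} ∪ {(y, s)}

variable (M A E) in
/-- the graph of the reduction on `R[y]` -/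
def graphRing (y : Om M) (s : LaurentSeries (_root_.Fermat.Agent.S37.H697.Lift.kA A)) : Subring (Om M × LaurentSeries (_root_.Fermat.Agent.S37.H697.Lift.kA A)) :=
  Subring.closure (graphGens M A E y s)

variable {y : Om M} {s : LaurentSeries (_root_.Fermat.Agent.S37.H697.Lift.kA A)}

theorem graphRing_le_redRing (hys : Red M A E y s) : graphRing M A E y s ≤ redRing M A E := by
  rw [graphRing, Subring.closure_le]
  rintro p (⟨a, haE, rfl⟩ | hp)
  · exact Red.const a.2 haE
  · rw [Set.mem_singleton_iff] at hp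
    subst hp
    exact hys

theorem fst_mem_polyRing {p : Om M × LaurentSeries (_root_.Fermat.Agent.S37.H697.Lift.kA A)} (hp : p ∈ graphRing M A E y s) :
    p.1 ∈ Alg.polyRing (Rc M A E) y := by
  have hle : graphRing M A E y s ≤
      (Alg.polyRing (Rc M A E) y).comap (RingHom.fst (Om M) (LaurentSeries (_root_.Fermat.Agent.S37.H697.Lift.kA A))) := by
    rw [graphRing, Subring.closure_le]
    rintro q (⟨a, haE, rfl⟩ | hq)
    · exact Subring.subset_closure (Or.inl ((mem_Rc_iff M A E).mpr ⟨a, a.2, haE, rfl⟩))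
    · rw [Set.mem_singleton_iff] at hq
      subst hq
      exact Subring.subset_closure (Or.inr rfl)
  exact hle hp

theorem snd_mem_closure {p : Om M × LaurentSeries (_root_.Fermat.Agent.S37.H697.Lift.kA A)} (hp : p ∈ graphRing M A E y s) :
    p.2 ∈ Subring.closure (H759.constk A E ∪ {s}) := by
  have hle : graphRing M A E y s ≤
      (Subring.closure (H759.constk A E ∪ {s})).comap
        (RingHom.snd (Om M) (LaurentSeries (_root_.Fermat.Agent.S37.H697.Lift.kA A))) := by
    rw [graphRing, Subring.closure_le]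
    rintro q (⟨a, haE, rfl⟩ | hq)
    · exact Subring.subset_closure (Or.inl ⟨a, haE, rfl⟩)
    · rw [Set.mem_singleton_iff] at hq
      subst hq
      exact Subring.subset_closure (Or.inr rfl)
  exact hle hp

theorem exists_mem_graphRing {c : LaurentSeries (_root_.Fermat.Agent.S37.H697.Lift.kA A)}
    (hc : c ∈ Subring.closure (H759.constk A E ∪ {s})) :
    ∃ p ∈ graphRing M A E y s, p.2 = c := by
  induction hc using Subring.closure_induction with
  | mem c hc =>
    rcases hc with ⟨a, haE, rfl⟩ | hc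
    · exact ⟨_, Subring.subset_closure (Or.inl ⟨a, haE, rfl⟩), rfl⟩
    · rw [Set.mem_singleton_iff] at hc
      subst hc
      exact ⟨(y, c), Subring.subset_closure (Or.inr rfl), rfl⟩
  | zero => exact ⟨0, zero_mem _, rfl⟩
  | one => exact ⟨1, one_mem _, rfl⟩
  | add a b _ _ ha hb =>
    obtain ⟨p, hp, rfl⟩ := ha
    obtain ⟨q, hq, rfl⟩ := hb
    exact ⟨p + q, add_mem hp hq, rfl⟩
  | neg a _ ha =>
    obtain ⟨p, hp, rfl⟩ := ha
    exact ⟨-p, neg_mem hp, rfl⟩
  | mul a b _ _ ha hb =>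
    obtain ⟨p, hp, rfl⟩ := ha
    obtain ⟨q, hq, rfl⟩ := hb
    exact ⟨p * q, mul_mem hp hq, rfl⟩

/-- **Lifting the integrality equation.** -/
theorem exists_monic_lift (hys : Red M A E y s) {f : Om M} {c : LaurentSeries (_root_.Fermat.Agent.S37.H697.Lift.kA A)}
    (hfc : Red M A E f c) (hint : IsIntegral (Subring.closure (H759.constk A E ∪ {s})) c) :
    ∃ P : Polynomial (Om M), P.Monic ∧ (∀ i, P.coeff i ∈ Alg.polyRing (Rc M A E) y) ∧
      Red M A E (P.eval f) 0 := by
  obtain ⟨Pb, hPb, hroot⟩ := hint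
  -- the projection of the graph onto the base ring
  let φ : ↥(graphRing M A E y s) →+* ↥(Subring.closure (H759.constk A E ∪ {s})) :=
    ((RingHom.snd (Om M) (LaurentSeries (_root_.Fermat.Agent.S37.H697.Lift.kA A))).comp (graphRing M A E y s).subtype).codRestrict
      _ (fun p => snd_mem_closure p.2)
  have hφ : Function.Surjective φ := by
    rintro ⟨c, hc⟩
    obtain ⟨p, hp, rfl⟩ := exists_mem_graphRing (M := M) (y := y) hc
    exact ⟨⟨p, hp⟩, rfl⟩
  have hlift : Pb ∈ Polynomial.lifts φ := by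
    rw [Polynomial.lifts_iff_coeff_lifts]
    intro n
    exact hφ _
  obtain ⟨Q, hQ, -, hQm⟩ := Polynomial.lifts_and_natDegree_eq_and_monic hlift hPb
  let ι : ↥(graphRing M A E y s) →+* ↥(redRing M A E) :=
    Subring.inclusion (graphRing_le_redRing hys)
  let fstR : ↥(redRing M A E) →+* Om M :=
    (RingHom.fst (Om M) (LaurentSeries (_root_.Fermat.Agent.S37.H697.Lift.kA A))).comp (redRing M A E).subtype
  let sndR : ↥(redRing M A E) →+* LaurentSeries (_root_.Fermat.Agent.S37.H697.Lift.kA A) :=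
    (RingHom.snd (Om M) (LaurentSeries (_root_.Fermat.Agent.S37.H697.Lift.kA A))).comp (redRing M A E).subtype
  let pt : ↥(redRing M A E) := ⟨(f, c), hfc⟩
  let z : ↥(redRing M A E) := (Q.map ι).eval pt
  refine ⟨Q.map (fstR.comp ι), hQm.map _, fun i => ?_, ?_⟩
  · rw [Polynomial.coeff_map]
    exact fst_mem_polyRing (Q.coeff i).2
  · have hz : Red M A E z.1.1 z.1.2 := z.2
    have h1 : z.1.1 = (Q.map (fstR.comp ι)).eval f := by
      show fstR ((Q.map ι).eval pt) = _
      rw [← Polynomial.eval₂_at_apply, ← Polynomial.eval_map, Polynomial.map_map]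
      rfl
    have h2 : z.1.2 = 0 := by
      show sndR ((Q.map ι).eval pt) = _
      rw [← Polynomial.eval₂_at_apply, ← Polynomial.eval_map, Polynomial.map_map]
      have h3 : sndR.comp ι = (Subring.closure (H759.constk A E ∪ {s})).subtype.comp φ := rfl
      rw [h3, ← Polynomial.map_map, hQ, Polynomial.eval_map]
      exact hroot
    rw [h1, h2] at hz
    exact hz

end Graph

/-! ### Integrality over `A[y]` and INT-Q -/

section IntQ

variable {y : Om M}

theorem polyRing_le_range (Y : ↥(intE M A E)) (hY : H216.toOm M A E Y = y) :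
    Alg.polyRing (Rc M A E) y ≤ (H216.toOm M A E).range := by
  rw [Alg.polyRing, Subring.closure_le]
  rintro r (hr | hr)
  · obtain ⟨a, haA, haE, rfl⟩ := (mem_Rc_iff M A E).mp hr
    exact ⟨cInt M A E haA haE, toOm_cInt M A E haA haE⟩
  · rw [Set.mem_singleton_iff] at hr
    subst hr
    exact ⟨Y, hY⟩

theorem polyRing_le_comap (y : Om M) :
    Alg.polyRing (Rc M A E) y ≤
      (Subring.closure (H759.constAll A ∪ {(y : LaurentSeries _root_.Fermat.Agent.S18.Qb)})).comap (omVal M) := by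
  rw [Alg.polyRing, Subring.closure_le]
  rintro r (hr | hr)
  · obtain ⟨a, haA, haE, rfl⟩ := (mem_Rc_iff M A E).mp hr
    exact Subring.subset_closure (Or.inl ⟨⟨a, haA⟩, rfl⟩)
  · rw [Set.mem_singleton_iff] at hr
    subst hr
    exact Subring.subset_closure (Or.inr rfl)

/-- integrality over `R[y]` inside `F_M` gives integrality over `A[y]` inside `ℚ̄((q))` -/
theorem isIntegral_coe {b : Om M} (hb : IsIntegral (Alg.polyRing (Rc M A E) y) b) :
    IsIntegral (Subring.closure (H759.constAll A ∪ {(y : LaurentSeries _root_.Fermat.Agent.S18.Qb)}))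
      (b : LaurentSeries _root_.Fermat.Agent.S18.Qb) := by
  obtain ⟨p, hp, hpb⟩ := hb
  let θ : ↥(Alg.polyRing (Rc M A E) y) →+*
      ↥(Subring.closure (H759.constAll A ∪ {(y : LaurentSeries _root_.Fermat.Agent.S18.Qb)})) :=
    ((omVal M).comp (Alg.polyRing (Rc M A E) y).subtype).codRestrict _
      (fun r => polyRing_le_comap (A := A) (E := E) y r.2)
  refine ⟨p.map θ, hp.map θ, ?_⟩
  rw [Polynomial.eval₂_map]
  have h1 : (algebraMap ↥(Subring.closure (H759.constAll A ∪ {(y : LaurentSeries _root_.Fermat.Agent.S18.Qb)}))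
      (LaurentSeries _root_.Fermat.Agent.S18.Qb)).comp θ =
      (omVal M).comp (algebraMap ↥(Alg.polyRing (Rc M A E) y) (Om M)) := rfl
  rw [h1, ← omVal_apply, ← Polynomial.hom_eval₂, hpb, map_zero]

/-- the integrality equation of `b` over `R[y]`, with coefficients integral `q`-series -/
theorem exists_intQ_poly (Y : ↥(intE M A E)) (hY : H216.toOm M A E Y = y) {b : Om M}
    (hb : IsIntegral (Alg.polyRing (Rc M A E) y) b) :
    ∃ q : Polynomial (LaurentSeries ↥A), q.Monic ∧
      (∀ i, coeffMap A.subtype (q.coeff i) ∈ modularFunctionFieldBar M) ∧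
      q.eval₂ (coeffMap A.subtype) (b : LaurentSeries _root_.Fermat.Agent.S18.Qb) = 0 := by
  obtain ⟨p, hp, hpb⟩ := hb
  have hlift : p.map (Alg.polyRing (Rc M A E) y).subtype ∈ Polynomial.lifts (H216.toOm M A E) := by
    rw [Polynomial.lifts_iff_coeff_lifts]
    intro n
    rw [Polynomial.coeff_map]
    exact polyRing_le_range Y hY (p.coeff n).2
  obtain ⟨Q, hQ, -, hQm⟩ := Polynomial.lifts_and_natDegree_eq_and_monic hlift (hp.map _)
  refine ⟨Q.map (intE M A E).subtype, hQm.map _, fun i => ?_, ?_⟩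
  · rw [Polynomial.coeff_map]
    exact inclA_mem_bar M A E (Q.coeff i)
  · rw [Polynomial.eval₂_map]
    have h1 : (coeffMap A.subtype).comp (intE M A E).subtype =
        (omVal M).comp (H216.toOm M A E) := rfl
    rw [h1, ← omVal_apply, ← Polynomial.hom_eval₂, ← Polynomial.eval_map, hQ,
      Polynomial.eval_map]
    have h2 : (Alg.polyRing (Rc M A E) y).subtype =
        algebraMap ↥(Alg.polyRing (Rc M A E) y) (Om M) := rfl
    rw [h2, hpb, map_zero]

end IntQ

/-! ### The core -/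

/-- (D2), verbatim copy of `Fermat.Agent.S37.Core.NormalAbsStatement` -/
def NormalAbs : Prop :=
  ∀ (Ω : Type) [Field Ω] (Lc Ec Fc : Subfield Ω) (R V : Subring Ω) (w x : Ω) (S : Finset Ω),
    Alg.GoodModel Lc Ec Fc R V w x S →
    ∀ f ∈ V, ∀ P : Polynomial Ω, P.Monic → (∀ i, P.coeff i ∈ Alg.polyRing R x) →
      P.eval f * w⁻¹ ∈ V →
      ∃ b ∈ Alg.chart Fc R x, (f - b) * w⁻¹ ∈ V

/-- **Core of leaf D3**: (H3) at the level of a number field `E` which carries a good model
with coordinate `y = toOm Y`. -/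
theorem lift_core [NeZero M] {ℓ : ℕ} (hℓ : ℓ ≠ 0) (hA : A.LiesOverPrime ℓ)
    {V : Subring (Om M)} {w y : Om M} {S : Finset (Om M)}
    (G : Alg.GoodModel (Lc M) (Ec M E) (Fc M E) (Rc M A E) V w y S)
    (hV : (V : Set (Om M)) = VcSet M A E) (hnorm : NormalAbs)
    (Y : ↥(intE M A E)) (hY : H216.toOm M A E Y = y) :
    H759.LiftAtLevel A M E (y : LaurentSeries _root_.Fermat.Agent.S18.Qb) (redE M A E Y) := by
  intro c hc hint
  have hVc : V = Vc M A E := SetLike.coe_injective hV
  obtain ⟨f, hfc⟩ := exists_red_of_mem_closure (M := M) hc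
  have hys : Red M A E y (redE M A E Y) := hY ▸ Red.ofInt Y
  obtain ⟨P, hP, hcoef, hred⟩ := exists_monic_lift hys hfc hint
  have hPV : P.eval f * w⁻¹ ∈ V := Red.mul_inv_w_mem G hV hred
  obtain ⟨b, ⟨-, hbint⟩, hfb⟩ := hnorm (Om M) (Lc M) (Ec M E) (Fc M E) (Rc M A E) V w y S G f
    (hVc ▸ hfc.mem_Vc) P hP hcoef hPV
  have hbc : Red M A E b c := Red.of_sub_mul_inv_w_mem G hV hfc hfb
  obtain ⟨q, hq, hqcoef, hqb⟩ := exists_intQ_poly Y hY hbint
  obtain ⟨U, hU⟩ := Fermat.Agent.S37.H280.IntQ.intQ A hℓ hA M (b : LaurentSeries _root_.Fermat.Agent.S18.Qb) b.2 q hq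
    hqcoef hqb
  refine ⟨U, ?_, ?_, ?_⟩
  · rw [hU]
    exact b.2
  · rw [hU]
    exact isIntegral_coe hbint
  · obtain ⟨U₁, U₂, hne, hf, hc'⟩ := hbc
    have h1 : (b : LaurentSeries _root_.Fermat.Agent.S18.Qb) * inclA A (U₂ : LaurentSeries ↥A) =
        inclA A (U₁ : LaurentSeries ↥A) := congrArg Subtype.val hf
    have h2 : U * (U₂ : LaurentSeries ↥A) = (U₁ : LaurentSeries ↥A) := by
      apply inclA_injective A
      rw [map_mul]
      show coeffMap A.subtype U * _ = _
      rw [hU]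
      exact h1
    have h3 : coeffMap (residue ↥A) U * redE M A E U₂ = redE M A E U₁ := by
      show coeffMap (residue ↥A) U * coeffMap (residue ↥A) (U₂ : LaurentSeries ↥A) =
        coeffMap (residue ↥A) (U₁ : LaurentSeries ↥A)
      rw [← map_mul, h2]
    exact mul_right_cancel₀ hne (h3.trans hc'.symm)

/-- `LiftAtLevel` is antitone in the number field. -/
theorem liftAtLevel_anti {E E' : IntermediateField ℚ _root_.Fermat.Agent.S18.Qb} (h : E ≤ E') (N : ℕ)
    (t : LaurentSeries _root_.Fermat.Agent.S18.Qb) (s : LaurentSeries (_root_.Fermat.Agent.S37.H697.Lift.kA A))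
    (hL : H759.LiftAtLevel A N E' t s) : H759.LiftAtLevel A N E t s := by
  intro c hc hint
  have hk : H759.constk A E ⊆ H759.constk A E' := by
    rintro c ⟨a, ha, rfl⟩
    exact ⟨a, h ha, rfl⟩
  exact hL c (Subfield.closure_mono (Set.union_subset_union_left _ hk) hc)
    (H759.isIntegral_subring_mono
      (Subring.closure_mono (Set.union_subset_union_left _ hk)) hint)

end Fermat.Agent.S37.H697.Lift

end
end
-- ===== PACK-END S37/H697/LiftCore.lean

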