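import Mathlib
import Fermat.Agent.Pack.S43MC.G0E0L0
import Fermat.Agent.Pack.S43MC.G0E8L3
import Fermat.Agent.Pack.S43MC.G0E10L1
import Fermat.Agent.Pack.S43MC.G0E5L2
import Fermat.Agent.Pack.S43MC.G0E8L0
import Fermat.Agent.Pack.S43MC.G0E5L0
import Fermat.Agent.Pack.S43MC.G0E10L2
import Fermat.Agent.Pack.S43MC.G0E0L1
import Fermat.Agent.Pack.S43MC.G0E10L0
import Fermat.Agent.Pack.S43MC.G0E0L2
import Fermat.Agent.Pack.S43MC.G0E6L0
import Fermat.Agent.Pack.S43MC.G0E11L0
import Fermat.Agent.Pack.S43MC.G0E8L2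
import Fermat.Agent.Pack.S43MC.G0E11L2
import Fermat.Agent.Pack.S43MC.G0E1L0
import Fermat.Agent.Pack.S43MC.G0E11L3
import Fermat.Agent.Pack.S43MC.G0E11L1
import Fermat.Agent.Pack.S44C.G0E11L0
import Fermat.Agent.Pack.S44C.G0E15L1
import Fermat.Agent.Pack.Fast891

-- ===== PACK-BEGIN S25/H550/DegConst.lean
section






/-!
# S25 / block DEGREE, leaf D9: the degree is constant in families over a domain

* `exists_euler_eq` : for a gluing datum `G` on `C_A`, `A` a domain, the Euler characteristic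
  of every base change of `G` to a field is the same integer (the difference of the ranks of
  the two finitely generated projective `A`-modules of the finite model K6).
* `isBC_unit` : the unit datum over `A'` is a base change of the unit datum over `A`.
* `degConst` : `H687.DegConst k B₀ B₁ B₀₁` (exact statement of `DDDefs.lean`).
* `degree_eq_of_isBC_field` (D2): invariance of the degree under extension of the base field.
-/

set_option autoImplicit false
set_option linter.style.haveILetI false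

namespace Fermat.Agent.S25.H550

open scoped TensorProduct
open Fermat.Agent.S25 Fermat.Agent.S25.H10

universe u

section LinearAlgebra

theorem finrank_tensor_eq_rankAtStalk_bot {A : Type u} [CommRing A] [IsDomain A] (P : Type u)
    [AddCommGroup P] [Module A P] [Module.Finite A P] [Module.Projective A P]
    (K : Type u) [Field K] [Algebra A K] :
    Module.finrank K (K ⊗[A] P) =
      Module.rankAtStalk P (⟨⊥, Ideal.isPrime_bot⟩ : PrimeSpectrum A) := by
  have h1 : Module.rankAtStalk (K ⊗[A] P) (⟨⊥, Ideal.isPrime_bot⟩ : PrimeSpectrum K) =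
      Module.finrank K (K ⊗[A] P) := by
    rw [Module.rankAtStalk_eq_finrank_of_free]
    rfl
  rw [← h1, Module.rankAtStalk_baseChange]
  exact (Module.rankAtStalk_eq_of_le_of_finite_of_flat P (p := ⟨⊥, Ideal.isPrime_bot⟩)
    bot_le).symm

theorem finrank_ker_sub_finrank_coker {K : Type*} [Field K] {V W : Type*} [AddCommGroup V]
    [Module K V] [AddCommGroup W] [Module K W] [FiniteDimensional K V] [FiniteDimensional K W]
    (f : V →ₗ[K] W) :
    (Module.finrank K (LinearMap.ker f) : ℤ) - Module.finrank K (W ⧸ LinearMap.range f) =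
      (Module.finrank K V : ℤ) - Module.finrank K W := by
  have h1 := LinearMap.finrank_range_add_finrank_ker f
  have h2 := Submodule.finrank_quotient_add_finrank (LinearMap.range f)
  omega

end LinearAlgebra

variable {k : Type u} [Field k] {B₀ B₁ B₀₁ : Type u} [CommRing B₀] [CommRing B₁] [CommRing B₀₁]
  [Algebra k B₀] [Algebra k B₁] [Algebra k B₀₁] [Algebra B₀ B₀₁] [Algebra B₁ B₀₁]
  [IsScalarTower k B₀ B₀₁] [IsScalarTower k B₁ B₀₁]
  {x : B₀} {y : B₁} {e : B₁ →ₐ[k] k}

/-- **Euler characteristic is constant in families over a domain.** -/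
theorem exists_euler_eq (h : IsCurveChart k B₀ B₁ B₀₁ x y e)
    {A : Type u} [CommRing A] [IsDomain A] [Algebra k A] (G : CurveGD k B₀ B₁ B₀₁ A) :
    ∃ χ : ℤ, ∀ (K : Type u) [Field K] [Algebra k K] (φ : A →ₐ[k] K)
      (G' : CurveGD k B₀ B₁ B₀₁ K), CurveGD.IsBC φ G G' → G'.euler = χ := by
  obtain ⟨m, -, hPfin, hPproj, hQfin, hQproj, huniv⟩ :=
    exists_finite_model (Fermat.Agent.S25.H250.chartCechOps h G)
      (Fermat.Agent.S25.H250.isFGProj_X0 h G) (Fermat.Agent.S25.H250.isFGProj_Y1 h G)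
      (Fermat.Agent.S25.H250.r0_injective h G) (Fermat.Agent.S25.H250.r1_injective h G)
  rw [Fermat.Agent.S25.H250.chartCechOps_d_zero h G] at huniv
  set D := Fermat.Agent.S25.H250.chartCechOps h G with hD
  refine ⟨(Module.rankAtStalk ((D.H0 m)) (⟨⊥, Ideal.isPrime_bot⟩ : PrimeSpectrum A) : ℤ) -
    Module.rankAtStalk (G.N₁ ⧸ LinearMap.range (D.Y1 ^ m))
      (⟨⊥, Ideal.isPrime_bot⟩ : PrimeSpectrum A), ?_⟩
  intro K _ _ φ G' hbc
  letI algAK : Algebra A K := φ.toRingHom.toAlgebra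
  haveI : IsScalarTower k A K := IsScalarTower.of_algebraMap_eq (fun r => (φ.commutes r).symm)
  have hφ : ∀ a, φ a = algebraMap A K a := fun _ => rfl
  obtain ⟨⟨k2⟩, ⟨c2⟩⟩ := huniv K
  obtain ⟨E, E₀₁, hE⟩ := exists_cech_baseChange_equiv φ hφ G G' hbc
  obtain ⟨k3⟩ := nonempty_ker_equiv_of_square (R := K) (f := G.cech.baseChange K)
    (f' := G'.cech) E E₀₁.toLinearMap E₀₁.injective hE
  obtain ⟨c3⟩ := nonempty_coker_equiv_of_square (R := K) (f := G.cech.baseChange K)
    (f' := G'.cech) E.toLinearMap E.surjective E₀₁ hE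
  have e0 : Module.finrank K G'.H0 =
      Module.finrank K (LinearMap.ker ((D.δ m).baseChange K)) :=
    (k2.trans k3).finrank_eq.symm
  have e1 : Module.finrank K G'.H1 =
      Module.finrank K ((K ⊗[A] (G.N₁ ⧸ LinearMap.range (D.Y1 ^ m))) ⧸
        LinearMap.range ((D.δ m).baseChange K)) :=
    (c2.trans c3).finrank_eq.symm
  rw [GlueDatum.euler, e0, e1, finrank_ker_sub_finrank_coker,
    finrank_tensor_eq_rankAtStalk_bot, finrank_tensor_eq_rankAtStalk_bot]

section Unit

variable {A A' : Type u} [CommRing A] [Algebra k A] [CommRing A'] [Algebra k A']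

theorem tensorMapLeft_algebraMap_right (φ : A →ₐ[k] A') (B B' : Type u) [CommRing B]
    [CommRing B'] [Algebra k B] [Algebra k B'] [Algebra B B'] [IsScalarTower k B B']
    (s : A ⊗[k] B) :
    tensorMapLeft k φ B' (algebraMap (A ⊗[k] B) (A ⊗[k] B') s) =
      algebraMap (A' ⊗[k] B) (A' ⊗[k] B') (tensorMapLeft k φ B s) := by
  induction s using TensorProduct.induction_on with
  | zero => simp
  | tmul a b =>
    show (Algebra.TensorProduct.map φ (AlgHom.id k B'))
        ((Algebra.TensorProduct.map (AlgHom.id A A) (IsScalarTower.toAlgHom k B B')) (a ⊗ₜ b)) =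
      (Algebra.TensorProduct.map (AlgHom.id A' A') (IsScalarTower.toAlgHom k B B'))
        ((Algebra.TensorProduct.map φ (AlgHom.id k B)) (a ⊗ₜ b))
    simp only [Algebra.TensorProduct.map_tmul, AlgHom.coe_id, id_eq]
  | add x y hx hy => simp only [map_add, hx, hy]

theorem isSemilinearBaseChange_ringHom {R R' : Type u} [CommRing R] [CommRing R']
    (ρ : R →+* R') : IsSemilinearBaseChange ρ ρ.toSemilinearMap := by
  letI : Algebra R R' := ρ.toAlgebra
  exact IsBaseChange.linearMap R R'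

/-- The unit datum over `A'` is a base change of the unit datum over `A`. -/
theorem isBC_unit (φ : A →ₐ[k] A') :
    CurveGD.IsBC (B₀ := B₀) (B₁ := B₁) (B₀₁ := B₀₁) φ
      (GlueDatum.unit A (A ⊗[k] B₀) (A ⊗[k] B₁) (A ⊗[k] B₀₁))
      (GlueDatum.unit A' (A' ⊗[k] B₀) (A' ⊗[k] B₁) (A' ⊗[k] B₀₁)) :=
  ⟨{ b₀ := (tensorMapLeft k φ B₀).toSemilinearMap
     b₁ := (tensorMapLeft k φ B₁).toSemilinearMap
     b₀₁ := (tensorMapLeft k φ B₀₁).toSemilinearMap
     comm₀ := fun s => tensorMapLeft_algebraMap_right φ B₀ B₀₁ s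
     comm₁ := fun s => tensorMapLeft_algebraMap_right φ B₁ B₀₁ s
     isBaseChange₀ := isSemilinearBaseChange_ringHom _
     isBaseChange₁ := isSemilinearBaseChange_ringHom _
     isBaseChange₀₁ := isSemilinearBaseChange_ringHom _ }⟩

end Unit

/-- **D9 / `DegConst`** (exact statement of `H687/DDDefs.lean`): over a domain all fibres of a
gluing datum have the same degree. -/
theorem degConst : Fermat.Agent.S25.H687.DegConst k B₀ B₁ B₀₁ := by
  intro x y e h A _ _ _ G K₁ K₂ _ _ _ _ φ₁ φ₂ G₁ G₂ h₁ h₂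
  obtain ⟨χ, hχ⟩ := exists_euler_eq h G
  obtain ⟨χ₀, hχ₀⟩ := exists_euler_eq h
    (GlueDatum.unit A (A ⊗[k] B₀) (A ⊗[k] B₁) (A ⊗[k] B₀₁))
  rw [GlueDatum.degree, GlueDatum.degree, hχ K₁ φ₁ G₁ h₁, hχ K₂ φ₂ G₂ h₂,
    hχ₀ K₁ φ₁ _ (isBC_unit φ₁), hχ₀ K₂ φ₂ _ (isBC_unit φ₂)]

/-- **D2**: the degree is invariant under extension of the base field. -/
theorem degree_eq_of_isBC_field (h : IsCurveChart k B₀ B₁ B₀₁ x y e)
    {K K' : Type u} [Field K] [Field K'] [Algebra k K] [Algebra k K'] (φ : K →ₐ[k] K')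
    (G : CurveGD k B₀ B₁ B₀₁ K) (G' : CurveGD k B₀ B₁ B₀₁ K')
    (hid : CurveGD.IsBC (AlgHom.id k K) G G) (hbc : CurveGD.IsBC φ G G') :
    G'.degree = G.degree :=
  degConst x y e h K G K' K φ (AlgHom.id k K) G' G hbc hid

/-- The degree of a fibre, as a function of the gluing datum over a domain. -/
theorem exists_degree_eq (h : IsCurveChart k B₀ B₁ B₀₁ x y e)
    {A : Type u} [CommRing A] [IsDomain A] [Algebra k A] (G : CurveGD k B₀ B₁ B₀₁ A) :
    ∃ d : ℤ, ∀ (K : Type u) [Field K] [Algebra k K] (φ : A →ₐ[k] K)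
      (G' : CurveGD k B₀ B₁ B₀₁ K), CurveGD.IsBC φ G G' → G'.degree = d := by
  obtain ⟨χ, hχ⟩ := exists_euler_eq h G
  obtain ⟨χ₀, hχ₀⟩ := exists_euler_eq h
    (GlueDatum.unit A (A ⊗[k] B₀) (A ⊗[k] B₁) (A ⊗[k] B₀₁))
  refine ⟨χ - χ₀, fun K _ _ φ G' hbc => ?_⟩
  rw [GlueDatum.degree, hχ K φ G' hbc, hχ₀ K φ _ (isBC_unit φ)]

end Fermat.Agent.S25.H550

end
-- ===== PACK-END S25/H550/DegConst.lean

-- ===== PACK-BEGIN S25/H505/DictBC.lean
section
/-
S25, block DICT (helper505): `dictBC : Stmt.DictBC Ch` — pullback of a rigidified line bundle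
along `Spec A' → Spec A` corresponds to base change of gluing data.  Built on
`SectionBC.secMap_isBC` (sections of a pullback over affine opens are a base change),
`H566.boxRingEquiv` and `H205.Box`.
-/






set_option autoImplicit false
universe u
open CategoryTheory CategoryTheory.Limits AlgebraicGeometry AlgebraicGeometry.RelPicard
  NeronModelInfra GoodReductionJacobian
open scoped TensorProduct

namespace Fermat.Agent.S25.H505

noncomputable section

/-! ### Link with `IsSemilinearBaseChange` -/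

section Alg

variable {R R' : Type u} [CommRing R] [CommRing R'] (ρ : R →+* R')
  {N N' : Type u} [AddCommGroup N] [Module R N] [AddCommGroup N'] [Module R' N']

theorem isBC_of_isSemilinearBaseChange (b : N →ₛₗ[ρ] N') (h : IsSemilinearBaseChange ρ b) :
    IsBC ρ b.toAddMonoidHom := by
  unfold IsSemilinearBaseChange at h
  letI : Algebra R R' := ρ.toAlgebra
  letI : Module R N' := Module.compHom N' ρ
  haveI : IsScalarTower R R' N' := ⟨fun r r' n => by
    change (ρ r * r') • n = ρ r • (r' • n); rw [mul_smul]⟩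
  exact isBC_of_isBaseChange _ h

theorem isSemilinearBaseChange_of_isBC (b : N →ₛₗ[ρ] N') (h : IsBC ρ b.toAddMonoidHom) :
    IsSemilinearBaseChange ρ b := by
  unfold IsSemilinearBaseChange
  letI : Algebra R R' := ρ.toAlgebra
  letI : Module R N' := Module.compHom N' ρ
  haveI : IsScalarTower R R' N' := ⟨fun r r' n => by
    change (ρ r * r') • n = ρ r • (r' • n); rw [mul_smul]⟩
  exact IsBC.isBaseChange _ h

end Alg


/-! ### Geometry of `baseChangeSnd` -/

section Geom

variable {k : Type u} [Field k] {C : Scheme.{u}} (c : C ⟶ Spec (CommRingCat.of k))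
  {A A' : Type u} [CommRing A] [Algebra k A] [CommRing A'] [Algebra k A'] (φ : A →ₐ[k] A')

/-- the morphism `C_{A'} ⟶ C_A` -/
abbrev bcMap : pullback c (specStr k A') ⟶ pullback c (specStr k A) :=
  baseChangeSnd c (specHomOver k φ)

theorem bcMap_fst : bcMap c φ ≫ pullback.fst c (specStr k A) = pullback.fst c (specStr k A') :=
  H205.baseChangeSnd_fst c _

theorem bcMap_snd : bcMap c φ ≫ pullback.snd c (specStr k A) =
    pullback.snd c (specStr k A') ≫ Spec.map (CommRingCat.ofHom φ.toRingHom) :=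
  H205.baseChangeSnd_snd c _

theorem bcMap_preimage (U : C.Opens) :
    bcMap c φ ⁻¹ᵁ (preimageOpen (c := c) A U) = preimageOpen (c := c) A' U := by
  rw [preimageOpen, ← Scheme.Hom.comp_preimage, bcMap_fst]

theorem le_bcMap_preimage (U : C.Opens) :
    preimageOpen (c := c) A' U ≤ bcMap c φ ⁻¹ᵁ (preimageOpen (c := c) A U) :=
  (bcMap_preimage c φ U).ge

theorem isAffineOpen_preimageOpen (A : Type u) [CommRing A] [Algebra k A] {U : C.Opens}
    (hU : IsAffineOpen U) : IsAffineOpen (preimageOpen (c := c) A U) := by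
  exact H205.isAffineOpen_fst_preimage c (specStr k A) hU

/-- the ring map `Γ(C_A, U^A) → Γ(C_{A'}, U^{A'})` -/
abbrev bcRing (U : C.Opens) : Γ(pullback c (specStr k A), preimageOpen (c := c) A U) →+*
    Γ(pullback c (specStr k A'), preimageOpen (c := c) A' U) :=
  ((bcMap c φ).appLE _ _ (le_bcMap_preimage c φ U)).hom

theorem bcRing_baseToSections (U : C.Opens) (a : A) :
    bcRing c φ U (baseToSections (c := c) A (preimageOpen (c := c) A U) a) =
      baseToSections (c := c) A' (preimageOpen (c := c) A' U) (φ a) := by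
  have l1 : preimageOpen (c := c) A U ≤ (pullback.snd c (specStr k A)) ⁻¹ᵁ ⊤ := le_top
  have l2 : preimageOpen (c := c) A' U ≤ (pullback.snd c (specStr k A')) ⁻¹ᵁ ⊤ := le_top
  have l3 : (⊤ : (Spec (CommRingCat.of A')).Opens) ≤
      (Spec.map (CommRingCat.ofHom φ.toRingHom)) ⁻¹ᵁ ⊤ := le_top
  have h1 : (pullback.snd c (specStr k A)).appLE ⊤ (preimageOpen (c := c) A U) l1 ≫
      (bcMap c φ).appLE _ _ (le_bcMap_preimage c φ U) =
      (Spec.map (CommRingCat.ofHom φ.toRingHom)).appLE ⊤ ⊤ l3 ≫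
        (pullback.snd c (specStr k A')).appLE ⊤ (preimageOpen (c := c) A' U) l2 := by
    rw [Scheme.Hom.appLE_comp_appLE, Scheme.Hom.appLE_comp_appLE]
    exact H205.appLE_congr_hom (bcMap_snd c φ) _ _ _
  have h2 : (Scheme.ΓSpecIso (CommRingCat.of A)).inv ≫
      (Spec.map (CommRingCat.ofHom φ.toRingHom)).appLE ⊤ ⊤ l3 =
      CommRingCat.ofHom φ.toRingHom ≫ (Scheme.ΓSpecIso (CommRingCat.of A')).inv := by
    rw [Scheme.ΓSpecIso_inv_naturality]
    rfl
  have h3 : ((Scheme.ΓSpecIso (CommRingCat.of A)).inv ≫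
      (pullback.snd c (specStr k A)).appLE ⊤ (preimageOpen (c := c) A U) l1) ≫
      (bcMap c φ).appLE _ _ (le_bcMap_preimage c φ U) =
      CommRingCat.ofHom φ.toRingHom ≫ ((Scheme.ΓSpecIso (CommRingCat.of A')).inv ≫
        (pullback.snd c (specStr k A')).appLE ⊤ (preimageOpen (c := c) A' U) l2) := by
    rw [Category.assoc, h1, reassoc_of% h2]
  exact congr($h3 a)

theorem bcRing_curveToSections (U : C.Opens) (g : Γ(C, U)) :
    bcRing c φ U (curveToSections (c := c) A U g) = curveToSections (c := c) A' U g := by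
  have h1 : (pullback.fst c (specStr k A)).appLE U (preimageOpen (c := c) A U) le_rfl ≫
      (bcMap c φ).appLE _ _ (le_bcMap_preimage c φ U) =
      (pullback.fst c (specStr k A')).appLE U (preimageOpen (c := c) A' U) le_rfl := by
    rw [Scheme.Hom.appLE_comp_appLE]
    exact H205.appLE_congr_hom (bcMap_fst c φ) _ _ _
  rw [H566.curveToSections_eq, H566.curveToSections_eq]
  exact congr($h1 g)

section Box

variable {U : C.Opens} (hU : IsAffineOpen U) {B : Type u} [CommRing B] [Algebra k B]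
  (i : Γ(C, U) ≃+* B) (hi : ∀ a : k, i (sectionsStr c U a) = algebraMap k B a)

/-- the ring square `A ⊗ B → A' ⊗ B` versus `Γ(C_A, U^A) → Γ(C_{A'}, U^{A'})` -/
theorem bcRing_boxRingEquiv (x : A ⊗[k] B) :
    bcRing c φ U (H566.boxRingEquiv (A := A) hU i hi x) =
      H566.boxRingEquiv (A := A') hU i hi (tensorMapLeft k φ B x) := by
  induction x using TensorProduct.induction_on with
  | zero => simp
  | add x y hx hy => simp only [map_add, hx, hy]
  | tmul a b =>
    have ht : tensorMapLeft k φ B (a ⊗ₜ[k] b) = φ a ⊗ₜ[k] b := by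
      simp [tensorMapLeft]
    rw [ht, H566.boxRingEquiv_tmul, H566.boxRingEquiv_tmul, map_mul, bcRing_baseToSections,
      bcRing_curveToSections]

omit [Algebra k A'] in
/-- `IsSectionsIso` means semilinearity with respect to the inverse of `boxRingEquiv`. -/
theorem isSL_of_isSectionsIso (L : (pullback c (specStr k A)).Modules) {N : Type u}
    [AddCommGroup N] [Module (A ⊗[k] B) N] (e : Γ(L, preimageOpen (c := c) A U) ≃+ N)
    (he : IsSectionsIso A L U i e) :
    IsSL (H566.boxRingEquiv (A := A) hU i hi).symm.toRingHom e.toAddMonoidHom := by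
  intro r s
  obtain ⟨x, rfl⟩ := (H566.boxRingEquiv (A := A) hU i hi).surjective r
  change e (_ • s) = (H566.boxRingEquiv (A := A) hU i hi).symm _ • e s
  rw [RingEquiv.symm_apply_apply]
  induction x using TensorProduct.induction_on with
  | zero => simp
  | add x y hx hy => simp only [map_add, add_smul, hx, hy]
  | tmul a b =>
    rw [H566.boxRingEquiv_tmul, mul_smul, he.1, he.2, RingEquiv.apply_symm_apply, ← mul_smul,
      Algebra.TensorProduct.tmul_mul_tmul, mul_one, one_mul]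

omit [Algebra k A'] in
theorem isSectionsIso_of_isSL (L : (pullback c (specStr k A)).Modules) {N : Type u}
    [AddCommGroup N] [Module (A ⊗[k] B) N] (e : Γ(L, preimageOpen (c := c) A U) ≃+ N)
    (he : IsSL (H566.boxRingEquiv (A := A) hU i hi).symm.toRingHom e.toAddMonoidHom) :
    IsSectionsIso A L U i e := by
  refine ⟨fun a s => ?_, fun f s => ?_⟩
  · have := he (baseToSections (c := c) A (preimageOpen (c := c) A U) a) s
    rw [← H566.boxRingEquiv_symm_baseToSections hU i hi]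
    exact this
  · have := he (curveToSections (c := c) A U f) s
    rw [← H566.boxRingEquiv_symm_curveToSections hU i hi]
    exact this

include hU hi in
/-- **Chart-level base change**: sections of the pulled-back bundle over the preimage of an
affine chart are the base change of the sections of the original bundle. -/
theorem exists_chart_equiv (L : (pullback c (specStr k A)).Modules) [L.IsQuasicoherent]
    {N N' : Type u} [AddCommGroup N] [Module (A ⊗[k] B) N] [AddCommGroup N']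
    [Module (A' ⊗[k] B) N'] (e : Γ(L, preimageOpen (c := c) A U) ≃+ N)
    (he : IsSectionsIso A L U i e) (b : N →ₛₗ[tensorMapLeft k φ B] N')
    (hb : IsSemilinearBaseChange (tensorMapLeft k φ B) b) :
    ∃ e' : Γ((Scheme.Modules.pullback (bcMap c φ)).obj L, preimageOpen (c := c) A' U) ≃+ N',
      IsSectionsIso A' ((Scheme.Modules.pullback (bcMap c φ)).obj L) U i e' ∧
      IsBC (bcRing c φ U) (secMap (bcMap c φ) L (le_bcMap_preimage c φ U)).hom ∧
      ∀ s, e' (secMap (bcMap c φ) L (le_bcMap_preimage c φ U) s) = b (e s) := by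
  have hκ : IsBC (bcRing c φ U) (secMap (bcMap c φ) L (le_bcMap_preimage c φ U)).hom :=
    secMap_isBC (bcMap c φ) L (isAffineOpen_preimageOpen c A hU)
      (isAffineOpen_preimageOpen c A' hU) _
  have h₂ : IsBC ((tensorMapLeft k φ B).comp (H566.boxRingEquiv (A := A) hU i hi).symm.toRingHom)
      (b.toAddMonoidHom.comp e.toAddMonoidHom) :=
    (isBC_of_bijective (isSL_of_isSectionsIso c hU i hi L e he)
      (H566.boxRingEquiv (A := A) hU i hi).symm.bijective e.bijective).comp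
      (isBC_of_isSemilinearBaseChange _ b hb)
  obtain ⟨e', he', heg⟩ := hκ.exists_equiv (H566.boxRingEquiv (A := A') hU i hi).symm h₂
    (fun r => by
      have := bcRing_boxRingEquiv c φ hU i hi ((H566.boxRingEquiv (A := A) hU i hi).symm r)
      rw [RingEquiv.apply_symm_apply] at this
      rw [this, RingEquiv.symm_apply_apply]
      rfl)
  exact ⟨e', isSectionsIso_of_isSL c hU i hi _ e' he', hκ, heg⟩

end Box

section Res

variable {U U' : C.Opens} (hU : IsAffineOpen U) (hU' : IsAffineOpen U') (hle : U' ≤ U)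
  {B B' : Type u} [CommRing B] [Algebra k B] [CommRing B'] [Algebra k B']
  [Algebra B B'] [IsScalarTower k B B']
  (i : Γ(C, U) ≃+* B) (hi : ∀ a : k, i (sectionsStr c U a) = algebraMap k B a)
  (i' : Γ(C, U') ≃+* B') (hi' : ∀ a : k, i' (sectionsStr c U' a) = algebraMap k B' a)
  (hres : ∀ f : Γ(C, U), i' (resRing hle f) = algebraMap B B' (i f))

include hU hU' hi hi' hres in
/-- Compatibility of the chart-level base change with restriction to a smaller chart. -/
theorem res_compat (L : (pullback c (specStr k A)).Modules)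
    {N N₁ N' N₁' : Type u} [AddCommGroup N] [Module (A ⊗[k] B) N]
    [AddCommGroup N₁] [Module (A ⊗[k] B') N₁] [Module (A ⊗[k] B) N₁]
    [IsScalarTower (A ⊗[k] B) (A ⊗[k] B') N₁]
    [AddCommGroup N'] [Module (A' ⊗[k] B) N']
    [AddCommGroup N₁'] [Module (A' ⊗[k] B') N₁'] [Module (A' ⊗[k] B) N₁']
    [IsScalarTower (A' ⊗[k] B) (A' ⊗[k] B') N₁']
    (r : N →ₗ[A ⊗[k] B] N₁) (r' : N' →ₗ[A' ⊗[k] B] N₁')
    (e : Γ(L, preimageOpen (c := c) A U) ≃+ N) (e₁ : Γ(L, preimageOpen (c := c) A U') ≃+ N₁)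
    (her : ∀ s, e₁ (resMod L (show preimageOpen (c := c) A U' ≤ preimageOpen (c := c) A U from
      Scheme.Hom.preimage_mono _ hle) s) = r (e s))
    (b : N →ₛₗ[tensorMapLeft k φ B] N') (b₁ : N₁ →ₛₗ[tensorMapLeft k φ B'] N₁')
    (comm : ∀ s, b₁ (r s) = r' (b s))
    (e' : Γ((Scheme.Modules.pullback (bcMap c φ)).obj L, preimageOpen (c := c) A' U) ≃+ N')
    (e₁' : Γ((Scheme.Modules.pullback (bcMap c φ)).obj L, preimageOpen (c := c) A' U') ≃+ N₁')
    (he' : IsSectionsIso A' ((Scheme.Modules.pullback (bcMap c φ)).obj L) U i e')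
    (he₁' : IsSectionsIso A' ((Scheme.Modules.pullback (bcMap c φ)).obj L) U' i' e₁')
    (hκ : IsBC (bcRing c φ U) (secMap (bcMap c φ) L (le_bcMap_preimage c φ U)).hom)
    (heg : ∀ s, e' (secMap (bcMap c φ) L (le_bcMap_preimage c φ U) s) = b (e s))
    (heg₁ : ∀ s, e₁' (secMap (bcMap c φ) L (le_bcMap_preimage c φ U') s) = b₁ (e₁ s))
    (s' : Γ((Scheme.Modules.pullback (bcMap c φ)).obj L, preimageOpen (c := c) A' U)) :
    e₁' (resMod ((Scheme.Modules.pullback (bcMap c φ)).obj L)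
      (show preimageOpen (c := c) A' U' ≤ preimageOpen (c := c) A' U from
        Scheme.Hom.preimage_mono _ hle) s') = r' (e' s') := by
  have hle' : preimageOpen (c := c) A' U' ≤ preimageOpen (c := c) A' U :=
    Scheme.Hom.preimage_mono _ hle
  let σ : Γ(pullback c (specStr k A'), preimageOpen (c := c) A' U) →+* A' ⊗[k] B' :=
    (algebraMap (A' ⊗[k] B) (A' ⊗[k] B')).comp
      (H566.boxRingEquiv (A := A') hU i hi).symm.toRingHom
  have hσ : ∀ x, (H566.boxRingEquiv (A := A') hU' i' hi').symm (resRing hle' x) = σ x := by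
    intro x
    have := H566.boxRingEquiv_res (A := A') hU hU' hle i hi i' hi' hres
      ((H566.boxRingEquiv (A := A') hU i hi).symm x)
    rw [RingEquiv.apply_symm_apply] at this
    rw [this, RingEquiv.symm_apply_apply]
    rfl
  have hp : IsSL σ (e₁'.toAddMonoidHom.comp
      (resMod ((Scheme.Modules.pullback (bcMap c φ)).obj L) hle')) := by
    intro x s
    change e₁' (resMod _ hle' (x • s)) = σ x • e₁' (resMod _ hle' s)
    have h1 : resMod ((Scheme.Modules.pullback (bcMap c φ)).obj L) hle' (x • s) =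
        resRing hle' x • resMod ((Scheme.Modules.pullback (bcMap c φ)).obj L) hle' s :=
      Scheme.Modules.map_smul _ _ x s
    rw [h1, ← hσ]
    exact isSL_of_isSectionsIso c hU' i' hi' _ e₁' he₁' _ _
  have hq : IsSL σ (r'.toAddMonoidHom.comp e'.toAddMonoidHom) := by
    intro x s
    change r' (e' (x • s)) = σ x • r' (e' s)
    have h1 : e' (x • s) = (H566.boxRingEquiv (A := A') hU i hi).symm x • e' s :=
      isSL_of_isSectionsIso c hU i hi _ e' he' x s
    rw [h1, r'.map_smul]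
    exact (algebraMap_smul (A' ⊗[k] B') _ _).symm
  have key := hκ.hom_ext hp hq (fun t => by
    change e₁' (resMod _ hle' (secMap (bcMap c φ) L (le_bcMap_preimage c φ U) t)) =
      r' (e' (secMap (bcMap c φ) L (le_bcMap_preimage c φ U) t))
    rw [heg, ← comm, ← her, ← heg₁]
    congr 1
    exact (secMap_res_apply (bcMap c φ) L (le_bcMap_preimage c φ U)
      (le_bcMap_preimage c φ U') (Scheme.Hom.preimage_mono _ hle) hle' t).symm)
  exact DFunLike.congr_fun key s'

end Res

end Geom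

/-! ### The statement `DictBC` -/

section Main

variable {k : Type u} [Field k] {C : Scheme.{u}} {c : C ⟶ Spec (CommRingCat.of k)}
  {ε : SchemeHomOver (𝟙 (Spec (CommRingCat.of k))) c}

/-- **DICT-BC**: pullback along `Spec A' → Spec A` corresponds to base change of gluing data. -/
theorem dictBC (Ch : ChartOf c ε) : Stmt.DictBC Ch := by
  intro A A' _ _ _ _ φ M G G' hCorr hBC
  obtain ⟨e₀, e₁, e₀₁, h₀, h₁, h₀₁, hr₀, hr₁⟩ := hCorr
  obtain ⟨⟨b₀, b₁, b₀₁, comm₀, comm₁, hb₀, hb₁, hb₀₁⟩⟩ := hBC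
  have : M.L.IsQuasicoherent := isQuasicoherent_of_isInvertible M.L M.isInvertible
  obtain ⟨e₀', h₀', hκ₀, heg₀⟩ :=
    exists_chart_equiv c φ Ch.isAffine₀ Ch.i₀ Ch.i₀_str M.L e₀ h₀ b₀ hb₀
  obtain ⟨e₁', h₁', hκ₁, heg₁⟩ :=
    exists_chart_equiv c φ Ch.isAffine₁ Ch.i₁ Ch.i₁_str M.L e₁ h₁ b₁ hb₁
  obtain ⟨e₀₁', h₀₁', hκ₀₁, heg₀₁⟩ :=
    exists_chart_equiv c φ (H566.chart_isAffine₀₁ Ch) Ch.i₀₁ (H566.chart_i₀₁_str Ch) M.L
      e₀₁ h₀₁ b₀₁ hb₀₁
  refine ⟨e₀', e₁', e₀₁', h₀', h₁', h₀₁', fun s' => ?_, fun s' => ?_⟩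
  · exact res_compat c φ Ch.isAffine₀ (H566.chart_isAffine₀₁ Ch) inf_le_left Ch.i₀ Ch.i₀_str
      Ch.i₀₁ (H566.chart_i₀₁_str Ch) Ch.i₀₁_res₀ M.L G.r₀ G'.r₀ e₀ e₀₁ hr₀ b₀ b₀₁ comm₀
      e₀' e₀₁' h₀' h₀₁' hκ₀ heg₀ heg₀₁ s'
  · exact res_compat c φ Ch.isAffine₁ (H566.chart_isAffine₀₁ Ch) inf_le_right Ch.i₁ Ch.i₁_str
      Ch.i₀₁ (H566.chart_i₀₁_str Ch) Ch.i₀₁_res₁ M.L G.r₁ G'.r₁ e₁ e₀₁ hr₁ b₁ b₀₁ comm₁
      e₁' e₀₁' h₁' h₀₁' hκ₁ heg₁ heg₀₁ s'

end Main

end

end Fermat.Agent.S25.H505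

end
-- ===== PACK-END S25/H505/DictBC.lean

-- ===== PACK-BEGIN S25/H567/AbelPts.lean
section



/-!
# Row S25, block ABEL (scheme side), part 1 (helper567): chart points as morphisms

A chart point `P : ChartPt k B₀ B₁ A` of a two-chart presentation `Ch : ChartOf c ε` defines a
morphism `chartPtHom Ch P : Spec A ⟶ C` over `k`.  Two chart points with the same morphism are
`ChartPt.Same`; every morphism `Spec A ⟶ C` over `k` with range in one chart is of this form.
-/

set_option autoImplicit false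
universe u
open CategoryTheory CategoryTheory.Limits AlgebraicGeometry AlgebraicGeometry.RelPicard
  NeronModelInfra GoodReductionJacobian
open scoped TensorProduct

namespace Fermat.Agent.S25.H567

open Fermat.Agent.S25 Fermat.Agent.S25.H746

noncomputable section

variable {k : Type u} [Field k] {C : Scheme.{u}} {c : C ⟶ Spec (CommRingCat.of k)}

section Incl

variable {U : C.Opens} (hU : IsAffineOpen U) {B : Type u} [CommRing B] [Algebra k B]
  (i : Γ(C, U) ≃+* B)

/-- The open immersion `Spec B ⟶ C` of an affine open `U` with `Γ(C, U) ≃+* B`. -/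
def chartIncl : Spec (CommRingCat.of B) ⟶ C :=
  Spec.map (CommRingCat.ofHom i.toRingHom) ≫ hU.fromSpec

instance isIso_specMap_ringEquiv :
    IsIso (Spec.map (CommRingCat.ofHom i.toRingHom)) := by
  have : IsIso (CommRingCat.ofHom i.toRingHom) :=
    (inferInstance : IsIso i.toCommRingCatIso.hom)
  infer_instance

instance isOpenImmersion_chartIncl : IsOpenImmersion (chartIncl hU i) := by
  unfold chartIncl
  infer_instance

theorem opensRange_chartIncl : (chartIncl hU i).opensRange = U := by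
  unfold chartIncl
  rw [Scheme.Hom.opensRange_comp_of_isIso, hU.opensRange_fromSpec]

theorem range_chartIncl : Set.range (chartIncl hU i) = (U : Set C) := by
  have := congrArg (fun V : C.Opens => (V : Set C)) (opensRange_chartIncl hU i)
  simpa using this

/-- `fromSpec` of an affine open is a morphism over `k`. -/
theorem fromSpec_comp_str :
    hU.fromSpec ≫ c = Spec.map (CommRingCat.ofHom (sectionsStr c U)) := by
  rw [← IsAffineOpen.SpecMap_appLE_fromSpec c (isAffineOpen_top _) hU le_top,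
    IsAffineOpen.fromSpec_top, Scheme.isoSpec_Spec_inv, ← Spec.map_comp]
  rfl

/-- The chart inclusion is a morphism over `k`. -/
theorem chartIncl_comp_str (hi : ∀ a : k, i (sectionsStr c U a) = algebraMap k B a) :
    chartIncl hU i ≫ c = specStr k B := by
  unfold chartIncl
  rw [Category.assoc, fromSpec_comp_str, ← Spec.map_comp]
  congr 1
  ext a
  exact hi a

/-- Morphisms into a chart are determined by the algebra map. -/
theorem algHom_eq_of_chartIncl {A : Type u} [CommRing A] [Algebra k A] {φ φ' : B →ₐ[k] A}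
    (h : Spec.map (CommRingCat.ofHom φ.toRingHom) ≫ chartIncl hU i =
      Spec.map (CommRingCat.ofHom φ'.toRingHom) ≫ chartIncl hU i) : φ = φ' := by
  have h1 := (cancel_mono (chartIncl hU i)).1 h
  have h2 := Spec.map_injective h1
  ext b
  have := congrArg (fun f => f.hom b) h2
  simpa using this

/-- A morphism `Spec A ⟶ C` over `k` with range in the chart `U` comes from an algebra map. -/
theorem exists_algHom_of_range_subset (hi : ∀ a : k, i (sectionsStr c U a) = algebraMap k B a)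
    {A : Type u} [CommRing A] [Algebra k A] (f : Spec (CommRingCat.of A) ⟶ C)
    (hf : f ≫ c = specStr k A) (h : Set.range f ⊆ (U : Set C)) :
    ∃ φ : B →ₐ[k] A, Spec.map (CommRingCat.ofHom φ.toRingHom) ≫ chartIncl hU i = f := by
  have h' : Set.range f ⊆ Set.range (chartIncl hU i) := by
    rw [range_chartIncl]; exact h
  obtain ⟨ρ, hρ⟩ : ∃ ρ : CommRingCat.of B ⟶ CommRingCat.of A,
      IsOpenImmersion.lift (chartIncl hU i) f h' = Spec.map ρ :=
    ⟨Spec.preimage _, (Spec.map_preimage _).symm⟩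
  have hfac : Spec.map ρ ≫ chartIncl hU i = f := by
    rw [← hρ]; exact IsOpenImmersion.lift_fac _ _ _
  have hcomm : CommRingCat.ofHom (algebraMap k B) ≫ ρ = CommRingCat.ofHom (algebraMap k A) := by
    apply Spec.map_injective
    rw [Spec.map_comp]
    change Spec.map ρ ≫ specStr k B = specStr k A
    rw [← chartIncl_comp_str hU i hi, ← Category.assoc, hfac, hf]
  refine ⟨{ ρ.hom with commutes' := fun x => ?_ }, ?_⟩
  · have := congrArg (fun f => f.hom x) hcomm
    simpa using this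
  · rw [← hfac]
    rfl

end Incl

section Pts

variable {ε : SchemeHomOver (𝟙 (Spec (CommRingCat.of k))) c} (Ch : ChartOf c ε)

/-- The chart `Spec B₀ ⟶ C`. -/
abbrev incl₀ : Spec (CommRingCat.of Ch.B₀) ⟶ C := chartIncl Ch.isAffine₀ Ch.i₀

/-- The chart `Spec B₁ ⟶ C`. -/
abbrev incl₁ : Spec (CommRingCat.of Ch.B₁) ⟶ C := chartIncl Ch.isAffine₁ Ch.i₁

/-- The chart `Spec B₀₁ ⟶ C` of the intersection. -/
abbrev incl₀₁ : Spec (CommRingCat.of Ch.B₀₁) ⟶ C :=
  chartIncl (H566.chart_isAffine₀₁ Ch) Ch.i₀₁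

theorem incl₀₁_eq₀ :
    Spec.map (CommRingCat.ofHom (algebraMap Ch.B₀ Ch.B₀₁)) ≫ incl₀ Ch = incl₀₁ Ch := by
  unfold incl₀ incl₀₁ chartIncl
  rw [← IsAffineOpen.map_fromSpec Ch.isAffine₀ (H566.chart_isAffine₀₁ Ch)
    (homOfLE (inf_le_left : Ch.U₀ ⊓ Ch.U₁ ≤ Ch.U₀)).op, ← Category.assoc, ← Category.assoc,
    ← Spec.map_comp, ← Spec.map_comp]
  congr 2
  ext f
  exact (Ch.i₀₁_res₀ f).symm

theorem incl₀₁_eq₁ :
    Spec.map (CommRingCat.ofHom (algebraMap Ch.B₁ Ch.B₀₁)) ≫ incl₁ Ch = incl₀₁ Ch := by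
  unfold incl₁ incl₀₁ chartIncl
  rw [← IsAffineOpen.map_fromSpec Ch.isAffine₁ (H566.chart_isAffine₀₁ Ch)
    (homOfLE (inf_le_right : Ch.U₀ ⊓ Ch.U₁ ≤ Ch.U₁)).op, ← Category.assoc, ← Category.assoc,
    ← Spec.map_comp, ← Spec.map_comp]
  congr 2
  ext f
  exact (Ch.i₀₁_res₁ f).symm

variable {A : Type u} [CommRing A] [Algebra k A]

/-- The morphism `Spec A ⟶ C` of a chart point. -/
def chartPtHom : ChartPt k Ch.B₀ Ch.B₁ A → (Spec (CommRingCat.of A) ⟶ C)
  | Sum.inl φ => Spec.map (CommRingCat.ofHom φ.toRingHom) ≫ incl₀ Ch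
  | Sum.inr φ => Spec.map (CommRingCat.ofHom φ.toRingHom) ≫ incl₁ Ch

theorem specMap_algHom_comp_str {B : Type u} [CommRing B] [Algebra k B] (φ : B →ₐ[k] A) :
    Spec.map (CommRingCat.ofHom φ.toRingHom) ≫ specStr k B = specStr k A :=
  (specHomOver k φ).2

/-- The morphism of a chart point is a morphism over `k`. -/
theorem chartPtHom_comp_str (P : ChartPt k Ch.B₀ Ch.B₁ A) :
    chartPtHom Ch P ≫ c = specStr k A := by
  rcases P with φ | φ
  · change (Spec.map (CommRingCat.ofHom φ.toRingHom) ≫ incl₀ Ch) ≫ c = _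
    rw [Category.assoc, chartIncl_comp_str _ _ Ch.i₀_str, specMap_algHom_comp_str]
  · change (Spec.map (CommRingCat.ofHom φ.toRingHom) ≫ incl₁ Ch) ≫ c = _
    rw [Category.assoc, chartIncl_comp_str _ _ Ch.i₁_str, specMap_algHom_comp_str]

/-- Base change of chart points is composition of morphisms. -/
theorem chartPtHom_map {A' : Type u} [CommRing A'] [Algebra k A'] (ψ : A →ₐ[k] A')
    (P : ChartPt k Ch.B₀ Ch.B₁ A) :
    chartPtHom Ch (P.map ψ) = Spec.map (CommRingCat.ofHom ψ.toRingHom) ≫ chartPtHom Ch P := by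
  rcases P with φ | φ
  · change Spec.map (CommRingCat.ofHom (ψ.comp φ).toRingHom) ≫ incl₀ Ch =
      Spec.map (CommRingCat.ofHom ψ.toRingHom) ≫ Spec.map (CommRingCat.ofHom φ.toRingHom) ≫ _
    rw [← Category.assoc, ← Spec.map_comp]
    rfl
  · change Spec.map (CommRingCat.ofHom (ψ.comp φ).toRingHom) ≫ incl₁ Ch =
      Spec.map (CommRingCat.ofHom ψ.toRingHom) ≫ Spec.map (CommRingCat.ofHom φ.toRingHom) ≫ _
    rw [← Category.assoc, ← Spec.map_comp]
    rfl

theorem range_chartPtHom_inl (φ : Ch.B₀ →ₐ[k] A) :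
    Set.range (chartPtHom Ch (Sum.inl φ : ChartPt k Ch.B₀ Ch.B₁ A)) ⊆ (Ch.U₀ : Set C) := by
  rintro _ ⟨z, rfl⟩
  have : (chartPtHom Ch (Sum.inl φ : ChartPt k Ch.B₀ Ch.B₁ A)) z =
      (incl₀ Ch) ((Spec.map (CommRingCat.ofHom φ.toRingHom)) z) := by
    change (Spec.map (CommRingCat.ofHom φ.toRingHom) ≫ incl₀ Ch) z = _
    simp
  rw [this, ← range_chartIncl Ch.isAffine₀ Ch.i₀]
  exact ⟨_, rfl⟩

theorem range_chartPtHom_inr (φ : Ch.B₁ →ₐ[k] A) :
    Set.range (chartPtHom Ch (Sum.inr φ : ChartPt k Ch.B₀ Ch.B₁ A)) ⊆ (Ch.U₁ : Set C) := by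
  rintro _ ⟨z, rfl⟩
  have : (chartPtHom Ch (Sum.inr φ : ChartPt k Ch.B₀ Ch.B₁ A)) z =
      (incl₁ Ch) ((Spec.map (CommRingCat.ofHom φ.toRingHom)) z) := by
    change (Spec.map (CommRingCat.ofHom φ.toRingHom) ≫ incl₁ Ch) z = _
    simp
  rw [this, ← range_chartIncl Ch.isAffine₁ Ch.i₁]
  exact ⟨_, rfl⟩

/-- A morphism over `k` with range in `U₀` is the morphism of a chart point. -/
theorem exists_chartPt_inl (f : Spec (CommRingCat.of A) ⟶ C) (hf : f ≫ c = specStr k A)
    (h : Set.range f ⊆ (Ch.U₀ : Set C)) :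
    ∃ φ : Ch.B₀ →ₐ[k] A, chartPtHom Ch (Sum.inl φ : ChartPt k Ch.B₀ Ch.B₁ A) = f :=
  exists_algHom_of_range_subset Ch.isAffine₀ Ch.i₀ Ch.i₀_str f hf h

/-- A morphism over `k` with range in `U₁` is the morphism of a chart point. -/
theorem exists_chartPt_inr (f : Spec (CommRingCat.of A) ⟶ C) (hf : f ≫ c = specStr k A)
    (h : Set.range f ⊆ (Ch.U₁ : Set C)) :
    ∃ φ : Ch.B₁ →ₐ[k] A, chartPtHom Ch (Sum.inr φ : ChartPt k Ch.B₀ Ch.B₁ A) = f :=
  exists_algHom_of_range_subset Ch.isAffine₁ Ch.i₁ Ch.i₁_str f hf h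

/-- Auxiliary: a point of `U₀` and a point of `U₁` with the same morphism come from a point of
the intersection. -/
theorem exists_of_inl_eq_inr (φ : Ch.B₀ →ₐ[k] A) (φ' : Ch.B₁ →ₐ[k] A)
    (h : chartPtHom Ch (Sum.inl φ : ChartPt k Ch.B₀ Ch.B₁ A) = chartPtHom Ch (Sum.inr φ')) :
    ∃ χ : Ch.B₀₁ →ₐ[k] A, φ = χ.comp (IsScalarTower.toAlgHom k Ch.B₀ Ch.B₀₁) ∧
      φ' = χ.comp (IsScalarTower.toAlgHom k Ch.B₁ Ch.B₀₁) := by
  have hr : Set.range (chartPtHom Ch (Sum.inl φ : ChartPt k Ch.B₀ Ch.B₁ A)) ⊆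
      ((Ch.U₀ ⊓ Ch.U₁ : C.Opens) : Set C) := by
    intro z hz
    exact ⟨range_chartPtHom_inl Ch φ hz, range_chartPtHom_inr Ch φ' (h ▸ hz)⟩
  obtain ⟨χ, hχ⟩ := exists_algHom_of_range_subset (H566.chart_isAffine₀₁ Ch) Ch.i₀₁
    (H566.chart_i₀₁_str Ch) _ (chartPtHom_comp_str Ch _) hr
  refine ⟨χ, ?_, ?_⟩
  · apply algHom_eq_of_chartIncl Ch.isAffine₀ Ch.i₀
    change chartPtHom Ch (Sum.inl φ : ChartPt k Ch.B₀ Ch.B₁ A) = _
    rw [← hχ]
    change _ ≫ incl₀₁ Ch = _
    rw [← incl₀₁_eq₀, ← Category.assoc, ← Spec.map_comp]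
    rfl
  · apply algHom_eq_of_chartIncl Ch.isAffine₁ Ch.i₁
    change chartPtHom Ch (Sum.inr φ' : ChartPt k Ch.B₀ Ch.B₁ A) = _
    rw [← h, ← hχ]
    change _ ≫ incl₀₁ Ch = _
    rw [← incl₀₁_eq₁, ← Category.assoc, ← Spec.map_comp]
    rfl

/-- Chart points with the same morphism are `ChartPt.Same`. -/
theorem same_of_chartPtHom_eq (P Q : ChartPt k Ch.B₀ Ch.B₁ A)
    (h : chartPtHom Ch P = chartPtHom Ch Q) : ChartPt.Same Ch.B₀₁ P Q := by
  rcases P with φ | φ <;> rcases Q with φ' | φ'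
  · left
    exact congrArg Sum.inl (algHom_eq_of_chartIncl Ch.isAffine₀ Ch.i₀ h)
  · obtain ⟨χ, h1, h2⟩ := exists_of_inl_eq_inr Ch φ φ' h
    exact Or.inr ⟨χ, Or.inl ⟨congrArg Sum.inl h1, congrArg Sum.inr h2⟩⟩
  · obtain ⟨χ, h1, h2⟩ := exists_of_inl_eq_inr Ch φ' φ h.symm
    exact Or.inr ⟨χ, Or.inr ⟨congrArg Sum.inr h2, congrArg Sum.inl h1⟩⟩
  · left
    exact congrArg Sum.inr (algHom_eq_of_chartIncl Ch.isAffine₁ Ch.i₁ h)

end Pts

end

end Fermat.Agent.S25.H567

end
-- ===== PACK-END S25/H567/AbelPts.lean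

-- ===== PACK-BEGIN S25/H747/CurveCospan.lean
section
/-
S25 / block ABEL, sub-block AB-ALG (helper747), leaf C1: for a curve chart the cospan
`A ⊗ B₀ → A ⊗ B₀₁ ← A ⊗ B₁` is a cospan of localizations; injectivity of the legs.
-/


set_option autoImplicit false
universe u
open scoped TensorProduct

namespace Fermat.Agent.S25.H747

open Fermat.Agent.S25

section

variable {k : Type u} [Field k]

/-- Base change of a localization `B → B'` away from `x` along `k → A`. -/
theorem isLocalization_away_tensor (A B B' : Type u) [CommRing A] [Algebra k A] [CommRing B]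
    [CommRing B'] [Algebra k B] [Algebra k B'] [Algebra B B'] [IsScalarTower k B B']
    (x : B) [IsLocalization.Away x B'] :
    IsLocalization.Away ((1 : A) ⊗ₜ[k] x) (A ⊗[k] B') := by
  have h := IsLocalization.tensorProduct_tensorProduct_right k A (Submonoid.powers x) B'
    (by ext; simp [RingHom.algebraMap_toAlgebra, tensorMapRight])
  have e : (Submonoid.powers x).map (Algebra.TensorProduct.includeRight (R := k) (A := A)) =
      Submonoid.powers ((1 : A) ⊗ₜ[k] x) := by
    rw [Submonoid.map_powers]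
    rfl
  rw [e] at h
  exact h

theorem algebraMap_tensor_apply (A B B' : Type u) [CommRing A] [Algebra k A] [CommRing B]
    [CommRing B'] [Algebra k B] [Algebra k B'] [Algebra B B'] [IsScalarTower k B B']
    (a : A) (b : B) :
    algebraMap (A ⊗[k] B) (A ⊗[k] B') (a ⊗ₜ[k] b) = a ⊗ₜ[k] algebraMap B B' b := by
  simp [RingHom.algebraMap_toAlgebra, tensorMapRight]

/-- Base change along `k → A` preserves injectivity of `B → B'` (`k` is a field). -/
theorem algebraMap_tensor_injective (A B B' : Type u) [CommRing A] [Algebra k A] [CommRing B]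
    [CommRing B'] [Algebra k B] [Algebra k B'] [Algebra B B'] [IsScalarTower k B B']
    (h : Function.Injective (algebraMap B B')) :
    Function.Injective (algebraMap (A ⊗[k] B) (A ⊗[k] B')) := by
  have : (algebraMap (A ⊗[k] B) (A ⊗[k] B') : A ⊗[k] B → A ⊗[k] B') =
      (LinearMap.lTensor A (IsScalarTower.toAlgHom k B B').toLinearMap) := by
    ext z
    induction z using TensorProduct.induction_on with
    | zero => simp
    | add a b ha hb => simp only [map_add, ha, hb]
    | tmul a b => simp [algebraMap_tensor_apply]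
  rw [this]
  exact Module.Flat.lTensor_preserves_injective_linearMap _ h

end

end Fermat.Agent.S25.H747

end
-- ===== PACK-END S25/H747/CurveCospan.lean

-- ===== PACK-BEGIN S25/H266/AbLocRig.lean
section
/-
S25 / block ABEL, sub-block AB-ALG, leaf AA4 (helper266): the algebraic Abel datum is
Zariski-locally rigidifiable.  Exact statement of `H747.Skel.abelDatum_locRig`, with leaf AA2
(`abelDatum_isBC`, compatibility with base change) as the only hypothesis.
-/



set_option autoImplicit false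
universe u
open scoped TensorProduct

namespace Fermat.Agent.S25.H266

open Fermat.Agent.S25 Fermat.Agent.S25.H747

variable {k : Type u} [Field k]
  {B₀ B₁ B₀₁ : Type u} [CommRing B₀] [CommRing B₁] [CommRing B₀₁]
  [Algebra k B₀] [Algebra k B₁] [Algebra k B₀₁] [Algebra B₀ B₀₁] [Algebra B₁ B₀₁]
  [IsScalarTower k B₀ B₀₁] [IsScalarTower k B₁ B₀₁]

/-- **AA4** (`abelDatum_locRig`) from **AA2** (`abelDatum_isBC`): Zariski-locally on `Spec A`
the algebraic Abel datum is rigidifiable. -/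
theorem abelDatum_locRig_of_isBC (e : B₁ →ₐ[k] k) (g : ℕ)
    (A : Type u) [CommRing A] [Algebra k A] (P : Fin g → H746.ChartPt k B₀ B₁ A)
    (hBC : ∀ (A' : Type u) [CommRing A'] [Algebra k A'] (ψ : A →ₐ[k] A'),
      CurveGD.IsBC ψ (abelDatum (B₀₁ := B₀₁) e g A P)
        (abelDatum (B₀₁ := B₀₁) e g A' (fun i => (P i).map ψ)))
    (𝔭 : Ideal A) (h𝔭 : 𝔭.IsPrime) : ∃ f : A, f ∉ 𝔭 ∧
      ∀ (A' : Type u) [CommRing A'] [Algebra k A'] (ψ : A →ₐ[k] A'), IsUnit (ψ f) →
        (abelDatum (B₀₁ := B₀₁) e g A' (fun i => (P i).map ψ)).Rigidifiable e := by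
  obtain ⟨f, hf, H⟩ := exists_rigidifiable_of_isBC e (abelDatum (B₀₁ := B₀₁) e g A P) 𝔭 h𝔭
  exact ⟨f, hf, fun A' _ _ ψ hψ => H A' ψ hψ _ (hBC A' ψ)⟩

end Fermat.Agent.S25.H266

end
-- ===== PACK-END S25/H266/AbLocRig.lean

-- ===== PACK-BEGIN S25/H927/AbAlgBC.lean
section
/-
S25 / block ABEL, sub-block AB-ALG (skeleton of helper747), base-change chain, helper927.

**AA2** `abelDatum_isBC_of` : the algebraic Abel datum commutes with base change, with the
leaves AA1 (`tupCartier`) and C5 (`ptI₀_map`, `ptI₁_map`) as explicit hypotheses, in the exact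
form of `H747/Skel/AbAlgSkel.lean` (for a fixed curve chart).  Uses G3 (`homDatum_isBC`),
G4 + G6 (`ofIdeals_isBC_of_map`) of this directory.
-/




set_option autoImplicit false
set_option linter.style.haveILetI false
universe u
open scoped TensorProduct

namespace Fermat.Agent.S25.H927

open Fermat.Agent.S25 Fermat.Agent.S25.H747

noncomputable section

variable {k : Type u} [Field k]
  {B₀ B₁ B₀₁ : Type u} [CommRing B₀] [CommRing B₁] [CommRing B₀₁]
  [Algebra k B₀] [Algebra k B₁] [Algebra k B₀₁] [Algebra B₀ B₀₁] [Algebra B₁ B₀₁]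
  [IsScalarTower k B₀ B₀₁] [IsScalarTower k B₁ B₀₁]

/-- The square of ring maps `A ⊗ B → A ⊗ B'`, `A ⊗ B → A' ⊗ B` commutes. -/
theorem tensorMapLeft_comp_algebraMap {A A' : Type u} [CommRing A] [Algebra k A] [CommRing A']
    [Algebra k A'] (ψ : A →ₐ[k] A') (B B' : Type u) [CommRing B] [CommRing B'] [Algebra k B]
    [Algebra k B'] [Algebra B B'] [IsScalarTower k B B'] :
    (tensorMapLeft k ψ B').comp (algebraMap (A ⊗[k] B) (A ⊗[k] B')) =
      (algebraMap (A' ⊗[k] B) (A' ⊗[k] B')).comp (tensorMapLeft k ψ B) := by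
  have h : ((Algebra.TensorProduct.map ψ (AlgHom.id k B')).comp
      ((tensorMapRight k A B B').restrictScalars k)) =
      ((tensorMapRight k A' B B').restrictScalars k).comp
        (Algebra.TensorProduct.map ψ (AlgHom.id k B)) := by
    ext a
    · simp [tensorMapRight]
    · simp [tensorMapRight]
  exact congrArg (fun φ : A ⊗[k] B →ₐ[k] A' ⊗[k] B' => (φ : A ⊗[k] B →+* A' ⊗[k] B')) h

/-- `Ideal.map` commutes with finite products. -/
theorem ideal_map_finset_prod {R S : Type*} [CommRing R] [CommRing S] (f : R →+* S)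
    {ι : Type*} (s : Finset ι) (I : ι → Ideal R) :
    (∏ i ∈ s, I i).map f = ∏ i ∈ s, (I i).map f :=
  map_prod (Ideal.mapHom f) I s

/-- Base change of the marked chart point. -/
theorem epsPt_map (e : B₁ →ₐ[k] k) {A A' : Type u} [CommRing A] [Algebra k A] [CommRing A']
    [Algebra k A'] (ψ : A →ₐ[k] A') :
    (epsPt B₀ e A).map ψ = epsPt B₀ e A' := by
  simp only [epsPt, H746.ChartPt.map, Sum.map_inr]
  congr 1
  ext b
  simp [Algebra.ofId_apply]

/-- **AA2** (assembly).  Compatibility of the algebraic Abel datum with base change, from the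
leaves AA1 and C5. -/
theorem abelDatum_isBC_of (e : B₁ →ₐ[k] k)
    (hAA1 : ∀ (A : Type u) [CommRing A] [Algebra k A] {g : ℕ}
      (P : Fin g → H746.ChartPt k B₀ B₁ A), TupCartier (B₀₁ := B₀₁) P)
    (hC5₀ : ∀ {A A' : Type u} [CommRing A] [Algebra k A] [CommRing A'] [Algebra k A']
      (ψ : A →ₐ[k] A') (P : H746.ChartPt k B₀ B₁ A),
      (ptI₀ B₀₁ P).map (tensorMapLeft k ψ B₀) = ptI₀ B₀₁ (P.map ψ))
    (hC5₁ : ∀ {A A' : Type u} [CommRing A] [Algebra k A] [CommRing A'] [Algebra k A']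
      (ψ : A →ₐ[k] A') (P : H746.ChartPt k B₀ B₁ A),
      (ptI₁ B₀₁ P).map (tensorMapLeft k ψ B₁) = ptI₁ B₀₁ (P.map ψ))
    (g : ℕ) (A A' : Type u) [CommRing A] [Algebra k A] [CommRing A'] [Algebra k A']
    (ψ : A →ₐ[k] A') (P : Fin g → H746.ChartPt k B₀ B₁ A) :
    CurveGD.IsBC ψ (abelDatum (B₀₁ := B₀₁) e g A P)
      (abelDatum (B₀₁ := B₀₁) e g A' (fun i => (P i).map ψ)) := by
  have hP := hAA1 A P
  have hE := hAA1 A (fun _ : Fin g => epsPt B₀ e A)
  have hP' := hAA1 A' (fun i => (P i).map ψ)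
  have hE' := hAA1 A' (fun _ : Fin g => epsPt B₀ e A')
  rw [abelDatum_eq e g A P hP hE, abelDatum_eq e g A' _ hP' hE']
  have h₀ := tensorMapLeft_comp_algebraMap ψ B₀ B₀₁
  have h₁ := tensorMapLeft_comp_algebraMap ψ B₁ B₀₁
  refine homDatum_isBC _ _ _ h₀ h₁ ?_ ?_
  · refine ofIdeals_isBC_of_map _ _ _ h₀ h₁ hP hP' ?_ ?_
    · simp only [tupI₀, ideal_map_finset_prod, hC5₀]
    · simp only [tupI₁, ideal_map_finset_prod, hC5₁]
  · refine ofIdeals_isBC_of_map _ _ _ h₀ h₁ hE hE' ?_ ?_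
    · simp only [tupI₀, ideal_map_finset_prod, hC5₀, epsPt_map]
    · simp only [tupI₁, ideal_map_finset_prod, hC5₁, epsPt_map]

end

end Fermat.Agent.S25.H927

end
-- ===== PACK-END S25/H927/AbAlgBC.lean

-- ===== PACK-BEGIN S25/H431/ACPointUnique.lean
section
/-
S25 / block ALGCHARTS, leaf PT-UNIQ (helper431): the Hilbert coordinates of a point of a chart
are unique.

Route: two generators of `H⁰(G(nE₀ - Σq))` span the same submodule of `N₀`, so
`(I · I_q) N₀ = (I' · I_q) N₀`; cancel the invertible module `N₀` and the invertible ideals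
`ker (ptHom (q i))`, then use the representability of the Hilbert chart (helper491).
-/





set_option autoImplicit false
set_option linter.unusedSectionVars false

universe u

open scoped TensorProduct

namespace Fermat.Agent.S25.H431

open Fermat.Agent.S25 Fermat.Agent.S25.H11

/-! ## Cancellation of invertible modules and ideals -/

section Cancel

variable {R : Type*} [CommRing R] {N : Type*} [AddCommGroup N] [Module R N]

/-- A functional maps `J • ⊤` into `J`. -/
theorem dual_apply_mem_of_mem_smul_top (J : Ideal R) (φ : Module.Dual R N) {n : N}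
    (hn : n ∈ J • (⊤ : Submodule R N)) : φ n ∈ J := by
  refine Submodule.smul_induction_on (p := fun n => φ n ∈ J) hn (fun a ha m _ => ?_)
    (fun x y hx hy => ?_)
  · change φ (a • m) ∈ J
    rw [map_smul, smul_eq_mul]
    exact J.mul_mem_right _ ha
  · rw [map_add]
    exact J.add_mem hx hy

variable [Module.Invertible R N]

/-- An invertible module can be cancelled: `J N ≤ J' N ⇒ J ≤ J'`. -/
theorem ideal_le_of_smul_top_le {J J' : Ideal R}
    (h : J • (⊤ : Submodule R N) ≤ J' • ⊤) : J ≤ J' := by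
  classical
  intro r hr
  obtain ⟨S, hS⟩ := ((Module.Invertible.linearEquiv R N).symm 1).exists_finset
  have h1 : (1 : R) = ∑ i ∈ S, i.1 i.2 := by
    simpa [LinearEquiv.symm_apply_eq, Module.Invertible.linearEquiv] using hS
  have h2 : r = ∑ i ∈ S, i.1 (r • i.2) := by
    simp only [map_smul, smul_eq_mul, ← Finset.mul_sum, ← h1, mul_one]
  rw [h2]
  exact J'.sum_mem fun i _ =>
    dual_apply_mem_of_mem_smul_top J' i.1 (h (Submodule.smul_mem_smul hr trivial))

/-- An invertible module can be cancelled: `J N = J' N ⇒ J = J'`. -/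
theorem ideal_eq_of_smul_top_eq {J J' : Ideal R}
    (h : J • (⊤ : Submodule R N) = J' • ⊤) : J = J' :=
  le_antisymm (ideal_le_of_smul_top_le h.le) (ideal_le_of_smul_top_le h.ge)

omit [Module.Invertible R N] in
/-- An ideal which is an invertible module can be cancelled. -/
theorem ideal_mul_right_cancel (K : Ideal R) [Module.Invertible R K] {J J' : Ideal R}
    (h : J * K = J' * K) : J = J' := by
  apply ideal_eq_of_smul_top_eq (N := K)
  apply Submodule.map_injective_of_injective K.injective_subtype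
  rw [Submodule.map_smul'', Submodule.map_smul'', Submodule.map_top, Submodule.range_subtype]
  exact h

omit [Module.Invertible R N] in
/-- A finite product of ideals which are invertible modules can be cancelled. -/
theorem ideal_mul_prod_right_cancel {ι : Type*} (s : Finset ι) (K : ι → Ideal R)
    (hK : ∀ i ∈ s, Module.Invertible R (K i)) {J J' : Ideal R}
    (h : J * ∏ i ∈ s, K i = J' * ∏ i ∈ s, K i) : J = J' := by
  classical
  induction s using Finset.induction_on generalizing J J' with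
  | empty => simpa using h
  | insert a s ha ih =>
    rw [Finset.prod_insert ha, ← mul_assoc, ← mul_assoc] at h
    have := hK a (Finset.mem_insert_self a s)
    exact ideal_mul_right_cancel (K a)
      (ih (fun i hi => hK i (Finset.mem_insert_of_mem hi)) h)

end Cancel

/-! ## Point ideals are invertible -/

section Chart

variable {k : Type u} [Field k] [IsAlgClosed k]
  {B₀ B₁ B₀₁ : Type u} [CommRing B₀] [CommRing B₁] [CommRing B₀₁]
  [Algebra k B₀] [Algebra k B₁] [Algebra k B₀₁] [Algebra B₀ B₀₁] [Algebra B₁ B₀₁]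
  [IsScalarTower k B₀ B₀₁] [IsScalarTower k B₁ B₀₁]
  {x : B₀} {y : B₁} {e : B₁ →ₐ[k] k}

/-- The diagonal ideal of the first chart ring of a curve chart is invertible. -/
theorem diagonal_invertible_of_isCurveChart (hC : IsCurveChart k B₀ B₁ B₀₁ x y e) :
    Module.Invertible (B₀ ⊗[k] B₀) (KaehlerDifferential.ideal k B₀) := by
  have := hC.isDomain₀
  have := hC.omega₀
  have := hC.smooth₀
  have : IsDomain (B₀ ⊗[k] B₀) := H567.isDomain_tensorProduct k B₀ B₀
  have : Algebra.FinitePresentation k B₀ := Algebra.Smooth.finitePresentation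
  exact diagonal_invertible k B₀

omit [IsAlgClosed k] in
theorem ptHom_surjective (p : B₀ →ₐ[k] k) (A : Type u) [CommRing A] [Algebra k A] :
    Function.Surjective (ptHom p A) := fun a =>
  ⟨a ⊗ₜ 1, by rw [ptHom_tmul, map_one, map_one, mul_one]⟩

/-- The ideal of an `A`-point coming from a `k`-point of `Spec B₀` is an invertible module. -/
theorem ker_ptHom_invertible (hC : IsCurveChart k B₀ B₁ B₀₁ x y e) (p : B₀ →ₐ[k] k)
    (A : Type u) [CommRing A] [Algebra k A] :
    Module.Invertible (A ⊗[k] B₀) (RingHom.ker (ptHom p A)) := by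
  have := diagonal_invertible_of_isCurveChart hC
  let ε : ((A ⊗[k] B₀) ⧸ RingHom.ker (ptHom p A)) ≃ₐ[A] A :=
    Ideal.quotientKerAlgEquivOfSurjective (ptHom_surjective p A)
  have : Module.Finite A ((A ⊗[k] B₀) ⧸ RingHom.ker (ptHom p A)) :=
    Module.Finite.equiv ε.symm.toLinearEquiv
  have : Module.Projective A ((A ⊗[k] B₀) ⧸ RingHom.ker (ptHom p A)) :=
    Module.Projective.of_equiv ε.symm.toLinearEquiv
  exact hilb_invertible k A B₀ (RingHom.ker (ptHom p A))

variable {A : Type u} [CommRing A] [Algebra k A]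

/-- **PT-UNIQ**: the Hilbert coordinates of a point are unique. -/
theorem pointCond_unique (hC : IsCurveChart k B₀ B₁ B₀₁ x y e) (i : ChartIndex k B₀)
    {G : CurveGD k B₀ B₁ B₀₁ A} {φ₀ φ₀' : H491.Rβ k i.β →ₐ[k] A}
    (h : PointCond x y i G φ₀) (h' : PointCond x y i G φ₀') : φ₀ = φ₀' := by
  classical
  obtain ⟨s, hs, hspan⟩ := h.sect
  obtain ⟨s', hs', hspan'⟩ := h'.sect
  -- the two generators span the same submodule of `N₀`
  have hle : ∀ {t t' : G.N₀ × G.N₁}, IsGen x y i.n i.q G t → IsGen x y i.n i.q G t' →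
      Submodule.span (A ⊗[k] B₀) {t'.1} ≤ Submodule.span (A ⊗[k] B₀) {t.1} := by
    intro t t' ht ht'
    obtain ⟨a, ha⟩ := ht.span t' ht'.mem
    rw [Submodule.span_singleton_le_iff_mem, ha, Prod.smul_fst,
      ← algebraMap_smul (A ⊗[k] B₀) a t.1]
    exact Submodule.smul_mem _ _ (Submodule.mem_span_singleton_self _)
  have hss : Submodule.span (A ⊗[k] B₀) {s.1} = Submodule.span (A ⊗[k] B₀) {s'.1} :=
    le_antisymm (hle hs' hs) (hle hs hs')
  -- cancel `N₀`
  have := G.invertible₀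
  have h1 : (H491.univIdeal (k := k) i.β).map (H491.bc B₀ φ₀) * ptIdeal i.q A =
      (H491.univIdeal (k := k) i.β).map (H491.bc B₀ φ₀') * ptIdeal i.q A :=
    ideal_eq_of_smul_top_eq (N := G.N₀) (by rw [← hspan, ← hspan', hss])
  -- cancel the point ideals
  have h2 : (H491.univIdeal (k := k) i.β).map (H491.bc B₀ φ₀) =
      (H491.univIdeal (k := k) i.β).map (H491.bc B₀ φ₀') :=
    ideal_mul_prod_right_cancel Finset.univ (fun j => RingHom.ker (ptHom (i.q j) A))
      (fun j _ => ker_ptHom_invertible hC (i.q j) A) h1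
  -- representability of the Hilbert chart
  have hI : H491.IsChart i.β ((H491.univIdeal (k := k) i.β).map (H491.bc B₀ φ₀)) :=
    (H491.isChart_univIdeal i.β).map φ₀
  exact (H491.existsUnique_algHom_of_isChart hI).unique rfl h2.symm

/-- **PT-UNIQ** as the frozen leaf `H11.Leaf.PointUnique`. -/
theorem leaf_pointUnique : H11.Leaf.PointUnique k B₀ B₁ B₀₁ :=
  fun _ _ _ hC i _ _ _ _ _ _ h h' => pointCond_unique hC i h h'

end Chart

end Fermat.Agent.S25.H431

end
-- ===== PACK-END S25/H431/ACPointUnique.lean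

-- ===== PACK-BEGIN S25/H565/DegreeD3.lean
section






/-!
# S25 / DEGREE, leaves D3 and D5 (helper565): exact statements of `H10/DegreeSkel.lean`

Namespace `Fermat.Agent.S25.H565.D` (the names of the skeleton are kept inside it):

* D3: `euler_eq_of_injective`, `H1_surjective_of_finite_coker`, `injective_of_ne_zero`,
  `finite_coker_of_injective`, `bijective_of_degree_eq` (ISO LEMMA), `degree_le_of_ne_zero`;
* D5: `degree_nonneg_of_section`, `ofSection_bijective`, `finrank_H0_le_one`.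
-/

set_option autoImplicit false
set_option linter.style.haveILetI false
set_option linter.unusedSectionVars false

universe u

open scoped TensorProduct

namespace Fermat.Agent.S25.H565

open Fermat.Agent.S25 Fermat.Agent.S25.H10

section Convert

variable {A R₀ R₁ R₀₁ : Type u} [CommRing A] [CommRing R₀] [CommRing R₁]
    [CommRing R₀₁] [Algebra A R₀] [Algebra A R₁] [Algebra A R₀₁] [Algebra R₀ R₀₁]
    [Algebra R₁ R₀₁] [IsScalarTower A R₀ R₀₁] [IsScalarTower A R₁ R₀₁]

/-- `H10.GDHom` and `H565.GlueHom` are the same structure. -/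
def GlueHom.ofGDHom {G G' : GlueDatum A R₀ R₁ R₀₁} (f : GDHom G G') : GlueHom G G' :=
  ⟨f.f₀, f.f₁, f.f₀₁, f.comm₀, f.comm₁⟩

@[simp] theorem GlueHom.ofGDHom_f₀ {G G' : GlueDatum A R₀ R₁ R₀₁} (f : GDHom G G') :
    (GlueHom.ofGDHom f).f₀ = f.f₀ := rfl

@[simp] theorem GlueHom.ofGDHom_f₁ {G G' : GlueDatum A R₀ R₁ R₀₁} (f : GDHom G G') :
    (GlueHom.ofGDHom f).f₁ = f.f₁ := rfl

@[simp] theorem GlueHom.ofGDHom_f₀₁ {G G' : GlueDatum A R₀ R₁ R₀₁} (f : GDHom G G') :
    (GlueHom.ofGDHom f).f₀₁ = f.f₀₁ := rfl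

end Convert

section Coker

variable {K : Type*} [Field K] {R : Type*} [CommRing R] [Algebra K R]
  {N N' : Type*} [AddCommGroup N] [AddCommGroup N'] [Module R N] [Module R N']
  [Module K N] [Module K N'] [IsScalarTower K R N] [IsScalarTower K R N']

/-- The two forms of the cokernel of an `R`-linear map, as `K`-vector spaces. -/
def cokerEquiv (f : N →ₗ[R] N') :
    (N' ⧸ LinearMap.range (f.restrictScalars K)) ≃ₗ[K] (N' ⧸ LinearMap.range f) :=
  Submodule.Quotient.restrictScalarsEquiv K (LinearMap.range f)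

theorem finite_coker_iff (f : N →ₗ[R] N') :
    Module.Finite K (N' ⧸ LinearMap.range (f.restrictScalars K)) ↔
      Module.Finite K (N' ⧸ LinearMap.range f) :=
  Module.Finite.equiv_iff (cokerEquiv (K := K) f)

theorem finrank_coker_eq (f : N →ₗ[R] N') :
    Module.finrank K (N' ⧸ LinearMap.range (f.restrictScalars K)) =
      Module.finrank K (N' ⧸ LinearMap.range f) :=
  LinearEquiv.finrank_eq (cokerEquiv (K := K) f)

end Coker

section Invertible

variable {R : Type*} [CommRing R] [IsDomain R] {N N' : Type*} [AddCommGroup N]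
  [AddCommGroup N'] [Module R N] [Module R N'] [Module.Invertible R N]
  [Module.Invertible R N']

/-- A nonzero linear map between invertible modules over a domain is injective. -/
theorem injective_of_ne_zero_of_invertible (f : N →ₗ[R] N') (hf : f ≠ 0) :
    Function.Injective f := by
  rw [← LinearMap.ker_eq_bot, LinearMap.ker_eq_bot']
  intro a ha
  by_contra ha0
  apply hf
  obtain ⟨r, hr, hrN⟩ := exists_ne_zero_smul_mem_span (R := R) a ha0
  ext b
  obtain ⟨c, hc⟩ := hrN b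
  have h1 : r • f b = 0 := by rw [← map_smul, hc, map_smul, ha, smul_zero]
  rcases smul_eq_zero.mp h1 with h | h
  · exact absurd h hr
  · simpa using h

/-- An invertible module over a nontrivial ring has a nonzero element. -/
theorem exists_ne_zero_of_invertible (R : Type*) [CommRing R] [Nontrivial R] (N : Type*)
    [AddCommGroup N] [Module R N] [Module.Invertible R N] : ∃ a : N, a ≠ 0 := by
  by_contra hcon
  push Not at hcon
  have h1 : (1 : R) • (0 : N) = (0 : R) • (0 : N) := by simp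
  have h2 : ∀ n : N, (1 : R) • n = (0 : R) • n := fun n => by rw [hcon n]; simp
  exact one_ne_zero (FaithfulSMul.eq_of_smul_eq_smul (M := R) (α := N) h2)

end Invertible

section FiniteCoker

variable {K : Type*} [Field K] {R : Type*} [CommRing R] [Algebra K R] [IsDomain R]

/-- The cokernel of an injective map of invertible modules over a domain finite over `K[x]`
is finite-dimensional. -/
theorem finite_coker_of_injective_of_invertible (x : R)
    (hfin : (Polynomial.aeval x : Polynomial K →ₐ[K] R).Finite)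
    {N N' : Type*} [AddCommGroup N] [AddCommGroup N'] [Module R N] [Module R N']
    [Module K N] [Module K N'] [IsScalarTower K R N] [IsScalarTower K R N']
    [Module.Invertible R N] [Module.Invertible R N'] (f : N →ₗ[R] N')
    (hf : Function.Injective f) :
    Module.Finite K (N' ⧸ LinearMap.range (f.restrictScalars K)) := by
  obtain ⟨a, ha⟩ := exists_ne_zero_of_invertible R N
  have hfa : f a ≠ 0 := fun h => ha (hf (by rw [h, map_zero]))
  haveI := finiteDimensional_quotient_span_singleton (K := K) x hfin (f a) hfa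
  have hle : LinearMap.range ((LinearMap.toSpanSingleton R N' (f a)).restrictScalars K) ≤
      (LinearMap.range (f.restrictScalars K)).comap LinearMap.id := by
    rintro _ ⟨c, rfl⟩
    refine ⟨c • a, ?_⟩
    simp
  refine Module.Finite.of_surjective (Submodule.mapQ _ _ LinearMap.id hle) ?_
  intro q
  obtain ⟨n, rfl⟩ := Submodule.Quotient.mk_surjective _ q
  exact ⟨Submodule.Quotient.mk n, rfl⟩

end FiniteCoker

section NeZero

variable {K R₀ R₁ R₀₁ : Type u} [Field K] [CommRing R₀] [CommRing R₁]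
    [CommRing R₀₁] [Algebra K R₀] [Algebra K R₁] [Algebra K R₀₁] [Algebra R₀ R₀₁]
    [Algebra R₁ R₀₁] [IsScalarTower K R₀ R₀₁] [IsScalarTower K R₁ R₀₁]

/-- If `f` vanishes on a chart `Spec R` with `R₀₁ = R[1/x]`, it vanishes on the overlap. -/
theorem mid_eq_zero_of_away {R R' : Type u} [CommRing R] [CommRing R'] [Algebra R R']
    (x : R) [IsLocalization.Away x R']
    {N N' L L' : Type u} [AddCommGroup N] [AddCommGroup N'] [AddCommGroup L] [AddCommGroup L']
    [Module R N] [Module R N'] [Module R' L] [Module R L] [IsScalarTower R R' L]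
    [Module R' L'] [Module R L'] [IsScalarTower R R' L']
    (f : N →ₗ[R] N') (g : L →ₗ[R'] L') (r : N →ₗ[R] L) (r' : N' →ₗ[R] L')
    (hr : IsBaseChange R' r) (hr' : IsBaseChange R' r') (hcomm : ∀ n, g (r n) = r' (f n))
    (hf : f = 0) : g = 0 := by
  have hloc : IsLocalizedModule (Submonoid.powers x) r :=
    (isLocalizedModule_iff_isBaseChange (Submonoid.powers x) R' r).2 hr
  have hloc' : IsLocalizedModule (Submonoid.powers x) r' :=
    (isLocalizedModule_iff_isBaseChange (Submonoid.powers x) R' r').2 hr'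
  ext z
  obtain ⟨⟨n, s⟩, hs⟩ := IsLocalizedModule.surj (Submonoid.powers x) r z
  have hs' : (s : R) • z = r n := hs
  have h1 : (s : R) • g z = 0 := by
    rw [← algebraMap_smul R' (s : R) (g z), ← map_smul, algebraMap_smul, hs', hcomm, hf,
      LinearMap.zero_apply, map_zero]
  have h2 : s • g z = s • (0 : L') := by rw [smul_zero]; exact h1
  simpa using (IsLocalizedModule.smul_inj r' s (g z) 0).1 h2

variable [IsDomain R₀] [IsDomain R₁] [Nontrivial R₀₁]
  (x : R₀) (y : R₁) [IsLocalization.Away x R₀₁] [IsLocalization.Away y R₀₁]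

include x y in
/-- A morphism of gluing data which is nonzero on one chart is nonzero on both. -/
theorem GlueHom.ne_zero_both {G G' : GlueDatum K R₀ R₁ R₀₁} (φ : GlueHom G G')
    (h : φ.f₀ ≠ 0 ∨ φ.f₁ ≠ 0) : φ.f₀ ≠ 0 ∧ φ.f₁ ≠ 0 := by
  have h01 : φ.f₀ = 0 → φ.f₁ = 0 := by
    intro h0
    have hmid : φ.f₀₁ = 0 :=
      mid_eq_zero_of_away x φ.f₀ φ.f₀₁ G.r₀ G'.r₀ G.isBaseChange₀ G'.isBaseChange₀ φ.comm₀ h0
    ext b
    apply r₁_injective y G'
    rw [← φ.comm₁, hmid]
    simp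
  have h10 : φ.f₁ = 0 → φ.f₀ = 0 := by
    intro h1
    have hmid : φ.f₀₁ = 0 :=
      mid_eq_zero_of_away y φ.f₁ φ.f₀₁ G.r₁ G'.r₁ G.isBaseChange₁ G'.isBaseChange₁ φ.comm₁ h1
    ext a
    apply r₀_injective x G'
    rw [← φ.comm₀, hmid]
    simp
  constructor
  · intro h0
    rcases h with h | h
    · exact h h0
    · exact h (h01 h0)
  · intro h1
    rcases h with h | h
    · exact h (h10 h1)
    · exact h h1

include x y in
/-- A morphism of gluing data which is nonzero on one chart is injective on both. -/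
theorem GlueHom.injective_of_ne_zero {G G' : GlueDatum K R₀ R₁ R₀₁} (φ : GlueHom G G')
    (h : φ.f₀ ≠ 0 ∨ φ.f₁ ≠ 0) : Function.Injective φ.f₀ ∧ Function.Injective φ.f₁ := by
  obtain ⟨h0, h1⟩ := φ.ne_zero_both x y h
  haveI := G.invertible₀
  haveI := G.invertible₁
  haveI := G'.invertible₀
  haveI := G'.invertible₁
  exact ⟨injective_of_ne_zero_of_invertible φ.f₀ h0, injective_of_ne_zero_of_invertible φ.f₁ h1⟩

include x in
/-- Surjectivity on a chart implies surjectivity on the overlap. -/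
theorem GlueHom.f₀₁_surjective {G G' : GlueDatum K R₀ R₁ R₀₁} (φ : GlueHom G G')
    (hs : Function.Surjective φ.f₀) : Function.Surjective φ.f₀₁ := by
  have hloc' : IsLocalizedModule (Submonoid.powers x) G'.r₀ :=
    (isLocalizedModule_iff_isBaseChange (Submonoid.powers x) R₀₁ G'.r₀).2 G'.isBaseChange₀
  obtain ⟨u, hu⟩ := IsLocalization.Away.algebraMap_isUnit (S := R₀₁) x
  intro z'
  obtain ⟨⟨n', s⟩, hs'⟩ := IsLocalizedModule.surj (Submonoid.powers x) G'.r₀ z'
  obtain ⟨k, hk⟩ := s.2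
  have hs'' : (x ^ k) • z' = G'.r₀ n' := by
    have : (s : R₀) • z' = G'.r₀ n' := hs'
    rwa [← hk] at this
  obtain ⟨n, rfl⟩ := hs n'
  refine ⟨((u⁻¹ : R₀₁ˣ) : R₀₁) ^ k • G.r₀ n, ?_⟩
  rw [map_smul, φ.comm₀, ← hs'', ← algebraMap_smul R₀₁ (x ^ k) z', map_pow, ← hu, smul_smul,
    ← mul_pow, Units.inv_mul, one_pow, one_smul]

end NeZero

namespace D

noncomputable section

variable {k : Type u} [Field k] {B₀ B₁ B₀₁ : Type u} [CommRing B₀] [CommRing B₁] [CommRing B₀₁]
  [Algebra k B₀] [Algebra k B₁] [Algebra k B₀₁] [Algebra B₀ B₀₁] [Algebra B₁ B₀₁]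
  [IsScalarTower k B₀ B₀₁] [IsScalarTower k B₁ B₀₁]
  {x : B₀} {y : B₁} {e : B₁ →ₐ[k] k}

/-- D1 in the form used here. -/
theorem finCoh (hC : IsCurveChart k B₀ B₁ B₀₁ x y e) {K : Type u} [Field K]
    [Algebra k K] (G : CurveGD k B₀ B₁ B₀₁ K) : FinCoh G.cech :=
  ⟨H250.finite_H0 hC G, H250.finite_H1_field hC G⟩

/-! ### D3: modifications -/

/-- D3-a. `χ` of a modification. -/
theorem euler_eq_of_injective (hC : IsCurveChart k B₀ B₁ B₀₁ x y e) {K : Type u} [Field K]
    [Algebra k K] {G G' : CurveGD k B₀ B₁ B₀₁ K} (f : GDHom G G') (hf : f.Injective)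
    (h₀ : Module.Finite K (G'.N₀ ⧸ LinearMap.range f.f₀))
    (h₁ : Module.Finite K (G'.N₁ ⧸ LinearMap.range f.f₁)) :
    G'.euler = G.euler + Module.finrank K (G'.N₀ ⧸ LinearMap.range f.f₀)
      + Module.finrank K (G'.N₁ ⧸ LinearMap.range f.f₁)
      - Module.finrank K (G'.N₀₁ ⧸ LinearMap.range f.f₀₁) := by
  haveI := chart_away₀ hC K
  haveI : FiniteDimensional K (GlueHom.ofGDHom f).coker₀ := (finite_coker_iff f.f₀).2 h₀
  haveI : FiniteDimensional K (GlueHom.ofGDHom f).coker₁ := (finite_coker_iff f.f₁).2 h₁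
  have h := ((GlueHom.ofGDHom f).euler_eq ((1 : K) ⊗ₜ[k] x) hf.1 hf.2 (finCoh hC G)).2
  rw [h]
  have e₀ : Module.finrank K (GlueHom.ofGDHom f).coker₀ =
      Module.finrank K (G'.N₀ ⧸ LinearMap.range f.f₀) := finrank_coker_eq f.f₀
  have e₁ : Module.finrank K (GlueHom.ofGDHom f).coker₁ =
      Module.finrank K (G'.N₁ ⧸ LinearMap.range f.f₁) := finrank_coker_eq f.f₁
  have e₀₁ : Module.finrank K (GlueHom.ofGDHom f).coker₀₁ =
      Module.finrank K (G'.N₀₁ ⧸ LinearMap.range f.f₀₁) := finrank_coker_eq f.f₀₁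
  rw [e₀, e₁, e₀₁]

/-- D3-b. `Ȟ¹(G) → Ȟ¹(G')` is onto as soon as one chart cokernel is finite-dimensional. -/
theorem H1_surjective_of_finite_coker (hC : IsCurveChart k B₀ B₁ B₀₁ x y e) {K : Type u}
    [Field K] [Algebra k K] {G G' : CurveGD k B₀ B₁ B₀₁ K} (f : GDHom G G')
    (h₀ : Module.Finite K (G'.N₀ ⧸ LinearMap.range f.f₀)) (z' : G'.N₀₁) :
    ∃ z : G.N₀₁, z' - f.f₀₁ z ∈ LinearMap.range G'.cech := by
  haveI := chart_away₀ hC K
  haveI : FiniteDimensional K (GlueHom.ofGDHom f).coker₀ := (finite_coker_iff f.f₀).2 h₀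
  have hz : z' ∈ LinearMap.range (GlueHom.ofGDHom f).fMid ⊔
      LinearMap.range (G'.r₀.restrictScalars K) := by
    rw [(GlueHom.ofGDHom f).sup_range_r₀ ((1 : K) ⊗ₜ[k] x)]; trivial
  obtain ⟨_, ⟨z, rfl⟩, _, ⟨n, rfl⟩, rfl⟩ := Submodule.mem_sup.mp hz
  refine ⟨z, (n, 0), ?_⟩
  rw [GlueHom.cech_apply]
  simp

/-- D3-c. A morphism which is nonzero on one chart is injective on both. -/
theorem injective_of_ne_zero [IsAlgClosed k] (hC : IsCurveChart k B₀ B₁ B₀₁ x y e)
    {K : Type u} [Field K] [Algebra k K] {G G' : CurveGD k B₀ B₁ B₀₁ K} (f : GDHom G G')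
    (hf : f.f₀ ≠ 0 ∨ f.f₁ ≠ 0) : f.Injective := by
  haveI := chart_away₀ hC K
  haveI := chart_away₁ hC K
  haveI := chart_isDomain₀ hC K
  haveI := chart_isDomain₁ hC K
  haveI := chart_nontrivial₀₁ hC K
  exact (GlueHom.ofGDHom f).injective_of_ne_zero ((1 : K) ⊗ₜ[k] x) ((1 : K) ⊗ₜ[k] y) hf

theorem finite_coker_of_injective [IsAlgClosed k] (hC : IsCurveChart k B₀ B₁ B₀₁ x y e)
    {K : Type u} [Field K] [Algebra k K] {G G' : CurveGD k B₀ B₁ B₀₁ K} (f : GDHom G G')
    (hf : f.Injective) :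
    Module.Finite K (G'.N₀ ⧸ LinearMap.range f.f₀) ∧
      Module.Finite K (G'.N₁ ⧸ LinearMap.range f.f₁) := by
  haveI := chart_isDomain₀ hC K
  haveI := chart_isDomain₁ hC K
  haveI := G.invertible₀
  haveI := G.invertible₁
  haveI := G'.invertible₀
  haveI := G'.invertible₁
  exact ⟨(finite_coker_iff f.f₀).1
      (finite_coker_of_injective_of_invertible _ (chart_finite₀ hC K) f.f₀ hf.1),
    (finite_coker_iff f.f₁).1
      (finite_coker_of_injective_of_invertible _ (chart_finite₁ hC K) f.f₁ hf.2)⟩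

/-- D3-d. THE ISO LEMMA: a nonzero morphism between data of the same degree is bijective. -/
theorem bijective_of_degree_eq [IsAlgClosed k] (hC : IsCurveChart k B₀ B₁ B₀₁ x y e)
    {K : Type u} [Field K] [Algebra k K] {G G' : CurveGD k B₀ B₁ B₀₁ K} (f : GDHom G G')
    (hf : f.f₀ ≠ 0 ∨ f.f₁ ≠ 0) (hdeg : G.degree = G'.degree) : f.Bijective := by
  haveI := chart_away₀ hC K
  haveI := chart_away₁ hC K
  haveI := chart_isDomain₀ hC K
  haveI := chart_isDomain₁ hC K
  haveI := chart_nontrivial₀₁ hC K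
  have hinj := injective_of_ne_zero hC f hf
  obtain ⟨h₀, h₁⟩ := finite_coker_of_injective hC f hinj
  haveI : FiniteDimensional K (GlueHom.ofGDHom f).coker₀ := (finite_coker_iff f.f₀).2 h₀
  haveI : FiniteDimensional K (GlueHom.ofGDHom f).coker₁ := (finite_coker_iff f.f₁).2 h₁
  have heq : G'.euler = G.euler := by
    have := hdeg
    simp only [GlueDatum.degree] at this
    omega
  obtain ⟨hs₀, hs₁⟩ := (GlueHom.ofGDHom f).surjective_of_euler_eq ((1 : K) ⊗ₜ[k] x)
    ((1 : K) ⊗ₜ[k] y) hinj.1 hinj.2 (finCoh hC G) heq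
  exact ⟨⟨hinj.1, hs₀⟩, ⟨hinj.2, hs₁⟩,
    (GlueHom.ofGDHom f).f₀₁_injective ((1 : K) ⊗ₜ[k] x) hinj.1,
    (GlueHom.ofGDHom f).f₀₁_surjective ((1 : K) ⊗ₜ[k] x) hs₀⟩

/-- D3-e. A nonzero morphism can only raise the degree. -/
theorem degree_le_of_ne_zero [IsAlgClosed k] (hC : IsCurveChart k B₀ B₁ B₀₁ x y e)
    {K : Type u} [Field K] [Algebra k K] {G G' : CurveGD k B₀ B₁ B₀₁ K} (f : GDHom G G')
    (hf : f.f₀ ≠ 0 ∨ f.f₁ ≠ 0) : G.degree ≤ G'.degree := by
  haveI := chart_away₀ hC K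
  haveI := chart_away₁ hC K
  have hinj := injective_of_ne_zero hC f hf
  obtain ⟨h₀, h₁⟩ := finite_coker_of_injective hC f hinj
  haveI : FiniteDimensional K (GlueHom.ofGDHom f).coker₀ := (finite_coker_iff f.f₀).2 h₀
  haveI : FiniteDimensional K (GlueHom.ofGDHom f).coker₁ := (finite_coker_iff f.f₁).2 h₁
  have h := ((GlueHom.ofGDHom f).euler_ge ((1 : K) ⊗ₜ[k] x) ((1 : K) ⊗ₜ[k] y) hinj.1 hinj.2
    (finCoh hC G)).1
  simp only [GlueDatum.degree]
  have h0 : (0 : ℤ) ≤ Module.finrank K (GlueHom.ofGDHom f).coker₀ := Int.natCast_nonneg _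
  omega

/-! ### D5: sections -/

theorem degree_unit (K : Type u) [Field K] [Algebra k K] :
    (GlueDatum.unit K (K ⊗[k] B₀) (K ⊗[k] B₁) (K ⊗[k] B₀₁)).degree = 0 := by
  simp [GlueDatum.degree]

theorem ofSection_ne_zero {K : Type u} [Field K] [Algebra k K] (G : CurveGD k B₀ B₁ B₀₁ K)
    (s : G.H0) (hs : s ≠ 0) :
    (GDHom.ofSection G s).f₀ ≠ 0 ∨ (GDHom.ofSection G s).f₁ ≠ 0 := by
  by_contra hcon
  push Not at hcon
  obtain ⟨h0, h1⟩ := hcon
  apply hs
  apply Subtype.ext
  have e0 : s.1.1 = 0 := by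
    have h2 : (GDHom.ofSection G s).f₀ (1 : K ⊗[k] B₀) = (1 : K ⊗[k] B₀) • s.1.1 := rfl
    rw [h0, one_smul] at h2
    exact h2.symm
  have e1 : s.1.2 = 0 := by
    have h2 : (GDHom.ofSection G s).f₁ (1 : K ⊗[k] B₁) = (1 : K ⊗[k] B₁) • s.1.2 := rfl
    rw [h1, one_smul] at h2
    exact h2.symm
  exact Prod.ext e0 e1

/-- D5-a. A datum with a nonzero section has degree `≥ 0`. -/
theorem degree_nonneg_of_section [IsAlgClosed k] (hC : IsCurveChart k B₀ B₁ B₀₁ x y e)
    {K : Type u} [Field K] [Algebra k K] (G : CurveGD k B₀ B₁ B₀₁ K) (s : G.H0)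
    (hs : s ≠ 0) : 0 ≤ G.degree := by
  have h := degree_le_of_ne_zero hC (GDHom.ofSection G s) (ofSection_ne_zero G s hs)
  rwa [degree_unit] at h

/-- D5-b. A nonzero section of a degree-0 datum trivialises it. -/
theorem ofSection_bijective [IsAlgClosed k] (hC : IsCurveChart k B₀ B₁ B₀₁ x y e)
    {K : Type u} [Field K] [Algebra k K] (G : CurveGD k B₀ B₁ B₀₁ K) (hG : G.degree = 0)
    (s : G.H0) (hs : s ≠ 0) : (GDHom.ofSection G s).Bijective :=
  bijective_of_degree_eq hC (GDHom.ofSection G s) (ofSection_ne_zero G s hs)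
    (by rw [degree_unit, hG])

end

end D

end Fermat.Agent.S25.H565

end
-- ===== PACK-END S25/H565/DegreeD3.lean

-- ===== PACK-BEGIN S25/H911/ACPt.lean
section





/-!
# S25 / ALGCHARTS, SH2 (helper911): the ideal `ptIdeal q A` of the divisor `Σ q i`

* `ptHom_comp_tensorMapLeft`, `ker_ptHom_map`, `ptIdeal_map` : compatibility with base change,
  `(ptIdeal q A).map (tensorMapLeft k φ B₀) = ptIdeal q A'`;
* `quotKerPtHomEquiv` : `(A ⊗ B₀) ⧸ ker (ptHom p A) ≃ₐ[A] A`;
* `ker_ptHom_invertible` : `ker (ptHom p A)` is an invertible module (curve chart, H3);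
* `finrank_quotient_ptIdeal` : over a field `K`, `dim_K (K ⊗ B₀) ⧸ ptIdeal q K = m`;
* `finrank_quotient_mul_ptIdeal` : `dim_K (K ⊗ B₀) ⧸ (I * ptIdeal q K) = g + m` for a Hilbert
  point `I` of degree `g`.
-/

set_option autoImplicit false
set_option linter.style.haveILetI false

universe u

open scoped TensorProduct

namespace Fermat.Agent.S25.H911

open Fermat.Agent.S25

variable {k : Type u} [Field k] {B₀ B₁ B₀₁ : Type u} [CommRing B₀] [CommRing B₁] [CommRing B₀₁]
  [Algebra k B₀] [Algebra k B₁] [Algebra k B₀₁] [Algebra B₀ B₀₁] [Algebra B₁ B₀₁]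
  [IsScalarTower k B₀ B₀₁] [IsScalarTower k B₁ B₀₁]

section General

variable {A A' : Type u} [CommRing A] [Algebra k A] [CommRing A'] [Algebra k A']

theorem ptHom_surjective (p : B₀ →ₐ[k] k) (A : Type u) [CommRing A] [Algebra k A] :
    Function.Surjective (H11.ptHom p A) := fun a =>
  ⟨a ⊗ₜ[k] 1, by rw [H11.ptHom_tmul, map_one, map_one, mul_one]⟩

/-- `(A ⊗ B₀) ⧸ ker (ptHom p A) ≃ A`. -/
noncomputable def quotKerPtHomEquiv (p : B₀ →ₐ[k] k) (A : Type u) [CommRing A] [Algebra k A] :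
    ((A ⊗[k] B₀) ⧸ RingHom.ker (H11.ptHom p A)) ≃ₐ[A] A :=
  Ideal.quotientKerAlgEquivOfSurjective (ptHom_surjective p A)

/-- The `A`-points `ptHom p` are compatible with base change. -/
theorem ptHom_comp_tensorMapLeft (p : B₀ →ₐ[k] k) (φ : A →ₐ[k] A') (z : A ⊗[k] B₀) :
    H11.ptHom p A' (tensorMapLeft k φ B₀ z) = φ (H11.ptHom p A z) := by
  induction z using TensorProduct.induction_on with
  | zero => simp
  | tmul a b =>
    rw [tensorMapLeft_tmul, H11.ptHom_tmul, H11.ptHom_tmul, map_mul, AlgHom.commutes]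
  | add x y hx hy => rw [map_add, map_add, hx, hy, map_add, map_add]

/-- Every element is congruent to a constant modulo the generators `1 ⊗ b - p b` of
`ker (ptHom p A)`. -/
theorem sub_ptHom_mem_span (p : B₀ →ₐ[k] k) (z : A ⊗[k] B₀) :
    z - H11.ptHom p A z ⊗ₜ[k] (1 : B₀) ∈
      Ideal.span (Set.range fun b : B₀ =>
        ((1 : A) ⊗ₜ[k] b - (1 : A) ⊗ₜ[k] (algebraMap k B₀ (p b)) : A ⊗[k] B₀)) := by
  induction z using TensorProduct.induction_on with
  | zero => simp
  | tmul a b =>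
    have h : a ⊗ₜ[k] b - H11.ptHom p A (a ⊗ₜ[k] b) ⊗ₜ[k] (1 : B₀) =
        (a ⊗ₜ[k] (1 : B₀)) * ((1 : A) ⊗ₜ[k] b - (1 : A) ⊗ₜ[k] (algebraMap k B₀ (p b))) := by
      rw [H11.ptHom_tmul, mul_sub, Algebra.TensorProduct.tmul_mul_tmul,
        Algebra.TensorProduct.tmul_mul_tmul, mul_one, one_mul, one_mul]
      congr 1
      rw [Algebra.algebraMap_eq_smul_one, Algebra.algebraMap_eq_smul_one,
        TensorProduct.tmul_smul, mul_smul_comm, mul_one, TensorProduct.smul_tmul']
    rw [h]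
    exact Ideal.mul_mem_left _ _ (Ideal.subset_span ⟨b, rfl⟩)
  | add x y hx hy =>
    have h : x + y - H11.ptHom p A (x + y) ⊗ₜ[k] (1 : B₀) =
        (x - H11.ptHom p A x ⊗ₜ[k] (1 : B₀)) + (y - H11.ptHom p A y ⊗ₜ[k] (1 : B₀)) := by
      rw [map_add, TensorProduct.add_tmul]; abel
    rw [h]
    exact Ideal.add_mem _ hx hy

theorem gen_mem_ker_ptHom (p : B₀ →ₐ[k] k) (A : Type u) [CommRing A] [Algebra k A] (b : B₀) :
    ((1 : A) ⊗ₜ[k] b - (1 : A) ⊗ₜ[k] (algebraMap k B₀ (p b)) : A ⊗[k] B₀) ∈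
      RingHom.ker (H11.ptHom p A) := by
  rw [RingHom.mem_ker, map_sub, H11.ptHom_tmul, H11.ptHom_tmul, AlgHom.commutes, sub_eq_zero]
  rfl

/-- `ker (ptHom p A)` is generated by the elements `1 ⊗ b - p b`. -/
theorem ker_ptHom_eq_span (p : B₀ →ₐ[k] k) (A : Type u) [CommRing A] [Algebra k A] :
    RingHom.ker (H11.ptHom p A) =
      Ideal.span (Set.range fun b : B₀ =>
        ((1 : A) ⊗ₜ[k] b - (1 : A) ⊗ₜ[k] (algebraMap k B₀ (p b)) : A ⊗[k] B₀)) := by
  apply le_antisymm
  · intro z hz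
    have h := sub_ptHom_mem_span p z
    rw [RingHom.mem_ker] at hz
    rwa [hz, TensorProduct.zero_tmul, sub_zero] at h
  · rw [Ideal.span_le]
    rintro _ ⟨b, rfl⟩
    exact gen_mem_ker_ptHom p A b

/-- **Base change of the ideal of a point.** -/
theorem ker_ptHom_map (p : B₀ →ₐ[k] k) (φ : A →ₐ[k] A') :
    (RingHom.ker (H11.ptHom p A)).map (tensorMapLeft k φ B₀) = RingHom.ker (H11.ptHom p A') := by
  rw [ker_ptHom_eq_span p A, ker_ptHom_eq_span p A', Ideal.map_span]
  congr 1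
  ext z
  constructor
  · rintro ⟨_, ⟨b, rfl⟩, rfl⟩
    refine ⟨b, ?_⟩
    rw [map_sub, tensorMapLeft_tmul, tensorMapLeft_tmul, map_one]
  · rintro ⟨b, rfl⟩
    refine ⟨_, ⟨b, rfl⟩, ?_⟩
    rw [map_sub, tensorMapLeft_tmul, tensorMapLeft_tmul, map_one]

/-- **Base change of the ideal of the divisor `Σ q i`.** -/
theorem ptIdeal_map {m : ℕ} (q : Fin m → (B₀ →ₐ[k] k)) (φ : A →ₐ[k] A') :
    (H11.ptIdeal q A).map (tensorMapLeft k φ B₀) = H11.ptIdeal q A' := by
  unfold H11.ptIdeal
  have h := map_prod (Ideal.mapHom (tensorMapLeft k φ B₀))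
    (fun i => RingHom.ker (H11.ptHom (q i) A)) Finset.univ
  simp only [Ideal.mapHom_apply] at h
  rw [h]
  exact Finset.prod_congr rfl (fun i _ => ker_ptHom_map (q i) φ)

end General

section Chart

variable {x : B₀} {y : B₁} {e : B₁ →ₐ[k] k} [IsAlgClosed k]

/-- The ideal of an `A`-point of `Spec B₀` is an invertible module. -/
theorem ker_ptHom_invertible (hC : IsCurveChart k B₀ B₁ B₀₁ x y e) (p : B₀ →ₐ[k] k)
    (A : Type u) [CommRing A] [Algebra k A] :
    Module.Invertible (A ⊗[k] B₀) (RingHom.ker (H11.ptHom p A)) := by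
  have e' := (quotKerPtHomEquiv p A).toLinearEquiv
  haveI : Module.Finite A ((A ⊗[k] B₀) ⧸ RingHom.ker (H11.ptHom p A)) :=
    Module.Finite.equiv e'.symm
  haveI : Module.Projective A ((A ⊗[k] B₀) ⧸ RingHom.ker (H11.ptHom p A)) :=
    Module.Projective.of_equiv e'.symm
  exact H851.hilb_invertible A hC _

variable {K : Type u} [Field K] [Algebra k K]

omit [IsAlgClosed k] in
theorem finrank_quotient_ker_ptHom (p : B₀ →ₐ[k] k) :
    Module.Finite K ((K ⊗[k] B₀) ⧸ RingHom.ker (H11.ptHom p K)) ∧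
      Module.finrank K ((K ⊗[k] B₀) ⧸ RingHom.ker (H11.ptHom p K)) = 1 := by
  have e' := (quotKerPtHomEquiv p K).toLinearEquiv
  exact ⟨Module.Finite.equiv e'.symm, by rw [e'.finrank_eq, Module.finrank_self]⟩

/-- Over a field, `dim_K (K ⊗ B₀) ⧸ ptIdeal q K = m`. -/
theorem finrank_quotient_ptIdeal (hC : IsCurveChart k B₀ B₁ B₀₁ x y e) :
    ∀ {m : ℕ} (q : Fin m → (B₀ →ₐ[k] k)),
      Module.Finite K ((K ⊗[k] B₀) ⧸ H11.ptIdeal q K) ∧
        Module.finrank K ((K ⊗[k] B₀) ⧸ H11.ptIdeal q K) = m := by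
  intro m
  induction m with
  | zero =>
    intro q
    have h : H11.ptIdeal q K = ⊤ := by
      unfold H11.ptIdeal
      rw [Finset.univ_eq_empty, Finset.prod_empty, Ideal.one_eq_top]
    rw [h]
    haveI : Subsingleton ((K ⊗[k] B₀) ⧸ (⊤ : Ideal (K ⊗[k] B₀))) :=
      Ideal.Quotient.subsingleton_iff.mpr rfl
    exact ⟨inferInstance, Module.finrank_zero_of_subsingleton⟩
  | succ m ih =>
    intro q
    have h : H11.ptIdeal q K =
        H11.ptIdeal (fun i : Fin m => q i.succ) K * RingHom.ker (H11.ptHom (q 0) K) := by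
      unfold H11.ptIdeal
      rw [Fin.prod_univ_succ, mul_comm]
    rw [h]
    obtain ⟨hf1, hr1⟩ := ih (fun i : Fin m => q i.succ)
    obtain ⟨hf2, hr2⟩ := finrank_quotient_ker_ptHom (K := K) (q 0)
    haveI := ker_ptHom_invertible hC (q 0) K
    obtain ⟨hf, hr⟩ := finrank_quotient_mul_invertible (K := K)
      (H11.ptIdeal (fun i : Fin m => q i.succ) K) (RingHom.ker (H11.ptHom (q 0) K))
    exact ⟨hf, by rw [hr, hr1, hr2]⟩

/-- Over a field: `dim_K (K ⊗ B₀) ⧸ (I * ptIdeal q K) = g + m` for a Hilbert point `I` of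
degree `g`. -/
theorem finrank_quotient_mul_ptIdeal (hC : IsCurveChart k B₀ B₁ B₀₁ x y e) {m g : ℕ}
    (q : Fin m → (B₀ →ₐ[k] k)) (I : Ideal (K ⊗[k] B₀)) (hI : H491.IsHilb g I) :
    Module.Finite K ((K ⊗[k] B₀) ⧸ (I * H11.ptIdeal q K)) ∧
      Module.finrank K ((K ⊗[k] B₀) ⧸ (I * H11.ptIdeal q K)) = g + m := by
  haveI := hI.finite
  haveI := hI.projective
  haveI : Module.Invertible (K ⊗[k] B₀) I := H851.hilb_invertible K hC I
  obtain ⟨hf1, hr1⟩ := finrank_quotient_ptIdeal (K := K) hC q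
  have hg : Module.finrank K ((K ⊗[k] B₀) ⧸ I) = g := by
    have h := hI.rank ⟨⊥, Ideal.isPrime_bot⟩
    rw [Module.rankAtStalk_eq_finrank_of_free] at h
    exact_mod_cast h
  obtain ⟨hf, hr⟩ := finrank_quotient_mul_invertible (K := K) (H11.ptIdeal q K) I
  rw [mul_comm]
  exact ⟨hf, by rw [hr, hr1, hg, add_comm]⟩

end Chart

end Fermat.Agent.S25.H911

end
-- ===== PACK-END S25/H911/ACPt.lean

-- ===== PACK-BEGIN S26/C4/Spec.lean
section


/-!
# Row S26, block CUBE, leaf C4 (curves generate): frozen interface (assembler helper478)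

`Stmt.CurvesGenerate K` (SpecCube.lean) is assembled in `C4/Assembly.lean` from

* `Stmt.C4a` (owner helper730): through `0` there is a closed integral curve leaving any proper
  closed subset `B ∋ 0`;
* `Stmt.C4b` (owner helper27): normalisation of an integral proper curve (same statement as
  `H27.Stmt.C4b`, with `ffStr` of `SpecDeg.lean` in place of its verbatim copy `H27.ffK`);
* `Stmt.C4cSum`, `Stmt.C4cChain` (owner helper841): the sum `B + ι(C)` of an irreducible closed
  subset and a pointed proper integral `K`-scheme, and the ascending chain condition for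
  irreducible closed subsets of `A`;
* `Stmt.Integral` (SOFT:INT).

Only definitions here.  `ptOf p` is the point of the scheme underlying a `K`-point `p`.
-/

set_option autoImplicit false
universe u

open CategoryTheory CategoryTheory.Limits AlgebraicGeometry NeronModelInfra GoodReductionJacobian

namespace Fermat.Agent.S26.C4

noncomputable section

variable {K : Type u} [Field K]

/-- The point of `Y` underlying a `K`-point. -/
def ptOf {Y : Scheme.{u}} {y : Y ⟶ Spec (CommRingCat.of K)} (p : KPt y) : Y :=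
  p.1 (default : Spec (CommRingCat.of K))

/-- The composite of a `K`-point with a morphism over `K`. -/
def mapPt {Y Z : Scheme.{u}} {y : Y ⟶ Spec (CommRingCat.of K)} {z : Z ⟶ Spec (CommRingCat.of K)}
    (φ : Y ⟶ Z) (hφ : φ ≫ z = y) (p : KPt y) : KPt z :=
  ⟨p.1 ≫ φ, by rw [Category.assoc, hφ, p.2]⟩

/-- `Γ` is a curve over `K`: its function field has transcendence degree one over `K`
(`= H27.IsCurve`, the structure map being `ffStr` of `SpecDeg.lean`). -/
def IsCurveOver {Γ : Scheme.{u}} [IsIntegral Γ] (γ : Γ ⟶ Spec (CommRingCat.of K)) : Prop :=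
  letI := (ffStr γ).toAlgebra
  Algebra.trdeg K Γ.functionField = 1

namespace Stmt

variable (K) [IsAlgClosed K]

/-- **C4a.** In an (integral) abelian variety, for every proper closed subset `B` containing
`0` there is a closed integral curve through `0` which is not contained in `B`. -/
def C4a : Prop :=
  ∀ (X : AbVar K) [IsIntegral X.A] (B : Set X.A), IsClosed B → B ≠ Set.univ →
    ptOf X.zero ∈ B →
    ∃ (Γ : Scheme.{u}) (_ : IsIntegral Γ) (i : Γ ⟶ X.A),
      IsClosedImmersion i ∧ IsCurveOver (i ≫ X.str) ∧ ptOf X.zero ∈ Set.range i ∧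
        ¬ Set.range i ⊆ B

/-- **C4b.** Normalisation of an integral proper curve over an algebraically closed field
(the statement of `H27.Stmt.C4b`). -/
def C4b : Prop :=
  ∀ (Γ : Scheme.{u}) [IsIntegral Γ] (γ : Γ ⟶ Spec (CommRingCat.of K)) [IsProper γ],
    IsCurveOver γ →
    ∃ (C : Scheme.{u}) (c : C ⟶ Spec (CommRingCat.of K)) (ν : C ⟶ Γ),
      ν ≫ γ = c ∧ IsIntegral C ∧ IsProper c ∧ SmoothOfRelativeDimension 1 c ∧
        IsFinite ν ∧ Function.Surjective ν ∧
        ∀ x : SchemeHomOver (𝟙 (Spec (CommRingCat.of K))) γ,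
          ∃ y : SchemeHomOver (𝟙 (Spec (CommRingCat.of K))) c, y.1 ≫ ν = x.1

/-- **C4a + C4b.** For every proper closed subset `B ∋ 0` there is a pointed smooth proper
curve in `A` with a `K`-point whose image is not in `B`. -/
def C4ab : Prop :=
  ∀ (X : AbVar K) [IsIntegral X.A] (B : Set X.A), IsClosed B → B ≠ Set.univ →
    ptOf X.zero ∈ B → ∃ (Γ : X.PtdCurve) (p : KPt Γ.str), ptOf (Γ.image p) ∉ B

/-- **C4c, sums.**  For an irreducible closed subset `B ∋ 0` of `A` and a pointed proper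
integral `K`-scheme `ι : (C, c₀) → (A, 0)`, the set `B + ι(C)` (image of `B × C` under the
addition) is contained in an irreducible closed subset `B'` containing `B` and `ι(C)`, all of
whose `K`-points are sums of a `K`-point of `B` and the image of a `K`-point of `C`. -/
def C4cSum : Prop :=
  ∀ (X : AbVar K) (B : Set X.A), IsClosed B → IsIrreducible B → ptOf X.zero ∈ B →
    ∀ (C : Scheme.{u}) (c : C ⟶ Spec (CommRingCat.of K)) [IsProper c] [IsIntegral C]
      (ι : C ⟶ X.A) (hι : ι ≫ X.str = c) (c₀ : KPt c), c₀.1 ≫ ι = X.zero.1 →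
      ∃ B' : Set X.A, IsClosed B' ∧ IsIrreducible B' ∧ B ⊆ B' ∧ Set.range ι ⊆ B' ∧
        ∀ x : X.Pt, ptOf x ∈ B' →
          ∃ (b : X.Pt) (p : KPt c), ptOf b ∈ B ∧ x = X.law.mul (𝟙 _) b (mapPt ι hι p)

/-- **C4c, chains.**  Strictly increasing chains of irreducible closed subsets of an abelian
variety are finite. -/
def C4cChain : Prop :=
  ∀ X : AbVar K, WellFoundedGT (TopologicalSpace.IrreducibleCloseds X.A)

end Stmt

end

end Fermat.Agent.S26.C4

end
-- ===== PACK-END S26/C4/Spec.lean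

-- ===== PACK-BEGIN S27/H323/TensorCore.lean
section


/-!
# Row S27, leaf TENSOR / G-ALG (helper323): tensor products of gluing data, core

Pure algebra over the frozen `Fermat.Agent.S25.DefsAlg` and the Picard calculus of
`Fermat.Agent.S25.H325` (`tensorGD`, `dualGD`, `GDHom`).  No S27 interface is imported here:
the statements are UNBUNDLED (bilinear maps on the three charts), so that they can be plugged
into any packaging of "`H` is a tensor product of `G` and `G'`".

* `isIso_tensorGD_of_bilin_h323` : bilinear maps `β₀, β₁, β₀₁` compatible with the restriction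
  maps, with `lift β₀`, `lift β₁` bijective, give `(tensorGD G G').IsIso H`;
* `bijective_lift_overlap_h323` : then `lift β₀₁` is bijective as well;
* `exists_bilin_of_isIso_h323` : conversely, `(tensorGD G G').IsIso H` gives such maps;
* `tensorGD_assoc_isIso_h323` : associativity of `tensorGD` up to `IsIso`.
-/

set_option autoImplicit false

universe u

open TensorProduct

namespace Fermat.Agent.S27.H323

open Fermat.Agent.S25 Fermat.Agent.S25.H325

noncomputable section

variable {A R₀ R₁ R₀₁ : Type u} [CommRing A] [CommRing R₀] [CommRing R₁]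
    [CommRing R₀₁] [Algebra A R₀] [Algebra A R₁] [Algebra A R₀₁] [Algebra R₀ R₀₁]
    [Algebra R₁ R₀₁] [IsScalarTower A R₀ R₀₁] [IsScalarTower A R₁ R₀₁]

variable {G G' H : GlueDatum A R₀ R₁ R₀₁}

/-- The morphism `tensorGD G G' ⟶ H` of gluing data defined by compatible bilinear maps. -/
def homOfBilin_h323 (β₀ : G.N₀ →ₗ[R₀] G'.N₀ →ₗ[R₀] H.N₀)
    (β₁ : G.N₁ →ₗ[R₁] G'.N₁ →ₗ[R₁] H.N₁) (β₀₁ : G.N₀₁ →ₗ[R₀₁] G'.N₀₁ →ₗ[R₀₁] H.N₀₁)
    (c₀ : ∀ s s', β₀₁ (G.r₀ s) (G'.r₀ s') = H.r₀ (β₀ s s'))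
    (c₁ : ∀ s s', β₀₁ (G.r₁ s) (G'.r₁ s') = H.r₁ (β₁ s s')) : GDHom (tensorGD G G') H :=
  GDHom.ofTensor (TensorProduct.lift β₀) (TensorProduct.lift β₁) (TensorProduct.lift β₀₁)
    (fun n n' => by simp only [TensorProduct.lift.tmul]; exact c₀ n n')
    (fun n n' => by simp only [TensorProduct.lift.tmul]; exact c₁ n n')

/-- Compatible bilinear maps which induce bijections on the two charts exhibit `H` as
isomorphic to `tensorGD G G'`. -/
theorem isIso_tensorGD_of_bilin_h323 (β₀ : G.N₀ →ₗ[R₀] G'.N₀ →ₗ[R₀] H.N₀)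
    (β₁ : G.N₁ →ₗ[R₁] G'.N₁ →ₗ[R₁] H.N₁) (β₀₁ : G.N₀₁ →ₗ[R₀₁] G'.N₀₁ →ₗ[R₀₁] H.N₀₁)
    (c₀ : ∀ s s', β₀₁ (G.r₀ s) (G'.r₀ s') = H.r₀ (β₀ s s'))
    (c₁ : ∀ s s', β₀₁ (G.r₁ s) (G'.r₁ s') = H.r₁ (β₁ s s'))
    (b₀ : Function.Bijective (TensorProduct.lift β₀))
    (b₁ : Function.Bijective (TensorProduct.lift β₁)) : (tensorGD G G').IsIso H :=
  isIso_of_bijective (homOfBilin_h323 β₀ β₁ β₀₁ c₀ c₁) b₀ b₁

/-- Under the hypotheses of `isIso_tensorGD_of_bilin_h323`, the bilinear map on the overlap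
induces a bijection as well. -/
theorem bijective_lift_overlap_h323 (β₀ : G.N₀ →ₗ[R₀] G'.N₀ →ₗ[R₀] H.N₀)
    (β₁ : G.N₁ →ₗ[R₁] G'.N₁ →ₗ[R₁] H.N₁) (β₀₁ : G.N₀₁ →ₗ[R₀₁] G'.N₀₁ →ₗ[R₀₁] H.N₀₁)
    (c₀ : ∀ s s', β₀₁ (G.r₀ s) (G'.r₀ s') = H.r₀ (β₀ s s'))
    (c₁ : ∀ s s', β₀₁ (G.r₁ s) (G'.r₁ s') = H.r₁ (β₁ s s'))
    (b₀ : Function.Bijective (TensorProduct.lift β₀)) :
    Function.Bijective (TensorProduct.lift β₀₁) :=
  (homOfBilin_h323 β₀ β₁ β₀₁ c₀ c₁).bijective_f₀₁ b₀

/-- An isomorphism `tensorGD G G' ≅ H` gives compatible bilinear maps inducing bijections on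
the two charts and on the overlap. -/
theorem exists_bilin_of_isIso_h323 (h : (tensorGD G G').IsIso H) :
    ∃ (β₀ : G.N₀ →ₗ[R₀] G'.N₀ →ₗ[R₀] H.N₀) (β₁ : G.N₁ →ₗ[R₁] G'.N₁ →ₗ[R₁] H.N₁)
      (β₀₁ : G.N₀₁ →ₗ[R₀₁] G'.N₀₁ →ₗ[R₀₁] H.N₀₁),
      (∀ s s', β₀₁ (G.r₀ s) (G'.r₀ s') = H.r₀ (β₀ s s')) ∧
      (∀ s s', β₀₁ (G.r₁ s) (G'.r₁ s') = H.r₁ (β₁ s s')) ∧
      Function.Bijective (TensorProduct.lift β₀) ∧
      Function.Bijective (TensorProduct.lift β₁) ∧
      Function.Bijective (TensorProduct.lift β₀₁) := by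
  obtain ⟨e⟩ := h
  let f₀ : G.N₀ ⊗[R₀] G'.N₀ →ₗ[R₀] H.N₀ := e.e₀.toLinearMap
  let f₁ : G.N₁ ⊗[R₁] G'.N₁ →ₗ[R₁] H.N₁ := e.e₁.toLinearMap
  let f₀₁ : G.N₀₁ ⊗[R₀₁] G'.N₀₁ →ₗ[R₀₁] H.N₀₁ := e.e₀₁.toLinearMap
  have hl₀ : TensorProduct.lift ((TensorProduct.mk R₀ G.N₀ G'.N₀).compr₂ f₀) = f₀ := by
    rw [TensorProduct.lift_compr₂, TensorProduct.lift_mk, LinearMap.comp_id]
  have hl₁ : TensorProduct.lift ((TensorProduct.mk R₁ G.N₁ G'.N₁).compr₂ f₁) = f₁ := by
    rw [TensorProduct.lift_compr₂, TensorProduct.lift_mk, LinearMap.comp_id]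
  have hl₀₁ : TensorProduct.lift ((TensorProduct.mk R₀₁ G.N₀₁ G'.N₀₁).compr₂ f₀₁) = f₀₁ := by
    rw [TensorProduct.lift_compr₂, TensorProduct.lift_mk, LinearMap.comp_id]
  refine ⟨(TensorProduct.mk R₀ G.N₀ G'.N₀).compr₂ f₀,
    (TensorProduct.mk R₁ G.N₁ G'.N₁).compr₂ f₁,
    (TensorProduct.mk R₀₁ G.N₀₁ G'.N₀₁).compr₂ f₀₁, ?_, ?_, ?_, ?_, ?_⟩
  · intro s s'
    have h := e.comm₀ (s ⊗ₜ[R₀] s')
    change e.e₀₁ (tensorRes (S := R₀₁) G.r₀ G'.r₀ (s ⊗ₜ[R₀] s')) = _ at h
    rw [tensorRes_tmul] at h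
    exact h
  · intro s s'
    have h := e.comm₁ (s ⊗ₜ[R₁] s')
    change e.e₀₁ (tensorRes (S := R₀₁) G.r₁ G'.r₁ (s ⊗ₜ[R₁] s')) = _ at h
    rw [tensorRes_tmul] at h
    exact h
  · rw [hl₀]; exact e.e₀.bijective
  · rw [hl₁]; exact e.e₁.bijective
  · rw [hl₀₁]; exact e.e₀₁.bijective

/-- Associativity of the tensor product of gluing data. -/
theorem tensorGD_assoc_isIso_h323 (G₁ G₂ G₃ : GlueDatum A R₀ R₁ R₀₁) :
    (tensorGD (tensorGD G₁ G₂) G₃).IsIso (tensorGD G₁ (tensorGD G₂ G₃)) := by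
  let f₀ : (G₁.N₀ ⊗[R₀] G₂.N₀) ⊗[R₀] G₃.N₀ →ₗ[R₀] G₁.N₀ ⊗[R₀] (G₂.N₀ ⊗[R₀] G₃.N₀) :=
    (TensorProduct.assoc R₀ G₁.N₀ G₂.N₀ G₃.N₀).toLinearMap
  let f₁ : (G₁.N₁ ⊗[R₁] G₂.N₁) ⊗[R₁] G₃.N₁ →ₗ[R₁] G₁.N₁ ⊗[R₁] (G₂.N₁ ⊗[R₁] G₃.N₁) :=
    (TensorProduct.assoc R₁ G₁.N₁ G₂.N₁ G₃.N₁).toLinearMap
  let f₀₁ : (G₁.N₀₁ ⊗[R₀₁] G₂.N₀₁) ⊗[R₀₁] G₃.N₀₁ →ₗ[R₀₁]
      G₁.N₀₁ ⊗[R₀₁] (G₂.N₀₁ ⊗[R₀₁] G₃.N₀₁) :=
    (TensorProduct.assoc R₀₁ G₁.N₀₁ G₂.N₀₁ G₃.N₀₁).toLinearMap
  refine isIso_of_bijective
    (GDHom.ofTensor (G := tensorGD G₁ G₂) (G' := G₃) (H := tensorGD G₁ (tensorGD G₂ G₃))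
      f₀ f₁ f₀₁ ?_ ?_)
    (TensorProduct.assoc R₀ G₁.N₀ G₂.N₀ G₃.N₀).bijective
    (TensorProduct.assoc R₁ G₁.N₁ G₂.N₁ G₃.N₁).bijective
  · intro n n'
    change f₀₁ (tensorRes (S := R₀₁) G₁.r₀ G₂.r₀ n ⊗ₜ[R₀₁] G₃.r₀ n') =
      tensorRes (S := R₀₁) G₁.r₀ (tensorRes (S := R₀₁) G₂.r₀ G₃.r₀) (f₀ (n ⊗ₜ[R₀] n'))
    induction n using TensorProduct.induction_on with
    | zero => simp
    | tmul a b => simp [f₀, f₀₁]
    | add x y hx hy =>
      simp only [map_add, TensorProduct.add_tmul, hx, hy]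
  · intro n n'
    change f₀₁ (tensorRes (S := R₀₁) G₁.r₁ G₂.r₁ n ⊗ₜ[R₀₁] G₃.r₁ n') =
      tensorRes (S := R₀₁) G₁.r₁ (tensorRes (S := R₀₁) G₂.r₁ G₃.r₁) (f₁ (n ⊗ₜ[R₁] n'))
    induction n using TensorProduct.induction_on with
    | zero => simp
    | tmul a b => simp [f₁, f₀₁]
    | add x y hx hy =>
      simp only [map_add, TensorProduct.add_tmul, hx, hy]

end

end Fermat.Agent.S27.H323

end
-- ===== PACK-END S27/H323/TensorCore.lean

-- ===== PACK-BEGIN S27/H267/GenusCore.lean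
section



/-!
# Row S27, leaf GENUS (helper267): the abstract core

Language: the Prelude's `Place`, `repartitions`, `H1`.  For a finite set `Z` of places,
`psi Z : F →ₗ[K] H¹(0)`, `f ↦ [f · 1_Z]`.  If the places are covered by two sets `U₀`, `U₁` with
`Z = U₀ᶜ` finite, every function has finitely many poles, and partial fractions exist on `U₀`
and on `U₁`, then

* `psi Z` restricted to the functions regular on `U₀ ∩ U₁` is onto `H¹(0)`;
* for `f` regular on `U₀ ∩ U₁`: `psi Z f = 0` iff `f = a + b` with `a` regular on `U₀`, `b`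
  regular on `U₁`.

So `H¹(0) = 𝔸 / (𝔸(0) + F)` (Weil) is the Čech `H¹` of the cover `{U₀, U₁}`.
Mathlib + Prelude + `Lib.RR` (`Ord`, `Approx`, `H653`) only.
-/

set_option autoImplicit false

noncomputable section

open AlgebraicCurve

namespace Fermat.Agent.S27.H267

variable {K F : Type*} [Field K] [Field F] [Algebra K F]

/-- `f ∈ O_v ↔ v(f) ≤ 1`. -/
theorem mem_iff_adicValuation_le_one (v : Place K F) (f : F) :
    f ∈ v.toValuationSubring ↔ v.adicValuation f ≤ 1 := by
  rw [Fermat.Agent.Lib.RR.mem_iff_ord_nonneg, v.adicValuation_le_one_iff]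
  constructor
  · exact fun h => Or.inr h
  · rintro (rfl | h)
    · simp
    · exact h

/-- `f ∉ O_v ↔ ord_v f < 0`. -/
theorem not_mem_iff_ord_neg (v : Place K F) (f : F) :
    f ∉ v.toValuationSubring ↔ v.ord f < 0 := by
  rw [Fermat.Agent.Lib.RR.mem_iff_ord_nonneg, not_le]

/-- A family is in `𝔸(0)` iff all its components are integral. -/
theorem mem_repartitionsOf_zero_iff {α : ↥(repartitions K F)} :
    α ∈ repartitionsOf (0 : Divisor K F) ↔
      ∀ v : Place K F, (α : Place K F → F) v ∈ v.toValuationSubring := by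
  show (∀ v : Place K F, v.adicValuation ((α : Place K F → F) v) ≤
    WithZero.exp ((0 : Divisor K F) v)) ↔ _
  refine forall_congr' fun v => ?_
  rw [mem_iff_adicValuation_le_one, Finsupp.zero_apply, WithZero.exp_zero]

/-- The repartitions are the families with finitely many poles, provided every function has
finitely many poles. -/
theorem mem_repartitions_iff_of_poles
    (hpoles : ∀ f : F, {v : Place K F | f ∉ v.toValuationSubring}.Finite)
    {α : Place K F → F} :
    α ∈ repartitions K F ↔ {v : Place K F | α v ∉ v.toValuationSubring}.Finite := by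
  have key : ∀ β : Place K F → F, {v : Place K F | β v ∉ v.toValuationSubring} =
      {v : Place K F | v.ord (β v) < 0} := fun β =>
    Set.ext fun v => not_mem_iff_ord_neg v (β v)
  rw [key]
  refine ⟨fun h => ?_, mem_repartitions_of_finite_ord⟩
  unfold repartitions at h
  induction h using Algebra.adjoin_induction with
  | mem x hx =>
    have hx' : {v : Place K F | ¬v.adicValuation (x v) ≤ 1}.Finite := hx
    rwa [show {v : Place K F | ¬v.adicValuation (x v) ≤ 1}
        = {v : Place K F | v.ord (x v) < 0} from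
      Set.ext fun v => v.not_adicValuation_le_one_iff] at hx'
  | algebraMap r =>
    have := hpoles r
    rw [key (fun _ => r)] at this
    exact this
  | add x y _ _ hx hy =>
    exact (hx.union hy).subset (Fermat.Agent.Lib.RR.H653.poles_add_subset x y)
  | mul x y _ _ hx hy =>
    exact (hx.union hy).subset (Fermat.Agent.Lib.RR.H653.poles_mul_subset x y)

open Classical in
/-- The repartition `f · 1_Z` for a finite set `Z` of places. -/
def ind (Z : Set (Place K F)) (hZ : Z.Finite) (f : F) : ↥(repartitions K F) :=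
  ⟨fun v => if v ∈ Z then f else 0,
    mem_repartitions_of_finite_ord <| hZ.subset fun v hv => by
      by_contra hvZ
      simp only [Set.mem_ofPred_eq, if_neg hvZ, Place.ord_zero, lt_self_iff_false] at hv⟩

theorem ind_apply_of_mem {Z : Set (Place K F)} (hZ : Z.Finite) (f : F) {v : Place K F}
    (hv : v ∈ Z) : (ind Z hZ f : Place K F → F) v = f := by
  classical
  exact if_pos hv

theorem ind_apply_of_not_mem {Z : Set (Place K F)} (hZ : Z.Finite) (f : F) {v : Place K F}
    (hv : v ∉ Z) : (ind Z hZ f : Place K F → F) v = 0 := by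
  classical
  exact if_neg hv

theorem ind_add {Z : Set (Place K F)} (hZ : Z.Finite) (f g : F) :
    ind Z hZ (f + g) = ind Z hZ f + ind Z hZ g := by
  apply Subtype.ext
  funext v
  by_cases hv : v ∈ Z
  · show (ind Z hZ (f + g) : Place K F → F) v =
      (ind Z hZ f : Place K F → F) v + (ind Z hZ g : Place K F → F) v
    rw [ind_apply_of_mem hZ _ hv, ind_apply_of_mem hZ _ hv, ind_apply_of_mem hZ _ hv]
  · show (ind Z hZ (f + g) : Place K F → F) v =
      (ind Z hZ f : Place K F → F) v + (ind Z hZ g : Place K F → F) v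
    rw [ind_apply_of_not_mem hZ _ hv, ind_apply_of_not_mem hZ _ hv,
      ind_apply_of_not_mem hZ _ hv, add_zero]

theorem ind_smul {Z : Set (Place K F)} (hZ : Z.Finite) (c : K) (f : F) :
    ind Z hZ (c • f) = c • ind Z hZ f := by
  apply Subtype.ext
  funext v
  by_cases hv : v ∈ Z
  · show (ind Z hZ (c • f) : Place K F → F) v = c • (ind Z hZ f : Place K F → F) v
    rw [ind_apply_of_mem hZ _ hv, ind_apply_of_mem hZ _ hv]
  · show (ind Z hZ (c • f) : Place K F → F) v = c • (ind Z hZ f : Place K F → F) v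
    rw [ind_apply_of_not_mem hZ _ hv, ind_apply_of_not_mem hZ _ hv, smul_zero]

/-- `f ↦ [f · 1_Z] ∈ H¹(0)`. -/
def psi (Z : Set (Place K F)) (hZ : Z.Finite) : F →ₗ[K] H1 (0 : Divisor K F) where
  toFun f := Submodule.Quotient.mk (ind Z hZ f)
  map_add' f g := by rw [ind_add, Submodule.Quotient.mk_add]
  map_smul' c f := by rw [ind_smul, Submodule.Quotient.mk_smul, RingHom.id_apply]

theorem psi_apply (Z : Set (Place K F)) (hZ : Z.Finite) (f : F) :
    psi Z hZ f = Submodule.Quotient.mk (ind Z hZ f) := rfl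

/-- A class in `H¹(0)` vanishes iff the family is integral up to a constant. -/
theorem mk_eq_zero_iff (α : ↥(repartitions K F)) :
    (Submodule.Quotient.mk α : H1 (0 : Divisor K F)) = 0 ↔
      ∃ h : F, ∀ v : Place K F, (α : Place K F → F) v - h ∈ v.toValuationSubring := by
  rw [Submodule.Quotient.mk_eq_zero, Submodule.mem_sup]
  constructor
  · rintro ⟨a, ha, p, hp, rfl⟩
    obtain ⟨h, hh⟩ := mem_principalRepartitions_iff.mp hp
    refine ⟨h, fun v => ?_⟩
    have : ((a + p : ↥(repartitions K F)) : Place K F → F) v =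
        (a : Place K F → F) v + (p : Place K F → F) v := rfl
    rw [this, hh, add_sub_cancel_right]
    exact mem_repartitionsOf_zero_iff.mp ha v
  · rintro ⟨h, hh⟩
    let p : ↥(repartitions K F) := algebraMap F ↥(repartitions K F) h
    have hp : p ∈ principalRepartitions K F :=
      mem_principalRepartitions_iff.mpr ⟨h, rfl⟩
    refine ⟨α - p, ?_, p, hp, sub_add_cancel α p⟩
    rw [mem_repartitionsOf_zero_iff]
    intro v
    exact hh v

section Cover

variable (U₀ U₁ : Set (Place K F))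

/-- Kernel of `psi` on the functions regular on `U₀ ∩ U₁`. -/
theorem psi_eq_zero_iff (hU : U₀ ∪ U₁ = Set.univ) (hZ : (U₀ᶜ).Finite) {f : F}
    (hf : ∀ v ∈ U₀ ∩ U₁, f ∈ v.toValuationSubring) :
    psi U₀ᶜ hZ f = 0 ↔
      ∃ a b : F, (∀ v ∈ U₀, a ∈ v.toValuationSubring) ∧
        (∀ v ∈ U₁, b ∈ v.toValuationSubring) ∧ f = a + b := by
  rw [psi_apply, mk_eq_zero_iff]
  constructor
  · rintro ⟨h, hh⟩
    have h0 : ∀ v ∈ U₀, h ∈ v.toValuationSubring := fun v hv => by
      have := hh v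
      rw [ind_apply_of_not_mem hZ f (fun hc => hc hv), zero_sub] at this
      simpa using neg_mem this
    refine ⟨h, f - h, h0, fun v hv => ?_, by ring⟩
    by_cases hv0 : v ∈ U₀
    · exact sub_mem (hf v ⟨hv0, hv⟩) (h0 v hv0)
    · have h1 := hh v
      rwa [ind_apply_of_mem hZ f hv0] at h1
  · rintro ⟨a, b, ha, hb, rfl⟩
    refine ⟨a, fun v => ?_⟩
    by_cases hv0 : v ∈ U₀
    · rw [ind_apply_of_not_mem hZ _ (fun hc => hc hv0), zero_sub]
      exact neg_mem (ha v hv0)
    · rw [ind_apply_of_mem hZ _ hv0, add_sub_cancel_left]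
      have hv1 : v ∈ U₁ := by
        have : v ∈ U₀ ∪ U₁ := hU ▸ Set.mem_univ v
        exact this.resolve_left hv0
      exact hb v hv1

/-- `psi` is onto `H¹(0)` already on the functions regular on `U₀ ∩ U₁`. -/
theorem psi_surjective (hU : U₀ ∪ U₁ = Set.univ) (hZ : (U₀ᶜ).Finite)
    (hpoles : ∀ f : F, {v : Place K F | f ∉ v.toValuationSubring}.Finite)
    (hpf₀ : ∀ α : Place K F → F, {v | v ∈ U₀ ∧ α v ∉ v.toValuationSubring}.Finite →
      ∃ h : F, ∀ v ∈ U₀, h - α v ∈ v.toValuationSubring)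
    (hpf₁ : ∀ α : Place K F → F, {v | v ∈ U₁ ∧ α v ∉ v.toValuationSubring}.Finite →
      ∃ h : F, ∀ v ∈ U₁, h - α v ∈ v.toValuationSubring)
    (ξ : H1 (0 : Divisor K F)) :
    ∃ g : F, (∀ v ∈ U₀ ∩ U₁, g ∈ v.toValuationSubring) ∧ psi U₀ᶜ hZ g = ξ := by
  classical
  obtain ⟨α, rfl⟩ := Submodule.Quotient.mk_surjective _ ξ
  have hα : {v : Place K F | (α : Place K F → F) v ∉ v.toValuationSubring}.Finite :=
    (mem_repartitions_iff_of_poles hpoles).mp α.2
  obtain ⟨h, hh⟩ := hpf₀ (α : Place K F → F) (hα.subset fun v hv => hv.2)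
  obtain ⟨g, hg⟩ := hpf₁ (fun v => if v ∈ U₀ then 0 else (α : Place K F → F) v - h)
    (hZ.subset fun v hv => by
      by_contra hv0
      have hv0' : v ∈ U₀ := not_not.mp hv0
      have := hv.2
      simp only [if_pos hv0'] at this
      exact this (zero_mem _))
  have hg01 : ∀ v ∈ U₀ ∩ U₁, g ∈ v.toValuationSubring := fun v hv => by
    have := hg v hv.2
    simpa only [if_pos hv.1, sub_zero] using this
  refine ⟨g, hg01, ?_⟩
  rw [psi_apply, eq_comm, ← sub_eq_zero, ← Submodule.Quotient.mk_sub, mk_eq_zero_iff]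
  refine ⟨h, fun v => ?_⟩
  have hsub : ((α - ind U₀ᶜ hZ g : ↥(repartitions K F)) : Place K F → F) v =
      (α : Place K F → F) v - (ind U₀ᶜ hZ g : Place K F → F) v := rfl
  rw [hsub]
  by_cases hv0 : v ∈ U₀
  · rw [ind_apply_of_not_mem hZ _ (fun hc => hc hv0), sub_zero]
    have := neg_mem (hh v hv0)
    rwa [neg_sub] at this
  · have hv1 : v ∈ U₁ := by
      have : v ∈ U₀ ∪ U₁ := hU ▸ Set.mem_univ v
      exact this.resolve_left hv0
    rw [ind_apply_of_mem hZ _ hv0]
    have := neg_mem (hg v hv1)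
    simp only [if_neg hv0, neg_sub] at this
    have e : (α : Place K F → F) v - g - h = (α : Place K F → F) v - h - g := by ring
    rw [e]
    exact this

end Cover

end Fermat.Agent.S27.H267

end
end
-- ===== PACK-END S27/H267/GenusCore.lean

-- ===== PACK-BEGIN S37/H518/Charts.lean
section


/-!
# S37 / RIM (helper518): two-chart models and the place reduction map

`TwoCharts` packages the abstract input ("smooth integral model with two affine charts");
`TwoCharts.rmap` is the induced reduction map on places, characterised by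
`TwoCharts.rmap_spec`: if `rmap P` is centred on a chart then so is `P`, with compatible values.
-/

set_option autoImplicit false

namespace Fermat.Agent.S37.H518

open AlgebraicCurve Fermat.Agent.S24.H504 Polynomial

variable {L : Type*} [Field L] {A : ValuationSubring L} {k : Type*} [Field k]
variable {F : Type*} [Field F] [Algebra L F] {Fk : Type*} [Field Fk] [Algebra k Fk]
variable {V : Type*} [CommRing V] [Algebra A V]

/-- `P` is centred on the chart `B`, with integral values. -/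
def PC (ι : V →+* F) (B : Subalgebra A V) (P : Place L F) : Prop :=
  ∀ b ∈ B, ∃ a : A, InMax P (ι b - algebraMap L F (a : L))

/-- `Q` is centred on the (reduction of the) chart `B`. -/
def QC (ρ : V →+* Fk) (B : Subalgebra A V) (Q : Place k Fk) : Prop :=
  ∀ b ∈ B, 0 ≤ Q.ord (ρ b)

/-- `P` reduces to `Q` on the chart `B`: values of chart functions are compatible. -/
def RedTo (π : A →+* k) (ι : V →+* F) (ρ : V →+* Fk) (B : Subalgebra A V)
    (P : Place L F) (Q : Place k Fk) : Prop :=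
  ∀ b ∈ B, ∀ a : A, InMax P (ι b - algebraMap L F (a : L)) →
    InMax Q (ρ b - algebraMap k Fk (π a))

theorem PC.ord_nonneg {ι : V →+* F} {B : Subalgebra A V} {P : Place L F} (h : PC ι B P)
    {b : V} (hb : b ∈ B) : 0 ≤ P.ord (ι b) := by
  obtain ⟨a, ha⟩ := h b hb
  have h1 : OrdGE P 0 (ι b - algebraMap L F (a : L)) := InMax.ordGE_zero ha
  have h2 := h1.add (ordGE_algebraMap (v := P) (a : L))
  rw [sub_add_cancel] at h2
  exact ordGE_zero_iff.mp h2

/-- Pure valuation-theoretic transfer of values along `b * X ^ n = b₀`. -/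
theorem inMax_transfer {K' F' : Type*} [Field K'] [Field F'] [Algebra K' F'] (v : Place K' F')
    {X b b₀ : F'} {a β₀ : K'} (n : ℕ) (ha : a ≠ 0) (hX : InMax v (X - algebraMap K' F' a))
    (hb₀ : InMax v (b₀ - algebraMap K' F' β₀)) (hmul : b * X ^ n = b₀) :
    InMax v (b - algebraMap K' F' (β₀ / a ^ n)) := by
  have hX0 : OrdGE v 0 X := by
    have := (InMax.ordGE_zero hX).add (ordGE_algebraMap (v := v) a)
    rwa [sub_add_cancel] at this
  have hXn : ¬ InMax v X := by
    intro hc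
    have := hc.sub hX
    rw [sub_sub_cancel] at this
    exact not_inMax_algebraMap ha this
  obtain ⟨hXne, hXord⟩ :=
    LocalChart.ne_zero_and_ord_eq_zero_of_not_inMax (ordGE_zero_iff.mp hX0) hXn
  have hXpow : X ^ n ≠ 0 := pow_ne_zero _ hXne
  have hXpord : v.ord (X ^ n) = 0 := by rw [ord_pow, hXord, mul_zero]
  -- numerator
  have hnum : InMax v (b₀ - algebraMap K' F' (β₀ / a ^ n) * X ^ n) := by
    have e : b₀ - algebraMap K' F' (β₀ / a ^ n) * X ^ n
        = (b₀ - algebraMap K' F' β₀)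
          - algebraMap K' F' (β₀ / a ^ n) * (X ^ n - algebraMap K' F' a ^ n) := by
      have : algebraMap K' F' β₀ = algebraMap K' F' (β₀ / a ^ n) * algebraMap K' F' a ^ n := by
        rw [← map_pow, ← map_mul, div_mul_cancel₀ _ (pow_ne_zero _ ha)]
      rw [this]; ring
    rw [e]
    refine hb₀.sub (InMax.mul_left ?_ (ordGE_zero_iff.mp (ordGE_algebraMap _)))
    obtain ⟨q, hq⟩ := sub_dvd_pow_sub_pow X (algebraMap K' F' a) n
    have hq' : OrdGE v 0 ((X ^ n - algebraMap K' F' a ^ n) / (X - algebraMap K' F' a)) ∨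
        X - algebraMap K' F' a = 0 := by
      by_cases h0 : X - algebraMap K' F' a = 0
      · exact Or.inr h0
      · left
        -- the quotient is a polynomial expression in `X` and `a`
        have : (X ^ n - algebraMap K' F' a ^ n) / (X - algebraMap K' F' a)
            = ∑ i ∈ Finset.range n, X ^ i * algebraMap K' F' a ^ (n - 1 - i) := by
          rw [div_eq_iff h0, ← Commute.geom_sum₂_mul (Commute.all _ _)]
        rw [this]
        refine ordGE_sum _ _ fun i _ => ?_
        have h1 := hX0.pow i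
        have h2 := (ordGE_algebraMap (v := v) a).pow (n - 1 - i)
        simpa using h1.mul h2
    rcases hq' with hq' | h0
    · by_cases h0 : X - algebraMap K' F' a = 0
      · rw [sub_eq_zero] at h0
        rw [h0, sub_self]
        exact inMax_zero
      · have e2 : X ^ n - algebraMap K' F' a ^ n = (X - algebraMap K' F' a) *
            ((X ^ n - algebraMap K' F' a ^ n) / (X - algebraMap K' F' a)) := by
          field_simp
        rw [e2]
        exact hX.mul_right (ordGE_zero_iff.mp hq')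
    · rw [sub_eq_zero] at h0
      rw [h0, sub_self]
      exact inMax_zero
  have e3 : b - algebraMap K' F' (β₀ / a ^ n)
      = (b₀ - algebraMap K' F' (β₀ / a ^ n) * X ^ n) / X ^ n := by
    rw [← hmul]
    field_simp
  rw [e3]
  have := (InMax.ordGE hnum).div hXpow hXpord
  rw [sub_zero] at this
  exact ordGE_one_iff.mp this

/-- One affine chart `B` (with coordinate `x`) of an integral model with normal fibres. -/
structure Chart (π : A →+* k) (ι : V →+* F) (ρ : V →+* Fk) (B : Subalgebra A V) (x : V) :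
    Prop where
  x_mem : x ∈ B
  /-- q-expansion principle: the kernel of reduction on the chart is `𝔪 B` -/
  ker : ∀ b ∈ B, ρ b = 0 → ∃ μ : A, π μ = 0 ∧ ∃ b' ∈ B, b = μ • b'
  /-- `B / g(x) B` is a finitely generated `A`-module for monic `g` (`B` is finite over `A[x]`) -/
  fin : ∀ g : A[X], g.Monic → ∃ (r : ℕ) (e' : Fin r → V), (∀ j, e' j ∈ B) ∧
      ∀ z ∈ B, ∃ α : Fin r → A, ∃ z' ∈ B, z = ∑ j, α j • e' j + aeval x g * z'
  /-- normality of the special fibre on the chart -/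
  Q_loc : ∀ Q : Place k Fk, QC ρ B Q → ∀ f : Fk, 0 ≤ Q.ord f →
      ∃ a ∈ B, ∃ s ∈ B, ¬ InMax Q (ρ s) ∧ f * ρ s = ρ a
  /-- normality of the generic fibre on the chart: local uniformisers -/
  P_unif : ∀ P : Place L F, PC ι B P → ∃ w ∈ B, P.ord (ι w) = 1
  /-- the chart separates places of the generic fibre -/
  P_sep : ∀ P P' : Place L F, PC ι B P → PC ι B P' → P ≠ P' →
      ∃ s ∈ B, ¬ InMax P (ι s) ∧ InMax P' (ι s)
  /-- every point of the generic fibre centred on the chart has a reduction on the chart -/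
  exists_red : ∀ P : Place L F, PC ι B P → ∃ Q : Place k Fk, QC ρ B Q ∧ RedTo π ι ρ B P Q

/-- Two-chart model: abstract form of a smooth proper integral model of a curve covered by two
affine charts `x ≠ ∞` and `x ≠ 0`. -/
structure TwoCharts (π : A →+* k) (ι : V →+* F) (ρ : V →+* Fk) (B₀ B₁ : Subalgebra A V)
    (x₀ x₁ : V) : Prop extends RedStr π ι ρ where
  inj : Function.Injective ι
  chart0 : Chart π ι ρ B₀ x₀
  chart1 : Chart π ι ρ B₁ x₁
  mul_eq_one : x₀ * x₁ = 1
  trans01 : ∀ b ∈ B₁, ∃ n : ℕ, b * x₀ ^ n ∈ B₀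
  trans10 : ∀ b ∈ B₀, ∃ n : ℕ, b * x₁ ^ n ∈ B₁
  cover_P : ∀ P : Place L F, PC ι B₀ P ∨ PC ι B₁ P
  cover_Q : ∀ Q : Place k Fk, QC ρ B₀ Q ∨ QC ρ B₁ Q
  /-- places of the special fibre are rational -/
  Q_val : ∀ (Q : Place k Fk) (f : Fk), 0 ≤ Q.ord f → ∃ c : k, InMax Q (f - algebraMap k Fk c)
  degP : ∀ P : Place L F, P.deg = 1
  degQ : ∀ Q : Place k Fk, Q.deg = 1
  /-- every function is, up to a constant, a quotient of chart functions with nonzero reduction -/
  frac : ∀ f : F, f ≠ 0 → ∃ a ∈ B₀, ∃ b ∈ B₀, ρ a ≠ 0 ∧ ρ b ≠ 0 ∧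
      ∃ μ : L, μ ≠ 0 ∧ f * ι b = algebraMap L F μ * ι a
  /-- the degree of the zero divisor of `x₁` is the same on both fibres (`= [F : L(x)]`) -/
  FI : ∀ (D₁ : Divisor L F) (E₁ : Divisor k Fk), (∀ P, D₁ P = P.ord (ι x₁)) →
      (∀ Q, E₁ Q = Q.ord (ρ x₁)) →
      ∑ P ∈ D₁.support, max (D₁ P) 0 = ∑ Q ∈ E₁.support, max (E₁ Q) 0

section Transfer

variable {π : A →+* k} {ι : V →+* F} {ρ : V →+* Fk}

/-- Transfer between charts: if `P` reduces to `Q` on the chart `B` (coordinate `x`) and `Q` is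
centred on the chart `B'` (coordinate `x' = 1/x`), then `P` is centred on `B'` and reduces to
`Q` there. -/
theorem transfer (hR : RedStr π ι ρ) {B B' : Subalgebra A V} {x x' : V} (hx : x ∈ B)
    (hx' : x' ∈ B') (hmul : x * x' = 1) (htr : ∀ b ∈ B', ∃ n : ℕ, b * x ^ n ∈ B)
    {P : Place L F} {Q : Place k Fk} (hP : PC ι B P) (hQ : QC ρ B Q)
    (hPQ : RedTo π ι ρ B P Q) (hQ' : QC ρ B' Q) :
    PC ι B' P ∧ RedTo π ι ρ B' P Q := by
  obtain ⟨a₀, ha₀⟩ := hP x hx
  have hQx := hPQ x hx a₀ ha₀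
  -- `ρ x` is a unit at `Q`
  have hρmul : ρ x * ρ x' = 1 := by rw [← map_mul, hmul, map_one]
  have hρx0 : ρ x ≠ 0 := left_ne_zero_of_mul_eq_one hρmul
  have hρx'0 : ρ x' ≠ 0 := right_ne_zero_of_mul_eq_one hρmul
  have hord : Q.ord (ρ x) = 0 := by
    have h1 := Q.ord_mul hρx0 hρx'0
    rw [hρmul, Place.ord_one] at h1
    have h2 := hQ x hx
    have h3 := hQ' x' hx'
    omega
  have hπa₀ : π a₀ ≠ 0 := by
    intro h0
    rw [h0, map_zero, sub_zero] at hQx
    exact not_inMax_of_ord_eq_zero hρx0 hord hQx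
  have ha₀u : IsUnit a₀ := hR.isUnit_of_pi_ne_zero hπa₀
  have ha₀L : (a₀ : L) ≠ 0 := by
    intro h0
    apply hπa₀
    have : a₀ = 0 := Subtype.ext h0
    rw [this, map_zero]
  obtain ⟨u, hu⟩ := ha₀u.exists_left_inv
  -- values on `B'`
  have key : ∀ b ∈ B', ∃ β : A, InMax P (ι b - algebraMap L F (β : L)) ∧
      InMax Q (ρ b - algebraMap k Fk (π β)) := by
    intro b hb
    obtain ⟨n, hn⟩ := htr b hb
    obtain ⟨β₀, hβ₀⟩ := hP _ hn
    have hQβ₀ := hPQ _ hn β₀ hβ₀
    refine ⟨β₀ * u ^ n, ?_, ?_⟩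
    · have := inMax_transfer P (b := ι b) (b₀ := ι (b * x ^ n)) n ha₀L ha₀ hβ₀
        (by rw [map_mul, map_pow])
      convert this using 3
      have huL : (u : L) * (a₀ : L) = 1 := by exact_mod_cast congrArg Subtype.val hu
      push_cast
      rw [eq_div_iff (pow_ne_zero _ ha₀L), mul_assoc, ← mul_pow, huL, one_pow, mul_one]
    · have := inMax_transfer Q (b := ρ b) (b₀ := ρ (b * x ^ n)) n hπa₀ hQx hQβ₀
        (by rw [map_mul, map_pow])
      convert this using 3
      have huk : π u * π a₀ = 1 := by rw [← map_mul, hu, map_one]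
      rw [map_mul, map_pow, eq_div_iff (pow_ne_zero _ hπa₀), mul_assoc, ← mul_pow, huk, one_pow,
        mul_one]
  refine ⟨fun b hb => ?_, fun b hb a ha => ?_⟩
  · obtain ⟨β, hβ, -⟩ := key b hb
    exact ⟨β, hβ⟩
  · obtain ⟨β, hβ, hβQ⟩ := key b hb
    have : (a : L) = (β : L) := value_unique ha hβ
    have : a = β := Subtype.ext this
    rw [this]
    exact hβQ

end Transfer

end Fermat.Agent.S37.H518

end
-- ===== PACK-END S37/H518/Charts.lean

-- ===== PACK-BEGIN S25/H551/AlgDef.lean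
section




/-!
# S25 / block ALGDEF: `Stmt.AlgDef` (helper551)

Gluing data on a curve chart lift along square-zero extensions `A → A ⧸ I`.
The hypothesis `IsCurveChart` is not needed.
-/

set_option autoImplicit false
set_option linter.style.haveILetI false

open TensorProduct

universe u

namespace Fermat.Agent.S25.H551

open Fermat.Agent.S25

section TensorMapLeft

variable (k : Type u) [Field k] {A A' : Type u} [CommRing A] [Algebra k A] [CommRing A']
  [Algebra k A'] (φ : A →ₐ[k] A')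

theorem tensorMapLeft_tmul (B : Type u) [CommRing B] [Algebra k B] (a : A) (b : B) :
    tensorMapLeft k φ B (a ⊗ₜ[k] b) = φ a ⊗ₜ[k] b := rfl

theorem tensorMapLeft_surjective (hφ : Function.Surjective φ) (B : Type u) [CommRing B]
    [Algebra k B] : Function.Surjective (tensorMapLeft k φ B) :=
  Algebra.TensorProduct.map_surjective φ (AlgHom.id k B) hφ Function.surjective_id

theorem tensorMapLeft_ker (hφ : Function.Surjective φ) (B : Type u) [CommRing B]
    [Algebra k B] :
    RingHom.ker (tensorMapLeft k φ B) =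
      Ideal.map (Algebra.TensorProduct.includeLeft : A →ₐ[k] A ⊗[k] B) (RingHom.ker φ) :=
  Algebra.TensorProduct.rTensor_ker φ hφ

theorem tensorMapLeft_ker_nil (hφ : Function.Surjective φ) {n : ℕ}
    (hn : (RingHom.ker (φ : A →+* A')) ^ n = ⊥) (B : Type u) [CommRing B] [Algebra k B] :
    ∀ x ∈ RingHom.ker (tensorMapLeft k φ B), IsNilpotent x := by
  intro x hx
  rw [tensorMapLeft_ker k φ hφ B] at hx
  refine ⟨n, ?_⟩
  have h1 : x ^ n ∈ (Ideal.map (Algebra.TensorProduct.includeLeft : A →ₐ[k] A ⊗[k] B)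
      (RingHom.ker φ)) ^ n := Ideal.pow_mem_pow hx n
  have h2 : (Ideal.map (Algebra.TensorProduct.includeLeft : A →ₐ[k] A ⊗[k] B)
      (RingHom.ker φ)) ^ n = ⊥ := by
    rw [← Ideal.map_pow]
    have : (RingHom.ker φ) ^ n = (⊥ : Ideal A) := hn
    rw [this, Ideal.map_bot]
  rw [h2] at h1
  simpa using h1

theorem tensorMapLeft_algebraMap (B B' : Type u) [CommRing B] [CommRing B'] [Algebra k B]
    [Algebra k B'] [Algebra B B'] [IsScalarTower k B B'] (r : A ⊗[k] B) :
    tensorMapLeft k φ B' (algebraMap (A ⊗[k] B) (A ⊗[k] B') r) =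
      algebraMap (A' ⊗[k] B) (A' ⊗[k] B') (tensorMapLeft k φ B r) := by
  induction r using TensorProduct.induction_on with
  | zero => simp
  | tmul a b => rfl
  | add x y hx hy => rw [map_add, map_add, map_add, map_add, hx, hy]

end TensorMapLeft

/-- **ALG-DEF.** Gluing data lift along square-zero extensions (no hypothesis on the chart is
needed). -/
theorem algDef (k : Type u) [Field k] (B₀ B₁ B₀₁ : Type u) [CommRing B₀] [CommRing B₁]
    [CommRing B₀₁] [Algebra k B₀] [Algebra k B₁] [Algebra k B₀₁] [Algebra B₀ B₀₁]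
    [Algebra B₁ B₀₁] [IsScalarTower k B₀ B₀₁] [IsScalarTower k B₁ B₀₁] :
    Stmt.AlgDef k B₀ B₁ B₀₁ := by
  intro x y e _ A _ _ I hI G₀
  have hφ : Function.Surjective (Ideal.Quotient.mkₐ k I) := Ideal.Quotient.mkₐ_surjective k I
  have hker : (RingHom.ker ((Ideal.Quotient.mkₐ k I : A →ₐ[k] A ⧸ I) : A →+* A ⧸ I)) ^ 2 = ⊥ := by
    have : RingHom.ker ((Ideal.Quotient.mkₐ k I : A →ₐ[k] A ⧸ I) : A →+* A ⧸ I) = I :=
      Ideal.Quotient.mkₐ_ker k I
    rw [this, hI]
  exact exists_glueDatum_lift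
    (tensorMapLeft k (Ideal.Quotient.mkₐ k I) B₀)
    (tensorMapLeft k (Ideal.Quotient.mkₐ k I) B₁)
    (tensorMapLeft k (Ideal.Quotient.mkₐ k I) B₀₁)
    (tensorMapLeft_algebraMap k _ B₀ B₀₁)
    (tensorMapLeft_algebraMap k _ B₁ B₀₁)
    (tensorMapLeft_surjective k _ hφ B₀) (tensorMapLeft_ker_nil k _ hφ hker B₀)
    (tensorMapLeft_surjective k _ hφ B₁) (tensorMapLeft_ker_nil k _ hφ hker B₁)
    (tensorMapLeft_surjective k _ hφ B₀₁) (tensorMapLeft_ker_nil k _ hφ hker B₀₁)
    G₀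

/-- Nilpotent version: gluing data lift along `A → A ⧸ I` for any nilpotent ideal `I`. -/
theorem exists_curveGD_lift_of_pow_eq_bot (k : Type u) [Field k] (B₀ B₁ B₀₁ : Type u)
    [CommRing B₀] [CommRing B₁]
    [CommRing B₀₁] [Algebra k B₀] [Algebra k B₁] [Algebra k B₀₁] [Algebra B₀ B₀₁]
    [Algebra B₁ B₀₁] [IsScalarTower k B₀ B₀₁] [IsScalarTower k B₁ B₀₁]
    (A : Type u) [CommRing A] [Algebra k A] (I : Ideal A) {n : ℕ} (hI : I ^ n = ⊥)
    (G₀ : CurveGD k B₀ B₁ B₀₁ (A ⧸ I)) :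
    ∃ G : CurveGD k B₀ B₁ B₀₁ A, CurveGD.IsBC (Ideal.Quotient.mkₐ k I) G G₀ := by
  have hφ : Function.Surjective (Ideal.Quotient.mkₐ k I) := Ideal.Quotient.mkₐ_surjective k I
  have hker : (RingHom.ker ((Ideal.Quotient.mkₐ k I : A →ₐ[k] A ⧸ I) : A →+* A ⧸ I)) ^ n = ⊥ := by
    have : RingHom.ker ((Ideal.Quotient.mkₐ k I : A →ₐ[k] A ⧸ I) : A →+* A ⧸ I) = I :=
      Ideal.Quotient.mkₐ_ker k I
    rw [this, hI]
  exact exists_glueDatum_lift
    (tensorMapLeft k (Ideal.Quotient.mkₐ k I) B₀)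
    (tensorMapLeft k (Ideal.Quotient.mkₐ k I) B₁)
    (tensorMapLeft k (Ideal.Quotient.mkₐ k I) B₀₁)
    (tensorMapLeft_algebraMap k _ B₀ B₀₁)
    (tensorMapLeft_algebraMap k _ B₁ B₀₁)
    (tensorMapLeft_surjective k _ hφ B₀) (tensorMapLeft_ker_nil k _ hφ hker B₀)
    (tensorMapLeft_surjective k _ hφ B₁) (tensorMapLeft_ker_nil k _ hφ hker B₁)
    (tensorMapLeft_surjective k _ hφ B₀₁) (tensorMapLeft_ker_nil k _ hφ hker B₀₁)
    G₀

end Fermat.Agent.S25.H551

end
-- ===== PACK-END S25/H551/AlgDef.lean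

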