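import Mathlib
import Fermat.Agent.Pack.S43MC.G0E10L0
import Fermat.Agent.Pack.S43MC.G0E10L2
import Fermat.Agent.Pack.S43MC.G0E0L0
import Fermat.Agent.Pack.S43MC.G0E10L1
import Fermat.Agent.Pack.S43MC.G0E11L2
import Fermat.Agent.Pack.S43MC.G0E8L3
import Fermat.Agent.Pack.S43MC.G0E6L2
import Fermat.Agent.Pack.S43MC.G0E11L0
import Fermat.Agent.Pack.S43MC.G0E10L3
import Fermat.Agent.Pack.S43MC.G0E11L3
import Fermat.Agent.Pack.S43MC.G0E8L2
import Fermat.Agent.Pack.S43MC.G0E6L1
import Fermat.Agent.Pack.S43MC.G0E8L0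
import Fermat.Agent.Pack.S43MC.G0E11L1
import Fermat.Agent.Pack.S43MC.G0E5L2
import Fermat.Agent.Pack.S43MC.G0E6L3
import Fermat.Agent.Pack.S43MC.G0E1L3
import Fermat.Agent.Pack.S43MC.G0E9L0
import Fermat.Agent.Pack.S43MC.G0E9L2
import Fermat.Agent.Pack.S43MC.G0E12L0
import Fermat.Agent.Pack.Fast891

-- ===== PACK-BEGIN S25/H687/DDFinal.lean
section
/-
S25, block DICTDEG (helper687): final form.  `Stmt.DictDeg Ch` from the dictionary, the GDC /
DEGREE facts and the algebraic Abel family; the scheme bookkeeping `FamilyData` is discharged.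
-/



set_option autoImplicit false
universe u
open CategoryTheory CategoryTheory.Limits AlgebraicGeometry AlgebraicGeometry.RelPicard
  NeronModelInfra GoodReductionJacobian
open scoped TensorProduct

namespace Fermat.Agent.S25.H687

variable {k : Type u} [Field k] {C : Scheme.{u}} {c : C ⟶ Spec (CommRingCat.of k)}
  {ε : SchemeHomOver (𝟙 (Spec (CommRingCat.of k))) c}

/-- **DICTDEG**, direction (⇒) alone (no Abel family needed). -/
theorem dictDeg_mp (Ch : ChartOf c ε)
    (hSec : Stmt.DictSections Ch) (hIso : Stmt.DictIso Ch) (hBC : Stmt.DictBC Ch)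
    (hEx : Stmt.AlgBCExists Ch) (hUnit : DictUnit Ch)
    (hId : BCId k Ch.B₀ Ch.B₁ Ch.B₀₁) (hComp : BCComp k Ch.B₀ Ch.B₁ Ch.B₀₁)
    (hDegIso : DegIso k Ch.B₀ Ch.B₁ Ch.B₀₁) (hDegConst : DegConst k Ch.B₀ Ch.B₁ Ch.B₀₁)
    (A : Type u) [CommRing A] [Algebra k A] (M : RigidifiedLineBundle c ε (specStr k A))
    (G : CurveGD k Ch.B₀ Ch.B₁ Ch.B₀₁ A) (hG : Corr Ch A M.L G)
    (hM : FibrewiseAlgEquivZero M) : G.Deg0 :=
  deg0_of_fibrewiseAlgEquivZero Ch hSec hIso hBC hEx hUnit hId hComp hDegIso hDegConst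
    (familyData c ε) A M G hG hM

/-- **DICTDEG.** -/
theorem dictDeg_final (Ch : ChartOf c ε)
    (hSec : Stmt.DictSections Ch) (hIso : Stmt.DictIso Ch) (hBC : Stmt.DictBC Ch)
    (hEx : Stmt.AlgBCExists Ch) (hUnit : DictUnit Ch)
    (hId : BCId k Ch.B₀ Ch.B₁ Ch.B₀₁) (hComp : BCComp k Ch.B₀ Ch.B₁ Ch.B₀₁)
    (hDegIso : DegIso k Ch.B₀ Ch.B₁ Ch.B₀₁) (hDegConst : DegConst k Ch.B₀ Ch.B₁ Ch.B₀₁)
    (hAbel : AbelAlg Ch) : Stmt.DictDeg Ch :=
  dictDeg Ch hSec hIso hBC hEx hUnit hId hComp hDegIso hDegConst (familyData c ε) hAbel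

/-- **ABEL** from its algebraic form (with `DictDeg` discharged). -/
theorem abel_final (Ch : ChartOf c ε)
    (hSec : Stmt.DictSections Ch) (hIso : Stmt.DictIso Ch) (hBC : Stmt.DictBC Ch)
    (hEx : Stmt.AlgBCExists Ch) (hUnit : DictUnit Ch)
    (hId : BCId k Ch.B₀ Ch.B₁ Ch.B₀₁) (hComp : BCComp k Ch.B₀ Ch.B₁ Ch.B₀₁)
    (hDegIso : DegIso k Ch.B₀ Ch.B₁ Ch.B₀₁) (hDegConst : DegConst k Ch.B₀ Ch.B₁ Ch.B₀₁)
    (hAbel : AbelAlg Ch) : Stmt.Abel c ε :=
  abel_of_abelAlg Ch hSec hId
    (dictDeg_final Ch hSec hIso hBC hEx hUnit hId hComp hDegIso hDegConst hAbel) hAbel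

end Fermat.Agent.S25.H687

end
-- ===== PACK-END S25/H687/DDFinal.lean

-- ===== PACK-BEGIN S25/H147/GraphIdealMap.lean
section
/-
S25 / block ABEL, sub-block AB-ALG (helper747 skeleton), leaf **C4** (first half):
graph ideals commute with base change, `graphIdeal_map`.
Also: generators of the graph ideal, the `A`-linear retraction `R → graphIdeal φ`.
helper147.
-/


set_option autoImplicit false
universe u
open scoped TensorProduct

namespace Fermat.Agent.S25.H147

open Fermat.Agent.S25 Fermat.Agent.S25.H747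

section GraphIdealMap

variable {k : Type u} [Field k]
  {B : Type u} [CommRing B] [Algebra k B]
  {A A' : Type u} [CommRing A] [Algebra k A] [CommRing A'] [Algebra k A']

/-- The square `evalHom (ψ ∘ φ) ∘ (ψ ⊗ id) = ψ ∘ evalHom φ`. -/
theorem evalHom_tensorMapLeft (ψ : A →ₐ[k] A') (φ : B →ₐ[k] A) (z : A ⊗[k] B) :
    evalHom (ψ.comp φ) (tensorMapLeft k ψ B z) = ψ (evalHom φ z) := by
  induction z using TensorProduct.induction_on with
  | zero => simp
  | tmul a b => simp [tensorMapLeft]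
  | add x y hx hy => simp only [map_add, hx, hy]

@[simp] theorem tensorMapLeft_tmul (ψ : A →ₐ[k] A') (a : A) (b : B) :
    tensorMapLeft k ψ B (a ⊗ₜ[k] b) = ψ a ⊗ₜ[k] b := by
  simp [tensorMapLeft]

/-- The standard generator `1 ⊗ b - φ b ⊗ 1` of the graph ideal. -/
theorem gen_mem_graphIdeal (φ : B →ₐ[k] A) (b : B) :
    (1 : A) ⊗ₜ[k] b - φ b ⊗ₜ[k] (1 : B) ∈ graphIdeal φ := by
  simp [graphIdeal, RingHom.mem_ker]

/-- `z - ev(z) ⊗ 1` lies in the ideal generated by the standard generators. -/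
theorem sub_evalHom_mem_span (φ : B →ₐ[k] A) (z : A ⊗[k] B) :
    z - evalHom φ z ⊗ₜ[k] (1 : B) ∈
      Ideal.span (Set.range fun b : B => (1 : A) ⊗ₜ[k] b - φ b ⊗ₜ[k] (1 : B)) := by
  induction z using TensorProduct.induction_on with
  | zero => simp
  | tmul a b =>
    have : a ⊗ₜ[k] b - evalHom φ (a ⊗ₜ[k] b) ⊗ₜ[k] (1 : B) =
        (a ⊗ₜ[k] (1 : B)) * ((1 : A) ⊗ₜ[k] b - φ b ⊗ₜ[k] (1 : B)) := by
      simp [mul_sub, Algebra.TensorProduct.tmul_mul_tmul]
    rw [this]
    exact Ideal.mul_mem_left _ _ (Ideal.subset_span ⟨b, rfl⟩)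
  | add x y hx hy =>
    have : x + y - evalHom φ (x + y) ⊗ₜ[k] (1 : B) =
        (x - evalHom φ x ⊗ₜ[k] (1 : B)) + (y - evalHom φ y ⊗ₜ[k] (1 : B)) := by
      rw [map_add, TensorProduct.add_tmul]; abel
    rw [this]
    exact Ideal.add_mem _ hx hy

/-- The graph ideal is generated by the elements `1 ⊗ b - φ b ⊗ 1`. -/
theorem graphIdeal_eq_span (φ : B →ₐ[k] A) :
    graphIdeal φ =
      Ideal.span (Set.range fun b : B => (1 : A) ⊗ₜ[k] b - φ b ⊗ₜ[k] (1 : B)) := by
  apply le_antisymm
  · intro z hz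
    have h := sub_evalHom_mem_span φ z
    have h0 : evalHom φ z = 0 := hz
    simpa [h0] using h
  · rw [Ideal.span_le]
    rintro _ ⟨b, rfl⟩
    exact gen_mem_graphIdeal φ b

/-- **C4 (ideal form), general version** (no hypothesis on `k`). -/
theorem graphIdeal_map' (ψ : A →ₐ[k] A') (φ : B →ₐ[k] A) :
    (graphIdeal φ).map (tensorMapLeft k ψ B) = graphIdeal (ψ.comp φ) := by
  apply le_antisymm
  · rw [Ideal.map_le_iff_le_comap]
    intro z hz
    have h0 : evalHom φ z = 0 := hz
    show evalHom (ψ.comp φ) (tensorMapLeft k ψ B z) = 0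
    rw [evalHom_tensorMapLeft, h0, map_zero]
  · rw [graphIdeal_eq_span (ψ.comp φ), Ideal.span_le]
    rintro _ ⟨b, rfl⟩
    have : (1 : A') ⊗ₜ[k] b - (ψ.comp φ) b ⊗ₜ[k] (1 : B) =
        tensorMapLeft k ψ B ((1 : A) ⊗ₜ[k] b - φ b ⊗ₜ[k] (1 : B)) := by
      simp
    show (1 : A') ⊗ₜ[k] b - (ψ.comp φ) b ⊗ₜ[k] (1 : B) ∈ _
    rw [this]
    exact Ideal.mem_map_of_mem _ (gen_mem_graphIdeal φ b)

end GraphIdealMap

section Frozen

set_option linter.unusedSectionVars false

variable {k : Type u} [Field k] [IsAlgClosed k]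

/-- **C4.** Graph ideals commute with base change (exact frozen statement of
`H747.Skel.graphIdeal_map`). -/
theorem graphIdeal_map {B : Type u} [CommRing B] [Algebra k B]
    {A A' : Type u} [CommRing A] [Algebra k A] [CommRing A'] [Algebra k A']
    (ψ : A →ₐ[k] A') (φ : B →ₐ[k] A) :
    (graphIdeal φ).map (tensorMapLeft k ψ B) = graphIdeal (ψ.comp φ) :=
  graphIdeal_map' ψ φ

end Frozen

end Fermat.Agent.S25.H147

end
-- ===== PACK-END S25/H147/GraphIdealMap.lean

-- ===== PACK-BEGIN S25/H207/ChartCor.lean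
section




/-!
# Consequences of `IsCurveChart` (frozen `DefsAlg`): the chart rings are Dedekind

For a curve chart `(B₀, B₁, B₀₁, x, y, e)` over an algebraically closed field `k` and any field
extension `K` of `k`: `B₀`, `B₁` are finitely generated `k`-algebras, `K ⊗[k] Bᵢ` are Dedekind
domains which are not fields, `Ω[K ⊗[k] Bᵢ⁄K]` is invertible, `x ≠ 0`, `y ≠ 0`, `B₀₁` is a domain
and `K ⊗[k] B₀₁` is a domain.
-/

set_option autoImplicit false

universe u

open TensorProduct

namespace Fermat.Agent.S25.H207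

open Fermat.Agent.S25

/-- A ring which is finite over `k[X]` via `aeval x` is a finitely generated `k`-algebra. -/
theorem finiteType_of_finite_aeval {k B : Type*} [Field k] [CommRing B] [Algebra k B] (x : B)
    (h : (Polynomial.aeval x : Polynomial k →ₐ[k] B).Finite) : Algebra.FiniteType k B := by
  have h1 : ((Polynomial.aeval x : Polynomial k →ₐ[k] B).toRingHom).FiniteType :=
    RingHom.Finite.finiteType h
  have h2 : (algebraMap k (Polynomial k)).FiniteType :=
    RingHom.finiteType_algebraMap.mpr inferInstance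
  have h3 := RingHom.FiniteType.comp h1 h2
  have h4 : ((Polynomial.aeval x : Polynomial k →ₐ[k] B).toRingHom).comp
      (algebraMap k (Polynomial k)) = algebraMap k B := by
    ext a
    simp
  rw [h4] at h3
  exact RingHom.finiteType_algebraMap.mp h3

section Chart

variable {k : Type u} [Field k] [IsAlgClosed k] {B₀ B₁ B₀₁ : Type u} [CommRing B₀] [CommRing B₁]
  [CommRing B₀₁] [Algebra k B₀] [Algebra k B₁] [Algebra B₀ B₀₁] [Algebra B₁ B₀₁]
  {x : B₀} {y : B₁} {e : B₁ →ₐ[k] k}

omit [IsAlgClosed k] in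
theorem finiteType_chart₀ (h : IsCurveChart k B₀ B₁ B₀₁ x y e) : Algebra.FiniteType k B₀ :=
  finiteType_of_finite_aeval x h.finite₀

omit [IsAlgClosed k] in
theorem finiteType_chart₁ (h : IsCurveChart k B₀ B₁ B₀₁ x y e) : Algebra.FiniteType k B₁ :=
  finiteType_of_finite_aeval y h.finite₁

/-- `B₀` is a Dedekind domain. -/
theorem isDedekindDomain_chart₀ (h : IsCurveChart k B₀ B₁ B₀₁ x y e) : IsDedekindDomain B₀ := by
  haveI := h.isDomain₀
  haveI := finiteType_chart₀ h
  haveI := h.omega₀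
  exact isDedekindDomain_of_invertible_kaehler k

/-- `B₁` is a Dedekind domain. -/
theorem isDedekindDomain_chart₁ (h : IsCurveChart k B₀ B₁ B₀₁ x y e) : IsDedekindDomain B₁ := by
  haveI := h.isDomain₁
  haveI := finiteType_chart₁ h
  haveI := h.omega₁
  exact isDedekindDomain_of_invertible_kaehler k

/-- `B₀` is not a field. -/
theorem not_isField_chart₀ (h : IsCurveChart k B₀ B₁ B₀₁ x y e) : ¬ IsField B₀ := by
  haveI := h.isDomain₀
  haveI := finiteType_chart₀ h
  haveI := h.omega₀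
  exact not_isField_of_invertible_kaehler k

/-- `B₁` is not a field. -/
theorem not_isField_chart₁ (h : IsCurveChart k B₀ B₁ B₀₁ x y e) : ¬ IsField B₁ := by
  haveI := h.isDomain₁
  haveI := finiteType_chart₁ h
  haveI := h.omega₁
  exact not_isField_of_invertible_kaehler k

/-- `K ⊗[k] B₀` is a Dedekind domain for every field extension `K` of `k`. -/
theorem isDedekindDomain_tensor_chart₀ (h : IsCurveChart k B₀ B₁ B₀₁ x y e)
    (K : Type u) [Field K] [Algebra k K] : IsDedekindDomain (K ⊗[k] B₀) := by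
  haveI := h.isDomain₀
  haveI := finiteType_chart₀ h
  haveI := h.omega₀
  exact (isDedekindDomain_and_not_isField_tensor_of_invertible K).1

/-- `K ⊗[k] B₁` is a Dedekind domain for every field extension `K` of `k`. -/
theorem isDedekindDomain_tensor_chart₁ (h : IsCurveChart k B₀ B₁ B₀₁ x y e)
    (K : Type u) [Field K] [Algebra k K] : IsDedekindDomain (K ⊗[k] B₁) := by
  haveI := h.isDomain₁
  haveI := finiteType_chart₁ h
  haveI := h.omega₁
  exact (isDedekindDomain_and_not_isField_tensor_of_invertible K).1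

/-- `K ⊗[k] B₀` is not a field. -/
theorem not_isField_tensor_chart₀ (h : IsCurveChart k B₀ B₁ B₀₁ x y e)
    (K : Type u) [Field K] [Algebra k K] : ¬ IsField (K ⊗[k] B₀) := by
  haveI := h.isDomain₀
  haveI := finiteType_chart₀ h
  haveI := h.omega₀
  exact (isDedekindDomain_and_not_isField_tensor_of_invertible K).2

/-- `K ⊗[k] B₁` is not a field. -/
theorem not_isField_tensor_chart₁ (h : IsCurveChart k B₀ B₁ B₀₁ x y e)
    (K : Type u) [Field K] [Algebra k K] : ¬ IsField (K ⊗[k] B₁) := by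
  haveI := h.isDomain₁
  haveI := finiteType_chart₁ h
  haveI := h.omega₁
  exact (isDedekindDomain_and_not_isField_tensor_of_invertible K).2

omit [IsAlgClosed k] in
/-- `Ω[K ⊗[k] B₀⁄K]` is invertible. -/
theorem invertible_kaehler_tensor_chart₀ (h : IsCurveChart k B₀ B₁ B₀₁ x y e)
    (K : Type u) [CommRing K] [Algebra k K] : Module.Invertible (K ⊗[k] B₀) Ω[K ⊗[k] B₀⁄K] := by
  haveI := h.omega₀
  exact invertible_kaehler_tensor k B₀ K

omit [IsAlgClosed k] in
/-- `Ω[K ⊗[k] B₁⁄K]` is invertible. -/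
theorem invertible_kaehler_tensor_chart₁ (h : IsCurveChart k B₀ B₁ B₀₁ x y e)
    (K : Type u) [CommRing K] [Algebra k K] : Module.Invertible (K ⊗[k] B₁) Ω[K ⊗[k] B₁⁄K] := by
  haveI := h.omega₁
  exact invertible_kaehler_tensor k B₁ K

/-- `x ≠ 0`. -/
theorem x_ne_zero_chart (h : IsCurveChart k B₀ B₁ B₀₁ x y e) : x ≠ 0 := by
  rintro rfl
  haveI := h.isDomain₀
  -- `B₀` is finite over `k[X]` via `X ↦ 0`, hence finite over `k`, hence a field
  apply not_isField_chart₀ h
  have hfin : Module.Finite k B₀ := by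
    have h0 := h.finite₀
    -- `aeval 0` factors through the evaluation `k[X] → k`
    letI alg : Algebra (Polynomial k) B₀ :=
      ((Polynomial.aeval (0 : B₀) : Polynomial k →ₐ[k] B₀).toRingHom).toAlgebra
    haveI : Module.Finite (Polynomial k) B₀ := h0
    obtain ⟨s, hs⟩ := (Module.finite_def.mp this)
    refine Module.finite_def.mpr ⟨s, ?_⟩
    rw [eq_top_iff]
    intro b _
    have hb : b ∈ Submodule.span (Polynomial k) (s : Set B₀) := by rw [hs]; trivial
    refine Submodule.span_induction (p := fun b _ => b ∈ Submodule.span k (s : Set B₀))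
      ?_ ?_ ?_ ?_ hb
    · intro z hz
      exact Submodule.subset_span hz
    · exact Submodule.zero_mem _
    · intro a b _ _ ha hb
      exact Submodule.add_mem _ ha hb
    · intro p b _ hb
      have hp : p • b = (Polynomial.eval 0 p) • b := by
        change (Polynomial.aeval (0 : B₀) p) * b = _
        rw [Polynomial.aeval_def, Polynomial.eval₂_at_zero, Algebra.smul_def,
          Polynomial.coeff_zero_eq_eval_zero]
      rw [hp]
      exact Submodule.smul_mem _ _ hb
  exact (isField_of_isIntegral_of_isField' (R := k) (S := B₀) (Field.toIsField k))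

/-- `y ≠ 0`. -/
theorem y_ne_zero_chart (h : IsCurveChart k B₀ B₁ B₀₁ x y e) : y ≠ 0 := by
  rintro rfl
  haveI := h.isDomain₁
  apply not_isField_chart₁ h
  have hfin : Module.Finite k B₁ := by
    have h0 := h.finite₁
    letI alg : Algebra (Polynomial k) B₁ :=
      ((Polynomial.aeval (0 : B₁) : Polynomial k →ₐ[k] B₁).toRingHom).toAlgebra
    haveI : Module.Finite (Polynomial k) B₁ := h0
    obtain ⟨s, hs⟩ := (Module.finite_def.mp this)
    refine Module.finite_def.mpr ⟨s, ?_⟩
    rw [eq_top_iff]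
    intro b _
    have hb : b ∈ Submodule.span (Polynomial k) (s : Set B₁) := by rw [hs]; trivial
    refine Submodule.span_induction (p := fun b _ => b ∈ Submodule.span k (s : Set B₁))
      ?_ ?_ ?_ ?_ hb
    · intro z hz
      exact Submodule.subset_span hz
    · exact Submodule.zero_mem _
    · intro a b _ _ ha hb
      exact Submodule.add_mem _ ha hb
    · intro p b _ hb
      have hp : p • b = (Polynomial.eval 0 p) • b := by
        change (Polynomial.aeval (0 : B₁) p) * b = _
        rw [Polynomial.aeval_def, Polynomial.eval₂_at_zero, Algebra.smul_def,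
          Polynomial.coeff_zero_eq_eval_zero]
      rw [hp]
      exact Submodule.smul_mem _ _ hb
  exact (isField_of_isIntegral_of_isField' (R := k) (S := B₁) (Field.toIsField k))

/-- `B₀₁` is a domain. -/
theorem isDomain_chart₀₁ (h : IsCurveChart k B₀ B₁ B₀₁ x y e) : IsDomain B₀₁ := by
  haveI := h.isDomain₀
  haveI := h.away₀
  exact IsLocalization.isDomain_of_le_nonZeroDivisors B₀₁
    (powers_le_nonZeroDivisors_of_noZeroDivisors (x_ne_zero_chart h))

/-- `B₀₁` is a Dedekind domain. -/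
theorem isDedekindDomain_chart₀₁ (h : IsCurveChart k B₀ B₁ B₀₁ x y e) :
    IsDedekindDomain B₀₁ := by
  haveI := h.isDomain₀
  haveI := h.away₀
  haveI := isDedekindDomain_chart₀ h
  haveI := isDomain_chart₀₁ h
  exact IsLocalization.isDedekindDomain B₀
    (powers_le_nonZeroDivisors_of_noZeroDivisors (x_ne_zero_chart h)) B₀₁

/-- The restriction maps `Bᵢ → B₀₁` are injective. -/
theorem injective_algebraMap_chart₀ (h : IsCurveChart k B₀ B₁ B₀₁ x y e) :
    Function.Injective (algebraMap B₀ B₀₁) := by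
  haveI := h.isDomain₀
  haveI := h.away₀
  exact IsLocalization.injective B₀₁
    (powers_le_nonZeroDivisors_of_noZeroDivisors (x_ne_zero_chart h))

theorem injective_algebraMap_chart₁ (h : IsCurveChart k B₀ B₁ B₀₁ x y e) :
    Function.Injective (algebraMap B₁ B₀₁) := by
  haveI := h.isDomain₁
  haveI := h.away₁
  exact IsLocalization.injective B₀₁
    (powers_le_nonZeroDivisors_of_noZeroDivisors (y_ne_zero_chart h))

/-- `K ⊗[k] B₀₁` is a domain for every field extension `K` of `k`. -/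
theorem isDomain_tensor_chart₀₁ [Algebra k B₀₁] (h : IsCurveChart k B₀ B₁ B₀₁ x y e)
    (K : Type u) [Field K] [Algebra k K] : IsDomain (K ⊗[k] B₀₁) := by
  haveI := isDomain_chart₀₁ h
  exact isDomain_tensorProduct

end Chart

end Fermat.Agent.S25.H207

end
-- ===== PACK-END S25/H207/ChartCor.lean

-- ===== PACK-BEGIN S25/H791/ACStage1.lean
section




/-!
# S25 / ALGCHARTS, leaf ST1 (helper791): the locus where `H⁰(G(nE₀)) → N₀ / I_q N₀` is onto

`stage1_locus` : exact statement of `coord/S25-ALGCHARTS-skeleton.lean` (squad-lead helper11).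
The ideal is the annihilator of the finitely generated `A`-module
`N₀ ⧸ (I_q N₀ + image of H⁰(G(nE₀)))`.

Reusable:
* `evRange x n q G` : the `A`-submodule `I_q N₀ + fst (sec x n G)` of `N₀`; `p1_iff`;
* `finite_quotient_evRange`;
* `BCEquivs.mem_range_of_mem_sec` (SH3): under `P0` every section of `G'(n)` is an
  `A'`-combination of base-changed sections of `G(n)`;
* `BCEquivs.mem_range_of_mem_vanq` : the same for `I_q N₀`;
* `p1_iff_annihilator_map`.
-/

set_option autoImplicit false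
set_option linter.style.haveILetI false
set_option linter.unusedSectionVars false

universe u

open scoped TensorProduct

namespace Fermat.Agent.S25.H791

open Fermat.Agent.S25 Fermat.Agent.S25.H11

section Core

variable {k : Type u} [Field k]
  {B₀ B₁ B₀₁ : Type u} [CommRing B₀] [CommRing B₁] [CommRing B₀₁]
  [Algebra k B₀] [Algebra k B₁] [Algebra k B₀₁] [Algebra B₀ B₀₁] [Algebra B₁ B₀₁]
  [IsScalarTower k B₀ B₀₁] [IsScalarTower k B₁ B₀₁]
  {x : B₀} {y : B₁} {e : B₁ →ₐ[k] k}

section EvRange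

variable {A : Type u} [CommRing A] [Algebra k A]

/-- The `A`-submodule `I_q N₀ + fst (H⁰(G(nE₀)))` of `N₀`: the local sections which agree
modulo `I_q` with a global section of `G(nE₀)`. -/
def evRange (x : B₀) (n : ℕ) {m : ℕ} (q : Fin m → (B₀ →ₐ[k] k)) (G : CurveGD k B₀ B₁ B₀₁ A) :
    Submodule A G.N₀ :=
  (vanq q G).restrictScalars A ⊔ (sec x n G).map (LinearMap.fst A G.N₀ G.N₁)

theorem mem_evRange_iff {n : ℕ} {m : ℕ} {q : Fin m → (B₀ →ₐ[k] k)}
    {G : CurveGD k B₀ B₁ B₀₁ A} {a : G.N₀} :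
    a ∈ evRange x n q G ↔ ∃ s ∈ sec x n G, a - s.1 ∈ vanq q G := by
  rw [evRange, Submodule.mem_sup]
  constructor
  · rintro ⟨v, hv, w, ⟨s, hs, rfl⟩, rfl⟩
    refine ⟨s, hs, ?_⟩
    have : v + (LinearMap.fst A G.N₀ G.N₁) s - s.1 = v := by simp
    rw [this]
    exact hv
  · rintro ⟨s, hs, hv⟩
    exact ⟨a - s.1, hv, s.1, ⟨s, hs, rfl⟩, by simp⟩

theorem p1_iff {n : ℕ} {m : ℕ} {q : Fin m → (B₀ →ₐ[k] k)} {G : CurveGD k B₀ B₁ B₀₁ A} :
    P1 x n q G ↔ P0 x n G ∧ evRange x n q G = ⊤ := by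
  rw [P1, Submodule.eq_top_iff']
  exact and_congr Iff.rfl (forall_congr' fun a => mem_evRange_iff.symm)

/-- `N₀ ⧸ (I_q N₀ + fst H⁰)` is a finite `A`-module. -/
theorem finite_quotient_evRange (hC : IsCurveChart k B₀ B₁ B₀₁ x y e) (n : ℕ) {m : ℕ}
    (q : Fin m → (B₀ →ₐ[k] k)) (G : CurveGD k B₀ B₁ B₀₁ A) :
    Module.Finite A (G.N₀ ⧸ evRange x n q G) := by
  haveI : Module.Finite A (G.N₀ ⧸ vanq q G) := finite_quotient_vanq hC q G
  haveI : Module.Finite A (G.N₀ ⧸ (vanq q G).restrictScalars A) :=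
    Module.Finite.equiv (Submodule.Quotient.restrictScalarsEquiv A (vanq q G)).symm
  have hle : (vanq q G).restrictScalars A ≤ LinearMap.ker (evRange x n q G).mkQ := by
    rw [Submodule.ker_mkQ]
    exact le_sup_left
  refine Module.Finite.of_surjective
    (((vanq q G).restrictScalars A).liftQ (evRange x n q G).mkQ hle) ?_
  intro z
  obtain ⟨a, rfl⟩ := Submodule.Quotient.mk_surjective _ z
  exact ⟨Submodule.Quotient.mk a, rfl⟩

end EvRange

section BaseChange

variable {A A' : Type u} [CommRing A] [Algebra k A] [CommRing A'] [Algebra k A'] [Algebra A A']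
  [IsScalarTower k A A']

/-- If the range of `f` lies in `W`, the range of `f ⊗ A'` lies in the image of `A' ⊗ W`. -/
theorem range_baseChange_le_of_range_le {M N : Type u} [AddCommGroup M] [Module A M]
    [AddCommGroup N] [Module A N] (f : M →ₗ[A] N) (W : Submodule A N)
    (h : LinearMap.range f ≤ W) :
    LinearMap.range (f.baseChange A') ≤ LinearMap.range (W.subtype.baseChange A') := by
  have hf : f = W.subtype ∘ₗ (f.codRestrict W (fun c => h ⟨c, rfl⟩)) := by
    ext c; rfl
  rintro _ ⟨t, rfl⟩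
  refine ⟨(f.codRestrict W (fun c => h ⟨c, rfl⟩)).baseChange A' t, ?_⟩
  rw [← LinearMap.comp_apply, ← LinearMap.baseChange_comp, ← hf]

/-- Right exactness: the kernel of `A' ⊗ N → A' ⊗ (N ⧸ W)` is the image of `A' ⊗ W`. -/
theorem ker_mkQ_baseChange_eq {N : Type u} [AddCommGroup N] [Module A N] (W : Submodule A N) :
    LinearMap.ker (W.mkQ.baseChange A') = LinearMap.range (W.subtype.baseChange A') := by
  have hex : Function.Exact W.subtype W.mkQ := LinearMap.exact_subtype_mkQ W
  have hex' := lTensor_exact A' hex (Submodule.mkQ_surjective W)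
  ext t
  rw [LinearMap.mem_ker, LinearMap.mem_range]
  have h1 : (W.mkQ.baseChange A' : A' ⊗[A] N → A' ⊗[A] (N ⧸ W)) = W.mkQ.lTensor A' :=
    LinearMap.baseChange_eq_ltensor W.mkQ
  have h2 : (W.subtype.baseChange A' : A' ⊗[A] W → A' ⊗[A] N) = W.subtype.lTensor A' :=
    LinearMap.baseChange_eq_ltensor W.subtype
  rw [h1, h2]
  exact hex' t

namespace BCEquivs

variable {ψ : A →ₐ[k] A'} {G : CurveGD k B₀ B₁ B₀₁ A} {G' : CurveGD k B₀ B₁ B₀₁ A'}
  {bc : GlueDatum.BaseChangeMaps (tensorMapLeft k ψ B₀) (tensorMapLeft k ψ B₁)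
      (tensorMapLeft k ψ B₀₁) G G'}

/-- The first component of the comparison isomorphism on cochains. -/
theorem prod_fst (E : BCEquivs ψ bc) (t : A' ⊗[A] (G.N₀ × G.N₁)) :
    (E.prod t).1 = E.E₀ ((LinearMap.fst A G.N₀ G.N₁).baseChange A' t) := by
  induction t using TensorProduct.induction_on with
  | zero => simp
  | add t u ht hu => simp only [map_add, Prod.fst_add, ht, hu]
  | tmul s p => rw [prod_tmul, LinearMap.baseChange_tmul, E.E₀_tmul]; rfl

/-- Base-changed sections are sections. -/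
theorem bc_mem_sec (ψ : A →ₐ[k] A') {G : CurveGD k B₀ B₁ B₀₁ A} {G' : CurveGD k B₀ B₁ B₀₁ A'}
    (bc : GlueDatum.BaseChangeMaps (tensorMapLeft k ψ B₀) (tensorMapLeft k ψ B₁)
      (tensorMapLeft k ψ B₀₁) G G') (x : B₀) (n : ℕ) {s : G.N₀ × G.N₁} (hs : s ∈ sec x n G) :
    ((bc.b₀ s.1, bc.b₁ s.2) : G'.N₀ × G'.N₁) ∈ sec x n G' := by
  rw [LinearMap.mem_ker, tcech_bc ψ bc x n s.1 s.2]
  have : tcech x n G (s.1, s.2) = 0 := hs
  rw [this, map_zero]

/-- Base change maps send `I_q N₀` into `I_q N₀'`. -/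
theorem bc_mem_vanq (ψ : A →ₐ[k] A') {G : CurveGD k B₀ B₁ B₀₁ A} {G' : CurveGD k B₀ B₁ B₀₁ A'}
    (bc : GlueDatum.BaseChangeMaps (tensorMapLeft k ψ B₀) (tensorMapLeft k ψ B₁)
      (tensorMapLeft k ψ B₀₁) G G') {m : ℕ} (q : Fin m → (B₀ →ₐ[k] k)) {v : G.N₀}
    (hv : v ∈ vanq q G) : bc.b₀ v ∈ vanq q G' := by
  unfold vanq at hv ⊢
  refine Submodule.smul_induction_on hv (fun r hr n _ => ?_) (fun a b ha hb => ?_)
  · rw [bc.b₀.map_smulₛₗ]
    refine Submodule.smul_mem_smul ?_ Submodule.mem_top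
    rw [← map_ptIdeal ψ q]
    exact Ideal.mem_map_of_mem _ hr
  · rw [map_add]
    exact Submodule.add_mem _ ha hb

/-- **SH3.** Under `P0` for `G`, every section of `G'(nE₀)` comes from `A' ⊗ H⁰(G(nE₀))`. -/
theorem mem_range_of_mem_sec (E : BCEquivs ψ bc) (hC : IsCurveChart k B₀ B₁ B₀₁ x y e)
    (n : ℕ) (h0 : P0 x n G) {s' : G'.N₀ × G'.N₁} (hs' : s' ∈ sec x n G') :
    E.prod.symm s' ∈ LinearMap.range ((sec x n G).subtype.baseChange A') := by
  have hker : E.prod.symm s' ∈ LinearMap.ker ((tcech x n G).baseChange A') := by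
    rw [LinearMap.mem_ker]
    apply E.E₀₁.injective
    rw [← E.tcech_prod, LinearEquiv.apply_symm_apply, map_zero]
    exact hs'
  have hD := (H310.H0_baseChange_bijective (A' := A') (H250.chartCechOps hC G)
    (H250.isFGProj_X0 hC G) (H250.r0_injective hC G) n
    (by rw [← tcech_eq_d hC n G]; exact h0)).2
  have hsec : sec x n G = (H250.chartCechOps hC G).H0 n := by
    show LinearMap.ker (tcech x n G) = LinearMap.ker ((H250.chartCechOps hC G).d n)
    rw [tcech_eq_d hC n G]
  rw [hsec, hD, ← tcech_eq_d hC n G]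
  exact hker

/-- Every element of `I_q N₀'` comes from `A' ⊗ I_q N₀`. -/
theorem mem_range_of_mem_vanq (E : BCEquivs ψ bc) {m : ℕ} (q : Fin m → (B₀ →ₐ[k] k))
    {v' : G'.N₀} (hv' : v' ∈ vanq q G') :
    E.E₀.symm v' ∈
      LinearMap.range (((vanq q G).restrictScalars A).subtype.baseChange A') := by
  -- the `A'`-submodule `T` of `N₀'` of elements coming from `A' ⊗ I_q N₀`
  set T : Submodule A' G'.N₀ :=
    (LinearMap.range (((vanq q G).restrictScalars A).subtype.baseChange A')).map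
      E.E₀.toLinearMap with hT
  suffices h : v' ∈ T by
    obtain ⟨t, ht, rfl⟩ := h
    rw [LinearEquiv.coe_coe, LinearEquiv.symm_apply_apply]
    exact ht
  -- generators
  have hgen : ∀ (s : A') (v : G.N₀), v ∈ vanq q G → s • bc.b₀ v ∈ T := by
    intro s v hv
    refine ⟨s ⊗ₜ[A] v, ⟨s ⊗ₜ[A] (⟨v, hv⟩ : (vanq q G).restrictScalars A), ?_⟩, ?_⟩
    · rw [LinearMap.baseChange_tmul]; rfl
    · rw [LinearEquiv.coe_coe, E.E₀_tmul]
  -- `r' • n' ∈ T` for `r'` in the extended ideal
  have key : ∀ r' ∈ (ptIdeal q A).map (tensorMapLeft k ψ B₀), ∀ n' : G'.N₀, r' • n' ∈ T := by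
    intro r' hr'
    induction hr' using Submodule.span_induction with
    | mem r' hr' =>
      obtain ⟨i, hi, rfl⟩ := hr'
      intro n'
      obtain ⟨t, rfl⟩ := E.E₀.surjective n'
      induction t using TensorProduct.induction_on with
      | zero => rw [map_zero, smul_zero]; exact T.zero_mem
      | add t u ht hu => rw [map_add, smul_add]; exact T.add_mem ht hu
      | tmul s n =>
        rw [E.E₀_tmul, smul_comm, ← bc.b₀.map_smulₛₗ]
        exact hgen s _ (Submodule.smul_mem_smul hi Submodule.mem_top)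
    | zero => intro n'; rw [zero_smul]; exact T.zero_mem
    | add a b _ _ ha hb => intro n'; rw [add_smul]; exact T.add_mem (ha n') (hb n')
    | smul c a _ ha =>
      intro n'
      rw [smul_eq_mul, mul_comm, mul_smul]
      exact ha (c • n')
  rw [vanq, ← map_ptIdeal ψ q] at hv'
  exact Submodule.smul_induction_on hv' (fun r hr n _ => key r hr n)
    (fun a b ha hb => T.add_mem ha hb)

/-- Under `P0` for `G`: the evaluation condition for `G'` is the vanishing of
`A' ⊗ (N₀ ⧸ evRange)`. -/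
theorem evRange_eq_top_iff (E : BCEquivs ψ bc) (hC : IsCurveChart k B₀ B₁ B₀₁ x y e)
    (n : ℕ) {m : ℕ} (q : Fin m → (B₀ →ₐ[k] k)) (h0 : P0 x n G) :
    evRange x n q G' = ⊤ ↔ Subsingleton (A' ⊗[A] (G.N₀ ⧸ evRange x n q G)) := by
  set W := evRange x n q G with hW
  have hvW : (vanq q G).restrictScalars A ≤ W := le_sup_left
  have hsW : LinearMap.range ((LinearMap.fst A G.N₀ G.N₁) ∘ₗ (sec x n G).subtype) ≤ W := by
    rintro _ ⟨s, rfl⟩
    exact Submodule.mem_sup_right ⟨s.1, s.2, rfl⟩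
  constructor
  · intro htop
    -- every element of `A' ⊗ N₀` comes from `A' ⊗ W`
    have hall : ∀ t : A' ⊗[A] G.N₀, t ∈ LinearMap.range (W.subtype.baseChange A') := by
      intro t
      have ht : E.E₀ t ∈ evRange x n q G' := by rw [htop]; exact Submodule.mem_top
      obtain ⟨s', hs', hv'⟩ := mem_evRange_iff.mp ht
      have h1 := E.mem_range_of_mem_vanq q hv'
      have h2 := E.mem_range_of_mem_sec hC n h0 hs'
      have h1' : E.E₀.symm (E.E₀ t - s'.1) ∈ LinearMap.range (W.subtype.baseChange A') := by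
        have := range_baseChange_le_of_range_le (A' := A')
          ((vanq q G).restrictScalars A).subtype W (by
            rintro _ ⟨v, rfl⟩
            exact hvW v.2)
        exact this h1
      have h2' : E.E₀.symm s'.1 ∈ LinearMap.range (W.subtype.baseChange A') := by
        obtain ⟨u, hu⟩ := h2
        have h3 : s'.1 = E.E₀ ((LinearMap.fst A G.N₀ G.N₁).baseChange A' (E.prod.symm s')) := by
          rw [← E.prod_fst, LinearEquiv.apply_symm_apply]
        rw [h3, LinearEquiv.symm_apply_apply, ← hu, ← LinearMap.comp_apply,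
          ← LinearMap.baseChange_comp]
        exact range_baseChange_le_of_range_le (A' := A') _ W hsW ⟨u, rfl⟩
      have : t = E.E₀.symm (E.E₀ t - s'.1) + E.E₀.symm s'.1 := by
        rw [← map_add, sub_add_cancel, LinearEquiv.symm_apply_apply]
      rw [this]
      exact Submodule.add_mem _ h1' h2'
    refine ⟨fun a b => ?_⟩
    have hzero : ∀ c : A' ⊗[A] (G.N₀ ⧸ W), c = 0 := by
      intro c
      obtain ⟨t, rfl⟩ := LinearMap.lTensor_surjective A' (Submodule.mkQ_surjective W) c
      have := hall t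
      rw [← ker_mkQ_baseChange_eq, LinearMap.mem_ker] at this
      rw [← this]
      exact (congrFun (LinearMap.baseChange_eq_ltensor (A := A') W.mkQ) t).symm
    rw [hzero a, hzero b]
  · intro hsub
    rw [Submodule.eq_top_iff']
    intro a'
    have hker : E.E₀.symm a' ∈ LinearMap.ker (W.mkQ.baseChange A') := by
      rw [LinearMap.mem_ker]
      exact Subsingleton.elim _ _
    rw [ker_mkQ_baseChange_eq] at hker
    obtain ⟨w, hw⟩ := hker
    have hmem : ∀ w : A' ⊗[A] W, E.E₀ (W.subtype.baseChange A' w) ∈ evRange x n q G' := by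
      intro w
      induction w using TensorProduct.induction_on with
      | zero => simp
      | add w₁ w₂ h₁ h₂ => rw [map_add, map_add]; exact Submodule.add_mem _ h₁ h₂
      | tmul s w =>
        rw [LinearMap.baseChange_tmul, E.E₀_tmul]
        refine Submodule.smul_mem _ s ?_
        obtain ⟨s₀, hs₀, hv⟩ := mem_evRange_iff.mp w.2
        rw [mem_evRange_iff]
        refine ⟨(bc.b₀ s₀.1, bc.b₁ s₀.2), bc_mem_sec ψ bc x n hs₀, ?_⟩
        have := bc_mem_vanq ψ bc q hv
        rwa [map_sub] at this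
    have := hmem w
    rwa [hw, LinearEquiv.apply_symm_apply] at this

end BCEquivs

/-- `P1` for a base change `G'` of `G` (with `P0` for `G`), in terms of the annihilator of
`N₀ ⧸ evRange`. -/
theorem p1_iff_annihilator_map (hC : IsCurveChart k B₀ B₁ B₀₁ x y e) (n : ℕ) {m : ℕ}
    (q : Fin m → (B₀ →ₐ[k] k)) (ψ : A →ₐ[k] A') (hψ : ∀ a, ψ a = algebraMap A A' a)
    {G : CurveGD k B₀ B₁ B₀₁ A} {G' : CurveGD k B₀ B₁ B₀₁ A'} (h : CurveGD.IsBC ψ G G')
    (h0 : P0 x n G) :
    P1 x n q G' ↔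
      (Module.annihilator A (G.N₀ ⧸ evRange x n q G)).map (algebraMap A A') = ⊤ := by
  have h0' : P0 x n G' := p0_baseChange n ψ hψ h h0
  obtain ⟨bc⟩ := h
  obtain ⟨E⟩ := exists_bcEquivs ψ hψ bc
  haveI := finite_quotient_evRange hC n q G
  rw [p1_iff, E.evRange_eq_top_iff hC n q h0, subsingleton_tensorProduct_iff]
  exact and_iff_right h0'

end BaseChange

end Core

section Main

variable {k : Type u} [Field k] [IsAlgClosed k]
  {B₀ B₁ B₀₁ : Type u} [CommRing B₀] [CommRing B₁] [CommRing B₀₁]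
  [Algebra k B₀] [Algebra k B₁] [Algebra k B₀₁] [Algebra B₀ B₀₁] [Algebra B₁ B₀₁]
  [IsScalarTower k B₀ B₀₁] [IsScalarTower k B₁ B₀₁]
  {x : B₀} {y : B₁} {e : B₁ →ₐ[k] k}
  {A : Type u} [CommRing A] [Algebra k A]

/-- **STAGE 1** (exact skeleton statement): given `P0`, the locus where
`H⁰(G(nE₀)) → N₀ / I_q N₀` is onto. -/
theorem stage1_locus (hC : IsCurveChart k B₀ B₁ B₀₁ x y e) (n : ℕ) {m : ℕ}
    (q : Fin m → (B₀ →ₐ[k] k)) (G : CurveGD k B₀ B₁ B₀₁ A) (h0 : P0 x n G) :
    ∃ J : Ideal A, ∀ (A' : Type u) [CommRing A'] [Algebra k A'] (ψ : A →ₐ[k] A')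
      (G' : CurveGD k B₀ B₁ B₀₁ A'), CurveGD.IsBC ψ G G' →
        (P1 x n q G' ↔ J.map ψ.toRingHom = ⊤) := by
  refine ⟨Module.annihilator A (G.N₀ ⧸ evRange x n q G), ?_⟩
  intro A' _ _ ψ G' h
  letI : Algebra A A' := ψ.toRingHom.toAlgebra
  haveI : IsScalarTower k A A' := IsScalarTower.of_algebraMap_eq' (by
    ext c
    exact (ψ.commutes c).symm)
  exact p1_iff_annihilator_map hC n q ψ (fun _ => rfl) h h0

end Main

end Fermat.Agent.S25.H791

end
-- ===== PACK-END S25/H791/ACStage1.lean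

-- ===== PACK-BEGIN S25/H910/DegreeLC.lean
section
/-
S25, block DEGREE (helper910): D1 + D2 + D9 in the frozen language of `DefsAlg`.
For a curve chart and a gluing datum `G` over any `k`-algebra `A`, there is a locally constant
function `f : Spec A → ℤ` such that every base change `G'` of `G` to a field `K` (along
`φ : A → K`) has finite-dimensional cohomology and degree `f (ker φ)`.
-/




set_option autoImplicit false
set_option linter.style.haveILetI false

namespace Fermat.Agent.S25.H910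

open TensorProduct Fermat.Agent.S25 Fermat.Agent.S25.H10 Module

universe u

variable {k : Type u} [Field k] {B₀ B₁ B₀₁ : Type u} [CommRing B₀] [CommRing B₁] [CommRing B₀₁]
  [Algebra k B₀] [Algebra k B₁] [Algebra k B₀₁] [Algebra B₀ B₀₁] [Algebra B₁ B₀₁]
  [IsScalarTower k B₀ B₀₁] [IsScalarTower k B₁ B₀₁]

section Unit

variable {A K : Type u} [CommRing A] [CommRing K] [Algebra k A] [Algebra k K]

theorem tensorMapLeft_algebraMap (φ : A →ₐ[k] K) (B B' : Type u) [CommRing B] [CommRing B']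
    [Algebra k B] [Algebra k B'] [Algebra B B'] [IsScalarTower k B B'] (s : A ⊗[k] B) :
    tensorMapLeft k φ B' (algebraMap (A ⊗[k] B) (A ⊗[k] B') s) =
      algebraMap (K ⊗[k] B) (K ⊗[k] B') (tensorMapLeft k φ B s) := by
  induction s using TensorProduct.induction_on with
  | zero => simp
  | tmul a b =>
    simp [tensorMapLeft, RingHom.algebraMap_toAlgebra, tensorMapRight]
  | add s t hs ht => simp only [map_add, hs, ht]

/-- The unit datum over `K` is the base change of the unit datum over `A`. -/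
theorem isBC_unit (φ : A →ₐ[k] K) :
    CurveGD.IsBC (B₀ := B₀) (B₁ := B₁) (B₀₁ := B₀₁) φ
      (GlueDatum.unit A (A ⊗[k] B₀) (A ⊗[k] B₁) (A ⊗[k] B₀₁))
      (GlueDatum.unit K (K ⊗[k] B₀) (K ⊗[k] B₁) (K ⊗[k] B₀₁)) := by
  refine ⟨{
    b₀ := (tensorMapLeft k φ B₀).toSemilinearMap
    b₁ := (tensorMapLeft k φ B₁).toSemilinearMap
    b₀₁ := (tensorMapLeft k φ B₀₁).toSemilinearMap
    comm₀ := fun s => _root_.Fermat.Agent.S25.H910.tensorMapLeft_algebraMap φ B₀ B₀₁ s
    comm₁ := fun s => _root_.Fermat.Agent.S25.H910.tensorMapLeft_algebraMap φ B₁ B₀₁ s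
    isBaseChange₀ := ?_
    isBaseChange₁ := ?_
    isBaseChange₀₁ := ?_ }⟩
  · letI : Algebra (A ⊗[k] B₀) (K ⊗[k] B₀) := (tensorMapLeft k φ B₀).toAlgebra
    exact IsBaseChange.linearMap (A ⊗[k] B₀) (K ⊗[k] B₀)
  · letI : Algebra (A ⊗[k] B₁) (K ⊗[k] B₁) := (tensorMapLeft k φ B₁).toAlgebra
    exact IsBaseChange.linearMap (A ⊗[k] B₁) (K ⊗[k] B₁)
  · letI : Algebra (A ⊗[k] B₀₁) (K ⊗[k] B₀₁) := (tensorMapLeft k φ B₀₁).toAlgebra
    exact IsBaseChange.linearMap (A ⊗[k] B₀₁) (K ⊗[k] B₀₁)

end Unit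

section Main

variable {x : B₀} {y : B₁} {e : B₁ →ₐ[k] k} {A : Type u} [CommRing A] [Algebra k A]

/-- Euler characteristic of a fibre = value of `eulerFun`. -/
theorem euler_eq_eulerFun (h : IsCurveChart k B₀ B₁ B₀₁ x y e) (G : CurveGD k B₀ B₁ B₀₁ A)
    (m : ℕ) (hsurj : Function.Surjective ((H250.chartCechOps h G).d m))
    (K : Type u) [Field K] [Algebra k K] (φ : A →ₐ[k] K) (G' : CurveGD k B₀ B₁ B₀₁ K)
    (hBC : CurveGD.IsBC φ G G') :
    Module.Finite K G'.H0 ∧ Module.Finite K G'.H1 ∧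
      G'.euler = eulerFun (H250.chartCechOps h G) m
        (PrimeSpectrum.comap φ.toRingHom ⟨⊥, Ideal.isPrime_bot⟩) := by
  letI : Algebra A K := φ.toRingHom.toAlgebra
  haveI : IsScalarTower k A K := IsScalarTower.of_algebraMap_eq fun r => (φ.commutes r).symm
  have hφ : ∀ a, φ a = algebraMap A K a := fun a => rfl
  obtain ⟨hf1, hf2, heul⟩ := euler_field (H250.chartCechOps h G) (H250.isFGProj_X0 h G)
    (H250.isFGProj_Y1 h G) (H250.r0_injective h G) (H250.r1_injective h G) m hsurj K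
  rw [H250.chartCechOps_d_zero] at hf1 hf2 heul
  obtain ⟨⟨e1⟩, ⟨e2⟩⟩ := nonempty_H0_H1_equiv φ hφ G G' hBC
  refine ⟨Module.Finite.equiv e1, Module.Finite.equiv e2, ?_⟩
  rw [GlueDatum.euler, ← e1.finrank_eq, ← e2.finrank_eq]
  exact heul

/-- **D1 + D2 + D9 (frozen language).** -/
theorem exists_degree_locallyConstant (h : IsCurveChart k B₀ B₁ B₀₁ x y e)
    (G : CurveGD k B₀ B₁ B₀₁ A) :
    ∃ f : PrimeSpectrum A → ℤ, IsLocallyConstant f ∧
      ∀ (K : Type u) [Field K] [Algebra k K] (φ : A →ₐ[k] K) (G' : CurveGD k B₀ B₁ B₀₁ K),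
        CurveGD.IsBC φ G G' →
          Module.Finite K G'.H0 ∧ Module.Finite K G'.H1 ∧
            G'.degree = f (PrimeSpectrum.comap φ.toRingHom ⟨⊥, Ideal.isPrime_bot⟩) := by
  let U : CurveGD k B₀ B₁ B₀₁ A := GlueDatum.unit A (A ⊗[k] B₀) (A ⊗[k] B₁) (A ⊗[k] B₀₁)
  obtain ⟨m1, hm1⟩ := H550.exists_forall_d_surjective (H250.chartCechOps h G)
    (H130.isFG_of_isFGProj (H250.isFGProj_X0 h G))
  obtain ⟨m2, hm2⟩ := H550.exists_forall_d_surjective (H250.chartCechOps h U)
    (H130.isFG_of_isFGProj (H250.isFGProj_X0 h U))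
  have hs1 := hm1 (max m1 m2) (le_max_left _ _)
  have hs2 := hm2 (max m1 m2) (le_max_right _ _)
  have hl1 := isLocallyConstant_eulerFun (H250.chartCechOps h G) (H250.isFGProj_X0 h G)
    (H250.isFGProj_Y1 h G) (H250.r0_injective h G) (H250.r1_injective h G) _ hs1
  have hl2 := isLocallyConstant_eulerFun (H250.chartCechOps h U) (H250.isFGProj_X0 h U)
    (H250.isFGProj_Y1 h U) (H250.r0_injective h U) (H250.r1_injective h U) _ hs2
  refine ⟨fun q => eulerFun (H250.chartCechOps h G) (max m1 m2) q -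
    eulerFun (H250.chartCechOps h U) (max m1 m2) q, ?_, ?_⟩
  · intro s
    exact (hl1.prodMk hl2) ((fun pq : ℤ × ℤ => pq.1 - pq.2) ⁻¹' s)
  · intro K _ _ φ G' hBC
    obtain ⟨hf1, hf2, he1⟩ := euler_eq_eulerFun h G _ hs1 K φ G' hBC
    obtain ⟨-, -, he2⟩ := euler_eq_eulerFun h U _ hs2 K φ _ (isBC_unit φ)
    refine ⟨hf1, hf2, ?_⟩
    rw [GlueDatum.degree, he1, he2]

/-- The degree function of a gluing datum over `A`: a locally constant function on `Spec A`
whose value at `ker φ` is the degree of the fibre along `φ : A → K`. -/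
noncomputable def degFun (h : IsCurveChart k B₀ B₁ B₀₁ x y e) (G : CurveGD k B₀ B₁ B₀₁ A) :
    PrimeSpectrum A → ℤ :=
  Classical.choose (exists_degree_locallyConstant h G)

theorem isLocallyConstant_degFun (h : IsCurveChart k B₀ B₁ B₀₁ x y e)
    (G : CurveGD k B₀ B₁ B₀₁ A) : IsLocallyConstant (degFun h G) :=
  (Classical.choose_spec (exists_degree_locallyConstant h G)).1

theorem degree_eq_degFun (h : IsCurveChart k B₀ B₁ B₀₁ x y e) (G : CurveGD k B₀ B₁ B₀₁ A)
    (K : Type u) [Field K] [Algebra k K] (φ : A →ₐ[k] K) (G' : CurveGD k B₀ B₁ B₀₁ K)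
    (hBC : CurveGD.IsBC φ G G') :
    G'.degree = degFun h G (PrimeSpectrum.comap φ.toRingHom ⟨⊥, Ideal.isPrime_bot⟩) :=
  ((Classical.choose_spec (exists_degree_locallyConstant h G)).2 K φ G' hBC).2.2

/-- **D1.** Cohomology of a fibre is finite-dimensional. -/
theorem finite_H0_H1_of_isBC (h : IsCurveChart k B₀ B₁ B₀₁ x y e) (G : CurveGD k B₀ B₁ B₀₁ A)
    (K : Type u) [Field K] [Algebra k K] (φ : A →ₐ[k] K) (G' : CurveGD k B₀ B₁ B₀₁ K)
    (hBC : CurveGD.IsBC φ G G') : Module.Finite K G'.H0 ∧ Module.Finite K G'.H1 :=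
  ⟨((Classical.choose_spec (exists_degree_locallyConstant h G)).2 K φ G' hBC).1,
    ((Classical.choose_spec (exists_degree_locallyConstant h G)).2 K φ G' hBC).2.1⟩

/-- **D2 (general form).** Two fibres over the same prime of `Spec A` have the same degree. -/
theorem degree_eq_of_comap_eq (h : IsCurveChart k B₀ B₁ B₀₁ x y e) (G : CurveGD k B₀ B₁ B₀₁ A)
    (K : Type u) [Field K] [Algebra k K] (φ : A →ₐ[k] K) (G' : CurveGD k B₀ B₁ B₀₁ K)
    (hBC : CurveGD.IsBC φ G G')
    (K₂ : Type u) [Field K₂] [Algebra k K₂] (φ₂ : A →ₐ[k] K₂) (G₂ : CurveGD k B₀ B₁ B₀₁ K₂)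
    (hBC₂ : CurveGD.IsBC φ₂ G G₂)
    (hker : RingHom.ker φ.toRingHom = RingHom.ker φ₂.toRingHom) :
    G'.degree = G₂.degree := by
  rw [degree_eq_degFun h G K φ G' hBC, degree_eq_degFun h G K₂ φ₂ G₂ hBC₂]
  congr 1
  apply PrimeSpectrum.ext
  show Ideal.comap φ.toRingHom ⊥ = Ideal.comap φ₂.toRingHom ⊥
  rw [← RingHom.ker_eq_comap_bot, ← RingHom.ker_eq_comap_bot, hker]

/-- **D9 (connected base).** If `Spec A` is connected (e.g. `A` is a domain), all fibres have
the same degree. -/
theorem degree_eq_of_preconnectedSpace [PreconnectedSpace (PrimeSpectrum A)]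
    (h : IsCurveChart k B₀ B₁ B₀₁ x y e) (G : CurveGD k B₀ B₁ B₀₁ A)
    (K : Type u) [Field K] [Algebra k K] (φ : A →ₐ[k] K) (G' : CurveGD k B₀ B₁ B₀₁ K)
    (hBC : CurveGD.IsBC φ G G')
    (K₂ : Type u) [Field K₂] [Algebra k K₂] (φ₂ : A →ₐ[k] K₂) (G₂ : CurveGD k B₀ B₁ B₀₁ K₂)
    (hBC₂ : CurveGD.IsBC φ₂ G G₂) :
    G'.degree = G₂.degree := by
  rw [degree_eq_degFun h G K φ G' hBC, degree_eq_degFun h G K₂ φ₂ G₂ hBC₂]
  exact (isLocallyConstant_degFun h G).apply_eq_of_preconnectedSpace _ _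

/-- **D9 (domain).** Over a domain all fibres have the same degree. -/
theorem degree_eq_of_isDomain [IsDomain A]
    (h : IsCurveChart k B₀ B₁ B₀₁ x y e) (G : CurveGD k B₀ B₁ B₀₁ A)
    (K : Type u) [Field K] [Algebra k K] (φ : A →ₐ[k] K) (G' : CurveGD k B₀ B₁ B₀₁ K)
    (hBC : CurveGD.IsBC φ G G')
    (K₂ : Type u) [Field K₂] [Algebra k K₂] (φ₂ : A →ₐ[k] K₂) (G₂ : CurveGD k B₀ B₁ B₀₁ K₂)
    (hBC₂ : CurveGD.IsBC φ₂ G G₂) :
    G'.degree = G₂.degree :=
  degree_eq_of_preconnectedSpace h G K φ G' hBC K₂ φ₂ G₂ hBC₂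

/-- **D9 (openness).** The degree-zero locus is open and closed in `Spec A`. -/
theorem isClopen_degFun_eq_zero (h : IsCurveChart k B₀ B₁ B₀₁ x y e)
    (G : CurveGD k B₀ B₁ B₀₁ A) : IsClopen {q : PrimeSpectrum A | degFun h G q = 0} :=
  (isLocallyConstant_degFun h G).isClopen_fiber 0

/-- `Deg0` from the degree function. -/
theorem deg0_of_degFun_eq_zero (h : IsCurveChart k B₀ B₁ B₀₁ x y e)
    (G : CurveGD k B₀ B₁ B₀₁ A) (hf : ∀ q, degFun h G q = 0) : G.Deg0 := by
  intro K _ _ φ G' hBC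
  rw [degree_eq_degFun h G K φ G' hBC, hf]

end Main

end Fermat.Agent.S25.H910

end
-- ===== PACK-END S25/H910/DegreeLC.lean

-- ===== PACK-BEGIN S25/H671/ACStage3.lean
section




/-!
# S25 / ALGCHARTS, leaf ST3 (helper671): assembly of `stage3_locus`

`stage3_locus_of` proves the conclusion of the leaf `H11.Leaf.Stage3` for a gluing datum `G` from

* `hst2`  : the conclusion of `H11.Leaf.Stage2` for `G` (only used to know that `P2` is stable
  under base change),
* `hinv`  : `ptIdeal q A'` is an invertible module (SH2),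
* `hcore` : CORE, the divisor `D' = div s - Σq` of a generator is a point of `Hilb^g`:
  `∃ s I', IsGen s ∧ IsHilb g I' ∧ span {s.1} = (I' * ptIdeal q A) • ⊤`.

The locus is `J := H491.chartIdeal β I'`.
-/

set_option autoImplicit false
set_option linter.unusedSectionVars false
set_option linter.style.haveILetI false

universe u

open scoped TensorProduct

namespace Fermat.Agent.S25.H671

open Fermat.Agent.S25 Fermat.Agent.S25.H11

variable {k : Type u} [Field k]
  {B₀ B₁ B₀₁ : Type u} [CommRing B₀] [CommRing B₁] [CommRing B₀₁]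
  [Algebra k B₀] [Algebra k B₁] [Algebra k B₀₁] [Algebra B₀ B₀₁] [Algebra B₁ B₀₁]
  [IsScalarTower k B₀ B₀₁] [IsScalarTower k B₁ B₀₁]
  {x : B₀} {y : B₁} {e : B₁ →ₐ[k] k}
  {A : Type u} [CommRing A] [Algebra k A]

/-- If a property of gluing data has a locus (in the sense of the stage lemmas) and holds for
`G`, then it holds for every base change of `G`. -/
theorem stable_of_locus {P : ∀ (A' : Type u) [CommRing A'] [Algebra k A'],
      CurveGD k B₀ B₁ B₀₁ A' → Prop} (G : CurveGD k B₀ B₁ B₀₁ A) (hG : P A G)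
    (hloc : ∃ J : Ideal A, ∀ (A' : Type u) [CommRing A'] [Algebra k A'] (ψ : A →ₐ[k] A')
      (G' : CurveGD k B₀ B₁ B₀₁ A'), CurveGD.IsBC ψ G G' → (P A' G' ↔ J.map ψ.toRingHom = ⊤))
    (A' : Type u) [CommRing A'] [Algebra k A'] (ψ : A →ₐ[k] A')
    (G' : CurveGD k B₀ B₁ B₀₁ A') (hbc : CurveGD.IsBC ψ G G') : P A' G' := by
  obtain ⟨J, hJ⟩ := hloc
  have h1 : J.map (AlgHom.id k A).toRingHom = ⊤ :=
    (hJ A (AlgHom.id k A) G (H265.curveGD_isBC_id G)).1 hG
  have h2 : J = ⊤ := by
    have : J.map (AlgHom.id k A).toRingHom = J := Ideal.map_id J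
    rw [← this, h1]
  rw [hJ A' ψ G' hbc, h2, Ideal.map_top]

/-- **ST3, assembly.**  The locus of `P3` for a gluing datum `G` with `P2`, given CORE. -/
theorem stage3_locus_of (hC : IsCurveChart k B₀ B₁ B₀₁ x y e) (i : ChartIndex k B₀)
    (G : CurveGD k B₀ B₁ B₀₁ A)
    (hP2 : ∀ (A' : Type u) [CommRing A'] [Algebra k A'] (ψ : A →ₐ[k] A')
      (G' : CurveGD k B₀ B₁ B₀₁ A'), CurveGD.IsBC ψ G G' → P2 x y i.n i.q G')
    (hinv : ∀ (A' : Type u) [CommRing A'] [Algebra k A'],
      Module.Invertible (A' ⊗[k] B₀) (ptIdeal i.q A'))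
    (hcore : ∃ (s : G.N₀ × G.N₁) (I' : Ideal (A ⊗[k] B₀)), IsGen x y i.n i.q G s ∧
      H491.IsHilb i.g I' ∧ Submodule.span (A ⊗[k] B₀) {s.1} =
        (I' * ptIdeal i.q A) • (⊤ : Submodule (A ⊗[k] B₀) G.N₀)) :
    ∃ J : Ideal A, ∀ (A' : Type u) [CommRing A'] [Algebra k A'] (ψ : A →ₐ[k] A')
      (G' : CurveGD k B₀ B₁ B₀₁ A'), CurveGD.IsBC ψ G G' →
        (P3 x y i.n i.q i.β G' ↔ J.map ψ.toRingHom = ⊤) := by
  obtain ⟨s, I', hs, hI', hspan⟩ := hcore
  refine ⟨H491.chartIdeal i.β I', ?_⟩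
  intro A' _ _ ψ G' hbc
  obtain ⟨bm⟩ := hbc
  obtain ⟨hP1', s'', hs''⟩ := hP2 A' ψ G' ⟨bm⟩
  have hs' : IsGen x y i.n i.q G' (bcPair bm s) := isGen_bcPair hC bm hs hs''
  have hspan' := span_fst_bcPair bm hspan
  have hchart : H491.IsChart i.β (I'.map (tensorMapLeft k ψ B₀)) ↔
      (H491.chartIdeal i.β I').map ψ.toRingHom = ⊤ :=
    H491.isChart_map_iff i.β hI' ψ
  rw [← hchart]
  constructor
  · rintro ⟨-, t, ht, I₃, hI₃, hspan₃⟩
    have h1 : Submodule.span (A' ⊗[k] B₀) {(bcPair bm s).1} =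
        Submodule.span (A' ⊗[k] B₀) {t.1} := isGen_span_fst_eq hC ht hs'
    rw [hspan', hspan₃] at h1
    haveI : Module.Invertible (A' ⊗[k] B₀) G'.N₀ := G'.invertible₀
    haveI : Module.Invertible (A' ⊗[k] B₀) (ptIdeal i.q A') := hinv A'
    have h2 := ideal_eq_of_mul_eq_mul (ideal_eq_of_smul_top_eq h1)
    rw [h2]
    exact hI₃
  · intro h
    exact ⟨hP1', bcPair bm s, hs', _, h, hspan'⟩

/-- **ST3 from ST2 + SH2 + CORE**, in the shape of the leaf `H11.Leaf.Stage3`. -/
theorem stage3_of_stage2_of_core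
    (hst2 : H11.Leaf.Stage2 k B₀ B₁ B₀₁)
    (hinv : ∀ (x : B₀) (y : B₁) (e : B₁ →ₐ[k] k), IsCurveChart k B₀ B₁ B₀₁ x y e →
      ∀ {m : ℕ} (q : Fin m → (B₀ →ₐ[k] k)) (A' : Type u) [CommRing A'] [Algebra k A'],
        Module.Invertible (A' ⊗[k] B₀) (ptIdeal q A'))
    (hcore : ∀ (x : B₀) (y : B₁) (e : B₁ →ₐ[k] k), IsCurveChart k B₀ B₁ B₀₁ x y e →
      ∀ (i : ChartIndex k B₀), i.Numeric B₀₁ y →
      ∀ (A : Type u) [CommRing A] [Algebra k A] (G : CurveGD k B₀ B₁ B₀₁ A),
        G.Rigidifiable e → G.Deg0 → P2 x y i.n i.q G →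
        ∃ (s : G.N₀ × G.N₁) (I' : Ideal (A ⊗[k] B₀)), IsGen x y i.n i.q G s ∧
          H491.IsHilb i.g I' ∧ Submodule.span (A ⊗[k] B₀) {s.1} =
            (I' * ptIdeal i.q A) • (⊤ : Submodule (A ⊗[k] B₀) G.N₀)) :
    H11.Leaf.Stage3 k B₀ B₁ B₀₁ := by
  intro x y e hC i hnum A _ _ G hrig hdeg h2
  refine stage3_locus_of hC i G ?_ (fun A' _ _ => hinv x y e hC i.q A')
    (hcore x y e hC i hnum A G hrig hdeg h2)
  intro A' _ _ ψ G' hbc
  exact stable_of_locus (P := fun A' _ _ G' => P2 x y i.n i.q G') G h2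
    (hst2 x y e hC i hnum A G hrig hdeg h2.1) A' ψ G' hbc

end Fermat.Agent.S25.H671

end
-- ===== PACK-END S25/H671/ACStage3.lean

-- ===== PACK-BEGIN S25/H190/ACDeg3.lean
section
/-
S25, block ALGCHARTS, leaf DEG3 (helper190): `exists_P0`, EXACT statement of helper11's skeleton
(`coord/S25-ALGCHARTS-skeleton.lean`), plus the dictionary between helper11's `tcech`/`sec`
(`H11/ACDefs.lean`) and helper10's twists `twistE` (`H10/DegreeDefs.lean`) and the operator-style
differentials `(chartCechOps hC G).d n` (`H250`).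
-/



set_option autoImplicit false

universe u

open scoped TensorProduct

namespace Fermat.Agent.S25.H190

open Fermat.Agent.S25 Fermat.Agent.S25.H10 Fermat.Agent.S25.H11

variable {k : Type u} [Field k]
  {B₀ B₁ B₀₁ : Type u} [CommRing B₀] [CommRing B₁] [CommRing B₀₁]
  [Algebra k B₀] [Algebra k B₁] [Algebra k B₀₁] [Algebra B₀ B₀₁] [Algebra B₁ B₀₁]
  [IsScalarTower k B₀ B₀₁] [IsScalarTower k B₁ B₀₁]
  {x : B₀} {y : B₁} {e : B₁ →ₐ[k] k}

section Dict

variable {A : Type u} [CommRing A] [Algebra k A]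

/-- helper11's twisted differential is the operator-style twisted differential. -/
theorem tcech_eq_d (hC : IsCurveChart k B₀ B₁ B₀₁ x y e) (n : ℕ) (G : CurveGD k B₀ B₁ B₀₁ A) :
    tcech x n G = (H250.chartCechOps hC G).d n := by
  haveI := hC.away₀
  haveI := hC.away₁
  apply LinearMap.ext
  rintro ⟨a, b⟩
  rw [tcech_apply, CechOps.d_apply]
  show G.r₀ a - xElt k B₀₁ A x ^ n • G.r₁ b =
    G.r₀ a - ((H250.toCechOps x y hC.mul_eq_one G).T ^ n) (G.r₁ b)
  rw [H250.toCechOps_T_pow_apply]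
  rfl

/-- helper11's twisted differential is the Čech differential of helper10's twist `G(n)`. -/
theorem tcech_eq_twistE_cech (hC : IsCurveChart k B₀ B₁ B₀₁ x y e) (n : ℕ)
    (G : CurveGD k B₀ B₁ B₀₁ A) :
    tcech x n G = (twistE x y hC.mul_eq_one G (n : ℤ)).cech := by
  rw [tcech_eq_d hC n G, H250.chartCechOps_twistE_cech hC G n]

/-- `sec x n G = Ȟ⁰(G(n))`. -/
theorem sec_eq_twistE_H0 (hC : IsCurveChart k B₀ B₁ B₀₁ x y e) (n : ℕ)
    (G : CurveGD k B₀ B₁ B₀₁ A) :
    sec x n G = (twistE x y hC.mul_eq_one G (n : ℤ)).H0 :=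
  congrArg LinearMap.ker (tcech_eq_twistE_cech hC n G)

/-- `sec x n G = Ȟ⁰` of the operator-style datum, twisted `n` times. -/
theorem sec_eq_H0 (hC : IsCurveChart k B₀ B₁ B₀₁ x y e) (n : ℕ) (G : CurveGD k B₀ B₁ B₀₁ A) :
    sec x n G = (H250.chartCechOps hC G).H0 n :=
  congrArg LinearMap.ker (tcech_eq_d hC n G)

/-- DEG3 over an arbitrary base ring: large twists kill `Ȟ¹`. -/
theorem exists_P0_ring (hC : IsCurveChart k B₀ B₁ B₀₁ x y e) (G : CurveGD k B₀ B₁ B₀₁ A) :
    ∃ n₀ : ℕ, ∀ n, n₀ ≤ n → P0 x n G := by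
  obtain ⟨n₀, h⟩ := H250.exists_forall_twistE_cech_surjective hC G
  refine ⟨n₀, fun n hn => ?_⟩
  have h1 := h n hn
  rw [← tcech_eq_twistE_cech hC n G] at h1
  exact h1

end Dict

section Degree

variable [IsAlgClosed k] {K : Type u} [Field K] [Algebra k K]

/-- DEG3 (twisting kills `H¹`). -/
theorem exists_P0 (hC : IsCurveChart k B₀ B₁ B₀₁ x y e) (G : CurveGD k B₀ B₁ B₀₁ K) :
    ∃ n₀ : ℕ, ∀ n, n₀ ≤ n → P0 x n G :=
  exists_P0_ring hC G

end Degree

end Fermat.Agent.S25.H190

end
-- ===== PACK-END S25/H190/ACDeg3.lean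

-- ===== PACK-BEGIN S25/H325/GDCBC.lean
section
/-
S25 helper (helper325), block GDC item 7, part 5: tensor product, internal Hom, dual and unit
of gluing data are compatible with base change (`GlueDatum.IsBC`, `CurveGD.IsBC` of the frozen
`DefsAlg.lean`).  Pure algebra.
-/









set_option autoImplicit false
set_option linter.style.haveILetI false

universe u

open TensorProduct

namespace Fermat.Agent.S25.H325

open Fermat.Agent.S25

noncomputable section

section Ext

variable {R R' : Type u} [CommRing R] [CommRing R'] {ρ : R →+* R'}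
  {N N' : Type u} [AddCommGroup N] [Module R N] [AddCommGroup N'] [Module R' N']

/-- Two linear maps out of a semilinear base change agree as soon as they agree on the image
of the base change map. -/
theorem semilinear_ext {b : N →ₛₗ[ρ] N'} (hb : IsSemilinearBaseChange ρ b) {Q : Type*}
    [AddCommGroup Q] [Module R' Q] (g₁ g₂ : N' →ₗ[R'] Q) (h : ∀ n, g₁ (b n) = g₂ (b n)) :
    g₁ = g₂ := by
  letI : Algebra R R' := ρ.toAlgebra
  letI : Module R N' := Module.compHom N' ρ
  haveI : IsScalarTower R R' N' := ⟨fun r r' n => by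
    change (ρ r * r') • n = ρ r • (r' • n); rw [mul_smul]⟩
  have hb' : IsBaseChange R' (semiToLin ρ b) := hb
  exact hb'.algHom_ext g₁ g₂ h

end Ext

variable {A R₀ R₁ R₀₁ : Type u} [CommRing A] [CommRing R₀] [CommRing R₁]
    [CommRing R₀₁] [Algebra A R₀] [Algebra A R₁] [Algebra A R₀₁] [Algebra R₀ R₀₁]
    [Algebra R₁ R₀₁] [IsScalarTower A R₀ R₀₁] [IsScalarTower A R₁ R₀₁]
    {A' R₀' R₁' R₀₁' : Type u} [CommRing A'] [CommRing R₀'] [CommRing R₁']
    [CommRing R₀₁'] [Algebra A' R₀'] [Algebra A' R₁'] [Algebra A' R₀₁'] [Algebra R₀' R₀₁']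
    [Algebra R₁' R₀₁'] [IsScalarTower A' R₀' R₀₁'] [IsScalarTower A' R₁' R₀₁']
    {ρ₀ : R₀ →+* R₀'} {ρ₁ : R₁ →+* R₁'} {ρ₀₁ : R₀₁ →+* R₀₁'}

/-! ### Tensor product -/

/-- Base change maps for a tensor product of gluing data. -/
def bcTensor {G₁ G₂ : GlueDatum A R₀ R₁ R₀₁} {G₁' G₂' : GlueDatum A' R₀' R₁' R₀₁'}
    (B : GlueDatum.BaseChangeMaps ρ₀ ρ₁ ρ₀₁ G₁ G₁')
    (C : GlueDatum.BaseChangeMaps ρ₀ ρ₁ ρ₀₁ G₂ G₂') :
    GlueDatum.BaseChangeMaps ρ₀ ρ₁ ρ₀₁ (tensorGD G₁ G₂) (tensorGD G₁' G₂') where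
  b₀ := semiTensor ρ₀ B.b₀ C.b₀
  b₁ := semiTensor ρ₁ B.b₁ C.b₁
  b₀₁ := semiTensor ρ₀₁ B.b₀₁ C.b₀₁
  comm₀ s := by
    change semiTensor ρ₀₁ B.b₀₁ C.b₀₁ (tensorRes (S := R₀₁) G₁.r₀ G₂.r₀ s) =
      tensorRes (S := R₀₁') G₁'.r₀ G₂'.r₀ (semiTensor ρ₀ B.b₀ C.b₀ s)
    induction s using TensorProduct.induction_on with
    | zero => simp
    | tmul n m =>
      rw [tensorRes_tmul, semiTensor_tmul, semiTensor_tmul, tensorRes_tmul, B.comm₀, C.comm₀]
    | add x y hx hy => simp only [map_add, hx, hy]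
  comm₁ s := by
    change semiTensor ρ₀₁ B.b₀₁ C.b₀₁ (tensorRes (S := R₀₁) G₁.r₁ G₂.r₁ s) =
      tensorRes (S := R₀₁') G₁'.r₁ G₂'.r₁ (semiTensor ρ₁ B.b₁ C.b₁ s)
    induction s using TensorProduct.induction_on with
    | zero => simp
    | tmul n m =>
      rw [tensorRes_tmul, semiTensor_tmul, semiTensor_tmul, tensorRes_tmul, B.comm₁, C.comm₁]
    | add x y hx hy => simp only [map_add, hx, hy]
  isBaseChange₀ := isSemilinearBaseChange_semiTensor ρ₀ B.isBaseChange₀ C.isBaseChange₀
  isBaseChange₁ := isSemilinearBaseChange_semiTensor ρ₁ B.isBaseChange₁ C.isBaseChange₁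
  isBaseChange₀₁ := isSemilinearBaseChange_semiTensor ρ₀₁ B.isBaseChange₀₁ C.isBaseChange₀₁

/-- **Tensor products commute with base change.** -/
theorem isBC_tensorGD {G₁ G₂ : GlueDatum A R₀ R₁ R₀₁} {G₁' G₂' : GlueDatum A' R₀' R₁' R₀₁'}
    (h₁ : GlueDatum.IsBC ρ₀ ρ₁ ρ₀₁ G₁ G₁') (h₂ : GlueDatum.IsBC ρ₀ ρ₁ ρ₀₁ G₂ G₂') :
    GlueDatum.IsBC ρ₀ ρ₁ ρ₀₁ (tensorGD G₁ G₂) (tensorGD G₁' G₂') := by
  obtain ⟨B⟩ := h₁
  obtain ⟨C⟩ := h₂
  exact ⟨bcTensor B C⟩

/-! ### Internal Hom -/

/-- Base change maps for the internal Hom of gluing data. -/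
def bcHom {G₁ G₂ : GlueDatum A R₀ R₁ R₀₁} {G₁' G₂' : GlueDatum A' R₀' R₁' R₀₁'}
    (B : GlueDatum.BaseChangeMaps ρ₀ ρ₁ ρ₀₁ G₁ G₁')
    (C : GlueDatum.BaseChangeMaps ρ₀ ρ₁ ρ₀₁ G₂ G₂') :
    GlueDatum.BaseChangeMaps ρ₀ ρ₁ ρ₀₁ (homGD G₁ G₂) (homGD G₁' G₂') :=
  haveI := G₁.invertible₀
  haveI := G₁.invertible₁
  { b₀ := semiHom ρ₀ B.isBaseChange₀ C.b₀
    b₁ := semiHom ρ₁ B.isBaseChange₁ C.b₁
    b₀₁ := semiHom ρ₀₁ B.isBaseChange₀₁ C.b₀₁
    comm₀ := fun (f : G₁.N₀ →ₗ[R₀] G₂.N₀) => by
      change semiHom ρ₀₁ B.isBaseChange₀₁ C.b₀₁ (ext₀ G₁ G₂ f) =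
        ext₀ G₁' G₂' (semiHom ρ₀ B.isBaseChange₀ C.b₀ f)
      apply G₁'.isBaseChange₀.algHom_ext'
      apply semilinear_ext B.isBaseChange₀
      intro n
      simp only [LinearMap.comp_apply, LinearMap.coe_restrictScalars]
      rw [ext₀_apply, semiHom_apply, ← B.comm₀, semiHom_apply, ext₀_apply, C.comm₀]
    comm₁ := fun (f : G₁.N₁ →ₗ[R₁] G₂.N₁) => by
      change semiHom ρ₀₁ B.isBaseChange₀₁ C.b₀₁ (ext₁ G₁ G₂ f) =
        ext₁ G₁' G₂' (semiHom ρ₁ B.isBaseChange₁ C.b₁ f)
      apply G₁'.isBaseChange₁.algHom_ext'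
      apply semilinear_ext B.isBaseChange₁
      intro n
      simp only [LinearMap.comp_apply, LinearMap.coe_restrictScalars]
      rw [ext₁_apply, semiHom_apply, ← B.comm₁, semiHom_apply, ext₁_apply, C.comm₁]
    isBaseChange₀ := isSemilinearBaseChange_semiHom ρ₀ B.isBaseChange₀ C.isBaseChange₀
    isBaseChange₁ := isSemilinearBaseChange_semiHom ρ₁ B.isBaseChange₁ C.isBaseChange₁
    isBaseChange₀₁ :=
      haveI : Module.Invertible R₀₁ G₁.N₀₁ :=
        Module.Invertible.congr (G₁.isBaseChange₀.equiv)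
      isSemilinearBaseChange_semiHom ρ₀₁ B.isBaseChange₀₁ C.isBaseChange₀₁ }

/-- **The internal Hom commutes with base change.** -/
theorem isBC_homGD {G₁ G₂ : GlueDatum A R₀ R₁ R₀₁} {G₁' G₂' : GlueDatum A' R₀' R₁' R₀₁'}
    (h₁ : GlueDatum.IsBC ρ₀ ρ₁ ρ₀₁ G₁ G₁') (h₂ : GlueDatum.IsBC ρ₀ ρ₁ ρ₀₁ G₂ G₂') :
    GlueDatum.IsBC ρ₀ ρ₁ ρ₀₁ (homGD G₁ G₂) (homGD G₁' G₂') := by
  obtain ⟨B⟩ := h₁
  obtain ⟨C⟩ := h₂
  exact ⟨bcHom B C⟩

/-! ### Unit and dual -/

/-- Base change maps between the unit gluing data, for a morphism of cospans. -/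
def bcUnit (hc₀ : ∀ r, ρ₀₁ (algebraMap R₀ R₀₁ r) = algebraMap R₀' R₀₁' (ρ₀ r))
    (hc₁ : ∀ r, ρ₀₁ (algebraMap R₁ R₀₁ r) = algebraMap R₁' R₀₁' (ρ₁ r)) :
    GlueDatum.BaseChangeMaps ρ₀ ρ₁ ρ₀₁ (GlueDatum.unit A R₀ R₁ R₀₁)
      (GlueDatum.unit A' R₀' R₁' R₀₁') where
  b₀ := ρ₀.toSemilinearMap
  b₁ := ρ₁.toSemilinearMap
  b₀₁ := ρ₀₁.toSemilinearMap
  comm₀ := hc₀
  comm₁ := hc₁
  isBaseChange₀ := isSemilinearBaseChange_ringHom ρ₀
  isBaseChange₁ := isSemilinearBaseChange_ringHom ρ₁
  isBaseChange₀₁ := isSemilinearBaseChange_ringHom ρ₀₁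

theorem isBC_unit (hc₀ : ∀ r, ρ₀₁ (algebraMap R₀ R₀₁ r) = algebraMap R₀' R₀₁' (ρ₀ r))
    (hc₁ : ∀ r, ρ₀₁ (algebraMap R₁ R₀₁ r) = algebraMap R₁' R₀₁' (ρ₁ r)) :
    GlueDatum.IsBC ρ₀ ρ₁ ρ₀₁ (GlueDatum.unit A R₀ R₁ R₀₁) (GlueDatum.unit A' R₀' R₁' R₀₁') :=
  ⟨bcUnit hc₀ hc₁⟩

/-- **The dual commutes with base change.** -/
theorem isBC_dualGD (hc₀ : ∀ r, ρ₀₁ (algebraMap R₀ R₀₁ r) = algebraMap R₀' R₀₁' (ρ₀ r))
    (hc₁ : ∀ r, ρ₀₁ (algebraMap R₁ R₀₁ r) = algebraMap R₁' R₀₁' (ρ₁ r))
    {G : GlueDatum A R₀ R₁ R₀₁} {G' : GlueDatum A' R₀' R₁' R₀₁'}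
    (h : GlueDatum.IsBC ρ₀ ρ₁ ρ₀₁ G G') :
    GlueDatum.IsBC ρ₀ ρ₁ ρ₀₁ (dualGD G) (dualGD G') :=
  isBC_homGD h (isBC_unit hc₀ hc₁)

/-! ### Curve gluing data -/

section Curve

variable {k : Type u} [Field k] {B₀ B₁ B₀₁ : Type u} [CommRing B₀] [CommRing B₁] [CommRing B₀₁]
  [Algebra k B₀] [Algebra k B₁] [Algebra k B₀₁] [Algebra B₀ B₀₁] [Algebra B₁ B₀₁]
  [IsScalarTower k B₀ B₀₁] [IsScalarTower k B₁ B₀₁]
  {A A' : Type u} [CommRing A] [Algebra k A] [CommRing A'] [Algebra k A']

/-- `tensorMapLeft` is a morphism of cospans. -/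
theorem tensorMapLeft_algebraMap (φ : A →ₐ[k] A') (B B' : Type u) [CommRing B] [CommRing B']
    [Algebra k B] [Algebra k B'] [Algebra B B'] [IsScalarTower k B B'] (r : A ⊗[k] B) :
    tensorMapLeft k φ B' (algebraMap (A ⊗[k] B) (A ⊗[k] B') r) =
      algebraMap (A' ⊗[k] B) (A' ⊗[k] B') (tensorMapLeft k φ B r) := by
  change tensorMapLeft k φ B' (tensorMapRight k A B B' r) =
    tensorMapRight k A' B B' (tensorMapLeft k φ B r)
  induction r using TensorProduct.induction_on with
  | zero => simp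
  | tmul a b => simp [tensorMapLeft, tensorMapRight]
  | add x y hx hy => simp only [map_add, hx, hy]

theorem curveGD_isBC_unit (φ : A →ₐ[k] A') :
    CurveGD.IsBC (B₀ := B₀) (B₁ := B₁) (B₀₁ := B₀₁) φ
      (GlueDatum.unit A (A ⊗[k] B₀) (A ⊗[k] B₁) (A ⊗[k] B₀₁))
      (GlueDatum.unit A' (A' ⊗[k] B₀) (A' ⊗[k] B₁) (A' ⊗[k] B₀₁)) :=
  isBC_unit (tensorMapLeft_algebraMap φ B₀ B₀₁) (tensorMapLeft_algebraMap φ B₁ B₀₁)

theorem curveGD_isBC_tensorGD (φ : A →ₐ[k] A') {G₁ G₂ : CurveGD k B₀ B₁ B₀₁ A}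
    {G₁' G₂' : CurveGD k B₀ B₁ B₀₁ A'} (h₁ : CurveGD.IsBC φ G₁ G₁')
    (h₂ : CurveGD.IsBC φ G₂ G₂') : CurveGD.IsBC φ (tensorGD G₁ G₂) (tensorGD G₁' G₂') :=
  isBC_tensorGD h₁ h₂

theorem curveGD_isBC_homGD (φ : A →ₐ[k] A') {G₁ G₂ : CurveGD k B₀ B₁ B₀₁ A}
    {G₁' G₂' : CurveGD k B₀ B₁ B₀₁ A'} (h₁ : CurveGD.IsBC φ G₁ G₁')
    (h₂ : CurveGD.IsBC φ G₂ G₂') : CurveGD.IsBC φ (homGD G₁ G₂) (homGD G₁' G₂') :=
  isBC_homGD h₁ h₂

theorem curveGD_isBC_dualGD (φ : A →ₐ[k] A') {G : CurveGD k B₀ B₁ B₀₁ A}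
    {G' : CurveGD k B₀ B₁ B₀₁ A'} (h : CurveGD.IsBC φ G G') :
    CurveGD.IsBC φ (dualGD G) (dualGD G') :=
  isBC_dualGD (tensorMapLeft_algebraMap φ B₀ B₀₁) (tensorMapLeft_algebraMap φ B₁ B₀₁) h

end Curve

end

end Fermat.Agent.S25.H325

end
-- ===== PACK-END S25/H325/GDCBC.lean

-- ===== PACK-BEGIN S25/H851/ACIso.lean
section





/-!
# S25 / ALGCHARTS, leaf PT-ISO (helper851)

`pointCond_iso` (the skeleton statement, verbatim): two gluing data which are points of the same
chart with the same Hilbert coordinates are isomorphic.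

More generally (`curveGD_isIso_of_sections`): two gluing data `G`, `G'` on `C_A` with sections
`s`, `s'` of the `n`-th twist, generating modulo `y`, with the same divisor
`span {s.1} = J • ⊤`, `span {s'.1} = J • ⊤` on the first chart, where `J` contains a
nonzerodivisor, are isomorphic.  A monic polynomial in `1 ⊗ x` is a nonzerodivisor
(`aeval_monic_mem_nonZeroDivisors`), and the ideal `univIdeal · I_q` of a chart contains one
(`exists_nonZeroDivisor_mem_chart`).
-/

set_option autoImplicit false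
set_option linter.style.haveILetI false
set_option linter.unusedSectionVars false
set_option linter.unusedVariables false

universe u

open scoped TensorProduct
open Polynomial

namespace Fermat.Agent.S25.H851

open Fermat.Agent.S25 Fermat.Agent.S25.H11

section General

variable {k : Type u} [Field k]
  {B₀ B₁ B₀₁ : Type u} [CommRing B₀] [CommRing B₁] [CommRing B₀₁]
  [Algebra k B₀] [Algebra k B₁] [Algebra k B₀₁] [Algebra B₀ B₀₁] [Algebra B₁ B₀₁]
  [IsScalarTower k B₀ B₀₁] [IsScalarTower k B₁ B₀₁]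
  {x : B₀} {y : B₁} {e : B₁ →ₐ[k] k}
  {A : Type u} [CommRing A] [Algebra k A]

/-- A monic polynomial in `1 ⊗ x` is a nonzerodivisor of `A ⊗ B₀`. -/
theorem aeval_monic_mem_nonZeroDivisors (hC : IsCurveChart k B₀ B₁ B₀₁ x y e) {P : A[X]}
    (hP : P.Monic) :
    Polynomial.aeval ((1 : A) ⊗ₜ[k] x : A ⊗[k] B₀) P ∈ nonZeroDivisors (A ⊗[k] B₀) := by
  haveI := hC.isDomain₀
  obtain ⟨n, φ, hφ⟩ := H250.exists_equivariant_equiv (H250.aeval_x_injective hC) hC.finite₀
  obtain ⟨Φ, hΦ⟩ := H250.exists_equivariant_equiv_tensor φ hφ A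
  have hpow : ∀ (j : ℕ) (z : A ⊗[k] B₀),
      Φ (((1 : A) ⊗ₜ[k] x) ^ j * z) = (X : A[X]) ^ j • Φ z := by
    intro j
    induction j with
    | zero => intro z; simp
    | succ j ih =>
      intro z
      rw [pow_succ, mul_assoc, ih, hΦ, pow_succ, mul_smul]
  have key : ∀ (Q : A[X]) (z : A ⊗[k] B₀),
      Φ (Polynomial.aeval ((1 : A) ⊗ₜ[k] x : A ⊗[k] B₀) Q * z) = Q • Φ z := by
    intro Q
    induction Q using Polynomial.induction_on' with
    | add p q hp hq =>
      intro z
      rw [map_add, add_mul, map_add, hp, hq, add_smul]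
    | monomial j a =>
      intro z
      have haev : Polynomial.aeval ((1 : A) ⊗ₜ[k] x : A ⊗[k] B₀) (monomial j a) =
          algebraMap A (A ⊗[k] B₀) a * ((1 : A) ⊗ₜ[k] x) ^ j := by
        rw [← Polynomial.C_mul_X_pow_eq_monomial]
        simp
      rw [haev, mul_assoc, ← Algebra.smul_def, map_smul, hpow, ← Polynomial.C_mul_X_pow_eq_monomial,
        mul_smul]
      ext i : 1
      simp only [Pi.smul_apply, smul_eq_mul]
      rw [Polynomial.smul_eq_C_mul]
  rw [mem_nonZeroDivisors_iff_right]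
  intro z hz
  have h1 : P • Φ z = 0 := by rw [← key, mul_comm, hz, map_zero]
  have h2 : Φ z = 0 := by
    funext i
    have := congrFun h1 i
    simp only [Pi.smul_apply, smul_eq_mul, Pi.zero_apply] at this
    exact hP.mul_right_eq_zero_iff.1 this
  exact Φ.map_eq_zero_iff.1 h2

/-- The ideal of the points `q` contains a monic polynomial in `1 ⊗ x`. -/
theorem exists_monic_aeval_mem_ptIdeal {m : ℕ} (q : Fin m → (B₀ →ₐ[k] k)) :
    ∃ P : A[X], P.Monic ∧ Polynomial.aeval ((1 : A) ⊗ₜ[k] x : A ⊗[k] B₀) P ∈ ptIdeal q A := by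
  refine ⟨∏ i, (X - C (algebraMap k A (q i x))), Polynomial.monic_prod_of_monic _ _
    (fun i _ => Polynomial.monic_X_sub_C _), ?_⟩
  rw [map_prod]
  apply Ideal.prod_mem_prod
  intro i _
  rw [RingHom.mem_ker, map_sub, Polynomial.aeval_X, Polynomial.aeval_C, map_sub, ptHom_tmul,
    AlgHom.commutes, one_mul]
  exact sub_self _

/-- The ideal `univIdeal · I_q` of a chart contains a nonzerodivisor. -/
theorem exists_nonZeroDivisor_mem_chart (hC : IsCurveChart k B₀ B₁ B₀₁ x y e) {g m : ℕ}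
    (β : Fin g → B₀) (q : Fin m → (B₀ →ₐ[k] k)) (φ₀ : H491.Rβ k β →ₐ[k] A) :
    ∃ t ∈ (H491.univIdeal (k := k) β).map (H491.bc B₀ φ₀) * ptIdeal q A,
      t ∈ nonZeroDivisors (A ⊗[k] B₀) := by
  have hch : H491.IsChart β ((H491.univIdeal (k := k) β).map (H491.bc B₀ φ₀)) :=
    (H491.isChart_univIdeal β).map φ₀
  haveI := hch.isHilb.finite
  obtain ⟨P₁, hP₁, hP₁mem⟩ := exists_monic_aeval_mem (A := A)
    ((H491.univIdeal (k := k) β).map (H491.bc B₀ φ₀)) ((1 : A) ⊗ₜ[k] x)
  obtain ⟨P₂, hP₂, hP₂mem⟩ := exists_monic_aeval_mem_ptIdeal (A := A) (x := x) q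
  refine ⟨Polynomial.aeval ((1 : A) ⊗ₜ[k] x : A ⊗[k] B₀) (P₁ * P₂), ?_,
    aeval_monic_mem_nonZeroDivisors hC (hP₁.mul hP₂)⟩
  rw [map_mul]
  exact Ideal.mul_mem_mul hP₁mem hP₂mem

/-- **PT-ISO, general form.** Two gluing data on `C_A` with sections of the `n`-th twist which
generate modulo `y` and have the same divisor `J` on the first chart are isomorphic. -/
theorem curveGD_isIso_of_sections (hC : IsCurveChart k B₀ B₁ B₀₁ x y e) (n : ℕ)
    (J : Ideal (A ⊗[k] B₀)) {t : A ⊗[k] B₀} (ht : t ∈ J)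
    (htr : t ∈ nonZeroDivisors (A ⊗[k] B₀)) {G G' : CurveGD k B₀ B₁ B₀₁ A}
    (s : G.N₀ × G.N₁) (s' : G'.N₀ × G'.N₁) (hs : s ∈ sec x n G) (hs' : s' ∈ sec x n G')
    (hgen : GenModY y G s.2) (hgen' : GenModY y G' s'.2)
    (hspan : Submodule.span (A ⊗[k] B₀) {s.1} = J • (⊤ : Submodule (A ⊗[k] B₀) G.N₀))
    (hspan' : Submodule.span (A ⊗[k] B₀) {s'.1} = J • (⊤ : Submodule (A ⊗[k] B₀) G'.N₀)) :
    G.IsIso G' := by
  haveI := away_tensor₀ A hC
  haveI := away_tensor₁ A hC
  have hx : algebraMap (A ⊗[k] B₀) (A ⊗[k] B₀₁) ((1 : A) ⊗ₜ[k] x) = xElt k B₀₁ A x :=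
    H250.algebraMap_tensor_tmul A B₀ B₀₁ (1 : A) x
  refine isIso_of_sections ((1 : A) ⊗ₜ[k] x) ((1 : A) ⊗ₜ[k] y) (tensor_xy A hC)
    (injective_tensor₁ A hC) G G' n J t ht htr s.1 s.2 s'.1 s'.2 ?_ ?_ hspan hspan' hgen hgen'
  · rw [hx]
    exact mem_sec.1 hs
  · rw [hx]
    exact mem_sec.1 hs'

end General

section Points

variable {k : Type u} [Field k] [IsAlgClosed k]
  {B₀ B₁ B₀₁ : Type u} [CommRing B₀] [CommRing B₁] [CommRing B₀₁]
  [Algebra k B₀] [Algebra k B₁] [Algebra k B₀₁] [Algebra B₀ B₀₁] [Algebra B₁ B₀₁]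
  [IsScalarTower k B₀ B₀₁] [IsScalarTower k B₁ B₀₁]
  {x : B₀} {y : B₁} {e : B₁ →ₐ[k] k}

variable {A A' : Type u} [CommRing A] [Algebra k A] [CommRing A'] [Algebra k A']

/-- **PT-ISO** (skeleton statement, verbatim): two gluing data with the same Hilbert coordinates
are isomorphic. -/
theorem pointCond_iso (hC : IsCurveChart k B₀ B₁ B₀₁ x y e) (i : ChartIndex k B₀)
    {G G' : CurveGD k B₀ B₁ B₀₁ A} {φ₀ : H491.Rβ k i.β →ₐ[k] A}
    (h : PointCond x y i G φ₀) (h' : PointCond x y i G' φ₀) : G.IsIso G' := by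
  obtain ⟨s, hs, hspan⟩ := h.sect
  obtain ⟨s', hs', hspan'⟩ := h'.sect
  obtain ⟨t, ht, htr⟩ := exists_nonZeroDivisor_mem_chart hC i.β i.q φ₀
  exact curveGD_isIso_of_sections hC i.n _ ht htr s s' hs.mem.1 hs'.mem.1 hs.gen hs'.gen
    hspan hspan'

end Points

end Fermat.Agent.S25.H851

end
-- ===== PACK-END S25/H851/ACIso.lean

-- ===== PACK-BEGIN S26/Pic/H582/CDiv.lean
section




/-!
# Row S26, block PIC, leaf P3 (helper582): the class map from Cartier divisors to the Čech
Picard group, `cdivDict : Nonempty (CDivDict cechPic)`.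

A cocycle `c` on an integral scheme is *presented* by `γ : X → K(X)ˣ` if the transition unit
`c.g x y` is the rational function `γ x / γ y`.
-/

set_option autoImplicit false
set_option linter.style.haveILetI false
set_option linter.unusedVariables false

open AlgebraicGeometry CategoryTheory TopologicalSpace Opposite

universe u

namespace Fermat.Agent.S26.Pic.H582

noncomputable section

variable {X Y : Scheme.{u}} [IsIntegral X] [IsIntegral Y]

/-! ## Sections as rational functions -/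

theorem gen_mem {U : X.Opens} {x : X} (hx : x ∈ U) : genericPoint X ∈ U :=
  ((genericPoint_spec X).mem_open_set_iff U.isOpen).mpr ⟨x, Set.mem_univ x, hx⟩

theorem gen_mem_inf {U V : X.Opens} (hU : genericPoint X ∈ U) (hV : genericPoint X ∈ V) :
    genericPoint X ∈ U ⊓ V := ⟨hU, hV⟩

/-- The germ at the generic point, as a ring homomorphism `Γ(X, U) → K(X)`. -/
def gff (U : X.Opens) (h : genericPoint X ∈ U) : Γ(X, U) →+* X.functionField :=
  (X.presheaf.germ U (genericPoint X) h).hom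

theorem gff_apply (U : X.Opens) (h : genericPoint X ∈ U) (s : Γ(X, U)) :
    gff U h s = X.presheaf.germ U (genericPoint X) h s := rfl

theorem gff_injective (U : X.Opens) (h : genericPoint X ∈ U) : Function.Injective (gff U h) :=
  germ_injective_of_isIntegral X (genericPoint X) h

theorem gff_map {U V : X.Opens} (hVU : V ≤ U) (hV : genericPoint X ∈ V) (s : Γ(X, U)) :
    gff V hV (X.presheaf.map (homOfLE hVU).op s) = gff U (hVU hV) s := by
  rw [gff_apply, gff_apply, TopCat.Presheaf.germ_res_apply]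

/-- The image in `K(X)` of the germ at `x` of a section is its germ at the generic point. -/
theorem algebraMap_germ_eq_gff {U : X.Opens} (s : Γ(X, U)) (x : X) (hx : x ∈ U) :
    algebraMap (X.presheaf.stalk x) X.functionField (X.presheaf.germ U x hx s) =
      gff U (gen_mem hx) s :=
  H566.algebraMap_germ s x hx

/-- The germ at the generic point on units. -/
def gffU (U : X.Opens) (h : genericPoint X ∈ U) : Γ(X, U)ˣ →* (X.functionField)ˣ :=
  Units.map (gff U h : Γ(X, U) →* X.functionField)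

theorem coe_gffU (U : X.Opens) (h : genericPoint X ∈ U) (a : Γ(X, U)ˣ) :
    ((gffU U h a : (X.functionField)ˣ) : X.functionField) = gff U h (a : Γ(X, U)) := rfl

theorem gffU_injective (U : X.Opens) (h : genericPoint X ∈ U) :
    Function.Injective (gffU U h) :=
  Units.map_injective (gff_injective U h)

theorem gffU_res {U V : X.Opens} (hVU : V ≤ U) (hV : genericPoint X ∈ V) (a : Γ(X, U)ˣ) :
    gffU V hV (res hVU a) = gffU U (hVU hV) a := by
  ext
  rw [coe_gffU, coe_gffU]
  exact gff_map hVU hV _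

/-! ## Units of the local rings inside `K(X)ˣ` -/

/-- The rational function `f` is a unit of the local ring at `x`. -/
def IsUnitAt (x : X) (f : (X.functionField)ˣ) : Prop :=
  ∃ u : (X.presheaf.stalk x)ˣ,
    algebraMap (X.presheaf.stalk x) X.functionField (u : X.presheaf.stalk x) = f

theorem isUnitAt_one (x : X) : IsUnitAt x (1 : (X.functionField)ˣ) :=
  ⟨1, by simp⟩

theorem IsUnitAt.inv {x : X} {f : (X.functionField)ˣ} (h : IsUnitAt x f) : IsUnitAt x f⁻¹ := by
  obtain ⟨u, hu⟩ := h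
  refine ⟨u⁻¹, ?_⟩
  have h1 : algebraMap (X.presheaf.stalk x) X.functionField ((u⁻¹ : (X.presheaf.stalk x)ˣ) :
      X.presheaf.stalk x) * (f : X.functionField) = 1 := by
    rw [← hu, ← map_mul, Units.inv_mul, map_one]
  rw [Units.val_inv_eq_inv_val]
  exact eq_inv_of_mul_eq_one_left h1

theorem IsUnitAt.mul {x : X} {f g : (X.functionField)ˣ} (hf : IsUnitAt x f) (hg : IsUnitAt x g) :
    IsUnitAt x (f * g) := by
  obtain ⟨u, hu⟩ := hf
  obtain ⟨v, hv⟩ := hg
  exact ⟨u * v, by rw [Units.val_mul, map_mul, hu, hv, Units.val_mul]⟩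

theorem IsUnitAt.regularAt {x : X} {f : (X.functionField)ˣ} (h : IsUnitAt x f) :
    H566.RegularAt (f : X.functionField) x := by
  obtain ⟨u, hu⟩ := h
  exact ⟨u, hu⟩

/-- The germ of a unit section is a unit of the local ring. -/
theorem isUnitAt_gffU {U : X.Opens} (a : Γ(X, U)ˣ) (x : X) (hx : x ∈ U) :
    IsUnitAt x (gffU U (gen_mem hx) a) := by
  refine ⟨Units.map (X.presheaf.germ U x hx).hom a, ?_⟩
  rw [coe_gffU]
  exact algebraMap_germ_eq_gff (a : Γ(X, U)) x hx

/-- Equality of principal fractional ideals at `x` in terms of units. -/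
theorem span1_eq_iff {x : X} (f g : (X.functionField)ˣ) :
    LS.span1 (f : X.functionField) x = LS.span1 (g : X.functionField) x ↔
      IsUnitAt x (f / g) := by
  constructor
  · intro h
    obtain ⟨⟨a, ha⟩, ⟨b, hb⟩⟩ := H164.exists_smul_of_span_singleton_eq h
    have hab : a * b = 1 := by
      apply H164.algebraMap_stalk_injective x
      rw [map_mul, map_one]
      have h1 : (f : X.functionField) = (algebraMap _ X.functionField a *
          algebraMap _ X.functionField b) * f := by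
        conv_lhs => rw [ha, hb]
        rw [Algebra.smul_def, Algebra.smul_def, mul_assoc]
      have hf : (f : X.functionField) ≠ 0 := f.ne_zero
      exact (mul_right_cancel₀ hf (by rw [one_mul]; exact h1)).symm
    refine ⟨⟨a, b, hab, by rw [mul_comm]; exact hab⟩, ?_⟩
    rw [Units.val_div_eq_div_val, eq_div_iff g.ne_zero]
    show algebraMap _ X.functionField a * (g : X.functionField) = f
    rw [ha, Algebra.smul_def]
  · rintro ⟨u, hu⟩
    rw [Units.val_div_eq_div_val, eq_div_iff g.ne_zero] at hu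
    refine H164.span_singleton_eq_of_smul (u : X.presheaf.stalk x)
      ((u⁻¹ : (X.presheaf.stalk x)ˣ) : X.presheaf.stalk x) ?_ ?_
    · rw [Algebra.smul_def, hu]
    · rw [← hu, Algebra.smul_def, ← mul_assoc, ← map_mul, Units.inv_mul, map_one, one_mul]

/-- A unit of the local ring at `x` spreads out to a unit section near `x`. -/
theorem exists_unit_near {x : X} {f : (X.functionField)ˣ} (h : IsUnitAt x f) :
    ∃ (V : X.Opens) (hx : x ∈ V) (a : Γ(X, V)ˣ), gffU V (gen_mem hx) a = f := by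
  obtain ⟨u, hu⟩ := h
  obtain ⟨V₁, hx₁, s₁, hs₁⟩ := X.presheaf.exists_germ_eq (u : X.presheaf.stalk x)
  obtain ⟨V₂, hx₂, s₂, hs₂⟩ :=
    X.presheaf.exists_germ_eq ((u⁻¹ : (X.presheaf.stalk x)ˣ) : X.presheaf.stalk x)
  have hx : x ∈ V₁ ⊓ V₂ := ⟨hx₁, hx₂⟩
  set t₁ : Γ(X, V₁ ⊓ V₂) := X.presheaf.map (homOfLE (inf_le_left : V₁ ⊓ V₂ ≤ V₁)).op s₁ with ht₁
  set t₂ : Γ(X, V₁ ⊓ V₂) := X.presheaf.map (homOfLE (inf_le_right : V₁ ⊓ V₂ ≤ V₂)).op s₂ with ht₂
  have hg₁ : X.presheaf.germ (V₁ ⊓ V₂) x hx t₁ = u := by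
    rw [ht₁, TopCat.Presheaf.germ_res_apply, hs₁]
  have hg₂ : X.presheaf.germ (V₁ ⊓ V₂) x hx t₂ = ((u⁻¹ : (X.presheaf.stalk x)ˣ) :
      X.presheaf.stalk x) := by
    rw [ht₂, TopCat.Presheaf.germ_res_apply, hs₂]
  have h12 : t₁ * t₂ = 1 := by
    apply germ_injective_of_isIntegral X x hx
    rw [map_mul, map_one, hg₁, hg₂, Units.mul_inv]
  refine ⟨V₁ ⊓ V₂, hx, ⟨t₁, t₂, h12, by rw [mul_comm]; exact h12⟩, ?_⟩
  ext
  rw [coe_gffU, ← algebraMap_germ_eq_gff _ x hx]
  show algebraMap _ X.functionField (X.presheaf.germ (V₁ ⊓ V₂) x hx t₁) = f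
  rw [hg₁, hu]

/-- A rational function which is a unit at every point of `W` is a unit section over `W`. -/
theorem exists_unit_section (W : X.Opens) (hW : genericPoint X ∈ W) (f : (X.functionField)ˣ)
    (hf : ∀ z ∈ W, IsUnitAt z f) : ∃ a : Γ(X, W)ˣ, gffU W hW a = f := by
  obtain ⟨s, hs⟩ := H566.exists_section_of_regularAt W (f : X.functionField)
    (fun z hz => (hf z hz).regularAt)
  obtain ⟨t, ht⟩ := H566.exists_section_of_regularAt W ((f⁻¹ : (X.functionField)ˣ) :
    X.functionField) (fun z hz => (hf z hz).inv.regularAt)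
  have hs' : gff W hW s = f := by
    rw [← algebraMap_germ_eq_gff s (genericPoint X) hW]
    exact hs _ hW
  have ht' : gff W hW t = ((f⁻¹ : (X.functionField)ˣ) : X.functionField) := by
    rw [← algebraMap_germ_eq_gff t (genericPoint X) hW]
    exact ht _ hW
  have hst : s * t = 1 := by
    apply gff_injective W hW
    rw [map_mul, map_one, hs', ht', Units.mul_inv]
  refine ⟨⟨s, t, hst, by rw [mul_comm]; exact hst⟩, ?_⟩
  ext
  rw [coe_gffU]
  exact hs'

/-! ## Presented cocycles -/

theorem comm_group_aux {G : Type*} [CommGroup G] (gx gη Aη Ax g'x g'η : G)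
    (h : gx / gη * Aη = Ax * (g'x / g'η)) : g'x / (Aη * g'η / gη * gx) = Ax⁻¹ := by
  have hAx : Ax = (gx / gη * Aη) / (g'x / g'η) := eq_div_iff_mul_eq'.2 h.symm
  rw [hAx, inv_div, div_div]
  congr 1
  simp only [div_eq_mul_inv, mul_comm, mul_left_comm, mul_assoc]

theorem mem_inf_U (c : Cocycle X) (x y : X) : genericPoint X ∈ c.U x ⊓ c.U y :=
  gen_mem_inf (gen_mem (c.mem x)) (gen_mem (c.mem y))

/-- The cocycle `c` is presented by `γ`: its transition units are `γ x / γ y`. -/
def Presents (c : Cocycle X) (γ : X → (X.functionField)ˣ) : Prop :=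
  ∀ x y, gffU (c.U x ⊓ c.U y) (mem_inf_U c x y) (c.g x y) = γ x / γ y

theorem Presents.gffU_res {c : Cocycle X} {γ : X → (X.functionField)ˣ} (h : Presents c γ)
    {x y : X} {W : X.Opens} (hW : W ≤ c.U x ⊓ c.U y) (hη : genericPoint X ∈ W) :
    gffU W hη (res hW (c.g x y)) = γ x / γ y := by
  rw [H582.gffU_res, h x y]

/-- (a) A family of rational functions which locally differ by units presents a cocycle. -/
theorem exists_presents (γ : X → (X.functionField)ˣ)
    (hloc : ∀ x, ∃ U : X.Opens, x ∈ U ∧ ∀ y ∈ U, IsUnitAt y (γ y / γ x)) :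
    ∃ c : Cocycle X, Presents c γ := by
  choose U hxU hU using hloc
  have hη : ∀ x y, genericPoint X ∈ U x ⊓ U y := fun x y =>
    gen_mem_inf (gen_mem (hxU x)) (gen_mem (hxU y))
  have hunit : ∀ x y, ∀ z ∈ U x ⊓ U y, IsUnitAt z (γ x / γ y) := by
    intro x y z hz
    have h1 := hU x z hz.1
    have h2 := hU y z hz.2
    have e : γ x / γ y = (γ z / γ x)⁻¹ * (γ z / γ y) := by
      rw [inv_div, div_mul_div_cancel]
    rw [e]
    exact h1.inv.mul h2
  choose g hg using fun x y => exists_unit_section (U x ⊓ U y) (hη x y) (γ x / γ y) (hunit x y)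
  refine ⟨⟨U, hxU, g, ?_⟩, ?_⟩
  · intro x y z
    apply gffU_injective _ (gen_mem_inf (hη x y) (gen_mem (hxU z)))
    rw [map_mul, H582.gffU_res, H582.gffU_res, H582.gffU_res, hg, hg, hg, div_mul_div_cancel]
  · intro x y
    exact hg x y

/-- (b) Two presented cocycles whose presentations differ by a global rational function and
local units are cohomologous. -/
theorem rel_of_presents {c c' : Cocycle X} {γ γ' : X → (X.functionField)ˣ}
    (hc : Presents c γ) (hc' : Presents c' γ') (φ : (X.functionField)ˣ)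
    (h : ∀ x, IsUnitAt x (γ' x / (φ * γ x))) : Cocycle.Rel c c' := by
  have h' : ∀ x, ∃ (V : X.Opens) (hx : x ∈ V) (a : Γ(X, V)ˣ),
      gffU V (gen_mem hx) a = φ * γ x / γ' x := by
    intro x
    have h1 := (h x).inv
    rw [inv_div] at h1
    exact exists_unit_near h1
  choose V₀ hxV₀ a ha using h'
  refine ⟨fun x => V₀ x ⊓ (c.U x ⊓ c'.U x), fun x => ⟨hxV₀ x, c.mem x, c'.mem x⟩,
    fun x => inf_le_right.trans inf_le_left, fun x => inf_le_right.trans inf_le_right,
    fun x => res inf_le_left (a x), fun x y => ?_⟩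
  have hηx : ∀ x, genericPoint X ∈ V₀ x ⊓ (c.U x ⊓ c'.U x) := fun x =>
    gen_mem_inf (gen_mem (hxV₀ x)) (gen_mem_inf (gen_mem (c.mem x)) (gen_mem (c'.mem x)))
  beta_reduce
  apply gffU_injective _ (gen_mem_inf (hηx x) (hηx y))
  rw [map_mul, map_mul, hc.gffU_res, hc'.gffU_res, H582.gffU_res, H582.gffU_res,
    H582.gffU_res, H582.gffU_res, ha, ha]
  rw [div_mul_div_comm, div_mul_div_comm, div_eq_div_iff_mul_eq_mul]
  simp only [mul_comm, mul_left_comm]

/-- (c) Conversely, cohomologous presented cocycles have presentations which differ by a global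
rational function and local units. -/
theorem exists_of_rel {c c' : Cocycle X} {γ γ' : X → (X.functionField)ˣ}
    (hc : Presents c γ) (hc' : Presents c' γ') (h : Cocycle.Rel c c') :
    ∃ φ : (X.functionField)ˣ, ∀ x, IsUnitAt x (γ' x / (φ * γ x)) := by
  obtain ⟨V, hV, hcV, hc'V, a, H⟩ := h
  have key : ∀ x y, (γ x / γ y) * gffU (V y) (gen_mem (hV y)) (a y) =
      gffU (V x) (gen_mem (hV x)) (a x) * (γ' x / γ' y) := by
    intro x y
    have h1 := congrArg (gffU (V x ⊓ V y) (gen_mem_inf (gen_mem (hV x)) (gen_mem (hV y))))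
      (H x y)
    rw [map_mul, map_mul, hc.gffU_res, hc'.gffU_res, H582.gffU_res, H582.gffU_res] at h1
    exact h1
  refine ⟨gffU (V (genericPoint X)) (gen_mem (hV _)) (a (genericPoint X)) *
    γ' (genericPoint X) / γ (genericPoint X), fun x => ?_⟩
  rw [comm_group_aux _ _ _ _ _ _ (key x (genericPoint X))]
  exact (isUnitAt_gffU (a x) x (hV x)).inv

/-- (d) Products. -/
theorem Presents.mul {c c' : Cocycle X} {γ γ' : X → (X.functionField)ˣ}
    (hc : Presents c γ) (hc' : Presents c' γ') :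
    Presents (c.mul c') (fun x => γ x * γ' x) := by
  intro x y
  show gffU _ _ (res _ (c.g x y) * res _ (c'.g x y)) = _
  rw [map_mul, hc.gffU_res, hc'.gffU_res, div_mul_div_comm]

/-! ## Pull-backs -/

/-- Compatibility of `ffMap` with pull-back of sections. -/
theorem gff_appLE (f : X ⟶ Y) (h : f (genericPoint X) = genericPoint Y) {U : Y.Opens}
    {V : X.Opens} (e : V ≤ f ⁻¹ᵁ U) (hV : genericPoint X ∈ V) (hU : genericPoint Y ∈ U)
    (s : Γ(Y, U)) :
    gff V hV ((f.appLE U V e).hom s) = ffMap f h (gff U hU s) := by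
  have hfU : f (genericPoint X) ∈ U := e hV
  have h1 : gff U hU s = algebraMap (Y.presheaf.stalk (f (genericPoint X))) Y.functionField
      (Y.presheaf.germ U (f (genericPoint X)) hfU s) :=
    (algebraMap_germ_eq_gff s _ hfU).symm
  rw [h1, H164.ffMap_algebraMap, Scheme.Hom.germ_stalkMap_apply]
  exact (gff_map e hV _).trans
    (algebraMap_germ_eq_gff (f.app U s) (genericPoint X) (e hV)).symm

/-- `ffMap` on units. -/
def ffMapU (f : X ⟶ Y) (h : f (genericPoint X) = genericPoint Y) :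
    (Y.functionField)ˣ →* (X.functionField)ˣ :=
  Units.map (ffMap f h : Y.functionField →* X.functionField)

theorem coe_ffMapU (f : X ⟶ Y) (h : f (genericPoint X) = genericPoint Y)
    (a : (Y.functionField)ˣ) :
    ((ffMapU f h a : (X.functionField)ˣ) : X.functionField) = ffMap f h (a : Y.functionField) :=
  rfl

theorem gffU_pull (f : X ⟶ Y) (h : f (genericPoint X) = genericPoint Y) {U : Y.Opens}
    {V : X.Opens} (e : V ≤ f ⁻¹ᵁ U) (hV : genericPoint X ∈ V) (hU : genericPoint Y ∈ U)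
    (a : Γ(Y, U)ˣ) :
    gffU V hV (pull f e a) = ffMapU f h (gffU U hU a) := by
  ext
  rw [coe_gffU, coe_ffMapU, coe_gffU]
  exact gff_appLE f h e hV hU _

/-- (e) Pull-backs. -/
theorem Presents.pullback (f : X ⟶ Y) (h : f (genericPoint X) = genericPoint Y)
    {c : Cocycle Y} {γ : Y → (Y.functionField)ˣ} (hc : Presents c γ) :
    Presents (c.pullback f) (fun x => ffMapU f h (γ (f x))) := by
  intro x y
  show gffU _ _ (pull f _ (c.g (f x) (f y))) = _
  rw [gffU_pull f h _ _ (mem_inf_U c (f x) (f y)), hc (f x) (f y), map_div]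

/-! ## The dictionary -/

/-- The local generators of a Cartier divisor, as units of the function field. -/
def genU (D : CDiv X) (x : X) : (X.functionField)ˣ := Units.mk0 (D.gen x) (D.gen_ne x)

theorem coe_genU (D : CDiv X) (x : X) : ((genU D x : (X.functionField)ˣ) : X.functionField) =
    D.gen x := rfl

theorem exists_cocycle (D : CDiv X) : ∃ c : Cocycle X, Presents c (genU D) :=
  exists_presents _ fun x => by
    obtain ⟨U, hx, hU⟩ := D.loc x
    exact ⟨U, hx, fun y hy => (span1_eq_iff (genU D y) (genU D x)).1 (hU y hy)⟩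

/-- A cocycle attached to a Cartier divisor. -/
def cocycleOf (D : CDiv X) : Cocycle X := (exists_cocycle D).choose

theorem presents_cocycleOf (D : CDiv X) : Presents (cocycleOf D) (genU D) :=
  (exists_cocycle D).choose_spec

/-- The class of a Cartier divisor in the Čech Picard group. -/
def clDiv (D : CDiv X) : cechPic.{u}.Pic X := cl (cocycleOf D)

theorem clDiv_eq_iff (D D' : CDiv X) : clDiv D = clDiv D' ↔ CDiv.LinEquiv D D' := by
  rw [clDiv, clDiv, cl_eq_cl]
  constructor
  · intro hrel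
    obtain ⟨φ, hφ⟩ := exists_of_rel (presents_cocycleOf D) (presents_cocycleOf D') hrel
    refine ⟨(φ : X.functionField), φ.ne_zero, fun x => ?_⟩
    have := (span1_eq_iff (genU D' x) (φ * genU D x)).2 (hφ x)
    rwa [Units.val_mul, coe_genU, coe_genU] at this
  · rintro ⟨h, hne, hh⟩
    refine rel_of_presents (presents_cocycleOf D) (presents_cocycleOf D') (Units.mk0 h hne)
      fun x => ?_
    apply (span1_eq_iff (genU D' x) (Units.mk0 h hne * genU D x)).1
    rw [Units.val_mul, coe_genU, coe_genU, Units.val_mk0]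
    exact hh x

theorem clDiv_mul (D D' D'' : CDiv X) (hmul : CDiv.IsMul D D' D'') :
    clDiv D'' = clDiv D + clDiv D' := by
  rw [clDiv, clDiv, clDiv, ← cl_mul, cl_eq_cl]
  refine rel_of_presents (presents_cocycleOf D'')
    ((presents_cocycleOf D).mul (presents_cocycleOf D')) 1 fun x => ?_
  apply (span1_eq_iff (genU D x * genU D' x) (1 * genU D'' x)).1
  rw [one_mul, Units.val_mul, coe_genU, coe_genU, coe_genU]
  exact (hmul x).symm

theorem clDiv_pullback (φ : X ⟶ Y) (h : φ (genericPoint X) = genericPoint Y) (D : CDiv Y)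
    (D' : CDiv X) (hpb : CDiv.IsPullback φ h D D') :
    clDiv D' = cechPic.{u}.map φ (clDiv D) := by
  rw [clDiv, clDiv, map_cl, cl_eq_cl]
  refine rel_of_presents (presents_cocycleOf D')
    ((presents_cocycleOf D).pullback φ h) 1 fun x => ?_
  apply (span1_eq_iff (ffMapU φ h (genU D (φ x))) (1 * genU D' x)).1
  rw [one_mul, coe_ffMapU, coe_genU, coe_genU]
  exact (hpb x).symm

/-- **PIC:P3.** The Čech Picard functor receives the classes of Cartier divisors. -/
theorem cdivDict : Nonempty (CDivDict cechPic.{u}) :=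
  ⟨{ cl := fun {X} _ D => clDiv D
     cl_eq_iff := fun {X} _ D D' => clDiv_eq_iff D D'
     cl_mul := fun {X} _ D D' D'' h => clDiv_mul D D' D'' h
     cl_pullback := fun {X Y} _ _ φ h D D' hpb => clDiv_pullback φ h D D' hpb }⟩

end

end Fermat.Agent.S26.Pic.H582

end
-- ===== PACK-END S26/Pic/H582/CDiv.lean

-- ===== PACK-BEGIN S26/CubeFormal.lean
section



/-!
# Row S26, block CUBE, part C2: the formal calculus (architect helper987)

For an abstract local Picard functor `T` and an abelian variety `X`: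
* `theta_const`   : `Θ(x, b, c; M) = Λ(b, c; T_x^*M - M)` for a `K`-point `x`;
* `IsPic0.map_transl` : `P ∈ Pic⁰ ⇒ T_x^*P = P`;
* `inH_zero`, `inH_mul`, `inH_neg` : `H_M` is a subgroup of `A(K)`;
* `theta_mul_const` : `x ∈ H_M ⇒ Θ(a + x, b, c; M) = Θ(a, b, c; M)` (translation invariance);
* `theta_one_left` : `Θ(0, b, c; M) = 0` (faces).
-/

set_option autoImplicit false
universe u

open CategoryTheory CategoryTheory.Limits AlgebraicGeometry NeronModelInfra GoodReductionJacobian

namespace Fermat.Agent.S26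

variable {K : Type u} [Field K] {X : AbVar K} {T : PicTheory.{u}}

namespace AbVar

/-- Composition of a point with the translation by `x` is addition of the constant point. -/
theorem comp_transl {S : Scheme.{u}} (s : S ⟶ Spec (CommRingCat.of K)) (b : X.SPt s) (x : X.Pt) :
    b.1 ≫ X.transl x = (X.law.mul s b (X.const s x)).1 := by
  have h := X.law.mul_natural X.str s b.1 b.2 RelativeGroupLaw.idPoint (X.const X.str x)
  have h1 : schemeHomOverComp b.1 b.2 (RelativeGroupLaw.idPoint (f := X.str)) = b :=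
    Subtype.ext (Category.comp_id _)
  have h2 : schemeHomOverComp b.1 b.2 (X.const X.str x) = X.const s x :=
    Subtype.ext (by
      show b.1 ≫ X.str ≫ x.1 = s ≫ x.1
      rw [← Category.assoc, b.2])
  rw [h1, h2] at h
  exact congrArg Subtype.val h

theorem map_mul_const {S : Scheme.{u}} (s : S ⟶ Spec (CommRingCat.of K)) (b : X.SPt s)
    (x : X.Pt) (M : T.Pic X.A) :
    T.map (X.law.mul s b (X.const s x)).1 M = T.map b.1 (T.map (X.transl x) M) := by
  rw [← comp_transl, T.map_comp]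

theorem lam_add {S : Scheme.{u}} (s : S ⟶ Spec (CommRingCat.of K)) (b c : X.SPt s)
    (P Q : T.Pic X.A) : X.lam T s b c (P + Q) = X.lam T s b c P + X.lam T s b c Q := by
  simp only [lam, map_add]; abel

theorem lam_sub {S : Scheme.{u}} (s : S ⟶ Spec (CommRingCat.of K)) (b c : X.SPt s)
    (P Q : T.Pic X.A) : X.lam T s b c (P - Q) = X.lam T s b c P - X.lam T s b c Q := by
  simp only [lam, map_sub]; abel

theorem lam_neg {S : Scheme.{u}} (s : S ⟶ Spec (CommRingCat.of K)) (b c : X.SPt s)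
    (P : T.Pic X.A) : X.lam T s b c (-P) = -X.lam T s b c P := by
  simp only [lam, map_neg]; abel

theorem IsPic0.add {P Q : T.Pic X.A} (hP : X.IsPic0 T P) (hQ : X.IsPic0 T Q) :
    X.IsPic0 T (P + Q) := fun S s b c => by rw [lam_add, hP S s b c, hQ S s b c, add_zero]

theorem IsPic0.neg {P : T.Pic X.A} (hP : X.IsPic0 T P) : X.IsPic0 T (-P) :=
  fun S s b c => by rw [lam_neg, hP S s b c, neg_zero]

theorem isPic0_zero : X.IsPic0 T 0 := fun S s b c => by simp [lam]

/-- Classes in `Pic⁰` are translation invariant. -/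
theorem IsPic0.map_transl (hT : T.IsLocal) {P : T.Pic X.A} (hP : X.IsPic0 T P) (x : X.Pt) :
    T.map (X.transl x) P = P := by
  have h := hP X.A X.str RelativeGroupLaw.idPoint (X.const X.str x)
  rw [lam, map_const_eq_zero hT, map_idPoint, sub_zero, sub_eq_zero] at h
  exact h

/-- `Θ(x, b, c; M) = Λ(b, c; T_x^*M - M)`. -/
theorem theta_const (hT : T.IsLocal) {S : Scheme.{u}} (s : S ⟶ Spec (CommRingCat.of K))
    (x : X.Pt) (b c : X.SPt s) (M : T.Pic X.A) :
    X.theta T s (X.const s x) b c M = X.lam T s b c (T.map (X.transl x) M - M) := by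
  have e1 : X.law.mul s (X.law.mul s (X.const s x) b) c =
      X.law.mul s (X.law.mul s b c) (X.const s x) := by
    rw [X.comm s (X.const s x) b, X.law.mul_assoc s b (X.const s x) c,
      X.comm s (X.const s x) c, ← X.law.mul_assoc s b c (X.const s x)]
  rw [theta, e1, X.comm s (X.const s x) b, X.comm s (X.const s x) c, map_mul_const,
    map_mul_const, map_mul_const, map_const_eq_zero hT, lam_sub, lam, lam]
  abel

/-- The subset `H_M` contains `0`. -/
theorem inH_zero (hT : T.IsLocal) (M : T.Pic X.A) : X.InH T M X.zero := by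
  intro S s b c
  have h0 : X.const s X.zero = X.law.one s := AbVar.const_one X s
  rw [theta, h0, X.law.one_mul, X.law.one_mul, map_one_eq_zero hT]
  abel

theorem inH_iff (hT : T.IsLocal) (M : T.Pic X.A) (x : X.Pt) :
    X.InH T M x ↔ X.IsPic0 T (T.map (X.transl x) M - M) := by
  constructor
  · intro h S s b c
    rw [← theta_const hT]
    exact h S s b c
  · intro h S s b c
    rw [theta_const hT]
    exact h S s b c

/-- `T_{x·y} = T_x ∘ T_y` on classes. -/
theorem map_transl_mul (x y : X.Pt) (M : T.Pic X.A) :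
    T.map (X.transl (X.law.mul (𝟙 _) x y)) M = T.map (X.transl y) (T.map (X.transl x) M) := by
  rw [← T.map_comp]
  congr 1
  -- `transl y ≫ transl x = transl (x * y)`
  have h := comp_transl (X := X) X.str
    (X.law.mul X.str RelativeGroupLaw.idPoint (X.const X.str y)) x
  have h' : (X.law.mul X.str RelativeGroupLaw.idPoint (X.const X.str y)).1 = X.transl y := rfl
  rw [h'] at h
  rw [h, X.law.mul_assoc, X.comm X.str (X.const X.str y) (X.const X.str x), AbVar.const_mul]
  rfl

theorem inH_mul (hT : T.IsLocal) (M : T.Pic X.A) {x y : X.Pt} (hx : X.InH T M x)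
    (hy : X.InH T M y) : X.InH T M (X.law.mul (𝟙 _) x y) := by
  rw [inH_iff hT] at hx hy ⊢
  have h : T.map (X.transl (X.law.mul (𝟙 _) x y)) M - M =
      T.map (X.transl y) (T.map (X.transl x) M - M) + (T.map (X.transl y) M - M) := by
    rw [map_transl_mul, map_sub]; abel
  rw [h, hx.map_transl hT y]
  exact hx.add hy

theorem inH_neg (hT : T.IsLocal) (M : T.Pic X.A) {x : X.Pt} (hx : X.InH T M x) :
    X.InH T M (X.negPt x) := by
  rw [inH_iff hT] at hx ⊢
  -- `0 = P_{x·x⁻¹} = T_{x⁻¹}^* P_x + P_{x⁻¹}`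
  have h0 : T.map (X.transl (X.law.mul (𝟙 _) x (X.negPt x))) M = M := by
    have : X.law.mul (𝟙 _) x (X.negPt x) = X.zero := X.law.mul_inv_cancel _ x
    rw [this]
    have hz : X.transl X.zero = 𝟙 X.A := by
      show (X.law.mul X.str RelativeGroupLaw.idPoint
        (X.const X.str (X.law.one (𝟙 (Spec (CommRingCat.of K)))))).1 = 𝟙 X.A
      rw [AbVar.const_one, X.law.mul_one]
    rw [hz, T.map_id]
  have h : T.map (X.transl (X.negPt x)) M - M =
      -(T.map (X.transl (X.negPt x)) (T.map (X.transl x) M - M)) := by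
    rw [map_sub, ← map_transl_mul, h0]; abel
  rw [h, hx.map_transl hT]
  exact hx.neg

/-- Faces: `Θ(0, b, c; M) = 0`. -/
theorem theta_one_left (hT : T.IsLocal) {S : Scheme.{u}} (s : S ⟶ Spec (CommRingCat.of K))
    (b c : X.SPt s) (M : T.Pic X.A) : X.theta T s (X.law.one s) b c M = 0 := by
  rw [← AbVar.const_one]
  exact inH_zero hT M S s b c

/-- Translation invariance of the cube class in the first variable. -/
theorem theta_mul_const (hT : T.IsLocal) (M : T.Pic X.A) {x : X.Pt} (hx : X.InH T M x)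
    {S : Scheme.{u}} (s : S ⟶ Spec (CommRingCat.of K)) (a b c : X.SPt s) :
    X.theta T s (X.law.mul s a (X.const s x)) b c M = X.theta T s a b c M := by
  rw [inH_iff hT] at hx
  set P := T.map (X.transl x) M - M with hP
  have hM : T.map (X.transl x) M = M + P := by rw [hP]; abel
  have sw : ∀ p q : X.SPt s, X.law.mul s (X.law.mul s p (X.const s x)) q =
      X.law.mul s (X.law.mul s p q) (X.const s x) := by
    intro p q
    rw [X.law.mul_assoc s p (X.const s x) q, X.comm s (X.const s x) q,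
      ← X.law.mul_assoc s p q (X.const s x)]
  have e2 := sw a b
  have e3 := sw a c
  have e1 : X.law.mul s (X.law.mul s (X.law.mul s a (X.const s x)) b) c =
      X.law.mul s (X.law.mul s (X.law.mul s a b) c) (X.const s x) := by
    rw [e2, sw]
  have k1 := hx S s (X.law.mul s a b) c
  have k2 := hx S s a b
  have k3 := hx S s a c
  rw [lam] at k1 k2 k3
  rw [theta, theta, e1, e2, e3, map_mul_const, map_mul_const, map_mul_const, map_mul_const,
    hM]
  simp only [map_add]
  have k1' : T.map (X.law.mul s (X.law.mul s a b) c).1 P =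
      T.map (X.law.mul s a b).1 P + T.map c.1 P := by
    rw [← sub_eq_zero, ← k1]; abel
  have k2' : T.map (X.law.mul s a b).1 P = T.map a.1 P + T.map b.1 P := by
    rw [← sub_eq_zero, ← k2]; abel
  have k3' : T.map (X.law.mul s a c).1 P = T.map a.1 P + T.map c.1 P := by
    rw [← sub_eq_zero, ← k3]; abel
  rw [k1', k2', k3']
  abel

end AbVar

end Fermat.Agent.S26

end
-- ===== PACK-END S26/CubeFormal.lean

-- ===== PACK-BEGIN S26/H60/GI.lean
section




/-!
# Row S26, block CUBE, leaf GI (subtask 548; helper60)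

For an abelian variety `X` over an algebraically closed field `K`, the structure morphism
`X.str` is geometrically integral, and so is the structure morphism of a product
`prodStr X.str Y.str`.  These are the hypotheses `hGI` of the glue leaves C3 / C5
(`Skel.inH_of_curveCube`, `Skel.cube_of`) and the instances needed to feed `A × A` into
`Stmt.CurveCube`, `Stmt.LocalOnBase`, `Stmt.GenericTrivial`.

Inputs: `Stmt.Integral K` (block SOFT, leaf INT, `H687.integral`) and the S25 lemma "integral +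
locally noetherian over an algebraically closed field is geometrically integral" (`S25.H567`).

Main statements (all sorry-free, unconditional unless the name ends in `_of_integral`):

* `geometricallyIntegral_of_isIntegral` : `Y` integral, `y : Y ⟶ Spec K` locally of finite type
  ⇒ `GeometricallyIntegral y`;
* `isIntegral_prod`, `geometricallyIntegral_prodStr` : the same for `Y ×_K Z`;
* `geometricallyIntegral_prodStr_of_gi` : the version with hypotheses
  `GeometricallyIntegral y`, `GeometricallyIntegral z`;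
* `isProper_prodStr`, `locallyOfFiniteType_prodStr`, `smooth_prodStr`;
* `geometricallyIntegral_str`, `geometricallyIntegral_prodStr_str`, `isIntegral_prod_str`,
  `isProper_prodStr_str`, `smooth_prodStr_str` : the abelian-variety versions;
* `hGI_all` : exactly the hypothesis `hGI` of `Skel.cube_of`; `hGI` : the one of
  `Skel.inH_of_curveCube`;
* the instances `instGIStr`, `instGIProdStr`, `instProperStr`, `instProperProdStr`,
  `instIntegralA`, `instIntegralProd` (scoped: `open scoped Fermat.Agent.S26.H60`).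
-/

set_option autoImplicit false
universe u

open CategoryTheory CategoryTheory.Limits AlgebraicGeometry NeronModelInfra GoodReductionJacobian

namespace Fermat.Agent.S26.H60

section Field

variable {K : Type u} [Field K]

/-- A scheme locally of finite type over a field is locally noetherian. -/
theorem isLocallyNoetherian_of_locallyOfFiniteType {Y : Scheme.{u}}
    (y : Y ⟶ Spec (CommRingCat.of K)) [LocallyOfFiniteType y] : IsLocallyNoetherian Y :=
  LocallyOfFiniteType.isLocallyNoetherian y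

/-- The structure map of a product of two `K`-schemes locally of finite type is locally of
finite type. -/
theorem locallyOfFiniteType_prodStr {Y Z : Scheme.{u}} (y : Y ⟶ Spec (CommRingCat.of K))
    (z : Z ⟶ Spec (CommRingCat.of K)) [LocallyOfFiniteType y] [LocallyOfFiniteType z] :
    LocallyOfFiniteType (prodStr y z) := by
  unfold prodStr
  infer_instance

/-- The structure map of a product of two proper `K`-schemes is proper. -/
theorem isProper_prodStr {Y Z : Scheme.{u}} (y : Y ⟶ Spec (CommRingCat.of K))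
    (z : Z ⟶ Spec (CommRingCat.of K)) [IsProper y] [IsProper z] :
    IsProper (prodStr y z) := by
  unfold prodStr
  infer_instance

/-- The structure map of a product of two smooth `K`-schemes is smooth. -/
theorem smooth_prodStr {Y Z : Scheme.{u}} (y : Y ⟶ Spec (CommRingCat.of K))
    (z : Z ⟶ Spec (CommRingCat.of K)) [Smooth y] [Smooth z] :
    Smooth (prodStr y z) := by
  unfold prodStr
  infer_instance

/-- A scheme which is geometrically integral over a field is integral. -/
theorem isIntegral_of_geometricallyIntegral {Y : Scheme.{u}} (y : Y ⟶ Spec (CommRingCat.of K))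
    [GeometricallyIntegral y] : IsIntegral Y :=
  GeometricallyIntegral.isIntegral_of_subsingleton y

/-! ### Abelian varieties: the bundled properties as lemmas -/

theorem smooth_str (X : AbVar K) : Smooth X.str := X.bundle.smooth

theorem isProper_str (X : AbVar K) : IsProper X.str := X.bundle.proper

theorem locallyOfFiniteType_str (X : AbVar K) : LocallyOfFiniteType X.str :=
  haveI := isProper_str X
  inferInstance

theorem isLocallyNoetherian_abVar (X : AbVar K) : IsLocallyNoetherian X.A :=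
  haveI := locallyOfFiniteType_str X
  isLocallyNoetherian_of_locallyOfFiniteType X.str

/-- The structure morphism of the product of two abelian varieties is proper. -/
theorem isProper_prodStr_str (X Y : AbVar K) : IsProper (prodStr X.str Y.str) :=
  haveI := isProper_str X
  haveI := isProper_str Y
  isProper_prodStr X.str Y.str

/-- The structure morphism of the product of two abelian varieties is smooth. -/
theorem smooth_prodStr_str (X Y : AbVar K) : Smooth (prodStr X.str Y.str) :=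
  haveI := smooth_str X
  haveI := smooth_str Y
  smooth_prodStr X.str Y.str

end Field

section AlgClosed

variable {K : Type u} [Field K] [IsAlgClosed K]

/-- An integral scheme, locally of finite type over an algebraically closed field, is
geometrically integral. -/
theorem geometricallyIntegral_of_isIntegral {Y : Scheme.{u}} (y : Y ⟶ Spec (CommRingCat.of K))
    [LocallyOfFiniteType y] [IsIntegral Y] : GeometricallyIntegral y :=
  haveI := isLocallyNoetherian_of_locallyOfFiniteType y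
  S25.H567.geometricallyIntegral_of_isAlgClosed y

/-- The product of two integral schemes, locally of finite type over an algebraically closed
field, is integral. -/
theorem isIntegral_prod {Y Z : Scheme.{u}} (y : Y ⟶ Spec (CommRingCat.of K))
    (z : Z ⟶ Spec (CommRingCat.of K)) [LocallyOfFiniteType y] [LocallyOfFiniteType z]
    [IsIntegral Y] [IsIntegral Z] : IsIntegral (pullback y z) :=
  haveI := isLocallyNoetherian_of_locallyOfFiniteType y
  haveI := isLocallyNoetherian_of_locallyOfFiniteType z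
  S25.H567.isIntegral_pullback_of_isIntegral y z

/-- The product of two integral schemes, locally of finite type over an algebraically closed
field, is geometrically integral. -/
theorem geometricallyIntegral_prodStr {Y Z : Scheme.{u}} (y : Y ⟶ Spec (CommRingCat.of K))
    (z : Z ⟶ Spec (CommRingCat.of K)) [LocallyOfFiniteType y] [LocallyOfFiniteType z]
    [IsIntegral Y] [IsIntegral Z] : GeometricallyIntegral (prodStr y z) :=
  haveI := isIntegral_prod y z
  haveI := locallyOfFiniteType_prodStr y z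
  geometricallyIntegral_of_isIntegral (prodStr y z)

/-- The product of two geometrically integral schemes, locally of finite type over an
algebraically closed field, is geometrically integral. -/
theorem geometricallyIntegral_prodStr_of_gi {Y Z : Scheme.{u}}
    (y : Y ⟶ Spec (CommRingCat.of K)) (z : Z ⟶ Spec (CommRingCat.of K))
    [LocallyOfFiniteType y] [LocallyOfFiniteType z]
    [GeometricallyIntegral y] [GeometricallyIntegral z] :
    GeometricallyIntegral (prodStr y z) :=
  haveI := isIntegral_of_geometricallyIntegral y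
  haveI := isIntegral_of_geometricallyIntegral z
  geometricallyIntegral_prodStr y z

/-! ## Abelian varieties -/

/-- **CUBE:GI**, conditional form. -/
theorem geometricallyIntegral_str_of_integral (hInt : Stmt.Integral K) (X : AbVar K) :
    GeometricallyIntegral X.str :=
  haveI := hInt X
  haveI := locallyOfFiniteType_str X
  geometricallyIntegral_of_isIntegral X.str

/-- The product of two abelian varieties is integral, conditional form. -/
theorem isIntegral_prod_str_of_integral (hInt : Stmt.Integral K) (X Y : AbVar K) :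
    IsIntegral (pullback X.str Y.str) :=
  haveI := hInt X
  haveI := hInt Y
  haveI := locallyOfFiniteType_str X
  haveI := locallyOfFiniteType_str Y
  isIntegral_prod X.str Y.str

/-- **CUBE:GI, product version**, conditional form. -/
theorem geometricallyIntegral_prodStr_str_of_integral (hInt : Stmt.Integral K)
    (X Y : AbVar K) : GeometricallyIntegral (prodStr X.str Y.str) :=
  haveI := hInt X
  haveI := hInt Y
  haveI := locallyOfFiniteType_str X
  haveI := locallyOfFiniteType_str Y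
  geometricallyIntegral_prodStr X.str Y.str

/-- An abelian variety over an algebraically closed field is integral (`H687.integral`). -/
theorem isIntegral_abVar (X : AbVar K) : IsIntegral X.A := H687.integral K X

/-- **CUBE:GI.**  The structure morphism of an abelian variety over an algebraically closed
field is geometrically integral. -/
theorem geometricallyIntegral_str (X : AbVar K) : GeometricallyIntegral X.str :=
  geometricallyIntegral_str_of_integral (H687.integral K) X

/-- The product of two abelian varieties over an algebraically closed field is integral. -/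
theorem isIntegral_prod_str (X Y : AbVar K) : IsIntegral (pullback X.str Y.str) :=
  isIntegral_prod_str_of_integral (H687.integral K) X Y

/-- **CUBE:GI, product version.**  The structure morphism of the product of two abelian
varieties over an algebraically closed field is geometrically integral. -/
theorem geometricallyIntegral_prodStr_str (X Y : AbVar K) :
    GeometricallyIntegral (prodStr X.str Y.str) :=
  geometricallyIntegral_prodStr_str_of_integral (H687.integral K) X Y

/-- Exactly the hypothesis `hGI` of the glue leaf C3 (`Skel.inH_of_curveCube`). -/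
theorem hGI : ∀ X : AbVar K, GeometricallyIntegral X.str :=
  fun X => geometricallyIntegral_str X

/-! ### Scoped instances (`open scoped Fermat.Agent.S26.H60`) -/

/-- `X.A` is integral. -/
scoped instance instIntegralA (X : AbVar K) : IsIntegral X.A := isIntegral_abVar X

/-- `X.str` is geometrically integral. -/
scoped instance instGIStr (X : AbVar K) : GeometricallyIntegral X.str :=
  geometricallyIntegral_str X

/-- `A × B` is integral. -/
scoped instance instIntegralProd (X Y : AbVar K) : IsIntegral (pullback X.str Y.str) :=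
  isIntegral_prod_str X Y

/-- `A × B ⟶ Spec K` is geometrically integral. -/
scoped instance instGIProdStr (X Y : AbVar K) : GeometricallyIntegral (prodStr X.str Y.str) :=
  geometricallyIntegral_prodStr_str X Y

end AlgClosed

section Inst

variable {K : Type u} [Field K]

/-- `X.str` is proper. -/
scoped instance instProperStr (X : AbVar K) : IsProper X.str := isProper_str X

/-- `X.str` is smooth. -/
scoped instance instSmoothStr (X : AbVar K) : Smooth X.str := smooth_str X

/-- `A × B ⟶ Spec K` is proper. -/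
scoped instance instProperProdStr (X Y : AbVar K) : IsProper (prodStr X.str Y.str) :=
  isProper_prodStr_str X Y

end Inst

/-- Exactly the hypothesis `hGI` of the glue leaf C5 (`Skel.cube_of`), conditional form. -/
theorem hGI_all_of_integral
    (hInt : ∀ (K' : Type u) [Field K'] [IsAlgClosed K'], Stmt.Integral K') :
    ∀ (K' : Type u) [Field K'] [IsAlgClosed K'] (X : AbVar K'), GeometricallyIntegral X.str :=
  fun K' _ _ X => geometricallyIntegral_str_of_integral (hInt K') X

/-- Exactly the hypothesis `hGI` of the glue leaf C5 (`Skel.cube_of`). -/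
theorem hGI_all :
    ∀ (K' : Type u) [Field K'] [IsAlgClosed K'] (X : AbVar K'), GeometricallyIntegral X.str :=
  fun _ _ _ X => geometricallyIntegral_str X

end Fermat.Agent.S26.H60

end
-- ===== PACK-END S26/H60/GI.lean

-- ===== PACK-BEGIN S26/H605/PicTw.lean
section



/-!
# Row S26, block PIC, leaf P5 (helper605): triviality of a pulled-back class

`cl (f^* c) = 0` iff the pull-back of the line bundle of `c` has a nowhere vanishing global
section (a twisted family of units).
-/

set_option autoImplicit false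

open AlgebraicGeometry CategoryTheory TopologicalSpace Opposite

universe u

namespace Fermat.Agent.S26.H605

noncomputable section

variable {Y' Y : Scheme.{u}} (f : Y' ⟶ Y) (c : Pic.Cocycle Y)

/-- A twisted family of units trivialises the pulled-back class. -/
theorem cl_pullback_eq_zero_of_twisted (σ : ∀ y : Y, Γ(Y', f ⁻¹ᵁ c.U y)) (hσ : IsTw f c σ)
    (hu : ∀ y, IsUnit (σ y)) : Pic.cl (c.pullback f) = 0 := by
  rw [Pic.cl_eq_zero_iff]
  refine ⟨fun y' => f ⁻¹ᵁ c.U (f y'), fun y' => c.mem (f y'), fun _ => le_rfl,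
    fun y' => (hu (f y')).unit, fun x' y' => ?_⟩
  apply Units.ext
  simp only [Units.val_mul, coe_res, coe_pull, IsUnit.unit_spec, rr_pl]
  exact hσ.on (f x') (f y') inf_le_left inf_le_right

/-- A trivialisation of the pulled-back class gives a twisted family of units. -/
theorem exists_twisted_of_cl_pullback_eq_zero (h : Pic.cl (c.pullback f) = 0) :
    ∃ σ : ∀ y : Y, Γ(Y', f ⁻¹ᵁ c.U y), IsTw f c σ ∧ ∀ y, IsUnit (σ y) := by
  rw [Pic.cl_eq_zero_iff] at h
  obtain ⟨V, hV, hc, h, H⟩ := h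
  obtain ⟨σ, hσ, -, hu⟩ := exists_twisted (f := f) (c := c) V (fun y' => f y') hc
    (fun y' => ⟨y', hV y'⟩) (fun y' => (h y' : Γ(Y', V y'))) (fun a b => by
      have := congrArg (fun u : Γ(Y', V a ⊓ V b)ˣ => (u : Γ(Y', V a ⊓ V b))) (H a b)
      simp only [Units.val_mul, coe_res, coe_pull, rr_pl] at this
      exact this)
  exact ⟨σ, hσ, hu fun a => Units.isUnit _⟩

theorem cl_pullback_eq_zero_iff :
    Pic.cl (c.pullback f) = 0 ↔
      ∃ σ : ∀ y : Y, Γ(Y', f ⁻¹ᵁ c.U y), IsTw f c σ ∧ ∀ y, IsUnit (σ y) :=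
  ⟨exists_twisted_of_cl_pullback_eq_zero f c,
    fun ⟨σ, hσ, hu⟩ => cl_pullback_eq_zero_of_twisted f c σ hσ hu⟩

end

end Fermat.Agent.S26.H605

end
-- ===== PACK-END S26/H605/PicTw.lean

-- ===== PACK-BEGIN S27/Dim/D1.lean
section




/-!
# Row S27, block DIM, leaf D1 (proved): `Stmt.D1 k`

A smooth connected `k`-scheme with a tangent chart of dimension `g` is smooth of relative
dimension `g`.  Uses helper358's `localDim` (`H358/SmoothDim.lean`) and `H566/TangentRank.lean`,
`H566/DerEtale.lean`.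
-/

set_option autoImplicit false
set_option linter.style.haveILetI false
universe u
open CategoryTheory CategoryTheory.Limits AlgebraicGeometry
open scoped TensorProduct

namespace Fermat.Agent.S27.Dim

open Fermat.Agent.S25 Fermat.Agent.S27.H566

/-- Pushing a chart forward along an open immersion. -/
theorem appLE_image_of_isOpenImmersion {X J Y : Scheme.{u}} (j : X ⟶ J) [IsOpenImmersion j]
    (f : J ⟶ Y) (U : Y.Opens) (V' : X.Opens) (e' : V' ≤ (j ≫ f) ⁻¹ᵁ U) :
    ∃ e : j ''ᵁ V' ≤ f ⁻¹ᵁ U,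
      f.appLE U (j ''ᵁ V') e = (j ≫ f).appLE U V' e' ≫ (j.appIso V').inv := by
  have e : j ''ᵁ V' ≤ f ⁻¹ᵁ U := by
    rintro _ ⟨y, hy, rfl⟩
    exact e' hy
  refine ⟨e, ?_⟩
  have he₂ : V' ≤ j ⁻¹ᵁ (j ''ᵁ V') := by
    rw [Scheme.Hom.preimage_image_eq]
  have h1 : f.appLE U (j ''ᵁ V') e ≫ j.appLE (j ''ᵁ V') V' he₂ = (j ≫ f).appLE U V' e' :=
    Scheme.Hom.appLE_comp_appLE j f U (j ''ᵁ V') V' e he₂
  have h2 : (j.appIso V').inv ≫ j.appLE (j ''ᵁ V') V' he₂ = 𝟙 _ := by
    rw [Scheme.Hom.appIso_inv_appLE]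
    exact X.presheaf.map_id _
  have h3 : j.appLE (j ''ᵁ V') V' he₂ = (j.appIso V').hom := by
    rw [← cancel_epi (j.appIso V').inv, h2, Iso.inv_hom_id]
  rw [← h1, h3, Category.assoc, Iso.hom_inv_id, Category.comp_id]

end Fermat.Agent.S27.Dim

namespace Fermat.Agent.S27.Dim

open Fermat.Agent.S25 Fermat.Agent.S27.H566

/-- Algebra core of D1: a smooth `k`-algebra with a `k`-point of tangent dimension `g` has a
localization away from an element (not vanishing at the point) which is standard smooth of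
relative dimension `g`. -/
theorem exists_away_isStandardSmoothOfRelativeDimension {k R : Type u} [Field k] [CommRing R]
    [Algebra k R] (hsm : (algebraMap k R).Smooth) (x : R →ₐ[k] k) (g : ℕ)
    (hx : TangentDim x g) :
    ∃ r : R, x r ≠ 0 ∧ Nontrivial (Localization.Away r) ∧
      Algebra.IsStandardSmoothOfRelativeDimension g k (Localization.Away r) := by
  rw [RingHom.smooth_iff_locally_isStandardSmooth] at hsm
  obtain ⟨s, hs_span, hs_P⟩ := hsm
  obtain ⟨r, hr, hxr⟩ : ∃ r ∈ s, x r ≠ 0 := by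
    by_contra hcon
    push Not at hcon
    have hle : Ideal.span s ≤ RingHom.ker x.toRingHom :=
      Ideal.span_le.mpr (fun t ht => by
        show t ∈ RingHom.ker x.toRingHom
        rw [RingHom.mem_ker]
        exact hcon t ht)
    rw [hs_span] at hle
    have h1 : (1 : R) ∈ RingHom.ker x.toRingHom := hle trivial
    rw [RingHom.mem_ker] at h1
    have : (x.toRingHom 1 : k) = 1 := map_one _
    rw [this] at h1
    exact one_ne_zero h1
  refine ⟨r, hxr, ?_⟩
  suffices h : Algebra.IsStandardSmoothOfRelativeDimension g k (Localization.Away r) from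
    ⟨(IsLocalization.Away.liftAlgHom (S := Localization.Away r) r (f := x)
      (IsUnit.mk0 _ hxr)).toRingHom.domain_nontrivial, h⟩
  have hstd : Algebra.IsStandardSmooth k (Localization.Away r) := by
    rw [← RingHom.isStandardSmooth_algebraMap, IsScalarTower.algebraMap_eq k R (Localization.Away r)]
    exact hs_P r hr
  let x' : Localization.Away r →ₐ[k] k :=
    IsLocalization.Away.liftAlgHom (S := Localization.Away r) r (f := x) (IsUnit.mk0 _ hxr)
  have hx' : pointRestrict (R := R) x' = x := by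
    ext a
    show IsLocalization.Away.lift r (IsUnit.mk0 _ hxr) (algebraMap R (Localization.Away r) a) = x a
    exact IsLocalization.Away.lift_eq r (IsUnit.mk0 _ hxr) a
  haveI : Algebra.FormallyEtale R (Localization.Away r) :=
    Algebra.FormallyEtale.of_isLocalization (Submonoid.powers r)
  have hfin := finrank_derivation_of_formallyEtale (R := R) x'
  rw [hx'] at hfin
  exact isStandardSmoothOfRelativeDimension_of_finrank_derivation x' g (hfin.trans hx)

/-- **D1** (chart form): a smooth connected `k`-scheme with a tangent chart of dimension `g` is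
smooth of relative dimension `g`. -/
theorem d1 (k : Type u) [Field k] : Stmt.D1 k := by
  intro J f g hs hconn hT
  obtain ⟨R, _, _, j, hjo, hj, x, hx⟩ := hT
  haveI := hs
  haveI := hjo
  haveI := hconn
  have hsm : Smooth (specStr k R) := by
    rw [← hj]
    infer_instance
  have h1 : (algebraMap k R).Smooth := (HasRingHomProperty.Spec_iff (P := @Smooth)).mp hsm
  obtain ⟨r, hxr, hnt, hstd⟩ := exists_away_isStandardSmoothOfRelativeDimension h1 x g hx
  haveI : IsOpenImmersion (Spec.map (CommRingCat.ofHom (algebraMap R (Localization.Away r)))) :=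
    IsOpenImmersion.of_isLocalization r
  let j' : Spec (CommRingCat.of (Localization.Away r)) ⟶ J :=
    Spec.map (CommRingCat.ofHom (algebraMap R (Localization.Away r))) ≫ j
  have hj' : j' ≫ f = specStr k (Localization.Away r) := by
    show (Spec.map _ ≫ j) ≫ f = _
    rw [Category.assoc, hj, specStr, specStr, ← Spec.map_comp, ← CommRingCat.ofHom_comp,
      IsScalarTower.algebraMap_eq k R (Localization.Away r)]
  have hS : SmoothOfRelativeDimension g (j' ≫ f) := by
    rw [hj', specStr, HasRingHomProperty.Spec_iff (P := @SmoothOfRelativeDimension g)]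
    exact RingHom.locally_of RingHom.isStandardSmoothOfRelativeDimension_respectsIso _
      ((RingHom.isStandardSmoothOfRelativeDimension_algebraMap g).mpr hstd)
  obtain ⟨p⟩ : Nonempty (Spec (CommRingCat.of (Localization.Away r))) :=
    inferInstanceAs (Nonempty (PrimeSpectrum (Localization.Away r)))
  obtain ⟨U, hU, V', hV', hp, e', h'⟩ :=
    hS.exists_isStandardSmoothOfRelativeDimension p
  obtain ⟨e, he⟩ := appLE_image_of_isOpenImmersion j' f U V' e'
  have hchart : (f.appLE U (j' ''ᵁ V') e).hom.IsStandardSmoothOfRelativeDimension g := by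
    rw [he]
    exact RingHom.isStandardSmoothOfRelativeDimension_respectsIso.left _
      (j'.appIso V').symm.commRingCatIsoToRingEquiv h'
  have hz : H358.localDim f (j' p) = g :=
    H358.localDim_eq_of_chart f (j' p) U (j' ''ᵁ V') (hV'.image_of_isOpenImmersion j')
      ⟨p, hp, rfl⟩ e g hchart
  exact H358.smoothOfRelativeDimension_of_localDim f (j' p) g hz

/-- **DIM from TAN alone**: the block statement follows from a tangent chart of the Jacobian. -/
theorem main_of_tan_d1 (k : Type u) [Field k] (hTan : Stmt.Tan k) : Stmt.Main k :=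
  main_of_tan k (d1 k) hTan

end Fermat.Agent.S27.Dim

end
-- ===== PACK-END S27/Dim/D1.lean

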