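import Mathlib
import Mathlib.RingTheory.AdjoinRoot
import Fermat.Prelude.Def_CuspForm_HeckeAlgebra
import Fermat.Agent.Pack.S43MC.G0E10L1
import Fermat.Agent.Pack.S43MC.G0E10L0
import Fermat.Agent.Pack.S43MC.G0E9L2
import Fermat.Agent.Pack.S43MC.G0E3L1
import Fermat.Agent.Pack.S43MC.G0E9L0
import Fermat.Agent.Pack.S43MC.G0E3L3
import Fermat.Agent.Pack.S44C.G0E10L2
import Fermat.Agent.Pack.S44C.G0E8L1
import Fermat.Agent.Pack.S43GC.G0E5L0
import Fermat.Agent.Pack.S43MC.G0E10L2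
import Fermat.Agent.Pack.S43MC.G0E10L3
import Fermat.Agent.Pack.S43MC.G0E9L3
import Fermat.Agent.Pack.S43MC.G0E4L0
import Fermat.Agent.Pack.S43MC.G0E4L3
import Fermat.Agent.Pack.S43MC.G0E7L2
import Fermat.Agent.Pack.S44C.G0E8L0
import Fermat.Agent.Pack.S43GC.G0E2L0
import Fermat.Agent.Pack.S43MC.G0E2L2
import Fermat.Agent.Pack.S43GC.G0E7L1
import Fermat.Agent.Pack.S44C.G0E11L3
import Fermat.Agent.Pack.Fast891

-- ===== PACK-BEGIN Lib/Newform/H803/QSeries.lean
section



/-!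
# `q`-series of the hat transform and of the operators `avgT`, `killL` (helper803)
-/

set_option autoImplicit false

namespace Fermat.Agent.Lib.Newform.H803

open Matrix Matrix.SpecialLinearGroup CongruenceSubgroup UpperHalfPlane ModularForm
open scoped MatrixGroups ModularForm Manifold Real

variable {k : ℤ}

/-- `F(τ) = ∑ c_n e^{2πi n τ / N}`. -/
def HasQN (N : ℕ) (c : ℕ → ℂ) (F : ℍ → ℂ) : Prop :=
  ∀ τ : ℍ, HasSum (fun n : ℕ => c n * Complex.exp (2 * π * Complex.I * n * τ / N)) (F τ)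

theorem HasQN.eq_zero {N : ℕ} {c : ℕ → ℂ} {F : ℍ → ℂ} (h : HasQN N c F) (hc : ∀ n, c n = 0) :
    F = 0 := by
  funext τ
  have h1 := h τ
  simp only [hc, zero_mul] at h1
  exact h1.unique hasSum_zero

theorem HasQN.sub {N : ℕ} {c c' : ℕ → ℂ} {F F' : ℍ → ℂ} (h : HasQN N c F) (h' : HasQN N c' F') :
    HasQN N (fun n => c n - c' n) (F - F') := by
  intro τ
  have := (h τ).sub (h' τ)
  simpa [sub_mul] using this

theorem coe_tU_smul (x : ℤ) (τ : ℍ) : ((tU x • τ : ℍ) : ℂ) = τ + x := by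
  rw [tU_eq_T_zpow, ModularGroup.coe_T_zpow_smul_eq]

theorem slash_tU_apply (F : ℍ → ℂ) (x : ℤ) (τ : ℍ) : (F ∣[k] tU x) τ = F (tU x • τ) := by
  rw [ModularForm.SL_slash_apply]
  have : denom (tU x) τ = 1 := by
    rw [ModularGroup.denom_apply]
    simp
  rw [this, _root_.one_zpow, mul_one]

/-- The sum of the `p`-th roots of unity to the power `n`. -/
theorem sum_exp_eq {p : ℕ} (hp : p ≠ 0) (n : ℕ) :
    ∑ j ∈ Finset.range p, Complex.exp (2 * π * Complex.I * n * j / p) =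
      if p ∣ n then (p : ℂ) else 0 := by
  have hprim := Complex.isPrimitiveRoot_exp p hp
  set ζ : ℂ := Complex.exp (2 * π * Complex.I / p) with hζ
  have e : ∀ j : ℕ, Complex.exp (2 * π * Complex.I * n * j / p) = (ζ ^ n) ^ j := by
    intro j
    rw [hζ, ← Complex.exp_nat_mul, ← Complex.exp_nat_mul]
    congr 1
    ring
  simp only [e]
  split_ifs with h
  · have h1 : ζ ^ n = 1 := (hprim.pow_eq_one_iff_dvd n).mpr h
    simp [h1]
  · have h1 : ζ ^ n ≠ 1 := fun h1 => h ((hprim.pow_eq_one_iff_dvd n).mp h1)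
    have h2 := geom_sum_mul (ζ ^ n) p
    have h3 : (ζ ^ n) ^ p = 1 := by
      rw [← pow_mul, mul_comm, pow_mul, hprim.pow_eq_one, one_pow]
    rw [h3, sub_self] at h2
    rcases mul_eq_zero.mp h2 with h4 | h4
    · exact h4
    · exact absurd (sub_eq_zero.mp h4) h1

/-- `q`-series of `avgT`. -/
theorem hasQN_avgT {N : ℕ} {c : ℕ → ℂ} {F : ℍ → ℂ} (h : HasQN N c F) {p : ℕ} (hp : p ≠ 0)
    (hpN : p ∣ N) (hN : N ≠ 0) :
    HasQN N (fun n => if p ∣ n then c n else 0) (avgT k (↑(N / p)) p F) := by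
  intro τ
  have hN' : (N : ℂ) ≠ 0 := by exact_mod_cast hN
  have hp' : (p : ℂ) ≠ 0 := by exact_mod_cast hp
  have hval : avgT k (↑(N / p)) p F τ =
      (p : ℂ)⁻¹ * ∑ j ∈ Finset.range p, F (tU ((j : ℤ) * ↑(N / p)) • τ) := by
    simp only [Fermat.Agent.Lib.Newform.H803.avgT, Pi.smul_apply, Finset.sum_apply,
      slash_tU_apply, smul_eq_mul]
  rw [hval]
  have hsum : HasSum (fun n : ℕ => ∑ j ∈ Finset.range p,
      c n * Complex.exp (2 * π * Complex.I * n * ((tU ((j : ℤ) * ↑(N / p)) • τ : ℍ) : ℂ) / N))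
      (∑ j ∈ Finset.range p, F (tU ((j : ℤ) * ↑(N / p)) • τ)) :=
    hasSum_sum fun j _ => h (tU ((j : ℤ) * ↑(N / p)) • τ)
  have hsum' := hsum.mul_left ((p : ℂ)⁻¹)
  have hfun : (fun n : ℕ => (if p ∣ n then c n else 0) *
      Complex.exp (2 * π * Complex.I * n * τ / N)) = fun n : ℕ => (p : ℂ)⁻¹ *
      ∑ j ∈ Finset.range p,
        c n * Complex.exp (2 * π * Complex.I * n * ((tU ((j : ℤ) * ↑(N / p)) • τ : ℍ) : ℂ) / N) := by
    funext n
    have e : ∀ j : ℕ, c n * Complex.exp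
      (2 * π * Complex.I * n * ((tU ((j : ℤ) * ↑(N / p)) • τ : ℍ) : ℂ) / N) =
      (c n * Complex.exp (2 * π * Complex.I * n * τ / N)) *
        Complex.exp (2 * π * Complex.I * n * j / p) := by
      intro j
      rw [coe_tU_smul, mul_assoc (c n), ← Complex.exp_add]
      congr 2
      have hd : ((N / p : ℕ) : ℂ) = (N : ℂ) / p := by
        rw [Nat.cast_div hpN hp']
      have hcast : (((j : ℤ) * ((N / p : ℕ) : ℤ) : ℤ) : ℂ) = (j : ℂ) * ((N : ℂ) / p) := by
        rw [Int.cast_mul, Int.cast_natCast, Int.cast_natCast, hd]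
      rw [hcast]
      field_simp
    simp only [e, ← Finset.mul_sum, sum_exp_eq hp]
    split_ifs with hpn
    · field_simp
    · simp
  rw [hfun]
  exact hsum'

theorem HasQN.congr {N : ℕ} {c c' : ℕ → ℂ} {F : ℍ → ℂ} (h : HasQN N c F)
    (hc : ∀ n, c n = c' n) : HasQN N c' F := by
  have : c = c' := funext hc
  rwa [← this]

/-- `q`-series of `killL`. -/
theorem hasQN_killL {N : ℕ} (hN : N ≠ 0) {c : ℕ → ℂ} {F : ℍ → ℂ} (h : HasQN N c F) :
    ∀ L : List ℕ, (∀ p ∈ L, p ≠ 0 ∧ p ∣ N) →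
      HasQN N (fun n => if ∃ p ∈ L, p ∣ n then 0 else c n) (killL k N L F)
  | [], _ => by
    rw [killL_nil]
    exact h.congr fun n => by simp
  | p :: L, hL => by
    have ih := hasQN_killL hN h L (fun q hq => hL q (List.mem_cons_of_mem _ hq))
    have h1 := hasQN_avgT (k := k) ih (hL p List.mem_cons_self).1 (hL p List.mem_cons_self).2 hN
    have h2 := ih.sub h1
    rw [killL_cons]
    refine h2.congr fun n => ?_
    by_cases hp : p ∣ n <;> by_cases hq : ∃ q ∈ L, q ∣ n <;> simp [hp, hq]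

/-- `q`-series of the hat transform. -/
theorem hasQN_hat {N : ℕ} (hN : N ≠ 0) {f : ℍ → ℂ} {a : ℕ → ℂ}
    (hf : ∀ τ : ℍ, HasSum (fun m : ℕ => a m * Function.Periodic.qParam 1 τ ^ m) (f τ)) :
    HasQN N (fun n => (N : ℂ)⁻¹ * a n) (f ∣[k] heckeMatrix N 0) := by
  intro τ
  rw [slash_heckeMatrix_apply k hN 0 f τ]
  have h1 := (hf (heckeMatrix N 0 • τ)).mul_left ((N : ℂ)⁻¹)
  have hfun : (fun n : ℕ => (N : ℂ)⁻¹ * a n * Complex.exp (2 * π * Complex.I * n * τ / N)) =
      fun m : ℕ => (N : ℂ)⁻¹ *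
        (a m * Function.Periodic.qParam 1 ((heckeMatrix N 0 • τ : ℍ) : ℂ) ^ m) := by
    funext n
    rw [mul_assoc, Function.Periodic.qParam, ← Complex.exp_nat_mul, coe_heckeMatrix_smul hN]
    congr 3
    push_cast
    ring
  rw [hfun]
  exact h1

end Fermat.Agent.Lib.Newform.H803

end
-- ===== PACK-END Lib/Newform/H803/QSeries.lean

-- ===== PACK-BEGIN S35/H433/PhiAsm.lean
section


/-!
# S35 / (G) — `φ`-ASM: local factorisation of `φ u / u ^ Q` for split `u` (helper433)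

`φ` = a semilinear automorphism of the function field `F` which preserves a chart `B` of a
semistable model and its two components, acts on the constants as the `Q`-power map modulo `w`
and FIXES THE CROSSING POINTS (for `S35`: `φ = Frob²` at a prime `q ‖ N`, `Q = q²`; the crossing
points of `X₀(N)` mod `q` are supersingular, hence `𝔽_{q²}`-rational).

`localFactor_phi_of_pureAt` : purity data for `u` at `φ⁻¹ n` and at `n` (leaves P-S / P-N of the
A2 wall, `Fermat/Agent/A2/Alg`), `u` split  ⟹  `LocalFactor B c m (φ u / u ^ Q) n`.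

Together with the leaf GLUE of the A2 wall this gives `φ u = h ^ m · u ^ Q` (`FrobToric.lean`).
-/

set_option autoImplicit false

namespace Fermat.Agent.S35.H433

open Fermat.Agent.A2 Fermat.Agent.A2.Alg

variable {R F : Type*} [CommRing R] [Field F] [Algebra R F]

/-- The standing hypotheses on `φ`, on one chart. -/
structure PhiCtx (w : R) (B : Subalgebra R F) (c : SSChart w B) (φ : F ≃+* F) (Q : ℕ) :
    Prop where
  /-- `φ` maps the chart into itself -/
  mapB : ∀ b : F, b ∈ B → φ b ∈ B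
  /-- `φ⁻¹` maps the chart into itself -/
  mapB' : ∀ b : F, φ b ∈ B → b ∈ B
  /-- `φ` preserves the first component -/
  map₁ : ∀ b : B, (⟨φ b, mapB b b.2⟩ : B) ∈ c.p₁ ↔ b ∈ c.p₁
  /-- `φ` preserves the second component -/
  map₂ : ∀ b : B, (⟨φ b, mapB b b.2⟩ : B) ∈ c.p₂ ↔ b ∈ c.p₂
  /-- `φ` is the `Q`-power map on constants modulo `w` -/
  frob : ∀ r : R, ∃ s : B, φ (algebraMap R F r) - algebraMap R F r ^ Q = algebraMap R F w * s

variable {w : R} {B : Subalgebra R F} {c : SSChart w B} {φ : F ≃+* F} {Q : ℕ}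

/-- The restriction of `φ` to the chart. -/
def PhiCtx.hom (hφ : PhiCtx w B c φ Q) : B →+* B where
  toFun b := ⟨φ b, hφ.mapB b b.2⟩
  map_one' := Subtype.ext (by simp)
  map_mul' a b := Subtype.ext (by simp)
  map_zero' := Subtype.ext (by simp)
  map_add' a b := Subtype.ext (by simp)

@[simp] theorem PhiCtx.coe_hom (hφ : PhiCtx w B c φ Q) (b : B) : ((hφ.hom b : B) : F) = φ b := rfl

/-- Transport of `I B_{n'}` to `J B_n` along `φ`. -/
theorem PhiCtx.inLoc (hφ : PhiCtx w B c φ Q) {n n' I J : Ideal B}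
    (hnn' : ∀ b : B, b ∉ n' → hφ.hom b ∉ n) (hIJ : ∀ b : B, b ∈ I → hφ.hom b ∈ J) {u : F}
    (h : InLoc B n' I u) : InLoc B n J (φ u) := by
  obtain ⟨a, b, ha, hb, hab⟩ := h
  refine ⟨hφ.hom a, hφ.hom b, hIJ a ha, hnn' b hb, ?_⟩
  rw [hφ.coe_hom, hφ.coe_hom, ← map_mul, hab]

/-- Transport of units of `B_{n'}` to units of `B_n` along `φ`. -/
theorem PhiCtx.locUnit (hφ : PhiCtx w B c φ Q) {n n' : Ideal B}
    (hnn' : ∀ b : B, b ∉ n' → hφ.hom b ∉ n) {u : F} (h : LocUnit B n' u) :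
    LocUnit B n (φ u) := by
  obtain ⟨a, b, ha, hb, hab⟩ := h
  refine ⟨hφ.hom a, hφ.hom b, hnn' a ha, hnn' b hb, ?_⟩
  rw [hφ.coe_hom, hφ.coe_hom, ← map_mul, hab]

theorem PhiCtx.hom_surjective (hφ : PhiCtx w B c φ Q) : Function.Surjective hφ.hom := by
  intro b
  refine ⟨⟨φ.symm b, hφ.mapB' _ (by rw [φ.apply_symm_apply]; exact b.2)⟩, ?_⟩
  apply Subtype.ext
  rw [hφ.coe_hom]
  exact φ.apply_symm_apply _

theorem PhiCtx.not_mem_comap (hφ : PhiCtx w B c φ Q) (n : Ideal B) :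
    ∀ b : B, b ∉ n.comap hφ.hom → hφ.hom b ∉ n := fun _ hb => hb

theorem mem_w_left (c : SSChart w B) : algebraMap R B w ∈ c.p₁ := by
  have : algebraMap R B w ∈ c.p₁ ⊓ c.p₂ := by
    rw [c.inf_eq]
    exact Ideal.mem_span_singleton_self _
  exact this.1

theorem mem_w_right (c : SSChart w B) : algebraMap R B w ∈ c.p₂ := by
  have : algebraMap R B w ∈ c.p₁ ⊓ c.p₂ := by
    rw [c.inf_eq]
    exact Ideal.mem_span_singleton_self _
  exact this.2

/-- A unit constant is a unit of every `B_p`. -/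
theorem locUnit_const {p : Ideal B} [hp : p.IsPrime] {c₀ : R} (hc : IsUnit c₀) :
    LocUnit B p (algebraMap R F c₀) := by
  have hu : IsUnit (algebraMap R B c₀) := hc.map _
  have hnp : algebraMap R B c₀ ∉ p := fun h => hp.ne_top (Ideal.eq_top_of_isUnit_mem _ h hu)
  refine ⟨algebraMap R B c₀, 1, hnp, fun h => hp.ne_top ((Ideal.eq_top_iff_one p).2 h), ?_⟩
  simp

/-- Data extracted from `ConstAt`: `u` is a unit at `p`, congruent to a unit constant. -/
theorem exists_const_of_constAt {p : Ideal B} [hp : p.IsPrime] {u : F} (h : ConstAt B p u) :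
    ∃ c₀ : R, IsUnit c₀ ∧ LocUnit B p u ∧ InLoc B p p (u - algebraMap R F c₀) := by
  obtain ⟨c₀, hc, a, b, hb, hab, hu⟩ := h
  have hcong : InLoc B p p (u - algebraMap R F c₀) := by
    refine ⟨a - algebraMap R B c₀ * b, b, hab, hb, ?_⟩
    push_cast
    rw [← hu]
    ring
  exact ⟨c₀, hc, locUnit_of_cong (locUnit_const hc) hcong, hcong⟩

/-- **Step 2.**  `u` with constant residue at a `φ`-stable component `p`  ⟹  `φ u / u ^ Q ≡ 1`
on `p`. -/
theorem PhiCtx.cong_one_of_constAt (hφ : PhiCtx w B c φ Q) {p : Ideal B} [hp : p.IsPrime]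
    (hwp : algebraMap R B w ∈ p) (hmap : ∀ b : B, hφ.hom b ∈ p ↔ b ∈ p) {u : F}
    (h : ConstAt B p u) : InLoc B p p (φ u * (u ^ Q)⁻¹ - 1) := by
  obtain ⟨c₀, hc, huu, hcong⟩ := exists_const_of_constAt h
  have hcu : LocUnit B p (algebraMap R F c₀) := locUnit_const hc
  have hnn : ∀ b : B, b ∉ p → hφ.hom b ∉ p := fun b hb h' => hb ((hmap b).1 h')
  have hII : ∀ b : B, b ∈ p → hφ.hom b ∈ p := fun b hb => (hmap b).2 hb
  -- `φ u ≡ φ c₀ ≡ c₀ ^ Q`
  have h1 : InLoc B p p (φ u - φ (algebraMap R F c₀)) := by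
    rw [← map_sub]
    exact hφ.inLoc hnn hII hcong
  have h2 : InLoc B p p (φ (algebraMap R F c₀) - algebraMap R F c₀ ^ Q) := by
    obtain ⟨s, hs⟩ := hφ.frob c₀
    rw [hs]
    have : algebraMap R F w * (s : F) = ((algebraMap R B w * s : B) : F) := rfl
    rw [this]
    exact inLoc_coe (p.mul_mem_right _ hwp)
  have h3 : InLoc B p p (φ u - algebraMap R F c₀ ^ Q) := cong_trans h1 h2
  have hcQ : LocUnit B p (algebraMap R F c₀ ^ Q) := locUnit_pow hcu Q
  have huQ : LocUnit B p (u ^ Q) := locUnit_pow huu Q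
  have h4 : InLoc B p p (u ^ Q - algebraMap R F c₀ ^ Q) :=
    cong_pow (locUnit_iff.1 huu).2.1 (locUnit_iff.1 hcu).2.1 hcong Q
  have h5 := cong_inv huQ hcQ h4
  have hφu : LocUnit B p (φ u) := locUnit_of_cong hcQ h3
  have h6 := cong_mul (locUnit_iff.1 hφu).2.1 (locUnit_iff.1 hcQ).2.2 h3 h5
  rwa [mul_inv_cancel₀ (locUnit_iff.1 hcQ).1] at h6

/-- **Step 6.**  The final assembly of a local factorisation. -/
theorem localFactor_of_patch (c : SSChart w B) {m : ℕ} {v δ υ η : F} {n : Ideal B}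
    [hn : n.IsPrime] (hrel : v * δ ^ m = υ) (hυ : InLoc B n ⊤ υ) (hη : InLoc B n ⊤ η)
    (hδ₁ : LocUnit B c.p₁ δ) (hδ₂ : LocUnit B c.p₂ δ)
    (hv₁ : InLoc B c.p₁ c.p₁ (v - 1)) (hv₂ : InLoc B c.p₂ c.p₂ (v - 1))
    (hη₁ : InLoc B c.p₁ c.p₁ (η - δ⁻¹)) (hη₂ : InLoc B c.p₂ c.p₂ (η - δ⁻¹)) :
    LocalFactor B c m v n := by
  have := c.prime₁
  have := c.prime₂
  have hδ0 : δ ≠ 0 := locUnit_ne_zero hδ₁
  have key : ∀ (p : Ideal B) [p.IsPrime], LocUnit B p δ → InLoc B p p (v - 1) →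
      InLoc B p p (η - δ⁻¹) → InLoc B p p (δ * η - 1) ∧ InLoc B p p (v * (δ * η) ^ m - 1) := by
    intro p _ hδ hv hη'
    have hδ' := (locUnit_iff.1 hδ).2.1
    have h1 : InLoc B p p (δ * η - 1) := by
      have e : δ * η - 1 = δ * (η - δ⁻¹) := by
        rw [mul_sub, mul_inv_cancel₀ hδ0]
      rw [e]
      exact hδ'.mul hη'
    have hone : InLoc B p ⊤ (1 : F) := inLoc_one p
    have hh : InLoc B p ⊤ (δ * η) := inLoc_of_cong hone h1
    have hvv : InLoc B p ⊤ v := inLoc_of_cong hone hv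
    have h2 := cong_pow hh hone h1 m
    have h3 := cong_mul hvv (hone.pow m) hv h2
    rw [one_pow, one_mul] at h3
    exact ⟨h1, h3⟩
  obtain ⟨h11, h12⟩ := key c.p₁ hδ₁ hv₁ hη₁
  obtain ⟨h21, h22⟩ := key c.p₂ hδ₂ hv₂ hη₂
  have hη0 : η ≠ 0 := by
    rintro rfl
    rw [mul_zero, zero_sub] at h11
    have := h11.neg
    rw [neg_neg] at this
    exact not_inLoc_one this
  refine ⟨δ * η, mul_ne_zero hδ0 hη0, ?_, oneAt_iff.2 h11, oneAt_iff.2 h21⟩
  rw [locOne_iff, ← c.inf_eq]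
  have hmem : InLoc B n ⊤ (v * (δ * η) ^ m) := by
    have e : v * (δ * η) ^ m = υ * η ^ m := by
      rw [mul_pow, ← mul_assoc, hrel]
    rw [e]
    exact hυ.mul (hη.pow m)
  exact inLoc_inf_of_oneAt hmem h12 h22

/-- **Step 4/5, smooth case.**  `n` lies on the component `p` and not on `p'`. -/
theorem exists_eta_smooth {n p p' : Ideal B} [hn : n.IsPrime] [hp : p.IsPrime]
    [hp' : p'.IsPrime] (hpn : p ≤ n) (hp'n : ¬ p' ≤ n) (hpp' : ¬ p ≤ p')
    (hnorm : IsIntegrallyClosed (B ⧸ p)) {m : ℕ} (hm : 0 < m) {v δ υ : F}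
    (hrel : v * δ ^ m = υ) (hυ : LocUnit B n υ)
    (hδ : LocUnit B p δ) (hδ' : LocUnit B p' δ) (hv : InLoc B p p (v - 1)) :
    ∃ η : F, InLoc B n ⊤ η ∧ InLoc B p p (η - δ⁻¹) ∧ InLoc B p' p' (η - δ⁻¹) := by
  obtain ⟨hδ0, hδ1, hδ2⟩ := locUnit_iff.1 hδ
  obtain ⟨hυ0, hυ1, hυ2⟩ := locUnit_iff.1 hυ
  have hpow : InLoc B p p (δ⁻¹ ^ m - υ⁻¹) := by
    have e : δ⁻¹ ^ m - υ⁻¹ = (v - 1) * υ⁻¹ := by
      rw [← hrel] at hυ0 ⊢
      have hv0 : v ≠ 0 := left_ne_zero_of_mul hυ0
      have hδm : δ ^ m ≠ 0 := pow_ne_zero _ hδ0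
      rw [inv_pow, mul_inv, sub_mul, one_mul, ← mul_assoc, mul_inv_cancel₀ hv0, one_mul]
    rw [e]
    exact hv.mul' (hυ2.anti hpn)
  obtain ⟨ρ, hρ, hρ'⟩ := exists_res_of_pow hpn hnorm hm hδ2 hυ2 hpow
  obtain ⟨η, hη, hη₁, hη₂⟩ := exists_patch_smooth hpn hp'n hpp' hρ (locUnit_iff.1 hδ').2.2
  exact ⟨η, hη, cong_trans hη₁ (cong_symm hρ'), hη₂⟩

/-! ### crossing points -/

/-- `φ` fixes `n` as a set. -/
theorem PhiCtx.mem_of_hom_mem (hφ : PhiCtx w B c φ Q) {n : Ideal B} (hn : n.IsMaximal)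
    (hfix : ∀ b : B, b ∈ n → hφ.hom b ∈ n) (b : B) (h : hφ.hom b ∈ n) : b ∈ n := by
  have hle : n ≤ n.comap hφ.hom := fun x hx => hfix x hx
  have hne : n.comap hφ.hom ≠ ⊤ := (Ideal.comap_isPrime hφ.hom n).ne_top
  have := hn.eq_of_le hne hle
  rw [this]
  exact h

/-- **Lemma EV.**  At a fixed closed point with residue field `R / w`, `φ b ≡ b ^ Q`. -/
theorem PhiCtx.hom_sub_pow_mem (hφ : PhiCtx w B c φ Q) {n : Ideal B}
    (hwn : algebraMap R B w ∈ n) (hk : ∀ b : B, ∃ r : R, b - algebraMap R B r ∈ n)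
    (hfix : ∀ b : B, b ∈ n → hφ.hom b ∈ n) (a : B) : hφ.hom a - a ^ Q ∈ n := by
  obtain ⟨r, hr⟩ := hk a
  obtain ⟨s, hs⟩ := hφ.frob r
  have h1 : hφ.hom (algebraMap R B r) - algebraMap R B r ^ Q = algebraMap R B w * s := by
    apply Subtype.ext
    push_cast
    rw [hφ.coe_hom]
    exact hs
  have h2 : a ^ Q - algebraMap R B r ^ Q ∈ n := by
    obtain ⟨t, ht⟩ := sub_dvd_pow_sub_pow a (algebraMap R B r) Q
    rw [ht]
    exact n.mul_mem_right _ hr
  have e : hφ.hom a - a ^ Q = hφ.hom (a - algebraMap R B r) + algebraMap R B w * s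
      - (a ^ Q - algebraMap R B r ^ Q) := by
    rw [← h1, map_sub]
    ring
  rw [e]
  exact n.sub_mem (n.add_mem (hfix _ hr) (n.mul_mem_right _ hwn)) h2

/-- At a fixed closed point, `φ ρ / ρ ^ Q ≡ 1 mod n B_n` for every unit `ρ` of `B_n`. -/
theorem PhiCtx.cong_one_of_fixed (hφ : PhiCtx w B c φ Q) {n : Ideal B} (hn : n.IsMaximal)
    (hwn : algebraMap R B w ∈ n) (hk : ∀ b : B, ∃ r : R, b - algebraMap R B r ∈ n)
    (hfix : ∀ b : B, b ∈ n → hφ.hom b ∈ n) {ρ : F} (hρ : LocUnit B n ρ) :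
    InLoc B n n (φ ρ * (ρ ^ Q)⁻¹ - 1) := by
  have hnp := hn.isPrime
  obtain ⟨a, b, ha, hb, hab⟩ := hρ
  have ha0 : (a : F) ≠ 0 := coe_ne_zero_of_not_mem ha
  have hb0 : (b : F) ≠ 0 := coe_ne_zero_of_not_mem hb
  have hφb : hφ.hom b ∉ n := fun h => hb (hφ.mem_of_hom_mem hn hfix b h)
  have hφb0 : φ (b : F) ≠ 0 := (map_ne_zero φ).2 hb0
  refine ⟨hφ.hom a * b ^ Q - a ^ Q * hφ.hom b, hφ.hom b * a ^ Q, ?_, ?_, ?_⟩
  · have e : hφ.hom a * b ^ Q - a ^ Q * hφ.hom b
        = (hφ.hom a - a ^ Q) * b ^ Q - a ^ Q * (hφ.hom b - b ^ Q) := by ring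
    rw [e]
    exact n.sub_mem (n.mul_mem_right _ (hφ.hom_sub_pow_mem hwn hk hfix a))
      (n.mul_mem_left _ (hφ.hom_sub_pow_mem hwn hk hfix b))
  · intro h
    rcases hnp.mem_or_mem h with h | h
    · exact hφb h
    · exact ha (hnp.mem_of_pow_mem _ h)
  · have hρe : ρ = (a : F) / b := by
      field_simp
      exact hab
    push_cast
    rw [hφ.coe_hom, hφ.coe_hom, hρe, map_div₀, div_pow]
    field_simp

/-- **Step 4, crossing point, one branch.**  `d ≡ r` on the branch `p` for a unit `r` of `B_n`;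
hence `φ d / d ^ Q ≡ θ := φ r / r ^ Q` on `p`, and `θ ≡ 1 mod n`. -/
theorem PhiCtx.exists_theta (hφ : PhiCtx w B c φ Q) {n p : Ideal B} (hn : n.IsMaximal)
    [hp : p.IsPrime] (hpn : p ≤ n) (hmap : ∀ b : B, hφ.hom b ∈ p ↔ b ∈ p)
    (hnorm : IsIntegrallyClosed (B ⧸ p))
    (hwn : algebraMap R B w ∈ n) (hk : ∀ b : B, ∃ r : R, b - algebraMap R B r ∈ n)
    (hfix : ∀ b : B, b ∈ n → hφ.hom b ∈ n) {m : ℕ} (hm : 0 < m) {u d : F}
    (hu : ConstAt B p u) (hd : LocUnit B p d) (hε : LocUnit B n (u * d ^ m)) :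
    ∃ θ : F, LocUnit B n θ ∧ InLoc B n n (θ - 1) ∧ InLoc B p p (φ d * (d ^ Q)⁻¹ - θ) := by
  have hnp := hn.isPrime
  obtain ⟨c₀, hc, huu, hcong⟩ := exists_const_of_constAt hu
  obtain ⟨hu0, hu1, hu2⟩ := locUnit_iff.1 huu
  obtain ⟨hd0, hd1, hd2⟩ := locUnit_iff.1 hd
  obtain ⟨hε0, hε1, hε2⟩ := locUnit_iff.1 hε
  have hcn : LocUnit B n (algebraMap R F c₀) := locUnit_const hc
  have hcp : LocUnit B p (algebraMap R F c₀) := locUnit_const hc
  obtain ⟨hc0, hc1, hc2⟩ := locUnit_iff.1 hcn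
  have hdm0 : d ^ m ≠ 0 := pow_ne_zero _ hd0
  -- `d ^ m ≡ ε c₀⁻¹` and `d⁻¹ ^ m ≡ c₀ ε⁻¹` on `p`
  have hinv : InLoc B p p (u⁻¹ - (algebraMap R F c₀)⁻¹) := cong_inv huu hcp hcong
  have h1 : InLoc B p p (d ^ m - (u * d ^ m) * (algebraMap R F c₀)⁻¹) := by
    have e : d ^ m - (u * d ^ m) * (algebraMap R F c₀)⁻¹
        = (u * d ^ m) * (u⁻¹ - (algebraMap R F c₀)⁻¹) := by
      field_simp
    rw [e]
    exact (hε1.anti hpn).mul hinv
  have h2 : InLoc B p p (d⁻¹ ^ m - algebraMap R F c₀ * (u * d ^ m)⁻¹) := by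
    have e : d⁻¹ ^ m - algebraMap R F c₀ * (u * d ^ m)⁻¹
        = (u - algebraMap R F c₀) * (u * d ^ m)⁻¹ := by
      rw [sub_mul, mul_inv, mul_inv_cancel_left₀ hu0, inv_pow]
    rw [e]
    exact hcong.mul' (hε2.anti hpn)
  obtain ⟨r, hr, hr'⟩ := exists_res_of_pow hpn hnorm hm hd1 (hε1.mul hc2) h1
  obtain ⟨r', hr₂, hr₂'⟩ := exists_res_of_pow hpn hnorm hm hd2 (hc1.mul hε2) h2
  -- `r r' ≡ 1`, so `r` is a unit of `B_n`
  have h3 : InLoc B p p (r * r' - 1) := by
    have := cong_mul (hr.anti hpn) hd2 (cong_symm hr') (cong_symm hr₂')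
    rwa [mul_inv_cancel₀ hd0] at this
  have h4 : InLoc B n n (r * r' - 1) := (InLoc.of_le ((hr.mul hr₂).sub (inLoc_one n)) h3).mono hpn
  have h5 : LocUnit B n (r * r') := locUnit_of_cong (locUnit_one n) h4
  have hr0 : r ≠ 0 := left_ne_zero_of_mul (locUnit_ne_zero h5)
  have hrU : LocUnit B n r := by
    refine locUnit_iff.2 ⟨hr0, hr, ?_⟩
    have e : r⁻¹ = r' * (r * r')⁻¹ := by
      have hr'0 : r' ≠ 0 := right_ne_zero_of_mul (locUnit_ne_zero h5)
      field_simp
    rw [e]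
    exact hr₂.mul (locUnit_iff.1 h5).2.2
  have hrp : LocUnit B p r := LocUnit_anti hpn hrU
  -- transport along `φ`
  have hnn : ∀ b : B, b ∉ n → hφ.hom b ∉ n := fun b hb h => hb (hφ.mem_of_hom_mem hn hfix b h)
  have hpp : ∀ b : B, b ∉ p → hφ.hom b ∉ p := fun b hb h => hb ((hmap b).1 h)
  have hpI : ∀ b : B, b ∈ p → hφ.hom b ∈ p := fun b hb => (hmap b).2 hb
  have hφr : LocUnit B n (φ r) := hφ.locUnit hnn hrU
  have hφd : LocUnit B p (φ d) := hφ.locUnit hpp hd
  have hrQ : LocUnit B n (r ^ Q) := locUnit_pow hrU Q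
  refine ⟨φ r * (r ^ Q)⁻¹, locUnit_mul hφr (locUnit_inv hrQ),
    hφ.cong_one_of_fixed hn hwn hk hfix hrU, ?_⟩
  have h6 : InLoc B p p (φ d - φ r) := by
    rw [← map_sub]
    exact hφ.inLoc hpp hpI hr'
  have h7 : InLoc B p p (d ^ Q - r ^ Q) := cong_pow hd1 (hr.anti hpn) hr' Q
  have h8 := cong_inv (locUnit_pow hd Q) (locUnit_pow hrp Q) h7
  exact cong_mul (locUnit_iff.1 hφd).2.1 (locUnit_iff.1 (locUnit_pow hrp Q)).2.2 h6 h8

/-- **Step 4/5, crossing point.** -/
theorem PhiCtx.exists_eta_node (hφ : PhiCtx w B c φ Q) {n : Ideal B} (hn : n.IsMaximal)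
    (h1n : c.p₁ ≤ n) (h2n : c.p₂ ≤ n)
    (hwn : algebraMap R B w ∈ n) (hk : ∀ b : B, ∃ r : R, b - algebraMap R B r ∈ n)
    (hfix : ∀ b : B, b ∈ n → hφ.hom b ∈ n)
    (htr : ∀ b : B, b ∈ n → ∃ s : B, s ∉ n ∧ s * b ∈ c.p₁ ⊔ c.p₂)
    {m : ℕ} (hm : 0 < m) {u d : F} (hs : IsSplit B c u)
    (hd₁ : LocUnit B c.p₁ d) (hd₂ : LocUnit B c.p₂ d) (hε : LocUnit B n (u * d ^ m)) :
    ∃ η : F, InLoc B n ⊤ η ∧ InLoc B c.p₁ c.p₁ (η - (φ d * (d ^ Q)⁻¹)⁻¹) ∧
      InLoc B c.p₂ c.p₂ (η - (φ d * (d ^ Q)⁻¹)⁻¹) := by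
  have hnp := hn.isPrime
  have hp₁ := c.prime₁
  have hp₂ := c.prime₂
  obtain ⟨θ₁, hθ₁, hθ₁n, hθ₁p⟩ :=
    hφ.exists_theta hn h1n hφ.map₁ c.normal₁ hwn hk hfix hm hs.1 hd₁ hε
  obtain ⟨θ₂, hθ₂, hθ₂n, hθ₂p⟩ :=
    hφ.exists_theta hn h2n hφ.map₂ c.normal₂ hwn hk hfix hm hs.2 hd₂ hε
  have hpp₁ : ∀ b : B, b ∉ c.p₁ → hφ.hom b ∉ c.p₁ := fun b hb h => hb ((hφ.map₁ b).1 h)
  have hpp₂ : ∀ b : B, b ∉ c.p₂ → hφ.hom b ∉ c.p₂ := fun b hb h => hb ((hφ.map₂ b).1 h)
  have hδ₁ : LocUnit B c.p₁ (φ d * (d ^ Q)⁻¹) :=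
    locUnit_mul (hφ.locUnit hpp₁ hd₁) (locUnit_inv (locUnit_pow hd₁ Q))
  have hδ₂ : LocUnit B c.p₂ (φ d * (d ^ Q)⁻¹) :=
    locUnit_mul (hφ.locUnit hpp₂ hd₂) (locUnit_inv (locUnit_pow hd₂ Q))
  -- the residues `θ_i⁻¹` agree at `n`
  have e₁ : InLoc B n n (θ₁⁻¹ - 1) := by
    have := cong_inv hθ₁ (locUnit_one n) hθ₁n
    rwa [inv_one] at this
  have e₂ : InLoc B n n (θ₂⁻¹ - 1) := by
    have := cong_inv hθ₂ (locUnit_one n) hθ₂n
    rwa [inv_one] at this
  have e₃ : InLoc B n n (θ₁⁻¹ - θ₂⁻¹) := cong_trans e₁ (cong_symm e₂)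
  have e₄ : InLoc B n (c.p₁ ⊔ c.p₂) (θ₁⁻¹ - θ₂⁻¹) := by
    obtain ⟨a, b, ha, hb, hab⟩ := e₃
    obtain ⟨s, hs, hsa⟩ := htr a ha
    refine ⟨s * a, s * b, hsa, fun h => (hnp.mem_or_mem h).elim hs hb, ?_⟩
    push_cast
    rw [← hab]
    ring
  obtain ⟨η, hη, hη₁, hη₂⟩ := exists_patch_node h1n h2n (locUnit_iff.1 hθ₁).2.2 e₄
  refine ⟨η, hη, cong_trans hη₁ (cong_symm ?_), cong_trans hη₂ (cong_symm ?_)⟩
  · exact cong_inv hδ₁ (LocUnit_anti h1n hθ₁) hθ₁p
  · exact cong_inv hδ₂ (LocUnit_anti h2n hθ₂) hθ₂p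

/-! ### the theorem -/

/-- **`φ`-ASM.**  Purity data for a split `u` at `φ⁻¹ n` and at `n`  ⟹  local factorisation of
`φ u / u ^ Q` at `n`.  At a crossing point `n` one needs: `n` is fixed by `φ`, the residue field
of `n` is that of `R`, and the two components are transversal at `n`. -/
theorem localFactor_phi_of_pureAt (w : R) (B : Subalgebra R F) (c : SSChart w B)
    (φ : F ≃+* F) (Q : ℕ) (hφ : PhiCtx w B c φ Q)
    (m : ℕ) (hm : 0 < m) (u : F) (hu : u ≠ 0) (hs : IsSplit B c u)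
    (n : Ideal B) (hn : n.IsMaximal) (hwn : algebraMap R B w ∈ n)
    (hk : c.p₁ ≤ n → c.p₂ ≤ n → ∀ b : B, ∃ r : R, b - algebraMap R B r ∈ n)
    (hfix : c.p₁ ≤ n → c.p₂ ≤ n → ∀ b : B, b ∈ n → hφ.hom b ∈ n)
    (htr : c.p₁ ≤ n → c.p₂ ≤ n → ∀ b : B, b ∈ n → ∃ s : B, s ∉ n ∧ s * b ∈ c.p₁ ⊔ c.p₂)
    (h' : PureAt B c m u (n.comap hφ.hom)) (h : PureAt B c m u n) :
    LocalFactor B c m (φ u * (u ^ Q)⁻¹) n := by
  have hnp := hn.isPrime
  have hp₁ := c.prime₁
  have hp₂ := c.prime₂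
  have hpp₁ : ∀ b : B, b ∉ c.p₁ → hφ.hom b ∉ c.p₁ := fun b hb h => hb ((hφ.map₁ b).1 h)
  have hpp₂ : ∀ b : B, b ∉ c.p₂ → hφ.hom b ∉ c.p₂ := fun b hb h => hb ((hφ.map₂ b).1 h)
  have hv₁ := hφ.cong_one_of_constAt (mem_w_left c) hφ.map₁ hs.1
  have hv₂ := hφ.cong_one_of_constAt (mem_w_right c) hφ.map₂ hs.2
  obtain ⟨d, hd0, hε, hd₁, hd₂⟩ := h
  have hφu : φ u ≠ 0 := (map_ne_zero φ).2 hu
  by_cases h1n : c.p₁ ≤ n
  · by_cases h2n : c.p₂ ≤ n
    · -- crossing point
      have hfix' := hfix h1n h2n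
      have hnn : ∀ b : B, b ∉ n → hφ.hom b ∉ n :=
        fun b hb h => hb (hφ.mem_of_hom_mem hn hfix' b h)
      obtain ⟨η, hη, hη₁, hη₂⟩ := hφ.exists_eta_node hn h1n h2n hwn (hk h1n h2n) hfix'
        (htr h1n h2n) hm hs hd₁ hd₂ hε
      have hrel : φ u * (u ^ Q)⁻¹ * (φ d * (d ^ Q)⁻¹) ^ m
          = φ (u * d ^ m) * ((u * d ^ m) ^ Q)⁻¹ := by
        rw [map_mul, map_pow]
        ring
      exact localFactor_of_patch c hrel
        (locUnit_iff.1 (locUnit_mul (hφ.locUnit hnn hε) (locUnit_inv (locUnit_pow hε Q)))).2.1 hη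
        (locUnit_mul (hφ.locUnit hpp₁ hd₁) (locUnit_inv (locUnit_pow hd₁ Q)))
        (locUnit_mul (hφ.locUnit hpp₂ hd₂) (locUnit_inv (locUnit_pow hd₂ Q)))
        hv₁ hv₂ hη₁ hη₂
    · -- smooth point on the first component
      obtain ⟨d', hd'0, hε', hd'₁, hd'₂⟩ := h'
      have hδ₁ : LocUnit B c.p₁ (φ d' * (d ^ Q)⁻¹) :=
        locUnit_mul (hφ.locUnit hpp₁ hd'₁) (locUnit_inv (locUnit_pow hd₁ Q))
      have hδ₂ : LocUnit B c.p₂ (φ d' * (d ^ Q)⁻¹) :=
        locUnit_mul (hφ.locUnit hpp₂ hd'₂) (locUnit_inv (locUnit_pow hd₂ Q))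
      have hυ : LocUnit B n (φ (u * d' ^ m) * ((u * d ^ m) ^ Q)⁻¹) :=
        locUnit_mul (hφ.locUnit (hφ.not_mem_comap n) hε') (locUnit_inv (locUnit_pow hε Q))
      have hrel : φ u * (u ^ Q)⁻¹ * (φ d' * (d ^ Q)⁻¹) ^ m
          = φ (u * d' ^ m) * ((u * d ^ m) ^ Q)⁻¹ := by
        rw [map_mul, map_pow]
        ring
      obtain ⟨η, hη, hη₁, hη₂⟩ :=
        exists_eta_smooth h1n h2n c.not_le₁₂ c.normal₁ hm hrel hυ hδ₁ hδ₂ hv₁
      exact localFactor_of_patch c hrel (locUnit_iff.1 hυ).2.1 hη hδ₁ hδ₂ hv₁ hv₂ hη₁ hη₂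
  · -- smooth point on the second component
    have h2n : c.p₂ ≤ n := by
      have hle : c.p₁ ⊓ c.p₂ ≤ n := by
        rw [c.inf_eq, Ideal.span_singleton_le_iff_mem]
        exact hwn
      rcases (Ideal.IsPrime.inf_le hnp).1 hle with h | h
      · exact absurd h h1n
      · exact h
    obtain ⟨d', hd'0, hε', hd'₁, hd'₂⟩ := h'
    have hδ₁ : LocUnit B c.p₁ (φ d' * (d ^ Q)⁻¹) :=
      locUnit_mul (hφ.locUnit hpp₁ hd'₁) (locUnit_inv (locUnit_pow hd₁ Q))
    have hδ₂ : LocUnit B c.p₂ (φ d' * (d ^ Q)⁻¹) :=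
      locUnit_mul (hφ.locUnit hpp₂ hd'₂) (locUnit_inv (locUnit_pow hd₂ Q))
    have hυ : LocUnit B n (φ (u * d' ^ m) * ((u * d ^ m) ^ Q)⁻¹) :=
      locUnit_mul (hφ.locUnit (hφ.not_mem_comap n) hε') (locUnit_inv (locUnit_pow hε Q))
    have hrel : φ u * (u ^ Q)⁻¹ * (φ d' * (d ^ Q)⁻¹) ^ m
        = φ (u * d' ^ m) * ((u * d ^ m) ^ Q)⁻¹ := by
      rw [map_mul, map_pow]
      ring
    obtain ⟨η, hη, hη₂, hη₁⟩ :=
      exists_eta_smooth h2n h1n c.not_le₂₁ c.normal₂ hm hrel hυ hδ₂ hδ₁ hv₂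
    exact localFactor_of_patch c hrel (locUnit_iff.1 hυ).2.1 hη hδ₁ hδ₂ hv₁ hv₂ hη₁ hη₂

end Fermat.Agent.S35.H433

end
-- ===== PACK-END S35/H433/PhiAsm.lean

-- ===== PACK-BEGIN A2/H552/HConst.lean
section



/-!
# A2 / ALG, route S: the hypothesis `hconst` of `A2.H348.exists_pow_eq_of_local_factorisation`
over a Henselian base (helper552)

`R` a Henselian discrete valuation ring with algebraically closed residue field, uniformiser `w`,
`E = Frac R` of characteristic zero, `m` invertible in the residue field; `F ⊇ R` a field with a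
valuation subring `V ⊇ R` with uniformiser `w` and `F = V[1/w]` (the Gauss valuation ring `V∞`),
`u = 1 + w t` with `t ∈ V`.

`hconst_of_henselian` : constants do not grow in the residue fields of the Kummer algebra
`F[X]/(X ^ m - u)` — VERBATIM the hypothesis `hconst` of
`Fermat.Agent.A2.H348.exists_pow_eq_of_local_factorisation`.
-/

set_option autoImplicit false

namespace Fermat.Agent.A2.H552

open Polynomial IsLocalRing

section HConst

variable {R E F : Type*} [CommRing R] [IsDomain R] [IsDiscreteValuationRing R]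
  [HenselianLocalRing R] [IsAlgClosed (ResidueField R)]
  [Field E] [CharZero E] [Algebra R E] [IsFractionRing R E]
  [Field F] [Algebra R F] [Algebra E F] [IsScalarTower R E F]

variable (E) in
include E in
/-- **`hconst` over a Henselian base.** -/
theorem hconst_of_henselian (w : R) (hw : Irreducible w) (V : ValuationSubring F)
    (hRV : ∀ r : R, algebraMap R F r ∈ V)
    (hwV : (algebraMap R F w)⁻¹ ∉ V)
    (hVgen : ∀ a ∈ V, a⁻¹ ∉ V → a * (algebraMap R F w)⁻¹ ∈ V)
    (hdisc : ∀ c : F, ∃ k : ℕ, algebraMap R F w ^ k * c ∈ V)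
    (m : ℕ) (hm : (m : ResidueField R) ≠ 0)
    (t : F) (ht : t ∈ V) (u : F) (hu : u = 1 + algebraMap R F w * t) :
    ∀ 𝔫 : Ideal (AdjoinRoot (X ^ m - C u)), 𝔫.IsMaximal →
      ∀ y : AdjoinRoot (X ^ m - C u) ⧸ 𝔫, IsIntegral R y →
        y ∈ Set.range (algebraMap R (AdjoinRoot (X ^ m - C u) ⧸ 𝔫)) := by
  intro 𝔫 h𝔫 y hy
  let _ : Field (AdjoinRoot (X ^ m - C u) ⧸ 𝔫) := Ideal.Quotient.field 𝔫
  have : IsScalarTower R E (AdjoinRoot (X ^ m - C u) ⧸ 𝔫) :=
    IsScalarTower.of_algebraMap_eq fun r => by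
      change Ideal.Quotient.mk 𝔫 (AdjoinRoot.of _ (algebraMap R F r)) =
        Ideal.Quotient.mk 𝔫 (AdjoinRoot.of _ (algebraMap E F (algebraMap R E r)))
      rw [← IsScalarTower.algebraMap_apply R E F]
  have : IsScalarTower R F (AdjoinRoot (X ^ m - C u) ⧸ 𝔫) :=
    IsScalarTower.of_algebraMap_eq fun r => rfl
  set z : AdjoinRoot (X ^ m - C u) ⧸ 𝔫 := Ideal.Quotient.mk 𝔫 (AdjoinRoot.root _) with hzdef
  have hz : z ^ m = algebraMap F (AdjoinRoot (X ^ m - C u) ⧸ 𝔫) (1 + algebraMap R F w * t) := by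
    rw [← hu]
    have h := AdjoinRoot.eval₂_root (X ^ m - C u : F[X])
    rw [eval₂_sub, eval₂_pow, eval₂_X, eval₂_C, sub_eq_zero] at h
    rw [hzdef, ← map_pow, h]
    rfl
  have hgen : ∀ b : AdjoinRoot (X ^ m - C u) ⧸ 𝔫,
      b ∈ Algebra.adjoin F ({z} : Set (AdjoinRoot (X ^ m - C u) ⧸ 𝔫)) := by
    intro b
    obtain ⟨a, rfl⟩ := Ideal.Quotient.mk_surjective b
    have ha : a ∈ Algebra.adjoin F ({AdjoinRoot.root (X ^ m - C u)} : Set (AdjoinRoot _)) := by
      rw [AdjoinRoot.adjoinRoot_eq_top]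
      exact Algebra.mem_top
    have := Algebra.adjoin_image F (Ideal.Quotient.mkₐ F 𝔫)
      ({AdjoinRoot.root (X ^ m - C u)} : Set (AdjoinRoot _))
    rw [Set.image_singleton] at this
    rw [hzdef]
    change Ideal.Quotient.mkₐ F 𝔫 a ∈ Algebra.adjoin F {Ideal.Quotient.mkₐ F 𝔫 (AdjoinRoot.root _)}
    rw [this]
    exact ⟨a, ha, rfl⟩
  exact kummer_isIntegral_mem_range E w hw V hRV hwV hVgen hdisc m hm t ht z hz hgen y hy

end HConst

end Fermat.Agent.A2.H552

end
-- ===== PACK-END A2/H552/HConst.lean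

-- ===== PACK-BEGIN S35/H891/Eigen3.lean
section
/-
S35 top glue for the CUBIC relation (helper891): the adic eigenmodule of helper529
(`S30.H529.exists_adic_galois_eigenmodule`) with one more clause — CUBIC relations
`γ³ + c₂ γ² + c₁ γ + c₀ = 0` with integer coefficients on `J[p^∞]` are inherited by the module.

Same module (`tateEigen`), same representation (`tateRep`), same proof.
-/


set_option autoImplicit false
set_option linter.unusedSectionVars false

namespace Fermat.Agent.S35.H891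

open IsLocalRing TensorProduct Fermat.Agent.S30.H529

noncomputable section

section Action

variable {O : Type*} [CommRing O]
variable {X : Type*} [AddCommGroup X] [Module O X]
variable {ι : Type*}
variable {ϖ : O} {t : ι → X →ₗ[O] X} {a : ι → O}
variable {G : Type*} [Monoid G] (ρ : G →* Module.End O X)
  (hρ : ∀ (γ : G) (i : ι) (x : X), ρ γ (t i x) = t i (ρ γ x))

/-- Cubic relations on the torsion are inherited by the Tate module. -/
theorem tateRep_cubic (γ : G) (c₂ c₁ c₀ : O)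
    (hγ : ∀ x : X, (∃ n : ℕ, ϖ ^ n • x = 0) →
      ρ γ (ρ γ (ρ γ x)) + c₂ • ρ γ (ρ γ x) + c₁ • ρ γ x + c₀ • x = 0)
    (v : tateEigen ϖ t a) :
    tateRep (ϖ := ϖ) (a := a) ρ hρ γ (tateRep ρ hρ γ (tateRep ρ hρ γ v))
      + c₂ • tateRep ρ hρ γ (tateRep ρ hρ γ v) + c₁ • tateRep ρ hρ γ v + c₀ • v = 0 := by
  apply Subtype.ext
  funext n
  have h1 := hγ ((v : ℕ → X) n) ⟨n + 1, tate_pow_succ_smul v.2 n⟩
  simpa using h1

end Action

section Main

variable (p : ℕ)
variable (O : Type) [CommRing O] [IsDomain O] [IsDiscreteValuationRing O]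
  [IsAdicComplete (maximalIdeal O) O] [CharZero O]
variable (J : Type) [AddCommGroup J]
  [DistribMulAction (AlgebraicClosure ℚ ≃ₐ[ℚ] AlgebraicClosure ℚ) J]
variable {ι : Type*} (T : ι → J →+ J) (a : ι → O)

/-- **Adic eigenmodule from a smooth Galois module with finite `p`-torsion**, with the cubic
clause. -/
theorem exists_adic_galois_eigenmodule3 (hpO : (p : O) ∈ maximalIdeal O) (hp0 : p ≠ 0)
    (hT : ∀ (i : ι) (γ : AlgebraicClosure ℚ ≃ₐ[ℚ] AlgebraicClosure ℚ) (x : J),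
      T i (γ • x) = γ • T i x)
    (hfin : {x : J | p • x = 0}.Finite)
    (hsm : ∀ x : J, (∃ n : ℕ, p ^ n • x = 0) →
      ∃ L : IntermediateField ℚ (AlgebraicClosure ℚ), FiniteDimensional ℚ L ∧
        ∀ σ : AlgebraicClosure ℚ ≃ₐ[ℚ] AlgebraicClosure ℚ, (∀ y ∈ L, σ y = y) → σ • x = x)
    (v : ℕ → O ⊗[ℤ] J) (hv0 : (p : O) • v 0 = 0) (hv : ∀ n, (p : O) • v (n + 1) = v n)
    (hne : v ≠ 0) (heig : ∀ i n, tensorOp O T i (v n) = a i • v n) :
    ∃ (M : Type) (_ : AddCommGroup M) (_ : Module O M) (_ : Module.Free O M)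
      (_ : Module.Finite O M)
      (ρ : (AlgebraicClosure ℚ ≃ₐ[ℚ] AlgebraicClosure ℚ) →* Module.End O M),
      Nontrivial M ∧ GaloisActionIsAdicContinuous O ρ ∧
      (∀ γ : AlgebraicClosure ℚ ≃ₐ[ℚ] AlgebraicClosure ℚ,
        (∀ x : J, (∃ n : ℕ, p ^ n • x = 0) → γ • x = x) → ρ γ = 1) ∧
      (∀ (γ : AlgebraicClosure ℚ ≃ₐ[ℚ] AlgebraicClosure ℚ) (i : ι) (c : ℤ),
        (∀ x : J, (∃ n : ℕ, p ^ n • x = 0) → γ • γ • x - T i (γ • x) + c • x = 0) →
        ρ γ * ρ γ - a i • ρ γ + (c : O) • (1 : Module.End O M) = 0) ∧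
      (∀ (γ : AlgebraicClosure ℚ ≃ₐ[ℚ] AlgebraicClosure ℚ) (c₂ c₁ c₀ : ℤ),
        (∀ x : J, (∃ n : ℕ, p ^ n • x = 0) →
          γ • γ • γ • x + c₂ • (γ • γ • x) + c₁ • (γ • x) + c₀ • x = 0) →
        ∀ m : M, ρ γ (ρ γ (ρ γ m)) + (c₂ : O) • ρ γ (ρ γ m) + (c₁ : O) • ρ γ m
          + (c₀ : O) • m = 0) := by
  have hϖ0 : (p : O) ≠ 0 := by exact_mod_cast hp0
  have hX : ∃ Y : Submodule O (O ⊗[ℤ] J), Y.FG ∧ ∀ x : O ⊗[ℤ] J, (p : O) • x = 0 → x ∈ Y := by
    obtain ⟨Y, hY, hYX⟩ := exists_fg_of_finite_torsion O (J := J) (p : ℤ) (by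
      have : {y : J | (p : ℤ) • y = 0} = {x : J | p • x = 0} := by
        ext y
        simp
      rw [this]
      exact hfin)
    refine ⟨Y, hY, fun x hx => hYX x ?_⟩
    have := natCast_pow_smul p O J 1 x
    simp only [pow_one] at this
    rw [← this]
    exact hx
  have hρ := tensorRep_tensorOp (G := AlgebraicClosure ℚ ≃ₐ[ℚ] AlgebraicClosure ℚ) O T hT
  have hfree := tateEigen_free (t := tensorOp O T) (a := a) hpO hϖ0 hX
  have hfinite := tateEigen_finite (t := tensorOp O T) (a := a) hpO hϖ0 hX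
  -- transfer of relations
  have htrans : ∀ (A : J →ₗ[ℤ] J) (n : ℕ), (∀ y : J, p ^ n • y = 0 → A y = 0) →
      ∀ x : O ⊗[ℤ] J, (p : O) ^ n • x = 0 → A.baseChange O x = 0 := by
    intro A n hA x hx
    apply baseChange_eq_zero_of_torsion O ((p ^ n : ℕ) : ℤ) A
    · intro y hy
      apply hA
      rwa [natCast_zsmul] at hy
    · rw [← natCast_pow_smul]
      exact hx
  refine ⟨tateEigen (p : O) (tensorOp O T) a, inferInstance, inferInstance, hfree, hfinite,
    tateRep (tensorRep O J) hρ, ?_, ?_, ?_, ?_, ?_⟩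
  · refine ⟨⟨⟨v, hv0, hv, heig⟩, 0, ?_⟩⟩
    intro h
    exact hne (congrArg Subtype.val h)
  · intro n
    obtain ⟨L, hL, hLfix⟩ := exists_common_level {x : J | p ^ n • x = 0}
      (finite_torsion_pow J p hfin n) (fun x hx => hsm x ⟨n, hx⟩)
    refine ⟨L, hL, fun σ hσ m => ?_⟩
    apply tateRep_sub_mem (tensorRep O J) hρ hpO n σ
    intro x hx
    have h1 := htrans (actLin J σ - LinearMap.id) n (fun y hy => by
      simp [hLfix σ hσ y hy]) x hx
    rw [LinearMap.baseChange_sub, LinearMap.baseChange_id, LinearMap.sub_apply,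
      LinearMap.id_apply, sub_eq_zero] at h1
    exact h1
  · intro γ hγ
    apply tateRep_eq_one
    rintro x ⟨n, hx⟩
    have h1 := htrans (actLin J γ - LinearMap.id) n (fun y hy => by
      simp [hγ y ⟨n, hy⟩]) x hx
    rw [LinearMap.baseChange_sub, LinearMap.baseChange_id, LinearMap.sub_apply,
      LinearMap.id_apply, sub_eq_zero] at h1
    exact h1
  · intro γ i c hγ
    apply tateRep_quadratic
    rintro x ⟨n, hx⟩
    have h1 := htrans (actLin J γ ∘ₗ actLin J γ - (T i).toIntLinearMap ∘ₗ actLin J γ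
      + c • LinearMap.id) n (fun y hy => by
        have := hγ y ⟨n, hy⟩
        simpa using this) x hx
    rw [LinearMap.baseChange_add, LinearMap.baseChange_sub, LinearMap.baseChange_comp,
      LinearMap.baseChange_comp, LinearMap.baseChange_smul, LinearMap.baseChange_id] at h1
    simp only [LinearMap.add_apply, LinearMap.sub_apply, LinearMap.comp_apply,
      LinearMap.smul_apply, LinearMap.id_apply] at h1
    rw [Int.cast_smul_eq_zsmul]
    exact h1
  · intro γ c₂ c₁ c₀ hγ m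
    apply tateRep_cubic (tensorRep O J) hρ γ (c₂ : O) (c₁ : O) (c₀ : O)
    rintro x ⟨n, hx⟩
    have h1 := htrans (actLin J γ ∘ₗ actLin J γ ∘ₗ actLin J γ
      + c₂ • (actLin J γ ∘ₗ actLin J γ) + c₁ • actLin J γ + c₀ • LinearMap.id) n
      (fun y hy => by
        have := hγ y ⟨n, hy⟩
        simpa using this) x hx
    rw [LinearMap.baseChange_add, LinearMap.baseChange_add, LinearMap.baseChange_add,
      LinearMap.baseChange_comp, LinearMap.baseChange_comp, LinearMap.baseChange_smul,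
      LinearMap.baseChange_smul, LinearMap.baseChange_smul, LinearMap.baseChange_comp,
      LinearMap.baseChange_id] at h1
    simp only [LinearMap.add_apply, LinearMap.comp_apply,
      LinearMap.smul_apply, LinearMap.id_apply] at h1
    rw [Int.cast_smul_eq_zsmul, Int.cast_smul_eq_zsmul, Int.cast_smul_eq_zsmul]
    exact h1

end Main

end

end Fermat.Agent.S35.H891

end
-- ===== PACK-END S35/H891/Eigen3.lean

-- ===== PACK-BEGIN Lib/Newform/H263/XStrict.lean
section
/-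
NEWFORM library (helper263) — block X leaf **STRICT**: the strict trivial bound in the exact shape
of the frozen interface `Fermat.Agent.Lib.Newform.H958.X.StrictBound`.
-/



set_option autoImplicit false

namespace Fermat.Agent.Lib.Newform.H263

/-- **STRICT** (block X): `a_ℓ(g)² ≠ (ℓ + 1)²` for a normalized eigenform `g` of level `N` and a
prime `ℓ ∤ N`. -/
theorem strictBound : H958.X.StrictBound :=
  fun _N _ _g hg _ℓ hℓ hℓN ↦ qCoeff_sq_ne hg hℓ hℓN

end Fermat.Agent.Lib.Newform.H263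

end
-- ===== PACK-END Lib/Newform/H263/XStrict.lean

-- ===== PACK-BEGIN S30/H829/OccAdic.lean
section
/-
S30 / p-adic layer (helper829) — piece OCC-adic: the eigensystem of ANY ring homomorphism
`χ : 𝕋 = heckeAlgebra N 2 S → O` (`O` any domain, e.g. a `p`-adic DVR or a field of any
characteristic) occurs in the parabolic homomorphisms `Hom_par(Γ₀(N), O)`.

Transfer-independent core: the eigen-property is stated through the period map, so that the
Hecke-equivariance of the period map (S29 piece E2a) turns it into `heckeHom ℓ φ = χ(T_ℓ) • φ`.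
-/





set_option autoImplicit false

open CongruenceSubgroup ModularCurve ModularCurve.Period
open scoped MatrixGroups

namespace Fermat.Agent.S30.H829

/-- `SL(2, ℤ)` is finitely generated (by `S` and `T`). -/
instance instGroupFGSL2Z : Group.FG SL(2, ℤ) :=
  Group.fg_iff.mpr ⟨{ModularGroup.S, ModularGroup.T}, SpecialLinearGroup.SL2Z_generators,
    Set.toFinite _⟩

/-- `Γ₀(N)` is finitely generated (Schreier). -/
theorem group_fg_Gamma0 (N : ℕ) [NeZero N] : Group.FG (Gamma0 N) := inferInstance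

/-- The period map is injective. -/
theorem periodMap_injective (N : ℕ) [NeZero N] :
    Function.Injective (Fermat.Agent.S21.H381.periodMapLin N) := by
  rw [injective_iff_map_eq_zero]
  intro f hf
  obtain ⟨F, hF⟩ := Fermat.Agent.S21.H381.exists_hasEquivariantPrimitive f
  refine Fermat.Agent.S21.H81.eq_zero_of_re_period_eq_zero N f hF fun γ => ?_
  have h1 := Fermat.Agent.S21.H381.periodMap_apply hF γ UpperHalfPlane.I
  have h2 : periodMap N f (Additive.ofMul γ) = 0 := by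
    have := DFunLike.congr_fun hf (Additive.ofMul γ)
    simpa using this
  rw [← h1, h2]
  rfl

/-- The tautological action of the Hecke algebra on cusp forms. -/
@[reducible] noncomputable def heckeAlgebraModule (N : ℕ) [NeZero N] (S : Set ℕ) :
    Module (CuspForm.heckeAlgebra N 2 S) (CuspForm (Gamma0 N) 2) :=
  Module.compHom (CuspForm (Gamma0 N) 2) (CuspForm.heckeAlgebra N 2 S).val.toRingHom

theorem heckeAlgebraModule_smul (N : ℕ) [NeZero N] (S : Set ℕ)
    (t : CuspForm.heckeAlgebra N 2 S) (f : CuspForm (Gamma0 N) 2) :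
    (letI := heckeAlgebraModule N S; t • f) = t.1 f := rfl

/-- **OCC-adic, core form.**  For every ring homomorphism `χ` from the Hecke algebra to a domain
`O` there is a nonzero parabolic homomorphism `φ : Γ₀(N) → O` such that for every Hecke operator
`t` and all `b, b'` with `periodMap f b' = periodMap (t f) b` for all cusp forms `f`,
`φ b' = χ t * φ b`. -/
theorem exists_eigen_parabolicHom_core (N : ℕ) [NeZero N] (S : Set ℕ)
    {O : Type*} [CommRing O] [IsDomain O] (χ : CuspForm.heckeAlgebra N 2 S →+* O) :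
    ∃ φ : Additive (Gamma0 N) →+ O, φ ≠ 0 ∧ IsParabolicHom (Gamma0 N) φ ∧
      ∀ (t : CuspForm.heckeAlgebra N 2 S) (b b' : Additive (Gamma0 N)),
        (∀ f : CuspForm (Gamma0 N) 2, periodMap N f b' = periodMap N (t.1 f) b) →
          φ b' = χ t * φ b := by
  letI := heckeAlgebraModule N S
  haveI : Group.FG (Gamma0 N) := group_fg_Gamma0 N
  have hfaith : ∀ t : CuspForm.heckeAlgebra N 2 S,
      (∀ f : CuspForm (Gamma0 N) 2, t • f = 0) → t = 0 := by
    intro t ht
    apply Subtype.ext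
    apply LinearMap.ext
    intro f
    exact ht f
  obtain ⟨φ, hφ0, hφe, hφv⟩ := exists_eigen_hom (𝕋 := CuspForm.heckeAlgebra N 2 S)
    (S := CuspForm (Gamma0 N) 2) (K := ℂ) (Γ := Additive (Gamma0 N)) hfaith
    (Fermat.Agent.S21.H381.periodMapLin N).toAddMonoidHom
    (periodMap_injective N) χ
  refine ⟨φ, hφ0, ?_, ?_⟩
  · intro γ hγ
    apply hφv
    intro f
    exact (mem_parabolicHoms_iff.mp (Fermat.Agent.S21.H381.periodMap_mem_parabolicHoms f)) γ hγ
  · intro t b b' h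
    exact hφe t b b' h

end Fermat.Agent.S30.H829

end
-- ===== PACK-END S30/H829/OccAdic.lean

-- ===== PACK-BEGIN S41/H581/TransferCusp.lean
section





/-!
# Row S41, block HK, leaf TC (helper581)

`transferCusp : Spec.TransferCuspStatement` — the transfers `t₁, t₂` preserve cuspidal classes.

By the cycle formula the value of a transfer at `g` is a sum of values `ψ h` with
`f h = t⁻¹ g ^ k t`; if `(tr g)² = 4` then `(tr g ^ k)² = 4` (Cayley–Hamilton), the trace is
invariant under conjugation and under `incl`, `conjDelta`, and finite order is preserved by powers,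
conjugation and reflected by injective homomorphisms.
-/

set_option autoImplicit false

namespace Fermat.Agent.S41.H581

open CongruenceSubgroup Matrix.SpecialLinearGroup ModularCurve.Period
open Fermat.Agent.S41.Spec
open scoped MatrixGroups

universe u

/-- Cayley–Hamilton for `2 × 2` matrices of determinant `1`. -/
theorem mul_self_eq_of_det_one (M : Matrix (Fin 2) (Fin 2) ℤ) (hM : M.det = 1) :
    M * M = M.trace • M - 1 := by
  rw [Matrix.det_fin_two] at hM
  ext i j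
  fin_cases i <;> fin_cases j <;>
    simp only [Matrix.mul_apply, Fin.sum_univ_two, Matrix.trace_fin_two, Matrix.sub_apply,
      Matrix.smul_apply, smul_eq_mul, Matrix.one_apply, Fin.zero_eta, Fin.mk_one, Fin.isValue,
      if_true, one_ne_zero, zero_ne_one, if_false] <;>
    first | ring1 | linear_combination -hM

theorem pow_add_two_eq_of_det_one (M : Matrix (Fin 2) (Fin 2) ℤ) (hM : M.det = 1) (k : ℕ) :
    M ^ (k + 2) = M.trace • M ^ (k + 1) - M ^ k := by
  rw [pow_add, pow_two, mul_self_eq_of_det_one M hM, mul_sub, mul_one, Matrix.mul_smul,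
    ← pow_succ]

theorem trace_pow_of_trace_eq (M : Matrix (Fin 2) (Fin 2) ℤ) (hM : M.det = 1) (ε : ℤ)
    (hε : ε ^ 2 = 1) (ht : M.trace = 2 * ε) (k : ℕ) : (M ^ k).trace = 2 * ε ^ k := by
  induction k using Nat.twoStepInduction with
  | zero => simp
  | one => simpa using ht
  | more k h0 h1 =>
    rw [pow_add_two_eq_of_det_one M hM, Matrix.trace_sub, Matrix.trace_smul, h0, h1, ht,
      smul_eq_mul]
    have : ε ^ (k + 2) = ε ^ k := by rw [pow_add, hε, mul_one]
    rw [this, pow_succ]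
    linear_combination (4 * ε ^ k) * hε

/-- If `(tr M)² = 4` and `det M = 1`, then `(tr M ^ k)² = 4`. -/
theorem trace_pow_sq_eq_four (M : Matrix (Fin 2) (Fin 2) ℤ) (hM : M.det = 1)
    (ht : M.trace ^ 2 = 4) (k : ℕ) : (M ^ k).trace ^ 2 = 4 := by
  have h : (M.trace - 2) * (M.trace + 2) = 0 := by linear_combination ht
  rcases mul_eq_zero.mp h with h | h
  · rw [trace_pow_of_trace_eq M hM 1 (by norm_num) (by linarith) k]
    norm_num
  · rw [trace_pow_of_trace_eq M hM (-1) (by norm_num) (by linarith) k, mul_pow, ← pow_mul,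
      mul_comm k 2, pow_mul]
    norm_num

theorem trace_conj_sl (t x : SL(2, ℤ)) :
    ((t⁻¹ * x * t : SL(2, ℤ)) : Matrix (Fin 2) (Fin 2) ℤ).trace =
      (x : Matrix (Fin 2) (Fin 2) ℤ).trace := by
  rw [Matrix.SpecialLinearGroup.coe_mul, Matrix.trace_mul_comm,
    ← Matrix.SpecialLinearGroup.coe_mul, ← mul_assoc, mul_inv_cancel, one_mul]

theorem trace_conj_pow_sq {n : ℕ} (g t : Gamma0 n) (k : ℕ)
    (hg : ((g : SL(2, ℤ)) : Matrix (Fin 2) (Fin 2) ℤ).trace ^ 2 = 4) :
    (((t⁻¹ * g ^ k * t : Gamma0 n) : SL(2, ℤ)) : Matrix (Fin 2) (Fin 2) ℤ).trace ^ 2 = 4 := by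
  have h1 : ((t⁻¹ * g ^ k * t : Gamma0 n) : SL(2, ℤ)) =
      (t : SL(2, ℤ))⁻¹ * (g : SL(2, ℤ)) ^ k * (t : SL(2, ℤ)) := by
    simp
  rw [h1, trace_conj_sl, Matrix.SpecialLinearGroup.coe_pow]
  exact trace_pow_sq_eq_four _ (g : SL(2, ℤ)).det_coe hg k

/-- The transfer along a trace-preserving homomorphism `Γ₀(m) → Γ₀(n)` preserves cuspidality. -/
theorem isCuspidal_transferAlong_of_trace {A : Type*} [AddCommGroup A] {n m : ℕ}
    (f : Gamma0 m →* Gamma0 n)
    (hf : ∀ γ : Gamma0 m, (((f γ : Gamma0 n) : SL(2, ℤ)) : Matrix (Fin 2) (Fin 2) ℤ).trace =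
      ((γ : SL(2, ℤ)) : Matrix (Fin 2) (Fin 2) ℤ).trace)
    (ψ : Additive (Gamma0 m) →+ A) (hψ : IsCuspidal ψ) :
    IsCuspidal (transferAlong f ψ) := by
  refine ⟨fun γ hγ => ?_, fun γ hγ => ?_⟩
  · refine transferAlong_eq_zero_of f ψ γ fun _ k t h hh => hψ.1 h ?_
    rw [← hf, hh]
    exact trace_conj_pow_sq γ t k hγ
  · refine transferAlong_eq_zero_of f ψ γ fun hinj k t h hh => hψ.2 h ?_
    rw [← hinj.isOfFinOrder_iff, hh]
    have h1 : IsOfFinOrder (γ ^ k) := hγ.pow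
    have h2 := (MulAut.conj t⁻¹).toMonoidHom.isOfFinOrder h1
    simpa [MulAut.conj_apply] using h2

/-- (HK-1b) `t₁, t₂` preserve cuspidal classes. -/
theorem transferCusp : Spec.TransferCuspStatement.{u} := by
  intro N q A _ ψ hψ
  exact ⟨isCuspidal_transferAlong_of_trace (incl N q) (trace_incl N q) ψ hψ,
    isCuspidal_transferAlong_of_trace (conjDelta N q) (trace_conjDelta N q) ψ hψ⟩

end Fermat.Agent.S41.H581

end
-- ===== PACK-END S41/H581/TransferCusp.lean

-- ===== PACK-BEGIN S41/H581/Fun.lean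
section




/-!
# Row S41, block HK, leaf FUN (helper581)

`functoriality : Spec.FunctorialityStatement` — additivity and naturality in the coefficients of
the degeneracy maps `r₁, r₂` and of the transfers `t₁, t₂`.
-/

set_option autoImplicit false

namespace Fermat.Agent.S41.H581

open Fermat.Agent.S41.Spec

universe u

/-- (HK-0) additivity and naturality in the coefficients of `r₁, r₂, t₁, t₂`. -/
theorem functoriality : Spec.FunctorialityStatement.{u} := by
  intro N q A B _ _ π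
  refine ⟨fun φ φ' => ⟨?_, ?_⟩, fun ψ ψ' => ⟨?_, ?_⟩, fun φ => ⟨?_, ?_⟩, fun ψ => ⟨?_, ?_⟩⟩
  · exact AddMonoidHom.add_comp _ _ _
  · exact AddMonoidHom.add_comp _ _ _
  · exact transferAlong_add _ _ _
  · exact transferAlong_add _ _ _
  · exact AddMonoidHom.comp_assoc _ _ _
  · exact AddMonoidHom.comp_assoc _ _ _
  · exact transferAlong_comp _ _ _
  · exact transferAlong_comp _ _ _

end Fermat.Agent.S41.H581

end
-- ===== PACK-END S41/H581/Fun.lean

-- ===== PACK-BEGIN S59/MFree/Spec.lean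
section



/-!
# Row S59, block M-FREE — frozen interface (sub-architect helper761)

Freeness of the Taylor–Wiles module over `O[Δ]` and the control theorem, in the Betti model of row S41:
`H(Γ', A) = Hom(Γ', A)` (Lean: `Additive Γ' →+ A`).

Data: `Γ ≤ SL(2,ℤ)` of finite index, a finite group `D` and `κ : Γ →* D` (onto), `Γ' := kerSub κ = ker κ`
viewed as a subgroup of `SL(2,ℤ)`.  `Γ` acts on `H(Γ', A)` by `conjAct κ g φ = φ ∘ (h ↦ g⁻¹ h g)`; the action
factors through `D` (diamond operators).  `res κ`, `cor κ` are restriction and transfer between `Γ'` and `Γ`.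

Route (plan: `coord/S59-MFREE.md`): by the Manin dictionary of row S41 (`Spec/PD.lean`, leaves D1–D3, TR-2,
all on main and valid for every finite-index subgroup containing `-1`)
`H(Γ', A) = Fun(X', A) / (Fun^S + Fun^{ST})`, `X' = SL(2,ℤ) ⧸ Γ'`, and `Fun(X', A)` is a free `A[D]`-module
(`D` acts freely on `X'` from the right).  Hence

* (A) `ker (cor) = I_D · H(Γ', A)`           (`KerCorStatement`),
* (B) `cor` is onto                           (`CorSurjStatement`),
* (N) `res ∘ cor = ∑_d d`, `cor ∘ res = |D|` (`ResCorStatement`, `CorResStatement`),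
* (D) `T_l = l + 1` on `Hom(Γ₀(M)/Γ₁(M), B)` (`EisensteinStatement`),
* (E) the norm criterion for freeness over `O[D]`, `D` a `p`-group (`NormCriterionStatement`),

and the assembly `FreeAbsStatement` / `FreeStatement`: for a Hecke-type idempotent `e` on `H(Γ', O)` on whose
image `T_l - (l + 1)` is bijective, `e H` is free over `O[D]` and `cor` induces `(e H)_D ≅ cor (e H)`.
-/

set_option autoImplicit false

namespace Fermat.Agent.S59.MFree

open CongruenceSubgroup Matrix.SpecialLinearGroup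
open Fermat.Agent.S41.Spec Fermat.Agent.S29.H642
open scoped MatrixGroups

universe u

/-! ## Definitions -/

section Defs

variable {Γ : Subgroup SL(2, ℤ)} {D : Type*} [Group D]

/-- `ker κ` as a subgroup of `SL(2,ℤ)`. -/
def kerSub (κ : Γ →* D) : Subgroup SL(2, ℤ) := κ.ker.map Γ.subtype

theorem mem_kerSub {κ : Γ →* D} {g : SL(2, ℤ)} : g ∈ kerSub κ ↔ ∃ h : g ∈ Γ, κ ⟨g, h⟩ = 1 := by
  constructor
  · rintro ⟨γ, hγ, rfl⟩
    exact ⟨γ.2, hγ⟩
  · rintro ⟨h, hκ⟩
    exact ⟨⟨g, h⟩, hκ, rfl⟩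

theorem kerSub_le (κ : Γ →* D) : kerSub κ ≤ Γ := fun _ hg => (mem_kerSub.mp hg).1

theorem conj_mem_kerSub (κ : Γ →* D) (g : Γ) {h : SL(2, ℤ)} (hh : h ∈ kerSub κ) :
    (g : SL(2, ℤ))⁻¹ * h * g ∈ kerSub κ := by
  obtain ⟨h1, h2⟩ := mem_kerSub.mp hh
  refine mem_kerSub.mpr ⟨Γ.mul_mem (Γ.mul_mem (Γ.inv_mem g.2) h1) g.2, ?_⟩
  have : (⟨(g : SL(2, ℤ))⁻¹ * h * g, Γ.mul_mem (Γ.mul_mem (Γ.inv_mem g.2) h1) g.2⟩ : Γ) =
      g⁻¹ * ⟨h, h1⟩ * g := rfl
  rw [this, map_mul, map_mul, h2, mul_one, map_inv, inv_mul_cancel]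

/-- Conjugation `h ↦ g⁻¹ h g` on `Γ' = ker κ`, for `g ∈ Γ`. -/
def conjKer (κ : Γ →* D) (g : Γ) : kerSub κ →* kerSub κ where
  toFun h := ⟨(g : SL(2, ℤ))⁻¹ * h * g, conj_mem_kerSub κ g h.2⟩
  map_one' := by
    apply Subtype.ext
    simp
  map_mul' a b := by
    apply Subtype.ext
    simp only [Subgroup.coe_mul]
    group

@[simp] theorem conjKer_coe (κ : Γ →* D) (g : Γ) (h : kerSub κ) :
    ((conjKer κ g h : kerSub κ) : SL(2, ℤ)) = (g : SL(2, ℤ))⁻¹ * h * g := rfl

variable {A : Type*} [AddCommGroup A]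

/-- The action of `Γ` on `H(Γ', A)`: `(g • φ)(h) = φ (g⁻¹ h g)` (diamond operators). -/
def conjAct (κ : Γ →* D) (g : Γ) (φ : Additive (kerSub κ) →+ A) : Additive (kerSub κ) →+ A :=
  φ.comp (MonoidHom.toAdditive (conjKer κ g))

@[simp] theorem conjAct_apply (κ : Γ →* D) (g : Γ) (φ : Additive (kerSub κ) →+ A) (h : kerSub κ) :
    conjAct κ g φ (Additive.ofMul h) = φ (Additive.ofMul (conjKer κ g h)) := rfl

/-- Restriction `H(Γ, A) → H(Γ', A)`. -/
def res (κ : Γ →* D) (y : Additive Γ →+ A) : Additive (kerSub κ) →+ A :=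
  y.comp (MonoidHom.toAdditive (Subgroup.inclusion (kerSub_le κ)))

@[simp] theorem res_apply (κ : Γ →* D) (y : Additive Γ →+ A) (h : kerSub κ) :
    res κ y (Additive.ofMul h) = y (Additive.ofMul (Subgroup.inclusion (kerSub_le κ) h)) := rfl

/-- Corestriction (transfer) `H(Γ', A) → H(Γ, A)`. -/
noncomputable def cor (κ : Γ →* D) (x : Additive (kerSub κ) →+ A) : Additive Γ →+ A :=
  transferAlong (Subgroup.inclusion (kerSub_le κ)) x

/-- Classes vanishing on the elements of finite order (automatic if `A` is torsion-free). -/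
def IsTorsionTrivial {G : Type*} [Group G] (φ : Additive G →+ A) : Prop :=
  ∀ γ : G, IsOfFinOrder γ → φ (Additive.ofMul γ) = 0

/-- `I_D · H_tt(Γ', A)`: the subgroup generated by the `g • y - y`, `y` torsion-trivial. -/
def augSub (κ : Γ →* D) (A : Type*) [AddCommGroup A] : AddSubgroup (Additive (kerSub κ) →+ A) :=
  AddSubgroup.closure {w | ∃ (g : Γ) (y : Additive (kerSub κ) →+ A),
    IsTorsionTrivial y ∧ w = conjAct κ g y - y}

end Defs

/-! ## Leaves -/

/-- (A) `ker (cor) ⊆ I_D · H`.  Hypothesis (Ell): every element of finite order of `Γ` lies in `Γ'`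
(automatic if `|D|` is prime to `6` and `-1 ∈ Γ'`). -/
def KerCorStatement : Prop :=
  ∀ (Γ : Subgroup SL(2, ℤ)) [Γ.FiniteIndex] (D : Type) [Group D] [Finite D] (κ : Γ →* D),
    (-1 : SL(2, ℤ)) ∈ kerSub κ → (∀ g : Γ, IsOfFinOrder g → κ g = 1) →
    ∀ (A : Type u) [AddCommGroup A] (x : Additive (kerSub κ) →+ A),
      IsTorsionTrivial x → cor κ x = 0 → x ∈ augSub κ A

/-- (B) `cor` is onto (on torsion-trivial classes). -/
def CorSurjStatement : Prop :=
  ∀ (Γ : Subgroup SL(2, ℤ)) [Γ.FiniteIndex] (D : Type) [Group D] [Finite D] (κ : Γ →* D),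
    (-1 : SL(2, ℤ)) ∈ kerSub κ →
    ∀ (A : Type u) [AddCommGroup A] (y : Additive Γ →+ A), IsTorsionTrivial y →
      ∃ x : Additive (kerSub κ) →+ A, IsTorsionTrivial x ∧ cor κ x = y

/-- (N1) `res ∘ cor = ∑_{d ∈ D} d` (norm). -/
def ResCorStatement : Prop :=
  ∀ (Γ : Subgroup SL(2, ℤ)) (D : Type) [Group D] [Fintype D] (κ : Γ →* D) (s : D → Γ),
    (∀ d, κ (s d) = d) →
    ∀ (A : Type u) [AddCommGroup A] (x : Additive (kerSub κ) →+ A),
      res κ (cor κ x) = ∑ d, conjAct κ (s d) x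

/-- (N2) `cor ∘ res = |D|`. -/
def CorResStatement : Prop :=
  ∀ (Γ : Subgroup SL(2, ℤ)) (D : Type) [Group D] [Fintype D] (κ : Γ →* D),
    Function.Surjective κ →
    ∀ (A : Type u) [AddCommGroup A] (y : Additive Γ →+ A),
      cor κ (res κ y) = Fintype.card D • y

/-- (N3) `cor` is invariant under the diamond operators. -/
def CorConjStatement : Prop :=
  ∀ (Γ : Subgroup SL(2, ℤ)) (D : Type) [Group D] [Finite D] (κ : Γ →* D) (g : Γ)
    (A : Type u) [AddCommGroup A] (x : Additive (kerSub κ) →+ A),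
      cor κ (conjAct κ g x) = cor κ x

/-- (D) Eisenstein: `T_l = l + 1` on the classes of `Γ₀(M)` which are trivial on `Γ₁(M)`. -/
def EisensteinStatement : Prop :=
  ∀ (M l : ℕ) [Fact l.Prime] (hl : ¬ l ∣ M), M ≠ 0 →
    ∀ (B : Type u) [AddCommGroup B] (φ : Additive (Gamma0 M) →+ B),
      (∀ γ : Gamma0 M, ((((γ : SL(2, ℤ)) 1 1 : ℤ)) : ZMod M) = 1 → φ (Additive.ofMul γ) = 0) →
      heckeTransfer hl φ = (l + 1) • φ

/-- (E) Norm criterion: a finite free `O`-module with an action of a finite `p`-group `D`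
(`p` not a unit of the discrete valuation ring `O`) such that `V^D = N V` and `ker N = I_D V`
is free over `O[D]`: it has an `O`-basis of the form `d • b i`. -/
def NormCriterionStatement : Prop :=
  ∀ (p : ℕ) [Fact p.Prime] (O : Type u) [CommRing O] [IsDomain O] [IsDiscreteValuationRing O],
    ¬ IsUnit (p : O) →
    ∀ (D : Type) [Group D] [Fintype D], (∃ a : ℕ, Fintype.card D = p ^ a) →
    ∀ (V : Type u) [AddCommGroup V] [Module O V] [Module.Finite O V] [Module.Free O V]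
      (ρ : Representation O D V),
      (∀ x : V, (∀ d, ρ d x = x) → ∃ z, x = ∑ d, ρ d z) →
      (∀ x : V, ∑ d, ρ d x = 0 → x ∈ Submodule.span O {w | ∃ d y, w = ρ d y - y}) →
      ∃ (n : ℕ) (b : Fin n → V),
        LinearIndependent O (fun z : D × Fin n => ρ z.1 (b z.2)) ∧
        Submodule.span O (Set.range fun z : D × Fin n => ρ z.1 (b z.2)) = ⊤

/-! ## Assembly -/

/-- The conclusion: `e H` has an `O`-basis `d • b i` (freeness over `O[D]`), and the kernel of `cor` on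
`e H` is `I_D · e H` (control). -/
def FreeConclusion {Γ : Subgroup SL(2, ℤ)} {D : Type} [Group D] [Fintype D] (κ : Γ →* D)
    (O : Type u) [CommRing O]
    (e : (Additive (kerSub κ) →+ O) →ₗ[O] (Additive (kerSub κ) →+ O)) : Prop :=
  (∃ (n : ℕ) (b : Fin n → (Additive (kerSub κ) →+ O)), (∀ i, e (b i) = b i) ∧
    ∀ s : D → Γ, (∀ d, κ (s d) = d) →
      LinearIndependent O (fun z : D × Fin n => conjAct κ (s z.1) (b z.2)) ∧
      ∀ x, e x = x →
        x ∈ Submodule.span O (Set.range fun z : D × Fin n => conjAct κ (s z.1) (b z.2))) ∧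
  (∀ x, e x = x → cor κ x = 0 →
    x ∈ Submodule.span O {w | ∃ (g : Γ) (y : Additive (kerSub κ) →+ O),
      e y = y ∧ w = conjAct κ g y - y}) ∧
  (∀ y : Additive Γ →+ O, ∃ x : Additive (kerSub κ) →+ O, cor κ x = y)

/-- **M-FREE, abstract form.**  `e` a projector commuting with the diamond operators, `t` an operator
commuting with `e` and the diamond operators, `c ∈ O` with `t - c` bijective on `e H` and
"Eisenstein on the defect": `cor ((t - c) x) ∈ |D| · H(Γ, O)` for every `D`-invariant `x`. -/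
def FreeAbsStatement : Prop :=
  ∀ (p : ℕ) [Fact p.Prime] (Γ : Subgroup SL(2, ℤ)) [Γ.FiniteIndex]
    (D : Type) [Group D] [Fintype D] (κ : Γ →* D),
    Function.Surjective κ → (∃ a : ℕ, Fintype.card D = p ^ a) →
    (-1 : SL(2, ℤ)) ∈ kerSub κ → (∀ g : Γ, IsOfFinOrder g → κ g = 1) →
    ∀ (O : Type u) [CommRing O] [IsDomain O] [IsDiscreteValuationRing O] [CharZero O],
      ¬ IsUnit (p : O) →
    ∀ (e t : (Additive (kerSub κ) →+ O) →ₗ[O] (Additive (kerSub κ) →+ O)) (c : O),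
      (∀ x, e (e x) = e x) → (∀ x, e (t x) = t (e x)) →
      (∀ (g : Γ) x, e (conjAct κ g x) = conjAct κ g (e x)) →
      (∀ (g : Γ) x, t (conjAct κ g x) = conjAct κ g (t x)) →
      (∀ x, (∀ g : Γ, conjAct κ g x = x) →
        ∃ y : Additive Γ →+ O, cor κ (t x - c • x) = Fintype.card D • y) →
      (∀ y, e y = y → ∃ x, e x = x ∧ t x - c • x = y) →
      (∀ x, e x = x → t x - c • x = 0 → x = 0) →
      FreeConclusion κ O e

/-- **M-FREE** for `Γ = Γ₀(M)`, `Γ₁(M) ≤ Γ' = ker κ`: `t` is any operator on `H(Γ', O)` lifting `T_l`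
(`cor ∘ t = T_l ∘ cor`), commuting with `e` and with the diamond operators, such that `t - (l + 1)` is
bijective on `e H` (`e` = projector on a non-Eisenstein part). -/
def FreeStatement : Prop :=
  ∀ (p M l : ℕ) [Fact p.Prime] [Fact l.Prime] (hl : ¬ l ∣ M), M ≠ 0 →
    ∀ (D : Type) [Group D] [Fintype D] (κ : Gamma0 M →* D),
    Function.Surjective κ → (∃ a : ℕ, Fintype.card D = p ^ a) →
    (∀ g : Gamma0 M, IsOfFinOrder g → κ g = 1) →
    (∀ γ : Gamma0 M, ((((γ : SL(2, ℤ)) 1 1 : ℤ)) : ZMod M) = 1 → κ γ = 1) →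
    ∀ (O : Type u) [CommRing O] [IsDomain O] [IsDiscreteValuationRing O] [CharZero O],
      ¬ IsUnit (p : O) →
    ∀ (e t : (Additive (kerSub κ) →+ O) →ₗ[O] (Additive (kerSub κ) →+ O)),
      (∀ x, e (e x) = e x) → (∀ x, e (t x) = t (e x)) →
      (∀ (g : Gamma0 M) x, e (conjAct κ g x) = conjAct κ g (e x)) →
      (∀ (g : Gamma0 M) x, t (conjAct κ g x) = conjAct κ g (t x)) →
      (∀ x, cor κ (t x) = heckeTransfer hl (cor κ x)) →
      (∀ y, e y = y → ∃ x, e x = x ∧ t x - ((l : O) + 1) • x = y) →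
      (∀ x, e x = x → t x - ((l : O) + 1) • x = 0 → x = 0) →
      FreeConclusion κ O e

/-- Assembly of the abstract form from the leaves. -/
def FreeAbsOfLeavesStatement : Prop :=
  KerCorStatement.{u} → CorSurjStatement.{u} → ResCorStatement.{u} → CorResStatement.{u} →
    CorConjStatement.{u} → NormCriterionStatement.{u} → FreeAbsStatement.{u}

/-- Assembly of the `Γ₀(M)` form. -/
def FreeOfAbsStatement : Prop :=
  FreeAbsStatement.{u} → EisensteinStatement.{u} → FreeStatement.{u}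

end Fermat.Agent.S59.MFree

end
-- ===== PACK-END S59/MFree/Spec.lean

-- ===== PACK-BEGIN S41/H460/DictA.lean
section




/-!
# Row S41, block PD, leaf DICT-a (helper460)

Dictionary `Hom(Γ, A) ↔` Manin symbols, first half (exact shapes of `Spec/PD.lean`):

* `maninRepExists    : Spec.ManinRepExistsStatement`    (D1)
* `maninRepZero      : Spec.ManinRepZeroStatement`      (D2)
* `maninRepInvariant : Spec.ManinRepInvariantStatement` (D2')
* `maninRepLinear    : Spec.ManinRepLinearStatement`    (D2'')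

Reusable: `isCocycle_indc`, `indc_apply_of_fixed`, `exists_cobd_of_zpow_fixed` (a cocycle value
`f g` is a `g`-coboundary as soon as `f (g ^ n) x = 0` whenever `g ^ n • x = x`),
`isCocycle_eq_of_S_ST` (a cocycle on `SL(2,ℤ)` is determined by its values at `S` and `S * T`).
-/

set_option autoImplicit false

namespace Fermat.Agent.S41.H460

open Matrix ModularGroup Matrix.SpecialLinearGroup
open Fermat.Agent.S21.H585 Fermat.Agent.S41.Spec
open scoped MatrixGroups

universe u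

/-! ## Generalities on cocycles -/

section General

variable {G : Type*} [Group G] {X : Type*} [MulAction G X] {A : Type*} [AddCommGroup A]

/-- The coboundary of a function is a cocycle. -/
lemma isCocycle_cobd (n : X → A) : IsCocycle (fun (g : G) (x : X) => n (g • x) - n x) := by
  intro g h x
  simp only [mul_smul]
  abel

lemma isCocycle_add {f f' : G → X → A} (hf : IsCocycle f) (hf' : IsCocycle f') :
    IsCocycle (fun g x => f g x + f' g x) := by
  intro g h x
  simp only [hf g h x, hf' g h x]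
  abel

lemma isCocycle_sub {f f' : G → X → A} (hf : IsCocycle f) (hf' : IsCocycle f') :
    IsCocycle (fun g x => f g x - f' g x) := by
  intro g h x
  simp only [hf g h x, hf' g h x]
  abel

lemma isCocycle_map {B : Type*} [AddCommGroup B] (π : A →+ B) {f : G → X → A}
    (hf : IsCocycle f) : IsCocycle (fun g x => π (f g x)) := by
  intro g h x
  simp only [hf g h x, map_add]

/-- If `f (g ^ n) x = 0` whenever `g ^ n` fixes `x`, then `f g` is a `g`-coboundary. -/
theorem exists_cobd_of_zpow_fixed {f : G → X → A} (hf : IsCocycle f) (g : G)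
    (hper : ∀ (x : X) (n : ℤ), g ^ n • x = x → f (g ^ n) x = 0) :
    ∃ h : X → A, ∀ x, f g x = h (g • x) - h x := by
  classical
  -- representatives of the orbits of `⟨g⟩`
  let r : X → X := fun x =>
    Quotient.out (Quotient.mk (MulAction.orbitRel (Subgroup.zpowers g) X) x)
  have hr : ∀ x, ∃ k : ℤ, g ^ k • r x = x := by
    intro x
    have h1 : (MulAction.orbitRel (Subgroup.zpowers g) X) (r x) x :=
      Quotient.exact (Quotient.out_eq _)
    rw [MulAction.orbitRel_apply] at h1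
    obtain ⟨⟨t, ht⟩, hx⟩ := h1
    obtain ⟨k, rfl⟩ := Subgroup.mem_zpowers_iff.mp ht
    -- `hx : ⟨g ^ k, _⟩ • x = r x`
    refine ⟨-k, ?_⟩
    have hx' : g ^ k • x = r x := hx
    rw [← hx', ← mul_smul, ← _root_.zpow_add, neg_add_cancel, zpow_zero, one_smul]
  have hrg : ∀ x, r (g • x) = r x := by
    intro x
    show Quotient.out _ = Quotient.out _
    congr 1
    apply Quotient.sound
    show (MulAction.orbitRel (Subgroup.zpowers g) X) (g • x) x
    rw [MulAction.orbitRel_apply]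
    exact ⟨⟨g, Subgroup.mem_zpowers g⟩, rfl⟩
  choose k hk using hr
  refine ⟨fun x => f (g ^ k x) (r x), fun x => ?_⟩
  show f g x = f (g ^ k (g • x)) (r (g • x)) - f (g ^ k x) (r x)
  rw [hrg]
  -- both `g ^ k (g • x)` and `g ^ (k x + 1)` move `r x` to `g • x`
  have h1 : g ^ (k x + 1) • r x = g • x := by
    rw [add_comm, _root_.zpow_add, zpow_one, mul_smul, hk]
  have h2 : g ^ k (g • x) • r x = g • x := by
    have := hk (g • x)
    rwa [hrg] at this
  have h3 : g ^ (k (g • x) - (k x + 1)) • (g • x) = g • x := by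
    calc g ^ (k (g • x) - (k x + 1)) • (g • x)
        = g ^ (k (g • x) - (k x + 1)) • (g ^ (k x + 1) • r x) := by rw [h1]
      _ = g ^ k (g • x) • r x := by
          rw [← mul_smul, ← _root_.zpow_add, sub_add_cancel]
      _ = g • x := h2
  have h4 : f (g ^ k (g • x)) (r x) = f (g ^ (k x + 1)) (r x) := by
    have e : g ^ k (g • x) = g ^ (k (g • x) - (k x + 1)) * g ^ (k x + 1) := by
      rw [← _root_.zpow_add, sub_add_cancel]
    rw [e, hf, h1, hper _ _ h3, add_zero]
  have h5 : f (g ^ (k x + 1)) (r x) = f (g ^ k x) (r x) + f g x := by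
    rw [add_comm (k x) 1, _root_.zpow_add, zpow_one, hf, hk]
  rw [h4, h5]
  abel

end General

/-! ## The induced cocycle -/

section Indc

variable {Γ : Subgroup SL(2, ℤ)} {A : Type*} [AddCommGroup A]

lemma indc_eq_of_eq (φ : Additive Γ →+ A) (g : SL(2, ℤ)) (x : SL(2, ℤ) ⧸ Γ) (γ : Γ)
    (h : (γ : SL(2, ℤ)) = (Quotient.out (g • x) : SL(2, ℤ))⁻¹ * g * Quotient.out x) :
    indc Γ φ g x = φ (Additive.ofMul γ) := by
  unfold indc
  congr 2
  exact Subtype.ext h.symm

/-- `indc φ` is a cocycle. -/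
theorem isCocycle_indc (φ : Additive Γ →+ A) : IsCocycle (indc Γ φ) := by
  intro g h x
  have hmem : (Quotient.out ((g * h) • x) : SL(2, ℤ))⁻¹ * (g * h) * Quotient.out x ∈ Γ :=
    sec_mem Γ (g * h) x
  set γ₁ : Γ := ⟨(Quotient.out (g • h • x) : SL(2, ℤ))⁻¹ * g * Quotient.out (h • x),
    sec_mem Γ g (h • x)⟩ with hγ₁
  set γ₂ : Γ := ⟨(Quotient.out (h • x) : SL(2, ℤ))⁻¹ * h * Quotient.out x, sec_mem Γ h x⟩
    with hγ₂
  have e1 : indc Γ φ (g * h) x = φ (Additive.ofMul (γ₁ * γ₂)) := by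
    apply indc_eq_of_eq
    rw [Subgroup.coe_mul, hγ₁, hγ₂, mul_smul]
    simp only [mul_assoc, mul_inv_cancel_left]
  have e2 : indc Γ φ h x = φ (Additive.ofMul γ₂) := indc_eq_of_eq φ h x γ₂ rfl
  have e3 : indc Γ φ g (h • x) = φ (Additive.ofMul γ₁) := indc_eq_of_eq φ g (h • x) γ₁ rfl
  rw [e1, e2, e3, ofMul_mul, map_add, add_comm]

/-- At a fixed point, `indc φ g x` is the value of `φ` at a conjugate of `g`. -/
lemma indc_apply_of_fixed (φ : Additive Γ →+ A) (g : SL(2, ℤ)) (x : SL(2, ℤ) ⧸ Γ)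
    (hfix : g • x = x) :
    ∃ γ : Γ, (γ : SL(2, ℤ)) = (Quotient.out x : SL(2, ℤ))⁻¹ * g * Quotient.out x ∧
      indc Γ φ g x = φ (Additive.ofMul γ) := by
  have hmem : (Quotient.out x : SL(2, ℤ))⁻¹ * g * Quotient.out x ∈ Γ := by
    have := sec_mem Γ g x
    rwa [hfix] at this
  refine ⟨⟨_, hmem⟩, rfl, ?_⟩
  apply indc_eq_of_eq
  rw [hfix]

/-- `indc φ` recovers `φ` at the base point. -/
lemma indc_basePt (φ : Additive Γ →+ A) (γ : Γ) :
    indc Γ φ (γ : SL(2, ℤ)) (basePt Γ) = φ (Additive.ofMul γ) := by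
  obtain ⟨γ', hγ', h⟩ := indc_apply_of_fixed φ (γ : SL(2, ℤ)) (basePt Γ)
    (smul_basePt_of_mem Γ γ.2)
  rw [h]
  -- `γ' = s⁻¹ γ s` with `s ∈ Γ`
  have hs : (Quotient.out (basePt Γ) : SL(2, ℤ)) ∈ Γ := by
    have h1 := out_smul_basePt Γ (basePt Γ)
    rw [smul_basePt_eq, basePt, QuotientGroup.eq] at h1
    have h2 := inv_mem h1
    rw [mul_one, inv_inv] at h2
    exact h2
  set s : Γ := ⟨_, hs⟩ with hsdef
  have e : γ' = s⁻¹ * γ * s := Subtype.ext (by rw [hγ']; rfl)
  rw [e, ofMul_mul, ofMul_mul, map_add, map_add, ofMul_inv, map_neg]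
  abel

end Indc

/-! ## Finite order elements -/

section FinOrder

lemma isOfFinOrder_S_h460 : IsOfFinOrder (S : SL(2, ℤ)) :=
  isOfFinOrder_iff_pow_eq_one.mpr ⟨4, by norm_num, by decide⟩

lemma isOfFinOrder_ST_h460 : IsOfFinOrder (S * T : SL(2, ℤ)) :=
  isOfFinOrder_iff_pow_eq_one.mpr ⟨6, by norm_num, by decide⟩

variable {Γ : Subgroup SL(2, ℤ)} {A : Type*} [AddCommGroup A]

/-- A torsion-trivial `φ` has `indc φ (g ^ n) x = 0` at the fixed points of `g ^ n`, `g` of finite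
order. -/
lemma indc_zpow_eq_zero_of_fixed (φ : Additive Γ →+ A)
    (hφ : ∀ γ : Γ, IsOfFinOrder γ → φ (Additive.ofMul γ) = 0) (g : SL(2, ℤ))
    (hg : IsOfFinOrder g) (x : SL(2, ℤ) ⧸ Γ) (n : ℤ) (hfix : g ^ n • x = x) :
    indc Γ φ (g ^ n) x = 0 := by
  obtain ⟨γ, hγ, h⟩ := indc_apply_of_fixed φ (g ^ n) x hfix
  rw [h]
  apply hφ
  obtain ⟨k, hk, hgk⟩ := isOfFinOrder_iff_pow_eq_one.mp (hg.zpow (i := n))
  refine isOfFinOrder_iff_pow_eq_one.mpr ⟨k, hk, ?_⟩
  apply Subtype.ext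
  rw [Subgroup.coe_pow, hγ, Subgroup.coe_one]
  have e : (Quotient.out x : SL(2, ℤ))⁻¹ * g ^ n * Quotient.out x
      = (Quotient.out x : SL(2, ℤ))⁻¹ * g ^ n * ((Quotient.out x : SL(2, ℤ))⁻¹)⁻¹ := by
    rw [inv_inv]
  rw [e, conj_pow, hgk, mul_one, mul_inv_cancel]

end FinOrder

/-! ## The four statements -/

/-- **(D1)** every torsion-trivial class has a Manin representative. -/
theorem maninRepExists : ManinRepExistsStatement.{u} := by
  intro Γ _ hneg A _ φ hφ
  have hf₀ : IsCocycle (indc Γ φ) := isCocycle_indc φ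
  -- normalise at `S`
  obtain ⟨n₀, hn₀⟩ := exists_cobd_of_zpow_fixed hf₀ S
    (fun x n h => indc_zpow_eq_zero_of_fixed φ hφ S isOfFinOrder_S_h460 x n h)
  set f₁ : SL(2, ℤ) → SL(2, ℤ) ⧸ Γ → A := fun g x => indc Γ φ g x - (n₀ (g • x) - n₀ x)
    with hf₁def
  have hf₁ : IsCocycle f₁ := isCocycle_sub hf₀ (isCocycle_cobd n₀)
  have hf₁S : ∀ x, f₁ S x = 0 := by
    intro x
    show indc Γ φ S x - (n₀ (S • x) - n₀ x) = 0
    rw [hn₀ x, sub_self]
  -- normalise at `S * T`
  obtain ⟨m, hm⟩ := exists_cobd_of_zpow_fixed hf₁ (S * T) (by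
    intro x n h
    show indc Γ φ ((S * T) ^ n) x - (n₀ ((S * T) ^ n • x) - n₀ x) = 0
    rw [indc_zpow_eq_zero_of_fixed φ hφ (S * T) isOfFinOrder_ST_h460 x n h, h, sub_self,
      sub_zero])
  refine ⟨m, f₁, ⟨hf₁, hf₁S, hm⟩, fun γ => ?_⟩
  show φ (Additive.ofMul γ) = indc Γ φ (γ : SL(2, ℤ)) (basePt Γ)
    - (n₀ ((γ : SL(2, ℤ)) • basePt Γ) - n₀ (basePt Γ))
  rw [indc_basePt, smul_basePt_of_mem Γ γ.2, sub_self, sub_zero]

/-- A cocycle whose homomorphism vanishes is the coboundary of `x ↦ f (out x) x₀`. -/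
lemma eq_cobd_of_hom_eq_zero {Γ : Subgroup SL(2, ℤ)} {A : Type*} [AddCommGroup A]
    {f : SL(2, ℤ) → SL(2, ℤ) ⧸ Γ → A} (hf : IsCocycle f)
    (h0 : ∀ γ : Γ, f (γ : SL(2, ℤ)) (basePt Γ) = 0) (g : SL(2, ℤ)) (x : SL(2, ℤ) ⧸ Γ) :
    f g x = f (Quotient.out (g • x)) (basePt Γ) - f (Quotient.out x) (basePt Γ) := by
  have h1 := hf.eq_indc_add g x
  have h2 : homOfCocycle Γ f hf = 0 := by
    ext γ
    exact h0 (Additive.toMul γ)
  rw [h2] at h1
  rw [h1]
  have h3 : indc Γ (0 : Additive Γ →+ A) g x = 0 := rfl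
  rw [h3, zero_add]

/-- **(D2)** a Manin symbol representing `0` lies in `M^S + M^{ST}`. -/
theorem maninRepZero : ManinRepZeroStatement.{u} := by
  intro Γ _ _ A _ m hm
  obtain ⟨f, ⟨hf, hfS, hfU⟩, hφ⟩ := hm
  have h0 : ∀ γ : Γ, f (γ : SL(2, ℤ)) (basePt Γ) = 0 := fun γ => (hφ γ).symm
  set n : SL(2, ℤ) ⧸ Γ → A := fun x => f (Quotient.out x) (basePt Γ) with hn
  have hcob : ∀ g x, f g x = n (g • x) - n x := fun g x => eq_cobd_of_hom_eq_zero hf h0 g x
  refine ⟨n, m - n, ?_, ?_, by abel⟩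
  · intro x
    have := hcob S x
    rw [hfS] at this
    exact (sub_eq_zero.mp this.symm)
  · intro x
    have h1 := hcob (S * T) x
    rw [hfU] at h1
    show m ((S * T) • x) - n ((S * T) • x) = m x - n x
    rw [sub_eq_sub_iff_sub_eq_sub]
    exact h1

/-- A cocycle on `SL(2,ℤ)` is determined by its values at `S` and `S * T`. -/
theorem isCocycle_eq_of_S_ST {X : Type*} [MulAction SL(2, ℤ) X] {A : Type*} [AddCommGroup A]
    {f f' : SL(2, ℤ) → X → A} (hf : IsCocycle f) (hf' : IsCocycle f')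
    (hS : ∀ x, f S x = f' S x) (hU : ∀ x, f (S * T) x = f' (S * T) x) (g : SL(2, ℤ)) (x : X) :
    f g x = f' g x := by
  -- the subgroup where `f` and `f'` agree
  let H : Subgroup SL(2, ℤ) :=
    { carrier := {g | ∀ x, f g x = f' g x}
      one_mem' := fun x => by rw [hf.map_one, hf'.map_one]
      mul_mem' := fun {a b} ha hb x => by
        show f (a * b) x = f' (a * b) x
        rw [hf, hf', ha, hb]
      inv_mem' := fun {a} ha x => by
        show f a⁻¹ x = f' a⁻¹ x
        rw [hf.map_inv', hf'.map_inv', ha] }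
  have hSH : S ∈ H := hS
  have hUH : S * T ∈ H := hU
  have hTH : T ∈ H := by
    have := H.mul_mem (H.inv_mem hSH) hUH
    rwa [inv_mul_cancel_left] at this
  have htop : (⊤ : Subgroup SL(2, ℤ)) ≤ H := by
    rw [← _root_.SpecialLinearGroup.SL2Z_generators, Subgroup.closure_le]
    rintro y (rfl | rfl)
    · exact hSH
    · exact hTH
  exact htop (Subgroup.mem_top g) x

/-- **(D2')** a Manin symbol in `M^S + M^{ST}` represents only `0`. -/
theorem maninRepInvariant : ManinRepInvariantStatement.{u} := by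
  intro Γ _ _ A _ φ m hm hinv
  obtain ⟨f, ⟨hf, hfS, hfU⟩, hφ⟩ := hm
  obtain ⟨n₁, n₂, hn₁, hn₂, rfl⟩ := hinv
  have hcob : IsCocycle (fun (g : SL(2, ℤ)) (x : SL(2, ℤ) ⧸ Γ) => n₁ (g • x) - n₁ x) :=
    isCocycle_cobd n₁
  have key := isCocycle_eq_of_S_ST hf hcob
    (fun x => by
      show f S x = n₁ (S • x) - n₁ x
      rw [hfS, hn₁, sub_self])
    (fun x => by
      show f (S * T) x = n₁ ((S * T) • x) - n₁ x
      rw [hfU, Pi.add_apply, Pi.add_apply, hn₂]
      abel)
  ext γ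
  have h1 := hφ (Additive.toMul γ)
  have h2 := key ((Additive.toMul γ : Γ) : SL(2, ℤ)) (basePt Γ)
  have h3 : ((Additive.toMul γ : Γ) : SL(2, ℤ)) • basePt Γ = basePt Γ :=
    smul_basePt_of_mem Γ (Additive.toMul γ).2
  simp only [h3, sub_self] at h2
  show φ γ = 0
  exact h1.trans h2

/-- **(D2'')** linearity and naturality of `IsManinRep`. -/
theorem maninRepLinear : ManinRepLinearStatement.{u} := by
  intro Γ A B _ _ π φ φ' m m' hm hm'
  obtain ⟨f, ⟨hf, hfS, hfU⟩, hφ⟩ := hm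
  obtain ⟨f', ⟨hf', hfS', hfU'⟩, hφ'⟩ := hm'
  refine ⟨⟨fun g x => f g x + f' g x, ⟨isCocycle_add hf hf', fun x => ?_, fun x => ?_⟩, fun γ => ?_⟩,
    ⟨fun g x => f g x - f' g x, ⟨isCocycle_sub hf hf', fun x => ?_, fun x => ?_⟩, fun γ => ?_⟩,
    ⟨fun g x => π (f g x), ⟨isCocycle_map π hf, fun x => ?_, fun x => ?_⟩, fun γ => ?_⟩⟩
  · show f S x + f' S x = 0
    rw [hfS, hfS', add_zero]
  · show f (S * T) x + f' (S * T) x = (m + m') ((S * T) • x) - (m + m') x
    rw [hfU, hfU', Pi.add_apply, Pi.add_apply]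
    abel
  · show (φ + φ') (Additive.ofMul γ) = f _ _ + f' _ _
    rw [AddMonoidHom.add_apply, hφ, hφ']
  · show f S x - f' S x = 0
    rw [hfS, hfS', sub_zero]
  · show f (S * T) x - f' (S * T) x = (m - m') ((S * T) • x) - (m - m') x
    rw [hfU, hfU', Pi.sub_apply, Pi.sub_apply]
    abel
  · show (φ - φ') (Additive.ofMul γ) = f _ _ - f' _ _
    rw [AddMonoidHom.sub_apply, hφ, hφ']
  · show π (f S x) = 0
    rw [hfS, map_zero]
  · show π (f (S * T) x) = π (m ((S * T) • x)) - π (m x)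
    rw [hfU, map_sub]
  · show (π.comp φ) (Additive.ofMul γ) = π (f _ _)
    rw [AddMonoidHom.comp_apply, hφ]

end Fermat.Agent.S41.H460

end
-- ===== PACK-END S41/H460/DictA.lean

-- ===== PACK-BEGIN S59/H401/DictPoint.lean
section



/-!
# Row S59, leaf DICT (helper401), part 2: coefficient rings

* `dict_exists_point_of_pts` : if the `p`-adic points of `R` are topologically separating
  (`S31.PTS p R`), then every prime `m ∋ p` of `R` is contained in the centre of some `p`-adic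
  point of `R` (a ring homomorphism to a complete DVR of characteristic zero with finite residue
  field).
* `dict_exists_ext` : every complete DVR `O` of characteristic zero with finite residue field of
  characteristic `p` has a finite extension `O'` of the same kind in whose residue field every
  monic quadratic polynomial over `𝔽_p` splits.  (`O'` = integral closure of `O` in the splitting
  field of the product of all `X² + b X + c`, `0 ≤ b, c < p`.)
-/

set_option autoImplicit false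

open Polynomial IsLocalRing

namespace Fermat.Agent.S59.H401

open Fermat.Agent.S31 (PadicPoint PTS)

/-! ### Points centred at a given prime -/

/-- The centre of a `p`-adic point is a maximal ideal. -/
theorem dict_center_isMaximal {p : ℕ} {R : Type} [CommRing R] (P : PadicPoint p R) :
    ((maximalIdeal P.O).comap P.χ).IsMaximal := by
  have hker : RingHom.ker ((residue P.O).comp P.χ) = (maximalIdeal P.O).comap P.χ := by
    ext t
    rw [RingHom.mem_ker, Ideal.mem_comap, RingHom.comp_apply, residue_eq_zero_iff]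
  rw [← hker]
  have : (RingHom.ker ((residue P.O).comp P.χ)).IsPrime := RingHom.ker_isPrime _
  have : Finite (R ⧸ RingHom.ker ((residue P.O).comp P.χ)) :=
    Finite.of_injective (RingHom.kerLift ((residue P.O).comp P.χ))
      (RingHom.kerLift_injective _)
  exact Ideal.Quotient.maximal_of_isField _
    (Finite.isField_of_domain (R ⧸ RingHom.ker ((residue P.O).comp P.χ)))

/-- A product of elements outside a prime ideal is outside the prime ideal. -/
theorem dict_list_prod_notMem {R : Type*} [CommRing R] (m : Ideal R) [hm : m.IsPrime] :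
    ∀ l : List R, (∀ x ∈ l, x ∉ m) → l.prod ∉ m
  | [], _ => by
      rw [List.prod_nil]
      exact (Ideal.ne_top_iff_one m).mp hm.ne_top
  | a :: l, h => by
      rw [List.prod_cons]
      intro hmem
      rcases hm.mem_or_mem hmem with h1 | h1
      · exact h a List.mem_cons_self h1
      · exact dict_list_prod_notMem m l (fun x hx => h x (List.mem_cons_of_mem _ hx)) h1

/-- **A point centred at `m`.**  If the `p`-adic points of `R` are topologically separating, every
prime `m ∋ p` is contained in the centre of a `p`-adic point. -/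
theorem dict_exists_point_of_pts {p : ℕ} {R : Type} [CommRing R] (hPTS : PTS p R)
    (m : Ideal R) [hm : m.IsPrime] (hpm : (p : R) ∈ m) :
    ∃ P : PadicPoint p R, ∀ t ∈ m, P.χ t ∈ maximalIdeal P.O := by
  classical
  obtain ⟨F, n', hF⟩ := hPTS m hm hpm 1
  by_contra hcon
  push Not at hcon
  have hex : ∀ P : PadicPoint p R, ∃ u : R, P.χ u ∈ maximalIdeal P.O ∧ u ∉ m := by
    intro P
    by_contra hno
    push Not at hno
    have hle : (maximalIdeal P.O).comap P.χ ≤ m := fun u hu => hno u hu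
    have heq := (dict_center_isMaximal P).eq_of_le hm.ne_top hle
    obtain ⟨t, htm, ht⟩ := hcon P
    apply ht
    have : t ∈ (maximalIdeal P.O).comap P.χ := by rw [heq]; exact htm
    exact this
  choose u hu1 hu2 using hex
  have htm : (F.map (fun P => u P ^ n')).prod ∉ m := by
    apply dict_list_prod_notMem m
    intro x hx
    obtain ⟨P, -, rfl⟩ := List.mem_map.mp hx
    exact fun h => hu2 P (hm.mem_of_pow_mem _ h)
  apply htm
  have key := hF (F.map (fun P => u P ^ n')).prod (fun P hP => by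
    have hdvd : u P ^ n' ∣ (F.map (fun P => u P ^ n')).prod :=
      List.dvd_prod (List.mem_map.mpr ⟨P, hP, rfl⟩)
    obtain ⟨c, hc⟩ := hdvd
    rw [hc, map_mul, map_pow]
    exact Ideal.mul_mem_right _ _ (Ideal.pow_mem_pow (hu1 P) n'))
  rwa [pow_one] at key

/-! ### Quadratics -/

/-- Vieta for a monic quadratic which splits. -/
theorem dict_vieta_of_splits {L : Type*} [Field L] (b c : L)
    (h : (X ^ 2 + C b * X + C c : L[X]).Splits) :
    ∃ α β : L, b = -(α + β) ∧ c = α * β := by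
  have hmonic : (X ^ 2 + C b * X + C c : L[X]).Monic := by
    have h2 : (X ^ 2 + C b * X + C c : L[X]) = X ^ 2 + (C b * X + C c) := by ring
    rw [h2]
    apply Polynomial.monic_X_pow_add
    exact (degree_linear_le).trans_lt (by norm_num)
  have hdeg : (X ^ 2 + C b * X + C c : L[X]).natDegree = 2 := by
    have h2 : (X ^ 2 + C b * X + C c : L[X]) = X ^ 2 + (C b * X + C c) := by ring
    rw [h2]
    have hlt : (C b * X + C c : L[X]).degree < (X ^ 2 : L[X]).degree := by
      rw [degree_X_pow]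
      exact (degree_linear_le).trans_lt (by norm_num)
    rw [natDegree_add_eq_left_of_degree_lt hlt, natDegree_X_pow]
  have hcard := h.natDegree_eq_card_roots
  rw [hdeg] at hcard
  obtain ⟨α, β, hαβ⟩ := Multiset.card_eq_two.mp hcard.symm
  have hprod := h.eq_prod_roots_of_monic hmonic
  rw [hαβ] at hprod
  have hprod' : (X ^ 2 + C b * X + C c : L[X]) = (X - C α) * (X - C β) := by
    rw [hprod]
    simp
  refine ⟨α, β, ?_, ?_⟩
  · have h1 := congrArg (fun q : L[X] => q.coeff 1) hprod'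
    simp only [coeff_add, coeff_X_pow, coeff_C_mul, coeff_X, coeff_C] at h1
    have h2 : ((X - C α) * (X - C β) : L[X]).coeff 1 = -(α + β) := by
      have e : ((X - C α) * (X - C β) : L[X]) = X ^ 2 + C (-(α + β)) * X + C (α * β) := by
        simp only [map_neg, map_add, map_mul]
        ring
      rw [e]
      simp [coeff_X_pow, coeff_C]
    rw [h2] at h1
    simpa using h1
  · have h1 := congrArg (fun q : L[X] => q.coeff 0) hprod'
    simp only [coeff_add, coeff_X_pow, coeff_C_mul, coeff_X, coeff_C] at h1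
    have h2 : ((X - C α) * (X - C β) : L[X]).coeff 0 = α * β := by
      have e : ((X - C α) * (X - C β) : L[X]) = X ^ 2 + C (-(α + β)) * X + C (α * β) := by
        simp only [map_neg, map_add, map_mul]
        ring
      rw [e]
      simp [coeff_X_pow, coeff_C]
    rw [h2] at h1
    simpa using h1

/-- The product of all monic quadratics with coefficients in `{0, …, p - 1}`. -/
noncomputable def dictQuadProd (p : ℕ) (K : Type) [Field K] : K[X] :=
  ∏ b ∈ Finset.range p, ∏ c ∈ Finset.range p, (X ^ 2 + C (b : K) * X + C (c : K))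

theorem dictQuadProd_monic (p : ℕ) (K : Type) [Field K] : (dictQuadProd p K).Monic := by
  apply Polynomial.monic_prod_of_monic
  intro b _
  apply Polynomial.monic_prod_of_monic
  intro c _
  have h2 : (X ^ 2 + C (b : K) * X + C (c : K) : K[X]) = X ^ 2 + (C (b : K) * X + C (c : K)) := by
    ring
  rw [h2]
  apply Polynomial.monic_X_pow_add
  exact (degree_linear_le).trans_lt (by norm_num)

theorem dict_dvd_quadProd (p : ℕ) (K : Type) [Field K] {b c : ℕ} (hb : b < p) (hc : c < p) :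
    (X ^ 2 + C (b : K) * X + C (c : K) : K[X]) ∣ dictQuadProd p K :=
  (Finset.dvd_prod_of_mem (fun c : ℕ => (X ^ 2 + C (b : K) * X + C (c : K) : K[X]))
    (Finset.mem_range.mpr hc)).trans
    (Finset.dvd_prod_of_mem
      (fun b : ℕ => ∏ c ∈ Finset.range p, (X ^ 2 + C (b : K) * X + C (c : K) : K[X]))
      (Finset.mem_range.mpr hb))

/-- In the splitting field of `dictQuadProd`, every quadratic `X² + b X + c` (`b, c < p`) has
roots `α, β` with `b = -(α + β)`, `c = α β`. -/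
theorem dict_exists_roots (p : ℕ) (K : Type) [Field K] {b c : ℕ} (hb : b < p) (hc : c < p) :
    ∃ α β : (dictQuadProd p K).SplittingField,
      ((b : ℕ) : (dictQuadProd p K).SplittingField) = -(α + β) ∧
      ((c : ℕ) : (dictQuadProd p K).SplittingField) = α * β := by
  have hs := Polynomial.SplittingField.splits (dictQuadProd p K)
  have hne : (dictQuadProd p K).map (algebraMap K (dictQuadProd p K).SplittingField) ≠ 0 :=
    ((dictQuadProd_monic p K).map _).ne_zero
  have hdvd := Polynomial.map_dvd (algebraMap K (dictQuadProd p K).SplittingField)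
    (dict_dvd_quadProd p K hb hc)
  have hs' := hs.of_dvd hne hdvd
  have e : (X ^ 2 + C (b : K) * X + C (c : K) : K[X]).map
      (algebraMap K (dictQuadProd p K).SplittingField)
      = X ^ 2 + C ((b : ℕ) : (dictQuadProd p K).SplittingField) * X
        + C ((c : ℕ) : (dictQuadProd p K).SplittingField) := by
    simp
  rw [e] at hs'
  exact dict_vieta_of_splits _ _ hs'

end Fermat.Agent.S59.H401

end
-- ===== PACK-END S59/H401/DictPoint.lean

-- ===== PACK-BEGIN S59/TW/H658/U0Final.lean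
section





/-!
# S21 — piece MS-C, exact interface statement

`Fermat.Agent.S21.H81.exists_u0` is verbatim the statement `exists_u0` of
`Fermat/Agent/S21/MSInterface.lean` (helper201), obtained from `exists_u0_of` by plugging in
MS-A (`exists_partition_SL2Z`, helper896), G2 (`c_eq_zero_of_two_le_im`, helper896) and
MS-B (`exists_section`, helper944).
-/

set_option autoImplicit false

open UpperHalfPlane CongruenceSubgroup
open scoped MatrixGroups ContDiff

namespace Fermat.Agent.S59.TW.H658.H81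

open Fermat.Agent.S21

/-- **MS-C** (strong form): the initial function `u₀` with periods `φ`, constant high in every
cusp. -/
theorem exists_u0_const (L : Lev) (φ : Additive (L.Γ) →+ ℝ)
    (hφ : ModularCurve.Period.IsParabolicHom (L.Γ) φ) :
    ∃ (u₀ : ℂ → ℝ) (c : SL(2, ℤ) → ℝ), ContDiffOn ℝ ∞ u₀ Uhp ∧
      (∀ (γ : L.Γ) (z : ℍ),
        u₀ ↑((γ : SL(2, ℤ)) • z) = u₀ ↑z + φ (Additive.ofMul γ)) ∧
      (∀ (δ : SL(2, ℤ)) (z : ℂ), 2 ≤ z.im → u₀ (mob δ z) = c δ) ∧
      (∀ (δ : SL(2, ℤ)) (z : ℂ), 2 < z.im → dz u₀ (mob δ z) = 0) :=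
  exists_u0_of L φ exists_partition_SL2Z c_eq_zero_of_two_le_im (_root_.Fermat.Agent.S59.TW.H658.exists_section L φ hφ)

/-- **MS-C**: the initial function `u₀` with periods `φ`, locally constant high in every cusp.
(Verbatim the statement `exists_u0` of `MSInterface.lean`.) -/
theorem exists_u0 (L : Lev) (φ : Additive (L.Γ) →+ ℝ)
    (hφ : ModularCurve.Period.IsParabolicHom (L.Γ) φ) :
    ∃ u₀ : ℂ → ℝ, ContDiffOn ℝ ∞ u₀ Uhp ∧
      (∀ (γ : L.Γ) (z : ℍ), u₀ ↑((γ : SL(2, ℤ)) • z) = u₀ ↑z + φ (Additive.ofMul γ)) ∧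
      (∀ (δ : SL(2, ℤ)) (z : ℂ), 2 < z.im → dz u₀ (mob δ z) = 0) := by
  obtain ⟨u₀, -, h1, h2, -, h4⟩ := exists_u0_const L φ hφ
  exact ⟨u₀, h1, h2, h4⟩

end Fermat.Agent.S59.TW.H658.H81

end
-- ===== PACK-END S59/TW/H658/U0Final.lean

-- ===== PACK-BEGIN S48/H548/Chi0Ops.lean
section


/-!
# S48 / RES piece CHI0 (helper548): the Hecke algebra of `S_k(Γ₁(M))`

* `Inv1.heckeT1_slash` : `T_p` commutes with the slash action of `Γ₀(M)` (diamond operators);
* `diaL`, `TpL` : the diamond and Hecke operators as `ℂ`-linear endomorphisms of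
  `CuspForm (Gamma1 M) k`;
* `heckeGens M k`, `heckeAlg1 M k` : generators and the `ℤ`-algebra they generate.
-/

set_option autoImplicit false
set_option linter.unusedSectionVars false
set_option linter.deprecated false

noncomputable section

namespace Fermat.Agent.S48.H548

open Matrix.SpecialLinearGroup UpperHalfPlane ModularForm CongruenceSubgroup ModularFormClass
open scoped MatrixGroups ModularForm OnePoint Manifold

variable {N : ℕ} {k : ℤ}

section Comm

variable {p : ℕ} [Fact p.Prime] {f : ℍ → ℂ}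

/-- `T_p` commutes with the action of `Γ₀(N)`. -/
theorem Inv1.heckeT1_slash (hpN : ¬ p ∣ N) (hf : Inv1 N k f) (σ : SL(2, ℤ)) (hσ : σ ∈ Gamma0 N)
    (hσp : ((σ 1 1 : ℤ) : ZMod N) = (p : ZMod N)) (g : SL(2, ℤ)) (hg : g ∈ Gamma0 N) :
    (heckeU k p f + (f ∣[k] mapGL ℝ σ) ∣[k] heckeDiagMatrix p) ∣[k] mapGL ℝ g =
      heckeU k p (f ∣[k] mapGL ℝ g) +
        ((f ∣[k] mapGL ℝ g) ∣[k] mapGL ℝ σ) ∣[k] heckeDiagMatrix p := by
  have hpu : IsUnit ((p : ℕ) : ZMod N) :=
    (ZMod.isUnit_iff_coprime p N).mpr ((Nat.Prime.coprime_iff_not_dvd Fact.out).mpr hpN)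
  have hg10 : ((g 1 0 : ℤ) : ZMod N) = 0 := Gamma0_mem.mp hg
  have hgN : (N : ℤ) ∣ g 1 0 := (ZMod.intCast_zmod_eq_zero_iff_dvd _ _).mp hg10
  rw [heckeT1_eq_sum, heckeT1_eq_sum, SlashAction.sum_slash]
  calc ∑ x : OnePoint (ZMod p),
        ((x.elim (f ∣[k] mapGL ℝ σ) (fun _ ↦ f)) ∣[k] heckeRep p x) ∣[k] mapGL ℝ g
      = ∑ x : OnePoint (ZMod p),
          ((redMatrix p g • x).elim ((f ∣[k] mapGL ℝ g) ∣[k] mapGL ℝ σ)
            (fun _ ↦ f ∣[k] mapGL ℝ g)) ∣[k] heckeRep p (redMatrix p g • x) := by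
        refine Finset.sum_congr rfl fun x _ ↦ ?_
        obtain ⟨g', hg'N, hw, hmul⟩ := heckeRep_mul hpN g hgN x
        have hg'0 : g' ∈ Gamma0 N :=
          Gamma0_mem.mpr ((ZMod.intCast_zmod_eq_zero_iff_dvd _ _).mpr hg'N)
        rw [← SlashAction.slash_mul, hmul, SlashAction.slash_mul]
        congr 1
        -- `hw : g' 1 1 * w(x') = g 1 1 * w(x)`
        generalize redMatrix p g • x = x' at hw ⊢
        induction x using OnePoint.rec with
        | infty =>
          induction x' using OnePoint.rec with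
          | infty =>
            simp only [wt_infty, mul_one] at hw
            simp only [OnePoint.elim_infty]
            rw [← slash_mapGL_mul, ← slash_mapGL_mul]
            refine hf.slash_eq_of_lower_eq _ _ ((Gamma0 N).mul_mem hσ hg'0)
              ((Gamma0 N).mul_mem hg hσ) ?_
            rw [lower_right_mul σ g' hσ, lower_right_mul g σ hg, hw, mul_comm]
          | coe j' =>
            simp only [wt_infty, wt_coe, mul_one] at hw
            simp only [OnePoint.elim_infty, OnePoint.elim_some]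
            rw [← slash_mapGL_mul]
            refine hf.slash_eq_of_lower_eq _ _ ((Gamma0 N).mul_mem hσ hg'0) hg ?_
            rw [lower_right_mul σ g' hσ, hσp, mul_comm, hw]
        | coe j =>
          induction x' using OnePoint.rec with
          | infty =>
            simp only [wt_infty, wt_coe, mul_one] at hw
            simp only [OnePoint.elim_infty, OnePoint.elim_some]
            rw [← slash_mapGL_mul]
            refine hf.slash_eq_of_lower_eq _ _ hg'0 ((Gamma0 N).mul_mem hg hσ) ?_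
            rw [lower_right_mul g σ hg, hσp, hw]
          | coe j' =>
            simp only [wt_coe] at hw
            simp only [OnePoint.elim_some]
            exact hf.slash_eq_of_lower_eq _ _ hg'0 hg (hpu.mul_left_injective hw)
    _ = ∑ x : OnePoint (ZMod p),
          (x.elim ((f ∣[k] mapGL ℝ g) ∣[k] mapGL ℝ σ) (fun _ ↦ f ∣[k] mapGL ℝ g))
            ∣[k] heckeRep p x :=
        Equiv.sum_comp (MulAction.toPerm (redMatrix p g))
          (fun x ↦ (x.elim ((f ∣[k] mapGL ℝ g) ∣[k] mapGL ℝ σ) (fun _ ↦ f ∣[k] mapGL ℝ g))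
            ∣[k] heckeRep p x)

end Comm

/-! ### Linear operators -/

section Lin

variable [NeZero N]

/-- The diamond operator `f ↦ f ∣ a` (`a ∈ Γ₀(N)`) as a linear map. -/
def diaL (a : SL(2, ℤ)) (ha : a ∈ Gamma0 N) :
    CuspForm (Gamma1 N) k →ₗ[ℂ] CuspForm (Gamma1 N) k where
  toFun := dia a ha
  map_add' f g := by
    apply DFunLike.coe_injective
    rw [CuspForm.coe_add, coe_dia, coe_dia, coe_dia, CuspForm.coe_add, SlashAction.add_slash]
  map_smul' c f := by
    apply DFunLike.coe_injective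
    rw [RingHom.id_apply, CuspForm.IsGLPos.coe_smul, coe_dia, coe_dia,
      CuspForm.IsGLPos.coe_smul, smul_slash_mapGL]

@[simp] theorem coe_diaL (a : SL(2, ℤ)) (ha : a ∈ Gamma0 N) (f : CuspForm (Gamma1 N) k) :
    (⇑(diaL a ha f) : ℍ → ℂ) = ⇑f ∣[k] mapGL ℝ a := rfl

theorem smul_slash_diag' (k : ℤ) (p : ℕ) (c : ℂ) (F : ℍ → ℂ) :
    (c • F) ∣[k] heckeDiagMatrix p = c • (F ∣[k] heckeDiagMatrix p) := by
  rw [ModularForm.smul_slash, σ_heckeDiagMatrix]
  rfl

variable {p : ℕ} [Fact p.Prime]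

/-- A chosen element of `Γ₀(N)` with lower right entry `≡ p`. -/
def sigmaP (N p : ℕ) [Fact p.Prime] (hpN : ¬ p ∣ N) : SL(2, ℤ) :=
  (exists_Gamma0_lower N p ((Nat.Prime.coprime_iff_not_dvd Fact.out).mpr hpN)).choose

theorem sigmaP_mem (hpN : ¬ p ∣ N) : sigmaP N p hpN ∈ Gamma0 N :=
  (exists_Gamma0_lower N p ((Nat.Prime.coprime_iff_not_dvd Fact.out).mpr hpN)).choose_spec.1

theorem sigmaP_lower (hpN : ¬ p ∣ N) : (((sigmaP N p hpN) 1 1 : ℤ) : ZMod N) = (p : ZMod N) := by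
  have := (exists_Gamma0_lower N p
    ((Nat.Prime.coprime_iff_not_dvd Fact.out).mpr hpN)).choose_spec.2.2
  unfold sigmaP
  rw [this]
  simp

/-- The Hecke operator `T_p` (`p ∤ N`) as a linear map on `S_k(Γ₁(N))`. -/
def TpL (p : ℕ) [Fact p.Prime] (hpN : ¬ p ∣ N) :
    CuspForm (Gamma1 N) k →ₗ[ℂ] CuspForm (Gamma1 N) k where
  toFun := Tp hpN (sigmaP N p hpN) (sigmaP_mem hpN) (sigmaP_lower hpN)
  map_add' f g := by
    apply DFunLike.coe_injective
    rw [CuspForm.coe_add, coe_Tp, coe_Tp, coe_Tp, CuspForm.coe_add, heckeU_add,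
      SlashAction.add_slash, SlashAction.add_slash]
    abel
  map_smul' c f := by
    apply DFunLike.coe_injective
    rw [RingHom.id_apply, CuspForm.IsGLPos.coe_smul, coe_Tp, coe_Tp,
      CuspForm.IsGLPos.coe_smul, heckeU_smul, smul_slash_mapGL, smul_slash_diag', smul_add]

/-- `T_p f = U_p f + (f ∣ σ) ∣ diag(p, 1)` for ANY `σ ∈ Γ₀(N)` with lower right entry `≡ p`. -/
theorem coe_TpL (hpN : ¬ p ∣ N) (f : CuspForm (Gamma1 N) k) (σ : SL(2, ℤ)) (hσ : σ ∈ Gamma0 N)
    (hσp : ((σ 1 1 : ℤ) : ZMod N) = (p : ZMod N)) :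
    (⇑(TpL p hpN f) : ℍ → ℂ) =
      heckeU k p ⇑f + (⇑f ∣[k] mapGL ℝ σ) ∣[k] heckeDiagMatrix p := by
  show (⇑(Tp hpN (sigmaP N p hpN) (sigmaP_mem hpN) (sigmaP_lower hpN) f) : ℍ → ℂ) = _
  rw [coe_Tp, (coe_inv1 f).slash_eq_of_lower_eq _ σ (sigmaP_mem hpN) hσ
    ((sigmaP_lower hpN).trans hσp.symm)]

/-- `T_p` commutes with the diamond operators. -/
theorem diaL_TpL (hpN : ¬ p ∣ N) (a : SL(2, ℤ)) (ha : a ∈ Gamma0 N)
    (f : CuspForm (Gamma1 N) k) : diaL a ha (TpL p hpN f) = TpL p hpN (diaL a ha f) := by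
  apply DFunLike.coe_injective
  rw [coe_diaL, coe_TpL hpN f _ (sigmaP_mem hpN) (sigmaP_lower hpN),
    coe_TpL hpN _ _ (sigmaP_mem hpN) (sigmaP_lower hpN), coe_diaL]
  exact (coe_inv1 f).heckeT1_slash hpN _ (sigmaP_mem hpN) (sigmaP_lower hpN) a ha

/-- The generators of the Hecke algebra: `T_p` (`p ∤ N` prime) and the diamond operators. -/
def heckeGens (N : ℕ) [NeZero N] (k : ℤ) : Set (Module.End ℂ (CuspForm (Gamma1 N) k)) :=
  {t | (∃ (p : ℕ) (_ : Fact p.Prime) (hpN : ¬ p ∣ N), t = TpL p hpN) ∨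
    ∃ (a : SL(2, ℤ)) (ha : a ∈ Gamma0 N), t = diaL a ha}

/-- The Hecke algebra `ℤ[T_p, ⟨d⟩ : p ∤ N] ⊆ End_ℂ S_k(Γ₁(N))`. -/
def heckeAlg1 (N : ℕ) [NeZero N] (k : ℤ) : Subalgebra ℤ (Module.End ℂ (CuspForm (Gamma1 N) k)) :=
  Algebra.adjoin ℤ (heckeGens N k)

theorem TpL_mem_heckeGens (hpN : ¬ p ∣ N) : (TpL p hpN : Module.End ℂ _) ∈ heckeGens N k :=
  Or.inl ⟨p, inferInstance, hpN, rfl⟩

theorem diaL_mem_heckeGens (a : SL(2, ℤ)) (ha : a ∈ Gamma0 N) :
    (diaL a ha : Module.End ℂ _) ∈ heckeGens N k :=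
  Or.inr ⟨a, ha, rfl⟩

theorem TpL_mem_heckeAlg1 (hpN : ¬ p ∣ N) : (TpL p hpN : Module.End ℂ _) ∈ heckeAlg1 N k :=
  Algebra.subset_adjoin (TpL_mem_heckeGens hpN)

theorem diaL_mem_heckeAlg1 (a : SL(2, ℤ)) (ha : a ∈ Gamma0 N) :
    (diaL a ha : Module.End ℂ _) ∈ heckeAlg1 N k :=
  Algebra.subset_adjoin (diaL_mem_heckeGens a ha)

end Lin

end Fermat.Agent.S48.H548

end
end
-- ===== PACK-END S48/H548/Chi0Ops.lean

-- ===== PACK-BEGIN S32/Spec.lean
section
/-
Row S32 (flat at `p`), TOP GLUE — interface (helper32).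

Goal: the frozen statement S32 (`H.ρ.IsFlatAt p` for a Hecke–Galois datum of level `N`, `p ∤ N`,
`p` odd) from

* the frozen S19 in the form `HopfModel p (Tors N p k)` (cell A3, the wall),
* the six inputs of the S30 skeleton (tower),
* `S59.G4.PointsStatement` (strict finite families of `p`-adic points of `T`).

Pieces (each a `Prop` below; `Top.lean` proves S32 from them):

* `FlatEigenStatement` (EIG): every eigencharacter has an adic eigenmodule all of whose finite
  quotients carry Hopf models.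
* `RelStatement` (REL): on the eigenmodule at a point `P` of `T`, EVERY `g ∈ G_ℚ` satisfies the
  characteristic polynomial of `H.ρ g`, specialised at `P`.
* `EmbedStatement` (EMB): Boston–Lenstra–Ribet + lattices + Artin–Rees: a strict semilinear
  equivariant embedding of `H.ρ.V` in the eigenmodule.
* `RedStatement` (RED): the coefficient ring `T` of a datum is reduced.
-/




set_option autoImplicit false

noncomputable section

namespace Fermat.Agent.S32

open IsLocalRing Fermat.Agent.S19 Fermat.Agent.S31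

/-- The action induced on `M / I M`. -/
def modAct {A M : Type} [CommRing A] [AddCommGroup M] [Module A M]
    (ρ : GalQ →* Module.End A M) (I : Ideal A) (σ : GalQ) :
    (M ⧸ (I • (⊤ : Submodule A M))) →ₗ[A] (M ⧸ (I • (⊤ : Submodule A M))) :=
  Submodule.mapQ _ _ (ρ σ) (by
    rw [← Submodule.map_le_iff_le_comap, Submodule.map_smul'']
    exact Submodule.smul_mono le_rfl le_top)

@[simp] theorem modAct_mk {A M : Type} [CommRing A] [AddCommGroup M] [Module A M]
    (ρ : GalQ →* Module.End A M) (I : Ideal A) (σ : GalQ) (v : M) :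
    modAct ρ I σ (Submodule.Quotient.mk v) = Submodule.Quotient.mk (ρ σ v) := rfl

/-- A module with Galois action all of whose finite quotients `M / I M` carry Hopf models over
`ℤ_(p)` (the rank-free form of `GaloisRepAdic.IsFlatAt`). -/
def IsFlatMod (p : ℕ) {A M : Type} [CommRing A] [AddCommGroup M] [Module A M]
    (ρ : GalQ →* Module.End A M) : Prop :=
  ∀ I : Ideal A, Finite (A ⧸ I) →
    HopfModel p (M ⧸ (I • (⊤ : Submodule A M))) (fun σ x => modAct ρ I σ x)

/-- **EIG.**  For `p ∤ N`, every eigencharacter with values in a complete DVR has an adic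
eigenmodule which is flat. -/
def FlatEigenStatement : Prop :=
  ∀ (p : ℕ) [Fact p.Prime] (N : ℕ) [NeZero N] (S : Finset ℕ)
    (_hpS : p ∈ S) (_hNS : ∀ q : ℕ, q.Prime → q ∣ N → q ∈ S) (_hpN : ¬ p ∣ N)
    (𝒪' : Type) [CommRing 𝒪'] [IsDomain 𝒪'] [IsDiscreteValuationRing 𝒪']
    [IsAdicComplete (maximalIdeal 𝒪') 𝒪'] [Finite (ResidueField 𝒪')]
    [CharZero 𝒪'] (_hp𝒪' : (p : 𝒪') ∈ maximalIdeal 𝒪')
    (χ : CuspForm.heckeAlgebra N 2 (↑S : Set ℕ) →+* 𝒪'),
    ∃ E : Fermat.Agent.S30.H990.AdicEigenModule p N S 𝒪' χ, IsFlatMod p E.ρ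

/-- **REL.**  At a local point `P` of the coefficient ring of a datum, every element of `G_ℚ`
satisfies on the eigenmodule of `P.χ ∘ π` the characteristic polynomial of `H.ρ`. -/
def RelStatement : Prop :=
  ∀ (p : ℕ) [Fact p.Prime] (N : ℕ) [NeZero N] (S : Finset ℕ)
    (_hpS : p ∈ S) (_hNS : ∀ q : ℕ, q.Prime → q ∣ N → q ∈ S)
    (𝒪 : Type) [CommRing 𝒪] [IsDomain 𝒪] [IsDiscreteValuationRing 𝒪]
    [IsAdicComplete (maximalIdeal 𝒪) 𝒪]
    (θ : CuspForm.heckeAlgebra N 2 (↑S : Set ℕ) →+* ResidueField 𝒪)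
    (T : Type) [CommRing T] [IsLocalRing T] [IsNoetherianRing T]
    [IsAdicComplete (maximalIdeal T) T] [Algebra 𝒪 T] [IsLocalHom (algebraMap 𝒪 T)]
    [Module.Finite 𝒪 T] [Module.Free 𝒪 T]
    (H : CuspForm.HeckeGaloisRepDatum N (↑S : Set ℕ) 𝒪 θ T)
    (P : PadicPoint p T) (_hloc : IsLocalHom P.χ)
    (E : Fermat.Agent.S30.H990.AdicEigenModule p N S P.O (P.χ.comp H.π)) (g : GalQ),
    E.ρ g * E.ρ g - P.χ (H.ρ.trace g) • E.ρ g
      + P.χ ((H.ρ.det g : Tˣ) : T) • (1 : Module.End P.O E.M) = 0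

/-- **EMB.**  Let `ρ` be a two-dimensional representation over a local ring `T` whose image spans
`End_T V`, `ψ : T → 𝒪'` a point with values in a DVR with `2 ≠ 0`, and `M ≠ 0` a finite free
`𝒪'`-module with Galois action on which every `g` satisfies the characteristic polynomial of
`ρ g` specialised along `ψ`.  Then there is a `ψ`-semilinear equivariant map `φ : V → M` which
is strict: `φ v ∈ 𝔪 ^ (m + k) M` implies `v ∈ ψ⁻¹(𝔪 ^ m) V`. -/
def EmbedStatement : Prop :=
  ∀ (T : Type) [CommRing T] [IsLocalRing T] (ρ : GaloisRepAdic T),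
    Submodule.span T (Set.range ρ.ρ) = ⊤ →
    ∀ (𝒪' : Type) [CommRing 𝒪'] [IsDomain 𝒪'] [IsDiscreteValuationRing 𝒪'],
      (2 : 𝒪') ≠ 0 → ∀ (ψ : T →+* 𝒪')
      (M : Type) [AddCommGroup M] [Module 𝒪' M] [Module.Free 𝒪' M] [Module.Finite 𝒪' M]
      [Nontrivial M] (ρM : GalQ →* Module.End 𝒪' M),
      (∀ g : GalQ, ρM g * ρM g - ψ (ρ.trace g) • ρM g
        + ψ ((ρ.det g : Tˣ) : T) • (1 : Module.End 𝒪' M) = 0) →
      ∃ φ : ρ.V →+ M, (∀ (t : T) (v : ρ.V), φ (t • v) = ψ t • φ v) ∧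
        (∀ (g : GalQ) (v : ρ.V), φ (ρ.ρ g v) = ρM g (φ v)) ∧
        ∃ k : ℕ, ∀ (m : ℕ) (v : ρ.V),
          φ v ∈ (maximalIdeal 𝒪' ^ (m + k)) • (⊤ : Submodule 𝒪' M) →
            v ∈ (Ideal.comap ψ (maximalIdeal 𝒪' ^ m)) • (⊤ : Submodule T ρ.V)

/-- **RED.**  The coefficient ring of a Hecke–Galois datum is reduced. -/
def RedStatement : Prop :=
  ∀ (N : ℕ) [NeZero N] (S : Finset ℕ) (_hNS : ∀ q : ℕ, q.Prime → q ∣ N → q ∈ S)
    (𝒪 : Type) [CommRing 𝒪] [IsDomain 𝒪] [IsDiscreteValuationRing 𝒪]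
    [IsAdicComplete (maximalIdeal 𝒪) 𝒪] [CharZero 𝒪]
    (θ : CuspForm.heckeAlgebra N 2 (↑S : Set ℕ) →+* ResidueField 𝒪)
    (T : Type) [CommRing T] [IsLocalRing T] [IsNoetherianRing T]
    [IsAdicComplete (maximalIdeal T) T] [Algebra 𝒪 T] [IsLocalHom (algebraMap 𝒪 T)]
    [Module.Finite 𝒪 T] [Module.Free 𝒪 T]
    (_H : CuspForm.HeckeGaloisRepDatum N (↑S : Set ℕ) 𝒪 θ T), IsReduced T

/-- The frozen statement S32, as a `Prop`. -/
def S32Statement : Prop :=
  ∀ {p : ℕ} {N : ℕ} [NeZero N] {S : Finset ℕ}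
    {𝒪 : Type} [CommRing 𝒪] [IsDomain 𝒪] [IsDiscreteValuationRing 𝒪]
    [IsAdicComplete (maximalIdeal 𝒪) 𝒪]
    {θ : CuspForm.heckeAlgebra N 2 (↑S : Set ℕ) →+* ResidueField 𝒪}
    {T : Type} [CommRing T] [IsLocalRing T] [IsNoetherianRing T]
    [IsAdicComplete (maximalIdeal T) T] [Algebra 𝒪 T] [IsLocalHom (algebraMap 𝒪 T)]
    [Module.Finite 𝒪 T] [Module.Free 𝒪 T]
    [Finite (ResidueField 𝒪)] [CharZero 𝒪],
    p.Prime → p ≠ 2 → (p : 𝒪) ∈ maximalIdeal 𝒪 → ¬ p ∣ N → p ∈ S →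
    (∀ q : ℕ, q.Prime → q ∣ N → q ∈ S) →
    ∀ H : CuspForm.HeckeGaloisRepDatum N (↑S : Set ℕ) 𝒪 θ T, H.ρ.IsFlatAt p

end Fermat.Agent.S32

end
end
-- ===== PACK-END S32/Spec.lean

-- ===== PACK-BEGIN A3/H75/DiscValue.lean
section


/-!
# A3 / LOCAL / DISC (helper75): values of functions at places, and sums of orders over a fibre

Language: the Prelude's `AlgebraicCurve.Place`, Lib/RR's `FF1`.

* `HasVal P f b` : `f` is regular at the place `P` with value `b ∈ K` (the same predicate as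
  `S37.Core.HasValue`, restated here to keep the import closure small);
* calculus: `HasVal.unique`, `.add`, `.mul`, `.sub`, `.neg`, `hasVal_algebraMap`,
  `exists_hasVal` (places of degree one);
* `mapDomain_apply_eq_sum` : `(r_* D)(Q) = ∑_{P ∈ supp D, r P = Q} D(P)`;
* `ord_le_mapDomain` : a nonnegative term is bounded by the sum.
-/

set_option autoImplicit false

noncomputable section

namespace Fermat.Agent.A3.H75

open AlgebraicCurve Fermat.Agent.Lib.RR

section Nonunits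

variable {F : Type*} [Field F] (V : ValuationSubring F)

theorem nonunits_add {x y : F} (hx : x ∈ V.nonunits) (hy : y ∈ V.nonunits) :
    x + y ∈ V.nonunits := by
  rw [ValuationSubring.mem_nonunits_iff] at hx hy ⊢
  exact V.valuation.map_add_lt hx hy

theorem nonunits_neg {x : F} (hx : x ∈ V.nonunits) : -x ∈ V.nonunits := by
  rw [ValuationSubring.mem_nonunits_iff] at hx ⊢
  rwa [Valuation.map_neg]

theorem nonunits_sub {x y : F} (hx : x ∈ V.nonunits) (hy : y ∈ V.nonunits) :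
    x - y ∈ V.nonunits := by
  rw [sub_eq_add_neg]
  exact nonunits_add V hx (nonunits_neg V hy)

theorem nonunits_mul {m x : F} (hm : m ∈ V.nonunits) (hx : x ∈ V) : m * x ∈ V.nonunits := by
  rw [ValuationSubring.mem_nonunits_iff] at hm ⊢
  rw [map_mul]
  have hx' := (V.valuation_le_one_iff x).mpr hx
  exact mul_lt_one_of_lt_of_le hm hx'

theorem nonunits_mul' {m x : F} (hx : x ∈ V) (hm : m ∈ V.nonunits) : x * m ∈ V.nonunits := by
  rw [mul_comm]
  exact nonunits_mul V hm hx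

theorem mem_of_mem_nonunits {x : F} (hx : x ∈ V.nonunits) : x ∈ V := by
  rw [ValuationSubring.mem_nonunits_iff] at hx
  exact (V.valuation_le_one_iff x).mp hx.le

theorem zero_mem_nonunits : (0 : F) ∈ V.nonunits := by
  rw [ValuationSubring.mem_nonunits_iff, map_zero]
  exact zero_lt_one

theorem one_not_mem_nonunits : (1 : F) ∉ V.nonunits := by
  rw [ValuationSubring.mem_nonunits_iff, map_one]
  exact lt_irrefl _

theorem inv_mem_of_not_mem_nonunits {x : F} (hx : x ∉ V.nonunits) : x ≠ 0 ∧ x⁻¹ ∈ V := by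
  rw [ValuationSubring.mem_nonunits_iff_or] at hx
  push Not at hx
  exact hx

theorem not_mem_nonunits_of_inv_mem {x : F} (hx0 : x ≠ 0) (hx : x⁻¹ ∈ V) : x ∉ V.nonunits := by
  rw [ValuationSubring.mem_nonunits_iff_or]
  push Not
  exact ⟨hx0, hx⟩

/-- an element outside the valuation ring has its inverse in the maximal ideal -/
theorem inv_mem_nonunits_of_not_mem {x : F} (hx : x ∉ V) : x⁻¹ ∈ V.nonunits := by
  rw [ValuationSubring.mem_nonunits_iff_or, inv_inv]
  exact Or.inr hx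

end Nonunits

variable {K : Type*} [Field K] {F : Type*} [Field F] [Algebra K F]

/-- nonzero constants are units at every place -/
theorem algebraMap_not_mem_nonunits (P : Place K F) {c : K} (hc : c ≠ 0) :
    algebraMap K F c ∉ P.toValuationSubring.nonunits := by
  apply not_mem_nonunits_of_inv_mem
  · exact (map_ne_zero _).mpr hc
  · rw [← map_inv₀]
    exact P.algebraMap_mem' _

theorem mem_nonunits_iff_ord (P : Place K F) (x : F) :
    x ∈ P.toValuationSubring.nonunits ↔ x = 0 ∨ 0 < P.ord x := by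
  constructor
  · intro hx
    have hmem : x ∈ P.toValuationSubring := mem_of_mem_nonunits _ hx
    have h1 : (⟨x, hmem⟩ : P.toValuationSubring) ∈
        IsLocalRing.maximalIdeal P.toValuationSubring := by
      rw [IsLocalRing.mem_maximalIdeal]
      exact (ValuationSubring.coe_mem_nonunits_iff (A := P.toValuationSubring)).mp hx
    exact (mem_maximalIdeal_iff P _).mp h1
  · rintro (rfl | h)
    · exact zero_mem_nonunits _
    · have hmem : x ∈ P.toValuationSubring := mem_of_ord_nonneg P h.le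
      have h1 : (⟨x, hmem⟩ : P.toValuationSubring) ∈
          IsLocalRing.maximalIdeal P.toValuationSubring :=
        (mem_maximalIdeal_iff P _).mpr (Or.inr h)
      rw [IsLocalRing.mem_maximalIdeal] at h1
      exact (ValuationSubring.coe_mem_nonunits_iff (A := P.toValuationSubring)).mpr h1

/-- `f` is regular at the place `P` with value `b`. -/
def HasVal (P : Place K F) (f : F) (b : K) : Prop :=
  f - algebraMap K F b ∈ P.toValuationSubring.nonunits

namespace HasVal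

variable {P : Place K F} {f g : F} {b c : K}

theorem mem (h : HasVal P f b) : f ∈ P.toValuationSubring := by
  have h1 := mem_of_mem_nonunits _ h
  have h2 := P.toValuationSubring.add_mem _ _ h1 (P.algebraMap_mem' b)
  simpa using h2

theorem unique (h : HasVal P f b) (h' : HasVal P f c) : b = c := by
  by_contra hne
  have h1 : algebraMap K F (c - b) ∈ P.toValuationSubring.nonunits := by
    have := nonunits_sub _ h h'
    rw [map_sub]
    have e : f - algebraMap K F b - (f - algebraMap K F c) =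
        algebraMap K F c - algebraMap K F b := by ring
    rwa [e] at this
  exact algebraMap_not_mem_nonunits P (sub_ne_zero.mpr (Ne.symm hne)) h1

theorem add (h : HasVal P f b) (h' : HasVal P g c) : HasVal P (f + g) (b + c) := by
  unfold HasVal at h h' ⊢
  have := nonunits_add _ h h'
  rw [map_add]
  have e : f + g - (algebraMap K F b + algebraMap K F c) =
      f - algebraMap K F b + (g - algebraMap K F c) := by ring
  rwa [e]

theorem neg (h : HasVal P f b) : HasVal P (-f) (-b) := by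
  unfold HasVal at h ⊢
  have := nonunits_neg _ h
  rw [map_neg]
  have e : -f - -algebraMap K F b = -(f - algebraMap K F b) := by ring
  rwa [e]

theorem sub (h : HasVal P f b) (h' : HasVal P g c) : HasVal P (f - g) (b - c) := by
  rw [sub_eq_add_neg, sub_eq_add_neg]
  exact h.add h'.neg

theorem mul (h : HasVal P f b) (h' : HasVal P g c) : HasVal P (f * g) (b * c) := by
  have hg := h'.mem
  unfold HasVal at h h' ⊢
  rw [map_mul]
  have e : f * g - algebraMap K F b * algebraMap K F c =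
      (f - algebraMap K F b) * g + algebraMap K F b * (g - algebraMap K F c) := by ring
  rw [e]
  exact nonunits_add _ (nonunits_mul _ h hg) (nonunits_mul' _ (P.algebraMap_mem' b) h')

end HasVal

theorem hasVal_algebraMap (P : Place K F) (b : K) : HasVal P (algebraMap K F b) b := by
  unfold HasVal
  rw [sub_self]
  exact zero_mem_nonunits _

theorem hasVal_zero (P : Place K F) : HasVal P (0 : F) 0 := by
  have := hasVal_algebraMap P (0 : K)
  rwa [map_zero] at this

theorem hasVal_one (P : Place K F) : HasVal P (1 : F) 1 := by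
  have := hasVal_algebraMap P (1 : K)
  rwa [map_one] at this

/-- at a place of degree one every regular function has a value -/
theorem exists_hasVal (P : Place K F) (hP : P.deg = 1) {f : F} (hf : f ∈ P.toValuationSubring) :
    ∃ b : K, HasVal P f b := by
  obtain ⟨c, hc⟩ := exists_const_sub P hP (ord_nonneg_of_mem P hf)
  exact ⟨c, (mem_nonunits_iff_ord P _).mpr hc⟩

theorem hasVal_zero_iff (P : Place K F) (f : F) : HasVal P f 0 ↔ f = 0 ∨ 0 < P.ord f := by
  unfold HasVal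
  rw [map_zero, sub_zero]
  exact mem_nonunits_iff_ord P f

section Sum

variable {k : Type*} [Field k] {Fk : Type*} [Field Fk] [Algebra k Fk]

open Classical in
theorem mapDomain_apply_eq_sum (r : Place K F → Place k Fk) (D : Divisor K F)
    (Q : Place k Fk) :
    Finsupp.mapDomain r D Q = ∑ P ∈ D.support.filter (fun P => r P = Q), D P := by
  rw [Finsupp.mapDomain, Finsupp.sum, Finsupp.finsetSum_apply, Finset.sum_filter]
  refine Finset.sum_congr rfl fun P _ => ?_
  rw [Finsupp.single_apply]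

/-- If `D ≥ 0` on the fibre of `r` over `Q`, every coefficient on the fibre is bounded by the
coefficient of `r_* D` at `Q`. -/
theorem apply_le_mapDomain (r : Place K F → Place k Fk) (D : Divisor K F) (Q : Place k Fk)
    (hD : ∀ P, r P = Q → 0 ≤ D P) (P₀ : Place K F) (hP₀ : r P₀ = Q) :
    D P₀ ≤ Finsupp.mapDomain r D Q := by
  classical
  rw [mapDomain_apply_eq_sum]
  by_cases h : P₀ ∈ D.support
  · have hmem : P₀ ∈ D.support.filter (fun P => r P = Q) := Finset.mem_filter.mpr ⟨h, hP₀⟩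
    exact Finset.single_le_sum (f := fun P => D P)
      (fun P hP => hD P (Finset.mem_filter.mp hP).2) hmem
  · rw [Finsupp.notMem_support_iff.mp h]
    exact Finset.sum_nonneg fun P hP => hD P (Finset.mem_filter.mp hP).2

/-- Two distinct points of the fibre: the sum of their coefficients is bounded by the
coefficient of `r_* D` at `Q`. -/
theorem apply_add_apply_le_mapDomain (r : Place K F → Place k Fk) (D : Divisor K F)
    (Q : Place k Fk) (hD : ∀ P, r P = Q → 0 ≤ D P) (P₀ P₁ : Place K F) (hne : P₀ ≠ P₁)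
    (hP₀ : r P₀ = Q) (hP₁ : r P₁ = Q) :
    D P₀ + D P₁ ≤ Finsupp.mapDomain r D Q := by
  classical
  rw [mapDomain_apply_eq_sum]
  set s := D.support.filter (fun P => r P = Q) with hs
  have hnn : ∀ P ∈ s, 0 ≤ D P := fun P hP => hD P (Finset.mem_filter.mp hP).2
  have key : ∀ t : Finset (Place K F), t ⊆ {P₀, P₁} → (∀ P ∈ t, r P = Q) →
      ∑ P ∈ t, D P ≤ ∑ P ∈ s, D P := by
    intro t _ htQ
    have h1 : ∑ P ∈ t, D P = ∑ P ∈ t.filter (fun P => P ∈ D.support), D P := by
      rw [Finset.sum_filter]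
      refine Finset.sum_congr rfl fun P _ => ?_
      split_ifs with h
      · rfl
      · exact Finsupp.notMem_support_iff.mp h
    rw [h1]
    refine Finset.sum_le_sum_of_subset_of_nonneg ?_ fun P hP _ => hnn P hP
    intro P hP
    rw [Finset.mem_filter] at hP
    exact Finset.mem_filter.mpr ⟨hP.2, htQ P hP.1⟩
  have h2 := key {P₀, P₁} (Finset.Subset.refl _) (by
    intro P hP
    rw [Finset.mem_insert, Finset.mem_singleton] at hP
    rcases hP with rfl | rfl
    · exact hP₀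
    · exact hP₁)
  rwa [Finset.sum_pair hne] at h2

/-- If the coefficient of `r_* D` at `Q` is positive, some point of the fibre has a positive
coefficient. -/
theorem exists_pos_of_mapDomain_pos (r : Place K F → Place k Fk) (D : Divisor K F)
    (Q : Place k Fk) (h : 0 < Finsupp.mapDomain r D Q) : ∃ P, r P = Q ∧ 0 < D P := by
  classical
  rw [mapDomain_apply_eq_sum] at h
  obtain ⟨P, hP, hpos⟩ := Finset.exists_lt_of_sum_lt (f := fun _ => (0 : ℤ)) (g := fun P => D P)
    (by simpa using h)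
  exact ⟨P, (Finset.mem_filter.mp hP).2, hpos⟩

end Sum

end Fermat.Agent.A3.H75

end
end
-- ===== PACK-END A3/H75/DiscValue.lean

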