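import Mathlib
import Fermat.Agent.Pack.S43MC.G0E10L0
import Fermat.Agent.Pack.S43MC.G0E5L2
import Fermat.Agent.Pack.S43MC.G0E10L2
import Fermat.Agent.Pack.S43MC.G0E8L3
import Fermat.Agent.Pack.S43MC.G0E11L0
import Fermat.Agent.Pack.S43MC.G0E5L3
import Fermat.Agent.Pack.S43MC.G0E11L2
import Fermat.Agent.Pack.S43MC.G0E8L2
import Fermat.Agent.Pack.S43MC.G0E11L3
import Fermat.Agent.Pack.S43MC.G0E10L1
import Fermat.Agent.Pack.S43MC.G0E11L1
import Fermat.Agent.Pack.S43MC.G0E1L3
import Fermat.Agent.Pack.S43MC.G0E2L0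
import Fermat.Agent.Pack.S43MC.G0E9L1
import Fermat.Agent.Pack.S43MC.G0E9L3
import Fermat.Agent.Pack.S44C.G0E14L1
import Fermat.Agent.Pack.S43MC.G0E12L1
import Fermat.Agent.Pack.Fast891

-- ===== PACK-BEGIN S25/H146/Rigid.lean
section
/-
S25 helper (helper146), assembly AS6, part 2: RIGIDITY, sectionwise.

`SecHom L L' V`: a morphism `L|_V ⟶ L'|_V` given on sections over the opens `W ≤ V`.
For modules with local generators:
* `SecHom.exists_smul_eq` (G4, sectionwise): any `f` is `a • f'` for an isomorphism `f'`;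
* `exists_ratio` (R1): for evaluation morphisms `e, e'` which are units on generators,
  `e' ∘ f = b • e` for a unit `b` on `σ⁻¹ V`;
* `SecHom.ext_of_normalized` (R2): two normalized isomorphisms (`e' ∘ f = e`) agree, provided
  functions on `V` are determined by their restriction along `σ`.
-/



set_option autoImplicit false

universe u

noncomputable section

open CategoryTheory AlgebraicGeometry TopologicalSpace Opposite

namespace Fermat.Agent.S25.H146

open Fermat.Agent.S25.H626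

variable {X T : Scheme.{u}}

/-- A morphism `L|_V ⟶ L'|_V`, given sectionwise on all opens `W ≤ V`. -/
structure SecHom (L L' : X.Modules) (V : X.Opens) where
  /-- the maps on sections -/
  app : ∀ W : X.Opens, W ≤ V → Γ(L, W) → Γ(L', W)
  app_add : ∀ (W : X.Opens) (h : W ≤ V) (s s' : Γ(L, W)), app W h (s + s') = app W h s + app W h s'
  app_smul : ∀ (W : X.Opens) (h : W ≤ V) (r : Γ(X, W)) (s : Γ(L, W)),
    app W h (r • s) = r • app W h s
  app_res : ∀ (W W' : X.Opens) (h : W ≤ V) (hle : W' ≤ W) (s : Γ(L, W)),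
    app W' (hle.trans h) (res L hle s) = res L' hle (app W h s)

namespace SecHom

variable {L L' : X.Modules} {V : X.Opens}

/-- A sectionwise morphism is an isomorphism if all its components are bijective. -/
def IsIso (f : SecHom L L' V) : Prop := ∀ (W : X.Opens) (h : W ≤ V), Function.Bijective (f.app W h)

theorem ext' {f f' : SecHom L L' V} (h : ∀ W hW s, f.app W hW s = f'.app W hW s) : f = f' := by
  cases f
  cases f'
  congr
  funext W hW s
  exact h W hW s

/-- Restriction to a smaller open. -/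
def restrict (f : SecHom L L' V) {V' : X.Opens} (hV : V' ≤ V) : SecHom L L' V' where
  app W h := f.app W (h.trans hV)
  app_add W h := f.app_add W (h.trans hV)
  app_smul W h := f.app_smul W (h.trans hV)
  app_res W W' h hle := f.app_res W W' (h.trans hV) hle

theorem isIso_restrict {f : SecHom L L' V} (hf : f.IsIso) {V' : X.Opens} (hV : V' ≤ V) :
    (f.restrict hV).IsIso := fun W h => hf W (h.trans hV)

/-- Scaling by a function on `V`. -/
def smul (a : Γ(X, V)) (f : SecHom L L' V) : SecHom L L' V where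
  app W h s := resO h a • f.app W h s
  app_add W h s s' := by rw [f.app_add, smul_add]
  app_smul W h r s := by rw [f.app_smul, smul_comm]
  app_res W W' h hle s := by
    rw [f.app_res, res_smul, resO_resO]

theorem smul_app (a : Γ(X, V)) (f : SecHom L L' V) (W : X.Opens) (h : W ≤ V) (s : Γ(L, W)) :
    (smul a f).app W h s = resO h a • f.app W h s := rfl

theorem isIso_smul {f : SecHom L L' V} (hf : f.IsIso) {a : Γ(X, V)} (ha : IsUnit a) :
    (smul a f).IsIso := by
  intro W h
  have hu : IsUnit (resO h a) := ha.map (X.presheaf.map (homOfLE h).op).hom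
  obtain ⟨u, hu⟩ := hu
  have : (smul a f).app W h = (fun s => (u : Γ(X, W)) • s) ∘ f.app W h := by
    funext s
    rw [smul_app, ← hu]
    rfl
  rw [this]
  refine Function.Bijective.comp ?_ (hf W h)
  constructor
  · intro s s' hss'
    have := congrArg (fun s => ((u⁻¹ : (Γ(X, W))ˣ) : Γ(X, W)) • s) hss'
    simpa [smul_smul] using this
  · intro s
    exact ⟨((u⁻¹ : (Γ(X, W))ˣ) : Γ(X, W)) • s, by simp [smul_smul]⟩

/-- The image of a local generator under a sectionwise isomorphism is a local generator. -/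
theorem isLocalGenerator_app {f : SecHom L L' V} (hf : f.IsIso) {W : X.Opens} (h : W ≤ V)
    {s : Γ(L, W)} (hs : IsLocalGenerator L W s) : IsLocalGenerator L' W (f.app W h s) := by
  intro W' hle
  have h1 : (fun r : Γ(X, W') => r • res L' hle (f.app W h s)) =
      f.app W' (hle.trans h) ∘ (fun r : Γ(X, W') => r • res L hle s) := by
    funext r
    simp only [Function.comp_apply]
    rw [f.app_smul, f.app_res]
  rw [h1]
  exact (hf W' (hle.trans h)).comp (hs W' hle)

/-- If `f t = c • f' t` for a local generator `t` on `W₀`, then `f = c • f'` on all sections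
over opens `W ≤ W₀`. -/
theorem eq_smul_of_generator {f f' : SecHom L L' V} {W₀ : X.Opens} (h₀ : W₀ ≤ V)
    {t : Γ(L, W₀)} (ht : IsLocalGenerator L W₀ t) {c : Γ(X, W₀)}
    (hc : f.app W₀ h₀ t = c • f'.app W₀ h₀ t) (W : X.Opens) (hW : W ≤ W₀) (s : Γ(L, W)) :
    f.app W (hW.trans h₀) s = resO hW c • f'.app W (hW.trans h₀) s := by
  obtain ⟨r, hr⟩ := (ht W hW).2 s
  simp only at hr
  rw [← hr, f.app_smul, f'.app_smul, f.app_res W₀ W h₀ hW t, f'.app_res W₀ W h₀ hW t, hc,
    res_smul, smul_comm]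

/-- **G4, sectionwise.**  Let `L` have local generators and let `f' : L|_V ⟶ L'|_V` be an
isomorphism.  Then every `f : L|_V ⟶ L'|_V` is of the form `a • f'` for a function `a` on `V`. -/
theorem exists_smul_eq (hL : HasLocalGenerators L) (f f' : SecHom L L' V) (hf' : f'.IsIso) :
    ∃ a : Γ(X, V), ∀ (W : X.Opens) (hW : W ≤ V) (s : Γ(L, W)),
      f.app W hW s = resO hW a • f'.app W hW s := by
  choose U hxU s₀ hs₀ using hL
  let Wc : X → X.Opens := fun x => U x ⊓ V
  have hWV : ∀ x, Wc x ≤ V := fun x => inf_le_right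
  let t : ∀ x, Γ(L, Wc x) := fun x => res L inf_le_left (s₀ x)
  have ht : ∀ x, IsLocalGenerator L (Wc x) (t x) := fun x =>
    isLocalGenerator_res (hs₀ x) inf_le_left
  have ht' : ∀ x, IsLocalGenerator L' (Wc x) (f'.app _ (hWV x) (t x)) := fun x =>
    isLocalGenerator_app hf' (hWV x) (ht x)
  have hex : ∀ x, ∃ c : Γ(X, Wc x), c • f'.app _ (hWV x) (t x) = f.app _ (hWV x) (t x) :=
    fun x => (bijective_smul_of_isLocalGenerator (ht' x)).2 _
  choose c hc using hex
  have hP : ∀ (x : X) (W : X.Opens) (hW : W ≤ Wc x) (s : Γ(L, W)),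
      f.app W (hW.trans (hWV x)) s = resO hW (c x) • f'.app W (hW.trans (hWV x)) s :=
    fun x W hW s => eq_smul_of_generator (hWV x) (ht x) (hc x).symm W hW s
  have hcover : V ≤ iSup Wc := by
    intro x hx
    exact Opens.mem_iSup.mpr ⟨x, hxU x, hx⟩
  have hcompat : ∀ x y, resO (inf_le_left : Wc x ⊓ Wc y ≤ Wc x) (c x) =
      resO (inf_le_right : Wc x ⊓ Wc y ≤ Wc y) (c y) := by
    intro x y
    have hu := isLocalGenerator_res (ht' x) (inf_le_left : Wc x ⊓ Wc y ≤ Wc x)
    apply (bijective_smul_of_isLocalGenerator hu).1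
    simp only
    have e1 := hP x (Wc x ⊓ Wc y) inf_le_left (res L inf_le_left (t x))
    have e2 := hP y (Wc x ⊓ Wc y) inf_le_right (res L inf_le_left (t x))
    rw [f'.app_res (Wc x) (Wc x ⊓ Wc y) (hWV x) inf_le_left (t x)] at e1 e2
    rw [← e1, ← e2]
  obtain ⟨a, ha⟩ := exists_gluing_O Wc V hWV hcover c hcompat
  refine ⟨a, fun W hW s => ?_⟩
  have hcoverW : W ≤ ⨆ x, W ⊓ Wc x := by
    intro x hx
    exact Opens.mem_iSup.mpr ⟨x, hx, hxU x, hW hx⟩
  apply eq_of_locally_eq_M L' (fun x => W ⊓ Wc x) W (fun x => inf_le_left) hcoverW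
  intro x
  rw [← f.app_res W (W ⊓ Wc x) hW inf_le_left, res_smul, ← f'.app_res W (W ⊓ Wc x) hW inf_le_left,
    resO_resO, hP x (W ⊓ Wc x) inf_le_right, ← ha x, resO_resO]

end SecHom

/-! ## Evaluation morphisms and the ratio of a sectionwise isomorphism -/

section Ratio

variable {σ : T ⟶ X} {L L' : X.Modules} {V : X.Opens}

/-- An evaluation morphism is a *unit on generators* if it sends local generators to units. -/
def UnitOnGen (e : L ⟶ pushUnit σ) : Prop :=
  ∀ (W : X.Opens) (s : Γ(L, W)), IsLocalGenerator L W s → IsUnit (evalSec e W s)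

theorem unitOnGen_of_isRigidification (hL : Scheme.Modules.IsInvertible L) {e : L ⟶ pushUnit σ}
    (hE : IsRigidification e) : UnitOnGen e :=
  fun _ _ hs => isUnit_evalSec hL hE hs

/-- If `e' (f t) = b * e t` for a local generator `t` on `W₀`, the same holds for all sections
over all opens `W ≤ W₀`. -/
theorem evalSec_app_eq_of_generator {e : L ⟶ pushUnit σ} {e' : L' ⟶ pushUnit σ}
    (f : SecHom L L' V) {W₀ : X.Opens} (h₀ : W₀ ≤ V) {t : Γ(L, W₀)}
    (ht : IsLocalGenerator L W₀ t) {b : Γ(T, σ ⁻¹ᵁ W₀)}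
    (hb : evalSec e' W₀ (f.app W₀ h₀ t) = b * evalSec e W₀ t)
    (W : X.Opens) (hW : W ≤ W₀) (s : Γ(L, W)) :
    evalSec e' W (f.app W (hW.trans h₀) s) = resO (σ.preimage_mono hW) b * evalSec e W s := by
  obtain ⟨r, hr⟩ := (ht W hW).2 s
  simp only at hr
  rw [← hr, f.app_smul, evalSec_smul, evalSec_smul, f.app_res W₀ W h₀ hW t, evalSec_res,
    evalSec_res, hb, resO_mul]
  ring

/-- **R1.** The ratio of a sectionwise isomorphism with respect to two evaluation morphisms. -/
theorem exists_ratio (hL : HasLocalGenerators L) {e : L ⟶ pushUnit σ} {e' : L' ⟶ pushUnit σ}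
    (he : UnitOnGen e) (he' : UnitOnGen e') (f : SecHom L L' V) (hf : f.IsIso) :
    ∃ b : Γ(T, σ ⁻¹ᵁ V), IsUnit b ∧ ∀ (W : X.Opens) (hW : W ≤ V) (s : Γ(L, W)),
      evalSec e' W (f.app W hW s) = resO (σ.preimage_mono hW) b * evalSec e W s := by
  choose U hxU s₀ hs₀ using hL
  let Wc : T → X.Opens := fun x => U (σ x) ⊓ V
  have hWV : ∀ x, Wc x ≤ V := fun x => inf_le_right
  let t : ∀ x, Γ(L, Wc x) := fun x => res L inf_le_left (s₀ (σ x))
  have ht : ∀ x, IsLocalGenerator L (Wc x) (t x) := fun x =>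
    isLocalGenerator_res (hs₀ (σ x)) inf_le_left
  have hue : ∀ x, IsUnit (evalSec e (Wc x) (t x)) := fun x => he _ _ (ht x)
  have hue' : ∀ x, IsUnit (evalSec e' (Wc x) (f.app _ (hWV x) (t x))) := fun x =>
    he' _ _ (SecHom.isLocalGenerator_app hf (hWV x) (ht x))
  have hex : ∀ x, ∃ b : Γ(T, σ ⁻¹ᵁ Wc x), IsUnit b ∧
      evalSec e' (Wc x) (f.app _ (hWV x) (t x)) = b * evalSec e (Wc x) (t x) := by
    intro x
    refine ⟨evalSec e' (Wc x) (f.app _ (hWV x) (t x)) *
      ((hue x).unit⁻¹ : (Γ(T, σ ⁻¹ᵁ Wc x))ˣ), (hue' x).mul (Units.isUnit _), ?_⟩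
    rw [mul_assoc, IsUnit.val_inv_mul, mul_one]
  choose b hbu hb using hex
  have hP : ∀ (x : T) (W : X.Opens) (hW : W ≤ Wc x) (s : Γ(L, W)),
      evalSec e' W (f.app W (hW.trans (hWV x)) s) =
        resO (σ.preimage_mono hW) (b x) * evalSec e W s :=
    fun x W hW s => evalSec_app_eq_of_generator f (hWV x) (ht x) (hb x) W hW s
  have hcover : σ ⁻¹ᵁ V ≤ ⨆ x, σ ⁻¹ᵁ Wc x := by
    intro x hx
    exact Opens.mem_iSup.mpr ⟨x, hxU (σ x), hx⟩
  have hcompat : ∀ x y,
      resO (inf_le_left : σ ⁻¹ᵁ Wc x ⊓ σ ⁻¹ᵁ Wc y ≤ σ ⁻¹ᵁ Wc x) (b x) =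
        resO (inf_le_right : σ ⁻¹ᵁ Wc x ⊓ σ ⁻¹ᵁ Wc y ≤ σ ⁻¹ᵁ Wc y) (b y) := by
    intro x y
    have hu : IsUnit (evalSec e (Wc x ⊓ Wc y) (res L inf_le_left (t x))) :=
      he _ _ (isLocalGenerator_res (ht x) inf_le_left)
    have e1 := hP x (Wc x ⊓ Wc y) inf_le_left (res L inf_le_left (t x))
    have e2 := hP y (Wc x ⊓ Wc y) inf_le_right (res L inf_le_left (t x))
    rw [e1] at e2
    exact hu.mul_left_injective e2
  obtain ⟨b₀, hb₀⟩ := exists_gluing_O (fun x => σ ⁻¹ᵁ Wc x) (σ ⁻¹ᵁ V)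
    (fun x => σ.preimage_mono (hWV x)) hcover b hcompat
  refine ⟨b₀, ?_, fun W hW s => ?_⟩
  · apply isUnit_of_locally_isUnit
    intro x hx
    refine ⟨σ ⁻¹ᵁ Wc x, σ.preimage_mono (hWV x), ⟨hxU (σ x), hx⟩, ?_⟩
    rw [hb₀]
    exact hbu x
  · have hcoverW : σ ⁻¹ᵁ W ≤ ⨆ x, σ ⁻¹ᵁ (W ⊓ Wc x) := by
      intro x hx
      exact Opens.mem_iSup.mpr ⟨x, hx, hxU (σ x), hW hx⟩
    apply eq_of_locally_eq_O (fun x => σ ⁻¹ᵁ (W ⊓ Wc x)) (σ ⁻¹ᵁ W)
      (fun x => σ.preimage_mono inf_le_left) hcoverW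
    intro x
    have hA : resO (σ.preimage_mono (inf_le_left : W ⊓ Wc x ≤ W)) (evalSec e' W (f.app W hW s)) =
        evalSec e' (W ⊓ Wc x) (f.app (W ⊓ Wc x) (inf_le_left.trans hW) (res L inf_le_left s)) := by
      rw [f.app_res W (W ⊓ Wc x) hW inf_le_left, evalSec_res]
    have hB := hP x (W ⊓ Wc x) inf_le_right (res L inf_le_left s)
    have hC : resO (σ.preimage_mono (inf_le_left : W ⊓ Wc x ≤ W))
        (resO (σ.preimage_mono hW) b₀ * evalSec e W s) =
        resO (σ.preimage_mono (inf_le_right : W ⊓ Wc x ≤ Wc x)) (b x) *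
          evalSec e (W ⊓ Wc x) (res L inf_le_left s) := by
      rw [resO_mul, resO_resO, ← hb₀ x, resO_resO, evalSec_res]
    rw [hA, hB, hC]

end Ratio

/-! ## Restriction of functions along `σ` -/

section AppLE

variable (σ : T ⟶ X)

theorem app_resO_eq_appLE {V W : X.Opens} (hW : W ≤ V) (a : Γ(X, V)) :
    σ.app W (resO hW a) = σ.appLE V (σ ⁻¹ᵁ W) (σ.preimage_mono hW) a := by
  have h := Scheme.Hom.map_appLE σ (le_refl (σ ⁻¹ᵁ W)) (homOfLE hW).op
  rw [Scheme.Hom.appLE_eq_app] at h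
  exact congr($h a)

theorem resO_appLE {V : X.Opens} {U U' : T.Opens} (hUV : U ≤ σ ⁻¹ᵁ V) (h : U' ≤ U)
    (a : Γ(X, V)) : resO h (σ.appLE V U hUV a) = σ.appLE V U' (h.trans hUV) a := by
  have h1 := Scheme.Hom.appLE_map σ hUV (homOfLE h).op
  exact congr($h1 a)

end AppLE

/-! ## Rigidity -/

section Rigidity

variable {σ : T ⟶ X} {L L' : X.Modules} {V : X.Opens}

/-- A sectionwise morphism is *normalized* if it is compatible with the evaluation morphisms. -/
def SecHom.IsNormalized (e : L ⟶ pushUnit σ) (e' : L' ⟶ pushUnit σ) (f : SecHom L L' V) : Prop :=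
  ∀ (W : X.Opens) (hW : W ≤ V) (s : Γ(L, W)), evalSec e' W (f.app W hW s) = evalSec e W s

theorem SecHom.isNormalized_restrict {e : L ⟶ pushUnit σ} {e' : L' ⟶ pushUnit σ}
    {f : SecHom L L' V} (hf : f.IsNormalized e e') {V' : X.Opens} (hV : V' ≤ V) :
    (f.restrict hV).IsNormalized e e' := fun W hW s => hf W (hW.trans hV) s

/-- **R2 (rigidity).**  Two normalized sectionwise isomorphisms over `V` agree, provided
functions on `V` are determined by their restrictions along `σ`. -/
theorem SecHom.eq_of_isNormalized (hL : HasLocalGenerators L) {e : L ⟶ pushUnit σ}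
    {e' : L' ⟶ pushUnit σ} (he : UnitOnGen e) (U : T.Opens) (hUV : U ≤ σ ⁻¹ᵁ V)
    (hinj : ∀ a : Γ(X, V), σ.appLE V U hUV a = 1 → a = 1)
    {f f' : SecHom L L' V} (hf' : f'.IsIso) (hn : f.IsNormalized e e')
    (hn' : f'.IsNormalized e e') : f = f' := by
  obtain ⟨a, ha⟩ := SecHom.exists_smul_eq hL f f' hf'
  have ha1 : a = 1 := by
    apply hinj
    choose U₀ hxU s₀ hs₀ using hL
    have hcover : U ≤ ⨆ x : T, U ⊓ σ ⁻¹ᵁ (U₀ (σ x) ⊓ V) := by
      intro x hx
      exact Opens.mem_iSup.mpr ⟨x, hx, hxU (σ x), hUV hx⟩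
    apply eq_of_locally_eq_O (fun x : T => U ⊓ σ ⁻¹ᵁ (U₀ (σ x) ⊓ V)) U (fun x => inf_le_left)
      hcover
    intro x
    have ht : IsLocalGenerator L (U₀ (σ x) ⊓ V) (res L inf_le_left (s₀ (σ x))) :=
      isLocalGenerator_res (hs₀ (σ x)) inf_le_left
    have hu := he _ _ ht
    have h1 := hn (U₀ (σ x) ⊓ V) inf_le_right (res L inf_le_left (s₀ (σ x)))
    rw [ha, evalSec_smul, hn'] at h1
    have h2 : σ.app (U₀ (σ x) ⊓ V) (resO inf_le_right a) = 1 := by
      apply hu.mul_left_injective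
      simp only
      rw [h1, one_mul]
    rw [app_resO_eq_appLE] at h2
    have h3 := resO_appLE σ (σ.preimage_mono (inf_le_right : U₀ (σ x) ⊓ V ≤ V))
      (inf_le_right : U ⊓ σ ⁻¹ᵁ (U₀ (σ x) ⊓ V) ≤ σ ⁻¹ᵁ (U₀ (σ x) ⊓ V)) a
    rw [resO_appLE σ hUV, resO_one, ← h3, h2, resO_one]
  apply SecHom.ext'
  intro W hW s
  rw [ha, ha1, resO_one, one_smul]

/-- **Normalization.**  If restriction along `σ` is a bijection from functions on `V` to
functions on `U = σ⁻¹ V`, every sectionwise isomorphism can be normalized. -/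
theorem SecHom.exists_isNormalized (hL : HasLocalGenerators L) {e : L ⟶ pushUnit σ}
    {e' : L' ⟶ pushUnit σ} (he : UnitOnGen e) (he' : UnitOnGen e') (U : T.Opens)
    (hUV : U ≤ σ ⁻¹ᵁ V) (hVU : σ ⁻¹ᵁ V ≤ U)
    (hbij : Function.Bijective (σ.appLE V U hUV).hom)
    (f : SecHom L L' V) (hf : f.IsIso) :
    ∃ f₁ : SecHom L L' V, f₁.IsIso ∧ f₁.IsNormalized e e' := by
  obtain ⟨b₀, hb₀u, hb₀⟩ := exists_ratio hL he he' f hf
  have hb₁u : IsUnit (resO hUV b₀) := hb₀u.map (T.presheaf.map (homOfLE hUV).op).hom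
  obtain ⟨b₁, hb₁⟩ := hb₁u
  obtain ⟨a, ha⟩ := hbij.2 ((b₁⁻¹ : (Γ(T, U))ˣ) : Γ(T, U))
  obtain ⟨a', ha'⟩ := hbij.2 (b₁ : Γ(T, U))
  have haa' : a * a' = 1 := by
    apply hbij.1
    rw [map_mul, ha, ha', map_one, Units.inv_mul]
  have hau : IsUnit a := IsUnit.of_mul_eq_one a' haa'
  refine ⟨SecHom.smul a f, SecHom.isIso_smul hf hau, fun W hW s => ?_⟩
  rw [SecHom.smul_app, evalSec_smul, hb₀, ← mul_assoc]
  have h1 : σ.app W (resO hW a) = resO ((σ.preimage_mono hW).trans hVU)
      ((b₁⁻¹ : (Γ(T, U))ˣ) : Γ(T, U)) := by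
    rw [app_resO_eq_appLE, ← ha]
    exact (resO_appLE σ hUV ((σ.preimage_mono hW).trans hVU) a).symm
  have h2 : resO (σ.preimage_mono hW) b₀ = resO ((σ.preimage_mono hW).trans hVU) (b₁ : Γ(T, U)) := by
    rw [hb₁, resO_resO]
  rw [h1, h2, ← resO_mul, Units.inv_mul, resO_one, one_mul]

end Rigidity

end Fermat.Agent.S25.H146

end
end
-- ===== PACK-END S25/H146/Rigid.lean

-- ===== PACK-BEGIN S25/H507/ChartFinite.lean
section


set_option autoImplicit false

universe u

open AlgebraicGeometry CategoryTheory TopologicalSpace Opposite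

namespace Fermat.Agent.S25.H507

variable {k : Type u} [Field k] {X : Scheme.{u}} [IsIntegral X] (c : X ⟶ Spec (CommRingCat.of k))

/-- closed points of `X` inside the regular locus map to closed points of the line. -/
lemma isClosed_singleton_chartHom [IsAlgClosed k] [IsProper c] (t : X.functionField)
    (z : (regOpen X t).toScheme) (hz : IsClosed ({z.1} : Set X)) :
    IsClosed ({chartHom c t z} : Set (Spec (CommRingCat.of (Polynomial k)))) := by
  let σ : Spec (CommRingCat.of k) ⟶ X := pointOfClosedPoint c z.1 hz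
  have hσ : σ ≫ c = 𝟙 _ := pointOfClosedPoint_comp c z.1 hz
  have hσa : ∀ a, σ a = z.1 := pointOfClosedPoint_apply c z.1 hz
  have hrange : Set.range σ ⊆ Set.range (regOpen X t).ι := by
    rw [Scheme.Opens.range_ι]
    rintro _ ⟨a, rfl⟩
    rw [hσa]
    exact z.2
  let σ₀ := IsOpenImmersion.lift (regOpen X t).ι σ hrange
  have hσ₀ : σ₀ ≫ (regOpen X t).ι = σ := IsOpenImmersion.lift_fac _ _ _
  have h := isClosed_singleton_apply_of_section (chartHom c t) σ₀ (by
    rw [chartHom_lineStr, ← Category.assoc, hσ₀, hσ])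
  have hz' : σ₀ (IsLocalRing.closedPoint k) = z := by
    apply (regOpen X t).ι.isOpenEmbedding.injective
    have h3 : (σ₀ ≫ (regOpen X t).ι) (IsLocalRing.closedPoint k) = z.1 := by
      rw [hσ₀]; exact hσa _
    exact h3
  rw [hz'] at h
  exact h

theorem chartHom_finite_preimage_singleton [IsAlgClosed k] [IsProper c] (t : X.functionField)
    (hval : ∀ P : X, ValuationRing (X.presheaf.stalk P))
    (hinj : Function.Injective
      (lineRingHom ((regOpen X t).ι ≫ c) ((regOpen X t).topIso.inv (regSection X t))))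
    (y : Spec (CommRingCat.of (Polynomial k))) :
    (chartHom c t ⁻¹' {y}).Finite := by
  have hN := isNoetherian_of_proper c
  have := noetherianSpace_opens c (regOpen X t)
  -- points other than the generic point are closed
  have hcl : ∀ z : (regOpen X t).toScheme, z ≠ regGeneric t → IsClosed ({z.1} : Set X) := by
    intro z hz
    apply isClosed_singleton_of_ne_genericPoint hval
    intro h
    apply hz
    exact Subtype.ext h
  have hcl' : ∀ z : (regOpen X t).toScheme, z ≠ regGeneric t →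
      IsClosed ({z} : Set (regOpen X t).toScheme) := by
    intro z hz
    have h1 := (hcl z hz).preimage (regOpen X t).ι.continuous
    have h2 : (regOpen X t).ι ⁻¹' {z.1} = {z} := by
      ext w
      simp only [Set.mem_preimage, Set.mem_singleton_iff]
      constructor
      · intro h; exact Subtype.ext h
      · rintro rfl; rfl
    rwa [h2] at h1
  by_cases hy : IsClosed ({y} : Set (Spec (CommRingCat.of (Polynomial k))))
  · have hF : IsClosed (chartHom c t ⁻¹' {y}) := hy.preimage (chartHom c t).continuous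
    apply finite_of_isClosed_of_forall_isClosed_singleton hF
    intro z hz
    apply hcl'
    rintro rfl
    apply not_isClosed_chartHom_regGeneric c t hinj
    rw [Set.mem_preimage, Set.mem_singleton_iff] at hz
    rw [hz]
    exact hy
  · apply Set.Finite.subset (Set.finite_singleton (regGeneric t))
    intro z hz
    rw [Set.mem_preimage, Set.mem_singleton_iff] at hz
    by_contra hne
    apply hy
    rw [← hz]
    exact isClosed_singleton_chartHom c t z (hcl z hne)

theorem chartHom_isFinite [IsAlgClosed k] [IsProper c] {t : X.functionField} (ht : t ≠ 0)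
    (hval : ∀ P : X, ValuationRing (X.presheaf.stalk P))
    (hinj : Function.Injective
      (lineRingHom ((regOpen X t).ι ≫ c) ((regOpen X t).topIso.inv (regSection X t)))) :
    IsFinite (chartHom c t) := by
  have := chartHom_isProper c ht hval
  have : LocallyQuasiFinite (chartHom c t) :=
    LocallyQuasiFinite.of_finite_preimage_singleton _
      (chartHom_finite_preimage_singleton c t hval hinj)
  exact IsFinite.of_isProper_of_locallyQuasiFinite _

theorem isAffineOpen_regOpen [IsAlgClosed k] [IsProper c] {t : X.functionField} (ht : t ≠ 0)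
    (hval : ∀ P : X, ValuationRing (X.presheaf.stalk P))
    (hinj : Function.Injective
      (lineRingHom ((regOpen X t).ι ≫ c) ((regOpen X t).topIso.inv (regSection X t)))) :
    IsAffineOpen (regOpen X t) := by
  have := chartHom_isFinite c ht hval hinj
  exact isAffine_of_isAffineHom (chartHom c t)

theorem lineRingHom_finite [IsAlgClosed k] [IsProper c] {t : X.functionField} (ht : t ≠ 0)
    (hval : ∀ P : X, ValuationRing (X.presheaf.stalk P))
    (hinj : Function.Injective
      (lineRingHom ((regOpen X t).ι ≫ c) ((regOpen X t).topIso.inv (regSection X t)))) :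
    (lineRingHom ((regOpen X t).ι ≫ c) ((regOpen X t).topIso.inv (regSection X t))).Finite := by
  have hfin := chartHom_isFinite c ht hval hinj
  have h1 := (chartHom c t).finite_appTop
  have h2 : lineRingHom ((regOpen X t).ι ≫ c) ((regOpen X t).topIso.inv (regSection X t)) =
      (chartHom c t).appTop.hom.comp
        (Scheme.ΓSpecIso (CommRingCat.of (Polynomial k))).inv.hom := by
    refine RingHom.ext fun p => ?_
    exact (toLine_appTop ((regOpen X t).ι ≫ c) _ p).symm
  rw [h2]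
  refine RingHom.Finite.comp h1 (RingHom.Finite.of_surjective _ ?_)
  exact (ConcreteCategory.bijective_of_isIso
    (Scheme.ΓSpecIso (CommRingCat.of (Polynomial k))).inv).2

end Fermat.Agent.S25.H507

end
-- ===== PACK-END S25/H507/ChartFinite.lean

-- ===== PACK-BEGIN S25/H986/TwoAffineHom.lean
section




/-!
# S25 / block DICT: morphisms of quasi-coherent modules from sections on two affine charts

`existsUnique_hom_of_two_affine` (**QC2**): let `X = P₀ ∪ P₁` with `P₀`, `P₁` affine opens whose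
intersection is a basic open of both. For `M` quasi-coherent, linear maps on sections over
`P₀`, `P₁`, `P₀ ⊓ P₁` compatible with the two restriction maps come from a unique morphism
`M ⟶ M'`.
-/

set_option autoImplicit false

universe u

open CategoryTheory AlgebraicGeometry TopologicalSpace Opposite

namespace Fermat.Agent.S25.H986

noncomputable section

variable {X : Scheme.{u}}

/-- **Lemma E.** Let `P` be an affine open, `g ∈ Γ(X, P)`, `D = D(g)`, `M` quasi-coherent. Two
`Γ(X, D)`-linear maps on `Γ(M, D)` which agree on restrictions of sections over `P` are equal. -/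
theorem eq_of_eq_on_restrictions {P : X.Opens} (hP : IsAffineOpen P) (M M' : X.Modules)
    [M.IsQuasicoherent] (g : Γ(X, P)) {D : X.Opens} (hD : X.basicOpen g = D) (hDP : D ≤ P)
    (α β : Γ(M, D) →+ Γ(M', D))
    (α_lin : ∀ (r : Γ(X, D)) (s : Γ(M, D)), α (r • s) = r • α s)
    (β_lin : ∀ (r : Γ(X, D)) (s : Γ(M, D)), β (r • s) = r • β s)
    (h : ∀ m : Γ(M, P), α (M.presheaf.map (homOfLE hDP).op m) =
      β (M.presheaf.map (homOfLE hDP).op m))
    (s : Γ(M, D)) : α s = β s := by
  subst hD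
  obtain ⟨n, m, hm⟩ := exists_pow_smul_eq_map hP M g s
  have hu : IsUnit ((X.presheaf.map (homOfLE (X.basicOpen_le g)).op g) ^ n) :=
    (RingedSpace.isUnit_res_basicOpen X.toRingedSpace g).pow n
  have h1 : (X.presheaf.map (homOfLE (X.basicOpen_le g)).op g) ^ n • α s =
      (X.presheaf.map (homOfLE (X.basicOpen_le g)).op g) ^ n • β s := by
    rw [← α_lin, ← β_lin, hm]
    exact h m
  exact hu.smul_left_cancel.mp h1

open Fermat.Agent.S25.H926 in
/-- **QC2.** Let `X = P₀ ∪ P₁` with `P₀`, `P₁` affine opens and `P₀₁ = P₀ ⊓ P₁` a basic open of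
both. For `M` quasi-coherent, linear maps `h₀`, `h₁`, `h₀₁` on sections over `P₀`, `P₁`, `P₀₁`
compatible with the two restriction maps come from a unique morphism `M ⟶ M'`. -/
theorem existsUnique_hom_of_two_affine (M M' : X.Modules) [M.IsQuasicoherent]
    {P₀ P₁ P₀₁ : X.Opens} (hP₀ : IsAffineOpen P₀) (hP₁ : IsAffineOpen P₁)
    (hcov : P₀ ⊔ P₁ = ⊤) (h₀₁₀ : P₀₁ ≤ P₀) (h₀₁₁ : P₀₁ ≤ P₁) (hinf : P₀ ⊓ P₁ ≤ P₀₁)
    (g₀ : Γ(X, P₀)) (hg₀ : X.basicOpen g₀ = P₀₁) (g₁ : Γ(X, P₁)) (hg₁ : X.basicOpen g₁ = P₀₁)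
    (h₀ : Γ(M, P₀) →+ Γ(M', P₀)) (h₁ : Γ(M, P₁) →+ Γ(M', P₁))
    (h₀₁ : Γ(M, P₀₁) →+ Γ(M', P₀₁))
    (lin₀ : ∀ (r : Γ(X, P₀)) (s : Γ(M, P₀)), h₀ (r • s) = r • h₀ s)
    (lin₁ : ∀ (r : Γ(X, P₁)) (s : Γ(M, P₁)), h₁ (r • s) = r • h₁ s)
    (lin₀₁ : ∀ (r : Γ(X, P₀₁)) (s : Γ(M, P₀₁)), h₀₁ (r • s) = r • h₀₁ s)
    (res₀ : ∀ s : Γ(M, P₀), h₀₁ (M.presheaf.map (homOfLE h₀₁₀).op s) =
      M'.presheaf.map (homOfLE h₀₁₀).op (h₀ s))
    (res₁ : ∀ s : Γ(M, P₁), h₀₁ (M.presheaf.map (homOfLE h₀₁₁).op s) =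
      M'.presheaf.map (homOfLE h₀₁₁).op (h₁ s)) :
    ∃! φ : M ⟶ M', (∀ s : Γ(M, P₀), φ.app P₀ s = h₀ s) ∧ (∀ s : Γ(M, P₁), φ.app P₁ s = h₁ s) := by
  classical
  obtain ⟨φ₀, hφ₀, uniq₀⟩ := existsUnique_restrictHom_of_linear hP₀ M M' h₀ lin₀
  obtain ⟨φ₁, hφ₁, uniq₁⟩ := existsUnique_restrictHom_of_linear hP₁ M M' h₁ lin₁
  have r₀ : P₀ ≤ hP₀.fromSpec.opensRange := le_opensRange_fromSpec hP₀
  have r₁ : P₁ ≤ hP₁.fromSpec.opensRange := le_opensRange_fromSpec hP₁
  -- values on `P₀₁`
  have a01 : ∀ s : Γ(M, P₀₁), sectionMap hP₀.fromSpec φ₀ P₀₁ (h₀₁₀.trans r₀) s = h₀₁ s :=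
    eq_of_eq_on_restrictions hP₀ M M' g₀ hg₀ h₀₁₀ (sectionMap hP₀.fromSpec φ₀ P₀₁ (h₀₁₀.trans r₀))
      h₀₁ (sectionMap_smul hP₀.fromSpec φ₀ P₀₁ (h₀₁₀.trans r₀)) lin₀₁
      (fun m => by rw [sectionMap_map hP₀.fromSpec φ₀ r₀ h₀₁₀ m, hφ₀, res₀])
  have b01 : ∀ s : Γ(M, P₀₁), sectionMap hP₁.fromSpec φ₁ P₀₁ (h₀₁₁.trans r₁) s = h₀₁ s :=
    eq_of_eq_on_restrictions hP₁ M M' g₁ hg₁ h₀₁₁ (sectionMap hP₁.fromSpec φ₁ P₀₁ (h₀₁₁.trans r₁))
      h₀₁ (sectionMap_smul hP₁.fromSpec φ₁ P₀₁ (h₀₁₁.trans r₁)) lin₀₁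
      (fun m => by rw [sectionMap_map hP₁.fromSpec φ₁ r₁ h₀₁₁ m, hφ₁, res₁])
  -- agreement on the overlap
  have hP₀₁ : IsAffineOpen P₀₁ := hg₀ ▸ hP₀.basicOpen g₀
  have overlap : ∀ (W : X.Opens) (hW : W ≤ P₀₁) (s : Γ(M, W)),
      sectionMap hP₀.fromSpec φ₀ W ((hW.trans h₀₁₀).trans r₀) s =
        sectionMap hP₁.fromSpec φ₁ W ((hW.trans h₀₁₁).trans r₁) s :=
    eq_of_natural_linear_of_eq_on_affine hP₀₁ M M'
      (fun W hW => sectionMap hP₀.fromSpec φ₀ W ((hW.trans h₀₁₀).trans r₀))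
      (fun W hW => sectionMap hP₁.fromSpec φ₁ W ((hW.trans h₀₁₁).trans r₁))
      (fun W W' hW h s => sectionMap_map hP₀.fromSpec φ₀ ((hW.trans h₀₁₀).trans r₀) h s)
      (fun W hW r s => sectionMap_smul hP₀.fromSpec φ₀ W ((hW.trans h₀₁₀).trans r₀) r s)
      (fun W W' hW h s => sectionMap_map hP₁.fromSpec φ₁ ((hW.trans h₀₁₁).trans r₁) h s)
      (fun W hW r s => sectionMap_smul hP₁.fromSpec φ₁ W ((hW.trans h₀₁₁).trans r₁) r s)
      (fun s => (a01 s).trans (b01 s).symm)
  -- the down-basis of opens contained in `P₀` or in `P₁`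
  let B : Set X.Opens := {W | W ≤ P₀ ∨ W ≤ P₁}
  have hB : IsDownBasis B :=
    { down := fun {W W'} hW h => hW.elim (fun h0 => Or.inl (h.trans h0))
        (fun h1 => Or.inr (h.trans h1))
      cover := fun V x hx => by
        have hx' : x ∈ P₀ ⊔ P₁ := by rw [hcov]; trivial
        rcases hx' with h0 | h1
        · exact Opens.mem_iSup.mpr ⟨⟨V ⊓ P₀, Or.inl inf_le_right, inf_le_left⟩, hx, h0⟩
        · exact Opens.mem_iSup.mpr ⟨⟨V ⊓ P₁, Or.inr inf_le_right, inf_le_left⟩, hx, h1⟩ }
  let a : ∀ W : X.Opens, W ∈ B → (Γ(M, W) →+ Γ(M', W)) := fun W hW =>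
    if h : W ≤ P₀ then sectionMap hP₀.fromSpec φ₀ W (h.trans r₀)
    else sectionMap hP₁.fromSpec φ₁ W ((hW.resolve_left h).trans r₁)
  have a_of_le₀ : ∀ (W : X.Opens) (hW : W ∈ B) (h : W ≤ P₀),
      a W hW = sectionMap hP₀.fromSpec φ₀ W (h.trans r₀) := fun W hW h => dif_pos h
  have a_of_le₁ : ∀ (W : X.Opens) (hW : W ∈ B) (h : W ≤ P₁),
      a W hW = sectionMap hP₁.fromSpec φ₁ W (h.trans r₁) := by
    intro W hW h
    by_cases h0 : W ≤ P₀
    · rw [a_of_le₀ W hW h0]
      ext s
      exact overlap W ((le_inf h0 h).trans hinf) s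
    · exact dif_neg h0
  let D : BasisHomData B M M' :=
    { a := a
      nat := fun W W' hW hW' h s => by
        rcases hW with h0 | h1
        · rw [a_of_le₀ W (Or.inl h0) h0, a_of_le₀ W' hW' (h.trans h0)]
          exact sectionMap_map hP₀.fromSpec φ₀ (h0.trans r₀) h s
        · rw [a_of_le₁ W (Or.inr h1) h1, a_of_le₁ W' hW' (h.trans h1)]
          exact sectionMap_map hP₁.fromSpec φ₁ (h1.trans r₁) h s
      lin := fun W hW r s => by
        rcases hW with h0 | h1
        · rw [a_of_le₀ W (Or.inl h0) h0]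
          exact sectionMap_smul hP₀.fromSpec φ₀ W (h0.trans r₀) r s
        · rw [a_of_le₁ W (Or.inr h1) h1]
          exact sectionMap_smul hP₁.fromSpec φ₁ W (h1.trans r₁) r s }
  obtain ⟨φ, hφ, huniq⟩ := existsUnique_hom_of_basisHomData hB D
  have hφ' : ∀ (W : X.Opens) (hW : W ∈ B) (s : Γ(M, W)), φ.app W s = a W hW s := hφ
  have hB₀ : P₀ ∈ B := Or.inl le_rfl
  have hB₁ : P₁ ∈ B := Or.inr le_rfl
  refine ⟨φ, ⟨fun s => ?_, fun s => ?_⟩, fun ψ hψ => ?_⟩
  · rw [hφ' P₀ hB₀ s, a_of_le₀ P₀ hB₀ le_rfl, hφ₀]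
  · rw [hφ' P₁ hB₁ s, a_of_le₁ P₁ hB₁ le_rfl, hφ₁]
  · have e₀ : (Scheme.Modules.restrictFunctor hP₀.fromSpec).map ψ = φ₀ :=
      uniq₀ _ (fun s => by rw [sectionMap_restrictFunctor_map]; exact hψ.1 s)
    have e₁ : (Scheme.Modules.restrictFunctor hP₁.fromSpec).map ψ = φ₁ :=
      uniq₁ _ (fun s => by rw [sectionMap_restrictFunctor_map]; exact hψ.2 s)
    apply huniq
    intro W hW s
    change ψ.app W s = a W hW s
    rcases hW with h0 | h1
    · rw [a_of_le₀ W (Or.inl h0) h0, ← e₀, sectionMap_restrictFunctor_map]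
    · rw [a_of_le₁ W (Or.inr h1) h1, ← e₁, sectionMap_restrictFunctor_map]

end

end Fermat.Agent.S25.H986

end
-- ===== PACK-END S25/H986/TwoAffineHom.lean

-- ===== PACK-BEGIN S25/H505/GlueAffine.lean
section
/-
S25, block DICT-GLUE (helper505): **gluing on two affine charts**.  Modules `N₀`, `N₁`, `N₀₁`
over the rings of functions of affine opens `V₀`, `V₁`, `V₀₁ = V₀ ⊓ V₁` covering `X`, with
restriction maps `N₀ → N₀₁ ← N₁` which are base changes, are the modules of sections of an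
invertible module `L` on `X` (`exists_glue_core`, `exists_glue_affine`).  `L` is the fibre
product of the pushforwards of the `tilde N_i`.
-/





open CategoryTheory AlgebraicGeometry Opposite TopologicalSpace Limits

universe u

namespace Fermat.Agent.S25.H505

noncomputable section

variable {X : Scheme.{u}}


section Core

variable {V₀ V₁ V₀₁ : X.Opens} (a₀ : IsAffineOpen V₀) (a₁ : IsAffineOpen V₁)
  (a₀₁ : IsAffineOpen V₀₁) (l₀ : V₀₁ ≤ V₀) (l₁ : V₀₁ ≤ V₁) (hinf : V₀ ⊓ V₁ ≤ V₀₁)
  (hcov : V₀ ⊔ V₁ = ⊤)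
  (N₀ : ModuleCat.{u} Γ(X, V₀)) (N₁ : ModuleCat.{u} Γ(X, V₁)) (N₀₁ : ModuleCat.{u} Γ(X, V₀₁))
  (r₀ : N₀ →+ N₀₁) (r₁ : N₁ →+ N₀₁)
  (hr₀ : IsBC (resCat l₀).hom r₀) (hr₁ : IsBC (resCat l₁).hom r₁)

include a₀ a₁ a₀₁ hinf hcov hr₀ hr₁ in
/-- **Gluing on two affine charts** (core form, modules over the rings of sections). -/
theorem exists_glue_core [Module.Invertible Γ(X, V₀) N₀] [Module.Invertible Γ(X, V₁) N₁] :
    ∃ (L : X.Modules) (_ : Scheme.Modules.IsInvertible L) (e₀ : Γ(L, V₀) ≃+ N₀)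
      (e₁ : Γ(L, V₁) ≃+ N₁) (e₀₁ : Γ(L, V₀₁) ≃+ N₀₁),
      (∀ (x : Γ(X, V₀)) (s : Γ(L, V₀)), e₀ (x • s) = x • e₀ s) ∧
      (∀ (x : Γ(X, V₁)) (s : Γ(L, V₁)), e₁ (x • s) = x • e₁ s) ∧
      (∀ (x : Γ(X, V₀₁)) (s : Γ(L, V₀₁)), e₀₁ (x • s) = x • e₀₁ s) ∧
      (∀ s, e₀₁ (L.presheaf.map (homOfLE l₀).op s) = r₀ (e₀ s)) ∧
      (∀ s, e₀₁ (L.presheaf.map (homOfLE l₁).op s) = r₁ (e₁ s)) := by
  obtain ⟨ε₀, hε₀⟩ := exists_extendScalars_iso l₀ r₀ hr₀
  obtain ⟨ε₁, hε₁⟩ := exists_extendScalars_iso l₁ r₁ hr₁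
  let σ₀ : affPush a₀ N₀ ⟶ affPush a₀₁ N₀₁ := affTrans a₀ a₀₁ l₀ ε₀
  let σ₁ : affPush a₁ N₁ ⟶ affPush a₀₁ N₀₁ := affTrans a₁ a₀₁ l₁ ε₁
  have hσ₀ : ∀ W : X.Opens, W ≤ V₁ → Function.Bijective (σ₀.app W) := fun W hW =>
    affTrans_app_bijective a₀ a₀₁ l₀ ε₀ W
      ((inf_le_inf_right V₀ hW).trans (by rw [inf_comm]; exact hinf))
  have hσ₁ : ∀ W : X.Opens, W ≤ V₀ → Function.Bijective (σ₁.app W) := fun W hW =>
    affTrans_app_bijective a₁ a₀₁ l₁ ε₁ W ((inf_le_inf_right V₁ hW).trans hinf)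
  let L : X.Modules := pullback σ₀ σ₁
  let p₀ : L ⟶ affPush a₀ N₀ := pullback.fst σ₀ σ₁
  let p₁ : L ⟶ affPush a₁ N₁ := pullback.snd σ₀ σ₁
  have hp₀ : ∀ W : X.Opens, W ≤ V₀ → Function.Bijective (p₀.app W) := fun W hW =>
    pullback_fst_app_bijective σ₀ σ₁ W (hσ₁ W hW)
  have hp₁ : ∀ W : X.Opens, W ≤ V₁ → Function.Bijective (p₁.app W) := fun W hW =>
    pullback_snd_app_bijective σ₀ σ₁ W (hσ₀ W hW)
  have hcond : ∀ (W : X.Opens) (s : Γ(L, W)), σ₀.app W (p₀.app W s) = σ₁.app W (p₁.app W s) :=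
    fun W s => pullback_condition_apply σ₀ σ₁ W s
  -- invertibility
  have hL : Scheme.Modules.IsInvertible L := by
    refine isInvertible_of_forall_exists L (fun x => ?_)
    have hx : x ∈ V₀ ⊔ V₁ := by rw [hcov]; trivial
    rcases hx with hx | hx
    · refine ⟨Spec Γ(X, V₀), a₀.fromSpec, inferInstance, ?_, ?_⟩
      · rw [a₀.range_fromSpec]; exact hx
      · obtain ⟨i⟩ := nonempty_pullback_iso_of_bijective a₀.fromSpec (T := tilde N₀) p₀
          (fun U => hp₀ _ (by
            have := a₀.fromSpec.image_le_opensRange U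
            rwa [a₀.opensRange_fromSpec] at this))
        exact H206.isInvertible_of_iso i.symm (isInvertible_tilde N₀)
    · refine ⟨Spec Γ(X, V₁), a₁.fromSpec, inferInstance, ?_, ?_⟩
      · rw [a₁.range_fromSpec]; exact hx
      · obtain ⟨i⟩ := nonempty_pullback_iso_of_bijective a₁.fromSpec (T := tilde N₁) p₁
          (fun U => hp₁ _ (by
            have := a₁.fromSpec.image_le_opensRange U
            rwa [a₁.opensRange_fromSpec] at this))
        exact H206.isInvertible_of_iso i.symm (isInvertible_tilde N₁)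
  -- the identifications of sections
  let t₀ : N₀ ≃+ Γ(affPush a₀ N₀, V₀) :=
    AddEquiv.ofBijective (affPushTop a₀ N₀) (affPushTop_bijective a₀ N₀)
  let t₁ : N₁ ≃+ Γ(affPush a₁ N₁, V₁) :=
    AddEquiv.ofBijective (affPushTop a₁ N₁) (affPushTop_bijective a₁ N₁)
  let t₀₁ : N₀₁ ≃+ Γ(affPush a₀₁ N₀₁, V₀₁) :=
    AddEquiv.ofBijective (affPushTop a₀₁ N₀₁) (affPushTop_bijective a₀₁ N₀₁)
  let q₀ : Γ(L, V₀) ≃+ Γ(affPush a₀ N₀, V₀) :=
    AddEquiv.ofBijective (p₀.app V₀).hom (hp₀ V₀ le_rfl)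
  let q₁ : Γ(L, V₁) ≃+ Γ(affPush a₁ N₁, V₁) :=
    AddEquiv.ofBijective (p₁.app V₁).hom (hp₁ V₁ le_rfl)
  let q₀₁ : Γ(L, V₀₁) ≃+ Γ(affPush a₀₁ N₀₁, V₀₁) :=
    AddEquiv.ofBijective ((σ₀.app V₀₁).hom.comp (p₀.app V₀₁).hom)
      ((hσ₀ V₀₁ l₁).comp (hp₀ V₀₁ l₀))
  have ht₀ : ∀ n, t₀ n = affPushTop a₀ N₀ n := fun _ => rfl
  have ht₁ : ∀ n, t₁ n = affPushTop a₁ N₁ n := fun _ => rfl
  have ht₀₁ : ∀ n, t₀₁ n = affPushTop a₀₁ N₀₁ n := fun _ => rfl
  have hq₀ : ∀ s, q₀ s = p₀.app V₀ s := fun _ => rfl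
  have hq₁ : ∀ s, q₁ s = p₁.app V₁ s := fun _ => rfl
  have hq₀₁ : ∀ s, q₀₁ s = σ₀.app V₀₁ (p₀.app V₀₁ s) := fun _ => rfl
  refine ⟨L, hL, q₀.trans t₀.symm, q₁.trans t₁.symm, q₀₁.trans t₀₁.symm, ?_, ?_, ?_, ?_, ?_⟩
  · intro x s
    apply t₀.injective
    simp only [AddEquiv.trans_apply, AddEquiv.apply_symm_apply]
    rw [ht₀, affPushTop_smul, ← ht₀, AddEquiv.apply_symm_apply, hq₀, hq₀,
      Scheme.Modules.Hom.app_smul]
  · intro x s
    apply t₁.injective
    simp only [AddEquiv.trans_apply, AddEquiv.apply_symm_apply]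
    rw [ht₁, affPushTop_smul, ← ht₁, AddEquiv.apply_symm_apply, hq₁, hq₁,
      Scheme.Modules.Hom.app_smul]
  · intro x s
    apply t₀₁.injective
    simp only [AddEquiv.trans_apply, AddEquiv.apply_symm_apply]
    rw [ht₀₁, affPushTop_smul, ← ht₀₁, AddEquiv.apply_symm_apply, hq₀₁, hq₀₁,
      Scheme.Modules.Hom.app_smul, Scheme.Modules.Hom.app_smul]
  · intro s
    apply t₀₁.injective
    simp only [AddEquiv.trans_apply, AddEquiv.apply_symm_apply]
    rw [hq₀₁, hom_app_res, ht₀₁, ← affTrans_affPushTop a₀ a₀₁ l₀ ε₀ r₀ hε₀, ← ht₀,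
      AddEquiv.apply_symm_apply, hq₀]
  · intro s
    apply t₀₁.injective
    simp only [AddEquiv.trans_apply, AddEquiv.apply_symm_apply]
    rw [hq₀₁, hcond, hom_app_res, ht₀₁, ← affTrans_affPushTop a₁ a₀₁ l₁ ε₁ r₁ hε₁, ← ht₁,
      AddEquiv.apply_symm_apply, hq₁]

end Core

section Semilinear

variable {V₀ V₁ V₀₁ : X.Opens} (a₀ : IsAffineOpen V₀) (a₁ : IsAffineOpen V₁)
  (a₀₁ : IsAffineOpen V₀₁) (l₀ : V₀₁ ≤ V₀) (l₁ : V₀₁ ≤ V₁) (hinf : V₀ ⊓ V₁ ≤ V₀₁)
  (hcov : V₀ ⊔ V₁ = ⊤)
  {R₀ R₁ R₀₁ : Type u} [CommRing R₀] [CommRing R₁] [CommRing R₀₁]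
  (τ₀ : R₀ ≃+* Γ(X, V₀)) (τ₁ : R₁ ≃+* Γ(X, V₁)) (τ₀₁ : R₀₁ ≃+* Γ(X, V₀₁))
  (ρ₀ : R₀ →+* R₀₁) (ρ₁ : R₁ →+* R₀₁)
  (hρ₀ : ∀ x, (resCat l₀).hom (τ₀ x) = τ₀₁ (ρ₀ x))
  (hρ₁ : ∀ x, (resCat l₁).hom (τ₁ x) = τ₀₁ (ρ₁ x))
  {N₀ N₁ N₀₁ : Type u} [AddCommGroup N₀] [Module R₀ N₀] [AddCommGroup N₁] [Module R₁ N₁]
  [AddCommGroup N₀₁] [Module R₀₁ N₀₁]
  (r₀ : N₀ →+ N₀₁) (r₁ : N₁ →+ N₀₁)

include a₀ a₁ a₀₁ hinf hcov hρ₀ hρ₁ in
/-- **Gluing on two affine charts**: modules `N₀`, `N₁`, `N₀₁` over rings identified with the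
rings of functions of affine opens `V₀`, `V₁`, `V₀₁ = V₀ ⊓ V₁` covering `X`, with restriction
maps which are base changes, are the modules of sections of an invertible module on `X`. -/
theorem exists_glue_affine (h₀ : IsBC ρ₀ r₀) (h₁ : IsBC ρ₁ r₁)
    (i₀ : Module.Invertible R₀ N₀) (i₁ : Module.Invertible R₁ N₁) :
    ∃ (L : X.Modules) (_ : Scheme.Modules.IsInvertible L) (e₀ : Γ(L, V₀) ≃+ N₀)
      (e₁ : Γ(L, V₁) ≃+ N₁) (e₀₁ : Γ(L, V₀₁) ≃+ N₀₁),
      (∀ (y : R₀) (s : Γ(L, V₀)), e₀ (τ₀ y • s) = y • e₀ s) ∧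
      (∀ (y : R₁) (s : Γ(L, V₁)), e₁ (τ₁ y • s) = y • e₁ s) ∧
      (∀ (y : R₀₁) (s : Γ(L, V₀₁)), e₀₁ (τ₀₁ y • s) = y • e₀₁ s) ∧
      (∀ s, e₀₁ (L.presheaf.map (homOfLE l₀).op s) = r₀ (e₀ s)) ∧
      (∀ s, e₀₁ (L.presheaf.map (homOfLE l₁).op s) = r₁ (e₁ s)) := by
  let m₀ : Module Γ(X, V₀) N₀ := Module.compHom N₀ τ₀.symm.toRingHom
  let m₁ : Module Γ(X, V₁) N₁ := Module.compHom N₁ τ₁.symm.toRingHom
  let m₀₁ : Module Γ(X, V₀₁) N₀₁ := Module.compHom N₀₁ τ₀₁.symm.toRingHom
  have hsm₀ : ∀ (x : Γ(X, V₀)) (s : N₀), x • s = τ₀.symm x • s := fun _ _ => rfl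
  have hsm₁ : ∀ (x : Γ(X, V₁)) (s : N₁), x • s = τ₁.symm x • s := fun _ _ => rfl
  have hsm₀₁ : ∀ (x : Γ(X, V₀₁)) (s : N₀₁), x • s = τ₀₁.symm x • s := fun _ _ => rfl
  have hb₀ : IsBC (resCat l₀).hom r₀ :=
    IsBC.of_square (α := τ₀.toRingHom) (β := τ₀₁.toRingHom) (a := AddMonoidHom.id N₀)
      (b := AddMonoidHom.id N₀₁) h₀ (fun x s => by
        obtain ⟨y, rfl⟩ := τ₀.surjective x
        rw [hsm₀, τ₀.symm_apply_apply, h₀.sl, hρ₀, hsm₀₁, τ₀₁.symm_apply_apply])
      (fun x s => by
        change x • s = τ₀.symm (τ₀ x) • s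
        rw [τ₀.symm_apply_apply])
      (fun x s => by
        change x • s = τ₀₁.symm (τ₀₁ x) • s
        rw [τ₀₁.symm_apply_apply])
      τ₀.bijective τ₀₁.bijective
      Function.bijective_id Function.bijective_id (fun x => hρ₀ x) (fun s => rfl)
  have hb₁ : IsBC (resCat l₁).hom r₁ :=
    IsBC.of_square (α := τ₁.toRingHom) (β := τ₀₁.toRingHom) (a := AddMonoidHom.id N₁)
      (b := AddMonoidHom.id N₀₁) h₁ (fun x s => by
        obtain ⟨y, rfl⟩ := τ₁.surjective x
        rw [hsm₁, τ₁.symm_apply_apply, h₁.sl, hρ₁, hsm₀₁, τ₀₁.symm_apply_apply])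
      (fun x s => by
        change x • s = τ₁.symm (τ₁ x) • s
        rw [τ₁.symm_apply_apply])
      (fun x s => by
        change x • s = τ₀₁.symm (τ₀₁ x) • s
        rw [τ₀₁.symm_apply_apply])
      τ₁.bijective τ₀₁.bijective
      Function.bijective_id Function.bijective_id (fun x => hρ₁ x) (fun s => rfl)
  have inv₀ : Module.Invertible Γ(X, V₀) N₀ := (isBC_compHom τ₀.symm (P := N₀)).invertible
  have inv₁ : Module.Invertible Γ(X, V₁) N₁ := (isBC_compHom τ₁.symm (P := N₁)).invertible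
  obtain ⟨L, hL, e₀, e₁, e₀₁, he₀, he₁, he₀₁, hr₀, hr₁⟩ :=
    exists_glue_core a₀ a₁ a₀₁ l₀ l₁ hinf hcov (ModuleCat.of Γ(X, V₀) N₀)
      (ModuleCat.of Γ(X, V₁) N₁) (ModuleCat.of Γ(X, V₀₁) N₀₁) r₀ r₁ hb₀ hb₁
  refine ⟨L, hL, e₀, e₁, e₀₁, fun y s => ?_, fun y s => ?_, fun y s => ?_, hr₀, hr₁⟩
  · refine (he₀ (τ₀ y) s).trans ?_
    change τ₀.symm (τ₀ y) • e₀ s = y • e₀ s
    rw [τ₀.symm_apply_apply]
  · refine (he₁ (τ₁ y) s).trans ?_
    change τ₁.symm (τ₁ y) • e₁ s = y • e₁ s
    rw [τ₁.symm_apply_apply]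
  · refine (he₀₁ (τ₀₁ y) s).trans ?_
    change τ₀₁.symm (τ₀₁ y) • e₀₁ s = y • e₀₁ s
    rw [τ₀₁.symm_apply_apply]

end Semilinear

end

end Fermat.Agent.S25.H505

end
-- ===== PACK-END S25/H505/GlueAffine.lean

-- ===== PACK-BEGIN S25/H850/EulerConst.lean
section


/-!
# S25 / block DEGREE, leaf D9 (operator form): the Euler characteristic is locally constant

For a two-chart Čech datum `D` over a ring `A` (charts retracts of `A[X]^n`, injective
restrictions) the Euler characteristic of the fibres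
`K ↦ dim ker (K ⊗ d 0) - dim coker (K ⊗ d 0)` (`K` any field over `A`) is finite and is given by a
locally constant function on `Spec A`: the difference of the ranks of the two finitely generated
projective modules `H⁰(L(m∞))` and `N1 / y^m N1` of the finite model (K6).
-/

set_option autoImplicit false

namespace Fermat.Agent.S25.H850

open TensorProduct Fermat.Agent.S25.H10

universe u v w

/-- Index of a linear map between finite-dimensional spaces. -/
theorem finrank_ker_sub_finrank_coker {K : Type*} [Field K] {V W : Type*} [AddCommGroup V]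
    [Module K V] [AddCommGroup W] [Module K W] [FiniteDimensional K V] [FiniteDimensional K W]
    (f : V →ₗ[K] W) :
    (Module.finrank K (LinearMap.ker f) : ℤ) - Module.finrank K (W ⧸ LinearMap.range f) =
      (Module.finrank K V : ℤ) - Module.finrank K W := by
  have h1 := LinearMap.finrank_range_add_finrank_ker f
  have h2 := Submodule.finrank_quotient_add_finrank (LinearMap.range f)
  omega

/-- The dimension of a fibre of a finitely generated projective module is its rank at the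
corresponding point. -/
theorem finrank_tensor_eq_rankAtStalk {A : Type u} [CommRing A] (P : Type v) [AddCommGroup P]
    [Module A P] [Module.Finite A P] [Module.Projective A P]
    (K : Type w) [Field K] [Algebra A K] :
    Module.finrank K (K ⊗[A] P) =
      Module.rankAtStalk P ⟨RingHom.ker (algebraMap A K), RingHom.ker_isPrime _⟩ := by
  have h := Module.rankAtStalk_baseChange (R := A) (M := P) (S := K) (⊥ : PrimeSpectrum K)
  rw [Module.rankAtStalk_eq_finrank_of_free] at h
  simp only [Pi.natCast_apply, Nat.cast_id] at h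
  rw [h]
  congr 1

variable {A : Type u} [CommRing A] {N0 N1 N01 : Type v}
  [AddCommGroup N0] [AddCommGroup N1] [AddCommGroup N01]
  [Module A N0] [Module A N1] [Module A N01]

/-- **D9 (operator form).** The Euler characteristic of the fibres of a two-chart Čech datum is
finite and locally constant on `Spec A`. -/
theorem exists_isLocallyConstant_euler (D : CechOps A N0 N1 N01)
    (h0 : IsFGProj D.X0) (h1 : IsFGProj D.Y1)
    (hr0 : Function.Injective D.r0) (hr1 : Function.Injective D.r1) :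
    ∃ f : PrimeSpectrum A → ℤ, IsLocallyConstant f ∧
      ∀ (K : Type w) [Field K] [Algebra A K],
        Module.Finite K (LinearMap.ker ((D.d 0).baseChange K)) ∧
        Module.Finite K ((K ⊗[A] N01) ⧸ LinearMap.range ((D.d 0).baseChange K)) ∧
        (Module.finrank K (LinearMap.ker ((D.d 0).baseChange K)) : ℤ) -
            Module.finrank K ((K ⊗[A] N01) ⧸ LinearMap.range ((D.d 0).baseChange K)) =
          f ⟨RingHom.ker (algebraMap A K), RingHom.ker_isPrime _⟩ := by
  obtain ⟨m0, hm0⟩ := Fermat.Agent.S25.H370.exists_forall_finite_model D h0 h1 hr0 hr1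
  obtain ⟨-, hP1, hP2, hQ1, hQ2, hbc⟩ := hm0 m0 le_rfl
  have : Module.FinitePresentation A (D.H0 m0) := Module.finitePresentation_of_projective _ _
  have : Module.FinitePresentation A (N1 ⧸ LinearMap.range (D.Y1 ^ m0)) :=
    Module.finitePresentation_of_projective _ _
  refine ⟨fun p => (Module.rankAtStalk (D.H0 m0) p : ℤ) -
    (Module.rankAtStalk (N1 ⧸ LinearMap.range (D.Y1 ^ m0)) p : ℤ), ?_, ?_⟩
  · have hc : IsLocallyConstant (fun n : ℕ => (n : ℤ)) := IsLocallyConstant.of_discrete _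
    exact ((Module.isLocallyConstant_rankAtStalk (R := A) (M := D.H0 m0)).comp _).sub
      ((Module.isLocallyConstant_rankAtStalk (R := A)
        (M := N1 ⧸ LinearMap.range (D.Y1 ^ m0))).comp _)
  · intro K _ _
    obtain ⟨⟨e1⟩, ⟨e2⟩⟩ := hbc K
    have hf1 : Module.Finite K (LinearMap.ker ((D.d 0).baseChange K)) :=
      Module.Finite.equiv e1
    have hf2 : Module.Finite K ((K ⊗[A] N01) ⧸ LinearMap.range ((D.d 0).baseChange K)) :=
      Module.Finite.equiv e2
    refine ⟨hf1, hf2, ?_⟩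
    rw [← e1.finrank_eq, ← e2.finrank_eq, finrank_ker_sub_finrank_coker,
      finrank_tensor_eq_rankAtStalk, finrank_tensor_eq_rankAtStalk]

end Fermat.Agent.S25.H850

end
-- ===== PACK-END S25/H850/EulerConst.lean

-- ===== PACK-BEGIN S25/H911/ACRig.lean
section



/-!
# S25 / ALGCHARTS, COV3 (helper911): a section which generates `N₁` modulo `y` rigidifies

`rigidifiable_of_genModY` : if `b : G.N₁` generates `N₁` modulo `y` (`H11.GenModY y G b`) and the
marked point `e` lies on `E₀ = {y = 0}` (`e y = 0`), then `G` is rigidifiable along `e`: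
`e^* N₁` is an invertible `A`-module generated by the image of `b`, hence free on it.
-/

set_option autoImplicit false
set_option linter.style.haveILetI false

universe u

open scoped TensorProduct

namespace Fermat.Agent.S25.H911

open Fermat.Agent.S25

variable {k : Type u} [Field k] {B₀ B₁ B₀₁ : Type u} [CommRing B₀] [CommRing B₁] [CommRing B₀₁]
  [Algebra k B₀] [Algebra k B₁] [Algebra k B₀₁] [Algebra B₀ B₀₁] [Algebra B₁ B₀₁]
  [IsScalarTower k B₀ B₀₁] [IsScalarTower k B₁ B₀₁]

/-- An invertible module `N` over `R`, a ring map `ε : R → A`, and `b : N` which generates `N`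
modulo an element `t` with `ε t = 0`: then `ε^* N` is free on the image of `b`. -/
theorem exists_semilinear_trivialisation_of_gen {R A : Type u} [CommRing R] [CommRing A]
    (ε : R →+* A) {N : Type u} [AddCommGroup N] [Module R N]
    [Module.Invertible R N] (t : R) (ht : ε t = 0) (b : N)
    (hb : ∀ c : N, ∃ r : R, c - r • b ∈ (Ideal.span {t} • ⊤ : Submodule R N)) :
    ∃ f : N →ₛₗ[ε] A, IsSemilinearBaseChange ε f ∧ f b = 1 := by
  letI : Algebra R A := ε.toAlgebra
  have halg : ∀ r : R, algebraMap R A r = ε r := fun _ => rfl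
  -- the generator
  let g : A →ₗ[A] A ⊗[R] N := LinearMap.toSpanSingleton A (A ⊗[R] N) ((1 : A) ⊗ₜ[R] b)
  have h1 : ∀ c : N, ∃ a : A, (1 : A) ⊗ₜ[R] c = a • ((1 : A) ⊗ₜ[R] b) := by
    intro c
    obtain ⟨r, hr⟩ := hb c
    rw [Submodule.ideal_span_singleton_smul, Submodule.mem_smul_pointwise_iff_exists] at hr
    obtain ⟨n, -, hn⟩ := hr
    refine ⟨ε r, ?_⟩
    have hc : c = r • b + t • n := by rw [hn]; abel
    have h2 : (1 : A) ⊗ₜ[R] (t • n) = 0 := by
      rw [TensorProduct.tmul_smul, TensorProduct.smul_tmul', Algebra.smul_def, halg, ht,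
        zero_mul, TensorProduct.zero_tmul]
    have h3 : (1 : A) ⊗ₜ[R] (r • b) = ε r • ((1 : A) ⊗ₜ[R] b) := by
      rw [TensorProduct.tmul_smul, TensorProduct.smul_tmul', TensorProduct.smul_tmul',
        Algebra.smul_def, halg, smul_eq_mul]
    rw [hc, TensorProduct.tmul_add, h2, add_zero, h3]
  have hg : Function.Surjective g := by
    intro z
    induction z using TensorProduct.induction_on with
    | zero => exact ⟨0, map_zero _⟩
    | tmul a c =>
      obtain ⟨a', ha'⟩ := h1 c
      refine ⟨a * a', ?_⟩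
      change (a * a') • ((1 : A) ⊗ₜ[R] b) = a ⊗ₜ[R] c
      rw [mul_smul, ← ha', TensorProduct.smul_tmul', smul_eq_mul, mul_one]
    | add z w hz hw =>
      obtain ⟨a, ha⟩ := hz
      obtain ⟨a', ha'⟩ := hw
      exact ⟨a + a', by rw [map_add, ha, ha']⟩
  have hbij : Function.Bijective g := Module.Invertible.bijective_of_surjective hg
  let φ : A ≃ₗ[A] A ⊗[R] N := LinearEquiv.ofBijective g hbij
  have hφ1 : φ 1 = (1 : A) ⊗ₜ[R] b := by
    change (1 : A) • ((1 : A) ⊗ₜ[R] b) = _
    rw [one_smul]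
  refine ⟨{ toFun := fun n => φ.symm ((1 : A) ⊗ₜ[R] n)
            map_add' := fun m n => by rw [TensorProduct.tmul_add, map_add]
            map_smul' := fun r n => by
              have h3 : (1 : A) ⊗ₜ[R] (r • n) = ε r • ((1 : A) ⊗ₜ[R] n) := by
                rw [TensorProduct.tmul_smul, TensorProduct.smul_tmul', TensorProduct.smul_tmul',
                  Algebra.smul_def, halg, smul_eq_mul]
              rw [h3, map_smul] }, ?_, ?_⟩
  · exact isSemilinearBaseChange_of_tensorEquiv ε _ φ.symm (fun m => rfl)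
  · change φ.symm ((1 : A) ⊗ₜ[R] b) = 1
    rw [← hφ1, φ.symm_apply_apply]

/-- **COV3, rigidification**: a gluing datum with a section of `N₁` which generates modulo `y`
is rigidifiable along a marked point `e` with `e y = 0`. -/
theorem rigidifiable_of_genModY {y : B₁} {e : B₁ →ₐ[k] k} (he : e y = 0) {A : Type u}
    [CommRing A] [Algebra k A] (G : CurveGD k B₀ B₁ B₀₁ A) (b : G.N₁)
    (hb : H11.GenModY y G b) : G.Rigidifiable e := by
  haveI := G.invertible₁
  obtain ⟨f, hf, -⟩ := exists_semilinear_trivialisation_of_gen (epsHom e A).toRingHom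
    (H11.yElt k A y)
    (by
      change epsHom e A ((1 : A) ⊗ₜ[k] y) = 0
      rw [epsHom_apply_tmul, he, map_zero, mul_zero]) b hb
  exact ⟨f, hf⟩

end Fermat.Agent.S25.H911

end
-- ===== PACK-END S25/H911/ACRig.lean

-- ===== PACK-BEGIN S25/H326/RigLoc.lean
section
/-
S25 helper (helper326), assembly block AS6 (`Stmt.SheafGlue`), part 1: rigidified modules which
are locally free of rank one *over an open `G` only*, in sectionwise form.

* `LocHom.IsBij`, `LocHom.symm`, `LocHom.smul` : calculus of sectionwise isomorphisms;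
* `RigLoc σ G P` : an evaluation `Γ(P, W) → Γ(T, σ⁻¹ W)` for the opens `W ≤ G`, semilinear along
  `σ : T ⟶ X`, where `P` has local generators over `G` and the evaluation sends local generators
  to units;
* `RigLoc.exists_ratio`, `RigLoc.exists_isNormalised`, `RigLoc.eq_of_isNormalised` : the ratio of
  a sectionwise isomorphism, normalisation, and uniqueness of normalised isomorphisms.
-/




set_option autoImplicit false
set_option linter.unusedVariables false

universe u

noncomputable section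

open CategoryTheory AlgebraicGeometry TopologicalSpace Opposite Limits

namespace Fermat.Agent.S25.H326

open Fermat.Agent.S25.H626 (res resO res_res res_smul res_add app_res hom_ext_apply resO_resO
  unitMod toUnit ofUnit IsLocalGenerator eq_of_locally_eq_M eq_of_locally_eq_O exists_gluing_O
  resO_mul resO_one)

variable {X T : Scheme.{u}}

/-! ### Sectionwise isomorphisms -/

namespace LocHom

variable {G : X.Opens} {P Q R : X.Modules}

/-- A sectionwise morphism is bijective if all its components are. -/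
def IsBij (φ : LocHom G P Q) : Prop :=
  ∀ (W : X.Opens) (hW : W ≤ G), Function.Bijective (φ.app W hW)

theorem IsBij.restrict {φ : LocHom G P Q} (h : φ.IsBij) {G' : X.Opens} (hG : G' ≤ G) :
    (φ.restrict hG).IsBij := fun W hW => h W (hW.trans hG)

theorem IsBij.comp {φ : LocHom G P Q} {ψ : LocHom G Q R} (h : φ.IsBij) (h' : ψ.IsBij) :
    (φ.comp ψ).IsBij := fun W hW => (h' W hW).comp (h W hW)

theorem isBij_id (G : X.Opens) (P : X.Modules) : (LocHom.id G P).IsBij :=
  fun _ _ => Function.bijective_id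

/-- The inverse of a bijective sectionwise morphism. -/
def symm (φ : LocHom G P Q) (h : φ.IsBij) : LocHom G Q P where
  app W hW := ((AddEquiv.ofBijective (φ.app W hW) (h W hW)).symm : Γ(Q, W) →+ Γ(P, W))
  app_smul W hW r s := by
    apply (h W hW).1
    rw [φ.app_smul]
    change (AddEquiv.ofBijective (φ.app W hW) (h W hW))
        ((AddEquiv.ofBijective (φ.app W hW) (h W hW)).symm (r • s)) =
      r • (AddEquiv.ofBijective (φ.app W hW) (h W hW))
        ((AddEquiv.ofBijective (φ.app W hW) (h W hW)).symm s)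
    rw [AddEquiv.apply_symm_apply, AddEquiv.apply_symm_apply]
  app_res W W' hW h' s := by
    apply (h W' (h'.trans hW)).1
    rw [φ.app_res W W' hW h']
    change (AddEquiv.ofBijective (φ.app W' _) (h W' (h'.trans hW)))
        ((AddEquiv.ofBijective (φ.app W' _) (h W' (h'.trans hW))).symm (res Q h' s)) =
      res Q h' ((AddEquiv.ofBijective (φ.app W hW) (h W hW))
        ((AddEquiv.ofBijective (φ.app W hW) (h W hW)).symm s))
    rw [AddEquiv.apply_symm_apply, AddEquiv.apply_symm_apply]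

theorem apply_symm_apply (φ : LocHom G P Q) (h : φ.IsBij) (W : X.Opens) (hW : W ≤ G)
    (s : Γ(Q, W)) : φ.app W hW ((φ.symm h).app W hW s) = s :=
  (AddEquiv.ofBijective (φ.app W hW) (h W hW)).apply_symm_apply s

theorem symm_apply_apply (φ : LocHom G P Q) (h : φ.IsBij) (W : X.Opens) (hW : W ≤ G)
    (s : Γ(P, W)) : (φ.symm h).app W hW (φ.app W hW s) = s :=
  (AddEquiv.ofBijective (φ.app W hW) (h W hW)).symm_apply_apply s

theorem isBij_symm (φ : LocHom G P Q) (h : φ.IsBij) : (φ.symm h).IsBij := fun W hW =>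
  Function.bijective_iff_has_inverse.mpr
    ⟨φ.app W hW, fun s => apply_symm_apply φ h W hW s, fun s => symm_apply_apply φ h W hW s⟩

/-- Scaling a sectionwise morphism by a function on `G`. -/
def smul (a : Γ(X, G)) (φ : LocHom G P Q) : LocHom G P Q where
  app W hW :=
    { toFun := fun s => resO hW a • φ.app W hW s
      map_zero' := by rw [map_zero, smul_zero]
      map_add' := fun s s' => by rw [map_add, smul_add] }
  app_smul W hW r s := by
    change resO hW a • φ.app W hW (r • s) = r • (resO hW a • φ.app W hW s)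
    rw [φ.app_smul, smul_comm]
  app_res W W' hW h s := by
    change resO (h.trans hW) a • φ.app W' (h.trans hW) (res P h s) =
      res Q h (resO hW a • φ.app W hW s)
    rw [φ.app_res W W' hW h, res_smul, resO_resO]

theorem smul_app (a : Γ(X, G)) (φ : LocHom G P Q) (W : X.Opens) (hW : W ≤ G) (s : Γ(P, W)) :
    (smul a φ).app W hW s = resO hW a • φ.app W hW s := rfl

theorem isBij_smul {φ : LocHom G P Q} (h : φ.IsBij) {a : Γ(X, G)} (ha : IsUnit a) :
    (smul a φ).IsBij := by
  intro W hW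
  obtain ⟨u, hu⟩ := isUnit_resO hW ha
  have e : ((smul a φ).app W hW : Γ(P, W) → Γ(Q, W)) =
      (fun s => (u : Γ(X, W)) • s) ∘ φ.app W hW := by
    funext s
    rw [smul_app, ← hu]
    rfl
  rw [e]
  refine Function.Bijective.comp ?_ (h W hW)
  refine Function.bijective_iff_has_inverse.mpr
    ⟨fun s => ((u⁻¹ : (Γ(X, W))ˣ) : Γ(X, W)) • s, fun s => ?_, fun s => ?_⟩
  · simp only [smul_smul, Units.inv_mul, one_smul]
  · simp only [smul_smul, Units.mul_inv, one_smul]

/-- The image of a local generator under a sectionwise isomorphism is a local generator. -/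
theorem isLocalGenerator_app {φ : LocHom G P Q} (h : φ.IsBij) {W : X.Opens} (hW : W ≤ G)
    {s : Γ(P, W)} (hs : IsLocalGenerator P W s) : IsLocalGenerator Q W (φ.app W hW s) := by
  intro W' hle
  have h1 : (fun r : Γ(X, W') => r • res Q hle (φ.app W hW s)) =
      φ.app W' (hle.trans hW) ∘ (fun r : Γ(X, W') => r • res P hle s) := by
    funext r
    simp only [Function.comp_apply]
    rw [φ.app_smul, φ.app_res W W' hW hle]
  rw [h1]
  exact (h W' (hle.trans hW)).comp (hs W' hle)

/-- If `φ t = c • φ' t` for a local generator `t` on `W₀`, then `φ = c • φ'` on all sections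
over opens `W ≤ W₀`. -/
theorem eq_smul_of_generator {φ φ' : LocHom G P Q} {W₀ : X.Opens} (h₀ : W₀ ≤ G)
    {t : Γ(P, W₀)} (ht : IsLocalGenerator P W₀ t) {c : Γ(X, W₀)}
    (hc : φ.app W₀ h₀ t = c • φ'.app W₀ h₀ t) (W : X.Opens) (hW : W ≤ W₀) (s : Γ(P, W)) :
    φ.app W (hW.trans h₀) s = resO hW c • φ'.app W (hW.trans h₀) s := by
  obtain ⟨r, hr⟩ := (ht W hW).2 s
  simp only at hr
  rw [← hr, φ.app_smul, φ'.app_smul, φ.app_res W₀ W h₀ hW t, φ'.app_res W₀ W h₀ hW t, hc,
    res_smul, smul_comm]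

end LocHom

/-! ### Local generators over an open -/

/-- `P` has local generators over the open `G`. -/
def HasLocalGeneratorsOn (G : X.Opens) (P : X.Modules) : Prop :=
  ∀ x : X, x ∈ G → ∃ (W : X.Opens) (s : Γ(P, W)), W ≤ G ∧ x ∈ W ∧ IsLocalGenerator P W s

theorem HasLocalGeneratorsOn.mono {G G' : X.Opens} {P : X.Modules}
    (h : HasLocalGeneratorsOn G P) (hG : G' ≤ G) : HasLocalGeneratorsOn G' P := by
  intro x hx
  obtain ⟨W, s, hWG, hxW, hs⟩ := h x (hG hx)
  exact ⟨W ⊓ G', res P inf_le_left s, inf_le_right, ⟨hxW, hx⟩,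
    H146.isLocalGenerator_res hs inf_le_left⟩

/-- **G4, sectionwise over an open.**  If `P` has local generators over `G` and `φ'` is a
sectionwise isomorphism over `G`, every sectionwise morphism `φ` over `G` is `a • φ'`. -/
theorem LocHom.exists_smul_eq {G : X.Opens} {P Q : X.Modules} (hP : HasLocalGeneratorsOn G P)
    (φ φ' : LocHom G P Q) (hφ' : φ'.IsBij) :
    ∃ a : Γ(X, G), ∀ (W : X.Opens) (hW : W ≤ G) (s : Γ(P, W)),
      φ.app W hW s = resO hW a • φ'.app W hW s := by
  have hP' : ∀ x : G, ∃ (W : X.Opens) (s : Γ(P, W)), W ≤ G ∧ x.1 ∈ W ∧ IsLocalGenerator P W s :=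
    fun x => hP x.1 x.2
  choose Wc t hWG hxW ht using hP'
  have ht' : ∀ x, IsLocalGenerator Q (Wc x) (φ'.app _ (hWG x) (t x)) := fun x =>
    LocHom.isLocalGenerator_app hφ' (hWG x) (ht x)
  have hex : ∀ x, ∃ c : Γ(X, Wc x), c • φ'.app _ (hWG x) (t x) = φ.app _ (hWG x) (t x) :=
    fun x => (H146.bijective_smul_of_isLocalGenerator (ht' x)).2 _
  choose c hc using hex
  have hPc : ∀ (x : G) (W : X.Opens) (hW : W ≤ Wc x) (s : Γ(P, W)),
      φ.app W (hW.trans (hWG x)) s = resO hW (c x) • φ'.app W (hW.trans (hWG x)) s :=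
    fun x W hW s => LocHom.eq_smul_of_generator (hWG x) (ht x) (hc x).symm W hW s
  have hcover : G ≤ iSup Wc := by
    intro x hx
    exact Opens.mem_iSup.mpr ⟨⟨x, hx⟩, hxW ⟨x, hx⟩⟩
  have hcompat : ∀ x y, resO (inf_le_left : Wc x ⊓ Wc y ≤ Wc x) (c x) =
      resO (inf_le_right : Wc x ⊓ Wc y ≤ Wc y) (c y) := by
    intro x y
    have hu := H146.isLocalGenerator_res (ht' x) (inf_le_left : Wc x ⊓ Wc y ≤ Wc x)
    apply (H146.bijective_smul_of_isLocalGenerator hu).1
    simp only
    have e1 := hPc x (Wc x ⊓ Wc y) inf_le_left (res P inf_le_left (t x))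
    have e2 := hPc y (Wc x ⊓ Wc y) inf_le_right (res P inf_le_left (t x))
    rw [φ'.app_res (Wc x) (Wc x ⊓ Wc y) (hWG x) inf_le_left (t x)] at e1 e2
    rw [← e1, ← e2]
  obtain ⟨a, ha⟩ := exists_gluing_O Wc G hWG hcover c hcompat
  refine ⟨a, fun W hW s => ?_⟩
  have hcoverW : W ≤ ⨆ x, W ⊓ Wc x := by
    intro x hx
    exact Opens.mem_iSup.mpr ⟨⟨x, hW hx⟩, hx, hxW ⟨x, hW hx⟩⟩
  apply eq_of_locally_eq_M Q (fun x => W ⊓ Wc x) W (fun x => inf_le_left) hcoverW
  intro x
  rw [← φ.app_res W (W ⊓ Wc x) hW inf_le_left, res_smul,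
    ← φ'.app_res W (W ⊓ Wc x) hW inf_le_left, resO_resO, hPc x (W ⊓ Wc x) inf_le_right,
    ← ha x, resO_resO]

/-! ### Rigidified modules over an open -/

/-- A *rigidification over `G`* of the module `P` along `σ : T ⟶ X`, in sectionwise form:
`P` has local generators over `G`, and there is an evaluation `Γ(P, W) → Γ(T, σ⁻¹ W)` for
`W ≤ G`, semilinear along `σ`, compatible with restrictions, and sending local generators to
units. -/
structure RigLoc (σ : T ⟶ X) (G : X.Opens) (P : X.Modules) where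
  /-- the evaluation -/
  val : ∀ (W : X.Opens), W ≤ G → (Γ(P, W) →+ Γ(T, σ ⁻¹ᵁ W))
  val_smul : ∀ (W : X.Opens) (hW : W ≤ G) (r : Γ(X, W)) (s : Γ(P, W)),
    val W hW (r • s) = σ.app W r * val W hW s
  val_res : ∀ (W W' : X.Opens) (hW : W ≤ G) (h : W' ≤ W) (s : Γ(P, W)),
    val W' (h.trans hW) (res P h s) = resO (σ.preimage_mono h) (val W hW s)
  gen : HasLocalGeneratorsOn G P
  unit : ∀ (W : X.Opens) (hW : W ≤ G) (s : Γ(P, W)), IsLocalGenerator P W s →
    IsUnit (val W hW s)

namespace RigLoc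

variable {σ : T ⟶ X} {G : X.Opens} {P Q : X.Modules}

/-- Restriction of a rigidification to a smaller open. -/
def restrict (R : RigLoc σ G P) {G' : X.Opens} (hG : G' ≤ G) : RigLoc σ G' P where
  val W hW := R.val W (hW.trans hG)
  val_smul W hW r s := R.val_smul W _ r s
  val_res W W' hW h s := R.val_res W W' _ h s
  gen := R.gen.mono hG
  unit W hW s hs := R.unit W _ s hs

@[simp] theorem restrict_val (R : RigLoc σ G P) {G' : X.Opens} (hG : G' ≤ G) (W : X.Opens)
    (hW : W ≤ G') (s : Γ(P, W)) : (R.restrict hG).val W hW s = R.val W (hW.trans hG) s := rfl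

/-- A sectionwise morphism is *normalised* if it is compatible with the evaluations. -/
def IsNormalised (R : RigLoc σ G P) (R' : RigLoc σ G Q) (φ : LocHom G P Q) : Prop :=
  ∀ (W : X.Opens) (hW : W ≤ G) (s : Γ(P, W)), R'.val W hW (φ.app W hW s) = R.val W hW s

/-- If `ev' (φ t) = b * ev t` for a local generator `t` on `W₀`, the same holds for all
sections over all opens `W ≤ W₀`. -/
theorem val_app_eq_of_generator (R : RigLoc σ G P) (R' : RigLoc σ G Q) (φ : LocHom G P Q)
    {W₀ : X.Opens} (h₀ : W₀ ≤ G) {t : Γ(P, W₀)} (ht : IsLocalGenerator P W₀ t)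
    {b : Γ(T, σ ⁻¹ᵁ W₀)} (hb : R'.val W₀ h₀ (φ.app W₀ h₀ t) = b * R.val W₀ h₀ t)
    (W : X.Opens) (hW : W ≤ W₀) (s : Γ(P, W)) :
    R'.val W (hW.trans h₀) (φ.app W (hW.trans h₀) s) =
      resO (σ.preimage_mono hW) b * R.val W (hW.trans h₀) s := by
  obtain ⟨r, hr⟩ := (ht W hW).2 s
  simp only at hr
  rw [← hr, φ.app_smul, R'.val_smul, R.val_smul, φ.app_res W₀ W h₀ hW t,
    R'.val_res W₀ W h₀ hW, R.val_res W₀ W h₀ hW, hb, resO_mul]
  ring

/-- **The ratio** of a sectionwise isomorphism with respect to two rigidifications. -/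
theorem exists_ratio (R : RigLoc σ G P) (R' : RigLoc σ G Q) (φ : LocHom G P Q) (hφ : φ.IsBij) :
    ∃ b : Γ(T, σ ⁻¹ᵁ G), IsUnit b ∧ ∀ (W : X.Opens) (hW : W ≤ G) (s : Γ(P, W)),
      R'.val W hW (φ.app W hW s) = resO (σ.preimage_mono hW) b * R.val W hW s := by
  have hP' : ∀ x : (σ ⁻¹ᵁ G : T.Opens), ∃ (W : X.Opens) (s : Γ(P, W)),
      W ≤ G ∧ σ x.1 ∈ W ∧ IsLocalGenerator P W s := fun x => R.gen (σ x.1) x.2
  choose Wc t hWG hxW ht using hP'
  have hue : ∀ x, IsUnit (R.val (Wc x) (hWG x) (t x)) := fun x => R.unit _ _ _ (ht x)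
  have hue' : ∀ x, IsUnit (R'.val (Wc x) (hWG x) (φ.app _ (hWG x) (t x))) := fun x =>
    R'.unit _ _ _ (LocHom.isLocalGenerator_app hφ (hWG x) (ht x))
  have hex : ∀ x, ∃ b : Γ(T, σ ⁻¹ᵁ Wc x), IsUnit b ∧
      R'.val (Wc x) (hWG x) (φ.app _ (hWG x) (t x)) = b * R.val (Wc x) (hWG x) (t x) := by
    intro x
    refine ⟨R'.val (Wc x) (hWG x) (φ.app _ (hWG x) (t x)) *
      ((hue x).unit⁻¹ : (Γ(T, σ ⁻¹ᵁ Wc x))ˣ), (hue' x).mul (Units.isUnit _), ?_⟩
    rw [mul_assoc, IsUnit.val_inv_mul, mul_one]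
  choose b hbu hb using hex
  have hPb : ∀ (x : (σ ⁻¹ᵁ G : T.Opens)) (W : X.Opens) (hW : W ≤ Wc x) (s : Γ(P, W)),
      R'.val W (hW.trans (hWG x)) (φ.app W (hW.trans (hWG x)) s) =
        resO (σ.preimage_mono hW) (b x) * R.val W (hW.trans (hWG x)) s :=
    fun x W hW s => val_app_eq_of_generator R R' φ (hWG x) (ht x) (hb x) W hW s
  have hcover : σ ⁻¹ᵁ G ≤ ⨆ x, σ ⁻¹ᵁ Wc x := by
    intro x hx
    exact Opens.mem_iSup.mpr ⟨⟨x, hx⟩, hxW ⟨x, hx⟩⟩
  have hcompat : ∀ x y,
      resO (inf_le_left : σ ⁻¹ᵁ Wc x ⊓ σ ⁻¹ᵁ Wc y ≤ σ ⁻¹ᵁ Wc x) (b x) =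
        resO (inf_le_right : σ ⁻¹ᵁ Wc x ⊓ σ ⁻¹ᵁ Wc y ≤ σ ⁻¹ᵁ Wc y) (b y) := by
    intro x y
    have hu : IsUnit (R.val (Wc x ⊓ Wc y) (inf_le_left.trans (hWG x))
        (res P inf_le_left (t x))) :=
      R.unit _ _ _ (H146.isLocalGenerator_res (ht x) inf_le_left)
    have e1 := hPb x (Wc x ⊓ Wc y) inf_le_left (res P inf_le_left (t x))
    have e2 := hPb y (Wc x ⊓ Wc y) inf_le_right (res P inf_le_left (t x))
    rw [e1] at e2
    exact hu.mul_left_injective e2
  obtain ⟨b₀, hb₀⟩ := exists_gluing_O (fun x => σ ⁻¹ᵁ Wc x) (σ ⁻¹ᵁ G)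
    (fun x => σ.preimage_mono (hWG x)) hcover b hcompat
  refine ⟨b₀, ?_, fun W hW s => ?_⟩
  · apply H146.isUnit_of_locally_isUnit
    intro x hx
    refine ⟨σ ⁻¹ᵁ Wc ⟨x, hx⟩, σ.preimage_mono (hWG ⟨x, hx⟩), hxW ⟨x, hx⟩, ?_⟩
    rw [hb₀]
    exact hbu ⟨x, hx⟩
  · have hcoverW : σ ⁻¹ᵁ W ≤ ⨆ x, σ ⁻¹ᵁ (W ⊓ Wc x) := by
      intro x hx
      exact Opens.mem_iSup.mpr ⟨⟨x, hW hx⟩, hx, hxW ⟨x, hW hx⟩⟩
    apply eq_of_locally_eq_O (fun x => σ ⁻¹ᵁ (W ⊓ Wc x)) (σ ⁻¹ᵁ W)
      (fun x => σ.preimage_mono inf_le_left) hcoverW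
    intro x
    have hA : resO (σ.preimage_mono (inf_le_left : W ⊓ Wc x ≤ W))
          (R'.val W hW (φ.app W hW s)) =
        R'.val (W ⊓ Wc x) (inf_le_left.trans hW)
          (φ.app (W ⊓ Wc x) (inf_le_left.trans hW) (res P inf_le_left s)) := by
      rw [φ.app_res W (W ⊓ Wc x) hW inf_le_left, R'.val_res W (W ⊓ Wc x) hW inf_le_left]
    have hB := hPb x (W ⊓ Wc x) inf_le_right (res P inf_le_left s)
    have hC : resO (σ.preimage_mono (inf_le_left : W ⊓ Wc x ≤ W))
        (resO (σ.preimage_mono hW) b₀ * R.val W hW s) =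
        resO (σ.preimage_mono (inf_le_right : W ⊓ Wc x ≤ Wc x)) (b x) *
          R.val (W ⊓ Wc x) (inf_le_left.trans hW) (res P inf_le_left s) := by
      rw [resO_mul, resO_resO, ← hb₀ x, resO_resO, R.val_res W (W ⊓ Wc x) hW inf_le_left]
    rw [hA, hB, hC]

/-- **Normalisation.**  If `σ^♯` is bijective on `G`, every sectionwise isomorphism over `G`
can be normalised. -/
theorem exists_isNormalised (R : RigLoc σ G P) (R' : RigLoc σ G Q)
    (hbij : Function.Bijective (σ.app G)) (φ : LocHom G P Q) (hφ : φ.IsBij) :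
    ∃ φ₁ : LocHom G P Q, φ₁.IsBij ∧ IsNormalised R R' φ₁ := by
  obtain ⟨b, hbu, hb⟩ := exists_ratio R R' φ hφ
  obtain ⟨bu, hbu'⟩ := hbu
  obtain ⟨a, ha⟩ := hbij.2 ((bu⁻¹ : (Γ(T, σ ⁻¹ᵁ G))ˣ) : Γ(T, σ ⁻¹ᵁ G))
  obtain ⟨a', ha'⟩ := hbij.2 (bu : Γ(T, σ ⁻¹ᵁ G))
  have haa' : a * a' = 1 := by
    apply hbij.1
    rw [map_mul, ha, ha', map_one, Units.inv_mul]
  have hau : IsUnit a := IsUnit.of_mul_eq_one a' haa'
  refine ⟨LocHom.smul a φ, LocHom.isBij_smul hφ hau, fun W hW s => ?_⟩
  rw [LocHom.smul_app, R'.val_smul, hb, ← mul_assoc, app_resO, ha, ← hbu', ← resO_mul,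
    Units.inv_mul, resO_one, one_mul]

/-- **Rigidity.**  Two normalised sectionwise morphisms over `G` agree if one of them is an
isomorphism and `σ^♯` is injective on `G`. -/
theorem eq_of_isNormalised (R : RigLoc σ G P) (R' : RigLoc σ G Q)
    (hinj : Function.Injective (σ.app G)) {φ φ' : LocHom G P Q} (hφ' : φ'.IsBij)
    (hn : IsNormalised R R' φ) (hn' : IsNormalised R R' φ') : φ = φ' := by
  obtain ⟨a, ha⟩ := LocHom.exists_smul_eq R.gen φ φ' hφ'
  have ha1 : a = 1 := by
    apply hinj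
    rw [map_one]
    have hP' : ∀ x : (σ ⁻¹ᵁ G : T.Opens), ∃ (W : X.Opens) (s : Γ(P, W)),
        W ≤ G ∧ σ x.1 ∈ W ∧ IsLocalGenerator P W s := fun x => R.gen (σ x.1) x.2
    choose Wc t hWG hxW ht using hP'
    have hcover : σ ⁻¹ᵁ G ≤ ⨆ x, σ ⁻¹ᵁ Wc x := by
      intro x hx
      exact Opens.mem_iSup.mpr ⟨⟨x, hx⟩, hxW ⟨x, hx⟩⟩
    apply eq_of_locally_eq_O (fun x => σ ⁻¹ᵁ Wc x) (σ ⁻¹ᵁ G)
      (fun x => σ.preimage_mono (hWG x)) hcover
    intro x
    have hu := R.unit _ (hWG x) _ (ht x)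
    have h1 := hn (Wc x) (hWG x) (t x)
    rw [ha, R'.val_smul, hn'] at h1
    have h2 : σ.app (Wc x) (resO (hWG x) a) = 1 := by
      apply hu.mul_left_injective
      simp only
      rw [h1, one_mul]
    have h3 := app_resO (f := σ) (hWG x) a
    rw [← h3, h2, resO_one]
  apply LocHom.ext
  intro W hW s
  rw [ha, ha1, resO_one, one_smul]

end RigLoc

end Fermat.Agent.S25.H326

end

end
-- ===== PACK-END S25/H326/RigLoc.lean

-- ===== PACK-BEGIN S26/Ample/Basic.lean
section


/-!
# Row S26, block AMPLE: elementary calculus of `span1` (helper752)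

Consequences of `Stmt.FFStalkMap` for pull-backs of Cartier divisors, used by the glue.
-/

set_option autoImplicit false
universe u

open CategoryTheory CategoryTheory.Limits AlgebraicGeometry NeronModelInfra GoodReductionJacobian

namespace Fermat.Agent.S26

noncomputable section

namespace Ample

section Span1

variable {X : Scheme.{u}} [IsIntegral X]

theorem mem_span1 {f g : X.functionField} {x : X} :
    f ∈ LS.span1 g x ↔ ∃ r : X.presheaf.stalk x,
      algebraMap (X.presheaf.stalk x) X.functionField r * g = f := by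
  rw [LS.span1, Submodule.mem_span_singleton]
  simp only [Algebra.smul_def]

theorem self_mem_span1 (g : X.functionField) (x : X) : g ∈ LS.span1 g x :=
  Submodule.subset_span rfl

theorem span1_le {f g : X.functionField} {x : X} (h : f ∈ LS.span1 g x) :
    LS.span1 f x ≤ LS.span1 g x :=
  Submodule.span_le.mpr (by simpa using h)

theorem span1_eq_of_mem {f g : X.functionField} {x : X} (h : f ∈ LS.span1 g x)
    (h' : g ∈ LS.span1 f x) : LS.span1 f x = LS.span1 g x :=
  le_antisymm (span1_le h) (span1_le h')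

theorem mul_mem_span1_mul {f g f' g' : X.functionField} {x : X} (h : f ∈ LS.span1 g x)
    (h' : f' ∈ LS.span1 g' x) : f * f' ∈ LS.span1 (g * g') x := by
  obtain ⟨r, rfl⟩ := mem_span1.mp h
  obtain ⟨r', rfl⟩ := mem_span1.mp h'
  exact mem_span1.mpr ⟨r * r', by rw [map_mul]; ring⟩

theorem mul_left_mem_span1 {f g : X.functionField} (h : X.functionField) {x : X}
    (hf : f ∈ LS.span1 g x) : h * f ∈ LS.span1 (h * g) x := by
  obtain ⟨r, rfl⟩ := mem_span1.mp hf
  exact mem_span1.mpr ⟨r, by ring⟩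

/-- If `O ⊆ O g₁`, `O ⊆ O g₂` and `g₁ g₂ ∈ O`, then `O g₁ = O`. -/
theorem span1_eq_one_of_mul {g₁ g₂ : X.functionField} {x : X}
    (h₁ : (1 : X.functionField) ∈ LS.span1 g₁ x) (h₂ : (1 : X.functionField) ∈ LS.span1 g₂ x)
    (h : g₁ * g₂ ∈ LS.span1 (1 : X.functionField) x) :
    LS.span1 g₁ x = LS.span1 1 x := by
  refine span1_eq_of_mem ?_ h₁
  obtain ⟨r₂, hr₂⟩ := mem_span1.mp h₂
  obtain ⟨s, hs⟩ := mem_span1.mp h
  refine mem_span1.mpr ⟨r₂ * s, ?_⟩
  rw [map_mul]
  calc algebraMap _ _ r₂ * algebraMap _ _ s * 1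
      = algebraMap _ _ r₂ * (algebraMap _ _ s * 1) := by ring
    _ = algebraMap _ _ r₂ * (g₁ * g₂) := by rw [hs]
    _ = g₁ * (algebraMap _ _ r₂ * g₂) := by ring
    _ = g₁ := by rw [hr₂, mul_one]

end Span1

section Pullback

variable {X Y : Scheme.{u}} [IsIntegral X] [IsIntegral Y]

theorem ffMap_mem_span1 (hS : Stmt.FFStalkMap.{u}) (φ : X ⟶ Y)
    (h : φ (genericPoint X) = genericPoint Y) (x : X) {f g : Y.functionField}
    (hf : f ∈ LS.span1 g (φ x)) : ffMap φ h f ∈ LS.span1 (ffMap φ h g) x := by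
  obtain ⟨r, rfl⟩ := mem_span1.mp hf
  refine mem_span1.mpr ⟨(φ.stalkMap x).hom r, ?_⟩
  rw [map_mul, hS X Y φ h x r]

theorem ffMap_span1_eq (hS : Stmt.FFStalkMap.{u}) (φ : X ⟶ Y)
    (h : φ (genericPoint X) = genericPoint Y) (x : X) {f g : Y.functionField}
    (hfg : LS.span1 f (φ x) = LS.span1 g (φ x)) :
    LS.span1 (ffMap φ h f) x = LS.span1 (ffMap φ h g) x :=
  span1_eq_of_mem (ffMap_mem_span1 hS φ h x (hfg ▸ self_mem_span1 f (φ x)))
    (ffMap_mem_span1 hS φ h x (hfg ▸ self_mem_span1 g (φ x)))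

/-- Pull-backs of effective divisors are effective. -/
theorem effective_of_isPullback (hS : Stmt.FFStalkMap.{u}) (φ : X ⟶ Y)
    (h : φ (genericPoint X) = genericPoint Y) {D : CDiv Y} {D' : CDiv X}
    (hD' : CDiv.IsPullback φ h D D') (hD : Effective D) : Effective D' := by
  intro x
  rw [hD' x]
  simpa using ffMap_mem_span1 hS φ h x (hD (φ x))

/-- The pull-back is trivial where the divisor is trivial. -/
theorem trivAt_of_isPullback (hS : Stmt.FFStalkMap.{u}) (φ : X ⟶ Y)
    (h : φ (genericPoint X) = genericPoint Y) {D : CDiv Y} {D' : CDiv X}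
    (hD' : CDiv.IsPullback φ h D D') {x : X} (hx : TrivAt D (φ x)) : TrivAt D' x := by
  rw [TrivAt, hD' x]
  simpa using ffMap_span1_eq hS φ h x hx

/-- For an effective divisor, the pull-back is trivial ONLY where the divisor is trivial
(the maps of local rings are local). -/
theorem trivAt_of_isPullback_trivAt (hS : Stmt.FFStalkMap.{u}) (φ : X ⟶ Y)
    (h : φ (genericPoint X) = genericPoint Y) {D : CDiv Y} {D' : CDiv X}
    (hD' : CDiv.IsPullback φ h D D') (hD : Effective D) {x : X} (hx : TrivAt D' x) :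
    TrivAt D (φ x) := by
  obtain ⟨r, hr⟩ := mem_span1.mp (hD (φ x))
  -- `ffMap g ∈ O_x`
  have hmem : ffMap φ h (D.gen (φ x)) ∈ LS.span1 (1 : X.functionField) x := by
    rw [← hx, hD' x]
    exact self_mem_span1 _ _
  obtain ⟨s, hs⟩ := mem_span1.mp hmem
  rw [mul_one] at hs
  have h1 : algebraMap (X.presheaf.stalk x) X.functionField ((φ.stalkMap x).hom r * s) = 1 := by
    rw [map_mul, hs, ← hS X Y φ h x r, ← map_mul, hr, map_one]
  have hinj : Function.Injective (algebraMap (X.presheaf.stalk x) X.functionField) :=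
    FaithfulSMul.algebraMap_injective _ _
  have h2 : (φ.stalkMap x).hom r * s = 1 := hinj (by rw [h1, map_one])
  have hu : IsUnit ((φ.stalkMap x).hom r) := IsUnit.of_mul_eq_one _ h2
  have hur : IsUnit r := isUnit_of_map_unit (φ.stalkMap x).hom r hu
  obtain ⟨v, hv⟩ := hur.exists_left_inv
  refine span1_eq_of_mem (mem_span1.mpr ⟨v, ?_⟩) (hD (φ x))
  calc algebraMap _ _ v * 1
      = algebraMap _ _ v * (algebraMap _ _ r * D.gen (φ x)) := by rw [hr]
    _ = algebraMap _ _ (v * r) * D.gen (φ x) := by rw [map_mul]; ring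
    _ = D.gen (φ x) := by rw [hv, map_one, one_mul]

end Pullback

end Ample

end

end Fermat.Agent.S26

end
-- ===== PACK-END S26/Ample/Basic.lean

-- ===== PACK-BEGIN S26/Ample/H73/Cover.lean
section



/-!
# Row S26, block AMPLE, leaf AM-CV (helper73): `Stmt.Cover`

For a nonempty open `U` of an abelian variety `A` over an algebraically closed field `K`, the
sets `(U - x) ∩ (U + x)`, `x ∈ A(K)`, cover `A` (every point, closed or not).

Proof.  Let `y₀` be a closed point in the closure of `y` (`A` is quasi-compact).  It is a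
`K`-point.  The opens `T_{y₀}⁻¹ U` and `(T_{y₀} ∘ [-1])⁻¹ U` are nonempty, `A` is irreducible and
Jacobson, so their intersection contains a closed point, i.e. a `K`-point `x`.  By commutativity
`T_x y₀ = T_{y₀} x ∈ U` and `T_{-x} y₀ = T_{y₀} (-x) ∈ U`; the open `T_x⁻¹ U ∩ T_{-x}⁻¹ U`
contains `y₀`, hence its generisation `y`.
-/

set_option autoImplicit false
universe u

open CategoryTheory CategoryTheory.Limits AlgebraicGeometry NeronModelInfra GoodReductionJacobian

namespace Fermat.Agent.S26.Ample.H73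

variable {K : Type u} [Field K]

theorem transl_eq_h126 (X : AbVar K) (x : X.Pt) : X.transl x = H126.transl X.law x := rfl

theorem negHom_eq_h126 (X : AbVar K) : X.negHom = H126.negHom X.law := rfl

/-- `T_x ∘ y = T_y ∘ x` on `K`-points. -/
theorem pt_comp_transl_comm (X : AbVar K) (x y : X.Pt) :
    y.1 ≫ X.transl x = x.1 ≫ X.transl y := by
  rw [transl_eq_h126, transl_eq_h126, H126.pt_comp_transl, H126.pt_comp_transl,
    X.comm _ y x]

/-- `T_{-x} ∘ y = T_y ∘ [-1] ∘ x` on `K`-points. -/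
theorem pt_comp_transl_negPt (X : AbVar K) (x y : X.Pt) :
    y.1 ≫ X.transl (X.negPt x) = x.1 ≫ X.negHom ≫ X.transl y := by
  rw [pt_comp_transl_comm, ← Category.assoc]
  congr 1
  exact H126.law_inv_coe X.law x

variable [IsAlgClosed K]

theorem cover : Stmt.Cover K := by
  intro X _ U hU y
  have : IsProper X.str := X.bundle.proper
  have : LocallyOfFiniteType X.str := inferInstance
  have : JacobsonSpace X.A := LocallyOfFiniteType.jacobsonSpace X.str
  have : CompactSpace X.A := QuasiCompact.compactSpace_of_compactSpace X.str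
  -- a closed point `y₀` in the closure of `y`
  obtain ⟨y₀, hy₀, hy₀c⟩ :=
    (isClosed_closure (s := ({y} : Set X.A))).exists_closed_singleton ⟨y, subset_closure rfl⟩
  have hspec : y ⤳ y₀ := specializes_iff_mem_closure.mpr hy₀
  -- `y₀` as a `K`-point
  let P₀ : X.Pt := ⟨pointOfClosedPoint X.str y₀ hy₀c, pointOfClosedPoint_comp X.str y₀ hy₀c⟩
  have hP₀ : ∀ a, P₀.1 a = y₀ := fun a => pointOfClosedPoint_apply X.str y₀ hy₀c a
  -- the two nonempty opens
  have : IsIso (X.transl P₀) := by rw [transl_eq_h126]; infer_instance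
  have : IsIso X.negHom := by rw [negHom_eq_h126]; infer_instance
  let V₁ : X.A.Opens := (X.transl P₀) ⁻¹ᵁ U
  let V₂ : X.A.Opens := (X.negHom ≫ X.transl P₀) ⁻¹ᵁ U
  obtain ⟨u, hu⟩ := hU
  have hV₁ : (V₁ : Set X.A).Nonempty := by
    obtain ⟨v, hv⟩ := (X.transl P₀).surjective u
    exact ⟨v, by show X.transl P₀ v ∈ U; rw [hv]; exact hu⟩
  have hV₂ : (V₂ : Set X.A).Nonempty := by
    obtain ⟨v, hv⟩ := (X.negHom ≫ X.transl P₀).surjective u
    exact ⟨v, by show (X.negHom ≫ X.transl P₀) v ∈ U; rw [hv]; exact hu⟩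
  have hne : ((V₁ : Set X.A) ∩ V₂).Nonempty :=
    (PreirreducibleSpace.isPreirreducible_univ (X := X.A)) V₁ V₂ V₁.2 V₂.2
      (by simpa using hV₁) (by simpa using hV₂) |>.imp fun z hz => hz.2
  obtain ⟨x₀, ⟨hx₁, hx₂⟩, hx₀c⟩ :=
    nonempty_inter_closedPoints hne (V₁.2.inter V₂.2).isLocallyClosed
  let P : X.Pt := ⟨pointOfClosedPoint X.str x₀ hx₀c, pointOfClosedPoint_comp X.str x₀ hx₀c⟩
  have hP : ∀ a, P.1 a = x₀ := fun a => pointOfClosedPoint_apply X.str x₀ hx₀c a
  refine ⟨P, ?_, ?_⟩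
  · refine hspec.mem_open ((X.transl P) ⁻¹ᵁ U).2 ?_
    show X.transl P y₀ ∈ U
    have h := congrArg (fun φ : Spec (CommRingCat.of K) ⟶ X.A => φ (IsLocalRing.closedPoint K))
      (pt_comp_transl_comm X P P₀)
    simp only [Scheme.Hom.comp_apply, hP₀, hP] at h
    rw [h]
    exact hx₁
  · refine hspec.mem_open ((X.transl (X.negPt P)) ⁻¹ᵁ U).2 ?_
    show X.transl (X.negPt P) y₀ ∈ U
    have h := congrArg (fun φ : Spec (CommRingCat.of K) ⟶ X.A => φ (IsLocalRing.closedPoint K))
      (pt_comp_transl_negPt X P P₀)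
    simp only [Scheme.Hom.comp_apply, hP₀, hP] at h
    rw [h]
    exact hx₂

end Fermat.Agent.S26.Ample.H73

end
-- ===== PACK-END S26/Ample/H73/Cover.lean

-- ===== PACK-BEGIN S26/Ample/H277/Project.lean
section






/-!
# S26 / AMPLE / A4 = `Ample.Stmt.Project` (helper277): BPF + assembly

* `bpf_same_of_homIntegral` (A4-d): if `u` consists of members of the `K`-span of a base point
  free system `w` and every `w_i` is homogeneously integral over `K[u]`, then `u` is base point
  free and generates the same fractional ideal sheaf.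
* `project_of` : `Ample.Stmt.Project K` from three inputs, stated as Props in this file:
  `FiniteStatement` (A4-a), `TrdegStatement` (A4-b = FF5, consumer form), `LS2Statement` (A4-e).
  The graded Noether normalisation (A4-c) is `Fermat.Agent.S26.H277.graded_noether_ratios`.
-/

set_option autoImplicit false
set_option linter.style.haveILetI false
universe u

open CategoryTheory CategoryTheory.Limits AlgebraicGeometry NeronModelInfra GoodReductionJacobian

namespace Fermat.Agent.S26.Ample.H277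

open Fermat.Agent.S26 Fermat.Agent.S26.H277

noncomputable section

variable {K : Type u} [Field K]

section Plumbing

variable {X : Scheme.{u}} [IsIntegral X] (str : X ⟶ Spec (CommRingCat.of K))

/-- The structure map `K → O_{X,x}`. -/
def stalkStr (x : X) : K →+* X.presheaf.stalk x :=
  ((Scheme.ΓSpecIso (CommRingCat.of K)).inv ≫ str.appTop ≫
    X.presheaf.germ ⊤ x (TopologicalSpace.Opens.mem_top _)).hom

theorem algebraMap_stalkStr (x : X) (c : K) :
    algebraMap (X.presheaf.stalk x) X.functionField (stalkStr str x c) = ffStr str c := by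
  have h : X.presheaf.germ ⊤ x (TopologicalSpace.Opens.mem_top _) ≫
      X.presheaf.stalkSpecializes ((genericPoint_spec X).specializes trivial) =
      X.presheaf.germ ⊤ (genericPoint X) (TopologicalSpace.Opens.mem_top _) :=
    X.presheaf.germ_stalkSpecializes _ _
  simp only [stalkStr, ffStr, RingHom.algebraMap_toAlgebra]
  rw [← h]
  rfl

end Plumbing

section BPF

variable {X : Scheme.{u}} [IsIntegral X] (str : X ⟶ Spec (CommRingCat.of K))

/-- The system of `K`-linear combinations of `w` with coefficient matrix `a`. -/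
def linSys {k n : ℕ} (a : Fin k → Fin n → K) (w : Fin n → X.functionField) :
    Fin k → X.functionField :=
  fun j => ∑ i, ffStr str (a j i) * w i

theorem linSys_eq_lin {k n : ℕ} (a : Fin k → Fin n → K) (w : Fin n → X.functionField) :
    linSys str a w = @lin K _ X.functionField _ (ffStr str).toAlgebra k n a w := by
  letI : Algebra K X.functionField := (ffStr str).toAlgebra
  funext j
  simp only [linSys, lin, Algebra.smul_def]
  rfl

theorem linSys_mem_span {k n : ℕ} (a : Fin k → Fin n → K) (w : Fin n → X.functionField)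
    (j : Fin k) (x : X) : linSys str a w j ∈ LS.span w x := by
  refine Submodule.sum_mem _ fun i _ => ?_
  rw [← algebraMap_stalkStr str x, ← Algebra.smul_def]
  exact Submodule.smul_mem _ _ (Submodule.subset_span ⟨i, rfl⟩)

theorem mem_span_singleton_iff {x : X} {f g : X.functionField} :
    f ∈ Submodule.span (X.presheaf.stalk x) {g} ↔
      ∃ r : X.presheaf.stalk x, algebraMap (X.presheaf.stalk x) X.functionField r * g = f := by
  rw [Submodule.mem_span_singleton]
  simp only [Algebra.smul_def]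

/-- **A4-d, pointwise.**  If every `w_i` is homogeneously integral over `K[u]`, `u` the system
of `K`-linear combinations of the base point free system `w` with coefficient matrix `a`, then
at every point some `u_j` generates the fractional ideal of `w`. -/
theorem genBy_of_homIntegral {k n : ℕ} (a : Fin k → Fin n → K) (w : Fin n → X.functionField)
    (hw : LS.BPF w)
    (hint : ∀ i, @HomIntegral K _ X.functionField _ (ffStr str).toAlgebra k
      (linSys str a w) (w i)) (x : X) :
    ∃ j, linSys str a w j ≠ 0 ∧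
      LS.span w x = Submodule.span (X.presheaf.stalk x) {linSys str a w j} := by
  letI algF : Algebra K X.functionField := (ffStr str).toAlgebra
  set u := linSys str a w with hu
  letI algO : Algebra K (X.presheaf.stalk x) := (stalkStr str x).toAlgebra
  haveI : IsScalarTower K (X.presheaf.stalk x) X.functionField :=
    IsScalarTower.of_algebraMap_eq fun c => (algebraMap_stalkStr str x c).symm
  obtain ⟨b, hb0, hb⟩ := hw x
  have hmem : ∀ j, ∃ r : X.presheaf.stalk x,
      algebraMap (X.presheaf.stalk x) X.functionField r * w b = u j := by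
    intro j
    have := linSys_mem_span str a w j x
    rw [hb] at this
    exact mem_span_singleton_iff.mp this
  choose r hr using hmem
  have hr' : ∀ j, algebraMap (X.presheaf.stalk x) X.functionField (r j) = u j / w b := by
    intro j
    rw [← hr j]
    field_simp
  obtain ⟨j, hj⟩ := exists_isUnit_of_homIntegral (K := K)
    (IsFractionRing.injective (X.presheaf.stalk x) X.functionField) u (w b) hb0 (hint b) r hr'
  refine ⟨j, ?_, ?_⟩
  · rw [← hr j]
    refine mul_ne_zero ?_ hb0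
    intro h0
    have : r j = 0 :=
      IsFractionRing.injective (X.presheaf.stalk x) X.functionField (by rw [h0, map_zero])
    rw [this] at hj
    exact not_isUnit_zero hj
  · rw [hb]
    apply le_antisymm
    · rw [Submodule.span_singleton_le_iff_mem]
      obtain ⟨s, hs⟩ := hj.exists_left_inv
      refine mem_span_singleton_iff.mpr ⟨s, ?_⟩
      rw [← hr j, ← mul_assoc, ← map_mul, hs, map_one, one_mul]
    · rw [Submodule.span_singleton_le_iff_mem]
      exact mem_span_singleton_iff.mpr ⟨r j, hr j⟩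

/-- **A4-d.**  Members of the `K`-span of a base point free system `w`, over which every `w_i`
is homogeneously integral, form a base point free system generating the same fractional ideal
sheaf. -/
theorem bpf_same_of_homIntegral {k n : ℕ} (a : Fin k → Fin n → K) (w : Fin n → X.functionField)
    (hw : LS.BPF w)
    (hint : ∀ i, @HomIntegral K _ X.functionField _ (ffStr str).toAlgebra k
      (linSys str a w) (w i)) :
    LS.BPF (linSys str a w) ∧ LS.Same (linSys str a w) w := by
  have key := genBy_of_homIntegral str a w hw hint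
  have hspan : ∀ x : X, LS.span (linSys str a w) x = LS.span w x := by
    intro x
    obtain ⟨j, -, hj⟩ := key x
    apply le_antisymm
    · exact Submodule.span_le.mpr (by rintro _ ⟨i, rfl⟩; exact linSys_mem_span str a w i x)
    · rw [hj, Submodule.span_singleton_le_iff_mem]
      exact Submodule.subset_span ⟨j, rfl⟩
  refine ⟨fun x => ?_, hspan⟩
  obtain ⟨j, hj0, hj⟩ := key x
  exact ⟨j, hj0, (hspan x).trans hj⟩

end BPF

section Assembly

/-- **A4-a FINITE** (input): on an integral scheme proper over `K`, the function field is finite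
over the field generated by the affine coordinates of a good system `v` with `v 0 ≠ 0`
(the morphism to projective space defined by `v` is finite). -/
def FiniteStatement (K : Type u) [Field K] : Prop :=
  ∀ (X : Scheme.{u}) [IsIntegral X] (str : X ⟶ Spec (CommRingCat.of K)) [IsProper str] (g : ℕ)
    (v : Fin (g + 1) → X.functionField), LS.Good v → v 0 ≠ 0 → 0 < LS.deg str v

open scoped IntermediateField.algebraAdjoinAdjoin in
/-- Core of the assembly: a good system on an abelian variety can be replaced by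
`dim + 1` members of its `K`-span, with all the properties needed by `Stmt.Alpha`. -/
theorem exists_projection [IsAlgClosed K] (hFin : FiniteStatement K) (X : AbVar K)
    [IsIntegral X.A] (N : ℕ) (w : Fin (N + 1) → X.A.functionField) (hw : LS.Good w) :
    ∃ u : Fin (X.dim + 1) → X.A.functionField,
      LS.Good u ∧ LS.Same u w ∧ LS.Indep X.str u ∧ 0 < LS.deg X.str u := by
  letI algF : Algebra K X.A.functionField := (ffStr X.str).toAlgebra
  haveI : IsProper X.str := X.bundle.proper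
  haveI := X.smoothDim
  -- some member is nonzero
  obtain ⟨b, hb0, -⟩ := hw.1 (genericPoint X.A)
  obtain ⟨g, a, hu0, hind, -, hH, -⟩ := graded_noether_ratios (K := K) w ⟨b, hb0⟩
  have hlin : linSys X.str a w = lin a w := linSys_eq_lin X.str a w
  rw [← hlin] at hu0 hind hH
  set u := linSys X.str a w with hu
  -- Good and Same
  have hgood : LS.Good u ∧ LS.Same u w :=
    H566.good_of_linearCombination_ffStr X.str w hw a u (fun j => rfl)
      (fun x => genBy_of_homIntegral X.str a w hw.1 hH x)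
  -- finite degree
  have hdeg : 0 < LS.deg X.str u := hFin X.A X.str g u hgood.1 hu0
  -- the number of members is `dim + 1`
  have hg : g = X.dim := by
    have htr := H86.trdeg_functionField X.str X.dim
    haveI hfin : Module.Finite (LS.coordField X.str u) X.A.functionField :=
      Module.finite_of_finrank_pos hdeg
    haveI halg : Algebra.IsAlgebraic (LS.coordField X.str u) X.A.functionField :=
      Algebra.IsAlgebraic.of_finite _ _
    haveI : Algebra.IsAlgebraic (IntermediateField.adjoin K (Set.range (LS.ratios u)))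
        X.A.functionField := by
      refine ⟨fun y => ?_⟩
      let f : LS.coordField X.str u →+* IntermediateField.adjoin K (Set.range (LS.ratios u)) :=
        { toFun := fun x => ⟨x.1, x.2⟩
          map_one' := rfl
          map_mul' := fun _ _ => rfl
          map_zero' := rfl
          map_add' := fun _ _ => rfl }
      have hf : Function.Injective f := fun a b hab => Subtype.ext (congrArg Subtype.val hab)
      exact (halg.isAlgebraic y).ringHom_of_comp_eq f (RingHom.id X.A.functionField) hf rfl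
    haveI : Algebra.IsAlgebraic (Algebra.adjoin K (Set.range (LS.ratios u)))
        (IntermediateField.adjoin K (Set.range (LS.ratios u))) :=
      IsLocalization.isAlgebraic _
        (nonZeroDivisors (Algebra.adjoin K (Set.range (LS.ratios u))))
    haveI : Algebra.IsAlgebraic (Algebra.adjoin K (Set.range (LS.ratios u)))
        X.A.functionField :=
      Algebra.IsAlgebraic.trans _
        (IntermediateField.adjoin K (Set.range (LS.ratios u))) _
    have hind' : AlgebraicIndependent K (LS.ratios u) := hind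
    have hbasis : IsTranscendenceBasis K (LS.ratios u) :=
      hind'.isTranscendenceBasis_iff_isAlgebraic.mpr inferInstance
    have hcard := hbasis.lift_cardinalMk_eq_trdeg
    rw [htr] at hcard
    have : ((g : ℕ) : Cardinal.{u}) = (X.dim : Cardinal.{u}) := by
      simpa using hcard
    exact_mod_cast this
  subst hg
  exact ⟨u, hgood.1, hgood.2, H86.abVar_indep_of_deg_pos X u hdeg, hdeg⟩

/-- **AM-A4** (`Ample.Stmt.Project`, interface of helper752) from A4-a. -/
theorem project_of [IsAlgClosed K] (hFin : FiniteStatement K) : Ample.Stmt.Project K :=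
  fun X _ N w hw => exists_projection hFin X N w hw

/-- **AM-A4** in the shape of helper926 (`H926.Ample.Project`) from A4-a. -/
theorem project926_of [IsAlgClosed K] (hFin : FiniteStatement K) : H926.Ample.Project K :=
  fun X _ N w hw => by
    obtain ⟨u, h1, h2, h3, h4⟩ := exists_projection hFin X N w hw
    exact ⟨u, h1, h3, h4, h2⟩

end Assembly

end

end Fermat.Agent.S26.Ample.H277

end
-- ===== PACK-END S26/Ample/H277/Project.lean

-- ===== PACK-BEGIN S27/TopJac.lean
section


/-!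
# Row S27: second level glue (architect helper87)

* `model_of_blocks` : `FFAlg` + `CurveScheme` ⇒ `Model`.
* `jac_of_blocks`   : S25 (hypothesis) + `Model` + `Grp` + `Dim` + `Conn` + `Genus` + `PicCl` +
  `PtsDict` + `TensorExists` ⇒ `Jac`.
* `result_of_blocks` : S27 from S25, S26 and the leaves.
-/

set_option autoImplicit false
set_option linter.style.haveILetI false
universe u
open CategoryTheory CategoryTheory.Limits AlgebraicGeometry AlgebraicGeometry.RelPicard
  NeronModelInfra GoodReductionJacobian AlgebraicCurve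
open scoped TensorProduct

namespace Fermat.Agent.S27

open Fermat.Agent.S25

noncomputable section

section Model

variable {K F : Type u} [Field K] [Field F] [Algebra K F]

/-- **MODEL** from the chart of `F` and the scheme of a chart. -/
theorem model_of_blocks (hA : Stmt.FFAlg K F) (hC : Stmt.CurveScheme K) : Stmt.Model K F := by
  intro _ _ _ _
  obtain ⟨X⟩ := hA
  obtain ⟨C, c, hp, hs, hi, ε, Ch, φ₀, φ₁, φ₀₁, h₀, h₁⟩ :=
    hC X.B₀ X.B₁ X.B₀₁ X.x X.y X.e X.isCurveChart
  refine ⟨{ C := C, c := c, isProper := hp, smooth := hs, isIntegral := hi, ε := ε, Ch := Ch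
            j₀ := X.j₀.comp φ₀.toAlgHom
            j₁ := X.j₁.comp φ₁.toAlgHom
            j₀₁ := X.j₀₁.comp φ₀₁.toAlgHom
            j₀₁_algebraMap₀ := fun b => ?_
            j₀₁_algebraMap₁ := fun b => ?_
            isFracMap := ⟨?_, fun f => ?_⟩ }⟩
  · show X.j₀₁ (φ₀₁ (algebraMap Ch.B₀ Ch.B₀₁ b)) = X.j₀ (φ₀ b)
    rw [h₀, X.j₀₁_algebraMap₀]
  · show X.j₀₁ (φ₀₁ (algebraMap Ch.B₁ Ch.B₀₁ b)) = X.j₁ (φ₁ b)
    rw [h₁, X.j₀₁_algebraMap₁]
  · exact X.isFracMap.1.comp φ₀₁.injective
  · obtain ⟨a, b, hb, hab⟩ := X.isFracMap.2 f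
    refine ⟨φ₀₁.symm a, φ₀₁.symm b, ?_, ?_⟩
    · show X.j₀₁ (φ₀₁ (φ₀₁.symm b)) ≠ 0
      rwa [AlgEquiv.apply_symm_apply]
    · show f * X.j₀₁ (φ₀₁ (φ₀₁.symm b)) = X.j₀₁ (φ₀₁ (φ₀₁.symm a))
      rwa [AlgEquiv.apply_symm_apply, AlgEquiv.apply_symm_apply]

end Model

section Bridge

variable {K : Type u} [Field K] {J : Scheme.{u}} {f : J ⟶ Spec (CommRingCat.of K)}

theorem specStr_self : specStr K K = 𝟙 (Spec (CommRingCat.of K)) := by
  rw [specStr, Algebra.algebraMap_self]
  exact Spec.map_id _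

/-- Points over `𝟙` and over `specStr K K` are the same thing. -/
def specStrPointEquiv :
    SchemeHomOver (𝟙 (Spec (CommRingCat.of K))) f ≃ SchemeHomOver (specStr K K) f where
  toFun g := ⟨g.1, g.2.trans specStr_self.symm⟩
  invFun g := ⟨g.1, g.2.trans specStr_self⟩
  left_inv _ := rfl
  right_inv _ := rfl

/-- The group law does not see the difference. -/
theorem specStrPointEquiv_symm_mul (L : RelativeGroupLaw K f)
    (a b : SchemeHomOver (specStr K K) f) :
    specStrPointEquiv.symm (L.mul (specStr K K) a b) =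
      L.mul (𝟙 _) (specStrPointEquiv.symm a) (specStrPointEquiv.symm b) := by
  have hψ : 𝟙 (Spec (CommRingCat.of K)) ≫ specStr K K = 𝟙 (Spec (CommRingCat.of K)) := by
    rw [Category.id_comp, specStr_self]
  have h := L.mul_natural (specStr K K) (𝟙 _) (𝟙 _) hψ a b
  have hc : ∀ x : SchemeHomOver (specStr K K) f,
      schemeHomOverComp (𝟙 _) hψ x = specStrPointEquiv.symm x := fun x =>
    Subtype.ext (Category.id_comp _)
  rw [hc, hc, hc] at h
  exact h

end Bridge

section Jac

variable {K F : Type u} [Field K] [Field F] [Algebra K F]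

/-- **JAC** from the blocks. -/
theorem jac_of_blocks (hS25 : S25Stmt.{u}) (hM : Stmt.Model K F) (hG : Stmt.Grp K)
    (hD : Stmt.Dim K) (hC : Stmt.Conn K) (hGen : Stmt.Genus K F) (hCl : Stmt.PicCl K F)
    (hP : Stmt.PtsDict K) (hT : Stmt.TensorExists.{u}) : Stmt.Jac K F := by
  intro _ _ _ _
  obtain ⟨M⟩ := hM
  obtain ⟨D, ⟨hrep⟩, hsm, hpr, hgc⟩ := hS25 K M.c M.ε
  obtain ⟨L, hcomm, htens⟩ := hG M.c M.ε M.Ch D hrep
  have hdim := hD M.c M.ε M.Ch D hrep hsm hpr hgc
  obtain ⟨cl, hsurj, hiso, hadd⟩ := hCl M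
  obtain ⟨ha, hb, hc⟩ := hP M.c M.ε M.Ch D hrep
  -- the graph of the bijection
  let R : Pic0 K F → SchemeHomOver (specStr K K) D.toBase → Prop := fun x g =>
    ∃ (G : M.GD) (hG0 : G.degree = 0), cl ⟨G, hG0⟩ = x ∧
      Corr M.Ch K (hrep.poincare.pullbackAlong g).L G
  have hR1 : ∀ x, ∃ g, R x g := fun x => by
    obtain ⟨⟨G, hG0⟩, rfl⟩ := hsurj x
    obtain ⟨g, hg⟩ := hb G hG0
    exact ⟨g, G, hG0, rfl, hg⟩
  have hR2 : ∀ x g g', R x g → R x g' → g = g' := by
    rintro x g g' ⟨G, hG0, hx, hg⟩ ⟨G', hG0', hx', hg'⟩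
    exact (hc g g' G G' hg hg').mpr ((hiso ⟨G, hG0⟩ ⟨G', hG0'⟩).mp (hx.trans hx'.symm))
  have hR3 : ∀ g, ∃ x, R x g := fun g => by
    obtain ⟨G, hG0, hg⟩ := ha g
    exact ⟨cl ⟨G, hG0⟩, G, hG0, rfl, hg⟩
  have hR4 : ∀ x x' g, R x g → R x' g → x = x' := by
    rintro x x' g ⟨G, hG0, rfl, hg⟩ ⟨G', hG0', rfl, hg'⟩
    exact (hiso ⟨G, hG0⟩ ⟨G', hG0'⟩).mpr ((hc g g G G' hg hg').mp rfl)
  choose φ hφ using hR1
  have hφbij : Function.Bijective φ := by
    constructor
    · intro x x' h
      exact hR4 x x' (φ x) (hφ x) (h ▸ hφ x')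
    · intro g
      obtain ⟨x, hx⟩ := hR3 g
      exact ⟨x, hR2 x _ _ (hφ x) hx⟩
  have hφadd : ∀ x y, φ (x + y) = L.mul (specStr K K) (φ x) (φ y) := by
    intro x y
    obtain ⟨G, hG0, hx, hg⟩ := hφ x
    obtain ⟨G', hG0', hy, hg'⟩ := hφ y
    obtain ⟨G'', hG''⟩ := hT K (K ⊗[K] M.Ch.B₀) (K ⊗[K] M.Ch.B₁) (K ⊗[K] M.Ch.B₀₁) G G'
    obtain ⟨hG0'', hcl⟩ := hadd ⟨G, hG0⟩ ⟨G', hG0'⟩ G'' hG''
    have hcorr := htens K (φ x) (φ y) G G' G'' hg hg' hG''
    refine hR2 (x + y) _ _ (hφ (x + y)) ⟨G'', hG0'', ?_, hcorr⟩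
    rw [hcl, hx, hy]
  haveI : IsProper D.toBase := hpr
  haveI : GeometricallyConnected D.toBase := hgc
  refine ⟨{ J := D.P, f := D.toBase, law := L, comm := hcomm
            bundle := ⟨hsm, hpr,
              hC D.toBase ⟨D.zeroSection, D.zeroSection_toBase⟩, ⟨L⟩⟩
            smoothDim := by rw [hGen M]; exact hdim
            pts := (Equiv.ofBijective φ hφbij).trans specStrPointEquiv.symm
            pts_add := fun x y => ?_ }⟩
  show specStrPointEquiv.symm (φ (x + y)) =
    L.mul (𝟙 _) (specStrPointEquiv.symm (φ x)) (specStrPointEquiv.symm (φ y))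
  rw [hφadd, specStrPointEquiv_symm_mul]

end Jac

section Result

universe u₁ u₂

/-- **S27 from the blocks**: the frozen statement S27 follows from S25, S26 (as hypotheses, in
the universe `max u₁ u₂`) and the leaves of row S27. -/
theorem result_of_blocks
    (hS25 : S25Stmt.{max u₁ u₂}) (hS26 : S26Stmt.{max u₁ u₂})
    (hTr : Stmt.Transport.{u₁, u₂, max u₁ u₂})
    (hT : Stmt.TensorExists.{max u₁ u₂})
    (hA : ∀ (K F : Type (max u₁ u₂)) [Field K] [Field F] [Algebra K F], Stmt.FFAlg K F)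
    (hCS : ∀ (K : Type (max u₁ u₂)) [Field K], Stmt.CurveScheme K)
    (hG : ∀ (K : Type (max u₁ u₂)) [Field K], Stmt.Grp K)
    (hD : ∀ (K : Type (max u₁ u₂)) [Field K], Stmt.Dim K)
    (hC : ∀ (K : Type (max u₁ u₂)) [Field K], Stmt.Conn K)
    (hP : ∀ (K : Type (max u₁ u₂)) [Field K], Stmt.PtsDict K)
    (hGen : ∀ (K F : Type (max u₁ u₂)) [Field K] [Field F] [Algebra K F], Stmt.Genus K F)
    (hCl : ∀ (K F : Type (max u₁ u₂)) [Field K] [Field F] [Algebra K F], Stmt.PicCl K F)
    (K : Type u₁) (F : Type u₂) [Field K] [Field F] [Algebra K F] [IsAlgClosed K] [CharZero K]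
    [IsCurveOver K F] [Algebra.EssFiniteType K F] (ℓ : ℕ) [Fact ℓ.Prime] (k : ℕ) :
    Nat.card (Pic0.torsion K F (ℓ ^ k)) = ℓ ^ (2 * genusFF K F * k) :=
  result_of_uniform hTr
    (fun K F _ _ _ => uniform_of_jac hS26
      (jac_of_blocks hS25 (model_of_blocks (hA K F) (hCS K)) (hG K) (hD K) (hC K)
        (hGen K F) (hCl K F) (hP K) hT))
    K F ℓ k

end Result

end

end Fermat.Agent.S27

end
-- ===== PACK-END S27/TopJac.lean

-- ===== PACK-BEGIN Lib/RR/H439/H1.lean
section


/-!
# RR library, layer L4: `H¹(D)` is finite-dimensional, `ℓ(D) - i(D) = deg D + 1 - g` (helper439)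

Hypothesis-explicit on Riemann's theorem (layer L3): see `finite_H1_and_formula`.
-/

set_option autoImplicit false

noncomputable section

open AlgebraicCurve

namespace Fermat.Agent.Lib.RR.H439

open Fermat.Agent.Lib.RR

variable {K F : Type*} [Field K] [Field F] [Algebra K F]

/-! ### Linear algebra: one step in a chain of quotients -/

/-- If `φ : V → W` is onto with kernel spanned by one vector `x` and `W` is finite-dimensional,
then so is `V`, and `dim V = dim W + (0 or 1)`. -/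
theorem finrank_of_ker_eq_span {V W : Type*} [AddCommGroup V] [Module K V] [AddCommGroup W]
    [Module K W] (φ : V →ₗ[K] W) (hφ : Function.Surjective φ) (x : V)
    (hker : LinearMap.ker φ = Submodule.span K {x}) [Module.Finite K W] :
    Module.Finite K V ∧
      (x = 0 → Module.finrank K V = Module.finrank K W) ∧
      (x ≠ 0 → Module.finrank K V = Module.finrank K W + 1) := by
  have hexact : Function.Exact (Submodule.span K {x}).subtype φ := by
    rw [LinearMap.exact_iff, hker, Submodule.range_subtype]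
  have hfin : Module.Finite K V := Module.Finite.of_exact hexact hφ
  refine ⟨hfin, ?_, ?_⟩
  · intro hx
    have h1 := LinearMap.finrank_range_add_finrank_ker φ
    rw [LinearMap.range_eq_top.mpr hφ, finrank_top, hker, hx, Submodule.span_zero_singleton,
      finrank_bot, add_zero] at h1
    exact h1.symm
  · intro hx
    have h1 := LinearMap.finrank_range_add_finrank_ker φ
    rw [LinearMap.range_eq_top.mpr hφ, finrank_top, hker, finrank_span_singleton hx] at h1
    exact h1.symm

/-- One step for quotients by submodules: `S' = S ⊔ K a`. -/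
theorem finrank_quotient_step {M : Type*} [AddCommGroup M] [Module K M] (S S' : Submodule K M)
    (a : M) (hle : S ≤ S') (ha : a ∈ S') (hle' : S' ≤ S ⊔ Submodule.span K {a})
    [Module.Finite K (M ⧸ S')] :
    Module.Finite K (M ⧸ S) ∧
      (a ∈ S → Module.finrank K (M ⧸ S) = Module.finrank K (M ⧸ S')) ∧
      (a ∉ S → Module.finrank K (M ⧸ S) = Module.finrank K (M ⧸ S') + 1) := by
  have hS' : S' = S ⊔ Submodule.span K {a} :=
    le_antisymm hle' (sup_le hle ((Submodule.span_singleton_le_iff_mem a S').mpr ha))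
  have hcomap : S ≤ Submodule.comap (LinearMap.id : M →ₗ[K] M) S' := by
    rw [Submodule.comap_id]; exact hle
  set φ : (M ⧸ S) →ₗ[K] (M ⧸ S') := S.mapQ S' LinearMap.id hcomap with hφdef
  have hφ : Function.Surjective φ := by
    intro y
    obtain ⟨m, rfl⟩ := Submodule.Quotient.mk_surjective S' y
    exact ⟨Submodule.Quotient.mk m, by simp [hφdef]⟩
  have hker : LinearMap.ker φ = Submodule.span K {S.mkQ a} := by
    rw [hφdef, Submodule.ker_mapQ, Submodule.comap_id, hS', Submodule.map_sup,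
      Submodule.map_span, Set.image_singleton]
    rw [Submodule.mkQ_map_self, bot_sup_eq]
  obtain ⟨h1, h2, h3⟩ := finrank_of_ker_eq_span φ hφ (S.mkQ a) hker
  have hiff : (S.mkQ a = 0) ↔ a ∈ S := by
    rw [Submodule.mkQ_apply, Submodule.Quotient.mk_eq_zero]
  exact ⟨h1, fun h => h2 (hiff.mpr h), fun h => h3 (fun h0 => h (hiff.mp h0))⟩

/-! ### One step for `H¹` -/

section FF1

variable [hFF : FF1 K F]

/-- **One step**: if `H¹(D + P)` is finite-dimensional then so is `H¹(D)` and
`i(D) + ℓ(D + P) = i(D + P) + ℓ(D) + 1`. -/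
theorem H1_step (D : Divisor K F) (v : Place K F) [Module.Finite K (H1 (D + prim v))] :
    Module.Finite K (H1 D) ∧
      Module.finrank K (H1 D) + ell (D + prim v)
        = Module.finrank K (H1 (D + prim v)) + ell D + 1 := by
  classical
  obtain ⟨t, ht0, ht⟩ := exists_ord_eq v (-(D v + 1))
  have hv := deg_eq_one v
  have hDle : D ≤ D + prim v := by
    rw [Finsupp.le_def]
    intro w
    by_cases hw : w = v
    · subst hw; simp
    · simp [prim_apply_of_ne hw]
  have hle : repartitionsOf D ⊔ principalRepartitions K F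
      ≤ repartitionsOf (D + prim v) ⊔ principalRepartitions K F :=
    sup_le_sup_right (repartitionsOf_mono hDle) _
  have ha : single v t ∈ repartitionsOf (D + prim v) ⊔ principalRepartitions K F :=
    Submodule.mem_sup_left (single_mem_repartitionsOf v D ht)
  have hle' : repartitionsOf (D + prim v) ⊔ principalRepartitions K F
      ≤ (repartitionsOf D ⊔ principalRepartitions K F) ⊔ Submodule.span K {single v t} := by
    refine sup_le ?_ (le_sup_of_le_left le_sup_right)
    refine (repartitionsOf_add_prim_le v hv D ht0 ht).trans ?_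
    exact sup_le (le_sup_of_le_left le_sup_left) le_sup_right
  obtain ⟨hfin, hrank0, hrank1⟩ := finrank_quotient_step
    (repartitionsOf D ⊔ principalRepartitions K F)
    (repartitionsOf (D + prim v) ⊔ principalRepartitions K F) (single v t) hle ha hle'
  refine ⟨hfin, ?_⟩
  have hLle : riemannRochSpace D ≤ riemannRochSpace (D + prim v) := L_mono hDle
  by_cases hL : riemannRochSpace (D + prim v) ≤ riemannRochSpace D
  · have hnot : single v t ∉ repartitionsOf D ⊔ principalRepartitions K F := fun h =>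
      (not_le_of_single_mem_sup v D ht0 ht h) hL
    have hell : ell (D + prim v) = ell D := by
      unfold ell; rw [le_antisymm hL hLle]
    have : Module.finrank K (H1 D) = Module.finrank K (H1 (D + prim v)) + 1 := hrank1 hnot
    omega
  · have hmem := single_mem_sup_of_not_le v hv D ht0 ht hL
    have hlt : ell D < ell (D + prim v) := by
      unfold ell
      exact Submodule.finrank_lt_finrank_of_lt (lt_of_le_not_ge hLle hL)
    have hle2 := ell_add_prim_le D v
    have : Module.finrank K (H1 D) = Module.finrank K (H1 (D + prim v)) := hrank0 hmem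
    omega

/-! ### Vanishing of `H¹` above a divisor attaining Riemann's bound -/

/-- Every repartition lies in `𝔸(B₁)` for some `B₁ ≥ B`. -/
theorem exists_ge_mem_repartitionsOf (B : Divisor K F) (α : ↥(repartitions K F)) :
    ∃ B₁ : Divisor K F, B ≤ B₁ ∧ α ∈ repartitionsOf B₁ := by
  classical
  have hfin : {v : Place K F | v.ord ((α : Place K F → F) v) < 0}.Finite :=
    _root_.Fermat.Agent.Lib.RR.H439.mem_repartitions_iff.mp α.2
  set T : Finset (Place K F) := hfin.toFinset ∪ B.support with hT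
  have hsupp : ∀ w : Place K F,
      max (B w) (-w.ord ((α : Place K F → F) w)) ≠ 0 → w ∈ T := by
    intro w hw
    by_contra hwT
    rw [hT, Finset.mem_union, not_or, Set.Finite.mem_toFinset, Finsupp.mem_support_iff,
      not_not] at hwT
    have h1 : 0 ≤ w.ord ((α : Place K F → F) w) := not_lt.mp hwT.1
    apply hw
    rw [hwT.2]
    exact max_eq_left (by omega)
  refine ⟨Finsupp.onFinset T (fun w => max (B w) (-w.ord ((α : Place K F → F) w))) hsupp,
    ?_, ?_⟩
  · rw [Finsupp.le_def]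
    intro w
    rw [Finsupp.onFinset_apply]
    exact le_max_left _ _
  · rw [mem_repartitionsOf_iff]
    intro w
    right
    rw [Finsupp.onFinset_apply]
    have := le_max_right (B w) (-w.ord ((α : Place K F → F) w))
    omega

/-- If `B` attains Riemann's bound, then so does every `D ≥ B`. -/
theorem ell_eq_of_attains (g : ℤ)
    (hR : ∀ D : Divisor K F, Divisor.degree D + 1 - g ≤ ell D)
    {B D : Divisor K F} (hB : (ell B : ℤ) = Divisor.degree B + 1 - g) (h : B ≤ D) :
    (ell D : ℤ) = Divisor.degree D + 1 - g := by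
  have h1 := degree_sub_ell_mono h
  have h2 := hR D
  omega

/-- **Vanishing**: if `B` attains Riemann's bound then `𝔸 = 𝔸(B) + F`. -/
theorem sup_eq_top_of_attains (g : ℤ)
    (hR : ∀ D : Divisor K F, Divisor.degree D + 1 - g ≤ ell D)
    (B : Divisor K F) (hB : (ell B : ℤ) = Divisor.degree B + 1 - g) :
    repartitionsOf B ⊔ principalRepartitions K F = ⊤ := by
  have key : ∀ D', B ≤ D' →
      repartitionsOf D' ≤ repartitionsOf B ⊔ principalRepartitions K F := by
    refine induction_ge B le_sup_left ?_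
    intro D' v hle ih
    obtain ⟨t, ht0, ht⟩ := exists_ord_eq v (-(D' v + 1))
    have hv := deg_eq_one v
    have hD'le : D' ≤ D' + prim v := by
      rw [Finsupp.le_def]
      intro w
      by_cases hw : w = v
      · subst hw; simp
      · simp [prim_apply_of_ne hw]
    have hl1 := ell_eq_of_attains g hR hB hle
    have hl2 := ell_eq_of_attains g hR hB (hle.trans hD'le)
    rw [map_add, degree_prim'] at hl2
    have hnot : ¬ riemannRochSpace (D' + prim v) ≤ riemannRochSpace D' := by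
      intro hL
      have : ell (D' + prim v) ≤ ell D' := Submodule.finrank_mono hL
      omega
    have hmem := single_mem_sup_of_not_le v hv D' ht0 ht hnot
    refine (repartitionsOf_add_prim_le v hv D' ht0 ht).trans (sup_le ih ?_)
    rw [Submodule.span_singleton_le_iff_mem]
    exact (sup_le ih le_sup_right : repartitionsOf D' ⊔ principalRepartitions K F ≤ _) hmem
  rw [eq_top_iff]
  intro α _
  obtain ⟨B₁, hB₁, hα⟩ := exists_ge_mem_repartitionsOf B α
  exact key B₁ hB₁ hα

/-! ### The main theorem of layer L4 -/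

/-- Step down: from `D + P` to `D`. -/
theorem step_down (g : ℤ) (X Y : Divisor K F) (v : Place K F) (hY : Y = X + prim v)
    (h : Module.Finite K (H1 Y) ∧
      (ell Y : ℤ) - Module.finrank K (H1 Y) = Divisor.degree Y + 1 - g) :
    Module.Finite K (H1 X) ∧
      (ell X : ℤ) - Module.finrank K (H1 X) = Divisor.degree X + 1 - g := by
  subst hY
  obtain ⟨hfin, hform⟩ := h
  obtain ⟨hfin', hstep⟩ := H1_step X v
  refine ⟨hfin', ?_⟩
  rw [map_add, degree_prim'] at hform
  omega

/-- **L4.1 + L4.2** (hypothesis-explicit): if `g` is a constant for which Riemann's inequality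
holds and is attained, then for every divisor `D` the space `H¹(D)` is finite-dimensional and
`ℓ(D) - dim H¹(D) = deg D + 1 - g`. -/
theorem finite_H1_and_formula (g : ℤ)
    (hR : ∀ D : Divisor K F, Divisor.degree D + 1 - g ≤ ell D)
    (D₀ : Divisor K F) (h₀ : (ell D₀ : ℤ) = Divisor.degree D₀ + 1 - g) (D : Divisor K F) :
    Module.Finite K (H1 D) ∧
      (ell D : ℤ) - Module.finrank K (H1 D) = Divisor.degree D + 1 - g := by
  -- a divisor above `D` attaining the bound
  set B : Divisor K F := D ⊔ D₀ with hBdef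
  have hDB : D ≤ B := le_sup_left
  have hB : (ell B : ℤ) = Divisor.degree B + 1 - g := ell_eq_of_attains g hR h₀ le_sup_right
  have htop := sup_eq_top_of_attains g hR B hB
  have hsub : Subsingleton (H1 B) := by
    rw [Submodule.Quotient.subsingleton_iff]
    exact htop
  have hPB : Module.Finite K (H1 B) ∧
      (ell B : ℤ) - Module.finrank K (H1 B) = Divisor.degree B + 1 - g := by
    refine ⟨inferInstance, ?_⟩
    rw [Module.finrank_zero_of_subsingleton, hB]
    simp
  -- descend from `B` to `D`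
  have key : ∀ E, D ≤ E →
      (Module.Finite K (H1 (B + D - E)) ∧
        (ell (B + D - E) : ℤ) - Module.finrank K (H1 (B + D - E))
          = Divisor.degree (B + D - E) + 1 - g) := by
    refine induction_ge D ?_ ?_
    · rw [add_sub_cancel_right]; exact hPB
    · intro E v _ ih
      exact step_down g (B + D - (E + prim v)) (B + D - E) v (by abel) ih
  have := key B hDB
  rwa [add_sub_cancel_left] at this

end FF1

end Fermat.Agent.Lib.RR.H439

end
end
-- ===== PACK-END Lib/RR/H439/H1.lean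

-- ===== PACK-BEGIN S18/B12/H278/Global.lean
section


/-!
# b2: globalisation of the local normality criterion (helper278)

* `eq_top_of_forall_prime` : an ideal of a PID containing a nonzero element and, for every prime
  `t`, an element not divisible by `t`, is the unit ideal ("ideal of denominators").
* `mem_range_of_isIntegral_of_forall_prime` : global form of
  `exists_smul_mem_range_of_isIntegral`.
* `sfIdemInt : SFIdemIntStatement` (Spec2, P2'') and
  `intClosedOfDiscr : IntClosedOfDiscrStatement` (Spec3, A8).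
-/

set_option autoImplicit false
set_option linter.style.haveILetI false
set_option linter.unusedSectionVars false

namespace Fermat.Agent.S18.B12.H278

open Module Polynomial Fermat.Agent.S37.H278

universe u v

/-- Ideal of denominators: an ideal of a PID which contains a nonzero element and is contained
in no `(t)`, `t` prime, is the unit ideal. -/
theorem eq_top_of_forall_prime {Λ : Type*} [CommRing Λ] [IsDomain Λ] [IsPrincipalIdealRing Λ]
    (J : Ideal Λ) (h0 : ∃ g₀ ∈ J, g₀ ≠ 0) (h : ∀ t : Λ, Prime t → ∃ g ∈ J, ¬ t ∣ g) : J = ⊤ := by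
  by_contra hJ
  obtain ⟨M, hM, hJM⟩ := Ideal.exists_le_maximal J hJ
  obtain ⟨g₀, hg₀J, hg₀⟩ := h0
  obtain ⟨t, ht⟩ := (IsPrincipalIdealRing.principal M).principal
  have ht' : M = Ideal.span {t} := ht
  have ht0 : t ≠ 0 := by
    rintro rfl
    have : g₀ ∈ M := hJM hg₀J
    rw [ht', Ideal.mem_span_singleton, zero_dvd_iff] at this
    exact hg₀ this
  have htp : Prime t := by
    rw [← Ideal.span_singleton_prime ht0, ← ht']
    exact hM.isPrime
  obtain ⟨g, hgJ, hg⟩ := h t htp
  apply hg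
  have : g ∈ M := hJM hgJ
  rwa [ht', Ideal.mem_span_singleton] at this

section Global

variable {Λ : Type*} [CommRing Λ] [IsDomain Λ] [IsPrincipalIdealRing Λ]
  {C : Type*} [CommRing C] [Algebra Λ C]
  {L : Type*} [CommRing L] [Algebra Λ L]

/-- **Normality criterion over a PID, global form.**  If the discriminant bound holds at every
prime `t` of `Λ`, every `x : L` integral over `Λ` which is a fraction of an element of `C`
lies in `C`. -/
theorem mem_range_of_isIntegral_of_forall_prime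
    (hL : ∀ (g : Λ) (l : L), g ≠ 0 → g • l = 0 → l = 0)
    (f : C →ₐ[Λ] L) (hf : Function.Injective f)
    {ι : Type*} [Fintype ι] [DecidableEq ι] (b : Basis ι Λ C)
    (hloc : ∀ t : Λ, Prime t → ∃ (s : ℕ) (y : Fin s → C),
      (∀ x : C, ∃ a : Fin s → Λ,
        x - ∑ i, a i • y i ∈ (Ideal.span {algebraMap Λ C t}).radical) ∧
      ¬ t ^ (Fintype.card ι - s + 1) ∣ Algebra.discr Λ b)
    (x : L) (hx : IsIntegral Λ x) (hx0 : ∃ g₀ : Λ, g₀ ≠ 0 ∧ g₀ • x ∈ f.range) :
    x ∈ f.range := by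
  -- the ideal of denominators
  let J : Ideal Λ :=
    { carrier := {g | g • x ∈ f.range}
      add_mem' := by
        intro a c ha hc
        show (a + c) • x ∈ f.range
        rw [add_smul]
        exact f.range.add_mem ha hc
      zero_mem' := by
        show (0 : Λ) • x ∈ f.range
        rw [zero_smul]
        exact f.range.zero_mem
      smul_mem' := by
        intro r a ha
        show (r • a) • x ∈ f.range
        rw [smul_assoc]
        exact f.range.smul_mem ha r }
  have hJ : J = ⊤ := by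
    apply eq_top_of_forall_prime
    · obtain ⟨g₀, h0, h1⟩ := hx0
      exact ⟨g₀, h1, h0⟩
    · intro t ht
      obtain ⟨s, y, hy, hd⟩ := hloc t ht
      obtain ⟨g, hg, hgx⟩ := exists_smul_mem_range_of_isIntegral ht hL f hf b s y hy hd x hx hx0
      exact ⟨g, hgx, hg⟩
  have h1 : (1 : Λ) ∈ J := by rw [hJ]; trivial
  have h2 : (1 : Λ) • x ∈ f.range := h1
  rwa [one_smul] at h2

end Global

/-- **P2''** (= frozen statement `SFIdemIntStatement` of `B12/Spec2.lean`, unfolded). -/
theorem sfIdemInt :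
  ∀ (Λ : Type u) [CommRing Λ] [IsDomain Λ] [IsPrincipalIdealRing Λ] (t : Λ) (_ : Prime t)
    (C : Type v) [CommRing C] [Algebra Λ C] (n : ℕ) (b : Module.Basis (Fin n) Λ C)
    (s : ℕ) (y : Fin s → C)
    (_ : ∀ x : C, ∃ a : Fin s → Λ,
        x - ∑ i, a i • y i ∈ (Ideal.span {algebraMap Λ C t}).radical),
    Algebra.discr Λ b ≠ 0 → ¬ t ^ (n - s + 1) ∣ Algebra.discr Λ b →
    ∀ (e : C) (g : Λ), g ≠ 0 → e * e = g • e → ∃ (h : Λ) (c : C), ¬ t ∣ h ∧ h • e = g • c := by
  intro Λ _ _ _ t ht C _ _ n b s y hy _ hd e g hg he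
  classical
  haveI : Module.Free Λ C := Module.Free.of_basis b
  let L₀ := Localization (Algebra.algebraMapSubmonoid C (nonZeroDivisors Λ))
  have hinj : Function.Injective (algebraMap C L₀) := algebraMap_injective_of_free (o := Λ) L₀
  have hunit : ∀ a : Λ, a ≠ 0 → IsUnit (algebraMap Λ L₀ a) := by
    intro a ha
    rw [IsScalarTower.algebraMap_apply Λ C L₀]
    exact IsLocalization.map_units L₀ (⟨algebraMap Λ C a, ⟨a, mem_nonZeroDivisors_of_ne_zero ha,
      rfl⟩⟩ : Algebra.algebraMapSubmonoid C (nonZeroDivisors Λ))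
  have hL : ∀ (a : Λ) (l : L₀), a ≠ 0 → a • l = 0 → l = 0 := by
    intro a l ha h
    rw [Algebra.smul_def] at h
    exact ((hunit a ha).mul_right_eq_zero).mp h
  obtain ⟨w, hw⟩ := (hunit g hg).exists_left_inv
  -- the idempotent `ε = e / g`
  set ε : L₀ := w * algebraMap C L₀ e with hε
  have hgε : g • ε = algebraMap C L₀ e := by
    rw [hε, Algebra.smul_def, ← mul_assoc, mul_comm _ w, hw, one_mul]
  have hidem : ε * ε = ε := by
    have h1 : g • g • (ε * ε - ε) = 0 := by
      have h2 : g • g • (ε * ε - ε) = (g • ε) * (g • ε) - g • (g • ε) := by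
        rw [smul_sub, smul_sub, smul_mul_smul_comm, smul_smul, smul_smul]
      rw [h2, hgε, ← map_mul, he, Algebra.smul_def, map_mul, ← IsScalarTower.algebraMap_apply,
        Algebra.smul_def, sub_self]
    exact sub_eq_zero.mp (hL g _ hg (hL g _ hg h1))
  have hx0 : ∃ g₀ : Λ, g₀ ≠ 0 ∧ g₀ • ε ∈ (IsScalarTower.toAlgHom Λ C L₀).range :=
    ⟨g, hg, e, hgε.symm⟩
  obtain ⟨h, hh, c, hc⟩ := exists_smul_mem_range_of_isIntegral ht hL
    (IsScalarTower.toAlgHom Λ C L₀) hinj b s y hy (by simpa using hd) ε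
    (isIntegral_of_mul_self_eq hidem) hx0
  have hc' : algebraMap C L₀ c = h • ε := hc
  refine ⟨h, c, hh, ?_⟩
  apply hinj
  rw [Algebra.smul_def, Algebra.smul_def, map_mul, map_mul, ← IsScalarTower.algebraMap_apply,
    ← IsScalarTower.algebraMap_apply, hc', ← hgε, Algebra.smul_def, Algebra.smul_def]
  ring

/-- **A8** (= frozen statement `IntClosedOfDiscrStatement` of `B12/Spec3.lean`, unfolded). -/
theorem intClosedOfDiscr :
  ∀ (Λ : Type u) [CommRing Λ] [IsDomain Λ] [IsPrincipalIdealRing Λ]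
    (C : Type v) [CommRing C] [IsDomain C] [Algebra Λ C] (n : ℕ) (b : Module.Basis (Fin n) Λ C),
    Algebra.discr Λ b ≠ 0 →
    (∀ t : Λ, Prime t → ∃ (s : ℕ) (y : Fin s → C),
      (∀ c : C, ∃ a : Fin s → Λ,
        c - ∑ i, a i • y i ∈ (Ideal.span {algebraMap Λ C t}).radical) ∧
      ¬ t ^ (n - s + 1) ∣ Algebra.discr Λ b) →
    IsIntegrallyClosed C := by
  intro Λ _ _ _ C _ _ _ n b _ hloc
  classical
  haveI : Module.Free Λ C := Module.Free.of_basis b
  haveI : Module.Finite Λ C := Module.Finite.of_basis b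
  have hinjΛ : Function.Injective (algebraMap Λ C) := by
    rw [injective_iff_map_eq_zero]
    intro a ha
    by_contra ha0
    have : (1 : C) = 0 := smul_eq_zero_imp ha0 (by rw [Algebra.smul_def, ha, zero_mul])
    exact one_ne_zero this
  have hinj : Function.Injective (algebraMap C (FractionRing C)) :=
    IsFractionRing.injective C (FractionRing C)
  have hL : ∀ (a : Λ) (l : FractionRing C), a ≠ 0 → a • l = 0 → l = 0 := by
    intro a l ha h
    rw [Algebra.smul_def, IsScalarTower.algebraMap_apply Λ C (FractionRing C)] at h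
    rcases mul_eq_zero.mp h with h1 | h1
    · exfalso
      apply ha
      apply hinjΛ
      apply hinj
      rw [h1, map_zero, map_zero]
    · exact h1
  rw [isIntegrallyClosed_iff (FractionRing C)]
  intro x hx
  have hxΛ : IsIntegral Λ x := isIntegral_trans (R := Λ) (A := C) x hx
  have hx0 : ∃ g₀ : Λ, g₀ ≠ 0 ∧
      g₀ • x ∈ (IsScalarTower.toAlgHom Λ C (FractionRing C)).range := by
    obtain ⟨⟨a, c⟩, hac⟩ := IsLocalization.surj (nonZeroDivisors C) x
    simp only at hac
    have hcalg : IsAlgebraic Λ (c : C) := (Algebra.IsIntegral.isIntegral (c : C)).isAlgebraic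
    obtain ⟨r, hr, c', hc'⟩ := hcalg.exists_nonzero_dvd c.2
    refine ⟨r, hr, c' * a, ?_⟩
    show algebraMap C (FractionRing C) (c' * a) = r • x
    rw [Algebra.smul_def, IsScalarTower.algebraMap_apply Λ C (FractionRing C), hc', map_mul,
      map_mul, ← hac]
    ring
  obtain ⟨y, hy⟩ := mem_range_of_isIntegral_of_forall_prime hL
    (IsScalarTower.toAlgHom Λ C (FractionRing C)) hinj b
    (by simpa using hloc) x hxΛ hx0
  exact ⟨y, hy⟩

end Fermat.Agent.S18.B12.H278

end
-- ===== PACK-END S18/B12/H278/Global.lean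

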