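import Mathlib
import Fermat.Agent.Pack.S43MC.G0E7L3
import Fermat.Agent.Pack.S44C.G0E14L2
import Fermat.Agent.Pack.S44C.G0E12L0
import Fermat.Agent.Pack.S44C.G0E8L0
import Fermat.Agent.Pack.S43MC.G0E9L3
import Fermat.Agent.Pack.S43GC.G0E5L0
import Fermat.Agent.Pack.S43MC.G0E10L1
import Fermat.Agent.Pack.S44C.G0E7L3
import Fermat.Agent.Pack.S43MC.G0E10L2
import Fermat.Agent.Pack.S43MC.G0E10L3
import Fermat.Agent.Pack.S43MC.G0E3L2
import Fermat.Agent.Pack.S43MC.G0E3L0
import Fermat.Agent.Pack.S43GC.G0E7L1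
import Fermat.Agent.Pack.S44C.G0E11L0
import Fermat.Agent.Pack.S44C.G0E1L3
import Fermat.Agent.Pack.S43MC.G0E4L3
import Fermat.Agent.Pack.S44C.G0E8L1
import Fermat.Agent.Pack.S43MC.G0E7L2
import Fermat.Agent.Pack.S43MC.G0E11L1
import Fermat.Agent.Pack.Fast891

-- ===== PACK-BEGIN A2/H348/Conn.lean
section



/-!
# A2 / piece E (ALG_ss), part 5: the connectedness input from S18 (`H138.connected_special_fibre`)

`R` a noetherian domain with `R[X]` integrally closed, `F ⊇ R` a field of characteristic `0`,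
`x ∈ F` transcendental over `R`, `F` finite over `Frac R (x)`.  For every finite field extension
`L / F` in which `R` is integrally closed (constants do not grow), the special fibre of the
normalisation of the `x`-line model in `L` is connected: `ConnAt w B_fin B_inf B_mid L`
(`conn_of_const`).
-/

set_option autoImplicit false
set_option linter.unusedSectionVars false
set_option linter.style.haveILetI false

open Polynomial

namespace Fermat.Agent.A2.H348

open Fermat.Agent.S18.H138 (chart baseField)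

section Adapter

variable {R F L : Type*} [CommRing R] [Field F] [Field L] [Algebra R F] [Algebra F L]
  [Algebra R L] [IsScalarTower R F L]

/-- integrality over a subalgebra `T ⊆ F` and over its image in `L`. -/
theorem isIntegral_map_iff (T : Subalgebra R F) (e : L) :
    IsIntegral (T.map (IsScalarTower.toAlgHom R F L)) e ↔ IsIntegral T e := by
  have hinj : Function.Injective (IsScalarTower.toAlgHom R F L) := (algebraMap F L).injective
  set ψ := Subalgebra.equivMapOfInjective T (IsScalarTower.toAlgHom R F L) hinj with hψ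
  constructor
  · intro h
    have := IsIntegral.map_of_comp_eq (R := T.map (IsScalarTower.toAlgHom R F L)) (S := L)
      (T := T) (U := L) (ψ.symm : _ →+* _) (RingHom.id L) (by
        ext a
        obtain ⟨b, rfl⟩ := ψ.surjective a
        simp only [RingHom.coe_comp, Function.comp_apply, RingHom.coe_coe,
          AlgEquiv.symm_apply_apply, RingHom.id_apply]
        rfl) h
    simpa using this
  · intro h
    have := IsIntegral.map_of_comp_eq (R := T) (S := L)
      (T := T.map (IsScalarTower.toAlgHom R F L)) (U := L) (ψ : _ →+* _) (RingHom.id L) (by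
        ext a
        rfl) h
    simpa using this

/-- integrality over a chart of `F` is integrality over the generating subalgebra. -/
theorem isIntegral_chart_iff (S : Set F) (e : L) :
    IsIntegral (chart R S) e ↔ IsIntegral (Algebra.adjoin R S) e := by
  constructor
  · intro h
    -- transitivity
    set T := Algebra.adjoin R S with hT
    have h1 : IsIntegral (integralClosure T F) e := by
      have := IsIntegral.map_of_comp_eq (R := chart R S) (S := L)
        (T := integralClosure T F) (U := L)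
        (RingHom.id _ : (integralClosure T F) →+* (integralClosure T F)) (RingHom.id L) (by
          ext a
          rfl) h
      simpa using this
    exact isIntegral_trans (R := T) (A := integralClosure T F) e h1
  · intro h
    exact _root_.Fermat.Agent.A2.H348.isIntegral_of_le (Fermat.Agent.S18.H138.adjoin_le_chart S) h

/-- membership in a chart of `L` in terms of integrality over the chart of `F`. -/
theorem mem_chart_image_iff (S : Set F) (e : L) :
    e ∈ chart R ((algebraMap F L) '' S) ↔ IsIntegral (chart R S) e := by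
  rw [isIntegral_chart_iff, ← isIntegral_map_iff, AlgHom.map_adjoin]
  rfl

end Adapter

section Conn

variable {R F L : Type*} [CommRing R] [Field F] [Field L] [Algebra R F] [Algebra F L]
  [Algebra R L] [IsScalarTower R F L]

/-- `L` is finite over the base field of the `x`-line. -/
theorem finiteDimensional_baseField [FiniteDimensional F L] (x : F)
    [FiniteDimensional (baseField R x) F] :
    FiniteDimensional (baseField R (algebraMap F L x)) L := by
  set K := baseField R x with hK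
  set K' := baseField R (algebraMap F L x) with hK'
  have hle : K ≤ K'.comap (algebraMap F L) := by
    refine Subfield.closure_le.2 ?_
    rintro y (⟨r, rfl⟩ | hy)
    · show algebraMap F L (algebraMap R F r) ∈ K'
      rw [← IsScalarTower.algebraMap_apply]
      exact Subfield.subset_closure (Or.inl ⟨r, rfl⟩)
    · rw [Set.mem_singleton_iff] at hy
      subst hy
      exact Subfield.subset_closure (Or.inr rfl)
  haveI : Module.Finite K L := Module.Finite.trans F L
  let φ : K →+* K' :=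
    { toFun := fun a => ⟨algebraMap F L a, hle a.2⟩
      map_one' := Subtype.ext (map_one _)
      map_mul' := fun a b => Subtype.ext (map_mul _ _ _)
      map_zero' := Subtype.ext (map_zero _)
      map_add' := fun a b => Subtype.ext (map_add _ _ _) }
  letI : Algebra K K' := φ.toAlgebra
  haveI : IsScalarTower K K' L := IsScalarTower.of_algebraMap_eq fun _ => rfl
  exact Module.Finite.of_restrictScalars_finite K K' L

variable [IsNoetherianRing R] [IsIntegrallyClosed R[X]] [CharZero F]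

/-- **Connectedness of the special fibre** of the normalisation of the `x`-line model in a
finite extension `L / F` with the same constants, in the language of `ConnAt`. -/
theorem conn_of_const [FiniteDimensional F L] (hinjR : Function.Injective (algebraMap R F))
    {x : F} (hx : Transcendental R x) [FiniteDimensional (baseField R x) F]
    (w : R) (hw : Prime w)
    (hRL : ∀ y : L, IsIntegral R y → y ∈ Set.range (algebraMap R L)) :
    ConnAt w (chart R ({x} : Set F)) (chart R ({x⁻¹} : Set F)) (chart R ({x, x⁻¹} : Set F)) L := by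
  intro e₁ e₂ he₁ he₂ hi1 hi2 h12
  haveI := finiteDimensional_baseField (R := R) (L := L) x
  haveI : CharZero L := charZero_of_injective_algebraMap (algebraMap F L).injective
  set x' : L := algebraMap F L x with hx'def
  have hx' : Transcendental R x' :=
    (transcendental_algebraMap_iff (algebraMap F L).injective).2 hx
  have hinjL : Function.Injective (algebraMap R L) := by
    rw [IsScalarTower.algebraMap_eq R F L]
    exact (algebraMap F L).injective.comp hinjR
  have himg1 : (algebraMap F L) '' ({x} : Set F) = {x'} := Set.image_singleton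
  have himg2 : (algebraMap F L) '' ({x⁻¹} : Set F) = {x'⁻¹} := by
    rw [Set.image_singleton, map_inv₀]
  have himg3 : (algebraMap F L) '' ({x, x⁻¹} : Set F) = {x', x'⁻¹} := by
    rw [Set.image_pair, map_inv₀]
  have hw' : algebraMap F L (algebraMap R F w) = algebraMap R L w :=
    (IsScalarTower.algebraMap_apply R F L w).symm
  have m1 : ∀ e : L, e ∈ chart R ({x'} : Set L) ↔ IsIntegral (chart R ({x} : Set F)) e :=
    fun e => by rw [← himg1]; exact mem_chart_image_iff _ e
  have m2 : ∀ e : L, e ∈ chart R ({x'⁻¹} : Set L) ↔ IsIntegral (chart R ({x⁻¹} : Set F)) e :=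
    fun e => by rw [← himg2]; exact mem_chart_image_iff _ e
  have m3 : ∀ e : L, e ∈ chart R ({x', x'⁻¹} : Set L) ↔
      IsIntegral (chart R ({x, x⁻¹} : Set F)) e :=
    fun e => by rw [← himg3]; exact mem_chart_image_iff _ e
  rw [hw'] at hi1 hi2 h12 ⊢
  have := Fermat.Agent.S18.H138.connected_special_fibre hinjL hRL hx' w hw e₁ e₂
    ((m1 e₁).2 he₁) ((m2 e₂).2 he₂)
    (by obtain ⟨t, ht, h⟩ := hi1; exact ⟨t, (m1 t).2 ht, h⟩)
    (by obtain ⟨t, ht, h⟩ := hi2; exact ⟨t, (m2 t).2 ht, h⟩)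
    (by obtain ⟨t, ht, h⟩ := h12; exact ⟨t, (m3 t).2 ht, h⟩)
  rcases this with ⟨⟨t, ht, h⟩, -⟩ | ⟨⟨t, ht, h⟩, -⟩
  · left
    exact ⟨t, (m1 t).1 ht, h⟩
  · right
    exact ⟨t, (m1 t).1 ht, h⟩

end Conn

end Fermat.Agent.A2.H348

end
-- ===== PACK-END A2/H348/Conn.lean

-- ===== PACK-BEGIN S31/H862/Weight.lean
section




/-!
# S31 / SS (helper862) — a `Γ₀(N)`-partition weight on the upper half plane

`wt N : ℍ → ℝ` is nonnegative, continuous, integrable for the invariant measure of `ℍ`, and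
`∑_{γ ∈ Γ₀(N)} wt N (γ • z) = 1` for every `z`.
-/

set_option autoImplicit false

open UpperHalfPlane CongruenceSubgroup MeasureTheory
open scoped MatrixGroups ENNReal NNReal

namespace Fermat.Agent.S31.H862

/-- A chosen `SL(2,ℤ)`-partition of unity. -/
noncomputable def chiBase : ℂ → ℝ := Classical.choose Fermat.Agent.S21.exists_partition_SL2Z

theorem isPartition_chiBase : Fermat.Agent.S21.IsSL2ZPartition chiBase := by
  obtain ⟨h1, h2, h3, h4, h5⟩ := Classical.choose_spec Fermat.Agent.S21.exists_partition_SL2Z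
  exact ⟨h1, h2, h3, h4, h5⟩

/-- The weight function on `ℍ`. -/
noncomputable def wt (N : ℕ) (z : ℍ) : ℝ := Fermat.Agent.S21.chi N chiBase (z : ℂ)

theorem mob_coe_eq (g : SL(2, ℤ)) (z : ℍ) :
    Fermat.Agent.S21.mob g (z : ℂ) = ((g • z : ℍ) : ℂ) := by
  simp [Fermat.Agent.S21.mob]

theorem wt_smul_eq (N : ℕ) (γ : SL(2, ℤ)) (z : ℍ) :
    wt N (γ • z) = Fermat.Agent.S21.chi N chiBase (Fermat.Agent.S21.mob γ (z : ℂ)) := by
  rw [wt, mob_coe_eq]

section

variable (N : ℕ) [NeZero N]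

theorem wt_nonneg (z : ℍ) : 0 ≤ wt N z :=
  Fermat.Agent.S21.chi_nonneg N isPartition_chiBase _

theorem wt_le_one (z : ℍ) : wt N z ≤ 1 :=
  Fermat.Agent.S21.chi_le_one N isPartition_chiBase _

theorem continuous_wt : Continuous (wt N) := by
  have h := Fermat.Agent.S21.continuousOn_chi N isPartition_chiBase
  exact h.comp_continuous continuous_coe fun z => z.im_pos

theorem finite_support_wt (z : ℍ) :
    (Function.support fun γ : Gamma0 N => wt N ((γ : SL(2, ℤ)) • z)).Finite := by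
  have h := Fermat.Agent.S21.chi_locfin N isPartition_chiBase {(z : ℂ)} isCompact_singleton
    (by
      intro w hw
      rw [Set.mem_singleton_iff] at hw
      subst hw
      exact z.im_pos)
  refine h.subset fun γ hγ => ⟨(z : ℂ), rfl, ?_⟩
  rw [← wt_smul_eq]
  exact hγ

theorem hasSum_wt (z : ℍ) : HasSum (fun γ : Gamma0 N => wt N ((γ : SL(2, ℤ)) • z)) 1 := by
  classical
  have hfin := finite_support_wt N z
  have h1 := Fermat.Agent.S21.chi_sum_eq_one N isPartition_chiBase (z : ℂ) z.im_pos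
  have h2 : ∑ᶠ γ : Gamma0 N, wt N ((γ : SL(2, ℤ)) • z) = 1 := by
    rw [← h1]
    exact finsum_congr fun γ => wt_smul_eq N _ z
  rw [← h2, finsum_eq_sum _ hfin]
  exact hasSum_sum_of_ne_finset_zero fun γ hγ => by
    simpa using hγ

end

/-- the density on `ℂ` -/
noncomputable def dens (z : ℂ) : ℝ≥0∞ := ↑((1 / ‖z.im‖₊) ^ 2 : NNReal)

/-- the Siegel-type box in `ℂ` -/
def boxC : Set ℂ := {z : ℂ | |z.re| ≤ 1 ∧ 1 / 2 < z.im}

theorem lintegral_Ioi_half_lt_top :
    ∫⁻ y in Set.Ioi (1 / 2 : ℝ), (↑((1 / ‖y‖₊) ^ 2 : NNReal) : ℝ≥0∞) < ∞ := by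
  have h := integrableOn_Ioi_rpow_of_lt (a := -2) (c := 1 / 2) (by norm_num) (by norm_num)
  have h2 := h.hasFiniteIntegral
  rw [HasFiniteIntegral] at h2
  refine lt_of_le_of_lt (le_of_eq ?_) h2
  refine setLIntegral_congr_fun measurableSet_Ioi fun y hy => ?_
  have hy0 : (0 : ℝ) < y := lt_trans (by norm_num) hy
  rw [enorm_eq_nnnorm]
  congr 1
  ext
  simp only [NNReal.coe_pow, one_div, NNReal.coe_inv, coe_nnnorm, Real.norm_eq_abs]
  rw [abs_of_pos hy0, abs_of_pos (Real.rpow_pos_of_pos hy0 _),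
    Real.rpow_neg hy0.le, inv_pow]
  norm_num

theorem lintegral_boxC_lt_top : ∫⁻ z in boxC, dens z < ∞ := by
  have hmp := Complex.volume_preserving_equiv_real_prod
  have hbox : boxC = Complex.measurableEquivRealProd ⁻¹' (Set.Icc (-1 : ℝ) 1 ×ˢ Set.Ioi (1 / 2 : ℝ)) := by
    ext z
    simp [boxC, abs_le, Complex.measurableEquivRealProd]
  have hdens : ∀ z : ℂ, dens z =
      (fun p : ℝ × ℝ => (↑((1 / ‖p.2‖₊) ^ 2 : NNReal) : ℝ≥0∞)) (Complex.measurableEquivRealProd z) := by
    intro z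
    simp [dens, Complex.measurableEquivRealProd]
  have key := hmp.setLIntegral_comp_preimage_emb Complex.measurableEquivRealProd.measurableEmbedding
    (fun p : ℝ × ℝ => (↑((1 / ‖p.2‖₊) ^ 2 : NNReal) : ℝ≥0∞)) (Set.Icc (-1 : ℝ) 1 ×ˢ Set.Ioi (1 / 2 : ℝ))
  have e1 : ∫⁻ z in boxC, dens z = ∫⁻ (b : ℝ × ℝ) in Set.Icc (-1 : ℝ) 1 ×ˢ Set.Ioi (1 / 2 : ℝ),
      (↑((1 / ‖b.2‖₊) ^ 2 : NNReal) : ℝ≥0∞) := by
    rw [← key, hbox]
    exact lintegral_congr fun z => hdens z
  rw [e1, Measure.volume_eq_prod, setLIntegral_prod]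
  · simp only
    rw [lintegral_const]
    exact ENNReal.mul_lt_top lintegral_Ioi_half_lt_top (by simp)
  · apply Measurable.aemeasurable
    fun_prop


/-- the Siegel-type box in `ℍ` -/
def boxH : Set ℍ := {z : ℍ | |z.re| ≤ 1 ∧ 1 / 2 < z.im}

theorem volume_boxH_lt_top : volume boxH < ∞ := by
  rw [UpperHalfPlane.volume_eq_lintegral]
  refine lt_of_le_of_lt (lintegral_mono_set ?_) lintegral_boxC_lt_top
  rintro _ ⟨z, hz, rfl⟩
  exact hz

theorem measurableSet_boxH : MeasurableSet boxH := by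
  have h1 : Continuous fun z : ℍ => |z.re| := continuous_abs.comp UpperHalfPlane.continuous_re
  have h2 : Continuous fun z : ℍ => z.im := UpperHalfPlane.continuous_im
  exact (isClosed_le h1 continuous_const).measurableSet.inter
    (isOpen_lt continuous_const h2).measurableSet

theorem continuous_chiBase_coe : Continuous fun z : ℍ => chiBase (z : ℂ) :=
  isPartition_chiBase.smooth.continuousOn.comp_continuous continuous_coe fun z => z.im_pos

theorem chiBase_le_one (z : ℍ) : chiBase (z : ℂ) ≤ 1 := by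
  classical
  have hfin := Fermat.Agent.S21.IntAAux.finite_support chiBase isPartition_chiBase (z : ℂ) z.im_pos
  have h1 := isPartition_chiBase.sum_eq_one (z : ℂ) z.im_pos
  rw [finsum_eq_sum _ hfin] at h1
  by_cases h0 : chiBase (z : ℂ) = 0
  · rw [h0]; exact zero_le_one
  · have hmem : (1 : SL(2, ℤ)) ∈ hfin.toFinset := by
      rw [Set.Finite.mem_toFinset, Function.mem_support]
      simpa [Fermat.Agent.S21.mob] using h0
    have h2 := Finset.single_le_sum (f := fun g : SL(2, ℤ) => chiBase (Fermat.Agent.S21.mob g (z : ℂ)))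
      (fun g _ => isPartition_chiBase.nonneg _) hmem
    rw [h1] at h2
    simpa [Fermat.Agent.S21.mob] using h2

theorem integrable_chiBase : Integrable (fun z : ℍ => chiBase (z : ℂ)) volume := by
  have hb : Integrable (boxH.indicator fun _ : ℍ => (1 : ℝ)) volume :=
    (integrable_indicator_iff measurableSet_boxH).mpr
      (integrableOn_const (by exact volume_boxH_lt_top.ne))
  refine hb.mono' continuous_chiBase_coe.aestronglyMeasurable (Filter.Eventually.of_forall fun z => ?_)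
  rw [Real.norm_of_nonneg (isPartition_chiBase.nonneg _)]
  by_cases hz : z ∈ boxH
  · rw [Set.indicator_of_mem hz]
    exact chiBase_le_one z
  · rw [Set.indicator_of_notMem hz]
    by_contra hne
    push Not at hne
    exact hz (isPartition_chiBase.supp _ (ne_of_gt hne))

theorem integrable_chiBase_smul (g : SL(2, ℤ)) :
    Integrable (fun z : ℍ => chiBase ((g • z : ℍ) : ℂ)) volume := by
  have hmp : MeasurePreserving (fun z : ℍ => (g : GL (Fin 2) ℝ) • z) volume volume :=
    measurePreserving_smul (g : GL (Fin 2) ℝ) volume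
  have h := hmp.integrable_comp_of_integrable integrable_chiBase
  refine h.congr (Filter.Eventually.of_forall fun z => ?_)
  simp only [Function.comp_apply]
  rw [ModularGroup.sl_moeb]

variable (N : ℕ) [NeZero N]

omit [NeZero N] in
theorem wt_eq_sum (z : ℍ) [Fintype (SL(2, ℤ) ⧸ Gamma0 N)] :
    wt N z = ∑ q : SL(2, ℤ) ⧸ Gamma0 N, chiBase ((((Quotient.out q : SL(2, ℤ)) • z : ℍ)) : ℂ) := by
  rw [wt, Fermat.Agent.S21.IntAAux.chi_of_mem N chiBase z.im_pos, finsum_eq_sum_of_fintype]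
  exact Finset.sum_congr rfl fun q _ => by rw [mob_coe_eq]

theorem integrable_wt : Integrable (wt N) volume := by
  have : Finite (SL(2, ℤ) ⧸ Gamma0 N) := Subgroup.finite_quotient_of_finiteIndex
  let _ : Fintype (SL(2, ℤ) ⧸ Gamma0 N) := Fintype.ofFinite _
  have h : Integrable (fun z : ℍ => ∑ q : SL(2, ℤ) ⧸ Gamma0 N,
      chiBase ((((Quotient.out q : SL(2, ℤ)) • z : ℍ)) : ℂ)) volume :=
    integrable_finsetSum _ fun q _ => integrable_chiBase_smul _
  exact h.congr (Filter.Eventually.of_forall fun z => (wt_eq_sum N z).symm)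

end Fermat.Agent.S31.H862

end
-- ===== PACK-END S31/H862/Weight.lean

-- ===== PACK-BEGIN S36/H630/LabEq.lean
section


/-!
# S36 engine, LABEL core (helper630), part 5: the label equation at a point over a node

Setting of `LabNorm.lean`.  `N₁` is a node of level `qM'` (both sheets `V₁'`, `V₂'` of `F'` pass
through it), `n` the unique closed point of level `q²M'` over it (via `α`; the same theorem is
used via `β` with the roles of `FF` and `VV` exchanged).  Sheets of `F` through `n`: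
`V_FF`, `V_mid` over `V₁'` (`e = 1`, `e = q - 1`, `f = 1`), `V_VV` over `V₂'` (purely
inseparable of degree `q`).

`u ∈ F` with purity datum `d` at `n`, in the form `u d ^ m t = b'`, `t ∈ A ∖ N₁`, `b' ∈ B`
(local denominators: `S36/H153.exists_denominator_of_unique`), and `N u = k ^ m` (the class is
`q`-new), `k ≡ ξ₁` on `V₁'`, `k ≡ ξ₂` on `V₂'` (constants, since `N u ≡ 1` on both sheets).

**Theorem** (`label_eq_of_norm`).  If `d` has the values `η_FF`, `η_mid`, `η_VV` at `n` along the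
three sheets, then  `ξ₁ η_FF η_mid ^ e ≡ ξ₂ η_VV ^ q`  modulo `N₁`.
-/

set_option autoImplicit false
set_option linter.unusedSectionVars false

namespace Fermat.Agent.S36.H630

variable {R : Type*} [CommRing R] {F' : Type*} [Field F'] [Algebra R F']
variable {F : Type*} [Field F] [Algebra R F] [Algebra F' F] [IsScalarTower R F' F]

/-- **The label equation.** -/
theorem label_eq_of_norm {A : Subalgebra R F'} {B : Subalgebra R F}
    {N₁ : Ideal A} {n : Ideal B} [n.IsPrime] [N₁.IsPrime]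
    (hAB : ∀ a : A, algebraMap F' F (a : F') ∈ B)
    (hNn : ∀ a : A, a ∈ N₁ ↔ (⟨algebraMap F' F (a : F'), hAB a⟩ : B) ∈ n)
    (hnormA : ∀ b : B, Algebra.norm F' (b : F) ∈ A)
    {m : ℕ} (hrootA : ∀ z : F', z ^ m ∈ A → z ∈ A)
    {V₁' V₂' : ValuationSubring F'}
    (hAV₁' : ChartLe A V₁') (hth₁' : PassThrough A N₁ V₁')
    (hAV₂' : ChartLe A V₂') (hth₂' : PassThrough A N₁ V₂')
    {VFF Vmid VVV : ValuationSubring F}
    (hBFF : ChartLe B VFF) (hthFF : PassThrough B n VFF)
    (hBmid : ChartLe B Vmid) (hthmid : PassThrough B n Vmid)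
    (hBVV : ChartLe B VVV) (hthVV : PassThrough B n VVV)
    (hliftFF : ResLift A B VFF) (hliftmid : ResLift A B Vmid)
    {e q : ℕ} (hliftVV : ResLiftPow A B VVV q)
    (hNR₁ : NormResSplit V₁' VFF Vmid e) (hNR₂ : NormResInsep V₂' VVV q)
    {u d : F} {t : A} (ht : t ∉ N₁) {b' : B}
    (hpure : u * d ^ m * algebraMap F' F (t : F') = b')
    {k : F'} (hk : Algebra.norm F' u = k ^ m) {ξ₁ ξ₂ : R}
    (hξ₁ : k - algebraMap R F' ξ₁ ∈ V₁'.nonunits) (hξ₂ : k - algebraMap R F' ξ₂ ∈ V₂'.nonunits)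
    {ηFF ηmid ηVV : R}
    (hFF : ValAt B n VFF d ηFF) (hmid : ValAt B n Vmid d ηmid) (hVV : ValAt B n VVV d ηVV) :
    algebraMap R A (ξ₁ * (ηFF * ηmid ^ e) - ξ₂ * ηVV ^ q) ∈ N₁ := by
  have hN₁top : N₁ ≠ ⊤ := Ideal.IsPrime.ne_top ‹N₁.IsPrime›
  set D : ℕ := Module.finrank F' F with hD
  set δ : F' := k * Algebra.norm F' d with hδ
  -- `δ ^ m t ^ D = N b'`
  have h1 : δ ^ m * (t : F') ^ D = Algebra.norm F' (b' : F) := by
    rw [← hpure, map_mul, map_mul, map_pow, hk, Algebra.norm_algebraMap, hδ, mul_pow]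
  -- `δ t ^ D ∈ A`
  have h2 : (δ * (t : F') ^ D) ^ m ∈ A := by
    rcases Nat.eq_zero_or_pos m with hm0 | hm0
    · rw [hm0, pow_zero]
      exact A.one_mem
    · obtain ⟨j, hj⟩ : ∃ j, m = j + 1 := ⟨m - 1, (Nat.sub_add_cancel hm0).symm⟩
      have h3 : (δ * (t : F') ^ D) ^ m
          = Algebra.norm F' (b' : F) * ((t : F') ^ D) ^ j := by
        rw [← h1, mul_pow]
        have h33 : ((t : F') ^ D) ^ m = ((t : F') ^ D) ^ j * (t : F') ^ D := by
          rw [hj, pow_succ]
        rw [h33]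
        ring
      rw [h3]
      exact A.mul_mem (hnormA b') (A.pow_mem (A.pow_mem t.2 D) j)
  have h4 : δ * (t : F') ^ D ∈ A := hrootA _ h2
  set c' : A := ⟨_, h4⟩ with hc'
  have htD : t ^ D ∉ N₁ := fun h => ht (Ideal.IsPrime.mem_of_pow_mem ‹N₁.IsPrime› D h)
  have hsc : ((t ^ D : A) : F') * δ = c' := by
    show ((t ^ D : A) : F') * δ = δ * (t : F') ^ D
    push_cast
    ring
  -- the two values of `δ`
  have hv₁ : ValAt A N₁ V₁' δ (ξ₁ * (ηFF * ηmid ^ e)) :=
    (ValAt.const hN₁top hξ₁).mul hAV₁' hth₁'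
      (valAt_norm_split hAB hNn hAV₁' hth₁' hBFF hthFF hBmid hthmid hliftFF hliftmid hNR₁
        hFF hmid)
  have hv₂ : ValAt A N₁ V₂' δ (ξ₂ * ηVV ^ q) :=
    (ValAt.const hN₁top hξ₂).mul hAV₂' hth₂'
      (valAt_norm_insep hAB hNn hAV₂' hBVV hthVV hliftVV hNR₂ hVV)
  have e₁ := hv₁.frac_mem hAV₁' hth₁' hsc
  have e₂ := hv₂.frac_mem hAV₂' hth₂' hsc
  have h5 : algebraMap R A (ξ₁ * (ηFF * ηmid ^ e) - ξ₂ * ηVV ^ q) * t ^ D ∈ N₁ := by
    have : algebraMap R A (ξ₁ * (ηFF * ηmid ^ e) - ξ₂ * ηVV ^ q) * t ^ D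
        = (c' - algebraMap R A (ξ₂ * ηVV ^ q) * t ^ D)
          - (c' - algebraMap R A (ξ₁ * (ηFF * ηmid ^ e)) * t ^ D) := by
      rw [map_sub]
      ring
    rw [this]
    exact N₁.sub_mem e₂ e₁
  rcases (Ideal.IsPrime.mem_or_mem ‹N₁.IsPrime› h5) with h6 | h6
  · exact h6
  · exact absurd h6 htD

end Fermat.Agent.S36.H630

end
-- ===== PACK-END S36/H630/LabEq.lean

-- ===== PACK-BEGIN S41/H105/TransferRestrict.lean
section




/-!
# Row S41, block HK, leaf TR: `t₁ r₁ = q + 1 = t₂ r₂` (helper105)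

`transferRestrict : Spec.TransferRestrictStatement`.
-/

set_option autoImplicit false

namespace Fermat.Agent.S41.H105

open CongruenceSubgroup Matrix.SpecialLinearGroup
open Fermat.Agent.S41.Spec
open scoped MatrixGroups

theorem incl_injective (N q : ℕ) : Function.Injective (incl N q) :=
  Subgroup.inclusion_injective _

theorem range_incl (N q : ℕ) :
    (incl N q).range = (Gamma0 (N * q)).subgroupOf (Gamma0 N) := by
  ext h
  rw [MonoidHom.mem_range, Subgroup.mem_subgroupOf]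
  constructor
  · rintro ⟨γ, rfl⟩
    exact γ.2
  · intro hh
    exact ⟨⟨h, hh⟩, rfl⟩

theorem index_range_incl {N q : ℕ} (hN : N ≠ 0) (hq : q.Prime) (hqN : ¬ q ∣ N) :
    (incl N q).range.index = q + 1 := by
  rw [range_incl, Nat.mul_comm N q]
  exact Fermat.Agent.S20.Comb.relIndex_Gamma0_of_not_dvd q N hN hq hqN

theorem mem_range_incl_iff {N q : ℕ} (hq : q.Prime) (hqN : ¬ q ∣ N) (h : Gamma0 N) :
    h ∈ (incl N q).range ↔ (q : ℤ) ∣ (h : SL(2, ℤ)) 1 0 := by
  rw [range_incl, Subgroup.mem_subgroupOf, Fermat.Agent.S20.Comb.mem_Gamma0_iff_dvd]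
  have hN : (N : ℤ) ∣ (h : SL(2, ℤ)) 1 0 :=
    (Fermat.Agent.S20.Comb.mem_Gamma0_iff_dvd N _).mp h.2
  have hcop : IsCoprime (N : ℤ) (q : ℤ) := by
    rw [Int.isCoprime_iff_gcd_eq_one, Int.gcd_natCast_natCast]
    exact ((Nat.Prime.coprime_iff_not_dvd hq).mpr hqN).symm
  push_cast
  constructor
  · intro hh
    exact dvd_trans (dvd_mul_left _ _) hh
  · intro hh
    exact hcop.mul_dvd hN hh

theorem conjDelta_coe_apply (N q : ℕ) (γ : Gamma0 (N * q)) :
    (((conjDelta N q γ : Gamma0 N) : SL(2, ℤ)) : Matrix (Fin 2) (Fin 2) ℤ)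
      = conjDeltaMatrix q (γ : SL(2, ℤ)) := rfl

theorem conjDelta_injective (N : ℕ) {q : ℕ} (hq : q ≠ 0) :
    Function.Injective (conjDelta N q) := by
  intro γ γ' h
  have hq' : (q : ℤ) ≠ 0 := by exact_mod_cast hq
  have hm : conjDeltaMatrix q (γ : SL(2, ℤ)) = conjDeltaMatrix q (γ' : SL(2, ℤ)) := by
    rw [← conjDelta_coe_apply, ← conjDelta_coe_apply, h]
  obtain ⟨k, hk⟩ := (dvd_of_mem_gamma0_mul γ).1
  obtain ⟨k', hk'⟩ := (dvd_of_mem_gamma0_mul γ').1
  have h00 := congrFun (congrFun hm 0) 0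
  have h01 := congrFun (congrFun hm 0) 1
  have h10 := congrFun (congrFun hm 1) 0
  have h11 := congrFun (congrFun hm 1) 1
  simp only [conjDeltaMatrix, Matrix.of_apply, Matrix.cons_val_zero, Matrix.cons_val_one,
    Matrix.cons_val', Matrix.cons_val_fin_one] at h00 h01 h10 h11
  rw [hk, hk', Int.mul_ediv_cancel_left _ hq', Int.mul_ediv_cancel_left _ hq'] at h10
  have h01' := mul_left_cancel₀ hq' h01
  apply Subtype.ext
  apply Subtype.ext
  ext i j
  fin_cases i <;> fin_cases j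
  · exact h00
  · exact h01'
  · show (γ : SL(2, ℤ)) 1 0 = (γ' : SL(2, ℤ)) 1 0
    rw [hk, hk', h10]
  · exact h11

theorem mem_range_conjDelta_iff (N : ℕ) {q : ℕ} (hq : q ≠ 0) (h : Gamma0 N) :
    h ∈ (conjDelta N q).range ↔ (q : ℤ) ∣ (h : SL(2, ℤ)) 0 1 := by
  have hq' : (q : ℤ) ≠ 0 := by exact_mod_cast hq
  rw [MonoidHom.mem_range]
  constructor
  · rintro ⟨γ, rfl⟩
    show (q : ℤ) ∣ conjDeltaMatrix q (γ : SL(2, ℤ)) 0 1
    simp [conjDeltaMatrix]
  · rintro ⟨b, hb⟩
    obtain ⟨c, hc⟩ := (Fermat.Agent.S20.Comb.mem_Gamma0_iff_dvd N _).mp h.2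
    have hdet := (h : SL(2, ℤ)).det_coe
    rw [Matrix.det_fin_two] at hdet
    let M : Matrix (Fin 2) (Fin 2) ℤ :=
      !![(h : SL(2, ℤ)) 0 0, b; q * (h : SL(2, ℤ)) 1 0, (h : SL(2, ℤ)) 1 1]
    have hMdet : M.det = 1 := by
      rw [Matrix.det_fin_two_of]
      rw [hb] at hdet
      linear_combination hdet
    let g : SL(2, ℤ) := ⟨M, hMdet⟩
    have hg : g ∈ Gamma0 (N * q) := by
      rw [Fermat.Agent.S20.Comb.mem_Gamma0_iff_dvd]
      show ((N * q : ℕ) : ℤ) ∣ q * (h : SL(2, ℤ)) 1 0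
      rw [hc]
      push_cast
      exact ⟨c, by ring⟩
    refine ⟨⟨g, hg⟩, ?_⟩
    apply Subtype.ext
    apply Subtype.ext
    rw [conjDelta_coe_apply]
    ext i j
    fin_cases i <;> fin_cases j
    · rfl
    · show (q : ℤ) * b = (h : SL(2, ℤ)) 0 1
      rw [hb]
    · show (q : ℤ) * (h : SL(2, ℤ)) 1 0 / q = (h : SL(2, ℤ)) 1 0
      exact Int.mul_ediv_cancel_left _ hq'
    · rfl

/-- `range conjDelta` is the conjugate of `range incl` by an element `g₀ ∈ Γ₀(N)` with first
column `(q, N)`. -/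
theorem range_conjDelta_eq_map {N q : ℕ} (hq : q.Prime) (hqN : ¬ q ∣ N) :
    ∃ g₀ : Gamma0 N, (conjDelta N q).range
      = (incl N q).range.map (MulAut.conj g₀).toMonoidHom := by
  obtain ⟨g₀, hg00, hg10⟩ := Fermat.Agent.S20.Comb.exists_special q N hq hqN
  refine ⟨g₀, ?_⟩
  ext h
  rw [mem_range_conjDelta_iff N hq.ne_zero, Subgroup.mem_map_equiv, mem_range_incl_iff hq hqN]
  have hcop : IsCoprime (q : ℤ) (N : ℤ) := by
    rw [Int.isCoprime_iff_gcd_eq_one, Int.gcd_natCast_natCast]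
    exact (Nat.Prime.coprime_iff_not_dvd hq).mpr hqN
  have hentry : (((MulAut.conj g₀).symm h : Gamma0 N) : SL(2, ℤ)) 1 0
      = (q : ℤ) * ((h : SL(2, ℤ)) 1 0 * q + (h : SL(2, ℤ)) 1 1 * N - N * (h : SL(2, ℤ)) 0 0)
        - (N : ℤ) * N * (h : SL(2, ℤ)) 0 1 := by
    have e : (((MulAut.conj g₀).symm h : Gamma0 N) : SL(2, ℤ))
        = (g₀ : SL(2, ℤ))⁻¹ * ((h : SL(2, ℤ)) * (g₀ : SL(2, ℤ))) := by
      simp [MulAut.conj_symm_apply, mul_assoc]
    rw [e, Fermat.Agent.S20.Comb.inv_mul_apply_one_zero]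
    have e00 : ((h : SL(2, ℤ)) * (g₀ : SL(2, ℤ))) 0 0
        = (h : SL(2, ℤ)) 0 0 * q + (h : SL(2, ℤ)) 0 1 * N := by
      simp [Matrix.mul_apply, Fin.sum_univ_two, hg00, hg10]
    have e10 : ((h : SL(2, ℤ)) * (g₀ : SL(2, ℤ))) 1 0
        = (h : SL(2, ℤ)) 1 0 * q + (h : SL(2, ℤ)) 1 1 * N := by
      simp [Matrix.mul_apply, Fin.sum_univ_two, hg00, hg10]
    rw [e00, e10, hg00, hg10]
    ring
  rw [hentry]
  constructor
  · intro hb
    exact dvd_sub (dvd_mul_right _ _) (dvd_mul_of_dvd_right hb _)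
  · intro hh
    have h1 : (q : ℤ) ∣ (N : ℤ) * N * (h : SL(2, ℤ)) 0 1 := by
      have := dvd_sub (dvd_mul_right (q : ℤ)
        ((h : SL(2, ℤ)) 1 0 * q + (h : SL(2, ℤ)) 1 1 * N - N * (h : SL(2, ℤ)) 0 0)) hh
      simpa using this
    exact (hcop.mul_right hcop).dvd_of_dvd_mul_left h1

theorem index_range_conjDelta {N q : ℕ} (hN : N ≠ 0) (hq : q.Prime) (hqN : ¬ q ∣ N) :
    (conjDelta N q).range.index = q + 1 := by
  obtain ⟨g₀, hg₀⟩ := range_conjDelta_eq_map hq hqN
  rw [hg₀]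
  exact (Subgroup.index_map_equiv _ (MulAut.conj g₀)).trans (index_range_incl hN hq hqN)

universe u

/-- **Leaf TR of block HK**: `t₁ r₁ = q + 1 = t₂ r₂`. -/
theorem transferRestrict : TransferRestrictStatement.{u} := by
  intro N q hN hq hqN A _ φ
  have hi₁ : (incl N q).range.index = q + 1 := index_range_incl hN hq hqN
  have hi₂ : (conjDelta N q).range.index = q + 1 := index_range_conjDelta hN hq hqN
  have hf₁ : (incl N q).range.FiniteIndex := ⟨by rw [hi₁]; exact Nat.succ_ne_zero q⟩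
  have hf₂ : (conjDelta N q).range.FiniteIndex := ⟨by rw [hi₂]; exact Nat.succ_ne_zero q⟩
  constructor
  · show transferAlong (incl N q) (φ.comp (MonoidHom.toAdditive (incl N q))) = (q + 1) • φ
    rw [transferAlong_comp (incl N q) (incl_injective N q) hf₁ φ, hi₁]
  · show transferAlong (conjDelta N q) (φ.comp (MonoidHom.toAdditive (conjDelta N q)))
      = (q + 1) • φ
    rw [transferAlong_comp (conjDelta N q) (conjDelta_injective N hq.ne_zero) hf₂ φ, hi₂]

end Fermat.Agent.S41.H105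

end
-- ===== PACK-END S41/H105/TransferRestrict.lean

-- ===== PACK-BEGIN S41/H585/PDDictB.lean
section





/-!
# S41 / PD, leaf DICT-b (helper585): Manin symbols ↔ classes, part b

* `maninRepRealize   : Spec.ManinRepRealizeStatement`   (D3)
* `maninRepTorsion   : Spec.TorsionClassStatement → Spec.ManinRepTorsionStatement`   (D3')
* `maninRepParabolic : Spec.ManinRepParabolicStatement` (D4)

plus reusable facts on Manin cocycles (`IsManinCocycle.*`).
-/

set_option autoImplicit false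

namespace Fermat.Agent.S41.H585

open CongruenceSubgroup Matrix.SpecialLinearGroup ModularCurve.Period ModularGroup
open Fermat.Agent.S21.H585 Fermat.Agent.S41.Spec
open scoped MatrixGroups

universe u

section Basic

variable {Γ : Subgroup SL(2, ℤ)} {A : Type*} [AddCommGroup A]
  {f : SL(2, ℤ) → SL(2, ℤ) ⧸ Γ → A} {m : SL(2, ℤ) ⧸ Γ → A}

lemma mc_isCocycle (hf : IsManinCocycle Γ f m) : IsCocycle f := hf.1

lemma mc_map_S (hf : IsManinCocycle Γ f m) (x : SL(2, ℤ) ⧸ Γ) : f S x = 0 := hf.2.1 x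

lemma mc_map_ST (hf : IsManinCocycle Γ f m) (x : SL(2, ℤ) ⧸ Γ) :
    f (S * T) x = m ((S * T) • x) - m x := hf.2.2 x

lemma mc_map_S_inv (hf : IsManinCocycle Γ f m) (x : SL(2, ℤ) ⧸ Γ) : f S⁻¹ x = 0 := by
  rw [(mc_isCocycle hf).map_inv', (mc_map_S hf), neg_zero]

lemma mc_map_T (hf : IsManinCocycle Γ f m) (x : SL(2, ℤ) ⧸ Γ) :
    f T x = m ((S * T) • x) - m x := by
  have h : (T : SL(2, ℤ)) = S⁻¹ * (S * T) := by rw [inv_mul_cancel_left]
  have h2 := (mc_isCocycle hf) S⁻¹ (S * T) x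
  rw [← h, (mc_map_S_inv hf), add_zero, (mc_map_ST hf)] at h2
  exact h2

lemma mc_map_neg_one (hf : IsManinCocycle Γ f m) (x : SL(2, ℤ) ⧸ Γ) :
    f (-1) x = 0 := by
  rw [← S_mul_S_eq_neg_one, (mc_isCocycle hf), (mc_map_S hf), (mc_map_S hf), add_zero]

lemma mc_map_neg (hf : IsManinCocycle Γ f m) (g : SL(2, ℤ)) (x : SL(2, ℤ) ⧸ Γ) :
    f (-g) x = f g x := by
  have h : (-g : SL(2, ℤ)) = (-1) * g := by simp
  rw [h, (mc_isCocycle hf), (mc_map_neg_one hf), add_zero]

lemma mc_map_ST_zpow (hf : IsManinCocycle Γ f m) (k : ℤ) (x : SL(2, ℤ) ⧸ Γ) :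
    f ((S * T) ^ k) x = m ((S * T) ^ k • x) - m x :=
  (mc_isCocycle hf).zpow_of_cobd (S * T) m (mc_map_ST hf) k x

lemma mc_map_S_zpow (hf : IsManinCocycle Γ f m) (k : ℤ) (x : SL(2, ℤ) ⧸ Γ) :
    f (S ^ k) x = 0 := by
  have := (mc_isCocycle hf).zpow_of_cobd S (0 : SL(2, ℤ) ⧸ Γ → A) (fun y => by simp [(mc_map_S hf)]) k x
  simpa using this

/-- The value of the attached class on a conjugate `g t g⁻¹ ∈ Γ`. -/
lemma mc_conj_basePt (hf : IsManinCocycle Γ f m) (g t : SL(2, ℤ))
    (hmem : g * t * g⁻¹ ∈ Γ) :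
    f (g * t * g⁻¹) (basePt Γ) = f t (g⁻¹ • basePt Γ) :=
  (mc_isCocycle hf).conj_apply g t (smul_basePt_of_mem Γ hmem)

/-- The value of the attached class on a conjugate `g⁻¹ t g ∈ Γ`. -/
lemma mc_conj_basePt' (hf : IsManinCocycle Γ f m) (g t : SL(2, ℤ))
    (hmem : g⁻¹ * t * g ∈ Γ) :
    f (g⁻¹ * t * g) (basePt Γ) = f t (g • basePt Γ) := by
  have h := mc_conj_basePt hf g⁻¹ t (by rwa [inv_inv])
  rwa [inv_inv] at h

lemma smul_inv_basePt_fixed {g t : SL(2, ℤ)} (hmem : g * t * g⁻¹ ∈ Γ) :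
    t • g⁻¹ • basePt Γ = g⁻¹ • basePt Γ := by
  calc t • g⁻¹ • basePt Γ = g⁻¹ • (g * t * g⁻¹) • basePt Γ := by
        simp only [mul_smul, inv_smul_smul]
    _ = g⁻¹ • basePt Γ := by rw [smul_basePt_of_mem Γ hmem]

end Basic

/-! ## D3 -/

/-- (D3) every Manin symbol represents a class. -/
theorem maninRepRealize : ManinRepRealizeStatement.{u} := by
  intro Γ _ hneg A _ m
  have hn : ∀ x : SL(2, ℤ) ⧸ Γ, (-1 : SL(2, ℤ)) • x = x := neg_one_smul_quot hneg
  obtain ⟨f, hf, hS, hU⟩ := exists_cocycle (X := SL(2, ℤ) ⧸ Γ) hn (0 : SL(2, ℤ) ⧸ Γ → A)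
    (fun x => m ((S * T) • x) - m x) (fun x => by simp) (fun x => by
      have h1 : (S * T) • (S * T) • (S * T) • x = x := by
        rw [smul_smul, smul_smul, ST_cube_eq_neg_one, hn]
      show m ((S * T) • x) - m x + (m ((S * T) • (S * T) • x) - m ((S * T) • x)) +
        (m ((S * T) • (S * T) • (S * T) • x) - m ((S * T) • (S * T) • x)) = 0
      rw [h1]
      abel)
  refine ⟨homOfCocycle Γ f hf, f, ⟨hf, fun x => by rw [hS]; rfl, fun x => by rw [hU]⟩, fun γ => ?_⟩
  rfl

/-! ## D3' -/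

/-- (D3') represented classes are torsion-trivial. -/
theorem maninRepTorsion (tors : TorsionClassStatement) : ManinRepTorsionStatement.{u} := by
  intro Γ _ hneg A _ φ m ⟨f, hf, hφ⟩ γ hγ
  have hn : ∀ x : SL(2, ℤ) ⧸ Γ, (-1 : SL(2, ℤ)) • x = x := neg_one_smul_quot hneg
  have hγ' : IsOfFinOrder (γ : SL(2, ℤ)) := by
    obtain ⟨n, hn0, hn1⟩ := isOfFinOrder_iff_pow_eq_one.mp hγ
    exact isOfFinOrder_iff_pow_eq_one.mpr ⟨n, hn0, by rw [← Subgroup.coe_pow, hn1]; rfl⟩
  obtain ⟨h, hh⟩ := tors (γ : SL(2, ℤ)) hγ'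
  rw [hφ γ]
  -- `γ = h⁻¹ t h`
  have key : ∀ t : SL(2, ℤ), h * (γ : SL(2, ℤ)) * h⁻¹ = t →
      (∀ y : SL(2, ℤ) ⧸ Γ, t • y = y → f t y = 0) →
      f (γ : SL(2, ℤ)) ((1 : SL(2, ℤ)) : SL(2, ℤ) ⧸ Γ) = 0 := by
    intro t ht hty
    have e : (γ : SL(2, ℤ)) = h⁻¹ * t * h⁻¹⁻¹ := by
      rw [← ht, inv_inv]; group
    have hmem : h⁻¹ * t * h⁻¹⁻¹ ∈ Γ := by rw [← e]; exact γ.2
    have h1 := (mc_conj_basePt hf) h⁻¹ t hmem
    have h2 := smul_inv_basePt_fixed hmem
    show f (γ : SL(2, ℤ)) (basePt Γ) = 0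
    rw [e, h1]
    exact hty _ h2
  have hU1 : ∀ y : SL(2, ℤ) ⧸ Γ, (S * T) • y = y → f (S * T) y = 0 := by
    intro y hy
    rw [(mc_map_ST hf), hy, sub_self]
  have hU2 : ∀ y : SL(2, ℤ) ⧸ Γ, ((S * T) ^ 2) • y = y → f ((S * T) ^ 2) y = 0 := by
    intro y hy
    have := (mc_map_ST_zpow hf) 2 y
    rw [zpow_ofNat] at this
    rw [this, hy, sub_self]
  have hnegfix : ∀ (t : SL(2, ℤ)) (y : SL(2, ℤ) ⧸ Γ), (-t) • y = y → t • y = y := by
    intro t y hy
    have h : (-t : SL(2, ℤ)) = (-1) * t := by simp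
    rw [h, mul_smul, hn] at hy
    exact hy
  rcases hh with hh | hh | hh | hh | hh | hh | hh | hh
  · exact key 1 hh (fun y _ => (mc_isCocycle hf).map_one y)
  · exact key (-1) hh (fun y _ => (mc_map_neg_one hf) y)
  · exact key S hh (fun y _ => (mc_map_S hf) y)
  · exact key (-S) hh (fun y _ => by rw [(mc_map_neg hf), (mc_map_S hf)])
  · exact key (S * T) hh hU1
  · exact key (-(S * T)) hh (fun y hy => by rw [(mc_map_neg hf)]; exact hU1 y (hnegfix _ y hy))
  · exact key ((S * T) ^ 2) hh hU2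
  · exact key (-(S * T) ^ 2) hh (fun y hy => by rw [(mc_map_neg hf)]; exact hU2 y (hnegfix _ y hy))

/-! ## D4 -/

section D4

variable {Γ : Subgroup SL(2, ℤ)} {A : Type*} [AddCommGroup A]
  {f : SL(2, ℤ) → SL(2, ℤ) ⧸ Γ → A} {m : SL(2, ℤ) ⧸ Γ → A}

lemma toPerm_pow_apply (g : SL(2, ℤ)) (n : ℕ) (x : SL(2, ℤ) ⧸ Γ) :
    ((MulAction.toPerm g : Equiv.Perm (SL(2, ℤ) ⧸ Γ)) ^ n) x = g ^ n • x := by
  induction n generalizing x with
  | zero => simp
  | succ n ih => rw [pow_succ, Equiv.Perm.mul_apply, ih, MulAction.toPerm_apply, pow_succ, mul_smul]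

/-- Sums of a cocycle along a path. -/
lemma cocycle_pow_apply_eq_sum {X : Type*} [MulAction SL(2, ℤ) X] {f : SL(2, ℤ) → X → A}
    (hf : IsCocycle f) (g : SL(2, ℤ)) (n : ℕ) (x : X) :
    f (g ^ n) x = ∑ j ∈ Finset.range n, f g (g ^ j • x) := by
  induction n with
  | zero => simp [hf.map_one]
  | succ n ih => rw [pow_succ', hf, ih, Finset.sum_range_succ]

/-- parabolic data make the class parabolic -/
lemma parabolic_of_parData (hneg : (-1 : SL(2, ℤ)) ∈ Γ) (hf : IsManinCocycle Γ f m)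
    (e : SL(2, ℤ) ⧸ Γ → A) (he : IsParData Γ m e) (γ : SL(2, ℤ)) (hγ : γ ∈ Γ)
    (htr : (γ : Matrix (Fin 2) (Fin 2) ℤ).trace ^ 2 = 4) : f γ (basePt Γ) = 0 := by
  have hT : ∀ x, f T x = e (T • x) - e x := fun x => by rw [(mc_map_T hf), he x]
  obtain ⟨g, k, hg⟩ := exists_conj_T_zpow γ htr
  have hmem : g * T ^ k * g⁻¹ ∈ Γ := by
    rcases hg with hg | hg
    · rw [← hg]; exact hγ
    · have h1 : g * T ^ k * g⁻¹ = -γ := by rw [hg, neg_neg]
      rw [h1]
      have h2 : (-γ : SL(2, ℤ)) = (-1) * γ := by simp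
      rw [h2]
      exact Γ.mul_mem hneg hγ
  have h0 : f (g * T ^ k * g⁻¹) (basePt Γ) = 0 := by
    rw [(mc_conj_basePt hf) g (T ^ k) hmem, (mc_isCocycle hf).zpow_of_cobd T e hT k,
      smul_inv_basePt_fixed hmem, sub_self]
  rcases hg with hg | hg
  · rw [hg]; exact h0
  · rw [hg, (mc_map_neg hf)]; exact h0

end D4

/-- (D4) `φ` is parabolic iff `m` admits parabolic data. -/
theorem maninRepParabolic : ManinRepParabolicStatement.{u} := by
  intro Γ _ hneg A _ φ m ⟨f, hf, hφ⟩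
  have : Finite (SL(2, ℤ) ⧸ Γ) := Subgroup.finite_quotient_of_finiteIndex
  constructor
  · intro hpar
    -- cycle sums of `f T` vanish
    have hb : ∀ (x : SL(2, ℤ) ⧸ Γ) (n : ℕ),
        ((MulAction.toPerm T : Equiv.Perm (SL(2, ℤ) ⧸ Γ)) ^ n) x = x →
        ∑ j ∈ Finset.range n,
          f T (((MulAction.toPerm T : Equiv.Perm (SL(2, ℤ) ⧸ Γ)) ^ j) x) = 0 := by
      intro x n hx
      rw [toPerm_pow_apply] at hx
      have h1 : ∑ j ∈ Finset.range n,
          f T (((MulAction.toPerm T : Equiv.Perm (SL(2, ℤ) ⧸ Γ)) ^ j) x) = f (T ^ n) x := by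
        rw [cocycle_pow_apply_eq_sum (mc_isCocycle hf)]
        exact Finset.sum_congr rfl fun j _ => by rw [toPerm_pow_apply]
      rw [h1]
      -- `x = g • x₀`, `g⁻¹ T^n g ∈ Γ` has trace `2`
      obtain ⟨g, rfl⟩ : ∃ g : SL(2, ℤ), g • basePt Γ = x := ⟨Quotient.out x, out_smul_basePt Γ x⟩
      have hmem : g⁻¹ * T ^ n * g ∈ Γ := by
        have h2 : (T ^ n * g) • basePt Γ = g • basePt Γ := by rw [mul_smul]; exact hx
        rw [smul_basePt_eq, smul_basePt_eq] at h2
        have h3 := QuotientGroup.eq.mp h2.symm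
        rwa [← mul_assoc] at h3
      rw [← mc_conj_basePt' hf g (T ^ n) hmem]
      have htr : (((⟨g⁻¹ * T ^ n * g, hmem⟩ : Γ) : SL(2, ℤ)) :
          Matrix (Fin 2) (Fin 2) ℤ).trace ^ 2 = 4 := by
        show ((g⁻¹ * T ^ n * g : SL(2, ℤ)) : Matrix (Fin 2) (Fin 2) ℤ).trace ^ 2 = 4
        rw [Matrix.SpecialLinearGroup.coe_mul, Matrix.trace_mul_comm,
          ← Matrix.SpecialLinearGroup.coe_mul, mul_inv_cancel_left]
        have : ((T ^ n : SL(2, ℤ)) : Matrix (Fin 2) (Fin 2) ℤ) = !![1, (n : ℤ); 0, 1] := by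
          rw [← zpow_natCast, coe_T_zpow]
        rw [this, Matrix.trace_fin_two_of]
        norm_num
      have h5 := hpar ⟨g⁻¹ * T ^ n * g, hmem⟩ htr
      rw [hφ] at h5
      exact h5
    obtain ⟨e, he⟩ := exists_cobd_of_cycle_sum_zero (MulAction.toPerm T) (f T) hb
    refine ⟨e, fun x => ?_⟩
    rw [← (mc_map_T hf), he x, MulAction.toPerm_apply]
  · rintro ⟨e, he⟩ γ hγ
    rw [hφ γ]
    exact parabolic_of_parData hneg hf e he γ γ.2 hγ

end Fermat.Agent.S41.H585

end
-- ===== PACK-END S41/H585/PDDictB.lean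

-- ===== PACK-BEGIN S41/H281/PDLinAlg.lean
section



/-!
# S41 / block PD, leaves LA-1, LA-2, LA-3 (helper281): linear algebra of the Manin model

* `maninSkew : Spec.ManinSkewStatement` (LA-2): skew-symmetry of the Manin form on parabolic data.
  With `b = m - e ∘ σ` the summand of `⟨m', e - e∘σ⟩ + ⟨m, e' - e'∘σ⟩` is
  `-[(b b')∘υ - b b'] - [(e e')∘σ - e e']`.
* `maninParDataOf : Spec.ManinParDataOfStatement` (LA-3): `e := a`, `m := b + a ∘ σ`.
* `maninPerp : Spec.ManinPerpStatement` (LA-1): `((σ-1)M ∩ (υ-1)M)^⊥ ⊆ M^σ + M^υ` for the dot product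
  (`(M^π)^⊥ = (π-1)M` by dimension count, `(U₁ ⊔ U₂)^⊥ = U₁^⊥ ⊓ U₂^⊥`, `W^⊥⊥ = W`).
* `parDataLift : Spec.ParDataLiftStatement` (LA-4): lifting parabolic data from `ℤ/p` to `ℤ`.
  `D(m, e) := (m|ST - m) - (e|T - e)` maps `M_ℤ × M_ℤ` onto `M₀ = {f | ∑ f = 0}`: its image contains
  `f|g - f` for `g = ST, T`, hence for all `g ∈ ⟨ST, T⟩ = SL(2, ℤ)`, hence `δ_y - δ_x` for all `x, y`
  (the action on `X = SL(2, ℤ) ⧸ Γ` is transitive).  Lift `(m̄, ē)` arbitrarily to `(m₁, e₁)`; then
  `D(m₁, e₁) = p f` with `∑ f = 0`, so `f = D(m₂, e₂)`, and `(m₁ - p m₂, e₁ - p e₂)` is parabolic data.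
-/

set_option autoImplicit false

namespace Fermat.Agent.S41.H281

open Fermat.Agent.S41.Spec ModularGroup Matrix.SpecialLinearGroup
open scoped MatrixGroups

universe u

/-! ## LA-2 -/

/-- (LA-2) skew-symmetry of the Manin form on parabolic data. -/
theorem maninSkew : ManinSkewStatement.{u} := by
  intro X _ σ υ τ hσ hτ R _ m e m' e' h h'
  have hστ : ∀ x, σ (υ x) = τ x := fun x => by rw [← hτ x, hσ]
  have key : ∀ x, m' x * (e x - e (σ x)) + m x * (e' x - e' (σ x)) =
      -((m (υ x) - e (σ (υ x))) * (m' (υ x) - e' (σ (υ x))) - (m x - e (σ x)) * (m' x - e' (σ x)))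
        - (e (σ x) * e' (σ x) - e x * e' x) := by
    intro x
    rw [hστ x]
    linear_combination -(m' (υ x) - e' (τ x)) * h x - (m x - e x) * h' x
  rw [eq_neg_iff_add_eq_zero, ← Finset.sum_add_distrib]
  simp only [key]
  rw [Finset.sum_sub_distrib, Finset.sum_neg_distrib, Finset.sum_sub_distrib,
    Finset.sum_sub_distrib,
    Equiv.sum_comp υ (fun x => (m x - e (σ x)) * (m' x - e' (σ x))),
    Equiv.sum_comp σ (fun x => e x * e' x)]
  simp

/-! ## LA-3 -/

/-- (LA-3) every `s ∈ (σ-1)M ∩ (υ-1)M` comes from parabolic data. -/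
theorem maninParDataOf : ManinParDataOfStatement.{u} := by
  intro X σ υ τ hσ hτ A _ s a b hsa hsb
  have hστ : ∀ x, σ (υ x) = τ x := fun x => by rw [← hτ x, hσ]
  refine ⟨fun x => b x + a (σ x), a, fun x => ?_, fun x => (hsa x).symm⟩
  simp only
  rw [hστ x]
  have h1 := hsa x
  have h2 := hsb x
  have h3 : b (υ x) - b x = a (σ x) - a x := by rw [← h1, h2]
  have h4 : b (υ x) = a (σ x) - a x + b x := by rw [← h3]; abel
  rw [h4]
  abel


/-! ## LA-1 -/

section Perp

variable {X : Type} [Fintype X] {F : Type u} [Field F]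

/-- The dot product on `X → F` as a bilinear form. -/
noncomputable def dotForm (X : Type) [Fintype X] (F : Type u) [Field F] :
    LinearMap.BilinForm F (X → F) :=
  LinearMap.mk₂ F (fun f g => ∑ x, f x * g x)
    (fun f f' g => by simp only [Pi.add_apply, add_mul, Finset.sum_add_distrib])
    (fun c f g => by simp only [Pi.smul_apply, smul_eq_mul, Finset.mul_sum, mul_assoc])
    (fun f g g' => by simp only [Pi.add_apply, mul_add, Finset.sum_add_distrib])
    (fun c f g => by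
      simp only [Pi.smul_apply, smul_eq_mul, Finset.mul_sum]
      exact Finset.sum_congr rfl fun x _ => by ring)

theorem dotForm_apply (f g : X → F) : dotForm X F f g = ∑ x, f x * g x := rfl

theorem dotForm_isSymm : (dotForm X F).IsSymm := by
  refine ⟨fun f g => ?_⟩
  simp only [dotForm_apply]
  exact Finset.sum_congr rfl fun x _ => mul_comm _ _

theorem dotForm_nondegenerate : (dotForm X F).Nondegenerate := by
  classical
  have hleft : ∀ f : X → F, (∀ g, dotForm X F f g = 0) → f = 0 := by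
    intro f hf
    funext x
    have := hf (Pi.single x 1)
    rw [dotForm_apply] at this
    simpa [Pi.single_apply] using this
  refine ⟨hleft, fun g hg => hleft g fun f => ?_⟩
  rw [← dotForm_isSymm.eq]
  exact hg f

/-- The operator `f ↦ f ∘ π - f`. -/
noncomputable def permSub (F : Type u) [Field F] (π : Equiv.Perm X) : (X → F) →ₗ[F] (X → F) :=
  LinearMap.funLeft F F π - LinearMap.id

omit [Fintype X] in
theorem permSub_apply (π : Equiv.Perm X) (f : X → F) (x : X) :
    permSub F π f x = f (π x) - f x := rfl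

omit [Fintype X] in
theorem mem_ker_permSub (π : Equiv.Perm X) (f : X → F) :
    f ∈ LinearMap.ker (permSub F π) ↔ ∀ x, f (π x) = f x := by
  rw [LinearMap.mem_ker]
  constructor
  · intro h x
    have := congrFun h x
    rw [permSub_apply] at this
    exact sub_eq_zero.mp this
  · intro h
    funext x
    rw [permSub_apply, h x, sub_self]
    rfl

omit [Fintype X] in
theorem mem_range_permSub (π : Equiv.Perm X) (s : X → F) :
    s ∈ LinearMap.range (permSub F π) ↔ ∃ a : X → F, ∀ x, s x = a (π x) - a x := by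
  rw [LinearMap.mem_range]
  constructor
  · rintro ⟨a, rfl⟩
    exact ⟨a, fun x => rfl⟩
  · rintro ⟨a, ha⟩
    exact ⟨a, funext fun x => (ha x).symm⟩

/-- The orthogonal complement of the `π`-invariant functions is the image of `π - 1`. -/
theorem orthogonal_ker_permSub (π : Equiv.Perm X) :
    (dotForm X F).orthogonal (LinearMap.ker (permSub F π)) = LinearMap.range (permSub F π) := by
  symm
  apply Submodule.eq_of_le_of_finrank_le
  · intro s hs
    obtain ⟨a, ha⟩ := (mem_range_permSub π s).mp hs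
    rw [LinearMap.BilinForm.mem_orthogonal_iff]
    intro n hn
    rw [mem_ker_permSub] at hn
    rw [dotForm_apply]
    have h1 : ∀ x, n x * s x = n (π x) * a (π x) - n x * a x := by
      intro x
      rw [ha x, hn x]
      ring
    simp only [h1]
    rw [Finset.sum_sub_distrib, Equiv.sum_comp π (fun x => n x * a x), sub_self]
  · rw [LinearMap.BilinForm.finrank_orthogonal dotForm_nondegenerate]
    have := LinearMap.finrank_range_add_finrank_ker (permSub F π)
    omega

omit [Fintype X] in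
theorem orthogonal_sup_eq (B : LinearMap.BilinForm F (X → F)) (U₁ U₂ : Submodule F (X → F)) :
    B.orthogonal (U₁ ⊔ U₂) = B.orthogonal U₁ ⊓ B.orthogonal U₂ := by
  apply le_antisymm
  · exact le_inf (LinearMap.BilinForm.orthogonal_le le_sup_left)
      (LinearMap.BilinForm.orthogonal_le le_sup_right)
  · rintro m ⟨h1, h2⟩
    rw [SetLike.mem_coe, LinearMap.BilinForm.mem_orthogonal_iff] at h1 h2
    rw [LinearMap.BilinForm.mem_orthogonal_iff]
    intro n hn
    obtain ⟨n₁, hn₁, n₂, hn₂, rfl⟩ := Submodule.mem_sup.mp hn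
    rw [map_add, LinearMap.add_apply, h1 n₁ hn₁, h2 n₂ hn₂, add_zero]

end Perp

/-- (LA-1) `((σ-1)M ∩ (υ-1)M)^⊥ ⊆ M^σ + M^υ`. -/
theorem maninPerp : ManinPerpStatement.{u} := by
  intro X _ σ υ F _ m hm
  have h1 : m ∈ (dotForm X F).orthogonal
      (LinearMap.range (permSub F σ) ⊓ LinearMap.range (permSub F υ)) := by
    rw [LinearMap.BilinForm.mem_orthogonal_iff]
    rintro s ⟨hs1, hs2⟩
    obtain ⟨a, ha⟩ := (mem_range_permSub σ s).mp hs1
    obtain ⟨b, hb⟩ := (mem_range_permSub υ s).mp hs2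
    rw [dotForm_isSymm.eq, dotForm_apply]
    exact hm s a b ha hb
  rw [← orthogonal_ker_permSub, ← orthogonal_ker_permSub, ← orthogonal_sup_eq,
    LinearMap.BilinForm.orthogonal_orthogonal dotForm_nondegenerate dotForm_isSymm.isRefl] at h1
  obtain ⟨n₁, hn₁, n₂, hn₂, h⟩ := Submodule.mem_sup.mp h1
  exact ⟨n₁, n₂, (mem_ker_permSub σ n₁).mp hn₁, (mem_ker_permSub υ n₂).mp hn₂, h.symm⟩

/-! ## LA-4 -/

section Image

variable {G : Type*} [Group G]

/-- The image of `D(m, e) = (m|u - m) - (e|t - e)`. -/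
def imD (u t : G) (X : Type*) [MulAction G X] : AddSubgroup (X → ℤ) where
  carrier := {f | ∃ m e : X → ℤ, ∀ x, f x = (m (u • x) - m x) - (e (t • x) - e x)}
  zero_mem' := ⟨0, 0, fun x => by simp⟩
  add_mem' := by
    rintro f f' ⟨m, e, h⟩ ⟨m', e', h'⟩
    refine ⟨m + m', e + e', fun x => ?_⟩
    simp only [Pi.add_apply, h x, h' x]
    ring
  neg_mem' := by
    rintro f ⟨m, e, h⟩
    refine ⟨-m, -e, fun x => ?_⟩
    simp only [Pi.neg_apply, h x]
    ring

theorem mem_imD {X : Type*} [MulAction G X] {u t : G} {f : X → ℤ} :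
    f ∈ imD u t X ↔ ∃ m e : X → ℤ, ∀ x, f x = (m (u • x) - m x) - (e (t • x) - e x) := Iff.rfl

/-- The subgroup of all `g` such that `f|g - f` lies in the image of `D` for every `f`. -/
def stabD (u t : G) (X : Type*) [MulAction G X] : Subgroup G where
  carrier := {g | ∀ f : X → ℤ, (fun x => f (g • x) - f x) ∈ imD u t X}
  one_mem' := fun f => by
    convert zero_mem (imD u t X) using 1
    funext x
    simp
  mul_mem' := by
    intro g h hg hh f
    have h1 := hh (fun y => f (g • y))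
    have h2 := hg f
    have := add_mem h1 h2
    convert this using 1
    funext x
    simp only [Pi.add_apply, mul_smul]
    ring
  inv_mem' := by
    intro g hg f
    have h1 := neg_mem (hg (fun y => f (g⁻¹ • y)))
    convert h1 using 1
    funext x
    simp only [Pi.neg_apply, inv_smul_smul]
    ring

theorem mem_stabD {X : Type*} [MulAction G X] {u t g : G} :
    g ∈ stabD u t X ↔ ∀ f : X → ℤ, (fun x => f (g • x) - f x) ∈ imD u t X := Iff.rfl

theorem left_mem_stabD {X : Type*} [MulAction G X] (u t : G) : u ∈ stabD u t X := fun f =>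
  ⟨f, 0, fun x => by simp⟩

theorem right_mem_stabD {X : Type*} [MulAction G X] (u t : G) : t ∈ stabD u t X := fun f =>
  ⟨0, -f, fun x => by simp only [Pi.zero_apply, Pi.neg_apply]; ring⟩

/-- If `u, t` generate `G` and `G` acts transitively on the finite set `X`, then every function
with sum `0` is in the image of `D`. -/
theorem mem_imD_of_sum_eq_zero {X : Type*} [MulAction G X] [Fintype X]
    [MulAction.IsPretransitive G X] (u t : G)
    (hgen : stabD u t X = ⊤) (f : X → ℤ) (hf : ∑ x, f x = 0) : f ∈ imD u t X := by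
  classical
  rcases isEmpty_or_nonempty X with hX | ⟨⟨x₀⟩⟩
  · have : f = 0 := funext fun x => (hX.false x).elim
    rw [this]
    exact zero_mem _
  -- `δ_y - δ_{x₀}` is in the image
  have hδ : ∀ y : X, (fun x => (Pi.single y (1 : ℤ) : X → ℤ) x - (Pi.single x₀ (1 : ℤ) : X → ℤ) x)
      ∈ imD u t X := by
    intro y
    obtain ⟨g, hg⟩ := MulAction.exists_smul_eq G y x₀
    have hg' : g ∈ stabD u t X := by rw [hgen]; exact Subgroup.mem_top g
    have := hg' (Pi.single x₀ (1 : ℤ))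
    convert this using 1
    funext x
    congr 1
    simp only [Pi.single_apply]
    have : g • x = x₀ ↔ x = y := by
      constructor
      · intro h
        rw [← hg] at h
        exact smul_left_cancel g h
      · rintro rfl
        exact hg
    simp only [this]
  have hdecomp : f = ∑ y, f y • (fun x => (Pi.single y (1 : ℤ) : X → ℤ) x -
      (Pi.single x₀ (1 : ℤ) : X → ℤ) x) := by
    funext x
    simp only [Finset.sum_apply, Pi.smul_apply, smul_eq_mul, mul_sub, Finset.sum_sub_distrib,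
      Pi.single_apply, mul_ite, mul_one, mul_zero, Finset.sum_ite_eq, Finset.mem_univ, if_true]
    by_cases hx : x = x₀
    · simp [hx, hf]
    · simp [hx]
  rw [hdecomp]
  exact sum_mem fun y _ => zsmul_mem (hδ y) _

end Image

/-- `ST` and `T` generate `SL(2, ℤ)`. -/
theorem stabD_eq_top (X : Type*) [MulAction SL(2, ℤ) X] :
    stabD (S * T) T X = ⊤ := by
  rw [eq_top_iff, ← SpecialLinearGroup.SL2Z_generators, Subgroup.closure_le]
  rintro g (rfl | rfl)
  · have h1 : (S * T) ∈ stabD (S * T) T X := left_mem_stabD _ _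
    have h2 : T ∈ stabD (S * T) T X := right_mem_stabD _ _
    have := mul_mem h1 (inv_mem h2)
    rwa [mul_inv_cancel_right] at this
  · exact right_mem_stabD _ _

/-- (LA-4) lifting parabolic data from `ℤ/p` to `ℤ`. -/
theorem parDataLift : ParDataLiftStatement := by
  intro Γ _ p mbar ebar hpar
  classical
  let _ : Fintype (SL(2, ℤ) ⧸ Γ) := Fintype.ofFinite _
  -- arbitrary lifts
  let m₁ : SL(2, ℤ) ⧸ Γ → ℤ := fun x => (mbar x).cast
  let e₁ : SL(2, ℤ) ⧸ Γ → ℤ := fun x => (ebar x).cast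
  have hm₁ : ∀ x, ((m₁ x : ℤ) : ZMod p) = mbar x := fun x => ZMod.intCast_zmod_cast _
  have he₁ : ∀ x, ((e₁ x : ℤ) : ZMod p) = ebar x := fun x => ZMod.intCast_zmod_cast _
  let D₁ : SL(2, ℤ) ⧸ Γ → ℤ := fun x => (m₁ ((S * T) • x) - m₁ x) - (e₁ (T • x) - e₁ x)
  have hD₁ : ∀ x, (p : ℤ) ∣ D₁ x := by
    intro x
    rw [← ZMod.intCast_zmod_eq_zero_iff_dvd]
    simp only [D₁]
    push_cast
    rw [hm₁, hm₁, he₁, he₁, hpar x, sub_self]
  have hsum : ∑ x, D₁ x = 0 := by
    simp only [D₁]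
    rw [Finset.sum_sub_distrib, Finset.sum_sub_distrib, Finset.sum_sub_distrib]
    have h1 : ∑ x : SL(2, ℤ) ⧸ Γ, m₁ ((S * T) • x) = ∑ x, m₁ x :=
      Equiv.sum_comp (MulAction.toPerm (S * T)) m₁
    have h2 : ∑ x : SL(2, ℤ) ⧸ Γ, e₁ (T • x) = ∑ x, e₁ x :=
      Equiv.sum_comp (MulAction.toPerm T) e₁
    rw [h1, h2, sub_self, sub_self, sub_self]
  rcases eq_or_ne p 0 with hp | hp
  · -- `p = 0`: the lift is already parabolic data
    refine ⟨m₁, e₁, fun x => ?_, hm₁, he₁⟩
    have := hD₁ x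
    rw [hp, Nat.cast_zero, zero_dvd_iff] at this
    simp only [D₁] at this
    linarith
  · choose f hf using hD₁
    have hp' : (p : ℤ) ≠ 0 := by exact_mod_cast hp
    have hfsum : ∑ x, f x = 0 := by
      have : (p : ℤ) * ∑ x, f x = 0 := by
        rw [Finset.mul_sum, ← hsum]
        exact Finset.sum_congr rfl fun x _ => (hf x).symm
      exact (mul_eq_zero.mp this).resolve_left hp'
    obtain ⟨m₂, e₂, h₂⟩ := mem_imD.mp
      (mem_imD_of_sum_eq_zero (S * T) T (stabD_eq_top _) f hfsum)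
    refine ⟨fun x => m₁ x - p * m₂ x, fun x => e₁ x - p * e₂ x, fun x => ?_, fun x => ?_,
      fun x => ?_⟩
    · have h3 : (m₁ ((S * T) • x) - m₁ x) - (e₁ (T • x) - e₁ x) = (p : ℤ) * f x := hf x
      have h4 := h₂ x
      show (e₁ (T • x) - p * e₂ (T • x)) - (e₁ x - p * e₂ x) =
        (m₁ ((S * T) • x) - p * m₂ ((S * T) • x)) - (m₁ x - p * m₂ x)
      linear_combination -h3 - (p : ℤ) * h4
    · push_cast
      rw [hm₁]
      simp
    · push_cast
      rw [he₁]
      simp

end Fermat.Agent.S41.H281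

end
-- ===== PACK-END S41/H281/PDLinAlg.lean

-- ===== PACK-BEGIN S41/H863/TransferReps.lean
section




/-!
# Row S41, block NEW, leaf NEW-2a (helper863): the transfer in right coset representatives

* `transfer_eq_prod_reps` : Mathlib's `MonoidHom.transfer ϕ g` for a subgroup `H ≤ G` of finite
  index, computed in a system `s : ι → G` of representatives of the right cosets `H \ G`:
  if `s x * g = k x * s (σ x)` with `k x ∈ H`, then `transfer ϕ g = ∏ x, ϕ (k x)`.
* `finiteIndex_of_reps` : such a finite system forces `H` to have finite index.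
* `newTransferReps : Spec.NewTransferRepsStatement` (exact shape of `Spec/New.lean`).
* `newTransferAdd : Spec.NewTransferAddStatement`.
-/

set_option autoImplicit false

namespace Fermat.Agent.S41.H863

open Subgroup Subgroup.leftTransversals
open Fermat.Agent.S41.Spec

section Reps

variable {G : Type*} [Group G] (H : Subgroup G)

/-- The map `x ↦ (s x)⁻¹ H` is a bijection `ι → G ⧸ H` for a system of representatives of the
right cosets. -/
theorem bijective_reps {ι : Type*} (s : ι → G)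
    (hinj : ∀ x y : ι, s x * (s y)⁻¹ ∈ H → x = y)
    (hsurj : ∀ g : G, ∃ x : ι, g * (s x)⁻¹ ∈ H) :
    Function.Bijective (fun x : ι => (((s x)⁻¹ : G) : G ⧸ H)) := by
  constructor
  · intro x y hxy
    have h1 := QuotientGroup.eq.mp hxy
    rw [inv_inv] at h1
    exact hinj x y h1
  · intro q
    induction q using QuotientGroup.induction_on with
    | H a =>
      obtain ⟨x, hx⟩ := hsurj a⁻¹
      refine ⟨x, ?_⟩
      show (((s x)⁻¹ : G) : G ⧸ H) = (a : G ⧸ H)
      rw [QuotientGroup.eq, inv_inv]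
      have h2 := H.inv_mem hx
      rwa [mul_inv_rev, inv_inv, inv_inv] at h2

theorem finiteIndex_of_reps {ι : Type*} [Finite ι] (s : ι → G)
    (hinj : ∀ x y : ι, s x * (s y)⁻¹ ∈ H → x = y)
    (hsurj : ∀ g : G, ∃ x : ι, g * (s x)⁻¹ ∈ H) : H.FiniteIndex := by
  haveI : Finite (G ⧸ H) :=
    Finite.of_equiv ι (Equiv.ofBijective _ (bijective_reps H s hinj hsurj))
  exact Subgroup.finiteIndex_of_finite_quotient

variable {H} {A : Type*} [CommGroup A]

/-- Mathlib's transfer in a system of representatives of the right cosets `H \ G`. -/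
theorem transfer_eq_prod_reps [H.FiniteIndex] (ϕ : H →* A) {ι : Type*} [Fintype ι] (s : ι → G)
    (hinj : ∀ x y : ι, s x * (s y)⁻¹ ∈ H → x = y)
    (hsurj : ∀ g : G, ∃ x : ι, g * (s x)⁻¹ ∈ H)
    (g : G) (σ : ι → ι) (k : ι → H) (hk : ∀ x, s x * g = (k x : G) * s (σ x)) :
    MonoidHom.transfer ϕ g = ∏ x : ι, ϕ (k x) := by
  classical
  let e : ι ≃ G ⧸ H := Equiv.ofBijective _ (bijective_reps H s hinj hsurj)
  have he : ∀ x : ι, e x = (((s x)⁻¹ : G) : G ⧸ H) := fun x => rfl
  let F : G ⧸ H → G := fun q => (s (e.symm q))⁻¹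
  have hF : ∀ q : G ⧸ H, (F q : G ⧸ H) = q := fun q => by
    show (((s (e.symm q))⁻¹ : G) : G ⧸ H) = q
    rw [← he, e.apply_symm_apply]
  let T : H.LeftTransversal := ⟨Set.range F, isComplement_range_left hF⟩
  have hT : ∀ q : G ⧸ H, (T.2.leftQuotientEquiv q : G) = F q :=
    fun q => IsComplement.leftQuotientEquiv_apply hF q
  -- the action of `g⁻¹` on the cosets
  have hσ : ∀ x : ι, g⁻¹ • e x = e (σ x) := by
    intro x
    rw [he, he]
    show ((g⁻¹ * (s x)⁻¹ : G) : G ⧸ H) = (((s (σ x))⁻¹ : G) : G ⧸ H)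
    rw [QuotientGroup.eq]
    have h1 : (g⁻¹ * (s x)⁻¹)⁻¹ * (s (σ x))⁻¹ = (k x : G) := by
      rw [mul_inv_rev, inv_inv, inv_inv, hk x, mul_assoc, mul_inv_cancel, mul_one]
    rw [h1]
    exact (k x).2
  rw [MonoidHom.transfer_def ϕ T g]
  unfold diff
  let _ := H.fintypeQuotientOfFiniteIndex
  refine (Fintype.prod_equiv e _ _ fun x => ?_).symm
  congr 1
  apply Subtype.ext
  show (k x : G) = ((T.2.leftQuotientEquiv (e x) : G))⁻¹ * ((g • T).2.leftQuotientEquiv (e x) : G)
  rw [smul_apply_eq_smul_apply_inv_smul, hT, hT, hσ x]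
  show (k x : G) = ((s (e.symm (e x)))⁻¹)⁻¹ * (g * (s (e.symm (e (σ x))))⁻¹)
  rw [e.symm_apply_apply, e.symm_apply_apply, inv_inv, ← mul_assoc, hk x, mul_assoc,
    mul_inv_cancel, mul_one]

end Reps

/-- **NEW-2a** (exact shape of `Spec.NewTransferRepsStatement`). -/
theorem newTransferReps : Spec.NewTransferRepsStatement := by
  intro H G _ _ A _ f hf ι _ s hinj hsurj ψ g σ k hk
  have hfin : f.range.FiniteIndex := finiteIndex_of_reps f.range s hinj hsurj
  rw [Fermat.Agent.S41.H581.transferAlong_apply_of f ⟨hf, hfin⟩ ψ g]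
  haveI := hfin
  have key := transfer_eq_prod_reps
    ((AddMonoidHom.toMultiplicativeRight ψ).comp (MonoidHom.ofInjective hf).symm.toMonoidHom)
    s hinj hsurj g σ (fun x => ⟨f (k x), ⟨k x, rfl⟩⟩) (fun x => hk x)
  rw [key, toAdd_prod]
  refine Finset.sum_congr rfl fun x _ => ?_
  have h1 : (MonoidHom.ofInjective hf).symm ⟨f (k x), ⟨k x, rfl⟩⟩ = k x := by
    apply (MonoidHom.ofInjective hf).injective
    rw [MulEquiv.apply_symm_apply]
    rfl
  simp only [MonoidHom.comp_apply, MulEquiv.coe_toMonoidHom, h1]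
  rfl

/-- **NEW-3c** additivity of the two transfers. -/
theorem newTransferAdd : Spec.NewTransferAddStatement := by
  intro N q ψ ψ'
  exact ⟨Fermat.Agent.S41.H581.transferAlong_add _ ψ ψ',
    Fermat.Agent.S41.H581.transferAlong_add _ ψ ψ'⟩

end Fermat.Agent.S41.H863

end
-- ===== PACK-END S41/H863/TransferReps.lean

-- ===== PACK-BEGIN S59/G4/Spec2.lean
section


/-!
# Row S59, layer G4 — interface, part 2 (squad-lead helper7)

After `Spec.lean` was frozen, helper307 landed GLUE (`Fermat.Agent.S59.H307.exists_glued_rep`),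
helper540 landed G-DET and full Chebotarev (`Fermat.Agent.Lib.Cheb.chebotarev`) is on main.
Consequences for the pieces of G4:

* DESC is CLOSED (the assembly uses `H307.exists_glued_rep_of_hausdorff` directly);
* ODD is only needed for the Prelude's `complexConjugation` and is done inside the assembly
  (`H540.detIsCyclotomic_of_charpoly_frob` + `complexConjugation_root`);
* RES is replaced by `ResStatement2` below (general local coefficient ring, so that it also gives
  `residual_absIrr` of the glued representation over `T`; the residual representation lives over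
  an arbitrary subfield, so that no base change of absolute irreducibility is needed by the
  caller).

Open pieces of G4: `RedStatement`, `PointsStatement`, `TraceFnStatement` (all in `Spec.lean`) and
`ResStatement2`.
-/

set_option autoImplicit false

open Polynomial IsLocalRing

namespace Fermat.Agent.S59.G4

open Fermat.Agent.S31

/-- **RES2.** Let `θ : 𝕋 → k` be non-Eisenstein (`2 ≠ 0` in `k`), `A` a local ring whose
residue field receives `k` via `ι`, and `ρ` a representation over `A` whose Frobenius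
characteristic polynomials are given by `φ : 𝕋 → A` with `φ ≡ ι ∘ θ` modulo the maximal ideal.
Then the reduction of `ρ` is absolutely irreducible (and irreducible).

Proof sketch: by Chebotarev (`Fermat.Agent.Lib.Cheb.chebotarev`, on the compositum of the two
finite levels) `tr ρ.residual = ι ∘ tr ρ̄` on all of `GQ`; if `ρ.residual ⊗ K` (`K` algebraically
closed) had an invariant line then `tr ρ̄ = χ₁ + χ₂` with characters `χ_i : GQ → Kˣ`; by Burnside
the `K`-span of `ρ̄(GQ)` is `M₂(K)`, and by independence of characters (`2 ≠ 0`) the `χ_i` extend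
to algebra homomorphisms `M₂(K) → K`: absurd. -/
def ResStatement2 : Prop :=
  ∀ (N : ℕ) [NeZero N] (S : Finset ℕ)
    (k : Type) [Field k] (_h2 : (2 : k) ≠ 0)
    (θ : CuspForm.heckeAlgebra N 2 (↑S : Set ℕ) →+* k) (_hθ : NonEisenstein θ)
    (A : Type) [CommRing A] [IsLocalRing A] (ι : k →+* ResidueField A)
    (φ : CuspForm.heckeAlgebra N 2 (↑S : Set ℕ) →+* A)
    (_hφ : ∀ t, residue A (φ t) = ι (θ t))
    (ρ : GaloisRepAdic A), FrobCond ρ φ →
    ρ.residual.IsAbsolutelyIrreducible ∧ ρ.residual.IsIrreducible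

end Fermat.Agent.S59.G4

end
-- ===== PACK-END S59/G4/Spec2.lean

-- ===== PACK-BEGIN Ribet/H883/Bridge.lean
section
/-
RIBET row, piece R3 (helper883): bridge between the two languages for characters of `Γ₀(N)`:
* `S29.DefsM`: functions `c : G0 N → A` with `IsParHom c`, Hecke operator `heckeCoh N ℓ`;
* `S29.H642`: additive homs `φ : Additive (Gamma0 N) →+ A`, Hecke operator `heckeTransfer`.
-/




set_option autoImplicit false

noncomputable section

namespace Fermat.Agent.Ribet.H883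

open CongruenceSubgroup Matrix.SpecialLinearGroup
open Fermat.Agent.S29
open scoped MatrixGroups

variable {N : ℕ} {A : Type*} [AddCommGroup A]

/-- The function `Γ₀(N) → A` underlying an additive hom. -/
def funOf (φ : Additive (Gamma0 N) →+ A) : G0 N → A := fun γ => φ (Additive.ofMul γ)

@[simp] theorem funOf_apply (φ : Additive (Gamma0 N) →+ A) (γ : G0 N) :
    funOf φ γ = φ (Additive.ofMul γ) := rfl

/-- The additive hom attached to a multiplicative-to-additive function. -/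
def homOf (c : G0 N → A) (hc : ∀ γ γ' : G0 N, c (γ * γ') = c γ + c γ') :
    Additive (Gamma0 N) →+ A where
  toFun γ := c (Additive.toMul γ)
  map_zero' := by
    have h := hc 1 1
    rw [mul_one] at h
    exact left_eq_add.mp h
  map_add' γ δ := hc (Additive.toMul γ) (Additive.toMul δ)

@[simp] theorem homOf_apply (c : G0 N → A) (hc : ∀ γ γ' : G0 N, c (γ * γ') = c γ + c γ')
    (γ : G0 N) : homOf c hc (Additive.ofMul γ) = c γ := rfl

@[simp] theorem funOf_homOf (c : G0 N → A) (hc : ∀ γ γ' : G0 N, c (γ * γ') = c γ + c γ') :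
    funOf (homOf c hc) = c := rfl

theorem funOf_injective : Function.Injective (funOf : (Additive (Gamma0 N) →+ A) → G0 N → A) := by
  intro φ ψ h
  refine AddMonoidHom.ext fun γ => ?_
  exact congrFun h (Additive.toMul γ)

theorem funOf_map_mul (φ : Additive (Gamma0 N) →+ A) (γ γ' : G0 N) :
    funOf φ (γ * γ') = funOf φ γ + funOf φ γ' := by
  simp only [funOf_apply, ofMul_mul, map_add]

section Hecke

variable {ℓ : ℕ} [Fact ℓ.Prime]

/-- The two transfer elements (helper201's `trf`, helper642's `hElt`) agree. -/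
theorem hElt_eq_trf (hℓN : ¬ ℓ ∣ N) (γ : Gamma0 N) (x : OnePoint (ZMod ℓ)) :
    H642.hElt hℓN γ x = H201.trf hℓN γ x :=
  H201.trf_unique hℓN γ _ x (H642.hElt_spec hℓN γ x)

/-- **Bridge.** The Hecke transfer of `S29.H642` is the cohomological Hecke operator of
`S29.DefsM`. -/
theorem funOf_heckeTransfer (hℓN : ¬ ℓ ∣ N) (φ : Additive (Gamma0 N) →+ A) :
    funOf (H642.heckeTransfer hℓN φ) = heckeCoh N ℓ (funOf φ) := by
  funext γ
  rw [funOf_apply, H642.heckeTransfer_apply, M4aTop_heckeCoh_eq_sum_trf hℓN]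
  refine Finset.sum_congr rfl fun x _ => ?_
  rw [hElt_eq_trf]
  rfl

end Hecke

end Fermat.Agent.Ribet.H883

end
end
-- ===== PACK-END Ribet/H883/Bridge.lean

-- ===== PACK-BEGIN S59/TW/H658/IntB.lean
section




/-!
# S21 — INT-B: `Γ₀(L)`-symmetrization of a test function

`sym L η z = ∑ᶠ γ : Γ₀(L), η (γ z)` is smooth on the upper half plane, `Γ₀(L)`-invariant,
additive and homogeneous in `η`, and has finite energy on a fundamental domain.
-/

set_option autoImplicit false
set_option linter.unusedSectionVars false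
set_option linter.unusedVariables false

open UpperHalfPlane CongruenceSubgroup MeasureTheory
open scoped MatrixGroups ContDiff Topology Pointwise

namespace Fermat.Agent.S59.TW.H658

open Fermat.Agent.S21

namespace IntB

theorem mob_mem_Uhp (g : SL(2, ℤ)) (z : ℂ) : mob g z ∈ Uhp := (g • ofComplex z).im_pos

theorem mob_mul (g h : SL(2, ℤ)) (z : ℂ) : mob (g * h) z = mob g (mob h z) := by
  simp [mob, mul_smul, ofComplex_apply]

theorem mob_one {z : ℂ} (hz : z ∈ Uhp) : mob 1 z = z := by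
  have hz' : 0 < z.im := hz
  simp [mob, ofComplex_apply_of_im_pos hz']

theorem mob_inv_mob (g : SL(2, ℤ)) {z : ℂ} (hz : z ∈ Uhp) : mob g⁻¹ (mob g z) = z := by
  rw [← _root_.Fermat.Agent.S59.TW.H658.IntB.mob_mul, inv_mul_cancel, _root_.Fermat.Agent.S59.TW.H658.IntB.mob_one hz]

theorem mob_mob_inv (g : SL(2, ℤ)) {z : ℂ} (hz : z ∈ Uhp) : mob g (mob g⁻¹ z) = z := by
  rw [← _root_.Fermat.Agent.S59.TW.H658.IntB.mob_mul, mul_inv_cancel, _root_.Fermat.Agent.S59.TW.H658.IntB.mob_one hz]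

theorem analyticAt_mob (g : SL(2, ℤ)) {z : ℂ} (hz : z ∈ Uhp) : AnalyticAt ℂ (mob g) z := by
  have hdet : (0 : ℝ) < ((g : GL (Fin 2) ℝ) : Matrix (Fin 2) (Fin 2) ℝ).det := by
    have : ((g : GL (Fin 2) ℝ) : Matrix (Fin 2) (Fin 2) ℝ).det = 1 :=
      (Matrix.SpecialLinearGroup.map (Int.castRingHom ℝ) g).det_coe
    rw [this]; exact one_pos
  exact UpperHalfPlane.analyticAt_smul hdet ⟨z, hz⟩

theorem contDiffAt_mob (g : SL(2, ℤ)) {z : ℂ} (hz : z ∈ Uhp) : ContDiffAt ℝ ∞ (mob g) z :=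
  ((analyticAt_mob g hz).contDiffAt (n := ∞)).restrict_scalars ℝ

theorem continuousAt_mob (g : SL(2, ℤ)) {z : ℂ} (hz : z ∈ Uhp) : ContinuousAt (mob g) z :=
  (analyticAt_mob g hz).continuousAt

theorem continuousOn_mob (g : SL(2, ℤ)) : ContinuousOn (mob g) Uhp :=
  fun _ hz => (continuousAt_mob g hz).continuousWithinAt

/-- Proper discontinuity of the action of `SL(2,ℤ)`, phrased on `ℂ`. -/
theorem finite_mob {K L : Set ℂ} (hK : IsCompact K) (hKU : K ⊆ Uhp) (hL : IsCompact L)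
    (hLU : L ⊆ Uhp) : {g : SL(2, ℤ) | ∃ z ∈ K, mob g z ∈ L}.Finite := by
  have hrange : Set.range (UpperHalfPlane.coe) = Uhp := by
    ext z
    constructor
    · rintro ⟨w, rfl⟩; exact w.im_pos
    · intro hz; exact ⟨⟨z, hz⟩, rfl⟩
  have hK' : IsCompact ((UpperHalfPlane.coe) ⁻¹' K) :=
    (isEmbedding_coe.isInducing.isCompact_preimage_iff (by rw [hrange]; exact hKU)).mpr hK
  have hL' : IsCompact ((UpperHalfPlane.coe) ⁻¹' L) :=
    (isEmbedding_coe.isInducing.isCompact_preimage_iff (by rw [hrange]; exact hLU)).mpr hL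
  have h := (Subgroup.properlyDiscontinuousSMul_iff 𝒮ℒ).mp properlyDiscontinuousSL2ZRange hK' hL'
  have hinj : Function.Injective (Matrix.SpecialLinearGroup.mapGL ℝ : SL(2, ℤ) →* GL (Fin 2) ℝ) :=
    Matrix.SpecialLinearGroup.mapGL_injective
  refine (h.preimage hinj.injOn).subset ?_
  rintro g ⟨z, hz, hgz⟩
  refine ⟨⟨g, rfl⟩, (Matrix.SpecialLinearGroup.mapGL ℝ g) • ofComplex z,
    ⟨ofComplex z, ?_, rfl⟩, ?_⟩
  · show ((ofComplex z : ℍ) : ℂ) ∈ K
    rw [ofComplex_apply_of_im_pos (hKU hz)]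
    exact hz
  · exact hgz

/-- Local finiteness of the symmetrization sum. -/
theorem finite_sym_support (L : Lev) {η : ℂ → ℝ} (hη : IsTest η) {K : Set ℂ} (hK : IsCompact K)
    (hKU : K ⊆ Uhp) : {γ : L.Γ | ∃ z ∈ K, η (mob (γ : SL(2, ℤ)) z) ≠ 0}.Finite := by
  have h := finite_mob hK hKU hη.2.1 hη.2.2
  refine (h.preimage Subtype.val_injective.injOn).subset ?_
  rintro γ ⟨z, hz, hne⟩
  exact ⟨z, hz, subset_tsupport _ hne⟩

theorem sym_eq_sum (L : Lev) {η : ℂ → ℝ} (hη : IsTest η) {K : Set ℂ} (hK : IsCompact K)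
    (hKU : K ⊆ Uhp) : ∀ z ∈ K, _root_.Fermat.Agent.S59.TW.H658.sym L η z
      = ∑ γ ∈ (finite_sym_support L hη hK hKU).toFinset, η (mob (γ : SL(2, ℤ)) z) := by
  intro z hz
  unfold _root_.Fermat.Agent.S59.TW.H658.sym
  apply finsum_eq_sum_of_support_subset
  intro γ hγ
  simp only [Set.Finite.coe_toFinset, Set.mem_ofPred_eq]
  exact ⟨z, hz, hγ⟩

theorem finite_support_point (L : Lev) {η : ℂ → ℝ} (hη : IsTest η) {z : ℂ} (hz : z ∈ Uhp) :
    (Function.support fun γ : L.Γ => η (mob (γ : SL(2, ℤ)) z)).Finite :=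
  (finite_sym_support L hη isCompact_singleton (Set.singleton_subset_iff.mpr hz)).subset
    (fun _ hγ => ⟨z, rfl, hγ⟩)

theorem continuousOn_dz {u : ℂ → ℝ} (hu : ContDiffOn ℝ ∞ u Uhp) :
    ContinuousOn (fun z => dz u z) Uhp := by
  have h1 : ContinuousOn (fderiv ℝ u) Uhp :=
    hu.continuousOn_fderiv_of_isOpen isOpen_Uhp (by simp)
  have h2 : ∀ v : ℂ, ContinuousOn (fun z => ((fderiv ℝ u z v : ℝ) : ℂ)) Uhp := fun v =>
    Complex.continuous_ofReal.comp_continuousOn (h1.clm_apply continuousOn_const)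
  unfold dz
  exact (h2 1).sub (continuousOn_const.mul (h2 Complex.I))

/-- Away from the `Γ₀(L)`-orbit of the support of `η` the symmetrization is locally zero. -/
theorem dz_sym_eq_zero (L : Lev) {η : ℂ → ℝ} (hη : IsTest η) {z : ℂ} (hz : z ∈ Uhp)
    (h : ∀ γ : L.Γ, mob (γ : SL(2, ℤ)) z ∉ tsupport η) : dz (_root_.Fermat.Agent.S59.TW.H658.sym L η) z = 0 := by
  obtain ⟨K, hK, hzK, hKU⟩ := exists_compact_subset isOpen_Uhp hz
  have hev : _root_.Fermat.Agent.S59.TW.H658.sym L η =ᶠ[𝓝 z] fun _ => (0 : ℝ) := by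
    have h1 : ∀ γ ∈ (finite_sym_support L hη hK hKU).toFinset,
        ∀ᶠ w in 𝓝 z, η (mob (γ : SL(2, ℤ)) w) = 0 := by
      intro γ _
      have h0 : η =ᶠ[𝓝 (mob (γ : SL(2, ℤ)) z)] 0 := notMem_tsupport_iff_eventuallyEq.mp (h γ)
      exact (continuousAt_mob (γ : SL(2, ℤ)) hz).eventually h0
    have h2 := (Filter.eventually_all_finset _).mpr h1
    filter_upwards [mem_interior_iff_mem_nhds.mp hzK, h2] with w hw hw2
    rw [sym_eq_sum L hη hK hKU w hw]
    exact Finset.sum_eq_zero hw2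
  have hfd : fderiv ℝ (_root_.Fermat.Agent.S59.TW.H658.sym L η) z = 0 := by
    rw [hev.fderiv_eq]
    simp
  simp [dz, hfd]

theorem finite_chi_support (L : Lev) {χ₁ : ℂ → ℝ} (hχ : IsSL2ZPartition χ₁) {K : Set ℂ}
    (hK : IsCompact K) (hKU : K ⊆ Uhp) :
    {q : SL(2, ℤ) ⧸ L.Γ | ∃ z ∈ K, χ₁ (mob (Quotient.out q) z) ≠ 0}.Finite := by
  have h := hχ.locfin K hK hKU
  refine (h.preimage (Quotient.out_injective.injOn)).subset ?_
  rintro q ⟨z, hz, hne⟩
  exact ⟨z, hz, hne⟩

theorem continuousOn_chi_aux (L : Lev) {χ₁ : ℂ → ℝ} (hχ : IsSL2ZPartition χ₁) :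
    ContinuousOn (_root_.Fermat.Agent.S59.TW.H658.chi L χ₁) Uhp := by
  intro z₀ hz₀
  obtain ⟨K, hK, hzK, hKU⟩ := exists_compact_subset isOpen_Uhp hz₀
  have hev : _root_.Fermat.Agent.S59.TW.H658.chi L χ₁ =ᶠ[𝓝 z₀] fun z =>
      ∑ q ∈ (finite_chi_support L hχ hK hKU).toFinset, χ₁ (mob (Quotient.out q) z) := by
    filter_upwards [mem_interior_iff_mem_nhds.mp hzK] with z hz
    have hzK' : z ∈ K := hz
    unfold _root_.Fermat.Agent.S59.TW.H658.chi
    rw [Set.indicator_of_mem (hKU hzK')]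
    apply finsum_eq_sum_of_support_subset
    intro q hq
    simp only [Set.Finite.coe_toFinset, Set.mem_ofPred_eq]
    exact ⟨z, hzK', hq⟩
  have hc : ContinuousAt (fun z =>
      ∑ q ∈ (finite_chi_support L hχ hK hKU).toFinset, χ₁ (mob (Quotient.out q) z)) z₀ := by
    apply tendsto_finsetSum
    intro q _
    have h1 : ContinuousAt χ₁ (mob (Quotient.out q) z₀) :=
      hχ.smooth.continuousOn.continuousAt (isOpen_Uhp.mem_nhds (_root_.Fermat.Agent.S59.TW.H658.IntB.mob_mem_Uhp _ _))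
    exact h1.comp (continuousAt_mob _ hz₀)
  exact (hc.congr hev.symm).continuousWithinAt

theorem exists_of_chi_ne_zero (L : Lev) {χ₁ : ℂ → ℝ} {z : ℂ} (h : _root_.Fermat.Agent.S59.TW.H658.chi L χ₁ z ≠ 0) :
    z ∈ Uhp ∧ ∃ q : SL(2, ℤ) ⧸ L.Γ, χ₁ (mob (Quotient.out q) z) ≠ 0 := by
  unfold _root_.Fermat.Agent.S59.TW.H658.chi at h
  have hz : z ∈ Uhp := by
    by_contra hz
    exact h (Set.indicator_of_notMem hz _)
  refine ⟨hz, ?_⟩
  rw [Set.indicator_of_mem hz] at h
  by_contra hne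
  push Not at hne
  exact h (finsum_eq_zero_of_forall_eq_zero hne)

end IntB

section INT

variable (L : Lev) {χ₁ : ℂ → ℝ}

theorem contDiffOn_sym {η : ℂ → ℝ} (hη : IsTest η) : ContDiffOn ℝ ∞ (_root_.Fermat.Agent.S59.TW.H658.sym L η) Uhp := by
  intro z₀ hz₀
  obtain ⟨K, hK, hzK, hKU⟩ := exists_compact_subset isOpen_Uhp hz₀
  have hev : _root_.Fermat.Agent.S59.TW.H658.sym L η =ᶠ[𝓝 z₀] fun z =>
      ∑ γ ∈ (_root_.Fermat.Agent.S59.TW.H658.IntB.finite_sym_support L hη hK hKU).toFinset, η (mob (γ : SL(2, ℤ)) z) := by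
    filter_upwards [mem_interior_iff_mem_nhds.mp hzK] with z hz
      using _root_.Fermat.Agent.S59.TW.H658.IntB.sym_eq_sum L hη hK hKU z hz
  have hsm : ContDiffAt ℝ ∞ (fun z =>
      ∑ γ ∈ (_root_.Fermat.Agent.S59.TW.H658.IntB.finite_sym_support L hη hK hKU).toFinset, η (mob (γ : SL(2, ℤ)) z)) z₀ := by
    apply ContDiffAt.sum
    intro γ _
    exact hη.1.contDiffAt.comp z₀ (_root_.Fermat.Agent.S59.TW.H658.IntB.contDiffAt_mob (γ : SL(2, ℤ)) hz₀)
  exact (hsm.congr_of_eventuallyEq hev).contDiffWithinAt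

theorem sym_mob {η : ℂ → ℝ} (hη : IsTest η) (γ : L.Γ) (z : ℂ) (hz : z ∈ Uhp) :
    _root_.Fermat.Agent.S59.TW.H658.sym L η (mob (γ : SL(2, ℤ)) z) = _root_.Fermat.Agent.S59.TW.H658.sym L η z := by
  unfold _root_.Fermat.Agent.S59.TW.H658.sym
  have h : ∀ γ' : L.Γ, η (mob (γ' : SL(2, ℤ)) (mob (γ : SL(2, ℤ)) z))
      = η (mob ((γ' * γ : L.Γ) : SL(2, ℤ)) z) := by
    intro γ'
    rw [Subgroup.coe_mul, _root_.Fermat.Agent.S59.TW.H658.IntB.mob_mul]
  simp_rw [h]
  exact finsum_comp_equiv (Equiv.mulRight γ)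
    (f := fun γ'' : L.Γ => η (mob (γ'' : SL(2, ℤ)) z))

theorem sym_add {η₁ η₂ : ℂ → ℝ} (h₁ : IsTest η₁) (h₂ : IsTest η₂) (z : ℂ) (hz : z ∈ Uhp) :
    _root_.Fermat.Agent.S59.TW.H658.sym L (fun w => η₁ w + η₂ w) z = _root_.Fermat.Agent.S59.TW.H658.sym L η₁ z + _root_.Fermat.Agent.S59.TW.H658.sym L η₂ z := by
  unfold _root_.Fermat.Agent.S59.TW.H658.sym
  exact finsum_add_distrib (_root_.Fermat.Agent.S59.TW.H658.IntB.finite_support_point L h₁ hz) (_root_.Fermat.Agent.S59.TW.H658.IntB.finite_support_point L h₂ hz)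

theorem sym_smul {η : ℂ → ℝ} (hη : IsTest η) (c : ℝ) (z : ℂ) (hz : z ∈ Uhp) :
    _root_.Fermat.Agent.S59.TW.H658.sym L (fun w => c * η w) z = c * _root_.Fermat.Agent.S59.TW.H658.sym L η z := by
  unfold _root_.Fermat.Agent.S59.TW.H658.sym
  exact (mul_finsum _ c).symm

/-- finite energy of a symmetrized test function -/
theorem integrable_energy_sym (hχ : IsSL2ZPartition χ₁) {η : ℂ → ℝ} (hη : IsTest η) :
    Integrable (fun z => ‖dz (_root_.Fermat.Agent.S59.TW.H658.sym L η) z‖ ^ 2 * _root_.Fermat.Agent.S59.TW.H658.chi L χ₁ z) := by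
  classical
  set K : Set ℂ := tsupport η with hKdef
  have hK : IsCompact K := hη.2.1
  have hKU : K ⊆ Uhp := hη.2.2
  have hG := hχ.locfin K hK hKU
  -- the compact set carrying the integrand
  set C : Set ℂ := ⋃ g ∈ hG.toFinset,
    mob ((Quotient.out (QuotientGroup.mk g : SL(2, ℤ) ⧸ L.Γ))⁻¹ * g) '' K with hCdef
  have hC : IsCompact C :=
    hG.toFinset.isCompact_biUnion fun g _ =>
      hK.image_of_continuousOn ((_root_.Fermat.Agent.S59.TW.H658.IntB.continuousOn_mob _).mono hKU)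
  have hCU : C ⊆ Uhp := by
    intro z hz
    simp only [hCdef, Set.mem_iUnion] at hz
    obtain ⟨g, _, w, _, rfl⟩ := hz
    exact _root_.Fermat.Agent.S59.TW.H658.IntB.mob_mem_Uhp _ _
  have hcont : ContinuousOn (fun z => ‖dz (_root_.Fermat.Agent.S59.TW.H658.sym L η) z‖ ^ 2 * _root_.Fermat.Agent.S59.TW.H658.chi L χ₁ z) Uhp :=
    (((_root_.Fermat.Agent.S59.TW.H658.IntB.continuousOn_dz (_root_.Fermat.Agent.S59.TW.H658.contDiffOn_sym L hη)).norm).pow 2).mul
      (_root_.Fermat.Agent.S59.TW.H658.IntB.continuousOn_chi_aux L hχ)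
  have hint : IntegrableOn (fun z => ‖dz (_root_.Fermat.Agent.S59.TW.H658.sym L η) z‖ ^ 2 * _root_.Fermat.Agent.S59.TW.H658.chi L χ₁ z) C :=
    (hcont.mono hCU).integrableOn_compact hC
  refine hint.integrable_of_forall_notMem_eq_zero ?_
  intro z hzC
  by_contra hne
  have h1 : dz (_root_.Fermat.Agent.S59.TW.H658.sym L η) z ≠ 0 := by
    intro h0
    apply hne
    simp [h0]
  have h2 : _root_.Fermat.Agent.S59.TW.H658.chi L χ₁ z ≠ 0 := by
    intro h0
    apply hne
    simp [h0]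
  obtain ⟨hzU, q, hq⟩ := _root_.Fermat.Agent.S59.TW.H658.IntB.exists_of_chi_ne_zero L h2
  have h3 : ∃ γ : L.Γ, mob (γ : SL(2, ℤ)) z ∈ tsupport η := by
    by_contra hcon
    push Not at hcon
    exact h1 (_root_.Fermat.Agent.S59.TW.H658.IntB.dz_sym_eq_zero L hη hzU hcon)
  obtain ⟨γ, hγ⟩ := h3
  apply hzC
  set g : SL(2, ℤ) := Quotient.out q * (γ : SL(2, ℤ))⁻¹ with hgdef
  have hgz : mob g (mob (γ : SL(2, ℤ)) z) = mob (Quotient.out q) z := by
    rw [hgdef, _root_.Fermat.Agent.S59.TW.H658.IntB.mob_mul, _root_.Fermat.Agent.S59.TW.H658.IntB.mob_inv_mob _ hzU]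
  have hgG : g ∈ hG.toFinset := by
    simp only [Set.Finite.mem_toFinset, Set.mem_ofPred_eq]
    exact ⟨mob (γ : SL(2, ℤ)) z, hγ, by rw [hgz]; exact hq⟩
  have hmk : (QuotientGroup.mk g : SL(2, ℤ) ⧸ L.Γ) = q := by
    rw [hgdef, QuotientGroup.mk_mul_of_mem _ (Subgroup.inv_mem _ γ.2)]
    exact QuotientGroup.out_eq' q
  have hh : (Quotient.out (QuotientGroup.mk g : SL(2, ℤ) ⧸ L.Γ))⁻¹ * g
      = (γ : SL(2, ℤ))⁻¹ := by
    rw [hmk, hgdef, ← mul_assoc, inv_mul_cancel, one_mul]
  simp only [hCdef, Set.mem_iUnion]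
  refine ⟨g, hgG, mob (γ : SL(2, ℤ)) z, hγ, ?_⟩
  rw [hh, _root_.Fermat.Agent.S59.TW.H658.IntB.mob_inv_mob _ hzU]

end INT

end Fermat.Agent.S59.TW.H658

end
-- ===== PACK-END S59/TW/H658/IntB.lean

-- ===== PACK-BEGIN S59/TW/H658/IntDCore.lean
section





/-!
# S21 / INT-D — folding inequality, multiplicity bounds, finite energy of `u₀`

This file contains the parts of INT-D which do not depend on INT-A, together with versions of
`folding` and `integrable_energy_u0` which take the needed INT-A facts as hypotheses.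
-/

set_option autoImplicit false
set_option linter.unusedVariables false

open UpperHalfPlane CongruenceSubgroup MeasureTheory
open scoped MatrixGroups ContDiff Topology ENNReal

namespace Fermat.Agent.S59.TW.H658

open Fermat.Agent.S21

open PartitionAux

/-! ### Multiplicity bounds -/

/-- multiplicity of a compact set -/
theorem mult_compact (K : Set ℂ) (hK : IsCompact K) (hKU : K ⊆ Uhp) :
    ∃ M : ℕ, ∀ w ∈ Uhp, {g : SL(2, ℤ) | mob g w ∈ K}.encard ≤ M := by
  have hfin := finite_mob_inter K hK hKU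
  refine ⟨hfin.toFinset.card, fun w _ => ?_⟩
  rcases Set.eq_empty_or_nonempty {g : SL(2, ℤ) | mob g w ∈ K} with hemp | ⟨g₀, hg₀⟩
  · rw [hemp]; simp
  · have hsub : {g : SL(2, ℤ) | mob g w ∈ K} ⊆
        (fun h => h * g₀) '' {h : SL(2, ℤ) | ∃ z ∈ K, mob h z ∈ K} := by
      intro g hg
      refine ⟨g * g₀⁻¹, ⟨mob g₀ w, hg₀, ?_⟩, by simp⟩
      rw [mob_mob]
      simpa using hg
    calc {g : SL(2, ℤ) | mob g w ∈ K}.encard
        ≤ ((fun h => h * g₀) '' {h : SL(2, ℤ) | ∃ z ∈ K, mob h z ∈ K}).encard :=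
          Set.encard_le_encard hsub
      _ ≤ {h : SL(2, ℤ) | ∃ z ∈ K, mob h z ∈ K}.encard := Set.encard_image_le _ _
      _ = hfin.toFinset.card := hfin.encard_eq_coe_toFinset_card

/-- auxiliary: the shape of an element of `SL(2,ℤ)` mapping a point of a cusp strip to a point
of a cusp strip -/
theorem IntDAux.strip_elt (h : SL(2, ℤ)) (Y : ℝ) {z₀ z : ℂ} (hz₀ : z₀ ∈ strip Y)
    (hz : z ∈ strip Y) (hh : mob h z₀ = z) :
    h 1 0 = 0 ∧ (h 0 0 = 1 ∨ h 0 0 = -1) ∧ h 1 1 = h 0 0 ∧ |h 0 1| ≤ 2 := by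
  obtain ⟨hre₀, him₀, -⟩ := hz₀
  obtain ⟨hre, him, -⟩ := hz
  have hz₀U : z₀ ∈ Uhp := lt_of_lt_of_le (by norm_num) him₀
  have hc : h 1 0 = 0 := by
    apply c_eq_zero_of_two_le_im h z₀ him₀
    rw [hh]
    linarith
  have had : h 0 0 * h 1 1 = 1 := by
    have hdet := h.det_coe
    rw [Matrix.det_fin_two, hc] at hdet
    linarith
  have hcd : cd h z₀ = ((h 1 1 : ℤ) : ℂ) := by simp [cd, hc]
  have hmob := _root_.Fermat.Agent.S21.PartitionAux.mob_eq_div h hz₀U
  rw [hh, hcd] at hmob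
  rcases Int.eq_one_or_neg_one_of_mul_eq_one' had with (⟨ha, hd⟩ | ⟨ha, hd⟩)
  · refine ⟨hc, Or.inl ha, by rw [ha, hd], ?_⟩
    rw [ha, hd] at hmob
    have hre' : z.re = z₀.re + (h 0 1 : ℤ) := by
      rw [hmob]; simp
    have habs : |((h 0 1 : ℤ) : ℝ)| ≤ 2 := by
      rw [abs_le] at hre hre₀ ⊢
      constructor <;> linarith [hre.1, hre.2, hre₀.1, hre₀.2]
    exact_mod_cast habs
  · refine ⟨hc, Or.inr ha, by rw [ha, hd], ?_⟩
    rw [ha, hd] at hmob
    have hre' : z.re = z₀.re - (h 0 1 : ℤ) := by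
      rw [hmob]; simp [div_neg]; ring
    have habs : |((h 0 1 : ℤ) : ℝ)| ≤ 2 := by
      rw [abs_le] at hre hre₀ ⊢
      constructor <;> linarith [hre.1, hre.2, hre₀.1, hre₀.2]
    exact_mod_cast habs

/-- multiplicity of a cusp strip -/
theorem mult_strip (δ : SL(2, ℤ)) (Y : ℝ) (w : ℂ) (hw : w ∈ Uhp) :
    {g : SL(2, ℤ) | mob g w ∈ mob δ '' strip Y}.encard ≤ 10 := by
  rcases Set.eq_empty_or_nonempty {g : SL(2, ℤ) | mob g w ∈ mob δ '' strip Y} with
    hemp | ⟨g₀, z₀, hz₀, hg₀⟩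
  · rw [hemp]; simp
  have hkey : ∀ g ∈ {g : SL(2, ℤ) | mob g w ∈ mob δ '' strip Y},
      (δ⁻¹ * g * g₀⁻¹ * δ) 1 0 = 0 ∧
      ((δ⁻¹ * g * g₀⁻¹ * δ) 0 0 = 1 ∨ (δ⁻¹ * g * g₀⁻¹ * δ) 0 0 = -1) ∧
      (δ⁻¹ * g * g₀⁻¹ * δ) 1 1 = (δ⁻¹ * g * g₀⁻¹ * δ) 0 0 ∧
      |(δ⁻¹ * g * g₀⁻¹ * δ) 0 1| ≤ 2 := by
    rintro g ⟨z, hz, hgz⟩
    have hzU : z ∈ Uhp := lt_of_lt_of_le (by norm_num) hz.2.1
    refine _root_.Fermat.Agent.S59.TW.H658.IntDAux.strip_elt _ Y hz₀ hz ?_
    calc mob (δ⁻¹ * g * g₀⁻¹ * δ) z₀ = mob (δ⁻¹ * g * g₀⁻¹) (mob δ z₀) := by rw [mob_mob]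
      _ = mob (δ⁻¹ * g * g₀⁻¹) (mob g₀ w) := by rw [hg₀]
      _ = mob (δ⁻¹ * g) w := by rw [mob_mob]; congr 1; group
      _ = mob δ⁻¹ (mob g w) := by rw [mob_mob]
      _ = mob δ⁻¹ (mob δ z) := by rw [hgz]
      _ = z := by rw [mob_mob, inv_mul_cancel, _root_.Fermat.Agent.S21.PartitionAux.mob_one hzU]
  let f : SL(2, ℤ) → ℤ × ℤ := fun g => ((δ⁻¹ * g * g₀⁻¹ * δ) 0 0, (δ⁻¹ * g * g₀⁻¹ * δ) 0 1)
  let t : Finset (ℤ × ℤ) := ({1, -1} : Finset ℤ) ×ˢ Finset.Icc (-2) 2
  have hmaps : Set.MapsTo f {g : SL(2, ℤ) | mob g w ∈ mob δ '' strip Y} (t : Set (ℤ × ℤ)) := by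
    intro g hg
    obtain ⟨-, ha, -, hb⟩ := hkey g hg
    simp only [Finset.coe_product, Set.mem_prod, Finset.mem_coe, Finset.mem_insert,
      Finset.mem_singleton, Finset.mem_Icc, f, t]
    exact ⟨ha, abs_le.mp hb⟩
  have hinj : Set.InjOn f {g : SL(2, ℤ) | mob g w ∈ mob δ '' strip Y} := by
    intro g hg g' hg' hfg
    obtain ⟨hc, -, hd, -⟩ := hkey g hg
    obtain ⟨hc', -, hd', -⟩ := hkey g' hg'
    have h00 : (δ⁻¹ * g * g₀⁻¹ * δ) 0 0 = (δ⁻¹ * g' * g₀⁻¹ * δ) 0 0 := congrArg Prod.fst hfg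
    have h01 : (δ⁻¹ * g * g₀⁻¹ * δ) 0 1 = (δ⁻¹ * g' * g₀⁻¹ * δ) 0 1 := congrArg Prod.snd hfg
    have heq : δ⁻¹ * g * g₀⁻¹ * δ = δ⁻¹ * g' * g₀⁻¹ * δ := by
      ext i j
      fin_cases i <;> fin_cases j
      · exact h00
      · exact h01
      · exact hc.trans hc'.symm
      · exact (hd.trans h00).trans hd'.symm
    have h1 := mul_right_cancel heq
    have h2 := mul_right_cancel h1
    exact mul_left_cancel h2
  calc {g : SL(2, ℤ) | mob g w ∈ mob δ '' strip Y}.encard
      ≤ (t : Set (ℤ × ℤ)).encard := Set.encard_le_encard_of_injOn hmaps hinj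
    _ = t.card := Set.encard_coe_eq_coe_finsetCard t
    _ = 10 := by
        have : t.card = 10 := by decide
        rw [this]; rfl

/-! ### Finite energy of `u₀` -/

/-- `chi` vanishes off the upper half plane. -/
theorem IntDAux.chi_eq_zero_of_notMem (L : Lev) (χ₁ : ℂ → ℝ) {z : ℂ} (hz : z ∉ Uhp) :
    _root_.Fermat.Agent.S59.TW.H658.chi L χ₁ z = 0 := by
  unfold _root_.Fermat.Agent.S59.TW.H658.chi
  exact Set.indicator_of_notMem hz _

/-- where `chi` does not vanish, some translate lies in the support of `χ₁`. -/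
theorem IntDAux.exists_of_chi_ne_zero (L : Lev) {χ₁ : ℂ → ℝ} {z : ℂ} (h : _root_.Fermat.Agent.S59.TW.H658.chi L χ₁ z ≠ 0) :
    z ∈ Uhp ∧ ∃ q : SL(2, ℤ) ⧸ L.Γ, χ₁ (mob (Quotient.out q) z) ≠ 0 := by
  have hz : z ∈ Uhp := by
    by_contra hz
    exact h (_root_.Fermat.Agent.S59.TW.H658.IntDAux.chi_eq_zero_of_notMem L χ₁ hz)
  refine ⟨hz, ?_⟩
  by_contra hcon
  have hcon' : ∀ q : SL(2, ℤ) ⧸ L.Γ, χ₁ (mob (Quotient.out q) z) = 0 := fun q =>
    by_contra fun hq => hcon ⟨q, hq⟩
  apply h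
  unfold _root_.Fermat.Agent.S59.TW.H658.chi
  rw [Set.indicator_of_mem hz]
  exact finsum_eq_zero_of_forall_eq_zero hcon'

/-- the compact rectangle `{|Re z| ≤ 1, 1/2 ≤ Im z ≤ 2}` -/
def IntDAux.rect : Set ℂ := Set.Icc (-1 : ℝ) 1 ×ℂ Set.Icc (1 / 2 : ℝ) 2

theorem IntDAux.isCompact_rect : IsCompact _root_.Fermat.Agent.S59.TW.H658.IntDAux.rect :=
  Metric.isCompact_of_isClosed_isBounded (isClosed_Icc.reProdIm isClosed_Icc)
    ((Metric.isBounded_Icc (-1 : ℝ) 1).reProdIm (Metric.isBounded_Icc (1 / 2 : ℝ) 2))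

theorem IntDAux.rect_subset : _root_.Fermat.Agent.S59.TW.H658.IntDAux.rect ⊆ Uhp := by
  intro z hz
  have h := hz.2.1
  exact lt_of_lt_of_le (by norm_num) h

theorem IntDAux.continuousOn_dz {u : ℂ → ℝ} (hu : ContDiffOn ℝ 1 u Uhp) :
    ContinuousOn (dz u) Uhp := by
  have h1 := hu.continuousOn_fderiv_of_isOpen isOpen_Uhp le_rfl
  have hv : ∀ v : ℂ, ContinuousOn (fun z => ((fderiv ℝ u z v : ℝ) : ℂ)) Uhp := fun v =>
    Complex.continuous_ofReal.comp_continuousOn (h1.clm_apply continuousOn_const)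
  unfold dz
  exact (hv 1).sub (continuousOn_const.mul (hv Complex.I))

/-- finite energy of `u₀`, with the continuity of `chi` (INT-A) as a hypothesis -/
theorem IntDAux.integrable_energy_u0_of (L : Lev) {χ₁ : ℂ → ℝ}
    (hχ : IsSL2ZPartition χ₁) (hcont : ContinuousOn (_root_.Fermat.Agent.S59.TW.H658.chi L χ₁) Uhp) (u₀ : ℂ → ℝ)
    (hu : ContDiffOn ℝ ∞ u₀ Uhp)
    (hcusp : ∀ (δ : SL(2, ℤ)) (z : ℂ), 2 < z.im → dz u₀ (mob δ z) = 0) :
    Integrable (fun z => ‖dz u₀ z‖ ^ 2 * _root_.Fermat.Agent.S59.TW.H658.chi L χ₁ z) := by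
  set C : Set ℂ := ⋃ q : SL(2, ℤ) ⧸ L.Γ, mob (Quotient.out q)⁻¹ '' _root_.Fermat.Agent.S59.TW.H658.IntDAux.rect with hC
  have hCc : IsCompact C := by
    have : Finite (SL(2, ℤ) ⧸ L.Γ) := Subgroup.finite_quotient_of_finiteIndex
    refine isCompact_iUnion fun q => ?_
    exact _root_.Fermat.Agent.S59.TW.H658.IntDAux.isCompact_rect.image_of_continuousOn
      ((mob_contDiffOn _).continuousOn.mono _root_.Fermat.Agent.S59.TW.H658.IntDAux.rect_subset)
  have hCU : C ⊆ Uhp := by
    intro z hz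
    obtain ⟨q, w, -, rfl⟩ := Set.mem_iUnion.mp hz
    exact _root_.Fermat.Agent.S21.PartitionAux.mob_mem_Uhp _ _
  have hsupp : Function.support (fun z => ‖dz u₀ z‖ ^ 2 * _root_.Fermat.Agent.S59.TW.H658.chi L χ₁ z) ⊆ C := by
    intro z hz
    rw [Function.mem_support] at hz
    have h1 : _root_.Fermat.Agent.S59.TW.H658.chi L χ₁ z ≠ 0 := right_ne_zero_of_mul hz
    have h2 : dz u₀ z ≠ 0 := by
      intro h0
      apply hz
      rw [h0]; simp
    obtain ⟨hzU, q, hq⟩ := _root_.Fermat.Agent.S59.TW.H658.IntDAux.exists_of_chi_ne_zero L h1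
    obtain ⟨hre, him⟩ := hχ.supp _ hq
    have hback : mob (Quotient.out q)⁻¹ (mob (Quotient.out q) z) = z := by
      rw [mob_mob, inv_mul_cancel, _root_.Fermat.Agent.S21.PartitionAux.mob_one hzU]
    have him2 : (mob (Quotient.out q) z).im ≤ 2 := by
      by_contra hlt
      rw [not_le] at hlt
      apply h2
      rw [← hback]
      exact hcusp _ _ hlt
    refine Set.mem_iUnion.mpr ⟨q, mob (Quotient.out q) z, ?_, hback⟩
    exact ⟨abs_le.mp hre, him.le, him2⟩
  have hcontf : ContinuousOn (fun z => ‖dz u₀ z‖ ^ 2 * _root_.Fermat.Agent.S59.TW.H658.chi L χ₁ z) Uhp :=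
    (((_root_.Fermat.Agent.S59.TW.H658.IntDAux.continuousOn_dz (hu.of_le (by simp))).norm).pow 2).mul hcont
  rw [← integrableOn_iff_integrable_of_support_subset hsupp]
  exact (hcontf.mono hCU).integrableOn_compact hCc

/-! ### The folding inequality -/

namespace IntDAux

theorem countable_matrix : Countable (Matrix (Fin 2) (Fin 2) ℤ) := by
  unfold Matrix; infer_instance

theorem countable_SL2Z : Countable SL(2, ℤ) := by
  have := countable_matrix
  unfold Matrix.SpecialLinearGroup; infer_instance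

theorem countable_Gamma0 (L : Lev) : Countable (L.Γ) := by
  have := countable_SL2Z
  infer_instance

theorem injOn_mob (δ : SL(2, ℤ)) {K : Set ℂ} (hKU : K ⊆ Uhp) : Set.InjOn (mob δ) K := by
  intro z hz w hw hzw
  have h := congrArg (mob δ⁻¹) hzw
  rwa [mob_mob, mob_mob, inv_mul_cancel, _root_.Fermat.Agent.S21.PartitionAux.mob_one (hKU hz), _root_.Fermat.Agent.S21.PartitionAux.mob_one (hKU hw)] at h

theorem abs_det_smulFDeriv (δ : SL(2, ℤ)) {z : ℂ} (hz : z ∈ Uhp) :
    |(smulFDeriv (δ : GL (Fin 2) ℝ) z).det| = 1 / ‖cd δ z‖ ^ 4 := by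
  have hpos : (0 : ℝ) < ‖denom (δ : GL (Fin 2) ℝ) z‖ ^ 4 :=
    pow_pos (norm_pos_iff.mpr (denom_ne_zero (δ : GL (Fin 2) ℝ) ⟨z, hz⟩)) 4
  simp only [det_smulFDeriv, SmallAux.cd_eq_denom]
  simp [abs_of_pos hpos]

/-- change of variables for the lower Lebesgue integral under a Möbius transformation -/
theorem lintegral_mob (δ : SL(2, ℤ)) (K : Set ℂ) (hK : MeasurableSet K) (hKU : K ⊆ Uhp)
    (h : ℂ → ℝ≥0∞) :
    ∫⁻ w in mob δ '' K, h w = ∫⁻ z in K, ENNReal.ofReal (1 / ‖cd δ z‖ ^ 4) * h (mob δ z) := by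
  have hd : ∀ z ∈ K, HasFDerivWithinAt (mob δ) (smulFDeriv (δ : GL (Fin 2) ℝ) z) K z :=
    fun z hz =>
      (hasStrictFDerivAt_smul (δ : GL (Fin 2) ℝ) ⟨z, hKU hz⟩).hasFDerivAt.hasFDerivWithinAt
  rw [lintegral_image_eq_lintegral_abs_det_fderiv_mul volume hK hd (injOn_mob δ hKU)]
  refine setLIntegral_congr_fun hK fun z hz => ?_
  show ENNReal.ofReal |(smulFDeriv (δ : GL (Fin 2) ℝ) z).det| * h (mob δ z) = _
  rw [abs_det_smulFDeriv δ (hKU hz)]

theorem measurableSet_mob_image (δ : SL(2, ℤ)) (K : Set ℂ) (hK : MeasurableSet K)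
    (hKU : K ⊆ Uhp) : MeasurableSet (mob δ '' K) :=
  hK.image_of_continuousOn_injOn ((mob_contDiffOn δ).continuousOn.mono hKU) (injOn_mob δ hKU)

theorem aemeasurable_mob (δ : SL(2, ℤ)) (K : Set ℂ) (hKU : K ⊆ Uhp) :
    AEMeasurable (mob δ) (volume.restrict K) :=
  ((mob_contDiffOn δ).continuousOn.aemeasurable isOpen_Uhp.measurableSet).mono_measure
    (Measure.restrict_mono hKU le_rfl)

end IntDAux

/-- The folding inequality, with the needed INT-A facts as hypotheses. -/
theorem IntDAux.folding_of (L : Lev) {χ₁ : ℂ → ℝ}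
    (hnn : ∀ z, 0 ≤ _root_.Fermat.Agent.S59.TW.H658.chi L χ₁ z) (hmeas : Measurable (_root_.Fermat.Agent.S59.TW.H658.chi L χ₁))
    (hlocfin : ∀ z ∈ Uhp, {γ : L.Γ | chi L χ₁ (mob (γ : SL(2, ℤ)) z) ≠ 0}.Finite)
    (hsum : ∀ z ∈ Uhp, ∑ᶠ γ : L.Γ, _root_.Fermat.Agent.S59.TW.H658.chi L χ₁ (mob (γ : SL(2, ℤ)) z) = 1)
    (G : ℂ → ℂ) (hG : ContinuousOn G Uhp)
    (hinv : ∀ γ : L.Γ, ∀ z ∈ Uhp,
      G (mob (γ : SL(2, ℤ)) z) = (cd (γ : SL(2, ℤ)) z) ^ 2 * G z)
    (hfin : Integrable (fun z => ‖G z‖ ^ 2 * _root_.Fermat.Agent.S59.TW.H658.chi L χ₁ z))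
    (A : Set ℂ) (hA : MeasurableSet A) (hAU : A ⊆ Uhp) (M : ℕ)
    (hM : ∀ w ∈ Uhp, {g : SL(2, ℤ) | mob g w ∈ A}.encard ≤ M) :
    ∫ z in A, ‖G z‖ ^ 2 ≤ M * ∫ z, ‖G z‖ ^ 2 * _root_.Fermat.Agent.S59.TW.H658.chi L χ₁ z := by
  classical
  have hcount : Countable (L.Γ) := _root_.Fermat.Agent.S59.TW.H658.IntDAux.countable_Gamma0 L
  set h : ℂ → ℝ≥0∞ := fun w => ENNReal.ofReal (‖G w‖ ^ 2 * _root_.Fermat.Agent.S59.TW.H658.chi L χ₁ w) with hh
  have hh_meas : AEMeasurable h volume := hfin.aestronglyMeasurable.aemeasurable.ennreal_ofReal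
  have hGA : AEMeasurable G (volume.restrict A) :=
    (hG.aemeasurable isOpen_Uhp.measurableSet).mono_measure (Measure.restrict_mono hAU le_rfl)
  -- (a) pointwise partition of unity
  have hone : ∀ z ∈ Uhp, ∑' γ : L.Γ, ENNReal.ofReal (_root_.Fermat.Agent.S59.TW.H658.chi L χ₁ (mob (γ : SL(2, ℤ)) z)) = 1 := by
    intro z hz
    have hfinz := hlocfin z hz
    have h1 : ∑' γ : L.Γ, ENNReal.ofReal (_root_.Fermat.Agent.S59.TW.H658.chi L χ₁ (mob (γ : SL(2, ℤ)) z)) =
        ∑ γ ∈ hfinz.toFinset, ENNReal.ofReal (_root_.Fermat.Agent.S59.TW.H658.chi L χ₁ (mob (γ : SL(2, ℤ)) z)) := by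
      refine tsum_eq_sum fun γ hγ => ?_
      have : _root_.Fermat.Agent.S59.TW.H658.chi L χ₁ (mob (γ : SL(2, ℤ)) z) = 0 := by
        by_contra hne
        exact hγ (hfinz.mem_toFinset.mpr hne)
      rw [this, ENNReal.ofReal_zero]
    have h2 : ∑ᶠ γ : L.Γ, _root_.Fermat.Agent.S59.TW.H658.chi L χ₁ (mob (γ : SL(2, ℤ)) z) =
        ∑ γ ∈ hfinz.toFinset, _root_.Fermat.Agent.S59.TW.H658.chi L χ₁ (mob (γ : SL(2, ℤ)) z) := by
      refine finsum_eq_sum_of_support_subset _ fun γ hγ => ?_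
      exact Finset.mem_coe.mpr (hfinz.mem_toFinset.mpr hγ)
    rw [h1, ← ENNReal.ofReal_sum_of_nonneg (fun γ _ => hnn _), ← h2, hsum z hz,
      ENNReal.ofReal_one]
  have hpt : ∀ z ∈ A, ENNReal.ofReal (‖G z‖ ^ 2) =
      ∑' γ : L.Γ, ENNReal.ofReal (‖G z‖ ^ 2 * _root_.Fermat.Agent.S59.TW.H658.chi L χ₁ (mob (γ : SL(2, ℤ)) z)) := by
    intro z hz
    have : ∀ γ : L.Γ, ENNReal.ofReal (‖G z‖ ^ 2 * _root_.Fermat.Agent.S59.TW.H658.chi L χ₁ (mob (γ : SL(2, ℤ)) z)) =
        ENNReal.ofReal (‖G z‖ ^ 2) * ENNReal.ofReal (_root_.Fermat.Agent.S59.TW.H658.chi L χ₁ (mob (γ : SL(2, ℤ)) z)) :=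
      fun γ => ENNReal.ofReal_mul (by positivity)
    simp_rw [this]
    rw [ENNReal.tsum_mul_left, hone z (hAU hz), mul_one]
  -- (c) change of variables
  have hcv : ∀ γ : L.Γ,
      ∫⁻ z in A, ENNReal.ofReal (‖G z‖ ^ 2 * _root_.Fermat.Agent.S59.TW.H658.chi L χ₁ (mob (γ : SL(2, ℤ)) z)) =
        ∫⁻ w in mob (γ : SL(2, ℤ)) '' A, h w := by
    intro γ
    rw [_root_.Fermat.Agent.S59.TW.H658.IntDAux.lintegral_mob (γ : SL(2, ℤ)) A hA hAU h]
    refine setLIntegral_congr_fun hA fun z hz => ?_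
    have hzU := hAU hz
    have hcd : cd (γ : SL(2, ℤ)) z ≠ 0 := SmallAux.cd_ne_zero _ hzU
    have hpos : 0 < ‖cd (γ : SL(2, ℤ)) z‖ := norm_pos_iff.mpr hcd
    simp only [hh]
    rw [← ENNReal.ofReal_mul (by positivity), hinv γ z hzU, norm_mul, norm_pow]
    congr 1
    field_simp
  -- measurability of the terms
  have hterm : ∀ γ : L.Γ, AEMeasurable
      (fun z => ENNReal.ofReal (‖G z‖ ^ 2 * _root_.Fermat.Agent.S59.TW.H658.chi L χ₁ (mob (γ : SL(2, ℤ)) z)))
      (volume.restrict A) := by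
    intro γ
    refine ENNReal.measurable_ofReal.comp_aemeasurable ?_
    exact (hGA.norm.pow_const 2).mul
      (hmeas.comp_aemeasurable (_root_.Fermat.Agent.S59.TW.H658.IntDAux.aemeasurable_mob _ A hAU))
  -- (d) the multiplicity bound
  have hmult : ∀ w : ℂ, ∑' γ : L.Γ, (mob (γ : SL(2, ℤ)) '' A).indicator h w ≤ M * h w := by
    intro w
    by_cases hw0 : h w = 0
    · have : ∀ γ : L.Γ, (mob (γ : SL(2, ℤ)) '' A).indicator h w = 0 := by
        intro γ
        by_cases hmem : w ∈ mob (γ : SL(2, ℤ)) '' A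
        · rw [Set.indicator_of_mem hmem, hw0]
        · exact Set.indicator_of_notMem hmem _
      simp [this, hw0]
    · have hwU : w ∈ Uhp := by
        by_contra hwU
        apply hw0
        simp only [hh]
        rw [_root_.Fermat.Agent.S59.TW.H658.IntDAux.chi_eq_zero_of_notMem L χ₁ hwU, mul_zero, ENNReal.ofReal_zero]
      set S : Set (L.Γ) := {γ | w ∈ mob (γ : SL(2, ℤ)) '' A} with hS
      have hind : ∀ γ : L.Γ, (mob (γ : SL(2, ℤ)) '' A).indicator h w =
          S.indicator (fun _ => h w) γ := by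
        intro γ
        by_cases hmem : w ∈ mob (γ : SL(2, ℤ)) '' A
        · rw [Set.indicator_of_mem hmem, Set.indicator_of_mem (show γ ∈ S from hmem)]
        · rw [Set.indicator_of_notMem hmem, Set.indicator_of_notMem (show γ ∉ S from hmem)]
      simp_rw [hind]
      rw [← tsum_subtype S (fun _ => h w), ENNReal.tsum_set_const]
      have hSle : S.encard ≤ M := by
        refine le_trans ?_ (hM w hwU)
        refine Set.encard_le_encard_of_injOn (f := fun γ : L.Γ => ((γ : SL(2, ℤ)))⁻¹) ?_ ?_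
        · rintro γ ⟨z, hz, hzw⟩
          show mob ((γ : SL(2, ℤ)))⁻¹ w ∈ A
          rw [← hzw, mob_mob, inv_mul_cancel, _root_.Fermat.Agent.S21.PartitionAux.mob_one (hAU hz)]
          exact hz
        · intro γ _ γ' _ hγ
          exact Subtype.ext (inv_injective hγ)
      exact mul_le_mul_left (by exact_mod_cast hSle) _
  -- assemble the `lintegral` inequality
  have hlint : ∫⁻ z in A, ENNReal.ofReal (‖G z‖ ^ 2) ≤ M * ∫⁻ w, h w := by
    calc ∫⁻ z in A, ENNReal.ofReal (‖G z‖ ^ 2)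
        = ∫⁻ z in A, ∑' γ : L.Γ,
            ENNReal.ofReal (‖G z‖ ^ 2 * _root_.Fermat.Agent.S59.TW.H658.chi L χ₁ (mob (γ : SL(2, ℤ)) z)) :=
          setLIntegral_congr_fun hA hpt
      _ = ∑' γ : L.Γ, ∫⁻ z in A,
            ENNReal.ofReal (‖G z‖ ^ 2 * _root_.Fermat.Agent.S59.TW.H658.chi L χ₁ (mob (γ : SL(2, ℤ)) z)) :=
          lintegral_tsum hterm
      _ = ∑' γ : L.Γ, ∫⁻ w, (mob (γ : SL(2, ℤ)) '' A).indicator h w := by
          congr 1
          funext γ
          rw [hcv γ, lintegral_indicator (_root_.Fermat.Agent.S59.TW.H658.IntDAux.measurableSet_mob_image _ A hA hAU)]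
      _ = ∫⁻ w, ∑' γ : L.Γ, (mob (γ : SL(2, ℤ)) '' A).indicator h w :=
          (lintegral_tsum fun γ =>
            hh_meas.indicator (_root_.Fermat.Agent.S59.TW.H658.IntDAux.measurableSet_mob_image _ A hA hAU)).symm
      _ ≤ ∫⁻ w, M * h w := lintegral_mono hmult
      _ = M * ∫⁻ w, h w := lintegral_const_mul'' _ hh_meas
  -- back to Bochner integrals
  have hnn' : 0 ≤ᵐ[volume] fun z => ‖G z‖ ^ 2 * _root_.Fermat.Agent.S59.TW.H658.chi L χ₁ z :=
    Filter.Eventually.of_forall fun z => mul_nonneg (by positivity) (hnn z)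
  have hI : ∫⁻ w, h w = ENNReal.ofReal (∫ z, ‖G z‖ ^ 2 * _root_.Fermat.Agent.S59.TW.H658.chi L χ₁ z) :=
    (ofReal_integral_eq_lintegral_ofReal hfin hnn').symm
  have hInn : 0 ≤ ∫ z, ‖G z‖ ^ 2 * _root_.Fermat.Agent.S59.TW.H658.chi L χ₁ z := integral_nonneg_of_ae hnn'
  rw [integral_eq_lintegral_of_nonneg_ae (Filter.Eventually.of_forall fun z => by positivity)
    (hGA.norm.pow_const 2).aestronglyMeasurable]
  rw [hI] at hlint
  calc (∫⁻ z in A, ENNReal.ofReal (‖G z‖ ^ 2)).toReal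
      ≤ ((M : ℝ≥0∞) * ENNReal.ofReal (∫ z, ‖G z‖ ^ 2 * _root_.Fermat.Agent.S59.TW.H658.chi L χ₁ z)).toReal :=
        ENNReal.toReal_mono (ENNReal.mul_ne_top (ENNReal.natCast_ne_top M) ENNReal.ofReal_ne_top)
          hlint
    _ = M * ∫ z, ‖G z‖ ^ 2 * _root_.Fermat.Agent.S59.TW.H658.chi L χ₁ z := by
        rw [ENNReal.toReal_mul, ENNReal.toReal_natCast, ENNReal.toReal_ofReal hInn]

end Fermat.Agent.S59.TW.H658

end
-- ===== PACK-END S59/TW/H658/IntDCore.lean

-- ===== PACK-BEGIN A3/H619/Order.lean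
section
/-
A3 / piece ORD (helper619): the hypotheses (O0)-(O3) on an order `H` of equivariant functions on a
finite Galois module `T`, and their first consequences: `H` is free over `R = ratLocalizedAt p`,
an `R`-basis of `H` is a `ℚ̄`-basis of `T → ℚ̄`, the tensor powers of `H` embed into function
algebras.
-/


set_option autoImplicit false

noncomputable section

namespace Fermat.Agent.A3.H619

open GaloisRep TensorProduct Module

variable {p : ℕ} {T : Type} [AddCommGroup T]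

/-- The part of the hypotheses of piece ORD which does not involve the group law. -/
structure PreOrderHyp (p : ℕ) (T : Type) (act : GQ → T → T)
    (H : Subalgebra (ratLocalizedAt p) (T → Qb)) : Prop where
  act_one : ∀ t, act 1 t = t
  act_mul : ∀ (σ τ : GQ) (t : T), act (σ * τ) t = act σ (act τ t)
  /-- (O0) the functions in `H` are Galois-equivariant -/
  equiv : ∀ f ∈ H, IsEquivFun act f
  /-- (O1) `H` is a finitely generated `R`-module -/
  fg : H.toSubmodule.FG
  /-- (O2) `H` separates the points of `T` -/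
  sep : ∀ s t : T, s ≠ t → ∃ f ∈ H, f s ≠ f t

/-- The hypotheses of piece ORD on an `R`-algebra `H` of functions on `T`. -/
structure OrderHyp (p : ℕ) (T : Type) [AddCommGroup T] (act : GQ → T → T)
    (H : Subalgebra (ratLocalizedAt p) (T → Qb)) : Prop extends PreOrderHyp p T act H where
  act_zero : ∀ σ, act σ 0 = 0
  /-- (O3) `H` is stable under the comultiplication `f ↦ ((s, t) ↦ f (s + t))` -/
  comul : ∀ f ∈ H, ∃ (n : ℕ) (a b : Fin n → (T → Qb)), (∀ i, a i ∈ H) ∧ (∀ i, b i ∈ H) ∧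
    ∀ s t, f (s + t) = ∑ i, a i s * b i t

namespace PreOrderHyp

variable {T' : Type} {act : GQ → T' → T'} {H : Subalgebra (ratLocalizedAt p) (T' → Qb)}

theorem finite (h : PreOrderHyp p T' act H) : Module.Finite (ratLocalizedAt p) ↥H :=
  Module.Finite.iff_fg.mpr h.fg

theorem isTorsionFree (_h : PreOrderHyp p T' act H) :
    Module.IsTorsionFree (ratLocalizedAt p) ↥H := by
  refine Module.IsTorsionFree.of_smul_eq_zero fun r f hrf => ?_
  by_cases hr : r = 0
  · exact Or.inl hr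
  · right
    apply Subtype.ext
    funext t
    have h1 : (r • (f : T' → Qb)) t = 0 := by
      have := congrArg (fun g : ↥H => (g : T' → Qb) t) hrf
      simpa using this
    rw [Pi.smul_apply, Algebra.smul_def, mul_eq_zero] at h1
    rcases h1 with h1 | h1
    · exact absurd (algebraMap_ratLoc_Qb_injective p (h1.trans (map_zero _).symm)) hr
    · exact h1

theorem free (h : PreOrderHyp p T' act H) : Module.Free (ratLocalizedAt p) ↥H := by
  have := h.finite
  have := h.isTorsionFree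
  exact Module.free_of_finite_type_torsion_free'

/-- The inclusion of `H` into the function algebra is good. -/
theorem isGood_val (h : PreOrderHyp p T' act H) : IsGood (H.val.toLinearMap) := by
  have := h.finite
  have := h.free
  let b := Module.Free.chooseBasis (ratLocalizedAt p) ↥H
  have hfin : Fintype (Module.Free.ChooseBasisIndex (ratLocalizedAt p) ↥H) := inferInstance
  refine ⟨_, hfin, b, ?_⟩
  apply linearIndependent_Qb_of_equivariant (p := p) act h.act_one h.act_mul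
  · intro i
    exact h.equiv _ (b i).2
  · have h1 : LinearIndependent (ratLocalizedAt p) b := b.linearIndependent
    exact h1.map' H.val.toLinearMap (LinearMap.ker_eq_bot.mpr Subtype.val_injective)

end PreOrderHyp

namespace OrderHyp

variable {act : GQ → T → T} {H : Subalgebra (ratLocalizedAt p) (T → Qb)}

theorem finite (h : OrderHyp p T act H) : Module.Finite (ratLocalizedAt p) ↥H :=
  h.toPreOrderHyp.finite

theorem isTorsionFree (h : OrderHyp p T act H) : Module.IsTorsionFree (ratLocalizedAt p) ↥H :=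
  h.toPreOrderHyp.isTorsionFree

theorem free (h : OrderHyp p T act H) : Module.Free (ratLocalizedAt p) ↥H :=
  h.toPreOrderHyp.free

/-- The inclusion of `H` into the function algebra is good. -/
theorem isGood_val (h : OrderHyp p T act H) : IsGood (H.val.toLinearMap) :=
  h.toPreOrderHyp.isGood_val

end OrderHyp

section Span

variable [Finite T]

omit [AddCommGroup T] in
/-- A subalgebra of `T → ℚ̄` (over a subring) which separates points spans `T → ℚ̄` over `ℚ̄`. -/
theorem span_eq_top_of_separates (H : Subalgebra (ratLocalizedAt p) (T → Qb))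
    (hsep : ∀ s t : T, s ≠ t → ∃ f ∈ H, f s ≠ f t) :
    Submodule.span Qb (H : Set (T → Qb)) = ⊤ := by
  classical
  cases nonempty_fintype T
  set A : Submodule Qb (T → Qb) := Submodule.span Qb (H : Set (T → Qb)) with hA
  have hone : (1 : T → Qb) ∈ A := Submodule.subset_span H.one_mem
  have hmul : ∀ x ∈ A, ∀ y ∈ A, x * y ∈ A := by
    intro x hx y hy
    have h1 : x * y ∈ A * A := Submodule.mul_mem_mul hx hy
    have h2 : A * A ≤ A := by
      rw [hA, Submodule.span_mul_span]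
      apply Submodule.span_mono
      rintro _ ⟨a, ha, b, hb, rfl⟩
      exact H.mul_mem ha hb
    exact h2 h1
  have hconst : ∀ c : Qb, (fun _ : T => c) ∈ A := by
    intro c
    have : (fun _ : T => c) = c • (1 : T → Qb) := by funext t; simp
    rw [this]
    exact A.smul_mem c hone
  have hprod : ∀ (s : Finset T) (g : T → (T → Qb)), (∀ i ∈ s, g i ∈ A) → ∏ i ∈ s, g i ∈ A := by
    intro s g
    induction s using Finset.induction_on with
    | empty => intro _; simpa using hone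
    | insert a s ha ih =>
      intro hg
      rw [Finset.prod_insert ha]
      exact hmul _ (hg a (Finset.mem_insert_self a s)) _
        (ih fun i hi => hg i (Finset.mem_insert_of_mem hi))
  -- indicator functions
  have hind : ∀ t : T, (Pi.single t (1 : Qb) : T → Qb) ∈ A := by
    intro t
    have hch : ∀ s : T, s ≠ t → ∃ f ∈ H, f s ≠ f t := fun s hs => hsep s t hs
    choose! f hfH hfne using hch
    let g : T → (T → Qb) := fun s => (f s t - f s s)⁻¹ • (f s - fun _ => f s s)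
    have hg : ∀ s ∈ Finset.univ.erase t, g s ∈ A := by
      intro s hs
      have hst : s ≠ t := (Finset.mem_erase.mp hs).1
      exact A.smul_mem _ (A.sub_mem (Submodule.subset_span (hfH s hst)) (hconst _))
    have hP := hprod (Finset.univ.erase t) g hg
    have : (∏ s ∈ Finset.univ.erase t, g s) = Pi.single t (1 : Qb) := by
      funext u
      rw [Finset.prod_apply]
      by_cases hu : u = t
      · subst hu
        rw [Pi.single_eq_same]
        apply Finset.prod_eq_one
        intro s hs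
        have hst : s ≠ u := (Finset.mem_erase.mp hs).1
        have : f s u - f s s ≠ 0 := sub_ne_zero.mpr (hfne s hst).symm
        simp [g, inv_mul_cancel₀ this]
      · rw [Pi.single_eq_of_ne hu]
        apply Finset.prod_eq_zero (Finset.mem_erase.mpr ⟨hu, Finset.mem_univ u⟩)
        simp [g]
    rwa [this] at hP
  rw [eq_top_iff]
  intro x _
  have hx : x = ∑ t, x t • (Pi.single t (1 : Qb) : T → Qb) := by
    funext u
    simp [Finset.sum_apply, Pi.single_apply]
  rw [hx]
  exact A.sum_mem fun t _ => A.smul_mem _ (hind t)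

end Span

end Fermat.Agent.A3.H619

end
end
-- ===== PACK-END A3/H619/Order.lean

-- ===== PACK-BEGIN A3/H619/Coeff.lean
section
/-
A3 / piece ORD (helper619): coefficients of equivariant functions with respect to a `ℚ̄`-independent
family of equivariant functions are rational; if they are integral over `R`, they lie in `R`.
-/


set_option autoImplicit false

noncomputable section

namespace Fermat.Agent.A3.H619

open GaloisRep Module

variable {p : ℕ} {X : Type}

instance isAlgebraic_ratLoc_Qb : Algebra.IsAlgebraic (ratLocalizedAt p) Qb :=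
  ⟨fun x => (IsFractionRing.isAlgebraic_iff (ratLocalizedAt p) ℚ Qb).mpr
    ((AlgebraicClosure.isAlgebraic ℚ).isAlgebraic x)⟩

theorem isIntegral_ratLoc_of_rat {q : ℚ} (h : IsIntegral (ratLocalizedAt p) (algebraMap ℚ Qb q)) :
    q ∈ ratLocalizedAt p :=
  mem_ratLoc_of_isIntegral p ((isIntegral_algebraMap_iff (algebraMap ℚ Qb).injective).mp h)

section

variable (act : GQ → X → X) (hact1 : ∀ t, act 1 t = t)
  (hactmul : ∀ (σ τ : GQ) (t : X), act (σ * τ) t = act σ (act τ t))

include hact1 hactmul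

/-- Conjugating the coefficients of a linear combination of equivariant functions representing an
equivariant function. -/
theorem combination_conj {κ : Type} [Fintype κ] (e : κ → (X → Qb))
    (he : ∀ k, IsEquivFun act (e k)) (F : X → Qb) (hF : IsEquivFun act F) (c : κ → Qb)
    (hFc : F = ∑ k, c k • e k) (σ : GQ) : F = ∑ k, σ (c k) • e k := by
  funext t
  have ht : act σ (act σ⁻¹ t) = t := by rw [← hactmul, mul_inv_cancel, hact1]
  have h0 := congrFun hFc (act σ⁻¹ t)
  simp only [Finset.sum_apply, Pi.smul_apply, smul_eq_mul] at h0 ⊢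
  have h1 := congrArg σ h0
  rw [map_sum, ← hF σ (act σ⁻¹ t), ht] at h1
  rw [h1]
  refine Finset.sum_congr rfl fun i _ => ?_
  rw [map_mul, ← he i σ (act σ⁻¹ t), ht]

/-- The coefficients are Galois-fixed. -/
theorem coeff_fixed {κ : Type} [Fintype κ] (e : κ → (X → Qb))
    (he : ∀ k, IsEquivFun act (e k)) (hind : LinearIndependent Qb e)
    (F : X → Qb) (hF : IsEquivFun act F) (c : κ → Qb)
    (hFc : F = ∑ k, c k • e k) (σ : GQ) (k : κ) : σ (c k) = c k := by
  have h1 := combination_conj act hact1 hactmul e he F hF c hFc σ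
  have h2 : ∑ k, (σ (c k) - c k) • e k = 0 := by
    simp only [sub_smul, Finset.sum_sub_distrib]
    rw [← h1, ← hFc, sub_self]
  exact sub_eq_zero.mp (Fintype.linearIndependent_iff.mp hind _ h2 k)

/-- The coefficients are rational. -/
theorem coeff_rat {κ : Type} [Fintype κ] (e : κ → (X → Qb))
    (he : ∀ k, IsEquivFun act (e k)) (hind : LinearIndependent Qb e)
    (F : X → Qb) (hF : IsEquivFun act F) (c : κ → Qb)
    (hFc : F = ∑ k, c k • e k) (k : κ) : ∃ q : ℚ, algebraMap ℚ Qb q = c k :=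
  exists_rat_of_fixed _ fun σ => coeff_fixed act hact1 hactmul e he hind F hF c hFc σ k

/-- Integral coefficients lie in `R`. -/
theorem coeff_int {κ : Type} [Fintype κ] (e : κ → (X → Qb))
    (he : ∀ k, IsEquivFun act (e k)) (hind : LinearIndependent Qb e)
    (F : X → Qb) (hF : IsEquivFun act F) (c : κ → Qb)
    (hFc : F = ∑ k, c k • e k) (hc : ∀ k, IsIntegral (ratLocalizedAt p) (c k)) :
    ∃ r : κ → ratLocalizedAt p, F = ∑ k, r k • e k := by
  have h1 : ∀ k, ∃ r : ratLocalizedAt p, algebraMap (ratLocalizedAt p) Qb r = c k := by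
    intro k
    obtain ⟨q, hq⟩ := coeff_rat act hact1 hactmul e he hind F hF c hFc k
    have hk := hc k
    rw [← hq] at hk
    exact ⟨⟨q, isIntegral_ratLoc_of_rat hk⟩, hq⟩
  choose r hr using h1
  refine ⟨r, ?_⟩
  rw [hFc]
  refine Finset.sum_congr rfl fun k _ => ?_
  rw [← hr k, algebraMap_smul]

end

end Fermat.Agent.A3.H619

end
end
-- ===== PACK-END A3/H619/Coeff.lean

-- ===== PACK-BEGIN S19/Top.lean
section



/-!
# Cell A3 (S19) — top assembly: frozen S19 from the five open blocks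

    ORD   : OrdStatement      (pure algebra:  OrderDatum ==> Hopf model)
    FIN   : FinStatement      (torsion finite)
    UNR   : UnrStatement      (pure algebra:  local coordinates ==> global coordinates)
    LOCAL : LocalStatement    (DISC + GR: local coordinates at good levels)
    LEVEL : LevelStatement    (ℓ = 2, 3: conorm embedding into a good level)

CONT is proved (`contStatement`, from FINLEVEL of helper571).
-/

set_option autoImplicit false

namespace Fermat.Agent.S19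

/-- ORDER from the open blocks. -/
theorem orderStatement_of_blocks (hfin : FinStatement) (hunr : UnrStatement)
    (hlocal : LocalStatement) (hlevel : LevelStatement) : OrderStatement :=
  orderStatement_of_good (orderStatementGood_of hfin contStatement hunr hlocal) hlevel

/-- **Top assembly**: frozen S19 from ORD, FIN, UNR, LOCAL, LEVEL. -/
theorem S19_of_five (hord : OrdStatement) (hfin : FinStatement) (hunr : UnrStatement)
    (hlocal : LocalStatement) (hlevel : LevelStatement)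
    (p : ℕ) [NeZero p] (ℓ : ℕ) [Fact ℓ.Prime] (hℓp : ¬ ℓ ∣ p) (k : ℕ) :
    FrozenConclusion p ℓ k :=
  S19_of_blocks hord hfin (orderStatement_of_blocks hfin hunr hlocal hlevel) p ℓ hℓp k

end Fermat.Agent.S19

end
-- ===== PACK-END S19/Top.lean

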