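import Fermat.Prelude.Thm_ModularForm_sturm_bound_Gamma0
import Mathlib
import Fermat.Agent.Pack.S43MC.G0E11L2
import Fermat.Agent.Pack.S44C.G0E0L1
import Fermat.Agent.Pack.S43MC.G0E6L0
import Fermat.Agent.Pack.S43MC.G0E9L3
import Fermat.Agent.Pack.S43MC.G0E12L0
import Fermat.Agent.Pack.S43MC.G0E12L3
import Fermat.Agent.Pack.S43GC.G0E5L0
import Fermat.Agent.Pack.S43MC.G0E12L2
import Fermat.Agent.Pack.S43GC.G0E5L3
import Fermat.Agent.Pack.S44C.G0E6L1
import Fermat.Agent.Pack.S44C.G0E10L2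
import Fermat.Agent.Pack.S43MC.G0E12L1
import Fermat.Agent.Pack.S43GC.G0E9L0
import Fermat.Agent.Pack.S43MC.G0E10L2
import Fermat.Agent.Pack.S43MC.G0E4L3
import Fermat.Agent.Pack.S43MC.G0E10L3
import Fermat.Agent.Pack.S44C.G0E14L1
import Fermat.Agent.Pack.S43MC.G0E7L2
import Fermat.Agent.Pack.S43GC.G0E9L1
import Fermat.Agent.Pack.Fast891

-- ===== PACK-BEGIN Lib/Haupt/Sturm.lean
section



/-!
# The four formal modular identities, via the Sturm bound (helper637)
-/

set_option autoImplicit false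

open UpperHalfPlane ModularForm CongruenceSubgroup MatrixGroups
open Matrix.SpecialLinearGroup Filter Topology
open scoped Manifold

noncomputable section

namespace Fermat.Agent.Lib.Haupt

/-- Crude bound for the index of `Γ₀(N)`. -/
theorem index_Gamma0_le (N : ℕ) [NeZero N] : (Gamma0 N).index ≤ N ^ 2 := by
  classical
  let f : SL(2, ℤ) ⧸ Gamma0 N → ZMod N × ZMod N :=
    fun q => (((q.out 0 0 : ℤ) : ZMod N), ((q.out 1 0 : ℤ) : ZMod N))
  have hf : Function.Injective f := by
    intro x y hxy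
    rw [← QuotientGroup.out_eq' x, ← QuotientGroup.out_eq' y]
    rw [QuotientGroup.eq]
    rw [CongruenceSubgroup.Gamma0_mem]
    simp only [f, Prod.mk.injEq] at hxy
    obtain ⟨h0, h1⟩ := hxy
    set A := x.out with hA
    set B := y.out with hB
    have hAinv : (A⁻¹ * B) 1 0 = - A 1 0 * B 0 0 + A 0 0 * B 1 0 := by
      rw [Matrix.SpecialLinearGroup.coe_mul, Matrix.SpecialLinearGroup.coe_inv,
        Matrix.adjugate_fin_two, Matrix.mul_apply]
      simp [Fin.sum_univ_two]
    rw [hAinv]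
    push_cast
    rw [h0, h1]
    ring
  have := Nat.card_le_card_of_injective f hf
  have hcard : Nat.card (ZMod N × ZMod N) = N ^ 2 := by
    rw [Nat.card_prod, Nat.card_zmod, sq]
  rw [hcard] at this
  exact this

theorem sturm_G0 (N : ℕ) [NeZero N] {k : ℤ} (f : ModularForm (G0 N) k) (B : ℕ)
    (hB : (k * (N : ℤ) ^ 2).toNat / 12 ≤ B)
    (h : ∀ n : ℕ, n ≤ B → (qExpansion 1 f).coeff n = 0) : f = 0 := by
  refine ModularForm.sturm_bound_Gamma0 N f (fun n hn => h n (le_trans hn (le_trans ?_ hB)))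
  apply Nat.div_le_div_right
  have hidx : ((Gamma0 N).index : ℤ) ≤ (N : ℤ) ^ 2 := by exact_mod_cast index_Gamma0_le N
  by_cases hk : 0 ≤ k
  · exact Int.toNat_le_toNat (mul_le_mul_of_nonneg_left hidx hk)
  · have hneg : k * ((Gamma0 N).index : ℤ) ≤ 0 :=
      mul_nonpos_of_nonpos_of_nonneg (le_of_lt (not_le.mp hk)) (Int.natCast_nonneg _)
    rw [Int.toNat_of_nonpos hneg]
    exact Nat.zero_le _

/-- Injectivity of the coefficient map `ℤ⟦X⟧ → ℂ⟦X⟧`. -/
theorem map_intCast_injective :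
    Function.Injective (PowerSeries.map (Int.castRingHom ℂ)) := by
  intro f g h
  ext n
  have := congrArg (PowerSeries.coeff n) h
  rw [PowerSeries.coeff_map, PowerSeries.coeff_map, eq_intCast, eq_intCast] at this
  exact_mod_cast this

/-! ### The forms -/

/-- `E₄` on `Γ₀(d)`. -/
abbrev eR (d : ℕ) : ModularForm (G0 d) ((4 : ℕ) : ℤ) := res d E₄
/-- `Δ` on `Γ₀(d)`. -/
abbrev dR (d : ℕ) : ModularForm (G0 d) 12 := res d DeltaMF
/-- `E₄(dτ)` on `Γ₀(d)`. -/
abbrev eL (d : ℕ) [NeZero d] : ModularForm (G0 d) ((4 : ℕ) : ℤ) := lev d E₄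
/-- `Δ(dτ)` on `Γ₀(d)`. -/
abbrev dL (d : ℕ) [NeZero d] : ModularForm (G0 d) 12 := lev d DeltaMF

theorem qExpansion_eR (d : ℕ) :
    qExpansion 1 (eR d) = E4Z.map (Int.castRingHom ℂ) := qExpansion_E4

theorem qExpansion_dR (d : ℕ) :
    qExpansion 1 (dR d) = DeltaZ.map (Int.castRingHom ℂ) := qExpansion_DeltaMF

theorem qExpansion_eL (d : ℕ) [NeZero d] :
    qExpansion 1 (eL d) = (ex d E4Z).map (Int.castRingHom ℂ) := by
  rw [eL, qExpansion_lev, qExpansion_E4, PowerSeries.map_expand]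

theorem qExpansion_dL (d : ℕ) [NeZero d] :
    qExpansion 1 (dL d) = (ex d DeltaZ).map (Int.castRingHom ℂ) := by
  rw [dL, qExpansion_lev, qExpansion_DeltaMF, PowerSeries.map_expand]

section qE

variable {d : ℕ} {k k' : ℤ}

theorem qE_add (f g : ModularForm (G0 d) k) :
    qExpansion 1 ((f + g : ModularForm (G0 d) k) : ℍ → ℂ) = qExpansion 1 f + qExpansion 1 g :=
  ModularForm.qExpansion_add one_pos (one_mem_strictPeriods_G0 d) f g

theorem qE_sub (f g : ModularForm (G0 d) k) :
    qExpansion 1 ((f - g : ModularForm (G0 d) k) : ℍ → ℂ) = qExpansion 1 f - qExpansion 1 g :=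
  ModularForm.qExpansion_sub one_pos (one_mem_strictPeriods_G0 d) f g

theorem qE_smul (c : ℂ) (f : ModularForm (G0 d) k) :
    qExpansion 1 ((c • f : ModularForm (G0 d) k) : ℍ → ℂ)
      = PowerSeries.C c * qExpansion 1 f := by
  rw [← PowerSeries.smul_eq_C_mul]
  exact ModularForm.qExpansion_smul one_pos (one_mem_strictPeriods_G0 d) c f

theorem qE_mul (f : ModularForm (G0 d) k) (g : ModularForm (G0 d) k') :
    qExpansion 1 (f.mul g) = qExpansion 1 f * qExpansion 1 g :=
  ModularForm.qExpansion_mul one_pos (one_mem_strictPeriods_G0 d) f g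

theorem qE_pow (f : ModularForm (G0 d) k) (n : ℕ) :
    qExpansion 1 (f.pow n) = qExpansion 1 f ^ n :=
  ModularForm.qExpansion_pow one_pos (one_mem_strictPeriods_G0 d) f n

theorem qE_mcast (h : k = k') (f : ModularForm (G0 d) k) :
    qExpansion 1 (mcast h f : ModularForm (G0 d) k') = qExpansion 1 f := rfl

end qE

/-- `E₄³ Δ Δ₂ - (Δ + 256 Δ₂)³` as a modular form of weight 36 on `Γ₀(2)`. -/
def F1 : ModularForm (G0 2) 36 :=
  mcast (by norm_num) (((eR 2).pow 3).mul ((dR 2).mul (dL 2)))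
    - mcast (by norm_num) ((dR 2 + (256 : ℂ) • dL 2).pow 3)

theorem qExpansion_F1 : qExpansion 1 F1 = Phi1.map (Int.castRingHom ℂ) := by
  rw [F1, qE_sub, qE_mcast, qE_mcast, qE_mul, qE_pow, qE_mul, qE_pow, qE_add, qE_smul,
    qExpansion_eR, qExpansion_dR, qExpansion_dL, Phi1]
  simp only [map_sub, map_mul, map_pow, map_add, PowerSeries.map_C]
  simp

theorem F1_eq_zero : F1 = 0 := by
  refine sturm_G0 2 F1 12 (by decide) (fun n hn => ?_)
  rw [qExpansion_F1, PowerSeries.coeff_map, coeff_Phi1 (by omega), map_zero]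

theorem Phi1_eq_zero : Phi1 = 0 := by
  apply map_intCast_injective
  rw [← qExpansion_F1, F1_eq_zero, map_zero]
  exact qExpansion_zero 1

/-- `E₄(2τ)³ Δ Δ₂ - (Δ + 16 Δ₂)³` as a modular form of weight 36 on `Γ₀(2)`. -/
def F2 : ModularForm (G0 2) 36 :=
  mcast (by norm_num) (((eL 2).pow 3).mul ((dR 2).mul (dL 2)))
    - mcast (by norm_num) ((dR 2 + (16 : ℂ) • dL 2).pow 3)

theorem qExpansion_F2 : qExpansion 1 F2 = Phi2.map (Int.castRingHom ℂ) := by
  rw [F2, qE_sub, qE_mcast, qE_mcast, qE_mul, qE_pow, qE_mul, qE_pow, qE_add, qE_smul,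
    qExpansion_eL, qExpansion_dR, qExpansion_dL, Phi2]
  simp only [map_sub, map_mul, map_pow, map_add, PowerSeries.map_C]
  simp

theorem F2_eq_zero : F2 = 0 := by
  refine sturm_G0 2 F2 12 (by decide) (fun n hn => ?_)
  rw [qExpansion_F2, PowerSeries.coeff_map, coeff_Phi2 (by omega), map_zero]

theorem Phi2_eq_zero : Phi2 = 0 := by
  apply map_intCast_injective
  rw [← qExpansion_F2, F2_eq_zero, map_zero]
  exact qExpansion_zero 1

/-- `Δ Δ₃ (E₄³ - 756 Δ - 19131876 Δ₃)² - (Δ² + 196830 Δ Δ₃ + 387420489 Δ₃²)²`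
as a modular form of weight 48 on `Γ₀(3)`. -/
def F3 : ModularForm (G0 3) 48 :=
  mcast (by norm_num) (((dR 3).mul (dL 3)).mul
      ((mcast (by norm_num) ((eR 3).pow 3) - ((756 : ℂ) • dR 3 + (19131876 : ℂ) • dL 3)
        : ModularForm (G0 3) 12).pow 2))
    - mcast (by norm_num)
      ((mcast (by norm_num) ((dR 3).pow 2) + ((196830 : ℂ) • mcast (by norm_num) ((dR 3).mul (dL 3))
        + (387420489 : ℂ) • mcast (by norm_num) ((dL 3).pow 2)) : ModularForm (G0 3) 24).pow 2)

theorem qExpansion_F3 : qExpansion 1 F3 = Phi3.map (Int.castRingHom ℂ) := by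
  rw [F3, qE_sub, qE_mcast, qE_mcast, qE_mul, qE_mul, qE_pow, qE_sub, qE_mcast, qE_pow, qE_add,
    qE_smul, qE_smul, qE_pow, qE_add, qE_mcast, qE_pow, qE_add, qE_smul, qE_smul, qE_mcast,
    qE_mcast, qE_mul, qE_pow,
    qExpansion_eR, qExpansion_dR, qExpansion_dL, Phi3]
  simp only [map_sub, map_mul, map_pow, map_add, PowerSeries.map_C]
  simp

theorem F3_eq_zero : F3 = 0 := by
  refine sturm_G0 3 F3 36 (by decide) (fun n hn => ?_)
  rw [qExpansion_F3, PowerSeries.coeff_map, coeff_Phi3 (by omega), map_zero]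

theorem Phi3_eq_zero : Phi3 = 0 := by
  apply map_intCast_injective
  rw [← qExpansion_F3, F3_eq_zero, map_zero]
  exact qExpansion_zero 1

/-- `Δ Δ₃ (E₄(3τ)³ - 36 Δ - 756 Δ₃)² - (Δ² + 270 Δ Δ₃ + 729 Δ₃²)²`
as a modular form of weight 48 on `Γ₀(3)`. -/
def F4 : ModularForm (G0 3) 48 :=
  mcast (by norm_num) (((dR 3).mul (dL 3)).mul
      ((mcast (by norm_num) ((eL 3).pow 3) - ((36 : ℂ) • dR 3 + (756 : ℂ) • dL 3)
        : ModularForm (G0 3) 12).pow 2))
    - mcast (by norm_num)
      ((mcast (by norm_num) ((dR 3).pow 2) + ((270 : ℂ) • mcast (by norm_num) ((dR 3).mul (dL 3))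
        + (729 : ℂ) • mcast (by norm_num) ((dL 3).pow 2)) : ModularForm (G0 3) 24).pow 2)

theorem qExpansion_F4 : qExpansion 1 F4 = Phi4.map (Int.castRingHom ℂ) := by
  rw [F4, qE_sub, qE_mcast, qE_mcast, qE_mul, qE_mul, qE_pow, qE_sub, qE_mcast, qE_pow, qE_add,
    qE_smul, qE_smul, qE_pow, qE_add, qE_mcast, qE_pow, qE_add, qE_smul, qE_smul, qE_mcast,
    qE_mcast, qE_mul, qE_pow,
    qExpansion_eL, qExpansion_dR, qExpansion_dL, Phi4]
  simp only [map_sub, map_mul, map_pow, map_add, PowerSeries.map_C]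
  simp

theorem F4_eq_zero : F4 = 0 := by
  refine sturm_G0 3 F4 36 (by decide) (fun n hn => ?_)
  rw [qExpansion_F4, PowerSeries.coeff_map, coeff_Phi4 (by omega), map_zero]

theorem Phi4_eq_zero : Phi4 = 0 := by
  apply map_intCast_injective
  rw [← qExpansion_F4, F4_eq_zero, map_zero]
  exact qExpansion_zero 1

end Fermat.Agent.Lib.Haupt

end
end
-- ===== PACK-END Lib/Haupt/Sturm.lean

-- ===== PACK-BEGIN S28/H386/RootList.lean
section
/-
S28 [L] (helper386): the root list of `Φ_p(X, j_p)` over a field containing a primitive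
`p`-th root of unity:
`Φ_p(X, j(q^p)) = (X - j(q^{p²})) · ∏_{b < p} (X - j(ζ^b q))`.
-/



set_option autoImplicit false

noncomputable section

open ModularCurve HahnSeries Polynomial

namespace Fermat.Agent.S28.H386

section RootList

variable {p : ℕ} [NeZero p] (D : ModPolyData p) (k : Type*) [Field k]

/-- The twisted conjugates `j(ζ^b q)`, `b < p`. -/
def twRoots (p : ℕ) (k : Type*) [Field k] (ζ : kˣ) : Multiset (LaurentSeries k) :=
  (Multiset.range p).map fun b => _root_.Fermat.Agent.S28.H386.twist (ζ ^ b) (jqModC k)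

variable {k}

theorem card_twRoots (ζ : kˣ) : Multiset.card (twRoots p k ζ) = p := by
  simp [twRoots]

theorem order_of_mem_twRoots {ζ : kˣ} {r : LaurentSeries k} (hr : r ∈ twRoots p k ζ) :
    r.order = -1 := by
  obtain ⟨b, -, rfl⟩ := Multiset.mem_map.mp hr
  rw [order_twist, order_jqModC]

theorem twRoots_nodup {ζ : kˣ} (hζ : IsPrimitiveRoot ζ p) : (twRoots p k ζ).Nodup := by
  refine Multiset.Nodup.map_on ?_ (Multiset.nodup_range p)
  intro a ha b hb hab
  have h := congrArg (fun f => f.coeff (-1)) hab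
  simp only [coeff_twist_jqModC_neg_one] at h
  have h2 : (ζ ^ a)⁻¹ = (ζ ^ b)⁻¹ := Units.ext h
  exact hζ.pow_inj (Multiset.mem_range.mp ha) (Multiset.mem_range.mp hb) (inv_injective h2)

theorem twist_comp_qExpand (ξ : kˣ) (hξ : ξ ^ p = 1) :
    (_root_.Fermat.Agent.S28.H386.twist ξ).comp (qExpand k p) = qExpand k p :=
  RingHom.ext fun f => twist_qExpand ξ p hξ f

theorem eval_cofB_map_twist (hp : 1 < p) (ξ : kˣ) (hξ : ξ ^ p = 1) :
    ((cofB D k).map (qExpand k p)).eval (_root_.Fermat.Agent.S28.H386.twist ξ (jqModC k)) = 0 := by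
  have h := congrArg (_root_.Fermat.Agent.S28.H386.twist ξ) (eval_j_cofB_map D k hp)
  rw [map_zero, ← Polynomial.eval₂_at_apply, ← Polynomial.eval_map, Polynomial.map_map,
    twist_comp_qExpand ξ hξ] at h
  exact h

/-- `V_p(B') = ∏_{b < p} (X - j(ζ^b q))`. -/
theorem cofB_map_eq_prod (hp : 1 < p) {ζ : kˣ} (hζ : IsPrimitiveRoot ζ p) :
    (cofB D k).map (qExpand k p)
      = ((twRoots p k ζ).map fun a => X - Polynomial.C a).prod := by
  set A' := (cofB D k).map (qExpand k p) with hA'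
  have hmonic : A'.Monic := (cofB_monic D k).map _
  have hdeg : A'.natDegree = p := by
    rw [hA', (cofB_monic D k).natDegree_map, natDegree_cofB]
  have hle : twRoots p k ζ ≤ A'.roots := by
    rw [Multiset.le_iff_subset (twRoots_nodup hζ)]
    intro r hr
    obtain ⟨b, -, rfl⟩ := Multiset.mem_map.mp hr
    rw [Polynomial.mem_roots hmonic.ne_zero]
    refine eval_cofB_map_twist D hp (ζ ^ b) ?_
    rw [← pow_mul, mul_comm, pow_mul, hζ.pow_eq_one, one_pow]
  have hcard : Multiset.card A'.roots ≤ Multiset.card (twRoots p k ζ) := by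
    rw [card_twRoots, ← hdeg]
    exact Polynomial.card_roots' A'
  have heq : twRoots p k ζ = A'.roots := Multiset.eq_of_le_of_card_le hle hcard
  rw [heq]
  refine (Polynomial.prod_multiset_X_sub_C_of_monic_of_roots_card_eq hmonic ?_).symm
  rw [← heq, card_twRoots, hdeg]

/-- All roots of `Φ_p(X, j_p)`. -/
def allRoots (p : ℕ) [NeZero p] (k : Type*) [Field k] (ζ : kˣ) : Multiset (LaurentSeries k) :=
  qExpand k p (jd k p) ::ₘ twRoots p k ζ

/-- The root list: `Φ_p(X, j_p) = (X - j_{p²}) ∏_{b<p} (X - j(ζ^b q))`. -/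
theorem phiAt_jp_eq_prod (hp : 1 < p) {ζ : kˣ} (hζ : IsPrimitiveRoot ζ p) :
    phiAt D.Φ (jd k p) = ((allRoots p k ζ).map fun a => X - Polynomial.C a).prod := by
  rw [phiAt_jp_eq, cofB_map_eq_prod D hp hζ, allRoots, Multiset.map_cons, Multiset.prod_cons]

theorem order_of_mem_allRoots {ζ : kˣ} {r : LaurentSeries k} (hr : r ∈ allRoots p k ζ) :
    r = qExpand k p (jd k p) ∨ r.order = -1 := by
  rcases Multiset.mem_cons.mp hr with h | h
  · exact Or.inl h
  · exact Or.inr (order_of_mem_twRoots h)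

theorem order_qExpand_jd : (qExpand k p (jd k p)).order = -((p : ℤ) * p) := by
  rw [order_qExpand, order_jd]; ring

theorem allRoots_nodup (hp : 1 < p) {ζ : kˣ} (hζ : IsPrimitiveRoot ζ p) :
    (allRoots p k ζ).Nodup := by
  rw [allRoots, Multiset.nodup_cons]
  refine ⟨fun h => ?_, twRoots_nodup hζ⟩
  have h1 := order_of_mem_twRoots h
  rw [order_qExpand_jd] at h1
  have hp' : (1 : ℤ) < p := by exact_mod_cast hp
  nlinarith

end RootList

end Fermat.Agent.S28.H386

end
end
-- ===== PACK-END S28/H386/RootList.lean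

-- ===== PACK-BEGIN S28/H208/Tower.lean
section
/-
S28 [L4]: the tower step.  For a field `k`, a level `M` and a prime `p` with `p * M`
invertible in `k`:  `E_{pM} = E_M(ξ)` with `ξ = j(q^{p·p^a})`, `p^a ∥ M`, and `ξ` is a root of a
monic polynomial of degree `p + 1` (if `p ∤ M`) resp. `p` (if `p ∣ M`) over `E_M`.
-/






set_option autoImplicit false

noncomputable section

open ModularCurve Polynomial IntermediateField

namespace Fermat.Agent.S28.H208

section Numerics

/-- If `d ∣ p * M` but `d ∤ M`, then `d = p · p^a · e` with `p^a ∥ M` and `e ∣ M / p^a`. -/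
theorem exists_eq_mul_of_dvd_of_not_dvd {p M d : ℕ} (hp : p.Prime)
    (hd : d ∣ p * M) (hnd : ¬ d ∣ M) :
    ∃ e, d = p * p ^ M.factorization p * e ∧ e ∣ M / p ^ M.factorization p := by
  have hM : p ^ M.factorization p * (M / p ^ M.factorization p) = M :=
    Nat.ordProj_mul_ordCompl_eq_self M p
  have hpM : p * M = p ^ (M.factorization p + 1) * (M / p ^ M.factorization p) := by
    conv_lhs => rw [← hM]
    rw [pow_succ]
    ring
  rw [hpM] at hd
  obtain ⟨y, z, hy, hz, rfl⟩ := Nat.dvd_mul.mp hd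
  obtain ⟨i, hi, rfl⟩ := (Nat.dvd_prime_pow hp).mp hy
  rcases Nat.lt_or_ge i (M.factorization p + 1) with hlt | hge
  · exfalso
    apply hnd
    rw [← hM]
    exact Nat.mul_dvd_mul (pow_dvd_pow p (Nat.lt_succ_iff.mp hlt)) hz
  · have : i = M.factorization p + 1 := le_antisymm hi hge
    subst this
    exact ⟨z, by rw [pow_succ]; ring, hz⟩

theorem natCast_ne_zero_of_dvd {k : Type*} [Semiring k] {a b : ℕ} (hab : a ∣ b)
    (hb : (b : k) ≠ 0) : (a : k) ≠ 0 := by
  intro ha
  obtain ⟨c, rfl⟩ := hab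
  apply hb
  rw [Nat.cast_mul, ha, zero_mul]

end Numerics

section Generation

variable (k : Type*) [Field k]

/-- The tower generator `ξ = j(q^{p · p^a})`, `p^a ∥ M`. -/
def towerGen (M p : ℕ) [NeZero p] : LaurentSeries k :=
  qExpand k (p * p ^ M.factorization p) (jqModC k)

/-- The integral version of the tower generator. -/
def towerGenZ (M p : ℕ) [NeZero p] : LaurentSeries ℤ :=
  qExpand ℤ (p * p ^ M.factorization p) (jqModC ℤ)

theorem coeffMap_towerGenZ (M p : ℕ) [NeZero p] :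
    coeffMap (Int.castRingHom k) (towerGenZ M p) = towerGen k M p :=
  coeffMap_int_jd k _

/-- The hypothesis: modular polynomials exist for all primes dividing `N`. -/
def HasModPoly (N : ℕ) : Prop :=
  ∀ (r : ℕ) [NeZero r], r.Prime → r ∣ N → Nonempty (ModPolyData r)

theorem HasModPoly.of_dvd {M N : ℕ} (h : HasModPoly N) (hMN : M ∣ N) : HasModPoly M :=
  fun r _ hr hrM => h r hr (hrM.trans hMN)

variable {k}

theorem jd_mem_full {M d : ℕ} [NeZero d] (hd : d ∣ M) :
    qExpand k d (jqModC k) ∈ modularFunctionFieldFullC k M :=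
  jqModCd_mem_full k M hd

/-- Auxiliary: all `j(q^{p p^a e})`, `e ∣ M / p^a`, lie in `E_M(ξ)`. -/
theorem jd_mem_adjoin_aux (M p : ℕ) [NeZero M] [NeZero p] (hp : p.Prime)
    (hk : ((p * M : ℕ) : k) ≠ 0) (hΦ : HasModPoly (p * M)) :
    ∀ (e : ℕ) [NeZero e], e ∣ M / p ^ M.factorization p →
      qExpand k (p * p ^ M.factorization p * e) (jqModC k) ∈
        (IntermediateField.adjoin (modularFunctionFieldFullC k M)
          ({towerGen k M p} : Set (LaurentSeries k))) := by
  intro e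
  induction e using Nat.strong_induction_on with
  | _ e ih =>
    intro _ he
    have hM0 : M ≠ 0 := NeZero.ne M
    have hMfac : p ^ M.factorization p * (M / p ^ M.factorization p) = M :=
      Nat.ordProj_mul_ordCompl_eq_self M p
    rcases eq_or_ne e 1 with rfl | he1
    · rw [qExpand_congr (mul_one _)]
      exact IntermediateField.mem_adjoin_simple_self _ _
    · -- a prime factor `r ≠ p` of `e`
      obtain ⟨r, hr, hre⟩ : ∃ r : ℕ, r.Prime ∧ r ∣ e :=
        ⟨e.minFac, Nat.minFac_prime he1, Nat.minFac_dvd e⟩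
      obtain ⟨e', he'⟩ := hre
      have he0 : e ≠ 0 := NeZero.ne e
      have he'0 : e' ≠ 0 := by
        rintro rfl
        rw [mul_zero] at he'
        exact he0 he'
      haveI : NeZero e' := ⟨he'0⟩
      haveI : NeZero r := ⟨hr.ne_zero⟩
      have he'lt : e' < e := by
        have h2 := hr.two_le
        calc e' < r * e' := by nlinarith [Nat.pos_of_ne_zero he'0]
          _ = e := he'.symm
      have he'dvd : e' ∣ M / p ^ M.factorization p :=
        (Dvd.intro_left _ he'.symm).trans he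
      have hrM' : r ∣ M / p ^ M.factorization p := (Dvd.intro _ he'.symm).trans he
      have hrp : p ≠ r := by
        intro h
        rw [← h] at hrM'
        exact Nat.not_dvd_ordCompl hp hM0 hrM'
      have hrdvd : r ∣ p * M := by
        have h2 : M / p ^ M.factorization p ∣ M := Dvd.intro_left _ hMfac
        exact (hrM'.trans h2).trans (Dvd.intro_left _ rfl)
      have hpk : (p : k) ≠ 0 := natCast_ne_zero_of_dvd (Dvd.intro _ rfl) hk
      have hrk : (r : k) ≠ 0 := natCast_ne_zero_of_dvd hrdvd hk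
      obtain ⟨Dp⟩ := hΦ p hp (Dvd.intro _ rfl)
      obtain ⟨Dr⟩ := hΦ r hr hrdvd
      -- the gcd lemma with `c = p^a * e'`
      have hgcd := jpr_mem_adjoin_qExpand k hp hr hrp hpk hrk Dp Dr
        (p ^ M.factorization p * e')
      have hidx : p ^ M.factorization p * e' * (p * r) =
          p * p ^ M.factorization p * e := by
        rw [he']; ring
      rw [qExpand_congr hidx] at hgcd
      -- both generators lie in `E_M(ξ)`
      have h1 : qExpand k (p ^ M.factorization p * e' * r) (jqModC k) ∈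
          (IntermediateField.adjoin (modularFunctionFieldFullC k M)
            ({towerGen k M p} : Set (LaurentSeries k))) := by
        have hdvd : p ^ M.factorization p * e' * r ∣ M := by
          have : p ^ M.factorization p * e' * r = p ^ M.factorization p * e := by
            rw [he']; ring
          rw [this]
          conv_rhs => rw [← hMfac]
          exact Nat.mul_dvd_mul_left _ he
        have hmem := jd_mem_full (k := k) hdvd
        exact (IntermediateField.adjoin (modularFunctionFieldFullC k M)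
            ({towerGen k M p} : Set (LaurentSeries k))).algebraMap_mem ⟨_, hmem⟩
      have h2 : qExpand k (p ^ M.factorization p * e' * p) (jqModC k) ∈
          (IntermediateField.adjoin (modularFunctionFieldFullC k M)
            ({towerGen k M p} : Set (LaurentSeries k))) := by
        have := ih e' he'lt he'dvd
        rwa [qExpand_congr (show p ^ M.factorization p * e' * p =
          p * p ^ M.factorization p * e' by ring)]
      have hle : IntermediateField.adjoin k
          ({qExpand k (p ^ M.factorization p * e' * r) (jqModC k),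
            qExpand k (p ^ M.factorization p * e' * p) (jqModC k)} : Set (LaurentSeries k)) ≤
          (IntermediateField.adjoin (modularFunctionFieldFullC k M)
            ({towerGen k M p} : Set (LaurentSeries k))).restrictScalars k := by
        rw [IntermediateField.adjoin_le_iff]
        rintro y (rfl | rfl)
        · exact h1
        · exact h2
      exact hle hgcd

/-- **Generation**: every `j(q^d)`, `d ∣ p * M`, lies in `E_M(ξ)`. -/
theorem jd_mem_adjoin_tower (M p : ℕ) [NeZero M] [NeZero p] (hp : p.Prime)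
    (hk : ((p * M : ℕ) : k) ≠ 0) (hΦ : HasModPoly (p * M))
    (d : ℕ) [NeZero d] (hd : d ∣ p * M) :
    qExpand k d (jqModC k) ∈
      (IntermediateField.adjoin (modularFunctionFieldFullC k M)
        ({towerGen k M p} : Set (LaurentSeries k))) := by
  by_cases hdM : d ∣ M
  · exact (IntermediateField.adjoin (modularFunctionFieldFullC k M)
      ({towerGen k M p} : Set (LaurentSeries k))).algebraMap_mem ⟨_, jd_mem_full hdM⟩
  · obtain ⟨e, hde, he⟩ := exists_eq_mul_of_dvd_of_not_dvd hp hd hdM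
    have he0 : e ≠ 0 := by
      rintro rfl
      rw [mul_zero] at hde
      exact NeZero.ne d hde
    haveI : NeZero e := ⟨he0⟩
    rw [qExpand_congr hde]
    exact jd_mem_adjoin_aux M p hp hk hΦ e he

/-- `E_{pM} ≤ E_M(ξ)`. -/
theorem full_le_adjoin_tower (M p : ℕ) [NeZero M] [NeZero p] (hp : p.Prime)
    (hk : ((p * M : ℕ) : k) ≠ 0) (hΦ : HasModPoly (p * M)) :
    modularFunctionFieldFullC k (p * M) ≤
      (IntermediateField.adjoin (modularFunctionFieldFullC k M)
        ({towerGen k M p} : Set (LaurentSeries k))).restrictScalars k := by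
  rw [modularFunctionFieldFullC, IntermediateField.adjoin_le_iff]
  rintro y ⟨d, hd0, hd, rfl⟩
  exact jd_mem_adjoin_tower M p hp hk hΦ d hd

end Generation

end Fermat.Agent.S28.H208

end

end
-- ===== PACK-END S28/H208/Tower.lean

-- ===== PACK-BEGIN S36/H36/TateInv.lean
section
/-
S36 mid layer (helper36): the adic eigenmodule WITHOUT INVARIANTS.

Extension of helper529's `S30.H529.exists_adic_eigenmodule` / `exists_adic_galois_eigenmodule`
and of helper991's `S35.H991.exists_adic_eigenmodule_new` by one more transfer principle: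

  if a subset `H` of the group fixes only a BOUNDED part of the `p`-power torsion
  (`∀ x ∈ J[p^∞], (∀ τ ∈ H, τ • x = x) → p ^ k • x = 0`), then `H` has no nonzero fixed vector
  in the adic eigenmodule.

The module is the same one (`tateEigen`, the eigen-part of the Tate module of `O ⊗ J`); the
transfer uses the flatness bridge `S35.H991.exists_lTensor_subtype_eq`.
-/


set_option autoImplicit false
set_option linter.unusedSectionVars false

namespace Fermat.Agent.S36.H36

open IsLocalRing TensorProduct Fermat.Agent.S30.H529 Fermat.Agent.S35.H991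

noncomputable section

section Bounded

variable (O : Type*) [CommRing O] [Module.Flat ℤ O]
variable {G : Type*} [Group G] {J : Type*} [AddCommGroup J] [DistribMulAction G J]

/-- **Bounded invariants, tensor form.**  If the `H`-fixed part of `J[m]` is killed by `c`, then
so is the `H`-fixed part of `(O ⊗ J)[m]`. -/
theorem smul_eq_zero_of_fixed (m : ℕ) (hfin : {x : J | m • x = 0}.Finite) (H : Set G) (c : ℕ)
    (hc : ∀ x : J, m • x = 0 → (∀ τ ∈ H, τ • x = x) → c • x = 0)
    (y : O ⊗[ℤ] J) (hy : (m : ℤ) • y = 0)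
    (hfix : ∀ τ ∈ H, (actLin J τ).baseChange O y = y) : (c : ℤ) • y = 0 := by
  set K : Submodule ℤ J := LinearMap.ker ((c : ℤ) • (LinearMap.id : J →ₗ[ℤ] J)) with hK
  have hmemK : ∀ x : J, x ∈ K ↔ c • x = 0 := by
    intro x
    rw [hK, LinearMap.mem_ker, LinearMap.smul_apply, LinearMap.id_apply, natCast_zsmul]
  obtain ⟨s, hs⟩ := exists_lTensor_subtype_eq O m hfin (C := H) (J' := fun _ => J)
    (fun τ => actLin J (τ : G) - LinearMap.id) K
    (fun x hx hfx => (hmemK x).mpr (hc x hx (fun τ hτ => by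
      have := hfx ⟨τ, hτ⟩
      simpa [sub_eq_zero] using this)))
    y hy (fun τ => by
      have h1 := hfix (τ : G) τ.2
      have h2 : (actLin J (τ : G) - LinearMap.id).lTensor O y
          = (actLin J (τ : G)).baseChange O y - y := by
        rw [LinearMap.lTensor_sub, LinearMap.lTensor_id, LinearMap.sub_apply,
          LinearMap.id_apply]
        rfl
      rw [h2, h1, sub_self])
  have h0 : (c : ℤ) • (LinearMap.id : K →ₗ[ℤ] K) = 0 := by
    apply LinearMap.ext
    intro x
    apply Subtype.ext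
    have := (hmemK (x : J)).mp x.2
    simpa using this
  have h1 : (c : ℤ) • s = 0 := by
    have : (c : ℤ) • s = ((c : ℤ) • (LinearMap.id : K →ₗ[ℤ] K)).lTensor O s := by
      rw [LinearMap.lTensor_smul, LinearMap.lTensor_id, LinearMap.smul_apply,
        LinearMap.id_apply]
    rw [this, h0, LinearMap.lTensor_zero, LinearMap.zero_apply]
  rw [← hs, ← map_zsmul, h1, map_zero]

end Bounded

section Main

variable (p : ℕ)
variable (O : Type) [CommRing O] [IsDomain O] [IsDiscreteValuationRing O]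
  [IsAdicComplete (maximalIdeal O) O] [CharZero O]
variable {G : Type*} [Group G]
variable (J : Type) [AddCommGroup J] [DistribMulAction G J]
variable {ι : Type*} (T : ι → J →+ J) (a : ι → O)

/-- **Abstract Tate module, with the no-invariants transfer.**  Same module and same clauses as
`S30.H529.exists_adic_eigenmodule`, plus: a subset `H ⊆ G` whose fixed points in `J[p^∞]` are
killed by `p ^ k` has no nonzero fixed vector in the module. -/
theorem exists_adic_eigenmodule_inv (hpO : (p : O) ∈ maximalIdeal O) (hp0 : p ≠ 0)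
    (hT : ∀ (i : ι) (γ : G) (x : J), T i (γ • x) = γ • T i x)
    (hfin : {x : J | p • x = 0}.Finite)
    (v : ℕ → O ⊗[ℤ] J) (hv0 : (p : O) • v 0 = 0) (hv : ∀ n, (p : O) • v (n + 1) = v n)
    (hne : v ≠ 0) (heig : ∀ i n, tensorOp O T i (v n) = a i • v n) :
    ∃ (M : Type) (_ : AddCommGroup M) (_ : Module O M) (_ : Module.Free O M)
      (_ : Module.Finite O M) (ρ : G →* Module.End O M),
      Nontrivial M ∧
      (∀ (n : ℕ) (γ : G), (∀ x : J, p ^ n • x = 0 → γ • x = x) →
        ∀ m : M, ρ γ m - m ∈ (maximalIdeal O ^ n • ⊤ : Submodule O M)) ∧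
      (∀ γ : G, (∀ x : J, (∃ n : ℕ, p ^ n • x = 0) → γ • x = x) → ρ γ = 1) ∧
      (∀ (γ : G) (i : ι) (c : ℤ),
        (∀ x : J, (∃ n : ℕ, p ^ n • x = 0) → γ • γ • x - T i (γ • x) + c • x = 0) →
        ρ γ * ρ γ - a i • ρ γ + (c : O) • (1 : Module.End O M) = 0) ∧
      (∀ (H : Set G) (k : ℕ),
        (∀ x : J, (∃ n : ℕ, p ^ n • x = 0) → (∀ τ ∈ H, τ • x = x) → p ^ k • x = 0) →
        ∀ m : M, (∀ τ ∈ H, ρ τ m = m) → m = 0) := by
  have hϖ0 : (p : O) ≠ 0 := by exact_mod_cast hp0
  have hX : ∃ Y : Submodule O (O ⊗[ℤ] J), Y.FG ∧ ∀ x : O ⊗[ℤ] J, (p : O) • x = 0 → x ∈ Y := by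
    obtain ⟨Y, hY, hYX⟩ := exists_fg_of_finite_torsion O (J := J) (p : ℤ) (by
      have : {y : J | (p : ℤ) • y = 0} = {x : J | p • x = 0} := by
        ext y
        simp
      rw [this]
      exact hfin)
    refine ⟨Y, hY, fun x hx => hYX x ?_⟩
    have := natCast_pow_smul p O J 1 x
    simp only [pow_one] at this
    rw [← this]
    exact hx
  have hρ := tensorRep_tensorOp O T hT
  have hfree := tateEigen_free (t := tensorOp O T) (a := a) hpO hϖ0 hX
  have hfinite := tateEigen_finite (t := tensorOp O T) (a := a) hpO hϖ0 hX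
  -- transfer of relations
  have htrans : ∀ (A : J →ₗ[ℤ] J) (n : ℕ), (∀ y : J, p ^ n • y = 0 → A y = 0) →
      ∀ x : O ⊗[ℤ] J, (p : O) ^ n • x = 0 → A.baseChange O x = 0 := by
    intro A n hA x hx
    apply baseChange_eq_zero_of_torsion O ((p ^ n : ℕ) : ℤ) A
    · intro y hy
      apply hA
      rwa [natCast_zsmul] at hy
    · rw [← natCast_pow_smul]
      exact hx
  refine ⟨tateEigen (p : O) (tensorOp O T) a, inferInstance, inferInstance, hfree, hfinite,
    tateRep (tensorRep O J) hρ, ?_, ?_, ?_, ?_, ?_⟩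
  · refine ⟨⟨⟨v, hv0, hv, heig⟩, 0, ?_⟩⟩
    intro h
    exact hne (congrArg Subtype.val h)
  · intro n γ hγ m
    apply tateRep_sub_mem (tensorRep O J) hρ hpO n γ
    intro x hx
    have h1 := htrans (actLin J γ - LinearMap.id) n (fun y hy => by
      simp [hγ y hy]) x hx
    rw [LinearMap.baseChange_sub, LinearMap.baseChange_id, LinearMap.sub_apply,
      LinearMap.id_apply, sub_eq_zero] at h1
    exact h1
  · intro γ hγ
    apply tateRep_eq_one
    rintro x ⟨n, hx⟩
    have h1 := htrans (actLin J γ - LinearMap.id) n (fun y hy => by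
      simp [hγ y ⟨n, hy⟩]) x hx
    rw [LinearMap.baseChange_sub, LinearMap.baseChange_id, LinearMap.sub_apply,
      LinearMap.id_apply, sub_eq_zero] at h1
    exact h1
  · intro γ i c hγ
    apply tateRep_quadratic
    rintro x ⟨n, hx⟩
    have h1 := htrans (actLin J γ ∘ₗ actLin J γ - (T i).toIntLinearMap ∘ₗ actLin J γ
      + c • LinearMap.id) n (fun y hy => by
        have := hγ y ⟨n, hy⟩
        simpa using this) x hx
    rw [LinearMap.baseChange_add, LinearMap.baseChange_sub, LinearMap.baseChange_comp,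
      LinearMap.baseChange_comp, LinearMap.baseChange_smul, LinearMap.baseChange_id] at h1
    simp only [LinearMap.add_apply, LinearMap.sub_apply, LinearMap.comp_apply,
      LinearMap.smul_apply, LinearMap.id_apply] at h1
    rw [Int.cast_smul_eq_zsmul]
    exact h1
  · -- the no-invariants transfer
    intro H k hH m hm
    have hcomp : ∀ n, ((p ^ k : ℕ) : ℤ) • (m : ℕ → O ⊗[ℤ] J) n = 0 := by
      intro n
      refine smul_eq_zero_of_fixed O (p ^ (n + 1)) (finite_torsion_pow J p hfin (n + 1)) H (p ^ k)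
        (fun x hx hfx => hH x ⟨n + 1, hx⟩ hfx) _ ?_ ?_
      · rw [← natCast_pow_smul]
        exact tate_pow_succ_smul m.2 n
      · intro τ hτ
        have h1 := congrArg (fun w : tateEigen (p : O) (tensorOp O T) a => (w : ℕ → O ⊗[ℤ] J) n)
          (hm τ hτ)
        exact h1
    apply Subtype.ext
    funext n
    have h1 := tate_pow_smul m.2 k n
    rw [← h1, natCast_pow_smul]
    exact hcomp (n + k)

end Main

end

end Fermat.Agent.S36.H36

end
-- ===== PACK-END S36/H36/TateInv.lean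

-- ===== PACK-BEGIN S36/H253/FundIneq.lean
section


/-!
# The fundamental inequality with ramification, and its equality case (helper253)

Mathlib only (on top of `NormVal.lean`).  `F / K` finite, `O ⊆ K` a DISCRETE valuation subring
(`hdvr`: every nonzero valuation is an integral power of `v ϖ`), `V i` (`i : ι`, finite) pairwise
incomparable valuation subrings of `F` over `O`, reductions `π : O → k`, `ρ i : V i → κ i`
(surjective), and LOWER-BOUND data `τ i ∈ m_{V i}` with `v i (ϖ) = v i (τ i) ^ E i`.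

* `fund_ineq_indep` : for `k`-linearly independent families `b i : J i → κ i`,
  `∑ i, E i * #(J i) ≤ [F : K]`.
* `finite_residue`, `fund_ineq` : `κ i / k` is finite and `∑ i, E i * [κ i : k] ≤ [F : K]`.
* `finrank_eq_of_fund_eq`, `gen_of_fund_eq`, `eq_of_fund_eq` : the equality case
  (`∑ i, E i * f i = [F : K]` with `f i ≤ [κ i : k]`): `[κ i : k] = f i`, `τ i` generates the
  maximal ideal of `V i`, and the `V i` are ALL the valuation subrings of `F` over `O`.
* `norm_red_ram_lb`, `val_norm_ram_lb` : `norm_red_ram` and `val_norm_ram` from lower-bound data.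
-/

set_option autoImplicit false
set_option linter.unusedSectionVars false

namespace Fermat.Agent.S36.H253

open scoped BigOperators
open Fermat.Agent.S35.H253

section Helpers

variable {K F : Type*} [Field K] [Field F] [Algebra K F]

/-- In a linearly ordered group with zero: if `0 < x < 1` and `x ^ n < 1` (`n : ℤ`), then
`x ^ n ≤ x`. -/
theorem zpow_le_self_of_lt_one {Γ : Type*} [LinearOrderedCommGroupWithZero Γ] {x : Γ}
    (hx0 : x ≠ 0) (hx : x < 1) {n : ℤ} (hn : x ^ n < 1) : x ^ n ≤ x := by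
  have hn1 : 1 ≤ n := by
    by_contra hcon
    have hle : n ≤ 0 := by omega
    have : (1 : Γ) ≤ x ^ n := by
      obtain ⟨m, hm⟩ : ∃ m : ℕ, n = -(m : ℤ) := ⟨(-n).toNat, by omega⟩
      rw [hm, zpow_neg, zpow_natCast]
      exact (one_le_inv₀ (pow_pos (zero_lt_iff.2 hx0) _)).2 (pow_le_one₀ zero_le hx.le)
    exact lt_irrefl _ (lt_of_le_of_lt this hn)
  obtain ⟨m, hm⟩ : ∃ m : ℕ, n = (m : ℤ) + 1 := ⟨(n - 1).toNat, by omega⟩
  rw [hm, zpow_add₀ hx0, zpow_one, zpow_natCast]
  calc x ^ m * x ≤ 1 * x := by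
        gcongr; exact pow_le_one₀ zero_le hx.le
    _ = x := one_mul _

/-- A discrete valuation ring has a generator of its maximal ideal. -/
theorem genO_of_dvr {O : ValuationSubring K} {ϖ : K} (hϖ0 : ϖ ≠ 0) (hϖ : O.valuation ϖ < 1)
    (hdvr : ∀ a : K, a ≠ 0 → ∃ n : ℤ, O.valuation a = O.valuation ϖ ^ n)
    (a : K) (ha : O.valuation a < 1) : O.valuation a ≤ O.valuation ϖ := by
  have hvϖ : O.valuation ϖ ≠ 0 := by rw [Ne, Valuation.zero_iff]; exact hϖ0
  by_cases ha0 : a = 0
  · rw [ha0, map_zero]; exact zero_le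
  obtain ⟨n, hn⟩ := hdvr a ha0
  rw [hn] at ha ⊢
  exact zpow_le_self_of_lt_one hvϖ hϖ ha

/-- Over a valuation ring `O`, the valuation of `V` on `K` is determined by that of `O`. -/
theorem Over_val_zpow {O : ValuationSubring K} {V : ValuationSubring F} (h : Over O V)
    {ϖ c : K} (hϖ0 : ϖ ≠ 0) {n : ℤ} (hn : O.valuation c = O.valuation ϖ ^ n) :
    V.valuation (algebraMap K F c) = V.valuation (algebraMap K F ϖ) ^ n := by
  have hvϖ : O.valuation ϖ ≠ 0 := by rw [Ne, Valuation.zero_iff]; exact hϖ0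
  have hunit : O.valuation (c * (ϖ ^ n)⁻¹) = 1 := by
    rw [map_mul, map_inv₀, map_zpow₀, hn, mul_inv_cancel₀ (zpow_ne_zero _ hvϖ)]
  have h1 := Over_val_eq_one h hunit
  have e1 : c = (c * (ϖ ^ n)⁻¹) * ϖ ^ n := by
    rw [inv_mul_cancel_right₀ (zpow_ne_zero _ hϖ0)]
  conv_lhs => rw [e1]
  rw [map_mul, map_mul, h1, one_mul, map_zpow₀, map_zpow₀]

/-- Over a discrete valuation ring, in an algebraic extension, every element of the maximal ideal
of `V` has a power divisible by the uniformiser of `O`. -/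
theorem exists_pow_le_of_dvr [Algebra.IsAlgebraic K F] {O : ValuationSubring K} {ϖ : K}
    {V : ValuationSubring F} (hover : Over O V) (hϖ0 : ϖ ≠ 0) (hϖ : O.valuation ϖ < 1)
    (hdvr : ∀ a : K, a ≠ 0 → ∃ n : ℤ, O.valuation a = O.valuation ϖ ^ n)
    {z : F} (hz : V.valuation z < 1) :
    ∃ N : ℕ, V.valuation z ^ N ≤ V.valuation (algebraMap K F ϖ) := by
  by_cases hz0 : z = 0
  · exact ⟨1, by rw [hz0, map_zero, pow_one]; exact zero_le⟩
  obtain ⟨d, hd, c, hc0, hdc⟩ := exists_pow_val_eq (K := K) V hz0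
  obtain ⟨n, hn⟩ := hdvr c hc0
  have hc := Over_val_zpow hover hϖ0 hn
  have hϖV : V.valuation (algebraMap K F ϖ) < 1 := (hover.val_lt_one_iff ϖ).2 hϖ
  have hϖV0 : V.valuation (algebraMap K F ϖ) ≠ 0 := by
    rw [Ne, Valuation.zero_iff, map_eq_zero]; exact hϖ0
  refine ⟨d, ?_⟩
  rw [hdc, hc]
  refine zpow_le_self_of_lt_one hϖV0 hϖV ?_
  rw [← hc, ← hdc]
  exact pow_lt_one₀ zero_le hz hd.ne'

/-- **Bezout in the value group.**  If `0 < x < y < 1` and `y ^ d = x ^ S` (`d ≥ 1`), then `x`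
is a proper power `(y ^ a * x ^ b) ^ m`, `m ≥ 2`. -/
theorem exists_root_of_between {Γ : Type*} [LinearOrderedCommGroupWithZero Γ] {x y : Γ}
    (hx0 : 0 < x) (hxy : x < y) (hy : y < 1) {d : ℕ} (hd : 0 < d) {S : ℤ}
    (h : y ^ d = x ^ S) :
    ∃ (a b : ℤ) (m : ℕ), 2 ≤ m ∧ (y ^ a * x ^ b) ^ m = x := by
  have hx1 : x < 1 := lt_trans hxy hy
  have hxne : x ≠ 0 := hx0.ne'
  have hSpos : 0 < S := by
    by_contra hcon
    have hle : S ≤ 0 := not_lt.1 hcon
    have h1 : x ^ (0 : ℤ) ≤ x ^ S := zpow_le_zpow_right_of_le_one₀ hx0 hx1.le hle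
    rw [zpow_zero, ← h] at h1
    exact absurd (pow_lt_one₀ zero_le hy hd.ne') (not_lt.2 h1)
  have hSd : S < d := by
    by_contra hcon
    have hle : (d : ℤ) ≤ S := not_lt.1 hcon
    have h1 : x ^ S ≤ x ^ (d : ℤ) := zpow_le_zpow_right_of_le_one₀ hx0 hx1.le hle
    rw [zpow_natCast, ← h] at h1
    exact absurd (pow_lt_pow_left₀ hxy zero_le hd.ne') (not_lt.2 h1)
  set g := Int.gcd S d with hgdef
  have hbez : (g : ℤ) = S * Int.gcdA S d + (d : ℤ) * Int.gcdB S d := Int.gcd_eq_gcd_ab S d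
  have hgS : (g : ℤ) ∣ S := Int.gcd_dvd_left S d
  have hgd : (g : ℤ) ∣ (d : ℤ) := Int.gcd_dvd_right S d
  have hgle : (g : ℤ) ≤ S := Int.le_of_dvd hSpos hgS
  have hgpos : 0 < g := Int.gcd_pos_of_ne_zero_left _ hSpos.ne'
  obtain ⟨m, hm⟩ := Int.natCast_dvd_natCast.1 hgd
  have hm2 : 2 ≤ m := by
    by_contra hcon
    have hm1 : m ≤ 1 := by omega
    have : d ≤ g := by
      rw [hm]
      calc g * m ≤ g * 1 := Nat.mul_le_mul_left _ hm1
        _ = g := mul_one _
    have : (d : ℤ) ≤ g := by exact_mod_cast this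
    omega
  refine ⟨Int.gcdA S d, Int.gcdB S d, m, hm2, ?_⟩
  set a := Int.gcdA S d
  set b := Int.gcdB S d
  have hyne : y ≠ 0 := (lt_trans hx0 hxy).ne'
  have e1 : (y ^ a * x ^ b) ^ d = x ^ g := by
    rw [← zpow_natCast (y ^ a * x ^ b) d, mul_zpow, ← zpow_mul, ← zpow_mul, mul_comm a (d : ℤ),
      zpow_mul, zpow_natCast y d, h, ← zpow_mul, ← zpow_add₀ hxne, ← zpow_natCast x g, hbez,
      mul_comm b (d : ℤ)]
  have e2 : ((y ^ a * x ^ b) ^ m) ^ g = x ^ g := by
    rw [← pow_mul, mul_comm m g, ← hm, e1]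
  exact (pow_left_inj₀ zero_le zero_le hgpos.ne').1 e2

/-- **Comparable extensions are equal** (discrete base, algebraic extension). -/
theorem eq_of_le_of_over [Algebra.IsAlgebraic K F] {O : ValuationSubring K} {ϖ : K}
    {W V : ValuationSubring F} (hW : Over O W) (hV : Over O V) (hϖ0 : ϖ ≠ 0)
    (hϖ : O.valuation ϖ < 1)
    (hdvr : ∀ a : K, a ≠ 0 → ∃ n : ℤ, O.valuation a = O.valuation ϖ ^ n)
    (hle : W ≤ V) : W = V := by
  refine le_antisymm hle fun x hx => ?_
  by_contra hxW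
  have hxW' : 1 < W.valuation x := by
    rw [← not_le, W.valuation_le_one_iff]; exact hxW
  have hx0 : x ≠ 0 := by
    intro h0; rw [h0, map_zero] at hxW'; exact not_lt_zero hxW'
  have hyW : W.valuation x⁻¹ < 1 := by
    rw [map_inv₀]; exact inv_lt_one_of_one_lt₀ hxW'
  obtain ⟨N, hN⟩ := exists_pow_le_of_dvr hW hϖ0 hϖ hdvr hyW
  have hϖF : algebraMap K F ϖ ≠ 0 := by rw [Ne, map_eq_zero]; exact hϖ0
  have hmemW : x⁻¹ ^ N * (algebraMap K F ϖ)⁻¹ ∈ W := by
    rw [← W.valuation_le_one_iff, map_mul, map_pow, map_inv₀ _ (algebraMap K F ϖ)]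
    have hpos : 0 < W.valuation (algebraMap K F ϖ) := by rw [Valuation.pos_iff]; exact hϖF
    calc W.valuation x⁻¹ ^ N * (W.valuation (algebraMap K F ϖ))⁻¹
        ≤ W.valuation (algebraMap K F ϖ) * (W.valuation (algebraMap K F ϖ))⁻¹ := by gcongr
      _ = 1 := mul_inv_cancel₀ hpos.ne'
  have hmemV := hle hmemW
  have hxV : V.valuation x ≤ 1 := (V.valuation_le_one_iff _).2 hx
  have hyV : V.valuation x⁻¹ ≤ 1 :=
    (V.valuation_le_one_iff _).2 (hle ((W.valuation_le_one_iff _).1 hyW.le))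
  have hyV1 : V.valuation x⁻¹ = 1 := by
    refine le_antisymm hyV ?_
    rw [map_inv₀]
    exact (one_le_inv₀ (by rw [Valuation.pos_iff]; exact hx0)).2 hxV
  have hϖV : V.valuation (algebraMap K F ϖ) < 1 := (hV.val_lt_one_iff ϖ).2 hϖ
  have hbad : 1 < V.valuation (x⁻¹ ^ N * (algebraMap K F ϖ)⁻¹) := by
    rw [map_mul, map_pow, hyV1, one_pow, one_mul, map_inv₀]
    exact (one_lt_inv₀ (by rw [Valuation.pos_iff]; exact hϖF)).2 hϖV
  exact absurd ((V.valuation_le_one_iff _).2 hmemV) (not_le.2 hbad)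

/-- The lower bound `E` of the ramification index is positive. -/
theorem E_pos_of_ram {O : ValuationSubring K} {ϖ : K} {V : ValuationSubring F} {τ : F} {E : ℕ}
    (hover : Over O V) (hϖ : O.valuation ϖ < 1)
    (hram : V.valuation (algebraMap K F ϖ) = V.valuation τ ^ E) : 0 < E := by
  rcases Nat.eq_zero_or_pos E with he | he
  · rw [he, pow_zero] at hram
    have := hover.val_lt_one_iff ϖ |>.2 hϖ
    rw [hram] at this
    exact absurd this (lt_irrefl _)
  · exact he

end Helpers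

section Closure

variable {K F : Type*} [Field K] [Field F] [Algebra K F]
variable {O : ValuationSubring K} {ϖ : K} {ι : Type*} [Fintype ι] [DecidableEq ι]
  {V : ι → ValuationSubring F}
  {t : ι → F} {e : ι → ℕ} {J : ι → Type*} [∀ i, Fintype (J i)]
  {r : (i : ι) → J i → Fin (e i) → F}

/-- If an adapted family is a basis, `⋂ V i` is contained in every valuation ring of `F`
over `O` (it is the integral closure of `O`). -/
theorem RamFamily.mem_of_forall_mem [Module.Finite K F] (h : RamFamily O ϖ V t e r)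
    (hcard : ∑ i, e i * Fintype.card (J i) = Module.finrank K F)
    {W : ValuationSubring F} (hW : Over O W) {x : F} (hx : ∀ i, x ∈ V i) : x ∈ W := by
  classical
  have hcard' : Fintype.card (Idx e J) = Module.finrank K F := by
    rw [RamFamily.card_idx]; exact hcard
  have hne : Nonempty (Idx e J) := by
    rw [← Fintype.card_pos_iff, hcard']
    exact Module.finrank_pos
  set bas : Module.Basis (Idx e J) K F :=
    basisOfLinearIndependentOfCardEqFinrank h.linearIndependent hcard' with hbasdef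
  have hbas : ⇑bas = fam t e r := coe_basisOfLinearIndependentOfCardEqFinrank _ _
  by_contra hxW
  have hxW' : 1 < W.valuation x := by
    rw [← not_le, W.valuation_le_one_iff]; exact hxW
  obtain ⟨l₀, -, hmax⟩ := Finset.exists_max_image (Finset.univ : Finset (Idx e J))
    (fun l => W.valuation (fam t e r l)) Finset.univ_nonempty
  have hl₀ : 0 < W.valuation (fam t e r l₀) := by
    rw [Valuation.pos_iff, ← hbas]; exact bas.ne_zero l₀
  have hrepr : x * fam t e r l₀ =
      ∑ l, algebraMap K F (bas.repr (x * fam t e r l₀) l) * fam t e r l :=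
    (RamFamily.sum_repr_eq bas hbas _).symm
  have hle : W.valuation (x * fam t e r l₀) ≤ W.valuation (fam t e r l₀) := by
    rw [hrepr]
    refine Valuation.map_sum_le _ fun l _ => ?_
    rw [map_mul]
    have hmem : bas.repr (x * fam t e r l₀) l ∈ O :=
      h.repr_mem bas hbas (fun i => mul_mem (hx i) (h.fam_mem l₀ i)) l
    calc W.valuation (algebraMap K F (bas.repr (x * fam t e r l₀) l)) *
          W.valuation (fam t e r l)
        ≤ 1 * W.valuation (fam t e r l₀) := by
          gcongr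
          · exact (hW.val_le_one_iff _).2 ((O.valuation_le_one_iff _).2 hmem)
          · exact hmax l (Finset.mem_univ l)
      _ = _ := one_mul _
  have hgt : W.valuation (fam t e r l₀) < W.valuation (x * fam t e r l₀) := by
    rw [map_mul]
    calc W.valuation (fam t e r l₀) = 1 * W.valuation (fam t e r l₀) := (one_mul _).symm
      _ < W.valuation x * W.valuation (fam t e r l₀) := by gcongr
  exact absurd hle (not_le.2 hgt)

end Closure

section Ineq

variable {K F : Type*} [Field K] [Field F] [Algebra K F]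
variable {ι : Type*} [Fintype ι]
    {O : ValuationSubring K} {ϖ : K} {V : ι → ValuationSubring F} {τ : ι → F} {E : ι → ℕ}
    (hover : ∀ i, Over O (V i)) (hinc : ∀ i i', i ≠ i' → ¬ V i ≤ V i')
    (hϖ0 : ϖ ≠ 0) (hϖ : O.valuation ϖ < 1)
    (hgenO : ∀ a : K, O.valuation a < 1 → O.valuation a ≤ O.valuation ϖ)
    (hτ : ∀ i, (V i).valuation (τ i) < 1)
    (hrad : ∀ i (z : F), (V i).valuation z < 1 →
      ∃ N : ℕ, (V i).valuation z ^ N ≤ (V i).valuation (algebraMap K F ϖ))
    (hram : ∀ i, (V i).valuation (algebraMap K F ϖ) = (V i).valuation (τ i) ^ E i)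
    {k : Type*} [Field k] {κ : ι → Type*} [∀ i, Field (κ i)] [∀ i, Algebra k (κ i)]
    (π : O →+* k) (ρ : ∀ i, V i →+* κ i)
    (hπ : Function.Surjective π) (hρ : ∀ i, Function.Surjective (ρ i))
    (hc : ∀ i (a : O), ρ i ⟨algebraMap K F a, ((hover i) a).2 a.2⟩ = algebraMap k (κ i) (π a))

include hover hinc hϖ0 hϖ hgenO hτ hrad hram hπ hρ hc

/-- Adapted families exist for any residually independent families `b i : J i → κ i`
(no generator of the maximal ideal of `V i` is needed, only `hrad`). -/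
theorem exists_ramFamily_of_indep [DecidableEq ι] {J : ι → Type*} [∀ i, Fintype (J i)]
    (b : ∀ i, J i → κ i) (hb : ∀ i, LinearIndependent k (b i)) :
    ∃ r : (i : ι) → J i → Fin (E i) → F, RamFamily O ϖ V τ E r := by
  classical
  have hker : ∀ i (z : V i), ρ i z = 0 ↔ (V i).valuation (z : F) < 1 :=
    fun i z => map_eq_zero_iff_val_lt_one (ρ i) (hρ i) z
  have hkerO : ∀ a : O, π a = 0 ↔ O.valuation (a : K) < 1 :=
    fun a => map_eq_zero_iff_val_lt_one π hπ a
  choose E' hE1 hE2 using fun i => exists_idem_multi V hinc i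
  have hEmem : ∀ i i', E' i ∈ V i' := fun i i' => by
    by_cases hi : i' = i
    · subst hi
      have : E' i' = 1 - (1 - E' i') := by ring
      rw [this]
      exact sub_mem (one_mem _) (((V i').valuation_le_one_iff _).1 (hE1 i').le)
    · exact ((V i').valuation_le_one_iff _).1 (hE2 i i' hi).le
  have hρE : ∀ i, ρ i ⟨E' i, hEmem i i⟩ = 1 := fun i => by
    have h0 : ρ i (1 - ⟨E' i, hEmem i i⟩) = 0 := (hker i _).2 (hE1 i)
    rw [map_sub, map_one, sub_eq_zero] at h0
    exact h0.symm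
  -- a uniform exponent
  have hNex : ∀ i i', ∃ N : ℕ, i' ≠ i →
      (V i').valuation (E' i) ^ N ≤ (V i').valuation (algebraMap K F ϖ) := fun i i' => by
    by_cases hi : i' = i
    · exact ⟨0, fun h => absurd hi h⟩
    · obtain ⟨N, hN⟩ := hrad i' (E' i) (hE2 i i' hi)
      exact ⟨N, fun _ => hN⟩
  choose Nf hNf using hNex
  set N := ∑ i, ∑ i', Nf i i' with hNdef
  have hNle : ∀ i i', Nf i i' ≤ N := fun i i' => by
    have h1 : Nf i i' ≤ ∑ i'', Nf i i'' :=
      Finset.single_le_sum (f := fun i'' => Nf i i'') (fun _ _ => Nat.zero_le _)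
        (Finset.mem_univ i')
    have h2 : ∑ i'', Nf i i'' ≤ N :=
      Finset.single_le_sum (f := fun i => ∑ i'', Nf i i'') (fun _ _ => Nat.zero_le _)
        (Finset.mem_univ i)
    exact le_trans h1 h2
  have hEN : ∀ i i', i' ≠ i →
      (V i').valuation (E' i ^ N) ≤ (V i').valuation (algebraMap K F ϖ) :=
    fun i i' hi => by
      rw [map_pow]
      calc (V i').valuation (E' i) ^ N ≤ (V i').valuation (E' i) ^ Nf i i' :=
            pow_le_pow_of_le_one zero_le (hE2 i i' hi).le (hNle i i')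
        _ ≤ _ := hNf i i' hi
  choose z hz using fun (i : ι) (j : J i) => hρ i (b i j)
  choose G hG1 hG2 using fun (i : ι) (j : J i) => exists_lift_multi V hinc i (z i j).2
  have hρG : ∀ i j, ρ i ⟨G i j, hG1 i j i⟩ = b i j := fun i j => by
    rw [← hz i j, ← sub_eq_zero, ← map_sub, hker]
    exact hG2 i j
  choose u hu1 hu2 hu3 using fun i => exists_multiplier V (τ i)
  have hτmem : ∀ i, τ i ∈ V i := fun i => ((V i).valuation_le_one_iff _).1 (hτ i).le
  have hρu : ∀ i, ρ i ⟨u i, hu1 i i⟩ ≠ 0 := fun i h0 => by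
    have := (hker i _).1 h0
    simp only at this
    rw [hu3 i i (hτmem i)] at this
    exact lt_irrefl _ this
  let r : (i : ι) → J i → Fin (E i) → F := fun i j s => E' i ^ N * G i j * u i ^ (s : ℕ)
  have hrmem : ∀ i j s, r i j s ∈ V i := fun i j s =>
    mul_mem (mul_mem (pow_mem (hEmem i i) _) (hG1 i j i)) (pow_mem (hu1 i i) _)
  have hρr : ∀ i j s, ρ i ⟨r i j s, hrmem i j s⟩ =
      ρ i ⟨u i, hu1 i i⟩ ^ (s : ℕ) * b i j := fun i j (s : Fin (E i)) => by
    have e1 : (⟨r i j s, hrmem i j s⟩ : V i) =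
        ⟨E' i, hEmem i i⟩ ^ N * ⟨G i j, hG1 i j i⟩ * ⟨u i, hu1 i i⟩ ^ (s : ℕ) := rfl
    rw [e1, map_mul, map_mul, map_pow, map_pow, hρE, one_pow, one_mul, hρG, mul_comm]
  refine ⟨r, ?_⟩
  exact
    { isOver := hover
      ne_zero := hϖ0
      unifO := hϖ
      genO := hgenO
      unif := hτ
      ram := hram
      r_mem := hrmem
      small := by
        intro i j s i' hi
        have e1 : r i j s * τ i ^ (s : ℕ) = E' i ^ N * (G i j * (τ i * u i) ^ (s : ℕ)) := by
          simp only [r]; ring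
        rw [e1, map_mul]
        calc (V i').valuation (E' i ^ N) * (V i').valuation (G i j * (τ i * u i) ^ (s : ℕ))
            ≤ (V i').valuation (algebraMap K F ϖ) * 1 := by
              gcongr
              · exact hEN i i' hi
              · exact ((V i').valuation_le_one_iff _).2
                  (mul_mem (hG1 i j i') (pow_mem (hu2 i i') _))
          _ = _ := mul_one _
      indep := by
        intro i s a ha hsmall j
        have hmem : (∑ j, algebraMap K F (a j) * r i j s) ∈ V i :=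
          ((V i).valuation_le_one_iff _).1 hsmall.le
        have h0 : ρ i ⟨_, hmem⟩ = 0 := (hker i ⟨_, hmem⟩).2 hsmall
        have e1 : (⟨_, hmem⟩ : V i) =
            ∑ j, (⟨algebraMap K F (a j), ((hover i) (a j)).2 (ha j)⟩ : V i) *
              ⟨r i j s, hrmem i j s⟩ := by
          apply Subtype.ext
          rw [AddSubmonoidClass.coe_finsetSum]
          simp only [MulMemClass.coe_mul]
        rw [e1, map_sum] at h0
        have h1 : ρ i ⟨u i, hu1 i i⟩ ^ (s : ℕ) * ∑ j, π ⟨a j, ha j⟩ • b i j = 0 := by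
          rw [← h0, Finset.mul_sum]
          refine Finset.sum_congr rfl fun j _ => ?_
          rw [map_mul, hρr, Algebra.smul_def, ← hc]
          ring
        have h2 : ∑ j, π ⟨a j, ha j⟩ • b i j = 0 :=
          (mul_eq_zero.1 h1).resolve_left (pow_ne_zero _ (hρu i))
        have := Fintype.linearIndependent_iff.1 (hb i) _ h2 j
        exact (hkerO ⟨a j, ha j⟩).1 this }

/-- **Fundamental inequality with ramification** (independent-family form):
`∑ i, E i * #(J i) ≤ [F : K]`. -/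
theorem fund_ineq_indep [Module.Finite K F] {J : ι → Type*} [∀ i, Fintype (J i)]
    (b : ∀ i, J i → κ i) (hb : ∀ i, LinearIndependent k (b i)) :
    ∑ i, E i * Fintype.card (J i) ≤ Module.finrank K F := by
  classical
  obtain ⟨r, hfam⟩ := exists_ramFamily_of_indep hover hinc hϖ0 hϖ hgenO hτ hrad hram π ρ hπ hρ
    hc b hb
  have h1 := hfam.linearIndependent.fintype_card_le_finrank
  rwa [RamFamily.card_idx] at h1

omit [Fintype ι] hinc in
/-- **Residue extensions are finite.** -/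
theorem finite_residue [Module.Finite K F] (i₀ : ι) : Module.Finite k (κ i₀) := by
  classical
  by_contra hfin
  set n := Module.finrank K F with hn
  have hrank : ((n + 1 : ℕ) : Cardinal) ≤ Module.rank k (κ i₀) := by
    have h1 : ¬ Module.rank k (κ i₀) < Cardinal.aleph0 :=
      fun h => hfin (Module.rank_lt_aleph0_iff.1 h)
    exact le_trans (Cardinal.natCast_lt_aleph0).le (not_lt.1 h1)
  obtain ⟨s, hs, hsi⟩ := le_rank_iff_exists_linearIndependent_finset.1 hrank
  have key := fund_ineq_indep (ι := Unit) (V := fun _ => V i₀) (τ := fun _ => τ i₀)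
    (E := fun _ => E i₀) (κ := fun _ => κ i₀) (fun _ => hover i₀)
    (fun i i' h => absurd (Subsingleton.elim i i') h) hϖ0 hϖ hgenO (fun _ => hτ i₀)
    (fun _ => hrad i₀) (fun _ => hram i₀) π (fun _ => ρ i₀) hπ (fun _ => hρ i₀)
    (fun _ => hc i₀) (J := fun _ => ((s : Set (κ i₀)) : Type _))
    (fun _ => ((↑) : ((s : Set (κ i₀)) : Type _) → κ i₀)) (fun _ => hsi)
  have hcard : Fintype.card ((s : Set (κ i₀)) : Type _) = n + 1 := by
    rw [← hs]; simp
  simp only [Finset.univ_unique, Finset.sum_singleton, hcard] at key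
  have hE := E_pos_of_ram (hover i₀) hϖ (hram i₀)
  have h2 : n + 1 ≤ E i₀ * (n + 1) := Nat.le_mul_of_pos_left _ hE
  have h3 : E i₀ * (n + 1) ≤ n := key
  exact absurd (le_trans h2 h3) (Nat.not_succ_le_self n)

/-- **Fundamental inequality with ramification**: `∑ i, E i * [κ i : k] ≤ [F : K]`. -/
theorem fund_ineq [Module.Finite K F] :
    ∑ i, E i * Module.finrank k (κ i) ≤ Module.finrank K F := by
  classical
  have hfin : ∀ i, Module.Finite k (κ i) := fun i =>
    finite_residue hover hϖ0 hϖ hgenO hτ hrad hram π ρ hπ hρ hc i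
  have key := fund_ineq_indep hover hinc hϖ0 hϖ hgenO hτ hrad hram π ρ hπ hρ hc
    (J := fun i => Fin (Module.finrank k (κ i))) (fun i => Module.finBasis k (κ i))
    (fun i => (Module.finBasis k (κ i)).linearIndependent)
  simpa only [Fintype.card_fin] using key

/-- **Equality case, residue degrees.**  If lower bounds `f i ≤ [κ i : k]` satisfy
`∑ i, E i * f i = [F : K]`, then `[κ i : k] = f i`. -/
theorem finrank_eq_of_fund_eq [Module.Finite K F] (f : ι → ℕ)
    (hf : ∀ i, f i ≤ Module.finrank k (κ i))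
    (heq : ∑ i, E i * f i = Module.finrank K F) (i : ι) :
    Module.finrank k (κ i) = f i := by
  classical
  have key := fund_ineq hover hinc hϖ0 hϖ hgenO hτ hrad hram π ρ hπ hρ hc
  by_contra hne
  have hlt : f i < Module.finrank k (κ i) := lt_of_le_of_ne (hf i) (Ne.symm hne)
  have hsum : ∑ i, E i * f i < ∑ i, E i * Module.finrank k (κ i) := by
    refine Finset.sum_lt_sum (fun j _ => Nat.mul_le_mul_left _ (hf j)) ⟨i, Finset.mem_univ i, ?_⟩
    exact Nat.mul_lt_mul_of_pos_left hlt (E_pos_of_ram (hover i) hϖ (hram i))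
  rw [heq] at hsum
  exact absurd key (not_le.2 hsum)

end Ineq

section Eq

variable {K F : Type*} [Field K] [Field F] [Algebra K F]
variable {ι : Type*} [Fintype ι]
    {O : ValuationSubring K} {ϖ : K} {V : ι → ValuationSubring F} {τ : ι → F} {E : ι → ℕ}
    (hover : ∀ i, Over O (V i)) (hinc : ∀ i i', i ≠ i' → ¬ V i ≤ V i')
    (hϖ0 : ϖ ≠ 0) (hϖ : O.valuation ϖ < 1)
    (hdvr : ∀ a : K, a ≠ 0 → ∃ n : ℤ, O.valuation a = O.valuation ϖ ^ n)
    (hτ : ∀ i, (V i).valuation (τ i) < 1)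
    (hram : ∀ i, (V i).valuation (algebraMap K F ϖ) = (V i).valuation (τ i) ^ E i)
    {k : Type*} [Field k] {κ : ι → Type*} [∀ i, Field (κ i)] [∀ i, Algebra k (κ i)]
    (π : O →+* k) (ρ : ∀ i, V i →+* κ i)
    (hπ : Function.Surjective π) (hρ : ∀ i, Function.Surjective (ρ i))
    (hc : ∀ i (a : O), ρ i ⟨algebraMap K F a, ((hover i) a).2 a.2⟩ = algebraMap k (κ i) (π a))

include hover hinc hϖ0 hϖ hdvr hτ hram hπ hρ hc

/-- `fund_ineq` over a discrete base. -/
theorem fund_ineq_dvr [Module.Finite K F] :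
    ∑ i, E i * Module.finrank k (κ i) ≤ Module.finrank K F :=
  fund_ineq hover hinc hϖ0 hϖ (genO_of_dvr hϖ0 hϖ hdvr) hτ
    (fun i _ hz => exists_pow_le_of_dvr (hover i) hϖ0 hϖ hdvr hz) hram π ρ hπ hρ hc

omit [Fintype ι] hinc in
/-- `finite_residue` over a discrete base. -/
theorem finite_residue_dvr [Module.Finite K F] (i : ι) : Module.Finite k (κ i) :=
  finite_residue hover hϖ0 hϖ (genO_of_dvr hϖ0 hϖ hdvr) hτ
    (fun i _ hz => exists_pow_le_of_dvr (hover i) hϖ0 hϖ hdvr hz) hram π ρ hπ hρ hc i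

/-- **Equality case, uniformisers.**  If `∑ i, E i * [κ i : k] = [F : K]`, then `τ i` generates
the maximal ideal of `V i`. -/
theorem gen_of_fund_eq [Module.Finite K F]
    (hdeg : ∑ i, E i * Module.finrank k (κ i) = Module.finrank K F) (i₀ : ι) (z : F)
    (hz : (V i₀).valuation z < 1) : (V i₀).valuation z ≤ (V i₀).valuation (τ i₀) := by
  classical
  by_contra hcon
  rw [not_le] at hcon
  have hz0 : z ≠ 0 := by
    intro h0
    rw [h0, map_zero] at hcon
    exact not_lt_zero hcon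
  have hτ0 : τ i₀ ≠ 0 := by
    intro h0
    have h1 := hram i₀
    have he := E_pos_of_ram (hover i₀) hϖ (hram i₀)
    rw [h0, map_zero, zero_pow he.ne', Valuation.zero_iff, map_eq_zero] at h1
    exact hϖ0 h1
  have hτpos : 0 < (V i₀).valuation (τ i₀) := by rw [Valuation.pos_iff]; exact hτ0
  -- `v z ^ d = v τ ^ S`
  obtain ⟨d, hd, c, hc0, hdc⟩ := exists_pow_val_eq (K := K) (V i₀) hz0
  obtain ⟨n, hn⟩ := hdvr c hc0
  have hcv := Over_val_zpow (hover i₀) hϖ0 hn
  have hS : (V i₀).valuation z ^ d = (V i₀).valuation (τ i₀) ^ ((E i₀ : ℤ) * n) := by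
    rw [hdc, hcv, hram, ← zpow_natCast, ← zpow_mul]
  obtain ⟨a, b, m, hm2, hroot⟩ := exists_root_of_between hτpos hcon hz hd hS
  -- the better uniformiser
  set τ' : F := z ^ a * τ i₀ ^ b with hτ'
  have hvτ' : (V i₀).valuation τ' ^ m = (V i₀).valuation (τ i₀) := by
    rw [hτ', map_mul, map_zpow₀, map_zpow₀]; exact hroot
  have hτ'lt : (V i₀).valuation τ' < 1 := by
    by_contra hge
    rw [not_lt] at hge
    have : 1 ≤ (V i₀).valuation τ' ^ m := one_le_pow₀ hge
    rw [hvτ'] at this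
    exact absurd (hτ i₀) (not_lt.2 this)
  have key := fund_ineq_dvr (τ := Function.update τ i₀ τ')
    (E := Function.update E i₀ (m * E i₀)) hover hinc hϖ0 hϖ hdvr
    (fun i => by
      by_cases hi : i = i₀
      · subst hi; rw [Function.update_self]; exact hτ'lt
      · rw [Function.update_of_ne hi]; exact hτ i)
    (fun i => by
      by_cases hi : i = i₀
      · subst hi
        rw [Function.update_self, Function.update_self, pow_mul, hvτ']
        exact hram i
      · rw [Function.update_of_ne hi, Function.update_of_ne hi]; exact hram i)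
    π ρ hπ hρ hc
  have hfin := finite_residue_dvr hover hϖ0 hϖ hdvr hτ hram π ρ hπ hρ hc i₀
  have hfpos : 0 < Module.finrank k (κ i₀) := Module.finrank_pos
  have hEpos := E_pos_of_ram (hover i₀) hϖ (hram i₀)
  have hlt : ∑ i, E i * Module.finrank k (κ i) <
      ∑ i, Function.update E i₀ (m * E i₀) i * Module.finrank k (κ i) := by
    refine Finset.sum_lt_sum (fun i _ => ?_) ⟨i₀, Finset.mem_univ i₀, ?_⟩
    · by_cases hi : i = i₀
      · subst hi
        rw [Function.update_self]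
        exact Nat.mul_le_mul_right _ (Nat.le_mul_of_pos_left _ (by omega))
      · rw [Function.update_of_ne hi]
    · rw [Function.update_self]
      refine Nat.mul_lt_mul_of_pos_right ?_ hfpos
      calc E i₀ = 1 * E i₀ := (one_mul _).symm
        _ < m * E i₀ := Nat.mul_lt_mul_of_pos_right (by omega) hEpos
  rw [hdeg] at hlt
  exact absurd key (not_le.2 hlt)

/-- **Equality case, completeness.**  If `∑ i, E i * [κ i : k] = [F : K]`, every valuation
subring of `F` over `O` is one of the `V i`. -/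
theorem eq_of_fund_eq [Module.Finite K F]
    (hdeg : ∑ i, E i * Module.finrank k (κ i) = Module.finrank K F)
    {W : ValuationSubring F} (hW : Over O W) : ∃ i, W = V i := by
  classical
  by_contra hcon
  push Not at hcon
  have hgenO := genO_of_dvr hϖ0 hϖ hdvr
  have hrad : ∀ i (z : F), (V i).valuation z < 1 →
      ∃ N : ℕ, (V i).valuation z ^ N ≤ (V i).valuation (algebraMap K F ϖ) :=
    fun i _ hz => exists_pow_le_of_dvr (hover i) hϖ0 hϖ hdvr hz
  have hfin : ∀ i, Module.Finite k (κ i) := fun i =>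
    finite_residue_dvr hover hϖ0 hϖ hdvr hτ hram π ρ hπ hρ hc i
  -- `ι` is nonempty
  have hne : Nonempty ι := by
    by_contra hemp
    rw [not_nonempty_iff] at hemp
    have h0 : Module.finrank K F = 0 := by
      rw [← hdeg]; exact Finset.sum_eq_zero fun i _ => (hemp.false i).elim
    exact absurd (Module.finrank_pos (R := K) (M := F)) (by rw [h0]; exact lt_irrefl 0)
  obtain ⟨i₁⟩ := hne
  -- the extended family
  let V' : Option ι → ValuationSubring F := fun o => o.elim W V
  have hinc' : ∀ o o', o ≠ o' → ¬ V' o ≤ V' o' := by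
    intro o o' hoo'
    rcases o with _ | i <;> rcases o' with _ | i'
    · exact absurd rfl hoo'
    · intro hle
      exact hcon i' (eq_of_le_of_over hW (hover i') hϖ0 hϖ hdvr hle)
    · intro hle
      exact hcon i (eq_of_le_of_over (hover i) hW hϖ0 hϖ hdvr hle).symm
    · exact hinc i i' (fun h => hoo' (by rw [h]))
  obtain ⟨E₀, hE1, hE2⟩ := exists_idem_multi V' hinc' none
  have hy : ∀ i, (V i).valuation (1 - E₀) = 1 := fun i =>
    Valuation.map_one_sub_of_lt _ (hE2 (some i) (by simp))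
  have hy0 : (1 - E₀) ≠ 0 := by
    intro h0
    have := hy i₁
    rw [h0, map_zero] at this
    exact zero_ne_one this
  have hx : ∀ i, (1 - E₀)⁻¹ ∈ V i := fun i => by
    rw [← (V i).valuation_le_one_iff, map_inv₀, hy i, inv_one]
  have hxW : (1 - E₀)⁻¹ ∉ W := by
    rw [← W.valuation_le_one_iff, not_le, map_inv₀]
    exact (one_lt_inv₀ (by rw [Valuation.pos_iff]; exact hy0)).2 hE1
  obtain ⟨r, hfam⟩ := exists_ramFamily_of_indep hover hinc hϖ0 hϖ hgenO hτ hrad hram π ρ hπ hρ
    hc (J := fun i => Fin (Module.finrank k (κ i))) (fun i => Module.finBasis k (κ i))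
    (fun i => (Module.finBasis k (κ i)).linearIndependent)
  have hcard : ∑ i, E i * Fintype.card (Fin (Module.finrank k (κ i))) =
      Module.finrank K F := by
    rw [← hdeg]
    exact Finset.sum_congr rfl fun i _ => by rw [Fintype.card_fin]
  exact hxW (hfam.mem_of_forall_mem hcard hW hx)

/-- **`norm_red_ram` from lower-bound data.**  `O` discrete, `τ i ∈ m_{V i}` with
`v i (ϖ) = v i (τ i) ^ E i`, `f i ≤ [κ i : k]`, `∑ i, E i * f i = [F : K]`.  Then for
`y ∈ ⋂ V i`: `N_{F/K} y ∈ O` and `π (N y) = ∏ i, N_{κ i / k} (ρ i y) ^ E i`. -/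
theorem norm_red_ram_lb [Module.Finite K F] (f : ι → ℕ)
    (hf : ∀ i, f i ≤ Module.finrank k (κ i))
    (heq : ∑ i, E i * f i = Module.finrank K F)
    {y : F} (hy : ∀ i, y ∈ V i) :
    ∃ hN : Algebra.norm K y ∈ O,
      π ⟨Algebra.norm K y, hN⟩ = ∏ i, Algebra.norm k (ρ i ⟨y, hy i⟩) ^ E i := by
  classical
  have hgenO := genO_of_dvr hϖ0 hϖ hdvr
  have hrad : ∀ i (z : F), (V i).valuation z < 1 →
      ∃ N : ℕ, (V i).valuation z ^ N ≤ (V i).valuation (algebraMap K F ϖ) :=
    fun i _ hz => exists_pow_le_of_dvr (hover i) hϖ0 hϖ hdvr hz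
  have hfin : ∀ i, Module.Finite k (κ i) := fun i =>
    finite_residue_dvr hover hϖ0 hϖ hdvr hτ hram π ρ hπ hρ hc i
  have hfr := finrank_eq_of_fund_eq hover hinc hϖ0 hϖ hgenO hτ hrad hram π ρ hπ hρ hc f hf heq
  have hdeg : ∑ i, E i * Module.finrank k (κ i) = Module.finrank K F := by
    rw [← heq]; exact Finset.sum_congr rfl fun i _ => by rw [hfr i]
  have hgen := gen_of_fund_eq hover hinc hϖ0 hϖ hdvr hτ hram π ρ hπ hρ hc hdeg
  have hne : Nonempty ι := by
    by_contra hemp
    rw [not_nonempty_iff] at hemp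
    have h0 : Module.finrank K F = 0 := by
      rw [← hdeg]; exact Finset.sum_eq_zero fun i _ => (hemp.false i).elim
    exact absurd (Module.finrank_pos (R := K) (M := F)) (by rw [h0]; exact lt_irrefl 0)
  exact norm_red_ram hover hinc hϖ0 hϖ hgenO hτ hgen hram π ρ hπ hρ hc hdeg hy

/-- **`val_norm_ram` from lower-bound data.**  Same hypotheses as `norm_red_ram_lb`.  Every
`y ≠ 0` has `v i (y) = v i (τ i) ^ a i` with `a i : ℤ`, and
`v (N_{F/K} y) = v ϖ ^ ∑ i, f i * a i`. -/
theorem val_norm_ram_lb [Module.Finite K F] (f : ι → ℕ)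
    (hf : ∀ i, f i ≤ Module.finrank k (κ i))
    (heq : ∑ i, E i * f i = Module.finrank K F)
    {y : F} (hy : y ≠ 0) :
    ∃ a : ι → ℤ, (∀ i, (V i).valuation y = (V i).valuation (τ i) ^ a i) ∧
      O.valuation (Algebra.norm K y) = O.valuation ϖ ^ (∑ i, (f i : ℤ) * a i) := by
  classical
  have hgenO := genO_of_dvr hϖ0 hϖ hdvr
  have hrad : ∀ i (z : F), (V i).valuation z < 1 →
      ∃ N : ℕ, (V i).valuation z ^ N ≤ (V i).valuation (algebraMap K F ϖ) :=
    fun i _ hz => exists_pow_le_of_dvr (hover i) hϖ0 hϖ hdvr hz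
  have hfin : ∀ i, Module.Finite k (κ i) := fun i =>
    finite_residue_dvr hover hϖ0 hϖ hdvr hτ hram π ρ hπ hρ hc i
  have hfr := finrank_eq_of_fund_eq hover hinc hϖ0 hϖ hgenO hτ hrad hram π ρ hπ hρ hc f hf heq
  have hdeg : ∑ i, E i * Module.finrank k (κ i) = Module.finrank K F := by
    rw [← heq]; exact Finset.sum_congr rfl fun i _ => by rw [hfr i]
  have hgen := gen_of_fund_eq hover hinc hϖ0 hϖ hdvr hτ hram π ρ hπ hρ hc hdeg
  have hne : Nonempty ι := by
    by_contra hemp
    rw [not_nonempty_iff] at hemp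
    have h0 : Module.finrank K F = 0 := by
      rw [← hdeg]; exact Finset.sum_eq_zero fun i _ => (hemp.false i).elim
    exact absurd (Module.finrank_pos (R := K) (M := F)) (by rw [h0]; exact lt_irrefl 0)
  obtain ⟨a, ha, hN⟩ := val_norm_ram_dvr hover hinc hϖ0 hϖ hdvr hτ hgen hram π ρ hπ hρ hc hdeg hy
  refine ⟨a, ha, ?_⟩
  rw [hN]
  congr 1
  exact Finset.sum_congr rfl fun i _ => by rw [hfr i]

end Eq

end Fermat.Agent.S36.H253

end
-- ===== PACK-END S36/H253/FundIneq.lean

-- ===== PACK-BEGIN S41/H761/HT.lean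
section






/-!
# Row S41, block HK, leaf HT: `T_l t_i = t_i T_l` (helper761)

`heckeTransferComm : Spec.HeckeTransferStatement`.
-/

set_option autoImplicit false

namespace Fermat.Agent.S41.H761

open CongruenceSubgroup Matrix.SpecialLinearGroup ModularForm
open Fermat.Agent.S29.H642 Fermat.Agent.S41.Spec
open P2MW.S_ModularForm_heckeT_slash_eq_self_of_mem_Gamma0.ModularForm.HeckeSlashInvariance
open scoped MatrixGroups

section General

variable {N M l : ℕ} [Fact l.Prime] {A : Type*} [AddCommGroup A]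

/-- **General commutation lemma.**  `f : Γ₀(M) →* Γ₀(N)` injective with finite index range, realized
by conjugation by `d`; the conjugated Hecke representatives `d α_y d⁻¹` are Hecke representatives
up to `Γ₀(N)`, and the cosets of the family `d α_y d⁻¹ x⁻¹` are distinct.  Then the Hecke operator
commutes with the transfer along `f`. -/
theorem heckeTransfer_transferAlong (hl : ¬ l ∣ N) (hl' : ¬ l ∣ M) (f : Gamma0 M →* Gamma0 N)
    (hf : Function.Injective f) [f.range.FiniteIndex] (d : GL (Fin 2) ℝ)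
    (hd : ∀ g : Gamma0 M, d * ιN M g = ((ιN N).comp f) g * d)
    (H1 : ∀ y : OnePoint (ZMod l), ∃ (u : Gamma0 N) (y' : OnePoint (ZMod l)),
      d * heckeRep l y * d⁻¹ = ιN N u * heckeRep l y')
    (H2 : ∀ (y y' : OnePoint (ZMod l)) (m : Gamma0 N) (g : Gamma0 M) (Q : GL (Fin 2) ℝ),
      d * Q = ιN N m * d → heckeRep l y * Q = ιN M g * heckeRep l y' → m ∈ f.range)
    (ψ : Additive (Gamma0 M) →+ A) :
    heckeTransfer hl (transferAlong f ψ) = transferAlong f (heckeTransfer hl' ψ) := by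
  classical
  let _ : Fintype (Gamma0 N ⧸ f.range) := f.range.fintypeQuotientOfFiniteIndex
  have sysT' := (heckeSystem hl').conj d hd hd
  have sysTr := IsCosetSystem.ofTransfer f hf (ιN N) (ιN_injective N)
  have sysT := heckeSystem (N := N) hl
  -- family A
  have famA := sysTr.prod sysT (by
    intro x x' y y' g e
    have e2 : heckeRep l y = ιN N (x.out * f g * (x'.out)⁻¹) * heckeRep l y' := by
      have h1 : heckeRep l y = ιN N x.out * (ιN N (x.out)⁻¹ * heckeRep l y) := by
        rw [map_inv, mul_inv_cancel_left]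
      rw [h1, e]
      simp only [MonoidHom.comp_apply, map_mul, mul_assoc]
    have hy := sysT.eq_of_mul _ _ _ e2
    subst hy
    have e3 : ιN N (x.out * f g * (x'.out)⁻¹) = 1 := by
      have h2 : ιN N (x.out * f g * (x'.out)⁻¹) * heckeRep l y = 1 * heckeRep l y := by
        rw [one_mul]; exact e2.symm
      exact mul_right_cancel h2
    have e4 : x.out * f g * (x'.out)⁻¹ = 1 := ιN_injective N (e3.trans (map_one _).symm)
    have e5 : f g = (x.out)⁻¹ * x'.out := by
      have := congrArg (fun t => (x.out)⁻¹ * t * x'.out) e4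
      simpa [mul_assoc] using this
    have hmem : (x.out)⁻¹ * x'.out ∈ f.range := ⟨g, e5⟩
    have h3 := QuotientGroup.eq.mpr hmem
    rw [QuotientGroup.out_eq', QuotientGroup.out_eq'] at h3
    exact ⟨h3, rfl⟩)
  -- family B
  have famB := sysT'.prod sysTr (by
    intro y y' x x' g e
    have hfg : ((ιN N).comp f) g = d * ιN M g * d⁻¹ := by
      rw [hd g, mul_inv_cancel_right]
    have hQ : heckeRep l y * (d⁻¹ * ιN N ((x.out)⁻¹ * x'.out) * d) = ιN M g * heckeRep l y' := by
      have e' := congrArg (fun t => d⁻¹ * t * (ιN N (x'.out)⁻¹)⁻¹ * d) e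
      simp only [hfg, mul_assoc, inv_mul_cancel_left, inv_mul_cancel, mul_one, map_inv,
        inv_inv] at e'
      simp only [map_mul, map_inv, mul_assoc]
      exact e'
    have hmem := H2 y y' ((x.out)⁻¹ * x'.out) g (d⁻¹ * ιN N ((x.out)⁻¹ * x'.out) * d)
      (by simp only [mul_assoc, mul_inv_cancel_left]) hQ
    have hx : x = x' := by
      have h3 := QuotientGroup.eq.mpr hmem
      rwa [QuotientGroup.out_eq', QuotientGroup.out_eq'] at h3
    subst hx
    refine ⟨?_, rfl⟩
    have e2 := mul_right_cancel (e.trans (mul_assoc _ _ _).symm)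
    exact sysT'.eq_of_mul _ _ _ e2)
  rw [transferAlong_eq f hf (ιN N) (ιN_injective N),
    transferAlong_eq f hf (ιN N) (ιN_injective N), heckeTransfer_eq_transfer,
    heckeTransfer_eq_transfer, ← IsCosetSystem.conj_transfer (heckeSystem hl') d hd hd]
  rw [IsCosetSystem.transfer_comp sysTr sysT famA, IsCosetSystem.transfer_comp sysT' sysTr famB]
  symm
  refine IsCosetSystem.transfer_eq_of_le_of_card famB famA ?_ ?_ ψ
  · rw [Fintype.card_prod, Fintype.card_prod, mul_comm]
  · rintro ⟨y, x⟩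
    obtain ⟨u, y₁, hu⟩ := H1 y
    set w : Gamma0 N := u * hElt hl (x.out)⁻¹ y₁ with hw
    have hmem : (w⁻¹)⁻¹ * ((w⁻¹ : Gamma0 N) : Gamma0 N ⧸ f.range).out ∈ f.range :=
      QuotientGroup.eq.mp (QuotientGroup.out_eq' _).symm
    obtain ⟨g, hg⟩ := hmem
    rw [inv_inv] at hg
    refine ⟨(((w⁻¹ : Gamma0 N) : Gamma0 N ⧸ f.range), hPerm l ((x.out)⁻¹ : Gamma0 N) y₁), g, ?_⟩
    rw [hu, mul_assoc, heckeSystem_spec hl y₁ (x.out)⁻¹, MonoidHom.comp_apply, hg]
    simp only [map_mul, map_inv, mul_assoc, hw]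
    rw [mul_inv_cancel_left]

/-- The shape of the Hecke representatives. -/
theorem heckeRep_form (y : OnePoint (ZMod l)) : ∃ a b d : ℤ,
    ((heckeRep l y : GL (Fin 2) ℝ) : Matrix (Fin 2) (Fin 2) ℝ) = !![(a : ℝ), (b : ℝ); 0, (d : ℝ)] ∧
    a * d = l := by
  induction y using OnePoint.rec with
  | infty => exact ⟨l, 0, 1, by rw [coe_heckeRep_infty]; simp, by simp⟩
  | coe j => exact ⟨1, j.val, l, by rw [coe_heckeRep_coe]; simp, by simp⟩

theorem heckeTransfer_zero (hl : ¬ l ∣ N) :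
    heckeTransfer hl (0 : Additive (Gamma0 N) →+ A) = 0 := by
  have h := heckeTransfer_add hl (0 : Additive (Gamma0 N) →+ A) 0
  rw [add_zero] at h
  exact left_eq_add.mp h

end General

section Level

variable {N q l : ℕ} [Fact l.Prime] {A : Type*} [AddCommGroup A]

/-- `T_l t₁ = t₁ T_l`. -/
theorem heckeTransfer_t1 (hl : ¬ l ∣ N) (hl' : ¬ l ∣ N * q)
    (ψ : Additive (Gamma0 (N * q)) →+ A) :
    heckeTransfer hl (t₁ N q ψ) = t₁ N q (heckeTransfer hl' ψ) := by
  by_cases hfin : (incl N q).range.FiniteIndex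
  · refine heckeTransfer_transferAlong hl hl' (incl N q) (H105.incl_injective N q) 1
      (fun g => by rw [one_mul, mul_one]; rfl)
      (fun y => ⟨1, y, by simp⟩) ?_ ψ
    intro y y' m g Q hQ e
    rw [one_mul, mul_one] at hQ
    subst hQ
    obtain ⟨a, b, d, hα, had⟩ := heckeRep_form (l := l) y
    obtain ⟨a', b', d', hα', had'⟩ := heckeRep_form (l := l) y'
    have e10 := congrArg (fun M : GL (Fin 2) ℝ => (M : Matrix (Fin 2) (Fin 2) ℝ) 1 0) e
    simp only [coe_mul_apply, coe_ιN_apply, hα, hα', Matrix.of_apply, Matrix.cons_val',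
      Matrix.cons_val_zero, Matrix.cons_val_one, Matrix.cons_val_fin_one, zero_mul, zero_add,
      mul_zero, add_zero] at e10
    have e10' : d * (m : SL(2, ℤ)) 1 0 = (g : SL(2, ℤ)) 1 0 * a' := by exact_mod_cast e10
    have hg : ((N * q : ℕ) : ℤ) ∣ (g : SL(2, ℤ)) 1 0 := dvd_of_mem_Gamma0 g.2
    have hcop : IsCoprime (d : ℤ) ((N * q : ℕ) : ℤ) := by
      have hl1 : IsCoprime (l : ℤ) ((N * q : ℕ) : ℤ) := by
        rw [Int.isCoprime_iff_gcd_eq_one, Int.gcd_natCast_natCast]
        exact (Fact.out : l.Prime).coprime_iff_not_dvd.mpr hl'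
      exact IsCoprime.of_mul_left_right (by rw [had]; exact hl1)
    have hdvd : ((N * q : ℕ) : ℤ) ∣ (m : SL(2, ℤ)) 1 0 := by
      have h1 : ((N * q : ℕ) : ℤ) ∣ d * (m : SL(2, ℤ)) 1 0 := by
        rw [e10']; exact dvd_mul_of_dvd_left hg _
      exact hcop.symm.dvd_of_dvd_mul_left h1
    rw [H105.range_incl, Subgroup.mem_subgroupOf]
    exact mem_Gamma0_of_dvd hdvd
  · have h0 : ∀ χ : Additive (Gamma0 (N * q)) →+ A, t₁ N q χ = 0 := by
      intro χ
      unfold t₁ transferAlong
      rw [dif_neg (fun h => hfin h.2)]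
    rw [h0, h0, heckeTransfer_zero]

/-- `δ γ = c_δ(γ) δ` for `δ = heckeDiagMatrix q = diag(q, 1)`, any `q ≠ 0`. -/
theorem diag_rel (hq : q ≠ 0) (g' : Gamma0 (N * q)) :
    heckeDiagMatrix q * ιN (N * q) g' =
      ((ιN N).comp (conjDelta N q)) g' * heckeDiagMatrix q := by
  have hentries := H105.conjDelta_coe_apply N q g'
  have e : ∀ i j, ((conjDelta N q g' : Gamma0 N) : SL(2, ℤ)) i j =
      conjDeltaMatrix q (g' : SL(2, ℤ)) i j := fun i j => congrFun (congrFun hentries i) j
  have c00 : ((conjDelta N q g' : Gamma0 N) : SL(2, ℤ)) 0 0 = (g' : SL(2, ℤ)) 0 0 := by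
    rw [e]; simp [conjDeltaMatrix]
  have c01 : ((conjDelta N q g' : Gamma0 N) : SL(2, ℤ)) 0 1 = q * (g' : SL(2, ℤ)) 0 1 := by
    rw [e]; simp [conjDeltaMatrix]
  have c11 : ((conjDelta N q g' : Gamma0 N) : SL(2, ℤ)) 1 1 = (g' : SL(2, ℤ)) 1 1 := by
    rw [e]; simp [conjDeltaMatrix]
  have c10 : ((conjDelta N q g' : Gamma0 N) : SL(2, ℤ)) 1 0 * q = (g' : SL(2, ℤ)) 1 0 := by
    rw [e]
    simp only [conjDeltaMatrix, Matrix.of_apply, Matrix.cons_val', Matrix.cons_val_zero,
      Matrix.cons_val_one, Matrix.cons_val_fin_one]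
    exact Int.ediv_mul_cancel (dvd_of_mem_gamma0_mul g').1
  have c10' : ((((conjDelta N q g' : Gamma0 N) : SL(2, ℤ)) 1 0 : ℤ) : ℝ) * (q : ℝ) =
      (((g' : SL(2, ℤ)) 1 0 : ℤ) : ℝ) := by exact_mod_cast c10
  have hi : ∀ i j, ((((ιN N).comp (conjDelta N q)) g' : GL (Fin 2) ℝ) :
      Matrix (Fin 2) (Fin 2) ℝ) i j
      = ((((conjDelta N q g' : Gamma0 N) : SL(2, ℤ)) i j : ℤ) : ℝ) := fun i j =>
    coe_mapGL_apply _ i j
  apply gl_ext <;>
    simp only [coe_mul_apply, coe_ιN_apply, hi, val_heckeDiagMatrix hq, Matrix.of_apply,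
      Matrix.cons_val', Matrix.cons_val_zero, Matrix.cons_val_one, Matrix.cons_val_fin_one,
      c00, c01, c11] <;>
    push_cast
  · ring
  · ring
  · linear_combination (-1 : ℝ) * c10'
  · ring

/-- Conjugation of the Hecke representatives by `diag(q, 1)`. -/
theorem diag_conj_heckeRep (hq : q ≠ 0) (y : OnePoint (ZMod l)) :
    ∃ (u : Gamma0 N) (y' : OnePoint (ZMod l)),
      heckeDiagMatrix q * heckeRep l y * (heckeDiagMatrix q)⁻¹ = ιN N u * heckeRep l y' := by
  induction y using OnePoint.rec with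
  | infty =>
    refine ⟨1, OnePoint.infty, ?_⟩
    rw [map_one, one_mul, mul_inv_eq_iff_eq_mul]
    apply gl_ext <;>
      simp only [coe_mul_apply, coe_heckeRep_infty, val_heckeDiagMatrix hq, Matrix.of_apply,
        Matrix.cons_val', Matrix.cons_val_zero, Matrix.cons_val_one, Matrix.cons_val_fin_one] <;>
      ring
  | coe j =>
    obtain ⟨T, Y, hmod⟩ : ∃ (T : ℕ) (Y : ZMod l),
        ((Y.val : ℕ) : ℝ) + (T : ℝ) * l = (q : ℝ) * j.val := by
      refine ⟨q * j.val / l, ((q * j.val : ℕ) : ZMod l), ?_⟩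
      rw [ZMod.val_natCast]
      have := Nat.mod_add_div (q * j.val) l
      have h2 : (((q * j.val) % l + l * (q * j.val / l) : ℕ) : ℝ) = ((q * j.val : ℕ) : ℝ) := by
        rw [this]
      push_cast at h2
      linarith
    obtain ⟨u00, u01, u10, u11⟩ := mkGamma0_apply N 1 (T : ℤ) 0 1 (by ring) (dvd_zero _)
    refine ⟨mkGamma0 N 1 (T : ℤ) 0 1 (by ring) (dvd_zero _), (Y : OnePoint (ZMod l)), ?_⟩
    rw [mul_inv_eq_iff_eq_mul]
    apply gl_ext <;>
      simp only [coe_mul_apply, coe_ιN_apply, coe_heckeRep_coe, val_heckeDiagMatrix hq,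
        Matrix.of_apply, Matrix.cons_val', Matrix.cons_val_zero, Matrix.cons_val_one,
        Matrix.cons_val_fin_one, u00, u01, u10, u11] <;>
      push_cast
    · ring
    · linear_combination (-1 : ℝ) * hmod
    · ring
    · ring

/-- `T_l t₂ = t₂ T_l`. -/
theorem heckeTransfer_t2 (hl : ¬ l ∣ N) (hl' : ¬ l ∣ N * q) (hq : q ≠ 0)
    (ψ : Additive (Gamma0 (N * q)) →+ A) :
    heckeTransfer hl (t₂ N q ψ) = t₂ N q (heckeTransfer hl' ψ) := by
  by_cases hfin : (conjDelta N q).range.FiniteIndex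
  · refine heckeTransfer_transferAlong hl hl' (conjDelta N q) (H105.conjDelta_injective N hq)
      (heckeDiagMatrix q) (diag_rel hq) (diag_conj_heckeRep hq) ?_ ψ
    intro y y' m g Q hQ e
    obtain ⟨a, b, d, hα, had⟩ := heckeRep_form (l := l) y
    obtain ⟨a', b', d', hα', had'⟩ := heckeRep_form (l := l) y'
    have q01 := congrArg (fun M : GL (Fin 2) ℝ => (M : Matrix (Fin 2) (Fin 2) ℝ) 0 1) hQ
    have q11 := congrArg (fun M : GL (Fin 2) ℝ => (M : Matrix (Fin 2) (Fin 2) ℝ) 1 1) hQ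
    have e01 := congrArg (fun M : GL (Fin 2) ℝ => (M : Matrix (Fin 2) (Fin 2) ℝ) 0 1) e
    simp only [coe_mul_apply, coe_ιN_apply, val_heckeDiagMatrix hq, Matrix.of_apply,
      Matrix.cons_val', Matrix.cons_val_zero, Matrix.cons_val_one, Matrix.cons_val_fin_one,
      zero_mul, zero_add, mul_zero, add_zero, one_mul, mul_one] at q01 q11
    simp only [coe_mul_apply, coe_ιN_apply, hα, hα', Matrix.of_apply, Matrix.cons_val',
      Matrix.cons_val_zero, Matrix.cons_val_one, Matrix.cons_val_fin_one] at e01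
    rw [q11] at e01
    -- `a * m01 = q * (g00 * b' + g01 * d' - b * m11)`
    have key : (a : ℝ) * (((m : SL(2, ℤ)) 0 1 : ℤ) : ℝ) =
        (q : ℝ) * ((((g : SL(2, ℤ)) 0 0 : ℤ) : ℝ) * b' + (((g : SL(2, ℤ)) 0 1 : ℤ) : ℝ) * d'
          - b * (((m : SL(2, ℤ)) 1 1 : ℤ) : ℝ)) := by
      rw [← q01]
      linear_combination (q : ℝ) * e01
    have key' : a * (m : SL(2, ℤ)) 0 1 =
        q * ((g : SL(2, ℤ)) 0 0 * b' + (g : SL(2, ℤ)) 0 1 * d' - b * (m : SL(2, ℤ)) 1 1) := by
      exact_mod_cast key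
    have hcop : IsCoprime (a : ℤ) (q : ℤ) := by
      have hlq : ¬ l ∣ q := fun h => hl' (dvd_mul_of_dvd_right h N)
      have hl1 : IsCoprime (l : ℤ) (q : ℤ) := by
        rw [Int.isCoprime_iff_gcd_eq_one, Int.gcd_natCast_natCast]
        exact (Fact.out : l.Prime).coprime_iff_not_dvd.mpr hlq
      exact IsCoprime.of_mul_left_left (by rw [had]; exact hl1)
    have hdvd : (q : ℤ) ∣ (m : SL(2, ℤ)) 0 1 :=
      hcop.symm.dvd_of_dvd_mul_left ⟨_, key'⟩
    exact (H105.mem_range_conjDelta_iff N hq m).mpr hdvd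
  · have h0 : ∀ χ : Additive (Gamma0 (N * q)) →+ A, t₂ N q χ = 0 := by
      intro χ
      unfold t₂ transferAlong
      rw [dif_neg (fun h => hfin h.2)]
    rw [h0, h0, heckeTransfer_zero]

end Level

universe u

/-- **Leaf HT of block HK**: `T_l` commutes with `t₁` and `t₂`. -/
theorem heckeTransferComm : Spec.HeckeTransferStatement.{u} := by
  intro N q l _ hl hl' hNq A _ ψ
  have hq : q ≠ 0 := fun h => hNq (by rw [h, mul_zero])
  exact ⟨heckeTransfer_t1 hl hl' ψ, heckeTransfer_t2 hl hl' hq ψ⟩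

end Fermat.Agent.S41.H761

end
-- ===== PACK-END S41/H761/HT.lean

-- ===== PACK-BEGIN S59/H240/Unip.lean
section




/-!
# S59 / CR-I (helper240): inertia is unipotent on the torsion at a prime of multiplicative
reduction (finite level, abstract form)

Setting of `Fermat.Agent.S05.GoodRed`: `W'` a Weierstrass curve over `R`, `K` an algebraically
closed field with a valuation `v`, `σ τ : K ≃ₐ[S] K` acting trivially on the residue field of `v`
(and `σ` preserving `v`).  If the base change of `W'` to `K` has `v`-integral coefficients,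
`v c₄ = 1` and `Δ ≠ 0`, and the kernel of reduction has no `n`-torsion, then for every
`n`-torsion point `P`

  `τ • (σ • P - P) = σ • P - P`       (`smul_sub_fixed_of_mult`),

in particular `(σ - 1)² P = 0`       (`sub_one_sq_of_mult`).

Proof: `P` and `σ P` have the same invariants `rad`, and their directions at the node agree
modulo the maximal ideal, hence `σ P - P ∈ E₀` by `sub_inE0`; a torsion point of `E₀` has
nonsingular reduction, hence is fixed by `τ` (`GoodRed.smul_eq_self_of_nonsingular_reduction`).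
-/

set_option autoImplicit false
set_option linter.unusedSectionVars false
set_option linter.unusedVariables false

namespace Fermat.Agent.S59.H240

open WeierstrassCurve WeierstrassCurve.Affine
open Fermat.Agent.S05.SameRed (IntegralCoeffs InKer)
open Fermat.Agent.S05

section galois

variable {R S K : Type*} [CommRing R] [CommRing S] [Field K] [DecidableEq K]
  [Algebra R S] [Algebra R K] [Algebra S K] [IsScalarTower R S K]
  {Γ₀ : Type*} [LinearOrderedCommGroupWithZero Γ₀]
  {W' : Affine R} {v : Valuation K Γ₀}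

omit [DecidableEq K] in
lemma algEquiv_algebraMap_fix (σ : K ≃ₐ[S] K) (r : R) :
    σ (algebraMap R K r) = algebraMap R K r := by
  rw [IsScalarTower.algebraMap_apply R S K, AlgEquiv.commutes]

omit [DecidableEq K] in
lemma apply_gX (σ : K ≃ₐ[S] K) (x y : K) :
    σ (gX (W'⁄K) x y) = gX (W'⁄K) (σ x) (σ y) := by
  simp only [gX, WeierstrassCurve.baseChange, WeierstrassCurve.map_a₁, WeierstrassCurve.map_a₂,
    WeierstrassCurve.map_a₄, map_sub, map_mul, map_add, map_pow, map_ofNat,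
    algEquiv_algebraMap_fix]

omit [DecidableEq K] in
lemma apply_gY (σ : K ≃ₐ[S] K) (x y : K) :
    σ (gY (W'⁄K) x y) = gY (W'⁄K) (σ x) (σ y) := by
  simp only [gY, WeierstrassCurve.baseChange, WeierstrassCurve.map_a₁, WeierstrassCurve.map_a₃,
    map_mul, map_add, map_ofNat, algEquiv_algebraMap_fix]

omit [DecidableEq K] in
lemma rad_apply (σ : K ≃ₐ[S] K) (hσv : ∀ t : K, v (σ t) = v t) (x y : K) :
    rad (W'⁄K) v (σ x) (σ y) = rad (W'⁄K) v x y := by
  unfold rad
  rw [← apply_gX, ← apply_gY, hσv, hσv]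

omit [DecidableEq K] in
/-- The directions of `(G, H)` and `(σ G, σ H)` agree modulo the maximal ideal. -/
lemma val_cross_lt (σ : K ≃ₐ[S] K) (hσ : ∀ t : K, v t ≤ 1 → v (σ t - t) < 1)
    (hσv : ∀ t : K, v (σ t) = v t) {G H : K} (h0 : G ≠ 0 ∨ H ≠ 0) :
    v (G * σ H - σ G * H) < max (v G) (v H) * max (v G) (v H) := by
  rcases le_total (v G) (v H) with hle | hle
  · have hH0 : H ≠ 0 := by
      rintro rfl
      rw [map_zero] at hle
      have hG : G = 0 := (map_eq_zero v).mp (le_antisymm hle zero_le)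
      rcases h0 with h | h
      · exact h hG
      · exact h rfl
    rw [max_eq_right hle]
    have hvH : 0 < v H := (Valuation.pos_iff v).mpr hH0
    obtain ⟨g, hg⟩ : ∃ g : K, g = G / H := ⟨_, rfl⟩
    have hgv : v g ≤ 1 := by rw [hg, map_div₀]; exact (div_le_one₀ hvH).mpr hle
    have hG : G = g * H := by rw [hg]; field_simp
    have e : G * σ H - σ G * H = -((σ g - g) * (H * σ H)) := by
      rw [hG, map_mul]; ring
    rw [e, Valuation.map_neg, map_mul, map_mul, hσv]
    exact mul_lt_of_lt_one_left (mul_pos hvH hvH) (hσ g hgv)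
  · have hG0 : G ≠ 0 := by
      rintro rfl
      rw [map_zero] at hle
      have hH : H = 0 := (map_eq_zero v).mp (le_antisymm hle zero_le)
      rcases h0 with h | h
      · exact h rfl
      · exact h hH
    rw [max_eq_left hle]
    have hvG : 0 < v G := (Valuation.pos_iff v).mpr hG0
    obtain ⟨g, hg⟩ : ∃ g : K, g = H / G := ⟨_, rfl⟩
    have hgv : v g ≤ 1 := by rw [hg, map_div₀]; exact (div_le_one₀ hvG).mpr hle
    have hH : H = g * G := by rw [hg]; field_simp
    have e : G * σ H - σ G * H = (σ g - g) * (G * σ G) := by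
      rw [hH, map_mul]; ring
    rw [e, map_mul, map_mul, hσv]
    exact mul_lt_of_lt_one_left (mul_pos hvG hvG) (hσ g hgv)

omit [DecidableEq K] in
lemma val_gX_le_one (hW : IntegralCoeffs (W'⁄K) v) {x y : K} (hx : v x ≤ 1) (hy : v y ≤ 1) :
    v (gX (W'⁄K) x y) ≤ 1 := by
  unfold gX
  refine vsub_le (vmul_le_one hW.a₁ hy) (vadd_le (vadd_le ?_ ?_) hW.a₄)
  · exact vmul_le_one vthree_le_one (vpow_le_one hx 2)
  · exact vmul_le_one (vmul_le_one vtwo_le_one hW.a₂) hx

omit [DecidableEq K] in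
lemma val_gY_le_one (hW : IntegralCoeffs (W'⁄K) v) {x y : K} (hx : v x ≤ 1) (hy : v y ≤ 1) :
    v (gY (W'⁄K) x y) ≤ 1 := by
  unfold gY
  exact vadd_le (vadd_le (vmul_le_one vtwo_le_one hy) (vmul_le_one hW.a₁ hx)) hW.a₃

/-- `σ P - P` lies in `E₀` for a torsion point `P`. -/
theorem smul_sub_inE0 [IsAlgClosed K] (h2 : (2 : K) ≠ 0)
    (hW : IntegralCoeffs (W'⁄K) v) (hc₄ : v (W'⁄K).c₄ = 1) (hΔ : (W'⁄K).Δ ≠ 0)
    (σ : K ≃ₐ[S] K) (hσ : ∀ t : K, v t ≤ 1 → v (σ t - t) < 1) (hσv : ∀ t : K, v (σ t) = v t)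
    (n : ℤ) (hC1 : ∀ Q : (W'⁄K).Point, InKer (W'⁄K) v Q → n • Q = 0 → Q = 0)
    (P : (W'⁄K).Point) (hP : n • P = 0) : InE0 (W'⁄K) v (σ • P - P) := by
  rcases P with _ | ⟨x, y, h⟩
  · have e : σ • (Point.zero : (W'⁄K).Point) - Point.zero = 0 := by
      change σ • (0 : (W'⁄K).Point) - 0 = 0
      rw [smul_zero, sub_zero]
    rw [e]
    exact inE0_zero _
  · have hx : v x ≤ 1 := by
      by_contra hx
      rw [not_le] at hx
      exact Point.some_ne_zero h (hC1 _ ((SameRed.inKer_some h).mpr hx) hP)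
    have hy : v y ≤ 1 := GoodRed.val_y_le_one hW h.1 hx
    have hGle := val_gX_le_one hW hx hy
    have hHle := val_gY_le_one hW hx hy
    by_cases hrad : rad (W'⁄K) v x y < 1
    · rw [GoodRed.smul_some]
      refine sub_inE0 h2 hW hc₄ hΔ h _ hx hy (by rw [hσv]; exact hx) hrad
        (rad_apply σ hσv x y) ?_
      rw [← apply_gX, ← apply_gY]
      refine val_cross_lt σ hσ hσv ?_
      -- the point is nonsingular
      have hns := (Affine.nonsingular_iff' x y).mp h
      by_contra hcon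
      rw [not_or, not_not, not_not] at hcon
      rcases hns.2 with h1 | h1
      · apply h1
        have := hcon.1
        unfold gX at this
        linear_combination this
      · apply h1
        have := hcon.2
        unfold gY at this
        linear_combination this
    · -- nonsingular reduction: `σ P = P`
      have hns : v (gX (W'⁄K) x y) = 1 ∨ v (gY (W'⁄K) x y) = 1 := by
        by_contra hcon
        rw [not_or] at hcon
        exact hrad (max_lt (lt_of_le_of_ne hGle hcon.1) (lt_of_le_of_ne hHle hcon.2))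
      have := GoodRed.smul_eq_self_of_nonsingular_reduction hW σ hσ n hC1 h hx hns hP
      rw [this, sub_self]
      exact inE0_zero _

/-- A torsion point of `E₀` is fixed by the inertia group. -/
theorem smul_eq_self_of_inE0 (hW : IntegralCoeffs (W'⁄K) v)
    (τ : K ≃ₐ[S] K) (hτ : ∀ t : K, v t ≤ 1 → v (τ t - t) < 1)
    (n : ℤ) (hC1 : ∀ Q : (W'⁄K).Point, InKer (W'⁄K) v Q → n • Q = 0 → Q = 0)
    (Q : (W'⁄K).Point) (hQ0 : InE0 (W'⁄K) v Q) (hQ : n • Q = 0) : τ • Q = Q := by
  rcases Q with _ | ⟨x, y, h⟩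
  · exact smul_zero τ
  · have hx : v x ≤ 1 := by
      by_contra hx
      rw [not_le] at hx
      exact Point.some_ne_zero h (hC1 _ ((SameRed.inKer_some h).mpr hx) hQ)
    rw [inE0_some] at hQ0
    exact GoodRed.smul_eq_self_of_nonsingular_reduction hW τ hτ n hC1 h hx
      (hQ0.resolve_left (not_lt.mpr hx)) hQ

/-- **CR-I, abstract form.**  At a place of multiplicative reduction, `(τ - 1)(σ - 1) = 0` on
the torsion prime to the residue characteristic, for `σ`, `τ` in the inertia group. -/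
theorem smul_sub_fixed_of_mult [IsAlgClosed K] (h2 : (2 : K) ≠ 0)
    (hW : IntegralCoeffs (W'⁄K) v) (hc₄ : v (W'⁄K).c₄ = 1) (hΔ : (W'⁄K).Δ ≠ 0)
    (σ τ : K ≃ₐ[S] K)
    (hσ : ∀ t : K, v t ≤ 1 → v (σ t - t) < 1) (hσv : ∀ t : K, v (σ t) = v t)
    (hτ : ∀ t : K, v t ≤ 1 → v (τ t - t) < 1)
    (n : ℤ) (hC1 : ∀ Q : (W'⁄K).Point, InKer (W'⁄K) v Q → n • Q = 0 → Q = 0)
    (P : (W'⁄K).Point) (hP : n • P = 0) : τ • (σ • P - P) = σ • P - P := by
  refine smul_eq_self_of_inE0 hW τ hτ n hC1 _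
    (smul_sub_inE0 h2 hW hc₄ hΔ σ hσ hσv n hC1 P hP) ?_
  rw [smul_sub, ← Point.algEquiv_smul_zsmul, hP, smul_zero, sub_zero]

/-- **CR-I, abstract form**: `(σ - 1)² = 0` on the torsion. -/
theorem sub_one_sq_of_mult [IsAlgClosed K] (h2 : (2 : K) ≠ 0)
    (hW : IntegralCoeffs (W'⁄K) v) (hc₄ : v (W'⁄K).c₄ = 1) (hΔ : (W'⁄K).Δ ≠ 0)
    (σ : K ≃ₐ[S] K)
    (hσ : ∀ t : K, v t ≤ 1 → v (σ t - t) < 1) (hσv : ∀ t : K, v (σ t) = v t)
    (n : ℤ) (hC1 : ∀ Q : (W'⁄K).Point, InKer (W'⁄K) v Q → n • Q = 0 → Q = 0)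
    (P : (W'⁄K).Point) (hP : n • P = 0) :
    σ • σ • P - (2 : ℤ) • σ • P + (1 : ℤ) • P = 0 := by
  have key := smul_sub_fixed_of_mult h2 hW hc₄ hΔ σ σ hσ hσv hσ n hC1 P hP
  rw [smul_sub] at key
  rw [one_smul, two_smul]
  have e : σ • σ • P - (σ • P + σ • P) + P = (σ • σ • P - σ • P) - (σ • P - P) := by abel
  rw [e, key, sub_self]

end galois

end Fermat.Agent.S59.H240

end
-- ===== PACK-END S59/H240/Unip.lean

-- ===== PACK-BEGIN S59/H401/DictExt.lean
section


/-!
# Row S59, leaf DICT (helper401), part 3: enlarging the coefficient ring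

`dict_exists_ext` : every complete DVR `O` of characteristic zero with finite residue field of
characteristic `p` has a finite extension `O'` of the same kind such that every monic quadratic
polynomial over `𝔽_p` splits in the residue field of `O'`.
`O'` is the integral closure of `O` in the splitting field `L` of the product of all
`X² + b X + c`, `0 ≤ b, c < p`, over `K = Frac O` (complete DVR by `S59/G4/H109/PointsDVR.lean`):
the roots of these polynomials are integral, hence lie in `O'`, and Vieta's formulas reduce to the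
residue field.
-/

set_option autoImplicit false

open Polynomial IsLocalRing

namespace Fermat.Agent.S59.H401

/-- A monic quadratic over a commutative ring with "Vieta roots" `α, β` is `(X - α)(X - β)`. -/
theorem dict_quadratic_eq_of_vieta {R : Type*} [CommRing R] (b c α β : R)
    (hb : b = -(α + β)) (hc : c = α * β) :
    (X ^ 2 + C b * X + C c : R[X]) = (X - C α) * (X - C β) := by
  rw [hb, hc]
  simp only [map_neg, map_add, map_mul]
  ring

/-- A monic polynomial of degree two is `X² + b X + c`. -/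
theorem dict_monic_quadratic {R : Type*} [CommRing R] {f : R[X]} (hf : f.Monic)
    (hdeg : f.natDegree = 2) : f = X ^ 2 + C (f.coeff 1) * X + C (f.coeff 0) := by
  have h2 : f.coeff 2 = 1 := by
    have := hf.coeff_natDegree
    rwa [hdeg] at this
  have hle : f.degree ≤ 2 := by
    have := degree_le_of_natDegree_le (le_of_eq hdeg)
    simpa using this
  have h := eq_quadratic_of_degree_le_two hle
  rw [h2, map_one, one_mul] at h
  exact h

/-- **Enlarging the coefficient ring** so that all quadratics over `𝔽_p` split residually. -/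
theorem dict_exists_ext (p : ℕ) [hp : Fact p.Prime]
    (O : Type) [CommRing O] [IsDomain O] [IsDiscreteValuationRing O]
    [IsAdicComplete (maximalIdeal O) O] [Finite (ResidueField O)] [CharZero O]
    (hpO : (p : O) ∈ maximalIdeal O) :
    ∃ (O' : Type) (_ : CommRing O') (_ : IsDomain O') (_ : IsDiscreteValuationRing O')
      (_ : IsAdicComplete (maximalIdeal O') O') (_ : Finite (ResidueField O'))
      (_ : CharZero O') (e : O →+* O') (ι : ZMod p →+* ResidueField O'),
      (∀ a ∈ maximalIdeal O, e a ∈ maximalIdeal O') ∧ (p : O') ∈ maximalIdeal O' ∧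
      ∀ f : (ZMod p)[X], f.Monic → f.natDegree = 2 →
        ∃ α β : ResidueField O', f.map ι = (X - C α) * (X - C β) := by
  classical
  have hpp : p.Prime := hp.out
  have hdvr : IsDiscreteValuationRing
      (Fermat.Agent.S59.G4.H109.intRingO O
        (dictQuadProd p (FractionRing O)).SplittingField) :=
    Fermat.Agent.S59.G4.H109.intRingO_isDiscreteValuationRing O (FractionRing O) _
  have hloc : IsLocalHom (algebraMap O (Fermat.Agent.S59.G4.H109.intRingO O
        (dictQuadProd p (FractionRing O)).SplittingField)) :=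
    Fermat.Agent.S59.G4.H109.intRingO_isLocalHom O (FractionRing O) _
  have hmax : ∀ a ∈ maximalIdeal O,
      algebraMap O (Fermat.Agent.S59.G4.H109.intRingO O
        (dictQuadProd p (FractionRing O)).SplittingField) a ∈
      maximalIdeal (Fermat.Agent.S59.G4.H109.intRingO O
        (dictQuadProd p (FractionRing O)).SplittingField) := by
    intro a ha
    rw [mem_maximalIdeal, mem_nonunits_iff] at ha ⊢
    exact fun hu => ha (hloc.map_nonunit a hu)
  have hpO' : ((p : ℕ) : Fermat.Agent.S59.G4.H109.intRingO O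
        (dictQuadProd p (FractionRing O)).SplittingField) ∈
      maximalIdeal (Fermat.Agent.S59.G4.H109.intRingO O
        (dictQuadProd p (FractionRing O)).SplittingField) := by
    have := hmax _ hpO
    rwa [map_natCast] at this
  have hchar : CharP (ResidueField (Fermat.Agent.S59.G4.H109.intRingO O
        (dictQuadProd p (FractionRing O)).SplittingField)) p := by
    apply (CharP.charP_iff_prime_eq_zero hpp).mpr
    rw [← map_natCast (residue (Fermat.Agent.S59.G4.H109.intRingO O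
        (dictQuadProd p (FractionRing O)).SplittingField))]
    exact (residue_eq_zero_iff _).mpr hpO'
  refine ⟨Fermat.Agent.S59.G4.H109.intRingO O (dictQuadProd p (FractionRing O)).SplittingField,
    inferInstance, inferInstance, hdvr,
    Fermat.Agent.S59.G4.H109.intRingO_isAdicComplete O (FractionRing O) _,
    Fermat.Agent.S59.G4.H109.intRingO_finite_residueField O (FractionRing O) _,
    Fermat.Agent.S59.G4.H109.intRingO_charZero O (FractionRing O) _,
    algebraMap O _, ZMod.castHom (dvd_refl p) _, hmax, hpO', ?_⟩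
  intro f hmonic hdeg
  have hb : (f.coeff 1).val < p := ZMod.val_lt _
  have hc : (f.coeff 0).val < p := ZMod.val_lt _
  obtain ⟨α, β, hαβ, hαβ'⟩ := dict_exists_roots p (FractionRing O) hb hc
  -- the roots are integral
  have hint : ∀ x y : (dictQuadProd p (FractionRing O)).SplittingField,
      (((f.coeff 1).val : ℕ) : (dictQuadProd p (FractionRing O)).SplittingField) = -(x + y) →
      (((f.coeff 0).val : ℕ) : (dictQuadProd p (FractionRing O)).SplittingField) = x * y →
      IsIntegral O x := by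
    intro x y h1 h2
    refine ⟨X ^ 2 + C (((f.coeff 1).val : ℕ) : O) * X + C (((f.coeff 0).val : ℕ) : O), ?_, ?_⟩
    · have e : (X ^ 2 + C (((f.coeff 1).val : ℕ) : O) * X + C (((f.coeff 0).val : ℕ) : O) : O[X])
          = X ^ 2 + (C (((f.coeff 1).val : ℕ) : O) * X + C (((f.coeff 0).val : ℕ) : O)) := by
        ring
      rw [e]
      exact monic_X_pow_add ((degree_linear_le).trans_lt (by norm_num))
    · rw [eval₂_add, eval₂_add, eval₂_mul, eval₂_pow, eval₂_X, eval₂_C, eval₂_C, map_natCast,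
        map_natCast, h1, h2]
      ring
  have hα : IsIntegral O α := hint α β hαβ hαβ'
  have hβ : IsIntegral O β := hint β α (by rw [hαβ, add_comm]) (by rw [hαβ', mul_comm])
  -- Vieta in `O'` and in the residue field
  have v1 : (((f.coeff 1).val : ℕ) : Fermat.Agent.S59.G4.H109.intRingO O
        (dictQuadProd p (FractionRing O)).SplittingField)
      = -((⟨α, hα⟩ : Fermat.Agent.S59.G4.H109.intRingO O
        (dictQuadProd p (FractionRing O)).SplittingField) + ⟨β, hβ⟩) :=
    Subtype.ext (by push_cast; exact hαβ)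
  have v2 : (((f.coeff 0).val : ℕ) : Fermat.Agent.S59.G4.H109.intRingO O
        (dictQuadProd p (FractionRing O)).SplittingField)
      = (⟨α, hα⟩ : Fermat.Agent.S59.G4.H109.intRingO O
        (dictQuadProd p (FractionRing O)).SplittingField) * ⟨β, hβ⟩ :=
    Subtype.ext (by push_cast; exact hαβ')
  have w1 := congrArg (residue (Fermat.Agent.S59.G4.H109.intRingO O
        (dictQuadProd p (FractionRing O)).SplittingField)) v1
  have w2 := congrArg (residue (Fermat.Agent.S59.G4.H109.intRingO O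
        (dictQuadProd p (FractionRing O)).SplittingField)) v2
  rw [map_natCast, map_neg, map_add] at w1
  rw [map_natCast, map_mul] at w2
  refine ⟨residue _ ⟨α, hα⟩, residue _ ⟨β, hβ⟩, ?_⟩
  rw [← dict_quadratic_eq_of_vieta _ _ _ _ w1 w2]
  conv_lhs => rw [dict_monic_quadratic hmonic hdeg]
  rw [Polynomial.map_add, Polynomial.map_add, Polynomial.map_mul, Polynomial.map_pow,
    Polynomial.map_X, Polynomial.map_C, Polynomial.map_C]
  have e1 : (ZMod.castHom (dvd_refl p) (ResidueField (Fermat.Agent.S59.G4.H109.intRingO O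
        (dictQuadProd p (FractionRing O)).SplittingField))) (f.coeff 1)
      = (((f.coeff 1).val : ℕ) : ResidueField (Fermat.Agent.S59.G4.H109.intRingO O
        (dictQuadProd p (FractionRing O)).SplittingField)) := by
    conv_lhs => rw [← ZMod.natCast_zmod_val (f.coeff 1)]
    rw [map_natCast]
  have e0 : (ZMod.castHom (dvd_refl p) (ResidueField (Fermat.Agent.S59.G4.H109.intRingO O
        (dictQuadProd p (FractionRing O)).SplittingField))) (f.coeff 0)
      = (((f.coeff 0).val : ℕ) : ResidueField (Fermat.Agent.S59.G4.H109.intRingO O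
        (dictQuadProd p (FractionRing O)).SplittingField)) := by
    conv_lhs => rw [← ZMod.natCast_zmod_val (f.coeff 0)]
    rw [map_natCast]
  rw [e1, e0]

end Fermat.Agent.S59.H401

end
-- ===== PACK-END S59/H401/DictExt.lean

-- ===== PACK-BEGIN S59/Arch/SpecRT2.lean
section



/-!
# Row S59 — the `R = T` layer, MODULE FORM of the induction invariant (architect helper239, v3)

Board: `coord/S59.md` (v4).  This file SUPERSEDES the three statements `MinRTStatement`,
`NonMinStepStatement`, `NonMinPStatement` of `SpecRT.lean` as TARGETS of the cells TW, NM, NMP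
(they stay true, but `NonMinStepStatement` cannot be proved from its hypothesis alone: the
induction `Σ → Σ ∪ {q}` needs the module invariant of Diamond's "Criterion II", i.e. that the
cohomology `M_Σ` is free of rank `2` over `T_Σ`).  `RTIso`, `ResidualHyp`, `sigmaCond`,
`wilesLevel` are unchanged.

## The invariant, in elementary (Betti) terms

Betti model of rows S41/S29 (on main): `X_N(A) = Hom(Γ₀(N), A)` (`Additive (Gamma0 N) →+ A`),
`IsCuspidal`, `T_l = heckeTransfer` (`l ∤ N`), degeneracy maps `r₁, r₂ : X_N → X_{Nq}`, transfers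
`t₁, t₂ : X_{Nq} → X_N`, `maninPairing` (Poincaré duality; perfect over `ℤ` by
`Fermat.Agent.S59.H585.gamma0Pairing_bijective`).

For `q ∣ N` the two operators `t₁ r₂` and `t₂ r₁` on `X_N` are `U_q` and its adjoint.

* `IsEigenclass N Σ Smin a dual x` : `x` cuspidal with values in `𝒪`, `T_l x = a_l x` for all
  primes `l ∉ Σ`, and `U_q x = 0` (`dual = false`) resp. `U_q^† x = 0` (`dual = true`) for the
  primes `q ∈ Σ ∖ Smin` (where the level is `q²`).  These classes form the lattices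
  `L = M_Σ[𝔭]`, `L^† = M_Σ^†[𝔭]`, both of rank `2`.
* `PairInv N Σ Smin a 𝔡` : all `2 × 2` Gram determinants `⟨x₁,y₁⟩⟨x₂,y₂⟩ - ⟨x₁,y₂⟩⟨x₂,y₁⟩`
  (`x_i ∈ L`, `y_j ∈ L^†`) lie in the ideal `𝔡`;  i.e. `(disc of L × L^†) ⊆ 𝔡`, i.e.
  `#(𝒪/𝔡) ≤ #Ω_Σ`, `Ω_Σ = M/(M[𝔭] ⊕ M[I])` the congruence module.
* `RTIsoM` : `RTIso` together with `PairInv … (η_T)²` at the same point `π`, i.e.
  `#Ω_Σ ≥ #(𝒪/η_T)² = (#Φ_R)²`; since `#Ω ≤ #(𝒪/η_T)²` always, this says `#Ω_Σ = (#Φ_R)²`,
  equivalently `M_Σ` is free of rank `2` over `T_Σ` (`Fermat.Agent.S59.H427.criterionII`,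
  `card_omegaMod_of_free`).
-/

set_option autoImplicit false

open Polynomial IsLocalRing CongruenceSubgroup
open scoped WeierstrassCurve.Affine MatrixGroups

namespace Fermat.Agent.S59.Arch

open Fermat.Agent.S41.Spec Fermat.Agent.S29.H642

section Betti

/-- `U_q`-type operator `t₁ r₂` on `X_N` (`U_q` or its adjoint when `q ∣ N`; `T_q` when
`q ∤ N`). -/
noncomputable def bettiU (N q : ℕ) {A : Type} [AddCommGroup A]
    (x : Additive (Gamma0 N) →+ A) : Additive (Gamma0 N) →+ A :=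
  t₁ N q (r₂ N q x)

/-- The adjoint operator `t₂ r₁` on `X_N`. -/
noncomputable def bettiUdual (N q : ℕ) {A : Type} [AddCommGroup A]
    (x : Additive (Gamma0 N) →+ A) : Additive (Gamma0 N) →+ A :=
  t₂ N q (r₁ N q x)

/-- **Eigenclasses of type `Σ`** for the system of eigenvalues `a`. -/
def IsEigenclass (N : ℕ) (Sig Smin : Finset ℕ) {𝒪 : Type} [CommRing 𝒪] (a : ℕ → 𝒪)
    (dual : Bool) (x : Additive (Gamma0 N) →+ 𝒪) : Prop :=
  IsCuspidal x ∧
    (∀ (l : ℕ) [Fact l.Prime] (hl : ¬ l ∣ N), l ∉ Sig → heckeTransfer hl x = a l • x) ∧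
    ∀ q ∈ Sig \ Smin, (if dual then bettiUdual N q x else bettiU N q x) = 0

/-- **The pairing invariant**: the Gram determinants of `L × L^†` lie in `𝔡`. -/
def PairInv (N : ℕ) (Sig Smin : Finset ℕ) {𝒪 : Type} [CommRing 𝒪] (a : ℕ → 𝒪)
    (𝔡 : Ideal 𝒪) : Prop :=
  ∀ x₁ x₂ y₁ y₂ : Additive (Gamma0 N) →+ 𝒪,
    IsEigenclass N Sig Smin a false x₁ → IsEigenclass N Sig Smin a false x₂ →
    IsEigenclass N Sig Smin a true y₁ → IsEigenclass N Sig Smin a true y₂ →
    maninPairing (Gamma0 N) x₁ y₁ * maninPairing (Gamma0 N) x₂ y₂ -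
      maninPairing (Gamma0 N) x₁ y₂ * maninPairing (Gamma0 N) x₂ y₁ ∈ 𝔡

theorem PairInv.mono {N : ℕ} {Sig Smin : Finset ℕ} {𝒪 : Type} [CommRing 𝒪] {a : ℕ → 𝒪}
    {𝔡 𝔡' : Ideal 𝒪} (h : PairInv N Sig Smin a 𝔡) (hle : 𝔡 ≤ 𝔡') : PairInv N Sig Smin a 𝔡' :=
  fun x₁ x₂ y₁ y₂ h1 h2 h3 h4 => hle (h x₁ x₂ y₁ y₂ h1 h2 h3 h4)

variable (N : ℕ) [NeZero N] (S : Set ℕ)
  (𝒪 : Type) [CommRing 𝒪] [IsDomain 𝒪] [IsDiscreteValuationRing 𝒪]
  [IsAdicComplete (maximalIdeal 𝒪) 𝒪]
  (θ : CuspForm.heckeAlgebra N 2 S →+* ResidueField 𝒪)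

/-- The eigenvalues `a_l = π (T_l)` of an `𝒪`-point `π` of the local Hecke algebra
(`0` at the primes `l ∈ S` or `l ∣ N`). -/
noncomputable def eigOf (π : CuspForm.heckeLocal N S 𝒪 θ →ₐ[𝒪] 𝒪) (l : ℕ) : 𝒪 :=
  open Classical in
  if h : l.Prime ∧ ¬ l ∣ N ∧ l ∉ S then
    π (CuspForm.heckeLocal.π N S 𝒪 θ (CuspForm.heckeAlgebra.T h.1 h.2.1 h.2.2))
  else 0

theorem eigOf_eq (π : CuspForm.heckeLocal N S 𝒪 θ →ₐ[𝒪] 𝒪) {l : ℕ} (hl : l.Prime)
    (hlN : ¬ l ∣ N) (hlS : l ∉ S) :
    eigOf N S 𝒪 θ π l =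
      π (CuspForm.heckeLocal.π N S 𝒪 θ (CuspForm.heckeAlgebra.T hl hlN hlS)) := by
  unfold eigOf
  rw [dif_pos ⟨hl, hlN, hlS⟩]

end Betti

section RT

variable (p : ℕ) [Fact p.Prime]
  (𝒪 : Type) [CommRing 𝒪] [IsDomain 𝒪] [IsDiscreteValuationRing 𝒪]
  [IsAdicComplete (maximalIdeal 𝒪) 𝒪]
  (ρbar : ResidualGaloisRep (ResidueField 𝒪))

/-- **`R_Σ ≅ T_Σ` with the module invariant** (`M_Σ` free of rank `2` over `T_Σ`, in the form
`disc (L × L^†) ⊆ η_T²`).  Same as `RTIso`, with one more conjunct at the point `π`. -/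
def RTIsoM (t : PType) (Smin Sig : Finset ℕ) : Prop :=
  ∃ (_ : NeZero (wilesLevel p t Smin Sig))
    (_ : Fact (CuspForm.HasIntegralStructure (wilesLevel p t Smin Sig) 2))
    (θ : CuspForm.heckeAlgebra (wilesLevel p t Smin Sig) 2 (↑Sig : Set ℕ) →+* ResidueField 𝒪)
    (_ : IsLocalRing (CuspForm.heckeLocal (wilesLevel p t Smin Sig) (↑Sig : Set ℕ) 𝒪 θ))
    (_ : IsNoetherianRing (CuspForm.heckeLocal (wilesLevel p t Smin Sig) (↑Sig : Set ℕ) 𝒪 θ))
    (_ : IsAdicComplete
      (maximalIdeal (CuspForm.heckeLocal (wilesLevel p t Smin Sig) (↑Sig : Set ℕ) 𝒪 θ))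
      (CuspForm.heckeLocal (wilesLevel p t Smin Sig) (↑Sig : Set ℕ) 𝒪 θ))
    (_ : IsLocalHom
      (algebraMap 𝒪 (CuspForm.heckeLocal (wilesLevel p t Smin Sig) (↑Sig : Set ℕ) 𝒪 θ)))
    (_ : Module.Finite 𝒪 (CuspForm.heckeLocal (wilesLevel p t Smin Sig) (↑Sig : Set ℕ) 𝒪 θ))
    (_ : Module.Free 𝒪 (CuspForm.heckeLocal (wilesLevel p t Smin Sig) (↑Sig : Set ℕ) 𝒪 θ))
    (H : CuspForm.HeckeGaloisRepDatum (wilesLevel p t Smin Sig) (↑Sig : Set ℕ) 𝒪 θ
      (CuspForm.heckeLocal (wilesLevel p t Smin Sig) (↑Sig : Set ℕ) 𝒪 θ)),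
    H.π = CuspForm.heckeLocal.π (wilesLevel p t Smin Sig) (↑Sig : Set ℕ) 𝒪 θ ∧
    H.ρ.residual.IsEquiv (ρbar.baseChangeAlong (ResidueField.map (algebraMap 𝒪
      (CuspForm.heckeLocal (wilesLevel p t Smin Sig) (↑Sig : Set ℕ) 𝒪 θ)))) ∧
    sigmaCond 𝒪 p t Smin Sig H.ρ ∧
    ∀ (D : GaloisRep.DeformationRingData 𝒪 ρbar (sigmaCond 𝒪 p t Smin Sig))
      (φ : D.R →ₐ[𝒪] CuspForm.heckeLocal (wilesLevel p t Smin Sig) (↑Sig : Set ℕ) 𝒪 θ),
      (∃ hφ : IsLocalHom
          (φ : D.R →+* CuspForm.heckeLocal (wilesLevel p t Smin Sig) (↑Sig : Set ℕ) 𝒪 θ),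
        (D.ρ.baseChangeAlong
          (φ : D.R →+* CuspForm.heckeLocal (wilesLevel p t Smin Sig) (↑Sig : Set ℕ) 𝒪 θ)
          hφ).IsEquiv H.ρ) →
      Function.Bijective φ ∧
        ∃ π : CuspForm.heckeLocal (wilesLevel p t Smin Sig) (↑Sig : Set ℕ) 𝒪 θ →ₐ[𝒪] 𝒪,
          Finite (NC.Cot (π.comp φ)) ∧
          Nat.card (NC.Cot (π.comp φ)) = Nat.card (𝒪 ⧸ NC.congIdeal π) ∧
          PairInv (wilesLevel p t Smin Sig) Sig Smin
            (eigOf (wilesLevel p t Smin Sig) (↑Sig : Set ℕ) 𝒪 θ π) (NC.congIdeal π ^ 2)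

variable {p 𝒪 ρbar}

/-- Forgetting the module invariant. -/
theorem RTIsoM.rtIso {t : PType} {Smin Sig : Finset ℕ} (h : RTIsoM p 𝒪 ρbar t Smin Sig) :
    RTIso p 𝒪 ρbar t Smin Sig := by
  obtain ⟨hN, hint, θ, i1, i2, i3, i4, i5, i6, H, h1, h2, h3, h4⟩ := h
  refine ⟨hN, hint, θ, i1, i2, i3, i4, i5, i6, H, h1, h2, h3, fun D φ hφ => ?_⟩
  obtain ⟨hb, π, hf, hc, -⟩ := h4 D φ hφ
  exact ⟨hb, π, hf, hc⟩

end RT

/-- **The case needed by S59**: `p ∈ {3, 5}` and `ρ̄ = E[p] ⊗ k` for a semistable curve `W` with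
`E[p]` irreducible.  An EXTRA hypothesis of the three `R = T` cells (the glue has it for free):
the owners of the leaves may use it (e.g. Ihara's lemma `Fermat.Agent.S41.iharaEigen_main` is on
main for the eigensystems of curves) or ignore it. -/
def CurveCase (p : ℕ) [Fact p.Prime] {k : Type} [Field k] (ρbar : ResidualGaloisRep k) : Prop :=
  (p = 3 ∨ p = 5) ∧
  ∃ (W : WeierstrassCurve ℤ) (_ : W.Δ ≠ 0) (_ : W.IsSemistableModel)
    (_ : W.ModRepIsIrreducible p)
    (hcard : Nat.card (Submodule.torsionBy ℤ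
      ((W.map (Int.castRingHom ℚ))⁄(AlgebraicClosure ℚ)).Point p) = p ^ 2)
    (hker : GaloisFactorsThroughFiniteLevel
      (WeierstrassCurve.Affine.Point.galoisRepModuleEnd (K := AlgebraicClosure ℚ) ℚ
        (W.map (Int.castRingHom ℚ)) p))
    (ι : ZMod p →+* k), ρbar = curveResidual p W hcard hker ι

/-- **Cell TW (target): the minimal case in module form.**  As `MinRTStatement`, with the
conclusion `RTIsoM`: the Taylor–Wiles patching (S57) gives `M_min` free over `R_min`, hence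
`R_min ≅ T_min`, a complete intersection (so `#Φ_R = #(𝒪/η_T)`, Tate), and `M_min` free over
`T_min` (so `disc (L × L) = η_T²`, Poincaré duality). -/
def MinRTMStatement : Prop :=
  ∀ (p : ℕ) [Fact p.Prime]
    (𝒪 : Type) [CommRing 𝒪] [IsDomain 𝒪] [IsDiscreteValuationRing 𝒪]
    [IsAdicComplete (maximalIdeal 𝒪) 𝒪] [Finite (ResidueField 𝒪)] [CharZero 𝒪]
    (ρbar : ResidualGaloisRep (ResidueField 𝒪)) (Smin : Finset ℕ)
    (_h : ResidualHyp p 𝒪 ρbar Smin)
    (_hc : CurveCase p ρbar) (t : PType)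
    (_ht : (t = .flat ∧ (GaloisRepAdic.ofResidualGaloisRep ρbar).IsFlatAt p) ∨
      (t = .sord ∧ (GaloisRepAdic.ofResidualGaloisRep ρbar).IsStrictOrdinaryAt p ∧
        ¬ (GaloisRepAdic.ofResidualGaloisRep ρbar).IsFlatAt p))
    (_hN : NeZero (wilesLevel p t Smin Smin))
    (χ : CuspForm.heckeAlgebra (wilesLevel p t Smin Smin) 2 (↑Smin : Set ℕ) →+* 𝒪)
    (_hχ : G4.ResFrobCond ρbar ((residue 𝒪).comp χ)),
    RTIsoM p 𝒪 ρbar t Smin Smin

/-- **Cell NM (target): the induction step** `Σ → Σ ∪ {q}` in module form, for the types of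
the minimal problems: `.flat` (`ρ̄` flat at `p`) and `.sord` (`ρ̄` strictly ordinary, NOT flat at
`p`: then every eigenform of level `N_Σ` giving `ρ̄` is `p`-new). -/
def NonMinStepMStatement : Prop :=
  ∀ (p : ℕ) [Fact p.Prime]
    (𝒪 : Type) [CommRing 𝒪] [IsDomain 𝒪] [IsDiscreteValuationRing 𝒪]
    [IsAdicComplete (maximalIdeal 𝒪) 𝒪] [Finite (ResidueField 𝒪)] [CharZero 𝒪]
    (ρbar : ResidualGaloisRep (ResidueField 𝒪)) (Smin : Finset ℕ)
    (_h : ResidualHyp p 𝒪 ρbar Smin)
    (_hc : CurveCase p ρbar) (t : PType)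
    (_ht : (t = .flat ∧ (GaloisRepAdic.ofResidualGaloisRep ρbar).IsFlatAt p) ∨
      (t = .sord ∧ (GaloisRepAdic.ofResidualGaloisRep ρbar).IsStrictOrdinaryAt p ∧
        ¬ (GaloisRepAdic.ofResidualGaloisRep ρbar).IsFlatAt p))
    (Sig : Finset ℕ)
    (_hSig : Smin ⊆ Sig) (_hSigP : ∀ q ∈ Sig, q.Prime)
    (q : ℕ) (_hq : q.Prime) (_hqS : q ∉ Sig),
    RTIsoM p 𝒪 ρbar t Smin Sig → RTIsoM p 𝒪 ρbar t Smin (insert q Sig)

/-- **Cell NMP (target): the step at `p`**, from flat (module form) to ordinary. -/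
def NonMinPMStatement : Prop :=
  ∀ (p : ℕ) [Fact p.Prime]
    (𝒪 : Type) [CommRing 𝒪] [IsDomain 𝒪] [IsDiscreteValuationRing 𝒪]
    [IsAdicComplete (maximalIdeal 𝒪) 𝒪] [Finite (ResidueField 𝒪)] [CharZero 𝒪]
    (ρbar : ResidualGaloisRep (ResidueField 𝒪)) (Smin : Finset ℕ)
    (_h : ResidualHyp p 𝒪 ρbar Smin)
    (_hc : CurveCase p ρbar) (Sig : Finset ℕ)
    (_hSig : Smin ⊆ Sig) (_hSigP : ∀ q ∈ Sig, q.Prime)
    (_hflat : (GaloisRepAdic.ofResidualGaloisRep ρbar).IsFlatAt p)
    (_hord : (GaloisRepAdic.ofResidualGaloisRep ρbar).IsOrdinaryAt p),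
    RTIsoM p 𝒪 ρbar .flat Smin Sig → RTIso p 𝒪 ρbar .ord Smin Sig

/-- **All the `R_Σ ≅ T_Σ` needed by the glue**, for the minimal type `t₀` and the final type. -/
def RTAllStatement : Prop :=
  ∀ (p : ℕ) [Fact p.Prime]
    (𝒪 : Type) [CommRing 𝒪] [IsDomain 𝒪] [IsDiscreteValuationRing 𝒪]
    [IsAdicComplete (maximalIdeal 𝒪) 𝒪] [Finite (ResidueField 𝒪)] [CharZero 𝒪]
    (ρbar : ResidualGaloisRep (ResidueField 𝒪)) (Smin : Finset ℕ)
    (_h : ResidualHyp p 𝒪 ρbar Smin)
    (_hc : CurveCase p ρbar) (t : PType)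
    (_ht : (t = .flat ∧ (GaloisRepAdic.ofResidualGaloisRep ρbar).IsFlatAt p) ∨
      (t = .sord ∧ (GaloisRepAdic.ofResidualGaloisRep ρbar).IsStrictOrdinaryAt p ∧
        ¬ (GaloisRepAdic.ofResidualGaloisRep ρbar).IsFlatAt p))
    (_hN : NeZero (wilesLevel p t Smin Smin))
    (χ : CuspForm.heckeAlgebra (wilesLevel p t Smin Smin) 2 (↑Smin : Set ℕ) →+* 𝒪)
    (_hχ : G4.ResFrobCond ρbar ((residue 𝒪).comp χ))
    (E : Finset ℕ) (_hE : ∀ q ∈ E, q.Prime),
    RTIso p 𝒪 ρbar t Smin (Smin ∪ E) ∧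
      (t = .flat → (GaloisRepAdic.ofResidualGaloisRep ρbar).IsOrdinaryAt p →
        RTIso p 𝒪 ρbar .ord Smin (Smin ∪ E))

end Fermat.Agent.S59.Arch

end
-- ===== PACK-END S59/Arch/SpecRT2.lean

-- ===== PACK-BEGIN S59/TW/H658/IntCSym.lean
section




/-!
# S21 INT-C (helper544): derivative of the symmetrization `sym L η`
-/

set_option autoImplicit false

open UpperHalfPlane CongruenceSubgroup Filter Topology MeasureTheory
open scoped MatrixGroups ComplexConjugate ContDiff

namespace Fermat.Agent.S59.TW.H658.H544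

open Fermat.Agent.S21
open Fermat.Agent.S21.H544

open Fermat.Agent.S21

variable (L : Lev) {χ₁ : ℂ → ℝ}

/-- Local finiteness of the `Γ₀(L)`-translates of the support of a test function. -/
theorem exists_finset_eventually (hχ : IsSL2ZPartition χ₁) {η : ℂ → ℝ} (hη : IsTest η)
    {z₀ : ℂ} (hz₀ : z₀ ∈ Uhp) :
    ∃ S : Finset (L.Γ), ∀ᶠ z in 𝓝 z₀,
      z ∈ Uhp ∧ ∀ γ : L.Γ, γ ∉ S → mob (γ : SL(2, ℤ)) z ∉ tsupport η := by
  obtain ⟨r, hr, hball⟩ := Metric.isOpen_iff.mp isOpen_Uhp z₀ hz₀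
  have hV : IsCompact (Metric.closedBall z₀ (r / 2)) := isCompact_closedBall _ _
  have hVU : Metric.closedBall z₀ (r / 2) ⊆ Uhp :=
    (Metric.closedBall_subset_ball (by linarith)).trans hball
  have hG := finite_mob_mem hχ _ _ hV hVU hη.2.1 hη.2.2
  have hS : {γ : L.Γ | (γ : SL(2, ℤ)) ∈
      {g : SL(2, ℤ) | ∃ z ∈ Metric.closedBall z₀ (r / 2), mob g z ∈ tsupport η}}.Finite :=
    hG.preimage (Subtype.val_injective.injOn)
  refine ⟨hS.toFinset, ?_⟩
  filter_upwards [Metric.closedBall_mem_nhds z₀ (by linarith : 0 < r / 2)] with z hz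
  refine ⟨hVU hz, fun γ hγ hmem => hγ ?_⟩
  rw [Set.Finite.mem_toFinset]
  exact ⟨z, hz, hmem⟩

/-- The derivative of `sym L η` is a locally finite sum. -/
theorem fderiv_sym (hχ : IsSL2ZPartition χ₁) {η : ℂ → ℝ} (hη : IsTest η)
    {z₀ : ℂ} (hz₀ : z₀ ∈ Uhp) :
    ∃ S : Finset (L.Γ), (∀ γ : L.Γ, γ ∉ S → mob (γ : SL(2, ℤ)) z₀ ∉ tsupport η) ∧
      fderiv ℝ (_root_.Fermat.Agent.S59.TW.H658.sym L η) z₀ = ∑ γ ∈ S, fderiv ℝ (fun z => η (mob (γ : SL(2, ℤ)) z)) z₀ := by
  obtain ⟨S, hS⟩ := _root_.Fermat.Agent.S59.TW.H658.H544.exists_finset_eventually L hχ hη hz₀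
  refine ⟨S, fun γ hγ => (hS.self_of_nhds).2 γ hγ, ?_⟩
  have heq : _root_.Fermat.Agent.S59.TW.H658.sym L η =ᶠ[𝓝 z₀] fun z => ∑ γ ∈ S, η (mob (γ : SL(2, ℤ)) z) := by
    filter_upwards [hS] with z hz
    unfold _root_.Fermat.Agent.S59.TW.H658.sym
    refine finsum_eq_sum_of_support_subset _ ?_
    intro γ hγ
    by_contra hγS
    exact hz.2 γ hγS (subset_tsupport _ hγ)
  rw [heq.fderiv_eq]
  have hdiff : ∀ γ ∈ S, DifferentiableAt ℝ (fun z => η (mob ((γ : L.Γ) : SL(2, ℤ)) z)) z₀ :=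
    fun γ _ => ((hη.1.differentiable (by simp)).differentiableAt).comp z₀
      (differentiableAt_mob _ hz₀)
  exact fderiv_fun_sum hdiff

/-- The density of `u` against `sym L η` as a locally finite sum. -/
theorem dens_sym (hχ : IsSL2ZPartition χ₁) (u : ℂ → ℝ)
    (hinv : ∀ γ : L.Γ, ∀ z ∈ Uhp,
      dz u (mob (γ : SL(2, ℤ)) z) = (cd (γ : SL(2, ℤ)) z) ^ 2 * dz u z)
    {η : ℂ → ℝ} (hη : IsTest η) {z : ℂ} (hz : z ∈ Uhp) :
    ∃ S : Finset (L.Γ), (∀ γ : L.Γ, γ ∉ S → mob (γ : SL(2, ℤ)) z ∉ tsupport η) ∧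
      dens u (_root_.Fermat.Agent.S59.TW.H658.sym L η) z
        = ∑ γ ∈ S, dens u η (mob (γ : SL(2, ℤ)) z) / ‖cd (γ : SL(2, ℤ)) z‖ ^ 4 := by
  obtain ⟨S, hS, hfd⟩ := _root_.Fermat.Agent.S59.TW.H658.H544.fderiv_sym L hχ hη hz
  refine ⟨S, hS, ?_⟩
  have h1 : dens u (_root_.Fermat.Agent.S59.TW.H658.sym L η) z
      = ∑ γ ∈ S, dens u (fun w => η (mob ((γ : L.Γ) : SL(2, ℤ)) w)) z := by
    unfold dens
    rw [hfd]
    simp only [FunLike.coe_sum, Finset.sum_apply, Finset.mul_sum]
    rw [← Finset.sum_add_distrib]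
  rw [h1]
  refine Finset.sum_congr rfl fun γ _ => ?_
  exact dens_comp_mob u η _ hz ((hη.1.differentiable (by simp)).differentiableAt)
    (hinv γ z hz)

end Fermat.Agent.S59.TW.H658.H544

end
-- ===== PACK-END S59/TW/H658/IntCSym.lean

-- ===== PACK-BEGIN S59/TW/H653/Cusp.lean
section





/-!
# S59 / TW-HECKE (helper653): the Hecke operators preserve cuspidal classes

`IsCuspidalK φ` (`φ : Hom(K, A)`): `φ` kills the elements with `(tr γ)² = 4` and the elements of
finite order (definitionally the same as `S41.Spec.IsCuspidalOn K φ`).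

* `isCuspidalK_transfer` : the transfer of ANY coset system between subgroups of `SL(2,ℤ)`
  (embedded in `GL(2,ℝ)`) preserves cuspidal classes;
* `isCuspidalK_sysOp`, `isCuspidalK_TK`, `isCuspidalK_UK` : hence `T_ℓ`, `U_q` do (no hypothesis);
* `isCuspidalK_diamond`, `isCuspidalK_resK`, `isCuspidalK_coresK` : diamond operators,
  restriction, corestriction.
-/

set_option autoImplicit false

namespace Fermat.Agent.S59.TW.H653

open CongruenceSubgroup Matrix.SpecialLinearGroup ModularCurve.Period ModularForm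
open Fermat.Agent.S29.H642 Fermat.Agent.S41.H761
open P2MW.S_ModularForm_heckeT_slash_eq_self_of_mem_Gamma0.ModularForm.HeckeSlashInvariance
open scoped MatrixGroups

/-! ## Traces and orders under conjugation in `GL(2, ℝ)` -/

theorem coe_mapGL_eq_map (g : SL(2, ℤ)) :
    ((mapGL ℝ g : GL (Fin 2) ℝ) : Matrix (Fin 2) (Fin 2) ℝ) =
      (g : Matrix (Fin 2) (Fin 2) ℤ).map (Int.castRingHom ℝ) := by
  ext i j
  rw [coe_mapGL_apply]
  rfl

theorem trace_mapGL (g : SL(2, ℤ)) :
    ((mapGL ℝ g : GL (Fin 2) ℝ) : Matrix (Fin 2) (Fin 2) ℝ).trace =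
      (((g : Matrix (Fin 2) (Fin 2) ℤ).trace : ℤ) : ℝ) := by
  rw [Matrix.trace_fin_two, Matrix.trace_fin_two, coe_mapGL_apply, coe_mapGL_apply]
  push_cast
  rfl

/-- If `ρ * g = c * ρ` in `GL(2, ℝ)` with `g, c ∈ SL(2, ℤ)`, then `tr c = tr g`. -/
theorem trace_eq_of_conj {ρ : GL (Fin 2) ℝ} {g c : SL(2, ℤ)}
    (e : ρ * mapGL ℝ g = mapGL ℝ c * ρ) :
    (c : Matrix (Fin 2) (Fin 2) ℤ).trace = (g : Matrix (Fin 2) (Fin 2) ℤ).trace := by
  have h1 : mapGL ℝ c = ρ * mapGL ℝ g * ρ⁻¹ := by rw [e, mul_inv_cancel_right]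
  have h2 : ((mapGL ℝ c : GL (Fin 2) ℝ) : Matrix (Fin 2) (Fin 2) ℝ).trace =
      ((mapGL ℝ g : GL (Fin 2) ℝ) : Matrix (Fin 2) (Fin 2) ℝ).trace := by
    rw [h1, Units.val_mul, Units.val_mul, Matrix.trace_mul_comm, ← Units.val_mul,
      ← Units.val_mul, ← mul_assoc, inv_mul_cancel, one_mul]
  rw [trace_mapGL, trace_mapGL] at h2
  exact_mod_cast h2

/-- If `ρ * g = c * ρ` in `GL(2, ℝ)` with `g, c ∈ SL(2, ℤ)` and `g` has finite order, then `c` has
finite order. -/
theorem isOfFinOrder_of_conj {ρ : GL (Fin 2) ℝ} {g c : SL(2, ℤ)}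
    (e : ρ * mapGL ℝ g = mapGL ℝ c * ρ) (hg : IsOfFinOrder g) : IsOfFinOrder c := by
  have h1 : mapGL ℝ c = ρ * mapGL ℝ g * ρ⁻¹ := by rw [e, mul_inv_cancel_right]
  have h2 : IsOfFinOrder (mapGL ℝ g : GL (Fin 2) ℝ) := (mapGL ℝ).isOfFinOrder hg
  have h3 : IsOfFinOrder (mapGL ℝ c : GL (Fin 2) ℝ) := by
    rw [h1]
    have := (MulAut.conj ρ).toMonoidHom.isOfFinOrder h2
    simpa [MulAut.conj_apply] using this
  exact (mapGL_real_injective.isOfFinOrder_iff).mp h3

/-! ## Transfers of coset systems -/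

section Transfer

variable {K K' : Subgroup SL(2, ℤ)} {A : Type*} [AddCommGroup A]
variable {I : Type*} [Fintype I] {ρ : I → GL (Fin 2) ℝ}

theorem isCuspidalK_zero : IsCuspidalK (0 : Additive K →+ A) :=
  ⟨fun _ _ => rfl, fun _ _ => rfl⟩

/-- **The transfer of a coset system preserves cuspidal classes.** -/
theorem isCuspidalK_transfer (h : IsCosetSystem (ιK K) (ιK K') ρ) {φ : Additive K →+ A}
    (hφ : IsCuspidalK φ) : IsCuspidalK (h.transfer φ) := by
  refine ⟨fun γ hγ => ?_, fun γ hγ => ?_⟩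
  · refine transfer_eq_zero_of_cycles h φ γ fun i m c _ e => hφ.1 c ?_
    have e' : ρ i * mapGL ℝ ((γ : SL(2, ℤ)) ^ m) = mapGL ℝ (c : SL(2, ℤ)) * ρ i := e
    rw [trace_eq_of_conj e', Matrix.SpecialLinearGroup.coe_pow]
    exact Fermat.Agent.S41.H581.trace_pow_sq_eq_four _ (γ : SL(2, ℤ)).det_coe hγ m
  · refine transfer_eq_zero_of_cycles h φ γ fun i m c _ e => hφ.2 c ?_
    have e' : ρ i * mapGL ℝ ((γ : SL(2, ℤ)) ^ m) = mapGL ℝ (c : SL(2, ℤ)) * ρ i := e
    have h1 : IsOfFinOrder ((γ : SL(2, ℤ)) ^ m) :=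
      (K'.subtype.isOfFinOrder hγ).pow
    have h2 := isOfFinOrder_of_conj e' h1
    exact (Subgroup.subtype_injective K).isOfFinOrder_iff.mp h2

/-- The operator of any family of representatives preserves cuspidal classes. -/
theorem isCuspidalK_sysOp (ρ : I → GL (Fin 2) ℝ) {φ : Additive K →+ A}
    (hφ : IsCuspidalK φ) : IsCuspidalK (sysOp (ιK K) ρ φ) := by
  by_cases h : IsCosetSystem (ιK K) (ιK K) ρ
  · rw [sysOp_eq h]
    exact isCuspidalK_transfer h hφ
  · unfold sysOp
    rw [dif_neg h]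
    exact isCuspidalK_zero

end Transfer

section Ops

variable {M : ℕ} {K K' : Subgroup SL(2, ℤ)} {A : Type*} [AddCommGroup A]

/-- `T_ℓ` preserves cuspidal classes. -/
theorem isCuspidalK_TK (M : ℕ) (K : Subgroup SL(2, ℤ)) (ℓ : ℕ) [NeZero ℓ]
    {φ : Additive K →+ A} (hφ : IsCuspidalK φ) : IsCuspidalK (TK M K ℓ φ) :=
  isCuspidalK_sysOp _ hφ

/-- `U_q` preserves cuspidal classes. -/
theorem isCuspidalK_UK (K : Subgroup SL(2, ℤ)) (q : ℕ) [NeZero q]
    {φ : Additive K →+ A} (hφ : IsCuspidalK φ) : IsCuspidalK (UK K q φ) :=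
  isCuspidalK_sysOp _ hφ

theorem trace_conj_sl' (g x : SL(2, ℤ)) :
    ((g * x * g⁻¹ : SL(2, ℤ)) : Matrix (Fin 2) (Fin 2) ℤ).trace =
      (x : Matrix (Fin 2) (Fin 2) ℤ).trace := by
  have := Fermat.Agent.S41.H581.trace_conj_sl g⁻¹ x
  rwa [inv_inv] at this

/-- The diamond operators preserve cuspidal classes. -/
theorem isCuspidalK_diamond (hK : IsMid M K) (g : Gamma0 M) {φ : Additive K →+ A}
    (hφ : IsCuspidalK φ) : IsCuspidalK (diamond hK g φ) := by
  refine ⟨fun γ hγ => ?_, fun γ hγ => ?_⟩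
  · rw [diamond_apply]
    refine hφ.1 _ ?_
    rw [conjK_coe, trace_conj_sl']
    exact hγ
  · rw [diamond_apply]
    exact hφ.2 _ ((conjK hK g).toMonoidHom.isOfFinOrder hγ)

/-- Restriction preserves cuspidal classes. -/
theorem isCuspidalK_resK (h : K' ≤ K) {φ : Additive K →+ A} (hφ : IsCuspidalK φ) :
    IsCuspidalK (resK h φ) := by
  refine ⟨fun γ hγ => ?_, fun γ hγ => ?_⟩
  · rw [resK_apply]
    exact hφ.1 _ hγ
  · rw [resK_apply]
    exact hφ.2 _ ((Subgroup.inclusion h).isOfFinOrder hγ)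

/-- Corestriction preserves cuspidal classes. -/
theorem isCuspidalK_coresK (h : K' ≤ K) {ψ : Additive K' →+ A} (hψ : IsCuspidalK ψ) :
    IsCuspidalK (coresK h ψ) := by
  refine ⟨fun γ hγ => ?_, fun γ hγ => ?_⟩
  · refine Fermat.Agent.S41.H581.transferAlong_eq_zero_of _ ψ γ fun _ k t c hc => hψ.1 c ?_
    have h1 : ((c : SL(2, ℤ))) = ((t : SL(2, ℤ)))⁻¹ * (γ : SL(2, ℤ)) ^ k * (t : SL(2, ℤ)) := by
      have := congrArg (Subtype.val) hc
      simpa using this
    rw [h1, Fermat.Agent.S41.H581.trace_conj_sl, Matrix.SpecialLinearGroup.coe_pow]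
    exact Fermat.Agent.S41.H581.trace_pow_sq_eq_four _ (γ : SL(2, ℤ)).det_coe hγ k
  · refine Fermat.Agent.S41.H581.transferAlong_eq_zero_of _ ψ γ fun hinj k t c hc => hψ.2 c ?_
    rw [← hinj.isOfFinOrder_iff, hc]
    have h1 : IsOfFinOrder (γ ^ k) := hγ.pow
    have h2 := (MulAut.conj t⁻¹).toMonoidHom.isOfFinOrder h1
    simpa [MulAut.conj_apply] using h2

end Ops

end Fermat.Agent.S59.TW.H653

end
-- ===== PACK-END S59/TW/H653/Cusp.lean

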