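import Mathlib.AlgebraicGeometry.EllipticCurve.Affine.Point
import Fermat.Agent.Pack.S43MC.G0E12L0
import Fermat.Agent.Pack.S43MC.G0E8L2
import Fermat.Agent.Pack.S43MC.G0E10L2
import Fermat.Agent.Pack.S43MC.G0E8L1
import Fermat.Agent.Pack.S43MC.G0E5L0
import Fermat.Agent.Pack.S43MC.G0E13L1
import Fermat.Agent.Pack.S43MC.G0E10L1
import Fermat.Agent.Pack.S43MC.G0E13L2
import Fermat.Agent.Pack.S43MC.G0E1L3
import Fermat.Agent.Pack.S43MC.G0E11L2
import Fermat.Agent.Pack.S43MC.G0E1L0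
import Fermat.Agent.Pack.S43MC.G0E0L0
import Fermat.Agent.Pack.S43MC.G0E8L3
import Fermat.Agent.Pack.S43MC.G0E13L3
import Fermat.Agent.Pack.S43MC.G0E11L1
import Fermat.Agent.Pack.S43MC.G0E1L2
import Fermat.Agent.Pack.S43MC.G0E6L3
import Fermat.Agent.Pack.S43MC.G0E8L0
import Fermat.Agent.Pack.S43MC.G0E9L0
import Fermat.Agent.Pack.S43MC.G0E13L0
import Fermat.Agent.Pack.S43MC.G0E11L3
import Fermat.Agent.Pack.S43MC.G0E2L2
import Fermat.Agent.Pack.S43MC.G0E14L0
import Fermat.Agent.Pack.S43MC.G0E14L1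
import Fermat.Agent.Pack.S44C.G0E16L1
import Fermat.Agent.Pack.S43MC.G0E12L3
import Fermat.Agent.Pack.Fast891

-- ===== PACK-BEGIN S25/Assembly/Main.lean
section






/-!
# Row S25, master assembly: the frozen statement from the L3 blocks

`result_of_blocks` lists exactly what is still needed.
-/

set_option autoImplicit false
universe u
open CategoryTheory CategoryTheory.Limits AlgebraicGeometry AlgebraicGeometry.RelPicard
  NeronModelInfra GoodReductionJacobian

namespace Fermat.Agent.S25.Assembly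

variable {k : Type u} [Field k] {C : Scheme.{u}} {c : C ⟶ Spec (CommRingCat.of k)}
  {ε : SchemeHomOver (𝟙 (Spec (CommRingCat.of k))) c}

/-- S25 from the L3 blocks. -/
theorem result_of_blocks (Ch : ChartOf c ε)
    (hSec : Stmt.DictSections Ch) (hGlue : Stmt.DictGlue Ch) (hIso : Stmt.DictIso Ch)
    (hBC : Stmt.DictBC Ch) (hDeg : Stmt.DictDeg Ch) (hEx : Stmt.AlgBCExists Ch)
    (hAlgCharts : Stmt.AlgCharts k Ch.B₀ Ch.B₁ Ch.B₀₁)
    (hAlgDef : Stmt.AlgDef k Ch.B₀ Ch.B₁ Ch.B₀₁)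
    (hRig : H205.RigLift Ch.B₀ Ch.B₁ Ch.B₀₁ Ch.e)
    (hAlgVal : Stmt.AlgVal k Ch.B₀ Ch.B₁ Ch.B₀₁)
    (hSheafGlue : Stmt.SheafGlue c ε) (hSheafSep : Stmt.SheafSep c ε)
    (hAbel : Stmt.Abel c ε)
    (hRepOfCharts : Stmt.Charts c ε → Stmt.SheafGlue c ε → Stmt.SheafSep c ε →
      Stmt.LocalP c ε → Stmt.Rep c ε) :
    ∃ D : RelativePic0Designation k c,
      Nonempty (RepresentsRelSubPic c ε (algEquivZeroCut c ε) D) ∧
        Smooth D.toBase ∧ IsProper D.toBase ∧ GeometricallyConnected D.toBase :=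
  result_of_pillars c ε
    (hRepOfCharts (H625.charts_of_alg Ch hSec hGlue hIso hBC hDeg hEx hAlgCharts)
      hSheafGlue hSheafSep (H805.localP c ε))
    (H205.def_of_alg Ch hSec hGlue hIso hBC hAlgDef hRig)
    (Bridge.val_of_alg Ch hSec hIso hBC hDeg hEx hAlgVal)
    hAbel

end Fermat.Agent.S25.Assembly

end
-- ===== PACK-END S25/Assembly/Main.lean

-- ===== PACK-BEGIN S25/H747/AbSame.lean
section
/-
S25 / block ABEL, sub-block AB-ALG (helper747), leaves C6 + AA3: chart points that are `Same`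
have the same ideals; hence the Abel datum does not depend on the choice of charts.
-/


set_option autoImplicit false
universe u
open scoped TensorProduct

namespace Fermat.Agent.S25.H747

open Fermat.Agent.S25

section

variable {k : Type u} [Field k]
  {B₀ B₁ B₀₁ : Type u} [CommRing B₀] [CommRing B₁] [CommRing B₀₁]
  [Algebra k B₀] [Algebra k B₁] [Algebra k B₀₁] [Algebra B₀ B₀₁] [Algebra B₁ B₀₁]
  [IsScalarTower k B₀ B₀₁] [IsScalarTower k B₁ B₀₁]
  {A : Type u} [CommRing A] [Algebra k A]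

/-- The graph ideal of a composite is the contraction of the graph ideal. -/
theorem graphIdeal_comp {B B' : Type u} [CommRing B] [CommRing B'] [Algebra k B] [Algebra k B']
    [Algebra B B'] [IsScalarTower k B B'] (φ : B' →ₐ[k] A) :
    graphIdeal (φ.comp (IsScalarTower.toAlgHom k B B')) =
      (graphIdeal φ).comap (algebraMap (A ⊗[k] B) (A ⊗[k] B')) := by
  have h : (evalHom (φ.comp (IsScalarTower.toAlgHom k B B')) : A ⊗[k] B →ₐ[A] A).toRingHom =
      (evalHom φ).toRingHom.comp (algebraMap (A ⊗[k] B) (A ⊗[k] B')) := by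
    ext <;> simp [RingHom.algebraMap_toAlgebra, tensorMapRight]
  ext z
  have hz := DFunLike.congr_fun h z
  simp only [graphIdeal, RingHom.mem_ker, Ideal.mem_comap]
  change (evalHom _).toRingHom z = 0 ↔ _
  rw [hz]
  rfl

/-- The general form of the Abel datum as a function of the six ideals. -/
noncomputable def abelDatumOfIdeals (A : Type u) [CommRing A] [Algebra k A]
    (I₀ : Ideal (A ⊗[k] B₀)) (I₁ : Ideal (A ⊗[k] B₁)) (I₀₁ : Ideal (A ⊗[k] B₀₁))
    (E₀ : Ideal (A ⊗[k] B₀)) (E₁ : Ideal (A ⊗[k] B₁)) (E₀₁ : Ideal (A ⊗[k] B₀₁)) :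
    CurveGD k B₀ B₁ B₀₁ A :=
  open Classical in
  if h : IsCartierTriple I₀ I₁ I₀₁ ∧ IsCartierTriple E₀ E₁ E₀₁ then
    homDatum (ofIdeals A h.1) (ofIdeals A h.2)
  else GlueDatum.unit A (A ⊗[k] B₀) (A ⊗[k] B₁) (A ⊗[k] B₀₁)

theorem abelDatum_eq_ofIdeals (e : B₁ →ₐ[k] k) (g : ℕ) (A : Type u) [CommRing A] [Algebra k A]
    (P : Fin g → H746.ChartPt k B₀ B₁ A) :
    abelDatum (B₀₁ := B₀₁) e g A P =
      abelDatumOfIdeals A (tupI₀ B₀₁ P) (tupI₁ B₀₁ P) (tupI₀₁ B₀₁ P)
        (tupI₀ B₀₁ (fun _ : Fin g => epsPt B₀ e A)) (tupI₁ B₀₁ (fun _ : Fin g => epsPt B₀ e A))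
        (tupI₀₁ B₀₁ (fun _ : Fin g => epsPt B₀ e A)) := rfl

variable {x : B₀} {y : B₁} {e : B₁ →ₐ[k] k}

/-- **C6.** Chart points that are `Same` have the same ideals. -/
theorem ptI_eq_of_same (hC : IsCurveChart k B₀ B₁ B₀₁ x y e)
    (P Q : H746.ChartPt k B₀ B₁ A) (h : H746.ChartPt.Same B₀₁ P Q) :
    ptI₀ B₀₁ P = ptI₀ B₀₁ Q ∧ ptI₁ B₀₁ P = ptI₁ B₀₁ Q ∧ ptI₀₁ B₀₁ P = ptI₀₁ B₀₁ Q := by
  have := hC.away₀
  have := hC.away₁
  have := isLocalization_away_tensor (k := k) A B₀ B₀₁ x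
  have := isLocalization_away_tensor (k := k) A B₁ B₀₁ y
  have key : ∀ φ : B₀₁ →ₐ[k] A,
      ptI₀ B₀₁ (Sum.inl (φ.comp (IsScalarTower.toAlgHom k B₀ B₀₁)) : H746.ChartPt k B₀ B₁ A) =
        ptI₀ B₀₁ (Sum.inr (φ.comp (IsScalarTower.toAlgHom k B₁ B₀₁)) :
          H746.ChartPt k B₀ B₁ A) ∧
      ptI₁ B₀₁ (Sum.inl (φ.comp (IsScalarTower.toAlgHom k B₀ B₀₁)) : H746.ChartPt k B₀ B₁ A) =
        ptI₁ B₀₁ (Sum.inr (φ.comp (IsScalarTower.toAlgHom k B₁ B₀₁)) :
          H746.ChartPt k B₀ B₁ A) ∧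
      ptI₀₁ B₀₁ (Sum.inl (φ.comp (IsScalarTower.toAlgHom k B₀ B₀₁)) : H746.ChartPt k B₀ B₁ A) =
        ptI₀₁ B₀₁ (Sum.inr (φ.comp (IsScalarTower.toAlgHom k B₁ B₀₁)) :
          H746.ChartPt k B₀ B₁ A) := by
    intro φ
    have m₀ : ((graphIdeal φ).comap (algebraMap (A ⊗[k] B₀) (A ⊗[k] B₀₁))).map
        (algebraMap (A ⊗[k] B₀) (A ⊗[k] B₀₁)) = graphIdeal φ :=
      IsLocalization.map_under (Submonoid.powers ((1 : A) ⊗ₜ[k] x)) _ _
    have m₁ : ((graphIdeal φ).comap (algebraMap (A ⊗[k] B₁) (A ⊗[k] B₀₁))).map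
        (algebraMap (A ⊗[k] B₁) (A ⊗[k] B₀₁)) = graphIdeal φ :=
      IsLocalization.map_under (Submonoid.powers ((1 : A) ⊗ₜ[k] y)) _ _
    simp only [ptI₀, ptI₁, ptI₀₁, graphIdeal_comp, m₀, m₁, and_self]
  rcases h with rfl | ⟨φ, ⟨rfl, rfl⟩ | ⟨rfl, rfl⟩⟩
  · exact ⟨rfl, rfl, rfl⟩
  · exact key φ
  · obtain ⟨h₀, h₁, h₀₁⟩ := key φ
    exact ⟨h₀.symm, h₁.symm, h₀₁.symm⟩

/-- Tuples of pairwise `Same` chart points have the same ideals. -/
theorem tupI_eq_of_same (hC : IsCurveChart k B₀ B₁ B₀₁ x y e) {g : ℕ}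
    (P Q : Fin g → H746.ChartPt k B₀ B₁ A) (h : ∀ i, H746.ChartPt.Same B₀₁ (P i) (Q i)) :
    tupI₀ B₀₁ P = tupI₀ B₀₁ Q ∧ tupI₁ B₀₁ P = tupI₁ B₀₁ Q ∧ tupI₀₁ B₀₁ P = tupI₀₁ B₀₁ Q :=
  ⟨Finset.prod_congr rfl fun i _ => (ptI_eq_of_same hC _ _ (h i)).1,
    Finset.prod_congr rfl fun i _ => (ptI_eq_of_same hC _ _ (h i)).2.1,
    Finset.prod_congr rfl fun i _ => (ptI_eq_of_same hC _ _ (h i)).2.2⟩

/-- Reflexivity of `GlueDatum.IsIso`. -/
theorem glueDatum_isIso_refl {A R₀ R₁ R₀₁ : Type u} [CommRing A] [CommRing R₀] [CommRing R₁]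
    [CommRing R₀₁] [Algebra A R₀] [Algebra A R₁] [Algebra A R₀₁] [Algebra R₀ R₀₁]
    [Algebra R₁ R₀₁] [IsScalarTower A R₀ R₀₁] [IsScalarTower A R₁ R₀₁]
    (G : GlueDatum A R₀ R₁ R₀₁) : G.IsIso G :=
  ⟨{ e₀ := LinearEquiv.refl _ _
     e₁ := LinearEquiv.refl _ _
     e₀₁ := LinearEquiv.refl _ _
     comm₀ := fun _ => rfl
     comm₁ := fun _ => rfl }⟩

/-- **AA3.** Independence of the choice of charts. -/
theorem abelDatum_same (hC : IsCurveChart k B₀ B₁ B₀₁ x y e) (g : ℕ)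
    (A : Type u) [CommRing A] [Algebra k A] (P Q : Fin g → H746.ChartPt k B₀ B₁ A)
    (h : ∀ i, H746.ChartPt.Same B₀₁ (P i) (Q i)) :
    (abelDatum (B₀₁ := B₀₁) e g A P).IsIso (abelDatum (B₀₁ := B₀₁) e g A Q) := by
  obtain ⟨h₀, h₁, h₀₁⟩ := tupI_eq_of_same hC P Q h
  rw [abelDatum_eq_ofIdeals, abelDatum_eq_ofIdeals, h₀, h₁, h₀₁]
  exact glueDatum_isIso_refl _

end

end Fermat.Agent.S25.H747

end
-- ===== PACK-END S25/H747/AbSame.lean

-- ===== PACK-BEGIN S25/H791/ACLeaf01.lean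
section



/-!
# S25 / ALGCHARTS (helper791): the leaves `Stage0` and `Stage1` in `H11.Leaf` form
-/

set_option autoImplicit false

universe u

namespace Fermat.Agent.S25.H791

open Fermat.Agent.S25

variable {k : Type u} [Field k] [IsAlgClosed k]
  {B₀ B₁ B₀₁ : Type u} [CommRing B₀] [CommRing B₁] [CommRing B₀₁]
  [Algebra k B₀] [Algebra k B₁] [Algebra k B₀₁] [Algebra B₀ B₀₁] [Algebra B₁ B₀₁]
  [IsScalarTower k B₀ B₀₁] [IsScalarTower k B₁ B₀₁]

/-- Leaf `Stage0` of ALGCHARTS. -/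
theorem leaf_stage0 : H11.Leaf.Stage0 k B₀ B₁ B₀₁ :=
  fun _ _ _ hC n _ _ _ G => stage0_locus hC n G

/-- Leaf `Stage1` of ALGCHARTS. -/
theorem leaf_stage1 : H11.Leaf.Stage1 k B₀ B₁ B₀₁ :=
  fun _ _ _ hC n _ q _ _ _ G h0 => stage1_locus hC n q G h0

end Fermat.Agent.S25.H791

end
-- ===== PACK-END S25/H791/ACLeaf01.lean

-- ===== PACK-BEGIN S25/H446/PtIdeal.lean
section






/-!
# Row S25, block ALGCHARTS, shared sub-lemma SH2 (helper446): the ideal `ptIdeal q A`

In the language of the frozen `H11/ACDefs.lean`.  `q : Fin m → (B₀ →ₐ[k] k)` are `k`-points of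
the first chart (repetitions allowed), `A` is any `k`-algebra.

* `ker_ptHom_eq_map`, `ptIdeal_eq_map` : `ptIdeal q A` is the extension to `A ⊗[k] B₀` of the
  ideal `∏ i, ker (q i)` of `B₀`.
* `ptIdeal_map` : `(ptIdeal q A).map (tensorMapLeft k ψ B₀) = ptIdeal q A'` for `ψ : A →ₐ[k] A'`.
* `ptIdeal_quotient_free`, `ptIdeal_quotient_finite`, `ptIdeal_isHilb` : the quotient
  `(A ⊗[k] B₀) ⧸ ptIdeal q A` is a finite free `A`-module of rank `m`.
* `ptIdeal_invertible` : `ptIdeal q A` is an invertible `A ⊗[k] B₀`-module.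
* `vanq_quotient_finite`, `vanq_quotient_projective`, `vanq_quotient_rank` : for a gluing datum
  `G` over `A`, the module `N₀ ⧸ I_q N₀` is finite projective of rank `m` over `A`.
-/

set_option autoImplicit false
set_option linter.style.haveILetI false
set_option linter.unusedSectionVars false

universe u

open scoped TensorProduct

namespace Fermat.Agent.S25.H446

open Fermat.Agent.S25 Fermat.Agent.S25.H11

variable {k : Type u} [Field k] {B₀ B₁ B₀₁ : Type u} [CommRing B₀] [CommRing B₁] [CommRing B₀₁]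
  [Algebra k B₀] [Algebra k B₁] [Algebra k B₀₁] [Algebra B₀ B₀₁] [Algebra B₁ B₀₁]
  [IsScalarTower k B₀ B₀₁] [IsScalarTower k B₁ B₀₁]
  {x : B₀} {y : B₁} {e : B₁ →ₐ[k] k}

section Generators

variable (A : Type u) [CommRing A] [Algebra k A]

/-- The kernel of `ptHom p A` is the extension of `ker p` along `B₀ → A ⊗[k] B₀`. -/
theorem ker_ptHom_eq_map (p : B₀ →ₐ[k] k) :
    RingHom.ker (ptHom p A) =
      (RingHom.ker p).map (Algebra.TensorProduct.includeRight : B₀ →ₐ[k] A ⊗[k] B₀) :=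
  ker_ptRetr_eq_map A p

/-- `ptIdeal q A` is the extension of the ideal `∏ i, ker (q i)` of `B₀`. -/
theorem ptIdeal_eq_map {m : ℕ} (q : Fin m → (B₀ →ₐ[k] k)) :
    ptIdeal q A =
      (∏ i, RingHom.ker (q i)).map
        (Algebra.TensorProduct.includeRight : B₀ →ₐ[k] A ⊗[k] B₀) :=
  prod_ker_ptRetr_eq_map A q

end Generators

section BaseChange

variable {A A' : Type u} [CommRing A] [Algebra k A] [CommRing A'] [Algebra k A']

/-- **Base change of `ptIdeal`.** -/
theorem ptIdeal_map (ψ : A →ₐ[k] A') {m : ℕ} (q : Fin m → (B₀ →ₐ[k] k)) :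
    (ptIdeal q A).map (tensorMapLeft k ψ B₀) = ptIdeal q A' := by
  rw [ptIdeal_eq_map, ptIdeal_eq_map]
  change Ideal.map (tensorMapLeft k ψ B₀)
      (Ideal.map (Algebra.TensorProduct.includeRight : B₀ →ₐ[k] A ⊗[k] B₀).toRingHom _) =
    Ideal.map (Algebra.TensorProduct.includeRight : B₀ →ₐ[k] A' ⊗[k] B₀).toRingHom _
  rw [Ideal.map_map]
  congr 1
  ext b
  simp [tensorMapLeft]

end BaseChange

section Quotient

variable (A : Type u) [CommRing A] [Algebra k A]

/-- The `A`-algebra isomorphism `A ⊗[k] (B₀ ⧸ ∏ ker (q i)) ≃ (A ⊗[k] B₀) ⧸ ptIdeal q A`. -/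
noncomputable def ptQuotEquiv {m : ℕ} (q : Fin m → (B₀ →ₐ[k] k)) :
    A ⊗[k] (B₀ ⧸ ∏ i, RingHom.ker (q i)) ≃ₐ[A] (A ⊗[k] B₀) ⧸ ptIdeal q A :=
  (Algebra.TensorProduct.tensorQuotientEquiv (R := k) A B₀ A (∏ i, RingHom.ker (q i))).trans
    (Ideal.quotientEquivAlgOfEq A (ptIdeal_eq_map A q).symm)

variable [IsAlgClosed k]

/-- `dim_k B₀ ⧸ ∏ ker (q i) = m`. -/
theorem finrank_quotient_prod_ker_chart (hC : IsCurveChart k B₀ B₁ B₀₁ x y e) {m : ℕ}
    (q : Fin m → (B₀ →ₐ[k] k)) :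
    Module.Finite k (B₀ ⧸ ∏ i, RingHom.ker (q i)) ∧
      Module.finrank k (B₀ ⧸ ∏ i, RingHom.ker (q i)) = m := by
  haveI := H207.isDedekindDomain_chart₀ hC
  exact finrank_quotient_prod_ker (H207.not_isField_chart₀ hC) q

/-- `(A ⊗[k] B₀) ⧸ ptIdeal q A` is a finite `A`-module. -/
theorem ptIdeal_quotient_finite (hC : IsCurveChart k B₀ B₁ B₀₁ x y e) {m : ℕ}
    (q : Fin m → (B₀ →ₐ[k] k)) : Module.Finite A ((A ⊗[k] B₀) ⧸ ptIdeal q A) := by
  haveI := (finrank_quotient_prod_ker_chart hC q).1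
  exact Module.Finite.equiv (ptQuotEquiv A q).toLinearEquiv

/-- `(A ⊗[k] B₀) ⧸ ptIdeal q A` is a free `A`-module. -/
theorem ptIdeal_quotient_free {m : ℕ}
    (q : Fin m → (B₀ →ₐ[k] k)) : Module.Free A ((A ⊗[k] B₀) ⧸ ptIdeal q A) :=
  Module.Free.of_equiv (ptQuotEquiv A q).toLinearEquiv

/-- `(A ⊗[k] B₀) ⧸ ptIdeal q A` has rank `m` over `A`. -/
theorem ptIdeal_quotient_finrank [Nontrivial A] (hC : IsCurveChart k B₀ B₁ B₀₁ x y e) {m : ℕ}
    (q : Fin m → (B₀ →ₐ[k] k)) : Module.finrank A ((A ⊗[k] B₀) ⧸ ptIdeal q A) = m := by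
  haveI := (finrank_quotient_prod_ker_chart hC q).1
  rw [← (ptQuotEquiv A q).toLinearEquiv.finrank_eq, Module.finrank_baseChange,
    (finrank_quotient_prod_ker_chart hC q).2]

/-- **SH2.** `ptIdeal q A` is an `A`-point of the Hilbert functor `Hilb^m` of `B₀`. -/
theorem ptIdeal_isHilb (hC : IsCurveChart k B₀ B₁ B₀₁ x y e) {m : ℕ}
    (q : Fin m → (B₀ →ₐ[k] k)) : H491.IsHilb m (ptIdeal q A) := by
  haveI := ptIdeal_quotient_finite A hC q
  haveI := ptIdeal_quotient_free (k := k) A q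
  refine ⟨inferInstance, inferInstance, fun p => ?_⟩
  haveI : Nontrivial A := p.nontrivial
  rw [Module.rankAtStalk_eq_finrank_of_free]
  exact ptIdeal_quotient_finrank A hC q

/-- **SH2.** `ptIdeal q A` is an invertible `A ⊗[k] B₀`-module. -/
theorem ptIdeal_invertible (hC : IsCurveChart k B₀ B₁ B₀₁ x y e) {m : ℕ}
    (q : Fin m → (B₀ →ₐ[k] k)) : Module.Invertible (A ⊗[k] B₀) (ptIdeal q A) := by
  haveI := ptIdeal_quotient_finite A hC q
  haveI := ptIdeal_quotient_free (k := k) A q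
  exact H851.hilb_invertible A hC (ptIdeal q A)

end Quotient

section QuotInv

variable {A R : Type u} [CommRing A] [CommRing R] [Algebra A R] (I : Ideal R)
  (N : Type u) [AddCommGroup N] [Module R N] [Module A N] [IsScalarTower A R N]

/-- `N ⧸ I N` is an invertible `R ⧸ I`-module if `N` is an invertible `R`-module. -/
theorem invertible_quotient_smul_top [Module.Invertible R N] :
    Module.Invertible (R ⧸ I) (N ⧸ I • (⊤ : Submodule R N)) :=
  Module.Invertible.congr ((TensorProduct.quotTensorEquivQuotSMul N I).extendScalarsOfSurjective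
    Ideal.Quotient.mk_surjective)

/-- The scalar tower `A → R ⧸ I` on `N ⧸ I N`. -/
theorem isScalarTower_quotient_smul_top :
    IsScalarTower A (R ⧸ I) (N ⧸ I • (⊤ : Submodule R N)) := by
  refine ⟨fun a s z => ?_⟩
  obtain ⟨r, rfl⟩ := Ideal.Quotient.mk_surjective s
  obtain ⟨n, rfl⟩ := Submodule.Quotient.mk_surjective _ z
  change (Ideal.Quotient.mk I (a • r)) • Submodule.Quotient.mk n =
    a • ((Ideal.Quotient.mk I r) • Submodule.Quotient.mk n)
  rw [Module.Quotient.mk_smul_mk, Module.Quotient.mk_smul_mk, smul_assoc]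
  rfl

/-- If `R ⧸ I` is finite projective over `A` of rank `m` and `N` is an invertible `R`-module,
then `N ⧸ I N` is finite projective over `A` of rank `m`. -/
theorem quotient_smul_top_of_invertible [Module.Invertible R N] [Module.Finite A (R ⧸ I)]
    [Module.Projective A (R ⧸ I)] :
    Module.Finite A (N ⧸ I • (⊤ : Submodule R N)) ∧
      Module.Projective A (N ⧸ I • (⊤ : Submodule R N)) ∧
      Module.rankAtStalk (R := A) (N ⧸ I • (⊤ : Submodule R N)) =
        Module.rankAtStalk (R := A) (R ⧸ I) := by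
  haveI := invertible_quotient_smul_top I N
  haveI := isScalarTower_quotient_smul_top (A := A) I N
  exact ⟨H11.finite_of_tower A (R ⧸ I) _, H11.projective_of_tower A (R ⧸ I) _,
    H11.rankAtStalk_eq_of_invertible A (R ⧸ I) _⟩

end QuotInv

section Vanq

variable [IsAlgClosed k] {A : Type u} [CommRing A] [Algebra k A]

/-- **SH2.** `N₀ ⧸ I_q N₀` is a finite `A`-module. -/
theorem vanq_quotient_finite (hC : IsCurveChart k B₀ B₁ B₀₁ x y e) {m : ℕ}
    (q : Fin m → (B₀ →ₐ[k] k)) (G : CurveGD k B₀ B₁ B₀₁ A) :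
    Module.Finite A (G.N₀ ⧸ vanq q G) := by
  haveI := G.invertible₀
  haveI := ptIdeal_quotient_finite A hC q
  haveI := ptIdeal_quotient_free (k := k) A q
  exact (quotient_smul_top_of_invertible (A := A) (ptIdeal q A) G.N₀).1

/-- **SH2.** `N₀ ⧸ I_q N₀` is a projective `A`-module. -/
theorem vanq_quotient_projective (hC : IsCurveChart k B₀ B₁ B₀₁ x y e) {m : ℕ}
    (q : Fin m → (B₀ →ₐ[k] k)) (G : CurveGD k B₀ B₁ B₀₁ A) :
    Module.Projective A (G.N₀ ⧸ vanq q G) := by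
  haveI := G.invertible₀
  haveI := ptIdeal_quotient_finite A hC q
  haveI := ptIdeal_quotient_free (k := k) A q
  exact (quotient_smul_top_of_invertible (A := A) (ptIdeal q A) G.N₀).2.1

/-- **SH2.** `N₀ ⧸ I_q N₀` has rank `m` over `A`. -/
theorem vanq_quotient_rank (hC : IsCurveChart k B₀ B₁ B₀₁ x y e) {m : ℕ}
    (q : Fin m → (B₀ →ₐ[k] k)) (G : CurveGD k B₀ B₁ B₀₁ A) (p : PrimeSpectrum A) :
    Module.rankAtStalk (R := A) (G.N₀ ⧸ vanq q G) p = m := by
  haveI := G.invertible₀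
  haveI := ptIdeal_quotient_finite A hC q
  haveI := ptIdeal_quotient_free (k := k) A q
  have h := (quotient_smul_top_of_invertible (A := A) (ptIdeal q A) G.N₀).2.2
  exact (congrFun h p).trans ((ptIdeal_isHilb A hC q).rank p)

end Vanq

end Fermat.Agent.S25.H446

end
-- ===== PACK-END S25/H446/PtIdeal.lean

-- ===== PACK-BEGIN S25/H610/DegreeConst.lean
section
/-
S25, block DEGREE (squad S25/S10), helper610: leaf D9 `exists_locallyConstant_degree` (exact
statement of `H10/DegreeSkel.lean`), leaf D2-b `unit_isBC`, and the adapter piece AD4.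

* `isBaseChange_restrictScalars_of_isPushout` : cancellation of base change along a pushout
  square of rings;
* `exists_equiv_of_isSemilinearBaseChange` : a semilinear base change along `A ⊗ B → A' ⊗ B`
  identifies the target with `A' ⊗[A] -`;
* `exists_cech_square`, `nonempty_equiv_of_baseChangeMaps` (AD4): for a base change `G'` of `G`
  along `φ : A → A'`, `Ȟ⁰(G')` and `Ȟ¹(G')` are the kernel and cokernel of `A' ⊗[A] cech G`;
* `unit_isBC` (D2-b);
* `exists_locallyConstant_euler` : fibrewise `χ` is locally constant on `Spec A` and the fibre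
  cohomology is finite-dimensional;
* `exists_locallyConstant_degree` (D9).
-/




set_option autoImplicit false
set_option linter.style.haveILetI false

universe u

open scoped TensorProduct

namespace Fermat.Agent.S25.H610

open Fermat.Agent.S25

noncomputable section

/-- Cancellation of base change along a pushout square of rings: if `R' = A' ⊗[A] R` and
`f : N → N'` exhibits `N'` as `R' ⊗[R] N`, then `f` exhibits `N'` as `A' ⊗[A] N`. -/
theorem isBaseChange_restrictScalars_of_isPushout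
    (A A' R R' : Type*) [CommRing A] [CommRing A'] [CommRing R] [CommRing R']
    [Algebra A A'] [Algebra A R] [Algebra A' R'] [Algebra R R'] [Algebra A R']
    [IsScalarTower A A' R'] [IsScalarTower A R R'] [Algebra.IsPushout A A' R R']
    {N N' : Type*} [AddCommGroup N] [Module R N] [Module A N] [IsScalarTower A R N]
    [AddCommGroup N'] [Module R' N'] [Module R N'] [IsScalarTower R R' N']
    [Module A' N'] [IsScalarTower A' R' N'] [Module A N'] [IsScalarTower A A' N']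
    [IsScalarTower A R N']
    (f : N →ₗ[R] N') (hf : IsBaseChange R' f) : IsBaseChange A' (f.restrictScalars A) := by
  let e1 : R' ⊗[R] N ≃ₗ[A'] A' ⊗[A] N := Algebra.IsPushout.cancelBaseChange A A' R R' N
  let e2 : R' ⊗[R] N ≃ₗ[A'] N' := hf.equiv.restrictScalars A'
  refine IsBaseChange.of_equiv (e1.symm.trans e2) (fun n => ?_)
  simp [e1, e2, hf.equiv_tmul]

section Semilinear

variable {k : Type u} [Field k] {A A' : Type u} [CommRing A] [Algebra k A] [CommRing A']
  [Algebra k A'] (φ : A →ₐ[k] A') (B : Type u) [CommRing B] [Algebra k B]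
  {N N' : Type u} [AddCommGroup N] [Module (A ⊗[k] B) N] [Module A N]
  [IsScalarTower A (A ⊗[k] B) N]
  [AddCommGroup N'] [Module (A' ⊗[k] B) N'] [Module A' N'] [IsScalarTower A' (A' ⊗[k] B) N']

theorem tensorMapLeft_tmul (a : A) (b : B) :
    tensorMapLeft k φ B (a ⊗ₜ[k] b) = φ a ⊗ₜ[k] b := by
  simp [tensorMapLeft]

/-- A semilinear base change along `A ⊗ B → A' ⊗ B` is a base change along `A → A'`. -/
theorem exists_equiv_of_isSemilinearBaseChange
    (b : N →ₛₗ[tensorMapLeft k φ B] N') (hb : IsSemilinearBaseChange _ b) :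
    letI : Algebra A A' := φ.toRingHom.toAlgebra
    ∃ e : A' ⊗[A] N ≃ₗ[A'] N', ∀ (a' : A') (n : N), e (a' ⊗ₜ[A] n) = a' • b n := by
  letI algAA' : Algebra A A' := φ.toRingHom.toAlgebra
  haveI : IsScalarTower k A A' := IsScalarTower.of_algebraMap_eq (fun r => (φ.commutes r).symm)
  letI algRR' : Algebra (A ⊗[k] B) (A' ⊗[k] B) := (tensorMapLeft k φ B).toAlgebra
  have hρ : ∀ r : A ⊗[k] B, algebraMap (A ⊗[k] B) (A' ⊗[k] B) r = tensorMapLeft k φ B r :=
    fun _ => rfl
  have hφ : ∀ a : A, algebraMap A A' a = φ a := fun _ => rfl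
  haveI : IsScalarTower A (A ⊗[k] B) (A' ⊗[k] B) := IsScalarTower.of_algebraMap_eq (fun a => by
    rw [hρ, Algebra.TensorProduct.algebraMap_apply, Algebra.TensorProduct.algebraMap_apply,
      tensorMapLeft_tmul]
    rfl)
  haveI : Algebra.IsPushout A A' (A ⊗[k] B) (A' ⊗[k] B) :=
    Algebra.IsPushout.tensorProduct_tensorProduct k B A A' (by
      ext s
      simp [hρ, tensorMapLeft_tmul])
  letI : Module (A ⊗[k] B) N' := Module.compHom N' (tensorMapLeft k φ B)
  haveI : IsScalarTower (A ⊗[k] B) (A' ⊗[k] B) N' := ⟨fun r r' n => by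
    change (tensorMapLeft k φ B r * r') • n = tensorMapLeft k φ B r • (r' • n); rw [mul_smul]⟩
  letI : Module A N' := Module.compHom N' φ.toRingHom
  have hA : ∀ (a : A) (n : N'), a • n = φ a • n := fun _ _ => rfl
  have hR : ∀ (r : A ⊗[k] B) (n : N'), r • n = tensorMapLeft k φ B r • n := fun _ _ => rfl
  haveI : IsScalarTower A A' N' := ⟨fun a a' n => by
    rw [hA, Algebra.smul_def, hφ, mul_smul]⟩
  haveI : IsScalarTower A (A ⊗[k] B) N' := ⟨fun a r n => by
    rw [hA, hR, hR, Algebra.smul_def, map_mul, Algebra.TensorProduct.algebraMap_apply,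
      tensorMapLeft_tmul, mul_smul, ← algebraMap_smul (A' ⊗[k] B) (φ a),
      Algebra.TensorProduct.algebraMap_apply]
    rfl⟩
  let f₀ : N →ₗ[A ⊗[k] B] N' :=
    { toFun := fun n => b n
      map_add' := fun m n => b.map_add m n
      map_smul' := fun r n => LinearMap.map_smulₛₗ b r n }
  have hb' : IsBaseChange (A' ⊗[k] B) f₀ := hb
  have h := isBaseChange_restrictScalars_of_isPushout A A' (A ⊗[k] B) (A' ⊗[k] B) f₀ hb'
  exact ⟨h.equiv, fun a' n => by rw [h.equiv_tmul]; rfl⟩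

end Semilinear

section Transport

variable {R : Type*} [CommRing R] {M N M' N' : Type*} [AddCommGroup M] [AddCommGroup N]
  [AddCommGroup M'] [AddCommGroup N'] [Module R M] [Module R N] [Module R M'] [Module R N']

/-- Kernels of maps that correspond under isomorphisms are isomorphic. -/
def kerEquivOfSquare (f : M →ₗ[R] N) (f' : M' →ₗ[R] N') (α : M ≃ₗ[R] M')
    (β : N ≃ₗ[R] N') (h : ∀ x, β (f x) = f' (α x)) :
    LinearMap.ker f ≃ₗ[R] LinearMap.ker f' :=
  LinearEquiv.ofSubmodules α _ _ (by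
    ext y
    simp only [Submodule.mem_map, LinearMap.mem_ker]
    constructor
    · rintro ⟨x, hx, rfl⟩
      rw [LinearEquiv.coe_coe, ← h, hx, map_zero]
    · intro hy
      refine ⟨α.symm y, ?_, by simp⟩
      apply β.injective
      rw [h, map_zero]
      simpa using hy)

/-- Cokernels of maps that correspond under isomorphisms are isomorphic. -/
def cokerEquivOfSquare (f : M →ₗ[R] N) (f' : M' →ₗ[R] N') (α : M ≃ₗ[R] M')
    (β : N ≃ₗ[R] N') (h : ∀ x, β (f x) = f' (α x)) :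
    (N ⧸ LinearMap.range f) ≃ₗ[R] (N' ⧸ LinearMap.range f') :=
  Submodule.Quotient.equiv _ _ β (by
    ext y
    simp only [Submodule.mem_map, LinearMap.mem_range]
    constructor
    · rintro ⟨_, ⟨x, rfl⟩, rfl⟩
      exact ⟨α x, (h x).symm⟩
    · rintro ⟨x', rfl⟩
      refine ⟨f (α.symm x'), ⟨_, rfl⟩, ?_⟩
      rw [LinearEquiv.coe_coe, h]
      simp)

end Transport

section Compare

variable {k : Type u} [Field k] {B₀ B₁ B₀₁ : Type u} [CommRing B₀] [CommRing B₁] [CommRing B₀₁]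
  [Algebra k B₀] [Algebra k B₁] [Algebra k B₀₁] [Algebra B₀ B₀₁] [Algebra B₁ B₀₁]
  [IsScalarTower k B₀ B₀₁] [IsScalarTower k B₁ B₀₁]
  {A A' : Type u} [CommRing A] [Algebra k A] [CommRing A'] [Algebra k A']

/-- **AD4 (square form).** If `G'` is a base change of `G` along `φ : A → A'`, the Čech
differential of `G'` is the base change `A' ⊗[A] -` of the Čech differential of `G`. -/
theorem exists_cech_square (φ : A →ₐ[k] A') {G : CurveGD k B₀ B₁ B₀₁ A}
    {G' : CurveGD k B₀ B₁ B₀₁ A'}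
    (bc : GlueDatum.BaseChangeMaps (tensorMapLeft k φ B₀) (tensorMapLeft k φ B₁)
      (tensorMapLeft k φ B₀₁) G G') :
    letI : Algebra A A' := φ.toRingHom.toAlgebra
    ∃ (E : A' ⊗[A] (G.N₀ × G.N₁) ≃ₗ[A'] (G'.N₀ × G'.N₁))
      (e : A' ⊗[A] G.N₀₁ ≃ₗ[A'] G'.N₀₁),
      (∀ (a' : A') (p : G.N₀ × G.N₁), E (a' ⊗ₜ[A] p) = a' • (bc.b₀ p.1, bc.b₁ p.2)) ∧
      (∀ (a' : A') (n : G.N₀₁), e (a' ⊗ₜ[A] n) = a' • bc.b₀₁ n) ∧
      ∀ t, e (G.cech.baseChange A' t) = G'.cech (E t) := by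
  letI algAA' : Algebra A A' := φ.toRingHom.toAlgebra
  obtain ⟨e₀, he₀⟩ := exists_equiv_of_isSemilinearBaseChange φ B₀ bc.b₀ bc.isBaseChange₀
  obtain ⟨e₁, he₁⟩ := exists_equiv_of_isSemilinearBaseChange φ B₁ bc.b₁ bc.isBaseChange₁
  obtain ⟨e₀₁, he₀₁⟩ := exists_equiv_of_isSemilinearBaseChange φ B₀₁ bc.b₀₁ bc.isBaseChange₀₁
  refine ⟨(TensorProduct.prodRight A A' A' G.N₀ G.N₁).trans (e₀.prodCongr e₁), e₀₁, ?_, he₀₁, ?_⟩
  · intro a' p
    simp [he₀, he₁]
  · intro t
    induction t using TensorProduct.induction_on with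
    | zero => rw [map_zero, map_zero, map_zero, map_zero]
    | add s t hs ht => rw [map_add, map_add, hs, ht, map_add, map_add]
    | tmul a' p =>
      obtain ⟨n₀, n₁⟩ := p
      simp only [LinearMap.baseChange_tmul, he₀₁, LinearEquiv.trans_apply,
        TensorProduct.prodRight_tmul, LinearEquiv.prodCongr_apply, he₀, he₁]
      simp only [GlueDatum.cech, LinearMap.coprod_apply, LinearMap.coe_restrictScalars,
        LinearMap.neg_apply, map_add, map_neg, bc.comm₀, bc.comm₁, smul_add, smul_neg]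
      rw [LinearMap.map_smul_of_tower, LinearMap.map_smul_of_tower]


/-- **AD4.** If `G'` is a base change of `G` along `φ : A → A'`, then `Ȟ⁰(G')` and `Ȟ¹(G')` are
the kernel and the cokernel of the base change of the Čech differential of `G`. -/
theorem nonempty_equiv_of_baseChangeMaps (φ : A →ₐ[k] A') {G : CurveGD k B₀ B₁ B₀₁ A}
    {G' : CurveGD k B₀ B₁ B₀₁ A'}
    (bc : GlueDatum.BaseChangeMaps (tensorMapLeft k φ B₀) (tensorMapLeft k φ B₁)
      (tensorMapLeft k φ B₀₁) G G') :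
    letI : Algebra A A' := φ.toRingHom.toAlgebra
    Nonempty (LinearMap.ker (G.cech.baseChange A') ≃ₗ[A'] G'.H0) ∧
      Nonempty (((A' ⊗[A] G.N₀₁) ⧸ LinearMap.range (G.cech.baseChange A')) ≃ₗ[A'] G'.H1) := by
  letI algAA' : Algebra A A' := φ.toRingHom.toAlgebra
  obtain ⟨E, e, -, -, h⟩ := exists_cech_square φ bc
  exact ⟨⟨kerEquivOfSquare (R := A') (M := A' ⊗[A] (G.N₀ × G.N₁)) (N := A' ⊗[A] G.N₀₁)
      (M' := G'.N₀ × G'.N₁) (N' := G'.N₀₁) (G.cech.baseChange A') G'.cech E e h⟩,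
    ⟨cokerEquivOfSquare (R := A') (M := A' ⊗[A] (G.N₀ × G.N₁)) (N := A' ⊗[A] G.N₀₁)
      (M' := G'.N₀ × G'.N₁) (N' := G'.N₀₁) (G.cech.baseChange A') G'.cech E e h⟩⟩

theorem tensorMapLeft_algebraMap (φ : A →ₐ[k] A') (B B' : Type u) [CommRing B] [CommRing B']
    [Algebra k B] [Algebra k B'] [Algebra B B'] [IsScalarTower k B B'] (s : A ⊗[k] B) :
    tensorMapLeft k φ B' (algebraMap (A ⊗[k] B) (A ⊗[k] B') s) =
      algebraMap (A' ⊗[k] B) (A' ⊗[k] B') (tensorMapLeft k φ B s) := by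
  induction s using TensorProduct.induction_on with
  | zero => simp
  | tmul a b =>
    rw [Fermat.Agent.S25.H250.algebraMap_tensor_tmul, tensorMapLeft_tmul, tensorMapLeft_tmul,
      Fermat.Agent.S25.H250.algebraMap_tensor_tmul]
  | add s t hs ht => rw [map_add, map_add, hs, ht, map_add, map_add]

/-- A ring homomorphism, as a semilinear map, is a semilinear base change of the ring. -/
theorem isSemilinearBaseChange_ringHom {R R' : Type u} [CommRing R] [CommRing R']
    (ρ : R →+* R') : IsSemilinearBaseChange ρ ρ.toSemilinearMap := by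
  letI : Algebra R R' := ρ.toAlgebra
  exact IsBaseChange.linearMap R R'

end Compare

section Degree

open Fermat.Agent.S25.H250 Fermat.Agent.S25.H10

variable {k : Type u} [Field k] {B₀ B₁ B₀₁ : Type u} [CommRing B₀] [CommRing B₁] [CommRing B₀₁]
  [Algebra k B₀] [Algebra k B₁] [Algebra k B₀₁] [Algebra B₀ B₀₁] [Algebra B₁ B₀₁]
  [IsScalarTower k B₀ B₀₁] [IsScalarTower k B₁ B₀₁]
  {x : B₀} {y : B₁} {e : B₁ →ₐ[k] k}

/-- D2-b. The unit datum over `A'` is a base change of the unit datum over `A`. -/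
theorem unit_isBC {A A' : Type u} [CommRing A] [Algebra k A] [CommRing A'] [Algebra k A']
    (φ : A →ₐ[k] A') :
    CurveGD.IsBC (B₀ := B₀) (B₁ := B₁) (B₀₁ := B₀₁) φ
      (GlueDatum.unit A (A ⊗[k] B₀) (A ⊗[k] B₁) (A ⊗[k] B₀₁))
      (GlueDatum.unit A' (A' ⊗[k] B₀) (A' ⊗[k] B₁) (A' ⊗[k] B₀₁)) :=
  ⟨{ b₀ := (tensorMapLeft k φ B₀).toSemilinearMap
     b₁ := (tensorMapLeft k φ B₁).toSemilinearMap
     b₀₁ := (tensorMapLeft k φ B₀₁).toSemilinearMap
     comm₀ := fun s => _root_.Fermat.Agent.S25.H610.tensorMapLeft_algebraMap φ B₀ B₀₁ s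
     comm₁ := fun s => _root_.Fermat.Agent.S25.H610.tensorMapLeft_algebraMap φ B₁ B₀₁ s
     isBaseChange₀ := isSemilinearBaseChange_ringHom _
     isBaseChange₁ := isSemilinearBaseChange_ringHom _
     isBaseChange₀₁ := isSemilinearBaseChange_ringHom _ }⟩

/-- The fibrewise Euler characteristic of a gluing datum on `C_A` is a locally constant function
on `Spec A`, and `Ȟ⁰`, `Ȟ¹` of every fibre are finite-dimensional. -/
theorem exists_locallyConstant_euler (hC : IsCurveChart k B₀ B₁ B₀₁ x y e) {A : Type u}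
    [CommRing A] [Algebra k A] (G : CurveGD k B₀ B₁ B₀₁ A) :
    ∃ χ : PrimeSpectrum A → ℤ, IsLocallyConstant χ ∧
      ∀ (K : Type u) [Field K] [Algebra k K] (φ : A →ₐ[k] K) (G' : CurveGD k B₀ B₁ B₀₁ K),
        CurveGD.IsBC φ G G' →
          Module.Finite K G'.H0 ∧ Module.Finite K G'.H1 ∧
            G'.euler = χ ⟨RingHom.ker φ.toRingHom, RingHom.ker_isPrime _⟩ := by
  obtain ⟨f, hf, hf'⟩ := Fermat.Agent.S25.H850.exists_isLocallyConstant_euler.{u, u, u}
    (chartCechOps hC G) (isFGProj_X0 hC G) (isFGProj_Y1 hC G) (r0_injective hC G)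
    (r1_injective hC G)
  refine ⟨f, hf, ?_⟩
  intro K _ _ φ G' hBC
  letI algAK : Algebra A K := φ.toRingHom.toAlgebra
  obtain ⟨bc⟩ := hBC
  obtain ⟨⟨e1⟩, ⟨e2⟩⟩ := nonempty_equiv_of_baseChangeMaps φ bc
  obtain ⟨h1, h2, h3⟩ := hf' K
  rw [chartCechOps_d_zero] at h1 h2 h3
  refine ⟨Module.Finite.equiv e1, Module.Finite.equiv e2, ?_⟩
  rw [GlueDatum.euler, ← e1.finrank_eq, ← e2.finrank_eq]
  exact h3

/-- **D9.** The fibrewise degree is a locally constant function on `Spec A`. -/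
theorem exists_locallyConstant_degree (hC : IsCurveChart k B₀ B₁ B₀₁ x y e) {A : Type u}
    [CommRing A] [Algebra k A] (G : CurveGD k B₀ B₁ B₀₁ A) :
    ∃ δ : PrimeSpectrum A → ℤ, IsLocallyConstant δ ∧
      ∀ (K : Type u) [Field K] [Algebra k K] (φ : A →ₐ[k] K) (G' : CurveGD k B₀ B₁ B₀₁ K),
        CurveGD.IsBC φ G G' →
          G'.degree = δ ⟨RingHom.ker φ.toRingHom, RingHom.ker_isPrime _⟩ := by
  obtain ⟨f, hf, hf'⟩ := exists_locallyConstant_euler hC G
  obtain ⟨g, hg, hg'⟩ := exists_locallyConstant_euler hC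
    (GlueDatum.unit A (A ⊗[k] B₀) (A ⊗[k] B₁) (A ⊗[k] B₀₁))
  refine ⟨fun p => f p - g p, hf.sub hg, ?_⟩
  intro K _ _ φ G' hBC
  rw [GlueDatum.degree, (hf' K φ G' hBC).2.2, (hg' K φ _ (unit_isBC φ)).2.2]

end Degree

end

end Fermat.Agent.S25.H610

end
-- ===== PACK-END S25/H610/DegreeConst.lean

-- ===== PACK-BEGIN S25/H190/ACDeg1.lean
section
/-
S25, blocks DEGREE (D4) and ALGCHARTS (DEG1), helper190.

* `euler_tcech_succ` / `euler_tcech` : `χ(G(n)) = χ(G) + n d`, in helper11's `tcech`-language;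
* `euler_twistE_nat`, `euler_twistE`, `degree_twistE`, `chartDeg_pos` : D4 (helper10's
  `DegreeSkel.lean`, exact statements);
* `finrank_unit_H1` : `h¹(O_K) = g` (D6-b);
* `finrank_sec` : DEG1, exact statement of helper11's ALGCHARTS skeleton.

Method: the modification `G(n) → G(n+1)` is `(a, b) ↦ (a, y b)` on Čech cochains; its cokernel is
`N₁ / y N₁`, which is free of rank one over the artinian ring `(K ⊗ B₁)/(y)` (the Picard group of
a semilocal ring is trivial), of `K`-dimension `d = dim_k B₁/(y)`; Euler characteristics by the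
five-term sequence `H10.finrank_ker_add_finrank_coker`.
-/








set_option autoImplicit false
set_option linter.style.haveILetI false
set_option linter.unusedSectionVars false
set_option linter.unusedVariables false

universe u

open scoped TensorProduct

namespace Fermat.Agent.S25.H190

open Fermat.Agent.S25 Fermat.Agent.S25.H10 Fermat.Agent.S25.H11

/-! ## Invertible modules modulo an ideal with artinian quotient -/

section Invertible

/-- An invertible module modulo an ideal with semilocal quotient ring is isomorphic to the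
quotient ring. -/
theorem nonempty_quot_smul_equiv {R N : Type u} [CommRing R]
    [AddCommGroup N] [Module R N] [Module.Invertible R N]
    (I : Ideal R) [Finite (MaximalSpectrum (R ⧸ I))] :
    Nonempty ((N ⧸ (I • ⊤ : Submodule R N)) ≃ₗ[R] (R ⧸ I)) := by
  have hfree : Module.Free (R ⧸ I) ((R ⧸ I) ⊗[R] N) := inferInstance
  obtain ⟨e⟩ := (Module.Invertible.free_iff_linearEquiv (R := R ⧸ I)
    (M := (R ⧸ I) ⊗[R] N)).mp hfree
  exact ⟨(TensorProduct.quotTensorEquivQuotSMul N I).symm ≪≫ₗ e.restrictScalars R⟩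

/-- `dim_K N / I N = dim_K R / I` for an invertible `R`-module `N`, when `R / I` is
finite-dimensional over the field `K`. -/
theorem finrank_quot_smul_of_invertible {K R N : Type u} [Field K] [CommRing R] [Algebra K R]
    [AddCommGroup N] [Module R N] [Module K N] [IsScalarTower K R N] [Module.Invertible R N]
    (I : Ideal R) [Module.Finite K (R ⧸ I)] :
    Module.Finite K (N ⧸ (I • ⊤ : Submodule R N)) ∧
      Module.finrank K (N ⧸ (I • ⊤ : Submodule R N)) = Module.finrank K (R ⧸ I) := by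
  haveI : IsArtinianRing (R ⧸ I) := IsArtinianRing.of_finite K (R ⧸ I)
  obtain ⟨e⟩ := nonempty_quot_smul_equiv (N := N) I
  let eK : (N ⧸ (I • ⊤ : Submodule R N)) ≃ₗ[K] (R ⧸ I) := e.restrictScalars K
  exact ⟨Module.Finite.equiv eK.symm, eK.finrank_eq⟩

/-- `dim_K (K ⊗ B)/(1 ⊗ y) = dim_k B/(y)`. -/
theorem finrank_tensor_quot_span_singleton (k K B : Type u) [Field k] [Field K] [Algebra k K]
    [CommRing B] [Algebra k B] (y : B) [Module.Finite k (B ⧸ Ideal.span {y})] :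
    Module.Finite K ((K ⊗[k] B) ⧸ Ideal.span {(1 : K) ⊗ₜ[k] y}) ∧
      Module.finrank K ((K ⊗[k] B) ⧸ Ideal.span {(1 : K) ⊗ₜ[k] y}) =
        Module.finrank k (B ⧸ Ideal.span {y}) := by
  have hI : (Ideal.span {y}).map
      (Algebra.TensorProduct.includeRight (R := k) (A := K) (B := B)) =
      Ideal.span {(1 : K) ⊗ₜ[k] y} := by
    rw [Ideal.map_span, Set.image_singleton]
    rfl
  let E := Algebra.TensorProduct.tensorQuotientEquiv (R := k) K B K (Ideal.span {y})
  rw [← hI]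
  refine ⟨Module.Finite.equiv E.toLinearEquiv, ?_⟩
  rw [← E.toLinearEquiv.finrank_eq, Module.finrank_baseChange]

end Invertible

/-! ## The modification `G(n) → G(n+1)` in operator language -/

section Ops

variable {A : Type u} [CommRing A] {N0 N1 N01 : Type u} [AddCommGroup N0] [AddCommGroup N1]
  [AddCommGroup N01] [Module A N0] [Module A N1] [Module A N01]

/-- The inclusion of cochains `(a, b) ↦ (a, Y₁ b)` of `L(m)` into `L(m+1)`. -/
def twMap (D : CechOps A N0 N1 N01) : (N0 × N1) →ₗ[A] (N0 × N1) :=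
  LinearMap.prodMap LinearMap.id D.Y1

@[simp] theorem twMap_apply (D : CechOps A N0 N1 N01) (p : N0 × N1) :
    twMap D p = (p.1, D.Y1 p.2) := rfl

theorem d_succ_comp_twMap (D : CechOps A N0 N1 N01) (m : ℕ) :
    D.d (m + 1) ∘ₗ twMap D = D.d m := by
  apply LinearMap.ext
  rintro ⟨a, b⟩
  simp only [LinearMap.comp_apply, twMap_apply, CechOps.d_apply]
  rw [D.r1_Y1, pow_succ, Module.End.mul_apply, D.T_Tinv_apply]

theorem twMap_injective (D : CechOps A N0 N1 N01) (h : Function.Injective D.Y1) :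
    Function.Injective (twMap D) := by
  rintro ⟨a, b⟩ ⟨a', b'⟩ hp
  simp only [twMap_apply, Prod.mk.injEq] at hp
  exact Prod.ext hp.1 (h hp.2)

theorem range_twMap (D : CechOps A N0 N1 N01) :
    LinearMap.range (twMap D) =
      (LinearMap.range D.Y1).comap (LinearMap.snd A N0 N1) := by
  ext ⟨a, b⟩
  simp only [LinearMap.mem_range, twMap_apply, Prod.mk.injEq, Submodule.mem_comap,
    LinearMap.snd_apply, Prod.exists]
  constructor
  · rintro ⟨_, b', -, hb⟩
    exact ⟨b', hb⟩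
  · rintro ⟨b', hb⟩
    exact ⟨a, b', rfl, hb⟩

/-- `(N₀ × N₁) / range (twMap) ≃ N₁ / Y₁ N₁`. -/
noncomputable def quotTwMapEquiv (D : CechOps A N0 N1 N01) :
    ((N0 × N1) ⧸ LinearMap.range (twMap D)) ≃ₗ[A] (N1 ⧸ LinearMap.range D.Y1) :=
  Submodule.quotEquivOfEq _ _ (by
    rw [range_twMap, LinearMap.ker_comp, Submodule.ker_mkQ]) ≪≫ₗ
  LinearMap.quotKerEquivOfSurjective
    ((LinearMap.range D.Y1).mkQ ∘ₗ LinearMap.snd A N0 N1)
    (fun q => by
      obtain ⟨b, rfl⟩ := Submodule.mkQ_surjective _ q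
      exact ⟨(0, b), rfl⟩)

end Ops

/-! ## Euler characteristic of twists, operator language, over a field -/

section OpsField

variable {K : Type u} [Field K] {N0 N1 N01 : Type u} [AddCommGroup N0] [AddCommGroup N1]
  [AddCommGroup N01] [Module K N0] [Module K N1] [Module K N01]

theorem finite_H0_ops (D : CechOps K N0 N1 N01) (h0 : IsFGProj D.X0) (h1 : IsFGProj D.Y1)
    (hr0 : Function.Injective D.r0) (hr1 : Function.Injective D.r1) (m : ℕ) :
    Module.Finite K (LinearMap.ker (D.d m)) := by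
  obtain ⟨M, hM, hle⟩ := H850.exists_fg_ge_H0 D h0 h1 hr0 hr1 m
  haveI : Module.Finite K M := Module.Finite.iff_fg.2 hM
  exact Module.Finite.of_injective (Submodule.inclusion hle) (Submodule.inclusion_injective hle)

theorem finite_H1_ops (D : CechOps K N0 N1 N01) (h0 : IsFGProj D.X0) (m : ℕ) :
    Module.Finite K (N01 ⧸ LinearMap.range (D.d m)) :=
  H790.H1_finite D (isFG_of_isFGProj h0) m

/-- One step: `h⁰(m+1) + h¹(m) = h⁰(m) + dim N₁/Y₁N₁ + h¹(m+1)`. -/
theorem finrank_step_ops (D : CechOps K N0 N1 N01) (h0 : IsFGProj D.X0) (h1 : IsFGProj D.Y1)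
    (hr0 : Function.Injective D.r0) (hr1 : Function.Injective D.r1)
    [Module.Finite K (N1 ⧸ LinearMap.range D.Y1)] (m : ℕ) :
    Module.finrank K (LinearMap.ker (D.d (m + 1))) +
        Module.finrank K (N01 ⧸ LinearMap.range (D.d m)) =
      Module.finrank K (LinearMap.ker (D.d m)) +
        Module.finrank K (N1 ⧸ LinearMap.range D.Y1) +
        Module.finrank K (N01 ⧸ LinearMap.range (D.d (m + 1))) := by
  haveI : Module.Finite K (LinearMap.ker (D.d (m + 1))) := finite_H0_ops D h0 h1 hr0 hr1 (m + 1)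
  haveI : Module.Finite K ((N0 × N1) ⧸ LinearMap.range (twMap D)) :=
    Module.Finite.equiv (quotTwMapEquiv D).symm
  haveI : Module.Finite K (N01 ⧸ LinearMap.range (D.d (m + 1) ∘ₗ twMap D)) := by
    rw [d_succ_comp_twMap]
    exact finite_H1_ops D h0 m
  have key := finrank_ker_add_finrank_coker (twMap D) (D.d (m + 1))
    (twMap_injective D (injective_of_isFGProj h1))
  rw [(quotTwMapEquiv D).finrank_eq] at key
  have e1 : Module.finrank K (N01 ⧸ LinearMap.range (D.d (m + 1) ∘ₗ twMap D)) =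
      Module.finrank K (N01 ⧸ LinearMap.range (D.d m)) := by
    rw [d_succ_comp_twMap]
  have e2 : Module.finrank K (LinearMap.ker (D.d (m + 1) ∘ₗ twMap D)) =
      Module.finrank K (LinearMap.ker (D.d m)) := by
    rw [d_succ_comp_twMap]
  rw [e1, e2] at key
  exact key

/-- `χ(m) = χ(0) + m · dim N₁/Y₁N₁`. -/
theorem euler_ops (D : CechOps K N0 N1 N01) (h0 : IsFGProj D.X0) (h1 : IsFGProj D.Y1)
    (hr0 : Function.Injective D.r0) (hr1 : Function.Injective D.r1)
    [Module.Finite K (N1 ⧸ LinearMap.range D.Y1)] (m : ℕ) :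
    (Module.finrank K (LinearMap.ker (D.d m)) : ℤ) -
        (Module.finrank K (N01 ⧸ LinearMap.range (D.d m)) : ℤ) =
      (Module.finrank K (LinearMap.ker (D.d 0)) : ℤ) -
        (Module.finrank K (N01 ⧸ LinearMap.range (D.d 0)) : ℤ) +
        m * (Module.finrank K (N1 ⧸ LinearMap.range D.Y1) : ℤ) := by
  induction m with
  | zero => simp
  | succ m ih =>
    have h := finrank_step_ops D h0 h1 hr0 hr1 m
    have h' : (Module.finrank K (LinearMap.ker (D.d (m + 1))) : ℤ) +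
        (Module.finrank K (N01 ⧸ LinearMap.range (D.d m)) : ℤ) =
      (Module.finrank K (LinearMap.ker (D.d m)) : ℤ) +
        (Module.finrank K (N1 ⧸ LinearMap.range D.Y1) : ℤ) +
        (Module.finrank K (N01 ⧸ LinearMap.range (D.d (m + 1))) : ℤ) := by
      exact_mod_cast h
    push_cast
    linarith

end OpsField

/-! ## Curve charts -/

section Curve

variable {k : Type u} [Field k]
  {B₀ B₁ B₀₁ : Type u} [CommRing B₀] [CommRing B₁] [CommRing B₀₁]
  [Algebra k B₀] [Algebra k B₁] [Algebra k B₀₁] [Algebra B₀ B₀₁] [Algebra B₁ B₀₁]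
  [IsScalarTower k B₀ B₀₁] [IsScalarTower k B₁ B₀₁]
  {x : B₀} {y : B₁} {e : B₁ →ₐ[k] k}

/-- `B₁ / (y)` is finite-dimensional over `k`. -/
theorem finite_quot_y (hC : IsCurveChart k B₀ B₁ B₀₁ x y e) :
    Module.Finite k (B₁ ⧸ Ideal.span {y}) := by
  have h : FiniteDimensional k (B₁ ⧸ (Ideal.span {y}).restrictScalars k) :=
    H565.finiteDimensional_quotient_of_aeval_smul_mem (K := k) (R := B₁) y hC.finite₁
      (N := B₁) ((Ideal.span {y}).restrictScalars k) Polynomial.X Polynomial.X_ne_zero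
      (fun n => by
        rw [Polynomial.aeval_X, Submodule.restrictScalars_mem, smul_eq_mul]
        exact Ideal.mul_mem_right _ _ (Ideal.subset_span rfl))
  exact Module.Finite.equiv (Submodule.Quotient.restrictScalarsEquiv k (Ideal.span {y}))

/-- D4-c. `d > 0`. -/
theorem chartDeg_pos (hC : IsCurveChart k B₀ B₁ B₀₁ x y e) : 0 < chartDeg k y := by
  haveI := finite_quot_y hC
  haveI : Nontrivial (B₁ ⧸ Ideal.span {y}) := by
    refine Ideal.Quotient.nontrivial_iff.mpr ?_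
    intro htop
    have h1 : (1 : B₁) ∈ Ideal.span {y} := by rw [htop]; trivial
    obtain ⟨c, hc⟩ := Ideal.mem_span_singleton'.mp h1
    have := congrArg e hc
    rw [map_mul, hC.e_y, mul_zero, map_one] at this
    exact zero_ne_one this
  exact Module.finrank_pos

variable {K : Type u} [Field K] [Algebra k K]

theorem range_Y1_eq (hC : IsCurveChart k B₀ B₁ B₀₁ x y e) (G : CurveGD k B₀ B₁ B₀₁ K) :
    LinearMap.range (H250.chartCechOps hC G).Y1 =
      ((Ideal.span {yElt k K y} • ⊤ : Submodule (K ⊗[k] B₁) G.N₁)).restrictScalars K := by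
  ext b
  rw [Submodule.restrictScalars_mem, Submodule.ideal_span_singleton_smul,
    Submodule.mem_smul_pointwise_iff_exists, LinearMap.mem_range]
  constructor
  · rintro ⟨c, rfl⟩
    exact ⟨c, Submodule.mem_top, rfl⟩
  · rintro ⟨c, -, rfl⟩
    exact ⟨c, rfl⟩

/-- `dim_K N₁ / y N₁ = d`. -/
theorem finrank_quot_Y1 (hC : IsCurveChart k B₀ B₁ B₀₁ x y e) (G : CurveGD k B₀ B₁ B₀₁ K) :
    Module.Finite K (G.N₁ ⧸ LinearMap.range (H250.chartCechOps hC G).Y1) ∧
      Module.finrank K (G.N₁ ⧸ LinearMap.range (H250.chartCechOps hC G).Y1) =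
        chartDeg k y := by
  haveI := finite_quot_y hC
  obtain ⟨hfin, hrk⟩ := finrank_tensor_quot_span_singleton k K B₁ y
  haveI : Module.Finite K ((K ⊗[k] B₁) ⧸ Ideal.span {yElt k K y}) := hfin
  haveI := G.invertible₁
  obtain ⟨hf2, hr2⟩ := finrank_quot_smul_of_invertible (K := K) (R := K ⊗[k] B₁) (N := G.N₁)
    (Ideal.span {yElt k K y})
  let E : (G.N₁ ⧸ LinearMap.range (H250.chartCechOps hC G).Y1) ≃ₗ[K]
      (G.N₁ ⧸ (Ideal.span {yElt k K y} • ⊤ : Submodule (K ⊗[k] B₁) G.N₁)) :=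
    Submodule.quotEquivOfEq _ _ (range_Y1_eq hC G) ≪≫ₗ
      Submodule.Quotient.restrictScalarsEquiv K _
  refine ⟨Module.Finite.equiv E.symm, ?_⟩
  rw [E.finrank_eq, hr2]
  exact hrk

/-- `χ(G(n)) = χ(G) + n d` in `tcech`-language. -/
theorem euler_tcech (hC : IsCurveChart k B₀ B₁ B₀₁ x y e) (G : CurveGD k B₀ B₁ B₀₁ K)
    (n : ℕ) :
    (Module.finrank K (sec x n G) : ℤ) -
        (Module.finrank K (G.N₀₁ ⧸ LinearMap.range (tcech x n G)) : ℤ) =
      G.euler + n * (chartDeg k y : ℤ) := by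
  obtain ⟨hfin, hrk⟩ := finrank_quot_Y1 hC G
  haveI := hfin
  have h := euler_ops (H250.chartCechOps hC G) (H250.isFGProj_X0 hC G) (H250.isFGProj_Y1 hC G)
    (H250.r0_injective hC G) (H250.r1_injective hC G) n
  rw [hrk, H250.chartCechOps_d_zero hC G, ← tcech_eq_d hC n G] at h
  exact h

/-- `Ȟ⁰(G(n))` is finite-dimensional. -/
theorem finite_sec (hC : IsCurveChart k B₀ B₁ B₀₁ x y e) (G : CurveGD k B₀ B₁ B₀₁ K) (n : ℕ) :
    Module.Finite K (sec x n G) := by
  have h := finite_H0_ops (H250.chartCechOps hC G) (H250.isFGProj_X0 hC G)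
    (H250.isFGProj_Y1 hC G) (H250.r0_injective hC G) (H250.r1_injective hC G) n
  rw [← tcech_eq_d hC n G] at h
  exact h

/-- D4-a for natural twists. -/
theorem euler_twistE_nat (hC : IsCurveChart k B₀ B₁ B₀₁ x y e) (G : CurveGD k B₀ B₁ B₀₁ K)
    (n : ℕ) :
    (twistE x y hC.mul_eq_one G (n : ℤ)).euler = G.euler + n * (chartDeg k y : ℤ) := by
  have h := euler_tcech hC G n
  rw [tcech_eq_twistE_cech hC n G] at h
  exact h

/-- D4-a. `χ(G(n)) = χ(G) + n d`. -/
theorem euler_twistE (hC : IsCurveChart k B₀ B₁ B₀₁ x y e) (G : CurveGD k B₀ B₁ B₀₁ K)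
    (n : ℤ) :
    (twistE x y hC.mul_eq_one G n).euler = G.euler + n * chartDeg k y := by
  obtain ⟨m, rfl | rfl⟩ := Int.eq_nat_or_neg n
  · exact euler_twistE_nat hC G m
  · have h := euler_twistE_nat hC (twistE x y hC.mul_eq_one G (-(m : ℤ))) m
    have h1 := H130.euler_eq_of_isIso (H130.gdTwist_mul G (xUnit x y hC.mul_eq_one K ^ (-(m : ℤ)))
      (xUnit x y hC.mul_eq_one K ^ (m : ℤ)))
    rw [← zpow_add, neg_add_cancel, zpow_zero] at h1
    have h3 := H130.euler_eq_of_isIso (H130.gdTwist_one G)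
    have h2 : (twistE x y hC.mul_eq_one (twistE x y hC.mul_eq_one G (-(m : ℤ))) (m : ℤ)).euler =
        G.euler := h1.trans h3
    rw [h2] at h
    linarith

/-- D4-b. `deg G(n) = deg G + n d`. -/
theorem degree_twistE (hC : IsCurveChart k B₀ B₁ B₀₁ x y e) (G : CurveGD k B₀ B₁ B₀₁ K)
    (n : ℤ) :
    (twistE x y hC.mul_eq_one G n).degree = G.degree + n * chartDeg k y := by
  have h := _root_.Fermat.Agent.S25.H190.euler_twistE hC G n
  unfold GlueDatum.degree
  rw [h]
  ring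

/-- D6-b. `h¹(unit over K) = g`. -/
theorem finrank_H1_unit (hC : IsCurveChart k B₀ B₁ B₀₁ x y e)
    (K : Type u) [Field K] [Algebra k K] :
    Module.finrank K (GlueDatum.unit K (K ⊗[k] B₀) (K ⊗[k] B₁) (K ⊗[k] B₀₁)).H1 =
      genus k B₀ B₁ B₀₁ :=
  (H310.unitBCMaps (k := k) (A := k) (A' := K) (B₀ := B₀) (B₁ := B₁)
    (B₀₁ := B₀₁)).finrank_H1_eq

/-! ### With `k` algebraically closed: Riemann–Roch bookkeeping -/

section AlgClosed

variable [IsAlgClosed k]

/-- D6-a. `Ȟ⁰(unit) = K`. -/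
theorem finrank_H0_unit (hC : IsCurveChart k B₀ B₁ B₀₁ x y e)
    (K : Type u) [Field K] [Algebra k K] :
    Module.finrank K (GlueDatum.unit K (K ⊗[k] B₀) (K ⊗[k] B₁) (K ⊗[k] B₀₁)).H0 = 1 :=
  H671.finrank_unit_H0 hC K

/-- D6-c. `χ(G) = deg G + 1 - g`. -/
theorem euler_eq_degree (hC : IsCurveChart k B₀ B₁ B₀₁ x y e)
    {K : Type u} [Field K] [Algebra k K] (G : CurveGD k B₀ B₁ B₀₁ K) :
    G.euler = G.degree + 1 - genus k B₀ B₁ B₀₁ := by
  have h := H671.euler_unit hC K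
  rw [finrank_H1_unit hC K] at h
  unfold GlueDatum.degree
  rw [h]
  ring

/-- D6-d. Riemann inequality. -/
theorem riemann_inequality (hC : IsCurveChart k B₀ B₁ B₀₁ x y e)
    {K : Type u} [Field K] [Algebra k K] (G : CurveGD k B₀ B₁ B₀₁ K) :
    G.degree + 1 - genus k B₀ B₁ B₀₁ ≤ Module.finrank K G.H0 := by
  have h := euler_eq_degree hC G
  unfold GlueDatum.euler at h
  have h1 : (0 : ℤ) ≤ (Module.finrank K G.H1 : ℤ) := Int.natCast_nonneg _
  linarith

/-- DEG1 (`χ(G(nE₀)) = χ(G) + n d`, `χ(O_K) = 1 - g`): if `deg G = 0` and `H¹(G(nE₀)) = 0` then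
`dim H⁰(G(nE₀)) = n d + 1 - g`. -/
theorem finrank_sec (hC : IsCurveChart k B₀ B₁ B₀₁ x y e) (G : CurveGD k B₀ B₁ B₀₁ K)
    (hdeg : G.degree = 0) (n : ℕ) (h0 : P0 x n G) :
    Module.Finite K (sec x n G) ∧
      Module.finrank K (sec x n G) +
          Module.finrank k (GlueDatum.unit k (k ⊗[k] B₀) (k ⊗[k] B₁) (k ⊗[k] B₀₁)).H1 =
        n * Module.finrank k (B₁ ⧸ Ideal.span {y}) + 1 := by
  refine ⟨finite_sec hC G n, ?_⟩
  have h := euler_tcech hC G n
  have hE := euler_eq_degree hC G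
  rw [hdeg] at hE
  have hH1 : Module.finrank K (G.N₀₁ ⧸ LinearMap.range (tcech x n G)) = 0 := by
    have htop : LinearMap.range (tcech x n G) = ⊤ := LinearMap.range_eq_top.mpr h0
    rw [htop]
    exact Module.finrank_zero_of_subsingleton
  rw [hH1, hE] at h
  have hg : (genus k B₀ B₁ B₀₁ : ℤ) =
      (Module.finrank k (GlueDatum.unit k (k ⊗[k] B₀) (k ⊗[k] B₁) (k ⊗[k] B₀₁)).H1 : ℤ) := rfl
  have hd : (chartDeg k y : ℤ) = (Module.finrank k (B₁ ⧸ Ideal.span {y}) : ℤ) := rfl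
  rw [hg, hd] at h
  simp only [Nat.cast_zero, sub_zero, zero_add] at h
  have key : ((Module.finrank K (sec x n G) +
      Module.finrank k (GlueDatum.unit k (k ⊗[k] B₀) (k ⊗[k] B₁) (k ⊗[k] B₀₁)).H1 : ℕ) : ℤ) =
      ((n * Module.finrank k (B₁ ⧸ Ideal.span {y}) + 1 : ℕ) : ℤ) := by
    push_cast
    linarith
  exact_mod_cast key

end AlgClosed

end Curve

end Fermat.Agent.S25.H190

end
-- ===== PACK-END S25/H190/ACDeg1.lean

-- ===== PACK-BEGIN S25/H971/ACCov1.lean
section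








/-!
# S25 / ALGCHARTS / COVER, sub-leaf COV1: points over a field

For a curve chart, a field `K ⊇ k` and a gluing datum `G` over `K` (of degree `0`) there are a
twist `n` and distinct `k`-points `q₁, …, q_m` of `Spec B₀`, `m + g = n d`, such that `G`
satisfies the chart condition `P2 x y n q G`: `H¹(G(nE₀ - Σq)) = 0`, and `H⁰(G(nE₀ - Σq))` is a
line spanned by a section which does not vanish on `E₀ = {y = 0}`.

The inputs from block DEGREE (`DEG1 = finrank_sec`, `DEG3 = exists_P0`) are hypotheses, in the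
shape of the squad skeleton.
-/

set_option autoImplicit false
set_option linter.style.haveILetI false
set_option linter.unusedSectionVars false

universe u

open scoped TensorProduct

namespace Fermat.Agent.S25.H971

open Fermat.Agent.S25 Fermat.Agent.S25.H11

variable {k : Type u} [Field k] [IsAlgClosed k]
  {B₀ B₁ B₀₁ : Type u} [CommRing B₀] [CommRing B₁] [CommRing B₀₁]
  [Algebra k B₀] [Algebra k B₁] [Algebra k B₀₁] [Algebra B₀ B₀₁] [Algebra B₁ B₀₁]
  [IsScalarTower k B₀ B₀₁] [IsScalarTower k B₁ B₀₁]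
  {x : B₀} {y : B₁} {e : B₁ →ₐ[k] k}

section AnyBase

variable {A : Type u} [CommRing A] [Algebra k A]

omit [IsAlgClosed k] in
/-- `(1 ⊗ x) (1 ⊗ y) = 1` in `A ⊗ B₀₁`. -/
theorem xElt_mul_yElt (hC : IsCurveChart k B₀ B₁ B₀₁ x y e) :
    xElt k B₀₁ A x * algebraMap (A ⊗[k] B₁) (A ⊗[k] B₀₁) (yElt k A y) = 1 := by
  rw [xElt, yElt, algebraMap_tensor_tmul, Algebra.TensorProduct.tmul_mul_tmul, one_mul,
    hC.mul_eq_one]
  rfl

omit [IsAlgClosed k] in
/-- `r₁ (y • b) = (1 ⊗ y) • r₁ b`. -/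
theorem r₁_yElt_smul (G : CurveGD k B₀ B₁ B₀₁ A) (b : G.N₁) :
    G.r₁ (yElt k A y • b) = algebraMap (A ⊗[k] B₁) (A ⊗[k] B₀₁) (yElt k A y) • G.r₁ b := by
  rw [map_smul, algebraMap_smul]

omit [IsAlgClosed k] in
/-- If `H¹(G(nE₀)) = 0` then `H⁰(G((n+1)E₀)) → N₁ / y N₁` is onto. -/
theorem exists_sec_succ_sub_mem (hC : IsCurveChart k B₀ B₁ B₀₁ x y e)
    (G : CurveGD k B₀ B₁ B₀₁ A) (n : ℕ) (h0 : P0 x n G) (c : G.N₁) :
    ∃ s ∈ sec x (n + 1) G,
      s.2 - c ∈ (Ideal.span {yElt k A y} • ⊤ : Submodule (A ⊗[k] B₁) G.N₁) := by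
  obtain ⟨p, hp⟩ := h0 (xElt k B₀₁ A x ^ (n + 1) • G.r₁ c)
  rw [tcech_apply] at hp
  refine ⟨(p.1, yElt k A y • p.2 + c), ?_, ?_⟩
  · rw [mem_sec]
    show G.r₀ p.1 = xElt k B₀₁ A x ^ (n + 1) • G.r₁ (yElt k A y • p.2 + c)
    rw [map_add, r₁_yElt_smul, smul_add, smul_smul, pow_succ, mul_assoc, xElt_mul_yElt hC,
      mul_one, ← pow_succ, ← hp]
    abel
  · show yElt k A y • p.2 + c - c ∈ _
    rw [add_sub_cancel_right]
    exact Submodule.smul_mem_smul (Ideal.mem_span_singleton_self _) Submodule.mem_top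

end AnyBase

section Field

variable {K : Type u} [Field K] [Algebra k K]

omit [IsAlgClosed k] in
theorem ptHom_surjective (q : B₀ →ₐ[k] k) : Function.Surjective (ptHom q K) :=
  fun c => ⟨algebraMap K (K ⊗[k] B₀) c, by simp⟩

omit [IsAlgClosed k] in
theorem ker_ptHom_isMaximal (q : B₀ →ₐ[k] k) : (RingHom.ker (ptHom q K)).IsMaximal :=
  RingHom.ker_isMaximal_of_surjective (ptHom q K) (ptHom_surjective q)

omit [IsAlgClosed k] in
/-- A `k`-point is determined by the maximal ideal of its base change to `K`. -/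
theorem ker_ptHom_injective :
    Function.Injective (fun q : B₀ →ₐ[k] k => RingHom.ker (ptHom q K)) := by
  intro q q' h
  refine AlgHom.ext fun b => ?_
  have h1 : ((1 : K) ⊗ₜ[k] b - (algebraMap k K (q b)) ⊗ₜ[k] (1 : B₀) : K ⊗[k] B₀) ∈
      RingHom.ker (ptHom q K) := by
    rw [RingHom.mem_ker, map_sub, ptHom_tmul, ptHom_tmul]
    simp
  have h2 : ((1 : K) ⊗ₜ[k] b - (algebraMap k K (q b)) ⊗ₜ[k] (1 : B₀) : K ⊗[k] B₀) ∈
      RingHom.ker (ptHom q' K) := by
    have h' : RingHom.ker (ptHom q K) = RingHom.ker (ptHom q' K) := h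
    rw [← h']; exact h1
  rw [RingHom.mem_ker, map_sub, ptHom_tmul, ptHom_tmul] at h2
  simp only [one_mul, map_one, mul_one, sub_eq_zero] at h2
  exact ((algebraMap k K).injective h2).symm

omit [IsAlgClosed k] in
/-- `1 ⊗ y` is not a unit of `K ⊗ B₁`. -/
theorem span_yElt_ne_top (hC : IsCurveChart k B₀ B₁ B₀₁ x y e) :
    (Ideal.span {yElt k K y} : Ideal (K ⊗[k] B₁)) ≠ ⊤ := by
  intro h
  rw [Ideal.span_singleton_eq_top] at h
  have h1 : IsUnit (epsHom e K (yElt k K y)) := h.map (epsHom e K)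
  have h2 : epsHom e K (yElt k K y) = 0 := by
    simp [yElt, epsHom, Algebra.ofId_apply, hC.e_y]
  rw [h2] at h1
  exact not_isUnit_zero h1

/-- `1 ⊗ y ≠ 0` in `K ⊗ B₁`. -/
theorem yElt_ne_zero (hC : IsCurveChart k B₀ B₁ B₀₁ x y e) : yElt k K y ≠ 0 := by
  intro h
  haveI := H207.isDomain_tensor_chart₀₁ hC K
  have h1 := xElt_mul_yElt (A := K) hC
  rw [h, map_zero, mul_zero] at h1
  exact zero_ne_one h1

/-- `1 ⊗ x` acts injectively on `N₀₁`. -/
theorem xElt_pow_smul_injective (hC : IsCurveChart k B₀ B₁ B₀₁ x y e)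
    (G : CurveGD k B₀ B₁ B₀₁ K) (n : ℕ) {z : G.N₀₁} (hz : xElt k B₀₁ K x ^ n • z = 0) :
    z = 0 := by
  have h1 := xElt_mul_yElt (A := K) hC
  have h2 : (algebraMap (K ⊗[k] B₁) (K ⊗[k] B₀₁) (yElt k K y) ^ n * xElt k B₀₁ K x ^ n) • z
      = z := by
    rw [← mul_pow, mul_comm, h1, one_pow, one_smul]
  rw [← h2, mul_smul, hz, smul_zero]

/-- A section of `G(nE₀)` whose first component vanishes is zero. -/
theorem eq_zero_of_fst_eq_zero (hC : IsCurveChart k B₀ B₁ B₀₁ x y e)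
    (G : CurveGD k B₀ B₁ B₀₁ K) {n : ℕ} {v : G.N₀ × G.N₁} (hv : v ∈ sec x n G)
    (h : v.1 = 0) : v = 0 := by
  rw [mem_sec, h, map_zero] at hv
  have h1 : G.r₁ v.2 = 0 := xElt_pow_smul_injective hC G n hv.symm
  have h2 : v.2 = 0 := H250.r1_injective hC G (by rw [map_zero]; exact h1)
  exact Prod.ext h h2

/-- The fibre of `N₀` at the `k`-point `q`. -/
abbrev fibre₀ (G : CurveGD k B₀ B₁ B₀₁ K) (q : B₀ →ₐ[k] k) : Type u :=
  G.N₀ ⧸ (RingHom.ker (ptHom q K) • ⊤ : Submodule (K ⊗[k] B₀) G.N₀)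

/-- Evaluation of sections of `G(nE₀)` at the `k`-point `q`. -/
def evSec (x : B₀) (n : ℕ) (G : CurveGD k B₀ B₁ B₀₁ K) (q : B₀ →ₐ[k] k) :
    sec x n G →ₗ[K] fibre₀ G q :=
  (((RingHom.ker (ptHom q K) • ⊤ : Submodule (K ⊗[k] B₀) G.N₀).mkQ.restrictScalars K).comp
    (LinearMap.fst K G.N₀ G.N₁)).comp (sec x n G).subtype

omit [IsAlgClosed k] in
theorem evSec_eq_zero_iff {n : ℕ} {G : CurveGD k B₀ B₁ B₀₁ K} {q : B₀ →ₐ[k] k}
    (v : sec x n G) :
    evSec x n G q v = 0 ↔
      v.1.1 ∈ (RingHom.ker (ptHom q K) • ⊤ : Submodule (K ⊗[k] B₀) G.N₀) := by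
  show (RingHom.ker (ptHom q K) • ⊤ : Submodule (K ⊗[k] B₀) G.N₀).mkQ v.1.1 = 0 ↔ _
  rw [Submodule.mkQ_apply, Submodule.Quotient.mk_eq_zero]

omit [IsAlgClosed k] in
theorem finrank_fibre₀ (G : CurveGD k B₀ B₁ B₀₁ K) (q : B₀ →ₐ[k] k) :
    Module.finrank K (fibre₀ G q) = 1 := by
  haveI := G.invertible₀
  exact finrank_quotient_ker_smul_top (N := G.N₀) (ptHom q K)

/-- The sections of `G(nE₀)` vanishing at a maximal ideal `P` of `K ⊗ B₁`. -/
def vanAt (x : B₀) (n : ℕ) (G : CurveGD k B₀ B₁ B₀₁ K) (P : Ideal (K ⊗[k] B₁)) :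
    Submodule K (sec x n G) :=
  (((P • ⊤ : Submodule (K ⊗[k] B₁) G.N₁).restrictScalars K).comap
    (LinearMap.snd K G.N₀ G.N₁)).comap (sec x n G).subtype

omit [IsAlgClosed k] in
theorem mem_vanAt {n : ℕ} {G : CurveGD k B₀ B₁ B₀₁ K} {P : Ideal (K ⊗[k] B₁)}
    (v : sec x n G) :
    v ∈ vanAt x n G P ↔ v.1.2 ∈ (P • ⊤ : Submodule (K ⊗[k] B₁) G.N₁) := Iff.rfl

/-- A nonzero section of `G(nE₀)` vanishes at finitely many `k`-points. -/
theorem finite_setOf_evSec_eq_zero (hC : IsCurveChart k B₀ B₁ B₀₁ x y e)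
    (G : CurveGD k B₀ B₁ B₀₁ K) (n : ℕ) (v : sec x n G) (hv : v ≠ 0) :
    {q : B₀ →ₐ[k] k | evSec x n G q v = 0}.Finite := by
  haveI := G.invertible₀
  haveI := H207.isDedekindDomain_tensor_chart₀ hC K
  have ha : v.1.1 ≠ 0 := fun h => hv (Subtype.ext (eq_zero_of_fst_eq_zero hC G v.2 h))
  have hfin := H687.finite_zeros_of_section (B := K ⊗[k] B₀) (N := G.N₀) ha
  have := hfin.preimage (f := fun q : B₀ →ₐ[k] k => RingHom.ker (ptHom q K))
    (ker_ptHom_injective.injOn)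
  refine this.subset ?_
  intro q hq
  rw [Set.mem_ofPred_eq, evSec_eq_zero_iff] at hq
  exact ⟨ker_ptHom_isMaximal q, hq⟩

/-- The sections vanishing at a point of `E₀` form a proper subspace, if `H¹(G((n-1)E₀)) = 0`. -/
theorem vanAt_ne_top (hC : IsCurveChart k B₀ B₁ B₀₁ x y e)
    (G : CurveGD k B₀ B₁ B₀₁ K) (n : ℕ) (h0 : P0 x n G) (P : Ideal (K ⊗[k] B₁))
    (hP : P.IsMaximal) (hy : yElt k K y ∈ P) : vanAt x (n + 1) G P ≠ ⊤ := by
  haveI := G.invertible₁
  haveI : Nontrivial (K ⊗[k] B₁) := ⟨⟨0, 1, fun h => hP.ne_top (by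
    rw [Ideal.eq_top_iff_one, ← h]; exact P.zero_mem)⟩⟩
  intro h
  apply smul_top_ne_top_of_invertible (N := G.N₁) hP.ne_top
  rw [eq_top_iff]
  intro c _
  obtain ⟨s, hs, hsc⟩ := exists_sec_succ_sub_mem hC G n h0 c
  have h1 : (⟨s, hs⟩ : sec x (n + 1) G) ∈ vanAt x (n + 1) G P := by rw [h]; exact Submodule.mem_top
  rw [mem_vanAt] at h1
  have h2 : s.2 - c ∈ (P • ⊤ : Submodule (K ⊗[k] B₁) G.N₁) :=
    Submodule.smul_mono_left ((Ideal.span_singleton_le_iff_mem P).mpr hy) hsc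
  have : c = s.2 - (s.2 - c) := by abel
  rw [this]
  exact Submodule.sub_mem _ h1 h2

omit [IsAlgClosed k] in
/-- Distinct `k`-points have coprime ideals. -/
theorem pairwise_isCoprime_ker_ptHom {m : ℕ} (q : Fin m → (B₀ →ₐ[k] k))
    (hq : Function.Injective q) :
    ((Finset.univ : Finset (Fin m)) : Set (Fin m)).Pairwise
      (fun i j => IsCoprime (RingHom.ker (ptHom (q i) K)) (RingHom.ker (ptHom (q j) K))) := by
  intro i _ j _ hij
  haveI := ker_ptHom_isMaximal (K := K) (q i)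
  haveI := ker_ptHom_isMaximal (K := K) (q j)
  exact Ideal.isCoprime_of_isMaximal fun h => hij (hq (ker_ptHom_injective h))

omit [IsAlgClosed k] in
/-- Vanishing on `Σ q i` is vanishing at every `q i` (distinct points). -/
theorem mem_vanq_iff {m : ℕ} (q : Fin m → (B₀ →ₐ[k] k)) (hq : Function.Injective q)
    (G : CurveGD k B₀ B₁ B₀₁ K) (a : G.N₀) :
    a ∈ vanq q G ↔
      ∀ i, a ∈ (RingHom.ker (ptHom (q i) K) • ⊤ : Submodule (K ⊗[k] B₀) G.N₀) := by
  constructor
  · intro h i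
    exact mem_smul_top_of_mem_prod_smul_top Finset.univ _ a h (Finset.mem_univ i)
  · intro h
    exact mem_prod_smul_top_of_forall_mem Finset.univ _ (pairwise_isCoprime_ker_ptHom q hq) a
      (fun i _ => h i)

/-- **COV1.** Over a field, a gluing datum satisfies the chart condition `P2` for a suitable
twist `n` and suitable distinct `k`-points `q`, with `m + g = n d`.  The DEGREE inputs `DEG3`
(`hP0`) and `DEG1` (`hdim`) are hypotheses. -/
theorem cov1 (hC : IsCurveChart k B₀ B₁ B₀₁ x y e) (G : CurveGD k B₀ B₁ B₀₁ K)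
    (hP0 : ∃ n₀ : ℕ, ∀ n, n₀ ≤ n → P0 x n G)
    (hdim : ∀ n, P0 x n G → Module.Finite K (sec x n G) ∧
      Module.finrank K (sec x n G) +
          Module.finrank k (GlueDatum.unit k (k ⊗[k] B₀) (k ⊗[k] B₁) (k ⊗[k] B₀₁)).H1 =
        n * Module.finrank k (B₁ ⧸ Ideal.span {y}) + 1) :
    ∃ (n m : ℕ) (q : Fin m → (B₀ →ₐ[k] k)), Function.Injective q ∧
      m + Module.finrank k (GlueDatum.unit k (k ⊗[k] B₀) (k ⊗[k] B₁) (k ⊗[k] B₀₁)).H1 =
        n * Module.finrank k (B₁ ⧸ Ideal.span {y}) ∧ P2 x y n q G := by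
  classical
  haveI := G.invertible₀
  haveI := G.invertible₁
  obtain ⟨n₀, hn₀⟩ := hP0
  have h0 : P0 x n₀ G := hn₀ n₀ le_rfl
  have h1 : P0 x (n₀ + 1) G := hn₀ (n₀ + 1) (Nat.le_succ n₀)
  obtain ⟨hfin, hrk⟩ := hdim (n₀ + 1) h1
  haveI : Module.Finite K (sec x (n₀ + 1) G) := hfin
  haveI hdom₁ := H207.isDedekindDomain_tensor_chart₁ hC K
  haveI : Nontrivial (K ⊗[k] B₁) := inferInstance
  -- the space of sections is nonzero
  have hpos : 0 < Module.finrank K (sec x (n₀ + 1) G) := by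
    rw [Module.finrank_pos_iff_exists_ne_zero]
    by_contra hcon
    push Not at hcon
    apply smul_top_ne_top_of_invertible (N := G.N₁) (span_yElt_ne_top (K := K) hC)
    rw [eq_top_iff]
    intro c _
    obtain ⟨s, hs, hsc⟩ := exists_sec_succ_sub_mem hC G n₀ h0 c
    have hs0 : s = 0 := congrArg Subtype.val (hcon ⟨s, hs⟩)
    rw [hs0] at hsc
    have : c = -((0 : G.N₀ × G.N₁).2 - c) := by simp
    rw [this]
    exact Submodule.neg_mem _ hsc
  obtain ⟨m, hm⟩ : ∃ m, Module.finrank K (sec x (n₀ + 1) G) = m + 1 :=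
    ⟨Module.finrank K (sec x (n₀ + 1) G) - 1, by omega⟩
  -- infinitely many points
  haveI := hC.isDomain₀
  haveI := H207.finiteType_chart₀ hC
  haveI : Infinite (B₀ →ₐ[k] k) := H687.infinite_algHom k (H207.not_isField_chart₀ hC)
  -- the finitely many points of `E₀`
  have hfinE : {P : Ideal (K ⊗[k] B₁) | P.IsMaximal ∧ yElt k K y ∈ P}.Finite :=
    H687.finite_setOf_isMaximal_mem (yElt_ne_zero (K := K) hC)
  haveI : Finite {P : Ideal (K ⊗[k] B₁) | P.IsMaximal ∧ yElt k K y ∈ P} := hfinE.to_subtype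
  obtain ⟨q, hqinj, -, s, hs0, hs, hsH, hsurj⟩ :=
    H791.exists_points_line_of_finrank_eq_one (K := K) (V := sec x (n₀ + 1) G)
      (Q := B₀ →ₐ[k] k) (L := fun q => fibre₀ G q) (fun q => evSec x (n₀ + 1) G q)
      (fun P : {P : Ideal (K ⊗[k] B₁) | P.IsMaximal ∧ yElt k K y ∈ P} =>
        vanAt x (n₀ + 1) G P.1)
      (fun q => finrank_fibre₀ G q)
      (fun v hv => finite_setOf_evSec_eq_zero hC G (n₀ + 1) v hv)
      (fun P => vanAt_ne_top hC G n₀ h0 P.1 P.2.1 P.2.2) m hm ∅ Set.finite_empty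
  refine ⟨n₀ + 1, m, q, hqinj, by omega, ⟨h1, fun a => ?_⟩, s.1, ?_, ?_, ?_⟩
  · -- surjectivity onto `N₀ / I_q N₀`
    obtain ⟨v, hv⟩ := hsurj (fun i =>
      (RingHom.ker (ptHom (q i) K) • ⊤ : Submodule (K ⊗[k] B₀) G.N₀).mkQ a)
    refine ⟨v.1, v.2, ?_⟩
    rw [mem_vanq_iff q hqinj]
    intro i
    have hvi := congrFun hv i
    have : (RingHom.ker (ptHom (q i) K) • ⊤ : Submodule (K ⊗[k] B₀) G.N₀).mkQ v.1.1 =
        (RingHom.ker (ptHom (q i) K) • ⊤ : Submodule (K ⊗[k] B₀) G.N₀).mkQ a := hvi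
    rw [← sub_eq_zero, ← map_sub, Submodule.mkQ_apply, Submodule.Quotient.mk_eq_zero] at this
    rw [← Submodule.neg_mem_iff]
    simpa using this
  · -- `s ∈ secq`
    refine ⟨s.2, ?_⟩
    show s.1.1 ∈ vanq q G
    rw [mem_vanq_iff q hqinj]
    intro i
    rw [← evSec_eq_zero_iff]
    exact (hs s).mpr (Submodule.mem_span_singleton_self s) i
  · -- `secq = K s`
    intro t ht
    have ht' : ∀ i, evSec x (n₀ + 1) G (q i) ⟨t, ht.1⟩ = 0 := by
      intro i
      rw [evSec_eq_zero_iff]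
      exact (mem_vanq_iff q hqinj G t.1).mp ht.2 i
    obtain ⟨a, ha⟩ := Submodule.mem_span_singleton.mp ((hs ⟨t, ht.1⟩).mp ht')
    exact ⟨a, (congrArg Subtype.val ha).symm⟩
  · -- `s` does not vanish on `E₀`
    intro c
    have htop := span_sup_smul_top_eq_top (N := G.N₁) (I := Ideal.span {yElt k K y})
      (s := s.1.2) (fun P hP hIP => by
        have hy : yElt k K y ∈ P := hIP (Ideal.mem_span_singleton_self _)
        exact fun hmem => hsH ⟨P, hP, hy⟩ ((mem_vanAt s).mpr hmem))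
    have hc : c ∈ Submodule.span (K ⊗[k] B₁) {s.1.2} ⊔
        (Ideal.span {yElt k K y} • ⊤ : Submodule (K ⊗[k] B₁) G.N₁) := by
      rw [htop]; exact Submodule.mem_top
    obtain ⟨w, hw, z, hz, rfl⟩ := Submodule.mem_sup.mp hc
    obtain ⟨r, rfl⟩ := Submodule.mem_span_singleton.mp hw
    exact ⟨r, by rw [add_sub_cancel_left]; exact hz⟩

end Field

end Fermat.Agent.S25.H971

end
-- ===== PACK-END S25/H971/ACCov1.lean

-- ===== PACK-BEGIN S26/Ample/H277/Finite.lean
section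



/-!
# S26 / AMPLE / A4-a FINITE (helper277): adapter from leaf B2 (helper87)

`finiteStatement : FiniteStatement K` : on an integral scheme proper over a field, the function
field is finite over the field generated by the affine coordinates of a good system `v` with
`v 0 ≠ 0`.  Proof: `H87.exists_finite_of_bpf` (`Γ(D_0(v))` is a finite module over
`K[X_1, …, X_g]`, `X_i ↦ v_i / v_0`) and `K(X) = Frac Γ(D_0(v))`.

Consequence: `project : Ample.Stmt.Project K` (unconditional) and `project926`.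
-/

set_option autoImplicit false
set_option linter.style.haveILetI false
universe u

open CategoryTheory CategoryTheory.Limits AlgebraicGeometry NeronModelInfra GoodReductionJacobian

namespace Fermat.Agent.S26.Ample.H277

open Fermat.Agent.S26 Fermat.Agent.S26.H277

noncomputable section

variable {K : Type u} [Field K]

/-- At a point whose local ring maps onto the function field, every nonzero member generates. -/
theorem genAt_of_surjective {X : Scheme.{u}} [IsIntegral X] {ι : Type} (v : ι → X.functionField)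
    (x : X) (hsurj : Function.Surjective (algebraMap (X.presheaf.stalk x) X.functionField))
    (b : ι) (hb : v b ≠ 0) : LS.GenAt v x b := by
  refine ⟨hb, ?_⟩
  have htop : Submodule.span (X.presheaf.stalk x) {v b} = ⊤ := by
    rw [eq_top_iff]
    intro y _
    obtain ⟨r, hr⟩ := hsurj (y / v b)
    exact Submodule.mem_span_singleton.mpr
      ⟨r, by rw [Algebra.smul_def, hr, div_mul_cancel₀ _ hb]⟩
  rw [htop, LS.span, eq_top_iff, ← htop]
  exact Submodule.span_mono (Set.singleton_subset_iff.mpr ⟨b, rfl⟩)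

theorem surjective_algebraMap_of_isField {X : Scheme.{u}} [IsIntegral X] (x : X)
    (h : IsField (X.presheaf.stalk x)) :
    Function.Surjective (algebraMap (X.presheaf.stalk x) X.functionField) :=
  (IsFractionRing.surjective_iff_isField (R := X.presheaf.stalk x)
    (K := X.functionField)).mpr h

/-- At the generic point every nonzero member generates. -/
theorem genAt_genericPoint {X : Scheme.{u}} [IsIntegral X] {ι : Type} (v : ι → X.functionField)
    (b : ι) (hb : v b ≠ 0) : LS.GenAt v (genericPoint X) b :=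
  genAt_of_surjective v (genericPoint X)
    (surjective_algebraMap_of_isField (genericPoint X) (Field.toIsField X.functionField)) b hb

section Finite

variable {X : Scheme.{u}} [IsIntegral X] (str : X ⟶ Spec (CommRingCat.of K))

theorem algebraMap_strHom (U : X.Opens) [Nonempty U] (a : K) :
    algebraMap Γ(X, U) X.functionField (H87.strHom str U a) = ffStr str a := by
  have hη : genericPoint X ∈ U :=
    ((genericPoint_spec X).mem_open_set_iff U.isOpen).mpr (by simpa using ‹Nonempty U›)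
  change X.presheaf.germ U (genericPoint X) hη (H87.strHom str U a) = _
  simp only [H87.strHom, RingHom.comp_apply]
  erw [X.presheaf.germ_res_apply]
  rfl

/-- **A4-a FINITE.** -/
theorem finiteStatement (K : Type u) [Field K] : FiniteStatement K := by
  intro X _ str _ g v hv hv0
  obtain ⟨U, hUaff, hU⟩ := hv.2 0
  have hη : genericPoint X ∈ U := (hU _).mpr (genAt_genericPoint v 0 hv0)
  obtain ⟨t, ht, hfin, -⟩ := H87.exists_finite_of_bpf v str hv.1 U hUaff hU
  haveI : Nonempty U := ⟨⟨_, hη⟩⟩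
  haveI : IsFractionRing Γ(X, U) X.functionField :=
    functionField_isFractionRing_of_isAffineOpen X U hUaff
  set E := LS.coordField str v with hE
  let germ : Γ(X, U) →+* X.functionField := algebraMap Γ(X, U) X.functionField
  have hgerm_t : ∀ i, germ (t i) = LS.ratios v i := fun i => ht i hη
  let ψ : MvPolynomial (Fin g) K →+* X.functionField := germ.comp (H87.tRingHom str U t)
  have hψ : ∀ p, ψ p ∈ E := by
    intro p
    induction p using MvPolynomial.induction_on with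
    | C a =>
      have : ψ (MvPolynomial.C a) = ffStr str a := by
        simp only [ψ, RingHom.comp_apply, H87.tRingHom_C]
        exact algebraMap_strHom str U a
      rw [this]
      exact Subfield.subset_closure (Or.inl ⟨a, rfl⟩)
    | add p q hp hq =>
      rw [map_add]
      exact E.add_mem hp hq
    | mul_X p i hp =>
      rw [map_mul]
      refine E.mul_mem hp ?_
      have : ψ (MvPolynomial.X i) = LS.ratios v i := by
        simp only [ψ, RingHom.comp_apply, H87.tRingHom_X]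
        exact hgerm_t i
      rw [this]
      exact Subfield.subset_closure (Or.inr ⟨i, rfl⟩)
  let ψE : MvPolynomial (Fin g) K →+* E :=
    { toFun := fun p => ⟨ψ p, hψ p⟩
      map_one' := Subtype.ext (map_one ψ)
      map_mul' := fun x y => Subtype.ext (map_mul ψ x y)
      map_zero' := Subtype.ext (map_zero ψ)
      map_add' := fun x y => Subtype.ext (map_add ψ x y) }
  -- integrality of sections
  have hint : ∀ s : Γ(X, U), IsIntegral E (germ s) := by
    intro s
    obtain ⟨p, hp, hps⟩ := hfin.to_isIntegral s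
    refine ⟨p.map ψE, hp.map _, ?_⟩
    rw [Polynomial.eval₂_map]
    have h1 : (algebraMap E X.functionField).comp ψE = germ.comp (H87.tRingHom str U t) := by
      ext <;> rfl
    rw [h1, ← Polynomial.hom_eval₂, hps, map_zero]
  -- generators
  letI algP : Algebra (MvPolynomial (Fin g) K) Γ(X, U) := (H87.tRingHom str U t).toAlgebra
  have hfg : Module.Finite (MvPolynomial (Fin g) K) Γ(X, U) := hfin
  obtain ⟨S, hS⟩ := hfg.fg_top
  let T : Set X.functionField := germ '' (S : Set Γ(X, U))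
  haveI : Finite T := (S.finite_toSet.image germ).to_subtype
  have hTint : ∀ x ∈ T, IsIntegral E x := by
    rintro _ ⟨s, -, rfl⟩
    exact hint s
  haveI hfd : FiniteDimensional E (IntermediateField.adjoin E T) :=
    IntermediateField.finiteDimensional_adjoin hTint
  have hmem : ∀ a : Γ(X, U), germ a ∈ IntermediateField.adjoin E T := by
    intro a
    have ha : a ∈ Submodule.span (MvPolynomial (Fin g) K) (S : Set Γ(X, U)) := by
      rw [hS]; trivial
    induction ha using Submodule.span_induction with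
    | mem x hx => exact IntermediateField.subset_adjoin E T ⟨x, hx, rfl⟩
    | zero => rw [map_zero]; exact zero_mem _
    | add x y _ _ hx hy => rw [map_add]; exact add_mem hx hy
    | smul p x _ hx =>
      have : germ (p • x) = ψ p * germ x := by
        rw [Algebra.smul_def, map_mul]
        rfl
      rw [this]
      refine mul_mem ?_ hx
      have : ψ p = algebraMap E X.functionField ⟨ψ p, hψ p⟩ := rfl
      rw [this]
      exact IntermediateField.algebraMap_mem _ _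
  have htop : IntermediateField.adjoin E T = ⊤ := by
    rw [eq_top_iff]
    intro y _
    obtain ⟨a, b, -, rfl⟩ := IsFractionRing.div_surjective (A := Γ(X, U)) y
    exact div_mem (hmem a) (hmem b)
  haveI : FiniteDimensional E (⊤ : IntermediateField E X.functionField) := htop ▸ hfd
  haveI : Module.Finite E X.functionField :=
    Module.Finite.equiv (IntermediateField.topEquiv (F := E) (E := X.functionField)).toLinearEquiv
  exact Module.finrank_pos

end Finite

/-- **AM-A4** (`Ample.Stmt.Project`, interface of helper752), unconditional. -/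
theorem project (K : Type u) [Field K] [IsAlgClosed K] : Ample.Stmt.Project K :=
  project_of (finiteStatement K)

/-- **AM-A4** in the shape of helper926 (`H926.Ample.Project`), unconditional. -/
theorem project926 (K : Type u) [Field K] [IsAlgClosed K] : H926.Ample.Project K :=
  project926_of (finiteStatement K)

end

end Fermat.Agent.S26.Ample.H277

end
-- ===== PACK-END S26/Ample/H277/Finite.lean

-- ===== PACK-BEGIN S27/H325/TensorDeg.lean
section
/-
S27 / GRP, sub-leaf TENSOR-DEG (helper325): the degree is additive on tensor products of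
gluing data over a field.

* `tensorSection G G' s` : the morphism `G' → G ⊗ G'`, `m ↦ s ⊗ m`, of a section `s ∈ Ȟ⁰(G)`;
* `euler_tensorGD_of_section` : `χ(G ⊗ G') - χ(G') = χ(G) - χ(O)` if `G` has a nonzero section;
* `tensorGD_twistE_isIso` : `G(n) ⊗ G' ≅ (G ⊗ G')(n)`;
* `degree_tensorGD` : `deg (G ⊗ G') = deg G + deg G'`;
* `degree_dualGD` : `deg G^∨ = - deg G`.
-/






set_option autoImplicit false
set_option linter.style.haveILetI false
set_option linter.unusedSectionVars false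

universe u

open scoped TensorProduct

namespace Fermat.Agent.S27.H325

open Fermat.Agent.S25 Fermat.Agent.S25.H10

noncomputable section

section General

variable {A R₀ R₁ R₀₁ : Type u} [CommRing A] [CommRing R₀] [CommRing R₁]
    [CommRing R₀₁] [Algebra A R₀] [Algebra A R₁] [Algebra A R₀₁] [Algebra R₀ R₀₁]
    [Algebra R₁ R₀₁] [IsScalarTower A R₀ R₀₁] [IsScalarTower A R₁ R₀₁]

theorem r₀_eq_r₁_of_mem_H0 (G : GlueDatum A R₀ R₁ R₀₁) (s : G.H0) :
    G.r₀ s.1.1 = G.r₁ s.1.2 := by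
  have h0 : G.cech (s.1.1, s.1.2) = 0 := LinearMap.mem_ker.mp s.2
  have h1 : G.r₀ s.1.1 + -(G.r₁ s.1.2) = 0 := h0
  exact eq_neg_iff_add_eq_zero.mpr h1 |>.trans (neg_neg _)

/-- The morphism `G' → G ⊗ G'`, `m ↦ s ⊗ m`, defined by a section `s` of `G`. -/
def tensorSection (G G' : GlueDatum A R₀ R₁ R₀₁) (s : G.H0) :
    GDHom G' (S25.H325.tensorGD G G') where
  f₀ := mkLeft (R := R₀) (M := G.N₀) (N := G'.N₀) s.1.1
  f₁ := mkLeft (R := R₁) (M := G.N₁) (N := G'.N₁) s.1.2
  f₀₁ := mkLeft (R := R₀₁) (M := G.N₀₁) (N := G'.N₀₁) (G.r₀ s.1.1)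
  comm₀ := fun m => by
    show G.r₀ s.1.1 ⊗ₜ[R₀₁] G'.r₀ m =
      S25.H325.tensorRes (S := R₀₁) G.r₀ G'.r₀ (s.1.1 ⊗ₜ[R₀] m)
    rw [S25.H325.tensorRes_tmul]
  comm₁ := fun m => by
    show G.r₀ s.1.1 ⊗ₜ[R₀₁] G'.r₁ m =
      S25.H325.tensorRes (S := R₀₁) G.r₁ G'.r₁ (s.1.2 ⊗ₜ[R₁] m)
    rw [S25.H325.tensorRes_tmul, r₀_eq_r₁_of_mem_H0]

theorem tensorRes_smul_left {R S : Type*} [CommRing R] [CommRing S] [Algebra R S]
    {M : Type*} [AddCommGroup M] [Module R M] {M' : Type*} [AddCommGroup M'] [Module R M']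
    {P : Type*} [AddCommGroup P] [Module R P] [Module S P] [IsScalarTower R S P]
    {P' : Type*} [AddCommGroup P'] [Module R P'] [Module S P'] [IsScalarTower R S P']
    (u : S) (α β : M →ₗ[R] P) (α' : M' →ₗ[R] P') (hβ : ∀ m, β m = u • α m)
    (s : M ⊗[R] M') :
    S25.H325.tensorRes (S := S) β α' s = u • S25.H325.tensorRes (S := S) α α' s := by
  induction s using TensorProduct.induction_on with
  | zero => simp
  | tmul a b =>
    rw [S25.H325.tensorRes_tmul, S25.H325.tensorRes_tmul, hβ, TensorProduct.smul_tmul']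
  | add a b ha hb => rw [map_add, map_add, ha, hb, smul_add]

/-- `G(u) ⊗ G' ≅ (G ⊗ G')(u)` for the twist by a unit `u`. -/
def tensorGDTwistIso (G G' : GlueDatum A R₀ R₁ R₀₁) (u : R₀₁ˣ) :
    GlueDatum.Iso (S25.H325.tensorGD (gdTwist G u) G') (gdTwist (S25.H325.tensorGD G G') u) where
  e₀ := LinearEquiv.refl R₀ (G.N₀ ⊗[R₀] G'.N₀)
  e₁ := LinearEquiv.refl R₁ (G.N₁ ⊗[R₁] G'.N₁)
  e₀₁ := LinearEquiv.refl R₀₁ (G.N₀₁ ⊗[R₀₁] G'.N₀₁)
  comm₀ := fun _ => rfl
  comm₁ := fun s =>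
    tensorRes_smul_left (S := R₀₁) (u : R₀₁) G.r₁ (gdTwist G u).r₁ G'.r₁
      (fun m => gdTwist_r₁_apply G u m) s

theorem invertible_N₀₁ (G : GlueDatum A R₀ R₁ R₀₁) : Module.Invertible R₀₁ G.N₀₁ :=
  haveI := G.invertible₀
  Module.Invertible.congr G.isBaseChange₀.equiv

end General

section Curve

variable {k : Type u} [Field k] {B₀ B₁ B₀₁ : Type u} [CommRing B₀] [CommRing B₁] [CommRing B₀₁]
  [Algebra k B₀] [Algebra k B₁] [Algebra k B₀₁] [Algebra B₀ B₀₁] [Algebra B₁ B₀₁]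
  [IsScalarTower k B₀ B₀₁] [IsScalarTower k B₁ B₀₁]
  {x : B₀} {y : B₁} {e : B₁ →ₐ[k] k}

theorem tensorGD_twistE_isIso (hxy : algebraMap B₀ B₀₁ x * algebraMap B₁ B₀₁ y = 1)
    {A : Type u} [CommRing A] [Algebra k A] (G G' : CurveGD k B₀ B₁ B₀₁ A) (n : ℤ) :
    GlueDatum.IsIso (S25.H325.tensorGD (twistE x y hxy G n) G')
      (twistE x y hxy (S25.H325.tensorGD G G') n) :=
  ⟨tensorGDTwistIso G G' _⟩

/-- If `G` has a nonzero section, then `χ(G ⊗ G') - χ(G') = χ(G) - χ(O)`. -/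
theorem euler_tensorGD_of_section [IsAlgClosed k] (hC : IsCurveChart k B₀ B₁ B₀₁ x y e)
    {K : Type u} [Field K] [Algebra k K] (G G' : CurveGD k B₀ B₁ B₀₁ K) (s : G.H0)
    (hs : s ≠ 0) :
    (S25.H325.tensorGD G G').euler - G'.euler =
      G.euler - (GlueDatum.unit K (K ⊗[k] B₀) (K ⊗[k] B₁) (K ⊗[k] B₀₁)).euler := by
  haveI := H565.chart_away₀ hC K
  haveI := G'.invertible₀
  haveI := G'.invertible₁
  haveI := invertible_N₀₁ G'
  -- the morphism `σ : O → G`
  have hσ := H565.D.injective_of_ne_zero hC (GDHom.ofSection G s)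
    (H565.D.ofSection_ne_zero G s hs)
  obtain ⟨h₀, h₁⟩ := H565.D.finite_coker_of_injective hC (GDHom.ofSection G s) hσ
  have Eσ := H565.D.euler_eq_of_injective hC (GDHom.ofSection G s) hσ h₀ h₁
  have h₀₁ : Module.Finite K (G.N₀₁ ⧸ LinearMap.range (GDHom.ofSection G s).f₀₁) := by
    haveI : FiniteDimensional K (H565.GlueHom.ofGDHom (GDHom.ofSection G s)).coker₀ :=
      (H565.finite_coker_iff (GDHom.ofSection G s).f₀).2 h₀
    exact (H565.finite_coker_iff (GDHom.ofSection G s).f₀₁).1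
      ((H565.GlueHom.ofGDHom (GDHom.ofSection G s)).finrank_coker₀₁_le₀ ((1 : K) ⊗ₜ[k] x)).1
  -- the morphism `τ : G' → G ⊗ G'`
  have hτ : (tensorSection G G' s).Injective :=
    ⟨mkLeft_injective (R := K ⊗[k] B₀) (N := G'.N₀) s.1.1 hσ.1,
      mkLeft_injective (R := K ⊗[k] B₁) (N := G'.N₁) s.1.2 hσ.2⟩
  haveI : Module.Finite K (G.N₀ ⧸ LinearMap.range
      (LinearMap.toSpanSingleton (K ⊗[k] B₀) G.N₀ s.1.1)) := h₀
  haveI : Module.Finite K (G.N₁ ⧸ LinearMap.range
      (LinearMap.toSpanSingleton (K ⊗[k] B₁) G.N₁ s.1.2)) := h₁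
  haveI : Module.Finite K (G.N₀₁ ⧸ LinearMap.range
      (LinearMap.toSpanSingleton (K ⊗[k] B₀₁) G.N₀₁ (G.r₀ s.1.1))) := h₀₁
  obtain ⟨f₀, q₀⟩ := finrank_coker_mk_eq (K := K) (R := K ⊗[k] B₀) (M := G.N₀)
    (N := G'.N₀) s.1.1
  obtain ⟨f₁, q₁⟩ := finrank_coker_mk_eq (K := K) (R := K ⊗[k] B₁) (M := G.N₁)
    (N := G'.N₁) s.1.2
  obtain ⟨f₀₁, q₀₁⟩ := finrank_coker_mk_eq (K := K) (R := K ⊗[k] B₀₁) (M := G.N₀₁)
    (N := G'.N₀₁) (G.r₀ s.1.1)
  have Eτ := H565.D.euler_eq_of_injective hC (tensorSection G G' s) hτ f₀ f₁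
  have q₀' : Module.finrank K ((S25.H325.tensorGD G G').N₀ ⧸
      LinearMap.range (tensorSection G G' s).f₀) =
      Module.finrank K (G.N₀ ⧸ LinearMap.range (GDHom.ofSection G s).f₀) := q₀
  have q₁' : Module.finrank K ((S25.H325.tensorGD G G').N₁ ⧸
      LinearMap.range (tensorSection G G' s).f₁) =
      Module.finrank K (G.N₁ ⧸ LinearMap.range (GDHom.ofSection G s).f₁) := q₁
  have q₀₁' : Module.finrank K ((S25.H325.tensorGD G G').N₀₁ ⧸
      LinearMap.range (tensorSection G G' s).f₀₁) =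
      Module.finrank K (G.N₀₁ ⧸ LinearMap.range (GDHom.ofSection G s).f₀₁) := q₀₁
  rw [q₀', q₁', q₀₁'] at Eτ
  rw [Eτ, Eσ]
  ring

/-- Some twist of `G` has a nonzero section. -/
theorem exists_twistE_section (hC : IsCurveChart k B₀ B₁ B₀₁ x y e)
    {K : Type u} [Field K] [Algebra k K] (G : CurveGD k B₀ B₁ B₀₁ K) :
    ∃ (n : ℤ) (s : (twistE x y hC.mul_eq_one G n).H0), s ≠ 0 := by
  have hd : (0 : ℤ) < (chartDeg k y : ℤ) := by exact_mod_cast H250.chartDeg_pos hC
  obtain ⟨n, hn⟩ : ∃ n : ℤ, 0 < G.euler + n * chartDeg k y := by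
    refine ⟨|G.euler| + 1, ?_⟩
    have h1 : -|G.euler| ≤ G.euler := neg_abs_le _
    have h2 : (1 : ℤ) ≤ chartDeg k y := hd
    have h3 : 0 ≤ |G.euler| := abs_nonneg _
    nlinarith
  refine ⟨n, ?_⟩
  have hχ := H250.euler_twistE hC G n
  haveI := H250.finite_H0 hC (twistE x y hC.mul_eq_one G n)
  have hpos : 0 < Module.finrank K (twistE x y hC.mul_eq_one G n).H0 := by
    have : (twistE x y hC.mul_eq_one G n).euler ≤
        Module.finrank K (twistE x y hC.mul_eq_one G n).H0 := by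
      unfold GlueDatum.euler
      have := Int.natCast_nonneg (Module.finrank K (twistE x y hC.mul_eq_one G n).H1)
      omega
    omega
  exact Module.finrank_pos_iff_exists_ne_zero.mp hpos

/-- **DEG-ADD**: the degree of a tensor product of gluing data over a field is the sum of
the degrees. -/
theorem degree_tensorGD [IsAlgClosed k] (hC : IsCurveChart k B₀ B₁ B₀₁ x y e)
    {K : Type u} [Field K] [Algebra k K] (G₁ G₂ : CurveGD k B₀ B₁ B₀₁ K) :
    (S25.H325.tensorGD G₁ G₂).degree = G₁.degree + G₂.degree := by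
  obtain ⟨n, s, hs⟩ := exists_twistE_section hC G₁
  have h1 := euler_tensorGD_of_section hC (twistE x y hC.mul_eq_one G₁ n) G₂ s hs
  have h2 := H265.euler_eq_of_isIso (tensorGD_twistE_isIso hC.mul_eq_one G₁ G₂ n)
  have h3 := H250.euler_twistE hC (S25.H325.tensorGD G₁ G₂) n
  have h4 := H250.euler_twistE hC G₁ n
  unfold GlueDatum.degree
  rw [h2, h3, h4] at h1
  linarith

/-- The degree of the dual gluing datum is the opposite of the degree. -/
theorem degree_dualGD [IsAlgClosed k] (hC : IsCurveChart k B₀ B₁ B₀₁ x y e)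
    {K : Type u} [Field K] [Algebra k K] (G : CurveGD k B₀ B₁ B₀₁ K) :
    (S25.H325.dualGD G).degree = -G.degree := by
  have h1 := degree_tensorGD hC G (S25.H325.dualGD G)
  have h2 := H265.degree_eq_of_isIso (S25.H325.tensorGD_dual_right_isIso_unit G)
  have h3 : (GlueDatum.unit K (K ⊗[k] B₀) (K ⊗[k] B₁) (K ⊗[k] B₀₁)).degree = 0 :=
    H565.D.degree_unit K
  rw [h2, h3] at h1
  linarith

end Curve

end

end Fermat.Agent.S27.H325

end
-- ===== PACK-END S27/H325/TensorDeg.lean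

-- ===== PACK-BEGIN Lib/Haupt/PS.lean
section


/-!
# Hauptmodul identities for `Γ₀(2)` and `Γ₀(3)` as identities of integral power series (helper637)

With `P = ∏ (1 - Xⁿ)` (`ModularCurve.etaProd`), `E = E₄` (`ModularCurve.eisenstein4`) and
`f(X^d) = PowerSeries.expand d f`:

* `ps1` : `E³ P²⁴ P₂²⁴ = (P²⁴ + 256 X P₂²⁴)³`
* `ps2` : `E(X²)³ P²⁴ P₂²⁴ = (P²⁴ + 16 X P₂²⁴)³`
* `ps3` : `E³ P¹² P₃¹² = (P¹² + 27 X P₃¹²) (P¹² + 243 X P₃¹²)³`
* `ps4` : `E(X³)³ P¹² P₃¹² = (P¹² + 27 X P₃¹²) (P¹² + 3 X P₃¹²)³`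
-/

set_option autoImplicit false

noncomputable section

namespace Fermat.Agent.Lib.Haupt

open PowerSeries

/-- `P = ∏ (1 - Xⁿ)`. -/
abbrev PZ : PowerSeries ℤ := ModularCurve.etaProd

theorem ex_X (d : ℕ) [NeZero d] : ex d (X : PowerSeries ℤ) = X ^ d := expand_X d (NeZero.ne d)

theorem ex_DeltaZ (d : ℕ) [NeZero d] : ex d DeltaZ = X ^ d * ex d PZ ^ 24 := by
  rw [DeltaZ, ex, map_mul, map_pow, expand_X]

theorem X_pow_mul_cancel {n : ℕ} {f g : PowerSeries ℤ} (h : X ^ n * f = X ^ n * g) : f = g :=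
  mul_left_cancel₀ (pow_ne_zero n X_ne_zero) h

theorem ps1 : E4Z ^ 3 * (PZ ^ 24 * ex 2 PZ ^ 24) = (PZ ^ 24 + C 256 * (X * ex 2 PZ ^ 24)) ^ 3 := by
  have h := Phi1_eq_zero
  rw [Phi1, sub_eq_zero, ex_DeltaZ, DeltaZ] at h
  apply X_pow_mul_cancel (n := 3)
  linear_combination h

theorem ps2 :
    ex 2 E4Z ^ 3 * (PZ ^ 24 * ex 2 PZ ^ 24) = (PZ ^ 24 + C 16 * (X * ex 2 PZ ^ 24)) ^ 3 := by
  have h := Phi2_eq_zero
  rw [Phi2, sub_eq_zero, ex_DeltaZ, DeltaZ] at h
  apply X_pow_mul_cancel (n := 3)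
  linear_combination h

theorem constantCoeff_PZ : constantCoeff PZ = 1 := ModularCurve.constantCoeff_etaProd

theorem constantCoeff_ex (d : ℕ) [NeZero d] (f : PowerSeries ℤ) :
    constantCoeff (ex d f) = constantCoeff f := constantCoeff_expand d (NeZero.ne d) f

/-- In `ℤ⟦X⟧`: if `(X² u)² = (X² v)²` and `u`, `v` both have constant coefficient `1`,
then `u = v`. -/
theorem eq_of_sq_eq_sq {u v : PowerSeries ℤ} (hu : constantCoeff u = 1)
    (hv : constantCoeff v = 1) (h : (X ^ 2 * u) ^ 2 = (X ^ 2 * v) ^ 2) : u = v := by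
  rcases sq_eq_sq_iff_eq_or_eq_neg.mp h with h1 | h1
  · exact X_pow_mul_cancel h1
  · exfalso
    have h2 : u = -v := X_pow_mul_cancel (n := 2) (by rw [h1]; ring)
    have h3 := congrArg constantCoeff h2
    rw [map_neg, hu, hv] at h3
    norm_num at h3

theorem ps3 :
    E4Z ^ 3 * (PZ ^ 12 * ex 3 PZ ^ 12)
      = (PZ ^ 12 + C 27 * (X * ex 3 PZ ^ 12)) * (PZ ^ 12 + C 243 * (X * ex 3 PZ ^ 12)) ^ 3 := by
  have h := Phi3_eq_zero
  rw [Phi3, sub_eq_zero, ex_DeltaZ, DeltaZ] at h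
  set A := PZ ^ 12 with hA
  set Q := ex 3 PZ ^ 12 with hQ
  have hA2 : PZ ^ 24 = A ^ 2 := by rw [hA]; ring
  have hQ2 : ex 3 PZ ^ 24 = Q ^ 2 := by rw [hQ]; ring
  rw [hA2, hQ2] at h
  have hcA : constantCoeff A = 1 := by rw [hA, map_pow, constantCoeff_PZ, one_pow]
  have hcQ : constantCoeff Q = 1 := by
    rw [hQ, map_pow, constantCoeff_ex, constantCoeff_PZ, one_pow]
  have hcE : constantCoeff E4Z = 1 := ModularCurve.constantCoeff_eisenstein4
  have key := eq_of_sq_eq_sq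
    (u := A * Q * (E4Z ^ 3 - (C 756 * (X * A ^ 2) + C 19131876 * (X ^ 3 * Q ^ 2))))
    (v := A ^ 4 + (C 196830 * (X ^ 2 * (A ^ 2 * Q ^ 2)) + C 387420489 * (X ^ 4 * Q ^ 4)))
    (by simp [hcA, hcQ, hcE]) (by simp [hcA]) (by linear_combination h)
  have e1 : (C (27 : ℤ) : PowerSeries ℤ) = 27 := map_ofNat C 27
  have e2 : (C (243 : ℤ) : PowerSeries ℤ) = 243 := map_ofNat C 243
  have e3 : (C (756 : ℤ) : PowerSeries ℤ) = 756 := map_ofNat C 756
  have e4 : (C (19131876 : ℤ) : PowerSeries ℤ) = 19131876 := map_ofNat C 19131876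
  have e5 : (C (196830 : ℤ) : PowerSeries ℤ) = 196830 := map_ofNat C 196830
  have e6 : (C (387420489 : ℤ) : PowerSeries ℤ) = 387420489 := map_ofNat C 387420489
  rw [e3, e4, e5, e6] at key
  rw [e1, e2]
  linear_combination key

theorem ps4 :
    ex 3 E4Z ^ 3 * (PZ ^ 12 * ex 3 PZ ^ 12)
      = (PZ ^ 12 + C 27 * (X * ex 3 PZ ^ 12)) * (PZ ^ 12 + C 3 * (X * ex 3 PZ ^ 12)) ^ 3 := by
  have h := Phi4_eq_zero
  rw [Phi4, sub_eq_zero, ex_DeltaZ, DeltaZ] at h
  set A := PZ ^ 12 with hA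
  set Q := ex 3 PZ ^ 12 with hQ
  have hA2 : PZ ^ 24 = A ^ 2 := by rw [hA]; ring
  have hQ2 : ex 3 PZ ^ 24 = Q ^ 2 := by rw [hQ]; ring
  rw [hA2, hQ2] at h
  have hcA : constantCoeff A = 1 := by rw [hA, map_pow, constantCoeff_PZ, one_pow]
  have hcQ : constantCoeff Q = 1 := by
    rw [hQ, map_pow, constantCoeff_ex, constantCoeff_PZ, one_pow]
  have hcE : constantCoeff (ex 3 E4Z) = 1 := by
    rw [constantCoeff_ex]; exact ModularCurve.constantCoeff_eisenstein4
  have key := eq_of_sq_eq_sq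
    (u := A * Q * (ex 3 E4Z ^ 3 - (C 36 * (X * A ^ 2) + C 756 * (X ^ 3 * Q ^ 2))))
    (v := A ^ 4 + (C 270 * (X ^ 2 * (A ^ 2 * Q ^ 2)) + C 729 * (X ^ 4 * Q ^ 4)))
    (by simp [hcA, hcQ, hcE]) (by simp [hcA]) (by linear_combination h)
  have e1 : (C (27 : ℤ) : PowerSeries ℤ) = 27 := map_ofNat C 27
  have e2 : (C (3 : ℤ) : PowerSeries ℤ) = 3 := map_ofNat C 3
  have e3 : (C (36 : ℤ) : PowerSeries ℤ) = 36 := map_ofNat C 36
  have e4 : (C (756 : ℤ) : PowerSeries ℤ) = 756 := map_ofNat C 756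
  have e5 : (C (270 : ℤ) : PowerSeries ℤ) = 270 := map_ofNat C 270
  have e6 : (C (729 : ℤ) : PowerSeries ℤ) = 729 := map_ofNat C 729
  rw [e3, e4, e5, e6] at key
  rw [e1, e2]
  linear_combination key

end Fermat.Agent.Lib.Haupt

end
end
-- ===== PACK-END Lib/Haupt/PS.lean

-- ===== PACK-BEGIN S37/H518/RMap.lean
section


/-!
# S37 / RIM (helper518): the reduction map on places of a two-chart model

* `TwoCharts.rmap` : places of the generic fibre → places of the special fibre;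
* `TwoCharts.rmap_chart0 / rmap_chart1` : if `rmap P` is centred on a chart, so is `P`, and the
  values of chart functions are compatible;
* `TwoCharts.sum_le0 / sum_le1` : zeros only merge (`LocalChart.sum_ord_le` on each chart).
-/

set_option autoImplicit false

namespace Fermat.Agent.S37.H518

open AlgebraicCurve Fermat.Agent.S24.H504 Polynomial

variable {L : Type*} [Field L] {A : ValuationSubring L} {k : Type*} [Field k]
variable {F : Type*} [Field F] [Algebra L F] {Fk : Type*} [Field Fk] [Algebra k Fk]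
variable {V : Type*} [CommRing V] [Algebra A V]
variable {π : A →+* k} {ι : V →+* F} {ρ : V →+* Fk} {B₀ B₁ : Subalgebra A V} {x₀ x₁ : V}

/-- Assembling `LocalChart` from a `Chart` and finitely many places reducing to `Q`. -/
theorem Chart.localChart {B : Subalgebra A V} {x : V} (hR : RedStr π ι ρ)
    (hQval : ∀ (Q : Place k Fk) (f : Fk), 0 ≤ Q.ord f → ∃ c : k, InMax Q (f - algebraMap k Fk c))
    (hc : Chart π ι ρ B x) {Q : Place k Fk} (hQ : QC ρ B Q) (S : Finset (Place L F))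
    (hS : ∀ P ∈ S, PC ι B P ∧ RedTo π ι ρ B P Q) :
    LocalChart π ι ρ B Q (fun i : S => (i : Place L F)) where
  toRedStr := hR
  ker := hc.ker
  Q_int := hQ
  Q_loc := hc.Q_loc Q hQ
  Q_val := hQval Q
  P_inj := Subtype.val_injective
  P_int := fun i _ hb => (hS i.1 i.2).1.ord_nonneg hb
  P_val := fun i b hb => (hS i.1 i.2).1 b hb
  P_red := fun i b hb a ha => (hS i.1 i.2).2 b hb a ha
  P_unif := fun i => hc.P_unif i.1 (hS i.1 i.2).1
  P_sep := fun i j hij => hc.P_sep i.1 j.1 (hS i.1 i.2).1 (hS j.1 j.2).1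
    (fun e => hij (Subtype.ext e))

/-- Zeros only merge, on one chart. -/
theorem Chart.sum_le {B : Subalgebra A V} {x : V} (hR : RedStr π ι ρ)
    (hQval : ∀ (Q : Place k Fk) (f : Fk), 0 ≤ Q.ord f → ∃ c : k, InMax Q (f - algebraMap k Fk c))
    (hc : Chart π ι ρ B x) {Q : Place k Fk} (hQ : QC ρ B Q) (S : Finset (Place L F))
    (hS : ∀ P ∈ S, PC ι B P ∧ RedTo π ι ρ B P Q) {y : V} (hy : y ∈ B) (hy0 : ρ y ≠ 0) :
    ∑ P ∈ S, P.ord (ι y) ≤ Q.ord (ρ y) := by
  have := (hc.localChart hR hQval hQ S hS).sum_ord_le hy hy0 hc.x_mem hc.fin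
  rwa [Finset.sum_coe_sort S (fun P => P.ord (ι y))] at this

namespace TwoCharts

variable (h : TwoCharts π ι ρ B₀ B₁ x₀ x₁)

open Classical in
/-- The reduction map on places. -/
noncomputable def rmap (P : Place L F) : Place k Fk :=
  if hP : PC ι B₀ P then (h.chart0.exists_red P hP).choose
  else (h.chart1.exists_red P ((h.cover_P P).resolve_left hP)).choose

theorem rmap_spec0 {P : Place L F} (hP : PC ι B₀ P) :
    QC ρ B₀ (h.rmap P) ∧ RedTo π ι ρ B₀ P (h.rmap P) := by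
  rw [rmap, dif_pos hP]
  exact (h.chart0.exists_red P hP).choose_spec

theorem rmap_spec1 {P : Place L F} (hP : ¬ PC ι B₀ P) :
    PC ι B₁ P ∧ QC ρ B₁ (h.rmap P) ∧ RedTo π ι ρ B₁ P (h.rmap P) := by
  have hP1 : PC ι B₁ P := (h.cover_P P).resolve_left hP
  refine ⟨hP1, ?_⟩
  rw [rmap, dif_neg hP]
  exact (h.chart1.exists_red P hP1).choose_spec

include h in
theorem mul_eq_one' : x₁ * x₀ = 1 := by rw [mul_comm]; exact h.mul_eq_one

theorem rmap_chart0 {P : Place L F} (hQ : QC ρ B₀ (h.rmap P)) :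
    PC ι B₀ P ∧ RedTo π ι ρ B₀ P (h.rmap P) := by
  by_cases hP : PC ι B₀ P
  · exact ⟨hP, (h.rmap_spec0 hP).2⟩
  · obtain ⟨hP1, hQ1, hR1⟩ := h.rmap_spec1 hP
    exact transfer h.toRedStr h.chart1.x_mem h.chart0.x_mem h.mul_eq_one' h.trans10 hP1 hQ1 hR1 hQ

theorem rmap_chart1 {P : Place L F} (hQ : QC ρ B₁ (h.rmap P)) :
    PC ι B₁ P ∧ RedTo π ι ρ B₁ P (h.rmap P) := by
  by_cases hP : PC ι B₀ P
  · obtain ⟨hQ0, hR0⟩ := h.rmap_spec0 hP
    exact transfer h.toRedStr h.chart0.x_mem h.chart1.x_mem h.mul_eq_one h.trans01 hP hQ0 hR0 hQ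
  · obtain ⟨hP1, -, hR1⟩ := h.rmap_spec1 hP
    exact ⟨hP1, hR1⟩

theorem sum_le0 {Q : Place k Fk} (hQ : QC ρ B₀ Q) (S : Finset (Place L F))
    (hS : ∀ P ∈ S, h.rmap P = Q) {y : V} (hy : y ∈ B₀) (hy0 : ρ y ≠ 0) :
    ∑ P ∈ S, P.ord (ι y) ≤ Q.ord (ρ y) :=
  h.chart0.sum_le h.toRedStr h.Q_val hQ S
    (fun P hP => by
      have := h.rmap_chart0 (P := P) (by rw [hS P hP]; exact hQ)
      rwa [hS P hP] at this) hy hy0

theorem sum_le1 {Q : Place k Fk} (hQ : QC ρ B₁ Q) (S : Finset (Place L F))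
    (hS : ∀ P ∈ S, h.rmap P = Q) {y : V} (hy : y ∈ B₁) (hy0 : ρ y ≠ 0) :
    ∑ P ∈ S, P.ord (ι y) ≤ Q.ord (ρ y) :=
  h.chart1.sum_le h.toRedStr h.Q_val hQ S
    (fun P hP => by
      have := h.rmap_chart1 (P := P) (by rw [hS P hP]; exact hQ)
      rwa [hS P hP] at this) hy hy0

end TwoCharts

end Fermat.Agent.S37.H518

end
-- ===== PACK-END S37/H518/RMap.lean

-- ===== PACK-BEGIN S13/H365/NodePoint.lean
section



/-!
# The component homomorphism at a node, valid in every residue characteristic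

`W` is a Weierstrass curve over a valued field `K`, `(e, f)` is a point of `W` fixed by the
negation (`2 f + a₁ e + a₃ = 0`), and in the coordinates `ξ = x - e`, `υ = y - f` the equation
of `W` reads `(υ - γ₁ ξ) (υ - γ₂ ξ) = ξ³ + a ξ` with `v a < 1`, `a ≠ 0`, `v (γ₁ - γ₂) = 1`:
the reduction of `W` has a node at `(e, f)` with tangent slopes `γ₁ ≢ γ₂`.
No hypothesis on `v 2` is made.
-/

set_option autoImplicit false

namespace Fermat.Agent.S13.H365

open WeierstrassCurve WeierstrassCurve.Affine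
open Fermat.Agent.S05.Comp (cls cls_mul cls_alpha_sq cls_alpha_mul_self cls_alpha_inv CompGroup)

variable {K : Type*} [Field K] {Γ₀ : Type*} [LinearOrderedCommGroupWithZero Γ₀]

/-- A Weierstrass curve over a valued field together with a `2`-torsion point `(e, f)` at which
the reduction has a node with distinct tangent slopes `γ₁`, `γ₂`. -/
structure NodeModel (v : Valuation K Γ₀) (W : Affine K) where
  /-- `x`-coordinate of the point reducing to the node -/
  e : K
  /-- `y`-coordinate of the point reducing to the node -/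
  f : K
  /-- first tangent slope -/
  γ₁ : K
  /-- second tangent slope -/
  γ₂ : K
  /-- the smoothing parameter -/
  a : K
  h2tors : 2 * f + W.a₁ * e + W.a₃ = 0
  hon : f ^ 2 + W.a₁ * e * f + W.a₃ * f = e ^ 3 + W.a₂ * e ^ 2 + W.a₄ * e + W.a₆
  hsum : γ₁ + γ₂ = -W.a₁
  hprod : γ₁ * γ₂ = -(W.a₂ + 3 * e)
  ha_def : a = 3 * e ^ 2 + 2 * W.a₂ * e + W.a₄ - W.a₁ * f
  hδ : v (γ₁ - γ₂) = 1
  ha : v a < 1
  ha0 : a ≠ 0

namespace NodeModel

variable {v : Valuation K Γ₀} {W : Affine K}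

lemma a₁_eq (M : NodeModel v W) : W.a₁ = -(M.γ₁ + M.γ₂) := by
  linear_combination M.hsum

lemma a₂_eq (M : NodeModel v W) : W.a₂ = -(M.γ₁ * M.γ₂) - 3 * M.e := by
  linear_combination M.hprod

lemma a₃_eq (M : NodeModel v W) : W.a₃ = -2 * M.f + (M.γ₁ + M.γ₂) * M.e := by
  linear_combination M.h2tors - M.e * M.hsum

lemma a₄_eq (M : NodeModel v W) :
    W.a₄ = M.a + 3 * M.e ^ 2 + 2 * (M.γ₁ * M.γ₂) * M.e - (M.γ₁ + M.γ₂) * M.f := by
  linear_combination -M.ha_def - 2 * M.e * M.hprod + M.f * M.hsum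

lemma a₆_eq (M : NodeModel v W) :
    W.a₆ = M.f ^ 2 + W.a₁ * M.e * M.f + W.a₃ * M.f
      - (M.e ^ 3 + W.a₂ * M.e ^ 2 + W.a₄ * M.e) := by
  linear_combination -M.hon

/-- The Weierstrass equation in the coordinates centred at the node. -/
lemma key_id (M : NodeModel v W) (x y : K) :
    (y - M.f - M.γ₁ * (x - M.e)) * (y - M.f - M.γ₂ * (x - M.e))
        - ((x - M.e) ^ 3 + M.a * (x - M.e)) =
      (y ^ 2 + W.a₁ * x * y + W.a₃ * y) - (x ^ 3 + W.a₂ * x ^ 2 + W.a₄ * x + W.a₆) := by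
  rw [M.a₆_eq, M.a₄_eq, M.a₃_eq, M.a₂_eq, M.a₁_eq]
  ring

lemma equation_iff (M : NodeModel v W) (x y : K) :
    W.Equation x y ↔
      (y - M.f - M.γ₁ * (x - M.e)) * (y - M.f - M.γ₂ * (x - M.e))
        = (x - M.e) ^ 3 + M.a * (x - M.e) := by
  rw [Affine.equation_iff, ← sub_eq_zero, ← M.key_id x y, sub_eq_zero]

lemma up_negY (M : NodeModel v W) (x y : K) :
    W.negY x y - M.f = -(y - M.f) + (M.γ₁ + M.γ₂) * (x - M.e) := by
  simp only [Affine.negY]
  rw [M.a₃_eq, M.a₁_eq]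
  ring

end NodeModel

variable {v : Valuation K Γ₀}

lemma compN_neg {a γ₁ γ₂ x y : K} (hδ : v (γ₁ - γ₂) = 1) (ha : v a < 1) (ha0 : a ≠ 0)
    (hE : (y - γ₁ * x) * (y - γ₂ * x) = x ^ 3 + a * x) :
    compN v a γ₁ x (-y + (γ₁ + γ₂) * x) = (compN v a γ₁ x y)⁻¹ := by
  rcases compN_cases hδ ha hE with ⟨hZ, e⟩ | ⟨hM, e⟩ | ⟨hlo, hhi, hP, e⟩ |
    ⟨hlo, hhi, hN, e⟩
  · rw [e, compN_of_Z hZ, inv_one]
  · rw [e, compN_of_M ha hM, cls_alpha_inv v a ha0]
  · rw [e]
    apply compN_of_N hδ hlo hhi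
    have : -y + (γ₁ + γ₂) * x - γ₂ * x = -(y - γ₁ * x) := by ring
    rw [this, Valuation.map_neg]; exact hP
  · rw [e, inv_inv]
    apply compN_of_P hlo hhi
    have : -y + (γ₁ + γ₂) * x - γ₁ * x = -(y - γ₂ * x) := by ring
    rw [this, Valuation.map_neg]; exact hN

namespace NodeModel

variable {W : Affine K}

/-- The component of a point. -/
noncomputable def comp (M : NodeModel v W) : W.Point → CompGroup v M.a
  | .zero => 1
  | .some x y _ => compN v M.a M.γ₁ (x - M.e) (y - M.f)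

@[simp] lemma comp_zero (M : NodeModel v W) : M.comp 0 = 1 := rfl

lemma comp_some (M : NodeModel v W) {x y : K} (h : W.Nonsingular x y) :
    M.comp (.some x y h) = compN v M.a M.γ₁ (x - M.e) (y - M.f) := rfl

lemma comp_neg (M : NodeModel v W) (P : W.Point) : M.comp (-P) = (M.comp P)⁻¹ := by
  rcases P with _ | ⟨x, y, h⟩
  · change M.comp 0 = (M.comp 0)⁻¹
    simp
  · rw [Point.neg_some, comp_some, comp_some, M.up_negY]
    exact compN_neg M.hδ M.ha M.ha0 ((M.equation_iff x y).mp h.1)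

variable [DecidableEq K]

/-- The collinearity data attached to a sum of two affine points. -/
lemma coll_of_add (M : NodeModel v W) {x₁ y₁ x₂ y₂ : K} (h₁ : W.Equation x₁ y₁)
    (h₂ : W.Equation x₂ y₂) (hxy : ¬(x₁ = x₂ ∧ y₁ = W.negY x₂ y₂)) :
    _root_.Fermat.Agent.S13.H365.Coll M.a M.γ₁ M.γ₂ (x₁ - M.e) (y₁ - M.f) (x₂ - M.e) (y₂ - M.f)
      (W.addX x₁ x₂ (W.slope x₁ x₂ y₁ y₂) - M.e)
      (W.negAddY x₁ x₂ y₁ (W.slope x₁ x₂ y₁ y₂) - M.f)
      (W.slope x₁ x₂ y₁ y₂)
      (y₁ - M.f - W.slope x₁ x₂ y₁ y₂ * (x₁ - M.e)) := by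
  set ℓ := W.slope x₁ x₂ y₁ y₂ with hℓ
  -- the line passes through the second point
  have hline : y₂ = ℓ * (x₂ - x₁) + y₁ := by
    by_cases hx : x₁ = x₂
    · have hy : y₁ ≠ W.negY x₂ y₂ := fun h => hxy ⟨hx, h⟩
      have := Y_eq_of_Y_ne h₁ h₂ hx hy
      rw [hx, this]; ring
    · rw [hℓ, slope_of_X_ne hx]
      have : x₁ - x₂ ≠ 0 := sub_ne_zero.mpr hx
      field_simp
      ring
  -- Vieta
  have hV := addPolynomial_slope h₁ h₂ hxy
  rw [addPolynomial_eq, neg_inj, Cubic.prod_X_sub_C_eq, Cubic.toPoly_injective] at hV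
  have hVc := congrArg Cubic.c hV
  have hVd := congrArg Cubic.d hV
  simp only at hVc hVd
  rw [← hℓ] at hVc hVd
  have hE3 : W.Equation (W.addX x₁ x₂ ℓ) (W.negAddY x₁ x₂ y₁ ℓ) := equation_negAdd h₁ h₂ hxy
  refine ⟨?_, ?_, ?_, (M.equation_iff _ _).mp h₁, (M.equation_iff _ _).mp h₂,
    (M.equation_iff _ _).mp hE3, ?_, ?_, ?_⟩
  · ring
  · rw [hline]; ring
  · simp only [negAddY]
    ring
  · simp only [addX]
    rw [M.a₂_eq, M.a₁_eq]
    ring
  · have e1 : (x₁ - M.e) * (x₂ - M.e) + (x₁ - M.e) * (W.addX x₁ x₂ ℓ - M.e) +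
        (x₂ - M.e) * (W.addX x₁ x₂ ℓ - M.e) =
        (x₁ * x₂ + x₁ * W.addX x₁ x₂ ℓ + x₂ * W.addX x₁ x₂ ℓ)
          - 2 * M.e * (x₁ + x₂ + W.addX x₁ x₂ ℓ) + 3 * M.e ^ 2 := by ring
    rw [e1, ← hVc]
    simp only [addX]
    rw [M.a₄_eq, M.a₃_eq, M.a₂_eq, M.a₁_eq]
    ring
  · have e1 : (x₁ - M.e) * (x₂ - M.e) * (W.addX x₁ x₂ ℓ - M.e) =
        -(-(x₁ * x₂ * W.addX x₁ x₂ ℓ))
          - M.e * (x₁ * x₂ + x₁ * W.addX x₁ x₂ ℓ + x₂ * W.addX x₁ x₂ ℓ)
          + M.e ^ 2 * (x₁ + x₂ + W.addX x₁ x₂ ℓ) - M.e ^ 3 := by ring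
    rw [e1, ← hVc, ← hVd]
    simp only [addX]
    rw [M.a₆_eq, M.a₄_eq, M.a₃_eq, M.a₂_eq, M.a₁_eq]
    ring

/-- **The component map is additive.** -/
theorem comp_add (M : NodeModel v W) (P Q : W.Point) :
    M.comp (P + Q) = M.comp P * M.comp Q := by
  rcases P with _ | ⟨x₁, y₁, h₁⟩
  · change M.comp (0 + Q) = M.comp 0 * M.comp Q
    rw [zero_add, comp_zero, one_mul]
  rcases Q with _ | ⟨x₂, y₂, h₂⟩
  · change M.comp (_ + 0) = M.comp _ * M.comp 0
    rw [add_zero, comp_zero, mul_one]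
  by_cases hxy : x₁ = x₂ ∧ y₁ = W.negY x₂ y₂
  · rw [Point.add_of_Y_eq hxy.1 hxy.2, comp_zero]
    have : Point.some x₁ y₁ h₁ = -Point.some x₂ y₂ h₂ := by
      rw [Point.neg_some]
      obtain ⟨rfl, rfl⟩ := hxy
      rfl
    rw [this, comp_neg, inv_mul_cancel]
  · rw [Point.add_some hxy, comp_some, comp_some, comp_some]
    have hc := M.coll_of_add h₁.1 h₂.1 hxy
    have h3 := compN_mul hc M.hδ M.ha M.ha0
    rw [addY, M.up_negY, compN_neg M.hδ M.ha M.ha0 hc.E3]
    exact (mul_eq_one_iff_eq_inv.mp h3).symm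

/-- The component map as a homomorphism. -/
noncomputable def compHom (M : NodeModel v W) : W.Point →+ Additive (CompGroup v M.a) where
  toFun P := Additive.ofMul (M.comp P)
  map_zero' := rfl
  map_add' P Q := by
    rw [M.comp_add P Q]; rfl

lemma comp_nsmul (M : NodeModel v W) (k : ℕ) (P : W.Point) :
    M.comp (k • P) = M.comp P ^ k := by
  induction k with
  | zero => simp
  | succ k ih =>
    rw [succ_nsmul, comp_add, ih]
    exact (pow_succ _ _).symm

lemma comp_sub (M : NodeModel v W) (P Q : W.Point) :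
    M.comp (P - Q) = M.comp P * (M.comp Q)⁻¹ := by
  rw [sub_eq_add_neg, comp_add, comp_neg]

end NodeModel

end Fermat.Agent.S13.H365

end
-- ===== PACK-END S13/H365/NodePoint.lean

-- ===== PACK-BEGIN S13/H187/RatVal.lean
section


/-!
# S13 / T7, part 1: the valuation of rational numbers at a place over `2`

`K` is a field of characteristic zero and `A` a valuation subring of `K` in which `2` is a
nonunit.  Then every nonzero rational number has valuation `v 2 ^ c` for some `c : ℤ`, and an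
`A`-integral rational number is congruent to `0` or to `1` modulo the maximal ideal.
-/

set_option autoImplicit false

namespace Fermat.Agent.S13.H187

open Fermat.Agent.S13.H129

variable {K : Type*} [Field K] [CharZero K] {A : ValuationSubring K}

omit [CharZero K] in
lemma val_two_lt_one (hA : A.LiesOverPrime 2) : A.valuation (2 : K) < 1 := by
  have := A.mem_nonunits_iff.1 hA
  simpa using this

lemma val_two_ne_zero' : A.valuation (2 : K) ≠ 0 :=
  (Valuation.ne_zero_iff _).mpr two_ne_zero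

lemma val_two_pos : 0 < A.valuation (2 : K) :=
  zero_lt_iff.mpr val_two_ne_zero'

omit [CharZero K] in
/-- odd integers are units. -/
lemma val_int_of_odd (hA : A.LiesOverPrime 2) {n : ℤ} (hn : Odd n) :
    A.valuation (n : K) = 1 := by
  apply valuation_intCast_eq_one hA
  obtain ⟨k, hk⟩ := hn
  exact ⟨1, -k, by rw [hk]; push_cast; ring⟩

omit [CharZero K] in
/-- even integers are nonunits. -/
lemma val_int_of_even (hA : A.LiesOverPrime 2) {n : ℤ} (hn : Even n) :
    A.valuation (n : K) < 1 := by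
  apply valuation_intCast_lt_one hA
  obtain ⟨k, hk⟩ := hn
  exact ⟨k, by rw [hk]; push_cast; ring⟩

omit [CharZero K] in
/-- a nonzero natural number has valuation a natural power of `v 2`. -/
lemma val_nat_eq_pow (hA : A.LiesOverPrime 2) {n : ℕ} (hn : n ≠ 0) :
    ∃ i : ℕ, A.valuation (n : K) = A.valuation (2 : K) ^ i := by
  obtain ⟨k, m, hm, rfl⟩ := Nat.exists_eq_two_pow_mul_odd hn
  refine ⟨k, ?_⟩
  have h1 : A.valuation ((m : ℤ) : K) = 1 := val_int_of_odd hA (by exact_mod_cast hm)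
  push_cast at h1 ⊢
  rw [map_mul, map_pow, h1, mul_one]

omit [CharZero K] in
/-- a nonzero integer has valuation a natural power of `v 2`. -/
lemma val_int_eq_pow (hA : A.LiesOverPrime 2) {n : ℤ} (hn : n ≠ 0) :
    ∃ i : ℕ, A.valuation (n : K) = A.valuation (2 : K) ^ i := by
  obtain ⟨i, hi⟩ := val_nat_eq_pow (K := K) hA (Int.natAbs_ne_zero.mpr hn)
  refine ⟨i, ?_⟩
  rw [← hi]
  rcases Int.natAbs_eq n with h | h
  · conv_lhs => rw [h]
    rw [Int.cast_natCast]
  · conv_lhs => rw [h]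
    rw [Int.cast_neg, Valuation.map_neg, Int.cast_natCast]

/-- a nonzero rational number has valuation an integral power of `v 2`. -/
lemma val_rat_eq_zpow (hA : A.LiesOverPrime 2) {r : ℚ} (hr : r ≠ 0) :
    ∃ c : ℤ, A.valuation ((r : ℚ) : K) = A.valuation (2 : K) ^ c := by
  obtain ⟨i, hi⟩ := val_int_eq_pow (K := K) hA (Rat.num_ne_zero.mpr hr)
  obtain ⟨j, hj⟩ := val_nat_eq_pow (K := K) hA r.den_ne_zero
  refine ⟨(i : ℤ) - j, ?_⟩
  rw [Rat.cast_def, map_div₀, hi, hj, zpow_sub₀ val_two_ne_zero', zpow_natCast, zpow_natCast]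

/-- the denominator of an integral rational number is odd. -/
lemma odd_den_of_val_le_one (hA : A.LiesOverPrime 2) {r : ℚ}
    (hr : A.valuation ((r : ℚ) : K) ≤ 1) : Odd r.den := by
  rcases Nat.even_or_odd r.den with he | ho
  · exfalso
    have hd : A.valuation ((r.den : ℤ) : K) < 1 := val_int_of_even hA (by exact_mod_cast he)
    have hn : A.valuation ((r.num : ℤ) : K) = 1 := by
      apply val_int_of_odd hA
      rcases Int.even_or_odd r.num with hne | hno
      · exfalso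
        have h2 : 2 ∣ r.num.natAbs := by
          have := hne.two_dvd
          exact Int.natCast_dvd.mp (by simpa using this)
        have h3 : 2 ∣ r.den := he.two_dvd
        have := Nat.dvd_gcd h2 h3
        rw [r.reduced.gcd_eq_one] at this
        omega
      · exact hno
    have hd0 : A.valuation ((r.den : ℤ) : K) ≠ 0 := by
      rw [Valuation.ne_zero_iff]
      exact_mod_cast r.den_ne_zero
    have hcast : ((r : ℚ) : K) = ((r.num : ℤ) : K) / ((r.den : ℤ) : K) := by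
      rw [Rat.cast_def]; push_cast; rfl
    rw [hcast, map_div₀, hn, one_div] at hr
    have : 1 < (A.valuation ((r.den : ℤ) : K))⁻¹ :=
      (one_lt_inv₀ (zero_lt_iff.mpr hd0)).mpr hd
    exact absurd hr (not_le.mpr this)
  · exact ho

/-- an integral rational number is congruent to `0` or to `1`. -/
lemma val_rat_lt_or (hA : A.LiesOverPrime 2) {r : ℚ}
    (hr : A.valuation ((r : ℚ) : K) ≤ 1) :
    A.valuation ((r : ℚ) : K) < 1 ∨ A.valuation (((r : ℚ) : K) - 1) < 1 := by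
  have hodd := odd_den_of_val_le_one hA hr
  have hd : A.valuation ((r.den : ℤ) : K) = 1 := val_int_of_odd hA (by exact_mod_cast hodd)
  have hcast : ((r : ℚ) : K) = ((r.num : ℤ) : K) / ((r.den : ℤ) : K) := by
    rw [Rat.cast_def]; push_cast; rfl
  have hd0 : ((r.den : ℤ) : K) ≠ 0 := by exact_mod_cast r.den_ne_zero
  rcases Int.even_or_odd r.num with hne | hno
  · left
    rw [hcast, map_div₀, hd, div_one]
    exact val_int_of_even hA hne
  · right
    have e : ((r : ℚ) : K) - 1 = ((r.num - r.den : ℤ) : K) / ((r.den : ℤ) : K) := by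
      rw [hcast]
      push_cast
      field_simp
    rw [e, map_div₀, hd, div_one]
    apply val_int_of_even hA
    have : Odd (r.den : ℤ) := by exact_mod_cast hodd
    exact hno.sub_odd this

/-- two integral rational numbers are congruent, or their sum is congruent to `1`. -/
lemma val_rat_sub_or (hA : A.LiesOverPrime 2) {r s : ℚ}
    (hr : A.valuation ((r : ℚ) : K) ≤ 1) (hs : A.valuation ((s : ℚ) : K) ≤ 1) :
    A.valuation (((r : ℚ) : K) - ((s : ℚ) : K)) < 1 ∨
      A.valuation (((r : ℚ) : K) + ((s : ℚ) : K) - 1) < 1 := by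
  have h2 := val_two_lt_one hA
  rcases val_rat_lt_or hA hr with h1 | h1 <;> rcases val_rat_lt_or hA hs with h3 | h3
  · left
    exact lt_of_le_of_lt (Valuation.map_sub _ _ _) (max_lt h1 h3)
  · right
    have e : ((r : ℚ) : K) + ((s : ℚ) : K) - 1 = ((r : ℚ) : K) + (((s : ℚ) : K) - 1) := by ring
    rw [e]
    exact lt_of_le_of_lt (Valuation.map_add _ _ _) (max_lt h1 h3)
  · right
    have e : ((r : ℚ) : K) + ((s : ℚ) : K) - 1 = (((r : ℚ) : K) - 1) + ((s : ℚ) : K) := by ring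
    rw [e]
    exact lt_of_le_of_lt (Valuation.map_add _ _ _) (max_lt h1 h3)
  · left
    have e : ((r : ℚ) : K) - ((s : ℚ) : K) = (((r : ℚ) : K) - 1) - (((s : ℚ) : K) - 1) := by ring
    rw [e]
    exact lt_of_le_of_lt (Valuation.map_sub _ _ _) (max_lt h1 h3)

/-- an integral rational unit is congruent to `1`. -/
lemma val_rat_sub_one_of_eq_one (hA : A.LiesOverPrime 2) {r : ℚ}
    (hr : A.valuation ((r : ℚ) : K) = 1) : A.valuation (((r : ℚ) : K) - 1) < 1 := by
  rcases val_rat_lt_or hA hr.le with h | h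
  · exact absurd hr h.ne
  · exact h

end Fermat.Agent.S13.H187

end
-- ===== PACK-END S13/H187/RatVal.lean

-- ===== PACK-BEGIN S59/TW/H81/D561/PerGInj.lean
section


-- Vendored VERBATIM (namespace renamed) by helper81 from helper561's off-main
-- `Fermat/Agent/S38/H561/PerGInj.lean` (origin/helper561), so that the S59 leaf DICT-T is
-- self-contained on main.  All credit for this file: helper561.

/-!
# Row HARD, cell HECKE, leaf DICT (helper561): the period map on `S₂(Γ)` is injective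

`Γ ≤ SL(2, ℤ)` of finite index.  If all periods of `f ∈ S₂(Γ)` vanish, a primitive `F` of `f` is a
modular form of weight `0` on `Γ`, hence constant (Mathlib `ModularForm.eq_const_of_weight_zero`),
so `f = F' = 0`.  (Port of `S48/H548/Per1Inj.lean` from `Γ₁(M)` to a general `Γ`, in the
vocabulary of `S59/TW/H658/PerG.lean`.)
-/

set_option autoImplicit false
set_option linter.unusedSectionVars false

noncomputable section

namespace Fermat.Agent.S59.TW.H81.D561

open CongruenceSubgroup ModularCurve ModularCurve.Period Filter Topology Function Complex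
open UpperHalfPlane hiding I
open Matrix.SpecialLinearGroup
open Fermat.Agent.S59.TW.H658
open scoped Manifold MatrixGroups ModularForm

variable {Γ : Subgroup SL(2, ℤ)} [Γ.FiniteIndex]

theorem isPrimG_mdiff {f F : ℍ → ℂ} (hF : IsPrimG f F) : MDiff F := fun τ ↦
  UpperHalfPlane.mdifferentiableAt_iff.mpr (hF τ).differentiableAt

theorem slash_zero_mapGL_h561 (F : ℍ → ℂ) (γ : SL(2, ℤ)) :
    F ∣[(0 : ℤ)] mapGL ℝ γ = fun w : ℍ ↦ F (γ • w) := by
  funext w
  have h := ModularForm.SL_slash_apply (k := 0) F γ w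
  rw [ModularForm.SL_slash, neg_zero, zpow_zero, mul_one] at h
  exact h

/-- A primitive with vanishing periods, as a modular form of weight `0`. -/
def primFormG (f : CuspForm Γ 2) (F : ℍ → ℂ) (hF : IsPrimG (⇑f) F)
    (hper : perG f = 0) : ModularForm Γ 0 where
  toFun := F
  slash_action_eq' := by
    rintro _ ⟨γ, hγ, rfl⟩
    rw [slash_zero_mapGL_h561]
    funext w
    have h := perG_apply f hF ⟨γ, hγ⟩ w
    rw [hper, AddMonoidHom.zero_apply] at h
    exact (sub_eq_zero.mp h.symm)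
  holo' := isPrimG_mdiff hF
  bdd_at_cusps' := by
    intro c hc
    have hcSL : IsCusp c 𝒮ℒ := by
      rwa [Subgroup.IsArithmetic.isCusp_iff_isCusp_SL2Z] at hc
    obtain ⟨δ, hδ⟩ := isCusp_SL2Z_iff'.mp hcSL
    rw [OnePoint.isBoundedAt_iff hδ.symm, slash_zero_mapGL_h561]
    obtain ⟨L, hL⟩ := exists_cusp_limitG f hF δ
    exact hL.isBigO_one ℝ

/-- The period map has trivial kernel. -/
theorem eq_zero_of_perG_eq_zero (f : CuspForm Γ 2) (hper : perG f = 0) : f = 0 := by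
  obtain ⟨F, hF⟩ := exists_isPrimG f
  obtain ⟨c, hc⟩ := ModularForm.eq_const_of_weight_zero (primFormG f F hF hper)
  have hFc : F = Function.const ℍ c := hc
  apply DFunLike.coe_injective
  funext τ
  have h1 := hF τ
  have h2 : F ∘ ofComplex = fun _ ↦ c := by
    funext z
    rw [Function.comp_apply, hFc]
    rfl
  rw [h2] at h1
  exact h1.unique (hasDerivAt_const _ _)

/-- **The period map `S₂(Γ) → Hom(Γ, ℂ)` is injective.** -/
theorem perGL_injective (Γ : Subgroup SL(2, ℤ)) [Γ.FiniteIndex] :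
    Function.Injective (perGL Γ) := by
  intro f g h
  have h1 : perGL Γ (f - g) = 0 := by rw [map_sub, h, sub_self]
  exact sub_eq_zero.mp (eq_zero_of_perG_eq_zero (f - g) h1)

theorem perG_injective (Γ : Subgroup SL(2, ℤ)) [Γ.FiniteIndex] :
    Function.Injective (perG : CuspForm Γ 2 → (Additive Γ →+ ℂ)) :=
  perGL_injective Γ

end Fermat.Agent.S59.TW.H81.D561

end
end
-- ===== PACK-END S59/TW/H81/D561/PerGInj.lean

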