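import Fermat.Prelude.Def_GaloisRep_ComplexConjugation
import Mathlib
import Fermat.Prelude.Def_AlgebraicCurve_Correspondence
import Fermat.Agent.Pack.S44C.G0E14L3
import Fermat.Agent.Pack.S44C.G0E13L3
import Fermat.Agent.Pack.S43MC.G0E2L2
import Fermat.Agent.Pack.S43MC.G0E12L0
import Fermat.Agent.Pack.S44C.G0E15L2
import Fermat.Agent.Pack.S44C.G0E10L3
import Fermat.Agent.Pack.S44C.G0E0L0
import Fermat.Agent.Pack.S44C.G0E13L0
import Fermat.Agent.Pack.S44C.G0E0L1
import Fermat.Agent.Pack.S44C.G0E6L0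
import Fermat.Agent.Pack.S43MC.G0E7L2
import Fermat.Agent.Pack.S43MC.G0E12L1
import Fermat.Agent.Pack.S43MC.G0E7L1
import Fermat.Agent.Pack.S43GC.G0E5L0
import Fermat.Agent.Pack.S43GC.G0E5L3
import Fermat.Agent.Pack.S43MC.G0E4L1
import Fermat.Agent.Pack.S44C.G0E0L3
import Fermat.Agent.Pack.S43MC.G0E12L3
import Fermat.Agent.Pack.S43GC.G0E9L3
import Fermat.Agent.Pack.S43MC.G0E12L2
import Fermat.Agent.Pack.S43MC.G0E13L0
import Fermat.Agent.Pack.Fast891

-- ===== PACK-BEGIN Ribet/H577/Ram2Ladder.lean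
section


/-!
# RIBET / HARD, leaf RAM2 (helper577), part 1: the `x`-ladder at the `2`-torsion point `x = 0`

For a Weierstrass curve `y² + a₁ x y = x³ + a₂ x² + a₄ x` (`b₆ = 0`, `b₄ = 2 a₄`, `b₈ = -a₄²`) the
point `T = (0, 0)` has order `2`, so the `x`-ladder `lad n` of helper164 evaluated at `x = 0`
alternates between `(0 : *)` (odd `n`) and `(* : 0)` (even `n`), and for even `n ≥ 2` the first
entry is divisible by every divisor `a` of `b₈`.  Consequently the constant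
coefficient of the odd division polynomial `Qpoly W m` (`m ≥ 1`) is divisible by `a`.

For the Frey curve: the constant coefficient of `freyQ P` is even (`constCoeff_freyQ_even577`).
-/

set_option autoImplicit false

namespace Fermat.Agent.Ribet.H577

open Fermat.Agent.S13.H164 Polynomial

section Generic

variable {A : Type*} [CommRing A]

/-- The ladder at `x = 0` for `b₆ = 0`: parity pattern and divisibility. -/
theorem lad_zero_pattern577 (b₂ b₄ b₈ a : A) (h8 : a ∣ b₈) (j : ℕ) :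
    (Odd j → (lad b₂ b₄ 0 b₈ 0 j).1 = 0) ∧
      (Even j → (lad b₂ b₄ 0 b₈ 0 j).2 = 0 ∧ (2 ≤ j → a ∣ (lad b₂ b₄ 0 b₈ 0 j).1)) := by
  induction j using Nat.strong_induction_on with
  | _ j ih =>
    rcases Nat.even_or_odd' j with ⟨k, rfl | rfl⟩
    · -- `j = 2 k`
      refine ⟨fun h => absurd h (by simp), fun _ => ?_⟩
      rcases k with _ | k
      · simp
      · have hk : k + 1 < 2 * (k + 1) := by omega
        obtain ⟨hodd, heven⟩ := ih (k + 1) hk
        rw [lad_two_mul]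
        rcases Nat.even_or_odd (k + 1) with he | ho
        · obtain ⟨hv, hu⟩ := heven he
          have hu' : a ∣ (lad b₂ b₄ 0 b₈ 0 (k + 1)).1 := hu (by
            obtain ⟨r, hr⟩ := he
            omega)
          refine ⟨by simp [dD, hv], fun _ => ?_⟩
          simp only [dN, hv]
          have : (lad b₂ b₄ 0 b₈ 0 (k + 1)).1 ^ 4 -
              b₄ * (lad b₂ b₄ 0 b₈ 0 (k + 1)).1 ^ 2 * 0 ^ 2 -
              2 * 0 * (lad b₂ b₄ 0 b₈ 0 (k + 1)).1 * 0 ^ 3 - b₈ * 0 ^ 4 =
              (lad b₂ b₄ 0 b₈ 0 (k + 1)).1 ^ 4 := by ring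
          rw [this]
          exact dvd_pow hu' (by norm_num)
        · have hu := hodd ho
          refine ⟨by simp [dD, hu], fun _ => ?_⟩
          simp only [dN, hu]
          have : (0 : A) ^ 4 - b₄ * 0 ^ 2 * (lad b₂ b₄ 0 b₈ 0 (k + 1)).2 ^ 2 -
              2 * 0 * 0 * (lad b₂ b₄ 0 b₈ 0 (k + 1)).2 ^ 3 -
              b₈ * (lad b₂ b₄ 0 b₈ 0 (k + 1)).2 ^ 4 =
              -(b₈ * (lad b₂ b₄ 0 b₈ 0 (k + 1)).2 ^ 4) := by ring
          rw [this]
          exact (dvd_neg).mpr (Dvd.dvd.mul_right h8 _)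
    · -- `j = 2 k + 1`
      refine ⟨fun _ => ?_, fun h => absurd h (by simp)⟩
      rcases k with _ | k
      · simp
      · have hk : k + 1 < 2 * (k + 1) + 1 := by omega
        have hk' : k + 1 + 1 < 2 * (k + 1) + 1 := by omega
        obtain ⟨hodd₁, heven₁⟩ := ih (k + 1) hk
        obtain ⟨hodd₂, heven₂⟩ := ih (k + 1 + 1) hk'
        rw [lad_two_mul_add_one]
        rcases Nat.even_or_odd (k + 1) with he | ho
        · have hv₁ := (heven₁ he).1
          have hu₂ := hodd₂ (he.add_one)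
          simp only [oN, oS, oW, hv₁, hu₂]
          ring
        · have hu₁ := hodd₁ ho
          have hv₂ := (heven₂ (ho.add_one)).1
          simp only [oN, oS, oW, hu₁, hv₂]
          ring

/-- The value at `x = 0` of the odd division polynomial is divisible by every divisor of
`b₈` (when `b₆ = 0` and `m ≥ 1`). -/
theorem dvd_oW_lad_zero577 (b₂ b₄ b₈ a : A) (h8 : a ∣ b₈) (m : ℕ) (hm : 1 ≤ m) :
    a ∣ oW (lad b₂ b₄ 0 b₈ 0 m).1 (lad b₂ b₄ 0 b₈ 0 m).2
      (lad b₂ b₄ 0 b₈ 0 (m + 1)).1 (lad b₂ b₄ 0 b₈ 0 (m + 1)).2 := by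
  obtain ⟨hodd₁, heven₁⟩ := lad_zero_pattern577 b₂ b₄ b₈ a h8 m
  obtain ⟨hodd₂, heven₂⟩ := lad_zero_pattern577 b₂ b₄ b₈ a h8 (m + 1)
  rcases Nat.even_or_odd m with he | ho
  · obtain ⟨hv₁, hu₁⟩ := heven₁ he
    have hu₁' := hu₁ (by obtain ⟨r, hr⟩ := he; omega)
    simp only [oW, hv₁, mul_zero, sub_zero]
    exact Dvd.dvd.mul_right hu₁' _
  · have hu₁ := hodd₁ ho
    obtain ⟨-, hu₂⟩ := heven₂ ho.add_one
    have hu₂' := hu₂ (by omega)
    simp only [oW, hu₁, zero_mul, zero_sub]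
    exact (dvd_neg).mpr (Dvd.dvd.mul_right hu₂' _)

end Generic

section Curve

variable {R : Type*} [CommRing R]

/-- For a curve `y² + a₁ x y = x³ + a₂ x² + a₄ x` and `m ≥ 1`: `a₄ ∣ Qpoly W m (0)`. -/
theorem a₄_dvd_eval_zero_Qpoly577 (W : WeierstrassCurve R) (h3 : W.a₃ = 0) (h6 : W.a₆ = 0)
    (m : ℕ) (hm : 1 ≤ m) : W.a₄ ∣ (Qpoly W m).eval 0 := by
  have hb6 : W.b₆ = 0 := by simp [WeierstrassCurve.b₆, h3, h6]
  have hb8 : W.a₄ ∣ W.b₈ := ⟨-W.a₄, by simp [WeierstrassCurve.b₈, h3, h6]; ring⟩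
  rw [eval_Qpoly, hb6]
  exact dvd_oW_lad_zero577 W.b₂ W.b₄ W.b₈ W.a₄ hb8 m hm

end Curve

section Frey

variable (P : FreyPackage)

lemma two_dvd_freyCurveInt_a₄577 : (2 : ℤ) ∣ P.freyCurveInt.a₄ := by
  have h2 : (2 : ℤ) ∣ P.b := (ZMod.intCast_zmod_eq_zero_iff_dvd P.b 2).1 P.hb2
  obtain ⟨s, hs⟩ := h2
  obtain ⟨k, hk⟩ : ∃ k, P.p = 5 + k := ⟨P.p - 5, by have := P.hp5; omega⟩
  have hB : -(P.a ^ P.p) * P.b ^ P.p = 16 * (2 * (-(P.a ^ P.p) * (2 ^ k * s ^ P.p))) := by
    have h2p : (2 : ℤ) ^ P.p = 32 * 2 ^ k := by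
      rw [hk, pow_add]
      norm_num
    rw [hs, mul_pow, h2p]
    ring
  have : P.freyCurveInt.a₄ = 2 * (-(P.a ^ P.p) * (2 ^ k * s ^ P.p)) := by
    change -(P.a ^ P.p) * (P.b ^ P.p) / 16 = _
    rw [hB]
    exact Int.mul_ediv_cancel_left _ (by norm_num)
  exact ⟨_, this⟩

/-- The constant coefficient of the `p`-division polynomial of the Frey curve is even. -/
theorem constCoeff_freyQ_even577 : (2 : ℤ) ∣ (freyQ P).eval 0 := by
  have hm : 1 ≤ P.p / 2 := by have := P.hp5; omega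
  exact (two_dvd_freyCurveInt_a₄577 P).trans
    (a₄_dvd_eval_zero_Qpoly577 P.freyCurveInt rfl rfl (P.p / 2) hm)

end Frey

end Fermat.Agent.Ribet.H577

end
-- ===== PACK-END Ribet/H577/Ram2Ladder.lean

-- ===== PACK-BEGIN S30/H990/Cyclo.lean
section
/-
S30 top glue (helper990): the `p`-adic cyclotomic character with values in a complete local ring
`𝒪` with `p ∈ 𝔪`: Frobenius elements, inertia, complex conjugation, continuity.
-/




set_option autoImplicit false

namespace Fermat.Agent.S30.H990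

open Fermat.Agent.S55.H414 Fermat.Agent.S55.Bridge

section PadicHom

variable (p : ℕ) [Fact p.Prime]

/-- Ring homomorphisms from `ℤ_[p]` to a ring killed by a power of `p` are unique. -/
theorem padicInt_ringHom_ext {R : Type*} [Ring R] (m : ℕ) (hm : (p : R) ^ m = 0)
    (f g : ℤ_[p] →+* R) : f = g := by
  have key : ∀ (h : ℤ_[p] →+* R) (x : ℤ_[p]), h x = ((x.appr m : ℕ) : R) := by
    intro h x
    have := PadicInt.appr_spec m x
    rw [Ideal.mem_span_singleton'] at this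
    obtain ⟨y, hy⟩ := this
    have hx : x = y * (p : ℤ_[p]) ^ m + ((x.appr m : ℕ) : ℤ_[p]) := by rw [hy]; ring
    conv_lhs => rw [hx]
    rw [map_add, map_mul, map_pow, map_natCast, map_natCast, hm, mul_zero, zero_add]
  ext x
  rw [key f, key g]

variable (𝒪 : Type) [CommRing 𝒪] [IsLocalRing 𝒪]
  [IsAdicComplete (IsLocalRing.maximalIdeal 𝒪) 𝒪]

/-- A complete local ring with `p` in its maximal ideal is a `ℤ_[p]`-algebra. -/
theorem exists_padicInt_ringHom (hp : (p : 𝒪) ∈ IsLocalRing.maximalIdeal 𝒪) :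
    Nonempty (ℤ_[p] →+* 𝒪) := by
  classical
  have hpow : ∀ n, (p : 𝒪 ⧸ IsLocalRing.maximalIdeal 𝒪 ^ n) ^ n = 0 := by
    intro n
    have : (p : 𝒪 ⧸ IsLocalRing.maximalIdeal 𝒪 ^ n) ^ n
        = Ideal.Quotient.mk (IsLocalRing.maximalIdeal 𝒪 ^ n) ((p : 𝒪) ^ n) := by
      simp
    rw [this, Ideal.Quotient.eq_zero_iff_mem]
    exact Ideal.pow_mem_pow hp n
  have hzero : ∀ n, ((p ^ n : ℕ) : 𝒪 ⧸ IsLocalRing.maximalIdeal 𝒪 ^ n) = 0 := by
    intro n
    rw [Nat.cast_pow]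
    exact hpow n
  let f : (n : ℕ) → ℤ_[p] →+* 𝒪 ⧸ IsLocalRing.maximalIdeal 𝒪 ^ n := fun n =>
    haveI := ringChar.charP (𝒪 ⧸ IsLocalRing.maximalIdeal 𝒪 ^ n)
    (ZMod.castHom ((ringChar.spec _ _).mp (hzero n))
      (𝒪 ⧸ IsLocalRing.maximalIdeal 𝒪 ^ n)).comp (PadicInt.toZModPow n)
  refine ⟨IsAdicComplete.liftRingHom (IsLocalRing.maximalIdeal 𝒪) f ?_⟩
  intro m n hle
  exact padicInt_ringHom_ext p m (hpow m) _ _

end PadicHom

section CycloZp

variable (p : ℕ) [Fact p.Prime]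

/-- The `p`-adic cyclotomic character of `G_ℚ`. -/
noncomputable def cycloZp : _root_.Fermat.Agent.S30.H990.GQ →* ℤ_[p]ˣ :=
  (cyclotomicCharacter (AlgebraicClosure ℚ) p).comp
    (MulSemiringAction.toRingAut _root_.Fermat.Agent.S30.H990.GQ (AlgebraicClosure ℚ))

theorem cycloZp_spec (σ : _root_.Fermat.Agent.S30.H990.GQ) (n : ℕ) :
    σ (zetaBar (p ^ n)) =
      zetaBar (p ^ n) ^ ((PadicInt.toZModPow n) ((cycloZp p σ : ℤ_[p]ˣ) : ℤ_[p])).val :=
  cyclotomicCharacter.spec p (MulSemiringAction.toRingAut _root_.Fermat.Agent.S30.H990.GQ (AlgebraicClosure ℚ) σ)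
    (zetaBar (p ^ n)) (zetaBar_spec (p ^ n)).pow_eq_one

/-- The value of the cyclotomic character is determined by the action on the roots of unity
`ζ_{p^n}`. -/
theorem toZModPow_cycloZp (σ : _root_.Fermat.Agent.S30.H990.GQ) (n : ℕ) (a : ℕ)
    (h : σ (zetaBar (p ^ n)) = zetaBar (p ^ n) ^ a) :
    (PadicInt.toZModPow n) ((cycloZp p σ : ℤ_[p]ˣ) : ℤ_[p]) = (a : ZMod (p ^ n)) := by
  have h1 := cycloZp_spec p σ n
  rw [h, pow_eq_pow_iff_natCast_eq (zetaBar_spec (p ^ n)), ZMod.natCast_zmod_val] at h1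
  exact h1.symm

theorem cycloZp_eq_of_forall (σ : _root_.Fermat.Agent.S30.H990.GQ) (x : ℤ_[p])
    (h : ∀ n, ∃ a : ℕ, σ (zetaBar (p ^ n)) = zetaBar (p ^ n) ^ a ∧
      (a : ZMod (p ^ n)) = PadicInt.toZModPow n x) :
    ((cycloZp p σ : ℤ_[p]ˣ) : ℤ_[p]) = x := by
  rw [← PadicInt.ext_of_toZModPow]
  intro n
  obtain ⟨a, ha, hax⟩ := h n
  rw [toZModPow_cycloZp p σ n a ha, hax]

/-- Frobenius elements at `ℓ ≠ p`. -/
theorem cycloZp_frobenius {ℓ : ℕ} (hℓ : ℓ.Prime) (hℓp : ℓ ≠ p)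
    (A : ValuationSubring (AlgebraicClosure ℚ)) (hA : A.LiesOverPrime ℓ) (σ : _root_.Fermat.Agent.S30.H990.GQ)
    (hσ : A.IsFrobeniusAt σ ℓ) : ((cycloZp p σ : ℤ_[p]ˣ) : ℤ_[p]) = (ℓ : ℤ_[p]) := by
  have hp : p.Prime := Fact.out
  apply cycloZp_eq_of_forall
  intro n
  have hNv : A.valuation ((p ^ n : ℕ) : AlgebraicClosure ℚ) = 1 := by
    rw [Nat.cast_pow, map_pow, val_prime_eq_one (A := A) hA hℓ hp hℓp, one_pow]
  refine ⟨ℓ, IsFrobeniusAt_apply_root hσ (NeZero.ne _) hNv (zetaBar_spec (p ^ n)).pow_eq_one, ?_⟩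
  rw [map_natCast]

/-- Inertia at `q ≠ p`. -/
theorem cycloZp_inertia {q : ℕ} (hq : q.Prime) (hqp : q ≠ p)
    (P : ValuationSubring (AlgebraicClosure ℚ)) (hP : P.LiesOverPrime q) (σ : _root_.Fermat.Agent.S30.H990.GQ)
    (hσ : σ ∈ P.inertiaSubgroupIn ℚ) : cycloZp p σ = 1 := by
  have hp : p.Prime := Fact.out
  apply Units.ext
  rw [Units.val_one]
  apply cycloZp_eq_of_forall
  intro n
  have hNv : P.valuation ((p ^ n : ℕ) : AlgebraicClosure ℚ) = 1 := by
    rw [Nat.cast_pow, map_pow, val_prime_eq_one (A := P) hP hq hp hqp, one_pow]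
  have h1 := inertia_le_fixingSubgroup_cycloLevel (p ^ n) P hNv hσ
  rw [mem_fixingSubgroup_cycloLevel_iff] at h1
  refine ⟨1, by rw [h1, pow_one], ?_⟩
  rw [Nat.cast_one, map_one]

/-- Complex conjugation inverts roots of unity. -/
theorem complexConjugation_root {N : ℕ} (hN : N ≠ 0) {z : AlgebraicClosure ℚ} (hz : z ^ N = 1) :
    complexConjugation z = z⁻¹ := by
  apply complexEmbedding.toRingHom.injective
  show complexEmbedding (complexConjugation z) = complexEmbedding z⁻¹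
  rw [complexEmbedding_complexConjugation, map_inv₀]
  have h1 : (complexEmbedding z) ^ N = 1 := by rw [← map_pow, hz, map_one]
  exact (Complex.inv_eq_conj (Complex.norm_eq_one_of_pow_eq_one h1 hN)).symm

/-- Complex conjugation. -/
theorem cycloZp_complexConjugation : cycloZp p complexConjugation = -1 := by
  have hp : p.Prime := Fact.out
  apply Units.ext
  rw [Units.val_neg, Units.val_one]
  apply cycloZp_eq_of_forall
  intro n
  have hz := (zetaBar_spec (p ^ n)).pow_eq_one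
  have hpos : 0 < p ^ n := pos_of_ne_zero (NeZero.ne _)
  refine ⟨p ^ n - 1, ?_, ?_⟩
  · rw [complexConjugation_root (NeZero.ne (p ^ n)) hz]
    apply inv_eq_of_mul_eq_one_right
    rw [← pow_succ', Nat.sub_add_cancel hpos, hz]
  · rw [Nat.cast_sub hpos, Nat.cast_one, ZMod.natCast_self, zero_sub, map_neg, map_one]

/-- Continuity. -/
theorem cycloZp_sub_one_mem (n : ℕ) (σ : _root_.Fermat.Agent.S30.H990.GQ) (h : ∀ x ∈ _root_.Fermat.Agent.S55.H414.cycloLevel (p ^ n), σ x = x) :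
    ((cycloZp p σ : ℤ_[p]ˣ) : ℤ_[p]) - 1 ∈ Ideal.span {(p : ℤ_[p]) ^ n} := by
  rw [← PadicInt.ker_toZModPow, RingHom.mem_ker, map_sub, map_one, sub_eq_zero]
  have h1 : σ (zetaBar (p ^ n)) = zetaBar (p ^ n) ^ 1 := by
    rw [pow_one]
    exact h _ (zetaBar_mem_cycloLevel (p ^ n))
  rw [toZModPow_cycloZp p σ n 1 h1, Nat.cast_one]

end CycloZp

section Cyclo

variable (p : ℕ) [Fact p.Prime] (𝒪 : Type) [CommRing 𝒪] [IsLocalRing 𝒪]
  [IsAdicComplete (IsLocalRing.maximalIdeal 𝒪) 𝒪]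

/-- The `p`-adic cyclotomic character with values in `𝒪`. -/
theorem exists_cyclo (hp : (p : 𝒪) ∈ IsLocalRing.maximalIdeal 𝒪) :
    ∃ d : _root_.Fermat.Agent.S30.H990.GQ →* 𝒪ˣ,
      (∀ ℓ : ℕ, ℓ.Prime → ℓ ≠ p → ∀ A : ValuationSubring (AlgebraicClosure ℚ),
        A.LiesOverPrime ℓ → ∀ σ : _root_.Fermat.Agent.S30.H990.GQ, A.IsFrobeniusAt σ ℓ → ((d σ : 𝒪ˣ) : 𝒪) = (ℓ : 𝒪)) ∧
      (∀ q : ℕ, q.Prime → q ≠ p → ∀ P : ValuationSubring (AlgebraicClosure ℚ),
        P.LiesOverPrime q → ∀ σ ∈ P.inertiaSubgroupIn ℚ, d σ = 1) ∧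
      d complexConjugation = -1 ∧
      (∀ (n : ℕ) (σ : _root_.Fermat.Agent.S30.H990.GQ), (∀ x ∈ _root_.Fermat.Agent.S55.H414.cycloLevel (p ^ n), σ x = x) →
        ((d σ : 𝒪ˣ) : 𝒪) - 1 ∈ IsLocalRing.maximalIdeal 𝒪 ^ n) := by
  obtain ⟨φ⟩ := exists_padicInt_ringHom p 𝒪 hp
  refine ⟨(Units.map (φ : ℤ_[p] →* 𝒪)).comp (cycloZp p), ?_, ?_, ?_, ?_⟩
  · intro ℓ hℓ hℓp A hA σ hσ
    show φ ((cycloZp p σ : ℤ_[p]ˣ) : ℤ_[p]) = (ℓ : 𝒪)
    rw [cycloZp_frobenius p hℓ hℓp A hA σ hσ, map_natCast]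
  · intro q hq hqp P hP σ hσ
    rw [MonoidHom.comp_apply, cycloZp_inertia p hq hqp P hP σ hσ, map_one]
  · rw [MonoidHom.comp_apply, cycloZp_complexConjugation]
    apply Units.ext
    show φ ((-1 : ℤ_[p]ˣ) : ℤ_[p]) = ((-1 : 𝒪ˣ) : 𝒪)
    rw [Units.val_neg, Units.val_one, Units.val_neg, Units.val_one, map_neg, map_one]
  · intro n σ h
    have h1 := cycloZp_sub_one_mem p n σ h
    rw [Ideal.mem_span_singleton'] at h1
    obtain ⟨y, hy⟩ := h1
    show φ ((cycloZp p σ : ℤ_[p]ˣ) : ℤ_[p]) - 1 ∈ IsLocalRing.maximalIdeal 𝒪 ^ n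
    have : φ ((cycloZp p σ : ℤ_[p]ˣ) : ℤ_[p]) - 1 = φ y * (p : 𝒪) ^ n := by
      rw [← map_one φ, ← map_sub, ← hy, map_mul, map_pow, map_natCast]
    rw [this]
    exact Ideal.mul_mem_left _ _ (Ideal.pow_mem_pow hp n)

end Cyclo

end Fermat.Agent.S30.H990

end
-- ===== PACK-END S30/H990/Cyclo.lean

-- ===== PACK-BEGIN S31/H622/Pet.lean
section


/-!
# Row S31, piece SS (helper622) — the Petersson inner product on `S₂(Γ₀(N))`

`petC N f g = ∫_ℍ conj (f τ) g τ (Im τ)² χ(τ) dμ(τ)`, where `χ = chiH N` is the `Γ₀(N)`-partition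
of unity and `μ` the hyperbolic measure.  Sesquilinear, positive definite.
-/

set_option autoImplicit false
set_option linter.unusedSectionVars false

open UpperHalfPlane CongruenceSubgroup MeasureTheory
open scoped MatrixGroups ModularForm ComplexConjugate

namespace Fermat.Agent.S31.H622

/-! ### Pointwise facts on the Petersson integrand -/

theorem norm_petersson_two (f h : ℍ → ℂ) (τ : ℍ) :
    ‖petersson 2 f h τ‖ = ‖f τ‖ * ‖h τ‖ * τ.im ^ 2 := by
  rw [petersson, norm_mul, norm_mul, Complex.norm_conj]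
  congr 1
  rw [show ((τ.im : ℂ) ^ (2 : ℤ)) = ((τ.im ^ 2 : ℝ) : ℂ) by push_cast; norm_cast]
  rw [Complex.norm_real, Real.norm_of_nonneg (by positivity)]

theorem norm_petersson_sq (f h : ℍ → ℂ) (τ : ℍ) :
    ‖petersson 2 f h τ‖ ^ 2 = ‖petersson 2 f f τ‖ * ‖petersson 2 h h τ‖ := by
  rw [norm_petersson_two, norm_petersson_two, norm_petersson_two]
  ring

theorem norm_petersson_slash (f : ℍ → ℂ) (β : GL (Fin 2) ℝ) (τ : ℍ) :
    ‖petersson 2 (f ∣[(2 : ℤ)] β) (f ∣[(2 : ℤ)] β) τ‖ = ‖petersson 2 f f (β • τ)‖ := by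
  rw [petersson_slash]
  simp

theorem petersson_add_left (f₁ f₂ h : ℍ → ℂ) (τ : ℍ) :
    petersson 2 (f₁ + f₂) h τ = petersson 2 f₁ h τ + petersson 2 f₂ h τ := by
  simp only [petersson, Pi.add_apply, map_add]
  ring

theorem petersson_add_right (f h₁ h₂ : ℍ → ℂ) (τ : ℍ) :
    petersson 2 f (h₁ + h₂) τ = petersson 2 f h₁ τ + petersson 2 f h₂ τ := by
  simp only [petersson, Pi.add_apply]
  ring

theorem petersson_smul_left (c : ℂ) (f h : ℍ → ℂ) (τ : ℍ) :
    petersson 2 (c • f) h τ = conj c * petersson 2 f h τ := by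
  simp only [petersson, Pi.smul_apply, smul_eq_mul, map_mul]
  ring

theorem petersson_smul_right (c : ℂ) (f h : ℍ → ℂ) (τ : ℍ) :
    petersson 2 f (c • h) τ = c * petersson 2 f h τ := by
  simp only [petersson, Pi.smul_apply, smul_eq_mul]
  ring

theorem petersson_sum_right {ι : Type*} (s : Finset ι) (f : ℍ → ℂ) (h : ι → ℍ → ℂ) (τ : ℍ) :
    petersson 2 f (∑ i ∈ s, h i) τ = ∑ i ∈ s, petersson 2 f (h i) τ := by
  simp only [petersson, Finset.sum_apply, Finset.mul_sum, Finset.sum_mul]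

theorem petersson_sum_left {ι : Type*} (s : Finset ι) (f : ι → ℍ → ℂ) (h : ℍ → ℂ) (τ : ℍ) :
    petersson 2 (∑ i ∈ s, f i) h τ = ∑ i ∈ s, petersson 2 (f i) h τ := by
  simp only [petersson, Finset.sum_apply, map_sum, Finset.sum_mul]

section

variable (N : ℕ) [NeZero N]

/-! ### Bounds and integrability -/

theorem exists_petersson_self_bound (f : CuspForm (Gamma0 N) 2) :
    ∃ C : ℝ, 0 ≤ C ∧ ∀ τ, ‖petersson 2 f f τ‖ ≤ C := by
  obtain ⟨C, hC⟩ := CuspFormClass.petersson_bounded_left 2 (Gamma0 N) f f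
  exact ⟨C, (norm_nonneg _).trans (hC UpperHalfPlane.I), hC⟩

/-- Uniform bound for `petersson 2 (f ∣ α) (g ∣ β)`. -/
theorem exists_petersson_slash_bound (f g : CuspForm (Gamma0 N) 2) :
    ∃ C : ℝ, ∀ (α β : GL (Fin 2) ℝ) (τ : ℍ),
      ‖petersson 2 ((f : ℍ → ℂ) ∣[(2 : ℤ)] α) ((g : ℍ → ℂ) ∣[(2 : ℤ)] β) τ‖ ≤ C := by
  obtain ⟨C₁, h0₁, hC₁⟩ := exists_petersson_self_bound N f
  obtain ⟨C₂, h0₂, hC₂⟩ := exists_petersson_self_bound N g
  refine ⟨Real.sqrt (C₁ * C₂), fun α β τ => ?_⟩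
  refine Real.le_sqrt_of_sq_le ?_
  rw [norm_petersson_sq, norm_petersson_slash, norm_petersson_slash]
  exact mul_le_mul (hC₁ _) (hC₂ _) (norm_nonneg _) h0₁

theorem continuous_slash (f : CuspForm (Gamma0 N) 2) (β : GL (Fin 2) ℝ) :
    Continuous ((f : ℍ → ℂ) ∣[(2 : ℤ)] β) :=
  ((CuspFormClass.holo f).slash 2 β).continuous

theorem continuous_petersson_slash (f g : CuspForm (Gamma0 N) 2) (α β : GL (Fin 2) ℝ) :
    Continuous (petersson 2 ((f : ℍ → ℂ) ∣[(2 : ℤ)] α) ((g : ℍ → ℂ) ∣[(2 : ℤ)] β)) :=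
  petersson_continuous 2 (continuous_slash N f α) (continuous_slash N g β)

theorem integrable_mul_chiH {Φ : ℍ → ℂ} (hc : Continuous Φ) {C : ℝ} (hb : ∀ τ, ‖Φ τ‖ ≤ C) :
    Integrable (fun τ => Φ τ * (chiH N τ : ℂ)) (volume : Measure ℍ) := by
  have h1 : Integrable (fun τ => (chiH N τ : ℂ)) (volume : Measure ℍ) := (integrable_chiH N).ofReal
  exact h1.bdd_mul hc.aestronglyMeasurable (Filter.Eventually.of_forall hb)

theorem slash_one_coe (f : CuspForm (Gamma0 N) 2) :
    (f : ℍ → ℂ) ∣[(2 : ℤ)] (1 : GL (Fin 2) ℝ) = f := SlashAction.slash_one _ _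

theorem exists_petersson_bound (f g : CuspForm (Gamma0 N) 2) :
    ∃ C : ℝ, ∀ τ : ℍ, ‖petersson 2 f g τ‖ ≤ C := by
  obtain ⟨C, hC⟩ := exists_petersson_slash_bound N f g
  refine ⟨C, fun τ => ?_⟩
  have := hC 1 1 τ
  rwa [slash_one_coe, slash_one_coe] at this

theorem integrable_petersson_mul_chiH (f g : CuspForm (Gamma0 N) 2) :
    Integrable (fun τ => petersson 2 f g τ * (chiH N τ : ℂ)) (volume : Measure ℍ) := by
  obtain ⟨C, hC⟩ := exists_petersson_bound N f g
  exact integrable_mul_chiH N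
    (petersson_continuous 2 (ModularFormClass.continuous f) (ModularFormClass.continuous g)) hC

/-! ### The Petersson product -/

/-- The Petersson inner product on `S₂(Γ₀(N))` (conjugate-linear in the first variable). -/
noncomputable def petC (f g : CuspForm (Gamma0 N) 2) : ℂ :=
  ∫ τ : ℍ, petersson 2 f g τ * (chiH N τ : ℂ)

theorem petC_add_left (f₁ f₂ g : CuspForm (Gamma0 N) 2) :
    petC N (f₁ + f₂) g = petC N f₁ g + petC N f₂ g := by
  unfold petC
  rw [← integral_add (integrable_petersson_mul_chiH N f₁ g) (integrable_petersson_mul_chiH N f₂ g)]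
  refine integral_congr_ae (Filter.Eventually.of_forall fun τ => ?_)
  simp only [FunLike.coe_add, petersson_add_left]
  ring

theorem petC_add_right (f g₁ g₂ : CuspForm (Gamma0 N) 2) :
    petC N f (g₁ + g₂) = petC N f g₁ + petC N f g₂ := by
  unfold petC
  rw [← integral_add (integrable_petersson_mul_chiH N f g₁) (integrable_petersson_mul_chiH N f g₂)]
  refine integral_congr_ae (Filter.Eventually.of_forall fun τ => ?_)
  simp only [FunLike.coe_add, petersson_add_right]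
  ring

theorem petC_smul_left (c : ℂ) (f g : CuspForm (Gamma0 N) 2) :
    petC N (c • f) g = conj c * petC N f g := by
  unfold petC
  rw [← integral_const_mul]
  refine integral_congr_ae (Filter.Eventually.of_forall fun τ => ?_)
  simp only [FunLike.coe_smul, petersson_smul_left]
  ring

theorem petC_smul_right (c : ℂ) (f g : CuspForm (Gamma0 N) 2) :
    petC N f (c • g) = c * petC N f g := by
  unfold petC
  rw [← integral_const_mul]
  refine integral_congr_ae (Filter.Eventually.of_forall fun τ => ?_)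
  simp only [FunLike.coe_smul, petersson_smul_right]
  ring

/-- Positive definiteness. -/
theorem eq_zero_of_petC_self_eq_zero (f : CuspForm (Gamma0 N) 2) (h : petC N f f = 0) : f = 0 := by
  set F : ℍ → ℝ := fun τ => ‖f τ‖ ^ 2 * τ.im ^ 2 * chiH N τ with hF
  have hpt : ∀ τ, petersson 2 f f τ * (chiH N τ : ℂ) = ((F τ : ℝ) : ℂ) := by
    intro τ
    simp only [hF, petersson]
    push_cast
    rw [← Complex.conj_mul', zpow_ofNat]
  have hFi : Integrable F (volume : Measure ℍ) := by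
    have h1 := (integrable_petersson_mul_chiH N f f).re
    refine h1.congr (Filter.Eventually.of_forall fun τ => ?_)
    show (petersson 2 (⇑f) (⇑f) τ * ↑(chiH N τ)).re = F τ
    rw [hpt]
    exact Complex.ofReal_re _
  have hFc : Continuous F := by
    have hc : Continuous (f : ℍ → ℂ) := ModularFormClass.continuous f
    exact ((hc.norm.pow 2).mul (UpperHalfPlane.continuous_im.pow 2)).mul (continuous_chiH N)
  have hF0 : ∀ τ, 0 ≤ F τ := fun τ =>
    mul_nonneg (mul_nonneg (sq_nonneg _) (sq_nonneg _)) (chiH_nonneg N τ)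
  have hint : ∫ τ, F τ = 0 := by
    have h2 : petC N f f = ((∫ τ, F τ : ℝ) : ℂ) := by
      unfold petC
      rw [integral_congr_ae (Filter.Eventually.of_forall hpt)]
      exact integral_ofReal
    rw [h2] at h
    exact_mod_cast h
  have hzero := eq_zero_of_integral_eq_zero hFc hF0 hFi hint
  ext τ
  obtain ⟨γ, hγ⟩ := exists_chiH_pos N τ
  have h3 := hzero ((γ : SL(2, ℤ)) • τ)
  simp only [hF] at h3
  have h4 : ‖f ((γ : SL(2, ℤ)) • τ)‖ ^ 2 * ((γ : SL(2, ℤ)) • τ).im ^ 2 = 0 := by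
    rcases mul_eq_zero.mp h3 with h | h
    · exact h
    · exact absurd h hγ.ne'
  have h5 : f ((γ : SL(2, ℤ)) • τ) = 0 := by
    rcases mul_eq_zero.mp h4 with h | h
    · simpa using h
    · exact absurd (pow_eq_zero_iff (two_ne_zero)|>.mp h) (UpperHalfPlane.im_ne_zero _)
  have h6 := SlashInvariantForm.slash_action_eqn_SL'' f γ.2 τ
  rw [h5] at h6
  have h7 : denom ((γ : SL(2, ℤ)) : GL (Fin 2) ℝ) τ ^ (2 : ℤ) ≠ 0 :=
    zpow_ne_zero _ (denom_ne_zero _ _)
  rcases mul_eq_zero.mp h6.symm with h | h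
  · exact absurd h h7
  · simpa using h

end

end Fermat.Agent.S31.H622

end
-- ===== PACK-END S31/H622/Pet.lean

-- ===== PACK-BEGIN S35/H891/DeckF.lean
section


/-!
# S35, cell FROB — the deck lemma for a FROBENIUS lift (helper891)

Variant of helper12's route-G wall (`Fermat/Agent/A2/H12/{Deck,DeckTwo,WallG}.lean`) for a ring
automorphism `φ̃` of the cover which does NOT act trivially on the residue rings of the sheets
(a lift of a Frobenius element).  The hypothesis `h_triv` of `A2.H12.wallG` is replaced by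

* `h_node` : if `φ̃` fixes the sheet `s` and a second sheet `t ≠ s` passes through the closed
  point `𝔫` of `s`, then `φ̃⁻¹` maps `𝔫` into itself (crossing points on a fixed sheet are fixed),

and the root-of-unity hypothesis `τ ζ = ζ` by `φ̃ ζ = ζ ^ Q`.  Conclusion: `φ̃ y / y ^ Q` is
invariant under the Galois group.

Mathlib + `A2.H12` (definitions `Adj`, `TwoAdj`, `SubAdj`, `SepAt`, `chartIdeal`, lemmas
`sheetGraph_connected_sub`, `wallG_comm`, `exists_maximal_of_not_comaximal`).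
-/

set_option autoImplicit false

namespace Fermat.Agent.S35.H891

open Fermat.Agent.A2.H12

open scoped Classical

section Graph

variable {S P : Type*}

/-- **Graph lemma, node form.**  As `A2.H12.fixes_all`, but only the points of a fixed sheet
through which a SECOND sheet passes are assumed to be fixed. -/
theorem fixes_all_node {C : Type*} (inc : S → P → Prop) (col : S → C) (τS : S → S)
    (τP : P → P)
    (h_col : ∀ s, col (τS s) = col s)
    (h_inc : ∀ s p, inc s p → inc (τS s) (τP p))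
    (h_fix : ∀ s t p, τS s = s → s ≠ t → inc s p → inc t p → τP p = p)
    (h_uni : ∀ s t p, inc s p → inc t p → col s = col t → s = t)
    (h_conn : ∀ s t : S, Relation.ReflTransGen (Adj inc) s t)
    (s₀ : S) (h₀ : τS s₀ = s₀) : ∀ s, τS s = s := by
  intro s
  have key : ∀ a b, Relation.ReflTransGen (Adj inc) a b → τS a = a → τS b = b := by
    intro a b hab
    induction hab with
    | refl => exact id
    | @tail b c _ hbc ih =>
      intro ha
      have hb := ih ha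
      by_cases hbc' : b = c
      · rw [← hbc']; exact hb
      · obtain ⟨p, hbp, hcp⟩ := hbc
        have hp : τP p = p := h_fix b c p hb hbc' hbp hcp
        have h1 := h_inc _ p hcp
        rw [hp] at h1
        exact h_uni _ _ p h1 hcp (h_col _)
  exact key s₀ s (h_conn s₀ s) h₀

end Graph

section Two

variable {R₁ R₂ : Type*} [CommRing R₁] [CommRing R₂] {S C : Type*}

/-- **Deck lemma, two charts, ring form, node version.** -/
theorem fixes_all_two_node (ρ₁ : R₁ →+* R₁) (hρ₁ : Function.Surjective ρ₁)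
    (ρ₂ : R₂ →+* R₂) (hρ₂ : Function.Surjective ρ₂)
    (Q₁ : S → Ideal R₁) (Q₂ : S → Ideal R₂) (τS : S → S) (col : S → C)
    (hQ₁ : ∀ s b, b ∈ Q₁ (τS s) → ρ₁ b ∈ Q₁ s)
    (hQ₂ : ∀ s b, b ∈ Q₂ (τS s) → ρ₂ b ∈ Q₂ s)
    (h_col : ∀ s, col (τS s) = col s)
    (h_node₁ : ∀ s t, τS s = s → s ≠ t → ∀ 𝔫 : Ideal R₁, 𝔫.IsMaximal → Q₁ s ≤ 𝔫 → Q₁ t ≤ 𝔫 →
      ∀ b ∈ 𝔫, ρ₁ b ∈ 𝔫)
    (h_node₂ : ∀ s t, τS s = s → s ≠ t → ∀ 𝔫 : Ideal R₂, 𝔫.IsMaximal → Q₂ s ≤ 𝔫 → Q₂ t ≤ 𝔫 →
      ∀ b ∈ 𝔫, ρ₂ b ∈ 𝔫)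
    (h_uni₁ : ∀ 𝔫 : Ideal R₁, 𝔫.IsMaximal → ∀ s t, col s = col t →
      Q₁ s ≤ 𝔫 → Q₁ t ≤ 𝔫 → s = t)
    (h_uni₂ : ∀ 𝔫 : Ideal R₂, 𝔫.IsMaximal → ∀ s t, col s = col t →
      Q₂ s ≤ 𝔫 → Q₂ t ≤ 𝔫 → s = t)
    (h_conn : ∀ s t : S, Relation.ReflTransGen (TwoAdj Q₁ Q₂) s t)
    (s₀ : S) (h₀ : τS s₀ = s₀) : ∀ s, τS s = s := by
  classical
  let Pt := {𝔫 : Ideal R₁ // 𝔫.IsMaximal} ⊕ {𝔫 : Ideal R₂ // 𝔫.IsMaximal}
  let inc : S → Pt → Prop := fun s p =>
    Sum.elim (fun 𝔫 => Q₁ s ≤ 𝔫.1) (fun 𝔫 => Q₂ s ≤ 𝔫.1) p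
  let τP : Pt → Pt := fun p =>
    Sum.elim
      (fun 𝔫 => Sum.inl ⟨𝔫.1.comap ρ₁, by
        have := 𝔫.2
        exact Ideal.comap_isMaximal_of_surjective ρ₁ hρ₁⟩)
      (fun 𝔫 => Sum.inr ⟨𝔫.1.comap ρ₂, by
        have := 𝔫.2
        exact Ideal.comap_isMaximal_of_surjective ρ₂ hρ₂⟩) p
  refine fixes_all_node inc col τS τP h_col ?_ ?_ ?_ ?_ s₀ h₀
  · -- incidence is preserved
    rintro s (𝔫 | 𝔫) hsp
    · intro b hb
      exact hsp (hQ₁ s b hb)
    · intro b hb
      exact hsp (hQ₂ s b hb)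
  · -- crossing points of a fixed sheet are fixed
    rintro s t (𝔫 | 𝔫) hs hst hsp htp
    · have hle : 𝔫.1 ≤ 𝔫.1.comap ρ₁ := fun b hb =>
        Ideal.mem_comap.2 (h_node₁ s t hs hst 𝔫.1 𝔫.2 hsp htp b hb)
      have hmax : (𝔫.1.comap ρ₁).IsMaximal := by
        have := 𝔫.2
        exact Ideal.comap_isMaximal_of_surjective ρ₁ hρ₁
      have : 𝔫.1.comap ρ₁ = 𝔫.1 := (𝔫.2.eq_of_le hmax.ne_top hle).symm
      exact congrArg Sum.inl (Subtype.ext this)
    · have hle : 𝔫.1 ≤ 𝔫.1.comap ρ₂ := fun b hb =>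
        Ideal.mem_comap.2 (h_node₂ s t hs hst 𝔫.1 𝔫.2 hsp htp b hb)
      have hmax : (𝔫.1.comap ρ₂).IsMaximal := by
        have := 𝔫.2
        exact Ideal.comap_isMaximal_of_surjective ρ₂ hρ₂
      have : 𝔫.1.comap ρ₂ = 𝔫.1 := (𝔫.2.eq_of_le hmax.ne_top hle).symm
      exact congrArg Sum.inr (Subtype.ext this)
  · -- COUNT
    rintro s t (𝔫 | 𝔫) hs ht hc
    · exact h_uni₁ 𝔫.1 𝔫.2 s t hc hs ht
    · exact h_uni₂ 𝔫.1 𝔫.2 s t hc hs ht
  · -- connectedness
    intro s t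
    refine Relation.ReflTransGen.mono ?_ _ _ (h_conn s t)
    rintro a b (h | h)
    · obtain ⟨𝔫, h𝔫, ha, hb⟩ := exists_maximal_of_not_comaximal _ _ h
      exact ⟨Sum.inl ⟨𝔫, h𝔫⟩, ha, hb⟩
    · obtain ⟨𝔫, h𝔫, ha, hb⟩ := exists_maximal_of_not_comaximal _ _ h
      exact ⟨Sum.inr ⟨𝔫, h𝔫⟩, ha, hb⟩

end Two

section Kummer

variable {L : Type*} [Field L]

/-- **Kummer part, Frobenius version.**  If `τ` commutes with every `g ∈ G` on `y`, and every
`g ∈ G` multiplies `y` by a root of unity `ζ` with `τ ζ = ζ ^ Q`, then `τ y / y ^ Q` is fixed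
by `G`. -/
theorem kummer_of_commute_pow (G : Set (L ≃+* L)) (τ : L ≃+* L) (y : L) (hy : y ≠ 0) (Q : ℕ)
    (h_comm : ∀ g ∈ G, τ (g y) = g (τ y))
    (h_char : ∀ g ∈ G, ∃ ζ : L, g y = ζ * y ∧ τ ζ = ζ ^ Q) :
    ∀ g ∈ G, g (τ y / y ^ Q) = τ y / y ^ Q := by
  intro g hg
  obtain ⟨ζ, hζ, hτζ⟩ := h_char g hg
  have h1 : g (τ y) = ζ ^ Q * τ y := by
    rw [← h_comm g hg, hζ, map_mul, hτζ]
  have hζ0 : ζ ≠ 0 := by
    rintro rfl
    rw [zero_mul] at hζ
    exact hy ((map_eq_zero_iff g g.injective).1 hζ)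
  have hyQ : y ^ Q ≠ 0 := pow_ne_zero _ hy
  have hζQ : ζ ^ Q ≠ 0 := pow_ne_zero _ hζ0
  rw [map_div₀, h1, map_pow, hζ, mul_pow]
  field_simp

end Kummer

section Val

variable {R : Type*} [CommRing R] {L : Type*} [Field L] [Algebra R L] {S : Type*}

/-- **Frobenius wall, step "φ̃ fixes every sheet".** -/
theorem wallF_fixes [Fintype S] (w : R) (Bfin Binf Bmid : Subalgebra R L)
    (M : S → AddSubgroup L)
    (habs : ∀ s, ∀ c ∈ Bmid, ∀ a ∈ M s, c * a ∈ M s)
    (hfm : Bfin ≤ Bmid) (him : Binf ≤ Bmid)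
    (hM1 : ∀ s, (1 : L) ∉ M s) (hwM : ∀ s, algebraMap R L w ∈ M s)
    (hred_mid : ∀ b ∈ Bmid, (∀ s, b ∈ M s) → ∃ t ∈ Bmid, b = algebraMap R L w * t)
    (hred_fin : ∀ b ∈ Bfin, (∀ s, b ∈ M s) → ∃ t ∈ Bfin, b = algebraMap R L w * t)
    (hred_inf : ∀ b ∈ Binf, (∀ s, b ∈ M s) → ∃ t ∈ Binf, b = algebraMap R L w * t)
    (hcech : ∀ e₁ e₂ : L, e₁ ∈ Bfin → e₂ ∈ Binf →
      (∃ t ∈ Bfin, e₁ ^ 2 - e₁ = algebraMap R L w * t) →
      (∃ t ∈ Binf, e₂ ^ 2 - e₂ = algebraMap R L w * t) →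
      (∃ t ∈ Bmid, e₁ - e₂ = algebraMap R L w * t) →
      ((∃ t ∈ Bfin, e₁ = algebraMap R L w * t) ∧ (∃ t ∈ Binf, e₂ = algebraMap R L w * t)) ∨
      ((∃ t ∈ Bfin, 1 - e₁ = algebraMap R L w * t) ∧
        (∃ t ∈ Binf, 1 - e₂ = algebraMap R L w * t)))
    (τ : L ≃+* L) (hτfin : ∀ b, b ∈ Bfin ↔ τ b ∈ Bfin) (hτinf : ∀ b, b ∈ Binf ↔ τ b ∈ Binf)
    (τS : S → S) (hτM : ∀ s b, b ∈ M s ↔ τ b ∈ M (τS s))
    {C : Type*} (col : S → C) (h_col : ∀ s, col (τS s) = col s)
    (h_node_fin : ∀ s t, τS s = s → s ≠ t → ∀ 𝔫 : Ideal Bfin, 𝔫.IsMaximal →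
      (∀ c : Bfin, (c : L) ∈ M s → c ∈ 𝔫) → (∀ c : Bfin, (c : L) ∈ M t → c ∈ 𝔫) →
      ∀ c : Bfin, c ∈ 𝔫 → ∀ h : τ.symm (c : L) ∈ Bfin, (⟨τ.symm (c : L), h⟩ : Bfin) ∈ 𝔫)
    (h_node_inf : ∀ s t, τS s = s → s ≠ t → ∀ 𝔫 : Ideal Binf, 𝔫.IsMaximal →
      (∀ c : Binf, (c : L) ∈ M s → c ∈ 𝔫) → (∀ c : Binf, (c : L) ∈ M t → c ∈ 𝔫) →
      ∀ c : Binf, c ∈ 𝔫 → ∀ h : τ.symm (c : L) ∈ Binf, (⟨τ.symm (c : L), h⟩ : Binf) ∈ 𝔫)
    (h_uni_fin : ∀ 𝔫 : Ideal Bfin, 𝔫.IsMaximal → ∀ s t, col s = col t →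
      (∀ c : Bfin, (c : L) ∈ M s → c ∈ 𝔫) → (∀ c : Bfin, (c : L) ∈ M t → c ∈ 𝔫) → s = t)
    (h_uni_inf : ∀ 𝔫 : Ideal Binf, 𝔫.IsMaximal → ∀ s t, col s = col t →
      (∀ c : Binf, (c : L) ∈ M s → c ∈ 𝔫) → (∀ c : Binf, (c : L) ∈ M t → c ∈ 𝔫) → s = t)
    (s₀ : S) (h₀ : τS s₀ = s₀) : ∀ s, τS s = s := by
  have hsymm_fin : ∀ b ∈ Bfin, (τ.symm : L →+* L) b ∈ Bfin := by
    intro b hb
    rw [hτfin]
    simpa using hb
  have hsymm_inf : ∀ b ∈ Binf, (τ.symm : L →+* L) b ∈ Binf := by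
    intro b hb
    rw [hτinf]
    simpa using hb
  let ρ₁ : Bfin →+* Bfin := RingHom.restrict (τ.symm : L →+* L) Bfin Bfin hsymm_fin
  let ρ₂ : Binf →+* Binf := RingHom.restrict (τ.symm : L →+* L) Binf Binf hsymm_inf
  have hρ₁ : ∀ b : Bfin, ((ρ₁ b : Bfin) : L) = τ.symm (b : L) := fun b => rfl
  have hρ₂ : ∀ b : Binf, ((ρ₂ b : Binf) : L) = τ.symm (b : L) := fun b => rfl
  have hsurj₁ : Function.Surjective ρ₁ := by
    intro b
    refine ⟨⟨τ (b : L), (hτfin _).1 b.2⟩, Subtype.ext ?_⟩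
    rw [hρ₁]
    simp
  have hsurj₂ : Function.Surjective ρ₂ := by
    intro b
    refine ⟨⟨τ (b : L), (hτinf _).1 b.2⟩, Subtype.ext ?_⟩
    rw [hρ₂]
    simp
  refine fixes_all_two_node ρ₁ hsurj₁ ρ₂ hsurj₂
    (fun s => chartIdeal Bfin (M s) (fun c hc => habs s c (hfm hc)))
    (fun s => chartIdeal Binf (M s) (fun c hc => habs s c (him hc)))
    τS col ?_ ?_ h_col ?_ ?_ ?_ ?_ ?_ s₀ h₀
  · intro s b hb
    rw [mem_chartIdeal] at hb ⊢
    rw [hρ₁, hτM s]
    simpa using hb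
  · intro s b hb
    rw [mem_chartIdeal] at hb ⊢
    rw [hρ₂, hτM s]
    simpa using hb
  · intro s t hs hst 𝔫 h𝔫 hsn htn b hb
    exact h_node_fin s t hs hst 𝔫 h𝔫 (fun c hc => hsn hc) (fun c hc => htn hc) b hb
      (hsymm_fin _ b.2)
  · intro s t hs hst 𝔫 h𝔫 hsn htn b hb
    exact h_node_inf s t hs hst 𝔫 h𝔫 (fun c hc => hsn hc) (fun c hc => htn hc) b hb
      (hsymm_inf _ b.2)
  · intro 𝔫 h𝔫 s t hc hs ht
    exact h_uni_fin 𝔫 h𝔫 s t hc (fun c hcM => hs hcM) (fun c hcM => ht hcM)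
  · intro 𝔫 h𝔫 s t hc hs ht
    exact h_uni_inf 𝔫 h𝔫 s t hc (fun c hcM => hs hcM) (fun c hcM => ht hcM)
  · intro s t
    refine Relation.ReflTransGen.mono ?_ _ _
      (sheetGraph_connected_sub w Bfin Binf Bmid M habs hfm him hM1 hwM hred_mid hred_fin
        hred_inf hcech s t)
    rintro a b (h | h)
    · left
      rintro ⟨c, hc, d, hd, hcd⟩
      exact h ⟨c.1, c.2, hc, d.1, d.2, hd, congrArg Subtype.val hcd⟩
    · right
      rintro ⟨c, hc, d, hd, hcd⟩
      exact h ⟨c.1, c.2, hc, d.1, d.2, hd, congrArg Subtype.val hcd⟩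

/-- **The Frobenius wall, field form.**  Under the hypotheses of `wallF_fixes` and
`A2.H12.wallG_comm`, for every Kummer generator `y` (each `σ ∈ Γ` multiplies `y` by a root of
unity `ζ` with `φ̃ ζ = ζ ^ Q`) the quotient `φ̃ y / y ^ Q` is `Γ`-invariant. -/
theorem wallF [Fintype S] (w : R) (Bfin Binf Bmid : Subalgebra R L)
    (M : S → AddSubgroup L)
    (habs : ∀ s, ∀ c ∈ Bmid, ∀ a ∈ M s, c * a ∈ M s)
    (hfm : Bfin ≤ Bmid) (him : Binf ≤ Bmid)
    (hM1 : ∀ s, (1 : L) ∉ M s) (hwM : ∀ s, algebraMap R L w ∈ M s)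
    (hred_mid : ∀ b ∈ Bmid, (∀ s, b ∈ M s) → ∃ t ∈ Bmid, b = algebraMap R L w * t)
    (hred_fin : ∀ b ∈ Bfin, (∀ s, b ∈ M s) → ∃ t ∈ Bfin, b = algebraMap R L w * t)
    (hred_inf : ∀ b ∈ Binf, (∀ s, b ∈ M s) → ∃ t ∈ Binf, b = algebraMap R L w * t)
    (hcech : ∀ e₁ e₂ : L, e₁ ∈ Bfin → e₂ ∈ Binf →
      (∃ t ∈ Bfin, e₁ ^ 2 - e₁ = algebraMap R L w * t) →
      (∃ t ∈ Binf, e₂ ^ 2 - e₂ = algebraMap R L w * t) →
      (∃ t ∈ Bmid, e₁ - e₂ = algebraMap R L w * t) →
      ((∃ t ∈ Bfin, e₁ = algebraMap R L w * t) ∧ (∃ t ∈ Binf, e₂ = algebraMap R L w * t)) ∨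
      ((∃ t ∈ Bfin, 1 - e₁ = algebraMap R L w * t) ∧
        (∃ t ∈ Binf, 1 - e₂ = algebraMap R L w * t)))
    (τ : L ≃+* L) (hτfin : ∀ b, b ∈ Bfin ↔ τ b ∈ Bfin) (hτinf : ∀ b, b ∈ Binf ↔ τ b ∈ Binf)
    (hτM : ∀ s, ∃ s', ∀ b, b ∈ M s ↔ τ b ∈ M s')
    (hMinj : Function.Injective M)
    {C : Type*} (col : S → C)
    (h_col : ∀ s s', (∀ b, b ∈ M s ↔ τ b ∈ M s') → col s' = col s)
    (h_node_fin : ∀ s t, (∀ b, b ∈ M s ↔ τ b ∈ M s) → s ≠ t → ∀ 𝔫 : Ideal Bfin, 𝔫.IsMaximal →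
      (∀ c : Bfin, (c : L) ∈ M s → c ∈ 𝔫) → (∀ c : Bfin, (c : L) ∈ M t → c ∈ 𝔫) →
      ∀ c : Bfin, c ∈ 𝔫 → ∀ h : τ.symm (c : L) ∈ Bfin, (⟨τ.symm (c : L), h⟩ : Bfin) ∈ 𝔫)
    (h_node_inf : ∀ s t, (∀ b, b ∈ M s ↔ τ b ∈ M s) → s ≠ t → ∀ 𝔫 : Ideal Binf, 𝔫.IsMaximal →
      (∀ c : Binf, (c : L) ∈ M s → c ∈ 𝔫) → (∀ c : Binf, (c : L) ∈ M t → c ∈ 𝔫) →
      ∀ c : Binf, c ∈ 𝔫 → ∀ h : τ.symm (c : L) ∈ Binf, (⟨τ.symm (c : L), h⟩ : Binf) ∈ 𝔫)
    (h_uni_fin : ∀ 𝔫 : Ideal Bfin, 𝔫.IsMaximal → ∀ s t, col s = col t →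
      (∀ c : Bfin, (c : L) ∈ M s → c ∈ 𝔫) → (∀ c : Bfin, (c : L) ∈ M t → c ∈ 𝔫) → s = t)
    (h_uni_inf : ∀ 𝔫 : Ideal Binf, 𝔫.IsMaximal → ∀ s t, col s = col t →
      (∀ c : Binf, (c : L) ∈ M s → c ∈ 𝔫) → (∀ c : Binf, (c : L) ∈ M t → c ∈ 𝔫) → s = t)
    (s₀ : S) (h₀ : ∀ b, b ∈ M s₀ ↔ τ b ∈ M s₀)
    (Γ : Subgroup (L ≃+* L))
    (hΓM : ∀ σ ∈ Γ, ∀ s, ∃ s', ∀ b, b ∈ M s ↔ σ b ∈ M s')
    (hfree : ∀ σ ∈ Γ, ∀ s, (∀ b, b ∈ M s ↔ σ b ∈ M s) → σ = 1)
    (hnorm : ∀ σ ∈ Γ, τ * σ * τ⁻¹ ∈ Γ)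
    (y : L) (hy : y ≠ 0) (Q : ℕ) (hζ : ∀ σ ∈ Γ, ∃ ζ : L, σ y = ζ * y ∧ τ ζ = ζ ^ Q) :
    ∀ σ ∈ Γ, σ (τ y / y ^ Q) = τ y / y ^ Q := by
  choose τS hτS using hτM
  have huniq : ∀ s s', (∀ b, b ∈ M s ↔ τ b ∈ M s') → τS s = s' := by
    intro s s' h
    apply hMinj
    ext c
    have h1 := hτS s (τ.symm c)
    have h2 := h (τ.symm c)
    simp only [RingEquiv.apply_symm_apply] at h1 h2
    rw [← h1, h2]
  have hfixiff : ∀ s, τS s = s → ∀ b, b ∈ M s ↔ τ b ∈ M s := by
    intro s hs c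
    have := hτS s c
    rwa [hs] at this
  have hfix := wallF_fixes w Bfin Binf Bmid M habs hfm him hM1 hwM hred_mid hred_fin hred_inf
    hcech τ hτfin hτinf τS hτS col (fun s => h_col s (τS s) (hτS s))
    (fun s t hs hst => h_node_fin s t (hfixiff s hs) hst)
    (fun s t hs hst => h_node_inf s t (hfixiff s hs) hst)
    h_uni_fin h_uni_inf s₀ (huniq s₀ s₀ h₀)
  have hall : ∀ s b, b ∈ M s ↔ τ b ∈ M s := fun s => hfixiff s (hfix s)
  have hcomm := wallG_comm M τ hall Γ hΓM hfree hnorm s₀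
  exact kummer_of_commute_pow (Γ : Set (L ≃+* L)) τ y hy Q (fun g hg => hcomm g hg y)
    (fun g hg => hζ g hg)

end Val

end Fermat.Agent.S35.H891

end
-- ===== PACK-END S35/H891/DeckF.lean

-- ===== PACK-BEGIN S37/H155/PullAbstract.lean
section
/-
S37 / [PULL] (helper155), abstract part.

For embeddings of function fields (Prelude language `Place`, `Divisor`, `Pic0`, `…Along`):

* `hasLocalGenerators`            : `H818.HasLocalGenerators` always holds (weak approximation);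
* `normCompat_of_span`            : `H818.NormCompat` for a square with equal degrees in which the
                                    image of `F₁` spans `G₁` over `G` (basis transport);
* `pullbackPic0Along_smul`        : `π^*` is equivariant for intertwined semilinear automorphisms;
* `pushforwardAlong_pullbackAlong`: `π_* π^* D = [G : F] • D`;
* `pullbackPic0Along_eq_zero`     : `π^*` is injective on torsion prime to `[G : F]`.
-/






set_option autoImplicit false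
set_option linter.style.haveILetI false

noncomputable section

namespace Fermat.Agent.S37.H155

open AlgebraicCurve Fermat.Agent.S37.H818

variable {K F F₁ G G₁ : Type*} [Field K] [Field F] [Field F₁] [Field G] [Field G₁]
  [Algebra K F] [Algebra K F₁] [Algebra K G] [Algebra K G₁]

/-! ### Local generators -/

/-- Local generators always exist, by the weak approximation theorem. -/
theorem hasLocalGenerators [HasPrincipalDivisors K F₁] (a : F →ₐ[K] F₁)
    (ha : a.toRingHom.IsIntegral) : HasLocalGenerators a ha := by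
  classical
  intro w
  obtain ⟨z, hz⟩ := Fermat.Agent.Lib.RR.H623.weak_approximation
    (Place.fiberAlong a ha (w.restrictAlong a ha)) (fun _ => (0 : F₁))
    (fun v => if v = w then 1 else 0)
  have hw := hz w (Place.mem_fiberAlong.mpr rfl)
  refine ⟨z, ?_, ?_, ?_⟩
  · simpa using hw.1
  · have h2 := hw.2
    simp only [sub_zero, if_true] at h2
    rw [h2]
    exact one_ne_zero
  · intro w' hne hw'
    have h2 := (hz w' (Place.mem_fiberAlong.mpr hw')).2
    simpa [hne] using h2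

/-! ### Norm compatibility -/

/-- **Norm compatibility by basis transport.**  In a commutative square with
`[G₁ : G] = [F₁ : F] < ∞` in which the image of `F₁` spans `G₁` over `G`, norms are compatible. -/
theorem normCompat_of_span (a : F →ₐ[K] F₁) (i : F →ₐ[K] G) (a' : G →ₐ[K] G₁)
    (i₁ : F₁ →ₐ[K] G₁) (hsq : i₁.comp a = a'.comp i)
    (hfin : FiniteAlong K a)
    (hdeg : finrankAlong K a' = finrankAlong K a)
    (hspan : ∀ g : G₁, g ∈ (letI := algebraAlong a'; Submodule.span G (Set.range i₁))) :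
    NormCompat a i a' i₁ := by
  letI := algebraAlong a
  letI := algebraAlong a'
  haveI : Module.Finite F F₁ := hfin
  intro f
  show Algebra.norm G (i₁ f) = i (Algebra.norm F f)
  let b := Module.finBasis F F₁
  have hsq' : ∀ c : F, i₁ (algebraMap F F₁ c) = algebraMap G G₁ (i c) := fun c =>
    congrArg (fun φ : F →ₐ[K] G₁ => φ c) hsq
  have hmap : ∀ y : F₁, i₁ y = ∑ r, (i (b.repr y r)) • i₁ (b r) := by
    intro y
    conv_lhs => rw [← b.sum_repr y]
    rw [map_sum]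
    refine Finset.sum_congr rfl fun r _ => ?_
    rw [Algebra.smul_def, map_mul, hsq', Algebra.smul_def]
  have hspan' : ⊤ ≤ Submodule.span G (Set.range (fun r => i₁ (b r))) := by
    intro g _
    have hg := hspan g
    refine Submodule.span_le.mpr ?_ hg
    rintro _ ⟨y, rfl⟩
    rw [SetLike.mem_coe, hmap y]
    exact Submodule.sum_mem _ fun r _ =>
      Submodule.smul_mem _ _ (Submodule.subset_span ⟨r, rfl⟩)
  have hcard : Fintype.card (Fin (Module.finrank F F₁)) = Module.finrank G G₁ := by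
    rw [Fintype.card_fin]
    exact hdeg.symm
  let b' : Module.Basis (Fin (Module.finrank F F₁)) G G₁ :=
    basisOfTopLeSpanOfCardEqFinrank (fun r => i₁ (b r)) hspan' hcard
  have hb' : ∀ r, b' r = i₁ (b r) := fun r => by
    simp only [b', coe_basisOfTopLeSpanOfCardEqFinrank]
  have hrepr : ∀ (y : F₁) (r : Fin (Module.finrank F F₁)),
      b'.repr (i₁ y) r = i (b.repr y r) := by
    intro y r
    have h1 : i₁ y = ∑ r, (i (b.repr y r)) • b' r := by
      rw [hmap y]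
      exact Finset.sum_congr rfl fun r _ => by rw [hb']
    rw [h1, map_sum, Finsupp.finsetSum_apply]
    simp only [map_smul, Module.Basis.repr_self, Finsupp.smul_single, smul_eq_mul, mul_one,
      Finsupp.single_apply]
    rw [Finset.sum_ite_eq' Finset.univ r]
    simp
  rw [Algebra.norm_eq_matrix_det b', Algebra.norm_eq_matrix_det b]
  have hdet := RingHom.map_det (i : F →+* G) (Algebra.leftMulMatrix b f)
  rw [show (i (Algebra.leftMulMatrix b f).det : G)
    = (i : F →+* G) (Algebra.leftMulMatrix b f).det from rfl, hdet]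
  congr 1
  ext r c
  rw [Algebra.leftMulMatrix_eq_repr_mul, RingHom.mapMatrix_apply, Matrix.map_apply,
    Algebra.leftMulMatrix_eq_repr_mul, hb', ← map_mul, hrepr]
  rfl

/-! ### Galois equivariance -/

/-- `π^*` on `Pic0` is equivariant for intertwined semilinear automorphisms. -/
theorem pullbackPic0Along_smul [HasPrincipalDivisors K G] (i : F →ₐ[K] G)
    (hi : i.toRingHom.IsIntegral) (hFI : FundamentalIdentityAlong K i hi)
    {g : SemilinearAut K F} {g' : SemilinearAut K G}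
    (h : SemilinearAut.IntertwinesAlong (i : F →+* G) g g') (x : Pic0 K F) :
    pullbackPic0Along i hi hFI (g • x) = g' • pullbackPic0Along i hi hFI x := by
  obtain ⟨D, rfl⟩ := Pic0.mk_surjective x
  rw [SemilinearAut.pic0_smul_mk, pullbackPic0Along_mk, pullbackPic0Along_mk,
    SemilinearAut.pic0_smul_mk]
  refine congrArg Pic0.mk (Subtype.ext ?_)
  rw [coe_pullbackDegZeroAlong, SemilinearAut.coe_degZeroSMulHom,
    SemilinearAut.coe_degZeroSMulHom, coe_pullbackDegZeroAlong]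
  exact Fermat.Agent.S29.H571.pullbackAlong_smul i hi h (D : Divisor K F)

/-! ### `π_* π^* = deg` -/

/-- The sum formula `∑ e f = n` along a homomorphism. -/
def SumRamificationInertiaAlong [HasPrincipalDivisors K G] (i : F →ₐ[K] G)
    (hi : i.toRingHom.IsIntegral) : Prop :=
  letI := algebraAlong i
  haveI := isScalarTower_along i
  haveI := isIntegral_along i hi
  SumRamificationInertia K F G

section Instance

variable [Algebra F G] [IsScalarTower K F G] [Algebra.IsIntegral F G] [HasPrincipalDivisors K G]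

theorem pushforward_pullback [SumRamificationInertia K F G] (D : Divisor K F) :
    Divisor.pushforward F (Divisor.pullback G D) = (Module.finrank F G : ℤ) • D := by
  classical
  induction D using Finsupp.induction with
  | zero => simp
  | single_add v n D _ _ ih =>
    rw [map_add, map_add, ih, smul_add]
    congr 1
    rw [Divisor.pullback_single, map_sum]
    have h1 : ∀ w ∈ v.fiber G, Divisor.pushforward F
        (Finsupp.single w (n * (w.ramificationIndex F : ℤ)))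
        = Finsupp.single v (n * ((w.ramificationIndex F : ℤ) * (w.inertiaDeg F : ℤ))) := by
      intro w hw
      rw [Divisor.pushforward_single, Place.mem_fiber.mp hw, mul_assoc]
    rw [Finset.sum_congr rfl h1, ← Finsupp.single_finsetSum, ← Finset.mul_sum,
      SumRamificationInertia.sum_ramificationIndex_mul_inertiaDeg (K := K) (F := F) (F' := G) v,
      Finsupp.smul_single, smul_eq_mul, mul_comm]

end Instance

/-- `π_* π^* D = [G : F] • D`. -/
theorem pushforwardAlong_pullbackAlong [HasPrincipalDivisors K G] (i : F →ₐ[K] G)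
    (hi : i.toRingHom.IsIntegral) (hS : SumRamificationInertiaAlong i hi) (D : Divisor K F) :
    Divisor.pushforwardAlong i hi (Divisor.pullbackAlong i hi D)
      = (finrankAlong K i : ℤ) • D := by
  letI := algebraAlong i
  haveI := isScalarTower_along i
  haveI := isIntegral_along i hi
  haveI : SumRamificationInertia K F G := hS
  exact pushforward_pullback D

/-! ### Injectivity on torsion -/

theorem mk_eq_zero_iff (D : Divisor.degZero (K := K) (F := F)) :
    Pic0.mk D = 0 ↔ (D : Divisor K F) ∈ Divisor.principal (K := K) (F := F) := by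
  unfold Pic0.mk
  rw [QuotientAddGroup.eq_zero_iff, AddSubgroup.mem_addSubgroupOf]

/-- **`π^*` is injective on torsion prime to the degree.** -/
theorem pullbackPic0Along_eq_zero [HasPrincipalDivisors K G] (i : F →ₐ[K] G)
    (hi : i.toRingHom.IsIntegral) (hFI : FundamentalIdentityAlong K i hi)
    (hS : SumRamificationInertiaAlong i hi)
    (hfin : FiniteAlong K i) (hN : NormFormulaAlong K i hfin)
    (m : ℕ) (hcop : Nat.Coprime m (finrankAlong K i)) (x : Pic0 K F) (hm : m • x = 0)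
    (hx : pullbackPic0Along i hi hFI x = 0) : x = 0 := by
  obtain ⟨D, rfl⟩ := Pic0.mk_surjective x
  rw [pullbackPic0Along_mk, mk_eq_zero_iff, coe_pullbackDegZeroAlong] at hx
  have h1 : (finrankAlong K i : ℤ) • (D : Divisor K F) ∈ Divisor.principal (K := K) (F := F) := by
    rw [← pushforwardAlong_pullbackAlong i hi hS]
    exact Divisor.isPrincipal_pushforwardAlong i hi hfin hN hx
  have h2 : (m : ℤ) • (D : Divisor K F) ∈ Divisor.principal (K := K) (F := F) := by
    have h3 : Pic0.mk (m • D) = 0 := hm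
    rw [mk_eq_zero_iff] at h3
    rw [natCast_zsmul]
    exact h3
  rw [mk_eq_zero_iff]
  have hb := Int.gcd_eq_gcd_ab (m : ℤ) (finrankAlong K i : ℤ)
  have hg : ((Int.gcd (m : ℤ) (finrankAlong K i : ℤ) : ℕ) : ℤ) = 1 := by
    rw [Int.gcd_natCast_natCast]
    exact_mod_cast hcop
  rw [hg] at hb
  have e : (D : Divisor K F)
      = Int.gcdA (m : ℤ) (finrankAlong K i : ℤ) • ((m : ℤ) • (D : Divisor K F))
        + Int.gcdB (m : ℤ) (finrankAlong K i : ℤ) • ((finrankAlong K i : ℤ) • (D : Divisor K F)) := by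
    rw [smul_smul, smul_smul, ← add_smul, mul_comm _ (m : ℤ), mul_comm _ (finrankAlong K i : ℤ),
      ← hb, one_smul]
  rw [e]
  exact add_mem (AddSubgroup.zsmul_mem _ h2 _) (AddSubgroup.zsmul_mem _ h1 _)

end Fermat.Agent.S37.H155

end

end
-- ===== PACK-END S37/H155/PullAbstract.lean

-- ===== PACK-BEGIN S28/Theta/Main.lean
section
/-
S28 / (A-θ): the formal identity `(θ j)⁶ = Δ · j⁴ · (j - 1728)³` in `ℤ((q))`.

Analytic input: `Theta/Bracket.lean` (Rankin–Cohen bracket of `Δ` and `E₄`, Sturm bound) and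
Mathlib's `Δ = (E₄³ - E₆²)/1728`; bridges to the formal series of the Prelude from
`H685` (helper685); Leibniz rule for `θ` from `H88/Theta.lean` (helper88).
-/






set_option autoImplicit false

open UpperHalfPlane hiding I
open Complex Filter Function Topology
open scoped Real Manifold MatrixGroups ModularForm
open Derivative ModularForm ModularCurve HahnSeries

noncomputable section

namespace Fermat.Agent.S28

local notation "𝕢" => Periodic.qParam
local notation "Δ" => ModularForm.discriminant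

/-! ### Bridges -/

lemma th327_qExpansion_Δ :
    qExpansion 1 Δ = PowerSeries.X * H685.dedekindEtaUnitC := by
  have h1 : H685.HasQExp 1 Δ (PowerSeries.X * H685.dedekindEtaUnitC) :=
    (H685.HasQExp.X.mul H685.hasQExp_dedekindEtaUnitC).congr_fun
      fun τ => (H685.discriminant_eq_etaC τ).symm
  have h2 : H685.HasQExp 1 Δ (qExpansion 1 Δ) := fun τ => by
    have := th327_good_Δ.hasSum τ
    simpa [smul_eq_mul] using this
  exact H685.HasQExp.unique one_pos h2 h1

lemma th327_qExpansion_E₄ :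
    qExpansion 1 E₄ = eisenstein4.map (Int.castRingHom ℂ) := H685.qExpansion_E4_eq

/-! ### `θ` on power series versus Laurent series -/

lemma th327_thetaL_ofPowerSeries {R : Type*} [CommRing R] (P : PowerSeries R) :
    thetaL R (HahnSeries.ofPowerSeries ℤ R P) = HahnSeries.ofPowerSeries ℤ R (th327_thetaP P) := by
  ext n
  rw [thetaL_coeff]
  rcases le_or_gt 0 n with hn | hn
  · lift n to ℕ using hn
    rw [HahnSeries.ofPowerSeries_apply_coeff, HahnSeries.ofPowerSeries_apply_coeff, th327_thetaP_coeff]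
    push_cast
    rfl
  · rw [ofPowerSeries_coeff_of_neg _ hn, ofPowerSeries_coeff_of_neg _ hn, mul_zero]

/-! ### The identity over `ℂ` -/

/-- `a = E₄`, `b = E₆`, `c = Δ` as Laurent series over `ℂ`. -/
def th327_a : LaurentSeries ℂ := HahnSeries.ofPowerSeries ℤ ℂ (qExpansion 1 E₄)
def th327_b : LaurentSeries ℂ := HahnSeries.ofPowerSeries ℤ ℂ (qExpansion 1 E₆)

lemma th327_ofPowerSeries_Δ :
    HahnSeries.ofPowerSeries ℤ ℂ (qExpansion 1 Δ) = deltaL ℂ := by
  rw [th327_qExpansion_Δ, map_mul, HahnSeries.ofPowerSeries_X, deltaL]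
  rfl

lemma th327_bracket_laurent :
    3 * (deltaL ℂ * thetaL ℂ th327_a) - th327_a * thetaL ℂ (deltaL ℂ)
      + th327_b * deltaL ℂ = 0 := by
  have h := congrArg (HahnSeries.ofPowerSeries ℤ ℂ) th327_bracket_qExpansion
  rw [map_zero, map_add, map_sub, map_mul, map_mul, Algebra.smul_def, map_mul, map_mul,
    ← th327_thetaL_ofPowerSeries, ← th327_thetaL_ofPowerSeries, th327_ofPowerSeries_Δ] at h
  rw [← h]
  simp only [th327_a, th327_b]
  congr 3
  rw [map_ofNat, map_ofNat]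

lemma th327_cube_sub_sq_laurent :
    th327_a ^ 3 - th327_b ^ 2 = 1728 * deltaL ℂ := by
  have h := congrArg (HahnSeries.ofPowerSeries ℤ ℂ) th327_cube_sub_sq_qExpansion
  rw [map_sub, map_pow, map_pow, Algebra.smul_def, map_mul, th327_ofPowerSeries_Δ] at h
  rw [show th327_a ^ 3 - th327_b ^ 2 = _ from h]
  congr 1
  rw [map_ofNat, map_ofNat]

lemma th327_j_mul_delta : jqModC ℂ * deltaL ℂ = th327_a ^ 3 := by
  rw [th327_a, th327_qExpansion_E₄, jqModC, deltaL, mul_mul_mul_comm,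
    HahnSeries.single_mul_single, ← map_mul, ← map_pow]
  have h1 : (jNum.map (Int.castRingHom ℂ)) * (dedekindEtaUnit.map (Int.castRingHom ℂ)) =
      (eisenstein4.map (Int.castRingHom ℂ)) ^ 3 := by
    rw [← map_mul, ← map_pow, jNum, mul_assoc, mul_comm dedekindEtaUnitInv,
      dedekindEtaUnit_mul_inv, mul_one]
  rw [h1]
  simp

lemma th327_deltaL_cancel {x y : LaurentSeries ℂ} (h : x * deltaL ℂ = y * deltaL ℂ) : x = y := by
  have := congrArg (· * deltaInvL ℂ) h
  simpa [mul_assoc, h88_deltaL_mul_deltaInvL] using this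

lemma th327_thetaL_j_mul_delta :
    thetaL ℂ (jqModC ℂ) * deltaL ℂ = - (th327_a ^ 2 * th327_b) := by
  have h1 := congrArg (thetaL ℂ) th327_j_mul_delta
  rw [h88_thetaL_mul, h88_thetaL_pow th327_a 2] at h1
  have h2 := th327_bracket_laurent
  have h3 := th327_j_mul_delta
  apply th327_deltaL_cancel
  push_cast at h1
  linear_combination (deltaL ℂ) * h1 - (thetaL ℂ (deltaL ℂ)) * h3 + th327_a ^ 2 * h2

lemma th327_deltaL_pow_cancel (n : ℕ) {x y : LaurentSeries ℂ}
    (h : x * deltaL ℂ ^ n = y * deltaL ℂ ^ n) : x = y := by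
  induction n with
  | zero => simpa using h
  | succ n ih =>
    apply ih
    apply th327_deltaL_cancel
    rw [mul_assoc, mul_assoc, ← pow_succ]
    exact h

/-- The `θ`-identity over `ℂ`. -/
theorem th327_theta_identity_complex :
    (thetaL ℂ (jqModC ℂ)) ^ 6 = deltaL ℂ * (jqModC ℂ) ^ 4 * (jqModC ℂ - 1728) ^ 3 := by
  have h1 := th327_thetaL_j_mul_delta
  have h2 := th327_cube_sub_sq_laurent
  have h3 := th327_j_mul_delta
  apply th327_deltaL_pow_cancel 6
  have e1 : (thetaL ℂ (jqModC ℂ)) ^ 6 * deltaL ℂ ^ 6 = (th327_a ^ 2 * th327_b) ^ 6 := by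
    rw [← mul_pow, h1]; ring
  have e2 : (deltaL ℂ * (jqModC ℂ) ^ 4 * (jqModC ℂ - 1728) ^ 3) * deltaL ℂ ^ 6 =
      (jqModC ℂ * deltaL ℂ) ^ 4 * (jqModC ℂ * deltaL ℂ - 1728 * deltaL ℂ) ^ 3 := by
    ring
  have e3 : th327_a ^ 3 - 1728 * deltaL ℂ = th327_b ^ 2 := by
    linear_combination h2
  rw [e1, e2, h3, e3]
  ring

/-! ### Descent to `ℤ` -/

lemma th327_coeffMap_intCast_injective :
    Function.Injective (coeffMap (Int.castRingHom ℂ)) := by
  intro x y h
  ext n
  have := congrArg (fun z => z.coeff n) h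
  simp only [coeffMap_coeff, eq_intCast] at this
  exact_mod_cast this

/-- **(A-θ)** `(θ j)⁶ = Δ · j⁴ · (j - 1728)³` in `ℤ((q))`.
(Same statement as the stub `theta_identity` of the captain skeleton.) -/
theorem th327_theta_identity :
    (thetaL ℤ (jqModC ℤ)) ^ 6 = deltaL ℤ * (jqModC ℤ) ^ 4 * (jqModC ℤ - 1728) ^ 3 := by
  apply th327_coeffMap_intCast_injective
  rw [map_pow, h88_coeffMap_thetaL, map_mul, map_mul, map_pow, map_pow, map_sub,
    coeffMap_jqModC, h88_coeffMap_deltaL, map_ofNat]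
  exact th327_theta_identity_complex

/-- The `θ`-identity over an arbitrary commutative ring. -/
theorem th327_theta_identity_ring (R : Type*) [CommRing R] :
    (thetaL R (jqModC R)) ^ 6 = deltaL R * (jqModC R) ^ 4 * (jqModC R - 1728) ^ 3 := by
  have h := congrArg (coeffMap (Int.castRingHom R)) th327_theta_identity
  rw [map_pow, h88_coeffMap_thetaL, map_mul, map_mul, map_pow, map_pow, map_sub,
    coeffMap_jqModC, h88_coeffMap_deltaL, map_ofNat] at h
  exact h

end Fermat.Agent.S28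

end
end
-- ===== PACK-END S28/Theta/Main.lean

-- ===== PACK-BEGIN S59/MFree/H57/Norm.lean
section




/-!
# Row S59, block M-FREE, leaves (N1), (N2), (N3) (helper57)

Restriction and corestriction between `Γ` and the normal subgroup `Γ' = ker κ`:

* `resCor  : ResCorStatement`   — `res ∘ cor = ∑_{d ∈ D} d`,
* `corRes  : CorResStatement`   — `cor ∘ res = |D|`,
* `corConj : CorConjStatement`  — `cor ∘ (conjAct g) = cor`.

Everything is reduced to the coset systems of `S41/H761/CosetSystem.lean`.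
-/

set_option autoImplicit false

namespace Fermat.Agent.S59.MFree.H57

open Fermat.Agent.S41.Spec Fermat.Agent.S41.H761 Fermat.Agent.S59.MFree
open scoped MatrixGroups

universe u

section Basic

variable {Γ : Subgroup SL(2, ℤ)} {D : Type*} [Group D] (κ : Γ →* D)

/-- The inclusion `ker κ → Γ`. -/
abbrev incl57 : kerSub κ →* Γ := Subgroup.inclusion (kerSub_le κ)

theorem incl57_injective : Function.Injective (incl57 κ) := Subgroup.inclusion_injective _

theorem incl57_coe (h : kerSub κ) : ((incl57 κ h : Γ) : SL(2, ℤ)) = (h : SL(2, ℤ)) := rfl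

theorem kappa_incl57 (h : kerSub κ) : κ (incl57 κ h) = 1 := by
  obtain ⟨h1, h2⟩ := mem_kerSub.mp h.2
  exact h2

theorem mem_range_incl57 {g : Γ} : g ∈ (incl57 κ).range ↔ κ g = 1 := by
  constructor
  · rintro ⟨h, rfl⟩
    exact kappa_incl57 κ h
  · intro hg
    exact ⟨⟨g.1, mem_kerSub.mpr ⟨g.2, hg⟩⟩, rfl⟩

theorem range_incl57 : (incl57 κ).range = κ.ker := by
  ext g
  rw [mem_range_incl57, MonoidHom.mem_ker]

theorem finiteIndex_range_incl57 [Finite D] : (incl57 κ).range.FiniteIndex := by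
  rw [range_incl57]
  infer_instance

/-- The element of `ker κ` attached to an element of `Γ` killed by `κ`. -/
def toKer57 (g : Γ) (hg : κ g = 1) : kerSub κ := ⟨g.1, mem_kerSub.mpr ⟨g.2, hg⟩⟩

@[simp] theorem incl57_toKer57 (g : Γ) (hg : κ g = 1) : incl57 κ (toKer57 κ g hg) = g := rfl

theorem incl57_conjKer (g : Γ) (h : kerSub κ) :
    incl57 κ (conjKer κ g h) = g⁻¹ * incl57 κ h * g := rfl

variable {A : Type*} [AddCommGroup A]

/-- A class on `ker κ` does not see conjugation by elements of `ker κ`. -/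
theorem apply_conj_ker57 (x : Additive (kerSub κ) →+ A) (n a : kerSub κ) :
    x (Additive.ofMul (n⁻¹ * a * n)) = x (Additive.ofMul a) := by
  simp only [ofMul_mul, ofMul_inv, map_add, map_neg]
  abel

/-- The diamond operator of `g` only depends on `κ g`. -/
theorem apply_conjKer_congr57 (x : Additive (kerSub κ) →+ A) {g g' : Γ} (hg : κ g = κ g')
    (h : kerSub κ) :
    x (Additive.ofMul (conjKer κ g' h)) = x (Additive.ofMul (conjKer κ g h)) := by
  have hn : κ (g⁻¹ * g') = 1 := by rw [map_mul, map_inv, hg, inv_mul_cancel]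
  have e : conjKer κ g' h = (toKer57 κ _ hn)⁻¹ * conjKer κ g h * toKer57 κ _ hn := by
    apply incl57_injective κ
    rw [map_mul, map_mul, map_inv, incl57_toKer57, incl57_conjKer, incl57_conjKer]
    group
  rw [e, apply_conj_ker57]

theorem conjAct_congr57 (x : Additive (kerSub κ) →+ A) {g g' : Γ} (hg : κ g = κ g') :
    conjAct κ g' x = conjAct κ g x := by
  refine AddMonoidHom.ext fun h' => ?_
  obtain ⟨h, rfl⟩ : ∃ h : kerSub κ, Additive.ofMul h = h' := ⟨Additive.toMul h', rfl⟩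
  rw [conjAct_apply, conjAct_apply]
  exact apply_conjKer_congr57 κ x hg h

/-- `Γ ⧸ ker κ ≃ D` through a section. -/
noncomputable def quotEquiv57 (s : D → Γ) (hs : ∀ d, κ (s d) = d) :
    (Γ ⧸ (incl57 κ).range) ≃ D :=
  Equiv.ofBijective (fun q => κ q.out) <| by
    constructor
    · intro q q' hqq
      have hqq' : κ q.out = κ q'.out := hqq
      have h1 : (q.out)⁻¹ * q'.out ∈ (incl57 κ).range := by
        rw [mem_range_incl57, map_mul, map_inv, hqq', inv_mul_cancel]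
      have h2 : ((q.out : Γ) : Γ ⧸ (incl57 κ).range) = ((q'.out : Γ) : Γ ⧸ (incl57 κ).range) :=
        QuotientGroup.eq.mpr h1
      rwa [QuotientGroup.out_eq', QuotientGroup.out_eq'] at h2
    · intro d
      refine ⟨((s d : Γ) : Γ ⧸ (incl57 κ).range), ?_⟩
      obtain ⟨n, hn⟩ := QuotientGroup.mk_out_eq_mul (incl57 κ).range (s d)
      show κ (((s d : Γ) : Γ ⧸ (incl57 κ).range).out) = d
      rw [hn, map_mul, hs, (mem_range_incl57 κ).mp n.2, mul_one]

theorem quotEquiv57_apply (s : D → Γ) (hs : ∀ d, κ (s d) = d) (q : Γ ⧸ (incl57 κ).range) :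
    quotEquiv57 κ s hs q = κ q.out := rfl

end Basic

/-! ## (N1) -/

theorem resCor : ResCorStatement.{u} := by
  intro Γ D _ _ κ s hs A _ x
  classical
  have hf := incl57_injective κ
  have : (incl57 κ).range.FiniteIndex := finiteIndex_range_incl57 κ
  let _ : Fintype (Γ ⧸ (incl57 κ).range) := (incl57 κ).range.fintypeQuotientOfFiniteIndex
  refine AddMonoidHom.ext fun h' => ?_
  obtain ⟨h, rfl⟩ : ∃ h : kerSub κ, Additive.ofMul h = h' := ⟨Additive.toMul h', rfl⟩
  rw [res_apply]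
  show transferAlong (incl57 κ) x (Additive.ofMul (incl57 κ h)) = _
  rw [transferAlong_eq (incl57 κ) hf (MonoidHom.id Γ) Function.injective_id,
    IsCosetSystem.transfer_apply]
  have hcoc : ∀ q : Γ ⧸ (incl57 κ).range,
      (IsCosetSystem.ofTransfer (incl57 κ) hf (MonoidHom.id Γ) Function.injective_id).coc q
        (incl57 κ h) = conjKer κ q.out h := by
    intro q
    apply IsCosetSystem.coc_eq (j := q)
    show (q.out)⁻¹ * incl57 κ h = incl57 κ (conjKer κ q.out h) * (q.out)⁻¹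
    rw [incl57_conjKer]
    group
  simp only [hcoc]
  rw [AddMonoidHom.finsetSum_apply]
  simp only [conjAct_apply]
  refine Fintype.sum_equiv (quotEquiv57 κ s hs) _ _ fun q => ?_
  apply apply_conjKer_congr57 κ x
  rw [hs, quotEquiv57_apply]

/-! ## (N2) -/

theorem corRes : CorResStatement.{u} := by
  intro Γ D _ _ κ hκ A _ y
  have hf := incl57_injective κ
  have : (incl57 κ).range.FiniteIndex := finiteIndex_range_incl57 κ
  show transferAlong (incl57 κ) (y.comp (MonoidHom.toAdditive (incl57 κ))) = _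
  rw [transferAlong_comp (incl57 κ) hf y]
  congr 1
  rw [← Nat.card_eq_fintype_card]
  exact Nat.card_congr (quotEquiv57 κ (Function.surjInv hκ) (Function.surjInv_eq hκ))

/-! ## (N3) -/

theorem corConj : CorConjStatement.{u} := by
  intro Γ D _ _ κ g A _ x
  classical
  have hf := incl57_injective κ
  have : (incl57 κ).range.FiniteIndex := finiteIndex_range_incl57 κ
  let _ : Fintype (Γ ⧸ (incl57 κ).range) := (incl57 κ).range.fintypeQuotientOfFiniteIndex
  -- the coset system of the transfer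
  have T := IsCosetSystem.ofTransfer (incl57 κ) hf (MonoidHom.id Γ) Function.injective_id
  -- the coset system of the conjugation
  have hd : ∀ n : kerSub κ, g⁻¹ * ((MonoidHom.id Γ).comp (incl57 κ)) n =
      ((MonoidHom.id Γ).comp (incl57 κ)) (conjKer κ g n) * g⁻¹ := by
    intro n
    show g⁻¹ * incl57 κ n = incl57 κ (conjKer κ g n) * g⁻¹
    rw [incl57_conjKer]
    group
  have Sg := IsCosetSystem.single (ι := (MonoidHom.id Γ).comp (incl57 κ))
    (ι' := (MonoidHom.id Γ).comp (incl57 κ)) T.inj (conjKer κ g) g⁻¹ hd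
  have hSg : Sg.transfer x = conjAct κ g x :=
    IsCosetSystem.single_transfer T.inj (conjKer κ g) g⁻¹ hd x
  -- the product system
  have hprod : IsCosetSystem ((MonoidHom.id Γ).comp (incl57 κ)) (MonoidHom.id Γ)
      (fun z : Unit × (Γ ⧸ (incl57 κ).range) => g⁻¹ * (MonoidHom.id Γ) (z.2.out)⁻¹) := by
    refine IsCosetSystem.prod Sg T ?_
    intro i i' q q' n e
    refine ⟨rfl, ?_⟩
    have e' : g⁻¹ * (q.out)⁻¹ = incl57 κ n * (g⁻¹ * (q'.out)⁻¹) := e
    have h1 : (q.out)⁻¹ * q'.out ∈ (incl57 κ).range := by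
      have h2 : (q.out)⁻¹ * q'.out = g * incl57 κ n * g⁻¹ := by
        have h3 : (q.out)⁻¹ = g * incl57 κ n * g⁻¹ * (q'.out)⁻¹ := by
          calc (q.out)⁻¹ = g * (g⁻¹ * (q.out)⁻¹) := by group
            _ = g * (incl57 κ n * (g⁻¹ * (q'.out)⁻¹)) := by rw [e']
            _ = g * incl57 κ n * g⁻¹ * (q'.out)⁻¹ := by group
        rw [h3]
        group
      rw [h2, mem_range_incl57, map_mul, map_mul, kappa_incl57, mul_one, map_inv,
        mul_inv_cancel]
    have h4 : ((q.out : Γ) : Γ ⧸ (incl57 κ).range) = ((q'.out : Γ) : Γ ⧸ (incl57 κ).range) :=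
      QuotientGroup.eq.mpr h1
    rwa [QuotientGroup.out_eq', QuotientGroup.out_eq'] at h4
  have hcomp := IsCosetSystem.transfer_comp Sg T hprod x
  -- comparison with the transfer system
  have hle : ∀ z : Unit × (Γ ⧸ (incl57 κ).range), ∃ (j : Γ ⧸ (incl57 κ).range) (n : kerSub κ),
      g⁻¹ * (MonoidHom.id Γ) (z.2.out)⁻¹ =
        ((MonoidHom.id Γ).comp (incl57 κ)) n * (MonoidHom.id Γ) (j.out)⁻¹ := by
    rintro ⟨_, q⟩
    obtain ⟨m, hm⟩ := QuotientGroup.mk_out_eq_mul (incl57 κ).range (q.out * g)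
    refine ⟨((q.out * g : Γ) : Γ ⧸ (incl57 κ).range),
      toKer57 κ (m : Γ) ((mem_range_incl57 κ).mp m.2), ?_⟩
    show g⁻¹ * (q.out)⁻¹ = (m : Γ) * (((q.out * g : Γ) : Γ ⧸ (incl57 κ).range).out)⁻¹
    rw [hm]
    group
  have htr : ∀ j j' : Γ ⧸ (incl57 κ).range, ∃ g' : Γ, T.act j g' = j' := by
    intro j j'
    refine ⟨j.out * (j'.out)⁻¹, ?_⟩
    rw [(IsCosetSystem.ofTransfer_act (incl57 κ) hf (MonoidHom.id Γ) Function.injective_id j
      (j.out * (j'.out)⁻¹)).1]
    have h5 : (j.out * (j'.out)⁻¹)⁻¹ • ((j.out : Γ) : Γ ⧸ (incl57 κ).range) =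
        ((j'.out : Γ) : Γ ⧸ (incl57 κ).range) := by
      rw [MulAction.Quotient.smul_mk, smul_eq_mul]
      congr 1
      group
    rwa [QuotientGroup.out_eq', QuotientGroup.out_eq'] at h5
  have hcmp := IsCosetSystem.transfer_eq_of_le hprod T hle htr x
  show transferAlong (incl57 κ) (conjAct κ g x) = transferAlong (incl57 κ) x
  rw [transferAlong_eq (incl57 κ) hf (MonoidHom.id Γ) Function.injective_id,
    transferAlong_eq (incl57 κ) hf (MonoidHom.id Γ) Function.injective_id, ← hSg, hcomp, hcmp]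

end Fermat.Agent.S59.MFree.H57

end
-- ===== PACK-END S59/MFree/H57/Norm.lean

-- ===== PACK-BEGIN S59/MFree/H565/NormCriterion.lean
section



/-!
# S59 / M-FREE, leaf (E): the norm criterion (helper565)

`normCriterion : NormCriterionStatement` — a finite free module `V` over a discrete valuation ring
`O` of residue characteristic `p`, with an action of a finite `p`-group `D` such that `V^D = N V`
and `ker N = I_D V`, has an `O`-basis of the form `ρ d (b i)`.

Proof: reduce modulo the maximal ideal (`k ⊗[O] V`), where `ker N̄ ⊆ I_D V̄`; apply the norm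
criterion over the residue field (`NormField.lean`); lift by Nakayama and flatness.
-/

set_option autoImplicit false

namespace Fermat.Agent.S59.MFree.H565

open IsLocalRing TensorProduct

universe u

section Reduce

variable {O : Type u} [CommRing O] [IsLocalRing O] {D : Type*} [Group D]
  {V : Type u} [AddCommGroup V] [Module O V]

/-- The reduction of a representation modulo the maximal ideal. -/
noncomputable def redRep (ρ : Representation O D V) :
    Representation (ResidueField O) D (ResidueField O ⊗[O] V) where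
  toFun d := (ρ d).baseChange (ResidueField O)
  map_one' := by rw [map_one]; exact LinearMap.baseChange_one O V
  map_mul' d e := by rw [map_mul]; exact LinearMap.baseChange_mul _ _

@[simp]
theorem redRep_tmul (ρ : Representation O D V) (d : D) (a : ResidueField O) (x : V) :
    redRep ρ d (a ⊗ₜ[O] x) = a ⊗ₜ[O] ρ d x := by
  simp [redRep]

theorem redRep_mk (ρ : Representation O D V) (d : D) (x : V) :
    redRep ρ d (TensorProduct.mk O (ResidueField O) V 1 x) =
      TensorProduct.mk O (ResidueField O) V 1 (ρ d x) := by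
  simp

end Reduce

section Main

variable {p : ℕ} [Fact p.Prime] {O : Type u} [CommRing O] [IsDomain O]
  [IsDiscreteValuationRing O] {D : Type*} [Group D] [Fintype D]
  {V : Type u} [AddCommGroup V] [Module O V] [Module.Free O V]

theorem natCast_residueField_eq_zero (hp : ¬ IsUnit (p : O)) :
    ((p : ℕ) : ResidueField O) = 0 := by
  have h : residue O (p : O) = 0 := (residue_eq_zero_iff _).mpr hp
  rw [← h, map_natCast]

theorem mk_smul_irreducible {ϖ : O} (hϖ : Irreducible ϖ) (z : V) :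
    TensorProduct.mk O (ResidueField O) V 1 (ϖ • z) = 0 := by
  have h0 : residue O ϖ = 0 := (residue_eq_zero_iff _).mpr hϖ.not_isUnit
  rw [map_smul, TensorProduct.mk_apply, TensorProduct.smul_tmul', Algebra.smul_def, mul_one]
  have : algebraMap O (ResidueField O) ϖ = residue O ϖ := rfl
  rw [this, h0, TensorProduct.zero_tmul]

theorem rho_norm (ρ : Representation O D V) (d : D) (x : V) :
    ρ d (∑ e, ρ e x) = ∑ e, ρ e x := by
  rw [map_sum]
  refine Fintype.sum_equiv (Equiv.mulLeft d) _ _ fun e => ?_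
  rw [Equiv.coe_mulLeft, map_mul]
  rfl

/-- Modulo the maximal ideal, `ker N̄ ⊆ I_D V̄`. -/
theorem ker_norm_redRep (ρ : Representation O D V)
    (hinv : ∀ x : V, (∀ d, ρ d x = x) → ∃ z, x = ∑ d, ρ d z)
    (hker : ∀ x : V, ∑ d, ρ d x = 0 → x ∈ Submodule.span O {w | ∃ d y, w = ρ d y - y})
    (x' : ResidueField O ⊗[O] V) (hx' : ∑ d, redRep ρ d x' = 0) :
    x' ∈ augSpan (redRep ρ) := by
  obtain ⟨x, rfl⟩ := TensorProduct.mk_surjective O V (ResidueField O)
    Ideal.Quotient.mk_surjective x'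
  obtain ⟨ϖ, hϖ⟩ := IsDiscreteValuationRing.exists_irreducible O
  -- `N x ∈ ϖ V`
  have h1 : TensorProduct.mk O (ResidueField O) V 1 (∑ d, ρ d x) = 0 := by
    rw [map_sum, ← hx']
    refine Finset.sum_congr rfl fun d _ => ?_
    rw [redRep_mk]
  have h2 : (∑ d, ρ d x) ∈ (maximalIdeal O) • (⊤ : Submodule O V) := by
    rw [← LinearMap.ker_tensorProductMk]
    exact h1
  rw [hϖ.maximalIdeal_eq, Submodule.ideal_span_singleton_smul,
    Submodule.mem_smul_pointwise_iff_exists] at h2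
  obtain ⟨y, -, hy⟩ := h2
  -- `y` is invariant
  have hyinv : ∀ d, ρ d y = y := by
    intro d
    have h3 : ϖ • (ρ d y - y) = 0 := by
      rw [smul_sub, ← map_smul, hy, rho_norm, sub_self]
    rcases smul_eq_zero.mp h3 with h | h
    · exact absurd h hϖ.ne_zero
    · exact sub_eq_zero.mp h
  obtain ⟨z, hz⟩ := hinv y hyinv
  have h4 : ∑ d, ρ d (x - ϖ • z) = 0 := by
    simp only [map_sub, map_smul, Finset.sum_sub_distrib, ← Finset.smul_sum]
    rw [← hz, hy, sub_self]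
  have h5 := hker _ h4
  have h6 : TensorProduct.mk O (ResidueField O) V 1 x =
      TensorProduct.mk O (ResidueField O) V 1 (x - ϖ • z) := by
    rw [map_sub, mk_smul_irreducible hϖ, sub_zero]
  rw [h6]
  have key : ∀ w ∈ Submodule.span O {w : V | ∃ d y, w = ρ d y - y},
      TensorProduct.mk O (ResidueField O) V 1 w ∈ augSpan (redRep ρ) := by
    intro w hw
    induction hw using Submodule.span_induction with
    | mem w hw =>
      obtain ⟨d, y', rfl⟩ := hw
      rw [map_sub, ← redRep_mk]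
      exact sub_mem_augSpan _ _ _
    | zero => rw [map_zero]; exact Submodule.zero_mem _
    | add w w' _ _ hw hw' => rw [map_add]; exact Submodule.add_mem _ hw hw'
    | smul a w _ hw =>
      rw [map_smul, ← algebraMap_smul (ResidueField O) a]
      exact Submodule.smul_mem _ _ hw
  exact key _ h5

end Main

/-- **Leaf (E): the norm criterion.** -/
theorem normCriterion : NormCriterionStatement.{u} := by
  intro p _ O _ _ _ hp D _ _ hcard V _ _ _ _ ρ hinv hker
  obtain ⟨a, ha⟩ := hcard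
  have hD : IsPGroup p D := IsPGroup.of_card (n := a) (by rw [Nat.card_eq_fintype_card]; exact ha)
  have hp0 : ((p : ℕ) : ResidueField O) = 0 := natCast_residueField_eq_zero hp
  obtain ⟨n, b', hli, hsp⟩ := exists_basis_of_ker_norm_le hD hp0 (redRep ρ)
    (ker_norm_redRep ρ hinv hker)
  have hlift : ∀ i, ∃ v : V, TensorProduct.mk O (ResidueField O) V 1 v = b' i := fun i =>
    TensorProduct.mk_surjective O V (ResidueField O) Ideal.Quotient.mk_surjective _
  choose b hb using hlift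
  have hcomp : (TensorProduct.mk O (ResidueField O) V 1 ∘ fun z : D × Fin n => ρ z.1 (b z.2)) =
      fun z : D × Fin n => redRep ρ z.1 (b' z.2) := by
    funext z
    rw [Function.comp_apply, ← redRep_mk, hb]
  refine ⟨n, b, ?_, ?_⟩
  · apply Module.IsLocalRing.linearIndependent_of_flat
    rw [hcomp]
    exact hli
  · refine IsLocalRing.span_eq_top_of_tmul_eq_basis _ (Module.Basis.mk hli hsp.ge) fun z => ?_
    rw [Module.Basis.mk_apply]
    have := congrFun hcomp z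
    exact this

end Fermat.Agent.S59.MFree.H565

end
-- ===== PACK-END S59/MFree/H565/NormCriterion.lean

-- ===== PACK-BEGIN S59/MFree/H587/KappaSystem.lean
section
/-
Row S59, block M-FREE, next layer (helper587): coset systems whose cocycle preserves a character.

Pure group theory on top of the coset systems of row S41 (`S41/H761/CosetSystem.lean`).
`h : IsCosetSystem ι ι ρ` a coset system from `G` to `G` (a Hecke correspondence), `κ : G →* D`
with `κ (h.coc i g) = κ g` (`PreservesKappa`), `f : K →* G` injective with range `ker κ`.  Then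

* `restrictSystem`             : `ρ` is a coset system from `K` to `K`;
* `restrict_transfer_res`      : its transfer commutes with the restriction along `f`;
* `restrict_transfer_conj`     : its transfer commutes with the conjugation by the elements of `G`
                                 (diamond operators);
* `transferAlong_restrict`     : its transfer commutes with the transfer (corestriction) along `f`.

Also `twistSystem`: the left twist `i ↦ ι (w i) * ρ i` of a coset system has the same transfer.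
-/





set_option autoImplicit false

namespace Fermat.Agent.S59.MFree.H587

open Fermat.Agent.S41.H761 Fermat.Agent.S41.Spec

/-! ## Twists -/

section Twist

variable {𝒢 Γ Γ' : Type*} [Group 𝒢] [Group Γ] [Group Γ'] {I : Type*}
variable {ι : Γ →* 𝒢} {ι' : Γ' →* 𝒢} {ρ : I → 𝒢}

/-- Left twist of a coset system by elements of `Γ`. -/
theorem twistSystem (h : IsCosetSystem ι ι' ρ) (w : I → Γ) :
    IsCosetSystem ι ι' (fun i => ι (w i) * ρ i) where
  inj := h.inj
  exists_mul := by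
    intro i g'
    refine ⟨h.act i g', w i * h.coc i g' * (w (h.act i g'))⁻¹, ?_⟩
    rw [mul_assoc, h.spec i g']
    simp only [map_mul, map_inv, mul_assoc, inv_mul_cancel_left]
  eq_of_mul := by
    intro i j g e
    apply h.eq_of_mul i j ((w i)⁻¹ * g * w j)
    have e2 : ι ((w i)⁻¹ * g * w j) * ρ j = (ι (w i))⁻¹ * (ι g * (ι (w j) * ρ j)) := by
      simp only [map_mul, map_inv, mul_assoc]
    rw [e2, ← e, inv_mul_cancel_left]

theorem twistSystem_spec (h : IsCosetSystem ι ι' ρ) (w : I → Γ) (i : I) (g' : Γ') :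
    ι (w i) * ρ i * ι' g' =
      ι (w i * h.coc i g' * (w (h.act i g'))⁻¹) * (ι (w (h.act i g')) * ρ (h.act i g')) := by
  rw [mul_assoc, h.spec i g']
  simp only [map_mul, map_inv, mul_assoc, inv_mul_cancel_left]

theorem twistSystem_act (h : IsCosetSystem ι ι' ρ) (w : I → Γ) (i : I) (g' : Γ') :
    (twistSystem h w).act i g' = h.act i g' :=
  (twistSystem h w).act_eq (twistSystem_spec h w i g')

theorem twistSystem_coc (h : IsCosetSystem ι ι' ρ) (w : I → Γ) (i : I) (g' : Γ') :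
    (twistSystem h w).coc i g' = w i * h.coc i g' * (w (h.act i g'))⁻¹ :=
  (twistSystem h w).coc_eq (twistSystem_spec h w i g')

/-- A twist does not change the transfer. -/
theorem twistSystem_transfer [Fintype I] {A : Type*} [AddCommGroup A]
    (h : IsCosetSystem ι ι' ρ) (w : I → Γ) (φ : Additive Γ →+ A) :
    (twistSystem h w).transfer φ = h.transfer φ := by
  refine AddMonoidHom.ext fun g' => ?_
  obtain ⟨g, rfl⟩ : ∃ g : Γ', Additive.ofMul g = g' := ⟨Additive.toMul g', rfl⟩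
  rw [IsCosetSystem.transfer_apply, IsCosetSystem.transfer_apply]
  have e1 : ∀ i : I, φ (Additive.ofMul ((twistSystem h w).coc i g)) =
      φ (Additive.ofMul (w i)) + φ (Additive.ofMul (h.coc i g)) -
        φ (Additive.ofMul (w (h.act i g))) := by
    intro i
    rw [twistSystem_coc h w, ofMul_mul, ofMul_mul, ofMul_inv, map_add, map_add, map_neg]
    abel
  rw [Finset.sum_congr rfl (fun i _ => e1 i), Finset.sum_sub_distrib, Finset.sum_add_distrib]
  have hperm : ∑ i, φ (Additive.ofMul (w (h.act i g))) = ∑ i, φ (Additive.ofMul (w i)) :=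
    Equiv.sum_comp (h.actEquiv g) (fun i => φ (Additive.ofMul (w i)))
  rw [hperm]
  abel

end Twist

/-! ## Systems preserving a character -/

section Kappa

variable {𝒢 G K D : Type*} [Group 𝒢] [Group G] [Group K] [Group D] {I : Type*}
variable {ι : G →* 𝒢} {ρ : I → 𝒢}

/-- The cocycle of the coset system preserves `κ`. -/
def PreservesKappa (h : IsCosetSystem ι ι ρ) (κ : G →* D) : Prop :=
  ∀ (i : I) (g : G), κ (h.coc i g) = κ g

variable (h : IsCosetSystem ι ι ρ) {κ : G →* D} (hκ : PreservesKappa h κ)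
variable (f : K →* G) (hf : Function.Injective f) (hr : ∀ g : G, g ∈ f.range ↔ κ g = 1)

include hκ hf hr in
/-- A coset system preserving `κ` restricts to `ker κ`. -/
theorem restrictSystem : IsCosetSystem (ι.comp f) (ι.comp f) ρ where
  inj := h.inj.comp hf
  exists_mul := by
    intro i k
    have h1 : h.coc i (f k) ∈ f.range := (hr _).2 (by rw [hκ, (hr _).1 ⟨k, rfl⟩])
    obtain ⟨k', hk'⟩ := h1
    refine ⟨h.act i (f k), k', ?_⟩
    rw [MonoidHom.comp_apply, MonoidHom.comp_apply, hk']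
    exact h.spec i (f k)
  eq_of_mul := fun i j k e => h.eq_of_mul i j (f k) e

theorem restrictSystem_act (i : I) (k : K) :
    (restrictSystem h hκ f hf hr).act i k = h.act i (f k) := by
  have e : ρ i * ι (f k) = ι (f ((restrictSystem h hκ f hf hr).coc i k)) *
      ρ ((restrictSystem h hκ f hf hr).act i k) := (restrictSystem h hκ f hf hr).spec i k
  exact (h.act_eq e).symm

theorem restrictSystem_coc (i : I) (k : K) :
    f ((restrictSystem h hκ f hf hr).coc i k) = h.coc i (f k) := by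
  have e : ρ i * ι (f k) = ι (f ((restrictSystem h hκ f hf hr).coc i k)) *
      ρ ((restrictSystem h hκ f hf hr).act i k) := (restrictSystem h hκ f hf hr).spec i k
  exact (h.coc_eq e).symm

variable {A : Type*} [AddCommGroup A]

/-- The restricted system commutes with the restriction along `f`. -/
theorem restrict_transfer_res [Fintype I] (φ : Additive G →+ A) :
    (restrictSystem h hκ f hf hr).transfer (φ.comp (MonoidHom.toAdditive f)) =
      (h.transfer φ).comp (MonoidHom.toAdditive f) := by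
  refine AddMonoidHom.ext fun k' => ?_
  obtain ⟨k, rfl⟩ : ∃ k : K, Additive.ofMul k = k' := ⟨Additive.toMul k', rfl⟩
  rw [IsCosetSystem.transfer_apply]
  show _ = h.transfer φ (Additive.ofMul (f k))
  rw [IsCosetSystem.transfer_apply]
  refine Finset.sum_congr rfl fun i _ => ?_
  show φ (Additive.ofMul (f ((restrictSystem h hκ f hf hr).coc i k))) = _
  rw [restrictSystem_coc h hκ f hf hr]

/-- The restricted system commutes with the conjugation by the elements of `G`. -/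
theorem restrict_transfer_conj [Fintype I] (g : G) (c : K →* K)
    (hc : ∀ k, f (c k) = g⁻¹ * f k * g) (φ : Additive K →+ A) :
    (restrictSystem h hκ f hf hr).transfer (φ.comp (MonoidHom.toAdditive c)) =
      ((restrictSystem h hκ f hf hr).transfer φ).comp (MonoidHom.toAdditive c) := by
  classical
  set h' := restrictSystem h hκ f hf hr with hh'
  -- the correction terms
  have hα : ∀ j : I, ∃ a : K, f a = h.coc j g * g⁻¹ := by
    intro j
    have h1 : h.coc j g * g⁻¹ ∈ f.range := (hr _).2 (by rw [map_mul, hκ, map_inv, mul_inv_cancel])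
    exact h1
  choose α hα using hα
  have hinv : ∀ i : I, h.coc i g⁻¹ = (h.coc (h.act i g⁻¹) g)⁻¹ := by
    intro i
    have h1 := h.coc_mul i g⁻¹ g
    rw [inv_mul_cancel, h.coc_one] at h1
    exact eq_inv_of_mul_eq_one_left h1.symm
  have key : ∀ (i : I) (k : K), h'.coc i (c k) =
      c ((α (h.act i g⁻¹))⁻¹ * h'.coc (h.act i g⁻¹) k * α (h.act (h.act i g⁻¹) (f k))) := by
    intro i k
    apply hf
    rw [restrictSystem_coc h hκ f hf hr, hc, hc, h.coc_mul, h.coc_mul, h.act_mul, hinv i,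
      map_mul, map_mul, map_inv, hα, hα, restrictSystem_coc h hκ f hf hr]
    group
  refine AddMonoidHom.ext fun k' => ?_
  obtain ⟨k, rfl⟩ : ∃ k : K, Additive.ofMul k = k' := ⟨Additive.toMul k', rfl⟩
  rw [IsCosetSystem.transfer_apply]
  show _ = h'.transfer φ (Additive.ofMul (c k))
  rw [IsCosetSystem.transfer_apply]
  simp only [key]
  let ψ : Additive K →+ A := φ.comp (MonoidHom.toAdditive c)
  let F : I → A := fun j => - ψ (Additive.ofMul (α j)) + ψ (Additive.ofMul (h'.coc j k)) +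
    ψ (Additive.ofMul (α (h.act j (f k))))
  have e1 : ∀ i : I, φ (Additive.ofMul (c ((α (h.act i g⁻¹))⁻¹ * h'.coc (h.act i g⁻¹) k *
      α (h.act (h.act i g⁻¹) (f k))))) = F (h.actEquiv g⁻¹ i) := by
    intro i
    show ψ (Additive.ofMul ((α (h.act i g⁻¹))⁻¹ * h'.coc (h.act i g⁻¹) k *
      α (h.act (h.act i g⁻¹) (f k)))) = _
    simp only [F, ofMul_mul, ofMul_inv, map_add, map_neg, IsCosetSystem.actEquiv_apply]
  have e3 : ∑ i, φ (Additive.ofMul (c ((α (h.act i g⁻¹))⁻¹ * h'.coc (h.act i g⁻¹) k *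
      α (h.act (h.act i g⁻¹) (f k))))) = ∑ j, F j := by
    rw [Finset.sum_congr rfl (fun i _ => e1 i)]
    exact Equiv.sum_comp (h.actEquiv g⁻¹) F
  rw [e3]
  simp only [F, Finset.sum_add_distrib, Finset.sum_neg_distrib]
  have hperm : ∑ j, ψ (Additive.ofMul (α (h.act j (f k)))) = ∑ j, ψ (Additive.ofMul (α j)) :=
    Equiv.sum_comp (h.actEquiv (f k)) (fun j => ψ (Additive.ofMul (α j)))
  rw [hperm]
  have e2 : ∀ j : I, (φ.comp (MonoidHom.toAdditive c)) (Additive.ofMul (h'.coc j k)) =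
      ψ (Additive.ofMul (h'.coc j k)) := fun _ => rfl
  simp only [e2]
  abel

/-- The restricted system commutes with the transfer along `f`. -/
theorem transferAlong_restrict [Fintype I] [hfin : f.range.FiniteIndex]
    (φ : Additive K →+ A) :
    transferAlong f ((restrictSystem h hκ f hf hr).transfer φ) =
      h.transfer (transferAlong f φ) := by
  classical
  let _ : Fintype (G ⧸ f.range) := f.range.fintypeQuotientOfFiniteIndex
  have hι : Function.Injective ι := h.inj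
  set h' := restrictSystem h hκ f hf hr with hh'
  have hC := IsCosetSystem.ofTransfer f hf ι hι
  -- the two product systems
  have hP1 : IsCosetSystem (ι.comp f) ι
      (fun x : I × (G ⧸ f.range) => ρ x.1 * ι (x.2.out)⁻¹) := by
    refine IsCosetSystem.prod h' hC ?_
    intro i i' q q' k e
    -- `ρ i * ι (q.out⁻¹ * q'.out) = ι (f k) * ρ i'`
    have e1 : ρ i * ι ((q.out)⁻¹ * q'.out) = ι (f k) * ρ i' := by
      rw [map_mul, ← mul_assoc, e, MonoidHom.comp_apply]
      simp only [mul_assoc, ← map_mul, inv_mul_cancel, map_one, mul_one]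
    obtain ⟨ha, hc⟩ := h.unique e1
    have hw : κ ((q.out)⁻¹ * q'.out) = 1 := by
      rw [← hκ i, hc]
      exact (hr _).1 ⟨k, rfl⟩
    have hq : q = q' := by
      have h2 : ((q.out : G) : G ⧸ f.range) = ((q'.out : G) : G ⧸ f.range) :=
        QuotientGroup.eq.mpr ((hr _).2 hw)
      rwa [QuotientGroup.out_eq', QuotientGroup.out_eq'] at h2
    subst hq
    rw [inv_mul_cancel, h.act_one] at ha
    exact ⟨ha, rfl⟩
  have hP2 : IsCosetSystem (ι.comp f) ι
      (fun x : (G ⧸ f.range) × I => ι (x.1.out)⁻¹ * ρ x.2) := by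
    refine IsCosetSystem.prod hC h ?_
    intro q q' i i' k e
    have e1 : ρ i = ι (q.out * f k * (q'.out)⁻¹) * ρ i' := by
      have e2 : ι (q.out * f k * (q'.out)⁻¹) * ρ i' =
          ι q.out * ((ι.comp f) k * (ι (q'.out)⁻¹ * ρ i')) := by
        simp only [map_mul, MonoidHom.comp_apply, mul_assoc]
      rw [e2, ← e, ← mul_assoc, ← map_mul, mul_inv_cancel, map_one, one_mul]
    have hi : i = i' := h.eq_of_mul i i' _ e1
    subst hi
    have e3 : ι (q.out * f k * (q'.out)⁻¹) = 1 := by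
      have := e1
      nth_rewrite 1 [← one_mul (ρ i)] at this
      exact (mul_right_cancel this).symm
    have e4 : q.out * f k * (q'.out)⁻¹ = 1 := hι (by rw [e3, map_one])
    have e5 : (q.out)⁻¹ * q'.out = f k := by
      have : q.out * f k = q'.out := mul_inv_eq_one.mp e4
      rw [← this, inv_mul_cancel_left]
    have h2 : ((q.out : G) : G ⧸ f.range) = ((q'.out : G) : G ⧸ f.range) :=
      QuotientGroup.eq.mpr (e5 ▸ ⟨k, rfl⟩)
    rw [QuotientGroup.out_eq', QuotientGroup.out_eq'] at h2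
    exact ⟨h2, rfl⟩
  rw [transferAlong_eq f hf ι hι, transferAlong_eq f hf ι hι,
    IsCosetSystem.transfer_comp h' (IsCosetSystem.ofTransfer f hf ι hι) hP1,
    IsCosetSystem.transfer_comp (IsCosetSystem.ofTransfer f hf ι hι) h hP2]
  refine IsCosetSystem.transfer_eq_of_le_of_card hP1 hP2 ?_ ?_ φ
  · rw [Fintype.card_prod, Fintype.card_prod, mul_comm]
  · rintro ⟨i, q⟩
    -- `ρ i * ι q.out⁻¹ = ι γ * ρ i'`
    set γ := h.coc i (q.out)⁻¹ with hγ
    set i' := h.act i (q.out)⁻¹ with hi'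
    have hmem : γ * ((γ⁻¹ : G) : G ⧸ f.range).out ∈ f.range := by
      have h2 : (((γ⁻¹ : G) : G ⧸ f.range).out : G ⧸ f.range) = ((γ⁻¹ : G) : G ⧸ f.range) :=
        QuotientGroup.out_eq' _
      have h3 := QuotientGroup.eq.mp h2.symm
      rwa [inv_inv] at h3
    obtain ⟨k, hk⟩ := hmem
    refine ⟨(((γ⁻¹ : G) : G ⧸ f.range), i'), k, ?_⟩
    show ρ i * ι (q.out)⁻¹ = (ι.comp f) k * (ι (((γ⁻¹ : G) : G ⧸ f.range).out)⁻¹ * ρ i')
    rw [MonoidHom.comp_apply, hk, ← mul_assoc, ← map_mul, mul_inv_cancel_right, h.spec i (q.out)⁻¹]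

end Kappa

end Fermat.Agent.S59.MFree.H587

end
-- ===== PACK-END S59/MFree/H587/KappaSystem.lean

-- ===== PACK-BEGIN S59/H667/E23Galois.lean
section





/-!
# S59 / layer E, pieces E2+E3 at finite level (helper667)

For the Galois module `E[p^n] = W(ℚ̄)[p^n]` of an integral Weierstrass model `W` (with `Δ ≠ 0`),
assuming it is free of rank two over `ℤ/p^n` (a basis is passed as a hypothesis) and that some
element of `G_ℚ` does not act as a scalar on `E[p]` (true as soon as `E[p]` is irreducible):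

* `det_rhoFin_eq_cycloPow` / `det_rhoFin_eq_natCast` (E3): `det ρ_{p^n}(σ)` is the mod `p^n`
  cyclotomic character of `σ` — WITHOUT the Weil pairing;
* `charpoly_rhoFin_frob` (E2): for a Frobenius element `τ` at a prime `ℓ ≥ 5`, `ℓ ≠ p`, of good
  reduction, `charpoly ρ_{p^n}(τ) = X² − a_ℓ X + ℓ`.

Inputs (passed as hypotheses, both proved on main):
`Fermat.Agent.Lib.Frob.FrobRelation` and `Fermat.Agent.Lib.Cheb.Spec.FrobeniusDivisionStatement`.
-/

set_option autoImplicit false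

open WeierstrassCurve WeierstrassCurve.Affine WeierstrassCurve.Affine.Point Polynomial

namespace Fermat.Agent.S59.H667

/-- `ℚ̄` -/
abbrev QbE : Type := AlgebraicClosure ℚ

/-- `Gal(ℚ̄/ℚ)` -/
abbrev GQE : Type := QbE ≃ₐ[ℚ] QbE

/-- `W(ℚ̄)` -/
abbrev PtsE (W : WeierstrassCurve ℤ) : Type :=
  ((W.map (Int.castRingHom ℚ))⁄QbE).Point

/-- `W(ℚ̄)[m]` -/
abbrev TorsE (W : WeierstrassCurve ℤ) (m : ℕ) : Type :=
  Submodule.torsionBy ℤ (PtsE W) m

/-- the Galois representation on `W(ℚ̄)[m]` -/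
noncomputable abbrev rhoFin (W : WeierstrassCurve ℤ) (m : ℕ) :
    GQE →* Module.End (ZMod m) (TorsE W m) :=
  galoisRepModuleEnd (K := QbE) ℚ (W.map (Int.castRingHom ℚ)) m

variable (W : WeierstrassCurve ℤ)

theorem rhoFin_apply (m : ℕ) (σ : GQE) (x : TorsE W m) : rhoFin W m σ x = σ • x := rfl

theorem coe_smul_torsE (m : ℕ) (σ : GQE) (x : TorsE W m) :
    ((σ • x : TorsE W m) : PtsE W) = σ • (x : PtsE W) := rfl

theorem coe_zmod_smul_torsE (m : ℕ) (c : ℤ) (x : TorsE W m) :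
    (((c : ZMod m) • x : TorsE W m) : PtsE W) = c • (x : PtsE W) := by
  rw [Int.cast_smul_eq_zsmul]
  rfl

theorem natCast_nsmul_torsE (m : ℕ) (x : TorsE W m) : m • (x : PtsE W) = 0 := by
  have h := x.2
  rw [Submodule.mem_torsionBy_iff] at h
  rw [← natCast_zsmul]
  exact h

/-- **Frobenius relation in `End(E[m])`.** -/
theorem frob_relation_end (hFrob : Fermat.Agent.Lib.Frob.FrobRelation) (ℓ : ℕ) (hℓ : ℓ.Prime)
    (h5 : 5 ≤ ℓ) (hgood : W.IsGoodPrimeFor ℓ) (A : ValuationSubring QbE) (τ : GQE)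
    (hA : A.LiesOverPrime ℓ) (hτ : A.IsFrobeniusAt τ ℓ) (m : ℕ) (hm : 0 < m) (hℓm : ¬ ℓ ∣ m) :
    rhoFin W m τ * rhoFin W m τ - ((W.apOfModel ℓ : ℤ) : ZMod m) • rhoFin W m τ
      + ((ℓ : ℤ) : ZMod m) • (1 : Module.End (ZMod m) (TorsE W m)) = 0 := by
  apply LinearMap.ext
  intro x
  apply Subtype.ext
  have key := hFrob W ℓ hℓ h5 hgood A τ hA hτ m hm hℓm (x : PtsE W) (natCast_nsmul_torsE W m x)
  simp only [LinearMap.add_apply, LinearMap.sub_apply, LinearMap.smul_apply, Module.End.mul_apply,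
    Module.End.one_apply, rhoFin_apply, LinearMap.zero_apply, Submodule.coe_add, Submodule.coe_sub,
    coe_zmod_smul_torsE, coe_smul_torsE, ZeroMemClass.coe_zero]
  exact key

/-- A Frobenius element at `ℓ ≠ p` raises `p^n`-th roots of unity to the `ℓ`-th power. -/
theorem frob_apply_root (p : ℕ) (hp : p.Prime) (n : ℕ) (ℓ : ℕ) (hℓ : ℓ.Prime) (hℓp : ℓ ≠ p)
    (A : ValuationSubring QbE) (τ : GQE) (hA : A.LiesOverPrime ℓ) (hτ : A.IsFrobeniusAt τ ℓ)
    (μ : QbE) (hμ : μ ^ p ^ n = 1) : τ μ = μ ^ ℓ := by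
  have hv : A.valuation ((p ^ n : ℕ) : QbE) = 1 := by
    rw [Nat.cast_pow, map_pow, Fermat.Agent.S55.Bridge.val_prime_eq_one hA hℓ hp hℓp, one_pow]
  exact Fermat.Agent.S55.H414.IsFrobeniusAt_apply_root hτ (pow_ne_zero n hp.ne_zero) hv hμ

/-! ### Scalar action on `E[p]` -/

/-- `σ` acts on `E[p]` as multiplication by an integer. -/
def IsScalarOnP (p : ℕ) (σ : GQE) : Prop :=
  ∃ s : ℤ, ∀ P : PtsE W, (p : ℤ) • P = 0 → σ • P = s • P

theorem mem_torsE_pow_of_p_smul {p : ℕ} {n : ℕ} (hn : 1 ≤ n) {P : PtsE W}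
    (hP : (p : ℤ) • P = 0) : P ∈ Submodule.torsionBy ℤ (PtsE W) ((p ^ n : ℕ) : ℤ) := by
  rw [Submodule.mem_torsionBy_iff]
  obtain ⟨k, rfl⟩ : ∃ k, n = k + 1 := ⟨n - 1, by omega⟩
  rw [Nat.cast_pow, pow_succ, mul_smul, hP]
  exact zsmul_zero _

/-- If `ρ_{p^n}(σ)` is a scalar on the `p`-torsion of `E[p^n]`, then `σ` is a scalar on `E[p]`. -/
theorem isScalarOnP_of_end (p : ℕ) (n : ℕ) (hn : 1 ≤ n) (σ : GQE)
    (h : ∃ s : ZMod (p ^ n), ∀ x : TorsE W (p ^ n), (p : ZMod (p ^ n)) • x = 0 →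
      rhoFin W (p ^ n) σ x = s • x) :
    IsScalarOnP W p σ := by
  obtain ⟨s, hs⟩ := h
  obtain ⟨s', rfl⟩ := ZMod.intCast_surjective s
  refine ⟨s', fun P hP => ?_⟩
  have hmem := mem_torsE_pow_of_p_smul W hn hP
  have h1 := hs ⟨P, hmem⟩ (by
    apply Subtype.ext
    have h3 := coe_zmod_smul_torsE W (p ^ n) (p : ℤ) ⟨P, hmem⟩
    simp only [Int.cast_natCast] at h3
    rw [h3]
    exact hP)
  have h2 := congrArg Subtype.val h1
  rw [rhoFin_apply, coe_smul_torsE, coe_zmod_smul_torsE] at h2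
  exact h2

theorem p_smul_galois_smul {p : ℕ} (σ : GQE) {P : PtsE W} (hP : (p : ℤ) • P = 0) :
    (p : ℤ) • (σ • P) = 0 := by
  rw [← algEquiv_smul_zsmul, hP]
  exact smul_zero (A := PtsE W) σ

theorem IsScalarOnP.pow {p : ℕ} {τ : GQE} (h : IsScalarOnP W p τ) (j : ℕ) :
    IsScalarOnP W p (τ ^ j) := by
  obtain ⟨s, hs⟩ := h
  refine ⟨s ^ j, fun P hP => ?_⟩
  induction j with
  | zero => simp
  | succ j ih =>
    rw [pow_succ, mul_smul, hs P hP, algEquiv_smul_zsmul, ih, pow_succ, mul_smul]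
    rw [smul_comm]

/-- If `σ` is a scalar on `E[p]` and `h` is not, then `σ * h` is not. -/
theorem not_isScalarOnP_mul {p : ℕ} (hp : p.Prime) {σ h : GQE} (hσ : IsScalarOnP W p σ)
    (hh : ¬ IsScalarOnP W p h) : ¬ IsScalarOnP W p (σ * h) := by
  rintro ⟨u, hu⟩
  obtain ⟨t, ht⟩ := hσ
  apply hh
  by_cases hpt : (p : ℤ) ∣ t
  · -- `σ` kills `E[p]`, so `E[p] = 0`
    refine ⟨0, fun P hP => ?_⟩
    have h0 : ∀ Q : PtsE W, (p : ℤ) • Q = 0 → Q = 0 := by
      intro Q hQ
      have h1 : σ • Q = 0 := by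
        rw [ht Q hQ]
        obtain ⟨c, rfl⟩ := hpt
        rw [mul_comm, mul_smul, hQ]
        exact zsmul_zero _
      have h2 : σ⁻¹ • σ • Q = σ⁻¹ • (0 : PtsE W) := by rw [h1]
      rw [inv_smul_smul] at h2
      exact h2.trans (smul_zero (A := PtsE W) σ⁻¹)
    rw [h0 _ (p_smul_galois_smul W h hP)]
    exact (zero_zsmul _).symm
  · have hcop : IsCoprime (p : ℤ) t :=
      (Prime.coprime_iff_not_dvd (Nat.prime_iff_prime_int.1 hp)).2 hpt
    obtain ⟨a, c, hac⟩ := hcop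
    -- `a * p + c * t = 1`
    refine ⟨c * u, fun P hP => ?_⟩
    have hQ := p_smul_galois_smul W h hP
    have h1 : t • (h • P) = u • P := by
      rw [← ht _ hQ, ← mul_smul]
      exact hu P hP
    calc h • P = (a * p + c * t) • (h • P) := by rw [hac, one_smul]
      _ = c • (t • (h • P)) := by
          rw [add_zsmul, mul_smul, hQ, zsmul_zero, zero_add, mul_smul]
      _ = (c * u) • P := by rw [h1, mul_smul]

/-! ### The field cut out by `E[m]` and `μ_m` -/

/-- `x`-coordinate (`0` at the origin). -/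
noncomputable def xCoordE : PtsE W → QbE
  | .zero => 0
  | .some x _ _ => x

/-- `y`-coordinate (`0` at the origin). -/
noncomputable def yCoordE : PtsE W → QbE
  | .zero => 0
  | .some _ y _ => y

theorem galois_smul_eq_of_coord (g g' : GQE) (P : PtsE W) (hx : g (xCoordE W P) = g' (xCoordE W P))
    (hy : g (yCoordE W P) = g' (yCoordE W P)) : g • P = g' • P := by
  cases P with
  | zero => rfl
  | some x y h =>
    rw [algEquiv_smul_def, algEquiv_smul_def, Point.map_some, Point.map_some]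
    simp only [xCoordE, yCoordE] at hx hy
    rw [Point.some.injEq]
    exact ⟨hx, hy⟩

/-- generators of the field of definition of `E[m]` and `μ_m` -/
def genSetE (m : ℕ) : Set QbE :=
  (Set.range fun P : TorsE W m => xCoordE W (P : PtsE W)) ∪
    (Set.range fun P : TorsE W m => yCoordE W (P : PtsE W)) ∪ {z | z ^ m = 1}

theorem finite_genSetE (m : ℕ) (hm : 0 < m) [Finite (TorsE W m)] : (genSetE W m).Finite := by
  refine Set.Finite.union (Set.Finite.union (Set.finite_range _) (Set.finite_range _)) ?_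
  refine Set.Finite.subset (Polynomial.nthRootsFinset m (1 : QbE)).finite_toSet ?_
  intro z hz
  exact (Polynomial.mem_nthRootsFinset hm 1).2 hz

/-- the field of definition of `E[m]` and `μ_m` -/
noncomputable def fieldE (m : ℕ) : IntermediateField ℚ QbE :=
  IntermediateField.adjoin ℚ (genSetE W m)

theorem finiteDimensional_fieldE (m : ℕ) (hm : 0 < m) [Finite (TorsE W m)] :
    FiniteDimensional ℚ (fieldE W m) := by
  have : Finite (genSetE W m) := (finite_genSetE W m hm).to_subtype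
  have halg : Algebra.IsAlgebraic ℚ QbE := AlgebraicClosure.isAlgebraic ℚ
  exact IntermediateField.finiteDimensional_adjoin
    (fun x _ => (halg.isAlgebraic x).isIntegral)

theorem root_mem_fieldE (m : ℕ) {μ : QbE} (hμ : μ ^ m = 1) : μ ∈ fieldE W m :=
  IntermediateField.subset_adjoin ℚ _ (Or.inr hμ)

theorem rhoFin_eq_of_agree (m : ℕ) (g g' : GQE) (h : ∀ z ∈ fieldE W m, g z = g' z) :
    rhoFin W m g = rhoFin W m g' := by
  apply LinearMap.ext
  intro x
  apply Subtype.ext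
  rw [rhoFin_apply, rhoFin_apply, coe_smul_torsE, coe_smul_torsE]
  apply galois_smul_eq_of_coord
  · exact h _ (IntermediateField.subset_adjoin ℚ _ (Or.inl (Or.inl ⟨x, rfl⟩)))
  · exact h _ (IntermediateField.subset_adjoin ℚ _ (Or.inl (Or.inr ⟨x, rfl⟩)))

/-! ### Determinant and trace of Frobenius -/

theorem not_dvd_pow_of_prime_ne {p ℓ : ℕ} (hp : p.Prime) (hℓ : ℓ.Prime) (hℓp : ℓ ≠ p) (n : ℕ) :
    ¬ ℓ ∣ p ^ n := by
  intro h
  exact hℓp ((Nat.prime_dvd_prime_iff_eq hℓ hp).1 (hℓ.dvd_of_dvd_pow h))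

/-- Trace and determinant of a Frobenius element (at a good prime `ℓ ≥ 5`, `ℓ ≠ p`) that does not
act as a scalar on `E[p]`. -/
theorem trace_det_frob_of_nonscalar (hFrob : Fermat.Agent.Lib.Frob.FrobRelation)
    {p : ℕ} (hp : p.Prime) {n : ℕ} (hn : 1 ≤ n)
    (b : Module.Basis (Fin 2) (ZMod (p ^ n)) (TorsE W (p ^ n)))
    (ℓ : ℕ) (hℓ : ℓ.Prime) (h5 : 5 ≤ ℓ) (hℓp : ℓ ≠ p) (hgood : W.IsGoodPrimeFor ℓ)
    (A : ValuationSubring QbE) (τ : GQE) (hA : A.LiesOverPrime ℓ) (hτ : A.IsFrobeniusAt τ ℓ)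
    (hns : ¬ IsScalarOnP W p τ) :
    LinearMap.trace (ZMod (p ^ n)) (TorsE W (p ^ n)) (rhoFin W (p ^ n) τ)
        = ((W.apOfModel ℓ : ℤ) : ZMod (p ^ n)) ∧
      LinearMap.det (rhoFin W (p ^ n) τ) = ((ℓ : ℤ) : ZMod (p ^ n)) :=
  det_trace_of_relation hp hn b _ _ _
    (frob_relation_end W hFrob ℓ hℓ h5 hgood A τ hA hτ (p ^ n) (pow_pos hp.pos n)
      (not_dvd_pow_of_prime_ne hp hℓ hℓp n))
    (fun h => hns (isScalarOnP_of_end W p n hn τ h))

theorem frob_pow_apply_root (p : ℕ) (hp : p.Prime) (n : ℕ) (ℓ : ℕ) (hℓ : ℓ.Prime) (hℓp : ℓ ≠ p)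
    (A : ValuationSubring QbE) (τ : GQE) (hA : A.LiesOverPrime ℓ) (hτ : A.IsFrobeniusAt τ ℓ)
    (j : ℕ) (μ : QbE) (hμ : μ ^ p ^ n = 1) : (τ ^ j) μ = μ ^ (ℓ ^ j) := by
  induction j generalizing μ with
  | zero => simp
  | succ j ih =>
    have hμ' : (μ ^ ℓ) ^ p ^ n = 1 := by rw [← pow_mul, mul_comm, pow_mul, hμ, one_pow]
    rw [pow_succ, AlgEquiv.mul_apply, frob_apply_root p hp n ℓ hℓ hℓp A τ hA hτ μ hμ, ih _ hμ',
      ← pow_mul, pow_succ, mul_comm]

/-- the primes to avoid: those `< 5`, `p`, and the primes dividing `Δ` -/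
noncomputable def badSetE (p : ℕ) : Finset ℕ :=
  Finset.range 5 ∪ {p} ∪ W.Δ.natAbs.primeFactors

theorem good_of_notMem_badSetE (hΔ : W.Δ ≠ 0) {p ℓ : ℕ} (hℓ : ℓ.Prime) (h : ℓ ∉ badSetE W p) :
    5 ≤ ℓ ∧ ℓ ≠ p ∧ W.IsGoodPrimeFor ℓ := by
  simp only [badSetE, Finset.mem_union, Finset.mem_range, Finset.mem_singleton,
    Nat.mem_primeFactors, not_or, not_lt] at h
  obtain ⟨⟨h5, hℓp⟩, h3⟩ := h
  refine ⟨h5, hℓp, fun hdvd => h3 ⟨hℓ, Int.natCast_dvd.1 hdvd, ?_⟩⟩
  simpa using hΔ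

section Main

variable (hFrob : Fermat.Agent.Lib.Frob.FrobRelation)
  (hCheb : Fermat.Agent.Lib.Cheb.Spec.FrobeniusDivisionStatement)
  (hΔ : W.Δ ≠ 0) (p : ℕ) [Fact p.Prime] (n : ℕ) (hn : 1 ≤ n)
  (b : Module.Basis (Fin 2) (ZMod (p ^ n)) (TorsE W (p ^ n)))

include hFrob hCheb hΔ hn b

/-- (E3), for `σ` not a scalar on `E[p]`. -/
theorem det_rhoFin_eq_cycloPow_of_nonscalar (σ : GQE) (hns : ¬ IsScalarOnP W p σ) :
    LinearMap.det (rhoFin W (p ^ n) σ)
      = ((Fermat.Agent.S55.H414.cycloPow (p ^ n) σ : (ZMod (p ^ n))ˣ) : ZMod (p ^ n)) := by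
  have hp : p.Prime := Fact.out
  have hfin : Module.Finite (ZMod (p ^ n)) (TorsE W (p ^ n)) := Module.Finite.of_basis b
  have hfin' : Finite (TorsE W (p ^ n)) := Module.finite_of_finite (ZMod (p ^ n))
  obtain ⟨ℓ, A, τ, k, j, hℓ, hℓS, hA, hτ, -, -, hστ⟩ :=
    hCheb (fieldE W (p ^ n)) (finiteDimensional_fieldE W (p ^ n) (pow_pos hp.pos n)) σ
      (badSetE W p)
  obtain ⟨h5, hℓp, hgood⟩ := good_of_notMem_badSetE W hΔ hℓ hℓS
  have e0 : rhoFin W (p ^ n) σ = rhoFin W (p ^ n) (τ ^ j) :=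
    rhoFin_eq_of_agree W (p ^ n) σ (τ ^ j) (fun z hz => (hστ z hz).symm)
  have hτns : ¬ IsScalarOnP W p τ := by
    intro hτs
    apply hns
    obtain ⟨s, hs⟩ := hτs.pow W j
    refine ⟨s, fun P hP => ?_⟩
    rw [← hs P hP]
    have hmem := mem_torsE_pow_of_p_smul W (n := n) hn hP
    have h1 := congrArg (fun f : Module.End (ZMod (p ^ n)) (TorsE W (p ^ n)) =>
      ((f ⟨P, hmem⟩ : TorsE W (p ^ n)) : PtsE W)) e0
    exact h1
  obtain ⟨-, hdet⟩ :=
    trace_det_frob_of_nonscalar W hFrob hp hn b ℓ hℓ h5 hℓp hgood A τ hA hτ hτns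
  have hζ : σ (Fermat.Agent.S55.H414.zetaBar (p ^ n))
      = Fermat.Agent.S55.H414.zetaBar (p ^ n) ^ (ℓ ^ j) := by
    have hone := (Fermat.Agent.S55.H414.zetaBar_spec (p ^ n)).pow_eq_one
    rw [← hστ _ (root_mem_fieldE W (p ^ n) hone)]
    exact frob_pow_apply_root p hp n ℓ hℓ hℓp A τ hA hτ j _ hone
  rw [e0, map_pow, map_pow, hdet,
    Fermat.Agent.S55.H414.coe_cycloPow_of_apply_eq_pow (p ^ n) σ (ℓ ^ j) hζ]
  push_cast
  rfl

/-- **(E3) The determinant of `E[p^n]` is the mod `p^n` cyclotomic character.** -/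
theorem det_rhoFin_eq_cycloPow (hex : ∃ h : GQE, ¬ IsScalarOnP W p h) (σ : GQE) :
    LinearMap.det (rhoFin W (p ^ n) σ)
      = ((Fermat.Agent.S55.H414.cycloPow (p ^ n) σ : (ZMod (p ^ n))ˣ) : ZMod (p ^ n)) := by
  have hp : p.Prime := Fact.out
  by_cases hσ : IsScalarOnP W p σ
  · obtain ⟨h, hh⟩ := hex
    have h1 := det_rhoFin_eq_cycloPow_of_nonscalar W hFrob hCheb hΔ p n hn b h hh
    have h2 := det_rhoFin_eq_cycloPow_of_nonscalar W hFrob hCheb hΔ p n hn b (σ * h)
      (not_isScalarOnP_mul W hp hσ hh)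
    rw [map_mul, map_mul, map_mul, h1, Units.val_mul] at h2
    exact (Units.isUnit _).mul_left_injective h2
  · exact det_rhoFin_eq_cycloPow_of_nonscalar W hFrob hCheb hΔ p n hn b σ hσ

/-- **(E3)**, in the form of the Prelude's `GaloisRepAdic.DetIsCyclotomic`. -/
theorem det_rhoFin_eq_natCast (hex : ∃ h : GQE, ¬ IsScalarOnP W p h) (σ : GQE) (a : ℕ)
    (ha : ∀ μ : QbE, μ ^ p ^ n = 1 → σ μ = μ ^ a) :
    LinearMap.det (rhoFin W (p ^ n) σ) = (a : ZMod (p ^ n)) := by
  rw [det_rhoFin_eq_cycloPow W hFrob hCheb hΔ p n hn b hex σ]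
  exact Fermat.Agent.S55.H414.coe_cycloPow_of_apply_eq_pow (p ^ n) σ a
    (ha _ (Fermat.Agent.S55.H414.zetaBar_spec (p ^ n)).pow_eq_one)

/-- **(E2) determinant of Frobenius.** -/
theorem det_rhoFin_frob (hex : ∃ h : GQE, ¬ IsScalarOnP W p h)
    (ℓ : ℕ) (hℓ : ℓ.Prime) (hℓp : ℓ ≠ p)
    (A : ValuationSubring QbE) (hA : A.LiesOverPrime ℓ) (τ : GQE) (hτ : A.IsFrobeniusAt τ ℓ) :
    LinearMap.det (rhoFin W (p ^ n) τ) = (ℓ : ZMod (p ^ n)) :=
  det_rhoFin_eq_natCast W hFrob hCheb hΔ p n hn b hex τ ℓ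
    (fun μ hμ => frob_apply_root p Fact.out n ℓ hℓ hℓp A τ hA hτ μ hμ)

/-- **(E2) trace of Frobenius.** -/
theorem trace_rhoFin_frob (hex : ∃ h : GQE, ¬ IsScalarOnP W p h)
    (ℓ : ℕ) (hℓ : ℓ.Prime) (h5 : 5 ≤ ℓ) (hgood : W.IsGoodPrimeFor ℓ) (hℓp : ℓ ≠ p)
    (A : ValuationSubring QbE) (hA : A.LiesOverPrime ℓ) (τ : GQE) (hτ : A.IsFrobeniusAt τ ℓ) :
    LinearMap.trace (ZMod (p ^ n)) (TorsE W (p ^ n)) (rhoFin W (p ^ n) τ)
      = ((W.apOfModel ℓ : ℤ) : ZMod (p ^ n)) := by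
  have hp : p.Prime := Fact.out
  refine trace_of_relation_of_det b _ _ ((ℓ : ℤ) : ZMod (p ^ n))
    (frob_relation_end W hFrob ℓ hℓ h5 hgood A τ hA hτ (p ^ n) (pow_pos hp.pos n)
      (not_dvd_pow_of_prime_ne hp hℓ hℓp n)) ?_ ⟨rhoFin W (p ^ n) τ⁻¹, ?_⟩
  · rw [det_rhoFin_frob W hFrob hCheb hΔ p n hn b hex ℓ hℓ hℓp A hA τ hτ]
    simp
  · rw [← map_mul, inv_mul_cancel, map_one]

/-- **(E2) characteristic polynomial of Frobenius** at a prime `ℓ ≥ 5`, `ℓ ≠ p`, of good
reduction: `X² − a_ℓ X + ℓ`. -/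
theorem charpoly_rhoFin_frob (hex : ∃ h : GQE, ¬ IsScalarOnP W p h)
    (ℓ : ℕ) (hℓ : ℓ.Prime) (h5 : 5 ≤ ℓ) (hgood : W.IsGoodPrimeFor ℓ) (hℓp : ℓ ≠ p)
    (A : ValuationSubring QbE) (hA : A.LiesOverPrime ℓ) (τ : GQE) (hτ : A.IsFrobeniusAt τ ℓ) :
    haveI := Module.Free.of_basis b
    haveI := Module.Finite.of_basis b
    LinearMap.charpoly (rhoFin W (p ^ n) τ)
      = X ^ 2 - C ((W.apOfModel ℓ : ℤ) : ZMod (p ^ n)) * X + C ((ℓ : ZMod (p ^ n))) := by
  have hp : p.Prime := Fact.out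
  have : Nontrivial (ZMod (p ^ n)) :=
    ZMod.nontrivial_iff.2 (Nat.one_lt_pow (by omega) hp.one_lt).ne'
  rw [end_charpoly_eq b,
    trace_rhoFin_frob W hFrob hCheb hΔ p n hn b hex ℓ hℓ h5 hgood hℓp A hA τ hτ,
    det_rhoFin_frob W hFrob hCheb hΔ p n hn b hex ℓ hℓ hℓp A hA τ hτ]

end Main

/-! ### Irreducibility gives a non-scalar element -/

/-- If `E[p]` is irreducible with `p²` points, some element of `G_ℚ` does not act as a scalar on
`E[p]`. -/
theorem exists_not_isScalarOnP (p : ℕ) [Fact p.Prime] (hirr : W.ModRepIsIrreducible p)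
    (hcard : Nat.card (TorsE W p) = p ^ 2) : ∃ h : GQE, ¬ IsScalarOnP W p h := by
  by_contra hall
  simp only [not_exists, not_not] at hall
  have hp : p.Prime := Fact.out
  obtain ⟨hnt, hirr⟩ := hirr
  obtain ⟨x, hx⟩ := exists_ne (0 : TorsE W p)
  have hstable : IsGaloisStable ℚ (Submodule.span (ZMod p) {x}) := by
    intro σ y hy
    obtain ⟨c, rfl⟩ := Submodule.mem_span_singleton.1 hy
    obtain ⟨s, hs⟩ := hall σ
    rw [Submodule.mem_span_singleton]
    refine ⟨c * (s : ZMod p), ?_⟩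
    have h1 : σ • x = (s : ZMod p) • x := by
      apply Subtype.ext
      rw [coe_smul_torsE, coe_zmod_smul_torsE]
      exact hs x (by have h2 := x.2; rwa [Submodule.mem_torsionBy_iff] at h2)
    rw [smul_comm σ c x, h1, mul_smul]
  rcases hirr _ hstable with h | h
  · exact hx ((Submodule.span_singleton_eq_bot).1 h)
  · have hsurj : Function.Surjective (fun c : ZMod p => c • x) := by
      intro y
      have hy : y ∈ Submodule.span (ZMod p) {x} := by rw [h]; trivial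
      exact Submodule.mem_span_singleton.1 hy
    have hle : Nat.card (TorsE W p) ≤ Nat.card (ZMod p) :=
      Nat.card_le_card_of_surjective _ hsurj
    rw [hcard, Nat.card_zmod] at hle
    nlinarith [hp.one_lt]

end Fermat.Agent.S59.H667

end
-- ===== PACK-END S59/H667/E23Galois.lean

-- ===== PACK-BEGIN S41/H45/Cyc.lean
section



/-!
# S41, block NE: the cyclotomic character mod `M` on `G_ℚ` (helper45)

For a primitive `M`-th root of unity `ζ ∈ ℚ̄`, `χ = hζ.autToPow ℚ : G_ℚ →* (ZMod M)ˣ`: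
* `chi_eq_of_apply_eq_h45` : `χ` only depends on the value at `ζ`;
* `chi_frob_h45` : `χ τ = ℓ` for a Frobenius element at `ℓ ∤ M`;
* `chi_complexConjugation_h45` : `χ c = -1`.
-/

set_option autoImplicit false

namespace Fermat.Agent.S41.H45

variable {M : ℕ} [NeZero M] {ζ : AlgebraicClosure ℚ} (hζ : IsPrimitiveRoot ζ M)

/-- If `g ζ = ζ ^ e` then `χ g = e` in `ZMod M`. -/
theorem chi_eq_natCast_h45 (g : AlgebraicClosure ℚ ≃ₐ[ℚ] AlgebraicClosure ℚ) (e : ℕ)
    (h : g ζ = ζ ^ e) : ((hζ.autToPow ℚ g : (ZMod M)ˣ) : ZMod M) = (e : ZMod M) := by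
  have h1 := hζ.autToPow_spec ℚ g
  rw [h] at h1
  have h2 : (hζ.autToPow ℚ g : ZMod M).val ≡ e [MOD M] := by
    have hfin : IsOfFinOrder ζ :=
      isOfFinOrder_iff_pow_eq_one.mpr ⟨M, Nat.pos_of_ne_zero (NeZero.ne M), hζ.pow_eq_one⟩
    have := hfin.pow_eq_pow_iff_modEq.mp h1
    rwa [← hζ.eq_orderOf] at this
  have h3 := (ZMod.natCast_eq_natCast_iff _ _ _).mpr h2
  rwa [ZMod.natCast_zmod_val] at h3

/-- `χ` only depends on the value at `ζ`. -/
theorem chi_eq_of_apply_eq_h45 (g g' : AlgebraicClosure ℚ ≃ₐ[ℚ] AlgebraicClosure ℚ)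
    (h : g ζ = g' ζ) : hζ.autToPow ℚ g = hζ.autToPow ℚ g' := by
  apply Units.ext
  have h1 := hζ.autToPow_spec ℚ g'
  rw [← h] at h1
  rw [chi_eq_natCast_h45 hζ g _ h1.symm, ZMod.natCast_zmod_val]

/-- `χ τ = ℓ` for a Frobenius element at a place over `ℓ ∤ M`. -/
theorem chi_frob_h45 {ℓ : ℕ} (hℓ : ℓ.Prime) (hℓM : ¬ ℓ ∣ M)
    (A : ValuationSubring (AlgebraicClosure ℚ)) (τ : AlgebraicClosure ℚ ≃ₐ[ℚ] AlgebraicClosure ℚ)
    (hA : A.LiesOverPrime ℓ) (hτ : A.IsFrobeniusAt τ ℓ) :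
    ((hζ.autToPow ℚ τ : (ZMod M)ˣ) : ZMod M) = (ℓ : ZMod M) :=
  chi_eq_natCast_h45 hζ τ ℓ
    (frobRoot_h45 M ℓ (Nat.pos_of_ne_zero (NeZero.ne M)) hℓ hℓM A τ hA hτ ζ hζ.pow_eq_one)

/-- `χ c = -1` for the complex conjugation. -/
theorem chi_complexConjugation_h45 : hζ.autToPow ℚ complexConjugation = -1 := by
  apply Units.ext
  have hM : 0 < M := Nat.pos_of_ne_zero (NeZero.ne M)
  have h1 : complexConjugation ζ = ζ ^ (M - 1) := by
    rw [Fermat.Agent.S30.H870.complexConjugation_root (NeZero.ne M) hζ.pow_eq_one]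
    apply inv_eq_of_mul_eq_one_right
    rw [← pow_succ', Nat.sub_add_cancel hM, hζ.pow_eq_one]
  rw [chi_eq_natCast_h45 hζ _ _ h1, Units.val_neg, Units.val_one]
  rw [Nat.cast_sub hM, ZMod.natCast_self, zero_sub, Nat.cast_one]

end Fermat.Agent.S41.H45

end
-- ===== PACK-END S41/H45/Cyc.lean

-- ===== PACK-BEGIN A3/H619/Hopf.lean
section
/-
A3 / piece ORD (helper619): the Hopf algebra structure on an order `H` satisfying `OrderHyp`.
-/


set_option autoImplicit false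

noncomputable section

namespace Fermat.Agent.A3.H619

open GaloisRep TensorProduct Module

variable {p : ℕ} {T : Type}

/-- Precomposition with a map, as an algebra homomorphism of function algebras. -/
def pullAlg (p : ℕ) {X Y : Type} (g : X → Y) : (Y → Qb) →ₐ[ratLocalizedAt p] (X → Qb) :=
  AlgHom.pi (fun x => Pi.evalAlgHom (ratLocalizedAt p) (fun _ : Y => Qb) (g x))

@[simp]
theorem pullAlg_apply {X Y : Type} (g : X → Y) (F : Y → Qb) (x : X) :
    pullAlg p g F x = F (g x) := rfl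

variable (H : Subalgebra (ratLocalizedAt p) (T → Qb))

/-- `H ⊗ H → functions on T × T`. -/
def mu : ↥H ⊗[ratLocalizedAt p] ↥H →ₐ[ratLocalizedAt p] (T × T → Qb) :=
  Algebra.TensorProduct.lift ((pullAlg p Prod.fst).comp H.val) ((pullAlg p Prod.snd).comp H.val)
    (fun _ _ => Commute.all _ _)

@[simp]
theorem mu_tmul (a b : ↥H) (st : T × T) :
    mu H (a ⊗ₜ b) st = (a : T → Qb) st.1 * (b : T → Qb) st.2 := by
  simp [mu]

theorem mu_toLinearMap :
    (mu H).toLinearMap = boxLin H.val.toLinearMap H.val.toLinearMap := by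
  apply TensorProduct.ext'
  intro a b
  funext st
  simp

/-- `H ⊗ (H ⊗ H) → functions on T × (T × T)`. -/
def mu3 : ↥H ⊗[ratLocalizedAt p] (↥H ⊗[ratLocalizedAt p] ↥H) →ₐ[ratLocalizedAt p]
    (T × (T × T) → Qb) :=
  Algebra.TensorProduct.lift ((pullAlg p Prod.fst).comp H.val) ((pullAlg p Prod.snd).comp (mu H))
    (fun _ _ => Commute.all _ _)

@[simp]
theorem mu3_tmul (a : ↥H) (y : ↥H ⊗[ratLocalizedAt p] ↥H) (x : T × (T × T)) :
    mu3 H (a ⊗ₜ y) x = (a : T → Qb) x.1 * mu H y x.2 := by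
  simp [mu3]

theorem mu3_toLinearMap :
    (mu3 H).toLinearMap =
      boxLin (M := ↥H) (N := ↥H ⊗[ratLocalizedAt p] ↥H) H.val.toLinearMap (mu H).toLinearMap := by
  apply TensorProduct.ext'
  intro a b
  funext st
  simp

variable [AddCommGroup T]

/-- `f ↦ ((s, t) ↦ f (s + t))`. -/
def alpha : ↥H →ₐ[ratLocalizedAt p] (T × T → Qb) :=
  (pullAlg p (fun st : T × T => st.1 + st.2)).comp H.val

@[simp]
theorem alpha_apply (f : ↥H) (st : T × T) : alpha H f st = (f : T → Qb) (st.1 + st.2) := rfl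

/-- evaluation at `0`. -/
def ev0 : ↥H →ₐ[ratLocalizedAt p] Qb :=
  (Pi.evalAlgHom (ratLocalizedAt p) (fun _ : T => Qb) 0).comp H.val

@[simp]
theorem ev0_apply (f : ↥H) : ev0 H f = (f : T → Qb) 0 := rfl

variable {H} {act : GQ → T → T}

namespace OrderHyp

variable (h : OrderHyp p T act H)
include h

theorem mu_injective : Function.Injective (mu H) := by
  have h1 : Function.Injective (mu H).toLinearMap := by
    rw [mu_toLinearMap]
    exact (h.isGood_val.box h.isGood_val).injective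
  exact h1

theorem mu3_injective : Function.Injective (mu3 H) := by
  have h1 : Function.Injective (mu3 H).toLinearMap := by
    rw [mu3_toLinearMap, mu_toLinearMap]
    exact (h.isGood_val.box (h.isGood_val.box h.isGood_val)).injective
  exact h1

theorem alpha_mem_range (f : ↥H) : alpha H f ∈ (mu H).range := by
  obtain ⟨n, a, b, ha, hb, hab⟩ := h.comul f.1 f.2
  refine (AlgHom.mem_range _).mpr
    ⟨∑ i, (⟨a i, ha i⟩ : ↥H) ⊗ₜ[ratLocalizedAt p] (⟨b i, hb i⟩ : ↥H), ?_⟩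
  funext st
  rw [map_sum, Finset.sum_apply, alpha_apply, hab]
  refine Finset.sum_congr rfl fun i _ => ?_
  rw [mu_tmul]

/-- The comultiplication of `H`. -/
def comulAlg : ↥H →ₐ[ratLocalizedAt p] ↥H ⊗[ratLocalizedAt p] ↥H :=
  ((AlgEquiv.ofInjective (mu H) h.mu_injective).symm :
      (mu H).range →ₐ[ratLocalizedAt p] ↥H ⊗[ratLocalizedAt p] ↥H).comp
    ((alpha H).codRestrict (mu H).range h.alpha_mem_range)

theorem mu_comulAlg (f : ↥H) : mu H (h.comulAlg f) = alpha H f := by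
  have := (AlgEquiv.ofInjective (mu H) h.mu_injective).apply_symm_apply
    ((alpha H).codRestrict (mu H).range h.alpha_mem_range f)
  exact congrArg Subtype.val this

theorem mu_comulAlg_apply (f : ↥H) (s t : T) :
    mu H (h.comulAlg f) (s, t) = (f : T → Qb) (s + t) := by
  rw [h.mu_comulAlg]; rfl

end OrderHyp

end Fermat.Agent.A3.H619

end
end
-- ===== PACK-END A3/H619/Hopf.lean

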