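import Mathlib
import Fermat.Prelude.Def_WeierstrassCurve_PeuRamifiee
import Fermat.Agent.Pack.S43MC.G0E2L2
import Fermat.Agent.Pack.S44C.G0E14L1
import Fermat.Agent.Pack.S43MC.G0E11L2
import Fermat.Agent.Pack.S43MC.G0E11L3
import Fermat.Agent.Pack.S43MC.G0E11L0
import Fermat.Agent.Pack.S43MC.G0E12L1
import Fermat.Agent.Pack.S44C.G0E11L3
import Fermat.Agent.Pack.S44C.G0E14L2
import Fermat.Agent.Pack.S43GC.G0E5L0
import Fermat.Agent.Pack.S43MC.G0E12L2
import Fermat.Agent.Pack.S43MC.G0E12L0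
import Fermat.Agent.Pack.S43MC.G0E10L2
import Fermat.Agent.Pack.S43GC.G0E2L2
import Fermat.Agent.Pack.S43GC.G0E9L0
import Fermat.Agent.Pack.S43MC.G0E12L3
import Fermat.Agent.Pack.S43GC.G0E9L3
import Fermat.Agent.Pack.S43MC.G0E4L3
import Fermat.Agent.Pack.Fast891

-- ===== PACK-BEGIN S13/H365/NodeXY.lean
section



/-!
# The component map on coordinates (any residue characteristic)

We reuse the component group `Comp.CompGroup v a = Γ₀ˣ ⧸ ⟨v(a)²⟩` of the landed `S05` files.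
-/

set_option autoImplicit false

namespace Fermat.Agent.S13.H365

open Fermat.Agent.S05 (Comp.CompGroup Comp.cls Comp.toU)
open Fermat.Agent.S05.Comp (cls cls_mul cls_alpha_sq cls_alpha_mul_self cls_alpha_inv CompGroup)

variable {K : Type*} [Field K] {Γ₀ : Type*} [LinearOrderedCommGroupWithZero Γ₀]

variable (v : Valuation K Γ₀)

/-- The component of a point with coordinates `(x, y)` on `(y - γ₁ x)(y - γ₂ x) = x³ + a x`,
relative to the branch `y ≡ γ₁ x`. -/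
noncomputable def compN (a γ₁ : K) (x y : K) : CompGroup v a :=
  if 1 ≤ v x then 1
  else if v x ≤ v a then cls v a (v a)
  else if v (y - γ₁ * x) < v x then cls v a (v x)
  else (cls v a (v x))⁻¹

variable {v}
variable {a γ₁ γ₂ x₁ y₁ x₂ y₂ x₃ y₃ l n : K}

lemma compN_of_Z {x y : K} (h : 1 ≤ v x) : compN v a γ₁ x y = 1 := by
  simp [compN, h]

lemma compN_of_M {x y : K} (ha : v a < 1) (h : v x ≤ v a) :
    compN v a γ₁ x y = cls v a (v a) := by
  have : ¬ 1 ≤ v x := not_le.mpr (h.trans_lt ha)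
  simp [compN, this, h]

lemma compN_of_P {x y : K} (hlo : v a < v x) (hhi : v x < 1)
    (hP : v (y - γ₁ * x) < v x) : compN v a γ₁ x y = cls v a (v x) := by
  simp [compN, not_le.mpr hhi, not_le.mpr hlo, hP]

lemma compN_of_N {x y : K} (hδ : v (γ₁ - γ₂) = 1)
    (hlo : v a < v x) (hhi : v x < 1)
    (hN : v (y - γ₂ * x) < v x) : compN v a γ₁ x y = (cls v a (v x))⁻¹ := by
  have hP : ¬ v (y - γ₁ * x) < v x := fun hP => _root_.Fermat.Agent.S13.H365.sign_exclusive hδ ⟨hP, hN⟩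
  simp [compN, not_le.mpr hhi, not_le.mpr hlo, hP]

/-- The four types of points. -/
lemma compN_cases {x y : K} (hδ : v (γ₁ - γ₂) = 1) (ha : v a < 1)
    (hE : (y - γ₁ * x) * (y - γ₂ * x) = x ^ 3 + a * x) :
    (1 ≤ v x ∧ compN v a γ₁ x y = 1) ∨
    (v x ≤ v a ∧ compN v a γ₁ x y = cls v a (v a)) ∨
    (v a < v x ∧ v x < 1 ∧ v (y - γ₁ * x) < v x ∧ compN v a γ₁ x y = cls v a (v x)) ∨
    (v a < v x ∧ v x < 1 ∧ v (y - γ₂ * x) < v x ∧
      compN v a γ₁ x y = (cls v a (v x))⁻¹) := by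
  rcases le_or_gt 1 (v x) with hZ | hhi
  · exact Or.inl ⟨hZ, compN_of_Z hZ⟩
  rcases le_or_gt (v x) (v a) with hM | hlo
  · exact Or.inr (Or.inl ⟨hM, compN_of_M ha hM⟩)
  rcases _root_.Fermat.Agent.S13.H365.sign_exists hE hlo hhi with hP | hN
  · exact Or.inr (Or.inr (Or.inl ⟨hlo, hhi, hP, compN_of_P hlo hhi hP⟩))
  · exact Or.inr (Or.inr (Or.inr ⟨hlo, hhi, hN, compN_of_N hδ hlo hhi hN⟩))

lemma hδ_symm (hδ : v (γ₁ - γ₂) = 1) : v (γ₂ - γ₁) = 1 := by
  rw [Valuation.map_sub_swap]; exact hδ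

/-- Two points at the node, third away: the components cancel. -/
lemma core_two (h : _root_.Fermat.Agent.S13.H365.Coll a γ₁ γ₂ x₁ y₁ x₂ y₂ x₃ y₃ l n) (hδ : v (γ₁ - γ₂) = 1) (ha : v a < 1)
    (ha0 : a ≠ 0)
    (h1 : v x₁ < 1) (h2' : v x₂ < 1) (h3 : 1 ≤ v x₃) :
    compN v a γ₁ x₁ y₁ * compN v a γ₁ x₂ y₂ = 1 := by
  have hμ : 0 < v a := by rw [Valuation.pos_iff]; exact ha0
  rcases compN_cases hδ ha h.E1 with ⟨hZ, -⟩ | ⟨hM1, e1⟩ | ⟨hlo1, hhi1, hP1, e1⟩ |
    ⟨hlo1, hhi1, hN1, e1⟩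
  · exact absurd hZ (not_le.mpr h1)
  · rcases compN_cases hδ ha h.E2 with ⟨hZ, -⟩ | ⟨hM2, e2⟩ | ⟨hlo2, hhi2, hP2, e2⟩ |
      ⟨hlo2, hhi2, hN2, e2⟩
    · exact absurd hZ (not_le.mpr h2')
    · rw [e1, e2]; exact cls_alpha_mul_self v a ha0
    · exact (_root_.Fermat.Agent.S13.H365.factD h hδ (hM1.trans_lt hlo2) (h1.trans_le h3) (hhi2.le.trans h3) h3
        (hlo2.trans_le (le_mul_of_one_le_right (hμ.trans hlo2).le h3))).elim
    · exact (_root_.Fermat.Agent.S13.H365.factD h hδ (hM1.trans_lt hlo2) (h1.trans_le h3) (hhi2.le.trans h3) h3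
        (hlo2.trans_le (le_mul_of_one_le_right (hμ.trans hlo2).le h3))).elim
  all_goals
    rcases compN_cases hδ ha h.E2 with ⟨hZ, -⟩ | ⟨hM2, e2⟩ | ⟨hlo2, hhi2, hP2, e2⟩ |
      ⟨hlo2, hhi2, hN2, e2⟩
    · exact absurd hZ (not_le.mpr h2')
    · exact (_root_.Fermat.Agent.S13.H365.factD h.swap12 hδ (hM2.trans_lt hlo1) (h2'.trans_le h3) (hhi1.le.trans h3) h3
        (hlo1.trans_le (le_mul_of_one_le_right (hμ.trans hlo1).le h3))).elim
  all_goals
    have h12 : v x₁ = v x₂ := by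
      rcases lt_trichotomy (v x₁) (v x₂) with hlt | heq | hgt
      · exact (_root_.Fermat.Agent.S13.H365.factD h hδ hlt (h1.trans_le h3) (hhi2.le.trans h3) h3
          (hlo2.trans_le (le_mul_of_one_le_right (hμ.trans hlo2).le h3))).elim
      · exact heq
      · exact (_root_.Fermat.Agent.S13.H365.factD h.swap12 hδ hgt (h2'.trans_le h3) (hhi1.le.trans h3) h3
          (hlo1.trans_le (le_mul_of_one_le_right (hμ.trans hlo1).le h3))).elim
    have hx1 : x₁ ≠ 0 := (Valuation.ne_zero_iff v).mp (hμ.trans hlo1).ne'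
  · exact (_root_.Fermat.Agent.S13.H365.factBsign h hδ h12 h1 hx1 h3 hP1 hP2).elim
  · rw [e1, e2, h12]; exact mul_inv_cancel _
  · rw [e1, e2, h12]; exact inv_mul_cancel _
  · exact (_root_.Fermat.Agent.S13.H365.factBsign h.swapγ (hδ_symm hδ) h12 h1 hx1 h3 hN1 hN2).elim

/-- All three points at the node, the first one in the `M`-range. -/
lemma core_three_M (h : _root_.Fermat.Agent.S13.H365.Coll a γ₁ γ₂ x₁ y₁ x₂ y₂ x₃ y₃ l n) (hδ : v (γ₁ - γ₂) = 1)
    (ha : v a < 1) (ha0 : a ≠ 0)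
    (h1 : v x₁ ≤ v a) (h2' : v x₂ < 1) (h3 : v x₃ < 1) :
    compN v a γ₁ x₁ y₁ * compN v a γ₁ x₂ y₂ * compN v a γ₁ x₃ y₃ = 1 := by
  have hμ : 0 < v a := by rw [Valuation.pos_iff]; exact ha0
  have e1 : compN v a γ₁ x₁ y₁ = cls v a (v a) := compN_of_M ha h1
  rcases compN_cases hδ ha h.E2 with ⟨hZ, -⟩ | ⟨hM2, e2⟩ | ⟨hlo2, hhi2, hP2, e2⟩ |
    ⟨hlo2, hhi2, hN2, e2⟩
  · exact absurd hZ (not_le.mpr h2')
  · exact (_root_.Fermat.Agent.S13.H365.factMMmid h hδ ha ha0 h1 hM2 h3).elim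
  all_goals
    rcases compN_cases hδ ha h.E3 with ⟨hZ, -⟩ | ⟨hM3, e3⟩ | ⟨hlo3, hhi3, hP3, e3⟩ |
      ⟨hlo3, hhi3, hN3, e3⟩
    · exact absurd hZ (not_le.mpr h3)
    · exact (_root_.Fermat.Agent.S13.H365.factMMmid h.swap23 hδ ha ha0 h1 hM3 h2').elim
  all_goals
    have hval := _root_.Fermat.Agent.S13.H365.factA'_val h hδ ha ha0 h1 hlo2 hhi2 hlo3 hhi3
    have hne2 : v x₂ ≠ 0 := (hμ.trans hlo2).ne'
    have hne3 : v x₃ ≠ 0 := (hμ.trans hlo3).ne'
  · rw [e1, e2, e3, mul_assoc, ← cls_mul v a hne2 hne3, hval]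
    exact cls_alpha_mul_self v a ha0
  · exact (_root_.Fermat.Agent.S13.H365.factA'_sign h hδ ha ha0 h1 hlo2 hhi2 hlo3 hhi3 hP2 hN3).elim
  · exact (_root_.Fermat.Agent.S13.H365.factA'_sign h.swapγ (hδ_symm hδ) ha ha0 h1 hlo2 hhi2 hlo3 hhi3 hN2 hP3).elim
  · rw [e1, e2, e3, mul_assoc, ← mul_inv, ← cls_mul v a hne2 hne3, hval]
    exact mul_inv_cancel _

/-- All three points in the middle range. -/
lemma core_three_mid (h : _root_.Fermat.Agent.S13.H365.Coll a γ₁ γ₂ x₁ y₁ x₂ y₂ x₃ y₃ l n) (hδ : v (γ₁ - γ₂) = 1)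
    (ha0 : a ≠ 0)
    (h1lo : v a < v x₁) (h1hi : v x₁ < 1)
    (h2lo : v a < v x₂) (h2hi : v x₂ < 1) (h3lo : v a < v x₃) (h3hi : v x₃ < 1) :
    compN v a γ₁ x₁ y₁ * compN v a γ₁ x₂ y₂ * compN v a γ₁ x₃ y₃ = 1 := by
  have hμ : 0 < v a := by rw [Valuation.pos_iff]; exact ha0
  have hne1 : v x₁ ≠ 0 := (hμ.trans h1lo).ne'
  have hne2 : v x₂ ≠ 0 := (hμ.trans h2lo).ne'
  have hne3 : v x₃ ≠ 0 := (hμ.trans h3lo).ne'
  have hδ' := hδ_symm hδ
  rcases _root_.Fermat.Agent.S13.H365.sign_exists h.E1 h1lo h1hi with hP1 | hN1 <;>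
  rcases _root_.Fermat.Agent.S13.H365.sign_exists h.E2 h2lo h2hi with hP2 | hN2 <;>
  rcases _root_.Fermat.Agent.S13.H365.sign_exists h.E3 h3lo h3hi with hP3 | hN3
  · -- PPP
    rw [compN_of_P h1lo h1hi hP1, compN_of_P h2lo h2hi hP2, compN_of_P h3lo h3hi hP3,
      ← cls_mul v a hne1 hne2, ← cls_mul v a (mul_ne_zero hne1 hne2) hne3,
      _root_.Fermat.Agent.S13.H365.factA_same h hδ h1lo h1hi h2lo h2hi h3lo h3hi hP1 hP2 hP3]
    exact cls_alpha_sq v a ha0
  · -- PPN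
    rw [compN_of_P h1lo h1hi hP1, compN_of_P h2lo h2hi hP2,
      compN_of_N hδ h3lo h3hi hN3,
      _root_.Fermat.Agent.S13.H365.factA_mixed h hδ h1lo h1hi h2lo h2hi h3lo h3hi hP1 hP2 hN3,
      ← cls_mul v a hne1 hne2]
    exact mul_inv_cancel _
  · -- PNP
    rw [compN_of_P h1lo h1hi hP1, compN_of_N hδ h2lo h2hi hN2,
      compN_of_P h3lo h3hi hP3,
      _root_.Fermat.Agent.S13.H365.factA_mixed h.swap23 hδ h1lo h1hi h3lo h3hi h2lo h2hi hP1 hP3 hN2,
      cls_mul v a hne1 hne3, mul_right_comm]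
    exact mul_inv_cancel _
  · -- PNN
    have := _root_.Fermat.Agent.S13.H365.factA_mixed h.rot.swapγ hδ' h2lo h2hi h3lo h3hi h1lo h1hi hN2 hN3 hP1
    rw [compN_of_P h1lo h1hi hP1, compN_of_N hδ h2lo h2hi hN2,
      compN_of_N hδ h3lo h3hi hN3, this, cls_mul v a hne2 hne3, mul_assoc, ← mul_inv]
    exact mul_inv_cancel _
  · -- NPP
    have := _root_.Fermat.Agent.S13.H365.factA_mixed h.rot hδ h2lo h2hi h3lo h3hi h1lo h1hi hP2 hP3 hN1
    rw [compN_of_N hδ h1lo h1hi hN1, compN_of_P h2lo h2hi hP2,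
      compN_of_P h3lo h3hi hP3, this, cls_mul v a hne2 hne3, mul_assoc]
    exact inv_mul_cancel _
  · -- NPN
    have := _root_.Fermat.Agent.S13.H365.factA_mixed h.swap23.swapγ hδ' h1lo h1hi h3lo h3hi h2lo h2hi hN1 hN3 hP2
    rw [compN_of_N hδ h1lo h1hi hN1, compN_of_P h2lo h2hi hP2,
      compN_of_N hδ h3lo h3hi hN3, this, cls_mul v a hne1 hne3, mul_right_comm,
      ← mul_inv]
    exact inv_mul_cancel _
  · -- NNP
    have := _root_.Fermat.Agent.S13.H365.factA_mixed h.swapγ hδ' h1lo h1hi h2lo h2hi h3lo h3hi hN1 hN2 hP3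
    rw [compN_of_N hδ h1lo h1hi hN1, compN_of_N hδ h2lo h2hi hN2,
      compN_of_P h3lo h3hi hP3, this, cls_mul v a hne1 hne2, ← mul_inv]
    exact inv_mul_cancel _
  · -- NNN
    have := _root_.Fermat.Agent.S13.H365.factA_same h.swapγ hδ' h1lo h1hi h2lo h2hi h3lo h3hi hN1 hN2 hN3
    rw [compN_of_N hδ h1lo h1hi hN1, compN_of_N hδ h2lo h2hi hN2,
      compN_of_N hδ h3lo h3hi hN3, ← mul_inv, ← mul_inv,
      ← cls_mul v a hne1 hne2, ← cls_mul v a (mul_ne_zero hne1 hne2) hne3, this,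
      cls_alpha_sq v a ha0, inv_one]

/-- **Core theorem**: the components of three collinear points multiply to `1`. -/
theorem compN_mul (h : _root_.Fermat.Agent.S13.H365.Coll a γ₁ γ₂ x₁ y₁ x₂ y₂ x₃ y₃ l n) (hδ : v (γ₁ - γ₂) = 1)
    (ha : v a < 1) (ha0 : a ≠ 0) :
    compN v a γ₁ x₁ y₁ * compN v a γ₁ x₂ y₂ * compN v a γ₁ x₃ y₃ = 1 := by
  rcases le_or_gt 1 (v x₁) with hZ1 | h1 <;>
  rcases le_or_gt 1 (v x₂) with hZ2 | h2' <;>
  rcases le_or_gt 1 (v x₃) with hZ3 | h3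
  · rw [compN_of_Z hZ1, compN_of_Z hZ2, compN_of_Z hZ3]; simp
  · exact (_root_.Fermat.Agent.S13.H365.factC h.swap13 hδ ha h3 hZ2 hZ1).elim
  · exact (_root_.Fermat.Agent.S13.H365.factC h.swap12 hδ ha h2' hZ1 hZ3).elim
  · rw [compN_of_Z hZ1, one_mul]
    exact _root_.Fermat.Agent.S13.H365.core_two h.rot hδ ha ha0 h2' h3 hZ1
  · exact (_root_.Fermat.Agent.S13.H365.factC h hδ ha h1 hZ2 hZ3).elim
  · rw [compN_of_Z hZ2, mul_one]
    exact _root_.Fermat.Agent.S13.H365.core_two h.swap23 hδ ha ha0 h1 h3 hZ2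
  · rw [compN_of_Z hZ3, mul_one]
    exact _root_.Fermat.Agent.S13.H365.core_two h hδ ha ha0 h1 h2' hZ3
  · rcases le_or_gt (v x₁) (v a) with hM1 | hlo1
    · exact _root_.Fermat.Agent.S13.H365.core_three_M h hδ ha ha0 hM1 h2' h3
    rcases le_or_gt (v x₂) (v a) with hM2 | hlo2
    · have := _root_.Fermat.Agent.S13.H365.core_three_M h.swap12 hδ ha ha0 hM2 h1 h3
      rw [mul_comm (compN v a γ₁ x₁ y₁)]; exact this
    rcases le_or_gt (v x₃) (v a) with hM3 | hlo3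
    · have := _root_.Fermat.Agent.S13.H365.core_three_M h.rot' hδ ha ha0 hM3 h1 h2'
      rw [mul_comm, ← mul_assoc]; exact this
    exact _root_.Fermat.Agent.S13.H365.core_three_mid h hδ ha0 hlo1 h1 hlo2 h2' hlo3 h3

end Fermat.Agent.S13.H365

end
-- ===== PACK-END S13/H365/NodeXY.lean

-- ===== PACK-BEGIN S30/H990/TwoDim1.lean
section
/-
S30 top glue (helper990): pure algebra, part 6: the rank one case and the conclusion of the
extraction.
-/


set_option autoImplicit false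

namespace Fermat.Agent.S30.H990

open Module Polynomial

section PiCong

variable {𝒪 : Type} [CommRing 𝒪]

/-- A vector with all coordinates in `I` lies in `I • ⊤`. -/
theorem pi_mem_smul_top (I : Ideal 𝒪) (y : Fin 2 → 𝒪) (hy : ∀ i, y i ∈ I) :
    y ∈ I • (⊤ : Submodule 𝒪 (Fin 2 → 𝒪)) := by
  classical
  rw [pi_eq_sum_univ' y]
  refine Submodule.sum_mem _ (fun i _ => ?_)
  exact Submodule.smul_mem_smul (hy i) Submodule.mem_top

end PiCong

section Constructions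

variable {𝒪 M G : Type} [CommRing 𝒪] [IsDomain 𝒪] [IsPrincipalIdealRing 𝒪]
  [AddCommGroup M] [Module 𝒪 M] [Module.Free 𝒪 M] [Module.Finite 𝒪 M] [Group G]
  (ρ : G →* Module.End 𝒪 M) (d : G →* 𝒪ˣ)

/-- The rank one case. -/
theorem twoDim_of_rank_one (v : M) (hv0 : v ≠ 0)
    (hsv : ∀ g, ∃ r : 𝒪, r ≠ 0 ∧ r • ρ g v ∈ Submodule.span 𝒪 {v}) :
    Nonempty (TwoDimOut ρ d) := by
  classical
  have hli : LinearIndependent 𝒪 (fun _ : Fin 1 => v) := by
    rw [linearIndependent_unique_iff]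
    exact hv0
  have hrange : Set.range (fun _ : Fin 1 => v) = ({v} : Set M) := Set.range_const
  set Λ : Submodule 𝒪 M := sat (Submodule.span 𝒪 ({v} : Set M)) with hΛ
  have hfr : Module.finrank 𝒪 Λ = 1 := by
    have := finrank_sat_span (fun _ : Fin 1 => v) hli
    rwa [hrange] at this
  have hstab : ∀ g, ∀ x ∈ Λ, ρ g x ∈ Λ := by
    apply sat_span_stable
    intro g x hx
    rw [Set.mem_singleton_iff] at hx
    subst hx
    exact hsv g
  have hvΛ : v ∈ Λ := le_sat _ (Submodule.subset_span (by simp))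
  set ρΛ := restrictRep ρ Λ hstab with hρΛ
  -- the character
  let ψ : G →* 𝒪ˣ := (LinearMap.det.comp ρΛ).toHomUnits
  have hψ : ∀ g (x : Λ), ρΛ g x = ((ψ g : 𝒪ˣ) : 𝒪) • x := fun g x =>
    apply_eq_det_smul hfr (ρΛ g) x
  have hψrel : ∀ g a, Rel ρ d g a →
      ((ψ g : 𝒪ˣ) : 𝒪) * ((ψ g : 𝒪ˣ) : 𝒪) - a * ((ψ g : 𝒪ˣ) : 𝒪) + ((d g : 𝒪ˣ) : 𝒪) = 0 := by
    intro g a hr
    have h1 := rel_apply ρΛ d (rel_restrictRep ρ d Λ hstab hr) ⟨v, hvΛ⟩
    rw [hψ g ⟨v, hvΛ⟩, map_smul, hψ g ⟨v, hvΛ⟩] at h1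
    have h2 : (((ψ g : 𝒪ˣ) : 𝒪) * ((ψ g : 𝒪ˣ) : 𝒪) - a * ((ψ g : 𝒪ˣ) : 𝒪) + ((d g : 𝒪ˣ) : 𝒪))
        • (⟨v, hvΛ⟩ : Λ) = 0 := by
      rw [← h1]
      module
    have hne : (⟨v, hvΛ⟩ : Λ) ≠ 0 := fun h => hv0 (congrArg Subtype.val h)
    exact (smul_eq_zero.mp h2).resolve_right hne
  -- the diagonal representation
  let δ : G →* (Fin 2 → 𝒪) :=
    { toFun := fun g => ![((ψ g : 𝒪ˣ) : 𝒪), ((d g * (ψ g)⁻¹ : 𝒪ˣ) : 𝒪)]
      map_one' := by
        ext i
        fin_cases i <;> simp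
      map_mul' := fun g h => by
        ext i
        fin_cases i
        · simp
        · simp only [map_mul, mul_inv_rev, Units.val_mul, Fin.mk_one, Fin.isValue, Pi.mul_apply,
            Matrix.cons_val_one, Matrix.cons_val_zero]
          ring }
  let A : G →* Matrix (Fin 2) (Fin 2) 𝒪 :=
    ((Matrix.diagonalRingHom (Fin 2) 𝒪 : (Fin 2 → 𝒪) →+* Matrix (Fin 2) (Fin 2) 𝒪) :
      (Fin 2 → 𝒪) →* Matrix (Fin 2) (Fin 2) 𝒪).comp δ
  let ρ₂ : G →* Module.End 𝒪 (Fin 2 → 𝒪) :=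
    ((Matrix.toLinAlgEquiv' : Matrix (Fin 2) (Fin 2) 𝒪 ≃ₐ[𝒪] Module.End 𝒪 (Fin 2 → 𝒪)) :
      Matrix (Fin 2) (Fin 2) 𝒪 →* Module.End 𝒪 (Fin 2 → 𝒪)).comp A
  have hρ₂ : ∀ g, ρ₂ g = Matrix.toLin' (Matrix.diagonal (δ g)) := fun g => rfl
  have hδ0 : ∀ g, δ g 0 = ((ψ g : 𝒪ˣ) : 𝒪) := fun g => rfl
  have hδ1 : ∀ g, δ g 1 = ((d g * (ψ g)⁻¹ : 𝒪ˣ) : 𝒪) := fun g => rfl
  refine ⟨{ V := Fin 2 → 𝒪
            finrank_eq := by simp
            ρ₂ := ρ₂
            charpoly_eq := ?_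
            cong := ?_ }⟩
  · intro g a hr
    rw [hρ₂, Matrix.charpoly_toLin', Matrix.charpoly_fin_two, Matrix.trace_diagonal,
      Matrix.det_diagonal, Fin.sum_univ_two, Fin.prod_univ_two, hδ0, hδ1]
    have h := hψrel g a hr
    have hinv : ((ψ g : 𝒪ˣ) : 𝒪) * (((ψ g)⁻¹ : 𝒪ˣ) : 𝒪) = 1 := by
      rw [← Units.val_mul, mul_inv_cancel, Units.val_one]
    have ha : ((ψ g : 𝒪ˣ) : 𝒪) + ((d g * (ψ g)⁻¹ : 𝒪ˣ) : 𝒪) = a := by
      rw [Units.val_mul]
      linear_combination (((ψ g)⁻¹ : 𝒪ˣ) : 𝒪) * h + (a - ((ψ g : 𝒪ˣ) : 𝒪)) * hinv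
    have hd : ((ψ g : 𝒪ˣ) : 𝒪) * ((d g * (ψ g)⁻¹ : 𝒪ˣ) : 𝒪) = ((d g : 𝒪ˣ) : 𝒪) := by
      rw [Units.val_mul]
      linear_combination ((d g : 𝒪ˣ) : 𝒪) * hinv
    rw [ha, hd]
  · intro I g hg hdg x
    -- `ψ g - 1 ∈ I`
    have hψI : ((ψ g : 𝒪ˣ) : 𝒪) - 1 ∈ I := by
      apply mem_of_smul_basis_mem hfr I
      intro y
      have hmem : ((ρΛ g y - y : Λ) : M) ∈ I • (⊤ : Submodule 𝒪 M) := hg (y : M)
      have := mem_smul_top_sat _ I _ hmem
      rwa [hψ g y, ← one_smul 𝒪 y, smul_smul, mul_one, ← sub_smul] at this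
    have hinv : ((ψ g : 𝒪ˣ) : 𝒪) * (((ψ g)⁻¹ : 𝒪ˣ) : 𝒪) = 1 := by
      rw [← Units.val_mul, mul_inv_cancel, Units.val_one]
    have hδI : ((d g * (ψ g)⁻¹ : 𝒪ˣ) : 𝒪) - 1 ∈ I := by
      have : ((d g * (ψ g)⁻¹ : 𝒪ˣ) : 𝒪) - 1
          = (((ψ g)⁻¹ : 𝒪ˣ) : 𝒪) * ((((d g : 𝒪ˣ) : 𝒪) - 1) - (((ψ g : 𝒪ˣ) : 𝒪) - 1)) := by
        rw [Units.val_mul]
        linear_combination hinv
      rw [this]
      exact I.mul_mem_left _ (I.sub_mem hdg hψI)
    apply pi_mem_smul_top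
    intro i
    rw [hρ₂, Matrix.toLin'_apply, Pi.sub_apply, Matrix.mulVec_diagonal]
    have : δ g i * x i - x i = (δ g i - 1) * x i := by ring
    rw [this]
    apply I.mul_mem_right
    fin_cases i
    · exact hψI
    · exact hδI

/-- Conclusion of the extraction: from a nonzero finite free module on which every group element
satisfies a quadratic relation with constant term `d g`, and an involution `c` with `d c = -1`,
one gets a rank two representation with the expected characteristic polynomials. -/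
theorem exists_twoDim [Nontrivial M] (h2 : (2 : 𝒪) ≠ 0) (hrel : ∀ g, ∃ a, Rel ρ d g a)
    (c : G) (hc : c * c = 1) (hdc : d c = -1) : Nonempty (TwoDimOut ρ d) := by
  rcases exists_stable ρ d h2 hrel c hc hdc with ⟨v, hv0, hsv⟩ |
    ⟨u, w, ε, hε, hu0, hw0, hu, hw, hsu, hsw⟩
  · exact twoDim_of_rank_one ρ d v hv0 hsv
  · exact twoDim_of_rank_two ρ d hrel h2 c hdc u w ε hε hu0 hw0 hu hw hsu hsw

end Constructions

end Fermat.Agent.S30.H990

end
-- ===== PACK-END S30/H990/TwoDim1.lean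

-- ===== PACK-BEGIN Lib/EulerProd/PrimeSum.lean
section



/-!
# Prime ideal sums: `∑_{deg 𝔭 = 1} N(𝔭)^(-s) = log (1/(s-1)) + O(1)` on `(1, 2]`

Main results (any number field `K`):
* `zetaR_antitone`, `exists_zetaR_bounds`: `c ≤ (s - 1) ζ_K(s) ≤ C` on `(1, 2]`.
* `sum_x_le_log_zetaR`: `∑_{𝔭 ∈ T} N(𝔭)^(-s) ≤ log ζ_K(s)` for every finite set `T` of primes.
* `log_zetaR_le`: `log ζ_K(s) ≤ ∑' 𝔭, N(𝔭)^(-s) + 2 * degTwoBound K`.
* `exists_primeSumOne_bound`: `|∑'_{N(𝔭) prime} N(𝔭)^(-s) - log (1/(s-1))| ≤ C` on `(1, 2]`.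
-/

set_option autoImplicit false
set_option linter.style.haveILetI false
set_option linter.unusedSectionVars false

namespace Fermat.Agent.Lib.EulerProd

open NumberField Ideal Filter Topology Finset

variable (K : Type*) [Field K] [NumberField K]

theorem zetaR_antitone {s t : ℝ} (hs : 1 < s) (hst : s ≤ t) : zetaR K t ≤ zetaR K s := by
  refine (summable_absNorm_rpow K (lt_of_lt_of_le hs hst)).tsum_le_tsum (fun I => ?_)
    (summable_absNorm_rpow K hs)
  rcases Nat.eq_zero_or_pos (absNorm I) with h | h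
  · rw [h, Nat.cast_zero, Real.zero_rpow (by linarith), Real.zero_rpow (by linarith)]
  · have h1 : (1 : ℝ) ≤ ((absNorm I : ℕ) : ℝ) := by exact_mod_cast h
    exact Real.rpow_le_rpow_of_exponent_le h1 (by linarith)

/-- `c ≤ (s - 1) ζ_K(s) ≤ C` on `(1, 2]`. -/
theorem exists_zetaR_bounds :
    ∃ c C : ℝ, 0 < c ∧ 0 < C ∧ ∀ s : ℝ, 1 < s → s ≤ 2 →
      c ≤ (s - 1) * zetaR K s ∧ (s - 1) * zetaR K s ≤ C := by
  obtain ⟨C₁, hC₁, hup⟩ := eventually_zetaR_le K
  obtain ⟨c₁, hc₁, hlo⟩ := eventually_le_zetaR K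
  obtain ⟨u, hu, hsub⟩ := mem_nhdsGT_iff_exists_Ioo_subset.mp (hup.and hlo)
  have hu1 : (1 : ℝ) < u := hu
  set δ := min u 2 - 1 with hδ
  have hδpos : 0 < δ := by
    rw [hδ]
    have : (1 : ℝ) < min u 2 := lt_min hu1 (by norm_num)
    linarith
  have hδle : 1 + δ ≤ u := by
    rw [hδ]
    have := min_le_left u 2
    linarith
  have hZ : 0 < zetaR K (1 + δ / 2) := zetaR_pos K (by linarith)
  refine ⟨min c₁ (δ / 2), max C₁ (zetaR K (1 + δ / 2)), lt_min hc₁ (by linarith),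
    lt_max_of_lt_left hC₁, fun s hs1 hs2 => ?_⟩
  have hs0 : 0 < s - 1 := by linarith
  rcases lt_or_ge s (1 + δ / 2) with hlt | hge
  · have hmem : s ∈ Set.Ioo 1 u := ⟨hs1, by linarith⟩
    obtain ⟨h1, h2⟩ := hsub hmem
    constructor
    · refine le_trans (min_le_left _ _) ?_
      rw [div_le_iff₀ hs0] at h2
      linarith
    · refine le_trans ?_ (le_max_left _ _)
      rw [le_div_iff₀ hs0] at h1
      linarith
  · constructor
    · refine le_trans (min_le_right _ _) ?_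
      have h1 := one_le_zetaR K hs1
      nlinarith
    · refine le_trans ?_ (le_max_right _ _)
      have h1 := zetaR_antitone K (by linarith : (1 : ℝ) < 1 + δ / 2) hge
      have h2 : s - 1 ≤ 1 := by linarith
      have h3 := zetaR_pos K hs1
      nlinarith

variable {K}

theorem PrimeIdeal.x_lt_one (𝔭 : PrimeIdeal K) {s : ℝ} (hs : 1 ≤ s) : 𝔭.x s < 1 :=
  lt_of_le_of_lt (𝔭.x_le_half hs) (by norm_num)

theorem PrimeIdeal.one_le_inv_one_sub (𝔭 : PrimeIdeal K) {s : ℝ} (hs : 1 ≤ s) :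
    1 ≤ (1 - 𝔭.x s)⁻¹ := by
  have h1 := 𝔭.x_pos s
  have h2 := 𝔭.x_lt_one hs
  rw [one_le_inv₀ (by linarith)]
  linarith

theorem PrimeIdeal.exp_x_le (𝔭 : PrimeIdeal K) {s : ℝ} (hs : 1 ≤ s) :
    Real.exp (𝔭.x s) ≤ (1 - 𝔭.x s)⁻¹ := by
  have h2 := 𝔭.x_lt_one hs
  have h3 : 0 < 1 - 𝔭.x s := by linarith
  rw [le_inv_comm₀ (Real.exp_pos _) h3, ← Real.exp_neg]
  exact Real.one_sub_le_exp_neg _

theorem PrimeIdeal.inv_one_sub_le_exp (𝔭 : PrimeIdeal K) {s : ℝ} (hs : 1 ≤ s) :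
    (1 - 𝔭.x s)⁻¹ ≤ Real.exp (𝔭.x s + 2 * 𝔭.x s ^ 2) := by
  have h1 := 𝔭.x_pos s
  have h2 := 𝔭.x_le_half hs
  have h3 : 0 < 1 - 𝔭.x s := by linarith
  have h4 : (1 - 𝔭.x s)⁻¹ = 𝔭.x s / (1 - 𝔭.x s) + 1 := by
    field_simp
    ring
  have h5 : 𝔭.x s / (1 - 𝔭.x s) ≤ 𝔭.x s + 2 * 𝔭.x s ^ 2 := by
    rw [div_le_iff₀ h3]
    nlinarith [mul_nonneg (sq_nonneg (𝔭.x s)) (by linarith : (0 : ℝ) ≤ 1 - 2 * 𝔭.x s)]
  calc (1 - 𝔭.x s)⁻¹ = 𝔭.x s / (1 - 𝔭.x s) + 1 := h4
    _ ≤ Real.exp (𝔭.x s / (1 - 𝔭.x s)) := Real.add_one_le_exp _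
    _ ≤ Real.exp (𝔭.x s + 2 * 𝔭.x s ^ 2) := Real.exp_le_exp.mpr h5

/-- A real `HasProd` with factors `≥ 1` dominates its finite partial products. -/
theorem prod_le_of_hasProd_of_one_le {ι : Type*} {g : ι → ℝ} {a : ℝ} (h : HasProd g a)
    (hg : ∀ i, 1 ≤ g i) (T : Finset ι) : ∏ i ∈ T, g i ≤ a := by
  refine ge_of_tendsto h ?_
  filter_upwards [Filter.eventually_ge_atTop T] with T' hT'
  exact Finset.prod_le_prod_of_subset_of_one_le hT'
    (fun i _ => zero_le_one.trans (hg i)) (fun i _ _ => hg i)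

variable (K)

/-- Finite Euler products are bounded by the zeta function. -/
theorem prod_inv_one_sub_le_zetaR {s : ℝ} (hs : 1 < s) (T : Finset (PrimeIdeal K)) :
    ∏ 𝔭 ∈ T, (1 - 𝔭.x s)⁻¹ ≤ zetaR K s :=
  prod_le_of_hasProd_of_one_le (hasProd_zetaR K hs)
    (fun 𝔭 => 𝔭.one_le_inv_one_sub hs.le) T

/-- `exp (∑_{𝔭 ∈ T} N(𝔭)^(-s)) ≤ ζ_K(s)`. -/
theorem exp_sum_x_le_zetaR {s : ℝ} (hs : 1 < s) (T : Finset (PrimeIdeal K)) :
    Real.exp (∑ 𝔭 ∈ T, 𝔭.x s) ≤ zetaR K s := by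
  rw [Real.exp_sum]
  refine le_trans (Finset.prod_le_prod (fun _ _ => (Real.exp_pos _).le)
    (fun 𝔭 _ => 𝔭.exp_x_le hs.le)) (prod_inv_one_sub_le_zetaR K hs T)

/-- `∑_{𝔭 ∈ T} N(𝔭)^(-s) ≤ log ζ_K(s)`. -/
theorem sum_x_le_log_zetaR {s : ℝ} (hs : 1 < s) (T : Finset (PrimeIdeal K)) :
    ∑ 𝔭 ∈ T, 𝔭.x s ≤ Real.log (zetaR K s) := by
  rw [Real.le_log_iff_exp_le (zetaR_pos K hs)]
  exact exp_sum_x_le_zetaR K hs T

theorem summable_x {s : ℝ} (hs : 1 < s) : Summable (fun 𝔭 : PrimeIdeal K => 𝔭.x s) :=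
  summable_of_sum_le (fun 𝔭 => (𝔭.x_pos s).le) (fun T => sum_x_le_log_zetaR K hs T)

theorem x_sq_le (𝔭 : PrimeIdeal K) {s : ℝ} (hs : 1 ≤ s) :
    𝔭.x s ^ 2 ≤ ((((absNorm 𝔭.1 : ℕ) : ℝ)) ^ 2)⁻¹ := by
  have h1 := 𝔭.x_le_inv hs
  have h0 := (𝔭.x_pos s).le
  calc 𝔭.x s ^ 2 ≤ ((((absNorm 𝔭.1 : ℕ) : ℝ))⁻¹) ^ 2 := pow_le_pow_left₀ h0 h1 2
    _ = _ := by rw [inv_pow]

/-- `ζ_K(s) ≤ exp (∑' 𝔭, N(𝔭)^(-s) + 2 D)`. -/
theorem zetaR_le_exp {s : ℝ} (hs : 1 < s) :
    zetaR K s ≤ Real.exp ((∑' 𝔭 : PrimeIdeal K, 𝔭.x s) + 2 * degTwoBound K) := by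
  refine le_of_tendsto (hasProd_zetaR K hs) ?_
  filter_upwards with T
  calc ∏ 𝔭 ∈ T, (1 - 𝔭.x s)⁻¹
      ≤ ∏ 𝔭 ∈ T, Real.exp (𝔭.x s + 2 * 𝔭.x s ^ 2) := by
        refine Finset.prod_le_prod (fun 𝔭 _ => ?_) (fun 𝔭 _ => 𝔭.inv_one_sub_le_exp hs.le)
        exact le_trans zero_le_one (𝔭.one_le_inv_one_sub hs.le)
    _ = Real.exp (∑ 𝔭 ∈ T, 𝔭.x s + 2 * ∑ 𝔭 ∈ T, 𝔭.x s ^ 2) := by
        rw [← Real.exp_sum, Finset.sum_add_distrib, Finset.mul_sum]
    _ ≤ Real.exp ((∑' 𝔭 : PrimeIdeal K, 𝔭.x s) + 2 * degTwoBound K) := by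
        refine Real.exp_le_exp.mpr (add_le_add ?_ (mul_le_mul_of_nonneg_left ?_ (by norm_num)))
        · exact (summable_x K hs).sum_le_tsum T fun 𝔭 _ => (𝔭.x_pos s).le
        · exact le_trans (Finset.sum_le_sum fun 𝔭 _ => x_sq_le K 𝔭 hs.le)
            (sum_inv_absNorm_sq_le T)

/-- `log ζ_K(s) ≤ ∑' 𝔭, N(𝔭)^(-s) + 2 D`. -/
theorem log_zetaR_le {s : ℝ} (hs : 1 < s) :
    Real.log (zetaR K s) ≤ (∑' 𝔭 : PrimeIdeal K, 𝔭.x s) + 2 * degTwoBound K := by
  rw [Real.log_le_iff_le_exp (zetaR_pos K hs)]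
  exact zetaR_le_exp K hs

theorem tsum_x_le_log_zetaR {s : ℝ} (hs : 1 < s) :
    (∑' 𝔭 : PrimeIdeal K, 𝔭.x s) ≤ Real.log (zetaR K s) :=
  (summable_x K hs).tsum_le_of_sum_le fun T => sum_x_le_log_zetaR K hs T


/-! ### Degree-one primes -/

/-- The set of primes of degree one (prime absolute norm). -/
def degOne : Set (PrimeIdeal K) := {𝔭 | (absNorm 𝔭.1).Prime}

/-- The prime sum over primes of degree one. -/
noncomputable def primeSumOne (s : ℝ) : ℝ := ∑' 𝔭 : degOne K, 𝔭.1.x s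

theorem summable_x_subtype {s : ℝ} (hs : 1 < s) (A : Set (PrimeIdeal K)) :
    Summable (fun 𝔭 : A => 𝔭.1.x s) :=
  (summable_x K hs).subtype A

theorem tsum_compl_degOne_le {s : ℝ} (hs : 1 < s) :
    ∑' 𝔭 : ((degOne K)ᶜ : Set (PrimeIdeal K)), 𝔭.1.x s ≤ degTwoBound K := by
  refine (summable_x_subtype K hs _).tsum_le_of_sum_le fun T => ?_
  have h := sum_inv_absNorm_le_of_not_prime (T.map (Function.Embedding.subtype _))
    (fun 𝔭 h𝔭 => by
      obtain ⟨𝔮, -, rfl⟩ := Finset.mem_map.mp h𝔭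
      exact 𝔮.2)
  rw [Finset.sum_map] at h
  refine le_trans (Finset.sum_le_sum fun 𝔭 _ => ?_) h
  exact 𝔭.1.x_le_inv hs.le

theorem tsum_compl_degOne_nonneg (s : ℝ) :
    0 ≤ ∑' 𝔭 : ((degOne K)ᶜ : Set (PrimeIdeal K)), 𝔭.1.x s :=
  tsum_nonneg fun 𝔭 => (𝔭.1.x_pos s).le

theorem primeSumOne_add_compl {s : ℝ} (hs : 1 < s) :
    primeSumOne K s + ∑' 𝔭 : ((degOne K)ᶜ : Set (PrimeIdeal K)), 𝔭.1.x s =
      ∑' 𝔭 : PrimeIdeal K, 𝔭.x s :=
  (summable_x K hs).tsum_subtype_add_tsum_subtype_compl (degOne K)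

theorem primeSumOne_le_log_zetaR {s : ℝ} (hs : 1 < s) :
    primeSumOne K s ≤ Real.log (zetaR K s) := by
  have h1 := primeSumOne_add_compl K hs
  have h2 := tsum_compl_degOne_nonneg K s
  have h3 := tsum_x_le_log_zetaR K hs
  linarith

theorem log_zetaR_le_primeSumOne {s : ℝ} (hs : 1 < s) :
    Real.log (zetaR K s) ≤ primeSumOne K s + 3 * degTwoBound K := by
  have h1 := primeSumOne_add_compl K hs
  have h2 := tsum_compl_degOne_le K hs
  have h3 := log_zetaR_le K hs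
  linarith

/-- **F1**: the prime sum over degree-one primes is `log (1/(s-1)) + O(1)` on `(1, 2]`. -/
theorem exists_primeSumOne_bound :
    ∃ C : ℝ, ∀ s : ℝ, 1 < s → s ≤ 2 →
      |primeSumOne K s - Real.log (1 / (s - 1))| ≤ C := by
  obtain ⟨c, C, hc, hC, hb⟩ := exists_zetaR_bounds K
  refine ⟨|Real.log c| + |Real.log C| + 3 * degTwoBound K, fun s hs1 hs2 => ?_⟩
  obtain ⟨hlo, hup⟩ := hb s hs1 hs2
  have hs0 : 0 < s - 1 := by linarith
  have hz := zetaR_pos K hs1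
  have hlog : Real.log (zetaR K s) =
      Real.log ((s - 1) * zetaR K s) + Real.log (1 / (s - 1)) := by
    rw [Real.log_mul hs0.ne' hz.ne', one_div, Real.log_inv]
    ring
  have h1 : Real.log c ≤ Real.log ((s - 1) * zetaR K s) := Real.log_le_log hc hlo
  have h2 : Real.log ((s - 1) * zetaR K s) ≤ Real.log C :=
    Real.log_le_log (lt_of_lt_of_le hc hlo) hup
  have h3 := primeSumOne_le_log_zetaR K hs1
  have h4 := log_zetaR_le_primeSumOne K hs1
  have hD := degTwoBound_nonneg (K := K)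
  rw [abs_le]
  constructor
  · have := neg_abs_le (Real.log c)
    have := abs_nonneg (Real.log C)
    linarith
  · have := le_abs_self (Real.log C)
    have := abs_nonneg (Real.log c)
    linarith

/-- The same statement for the sum over all primes. -/
theorem exists_primeSum_bound :
    ∃ C : ℝ, ∀ s : ℝ, 1 < s → s ≤ 2 →
      |(∑' 𝔭 : PrimeIdeal K, 𝔭.x s) - Real.log (1 / (s - 1))| ≤ C := by
  obtain ⟨C, hC⟩ := exists_primeSumOne_bound K
  refine ⟨C + degTwoBound K, fun s hs1 hs2 => ?_⟩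
  have h1 := primeSumOne_add_compl K hs1
  have h2 := tsum_compl_degOne_le K hs1
  have h3 := tsum_compl_degOne_nonneg K s
  have h4 := abs_le.mp (hC s hs1 hs2)
  rw [abs_le]
  constructor <;> linarith [h4.1, h4.2]

end Fermat.Agent.Lib.EulerProd

end
-- ===== PACK-END Lib/EulerProd/PrimeSum.lean

-- ===== PACK-BEGIN S22/H262/Lattice.lean
section



set_option autoImplicit false

/-!
# The period lattice: functionals, Hecke stability
-/

open Complex Filter Function Metric Set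
open UpperHalfPlane hiding I
open scoped Real Topology Manifold ModularForm MatrixGroups

namespace Fermat.Agent.S22.H262

open Matrix.SpecialLinearGroup CuspForm

variable {N : ℕ} [NeZero N] {n : ℕ}

theorem hasTower_slash_posInt (f : CuspForm (CongruenceSubgroup.Gamma0 N) ((n : ℤ) + 2))
    {A : GL (Fin 2) ℝ} (hA : A ∈ posInt) : HasTower (⇑f ∣[(n : ℤ) + 2] A) := by
  obtain ⟨g, δ, hδ, h10, rfl⟩ := exists_mapGL_mul_upper hA
  rw [SlashAction.slash_mul]
  exact (hasTower_slash_SL f g).slash_upper n δ hδ.2 h10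

theorem hasTower_cuspForm (f : CuspForm (CongruenceSubgroup.Gamma0 N) ((n : ℤ) + 2)) :
    HasTower (⇑f) := by
  have := hasTower_slash_posInt f (one_mem posInt)
  rwa [SlashAction.slash_one] at this

theorem hasTower_slash_slash (f : CuspForm (CongruenceSubgroup.Gamma0 N) ((n : ℤ) + 2))
    {A B : GL (Fin 2) ℝ} (hA : A ∈ posInt) (hB : B ∈ posInt) :
    HasTower ((⇑f ∣[(n : ℤ) + 2] A) ∣[(n : ℤ) + 2] B) := by
  rw [← SlashAction.slash_mul]
  exact hasTower_slash_posInt f (mul_mem hA hB)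

theorem smul_slash_pos (k : ℤ) {A : GL (Fin 2) ℝ} (hA : 0 < A.det.val) (c : ℂ) (h : ℍ → ℂ) :
    (c • h) ∣[k] A = c • (h ∣[k] A) := by
  rw [ModularForm.smul_slash, UpperHalfPlane.σ, if_pos hA]
  rfl

/-- The functional `f ↦ c_{f|B}(A)(v)`. -/
noncomputable def lamG (N : ℕ) [NeZero N] (n : ℕ) (B A : posInt) (v : ℂ × ℂ) :
    Module.Dual ℂ (CuspForm (CongruenceSubgroup.Gamma0 N) ((n : ℤ) + 2)) where
  toFun f := cocyc n (⇑f ∣[(n : ℤ) + 2] (B : GL (Fin 2) ℝ)) A v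
  map_add' f g := by
    rw [FunLike.coe_add, SlashAction.add_slash]
    exact cocyc_add n _ (hasTower_slash_posInt f B.2) (hasTower_slash_posInt g B.2)
      (hasTower_slash_slash f B.2 A.2) (hasTower_slash_slash g B.2 A.2) v
  map_smul' c f := by
    rw [FunLike.coe_smul, smul_slash_pos _ B.2.2, RingHom.id_apply, smul_eq_mul]
    exact cocyc_smul n _ A.2.2 (hasTower_slash_posInt f B.2) (hasTower_slash_slash f B.2 A.2) c v

theorem lamG_apply (B A : posInt) (v : ℂ × ℂ)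
    (f : CuspForm (CongruenceSubgroup.Gamma0 N) ((n : ℤ) + 2)) :
    lamG N n B A v f = cocyc n (⇑f ∣[(n : ℤ) + 2] (B : GL (Fin 2) ℝ)) A v := rfl

/-- The functional `f ↦ c_f(A)(v)`. -/
noncomputable def lam (N : ℕ) [NeZero N] (n : ℕ) (A : posInt) (v : ℂ × ℂ) :
    Module.Dual ℂ (CuspForm (CongruenceSubgroup.Gamma0 N) ((n : ℤ) + 2)) :=
  lamG N n 1 A v

theorem lam_apply (A : posInt) (v : ℂ × ℂ)
    (f : CuspForm (CongruenceSubgroup.Gamma0 N) ((n : ℤ) + 2)) :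
    lam N n A v f = cocyc n (⇑f) A v := by
  rw [lam, lamG_apply]
  simp

/-- The period lattice. -/
noncomputable def periodLattice (N : ℕ) [NeZero N] (n : ℕ) :
    Submodule ℤ (Module.Dual ℂ (CuspForm (CongruenceSubgroup.Gamma0 N) ((n : ℤ) + 2))) :=
  Submodule.span ℤ {l | ∃ (A : posInt) (v : ℂ × ℂ), v ∈ Vint ∧ l = lam N n A v}

theorem lam_mem_periodLattice (A : posInt) {v : ℂ × ℂ} (hv : v ∈ Vint) :
    lam N n A v ∈ periodLattice N n :=
  Submodule.subset_span ⟨A, v, hv, rfl⟩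

/-- Key identity: `c_{f|δ}(A) = c_f(δ A)` for upper triangular `δ`. -/
theorem cocyc_slash_upper (f : CuspForm (CongruenceSubgroup.Gamma0 N) ((n : ℤ) + 2))
    {δ A : GL (Fin 2) ℝ} (hδ : δ ∈ posInt) (h10 : δ 1 0 = 0) (hA : A ∈ posInt) (v : ℂ × ℂ) :
    cocyc n (⇑f ∣[(n : ℤ) + 2] δ) A v = cocyc n (⇑f) (δ * A) v := by
  rw [cocyc_mul n δ A hδ.2 hA.2 (hasTower_cuspForm f) (hasTower_slash_posInt f hδ)
    (hasTower_slash_posInt f (mul_mem hδ hA)), cocyc_upper n (hasTower_cuspForm f) δ hδ.2 h10,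
    zero_add]

theorem heckeMatrix_mem_posInt {p : ℕ} (hp : p ≠ 0) (j : ℕ) :
    ModularForm.heckeMatrix p j ∈ posInt := by
  refine ⟨fun i k => ?_, ModularForm.det_heckeMatrix_pos p j⟩
  have h := ModularForm.val_heckeMatrix hp j
  fin_cases i <;> fin_cases k
  · exact ⟨1, by simp [h]⟩
  · exact ⟨j, by simp [h]⟩
  · exact ⟨0, by simp [h]⟩
  · exact ⟨p, by simp [h]⟩

theorem heckeDiagMatrix_mem_posInt {p : ℕ} (hp : p ≠ 0) :
    ModularForm.heckeDiagMatrix p ∈ posInt := by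
  refine ⟨fun i k => ?_, ModularForm.det_heckeDiagMatrix_pos p⟩
  have h := ModularForm.val_heckeDiagMatrix hp
  fin_cases i <;> fin_cases k
  · exact ⟨p, by simp [h]⟩
  · exact ⟨0, by simp [h]⟩
  · exact ⟨0, by simp [h]⟩
  · exact ⟨1, by simp [h]⟩

theorem heckeMatrix_one_zero {p : ℕ} (hp : p ≠ 0) (j : ℕ) :
    (ModularForm.heckeMatrix p j) 1 0 = 0 := by
  simp [ModularForm.val_heckeMatrix hp j]

theorem heckeDiagMatrix_one_zero {p : ℕ} (hp : p ≠ 0) :
    (ModularForm.heckeDiagMatrix p) 1 0 = 0 := by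
  simp [ModularForm.val_heckeDiagMatrix hp]

theorem cocyc_heckeU (f : CuspForm (CongruenceSubgroup.Gamma0 N) ((n : ℤ) + 2))
    {p : ℕ} (hp : p ≠ 0) (A : posInt) (v : ℂ × ℂ) :
    cocyc n (ModularForm.heckeU ((n : ℤ) + 2) p ⇑f) A v =
      ∑ j ∈ Finset.range p,
        lam N n (⟨ModularForm.heckeMatrix p j, heckeMatrix_mem_posInt hp j⟩ * A) v f := by
  rw [ModularForm.heckeU_def, cocyc_sum n _ _ _
    (fun j _ => hasTower_slash_posInt f (heckeMatrix_mem_posInt hp j))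
    (fun j _ => hasTower_slash_slash f (heckeMatrix_mem_posInt hp j) A.2)]
  refine Finset.sum_congr rfl fun j _ => ?_
  rw [lam_apply, cocyc_slash_upper f (heckeMatrix_mem_posInt hp j) (heckeMatrix_one_zero hp j)
    A.2]
  rfl

theorem cocyc_heckeT (f : CuspForm (CongruenceSubgroup.Gamma0 N) ((n : ℤ) + 2))
    {p : ℕ} (hp : p ≠ 0) (A : posInt) (v : ℂ × ℂ) :
    cocyc n (ModularForm.heckeT ((n : ℤ) + 2) p ⇑f) A v =
      (∑ j ∈ Finset.range p,
        lam N n (⟨ModularForm.heckeMatrix p j, heckeMatrix_mem_posInt hp j⟩ * A) v f) +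
      lam N n (⟨ModularForm.heckeDiagMatrix p, heckeDiagMatrix_mem_posInt hp⟩ * A) v f := by
  have hU : HasTower (ModularForm.heckeU ((n : ℤ) + 2) p ⇑f) := by
    rw [ModularForm.heckeU_def]
    exact (tower_sum _ _
      (fun j _ => hasTower_slash_posInt f (heckeMatrix_mem_posInt hp j))).1
  have hUA : HasTower (ModularForm.heckeU ((n : ℤ) + 2) p ⇑f ∣[(n : ℤ) + 2]
      (A : GL (Fin 2) ℝ)) := by
    rw [ModularForm.heckeU_def, SlashAction.sum_slash]
    exact (tower_sum _ _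
      (fun j _ => hasTower_slash_slash f (heckeMatrix_mem_posInt hp j) A.2)).1
  rw [ModularForm.heckeT_eq_heckeU_add, cocyc_add n _ hU
    (hasTower_slash_posInt f (heckeDiagMatrix_mem_posInt hp)) hUA
    (hasTower_slash_slash f (heckeDiagMatrix_mem_posInt hp) A.2), cocyc_heckeU f hp,
    lam_apply, cocyc_slash_upper f (heckeDiagMatrix_mem_posInt hp)
      (heckeDiagMatrix_one_zero hp) A.2]
  rfl

/-- The period lattice is stable under the Hecke generators. -/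
theorem periodLattice_stable (S : Set ℕ) (T : Module.End ℂ
    (CuspForm (CongruenceSubgroup.Gamma0 N) ((n : ℤ) + 2)))
    (hT : T ∈ heckeGenerators N ((n : ℤ) + 2) S) (l : Module.Dual ℂ
    (CuspForm (CongruenceSubgroup.Gamma0 N) ((n : ℤ) + 2))) (hl : l ∈ periodLattice N n) :
    l ∘ₗ T ∈ periodLattice N n := by
  induction hl using Submodule.span_induction with
  | zero => rw [LinearMap.zero_comp]; exact Submodule.zero_mem _
  | add x y _ _ hx hy => rw [LinearMap.add_comp]; exact Submodule.add_mem _ hx hy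
  | smul a x _ hx =>
    have : (a • x) ∘ₗ T = a • (x ∘ₗ T) := by
      ext f
      simp
    rw [this]
    exact Submodule.smul_mem _ a hx
  | mem x hx =>
    obtain ⟨A, v, hv, rfl⟩ := hx
    rcases hT with ⟨ℓ, hℓ, hℓN, -, rfl⟩ | ⟨q, hqN, hq, -, rfl⟩
    · have hℓ0 : ℓ ≠ 0 := hℓ.ne_zero
      have : lam N n A v ∘ₗ heckeTLin ((n : ℤ) + 2) hℓ hℓN =
          (∑ j ∈ Finset.range ℓ,
            lam N n (⟨ModularForm.heckeMatrix ℓ j, heckeMatrix_mem_posInt hℓ0 j⟩ * A) v) +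
          lam N n (⟨ModularForm.heckeDiagMatrix ℓ, heckeDiagMatrix_mem_posInt hℓ0⟩ * A) v := by
        ext f
        rw [LinearMap.comp_apply, lam_apply, CuspForm.coe_heckeTLin_apply, cocyc_heckeT f hℓ0]
        simp
      rw [this]
      exact Submodule.add_mem _ (Submodule.sum_mem _ fun j _ => lam_mem_periodLattice _ hv)
        (lam_mem_periodLattice _ hv)
    · have hq0 : q ≠ 0 := hq.ne_zero
      have : lam N n A v ∘ₗ heckeULin ((n : ℤ) + 2) hqN =
          (∑ j ∈ Finset.range q,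
            lam N n (⟨ModularForm.heckeMatrix q j, heckeMatrix_mem_posInt hq0 j⟩ * A) v) := by
        ext f
        rw [LinearMap.comp_apply, lam_apply, CuspForm.coe_heckeULin_apply, cocyc_heckeU f hq0]
        simp
      rw [this]
      exact Submodule.sum_mem _ fun j _ => lam_mem_periodLattice _ hv

end Fermat.Agent.S22.H262

end
-- ===== PACK-END S22/H262/Lattice.lean

-- ===== PACK-BEGIN S30/H829/OccAdicHecke.lean
section
/-
S30 / p-adic layer (helper829) — piece OCC-adic, final form (`heckeHom` of S29/H201):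
for EVERY ring homomorphism `χ : heckeAlgebra N 2 S → O` into a domain `O` (any characteristic:
`p`-adic DVRs, number rings, finite fields, ...) there is a nonzero parabolic homomorphism
`φ : Γ₀(N) → O` with `T_ℓ φ = χ(T_ℓ) • φ` for all primes `ℓ ∤ N`, `ℓ ∉ S`.
-/



set_option autoImplicit false

open CongruenceSubgroup ModularCurve ModularCurve.Period
open scoped MatrixGroups

namespace Fermat.Agent.S30.H829

open Fermat.Agent.S29.H201

/-- The (ordered) sum in `Additive Γ₀(N)` of the transfer elements of `γ`. -/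
noncomputable def trfSum {N : ℕ} (ℓ : ℕ) [Fact ℓ.Prime] (hℓN : ¬ ℓ ∣ N) (γ : Gamma0 N) :
    Additive (Gamma0 N) :=
  ((Finset.univ : Finset (OnePoint (ZMod ℓ))).toList.map
    (fun x => Additive.ofMul (trf hℓN γ x))).sum

theorem map_trfSum {N : ℕ} (ℓ : ℕ) [Fact ℓ.Prime] (hℓN : ¬ ℓ ∣ N) {A : Type*} [AddCommGroup A]
    (ψ : Additive (Gamma0 N) →+ A) (γ : Gamma0 N) :
    ψ (trfSum ℓ hℓN γ) = heckeHom ℓ hℓN A ψ (Additive.ofMul γ) := by
  rw [heckeHom_apply, trfSum, map_list_sum, List.map_map]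
  exact Finset.sum_map_toList (Finset.univ : Finset (OnePoint (ZMod ℓ)))
    (fun x => ψ (Additive.ofMul (trf hℓN γ x)))

/-- **OCC-adic.**  Every ring homomorphism from the Hecke algebra to a domain occurs as a
Hecke eigensystem in `Hom_par(Γ₀(N), O)`. -/
theorem exists_eigen_parabolicHom_adic (N : ℕ) [NeZero N] (S : Set ℕ)
    {O : Type*} [CommRing O] [IsDomain O] (χ : CuspForm.heckeAlgebra N 2 S →+* O) :
    ∃ φ : Additive (Gamma0 N) →+ O, φ ≠ 0 ∧ IsParabolicHom (Gamma0 N) φ ∧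
      ∀ (ℓ : ℕ) [Fact ℓ.Prime] (hℓ : ℓ.Prime) (hℓN : ¬ ℓ ∣ N) (hℓS : ℓ ∉ S),
        heckeHom ℓ hℓN O φ
          = (AddMonoidHom.mulLeft (χ (CuspForm.heckeAlgebra.T hℓ hℓN hℓS))).comp φ := by
  obtain ⟨φ, hφ0, hφpar, hφ⟩ := exists_eigen_parabolicHom_core N S χ
  refine ⟨φ, hφ0, hφpar, ?_⟩
  intro ℓ _ hℓ hℓN hℓS
  ext γ
  have h := hφ (CuspForm.heckeAlgebra.T hℓ hℓN hℓS) γ (trfSum ℓ hℓN (Additive.toMul γ)) (by
    intro f
    rw [map_trfSum, CuspForm.heckeAlgebra.coe_T, periodMap_heckeTLin hℓ hℓN f]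
    rfl)
  rw [map_trfSum] at h
  exact h

end Fermat.Agent.S30.H829

end
-- ===== PACK-END S30/H829/OccAdicHecke.lean

-- ===== PACK-BEGIN S36/H193/Clopen.lean
section


/-!
# S36 engine, leaf CLOPEN (helper193), part 1: gluing a generic idempotent, radical version

Setting of `S18.H138.connected_special_fibre`: `R` a noetherian domain with `R[X]` integrally
closed (a DVR), `w ∈ R` prime, `F` a field of characteristic `0`, `x ∈ F` transcendental, `F`
finite over `baseField R x`, `R` integrally closed in `F`.  The charts are the integral closures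
of `R[x]`, `R[x⁻¹]`, `R[x, x⁻¹]` in `F`.

`𝒲` is a finite set of valuation subrings of `F` (the *sheets*: the components of the special
fibre), each containing the charts and having `w` as a non-unit.  No discreteness, no
uniformiser and **no reducedness of the special fibre** is assumed: the only link between the
charts and the sheets is the *radical* `q`-expansion principle

  `QepRad 𝒲 w C` : an element of the chart `C` lying in the maximal ideal of every sheet is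
                   nilpotent modulo `w C`

(the sheets are all the components of the special fibre of `C`).  For a reduced special fibre
this is `A2.H12.RedConclusion`; at level `q²` (`q B = p_FF ∩ p_mid^(q-1) ∩ p_VV`) only the
radical form holds.

**Theorem** (`clopen_idem`).  Let `e₀ ∈ F` be `≡ 0` or `≡ 1` on every sheet.  If at every closed
point `𝔫 ∋ w` of the two charts `chart {x}`, `chart {x⁻¹}` all sheets through `𝔫` are of the same
kind, then `e₀ ≡ 0` on all sheets or `e₀ ≡ 1` on all sheets.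

This is the purely topological step "a locally constant function on a connected special fibre
is constant"; it needs no purity datum and works for any number of branches through a point.
-/

set_option autoImplicit false
set_option linter.style.haveILetI false

namespace Fermat.Agent.S36.H193

open Fermat.Agent.S18.H138

variable {R : Type*} [CommRing R] {F : Type*} [Field F] [Algebra R F]

section Nonunits

variable (W : ValuationSubring F)

theorem nu_mem {a : F} (ha : a ∈ W.nonunits) : a ∈ W := W.nonunits_subset ha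

theorem nu_zero : (0 : F) ∈ W.nonunits := by
  rw [ValuationSubring.mem_nonunits_iff, map_zero]
  exact zero_lt_one

theorem nu_add {a b : F} (ha : a ∈ W.nonunits) (hb : b ∈ W.nonunits) :
    a + b ∈ W.nonunits := by
  rw [ValuationSubring.mem_nonunits_iff] at *
  exact Valuation.map_add_lt _ ha hb

theorem nu_neg {a : F} (ha : a ∈ W.nonunits) : -a ∈ W.nonunits := by
  rw [ValuationSubring.mem_nonunits_iff] at *
  rwa [Valuation.map_neg]

theorem nu_sub {a b : F} (ha : a ∈ W.nonunits) (hb : b ∈ W.nonunits) :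
    a - b ∈ W.nonunits := by
  rw [ValuationSubring.mem_nonunits_iff] at *
  exact Valuation.map_sub_lt _ ha hb

theorem nu_mul_left {a c : F} (ha : a ∈ W.nonunits) (hc : c ∈ W) : c * a ∈ W.nonunits := by
  rw [ValuationSubring.mem_nonunits_iff] at ha ⊢
  rw [map_mul]
  have h1 : W.valuation c ≤ 1 := (W.valuation_le_one_iff c).2 hc
  calc W.valuation c * W.valuation a ≤ 1 * W.valuation a := by gcongr
    _ = W.valuation a := one_mul _
    _ < 1 := ha

theorem nu_mul_right {a c : F} (ha : a ∈ W.nonunits) (hc : c ∈ W) : a * c ∈ W.nonunits := by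
  rw [mul_comm]
  exact nu_mul_left W ha hc

theorem nu_one_not : (1 : F) ∉ W.nonunits := by
  rw [ValuationSubring.mem_nonunits_iff, map_one]
  exact lt_irrefl _

theorem nu_pow {a : F} (ha : a ∈ W.nonunits) {n : ℕ} (hn : n ≠ 0) : a ^ n ∈ W.nonunits := by
  obtain ⟨k, rfl⟩ := Nat.exists_eq_succ_of_ne_zero hn
  rw [pow_succ]
  exact nu_mul_left W ha (W.pow_mem (nu_mem W ha) k)

/-- not both kinds at once -/
theorem nu_not_both {e : F} (h0 : e ∈ W.nonunits) (h1 : 1 - e ∈ W.nonunits) : False := by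
  have := nu_add W h0 h1
  rw [add_sub_cancel] at this
  exact nu_one_not W this

/-- The lifted idempotent `1 - (1 - e ^ n) ^ n` is of the same kind as `e`. -/
theorem nu_lift_zero {e : F} (he : e ∈ W.nonunits) {n : ℕ} (hn : n ≠ 0) :
    1 - (1 - e ^ n) ^ n ∈ W.nonunits := by
  have h1 : 1 - (1 - e ^ n) ^ n = (∑ i ∈ Finset.range n, (1 - e ^ n) ^ i) * e ^ n := by
    have := geom_sum_mul_neg (1 - e ^ n) n
    rw [← this]
    ring
  rw [h1]
  refine nu_mul_left W (nu_pow W he hn) ?_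
  exact W.sum_mem fun i _ => W.pow_mem (W.sub_mem W.one_mem (W.pow_mem (nu_mem W he) n)) i

theorem nu_lift_one {e : F} (he : 1 - e ∈ W.nonunits) {n : ℕ} (hn : n ≠ 0) :
    1 - (1 - (1 - e ^ n) ^ n) ∈ W.nonunits := by
  have heW : e ∈ W := by
    have : e = 1 - (1 - e) := by ring
    rw [this]
    exact W.sub_mem W.one_mem (nu_mem W he)
  have h1 : 1 - e ^ n = (∑ i ∈ Finset.range n, e ^ i) * (1 - e) := geom_sum_mul_neg e n |>.symm
  have h2 : 1 - e ^ n ∈ W.nonunits := by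
    rw [h1]
    exact nu_mul_left W he (W.sum_mem fun i _ => W.pow_mem heW i)
  have h3 : 1 - (1 - (1 - e ^ n) ^ n) = (1 - e ^ n) ^ n := by ring
  rw [h3]
  exact nu_pow W h2 hn

end Nonunits

/-- `b` lies in the maximal ideal of every sheet. -/
def InJ (𝒲 : Set (ValuationSubring F)) (b : F) : Prop :=
  ∀ W ∈ 𝒲, b ∈ W.nonunits

/-- The sheet `W` passes through the closed point `𝔫` of the chart `C`. -/
def Through (C : Subalgebra R F) (𝔫 : Ideal C) (W : ValuationSubring F) : Prop :=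
  ∀ c : C, (c : F) ∈ W.nonunits → c ∈ 𝔫

/-- The **radical `q`-expansion principle** for the chart `C`: an element of `C` vanishing on
every sheet is nilpotent modulo `w C`. -/
def QepRad (𝒲 : Set (ValuationSubring F)) (w : R) (C : Subalgebra R F) : Prop :=
  ∀ b ∈ C, InJ 𝒲 b → ∃ N : ℕ, ∃ t ∈ C, b ^ N = algebraMap R F w * t

theorem InJ.add {𝒲 : Set (ValuationSubring F)} {a b : F} (ha : InJ 𝒲 a) (hb : InJ 𝒲 b) :
    InJ 𝒲 (a + b) := fun W hW => nu_add W (ha W hW) (hb W hW)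

theorem InJ.sub {𝒲 : Set (ValuationSubring F)} {a b : F} (ha : InJ 𝒲 a) (hb : InJ 𝒲 b) :
    InJ 𝒲 (a - b) := fun W hW => nu_sub W (ha W hW) (hb W hW)

theorem InJ.neg {𝒲 : Set (ValuationSubring F)} {a : F} (ha : InJ 𝒲 a) :
    InJ 𝒲 (-a) := fun W hW => nu_neg W (ha W hW)

theorem InJ.zero (𝒲 : Set (ValuationSubring F)) : InJ 𝒲 (0 : F) := fun W _ => nu_zero W

theorem InJ.mul_left {𝒲 : Set (ValuationSubring F)} {a c : F} (ha : InJ 𝒲 a)
    (hc : ∀ W ∈ 𝒲, c ∈ W) : InJ 𝒲 (c * a) := fun W hW => nu_mul_left W (ha W hW) (hc W hW)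

/-- A reduced `q`-expansion principle is in particular a radical one. -/
theorem QepRad.of_red {𝒲 : Set (ValuationSubring F)} {w : R} {C : Subalgebra R F}
    (h : ∀ b ∈ C, InJ 𝒲 b → ∃ t ∈ C, b = algebraMap R F w * t) : QepRad 𝒲 w C := by
  intro b hb hJ
  obtain ⟨t, ht, h1⟩ := h b hb hJ
  exact ⟨1, t, ht, by rw [pow_one, h1]⟩

section RegIdeal

/-- The *regularity ideal* of `e₀` on the chart `C`, modulo the radical: the denominators
`s ∈ C` such that `s e₀` is congruent on every sheet to an element of `C`. -/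
def regIdealJ (𝒲 : Set (ValuationSubring F)) (C : Subalgebra R F)
    (hC : ∀ W ∈ 𝒲, ∀ c ∈ C, c ∈ W) (e₀ : F) : Ideal C where
  carrier := {s | ∃ e ∈ C, InJ 𝒲 ((s : F) * e₀ - e)}
  add_mem' := by
    rintro a b ⟨e, he, h⟩ ⟨e', he', h'⟩
    refine ⟨e + e', C.add_mem he he', ?_⟩
    have : ((a + b : C) : F) * e₀ - (e + e') = ((a : F) * e₀ - e) + ((b : F) * e₀ - e') := by
      push_cast; ring
    rw [this]
    exact h.add h'
  zero_mem' := ⟨0, C.zero_mem, by simpa using InJ.zero 𝒲⟩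
  smul_mem' := by
    rintro c a ⟨e, he, h⟩
    refine ⟨c * e, C.mul_mem c.2 he, ?_⟩
    have : ((c • a : C) : F) * e₀ - c * e = (c : F) * ((a : F) * e₀ - e) := by
      rw [smul_eq_mul]; push_cast; ring
    rw [this]
    exact h.mul_left fun W hW => hC W hW c c.2

/-- A denominator outside `𝔫` vanishing on finitely many sheets that do not pass through `𝔫`. -/
theorem exists_prod_avoid {C : Subalgebra R F} (𝔫 : Ideal C) [h𝔫 : 𝔫.IsPrime]
    (𝒮 : Finset (ValuationSubring F)) (hC : ∀ W ∈ 𝒮, ∀ c ∈ C, c ∈ W)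
    (h : ∀ W ∈ 𝒮, ¬ Through C 𝔫 W) :
    ∃ s : C, s ∉ 𝔫 ∧ ∀ W ∈ 𝒮, (s : F) ∈ W.nonunits := by
  classical
  induction 𝒮 using Finset.induction_on with
  | empty =>
    refine ⟨1, ?_, by simp⟩
    intro h1
    exact h𝔫.ne_top ((Ideal.eq_top_iff_one _).2 h1)
  | insert V 𝒮 hV ih =>
    obtain ⟨s, hs, hsW⟩ := ih (fun W hW => hC W (Finset.mem_insert_of_mem hW))
      (fun W hW => h W (Finset.mem_insert_of_mem hW))
    have hVn := h V (Finset.mem_insert_self V 𝒮)
    rw [Through] at hVn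
    push Not at hVn
    obtain ⟨c, hcV, hcn⟩ := hVn
    refine ⟨c * s, ?_, ?_⟩
    · intro hmem
      rcases h𝔫.mem_or_mem hmem with h1 | h1
      · exact hcn h1
      · exact hs h1
    · intro W hW
      rw [Finset.mem_insert] at hW
      push_cast
      rcases hW with rfl | hW
      · exact nu_mul_right W hcV (hC W (Finset.mem_insert_self W 𝒮) s s.2)
      · exact nu_mul_left W (hsW W hW) (hC W (Finset.mem_insert_of_mem hW) c c.2)

/-- If `e₀` is `≡ 0` or `≡ 1` on every sheet and the sheets through any closed point `𝔫 ∋ w` of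
the chart `C` are of the same kind, then `e₀` is congruent on every sheet to an element of
`C`. -/
theorem exists_chart_rep_rad {𝒲 : Set (ValuationSubring F)} (h𝒲 : 𝒲.Finite)
    {C : Subalgebra R F} (hC : ∀ W ∈ 𝒲, ∀ c ∈ C, c ∈ W) (w : R)
    (hwW : ∀ W ∈ 𝒲, algebraMap R F w ∈ W.nonunits) {e₀ : F}
    (he₀ : ∀ W ∈ 𝒲, e₀ ∈ W.nonunits ∨ 1 - e₀ ∈ W.nonunits)
    (hloc : ∀ 𝔫 : Ideal C, 𝔫.IsMaximal → algebraMap R C w ∈ 𝔫 →
      ∀ W ∈ 𝒲, ∀ W' ∈ 𝒲, Through C 𝔫 W → Through C 𝔫 W' →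
        (e₀ ∈ W.nonunits → e₀ ∈ W'.nonunits)) :
    ∃ e ∈ C, InJ 𝒲 (e₀ - e) := by
  classical
  have he₀W : ∀ W ∈ 𝒲, e₀ ∈ W := by
    intro W hW
    rcases he₀ W hW with h | h
    · exact nu_mem W h
    · have : e₀ = 1 - (1 - e₀) := by ring
      rw [this]
      exact W.sub_mem W.one_mem (nu_mem W h)
  have hw : algebraMap R C w ∈ regIdealJ 𝒲 C hC e₀ := by
    refine ⟨0, C.zero_mem, ?_⟩
    rw [sub_zero]
    intro W hW
    exact nu_mul_right W (hwW W hW) (he₀W W hW)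
  have htop : regIdealJ 𝒲 C hC e₀ = ⊤ := by
    by_contra hne
    obtain ⟨𝔫, h𝔫, hle⟩ := Ideal.exists_le_maximal _ hne
    haveI := h𝔫.isPrime
    have hw𝔫 := hle hw
    by_cases hex : ∃ W ∈ 𝒲, Through C 𝔫 W ∧ e₀ ∈ W.nonunits
    · -- all sheets through `𝔫` are of kind `0`
      obtain ⟨W₀, hW₀, hth₀, hk₀⟩ := hex
      set 𝒮 : Finset (ValuationSubring F) :=
        h𝒲.toFinset.filter fun W => e₀ ∉ W.nonunits with h𝒮
      have h𝒮mem : ∀ W, W ∈ 𝒮 ↔ W ∈ 𝒲 ∧ e₀ ∉ W.nonunits := by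
        intro W
        rw [h𝒮, Finset.mem_filter, Set.Finite.mem_toFinset]
      obtain ⟨s, hs, hsW⟩ := exists_prod_avoid 𝔫 𝒮
        (fun W hW => hC W ((h𝒮mem W).1 hW).1)
        (fun W hW hth => ((h𝒮mem W).1 hW).2
          (hloc 𝔫 h𝔫 hw𝔫 W₀ hW₀ W ((h𝒮mem W).1 hW).1 hth₀ hth hk₀))
      refine hs (hle ⟨0, C.zero_mem, ?_⟩)
      rw [sub_zero]
      intro W hW
      by_cases hk : e₀ ∈ W.nonunits
      · exact nu_mul_left W hk (hC W hW s s.2)
      · exact nu_mul_right W (hsW W ((h𝒮mem W).2 ⟨hW, hk⟩)) (he₀W W hW)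
    · -- all sheets through `𝔫` are of kind `1`
      push Not at hex
      set 𝒮 : Finset (ValuationSubring F) :=
        h𝒲.toFinset.filter fun W => e₀ ∈ W.nonunits with h𝒮
      have h𝒮mem : ∀ W, W ∈ 𝒮 ↔ W ∈ 𝒲 ∧ e₀ ∈ W.nonunits := by
        intro W
        rw [h𝒮, Finset.mem_filter, Set.Finite.mem_toFinset]
      obtain ⟨s, hs, hsW⟩ := exists_prod_avoid 𝔫 𝒮
        (fun W hW => hC W ((h𝒮mem W).1 hW).1)
        (fun W hW hth => hex W ((h𝒮mem W).1 hW).1 hth ((h𝒮mem W).1 hW).2)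
      refine hs (hle ⟨s, s.2, ?_⟩)
      intro W hW
      have hsW' : (s : F) ∈ W := hC W hW s s.2
      by_cases hk : e₀ ∈ W.nonunits
      · have h1 := hsW W ((h𝒮mem W).2 ⟨hW, hk⟩)
        exact nu_sub W (nu_mul_right W h1 (he₀W W hW)) h1
      · have h1 : 1 - e₀ ∈ W.nonunits := (he₀ W hW).resolve_left hk
        have : (s : F) * e₀ - s = -((s : F) * (1 - e₀)) := by ring
        rw [this]
        exact nu_neg W (nu_mul_left W h1 hsW')
  have h1 : (1 : C) ∈ regIdealJ 𝒲 C hC e₀ := by rw [htop]; trivial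
  obtain ⟨e, he, h⟩ := h1
  refine ⟨e, he, ?_⟩
  simpa using h

end RegIdeal

section Lift

variable {A : Type*} [CommRing A]

/-- Lifting idempotents modulo a nilpotent: if `(e² - e) ^ n ∈ w A` then
`E = 1 - (1 - e ^ n) ^ n` is idempotent modulo `w A`. -/
theorem exists_idem_lift (w e : A) (n : ℕ) (h : ∃ t, (e ^ 2 - e) ^ n = w * t) :
    ∃ t, (1 - (1 - e ^ n) ^ n) ^ 2 - (1 - (1 - e ^ n) ^ n) = w * t := by
  set I : Ideal A := Ideal.span {w} with hI
  have h0 : (Ideal.Quotient.mk I e - Ideal.Quotient.mk I e ^ 2) ^ n = 0 := by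
    rw [← map_pow, ← map_sub, ← map_pow, Ideal.Quotient.eq_zero_iff_mem]
    obtain ⟨t, ht⟩ := h
    have : (e - e ^ 2) ^ n = (-1) ^ n * (e ^ 2 - e) ^ n := by
      rw [← mul_pow]; congr 1; ring
    rw [this, ht, hI]
    refine Ideal.mem_span_singleton'.2 ⟨(-1) ^ n * t, by ring⟩
  have h1 := isIdempotentElem_one_sub_one_sub_pow_pow (Ideal.Quotient.mk I e) n h0
  have h2 : Ideal.Quotient.mk I ((1 - (1 - e ^ n) ^ n) ^ 2 - (1 - (1 - e ^ n) ^ n)) = 0 := by
    have h3 : Ideal.Quotient.mk I (1 - (1 - e ^ n) ^ n) =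
        1 - (1 - Ideal.Quotient.mk I e ^ n) ^ n := by
      simp only [map_sub, map_one, map_pow]
    rw [map_sub, map_pow, h3, sub_eq_zero, pow_two]
    exact h1
  rw [Ideal.Quotient.eq_zero_iff_mem, hI] at h2
  obtain ⟨t, ht⟩ := Ideal.mem_span_singleton'.1 h2
  exact ⟨t, by rw [← ht, mul_comm]⟩

/-- Two idempotents modulo `w A` whose difference is nilpotent modulo `w A` are congruent. -/
theorem idem_congr_of_nilpotent (w a b : A) (ha : ∃ t, a ^ 2 - a = w * t)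
    (hb : ∃ t, b ^ 2 - b = w * t) (n : ℕ) (h : ∃ t, (a - b) ^ n = w * t) :
    ∃ t, a - b = w * t := by
  set I : Ideal A := Ideal.span {w} with hI
  have hmem : ∀ c : A, (∃ t, c = w * t) → Ideal.Quotient.mk I c = 0 := by
    rintro c ⟨t, rfl⟩
    rw [Ideal.Quotient.eq_zero_iff_mem, hI]
    exact Ideal.mem_span_singleton'.2 ⟨t, by ring⟩
  have ha' : IsIdempotentElem (Ideal.Quotient.mk I a) := by
    have := hmem _ ha
    rw [map_sub, map_pow, sub_eq_zero, pow_two] at this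
    exact this
  have hb' : IsIdempotentElem (Ideal.Quotient.mk I b) := by
    have := hmem _ hb
    rw [map_sub, map_pow, sub_eq_zero, pow_two] at this
    exact this
  have hn : IsNilpotent (Ideal.Quotient.mk I a - Ideal.Quotient.mk I b) := by
    refine ⟨n, ?_⟩
    rw [← map_sub, ← map_pow]
    exact hmem _ h
  have heq := eq_of_isNilpotent_sub_of_isIdempotentElem ha' hb' hn
  have h2 : Ideal.Quotient.mk I (a - b) = 0 := by
    rw [map_sub, heq, sub_self]
  rw [Ideal.Quotient.eq_zero_iff_mem, hI] at h2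
  obtain ⟨t, ht⟩ := Ideal.mem_span_singleton'.1 h2
  exact ⟨t, by rw [← ht, mul_comm]⟩

end Lift

section Sub

/-- `exists_idem_lift` inside a subalgebra of `F`. -/
theorem exists_idem_lift_sub (C : Subalgebra R F) (w : R) {e : F} (he : e ∈ C) (n : ℕ)
    (h : ∃ t ∈ C, (e ^ 2 - e) ^ n = algebraMap R F w * t) :
    ∃ t ∈ C, (1 - (1 - e ^ n) ^ n) ^ 2 - (1 - (1 - e ^ n) ^ n) = algebraMap R F w * t := by
  obtain ⟨t, ht, h1⟩ := h
  obtain ⟨t', ht'⟩ := exists_idem_lift (algebraMap R C w) (⟨e, he⟩ : C) n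
    ⟨⟨t, ht⟩, Subtype.ext (by push_cast; exact h1)⟩
  refine ⟨t', t'.2, ?_⟩
  have := congrArg (fun c : C => (c : F)) ht'
  simpa using this

/-- `idem_congr_of_nilpotent` inside a subalgebra of `F`. -/
theorem idem_congr_of_nilpotent_sub (C : Subalgebra R F) (w : R) {a b : F} (ha : a ∈ C)
    (hb : b ∈ C) (hia : ∃ t ∈ C, a ^ 2 - a = algebraMap R F w * t)
    (hib : ∃ t ∈ C, b ^ 2 - b = algebraMap R F w * t) (n : ℕ)
    (h : ∃ t ∈ C, (a - b) ^ n = algebraMap R F w * t) :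
    ∃ t ∈ C, a - b = algebraMap R F w * t := by
  obtain ⟨t₁, ht₁, h1⟩ := hia
  obtain ⟨t₂, ht₂, h2⟩ := hib
  obtain ⟨t₃, ht₃, h3⟩ := h
  obtain ⟨t', ht'⟩ := idem_congr_of_nilpotent (algebraMap R C w) (⟨a, ha⟩ : C) (⟨b, hb⟩ : C)
    ⟨⟨t₁, ht₁⟩, Subtype.ext (by push_cast; exact h1)⟩
    ⟨⟨t₂, ht₂⟩, Subtype.ext (by push_cast; exact h2)⟩ n
    ⟨⟨t₃, ht₃⟩, Subtype.ext (by push_cast; exact h3)⟩
  refine ⟨t', t'.2, ?_⟩
  have := congrArg (fun c : C => (c : F)) ht'
  simpa using this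

end Sub

section Main

variable [IsNoetherianRing R] [IsIntegrallyClosed (Polynomial R)] [CharZero F]

/-- **CLOPEN, idempotent form.**  A function on the sheets of the special fibre with values in
`{0, 1}`, induced by an element `e₀` of `F`, which is constant on the sheets through every closed
point of the two charts, is constant.  The special fibre may be non-reduced (`QepRad`). -/
theorem clopen_idem
    (hinjR : Function.Injective (algebraMap R F))
    (hRF : ∀ y : F, IsIntegral R y → y ∈ Set.range (algebraMap R F))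
    {x : F} (hx : Transcendental R x) [FiniteDimensional (baseField R x) F]
    (w : R) (hw : Prime w)
    {𝒲 : Set (ValuationSubring F)} (h𝒲 : 𝒲.Finite)
    (hmid : ∀ W ∈ 𝒲, ∀ c ∈ chart R ({x, x⁻¹} : Set F), c ∈ W)
    (hwW : ∀ W ∈ 𝒲, algebraMap R F w ∈ W.nonunits)
    (qep_fin : QepRad 𝒲 w (chart R ({x} : Set F)))
    (qep_inf : QepRad 𝒲 w (chart R ({x⁻¹} : Set F)))
    (qep_mid : QepRad 𝒲 w (chart R ({x, x⁻¹} : Set F)))
    {e₀ : F} (he₀ : ∀ W ∈ 𝒲, e₀ ∈ W.nonunits ∨ 1 - e₀ ∈ W.nonunits)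
    (hloc_fin : ∀ 𝔫 : Ideal (chart R ({x} : Set F)), 𝔫.IsMaximal →
      algebraMap R (chart R ({x} : Set F)) w ∈ 𝔫 →
      ∀ W ∈ 𝒲, ∀ W' ∈ 𝒲, Through _ 𝔫 W → Through _ 𝔫 W' →
        (e₀ ∈ W.nonunits → e₀ ∈ W'.nonunits))
    (hloc_inf : ∀ 𝔫 : Ideal (chart R ({x⁻¹} : Set F)), 𝔫.IsMaximal →
      algebraMap R (chart R ({x⁻¹} : Set F)) w ∈ 𝔫 →
      ∀ W ∈ 𝒲, ∀ W' ∈ 𝒲, Through _ 𝔫 W → Through _ 𝔫 W' →
        (e₀ ∈ W.nonunits → e₀ ∈ W'.nonunits)) :
    InJ 𝒲 e₀ ∨ InJ 𝒲 (1 - e₀) := by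
  have hfm : chart R ({x} : Set F) ≤ chart R ({x, x⁻¹} : Set F) := chart_mono (by simp)
  have him : chart R ({x⁻¹} : Set F) ≤ chart R ({x, x⁻¹} : Set F) := chart_mono (by simp)
  have hfin : ∀ W ∈ 𝒲, ∀ c ∈ chart R ({x} : Set F), c ∈ W :=
    fun W hW c hc => hmid W hW c (hfm hc)
  have hinf : ∀ W ∈ 𝒲, ∀ c ∈ chart R ({x⁻¹} : Set F), c ∈ W :=
    fun W hW c hc => hmid W hW c (him hc)
  obtain ⟨e₁, he₁, h₁⟩ := exists_chart_rep_rad h𝒲 hfin w hwW he₀ hloc_fin
  obtain ⟨e₂, he₂, h₂⟩ := exists_chart_rep_rad h𝒲 hinf w hwW he₀ hloc_inf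
  -- kinds of `e₁`, `e₂`
  have hk0 : ∀ {e : F}, InJ 𝒲 (e₀ - e) → ∀ W ∈ 𝒲, e₀ ∈ W.nonunits → e ∈ W.nonunits := by
    intro e he W hW h0
    have : e = e₀ - (e₀ - e) := by ring
    rw [this]
    exact nu_sub W h0 (he W hW)
  have hk1 : ∀ {e : F}, InJ 𝒲 (e₀ - e) → ∀ W ∈ 𝒲, 1 - e₀ ∈ W.nonunits →
      1 - e ∈ W.nonunits := by
    intro e he W hW h0
    have : 1 - e = (1 - e₀) + (e₀ - e) := by ring
    rw [this]
    exact nu_add W h0 (he W hW)
  have hsq : ∀ {C : Subalgebra R F}, (∀ W ∈ 𝒲, ∀ c ∈ C, c ∈ W) → ∀ {e : F}, e ∈ C →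
      InJ 𝒲 (e₀ - e) → InJ 𝒲 (e ^ 2 - e) := by
    intro C hC e heC he W hW
    have heW : e ∈ W := hC W hW e heC
    rcases he₀ W hW with h | h
    · have : e ^ 2 - e = (e - 1) * e := by ring
      rw [this]
      exact nu_mul_left W (hk0 he W hW h) (W.sub_mem heW W.one_mem)
    · have : e ^ 2 - e = -(e * (1 - e)) := by ring
      rw [this]
      exact nu_neg W (nu_mul_left W (hk1 he W hW h) heW)
  -- nilpotency exponents
  obtain ⟨N₁, t₁, ht₁, hN₁⟩ := qep_fin _ (Subalgebra.sub_mem _ (Subalgebra.pow_mem _ he₁ 2) he₁)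
    (hsq hfin he₁ h₁)
  obtain ⟨N₂, t₂, ht₂, hN₂⟩ := qep_inf _ (Subalgebra.sub_mem _ (Subalgebra.pow_mem _ he₂ 2) he₂)
    (hsq hinf he₂ h₂)
  set n₁ := N₁ + 1 with hn₁
  set n₂ := N₂ + 1 with hn₂
  set E₁ : F := 1 - (1 - e₁ ^ n₁) ^ n₁ with hE₁
  set E₂ : F := 1 - (1 - e₂ ^ n₂) ^ n₂ with hE₂
  have hE₁C : E₁ ∈ chart R ({x} : Set F) :=
    Subalgebra.sub_mem _ (Subalgebra.one_mem _) (Subalgebra.pow_mem _
      (Subalgebra.sub_mem _ (Subalgebra.one_mem _) (Subalgebra.pow_mem _ he₁ _)) _)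
  have hE₂C : E₂ ∈ chart R ({x⁻¹} : Set F) :=
    Subalgebra.sub_mem _ (Subalgebra.one_mem _) (Subalgebra.pow_mem _
      (Subalgebra.sub_mem _ (Subalgebra.one_mem _) (Subalgebra.pow_mem _ he₂ _)) _)
  have hi₁ : ∃ t ∈ chart R ({x} : Set F), E₁ ^ 2 - E₁ = algebraMap R F w * t := by
    refine exists_idem_lift_sub _ w he₁ n₁ ⟨t₁ * (e₁ ^ 2 - e₁), ?_, ?_⟩
    · exact Subalgebra.mul_mem _ ht₁
        (Subalgebra.sub_mem _ (Subalgebra.pow_mem _ he₁ 2) he₁)
    · rw [hn₁, pow_succ, hN₁]; ring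
  have hi₂ : ∃ t ∈ chart R ({x⁻¹} : Set F), E₂ ^ 2 - E₂ = algebraMap R F w * t := by
    refine exists_idem_lift_sub _ w he₂ n₂ ⟨t₂ * (e₂ ^ 2 - e₂), ?_, ?_⟩
    · exact Subalgebra.mul_mem _ ht₂
        (Subalgebra.sub_mem _ (Subalgebra.pow_mem _ he₂ 2) he₂)
    · rw [hn₂, pow_succ, hN₂]; ring
  -- kinds of `E₁`, `E₂`
  have hE₁0 : ∀ W ∈ 𝒲, e₀ ∈ W.nonunits → E₁ ∈ W.nonunits := fun W hW h =>
    nu_lift_zero W (hk0 h₁ W hW h) (Nat.succ_ne_zero _)
  have hE₁1 : ∀ W ∈ 𝒲, 1 - e₀ ∈ W.nonunits → 1 - E₁ ∈ W.nonunits := fun W hW h =>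
    nu_lift_one W (hk1 h₁ W hW h) (Nat.succ_ne_zero _)
  have hE₂0 : ∀ W ∈ 𝒲, e₀ ∈ W.nonunits → E₂ ∈ W.nonunits := fun W hW h =>
    nu_lift_zero W (hk0 h₂ W hW h) (Nat.succ_ne_zero _)
  have hE₂1 : ∀ W ∈ 𝒲, 1 - e₀ ∈ W.nonunits → 1 - E₂ ∈ W.nonunits := fun W hW h =>
    nu_lift_one W (hk1 h₂ W hW h) (Nat.succ_ne_zero _)
  have hdJ : InJ 𝒲 (E₁ - E₂) := by
    intro W hW
    rcases he₀ W hW with h | h
    · exact nu_sub W (hE₁0 W hW h) (hE₂0 W hW h)
    · have : E₁ - E₂ = (1 - E₂) - (1 - E₁) := by ring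
      rw [this]
      exact nu_sub W (hE₂1 W hW h) (hE₁1 W hW h)
  obtain ⟨M, t₃, ht₃, hM⟩ := qep_mid _ (Subalgebra.sub_mem _ (hfm hE₁C) (him hE₂C)) hdJ
  have h₁₂ : ∃ t ∈ chart R ({x, x⁻¹} : Set F), E₁ - E₂ = algebraMap R F w * t := by
    refine idem_congr_of_nilpotent_sub _ w (hfm hE₁C) (him hE₂C) ?_ ?_ M ⟨t₃, ht₃, hM⟩
    · obtain ⟨t, ht, h⟩ := hi₁
      exact ⟨t, hfm ht, h⟩
    · obtain ⟨t, ht, h⟩ := hi₂
      exact ⟨t, him ht, h⟩
  rcases connected_special_fibre hinjR hRF hx w hw E₁ E₂ hE₁C hE₂C hi₁ hi₂ h₁₂ with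
    ⟨⟨t, ht, h⟩, _⟩ | ⟨⟨t, ht, h⟩, _⟩
  · left
    intro W hW
    have hE : E₁ ∈ W.nonunits := by
      rw [h]
      exact nu_mul_right W (hwW W hW) (hfin W hW t ht)
    rcases he₀ W hW with h0 | h1
    · exact h0
    · exact (nu_not_both W hE (hE₁1 W hW h1)).elim
  · right
    intro W hW
    have hE : 1 - E₁ ∈ W.nonunits := by
      rw [h]
      exact nu_mul_right W (hwW W hW) (hfin W hW t ht)
    rcases he₀ W hW with h0 | h1
    · exact (nu_not_both W (hE₁0 W hW h0) hE).elim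
    · exact h1

end Main

end Fermat.Agent.S36.H193

end
-- ===== PACK-END S36/H193/Clopen.lean

-- ===== PACK-BEGIN S41/H761/TRH.lean
section







/-!
# Row S41, block HK, leaf TRH: `t₁ r₂ = T_q = t₂ r₁` (helper761)

`transferRestrictHecke : Spec.TransferRestrictHeckeStatement`.
-/

set_option autoImplicit false

namespace Fermat.Agent.S41.H761

open CongruenceSubgroup Matrix.SpecialLinearGroup ModularForm
open Fermat.Agent.S29.H642 Fermat.Agent.S41.Spec
open P2MW.S_ModularForm_heckeT_slash_eq_self_of_mem_Gamma0.ModularForm.HeckeSlashInvariance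
open scoped MatrixGroups

section TRH

variable {N q : ℕ} [Fact q.Prime]

omit [Fact (Nat.Prime q)] in
theorem conjDelta_apply_entries (γ : Gamma0 (N * q)) :
    ((conjDelta N q γ : Gamma0 N) : SL(2, ℤ)) 0 0 = (γ : SL(2, ℤ)) 0 0 ∧
    ((conjDelta N q γ : Gamma0 N) : SL(2, ℤ)) 0 1 = q * (γ : SL(2, ℤ)) 0 1 ∧
    ((conjDelta N q γ : Gamma0 N) : SL(2, ℤ)) 1 0 * q = (γ : SL(2, ℤ)) 1 0 ∧
    ((conjDelta N q γ : Gamma0 N) : SL(2, ℤ)) 1 1 = (γ : SL(2, ℤ)) 1 1 := by
  have h := H105.conjDelta_coe_apply N q γ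
  have e : ∀ i j, ((conjDelta N q γ : Gamma0 N) : SL(2, ℤ)) i j =
      conjDeltaMatrix q (γ : SL(2, ℤ)) i j := fun i j => by
    have := congrFun (congrFun h i) j
    exact this
  refine ⟨by rw [e]; simp [conjDeltaMatrix], by rw [e]; simp [conjDeltaMatrix], ?_,
    by rw [e]; simp [conjDeltaMatrix]⟩
  rw [e]
  simp only [conjDeltaMatrix, Matrix.of_apply, Matrix.cons_val', Matrix.cons_val_zero,
    Matrix.cons_val_one, Matrix.cons_val_fin_one]
  exact Int.ediv_mul_cancel (dvd_of_mem_gamma0_mul γ).1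

/-- `δ γ = c_δ(γ) δ` for `δ = heckeRep q ∞ = diag(q, 1)`. -/
theorem r2_rel (g' : Gamma0 (N * q)) :
    heckeRep q OnePoint.infty * ((ιN N).comp (incl N q)) g' =
      ιN N (conjDelta N q g') * heckeRep q OnePoint.infty := by
  obtain ⟨c00, c01, c10, c11⟩ := conjDelta_apply_entries g'
  have c10' : ((((conjDelta N q g' : Gamma0 N) : SL(2, ℤ)) 1 0 : ℤ) : ℝ) * (q : ℝ) =
      (((g' : SL(2, ℤ)) 1 0 : ℤ) : ℝ) := by exact_mod_cast c10
  have hi : ∀ i j, ((((ιN N).comp (incl N q)) g' : GL (Fin 2) ℝ) : Matrix (Fin 2) (Fin 2) ℝ) i j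
      = (((g' : SL(2, ℤ)) i j : ℤ) : ℝ) := fun i j => coe_mapGL_apply _ i j
  apply gl_ext <;>
    simp only [coe_mul_apply, coe_ιN_apply, hi, coe_heckeRep_infty, Matrix.of_apply,
      Matrix.cons_val', Matrix.cons_val_zero, Matrix.cons_val_one, Matrix.cons_val_fin_one,
      c00, c01, c11] <;>
    push_cast
  · ring
  · ring
  · linear_combination (-1 : ℝ) * c10'
  · ring

/-- `D c_δ(γ) = γ D` for `D = heckeRep q 0 = [[1, 0], [0, q]]`. -/
theorem r1_rel (g' : Gamma0 (N * q)) :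
    heckeRep q ((0 : ZMod q) : OnePoint (ZMod q)) * ((ιN N).comp (conjDelta N q)) g' =
      ιN N (incl N q g') * heckeRep q ((0 : ZMod q) : OnePoint (ZMod q)) := by
  obtain ⟨c00, c01, c10, c11⟩ := conjDelta_apply_entries g'
  have c10' : ((((conjDelta N q g' : Gamma0 N) : SL(2, ℤ)) 1 0 : ℤ) : ℝ) * (q : ℝ) =
      (((g' : SL(2, ℤ)) 1 0 : ℤ) : ℝ) := by exact_mod_cast c10
  have hi : ∀ i j, ((((ιN N).comp (conjDelta N q)) g' : GL (Fin 2) ℝ) :
      Matrix (Fin 2) (Fin 2) ℝ) i j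
      = ((((conjDelta N q g' : Gamma0 N) : SL(2, ℤ)) i j : ℤ) : ℝ) := fun i j =>
    coe_mapGL_apply _ i j
  have hi' : ∀ i j, ((ιN N (incl N q g') : GL (Fin 2) ℝ) : Matrix (Fin 2) (Fin 2) ℝ) i j
      = (((g' : SL(2, ℤ)) i j : ℤ) : ℝ) := fun i j => coe_mapGL_apply _ i j
  apply gl_ext <;>
    simp only [coe_mul_apply, hi, hi', coe_heckeRep_coe, ZMod.val_zero, Matrix.of_apply,
      Matrix.cons_val', Matrix.cons_val_zero, Matrix.cons_val_one, Matrix.cons_val_fin_one,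
      c00, c01, c11] <;>
    push_cast
  · ring
  · ring
  · linear_combination c10'
  · ring

omit [Fact (Nat.Prime q)] in
theorem rel_mul_inv {D : GL (Fin 2) ℝ} {a b g : Gamma0 N}
    (e : D * ιN N a = ιN N g * (D * ιN N b)) : D * ιN N (a * b⁻¹) = ιN N g * D := by
  rw [map_mul, map_inv, ← mul_assoc, e, mul_assoc, mul_assoc, mul_inv_cancel, mul_one]

/-- Distinctness of the cosets of the product system of `t₁ r₂`. -/
theorem prod_S2_t1r2 (hq : ¬ q ∣ N) (x y : Gamma0 N ⧸ (incl N q).range) (g : Gamma0 N)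
    (e : heckeRep q OnePoint.infty * ιN N (x.out)⁻¹ =
      ιN N g * (heckeRep q OnePoint.infty * ιN N (y.out)⁻¹)) : x = y := by
  have e2 := rel_mul_inv e
  have e10 := congrArg (fun M : GL (Fin 2) ℝ => (M : Matrix (Fin 2) (Fin 2) ℝ) 1 0) e2
  simp only [coe_mul_apply, coe_ιN_apply, coe_heckeRep_infty, Matrix.of_apply,
    Matrix.cons_val', Matrix.cons_val_zero, Matrix.cons_val_one, Matrix.cons_val_fin_one,
    zero_mul, one_mul, zero_add, mul_zero, add_zero] at e10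
  have e10' : (((x.out)⁻¹ * ((y.out)⁻¹)⁻¹ : Gamma0 N) : SL(2, ℤ)) 1 0 =
      (g : SL(2, ℤ)) 1 0 * q := by exact_mod_cast e10
  have hmem : (x.out)⁻¹ * ((y.out)⁻¹)⁻¹ ∈ (incl N q).range :=
    (H105.mem_range_incl_iff (Fact.out : q.Prime) hq _).mpr ⟨(g : SL(2, ℤ)) 1 0, by
      rw [e10', mul_comm]⟩
  rw [inv_inv] at hmem
  have h3 := QuotientGroup.eq.mpr hmem
  rwa [QuotientGroup.out_eq', QuotientGroup.out_eq'] at h3

/-- Distinctness of the cosets of the product system of `t₂ r₁`. -/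
theorem prod_S2_t2r1 (x y : Gamma0 N ⧸ (conjDelta N q).range) (g : Gamma0 N)
    (e : heckeRep q ((0 : ZMod q) : OnePoint (ZMod q)) * ιN N (x.out)⁻¹ =
      ιN N g * (heckeRep q ((0 : ZMod q) : OnePoint (ZMod q)) * ιN N (y.out)⁻¹)) : x = y := by
  have e2 := rel_mul_inv e
  have e01 := congrArg (fun M : GL (Fin 2) ℝ => (M : Matrix (Fin 2) (Fin 2) ℝ) 0 1) e2
  simp only [coe_mul_apply, coe_ιN_apply, coe_heckeRep_coe, ZMod.val_zero, Matrix.of_apply,
    Matrix.cons_val', Matrix.cons_val_zero, Matrix.cons_val_one, Matrix.cons_val_fin_one,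
    zero_mul, one_mul, zero_add, mul_zero, add_zero, Nat.cast_zero] at e01
  have e01' : (((x.out)⁻¹ * ((y.out)⁻¹)⁻¹ : Gamma0 N) : SL(2, ℤ)) 0 1 =
      (g : SL(2, ℤ)) 0 1 * q := by exact_mod_cast e01
  have hmem : (x.out)⁻¹ * ((y.out)⁻¹)⁻¹ ∈ (conjDelta N q).range :=
    (H105.mem_range_conjDelta_iff N (Fact.out : q.Prime).ne_zero _).mpr ⟨(g : SL(2, ℤ)) 0 1, by
      rw [e01', mul_comm]⟩
  rw [inv_inv] at hmem
  have h3 := QuotientGroup.eq.mpr hmem
  rwa [QuotientGroup.out_eq', QuotientGroup.out_eq'] at h3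

variable {A : Type*} [AddCommGroup A]

/-- `t₁ r₂ = T_q`. -/
theorem t1_r2 (hq : ¬ q ∣ N) (φ : Additive (Gamma0 N) →+ A) :
    t₁ N q (r₂ N q φ) = heckeTransfer hq φ := by
  have hqp : q.Prime := Fact.out
  have hN : N ≠ 0 := by rintro rfl; exact hq (dvd_zero q)
  have : (incl N q).range.FiniteIndex := ⟨by rw [H105.index_range_incl hN hqp hq]; omega⟩
  let _ : Fintype (Gamma0 N ⧸ (incl N q).range) := (incl N q).range.fintypeQuotientOfFiniteIndex
  have hs1 := IsCosetSystem.single (ι' := (ιN N).comp (incl N q)) (ιN_injective N)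
    (conjDelta N q) (heckeRep q OnePoint.infty) r2_rel
  have hs2 := IsCosetSystem.ofTransfer (incl N q) (H105.incl_injective N q) (ιN N)
    (ιN_injective N)
  have hprod := hs1.prod hs2 (fun _ _ x y g e => ⟨rfl, prod_S2_t1r2 hq x y g e⟩)
  show transferAlong (incl N q) (r₂ N q φ) = _
  rw [transferAlong_eq (incl N q) (H105.incl_injective N q) (ιN N) (ιN_injective N)]
  have hr2 : r₂ N q φ = hs1.transfer φ :=
    (IsCosetSystem.single_transfer (ι' := (ιN N).comp (incl N q)) (ιN_injective N)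
      (conjDelta N q) (heckeRep q OnePoint.infty) r2_rel φ).symm
  rw [hr2, IsCosetSystem.transfer_comp hs1 hs2 hprod, heckeTransfer_eq_transfer]
  have : Nonempty (Unit × (Gamma0 N ⧸ (incl N q).range)) := ⟨((), ((1 : Gamma0 N) : _))⟩
  refine IsCosetSystem.transfer_eq_of_le hprod (heckeSystem hq) (fun z => ?_)
    (heckeSystem_transitive hq) φ
  exact ⟨_, _, heckeSystem_spec hq OnePoint.infty (z.2.out)⁻¹⟩

/-- `t₂ r₁ = T_q`. -/
theorem t2_r1 (hq : ¬ q ∣ N) (φ : Additive (Gamma0 N) →+ A) :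
    t₂ N q (r₁ N q φ) = heckeTransfer hq φ := by
  have hqp : q.Prime := Fact.out
  have hN : N ≠ 0 := by rintro rfl; exact hq (dvd_zero q)
  have : (conjDelta N q).range.FiniteIndex :=
    ⟨by rw [H105.index_range_conjDelta hN hqp hq]; omega⟩
  let _ : Fintype (Gamma0 N ⧸ (conjDelta N q).range) :=
    (conjDelta N q).range.fintypeQuotientOfFiniteIndex
  have hinj := H105.conjDelta_injective N hqp.ne_zero
  have hs1 := IsCosetSystem.single (ι' := (ιN N).comp (conjDelta N q)) (ιN_injective N)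
    (incl N q) (heckeRep q ((0 : ZMod q) : OnePoint (ZMod q))) r1_rel
  have hs2 := IsCosetSystem.ofTransfer (conjDelta N q) hinj (ιN N) (ιN_injective N)
  have hprod := hs1.prod hs2 (fun _ _ x y g e => ⟨rfl, prod_S2_t2r1 x y g e⟩)
  show transferAlong (conjDelta N q) (r₁ N q φ) = _
  rw [transferAlong_eq (conjDelta N q) hinj (ιN N) (ιN_injective N)]
  have hr1 : r₁ N q φ = hs1.transfer φ :=
    (IsCosetSystem.single_transfer (ι' := (ιN N).comp (conjDelta N q)) (ιN_injective N)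
      (incl N q) (heckeRep q ((0 : ZMod q) : OnePoint (ZMod q))) r1_rel φ).symm
  rw [hr1, IsCosetSystem.transfer_comp hs1 hs2 hprod, heckeTransfer_eq_transfer]
  have : Nonempty (Unit × (Gamma0 N ⧸ (conjDelta N q).range)) := ⟨((), ((1 : Gamma0 N) : _))⟩
  refine IsCosetSystem.transfer_eq_of_le hprod (heckeSystem hq) (fun z => ?_)
    (heckeSystem_transitive hq) φ
  exact ⟨_, _, heckeSystem_spec hq ((0 : ZMod q) : OnePoint (ZMod q)) (z.2.out)⁻¹⟩

end TRH

universe u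

/-- **Leaf TRH of block HK**: `t₁ r₂ = T_q = t₂ r₁`. -/
theorem transferRestrictHecke : Spec.TransferRestrictHeckeStatement.{u} := by
  intro N q _ hq _ A _ φ
  exact ⟨t1_r2 hq φ, t2_r1 hq φ⟩

/-- **Leaf HC of block HK**: `T_l` preserves cuspidal classes
(from `T_l = t₁ r₂` at level `(N, l)` and the leaves RC, TC). -/
theorem heckeCusp_of (hRC : Spec.RestrictCuspStatement.{u}) (hTC : Spec.TransferCuspStatement.{u}) :
    Spec.HeckeCuspStatement.{u} := by
  intro N l _ hl A _ φ hφ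
  rw [← t1_r2 hl φ]
  exact (hTC N l A _ (hRC N l A φ hφ).2).1

/-- **Leaf HC of block HK**, unconditional (RC and TC by helper581). -/
theorem heckeCusp : Spec.HeckeCuspStatement.{u} :=
  heckeCusp_of H581.restrictCusp H581.transferCusp

end Fermat.Agent.S41.H761

end
-- ===== PACK-END S41/H761/TRH.lean

-- ===== PACK-BEGIN S41/H924/CosetAut.lean
section






/-!
# Row S41, block NEW, leaf NEW-3a (helper924): the involution commutes with the transfers

Generic statement: the transfer of a coset system is natural under automorphisms.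
If `c` is an automorphism of the ambient group `𝒢`, `β` of `Γ`, `α` of `Γ'`, compatible with
`ι, ι'`, if `c` maps every coset `ι(Γ) ρ_i` of the system to a coset of the system and the
action on the index set is transitive, then
`transfer (ψ ∘ β) = (transfer ψ) ∘ α`.

* `IsCosetSystem.transfer_comp_aut` : the generic statement;
* `transferAlong_comp_aut` : the case of `Spec.transferAlong f`, with `α ∘ f = f ∘ β`
  (no hypothesis on `f`);
* `newInvolution : Spec.NewInvolutionStatement`.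
-/

set_option autoImplicit false

namespace Fermat.Agent.S41.H924

open Fermat.Agent.S41.H761 Fermat.Agent.S41.Spec

section Generic

variable {𝒢 Γ Γ' : Type*} [Group 𝒢] [Group Γ] [Group Γ'] {I : Type*}
variable {ι : Γ →* 𝒢} {ι' : Γ' →* 𝒢} {ρ : I → 𝒢}

/-- The image of a coset system under compatible automorphisms is a coset system. -/
theorem cosetSystem_map (h : IsCosetSystem ι ι' ρ) (c : 𝒢 ≃* 𝒢) (β : Γ ≃* Γ) (α : Γ' ≃* Γ')
    (hβ : ∀ g, c (ι g) = ι (β g)) (hα : ∀ g', c (ι' g') = ι' (α g')) :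
    IsCosetSystem ι ι' (fun i => c (ρ i)) where
  inj := h.inj
  exists_mul := by
    intro i g'
    refine ⟨h.act i (α.symm g'), β (h.coc i (α.symm g')), ?_⟩
    have e := congrArg c (h.spec i (α.symm g'))
    rw [map_mul, map_mul, hα, hβ, α.apply_symm_apply] at e
    exact e
  eq_of_mul := by
    intro i j g e
    apply h.eq_of_mul i j (β.symm g)
    apply c.injective
    rw [map_mul, hβ, β.apply_symm_apply]
    exact e

theorem cosetSystem_map_coc (h : IsCosetSystem ι ι' ρ) (c : 𝒢 ≃* 𝒢) (β : Γ ≃* Γ)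
    (α : Γ' ≃* Γ') (hβ : ∀ g, c (ι g) = ι (β g)) (hα : ∀ g', c (ι' g') = ι' (α g'))
    (i : I) (g' : Γ') :
    (cosetSystem_map h c β α hβ hα).coc i (α g') = β (h.coc i g') := by
  apply (cosetSystem_map h c β α hβ hα).coc_eq (j := h.act i g')
  have e := congrArg c (h.spec i g')
  rw [map_mul, map_mul, hα, hβ] at e
  exact e

variable {A : Type*} [AddCommGroup A] [Fintype I]

/-- **Naturality of the transfer of a coset system under automorphisms.** -/
theorem transfer_comp_aut [Nonempty I] (h : IsCosetSystem ι ι' ρ) (c : 𝒢 ≃* 𝒢) (β : Γ ≃* Γ)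
    (α : Γ' ≃* Γ') (hβ : ∀ g, c (ι g) = ι (β g)) (hα : ∀ g', c (ι' g') = ι' (α g'))
    (hle : ∀ i, ∃ (j : I) (g : Γ), c (ρ i) = ι g * ρ j)
    (htr : ∀ j j' : I, ∃ g' : Γ', h.act j g' = j') (ψ : Additive Γ →+ A) :
    h.transfer (ψ.comp (MonoidHom.toAdditive β.toMonoidHom)) =
      (h.transfer ψ).comp (MonoidHom.toAdditive α.toMonoidHom) := by
  have hcmp : (cosetSystem_map h c β α hβ hα).transfer ψ = h.transfer ψ :=
    IsCosetSystem.transfer_eq_of_le (cosetSystem_map h c β α hβ hα) h hle htr ψ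
  refine AddMonoidHom.ext fun g' => ?_
  obtain ⟨g, rfl⟩ : ∃ g : Γ', Additive.ofMul g = g' := ⟨Additive.toMul g', rfl⟩
  rw [AddMonoidHom.comp_apply, ← hcmp]
  show h.transfer (ψ.comp (MonoidHom.toAdditive β.toMonoidHom)) (Additive.ofMul g) =
    (cosetSystem_map h c β α hβ hα).transfer ψ (Additive.ofMul (α g))
  rw [IsCosetSystem.transfer_apply, IsCosetSystem.transfer_apply]
  refine Finset.sum_congr rfl fun i _ => ?_
  rw [cosetSystem_map_coc h c β α hβ hα]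
  rfl

end Generic

section TransferAlong

variable {H' G : Type*} [Group H'] [Group G] {A : Type*} [AddCommGroup A]

/-- **Naturality of `transferAlong` under automorphisms**: if `α ∘ f = f ∘ β`, then
`transferAlong f (ψ ∘ β) = (transferAlong f ψ) ∘ α`. -/
theorem transferAlong_comp_aut (f : H' →* G) (β : H' ≃* H') (α : G ≃* G)
    (hαβ : ∀ x, α (f x) = f (β x)) (ψ : Additive H' →+ A) :
    transferAlong f (ψ.comp (MonoidHom.toAdditive β.toMonoidHom)) =
      (transferAlong f ψ).comp (MonoidHom.toAdditive α.toMonoidHom) := by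
  classical
  by_cases hf : Function.Injective f ∧ f.range.FiniteIndex
  · obtain ⟨hinj, hfin⟩ := hf
    have := hfin
    let _ : Fintype (G ⧸ f.range) := f.range.fintypeQuotientOfFiniteIndex
    rw [transferAlong_eq f hinj (MonoidHom.id G) Function.injective_id,
      transferAlong_eq f hinj (MonoidHom.id G) Function.injective_id]
    refine transfer_comp_aut (IsCosetSystem.ofTransfer f hinj (MonoidHom.id G)
      Function.injective_id) α β α (fun g => by simpa using hαβ g) (fun g' => rfl) ?_ ?_ ψ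
    · -- every element of `G` lies in a coset `f(H') (q.out)⁻¹`
      intro q
      set x : G := α ((MonoidHom.id G) (q.out)⁻¹) with hx
      have hmem : ((((x⁻¹ : G) : G ⧸ f.range).out)⁻¹ * x⁻¹) ∈ f.range := by
        rw [← QuotientGroup.eq, QuotientGroup.out_eq']
      obtain ⟨k, hk⟩ := hmem
      refine ⟨((x⁻¹ : G) : G ⧸ f.range), k⁻¹, ?_⟩
      simp only [MonoidHom.comp_apply, MonoidHom.id_apply, map_inv, hk]
      rw [mul_inv_rev, inv_inv, inv_inv, mul_inv_cancel_right]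
    · -- transitivity
      intro q q'
      refine ⟨q.out * (q'.out)⁻¹, ?_⟩
      rw [(IsCosetSystem.ofTransfer_act f hinj (MonoidHom.id G) Function.injective_id q _).1]
      calc (q.out * (q'.out)⁻¹)⁻¹ • q
          = (q.out * (q'.out)⁻¹)⁻¹ • ((q.out : G) : G ⧸ f.range) := by
            rw [QuotientGroup.out_eq']
        _ = (((q'.out * (q.out)⁻¹ * q.out : G)) : G ⧸ f.range) := by
            rw [mul_inv_rev, inv_inv]; rfl
        _ = q' := by rw [inv_mul_cancel_right, QuotientGroup.out_eq']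
  · rw [H581.transferAlong_of_not f hf, H581.transferAlong_of_not f hf]
    rfl

end TransferAlong

end Fermat.Agent.S41.H924

end
-- ===== PACK-END S41/H924/CosetAut.lean

-- ===== PACK-BEGIN S41/H863/TransferNatural.lean
section





/-!
# Row S41, block NEW, leaf NEW-3a (helper863): the involution `ι` commutes with `t₁`, `t₂`

* `transferAlong_eq_sum_reps` : universe-polymorphic form of NEW-2a;
* `exists_reps` : existence of a finite system of right coset representatives together with the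
  data `σ`, `k` of a given element;
* `transferAlong_natural` : naturality of `Spec.transferAlong f` with respect to a pair of
  compatible automorphisms of source and target;
* `newInvolution : Spec.NewInvolutionStatement`.
-/

set_option autoImplicit false

namespace Fermat.Agent.S41.H863

open Subgroup
open Fermat.Agent.S41.Spec CongruenceSubgroup ModularCurve.Period
open scoped MatrixGroups

section General

variable {H G : Type*} [Group H] [Group G] {A : Type*} [AddCommGroup A]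

/-- NEW-2a, universe-polymorphic. -/
theorem transferAlong_eq_sum_reps (f : H →* G) (hf : Function.Injective f)
    {ι : Type*} [Fintype ι] (s : ι → G)
    (hinj : ∀ x y : ι, s x * (s y)⁻¹ ∈ f.range → x = y)
    (hsurj : ∀ g : G, ∃ x : ι, g * (s x)⁻¹ ∈ f.range)
    (ψ : Additive H →+ A) (g : G) (σ : ι → ι) (k : ι → H)
    (hk : ∀ x : ι, s x * g = f (k x) * s (σ x)) :
    transferAlong f ψ (Additive.ofMul g) = ∑ x : ι, ψ (Additive.ofMul (k x)) := by
  have hfin : f.range.FiniteIndex := finiteIndex_of_reps f.range s hinj hsurj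
  rw [Fermat.Agent.S41.H581.transferAlong_apply_of f ⟨hf, hfin⟩ ψ g]
  haveI := hfin
  have key := transfer_eq_prod_reps
    ((AddMonoidHom.toMultiplicativeRight ψ).comp (MonoidHom.ofInjective hf).symm.toMonoidHom)
    s hinj hsurj g σ (fun x => ⟨f (k x), ⟨k x, rfl⟩⟩) (fun x => hk x)
  rw [key, toAdd_prod]
  refine Finset.sum_congr rfl fun x _ => ?_
  have h1 : (MonoidHom.ofInjective hf).symm ⟨f (k x), ⟨k x, rfl⟩⟩ = k x := by
    apply (MonoidHom.ofInjective hf).injective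
    rw [MulEquiv.apply_symm_apply]
    rfl
  simp only [MonoidHom.comp_apply, MulEquiv.coe_toMonoidHom, h1]
  rfl

/-- A finite system of representatives of the right cosets of a subgroup of finite index. -/
theorem exists_reps (K : Subgroup G) [K.FiniteIndex] :
    ∃ s : G ⧸ K → G, (∀ x y : G ⧸ K, s x * (s y)⁻¹ ∈ K → x = y) ∧
      ∀ g : G, ∃ x : G ⧸ K, g * (s x)⁻¹ ∈ K := by
  refine ⟨fun q => (q.out)⁻¹, ?_, ?_⟩
  · intro x y h
    have h1 : ((x.out : G) : G ⧸ K) = ((y.out : G) : G ⧸ K) := by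
      rw [QuotientGroup.eq]
      simpa using h
    rwa [QuotientGroup.out_eq', QuotientGroup.out_eq'] at h1
  · intro g
    refine ⟨((g⁻¹ : G) : G ⧸ K), ?_⟩
    have h1 : ((((g⁻¹ : G) : G ⧸ K).out : G) : G ⧸ K) = ((g⁻¹ : G) : G ⧸ K) :=
      QuotientGroup.out_eq' _
    rw [eq_comm, QuotientGroup.eq, inv_inv] at h1
    simpa using h1

/-- Naturality of the transfer along `f` for compatible automorphisms. -/
theorem transferAlong_natural (f : H →* G) (αH : H →* H) (αG : G ≃* G)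
    (hcomm : ∀ h : H, f (αH h) = αG (f h))
    (hrange : ∀ g : G, αG g ∈ f.range → g ∈ f.range)
    (ψ : Additive H →+ A) (g : G) :
    transferAlong f (ψ.comp (MonoidHom.toAdditive αH)) (Additive.ofMul g) =
      transferAlong f ψ (Additive.ofMul (αG g)) := by
  classical
  by_cases h : Function.Injective f ∧ f.range.FiniteIndex
  · obtain ⟨hf, hfin⟩ := h
    haveI := hfin
    haveI : Fintype (G ⧸ f.range) := f.range.fintypeQuotientOfFiniteIndex
    obtain ⟨s, hinj, hsurj⟩ := exists_reps f.range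
    -- the data of `g`
    choose σ hσ using fun x : G ⧸ f.range => hsurj (s x * g)
    choose k hk using hσ
    have hk' : ∀ x, s x * g = f (k x) * s (σ x) := by
      intro x
      rw [hk x, inv_mul_cancel_right]
    rw [transferAlong_eq_sum_reps f hf s hinj hsurj _ g σ k hk']
    -- the transported system
    have hinj' : ∀ x y : G ⧸ f.range, αG (s x) * (αG (s y))⁻¹ ∈ f.range → x = y := by
      intro x y hxy
      apply hinj x y
      apply hrange
      rwa [map_mul, map_inv]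
    have hsurj' : ∀ g' : G, ∃ x : G ⧸ f.range, g' * (αG (s x))⁻¹ ∈ f.range := by
      intro g'
      obtain ⟨x, h0, hx⟩ := hsurj (αG.symm g')
      refine ⟨x, αH h0, ?_⟩
      rw [hcomm, hx, map_mul, map_inv, MulEquiv.apply_symm_apply]
    have hk'' : ∀ x, αG (s x) * αG g = f (αH (k x)) * αG (s (σ x)) := by
      intro x
      rw [← map_mul, hk' x, map_mul, hcomm]
    rw [transferAlong_eq_sum_reps f hf (fun x => αG (s x)) hinj' hsurj' ψ (αG g) σ
      (fun x => αH (k x)) hk'']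
    rfl
  · rw [Fermat.Agent.S41.H581.transferAlong_of_not f h,
      Fermat.Agent.S41.H581.transferAlong_of_not f h]
    rfl

end General

/-! ## The involution `ι` -/

/-- `jConjGamma0` as a multiplicative equivalence. -/
def jConjEquiv (N : ℕ) : Gamma0 N ≃* Gamma0 N :=
  MonoidHom.toMulEquiv (jConjGamma0 N) (jConjGamma0 N)
    (MonoidHom.ext fun γ => jConjGamma0_jConjGamma0 N γ)
    (MonoidHom.ext fun γ => jConjGamma0_jConjGamma0 N γ)

@[simp] theorem jConjEquiv_apply (N : ℕ) (γ : Gamma0 N) : jConjEquiv N γ = jConjGamma0 N γ := rfl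

theorem incl_jConj (N q : ℕ) (γ : Gamma0 (N * q)) :
    incl N q (jConjGamma0 (N * q) γ) = jConjGamma0 N (incl N q γ) := by
  apply Subtype.ext
  rfl

theorem conjDelta_jConj (N q : ℕ) (γ : Gamma0 (N * q)) :
    conjDelta N q (jConjGamma0 (N * q) γ) = jConjGamma0 N (conjDelta N q γ) := by
  apply Subtype.ext
  apply Subtype.ext
  show conjDeltaMatrix q (jConjSL (γ : SL(2, ℤ))) = jConjMat (conjDeltaMatrix q (γ : SL(2, ℤ)))
  obtain ⟨c, hc⟩ := (dvd_of_mem_gamma0_mul γ).1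
  ext i j
  fin_cases i <;> fin_cases j
  · simp [conjDeltaMatrix, jConjMat]
  · simp [conjDeltaMatrix, jConjMat]
  · simp only [conjDeltaMatrix, jConjMat, jConjSL_coe, Fin.mk_one, Fin.isValue, Fin.zero_eta,
      Matrix.of_apply, Matrix.cons_val', Matrix.cons_val_zero, Matrix.cons_val_one,
      Matrix.cons_val_fin_one]
    rw [Int.neg_ediv_of_dvd ⟨c, hc⟩]
  · simp [conjDeltaMatrix, jConjMat]

theorem charInvolution_eq_comp (N : ℕ) (ψ : Additive (Gamma0 N) →+ ℂ) :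
    charInvolution N ℂ ℂ ψ = ψ.comp (MonoidHom.toAdditive (jConjGamma0 N)) := rfl

/-- **NEW-3a**: `ι` commutes with the two transfers. -/
theorem newInvolution : Spec.NewInvolutionStatement := by
  intro N q _ _ _ ψ
  have hr : ∀ (f : Gamma0 (N * q) →* Gamma0 N),
      (∀ h, f (jConjGamma0 (N * q) h) = jConjEquiv N (f h)) →
      transferAlong f (charInvolution (N * q) ℂ ℂ ψ) = charInvolution N ℂ ℂ (transferAlong f ψ) := by
    intro f hcomm
    refine AddMonoidHom.ext fun γ => ?_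
    obtain ⟨γ, rfl⟩ := Additive.ofMul.surjective γ
    rw [charInvolution_eq_comp (N * q),
      transferAlong_natural f (jConjGamma0 (N * q)) (jConjEquiv N) hcomm ?_ ψ γ]
    · rfl
    · rintro g ⟨h, hh⟩
      refine ⟨jConjGamma0 (N * q) h, ?_⟩
      rw [hcomm, hh, jConjEquiv_apply, jConjEquiv_apply, jConjGamma0_jConjGamma0]
  exact ⟨hr (incl N q) (incl_jConj N q), hr (conjDelta N q) (conjDelta_jConj N q)⟩

end Fermat.Agent.S41.H863

end
-- ===== PACK-END S41/H863/TransferNatural.lean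

-- ===== PACK-BEGIN S59/H934/LevelOpt.lean
section



/-!
# Row S59 — cell LO, leaf LO-GLUE (helper934)

`levelOpt_of : LoSqStatement → S38Statement → S39Statement → FlatPeuStatement →
    ResUnramStatement → ResFlatStatement → Arch.LevelOptStatement`.

Inputs (all `Prop`s, stated here):

* `S38Statement`, `S39Statement` : the frozen statements S38, S39, verbatim (feed
  `Fermat.Agent.S38.result`, `Fermat.Agent.S39.result`);
* `LoSqStatement`      (leaf LO-SQ) : removal of a square `q² ∥ M`, `q ≠ p`;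
* `FlatPeuStatement`   : `E[p]` flat at `p` ⇒ `p ∣ v_p(Δ)` (the Prelude's `IsPeuRamifieeAt`);
* `ResUnramStatement`  : residually modular of squarefree level `M` ⇒ `E[p]` unramified at the
  primes `q ∤ p M` (residual consequence of S31);
* `ResFlatStatement`   : residually modular of squarefree level `M`, `p ∤ M` ⇒ `E[p]` flat at `p`
  (residual consequence of S32).

Proof.  `M₀ →` squarefree `M₁` (LO-SQ, induction) `→ M₂ ∣ M₁` all of whose prime divisors `≠ p`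
are ramified for `E[p]` (S38, induction) `→` remove `p` if `E[p]` is flat (S39 + flat ⇒ peu
ramifié); the prime divisors of the result are exactly those of `wilesLevel p t Smin Smin`
(ResUnram for `⊇`, ResFlat for `p` when `E[p]` is not flat), and both are squarefree.
-/

set_option autoImplicit false

open scoped WeierstrassCurve.Affine

namespace Fermat.Agent.S59.H934

open Fermat.Agent.S59.Arch

/-! ## The inputs -/

/-- Frozen S38, verbatim. -/
def S38Statement : Prop :=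
  ∀ (p : ℕ) [Fact p.Prime] (_hp2 : p ≠ 2) (W : WeierstrassCurve ℤ) (_hΔ : W.Δ ≠ 0)
    (_hW : W.IsSemistableModel)
    (hcard₁ : Nat.card (Submodule.torsionBy ℤ
      ((W.map (Int.castRingHom ℚ))⁄(AlgebraicClosure ℚ)).Point p) = p ^ 2)
    (hker : GaloisFactorsThroughFiniteLevel
      (WeierstrassCurve.Affine.Point.galoisRepModuleEnd (K := AlgebraicClosure ℚ) ℚ
        (W.map (Int.castRingHom ℚ)) p))
    (_hirr : W.ModRepIsIrreducible p) (M q : ℕ) (_hq : q.Prime) (_hqp : q ≠ p)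
    (_hqM : q ∣ M) (_hq2 : ¬ q ^ 2 ∣ M) (_hM : Squarefree M)
    (_hunr : ((W.map (Int.castRingHom ℚ)).residualGaloisRepOf p hcard₁ hker).IsUnramifiedAt q)
    (_hres : W.IsResiduallyModularOfLevel p M),
    W.IsResiduallyModularOfLevel p (M / q)

/-- Frozen S39, verbatim. -/
def S39Statement : Prop :=
  ∀ (W : WeierstrassCurve ℤ) (_hΔ : W.Δ ≠ 0) {p : ℕ} (_hp : p.Prime) (_hp2 : p ≠ 2)
    (_hsemi : (p : ℤ) ∣ W.Δ → ¬ (p : ℤ) ∣ W.c₄)
    (_hirr : W.ModRepIsIrreducible p)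
    (_hfin : (W.map (Int.castRingHom ℚ)).IsPeuRamifieeAt p p)
    {M : ℕ} (_hM : 0 < M) (_hpM : p ∣ M) (_hp2M : ¬ p ^ 2 ∣ M)
    (_hmod : W.IsResiduallyModularOfLevel p M),
    W.IsResiduallyModularOfLevel p (M / p)

/-- (LO-SQ) removal of a square `q² ∥ M`, `q ≠ p`, from the level. -/
def LoSqStatement : Prop :=
  ∀ (p : ℕ) [Fact p.Prime] (_hp : p = 3 ∨ p = 5)
    (W : WeierstrassCurve ℤ) (_hΔ : W.Δ ≠ 0) (_hW : W.IsSemistableModel)
    (_hirr : W.ModRepIsIrreducible p)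
    (M q : ℕ) (_hM : M ≠ 0) (_hpM : ¬ p ^ 2 ∣ M)
    (_hM3 : ∀ r : ℕ, r.Prime → r ≠ p → ¬ r ^ 3 ∣ M)
    (_hq : q.Prime) (_hqp : q ≠ p) (_hq2 : q ^ 2 ∣ M)
    (_hres : W.IsResiduallyModularOfLevel p M),
    W.IsResiduallyModularOfLevel p (M / q)

/-- (flat ⇒ peu ramifié) if `E[p]` is flat at `p` then `p ∣ v_p(Δ)`. -/
def FlatPeuStatement : Prop :=
  ∀ (p : ℕ) [Fact p.Prime] (_hp : p = 3 ∨ p = 5)
    (W : WeierstrassCurve ℤ) (_hΔ : W.Δ ≠ 0) (_hW : W.IsSemistableModel)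
    (_hirr : W.ModRepIsIrreducible p)
    (hcard : Nat.card (Submodule.torsionBy ℤ
      ((W.map (Int.castRingHom ℚ))⁄(AlgebraicClosure ℚ)).Point p) = p ^ 2)
    (hker : GaloisFactorsThroughFiniteLevel
      (WeierstrassCurve.Affine.Point.galoisRepModuleEnd (K := AlgebraicClosure ℚ) ℚ
        (W.map (Int.castRingHom ℚ)) p))
    (_hflat : (GaloisRepAdic.ofResidualGaloisRep
      ((W.map (Int.castRingHom ℚ)).residualGaloisRepOf p hcard hker)).IsFlatAt p),
    (W.map (Int.castRingHom ℚ)).IsPeuRamifieeAt p p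

/-- (residual S31) if `W` is residually modular of squarefree level `M`, then `E[p]` is
unramified at every prime `q ∤ p M`. -/
def ResUnramStatement : Prop :=
  ∀ (p : ℕ) [Fact p.Prime] (_hp : p = 3 ∨ p = 5)
    (W : WeierstrassCurve ℤ) (_hΔ : W.Δ ≠ 0) (_hW : W.IsSemistableModel)
    (_hirr : W.ModRepIsIrreducible p)
    (hcard : Nat.card (Submodule.torsionBy ℤ
      ((W.map (Int.castRingHom ℚ))⁄(AlgebraicClosure ℚ)).Point p) = p ^ 2)
    (hker : GaloisFactorsThroughFiniteLevel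
      (WeierstrassCurve.Affine.Point.galoisRepModuleEnd (K := AlgebraicClosure ℚ) ℚ
        (W.map (Int.castRingHom ℚ)) p))
    (M : ℕ) (_hM : Squarefree M) (_hres : W.IsResiduallyModularOfLevel p M)
    (q : ℕ) (_hq : q.Prime) (_hqp : q ≠ p) (_hqM : ¬ q ∣ M),
    ((W.map (Int.castRingHom ℚ)).residualGaloisRepOf p hcard hker).IsUnramifiedAt q

/-- (residual S32) if `W` is residually modular of squarefree level `M` prime to `p`, then `E[p]`
is flat at `p`. -/
def ResFlatStatement : Prop :=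
  ∀ (p : ℕ) [Fact p.Prime] (_hp : p = 3 ∨ p = 5)
    (W : WeierstrassCurve ℤ) (_hΔ : W.Δ ≠ 0) (_hW : W.IsSemistableModel)
    (_hirr : W.ModRepIsIrreducible p)
    (hcard : Nat.card (Submodule.torsionBy ℤ
      ((W.map (Int.castRingHom ℚ))⁄(AlgebraicClosure ℚ)).Point p) = p ^ 2)
    (hker : GaloisFactorsThroughFiniteLevel
      (WeierstrassCurve.Affine.Point.galoisRepModuleEnd (K := AlgebraicClosure ℚ) ℚ
        (W.map (Int.castRingHom ℚ)) p))
    (M : ℕ) (_hM : Squarefree M) (_hres : W.IsResiduallyModularOfLevel p M)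
    (_hpM : ¬ p ∣ M),
    (GaloisRepAdic.ofResidualGaloisRep
      ((W.map (Int.castRingHom ℚ)).residualGaloisRepOf p hcard hker)).IsFlatAt p

/-! ## Arithmetic of squarefree levels -/

/-- A squarefree number is the product of any finite set of primes which is its set of prime
divisors. -/
theorem eq_prod_of_primeDivisors {M : ℕ} (hM : Squarefree M) (T : Finset ℕ)
    (hT : ∀ q : ℕ, q ∈ T ↔ q.Prime ∧ q ∣ M) : M = ∏ q ∈ T, q := by
  have hM0 : M ≠ 0 := hM.ne_zero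
  have hTeq : T = M.primeFactors := by
    ext q
    rw [hT q, Nat.mem_primeFactors]
    exact ⟨fun h => ⟨h.1, h.2, hM0⟩, fun h => ⟨h.1, h.2.1⟩⟩
  rw [hTeq]
  exact (Nat.prod_primeFactors_of_squarefree hM).symm

theorem div_ne_zero_of_dvd {M q : ℕ} (hM : M ≠ 0) (hq : q ∣ M) : M / q ≠ 0 := by
  obtain ⟨c, rfl⟩ := hq
  have hq0 : q ≠ 0 := fun h => hM (by rw [h, zero_mul])
  have hc0 : c ≠ 0 := fun h => hM (by rw [h, mul_zero])
  rw [Nat.mul_div_cancel_left c (Nat.pos_of_ne_zero hq0)]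
  exact hc0

theorem div_lt_of_prime_dvd {M q : ℕ} (hM : M ≠ 0) (hq : q.Prime) : M / q < M :=
  Nat.div_lt_self (Nat.pos_of_ne_zero hM) hq.one_lt

/-- In a squarefree number, `q ∤ M / q`. -/
theorem not_dvd_div_of_squarefree {M q : ℕ} (hM : Squarefree M) (hq : q.Prime) (hqM : q ∣ M) :
    ¬ q ∣ M / q := by
  intro h
  obtain ⟨c, hc⟩ := hqM
  have hq0 : 0 < q := hq.pos
  rw [hc, Nat.mul_div_cancel_left c hq0] at h
  obtain ⟨d, rfl⟩ := h
  have h2 : q * q ∣ M := ⟨d, by rw [hc, mul_assoc]⟩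
  exact hq.not_isUnit (hM q h2)

theorem wilesLevel_flat (p : ℕ) (Smin : Finset ℕ) :
    wilesLevel p .flat Smin Smin = ∏ q ∈ Smin.erase p, q := by
  unfold wilesLevel
  rw [sdiff_self, Finset.bot_eq_empty, Finset.prod_empty, mul_one, mul_one]

theorem wilesLevel_sord (p : ℕ) (Smin : Finset ℕ) :
    wilesLevel p .sord Smin Smin = (∏ q ∈ Smin.erase p, q) * p := by
  unfold wilesLevel
  rw [sdiff_self, Finset.bot_eq_empty, Finset.prod_empty, mul_one]

/-! ## The glue -/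

section Glue

variable (p : ℕ) [Fact p.Prime] (W : WeierstrassCurve ℤ)

/-- Step A: removal of all squares. -/
theorem exists_squarefree_level (hSQ : LoSqStatement) (hp : p = 3 ∨ p = 5) (hΔ : W.Δ ≠ 0)
    (hW : W.IsSemistableModel) (hirr : W.ModRepIsIrreducible p) :
    ∀ M : ℕ, M ≠ 0 → ¬ p ^ 2 ∣ M → (∀ r : ℕ, r.Prime → r ≠ p → ¬ r ^ 3 ∣ M) →
      W.IsResiduallyModularOfLevel p M →
      ∃ M₁ : ℕ, Squarefree M₁ ∧ W.IsResiduallyModularOfLevel p M₁ := by
  intro M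
  induction M using Nat.strong_induction_on with
  | _ M ih =>
    intro hM hpM hM3 hres
    by_cases hsq : Squarefree M
    · exact ⟨M, hsq, hres⟩
    · rw [Nat.squarefree_iff_prime_squarefree, not_forall] at hsq
      obtain ⟨q, hsq'⟩ := hsq
      rw [Classical.not_imp, not_not] at hsq'
      obtain ⟨hq, hqq⟩ := hsq'
      have hq2 : q ^ 2 ∣ M := by rwa [pow_two]
      have hqp : q ≠ p := by
        rintro rfl
        exact hpM hq2
      have hres' := hSQ p hp W hΔ hW hirr M q hM hpM hM3 hq hqp hq2 hres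
      have hqM : q ∣ M := dvd_trans (dvd_pow_self q two_ne_zero) hq2
      have hdiv : M / q ∣ M := Nat.div_dvd_of_dvd hqM
      exact ih (M / q) (div_lt_of_prime_dvd hM hq) (div_ne_zero_of_dvd hM hqM)
        (fun h => hpM (h.trans hdiv)) (fun r hr hrp h => hM3 r hr hrp (h.trans hdiv)) hres'

variable
    (hcard : Nat.card (Submodule.torsionBy ℤ
      ((W.map (Int.castRingHom ℚ))⁄(AlgebraicClosure ℚ)).Point p) = p ^ 2)
    (hker : GaloisFactorsThroughFiniteLevel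
      (WeierstrassCurve.Affine.Point.galoisRepModuleEnd (K := AlgebraicClosure ℚ) ℚ
        (W.map (Int.castRingHom ℚ)) p))

/-- Step B: removal of the primes `q ≠ p` at which `E[p]` is unramified. -/
theorem exists_ramified_level (h38 : S38Statement) (hp2 : p ≠ 2) (hΔ : W.Δ ≠ 0)
    (hW : W.IsSemistableModel) (hirr : W.ModRepIsIrreducible p) :
    ∀ M : ℕ, Squarefree M → W.IsResiduallyModularOfLevel p M →
      ∃ M₂ : ℕ, Squarefree M₂ ∧ W.IsResiduallyModularOfLevel p M₂ ∧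
        ∀ q : ℕ, q.Prime → q ∣ M₂ → q ≠ p →
          ¬ ((W.map (Int.castRingHom ℚ)).residualGaloisRepOf p hcard hker).IsUnramifiedAt q := by
  intro M
  induction M using Nat.strong_induction_on with
  | _ M ih =>
    intro hsq hres
    by_cases h : ∃ q : ℕ, q.Prime ∧ q ∣ M ∧ q ≠ p ∧
        ((W.map (Int.castRingHom ℚ)).residualGaloisRepOf p hcard hker).IsUnramifiedAt q
    · obtain ⟨q, hq, hqM, hqp, hunr⟩ := h
      have hq2 : ¬ q ^ 2 ∣ M := by
        intro h2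
        rw [pow_two] at h2
        exact hq.not_isUnit (hsq q h2)
      have hres' := h38 p hp2 W hΔ hW hcard hker hirr M q hq hqp hqM hq2 hsq hunr hres
      have hdiv : M / q ∣ M := Nat.div_dvd_of_dvd hqM
      exact ih (M / q) (div_lt_of_prime_dvd hsq.ne_zero hq) (hsq.squarefree_of_dvd hdiv) hres'
    · exact ⟨M, hsq, hres, fun q hq hqM hqp hunr => h ⟨q, hq, hqM, hqp, hunr⟩⟩

end Glue

/-- **LO-GLUE.** -/
theorem levelOpt_of (hSQ : LoSqStatement) (h38 : S38Statement) (h39 : S39Statement)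
    (hFP : FlatPeuStatement) (hU : ResUnramStatement) (hF : ResFlatStatement) :
    LevelOptStatement := by
  intro p _ hp W hΔ hW hirr M₀ _ hres₀ hM₀ hM₀3 hcard hker Smin hSmin t ht
  have hpp : p.Prime := Fact.out
  have hp2 : p ≠ 2 := by
    rcases hp with h | h <;> omega
  obtain ⟨hpS, hSprime, hSram⟩ := hSmin
  -- Step A
  obtain ⟨M₁, hsq₁, hres₁⟩ := exists_squarefree_level p W hSQ hp hΔ hW hirr M₀
    (NeZero.ne M₀) hM₀ hM₀3 hres₀
  -- Step B
  obtain ⟨M₂, hsq₂, hres₂, hram₂⟩ := exists_ramified_level p W hcard hker h38 hp2 hΔ hW hirr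
    M₁ hsq₁ hres₁
  -- the level
  rcases ht with ⟨rfl, hflat⟩ | ⟨rfl, hnflat⟩
  · -- flat: remove `p` if necessary
    have key : ∃ M₃ : ℕ, Squarefree M₃ ∧ W.IsResiduallyModularOfLevel p M₃ ∧ ¬ p ∣ M₃ ∧
        ∀ q : ℕ, q.Prime → q ∣ M₃ → q ≠ p →
          ¬ ((W.map (Int.castRingHom ℚ)).residualGaloisRepOf p hcard hker).IsUnramifiedAt q := by
      by_cases hpM : p ∣ M₂
      · have hp2M : ¬ p ^ 2 ∣ M₂ := by
          intro h2
          rw [pow_two] at h2
          exact hpp.not_isUnit (hsq₂ p h2)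
        have hres₃ := h39 W hΔ hpp hp2 (hW p hpp) hirr
          (hFP p hp W hΔ hW hirr hcard hker hflat) (Nat.pos_of_ne_zero hsq₂.ne_zero) hpM hp2M
          hres₂
        have hdiv : M₂ / p ∣ M₂ := Nat.div_dvd_of_dvd hpM
        exact ⟨M₂ / p, hsq₂.squarefree_of_dvd hdiv, hres₃,
          not_dvd_div_of_squarefree hsq₂ hpp hpM,
          fun q hq hqM hqp => hram₂ q hq (hqM.trans hdiv) hqp⟩
      · exact ⟨M₂, hsq₂, hres₂, hpM, hram₂⟩
    obtain ⟨M₃, hsq₃, hres₃, hpM₃, hram₃⟩ := key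
    have hM₃ : M₃ = ∏ q ∈ Smin.erase p, q := by
      apply eq_prod_of_primeDivisors hsq₃
      intro q
      rw [Finset.mem_erase]
      constructor
      · rintro ⟨hqp, hqS⟩
        have hq : q.Prime := hSprime q hqS
        refine ⟨hq, ?_⟩
        by_contra hqM
        exact (hSram q hq hqp).1 hqS (hU p hp W hΔ hW hirr hcard hker M₃ hsq₃ hres₃ q hq hqp hqM)
      · rintro ⟨hq, hqM⟩
        have hqp : q ≠ p := by
          rintro rfl
          exact hpM₃ hqM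
        exact ⟨hqp, (hSram q hq hqp).2 (hram₃ q hq hqM hqp)⟩
    rw [wilesLevel_flat, ← hM₃]
    exact hres₃
  · -- strictly ordinary, not flat: `p` divides the level
    have hpM : p ∣ M₂ := by
      by_contra hpM
      exact hnflat (hF p hp W hΔ hW hirr hcard hker M₂ hsq₂ hres₂ hpM)
    have hM₂ : M₂ = ∏ q ∈ Smin, q := by
      apply eq_prod_of_primeDivisors hsq₂
      intro q
      constructor
      · intro hqS
        have hq : q.Prime := hSprime q hqS
        refine ⟨hq, ?_⟩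
        by_cases hqp : q = p
        · rw [hqp]
          exact hpM
        · by_contra hqM
          exact (hSram q hq hqp).1 hqS
            (hU p hp W hΔ hW hirr hcard hker M₂ hsq₂ hres₂ q hq hqp hqM)
      · rintro ⟨hq, hqM⟩
        by_cases hqp : q = p
        · rw [hqp]
          exact hpS
        · exact (hSram q hq hqp).2 (hram₂ q hq hqM hqp)
    have hprod : (∏ q ∈ Smin.erase p, q) * p = ∏ q ∈ Smin, q :=
      Finset.prod_erase_mul Smin (fun q => q) hpS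
    rw [wilesLevel_sord, hprod, ← hM₂]
    exact hres₂

end Fermat.Agent.S59.H934

end
-- ===== PACK-END S59/H934/LevelOpt.lean

-- ===== PACK-BEGIN S41/H45/Kummer.lean
section



/-!
# S41, block NE', steps (K1) and (K2) (helper45)

`p` an odd prime, `q` a prime, `c` the complex conjugation.
* `exists_root_h45` : there is `β ∈ ℚ̄` with `β ^ p = q ^ 2`, `c β = β` and `β ∉ ℚ`;
* (K1) `exists_commutator_moving_h45` : there are such a `β` and `σ ∈ G_ℚ` with
  `(σ c σ⁻¹ c⁻¹) β ≠ β`;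
* (K2) `not_modEq_of_frob_h45` : if a Frobenius element `τ` at `ℓ ∤ p q`, `p ∣ ℓ - 1`, moves a `p`-th
  root `β` of `q ^ 2`, then `q ^ ((ℓ - 1) / p) ≢ 1 mod ℓ`.
-/

set_option autoImplicit false

namespace Fermat.Agent.S41.H45

open Fermat.Agent.S55.Bridge Fermat.Agent.S29.H872

/-- `ℚ̄/ℚ` is Galois. -/
theorem isGalois_Qb_h45 : IsGalois ℚ (AlgebraicClosure ℚ) := by
  have : Algebra.IsAlgebraic ℚ (AlgebraicClosure ℚ) := AlgebraicClosure.isAlgebraic ℚ
  have : IsAlgClosure ℚ (AlgebraicClosure ℚ) := ⟨inferInstance, inferInstance⟩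
  have : Normal ℚ (AlgebraicClosure ℚ) := IsAlgClosure.normal ℚ (AlgebraicClosure ℚ)
  exact isGalois_iff.mpr ⟨inferInstance, inferInstance⟩

/-- An element of `ℚ̄` outside `ℚ` is moved by some automorphism. -/
theorem exists_moving_h45 (x : AlgebraicClosure ℚ)
    (hx : x ∉ Set.range (algebraMap ℚ (AlgebraicClosure ℚ))) :
    ∃ σ : AlgebraicClosure ℚ ≃ₐ[ℚ] AlgebraicClosure ℚ, σ x ≠ x := by
  have := isGalois_Qb_h45
  by_contra h
  push Not at h
  exact hx ((InfiniteGalois.mem_range_algebraMap_iff_fixed (k := ℚ)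
    (K := AlgebraicClosure ℚ) x).mpr h)

/-- `q ^ 2` is not a `p`-th power in `ℚ` (`p` odd prime, `q` prime). -/
theorem not_pow_eq_sq_h45 {p q : ℕ} (hp : p.Prime) (hp2 : p ≠ 2) (hq : q.Prime) (r : ℚ) :
    r ^ p ≠ (q : ℚ) ^ 2 := by
  intro h
  have : Fact q.Prime := ⟨hq⟩
  have hq0 : (q : ℚ) ≠ 0 := by exact_mod_cast hq.ne_zero
  have hr0 : r ≠ 0 := by
    rintro rfl
    rw [zero_pow hp.ne_zero] at h
    exact pow_ne_zero 2 hq0 h.symm
  have h1 := congrArg (padicValRat q) h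
  rw [padicValRat.pow r, padicValRat.pow (q : ℚ), padicValRat.self hq.one_lt] at h1
  have h2 : (p : ℤ) ∣ 2 := ⟨padicValRat q r, by rw [h1]; norm_num⟩
  have h3 : p ∣ 2 := by exact_mod_cast h2
  exact hp2 ((Nat.prime_dvd_prime_iff_eq hp Nat.prime_two).mp h3)

/-- A `p`-th root of `q ^ 2` fixed by the complex conjugation and not in `ℚ`. -/
theorem exists_root_h45 {p q : ℕ} (hp : p.Prime) (hp2 : p ≠ 2) (hq : q.Prime) :
    ∃ β : AlgebraicClosure ℚ, β ^ p = (q : AlgebraicClosure ℚ) ^ 2 ∧ complexConjugation β = β ∧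
      β ∉ Set.range (algebraMap ℚ (AlgebraicClosure ℚ)) := by
  obtain ⟨β₁, hβ₁⟩ := IsAlgClosed.exists_pow_nat_eq (q : AlgebraicClosure ℚ) hp.pos
  have hcc : ∀ x : AlgebraicClosure ℚ, complexConjugation (complexConjugation x) = x := by
    intro x
    have := congrArg (fun f : AlgebraicClosure ℚ ≃ₐ[ℚ] AlgebraicClosure ℚ => f x)
      complexConjugation_mul_self
    simpa using this
  refine ⟨β₁ * complexConjugation β₁, ?_, ?_, ?_⟩
  · rw [mul_pow, ← map_pow, hβ₁, map_natCast, sq]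
  · rw [map_mul, hcc, mul_comm]
  · rintro ⟨r, hr⟩
    apply not_pow_eq_sq_h45 hp hp2 hq r
    apply (algebraMap ℚ (AlgebraicClosure ℚ)).injective
    rw [map_pow, hr, mul_pow, ← map_pow, hβ₁, map_natCast, map_pow, map_natCast, sq]

/-- The commutator `σ c σ⁻¹ c⁻¹` maps a `c`-fixed `p`-th root `β` of `a` to `(σ β)² / β`. -/
theorem commutator_apply_h45 {p : ℕ} (hp : p ≠ 0) (a : ℚ) (β : AlgebraicClosure ℚ)
    (hβ0 : β ≠ 0) (hβ : β ^ p = algebraMap ℚ (AlgebraicClosure ℚ) a)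
    (hc : complexConjugation β = β)
    (σ : AlgebraicClosure ℚ ≃ₐ[ℚ] AlgebraicClosure ℚ) :
    (σ * complexConjugation * σ⁻¹ * complexConjugation⁻¹) β = (σ β) ^ 2 / β := by
  rw [complexConjugation_inv]
  simp only [AlgEquiv.mul_apply, hc]
  set γ := σ⁻¹ β with hγ
  have hσγ : σ γ = β := by
    rw [hγ]
    have : (σ * σ⁻¹) β = β := by rw [mul_inv_cancel]; rfl
    simpa [AlgEquiv.mul_apply] using this
  have hγp : γ ^ p = algebraMap ℚ (AlgebraicClosure ℚ) a := by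
    rw [hγ, ← map_pow, hβ, AlgEquiv.commutes]
  have hω : (γ / β) ^ p = 1 := by
    rw [div_pow, hγp, hβ, div_self]
    rw [← hβ]
    exact pow_ne_zero p hβ0
  have hcω := Fermat.Agent.S30.H870.complexConjugation_root hp hω
  have hγ0 : γ ≠ 0 := by
    intro h0
    rw [h0, map_zero] at hσγ
    exact hβ0 hσγ.symm
  have hcγ : complexConjugation γ = β ^ 2 / γ := by
    have h1 : γ = (γ / β) * β := by field_simp
    have h2 : complexConjugation γ = complexConjugation (γ / β) * complexConjugation β := by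
      rw [← map_mul, ← h1]
    rw [h2, hcω, hc]
    field_simp
  rw [hcγ, map_div₀, map_pow, hσγ]

/-- **(K1)** There are a `p`-th root `β` of `q²` and `σ ∈ G_ℚ` such that the commutator
`σ c σ⁻¹ c⁻¹` moves `β`. -/
theorem exists_commutator_moving_h45 {p q : ℕ} (hp : p.Prime) (hp2 : p ≠ 2) (hq : q.Prime) :
    ∃ (β : AlgebraicClosure ℚ) (σ : AlgebraicClosure ℚ ≃ₐ[ℚ] AlgebraicClosure ℚ),
      β ^ p = (q : AlgebraicClosure ℚ) ^ 2 ∧
      (σ * complexConjugation * σ⁻¹ * complexConjugation⁻¹) β ≠ β := by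
  obtain ⟨β, hβ, hc, hrat⟩ := exists_root_h45 hp hp2 hq
  obtain ⟨σ, hσ⟩ := exists_moving_h45 β hrat
  have hq0 : (q : AlgebraicClosure ℚ) ≠ 0 := by exact_mod_cast hq.ne_zero
  have hβ0 : β ≠ 0 := by
    rintro rfl
    rw [zero_pow hp.ne_zero] at hβ
    exact pow_ne_zero 2 hq0 hβ.symm
  have hβ' : β ^ p = algebraMap ℚ (AlgebraicClosure ℚ) ((q : ℚ) ^ 2) := by
    rw [hβ, map_pow, map_natCast]
  refine ⟨β, σ, hβ, ?_⟩
  rw [commutator_apply_h45 hp.ne_zero _ β hβ0 hβ' hc σ]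
  intro h
  -- `η := σ β / β` satisfies `η ^ p = 1`, `η ^ 2 = 1`, hence `η = 1`
  have hη2 : (σ β / β) ^ 2 = 1 := by
    rw [div_pow]
    field_simp
    rw [div_eq_iff hβ0] at h
    rw [h]; ring
  have hηp : (σ β / β) ^ p = 1 := by
    rw [div_pow, ← map_pow, hβ', AlgEquiv.commutes, div_self]
    rw [← hβ']
    exact pow_ne_zero p hβ0
  obtain ⟨k, hk⟩ := (hp.eq_two_or_odd'.resolve_left hp2)
  have hη : σ β / β = 1 := by
    have : (σ β / β) ^ p = (σ β / β) := by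
      rw [hk, pow_succ, pow_mul, hη2, one_pow, one_mul]
    rw [← this, hηp]
  apply hσ
  rw [div_eq_one_iff_eq hβ0] at hη
  exact hη

/-- **(K2)** If a Frobenius element `τ` at `ℓ ∤ p q` with `p ∣ ℓ - 1` moves a `p`-th root `β` of
`q ^ 2`, then `q ^ ((ℓ - 1) / p) ≢ 1 mod ℓ`. -/
theorem not_modEq_of_frob_h45 {p q ℓ : ℕ} (hp : p.Prime) (hq : q.Prime) (hℓ : ℓ.Prime)
    (hℓp : ℓ ≠ p) (hℓq : ℓ ≠ q) (hpℓ : p ∣ ℓ - 1)
    (A : ValuationSubring (AlgebraicClosure ℚ))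
    (τ : AlgebraicClosure ℚ ≃ₐ[ℚ] AlgebraicClosure ℚ)
    (hA : A.LiesOverPrime ℓ) (hτ : A.IsFrobeniusAt τ ℓ)
    (β : AlgebraicClosure ℚ) (hβ : β ^ p = (q : AlgebraicClosure ℚ) ^ 2) (hτβ : τ β ≠ β) :
    ¬ (q ^ ((ℓ - 1) / p) ≡ 1 [MOD ℓ]) := by
  intro hcong
  have hℓp' : ¬ ℓ ∣ p := fun h => hℓp ((Nat.prime_dvd_prime_iff_eq hℓ hp).mp h)
  have hℓq' : ¬ ℓ ∣ q := fun h => hℓq ((Nat.prime_dvd_prime_iff_eq hℓ hq).mp h)
  have hvp : A.valuation (p : AlgebraicClosure ℚ) = 1 := val_natCast_eq_one_h45 hA hℓ hℓp'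
  have hvq : A.valuation (q : AlgebraicClosure ℚ) = 1 := val_natCast_eq_one_h45 hA hℓ hℓq'
  have hvℓ : A.valuation (ℓ : AlgebraicClosure ℚ) < 1 := (A.mem_nonunits_iff).mp hA
  have hq0 : (q : AlgebraicClosure ℚ) ≠ 0 := by exact_mod_cast hq.ne_zero
  have hβ0 : β ≠ 0 := by
    rintro rfl
    rw [zero_pow hp.ne_zero] at hβ
    exact pow_ne_zero 2 hq0 hβ.symm
  have hvβ : A.valuation β = 1 := by
    have h : (A.valuation β) ^ p = 1 := by rw [← map_pow, hβ, map_pow, hvq, one_pow]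
    exact (pow_eq_one_iff.1 h).resolve_right hp.ne_zero
  -- `η := τ β / β` is a nontrivial `p`-th root of unity
  have hηp : (τ β / β) ^ p = 1 := by
    rw [div_pow, ← map_pow, hβ, map_pow, map_natCast, div_self (pow_ne_zero 2 hq0)]
  have hη1 : τ β / β ≠ 1 := by
    intro h
    exact hτβ ((div_eq_one_iff_eq hβ0).mp h)
  have hvη : A.valuation (τ β / β - 1) = 1 :=
    val_sub_roots_eq_one (A := A) hp.ne_zero hvp hηp (one_pow p) hη1
  have hv1 : A.valuation (τ β - β) = 1 := by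
    have : τ β - β = β * (τ β / β - 1) := by field_simp
    rw [this, map_mul, hvβ, hvη, one_mul]
  -- on the other hand `τ β ≡ β ^ ℓ ≡ β`
  have hfrob : A.valuation (τ β - β ^ ℓ) < 1 := frob_val_sub_lt_one A hτ β hvβ.le
  obtain ⟨k, hk⟩ := hpℓ
  have hkdiv : (ℓ - 1) / p = k := by rw [hk, Nat.mul_div_cancel_left k hp.pos]
  rw [hkdiv] at hcong
  have hdvd : (ℓ : ℤ) ∣ (q : ℤ) ^ k - 1 := by
    have := (Nat.modEq_iff_dvd.mp hcong.symm)
    simpa using this
  obtain ⟨t, ht⟩ := hdvd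
  have hβℓ : β ^ ℓ - β = β * ((ℓ : AlgebraicClosure ℚ) * ((t : AlgebraicClosure ℚ) *
      ((q : AlgebraicClosure ℚ) ^ k + 1))) := by
    have hℓ1 : ℓ = (ℓ - 1) + 1 := (Nat.sub_add_cancel hℓ.one_le).symm
    have h1 : β ^ (ℓ - 1) = ((q : AlgebraicClosure ℚ) ^ k) ^ 2 := by
      rw [hk, pow_mul, hβ, ← pow_mul, ← pow_mul, mul_comm]
    have h2 : (q : AlgebraicClosure ℚ) ^ k - 1 = (ℓ : AlgebraicClosure ℚ) * t := by
      have := congrArg (Int.cast : ℤ → AlgebraicClosure ℚ) ht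
      push_cast at this
      exact this
    have h3 : β ^ ℓ = β * β ^ (ℓ - 1) := by
      conv_lhs => rw [hℓ1, pow_succ']
    rw [h3, h1]
    linear_combination β * ((q : AlgebraicClosure ℚ) ^ k + 1) * h2
  have hvβℓ : A.valuation (β ^ ℓ - β) < 1 := by
    rw [hβℓ, map_mul, hvβ, one_mul, map_mul]
    have h1 : A.valuation ((t : AlgebraicClosure ℚ) * ((q : AlgebraicClosure ℚ) ^ k + 1)) ≤ 1 := by
      have : ((t : AlgebraicClosure ℚ) * ((q : AlgebraicClosure ℚ) ^ k + 1))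
          = ((t * ((q : ℤ) ^ k + 1) : ℤ) : AlgebraicClosure ℚ) := by push_cast; ring
      rw [this]
      exact val_intCast_le_one _
    exact (mul_le_of_le_one_right' h1).trans_lt hvℓ
  have hlt : A.valuation (τ β - β) < 1 := by
    have : τ β - β = (τ β - β ^ ℓ) + (β ^ ℓ - β) := by ring
    rw [this]
    exact (A.valuation.map_add _ _).trans_lt (max_lt hfrob hvβℓ)
  rw [hv1] at hlt
  exact lt_irrefl _ hlt

end Fermat.Agent.S41.H45

end
-- ===== PACK-END S41/H45/Kummer.lean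

-- ===== PACK-BEGIN S59/TW/H658/PerTransfer.lean
section




/-!
# S59 / TW-ES (helper658), leaf E2: the period map intertwines coset operators with transfers

Let `Γ, Γ' ≤ SL(2,ℤ)` be of finite index and `ρ : I → GL(2,ℝ)⁺` a coset system from `Γ` to `Γ'`
(`S41.H761.IsCosetSystem`: `ρ i * γ' = coc i γ' * ρ (act i γ')`).  If `f ∈ S₂(Γ)` and
`g ∈ S₂(Γ')` satisfy `g = ∑ i, f ∣[2] ρ i` as functions, then

  `perG g = h.transfer (perG f)`     (`perG_eq_transfer`).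

Special cases: Hecke operators `T_ℓ`, `U_q` (`Γ = Γ'`), diamond operators (`I = Unit`,
`ρ = g ∈ Γ₀(M)`), restriction and trace maps.
-/

set_option autoImplicit false
set_option linter.unusedSectionVars false

noncomputable section

namespace Fermat.Agent.S59.TW.H658

open CongruenceSubgroup ModularCurve ModularCurve.Period Filter Topology Function Complex
open UpperHalfPlane hiding I
open Matrix.SpecialLinearGroup Fermat.Agent.S41.H761
open scoped Manifold MatrixGroups ModularForm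

variable {Γ Γ' : Subgroup SL(2, ℤ)} [Γ.FiniteIndex] [Γ'.FiniteIndex]

/-- The embedding of a subgroup of `SL(2,ℤ)` into `GL(2,ℝ)`. -/
def ιG (Γ : Subgroup SL(2, ℤ)) : Γ →* GL (Fin 2) ℝ := (mapGL ℝ).comp Γ.subtype

@[simp] theorem ιG_apply (Γ : Subgroup SL(2, ℤ)) (γ : Γ) : ιG Γ γ = mapGL ℝ (γ : SL(2, ℤ)) := rfl

theorem SL_smul_eq_mapGL_smulG (γ : SL(2, ℤ)) (τ : ℍ) : γ • τ = (mapGL ℝ γ) • τ := rfl

variable {I : Type*} [Fintype I]

/-- The transform of a primitive by a family of matrices. -/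
def sumPrim (ρ : I → GL (Fin 2) ℝ) (F : ℍ → ℂ) : ℍ → ℂ := fun τ ↦ ∑ i, F (ρ i • τ)

theorem isPrimG_sumPrim (ρ : I → GL (Fin 2) ℝ)
    (hdet : ∀ i, 0 < ((ρ i : GL (Fin 2) ℝ) : Matrix (Fin 2) (Fin 2) ℝ).det)
    {f F : ℍ → ℂ} (hF : IsPrimG f F) :
    IsPrimG (∑ i, f ∣[(2 : ℤ)] ρ i) (sumPrim ρ F) := by
  intro τ
  have hsum : (sumPrim ρ F ∘ ofComplex)
      = fun z ↦ ∑ i, ((fun w : ℍ ↦ F (ρ i • w)) ∘ ofComplex) z := by
    funext z
    rfl
  rw [hsum, Finset.sum_apply]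
  exact HasDerivAt.fun_sum fun i _ ↦
    Fermat.Agent.S29.H201.hasDerivAt_comp_smul_GL hF (ρ i) (hdet i) τ

/-- **E2 (generic).**  The period map intertwines the operator `f ↦ ∑ i, f ∣[2] ρ i` of a coset
system with its transfer. -/
theorem perG_eq_transfer {ρ : I → GL (Fin 2) ℝ} (h : IsCosetSystem (ιG Γ) (ιG Γ') ρ)
    (hdet : ∀ i, 0 < ((ρ i : GL (Fin 2) ℝ) : Matrix (Fin 2) (Fin 2) ℝ).det)
    (f : CuspForm Γ 2) (g : CuspForm Γ' 2)
    (hg : (⇑g : ℍ → ℂ) = ∑ i, (⇑f : ℍ → ℂ) ∣[(2 : ℤ)] ρ i) :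
    perG g = h.transfer (perG f) := by
  obtain ⟨F, hF⟩ := exists_isPrimG f
  have hG : IsPrimG (⇑g) (sumPrim ρ F) := by
    rw [hg]
    exact isPrimG_sumPrim ρ hdet hF
  refine AddMonoidHom.ext fun γ ↦ ?_
  obtain ⟨γ, rfl⟩ : ∃ γ' : Γ', Additive.ofMul γ' = γ := ⟨Additive.toMul γ, rfl⟩
  rw [perG_apply g hG γ UpperHalfPlane.I, IsCosetSystem.transfer_apply]
  have key : ∀ i : I, F (ρ i • ((γ : SL(2, ℤ)) • UpperHalfPlane.I))
      = F (ρ (h.act i γ) • UpperHalfPlane.I) + perG f (Additive.ofMul (h.coc i γ)) := by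
    intro i
    have h1 : ρ i • ((γ : SL(2, ℤ)) • UpperHalfPlane.I)
        = ((h.coc i γ : Γ) : SL(2, ℤ)) • (ρ (h.act i γ) • UpperHalfPlane.I) := by
      rw [SL_smul_eq_mapGL_smulG, SL_smul_eq_mapGL_smulG, ← mul_smul, ← mul_smul]
      have := h.spec i γ
      rw [ιG_apply, ιG_apply] at this
      rw [this]
    rw [h1, perG_apply f hF (h.coc i γ) (ρ (h.act i γ) • UpperHalfPlane.I)]
    ring
  unfold sumPrim
  simp only [key, Finset.sum_add_distrib]
  have hperm : ∑ x, F (ρ (h.act x γ) • UpperHalfPlane.I) = ∑ i, F (ρ i • UpperHalfPlane.I) :=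
    Equiv.sum_comp (h.actEquiv γ) (fun j ↦ F (ρ j • UpperHalfPlane.I))
  rw [hperm]
  ring

end Fermat.Agent.S59.TW.H658

end
end
-- ===== PACK-END S59/TW/H658/PerTransfer.lean

-- ===== PACK-BEGIN S59/TW/H658/IntD.lean
section




/-!
# S21 / INT-D — folding inequality and finite energy of `u₀` (exact interface statements)

`mult_compact` and `mult_strip` are in `IntDCore.lean`.
-/

set_option autoImplicit false
set_option linter.unusedVariables false

open UpperHalfPlane CongruenceSubgroup MeasureTheory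
open scoped MatrixGroups ContDiff

namespace Fermat.Agent.S59.TW.H658

open Fermat.Agent.S21

section INT

variable (L : Lev) {χ₁ : ℂ → ℝ}

theorem folding (hχ : IsSL2ZPartition χ₁) (G : ℂ → ℂ) (hG : ContinuousOn G Uhp)
    (hinv : ∀ γ : L.Γ, ∀ z ∈ Uhp,
      G (mob (γ : SL(2, ℤ)) z) = (cd (γ : SL(2, ℤ)) z) ^ 2 * G z)
    (hfin : Integrable (fun z => ‖G z‖ ^ 2 * _root_.Fermat.Agent.S59.TW.H658.chi L χ₁ z))
    (A : Set ℂ) (hA : MeasurableSet A) (hAU : A ⊆ Uhp) (M : ℕ)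
    (hM : ∀ w ∈ Uhp, {g : SL(2, ℤ) | mob g w ∈ A}.encard ≤ M) :
    ∫ z in A, ‖G z‖ ^ 2 ≤ M * ∫ z, ‖G z‖ ^ 2 * _root_.Fermat.Agent.S59.TW.H658.chi L χ₁ z := by
  refine _root_.Fermat.Agent.S59.TW.H658.IntDAux.folding_of L (_root_.Fermat.Agent.S59.TW.H658.chi_nonneg L hχ) (_root_.Fermat.Agent.S59.TW.H658.measurable_chi L hχ) (fun z hz => ?_)
    (_root_.Fermat.Agent.S59.TW.H658.chi_sum_eq_one L hχ) G hG hinv hfin A hA hAU M hM
  refine (_root_.Fermat.Agent.S59.TW.H658.chi_locfin L hχ {z} isCompact_singleton (by simpa using hz)).subset ?_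
  intro γ hγ
  exact ⟨z, rfl, hγ⟩

/-- finite energy of `u₀` -/
theorem integrable_energy_u0 (hχ : IsSL2ZPartition χ₁) (u₀ : ℂ → ℝ)
    (hu : ContDiffOn ℝ ∞ u₀ Uhp)
    (hcusp : ∀ (δ : SL(2, ℤ)) (z : ℂ), 2 < z.im → dz u₀ (mob δ z) = 0) :
    Integrable (fun z => ‖dz u₀ z‖ ^ 2 * _root_.Fermat.Agent.S59.TW.H658.chi L χ₁ z) :=
  _root_.Fermat.Agent.S59.TW.H658.IntDAux.integrable_energy_u0_of L hχ (_root_.Fermat.Agent.S59.TW.H658.continuousOn_chi L hχ) u₀ hu hcusp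

end INT

end Fermat.Agent.S59.TW.H658

end
-- ===== PACK-END S59/TW/H658/IntD.lean

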