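import Mathlib
import Fermat.Prelude.Def_ModularForm_HeckeOperator
import Mathlib.AlgebraicGeometry.Morphisms.UniversallyClosed
import Mathlib.AlgebraicGeometry.Morphisms.QuasiSeparated
import Mathlib.AlgebraicGeometry.PullbackCarrier
import Mathlib.AlgebraicGeometry.FunctionField
import Fermat.Prelude.Def_GaloisRep_LocalConditions
import Fermat.Agent.Pack.S43MC.G0E12L2
import Fermat.Agent.Pack.S43MC.G0E12L1
import Fermat.Agent.Pack.S43MC.G0E12L3
import Fermat.Agent.Pack.S43MC.G0E5L1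
import Fermat.Agent.Pack.S44C.G0E12L3
import Fermat.Agent.Pack.S43MC.G0E8L1
import Fermat.Agent.Pack.S43MC.G0E13L3
import Fermat.Agent.Pack.S43MC.G0E13L0
import Fermat.Agent.Pack.S43MC.G0E8L0
import Fermat.Agent.Pack.S43MC.G0E5L0
import Fermat.Agent.Pack.S43MC.G0E0L0
import Fermat.Agent.Pack.S43MC.G0E5L3
import Fermat.Agent.Pack.S43MC.G0E13L2
import Fermat.Agent.Pack.S43MC.G0E0L2
import Fermat.Agent.Pack.S43MC.G0E9L2
import Fermat.Agent.Pack.S43MC.G0E13L1
import Fermat.Agent.Pack.S43MC.G0E10L3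
import Fermat.Agent.Pack.S43MC.G0E11L1
import Fermat.Agent.Pack.S43MC.G0E11L2
import Fermat.Agent.Pack.S43MC.G0E6L2
import Fermat.Agent.Pack.Fast891

-- ===== PACK-BEGIN A2/H348/Final.lean
section


/-!
# A2 / piece E (ALG_ss): final theorem

`exists_pow_eq_of_local_factorisation`:

`R` a noetherian domain with `R[X]` integrally closed (e.g. a DVR), `w ∈ R` prime, `F ⊇ R` a field
of characteristic `0`, `x ∈ F` transcendental over `R`, `F` finite over `Frac R (x)`;
`B_fin = chart R {x}`, `B_inf = chart R {x⁻¹}` the two charts of the normal `x`-line model (as in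
`S18.H138`), `V ⊆ F` the semilocal Gauss ring (intersection of the valuation rings of the generic
points of the special fibre) with

* `GaussData w m u V` : `V` integrally closed in `F`, `w⁻¹ ∉ V`, `1 + w V ⊆ V^×`, `m⁻¹ ∈ R`,
  `u ∈ 1 + w V`;
* `ChartData w m u B V` for `B = B_fin, B_inf` : `B ⊆ V`, `B ∩ w V = w B` (reduced special fibre),
  and at every maximal ideal `𝔪 ∋ w` of `B` a **local factorisation** `u = ε h ^ m` with
  `ε ∈ 1 + w B_𝔪`, `h ∈ 1 + w V`;
* constants do not grow in the residue fields of the Kummer algebra `F[X]/(X ^ m - u)`.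

Then `u = y ^ m` with `y ∈ F`, `y ∈ 1 + w V`.
-/

set_option autoImplicit false
set_option linter.unusedSectionVars false
set_option linter.style.haveILetI false

open Polynomial

namespace Fermat.Agent.A2.H348

open Fermat.Agent.S18.H138 (chart baseField)

section KummerAlg

variable {F : Type*} [Field F]

/-- the Kummer basis of `F[X]/(X ^ m - u)`. -/
noncomputable def kummerBasisAdjoinRoot {m : ℕ} (hm : m ≠ 0) (u : F) :
    haveI : Nontrivial (AdjoinRoot (X ^ m - C u)) :=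
      AdjoinRoot.nontrivial _ (by rw [degree_X_pow_sub_C (Nat.pos_of_ne_zero hm)]; exact_mod_cast hm)
    KummerBasis m u (AdjoinRoot.root (X ^ m - C u)) :=
  haveI : Nontrivial (AdjoinRoot (X ^ m - C u)) :=
    AdjoinRoot.nontrivial _ (by rw [degree_X_pow_sub_C (Nat.pos_of_ne_zero hm)]; exact_mod_cast hm)
  have hf : (X ^ m - C u : F[X]) ≠ 0 := (monic_X_pow_sub_C u hm).ne_zero
  { pow_eq := by
      have h := AdjoinRoot.eval₂_root (X ^ m - C u : F[X])
      rw [eval₂_sub, eval₂_pow, eval₂_X, eval₂_C, sub_eq_zero] at h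
      exact h
    basis := (AdjoinRoot.powerBasis hf).basis.reindex
      (finCongr ((AdjoinRoot.powerBasis_dim hf).trans natDegree_X_pow_sub_C))
    basis_apply := by
      intro i
      rw [Module.Basis.reindex_apply, PowerBasis.basis_eq_pow, AdjoinRoot.powerBasis_gen]
      rfl }

end KummerAlg

section Final

variable {R F : Type*} [CommRing R] [Field F] [Algebra R F]
  [IsNoetherianRing R] [IsIntegrallyClosed R[X]] [CharZero F]

/-- **ALG_ss (route S of the A2 wall).** -/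
theorem exists_pow_eq_of_local_factorisation
    (hinjR : Function.Injective (algebraMap R F))
    {x : F} (hx : Transcendental R x) [FiniteDimensional (baseField R x) F]
    (w : R) (hw : Prime w) {m : ℕ} {u : F} {V : Subalgebra R F}
    (hV : GaussData w m u V)
    (hfin : ChartData w m u (chart R ({x} : Set F)) V)
    (hinf : ChartData w m u (chart R ({x⁻¹} : Set F)) V)
    (hconst : ∀ 𝔫 : Ideal (AdjoinRoot (X ^ m - C u)), 𝔫.IsMaximal →
      ∀ y : AdjoinRoot (X ^ m - C u) ⧸ 𝔫, IsIntegral R y →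
        y ∈ Set.range (algebraMap R (AdjoinRoot (X ^ m - C u) ⧸ 𝔫))) :
    ∃ y : F, y ^ m = u ∧ ∃ t ∈ V, y = 1 + algebraMap R F w * t := by
  have hm : m ≠ 0 := by
    rintro rfl
    exact hV.m_ne (by simp)
  have hx0 : x ≠ 0 := Fermat.Agent.S18.H138.ne_zero_of_transcendental hx
  haveI : Nontrivial (AdjoinRoot (X ^ m - C u)) :=
    AdjoinRoot.nontrivial _ (by rw [degree_X_pow_sub_C (Nat.pos_of_ne_zero hm)]; exact_mod_cast hm)
  have kb := kummerBasisAdjoinRoot hm u
  haveI := kb.finiteDimensional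
  refine exists_root_of_connected (Bmid := chart R ({x, x⁻¹} : Set F)) hV hfin hinf
    (Fermat.Agent.S18.H138.chart_mono (by simp)) (Fermat.Agent.S18.H138.chart_mono (by simp))
    ⟨x, Fermat.Agent.S18.H138.mem_chart_of_mem rfl⟩ hx0
    (Fermat.Agent.S18.H138.mem_chart_of_mem (by simp))
    (fun f hf => Fermat.Agent.S18.H138.exists_pow_mul_mem_chart hx0 hf) kb ?_
  intro 𝔫 h𝔫
  letI : Field (AdjoinRoot (X ^ m - C u) ⧸ 𝔫) := Ideal.Quotient.field 𝔫
  exact conn_of_const hinjR hx w hw (hconst 𝔫 h𝔫)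

end Final

end Fermat.Agent.A2.H348

end
-- ===== PACK-END A2/H348/Final.lean

-- ===== PACK-BEGIN Lib/Newform/H803/MainLemma.lean
section




/-!
# The Atkin–Lehner main lemma for `Γ₀(N)` (helper803)

`mainLemma`: if `f ∈ S_k(Γ₀(N))` has `a_n(f) = 0` for all `n` coprime to `N`, then
`f(τ) = ∑_{p ∣ N} g_p(p τ)` with `g_p ∈ S_k(Γ₀(N / p))`.
-/

set_option autoImplicit false

namespace Fermat.Agent.Lib.Newform.H803

open Matrix Matrix.SpecialLinearGroup CongruenceSubgroup UpperHalfPlane ModularForm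
open scoped MatrixGroups ModularForm Manifold Real

variable {k : ℤ}

theorem one_mem_strictPeriods_Gamma0_H803 (N : ℕ) :
    (1 : ℝ) ∈ ((Gamma0 N : Subgroup SL(2, ℤ)) : Subgroup (GL (Fin 2) ℝ)).strictPeriods := by
  simp

/-- The `q`-expansion of a cusp form on `Γ₀(N)` sums to the form. -/
theorem hasSum_qExpansion_Gamma0 {N : ℕ} (f : CuspForm (Gamma0 N) k) (τ : ℍ) :
    HasSum (fun m : ℕ => (qExpansion 1 f).coeff m * Function.Periodic.qParam 1 τ ^ m) (f τ) := by
  have hΓ := one_mem_strictPeriods_Gamma0_H803 N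
  have hc : IsCusp OnePoint.infty ((Gamma0 N : Subgroup SL(2, ℤ)) : Subgroup (GL (Fin 2) ℝ)) :=
    Subgroup.isCusp_of_mem_strictPeriods one_pos hΓ
  have hz : IsZeroAtImInfty (f : ℍ → ℂ) := OnePoint.isZeroAt_infty_iff.mp (f.zero_at_cusps' hc)
  have := UpperHalfPlane.hasSum_qExpansion (f := (f : ℍ → ℂ)) one_pos
    (SlashInvariantFormClass.periodic_comp_ofComplex f hΓ) f.holo' hz.isBoundedAtImInfty τ
  simpa [smul_eq_mul] using this

theorem heckeMatrix_smul_heckeDiagMatrix_smul {N : ℕ} (hN : N ≠ 0) (τ : ℍ) :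
    heckeMatrix N 0 • (heckeDiagMatrix N • τ) = τ := by
  apply UpperHalfPlane.ext
  rw [coe_heckeMatrix_smul hN, coe_heckeDiagMatrix_smul hN]
  have : (N : ℂ) ≠ 0 := by exact_mod_cast hN
  field_simp
  simp

theorem heckeDiagMatrix_smul_smul {d p N : ℕ} (hd : d ≠ 0) (hp : p ≠ 0) (hN : N ≠ 0)
    (h : p * d = N) (τ : ℍ) :
    heckeDiagMatrix d • (heckeDiagMatrix p • τ) = heckeDiagMatrix N • τ := by
  apply UpperHalfPlane.ext
  rw [coe_heckeDiagMatrix_smul hd, coe_heckeDiagMatrix_smul hp, coe_heckeDiagMatrix_smul hN, ← h]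
  push_cast
  ring

/-- **Atkin–Lehner main lemma.** -/
theorem mainLemma (N : ℕ) [NeZero N] (k : ℤ) (f : CuspForm (Gamma0 N) k)
    (h : ∀ n : ℕ, n.Coprime N → (qExpansion 1 f).coeff n = 0) :
    ∃ g : (p : ℕ) → CuspForm (Gamma0 (N / p)) k,
      ∀ τ : ℍ, f τ = ∑ p ∈ N.primeFactors, g p (heckeDiagMatrix p • τ) := by
  classical
  have hN : N ≠ 0 := NeZero.ne N
  set F : ℍ → ℂ := (f : ℍ → ℂ) ∣[k] heckeMatrix N 0 with hF
  have hFinv : SlInv k (GammaU N) F := slInv_hat hN (slInv_of_cuspForm f)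
  have hFcusp : IsCuspidal k F := (isCuspidal_of_cuspForm f).slash_heckeMatrix hN 0
  have hLnd : (N.primeFactors.toList).Nodup := Finset.nodup_toList _
  have hLmem : ∀ p ∈ N.primeFactors.toList, p.Prime ∧ p ∣ N := by
    intro p hp
    rw [Finset.mem_toList, Nat.mem_primeFactors] at hp
    exact ⟨hp.1, hp.2.1⟩
  have hQ : HasQN N (fun n => (N : ℂ)⁻¹ * (qExpansion 1 f).coeff n) F :=
    hasQN_hat hN (fun τ => hasSum_qExpansion_Gamma0 f τ)
  have hK : killL k N N.primeFactors.toList F = 0 := by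
    refine (hasQN_killL hN hQ _ fun p hp => ⟨(hLmem p hp).1.ne_zero, (hLmem p hp).2⟩).eq_zero ?_
    intro n
    split_ifs with hn
    · rfl
    · rw [h n, mul_zero]
      apply Nat.Coprime.symm
      rw [Nat.coprime_comm]
      apply Nat.coprime_of_dvd
      intro q hq hqn hqN
      exact hn ⟨q, by rw [Finset.mem_toList, Nat.mem_primeFactors]; exact ⟨hq, hqN, hN⟩, hqn⟩
  obtain ⟨G, hG, hGsum⟩ := main_hat (k := k) N cuspSub_slash_stable _ hLnd hLmem F
    (mem_cuspSub.mpr hFcusp) hFinv hK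
  have hd0 : ∀ p ∈ N.primeFactors, N / p ≠ 0 := by
    intro p hp
    rw [Nat.mem_primeFactors] at hp
    exact (Nat.div_pos (Nat.le_of_dvd (Nat.pos_of_ne_zero hN) hp.2.1) hp.1.pos).ne'
  have hGc : ∀ p ∈ N.primeFactors, IsCuspidal k (G p) := fun p hp =>
    mem_cuspSub.mp (hG p (Finset.mem_toList.mpr hp)).1
  have hGi : ∀ p ∈ N.primeFactors, SlInv k (GammaU (N / p)) (G p) := fun p hp =>
    (hG p (Finset.mem_toList.mpr hp)).2
  let g : (p : ℕ) → CuspForm (Gamma0 (N / p)) k := fun p =>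
    if hp : p ∈ N.primeFactors then
      cuspFormOfIsCuspidal (Gamma0 (N / p))
        (((N : ℂ) * ((((N / p : ℕ) : ℂ)) ^ (k - 1))⁻¹) • (G p ∣[k] heckeDiagMatrix (N / p)))
        (((hGc p hp).slash_heckeDiagMatrix (hd0 p hp)).smul _)
        ((slInv_unhat (hd0 p hp) (hGi p hp)).smul _)
    else 0
  have hg : ∀ p ∈ N.primeFactors, ∀ τ : ℍ, g p τ =
      ((N : ℂ) * ((((N / p : ℕ) : ℂ)) ^ (k - 1))⁻¹) *
        (G p ∣[k] heckeDiagMatrix (N / p)) τ := by
    intro p hp τ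
    simp only [g, dif_pos hp]
    rfl
  refine ⟨g, ?_⟩
  intro τ
  -- `f τ = N * F (N τ)`
  have h1 : f τ = (N : ℂ) * F (heckeDiagMatrix N • τ) := by
    rw [hF, slash_heckeMatrix_apply k hN 0, heckeMatrix_smul_heckeDiagMatrix_smul hN]
    have : (N : ℂ) ≠ 0 := by exact_mod_cast hN
    field_simp
  rw [h1, hGsum, Finset.sum_map_toList, Finset.sum_apply, Finset.mul_sum]
  refine Finset.sum_congr rfl fun p hp => ?_
  have hpN : p * (N / p) = N := Nat.mul_div_cancel' (Nat.mem_primeFactors.mp hp).2.1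
  have hp0 : p ≠ 0 := (Nat.mem_primeFactors.mp hp).1.ne_zero
  rw [hg p hp, slash_heckeDiagMatrix_apply k (hd0 p hp),
    heckeDiagMatrix_smul_smul (hd0 p hp) hp0 hN hpN]
  have hd' : (((N / p : ℕ) : ℂ)) ^ (k - 1) ≠ 0 :=
    zpow_ne_zero _ (by exact_mod_cast hd0 p hp)
  field_simp

end Fermat.Agent.Lib.Newform.H803

end
-- ===== PACK-END Lib/Newform/H803/MainLemma.lean

-- ===== PACK-BEGIN Lib/Newform/H23/QNew.lean
section



/-!
# NEWFORM library (helper23) — the `q`-new kernel, from `TraceAL`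

`qNewKernel_of : TraceAL → QNewKernel`; light versions of `Occurs`, `Incl`, `Stab`
(closure: Mathlib + Prelude + `H683` + `H958.Spec/MainOf` only).
-/

set_option autoImplicit false

open CongruenceSubgroup ModularFormClass ModularForm UpperHalfPlane

namespace Fermat.Agent.Lib.Newform.H23

open Fermat.Agent.Lib.Newform

/-- `Occurs` (light adapter around helper683's E2). -/
theorem occurs : H958.Occurs := by
  intro M _ h hh P a heig
  exact H683.exists_normalizedEigenform_of_eigenvector (M := M) (fun ℓ => ℓ ∈ P) a h hh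
    (fun ℓ hℓ hℓM hP => by
      have := congrArg (fun F : CuspForm (Gamma0 M) 2 => (⇑F : ℍ → ℂ)) (heig ℓ hℓ hℓM hP)
      simpa using this)

theorem gamma0_le_gamma0_of_dvd {M C : ℕ} (h : M ∣ C) : Gamma0 C ≤ Gamma0 M := by
  intro γ hγ
  rw [Gamma0_mem] at hγ ⊢
  exact (ZMod.intCast_zmod_eq_zero_iff_dvd _ _).mpr
    ((Int.natCast_dvd_natCast.mpr h).trans ((ZMod.intCast_zmod_eq_zero_iff_dvd _ _).mp hγ))

/-- Level inclusion `S(M) → S(C)`, `M ∣ C`, as a linear map. -/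
noncomputable def inclLin {M C : ℕ} (hMC : M ∣ C) :
    CuspForm (Gamma0 M) 2 →ₗ[ℂ] CuspForm (Gamma0 C) 2 where
  toFun g :=
    { toFun := ⇑g
      slash_action_eq' := fun γ hγ => SlashInvariantFormClass.slash_action_eq g γ
        (Subgroup.map_mono (gamma0_le_gamma0_of_dvd hMC) hγ)
      holo' := CuspFormClass.holo g
      zero_at_cusps' := fun hc => CuspFormClass.zero_at_cusps g
        (hc.mono (Subgroup.map_mono (gamma0_le_gamma0_of_dvd hMC))) }
  map_add' _ _ := rfl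
  map_smul' _ _ := rfl

@[simp] theorem coe_inclLin {M C : ℕ} (hMC : M ∣ C) (g : CuspForm (Gamma0 M) 2) :
    (⇑(inclLin hMC g) : ℍ → ℂ) = ⇑g := rfl

/-- `Incl` (light). -/
theorem incl : H958.Incl := fun _ _ hMC g => ⟨inclLin hMC g, rfl⟩

/-- `Descent`. -/
theorem descent : H958.Descent := H958.descent

/-- `Stab`. -/
theorem stab : H958.Stab := H958.stab_of _root_.Fermat.Agent.Lib.Newform.H23.eigenT _root_.Fermat.Agent.Lib.Newform.H23.incl _root_.Fermat.Agent.Lib.Newform.H23.occurs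

/-- The unique cusp form with a given underlying function, as a linear map, when every function
in the image of a linear map `Φ` (into functions) is the underlying function of a cusp form. -/
theorem exists_linearMap_of_coe {N M : ℕ} (Φ : CuspForm (Gamma0 N) 2 → (ℍ → ℂ))
    (hadd : ∀ f f', Φ (f + f') = Φ f + Φ f') (hsmul : ∀ (c : ℂ) f, Φ (c • f) = c • Φ f)
    (hex : ∀ f, ∃ g : CuspForm (Gamma0 M) 2, (⇑g : ℍ → ℂ) = Φ f) :
    ∃ t : CuspForm (Gamma0 N) 2 →ₗ[ℂ] CuspForm (Gamma0 M) 2, ∀ f, (⇑(t f) : ℍ → ℂ) = Φ f := by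
  choose t ht using hex
  refine ⟨{ toFun := t, map_add' := ?_, map_smul' := ?_ }, ht⟩
  · intro f f'
    apply DFunLike.coe_injective
    rw [ht, FunLike.coe_add, ht, ht, hadd]
  · intro c f
    apply DFunLike.coe_injective
    rw [ht, RingHom.id_apply, FunLike.coe_smul, ht, hsmul]

/-- **Q-NEW-KERNEL** from `TraceAL`. -/
theorem qNewKernel_of (hT : H958.TraceAL) : QNewKernel := by
  intro N q _ hq hqN hq2
  obtain ⟨W, hWT, hTr, hTr'⟩ := hT N q hq hqN hq2
  have hper := CongruenceSubgroup.one_mem_strictPeriods_Gamma0 N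
  obtain ⟨tr, htr⟩ := exists_linearMap_of_coe (N := N) (M := N / q)
    (fun f => ⇑f + heckeU 2 q ⇑(W f))
    (fun f f' => by
      simp only [map_add, FunLike.coe_add, heckeU_add]
      abel)
    (fun c f => by
      simp only [map_smul, FunLike.coe_smul, heckeU_smul, smul_add])
    hTr
  obtain ⟨tr', htr'⟩ := exists_linearMap_of_coe (N := N) (M := N / q)
    (fun f => ⇑(W f) + heckeU 2 q ⇑f)
    (fun f f' => by
      simp only [map_add, FunLike.coe_add, heckeU_add]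
      abel)
    (fun c f => by
      simp only [map_smul, FunLike.coe_smul, heckeU_smul, smul_add])
    hTr'
  have hcop : ∀ ℓ : ℕ, ℓ.Prime → ¬ ℓ ∣ N → Nat.Coprime ℓ q := by
    intro ℓ hℓ hℓN
    rw [Nat.coprime_primes hℓ hq]
    rintro rfl
    exact hℓN hqN
  -- `tr`, `tr'` commute with `T_ℓ` at the level of functions
  have htrT : ∀ (ℓ : ℕ) (hℓ : ℓ.Prime) (hℓN : ¬ ℓ ∣ N) (f : CuspForm (Gamma0 N) 2),
      (⇑(tr (CuspForm.heckeTLin 2 hℓ hℓN f)) : ℍ → ℂ) = heckeT 2 ℓ ⇑(tr f) := by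
    intro ℓ hℓ hℓN f
    rw [htr, htr, hWT ℓ hℓ hℓN f, CuspForm.coe_heckeTLin_apply, CuspForm.coe_heckeTLin_apply,
      heckeT_add, ModularFormClass.heckeT_heckeU_comm (W f) hper (hcop ℓ hℓ hℓN)]
  have htr'T : ∀ (ℓ : ℕ) (hℓ : ℓ.Prime) (hℓN : ¬ ℓ ∣ N) (f : CuspForm (Gamma0 N) 2),
      (⇑(tr' (CuspForm.heckeTLin 2 hℓ hℓN f)) : ℍ → ℂ) = heckeT 2 ℓ ⇑(tr' f) := by
    intro ℓ hℓ hℓN f
    rw [htr', htr', hWT ℓ hℓ hℓN f, CuspForm.coe_heckeTLin_apply, CuspForm.coe_heckeTLin_apply,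
      heckeT_add, ModularFormClass.heckeT_heckeU_comm f hper (hcop ℓ hℓ hℓN)]
  have hUU : ∀ f : CuspForm (Gamma0 N) 2, tr f = 0 → tr' f = 0 →
      heckeU 2 q (heckeU 2 q ⇑f) = ⇑f := by
    intro f h0 h0'
    have h1 : (⇑f : ℍ → ℂ) + heckeU 2 q ⇑(W f) = 0 := by
      rw [← htr, h0]; rfl
    have h2 : (⇑(W f) : ℍ → ℂ) + heckeU 2 q ⇑f = 0 := by
      rw [← htr', h0']; rfl
    have h3 : (⇑(W f) : ℍ → ℂ) = -heckeU 2 q ⇑f := eq_neg_of_add_eq_zero_left h2
    rw [h3, heckeU_neg] at h1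
    have h4 := eq_neg_of_add_eq_zero_left h1
    rw [neg_neg] at h4
    exact h4.symm
  refine ⟨W, tr, tr', htr, htr', ?_, hUU, ?_, ?_⟩
  · intro ℓ hℓ hℓN f h0 h0'
    constructor
    · apply DFunLike.coe_injective
      rw [htrT, h0, FunLike.coe_zero, heckeT_zero]
    · apply DFunLike.coe_injective
      rw [htr'T, h0', FunLike.coe_zero, heckeT_zero]
  · intro g hg h0 h0'
    have hU := H683.heckeU_eq_of_eigenform hg hq hqN
    have h1 := hUU g h0 h0'
    rw [hU, heckeU_smul, hU, smul_smul] at h1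
    have hgne : (⇑g : ℍ → ℂ) ≠ 0 := H958.coe_ne_zero_of_isNormalizedEigenform hg
    have h2 : (qCoeff ⇑g q * qCoeff ⇑g q - 1) • (⇑g : ℍ → ℂ) = 0 := by
      rw [sub_smul, one_smul, h1, sub_self]
    rcases smul_eq_zero.mp h2 with h | h
    · show qCoeff ⇑g q ^ 2 = 1
      rw [pow_two]
      exact sub_eq_zero.mp h
    · exact absurd h hgne
  · intro g hg
    have hge := hg.1
    have hTg : ∀ ℓ : ℕ, ℓ.Prime → ¬ ℓ ∣ N →
        heckeT 2 ℓ (⇑g : ℍ → ℂ) = qCoeff ⇑g ℓ • (⇑g : ℍ → ℂ) :=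
      fun ℓ hℓ hℓN => H683.heckeT_eq_of_eigenform hge hℓ hℓN
    have hTlin : ∀ (ℓ : ℕ) (hℓ : ℓ.Prime) (hℓN : ¬ ℓ ∣ N),
        CuspForm.heckeTLin 2 hℓ hℓN g = qCoeff ⇑g ℓ • g :=
      fun ℓ hℓ hℓN => H683.heckeTLin_eq_of_eigenform hge hℓ hℓN
    constructor
    · apply H958.eq_zero_of_level_div _root_.Fermat.Agent.Lib.Newform.H23.occurs hq hg (tr g)
      intro ℓ hℓ hℓN
      rw [← htrT ℓ hℓ hℓN g, hTlin ℓ hℓ hℓN, map_smul, FunLike.coe_smul]
    · apply H958.eq_zero_of_level_div _root_.Fermat.Agent.Lib.Newform.H23.occurs hq hg (tr' g)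
      intro ℓ hℓ hℓN
      rw [← htr'T ℓ hℓ hℓN g, hTlin ℓ hℓ hℓN, map_smul, FunLike.coe_smul]

/-- `BadCoeffAt` and `BadCoeff` from the two open leaves. -/
theorem badCoeffAt_of (hL : H958.LowerU) (hT : H958.TraceAL) : H958.BadCoeffAt :=
  H958.badCoeffAt_of _root_.Fermat.Agent.Lib.Newform.H23.eigenT _root_.Fermat.Agent.Lib.Newform.H23.eigenU _root_.Fermat.Agent.Lib.Newform.H23.occurs hL hT

theorem badCoeff_of (hL : H958.LowerU) (hT : H958.TraceAL) : H958.BadCoeff :=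
  H958.badCoeff_of (badCoeffAt_of hL hT)

end Fermat.Agent.Lib.Newform.H23

end
-- ===== PACK-END Lib/Newform/H23/QNew.lean

-- ===== PACK-BEGIN S35/H433/FrobToric.lean
section



/-!
# S35 / (G) — N4, the toric Frobenius relation, assembled from the A2-wall leaves (helper433)

`frobToric_of_parts` : in the setting of the A2 wall (`Fermat/Agent/A2/Alg`), let `φ` be a
semilinear automorphism of `F` preserving both charts and their components, acting on constants as
the `Q`-power map modulo `w`, and fixing the crossing points.  If `u` is split with `m ∣ div u`,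
then `φ u = h ^ m · u ^ Q`.

Inputs are the leaves PURITY (P-S + P-N) and GLUE of the A2 wall (both `τ`-free), as hypotheses in
exactly the shape of `Fermat/Agent/A2/Alg/Skel.lean` (origin/helper34).

For `S35`: `φ = σ²` (`σ` a Frobenius lift at `q ‖ N`), `Q = q²`; the conclusion says that `σ²` acts
as `q²` on the toric part of `J₀(N)[m]`.
-/

set_option autoImplicit false

namespace Fermat.Agent.S35.H433

open Fermat.Agent.A2 Fermat.Agent.A2.Alg

section Div

variable {E F : Type*} [Field E] [Field F] [Algebra E F]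

theorem divisibleDiv_pow (m : ℕ) (f : F) (hf : DivisibleDiv E m f) (k : ℕ) :
    DivisibleDiv E m (f ^ k) := by
  intro V hV hE
  obtain ⟨h, u, hh, hu, hu', rfl⟩ := hf V hV hE
  refine ⟨h ^ k, u ^ k, pow_ne_zero _ hh, pow_mem hu k, ?_, ?_⟩
  · rw [← inv_pow]
    exact pow_mem hu' k
  · rw [mul_pow, ← pow_mul, ← pow_mul, mul_comm m k]

end Div

variable {R E F : Type*} [CommRing R] [Field E] [Field F] [Algebra E F] [Algebra R F]

/-- `w ∈ φ⁻¹ n` for a closed point `n` of the special fibre. -/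
theorem PhiCtx.w_mem_comap {w : R} {B : Subalgebra R F} {c : SSChart w B} {φ : F ≃+* F} {Q : ℕ}
    (hφ : PhiCtx w B c φ Q) (hQ : 0 < Q) {n : Ideal B} (hwn : algebraMap R B w ∈ n) :
    algebraMap R B w ∈ n.comap hφ.hom := by
  obtain ⟨s, hs⟩ := hφ.frob w
  have h1 : hφ.hom (algebraMap R B w) = algebraMap R B w ^ Q + algebraMap R B w * s := by
    apply Subtype.ext
    push_cast
    rw [hφ.coe_hom]
    have e1 : ((algebraMap R B w : B) : F) = algebraMap R F w := rfl
    rw [e1]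
    linear_combination hs
  rw [Ideal.mem_comap, h1]
  exact n.add_mem (n.pow_mem_of_mem hwn Q hQ) (n.mul_mem_right _ hwn)

/-- Local factorisations of `φ u / u ^ Q` at all closed points of one chart. -/
theorem locallyFactored_phi {w : R} (B : Subalgebra R F) (c : SSChart w B)
    (φ : F ≃+* F) (Q : ℕ) (hQ : 0 < Q) (hφ : PhiCtx w B c φ Q) (m : ℕ) (hm : 0 < m)
    (hk : ∀ n : Ideal B, n.IsMaximal → c.p₁ ≤ n → c.p₂ ≤ n →
      ∀ b : B, ∃ r : R, b - algebraMap R B r ∈ n)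
    (hfix : ∀ n : Ideal B, n.IsMaximal → c.p₁ ≤ n → c.p₂ ≤ n →
      ∀ b : B, b ∈ n → hφ.hom b ∈ n)
    (htr : ∀ n : Ideal B, n.IsMaximal → c.p₁ ≤ n → c.p₂ ≤ n →
      ∀ b : B, b ∈ n → ∃ s : B, s ∉ n ∧ s * b ∈ c.p₁ ⊔ c.p₂)
    (u : F) (hu : u ≠ 0) (hs : IsSplit B c u)
    (hpur : ∀ n : Ideal B, n.IsMaximal → algebraMap R B w ∈ n → PureAt B c m u n) :
    LocallyFactored B c m (φ u * (u ^ Q)⁻¹) := by
  intro n hn hwn
  have hn' : (n.comap hφ.hom).IsMaximal :=
    Ideal.comap_isMaximal_of_surjective hφ.hom hφ.hom_surjective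
  exact localFactor_phi_of_pureAt w B c φ Q hφ m hm u hu hs n hn hwn (hk n hn) (hfix n hn)
    (htr n hn) (hpur _ hn' (hφ.w_mem_comap hQ hwn)) (hpur n hn hwn)

/-- **N4 (toric Frobenius relation), assembled.**  `u` split on both charts, `m ∣ div u`
⟹ `φ u = h ^ m · u ^ Q`. -/
theorem frobToric_of_parts (m : ℕ) (hm : 0 < m) (w : R) (Bf Bi : Subalgebra R F)
    (cf : SSChart w Bf) (ci : SSChart w Bi)
    (φ : F ≃+* F) (φE : E ≃+* E) (Q : ℕ) (hQ : 0 < Q)
    (hφE : ∀ e : E, φ (algebraMap E F e) = algebraMap E F (φE e))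
    (hφf : PhiCtx w Bf cf φ Q) (hφi : PhiCtx w Bi ci φ Q)
    (hkf : ∀ n : Ideal Bf, n.IsMaximal → cf.p₁ ≤ n → cf.p₂ ≤ n →
      ∀ b : Bf, ∃ r : R, b - algebraMap R Bf r ∈ n)
    (hki : ∀ n : Ideal Bi, n.IsMaximal → ci.p₁ ≤ n → ci.p₂ ≤ n →
      ∀ b : Bi, ∃ r : R, b - algebraMap R Bi r ∈ n)
    (hfixf : ∀ n : Ideal Bf, n.IsMaximal → cf.p₁ ≤ n → cf.p₂ ≤ n →
      ∀ b : Bf, b ∈ n → hφf.hom b ∈ n)
    (hfixi : ∀ n : Ideal Bi, n.IsMaximal → ci.p₁ ≤ n → ci.p₂ ≤ n →
      ∀ b : Bi, b ∈ n → hφi.hom b ∈ n)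
    (htrf : ∀ n : Ideal Bf, n.IsMaximal → cf.p₁ ≤ n → cf.p₂ ≤ n →
      ∀ b : Bf, b ∈ n → ∃ s : Bf, s ∉ n ∧ s * b ∈ cf.p₁ ⊔ cf.p₂)
    (htri : ∀ n : Ideal Bi, n.IsMaximal → ci.p₁ ≤ n → ci.p₂ ≤ n →
      ∀ b : Bi, b ∈ n → ∃ s : Bi, s ∉ n ∧ s * b ∈ ci.p₁ ⊔ ci.p₂)
    (u : F) (hu : u ≠ 0) (hdiv : DivisibleDiv E m u)
    (hsf : IsSplit Bf cf u) (hsi : IsSplit Bi ci u)
    (hpurf : ∀ n : Ideal Bf, n.IsMaximal → algebraMap R Bf w ∈ n → PureAt Bf cf m u n)
    (hpuri : ∀ n : Ideal Bi, n.IsMaximal → algebraMap R Bi w ∈ n → PureAt Bi ci m u n)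
    (hglue : ∀ v : F, v ≠ 0 → DivisibleDiv E m v → LocallyFactored Bf cf m v →
      LocallyFactored Bi ci m v → ∃ y : F, y ≠ 0 ∧ v = y ^ m) :
    ∃ h : F, h ≠ 0 ∧ φ u = h ^ m * u ^ Q := by
  have hφu : φ u ≠ 0 := (map_ne_zero φ).2 hu
  have huQ : u ^ Q ≠ 0 := pow_ne_zero _ hu
  have hv : φ u * (u ^ Q)⁻¹ ≠ 0 := mul_ne_zero hφu (inv_ne_zero huQ)
  have hdivv : DivisibleDiv E m (φ u * (u ^ Q)⁻¹) :=
    H34.divisibleDiv_mul_inv m _ _ (H34.divisibleDiv_tau φ φE hφE m u hdiv)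
      (divisibleDiv_pow m u hdiv Q)
  obtain ⟨y, hy, hyv⟩ := hglue _ hv hdivv
    (locallyFactored_phi Bf cf φ Q hQ hφf m hm hkf hfixf htrf u hu hsf hpurf)
    (locallyFactored_phi Bi ci φ Q hQ hφi m hm hki hfixi htri u hu hsi hpuri)
  refine ⟨y, hy, ?_⟩
  rw [← hyv, mul_assoc, inv_mul_cancel₀ huQ, mul_one]

end Fermat.Agent.S35.H433

end
-- ===== PACK-END S35/H433/FrobToric.lean

-- ===== PACK-BEGIN S25/H146/GlueSec.lean
section
/-
S25 helper (helper146), assembly AS6, part 3: sectionwise morphisms from morphisms of pullbacks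
along open immersions, and gluing of compatible families of sectionwise morphisms.
-/




set_option autoImplicit false

universe u

noncomputable section

open CategoryTheory AlgebraicGeometry TopologicalSpace Opposite

namespace Fermat.Agent.S25.H146

open Fermat.Agent.S25.H626
open AlgebraicGeometry.Scheme.Modules (pullback pushforward)

variable {X Y : Scheme.{u}}

/-! ## `onOpen` is functorial -/

section OnOpen

variable (g : Y ⟶ X) [IsOpenImmersion g] {M N K : X.Modules}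

theorem onOpen_comp (φ : (pullback g).obj M ⟶ (pullback g).obj N)
    (φ' : (pullback g).obj N ⟶ (pullback g).obj K) (V : X.Opens) (hV : V ≤ g.opensRange) :
    H806.onOpen g (φ ≫ φ') V hV = H806.onOpen g φ V hV ≫ H806.onOpen g φ' V hV := by
  symm
  rw [H806.onOpen_eq_iff, Category.assoc, H806.onOpen_comp_pbUnit]
  have h1 : H806.transpose g (φ ≫ φ') = H806.transpose g φ ≫ (pushforward g).map φ' :=
    Adjunction.homEquiv_naturality_right _ _ _
  rw [h1, H806.transpose_eq g φ', Scheme.Modules.Hom.comp_app, Scheme.Modules.Hom.comp_app,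
    ← Category.assoc, H806.onOpen_comp_pbUnit]

theorem onOpen_id (V : X.Opens) (hV : V ≤ g.opensRange) :
    H806.onOpen g (𝟙 ((pullback g).obj M)) V hV = 𝟙 _ := by
  have := H806.onOpen_map g (𝟙 M) V hV
  rw [CategoryTheory.Functor.map_id] at this
  exact this

/-- The sectionwise morphism attached to a morphism of pullbacks along an open immersion. -/
def secHomOfPullbackHom (φ : (pullback g).obj M ⟶ (pullback g).obj N) (V : X.Opens)
    (hV : V ≤ g.opensRange) : SecHom M N V where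
  app W h := H806.onOpen g φ W (h.trans hV)
  app_add W h s s' := map_add _ s s'
  app_smul W h r s := H806.onOpen_smul g φ W (h.trans hV) r s
  app_res W W' h hle s := by
    have := H806.onOpen_naturality g φ hle (h.trans hV)
    exact congr($this s)

theorem secHomOfPullbackHom_app (φ : (pullback g).obj M ⟶ (pullback g).obj N) (V : X.Opens)
    (hV : V ≤ g.opensRange) (W : X.Opens) (h : W ≤ V) (s : Γ(M, W)) :
    (secHomOfPullbackHom g φ V hV).app W h s = H806.onOpen g φ W (h.trans hV) s := rfl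

theorem isIso_secHomOfPullbackIso (φ : (pullback g).obj M ≅ (pullback g).obj N) (V : X.Opens)
    (hV : V ≤ g.opensRange) : (secHomOfPullbackHom g φ.hom V hV).IsIso := by
  intro W h
  have h1 : H806.onOpen g φ.hom W (h.trans hV) ≫ H806.onOpen g φ.inv W (h.trans hV) = 𝟙 _ := by
    rw [← onOpen_comp, Iso.hom_inv_id, onOpen_id]
  have h2 : H806.onOpen g φ.inv W (h.trans hV) ≫ H806.onOpen g φ.hom W (h.trans hV) = 𝟙 _ := by
    rw [← onOpen_comp, Iso.inv_hom_id, onOpen_id]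
  refine Function.bijective_iff_has_inverse.mpr ⟨H806.onOpen g φ.inv W (h.trans hV), ?_, ?_⟩
  · intro s
    exact congr($h1 s)
  · intro s
    exact congr($h2 s)

end OnOpen

/-! ## Gluing sectionwise morphisms -/

section Glue

variable {ι : Type*} {L L' : X.Modules} (V : ι → X.Opens)

theorem isBasis_le_cover (hV : ⨆ i, V i = ⊤) :
    Opens.IsBasis (Set.range fun p : {p : ι × X.Opens // p.2 ≤ V p.1} => p.1.2) := by
  rw [Opens.isBasis_iff_nbhd]
  intro W x hx
  have hx' : x ∈ ⨆ i, V i := by rw [hV]; trivial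
  obtain ⟨i, hi⟩ := Opens.mem_iSup.mp hx'
  exact ⟨_, ⟨⟨⟨i, W ⊓ V i⟩, inf_le_right⟩, rfl⟩, ⟨hx, hi⟩, inf_le_left⟩

/-- The component of a sectionwise morphism as a morphism of abelian groups. -/
def SecHom.appHom {V₀ : X.Opens} (f : SecHom L L' V₀) (W : X.Opens) (h : W ≤ V₀) :
    Γ(L, W) ⟶ Γ(L', W) :=
  AddCommGrpCat.ofHom (AddMonoidHom.mk' (f.app W h) (f.app_add W h))

@[simp] theorem SecHom.appHom_apply {V₀ : X.Opens} (f : SecHom L L' V₀) (W : X.Opens)
    (h : W ≤ V₀) (s : Γ(L, W)) : f.appHom W h s = f.app W h s := rfl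

/-- **Gluing.** A compatible family of sectionwise morphisms over an open cover glues to a
morphism of modules. -/
theorem exists_hom_of_secHoms (hV : ⨆ i, V i = ⊤) (f : ∀ i, SecHom L L' (V i))
    (hcompat : ∀ (i j : ι) (W : X.Opens) (hi : W ≤ V i) (hj : W ≤ V j) (s : Γ(L, W)),
      (f i).app W hi s = (f j).app W hj s) :
    ∃ ψ : L ⟶ L', ∀ (i : ι) (W : X.Opens) (h : W ≤ V i) (s : Γ(L, W)),
      ψ.app W s = (f i).app W h s := by
  obtain ⟨ψ, hψ, -⟩ := H806.existsUnique_hom_of_basis (isBasis_le_cover V hV) L L'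
    (fun p => (f p.1.1).appHom p.1.2 p.2)
    (fun p q h => by
      ext s
      simp only [ConcreteCategory.comp_apply, SecHom.appHom_apply]
      rw [hcompat p.1.1 q.1.1 p.1.2 p.2 (h.trans q.2)]
      exact (f q.1.1).app_res q.1.2 p.1.2 q.2 h s)
    (fun p r x => (f p.1.1).app_smul p.1.2 p.2 r x)
  refine ⟨ψ, fun i W h s => ?_⟩
  have := hψ ⟨(i, W), h⟩
  exact congr($this s)

/-- A morphism of modules whose components over the members of a basis-like cover are
bijective is an isomorphism. -/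
theorem isIso_of_secHoms (hV : ⨆ i, V i = ⊤) (f : ∀ i, SecHom L L' (V i))
    (hf : ∀ i, (f i).IsIso) (ψ : L ⟶ L')
    (hψ : ∀ (i : ι) (W : X.Opens) (h : W ≤ V i) (s : Γ(L, W)), ψ.app W s = (f i).app W h s) :
    IsIso ψ := by
  have hcov : ∀ x : X, ∃ i, x ∈ Set.range (V i).ι := by
    intro x
    have hx' : x ∈ ⨆ i, V i := by rw [hV]; trivial
    obtain ⟨i, hi⟩ := Opens.mem_iSup.mp hx'
    exact ⟨i, by simpa using hi⟩
  refine H806.isIso_of_cover (f := fun i => (V i).ι) hcov ψ (fun i => ?_)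
  rw [Scheme.Modules.Hom.isIso_iff_isIso_app]
  intro W
  have hle : (V i).ι ''ᵁ W ≤ V i := by
    have := Scheme.Hom.image_le_opensRange (V i).ι W
    rwa [Scheme.Opens.opensRange_ι] at this
  have hb : Function.Bijective (ψ.app ((V i).ι ''ᵁ W)) := by
    have : (ψ.app ((V i).ι ''ᵁ W) : Γ(L, (V i).ι ''ᵁ W) → Γ(L', (V i).ι ''ᵁ W)) =
        (f i).app _ hle := by
      funext s
      exact hψ i _ hle s
    rw [this]
    exact hf i _ hle
  exact (ConcreteCategory.isIso_iff_bijective (C := Ab) (ψ.app ((V i).ι ''ᵁ W))).mpr hb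

end Glue

end Fermat.Agent.S25.H146

end
end
-- ===== PACK-END S25/H146/GlueSec.lean

-- ===== PACK-BEGIN S25/H265/GDCRig.lean
section



/-!
# S25 / helper265, block GDC, part 6: rigidifiability

`CurveGD.Rigidifiable e` is invariant under isomorphism, stable under base change, and lifts
along quotients by ideals of nilpotent elements.
-/

set_option autoImplicit false
set_option linter.style.haveILetI false

universe u

open scoped TensorProduct

namespace Fermat.Agent.S25.H265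

open Fermat.Agent.S25 GlueDatum

section Nilpotent

variable {A : Type u} [CommRing A] (I : Ideal A)

/-- The kernel of a base change along `A → A ⧸ I` is contained in `I • ⊤`. -/
theorem mem_smul_top_of_semiUP_mk {P P₀ : Type u} [AddCommGroup P] [Module A P]
    [AddCommGroup P₀] [Module (A ⧸ I) P₀] {q : P →ₛₗ[Ideal.Quotient.mk I] P₀}
    (h : SemiUP (Ideal.Quotient.mk I) q) {y : P} (hy : q y = 0) :
    y ∈ (I • ⊤ : Submodule A P) := by
  let π : P →ₛₗ[Ideal.Quotient.mk I] (P ⧸ (I • ⊤ : Submodule A P)) :=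
    { toFun := fun x => Submodule.Quotient.mk x
      map_add' := fun x y => rfl
      map_smul' := fun a x => rfl }
  obtain ⟨g, hg, -⟩ := h _ π
  have : π y = 0 := by rw [← hg, hy, map_zero]
  exact (Submodule.Quotient.mk_eq_zero _).mp this

/-- Nakayama for invertible modules and nilpotent ideals: if the reduction of the invertible
module `P` modulo an ideal `I` of nilpotent elements is free of rank one, then `P` is free of
rank one; more precisely any lift of a generator is a basis. -/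
theorem exists_equiv_of_semiUP_mk (hI : ∀ a ∈ I, IsNilpotent a) {P : Type u} [AddCommGroup P]
    [Module A P] [Module.Invertible A P] {q : P →ₛₗ[Ideal.Quotient.mk I] (A ⧸ I)}
    (h : SemiUP (Ideal.Quotient.mk I) q) : Nonempty (P ≃ₗ[A] A) := by
  -- `q` is surjective
  have hq1 : ∃ p, q p = 1 := by
    by_contra hne
    push Not at hne
    -- the image of `q` generates an ideal `J` of `A ⧸ I`; compare `mk J` and `0` on the image
    let J : Ideal (A ⧸ I) := Submodule.span (A ⧸ I) (Set.range q)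
    have h1 : (Submodule.mkQ J : (A ⧸ I) →ₗ[A ⧸ I] (A ⧸ I) ⧸ J) = 0 := by
      apply h.hom_ext (RingHom.id (A ⧸ I))
      intro n
      simp only [LinearMap.zero_apply]
      exact (Submodule.Quotient.mk_eq_zero _).mpr (Submodule.subset_span ⟨n, rfl⟩)
    have h2 : (1 : A ⧸ I) ∈ J := by
      have := LinearMap.congr_fun h1 1
      exact (Submodule.Quotient.mk_eq_zero _).mp this
    -- so `1 = Σ cᵢ q(pᵢ) = q (Σ c̃ᵢ pᵢ)`
    have h3 : ∀ z ∈ J, ∃ p, q p = z := by
      intro z hz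
      induction hz using Submodule.span_induction with
      | mem x hx => exact hx
      | zero => exact ⟨0, map_zero _⟩
      | add x y _ _ hx hy =>
        obtain ⟨p, rfl⟩ := hx
        obtain ⟨p', rfl⟩ := hy
        exact ⟨p + p', map_add _ _ _⟩
      | smul c x _ hx =>
        obtain ⟨p, rfl⟩ := hx
        obtain ⟨a, rfl⟩ := Ideal.Quotient.mk_surjective c
        exact ⟨a • p, LinearMap.map_smulₛₗ q a p⟩
    obtain ⟨p, hp⟩ := h3 1 h2
    exact hne p hp
  obtain ⟨p, hp⟩ := hq1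
  let f : A →ₗ[A] P := LinearMap.toSpanSingleton A P p
  have hsurj : Function.Surjective f := by
    rw [← LinearMap.range_eq_top]
    apply top_le_iff.mp
    refine Submodule.le_of_le_smul_of_le_jacobson_bot (I := I) (Module.Finite.fg_top) ?_ ?_
    · intro a ha
      exact Ideal.radical_le_jacobson (hI a ha)
    · intro x _
      obtain ⟨a, ha⟩ := Ideal.Quotient.mk_surjective (q x)
      have hker : q (x - a • p) = 0 := by
        rw [map_sub, LinearMap.map_smulₛₗ, hp, ha, smul_eq_mul, mul_one, sub_self]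
      have hmem := mem_smul_top_of_semiUP_mk I h hker
      have : x = a • p + (x - a • p) := by abel
      rw [this]
      exact Submodule.add_mem_sup ⟨a, by simp [f, LinearMap.toSpanSingleton_apply]⟩ hmem
  have hbij := Module.Invertible.bijective_of_surjective hsurj
  exact ⟨(LinearEquiv.ofBijective f hbij).symm⟩

end Nilpotent

section Rig

variable {k : Type u} [Field k] {B₀ B₁ B₀₁ : Type u} [CommRing B₀] [CommRing B₁] [CommRing B₀₁]
  [Algebra k B₀] [Algebra k B₁] [Algebra k B₀₁] [Algebra B₀ B₀₁] [Algebra B₁ B₀₁]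
  [IsScalarTower k B₀ B₀₁] [IsScalarTower k B₁ B₀₁]
  {A A' : Type u} [CommRing A] [Algebra k A] [CommRing A'] [Algebra k A']

theorem epsHom_apply_tmul (e : B₁ →ₐ[k] k) (a : A) (b : B₁) :
    epsHom e A (a ⊗ₜ[k] b) = a * algebraMap k A (e b) := by
  simp [epsHom, Algebra.ofId_apply]

/-- The marked section is compatible with base change. -/
theorem epsHom_tensorMapLeft (e : B₁ →ₐ[k] k) (φ : A →ₐ[k] A') (r : A ⊗[k] B₁) :
    epsHom e A' (tensorMapLeft k φ B₁ r) = φ (epsHom e A r) := by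
  induction r using TensorProduct.induction_on with
  | zero => simp
  | tmul a b => simp [tensorMapLeft_apply_tmul, epsHom_apply_tmul]
  | add x y hx hy => simp [hx, hy]

theorem epsHom_comp_tensorMapLeft (e : B₁ →ₐ[k] k) (φ : A →ₐ[k] A') :
    (φ : A →+* A').comp (epsHom e A).toRingHom =
      (epsHom e A').toRingHom.comp (tensorMapLeft k φ B₁) :=
  RingHom.ext fun r => (epsHom_tensorMapLeft e φ r).symm

/-- `Rigidifiable` in terms of the universal property. -/
theorem rigidifiable_iff (e : B₁ →ₐ[k] k) (G : CurveGD k B₀ B₁ B₀₁ A) :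
    G.Rigidifiable e ↔ ∃ b : G.N₁ →ₛₗ[(epsHom e A).toRingHom] A, SemiUP _ b :=
  ⟨fun ⟨b, hb⟩ => ⟨b, semiUP_of_isSemilinearBaseChange _ b hb⟩,
    fun ⟨b, hb⟩ => ⟨b, isSemilinearBaseChange_of_semiUP _ b hb⟩⟩

/-- `Rigidifiable` is invariant under isomorphism. -/
theorem rigidifiable_of_isIso {e : B₁ →ₐ[k] k} {G G₁ : CurveGD k B₀ B₁ B₀₁ A}
    (i : G.IsIso G₁) (h : G.Rigidifiable e) : G₁.Rigidifiable e := by
  obtain ⟨i⟩ := i
  obtain ⟨b, hb⟩ := (rigidifiable_iff e G).mp h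
  exact (rigidifiable_iff e G₁).mpr ⟨_, hb.equiv_comp i.e₁.symm⟩

/-- `Rigidifiable` is stable under base change. -/
theorem rigidifiable_of_isBC {e : B₁ →ₐ[k] k} {φ : A →ₐ[k] A'} {G : CurveGD k B₀ B₁ B₀₁ A}
    {G' : CurveGD k B₀ B₁ B₀₁ A'} (hbc : CurveGD.IsBC φ G G') (h : G.Rigidifiable e) :
    G'.Rigidifiable e := by
  obtain ⟨m⟩ := hbc
  obtain ⟨b, hb⟩ := (rigidifiable_iff e G).mp h
  haveI : RingHomCompTriple (epsHom e A).toRingHom (φ : A →+* A')
      ((φ : A →+* A').comp (epsHom e A).toRingHom) := ⟨rfl⟩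
  haveI : RingHomCompTriple (tensorMapLeft k φ B₁) (epsHom e A').toRingHom
      ((epsHom e A').toRingHom.comp (tensorMapLeft k φ B₁)) := ⟨rfl⟩
  have hcomp : SemiUP ((φ : A →+* A').comp (epsHom e A).toRingHom)
      ((ringHomSemi (φ : A →+* A')).comp b) := hb.comp (semiUP_ringHom _)
  obtain ⟨b', hb'⟩ := (bcmUp₁ m).exists_lift (epsHom e A').toRingHom
    (fun n => φ (b n)) (fun x y => by rw [b.map_add, map_add])
    (fun r x => by
      rw [LinearMap.map_smulₛₗ, smul_eq_mul, map_mul, smul_eq_mul]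
      congr 1
      exact (epsHom_tensorMapLeft e φ r).symm)
  refine (rigidifiable_iff e G').mpr ⟨b', ?_⟩
  refine (bcmUp₁ m).of_comp (τ := (epsHom e A').toRingHom.comp (tensorMapLeft k φ B₁)) ?_
  exact hcomp.congr (epsHom_comp_tensorMapLeft e φ) (fun n => (hb' n).symm)

/-- `Rigidifiable` lifts along quotients by ideals of nilpotent elements. -/
theorem rigidifiable_of_isBC_quotient {e : B₁ →ₐ[k] k} (I : Ideal A)
    (hI : ∀ a ∈ I, IsNilpotent a) {G : CurveGD k B₀ B₁ B₀₁ A}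
    {G₀ : CurveGD k B₀ B₁ B₀₁ (A ⧸ I)}
    (hbc : CurveGD.IsBC (Ideal.Quotient.mkₐ k I) G G₀) (h : G₀.Rigidifiable e) :
    G.Rigidifiable e := by
  obtain ⟨m⟩ := hbc
  obtain ⟨b₀, hb₀⟩ := (rigidifiable_iff e G₀).mp h
  obtain ⟨P, _, _, c, hc⟩ := exists_semiUP (epsHom e A).toRingHom G.N₁
  haveI : Module.Invertible (A ⊗[k] B₁) G.N₁ := G.invertible₁
  haveI : Module.Invertible A P := invertible_of_semiUP _ hc
  haveI : RingHomCompTriple (tensorMapLeft k (Ideal.Quotient.mkₐ k I) B₁)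
      (epsHom e (A ⧸ I)).toRingHom
      ((epsHom e (A ⧸ I)).toRingHom.comp (tensorMapLeft k (Ideal.Quotient.mkₐ k I) B₁)) :=
    ⟨rfl⟩
  haveI : RingHomCompTriple (epsHom e A).toRingHom (Ideal.Quotient.mk I)
      ((Ideal.Quotient.mk I).comp (epsHom e A).toRingHom) := ⟨rfl⟩
  have hcomp : SemiUP
      ((epsHom e (A ⧸ I)).toRingHom.comp (tensorMapLeft k (Ideal.Quotient.mkₐ k I) B₁))
      (b₀.comp m.b₁) := (bcmUp₁ m).comp hb₀
  have hring : (epsHom e (A ⧸ I)).toRingHom.comp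
      (tensorMapLeft k (Ideal.Quotient.mkₐ k I) B₁) =
      (Ideal.Quotient.mk I).comp (epsHom e A).toRingHom :=
    (epsHom_comp_tensorMapLeft e (Ideal.Quotient.mkₐ k I)).symm
  obtain ⟨q, hq⟩ := hc.exists_lift (Ideal.Quotient.mk I) (fun n => b₀ (m.b₁ n))
    (fun x y => by rw [m.b₁.map_add, b₀.map_add])
    (fun r x => by
      rw [LinearMap.map_smulₛₗ, LinearMap.map_smulₛₗ]
      congr 1
      exact epsHom_tensorMapLeft e (Ideal.Quotient.mkₐ k I) r)
  have hqUP : SemiUP (Ideal.Quotient.mk I) q := by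
    refine hc.of_comp (τ := (Ideal.Quotient.mk I).comp (epsHom e A).toRingHom) ?_
    exact hcomp.congr hring (fun n => (hq n).symm)
  obtain ⟨E⟩ := exists_equiv_of_semiUP_mk I hI hqUP
  exact (rigidifiable_iff e G).mpr ⟨_, hc.comp_equiv E⟩

/-- Special case: square-zero ideals. -/
theorem rigidifiable_of_isBC_quotient_sq {e : B₁ →ₐ[k] k} (I : Ideal A) (hI : I ^ 2 = ⊥)
    {G : CurveGD k B₀ B₁ B₀₁ A} {G₀ : CurveGD k B₀ B₁ B₀₁ (A ⧸ I)}
    (hbc : CurveGD.IsBC (Ideal.Quotient.mkₐ k I) G G₀) (h : G₀.Rigidifiable e) :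
    G.Rigidifiable e :=
  rigidifiable_of_isBC_quotient I (fun a ha => ⟨2, by
    have : a ^ 2 ∈ I ^ 2 := Ideal.pow_mem_pow ha 2
    rw [hI] at this
    exact this⟩) hbc h

end Rig

end Fermat.Agent.S25.H265

end
-- ===== PACK-END S25/H265/GDCRig.lean

-- ===== PACK-BEGIN S25/H986/DictIsoMpr.lean
section








/-!
# S25 / block DICT: `Stmt.DictIso`

Direction `G.IsIso G' → RIso M M'` and the full statement `dictIso : Stmt.DictIso Ch`.

A morphism of gluing data `(f₀, f₁, f₀₁) : G → G'` gives, through the identifications of `Corr`,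
additive maps on sections over the preimages `P₀`, `P₁`, `P₀₁` of `U₀`, `U₁`, `U₀ ⊓ U₁`.  They
are linear over the rings of functions (generated by `A` and `Γ(C, U)`, `map_smul_of_generators`)
and compatible with restrictions, so they come from a unique morphism of quasi-coherent modules
(`existsUnique_hom_of_two_affine`).

* `existsUnique_hom_of_glueHom` : the morphism of modules attached to a morphism of gluing data.
* `iso_of_glueDatum_iso` : isomorphic gluing data come from isomorphic modules.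
* `dictIso` : `Stmt.DictIso Ch`.
-/

set_option autoImplicit false
universe u
open CategoryTheory CategoryTheory.Limits AlgebraicGeometry AlgebraicGeometry.RelPicard
  NeronModelInfra GoodReductionJacobian
open scoped TensorProduct

namespace Fermat.Agent.S25.H986

open Fermat.Agent.S25

noncomputable section

variable {k : Type u} [Field k] {C : Scheme.{u}} {c : C ⟶ Spec (CommRingCat.of k)}
  {A : Type u} [CommRing A] [Algebra k A]

/-- The additive map on sections over the preimage of `U` obtained by transporting a linear map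
`g : N → N'` along two identifications of sections. -/
def transportHom {L L' : (pullback c (specStr k A)).Modules} (U : C.Opens)
    {B : Type u} [CommRing B] [Algebra k B]
    {N N' : Type u} [AddCommGroup N] [Module (A ⊗[k] B) N] [AddCommGroup N']
    [Module (A ⊗[k] B) N']
    (e : Γ(L, preimageOpen (c := c) A U) ≃+ N) (e' : Γ(L', preimageOpen (c := c) A U) ≃+ N')
    (g : N →ₗ[A ⊗[k] B] N') :
    Γ(L, preimageOpen (c := c) A U) →+ Γ(L', preimageOpen (c := c) A U) :=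
  (e'.symm.toAddMonoidHom.comp g.toAddMonoidHom).comp e.toAddMonoidHom

theorem transportHom_apply {L L' : (pullback c (specStr k A)).Modules} (U : C.Opens)
    {B : Type u} [CommRing B] [Algebra k B]
    {N N' : Type u} [AddCommGroup N] [Module (A ⊗[k] B) N] [AddCommGroup N']
    [Module (A ⊗[k] B) N']
    (e : Γ(L, preimageOpen (c := c) A U) ≃+ N) (e' : Γ(L', preimageOpen (c := c) A U) ≃+ N')
    (g : N →ₗ[A ⊗[k] B] N') (s : Γ(L, preimageOpen (c := c) A U)) :
    transportHom U e e' g s = e'.symm (g (e s)) := rfl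

theorem apply_transportHom {L L' : (pullback c (specStr k A)).Modules} (U : C.Opens)
    {B : Type u} [CommRing B] [Algebra k B]
    {N N' : Type u} [AddCommGroup N] [Module (A ⊗[k] B) N] [AddCommGroup N']
    [Module (A ⊗[k] B) N']
    (e : Γ(L, preimageOpen (c := c) A U) ≃+ N) (e' : Γ(L', preimageOpen (c := c) A U) ≃+ N')
    (g : N →ₗ[A ⊗[k] B] N') (s : Γ(L, preimageOpen (c := c) A U)) :
    e' (transportHom U e e' g s) = g (e s) := by
  rw [transportHom_apply, AddEquiv.apply_symm_apply]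

/-- The transported map is linear over the ring of functions on the preimage of `U`. -/
theorem transportHom_smul {L L' : (pullback c (specStr k A)).Modules} {U : C.Opens}
    (hU : IsAffineOpen U) {B : Type u} [CommRing B] [Algebra k B] (i : Γ(C, U) ≃+* B)
    {N N' : Type u} [AddCommGroup N] [Module (A ⊗[k] B) N] [AddCommGroup N']
    [Module (A ⊗[k] B) N']
    (e : Γ(L, preimageOpen (c := c) A U) ≃+ N) (e' : Γ(L', preimageOpen (c := c) A U) ≃+ N')
    (he : IsSectionsIso A L U i e) (he' : IsSectionsIso A L' U i e')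
    (g : N →ₗ[A ⊗[k] B] N')
    (r : Γ(pullback c (specStr k A), preimageOpen (c := c) A U))
    (s : Γ(L, preimageOpen (c := c) A U)) :
    transportHom U e e' g (r • s) = r • transportHom U e e' g s := by
  refine map_smul_of_generators c A hU (transportHom U e e' g) (fun a s => ?_) (fun f s => ?_) r s
  · apply e'.injective
    rw [apply_transportHom, he'.1, apply_transportHom, he.1, map_smul]
  · apply e'.injective
    rw [apply_transportHom, he'.2, apply_transportHom, he.2, map_smul]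

variable {ε : SchemeHomOver (𝟙 (Spec (CommRingCat.of k))) c}

/-- The preimages of the two charts cover `C_A`. -/
theorem preimageOpen_cover (Ch : ChartOf c ε) :
    preimageOpen (c := c) A Ch.U₀ ⊔ preimageOpen (c := c) A Ch.U₁ = ⊤ := by
  rw [← Scheme.Hom.preimage_sup, Ch.cover, Scheme.Hom.preimage_top]

/-- The preimage of `U₀ ⊓ U₁` is the basic open of the pullback of `x`. -/
theorem basicOpen_curveToSections₀ (Ch : ChartOf c ε) :
    (pullback c (specStr k A)).basicOpen (curveToSections (c := c) A Ch.U₀ (Ch.i₀.symm Ch.x)) =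
      preimageOpen (c := c) A (Ch.U₀ ⊓ Ch.U₁) := by
  rw [Ch.inf_eq₀]
  exact (Scheme.preimage_basicOpen (pullback.fst c (specStr k A)) (Ch.i₀.symm Ch.x)).symm

/-- The preimage of `U₀ ⊓ U₁` is the basic open of the pullback of `y`. -/
theorem basicOpen_curveToSections₁ (Ch : ChartOf c ε) :
    (pullback c (specStr k A)).basicOpen (curveToSections (c := c) A Ch.U₁ (Ch.i₁.symm Ch.y)) =
      preimageOpen (c := c) A (Ch.U₀ ⊓ Ch.U₁) := by
  rw [Ch.inf_eq₁]
  exact (Scheme.preimage_basicOpen (pullback.fst c (specStr k A)) (Ch.i₁.symm Ch.y)).symm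

/-- **The morphism of modules attached to a morphism of gluing data.** -/
theorem existsUnique_hom_of_glueHom (Ch : ChartOf c ε)
    {L L' : (pullback c (specStr k A)).Modules} [L.IsQuasicoherent]
    (G G' : CurveGD k Ch.B₀ Ch.B₁ Ch.B₀₁ A)
    (e₀ : Γ(L, preimageOpen (c := c) A Ch.U₀) ≃+ G.N₀)
    (e₁ : Γ(L, preimageOpen (c := c) A Ch.U₁) ≃+ G.N₁)
    (e₀₁ : Γ(L, preimageOpen (c := c) A (Ch.U₀ ⊓ Ch.U₁)) ≃+ G.N₀₁)
    (h₀ : IsSectionsIso A L Ch.U₀ Ch.i₀ e₀) (h₁ : IsSectionsIso A L Ch.U₁ Ch.i₁ e₁)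
    (h₀₁ : IsSectionsIso A L (Ch.U₀ ⊓ Ch.U₁) Ch.i₀₁ e₀₁)
    (hr₀ : ∀ s, e₀₁ (resMod L (show preimageOpen (c := c) A (Ch.U₀ ⊓ Ch.U₁) ≤
          preimageOpen (c := c) A Ch.U₀ from
            (Scheme.Hom.preimage_mono _ inf_le_left)) s) = G.r₀ (e₀ s))
    (hr₁ : ∀ s, e₀₁ (resMod L (show preimageOpen (c := c) A (Ch.U₀ ⊓ Ch.U₁) ≤
          preimageOpen (c := c) A Ch.U₁ from
            (Scheme.Hom.preimage_mono _ inf_le_right)) s) = G.r₁ (e₁ s))
    (e₀' : Γ(L', preimageOpen (c := c) A Ch.U₀) ≃+ G'.N₀)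
    (e₁' : Γ(L', preimageOpen (c := c) A Ch.U₁) ≃+ G'.N₁)
    (e₀₁' : Γ(L', preimageOpen (c := c) A (Ch.U₀ ⊓ Ch.U₁)) ≃+ G'.N₀₁)
    (h₀' : IsSectionsIso A L' Ch.U₀ Ch.i₀ e₀') (h₁' : IsSectionsIso A L' Ch.U₁ Ch.i₁ e₁')
    (h₀₁' : IsSectionsIso A L' (Ch.U₀ ⊓ Ch.U₁) Ch.i₀₁ e₀₁')
    (hr₀' : ∀ s, e₀₁' (resMod L' (show preimageOpen (c := c) A (Ch.U₀ ⊓ Ch.U₁) ≤
          preimageOpen (c := c) A Ch.U₀ from
            (Scheme.Hom.preimage_mono _ inf_le_left)) s) = G'.r₀ (e₀' s))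
    (hr₁' : ∀ s, e₀₁' (resMod L' (show preimageOpen (c := c) A (Ch.U₀ ⊓ Ch.U₁) ≤
          preimageOpen (c := c) A Ch.U₁ from
            (Scheme.Hom.preimage_mono _ inf_le_right)) s) = G'.r₁ (e₁' s))
    (f₀ : G.N₀ →ₗ[A ⊗[k] Ch.B₀] G'.N₀) (f₁ : G.N₁ →ₗ[A ⊗[k] Ch.B₁] G'.N₁)
    (f₀₁ : G.N₀₁ →ₗ[A ⊗[k] Ch.B₀₁] G'.N₀₁)
    (comm₀ : ∀ s, f₀₁ (G.r₀ s) = G'.r₀ (f₀ s)) (comm₁ : ∀ s, f₀₁ (G.r₁ s) = G'.r₁ (f₁ s)) :
    ∃! φ : L ⟶ L', (∀ s, e₀' (φ.app _ s) = f₀ (e₀ s)) ∧ (∀ s, e₁' (φ.app _ s) = f₁ (e₁ s)) := by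
  have hP₀ : IsAffineOpen (preimageOpen (c := c) A Ch.U₀) :=
    Fermat.Agent.S25.H205.isAffineOpen_fst_preimage c (specStr k A) Ch.isAffine₀
  have hP₁ : IsAffineOpen (preimageOpen (c := c) A Ch.U₁) :=
    Fermat.Agent.S25.H205.isAffineOpen_fst_preimage c (specStr k A) Ch.isAffine₁
  have hU₀₁ : IsAffineOpen (Ch.U₀ ⊓ Ch.U₁) := Ch.inf_eq₀ ▸ Ch.isAffine₀.basicOpen _
  have l₀ : preimageOpen (c := c) A (Ch.U₀ ⊓ Ch.U₁) ≤ preimageOpen (c := c) A Ch.U₀ :=
    Scheme.Hom.preimage_mono _ inf_le_left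
  have l₁ : preimageOpen (c := c) A (Ch.U₀ ⊓ Ch.U₁) ≤ preimageOpen (c := c) A Ch.U₁ :=
    Scheme.Hom.preimage_mono _ inf_le_right
  have hinf : preimageOpen (c := c) A Ch.U₀ ⊓ preimageOpen (c := c) A Ch.U₁ ≤
      preimageOpen (c := c) A (Ch.U₀ ⊓ Ch.U₁) := by
    rw [← Scheme.Hom.preimage_inf]
  obtain ⟨φ, hφ, huniq⟩ := existsUnique_hom_of_two_affine L L' hP₀ hP₁
    (preimageOpen_cover (A := A) Ch) l₀ l₁ hinf
    (curveToSections (c := c) A Ch.U₀ (Ch.i₀.symm Ch.x)) (basicOpen_curveToSections₀ Ch)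
    (curveToSections (c := c) A Ch.U₁ (Ch.i₁.symm Ch.y)) (basicOpen_curveToSections₁ Ch)
    (transportHom Ch.U₀ e₀ e₀' f₀) (transportHom Ch.U₁ e₁ e₁' f₁)
    (transportHom (Ch.U₀ ⊓ Ch.U₁) e₀₁ e₀₁' f₀₁)
    (transportHom_smul Ch.isAffine₀ Ch.i₀ e₀ e₀' h₀ h₀' f₀)
    (transportHom_smul Ch.isAffine₁ Ch.i₁ e₁ e₁' h₁ h₁' f₁)
    (transportHom_smul hU₀₁ Ch.i₀₁ e₀₁ e₀₁' h₀₁ h₀₁' f₀₁)
    (fun s => by
      apply e₀₁'.injective
      rw [apply_transportHom]
      exact ((congrArg f₀₁ (hr₀ s)).trans (comm₀ _)).trans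
        (((hr₀' _).trans (congrArg G'.r₀ (apply_transportHom _ _ _ _ _))).symm))
    (fun s => by
      apply e₀₁'.injective
      rw [apply_transportHom]
      exact ((congrArg f₀₁ (hr₁ s)).trans (comm₁ _)).trans
        (((hr₁' _).trans (congrArg G'.r₁ (apply_transportHom _ _ _ _ _))).symm))
  refine ⟨φ, ⟨fun s => ?_, fun s => ?_⟩, fun ψ hψ => huniq ψ ⟨fun s => ?_, fun s => ?_⟩⟩
  · rw [hφ.1, apply_transportHom]
  · rw [hφ.2, apply_transportHom]
  · apply e₀'.injective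
    rw [hψ.1, apply_transportHom]
  · apply e₁'.injective
    rw [hψ.2, apply_transportHom]

/-- **DictIso, direction `←`**: modules with isomorphic gluing data are isomorphic. -/
theorem iso_of_glueDatum_iso (Ch : ChartOf c ε)
    {L L' : (pullback c (specStr k A)).Modules} [L.IsQuasicoherent] [L'.IsQuasicoherent]
    (G G' : CurveGD k Ch.B₀ Ch.B₁ Ch.B₀₁ A) (hG : Corr Ch A L G) (hG' : Corr Ch A L' G')
    (I : GlueDatum.Iso G G') : Nonempty (L ≅ L') := by
  obtain ⟨e₀, e₁, e₀₁, h₀, h₁, h₀₁, hr₀, hr₁⟩ := hG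
  obtain ⟨e₀', e₁', e₀₁', h₀', h₁', h₀₁', hr₀', hr₁'⟩ := hG'
  obtain ⟨φ, hφ, -⟩ := existsUnique_hom_of_glueHom Ch G G' e₀ e₁ e₀₁ h₀ h₁ h₀₁ hr₀ hr₁
    e₀' e₁' e₀₁' h₀' h₁' h₀₁' hr₀' hr₁' I.e₀.toLinearMap I.e₁.toLinearMap I.e₀₁.toLinearMap
    I.comm₀ I.comm₁
  obtain ⟨ψ, hψ, -⟩ := existsUnique_hom_of_glueHom Ch G' G e₀' e₁' e₀₁' h₀' h₁' h₀₁' hr₀' hr₁'
    e₀ e₁ e₀₁ h₀ h₁ h₀₁ hr₀ hr₁ I.e₀.symm.toLinearMap I.e₁.symm.toLinearMap
    I.e₀₁.symm.toLinearMap
    (fun s => by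
      apply I.e₀₁.injective
      have h := I.comm₀ (I.e₀.symm s)
      rw [LinearEquiv.apply_symm_apply] at h
      change I.e₀₁ (I.e₀₁.symm (G'.r₀ s)) = I.e₀₁ (G.r₀ (I.e₀.symm s))
      rw [LinearEquiv.apply_symm_apply, h])
    (fun s => by
      apply I.e₀₁.injective
      have h := I.comm₁ (I.e₁.symm s)
      rw [LinearEquiv.apply_symm_apply] at h
      change I.e₀₁ (I.e₀₁.symm (G'.r₁ s)) = I.e₀₁ (G.r₁ (I.e₁.symm s))
      rw [LinearEquiv.apply_symm_apply, h])
  obtain ⟨χ, -, uL⟩ := existsUnique_hom_of_glueHom Ch G G e₀ e₁ e₀₁ h₀ h₁ h₀₁ hr₀ hr₁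
    e₀ e₁ e₀₁ h₀ h₁ h₀₁ hr₀ hr₁ LinearMap.id LinearMap.id LinearMap.id
    (fun _ => rfl) (fun _ => rfl)
  obtain ⟨χ', -, uL'⟩ := existsUnique_hom_of_glueHom Ch G' G' e₀' e₁' e₀₁' h₀' h₁' h₀₁' hr₀' hr₁'
    e₀' e₁' e₀₁' h₀' h₁' h₀₁' hr₀' hr₁' LinearMap.id LinearMap.id LinearMap.id
    (fun _ => rfl) (fun _ => rfl)
  have comp_app_apply : ∀ {M₁ M₂ M₃ : (pullback c (specStr k A)).Modules} (α : M₁ ⟶ M₂)
      (β : M₂ ⟶ M₃) (U : (pullback c (specStr k A)).Opens) (s : Γ(M₁, U)),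
      (α ≫ β).app U s = β.app U (α.app U s) := by
    intro M₁ M₂ M₃ α β U s
    rw [Scheme.Modules.Hom.comp_app]
    rfl
  have id_app_apply : ∀ (M₁ : (pullback c (specStr k A)).Modules)
      (U : (pullback c (specStr k A)).Opens) (s : Γ(M₁, U)),
      (𝟙 M₁ : M₁ ⟶ M₁).app U s = s := by
    intro M₁ U s
    rw [Scheme.Modules.Hom.id_app]
    rfl
  have hφψ : φ ≫ ψ = 𝟙 L := by
    rw [uL (φ ≫ ψ) ⟨fun s => ?_, fun s => ?_⟩, uL (𝟙 L) ⟨fun s => ?_, fun s => ?_⟩]
    · rw [id_app_apply]; rfl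
    · rw [id_app_apply]; rfl
    · rw [comp_app_apply, hψ.1, hφ.1]
      exact I.e₀.symm_apply_apply _
    · rw [comp_app_apply, hψ.2, hφ.2]
      exact I.e₁.symm_apply_apply _
  have hψφ : ψ ≫ φ = 𝟙 L' := by
    rw [uL' (ψ ≫ φ) ⟨fun s => ?_, fun s => ?_⟩, uL' (𝟙 L') ⟨fun s => ?_, fun s => ?_⟩]
    · rw [id_app_apply]; rfl
    · rw [id_app_apply]; rfl
    · rw [comp_app_apply, hφ.1, hψ.1]
      exact I.e₀.apply_symm_apply _
    · rw [comp_app_apply, hφ.2, hψ.2]
      exact I.e₁.apply_symm_apply _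
  exact ⟨⟨φ, ψ, hφψ, hψφ⟩⟩

/-- **DictIso, direction `←`**, in the shape of the frozen statement. -/
theorem dictIso_mpr (Ch : ChartOf c ε) (M M' : RigidifiedLineBundle c ε (specStr k A))
    (G G' : CurveGD k Ch.B₀ Ch.B₁ Ch.B₀₁ A) (hG : Corr Ch A M.L G) (hG' : Corr Ch A M'.L G')
    (h : G.IsIso G') : RIso M M' := by
  have : M.L.IsQuasicoherent := isQuasicoherent_of_isInvertible M.isInvertible
  have : M'.L.IsQuasicoherent := isQuasicoherent_of_isInvertible M'.isInvertible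
  exact iso_of_glueDatum_iso Ch G G' hG hG' h.some

/-- **DICT-ISO**: the correspondence between rigidified line bundles on `C_A` and gluing data
preserves and reflects isomorphism. -/
theorem dictIso (Ch : ChartOf c ε) : Stmt.DictIso Ch :=
  fun _ _ _ M M' G G' hG hG' =>
    ⟨dictIso_mp Ch M M' G G' hG hG', dictIso_mpr Ch M M' G G' hG hG'⟩

end

end Fermat.Agent.S25.H986

end
-- ===== PACK-END S25/H986/DictIsoMpr.lean

-- ===== PACK-BEGIN S25/H147/GraphIdealPt.lean
section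
/-
S25 / block ABEL, sub-block AB-ALG (helper747 skeleton), leaf **C5**:
the three ideals `ptI₀`, `ptI₁`, `ptI₀₁` of a chart point commute with base change.
Inputs: C4 (`H147.graphIdeal_map'`), H851 contraction calculus (`map_contr_baseChange`).
helper147.
-/



set_option autoImplicit false
set_option linter.unusedSectionVars false
set_option linter.style.haveILetI false
set_option linter.unusedVariables false
universe u
open scoped TensorProduct

namespace Fermat.Agent.S25.H147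

open Fermat.Agent.S25 Fermat.Agent.S25.H747

section Cospan

variable {k : Type u} [Field k]

theorem algebraMap_tensorRight_tmul (A B B' : Type u) [CommRing A] [Algebra k A] [CommRing B]
    [CommRing B'] [Algebra k B] [Algebra k B'] [Algebra B B'] [IsScalarTower k B B'] (a : A)
    (b : B) :
    algebraMap (A ⊗[k] B) (A ⊗[k] B') (a ⊗ₜ[k] b) = a ⊗ₜ[k] algebraMap B B' b := by
  change tensorMapRight k A B B' (a ⊗ₜ[k] b) = _
  simp [tensorMapRight]

/-- The maps `tensorMapLeft` form a morphism of cospans. -/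
theorem tensorMapLeft_comp_algebraMap_right {A A' : Type u} [CommRing A] [Algebra k A]
    [CommRing A'] [Algebra k A'] (ψ : A →ₐ[k] A') (B B' : Type u) [CommRing B] [CommRing B']
    [Algebra k B] [Algebra k B'] [Algebra B B'] [IsScalarTower k B B'] :
    (tensorMapLeft k ψ B').comp (algebraMap (A ⊗[k] B) (A ⊗[k] B')) =
      (algebraMap (A' ⊗[k] B) (A' ⊗[k] B')).comp (tensorMapLeft k ψ B) := by
  apply RingHom.ext
  intro z
  induction z using TensorProduct.induction_on with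
  | zero => simp
  | tmul a b => simp [algebraMap_tensorRight_tmul]
  | add z w hz hw => simp only [map_add, hz, hw]

/-- `A ⊗ B[1/x]` is the localization of `A ⊗ B` at `1 ⊗ x`. -/
theorem isLocalization_away_tensorRight (A B B' : Type u) [CommRing A] [Algebra k A]
    [CommRing B] [CommRing B'] [Algebra k B]
    [Algebra k B'] [Algebra B B'] [IsScalarTower k B B'] (x : B) [IsLocalization.Away x B'] :
    IsLocalization.Away ((1 : A) ⊗ₜ[k] x : A ⊗[k] B) (A ⊗[k] B') := by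
  have H : (algebraMap (A ⊗[k] B) (A ⊗[k] B')).comp
      (Algebra.TensorProduct.includeRight (R := k) (A := A) (B := B)).toRingHom =
      (Algebra.TensorProduct.includeRight (R := k) (A := A) (B := B')).toRingHom.comp
        (algebraMap B B') := by
    ext b
    simp [algebraMap_tensorRight_tmul]
  have := IsLocalization.tensorProduct_tensorProduct_right k A (Submonoid.powers x) B' H
  rw [Submonoid.map_powers] at this
  exact this

variable {B : Type u} [CommRing B] [Algebra k B] {A : Type u} [CommRing A] [Algebra k A]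

/-- `A → (A ⊗ B) ⧸ graphIdeal φ` is surjective. -/
theorem algebraMap_quotient_graphIdeal_surjective (φ : B →ₐ[k] A) :
    Function.Surjective (algebraMap A ((A ⊗[k] B) ⧸ graphIdeal φ)) := by
  intro q
  obtain ⟨z, rfl⟩ := Ideal.Quotient.mk_surjective q
  refine ⟨evalHom φ z, ?_⟩
  rw [IsScalarTower.algebraMap_apply A (A ⊗[k] B) ((A ⊗[k] B) ⧸ graphIdeal φ)]
  rw [Ideal.Quotient.algebraMap_eq, Ideal.Quotient.eq]
  show evalHom φ _ = 0
  rw [map_sub]
  simp

instance finite_quotient_graphIdeal (φ : B →ₐ[k] A) :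
    Module.Finite A ((A ⊗[k] B) ⧸ graphIdeal φ) :=
  Module.Finite.of_surjective (Algebra.linearMap A ((A ⊗[k] B) ⧸ graphIdeal φ))
    (algebraMap_quotient_graphIdeal_surjective φ)

end Cospan

section Frozen

variable {k : Type u} [Field k] [IsAlgClosed k]
  {B₀ B₁ B₀₁ : Type u} [CommRing B₀] [CommRing B₁] [CommRing B₀₁]
  [Algebra k B₀] [Algebra k B₁] [Algebra k B₀₁] [Algebra B₀ B₀₁] [Algebra B₁ B₀₁]
  [IsScalarTower k B₀ B₀₁] [IsScalarTower k B₁ B₀₁]
  {x : B₀} {y : B₁} {e : B₁ →ₐ[k] k}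

/-- Contraction of a graph ideal from chart `1` to chart `0` commutes with base change. -/
theorem contr_graphIdeal_map₀ (hC : IsCurveChart k B₀ B₁ B₀₁ x y e)
    {A A' : Type u} [CommRing A] [Algebra k A] [CommRing A'] [Algebra k A']
    (ψ : A →ₐ[k] A') (φ : B₁ →ₐ[k] A) :
    (H851.contr (A ⊗[k] B₀) (A ⊗[k] B₀₁) (graphIdeal φ)).map (tensorMapLeft k ψ B₀) =
      H851.contr (A' ⊗[k] B₀) (A' ⊗[k] B₀₁) (graphIdeal (ψ.comp φ)) := by
  haveI := hC.away₀
  haveI : IsLocalization.Away ((1 : A) ⊗ₜ[k] x : A ⊗[k] B₀) (A ⊗[k] B₀₁) :=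
    isLocalization_away_tensorRight A B₀ B₀₁ x
  haveI : IsLocalization.Away (tensorMapLeft k ψ B₀ ((1 : A) ⊗ₜ[k] x)) (A' ⊗[k] B₀₁) := by
    rw [tensorMapLeft_tmul, map_one]
    exact isLocalization_away_tensorRight A' B₀ B₀₁ x
  have hxy : algebraMap (A ⊗[k] B₁) (A ⊗[k] B₀₁) ((1 : A) ⊗ₜ[k] y) *
      algebraMap (A ⊗[k] B₀) (A ⊗[k] B₀₁) ((1 : A) ⊗ₜ[k] x) = 1 := by
    rw [algebraMap_tensorRight_tmul, algebraMap_tensorRight_tmul,
      Algebra.TensorProduct.tmul_mul_tmul, mul_one, mul_comm, hC.mul_eq_one]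
    rfl
  obtain ⟨u, hu, r, hr⟩ := H851.exists_mem_contr_isCoprime (A := A)
    ((1 : A) ⊗ₜ[k] y : A ⊗[k] B₁) ((1 : A) ⊗ₜ[k] x : A ⊗[k] B₀) hxy (graphIdeal φ)
  have hc : IsCoprime u ((1 : A) ⊗ₜ[k] x : A ⊗[k] B₀) := ⟨1, -r, by rw [hr]; ring⟩
  have := H851.map_contr_baseChange ((1 : A) ⊗ₜ[k] x : A ⊗[k] B₀)
    (tensorMapLeft k ψ B₁) (tensorMapLeft k ψ B₀) (tensorMapLeft k ψ B₀₁)
    (tensorMapLeft_comp_algebraMap_right ψ B₁ B₀₁)
    (tensorMapLeft_comp_algebraMap_right ψ B₀ B₀₁) (graphIdeal φ) hu hc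
  rw [this, graphIdeal_map' ψ φ]

/-- Contraction of a graph ideal from chart `0` to chart `1` commutes with base change. -/
theorem contr_graphIdeal_map₁ (hC : IsCurveChart k B₀ B₁ B₀₁ x y e)
    {A A' : Type u} [CommRing A] [Algebra k A] [CommRing A'] [Algebra k A']
    (ψ : A →ₐ[k] A') (φ : B₀ →ₐ[k] A) :
    (H851.contr (A ⊗[k] B₁) (A ⊗[k] B₀₁) (graphIdeal φ)).map (tensorMapLeft k ψ B₁) =
      H851.contr (A' ⊗[k] B₁) (A' ⊗[k] B₀₁) (graphIdeal (ψ.comp φ)) := by
  haveI := hC.away₁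
  haveI : IsLocalization.Away ((1 : A) ⊗ₜ[k] y : A ⊗[k] B₁) (A ⊗[k] B₀₁) :=
    isLocalization_away_tensorRight A B₁ B₀₁ y
  haveI : IsLocalization.Away (tensorMapLeft k ψ B₁ ((1 : A) ⊗ₜ[k] y)) (A' ⊗[k] B₀₁) := by
    rw [tensorMapLeft_tmul, map_one]
    exact isLocalization_away_tensorRight A' B₁ B₀₁ y
  have hxy : algebraMap (A ⊗[k] B₀) (A ⊗[k] B₀₁) ((1 : A) ⊗ₜ[k] x) *
      algebraMap (A ⊗[k] B₁) (A ⊗[k] B₀₁) ((1 : A) ⊗ₜ[k] y) = 1 := by
    rw [algebraMap_tensorRight_tmul, algebraMap_tensorRight_tmul,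
      Algebra.TensorProduct.tmul_mul_tmul, mul_one, hC.mul_eq_one]
    rfl
  obtain ⟨u, hu, r, hr⟩ := H851.exists_mem_contr_isCoprime (A := A)
    ((1 : A) ⊗ₜ[k] x : A ⊗[k] B₀) ((1 : A) ⊗ₜ[k] y : A ⊗[k] B₁) hxy (graphIdeal φ)
  have hc : IsCoprime u ((1 : A) ⊗ₜ[k] y : A ⊗[k] B₁) := ⟨1, -r, by rw [hr]; ring⟩
  have := H851.map_contr_baseChange ((1 : A) ⊗ₜ[k] y : A ⊗[k] B₁)
    (tensorMapLeft k ψ B₀) (tensorMapLeft k ψ B₁) (tensorMapLeft k ψ B₀₁)
    (tensorMapLeft_comp_algebraMap_right ψ B₀ B₀₁)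
    (tensorMapLeft_comp_algebraMap_right ψ B₁ B₀₁) (graphIdeal φ) hu hc
  rw [this, graphIdeal_map' ψ φ]

/-- **C5.** The three ideals of a chart point commute with base change. -/
theorem ptI₀_map (hC : IsCurveChart k B₀ B₁ B₀₁ x y e)
    {A A' : Type u} [CommRing A] [Algebra k A] [CommRing A'] [Algebra k A']
    (ψ : A →ₐ[k] A') (P : H746.ChartPt k B₀ B₁ A) :
    (ptI₀ B₀₁ P).map (tensorMapLeft k ψ B₀) = ptI₀ B₀₁ (P.map ψ) := by
  rcases P with φ | φ
  · exact graphIdeal_map' ψ φ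
  · exact contr_graphIdeal_map₀ hC ψ φ

theorem ptI₁_map (hC : IsCurveChart k B₀ B₁ B₀₁ x y e)
    {A A' : Type u} [CommRing A] [Algebra k A] [CommRing A'] [Algebra k A']
    (ψ : A →ₐ[k] A') (P : H746.ChartPt k B₀ B₁ A) :
    (ptI₁ B₀₁ P).map (tensorMapLeft k ψ B₁) = ptI₁ B₀₁ (P.map ψ) := by
  rcases P with φ | φ
  · exact contr_graphIdeal_map₁ hC ψ φ
  · exact graphIdeal_map' ψ φ

theorem ptI₀₁_map (hC : IsCurveChart k B₀ B₁ B₀₁ x y e)
    {A A' : Type u} [CommRing A] [Algebra k A] [CommRing A'] [Algebra k A']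
    (ψ : A →ₐ[k] A') (P : H746.ChartPt k B₀ B₁ A) :
    (ptI₀₁ B₀₁ P).map (tensorMapLeft k ψ B₀₁) = ptI₀₁ B₀₁ (P.map ψ) := by
  rcases P with φ | φ
  · show ((graphIdeal φ).map (algebraMap (A ⊗[k] B₀) (A ⊗[k] B₀₁))).map
        (tensorMapLeft k ψ B₀₁) =
      (graphIdeal (ψ.comp φ)).map (algebraMap (A' ⊗[k] B₀) (A' ⊗[k] B₀₁))
    rw [Ideal.map_map, tensorMapLeft_comp_algebraMap_right ψ B₀ B₀₁, ← Ideal.map_map,
      graphIdeal_map' ψ φ]
  · show ((graphIdeal φ).map (algebraMap (A ⊗[k] B₁) (A ⊗[k] B₀₁))).map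
        (tensorMapLeft k ψ B₀₁) =
      (graphIdeal (ψ.comp φ)).map (algebraMap (A' ⊗[k] B₁) (A' ⊗[k] B₀₁))
    rw [Ideal.map_map, tensorMapLeft_comp_algebraMap_right ψ B₁ B₀₁, ← Ideal.map_map,
      graphIdeal_map' ψ φ]

end Frozen

end Fermat.Agent.S25.H147

end
-- ===== PACK-END S25/H147/GraphIdealPt.lean

-- ===== PACK-BEGIN S26/Pic/Glue.lean
section


/-!
# Row S26, block PIC: gluing of functions and units (helper347)

Sheaf property of `𝒪_X` and `𝒪_Xˣ` in the language of `resR` / `res`.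
-/

set_option autoImplicit false

open AlgebraicGeometry CategoryTheory TopologicalSpace Opposite

universe u

namespace Fermat.Agent.S26.Pic

noncomputable section

variable {X : Scheme.{u}}

/-- Functions which agree locally are equal. -/
lemma eq_of_resR_eq {ι : Type*} {B : X.Opens} (O : ι → X.Opens) (hO : ∀ i, O i ≤ B)
    (hcov : ∀ z ∈ B, ∃ i, z ∈ O i) (a b : Γ(X, B))
    (h : ∀ i, resR (hO i) a = resR (hO i) b) : a = b :=
  X.sheaf.eq_of_locally_eq' O B (fun i => homOfLE (hO i))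
    (fun z hz => by
      obtain ⟨i, hi⟩ := hcov z hz
      exact Opens.mem_iSup.mpr ⟨i, hi⟩) a b h

/-- Units which agree locally are equal. -/
lemma eq_of_res_eq {ι : Type*} {B : X.Opens} (O : ι → X.Opens) (hO : ∀ i, O i ≤ B)
    (hcov : ∀ z ∈ B, ∃ i, z ∈ O i) (a b : Γ(X, B)ˣ)
    (h : ∀ i, res (hO i) a = res (hO i) b) : a = b :=
  Units.ext (eq_of_resR_eq O hO hcov _ _ fun i => congrArg Units.val (h i))

/-- Gluing of functions. -/
lemma exists_glue {ι : Type*} {B : X.Opens} (O : ι → X.Opens) (hO : ∀ i, O i ≤ B)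
    (hcov : ∀ z ∈ B, ∃ i, z ∈ O i) (s : ∀ i, Γ(X, O i))
    (hs : ∀ i k, resR (inf_le_left : O i ⊓ O k ≤ O i) (s i) =
      resR (inf_le_right : O i ⊓ O k ≤ O k) (s k)) :
    ∃ a : Γ(X, B), ∀ i, resR (hO i) a = s i := by
  obtain ⟨a, ha, -⟩ := X.sheaf.existsUnique_gluing' O B (fun i => homOfLE (hO i))
    (fun z hz => by
      obtain ⟨i, hi⟩ := hcov z hz
      exact Opens.mem_iSup.mpr ⟨i, hi⟩) s (fun i k => hs i k)
  exact ⟨a, ha⟩

/-- Gluing of units. -/
lemma exists_glue_units {ι : Type*} {B : X.Opens} (O : ι → X.Opens) (hO : ∀ i, O i ≤ B)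
    (hcov : ∀ z ∈ B, ∃ i, z ∈ O i) (s : ∀ i, Γ(X, O i)ˣ)
    (hs : ∀ i k, res (inf_le_left : O i ⊓ O k ≤ O i) (s i) =
      res (inf_le_right : O i ⊓ O k ≤ O k) (s k)) :
    ∃ a : Γ(X, B)ˣ, ∀ i, res (hO i) a = s i := by
  obtain ⟨a, ha⟩ := exists_glue O hO hcov (fun i => (s i : Γ(X, O i)))
    (fun i k => congrArg Units.val (hs i k))
  obtain ⟨b, hb⟩ := exists_glue O hO hcov (fun i => ((s i)⁻¹ : Γ(X, O i)ˣ))
    (fun i k => by
      have := congrArg (fun u : Γ(X, O i ⊓ O k)ˣ => ((u⁻¹ : Γ(X, O i ⊓ O k)ˣ) : Γ(X, O i ⊓ O k)))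
        (hs i k)
      simp only [← map_inv] at this
      exact this)
  have hab : a * b = 1 := eq_of_resR_eq O hO hcov _ _ fun i => by
    rw [map_mul, ha, hb, map_one, Units.mul_inv]
  have hba : b * a = 1 := by rw [mul_comm, hab]
  exact ⟨⟨a, b, hab, hba⟩, fun i => Units.ext (ha i)⟩

end

end Fermat.Agent.S26.Pic

end
-- ===== PACK-END S26/Pic/Glue.lean

-- ===== PACK-BEGIN S26/H605/GenTrivCore.lean
section








/-!
# Row S26, block PIC, leaf P5 (helper605): the core of generic triviality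

Cartesian square `Y' = S' ×_X Y` with `X` integral, `ξ : S' ⟶ X` landing in the generic point,
`S'` affine, `p : Y ⟶ X` quasi-compact, quasi-separated and closed, `Γ(Y', 𝒪)` a field.
If the pull-back to `Y'` of the line bundle of a cocycle `c` on `Y` has a nowhere vanishing
section, then so has its restriction to `p⁻¹ U` for an open neighbourhood `U` of the generic
point (`exists_open_twisted`).
-/

set_option autoImplicit false

open AlgebraicGeometry CategoryTheory CategoryTheory.Limits TopologicalSpace Opposite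

universe u

namespace Fermat.Agent.S26.H605

noncomputable section

/-! ## Quotient of two twisted families -/

section ratio

variable {Z : Scheme.{u}} {T : Type u} (W : T → Z.Opens) (hcov : ∀ z : Z, ∃ t, z ∈ W t)
  (e m : ∀ t, Γ(Z, W t)) (he : ∀ t, IsUnit (e t))
  (hem : ∀ t t', rr (inf_le_left : W t ⊓ W t' ≤ W t) (m t) *
      rr (inf_le_right : W t ⊓ W t' ≤ W t') (e t') =
    rr (inf_le_right : W t ⊓ W t' ≤ W t') (m t') * rr (inf_le_left : W t ⊓ W t' ≤ W t) (e t))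

include hcov he hem in
/-- Two families with the same twisting, the first consisting of units, differ by a global
function. -/
theorem exists_ratio : ∃ l : Γ(Z, ⊤), ∀ t, m t = rr (le_top : W t ≤ ⊤) l * e t := by
  let lam : ∀ t, Γ(Z, W t) := fun t => m t * ((he t).unit⁻¹ : Γ(Z, W t)ˣ)
  have hlam : ∀ t, lam t * e t = m t := by
    intro t
    simp only [lam, mul_assoc]
    rw [IsUnit.val_inv_mul, mul_one]
  have hcompat : ∀ t t', rr (inf_le_left : W t ⊓ W t' ≤ W t) (lam t) =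
      rr (inf_le_right : W t ⊓ W t' ≤ W t') (lam t') := by
    intro t t'
    have hu : IsUnit (rr (inf_le_left : W t ⊓ W t' ≤ W t) (e t) *
        rr (inf_le_right : W t ⊓ W t' ≤ W t') (e t')) :=
      ((he t).map _).mul ((he t').map _)
    apply hu.mul_right_cancel
    have h1 := congrArg (rr (inf_le_left : W t ⊓ W t' ≤ W t)) (hlam t)
    have h2 := congrArg (rr (inf_le_right : W t ⊓ W t' ≤ W t')) (hlam t')
    rw [map_mul] at h1 h2
    calc rr _ (lam t) * (rr _ (e t) * rr _ (e t'))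
        = (rr _ (lam t) * rr _ (e t)) * rr _ (e t') := by ring
      _ = rr _ (m t) * rr _ (e t') := by rw [h1]
      _ = rr _ (m t') * rr _ (e t) := hem t t'
      _ = (rr _ (lam t') * rr _ (e t')) * rr _ (e t) := by rw [h2]
      _ = rr _ (lam t') * (rr _ (e t) * rr _ (e t')) := by ring
  obtain ⟨l, hl⟩ := exists_glue W (fun t => le_top) (fun z _ => by
    obtain ⟨t, ht⟩ := hcov z
    exact Opens.mem_iSup.mpr ⟨t, ht⟩) lam hcompat
  exact ⟨l, fun t => by rw [hl t, hlam t]⟩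

end ratio

/-! ## A section which is nowhere zero on the geometric generic fibre -/

section unitSection

variable {X Y S' Y' : Scheme.{u}} {p : Y ⟶ X} {ξ : S' ⟶ X} {π : Y' ⟶ Y} {q' : Y' ⟶ S'}

/-- The transition function of the cocycle on the overlap of two members of a subordinate
family of opens. -/
def gV (c : Pic.Cocycle Y) {T : Type u} (V : T → Y.Opens) (yp : T → Y)
    (hVU : ∀ t, V t ≤ c.U (yp t)) (t t' : T) : Γ(Y, V t ⊓ V t') :=
  rr (le_inf (inf_le_left.trans (hVU t)) (inf_le_right.trans (hVU t')))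
    (c.g (yp t) (yp t') : Γ(Y, c.U (yp t) ⊓ c.U (yp t')))

lemma isUnit_gV (c : Pic.Cocycle Y) {T : Type u} (V : T → Y.Opens) (yp : T → Y)
    (hVU : ∀ t, V t ≤ c.U (yp t)) (t t' : T) : IsUnit (gV c V yp hVU t t') :=
  (Units.isUnit _).map _

lemma pl_gV {Z : Scheme.{u}} (j : Z ⟶ Y) (c : Pic.Cocycle Y) {T : Type u} (V : T → Y.Opens)
    (yp : T → Y) (hVU : ∀ t, V t ≤ c.U (yp t)) (t t' : T) {O : Z.Opens}
    (hO : O ≤ j ⁻¹ᵁ (V t ⊓ V t')) :
    pl j hO (gV c V yp hVU t t') =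
      tg j c (yp t) (yp t') (hO.trans (j.preimage_mono (inf_le_left.trans (hVU t))))
        (hO.trans (j.preimage_mono (inf_le_right.trans (hVU t')))) := by
  simp only [gV, tg, pl_rr]

variable (H : IsPullback π q' p ξ) [Flat ξ] [QuasiSeparated p]
  {X₀ : X.Opens} (hX₀ : IsAffineOpen X₀) (hS' : IsAffineOpen (⊤ : S'.Opens))
  (hξ₀ : (⊤ : S'.Opens) ≤ ξ ⁻¹ᵁ X₀) (hfield : IsField Γ(Y', ⊤))
  (c : Pic.Cocycle Y) (σ' : ∀ y, Γ(Y', π ⁻¹ᵁ c.U y)) (hσ' : IsTw π c σ')
  (hu : ∀ y, IsUnit (σ' y))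
  {T : Type u} [Finite T] (V : T → Y.Opens) (yp : T → Y) (hVaff : ∀ t, IsAffineOpen (V t))
  (hVU : ∀ t, V t ≤ c.U (yp t)) (hVΩ : ∀ t, V t ≤ p ⁻¹ᵁ X₀)
  (hcov' : ∀ y' : Y', ∃ t, π y' ∈ V t)

include H hX₀ hS' hξ₀ hfield hσ' hu hVaff hVΩ hcov' in
/-- There is a section of the line bundle over `p⁻¹ X₀` (given on the finite affine cover)
whose pull-back to `Y'` vanishes nowhere. -/
theorem exists_unit_section :
    ∃ s : ∀ t, Γ(Y, V t),
      (∀ t t', rr (inf_le_left : V t ⊓ V t' ≤ V t) (s t) =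
        gV c V yp hVU t t' * rr (inf_le_right : V t ⊓ V t' ≤ V t') (s t')) ∧
      ∀ t, IsUnit (pl π (le_refl (π ⁻¹ᵁ V t)) (s t)) := by
  classical
  let e' : ∀ t, Γ(Y', π ⁻¹ᵁ V t) := fun t => rr (π.preimage_mono (hVU t)) (σ' (yp t))
  have he'u : ∀ t, IsUnit (e' t) := fun t => (hu _).map _
  have he' : ∀ t t', rr (π.preimage_mono (inf_le_left : V t ⊓ V t' ≤ V t)) (e' t) =
      pl π (le_refl (π ⁻¹ᵁ (V t ⊓ V t'))) (gV c V yp hVU t t') *
        rr (π.preimage_mono (inf_le_right : V t ⊓ V t' ≤ V t')) (e' t') := by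
    intro t t'
    have := hσ'.on (yp t) (yp t') (W := π ⁻¹ᵁ (V t ⊓ V t'))
      (π.preimage_mono (inf_le_left.trans (hVU t)))
      (π.preimage_mono (inf_le_right.trans (hVU t')))
    simp only [e', rr_rr, pl_gV]
    exact this.symm
  have hVc : ∀ t t', IsCompact ((V t ⊓ V t' : Y.Opens) : Set Y) := fun t t' =>
    (p.isQuasiSeparated_preimage hX₀.isQuasiSeparated) (V t) (V t') (hVΩ t) (V t).isOpen
      (hVaff t).isCompact (hVΩ t') (V t').isOpen (hVaff t').isCompact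
  obtain ⟨S, hS₁, hS₂⟩ := twisted_baseChange H hX₀ hS' hξ₀ V hVΩ hVaff hVc
    (gV c V yp hVU) e' he'
  -- the ratios
  have hratio : ∀ i ∈ S, ∃ l : Γ(Y', ⊤), ∀ t,
      pl π (le_refl (π ⁻¹ᵁ V t)) (i.2 t) = rr (le_top : π ⁻¹ᵁ V t ≤ ⊤) l * e' t := by
    intro i hi
    refine exists_ratio (fun t => π ⁻¹ᵁ V t) hcov' e' (fun t => pl π le_rfl (i.2 t)) he'u ?_
    intro t t'
    have hO : π ⁻¹ᵁ V t ⊓ π ⁻¹ᵁ V t' ≤ π ⁻¹ᵁ (V t ⊓ V t') := Pic.inf_preimage_le π _ _
    have h1 := congrArg (fun a => rr hO (pl π (le_refl (π ⁻¹ᵁ (V t ⊓ V t'))) a))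
      (hS₁ i hi t t')
    have h2 := congrArg (rr hO) (he' t t')
    simp only [map_mul, pl_rr, rr_pl] at h1
    simp only [map_mul, rr_rr, rr_pl] at h2
    simp only [rr_pl]
    rw [h1, h2]
    ring
  choose! l hl using hratio
  have hsum : ∑ i ∈ S, pl q' (le_preimage_top q' (⊤ : Y'.Opens)) i.1 * l i = 1 := by
    refine ext_of_cover (fun t => π ⁻¹ᵁ V t) (fun t => le_top) (fun y' _ => by
      obtain ⟨t, ht⟩ := hcov' y'
      exact Opens.mem_iSup.mpr ⟨t, ht⟩) _ _ fun t => ?_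
    apply (he'u t).mul_right_cancel
    rw [map_one, one_mul, map_sum, Finset.sum_mul]
    conv_rhs => rw [hS₂ t]
    refine Finset.sum_congr rfl fun i hi => ?_
    rw [map_mul, mul_assoc, ← hl i hi t, rr_pl]
  have hex : ∃ i ∈ S, l i ≠ 0 := by
    by_contra hne
    push Not at hne
    have h0 : (∑ i ∈ S, pl q' (le_preimage_top q' (⊤ : Y'.Opens)) i.1 * l i) = 0 :=
      Finset.sum_eq_zero fun i hi => by rw [hne i hi, mul_zero]
    rw [hsum] at h0
    haveI := hfield.nontrivial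
    exact one_ne_zero h0
  obtain ⟨i, hi, hli⟩ := hex
  have hlu : IsUnit (l i) := by
    obtain ⟨b, hb⟩ := hfield.mul_inv_cancel hli
    exact IsUnit.of_mul_eq_one _ hb
  refine ⟨i.2, hS₁ i hi, fun t => ?_⟩
  rw [hl i hi t]
  exact (hlu.map _).mul (he'u t)

end unitSection

/-! ## Spreading out: the zero locus and properness -/

section spread

variable {X Y S' Y' : Scheme.{u}} {p : Y ⟶ X} {ξ : S' ⟶ X} {π : Y' ⟶ Y} {q' : Y' ⟶ S'}

/-- Points of a fibre product. -/
lemma exists_preimage_of_isPullback (H : IsPullback π q' p ξ) (z : Y) (s₀ : S')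
    (h : p z = ξ s₀) : ∃ y' : Y', π y' = z ∧ q' y' = s₀ := by
  obtain ⟨w, hw1, hw2⟩ := Scheme.Pullback.exists_preimage_pullback (f := p) (g := ξ) z s₀ h
  refine ⟨H.isoPullback.inv w, ?_, ?_⟩
  · rw [← Scheme.Hom.comp_apply, H.isoPullback_inv_fst, hw1]
  · rw [← Scheme.Hom.comp_apply, H.isoPullback_inv_snd, hw2]

variable [UniversallyClosed p] {X₀ : X.Opens} (η : X) (hη : η ∈ X₀)
  (hlift : ∀ z : Y, p z = η → ∃ y' : Y', π y' = z)
  (c : Pic.Cocycle Y) {T : Type u} (V : T → Y.Opens) (yp : T → Y)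
  (hVU : ∀ t, V t ≤ c.U (yp t))
  (hcovΩ : ∀ y ∈ p ⁻¹ᵁ X₀, ∃ t, y ∈ V t)
  (s : ∀ t, Γ(Y, V t))
  (hs : ∀ t t', rr (inf_le_left : V t ⊓ V t' ≤ V t) (s t) =
    gV c V yp hVU t t' * rr (inf_le_right : V t ⊓ V t' ≤ V t') (s t'))
  (hsu : ∀ t, IsUnit (pl π (le_refl (π ⁻¹ᵁ V t)) (s t)))

include hη hlift hcovΩ hs hsu in
/-- A section which is nowhere zero on the fibre over `η` is nowhere zero over an open
neighbourhood of `η` (the projection is closed). -/
theorem exists_open_of_unit_section :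
    ∃ U : X.Opens, η ∈ U ∧ U ≤ X₀ ∧ ∀ t, V t ⊓ p ⁻¹ᵁ U ≤ Y.basicOpen (s t) := by
  let D : Y.Opens := ⨆ t, Y.basicOpen (s t)
  have hC : IsClosed (p '' (D : Set Y)ᶜ) := p.isClosedMap _ D.isOpen.isClosed_compl
  let U' : X.Opens := ⟨(p '' (D : Set Y)ᶜ)ᶜ, hC.isOpen_compl⟩
  refine ⟨X₀ ⊓ U', ⟨hη, ?_⟩, inf_le_left, ?_⟩
  · rintro ⟨z, hzD, hz⟩
    obtain ⟨y', rfl⟩ := hlift z hz
    have hzΩ : π y' ∈ p ⁻¹ᵁ X₀ := by
      show p (π y') ∈ X₀
      rw [hz]; exact hη
    obtain ⟨t, ht⟩ := hcovΩ _ hzΩ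
    have hb := (isUnit_iff_basicOpen _).mp (hsu t)
    rw [basicOpen_pl] at hb
    have hy' : y' ∈ π ⁻¹ᵁ V t ⊓ π ⁻¹ᵁ Y.basicOpen (s t) := hb.ge ht
    exact hzD (Opens.mem_iSup.mpr ⟨t, hy'.2⟩)
  · rintro t y ⟨hyt, hyU⟩
    have hyD : y ∈ D := by
      by_contra hyD
      exact hyU.2 ⟨y, hyD, rfl⟩
    obtain ⟨t', ht'⟩ := Opens.mem_iSup.mp hyD
    have hyt' : y ∈ V t' := Y.basicOpen_le _ ht'
    have h1 : y ∈ Y.basicOpen (gV c V yp hVU t t' *
        rr (inf_le_right : V t ⊓ V t' ≤ V t') (s t')) := by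
      rw [Scheme.basicOpen_mul, (isUnit_iff_basicOpen _).mp (isUnit_gV c V yp hVU t t'),
        basicOpen_rr]
      exact ⟨⟨hyt, hyt'⟩, ⟨hyt, hyt'⟩, ht'⟩
    rw [← hs t t', basicOpen_rr] at h1
    exact h1.2

end spread

/-! ## The core theorem -/

section core

variable {X Y S' Y' : Scheme.{u}} {p : Y ⟶ X} {ξ : S' ⟶ X} {π : Y' ⟶ Y} {q' : Y' ⟶ S'}

/-- **Generic triviality, core form.**  If the pull-back of the line bundle of `c` to the
"geometric generic fibre" `Y'` has a nowhere vanishing section, then there is an open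
neighbourhood `U` of `η` such that the pull-back of the line bundle along every morphism
`j : Z ⟶ Y` landing in `p⁻¹ U` has a nowhere vanishing section. -/
theorem exists_open_twisted (H : IsPullback π q' p ξ) [Flat ξ] [QuasiCompact p]
    [QuasiSeparated p] [UniversallyClosed p] [Nonempty S']
    (hS' : IsAffineOpen (⊤ : S'.Opens)) (η : X) (hξ : ∀ s, ξ s = η)
    (hfield : IsField Γ(Y', ⊤)) (c : Pic.Cocycle Y)
    (σ' : ∀ y, Γ(Y', π ⁻¹ᵁ c.U y)) (hσ' : IsTw π c σ') (hu : ∀ y, IsUnit (σ' y)) :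
    ∃ U : X.Opens, η ∈ U ∧ ∀ (Z : Scheme.{u}) (j : Z ⟶ Y), (∀ z, p (j z) ∈ U) →
      ∃ σ : ∀ y, Γ(Z, j ⁻¹ᵁ c.U y), IsTw j c σ ∧ ∀ y, IsUnit (σ y) := by
  -- an affine neighbourhood of `η`
  obtain ⟨X₀, hX₀, hη, -⟩ := (Opens.isBasis_iff_nbhd.mp X.isBasis_affineOpens)
    (show η ∈ (⊤ : X.Opens) from trivial)
  have hξ₀ : (⊤ : S'.Opens) ≤ ξ ⁻¹ᵁ X₀ := fun s _ => by
    show ξ s ∈ X₀
    rw [hξ s]; exact hη
  have hpπ : ∀ y' : Y', p (π y') = η := fun y' => by
    rw [← Scheme.Hom.comp_apply, H.w, Scheme.Hom.comp_apply, hξ]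
  -- a finite affine cover of `p⁻¹ X₀`
  obtain ⟨T, hT, V, yp, hVaff, hVU, hVΩ, hcovΩ⟩ := exists_finite_affine_cover (p ⁻¹ᵁ X₀)
    (p.isCompact_preimage hX₀.isCompact) c.U c.mem
  have hcov' : ∀ y' : Y', ∃ t, π y' ∈ V t := fun y' =>
    hcovΩ _ (show p (π y') ∈ X₀ by rw [hpπ]; exact hη)
  obtain ⟨s, hs, hsu⟩ := exists_unit_section H hX₀ hS' hξ₀ hfield c σ' hσ' hu V yp hVaff hVU
    hVΩ hcov'
  have hlift : ∀ z : Y, p z = η → ∃ y' : Y', π y' = z := fun z hz => by
    obtain ⟨s₀⟩ := (inferInstance : Nonempty S')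
    obtain ⟨y', hy', -⟩ := exists_preimage_of_isPullback H z s₀ (hz.trans (hξ s₀).symm)
    exact ⟨y', hy'⟩
  obtain ⟨U, hηU, hUX₀, hU⟩ := exists_open_of_unit_section η hη hlift c V yp hVU hcovΩ s hs hsu
  refine ⟨U, hηU, fun Z j hj => ?_⟩
  have hjV : ∀ t, j ⁻¹ᵁ V t ≤ j ⁻¹ᵁ c.U (yp t) := fun t => j.preimage_mono (hVU t)
  obtain ⟨σ, hσ, -, hσu⟩ := exists_twisted (f := j) (c := c) (fun t => j ⁻¹ᵁ V t) yp hjV
    (fun z => hcovΩ _ (show p (j z) ∈ X₀ from hUX₀ (hj z)))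
    (fun t => pl j (le_refl (j ⁻¹ᵁ V t)) (s t)) (fun t t' => by
      have hO : j ⁻¹ᵁ V t ⊓ j ⁻¹ᵁ V t' ≤ j ⁻¹ᵁ (V t ⊓ V t') := Pic.inf_preimage_le j _ _
      have h1 := congrArg (pl j hO) (hs t t')
      simp only [map_mul, pl_rr, pl_gV] at h1
      simp only [rr_pl]
      exact h1.symm)
  refine ⟨σ, hσ, hσu fun t => ?_⟩
  rw [isUnit_iff_basicOpen, basicOpen_pl]
  refine inf_of_le_left fun z hz => ?_
  exact hU t ⟨hz, hj z⟩

end core

end

end Fermat.Agent.S26.H605

end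
-- ===== PACK-END S26/H605/GenTrivCore.lean

-- ===== PACK-BEGIN S26/H730/C4a.lean
section


/-!
# Row S26, block CUBE, leaf C4a (helper730): a curve through `0` leaving a closed set

`c4a : C4.Stmt.C4a K` — exact shape of `Fermat/Agent/S26/C4/Spec.lean` (assembler helper478).

## Algebraic core
`exists_prime_curve` : for a finitely generated domain `R` over an algebraically closed field
`K`, a maximal ideal `m` and a nonzero ideal `I ≤ m`, there is a prime `q ≤ m` with `¬ I ≤ q`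
such that `R ⧸ q` is a finite injective extension of `K[X]` (so `R ⧸ q` is a one-dimensional
domain, `ringKrullDim_eq_one_of_finite_inj`).
Proof: Noether normalisation `P = K[x_1..x_s] ⊆ R` (finite), a line `ℓ` in affine `s`-space
through the image `c` of `m` on which a nonzero `h ∈ I ∩ P` does not vanish identically, and
going-down (`P` is integrally closed) for the prime of `ℓ` below `m ∩ P`.

## Scheme form
`exists_integral_curve_through` : `A` an integral scheme, locally of finite type over `K`,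
`a : A` a closed point, `B ∋ a` a proper closed subset.  Then there is an integral closed
subscheme `ι : Γ ⟶ A` (reduced induced structure on the closure of the point `q`) with
`a ∈ range ι`, `¬ range ι ⊆ B`, and on the affine open `V = ι⁻¹ U` (`U ∋ a` affine open of `A`)
the ring `Γ(Γ, V)` is a finite injective extension of `K[X]` compatibly with `K`.

## Transcendence degree
`isCurveOver_of_cert` : such a certificate gives `trdeg_K K(Γ) = 1` (`C4.IsCurveOver`).
-/

set_option autoImplicit false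
set_option linter.style.haveILetI false

universe u

open AlgebraicGeometry CategoryTheory TopologicalSpace Polynomial
open NeronModelInfra GoodReductionJacobian

namespace Fermat.Agent.S26.H730

open Polynomial

section Line

variable {K : Type*} [Field K] {s : ℕ}

/-- The parametrised line `t ↦ c + t a` in affine `s`-space, as a `K`-algebra map. -/
noncomputable def lineHom (c a : Fin s → K) : MvPolynomial (Fin s) K →ₐ[K] K[X] :=
  MvPolynomial.aeval fun i => Polynomial.C (c i) + Polynomial.C (a i) * Polynomial.X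

theorem aeval_comp_lineHom (c a : Fin s → K) (t : K) :
    (Polynomial.aeval t).comp (lineHom c a) = MvPolynomial.aeval (fun i => c i + a i * t) := by
  apply MvPolynomial.algHom_ext
  intro i
  simp [lineHom]

theorem aeval_lineHom (c a : Fin s → K) (t : K) (p : MvPolynomial (Fin s) K) :
    Polynomial.aeval t (lineHom c a p) = MvPolynomial.aeval (fun i => c i + a i * t) p :=
  DFunLike.congr_fun (aeval_comp_lineHom c a t) p

theorem lineHom_surjective (c a : Fin s → K) {i : Fin s} (hi : a i ≠ 0) :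
    Function.Surjective (lineHom c a) := by
  rw [← AlgHom.range_eq_top, eq_top_iff, ← Polynomial.adjoin_X]
  have hX : (Polynomial.X : K[X]) ∈ (lineHom c a).range := by
    rw [AlgHom.mem_range]
    refine ⟨MvPolynomial.C (a i)⁻¹ * (MvPolynomial.X i - MvPolynomial.C (c i)), ?_⟩
    have h1 : lineHom c a (MvPolynomial.X i) = Polynomial.C (c i) + Polynomial.C (a i) * X := by
      simp [lineHom]
    have h2 : ∀ r : K, lineHom c a (MvPolynomial.C r) = Polynomial.C r := fun r => by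
      simp [lineHom]
    rw [map_mul, map_sub, h1, h2, h2, add_sub_cancel_left, ← mul_assoc, ← Polynomial.C_mul,
      inv_mul_cancel₀ hi, Polynomial.C_1, one_mul]
  exact Algebra.adjoin_le (by simpa using hX)

end Line

section Dim

variable {K : Type*} [Field K]

/-- A ring which is a finite injective extension of `K[X]` is not a field. -/
theorem not_isField_of_finite_inj {D : Type*} [CommRing D]
    (f : K[X] →+* D) (hinj : Function.Injective f) (hfin : f.Finite) : ¬ IsField D := by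
  letI : Algebra K[X] D := f.toAlgebra
  haveI : Module.Finite K[X] D := hfin
  haveI : Algebra.IsIntegral K[X] D := Algebra.IsIntegral.of_finite K[X] D
  intro hD
  exact Polynomial.not_isField K (isField_of_isIntegral_of_isField (R := K[X]) (S := D) hinj hD)

/-- In a domain which is a finite extension of `K[X]`, every nonzero prime is maximal. -/
theorem isMaximal_of_finite_inj {D : Type*} [CommRing D] [IsDomain D]
    (f : K[X] →+* D) (hfin : f.Finite)
    (Q : Ideal D) [Q.IsPrime] (hQ : Q ≠ ⊥) : Q.IsMaximal := by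
  letI : Algebra K[X] D := f.toAlgebra
  haveI : Module.Finite K[X] D := hfin
  haveI : Algebra.IsIntegral K[X] D := Algebra.IsIntegral.of_finite K[X] D
  have h1 : Q.comap (algebraMap K[X] D) ≠ ⊥ := Ideal.IsIntegral.comap_ne_bot K[X] hQ
  haveI : (Q.comap (algebraMap K[X] D)).IsPrime := Ideal.comap_isPrime _ _
  have h2 : (Q.comap (algebraMap K[X] D)).IsMaximal := Ideal.IsPrime.isMaximal inferInstance h1
  exact Ideal.isMaximal_of_isIntegral_of_isMaximal_comap Q h2

/-- A domain which is a finite extension of `K[X]` has Krull dimension at most one. -/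
theorem krullDimLE_one_of_finite {D : Type*} [CommRing D] [IsDomain D]
    (f : K[X] →+* D) (hfin : f.Finite) : Ring.KrullDimLE 1 D :=
  Ring.KrullDimLE.mk₁' fun Q hQ hQp => by
    haveI := hQp
    exact isMaximal_of_finite_inj f hfin Q hQ

/-- A domain which is a finite injective extension of `K[X]` has Krull dimension one. -/
theorem ringKrullDim_eq_one_of_finite_inj {D : Type*} [CommRing D] [IsDomain D]
    (f : K[X] →+* D) (hinj : Function.Injective f) (hfin : f.Finite) :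
    ringKrullDim D = 1 := by
  have hle : Ring.KrullDimLE 1 D := krullDimLE_one_of_finite f hfin
  apply eq_of_le_of_not_lt ?_ fun h' => not_isField_of_finite_inj f hinj hfin ?_
  · rw [← Nat.cast_one, ← Ring.krullDimLE_iff]
    exact hle
  · have h'' : ringKrullDim D ≤ 0 := Order.le_of_lt_succ h'
    rw [← Nat.cast_zero, ← Ring.krullDimLE_iff] at h''
    exact Ring.KrullDimLE.isField_of_isDomain

end Dim

section Core

variable {K : Type*} [Field K] [IsAlgClosed K]

/-- **C4a, algebraic core.** Through every closed point `m` of an affine variety `Spec R` and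
outside every proper closed subset `V(I) ∋ m` there is an irreducible curve `V(q)`:
`q ≤ m` is prime, `¬ I ≤ q`, and `R ⧸ q` is finite over a polynomial ring `K[X] ⊆ R ⧸ q`. -/
theorem exists_prime_curve (R : Type*) [CommRing R] [IsDomain R] [Algebra K R]
    [Algebra.FiniteType K R] (m : Ideal R) [m.IsMaximal] (I : Ideal R) (hI : I ≠ ⊥)
    (hIm : I ≤ m) :
    ∃ q : Ideal R, q.IsPrime ∧ q ≤ m ∧ ¬ I ≤ q ∧
      ∃ f : K[X] →ₐ[K] R ⧸ q, Function.Injective f ∧ f.Finite := by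
  classical
  obtain ⟨s, g, hg_inj, hg_fin⟩ := exists_finite_inj_algHom_of_fg K R
  set P := MvPolynomial (Fin s) K with hP
  letI algPR : Algebra P R := g.toRingHom.toAlgebra
  haveI : IsScalarTower K P R := IsScalarTower.of_algebraMap_eq fun r => by
    change algebraMap K R r = g (algebraMap K P r)
    exact (g.commutes r).symm
  have hgalg : (algebraMap P R : P → R) = g := rfl
  haveI : Module.Finite P R := hg_fin
  haveI : Algebra.IsIntegral P R := Algebra.IsIntegral.of_finite P R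
  haveI : FaithfulSMul P R := (faithfulSMul_iff_algebraMap_injective P R).mpr hg_inj
  -- the point `c` below `m`
  haveI hm' : (m.under P).IsMaximal := Ideal.isMaximal_comap_of_isIntegral_of_isMaximal m
  obtain ⟨c, hc⟩ := MvPolynomial.isMaximal_iff_eq_vanishingIdeal_singleton.mp hm'
  -- a nonzero polynomial `h` in `I ∩ P`
  have hI' : I.under P ≠ ⊥ := Ideal.IsIntegral.comap_ne_bot P hI
  obtain ⟨h, hhI, hh0⟩ := Submodule.exists_mem_ne_zero_of_ne_bot hI'
  have hhc : MvPolynomial.aeval c h = 0 := by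
    rw [← MvPolynomial.mem_vanishingIdeal_singleton_iff, ← hc]
    exact Ideal.comap_mono hIm hhI
  -- a point `b` with `h b ≠ 0`
  obtain ⟨b, hb⟩ : ∃ b : Fin s → K, MvPolynomial.eval b h ≠ 0 := by
    by_contra hcon
    push Not at hcon
    exact hh0 (MvPolynomial.funext fun x => by simpa using hcon x)
  have hbc : b ≠ c := by
    rintro rfl
    exact hb (by simpa [MvPolynomial.aeval_eq_eval] using hhc)
  obtain ⟨i, hi⟩ : ∃ i, b i - c i ≠ 0 := by
    by_contra hcon
    push Not at hcon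
    exact hbc (funext fun i => sub_eq_zero.mp (hcon i))
  -- the line through `c` and `b`
  set φ := lineHom c (fun i => b i - c i) with hφ
  have hφsurj : Function.Surjective φ := lineHom_surjective c _ hi
  set 𝔭 : Ideal P := RingHom.ker φ.toRingHom with h𝔭
  haveI h𝔭prime : 𝔭.IsPrime := RingHom.ker_isPrime φ.toRingHom
  have h𝔭le : 𝔭 ≤ m.under P := by
    intro p hp
    rw [hc, MvPolynomial.mem_vanishingIdeal_singleton_iff]
    have hp0 : φ p = 0 := hp
    have := aeval_lineHom c (fun i => b i - c i) 0 p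
    rw [← hφ, hp0, map_zero] at this
    simpa using this.symm
  have hh𝔭 : h ∉ 𝔭 := by
    intro hp
    have hp0 : φ h = 0 := hp
    have := aeval_lineHom c (fun i => b i - c i) 1 h
    rw [← hφ, hp0, map_zero] at this
    apply hb
    have e : (fun i => c i + (b i - c i) * 1) = b := by
      funext i; ring
    rw [e] at this
    simpa [MvPolynomial.aeval_eq_eval] using this.symm
  -- going down
  haveI : m.LiesOver (m.under P) := ⟨rfl⟩
  obtain ⟨q, hqm, hqprime, hqover⟩ :=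
    Ideal.exists_ideal_le_liesOver_of_le (p := 𝔭) (q := m.under P) m h𝔭le
  refine ⟨q, hqprime, hqm, ?_, ?_⟩
  · intro hIq
    apply hh𝔭
    rw [hqover.over]
    exact Ideal.comap_mono hIq hhI
  · -- `K[X] ≃ P ⧸ 𝔭 → R ⧸ q`
    let e : (P ⧸ 𝔭) ≃ₐ[K] K[X] := Ideal.quotientKerAlgEquivOfSurjective hφsurj
    letI : Algebra (P ⧸ 𝔭) (R ⧸ q) := Ideal.Quotient.algebraOfLiesOver q 𝔭
    haveI : Module.Finite (P ⧸ 𝔭) (R ⧸ q) := inferInstance
    haveI : IsScalarTower K (P ⧸ 𝔭) (R ⧸ q) := IsScalarTower.of_algebraMap_eq fun r => by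
      change algebraMap K (R ⧸ q) r = algebraMap (P ⧸ 𝔭) (R ⧸ q) (algebraMap K (P ⧸ 𝔭) r)
      rw [IsScalarTower.algebraMap_apply K P (P ⧸ 𝔭), IsScalarTower.algebraMap_apply K R (R ⧸ q),
        IsScalarTower.algebraMap_apply K P R]
      rfl
    let j : (P ⧸ 𝔭) →ₐ[K] (R ⧸ q) := IsScalarTower.toAlgHom K (P ⧸ 𝔭) (R ⧸ q)
    have hj_inj : Function.Injective j := by
      change Function.Injective (algebraMap (P ⧸ 𝔭) (R ⧸ q))
      exact FaithfulSMul.algebraMap_injective _ _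
    have hj_fin : j.Finite := by
      change (algebraMap (P ⧸ 𝔭) (R ⧸ q)).Finite
      exact RingHom.finite_algebraMap.mpr inferInstance
    refine ⟨j.comp e.symm.toAlgHom, hj_inj.comp e.symm.injective, ?_⟩
    exact RingHom.Finite.comp hj_fin
      (RingHom.Finite.of_surjective _ e.symm.surjective)

/-- **C4a, algebraic core, dimension form.** -/
theorem exists_prime_ringKrullDim_eq_one (R : Type*) [CommRing R] [IsDomain R] [Algebra K R]
    [Algebra.FiniteType K R] (m : Ideal R) [m.IsMaximal] (I : Ideal R) (hI : I ≠ ⊥)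
    (hIm : I ≤ m) :
    ∃ q : Ideal R, q.IsPrime ∧ q ≤ m ∧ ¬ I ≤ q ∧ ringKrullDim (R ⧸ q) = 1 := by
  obtain ⟨q, hq, hqm, hIq, f, hf, hf'⟩ := exists_prime_curve (K := K) R m I hI hIm
  haveI := hq
  exact ⟨q, hq, hqm, hIq, ringKrullDim_eq_one_of_finite_inj f.toRingHom hf hf'⟩

end Core

section Top

/-- A space which embeds onto an irreducible subset is irreducible. -/
theorem irreducibleSpace_of_isInducing {X Y : Type*} [TopologicalSpace X] [TopologicalSpace Y]
    (f : X → Y) (hf : Topology.IsInducing f) (h : IsIrreducible (Set.range f)) :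
    IrreducibleSpace X := by
  rw [irreducibleSpace_def]
  obtain ⟨⟨y, x, rfl⟩, hpre⟩ := h
  refine ⟨⟨x, trivial⟩, ?_⟩
  intro u v hu hv ⟨x₁, _, hx₁⟩ ⟨x₂, _, hx₂⟩
  obtain ⟨u', hu', rfl⟩ := hf.isOpen_iff.mp hu
  obtain ⟨v', hv', rfl⟩ := hf.isOpen_iff.mp hv
  obtain ⟨z, ⟨w, rfl⟩, hz⟩ := hpre u' v' hu' hv' ⟨f x₁, ⟨x₁, rfl⟩, hx₁⟩ ⟨f x₂, ⟨x₂, rfl⟩, hx₂⟩
  exact ⟨w, trivial, hz⟩

end Top

section Subscheme

variable {A : Scheme.{u}}

/-- The reduced induced closed subscheme structure is reduced. -/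
theorem isReduced_vanishingIdeal_subscheme (Z : Closeds A) :
    IsReduced (Scheme.IdealSheafData.vanishingIdeal Z).subscheme := by
  set I := Scheme.IdealSheafData.vanishingIdeal Z with hI
  have key : ∀ U : A.affineOpens, IsReduced (Spec (.of (Γ(A, U.1) ⧸ I.ideal U))) := by
    intro U
    haveI : _root_.IsReduced (Γ(A, U.1) ⧸ I.ideal U) := by
      rw [← Ideal.isRadical_iff_quotient_reduced, hI,
        Scheme.IdealSheafData.vanishingIdeal_ideal]
      exact PrimeSpectrum.isRadical_vanishingIdeal _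
    infer_instance
  haveI : ∀ i, IsReduced (I.subschemeCover.openCover.X i) := fun U => key U
  exact IsReduced.of_openCover (X := I.subscheme) I.subschemeCover.openCover

/-- The reduced induced closed subscheme on an irreducible closed subset is integral. -/
theorem isIntegral_vanishingIdeal_subscheme (Z : Closeds A) (hZ : IsIrreducible (Z : Set A)) :
    IsIntegral (Scheme.IdealSheafData.vanishingIdeal Z).subscheme := by
  set I := Scheme.IdealSheafData.vanishingIdeal Z with hI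
  haveI := isReduced_vanishingIdeal_subscheme Z
  haveI : IrreducibleSpace I.subscheme := by
    apply irreducibleSpace_of_isInducing I.subschemeι I.subschemeι.isEmbedding.isInducing
    rw [Scheme.IdealSheafData.range_subschemeι, hI,
      Scheme.IdealSheafData.coe_support_vanishingIdeal]
    exact hZ
  exact isIntegral_of_irreducibleSpace_of_isReduced _

end Subscheme

section Str

variable {K : Type u} [Field K] {A : Scheme.{u}} (str : A ⟶ Spec (CommRingCat.of K))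

/-- The structure map `K → Γ(A, U)` of a scheme over `Spec K`. -/
noncomputable def secStr (U : A.Opens) : K →+* Γ(A, U) :=
  ((Scheme.ΓSpecIso (CommRingCat.of K)).inv ≫
    str.appLE ⊤ U (show U ≤ str ⁻¹ᵁ ⊤ from fun _ _ => trivial)).hom

theorem secStr_comp {Γ' : Scheme.{u}} (ι : Γ' ⟶ A) (U : A.Opens) :
    secStr (ι ≫ str) (ι ⁻¹ᵁ U) = (ι.app U).hom.comp (secStr str U) := by
  have h : (ι ≫ str).appLE ⊤ (ι ⁻¹ᵁ U) (show ι ⁻¹ᵁ U ≤ (ι ≫ str) ⁻¹ᵁ ⊤ from fun _ _ => trivial) =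
      str.appLE ⊤ U (show U ≤ str ⁻¹ᵁ ⊤ from fun _ _ => trivial) ≫ ι.app U := by
    rw [← Scheme.Hom.appLE_comp_appLE (f := ι) (g := str) (U := ⊤) (V := U) (W := ι ⁻¹ᵁ U)
      (fun _ _ => trivial) le_rfl, Scheme.Hom.appLE_eq_app]
  unfold secStr
  rw [h]
  rfl

theorem secStr_finiteType [LocallyOfFiniteType str] {U : A.Opens} (hU : IsAffineOpen U) :
    (secStr str U).FiniteType := by
  have h1 : (str.appLE ⊤ U (show U ≤ str ⁻¹ᵁ ⊤ from fun _ _ => trivial)).hom.FiniteType :=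
    HasRingHomProperty.appLE @LocallyOfFiniteType str inferInstance
      ⟨⊤, isAffineOpen_top _⟩ ⟨U, hU⟩ _
  have h2 : ((Scheme.ΓSpecIso (CommRingCat.of K)).inv).hom.FiniteType :=
    RingHom.FiniteType.of_surjective _
      (Scheme.ΓSpecIso (CommRingCat.of K)).symm.commRingCatIsoToRingEquiv.surjective
  exact h1.comp h2

end Str

section Main

variable {K : Type u} [Field K] [IsAlgClosed K] {A : Scheme.{u}} [IsIntegral A]
  (str : A ⟶ Spec (CommRingCat.of K)) [LocallyOfFiniteType str]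

/-- **C4a.** Through a closed point `a` of an integral scheme `A` locally of finite type over
an algebraically closed field, and outside a proper closed subset `B ∋ a`, there is an integral
closed curve `Γ'`. -/
theorem exists_integral_curve_through (a : A) (ha : IsClosed ({a} : Set A)) (B : Set A)
    (hB : IsClosed B) (hBne : B ≠ Set.univ) (haB : a ∈ B) :
    ∃ (Γ' : Scheme.{u}) (ι : Γ' ⟶ A), IsClosedImmersion ι ∧ IsIntegral Γ' ∧
      a ∈ Set.range ι ∧ ¬ Set.range ι ⊆ B ∧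
      ∃ V : Γ'.Opens, IsAffineOpen V ∧ (∃ y ∈ V, ι y = a) ∧
        ∃ φ : K[X] →+* Γ(Γ', V), Function.Injective φ ∧ φ.Finite ∧
          ∀ c : K, φ (Polynomial.C c) = secStr (ι ≫ str) V c := by
  classical
  obtain ⟨U, hU, haU, -⟩ :=
    exists_isAffineOpen_mem_and_subset (X := A) (x := a) (U := ⊤) trivial
  haveI : Nonempty U := ⟨⟨a, haU⟩⟩
  set R := Γ(A, U) with hR
  letI algR : Algebra K R := (secStr str U).toAlgebra
  haveI : Algebra.FiniteType K R := secStr_finiteType str hU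
  -- the maximal ideal of `a`
  set pa : PrimeSpectrum R := hU.primeIdealOf ⟨a, haU⟩ with hpa
  have hpa' : hU.fromSpec pa = a := hU.fromSpec_primeIdealOf ⟨a, haU⟩
  have hemb := hU.fromSpec.isOpenEmbedding
  haveI hmax : pa.asIdeal.IsMaximal := by
    rw [← PrimeSpectrum.isClosed_singleton_iff_isMaximal]
    have : ({pa} : Set (PrimeSpectrum R)) = hU.fromSpec ⁻¹' {a} := by
      ext x
      simp only [Set.mem_singleton_iff]
      constructor
      · rintro rfl; exact hpa'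
      · intro hx; exact hemb.injective (hx.trans hpa'.symm)
    rw [this]
    exact ha.preimage hU.fromSpec.continuous
  -- the ideal of `B`
  set I : Ideal R := PrimeSpectrum.vanishingIdeal (hU.fromSpec ⁻¹' B) with hI
  have hBU : IsClosed (hU.fromSpec ⁻¹' B) := hB.preimage hU.fromSpec.continuous
  have hI0 : I ≠ ⊥ := by
    intro h0
    apply hBne
    have h1 : hU.fromSpec ⁻¹' B = Set.univ := by
      have e : PrimeSpectrum.zeroLocus ((⊥ : Ideal R) : Set R) =
          closure (hU.fromSpec ⁻¹' B) := by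
        rw [← h0, hI]
        exact PrimeSpectrum.zeroLocus_vanishingIdeal_eq_closure _
      have e0 : PrimeSpectrum.zeroLocus ((⊥ : Ideal R) : Set R) = Set.univ :=
        PrimeSpectrum.zeroLocus_bot
      have e'' : closure (hU.fromSpec ⁻¹' B) = hU.fromSpec ⁻¹' B := hBU.closure_eq
      exact e''.symm.trans (e.symm.trans e0)
    have h2 : (U : Set A) ⊆ B := by
      rw [← hU.range_fromSpec]
      rintro _ ⟨x, rfl⟩
      have : x ∈ hU.fromSpec ⁻¹' B := h1 ▸ Set.mem_univ x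
      exact this
    have h3 : Dense (U : Set A) := U.isOpen.dense ⟨a, haU⟩
    exact Set.eq_univ_of_univ_subset (h3.closure_eq ▸ hB.closure_subset_iff.mpr h2)
  have hIm : I ≤ pa.asIdeal := by
    intro r hr
    refine (PrimeSpectrum.mem_vanishingIdeal _ _).mp hr pa ?_
    show hU.fromSpec pa ∈ B
    rw [hpa']
    exact haB
  obtain ⟨q, hq, hqm, hIq, f, hf_inj, hf_fin⟩ :=
    exists_prime_curve (K := K) R pa.asIdeal I hI0 hIm
  -- the generic point of the curve
  set pq : PrimeSpectrum R := ⟨q, hq⟩ with hpq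
  set η : A := hU.fromSpec pq with hη
  set Z : Closeds A := ⟨closure {η}, isClosed_closure⟩ with hZ
  have hZirr : IsIrreducible (Z : Set A) :=
    isIrreducible_iff_closure.mpr isIrreducible_singleton
  set J := Scheme.IdealSheafData.vanishingIdeal Z with hJ
  haveI hint : IsIntegral J.subscheme := isIntegral_vanishingIdeal_subscheme Z hZirr
  have hrange : Set.range J.subschemeι = closure {η} := by
    rw [Scheme.IdealSheafData.range_subschemeι, hJ,
      Scheme.IdealSheafData.coe_support_vanishingIdeal]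
    rfl
  have haZ : a ∈ closure ({η} : Set A) := by
    rw [← specializes_iff_mem_closure, ← hpa']
    exact ((PrimeSpectrum.le_iff_specializes pq pa).mp hqm).map hU.fromSpec.continuous
  have hηB : η ∉ B := by
    intro h
    apply hIq
    intro r hr
    exact (PrimeSpectrum.mem_vanishingIdeal _ _).mp hr pq h
  refine ⟨J.subscheme, J.subschemeι, inferInstance, hint, ?_, ?_, ?_⟩
  · rw [hrange]; exact haZ
  · intro h; exact hηB (h (hrange ▸ subset_closure rfl))
  · -- the certificate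
    have hVaff : IsAffineOpen (J.subschemeι ⁻¹ᵁ U) := hU.preimage J.subschemeι
    obtain ⟨y, hy⟩ : a ∈ Set.range J.subschemeι := hrange ▸ haZ
    refine ⟨J.subschemeι ⁻¹ᵁ U, hVaff, ⟨y, ?_, hy⟩, ?_⟩
    · show J.subschemeι y ∈ U
      rw [hy]; exact haU
    · have hsurj : Function.Surjective (J.subschemeι.app U).hom :=
        J.subschemeι_app_surjective ⟨U, hU⟩
      have hpre : hU.fromSpec ⁻¹' {η} = {pq} := by
        ext x
        simp only [Set.mem_singleton_iff, Set.mem_preimage]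
        constructor
        · intro hx; exact hemb.injective hx
        · rintro rfl; rfl
      have hker : RingHom.ker (J.subschemeι.app U).hom = q := by
        rw [J.ker_subschemeι_app ⟨U, hU⟩, hJ, Scheme.IdealSheafData.vanishingIdeal_ideal]
        show PrimeSpectrum.vanishingIdeal (hU.fromSpec ⁻¹' closure {η}) = q
        have e1 : hU.fromSpec ⁻¹' closure {η} = closure (hU.fromSpec ⁻¹' {η}) :=
          hemb.isOpenMap.preimage_closure_eq_closure_preimage hU.fromSpec.continuous {η}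
        have e2 : PrimeSpectrum.vanishingIdeal (closure (hU.fromSpec ⁻¹' {η})) =
            PrimeSpectrum.vanishingIdeal (hU.fromSpec ⁻¹' {η}) :=
          PrimeSpectrum.vanishingIdeal_closure _
        have e3 : PrimeSpectrum.vanishingIdeal (hU.fromSpec ⁻¹' closure {η}) =
            PrimeSpectrum.vanishingIdeal (closure (hU.fromSpec ⁻¹' {η})) :=
          congrArg (PrimeSpectrum.vanishingIdeal (R := R)) e1
        have e4 : PrimeSpectrum.vanishingIdeal (hU.fromSpec ⁻¹' {η}) =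
            PrimeSpectrum.vanishingIdeal {pq} :=
          congrArg (PrimeSpectrum.vanishingIdeal (R := R)) hpre
        exact e3.trans (e2.trans (e4.trans (PrimeSpectrum.vanishingIdeal_singleton pq)))
      let ψ : R ⧸ q ≃+* Γ(J.subscheme, J.subschemeι ⁻¹ᵁ U) :=
        (Ideal.quotEquivOfEq hker.symm).trans (RingHom.quotientKerEquivOfSurjective hsurj)
      have hψ : ∀ r : R, ψ (Ideal.Quotient.mk q r) = (J.subschemeι.app U).hom r := fun r => rfl
      refine ⟨ψ.toRingHom.comp f.toRingHom, ψ.injective.comp hf_inj, ?_, ?_⟩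
      · exact RingHom.Finite.comp (RingHom.Finite.of_surjective _ ψ.surjective) hf_fin
      · intro c
        rw [secStr_comp]
        have h1 : f (Polynomial.C c) = Ideal.Quotient.mk q (secStr str U c) := by
          rw [← Polynomial.algebraMap_eq, f.commutes]
          rfl
        show ψ (f (Polynomial.C c)) = _
        rw [h1, hψ]
        rfl

include str in
/-- **C4a**, dimension form: the curve has an affine open neighbourhood of (the point over) `a`
whose coordinate ring has Krull dimension one. -/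
theorem exists_integral_curve_through_dim (a : A) (ha : IsClosed ({a} : Set A)) (B : Set A)
    (hB : IsClosed B) (hBne : B ≠ Set.univ) (haB : a ∈ B) :
    ∃ (Γ' : Scheme.{u}) (ι : Γ' ⟶ A), IsClosedImmersion ι ∧ IsIntegral Γ' ∧
      a ∈ Set.range ι ∧ ¬ Set.range ι ⊆ B ∧
      ∃ V : Γ'.Opens, IsAffineOpen V ∧ (∃ y ∈ V, ι y = a) ∧ ringKrullDim Γ(Γ', V) = 1 := by
  obtain ⟨Γ', ι, h1, h2, h3, h4, V, hV, ⟨y, hyV, hy⟩, φ, hφ, hφ', -⟩ :=
    exists_integral_curve_through str a ha B hB hBne haB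
  haveI := h2
  haveI : Nonempty V := ⟨⟨y, hyV⟩⟩
  exact ⟨Γ', ι, h1, h2, h3, h4, V, hV, ⟨y, hyV, hy⟩,
    ringKrullDim_eq_one_of_finite_inj φ hφ hφ'⟩

end Main

section Trdeg

variable {K : Type u} [Field K] {Γ' : Scheme.{u}} [IsIntegral Γ']
  (γ : Γ' ⟶ Spec (CommRingCat.of K))

/-- The structure map of the function field factors through the sections on `V`. -/
theorem ffStr_eq_germ_secStr (V : Γ'.Opens) [Nonempty V] (c : K) :
    ffStr γ c = (Γ'.germToFunctionField V).hom (secStr γ V c) := by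
  have h : γ.appLE ⊤ V (show V ≤ γ ⁻¹ᵁ ⊤ from fun _ _ => trivial) ≫ Γ'.germToFunctionField V =
      γ.appTop ≫ Γ'.presheaf.germ ⊤ (genericPoint Γ') (TopologicalSpace.Opens.mem_top _) := by
    rw [Scheme.Hom.appLE, Category.assoc]
    erw [Γ'.presheaf.germ_res]
    rfl
  unfold ffStr secStr
  rw [← CommRingCat.comp_apply, Category.assoc, h]

/-- A curve certificate gives transcendence degree one. -/
theorem isCurveOver_of_cert (V : Γ'.Opens) (hV : IsAffineOpen V) [Nonempty V]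
    (φ : K[X] →+* Γ(Γ', V)) (hφ : Function.Injective φ) (hφ' : φ.Finite)
    (hφK : ∀ c : K, φ (Polynomial.C c) = secStr γ V c) : C4.IsCurveOver γ := by
  unfold C4.IsCurveOver
  letI algF : Algebra K Γ'.functionField := (ffStr γ).toAlgebra
  letI algD : Algebra K Γ(Γ', V) := (secStr γ V).toAlgebra
  letI algP : Algebra K[X] Γ(Γ', V) := φ.toAlgebra
  haveI : IsFractionRing Γ(Γ', V) Γ'.functionField :=
    functionField_isFractionRing_of_isAffineOpen Γ' V hV
  haveI : IsScalarTower K Γ(Γ', V) Γ'.functionField :=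
    IsScalarTower.of_algebraMap_eq fun c => ffStr_eq_germ_secStr γ V c
  haveI : IsScalarTower K K[X] Γ(Γ', V) :=
    IsScalarTower.of_algebraMap_eq fun c => (hφK c).symm
  haveI : Module.Finite K[X] Γ(Γ', V) := hφ'
  haveI : Algebra.IsIntegral K[X] Γ(Γ', V) := Algebra.IsIntegral.of_finite _ _
  haveI : Algebra.IsAlgebraic K[X] Γ(Γ', V) := Algebra.IsIntegral.isAlgebraic
  haveI : FaithfulSMul K[X] Γ(Γ', V) := (faithfulSMul_iff_algebraMap_injective _ _).mpr hφ
  haveI : Algebra.IsAlgebraic Γ(Γ', V) Γ'.functionField :=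
    IsLocalization.isAlgebraic Γ'.functionField (nonZeroDivisors Γ(Γ', V))
  haveI : FaithfulSMul Γ(Γ', V) Γ'.functionField :=
    (faithfulSMul_iff_algebraMap_injective _ _).mpr (IsFractionRing.injective _ _)
  haveI : FaithfulSMul K K[X] := inferInstance
  haveI : FaithfulSMul K Γ(Γ', V) :=
    (faithfulSMul_iff_algebraMap_injective _ _).mpr (by
      rw [IsScalarTower.algebraMap_eq K K[X] Γ(Γ', V)]
      exact hφ.comp (FaithfulSMul.algebraMap_injective K K[X]))
  have h1 : Algebra.trdeg K K[X] + Algebra.trdeg K[X] Γ(Γ', V) = Algebra.trdeg K Γ(Γ', V) :=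
    trdeg_add_eq K K[X] (A := Γ(Γ', V))
  have h2 : Algebra.trdeg K Γ(Γ', V) + Algebra.trdeg Γ(Γ', V) Γ'.functionField =
      Algebra.trdeg K Γ'.functionField :=
    trdeg_add_eq K Γ(Γ', V) (A := Γ'.functionField)
  rw [trdeg_eq_zero (R := Γ(Γ', V)) (A := Γ'.functionField), add_zero] at h2
  rw [trdeg_eq_zero (R := K[X]) (A := Γ(Γ', V)), add_zero, Polynomial.trdeg_of_isDomain] at h1
  rw [← h2, ← h1]

end Trdeg

section Final

variable (K : Type u) [Field K]

/-- The point underlying a `K`-point is closed. -/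
theorem isClosed_singleton_ptOf {Y : Scheme.{u}} {y : Y ⟶ Spec (CommRingCat.of K)}
    (p : KPt y) : IsClosed ({C4.ptOf p} : Set Y) := by
  haveI : IsClosedImmersion p.1 := isClosedImmersion_of_comp_eq_id y p.1 p.2
  have h := p.1.isClosedEmbedding.isClosed_range
  have e : Set.range p.1 = {C4.ptOf p} := by
    ext x
    constructor
    · rintro ⟨z, rfl⟩
      have hz : z = default := Subsingleton.elim _ _
      subst hz
      rfl
    · rintro rfl
      exact ⟨default, rfl⟩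
  rwa [e] at h

variable [IsAlgClosed K]

/-- **C4a** in the frozen shape of `C4/Spec.lean`. -/
theorem c4a : C4.Stmt.C4a K := by
  intro X _ B hB hBne h0
  haveI : IsProper X.str := X.bundle.proper
  obtain ⟨Γ', ι, h1, h2, h3, h4, V, hV, ⟨y, hyV, hy⟩, φ, hφ, hφ', hφK⟩ :=
    exists_integral_curve_through X.str (C4.ptOf X.zero)
      (isClosed_singleton_ptOf K X.zero) B hB hBne h0
  haveI := h2
  haveI : Nonempty V := ⟨⟨y, hyV⟩⟩
  exact ⟨Γ', h2, ι, h1, isCurveOver_of_cert (ι ≫ X.str) V hV φ hφ hφ' hφK, h3, h4⟩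

end Final

end Fermat.Agent.S26.H730

end
-- ===== PACK-END S26/H730/C4a.lean

-- ===== PACK-BEGIN S27/H551/AlgTangentCore.lean
section








/-!
# S27 / DIM (helper551): first-order deformations of the trivial gluing datum

Curve chart `(B₀, B₁, B₀₁)` over `k`.

* `exists_unitTwist_isIso_of_isBC` : over an augmented `k`-algebra `π : A → k` with nilpotent
  kernel, a gluing datum with trivial reduction is a twist `unitTwist u`, `π u = 1`.
* `cls` : the class map `k ⊗ B₀₁ → Ȟ¹(unit over k)`.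
* `unitTwist_dual_isIso_iff` : over the dual numbers, `unitTwist v ≅ unitTwist v'`
  (`v, v' ≡ 1 mod ε`) iff the `ε`-coefficients of `v` and `v'` have the same class in `Ȟ¹`.
-/

set_option autoImplicit false
set_option linter.style.haveILetI false
set_option linter.unusedSectionVars false

universe u

open scoped TensorProduct

namespace Fermat.Agent.S27.H551

open Fermat.Agent.S25 Fermat.Agent.S25.H265 Fermat.Agent.S25.H671

noncomputable section

variable {k : Type u} [Field k] {B₀ B₁ B₀₁ : Type u} [CommRing B₀] [CommRing B₁] [CommRing B₀₁]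
  [Algebra k B₀] [Algebra k B₁] [Algebra k B₀₁] [Algebra B₀ B₀₁] [Algebra B₁ B₀₁]
  [IsScalarTower k B₀ B₀₁] [IsScalarTower k B₁ B₀₁]

section Aug

variable {A : Type u} [CommRing A] [Algebra k A]

theorem aug_surjective (π : A →ₐ[k] k) : Function.Surjective π := fun c =>
  ⟨algebraMap k A c, by rw [AlgHom.commutes]; rfl⟩

variable (B₀ B₁ B₀₁) in
/-- The unit gluing datum over `A`, twisted by a unit of `A ⊗ B₀₁`. -/
abbrev curveTwist (A : Type u) [CommRing A] [Algebra k A] (u : (A ⊗[k] B₀₁)ˣ) :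
    CurveGD k B₀ B₁ B₀₁ A :=
  unitTwist A (A ⊗[k] B₀) (A ⊗[k] B₁) u

/-- Base change of a twist of the unit datum. -/
theorem isBC_curveTwist {A' : Type u} [CommRing A'] [Algebra k A'] (φ : A →ₐ[k] A')
    (u : (A ⊗[k] B₀₁)ˣ) :
    CurveGD.IsBC φ (curveTwist B₀ B₁ B₀₁ A u)
      (curveTwist B₀ B₁ B₀₁ A' (Units.map (tensorMapLeft k φ B₀₁).toMonoidHom u)) :=
  isBC_unitTwist _ _ _ (Fermat.Agent.S25.H551.tensorMapLeft_algebraMap k φ B₀ B₀₁)
    (Fermat.Agent.S25.H551.tensorMapLeft_algebraMap k φ B₁ B₀₁) u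

/-- **Normal form**: a gluing datum over an augmented algebra with nilpotent augmentation
ideal whose reduction is the unit datum is a twist of the unit datum. -/
theorem exists_curveTwist_isIso_of_isBC (π : A →ₐ[k] k) {n : ℕ}
    (hπ : (RingHom.ker (π : A →+* k)) ^ n = ⊥) (G : CurveGD k B₀ B₁ B₀₁ A)
    (h : CurveGD.IsBC π G (unitGD k B₀ B₁ B₀₁ k)) :
    ∃ u : (A ⊗[k] B₀₁)ˣ, tensorMapLeft k π B₀₁ u = 1 ∧ (curveTwist B₀ B₁ B₀₁ A u).IsIso G :=
  exists_unitTwist_isIso _ _ _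
    (Fermat.Agent.S25.H551.tensorMapLeft_surjective k π (aug_surjective π) B₀)
    (Fermat.Agent.S25.H551.tensorMapLeft_ker_nil k π (aug_surjective π) hπ B₀)
    (Fermat.Agent.S25.H551.tensorMapLeft_surjective k π (aug_surjective π) B₁)
    (Fermat.Agent.S25.H551.tensorMapLeft_ker_nil k π (aug_surjective π) hπ B₁) G h

end Aug

/-! ## The class in `Ȟ¹` -/

variable (k B₀ B₁ B₀₁) in
/-- The class map `k ⊗ B₀₁ → Ȟ¹(unit)`. -/
def cls : k ⊗[k] B₀₁ → (unitGD k B₀ B₁ B₀₁ k).H1 :=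
  fun h => Submodule.Quotient.mk h

theorem cls_add (h h' : k ⊗[k] B₀₁) :
    cls k B₀ B₁ B₀₁ (h + h') = cls k B₀ B₁ B₀₁ h + cls k B₀ B₁ B₀₁ h' := rfl

theorem cls_sub (h h' : k ⊗[k] B₀₁) :
    cls k B₀ B₁ B₀₁ (h - h') = cls k B₀ B₁ B₀₁ h - cls k B₀ B₁ B₀₁ h' := rfl

theorem cls_zero : cls k B₀ B₁ B₀₁ 0 = 0 := rfl

theorem cls_smul (c : k) (h : k ⊗[k] B₀₁) :
    cls k B₀ B₁ B₀₁ (c • h) = c • cls k B₀ B₁ B₀₁ h := rfl

theorem cls_surjective : Function.Surjective (cls k B₀ B₁ B₀₁) := fun x => by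
  obtain ⟨h, rfl⟩ := Submodule.Quotient.mk_surjective
    (LinearMap.range (unitGD k B₀ B₁ B₀₁ k).cech) x
  exact ⟨h, rfl⟩

theorem cls_eq_zero_iff (h : k ⊗[k] B₀₁) :
    cls k B₀ B₁ B₀₁ h = 0 ↔ ∃ (h₀ : k ⊗[k] B₀) (h₁ : k ⊗[k] B₁),
      h = algebraMap (k ⊗[k] B₀) (k ⊗[k] B₀₁) h₀ - algebraMap (k ⊗[k] B₁) (k ⊗[k] B₀₁) h₁ := by
  have key : cls k B₀ B₁ B₀₁ h = 0 ↔
      (show (unitGD k B₀ B₁ B₀₁ k).N₀₁ from h) ∈ LinearMap.range (unitGD k B₀ B₁ B₀₁ k).cech :=
    Submodule.Quotient.mk_eq_zero _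
  rw [key, LinearMap.mem_range]
  constructor
  · rintro ⟨⟨h₀, h₁⟩, hh⟩
    exact ⟨h₀, h₁, hh.symm.trans (unit_cech_apply h₀ h₁)⟩
  · rintro ⟨h₀, h₁, hh⟩
    exact ⟨(h₀, h₁), (unit_cech_apply h₀ h₁).trans hh.symm⟩

theorem cls_eq_iff (h h' : k ⊗[k] B₀₁) :
    cls k B₀ B₁ B₀₁ h = cls k B₀ B₁ B₀₁ h' ↔ ∃ (h₀ : k ⊗[k] B₀) (h₁ : k ⊗[k] B₁),
      h - h' = algebraMap (k ⊗[k] B₀) (k ⊗[k] B₀₁) h₀ -
        algebraMap (k ⊗[k] B₁) (k ⊗[k] B₀₁) h₁ := by
  rw [← sub_eq_zero, ← cls_sub, cls_eq_zero_iff]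

/-! ## Isomorphism classes of twists over the dual numbers -/

section DualIso

variable {x : B₀} {y : B₁} {e : B₁ →ₐ[k] k}

theorem algebraMap_dUnit (h : k ⊗[k] B₀) :
    algebraMap (DualNum k ⊗[k] B₀) (DualNum k ⊗[k] B₀₁)
        ((dUnit h : (DualNum k ⊗[k] B₀)ˣ) : DualNum k ⊗[k] B₀) =
      1 + dEps k B₀₁ (algebraMap (k ⊗[k] B₀) (k ⊗[k] B₀₁) h) := by
  rw [val_dUnit, map_add, map_one, dEps_algebraMap]

theorem algebraMap_dUnit' (h : k ⊗[k] B₁) :
    algebraMap (DualNum k ⊗[k] B₁) (DualNum k ⊗[k] B₀₁)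
        ((dUnit h : (DualNum k ⊗[k] B₁)ˣ) : DualNum k ⊗[k] B₁) =
      1 + dEps k B₀₁ (algebraMap (k ⊗[k] B₁) (k ⊗[k] B₀₁) h) := by
  rw [val_dUnit, map_add, map_one, dEps_algebraMap]

/-- Twists with the same class are isomorphic (no hypothesis on the chart). -/
theorem curveTwist_dual_isIso_of_cls_eq (v v' : (DualNum k ⊗[k] B₀₁)ˣ)
    (hv : dRed k B₀₁ v = 1) (hv' : dRed k B₀₁ v' = 1)
    (h : cls k B₀ B₁ B₀₁ (dCoeff k B₀₁ v) = cls k B₀ B₁ B₀₁ (dCoeff k B₀₁ v')) :
    (curveTwist B₀ B₁ B₀₁ (DualNum k) v).IsIso (curveTwist B₀ B₁ B₀₁ (DualNum k) v') := by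
  obtain ⟨h₀, h₁, hh⟩ := (cls_eq_iff _ _).1 h
  rw [unitTwist_isIso_iff]
  refine ⟨dUnit (-h₀), dUnit (-h₁), ?_⟩
  rw [algebraMap_dUnit, algebraMap_dUnit', eq_one_add_dEps_of_dRed hv,
    eq_one_add_dEps_of_dRed hv']
  set E := dEps k B₀₁ with hE
  set c := dCoeff k B₀₁ (v : DualNum k ⊗[k] B₀₁) with hc
  set c' := dCoeff k B₀₁ (v' : DualNum k ⊗[k] B₀₁) with hc'
  have e1 : E c * E (algebraMap (k ⊗[k] B₀) (k ⊗[k] B₀₁) (-h₀)) = 0 := dEps_mul_dEps _ _
  have e2 : E c' * E (algebraMap (k ⊗[k] B₁) (k ⊗[k] B₀₁) (-h₁)) = 0 := dEps_mul_dEps _ _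
  have e3 : E c + E (algebraMap (k ⊗[k] B₀) (k ⊗[k] B₀₁) (-h₀)) =
      E c' + E (algebraMap (k ⊗[k] B₁) (k ⊗[k] B₀₁) (-h₁)) := by
    rw [← map_add, ← map_add]
    congr 1
    rw [map_neg, map_neg]
    have : c = c' + (algebraMap (k ⊗[k] B₀) (k ⊗[k] B₀₁) h₀ -
        algebraMap (k ⊗[k] B₁) (k ⊗[k] B₀₁) h₁) := by rw [← hh]; abel
    rw [this]; abel
  calc (1 + E c) * (1 + E (algebraMap (k ⊗[k] B₀) (k ⊗[k] B₀₁) (-h₀)))
      = 1 + (E c + E (algebraMap (k ⊗[k] B₀) (k ⊗[k] B₀₁) (-h₀))) +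
          E c * E (algebraMap (k ⊗[k] B₀) (k ⊗[k] B₀₁) (-h₀)) := by ring
    _ = 1 + (E c' + E (algebraMap (k ⊗[k] B₁) (k ⊗[k] B₀₁) (-h₁))) +
          E c' * E (algebraMap (k ⊗[k] B₁) (k ⊗[k] B₀₁) (-h₁)) := by rw [e1, e2, e3]
    _ = (1 + E c') * (1 + E (algebraMap (k ⊗[k] B₁) (k ⊗[k] B₀₁) (-h₁))) := by ring

theorem nontrivial_tensor_self (hC : IsCurveChart k B₀ B₁ B₀₁ x y e) :
    Nontrivial (k ⊗[k] B₀) := by
  haveI := hC.isDomain₀
  exact (Algebra.TensorProduct.lid k B₀).toEquiv.nontrivial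

/-- Isomorphic twists have the same class. -/
theorem cls_eq_of_curveTwist_dual_isIso [IsAlgClosed k] (hC : IsCurveChart k B₀ B₁ B₀₁ x y e)
    (v v' : (DualNum k ⊗[k] B₀₁)ˣ)
    (hv : dRed k B₀₁ v = 1) (hv' : dRed k B₀₁ v' = 1)
    (h : (curveTwist B₀ B₁ B₀₁ (DualNum k) v).IsIso (curveTwist B₀ B₁ B₀₁ (DualNum k) v')) :
    cls k B₀ B₁ B₀₁ (dCoeff k B₀₁ v) = cls k B₀ B₁ B₀₁ (dCoeff k B₀₁ v') := by
  rw [unitTwist_isIso_iff] at h
  obtain ⟨a₀, a₁, ha⟩ := h
  -- reduce mod ε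
  have hred := congrArg (dRed k B₀₁) ha
  rw [map_mul, map_mul, hv, hv', one_mul, one_mul, dRed_algebraMap, dRed_algebraMap] at hred
  obtain ⟨c, hc₀, hc₁⟩ := exists_eq_algebraMap_of_glue_tensor hC k _ _ hred
  have hc : c ≠ 0 := by
    rintro rfl
    rw [map_zero] at hc₀
    have hu : IsUnit (dRed k B₀ (a₀ : DualNum k ⊗[k] B₀)) := a₀.isUnit.map (dRed k B₀)
    rw [hc₀] at hu
    haveI := nontrivial_tensor_self hC
    exact not_isUnit_zero hu
  -- ε-coefficients
  have hco := congrArg (dCoeff k B₀₁) ha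
  rw [dCoeff_mul, dCoeff_mul, hv, hv', one_mul, one_mul, dCoeff_algebraMap, dCoeff_algebraMap,
    dRed_algebraMap, dRed_algebraMap, hc₀, hc₁, ← IsScalarTower.algebraMap_apply,
    ← IsScalarTower.algebraMap_apply, mul_comm _ (algebraMap k (k ⊗[k] B₀₁) c),
    mul_comm _ (algebraMap k (k ⊗[k] B₀₁) c), ← Algebra.smul_def, ← Algebra.smul_def] at hco
  -- hco : alg (dCoeff a₀) + c • dCoeff v = alg (dCoeff a₁) + c • dCoeff v'
  have h1 : c • (dCoeff k B₀₁ (v : DualNum k ⊗[k] B₀₁) - dCoeff k B₀₁ (v' : DualNum k ⊗[k] B₀₁)) =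
      algebraMap (k ⊗[k] B₀) (k ⊗[k] B₀₁) (-(dCoeff k B₀ (a₀ : DualNum k ⊗[k] B₀))) -
        algebraMap (k ⊗[k] B₁) (k ⊗[k] B₀₁) (-(dCoeff k B₁ (a₁ : DualNum k ⊗[k] B₁))) := by
    rw [smul_sub, map_neg, map_neg]
    have := sub_eq_zero.2 hco
    rw [← sub_eq_zero]
    rw [← this]
    abel
  have h2 : cls k B₀ B₁ B₀₁ (c • (dCoeff k B₀₁ (v : DualNum k ⊗[k] B₀₁) -
      dCoeff k B₀₁ (v' : DualNum k ⊗[k] B₀₁))) = 0 :=
    (cls_eq_zero_iff _).2 ⟨_, _, h1⟩
  rw [cls_smul, cls_sub, smul_eq_zero] at h2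
  rcases h2 with h2 | h2
  · exact absurd h2 hc
  · exact sub_eq_zero.1 h2

theorem curveTwist_dual_isIso_iff [IsAlgClosed k] (hC : IsCurveChart k B₀ B₁ B₀₁ x y e)
    (v v' : (DualNum k ⊗[k] B₀₁)ˣ)
    (hv : dRed k B₀₁ v = 1) (hv' : dRed k B₀₁ v' = 1) :
    (curveTwist B₀ B₁ B₀₁ (DualNum k) v).IsIso (curveTwist B₀ B₁ B₀₁ (DualNum k) v') ↔
      cls k B₀ B₁ B₀₁ (dCoeff k B₀₁ v) = cls k B₀ B₁ B₀₁ (dCoeff k B₀₁ v') :=
  ⟨cls_eq_of_curveTwist_dual_isIso hC v v' hv hv', curveTwist_dual_isIso_of_cls_eq v v' hv hv'⟩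

end DualIso

end

end Fermat.Agent.S27.H551

end
-- ===== PACK-END S27/H551/AlgTangentCore.lean

-- ===== PACK-BEGIN S33/Spec.lean
section
/-
Row S33 (ordinary at `p`, `p ‖ N`), TOP GLUE — interface (helper409).

Goal: the frozen statement S33 (`H.ρ.IsOrdinaryAt p` for a Hecke–Galois datum of level `N`,
`p ‖ N`, `p` odd, residual representation ordinary at `p`) from

* the pieces REL, EMB, RED of row S32 (`Fermat/Agent/S32/Spec.lean`, all proved on main) and
  `S59.G4.PointsStatement` (proved on main),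
* ONE new piece: `OrdEigenStatement` (ORD-EIG) below.

ORD-EIG: at every local `p`-adic point `P` of the coefficient ring of the datum there is an adic
eigenmodule `E` (Tate eigenmodule of `J₀(N)`) on which inertia at `p` acts "ordinarily":
for `σ₀, σ` in the inertia group and `τ` in the decomposition group of a place over `p`, and `c`
the value of the `p`-adic cyclotomic character at `σ₀`,

  `(σ₀ - c) (σ - 1) = 0`   and   `(σ₀ - c) τ (σ₀ - 1) = 0`   on `E.M`.

`Top.lean` proves `s33_of_pieces : OrdEigen → REL → EMB → RED → POINTS → S33`.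
Route of ORD-EIG: `coord/S33-helper409.md` on `origin/helper409`.
Only sorry-free definitions in this file.
-/



set_option autoImplicit false

noncomputable section

namespace Fermat.Agent.S33

open IsLocalRing Fermat.Agent.S31

/-- `c` is the value of the `p`-adic cyclotomic character at `σ` (in a `p`-adically separated
ring this determines `c`): whenever `σ` acts on the `p ^ n`-th roots of unity as the `a`-th
power, `c ≡ a mod p ^ n`.  (Same shape as `GaloisRepAdic.DetIsCyclotomic`.) -/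
def IsCycVal (p : ℕ) {A : Type} [CommRing A] (σ : GQ) (c : A) : Prop :=
  ∀ (n a : ℕ), (∀ μ : Qb, μ ^ p ^ n = 1 → σ μ = μ ^ a) →
    c - (a : A) ∈ Ideal.span {((p ^ n : ℕ) : A)}

/-- The **ordinary identities** at `p` for a Galois action on a module `M` (rank-free form of
`GaloisRepAdic.IsOrdinaryAt`): for every place `P ∣ p`, `σ₀, σ ∈ I_P`, `τ ∈ D_P` and `c` the
cyclotomic value of `σ₀`:  `(σ₀ - c)(σ - 1) = 0` and `(σ₀ - c) τ (σ₀ - 1) = 0`. -/
def IsOrdMod (p : ℕ) {A M : Type} [CommRing A] [AddCommGroup M] [Module A M]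
    (ρ : GQ →* Module.End A M) : Prop :=
  ∀ P : ValuationSubring Qb, P.LiesOverPrime p →
    ∀ σ₀ ∈ P.inertiaSubgroupIn ℚ, ∀ c : A, IsCycVal p σ₀ c →
      (∀ σ ∈ P.inertiaSubgroupIn ℚ, (ρ σ₀ - c • 1) * (ρ σ - 1) = 0) ∧
      (∀ τ ∈ P.decompositionSubgroup ℚ, (ρ σ₀ - c • 1) * ρ τ * (ρ σ₀ - 1) = 0)

/-- **ORD-EIG.**  Let `H` be a Hecke–Galois datum of level `N`, `p ‖ N`, `p` odd, whose residual
representation is ordinary at `p`.  Then at every local `p`-adic point `P` of its coefficient ring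
there is an adic eigenmodule of `P.χ ∘ π` satisfying the ordinary identities at `p`. -/
def OrdEigenStatement : Prop :=
  ∀ (p : ℕ) [Fact p.Prime] (_hp2 : p ≠ 2) (N : ℕ) [NeZero N] (S : Finset ℕ)
    (_hN : p ∣ N ∧ ¬ p ^ 2 ∣ N) (_hNS : ∀ q : ℕ, q.Prime → q ∣ N → q ∈ S)
    (𝒪 : Type) [CommRing 𝒪] [IsDomain 𝒪] [IsDiscreteValuationRing 𝒪]
    [IsAdicComplete (maximalIdeal 𝒪) 𝒪] [Finite (ResidueField 𝒪)] [CharZero 𝒪]
    (_hp𝒪 : (p : 𝒪) ∈ maximalIdeal 𝒪)
    (θ : CuspForm.heckeAlgebra N 2 (↑S : Set ℕ) →+* ResidueField 𝒪)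
    (T : Type) [CommRing T] [IsLocalRing T] [IsNoetherianRing T]
    [IsAdicComplete (maximalIdeal T) T] [Algebra 𝒪 T] [IsLocalHom (algebraMap 𝒪 T)]
    [Module.Finite 𝒪 T] [Module.Free 𝒪 T]
    (H : CuspForm.HeckeGaloisRepDatum N (↑S : Set ℕ) 𝒪 θ T)
    (_hres : (GaloisRepAdic.ofResidualGaloisRep H.ρ.residual).IsOrdinaryAt p)
    (P : PadicPoint p T) (_hloc : IsLocalHom P.χ),
    ∃ E : Fermat.Agent.S30.H990.AdicEigenModule p N S P.O (P.χ.comp H.π), IsOrdMod p E.ρ

/-- The frozen statement S33, as a `Prop`. -/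
def S33Statement : Prop :=
  ∀ {p : ℕ} {N : ℕ} [NeZero N] {S : Finset ℕ}
    {𝒪 : Type} [CommRing 𝒪] [IsDomain 𝒪] [IsDiscreteValuationRing 𝒪]
    [IsAdicComplete (maximalIdeal 𝒪) 𝒪]
    {θ : CuspForm.heckeAlgebra N 2 (↑S : Set ℕ) →+* ResidueField 𝒪}
    {T : Type} [CommRing T] [IsLocalRing T] [IsNoetherianRing T]
    [IsAdicComplete (maximalIdeal T) T] [Algebra 𝒪 T] [IsLocalHom (algebraMap 𝒪 T)]
    [Module.Finite 𝒪 T] [Module.Free 𝒪 T]
    [Finite (ResidueField 𝒪)] [CharZero 𝒪],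
    p.Prime → p ≠ 2 → (p : 𝒪) ∈ maximalIdeal 𝒪 → (p ∣ N ∧ ¬ p ^ 2 ∣ N) →
    (∀ q : ℕ, q.Prime → q ∣ N → q ∈ S) →
    ∀ H : CuspForm.HeckeGaloisRepDatum N (↑S : Set ℕ) 𝒪 θ T,
      (GaloisRepAdic.ofResidualGaloisRep H.ρ.residual).IsOrdinaryAt p → H.ρ.IsOrdinaryAt p

end Fermat.Agent.S33

end
end
-- ===== PACK-END S33/Spec.lean

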