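import Mathlib
import Fermat.Prelude.Def_AlgebraicCurve_IsCurveOver
import Fermat.Agent.Pack.S43MC.G0E13L3
import Fermat.Agent.Pack.S43MC.G0E10L2
import Fermat.Agent.Pack.S43MC.G0E10L0
import Fermat.Agent.Pack.S43MC.G0E13L0
import Fermat.Agent.Pack.S43MC.G0E13L1
import Fermat.Agent.Pack.S43MC.G0E8L0
import Fermat.Agent.Pack.S43MC.G0E0L3
import Fermat.Agent.Pack.S43MC.G0E0L0
import Fermat.Agent.Pack.S43MC.G0E0L2
import Fermat.Agent.Pack.S43MC.G0E10L1
import Fermat.Agent.Pack.S43MC.G0E13L2
import Fermat.Agent.Pack.S43MC.G0E11L1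
import Fermat.Agent.Pack.S43MC.G0E0L1
import Fermat.Agent.Pack.S43MC.G0E9L3
import Fermat.Agent.Pack.S43MC.G0E8L3
import Fermat.Agent.Pack.S43MC.G0E12L2
import Fermat.Agent.Pack.S43MC.G0E12L1
import Fermat.Agent.Pack.S43MC.G0E4L2
import Fermat.Agent.Pack.Fast891

-- ===== PACK-BEGIN S25/H507/Nonconstant.lean
section


set_option autoImplicit false

universe u

open AlgebraicGeometry CategoryTheory TopologicalSpace Opposite

namespace Fermat.Agent.S25.H507

/-- Over an algebraically closed field, a root of a nonzero polynomial in a field extension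
lies in the base field. -/
lemma mem_range_of_eval₂_eq_zero {k K : Type*} [Field k] [IsAlgClosed k] [Field K]
    (ι : k →+* K) (t : K) (p : Polynomial k) (hp : p ≠ 0) (h : p.eval₂ ι t = 0) :
    t ∈ Set.range ι := by
  let _ : Algebra k K := ι.toAlgebra
  have halg : IsAlgebraic k t := ⟨p, hp, by rw [Polynomial.aeval_def]; exact h⟩
  have hint : IsIntegral k t := halg.isIntegral
  have hdeg : (minpoly k t).degree = 1 :=
    IsAlgClosed.degree_eq_one_of_irreducible k (minpoly.irreducible hint)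
  exact minpoly.mem_range_of_degree_eq_one k t hdeg

variable {k : Type u} [Field k] {X : Scheme.{u}} (c : X ⟶ Spec (CommRingCat.of k))

/-- The structure map `k → Γ(X, U)`. -/
noncomputable def kSec (U : X.Opens) : k →+* Γ(X, U) :=
  ((Scheme.ΓSpecIso (CommRingCat.of k)).inv ≫ c.appTop ≫
    X.presheaf.map (homOfLE (le_top : U ≤ ⊤)).op).hom

/-- The structure map `k → K(X)`. -/
noncomputable def kToK [IsIntegral X] : k →+* X.functionField :=
  ((Scheme.ΓSpecIso (CommRingCat.of k)).inv ≫ c.appTop ≫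
    X.presheaf.germ ⊤ (genericPoint X) trivial).hom

lemma germ_kSec [IsIntegral X] (U : X.Opens) (h : genericPoint X ∈ U) (a : k) :
    X.presheaf.germ U (genericPoint X) h (kSec c U a) = kToK c a := by
  simp only [kSec, kToK, CommRingCat.hom_comp, RingHom.comp_apply]
  erw [X.presheaf.germ_res_apply]

/-- The polynomial evaluation `k[T] → Γ(X, U)` at a section. -/
noncomputable def secLineHom (U : X.Opens) (x : Γ(X, U)) : Polynomial k →+* Γ(X, U) :=
  Polynomial.eval₂RingHom (kSec c U) x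

lemma topIso_hom_lineRingHom (U : X.Opens) (x : Γ(X, U)) (p : Polynomial k) :
    U.topIso.hom (lineRingHom (U.ι ≫ c) (U.topIso.inv x) p) = secLineHom c U x p := by
  have h : (U.topIso.hom.hom.comp (lineRingHom (U.ι ≫ c) (U.topIso.inv x))) =
      secLineHom c U x := by
    apply Polynomial.ringHom_ext
    · intro a
      simp only [lineRingHom, secLineHom, RingHom.comp_apply, Polynomial.coe_eval₂RingHom,
        Polynomial.eval₂_C]
      have h1 : U.ι.appTop ≫ U.topIso.hom = X.presheaf.map (homOfLE (le_top : U ≤ ⊤)).op := by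
        rw [Scheme.Opens.ι_appTop, Scheme.Opens.topIso_hom]
        exact (X.presheaf.map_comp _ _).symm
      have h2 : ((Scheme.ΓSpecIso (CommRingCat.of k)).inv ≫ (U.ι ≫ c).appTop) ≫ U.topIso.hom =
          (Scheme.ΓSpecIso (CommRingCat.of k)).inv ≫ c.appTop ≫
            X.presheaf.map (homOfLE (le_top : U ≤ ⊤)).op := by
        rw [Scheme.Hom.comp_appTop, Category.assoc, Category.assoc, h1]
      exact congrArg (fun φ => φ.hom a) h2
    · simp only [lineRingHom, secLineHom, RingHom.comp_apply, Polynomial.coe_eval₂RingHom,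
        Polynomial.eval₂_X]
      exact congrArg (fun φ => φ.hom x) U.topIso.inv_hom_id
  exact congrArg (fun φ => φ p) h

lemma germ_secLineHom [IsIntegral X] (U : X.Opens) (h : genericPoint X ∈ U) (x : Γ(X, U))
    (p : Polynomial k) :
    X.presheaf.germ U (genericPoint X) h (secLineHom c U x p) =
      p.eval₂ (kToK c) (X.presheaf.germ U (genericPoint X) h x) := by
  have e : ((X.presheaf.germ U (genericPoint X) h).hom.comp (secLineHom c U x)) =
      Polynomial.eval₂RingHom (kToK c) (X.presheaf.germ U (genericPoint X) h x) := by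
    apply Polynomial.ringHom_ext
    · intro a
      simp only [secLineHom, RingHom.comp_apply, Polynomial.coe_eval₂RingHom, Polynomial.eval₂_C]
      exact germ_kSec c U h a
    · simp only [secLineHom, RingHom.comp_apply, Polynomial.coe_eval₂RingHom, Polynomial.eval₂_X]
  exact congrArg (fun φ => φ p) e

theorem lineRingHom_injective [IsIntegral X] [IsAlgClosed k] {t : X.functionField}
    (ht : t ∉ Set.range (kToK c)) :
    Function.Injective
      (lineRingHom ((regOpen X t).ι ≫ c) ((regOpen X t).topIso.inv (regSection X t))) := by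
  rw [injective_iff_map_eq_zero]
  intro p hp
  by_contra hp0
  apply ht
  refine mem_range_of_eval₂_eq_zero (kToK c) t p hp0 ?_
  have h1 := topIso_hom_lineRingHom c (regOpen X t) (regSection X t) p
  rw [hp, map_zero] at h1
  have h2 := germ_secLineHom c (regOpen X t) (genericPoint_mem_regOpen X t) (regSection X t) p
  rw [← h1, map_zero, germ_genericPoint_regSection] at h2
  exact h2.symm

lemma inv_not_mem_range_kToK [IsIntegral X] {t : X.functionField}
    (ht : t ∉ Set.range (kToK c)) : t⁻¹ ∉ Set.range (kToK c) := by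
  rintro ⟨a, ha⟩
  apply ht
  refine ⟨a⁻¹, ?_⟩
  rw [map_inv₀, ha, inv_inv]

lemma ne_zero_of_not_mem_range_kToK [IsIntegral X] {t : X.functionField}
    (ht : t ∉ Set.range (kToK c)) : t ≠ 0 := by
  rintro rfl
  exact ht ⟨0, map_zero _⟩

/-- Existence of a nonconstant rational function, given an affine open whose coordinate ring
is not a field. -/
theorem exists_not_mem_range_kToK [IsIntegral X] (V : X.Opens) (hV : (V : Set X).Nonempty)
    (hF : ¬ IsField Γ(X, V)) : ∃ t : X.functionField, t ∉ Set.range (kToK c) := by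
  have hη : genericPoint X ∈ V := by
    obtain ⟨P, hP⟩ := hV
    exact genericPoint_mem_of_mem X hP
  have hinj := germ_injective_of_isIntegral X (genericPoint X) hη
  by_contra hall
  have hall : ∀ t : X.functionField, t ∈ Set.range (kToK c) := by
    intro t
    by_contra h
    exact hall ⟨t, h⟩
  apply hF
  have hsurj : Function.Surjective (kSec c V) := by
    intro s
    obtain ⟨a, ha⟩ := hall (X.presheaf.germ V (genericPoint X) hη s)
    refine ⟨a, hinj ?_⟩
    rw [germ_kSec, ha]
  have : Nonempty V := ⟨⟨_, hη⟩⟩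
  have hbij : Function.Bijective (kSec c V) := ⟨(kSec c V).injective, hsurj⟩
  exact (RingEquiv.ofBijective _ hbij).symm.toMulEquiv.isField (Field.toIsField k)

end Fermat.Agent.S25.H507

end
-- ===== PACK-END S25/H507/Nonconstant.lean

-- ===== PACK-BEGIN S25/H551/RigLiftBridge.lean
section




/-!
# S25: the GDC input `RigLift` of the master assembly (helper551)

`rigLift205 : H205.RigLift B₀ B₁ B₀₁ e` and `rigLifts805 : H805.RigLifts k B₀ B₁ B₀₁ e`,
both unconditional.
-/

set_option autoImplicit false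

universe u

namespace Fermat.Agent.S25.H551

open Fermat.Agent.S25

variable {k : Type u} [Field k] (B₀ B₁ B₀₁ : Type u) [CommRing B₀] [CommRing B₁]
  [CommRing B₀₁] [Algebra k B₀] [Algebra k B₁] [Algebra k B₀₁] [Algebra B₀ B₀₁]
  [Algebra B₁ B₀₁] [IsScalarTower k B₀ B₀₁] [IsScalarTower k B₁ B₀₁]

/-- The GDC fact `H205.RigLift` (input of `Assembly.result_of_blocks`). -/
theorem rigLift205 (e : B₁ →ₐ[k] k) : H205.RigLift B₀ B₁ B₀₁ e :=
  fun _ _ _ I hI G G₀ hBC hrig => rigidifiable_of_isBC e I hI G G₀ hBC hrig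

/-- The GDC fact `H805.RigLifts`. -/
theorem rigLifts805 (e : B₁ →ₐ[k] k) : H805.RigLifts k B₀ B₁ B₀₁ e :=
  fun _ _ _ I hI G G₀ hBC hrig => rigidifiable_of_isBC e I hI G G₀ hBC hrig

end Fermat.Agent.S25.H551

end
-- ===== PACK-END S25/H551/RigLiftBridge.lean

-- ===== PACK-BEGIN S25/H567/AbelCover.lean
section


/-!
# Row S25, block ABEL (scheme side), part 2 (helper567): good affine charts of a family of points

Let `q : Fin g → (T ⟶ C)` be a tuple of morphisms over `k` (for instance the projections of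
`C^g`).  Every point of `T` has an affine open neighbourhood `Spec A ⟶ T` on which every `q i`
is the morphism of a chart point `P i` with values in `A`, and such that the gluing datum
`𝔉.F A P` of an algebraic Abel family is rigidifiable.
-/

set_option autoImplicit false
universe u
open CategoryTheory CategoryTheory.Limits AlgebraicGeometry AlgebraicGeometry.RelPicard
  NeronModelInfra GoodReductionJacobian
open scoped TensorProduct

namespace Fermat.Agent.S25.H567

open Fermat.Agent.S25 Fermat.Agent.S25.H746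

noncomputable section

variable {k : Type u} [Field k] {C : Scheme.{u}} {c : C ⟶ Spec (CommRingCat.of k)}
  {ε : SchemeHomOver (𝟙 (Spec (CommRingCat.of k))) c} (Ch : ChartOf c ε)

/-- Every point of `C` lies in one of the two charts. -/
theorem mem_chart_or (z : C) : z ∈ Ch.U₀ ∨ z ∈ Ch.U₁ := by
  have h : z ∈ (Ch.U₀ ⊔ Ch.U₁ : C.Opens) := by rw [Ch.cover]; trivial
  exact h

/-- First step: an affine neighbourhood on which every `q i` is a chart point. -/
theorem exists_chartPts {g : ℕ} {T : Scheme.{u}} (t : T ⟶ Spec (CommRingCat.of k))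
    (q : Fin g → (T ⟶ C)) (hq : ∀ i, q i ≫ c = t) (ξ : T) :
    ∃ (A : Type u) (_ : CommRing A) (_ : Algebra k A) (j : Spec (CommRingCat.of A) ⟶ T)
      (_ : IsOpenImmersion j) (_ : j ≫ t = specStr k A) (P : Fin g → ChartPt k Ch.B₀ Ch.B₁ A),
      ξ ∈ Set.range j ∧ ∀ i, chartPtHom Ch (P i) = j ≫ q i := by
  -- the open set where every `q i` lands in the chosen chart
  have hex : ∀ i, ∃ U : C.Opens, (U = Ch.U₀ ∨ U = Ch.U₁) ∧ q i ξ ∈ U := by
    intro i
    rcases mem_chart_or Ch (q i ξ) with h | h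
    · exact ⟨Ch.U₀, Or.inl rfl, h⟩
    · exact ⟨Ch.U₁, Or.inr rfl, h⟩
  choose U hU hξU using hex
  let W : T.Opens := ⨅ i, (q i) ⁻¹ᵁ (U i)
  have hξW : ξ ∈ W := by
    have : (ξ ∈ (W : Set T)) := by
      rw [TopologicalSpace.Opens.coe_iInf]
      simp only [Set.mem_iInter]
      intro i
      exact hξU i
    exact this
  have hWle : ∀ i, W ≤ (q i) ⁻¹ᵁ (U i) := fun i => iInf_le _ i
  obtain ⟨_, ⟨V, hV, rfl⟩, hξV, hVW⟩ :=
    T.isBasis_affineOpens.exists_subset_of_mem_open hξW W.2
  have hVaff : IsAffineOpen V := hV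
  let _ : Algebra k Γ(T, V) := (sectionsStr t V).toAlgebra
  have hj : hVaff.fromSpec ≫ t = specStr k Γ(T, V) := fromSpec_comp_str hVaff
  have hrange : ∀ i, Set.range (hVaff.fromSpec ≫ q i) ⊆ (U i : Set C) := by
    rintro i _ ⟨z, rfl⟩
    have hz : hVaff.fromSpec z ∈ (V : Set T) := by
      rw [← hVaff.range_fromSpec]; exact ⟨z, rfl⟩
    have := hWle i (hVW hz)
    simpa using this
  have hP : ∀ i, ∃ P : ChartPt k Ch.B₀ Ch.B₁ Γ(T, V),
      chartPtHom Ch P = hVaff.fromSpec ≫ q i := by
    intro i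
    have hstr : (hVaff.fromSpec ≫ q i) ≫ c = specStr k Γ(T, V) := by
      rw [Category.assoc, hq, hj]
    rcases hU i with h | h
    · obtain ⟨φ, hφ⟩ := exists_chartPt_inl Ch (hVaff.fromSpec ≫ q i) hstr (h ▸ hrange i)
      exact ⟨_, hφ⟩
    · obtain ⟨φ, hφ⟩ := exists_chartPt_inr Ch (hVaff.fromSpec ≫ q i) hstr (h ▸ hrange i)
      exact ⟨_, hφ⟩
  choose P hP using hP
  refine ⟨Γ(T, V), inferInstance, inferInstance, hVaff.fromSpec, inferInstance, hj, P, ?_, hP⟩
  rw [hVaff.range_fromSpec]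
  exact hξV

/-- Second step: shrink the neighbourhood so that the gluing datum becomes rigidifiable. -/
theorem exists_goodChart (𝔉 : AlgAbelFamily k Ch.B₀ Ch.B₁ Ch.B₀₁ Ch.e) {T : Scheme.{u}}
    (t : T ⟶ Spec (CommRingCat.of k)) (q : Fin 𝔉.g → (T ⟶ C)) (hq : ∀ i, q i ≫ c = t) (ξ : T) :
    ∃ (A : Type u) (_ : CommRing A) (_ : Algebra k A) (j : Spec (CommRingCat.of A) ⟶ T)
      (_ : IsOpenImmersion j) (_ : j ≫ t = specStr k A)
      (P : Fin 𝔉.g → ChartPt k Ch.B₀ Ch.B₁ A),
      ξ ∈ Set.range j ∧ (∀ i, chartPtHom Ch (P i) = j ≫ q i) ∧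
        (𝔉.F A P).Rigidifiable Ch.e := by
  obtain ⟨A₀, _, _, j₀, _, hj₀, P₀, ⟨z, hz⟩, hP₀⟩ := exists_chartPts Ch t q hq ξ
  obtain ⟨f, hf, hrig⟩ := 𝔉.locRig A₀ P₀ z.asIdeal z.isPrime
  let ψ : A₀ →ₐ[k] Localization.Away f := IsScalarTower.toAlgHom k A₀ (Localization.Away f)
  have hψ : Spec.map (CommRingCat.ofHom ψ.toRingHom) =
      Spec.map (CommRingCat.ofHom (algebraMap A₀ (Localization.Away f))) := rfl
  have hopen : IsOpenImmersion (Spec.map (CommRingCat.ofHom ψ.toRingHom)) := by
    rw [hψ]; infer_instance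
  refine ⟨Localization.Away f, inferInstance, inferInstance,
    Spec.map (CommRingCat.ofHom ψ.toRingHom) ≫ j₀, inferInstance, ?_,
    fun i => (P₀ i).map ψ, ?_, ?_, ?_⟩
  · rw [Category.assoc, hj₀]
    exact specMap_algHom_comp_str ψ
  · have hzr : z ∈ Set.range (Spec.map (CommRingCat.ofHom ψ.toRingHom)) := by
      have h1 : Set.range (Spec.map (CommRingCat.ofHom ψ.toRingHom)) =
          (PrimeSpectrum.basicOpen f : Set (PrimeSpectrum A₀)) :=
        PrimeSpectrum.localization_away_comap_range (Localization.Away f) f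
      rw [h1]
      exact hf
    obtain ⟨w, hw⟩ := hzr
    refine ⟨w, ?_⟩
    rw [← hz, ← hw]
    simp
  · intro i
    rw [chartPtHom_map, hP₀ i, Category.assoc]
  · exact hrig _ ψ (IsLocalization.Away.algebraMap_isUnit f)

end

end Fermat.Agent.S25.H567

end
-- ===== PACK-END S25/H567/AbelCover.lean

-- ===== PACK-BEGIN S25/H747/AbCartier.lean
section
/-
S25 / block ABEL, sub-block AB-ALG (helper747), leaves C2, C3, AA1: graph ideals are
invertible, a chart point defines a Cartier triple, every tuple of chart points defines an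
effective Cartier divisor.
-/







set_option autoImplicit false
universe u
open scoped TensorProduct

namespace Fermat.Agent.S25.H747

open Fermat.Agent.S25

section NeZero

variable {k : Type u} [Field k] [IsAlgClosed k] {B : Type u} [CommRing B] [IsDomain B]
  [Algebra k B]

/-- The coordinate of a curve chart is not zero: otherwise `B` would be finite over `k`,
hence equal to `k`, and `Ω[B⁄k]` would vanish. -/
theorem ne_zero_of_finite_of_invertible (x : B)
    (hfin : (Polynomial.aeval x : Polynomial k →ₐ[k] B).Finite)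
    [Module.Invertible B Ω[B⁄k]] : x ≠ 0 := by
  rintro rfl
  have hint : (Polynomial.aeval (0 : B) : Polynomial k →ₐ[k] B).toRingHom.IsIntegral :=
    RingHom.Finite.to_isIntegral hfin
  have hcomp : (Polynomial.aeval (0 : B) : Polynomial k →ₐ[k] B).toRingHom =
      (algebraMap k B).comp (Polynomial.evalRingHom (0 : k)) := by
    ext <;> simp
  rw [hcomp] at hint
  have hint' : (algebraMap k B).IsIntegral := RingHom.IsIntegral.tower_top _ _ hint
  have : Algebra.IsIntegral k B := Algebra.isIntegral_def.mpr hint'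
  have hbij : Function.Bijective (algebraMap k B) :=
    IsAlgClosed.algebraMap_bijective_of_isIntegral
  have hsub : Subsingleton Ω[B⁄k] := KaehlerDifferential.subsingleton_of_surjective k B hbij.2
  have hfaith : FaithfulSMul B Ω[B⁄k] := inferInstance
  have h01 : (1 : B) = 0 := hfaith.eq_of_smul_eq_smul fun m => Subsingleton.elim _ _
  exact one_ne_zero h01

end NeZero

section Curve

variable {k : Type u} [Field k] [IsAlgClosed k]
  {B₀ B₁ B₀₁ : Type u} [CommRing B₀] [CommRing B₁] [CommRing B₀₁]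
  [Algebra k B₀] [Algebra k B₁] [Algebra k B₀₁] [Algebra B₀ B₀₁] [Algebra B₁ B₀₁]
  [IsScalarTower k B₀ B₀₁] [IsScalarTower k B₁ B₀₁]
  {x : B₀} {y : B₁} {e : B₁ →ₐ[k] k}

theorem chart_x_ne_zero (hC : IsCurveChart k B₀ B₁ B₀₁ x y e) : x ≠ 0 :=
  haveI := hC.isDomain₀
  haveI := hC.omega₀
  ne_zero_of_finite_of_invertible x hC.finite₀

theorem chart_y_ne_zero (hC : IsCurveChart k B₀ B₁ B₀₁ x y e) : y ≠ 0 :=
  haveI := hC.isDomain₁
  haveI := hC.omega₁
  ne_zero_of_finite_of_invertible y hC.finite₁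

theorem chart_injective₀ (hC : IsCurveChart k B₀ B₁ B₀₁ x y e) :
    Function.Injective (algebraMap B₀ B₀₁) :=
  haveI := hC.isDomain₀
  haveI := hC.away₀
  IsLocalization.injective B₀₁ (M := Submonoid.powers x)
    (powers_le_nonZeroDivisors_of_noZeroDivisors (chart_x_ne_zero hC))

theorem chart_injective₁ (hC : IsCurveChart k B₀ B₁ B₀₁ x y e) :
    Function.Injective (algebraMap B₁ B₀₁) :=
  haveI := hC.isDomain₁
  haveI := hC.away₁
  IsLocalization.injective B₀₁ (M := Submonoid.powers y)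
    (powers_le_nonZeroDivisors_of_noZeroDivisors (chart_y_ne_zero hC))

end Curve

section Graph

variable {k : Type u} [Field k] {A : Type u} [CommRing A] [Algebra k A]
  {B : Type u} [CommRing B] [Algebra k B]

theorem evalHom_surjective (φ : B →ₐ[k] A) : Function.Surjective (evalHom φ) :=
  fun a => ⟨a ⊗ₜ[k] 1, by simp⟩

/-- `(A ⊗ B) ⧸ graphIdeal φ ≃ A`. -/
noncomputable def quotGraphIdealEquiv (φ : B →ₐ[k] A) :
    ((A ⊗[k] B) ⧸ graphIdeal φ) ≃ₐ[A] A :=
  Ideal.quotientKerAlgEquivOfSurjective (evalHom_surjective φ)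

instance finite_quot_graphIdeal (φ : B →ₐ[k] A) :
    Module.Finite A ((A ⊗[k] B) ⧸ graphIdeal φ) :=
  Module.Finite.equiv (quotGraphIdealEquiv φ).symm.toLinearEquiv

instance projective_quot_graphIdeal (φ : B →ₐ[k] A) :
    Module.Projective A ((A ⊗[k] B) ⧸ graphIdeal φ) :=
  Module.Projective.of_equiv (quotGraphIdealEquiv φ).symm.toLinearEquiv

/-- **C2.** Graph ideals are invertible. -/
theorem graphIdeal_invertible [IsAlgClosed k] [IsDomain B] [Algebra.EssFiniteType k B]
    [Module.Invertible B Ω[B⁄k]] (φ : B →ₐ[k] A) :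
    Module.Invertible (A ⊗[k] B) (graphIdeal φ) := by
  haveI : IsDomain (B ⊗[k] B) := H207.isDomain_tensorProduct
  haveI : Module.Invertible (B ⊗[k] B) (KaehlerDifferential.ideal k B) :=
    H431.diagonal_invertible k B
  exact H611.invertible_ideal_of_quotient_finite_projective_tensor k A B (graphIdeal φ)

end Graph

section Pt

variable {k : Type u} [Field k] [IsAlgClosed k]
  {B₀ B₁ B₀₁ : Type u} [CommRing B₀] [CommRing B₁] [CommRing B₀₁]
  [Algebra k B₀] [Algebra k B₁] [Algebra k B₀₁] [Algebra B₀ B₀₁] [Algebra B₁ B₀₁]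
  [IsScalarTower k B₀ B₀₁] [IsScalarTower k B₁ B₀₁]
  {x : B₀} {y : B₁} {e : B₁ →ₐ[k] k}

theorem chart_essFiniteType₀ (hC : IsCurveChart k B₀ B₁ B₀₁ x y e) :
    Algebra.EssFiniteType k B₀ :=
  haveI := hC.smooth₀
  inferInstance

theorem chart_essFiniteType₁ (hC : IsCurveChart k B₀ B₁ B₀₁ x y e) :
    Algebra.EssFiniteType k B₁ :=
  haveI := hC.smooth₁
  inferInstance

theorem chart_mul_eq_one (hC : IsCurveChart k B₀ B₁ B₀₁ x y e)
    (A : Type u) [CommRing A] [Algebra k A] :
    algebraMap (A ⊗[k] B₀) (A ⊗[k] B₀₁) ((1 : A) ⊗ₜ[k] x) *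
      algebraMap (A ⊗[k] B₁) (A ⊗[k] B₀₁) ((1 : A) ⊗ₜ[k] y) = 1 := by
  rw [algebraMap_tensor_apply, algebraMap_tensor_apply, Algebra.TensorProduct.tmul_mul_tmul,
    hC.mul_eq_one, mul_one]
  rfl

theorem chart_mul_eq_one' (hC : IsCurveChart k B₀ B₁ B₀₁ x y e)
    (A : Type u) [CommRing A] [Algebra k A] :
    algebraMap (A ⊗[k] B₁) (A ⊗[k] B₀₁) ((1 : A) ⊗ₜ[k] y) *
      algebraMap (A ⊗[k] B₀) (A ⊗[k] B₀₁) ((1 : A) ⊗ₜ[k] x) = 1 := by
  rw [mul_comm]; exact chart_mul_eq_one hC A

/-- **C3.** A single chart point defines a Cartier triple. -/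
theorem ptCartier (hC : IsCurveChart k B₀ B₁ B₀₁ x y e)
    (A : Type u) [CommRing A] [Algebra k A] (P : H746.ChartPt k B₀ B₁ A) :
    IsCartierTriple (ptI₀ B₀₁ P) (ptI₁ B₀₁ P) (ptI₀₁ B₀₁ P) := by
  have := hC.away₀
  have := hC.away₁
  have := hC.isDomain₀
  have := hC.isDomain₁
  have := hC.omega₀
  have := hC.omega₁
  have := chart_essFiniteType₀ hC
  have := chart_essFiniteType₁ hC
  have l₀ := isLocalization_away_tensor (k := k) A B₀ B₀₁ x
  have l₁ := isLocalization_away_tensor (k := k) A B₁ B₀₁ y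
  have i₀ := algebraMap_tensor_injective (k := k) A B₀ B₀₁ (chart_injective₀ hC)
  have i₁ := algebraMap_tensor_injective (k := k) A B₁ B₀₁ (chart_injective₁ hC)
  rcases P with φ | φ
  · have inv : Module.Invertible (A ⊗[k] B₀) (graphIdeal φ) := graphIdeal_invertible φ
    refine IsCartierTriple.of_isLocalization (Submonoid.powers ((1 : A) ⊗ₜ[k] x))
      (Submonoid.powers ((1 : A) ⊗ₜ[k] y)) rfl ?_ inv ?_
    · exact H851.map_contr ((1 : A) ⊗ₜ[k] y) (graphIdeal φ)
    · exact H851.contr_invertible (A := A) ((1 : A) ⊗ₜ[k] x) ((1 : A) ⊗ₜ[k] y)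
        (chart_mul_eq_one hC A) i₁ (graphIdeal φ)
  · have inv : Module.Invertible (A ⊗[k] B₁) (graphIdeal φ) := graphIdeal_invertible φ
    refine IsCartierTriple.of_isLocalization (Submonoid.powers ((1 : A) ⊗ₜ[k] x))
      (Submonoid.powers ((1 : A) ⊗ₜ[k] y)) ?_ rfl ?_ inv
    · exact H851.map_contr ((1 : A) ⊗ₜ[k] x) (graphIdeal φ)
    · exact H851.contr_invertible (A := A) ((1 : A) ⊗ₜ[k] y) ((1 : A) ⊗ₜ[k] x)
        (chart_mul_eq_one' hC A) i₀ (graphIdeal φ)

/-- **AA1.** Every tuple of chart points defines an effective Cartier divisor. -/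
theorem tupCartier (hC : IsCurveChart k B₀ B₁ B₀₁ x y e) (A : Type u) [CommRing A] [Algebra k A]
    {g : ℕ} (P : Fin g → H746.ChartPt k B₀ B₁ A) : TupCartier (B₀₁ := B₀₁) P := by
  have := hC.away₀
  have := hC.away₁
  have l₀ := isLocalization_away_tensor (k := k) A B₀ B₀₁ x
  have l₁ := isLocalization_away_tensor (k := k) A B₁ B₀₁ y
  exact IsCartierTriple.prod (Submonoid.powers ((1 : A) ⊗ₜ[k] x))
    (Submonoid.powers ((1 : A) ⊗ₜ[k] y)) Finset.univ _ _ _ fun i _ => ptCartier hC A (P i)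

end Pt

end Fermat.Agent.S25.H747

end
-- ===== PACK-END S25/H747/AbCartier.lean

-- ===== PACK-BEGIN S25/H146/LocRigid.lean
section
/-
S25 helper (helper146), assembly AS6, part 5: RIGIDITY, local sectionwise form.

The modules `P` are only "nice" over an open `V` of `X`: they have local generators near the
points of `V` and carry an evaluation `e : P|_V ⟶ (σ_* 𝒪_T)|_V` (a `LocHom V P (funMod σ)`)
sending local generators to units.  For such data:
* `loc_exists_smul_eq` (G4, local): any `f : P|_V ⟶ Q|_V` is `a • f'` for a bijective `f'`;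
* `loc_exists_ratio` (R1): `e' ∘ f = b • e` for a unit `b` on `σ⁻¹ V`;
* `loc_eq_of_normalized` (R2): two normalized bijective `f, f'` (`e' ∘ f = e`) agree, provided
  functions on `V` are determined by their restriction along `σ`;
* `loc_exists_normalized`: bijective `f` can be normalized if restriction along `σ` is bijective.
-/




set_option autoImplicit false

universe u

noncomputable section

open CategoryTheory AlgebraicGeometry TopologicalSpace Opposite

namespace Fermat.Agent.S25.H146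

open Fermat.Agent.S25.H626
open Fermat.Agent.S25.H326 (LocHom funMod pfTo)

variable {X T : Scheme.{u}}

/-! ## Sectionwise morphisms over an open: bijectivity, scaling, generators -/

section LocHomAPI

variable {G : X.Opens} {P Q R : X.Modules}

/-- A sectionwise morphism over `G` is bijective if all its components are. -/
def LocBij (f : LocHom G P Q) : Prop :=
  ∀ (W : X.Opens) (hW : W ≤ G), Function.Bijective (f.app W hW)

theorem locBij_restrict {f : LocHom G P Q} (hf : LocBij f) {G' : X.Opens} (h : G' ≤ G) :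
    LocBij (f.restrict h) := fun W hW => hf W (hW.trans h)

theorem locBij_comp {f : LocHom G P Q} {g : LocHom G Q R} (hf : LocBij f) (hg : LocBij g) :
    LocBij (f.comp g) := fun W hW => (hg W hW).comp (hf W hW)

theorem locBij_id (G : X.Opens) (P : X.Modules) : LocBij (LocHom.id G P) :=
  fun _ _ => Function.bijective_id

/-- Scaling a sectionwise morphism by a function on `G`. -/
def locSmul (a : Γ(X, G)) (f : LocHom G P Q) : LocHom G P Q where
  app W h := AddMonoidHom.mk' (fun s => resO h a • f.app W h s) (fun s s' => by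
    rw [map_add, smul_add])
  app_smul W h r s := by
    simp only [AddMonoidHom.mk'_apply]
    rw [f.app_smul, smul_comm]
  app_res W W' h hle s := by
    simp only [AddMonoidHom.mk'_apply]
    rw [f.app_res, res_smul, resO_resO]

theorem locSmul_app (a : Γ(X, G)) (f : LocHom G P Q) (W : X.Opens) (h : W ≤ G) (s : Γ(P, W)) :
    (locSmul a f).app W h s = resO h a • f.app W h s := rfl

theorem locBij_smul {f : LocHom G P Q} (hf : LocBij f) {a : Γ(X, G)} (ha : IsUnit a) :
    LocBij (locSmul a f) := by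
  intro W h
  have hu : IsUnit (resO h a) := ha.map (X.presheaf.map (homOfLE h).op).hom
  obtain ⟨u, hu⟩ := hu
  have : ((locSmul a f).app W h : Γ(P, W) → Γ(Q, W)) =
      (fun s => (u : Γ(X, W)) • s) ∘ f.app W h := by
    funext s
    rw [locSmul_app, ← hu]
    rfl
  rw [this]
  refine Function.Bijective.comp ?_ (hf W h)
  constructor
  · intro s s' hss'
    have := congrArg (fun s => ((u⁻¹ : (Γ(X, W))ˣ) : Γ(X, W)) • s) hss'
    simpa [smul_smul] using this
  · intro s
    exact ⟨((u⁻¹ : (Γ(X, W))ˣ) : Γ(X, W)) • s, by simp [smul_smul]⟩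

/-- The image of a local generator under a bijective sectionwise morphism is a local
generator. -/
theorem isLocalGenerator_locApp {f : LocHom G P Q} (hf : LocBij f) {W : X.Opens} (h : W ≤ G)
    {s : Γ(P, W)} (hs : IsLocalGenerator P W s) : IsLocalGenerator Q W (f.app W h s) := by
  intro W' hle
  have h1 : (fun r : Γ(X, W') => r • res Q hle (f.app W h s)) =
      f.app W' (hle.trans h) ∘ (fun r : Γ(X, W') => r • res P hle s) := by
    funext r
    simp only [Function.comp_apply]
    rw [f.app_smul, f.app_res]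
  rw [h1]
  exact (hf W' (hle.trans h)).comp (hs W' hle)

/-- A section whose image under a bijective sectionwise morphism is a local generator is a
local generator. -/
theorem isLocalGenerator_of_locApp {f : LocHom G P Q} (hf : LocBij f) {W : X.Opens} (h : W ≤ G)
    {s : Γ(P, W)} (hs : IsLocalGenerator Q W (f.app W h s)) : IsLocalGenerator P W s := by
  intro W' hle
  have h1 : f.app W' (hle.trans h) ∘ (fun r : Γ(X, W') => r • res P hle s) =
      (fun r : Γ(X, W') => r • res Q hle (f.app W h s)) := by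
    funext r
    simp only [Function.comp_apply]
    rw [f.app_smul, f.app_res]
  have h2 : Function.Bijective
      (f.app W' (hle.trans h) ∘ (fun r : Γ(X, W') => r • res P hle s)) := by
    rw [h1]
    exact hs W' hle
  exact (Function.Bijective.of_comp_iff' (hf W' (hle.trans h)) _).mp h2

/-- If `f t = c • f' t` for a local generator `t` on `W₀`, then `f = c • f'` on all sections
over opens `W ≤ W₀`. -/
theorem loc_eq_smul_of_generator {f f' : LocHom G P Q} {W₀ : X.Opens} (h₀ : W₀ ≤ G)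
    {t : Γ(P, W₀)} (ht : IsLocalGenerator P W₀ t) {c : Γ(X, W₀)}
    (hc : f.app W₀ h₀ t = c • f'.app W₀ h₀ t) (W : X.Opens) (hW : W ≤ W₀) (s : Γ(P, W)) :
    f.app W (hW.trans h₀) s = resO hW c • f'.app W (hW.trans h₀) s := by
  obtain ⟨r, hr⟩ := (ht W hW).2 s
  simp only at hr
  rw [← hr, f.app_smul, f'.app_smul, f.app_res W₀ W h₀ hW t, f'.app_res W₀ W h₀ hW t, hc,
    res_smul, smul_comm]

/-- `P` has local generators near every point of `V`. -/
def HasLocalGeneratorsOn (P : X.Modules) (V : X.Opens) : Prop :=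
  ∀ x : X, x ∈ V → ∃ W : X.Opens, x ∈ W ∧ ∃ s : Γ(P, W), IsLocalGenerator P W s

theorem hasLocalGeneratorsOn_mono {P : X.Modules} {V V' : X.Opens}
    (h : _root_.Fermat.Agent.S25.H146.HasLocalGeneratorsOn P V) (hle : V' ≤ V) : _root_.Fermat.Agent.S25.H146.HasLocalGeneratorsOn P V' :=
  fun x hx => h x (hle hx)

theorem hasLocalGeneratorsOn_of_hasLocalGenerators {P : X.Modules} (h : HasLocalGenerators P)
    (V : X.Opens) : _root_.Fermat.Agent.S25.H146.HasLocalGeneratorsOn P V := fun x _ => h x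

/-- Local generators are transported backwards along bijective sectionwise morphisms. -/
theorem hasLocalGeneratorsOn_of_locBij {f : LocHom G P Q} (hf : LocBij f)
    (hQ : _root_.Fermat.Agent.S25.H146.HasLocalGeneratorsOn Q G) : _root_.Fermat.Agent.S25.H146.HasLocalGeneratorsOn P G := by
  intro x hx
  obtain ⟨W, hxW, s, hs⟩ := hQ x hx
  have hle : W ⊓ G ≤ G := inf_le_right
  obtain ⟨s', hs'⟩ := (hf (W ⊓ G) hle).2 (res Q inf_le_left s)
  refine ⟨W ⊓ G, ⟨hxW, hx⟩, s', isLocalGenerator_of_locApp hf hle ?_⟩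
  rw [hs']
  exact isLocalGenerator_res hs inf_le_left

/-- **G4, local sectionwise form.**  Let `P` have local generators on `V` and let
`f' : P|_V ⟶ Q|_V` be bijective.  Then every `f : P|_V ⟶ Q|_V` is of the form `a • f'` for a
function `a` on `V`. -/
theorem loc_exists_smul_eq {V : X.Opens} (hP : _root_.Fermat.Agent.S25.H146.HasLocalGeneratorsOn P V) (f f' : LocHom V P Q)
    (hf' : LocBij f') :
    ∃ a : Γ(X, V), ∀ (W : X.Opens) (hW : W ≤ V) (s : Γ(P, W)),
      f.app W hW s = resO hW a • f'.app W hW s := by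
  choose U hxU s₀ hs₀ using hP
  let Wc : V → X.Opens := fun x => U x.1 x.2 ⊓ V
  have hWV : ∀ x, Wc x ≤ V := fun x => inf_le_right
  let t : ∀ x, Γ(P, Wc x) := fun x => res P inf_le_left (s₀ x.1 x.2)
  have ht : ∀ x, IsLocalGenerator P (Wc x) (t x) := fun x =>
    isLocalGenerator_res (hs₀ x.1 x.2) inf_le_left
  have ht' : ∀ x, IsLocalGenerator Q (Wc x) (f'.app _ (hWV x) (t x)) := fun x =>
    isLocalGenerator_locApp hf' (hWV x) (ht x)
  have hex : ∀ x, ∃ c : Γ(X, Wc x), c • f'.app _ (hWV x) (t x) = f.app _ (hWV x) (t x) :=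
    fun x => (bijective_smul_of_isLocalGenerator (ht' x)).2 _
  choose c hc using hex
  have hPP : ∀ (x : V) (W : X.Opens) (hW : W ≤ Wc x) (s : Γ(P, W)),
      f.app W (hW.trans (hWV x)) s = resO hW (c x) • f'.app W (hW.trans (hWV x)) s :=
    fun x W hW s => loc_eq_smul_of_generator (hWV x) (ht x) (hc x).symm W hW s
  have hcover : V ≤ iSup Wc := by
    intro x hx
    exact Opens.mem_iSup.mpr ⟨⟨x, hx⟩, hxU x hx, hx⟩
  have hcompat : ∀ x y, resO (inf_le_left : Wc x ⊓ Wc y ≤ Wc x) (c x) =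
      resO (inf_le_right : Wc x ⊓ Wc y ≤ Wc y) (c y) := by
    intro x y
    have hu := isLocalGenerator_res (ht' x) (inf_le_left : Wc x ⊓ Wc y ≤ Wc x)
    apply (bijective_smul_of_isLocalGenerator hu).1
    simp only
    have e1 := hPP x (Wc x ⊓ Wc y) inf_le_left (res P inf_le_left (t x))
    have e2 := hPP y (Wc x ⊓ Wc y) inf_le_right (res P inf_le_left (t x))
    rw [f'.app_res (Wc x) (Wc x ⊓ Wc y) (hWV x) inf_le_left (t x)] at e1 e2
    rw [← e1, ← e2]
  obtain ⟨a, ha⟩ := exists_gluing_O Wc V hWV hcover c hcompat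
  refine ⟨a, fun W hW s => ?_⟩
  have hcoverW : W ≤ ⨆ x : V, W ⊓ Wc x := by
    intro x hx
    exact Opens.mem_iSup.mpr ⟨⟨x, hW hx⟩, hx, hxU x (hW hx), hW hx⟩
  apply eq_of_locally_eq_M Q (fun x : V => W ⊓ Wc x) W (fun x => inf_le_left) hcoverW
  intro x
  rw [← f.app_res W (W ⊓ Wc x) hW inf_le_left, res_smul, ← f'.app_res W (W ⊓ Wc x) hW inf_le_left,
    resO_resO, hPP x (W ⊓ Wc x) inf_le_right, ← ha x, resO_resO]

end LocHomAPI

/-! ## Local evaluations -/

section LocEval

variable {σ : T ⟶ X} {P Q : X.Modules} {V : X.Opens}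

/-- The value of a local evaluation `e : P|_V ⟶ (σ_* 𝒪_T)|_V` on a section, as a function on
`σ⁻¹ W`. -/
def locVal (e : LocHom V P (funMod σ)) (W : X.Opens) (h : W ≤ V) (s : Γ(P, W)) :
    Γ(T, σ ⁻¹ᵁ W) :=
  ofUnit T _ (pfTo σ (unitMod T) W (e.app W h s))

theorem locVal_add (e : LocHom V P (funMod σ)) (W : X.Opens) (h : W ≤ V) (s s' : Γ(P, W)) :
    locVal e W h (s + s') = locVal e W h s + locVal e W h s' := by
  unfold locVal
  rw [map_add]
  rfl

theorem locVal_smul (e : LocHom V P (funMod σ)) (W : X.Opens) (h : W ≤ V) (r : Γ(X, W))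
    (s : Γ(P, W)) : locVal e W h (r • s) = σ.app W r * locVal e W h s := by
  unfold locVal
  rw [e.app_smul, H326.pfTo_smul]
  rfl

theorem locVal_res (e : LocHom V P (funMod σ)) (W W' : X.Opens) (h : W ≤ V) (hle : W' ≤ W)
    (s : Γ(P, W)) :
    locVal e W' (hle.trans h) (res P hle s) = resO (σ.preimage_mono hle) (locVal e W h s) := by
  unfold locVal
  rw [e.app_res W W' h hle s, H326.pfTo_res]
  rfl

theorem locVal_restrict (e : LocHom V P (funMod σ)) {V' : X.Opens} (hV : V' ≤ V) (W : X.Opens)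
    (h : W ≤ V') (s : Γ(P, W)) : locVal (e.restrict hV) W h s = locVal e W (h.trans hV) s := rfl

theorem locVal_comp {G : X.Opens} (f : LocHom G P Q) (e : LocHom G Q (funMod σ)) (W : X.Opens)
    (h : W ≤ G) (s : Γ(P, W)) : locVal (f.comp e) W h s = locVal e W h (f.app W h s) := rfl

theorem locVal_ofHom (ev : P ⟶ funMod σ) (W : X.Opens) (h : W ≤ V) (s : Γ(P, W)) :
    locVal (LocHom.ofHom V ev) W h s = H326.evFun ev W s := rfl

/-- A local evaluation is a *unit on generators* if it sends local generators to units. -/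
def LocUnitOnGen (e : LocHom V P (funMod σ)) : Prop :=
  ∀ (W : X.Opens) (h : W ≤ V) (s : Γ(P, W)), IsLocalGenerator P W s → IsUnit (locVal e W h s)

theorem locUnitOnGen_restrict {e : LocHom V P (funMod σ)} (he : LocUnitOnGen e) {V' : X.Opens}
    (hV : V' ≤ V) : LocUnitOnGen (e.restrict hV) := fun W h s hs => he W (h.trans hV) s hs

/-- A sectionwise morphism is *normalized* if it is compatible with the evaluations. -/
def LocNormalized (e : LocHom V P (funMod σ)) (e' : LocHom V Q (funMod σ))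
    (f : LocHom V P Q) : Prop :=
  ∀ (W : X.Opens) (hW : W ≤ V) (s : Γ(P, W)), locVal e' W hW (f.app W hW s) = locVal e W hW s

theorem locNormalized_restrict {e : LocHom V P (funMod σ)} {e' : LocHom V Q (funMod σ)}
    {f : LocHom V P Q} (hf : LocNormalized e e' f) {V' : X.Opens} (hV : V' ≤ V) :
    LocNormalized (e.restrict hV) (e'.restrict hV) (f.restrict hV) :=
  fun W hW s => hf W (hW.trans hV) s

theorem locNormalized_id (e : LocHom V P (funMod σ)) : LocNormalized e e (LocHom.id V P) :=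
  fun _ _ _ => rfl

theorem locNormalized_comp {R : X.Modules} {e : LocHom V P (funMod σ)}
    {e' : LocHom V Q (funMod σ)} {e'' : LocHom V R (funMod σ)} {f : LocHom V P Q}
    {g : LocHom V Q R} (hf : LocNormalized e e' f) (hg : LocNormalized e' e'' g) :
    LocNormalized e e'' (f.comp g) := fun W hW s => by
  rw [LocHom.comp_app, hg, hf]

/-- If `e' (f t) = b * e t` for a local generator `t` on `W₀`, the same holds for all sections
over all opens `W ≤ W₀`. -/
theorem locVal_app_eq_of_generator {e : LocHom V P (funMod σ)} {e' : LocHom V Q (funMod σ)}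
    (f : LocHom V P Q) {W₀ : X.Opens} (h₀ : W₀ ≤ V) {t : Γ(P, W₀)}
    (ht : IsLocalGenerator P W₀ t) {b : Γ(T, σ ⁻¹ᵁ W₀)}
    (hb : locVal e' W₀ h₀ (f.app W₀ h₀ t) = b * locVal e W₀ h₀ t)
    (W : X.Opens) (hW : W ≤ W₀) (s : Γ(P, W)) :
    locVal e' W (hW.trans h₀) (f.app W (hW.trans h₀) s) =
      resO (σ.preimage_mono hW) b * locVal e W (hW.trans h₀) s := by
  obtain ⟨r, hr⟩ := (ht W hW).2 s
  simp only at hr
  rw [← hr, f.app_smul, locVal_smul, locVal_smul, f.app_res W₀ W h₀ hW t,
    locVal_res e' W₀ W h₀ hW, locVal_res e W₀ W h₀ hW, hb, resO_mul]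
  ring

/-- **R1, local form.** The ratio of a bijective sectionwise morphism with respect to two
local evaluations. -/
theorem loc_exists_ratio (hP : _root_.Fermat.Agent.S25.H146.HasLocalGeneratorsOn P V) {e : LocHom V P (funMod σ)}
    {e' : LocHom V Q (funMod σ)} (he : LocUnitOnGen e) (he' : LocUnitOnGen e')
    (f : LocHom V P Q) (hf : LocBij f) :
    ∃ b : Γ(T, σ ⁻¹ᵁ V), IsUnit b ∧ ∀ (W : X.Opens) (hW : W ≤ V) (s : Γ(P, W)),
      locVal e' W hW (f.app W hW s) = resO (σ.preimage_mono hW) b * locVal e W hW s := by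
  choose U hxU s₀ hs₀ using hP
  let I : Type u := {x : T // σ x ∈ V}
  let Wc : I → X.Opens := fun x => U (σ x.1) x.2 ⊓ V
  have hWV : ∀ x, Wc x ≤ V := fun x => inf_le_right
  let t : ∀ x, Γ(P, Wc x) := fun x => res P inf_le_left (s₀ (σ x.1) x.2)
  have ht : ∀ x, IsLocalGenerator P (Wc x) (t x) := fun x =>
    isLocalGenerator_res (hs₀ (σ x.1) x.2) inf_le_left
  have hue : ∀ x, IsUnit (locVal e (Wc x) (hWV x) (t x)) := fun x => he _ _ _ (ht x)
  have hue' : ∀ x, IsUnit (locVal e' (Wc x) (hWV x) (f.app _ (hWV x) (t x))) := fun x =>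
    he' _ _ _ (isLocalGenerator_locApp hf (hWV x) (ht x))
  have hex : ∀ x, ∃ b : Γ(T, σ ⁻¹ᵁ Wc x), IsUnit b ∧
      locVal e' (Wc x) (hWV x) (f.app _ (hWV x) (t x)) = b * locVal e (Wc x) (hWV x) (t x) := by
    intro x
    refine ⟨locVal e' (Wc x) (hWV x) (f.app _ (hWV x) (t x)) *
      ((hue x).unit⁻¹ : (Γ(T, σ ⁻¹ᵁ Wc x))ˣ), (hue' x).mul (Units.isUnit _), ?_⟩
    rw [mul_assoc, IsUnit.val_inv_mul, mul_one]
  choose b hbu hb using hex
  have hPP : ∀ (x : I) (W : X.Opens) (hW : W ≤ Wc x) (s : Γ(P, W)),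
      locVal e' W (hW.trans (hWV x)) (f.app W (hW.trans (hWV x)) s) =
        resO (σ.preimage_mono hW) (b x) * locVal e W (hW.trans (hWV x)) s :=
    fun x W hW s => locVal_app_eq_of_generator f (hWV x) (ht x) (hb x) W hW s
  have hcover : σ ⁻¹ᵁ V ≤ ⨆ x, σ ⁻¹ᵁ Wc x := by
    intro x hx
    exact Opens.mem_iSup.mpr ⟨⟨x, hx⟩, hxU (σ x) hx, hx⟩
  have hcompat : ∀ x y,
      resO (inf_le_left : σ ⁻¹ᵁ Wc x ⊓ σ ⁻¹ᵁ Wc y ≤ σ ⁻¹ᵁ Wc x) (b x) =
        resO (inf_le_right : σ ⁻¹ᵁ Wc x ⊓ σ ⁻¹ᵁ Wc y ≤ σ ⁻¹ᵁ Wc y) (b y) := by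
    intro x y
    have hu : IsUnit (locVal e (Wc x ⊓ Wc y) (inf_le_left.trans (hWV x))
        (res P inf_le_left (t x))) :=
      he _ _ _ (isLocalGenerator_res (ht x) inf_le_left)
    have e1 := hPP x (Wc x ⊓ Wc y) inf_le_left (res P inf_le_left (t x))
    have e2 := hPP y (Wc x ⊓ Wc y) inf_le_right (res P inf_le_left (t x))
    rw [e1] at e2
    exact hu.mul_left_injective e2
  obtain ⟨b₀, hb₀⟩ := exists_gluing_O (fun x => σ ⁻¹ᵁ Wc x) (σ ⁻¹ᵁ V)
    (fun x => σ.preimage_mono (hWV x)) hcover b hcompat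
  refine ⟨b₀, ?_, fun W hW s => ?_⟩
  · apply isUnit_of_locally_isUnit
    intro x hx
    refine ⟨σ ⁻¹ᵁ Wc ⟨x, hx⟩, σ.preimage_mono (hWV _), ⟨hxU (σ x) hx, hx⟩, ?_⟩
    rw [hb₀]
    exact hbu _
  · have hcoverW : σ ⁻¹ᵁ W ≤ ⨆ x : I, σ ⁻¹ᵁ (W ⊓ Wc x) := by
      intro x hx
      exact Opens.mem_iSup.mpr ⟨⟨x, hW hx⟩, hx, hxU (σ x) (hW hx), hW hx⟩
    apply eq_of_locally_eq_O (fun x : I => σ ⁻¹ᵁ (W ⊓ Wc x)) (σ ⁻¹ᵁ W)
      (fun x => σ.preimage_mono inf_le_left) hcoverW
    intro x
    have hA : resO (σ.preimage_mono (inf_le_left : W ⊓ Wc x ≤ W))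
        (locVal e' W hW (f.app W hW s)) =
        locVal e' (W ⊓ Wc x) (inf_le_left.trans hW)
          (f.app (W ⊓ Wc x) (inf_le_left.trans hW) (res P inf_le_left s)) := by
      rw [f.app_res W (W ⊓ Wc x) hW inf_le_left, locVal_res e' W (W ⊓ Wc x) hW inf_le_left]
    have hB := hPP x (W ⊓ Wc x) inf_le_right (res P inf_le_left s)
    have hC : resO (σ.preimage_mono (inf_le_left : W ⊓ Wc x ≤ W))
        (resO (σ.preimage_mono hW) b₀ * locVal e W hW s) =
        resO (σ.preimage_mono (inf_le_right : W ⊓ Wc x ≤ Wc x)) (b x) *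
          locVal e (W ⊓ Wc x) (inf_le_left.trans hW) (res P inf_le_left s) := by
      rw [resO_mul, resO_resO, ← hb₀ x, resO_resO, locVal_res e W (W ⊓ Wc x) hW inf_le_left]
    rw [hA, hB, hC]

/-- **R2 (rigidity), local form.**  Two normalized bijective sectionwise morphisms over `V`
agree, provided functions on `V` are determined by their restrictions along `σ`. -/
theorem loc_eq_of_normalized (hP : _root_.Fermat.Agent.S25.H146.HasLocalGeneratorsOn P V) {e : LocHom V P (funMod σ)}
    {e' : LocHom V Q (funMod σ)} (he : LocUnitOnGen e) (U : T.Opens) (hUV : U ≤ σ ⁻¹ᵁ V)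
    (hinj : ∀ a : Γ(X, V), σ.appLE V U hUV a = 1 → a = 1)
    {f f' : LocHom V P Q} (hf' : LocBij f') (hn : LocNormalized e e' f)
    (hn' : LocNormalized e e' f') : f = f' := by
  obtain ⟨a, ha⟩ := loc_exists_smul_eq hP f f' hf'
  have ha1 : a = 1 := by
    apply hinj
    choose U₀ hxU s₀ hs₀ using hP
    let I : Type u := {x : T // x ∈ U}
    have hcover : U ≤ ⨆ x : I, U ⊓ σ ⁻¹ᵁ (U₀ (σ x.1) (hUV x.2) ⊓ V) := by
      intro x hx
      exact Opens.mem_iSup.mpr ⟨⟨x, hx⟩, hx, hxU (σ x) (hUV hx), hUV hx⟩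
    apply eq_of_locally_eq_O (fun x : I => U ⊓ σ ⁻¹ᵁ (U₀ (σ x.1) (hUV x.2) ⊓ V)) U
      (fun x => inf_le_left) hcover
    intro x
    have ht : IsLocalGenerator P (U₀ (σ x.1) (hUV x.2) ⊓ V)
        (res P inf_le_left (s₀ (σ x.1) (hUV x.2))) :=
      isLocalGenerator_res (hs₀ (σ x.1) (hUV x.2)) inf_le_left
    have hu := he _ inf_le_right _ ht
    have h1 := hn (U₀ (σ x.1) (hUV x.2) ⊓ V) inf_le_right
      (res P inf_le_left (s₀ (σ x.1) (hUV x.2)))
    rw [ha, locVal_smul, hn'] at h1
    have h2 : σ.app (U₀ (σ x.1) (hUV x.2) ⊓ V) (resO inf_le_right a) = 1 := by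
      apply hu.mul_left_injective
      simp only
      rw [h1, one_mul]
    rw [app_resO_eq_appLE] at h2
    have h3 := resO_appLE σ (σ.preimage_mono (inf_le_right : U₀ (σ x.1) (hUV x.2) ⊓ V ≤ V))
      (inf_le_right : U ⊓ σ ⁻¹ᵁ (U₀ (σ x.1) (hUV x.2) ⊓ V) ≤
        σ ⁻¹ᵁ (U₀ (σ x.1) (hUV x.2) ⊓ V)) a
    rw [resO_appLE σ hUV, resO_one, ← h3, h2, resO_one]
  apply LocHom.ext
  intro W hW s
  rw [ha, ha1, resO_one, one_smul]

/-- **Normalization, local form.**  If restriction along `σ` is a bijection from functions on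
`V` to functions on `U = σ⁻¹ V`, every bijective sectionwise morphism can be normalized. -/
theorem loc_exists_normalized (hP : _root_.Fermat.Agent.S25.H146.HasLocalGeneratorsOn P V) {e : LocHom V P (funMod σ)}
    {e' : LocHom V Q (funMod σ)} (he : LocUnitOnGen e) (he' : LocUnitOnGen e') (U : T.Opens)
    (hUV : U ≤ σ ⁻¹ᵁ V) (hVU : σ ⁻¹ᵁ V ≤ U)
    (hbij : Function.Bijective (σ.appLE V U hUV).hom)
    (f : LocHom V P Q) (hf : LocBij f) :
    ∃ f₁ : LocHom V P Q, LocBij f₁ ∧ LocNormalized e e' f₁ := by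
  obtain ⟨b₀, hb₀u, hb₀⟩ := loc_exists_ratio hP he he' f hf
  have hb₁u : IsUnit (resO hUV b₀) := hb₀u.map (T.presheaf.map (homOfLE hUV).op).hom
  obtain ⟨b₁, hb₁⟩ := hb₁u
  obtain ⟨a, ha⟩ := hbij.2 ((b₁⁻¹ : (Γ(T, U))ˣ) : Γ(T, U))
  obtain ⟨a', ha'⟩ := hbij.2 (b₁ : Γ(T, U))
  have haa' : a * a' = 1 := by
    apply hbij.1
    rw [map_mul, ha, ha', map_one, Units.inv_mul]
  have hau : IsUnit a := IsUnit.of_mul_eq_one a' haa'
  refine ⟨locSmul a f, locBij_smul hf hau, fun W hW s => ?_⟩
  rw [locSmul_app, locVal_smul, hb₀, ← mul_assoc]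
  have h1 : σ.app W (resO hW a) = resO ((σ.preimage_mono hW).trans hVU)
      ((b₁⁻¹ : (Γ(T, U))ˣ) : Γ(T, U)) := by
    rw [app_resO_eq_appLE, ← ha]
    exact (resO_appLE σ hUV ((σ.preimage_mono hW).trans hVU) a).symm
  have h2 : resO (σ.preimage_mono hW) b₀ = resO ((σ.preimage_mono hW).trans hVU) (b₁ : Γ(T, U)) := by
    rw [hb₁, resO_resO]
  rw [h1, h2, ← resO_mul, Units.inv_mul, resO_one, one_mul]

end LocEval

end Fermat.Agent.S25.H146

end
end
-- ===== PACK-END S25/H146/LocRigid.lean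

-- ===== PACK-BEGIN S25/H310/ACDeg1.lean
section
/-
S25, block ALGCHARTS, leaf DEG1 (helper310): `finrank_sec`, EXACT statement of helper11's skeleton
(`coord/S25-ALGCHARTS-skeleton.lean`).

If `deg G = 0` and `H¹(G(nE₀)) = 0` then `dim H⁰(G(nE₀)) + g = n d + 1`.
Proof: `sec x n G = Ȟ⁰(G(n))` (H190), `deg G(n) = deg G + n d` (H10), Riemann–Roch in definitional
form (H671) and `h¹(O_K) = h¹(O_k)` (invariance under field extension, H310).
-/





set_option autoImplicit false

universe u

open scoped TensorProduct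

namespace Fermat.Agent.S25.H310

open Fermat.Agent.S25 Fermat.Agent.S25.H10 Fermat.Agent.S25.H11

variable {k : Type u} [Field k] [IsAlgClosed k]
  {B₀ B₁ B₀₁ : Type u} [CommRing B₀] [CommRing B₁] [CommRing B₀₁]
  [Algebra k B₀] [Algebra k B₁] [Algebra k B₀₁] [Algebra B₀ B₀₁] [Algebra B₁ B₀₁]
  [IsScalarTower k B₀ B₀₁] [IsScalarTower k B₁ B₀₁]
  {x : B₀} {y : B₁} {e : B₁ →ₐ[k] k}

section Degree

variable {K : Type u} [Field K] [Algebra k K]

omit [IsAlgClosed k] in
/-- `h¹(O_K) = g`: the genus does not depend on the base field. -/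
theorem finrank_H1_unit_eq_genus (hC : IsCurveChart k B₀ B₁ B₀₁ x y e) :
    Module.finrank K (GlueDatum.unit K (K ⊗[k] B₀) (K ⊗[k] B₁) (K ⊗[k] B₀₁)).H1 =
      Module.finrank k (GlueDatum.unit k (k ⊗[k] B₀) (k ⊗[k] B₁) (k ⊗[k] B₀₁)).H1 :=
  D2.finrank_H1_eq_of_isBC hC (Algebra.ofId k K) (D2.unit_isBC (Algebra.ofId k K))

/-- General form of DEG1, without the hypothesis on the degree:
`dim H⁰(G(nE₀)) + g = deg G + n d + 1` when `H¹(G(nE₀)) = 0`. -/
theorem finrank_sec_add_genus (hC : IsCurveChart k B₀ B₁ B₀₁ x y e) (G : CurveGD k B₀ B₁ B₀₁ K)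
    (n : ℕ) (h0 : P0 x n G) :
    (Module.finrank K (sec x n G) : ℤ) +
        Module.finrank k (GlueDatum.unit k (k ⊗[k] B₀) (k ⊗[k] B₁) (k ⊗[k] B₀₁)).H1 =
      G.degree + n * Module.finrank k (B₁ ⧸ Ideal.span {y}) + 1 := by
  have hsurj : Function.Surjective (twistE x y hC.mul_eq_one G (n : ℤ)).cech := by
    rw [← H190.tcech_eq_twistE_cech hC n G]
    exact h0
  have hH1 : Module.finrank K (twistE x y hC.mul_eq_one G (n : ℤ)).H1 = 0 := by
    have htop : LinearMap.range (twistE x y hC.mul_eq_one G (n : ℤ)).cech = ⊤ :=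
      LinearMap.range_eq_top.mpr hsurj
    have : Subsingleton (twistE x y hC.mul_eq_one G (n : ℤ)).H1 :=
      Submodule.Quotient.subsingleton_iff.mpr htop
    exact Module.finrank_zero_of_subsingleton
  have hRR := H671.finrank_H0_sub_finrank_H1 hC K (twistE x y hC.mul_eq_one G (n : ℤ))
  have hdeg := degree_twistE hC G (n : ℤ)
  have hsec : Module.finrank K (sec x n G) =
      Module.finrank K (twistE x y hC.mul_eq_one G (n : ℤ)).H0 := by
    rw [H190.sec_eq_twistE_H0 hC n G]
    rfl
  rw [hH1, hdeg, finrank_H1_unit_eq_genus hC] at hRR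
  rw [hsec]
  unfold chartDeg at hRR
  push_cast at hRR ⊢
  linarith

/-- DEG1 (`χ(G(nE₀)) = χ(G) + n d`, `χ(O_K) = 1 - g`): if `deg G = 0` and `H¹(G(nE₀)) = 0` then
`dim H⁰(G(nE₀)) = n d + 1 - g`. -/
theorem finrank_sec (hC : IsCurveChart k B₀ B₁ B₀₁ x y e) (G : CurveGD k B₀ B₁ B₀₁ K)
    (hdeg : G.degree = 0) (n : ℕ) (h0 : P0 x n G) :
    Module.Finite K (sec x n G) ∧
      Module.finrank K (sec x n G) +
          Module.finrank k (GlueDatum.unit k (k ⊗[k] B₀) (k ⊗[k] B₁) (k ⊗[k] B₀₁)).H1 =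
        n * Module.finrank k (B₁ ⧸ Ideal.span {y}) + 1 := by
  constructor
  · rw [H190.sec_eq_twistE_H0 hC n G]
    exact H10.finite_H0 hC (twistE x y hC.mul_eq_one G (n : ℤ))
  · have h := finrank_sec_add_genus hC G n h0
    rw [hdeg] at h
    have h' : ((Module.finrank K (sec x n G) +
        Module.finrank k (GlueDatum.unit k (k ⊗[k] B₀) (k ⊗[k] B₁) (k ⊗[k] B₀₁)).H1 : ℕ) : ℤ) =
        ((n * Module.finrank k (B₁ ⧸ Ideal.span {y}) + 1 : ℕ) : ℤ) := by
      push_cast
      linarith
    exact_mod_cast h'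

end Degree

end Fermat.Agent.S25.H310

end
-- ===== PACK-END S25/H310/ACDeg1.lean

-- ===== PACK-BEGIN S25/H326/RigGlue.lean
section
/-
S25 helper (helper326), assembly block AS6 (`Stmt.SheafGlue`), part 2: gluing of rigidified
modules, abstract form.

`σ : T ⟶ X` a morphism of schemes, `G i` an open cover of `X`, `P i` modules on `X` with
rigidifications over `G i` (`RigLoc σ (G i) (P i)`), and *some* sectionwise isomorphisms
`P i ≅ P j` over `G i ⊓ G j` (no cocycle condition).  If `σ^♯` is bijective on the double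
intersections and injective on the triple intersections, the `P i` glue to a module `M` with a
rigidifying evaluation `M ⟶ σ_* 𝒪_T`.
-/




set_option autoImplicit false
set_option linter.unusedVariables false

universe u

noncomputable section

open CategoryTheory AlgebraicGeometry TopologicalSpace Opposite Limits

namespace Fermat.Agent.S25.H326

open Fermat.Agent.S25.H626 (res resO res_res res_smul res_add app_res hom_ext_apply resO_resO
  unitMod toUnit ofUnit IsLocalGenerator eq_of_locally_eq_M eq_of_locally_eq_O exists_gluing_O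
  resO_mul resO_one)

variable {X T : Scheme.{u}}

/-- Functions on `σ⁻¹ W` as sections of `σ_* 𝒪_T` over `W` (the identity). -/
def toFunMod (σ : T ⟶ X) (W : X.Opens) : Γ(T, σ ⁻¹ᵁ W) →+ Γ(funMod σ, W) := AddMonoidHom.id _

theorem evFun_of_app_eq {σ : T ⟶ X} {L : X.Modules} (ev : L ⟶ funMod σ) (W : X.Opens)
    (s : Γ(L, W)) (a : Γ(T, σ ⁻¹ᵁ W)) (h : ev.app W s = toFunMod σ W a) : evFun ev W s = a := by
  unfold evFun
  rw [h]
  rfl

section Cover

variable {ι : Type u} (G : ι → X.Opens)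

/-- The opens contained in a member of the family `G`. -/
def coverSet : Set X.Opens := {W | ∃ i, W ≤ G i}

theorem isDownBasis_coverSet (hG : ⨆ i, G i = ⊤) : H926.IsDownBasis (coverSet G) where
  down := fun ⟨i, hi⟩ h => ⟨i, h.trans hi⟩
  cover := fun V x hx => by
    have hx' : x ∈ ⨆ i, G i := by rw [hG]; trivial
    obtain ⟨i, hi⟩ := Opens.mem_iSup.mp hx'
    exact Opens.mem_iSup.mpr ⟨⟨V ⊓ G i, ⟨i, inf_le_right⟩, inf_le_left⟩, hx, hi⟩

end Cover

/-- **Gluing of rigidified modules** (abstract form of `Stmt.SheafGlue`). -/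
theorem exists_rigidified_glue {ι : Type u} (σ : T ⟶ X) (G : ι → X.Opens)
    (hG : ⨆ i, G i = ⊤) (P : ι → X.Modules) (R : ∀ i, RigLoc σ (G i) (P i))
    (hbij : ∀ i j, Function.Bijective (σ.app (G i ⊓ G j)))
    (hinj : ∀ i j k, Function.Injective (σ.app (G i ⊓ G j ⊓ G k)))
    (τ : ∀ i j, LocHom (G i ⊓ G j) (P i) (P j)) (hτ : ∀ i j, (τ i j).IsBij) :
    ∃ (M : X.Modules) (ev : M ⟶ funMod σ) (e : ∀ i, LocHom (G i) M (P i)),
      (∀ i, (e i).IsBij) ∧ IsRigidifying ev := by
  -- normalise the transition maps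
  have hnorm : ∀ i j, ∃ τ' : LocHom (G i ⊓ G j) (P i) (P j), τ'.IsBij ∧
      RigLoc.IsNormalised ((R i).restrict inf_le_left) ((R j).restrict inf_le_right) τ' :=
    fun i j => RigLoc.exists_isNormalised _ _ (hbij i j) (τ i j) (hτ i j)
  choose τ' hτ'b hτ'n using hnorm
  have hn : ∀ (i j : ι) (W : X.Opens) (hW : W ≤ G i ⊓ G j) (s : Γ(P i, W)),
      (R j).val W (hW.trans inf_le_right) ((τ' i j).app W hW s) =
        (R i).val W (hW.trans inf_le_left) s := fun i j W hW s => hτ'n i j W hW s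
  -- the cocycle condition holds automatically
  have hself : ∀ (i : ι) (W : X.Opens) (hW : W ≤ G i ⊓ G i) (s : Γ(P i, W)),
      (τ' i i).app W hW s = s := by
    intro i W hW s
    have h := RigLoc.eq_of_isNormalised ((R i).restrict inf_le_left)
      ((R i).restrict inf_le_right) (hbij i i).1 (φ := τ' i i)
      (φ' := LocHom.id (G i ⊓ G i) (P i)) (LocHom.isBij_id _ _) (hτ'n i i)
      (fun W hW s => rfl)
    rw [h]
    rfl
  have hcoc : ∀ (i j k : ι) (W : X.Opens) (hij : W ≤ G i ⊓ G j) (hjk : W ≤ G j ⊓ G k)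
      (hik : W ≤ G i ⊓ G k) (s : Γ(P i, W)),
      (τ' j k).app W hjk ((τ' i j).app W hij s) = (τ' i k).app W hik s := by
    intro i j k W hij hjk hik s
    have h1 : G i ⊓ G j ⊓ G k ≤ G i ⊓ G j := inf_le_left
    have h2 : G i ⊓ G j ⊓ G k ≤ G j ⊓ G k := le_inf (inf_le_left.trans inf_le_right) inf_le_right
    have h3 : G i ⊓ G j ⊓ G k ≤ G i ⊓ G k := le_inf (inf_le_left.trans inf_le_left) inf_le_right
    have h := RigLoc.eq_of_isNormalised ((R i).restrict (h1.trans inf_le_left))
      ((R k).restrict (h2.trans inf_le_right)) (hinj i j k)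
      (φ := ((τ' i j).restrict h1).comp ((τ' j k).restrict h2))
      (φ' := (τ' i k).restrict h3) ((hτ'b i k).restrict h3)
      (fun W hW s => by
        show (R k).val W _ ((τ' j k).app W _ ((τ' i j).app W _ s)) = (R i).val W _ s
        rw [hn j k W (hW.trans h2), hn i j W (hW.trans h1)])
      (fun W hW s => hn i k W (hW.trans h3) s)
    have hW : W ≤ G i ⊓ G j ⊓ G k := le_inf hij (hjk.trans inf_le_right)
    exact congrArg (fun φ : LocHom (G i ⊓ G j ⊓ G k) (P i) (P k) => φ.app W hW s) h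
  -- glue
  obtain ⟨M, e, he, hcompat⟩ : ∃ (M : X.Modules) (e : ∀ i, LocHom (G i) M (P i)),
      (∀ i, (e i).IsBij) ∧ ∀ (i j : ι) (W : X.Opens) (hW : W ≤ G i ⊓ G j) (s : Γ(M, W)),
        (τ' i j).app W hW ((e i).app W (hW.trans inf_le_left) s) =
          (e j).app W (hW.trans inf_le_right) s :=
    exists_glue ({ G := G, P := P, τ := τ', τ_self := hself, τ_cocycle := hcoc } : GlueData X ι)
  have key : ∀ (i j : ι) (W : X.Opens) (hi : W ≤ G i) (hj : W ≤ G j) (s : Γ(M, W)),
      (R i).val W hi ((e i).app W hi s) = (R j).val W hj ((e j).app W hj s) := by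
    intro i j W hi hj s
    have h1 := hcompat i j W (le_inf hi hj) s
    have h2 := hn i j W (le_inf hi hj) ((e i).app W hi s)
    rw [← h2]
    exact congrArg _ h1
  -- the glued evaluation
  have hB := isDownBasis_coverSet G hG
  let D : H926.BasisHomData (coverSet G) M (funMod σ) :=
    { a := fun W hW => (toFunMod σ W).comp
        (((R hW.choose).val W hW.choose_spec).comp ((e hW.choose).app W hW.choose_spec))
      nat := fun W W' hW hW' h s => by
        show toFunMod σ W' ((R hW'.choose).val W' hW'.choose_spec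
            ((e hW'.choose).app W' hW'.choose_spec (res M h s))) =
          res (funMod σ) h (toFunMod σ W ((R hW.choose).val W hW.choose_spec
            ((e hW.choose).app W hW.choose_spec s)))
        rw [key hW'.choose hW.choose W' hW'.choose_spec (h.trans hW.choose_spec),
          (e hW.choose).app_res W W' hW.choose_spec h,
          (R hW.choose).val_res W W' hW.choose_spec h]
        rfl
      lin := fun W hW r s => by
        show toFunMod σ W ((R hW.choose).val W hW.choose_spec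
            ((e hW.choose).app W hW.choose_spec (r • s))) =
          r • toFunMod σ W ((R hW.choose).val W hW.choose_spec
            ((e hW.choose).app W hW.choose_spec s))
        rw [(e hW.choose).app_smul, (R hW.choose).val_smul]
        rfl }
  have hev : ∀ (i : ι) (W : X.Opens) (hi : W ≤ G i) (s : Γ(M, W)),
      evFun (D.glue hB) W s = (R i).val W hi ((e i).app W hi s) := by
    intro i W hi s
    have hW : W ∈ coverSet G := ⟨i, hi⟩
    apply evFun_of_app_eq
    rw [D.glue_app_of_mem hB W hW s]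
    show toFunMod σ W ((R hW.choose).val W hW.choose_spec
        ((e hW.choose).app W hW.choose_spec s)) = _
    rw [key hW.choose i W hW.choose_spec hi]
  refine ⟨M, D.glue hB, e, he, fun t => ?_⟩
  have hx : σ t ∈ ⨆ i, G i := by rw [hG]; trivial
  obtain ⟨i, hi⟩ := Opens.mem_iSup.mp hx
  obtain ⟨W, s, hWG, hxW, hs⟩ := (R i).gen (σ t) hi
  refine ⟨W, ((e i).symm (he i)).app W hWG s, hxW,
    LocHom.isLocalGenerator_app (LocHom.isBij_symm (e i) (he i)) hWG hs, ?_⟩
  rw [hev i W hWG, LocHom.apply_symm_apply]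
  exact (R i).unit W hWG s hs

end Fermat.Agent.S25.H326

end

end
-- ===== PACK-END S25/H326/RigGlue.lean

-- ===== PACK-BEGIN S26/H70/CubeNat.lean
section


/-!
# Row S26, block CUBE, leaf C5 (`cube_of`), part (a): naturality and the universal case
(helper70)

* `theta_natural` : `ψ^* Θ(a, b, c; M) = Θ(ψ^*a, ψ^*b, ψ^*c; M)`;
* `theta_eq_map_univ` : every `Θ(a, b, c; M)` is a pull-back of the universal one on
  `A × (A × A)`;
* `theta_pushPt` : compatibility of `Θ` with a base change of the abelian variety;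
* `theta_self_one_one` : `Θ(a, 0, 0; M) = 0`.
-/

set_option autoImplicit false
universe u

open CategoryTheory CategoryTheory.Limits AlgebraicGeometry NeronModelInfra GoodReductionJacobian

namespace Fermat.Agent.S26.H70

noncomputable section

variable {K : Type u} [Field K] {X : AbVar K} {T : PicTheory.{u}}

/-- `ψ^* (a b)^* M = ((ψ^* a)(ψ^* b))^* M`. -/
theorem map_map_mul {S S' : Scheme.{u}} (s : S ⟶ Spec (CommRingCat.of K))
    (s' : S' ⟶ Spec (CommRingCat.of K)) (ψ : S' ⟶ S) (hψ : ψ ≫ s = s') (a b : X.SPt s)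
    (M : T.Pic X.A) :
    T.map ψ (T.map (X.law.mul s a b).1 M) =
      T.map (X.law.mul s' (schemeHomOverComp ψ hψ a) (schemeHomOverComp ψ hψ b)).1 M := by
  rw [← T.map_comp, ← X.law.mul_natural s s' ψ hψ a b]
  rfl

/-- `ψ^* a^* M = (ψ^* a)^* M`. -/
theorem map_map_pt {S S' : Scheme.{u}} (s : S ⟶ Spec (CommRingCat.of K))
    (s' : S' ⟶ Spec (CommRingCat.of K)) (ψ : S' ⟶ S) (hψ : ψ ≫ s = s') (a : X.SPt s)
    (M : T.Pic X.A) :
    T.map ψ (T.map a.1 M) = T.map (schemeHomOverComp ψ hψ a).1 M := by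
  rw [← T.map_comp]
  rfl

/-- Naturality of the cube class. -/
theorem theta_natural {S S' : Scheme.{u}} (s : S ⟶ Spec (CommRingCat.of K))
    (s' : S' ⟶ Spec (CommRingCat.of K)) (ψ : S' ⟶ S) (hψ : ψ ≫ s = s') (a b c : X.SPt s)
    (M : T.Pic X.A) :
    T.map ψ (X.theta T s a b c M) =
      X.theta T s' (schemeHomOverComp ψ hψ a) (schemeHomOverComp ψ hψ b)
        (schemeHomOverComp ψ hψ c) M := by
  simp only [AbVar.theta, map_add, map_sub]
  rw [map_map_mul s s' ψ hψ, map_map_mul s s' ψ hψ, map_map_mul s s' ψ hψ,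
    map_map_mul s s' ψ hψ, map_map_pt s s' ψ hψ, map_map_pt s s' ψ hψ,
    map_map_pt s s' ψ hψ, X.law.mul_natural s s' ψ hψ a b]

/-- `Θ(a, 0, 0; M) = 0`. -/
theorem theta_self_one_one (hT : T.IsLocal) {S : Scheme.{u}}
    (s : S ⟶ Spec (CommRingCat.of K)) (a : X.SPt s) (M : T.Pic X.A) :
    X.theta T s a (X.law.one s) (X.law.one s) M = 0 := by
  rw [AbVar.theta, X.law.mul_one, X.law.mul_one, X.law.mul_one, map_one_eq_zero hT]
  abel

/-! ## The universal case -/

section Univ

variable (X)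

/-- `A × (A × A)`. -/
abbrev S₀ : Scheme.{u} := pullback X.str (prodStr X.str X.str)

/-- The structure map of `A × (A × A)`. -/
abbrev s₀ : S₀ X ⟶ Spec (CommRingCat.of K) := prodStr X.str (prodStr X.str X.str)

/-- The first universal point. -/
def a₀ : X.SPt (s₀ X) := ⟨pullback.fst _ _, rfl⟩

/-- The second universal point. -/
def b₀ : X.SPt (s₀ X) :=
  ⟨pullback.snd X.str (prodStr X.str X.str) ≫ pullback.fst X.str X.str, by
    rw [Category.assoc]
    exact (pullback.condition (f := X.str) (g := prodStr X.str X.str)).symm⟩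

/-- The third universal point. -/
def c₀ : X.SPt (s₀ X) :=
  ⟨pullback.snd X.str (prodStr X.str X.str) ≫ pullback.snd X.str X.str, by
    rw [Category.assoc, ← pullback.condition (f := X.str) (g := X.str)]
    exact (pullback.condition (f := X.str) (g := prodStr X.str X.str)).symm⟩

/-- The universal cube class on `A × (A × A)`. -/
def N₀ (T : PicTheory.{u}) (M : T.Pic X.A) : T.Pic (S₀ X) :=
  X.theta T (s₀ X) (a₀ X) (b₀ X) (c₀ X) M

variable {X}

/-- The classifying map `(a, (b, c)) : S ⟶ A × (A × A)`. -/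
def classMap {S : Scheme.{u}} (s : S ⟶ Spec (CommRingCat.of K)) (a b c : X.SPt s) :
    S ⟶ S₀ X :=
  pullback.lift a.1 (pullback.lift b.1 c.1 (by rw [b.2, c.2]))
    (by rw [a.2, pullback.lift_fst_assoc, b.2])

theorem classMap_s₀ {S : Scheme.{u}} (s : S ⟶ Spec (CommRingCat.of K)) (a b c : X.SPt s) :
    classMap s a b c ≫ s₀ X = s := by
  rw [classMap, pullback.lift_fst_assoc, a.2]

theorem classMap_a₀ {S : Scheme.{u}} (s : S ⟶ Spec (CommRingCat.of K)) (a b c : X.SPt s) :
    schemeHomOverComp (classMap s a b c) (classMap_s₀ s a b c) (a₀ X) = a :=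
  Subtype.ext (by
    show classMap s a b c ≫ pullback.fst _ _ = a.1
    rw [classMap, pullback.lift_fst])

theorem classMap_b₀ {S : Scheme.{u}} (s : S ⟶ Spec (CommRingCat.of K)) (a b c : X.SPt s) :
    schemeHomOverComp (classMap s a b c) (classMap_s₀ s a b c) (b₀ X) = b :=
  Subtype.ext (by
    show classMap s a b c ≫ pullback.snd _ _ ≫ pullback.fst _ _ = b.1
    rw [classMap, pullback.lift_snd_assoc, pullback.lift_fst])

theorem classMap_c₀ {S : Scheme.{u}} (s : S ⟶ Spec (CommRingCat.of K)) (a b c : X.SPt s) :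
    schemeHomOverComp (classMap s a b c) (classMap_s₀ s a b c) (c₀ X) = c :=
  Subtype.ext (by
    show classMap s a b c ≫ pullback.snd _ _ ≫ pullback.snd _ _ = c.1
    rw [classMap, pullback.lift_snd_assoc, pullback.lift_snd])

/-- Every cube class is a pull-back of the universal one. -/
theorem theta_eq_map_univ {S : Scheme.{u}} (s : S ⟶ Spec (CommRingCat.of K))
    (a b c : X.SPt s) (M : T.Pic X.A) :
    X.theta T s a b c M = T.map (classMap s a b c) (N₀ X T M) := by
  rw [N₀, theta_natural (s₀ X) s (classMap s a b c) (classMap_s₀ s a b c), classMap_a₀,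
    classMap_b₀, classMap_c₀]

/-- Pull-back of the universal class along any morphism, in terms of points. -/
theorem map_N₀ {S : Scheme.{u}} (s : S ⟶ Spec (CommRingCat.of K)) (ψ : S ⟶ S₀ X)
    (hψ : ψ ≫ s₀ X = s) (a b c : X.SPt s) (ha : ψ ≫ (a₀ X).1 = a.1) (hb : ψ ≫ (b₀ X).1 = b.1)
    (hc : ψ ≫ (c₀ X).1 = c.1) (M : T.Pic X.A) :
    T.map ψ (N₀ X T M) = X.theta T s a b c M := by
  rw [N₀, theta_natural (s₀ X) s ψ hψ]
  congr 1 <;> exact Subtype.ext (by assumption)

end Univ

/-! ## Base change of the abelian variety -/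

section BC

variable {K' : Type u} [Field K'] {X' : AbVar K'}
  {ρ : Spec (CommRingCat.of K') ⟶ Spec (CommRingCat.of K)} (π : X'.A ⟶ X.A)
  (hπ : π ≫ X.str = X'.str ≫ ρ)
  (hmul : ∀ {S : Scheme.{u}} (s : S ⟶ Spec (CommRingCat.of K')) (a b : X'.SPt s),
    (X'.law.mul s a b).1 ≫ π =
      (X.law.mul (s ≫ ρ) (pushPt π hπ s a) (pushPt π hπ s b)).1)

include hmul in
theorem pushPt_mul {S : Scheme.{u}} (s : S ⟶ Spec (CommRingCat.of K')) (a b : X'.SPt s) :
    pushPt π hπ s (X'.law.mul s a b) =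
      X.law.mul (s ≫ ρ) (pushPt π hπ s a) (pushPt π hπ s b) :=
  Subtype.ext (hmul s a b)

theorem map_pushPt {S : Scheme.{u}} (s : S ⟶ Spec (CommRingCat.of K')) (a : X'.SPt s)
    (M : T.Pic X.A) : T.map (pushPt π hπ s a).1 M = T.map a.1 (T.map π M) := by
  rw [← T.map_comp]
  rfl

include hmul in
/-- Compatibility of the cube class with a base change of the abelian variety. -/
theorem theta_pushPt {S : Scheme.{u}} (s : S ⟶ Spec (CommRingCat.of K')) (a b c : X'.SPt s)
    (M : T.Pic X.A) :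
    X.theta T (s ≫ ρ) (pushPt π hπ s a) (pushPt π hπ s b) (pushPt π hπ s c) M =
      X'.theta T s a b c (T.map π M) := by
  rw [AbVar.theta, AbVar.theta, ← pushPt_mul π hπ hmul, ← pushPt_mul π hπ hmul,
    ← pushPt_mul π hπ hmul, ← pushPt_mul π hπ hmul]
  simp only [map_pushPt]

end BC

end

end Fermat.Agent.S26.H70

end
-- ===== PACK-END S26/H70/CubeNat.lean

-- ===== PACK-BEGIN S26/H926/AmpleSpan.lean
section



/-!
# Row S26, block AMPLE: calculus of principal fractional ideals at a point (helper926)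

Pure algebra in the function field `K(X)` over the local ring `O_x`:
`InO x f` (`f ∈ O_x`), `Eff x f` (`f⁻¹ ∈ O_x`), `Triv x f` (`f ∈ O_xˣ`), their behaviour under
products, and (given `FFStalk`) under pull-back of rational functions.
-/

set_option autoImplicit false
universe u

open CategoryTheory CategoryTheory.Limits AlgebraicGeometry NeronModelInfra GoodReductionJacobian

namespace Fermat.Agent.S26.H926

open Fermat.Agent.S26

noncomputable section

namespace Ample

section Span

variable {X : Scheme.{u}} [IsIntegral X] (x : X)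

/-- `f` has at most poles at `x`: `1 ∈ O_x · f`, i.e. `f⁻¹ ∈ O_x`. -/
def Eff (f : X.functionField) : Prop := (1 : X.functionField) ∈ LS.span1 f x

variable {x}

theorem mem_span1_iff {f g : X.functionField} :
    g ∈ LS.span1 f x ↔ ∃ c : X.presheaf.stalk x, c • f = g :=
  Submodule.mem_span_singleton

theorem span1_le_iff {f g : X.functionField} :
    LS.span1 g x ≤ LS.span1 f x ↔ g ∈ LS.span1 f x :=
  Submodule.span_singleton_le_iff_mem _ _

theorem span1_eq_iff {f g : X.functionField} :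
    LS.span1 f x = LS.span1 g x ↔ f ∈ LS.span1 g x ∧ g ∈ LS.span1 f x := by
  rw [le_antisymm_iff, span1_le_iff, span1_le_iff]

theorem self_mem_span1 (f : X.functionField) : f ∈ LS.span1 f x :=
  Submodule.mem_span_singleton_self f

theorem inO_iff {f : X.functionField} :
    InO x f ↔ ∃ c : X.presheaf.stalk x, algebraMap _ X.functionField c = f := by
  rw [InO, mem_span1_iff]
  simp only [Algebra.smul_def, mul_one]

theorem eff_iff {f : X.functionField} :
    Eff x f ↔ ∃ c : X.presheaf.stalk x, algebraMap _ X.functionField c * f = 1 := by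
  rw [Eff, mem_span1_iff]
  simp only [Algebra.smul_def]

theorem triv_iff {f : X.functionField} : Triv x f ↔ InO x f ∧ Eff x f := by
  rw [Triv, span1_eq_iff]
  rfl

theorem Eff.ne_zero {f : X.functionField} (h : Eff x f) : f ≠ 0 := by
  rintro rfl
  obtain ⟨c, hc⟩ := eff_iff.1 h
  rw [mul_zero] at hc
  exact zero_ne_one hc

theorem Eff.inO_inv {f : X.functionField} (h : Eff x f) : InO x f⁻¹ := by
  obtain ⟨c, hc⟩ := eff_iff.1 h
  refine inO_iff.2 ⟨c, ?_⟩
  exact eq_inv_of_mul_eq_one_left hc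

theorem eff_of_inO_inv {f : X.functionField} (hf : f ≠ 0) (h : InO x f⁻¹) : Eff x f := by
  obtain ⟨c, hc⟩ := inO_iff.1 h
  exact eff_iff.2 ⟨c, by rw [hc, inv_mul_cancel₀ hf]⟩

theorem inO_one : InO x (1 : X.functionField) := self_mem_span1 1

theorem eff_one : Eff x (1 : X.functionField) := self_mem_span1 1

theorem triv_one : Triv x (1 : X.functionField) := rfl

theorem InO.mul {f g : X.functionField} (hf : InO x f) (hg : InO x g) : InO x (f * g) := by
  obtain ⟨c, rfl⟩ := inO_iff.1 hf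
  obtain ⟨d, rfl⟩ := inO_iff.1 hg
  exact inO_iff.2 ⟨c * d, map_mul _ _ _⟩

theorem Eff.mul {f g : X.functionField} (hf : Eff x f) (hg : Eff x g) : Eff x (f * g) := by
  obtain ⟨c, hc⟩ := eff_iff.1 hf
  obtain ⟨d, hd⟩ := eff_iff.1 hg
  refine eff_iff.2 ⟨c * d, ?_⟩
  rw [map_mul, mul_mul_mul_comm, hc, hd, mul_one]

theorem Triv.mul {f g : X.functionField} (hf : Triv x f) (hg : Triv x g) : Triv x (f * g) :=
  triv_iff.2 ⟨(triv_iff.1 hf).1.mul (triv_iff.1 hg).1, (triv_iff.1 hf).2.mul (triv_iff.1 hg).2⟩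

theorem Triv.inv {f : X.functionField} (hf : Triv x f) : Triv x f⁻¹ := by
  obtain ⟨h1, h2⟩ := triv_iff.1 hf
  refine triv_iff.2 ⟨h2.inO_inv, eff_of_inO_inv (inv_ne_zero h2.ne_zero) ?_⟩
  rwa [inv_inv]

/-- For functions with at most poles, a product is a unit iff both factors are. -/
theorem triv_mul_iff {f g : X.functionField} (hf : Eff x f) (hg : Eff x g) :
    Triv x (f * g) ↔ Triv x f ∧ Triv x g := by
  constructor
  · intro h
    obtain ⟨h1, -⟩ := triv_iff.1 h
    constructor
    · refine triv_iff.2 ⟨?_, hf⟩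
      have := h1.mul hg.inO_inv
      rwa [mul_assoc, mul_inv_cancel₀ hg.ne_zero, mul_one] at this
    · refine triv_iff.2 ⟨?_, hg⟩
      have := h1.mul hf.inO_inv
      rwa [mul_comm f g, mul_assoc, mul_inv_cancel₀ hf.ne_zero, mul_one] at this
  · rintro ⟨h1, h2⟩
    exact h1.mul h2

theorem eff_congr {f f' : X.functionField} (h : LS.span1 f x = LS.span1 f' x) :
    Eff x f ↔ Eff x f' := by
  rw [Eff, Eff, h]

theorem triv_congr {f f' : X.functionField} (h : LS.span1 f x = LS.span1 f' x) :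
    Triv x f ↔ Triv x f' := by
  rw [Triv, Triv, h]

theorem span1_mul_congr_right {f f' : X.functionField} (g : X.functionField)
    (h : LS.span1 f x = LS.span1 f' x) : LS.span1 (g * f) x = LS.span1 (g * f') x := by
  rw [LS.span1_mul, LS.span1_mul, h]

theorem span1_mul_congr_left {f f' : X.functionField} (g : X.functionField)
    (h : LS.span1 f x = LS.span1 f' x) : LS.span1 (f * g) x = LS.span1 (f' * g) x := by
  rw [mul_comm f g, mul_comm f' g]
  exact span1_mul_congr_right g h

theorem span1_mul_congr {f f' g g' : X.functionField}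
    (h : LS.span1 f x = LS.span1 f' x) (h' : LS.span1 g x = LS.span1 g' x) :
    LS.span1 (f * g) x = LS.span1 (f' * g') x :=
  (span1_mul_congr_left g h).trans (span1_mul_congr_right f' h')

theorem span1_pow_congr {f f' : X.functionField} (h : LS.span1 f x = LS.span1 f' x) (r : ℕ) :
    LS.span1 (f ^ r) x = LS.span1 (f' ^ r) x := by
  induction r with
  | zero => simp only [pow_zero]
  | succ r ih =>
    rw [pow_succ, pow_succ]
    exact span1_mul_congr ih h

/-- Cancellation of a nonzero factor. -/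
theorem span1_mul_cancel {f f' g : X.functionField} (hg : g ≠ 0)
    (h : LS.span1 (g * f) x = LS.span1 (g * f') x) : LS.span1 f x = LS.span1 f' x := by
  rw [LS.span1_mul, LS.span1_mul] at h
  exact LS.map_mulL_injective x hg h

theorem triv_iff_span1_mul {h p : X.functionField} (hh : h ≠ 0) :
    Triv x p ↔ LS.span1 (h * p) x = LS.span1 h x := by
  constructor
  · intro hp
    have := span1_mul_congr_right (x := x) h hp
    rwa [mul_one] at this
  · intro hp
    refine span1_mul_cancel hh ?_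
    rwa [mul_one]

end Span

section Pullback

variable {X Y : Scheme.{u}} [IsIntegral X] [IsIntegral Y] (hS : FFStalk.{u})
  (φ : X ⟶ Y) (h : φ (genericPoint X) = genericPoint Y) (x : X)

include hS

theorem inO_ffMap {f : Y.functionField} (hf : InO (φ x) f) : InO x (ffMap φ h f) :=
  (hS X Y φ h x f hf).1

theorem eff_ffMap {f : Y.functionField} (hf : Eff (φ x) f) : Eff x (ffMap φ h f) := by
  refine eff_of_inO_inv ((map_ne_zero _).2 hf.ne_zero) ?_
  rw [← map_inv₀]
  exact inO_ffMap hS φ h x hf.inO_inv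

theorem triv_ffMap {f : Y.functionField} (hf : Triv (φ x) f) : Triv x (ffMap φ h f) :=
  triv_iff.2 ⟨inO_ffMap hS φ h x (triv_iff.1 hf).1, eff_ffMap hS φ h x (triv_iff.1 hf).2⟩

/-- For a function with at most poles at `φ x`: its pull-back is a unit at `x` iff it is a
unit at `φ x`. -/
theorem triv_ffMap_iff {f : Y.functionField} (hf : Eff (φ x) f) :
    Triv x (ffMap φ h f) ↔ Triv (φ x) f := by
  refine ⟨fun ht => ?_, triv_ffMap hS φ h x⟩
  have h1 : Triv x (ffMap φ h f⁻¹) := by
    rw [map_inv₀]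
    exact ht.inv
  have h2 := (hS X Y φ h x f⁻¹ hf.inO_inv).2 h1
  have := h2.inv
  rwa [inv_inv] at this

theorem mem_span1_ffMap {f g : Y.functionField} (hg : g ∈ LS.span1 f (φ x)) :
    ffMap φ h g ∈ LS.span1 (ffMap φ h f) x := by
  obtain ⟨c, rfl⟩ := mem_span1_iff.1 hg
  obtain ⟨d, hd⟩ := inO_iff.1 (inO_ffMap hS φ h x (inO_iff.2 ⟨c, rfl⟩))
  refine mem_span1_iff.2 ⟨d, ?_⟩
  rw [Algebra.smul_def, Algebra.smul_def, map_mul, hd]

/-- Pull-back preserves equality of principal fractional ideals. -/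
theorem span1_ffMap_congr {f f' : Y.functionField}
    (hf : LS.span1 f (φ x) = LS.span1 f' (φ x)) :
    LS.span1 (ffMap φ h f) x = LS.span1 (ffMap φ h f') x := by
  obtain ⟨h1, h2⟩ := span1_eq_iff.1 hf
  exact span1_eq_iff.2 ⟨mem_span1_ffMap hS φ h x h1, mem_span1_ffMap hS φ h x h2⟩

end Pullback

end Ample

end

end Fermat.Agent.S26.H926

end
-- ===== PACK-END S26/H926/AmpleSpan.lean

-- ===== PACK-BEGIN S27/H323/Tensor.lean
section





/-!
# Row S27, leaf TENSOR + block G-ALG (helper323)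

* `tensorExists : Stmt.TensorExists` — the leaf, in EXACTLY the shape of `S27/Spec.lean`.
* `isTensor_iff_h323 : IsTensor G G' H ↔ (S25.H325.tensorGD G G').IsIso H` — the key lemma: the
  frozen `IsTensor` is the Picard calculus of `S25.H325` up to `IsIso`.
* G-ALG (pure algebra wanted by GRP, blueprint `coord/S27.md` §GRP): `IsTensor` is invariant
  under `IsIso` in each argument (`isTensor_congr_h323`), the tensor is unique up to `IsIso`
  (`isTensor_unique_h323`), commutative (`isTensor_comm_h323`), associative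
  (`isTensor_assoc_h323`), has the unit datum as unit (`isTensor_unit_left_h323`,
  `isTensor_unit_right_h323`), has inverses (`exists_isTensor_unit_left_h323`,
  `exists_isTensor_unit_right_h323`, the dual datum), and commutes with base change
  (`isTensor_isBC_h323`, `isTensor_curveGD_isBC_h323`, `isTensor_exists_isBC_h323`).
-/

set_option autoImplicit false

universe u

open TensorProduct

namespace Fermat.Agent.S27.H323

open Fermat.Agent.S25 Fermat.Agent.S25.H325 Fermat.Agent.S27

noncomputable section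

section Basic

variable {A R₀ R₁ R₀₁ : Type u} [CommRing A] [CommRing R₀] [CommRing R₁]
    [CommRing R₀₁] [Algebra A R₀] [Algebra A R₁] [Algebra A R₀₁] [Algebra R₀ R₀₁]
    [Algebra R₁ R₀₁] [IsScalarTower A R₀ R₀₁] [IsScalarTower A R₁ R₀₁]

/-- **Key lemma**: `H` is a tensor product of `G` and `G'` (frozen `IsTensor`) iff `H` is
isomorphic to `S25.H325.tensorGD G G'`. -/
theorem isTensor_iff_h323 {G G' H : GlueDatum A R₀ R₁ R₀₁} :
    IsTensor G G' H ↔ (tensorGD G G').IsIso H := by
  constructor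
  · rintro ⟨T⟩
    exact isIso_tensorGD_of_bilin_h323 T.β₀ T.β₁ T.β₀₁ T.comm₀ T.comm₁ T.bijective₀
      T.bijective₁
  · intro h
    obtain ⟨β₀, β₁, β₀₁, c₀, c₁, b₀, b₁, b₀₁⟩ := exists_bilin_of_isIso_h323 h
    exact ⟨⟨β₀, β₁, β₀₁, c₀, c₁, b₀, b₁, b₀₁⟩⟩

/-- `S25.H325.tensorGD G G'` is a tensor product of `G` and `G'`. -/
theorem isTensor_tensorGD_h323 (G G' : GlueDatum A R₀ R₁ R₀₁) :
    IsTensor G G' (tensorGD G G') :=
  isTensor_iff_h323.2 (H325.isIso_refl _)

/-- Constructor of `IsTensor` without the (redundant) bijectivity on the overlap. -/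
theorem isTensor_of_bilin_h323 {G G' H : GlueDatum A R₀ R₁ R₀₁}
    (β₀ : G.N₀ →ₗ[R₀] G'.N₀ →ₗ[R₀] H.N₀) (β₁ : G.N₁ →ₗ[R₁] G'.N₁ →ₗ[R₁] H.N₁)
    (β₀₁ : G.N₀₁ →ₗ[R₀₁] G'.N₀₁ →ₗ[R₀₁] H.N₀₁)
    (c₀ : ∀ s s', β₀₁ (G.r₀ s) (G'.r₀ s') = H.r₀ (β₀ s s'))
    (c₁ : ∀ s s', β₀₁ (G.r₁ s) (G'.r₁ s') = H.r₁ (β₁ s s'))
    (b₀ : Function.Bijective (TensorProduct.lift β₀))
    (b₁ : Function.Bijective (TensorProduct.lift β₁)) : IsTensor G G' H :=
  ⟨⟨β₀, β₁, β₀₁, c₀, c₁, b₀, b₁, bijective_lift_overlap_h323 β₀ β₁ β₀₁ c₀ c₁ b₀⟩⟩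

/-- `IsTensor` is invariant under `IsIso` in each of its three arguments. -/
theorem isTensor_congr_h323 {G₁ G₂ G₁' G₂' H₁ H₂ : GlueDatum A R₀ R₁ R₀₁}
    (h : IsTensor G₁ G₁' H₁) (e : G₁.IsIso G₂) (e' : G₁'.IsIso G₂') (eH : H₁.IsIso H₂) :
    IsTensor G₂ G₂' H₂ :=
  isTensor_iff_h323.2
    (H325.isIso_trans (H325.isIso_symm (tensorGD_isIso_congr e e'))
      (H325.isIso_trans (isTensor_iff_h323.1 h) eH))

/-- Two tensor products of the same pair are isomorphic. -/
theorem isTensor_unique_h323 {G G' H₁ H₂ : GlueDatum A R₀ R₁ R₀₁}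
    (h₁ : IsTensor G G' H₁) (h₂ : IsTensor G G' H₂) : H₁.IsIso H₂ :=
  H325.isIso_trans (H325.isIso_symm (isTensor_iff_h323.1 h₁)) (isTensor_iff_h323.1 h₂)

/-- Tensor products of isomorphic pairs are isomorphic. -/
theorem isTensor_isIso_of_isIso_h323 {G₁ G₂ G₁' G₂' H₁ H₂ : GlueDatum A R₀ R₁ R₀₁}
    (h₁ : IsTensor G₁ G₁' H₁) (h₂ : IsTensor G₂ G₂' H₂) (e : G₁.IsIso G₂)
    (e' : G₁'.IsIso G₂') : H₁.IsIso H₂ :=
  isTensor_unique_h323 (isTensor_congr_h323 h₁ e e' (H325.isIso_refl _)) h₂

/-- Commutativity. -/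
theorem isTensor_comm_h323 {G G' H : GlueDatum A R₀ R₁ R₀₁} (h : IsTensor G G' H) :
    IsTensor G' G H :=
  isTensor_iff_h323.2 (H325.isIso_trans (tensorGD_comm_isIso G' G) (isTensor_iff_h323.1 h))

/-- The unit datum is a left unit. -/
theorem isTensor_unit_left_h323 (G : GlueDatum A R₀ R₁ R₀₁) :
    IsTensor (GlueDatum.unit A R₀ R₁ R₀₁) G G :=
  isTensor_iff_h323.2 (tensorGD_unit_left_isIso G)

/-- The unit datum is a right unit. -/
theorem isTensor_unit_right_h323 (G : GlueDatum A R₀ R₁ R₀₁) :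
    IsTensor G (GlueDatum.unit A R₀ R₁ R₀₁) G :=
  isTensor_iff_h323.2 (tensorGD_unit_right_isIso G)

/-- A tensor product with the unit datum is isomorphic to the other factor. -/
theorem isTensor_isIso_of_unit_left_h323 {G H : GlueDatum A R₀ R₁ R₀₁}
    (h : IsTensor (GlueDatum.unit A R₀ R₁ R₀₁) G H) : G.IsIso H :=
  isTensor_unique_h323 (isTensor_unit_left_h323 G) h

/-- A tensor product with the unit datum is isomorphic to the other factor. -/
theorem isTensor_isIso_of_unit_right_h323 {G H : GlueDatum A R₀ R₁ R₀₁}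
    (h : IsTensor G (GlueDatum.unit A R₀ R₁ R₀₁) H) : G.IsIso H :=
  isTensor_unique_h323 (isTensor_unit_right_h323 G) h

/-- The dual datum is a left inverse. -/
theorem isTensor_dual_left_h323 (G : GlueDatum A R₀ R₁ R₀₁) :
    IsTensor (dualGD G) G (GlueDatum.unit A R₀ R₁ R₀₁) :=
  isTensor_iff_h323.2 (tensorGD_dual_isIso_unit G)

/-- The dual datum is a right inverse. -/
theorem isTensor_dual_right_h323 (G : GlueDatum A R₀ R₁ R₀₁) :
    IsTensor G (dualGD G) (GlueDatum.unit A R₀ R₁ R₀₁) :=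
  isTensor_iff_h323.2 (tensorGD_dual_right_isIso_unit G)

/-- Inverses exist (on the left). -/
theorem exists_isTensor_unit_left_h323 (G : GlueDatum A R₀ R₁ R₀₁) :
    ∃ G' : GlueDatum A R₀ R₁ R₀₁, IsTensor G' G (GlueDatum.unit A R₀ R₁ R₀₁) :=
  ⟨dualGD G, isTensor_dual_left_h323 G⟩

/-- Inverses exist (on the right). -/
theorem exists_isTensor_unit_right_h323 (G : GlueDatum A R₀ R₁ R₀₁) :
    ∃ G' : GlueDatum A R₀ R₁ R₀₁, IsTensor G G' (GlueDatum.unit A R₀ R₁ R₀₁) :=
  ⟨dualGD G, isTensor_dual_right_h323 G⟩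

/-- Inverses are unique up to isomorphism. -/
theorem isTensor_inverse_unique_h323 {G G₁ G₂ : GlueDatum A R₀ R₁ R₀₁}
    (h₁ : IsTensor G G₁ (GlueDatum.unit A R₀ R₁ R₀₁))
    (h₂ : IsTensor G G₂ (GlueDatum.unit A R₀ R₁ R₀₁)) : G₁.IsIso G₂ := by
  -- `G₁ ≅ (G₂ ⊗ G) ⊗ G₁ ≅ G₂ ⊗ (G ⊗ G₁) ≅ G₂`
  have a : (tensorGD (tensorGD G₂ G) G₁).IsIso G₁ :=
    H325.isIso_trans
      (tensorGD_isIso_congr (isTensor_iff_h323.1 (isTensor_comm_h323 h₂)) (H325.isIso_refl G₁))
      (tensorGD_unit_left_isIso G₁)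
  have b : (tensorGD G₂ (tensorGD G G₁)).IsIso G₂ :=
    H325.isIso_trans
      (tensorGD_isIso_congr (H325.isIso_refl G₂) (isTensor_iff_h323.1 h₁))
      (tensorGD_unit_right_isIso G₂)
  exact H325.isIso_trans (H325.isIso_symm a)
    (H325.isIso_trans (tensorGD_assoc_isIso_h323 G₂ G G₁) b)

/-- Associativity: `(G₁ ⊗ G₂) ⊗ G₃ ≅ G₁ ⊗ (G₂ ⊗ G₃)`. -/
theorem isTensor_assoc_h323 {G₁ G₂ G₃ H₁₂ H₂₃ K K' : GlueDatum A R₀ R₁ R₀₁}
    (h₁₂ : IsTensor G₁ G₂ H₁₂) (hK : IsTensor H₁₂ G₃ K) (h₂₃ : IsTensor G₂ G₃ H₂₃)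
    (hK' : IsTensor G₁ H₂₃ K') : K.IsIso K' := by
  have a : (tensorGD (tensorGD G₁ G₂) G₃).IsIso K :=
    H325.isIso_trans
      (tensorGD_isIso_congr (isTensor_iff_h323.1 h₁₂) (H325.isIso_refl G₃))
      (isTensor_iff_h323.1 hK)
  have b : (tensorGD G₁ (tensorGD G₂ G₃)).IsIso K' :=
    H325.isIso_trans
      (tensorGD_isIso_congr (H325.isIso_refl G₁) (isTensor_iff_h323.1 h₂₃))
      (isTensor_iff_h323.1 hK')
  exact H325.isIso_trans (H325.isIso_symm a)
    (H325.isIso_trans (tensorGD_assoc_isIso_h323 G₁ G₂ G₃) b)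

/-- Associativity, as a statement about `IsTensor`: a tensor product of `G₁ ⊗ G₂` and `G₃` is
a tensor product of `G₁` and `G₂ ⊗ G₃`. -/
theorem isTensor_assoc_isTensor_h323 {G₁ G₂ G₃ H₁₂ H₂₃ K : GlueDatum A R₀ R₁ R₀₁}
    (h₁₂ : IsTensor G₁ G₂ H₁₂) (hK : IsTensor H₁₂ G₃ K) (h₂₃ : IsTensor G₂ G₃ H₂₃) :
    IsTensor G₁ H₂₃ K :=
  isTensor_congr_h323 (isTensor_tensorGD_h323 G₁ H₂₃) (H325.isIso_refl _) (H325.isIso_refl _)
    (H325.isIso_symm (isTensor_assoc_h323 h₁₂ hK h₂₃ (isTensor_tensorGD_h323 G₁ H₂₃)))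

/-- Cancellation: `G ⊗ G₁ ≅ G ⊗ G₂` implies `G₁ ≅ G₂`. -/
theorem isTensor_cancel_left_h323 {G G₁ G₂ H : GlueDatum A R₀ R₁ R₀₁}
    (h₁ : IsTensor G G₁ H) (h₂ : IsTensor G G₂ H) : G₁.IsIso G₂ := by
  -- `Gᵢ ≅ (G^∨ ⊗ G) ⊗ Gᵢ ≅ G^∨ ⊗ (G ⊗ Gᵢ) ≅ G^∨ ⊗ H`
  have key : ∀ {G' : GlueDatum A R₀ R₁ R₀₁}, IsTensor G G' H →
      G'.IsIso (tensorGD (dualGD G) H) := fun {G'} h =>
    H325.isIso_trans
      (H325.isIso_symm
        (H325.isIso_trans
          (tensorGD_isIso_congr (tensorGD_dual_isIso_unit G) (H325.isIso_refl G'))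
          (tensorGD_unit_left_isIso G')))
      (H325.isIso_trans (tensorGD_assoc_isIso_h323 (dualGD G) G G')
        (tensorGD_isIso_congr (H325.isIso_refl _) (isTensor_iff_h323.1 h)))
  exact H325.isIso_trans (key h₁) (H325.isIso_symm (key h₂))

end Basic

/-- **TENSOR** (leaf of row S27): tensor products of gluing data exist. -/
theorem tensorExists : Stmt.TensorExists.{u} := by
  intro A R₀ R₁ R₀₁ _ _ _ _ _ _ _ _ _ _ _ G G'
  exact ⟨tensorGD G G', isTensor_tensorGD_h323 G G'⟩

section BaseChange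

variable {A R₀ R₁ R₀₁ : Type u} [CommRing A] [CommRing R₀] [CommRing R₁]
    [CommRing R₀₁] [Algebra A R₀] [Algebra A R₁] [Algebra A R₀₁] [Algebra R₀ R₀₁]
    [Algebra R₁ R₀₁] [IsScalarTower A R₀ R₀₁] [IsScalarTower A R₁ R₀₁]
    {A' R₀' R₁' R₀₁' : Type u} [CommRing A'] [CommRing R₀'] [CommRing R₁']
    [CommRing R₀₁'] [Algebra A' R₀'] [Algebra A' R₁'] [Algebra A' R₀₁'] [Algebra R₀' R₀₁']
    [Algebra R₁' R₀₁'] [IsScalarTower A' R₀' R₀₁'] [IsScalarTower A' R₁' R₀₁']
    {ρ₀ : R₀ →+* R₀'} {ρ₁ : R₁ →+* R₁'} {ρ₀₁ : R₀₁ →+* R₀₁'}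

/-- **Tensor products commute with base change**: if `H` is a tensor product of `G₁`, `G₂`
and `G₁'`, `G₂'`, `H'` are base changes of `G₁`, `G₂`, `H`, then `H'` is a tensor product of
`G₁'`, `G₂'`. -/
theorem isTensor_isBC_h323 {G₁ G₂ H : GlueDatum A R₀ R₁ R₀₁}
    {G₁' G₂' H' : GlueDatum A' R₀' R₁' R₀₁'} (h : IsTensor G₁ G₂ H)
    (h₁ : GlueDatum.IsBC ρ₀ ρ₁ ρ₀₁ G₁ G₁') (h₂ : GlueDatum.IsBC ρ₀ ρ₁ ρ₀₁ G₂ G₂')
    (hH : GlueDatum.IsBC ρ₀ ρ₁ ρ₀₁ H H') : IsTensor G₁' G₂' H' :=
  isTensor_iff_h323.2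
    (H265.isIso_of_isBC (H265.IsBC.of_isIso_left (isTensor_iff_h323.1 h) (isBC_tensorGD h₁ h₂))
      hH)

/-- If `H` is a tensor product of `G₁`, `G₂`, and `H'` is a tensor product of base changes
`G₁'`, `G₂'` of `G₁`, `G₂`, then `H'` is a base change of `H`. -/
theorem isTensor_isBC_of_isTensor_h323 {G₁ G₂ H : GlueDatum A R₀ R₁ R₀₁}
    {G₁' G₂' H' : GlueDatum A' R₀' R₁' R₀₁'} (h : IsTensor G₁ G₂ H)
    (h₁ : GlueDatum.IsBC ρ₀ ρ₁ ρ₀₁ G₁ G₁') (h₂ : GlueDatum.IsBC ρ₀ ρ₁ ρ₀₁ G₂ G₂')
    (h' : IsTensor G₁' G₂' H') : GlueDatum.IsBC ρ₀ ρ₁ ρ₀₁ H H' :=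
  H265.IsBC.of_isIso_right
    (H265.IsBC.of_isIso_left (isTensor_iff_h323.1 h) (isBC_tensorGD h₁ h₂))
    (isTensor_iff_h323.1 h')

end BaseChange

section Curve

variable {k : Type u} [Field k] {B₀ B₁ B₀₁ : Type u} [CommRing B₀] [CommRing B₁] [CommRing B₀₁]
  [Algebra k B₀] [Algebra k B₁] [Algebra k B₀₁] [Algebra B₀ B₀₁] [Algebra B₁ B₀₁]
  [IsScalarTower k B₀ B₀₁] [IsScalarTower k B₁ B₀₁]
  {A A' : Type u} [CommRing A] [Algebra k A] [CommRing A'] [Algebra k A']

/-- Tensor products of curve gluing data commute with base change `φ : A → A'`. -/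
theorem isTensor_curveGD_isBC_h323 (φ : A →ₐ[k] A') {G₁ G₂ H : CurveGD k B₀ B₁ B₀₁ A}
    {G₁' G₂' H' : CurveGD k B₀ B₁ B₀₁ A'} (h : IsTensor G₁ G₂ H)
    (h₁ : CurveGD.IsBC φ G₁ G₁') (h₂ : CurveGD.IsBC φ G₂ G₂') (hH : CurveGD.IsBC φ H H') :
    IsTensor G₁' G₂' H' :=
  isTensor_isBC_h323 h h₁ h₂ hH

/-- A tensor product of base changes is a base change of the tensor product. -/
theorem isTensor_curveGD_isBC_of_isTensor_h323 (φ : A →ₐ[k] A')
    {G₁ G₂ H : CurveGD k B₀ B₁ B₀₁ A} {G₁' G₂' H' : CurveGD k B₀ B₁ B₀₁ A'}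
    (h : IsTensor G₁ G₂ H) (h₁ : CurveGD.IsBC φ G₁ G₁') (h₂ : CurveGD.IsBC φ G₂ G₂')
    (h' : IsTensor G₁' G₂' H') : CurveGD.IsBC φ H H' :=
  isTensor_isBC_of_isTensor_h323 h h₁ h₂ h'

end Curve

end

end Fermat.Agent.S27.H323

end
-- ===== PACK-END S27/H323/Tensor.lean

-- ===== PACK-BEGIN S27/H267/GenusDedekind.lean
section


/-!
# Row S27, leaf GENUS (helper267): places on an affine Dedekind chart

`R` a Dedekind domain, `j : R →ₐ[K] F` injective with `F = Frac (j R)`.
`chartPlaces j` = the places of `F/K` whose valuation ring contains `j R`.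

* `chartPlaces_eq_range` : these are the places of the height-one primes of `R`;
* `mem_range_of_regular` : a function regular on `chartPlaces j` lies in `j R`;
* `finite_poles_chartPlaces` : a function has finitely many poles on the chart;
* `partialFractions` : partial fractions on the chart (Chinese remainder theorem).

Mathlib + Prelude + `Lib.RR` (`Ord`, `Approx`) only.
-/

set_option autoImplicit false
set_option linter.style.haveILetI false
set_option linter.unusedSectionVars false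

noncomputable section

open AlgebraicCurve IsDedekindDomain

namespace Fermat.Agent.S27.H267

variable {K F : Type*} [Field K] [Field F] [Algebra K F]

/-- The places of `F/K` whose valuation ring contains the image of `j`. -/
def chartPlaces {R : Type*} [CommRing R] (j : R →+* F) : Set (Place K F) :=
  {v | ∀ r : R, j r ∈ v.toValuationSubring}

section Inst

variable {R : Type*} [CommRing R] [IsDedekindDomain R] [Algebra K R] [Algebra R F]
  [IsScalarTower K R F] [IsFractionRing R F]

theorem mem_ofHeightOneSpectrum_iff (w : HeightOneSpectrum R) (f : F) :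
    f ∈ (Place.ofHeightOneSpectrum (K := K) w).toValuationSubring ↔ w.valuation F f ≤ 1 :=
  Valuation.mem_valuationSubring_iff _ _

theorem ofHeightOneSpectrum_mem_chartPlaces (w : HeightOneSpectrum R) :
    Place.ofHeightOneSpectrum (K := K) w ∈ chartPlaces (K := K) (algebraMap R F) := fun r =>
  (mem_ofHeightOneSpectrum_iff w _).mpr (w.valuation_le_one r)

theorem ofHeightOneSpectrum_injective :
    Function.Injective (Place.ofHeightOneSpectrum (K := K) (F := F) (R := R)) := by
  intro w w' h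
  have h' : (w.valuation F).valuationSubring = (w'.valuation F).valuationSubring :=
    congrArg Place.toValuationSubring h
  exact HeightOneSpectrum.eq_of_valuation_isEquiv_valuation
    ((Valuation.isEquiv_iff_valuationSubring _ _).mpr h')

/-- A place containing `R` is the place of a height-one prime of `R`. -/
theorem exists_ofHeightOneSpectrum_eq {v : Place K F}
    (hv : v ∈ chartPlaces (K := K) (algebraMap R F)) :
    ∃ w : HeightOneSpectrum R, Place.ofHeightOneSpectrum (K := K) w = v := by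
  classical
  -- the centre of `v` on `R`
  let φ : R →+* v.toValuationSubring :=
    (algebraMap R F).codRestrict v.toValuationSubring.toSubring hv
  let p : Ideal R := (IsLocalRing.maximalIdeal v.toValuationSubring).comap φ
  have hp : p.IsPrime := Ideal.comap_isPrime φ _
  have hunit : ∀ r : R, r ∉ p → (algebraMap R F r)⁻¹ ∈ v.toValuationSubring := by
    intro r hr
    have h1 : φ r ∉ IsLocalRing.maximalIdeal v.toValuationSubring := hr
    have h2 : IsUnit (φ r) := by
      by_contra hcon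
      exact h1 ((IsLocalRing.mem_maximalIdeal _).mpr hcon)
    obtain ⟨u, hu⟩ := h2
    have h3 : ((u⁻¹ : (v.toValuationSubring)ˣ) : v.toValuationSubring) * φ r = 1 := by
      rw [← hu]; exact u.inv_mul
    have h4 : (((u⁻¹ : (v.toValuationSubring)ˣ) : v.toValuationSubring) : F) *
        algebraMap R F r = 1 := by
      have h3' : (((u⁻¹ : (v.toValuationSubring)ˣ) : v.toValuationSubring) : F) *
          ((φ r : v.toValuationSubring) : F) = 1 := by
        have := congrArg (Subtype.val) h3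
        simpa using this
      exact h3'
    have h5 : (algebraMap R F r)⁻¹ =
        (((u⁻¹ : (v.toValuationSubring)ˣ) : v.toValuationSubring) : F) :=
      (eq_inv_of_mul_eq_one_left h4).symm
    rw [h5]
    exact Subtype.mem _
  have hp0 : p ≠ ⊥ := by
    intro hbot
    apply v.ne_top'
    refine SetLike.ext fun f => ⟨fun _ => ValuationSubring.mem_top f, fun _ => ?_⟩
    obtain ⟨a, b, hb, rfl⟩ := IsFractionRing.div_surjective (A := R) f
    have hb0 : b ≠ 0 := nonZeroDivisors.ne_zero hb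
    have hbp : b ∉ p := by
      rw [hbot]
      exact fun h => hb0 ((Ideal.mem_bot).mp h)
    rw [div_eq_mul_inv]
    exact mul_mem (hv a) (hunit b hbp)
  let w : HeightOneSpectrum R := ⟨p, hp, hp0⟩
  refine ⟨w, Fermat.Agent.Lib.RR.place_eq_of_le ?_⟩
  show (w.valuation F).valuationSubring ≤ v.toValuationSubring
  rw [← HeightOneSpectrum.valuationSubringAtPrime_eq_valuationSubring]
  intro f hf
  obtain ⟨a, s, hs, rfl⟩ := hf
  exact mul_mem (hv a) (hunit s hs)

theorem chartPlaces_eq_range :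
    chartPlaces (K := K) (algebraMap R F) =
      Set.range (Place.ofHeightOneSpectrum (K := K) (F := F) (R := R)) := by
  ext v
  constructor
  · intro hv
    obtain ⟨w, hw⟩ := exists_ofHeightOneSpectrum_eq hv
    exact ⟨w, hw⟩
  · rintro ⟨w, rfl⟩
    exact ofHeightOneSpectrum_mem_chartPlaces w

/-- A function regular at all places of the chart lies in `R`. -/
theorem mem_range_of_regular' {f : F}
    (hf : ∀ v ∈ chartPlaces (K := K) (algebraMap R F), f ∈ v.toValuationSubring) :
    f ∈ (algebraMap R F).range :=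
  HeightOneSpectrum.mem_integers_of_valuation_le_one F f fun w =>
    (mem_ofHeightOneSpectrum_iff (K := K) w f).mp
      (hf _ (ofHeightOneSpectrum_mem_chartPlaces w))

/-- A function has finitely many poles on the chart. -/
theorem finite_poles_chartPlaces' (f : F) :
    {v : Place K F | v ∈ chartPlaces (K := K) (algebraMap R F) ∧
      f ∉ v.toValuationSubring}.Finite := by
  refine ((HeightOneSpectrum.Support.finite R f).image
    (Place.ofHeightOneSpectrum (K := K) (F := F))).subset ?_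
  rintro v ⟨hv, hfv⟩
  obtain ⟨w, rfl⟩ := exists_ofHeightOneSpectrum_eq hv
  refine ⟨w, ?_, rfl⟩
  show 1 < w.valuation F f
  rw [mem_ofHeightOneSpectrum_iff] at hfv
  exact not_le.mp hfv

/-- **Partial fractions** in a Dedekind domain: prescribed principal parts at finitely many
primes, integral elsewhere. -/
theorem exists_partialFraction (T : Finset (HeightOneSpectrum R))
    (β : HeightOneSpectrum R → F) :
    ∃ h : F, (∀ w ∈ T, w.valuation F (h - β w) ≤ 1) ∧ ∀ w ∉ T, w.valuation F h ≤ 1 := by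
  classical
  -- a common denominator
  obtain ⟨⟨d, hd⟩, hdβ⟩ :=
    IsLocalization.exist_integer_multiples_of_finset (nonZeroDivisors R) (T.image β)
  have hd0 : d ≠ 0 := nonZeroDivisors.ne_zero hd
  have hdF : algebraMap R F d ≠ 0 := by
    simpa using (IsFractionRing.injective R F).ne hd0
  have hnum : ∀ w ∈ T, ∃ a : R, algebraMap R F a = algebraMap R F d * β w := by
    intro w hw
    obtain ⟨a, ha⟩ := hdβ (β w) (Finset.mem_image_of_mem β hw)
    refine ⟨a, ?_⟩
    rw [ha, Algebra.smul_def]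
  choose! a ha using hnum
  -- the primes dividing the denominator
  have hfin : {w : HeightOneSpectrum R | w.valuation F (algebraMap R F d) < 1}.Finite := by
    simp_rw [HeightOneSpectrum.valuation_lt_one_iff_dvd]
    apply Ideal.finite_factors
    simpa only [Submodule.zero_eq_bot, ne_eq, Ideal.span_singleton_eq_bot]
  let T' : Finset (HeightOneSpectrum R) := T ∪ hfin.toFinset
  -- the exponents
  let e : HeightOneSpectrum R → ℕ := fun w => (-(WithZero.log (w.intValuation d))).toNat
  have he : ∀ w : HeightOneSpectrum R, w.intValuation d = WithZero.exp (-(e w : ℤ)) := by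
    intro w
    have h0 : w.intValuation d ≠ 0 := w.intValuation_ne_zero d hd0
    have h1 : WithZero.log (w.intValuation d) ≤ 0 := by
      rw [WithZero.log_le_iff_le_exp h0, WithZero.exp_zero]
      exact w.intValuation_le_one d
    have h2 : ((e w : ℕ) : ℤ) = -(WithZero.log (w.intValuation d)) :=
      Int.toNat_of_nonneg (by omega)
    rw [h2, neg_neg, WithZero.exp_log h0]
  obtain ⟨y, hy⟩ := IsDedekindDomain.exists_forall_sub_mem_ideal
    (s := T') (fun w : HeightOneSpectrum R => w.asIdeal) e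
    (fun w _ => w.prime)
    (fun w _ w' _ hne h => hne (HeightOneSpectrum.ext h))
    (fun w => if (w : HeightOneSpectrum R) ∈ T then a w else 0)
  have hval : ∀ (w : HeightOneSpectrum R) (z : R), w.intValuation z ≤ w.intValuation d →
      w.valuation F (algebraMap R F z / algebraMap R F d) ≤ 1 := by
    intro w z hz
    rw [map_div₀, HeightOneSpectrum.valuation_of_algebraMap,
      HeightOneSpectrum.valuation_of_algebraMap]
    exact div_le_one_of_le₀ hz zero_le
  refine ⟨algebraMap R F y / algebraMap R F d, fun w hw => ?_, fun w hw => ?_⟩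
  · have hw' : w ∈ T' := Finset.mem_union_left _ hw
    have h1 := hy w hw'
    simp only [if_pos hw] at h1
    have h2 : algebraMap R F y / algebraMap R F d - β w =
        algebraMap R F (y - a w) / algebraMap R F d := by
      rw [map_sub, ha w hw]
      field_simp
    rw [h2]
    apply hval
    rw [he w]
    exact (w.intValuation_le_pow_iff_mem _ _).mpr h1
  · by_cases hw' : w ∈ T'
    · have h1 := hy w hw'
      simp only [if_neg hw, sub_zero] at h1
      apply hval
      rw [he w]
      exact (w.intValuation_le_pow_iff_mem _ _).mpr h1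
    · apply hval
      have h3 : ¬ w.valuation F (algebraMap R F d) < 1 := fun hlt =>
        hw' (Finset.mem_union_right _ (hfin.mem_toFinset.mpr hlt))
      rw [HeightOneSpectrum.valuation_of_algebraMap] at h3
      have h4 : w.intValuation d = 1 :=
        le_antisymm (w.intValuation_le_one d) (not_lt.mp h3)
      rw [h4]
      exact w.intValuation_le_one y

/-- Partial fractions on the chart, in the form used by `psi_surjective`. -/
theorem partialFractions' (α : Place K F → F)
    (hα : {v : Place K F | v ∈ chartPlaces (K := K) (algebraMap R F) ∧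
      α v ∉ v.toValuationSubring}.Finite) :
    ∃ h : F, ∀ v ∈ chartPlaces (K := K) (algebraMap R F), h - α v ∈ v.toValuationSubring := by
  classical
  have hT : {w : HeightOneSpectrum R |
      α (Place.ofHeightOneSpectrum (K := K) w) ∉
        (Place.ofHeightOneSpectrum (K := K) (F := F) w).toValuationSubring}.Finite := by
    refine (hα.preimage (ofHeightOneSpectrum_injective (K := K) (F := F) (R := R)).injOn).subset
      ?_
    intro w hw
    exact ⟨ofHeightOneSpectrum_mem_chartPlaces w, hw⟩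
  obtain ⟨h, h1, h2⟩ := exists_partialFraction hT.toFinset
    (fun w => α (Place.ofHeightOneSpectrum (K := K) w))
  refine ⟨h, fun v hv => ?_⟩
  obtain ⟨w, rfl⟩ := exists_ofHeightOneSpectrum_eq hv
  by_cases hw : w ∈ hT.toFinset
  · exact (mem_ofHeightOneSpectrum_iff w _).mpr (h1 w hw)
  · have h3 := (mem_ofHeightOneSpectrum_iff (K := K) w _).mpr (h2 w hw)
    have h4 : α (Place.ofHeightOneSpectrum (K := K) w) ∈
        (Place.ofHeightOneSpectrum (K := K) (F := F) w).toValuationSubring := by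
      by_contra hcon
      exact hw (hT.mem_toFinset.mpr hcon)
    exact sub_mem h3 h4

end Inst

/-! ## The same statements for an injective algebra map `j : R →ₐ[K] F` with `F = Frac (j R)` -/

section Hom

variable {R : Type*} [CommRing R] [IsDedekindDomain R] [Algebra K R]
  (j : R →ₐ[K] F) (hj : Function.Injective j)
  (hfrac : ∀ f : F, ∃ a b : R, j b ≠ 0 ∧ f * j b = j a)

include hj hfrac

theorem isFractionRing_of_frac :
    letI : Algebra R F := j.toRingHom.toAlgebra
    IsFractionRing R F := by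
  letI : Algebra R F := j.toRingHom.toAlgebra
  haveI : FaithfulSMul R F := (faithfulSMul_iff_algebraMap_injective R F).mpr hj
  refine IsFractionRing.of_field R F fun f => ?_
  obtain ⟨a, b, hb, hab⟩ := hfrac f
  exact ⟨a, b, (eq_div_iff hb).mpr hab⟩

theorem mem_range_of_regular {f : F}
    (hf : ∀ v ∈ chartPlaces (K := K) j.toRingHom, f ∈ v.toValuationSubring) :
    f ∈ Set.range j := by
  letI : Algebra R F := j.toRingHom.toAlgebra
  haveI : IsScalarTower K R F := IsScalarTower.of_algebraMap_eq fun c => (j.commutes c).symm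
  haveI : IsFractionRing R F := isFractionRing_of_frac j hj hfrac
  obtain ⟨r, hr⟩ := mem_range_of_regular' (K := K) (R := R) hf
  exact ⟨r, hr⟩

theorem finite_poles_chartPlaces (f : F) :
    {v : Place K F | v ∈ chartPlaces (K := K) j.toRingHom ∧
      f ∉ v.toValuationSubring}.Finite := by
  letI : Algebra R F := j.toRingHom.toAlgebra
  haveI : IsScalarTower K R F := IsScalarTower.of_algebraMap_eq fun c => (j.commutes c).symm
  haveI : IsFractionRing R F := isFractionRing_of_frac j hj hfrac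
  exact finite_poles_chartPlaces' (K := K) (R := R) f

theorem partialFractions (α : Place K F → F)
    (hα : {v : Place K F | v ∈ chartPlaces (K := K) j.toRingHom ∧
      α v ∉ v.toValuationSubring}.Finite) :
    ∃ h : F, ∀ v ∈ chartPlaces (K := K) j.toRingHom, h - α v ∈ v.toValuationSubring := by
  letI : Algebra R F := j.toRingHom.toAlgebra
  haveI : IsScalarTower K R F := IsScalarTower.of_algebraMap_eq fun c => (j.commutes c).symm
  haveI : IsFractionRing R F := isFractionRing_of_frac j hj hfrac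
  exact partialFractions' (K := K) (R := R) α hα

end Hom

end Fermat.Agent.S27.H267

end
end
-- ===== PACK-END S27/H267/GenusDedekind.lean

-- ===== PACK-BEGIN S27/H443/FFAlg.lean
section



/-!
# Row S27, leaf FF-ALG: a function field of a curve has a curve chart

`ffalg_of_isCurveOver`: for `IsCurveOver K F`, `K` algebraically closed, `F / K` essentially of
finite type, there is a curve chart (row S25, `IsCurveChart`) made of subrings of `F`, with
field of fractions `F`.  No assumption on the characteristic.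

Author: helper443.
-/

set_option autoImplicit false

universe u

namespace Fermat.Agent.S27.H443

open Fermat.Agent.S25 AlgebraicCurve

/-- **FF-ALG.** -/
theorem ffalg_of_isCurveOver (K F : Type u) [Field K] [Field F] [Algebra K F] [IsAlgClosed K]
    [IsCurveOver K F] [Algebra.EssFiniteType K F] :
    ∃ (B₀ B₁ B₀₁ : Type u) (_ : CommRing B₀) (_ : CommRing B₁) (_ : CommRing B₀₁)
      (_ : Algebra K B₀) (_ : Algebra K B₁) (_ : Algebra K B₀₁) (_ : Algebra B₀ B₀₁)
      (_ : Algebra B₁ B₀₁) (_ : IsScalarTower K B₀ B₀₁) (_ : IsScalarTower K B₁ B₀₁)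
      (x : B₀) (y : B₁) (e : B₁ →ₐ[K] K) (j₀ : B₀ →ₐ[K] F) (j₁ : B₁ →ₐ[K] F)
      (j₀₁ : B₀₁ →ₐ[K] F),
      IsCurveChart K B₀ B₁ B₀₁ x y e ∧
      (∀ b : B₀, j₀₁ (algebraMap B₀ B₀₁ b) = j₀ b) ∧
      (∀ b : B₁, j₀₁ (algebraMap B₁ B₀₁ b) = j₁ b) ∧
      Function.Injective j₀ ∧ Function.Injective j₁ ∧ Function.Injective j₀₁ ∧
      (∀ f : F, ∃ a b : B₀, b ≠ 0 ∧ f * j₀ b = j₀ a) ∧
      (∀ f : F, ∃ a b : B₁, b ≠ 0 ∧ f * j₁ b = j₁ a) :=
  ffalg_exists_chart K F IsCurveOver.finrank_kaehler

end Fermat.Agent.S27.H443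

end
-- ===== PACK-END S27/H443/FFAlg.lean

-- ===== PACK-BEGIN A3/H619/MaxOrder.lean
section
/-
A3 / piece ORD (helper619): finiteness.  An `R`-module of Galois-equivariant functions
`T → ℚ̄` (`T` finite) with values integral over `R = ratLocalizedAt p` is finitely generated.
-/


set_option autoImplicit false

noncomputable section

namespace Fermat.Agent.A3.H619

open GaloisRep Module

variable {p : ℕ} {T : Type}

/-- Multiplication by a nonzero element of `R` is injective on functions. -/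
theorem lsmul_injective_of_ne_zero (d : ratLocalizedAt p) (hd : d ≠ 0) :
    Function.Injective (LinearMap.lsmul (ratLocalizedAt p) (T → Qb) d) := by
  intro f g hfg
  funext t
  have h1 := congrFun hfg t
  simp only [LinearMap.lsmul_apply, Pi.smul_apply, Algebra.smul_def] at h1
  have h2 : algebraMap (ratLocalizedAt p) Qb d ≠ 0 := fun h =>
    hd (algebraMap_ratLoc_Qb_injective p (h.trans (map_zero _).symm))
  exact mul_left_cancel₀ h2 h1

variable [Finite T] (act : GQ → T → T) (hact1 : ∀ t, act 1 t = t)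
  (hactmul : ∀ (σ τ : GQ) (t : T), act (σ * τ) t = act σ (act τ t))

include hact1 hactmul

/-- **Finiteness.**  An `R`-submodule of `T → ℚ̄` consisting of equivariant functions with integral
values is finitely generated. -/
theorem fg_of_equivariant_integral (N : Submodule (ratLocalizedAt p) (T → Qb))
    (hequiv : ∀ f ∈ N, IsEquivFun act f)
    (hint : ∀ f ∈ N, ∀ t, IsIntegral (ratLocalizedAt p) (f t)) : N.FG := by
  classical
  cases nonempty_fintype T
  -- a maximal `ℚ̄`-independent subset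
  obtain ⟨b, hbN, hspan, hb⟩ := exists_linearIndependent Qb (N : Set (T → Qb))
  have hbfin : b.Finite := hb.setFinite
  let _ : Fintype ↥b := hbfin.fintype
  let e : ↥b → (T → Qb) := Subtype.val
  have he : ∀ k, IsEquivFun act (e k) := fun k => hequiv _ (hbN k.2)
  -- a left inverse of the linear combination map
  let L : (↥b → Qb) →ₗ[Qb] (T → Qb) := Fintype.linearCombination Qb e
  have hL : Function.Injective L := hb.fintypeLinearCombination_injective
  obtain ⟨G, hG⟩ := LinearMap.exists_leftInverse_of_injective L (LinearMap.ker_eq_bot.mpr hL)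
  -- clear the denominators of the matrix of `G`
  let w : T × ↥b → Qb := fun tk => G (Pi.single tk.1 (1 : Qb)) tk.2
  obtain ⟨d, hd0, hd⟩ := Algebra.IsAlgebraic.exists_integral_multiples (ratLocalizedAt p)
    (Finset.univ.image w)
  have hdw : ∀ t k, IsIntegral (ratLocalizedAt p) (d • w (t, k)) := fun t k =>
    hd _ (Finset.mem_image_of_mem w (Finset.mem_univ (t, k)))
  -- `d • N` is contained in the `R`-span of `b`
  have hle : N.map (LinearMap.lsmul (ratLocalizedAt p) (T → Qb) d)
      ≤ Submodule.span (ratLocalizedAt p) (Set.range e) := by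
    rintro _ ⟨F, hF, rfl⟩
    have hFspan : F ∈ Submodule.span Qb (Set.range e) := by
      have : Set.range e = b := Subtype.range_coe
      rw [this, hspan]
      exact Submodule.subset_span hF
    obtain ⟨c, hc⟩ := (Submodule.mem_span_range_iff_exists_fun Qb).mp hFspan
    have hcG : c = G F := by
      have h1 : L c = F := by
        rw [← hc]
        simp [L, Fintype.linearCombination_apply]
      have h2 := congrArg (fun g => g c) hG
      simp only [LinearMap.comp_apply, LinearMap.id_apply] at h2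
      rw [← h1]
      exact h2.symm
    have hFsum : F = ∑ t, F t • (Pi.single t (1 : Qb) : T → Qb) := by
      funext u
      simp [Finset.sum_apply, Pi.single_apply]
    have hck : ∀ k, c k = ∑ t, F t * w (t, k) := by
      intro k
      rw [hcG]
      conv_lhs => rw [hFsum]
      rw [map_sum, Finset.sum_apply]
      refine Finset.sum_congr rfl fun t _ => ?_
      rw [map_smul, Pi.smul_apply, smul_eq_mul]
    -- `d • F = ∑ (d • c k) • e k` with integral coefficients
    have hdF : (d • F : T → Qb) = ∑ k, (d • c k) • e k := by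
      rw [← hc, Finset.smul_sum]
      refine Finset.sum_congr rfl fun k _ => ?_
      rw [smul_assoc]
    have hdFeq : IsEquivFun act (d • F : T → Qb) := hequiv _ (N.smul_mem d hF)
    have hcint : ∀ k, IsIntegral (ratLocalizedAt p) (d • c k) := by
      intro k
      rw [hck k, Finset.smul_sum]
      refine IsIntegral.sum _ fun t _ => ?_
      have h3 : d • (F t * w (t, k)) = F t * (d • w (t, k)) := by
        rw [Algebra.smul_def, Algebra.smul_def]; ring
      rw [h3]
      exact (hint F hF t).mul (hdw t k)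
    obtain ⟨r, hr⟩ := coeff_int act hact1 hactmul e he hb (d • F) hdFeq _ hdF hcint
    show d • F ∈ _
    rw [hr]
    exact Submodule.sum_mem _ fun k _ =>
      Submodule.smul_mem _ _ (Submodule.subset_span (Set.mem_range_self k))
  have hfg : (Submodule.span (ratLocalizedAt p) (Set.range e)).FG :=
    Submodule.fg_span (Set.finite_range e)
  exact Submodule.fg_of_fg_map_injective _ (lsmul_injective_of_ne_zero d hd0) (hfg.of_le hle)

end Fermat.Agent.A3.H619

end
end
-- ===== PACK-END A3/H619/MaxOrder.lean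

-- ===== PACK-BEGIN A3/H75/DiscOfCons.lean
section



/-!
# A3 / LOCAL / DISC (helper75): the disc algebra of a residue disc, from conservation of zeros

Dictionary (i) of `coord/A3-LOCAL-helper799.md` §3'.

Input (`ConsInput A F k Fk`): `A` a valuation subring of `K`, `F/K` a function field (`FF1`),
`V` a valuation subring of `F` with `A ⊆ V`, `𝔪_A ⊆ 𝔪_V` (the Gauss valuation), a reduction map
`ρ : V → F_k` with kernel `𝔪_V`, compatible with a residue map `π : A → k`, a map
`r : Place K F → Place k F_k` and **conservation of zeros** (CONS, in the Prelude form of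
`IsPlaceReductionAlong`): `r_* (div u) = div (ρ u)` for `u ∈ V`, `ρ u ≠ 0`.

For a place `Q` of `F_k` and a parameter `t ∈ V`, regular on the residue disc `r⁻¹ Q`, with
`ord_Q (ρ t) = 1` (`DiscParam`):

* `exists_unique_center` : for `a ∈ 𝔪_A` there is exactly one place `P` in the disc with
  `t(P) = a`, and `ord_P (t - a) = 1`;
* `exists_hasVal_mem` : a function of `V` regular on the disc has values in `A` on the disc;
* `hasVal_red` : value compatibility, `(ρ f)(Q) = π (f(P))`;
* `hasVal_t_mem_nonunits` : `t(P) ∈ 𝔪_A` for `P` in the disc  (so `disc ≃ 𝔪_A` via `t`);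
* `discAlg` : the ring `discRing` of functions of `V` regular on the disc is a `DiscAlg`
  (helper799), with `ev a f = f(P_a)`  (`ev_eq_of_hasVal`).
-/

set_option autoImplicit false
set_option linter.unusedSectionVars false

noncomputable section

namespace Fermat.Agent.A3.H75

open AlgebraicCurve Fermat.Agent.Lib.RR Fermat.Agent.A3.H799

variable {K : Type*} [Field K] (A : ValuationSubring K) (F : Type*) [Field F] [Algebra K F]
variable (k : Type*) [Field k] (Fk : Type*) [Field Fk] [Algebra k Fk]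

/-- Minimal reduction input for the calculus on residue discs. -/
structure ConsInput where
  /-- the Gauss valuation ring -/
  V : ValuationSubring F
  algebraMap_mem : ∀ a : K, a ∈ A → algebraMap K F a ∈ V
  algebraMap_mem_nonunits : ∀ a : K, a ∈ A.nonunits → algebraMap K F a ∈ V.nonunits
  /-- the residue map of `A` -/
  π : A →+* k
  π_eq_zero : ∀ a : A, π a = 0 → (a : K) ∈ A.nonunits
  /-- reduction of functions -/
  ρ : V →+* Fk
  ρ_eq_zero : ∀ x : V, ρ x = 0 ↔ (x : F) ∈ V.nonunits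
  ρ_algebraMap : ∀ (a : K) (ha : a ∈ A),
    ρ ⟨algebraMap K F a, algebraMap_mem a ha⟩ = algebraMap k Fk (π ⟨a, ha⟩)
  /-- reduction of places -/
  r : Place K F → Place k Fk
  /-- conservation of zeros -/
  cons : ∀ u : V, ρ u ≠ 0 → ∀ D : Divisor K F, (∀ P, D P = P.ord (u : F)) →
    ∀ Q, Finsupp.mapDomain r D Q = Q.ord (ρ u)

variable {A F k Fk}

namespace ConsInput

variable (I : ConsInput A F k Fk) (Q : Place k Fk)

/-- `f` is regular on the residue disc of `Q`. -/
def RegOn (f : F) : Prop := ∀ P, I.r P = Q → f ∈ P.toValuationSubring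

theorem regOn_algebraMap (c : K) : I.RegOn Q (algebraMap K F c) := fun P _ => P.algebraMap_mem' c

section
variable {I Q}

theorem RegOn.add {f g : F} (hf : I.RegOn Q f) (hg : I.RegOn Q g) : I.RegOn Q (f + g) :=
  fun P hP => P.toValuationSubring.add_mem _ _ (hf P hP) (hg P hP)

theorem RegOn.mul {f g : F} (hf : I.RegOn Q f) (hg : I.RegOn Q g) : I.RegOn Q (f * g) :=
  fun P hP => P.toValuationSubring.mul_mem _ _ (hf P hP) (hg P hP)

theorem RegOn.sub {f g : F} (hf : I.RegOn Q f) (hg : I.RegOn Q g) : I.RegOn Q (f - g) :=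
  fun P hP => sub_mem (hf P hP) (hg P hP)

end

variable [FF1 K F]

theorem coe_ne_zero_of_ρ_ne_zero {u : I.V} (hρ : I.ρ u ≠ 0) : (u : F) ≠ 0 := by
  intro h0
  apply hρ
  have : u = 0 := Subtype.ext h0
  rw [this, map_zero]

/-- **Conservation, pointwise bound.**  For `u ∈ V` with `ρ u ≠ 0`, regular on the disc of `Q`,
the order of `u` at any point of the disc is at most `ord_Q (ρ u)`. -/
theorem ord_le_of_cons (u : I.V) (hρ : I.ρ u ≠ 0) (hreg : I.RegOn Q (u : F))
    (P : Place K F) (hP : I.r P = Q) : P.ord (u : F) ≤ Q.ord (I.ρ u) := by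
  have hu0 := I.coe_ne_zero_of_ρ_ne_zero hρ
  have hc := I.cons u hρ (divOf (u : F) hu0) (fun P => divOf_apply (u : F) hu0 P) Q
  rw [← hc, ← divOf_apply (u : F) hu0 P]
  refine apply_le_mapDomain I.r _ Q (fun P' hP' => ?_) P hP
  rw [divOf_apply]
  exact ord_nonneg_of_mem P' (hreg P' hP')

/-- **Conservation, two points.** -/
theorem ord_add_ord_le_of_cons (u : I.V) (hρ : I.ρ u ≠ 0)
    (hreg : I.RegOn Q (u : F)) (P P' : Place K F) (hne : P ≠ P') (hP : I.r P = Q)
    (hP' : I.r P' = Q) : P.ord (u : F) + P'.ord (u : F) ≤ Q.ord (I.ρ u) := by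
  have hu0 := I.coe_ne_zero_of_ρ_ne_zero hρ
  have hc := I.cons u hρ (divOf (u : F) hu0) (fun P => divOf_apply (u : F) hu0 P) Q
  rw [← hc, ← divOf_apply (u : F) hu0 P, ← divOf_apply (u : F) hu0 P']
  refine apply_add_apply_le_mapDomain I.r _ Q (fun P'' hP'' => ?_) P P' hne hP hP'
  rw [divOf_apply]
  exact ord_nonneg_of_mem P'' (hreg P'' hP'')

/-- **Conservation, existence of a zero.** -/
theorem exists_ord_pos_of_cons (u : I.V) (hρ : I.ρ u ≠ 0)
    (hpos : 0 < Q.ord (I.ρ u)) : ∃ P, I.r P = Q ∧ 0 < P.ord (u : F) := by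
  have hu0 := I.coe_ne_zero_of_ρ_ne_zero hρ
  have hc := I.cons u hρ (divOf (u : F) hu0) (fun P => divOf_apply (u : F) hu0 P) Q
  rw [← hc] at hpos
  obtain ⟨P, hP, h⟩ := exists_pos_of_mapDomain_pos I.r _ Q hpos
  rw [divOf_apply] at h
  exact ⟨P, hP, h⟩

/-- the constants of `A`, as elements of `V` -/
def const (a : A) : I.V := ⟨algebraMap K F (a : K), I.algebraMap_mem _ a.2⟩

@[simp] theorem coe_const (a : A) : ((I.const a : I.V) : F) = algebraMap K F (a : K) := rfl

theorem ρ_const (a : A) : I.ρ (I.const a) = algebraMap k Fk (I.π a) :=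
  I.ρ_algebraMap (a : K) a.2

theorem ρ_const_of_mem_nonunits (a : A) (ha : (a : K) ∈ A.nonunits) : I.ρ (I.const a) = 0 :=
  (I.ρ_eq_zero _).mpr (I.algebraMap_mem_nonunits _ ha)

/-- **Values on the disc are integral.**  A function of `V` regular on the disc of `Q` takes
values in `A` at the points of the disc. -/
theorem exists_hasVal_mem (f : I.V) (hreg : I.RegOn Q (f : F)) (P : Place K F)
    (hP : I.r P = Q) : ∃ b : A, HasVal P (f : F) (b : K) := by
  obtain ⟨c, hc⟩ := exists_hasVal P (deg_eq_one P) (hreg P hP)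
  by_cases hcA : c ∈ A
  · exact ⟨⟨c, hcA⟩, hc⟩
  exfalso
  have hc0 : c ≠ 0 := by
    rintro rfl
    exact hcA A.zero_mem
  have hinv : c⁻¹ ∈ A.nonunits := inv_mem_nonunits_of_not_mem A hcA
  have hinvA : c⁻¹ ∈ A := mem_of_mem_nonunits A hinv
  set u : I.V := I.const ⟨c⁻¹, hinvA⟩ * f - 1 with hu
  have hρu : I.ρ u = -1 := by
    rw [hu, map_sub, map_mul, map_one, I.ρ_const_of_mem_nonunits _ hinv, zero_mul, zero_sub]
  have hρne : I.ρ u ≠ 0 := by
    rw [hρu]
    exact neg_ne_zero.mpr one_ne_zero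
  have hcoe : (u : F) = algebraMap K F c⁻¹ * (f : F) - 1 := rfl
  have hregu : I.RegOn Q (u : F) := by
    rw [hcoe]
    refine ((I.regOn_algebraMap Q c⁻¹).mul hreg).sub ?_
    have := I.regOn_algebraMap Q (1 : K)
    rwa [map_one] at this
  have hle := I.ord_le_of_cons Q u hρne hregu P hP
  rw [hρu, ord_neg, Place.ord_one] at hle
  have hval : HasVal P (u : F) 0 := by
    have h1 := ((hasVal_algebraMap P c⁻¹).mul hc).sub (hasVal_one P)
    rw [inv_mul_cancel₀ hc0, sub_self] at h1
    rw [hcoe]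
    exact h1
  rcases (hasVal_zero_iff P _).mp hval with h0 | hpos
  · exact I.coe_ne_zero_of_ρ_ne_zero hρne h0
  · omega

/-- **Value compatibility.**  `(ρ f)(Q) = π (f(P))` for `P` in the disc of `Q`. -/
theorem hasVal_red (f : I.V) (hreg : I.RegOn Q (f : F)) (P : Place K F) (hP : I.r P = Q)
    (b : A) (hb : HasVal P (f : F) (b : K)) : HasVal Q (I.ρ f) (I.π b) := by
  set u : I.V := f - I.const b with hu
  have hρu : I.ρ u = I.ρ f - algebraMap k Fk (I.π b) := by
    rw [hu, map_sub, I.ρ_const]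
  unfold HasVal
  rw [← hρu]
  by_cases hρ0 : I.ρ u = 0
  · rw [hρ0]
    exact zero_mem_nonunits _
  have hcoe : (u : F) = (f : F) - algebraMap K F (b : K) := rfl
  have hregu : I.RegOn Q (u : F) := by
    rw [hcoe]
    exact hreg.sub (I.regOn_algebraMap Q _)
  have hle := I.ord_le_of_cons Q u hρ0 hregu P hP
  have hb' : (u : F) ∈ P.toValuationSubring.nonunits := hb
  rcases (mem_nonunits_iff_ord P _).mp hb' with h0 | hpos
  · exact absurd h0 (I.coe_ne_zero_of_ρ_ne_zero hρ0)
  · exact (mem_nonunits_iff_ord Q _).mpr (Or.inr (lt_of_lt_of_le hpos hle))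

end ConsInput

/-- A parameter at the place `Q` of the special fibre: a function of `V`, regular on the residue
disc of `Q`, whose reduction has a simple zero at `Q`. -/
structure DiscParam (I : ConsInput A F k Fk) (Q : Place k Fk) where
  /-- the parameter -/
  t : I.V
  t_reg : I.RegOn Q (t : F)
  ord_t : Q.ord (I.ρ t) = 1

namespace DiscParam

variable {I : ConsInput A F k Fk} {Q : Place k Fk} (T : DiscParam I Q) [FF1 K F]

theorem ρ_t_ne_zero : I.ρ T.t ≠ 0 := by
  intro h0
  have := T.ord_t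
  rw [h0, Place.ord_zero] at this
  exact zero_ne_one this

/-- the function `t - a` -/
def shift (a : A) : I.V := T.t - I.const a

@[simp] theorem coe_shift (a : A) : ((T.shift a : I.V) : F) = (T.t : F) - algebraMap K F (a : K) :=
  rfl

theorem ρ_shift (a : A) (ha : (a : K) ∈ A.nonunits) : I.ρ (T.shift a) = I.ρ T.t := by
  rw [shift, map_sub, I.ρ_const_of_mem_nonunits a ha, sub_zero]

theorem ρ_shift_ne_zero (a : A) (ha : (a : K) ∈ A.nonunits) : I.ρ (T.shift a) ≠ 0 := by
  rw [T.ρ_shift a ha]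
  exact T.ρ_t_ne_zero

theorem shift_ne_zero (a : A) (ha : (a : K) ∈ A.nonunits) : ((T.shift a : I.V) : F) ≠ 0 :=
  I.coe_ne_zero_of_ρ_ne_zero (T.ρ_shift_ne_zero a ha)

theorem regOn_shift (a : A) : I.RegOn Q ((T.shift a : I.V) : F) := by
  rw [coe_shift]
  exact T.t_reg.sub (I.regOn_algebraMap Q _)

theorem ord_shift_le_one (a : A) (ha : (a : K) ∈ A.nonunits) (P : Place K F) (hP : I.r P = Q) :
    P.ord ((T.shift a : I.V) : F) ≤ 1 := by
  have := I.ord_le_of_cons Q (T.shift a) (T.ρ_shift_ne_zero a ha) (T.regOn_shift a) P hP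
  rwa [T.ρ_shift a ha, T.ord_t] at this

theorem hasVal_iff_ord_shift (a : A) (ha : (a : K) ∈ A.nonunits) (P : Place K F) :
    HasVal P (T.t : F) (a : K) ↔ 0 < P.ord ((T.shift a : I.V) : F) := by
  unfold HasVal
  rw [← coe_shift, mem_nonunits_iff_ord]
  constructor
  · rintro (h | h)
    · exact absurd h (T.shift_ne_zero a ha)
    · exact h
  · exact Or.inr

/-- **The disc is parametrised by `𝔪_A`, existence.** -/
theorem exists_center (a : A) (ha : (a : K) ∈ A.nonunits) :
    ∃ P, I.r P = Q ∧ HasVal P (T.t : F) (a : K) := by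
  obtain ⟨P, hP, hpos⟩ := I.exists_ord_pos_of_cons Q (T.shift a) (T.ρ_shift_ne_zero a ha) (by
    rw [T.ρ_shift a ha, T.ord_t]
    exact one_pos)
  exact ⟨P, hP, (T.hasVal_iff_ord_shift a ha P).mpr hpos⟩

/-- **The disc is parametrised by `𝔪_A`, uniqueness.** -/
theorem center_unique (a : A) (ha : (a : K) ∈ A.nonunits) (P P' : Place K F) (hP : I.r P = Q)
    (hP' : I.r P' = Q) (h : HasVal P (T.t : F) (a : K)) (h' : HasVal P' (T.t : F) (a : K)) :
    P = P' := by
  by_contra hne
  have h1 := (T.hasVal_iff_ord_shift a ha P).mp h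
  have h2 := (T.hasVal_iff_ord_shift a ha P').mp h'
  have h3 := I.ord_add_ord_le_of_cons Q (T.shift a) (T.ρ_shift_ne_zero a ha) (T.regOn_shift a)
    P P' hne hP hP'
  rw [T.ρ_shift a ha, T.ord_t] at h3
  omega

/-- `t - a` does not vanish on the disc away from its centre. -/
theorem ord_shift_eq_zero (a : A) (ha : (a : K) ∈ A.nonunits) (P P' : Place K F)
    (hP : I.r P = Q) (hP' : I.r P' = Q) (h : HasVal P (T.t : F) (a : K)) (hne : P' ≠ P) :
    P'.ord ((T.shift a : I.V) : F) = 0 := by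
  have h1 := (T.hasVal_iff_ord_shift a ha P).mp h
  have h3 := I.ord_add_ord_le_of_cons Q (T.shift a) (T.ρ_shift_ne_zero a ha) (T.regOn_shift a)
    P' P hne hP' hP
  rw [T.ρ_shift a ha, T.ord_t] at h3
  have h4 := ord_nonneg_of_mem P' (T.regOn_shift a P' hP')
  omega

/-- **`t` maps the disc into `𝔪_A`.** -/
theorem mem_nonunits_of_hasVal (P : Place K F) (hP : I.r P = Q) (a : A)
    (h : HasVal P (T.t : F) (a : K)) : (a : K) ∈ A.nonunits := by
  have h1 := I.hasVal_red Q T.t T.t_reg P hP a h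
  have h2 : HasVal Q (I.ρ T.t) 0 := by
    rw [hasVal_zero_iff]
    right
    rw [T.ord_t]
    exact one_pos
  exact I.π_eq_zero a (h1.unique h2)

end DiscParam

end Fermat.Agent.A3.H75

end
end
-- ===== PACK-END A3/H75/DiscOfCons.lean

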