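import Mathlib
import Fermat.Agent.Pack.S43MC.G0E12L1
import Fermat.Agent.Pack.S43MC.G0E13L0
import Fermat.Agent.Pack.S43MC.G0E13L1
import Fermat.Agent.Pack.S43MC.G0E8L3
import Fermat.Agent.Pack.S43MC.G0E8L2
import Fermat.Agent.Pack.S43MC.G0E10L1
import Fermat.Agent.Pack.S43MC.G0E13L2
import Fermat.Agent.Pack.S43MC.G0E11L1
import Fermat.Agent.Pack.S43MC.G0E13L3
import Fermat.Agent.Pack.S43MC.G0E0L0
import Fermat.Agent.Pack.S43MC.G0E11L2
import Fermat.Agent.Pack.S43MC.G0E11L3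
import Fermat.Agent.Pack.S43MC.G0E6L0
import Fermat.Agent.Pack.S43MC.G0E9L2
import Fermat.Agent.Pack.S43MC.G0E14L0
import Fermat.Agent.Pack.Fast891

-- ===== PACK-BEGIN Ribet/H818/SwapAsm.lean
section


/-!
# Row RIBET, WALL-q — local factorisation for a component-SWAPPING Frobenius (helper818)

Mirror of `Fermat/Agent/S35/H433/PhiAsm.lean` (helper433) for a semilinear automorphism `φ` of the
function field `F` which preserves a chart `B` of a semistable model, acts on the constants as the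
`Q`-power map modulo `w`, fixes the crossing points, and **SWAPS** the two components of the
special fibre.

Model case (Mazur's principle at `q ‖ N`): `φ = σ ∘ w_q`, `σ` a Frobenius lift at `q`, `w_q` the
Atkin–Lehner involution, `Q = q`.  On the supersingular points `w_q` IS the Frobenius, so `φ`
fixes every crossing point, and it swaps the branches.  Consequence: on the toric part of
`J₀(N)[m]` one has `σ ∘ w_q = -q`, i.e. `Frob = -q · w_q`.

`localFactor_swap_of_pureAt` : `u ≡ c₁` on `p₁`, `u ≡ c₂` on `p₂` (unit constants), purity data for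
`u` at `φ⁻¹ n` and at `n`  ⟹  `LocalFactor B c m (φ u · u ^ Q / (c₁ c₂) ^ Q) n`.

Together with the leaf GLUE of the A2 wall this gives `φ u · u ^ Q = h ^ m` (`SwapToric.lean`).
-/

set_option autoImplicit false

namespace Fermat.Agent.Ribet.H818

open Fermat.Agent.A2 Fermat.Agent.A2.Alg Fermat.Agent.S35.H433

variable {R F : Type*} [CommRing R] [Field F] [Algebra R F]

/-- The standing hypotheses on a component-swapping `φ`, on one chart. -/
structure SwapCtx (w : R) (B : Subalgebra R F) (c : SSChart w B) (φ : F ≃+* F) (Q : ℕ) :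
    Prop where
  /-- `φ` maps the chart into itself -/
  mapB : ∀ b : F, b ∈ B → φ b ∈ B
  /-- `φ⁻¹` maps the chart into itself -/
  mapB' : ∀ b : F, φ b ∈ B → b ∈ B
  /-- `φ` maps the second component onto the first -/
  map₁₂ : ∀ b : B, (⟨φ b, mapB b b.2⟩ : B) ∈ c.p₁ ↔ b ∈ c.p₂
  /-- `φ` maps the first component onto the second -/
  map₂₁ : ∀ b : B, (⟨φ b, mapB b b.2⟩ : B) ∈ c.p₂ ↔ b ∈ c.p₁
  /-- `φ` is the `Q`-power map on constants modulo `w` -/
  frob : ∀ r : R, ∃ s : B, φ (algebraMap R F r) - algebraMap R F r ^ Q = algebraMap R F w * s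

variable {w : R} {B : Subalgebra R F} {c : SSChart w B} {φ : F ≃+* F} {Q : ℕ}

/-- The restriction of `φ` to the chart. -/
def SwapCtx.hom (hφ : SwapCtx w B c φ Q) : B →+* B where
  toFun b := ⟨φ b, hφ.mapB b b.2⟩
  map_one' := Subtype.ext (by simp)
  map_mul' a b := Subtype.ext (by simp)
  map_zero' := Subtype.ext (by simp)
  map_add' a b := Subtype.ext (by simp)

@[simp] theorem SwapCtx.coe_hom (hφ : SwapCtx w B c φ Q) (b : B) :
    ((hφ.hom b : B) : F) = φ b := rfl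

/-- Transport of `I B_{n'}` to `J B_n` along `φ`. -/
theorem SwapCtx.inLoc (hφ : SwapCtx w B c φ Q) {n n' I J : Ideal B}
    (hnn' : ∀ b : B, b ∉ n' → hφ.hom b ∉ n) (hIJ : ∀ b : B, b ∈ I → hφ.hom b ∈ J) {u : F}
    (h : InLoc B n' I u) : InLoc B n J (φ u) := by
  obtain ⟨a, b, ha, hb, hab⟩ := h
  refine ⟨hφ.hom a, hφ.hom b, hIJ a ha, hnn' b hb, ?_⟩
  rw [hφ.coe_hom, hφ.coe_hom, ← map_mul, hab]

/-- Transport of units of `B_{n'}` to units of `B_n` along `φ`. -/
theorem SwapCtx.locUnit (hφ : SwapCtx w B c φ Q) {n n' : Ideal B}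
    (hnn' : ∀ b : B, b ∉ n' → hφ.hom b ∉ n) {u : F} (h : LocUnit B n' u) :
    LocUnit B n (φ u) := by
  obtain ⟨a, b, ha, hb, hab⟩ := h
  refine ⟨hφ.hom a, hφ.hom b, hnn' a ha, hnn' b hb, ?_⟩
  rw [hφ.coe_hom, hφ.coe_hom, ← map_mul, hab]

theorem SwapCtx.hom_surjective (hφ : SwapCtx w B c φ Q) : Function.Surjective hφ.hom := by
  intro b
  refine ⟨⟨φ.symm b, hφ.mapB' _ (by rw [φ.apply_symm_apply]; exact b.2)⟩, ?_⟩
  apply Subtype.ext
  rw [hφ.coe_hom]
  exact φ.apply_symm_apply _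

theorem SwapCtx.not_mem_comap (hφ : SwapCtx w B c φ Q) (n : Ideal B) :
    ∀ b : B, b ∉ n.comap hφ.hom → hφ.hom b ∉ n := fun _ hb => hb

/-- `w ∈ φ⁻¹ n` for a closed point `n` of the special fibre. -/
theorem SwapCtx.w_mem_comap (hφ : SwapCtx w B c φ Q) (hQ : 0 < Q) {n : Ideal B}
    (hwn : algebraMap R B w ∈ n) : algebraMap R B w ∈ n.comap hφ.hom := by
  obtain ⟨s, hs⟩ := hφ.frob w
  have h1 : hφ.hom (algebraMap R B w) = algebraMap R B w ^ Q + algebraMap R B w * s := by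
    apply Subtype.ext
    push_cast
    rw [hφ.coe_hom]
    have e1 : ((algebraMap R B w : B) : F) = algebraMap R F w := rfl
    rw [e1]
    linear_combination hs
  rw [Ideal.mem_comap, h1]
  exact n.add_mem (n.pow_mem_of_mem hwn Q hQ) (n.mul_mem_right _ hwn)

/-- `φ` fixes `n` as a set. -/
theorem SwapCtx.mem_of_hom_mem (hφ : SwapCtx w B c φ Q) {n : Ideal B} (hn : n.IsMaximal)
    (hfix : ∀ b : B, b ∈ n → hφ.hom b ∈ n) (b : B) (h : hφ.hom b ∈ n) : b ∈ n := by
  have hle : n ≤ n.comap hφ.hom := fun x hx => hfix x hx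
  have hne : n.comap hφ.hom ≠ ⊤ := (Ideal.comap_isPrime hφ.hom n).ne_top
  have := hn.eq_of_le hne hle
  rw [this]
  exact h

/-- **Lemma EV.**  At a fixed closed point with residue field `R / w`, `φ b ≡ b ^ Q`. -/
theorem SwapCtx.hom_sub_pow_mem (hφ : SwapCtx w B c φ Q) {n : Ideal B}
    (hwn : algebraMap R B w ∈ n) (hk : ∀ b : B, ∃ r : R, b - algebraMap R B r ∈ n)
    (hfix : ∀ b : B, b ∈ n → hφ.hom b ∈ n) (a : B) : hφ.hom a - a ^ Q ∈ n := by
  obtain ⟨r, hr⟩ := hk a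
  obtain ⟨s, hs⟩ := hφ.frob r
  have h1 : hφ.hom (algebraMap R B r) - algebraMap R B r ^ Q = algebraMap R B w * s := by
    apply Subtype.ext
    push_cast
    rw [hφ.coe_hom]
    exact hs
  have h2 : a ^ Q - algebraMap R B r ^ Q ∈ n := by
    obtain ⟨t, ht⟩ := sub_dvd_pow_sub_pow a (algebraMap R B r) Q
    rw [ht]
    exact n.mul_mem_right _ hr
  have e : hφ.hom a - a ^ Q = hφ.hom (a - algebraMap R B r) + algebraMap R B w * s
      - (a ^ Q - algebraMap R B r ^ Q) := by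
    rw [← h1, map_sub]
    ring
  rw [e]
  exact n.sub_mem (n.add_mem (hfix _ hr) (n.mul_mem_right _ hwn)) h2

/-- At a fixed closed point, `φ ρ ≡ ρ ^ Q mod n B_n` for every `ρ ∈ B_n`. -/
theorem SwapCtx.cong_pow_of_fixed (hφ : SwapCtx w B c φ Q) {n : Ideal B} (hn : n.IsMaximal)
    (hwn : algebraMap R B w ∈ n) (hk : ∀ b : B, ∃ r : R, b - algebraMap R B r ∈ n)
    (hfix : ∀ b : B, b ∈ n → hφ.hom b ∈ n) {ρ : F} (hρ : InLoc B n ⊤ ρ) :
    InLoc B n n (φ ρ - ρ ^ Q) := by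
  have hnp := hn.isPrime
  obtain ⟨a, b, -, hb, hab⟩ := hρ
  have hb0 : (b : F) ≠ 0 := coe_ne_zero_of_not_mem hb
  have hφb : hφ.hom b ∉ n := fun h => hb (hφ.mem_of_hom_mem hn hfix b h)
  have hφb0 : φ (b : F) ≠ 0 := (map_ne_zero φ).2 hb0
  refine ⟨hφ.hom a * b ^ Q - a ^ Q * hφ.hom b, hφ.hom b * b ^ Q, ?_, ?_, ?_⟩
  · have e : hφ.hom a * b ^ Q - a ^ Q * hφ.hom b
        = (hφ.hom a - a ^ Q) * b ^ Q - a ^ Q * (hφ.hom b - b ^ Q) := by ring
    rw [e]
    exact n.sub_mem (n.mul_mem_right _ (hφ.hom_sub_pow_mem hwn hk hfix a))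
      (n.mul_mem_left _ (hφ.hom_sub_pow_mem hwn hk hfix b))
  · intro h
    rcases hnp.mem_or_mem h with h | h
    · exact hφb h
    · exact hb (hnp.mem_of_pow_mem _ h)
  · have hρe : ρ = (a : F) / b := by
      field_simp
      exact hab
    push_cast
    rw [hφ.coe_hom, hφ.coe_hom, hρe, map_div₀, div_pow]
    field_simp

/-- **Step 2 (swap).**  `u ≡ c₀` on `p'`, `φ` maps `p'` onto `p`  ⟹  `φ u ≡ c₀ ^ Q` on `p`. -/
theorem SwapCtx.cong_const (hφ : SwapCtx w B c φ Q) {p p' : Ideal B} [hp : p.IsPrime]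
    (hwp : algebraMap R B w ∈ p) (hmap : ∀ b : B, hφ.hom b ∈ p ↔ b ∈ p') {u : F} {c₀ : R}
    (hcong : InLoc B p' p' (u - algebraMap R F c₀)) :
    InLoc B p p (φ u - algebraMap R F c₀ ^ Q) := by
  have hnn : ∀ b : B, b ∉ p' → hφ.hom b ∉ p := fun b hb h' => hb ((hmap b).1 h')
  have hII : ∀ b : B, b ∈ p' → hφ.hom b ∈ p := fun b hb => (hmap b).2 hb
  have h1 : InLoc B p p (φ u - φ (algebraMap R F c₀)) := by
    rw [← map_sub]
    exact hφ.inLoc hnn hII hcong
  have h2 : InLoc B p p (φ (algebraMap R F c₀) - algebraMap R F c₀ ^ Q) := by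
    obtain ⟨s, hs⟩ := hφ.frob c₀
    rw [hs]
    have : algebraMap R F w * (s : F) = ((algebraMap R B w * s : B) : F) := rfl
    rw [this]
    exact inLoc_coe (p.mul_mem_right _ hwp)
  exact cong_trans h1 h2

/-- **Step 2' (swap).**  `u ≡ c₁` on `p`, `u ≡ c₂` on `p'`, `φ` maps `p'` onto `p`  ⟹
`φ u · u ^ Q / (c₁ c₂) ^ Q ≡ 1` on `p`. -/
theorem SwapCtx.cong_one (hφ : SwapCtx w B c φ Q) {p p' : Ideal B} [hp : p.IsPrime]
    (hwp : algebraMap R B w ∈ p) (hmap : ∀ b : B, hφ.hom b ∈ p ↔ b ∈ p') {u : F} {c₁ c₂ : R}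
    (hc₁ : IsUnit c₁) (hc₂ : IsUnit c₂)
    (hu : InLoc B p p (u - algebraMap R F c₁)) (hu' : InLoc B p' p' (u - algebraMap R F c₂)) :
    InLoc B p p (φ u * u ^ Q * (algebraMap R F (c₁ * c₂) ^ Q)⁻¹ - 1) := by
  have hcu₁ : LocUnit B p (algebraMap R F c₁) := locUnit_const hc₁
  have hcu₂ : LocUnit B p (algebraMap R F c₂) := locUnit_const hc₂
  have hcu : LocUnit B p (algebraMap R F (c₁ * c₂)) := locUnit_const (hc₁.mul hc₂)
  have huu : LocUnit B p u := locUnit_of_cong hcu₁ hu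
  have h1 : InLoc B p p (φ u - algebraMap R F c₂ ^ Q) := hφ.cong_const hwp hmap hu'
  have h2 : InLoc B p p (u ^ Q - algebraMap R F c₁ ^ Q) :=
    cong_pow (locUnit_iff.1 huu).2.1 (locUnit_iff.1 hcu₁).2.1 hu Q
  have hφu : LocUnit B p (φ u) := locUnit_of_cong (locUnit_pow hcu₂ Q) h1
  have h3 : InLoc B p p (φ u * u ^ Q - algebraMap R F c₂ ^ Q * algebraMap R F c₁ ^ Q) :=
    cong_mul (locUnit_iff.1 hφu).2.1 (locUnit_iff.1 (locUnit_pow hcu₁ Q)).2.1 h1 h2
  have hC : LocUnit B p (algebraMap R F (c₁ * c₂) ^ Q) := locUnit_pow hcu Q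
  have hC0 : algebraMap R F (c₁ * c₂) ^ Q ≠ 0 := locUnit_ne_zero hC
  have e : φ u * u ^ Q * (algebraMap R F (c₁ * c₂) ^ Q)⁻¹ - 1
      = (φ u * u ^ Q - algebraMap R F c₂ ^ Q * algebraMap R F c₁ ^ Q)
        * (algebraMap R F (c₁ * c₂) ^ Q)⁻¹ := by
    have e1 : algebraMap R F c₂ ^ Q * algebraMap R F c₁ ^ Q = algebraMap R F (c₁ * c₂) ^ Q := by
      rw [map_mul, mul_pow, mul_comm]
    rw [e1, sub_mul, mul_inv_cancel₀ hC0]
  rw [e]
  exact h3.mul' (locUnit_iff.1 hC).2.2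

/-- **Step 4, one branch (no `φ`).**  `u ≡ c₀` on the branch `p ≤ n`, `d` a unit at `p`,
`u · d ^ m` a unit at `n`  ⟹  `d ≡ r` on `p` for a unit `r` of `B_n`. -/
theorem exists_unit_res {n p : Ideal B} (hn : n.IsMaximal) [hp : p.IsPrime] (hpn : p ≤ n)
    (hnorm : IsIntegrallyClosed (B ⧸ p)) {m : ℕ} (hm : 0 < m) {u d : F} {c₀ : R}
    (hc : IsUnit c₀) (hcong : InLoc B p p (u - algebraMap R F c₀))
    (hd : LocUnit B p d) (hε : LocUnit B n (u * d ^ m)) :
    ∃ r : F, LocUnit B n r ∧ InLoc B p p (d - r) := by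
  have hnp := hn.isPrime
  have hcn : LocUnit B n (algebraMap R F c₀) := locUnit_const hc
  have hcp : LocUnit B p (algebraMap R F c₀) := locUnit_const hc
  have huu : LocUnit B p u := locUnit_of_cong hcp hcong
  obtain ⟨hu0, hu1, hu2⟩ := locUnit_iff.1 huu
  obtain ⟨hd0, hd1, hd2⟩ := locUnit_iff.1 hd
  obtain ⟨hε0, hε1, hε2⟩ := locUnit_iff.1 hε
  obtain ⟨hc0, hc1, hc2⟩ := locUnit_iff.1 hcn
  have hdm0 : d ^ m ≠ 0 := pow_ne_zero _ hd0
  -- `d ^ m ≡ ε c₀⁻¹` and `d⁻¹ ^ m ≡ c₀ ε⁻¹` on `p`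
  have hinv : InLoc B p p (u⁻¹ - (algebraMap R F c₀)⁻¹) := cong_inv huu hcp hcong
  have h1 : InLoc B p p (d ^ m - (u * d ^ m) * (algebraMap R F c₀)⁻¹) := by
    have e : d ^ m - (u * d ^ m) * (algebraMap R F c₀)⁻¹
        = (u * d ^ m) * (u⁻¹ - (algebraMap R F c₀)⁻¹) := by
      field_simp
    rw [e]
    exact (hε1.anti hpn).mul hinv
  have h2 : InLoc B p p (d⁻¹ ^ m - algebraMap R F c₀ * (u * d ^ m)⁻¹) := by
    have e : d⁻¹ ^ m - algebraMap R F c₀ * (u * d ^ m)⁻¹
        = (u - algebraMap R F c₀) * (u * d ^ m)⁻¹ := by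
      rw [sub_mul, mul_inv, mul_inv_cancel_left₀ hu0, inv_pow]
    rw [e]
    exact hcong.mul' (hε2.anti hpn)
  obtain ⟨r, hr, hr'⟩ := exists_res_of_pow hpn hnorm hm hd1 (hε1.mul hc2) h1
  obtain ⟨r', hr₂, hr₂'⟩ := exists_res_of_pow hpn hnorm hm hd2 (hc1.mul hε2) h2
  -- `r r' ≡ 1`, so `r` is a unit of `B_n`
  have h3 : InLoc B p p (r * r' - 1) := by
    have := cong_mul (hr.anti hpn) hd2 (cong_symm hr') (cong_symm hr₂')
    rwa [mul_inv_cancel₀ hd0] at this
  have h4 : InLoc B n n (r * r' - 1) := (InLoc.of_le ((hr.mul hr₂).sub (inLoc_one n)) h3).mono hpn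
  have h5 : LocUnit B n (r * r') := locUnit_of_cong (locUnit_one n) h4
  have hr0 : r ≠ 0 := left_ne_zero_of_mul (locUnit_ne_zero h5)
  have hrU : LocUnit B n r := by
    refine locUnit_iff.2 ⟨hr0, hr, ?_⟩
    have e : r⁻¹ = r' * (r * r')⁻¹ := by
      have hr'0 : r' ≠ 0 := right_ne_zero_of_mul (locUnit_ne_zero h5)
      field_simp
    rw [e]
    exact hr₂.mul (locUnit_iff.1 h5).2.2
  exact ⟨r, hrU, hr'⟩

/-- **Step 4/5, crossing point (swap).** -/
theorem SwapCtx.exists_eta_node (hφ : SwapCtx w B c φ Q) {n : Ideal B} (hn : n.IsMaximal)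
    (h1n : c.p₁ ≤ n) (h2n : c.p₂ ≤ n)
    (hwn : algebraMap R B w ∈ n) (hk : ∀ b : B, ∃ r : R, b - algebraMap R B r ∈ n)
    (hfix : ∀ b : B, b ∈ n → hφ.hom b ∈ n)
    (htr : ∀ b : B, b ∈ n → ∃ s : B, s ∉ n ∧ s * b ∈ c.p₁ ⊔ c.p₂)
    {m : ℕ} (hm : 0 < m) {u d : F} {c₁ c₂ : R} (hc₁ : IsUnit c₁) (hc₂ : IsUnit c₂)
    (hu₁ : InLoc B c.p₁ c.p₁ (u - algebraMap R F c₁))
    (hu₂ : InLoc B c.p₂ c.p₂ (u - algebraMap R F c₂))
    (hd₁ : LocUnit B c.p₁ d) (hd₂ : LocUnit B c.p₂ d) (hε : LocUnit B n (u * d ^ m)) :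
    ∃ η : F, InLoc B n ⊤ η ∧ InLoc B c.p₁ c.p₁ (η - (φ d * d ^ Q)⁻¹) ∧
      InLoc B c.p₂ c.p₂ (η - (φ d * d ^ Q)⁻¹) := by
  have hnp := hn.isPrime
  have hp₁ := c.prime₁
  have hp₂ := c.prime₂
  obtain ⟨r₁, hr₁, hr₁p⟩ := exists_unit_res hn h1n c.normal₁ hm hc₁ hu₁ hd₁ hε
  obtain ⟨r₂, hr₂, hr₂p⟩ := exists_unit_res hn h2n c.normal₂ hm hc₂ hu₂ hd₂ hε
  have hnn : ∀ b : B, b ∉ n → hφ.hom b ∉ n := fun b hb h => hb (hφ.mem_of_hom_mem hn hfix b h)
  have h21 : ∀ b : B, b ∉ c.p₂ → hφ.hom b ∉ c.p₁ := fun b hb h => hb ((hφ.map₁₂ b).1 h)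
  have h12 : ∀ b : B, b ∉ c.p₁ → hφ.hom b ∉ c.p₂ := fun b hb h => hb ((hφ.map₂₁ b).1 h)
  have hI21 : ∀ b : B, b ∈ c.p₂ → hφ.hom b ∈ c.p₁ := fun b hb => (hφ.map₁₂ b).2 hb
  have hI12 : ∀ b : B, b ∈ c.p₁ → hφ.hom b ∈ c.p₂ := fun b hb => (hφ.map₂₁ b).2 hb
  -- the two residues
  have hθ₁ : LocUnit B n (φ r₂ * r₁ ^ Q) := locUnit_mul (hφ.locUnit hnn hr₂) (locUnit_pow hr₁ Q)
  have hθ₂ : LocUnit B n (φ r₁ * r₂ ^ Q) := locUnit_mul (hφ.locUnit hnn hr₁) (locUnit_pow hr₂ Q)
  have hδ₁ : LocUnit B c.p₁ (φ d * d ^ Q) :=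
    locUnit_mul (hφ.locUnit h21 hd₂) (locUnit_pow hd₁ Q)
  have hδ₂ : LocUnit B c.p₂ (φ d * d ^ Q) :=
    locUnit_mul (hφ.locUnit h12 hd₁) (locUnit_pow hd₂ Q)
  -- `δ ≡ θ_i` on `p_i`
  have hδθ₁ : InLoc B c.p₁ c.p₁ (φ d * d ^ Q - φ r₂ * r₁ ^ Q) := by
    have a1 : InLoc B c.p₁ c.p₁ (φ d - φ r₂) := by
      rw [← map_sub]
      exact hφ.inLoc h21 hI21 hr₂p
    have a2 : InLoc B c.p₁ c.p₁ (d ^ Q - r₁ ^ Q) :=
      cong_pow (locUnit_iff.1 hd₁).2.1 ((locUnit_iff.1 hr₁).2.1.anti h1n) hr₁p Q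
    exact cong_mul (locUnit_iff.1 (hφ.locUnit h21 hd₂)).2.1
      ((locUnit_iff.1 (locUnit_pow hr₁ Q)).2.1.anti h1n) a1 a2
  have hδθ₂ : InLoc B c.p₂ c.p₂ (φ d * d ^ Q - φ r₁ * r₂ ^ Q) := by
    have a1 : InLoc B c.p₂ c.p₂ (φ d - φ r₁) := by
      rw [← map_sub]
      exact hφ.inLoc h12 hI12 hr₁p
    have a2 : InLoc B c.p₂ c.p₂ (d ^ Q - r₂ ^ Q) :=
      cong_pow (locUnit_iff.1 hd₂).2.1 ((locUnit_iff.1 hr₂).2.1.anti h2n) hr₂p Q
    exact cong_mul (locUnit_iff.1 (hφ.locUnit h12 hd₁)).2.1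
      ((locUnit_iff.1 (locUnit_pow hr₂ Q)).2.1.anti h2n) a1 a2
  -- the residues agree at `n`
  have e₀ : InLoc B n n (φ r₂ * r₁ ^ Q - φ r₁ * r₂ ^ Q) := by
    have b1 := hφ.cong_pow_of_fixed hn hwn hk hfix (locUnit_iff.1 hr₁).2.1
    have b2 := hφ.cong_pow_of_fixed hn hwn hk hfix (locUnit_iff.1 hr₂).2.1
    have e : φ r₂ * r₁ ^ Q - φ r₁ * r₂ ^ Q
        = (φ r₂ - r₂ ^ Q) * r₁ ^ Q - (φ r₁ - r₁ ^ Q) * r₂ ^ Q := by ring
    rw [e]
    exact (b2.mul' (locUnit_iff.1 (locUnit_pow hr₁ Q)).2.1).sub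
      (b1.mul' (locUnit_iff.1 (locUnit_pow hr₂ Q)).2.1)
  have e₃ : InLoc B n n ((φ r₂ * r₁ ^ Q)⁻¹ - (φ r₁ * r₂ ^ Q)⁻¹) := cong_inv hθ₁ hθ₂ e₀
  have e₄ : InLoc B n (c.p₁ ⊔ c.p₂) ((φ r₂ * r₁ ^ Q)⁻¹ - (φ r₁ * r₂ ^ Q)⁻¹) := by
    obtain ⟨a, b, ha, hb, hab⟩ := e₃
    obtain ⟨s, hs, hsa⟩ := htr a ha
    refine ⟨s * a, s * b, hsa, fun h => (hnp.mem_or_mem h).elim hs hb, ?_⟩
    push_cast
    rw [← hab]
    ring
  obtain ⟨η, hη, hη₁, hη₂⟩ := exists_patch_node h1n h2n (locUnit_iff.1 hθ₁).2.2 e₄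
  refine ⟨η, hη, cong_trans hη₁ (cong_symm ?_), cong_trans hη₂ (cong_symm ?_)⟩
  · exact cong_inv hδ₁ (LocUnit_anti h1n hθ₁) hδθ₁
  · exact cong_inv hδ₂ (LocUnit_anti h2n hθ₂) hδθ₂

/-! ### the theorem -/

/-- **`φ`-ASM, swap form.**  `u ≡ c₁` on `p₁`, `u ≡ c₂` on `p₂`, purity data for `u` at `φ⁻¹ n`
and at `n`  ⟹  local factorisation of `φ u · u ^ Q / (c₁ c₂) ^ Q` at `n`.  At a crossing point
`n` one needs: `n` is fixed by `φ`, the residue field of `n` is that of `R`, and the two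
components are transversal at `n`. -/
theorem localFactor_swap_of_pureAt (w : R) (B : Subalgebra R F) (c : SSChart w B)
    (φ : F ≃+* F) (Q : ℕ) (hφ : SwapCtx w B c φ Q)
    (m : ℕ) (hm : 0 < m) (u : F) (_hu : u ≠ 0) {c₁ c₂ : R} (hc₁ : IsUnit c₁) (hc₂ : IsUnit c₂)
    (hu₁ : InLoc B c.p₁ c.p₁ (u - algebraMap R F c₁))
    (hu₂ : InLoc B c.p₂ c.p₂ (u - algebraMap R F c₂))
    (n : Ideal B) (hn : n.IsMaximal) (hwn : algebraMap R B w ∈ n)
    (hk : c.p₁ ≤ n → c.p₂ ≤ n → ∀ b : B, ∃ r : R, b - algebraMap R B r ∈ n)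
    (hfix : c.p₁ ≤ n → c.p₂ ≤ n → ∀ b : B, b ∈ n → hφ.hom b ∈ n)
    (htr : c.p₁ ≤ n → c.p₂ ≤ n → ∀ b : B, b ∈ n → ∃ s : B, s ∉ n ∧ s * b ∈ c.p₁ ⊔ c.p₂)
    (h' : PureAt B c m u (n.comap hφ.hom)) (h : PureAt B c m u n) :
    LocalFactor B c m (φ u * u ^ Q * (algebraMap R F (c₁ * c₂) ^ Q)⁻¹) n := by
  have hnp := hn.isPrime
  have hp₁ := c.prime₁
  have hp₂ := c.prime₂
  have h21 : ∀ b : B, b ∉ c.p₂ → hφ.hom b ∉ c.p₁ := fun b hb h => hb ((hφ.map₁₂ b).1 h)
  have h12 : ∀ b : B, b ∉ c.p₁ → hφ.hom b ∉ c.p₂ := fun b hb h => hb ((hφ.map₂₁ b).1 h)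
  have hv₁ : InLoc B c.p₁ c.p₁ (φ u * u ^ Q * (algebraMap R F (c₁ * c₂) ^ Q)⁻¹ - 1) :=
    hφ.cong_one (mem_w_left c) hφ.map₁₂ hc₁ hc₂ hu₁ hu₂
  have hv₂ : InLoc B c.p₂ c.p₂ (φ u * u ^ Q * (algebraMap R F (c₁ * c₂) ^ Q)⁻¹ - 1) := by
    have := hφ.cong_one (mem_w_right c) hφ.map₂₁ hc₂ hc₁ hu₂ hu₁
    rwa [mul_comm c₂ c₁] at this
  have hCn : LocUnit B n (algebraMap R F (c₁ * c₂) ^ Q) :=
    locUnit_pow (locUnit_const (hc₁.mul hc₂)) Q
  obtain ⟨d, hd0, hε, hd₁, hd₂⟩ := h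
  by_cases h1n : c.p₁ ≤ n
  · by_cases h2n : c.p₂ ≤ n
    · -- crossing point
      have hfix' := hfix h1n h2n
      have hnn : ∀ b : B, b ∉ n → hφ.hom b ∉ n :=
        fun b hb h => hb (hφ.mem_of_hom_mem hn hfix' b h)
      obtain ⟨η, hη, hη₁, hη₂⟩ := hφ.exists_eta_node hn h1n h2n hwn (hk h1n h2n) hfix'
        (htr h1n h2n) hm hc₁ hc₂ hu₁ hu₂ hd₁ hd₂ hε
      have hrel : φ u * u ^ Q * (algebraMap R F (c₁ * c₂) ^ Q)⁻¹ * (φ d * d ^ Q) ^ m
          = φ (u * d ^ m) * (u * d ^ m) ^ Q * (algebraMap R F (c₁ * c₂) ^ Q)⁻¹ := by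
        rw [map_mul φ, map_pow φ]
        ring
      exact localFactor_of_patch c hrel
        (locUnit_iff.1 (locUnit_mul (locUnit_mul (hφ.locUnit hnn hε) (locUnit_pow hε Q))
          (locUnit_inv hCn))).2.1 hη
        (locUnit_mul (hφ.locUnit h21 hd₂) (locUnit_pow hd₁ Q))
        (locUnit_mul (hφ.locUnit h12 hd₁) (locUnit_pow hd₂ Q))
        hv₁ hv₂ hη₁ hη₂
    · -- smooth point on the first component
      obtain ⟨d', hd'0, hε', hd'₁, hd'₂⟩ := h'
      have hδ₁ : LocUnit B c.p₁ (φ d' * d ^ Q) :=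
        locUnit_mul (hφ.locUnit h21 hd'₂) (locUnit_pow hd₁ Q)
      have hδ₂ : LocUnit B c.p₂ (φ d' * d ^ Q) :=
        locUnit_mul (hφ.locUnit h12 hd'₁) (locUnit_pow hd₂ Q)
      have hυ : LocUnit B n
          (φ (u * d' ^ m) * (u * d ^ m) ^ Q * (algebraMap R F (c₁ * c₂) ^ Q)⁻¹) :=
        locUnit_mul (locUnit_mul (hφ.locUnit (hφ.not_mem_comap n) hε') (locUnit_pow hε Q))
          (locUnit_inv hCn)
      have hrel : φ u * u ^ Q * (algebraMap R F (c₁ * c₂) ^ Q)⁻¹ * (φ d' * d ^ Q) ^ m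
          = φ (u * d' ^ m) * (u * d ^ m) ^ Q * (algebraMap R F (c₁ * c₂) ^ Q)⁻¹ := by
        rw [map_mul φ, map_pow φ]
        ring
      obtain ⟨η, hη, hη₁, hη₂⟩ :=
        exists_eta_smooth h1n h2n c.not_le₁₂ c.normal₁ hm hrel hυ hδ₁ hδ₂ hv₁
      exact localFactor_of_patch c hrel (locUnit_iff.1 hυ).2.1 hη hδ₁ hδ₂ hv₁ hv₂ hη₁ hη₂
  · -- smooth point on the second component
    have h2n : c.p₂ ≤ n := by
      have hle : c.p₁ ⊓ c.p₂ ≤ n := by
        rw [c.inf_eq, Ideal.span_singleton_le_iff_mem]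
        exact hwn
      rcases (Ideal.IsPrime.inf_le hnp).1 hle with h | h
      · exact absurd h h1n
      · exact h
    obtain ⟨d', hd'0, hε', hd'₁, hd'₂⟩ := h'
    have hδ₁ : LocUnit B c.p₁ (φ d' * d ^ Q) :=
      locUnit_mul (hφ.locUnit h21 hd'₂) (locUnit_pow hd₁ Q)
    have hδ₂ : LocUnit B c.p₂ (φ d' * d ^ Q) :=
      locUnit_mul (hφ.locUnit h12 hd'₁) (locUnit_pow hd₂ Q)
    have hυ : LocUnit B n
        (φ (u * d' ^ m) * (u * d ^ m) ^ Q * (algebraMap R F (c₁ * c₂) ^ Q)⁻¹) :=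
      locUnit_mul (locUnit_mul (hφ.locUnit (hφ.not_mem_comap n) hε') (locUnit_pow hε Q))
        (locUnit_inv hCn)
    have hrel : φ u * u ^ Q * (algebraMap R F (c₁ * c₂) ^ Q)⁻¹ * (φ d' * d ^ Q) ^ m
        = φ (u * d' ^ m) * (u * d ^ m) ^ Q * (algebraMap R F (c₁ * c₂) ^ Q)⁻¹ := by
      rw [map_mul φ, map_pow φ]
      ring
    obtain ⟨η, hη, hη₂, hη₁⟩ :=
      exists_eta_smooth h2n h1n c.not_le₂₁ c.normal₂ hm hrel hυ hδ₂ hδ₁ hv₂
    exact localFactor_of_patch c hrel (locUnit_iff.1 hυ).2.1 hη hδ₁ hδ₂ hv₁ hv₂ hη₁ hη₂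

end Fermat.Agent.Ribet.H818

end
-- ===== PACK-END Ribet/H818/SwapAsm.lean

-- ===== PACK-BEGIN S35/H433/Approx.lean
section


/-!
# S35 / (G) — F4 APPROX: from residues in `kˣ · (κˣ)^m` to split classes (helper433)

* `GSplitAt B p m u` : `u` is a unit on the component `p` whose residue is a constant times an
  `m`-th power (`u = c · y ^ m · (1 + p B_p)`, `y` a unit of `B_p`, `c` a unit of `R`);
* `exists_approx` : weak approximation on the two components of a chart;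
* `exists_isSplit_of_gSplit` : if `u` is `GSplitAt` both components, then `u · G⁻ᵐ` is split
  (`Alg.IsSplit`) for some `G ≠ 0`.
-/

set_option autoImplicit false

namespace Fermat.Agent.S35.H433

open Fermat.Agent.A2 Fermat.Agent.A2.Alg

variable {R F : Type*} [CommRing R] [Field F] [Algebra R F]

/-- `u` is a unit on the component `p` with residue in `kˣ · (κ(p)ˣ)^m`. -/
def GSplitAt (B : Subalgebra R F) (p : Ideal B) (m : ℕ) (u : F) : Prop :=
  ∃ y : F, LocUnit B p y ∧ ConstAt B p (u * (y ^ m)⁻¹)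

variable {B : Subalgebra R F}

/-- Converse of `exists_const_of_constAt`. -/
theorem constAt_of_cong {p : Ideal B} {u : F} {c₀ : R} (hc : IsUnit c₀)
    (h : InLoc B p p (u - algebraMap R F c₀)) : ConstAt B p u := by
  obtain ⟨a, b, ha, hb, hab⟩ := h
  refine ⟨c₀, hc, a + algebraMap R B c₀ * b, b, hb, by simpa using ha, ?_⟩
  push_cast
  rw [← hab]
  ring

theorem constAt_iff {p : Ideal B} [p.IsPrime] {u : F} :
    ConstAt B p u ↔ ∃ c₀ : R, IsUnit c₀ ∧ InLoc B p p (u - algebraMap R F c₀) := by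
  constructor
  · intro h
    obtain ⟨c₀, hc, -, hcong⟩ := exists_const_of_constAt h
    exact ⟨c₀, hc, hcong⟩
  · rintro ⟨c₀, hc, h⟩
    exact constAt_of_cong hc h

/-- A split class is `GSplitAt` both components. -/
theorem gSplitAt_of_constAt {p : Ideal B} [p.IsPrime] {m : ℕ} {u : F} (h : ConstAt B p u) :
    GSplitAt B p m u :=
  ⟨1, locUnit_one p, by simpa using h⟩

/-- **Weak approximation** on the two components of a chart. -/
theorem exists_approx {w : R} (c : SSChart w B) {y₁ y₂ : F} (h₁ : LocUnit B c.p₁ y₁)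
    (h₂ : LocUnit B c.p₂ y₂) :
    ∃ G : F, LocUnit B c.p₁ G ∧ LocUnit B c.p₂ G ∧ InLoc B c.p₁ c.p₁ (G - y₁) ∧
      InLoc B c.p₂ c.p₂ (G - y₂) := by
  have := c.prime₁
  have := c.prime₂
  obtain ⟨G, -, hG₁, hG₂⟩ := exists_patch_smooth (le_refl c.p₁) c.not_le₂₁ c.not_le₁₂
    (locUnit_iff.1 h₁).2.1 (locUnit_iff.1 h₂).2.1
  exact ⟨G, locUnit_of_cong h₁ hG₁, locUnit_of_cong h₂ hG₂, hG₁, hG₂⟩

/-- One component: `u ≡ c y ^ m`, `G ≡ y`  ⟹  `u G⁻ᵐ ≡ c`. -/
theorem constAt_div_pow {p : Ideal B} [hp : p.IsPrime] {m : ℕ} {u y G : F}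
    (hy : LocUnit B p y) (hu : ConstAt B p (u * (y ^ m)⁻¹)) (hG : LocUnit B p G)
    (hGy : InLoc B p p (G - y)) : ConstAt B p (u * (G ^ m)⁻¹) := by
  obtain ⟨c₀, hc, hu', hcong⟩ := exists_const_of_constAt hu
  refine constAt_of_cong hc ?_
  have hym : LocUnit B p (y ^ m) := locUnit_pow hy m
  have hGm : LocUnit B p (G ^ m) := locUnit_pow hG m
  have h1 : InLoc B p p (G ^ m - y ^ m) :=
    cong_pow (locUnit_iff.1 hG).2.1 (locUnit_iff.1 hy).2.1 hGy m
  have h2 : InLoc B p p ((G ^ m)⁻¹ - (y ^ m)⁻¹) := cong_inv hGm hym h1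
  -- `u = (u y⁻ᵐ) yᵐ ∈ B_p`
  have huB : InLoc B p ⊤ u := by
    have e : u = u * (y ^ m)⁻¹ * y ^ m := by
      rw [mul_assoc, inv_mul_cancel₀ (locUnit_ne_zero hym), mul_one]
    rw [e]
    exact (locUnit_iff.1 hu').2.1.mul (locUnit_iff.1 hym).2.1
  have h3 : InLoc B p p (u * (G ^ m)⁻¹ - u * (y ^ m)⁻¹) := by
    rw [← mul_sub]
    exact huB.mul h2
  exact cong_trans h3 hcong

/-- **F4.**  `u` with residues in `kˣ · (κˣ)^m` on both components of a chart becomes split after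
division by an `m`-th power. -/
theorem exists_isSplit_of_gSplit {w : R} (c : SSChart w B) {m : ℕ} {u : F}
    (h₁ : GSplitAt B c.p₁ m u) (h₂ : GSplitAt B c.p₂ m u) :
    ∃ G : F, G ≠ 0 ∧ IsSplit B c (u * (G ^ m)⁻¹) := by
  have := c.prime₁
  have := c.prime₂
  obtain ⟨y₁, hy₁, hu₁⟩ := h₁
  obtain ⟨y₂, hy₂, hu₂⟩ := h₂
  obtain ⟨G, hG₁, hG₂, hc₁, hc₂⟩ := exists_approx c hy₁ hy₂
  exact ⟨G, locUnit_ne_zero hG₁, constAt_div_pow hy₁ hu₁ hG₁ hc₁, constAt_div_pow hy₂ hu₂ hG₂ hc₂⟩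

end Fermat.Agent.S35.H433

end
-- ===== PACK-END S35/H433/Approx.lean

-- ===== PACK-BEGIN S25/H130/Chart.lean
section


/-!
# S25 / AS4 (helper130): the chart locus of a rigidified line bundle over an arbitrary base
-/

set_option autoImplicit false
universe u
open CategoryTheory CategoryTheory.Limits AlgebraicGeometry AlgebraicGeometry.RelPicard
  NeronModelInfra GoodReductionJacobian TopologicalSpace

namespace Fermat.Agent.S25.H130

noncomputable section

variable {k : Type u} [Field k] {C : Scheme.{u}} {c : C ⟶ Spec (CommRingCat.of k)}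
  {ε : SchemeHomOver (𝟙 (Spec (CommRingCat.of k))) c}

variable {T T' : Scheme.{u}} {t : T ⟶ Spec (CommRingCat.of k)}
  {t' : T' ⟶ Spec (CommRingCat.of k)}

/-- The `i`-th chart, as a scheme. -/
abbrev chX (ch : ChartFamily c ε) (i : ch.ι) : Scheme.{u} := Spec (CommRingCat.of (ch.R i))

/-- The structure morphism of the `i`-th chart. -/
abbrev chStr (ch : ChartFamily c ε) (i : ch.ι) : chX ch i ⟶ Spec (CommRingCat.of k) :=
  specStr k (ch.R i)

/-- `N` lies in the `i`-th chart: it is a pullback of the universal bundle of the chart. -/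
def InChart (ch : ChartFamily c ε) (i : ch.ι) (N : RigidifiedLineBundle c ε t) : Prop :=
  ∃ φ : T ⟶ chX ch i, IsPB (ch.bundle i) φ N

theorem InChart.of_rIso {ch : ChartFamily c ε} {i : ch.ι} {N N' : RigidifiedLineBundle c ε t}
    (h : InChart ch i N) (e : RIso N N') : InChart ch i N' := by
  obtain ⟨φ, hφ⟩ := h
  exact ⟨φ, hφ.of_rIso_right e⟩

theorem InChart.pullback {ch : ChartFamily c ε} {i : ch.ι} {N : RigidifiedLineBundle c ε t}
    (h : InChart ch i N) {f : T' ⟶ T} {N' : RigidifiedLineBundle c ε t'} (hf : IsPB N f N') :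
    InChart ch i N' := by
  obtain ⟨φ, hφ⟩ := h
  exact ⟨f ≫ φ, hφ.comp hf⟩

theorem inChart_bundle (ch : ChartFamily c ε) (i : ch.ι) : InChart ch i (ch.bundle i) :=
  ⟨𝟙 _, isPB_id _⟩

/-- Being in a chart is Zariski-local on the base. -/
theorem InChart.of_isOpenCover (hSep : Stmt.SheafSep c ε) (ch : ChartFamily c ε) (i : ch.ι)
    (N : RigidifiedLineBundle c ε t) {ι : Type u} (U : ι → T.Opens) (hU : (⨆ a, U a) = ⊤)
    (h : ∀ a, ∃ (s : (U a).toScheme ⟶ Spec (CommRingCat.of k))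
      (L : RigidifiedLineBundle c ε s), IsPB N (U a).ι L ∧ InChart ch i L) :
    InChart ch i N := by
  choose s L hL φ hφ using h
  let 𝒰 : T.OpenCover := T.openCoverOfIsOpenCover U hU
  have compat : ∀ a b, pullback.fst (𝒰.f a) (𝒰.f b) ≫ φ a = pullback.snd (𝒰.f a) (𝒰.f b) ≫ φ b := by
    intro a b
    have hZ := isPB_mk N (pullback.fst (𝒰.f a) (𝒰.f b) ≫ (U a).ι) rfl
    have h1 : IsPB (L a) (pullback.fst (𝒰.f a) (𝒰.f b)) _ := (hL a).of_comp hZ
    have hcond : pullback.fst (𝒰.f a) (𝒰.f b) ≫ (U a).ι =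
        pullback.snd (𝒰.f a) (𝒰.f b) ≫ (U b).ι := pullback.condition
    have h2 : IsPB (L b) (pullback.snd (𝒰.f a) (𝒰.f b)) _ := (hL b).of_comp (hZ.of_eq hcond)
    exact inj_scheme ch i _ ((hφ a).comp h1) ((hφ b).comp h2)
  let Φ : T ⟶ chX ch i := 𝒰.glueMorphisms φ compat
  have hΦ : ∀ a, (U a).ι ≫ Φ = φ a := fun a => 𝒰.ι_glueMorphisms φ compat a
  have hw : Φ ≫ chStr ch i = t := by
    refine Scheme.Cover.hom_ext 𝒰 _ _ fun a => ?_
    show (U a).ι ≫ Φ ≫ chStr ch i = (U a).ι ≫ t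
    rw [← Category.assoc, hΦ, (hφ a).w, (hL a).w]
  refine ⟨Φ, hw, ?_⟩
  refine sheafSep_isPB hSep U hU _ _ fun a => ⟨s a, L a, ?_, hL a⟩
  exact (isPB_mk (ch.bundle i) Φ hw).of_comp ((hφ a).of_eq (hΦ a).symm)

/-- The locus of the base over which `N` lies in the `i`-th chart. -/
def chartLocus (ch : ChartFamily c ε) (i : ch.ι) (N : RigidifiedLineBundle c ε t) : T.Opens :=
  sSup {V : T.Opens | InChart ch i (restrictOpen N V)}

theorem le_chartLocus {ch : ChartFamily c ε} {i : ch.ι} {N : RigidifiedLineBundle c ε t}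
    {V : T.Opens} (h : InChart ch i (restrictOpen N V)) : V ≤ chartLocus ch i N :=
  le_sSup h

/-- The range of an open immersion along which `N` pulls back into the chart lies in the chart
locus. -/
theorem opensRange_le_chartLocus {ch : ChartFamily c ε} {i : ch.ι}
    {N : RigidifiedLineBundle c ε t} (j : T' ⟶ T) [IsOpenImmersion j]
    {L : RigidifiedLineBundle c ε t'} (hL : IsPB N j L) (h : InChart ch i L) :
    j.opensRange ≤ chartLocus ch i N := by
  refine le_chartLocus (h.pullback (f := j.isoOpensRange.inv) ?_)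
  refine hL.of_comp ((isPB_restrictOpen N j.opensRange).of_eq ?_)
  exact (Scheme.Hom.isoOpensRange_inv_comp j).symm

/-- Over its chart locus, `N` lies in the chart. -/
theorem inChart_chartLocus (hSep : Stmt.SheafSep c ε) (ch : ChartFamily c ε) (i : ch.ι)
    (N : RigidifiedLineBundle c ε t) :
    InChart ch i (restrictOpen N (chartLocus ch i N)) := by
  let W := chartLocus ch i N
  let S := {V : T.Opens | InChart ch i (restrictOpen N V)}
  refine InChart.of_isOpenCover hSep ch i _ (fun V : S => W.ι ⁻¹ᵁ V.1) ?_ fun V => ?_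
  · rw [eq_top_iff]
    rintro x -
    have hx : (W.ι x : T) ∈ sSup S := x.2
    rw [Opens.mem_sSup] at hx
    obtain ⟨V, hV, hxV⟩ := hx
    exact Opens.mem_iSup.2 ⟨⟨V, hV⟩, hxV⟩
  · have hrange : Set.range ((W.ι ⁻¹ᵁ V.1).ι ≫ W.ι) ⊆ Set.range V.1.ι := by
      rintro _ ⟨y, rfl⟩
      have : (W.ι ((W.ι ⁻¹ᵁ V.1).ι y) : T) ∈ V.1 := y.2
      simpa using this
    let l := IsOpenImmersion.lift V.1.ι ((W.ι ⁻¹ᵁ V.1).ι ≫ W.ι) hrange
    have hl : l ≫ V.1.ι = (W.ι ⁻¹ᵁ V.1).ι ≫ W.ι := IsOpenImmersion.lift_fac _ _ _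
    have h1 := isPB_mk (restrictOpen N V.1) l rfl
    refine ⟨_, _, ?_, V.2.pullback h1⟩
    exact (isPB_restrictOpen N W).of_comp (((isPB_restrictOpen N V.1).comp h1).of_eq hl)

/-- If `f` maps into the chart locus of `N`, then the pullback of `N` along `f` lies in the
chart. -/
theorem inChart_of_range_subset (hSep : Stmt.SheafSep c ε) (ch : ChartFamily c ε) (i : ch.ι)
    {N : RigidifiedLineBundle c ε t} {f : T' ⟶ T} {N' : RigidifiedLineBundle c ε t'}
    (hf : IsPB N f N') (h : ∀ x, f x ∈ chartLocus ch i N) : InChart ch i N' := by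
  have hrange : Set.range f ⊆ Set.range (chartLocus ch i N).ι := by
    rintro _ ⟨y, rfl⟩
    simpa using h y
  refine (inChart_chartLocus hSep ch i N).pullback
    (f := IsOpenImmersion.lift (chartLocus ch i N).ι f hrange) ?_
  exact (isPB_restrictOpen N _).of_comp (hf.of_eq (IsOpenImmersion.lift_fac _ _ _).symm)

end

end Fermat.Agent.S25.H130

end
-- ===== PACK-END S25/H130/Chart.lean

-- ===== PACK-BEGIN S25/H505/DictSections.lean
section
/-
S25, block DICT (helper505): `dictSections : Stmt.DictSections Ch` — every rigidified line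
bundle on `C_A` has a (rigidifiable) gluing datum of sections.  Also `exists_corr` (any
invertible module has a gluing datum of sections) and `rigidifiable_of_corr`.
-/




set_option autoImplicit false
universe u
open CategoryTheory CategoryTheory.Limits AlgebraicGeometry AlgebraicGeometry.RelPicard
  NeronModelInfra GoodReductionJacobian
open scoped TensorProduct

namespace Fermat.Agent.S25.H505

noncomputable section

variable {k : Type u} [Field k] {C : Scheme.{u}} {c : C ⟶ Spec (CommRingCat.of k)}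
  {ε : SchemeHomOver (𝟙 (Spec (CommRingCat.of k))) c}

/-- **DICT-SEC, first half**: every invertible module on `C_A` has a gluing datum of
sections. -/
theorem exists_corr (Ch : ChartOf c ε) (A : Type u) [CommRing A] [Algebra k A]
    (L : (pullback c (specStr k A)).Modules) (hL : Scheme.Modules.IsInvertible L) :
    ∃ G : CurveGD k Ch.B₀ Ch.B₁ Ch.B₀₁ A, Corr Ch A L G := by
  have : L.IsQuasicoherent := isQuasicoherent_of_isInvertible L hL
  have a₀ := isAffineOpen_preimageOpen c A Ch.isAffine₀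
  have a₁ := isAffineOpen_preimageOpen c A Ch.isAffine₁
  have a₀₁ := isAffineOpen_preimageOpen c A (H566.chart_isAffine₀₁ Ch)
  have l₀ : preimageOpen (c := c) A (Ch.U₀ ⊓ Ch.U₁) ≤ preimageOpen (c := c) A Ch.U₀ :=
    Scheme.Hom.preimage_mono _ inf_le_left
  have l₁ : preimageOpen (c := c) A (Ch.U₀ ⊓ Ch.U₁) ≤ preimageOpen (c := c) A Ch.U₁ :=
    Scheme.Hom.preimage_mono _ inf_le_right
  obtain ⟨G, e₀, e₁, e₀₁, h₀, h₁, h₀₁, hr₀, hr₁⟩ :=
    exists_glueDatum (A := A) (R₀ := A ⊗[k] Ch.B₀) (R₁ := A ⊗[k] Ch.B₁) (R₀₁ := A ⊗[k] Ch.B₀₁)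
      (H566.boxRingEquiv (A := A) Ch.isAffine₀ Ch.i₀ Ch.i₀_str)
      (H566.boxRingEquiv (A := A) Ch.isAffine₁ Ch.i₁ Ch.i₁_str)
      (H566.boxRingEquiv (A := A) (H566.chart_isAffine₀₁ Ch) Ch.i₀₁ (H566.chart_i₀₁_str Ch))
      (resRing l₀) (resRing l₁)
      (fun x => H566.boxRingEquiv_res (A := A) Ch.isAffine₀ (H566.chart_isAffine₀₁ Ch)
        inf_le_left Ch.i₀ Ch.i₀_str Ch.i₀₁ (H566.chart_i₀₁_str Ch) Ch.i₀₁_res₀ x)
      (fun x => H566.boxRingEquiv_res (A := A) Ch.isAffine₁ (H566.chart_isAffine₀₁ Ch)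
        inf_le_right Ch.i₁ Ch.i₁_str Ch.i₀₁ (H566.chart_i₀₁_str Ch) Ch.i₀₁_res₁ x)
      (resMod L l₀) (resMod L l₁)
      (resMod_isBC L a₀ a₀₁ l₀) (resMod_isBC L a₁ a₀₁ l₁)
      (invertible_sections L hL a₀) (invertible_sections L hL a₁)
  refine ⟨G, e₀, e₁, e₀₁, ?_, ?_, ?_, hr₀, hr₁⟩
  · refine isSectionsIso_of_isSL c Ch.isAffine₀ Ch.i₀ Ch.i₀_str L e₀ (fun y s => ?_)
    have := h₀ ((H566.boxRingEquiv (A := A) Ch.isAffine₀ Ch.i₀ Ch.i₀_str).symm y) s
    rwa [RingEquiv.apply_symm_apply] at this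
  · refine isSectionsIso_of_isSL c Ch.isAffine₁ Ch.i₁ Ch.i₁_str L e₁ (fun y s => ?_)
    have := h₁ ((H566.boxRingEquiv (A := A) Ch.isAffine₁ Ch.i₁ Ch.i₁_str).symm y) s
    rwa [RingEquiv.apply_symm_apply] at this
  · refine isSectionsIso_of_isSL c (H566.chart_isAffine₀₁ Ch) Ch.i₀₁ (H566.chart_i₀₁_str Ch) L
      e₀₁ (fun y s => ?_)
    have := h₀₁ ((H566.boxRingEquiv (A := A) (H566.chart_isAffine₀₁ Ch) Ch.i₀₁
      (H566.chart_i₀₁_str Ch)).symm y) s
    rwa [RingEquiv.apply_symm_apply] at this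

/-! ### Rigidification -/

section Rig

variable (Ch : ChartOf c ε) (A : Type u) [CommRing A] [Algebra k A]

/-- the rigidifying section `Spec A ⟶ C_A` -/
abbrev rigMap : Spec (CommRingCat.of A) ⟶ pullback c (specStr k A) :=
  rigSection c (specStr k A) ε

theorem le_rigMap_preimage :
    (⊤ : (Spec (CommRingCat.of A)).Opens) ≤
      (rigMap (ε := ε) A) ⁻¹ᵁ (preimageOpen (c := c) A Ch.U₁) := by
  rw [preimageOpen, ← Scheme.Hom.comp_preimage, H205.rigSection_fst, Scheme.Hom.comp_preimage,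
    Ch.eps_mem]
  exact le_rfl

/-- the ring map `Γ(C_A, U₁^A) → Γ(Spec A, ⊤)` induced by the rigidifying section -/
abbrev rigRing : Γ(pullback c (specStr k A), preimageOpen (c := c) A Ch.U₁) →+*
    Γ(Spec (CommRingCat.of A), ⊤) :=
  ((rigMap (ε := ε) A).appLE _ _ (le_rigMap_preimage Ch A)).hom

theorem rigRing_baseToSections (a : A) :
    (Scheme.ΓSpecIso (CommRingCat.of A)).hom
      (rigRing Ch A (baseToSections (c := c) A (preimageOpen (c := c) A Ch.U₁) a)) = a := by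
  have l1 : preimageOpen (c := c) A Ch.U₁ ≤ (pullback.snd c (specStr k A)) ⁻¹ᵁ ⊤ := le_top
  have l2 : (⊤ : (Spec (CommRingCat.of A)).Opens) ≤
      (𝟙 (Spec (CommRingCat.of A))) ⁻¹ᵁ ⊤ := le_top
  have h1 : (pullback.snd c (specStr k A)).appLE ⊤ (preimageOpen (c := c) A Ch.U₁) l1 ≫
      (rigMap (ε := ε) A).appLE _ _ (le_rigMap_preimage Ch A) =
      Scheme.Hom.appLE (𝟙 (Spec (CommRingCat.of A))) ⊤ ⊤ l2 := by
    rw [Scheme.Hom.appLE_comp_appLE]
    exact H205.appLE_congr_hom (H205.rigSection_snd c (specStr k A) ε) _ _ _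
  have h2 : Scheme.Hom.appLE (𝟙 (Spec (CommRingCat.of A))) ⊤ ⊤ l2 = 𝟙 _ := by
    simp only [Scheme.Hom.appLE, Scheme.Hom.id_app]
    exact (Spec (CommRingCat.of A)).presheaf.map_id _
  have h3 : ((Scheme.ΓSpecIso (CommRingCat.of A)).inv ≫
      (pullback.snd c (specStr k A)).appLE ⊤ (preimageOpen (c := c) A Ch.U₁) l1) ≫
      (rigMap (ε := ε) A).appLE _ _ (le_rigMap_preimage Ch A) ≫
      (Scheme.ΓSpecIso (CommRingCat.of A)).hom = 𝟙 _ := by
    rw [Category.assoc, reassoc_of% h1, h2, Category.id_comp, Iso.inv_hom_id]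
  exact congr($h3 a)

theorem rigRing_curveToSections (g : Γ(C, Ch.U₁)) :
    (Scheme.ΓSpecIso (CommRingCat.of A)).hom
      (rigRing Ch A (curveToSections (c := c) A Ch.U₁ g)) =
      algebraMap k A (evalAt c ε Ch.U₁ Ch.eps_mem g) := by
  have l0 : (⊤ : (Spec (CommRingCat.of k)).Opens) ≤ ε.1 ⁻¹ᵁ Ch.U₁ := le_of_eq Ch.eps_mem.symm
  have l1 : (⊤ : (Spec (CommRingCat.of A)).Opens) ≤ (specStr k A) ⁻¹ᵁ ⊤ := le_top
  have l2 : (⊤ : (Spec (CommRingCat.of A)).Opens) ≤ (specStr k A ≫ ε.1) ⁻¹ᵁ Ch.U₁ :=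
    l1.trans ((specStr k A).preimage_mono l0)
  have h1 : (pullback.fst c (specStr k A)).appLE Ch.U₁ (preimageOpen (c := c) A Ch.U₁) le_rfl ≫
      (rigMap (ε := ε) A).appLE _ _ (le_rigMap_preimage Ch A) =
      (specStr k A ≫ ε.1).appLE Ch.U₁ ⊤ l2 := by
    rw [Scheme.Hom.appLE_comp_appLE]
    exact H205.appLE_congr_hom (H205.rigSection_fst c (specStr k A) ε) _ _ _
  have h2 : (specStr k A ≫ ε.1).appLE Ch.U₁ ⊤ l2 =
      ε.1.appLE Ch.U₁ ⊤ l0 ≫ (specStr k A).appLE ⊤ ⊤ l1 := by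
    rw [Scheme.Hom.appLE_comp_appLE]
  have h3 : (specStr k A).appLE ⊤ ⊤ l1 ≫ (Scheme.ΓSpecIso (CommRingCat.of A)).hom =
      (Scheme.ΓSpecIso (CommRingCat.of k)).hom ≫ CommRingCat.ofHom (algebraMap k A) := by
    have := Scheme.ΓSpecIso_naturality (CommRingCat.ofHom (algebraMap k A))
    rw [← this]
    rfl
  have h4 : (pullback.fst c (specStr k A)).appLE Ch.U₁ (preimageOpen (c := c) A Ch.U₁) le_rfl ≫
      (rigMap (ε := ε) A).appLE _ _ (le_rigMap_preimage Ch A) ≫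
      (Scheme.ΓSpecIso (CommRingCat.of A)).hom =
      (ε.1.appLE Ch.U₁ ⊤ l0 ≫ (Scheme.ΓSpecIso (CommRingCat.of k)).hom) ≫
        CommRingCat.ofHom (algebraMap k A) := by
    rw [reassoc_of% h1, h2, Category.assoc, h3, Category.assoc]
  rw [H566.curveToSections_eq]
  exact congr($h4 g)

/-- the ring square for the rigidifying section: it induces `epsHom` on `A ⊗ B₁`. -/
theorem rigRing_boxRingEquiv (x : A ⊗[k] Ch.B₁) :
    (Scheme.ΓSpecIso (CommRingCat.of A)).hom
      (rigRing Ch A (H566.boxRingEquiv (A := A) Ch.isAffine₁ Ch.i₁ Ch.i₁_str x)) =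
      epsHom Ch.e A x := by
  induction x using TensorProduct.induction_on with
  | zero => simp
  | add x y hx hy => simp only [map_add, hx, hy]
  | tmul a b =>
    rw [H566.boxRingEquiv_tmul, map_mul, map_mul, rigRing_baseToSections,
      rigRing_curveToSections, ← Ch.e_eq, RingEquiv.apply_symm_apply]
    simp [epsHom]

/-- **DICT-SEC, second half**: the gluing datum of sections of a rigidified line bundle is
rigidifiable. -/
theorem rigidifiable_of_corr (M : RigidifiedLineBundle c ε (specStr k A))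
    (G : CurveGD k Ch.B₀ Ch.B₁ Ch.B₀₁ A) (hG : Corr Ch A M.L G) : G.Rigidifiable Ch.e := by
  obtain ⟨e₀, e₁, e₀₁, h₀, h₁, h₀₁, hr₀, hr₁⟩ := hG
  have : M.L.IsQuasicoherent := isQuasicoherent_of_isInvertible M.L M.isInvertible
  have a₁ := isAffineOpen_preimageOpen c A Ch.isAffine₁
  obtain ⟨θ₀⟩ := M.rigidified
  let θ : (Scheme.Modules.pullback (rigMap (ε := ε) A)).obj M.L ≅
      H566.unitModule (Spec (CommRingCat.of A)) := θ₀
  have hκ : IsBC (rigRing Ch A) (secMap (rigMap (ε := ε) A) M.L (le_rigMap_preimage Ch A)).hom :=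
    secMap_isBC _ M.L a₁ (isAffineOpen_top _) _
  -- the map `Γ(σ^* L, ⊤) → A`
  let bmap : Γ((Scheme.Modules.pullback (rigMap (ε := ε) A)).obj M.L, ⊤) →+ A :=
    (Scheme.ΓSpecIso (CommRingCat.of A)).hom.hom.toAddMonoidHom.comp
      ((H566.unitSections (X := Spec (CommRingCat.of A)) ⊤).toAddMonoidHom.comp
        (θ.hom.app ⊤).hom)
  have hbsl : IsSL (Scheme.ΓSpecIso (CommRingCat.of A)).hom.hom bmap := fun r s => by
    change (Scheme.ΓSpecIso (CommRingCat.of A)).hom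
        (H566.unitSections (X := Spec (CommRingCat.of A)) ⊤ ((θ.hom.app ⊤) (r • s))) =
      (Scheme.ΓSpecIso (CommRingCat.of A)).hom r •
        (Scheme.ΓSpecIso (CommRingCat.of A)).hom
          (H566.unitSections (X := Spec (CommRingCat.of A)) ⊤ ((θ.hom.app ⊤) s))
    rw [Scheme.Modules.Hom.app_smul, H566.unitSections_smul, map_mul, smul_eq_mul]
  have hbbij : Function.Bijective bmap :=
    (ConcreteCategory.bijective_of_isIso (Scheme.ΓSpecIso (CommRingCat.of A)).hom).comp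
      ((H566.unitSections (X := Spec (CommRingCat.of A)) ⊤).bijective.comp
        (ConcreteCategory.bijective_of_isIso (θ.hom.app ⊤)))
  -- the semilinear map `G.N₁ → A`
  have hsl₁ := isSL_of_isSectionsIso c Ch.isAffine₁ Ch.i₁ Ch.i₁_str M.L e₁ h₁
  have hring : ∀ r, (epsHom Ch.e A).toRingHom
      ((H566.boxRingEquiv (A := A) Ch.isAffine₁ Ch.i₁ Ch.i₁_str).symm.toRingHom r) =
      (Scheme.ΓSpecIso (CommRingCat.of A)).hom.hom (rigRing Ch A r) := fun r => by
    have := rigRing_boxRingEquiv Ch A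
      ((H566.boxRingEquiv (A := A) Ch.isAffine₁ Ch.i₁ Ch.i₁_str).symm r)
    rw [RingEquiv.apply_symm_apply] at this
    exact this.symm
  let g₁ : G.N₁ →+ A := (bmap.comp
    (secMap (rigMap (ε := ε) A) M.L (le_rigMap_preimage Ch A)).hom).comp e₁.symm.toAddMonoidHom
  have hg₁ : ∀ s, g₁ (e₁ s) =
      bmap (secMap (rigMap (ε := ε) A) M.L (le_rigMap_preimage Ch A) s) := fun s => by
    change bmap (secMap _ M.L _ (e₁.symm (e₁ s))) = _
    rw [e₁.symm_apply_apply]
  have hg₁sl : IsSL (epsHom Ch.e A).toRingHom g₁ := fun x n => by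
    obtain ⟨s, rfl⟩ := e₁.surjective n
    obtain ⟨y, rfl⟩ := (H566.boxRingEquiv (A := A) Ch.isAffine₁ Ch.i₁ Ch.i₁_str).symm.surjective x
    have h1 : (H566.boxRingEquiv (A := A) Ch.isAffine₁ Ch.i₁ Ch.i₁_str).symm y • e₁ s =
        e₁ (y • s) := (hsl₁ y s).symm
    rw [h1, hg₁, hg₁, secMap_smul, hbsl]
    congr 1
    exact (hring y).symm
  have hBC : IsBC (epsHom Ch.e A).toRingHom g₁ :=
    hκ.of_square hg₁sl hsl₁ hbsl
      (H566.boxRingEquiv (A := A) Ch.isAffine₁ Ch.i₁ Ch.i₁_str).symm.bijective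
      (ConcreteCategory.bijective_of_isIso (Scheme.ΓSpecIso (CommRingCat.of A)).hom)
      e₁.bijective hbbij hring hg₁
  let b : G.N₁ →ₛₗ[(epsHom Ch.e A).toRingHom] A :=
    { toFun := g₁, map_add' := g₁.map_add, map_smul' := hg₁sl }
  exact ⟨b, isSemilinearBaseChange_of_isBC _ b hBC⟩

/-- **DICT-SEC**: every rigidified line bundle on `C_A` has a gluing datum of sections, and it
is rigidifiable. -/
theorem dictSections : Stmt.DictSections Ch := by
  intro A _ _ M
  obtain ⟨G, hG⟩ := exists_corr Ch A M.L M.isInvertible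
  exact ⟨G, hG, rigidifiable_of_corr Ch A M G hG⟩

end Rig

end

end Fermat.Agent.S25.H505

end
-- ===== PACK-END S25/H505/DictSections.lean

-- ===== PACK-BEGIN S25/H791/ACPointBC.lean
section



/-!
# S25 / ALGCHARTS, leaf PT-BC (helper791): the point conditions are stable under base change

`pointCond_bc` : exact statement of `coord/S25-ALGCHARTS-skeleton.lean` (squad-lead helper11);
`leaf_pointBC : H11.Leaf.PointBC k B₀ B₁ B₀₁`.

Reusable (all for base change maps `bc` of `CurveGD.IsBC ψ G G'`):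
* `p1_baseChange` : `P1` is stable under base change;
* `BCEquivs.genModY_bc` : `GenModY` is stable under base change;
* `BCEquivs.span_singleton_bc` : `R₀ s₀ = J N₀ ⇒ R₀' b₀(s₀) = (J R₀') N₀'`;
* `BCEquivs.mem_span_of_mem_secq` : under `P1` for `G`, `H⁰(G'(nE₀ - Σq))` is the `A'`-span of the
  image of `H⁰(G(nE₀ - Σq))` (right exactness only; no flatness, no rank count);
* `BCEquivs.isGen_bc` : `IsGen` is stable under base change;  `p2_baseChange`.
-/

set_option autoImplicit false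
set_option linter.style.haveILetI false
set_option linter.unusedSectionVars false
set_option linter.unusedVariables false

universe u

open scoped TensorProduct

namespace Fermat.Agent.S25.H791

open Fermat.Agent.S25 Fermat.Agent.S25.H11

section Core

variable {k : Type u} [Field k]
  {B₀ B₁ B₀₁ : Type u} [CommRing B₀] [CommRing B₁] [CommRing B₀₁]
  [Algebra k B₀] [Algebra k B₁] [Algebra k B₀₁] [Algebra B₀ B₀₁] [Algebra B₁ B₀₁]
  [IsScalarTower k B₀ B₀₁] [IsScalarTower k B₁ B₀₁]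
  {x : B₀} {y : B₁} {e : B₁ →ₐ[k] k}

variable {A A' : Type u} [CommRing A] [Algebra k A] [CommRing A'] [Algebra k A'] [Algebra A A']
  [IsScalarTower k A A']

/-- `P1` is stable under base change. -/
theorem p1_baseChange (hC : IsCurveChart k B₀ B₁ B₀₁ x y e) (n : ℕ) {m : ℕ}
    (q : Fin m → (B₀ →ₐ[k] k)) (ψ : A →ₐ[k] A') (hψ : ∀ a, ψ a = algebraMap A A' a)
    {G : CurveGD k B₀ B₁ B₀₁ A} {G' : CurveGD k B₀ B₁ B₀₁ A'} (h : CurveGD.IsBC ψ G G')
    (h1 : P1 x n q G) : P1 x n q G' := by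
  rw [p1_iff_annihilator_map hC n q ψ hψ h h1.1]
  have htop : evRange x n q G = ⊤ := (p1_iff.mp h1).2
  have : Module.annihilator A (G.N₀ ⧸ evRange x n q G) = ⊤ := by
    rw [Ideal.eq_top_iff_one, Module.mem_annihilator]
    intro z
    obtain ⟨a, rfl⟩ := Submodule.Quotient.mk_surjective _ z
    rw [one_smul, Submodule.Quotient.mk_eq_zero, htop]
    exact Submodule.mem_top
  rw [this, Ideal.map_top]

namespace BCEquivs

variable {ψ : A →ₐ[k] A'} {G : CurveGD k B₀ B₁ B₀₁ A} {G' : CurveGD k B₀ B₁ B₀₁ A'}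
  {bc : GlueDatum.BaseChangeMaps (tensorMapLeft k ψ B₀) (tensorMapLeft k ψ B₁)
      (tensorMapLeft k ψ B₀₁) G G'}

/-- `b₀` is semilinear over `A → A'`. -/
theorem b₀_smul (E : BCEquivs ψ bc) (a : A) (n : G.N₀) :
    bc.b₀ (a • n) = algebraMap A A' a • bc.b₀ n := by
  have h1 : E.E₀ ((1 : A') ⊗ₜ[A] (a • n)) = bc.b₀ (a • n) := by rw [E.E₀_tmul, one_smul]
  have h2 : (1 : A') ⊗ₜ[A] (a • n) = (algebraMap A A' a) ⊗ₜ[A] n := by
    rw [TensorProduct.tmul_smul, TensorProduct.smul_tmul', Algebra.smul_def, mul_one]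
  rw [← h1, h2, E.E₀_tmul]

/-- `b₁` is semilinear over `A → A'`. -/
theorem b₁_smul (E : BCEquivs ψ bc) (a : A) (n : G.N₁) :
    bc.b₁ (a • n) = algebraMap A A' a • bc.b₁ n := by
  have h1 : E.E₁ ((1 : A') ⊗ₜ[A] (a • n)) = bc.b₁ (a • n) := by rw [E.E₁_tmul, one_smul]
  have h2 : (1 : A') ⊗ₜ[A] (a • n) = (algebraMap A A' a) ⊗ₜ[A] n := by
    rw [TensorProduct.tmul_smul, TensorProduct.smul_tmul', Algebra.smul_def, mul_one]
  rw [← h1, h2, E.E₁_tmul]

omit [Algebra A A'] [IsScalarTower k A A'] in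
/-- `tensorMapLeft` fixes `1 ⊗ y`. -/
theorem tensorMapLeft_yElt (ψ : A →ₐ[k] A') (y : B₁) :
    tensorMapLeft k ψ B₁ (yElt k A y) = yElt k A' y := by
  simp [tensorMapLeft, yElt]

/-- `GenModY` is stable under base change. -/
theorem genModY_bc (E : BCEquivs ψ bc) (y : B₁) {b : G.N₁} (hb : GenModY y G b) :
    GenModY y G' (bc.b₁ b) := by
  intro c'
  obtain ⟨t, rfl⟩ := E.E₁.surjective c'
  induction t using TensorProduct.induction_on with
  | zero => exact ⟨0, by simp⟩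
  | add t u ht hu =>
    obtain ⟨r₁, h₁⟩ := ht
    obtain ⟨r₂, h₂⟩ := hu
    refine ⟨r₁ + r₂, ?_⟩
    have : E.E₁ (t + u) - (r₁ + r₂) • bc.b₁ b =
        (E.E₁ t - r₁ • bc.b₁ b) + (E.E₁ u - r₂ • bc.b₁ b) := by
      rw [map_add, add_smul]; abel
    rw [this]
    exact Submodule.add_mem _ h₁ h₂
  | tmul s c =>
    obtain ⟨r, hr⟩ := hb c
    refine ⟨algebraMap A' (A' ⊗[k] B₁) s * tensorMapLeft k ψ B₁ r, ?_⟩
    have h1 : E.E₁ (s ⊗ₜ[A] c) -
        (algebraMap A' (A' ⊗[k] B₁) s * tensorMapLeft k ψ B₁ r) • bc.b₁ b =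
        algebraMap A' (A' ⊗[k] B₁) s • bc.b₁ (c - r • b) := by
      rw [E.E₁_tmul, map_sub, bc.b₁.map_smulₛₗ, smul_sub, mul_smul]
      simp only [algebraMap_smul]
    rw [h1]
    refine Submodule.smul_mem _ _ ?_
    refine Submodule.smul_induction_on hr (fun r' hr' n _ => ?_) (fun a b ha hb => ?_)
    · rw [bc.b₁.map_smulₛₗ]
      refine Submodule.smul_mem_smul ?_ Submodule.mem_top
      obtain ⟨c₀, rfl⟩ := Ideal.mem_span_singleton'.mp hr'
      rw [map_mul, tensorMapLeft_yElt]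
      exact Ideal.mul_mem_left _ _ (Ideal.subset_span rfl)
    · rw [map_add]
      exact Submodule.add_mem _ ha hb

/-- Base change of a submodule of the form `J • ⊤` generated by one element. -/
theorem span_singleton_bc (E : BCEquivs ψ bc) {s₀ : G.N₀} {J : Ideal (A ⊗[k] B₀)}
    (h : Submodule.span (A ⊗[k] B₀) {s₀} = J • (⊤ : Submodule (A ⊗[k] B₀) G.N₀)) :
    Submodule.span (A' ⊗[k] B₀) {bc.b₀ s₀} =
      (J.map (tensorMapLeft k ψ B₀)) • (⊤ : Submodule (A' ⊗[k] B₀) G'.N₀) := by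
  apply le_antisymm
  · rw [Submodule.span_le, Set.singleton_subset_iff]
    have hs : s₀ ∈ J • (⊤ : Submodule (A ⊗[k] B₀) G.N₀) := by
      rw [← h]; exact Submodule.mem_span_singleton_self s₀
    refine Submodule.smul_induction_on hs (fun r hr n _ => ?_) (fun a b ha hb => ?_)
    · rw [SetLike.mem_coe, bc.b₀.map_smulₛₗ]
      exact Submodule.smul_mem_smul (Ideal.mem_map_of_mem _ hr) Submodule.mem_top
    · rw [SetLike.mem_coe, map_add]
      exact Submodule.add_mem _ ha hb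
  · have key : ∀ r' ∈ J.map (tensorMapLeft k ψ B₀), ∀ n' : G'.N₀,
        r' • n' ∈ Submodule.span (A' ⊗[k] B₀) {bc.b₀ s₀} := by
      intro r' hr'
      induction hr' using Submodule.span_induction with
      | mem r' hr' =>
        obtain ⟨j, hj, rfl⟩ := hr'
        intro n'
        obtain ⟨t, rfl⟩ := E.E₀.surjective n'
        induction t using TensorProduct.induction_on with
        | zero => rw [map_zero, smul_zero]; exact Submodule.zero_mem _
        | add t u ht hu => rw [map_add, smul_add]; exact Submodule.add_mem _ ht hu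
        | tmul s n =>
          rw [E.E₀_tmul, smul_comm, ← bc.b₀.map_smulₛₗ, ← algebraMap_smul (A' ⊗[k] B₀) s]
          refine Submodule.smul_mem _ _ ?_
          have hjn : j • n ∈ Submodule.span (A ⊗[k] B₀) {s₀} := by
            rw [h]; exact Submodule.smul_mem_smul hj Submodule.mem_top
          obtain ⟨r, hr⟩ := Submodule.mem_span_singleton.mp hjn
          rw [← hr, bc.b₀.map_smulₛₗ]
          exact Submodule.smul_mem _ _ (Submodule.mem_span_singleton_self _)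
      | zero => intro n'; rw [zero_smul]; exact Submodule.zero_mem _
      | add a b _ _ ha hb => intro n'; rw [add_smul]; exact Submodule.add_mem _ (ha n') (hb n')
      | smul c a _ ha =>
        intro n'
        rw [smul_eq_mul, mul_comm, mul_smul]
        exact ha (c • n')
    intro v hv
    exact Submodule.smul_induction_on hv (fun r hr n _ => key r hr n)
      (fun a b ha hb => Submodule.add_mem _ ha hb)

/-- Under `P1` for `G`: every section of `G'(nE₀)` vanishing on `Σ q` is an `A'`-combination of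
base-changed sections of `G(nE₀)` vanishing on `Σ q` (right exactness of `⊗`). -/
theorem mem_span_of_mem_secq (E : BCEquivs ψ bc) (hC : IsCurveChart k B₀ B₁ B₀₁ x y e)
    (n : ℕ) {m : ℕ} (q : Fin m → (B₀ →ₐ[k] k)) (h1 : P1 x n q G)
    {t' : G'.N₀ × G'.N₁} (ht' : t' ∈ secq x n q G') :
    t' ∈ Submodule.span A'
      ((fun s : G.N₀ × G.N₁ => ((bc.b₀ s.1, bc.b₁ s.2) : G'.N₀ × G'.N₁)) '' (secq x n q G)) := by
  -- the evaluation map `sec → N₀ ⧸ I_q N₀`
  set V : Submodule A G.N₀ := (vanq q G).restrictScalars A with hV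
  set ev : sec x n G →ₗ[A] G.N₀ ⧸ V :=
    V.mkQ ∘ₗ (LinearMap.fst A G.N₀ G.N₁) ∘ₗ (sec x n G).subtype with hev
  have hevsurj : Function.Surjective ev := by
    intro z
    obtain ⟨a, rfl⟩ := Submodule.Quotient.mk_surjective _ z
    obtain ⟨s, hs, hv⟩ := h1.2 a
    refine ⟨⟨s, hs⟩, ?_⟩
    show Submodule.Quotient.mk s.1 = Submodule.Quotient.mk a
    rw [Submodule.Quotient.eq]
    have : s.1 - a = -(a - s.1) := by abel
    rw [this]
    exact V.neg_mem hv
  obtain ⟨u, hu⟩ := E.mem_range_of_mem_sec hC n h1.1 ht'.1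
  -- `u` is killed by `ev ⊗ A'`
  have hu0 : ev.baseChange A' u = 0 := by
    have h2 : ev.baseChange A' u = V.mkQ.baseChange A'
        ((LinearMap.fst A G.N₀ G.N₁).baseChange A' ((sec x n G).subtype.baseChange A' u)) := by
      rw [hev, LinearMap.baseChange_comp, LinearMap.baseChange_comp]
      rfl
    have hv' : t'.1 ∈ vanq q G' := ht'.2
    have h4 : t'.1 = E.E₀ ((LinearMap.fst A G.N₀ G.N₁).baseChange A' (E.prod.symm t')) := by
      rw [← E.prod_fst, LinearEquiv.apply_symm_apply]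
    rw [h4] at hv'
    have h3 := E.mem_range_of_mem_vanq q hv'
    rw [LinearEquiv.symm_apply_apply] at h3
    rw [h2, hu, ← LinearMap.mem_ker, ker_mkQ_baseChange_eq]
    exact h3
  -- right exactness
  have hex : Function.Exact (LinearMap.ker ev).subtype ev := LinearMap.exact_subtype_ker_map ev
  have hex' := lTensor_exact (R := A) (M := LinearMap.ker ev) (N := sec x n G)
    (P := G.N₀ ⧸ V) (f := (LinearMap.ker ev).subtype) (g := ev) A' hex hevsurj
  have hu1 : ev.lTensor A' u = 0 := by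
    rw [← hu0]
    exact (congrFun (LinearMap.baseChange_eq_ltensor (A := A') ev) u).symm
  obtain ⟨w, hw⟩ := (hex' u).mp hu1
  -- conclude by induction on `w`
  have hfin : ∀ w : A' ⊗[A] (LinearMap.ker ev),
      E.prod ((sec x n G).subtype.baseChange A' ((LinearMap.ker ev).subtype.lTensor A' w)) ∈
        Submodule.span A'
          ((fun s : G.N₀ × G.N₁ => ((bc.b₀ s.1, bc.b₁ s.2) : G'.N₀ × G'.N₁)) ''
            (secq x n q G)) := by
    intro w
    induction w using TensorProduct.induction_on with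
    | zero => simp
    | add w₁ w₂ h₁ h₂ =>
      rw [map_add, map_add, map_add]
      exact Submodule.add_mem _ h₁ h₂
    | tmul a w =>
      rw [LinearMap.lTensor_tmul, LinearMap.baseChange_tmul, E.prod_tmul]
      have hsm : ((a • bc.b₀ (w.1 : G.N₀ × G.N₁).1, a • bc.b₁ (w.1 : G.N₀ × G.N₁).2) :
          G'.N₀ × G'.N₁) =
          a • ((bc.b₀ (w.1 : G.N₀ × G.N₁).1, bc.b₁ (w.1 : G.N₀ × G.N₁).2) :
            G'.N₀ × G'.N₁) := rfl
      show ((a • bc.b₀ (w.1 : G.N₀ × G.N₁).1, a • bc.b₁ (w.1 : G.N₀ × G.N₁).2) :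
          G'.N₀ × G'.N₁) ∈ _
      rw [hsm]
      refine Submodule.smul_mem _ a (Submodule.subset_span ⟨(w.1 : G.N₀ × G.N₁), ?_, rfl⟩)
      refine ⟨w.1.2, ?_⟩
      have hw0 : ev w.1 = 0 := w.2
      have hw1 : (Submodule.Quotient.mk (w.1 : G.N₀ × G.N₁).1 : G.N₀ ⧸ V) = 0 := hw0
      rw [Submodule.Quotient.mk_eq_zero] at hw1
      exact hw1
  have := hfin w
  rw [hw, hu, LinearEquiv.apply_symm_apply] at this
  exact this

/-- `IsGen` is stable under base change (given `P1` for `G`). -/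
theorem isGen_bc (E : BCEquivs ψ bc) (hC : IsCurveChart k B₀ B₁ B₀₁ x y e)
    (n : ℕ) {m : ℕ} (q : Fin m → (B₀ →ₐ[k] k)) (h1 : P1 x n q G)
    {s : G.N₀ × G.N₁} (hs : IsGen x y n q G s) :
    IsGen x y n q G' ((bc.b₀ s.1, bc.b₁ s.2) : G'.N₀ × G'.N₁) where
  mem := ⟨bc_mem_sec ψ bc x n hs.mem.1, bc_mem_vanq ψ bc q hs.mem.2⟩
  gen := E.genModY_bc y hs.gen
  span := by
    intro t' ht'
    have h := E.mem_span_of_mem_secq hC n q h1 ht'
    refine Submodule.span_induction (p := fun t' _ => ∃ a : A',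
      t' = a • ((bc.b₀ s.1, bc.b₁ s.2) : G'.N₀ × G'.N₁)) ?_ ?_ ?_ ?_ h
    · rintro _ ⟨t, ht, rfl⟩
      obtain ⟨a, rfl⟩ := hs.span t ht
      refine ⟨algebraMap A A' a, ?_⟩
      show ((bc.b₀ (a • s.1), bc.b₁ (a • s.2)) : G'.N₀ × G'.N₁) = _
      rw [E.b₀_smul, E.b₁_smul]
      rfl
    · exact ⟨0, by rw [zero_smul]⟩
    · rintro _ _ _ _ ⟨a, rfl⟩ ⟨b, rfl⟩
      exact ⟨a + b, by rw [add_smul]⟩
    · rintro c _ _ ⟨a, rfl⟩
      exact ⟨c * a, by rw [mul_smul]⟩

end BCEquivs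

/-- `P2` is stable under base change. -/
theorem p2_baseChange (hC : IsCurveChart k B₀ B₁ B₀₁ x y e) (n : ℕ) {m : ℕ}
    (q : Fin m → (B₀ →ₐ[k] k)) (ψ : A →ₐ[k] A') (hψ : ∀ a, ψ a = algebraMap A A' a)
    {G : CurveGD k B₀ B₁ B₀₁ A} {G' : CurveGD k B₀ B₁ B₀₁ A'} (h : CurveGD.IsBC ψ G G')
    (h2 : P2 x y n q G) : P2 x y n q G' := by
  refine ⟨p1_baseChange hC n q ψ hψ h h2.1, ?_⟩
  obtain ⟨bc⟩ := h
  obtain ⟨E⟩ := exists_bcEquivs ψ hψ bc
  obtain ⟨s, hs⟩ := h2.2
  exact ⟨_, E.isGen_bc hC n q h2.1 hs⟩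

omit [Algebra A A'] [IsScalarTower k A A'] in
/-- Composition of the base change maps of ideals. -/
theorem map_bc_comp {R : Type u} [CommRing R] [Algebra k R] (φ₀ : R →ₐ[k] A) (ψ : A →ₐ[k] A')
    (I : Ideal (R ⊗[k] B₀)) :
    (I.map (H491.bc B₀ φ₀)).map (tensorMapLeft k ψ B₀) = I.map (H491.bc B₀ (ψ.comp φ₀)) := by
  show Ideal.map (tensorMapLeft k ψ B₀) (Ideal.map (H491.bc B₀ φ₀).toRingHom I) =
    Ideal.map (H491.bc B₀ (ψ.comp φ₀)).toRingHom I
  rw [Ideal.map_map]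
  congr 1
  apply RingHom.ext
  intro z
  induction z using TensorProduct.induction_on with
  | zero => simp
  | add z w hz hw => simp only [map_add, hz, hw]
  | tmul a b => simp [tensorMapLeft]

/-- **PT-BC**, with an algebra structure `A → A'`. -/
theorem pointCond_bc_aux (hC : IsCurveChart k B₀ B₁ B₀₁ x y e) (i : ChartIndex k B₀)
    {G : CurveGD k B₀ B₁ B₀₁ A} {G' : CurveGD k B₀ B₁ B₀₁ A'}
    (ψ : A →ₐ[k] A') (hψ : ∀ a, ψ a = algebraMap A A' a) (hbc : CurveGD.IsBC ψ G G')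
    {φ₀ : H491.Rβ k i.β →ₐ[k] A} (h : PointCond x y i G φ₀) :
    PointCond x y i G' (ψ.comp φ₀) := by
  have hp1 := p1_baseChange hC i.n i.q ψ hψ hbc h.p1
  obtain ⟨bc⟩ := hbc
  obtain ⟨E⟩ := exists_bcEquivs ψ hψ bc
  obtain ⟨s, hs, hspan⟩ := h.sect
  refine ⟨hp1, ⟨_, E.isGen_bc hC i.n i.q h.p1 hs, ?_⟩, ?_⟩
  · rw [E.span_singleton_bc hspan, Ideal.map_mul, map_ptIdeal, map_bc_comp]
  · exact h.unit.map ψ

end Core

section Main

variable {k : Type u} [Field k] [IsAlgClosed k]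
  {B₀ B₁ B₀₁ : Type u} [CommRing B₀] [CommRing B₁] [CommRing B₀₁]
  [Algebra k B₀] [Algebra k B₁] [Algebra k B₀₁] [Algebra B₀ B₀₁] [Algebra B₁ B₀₁]
  [IsScalarTower k B₀ B₀₁] [IsScalarTower k B₁ B₀₁]
  {x : B₀} {y : B₁} {e : B₁ →ₐ[k] k}
  {A A' : Type u} [CommRing A] [Algebra k A] [CommRing A'] [Algebra k A']

/-- **PT-BC** (exact skeleton statement): the point conditions are compatible with base
change, with Hilbert coordinates `ψ ∘ φ₀`. -/
theorem pointCond_bc (hC : IsCurveChart k B₀ B₁ B₀₁ x y e) (i : ChartIndex k B₀)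
    (hnum : i.Numeric B₀₁ y) {G : CurveGD k B₀ B₁ B₀₁ A} {G' : CurveGD k B₀ B₁ B₀₁ A'}
    (ψ : A →ₐ[k] A') (hbc : CurveGD.IsBC ψ G G') (hrig : G.Rigidifiable e) (hdeg : G.Deg0)
    {φ₀ : H491.Rβ k i.β →ₐ[k] A} (h : PointCond x y i G φ₀) :
    PointCond x y i G' (ψ.comp φ₀) := by
  letI : Algebra A A' := ψ.toRingHom.toAlgebra
  haveI : IsScalarTower k A A' := IsScalarTower.of_algebraMap_eq' (by
    ext c
    exact (ψ.commutes c).symm)
  exact pointCond_bc_aux hC i ψ (fun _ => rfl) hbc h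

/-- Leaf `PointBC` of ALGCHARTS. -/
theorem leaf_pointBC : H11.Leaf.PointBC k B₀ B₁ B₀₁ :=
  fun _ _ _ hC i hnum _ _ _ _ _ _ _ _ ψ hbc hrig hdeg _ h => pointCond_bc hC i hnum ψ hbc hrig hdeg h

end Main

end Fermat.Agent.S25.H791

end
-- ===== PACK-END S25/H791/ACPointBC.lean

-- ===== PACK-BEGIN S25/H910/FieldBC.lean
section
/-
S25, block DEGREE, leaf D2 (helper910): invariance of `h⁰`, `h¹`, `χ`, `deg` under extension of
the base field (statements exactly as in `H10/DegreeSkel.lean`), and D9 in the skeleton form.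
-/


set_option autoImplicit false
set_option linter.style.haveILetI false
set_option linter.unusedSectionVars false

namespace Fermat.Agent.S25.H910

open TensorProduct Module Fermat.Agent.S25 Fermat.Agent.S25.H10

universe u

section Flat

variable (K K' : Type u) [Field K] [Field K'] [Algebra K K'] {M N : Type u}
  [AddCommGroup M] [AddCommGroup N] [Module K M] [Module K N]

/-- Flat base change of a kernel along a field extension. -/
theorem finrank_ker_baseChange (f : M →ₗ[K] N) :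
    finrank K' (LinearMap.ker (f.baseChange K')) = finrank K (LinearMap.ker f) := by
  have hinj : Function.Injective ((LinearMap.ker f).subtype.baseChange K') := by
    rw [LinearMap.baseChange_eq_ltensor]
    exact Module.Flat.lTensor_preserves_injective_linearMap _ (Submodule.subtype_injective _)
  have hex : Function.Exact ((LinearMap.ker f).subtype.baseChange K') (f.baseChange K') := by
    have := Module.Flat.lTensor_exact K' (LinearMap.exact_subtype_ker_map f)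
    exact this
  have hrange : LinearMap.range ((LinearMap.ker f).subtype.baseChange K') =
      LinearMap.ker (f.baseChange K') := (LinearMap.exact_iff.mp hex).symm
  rw [← hrange, LinearMap.finrank_range_of_inj hinj, Module.finrank_baseChange]

/-- Base change of a cokernel along a field extension. -/
theorem finrank_coker_baseChange (f : M →ₗ[K] N) :
    finrank K' ((K' ⊗[K] N) ⧸ LinearMap.range (f.baseChange K')) =
      finrank K (N ⧸ LinearMap.range f) := by
  have hex : Function.Exact (f.baseChange K') ((LinearMap.range f).mkQ.baseChange K') := by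
    have := lTensor_exact K' (LinearMap.exact_map_mkQ_range f) (Submodule.mkQ_surjective _)
    exact this
  have hs : Function.Surjective ((LinearMap.range f).mkQ.baseChange K') := by
    rw [LinearMap.baseChange_eq_ltensor]
    exact LinearMap.lTensor_surjective K' (Submodule.mkQ_surjective _)
  have hk : LinearMap.range (f.baseChange K') =
      LinearMap.ker ((LinearMap.range f).mkQ.baseChange K') := (LinearMap.exact_iff.mp hex).symm
  have e := (Submodule.quotEquivOfEq _ _ hk).trans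
    (LinearMap.quotKerEquivOfSurjective ((LinearMap.range f).mkQ.baseChange K') hs)
  rw [e.finrank_eq, Module.finrank_baseChange]

end Flat

section Chart

variable {k : Type u} [Field k] {B₀ B₁ B₀₁ : Type u} [CommRing B₀] [CommRing B₁] [CommRing B₀₁]
  [Algebra k B₀] [Algebra k B₁] [Algebra k B₀₁] [Algebra B₀ B₀₁] [Algebra B₁ B₀₁]
  [IsScalarTower k B₀ B₀₁] [IsScalarTower k B₁ B₀₁]
  {x : B₀} {y : B₁} {e : B₁ →ₐ[k] k}

/-- D2-b. The unit datum over `A'` is a base change of the unit datum over `A`. -/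
theorem unit_isBC {A A' : Type u} [CommRing A] [Algebra k A] [CommRing A'] [Algebra k A']
    (φ : A →ₐ[k] A') :
    CurveGD.IsBC (B₀ := B₀) (B₁ := B₁) (B₀₁ := B₀₁) φ
      (GlueDatum.unit A (A ⊗[k] B₀) (A ⊗[k] B₁) (A ⊗[k] B₀₁))
      (GlueDatum.unit A' (A' ⊗[k] B₀) (A' ⊗[k] B₁) (A' ⊗[k] B₀₁)) :=
  isBC_unit φ

/-- D2-d'. `h⁰` is invariant under field extension. -/
theorem finrank_H0_eq_of_isBC (_hC : IsCurveChart k B₀ B₁ B₀₁ x y e) {K K' : Type u} [Field K]
    [Field K'] [Algebra k K] [Algebra k K'] (φ : K →ₐ[k] K') {G : CurveGD k B₀ B₁ B₀₁ K}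
    {G' : CurveGD k B₀ B₁ B₀₁ K'} (h : CurveGD.IsBC φ G G') :
    Module.finrank K' G'.H0 = Module.finrank K G.H0 := by
  letI : Algebra K K' := φ.toRingHom.toAlgebra
  haveI : IsScalarTower k K K' := IsScalarTower.of_algebraMap_eq fun r => (φ.commutes r).symm
  obtain ⟨⟨e1⟩, -⟩ := nonempty_H0_H1_equiv φ (fun _ => rfl) G G' h
  rw [← e1.finrank_eq, finrank_ker_baseChange]

/-- D2-d'. `h¹` is invariant under field extension. -/
theorem finrank_H1_eq_of_isBC (_hC : IsCurveChart k B₀ B₁ B₀₁ x y e) {K K' : Type u} [Field K]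
    [Field K'] [Algebra k K] [Algebra k K'] (φ : K →ₐ[k] K') {G : CurveGD k B₀ B₁ B₀₁ K}
    {G' : CurveGD k B₀ B₁ B₀₁ K'} (h : CurveGD.IsBC φ G G') :
    Module.finrank K' G'.H1 = Module.finrank K G.H1 := by
  letI : Algebra K K' := φ.toRingHom.toAlgebra
  haveI : IsScalarTower k K K' := IsScalarTower.of_algebraMap_eq fun r => (φ.commutes r).symm
  obtain ⟨-, ⟨e2⟩⟩ := nonempty_H0_H1_equiv φ (fun _ => rfl) G G' h
  rw [← e2.finrank_eq, finrank_coker_baseChange]

/-- D2-d. `χ` is invariant under field extension. -/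
theorem euler_eq_of_isBC (_hC : IsCurveChart k B₀ B₁ B₀₁ x y e) {K K' : Type u} [Field K]
    [Field K'] [Algebra k K] [Algebra k K'] (φ : K →ₐ[k] K') {G : CurveGD k B₀ B₁ B₀₁ K}
    {G' : CurveGD k B₀ B₁ B₀₁ K'} (h : CurveGD.IsBC φ G G') : G'.euler = G.euler := by
  rw [GlueDatum.euler, GlueDatum.euler, finrank_H0_eq_of_isBC _hC φ h,
    finrank_H1_eq_of_isBC _hC φ h]

/-- D2-e. The degree is invariant under field extension. -/
theorem degree_eq_of_isBC (_hC : IsCurveChart k B₀ B₁ B₀₁ x y e) {K K' : Type u} [Field K]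
    [Field K'] [Algebra k K] [Algebra k K'] (φ : K →ₐ[k] K') {G : CurveGD k B₀ B₁ B₀₁ K}
    {G' : CurveGD k B₀ B₁ B₀₁ K'} (h : CurveGD.IsBC φ G G') : G'.degree = G.degree := by
  rw [GlueDatum.degree, GlueDatum.degree, euler_eq_of_isBC _hC φ h,
    euler_eq_of_isBC _hC φ (isBC_unit (B₀ := B₀) (B₁ := B₁) (B₀₁ := B₀₁) φ)]

/-- D9. The fibrewise degree is a locally constant function on `Spec A`. -/
theorem exists_locallyConstant_degree (hC : IsCurveChart k B₀ B₁ B₀₁ x y e) {A : Type u}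
    [CommRing A] [Algebra k A] (G : CurveGD k B₀ B₁ B₀₁ A) :
    ∃ δ : PrimeSpectrum A → ℤ, IsLocallyConstant δ ∧
      ∀ (K : Type u) [Field K] [Algebra k K] (φ : A →ₐ[k] K) (G' : CurveGD k B₀ B₁ B₀₁ K),
        CurveGD.IsBC φ G G' →
          G'.degree = δ ⟨RingHom.ker φ.toRingHom, RingHom.ker_isPrime _⟩ := by
  refine ⟨degFun hC G, isLocallyConstant_degFun hC G, fun K _ _ φ G' hBC => ?_⟩
  rw [degree_eq_degFun hC G K φ G' hBC]
  congr 1

end Chart

end Fermat.Agent.S25.H910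

end
-- ===== PACK-END S25/H910/FieldBC.lean

-- ===== PACK-BEGIN S25/H911/ACDeg0.lean
section




/-!
# S25 / ALGCHARTS, COV3 (helper911): degree zero from the divisor of a section

`G` a gluing datum over `A`, `s ∈ sec x n G` a section of `G(n E₀)` which generates `N₁` modulo
`y` and whose divisor on `Spec (A ⊗ B₀)` is `I' * ptIdeal q A` with `I'` a Hilbert point of degree
`g` and `m + g = n d`.  Then

* `sec_map`, `genModY_map`, `span_map` : the three hypotheses are stable under base change;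
* `degree_eq_zero_of_section` : over a field, `G.degree = 0` (from DEG2);
* `deg0_of_section` : `G.Deg0`;
* `rigidifiable_and_deg0_of_section` : `G.Rigidifiable e ∧ G.Deg0`.

DEG2 (`degree_eq_of_section` of the skeleton) is an explicit hypothesis `hDEG2`, in the exact
shape of `origin/helper11:coord/S25-ALGCHARTS-skeleton.lean`.
-/

set_option autoImplicit false
set_option linter.style.haveILetI false
set_option linter.unusedSectionVars false

universe u

open scoped TensorProduct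

namespace Fermat.Agent.S25.H911

open Fermat.Agent.S25

variable {k : Type u} [Field k] {B₀ B₁ B₀₁ : Type u} [CommRing B₀] [CommRing B₁] [CommRing B₀₁]
  [Algebra k B₀] [Algebra k B₁] [Algebra k B₀₁] [Algebra B₀ B₀₁] [Algebra B₁ B₀₁]
  [IsScalarTower k B₀ B₀₁] [IsScalarTower k B₁ B₀₁] {x : B₀} {y : B₁} {e : B₁ →ₐ[k] k}

section BaseChange

variable {A A' : Type u} [CommRing A] [Algebra k A] [CommRing A'] [Algebra k A']
  {φ : A →ₐ[k] A'} {G : CurveGD k B₀ B₁ B₀₁ A} {G' : CurveGD k B₀ B₁ B₀₁ A'}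

theorem tensorMapLeft_xElt (φ : A →ₐ[k] A') (x : B₀) :
    tensorMapLeft k φ B₀₁ (H11.xElt k B₀₁ A x) = H11.xElt k B₀₁ A' x := by
  unfold H11.xElt
  rw [tensorMapLeft_tmul, map_one]

theorem tensorMapLeft_yElt (φ : A →ₐ[k] A') (y : B₁) :
    tensorMapLeft k φ B₁ (H11.yElt k A y) = H11.yElt k A' y := by
  unfold H11.yElt
  rw [tensorMapLeft_tmul, map_one]

/-- Sections of `G(n E₀)` base-change to sections. -/
theorem sec_map
    (bm : GlueDatum.BaseChangeMaps (tensorMapLeft k φ B₀) (tensorMapLeft k φ B₁)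
      (tensorMapLeft k φ B₀₁) G G') {n : ℕ} {s : G.N₀ × G.N₁} (hs : s ∈ H11.sec x n G) :
    (bm.b₀ s.1, bm.b₁ s.2) ∈ H11.sec x n G' := by
  rw [H11.mem_sec] at hs ⊢
  change G'.r₀ (bm.b₀ s.1) = H11.xElt k B₀₁ A' x ^ n • G'.r₁ (bm.b₁ s.2)
  rw [← bm.comm₀, ← bm.comm₁, hs, LinearMap.map_smulₛₗ, map_pow, tensorMapLeft_xElt]

/-- Generation modulo `y` is stable under base change. -/
theorem genModY_map
    (bm : GlueDatum.BaseChangeMaps (tensorMapLeft k φ B₀) (tensorMapLeft k φ B₁)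
      (tensorMapLeft k φ B₀₁) G G') {b : G.N₁} (hb : H11.GenModY y G b) :
    H11.GenModY y G' (bm.b₁ b) := by
  have h := genMod_map_of_isSemilinearBaseChange bm.isBaseChange₁ (H11.yElt k A y) b hb
  rw [tensorMapLeft_yElt] at h
  exact h

/-- The divisor of a section base-changes. -/
theorem span_map
    (bm : GlueDatum.BaseChangeMaps (tensorMapLeft k φ B₀) (tensorMapLeft k φ B₁)
      (tensorMapLeft k φ B₀₁) G G') {m : ℕ} (q : Fin m → (B₀ →ₐ[k] k))
    (I' : Ideal (A ⊗[k] B₀)) {a : G.N₀}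
    (ha : Submodule.span (A ⊗[k] B₀) {a} =
      (I' * H11.ptIdeal q A) • (⊤ : Submodule (A ⊗[k] B₀) G.N₀)) :
    Submodule.span (A' ⊗[k] B₀) {bm.b₀ a} =
      (I'.map (H491.bc B₀ φ) * H11.ptIdeal q A') • (⊤ : Submodule (A' ⊗[k] B₀) G'.N₀) := by
  have h := span_singleton_map_of_isSemilinearBaseChange bm.isBaseChange₀ _ a ha
  rw [Ideal.map_mul, ptIdeal_map] at h
  exact h

end BaseChange

section Degree

variable [IsAlgClosed k]

/-- Over a field: a gluing datum with a section of `G(n E₀)`, not vanishing on `E₀`, with divisor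
`I' * ptIdeal q K` of degree `g + m = n d` has degree zero. -/
theorem degree_eq_zero_of_section (hC : IsCurveChart k B₀ B₁ B₀₁ x y e)
    (hDEG2 : ∀ (K : Type u) [Field K] [Algebra k K] (G : CurveGD k B₀ B₁ B₀₁ K) (n : ℕ)
      (s : G.N₀ × G.N₁), s ∈ H11.sec x n G → H11.GenModY y G s.2 →
      Module.Finite K (G.N₀ ⧸ Submodule.span (K ⊗[k] B₀) {s.1}) ∧
        G.degree = (Module.finrank K (G.N₀ ⧸ Submodule.span (K ⊗[k] B₀) {s.1}) : ℤ) -
          (n * Module.finrank k (B₁ ⧸ Ideal.span {y}) : ℕ))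
    {n m g : ℕ} (q : Fin m → (B₀ →ₐ[k] k))
    (hnum : m + g = n * Module.finrank k (B₁ ⧸ Ideal.span {y}))
    {K : Type u} [Field K] [Algebra k K] (G : CurveGD k B₀ B₁ B₀₁ K) (s : G.N₀ × G.N₁)
    (hs : s ∈ H11.sec x n G) (hgen : H11.GenModY y G s.2) (I' : Ideal (K ⊗[k] B₀))
    (hI' : H491.IsHilb g I')
    (hspan : Submodule.span (K ⊗[k] B₀) {s.1} =
      (I' * H11.ptIdeal q K) • (⊤ : Submodule (K ⊗[k] B₀) G.N₀)) :
    G.degree = 0 := by
  obtain ⟨-, hdeg⟩ := hDEG2 K G n s hs hgen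
  obtain ⟨hfin, hrank⟩ := finrank_quotient_mul_ptIdeal (K := K) hC q I' hI'
  haveI := G.invertible₀
  obtain ⟨-, hrank'⟩ := finrank_quotient_smul_top_invertible (K := K) (N := G.N₀)
    (I' * H11.ptIdeal q K)
  rw [hdeg, hspan, hrank', hrank, ← hnum]
  push_cast
  ring

/-- **COV3, degree**: a gluing datum over `A` with a section of `G(n E₀)`, not vanishing on
`E₀`, with divisor `I' * ptIdeal q A` (`I'` a Hilbert point of degree `g`, `m + g = n d`) has
degree zero on every fibre. -/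
theorem deg0_of_section (hC : IsCurveChart k B₀ B₁ B₀₁ x y e)
    (hDEG2 : ∀ (K : Type u) [Field K] [Algebra k K] (G : CurveGD k B₀ B₁ B₀₁ K) (n : ℕ)
      (s : G.N₀ × G.N₁), s ∈ H11.sec x n G → H11.GenModY y G s.2 →
      Module.Finite K (G.N₀ ⧸ Submodule.span (K ⊗[k] B₀) {s.1}) ∧
        G.degree = (Module.finrank K (G.N₀ ⧸ Submodule.span (K ⊗[k] B₀) {s.1}) : ℤ) -
          (n * Module.finrank k (B₁ ⧸ Ideal.span {y}) : ℕ))
    {n m g : ℕ} (q : Fin m → (B₀ →ₐ[k] k))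
    (hnum : m + g = n * Module.finrank k (B₁ ⧸ Ideal.span {y}))
    {A : Type u} [CommRing A] [Algebra k A] (G : CurveGD k B₀ B₁ B₀₁ A) (s : G.N₀ × G.N₁)
    (hs : s ∈ H11.sec x n G) (hgen : H11.GenModY y G s.2) (I' : Ideal (A ⊗[k] B₀))
    (hI' : H491.IsHilb g I')
    (hspan : Submodule.span (A ⊗[k] B₀) {s.1} =
      (I' * H11.ptIdeal q A) • (⊤ : Submodule (A ⊗[k] B₀) G.N₀)) :
    G.Deg0 := by
  intro K _ _ φ G' hbc
  obtain ⟨bm⟩ := hbc
  exact degree_eq_zero_of_section hC hDEG2 q hnum G' (bm.b₀ s.1, bm.b₁ s.2) (sec_map bm hs)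
    (genModY_map bm hgen) (I'.map (H491.bc B₀ φ)) (hI'.map φ) (span_map bm q I' hspan)

/-- **COV3, rigidification and degree** together. -/
theorem rigidifiable_and_deg0_of_section (hC : IsCurveChart k B₀ B₁ B₀₁ x y e)
    (hDEG2 : ∀ (K : Type u) [Field K] [Algebra k K] (G : CurveGD k B₀ B₁ B₀₁ K) (n : ℕ)
      (s : G.N₀ × G.N₁), s ∈ H11.sec x n G → H11.GenModY y G s.2 →
      Module.Finite K (G.N₀ ⧸ Submodule.span (K ⊗[k] B₀) {s.1}) ∧
        G.degree = (Module.finrank K (G.N₀ ⧸ Submodule.span (K ⊗[k] B₀) {s.1}) : ℤ) -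
          (n * Module.finrank k (B₁ ⧸ Ideal.span {y}) : ℕ))
    {n m g : ℕ} (q : Fin m → (B₀ →ₐ[k] k))
    (hnum : m + g = n * Module.finrank k (B₁ ⧸ Ideal.span {y}))
    {A : Type u} [CommRing A] [Algebra k A] (G : CurveGD k B₀ B₁ B₀₁ A) (s : G.N₀ × G.N₁)
    (hs : s ∈ H11.sec x n G) (hgen : H11.GenModY y G s.2) (I' : Ideal (A ⊗[k] B₀))
    (hI' : H491.IsHilb g I')
    (hspan : Submodule.span (A ⊗[k] B₀) {s.1} =
      (I' * H11.ptIdeal q A) • (⊤ : Submodule (A ⊗[k] B₀) G.N₀)) :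
    G.Rigidifiable e ∧ G.Deg0 :=
  ⟨rigidifiable_of_genModY hC.e_y G s.2 hgen,
    deg0_of_section hC hDEG2 q hnum G s hs hgen I' hI' hspan⟩

end Degree

end Fermat.Agent.S25.H911

end
-- ===== PACK-END S25/H911/ACDeg0.lean

-- ===== PACK-BEGIN S25/H565/ACDeg2.lean
section





/-!
# S25 / ALGCHARTS, input DEG2 (helper565): `degree_eq_of_section`

Exact statement of `origin/helper11:coord/S25-ALGCHARTS-skeleton.lean`: a section `s` of
`G(n E₀)` which does not vanish on `E₀ = {y = 0}` has `dim N₀ / (s₀) = deg G + n d`.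

Route: `s` is a morphism `unit → G(n E₀)`; `χ(G(n E₀)) = χ(unit) + dim Q₀ + dim Q₁ - dim Q₀₁`
(D3-a), `χ(G(n E₀)) = χ(G) + n d` (D4), and `Q₁ → Q₀₁` is bijective because `y` is onto (hence
bijective) on the finite-dimensional `Q₁ = N₁ / (s₁)`.
-/

set_option autoImplicit false
set_option linter.style.haveILetI false
set_option linter.unusedSectionVars false

universe u

open scoped TensorProduct

namespace Fermat.Agent.S25.H565

open Fermat.Agent.S25 Fermat.Agent.S25.H10 Fermat.Agent.S25.H11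

section LinAlg2

variable {K : Type u} [Field K]

/-- If `y` is onto on the finite-dimensional cokernel `N'/f N`, then the cokernel of the
localization `g = f[1/y]` is isomorphic to it. -/
theorem finrank_coker_eq_of_away {R R' : Type u} [CommRing R] [CommRing R'] [Algebra K R]
    [Algebra K R'] [Algebra R R'] [IsScalarTower K R R'] (y : R) [IsLocalization.Away y R']
    {N N' L L' : Type u} [AddCommGroup N] [AddCommGroup N'] [AddCommGroup L] [AddCommGroup L']
    [Module R N] [Module R N'] [Module K N] [Module K N'] [IsScalarTower K R N]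
    [IsScalarTower K R N']
    [Module R' L] [Module R L] [IsScalarTower R R' L] [Module K L] [IsScalarTower K R' L]
    [IsScalarTower K R L]
    [Module R' L'] [Module R L'] [IsScalarTower R R' L'] [Module K L'] [IsScalarTower K R' L']
    [IsScalarTower K R L']
    (f : N →ₗ[R] N') (g : L →ₗ[R'] L') (r : N →ₗ[R] L) (r' : N' →ₗ[R] L')
    (hr : IsBaseChange R' r) (hr' : IsBaseChange R' r') (hcomm : ∀ n, g (r n) = r' (f n))
    (hinj : Function.Injective r')
    [FiniteDimensional K (N' ⧸ LinearMap.range (f.restrictScalars K))]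
    (hy : ∀ c : N', ∃ c' : N', c - y • c' ∈ LinearMap.range f) :
    FiniteDimensional K (L' ⧸ LinearMap.range (g.restrictScalars K)) ∧
      Module.finrank K (L' ⧸ LinearMap.range (g.restrictScalars K)) =
        Module.finrank K (N' ⧸ LinearMap.range (f.restrictScalars K)) := by
  have hloc : IsLocalizedModule (Submonoid.powers y) r :=
    (isLocalizedModule_iff_isBaseChange (Submonoid.powers y) R' r).2 hr
  have hsup := sup_range_eq_top_of_away (K := K) y f g r r' hr' hcomm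
  have hWg : ∀ w ∈ LinearMap.range (f.restrictScalars K),
      (r'.restrictScalars K) w ∈ LinearMap.range (g.restrictScalars K) := by
    rintro _ ⟨n, rfl⟩
    exact ⟨r n, hcomm n⟩
  obtain ⟨hfin, hle⟩ := finrank_coker_le (LinearMap.range (f.restrictScalars K))
    (g.restrictScalars K) (r'.restrictScalars K) hWg hsup
  refine ⟨hfin, le_antisymm hle ?_⟩
  -- `y` acts on `N'/W`
  have hyW : LinearMap.range (f.restrictScalars K) ≤
      (LinearMap.range (f.restrictScalars K)).comap (smulEnd K y N') := by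
    rintro _ ⟨n, rfl⟩
    exact ⟨y • n, by simp⟩
  have hTsurj : Function.Surjective
      (Submodule.mapQ _ _ (smulEnd K y N') hyW) := by
    intro q
    obtain ⟨c, rfl⟩ := Submodule.Quotient.mk_surjective _ q
    obtain ⟨c', n, hn⟩ := hy c
    refine ⟨Submodule.Quotient.mk c', ?_⟩
    rw [Submodule.mapQ_apply, smulEnd_apply]
    symm
    rw [Submodule.Quotient.eq]
    exact ⟨n, hn⟩
  have hTinj : Function.Injective (Submodule.mapQ _ _ (smulEnd K y N') hyW) :=
    LinearMap.injective_iff_surjective.2 hTsurj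
  have hTpow : ∀ m : ℕ, ∀ c : N', y ^ m • c ∈ LinearMap.range (f.restrictScalars K) →
      c ∈ LinearMap.range (f.restrictScalars K) := by
    intro m
    induction m with
    | zero => intro c hc; simpa using hc
    | succ m ih =>
      intro c hc
      apply ih
      have h1 : Submodule.mapQ _ _ (smulEnd K y N') hyW
          (Submodule.Quotient.mk (y ^ m • c)) = 0 := by
        rw [Submodule.mapQ_apply, smulEnd_apply, Submodule.Quotient.mk_eq_zero, smul_smul,
          ← pow_succ']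
        exact hc
      have h2 := hTinj (h1.trans (map_zero _).symm)
      exact (Submodule.Quotient.mk_eq_zero _).1 h2
  have hψ : Function.Injective (Submodule.mapQ (LinearMap.range (f.restrictScalars K))
      (LinearMap.range (g.restrictScalars K)) (r'.restrictScalars K) hWg) := by
    rw [← LinearMap.ker_eq_bot, LinearMap.ker_eq_bot']
    intro q hq
    obtain ⟨c, rfl⟩ := Submodule.Quotient.mk_surjective _ q
    rw [Submodule.mapQ_apply, Submodule.Quotient.mk_eq_zero] at hq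
    obtain ⟨z, hz⟩ := hq
    have hz' : g z = r' c := hz
    obtain ⟨⟨a, s⟩, hs⟩ := IsLocalizedModule.surj (Submonoid.powers y) r z
    obtain ⟨m, hm⟩ := s.2
    have hs' : (y ^ m) • z = r a := by
      have : (s : R) • z = r a := hs
      rwa [← hm] at this
    have h2 : r' (y ^ m • c) = r' (f a) := by
      rw [map_smul, ← hz', ← hcomm, ← hs', ← algebraMap_smul R' (y ^ m) z, map_smul,
        algebraMap_smul]
    have h3 : y ^ m • c = f a := hinj h2
    rw [Submodule.Quotient.mk_eq_zero]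
    exact hTpow m c ⟨a, h3.symm⟩
  exact LinearMap.finrank_le_finrank_of_injective hψ

end LinAlg2

section DEG2

variable {k : Type u} [Field k]
  {B₀ B₁ B₀₁ : Type u} [CommRing B₀] [CommRing B₁] [CommRing B₀₁]
  [Algebra k B₀] [Algebra k B₁] [Algebra k B₀₁] [Algebra B₀ B₀₁] [Algebra B₁ B₀₁]
  [IsScalarTower k B₀ B₀₁] [IsScalarTower k B₁ B₀₁]
  {x : B₀} {y : B₁} {e : B₁ →ₐ[k] k}

/-- `sec x n G` is `Ȟ⁰` of the twist `G(n E₀)`. -/
theorem mem_sec_iff_mem_twistE_H0 (hC : IsCurveChart k B₀ B₁ B₀₁ x y e) {A : Type u}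
    [CommRing A] [Algebra k A] (G : CurveGD k B₀ B₁ B₀₁ A) (n : ℕ) (s : G.N₀ × G.N₁) :
    s ∈ sec x n G ↔ s ∈ (twistE x y hC.mul_eq_one G (n : ℤ)).H0 := by
  rw [mem_sec]
  obtain ⟨a, b⟩ := s
  have h : (gdTwist G (xUnit x y hC.mul_eq_one A ^ (n : ℤ))).cech (a, b) =
      (G.r₀ a - xElt k B₀₁ A x ^ n • G.r₁ b : G.N₀₁) := by
    rw [gdTwist_cech_apply, zpow_natCast, Units.val_pow_eq_pow_val]
    rfl
  constructor
  · intro hs
    show (gdTwist G (xUnit x y hC.mul_eq_one A ^ (n : ℤ))).cech (a, b) = 0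
    exact h.trans (sub_eq_zero.2 hs)
  · intro hs
    have hs' : (gdTwist G (xUnit x y hC.mul_eq_one A ^ (n : ℤ))).cech (a, b) = 0 := hs
    exact sub_eq_zero.1 (h.symm.trans hs')

/-- An element generating `N₁` modulo `y` is nonzero (over a field). -/
theorem ne_zero_of_genModY (hC : IsCurveChart k B₀ B₁ B₀₁ x y e) {K : Type u} [Field K]
    [Algebra k K] (G : CurveGD k B₀ B₁ B₀₁ K) (b : G.N₁) (hgen : GenModY y G b) : b ≠ 0 := by
  intro hb
  haveI := G.invertible₁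
  obtain ⟨hfin, hrank⟩ := H250.finrank_tensor_quotient_y hC K
  have h1 := H250.finrank_quotient_lsmul (K := K) ((1 : K) ⊗ₜ[k] y : K ⊗[k] B₁) G.N₁
  have h2 : LinearMap.range (Algebra.lsmul K K G.N₁ ((1 : K) ⊗ₜ[k] y : K ⊗[k] B₁)) = ⊤ := by
    rw [H250.range_lsmul_eq, eq_top_iff]
    intro c _
    obtain ⟨r, hr⟩ := hgen c
    rw [hb, smul_zero, sub_zero] at hr
    exact hr
  have h3 : Module.finrank K
      (G.N₁ ⧸ LinearMap.range (Algebra.lsmul K K G.N₁ ((1 : K) ⊗ₜ[k] y : K ⊗[k] B₁))) = 0 := by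
    rw [h2]
    haveI : Subsingleton (G.N₁ ⧸ (⊤ : Submodule K G.N₁)) :=
      Submodule.Quotient.subsingleton_iff.2 rfl
    exact Module.finrank_zero_of_subsingleton
  have h4 := H250.chartDeg_pos hC
  omega

end DEG2

section DEG2Main

variable {k : Type u} [Field k] [IsAlgClosed k]
  {B₀ B₁ B₀₁ : Type u} [CommRing B₀] [CommRing B₁] [CommRing B₀₁]
  [Algebra k B₀] [Algebra k B₁] [Algebra k B₀₁] [Algebra B₀ B₀₁] [Algebra B₁ B₀₁]
  [IsScalarTower k B₀ B₀₁] [IsScalarTower k B₁ B₀₁]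
  {x : B₀} {y : B₁} {e : B₁ →ₐ[k] k}

variable {K : Type u} [Field K] [Algebra k K]

/-- DEG2 (degree = degree of the divisor of a section): a section `s` of `G(nE₀)` which does
not vanish on `E₀` has `dim N₀ / (s₀) = deg G + n d`. -/
theorem degree_eq_of_section (hC : IsCurveChart k B₀ B₁ B₀₁ x y e)
    (G : CurveGD k B₀ B₁ B₀₁ K) (n : ℕ) (s : G.N₀ × G.N₁) (hs : s ∈ sec x n G)
    (hgen : GenModY y G s.2) :
    Module.Finite K (G.N₀ ⧸ Submodule.span (K ⊗[k] B₀) {s.1}) ∧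
      G.degree = (Module.finrank K (G.N₀ ⧸ Submodule.span (K ⊗[k] B₀) {s.1}) : ℤ) -
        (n * Module.finrank k (B₁ ⧸ Ideal.span {y}) : ℕ) := by
  haveI := chart_away₀ hC K
  haveI := chart_away₁ hC K
  haveI := chart_isDomain₀ hC K
  haveI := chart_isDomain₁ hC K
  haveI := chart_nontrivial₀₁ hC K
  have hs' : s ∈ (twistE x y hC.mul_eq_one G (n : ℤ)).H0 :=
    (mem_sec_iff_mem_twistE_H0 hC G n s).1 hs
  have hs2 : s.2 ≠ 0 := ne_zero_of_genModY hC G s.2 hgen
  have ht : (⟨s, hs'⟩ : (twistE x y hC.mul_eq_one G (n : ℤ)).H0) ≠ 0 := by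
    intro h
    apply hs2
    have h1 := congrArg Subtype.val h
    exact congrArg Prod.snd h1
  have hf := D.ofSection_ne_zero (twistE x y hC.mul_eq_one G (n : ℤ)) ⟨s, hs'⟩ ht
  have hinj := D.injective_of_ne_zero hC
    (GDHom.ofSection (twistE x y hC.mul_eq_one G (n : ℤ)) ⟨s, hs'⟩) hf
  obtain ⟨h₀, h₁⟩ := D.finite_coker_of_injective hC
    (GDHom.ofSection (twistE x y hC.mul_eq_one G (n : ℤ)) ⟨s, hs'⟩) hinj
  have heul := D.euler_eq_of_injective hC
    (GDHom.ofSection (twistE x y hC.mul_eq_one G (n : ℤ)) ⟨s, hs'⟩) hinj h₀ h₁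
  have htw := H250.euler_twistE hC G (n : ℤ)
  -- `Q₁ ≅ Q₀₁`
  have hy : ∀ c : (twistE x y hC.mul_eq_one G (n : ℤ)).N₁,
      ∃ c' : (twistE x y hC.mul_eq_one G (n : ℤ)).N₁,
        c - ((1 : K) ⊗ₜ[k] y : K ⊗[k] B₁) • c' ∈ LinearMap.range
          (GDHom.ofSection (twistE x y hC.mul_eq_one G (n : ℤ)) ⟨s, hs'⟩).f₁ := by
    intro (c : G.N₁)
    obtain ⟨r, hr⟩ := hgen c
    rw [Submodule.ideal_span_singleton_smul, Submodule.mem_smul_pointwise_iff_exists] at hr
    obtain ⟨c', -, hc'⟩ := hr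
    refine ⟨c', r, ?_⟩
    have h2 : ((1 : K) ⊗ₜ[k] y : K ⊗[k] B₁) • c' = c - r • s.2 := hc'
    show r • s.2 = c - ((1 : K) ⊗ₜ[k] y : K ⊗[k] B₁) • c'
    rw [h2]
    abel
  haveI : FiniteDimensional K ((twistE x y hC.mul_eq_one G (n : ℤ)).N₁ ⧸ LinearMap.range
      ((GDHom.ofSection (twistE x y hC.mul_eq_one G (n : ℤ)) ⟨s, hs'⟩).f₁.restrictScalars K)) :=
    (finite_coker_iff _).2 h₁
  have hQ := (finrank_coker_eq_of_away (K := K) ((1 : K) ⊗ₜ[k] y : K ⊗[k] B₁)
    (GDHom.ofSection (twistE x y hC.mul_eq_one G (n : ℤ)) ⟨s, hs'⟩).f₁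
    (GDHom.ofSection (twistE x y hC.mul_eq_one G (n : ℤ)) ⟨s, hs'⟩).f₀₁
    (GlueDatum.unit K (K ⊗[k] B₀) (K ⊗[k] B₁) (K ⊗[k] B₀₁)).r₁
    (twistE x y hC.mul_eq_one G (n : ℤ)).r₁
    (GlueDatum.unit K (K ⊗[k] B₀) (K ⊗[k] B₁) (K ⊗[k] B₀₁)).isBaseChange₁
    (twistE x y hC.mul_eq_one G (n : ℤ)).isBaseChange₁
    (GDHom.ofSection (twistE x y hC.mul_eq_one G (n : ℤ)) ⟨s, hs'⟩).comm₁
    (r₁_injective ((1 : K) ⊗ₜ[k] y : K ⊗[k] B₁) (twistE x y hC.mul_eq_one G (n : ℤ)))
    hy).2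
  have e₁ := finrank_coker_eq (K := K)
    (GDHom.ofSection (twistE x y hC.mul_eq_one G (n : ℤ)) ⟨s, hs'⟩).f₁
  have e₀₁ := finrank_coker_eq (K := K)
    (GDHom.ofSection (twistE x y hC.mul_eq_one G (n : ℤ)) ⟨s, hs'⟩).f₀₁
  rw [e₀₁, e₁] at hQ
  rw [hQ, htw] at heul
  have e0 : LinearMap.range (GDHom.ofSection (twistE x y hC.mul_eq_one G (n : ℤ)) ⟨s, hs'⟩).f₀ =
      Submodule.span (K ⊗[k] B₀) {s.1} := LinearMap.range_toSpanSingleton _
  have hd : chartDeg k y = Module.finrank k (B₁ ⧸ Ideal.span {y}) := rfl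
  constructor
  · have h := h₀
    rw [e0] at h
    exact h
  · rw [e0, hd] at heul
    generalize Module.finrank K ((twistE x y hC.mul_eq_one G (n : ℤ)).N₁ ⧸ LinearMap.range
      (GDHom.ofSection (twistE x y hC.mul_eq_one G (n : ℤ)) ⟨s, hs'⟩).f₁) = q at heul
    have heul' : G.euler + (n : ℤ) * (Module.finrank k (B₁ ⧸ Ideal.span {y}) : ℤ) =
        (GlueDatum.unit K (K ⊗[k] B₀) (K ⊗[k] B₁) (K ⊗[k] B₀₁)).euler +
          (Module.finrank K (G.N₀ ⧸ Submodule.span (K ⊗[k] B₀) {s.1}) : ℤ) + (q : ℤ) - (q : ℤ) :=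
      heul
    simp only [GlueDatum.degree]
    push_cast
    linarith

end DEG2Main

end Fermat.Agent.S25.H565

end
-- ===== PACK-END S25/H565/ACDeg2.lean

-- ===== PACK-BEGIN S25/H325/ACUnivDatum.lean
section
/-
S25 helper (helper325), block ALGCHARTS, leaf COV3-DATUM: the gluing datum `O(D)(-n E₀)` of a
relative effective divisor `D = V(J) ⊆ Spec (A ⊗ B₀)` (finite flat over `A`), with its canonical
section `s = 1`.  In the language of the frozen `DefsAlg.lean` / `H11/ACDefs.lean`.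

* `odGD A hC n J` : the datum `(Hom(J, R₀), Hom(contr J, R₁), Hom(J R₀₁, R₀₁))`, `r₁` twisted by `yⁿ`;
* `odSec₀`, `odSec₁` : the canonical section (the inclusions);
* `odSec_mem` : it is a section of `G(n E₀)`;  `odSec_genModY` : it does not vanish on `E₀`;
* `odSec_span` : `span {s₀} = J • ⊤`;
* `odGD_rigidifiable`, `odGD_isBC`;
* `exists_datum_of_ideal` : packaged form.
-/








set_option autoImplicit false
set_option linter.style.haveILetI false
set_option linter.unusedSectionVars false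

universe u

open TensorProduct

namespace Fermat.Agent.S25.H325

open Fermat.Agent.S25 Fermat.Agent.S25.H11

noncomputable section

variable {k : Type u} [Field k] [IsAlgClosed k] {B₀ B₁ B₀₁ : Type u} [CommRing B₀] [CommRing B₁]
  [CommRing B₀₁] [Algebra k B₀] [Algebra k B₁] [Algebra k B₀₁] [Algebra B₀ B₀₁] [Algebra B₁ B₀₁]
  [IsScalarTower k B₀ B₀₁] [IsScalarTower k B₁ B₀₁] {x : B₀} {y : B₁} {e : B₁ →ₐ[k] k}

variable (A : Type u) [CommRing A] [Algebra k A]

/-- The unit `1 ⊗ y` of `A ⊗ B₀₁`. -/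
def yUnit (hC : IsCurveChart k B₀ B₁ B₀₁ x y e) : (A ⊗[k] B₀₁)ˣ where
  val := algebraMap (A ⊗[k] B₁) (A ⊗[k] B₀₁) ((1 : A) ⊗ₜ[k] y)
  inv := algebraMap (A ⊗[k] B₀) (A ⊗[k] B₀₁) ((1 : A) ⊗ₜ[k] x)
  val_inv := by rw [mul_comm]; exact H851.tensor_xy A hC
  inv_val := H851.tensor_xy A hC

theorem xElt_mul_yUnit (hC : IsCurveChart k B₀ B₁ B₀₁ x y e) :
    xElt k B₀₁ A x * ((yUnit A hC : (A ⊗[k] B₀₁)ˣ) : A ⊗[k] B₀₁) = 1 := by
  have h := H851.tensor_xy A hC
  rw [H250.algebraMap_tensor_tmul] at h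
  exact h

theorem xElt_pow_mul_yUnit_pow (hC : IsCurveChart k B₀ B₁ B₀₁ x y e) (n : ℕ) :
    xElt k B₀₁ A x ^ n * (((yUnit A hC) ^ n : (A ⊗[k] B₀₁)ˣ) : A ⊗[k] B₀₁) = 1 := by
  rw [Units.val_pow_eq_pow_val, ← mul_pow, xElt_mul_yUnit, one_pow]

/-- The gluing datum `O(D)(-n E₀)` of the relative effective divisor `D = V(J)`. -/
def odGD (hC : IsCurveChart k B₀ B₁ B₀₁ x y e) (n : ℕ) (J : Ideal (A ⊗[k] B₀))
    [Module.Finite A ((A ⊗[k] B₀) ⧸ J)] [Module.Projective A ((A ⊗[k] B₀) ⧸ J)] :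
    CurveGD k B₀ B₁ B₀₁ A :=
  H625.twist (dualGD (H851.hilbGD A hC J)) (yUnit A hC ^ n)

variable (hC : IsCurveChart k B₀ B₁ B₀₁ x y e) (n : ℕ) (J : Ideal (A ⊗[k] B₀))
    [Module.Finite A ((A ⊗[k] B₀) ⧸ J)] [Module.Projective A ((A ⊗[k] B₀) ⧸ J)]

/-- The canonical section on the chart `0`: the inclusion `J → A ⊗ B₀`. -/
def odSec₀ : (odGD A hC n J).N₀ := (J.subtype : J →ₗ[A ⊗[k] B₀] A ⊗[k] B₀)

/-- The canonical section on the chart `1`: the inclusion `contr J → A ⊗ B₁`. -/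
def odSec₁ : (odGD A hC n J).N₁ :=
  ((H851.contr (A ⊗[k] B₁) (A ⊗[k] B₀₁) J).subtype :
    (H851.contr (A ⊗[k] B₁) (A ⊗[k] B₀₁) J) →ₗ[A ⊗[k] B₁] A ⊗[k] B₁)

/-- The inclusion `O(-D) → O` as a morphism of gluing data. -/
def inclHom : GDHom (H851.hilbGD A hC J)
    (GlueDatum.unit A (A ⊗[k] B₀) (A ⊗[k] B₁) (A ⊗[k] B₀₁)) where
  f₀ := J.subtype
  f₁ := (H851.contr (A ⊗[k] B₁) (A ⊗[k] B₀₁) J).subtype
  f₀₁ := (J.map (algebraMap (A ⊗[k] B₀) (A ⊗[k] B₀₁))).subtype
  comm₀ _ := rfl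
  comm₁ _ := rfl

theorem odGD_r₀_odSec₀ :
    (odGD A hC n J).r₀ (odSec₀ A hC n J) =
      (show (odGD A hC n J).N₀₁ from (inclHom A hC J).f₀₁) :=
  (inclHom A hC J).ext₀_eq

theorem odGD_r₁_odSec₁ :
    (odGD A hC n J).r₁ (odSec₁ A hC n J) =
      (((yUnit A hC) ^ n : (A ⊗[k] B₀₁)ˣ) : A ⊗[k] B₀₁) •
        (show (odGD A hC n J).N₀₁ from (inclHom A hC J).f₀₁) := by
  have h : (dualGD (H851.hilbGD A hC J)).r₁ (odSec₁ A hC n J) = (inclHom A hC J).f₀₁ :=
    (inclHom A hC J).ext₁_eq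
  change (((yUnit A hC) ^ n : (A ⊗[k] B₀₁)ˣ) : A ⊗[k] B₀₁) •
    (dualGD (H851.hilbGD A hC J)).r₁ (odSec₁ A hC n J) = _
  rw [h]
  rfl

/-- The canonical section is a section of `G(n E₀)`. -/
theorem odSec_mem : (odSec₀ A hC n J, odSec₁ A hC n J) ∈ sec x n (odGD A hC n J) := by
  rw [mem_sec]
  change (odGD A hC n J).r₀ (odSec₀ A hC n J) =
    xElt k B₀₁ A x ^ n • (odGD A hC n J).r₁ (odSec₁ A hC n J)
  rw [odGD_r₀_odSec₀, odGD_r₁_odSec₁, smul_smul, xElt_pow_mul_yUnit_pow, one_smul]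

/-- For an ideal `I`, a linear form `φ` on `I` and `a ∈ I`: `a • φ = φ a • (inclusion)`. -/
theorem ideal_smul_dual {R : Type*} [CommRing R] (I : Ideal R) (φ : I →ₗ[R] R) (a : I) :
    (a : R) • φ = φ a • I.subtype := by
  ext z
  simp only [LinearMap.smul_apply, Submodule.subtype_apply, smul_eq_mul]
  have h := H851.ideal_dual_symm I φ a z
  have h2 := congrArg (Subtype.val : I → R) h
  simp only [Submodule.coe_smul, smul_eq_mul] at h2
  -- `φ a * z = φ z * a`
  rw [h2, mul_comm]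

/-- The canonical section does not vanish on `E₀ = {y = 0}`. -/
theorem odSec_genModY : GenModY y (odGD A hC n J) (odSec₁ A hC n J) := by
  intro c
  obtain ⟨u, hu, r, hr⟩ := H851.exists_mem_contr_isCoprime (A := A) ((1 : A) ⊗ₜ[k] x)
    ((1 : A) ⊗ₜ[k] y) (H851.tensor_xy A hC) J
  set J₁ := H851.contr (A ⊗[k] B₁) (A ⊗[k] B₀₁) J with hJ₁
  let c' : J₁ →ₗ[A ⊗[k] B₁] A ⊗[k] B₁ := c
  refine ⟨c' ⟨u, hu⟩, ?_⟩
  have key : c' - c' ⟨u, hu⟩ • J₁.subtype = yElt k A y • (-(r • c')) := by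
    rw [← ideal_smul_dual J₁ c' ⟨u, hu⟩]
    change c' - u • c' = _
    rw [hr, yElt]
    module
  have hmem : yElt k A y • (-(r • c')) ∈
      (Ideal.span {yElt k A y} • ⊤ : Submodule (A ⊗[k] B₁) (J₁ →ₗ[A ⊗[k] B₁] A ⊗[k] B₁)) :=
    Submodule.smul_mem_smul (Ideal.subset_span rfl) Submodule.mem_top
  rw [← key] at hmem
  exact hmem

/-- The divisor of the canonical section is `D`: `span {s₀} = J • ⊤`. -/
theorem odSec_span :
    Submodule.span (A ⊗[k] B₀) {odSec₀ A hC n J} =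
      J • (⊤ : Submodule (A ⊗[k] B₀) (odGD A hC n J).N₀) := by
  haveI : Module.Invertible (A ⊗[k] B₀) J := H851.hilb_invertible A hC J
  change Submodule.span (A ⊗[k] B₀) {(J.subtype : J →ₗ[A ⊗[k] B₀] A ⊗[k] B₀)} =
    J • (⊤ : Submodule (A ⊗[k] B₀) (J →ₗ[A ⊗[k] B₀] A ⊗[k] B₀))
  apply le_antisymm
  · rw [Submodule.span_le, Set.singleton_subset_iff, SetLike.mem_coe]
    have hall : ∀ t : Module.Dual (A ⊗[k] B₀) J ⊗[A ⊗[k] B₀] J,
        (Module.Invertible.linearEquiv (A ⊗[k] B₀) J t) • J.subtype ∈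
          J • (⊤ : Submodule (A ⊗[k] B₀) (J →ₗ[A ⊗[k] B₀] A ⊗[k] B₀)) := by
      intro t
      induction t using TensorProduct.induction_on with
      | zero => simp
      | tmul φ a =>
        have h1 : Module.Invertible.linearEquiv (A ⊗[k] B₀) J (φ ⊗ₜ a) = φ a := rfl
        rw [h1, ← ideal_smul_dual J φ a]
        exact Submodule.smul_mem_smul a.2 Submodule.mem_top
      | add t t' ht ht' =>
        rw [map_add, add_smul]
        exact Submodule.add_mem _ ht ht'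
    obtain ⟨t, ht⟩ := (Module.Invertible.linearEquiv (A ⊗[k] B₀) J).surjective 1
    have := hall t
    rwa [ht, one_smul] at this
  · rw [Submodule.smul_le]
    intro a ha φ _
    have h := ideal_smul_dual J φ ⟨a, ha⟩
    change a • φ = _ at h
    rw [h]
    exact Submodule.smul_mem _ _ (Submodule.subset_span rfl)

/-- The datum `O(D)(-n E₀)` is rigidifiable along `e` (the marked point does not lie on `D`). -/
theorem odGD_rigidifiable : (odGD A hC n J).Rigidifiable e := by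
  obtain ⟨u, hu, hu1⟩ := H851.exists_mem_contr_epsHom_eq_one (e := e) A hC J
  set J₁ := H851.contr (A ⊗[k] B₁) (A ⊗[k] B₀₁) J with hJ₁
  haveI : Module.Invertible (A ⊗[k] B₁) J₁ := H851.hilb_contr_invertible A hC J
  let b : (J₁ →ₗ[A ⊗[k] B₁] A ⊗[k] B₁) →ₛₗ[(epsHom e A).toRingHom] A :=
    { toFun := fun c => epsHom e A (c ⟨u, hu⟩)
      map_add' := fun c c' => by simp
      map_smul' := fun r c => by simp }
  have hb : IsSemilinearBaseChange (epsHom e A).toRingHom b := by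
    refine H851.isSemilinearBaseChange_of_span (epsHom e A).toRingHom b ?_
    rw [eq_top_iff]
    intro a _
    have h1 : (1 : A) ∈ Submodule.span A (Set.range b) := by
      refine Submodule.subset_span ⟨J₁.subtype, ?_⟩
      change epsHom e A u = 1
      exact hu1
    have := Submodule.smul_mem _ a h1
    simpa using this
  exact ⟨b, hb⟩

section BaseChange

variable {A} {A' : Type u} [CommRing A'] [Algebra k A']

theorem map_yUnit (φ : A →ₐ[k] A') :
    Units.map (tensorMapLeft k φ B₀₁).toMonoidHom (yUnit A hC) = yUnit A' hC := by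
  apply Units.ext
  change tensorMapLeft k φ B₀₁ (algebraMap (A ⊗[k] B₁) (A ⊗[k] B₀₁) ((1 : A) ⊗ₜ[k] y)) =
    algebraMap (A' ⊗[k] B₁) (A' ⊗[k] B₀₁) ((1 : A') ⊗ₜ[k] y)
  rw [tensorMapLeft_algebraMap, H851.tensorMapLeft_tmul, map_one]

/-- **Base change.** `O(D)(-n E₀)` base-changes along `φ : A → A'` to the datum of
`J' = J · (A' ⊗ B₀)`. -/
theorem odGD_isBC (φ : A →ₐ[k] A') (J' : Ideal (A' ⊗[k] B₀))
    [Module.Finite A' ((A' ⊗[k] B₀) ⧸ J')] [Module.Projective A' ((A' ⊗[k] B₀) ⧸ J')]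
    (hJ' : J.map (tensorMapLeft k φ B₀) = J') :
    CurveGD.IsBC φ (odGD A hC n J) (odGD A' hC n J') := by
  have h1 := H851.hilbGD_isBC hC φ J J' hJ'
  have h2 := curveGD_isBC_dualGD φ h1
  have h3 := H625.isBC_twist h2 (yUnit A hC ^ n)
  rw [map_pow, map_yUnit] at h3
  exact h3

end BaseChange

/-- **COV3-DATUM, packaged.**  For every relative effective divisor `D = V(J)` on
`Spec (A ⊗ B₀)` (finite flat over `A`) and every twist `n` there is a rigidifiable gluing datum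
with a section of `G(n E₀)` not vanishing on `E₀` and with divisor `D`. -/
theorem exists_datum_of_ideal (hC : IsCurveChart k B₀ B₁ B₀₁ x y e) (n : ℕ)
    (J : Ideal (A ⊗[k] B₀)) [Module.Finite A ((A ⊗[k] B₀) ⧸ J)]
    [Module.Projective A ((A ⊗[k] B₀) ⧸ J)] :
    ∃ D : CurveGD k B₀ B₁ B₀₁ A, D.Rigidifiable e ∧ ∃ s ∈ sec x n D, GenModY y D s.2 ∧
      Submodule.span (A ⊗[k] B₀) {s.1} = J • (⊤ : Submodule (A ⊗[k] B₀) D.N₀) :=
  ⟨odGD A hC n J, odGD_rigidifiable A hC n J, (odSec₀ A hC n J, odSec₁ A hC n J),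
    odSec_mem A hC n J, odSec_genModY A hC n J, odSec_span A hC n J⟩

end

end Fermat.Agent.S25.H325

end
-- ===== PACK-END S25/H325/ACUnivDatum.lean

-- ===== PACK-BEGIN S25/H851/ACIsoSect.lean
section


/-!
# S25 / ALGCHARTS, PT-ISO under the weak section condition (helper851)

`isIso_of_sect`: two gluing data over `A` carrying sections `s`, `s'` of the `n`-th twist with
`GenModY` and divisor `univIdeal.map φ₀ · I_q` are isomorphic.  No `P1`, no `IsGen.span`, no
unit condition: this is the form needed by the assembly of COVER (`SectIso`).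
-/

set_option autoImplicit false

universe u

open scoped TensorProduct

namespace Fermat.Agent.S25.H851

open Fermat.Agent.S25 Fermat.Agent.S25.H11

variable {k : Type u} [Field k]
  {B₀ B₁ B₀₁ : Type u} [CommRing B₀] [CommRing B₁] [CommRing B₀₁]
  [Algebra k B₀] [Algebra k B₁] [Algebra k B₀₁] [Algebra B₀ B₀₁] [Algebra B₁ B₀₁]
  [IsScalarTower k B₀ B₀₁] [IsScalarTower k B₁ B₀₁]
  {x : B₀} {y : B₁} {e : B₁ →ₐ[k] k}
  {A : Type u} [CommRing A] [Algebra k A]

/-- **SectIso.** Two gluing data with sections of the `n`-th twist, generating modulo `y`, of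
divisor `univIdeal.map φ₀ · I_q` are isomorphic. -/
theorem isIso_of_sect (hC : IsCurveChart k B₀ B₁ B₀₁ x y e) (n : ℕ) {g m : ℕ} (β : Fin g → B₀)
    (q : Fin m → (B₀ →ₐ[k] k)) (φ₀ : H491.Rβ k β →ₐ[k] A) {G G' : CurveGD k B₀ B₁ B₀₁ A}
    (h : ∃ s ∈ sec x n G, GenModY y G s.2 ∧
      Submodule.span (A ⊗[k] B₀) {s.1} =
        ((H491.univIdeal (k := k) β).map (H491.bc B₀ φ₀) * ptIdeal q A) •
          (⊤ : Submodule (A ⊗[k] B₀) G.N₀))
    (h' : ∃ s ∈ sec x n G', GenModY y G' s.2 ∧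
      Submodule.span (A ⊗[k] B₀) {s.1} =
        ((H491.univIdeal (k := k) β).map (H491.bc B₀ φ₀) * ptIdeal q A) •
          (⊤ : Submodule (A ⊗[k] B₀) G'.N₀)) :
    G.IsIso G' := by
  obtain ⟨s, hs, hgen, hspan⟩ := h
  obtain ⟨s', hs', hgen', hspan'⟩ := h'
  obtain ⟨t, ht, htr⟩ := exists_nonZeroDivisor_mem_chart hC β q φ₀
  exact curveGD_isIso_of_sections hC n _ ht htr s s' hs hs' hgen hgen' hspan hspan'

/-- The same for any ideal `J` with `(A ⊗ B₀) ⧸ J` a finite `A`-module. -/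
theorem isIso_of_sect_of_finite (hC : IsCurveChart k B₀ B₁ B₀₁ x y e) (n : ℕ)
    (J : Ideal (A ⊗[k] B₀)) [Module.Finite A ((A ⊗[k] B₀) ⧸ J)] {G G' : CurveGD k B₀ B₁ B₀₁ A}
    (h : ∃ s ∈ sec x n G, GenModY y G s.2 ∧
      Submodule.span (A ⊗[k] B₀) {s.1} = J • (⊤ : Submodule (A ⊗[k] B₀) G.N₀))
    (h' : ∃ s ∈ sec x n G', GenModY y G' s.2 ∧
      Submodule.span (A ⊗[k] B₀) {s.1} = J • (⊤ : Submodule (A ⊗[k] B₀) G'.N₀)) :
    G.IsIso G' := by
  obtain ⟨s, hs, hgen, hspan⟩ := h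
  obtain ⟨s', hs', hgen', hspan'⟩ := h'
  obtain ⟨P, hP, hPJ⟩ := exists_monic_aeval_mem (A := A) J ((1 : A) ⊗ₜ[k] x)
  exact curveGD_isIso_of_sections hC n J hPJ (aeval_monic_mem_nonZeroDivisors hC hP) s s' hs hs'
    hgen hgen' hspan hspan'

end Fermat.Agent.S25.H851

end
-- ===== PACK-END S25/H851/ACIsoSect.lean

-- ===== PACK-BEGIN S26/H120/InH.lean
section


/-!
# Row S26, block CUBE, leaf C3 (subtask 544): `inH_of_curveCube`  (helper120)

The image of a `K`-point of a pointed smooth proper curve `Γ → A` lies in `H_M`.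

* `theta_natural`  : `Θ` commutes with base change of the scheme of points;
* `theta_one_mid`, `theta_one_right` : the two other faces `Θ(a, 0, c) = 0`, `Θ(a, b, 0) = 0`;
* `inH_of_curveCube` : the exact statement of `Skel/CubeSkel.lean` (architect helper987);
* `inH_all` : `H_M = A(K)` from `CurveCube` and `CurvesGenerate`.
-/

set_option autoImplicit false
universe u

open CategoryTheory CategoryTheory.Limits AlgebraicGeometry NeronModelInfra GoodReductionJacobian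

namespace Fermat.Agent.S26.H120

noncomputable section

variable {K : Type u} [Field K] {X : AbVar K} {T : PicTheory.{u}}

/-- Pull-back of a class along a pulled-back point. -/
theorem map_map_point {S S' : Scheme.{u}} {s : S ⟶ Spec (CommRingCat.of K)}
    {s' : S' ⟶ Spec (CommRingCat.of K)} (ψ : S' ⟶ S) (hψ : ψ ≫ s = s') (a : X.SPt s)
    (M : T.Pic X.A) :
    T.map ψ (T.map a.1 M) = T.map (schemeHomOverComp ψ hψ a).1 M := by
  rw [schemeHomOverComp_coe, T.map_comp]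

/-- `Θ` is natural in the scheme of points. -/
theorem theta_natural {S S' : Scheme.{u}} (s : S ⟶ Spec (CommRingCat.of K))
    (s' : S' ⟶ Spec (CommRingCat.of K)) (ψ : S' ⟶ S) (hψ : ψ ≫ s = s') (a b c : X.SPt s)
    (M : T.Pic X.A) :
    T.map ψ (X.theta T s a b c M) =
      X.theta T s' (schemeHomOverComp ψ hψ a) (schemeHomOverComp ψ hψ b)
        (schemeHomOverComp ψ hψ c) M := by
  simp only [AbVar.theta, map_add, map_sub, map_map_point ψ hψ, X.law.mul_natural s s' ψ hψ]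

/-- Face: `Θ(a, 0, c; M) = 0`. -/
theorem theta_one_mid (hT : T.IsLocal) {S : Scheme.{u}} (s : S ⟶ Spec (CommRingCat.of K))
    (a c : X.SPt s) (M : T.Pic X.A) : X.theta T s a (X.law.one s) c M = 0 := by
  rw [AbVar.theta, X.law.mul_one, X.law.one_mul, map_one_eq_zero hT]
  abel

/-- Face: `Θ(a, b, 0; M) = 0`. -/
theorem theta_one_right (hT : T.IsLocal) {S : Scheme.{u}} (s : S ⟶ Spec (CommRingCat.of K))
    (a b : X.SPt s) (M : T.Pic X.A) : X.theta T s a b (X.law.one s) M = 0 := by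
  rw [AbVar.theta, X.law.mul_one, X.law.mul_one, X.law.mul_one, map_one_eq_zero hT]
  abel

/-- A point which factors through the zero point is the unit. -/
theorem eq_one_of_coe {S : Scheme.{u}} (s : S ⟶ Spec (CommRingCat.of K)) (a : X.SPt s)
    (h : a.1 = s ≫ X.zero.1) : a = X.law.one s := by
  rw [← AbVar.const_one]
  exact Subtype.ext h

section Universal

variable (X) (Γ : X.PtdCurve)

/-- The structure map of `C × (A × A)`. -/
abbrev uStr : pullback Γ.str (prodStr X.str X.str) ⟶ Spec (CommRingCat.of K) :=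
  prodStr Γ.str (prodStr X.str X.str)

/-- The point `ι ∘ p₁` of `A` with values in `C × (A × A)`. -/
def uA : X.SPt (uStr X Γ) :=
  ⟨pullback.fst Γ.str (prodStr X.str X.str) ≫ Γ.ι, by
    rw [Category.assoc, Γ.ι_str]⟩

/-- The point `p₂` of `A` with values in `C × (A × A)`. -/
def uB : X.SPt (uStr X Γ) :=
  ⟨pullback.snd Γ.str (prodStr X.str X.str) ≫ pullback.fst X.str X.str, by
    rw [Category.assoc]
    exact (pullback.condition (f := Γ.str) (g := prodStr X.str X.str)).symm⟩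

/-- The point `p₃` of `A` with values in `C × (A × A)`. -/
def uC : X.SPt (uStr X Γ) :=
  ⟨pullback.snd Γ.str (prodStr X.str X.str) ≫ pullback.snd X.str X.str, by
    rw [Category.assoc, ← pullback.condition (f := X.str) (g := X.str)]
    exact (pullback.condition (f := Γ.str) (g := prodStr X.str X.str)).symm⟩

/-- The universal cube class on `C × (A × A)`. -/
def uTheta (M : T.Pic X.A) : T.Pic (pullback Γ.str (prodStr X.str X.str)) :=
  X.theta T (uStr X Γ) (uA X Γ) (uB X Γ) (uC X Γ) M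

end Universal

/-- **C3.** The image of a `K`-point of a pointed curve lies in `H_M`. -/
theorem inH_of_curveCube [IsAlgClosed K] (hT : T.IsLocal) (hC1 : Stmt.CurveCube T K)
    (hGI : ∀ X : AbVar K, GeometricallyIntegral X.str)
    (X : AbVar K) (M : T.Pic X.A) (Γ : X.PtdCurve) (p : KPt Γ.str) :
    X.InH T M (Γ.image p) := by
  have := Γ.proper
  have := Γ.smooth
  have := Γ.integral
  have : IsProper X.str := X.bundle.proper
  have : GeometricallyIntegral X.str := hGI X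
  -- the universal class vanishes
  have hN : uTheta (T := T) X Γ M = 0 := by
    refine hC1 Γ.C Γ.str Γ.base X.A X.A X.str X.str X.zero X.zero (uTheta X Γ M) ?_ ?_ ?_
    · -- the face `c₀ × (A × A)`
      rw [uTheta, theta_natural (uStr X Γ) _ _ rfl]
      have h : schemeHomOverComp (inr Γ.str (prodStr X.str X.str) Γ.base) rfl (uA X Γ) =
          X.law.one _ := by
        apply eq_one_of_coe
        simp only [schemeHomOverComp_coe, uA, inr, uStr, prodStr, pullback.lift_fst_assoc,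
          Category.assoc, Γ.base_zero]
        rw [← Category.assoc Γ.base.1, Γ.base.2, Category.id_comp]
      rw [h]
      exact AbVar.theta_one_left hT _ _ _ M
    · -- the face `C × (0 × A)`
      rw [uTheta, theta_natural (uStr X Γ) _ _ rfl]
      have h : schemeHomOverComp (prodMapRight Γ.str X.str (prodStr X.str X.str)
          (inr X.str X.str X.zero) (inr_prodStr X.str X.str X.zero)) rfl (uB X Γ) =
          X.law.one _ := by
        apply eq_one_of_coe
        simp only [schemeHomOverComp_coe, uB, inr, uStr, prodStr, prodMapRight,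
          pullback.lift_fst, pullback.lift_fst_assoc, pullback.map, Category.assoc,
          pullback.lift_snd_assoc, Category.comp_id]
        rw [← Category.assoc, ← Category.assoc,
          pullback.condition (f := Γ.str) (g := X.str)]
      rw [h]
      exact theta_one_mid hT _ _ _ M
    · -- the face `C × (A × 0)`
      rw [uTheta, theta_natural (uStr X Γ) _ _ rfl]
      have h : schemeHomOverComp (prodMapRight Γ.str X.str (prodStr X.str X.str)
          (inl X.str X.str X.zero) (inl_prodStr X.str X.str X.zero)) rfl (uC X Γ) =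
          X.law.one _ := by
        apply eq_one_of_coe
        simp only [schemeHomOverComp_coe, uC, inl, uStr, prodStr, prodMapRight,
          pullback.lift_fst_assoc, pullback.map, Category.assoc,
          pullback.lift_snd, pullback.lift_snd_assoc, Category.comp_id]
        rw [← Category.assoc, ← Category.assoc,
          pullback.condition (f := Γ.str) (g := X.str)]
      rw [h]
      exact theta_one_right hT _ _ _ M
  -- pull back along `(p, b, c) : S ⟶ C × (A × A)`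
  intro S s b c
  have hbc : b.1 ≫ X.str = c.1 ≫ X.str := by rw [b.2, c.2]
  have hcond : (s ≫ p.1) ≫ Γ.str = pullback.lift b.1 c.1 hbc ≫ prodStr X.str X.str := by
    rw [Category.assoc, p.2, Category.comp_id, pullback.lift_fst_assoc, b.2]
  set ψ : S ⟶ pullback Γ.str (prodStr X.str X.str) :=
    pullback.lift (s ≫ p.1) (pullback.lift b.1 c.1 hbc) hcond with hψdef
  have hψ : ψ ≫ uStr X Γ = s := by
    rw [hψdef, pullback.lift_fst_assoc, Category.assoc, p.2, Category.comp_id]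
  have key := theta_natural (T := T) (uStr X Γ) s ψ hψ (uA X Γ) (uB X Γ) (uC X Γ) M
  have ha : schemeHomOverComp ψ hψ (uA X Γ) = X.const s (Γ.image p) :=
    Subtype.ext (by
      simp only [schemeHomOverComp_coe, uA, hψdef, pullback.lift_fst_assoc, Category.assoc,
        AbVar.const_coe, AbVar.PtdCurve.image])
  have hb : schemeHomOverComp ψ hψ (uB X Γ) = b :=
    Subtype.ext (by
      simp only [schemeHomOverComp_coe, uB, hψdef, pullback.lift_snd_assoc, pullback.lift_fst])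
  have hc : schemeHomOverComp ψ hψ (uC X Γ) = c :=
    Subtype.ext (by
      simp only [schemeHomOverComp_coe, uC, hψdef, pullback.lift_snd_assoc, pullback.lift_snd])
  rw [ha, hb, hc] at key
  rw [← key]
  have : X.theta T (uStr X Γ) (uA X Γ) (uB X Γ) (uC X Γ) M = 0 := hN
  rw [this, map_zero]

/-- C2 + C3 + C4: `H_M = A(K)`. -/
theorem inH_all [IsAlgClosed K] (hT : T.IsLocal) (hC1 : Stmt.CurveCube T K)
    (hGI : ∀ X : AbVar K, GeometricallyIntegral X.str) (hGen : Stmt.CurvesGenerate K)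
    (X : AbVar K) (M : T.Pic X.A) (x : X.Pt) : X.InH T M x :=
  hGen X (X.InH T M) (AbVar.inH_zero hT M) (fun _ _ hx hy => AbVar.inH_mul hT M hx hy)
    (fun _ hx => AbVar.inH_neg hT M hx) (fun Γ p => inH_of_curveCube hT hC1 hGI X M Γ p) x

end

end Fermat.Agent.S26.H120

end
-- ===== PACK-END S26/H120/InH.lean

-- ===== PACK-BEGIN S26/C4/KPoints.lean
section


/-!
# Row S26, leaf C4: `K`-points of schemes over a field (helper478)

* `kpt_hom_ext`, `ptOf_injective` : a `K`-point is determined by its underlying point;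
* `isClosed_singleton_ptOf` : the point underlying a `K`-point of a separated `K`-scheme is closed;
* `ptOf_mapPt` : functoriality of the underlying point.
-/

set_option autoImplicit false
universe u

open CategoryTheory CategoryTheory.Limits AlgebraicGeometry NeronModelInfra GoodReductionJacobian

namespace Fermat.Agent.S26.C4

variable {K : Type u} [Field K]

/-- A section `Spec K ⟶ Y` of `y : Y ⟶ Spec K` of the form `Spec.map φ ≫ Spec κ(a) ⟶ Y` is
determined by the point `a`. -/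
theorem residueHom_ext {Y : Scheme.{u}} (y : Y ⟶ Spec (CommRingCat.of K)) (a : Y)
    (φ φ' : Y.residueField a ⟶ CommRingCat.of K)
    (hφ : (Spec.map φ ≫ Y.fromSpecResidueField a) ≫ y = 𝟙 _)
    (hφ' : (Spec.map φ' ≫ Y.fromSpecResidueField a) ≫ y = 𝟙 _) : φ = φ' := by
  obtain ⟨ψ, hψ⟩ : ∃ ψ : CommRingCat.of K ⟶ Y.residueField a,
      Spec.map ψ = Y.fromSpecResidueField a ≫ y :=
    ⟨Spec.preimage (Y.fromSpecResidueField a ≫ y), Spec.map_preimage _⟩
  have h1 : ψ ≫ φ = 𝟙 _ := by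
    apply Spec.map_injective
    rw [Spec.map_comp, hψ, ← Category.assoc, hφ, Spec.map_id]
  have h2 : ψ ≫ φ' = 𝟙 _ := by
    apply Spec.map_injective
    rw [Spec.map_comp, hψ, ← Category.assoc, hφ', Spec.map_id]
  have e1 : ∀ t : K, φ.hom (ψ.hom t) = t := fun t => by
    have := congrArg (fun f : CommRingCat.of K ⟶ CommRingCat.of K => f.hom t) h1
    simpa using this
  have e2 : ∀ t : K, φ'.hom (ψ.hom t) = t := fun t => by
    have := congrArg (fun f : CommRingCat.of K ⟶ CommRingCat.of K => f.hom t) h2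
    simpa using this
  have hinj : Function.Injective φ.hom := RingHom.injective _
  ext z
  have hz : ψ.hom (φ.hom z) = z := hinj (e1 _)
  calc φ.hom z = φ'.hom (ψ.hom (φ.hom z)) := (e2 _).symm
    _ = φ'.hom z := by rw [hz]

/-- Two sections of `Y ⟶ Spec K` with the same underlying point are equal. -/
theorem kpt_hom_ext {Y : Scheme.{u}} (y : Y ⟶ Spec (CommRingCat.of K))
    (f g : Spec (CommRingCat.of K) ⟶ Y) (hf : f ≫ y = 𝟙 _) (hg : g ≫ y = 𝟙 _)
    (h : f (default : Spec (CommRingCat.of K)) = g (default : Spec (CommRingCat.of K))) :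
    f = g := by
  have hd : (default : Spec (CommRingCat.of K)) = IsLocalRing.closedPoint K :=
    Subsingleton.elim _ _
  rw [hd] at h
  have ef := Scheme.descResidueField_stalkClosedPointTo_fromSpecResidueField K Y f
  have eg := Scheme.descResidueField_stalkClosedPointTo_fromSpecResidueField K Y g
  have eg' : Spec.map ((Y.residueFieldCongr h).hom ≫
      Scheme.descResidueField (Scheme.stalkClosedPointTo g)) ≫
        Y.fromSpecResidueField (f (IsLocalRing.closedPoint K)) = g := by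
    rw [Spec.map_comp, Category.assoc, Scheme.residueFieldCongr_fromSpecResidueField, eg]
  have key := residueHom_ext y (f (IsLocalRing.closedPoint K))
    (Scheme.descResidueField (Scheme.stalkClosedPointTo f))
    ((Y.residueFieldCongr h).hom ≫ Scheme.descResidueField (Scheme.stalkClosedPointTo g))
    (by rw [ef, hf]) (by rw [eg', hg])
  rw [← ef, ← eg', key]

/-- A `K`-point is determined by its underlying point. -/
theorem ptOf_injective {Y : Scheme.{u}} {y : Y ⟶ Spec (CommRingCat.of K)} :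
    Function.Injective (ptOf (y := y)) := fun p q h =>
  Subtype.ext (kpt_hom_ext y p.1 q.1 p.2 q.2 h)

theorem ptOf_mapPt {Y Z : Scheme.{u}} {y : Y ⟶ Spec (CommRingCat.of K)}
    {z : Z ⟶ Spec (CommRingCat.of K)} (φ : Y ⟶ Z) (hφ : φ ≫ z = y) (p : KPt y) :
    ptOf (mapPt φ hφ p) = φ (ptOf p) := rfl

theorem range_kpt {Y : Scheme.{u}} {y : Y ⟶ Spec (CommRingCat.of K)} (p : KPt y) :
    Set.range p.1 = {ptOf p} := by
  ext a
  constructor
  · rintro ⟨s, rfl⟩
    rw [Subsingleton.elim s default]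
    rfl
  · rintro rfl
    exact ⟨default, rfl⟩

/-- A `K`-point of a separated `K`-scheme is a closed immersion. -/
theorem isClosedImmersion_kpt {Y : Scheme.{u}} {y : Y ⟶ Spec (CommRingCat.of K)}
    [IsSeparated y] (p : KPt y) : IsClosedImmersion p.1 := by
  have : IsClosedImmersion (p.1 ≫ y) := by rw [p.2]; infer_instance
  exact IsClosedImmersion.of_comp p.1 y

/-- The point underlying a `K`-point of a separated `K`-scheme is closed. -/
theorem isClosed_singleton_ptOf {Y : Scheme.{u}} {y : Y ⟶ Spec (CommRingCat.of K)}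
    [IsSeparated y] (p : KPt y) : IsClosed ({ptOf p} : Set Y) := by
  have := isClosedImmersion_kpt p
  rw [← range_kpt]
  exact p.1.isClosedEmbedding.isClosed_range

end Fermat.Agent.S26.C4

end
-- ===== PACK-END S26/C4/KPoints.lean

-- ===== PACK-BEGIN S26/H626/C4b.lean
section
/-
Row S26, block CUBE, leaf C4b (helper626): `c4b : C4.Stmt.C4b K` — normalisation of an
integral proper curve over an algebraically closed field, in the exact shape of `C4/Spec.lean`.
Scheme side from `H626/NormCurve.lean`, lifting of `K`-points from `H507/C4bParts.lean`.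
-/



set_option autoImplicit false
universe u

open CategoryTheory CategoryTheory.Limits AlgebraicGeometry NeronModelInfra

namespace Fermat.Agent.S26.H626

/-- **C4b.** Normalisation of an integral proper curve over an algebraically closed field. -/
theorem c4b (K : Type u) [Field K] [IsAlgClosed K] : C4.Stmt.C4b K := by
  intro Γ _ γ _ hcurve
  have htr : letI := (ffStrK Γ γ).toAlgebra; Algebra.trdeg K Γ.functionField = 1 := hcurve
  haveI := isFinite_normHom Γ γ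
  refine ⟨normScheme Γ, normHom Γ ≫ γ, normHom Γ, rfl, inferInstance,
    isProper_normHom_comp Γ γ, smoothOfRelativeDimension_normHom_comp Γ γ htr,
    inferInstance, surjective_normHom Γ, fun x => ?_⟩
  exact H507.exists_kpoint_lift (normHom Γ ≫ γ) γ (normHom Γ) rfl (surjective_normHom Γ) x

end Fermat.Agent.S26.H626

end
-- ===== PACK-END S26/H626/C4b.lean

-- ===== PACK-BEGIN S26/Ample/Top.lean
section


/-!
# Row S26, block AMPLE: the glue (helper752), sorry-free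

* `sections_of_blocks` : A3 (`Stmt.Sections`) from the theorem of the square (`Stmt.SquareLS`),
  `CDivOps`, and the small leaves `FFStalkMap`, `TranslIso`, `TranslAffine`, `Cover`.
* `alpha_of_blocks` : `Stmt.Alpha` from A1 (`AffSym`), A2 (`ComplDiv`), A3 (`Sections`),
  A4 (`Project`) and the calculus leaves.
-/

set_option autoImplicit false
universe u

open CategoryTheory CategoryTheory.Limits AlgebraicGeometry NeronModelInfra GoodReductionJacobian

namespace Fermat.Agent.S26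

noncomputable section

namespace Ample

variable {K : Type u} [Field K] [IsAlgClosed K]

/-- The section `h` of `2D` attached to a `K`-point `x` by the theorem of the square, with its
non-vanishing locus. -/
theorem exists_section (hS : Stmt.FFStalkMap.{u}) (hT : Stmt.TranslIso K)
    (hA : Stmt.TranslAffine K) (hOps : Stmt.CDivOps.{u}) (hSq : Stmt.SquareLS K)
    (X : AbVar K) [IsIntegral X.A] (U : X.A.Opens) (hU : IsAffineOpen U)
    (D : CDiv X.A) (hDeff : Effective D) (hDtriv : ∀ x, x ∈ U ↔ TrivAt D x)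
    (D2 : CDiv X.A) (hD2 : CDiv.IsPow D 2 D2) (x : X.Pt) :
    ∃ (W : X.A.Opens) (h : X.A.functionField), IsAffineOpen W ∧ h ≠ 0 ∧
      (∀ y, h ∈ LS.span1 (D2.gen y) y) ∧
      (∀ y, LS.span1 (D2.gen y) y = LS.span1 h y ↔ y ∈ W) ∧
      (∀ y, y ∈ W ↔ (X.transl x y ∈ U ∧ X.transl (X.negPt x) y ∈ U)) := by
  have hx := ((hT X).2 x).2
  have hx' := ((hT X).2 (X.negPt x)).2
  obtain ⟨D₁, hD₁⟩ := (hOps X.A D).2.2 X.A (X.transl x) hx
  obtain ⟨D₂, hD₂⟩ := (hOps X.A D).2.2 X.A (X.transl (X.negPt x)) hx'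
  obtain ⟨D₃, hD₃⟩ := (hOps X.A D₁).2.1 D₂
  obtain ⟨h, hh, hlin⟩ := hSq X x hx hx' D D₁ D₂ D₃ D2 hD₁ hD₂ hD₃ hD2
  obtain ⟨W, hW, hWiff⟩ := hA X U hU x
  have hE₁ : Effective D₁ := effective_of_isPullback hS _ hx hD₁ hDeff
  have hE₂ : Effective D₂ := effective_of_isPullback hS _ hx' hD₂ hDeff
  -- `1` is a section of `D₃`
  have h1 : ∀ y, (1 : X.A.functionField) ∈ LS.span1 (D₃.gen y) y := by
    intro y
    rw [hD₃ y]
    simpa using mul_mem_span1_mul (hE₁ y) (hE₂ y)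
  refine ⟨W, h, hW, hh, ?_, ?_, hWiff⟩
  · intro y
    rw [hlin y]
    simpa using mul_left_mem_span1 h (h1 y)
  · intro y
    rw [hlin y]
    constructor
    · intro heq
      -- `D₃.gen y ∈ O_y`
      have hmem : h * D₃.gen y ∈ LS.span1 h y := heq ▸ self_mem_span1 _ _
      obtain ⟨r, hr⟩ := mem_span1.mp hmem
      have hgen : D₃.gen y ∈ LS.span1 (1 : X.A.functionField) y := by
        refine mem_span1.mpr ⟨r, ?_⟩
        have : h * (algebraMap _ _ r * 1) = h * D₃.gen y := by rw [← hr]; ring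
        exact mul_left_cancel₀ hh this
      have hprod : D₁.gen y * D₂.gen y ∈ LS.span1 (1 : X.A.functionField) y := by
        have : D₁.gen y * D₂.gen y ∈ LS.span1 (D₃.gen y) y := by
          rw [hD₃ y]; exact self_mem_span1 _ _
        exact span1_le hgen this
      have ht₁ : TrivAt D₁ y := span1_eq_one_of_mul (hE₁ y) (hE₂ y) hprod
      have ht₂ : TrivAt D₂ y :=
        span1_eq_one_of_mul (hE₂ y) (hE₁ y) (by rwa [mul_comm])
      exact (hWiff y).mpr
        ⟨(hDtriv _).mpr (trivAt_of_isPullback_trivAt hS _ hx hD₁ hDeff ht₁),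
          (hDtriv _).mpr (trivAt_of_isPullback_trivAt hS _ hx' hD₂ hDeff ht₂)⟩
    · intro hy
      obtain ⟨hy₁, hy₂⟩ := (hWiff y).mp hy
      have ht₁ : TrivAt D₁ y := trivAt_of_isPullback hS _ hx hD₁ ((hDtriv _).mp hy₁)
      have ht₂ : TrivAt D₂ y := trivAt_of_isPullback hS _ hx' hD₂ ((hDtriv _).mp hy₂)
      have hgen : D₃.gen y ∈ LS.span1 (1 : X.A.functionField) y := by
        have h3 : D₃.gen y ∈ LS.span1 (D₁.gen y * D₂.gen y) y := by
          rw [← hD₃ y]; exact self_mem_span1 _ _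
        have h12 : D₁.gen y * D₂.gen y ∈ LS.span1 ((1 : X.A.functionField) * 1) y :=
          mul_mem_span1_mul (ht₁ ▸ self_mem_span1 _ _) (ht₂ ▸ self_mem_span1 _ _)
        rw [mul_one] at h12
        exact span1_le h12 h3
      refine span1_eq_of_mem ?_ ?_
      · simpa using mul_left_mem_span1 h hgen
      · simpa using mul_left_mem_span1 h (h1 y)

/-- **A3 from the theorem of the square.** -/
theorem sections_of_blocks (hS : Stmt.FFStalkMap.{u}) (hT : Stmt.TranslIso K)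
    (hA : Stmt.TranslAffine K) (hC : Stmt.Cover K) (hOps : Stmt.CDivOps.{u})
    (hSq : Stmt.SquareLS K) : Stmt.Sections K := by
  intro X _ U hU hne D hDeff hDtriv D2 hD2
  choose W h hW hh hsec hgen hWiff using
    exists_section hS hT hA hOps hSq X U hU D hDeff hDtriv D2 hD2
  -- the `W x` cover `A`
  have hcov : ∀ y : X.A, ∃ x : X.Pt, y ∈ W x := fun y => by
    obtain ⟨x, hx⟩ := hC X U hne y
    exact ⟨x, (hWiff x y).mpr hx⟩
  haveI : IsProper X.str := X.bundle.proper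
  haveI : CompactSpace X.A := QuasiCompact.compactSpace_of_compactSpace X.str
  obtain ⟨t, ht⟩ := isCompact_univ.elim_finite_subcover (fun x : X.Pt => (W x : Set X.A))
    (fun x => (W x).isOpen) (fun y _ => by
      obtain ⟨x, hx⟩ := hcov y
      exact Set.mem_iUnion.mpr ⟨x, hx⟩)
  have hcov' : ∀ y : X.A, ∃ x ∈ t, y ∈ W x := fun y => by
    have := ht (Set.mem_univ y)
    simpa using this
  have htne : t.Nonempty := by
    obtain ⟨x, hx, -⟩ := hcov' (genericPoint X.A)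
    exact ⟨x, hx⟩
  obtain ⟨N, hN⟩ : ∃ N, t.card = N + 1 :=
    ⟨t.card - 1, (Nat.succ_pred_eq_of_pos (Finset.card_pos.mpr htne)).symm⟩
  let e : Fin (N + 1) ≃ t := (Fintype.equivFinOfCardEq (by simpa using hN)).symm
  refine ⟨N, fun i => h (e i).1, ?_, ?_⟩
  · -- GOOD
    have hspan : ∀ y, LS.span (fun i => h (e i).1) y = LS.span1 (D2.gen y) y := by
      intro y
      apply le_antisymm
      · refine Submodule.span_le.mpr ?_
        rintro _ ⟨i, rfl⟩
        exact hsec _ y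
      · obtain ⟨x, hx, hy⟩ := hcov' y
        rw [(hgen x y).mpr hy]
        refine Submodule.span_le.mpr ?_
        simp only [Set.singleton_subset_iff]
        refine Submodule.subset_span ⟨e.symm ⟨x, hx⟩, ?_⟩
        simp
    have hgenAt : ∀ y i, LS.GenAt (fun i => h (e i).1) y i ↔ y ∈ W (e i).1 := by
      intro y i
      rw [LS.GenAt, hspan y]
      constructor
      · rintro ⟨-, heq⟩
        exact (hgen _ y).mp heq
      · intro hy
        exact ⟨hh _, (hgen _ y).mpr hy⟩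
    refine ⟨fun y => ?_, fun i => ⟨W (e i).1, hW _, fun y => (hgenAt y i).symm⟩⟩
    obtain ⟨x, hx, hy⟩ := hcov' y
    refine ⟨e.symm ⟨x, hx⟩, (hgenAt y _).mpr ?_⟩
    simpa using hy
  · -- divisor of the system
    intro y
    apply le_antisymm
    · refine Submodule.span_le.mpr ?_
      rintro _ ⟨i, rfl⟩
      exact hsec _ y
    · obtain ⟨x, hx, hy⟩ := hcov' y
      rw [(hgen x y).mpr hy]
      refine Submodule.span_le.mpr ?_
      simp only [Set.singleton_subset_iff]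
      refine Submodule.subset_span ⟨e.symm ⟨x, hx⟩, ?_⟩
      simp

/-- Squares of equal principal fractional ideals are equal. -/
theorem span1_sq_eq {X : Scheme.{u}} [IsIntegral X] {f g : X.functionField} {x : X}
    (h : LS.span1 f x = LS.span1 g x) : LS.span1 (f ^ 2) x = LS.span1 (g ^ 2) x := by
  have hf : f ∈ LS.span1 g x := h ▸ self_mem_span1 f x
  have hg : g ∈ LS.span1 f x := h ▸ self_mem_span1 g x
  rw [pow_two, pow_two]
  exact span1_eq_of_mem (mul_mem_span1_mul hf hf) (mul_mem_span1_mul hg hg)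

/-- **Block AMPLE**: `Stmt.Alpha` from A1–A4. -/
theorem alpha_of_blocks (hS : Stmt.FFStalkMap.{u}) (hT : Stmt.TranslIso K)
    (hA1 : Stmt.AffSym K) (hA2 : Stmt.ComplDiv K) (hA3 : Stmt.Sections K)
    (hA4 : Stmt.Project K) (hOps : Stmt.CDivOps.{u}) (hLOps : Stmt.LSDivOps.{u}) :
    Stmt.Alpha K := by
  intro X _ hneg
  obtain ⟨U, hU, hne, hsym⟩ := hA1 X
  obtain ⟨D, hDeff, hDtriv, hDcan⟩ := hA2 X U hU hne
  obtain ⟨D2, hD2⟩ := (hOps X.A D).1 2
  obtain ⟨N, w, hw, hwD⟩ := hA3 X U hU hne D hDeff hDtriv D2 hD2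
  obtain ⟨u, hu, huw, hind, hdeg⟩ := hA4 X N w hw
  refine ⟨u, hu, hind, hdeg, 1, one_ne_zero, ?_⟩
  have huD : CDiv.IsOfSystem u D2 := fun y => (huw y).trans (hwD y)
  haveI : IsIso X.negHom := (hT X).1
  have hDsym : CDiv.IsPullback X.negHom hneg D D := hDcan X.negHom hneg hsym
  have hD2sym : CDiv.IsPullback X.negHom hneg D2 D2 := by
    intro y
    rw [hD2 y, span1_sq_eq (hDsym y), ← map_pow]
    exact (ffMap_span1_eq hS X.negHom hneg y (hD2 (X.negHom y))).symm
  have := (hLOps X.A X.dim u D2 huD).2 X.A X.negHom hneg D2 hD2sym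
  intro y
  simp only [one_mul]
  rw [this y, huD y]

end Ample

end

end Fermat.Agent.S26

end
-- ===== PACK-END S26/Ample/Top.lean

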