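import Mathlib
import Fermat.Prelude.Def_GaloisRep_LocalConditions
import Fermat.Prelude.Def_ModularForm_HeckeOperator
import Fermat.Agent.Pack.S43MC.G0E2L1
import Fermat.Agent.Pack.S43MC.G0E11L0
import Fermat.Agent.Pack.S43MC.G0E12L2
import Fermat.Agent.Pack.S43GC.G0E4L1
import Fermat.Agent.Pack.S43MC.G0E9L1
import Fermat.Agent.Pack.S43MC.G0E12L1
import Fermat.Agent.Pack.S43MC.G0E12L3
import Fermat.Agent.Pack.S43MC.G0E7L0
import Fermat.Agent.Pack.S43MC.G0E10L1
import Fermat.Agent.Pack.S43MC.G0E12L0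
import Fermat.Agent.Pack.S43GC.G0E5L3
import Fermat.Agent.Pack.S43GC.G0E2L3
import Fermat.Agent.Pack.S44C.G0E1L3
import Fermat.Agent.Pack.S43MC.G0E4L0
import Fermat.Agent.Pack.S43MC.G0E13L1
import Fermat.Agent.Pack.Fast891

-- ===== PACK-BEGIN S30/H709/Occ.lean
section



/-!
# S30-OCC: every eigensystem of the Hecke algebra occurs in the period lattice

Main result `exists_adic_eigen_lattice`.  Input: the Hecke-equivariance of the period map
(`PeriodHecke N fac`, a hypothesis) and a ring homomorphism `χ : heckeAlgebra N 2 S →+* A` to an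
arbitrary domain `A` (for S30: `A = 𝒪'`; for S29: `A = F` a field of characteristic `p`).
Output: a lattice of integer-valued parabolic characters `c j : Γ₀(N) → ℤ` (`j : Fin r`), stable
under the cohomological Hecke operators with integer matrices `τ ℓ`, saturated and linearly
independent, and a nonzero vector `w : Fin r → A` such that `v = ∑ j, w j • c j` is an eigenvector
with eigenvalues `χ (T_ℓ)`.
-/

set_option autoImplicit false

noncomputable section

namespace Fermat.Agent.S30.H709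

open CongruenceSubgroup ModularCurve ModularCurve.Period
open scoped MatrixGroups

variable {N : ℕ} [NeZero N]

/-- The class of the period functional `λ_γ` in the period lattice. -/
def perCls (N : ℕ) [NeZero N] (γ : Gamma0 N) : perLattice N :=
  ⟨perFun N γ, perFun_mem_perLattice N γ⟩

theorem perCls_mul (γ δ : Gamma0 N) : perCls N (γ * δ) = perCls N γ + perCls N δ :=
  Subtype.ext (perFun_mul N γ δ)

theorem perCls_one : perCls N 1 = 0 := Subtype.ext (perFun_one N)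

theorem perCls_eq_zero_of_trace (γ : Gamma0 N)
    (hγ : ((γ : SL(2, ℤ)) : Matrix (Fin 2) (Fin 2) ℤ).trace ^ 2 = 4) : perCls N γ = 0 :=
  Subtype.ext (perFun_eq_zero_of_trace N γ hγ)

/-- The classes `perCls γ` generate the period lattice. -/
theorem perCls_induction {P : perLattice N → Prop} (h0 : P 0)
    (hadd : ∀ x y, P x → P y → P (x + y)) (hneg : ∀ x, P x → P (-x))
    (hcls : ∀ γ, P (perCls N γ)) (x : perLattice N) : P x := by
  obtain ⟨x, hx⟩ := x
  induction hx using Submodule.span_induction with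
  | mem y hy =>
    obtain ⟨γ, rfl⟩ := hy
    exact hcls γ
  | zero => exact h0
  | add y z hy hz ihy ihz => exact hadd ⟨y, hy⟩ ⟨z, hz⟩ ihy ihz
  | smul n y hy ihy =>
    have hsm : ∀ (k : ℕ), P (k • (⟨y, hy⟩ : perLattice N)) := by
      intro k
      induction k with
      | zero => rw [zero_smul]; exact h0
      | succ k ih => rw [succ_nsmul]; exact hadd _ _ ih ihy
    have key : P (n • (⟨y, hy⟩ : perLattice N)) := by
      rcases Int.eq_nat_or_neg n with ⟨k, rfl | rfl⟩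
      · rw [natCast_zsmul]; exact hsm k
      · rw [neg_smul, natCast_zsmul]; exact hneg _ (hsm k)
    exact key

theorem perRho_perCls {fac : ℕ → Gamma0 N → Multiset (Gamma0 N)}
    (hPH : PeriodHecke N fac) {S : Set ℕ} (hNS : ∀ q : ℕ, q.Prime → q ∣ N → q ∈ S)
    {ℓ : ℕ} (hℓ : ℓ.Prime) (hℓN : ¬ ℓ ∣ N) (hℓS : ℓ ∉ S) (γ : Gamma0 N) :
    perRho hPH hNS (CuspForm.heckeAlgebra.T hℓ hℓN hℓS) (perCls N γ)
      = ((fac ℓ γ).map (perCls N)).sum := by
  apply Subtype.ext
  have h1 : ((perRho hPH hNS (CuspForm.heckeAlgebra.T hℓ hℓN hℓS) (perCls N γ) : perLattice N) :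
      Module.Dual ℂ (CuspForm (Gamma0 N) 2))
      = Module.Dual.transpose (CuspForm.heckeTLin 2 hℓ hℓN) (perFun N γ) := rfl
  rw [h1, hPH.transpose_perFun hℓ hℓN γ]
  have h2 : ∀ m : Multiset (Gamma0 N),
      (((m.map (perCls N)).sum : perLattice N) : Module.Dual ℂ (CuspForm (Gamma0 N) 2))
        = (m.map (perFun N)).sum := by
    intro m
    induction m using Multiset.induction_on with
    | empty => simp
    | cons a m ih =>
      rw [Multiset.map_cons, Multiset.sum_cons, Submodule.coe_add, ih, Multiset.map_cons,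
        Multiset.sum_cons]
      rfl
  rw [h2]

/-- **S30-OCC** (adic `M4a`).  Every ring homomorphism `χ` from the Hecke algebra (away from a set
`S` containing the primes dividing `N`) to a domain `A` occurs in the lattice of integral parabolic
characters spanned by the period functionals. -/
theorem exists_adic_eigen_lattice {fac : ℕ → Gamma0 N → Multiset (Gamma0 N)}
    (hPH : PeriodHecke N fac) {S : Set ℕ} (hNS : ∀ q : ℕ, q.Prime → q ∣ N → q ∈ S)
    {A : Type*} [CommRing A] [IsDomain A] (χ : CuspForm.heckeAlgebra N 2 S →+* A) :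
    ∃ (r : ℕ) (c : Fin r → (Additive (Gamma0 N) →+ ℤ)) (τ : ℕ → Matrix (Fin r) (Fin r) ℤ)
      (w : Fin r → A),
      (∀ j, IsParabolicHom (Gamma0 N) (c j)) ∧
      (∀ (m : ℤ) (a : Fin r → ℤ),
        (∀ γ : Gamma0 N, m ∣ ∑ j, a j * c j (Additive.ofMul γ)) → ∀ j, m ∣ a j) ∧
      (∀ (ℓ : ℕ) (_ : ℓ.Prime) (_ : ¬ ℓ ∣ N) (_ : ℓ ∉ S) (j : Fin r) (γ : Gamma0 N),
        ((fac ℓ γ).map fun δ => c j (Additive.ofMul δ)).sum
          = ∑ k, τ ℓ j k * c k (Additive.ofMul γ)) ∧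
      w ≠ 0 ∧
      ∀ (ℓ : ℕ) (hℓ : ℓ.Prime) (hℓN : ¬ ℓ ∣ N) (hℓS : ℓ ∉ S) (k : Fin r),
        ∑ j, w j * ((τ ℓ j k : ℤ) : A) = χ (CuspForm.heckeAlgebra.T hℓ hℓN hℓS) * w k := by
  classical
  let b := Module.finBasis ℤ (perLattice N)
  let c : Fin (Module.finrank ℤ (perLattice N)) → (Additive (Gamma0 N) →+ ℤ) := fun j =>
    { toFun := fun γ => b.repr (perCls N (Additive.toMul γ)) j
      map_zero' := by
        rw [toMul_zero, perCls_one, map_zero]
        rfl
      map_add' := fun γ δ => by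
        rw [toMul_add, perCls_mul, map_add]
        rfl }
  have hc : ∀ j (γ : Gamma0 N), c j (Additive.ofMul γ) = b.repr (perCls N γ) j := fun _ _ => rfl
  let τ : ℕ → Matrix (Fin (Module.finrank ℤ (perLattice N)))
      (Fin (Module.finrank ℤ (perLattice N))) ℤ := fun ℓ =>
    if h : ℓ.Prime ∧ ¬ ℓ ∣ N ∧ ℓ ∉ S then
      Matrix.of fun j k => b.repr (perRho hPH hNS (CuspForm.heckeAlgebra.T h.1 h.2.1 h.2.2) (b k)) j
    else 0
  have hτ : ∀ (ℓ : ℕ) (hℓ : ℓ.Prime) (hℓN : ¬ ℓ ∣ N) (hℓS : ℓ ∉ S) (j k),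
      τ ℓ j k = b.repr (perRho hPH hNS (CuspForm.heckeAlgebra.T hℓ hℓN hℓS) (b k)) j := by
    intro ℓ hℓ hℓN hℓS j k
    simp only [τ, dif_pos (show ℓ.Prime ∧ ¬ ℓ ∣ N ∧ ℓ ∉ S from ⟨hℓ, hℓN, hℓS⟩), Matrix.of_apply]
  obtain ⟨w, hw0, hw⟩ := exists_eigen_coeffs (perRho hPH hNS) (perRho_injective hPH hNS) b χ
  refine ⟨Module.finrank ℤ (perLattice N), c, τ, w, ?_, ?_, ?_, hw0, ?_⟩
  · intro j γ hγ
    rw [hc, perCls_eq_zero_of_trace γ hγ, map_zero]
    rfl
  · intro m a ha k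
    let Λ : perLattice N →ₗ[ℤ] ℤ := ∑ j, a j • b.coord j
    have hΛ : ∀ x, Λ x = ∑ j, a j * b.repr x j := by
      intro x
      simp only [Λ, LinearMap.sum_apply, LinearMap.smul_apply, Module.Basis.coord_apply,
        smul_eq_mul]
    have hall : ∀ x : perLattice N, m ∣ Λ x := by
      intro x
      induction x using perCls_induction with
      | h0 => rw [map_zero]; exact dvd_zero m
      | hadd x y hx hy => rw [map_add]; exact dvd_add hx hy
      | hneg x hx => rw [map_neg]; exact (dvd_neg).mpr hx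
      | hcls γ => rw [hΛ]; exact ha γ
    have hk : Λ (b k) = a k := by
      rw [hΛ]
      simp [Module.Basis.repr_self, Finsupp.single_apply]
    rw [← hk]
    exact hall (b k)
  · intro ℓ hℓ hℓN hℓS j γ
    have h1 : ((fac ℓ γ).map fun δ => c j (Additive.ofMul δ)).sum
        = b.coord j (((fac ℓ γ).map (perCls N)).sum) := by
      rw [map_multiset_sum, Multiset.map_map]
      rfl
    rw [h1, ← perRho_perCls hPH hNS hℓ hℓN hℓS γ]
    conv_lhs => rw [← b.sum_repr (perCls N γ)]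
    rw [map_sum, map_sum]
    refine Finset.sum_congr rfl fun k _ => ?_
    rw [map_zsmul, map_zsmul, hτ ℓ hℓ hℓN hℓS, hc, smul_eq_mul, Module.Basis.coord_apply, mul_comm]
  · intro ℓ hℓ hℓN hℓS k
    rw [← hw (CuspForm.heckeAlgebra.T hℓ hℓN hℓS) k]
    refine Finset.sum_congr rfl fun j _ => ?_
    rw [hτ ℓ hℓ hℓN hℓS]

end Fermat.Agent.S30.H709

end
end
-- ===== PACK-END S30/H709/Occ.lean

-- ===== PACK-BEGIN S31/H862/Nice.lean
section



/-!
# S31 / SS (helper862) — weight-2 invariant norm, "nice" functions, weighted Petersson integrals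
-/

set_option autoImplicit false

open UpperHalfPlane CongruenceSubgroup MeasureTheory
open scoped MatrixGroups ENNReal NNReal ModularForm ComplexConjugate

namespace Fermat.Agent.S31.H862

/-- The weight-2 invariant norm `|f(z)| · Im z`. -/
noncomputable def nrm (f : ℍ → ℂ) (z : ℍ) : ℝ := ‖f z‖ * z.im

theorem nrm_nonneg (f : ℍ → ℂ) (z : ℍ) : 0 ≤ nrm f z :=
  mul_nonneg (norm_nonneg _) z.im_pos.le

theorem norm_petersson_eq (f g : ℍ → ℂ) (z : ℍ) :
    ‖petersson 2 f g z‖ = nrm f z * nrm g z := by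
  simp only [petersson, nrm, norm_mul, Complex.norm_conj, norm_zpow, Complex.norm_real,
    Real.norm_of_nonneg z.im_pos.le]
  rw [zpow_ofNat]
  ring

theorem slash_two_apply (f : ℍ → ℂ) (δ : GL (Fin 2) ℝ) (z : ℍ) :
    (f ∣[(2 : ℤ)] δ) z = σ δ (f (δ • z)) * ((|δ.det.val| : ℝ) : ℂ) * (denom δ z ^ 2)⁻¹ := by
  rw [ModularForm.slash_def]
  simp only [show (2 : ℤ) - 1 = 1 by norm_num, zpow_one, zpow_neg]
  rw [zpow_ofNat]

theorem nrm_slash (f : ℍ → ℂ) (δ : GL (Fin 2) ℝ) (z : ℍ) :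
    nrm (f ∣[(2 : ℤ)] δ) z = nrm f (δ • z) := by
  have hd : denom δ z ≠ 0 := denom_ne_zero δ z
  have hn : (0 : ℝ) < Complex.normSq (denom δ z) := Complex.normSq_pos.mpr hd
  simp only [nrm, slash_two_apply, norm_mul, norm_σ, norm_inv, norm_pow, Complex.norm_real,
    Real.norm_eq_abs, abs_abs]
  rw [UpperHalfPlane.im_smul_eq_div_normSq, Complex.normSq_eq_norm_sq]
  field_simp

/-- Continuous functions on `ℍ` with bounded weight-2 invariant norm. -/
structure Nice (f : ℍ → ℂ) : Prop where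
  cont : Continuous f
  bdd : ∃ C : ℝ, ∀ z, nrm f z ≤ C

theorem continuous_slash_two {f : ℍ → ℂ} (hf : Continuous f) (δ : GL (Fin 2) ℝ) :
    Continuous (f ∣[(2 : ℤ)] δ) := by
  have h : (f ∣[(2 : ℤ)] δ) =
      fun z : ℍ => σ δ (f (δ • z)) * ((|δ.det.val| : ℝ) : ℂ) * (denom δ z ^ 2)⁻¹ :=
    funext fun z => slash_two_apply f δ z
  rw [h]
  have h1 : Continuous fun z : ℍ => δ • z := continuous_const_smul δ
  have h2 : Continuous fun z : ℍ => denom δ z := by
    unfold denom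
    fun_prop
  have h3 : Continuous fun z : ℍ => σ δ (f (δ • z)) :=
    (σ δ).continuous.comp (hf.comp h1)
  refine (h3.mul continuous_const).mul (Continuous.inv₀ (h2.pow 2) fun z => ?_)
  exact pow_ne_zero 2 (denom_ne_zero δ z)

theorem Nice.slash {f : ℍ → ℂ} (hf : Nice f) (δ : GL (Fin 2) ℝ) : Nice (f ∣[(2 : ℤ)] δ) := by
  obtain ⟨C, hC⟩ := hf.bdd
  exact ⟨continuous_slash_two hf.cont δ, C, fun z => by rw [nrm_slash]; exact hC _⟩

theorem Nice.add {f g : ℍ → ℂ} (hf : Nice f) (hg : Nice g) : Nice (f + g) := by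
  obtain ⟨C, hC⟩ := hf.bdd
  obtain ⟨D, hD⟩ := hg.bdd
  refine ⟨hf.cont.add hg.cont, C + D, fun z => ?_⟩
  have h := norm_add_le (f z) (g z)
  have := hC z
  have := hD z
  simp only [nrm, Pi.add_apply] at *
  nlinarith [z.im_pos]

theorem Nice.zero : Nice (0 : ℍ → ℂ) :=
  ⟨continuous_const, 0, fun z => by simp [nrm]⟩

theorem Nice.sum {ι : Type*} (s : Finset ι) {f : ι → ℍ → ℂ} (hf : ∀ i ∈ s, Nice (f i)) :
    Nice (∑ i ∈ s, f i) := by
  classical
  induction s using Finset.induction_on with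
  | empty => simpa using Nice.zero
  | insert a s ha ih =>
    rw [Finset.sum_insert ha]
    exact (hf a (Finset.mem_insert_self a s)).add
      (ih fun i hi => hf i (Finset.mem_insert_of_mem hi))

theorem nice_cuspForm {Γ : Subgroup (GL (Fin 2) ℝ)} [Γ.IsArithmetic] (f : CuspForm Γ 2) :
    Nice (f : ℍ → ℂ) := by
  obtain ⟨C, hC⟩ := CuspFormClass.exists_bound (k := 2) (Γ := Γ) f
  refine ⟨(CuspFormClass.holo f).continuous, C, fun z => ?_⟩
  have h := hC z
  have h1 : (z.im : ℝ) ^ (((2 : ℤ) : ℝ) / 2) = z.im := by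
    norm_num
  rw [h1] at h
  rw [nrm]
  exact (le_div_iff₀ z.im_pos).mp h

/-- The weighted Petersson integral. -/
noncomputable def pint (w : ℍ → ℝ) (f g : ℍ → ℂ) : ℂ :=
  ∫ z : ℍ, petersson 2 f g z * (w z : ℂ)

theorem integrable_pint {w : ℍ → ℝ} (hw : Integrable w volume) {f g : ℍ → ℂ}
    (hf : Nice f) (hg : Nice g) :
    Integrable (fun z : ℍ => petersson 2 f g z * (w z : ℂ)) volume := by
  obtain ⟨C, hC⟩ := hf.bdd
  obtain ⟨D, hD⟩ := hg.bdd
  have hcont : Continuous (petersson 2 f g) := petersson_continuous 2 hf.cont hg.cont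
  have hwC : Integrable (fun z : ℍ => (w z : ℂ)) volume := hw.ofReal
  refine hwC.bdd_mul (c := C * D) hcont.aestronglyMeasurable
    (Filter.Eventually.of_forall fun z => ?_)
  rw [norm_petersson_eq]
  exact mul_le_mul (hC z) (hD z) (nrm_nonneg _ _) ((nrm_nonneg f z).trans (hC z))

end Fermat.Agent.S31.H862

end
-- ===== PACK-END S31/H862/Nice.lean

-- ===== PACK-BEGIN S34/H733/Glue.lean
section




/-!
# S34 — glue (helper733):  `S34 ⇐ S30U + CHEB (Tier 1) + PTS`

`S30UStatement` is the statement S30 with the extra conclusion that the representation attached to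
a `p`-adic point of the Hecke algebra of level `N` is unipotent on inertia at every prime `q ≠ p`
with `q ‖ N` (this is what the Galois tower + the wall "cell A2" deliver).

`unipotent_of_parts` deduces the frozen statement S34 for an arbitrary Hecke–Galois datum from
`S30UStatement`, the Frobenius density statement `ChebStatement` and `PTS` (the `p`-adic points of
the Hecke algebra are topologically separating), following the assembly of S31 (helper22).
-/

set_option autoImplicit false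

open Polynomial

namespace Fermat.Agent.S34.H733

open Fermat.Agent.S31 Fermat.Agent.S31.H22

/-- The statement S30, strengthened: the representation attached to a `p`-adic point of the Hecke
algebra is unipotent on inertia at the primes `q ≠ p` exactly dividing the level. -/
def S30UStatement : Prop :=
  ∀ (p : ℕ) [Fact p.Prime] (N : ℕ) [NeZero N] (S : Finset ℕ)
    (_hpS : p ∈ S) (_hNS : ∀ q : ℕ, q.Prime → q ∣ N → q ∈ S)
    (𝒪' : Type) [CommRing 𝒪'] [IsDomain 𝒪'] [IsDiscreteValuationRing 𝒪']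
    [IsAdicComplete (IsLocalRing.maximalIdeal 𝒪') 𝒪'] [Finite (IsLocalRing.ResidueField 𝒪')]
    [CharZero 𝒪'] (_hp𝒪' : (p : 𝒪') ∈ IsLocalRing.maximalIdeal 𝒪')
    (χ : CuspForm.heckeAlgebra N 2 (↑S : Set ℕ) →+* 𝒪'),
    ∃ (𝒪'' : Type) (_ : CommRing 𝒪'') (_ : IsDomain 𝒪'') (_ : IsDiscreteValuationRing 𝒪'')
      (_ : IsAdicComplete (IsLocalRing.maximalIdeal 𝒪'') 𝒪'')
      (_ : Finite (IsLocalRing.ResidueField 𝒪'')) (_ : CharZero 𝒪'')
      (_ : Algebra 𝒪' 𝒪'') (_ : Module.Finite 𝒪' 𝒪'') (_ : IsLocalHom (algebraMap 𝒪' 𝒪'')),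
    Function.Injective (algebraMap 𝒪' 𝒪'') ∧
    ∃ ρ : GaloisRepAdic 𝒪'',
      (∀ (ℓ : ℕ) (hℓ : ℓ.Prime) (hℓN : ¬ ℓ ∣ N) (hℓS : ℓ ∉ (↑S : Set ℕ)),
        ∀ A : ValuationSubring (AlgebraicClosure ℚ), A.LiesOverPrime ℓ →
          ∀ σ : AlgebraicClosure ℚ ≃ₐ[ℚ] AlgebraicClosure ℚ, A.IsFrobeniusAt σ ℓ →
            LinearMap.charpoly (ρ.ρ σ) =
              X ^ 2 - C (algebraMap 𝒪' 𝒪'' (χ (CuspForm.heckeAlgebra.T hℓ hℓN hℓS))) * X
                + C ((ℓ : 𝒪''))) ∧
      (∀ q : ℕ, q.Prime → q ≠ p → q ∣ N → ¬ q ^ 2 ∣ N → ρ.IsUnipotentOnInertiaAt q)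

/-! ### Linear algebra in rank 2 -/

section LinAlg

variable {R : Type*} [CommRing R] [Nontrivial R] {M : Type*} [AddCommGroup M] [Module R M]
  [Module.Free R M] [Module.Finite R M]

/-- The characteristic polynomial of an endomorphism of a free module of rank `2`. -/
theorem charpoly_eq_of_finrank_two (hrk : Module.finrank R M = 2) (f : Module.End R M) :
    f.charpoly = X ^ 2 - C (LinearMap.trace R M f) * X + C (LinearMap.det f) := by
  let b := Module.finBasisOfFinrankEq R M hrk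
  rw [← LinearMap.charpoly_toMatrix f b, Matrix.charpoly_fin_two,
    ← LinearMap.trace_eq_matrix_trace R b f, LinearMap.det_toMatrix b f]

theorem trace_det_of_charpoly (hrk : Module.finrank R M = 2) (f : Module.End R M) (a d : R)
    (h : f.charpoly = X ^ 2 - C a * X + C d) :
    LinearMap.trace R M f = a ∧ LinearMap.det f = d := by
  rw [charpoly_eq_of_finrank_two hrk f] at h
  have h0 := congrArg (fun q : R[X] => q.coeff 0) h
  have h1 := congrArg (fun q : R[X] => q.coeff 1) h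
  simp only [coeff_add, coeff_sub, coeff_X_pow, coeff_C_mul, coeff_X_zero,
    coeff_X_one, mul_zero, mul_one, sub_zero, zero_add, coeff_C, OfNat.zero_ne_ofNat,
    OfNat.one_ne_ofNat, one_ne_zero, if_false, zero_sub, add_zero, neg_inj] at h0 h1
  exact ⟨h1, h0⟩

omit [Nontrivial R] in
theorem sq_X_sub_one_eq : ((X : R[X]) - 1) ^ 2 = X ^ 2 - C (2 : R) * X + C (1 : R) := by
  rw [map_ofNat, map_one]
  ring

theorem trace_det_of_unipotent (hrk : Module.finrank R M = 2) (f : Module.End R M)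
    (h : f.charpoly = (X - 1) ^ 2) : LinearMap.trace R M f = 2 ∧ LinearMap.det f = 1 :=
  trace_det_of_charpoly hrk f 2 1 (h.trans sq_X_sub_one_eq)

theorem unipotent_of_trace_det (hrk : Module.finrank R M = 2) (f : Module.End R M)
    (ht : LinearMap.trace R M f = 2) (hd : LinearMap.det f = 1) : f.charpoly = (X - 1) ^ 2 := by
  rw [charpoly_eq_of_finrank_two hrk f, ht, hd, sq_X_sub_one_eq]

omit [Nontrivial R] in
/-- An endomorphism congruent to `1` modulo `I` has determinant congruent to `1` modulo `I`. -/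
theorem det_sub_one_mem (I : Ideal R) (f : Module.End R M)
    (hf : ∀ v, f v - v ∈ I • (⊤ : Submodule R M)) : LinearMap.det f - 1 ∈ I := by
  classical
  let b := Module.Free.chooseBasis R M
  rw [← LinearMap.det_toMatrix b f, ← Ideal.Quotient.eq_zero_iff_mem, map_sub, map_one,
    RingHom.map_det]
  have : (Ideal.Quotient.mk I).mapMatrix (LinearMap.toMatrix b b f) = 1 := by
    ext i j
    rw [RingHom.mapMatrix_apply, Matrix.map_apply, LinearMap.toMatrix_apply, Matrix.one_apply]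
    have h1 := repr_mem_of_mem_smul_top b I (hf (b j)) i
    rw [map_sub, Finsupp.sub_apply, Module.Basis.repr_self, Finsupp.single_apply] at h1
    have h2 := (Ideal.Quotient.eq_zero_iff_mem).mpr h1
    rw [map_sub, sub_eq_zero] at h2
    rw [h2]
    by_cases hij : i = j
    · rw [if_pos hij, if_pos hij.symm, map_one]
    · rw [if_neg hij, if_neg (Ne.symm hij), map_zero]
  rw [this, Matrix.det_one, sub_self]

end LinAlg

/-! ### Continuity of the determinant -/

theorem det_congr_of_agree {A : Type} [CommRing A] [IsLocalRing A] (ρ : GaloisRepAdic A)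
    (n : ℕ) :
    ∃ L : IntermediateField ℚ Qb, FiniteDimensional ℚ L ∧
      ∀ g g' : GQ, (∀ x ∈ L, g x = g' x) →
        LinearMap.det (ρ.ρ g) - LinearMap.det (ρ.ρ g') ∈ IsLocalRing.maximalIdeal A ^ n := by
  obtain ⟨L, hL, h1⟩ := ρ.isAdicContinuous n
  refine ⟨L, hL, fun g g' hgg' => ?_⟩
  have hσ : ∀ x ∈ L, (g'⁻¹ * g) x = x := by
    intro x hx
    rw [AlgEquiv.mul_apply, hgg' x hx]
    exact (g'.symm_apply_apply x)
  have hg : g = g' * (g'⁻¹ * g) := by group
  have key : LinearMap.det (ρ.ρ g) - LinearMap.det (ρ.ρ g') =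
      LinearMap.det (ρ.ρ g') * (LinearMap.det (ρ.ρ (g'⁻¹ * g)) - 1) := by
    conv_lhs => rw [hg, map_mul, map_mul]
    ring
  rw [key]
  exact Ideal.mul_mem_left _ _ (det_sub_one_mem _ _ (h1 _ hσ))

/-! ### The per-point lemma -/

section Point

variable {p : ℕ} {N : ℕ} [NeZero N] {S : Finset ℕ}

lemma exists_field_of_point_unip (h30u : S30UStatement) (hp : p.Prime) (hpS : p ∈ S)
    (hNS : ∀ q : ℕ, q.Prime → q ∣ N → q ∈ S)
    (P : PadicPoint p (CuspForm.heckeAlgebra N 2 (↑S : Set ℕ))) (n' : ℕ)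
    (q : ℕ) (hq : q.Prime) (hqp : q ≠ p) (hqN : q ∣ N) (hq2 : ¬ q ^ 2 ∣ N) :
    ∃ L : IntermediateField ℚ Qb, FiniteDimensional ℚ L ∧
      ∀ (τ : GQ) (B₀ : ValuationSubring Qb), B₀.LiesOverPrime q → τ ∈ B₀.inertiaSubgroupIn ℚ →
      ∀ {ℓ : ℕ} (hℓ : ℓ.Prime) (hℓN : ¬ ℓ ∣ N) (hℓS : ℓ ∉ (↑S : Set ℕ))
        (B : ValuationSubring Qb) (_ : B.LiesOverPrime ℓ) (σ : GQ) (_ : B.IsFrobeniusAt σ ℓ)
        (j : ℕ) (_ : ∀ x ∈ L, (σ ^ j) x = τ x),
        P.χ (heckePow hℓ hℓN hℓS j - 2) ∈ IsLocalRing.maximalIdeal P.O ^ n' ∧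
        P.χ ((ℓ : CuspForm.heckeAlgebra N 2 (↑S : Set ℕ)) ^ j - 1) ∈
          IsLocalRing.maximalIdeal P.O ^ n' := by
  have : Fact p.Prime := ⟨hp⟩
  obtain ⟨O'', i1, i2, i3, i4, i5, i6, i7, i8, i9, hinj, ρ'', hfrob, hunip⟩ :=
    h30u p N S hpS hNS P.O P.hp P.χ
  obtain ⟨k, hk⟩ := exists_pow_comap_le (algebraMap P.O O'') hinj n'
  obtain ⟨L₁, hL₁fin, hL₁⟩ := trace_congr_of_agree ρ'' k
  obtain ⟨L₂, hL₂fin, hL₂⟩ := det_congr_of_agree ρ'' k
  have := hL₁fin
  have := hL₂fin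
  refine ⟨L₁ ⊔ L₂, IntermediateField.finiteDimensional_sup _ _, ?_⟩
  intro τ B₀ hB₀ hτ ℓ hℓ hℓN hℓS B hB σ hσ j hj
  have hfc : FrobCond ρ'' ((algebraMap P.O O'').comp P.χ) := by
    intro ℓ hℓ hℓN hℓS B hB σ hσ
    exact hfrob ℓ hℓ hℓN hℓS B hB σ hσ
  obtain ⟨htr, hdet⟩ := trace_det_of_unipotent ρ''.finrank_eq _
    (hunip q hq hqp hqN hq2 B₀ hB₀ τ hτ)
  constructor
  · have e1 := trace_sub_hecke_mem ρ'' _ hfc k L₁ hL₁ τ hℓ hℓN hℓS B hB σ hσ j
      (fun x hx => hj x ((le_sup_left : L₁ ≤ L₁ ⊔ L₂) hx))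
    apply hk
    have htr' : ρ''.trace τ = 2 := htr
    have : algebraMap P.O O'' (P.χ (heckePow hℓ hℓN hℓS j - 2)) =
        -(ρ''.trace τ - ((algebraMap P.O O'').comp P.χ) (heckePow hℓ hℓN hℓS j)) := by
      rw [htr']
      simp only [RingHom.comp_apply, map_sub, map_ofNat]
      ring
    rw [this]
    exact Ideal.neg_mem_iff _ |>.mpr e1
  · have e2 := hL₂ τ (σ ^ j) (fun x hx => (hj x ((le_sup_right : L₂ ≤ L₁ ⊔ L₂) hx)).symm)
    have hdσ : LinearMap.det (ρ''.ρ σ) = (ℓ : O'') :=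
      (trace_det_of_charpoly ρ''.finrank_eq _ _ _ (hfrob ℓ hℓ hℓN hℓS B hB σ hσ)).2
    rw [hdet, map_pow, map_pow, hdσ] at e2
    apply hk
    have : algebraMap P.O O'' (P.χ ((ℓ : CuspForm.heckeAlgebra N 2 (↑S : Set ℕ)) ^ j - 1)) =
        -(1 - (ℓ : O'') ^ j) := by
      simp only [map_sub, map_pow, map_natCast, map_one]
      ring
    rw [this]
    exact Ideal.neg_mem_iff _ |>.mpr e2

end Point

/-! ### Main theorem -/

section Main

variable {p : ℕ} {N : ℕ} [NeZero N] {S : Finset ℕ}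
  {𝒪 : Type} [CommRing 𝒪] [IsDomain 𝒪] [IsDiscreteValuationRing 𝒪]
  [IsAdicComplete (IsLocalRing.maximalIdeal 𝒪) 𝒪]
  {θ : CuspForm.heckeAlgebra N 2 (↑S : Set ℕ) →+* IsLocalRing.ResidueField 𝒪}
  {T : Type} [CommRing T] [IsLocalRing T] [IsNoetherianRing T]
  [IsAdicComplete (IsLocalRing.maximalIdeal T) T] [Algebra 𝒪 T] [IsLocalHom (algebraMap 𝒪 T)]
  [Module.Finite 𝒪 T] [Module.Free 𝒪 T]

/-- trace and determinant of an inertia element at `q ‖ N` -/
theorem trace_det_inertia (h30u : S30UStatement) (hcheb : ChebStatement) (hp : p.Prime)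
    (hp𝒪 : (p : 𝒪) ∈ IsLocalRing.maximalIdeal 𝒪) (hpS : p ∈ S)
    (hNS : ∀ q : ℕ, q.Prime → q ∣ N → q ∈ S)
    (hPTS : PTS p (CuspForm.heckeAlgebra N 2 (↑S : Set ℕ)))
    (H : CuspForm.HeckeGaloisRepDatum N (↑S : Set ℕ) 𝒪 θ T)
    (q : ℕ) (hq : q.Prime) (hqp : q ≠ p) (hqN : q ∣ N) (hq2 : ¬ q ^ 2 ∣ N)
    (B₀ : ValuationSubring Qb) (hB₀ : B₀.LiesOverPrime q) (τ : GQ)
    (hτ : τ ∈ B₀.inertiaSubgroupIn ℚ) :
    H.ρ.trace τ = 2 ∧ LinearMap.det (H.ρ.ρ τ) = 1 := by
  have hK : (⨅ n, IsLocalRing.maximalIdeal T ^ n) = ⊥ :=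
    Ideal.iInf_pow_eq_bot_of_isLocalRing _ (Ideal.IsMaximal.ne_top inferInstance)
  suffices h : ∀ n, H.ρ.trace τ - 2 ∈ IsLocalRing.maximalIdeal T ^ n ∧
      LinearMap.det (H.ρ.ρ τ) - 1 ∈ IsLocalRing.maximalIdeal T ^ n by
    constructor
    · rw [← sub_eq_zero]
      have h1 : H.ρ.trace τ - 2 ∈ ⨅ n, IsLocalRing.maximalIdeal T ^ n := by
        rw [Ideal.mem_iInf]; exact fun n => (h n).1
      rw [hK] at h1; simpa using h1
    · rw [← sub_eq_zero]
      have h1 : LinearMap.det (H.ρ.ρ τ) - 1 ∈ ⨅ n, IsLocalRing.maximalIdeal T ^ n := by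
        rw [Ideal.mem_iInf]; exact fun n => (h n).2
      rw [hK] at h1; simpa using h1
  intro n
  -- the prime `m` of the Hecke algebra
  set m : Ideal (CuspForm.heckeAlgebra N 2 (↑S : Set ℕ)) :=
    Ideal.comap H.π (IsLocalRing.maximalIdeal T) with hm
  have hmprime : m.IsPrime := Ideal.comap_isPrime _ _
  have hpT : (p : T) ∈ IsLocalRing.maximalIdeal T := by
    have h1 : (p : T) = algebraMap 𝒪 T (p : 𝒪) := by simp
    rw [h1, IsLocalRing.mem_maximalIdeal, mem_nonunits_iff]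
    intro hu
    exact (IsLocalRing.mem_maximalIdeal _).mp hp𝒪 (isUnit_of_map_unit (algebraMap 𝒪 T) _ hu)
  have hpm : (p : CuspForm.heckeAlgebra N 2 (↑S : Set ℕ)) ∈ m := by
    rw [hm, Ideal.mem_comap, map_natCast]; exact hpT
  obtain ⟨F, n', hF⟩ := hPTS m hmprime hpm n
  -- fields
  have hpt := fun P : PadicPoint p (CuspForm.heckeAlgebra N 2 (↑S : Set ℕ)) =>
    exists_field_of_point_unip h30u hp hpS hNS P n' q hq hqp hqN hq2
  choose LP hLPfin hLP using hpt
  obtain ⟨E₁, hE₁fin, hE₁⟩ := exists_sup_of_list F LP hLPfin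
  obtain ⟨L₀, hL₀fin, hL₀⟩ := trace_congr_of_agree H.ρ n
  obtain ⟨L₀', hL₀'fin, hL₀'⟩ := det_congr_of_agree H.ρ n
  have := hE₁fin
  have := hL₀fin
  have := hL₀'fin
  have hfin2 : FiniteDimensional ℚ (L₀ ⊔ L₀' : IntermediateField ℚ Qb) :=
    IntermediateField.finiteDimensional_sup _ _
  set E : IntermediateField ℚ Qb := (L₀ ⊔ L₀') ⊔ E₁ with hE
  have hEfin : FiniteDimensional ℚ E := IntermediateField.finiteDimensional_sup _ _
  -- Frobenius data for `τ`
  obtain ⟨ℓ, B, σ, k, j, hℓ, hℓS, hB, hσ, -, -, hj⟩ := hcheb E hEfin τ S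
  have hℓN : ¬ ℓ ∣ N := fun h => hℓS (hNS ℓ hℓ h)
  have hℓS1 : ℓ ∉ (↑S : Set ℕ) := by simpa using hℓS
  have hL₀E : L₀ ≤ E := le_sup_left.trans le_sup_left
  have hL₀'E : L₀' ≤ E := le_sup_right.trans le_sup_left
  have hE₁E : E₁ ≤ E := le_sup_right
  have hfc : FrobCond H.ρ H.π := fun ℓ hℓ hℓN hℓS B hB σ hσ =>
    H.charpoly_frob ℓ hℓ hℓN hℓS B hB σ hσ
  have hmap : ∀ t, t ∈ m ^ n → H.π t ∈ IsLocalRing.maximalIdeal T ^ n := by
    intro t ht
    have h1 : (m ^ n).map H.π ≤ IsLocalRing.maximalIdeal T ^ n := by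
      rw [Ideal.map_pow]
      exact Ideal.pow_right_mono (Ideal.map_comap_le) n
    exact h1 (Ideal.mem_map_of_mem _ ht)
  have hpoints : ∀ P ∈ F, P.χ (heckePow hℓ hℓN hℓS1 j - 2) ∈ IsLocalRing.maximalIdeal P.O ^ n' ∧
      P.χ ((ℓ : CuspForm.heckeAlgebra N 2 (↑S : Set ℕ)) ^ j - 1) ∈
        IsLocalRing.maximalIdeal P.O ^ n' := fun P hP =>
    hLP P τ B₀ hB₀ hτ hℓ hℓN hℓS1 B hB σ hσ j (fun x hx => hj x (hE₁E (hE₁ P hP hx)))
  constructor
  · have e1 := trace_sub_hecke_mem H.ρ H.π hfc n L₀ hL₀ τ hℓ hℓN hℓS1 B hB σ hσ j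
      (fun x hx => hj x (hL₀E hx))
    have hdiff : heckePow hℓ hℓN hℓS1 j - 2 ∈ m ^ n := hF _ fun P hP => (hpoints P hP).1
    have hπ := hmap _ hdiff
    have : H.ρ.trace τ - 2 = (H.ρ.trace τ - H.π (heckePow hℓ hℓN hℓS1 j)) +
        H.π (heckePow hℓ hℓN hℓS1 j - 2) := by
      rw [map_sub, map_ofNat]; ring
    rw [this]
    exact Ideal.add_mem _ e1 hπ
  · have e2 := hL₀' τ (σ ^ j) (fun x hx => (hj x (hL₀'E hx)).symm)
    have hdσ : LinearMap.det (H.ρ.ρ σ) = (ℓ : T) :=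
      (trace_det_of_charpoly H.ρ.finrank_eq _ _ _ (hfc ℓ hℓ hℓN hℓS1 B hB σ hσ)).2
    rw [map_pow, map_pow, hdσ] at e2
    have hdiff : (ℓ : CuspForm.heckeAlgebra N 2 (↑S : Set ℕ)) ^ j - 1 ∈ m ^ n :=
      hF _ fun P hP => (hpoints P hP).2
    have hπ := hmap _ hdiff
    rw [map_sub, map_pow, map_natCast, map_one] at hπ
    have : LinearMap.det (H.ρ.ρ τ) - 1 = (LinearMap.det (H.ρ.ρ τ) - (ℓ : T) ^ j) +
        ((ℓ : T) ^ j - 1) := by ring
    rw [this]
    exact Ideal.add_mem _ e2 hπ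

/-- **S34 from its inputs**: in a Hecke–Galois datum of level `N`, the representation is
unipotent on inertia at every prime `q ≠ p` with `q ‖ N`. -/
theorem unipotent_of_parts (h30u : S30UStatement) (hcheb : ChebStatement) (hp : p.Prime)
    (hp𝒪 : (p : 𝒪) ∈ IsLocalRing.maximalIdeal 𝒪) (hpS : p ∈ S)
    (hNS : ∀ q : ℕ, q.Prime → q ∣ N → q ∈ S)
    (hPTS : PTS p (CuspForm.heckeAlgebra N 2 (↑S : Set ℕ)))
    (H : CuspForm.HeckeGaloisRepDatum N (↑S : Set ℕ) 𝒪 θ T)
    (q : ℕ) (hq : q.Prime) (hqp : q ≠ p) (hqN : q ∣ N) (hq2 : ¬ q ^ 2 ∣ N) :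
    H.ρ.IsUnipotentOnInertiaAt q := by
  intro B₀ hB₀ τ hτ
  obtain ⟨ht, hd⟩ := trace_det_inertia h30u hcheb hp hp𝒪 hpS hNS hPTS H q hq hqp hqN hq2
    B₀ hB₀ τ hτ
  exact unipotent_of_trace_det H.ρ.finrank_eq _ ht hd

end Main

/-- **The frozen statement S34 from its three inputs** (binders exactly as in the template). -/
theorem result_of_inputs (h30u : S30UStatement) (hcheb : ChebStatement)
    (hPTS : ∀ (p : ℕ), p.Prime → ∀ (N : ℕ) [NeZero N] (S : Finset ℕ),
      (∀ q : ℕ, q.Prime → q ∣ N → q ∈ S) → PTS p (CuspForm.heckeAlgebra N 2 (↑S : Set ℕ)))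
    {𝒪 : Type} [CommRing 𝒪] [IsDomain 𝒪] [IsDiscreteValuationRing 𝒪]
    [IsAdicComplete (IsLocalRing.maximalIdeal 𝒪) 𝒪] [Finite (IsLocalRing.ResidueField 𝒪)]
    [CharZero 𝒪]
    {p : ℕ} (hp : p.Prime) (hp𝒪 : (p : 𝒪) ∈ IsLocalRing.maximalIdeal 𝒪)
    {N : ℕ} [NeZero N] {S : Finset ℕ} (hpS : p ∈ S) (hNS : ∀ q : ℕ, q.Prime → q ∣ N → q ∈ S)
    {θ : CuspForm.heckeAlgebra N 2 (↑S : Set ℕ) →+* IsLocalRing.ResidueField 𝒪}
    {T : Type} [CommRing T] [IsLocalRing T] [IsNoetherianRing T]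
    [IsAdicComplete (IsLocalRing.maximalIdeal T) T] [Algebra 𝒪 T] [IsLocalHom (algebraMap 𝒪 T)]
    [Module.Finite 𝒪 T] [Module.Free 𝒪 T]
    (H : CuspForm.HeckeGaloisRepDatum N (↑S : Set ℕ) 𝒪 θ T)
    (q : ℕ) (hq : q.Prime) (hqp : q ≠ p) (hqN : q ∣ N) (hq2 : ¬ q ^ 2 ∣ N) :
    H.ρ.IsUnipotentOnInertiaAt q :=
  unipotent_of_parts h30u hcheb hp hp𝒪 hpS hNS (hPTS p hp N S hNS) H q hq hqp hqN hq2

end Fermat.Agent.S34.H733

end
-- ===== PACK-END S34/H733/Glue.lean

-- ===== PACK-BEGIN S35/H891/NewSub3.lean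
section
/-
S35 top glue for the CUBIC relation (helper891): the adic eigenmodule of the NEW part, variant of
helper991's `S35.H991.exists_adic_eigenmodule_new` with

* the degeneracy maps `f c` only required to be operator-equivariant on the `p`-power TORSION
  (this is the form in which helper155's `pushA_hecke`, `pushB_hecke` are proved);
* one more clause: CUBIC relations with integer coefficients on the `p`-power torsion of the new
  part are inherited by the module.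

The module is built inside the Galois-stable subgroup
`newTorsSub p f = {x | x is p-power torsion ∧ ∀ γ c, f c (γ • x) = 0}`.
-/



set_option autoImplicit false
set_option linter.style.haveILetI false

namespace Fermat.Agent.S35.H891

open TensorProduct IsLocalRing Fermat.Agent.S30.H529

section Transfer

variable (O : Type*) [CommRing O] [Module.Flat ℤ O]
variable {J J' : Type*} [AddCommGroup J] [AddCommGroup J']

/-- A map `J → J'` killing the `m`-torsion of `J` has a base change killing the `m`-torsion of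
`O ⊗ J`. -/
theorem baseChange_eq_zero_of_torsion' (m : ℤ) (A : J →ₗ[ℤ] J')
    (hA : ∀ y : J, m • y = 0 → A y = 0) (x : O ⊗[ℤ] J) (hx : m • x = 0) :
    A.baseChange O x = 0 := by
  obtain ⟨z, rfl⟩ := exists_lTensor_eq_of_smul_eq_zero O m x hx
  have h1 : A ∘ₗ (LinearMap.ker (m • (LinearMap.id : J →ₗ[ℤ] J))).subtype = 0 := by
    apply LinearMap.ext
    intro y
    have hy := y.2
    rw [LinearMap.mem_ker, LinearMap.smul_apply, LinearMap.id_apply] at hy
    simpa using hA y hy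
  have h2 : A.baseChange O ((LinearMap.ker (m • (LinearMap.id : J →ₗ[ℤ] J))).subtype.lTensor O z)
      = (A ∘ₗ (LinearMap.ker (m • (LinearMap.id : J →ₗ[ℤ] J))).subtype).lTensor O z := by
    rw [LinearMap.lTensor_comp]
    rfl
  rw [h2, h1, LinearMap.lTensor_zero, LinearMap.zero_apply]

end Transfer

section NewTorsSub

variable {G : Type*} [Group G] {J : Type*} [AddCommGroup J] [DistribMulAction G J]
variable {C : Type*} {J' : C → Type*} [∀ c, AddCommGroup (J' c)]

theorem smul_nsmul_comm (γ : G) (k : ℕ) (x : J) : γ • (k • x) = k • (γ • x) :=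
  map_nsmul (DistribSMul.toAddMonoidHom J γ) k x

theorem smul_zsmul_comm (γ : G) (k : ℤ) (x : J) : γ • (k • x) = k • (γ • x) :=
  map_zsmul (DistribSMul.toAddMonoidHom J γ) k x

/-- The `G`-stable subgroup of the `p`-power torsion of `J` cut out by the additive maps `f c`. -/
def newTorsSub (G : Type*) [Group G] [DistribMulAction G J] (p : ℕ) (f : ∀ c, J →+ J' c) :
    Submodule ℤ J where
  carrier := {x | (∃ n : ℕ, p ^ n • x = 0) ∧ ∀ (γ : G) (c : C), f c (γ • x) = 0}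
  zero_mem' := by
    refine ⟨⟨0, smul_zero _⟩, ?_⟩
    intro γ c
    rw [smul_zero, map_zero]
  add_mem' := by
    rintro x y ⟨⟨n, hn⟩, hx⟩ ⟨⟨k, hk⟩, hy⟩
    refine ⟨⟨n + k, ?_⟩, ?_⟩
    · have h1 : p ^ (n + k) • x = 0 := by rw [pow_add, mul_comm, mul_smul, hn, smul_zero]
      have h2 : p ^ (n + k) • y = 0 := by rw [pow_add, mul_smul, hk, smul_zero]
      rw [smul_add, h1, h2, add_zero]
    · intro γ c
      rw [smul_add, map_add, hx γ c, hy γ c, add_zero]
  smul_mem' := by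
    rintro r x ⟨⟨n, hn⟩, hx⟩
    refine ⟨⟨n, ?_⟩, ?_⟩
    · rw [smul_comm, hn, smul_zero]
    · intro γ c
      rw [smul_zsmul_comm, map_zsmul, hx γ c, smul_zero]

theorem mem_newTorsSub {p : ℕ} {f : ∀ c, J →+ J' c} {x : J} :
    x ∈ newTorsSub G p f ↔ (∃ n : ℕ, p ^ n • x = 0) ∧ ∀ (γ : G) (c : C), f c (γ • x) = 0 :=
  Iff.rfl

theorem smul_mem_newTorsSub {p : ℕ} {f : ∀ c, J →+ J' c} (γ : G) {x : J}
    (hx : x ∈ newTorsSub G p f) : γ • x ∈ newTorsSub G p f := by
  obtain ⟨⟨n, hn⟩, hx⟩ := hx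
  refine ⟨⟨n, ?_⟩, ?_⟩
  · rw [← smul_nsmul_comm, hn, smul_zero]
  · intro γ' c
    rw [← mul_smul]
    exact hx (γ' * γ) c

/-- The Galois action on the new torsion subgroup. -/
@[reducible] def newTorsSubAction (p : ℕ) (f : ∀ c, J →+ J' c) :
    DistribMulAction G (newTorsSub G p f) where
  smul γ x := ⟨γ • (x : J), smul_mem_newTorsSub γ x.2⟩
  one_smul x := Subtype.ext (one_smul G (x : J))
  mul_smul γ δ x := Subtype.ext (mul_smul γ δ (x : J))
  smul_zero γ := Subtype.ext (smul_zero γ)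
  smul_add γ x y := Subtype.ext (smul_add γ (x : J) (y : J))

end NewTorsSub

section Main

/-- The absolute Galois group of `ℚ`. -/
local notation "Γℚ" => (AlgebraicClosure ℚ ≃ₐ[ℚ] AlgebraicClosure ℚ)

variable {O : Type} [CommRing O] [IsDomain O] [IsDiscreteValuationRing O]
  [IsAdicComplete (maximalIdeal O) O] [CharZero O]

/-- **The adic eigenmodule of the new part**, torsion form, with the cubic clause. -/
theorem exists_adic_eigenmodule_new3 {p : ℕ} (hpO : (p : O) ∈ maximalIdeal O) (hp0 : p ≠ 0)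
    {J : Type} [AddCommGroup J] [DistribMulAction Γℚ J]
    {ι : Type} (T : ι → J →+ J) (a : ι → O)
    (hT : ∀ (i : ι) (γ : Γℚ) (x : J), T i (γ • x) = γ • T i x)
    (hfin : {x : J | p • x = 0}.Finite)
    (hsm : ∀ x : J, (∃ n : ℕ, p ^ n • x = 0) →
      ∃ L : IntermediateField ℚ (AlgebraicClosure ℚ), FiniteDimensional ℚ L ∧
        ∀ σ : Γℚ, (∀ y ∈ L, σ y = y) → σ • x = x)
    {C : Type} {J' : C → Type} [∀ c, AddCommGroup (J' c)]
    (T' : ∀ c, ι → J' c →+ J' c) (f : ∀ c, J →+ J' c)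
    (hf : ∀ (c : C) (i : ι) (x : J), (∃ n : ℕ, p ^ n • x = 0) →
      f c (T i x) = T' c i (f c x))
    (hexcl : ∀ (c : C) (z : ℕ → O ⊗[ℤ] J' c), (p : O) • z 0 = 0 →
      (∀ n, (p : O) • z (n + 1) = z n) →
      (∀ i n, tensorOp O (T' c) i (z n) = a i • z n) → z = 0)
    (v : ℕ → O ⊗[ℤ] J) (hv0 : (p : O) • v 0 = 0) (hv : ∀ n, (p : O) • v (n + 1) = v n)
    (hne : v ≠ 0) (heig : ∀ i n, tensorOp O T i (v n) = a i • v n) :
    ∃ (M : Type) (_ : AddCommGroup M) (_ : Module O M) (_ : Module.Free O M)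
      (_ : Module.Finite O M) (ρ : Γℚ →* Module.End O M),
      Nontrivial M ∧ GaloisActionIsAdicContinuous O ρ ∧
      (∀ γ : Γℚ,
        (∀ x : J, (∃ n : ℕ, p ^ n • x = 0) → (∀ (γ' : Γℚ) (c : C), f c (γ' • x) = 0) →
          γ • x = x) → ρ γ = 1) ∧
      (∀ (γ : Γℚ) (i : ι) (c : ℤ),
        (∀ x : J, (∃ n : ℕ, p ^ n • x = 0) → (∀ (γ' : Γℚ) (c' : C), f c' (γ' • x) = 0) →
          γ • γ • x - T i (γ • x) + c • x = 0) →
        ρ γ * ρ γ - a i • ρ γ + (c : O) • (1 : Module.End O M) = 0) ∧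
      (∀ (γ : Γℚ) (c₂ c₁ c₀ : ℤ),
        (∀ x : J, (∃ n : ℕ, p ^ n • x = 0) → (∀ (γ' : Γℚ) (c' : C), f c' (γ' • x) = 0) →
          γ • γ • γ • x + c₂ • (γ • γ • x) + c₁ • (γ • x) + c₀ • x = 0) →
        ∀ m : M, ρ γ (ρ γ (ρ γ m)) + (c₂ : O) • ρ γ (ρ γ m) + (c₁ : O) • ρ γ m
          + (c₀ : O) • m = 0) := by
  classical
  -- the new subgroup, with its Galois action
  let K : Submodule ℤ J := newTorsSub Γℚ p f
  letI actK : DistribMulAction Γℚ K := newTorsSubAction p f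
  have hsmulK : ∀ (γ : Γℚ) (x : K), ((γ • x : K) : J) = γ • (x : J) := fun _ _ => rfl
  have htorsK : ∀ x : K, ∃ n : ℕ, p ^ n • (x : J) = 0 := fun x => x.2.1
  have hcoe_nsmul : ∀ (k : ℕ) (x : K), ((k • x : K) : J) = k • (x : J) := fun _ _ => rfl
  have hcoe_zsmul : ∀ (k : ℤ) (x : K), ((k • x : K) : J) = k • (x : J) := fun _ _ => rfl
  -- the operators on `K`
  have hTK : ∀ (i : ι) (x : J), x ∈ K → T i x ∈ K := by
    rintro i x ⟨⟨n, hn⟩, hx⟩
    refine ⟨⟨n, ?_⟩, ?_⟩
    · rw [← map_nsmul, hn, map_zero]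
    · intro γ c
      rw [← hT, hf c i (γ • x) ⟨n, by rw [← smul_nsmul_comm, hn, smul_zero]⟩, hx γ c, map_zero]
  let TK : ι → K →+ K := fun i =>
    { toFun := fun x => ⟨T i (x : J), hTK i (x : J) x.2⟩
      map_zero' := Subtype.ext (map_zero (T i))
      map_add' := fun x y => Subtype.ext (map_add (T i) (x : J) (y : J)) }
  have hTKl : ∀ (i : ι) (x : K), ((TK i x : K) : J) = T i (x : J) := fun _ _ => rfl
  have hTKG : ∀ (i : ι) (γ : Γℚ) (x : K), TK i (γ • x) = γ • TK i x := by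
    intro i γ x
    apply Subtype.ext
    rw [hTKl, hsmulK, hsmulK, hTKl]
    exact hT i γ (x : J)
  have hfinK : {x : K | p • x = 0}.Finite := by
    refine Set.Finite.of_finite_image (f := fun x : K => (x : J)) ?_
      (fun x _ y _ h => Subtype.ext h)
    refine hfin.subset ?_
    rintro _ ⟨x, hx, rfl⟩
    show p • (x : J) = 0
    have : ((p • x : K) : J) = 0 := by rw [hx]; rfl
    exact this
  have hsmK : ∀ x : K, (∃ n : ℕ, p ^ n • x = 0) →
      ∃ L : IntermediateField ℚ (AlgebraicClosure ℚ), FiniteDimensional ℚ L ∧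
        ∀ σ : Γℚ, (∀ y ∈ L, σ y = y) → σ • x = x := by
    rintro x -
    obtain ⟨L, hL, hLx⟩ := hsm (x : J) (htorsK x)
    exact ⟨L, hL, fun σ hσ => Subtype.ext (hLx σ hσ)⟩
  -- the eigen-sequence lies in `O ⊗ K`
  have hvpow : ∀ n, ((p ^ (n + 1) : ℕ) : ℤ) • v n = 0 := by
    intro n
    have h1 : (p : O) ^ (n + 1) • v n = 0 :=
      tate_pow_succ_smul (ϖ := (p : O)) (t := tensorOp O T) (a := a) ⟨hv0, hv, heig⟩ n
    rw [← natCast_pow_smul]
    exact h1
  have hinj : Function.Injective (K.subtype.baseChange O) := by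
    have := Module.Flat.lTensor_preserves_injective_linearMap (M := O) K.subtype
      K.injective_subtype
    exact this
  -- vanishing of the images under the degeneracy maps
  have hvan : ∀ (γ : Γℚ) (c : C) (n : ℕ),
      ((f c).toIntLinearMap.comp (actLin J γ)).baseChange O (v n) = 0 := by
    intro γ c n
    have hz := hexcl c (fun n => ((f c).toIntLinearMap.comp (actLin J γ)).baseChange O (v n))
      (by rw [← map_smul, hv0, map_zero])
      (fun n => by rw [← map_smul, hv n])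
      (fun i n => by
        show ((T' c i).toIntLinearMap.baseChange O)
            (((f c).toIntLinearMap.comp (actLin J γ)).baseChange O (v n))
          = a i • ((f c).toIntLinearMap.comp (actLin J γ)).baseChange O (v n)
        have h1 : ((T' c i).toIntLinearMap.comp ((f c).toIntLinearMap.comp (actLin J γ))
            - ((f c).toIntLinearMap.comp (actLin J γ)).comp (T i).toIntLinearMap).baseChange O
              (v n) = 0 := by
          refine baseChange_eq_zero_of_torsion' O ((p ^ (n + 1) : ℕ) : ℤ) _ ?_ (v n) (hvpow n)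
          intro y hy
          rw [natCast_zsmul] at hy
          show T' c i (f c (γ • y)) - f c (γ • T i y) = 0
          rw [← hT, hf c i (γ • y) ⟨n + 1, by rw [← smul_nsmul_comm, hy, smul_zero]⟩, sub_self]
        rw [LinearMap.baseChange_sub, LinearMap.sub_apply, sub_eq_zero,
          LinearMap.baseChange_comp, LinearMap.baseChange_comp (f := (T i).toIntLinearMap),
          LinearMap.comp_apply, LinearMap.comp_apply] at h1
        rw [h1]
        have h2 : (T i).toIntLinearMap.baseChange O (v n) = a i • v n := heig i n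
        rw [h2, map_smul])
    exact congrFun hz n
  have hlift : ∀ n, ∃ s : O ⊗[ℤ] K, K.subtype.baseChange O s = v n := by
    intro n
    have hfin' : {x : J | p ^ (n + 1) • x = 0}.Finite := finite_torsion_pow J p hfin (n + 1)
    obtain ⟨s, hs⟩ := Fermat.Agent.S35.H991.exists_lTensor_subtype_eq O (p ^ (n + 1)) hfin'
      (C := Γℚ × C) (J' := fun γc => J' γc.2)
      (fun γc => (f γc.2).toIntLinearMap.comp (actLin J γc.1)) K
      (fun x hx0 hx => ⟨⟨n + 1, hx0⟩, fun γ c => hx (γ, c)⟩) (v n) (hvpow n)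
      (fun γc => hvan γc.1 γc.2 n)
    exact ⟨s, hs⟩
  choose s hs using hlift
  have hs0 : (p : O) • s 0 = 0 := by
    apply hinj
    rw [map_smul, hs, hv0, map_zero]
  have hss : ∀ n, (p : O) • s (n + 1) = s n := by
    intro n
    apply hinj
    rw [map_smul, hs, hs, hv n]
  have hsne : s ≠ 0 := by
    intro h
    apply hne
    funext n
    rw [← hs n, h]
    simp
  have hseig : ∀ i n, tensorOp O TK i (s n) = a i • s n := by
    intro i n
    apply hinj
    show K.subtype.baseChange O ((TK i).toIntLinearMap.baseChange O (s n))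
      = K.subtype.baseChange O (a i • s n)
    have h1 : K.subtype.comp (TK i).toIntLinearMap
        = (T i).toIntLinearMap.comp K.subtype := by
      apply LinearMap.ext
      intro x
      rfl
    rw [← LinearMap.comp_apply, ← LinearMap.baseChange_comp, h1, LinearMap.baseChange_comp,
      LinearMap.comp_apply, hs, map_smul, hs]
    exact heig i n
  obtain ⟨M, i1, i2, i3, i4, ρ, hnt, hcont, hunr, hquad, hcub⟩ :=
    exists_adic_galois_eigenmodule3 p O K TK a hpO hp0 hTKG hfinK hsmK s hs0 hss hsne hseig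
  refine ⟨M, i1, i2, i3, i4, ρ, hnt, hcont, ?_, ?_, ?_⟩
  · intro γ hγ
    refine hunr γ ?_
    rintro x -
    apply Subtype.ext
    rw [hsmulK]
    exact hγ (x : J) (htorsK x) x.2.2
  · intro γ i c hγ
    refine hquad γ i c ?_
    rintro x -
    apply Subtype.ext
    exact hγ (x : J) (htorsK x) x.2.2
  · intro γ c₂ c₁ c₀ hγ
    refine hcub γ c₂ c₁ c₀ ?_
    rintro x -
    apply Subtype.ext
    exact hγ (x : J) (htorsK x) x.2.2

end Main

end Fermat.Agent.S35.H891

end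
-- ===== PACK-END S35/H891/NewSub3.lean

-- ===== PACK-BEGIN S36/H630/UnitNorm.lean
section


/-!
# S36 engine, LABEL core (helper630), part 10: the label equation from UNITS-ONLY norm–residue
formulas (the shape of the fields `nr_α₁, nr_α₂, nr_β₁, nr_β₂` of `Eng.TripleCtx`)

* `NormResSplitU V' V₁ V₂ e` : `res_{V'} (N y) = res_{V₁} y · (res_{V₂} y) ^ e` for `y` a unit of
  `V₁` and of `V₂` (body of `nr_α₁` / `nr_β₁`, with `algebraMap F' F` for the degeneracy map);
* `NormResInsepU V q` : `N y ≡ y ^ q` on `V` for units `y` of `V` (body of `nr_α₂` / `nr_β₂`);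
* `resLiftPow_of_insepU` : `ResLiftPow` from `NormResInsepU` and `N B ⊆ A`;
* `valAt_norm_splitU`, `valAt_norm_insepU` : LAB-NORM for values which are units at the point;
* `label_eq_of_normU` : the label equation.
-/

set_option autoImplicit false
set_option linter.unusedSectionVars false

namespace Fermat.Agent.S36.H630

variable {R : Type*} [CommRing R] {F' : Type*} [Field F'] [Algebra R F']
variable {F : Type*} [Field F] [Algebra R F] [Algebra F' F] [IsScalarTower R F' F]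

/-- Norm–residue formula, split case, for units. -/
def NormResSplitU (V' : ValuationSubring F') (V₁ V₂ : ValuationSubring F) (e : ℕ) : Prop :=
  ∀ y : F, (y ≠ 0 ∧ y ∈ V₁ ∧ y⁻¹ ∈ V₁) → (y ≠ 0 ∧ y ∈ V₂ ∧ y⁻¹ ∈ V₂) → ∀ x₁ x₂ : F',
    algebraMap F' F x₁ - y ∈ V₁.nonunits → algebraMap F' F x₂ - y ∈ V₂.nonunits →
      Algebra.norm F' y - x₁ * x₂ ^ e ∈ V'.nonunits

/-- Norm–residue formula, purely inseparable case of degree `q`, for units. -/
def NormResInsepU (V : ValuationSubring F) (q : ℕ) : Prop :=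
  ∀ y : F, (y ≠ 0 ∧ y ∈ V ∧ y⁻¹ ∈ V) →
    algebraMap F' F (Algebra.norm F' y) - y ^ q ∈ V.nonunits

section NormU

variable {A : Subalgebra R F'} {B : Subalgebra R F}
variable {N₁ : Ideal A} {n : Ideal B}

/-- `ResLiftPow` from the purely inseparable norm–residue formula. -/
theorem resLiftPow_of_insepU (hnormA : ∀ b : B, Algebra.norm F' (b : F) ∈ A)
    {V : ValuationSubring F} (hBV : ChartLe B V) {q : ℕ} (hq : q ≠ 0)
    (hNR : NormResInsepU (F' := F') V q) : ResLiftPow A B V q := by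
  intro b
  by_cases hb : (b : F) ∈ V.nonunits
  · refine ⟨0, ?_⟩
    have : (b : F) ^ q - algebraMap F' F ((0 : A) : F') = (b : F) ^ q := by
      rw [ZeroMemClass.coe_zero, map_zero, sub_zero]
    rw [this]
    exact vnu_pow V hb hq
  · refine ⟨⟨_, hnormA b⟩, ?_⟩
    have hb0 : (b : F) ≠ 0 := fun h0 => hb (h0 ▸ vnu_zero V)
    have h1 := hNR (b : F) ⟨hb0, hBV b, vnu_inv_mem V (hBV b) hb⟩
    have : (b : F) ^ q - algebraMap F' F (Algebra.norm F' (b : F))
        = -(algebraMap F' F (Algebra.norm F' (b : F)) - (b : F) ^ q) := by ring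
    rw [this]
    exact vnu_neg V h1

/-- **LAB-NORM, split side, unit values.** -/
theorem valAt_norm_splitU [n.IsPrime] [N₁.IsPrime]
    (hAB : ∀ a : A, algebraMap F' F (a : F') ∈ B)
    (hNn : ∀ a : A, a ∈ N₁ ↔ (⟨algebraMap F' F (a : F'), hAB a⟩ : B) ∈ n)
    {V' : ValuationSubring F'} (hAV' : ChartLe A V') (hth' : PassThrough A N₁ V')
    {V₁ V₂ : ValuationSubring F} (hBV₁ : ChartLe B V₁) (hth₁ : PassThrough B n V₁)
    (hBV₂ : ChartLe B V₂) (hth₂ : PassThrough B n V₂)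
    (hlift₁ : ResLift A B V₁) (hlift₂ : ResLift A B V₂)
    {e : ℕ} (hNR : NormResSplitU V' V₁ V₂ e)
    {d : F} {η₁ η₂ : R} (hη₁n : algebraMap R B η₁ ∉ n) (hη₂n : algebraMap R B η₂ ∉ n)
    (h₁ : ValAt B n V₁ d η₁) (h₂ : ValAt B n V₂ d η₂) :
    ValAt A N₁ V' (Algebra.norm F' d) (η₁ * η₂ ^ e) := by
  obtain ⟨a₁, b₁, hb₁, hη₁, hd₁⟩ := exists_lift_of_valAt hAB hNn hBV₁ hth₁ hlift₁ h₁
  obtain ⟨a₂, b₂, hb₂, hη₂, hd₂⟩ := exists_lift_of_valAt hAB hNn hBV₂ hth₂ hlift₂ h₂
  have hy₁ := sub_div_mem_nonunits hAB hNn hBV₁ hth₁ hb₁ hd₁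
  have hy₂ := sub_div_mem_nonunits hAB hNn hBV₂ hth₂ hb₂ hd₂
  have hy₁' : algebraMap F' F ((a₁ : F') / (b₁ : F')) - d ∈ V₁.nonunits := by
    have := vnu_neg V₁ hy₁
    rwa [neg_sub] at this
  have hy₂' : algebraMap F' F ((a₂ : F') / (b₂ : F')) - d ∈ V₂.nonunits := by
    have := vnu_neg V₂ hy₂
    rwa [neg_sub] at this
  have hdV₁ := h₁.mem hBV₁ hth₁
  have hdV₂ := h₂.mem hBV₂ hth₂
  have hdu₁ := h₁.not_nonunits hBV₁ hth₁ hη₁n
  have hd0 : d ≠ 0 := fun h0 => hdu₁ (h0 ▸ vnu_zero V₁)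
  have hN := hNR d ⟨hd0, hdV₁, vnu_inv_mem V₁ hdV₁ hdu₁⟩
    ⟨hd0, hdV₂, vnu_inv_mem V₂ hdV₂ (h₂.not_nonunits hBV₂ hth₂ hη₂n)⟩ _ _ hy₁' hy₂'
  have hv₁ : ValAt A N₁ V' ((a₁ : F') / (b₁ : F')) η₁ := valAt_div hb₁ hη₁
  have hv₂ : ValAt A N₁ V' ((a₂ : F') / (b₂ : F')) η₂ := valAt_div hb₂ hη₂
  have hv : ValAt A N₁ V' ((a₁ : F') / (b₁ : F') * ((a₂ : F') / (b₂ : F')) ^ e) (η₁ * η₂ ^ e) :=
    hv₁.mul hAV' hth' (hv₂.pow hAV' hth' e)
  refine hv.congr hAV' ?_
  have : (a₁ : F') / (b₁ : F') * ((a₂ : F') / (b₂ : F')) ^ e - Algebra.norm F' d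
      = -(Algebra.norm F' d - (a₁ : F') / (b₁ : F') * ((a₂ : F') / (b₂ : F')) ^ e) := by ring
  rw [this]
  exact vnu_neg V' hN

/-- **LAB-NORM, purely inseparable side, unit values.** -/
theorem valAt_norm_insepU [n.IsPrime] [N₁.IsPrime]
    (hAB : ∀ a : A, algebraMap F' F (a : F') ∈ B)
    (hNn : ∀ a : A, a ∈ N₁ ↔ (⟨algebraMap F' F (a : F'), hAB a⟩ : B) ∈ n)
    (hnormA : ∀ b : B, Algebra.norm F' (b : F) ∈ A)
    {V' : ValuationSubring F'} (hAV' : ChartLe A V')
    {V : ValuationSubring F} (hBV : ChartLe B V) (hth : PassThrough B n V)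
    (hcomap : ∀ y' : F', algebraMap F' F y' ∈ V.nonunits → y' ∈ V'.nonunits)
    {q : ℕ} (hq : q ≠ 0) (hNR : NormResInsepU (F' := F') V q)
    {d : F} {η : R} (hηn : algebraMap R B η ∉ n) (h : ValAt B n V d η) :
    ValAt A N₁ V' (Algebra.norm F' d) (η ^ q) := by
  have hlift : ResLiftPow A B V q := resLiftPow_of_insepU hnormA hBV hq hNR
  obtain ⟨a₁, b₁, hb₁, hη₁, hd₁⟩ := exists_lift_pow_of_valAt hAB hNn hBV hth hlift h
  have hy := sub_div_mem_nonunits hAB hNn hBV hth hb₁ hd₁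
  have hdV := h.mem hBV hth
  have hdu := h.not_nonunits hBV hth hηn
  have hd0 : d ≠ 0 := fun h0 => hdu (h0 ▸ vnu_zero V)
  have hN := hNR d ⟨hd0, hdV, vnu_inv_mem V hdV hdu⟩
  have hN' : Algebra.norm F' d - (a₁ : F') / (b₁ : F') ∈ V'.nonunits := by
    apply hcomap
    rw [map_sub]
    have : algebraMap F' F (Algebra.norm F' d) - algebraMap F' F ((a₁ : F') / (b₁ : F'))
        = (algebraMap F' F (Algebra.norm F' d) - d ^ q)
          + (d ^ q - algebraMap F' F ((a₁ : F') / (b₁ : F'))) := by ring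
    rw [this]
    exact vnu_add V hN hy
  have hv : ValAt A N₁ V' ((a₁ : F') / (b₁ : F')) (η ^ q) := valAt_div hb₁ hη₁
  refine hv.congr hAV' ?_
  have : (a₁ : F') / (b₁ : F') - Algebra.norm F' d
      = -(Algebra.norm F' d - (a₁ : F') / (b₁ : F')) := by ring
  rw [this]
  exact vnu_neg V' hN'

/-- **The label equation, from units-only norm–residue formulas.** -/
theorem label_eq_of_normU [n.IsPrime] [N₁.IsPrime]
    (hAB : ∀ a : A, algebraMap F' F (a : F') ∈ B)
    (hNn : ∀ a : A, a ∈ N₁ ↔ (⟨algebraMap F' F (a : F'), hAB a⟩ : B) ∈ n)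
    (hnormA : ∀ b : B, Algebra.norm F' (b : F) ∈ A)
    {m : ℕ} (hrootA : ∀ z : F', z ^ m ∈ A → z ∈ A)
    {V₁' V₂' : ValuationSubring F'}
    (hAV₁' : ChartLe A V₁') (hth₁' : PassThrough A N₁ V₁')
    (hAV₂' : ChartLe A V₂') (hth₂' : PassThrough A N₁ V₂')
    {VFF Vmid VVV : ValuationSubring F}
    (hBFF : ChartLe B VFF) (hthFF : PassThrough B n VFF)
    (hBmid : ChartLe B Vmid) (hthmid : PassThrough B n Vmid)
    (hBVV : ChartLe B VVV) (hthVV : PassThrough B n VVV)
    (hliftFF : ResLift A B VFF) (hliftmid : ResLift A B Vmid)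
    (hcomap : ∀ y' : F', algebraMap F' F y' ∈ VVV.nonunits → y' ∈ V₂'.nonunits)
    {e q : ℕ} (hq : q ≠ 0)
    (hNR₁ : NormResSplitU V₁' VFF Vmid e) (hNR₂ : NormResInsepU (F' := F') VVV q)
    {u d : F} {t : A} (ht : t ∉ N₁) {b' : B}
    (hpure : u * d ^ m * algebraMap F' F (t : F') = b')
    {k : F'} (hk : Algebra.norm F' u = k ^ m) {ξ₁ ξ₂ : R}
    (hξ₁ : k - algebraMap R F' ξ₁ ∈ V₁'.nonunits) (hξ₂ : k - algebraMap R F' ξ₂ ∈ V₂'.nonunits)
    {ηFF ηmid ηVV : R}
    (hηFF : algebraMap R B ηFF ∉ n) (hηmid : algebraMap R B ηmid ∉ n)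
    (hηVV : algebraMap R B ηVV ∉ n)
    (hFF : ValAt B n VFF d ηFF) (hmid : ValAt B n Vmid d ηmid) (hVV : ValAt B n VVV d ηVV) :
    algebraMap R A (ξ₁ * (ηFF * ηmid ^ e) - ξ₂ * ηVV ^ q) ∈ N₁ := by
  have hN₁top : N₁ ≠ ⊤ := Ideal.IsPrime.ne_top ‹N₁.IsPrime›
  set D : ℕ := Module.finrank F' F with hD
  set δ : F' := k * Algebra.norm F' d with hδ
  -- `δ ^ m t ^ D = N b'`
  have h1 : δ ^ m * (t : F') ^ D = Algebra.norm F' (b' : F) := by
    rw [← hpure, map_mul, map_mul, map_pow, hk, Algebra.norm_algebraMap, hδ, mul_pow]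
  -- `δ t ^ D ∈ A`
  have h2 : (δ * (t : F') ^ D) ^ m ∈ A := by
    rcases Nat.eq_zero_or_pos m with hm0 | hm0
    · rw [hm0, pow_zero]
      exact A.one_mem
    · obtain ⟨j, hj⟩ : ∃ j, m = j + 1 := ⟨m - 1, (Nat.sub_add_cancel hm0).symm⟩
      have h3 : (δ * (t : F') ^ D) ^ m
          = Algebra.norm F' (b' : F) * ((t : F') ^ D) ^ j := by
        rw [← h1, mul_pow]
        have h33 : ((t : F') ^ D) ^ m = ((t : F') ^ D) ^ j * (t : F') ^ D := by
          rw [hj, pow_succ]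
        rw [h33]
        ring
      rw [h3]
      exact A.mul_mem (hnormA b') (A.pow_mem (A.pow_mem t.2 D) j)
  have h4 : δ * (t : F') ^ D ∈ A := hrootA _ h2
  set c' : A := ⟨_, h4⟩ with hc'
  have htD : t ^ D ∉ N₁ := fun h => ht (Ideal.IsPrime.mem_of_pow_mem ‹N₁.IsPrime› D h)
  have hsc : ((t ^ D : A) : F') * δ = c' := by
    show ((t ^ D : A) : F') * δ = δ * (t : F') ^ D
    push_cast
    ring
  -- the two values of `δ`
  have hv₁ : ValAt A N₁ V₁' δ (ξ₁ * (ηFF * ηmid ^ e)) :=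
    (ValAt.const hN₁top hξ₁).mul hAV₁' hth₁'
      (valAt_norm_splitU hAB hNn hAV₁' hth₁' hBFF hthFF hBmid hthmid hliftFF hliftmid hNR₁
        hηFF hηmid hFF hmid)
  have hv₂ : ValAt A N₁ V₂' δ (ξ₂ * ηVV ^ q) :=
    (ValAt.const hN₁top hξ₂).mul hAV₂' hth₂'
      (valAt_norm_insepU hAB hNn hnormA hAV₂' hBVV hthVV hcomap hq hNR₂ hηVV hVV)
  have e₁ := hv₁.frac_mem hAV₁' hth₁' hsc
  have e₂ := hv₂.frac_mem hAV₂' hth₂' hsc
  have h5 : algebraMap R A (ξ₁ * (ηFF * ηmid ^ e) - ξ₂ * ηVV ^ q) * t ^ D ∈ N₁ := by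
    have : algebraMap R A (ξ₁ * (ηFF * ηmid ^ e) - ξ₂ * ηVV ^ q) * t ^ D
        = (c' - algebraMap R A (ξ₂ * ηVV ^ q) * t ^ D)
          - (c' - algebraMap R A (ξ₁ * (ηFF * ηmid ^ e)) * t ^ D) := by
      rw [map_sub]
      ring
    rw [this]
    exact N₁.sub_mem e₂ e₁
  rcases (Ideal.IsPrime.mem_or_mem ‹N₁.IsPrime› h5) with h6 | h6
  · exact h6
  · exact absurd h6 htD

end NormU

end Fermat.Agent.S36.H630

end
-- ===== PACK-END S36/H630/UnitNorm.lean

-- ===== PACK-BEGIN S41/H585/PDLift.lean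
section





/-!
# S41 / block LIFT (helper585): cuspidal classes mod `p` lift to `ℤ`

* `maninRepTorsionU : Spec.ManinRepTorsionStatement`  (D3', unconditional: TORS is on main);
* `lift_of` : LIFT from the leaves D1, D2', D2'', D3, D3', D4, LA-4 (all as hypotheses);
* `lift : Spec.LiftStatement`  (unconditional).
-/

set_option autoImplicit false

namespace Fermat.Agent.S41.H585

open CongruenceSubgroup Matrix.SpecialLinearGroup ModularCurve.Period ModularGroup
open Fermat.Agent.S41.Spec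
open scoped MatrixGroups

universe u

/-- (D3') unconditional. -/
theorem maninRepTorsionU : ManinRepTorsionStatement.{u} :=
  maninRepTorsion H768.torsionClass

lemma neg_one_mem_Gamma0 (n : ℕ) : (-1 : SL(2, ℤ)) ∈ Gamma0 n := by
  rw [Gamma0_mem]; simp

/-- LIFT from the leaves. -/
theorem lift_of (d1 : ManinRepExistsStatement.{0}) (d2' : ManinRepInvariantStatement.{0})
    (d2'' : ManinRepLinearStatement.{0}) (d3 : ManinRepRealizeStatement.{0})
    (d3' : ManinRepTorsionStatement.{0}) (d4 : ManinRepParabolicStatement.{0})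
    (la4 : ParDataLiftStatement) : LiftStatement := by
  intro n p hn xbar hxbar
  have : NeZero n := ⟨hn⟩
  have hneg := neg_one_mem_Gamma0 n
  -- Manin representative and parabolic data mod `p`
  obtain ⟨mbar, hmbar⟩ := d1 (Gamma0 n) hneg (ZMod p) xbar hxbar.2
  obtain ⟨ebar, hebar⟩ := (d4 (Gamma0 n) hneg (ZMod p) xbar mbar hmbar).mp hxbar.1
  -- lift to `ℤ`
  obtain ⟨m, e, hme, hm, -⟩ := la4 (Gamma0 n) p mbar ebar hebar
  obtain ⟨x, hx⟩ := d3 (Gamma0 n) hneg ℤ m
  have hxc : IsCuspidal x :=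
    ⟨(d4 (Gamma0 n) hneg ℤ x m hx).mpr ⟨e, hme⟩, d3' (Gamma0 n) hneg ℤ x m hx⟩
  refine ⟨x, hxc, ?_⟩
  -- the reduction of `x` is represented by `mbar`
  have hred : IsManinRep (Gamma0 n) ((Int.castAddHom (ZMod p)).comp x)
      (fun y => (Int.castAddHom (ZMod p)) (m y)) :=
    (d2'' (Gamma0 n) ℤ (ZMod p) (Int.castAddHom (ZMod p)) x x m m hx hx).2.2
  have hmb : (fun y => (Int.castAddHom (ZMod p)) (m y)) = mbar := by
    funext y
    exact hm y
  rw [hmb] at hred
  -- the difference is represented by `0`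
  have hdiff := (d2'' (Gamma0 n) (ZMod p) (ZMod p) (AddMonoidHom.id _)
    ((Int.castAddHom (ZMod p)).comp x) xbar mbar mbar hred hmbar).2.1
  rw [sub_self] at hdiff
  have hzero : IsInvariantSum (Gamma0 n) (0 : SL(2, ℤ) ⧸ Gamma0 n → ZMod p) :=
    ⟨0, 0, fun _ => rfl, fun _ => rfl, by simp⟩
  have := d2' (Gamma0 n) hneg (ZMod p) _ 0 hdiff hzero
  exact sub_eq_zero.mp this

/-- **Block LIFT (a)**, unconditional. -/
theorem lift : LiftStatement :=
  lift_of H460.maninRepExists H460.maninRepInvariant H460.maninRepLinear maninRepRealize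
    maninRepTorsionU maninRepParabolic H281.parDataLift

end Fermat.Agent.S41.H585

end
-- ===== PACK-END S41/H585/PDLift.lean

-- ===== PACK-BEGIN S59/MFree/H941/Eisenstein.lean
section



/-!
# Row S59, block M-FREE, leaf (D) — `EisensteinStatement` (helper941)

`T_l = l + 1` on the classes `φ : Γ₀(M) → B` which are trivial on the `γ` with `d ≡ 1 mod M`
(i.e. on `Hom(Γ₀(M)/Γ₁(M), B)`).

Proof.  `heckeRep l x * γ = γ_x * heckeRep l (π x)` and all matrices are upper triangular modulo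
`M`, so `u_x · d(γ) = d(γ_x) · u_{π x}` in `ℤ/M` where `u_∞ = 1`, `u_j = l` is the lower right entry
of `heckeRep l x`.  With `lam ∈ Γ₀(M)`, `d(lam) = l`, and `c ∞ = 0`, `c j = φ lam` this gives
`φ (γ_x) = φ γ + c x - c (π x)`; sum over `x ∈ ℙ¹(𝔽_l)` (`π` is a permutation).
-/

set_option autoImplicit false

namespace Fermat.Agent.S59.MFree.H941

open CongruenceSubgroup Matrix.SpecialLinearGroup
open Fermat.Agent.S41.Spec Fermat.Agent.S29.H642
open P2MW.S_ModularForm_heckeT_slash_eq_self_of_mem_Gamma0.ModularForm.HeckeSlashInvariance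
open scoped MatrixGroups

universe u

/-- The lower right entry of `γ ∈ Γ₀(M)` modulo `M`. -/
def eisD (M : ℕ) (γ : Gamma0 M) : ZMod M := ((((γ : SL(2, ℤ)) 1 1 : ℤ)) : ZMod M)

theorem eisD_lowerLeft {M : ℕ} (γ : Gamma0 M) : ((((γ : SL(2, ℤ)) 1 0 : ℤ)) : ZMod M) = 0 :=
  Gamma0_mem.mp γ.2

theorem eisD_mul {M : ℕ} (γ δ : Gamma0 M) : eisD M (γ * δ) = eisD M γ * eisD M δ := by
  have h : ((γ * δ : Gamma0 M) : SL(2, ℤ)) 1 1 =
      (γ : SL(2, ℤ)) 1 0 * (δ : SL(2, ℤ)) 0 1 + (γ : SL(2, ℤ)) 1 1 * (δ : SL(2, ℤ)) 1 1 := by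
    simp [Matrix.mul_apply, Fin.sum_univ_two]
  unfold eisD
  rw [h]
  push_cast
  rw [eisD_lowerLeft γ]
  ring

theorem eisD_one {M : ℕ} : eisD M (1 : Gamma0 M) = 1 := by
  unfold eisD
  simp

theorem eisD_inv_mul {M : ℕ} (γ : Gamma0 M) : eisD M γ⁻¹ * eisD M γ = 1 := by
  rw [← eisD_mul, inv_mul_cancel, eisD_one]

/-- A class trivial on `{d ≡ 1}` only depends on `d mod M`. -/
theorem eis_congr {M : ℕ} {B : Type*} [AddCommGroup B] (φ : Additive (Gamma0 M) →+ B)
    (hφ : ∀ γ : Gamma0 M, ((((γ : SL(2, ℤ)) 1 1 : ℤ)) : ZMod M) = 1 → φ (Additive.ofMul γ) = 0)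
    {γ γ' : Gamma0 M} (h : eisD M γ = eisD M γ') :
    φ (Additive.ofMul γ) = φ (Additive.ofMul γ') := by
  have h1 : eisD M (γ⁻¹ * γ') = 1 := by
    rw [eisD_mul, ← h, eisD_inv_mul]
  have h2 := hφ (γ⁻¹ * γ') h1
  rw [ofMul_mul, map_add, ofMul_inv, map_neg] at h2
  exact (neg_add_eq_zero.mp h2)

/-- The lower right entry of `heckeRep l x`. -/
def eisU (l : ℕ) (x : OnePoint (ZMod l)) : ℕ := x.elim 1 (fun _ => l)

@[simp] theorem eisU_infty (l : ℕ) : eisU l (OnePoint.infty : OnePoint (ZMod l)) = 1 := rfl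

@[simp] theorem eisU_coe (l : ℕ) (j : ZMod l) : eisU l (j : OnePoint (ZMod l)) = l := rfl

/-- The upper right entry of `heckeRep l x`. -/
def eisV (l : ℕ) (x : OnePoint (ZMod l)) : ℕ := x.elim 0 (fun j => j.val)

theorem heckeRep_one_zero {l : ℕ} (hl0 : l ≠ 0) (x : OnePoint (ZMod l)) :
    (heckeRep l x : GL (Fin 2) ℝ) 1 0 = 0 := by
  induction x using OnePoint.rec with
  | infty =>
    show ((ModularForm.heckeDiagMatrix l : GL (Fin 2) ℝ) : Matrix (Fin 2) (Fin 2) ℝ) 1 0 = 0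
    rw [ModularForm.val_heckeDiagMatrix hl0]
    simp
  | coe j =>
    show ((ModularForm.heckeMatrix l j.val : GL (Fin 2) ℝ) : Matrix (Fin 2) (Fin 2) ℝ) 1 0 = 0
    rw [ModularForm.val_heckeMatrix hl0]
    simp

theorem heckeRep_one_one {l : ℕ} (hl0 : l ≠ 0) (x : OnePoint (ZMod l)) :
    (heckeRep l x : GL (Fin 2) ℝ) 1 1 = (eisU l x : ℝ) := by
  induction x using OnePoint.rec with
  | infty =>
    show ((ModularForm.heckeDiagMatrix l : GL (Fin 2) ℝ) : Matrix (Fin 2) (Fin 2) ℝ) 1 1 = _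
    rw [ModularForm.val_heckeDiagMatrix hl0]
    simp
  | coe j =>
    show ((ModularForm.heckeMatrix l j.val : GL (Fin 2) ℝ) : Matrix (Fin 2) (Fin 2) ℝ) 1 1 = _
    rw [ModularForm.val_heckeMatrix hl0]
    simp

theorem heckeRep_zero_one {l : ℕ} (hl0 : l ≠ 0) (x : OnePoint (ZMod l)) :
    (heckeRep l x : GL (Fin 2) ℝ) 0 1 = (eisV l x : ℝ) := by
  induction x using OnePoint.rec with
  | infty =>
    show ((ModularForm.heckeDiagMatrix l : GL (Fin 2) ℝ) : Matrix (Fin 2) (Fin 2) ℝ) 0 1 = _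
    rw [ModularForm.val_heckeDiagMatrix hl0]
    simp [eisV]
  | coe j =>
    show ((ModularForm.heckeMatrix l j.val : GL (Fin 2) ℝ) : Matrix (Fin 2) (Fin 2) ℝ) 0 1 = _
    rw [ModularForm.val_heckeMatrix hl0]
    simp [eisV]

/-- The integral relation between the lower right entries. -/
theorem eis_entry_int {M l : ℕ} [Fact l.Prime] (hl : ¬ l ∣ M) (γ : Gamma0 M)
    (x : OnePoint (ZMod l)) :
    (eisU l x : ℤ) * (γ : SL(2, ℤ)) 1 1 =
      ((hElt hl γ x : Gamma0 M) : SL(2, ℤ)) 1 0 * (eisV l (hPerm l (γ : SL(2, ℤ)) x) : ℤ) +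
        ((hElt hl γ x : Gamma0 M) : SL(2, ℤ)) 1 1 * (eisU l (hPerm l (γ : SL(2, ℤ)) x) : ℤ) := by
  have hl0 : l ≠ 0 := (Fact.out : l.Prime).ne_zero
  have h := hElt_spec hl γ x
  have h2 := congrArg (fun A : GL (Fin 2) ℝ => (A : Matrix (Fin 2) (Fin 2) ℝ) 1 1) h
  simp only [Matrix.GeneralLinearGroup.coe_mul, Matrix.mul_apply, Fin.sum_univ_two] at h2
  have e1 : ((heckeRep l x : GL (Fin 2) ℝ) : Matrix (Fin 2) (Fin 2) ℝ) 1 0 = 0 :=
    heckeRep_one_zero hl0 x
  have e2 : ((heckeRep l x : GL (Fin 2) ℝ) : Matrix (Fin 2) (Fin 2) ℝ) 1 1 = (eisU l x : ℝ) :=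
    heckeRep_one_one hl0 x
  have e3 : ((heckeRep l (hPerm l (γ : SL(2, ℤ)) x) : GL (Fin 2) ℝ) :
      Matrix (Fin 2) (Fin 2) ℝ) 0 1 = (eisV l (hPerm l (γ : SL(2, ℤ)) x) : ℝ) :=
    heckeRep_zero_one hl0 _
  have e4 : ((heckeRep l (hPerm l (γ : SL(2, ℤ)) x) : GL (Fin 2) ℝ) :
      Matrix (Fin 2) (Fin 2) ℝ) 1 1 = (eisU l (hPerm l (γ : SL(2, ℤ)) x) : ℝ) :=
    heckeRep_one_one hl0 _
  have m1 : ((mapGL ℝ (γ : SL(2, ℤ)) : GL (Fin 2) ℝ) : Matrix (Fin 2) (Fin 2) ℝ) 1 1 =
      (((γ : SL(2, ℤ)) 1 1 : ℤ) : ℝ) := mapGL_apply _ 1 1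
  have m2 : ((mapGL ℝ ((hElt hl γ x : Gamma0 M) : SL(2, ℤ)) : GL (Fin 2) ℝ) :
      Matrix (Fin 2) (Fin 2) ℝ) 1 0 = ((((hElt hl γ x : Gamma0 M) : SL(2, ℤ)) 1 0 : ℤ) : ℝ) :=
    mapGL_apply _ 1 0
  have m3 : ((mapGL ℝ ((hElt hl γ x : Gamma0 M) : SL(2, ℤ)) : GL (Fin 2) ℝ) :
      Matrix (Fin 2) (Fin 2) ℝ) 1 1 = ((((hElt hl γ x : Gamma0 M) : SL(2, ℤ)) 1 1 : ℤ) : ℝ) :=
    mapGL_apply _ 1 1
  rw [e1, e2, e3, e4, m1, m2, m3, zero_mul, zero_add] at h2
  exact_mod_cast h2

/-- The relation `u_x · d(γ) = d(γ_x) · u_{π x}` in `ℤ/M`. -/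
theorem eis_entry {M l : ℕ} [Fact l.Prime] (hl : ¬ l ∣ M) (γ : Gamma0 M)
    (x : OnePoint (ZMod l)) :
    (eisU l x : ZMod M) * eisD M γ =
      eisD M (hElt hl γ x) * (eisU l (hPerm l (γ : SL(2, ℤ)) x) : ZMod M) := by
  have h := congrArg (Int.cast : ℤ → ZMod M) (eis_entry_int hl γ x)
  push_cast at h
  rw [eisD_lowerLeft (hElt hl γ x), zero_mul, zero_add] at h
  exact h

/-- An element of `Γ₀(M)` with lower right entry `l`. -/
theorem exists_eisD_eq {M l : ℕ} [Fact l.Prime] (hl : ¬ l ∣ M) :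
    ∃ lam : Gamma0 M, eisD M lam = (l : ZMod M) := by
  have hcop : IsCoprime (l : ℤ) (M : ℤ) :=
    Nat.isCoprime_iff_coprime.mpr ((Nat.Prime.coprime_iff_not_dvd Fact.out).mpr hl)
  obtain ⟨a, b, hab⟩ := hcop
  have hdet : (!![a, -b; (M : ℤ), (l : ℤ)] : Matrix (Fin 2) (Fin 2) ℤ).det = 1 := by
    rw [Matrix.det_fin_two_of]
    linear_combination hab
  let g : SL(2, ℤ) := ⟨!![a, -b; (M : ℤ), (l : ℤ)], hdet⟩
  have hg10 : g 1 0 = (M : ℤ) := rfl
  have hg11 : g 1 1 = (l : ℤ) := rfl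
  have hg : g ∈ Gamma0 M := by
    rw [Gamma0_mem, hg10]
    simp
  refine ⟨⟨g, hg⟩, ?_⟩
  show (((g 1 1 : ℤ)) : ZMod M) = (l : ZMod M)
  rw [hg11]
  simp

/-- **Leaf (D).** -/
theorem eisenstein : EisensteinStatement.{u} := by
  intro M l _ hl _ B _ φ hφ
  classical
  obtain ⟨lam, hlam⟩ := exists_eisD_eq (M := M) (l := l) hl
  refine AddMonoidHom.ext fun γ' => ?_
  obtain ⟨γ, rfl⟩ : ∃ γ : Gamma0 M, Additive.ofMul γ = γ' := ⟨Additive.toMul γ', rfl⟩
  rw [heckeTransfer_apply, AddMonoidHom.smul_apply]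
  let c : OnePoint (ZMod l) → B := fun x => x.elim 0 (fun _ => φ (Additive.ofMul lam))
  have key : ∀ x : OnePoint (ZMod l),
      φ (Additive.ofMul (hElt hl γ x)) =
        φ (Additive.ofMul γ) + c x - c (hPerm l (γ : SL(2, ℤ)) x) := by
    intro x
    have hx := eis_entry hl γ x
    generalize hPerm l (γ : SL(2, ℤ)) x = y at hx ⊢
    induction x using OnePoint.rec with
    | infty =>
      induction y using OnePoint.rec with
      | infty =>
        have h1 : eisD M γ = eisD M (hElt hl γ OnePoint.infty) := by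
          simpa using hx
        have h2 := eis_congr φ hφ h1
        simp only [c, OnePoint.elim_infty]
        rw [← h2]
        abel
      | coe j =>
        have h1 : eisD M γ = eisD M (hElt hl γ OnePoint.infty * lam) := by
          rw [eisD_mul, hlam]
          simpa using hx
        have h2 := eis_congr φ hφ h1
        rw [ofMul_mul, map_add] at h2
        simp only [c, OnePoint.elim_infty, OnePoint.elim_some]
        rw [h2]
        abel
    | coe i =>
      induction y using OnePoint.rec with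
      | infty =>
        have h1 : eisD M (lam * γ) = eisD M (hElt hl γ (i : OnePoint (ZMod l))) := by
          rw [eisD_mul, hlam]
          simpa using hx
        have h2 := eis_congr φ hφ h1
        rw [ofMul_mul, map_add] at h2
        simp only [c, OnePoint.elim_infty, OnePoint.elim_some]
        rw [← h2]
        abel
      | coe j =>
        have h1 : eisD M (lam * γ) = eisD M (hElt hl γ (i : OnePoint (ZMod l)) * lam) := by
          rw [eisD_mul, eisD_mul, hlam]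
          simpa using hx
        have h2 := eis_congr φ hφ h1
        rw [ofMul_mul, map_add, ofMul_mul, map_add] at h2
        simp only [c, OnePoint.elim_some]
        have h3 : φ (Additive.ofMul (hElt hl γ (i : OnePoint (ZMod l)))) = φ (Additive.ofMul γ) := by
          have := h2
          rw [add_comm] at this
          exact (add_right_cancel this).symm
        rw [h3]
        abel
  rw [Finset.sum_congr rfl (fun x _ => key x)]
  rw [Finset.sum_sub_distrib, Finset.sum_add_distrib]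
  have hperm : ∑ x : OnePoint (ZMod l), c (hPerm l (γ : SL(2, ℤ)) x) = ∑ x, c x :=
    Equiv.sum_comp (hPerm l (γ : SL(2, ℤ))) c
  rw [hperm, add_sub_cancel_right, Finset.sum_const, Finset.card_univ]
  have hcard : Fintype.card (OnePoint (ZMod l)) = l + 1 := by
    have : NeZero l := ⟨(Fact.out : l.Prime).ne_zero⟩
    rw [show Fintype.card (OnePoint (ZMod l)) = Fintype.card (Option (ZMod l)) from
      Fintype.card_congr (Equiv.refl _), Fintype.card_option, ZMod.card]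
  rw [hcard]

end Fermat.Agent.S59.MFree.H941

end
-- ===== PACK-END S59/MFree/H941/Eisenstein.lean

-- ===== PACK-BEGIN S59/TW/H564/TwistCore.lean
section





/-!
# Twisting by a Dirichlet character: the matrix identities (helper564, row S59, leaf E4 TWIST)

`tr x` is the translation matrix `[1, x; 0, 1] ∈ GL₂(ℝ)`.  This file contains the identities in
`GL₂(ℝ)` behind the twist `f ↦ ∑_u ψ̄(u) f ∣ tr (u / q)`:

* `tr_mul_mapGL`      : `tr (u/q) · γ = γ' · tr (d² u / q)` for `γ ∈ SL₂(ℤ)` with `q² ∣ c`,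
                        where `γ'` has lower row `(c, d - (c/q) d² u)`;
* `tr_mul_heckeMatrix`, `tr_mul_heckeDiagMatrix` : commutation with the Hecke matrices;
* `tr_mul_tL_mul_tr`  : `tr (a/q) · [1,0;M,1] · tr (b/q) ∈ SL₂(ℤ)` (used for injectivity).
-/

set_option autoImplicit false

namespace Fermat.Agent.S59.TW.H564

open Matrix Matrix.SpecialLinearGroup CongruenceSubgroup UpperHalfPlane ModularForm
open Fermat.Agent.Lib.Newform.H803
open scoped MatrixGroups ModularForm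

variable {k : ℤ}

theorem mapGL_val_apply (g : SL(2, ℤ)) (i j : Fin 2) :
    ((mapGL ℝ g : GL (Fin 2) ℝ) : Matrix (Fin 2) (Fin 2) ℝ) i j = ((g i j : ℤ) : ℝ) := rfl

/-- The translation matrix `[1, x; 0, 1]`. -/
noncomputable def tr (x : ℝ) : GL (Fin 2) ℝ :=
  ModularForm.upperTriangularGL 1 x 1 (by norm_num)

@[simp] theorem val_tr (x : ℝ) :
    ((tr x : GL (Fin 2) ℝ) : Matrix (Fin 2) (Fin 2) ℝ) = !![1, x; 0, 1] := rfl

theorem tr_add (x y : ℝ) : tr (x + y) = tr x * tr y := by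
  apply Units.ext
  rw [Units.val_mul, val_tr, val_tr, val_tr]
  ext i j
  fin_cases i <;> fin_cases j <;> simp [Matrix.mul_apply, Fin.sum_univ_two]
  ring

theorem tr_zero : tr 0 = 1 := by
  apply Units.ext
  rw [val_tr]
  ext i j
  fin_cases i <;> fin_cases j <;> simp

theorem tr_intCast (n : ℤ) : tr (n : ℝ) = mapGL ℝ (tU n) := by
  apply Units.ext
  ext i j
  rw [mapGL_val_apply, val_tr]
  fin_cases i <;> fin_cases j <;> simp [tU]

theorem det_tr (x : ℝ) : ((tr x).det : ℝ) = 1 := by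
  rw [Matrix.GeneralLinearGroup.val_det_apply, val_tr, Matrix.det_fin_two_of]
  ring

theorem det_tr_pos (x : ℝ) : 0 < ((tr x).det : ℝ) := by
  rw [det_tr]; exact one_pos

theorem σ_tr (x : ℝ) : UpperHalfPlane.σ (tr x) = .refl ℝ ℂ := by
  rw [UpperHalfPlane.σ, if_pos (det_tr_pos x)]

theorem smul_slash_tr (c : ℂ) (f : ℍ → ℂ) (x : ℝ) :
    (c • f) ∣[k] tr x = c • f ∣[k] tr x := by
  rw [ModularForm.smul_slash, σ_tr]
  rfl

theorem smul_slash_heckeMatrix (c : ℂ) (f : ℍ → ℂ) (p j : ℕ) :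
    (c • f) ∣[k] heckeMatrix p j = c • f ∣[k] heckeMatrix p j := by
  rw [ModularForm.smul_slash, σ_heckeMatrix]
  rfl

theorem smul_slash_heckeDiagMatrix (c : ℂ) (f : ℍ → ℂ) (p : ℕ) :
    (c • f) ∣[k] heckeDiagMatrix p = c • f ∣[k] heckeDiagMatrix p := by
  rw [ModularForm.smul_slash, σ_heckeDiagMatrix]
  rfl

theorem slash_tr_add (f : ℍ → ℂ) (x y : ℝ) :
    f ∣[k] tr (x + y) = (f ∣[k] tr x) ∣[k] tr y := by
  rw [tr_add, SlashAction.slash_mul]

theorem slash_tr_intCast (f : ℍ → ℂ) (n : ℤ) : f ∣[k] tr (n : ℝ) = f ∣[k] tU n := by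
  rw [tr_intCast]; rfl

/-- The matrix `γ'` with `tr (u/q) γ = γ' tr (d² u / q)`; here `c = q² c₂`. -/
def conjMat (γ : SL(2, ℤ)) (q c₂ u : ℤ) (hc : γ 1 0 = q ^ 2 * c₂) : SL(2, ℤ) :=
  ⟨!![γ 0 0 + q * c₂ * u,
      γ 0 1 - γ 1 1 * u * γ 0 1 * (q * c₂) - c₂ * γ 1 1 ^ 2 * u ^ 2;
      γ 1 0, γ 1 1 - q * c₂ * γ 1 1 ^ 2 * u], by
    rw [Matrix.det_fin_two_of]
    have hdet := det_eq_one' γ
    rw [hc] at hdet ⊢
    linear_combination (1 - q * c₂ * u * γ 1 1) * hdet⟩

theorem conjMat_apply_10 (γ : SL(2, ℤ)) (q c₂ u : ℤ) (hc : γ 1 0 = q ^ 2 * c₂) :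
    conjMat γ q c₂ u hc 1 0 = γ 1 0 := rfl

theorem conjMat_apply_11 (γ : SL(2, ℤ)) (q c₂ u : ℤ) (hc : γ 1 0 = q ^ 2 * c₂) :
    conjMat γ q c₂ u hc 1 1 = γ 1 1 - q * c₂ * γ 1 1 ^ 2 * u := rfl

/-- `tr (u/q) · γ = γ' · tr (d² u / q)`. -/
theorem tr_mul_mapGL (γ : SL(2, ℤ)) {q : ℤ} (hq : q ≠ 0) (c₂ u : ℤ)
    (hc : γ 1 0 = q ^ 2 * c₂) :
    tr ((u : ℝ) / q) * mapGL ℝ γ =
      mapGL ℝ (conjMat γ q c₂ u hc) * tr (((γ 1 1 ^ 2 * u : ℤ) : ℝ) / q) := by
  apply Units.ext
  have hq' : (q : ℝ) ≠ 0 := by exact_mod_cast hq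
  have hc' : ((γ 1 0 : ℤ) : ℝ) = (q : ℝ) ^ 2 * c₂ := by exact_mod_cast hc
  have hdet : ((γ 0 0 : ℤ) : ℝ) * (γ 1 1 : ℤ) - (γ 0 1 : ℤ) * ((q : ℝ) ^ 2 * c₂) = 1 := by
    have := det_eq_one' γ
    rw [hc] at this
    exact_mod_cast this
  have e00 : conjMat γ q c₂ u hc 0 0 = γ 0 0 + q * c₂ * u := rfl
  have e01 : conjMat γ q c₂ u hc 0 1 =
      γ 0 1 - γ 1 1 * u * γ 0 1 * (q * c₂) - c₂ * γ 1 1 ^ 2 * u ^ 2 := rfl
  have e10 : conjMat γ q c₂ u hc 1 0 = γ 1 0 := rfl
  have e11 : conjMat γ q c₂ u hc 1 1 = γ 1 1 - q * c₂ * γ 1 1 ^ 2 * u := rfl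
  ext i j
  rw [Units.val_mul, Units.val_mul, Matrix.mul_apply, Matrix.mul_apply, Fin.sum_univ_two,
    Fin.sum_univ_two]
  simp only [mapGL_val_apply, val_tr]
  fin_cases i <;> fin_cases j
  · simp [e00, hc']
    field_simp
  · simp [e00, e01]
    field_simp
    linear_combination (-(γ 1 1 : ℝ) * u) * hdet
  · simp [e10]
  · simp [e10, e11, hc']
    field_simp
    ring

/-- `tr x · [1, j; 0, p] = [1, j; 0, p] · tr (p x)`. -/
theorem tr_mul_heckeMatrix {p : ℕ} (hp : p ≠ 0) (j : ℕ) (x : ℝ) :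
    tr x * heckeMatrix p j = heckeMatrix p j * tr (p * x) := by
  apply Units.ext
  rw [Units.val_mul, Units.val_mul, val_tr, val_tr, val_heckeMatrix hp]
  ext i j
  fin_cases i <;> fin_cases j <;> simp [Matrix.mul_apply, Fin.sum_univ_two]
  ring

/-- `tr (p y) · [p, 0; 0, 1] = [p, 0; 0, 1] · tr y`. -/
theorem tr_mul_heckeDiagMatrix {p : ℕ} (hp : p ≠ 0) (y : ℝ) :
    tr (p * y) * heckeDiagMatrix p = heckeDiagMatrix p * tr y := by
  apply Units.ext
  rw [Units.val_mul, Units.val_mul, val_tr, val_tr, val_heckeDiagMatrix hp]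
  ext i j
  fin_cases i <;> fin_cases j <;> simp [Matrix.mul_apply, Fin.sum_univ_two]

/-- The integral matrix `tr (a/q) · [1,0;M,1] · tr (b/q)`, when `q e = a + b + a b M'`,
`M = M' q`. -/
def sandwich (M' q a b e : ℤ) (he : q * e = a + b + a * b * M') : SL(2, ℤ) :=
  ⟨!![1 + a * M', e; M' * q, 1 + b * M'], by
    rw [Matrix.det_fin_two_of]
    linear_combination (-M') * he⟩

theorem sandwich_apply_10 (M' q a b e : ℤ) (he : q * e = a + b + a * b * M') :
    sandwich M' q a b e he 1 0 = M' * q := rfl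

theorem sandwich_apply_11 (M' q a b e : ℤ) (he : q * e = a + b + a * b * M') :
    sandwich M' q a b e he 1 1 = 1 + b * M' := rfl

theorem tr_mul_tL_mul_tr {M' q : ℤ} (hq : q ≠ 0) (a b e : ℤ)
    (he : q * e = a + b + a * b * M') :
    tr ((a : ℝ) / q) * mapGL ℝ (tL (M' * q)) * tr ((b : ℝ) / q) =
      mapGL ℝ (sandwich M' q a b e he) := by
  apply Units.ext
  have hq' : (q : ℝ) ≠ 0 := by exact_mod_cast hq
  have he' : (q : ℝ) * e = a + b + a * b * M' := by exact_mod_cast he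
  have e00 : sandwich M' q a b e he 0 0 = 1 + a * M' := rfl
  have e01 : sandwich M' q a b e he 0 1 = e := rfl
  have e10 : sandwich M' q a b e he 1 0 = M' * q := rfl
  have e11 : sandwich M' q a b e he 1 1 = 1 + b * M' := rfl
  have t00 : tL (M' * q) 0 0 = 1 := rfl
  have t01 : tL (M' * q) 0 1 = 0 := rfl
  have t10 : tL (M' * q) 1 0 = M' * q := rfl
  have t11 : tL (M' * q) 1 1 = 1 := rfl
  ext i j
  rw [Units.val_mul, Units.val_mul, Matrix.mul_apply, Fin.sum_univ_two, Matrix.mul_apply,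
    Matrix.mul_apply, Fin.sum_univ_two, Fin.sum_univ_two]
  simp only [mapGL_val_apply, val_tr]
  fin_cases i <;> fin_cases j
  · simp [e00, t00, t10]
    field_simp
  · simp [e01, t00, t01, t10, t11]
    field_simp
    linear_combination -he'
  · simp [e10, t00, t10]
  · simp [e11, t00, t01, t10, t11]
    field_simp
    ring

end Fermat.Agent.S59.TW.H564

end
-- ===== PACK-END S59/TW/H564/TwistCore.lean

-- ===== PACK-BEGIN S48/H548/Chi0Prod.lean
section


/-!
# S48 / RES piece CHI0 (helper548): nebentypus, products of forms of levels `N` and `L`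

* `HasNeb χ f k` : `f ∣[k] γ = χ(γ₁₁) • f` for `γ ∈ Γ₀(N)`;
* `mulCusp h E : CuspForm (Gamma1 (N * L)) (k₁ + k₂)` for `h : CuspForm (Gamma1 N) k₁`,
  `E : ModularForm (Gamma1 L) k₂`, with its `q`-expansion (Cauchy product) and nebentypus.
-/

set_option autoImplicit false
set_option linter.unusedSectionVars false
set_option linter.deprecated false

noncomputable section

namespace Fermat.Agent.S48.H548

open Matrix.SpecialLinearGroup UpperHalfPlane ModularForm CongruenceSubgroup ModularFormClass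
open scoped MatrixGroups ModularForm OnePoint Manifold

/-! ### Nebentypus -/

/-- `f` has nebentypus `χ` (a function on `ZMod N`) in weight `k`. -/
def HasNeb {N : ℕ} (χ : ZMod N → ℂ) (f : ℍ → ℂ) (k : ℤ) : Prop :=
  ∀ γ ∈ Gamma0 N, f ∣[k] mapGL ℝ γ = χ ((γ 1 1 : ℤ) : ZMod N) • f

section Neb

variable {N : ℕ} {k : ℤ} {χ : ZMod N → ℂ} {f g : ℍ → ℂ}

theorem HasNeb.zero : HasNeb χ (0 : ℍ → ℂ) k := fun γ _ ↦ by
  rw [SlashAction.zero_slash, smul_zero]

theorem HasNeb.add (hf : HasNeb χ f k) (hg : HasNeb χ g k) : HasNeb χ (f + g) k := fun γ hγ ↦ by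
  rw [SlashAction.add_slash, hf γ hγ, hg γ hγ, smul_add]

theorem HasNeb.neg (hf : HasNeb χ f k) : HasNeb χ (-f) k := fun γ hγ ↦ by
  rw [SlashAction.neg_slash, hf γ hγ, smul_neg]

theorem HasNeb.smul (c : ℂ) (hf : HasNeb χ f k) : HasNeb χ (c • f) k := fun γ hγ ↦ by
  rw [smul_slash_mapGL, hf γ hγ, smul_comm]

/-- A function with nebentypus `χ`, `χ 1 = 1`, is `Γ₁(N)`-invariant. -/
theorem HasNeb.inv1 (hχ : χ 1 = 1) (hf : HasNeb χ f k) : Inv1 N k f := fun γ hγ ↦ by
  rw [hf γ (Gamma1_le_Gamma0' N hγ), ((Gamma1_mem N γ).mp hγ).2.1, hχ, one_smul]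

end Neb

/-! ### Change of level -/

section Level

variable (N L : ℕ)

theorem intCast_eq_of_mul_left {a b : ℤ} (h : ((a : ℤ) : ZMod (N * L)) = ((b : ℤ) : ZMod (N * L))) :
    ((a : ℤ) : ZMod N) = ((b : ℤ) : ZMod N) := by
  have := congrArg (ZMod.castHom (dvd_mul_right N L) (ZMod N)) h
  simpa using this

theorem intCast_eq_of_mul_right {a b : ℤ}
    (h : ((a : ℤ) : ZMod (N * L)) = ((b : ℤ) : ZMod (N * L))) :
    ((a : ℤ) : ZMod L) = ((b : ℤ) : ZMod L) := by
  have := congrArg (ZMod.castHom (dvd_mul_left L N) (ZMod L)) h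
  simpa using this

theorem Gamma1_mul_le_left : Gamma1 (N * L) ≤ Gamma1 N := fun g hg ↦ by
  rw [Gamma1_mem] at hg ⊢
  exact ⟨by simpa using intCast_eq_of_mul_left N L (a := g 0 0) (b := 1) (by simpa using hg.1),
    by simpa using intCast_eq_of_mul_left N L (a := g 1 1) (b := 1) (by simpa using hg.2.1),
    by simpa using intCast_eq_of_mul_left N L (a := g 1 0) (b := 0) (by simpa using hg.2.2)⟩

theorem Gamma1_mul_le_right : Gamma1 (N * L) ≤ Gamma1 L := fun g hg ↦ by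
  rw [Gamma1_mem] at hg ⊢
  exact ⟨by simpa using intCast_eq_of_mul_right N L (a := g 0 0) (b := 1) (by simpa using hg.1),
    by simpa using intCast_eq_of_mul_right N L (a := g 1 1) (b := 1) (by simpa using hg.2.1),
    by simpa using intCast_eq_of_mul_right N L (a := g 1 0) (b := 0) (by simpa using hg.2.2)⟩

theorem Gamma0_mul_le_left : Gamma0 (N * L) ≤ Gamma0 N := fun g hg ↦ by
  rw [Gamma0_mem] at hg ⊢
  simpa using intCast_eq_of_mul_left N L (a := g 1 0) (b := 0) (by simpa using hg)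

theorem Gamma0_mul_le_right : Gamma0 (N * L) ≤ Gamma0 L := fun g hg ↦ by
  rw [Gamma0_mem] at hg ⊢
  simpa using intCast_eq_of_mul_right N L (a := g 1 0) (b := 0) (by simpa using hg)

end Level

/-! ### Products -/

section Prod

variable {N L : ℕ} {k₁ k₂ : ℤ}

theorem mul_slash_mapGL (k₁ k₂ : ℤ) (γ : SL(2, ℤ)) (f g : ℍ → ℂ) :
    (f * g) ∣[k₁ + k₂] mapGL ℝ γ = (f ∣[k₁] mapGL ℝ γ) * (g ∣[k₂] mapGL ℝ γ) := by
  have := ModularForm.mul_slash_SL2 k₁ k₂ γ f g
  rwa [ModularForm.SL_slash, ModularForm.SL_slash, ModularForm.SL_slash] at this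

/-- The product of nebentypus characters of levels `N` and `L`, as a function on `ZMod (N * L)`. -/
def mulChar (χ₁ : ZMod N → ℂ) (χ₂ : ZMod L → ℂ) : ZMod (N * L) → ℂ := fun x ↦
  χ₁ (ZMod.castHom (dvd_mul_right N L) (ZMod N) x) *
    χ₂ (ZMod.castHom (dvd_mul_left L N) (ZMod L) x)

theorem mulChar_intCast (χ₁ : ZMod N → ℂ) (χ₂ : ZMod L → ℂ) (a : ℤ) :
    mulChar χ₁ χ₂ (a : ZMod (N * L)) = χ₁ (a : ZMod N) * χ₂ (a : ZMod L) := by
  simp [mulChar]

theorem mulChar_natCast (χ₁ : ZMod N → ℂ) (χ₂ : ZMod L → ℂ) (a : ℕ) :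
    mulChar χ₁ χ₂ (a : ZMod (N * L)) = χ₁ (a : ZMod N) * χ₂ (a : ZMod L) := by
  simp [mulChar]

theorem HasNeb.mul {χ₁ : ZMod N → ℂ} {χ₂ : ZMod L → ℂ} {f g : ℍ → ℂ}
    (hf : HasNeb χ₁ f k₁) (hg : HasNeb χ₂ g k₂) :
    HasNeb (mulChar χ₁ χ₂) (f * g) (k₁ + k₂) := fun γ hγ ↦ by
  rw [mul_slash_mapGL, hf γ (Gamma0_mul_le_left N L hγ), hg γ (Gamma0_mul_le_right N L hγ),
    mulChar_intCast, smul_mul_smul_comm]

theorem Inv1.mul {f g : ℍ → ℂ} (hf : Inv1 N k₁ f) (hg : Inv1 L k₂ g) :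
    Inv1 (N * L) (k₁ + k₂) (f * g) := fun γ hγ ↦ by
  rw [mul_slash_mapGL, hf γ (Gamma1_mul_le_left N L hγ), hg γ (Gamma1_mul_le_right N L hγ)]

variable [NeZero N] [NeZero L]

theorem coe_inv1' (E : ModularForm (Gamma1 L) k₂) : Inv1 L k₂ ⇑E := fun γ hγ ↦
  SlashInvariantFormClass.slash_action_eq E _ (Subgroup.mem_map_of_mem (mapGL ℝ) hγ)

theorem coe_nice' (E : ModularForm (Gamma1 L) k₂) : Nice (⇑E : ℍ → ℂ) where
  per := SlashInvariantFormClass.periodic_comp_ofComplex E (one_mem_strictPeriods_Gamma1 L)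
  hol := ModularFormClass.holo E
  bdd := ModularFormClass.bdd_at_infty E

instance neZero_mul548 : NeZero (N * L) := ⟨Nat.mul_ne_zero (NeZero.ne N) (NeZero.ne L)⟩

theorem isCusp_of_isCusp_mul {c : OnePoint ℝ} (M M' : ℕ) [NeZero M] [NeZero M']
    (hc : IsCusp c ((Gamma1 M).map (mapGL ℝ))) : IsCusp c ((Gamma1 M').map (mapGL ℝ)) := by
  rw [Subgroup.IsArithmetic.isCusp_iff_isCusp_SL2Z] at hc ⊢
  exact hc

/-- The product of a cusp form of level `Γ₁(N)` and a modular form of level `Γ₁(L)`, as a cusp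
form of level `Γ₁(N L)`. -/
def mulCusp (h : CuspForm (Gamma1 N) k₁) (E : ModularForm (Gamma1 L) k₂) :
    CuspForm (Gamma1 (N * L)) (k₁ + k₂) :=
  mkCusp (⇑h * ⇑E) ((coe_inv1 h).mul (coe_inv1' E))
    ((ModularFormClass.holo h).mul (ModularFormClass.holo E))
    (fun {c} hc ↦ by
      have hc1 : IsCusp c ((Gamma1 N).map (mapGL ℝ)) := isCusp_of_isCusp_mul (N * L) N hc
      have hc2 : IsCusp c ((Gamma1 L).map (mapGL ℝ)) := isCusp_of_isCusp_mul (N * L) L hc
      have hz : c.IsZeroAt (⇑h) k₁ := CuspFormClass.zero_at_cusps h hc1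
      have hb : c.IsBoundedAt (⇑E) k₂ := ModularFormClass.bdd_at_cusps E hc2
      have hcSL : IsCusp c 𝒮ℒ := by
        rwa [Subgroup.IsArithmetic.isCusp_iff_isCusp_SL2Z] at hc
      obtain ⟨γ, hγ⟩ := isCusp_SL2Z_iff'.mp hcSL
      rw [OnePoint.isZeroAt_iff hγ.symm, mul_slash_mapGL]
      exact (hz _ hγ.symm).mul_boundedAtFilter (hb _ hγ.symm))

@[simp] theorem coe_mulCusp (h : CuspForm (Gamma1 N) k₁) (E : ModularForm (Gamma1 L) k₂) :
    (⇑(mulCusp h E) : ℍ → ℂ) = ⇑h * ⇑E := rfl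

theorem qCoeff_mulCusp (h : CuspForm (Gamma1 N) k₁) (E : ModularForm (Gamma1 L) k₂) (n : ℕ) :
    qCoeff (⇑(mulCusp h E) : ℍ → ℂ) n =
      ∑ x ∈ Finset.HasAntidiagonal.antidiagonal n,
        qCoeff (⇑h : ℍ → ℂ) x.1 * qCoeff (⇑E : ℍ → ℂ) x.2 := by
  unfold qCoeff
  rw [coe_mulCusp, qExpansion_mul (coe_nice h).analyticAt (coe_nice' E).analyticAt,
    PowerSeries.coeff_mul]

theorem hasNeb_mulCusp {χ₁ : ZMod N → ℂ} {χ₂ : ZMod L → ℂ} (h : CuspForm (Gamma1 N) k₁)
    (E : ModularForm (Gamma1 L) k₂) (hh : HasNeb χ₁ ⇑h k₁) (hE : HasNeb χ₂ ⇑E k₂) :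
    HasNeb (mulChar χ₁ χ₂) (⇑(mulCusp h E)) (k₁ + k₂) :=
  hh.mul hE

end Prod

end Fermat.Agent.S48.H548

end
end
-- ===== PACK-END S48/H548/Chi0Prod.lean

-- ===== PACK-BEGIN S59/TW/H653/Cross/General.lean
section




/-!
# S59 / TW-HECKE (helper653), block CROSS: operators of coset systems and change of group

Abstract setting: groups `Γ' → Γ` (a homomorphism `c` realised by conjugation by `d ∈ 𝒢`,
`d * ι' g = ι (c g) * d`), ONE family of representatives `ρ : I → 𝒢` which is a coset system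
for `Γ` and for `Γ'`.

* `transfer_comp_hom` : the operator of `ρ` commutes with the pull-back along `c`;
* `transfer_transferAlong` : the operator of `ρ` commutes with the transfer along `c`
  (`c` injective with range of finite index).

Hypotheses: (H1) the conjugated representatives `d ρ_y d⁻¹` are representatives up to `Γ`;
(H2) a separation property.  This is the argument of `S41.H761.heckeTransfer_transferAlong`
(`Γ₀`-levels, `heckeRep`) for arbitrary groups and representatives.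
-/

set_option autoImplicit false

namespace Fermat.Agent.S59.TW.H653.Cross

open Fermat.Agent.S41.Spec Fermat.Agent.S41.H761

variable {𝒢 Γ Γ' : Type*} [Group 𝒢] [Group Γ] [Group Γ'] {ι : Γ →* 𝒢} {ι' : Γ' →* 𝒢}
  {I : Type*} [Fintype I] {ρ : I → 𝒢} {A : Type*} [AddCommGroup A]

/-- **Pull-back.**  The operator of `ρ` commutes with `φ ↦ φ ∘ c`. -/
theorem transfer_comp_hom (hι : Function.Injective ι) (sys : IsCosetSystem ι ι ρ)
    (sys' : IsCosetSystem ι' ι' ρ) (c : Γ' →* Γ) (d : 𝒢)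
    (hd : ∀ g : Γ', d * ι' g = ι (c g) * d)
    (H1 : ∀ y : I, ∃ (u : Γ) (y' : I), d * ρ y * d⁻¹ = ι u * ρ y')
    (H2 : ∀ (y y' : I) (m : Γ), d * ρ y = ι m * (d * ρ y') → y = y')
    (φ : Additive Γ →+ A) :
    sys'.transfer (φ.comp (MonoidHom.toAdditive c)) =
      (sys.transfer φ).comp (MonoidHom.toAdditive c) := by
  classical
  have S := IsCosetSystem.single (ι := ι) (ι' := ι') hι c d hd
  have famA : IsCosetSystem ι ι' (fun x : I × Unit => ρ x.1 * d) :=
    sys.prod S (by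
      intro i i' _ _ g e
      refine ⟨sys.eq_of_mul i i' g ?_, rfl⟩
      have e' : ρ i * d = ι g * ρ i' * d := by rw [e, mul_assoc]
      exact mul_right_cancel e')
  have famB : IsCosetSystem ι ι' (fun x : Unit × I => d * ρ x.2) :=
    S.prod sys' (by
      intro _ _ j j' g e
      exact ⟨rfl, H2 j j' g e⟩)
  have h1 : sys'.transfer (φ.comp (MonoidHom.toAdditive c)) = famB.transfer φ := by
    rw [← IsCosetSystem.single_transfer hι c d hd φ]
    exact IsCosetSystem.transfer_comp S sys' famB φ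
  have h2 : (sys.transfer φ).comp (MonoidHom.toAdditive c) = famA.transfer φ := by
    rw [← IsCosetSystem.single_transfer hι c d hd (sys.transfer φ)]
    exact IsCosetSystem.transfer_comp sys S famA φ
  rw [h1, h2]
  refine IsCosetSystem.transfer_eq_of_le_of_card famB famA ?_ ?_ φ
  · rw [Fintype.card_prod, Fintype.card_prod, mul_comm]
  · rintro ⟨_, y⟩
    obtain ⟨u, y', hu⟩ := H1 y
    refine ⟨(y', ()), u, ?_⟩
    have : d * ρ y = (d * ρ y * d⁻¹) * d := by rw [inv_mul_cancel_right]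
    rw [this, hu, mul_assoc]

/-- **Transfer.**  The operator of `ρ` commutes with the transfer along `f`. -/
theorem transfer_transferAlong (hι : Function.Injective ι) (sys : IsCosetSystem ι ι ρ)
    (sys' : IsCosetSystem ι' ι' ρ) (f : Γ' →* Γ) (hf : Function.Injective f)
    [f.range.FiniteIndex] (d : 𝒢)
    (hd : ∀ g : Γ', d * ι' g = (ι.comp f) g * d)
    (H1 : ∀ y : I, ∃ (u : Γ) (y' : I), d * ρ y * d⁻¹ = ι u * ρ y')
    (H2 : ∀ (y y' : I) (m : Γ) (g : Γ') (Q : 𝒢),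
      d * Q = ι m * d → ρ y * Q = ι' g * ρ y' → m ∈ f.range)
    (ψ : Additive Γ' →+ A) :
    sys.transfer (transferAlong f ψ) = transferAlong f (sys'.transfer ψ) := by
  classical
  let _ : Fintype (Γ ⧸ f.range) := f.range.fintypeQuotientOfFiniteIndex
  have sysT' := sys'.conj d hd hd
  have sysTr := IsCosetSystem.ofTransfer f hf ι hι
  -- family A
  have famA := sysTr.prod sys (by
    intro x x' y y' g e
    have e2 : ρ y = ι (x.out * f g * (x'.out)⁻¹) * ρ y' := by
      have h1 : ρ y = ι x.out * (ι (x.out)⁻¹ * ρ y) := by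
        rw [map_inv, mul_inv_cancel_left]
      rw [h1, e]
      simp only [MonoidHom.comp_apply, map_mul, mul_assoc]
    have hy := sys.eq_of_mul _ _ _ e2
    subst hy
    have e3 : ι (x.out * f g * (x'.out)⁻¹) = 1 := by
      have h2 : ι (x.out * f g * (x'.out)⁻¹) * ρ y = 1 * ρ y := by
        rw [one_mul]; exact e2.symm
      exact mul_right_cancel h2
    have e4 : x.out * f g * (x'.out)⁻¹ = 1 := hι (e3.trans (map_one _).symm)
    have e5 : f g = (x.out)⁻¹ * x'.out := by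
      have := congrArg (fun t => (x.out)⁻¹ * t * x'.out) e4
      simpa [mul_assoc] using this
    have hmem : (x.out)⁻¹ * x'.out ∈ f.range := ⟨g, e5⟩
    have h3 := QuotientGroup.eq.mpr hmem
    rw [QuotientGroup.out_eq', QuotientGroup.out_eq'] at h3
    exact ⟨h3, rfl⟩)
  -- family B
  have famB := sysT'.prod sysTr (by
    intro y y' x x' g e
    have hfg : (ι.comp f) g = d * ι' g * d⁻¹ := by
      rw [hd g, mul_inv_cancel_right]
    have hQ : ρ y * (d⁻¹ * ι ((x.out)⁻¹ * x'.out) * d) = ι' g * ρ y' := by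
      have e' := congrArg (fun t => d⁻¹ * t * (ι (x'.out)⁻¹)⁻¹ * d) e
      simp only [hfg, mul_assoc, inv_mul_cancel_left, inv_mul_cancel, mul_one, map_inv,
        inv_inv] at e'
      simp only [map_mul, map_inv, mul_assoc]
      exact e'
    have hmem := H2 y y' ((x.out)⁻¹ * x'.out) g (d⁻¹ * ι ((x.out)⁻¹ * x'.out) * d)
      (by simp only [mul_assoc, mul_inv_cancel_left]) hQ
    have hx : x = x' := by
      have h3 := QuotientGroup.eq.mpr hmem
      rwa [QuotientGroup.out_eq', QuotientGroup.out_eq'] at h3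
    subst hx
    refine ⟨?_, rfl⟩
    have e2 := mul_right_cancel (e.trans (mul_assoc _ _ _).symm)
    exact sysT'.eq_of_mul _ _ _ e2)
  rw [transferAlong_eq f hf ι hι, transferAlong_eq f hf ι hι,
    ← IsCosetSystem.conj_transfer sys' d hd hd]
  rw [IsCosetSystem.transfer_comp sysTr sys famA, IsCosetSystem.transfer_comp sysT' sysTr famB]
  symm
  refine IsCosetSystem.transfer_eq_of_le_of_card famB famA ?_ ?_ ψ
  · rw [Fintype.card_prod, Fintype.card_prod, mul_comm]
  · rintro ⟨y, x⟩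
    obtain ⟨u, y₁, hu⟩ := H1 y
    set w : Γ := u * sys.coc y₁ (x.out)⁻¹ with hw
    have hmem : (w⁻¹)⁻¹ * ((w⁻¹ : Γ) : Γ ⧸ f.range).out ∈ f.range :=
      QuotientGroup.eq.mp (QuotientGroup.out_eq' _).symm
    obtain ⟨g, hg⟩ := hmem
    rw [inv_inv] at hg
    refine ⟨(((w⁻¹ : Γ) : Γ ⧸ f.range), sys.act y₁ (x.out)⁻¹), g, ?_⟩
    rw [hu, mul_assoc, sys.spec y₁ (x.out)⁻¹, MonoidHom.comp_apply, hg]
    simp only [map_mul, map_inv, mul_assoc, hw]
    rw [mul_inv_cancel_left]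

end Fermat.Agent.S59.TW.H653.Cross

end
-- ===== PACK-END S59/TW/H653/Cross/General.lean

-- ===== PACK-BEGIN S59/TW/H659/Clean/RelCore.lean
section
/-
Row S59 / HARD (helper659): REALIZER-FREE copy of `S32/H692/RelCore.lean` (helper692).

`S32/H692/RelCore.lean` imports `S31/H982/TracePow.lean`, one of the four modules which realize
`S31.powTr.eq_def`; the closure of `S31.lean`, `S34.lean` and `S59/G4/*` contains another one
(`S31/H22/PowTr.lean`), and a closure containing both fails the kernel checker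
(`coord/CI-realized-collisions-helper475.md`).  This copy proves the unfolding lemmas of `powTr`
by `rfl`, so it realizes nothing and can be imported together with ANY of the four families.

`rel_of_chebWeak659 : S30.H990.ChebWeak → S32.RelStatement`.
-/




set_option autoImplicit false

namespace Fermat.Agent.S59.TW.H659.Clean

open IsLocalRing Polynomial Fermat.Agent.S19 Fermat.Agent.S31

section PowTr

variable {R : Type*} [CommRing R]

theorem powTr_zero659 (a d : R) : powTr a d 0 = 2 := rfl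

theorem powTr_one659 (a d : R) : powTr a d 1 = a := rfl

theorem powTr_add_two659 (a d : R) (j : ℕ) :
    powTr a d (j + 2) = a * powTr a d (j + 1) - d * powTr a d j := rfl

/-- Ring homomorphisms commute with `powTr`. -/
theorem map_powTr659 {R' : Type*} [CommRing R'] (φ : R →+* R') (a d : R) (j : ℕ) :
    φ (powTr a d j) = powTr (φ a) (φ d) j := by
  induction j using Nat.strong_induction_on with
  | _ j ih =>
    match j, ih with
    | 0, _ => rw [powTr_zero659, powTr_zero659, map_ofNat]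
    | 1, _ => rw [powTr_one659, powTr_one659]
    | (j + 2), ih =>
      rw [powTr_add_two659, powTr_add_two659, map_sub, map_mul, map_mul, ih (j + 1) (by omega),
        ih j (by omega)]

variable {M : Type*} [AddCommGroup M] [Module R M] [Module.Free R M] [Module.Finite R M]

/-- The trace of an endomorphism is minus the next-to-leading coefficient of its characteristic
polynomial. -/
theorem trace_eq_neg_nextCoeff_charpoly659 (f : Module.End R M) :
    LinearMap.trace R M f = -f.charpoly.nextCoeff := by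
  classical
  let b := Module.Free.chooseBasis R M
  rw [LinearMap.trace_eq_matrix_trace R b, Matrix.trace_eq_neg_charpoly_nextCoeff,
    LinearMap.charpoly_toMatrix]

/-- Cayley–Hamilton in rank 2: the trace of `f ^ j` is `powTr a d j` if the characteristic
polynomial of `f` is `X ^ 2 - a X + d`. -/
theorem trace_pow_of_charpoly659 (hrk : Module.finrank R M = 2) (f : Module.End R M)
    (a d : R) (h : f.charpoly = X ^ 2 - C a * X + C d) (j : ℕ) :
    LinearMap.trace R M (f ^ j) = powTr a d j := by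
  rcases subsingleton_or_nontrivial R with hR | hR
  · exact Subsingleton.elim _ _
  have hCH : f ^ 2 = a • f - d • (1 : Module.End R M) := by
    have h1 := LinearMap.aeval_self_charpoly f
    rw [h] at h1
    simp only [map_add, map_sub, map_mul, map_pow, aeval_X, aeval_C] at h1
    rw [Algebra.algebraMap_eq_smul_one, Algebra.algebraMap_eq_smul_one] at h1
    rw [smul_mul_assoc, one_mul] at h1
    rw [← sub_eq_zero]
    rw [← h1]
    abel
  have htr1 : LinearMap.trace R M f = a := by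
    have hdeg : f.charpoly.natDegree = 2 := by
      rw [LinearMap.charpoly_natDegree, hrk]
    rw [trace_eq_neg_nextCoeff_charpoly659,
      nextCoeff_of_natDegree_pos (by rw [hdeg]; norm_num), hdeg, h]
    simp [coeff_C]
  induction j using Nat.strong_induction_on with
  | _ j ih =>
    match j, ih with
    | 0, _ =>
      rw [pow_zero, LinearMap.trace_one, hrk, powTr_zero659]
      norm_num
    | 1, _ => rw [pow_one, htr1, powTr_one659]
    | (j + 2), ih =>
      have hpow : f ^ (j + 2) = a • f ^ (j + 1) - d • f ^ j := by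
        rw [pow_add, hCH, mul_sub, mul_smul_comm, mul_smul_comm, mul_one, ← pow_succ]
      rw [hpow, map_sub, map_smul, map_smul, ih (j + 1) (by omega), ih j (by omega),
        powTr_add_two659, smul_eq_mul, smul_eq_mul]

end PowTr

section TraceCongr

/-- A linear map sends `I • ⊤` into `I • ⊤`. -/
theorem map_mem_smul_top659 {R M : Type*} [CommRing R] [AddCommGroup M] [Module R M]
    (I : Ideal R) (f : Module.End R M) {x : M} (hx : x ∈ I • (⊤ : Submodule R M)) :
    f x ∈ I • (⊤ : Submodule R M) := by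
  refine Submodule.smul_induction_on hx ?_ ?_
  · intro a ha w _
    rw [map_smul]
    exact Submodule.smul_mem_smul ha Submodule.mem_top
  · intro x y hx hy
    rw [map_add]
    exact Submodule.add_mem _ hx hy

/-- Coordinates of an element of `I • ⊤` lie in `I`. -/
theorem repr_mem_of_mem_smul_top659 {R M ι : Type*} [CommRing R] [AddCommGroup M] [Module R M]
    (b : Module.Basis ι R M) (I : Ideal R) {x : M} (hx : x ∈ I • (⊤ : Submodule R M)) (i : ι) :
    b.repr x i ∈ I := by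
  refine Submodule.smul_induction_on hx ?_ ?_
  · intro a ha w _
    rw [map_smul, Finsupp.smul_apply, smul_eq_mul]
    exact I.mul_mem_right _ ha
  · intro x y hx hy
    rw [map_add, Finsupp.add_apply]
    exact I.add_mem hx hy

/-- If an endomorphism of a finite free module has image in `I • ⊤`, its trace lies in `I`. -/
theorem trace_mem_of_forall_mem_smul_top659 {R M : Type*} [CommRing R] [AddCommGroup M]
    [Module R M] [Module.Free R M] [Module.Finite R M] (I : Ideal R) (f : Module.End R M)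
    (hf : ∀ v, f v ∈ I • (⊤ : Submodule R M)) : LinearMap.trace R M f ∈ I := by
  classical
  let b := Module.Free.chooseBasis R M
  rw [LinearMap.trace_eq_matrix_trace R b, Matrix.trace]
  refine I.sum_mem fun i _ => ?_
  rw [Matrix.diag_apply, LinearMap.toMatrix_apply]
  exact repr_mem_of_mem_smul_top659 b I (hf _) i

variable {A : Type} [CommRing A] [IsLocalRing A]

/-- Traces are locally constant modulo `m ^ n`. -/
theorem trace_congr_of_agree659 (ρ : GaloisRepAdic A) (n : ℕ) :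
    ∃ L : IntermediateField ℚ Fermat.Agent.S31.Qb, FiniteDimensional ℚ L ∧
      ∀ g g' : Fermat.Agent.S31.GQ, (∀ x ∈ L, g x = g' x) →
        ρ.trace g - ρ.trace g' ∈ IsLocalRing.maximalIdeal A ^ n := by
  obtain ⟨L, hL, h1⟩ := ρ.isAdicContinuous n
  refine ⟨L, hL, fun g g' hgg' => ?_⟩
  have hσ : ∀ x ∈ L, (g'⁻¹ * g) x = x := by
    intro x hx
    rw [AlgEquiv.mul_apply, hgg' x hx]
    exact g'.symm_apply_apply x
  have hg : g = g' * (g'⁻¹ * g) := by group
  have key : ∀ v, (ρ.ρ g - ρ.ρ g') v ∈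
      (IsLocalRing.maximalIdeal A ^ n) • (⊤ : Submodule A ρ.V) := by
    intro v
    have h2 : (ρ.ρ g - ρ.ρ g') v = ρ.ρ g' (ρ.ρ (g'⁻¹ * g) v - v) := by
      conv_lhs => rw [hg]
      rw [map_mul, LinearMap.sub_apply, Module.End.mul_apply, map_sub]
    rw [h2]
    exact map_mem_smul_top659 _ _ (h1 _ hσ v)
  have := trace_mem_of_forall_mem_smul_top659 _ _ key
  rwa [map_sub] at this

end TraceCongr

section Lucas

variable {R A : Type*} [CommRing R] [Ring A] [Algebra R A]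

/-- Explicit Lucas: if `h` satisfies `X² - aX + b`, then `h ^ j` satisfies
`X² - (powTr a b j) X + b ^ j`. -/
theorem lucas_powTr659 (h : A) (a b : R) (hrel : h * h - a • h + b • (1 : A) = 0) (j : ℕ) :
    h ^ j * h ^ j - powTr a b j • h ^ j + (b ^ j) • (1 : A) = 0 := by
  set k : A := a • (1 : A) - h with hk
  have hcomm : Commute h k := by
    have : Commute h (a • (1 : A)) := (Commute.one_right h).smul_right a
    exact this.sub_right (Commute.refl h)
  have hhk : h * k = b • (1 : A) := by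
    have : h * k = a • h - h * h := by
      rw [hk, mul_sub, mul_smul_comm, mul_one]
    rw [this]
    calc a • h - h * h = b • (1 : A) - (h * h - a • h + b • (1 : A)) := by abel
      _ = b • (1 : A) := by rw [hrel, sub_zero]
  have hsum : h + k = a • (1 : A) := by rw [hk]; abel
  have key : ∀ n : ℕ, h ^ n + k ^ n = powTr a b n • (1 : A) := by
    intro n
    induction n using Nat.strong_induction_on with
    | _ n ih =>
      match n, ih with
      | 0, _ => rw [pow_zero, pow_zero, powTr_zero659, two_smul]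
      | 1, _ => rw [pow_one, pow_one, powTr_one659, hsum]
      | (n + 2), ih =>
        have h1 := ih (n + 1) (by omega)
        have h0 := ih n (by omega)
        have e1 : h ^ (n + 1 + 1) + k ^ (n + 1 + 1)
            = (h + k) * (h ^ (n + 1) + k ^ (n + 1)) - (h * k) * (h ^ n + k ^ n) := by
          have c1 : k * h ^ (n + 1) = (h * k) * h ^ n := by
            rw [pow_succ', ← mul_assoc, hcomm.eq]
          have c2 : h * k ^ (n + 1) = (h * k) * k ^ n := by
            rw [pow_succ', ← mul_assoc]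
          rw [add_mul, mul_add, mul_add, mul_add, c1, c2, pow_succ' h (n + 1),
            pow_succ' k (n + 1)]
          abel
        rw [e1, hsum, hhk, h1, h0, powTr_add_two659]
        simp only [mul_smul_comm, mul_one, smul_smul, sub_smul]
        rw [mul_comm (powTr a b (n + 1)) a, mul_comm (powTr a b n) b]
  have hprod : h ^ j * k ^ j = (b ^ j) • (1 : A) := by
    rw [← hcomm.mul_pow, hhk, _root_.smul_pow, one_pow]
  have : h ^ j * h ^ j - powTr a b j • h ^ j + (b ^ j) • (1 : A)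
      = h ^ j * (h ^ j + k ^ j - powTr a b j • (1 : A)) := by
    rw [mul_sub, mul_add, hprod, mul_smul_comm, mul_one]
    abel
  rw [this, key j, sub_self, mul_zero]

end Lucas

section Local

/-- A local homomorphism maps `𝔪 ^ n` into `𝔪 ^ n`. -/
theorem map_mem_maximalIdeal_pow659 {T O : Type*} [CommRing T] [IsLocalRing T] [CommRing O]
    [IsLocalRing O] (χ : T →+* O) [IsLocalHom χ] (n : ℕ) {t : T}
    (ht : t ∈ maximalIdeal T ^ n) : χ t ∈ maximalIdeal O ^ n := by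
  have hmap : (maximalIdeal T ^ n).map χ ≤ maximalIdeal O ^ n := by
    rw [Ideal.map_pow]
    exact Ideal.pow_right_mono (Ideal.map_le_iff_le_comap.mpr fun a ha =>
      Ideal.mem_comap.mpr (map_nonunit χ a ha)) n
  exact hmap (Ideal.mem_map_of_mem χ ht)

end Local

section Main

set_option maxHeartbeats 1000000 in
/-- **REL modulo `𝔪 ^ n`.** -/
theorem rel_mod659 (hcheb : Fermat.Agent.S30.H990.ChebWeak)
    {p : ℕ} {N : ℕ} [NeZero N] {S : Finset ℕ}
    (hNS : ∀ q : ℕ, q.Prime → q ∣ N → q ∈ S)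
    {𝒪 : Type} [CommRing 𝒪] [IsDomain 𝒪] [IsDiscreteValuationRing 𝒪]
    [IsAdicComplete (maximalIdeal 𝒪) 𝒪]
    {θ : CuspForm.heckeAlgebra N 2 (↑S : Set ℕ) →+* ResidueField 𝒪}
    {T : Type} [CommRing T] [IsLocalRing T] [IsNoetherianRing T]
    [IsAdicComplete (maximalIdeal T) T] [Algebra 𝒪 T] [IsLocalHom (algebraMap 𝒪 T)]
    [Module.Finite 𝒪 T] [Module.Free 𝒪 T]
    (H : CuspForm.HeckeGaloisRepDatum N (↑S : Set ℕ) 𝒪 θ T)
    (P : PadicPoint p T) (hloc : IsLocalHom P.χ)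
    (E : Fermat.Agent.S30.H990.AdicEigenModule p N S P.O (P.χ.comp H.π)) (g : GalQ)
    (n : ℕ) (v : E.M) :
    E.ρ g (E.ρ g v) - P.χ (H.ρ.trace g) • E.ρ g v + P.χ ((H.ρ.det g : Tˣ) : T) • v
      ∈ (maximalIdeal P.O ^ n) • (⊤ : Submodule P.O E.M) := by
  have hlocI : IsLocalHom P.χ := hloc
  -- levels
  obtain ⟨L₁, hL₁fin, hL₁⟩ := E.cont n
  obtain ⟨L₂, hL₂fin, hL₂⟩ := trace_congr_of_agree659 H.ρ n
  obtain ⟨L₃, hL₃fin, hL₃⟩ := H.ρ.isAdicContinuous n
  have hf₁ : FiniteDimensional ℚ L₁ := hL₁fin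
  have hf₂ : FiniteDimensional ℚ L₂ := hL₂fin
  have hf₃ : FiniteDimensional ℚ L₃ := hL₃fin
  have h12 : FiniteDimensional ℚ ↥(L₁ ⊔ L₂) := IntermediateField.finiteDimensional_sup L₁ L₂
  have hLfin : FiniteDimensional ℚ ↥(L₁ ⊔ L₂ ⊔ L₃) :=
    IntermediateField.finiteDimensional_sup (L₁ ⊔ L₂) L₃
  have hle₁ : L₁ ≤ L₁ ⊔ L₂ ⊔ L₃ := le_sup_left.trans le_sup_left
  have hle₂ : L₂ ≤ L₁ ⊔ L₂ ⊔ L₃ := le_sup_right.trans le_sup_left
  have hle₃ : L₃ ≤ L₁ ⊔ L₂ ⊔ L₃ := le_sup_right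
  obtain ⟨ℓ, hℓ, hℓS, A, hA, τ, hτ, j, hj⟩ := hcheb (L₁ ⊔ L₂ ⊔ L₃) hLfin g S
  have hℓN : ¬ ℓ ∣ N := fun h => hℓS (hNS ℓ hℓ h)
  have hℓS' : ℓ ∉ (↑S : Set ℕ) := fun h => hℓS (Finset.mem_coe.mp h)
  -- `g = τ ^ j * σ` with `σ` fixing the level
  obtain ⟨σ, hg⟩ : ∃ σ : GalQ, g = τ ^ j * σ :=
    ⟨(τ ^ j)⁻¹ * g, (mul_inv_cancel_left (τ ^ j) g).symm⟩
  have hσfix : ∀ x ∈ L₁ ⊔ L₂ ⊔ L₃, σ x = x := by
    intro x hx
    have h1 : (τ ^ j) (σ x) = (τ ^ j) x := by
      rw [← hj x hx]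
      exact (congrArg (fun f : GalQ => f x) hg).symm
    exact (τ ^ j).injective h1
  -- the eigenmodule side
  have hs : ∀ w : E.M, E.ρ σ w - w ∈ (maximalIdeal P.O ^ n) • (⊤ : Submodule P.O E.M) :=
    hL₁ σ (fun x hx => hσfix x (hle₁ hx))
  have hfrob := E.frob ℓ hℓ hℓN hℓS' A hA τ hτ
  obtain ⟨a₀, ha₀⟩ : ∃ a₀ : P.O, a₀ = P.χ (H.π (CuspForm.heckeAlgebra.T hℓ hℓN hℓS')) :=
    ⟨_, rfl⟩
  have hfrob' : E.ρ τ * E.ρ τ - a₀ • E.ρ τ + (ℓ : P.O) • (1 : Module.End P.O E.M) = 0 := by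
    rw [ha₀]; exact hfrob
  have hluc := lucas_powTr659 (E.ρ τ) a₀ (ℓ : P.O) hfrob' j
  have key := Fermat.Agent.S30.H990.rel_mod_of_mul (maximalIdeal P.O ^ n) (E.ρ τ ^ j) (E.ρ σ)
    (powTr a₀ (ℓ : P.O) j) ((ℓ : P.O) ^ j) 1 hluc hs (by rw [sub_self]; exact Ideal.zero_mem _) v
  have hρg : E.ρ τ ^ j * E.ρ σ = E.ρ g := by
    have := congrArg E.ρ hg
    rw [map_mul, map_pow] at this
    exact this.symm
  rw [hρg, mul_one] at key
  -- the datum side: trace
  have htr : H.ρ.trace g - H.ρ.trace (τ ^ j) ∈ maximalIdeal T ^ n :=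
    hL₂ g (τ ^ j) (fun x hx => hj x (hle₂ hx))
  have hcp := H.charpoly_frob ℓ hℓ hℓN hℓS' A hA τ hτ
  have htrpow : H.ρ.trace (τ ^ j)
      = powTr (H.π (CuspForm.heckeAlgebra.T hℓ hℓN hℓS')) (ℓ : T) j := by
    have := trace_pow_of_charpoly659 H.ρ.finrank_eq (H.ρ.ρ τ) _ _ hcp j
    rw [← this]
    show LinearMap.trace T H.ρ.V (H.ρ.ρ (τ ^ j)) = _
    rw [map_pow]
  have hχtr : P.χ (H.ρ.trace (τ ^ j)) = powTr a₀ (ℓ : P.O) j := by
    rw [htrpow, map_powTr659, map_natCast, ha₀]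
  have ha : P.χ (H.ρ.trace g) - powTr a₀ (ℓ : P.O) j ∈ maximalIdeal P.O ^ n := by
    rw [← hχtr, ← map_sub]
    exact map_mem_maximalIdeal_pow659 P.χ n htr
  -- the datum side: determinant
  have hdetσ : LinearMap.det (H.ρ.ρ σ) - 1 ∈ maximalIdeal T ^ n :=
    Fermat.Agent.S59.H540.det_sub_one_mem _ _ (hL₃ σ (fun x hx => hσfix x (hle₃ hx)))
  have hdetτ : LinearMap.det (H.ρ.ρ τ) = (ℓ : T) :=
    Fermat.Agent.S59.H540.det_eq_of_charpoly H.ρ.finrank_eq (H.ρ.ρ τ) _ _ hcp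
  have hdetg : ((H.ρ.det g : Tˣ) : T) = (ℓ : T) ^ j * LinearMap.det (H.ρ.ρ σ) := by
    have h1 : ((H.ρ.det g : Tˣ) : T) = LinearMap.det (H.ρ.ρ g) := rfl
    have h2 : H.ρ.ρ g = H.ρ.ρ τ ^ j * H.ρ.ρ σ := by
      have := congrArg H.ρ.ρ hg
      rwa [map_mul, map_pow] at this
    rw [h1, h2, map_mul, map_pow, hdetτ]
  have hd : P.χ ((H.ρ.det g : Tˣ) : T) - (ℓ : P.O) ^ j ∈ maximalIdeal P.O ^ n := by
    have h1 : ((H.ρ.det g : Tˣ) : T) - (ℓ : T) ^ j ∈ maximalIdeal T ^ n := by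
      rw [hdetg]
      have : (ℓ : T) ^ j * LinearMap.det (H.ρ.ρ σ) - (ℓ : T) ^ j
          = (ℓ : T) ^ j * (LinearMap.det (H.ρ.ρ σ) - 1) := by ring
      rw [this]
      exact Ideal.mul_mem_left _ _ hdetσ
    have h2 := map_mem_maximalIdeal_pow659 P.χ n h1
    rwa [map_sub, map_pow, map_natCast] at h2
  -- conclusion
  have hfin : E.ρ g (E.ρ g v) - P.χ (H.ρ.trace g) • E.ρ g v + P.χ ((H.ρ.det g : Tˣ) : T) • v
      = ((E.ρ g) ((E.ρ g) v) - powTr a₀ (ℓ : P.O) j • (E.ρ g) v + ((ℓ : P.O) ^ j) • v)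
        - (P.χ (H.ρ.trace g) - powTr a₀ (ℓ : P.O) j) • E.ρ g v
        + (P.χ ((H.ρ.det g : Tˣ) : T) - (ℓ : P.O) ^ j) • v := by
    module
  rw [hfin]
  exact Submodule.add_mem _ (Submodule.sub_mem _ key
    (Submodule.smul_mem_smul ha Submodule.mem_top)) (Submodule.smul_mem_smul hd Submodule.mem_top)

/-- **REL** from the weak Chebotarev hypothesis. -/
theorem rel_of_chebWeak659 (hcheb : Fermat.Agent.S30.H990.ChebWeak) : Fermat.Agent.S32.RelStatement := by
  intro p _ N _ S _hpS hNS 𝒪 _ _ _ _ θ T _ _ _ _ _ _ _ _ H P hloc E g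
  refine LinearMap.ext fun v => ?_
  have hv : E.ρ g (E.ρ g v) - P.χ (H.ρ.trace g) • E.ρ g v + P.χ ((H.ρ.det g : Tˣ) : T) • v
      ∈ ⨅ i : ℕ, (maximalIdeal P.O ^ i) • (⊤ : Submodule P.O E.M) := by
    rw [Submodule.mem_iInf]
    exact fun n => rel_mod659 hcheb hNS H P hloc E g n v
  rw [Ideal.iInf_pow_smul_eq_bot_of_isLocalRing _ (maximalIdeal.isMaximal P.O).ne_top,
    Submodule.mem_bot] at hv
  simpa using hv

end Main

end Fermat.Agent.S59.TW.H659.Clean

end
-- ===== PACK-END S59/TW/H659/Clean/RelCore.lean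

-- ===== PACK-BEGIN S32/H152/Emb.lean
section
/-
S32 / piece EMB (helper152) — `embedStatement : Fermat.Agent.S32.EmbedStatement`.

Let `ρ` be a two-dimensional representation over a local ring `T` whose image spans `End_T V`,
`ψ : T → 𝒪'` a point with values in a DVR with `2 ≠ 0`, and `M ≠ 0` a finite free `𝒪'`-module with
Galois action on which every `g` satisfies the characteristic polynomial of `ρ g` specialised along
`ψ`.  Then there is a strict `ψ`-semilinear equivariant map `φ : V → M`.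

Proof.  `K = Frac 𝒪'`.  In coordinates (bases `b` of `V`, `c` of `M`), `ρ₀ = ρ ⊗_ψ K` on `K²` has
`K[G] → M₂(K)` onto, and `π = ρM ⊗ K` on `Kⁿ` satisfies the quadratic relations; Boston–Lenstra–
Ribet over the field `K` (landed `Lib.Ribet.H223.blr_exists_embedding`) gives an injective
equivariant `φ₀ : K² → Kⁿ`.  Clearing denominators of `φ₀ (e_i)` gives `m_i ∈ M`, and
`φ (∑ tᵢ bᵢ) = ∑ ψ(tᵢ) mᵢ`.  A `K`-linear retraction of `φ₀` with cleared denominators shows
`δ ψ(tᵢ) ∈ 𝔪^N` whenever `φ v ∈ 𝔪^N M` (`δ ≠ 0` fixed), which gives strictness.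
-/





set_option autoImplicit false

noncomputable section

namespace Fermat.Agent.S32.H152

open Matrix IsLocalRing Fermat.Agent.S19 Fermat.Agent.Lib.Ribet.H223

/-- Clearing denominators of finitely many vectors. -/
theorem emb_exists_clear {O K : Type*} [CommRing O] [IsDomain O] [Field K] [Algebra O K]
    [IsFractionRing O K] {ι κ : Type*} [Finite ι] [Finite κ] (x : ι → κ → K) :
    ∃ a : O, a ≠ 0 ∧ ∀ i j, ∃ y : O, algebraMap O K y = algebraMap O K a * x i j := by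
  classical
  have := Fintype.ofFinite ι
  have := Fintype.ofFinite κ
  obtain ⟨a, ha⟩ := IsLocalization.exist_integer_multiples_of_finset (nonZeroDivisors O)
    (Finset.univ.image (fun p : ι × κ => x p.1 p.2))
  refine ⟨a, nonZeroDivisors.ne_zero a.2, fun i j => ?_⟩
  obtain ⟨y, hy⟩ := ha (x i j) (Finset.mem_image.mpr ⟨(i, j), Finset.mem_univ _, rfl⟩)
  refine ⟨y, ?_⟩
  rw [hy, Algebra.smul_def]

/-- **Piece EMB of row S32.** -/
theorem embedStatement : EmbedStatement := by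
  intro T _ _ ρ hspan 𝒪' _ _ _ h2 ψ M _ _ _ _ _ ρM hrel
  classical
  set K := FractionRing 𝒪' with hK
  set ι : 𝒪' →+* K := algebraMap 𝒪' K with hιdef
  have hι : Function.Injective ι := IsFractionRing.injective 𝒪' K
  set f : T →+* K := ι.comp ψ with hf
  set b : Module.Basis (Fin 2) T ρ.V := Module.finBasisOfFinrankEq T ρ.V ρ.finrank_eq with hb
  set c := Module.Free.chooseBasis 𝒪' M with hc
  -- the two representations over `K`
  set ρ₀ : GalQ →* Module.End K (Fin 2 → K) :=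
    ((embEnd f b : Module.End T ρ.V →+* _) : Module.End T ρ.V →* _).comp ρ.ρ with hρ₀
  set π : GalQ →* Module.End K (Module.Free.ChooseBasisIndex 𝒪' M → K) :=
    ((embEnd ι c : Module.End 𝒪' M →+* _) : Module.End 𝒪' M →* _).comp ρM with hπdef
  set d : GalQ →* K := ((f : T →* K).comp (Units.coeHom T)).comp ρ.det with hd
  have hρ₀g : ∀ g, ρ₀ g = embEnd f b (ρ.ρ g) := fun g => rfl
  have hπg : ∀ g, π g = embEnd ι c (ρM g) := fun g => rfl
  have hdg : ∀ g, d g = f ((ρ.det g : Tˣ) : T) := fun g => rfl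
  have hK2 : (2 : K) ≠ 0 := by
    intro h0
    apply h2
    apply hι
    rw [map_zero, map_ofNat]
    exact h0
  have hfin2 : Module.finrank K (Fin 2 → K) = 2 := by simp
  -- surjectivity of `K[G] → End (K²)`
  have hsurj : Function.Surjective (MonoidAlgebra.lift K (Module.End K (Fin 2 → K)) GalQ ρ₀) := by
    set A₀ := (MonoidAlgebra.lift K (Module.End K (Fin 2 → K)) GalQ ρ₀).range with hA₀
    have hg : ∀ g, ρ₀ g ∈ A₀ := fun g =>
      ⟨MonoidAlgebra.of K GalQ g, MonoidAlgebra.lift_of _ _⟩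
    have hall : ∀ E : Module.End T ρ.V, embEnd f b E ∈ A₀ := by
      intro E
      have hE : E ∈ Submodule.span T (Set.range ρ.ρ) := by
        rw [hspan]
        exact Submodule.mem_top
      induction hE using Submodule.span_induction with
      | mem x hx =>
        obtain ⟨g, rfl⟩ := hx
        exact hg g
      | zero =>
        rw [map_zero]
        exact zero_mem _
      | add x y _ _ hx hy =>
        rw [map_add]
        exact add_mem hx hy
      | smul t x _ hx =>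
        rw [embEnd_smul]
        exact Subalgebra.smul_mem _ hx _
    intro y
    have hy : y ∈ A₀ := by
      obtain ⟨Y, rfl⟩ := (Matrix.toLinAlgEquiv' : Matrix (Fin 2) (Fin 2) K ≃ₐ[K] _).surjective y
      rw [Matrix.matrix_eq_sum_single Y]
      simp only [map_sum]
      refine Subalgebra.sum_mem _ fun i _ => Subalgebra.sum_mem _ fun j _ => ?_
      have e1 : (Matrix.single i j (Y i j) : Matrix (Fin 2) (Fin 2) K)
          = Y i j • Matrix.single i j (1 : K) := by
        rw [Matrix.smul_single, smul_eq_mul, mul_one]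
      rw [e1, map_smul]
      refine Subalgebra.smul_mem _ ?_ _
      have e2 := embEnd_single f b i j
      have e3 : (Matrix.toLinAlgEquiv' : Matrix (Fin 2) (Fin 2) K ≃ₐ[K] _)
          (Matrix.single i j (1 : K)) = Matrix.toLin' (Matrix.single i j (1 : K)) := rfl
      rw [e3, ← e2]
      exact hall _
    exact hy
  -- the quadratic relations
  have hπ : ∀ g, π g * π g - LinearMap.trace K (Fin 2 → K) (ρ₀ g) • π g + d g • 1 = 0 := by
    intro g
    have h := congrArg (embEnd ι c) (hrel g)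
    rw [map_zero, map_add, map_sub, map_mul, embEnd_smul, embEnd_smul, map_one] at h
    rw [hπg, hρ₀g, embEnd_trace, hdg]
    exact h
  have : Nonempty (Module.Free.ChooseBasisIndex 𝒪' M) := by
    by_contra hne
    rw [not_nonempty_iff] at hne
    obtain ⟨x, y, hxy⟩ := exists_pair_ne M
    apply hxy
    apply c.repr.injective
    ext j
    exact (hne.false j).elim
  have : Nontrivial (Module.Free.ChooseBasisIndex 𝒪' M → K) := inferInstance
  obtain ⟨φ₀, hφ₀inj, hφ₀eq⟩ := blr_exists_embedding hK2 hfin2 ρ₀ π d hsurj hπ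
  -- retraction
  obtain ⟨r₀, hr₀⟩ := LinearMap.exists_leftInverse_of_injective φ₀
    (LinearMap.ker_eq_bot.mpr hφ₀inj)
  -- clearing denominators
  obtain ⟨a, ha0, ha⟩ := emb_exists_clear (O := 𝒪') (K := K)
    (fun (i : Fin 2) (j : Module.Free.ChooseBasisIndex 𝒪' M) => φ₀ (Pi.single i 1) j)
  obtain ⟨a', ha'0, ha'⟩ := emb_exists_clear (O := 𝒪') (K := K)
    (fun (i : Fin 2) (j : Module.Free.ChooseBasisIndex 𝒪' M) => r₀ (Pi.single j 1) i)
  choose y hy using ha
  choose z hz using ha'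
  -- the vectors `m i`
  set mvec : Fin 2 → M := fun i => ∑ j, y i j • c j with hmvec
  have hmcoord : ∀ i, embCoord ι c (mvec i) = ι a • φ₀ (Pi.single i 1) := by
    intro i
    funext j
    rw [embCoord_apply, hmvec]
    simp only [map_sum, map_smul, Module.Basis.repr_self, Finsupp.coe_finsetSum,
      Finset.sum_apply, Finsupp.smul_apply, Finsupp.single_apply, smul_eq_mul, mul_ite, mul_one,
      mul_zero, Finset.sum_ite_eq', Finset.mem_univ, if_true, Pi.smul_apply]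
    exact hy i j
  -- the map `φ`
  set φ : ρ.V →+ M :=
    { toFun := fun v => ∑ i, ψ (b.repr v i) • mvec i
      map_zero' := by simp
      map_add' := fun v w => by
        simp only [map_add, Finsupp.add_apply, add_smul, Finset.sum_add_distrib] } with hφ
  have hφv : ∀ v, φ v = ∑ i, ψ (b.repr v i) • mvec i := fun v => rfl
  have hφcoord : ∀ v, embCoord ι c (φ v) = ι a • φ₀ (embCoord f b v) := by
    intro v
    have e1 : embCoord f b v = ∑ i, f (b.repr v i) • (Pi.single i 1 : Fin 2 → K) := by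
      funext j
      simp [embCoord_apply, Finset.sum_apply, Pi.single_apply]
    rw [hφv, map_sum, e1, map_sum, Finset.smul_sum]
    refine Finset.sum_congr rfl fun i _ => ?_
    rw [embCoord_smul, hmcoord, map_smul, smul_comm]
    rfl
  refine ⟨φ, fun t v => ?_, fun g v => ?_, ?_⟩
  · -- semilinear
    rw [hφv, hφv, Finset.smul_sum]
    refine Finset.sum_congr rfl fun i _ => ?_
    rw [map_smul, Finsupp.smul_apply, smul_eq_mul, map_mul, mul_smul]
  · -- equivariant
    apply embCoord_injective ι c hι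
    rw [hφcoord, ← embEnd_coord ι c (ρM g) (φ v), hφcoord, ← embEnd_coord f b (ρ.ρ g) v,
      ← hρ₀g, hφ₀eq, map_smul, hπg]
  · -- strict
    have hδ : a' * a ≠ 0 := mul_ne_zero ha'0 ha0
    obtain ⟨k, hk⟩ := embCoord_dvr_cancel hδ
    refine ⟨k, fun m v hv => ?_⟩
    -- coordinates of `φ v` lie in `𝔪 ^ (m + k)`
    have hcoord : ∀ j, c.repr (φ v) j ∈ maximalIdeal 𝒪' ^ (m + k) :=
      fun j => embCoord_repr_mem c _ hv j
    -- `ι (a' a ψ(tᵢ)) = ∑ⱼ ι (z i j) ι (coord j)`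
    have hkey : ∀ i, ι (a' * a * ψ (b.repr v i))
        = ∑ j, ι (z i j) * ι (c.repr (φ v) j) := by
      intro i
      have e1 : r₀ (embCoord ι c (φ v)) = ι a • embCoord f b v := by
        rw [hφcoord, map_smul]
        have := congrArg (fun L : (Fin 2 → K) →ₗ[K] (Fin 2 → K) => L (embCoord f b v)) hr₀
        simp only [LinearMap.comp_apply, LinearMap.id_apply] at this
        rw [this]
      have e2 : embCoord ι c (φ v)
          = ∑ j, ι (c.repr (φ v) j) • (Pi.single j 1 : Module.Free.ChooseBasisIndex 𝒪' M → K) := by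
        funext j
        simp [embCoord_apply, Finset.sum_apply, Pi.single_apply]
      have e3 := congrFun e1 i
      rw [e2, map_sum, Finset.sum_apply] at e3
      simp only [map_smul, Pi.smul_apply, smul_eq_mul] at e3
      have e4 : ι (a' * a * ψ (b.repr v i)) = ι a' * (ι a * embCoord f b v i) := by
        rw [map_mul, map_mul, embCoord_apply, mul_assoc]
        rfl
      rw [e4, ← e3, Finset.mul_sum]
      refine Finset.sum_congr rfl fun j _ => ?_
      rw [hz i j]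
      ring
    have hmem : ∀ i, a' * a * ψ (b.repr v i) ∈ maximalIdeal 𝒪' ^ (m + k) := by
      intro i
      have e : a' * a * ψ (b.repr v i) = ∑ j, z i j * c.repr (φ v) j := by
        apply hι
        rw [hkey i, map_sum]
        refine Finset.sum_congr rfl fun j _ => ?_
        rw [map_mul]
      rw [e]
      exact Ideal.sum_mem _ fun j _ => Ideal.mul_mem_left _ _ (hcoord j)
    have hti : ∀ i, b.repr v i ∈ Ideal.comap ψ (maximalIdeal 𝒪' ^ m) :=
      fun i => Ideal.mem_comap.mpr (hk m _ (hmem i))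
    have hv' : v = ∑ i, b.repr v i • b i := (b.sum_repr v).symm
    rw [hv']
    exact Submodule.sum_mem _ fun i _ => Submodule.smul_mem_smul (hti i) Submodule.mem_top

end Fermat.Agent.S32.H152

end
end
-- ===== PACK-END S32/H152/Emb.lean

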