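import Mathlib
import Fermat.Agent.Pack.S43MC.G0E15L0
import Fermat.Agent.Pack.S43MC.G0E7L0
import Fermat.Agent.Pack.S43MC.G0E10L0
import Fermat.Agent.Pack.S43MC.G0E10L1
import Fermat.Agent.Pack.S43MC.G0E7L3
import Fermat.Agent.Pack.S44C.G0E19L0
import Fermat.Agent.Pack.S43MC.G0E8L2
import Fermat.Agent.Pack.S43MC.G0E6L2
import Fermat.Agent.Pack.S43MC.G0E5L2
import Fermat.Agent.Pack.S43MC.G0E15L1
import Fermat.Agent.Pack.S43MC.G0E13L1
import Fermat.Agent.Pack.S43MC.G0E11L2
import Fermat.Agent.Pack.S43MC.G0E14L1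
import Fermat.Agent.Pack.S43MC.G0E9L1
import Fermat.Agent.Pack.S43MC.G0E14L2
import Fermat.Agent.Pack.S44C.G0E0L1
import Fermat.Agent.Pack.S43MC.G0E6L0
import Fermat.Agent.Pack.S43MC.G0E9L3
import Fermat.Agent.Pack.S43MC.G0E12L0
import Fermat.Agent.Pack.S43MC.G0E14L0
import Fermat.Agent.Pack.S44C.G0E17L3
import Fermat.Agent.Pack.S43MC.G2E0L0
import Fermat.Agent.Pack.S44C.G0E17L0
import Fermat.Agent.Pack.S44C.G0E17L2
import Fermat.Agent.Pack.S43MC.G0E4L3
import Fermat.Agent.Pack.Fast891

-- ===== PACK-BEGIN Lib/Newform/Main.lean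
section







/-!
# Shared library NEWFORM — consumer entry point (row-lead helper23)

All Petersson-free targets of the library, closed (no hypotheses), in ONE light module
(closure: Mathlib + Prelude + `Lib/Newform/{H23,H563,H683,H743,H803,H863,H923,H958}` only).

| theorem | statement |
|---|---|
| `newformBadPrimeCoeff N` | Prelude `CuspForm.NewformBadPrimeCoeff N` (`a_q² = 1` at `q ∥ N`, `a_q = 0` at `q² ∣ N`) |
| `badCoeffAt` | the same for `IsNewformAt q` |
| `descent` | every normalized eigenform comes from a Prelude-newform of a level `M ∣ N` |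
| `stab` | a normalized eigenform of level `M` gives one of every level `C`, `M ∣ C` |
| `incl`, `raise` | the two degeneracy maps (`q`-coefficients) |
| `lemma16`, `mainLemma` | Atkin–Lehner Lemma 16 and main lemma |
| `oldEigen` | an eigenvector in the old space lowers the level |
| `multOne`, `multOneEigen` | same-level multiplicity one for a Prelude-newform |
| `qNewKernel` | `W`, the two traces at `q ∥ N`; `U_q² = 1` and `IsNewAt q` on their kernel |
-/

set_option autoImplicit false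

open CongruenceSubgroup ModularFormClass ModularForm UpperHalfPlane

namespace Fermat.Agent.Lib.Newform

theorem eigenT : H958.EigenT := H23.eigenT

theorem eigenU : H958.EigenU := H23.eigenU

theorem incl : H958.Incl := H23.incl

theorem occurs : H958.Occurs := H23.occurs

theorem lowerU : H958.LowerU := H563.lowerU

theorem traceAL : H958.TraceAL := H923.traceAL

theorem badCoeffAt : H958.BadCoeffAt := H23.badCoeffAt_of lowerU traceAL

theorem badCoeff : H958.BadCoeff := H958.badCoeff_of badCoeffAt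

/-- The Prelude target: coefficients of a newform at the primes dividing the level. -/
theorem newformBadPrimeCoeff (N : ℕ) [NeZero N] : CuspForm.NewformBadPrimeCoeff N := badCoeff N

theorem descent : H958.Descent := H958.descent

theorem stab : H958.Stab := H23.stab

theorem raise : H23.Raise := H863.raise_statement

theorem lemma16 : H23.Lemma16 := H743.lemma16

theorem oldEigen : H23.OldEigen := H23.oldEigen

/-- **MAIN LEMMA** in `q`-coefficients (adapter around helper803's function-level theorem). -/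
theorem mainLemma : H23.MainLemma := by
  intro N _ f hvan
  obtain ⟨g, hg⟩ := H803.mainLemma N 2 f (fun n hn => hvan n hn)
  refine ⟨g, fun n => ?_⟩
  classical
  -- the raised forms
  let R : ℕ → CuspForm (Gamma0 N) 2 := fun p =>
    if hp : p ∈ N.primeFactors then
      haveI : NeZero p := ⟨(Nat.mem_primeFactors.mp hp).1.ne_zero⟩
      H863.raiseLin (d := p) (M := N / p) (C := N)
        (by rw [Nat.mul_div_cancel' (Nat.mem_primeFactors.mp hp).2.1]) (g p)
    else 0
  have hRτ : ∀ p ∈ N.primeFactors, ∀ τ : ℍ, R p τ = g p (heckeDiagMatrix p • τ) := by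
    intro p hp τ
    haveI : NeZero p := ⟨(Nat.mem_primeFactors.mp hp).1.ne_zero⟩
    simp only [R, dif_pos hp]
    exact H863.raiseLin_apply _ (g p) τ
  have hRq : ∀ p ∈ N.primeFactors, ∀ m : ℕ,
      qCoeff ⇑(R p) m = if p ∣ m then qCoeff ⇑(g p) (m / p) else 0 := by
    intro p hp m
    haveI : NeZero p := ⟨(Nat.mem_primeFactors.mp hp).1.ne_zero⟩
    simp only [R, dif_pos hp]
    exact H863.qCoeff_raiseLin _ (g p) m
  have hf : f = ∑ p ∈ N.primeFactors, R p := by
    apply DFunLike.ext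
    intro τ
    rw [hg τ]
    have hsum : (∑ p ∈ N.primeFactors, R p) τ = ∑ p ∈ N.primeFactors, R p τ := by
      have hcoe : ∀ s : Finset ℕ, (⇑(∑ p ∈ s, R p) : ℍ → ℂ) = ∑ p ∈ s, ⇑(R p) := by
        intro s
        induction s using Finset.induction_on with
        | empty => simp
        | insert a s ha ih => rw [Finset.sum_insert ha, Finset.sum_insert ha, FunLike.coe_add, ih]
      rw [hcoe, Finset.sum_apply]
    rw [hsum]
    exact Finset.sum_congr rfl (fun p hp => (hRτ p hp τ).symm)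
  have hq : qCoeff ⇑f n = ∑ p ∈ N.primeFactors, qCoeff ⇑(R p) n := by
    have := congrArg (H683.coeffLin N 2 n) hf
    rw [map_sum] at this
    simpa using this
  rw [hq]
  exact Finset.sum_congr rfl (fun p hp => hRq p hp n)

theorem multOne : H23.MultOne := H23.multOne_of mainLemma

theorem multOneEigen : H23.MultOneEigen := H23.multOneEigen_of multOne

theorem qNewKernel : H23.QNewKernel := H23.qNewKernel_of traceAL

/-- Consumer form: a normalized eigenform of the level of a newform with the same good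
eigenvalues has the same coefficients at ALL `n`. -/
theorem qCoeff_eq_of_isNewform {N : ℕ} [NeZero N] {f g : CuspForm (Gamma0 N) 2}
    (hf : f.IsNewform) (hg : g.IsNormalizedEigenform)
    (h : ∀ ℓ : ℕ, ℓ.Prime → ¬ ℓ ∣ N → qCoeff ⇑g ℓ = qCoeff ⇑f ℓ) (n : ℕ) :
    qCoeff ⇑g n = qCoeff ⇑f n := by
  rw [multOneEigen N f g hf hg h]

/-- Consumer form of `newformBadPrimeCoeff` at `q ∥ N`. -/
theorem qCoeff_sq_eq_one {N : ℕ} [NeZero N] {f : CuspForm (Gamma0 N) 2} (hf : f.IsNewform)
    {q : ℕ} (hq : q.Prime) (hqN : q ∣ N) (hq2 : ¬ q ^ 2 ∣ N) : qCoeff ⇑f q ^ 2 = 1 :=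
  (newformBadPrimeCoeff N f hf q hq hqN).1 hq2

/-- Consumer form of `newformBadPrimeCoeff` at `q² ∣ N`. -/
theorem qCoeff_eq_zero_of_sq_dvd {N : ℕ} [NeZero N] {f : CuspForm (Gamma0 N) 2}
    (hf : f.IsNewform) {q : ℕ} (hq : q.Prime) (hq2 : q ^ 2 ∣ N) : qCoeff ⇑f q = 0 :=
  (newformBadPrimeCoeff N f hf q hq ((dvd_pow_self q two_ne_zero).trans hq2)).2 hq2

end Fermat.Agent.Lib.Newform

end
-- ===== PACK-END Lib/Newform/Main.lean

-- ===== PACK-BEGIN S35/G/H285/FrobRes.lean
section


/-!
# S35, piece (G') — leaf FROB-RES (helper285)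

`frobRes : FrobResStatement A E q` (exact shape of `Fermat/Agent/S35/G/SpecLevel.lean`):
a Frobenius lift `s` at `A` stabilising `E` induces on `R_E = A ∩ E` an automorphism `ψR`
(the restriction of `s²`) with `ψR r ≡ r ^ (q ^ 2)` modulo the maximal ideal.
-/

set_option autoImplicit false

noncomputable section

namespace Fermat.Agent.S35.G.H285

open Fermat.Agent.A2.Mod
open scoped Pointwise

/-- Elements of the decomposition group preserve `A`. -/
theorem apply_mem_of_mem_decomp_h285 (A : ValuationSubring _root_.Fermat.Agent.S35.G.Qb) {τ : _root_.Fermat.Agent.S35.G.Qb ≃ₐ[ℚ] _root_.Fermat.Agent.S35.G.Qb}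
    (hτ : τ ∈ A.decompositionSubgroup ℚ) {x : _root_.Fermat.Agent.S35.G.Qb} (hx : x ∈ A) : τ x ∈ A := by
  have h : τ • A = A := MulAction.mem_stabilizer_iff.mp hτ
  have h1 : τ • x ∈ τ • A := ValuationSubring.smul_mem_pointwise_smul τ x A hx
  rw [h] at h1
  exact h1

/-- A Frobenius element is congruent to the `q`-th power map on `A`. -/
theorem frob_sub_pow_mem_h285 (A : ValuationSubring _root_.Fermat.Agent.S35.G.Qb) {q : ℕ} {s : _root_.Fermat.Agent.S35.G.Qb ≃ₐ[ℚ] _root_.Fermat.Agent.S35.G.Qb}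
    (hs : A.IsFrobeniusAt s q) {z : _root_.Fermat.Agent.S35.G.Qb} (hz : z ∈ A) :
    A.valuation (s z - z ^ q) < 1 := by
  obtain ⟨hσD, hF⟩ := hs
  have h2 := hF (IsLocalRing.residue A ⟨z, hz⟩)
  rw [← IsLocalRing.ResidueField.residue_smul, ← map_pow] at h2
  have h3 : ((⟨s, hσD⟩ : A.decompositionSubgroup ℚ) • (⟨z, hz⟩ : A)) - (⟨z, hz⟩ : A) ^ q
      ∈ IsLocalRing.maximalIdeal A := by
    rw [← Ideal.Quotient.eq]
    exact h2
  rw [ValuationSubring.valuation_lt_one_iff] at h3
  exact h3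

/-- `s² z ≡ z ^ (q²)` modulo the maximal ideal of `A`. -/
theorem frob_sq_sub_pow_h285 (A : ValuationSubring _root_.Fermat.Agent.S35.G.Qb) {q : ℕ} {s : _root_.Fermat.Agent.S35.G.Qb ≃ₐ[ℚ] _root_.Fermat.Agent.S35.G.Qb}
    (hs : A.IsFrobeniusAt s q) {z : _root_.Fermat.Agent.S35.G.Qb} (hz : z ∈ A) :
    A.valuation (s (s z) - z ^ (q ^ 2)) < 1 := by
  have hsz : s z ∈ A := apply_mem_of_mem_decomp_h285 A hs.mem_decompositionSubgroup hz
  have h1 := frob_sub_pow_mem_h285 A hs hsz
  have h2 := frob_sub_pow_mem_h285 A hs hz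
  -- `(s z)^q - (z^q)^q` is a multiple of `s z - z^q` in `A`
  obtain ⟨c, hc⟩ := sub_dvd_pow_sub_pow (⟨s z, hsz⟩ : A) (⟨z, hz⟩ ^ q) q
  have hc' : (s z) ^ q - (z ^ q) ^ q = (s z - z ^ q) * (c : _root_.Fermat.Agent.S35.G.Qb) := by
    have := congrArg (Subtype.val : A → _root_.Fermat.Agent.S35.G.Qb) hc
    simpa using this
  have h3 : A.valuation ((s z) ^ q - (z ^ q) ^ q) < 1 := by
    rw [hc', map_mul]
    have hc1 : A.valuation (c : _root_.Fermat.Agent.S35.G.Qb) ≤ 1 := (A.valuation_le_one_iff _).2 c.2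
    calc A.valuation (s z - z ^ q) * A.valuation (c : _root_.Fermat.Agent.S35.G.Qb)
        ≤ A.valuation (s z - z ^ q) * 1 := by gcongr
      _ = A.valuation (s z - z ^ q) := mul_one _
      _ < 1 := h2
  have e : s (s z) - z ^ (q ^ 2) = (s (s z) - (s z) ^ q) + ((s z) ^ q - (z ^ q) ^ q) := by
    rw [sq, pow_mul]; ring
  rw [e]
  exact lt_of_le_of_lt (Valuation.map_add _ _ _) (max_lt h1 h3)

/-- Membership in the maximal ideal of `R_E = A ∩ E`, in terms of `A`. -/
theorem mem_maximalIdeal_RE_iff_h285 (A : ValuationSubring _root_.Fermat.Agent.S35.G.Qb) (E : IntermediateField ℚ _root_.Fermat.Agent.S35.G.Qb)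
    (r : RE A E) :
    r ∈ IsLocalRing.maximalIdeal (RE A E) ↔
      (⟨((r : E) : _root_.Fermat.Agent.S35.G.Qb), r.2⟩ : A) ∈ IsLocalRing.maximalIdeal A := by
  constructor
  · intro h
    rw [IsLocalRing.mem_maximalIdeal, mem_nonunits_iff] at h ⊢
    intro hu
    apply h
    obtain ⟨u, hu⟩ := hu
    have hmul : ((r : E) : _root_.Fermat.Agent.S35.G.Qb) * ((u⁻¹ : Aˣ) : A) = 1 := by
      have h1 : (u : A) * ((u⁻¹ : Aˣ) : A) = 1 := u.mul_inv
      have h2 := congrArg (Subtype.val : A → _root_.Fermat.Agent.S35.G.Qb) h1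
      rw [hu] at h2
      exact h2
    have hr0 : ((r : E) : _root_.Fermat.Agent.S35.G.Qb) ≠ 0 := left_ne_zero_of_mul_eq_one hmul
    have hinv : (((r : E) : _root_.Fermat.Agent.S35.G.Qb))⁻¹ = ((u⁻¹ : Aˣ) : A) := by
      exact (mul_eq_one_iff_inv_eq₀ hr0).1 hmul
    have hmem : ((r : E))⁻¹ ∈ RE A E := by
      show ((algebraMap E _root_.Fermat.Agent.S35.G.Qb) ((r : E))⁻¹) ∈ A
      have : (algebraMap E _root_.Fermat.Agent.S35.G.Qb) ((r : E))⁻¹ = (((r : E) : _root_.Fermat.Agent.S35.G.Qb))⁻¹ := map_inv₀ _ _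
      rw [this, hinv]
      exact ((u⁻¹ : Aˣ) : A).2
    have hrE0 : (r : E) ≠ 0 := by
      intro h0
      apply hr0
      rw [h0]
      rfl
    refine ⟨⟨r, ⟨((r : E))⁻¹, hmem⟩, ?_, ?_⟩, rfl⟩
    · apply Subtype.ext
      show (r : E) * ((r : E))⁻¹ = 1
      exact mul_inv_cancel₀ hrE0
    · apply Subtype.ext
      show ((r : E))⁻¹ * (r : E) = 1
      exact inv_mul_cancel₀ hrE0
  · intro h'
    rw [IsLocalRing.mem_maximalIdeal, mem_nonunits_iff] at h' ⊢
    intro hu
    apply h'
    obtain ⟨u, hu⟩ := hu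
    have h1 : (u : RE A E) * ((u⁻¹ : (RE A E)ˣ) : RE A E) = 1 := u.mul_inv
    have h2 : ((r : E) : _root_.Fermat.Agent.S35.G.Qb) * ((((u⁻¹ : (RE A E)ˣ) : RE A E) : E) : _root_.Fermat.Agent.S35.G.Qb) = 1 := by
      have := congrArg (fun x : RE A E => (((x : E)) : _root_.Fermat.Agent.S35.G.Qb)) h1
      rw [hu] at this
      exact this
    have h3 : ((((u⁻¹ : (RE A E)ˣ) : RE A E) : E) : _root_.Fermat.Agent.S35.G.Qb) ∈ A :=
      ((u⁻¹ : (RE A E)ˣ) : RE A E).2
    refine ⟨⟨⟨_, r.2⟩, ⟨_, h3⟩, ?_, ?_⟩, rfl⟩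
    · exact Subtype.ext h2
    · apply Subtype.ext
      rw [mul_comm] at h2
      exact h2

/-- **FROB-RES.** -/
theorem frobRes (A : ValuationSubring _root_.Fermat.Agent.S35.G.Qb) (E : IntermediateField ℚ _root_.Fermat.Agent.S35.G.Qb) (q : ℕ) :
    FrobResStatement A E q := by
  intro _ _ s hs hfrob
  have hsD : s ∈ A.decompositionSubgroup ℚ := hfrob.mem_decompositionSubgroup
  have hsD' : s.symm ∈ A.decompositionSubgroup ℚ := inv_mem hsD
  have hsA : ∀ x : _root_.Fermat.Agent.S35.G.Qb, x ∈ A → s x ∈ A := fun x hx => apply_mem_of_mem_decomp_h285 A hsD hx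
  have hsA' : ∀ x : _root_.Fermat.Agent.S35.G.Qb, x ∈ A → s.symm x ∈ A :=
    fun x hx => apply_mem_of_mem_decomp_h285 A hsD' hx
  have ht : ∀ e : E, (((resE E s hs * resE E s hs) e : E) : _root_.Fermat.Agent.S35.G.Qb) = s (s (e : _root_.Fermat.Agent.S35.G.Qb)) := fun _ => rfl
  have hts : ∀ e : E, (((resE E s hs * resE E s hs).symm e : E) : _root_.Fermat.Agent.S35.G.Qb)
      = s.symm (s.symm (e : _root_.Fermat.Agent.S35.G.Qb)) := by
    intro e
    have h1 := ht ((resE E s hs * resE E s hs).symm e)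
    rw [AlgEquiv.apply_symm_apply] at h1
    rw [h1, AlgEquiv.symm_apply_apply, AlgEquiv.symm_apply_apply]
  have hmem : ∀ r : RE A E, (resE E s hs * resE E s hs) (r : E) ∈ RE A E := by
    intro r
    show (((resE E s hs * resE E s hs) (r : E) : E) : _root_.Fermat.Agent.S35.G.Qb) ∈ A
    rw [ht]
    exact hsA _ (hsA _ r.2)
  have hmem' : ∀ r : RE A E, (resE E s hs * resE E s hs).symm (r : E) ∈ RE A E := by
    intro r
    show (((resE E s hs * resE E s hs).symm (r : E) : E) : _root_.Fermat.Agent.S35.G.Qb) ∈ A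
    rw [hts]
    exact hsA' _ (hsA' _ r.2)
  refine ⟨{ toFun := fun r => ⟨(resE E s hs * resE E s hs) (r : E), hmem r⟩
            invFun := fun r => ⟨(resE E s hs * resE E s hs).symm (r : E), hmem' r⟩
            left_inv := fun r => Subtype.ext (AlgEquiv.symm_apply_apply _ _)
            right_inv := fun r => Subtype.ext (AlgEquiv.apply_symm_apply _ _)
            map_mul' := fun a b => Subtype.ext (map_mul _ _ _)
            map_add' := fun a b => Subtype.ext (map_add _ _ _) }, fun r => rfl, ?_⟩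
  intro r
  rw [mem_maximalIdeal_RE_iff_h285, ValuationSubring.valuation_lt_one_iff]
  exact frob_sq_sub_pow_h285 A hfrob (z := ((r : E) : _root_.Fermat.Agent.S35.G.Qb)) r.2

end Fermat.Agent.S35.G.H285

end

end
-- ===== PACK-END S35/G/H285/FrobRes.lean

-- ===== PACK-BEGIN S25/H550/ACInj.lean
section








/-!
# S25 / ALGCHARTS shared sub-lemma SH1 (INJ)

For a curve chart `hC`, a gluing datum `G` over any `k`-algebra `A`, and a section
`s ∈ sec x n G` whose second component generates `N₁` modulo `y` (`GenModY y G s.2`), the maps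
`r ↦ r • s.1`, `r ↦ r • s.2`, `r ↦ r • G.r₀ s.1` are injective.

Route: Nakayama gives `u ∈ 1 + (y)` with `u • N₁ ⊆ R₁ • s.2`; `u` is a nonzerodivisor because it is
nonzero in every fibre `(A ⧸ m) ⊗ B₁` (a domain), by `H550.injective_of_forall_maximal`;
invertible modules are faithful.
-/

set_option autoImplicit false
set_option linter.style.haveILetI false
set_option linter.unusedSectionVars false

universe u

open scoped TensorProduct

namespace Fermat.Agent.S25.H550

open Fermat.Agent.S25 Fermat.Agent.S25.H11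

section NZD

variable {k : Type u} [Field k] [IsAlgClosed k] {A : Type u} [CommRing A] [Algebra k A]

/-- `lTensor` of a multiplication map is multiplication by `1 ⊗ u`. -/
theorem lTensor_mulLeft_apply (K : Type u) [CommRing K] [Algebra A K] (R : Type u) [CommRing R]
    [Algebra A R] (u : R) (z : K ⊗[A] R) :
    (LinearMap.mulLeft A u).lTensor K z = ((1 : K) ⊗ₜ[A] u) * z := by
  induction z using TensorProduct.induction_on with
  | zero => simp
  | tmul c r => simp [Algebra.TensorProduct.tmul_mul_tmul]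
  | add a b ha hb => simp only [map_add, ha, hb, mul_add]

/-- The algebra isomorphism `A' ⊗[A] (A ⊗[k] B) ≃ A' ⊗[k] B` sends `1 ⊗ r` to the image of `r`
under `tensorMapLeft`. -/
theorem cancelBaseChange_one_tmul {A' : Type u} [CommRing A'] [Algebra k A'] [Algebra A A']
    [IsScalarTower k A A'] (φ : A →ₐ[k] A') (hφ : ∀ a, φ a = algebraMap A A' a)
    (B : Type u) [CommRing B] [Algebra k B] (r : A ⊗[k] B) :
    Algebra.TensorProduct.cancelBaseChange k A A' A' B ((1 : A') ⊗ₜ[A] r) =
      tensorMapLeft k φ B r := by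
  induction r using TensorProduct.induction_on with
  | zero => simp
  | tmul a b =>
    rw [Algebra.TensorProduct.cancelBaseChange_tmul]
    show (a • (1 : A')) ⊗ₜ[k] b = (Algebra.TensorProduct.map φ (AlgHom.id k B)) (a ⊗ₜ[k] b)
    rw [Algebra.TensorProduct.map_tmul, hφ, Algebra.smul_def, mul_one]
    rfl
  | add x y hx hy =>
    rw [TensorProduct.tmul_add, map_add, map_add, hx, hy]

/-- **Nonzerodivisors by fibres.**  An element of `A ⊗ B` (`B` a domain over the algebraically
closed field `k`) which is nonzero in every closed fibre `(A ⧸ m) ⊗ B` is a nonzerodivisor. -/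
theorem mul_left_injective_of_fibres (B : Type u) [CommRing B] [Algebra k B] [IsDomain B]
    (u : A ⊗[k] B)
    (hu : ∀ (m : Ideal A) [m.IsMaximal], tensorMapLeft k (Ideal.Quotient.mkₐ k m) B u ≠ 0) :
    Function.Injective (fun r : A ⊗[k] B => u * r) := by
  have h := injective_of_forall_maximal (A := A) (LinearMap.mulLeft A u) (fun m _ => ?_)
  · exact h
  letI : Field (A ⧸ m) := Ideal.Quotient.field m
  haveI : IsDomain ((A ⧸ m) ⊗[k] B) := H567.isDomain_tensorProduct_of_isAlgClosed k (A ⧸ m) B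
  let E := Algebra.TensorProduct.cancelBaseChange k A (A ⧸ m) (A ⧸ m) B
  have hE : E ((1 : A ⧸ m) ⊗ₜ[A] u) = tensorMapLeft k (Ideal.Quotient.mkₐ k m) B u :=
    cancelBaseChange_one_tmul (Ideal.Quotient.mkₐ k m) (fun _ => rfl) B u
  intro z₁ z₂ hz
  rw [lTensor_mulLeft_apply, lTensor_mulLeft_apply] at hz
  have hz' := congrArg E hz
  rw [map_mul, map_mul, hE] at hz'
  exact E.injective (mul_left_cancel₀ (hu m) hz')

end NZD

section Inj

variable {k : Type u} [Field k] [IsAlgClosed k]
  {B₀ B₁ B₀₁ : Type u} [CommRing B₀] [CommRing B₁] [CommRing B₀₁]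
  [Algebra k B₀] [Algebra k B₁] [Algebra k B₀₁] [Algebra B₀ B₀₁] [Algebra B₁ B₀₁]
  [IsScalarTower k B₀ B₀₁] [IsScalarTower k B₁ B₀₁]
  {x : B₀} {y : B₁} {e : B₁ →ₐ[k] k}
  {A : Type u} [CommRing A] [Algebra k A]

omit [IsAlgClosed k] in
/-- **Nakayama.**  If `b` generates `N₁` modulo `y`, some `u ∈ 1 + (y)` maps `N₁` into
`R₁ • b`. -/
theorem exists_smul_eq_of_genModY (G : CurveGD k B₀ B₁ B₀₁ A) (b : G.N₁)
    (hgen : GenModY y G b) :
    ∃ u : A ⊗[k] B₁, u - 1 ∈ Ideal.span {yElt k A y} ∧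
      ∀ c : G.N₁, ∃ r : A ⊗[k] B₁, u • c = r • b := by
  haveI := G.invertible₁
  have hfg : (⊤ : Submodule (A ⊗[k] B₁) G.N₁).FG := Module.Finite.fg_top
  have hle : (⊤ : Submodule (A ⊗[k] B₁) G.N₁) ≤
      Submodule.span (A ⊗[k] B₁) {b} ⊔ Ideal.span {yElt k A y} • ⊤ := by
    intro c _
    obtain ⟨r, hr⟩ := hgen c
    have hc : c = r • b + (c - r • b) := by abel
    rw [hc]
    exact Submodule.add_mem_sup
      (Submodule.smul_mem _ _ (Submodule.mem_span_singleton_self b)) hr
  obtain ⟨u, hu1, hu2⟩ :=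
    Submodule.exists_sub_one_mem_and_smul_le_of_fg_of_le_sup hfg le_rfl hle
  refine ⟨u, hu1, fun c => ?_⟩
  have hmem : u • c ∈ Submodule.span (A ⊗[k] B₁) {b} :=
    hu2 (Submodule.smul_mem_pointwise_smul c u ⊤ trivial)
  obtain ⟨r, hr⟩ := Submodule.mem_span_singleton.mp hmem
  exact ⟨r, hr.symm⟩

omit [IsAlgClosed k] in
/-- An element of `1 + (y)` is nonzero in every fibre over a nontrivial ring. -/
theorem tensorMapLeft_ne_zero_of_sub_one_mem (he : e y = 0) (u : A ⊗[k] B₁)
    (hu : u - 1 ∈ Ideal.span {yElt k A y}) {K : Type u} [CommRing K] [Nontrivial K]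
    [Algebra k K] (φ : A →ₐ[k] K) : tensorMapLeft k φ B₁ u ≠ 0 := by
  intro h0
  obtain ⟨c, hc⟩ := Ideal.mem_span_singleton'.mp hu
  have hu' : u = 1 + c * yElt k A y := by rw [hc]; ring
  have hy : tensorMapLeft k φ B₁ (yElt k A y) = yElt k K y := by
    show (Algebra.TensorProduct.map φ (AlgHom.id k B₁)) ((1 : A) ⊗ₜ[k] y) = _
    rw [Algebra.TensorProduct.map_tmul, map_one]
    rfl
  have hey : epsHom e K (yElt k K y) = 0 := by
    show epsHom e K ((1 : K) ⊗ₜ[k] y) = 0
    simp [epsHom, he]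
  have h1 := congrArg (epsHom e K) h0
  rw [hu', map_add, map_mul, map_one, hy, map_add, map_mul, map_one, hey, mul_zero, add_zero,
    map_zero] at h1
  exact one_ne_zero h1

/-- **SH1 (INJ), chart 1.**  A section of `N₁` generating modulo `y` is a nonzerodivisor. -/
theorem smul_injective₁ (hC : IsCurveChart k B₀ B₁ B₀₁ x y e) (G : CurveGD k B₀ B₁ B₀₁ A)
    (b : G.N₁) (hgen : GenModY y G b) :
    Function.Injective (fun r : A ⊗[k] B₁ => r • b) := by
  haveI := G.invertible₁
  haveI := hC.isDomain₁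
  obtain ⟨u, hu1, hu2⟩ := exists_smul_eq_of_genModY G b hgen
  have hnzd := mul_left_injective_of_fibres (A := A) B₁ u (fun m _ =>
    letI : Field (A ⧸ m) := Ideal.Quotient.field m
    tensorMapLeft_ne_zero_of_sub_one_mem hC.e_y u hu1 (Ideal.Quotient.mkₐ k m))
  intro r₁ r₂ h
  have h0 : (r₁ - r₂) • b = 0 := by
    rw [sub_smul]
    exact sub_eq_zero.mpr h
  have hall : ∀ c : G.N₁, (u * (r₁ - r₂)) • c = (0 : A ⊗[k] B₁) • c := by
    intro c
    obtain ⟨r', hr'⟩ := hu2 c
    rw [zero_smul, mul_comm, mul_smul, hr', smul_comm, h0, smul_zero]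
  have hmul : u * (r₁ - r₂) = 0 := FaithfulSMul.eq_of_smul_eq_smul hall
  have : r₁ - r₂ = 0 := hnzd (by simpa using hmul)
  exact sub_eq_zero.mp this

omit [IsAlgClosed k] in
/-- `tensorMapLeft` is compatible with the maps `A ⊗ B₁ → A ⊗ B₀₁`. -/
theorem tensorMapLeft_algebraMap_tensor {A' : Type u} [CommRing A'] [Algebra k A']
    (φ : A →ₐ[k] A') (B B' : Type u) [CommRing B] [CommRing B'] [Algebra k B] [Algebra k B']
    [Algebra B B'] [IsScalarTower k B B'] (r : A ⊗[k] B) :
    tensorMapLeft k φ B' (algebraMap (A ⊗[k] B) (A ⊗[k] B') r) =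
      algebraMap (A' ⊗[k] B) (A' ⊗[k] B') (tensorMapLeft k φ B r) := by
  induction r using TensorProduct.induction_on with
  | zero => simp
  | tmul a b =>
    rw [H747.algebraMap_tensor_apply]
    show (Algebra.TensorProduct.map φ (AlgHom.id k B')) (a ⊗ₜ[k] algebraMap B B' b) =
      algebraMap (A' ⊗[k] B) (A' ⊗[k] B')
        ((Algebra.TensorProduct.map φ (AlgHom.id k B)) (a ⊗ₜ[k] b))
    rw [Algebra.TensorProduct.map_tmul, Algebra.TensorProduct.map_tmul,
      H747.algebraMap_tensor_apply]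
    rfl
  | add a b ha hb => rw [map_add, map_add, map_add, map_add, ha, hb]

/-- **SH1 (INJ), overlap.**  The restriction to the overlap of a section of `N₁` generating
modulo `y` is a nonzerodivisor. -/
theorem smul_injective₀₁ (hC : IsCurveChart k B₀ B₁ B₀₁ x y e) (G : CurveGD k B₀ B₁ B₀₁ A)
    (b : G.N₁) (hgen : GenModY y G b) :
    Function.Injective (fun r : A ⊗[k] B₀₁ => r • G.r₁ b) := by
  haveI := H86.invertible₀₁ G
  haveI := hC.isDomain₀
  haveI := hC.away₀
  haveI : IsDomain B₀₁ := IsLocalization.isDomain_of_le_nonZeroDivisors B₀₁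
    (powers_le_nonZeroDivisors_of_noZeroDivisors (H747.chart_x_ne_zero hC))
  obtain ⟨u, hu1, hu2⟩ := exists_smul_eq_of_genModY G b hgen
  have hnzd := mul_left_injective_of_fibres (A := A) B₀₁
    (algebraMap (A ⊗[k] B₁) (A ⊗[k] B₀₁) u) (fun m _ => by
      letI : Field (A ⧸ m) := Ideal.Quotient.field m
      rw [tensorMapLeft_algebraMap_tensor]
      intro h0
      have hinj := H747.algebraMap_tensor_injective (k := k) (A ⧸ m) B₁ B₀₁
        (H747.chart_injective₁ hC)
      exact tensorMapLeft_ne_zero_of_sub_one_mem hC.e_y u hu1 (Ideal.Quotient.mkₐ k m)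
        (hinj (by rw [h0, map_zero])))
  intro r₁ r₂ h
  have h0 : (r₁ - r₂) • G.r₁ b = 0 := by
    rw [sub_smul]
    exact sub_eq_zero.mpr h
  have hall : ∀ c : G.N₀₁, (algebraMap (A ⊗[k] B₁) (A ⊗[k] B₀₁) u * (r₁ - r₂)) • c =
      (0 : A ⊗[k] B₀₁) • c := by
    intro c
    rw [zero_smul]
    induction c using G.isBaseChange₁.inductionOn with
    | zero => rw [smul_zero]
    | tmul c =>
      obtain ⟨r', hr'⟩ := hu2 c
      rw [mul_comm, mul_smul, algebraMap_smul, ← map_smul, hr', map_smul,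
        ← algebraMap_smul (A ⊗[k] B₀₁) r' (G.r₁ b), smul_comm, h0, smul_zero]
    | smul s c hc => rw [smul_comm, hc, smul_zero]
    | add c₁ c₂ h₁ h₂ => rw [smul_add, h₁, h₂, add_zero]
  have hmul : algebraMap (A ⊗[k] B₁) (A ⊗[k] B₀₁) u * (r₁ - r₂) = 0 :=
    FaithfulSMul.eq_of_smul_eq_smul hall
  have : r₁ - r₂ = 0 := hnzd (by simpa using hmul)
  exact sub_eq_zero.mp this

omit [IsAlgClosed k] in
/-- `1 ⊗ x` is a unit of `A ⊗ B₀₁`. -/
theorem isUnit_xElt (hC : IsCurveChart k B₀ B₁ B₀₁ x y e) :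
    IsUnit (xElt k B₀₁ A x) := by
  refine IsUnit.of_mul_eq_one ((1 : A) ⊗ₜ[k] algebraMap B₁ B₀₁ y) ?_
  show ((1 : A) ⊗ₜ[k] algebraMap B₀ B₀₁ x) * ((1 : A) ⊗ₜ[k] algebraMap B₁ B₀₁ y) = 1
  rw [Algebra.TensorProduct.tmul_mul_tmul, hC.mul_eq_one, mul_one]
  rfl

/-- **SH1 (INJ), overlap, for a section of `G(n E₀)`.** -/
theorem sec_smul_injective₀₁ (hC : IsCurveChart k B₀ B₁ B₀₁ x y e)
    (G : CurveGD k B₀ B₁ B₀₁ A) (n : ℕ) (s : G.N₀ × G.N₁) (hs : s ∈ sec x n G)
    (hgen : GenModY y G s.2) :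
    Function.Injective (fun r : A ⊗[k] B₀₁ => r • G.r₀ s.1) := by
  have hu : IsUnit (xElt k B₀₁ A x ^ n) := (isUnit_xElt hC).pow n
  intro r₁ r₂ h
  simp only [mem_sec.mp hs, ← mul_smul] at h
  have := smul_injective₀₁ hC G s.2 hgen h
  exact hu.mul_left_injective this

/-- **SH1 (INJ), chart 0, for a section of `G(n E₀)`.** -/
theorem sec_smul_injective₀ (hC : IsCurveChart k B₀ B₁ B₀₁ x y e)
    (G : CurveGD k B₀ B₁ B₀₁ A) (n : ℕ) (s : G.N₀ × G.N₁) (hs : s ∈ sec x n G)
    (hgen : GenModY y G s.2) :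
    Function.Injective (fun r : A ⊗[k] B₀ => r • s.1) := by
  intro r₁ r₂ h
  have h1 : G.r₀ (r₁ • s.1) = G.r₀ (r₂ • s.1) := congrArg G.r₀ h
  rw [map_smul, map_smul, ← algebraMap_smul (A ⊗[k] B₀₁) r₁ (G.r₀ s.1),
    ← algebraMap_smul (A ⊗[k] B₀₁) r₂ (G.r₀ s.1)] at h1
  have h2 := sec_smul_injective₀₁ hC G n s hs hgen h1
  exact H747.algebraMap_tensor_injective (k := k) A B₀ B₀₁ (H747.chart_injective₀ hC) h2

/-- **SH1 (INJ), chart 1, for a section of `G(n E₀)`.** -/
theorem sec_smul_injective₁ (hC : IsCurveChart k B₀ B₁ B₀₁ x y e)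
    (G : CurveGD k B₀ B₁ B₀₁ A) (s : G.N₀ × G.N₁) (hgen : GenModY y G s.2) :
    Function.Injective (fun r : A ⊗[k] B₁ => r • s.2) :=
  smul_injective₁ hC G s.2 hgen

end Inj

end Fermat.Agent.S25.H550

end
-- ===== PACK-END S25/H550/ACInj.lean

-- ===== PACK-BEGIN S30/H990/Glue.lean
section
/-
S30 top glue (helper990): assembly.
`result_of : ChebWeak → HasAdicEigenModules → <frozen statement S30>` (with `𝒪'' := 𝒪'`).
-/




set_option autoImplicit false

namespace Fermat.Agent.S30.H990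

open Polynomial Fermat.Agent.S55.H414

section Assembly

variable {p N : ℕ} [Fact p.Prime] [NeZero N] {S : Finset ℕ}
  {𝒪 : Type} [CommRing 𝒪] [IsDomain 𝒪] [IsDiscreteValuationRing 𝒪]
  [IsAdicComplete (IsLocalRing.maximalIdeal 𝒪) 𝒪] [Finite (IsLocalRing.ResidueField 𝒪)]
  {χ : CuspForm.heckeAlgebra N 2 (↑S : Set ℕ) →+* 𝒪}

/-- The quadratic relation modulo `𝔪 ^ n` for every element of `G_ℚ`. -/
theorem exists_rel_mod (hcheb : ChebWeak) (hpS : p ∈ S)
    (hNS : ∀ q : ℕ, q.Prime → q ∣ N → q ∈ S) (E : AdicEigenModule p N S 𝒪 χ)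
    (d : GQ →* 𝒪ˣ)
    (hdfrob : ∀ ℓ : ℕ, ℓ.Prime → ℓ ≠ p → ∀ A : ValuationSubring (AlgebraicClosure ℚ),
      A.LiesOverPrime ℓ → ∀ σ : GQ, A.IsFrobeniusAt σ ℓ → ((d σ : 𝒪ˣ) : 𝒪) = (ℓ : 𝒪))
    (hdcont : ∀ (n : ℕ) (σ : GQ), (∀ x ∈ cycloLevel (p ^ n), σ x = x) →
      ((d σ : 𝒪ˣ) : 𝒪) - 1 ∈ IsLocalRing.maximalIdeal 𝒪 ^ n)
    (g : GQ) (n : ℕ) :
    ∃ a : 𝒪, ∀ v : E.M, E.ρ g (E.ρ g v) - a • E.ρ g v + ((d g : 𝒪ˣ) : 𝒪) • v
      ∈ (IsLocalRing.maximalIdeal 𝒪 ^ n) • (⊤ : Submodule 𝒪 E.M) := by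
  obtain ⟨L₁, hL₁fin, hL₁⟩ := E.cont n
  have : FiniteDimensional ℚ L₁ := hL₁fin
  have hLfin : FiniteDimensional ℚ ↥(L₁ ⊔ cycloLevel (p ^ n)) :=
    IntermediateField.finiteDimensional_sup L₁ (cycloLevel (p ^ n))
  obtain ⟨ℓ, hℓ, hℓS, A, hA, τ, hτ, j, hj⟩ := hcheb (L₁ ⊔ cycloLevel (p ^ n)) hLfin g S
  have hℓp : ℓ ≠ p := fun h => hℓS (h ▸ hpS)
  have hℓN : ¬ ℓ ∣ N := fun h => hℓS (hNS ℓ hℓ h)
  have hℓS' : ℓ ∉ (↑S : Set ℕ) := fun h => hℓS (Finset.mem_coe.mp h)
  -- `g = τ ^ j * σ` with `σ` fixing `L`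
  set σ : GQ := (τ ^ j)⁻¹ * g with hσ
  have hg : g = τ ^ j * σ := by rw [hσ, mul_inv_cancel_left]
  have hσfix : ∀ x ∈ L₁ ⊔ cycloLevel (p ^ n), σ x = x := by
    intro x hx
    have h1 : σ x = (τ ^ j)⁻¹ (g x) := rfl
    rw [h1, hj x hx]
    exact (τ ^ j).symm_apply_apply x
  have hs : ∀ v : E.M, E.ρ σ v - v
      ∈ (IsLocalRing.maximalIdeal 𝒪 ^ n) • (⊤ : Submodule 𝒪 E.M) :=
    hL₁ σ (fun x hx => hσfix x ((le_sup_left : L₁ ≤ L₁ ⊔ cycloLevel (p ^ n)) hx))
  have hu : ((d σ : 𝒪ˣ) : 𝒪) - 1 ∈ IsLocalRing.maximalIdeal 𝒪 ^ n :=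
    hdcont n σ (fun x hx =>
      hσfix x ((le_sup_right : cycloLevel (p ^ n) ≤ L₁ ⊔ cycloLevel (p ^ n)) hx))
  have hfrob := E.frob ℓ hℓ hℓN hℓS' A hA τ hτ
  obtain ⟨t, ht⟩ := lucas (E.ρ τ) (χ (CuspForm.heckeAlgebra.T hℓ hℓN hℓS')) (ℓ : 𝒪) hfrob j
  refine ⟨t, fun v => ?_⟩
  have key := rel_mod_of_mul (IsLocalRing.maximalIdeal 𝒪 ^ n) (E.ρ τ ^ j) (E.ρ σ) t
    ((ℓ : 𝒪) ^ j) ((d σ : 𝒪ˣ) : 𝒪) ht hs hu v
  have hρg : E.ρ g = E.ρ τ ^ j * E.ρ σ := by rw [hg, map_mul, map_pow]
  have hdg : ((d g : 𝒪ˣ) : 𝒪) = (ℓ : 𝒪) ^ j * ((d σ : 𝒪ˣ) : 𝒪) := by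
    rw [hg, map_mul, map_pow, Units.val_mul, Units.val_pow_eq_pow_val,
      hdfrob ℓ hℓ hℓp A hA τ hτ]
  rw [hρg, hdg]
  exact key

/-- From an adic eigenmodule to a two-dimensional adic Galois representation. -/
theorem exists_galoisRepAdic [CharZero 𝒪] (hcheb : ChebWeak) (hpS : p ∈ S)
    (hNS : ∀ q : ℕ, q.Prime → q ∣ N → q ∈ S)
    (hp𝒪 : (p : 𝒪) ∈ IsLocalRing.maximalIdeal 𝒪) (E : AdicEigenModule p N S 𝒪 χ) :
    ∃ ρ : GaloisRepAdic 𝒪,
      (∀ (ℓ : ℕ) (hℓ : ℓ.Prime) (hℓN : ¬ ℓ ∣ N) (hℓS : ℓ ∉ (↑S : Set ℕ)),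
        ∀ A : ValuationSubring (AlgebraicClosure ℚ), A.LiesOverPrime ℓ →
          ∀ σ : AlgebraicClosure ℚ ≃ₐ[ℚ] AlgebraicClosure ℚ, A.IsFrobeniusAt σ ℓ →
            LinearMap.charpoly (ρ.ρ σ) =
              X ^ 2 - C (χ (CuspForm.heckeAlgebra.T hℓ hℓN hℓS)) * X + C ((ℓ : 𝒪))) ∧
      (∀ q : ℕ, q.Prime → ¬ q ∣ N → q ≠ p → ρ.IsUnramifiedAt q) := by
  obtain ⟨d, hdfrob, hdinert, hdc, hdcont⟩ := exists_cyclo p 𝒪 hp𝒪
  have hrel : ∀ g : GQ, ∃ a, Rel E.ρ d g a := fun g =>
    exists_rel_of_mod E.ρ d g (fun n => exists_rel_mod hcheb hpS hNS E d hdfrob hdcont g n)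
  have h2 : (2 : 𝒪) ≠ 0 := two_ne_zero
  obtain ⟨T⟩ := exists_twoDim E.ρ d h2 hrel complexConjugation complexConjugation_mul_self hdc
  refine ⟨{ V := T.V
            finrank_eq := T.finrank_eq
            ρ := T.ρ₂
            isAdicContinuous := ?_ }, ?_, ?_⟩
  · intro n
    obtain ⟨L₁, hL₁fin, hL₁⟩ := E.cont n
    have : FiniteDimensional ℚ L₁ := hL₁fin
    refine ⟨L₁ ⊔ cycloLevel (p ^ n),
      IntermediateField.finiteDimensional_sup L₁ (cycloLevel (p ^ n)), fun σ hσ v => ?_⟩
    refine T.cong (IsLocalRing.maximalIdeal 𝒪 ^ n) σ ?_ ?_ v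
    · exact hL₁ σ (fun x hx => hσ x ((le_sup_left : L₁ ≤ L₁ ⊔ cycloLevel (p ^ n)) hx))
    · exact hdcont n σ (fun x hx =>
        hσ x ((le_sup_right : cycloLevel (p ^ n) ≤ L₁ ⊔ cycloLevel (p ^ n)) hx))
  · intro ℓ hℓ hℓN hℓS A hA σ hσ
    have hℓp : ℓ ≠ p := fun h => hℓS (Finset.mem_coe.mpr (h ▸ hpS))
    have hr : Rel E.ρ d σ (χ (CuspForm.heckeAlgebra.T hℓ hℓN hℓS)) := by
      unfold Rel
      rw [hdfrob ℓ hℓ hℓp A hA σ hσ]
      exact E.frob ℓ hℓ hℓN hℓS A hA σ hσ
    have := T.charpoly_eq σ _ hr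
    rw [hdfrob ℓ hℓ hℓp A hA σ hσ] at this
    exact this
  · intro q hq hqN hqp P hP σ hσ
    have h1 : E.ρ σ = 1 := E.unram q hq hqN hqp P hP σ hσ
    have h2 : d σ = 1 := hdinert q hq hqp P hP σ hσ
    have h3 := T.cong ⊥ σ (fun v => by rw [h1]; simp) (by rw [h2]; simp)
    ext v
    have h4 := h3 v
    rw [Submodule.bot_smul, Submodule.mem_bot, sub_eq_zero] at h4
    simpa using h4

end Assembly

/-- **S30 from the Chebotarev hypothesis and the adic eigenmodules.** -/
theorem result_of (hcheb : ChebWeak) (hmod : HasAdicEigenModules) :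
    ∀ (p : ℕ) [Fact p.Prime] (N : ℕ) [NeZero N] (S : Finset ℕ)
      (_hpS : p ∈ S) (_hNS : ∀ q : ℕ, q.Prime → q ∣ N → q ∈ S)
      (𝒪' : Type) [CommRing 𝒪'] [IsDomain 𝒪'] [IsDiscreteValuationRing 𝒪']
      [IsAdicComplete (IsLocalRing.maximalIdeal 𝒪') 𝒪'] [Finite (IsLocalRing.ResidueField 𝒪')]
      [CharZero 𝒪'] (_hp𝒪' : (p : 𝒪') ∈ IsLocalRing.maximalIdeal 𝒪')
      (χ : CuspForm.heckeAlgebra N 2 (↑S : Set ℕ) →+* 𝒪'),
      ∃ (𝒪'' : Type) (_ : CommRing 𝒪'') (_ : IsDomain 𝒪'') (_ : IsDiscreteValuationRing 𝒪'')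
        (_ : IsAdicComplete (IsLocalRing.maximalIdeal 𝒪'') 𝒪'')
        (_ : Finite (IsLocalRing.ResidueField 𝒪'')) (_ : CharZero 𝒪'')
        (_ : Algebra 𝒪' 𝒪'') (_ : Module.Finite 𝒪' 𝒪'') (_ : IsLocalHom (algebraMap 𝒪' 𝒪'')),
      Function.Injective (algebraMap 𝒪' 𝒪'') ∧
      ∃ ρ : GaloisRepAdic 𝒪'',
        (∀ (ℓ : ℕ) (hℓ : ℓ.Prime) (hℓN : ¬ ℓ ∣ N) (hℓS : ℓ ∉ (↑S : Set ℕ)),
          ∀ A : ValuationSubring (AlgebraicClosure ℚ), A.LiesOverPrime ℓ →
            ∀ σ : AlgebraicClosure ℚ ≃ₐ[ℚ] AlgebraicClosure ℚ, A.IsFrobeniusAt σ ℓ →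
              LinearMap.charpoly (ρ.ρ σ) =
                X ^ 2 - C (algebraMap 𝒪' 𝒪'' (χ (CuspForm.heckeAlgebra.T hℓ hℓN hℓS))) * X
                  + C ((ℓ : 𝒪''))) ∧
        (∀ q : ℕ, q.Prime → ¬ q ∣ N → q ≠ p → ρ.IsUnramifiedAt q) := by
  intro p _ N _ S hpS hNS 𝒪' _ _ _ _ _ _ hp𝒪' χ
  obtain ⟨E⟩ := hmod p N S hpS hNS 𝒪' hp𝒪' χ
  obtain ⟨ρ, hρ1, hρ2⟩ := exists_galoisRepAdic hcheb hpS hNS hp𝒪' E
  exact ⟨𝒪', inferInstance, inferInstance, inferInstance, inferInstance, inferInstance,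
    inferInstance, Algebra.id 𝒪', Module.Finite.self 𝒪', isLocalHom_id 𝒪',
    Function.injective_id, ρ, hρ1, hρ2⟩

end Fermat.Agent.S30.H990

end
-- ===== PACK-END S30/H990/Glue.lean

-- ===== PACK-BEGIN S28/H208/Span.lean
section
/-
S28 [L4] = [L.UP]: spanning monomials, uniform in the field `k`.

`exists_spanning_monomials`: from `ModPolyData r` for the primes `r ∣ N` one gets
`dedekindPsi N` monomials in the `j(q^d)`, `d ∣ N` (defined over `ℤ`), whose images span
`k(j(q^d) : d ∣ N)` over `k(j)` for EVERY field `k` in which `N` is invertible.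
-/







set_option autoImplicit false

noncomputable section

open ModularCurve Polynomial IntermediateField

namespace Fermat.Agent.S28.H208

/-! ### Arithmetic of `dedekindPsi` (copied from helper872, `Fermat.Agent.S20.H872`) -/

section Psi

theorem psi_mul_prime_of_dvd {N p : ℕ} (hN : N ≠ 0) (hp : p.Prime) (hpN : p ∣ N) :
    ModularCurve.dedekindPsi (N * p) = p * ModularCurve.dedekindPsi N := by
  unfold ModularCurve.dedekindPsi
  have hset : (N * p).divisors.filter Squarefree = N.divisors.filter Squarefree := by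
    ext d
    simp only [Finset.mem_filter, Nat.mem_divisors]
    constructor
    · rintro ⟨⟨hd, _⟩, hsq⟩
      refine ⟨⟨?_, hN⟩, hsq⟩
      have h2 : d ∣ N ^ 2 := by
        rw [pow_two]
        exact hd.trans (mul_dvd_mul_left N hpN)
      exact (hsq.dvd_pow_iff_dvd two_ne_zero).1 h2
    · rintro ⟨⟨hd, _⟩, hsq⟩
      exact ⟨⟨hd.mul_right p, mul_ne_zero hN hp.ne_zero⟩, hsq⟩
  rw [hset, Finset.mul_sum]
  refine Finset.sum_congr rfl fun d hd => ?_
  have hdN : d ∣ N := (Nat.mem_divisors.1 (Finset.mem_filter.1 hd).1).1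
  obtain ⟨e, rfl⟩ := hdN
  have hd0 : 0 < d := Nat.pos_of_ne_zero (by rintro rfl; simp at hN)
  rw [mul_assoc, Nat.mul_div_cancel_left _ hd0, Nat.mul_div_cancel_left _ hd0, mul_comm]

theorem psi_mul_prime_of_not_dvd {N p : ℕ} (hN : N ≠ 0) (hp : p.Prime) (hpN : ¬ p ∣ N) :
    ModularCurve.dedekindPsi (N * p) = (p + 1) * ModularCurve.dedekindPsi N := by
  unfold ModularCurve.dedekindPsi
  have hcop : ∀ d, d ∣ N → Nat.Coprime d p := fun d hd =>
    (Nat.Coprime.symm ((Nat.Prime.coprime_iff_not_dvd hp).2 fun h => hpN (h.trans hd)))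
  have hset : (N * p).divisors.filter Squarefree
      = (N.divisors.filter Squarefree) ∪ (N.divisors.filter Squarefree).image (· * p) := by
    ext d
    simp only [Finset.mem_filter, Nat.mem_divisors, Finset.mem_union, Finset.mem_image]
    constructor
    · rintro ⟨⟨hd, _⟩, hsq⟩
      by_cases hpd : p ∣ d
      · right
        obtain ⟨e, rfl⟩ := hpd
        refine ⟨e, ⟨⟨?_, hN⟩, hsq.squarefree_of_dvd (Dvd.intro_left p rfl)⟩, mul_comm e p⟩
        rw [mul_comm p e] at hd
        exact Nat.dvd_of_mul_dvd_mul_right hp.pos hd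
      · left
        refine ⟨⟨?_, hN⟩, hsq⟩
        have : Nat.Coprime d p := (Nat.Coprime.symm ((Nat.Prime.coprime_iff_not_dvd hp).2 hpd))
        exact this.dvd_of_dvd_mul_right hd
    · rintro (⟨⟨hd, _⟩, hsq⟩ | ⟨e, ⟨⟨he, _⟩, hsq⟩, rfl⟩)
      · exact ⟨⟨hd.mul_right p, mul_ne_zero hN hp.ne_zero⟩, hsq⟩
      · refine ⟨⟨mul_dvd_mul_right he p, mul_ne_zero hN hp.ne_zero⟩, ?_⟩
        exact (Nat.squarefree_mul (hcop e he)).2 ⟨hsq, hp.squarefree⟩
  have hdisj : Disjoint (N.divisors.filter Squarefree)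
      ((N.divisors.filter Squarefree).image (· * p)) := by
    rw [Finset.disjoint_left]
    intro d hd hd'
    simp only [Finset.mem_filter, Nat.mem_divisors, Finset.mem_image] at hd hd'
    obtain ⟨e, _, rfl⟩ := hd'
    exact hpN ((Dvd.intro_left e rfl).trans hd.1.1)
  rw [hset, Finset.sum_union hdisj, Finset.sum_image, add_mul, one_mul, Finset.mul_sum]
  · congr 1
    · refine Finset.sum_congr rfl fun d hd => ?_
      have hdN : d ∣ N := (Nat.mem_divisors.1 (Finset.mem_filter.1 hd).1).1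
      obtain ⟨e, rfl⟩ := hdN
      have hd0 : 0 < d := Nat.pos_of_ne_zero (by rintro rfl; simp at hN)
      rw [mul_assoc, Nat.mul_div_cancel_left _ hd0, Nat.mul_div_cancel_left _ hd0, mul_comm]
    · refine Finset.sum_congr rfl fun d hd => ?_
      exact Nat.mul_div_mul_right N d hp.pos
  · intro a _ b _ hab
    exact Nat.eq_of_mul_eq_mul_right hp.pos hab

/-- The degree of the tower step `M → p * M`. -/
def stepDeg (M p : ℕ) : ℕ := if p ∣ M then p else p + 1

theorem stepDeg_pos (M p : ℕ) (hp : p.Prime) : 0 < stepDeg M p := by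
  unfold stepDeg
  split_ifs
  · exact hp.pos
  · exact Nat.succ_pos p

theorem psi_mul_stepDeg {M p : ℕ} (hM : M ≠ 0) (hp : p.Prime) :
    ModularCurve.dedekindPsi M * stepDeg M p = ModularCurve.dedekindPsi (p * M) := by
  unfold stepDeg
  rw [mul_comm p M]
  split_ifs with h
  · rw [psi_mul_prime_of_dvd hM hp h, mul_comm]
  · rw [psi_mul_prime_of_not_dvd hM hp h, mul_comm]

end Psi

/-! ### Integrality of the tower generator, with degree -/

section Integral

variable {k : Type*} [Field k]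

theorem towerGen_ne {M p : ℕ} [NeZero p] (hp : p.Prime) (a' : ℕ)
    (ha : M.factorization p = a' + 1) :
    towerGen k M p ≠ qExpand k (p ^ a') (jqModC k) := by
  intro h
  have h1 : (towerGen k M p).coeff (-((p * p ^ M.factorization p : ℕ) : ℤ)) = 1 :=
    coeff_jd_neg k _
  rw [h, coeff_jd_of_lt] at h1
  · exact zero_ne_one h1
  · rw [ha]
    have hp2 := hp.two_le
    have hpos : 0 < p ^ a' := pow_pos hp.pos a'
    have h4 : 4 ≤ p * p := Nat.mul_le_mul hp2 hp2
    have h5 := Nat.mul_le_mul_left (p ^ a') h4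
    have : p ^ a' < p * p ^ (a' + 1) := by
      rw [pow_succ]
      nlinarith
    exact_mod_cast neg_lt_neg (by exact_mod_cast this : ((p ^ a' : ℕ) : ℤ) < (p * p ^ (a' + 1) : ℕ))

theorem exists_monic_towerGen (M p : ℕ) [NeZero M] [NeZero p] (hp : p.Prime)
    (Dp : ModPolyData p) :
    ∃ Q : Polynomial (modularFunctionFieldFullC k M), Q.Monic ∧
      Q.natDegree = stepDeg M p ∧ Polynomial.aeval (towerGen k M p) Q = 0 := by
  have hM0 : M ≠ 0 := NeZero.ne M
  by_cases hpM : p ∣ M
  · -- old prime: divide by the known root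
    obtain ⟨a', ha⟩ : ∃ a', M.factorization p = a' + 1 :=
      Nat.exists_eq_succ_of_ne_zero (hp.factorization_pos_of_dvd hM0 hpM).ne'
    have hP0 : p ^ (a' + 1) ∣ M := by
      rw [← ha]; exact Nat.ordProj_dvd M p
    have hP1 : p ^ a' ∣ M := (pow_dvd_pow p (Nat.le_succ a')).trans hP0
    let y₀ : modularFunctionFieldFullC k M := ⟨qExpand k (p ^ (a' + 1)) (jqModC k), jd_mem_full hP0⟩
    let y₁ : modularFunctionFieldFullC k M := ⟨qExpand k (p ^ a') (jqModC k), jd_mem_full hP1⟩
    let Φ' : Polynomial (modularFunctionFieldFullC k M) := Dp.Φ.map (evZ y₀)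
    have hΦ'monic : Φ'.Monic := Dp.monic.map _
    have hΦ'deg : Φ'.natDegree = p + 1 := by
      rw [Dp.monic.natDegree_map, Dp.natDegree_eq]
    have hΦ'map : Φ'.map (algebraMap (modularFunctionFieldFullC k M) (LaurentSeries k)) =
        Dp.Φ.map (evZ (qExpand k (p ^ (a' + 1)) (jqModC k))) := map_map_evZ _ _ _
    have hroot : Φ'.IsRoot y₁ := by
      rw [Polynomial.IsRoot]
      apply (algebraMap (modularFunctionFieldFullC k M) (LaurentSeries k)).injective
      rw [map_zero, ← Polynomial.eval_map_apply, hΦ'map, Polynomial.eval_map]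
      have h := eval_j_ring_qExpand k Dp (p ^ a')
      rw [qExpand_congr (pow_succ p a').symm] at h
      exact h
    have hfac : (X - C y₁) * (Φ' /ₘ (X - C y₁)) = Φ' :=
      Polynomial.mul_divByMonic_eq_iff_isRoot.mpr hroot
    refine ⟨Φ' /ₘ (X - C y₁), ?_, ?_, ?_⟩
    · exact Polynomial.Monic.of_mul_monic_left (Polynomial.monic_X_sub_C y₁)
        (by rw [hfac]; exact hΦ'monic)
    · rw [Polynomial.natDegree_divByMonic _ (Polynomial.monic_X_sub_C y₁), hΦ'deg,
        Polynomial.natDegree_X_sub_C, stepDeg, if_pos hpM]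
      rfl
    · have hΦ'ξ : Polynomial.aeval (towerGen k M p) Φ' = 0 := by
        have hξ : towerGen k M p = qExpand k (p ^ (a' + 1) * p) (jqModC k) :=
          qExpand_congr (by rw [ha]; ring) _
        rw [Polynomial.aeval_def, ← Polynomial.eval_map, hΦ'map, Polynomial.eval_map, hξ]
        exact eval_jp_ring_qExpand k Dp (p ^ (a' + 1))
      rw [← hfac, map_mul, map_sub, Polynomial.aeval_X, Polynomial.aeval_C] at hΦ'ξ
      rcases mul_eq_zero.mp hΦ'ξ with h | h
      · exact absurd (sub_eq_zero.mp h) (towerGen_ne hp a' ha)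
      · exact h
  · -- new prime
    have ha : M.factorization p = 0 := Nat.factorization_eq_zero_of_not_dvd hpM
    let y₀ : modularFunctionFieldFullC k M := ⟨jqModC k, jqModC_mem_full k M⟩
    refine ⟨Dp.Φ.map (evZ y₀), Dp.monic.map _, ?_, ?_⟩
    · rw [Dp.monic.natDegree_map, Dp.natDegree_eq, stepDeg, if_neg hpM]
    · have hmap : (Dp.Φ.map (evZ y₀)).map
          (algebraMap (modularFunctionFieldFullC k M) (LaurentSeries k)) =
          Dp.Φ.map (evZ (jqModC k)) := map_map_evZ _ _ _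
      have hξ : towerGen k M p = qExpand k p (jqModC k) :=
        qExpand_congr (by rw [ha]; simp) _
      rw [Polynomial.aeval_def, ← Polynomial.eval_map, hmap, Polynomial.eval_map, hξ]
      exact eval_jp_ring k Dp

end Integral

/-! ### The spanning step -/

section SpanStep

variable {k : Type*} [Field k]

theorem mul_mem_span_of_mem_span {ι : Type*} (y : ι → LaurentSeries k) (w : LaurentSeries k)
    {z : LaurentSeries k} (hz : z ∈ Submodule.span (jField k) (Set.range y)) :
    z * w ∈ Submodule.span (jField k) (Set.range fun i => y i * w) := by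
  induction hz using Submodule.span_induction with
  | mem x hx =>
    obtain ⟨i, rfl⟩ := hx
    exact Submodule.subset_span ⟨i, rfl⟩
  | zero => rw [zero_mul]; exact Submodule.zero_mem _
  | add x y _ _ hx hy => rw [add_mul]; exact Submodule.add_mem _ hx hy
  | smul c x _ hx => rw [smul_mul_assoc]; exact Submodule.smul_mem _ c hx

theorem span_step (M p : ℕ) [NeZero M] [NeZero p] (hp : p.Prime)
    (hk : ((p * M : ℕ) : k) ≠ 0) (hΦ : HasModPoly (p * M))
    {n : ℕ} (y : Fin n → LaurentSeries k)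
    (hy : ∀ z ∈ modularFunctionFieldFullC k M, z ∈ Submodule.span (jField k) (Set.range y)) :
    ∀ x ∈ modularFunctionFieldFullC k (p * M),
      x ∈ Submodule.span (jField k)
        (Set.range fun t : Fin n × Fin (stepDeg M p) => y t.1 * towerGen k M p ^ (t.2 : ℕ)) := by
  intro x hx
  obtain ⟨Dp⟩ := hΦ p hp (Dvd.intro _ rfl)
  obtain ⟨Q, hQmonic, hQdeg, hQξ⟩ := exists_monic_towerGen (k := k) M p hp Dp
  have hint : IsIntegral (modularFunctionFieldFullC k M) (towerGen k M p) :=
    ⟨Q, hQmonic, by rwa [Polynomial.aeval_def] at hQξ⟩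
  have hx' : x ∈ (IntermediateField.adjoin (modularFunctionFieldFullC k M)
      ({towerGen k M p} : Set (LaurentSeries k))) := full_le_adjoin_tower M p hp hk hΦ hx
  have hx'' : x ∈ (IntermediateField.adjoin (modularFunctionFieldFullC k M)
      ({towerGen k M p} : Set (LaurentSeries k))).toSubalgebra := hx'
  rw [IntermediateField.adjoin_simple_toSubalgebra_of_isAlgebraic hint.isAlgebraic,
    Algebra.adjoin_singleton_eq_range_aeval] at hx''
  obtain ⟨f, rfl⟩ := hx''
  have hQ1 : Q ≠ 1 := by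
    intro h
    have := stepDeg_pos M p hp
    rw [← hQdeg, h, Polynomial.natDegree_one] at this
    exact lt_irrefl _ this
  have hdeg : (f %ₘ Q).natDegree < stepDeg M p := by
    rw [← hQdeg]
    exact Polynomial.natDegree_modByMonic_lt f hQmonic hQ1
  have hf : Polynomial.aeval (towerGen k M p) f = Polynomial.aeval (towerGen k M p) (f %ₘ Q) :=
    (Polynomial.aeval_modByMonic_eq_self_of_root hQξ).symm
  show Polynomial.aeval (towerGen k M p) f ∈ _
  rw [hf, Polynomial.aeval_eq_sum_range' hdeg]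
  refine Submodule.sum_mem _ fun m hm => ?_
  have hm' : m < stepDeg M p := Finset.mem_range.mp hm
  have hc : (((f %ₘ Q).coeff m : modularFunctionFieldFullC k M) : LaurentSeries k) ∈
      Submodule.span (jField k) (Set.range y) := hy _ ((f %ₘ Q).coeff m).2
  have h1 := mul_mem_span_of_mem_span y (towerGen k M p ^ m) hc
  have h2 : Submodule.span (jField k) (Set.range fun i => y i * towerGen k M p ^ m) ≤
      Submodule.span (jField k)
        (Set.range fun t : Fin n × Fin (stepDeg M p) => y t.1 * towerGen k M p ^ (t.2 : ℕ)) := by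
    apply Submodule.span_mono
    rintro _ ⟨i, rfl⟩
    exact ⟨(i, ⟨m, hm'⟩), rfl⟩
  have h3 : ((f %ₘ Q).coeff m) • (towerGen k M p ^ m) =
      (((f %ₘ Q).coeff m : modularFunctionFieldFullC k M) : LaurentSeries k) *
        towerGen k M p ^ m := by
    rw [Algebra.smul_def]
    rfl
  rw [h3]
  exact h2 h1

end SpanStep

/-! ### The main theorem -/

section Main

theorem intDivisorExpansions_mono {M N : ℕ} (h : M ∣ N) :
    intDivisorExpansions M ⊆ intDivisorExpansions N := by
  rintro x ⟨d, hd0, hd, rfl⟩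
  exact ⟨d, hd0, hd.trans h, rfl⟩

/-- **Spanning monomials, uniform in `k`.** -/
theorem exists_spanning_monomials (N : ℕ) (hN : N ≠ 0) (hΦ : HasModPoly N) :
    ∃ (n : ℕ) (y : Fin n → LaurentSeries ℤ), n = dedekindPsi N ∧
      (∀ i, y i ∈ Subring.closure (intDivisorExpansions N)) ∧
      ∀ (k : Type) [Field k], (N : k) ≠ 0 →
        ∀ x ∈ modularFunctionFieldFullC k N,
          x ∈ Submodule.span (jField k)
            (Set.range fun i => coeffMap (Int.castRingHom k) (y i)) := by
  induction N using induction_on_primes with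
  | zero => exact absurd rfl hN
  | one =>
    refine ⟨1, fun _ => 1, dedekindPsi_one.symm, fun _ => Subring.one_mem _, ?_⟩
    intro k _ _ x hx
    have hle : modularFunctionFieldFullC k 1 ≤ jField k := by
      rw [modularFunctionFieldFullC, IntermediateField.adjoin_le_iff]
      rintro _ ⟨d, hd0, hd, rfl⟩
      have hd1 : d = 1 := Nat.dvd_one.mp hd
      subst hd1
      rw [qExpand_one_apply]
      exact IntermediateField.subset_adjoin k _ rfl
    have hxj : x ∈ jField k := hle hx
    have h1 : (1 : LaurentSeries k) ∈ Submodule.span (jField k)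
        (Set.range fun _ : Fin 1 => coeffMap (Int.castRingHom k) (1 : LaurentSeries ℤ)) := by
      apply Submodule.subset_span
      exact ⟨0, map_one _⟩
    have h2 := Submodule.smul_mem _ (⟨x, hxj⟩ : jField k) h1
    have h3 : (⟨x, hxj⟩ : jField k) • (1 : LaurentSeries k) = x := by
      rw [Algebra.smul_def, mul_one]
      rfl
    rwa [h3] at h2
  | prime_mul p M hp ih =>
    have hM : M ≠ 0 := fun h => hN (by rw [h, mul_zero])
    haveI : NeZero M := ⟨hM⟩
    haveI : NeZero p := ⟨hp.ne_zero⟩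
    obtain ⟨n, y, hn, hcl, hspan⟩ := ih hM (hΦ.of_dvd (Dvd.intro_left _ rfl))
    refine ⟨n * stepDeg M p,
      fun t => y (finProdFinEquiv.symm t).1 * towerGenZ M p ^ ((finProdFinEquiv.symm t).2 : ℕ),
      ?_, ?_, ?_⟩
    · rw [hn, psi_mul_stepDeg hM hp]
    · intro t
      refine Subring.mul_mem _ ?_ (Subring.pow_mem _ ?_ _)
      · exact Subring.closure_mono (intDivisorExpansions_mono (Dvd.intro_left _ rfl)) (hcl _)
      · apply Subring.subset_closure
        refine ⟨p * p ^ M.factorization p, inferInstance, ?_, rfl⟩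
        exact Nat.mul_dvd_mul_left p (Nat.ordProj_dvd M p)
    · intro k _ hk x hx
      have hkM : (M : k) ≠ 0 := natCast_ne_zero_of_dvd (Dvd.intro_left _ rfl) hk
      have h := span_step (k := k) M p hp hk hΦ
        (fun i => coeffMap (Int.castRingHom k) (y i)) (hspan k hkM) x hx
      refine Submodule.span_mono ?_ h
      rintro _ ⟨t, rfl⟩
      refine ⟨finProdFinEquiv t, ?_⟩
      simp only [Equiv.symm_apply_apply, map_mul, map_pow, coeffMap_towerGenZ]

end Main

end Fermat.Agent.S28.H208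

end

end
-- ===== PACK-END S28/H208/Span.lean

-- ===== PACK-BEGIN A2/H313/Const.lean
section



/-!
# A2 / route G, leaf CONST (helper313): `ConstConclusion` in the exact `GSpec` form

`H12.GSpec.ConstConclusion L x` asks, for a cover `L / F`:

* `closed` : `R` is integrally closed in `L`;
* `finite` : `L` is finite over `baseField R x_L`.

Here:

* `finiteDimensional_baseField_tower` : `F` finite over `baseField R x` and `L` finite over `F`
  imply `L` finite over `baseField R (algebraMap F L x)` (no hypothesis on `R`).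
* `closed_of_sheet` : `R` a henselian DVR with algebraically closed residue field, `L ⊇ R` a field
  of characteristic `0`, `W` a valuation subring of `L` containing `R` whose non-units are the
  multiples of `w` (a sheet with `e = 1`): `R` is integrally closed in `L` (`hens_integral`).
* `constConclusion_of_sheets` : `SheetsConclusion L w x` + one sheet of `F` ⇒ `ConstConclusion L x`.
* `hConst_of_hSheets` : the hypothesis `hConst` of `H12.algG` from its hypothesis `hSheets`.
-/

set_option autoImplicit false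
set_option linter.style.haveILetI false

namespace Fermat.Agent.A2.H313

open Fermat.Agent.S18.H138 (baseField)
open Fermat.Agent.A2.H12

universe u

section Finite

variable {R : Type*} [CommRing R] {F : Type*} [Field F] [Algebra R F]
  {L : Type*} [Field L] [Algebra F L] [Algebra R L] [IsScalarTower R F L]

/-- The image of `baseField R x` in a cover lies in `baseField R x_L`. -/
theorem algebraMap_mem_baseField (x : F) {a : F} (ha : a ∈ baseField R x) :
    algebraMap F L a ∈ baseField R (algebraMap F L x) := by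
  have hle : baseField R x ≤
      Subfield.comap (algebraMap F L) (baseField R (algebraMap F L x)) := by
    refine Subfield.closure_le.2 ?_
    rintro y (⟨r, rfl⟩ | hy)
    · rw [SetLike.mem_coe, Subfield.mem_comap, ← IsScalarTower.algebraMap_apply]
      exact Subfield.subset_closure (Or.inl ⟨r, rfl⟩)
    · rw [Set.mem_singleton_iff] at hy
      subst hy
      rw [SetLike.mem_coe, Subfield.mem_comap]
      exact Subfield.subset_closure (Or.inr rfl)
  exact hle ha

/-- **CONST, finiteness part.**  `L / F` finite and `F / baseField R x` finite imply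
`L / baseField R x_L` finite. -/
theorem finiteDimensional_baseField_tower (x : F) [FiniteDimensional (baseField R x) F]
    [FiniteDimensional F L] : FiniteDimensional (baseField R (algebraMap F L x)) L := by
  let φ : baseField R x →+* baseField R (algebraMap F L x) :=
    ((algebraMap F L).comp (baseField R x).subtype).codRestrict _
      (fun a => algebraMap_mem_baseField (R := R) (L := L) x a.2)
  letI : Algebra (baseField R x) (baseField R (algebraMap F L x)) := φ.toAlgebra
  haveI : IsScalarTower (baseField R x) (baseField R (algebraMap F L x)) L := by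
    refine ⟨fun a b c => ?_⟩
    have h1 : ((a • b : baseField R (algebraMap F L x)) : L) = algebraMap F L (a : F) * (b : L) := by
      rw [Algebra.smul_def]
      rfl
    rw [Subfield.smul_def, h1, Subfield.smul_def, Subfield.smul_def, smul_eq_mul, smul_eq_mul,
      Algebra.smul_def, mul_assoc]
  haveI : Module.Finite (baseField R x) L := Module.Finite.trans (R := baseField R x) F L
  exact Module.Finite.of_restrictScalars_finite (baseField R x) (baseField R (algebraMap F L x)) L

/-- With `E = Frac R`: `baseField R x` is the field `E(x)`. -/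
theorem baseField_eq_adjoin (E : Type*) [Field E] [Algebra R E] [IsFractionRing R E]
    [Algebra E F] [IsScalarTower R E F] (x : F) :
    baseField R x = (IntermediateField.adjoin E ({x} : Set F)).toSubfield := by
  rw [IntermediateField.adjoin_toSubfield]
  apply le_antisymm
  · refine Subfield.closure_mono (Set.union_subset_union_left _ ?_)
    rintro _ ⟨r, rfl⟩
    exact ⟨algebraMap R E r, (IsScalarTower.algebraMap_apply R E F r).symm⟩
  · refine Subfield.closure_le.2 ?_
    rintro y (⟨e, rfl⟩ | hy)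
    · obtain ⟨a, b, -, rfl⟩ := IsFractionRing.div_surjective (A := R) e
      rw [map_div₀, ← IsScalarTower.algebraMap_apply, ← IsScalarTower.algebraMap_apply]
      exact (baseField R x).div_mem (Subfield.subset_closure (Or.inl ⟨a, rfl⟩))
        (Subfield.subset_closure (Or.inl ⟨b, rfl⟩))
    · exact Subfield.subset_closure (Or.inr hy)

/-- `F` finite over `E(x)` (as in `AlgSSStatement`) implies `F` finite over `baseField R x`
(as in `H12.algG`, `H729`, `H348`). -/
theorem finiteDimensional_baseField_of_adjoin (E : Type*) [Field E] [Algebra R E]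
    [IsFractionRing R E] [Algebra E F] [IsScalarTower R E F] (x : F)
    [FiniteDimensional (IntermediateField.adjoin E ({x} : Set F)) F] :
    FiniteDimensional (baseField R x) F := by
  have hle : ∀ a : IntermediateField.adjoin E ({x} : Set F), (a : F) ∈ baseField R x := by
    intro a
    rw [baseField_eq_adjoin E x]
    exact a.2
  let φ : IntermediateField.adjoin E ({x} : Set F) →+* baseField R x :=
    (algebraMap (IntermediateField.adjoin E ({x} : Set F)) F).codRestrict _ hle
  letI : Algebra (IntermediateField.adjoin E ({x} : Set F)) (baseField R x) := φ.toAlgebra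
  haveI : IsScalarTower (IntermediateField.adjoin E ({x} : Set F)) (baseField R x) F := by
    refine ⟨fun a b c => ?_⟩
    have h1 : ((a • b : baseField R x) : F) = (a : F) * (b : F) := by
      rw [Algebra.smul_def]
      rfl
    rw [Subfield.smul_def, h1, Subfield.smul_def, smul_eq_mul, smul_eq_mul,
      Algebra.smul_def, mul_assoc]
    rfl
  exact Module.Finite.of_restrictScalars_finite (IntermediateField.adjoin E ({x} : Set F))
    (baseField R x) F

end Finite

section Closed

variable {R : Type*} [CommRing R] [IsDomain R] [IsDiscreteValuationRing R]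
  [HenselianLocalRing R] [IsAlgClosed (IsLocalRing.ResidueField R)]
  {L : Type*} [Field L] [CharZero L] [Algebra R L]

/-- **CONST, constants part.**  If some valuation subring `W` of `L` contains `R` and has
`𝔪_W = w W`, then `R` is integrally closed in `L` (indeed algebraically closed in `W`). -/
theorem closed_of_sheet (hinj : Function.Injective (algebraMap R L))
    (w : R) (hw : Irreducible w) (W : ValuationSubring L)
    (hRW : ∀ r : R, algebraMap R L r ∈ W)
    (hw1 : algebraMap R L w ∈ W.nonunits)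
    (hw2 : ∀ a ∈ W.nonunits, ∃ b ∈ W, a = algebraMap R L w * b)
    (y : L) (hy : IsIntegral R y) : y ∈ Set.range (algebraMap R L) := by
  haveI : FaithfulSMul R L := (faithfulSMul_iff_algebraMap_injective R L).2 hinj
  letI : Algebra (FractionRing R) L := FractionRing.liftAlgebra R L
  haveI : IsScalarTower R (FractionRing R) L := FractionRing.isScalarTower_liftAlgebra R L
  haveI : CharZero (FractionRing R) := (algebraMap (FractionRing R) L).charZero
  -- `y ∈ W`, since `W` is integrally closed and contains `R`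
  have hyW : y ∈ W := by
    obtain ⟨p, hp, hpy⟩ := hy
    let g : R →+* W := (algebraMap R L).codRestrict W.toSubring hRW
    have hint : IsIntegral W y := by
      refine ⟨p.map g, hp.map g, ?_⟩
      rw [Polynomial.eval₂_map]
      exact hpy
    obtain ⟨z, hz⟩ := (IsIntegrallyClosed.isIntegral_iff (R := W) (K := L)).1 hint
    rw [← hz]
    exact z.2
  have hyalg : IsAlgebraic (FractionRing R) y :=
    (hy.tower_top (A := FractionRing R)).isAlgebraic
  exact hens_integral (E := FractionRing R) w hw W hRW hw1 hw2 y hyW hyalg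

end Closed

section Leaf

variable {R : Type u} [CommRing R] [IsDomain R] [IsDiscreteValuationRing R]
  [HenselianLocalRing R] [IsAlgClosed (IsLocalRing.ResidueField R)]
  {F : Type u} [Field F] [Algebra R F] [CharZero F]

/-- **Leaf CONST of route G** for one cover: from the leaf SHEETS (only `exists_over` and `unif`
are used) and the existence of one sheet of `F`. -/
theorem constConclusion_of_sheets
    (L : Type u) [Field L] [Algebra F L] [Algebra R L] [IsScalarTower R F L]
    [FiniteDimensional F L]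
    (hinj : Function.Injective (algebraMap R F))
    (w : R) (hw : Prime w) (x : F) [FiniteDimensional (baseField R x) F]
    (hsheet : ∃ V : ValuationSubring F, IsSheet w x V)
    (hS : SheetsConclusion L w x) : ConstConclusion (R := R) L x where
  closed := by
    obtain ⟨V, hV⟩ := hsheet
    obtain ⟨W, hW, -⟩ := hS.exists_over V hV
    haveI : CharZero L := charZero_of_injective_algebraMap (algebraMap F L).injective
    have hinjL : Function.Injective (algebraMap R L) := by
      rw [IsScalarTower.algebraMap_eq R F L]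
      exact (algebraMap F L).injective.comp hinj
    exact closed_of_sheet hinjL w hw.irreducible W hW.1 hW.2.2.1 (hS.unif W hW)
  finite := finiteDimensional_baseField_tower x

/-- **Leaf CONST of route G**, in the exact shape of the hypothesis `hConst` of `H12.algG`,
from its hypothesis `hSheets` (and `hsheet`). -/
theorem hConst_of_hSheets
    (hinj : Function.Injective (algebraMap R F))
    (w : R) (hw : Prime w) (x : F) [FiniteDimensional (baseField R x) F] (m : ℕ)
    (hsheet : ∃ V : ValuationSubring F, IsSheet w x V)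
    (hSheets : ∀ (L : Type u) [Field L] [Algebra F L] [Algebra R L] [IsScalarTower R F L],
      IsKummerSplit L w x m → SheetsConclusion L w x) :
    ∀ (L : Type u) [Field L] [Algebra F L] [Algebra R L] [IsScalarTower R F L],
      IsKummerSplit L w x m → ConstConclusion (R := R) L x := by
  intro L _ _ _ _ hKS
  haveI := hKS.finite
  exact constConclusion_of_sheets L hinj w hw x hsheet (hSheets L hKS)

end Leaf

end Fermat.Agent.A2.H313

end
-- ===== PACK-END A2/H313/Const.lean

-- ===== PACK-BEGIN S36/H987/RegPure987.lean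
section


/-!
# S36 engine / cell REG: purity at a REGULAR closed point, abstract form

(Verbatim copy, under a fresh name, of `S36/H996/RegPure.lean` by helper996 — kept here so that
the G3 chain of helper987 does not wait for that file to land.)


`B` a Noetherian integrally closed domain with fraction field `F`, `n` a maximal ideal,
`p ≤ n` a prime which is generated by `x` locally at `n` and such that `B ⧸ p` is Dedekind
(so `B_n` is a regular local ring of dimension `≤ 2` with parameters `x, t`).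
If the divisor of `u ∈ Fˣ` is divisible by `m` at every height-one prime
(`S18.H754.DivisibleDivisor`), then `u · d ^ m` is a unit at `n` for some `d ∈ Fˣ`.

This is helper754's `pure_smooth_abs` with the hypothesis `(ϖ) = p ⊓ p'`, `p' ⊄ n` replaced by
local principality of `p` at `n` — the form needed at the TRIPLE points of the chart of
`X₀(q² M')`, where local principality of `p_FF` comes from `principal_of_unit` (`PU.lean`).
-/

set_option autoImplicit false
set_option linter.style.haveILetI false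

noncomputable section

namespace Fermat.Agent.S36.H987

open IsLocalRing
open Fermat.Agent.S18.H754 (DivisibleDivisor LocallyPow)
open Fermat.Agent.A2.Alg.H754 (LocU locU_of_frac_of_inv_frac)

variable {B F : Type*} [CommRing B] [IsDomain B] [Field F] [Algebra B F] [IsFractionRing B F]
variable [IsNoetherianRing B] [IsIntegrallyClosed B]

/-- **Purity at a regular point.** -/
theorem pure_regular_abs987 (x : B) (hx : x ≠ 0) (p : Ideal B) [hp : p.IsPrime]
    (n : Ideal B) (hn : n.IsMaximal) (hpn : p ≤ n) (hxp : x ∈ p)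
    (hgen : ∀ a ∈ p, ∃ g : B, g ∉ n ∧ ∃ c : B, g * a = x * c)
    (hD : IsDedekindDomain (B ⧸ p))
    (m : ℕ) (hm : 0 < m) (u : F) (hu : u ≠ 0) (hdiv : DivisibleDivisor B m u) :
    ∃ d : F, d ≠ 0 ∧ LocU n (u * d ^ m) := by
  classical
  haveI hnp : n.IsPrime := hn.isPrime
  have hinj : Function.Injective (algebraMap B F) := IsFractionRing.injective B F
  have hxn : x ∈ n := hpn hxp
  -- local generator of `n` modulo `p`
  obtain ⟨t, htn, hreg⟩ : ∃ t ∈ n, ∀ a ∈ n, ∃ s : B, s ∉ n ∧ s * a ∈ Ideal.span {x, t} := by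
    haveI := hD
    have hsurj : Function.Surjective (Ideal.Quotient.mk p) := Ideal.Quotient.mk_surjective
    have hM : (n.map (Ideal.Quotient.mk p)).IsMaximal := by
      haveI := hn
      exact Ideal.IsMaximal.map_of_surjective_of_ker_le hsurj (by rw [Ideal.mk_ker]; exact hpn)
    obtain ⟨tb, htb, sb, hsb, hall⟩ :=
      Fermat.Agent.S18.B12.H84.exists_local_generator (n.map (Ideal.Quotient.mk p)) hM
    obtain ⟨t, rfl⟩ := hsurj tb
    obtain ⟨s, rfl⟩ := hsurj sb
    have hmem : ∀ b : B, Ideal.Quotient.mk p b ∈ n.map (Ideal.Quotient.mk p) ↔ b ∈ n := by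
      intro b
      rw [← Ideal.mem_comap, Ideal.comap_map_of_surjective _ hsurj, ← RingHom.ker_eq_comap_bot,
        Ideal.mk_ker, sup_eq_left.2 hpn]
    have hsn : s ∉ n := fun h => hsb ((hmem s).2 h)
    refine ⟨t, (hmem t).1 htb, fun a ha => ?_⟩
    have h1 := hall _ ((hmem a).2 ha)
    rw [Ideal.mem_span_singleton'] at h1
    obtain ⟨cb, hcb⟩ := h1
    obtain ⟨c, rfl⟩ := hsurj cb
    have hd : s * a - c * t ∈ p := by
      rw [← Ideal.Quotient.eq, map_mul, map_mul]
      exact hcb.symm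
    obtain ⟨g, hgn, e, he⟩ := hgen _ hd
    refine ⟨g * s, fun h => (hnp.mem_or_mem h).elim hgn hsn, ?_⟩
    rw [Ideal.mem_span_pair]
    refine ⟨e, g * c, ?_⟩
    linear_combination (-1 : B) * he
  -- the local ring `A = B_n ⊆ F`
  let A : Subalgebra B F :=
    Localization.subalgebra.ofField F n.primeCompl n.primeCompl_le_nonZeroDivisors
  haveI : IsLocalization.AtPrime A n := (inferInstance : IsLocalization n.primeCompl A)
  haveI : IsLocalRing A := IsLocalization.AtPrime.isLocalRing A n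
  haveI : IsNoetherianRing A := IsLocalization.isNoetherianRing n.primeCompl A inferInstance
  have hmapp : Ideal.span {algebraMap B A x} = Ideal.map (algebraMap B A) p := by
    apply le_antisymm
    · rw [Ideal.span_singleton_le_iff_mem]
      exact Ideal.mem_map_of_mem _ hxp
    · rw [Ideal.map_le_iff_le_comap]
      intro b hb
      obtain ⟨g, hgn, c, hc⟩ := hgen b hb
      rw [Ideal.mem_comap]
      have hu : IsUnit (algebraMap B A g) :=
        IsLocalization.map_units A (⟨g, hgn⟩ : n.primeCompl)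
      have h2 : algebraMap B A g * algebraMap B A b ∈ Ideal.span {algebraMap B A x} := by
        rw [← map_mul, hc, map_mul]
        exact Ideal.mul_mem_right _ _ (Ideal.mem_span_singleton_self _)
      exact (Ideal.unit_mul_mem_iff_mem _ hu).1 h2
  have hprime : Prime (algebraMap B A x) := by
    have h0 : algebraMap B A x ≠ 0 := fun h =>
      hx (IsLocalization.injective A n.primeCompl_le_nonZeroDivisors (by rw [h, map_zero]))
    rw [← Ideal.span_singleton_prime h0, hmapp]
    refine IsLocalization.isPrime_of_isPrime_disjoint n.primeCompl A p hp ?_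
    rw [Set.disjoint_left]
    intro y hy hy'
    exact hy (hpn hy')
  have hmax : maximalIdeal A = Ideal.span {algebraMap B A x, algebraMap B A t} :=
    Fermat.Agent.S18.H754.maximalIdeal_loc_eq_span_pair n A hxn htn hreg
  haveI : UniqueFactorizationMonoid A :=
    Fermat.Agent.S18.H754.ufd_of_regular_pair _ _ hprime hmax
  obtain ⟨s, hs0, ε, hε⟩ := Fermat.Agent.S18.H754.exists_unit_mul_pow (R := A) m hm u hu
    (fun π hπ => Fermat.Agent.S18.H754.locallyPow_of_divisibleDivisor n A hdiv π hπ)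
  refine ⟨s, hs0, ?_⟩
  have hne : u * s ^ m ≠ 0 := mul_ne_zero hu (pow_ne_zero _ hs0)
  refine locU_of_frac_of_inv_frac n hne ?_ ?_
  · rw [hε]
    exact (Fermat.Agent.S18.H438.mem_ofField_primeCompl_iff n _).1 (ε : A).2
  · have e : (u * s ^ m)⁻¹ = algebraMap A F ((ε⁻¹ : Aˣ) : A) := by
      rw [hε]
      apply inv_eq_of_mul_eq_one_left
      rw [← map_mul, Units.inv_mul, map_one]
    rw [e]
    exact (Fermat.Agent.S18.H438.mem_ofField_primeCompl_iff n _).1 ((ε⁻¹ : Aˣ) : A).2

end Fermat.Agent.S36.H987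

end
end
-- ===== PACK-END S36/H987/RegPure987.lean

-- ===== PACK-BEGIN S36/H36/NewInv.lean
section
/-
S36 mid layer (helper36): the adic eigenmodule of the NEW part, without inertia invariants.

`exists_adic_galois_eigenmodule_inv` : helper529's `exists_adic_galois_eigenmodule` plus the
no-invariants transfer of `TateInv.lean`.

`exists_adic_eigenmodule_new_inv` : helper991's `exists_adic_eigenmodule_new` (eigenmodule built
inside `newSub f = {x | ∀ γ c, f c (γ • x) = 0}`) plus the no-invariants transfer: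

  if `H ⊆ Gal(ℚ̄/ℚ)` fixes only a part killed by `p ^ k` of the `p`-power torsion of the new
  subgroup, then `H` has no nonzero fixed vector in the eigenmodule.
-/


set_option autoImplicit false
set_option linter.unusedSectionVars false

namespace Fermat.Agent.S36.H36

open IsLocalRing TensorProduct Fermat.Agent.S30.H529 Fermat.Agent.S35.H991

noncomputable section

/-- The absolute Galois group of `ℚ`. -/
local notation "Γℚ" => (AlgebraicClosure ℚ ≃ₐ[ℚ] AlgebraicClosure ℚ)

section Galois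

variable (p : ℕ)
variable (O : Type) [CommRing O] [IsDomain O] [IsDiscreteValuationRing O]
  [IsAdicComplete (maximalIdeal O) O] [CharZero O]
variable (J : Type) [AddCommGroup J] [DistribMulAction Γℚ J]
variable {ι : Type*} (T : ι → J →+ J) (a : ι → O)

/-- **Adic eigenmodule from a smooth Galois module with finite `p`-torsion**, with the
no-invariants transfer. -/
theorem exists_adic_galois_eigenmodule_inv (hpO : (p : O) ∈ maximalIdeal O) (hp0 : p ≠ 0)
    (hT : ∀ (i : ι) (γ : Γℚ) (x : J), T i (γ • x) = γ • T i x)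
    (hfin : {x : J | p • x = 0}.Finite)
    (hsm : ∀ x : J, (∃ n : ℕ, p ^ n • x = 0) →
      ∃ L : IntermediateField ℚ (AlgebraicClosure ℚ), FiniteDimensional ℚ L ∧
        ∀ σ : Γℚ, (∀ y ∈ L, σ y = y) → σ • x = x)
    (v : ℕ → O ⊗[ℤ] J) (hv0 : (p : O) • v 0 = 0) (hv : ∀ n, (p : O) • v (n + 1) = v n)
    (hne : v ≠ 0) (heig : ∀ i n, tensorOp O T i (v n) = a i • v n) :
    ∃ (M : Type) (_ : AddCommGroup M) (_ : Module O M) (_ : Module.Free O M)
      (_ : Module.Finite O M) (ρ : Γℚ →* Module.End O M),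
      Nontrivial M ∧ GaloisActionIsAdicContinuous O ρ ∧
      (∀ γ : Γℚ, (∀ x : J, (∃ n : ℕ, p ^ n • x = 0) → γ • x = x) → ρ γ = 1) ∧
      (∀ (γ : Γℚ) (i : ι) (c : ℤ),
        (∀ x : J, (∃ n : ℕ, p ^ n • x = 0) → γ • γ • x - T i (γ • x) + c • x = 0) →
        ρ γ * ρ γ - a i • ρ γ + (c : O) • (1 : Module.End O M) = 0) ∧
      (∀ (H : Set Γℚ) (k : ℕ),
        (∀ x : J, (∃ n : ℕ, p ^ n • x = 0) → (∀ τ ∈ H, τ • x = x) → p ^ k • x = 0) →
        ∀ m : M, (∀ τ ∈ H, ρ τ m = m) → m = 0) := by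
  obtain ⟨M, i1, i2, i3, i4, ρ, hnt, hcont, hunr, hquad, hinv⟩ :=
    exists_adic_eigenmodule_inv p O J T a hpO hp0 hT hfin v hv0 hv hne heig
  refine ⟨M, i1, i2, i3, i4, ρ, hnt, ?_, hunr, hquad, hinv⟩
  intro n
  obtain ⟨L, hL, hLfix⟩ := exists_common_level {x : J | p ^ n • x = 0}
    (finite_torsion_pow J p hfin n) (fun x hx => hsm x ⟨n, hx⟩)
  exact ⟨L, hL, fun σ hσ m => hcont n σ (fun x hx => hLfix σ hσ x hx) m⟩

end Galois

section New

variable {O : Type} [CommRing O] [IsDomain O] [IsDiscreteValuationRing O]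
  [IsAdicComplete (maximalIdeal O) O] [CharZero O]

/-- **The adic eigenmodule of the new part, with the no-invariants transfer.** -/
theorem exists_adic_eigenmodule_new_inv {p : ℕ} (hpO : (p : O) ∈ maximalIdeal O) (hp0 : p ≠ 0)
    {J : Type} [AddCommGroup J] [DistribMulAction Γℚ J]
    {ι : Type} (T : ι → J →+ J) (a : ι → O)
    (hT : ∀ (i : ι) (γ : Γℚ) (x : J), T i (γ • x) = γ • T i x)
    (hfin : {x : J | p • x = 0}.Finite)
    (hsm : ∀ x : J, (∃ n : ℕ, p ^ n • x = 0) →
      ∃ L : IntermediateField ℚ (AlgebraicClosure ℚ), FiniteDimensional ℚ L ∧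
        ∀ σ : Γℚ, (∀ y ∈ L, σ y = y) → σ • x = x)
    {C : Type} {J' : C → Type} [∀ c, AddCommGroup (J' c)]
    (T' : ∀ c, ι → J' c →+ J' c) (f : ∀ c, J →+ J' c)
    (hf : ∀ (c : C) (i : ι) (x : J), f c (T i x) = T' c i (f c x))
    (hexcl : ∀ (c : C) (z : ℕ → O ⊗[ℤ] J' c), (p : O) • z 0 = 0 →
      (∀ n, (p : O) • z (n + 1) = z n) →
      (∀ i n, tensorOp O (T' c) i (z n) = a i • z n) → z = 0)
    (v : ℕ → O ⊗[ℤ] J) (hv0 : (p : O) • v 0 = 0) (hv : ∀ n, (p : O) • v (n + 1) = v n)
    (hne : v ≠ 0) (heig : ∀ i n, tensorOp O T i (v n) = a i • v n) :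
    ∃ (M : Type) (_ : AddCommGroup M) (_ : Module O M) (_ : Module.Free O M)
      (_ : Module.Finite O M) (ρ : Γℚ →* Module.End O M),
      Nontrivial M ∧ GaloisActionIsAdicContinuous O ρ ∧
      (∀ γ : Γℚ,
        (∀ x : J, (∃ n : ℕ, p ^ n • x = 0) → (∀ (γ' : Γℚ) (c : C), f c (γ' • x) = 0) →
          γ • x = x) → ρ γ = 1) ∧
      (∀ (γ : Γℚ) (i : ι) (c : ℤ),
        (∀ x : J, (∃ n : ℕ, p ^ n • x = 0) → (∀ (γ' : Γℚ) (c' : C), f c' (γ' • x) = 0) →
          γ • γ • x - T i (γ • x) + c • x = 0) →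
        ρ γ * ρ γ - a i • ρ γ + (c : O) • (1 : Module.End O M) = 0) ∧
      (∀ (H : Set Γℚ) (k : ℕ),
        (∀ x : J, (∃ n : ℕ, p ^ n • x = 0) → (∀ (γ' : Γℚ) (c' : C), f c' (γ' • x) = 0) →
          (∀ τ ∈ H, τ • x = x) → p ^ k • x = 0) →
        ∀ m : M, (∀ τ ∈ H, ρ τ m = m) → m = 0) := by
  classical
  -- the new subgroup, with its Galois action
  let K : Submodule ℤ J := newSub Γℚ f
  letI actK : DistribMulAction Γℚ K := newSubAction f
  have hsmulK : ∀ (γ : Γℚ) (x : K), ((γ • x : K) : J) = γ • (x : J) := fun _ _ => rfl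
  -- the operators on `K`
  have hTK : ∀ (i : ι) (x : J), x ∈ K → T i x ∈ K := by
    intro i x hx γ c
    rw [← hT, hf, hx γ c, map_zero]
  let TK : ι → K →+ K := fun i =>
      { toFun := fun x => ⟨T i (x : J), hTK i (x : J) x.2⟩
        map_zero' := Subtype.ext (map_zero (T i))
        map_add' := fun x y => Subtype.ext (map_add (T i) (x : J) (y : J)) }
  have hTKl : ∀ (i : ι) (x : K), ((TK i x : K) : J) = T i (x : J) := fun _ _ => rfl
  have hTKG : ∀ (i : ι) (γ : Γℚ) (x : K), TK i (γ • x) = γ • TK i x := by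
    intro i γ x
    apply Subtype.ext
    rw [hTKl, hsmulK, hsmulK, hTKl]
    exact hT i γ (x : J)
  have hcoe_pow : ∀ (n : ℕ) (x : K), p ^ n • x = 0 → p ^ n • (x : J) = 0 := by
    intro n x hn
    have : ((p ^ n • x : K) : J) = 0 := by rw [hn]; rfl
    exact this
  have hfinK : {x : K | p • x = 0}.Finite := by
    refine Set.Finite.of_finite_image (f := fun x : K => (x : J)) ?_
      (fun x _ y _ h => Subtype.ext h)
    refine hfin.subset ?_
    rintro _ ⟨x, hx, rfl⟩
    show p • (x : J) = 0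
    have : ((p • x : K) : J) = 0 := by rw [hx]; rfl
    exact this
  have hsmK : ∀ x : K, (∃ n : ℕ, p ^ n • x = 0) →
      ∃ L : IntermediateField ℚ (AlgebraicClosure ℚ), FiniteDimensional ℚ L ∧
        ∀ σ : Γℚ, (∀ y ∈ L, σ y = y) → σ • x = x := by
    rintro x ⟨n, hn⟩
    obtain ⟨L, hL, hLx⟩ := hsm (x : J) ⟨n, hcoe_pow n x hn⟩
    exact ⟨L, hL, fun σ hσ => Subtype.ext (hLx σ hσ)⟩
  -- the eigen-sequence lies in `O ⊗ K`
  have hvpow : ∀ n, ((p ^ (n + 1) : ℕ) : ℤ) • v n = 0 := by
    intro n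
    have h1 : (p : O) ^ (n + 1) • v n = 0 :=
      tate_pow_succ_smul (ϖ := (p : O)) (t := tensorOp O T) (a := a) ⟨hv0, hv, heig⟩ n
    rw [← natCast_pow_smul]
    exact h1
  have hinj : Function.Injective (K.subtype.baseChange O) := by
    have := Module.Flat.lTensor_preserves_injective_linearMap (M := O) K.subtype
      K.injective_subtype
    exact this
  -- vanishing of the images under the degeneracy maps
  have hvan : ∀ (γ : Γℚ) (c : C) (n : ℕ),
      ((f c).toIntLinearMap.comp (actLin J γ)).baseChange O (v n) = 0 := by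
    intro γ c n
    have hz := hexcl c (fun n => ((f c).toIntLinearMap.comp (actLin J γ)).baseChange O (v n))
      (by rw [← map_smul, hv0, map_zero])
      (fun n => by rw [← map_smul, hv n])
      (fun i n => by
        show ((T' c i).toIntLinearMap.baseChange O)
            (((f c).toIntLinearMap.comp (actLin J γ)).baseChange O (v n))
          = a i • ((f c).toIntLinearMap.comp (actLin J γ)).baseChange O (v n)
        have h1 : (T' c i).toIntLinearMap.comp ((f c).toIntLinearMap.comp (actLin J γ))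
            = ((f c).toIntLinearMap.comp (actLin J γ)).comp (T i).toIntLinearMap := by
          apply LinearMap.ext
          intro x
          show T' c i (f c (γ • x)) = f c (γ • T i x)
          rw [← hT, hf]
        rw [← LinearMap.comp_apply, ← LinearMap.baseChange_comp, h1, LinearMap.baseChange_comp,
          LinearMap.comp_apply]
        have h2 : (T i).toIntLinearMap.baseChange O (v n) = a i • v n := heig i n
        rw [h2, map_smul])
    exact congrFun hz n
  have hlift : ∀ n, ∃ s : O ⊗[ℤ] K, K.subtype.baseChange O s = v n := by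
    intro n
    have hfin' : {x : J | p ^ (n + 1) • x = 0}.Finite := finite_torsion_pow J p hfin (n + 1)
    obtain ⟨s, hs⟩ := exists_lTensor_subtype_eq O (p ^ (n + 1)) hfin'
      (C := Γℚ × C) (J' := fun γc => J' γc.2)
      (fun γc => (f γc.2).toIntLinearMap.comp (actLin J γc.1)) K
      (fun x _ hx γ c => hx (γ, c)) (v n) (hvpow n) (fun γc => hvan γc.1 γc.2 n)
    exact ⟨s, hs⟩
  choose s hs using hlift
  have hs0 : (p : O) • s 0 = 0 := by
    apply hinj
    rw [map_smul, hs, hv0, map_zero]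
  have hss : ∀ n, (p : O) • s (n + 1) = s n := by
    intro n
    apply hinj
    rw [map_smul, hs, hs, hv n]
  have hsne : s ≠ 0 := by
    intro h
    apply hne
    funext n
    rw [← hs n, h]
    simp
  have hseig : ∀ i n, tensorOp O TK i (s n) = a i • s n := by
    intro i n
    apply hinj
    show K.subtype.baseChange O ((TK i).toIntLinearMap.baseChange O (s n))
      = K.subtype.baseChange O (a i • s n)
    have h1 : K.subtype.comp (TK i).toIntLinearMap
        = (T i).toIntLinearMap.comp K.subtype := by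
      apply LinearMap.ext
      intro x
      rfl
    rw [← LinearMap.comp_apply, ← LinearMap.baseChange_comp, h1, LinearMap.baseChange_comp,
      LinearMap.comp_apply, hs, map_smul, hs]
    exact heig i n
  obtain ⟨M, i1, i2, i3, i4, ρ, hnt, hcont, hunr, hquad, hinv⟩ :=
    exists_adic_galois_eigenmodule_inv p O K TK a hpO hp0 hTKG hfinK hsmK s hs0 hss hsne hseig
  refine ⟨M, i1, i2, i3, i4, ρ, hnt, hcont, ?_, ?_, ?_⟩
  · intro γ hγ
    refine hunr γ ?_
    rintro x ⟨n, hn⟩
    apply Subtype.ext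
    rw [hsmulK]
    exact hγ (x : J) ⟨n, hcoe_pow n x hn⟩ x.2
  · intro γ i c hγ
    refine hquad γ i c ?_
    rintro x ⟨n, hn⟩
    apply Subtype.ext
    exact hγ (x : J) ⟨n, hcoe_pow n x hn⟩ x.2
  · intro H k hH
    refine hinv H k ?_
    rintro x ⟨n, hn⟩ hfix
    apply Subtype.ext
    have h1 := hH (x : J) ⟨n, hcoe_pow n x hn⟩ x.2
      (fun τ hτ => by
        have := congrArg (Subtype.val) (hfix τ hτ)
        exact this)
    exact h1

end New

end

end Fermat.Agent.S36.H36

end
-- ===== PACK-END S36/H36/NewInv.lean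

-- ===== PACK-BEGIN S36/H253/NormAdapt.lean
section


/-!
# Norm–residue and norm–valuation formulas, ELEMENTWISE (helper253)

Mathlib only (on top of `FundIneq.lean`).  Adapters of `norm_red_ram_lb` / `val_norm_ram_lb` to
statements which mention valuation subrings only (no residue-field types), in the shape of the
interface Props `NormResSplit`, `NormResInsep` of `S36/H630/LabNorm.lean`.

`F / K` finite, `O ⊆ K` discrete with uniformiser `ϖ`.

* `normRes_split` : `V i` pairwise incomparable over `O`, `τ i ∈ m_{V i}`,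
  `v i (ϖ) = v i (τ i) ^ E i`, `∑ i, E i = [F : K]` (so all residue degrees are `1`).
  For `y ∈ ⋂ V i` with `y ≡ c i mod m_{V i}` (`c i ∈ K`): `N y ≡ ∏ i, c i ^ E i mod m_O`.
* `normResSplit_lb` : the case of two extensions `V₁` (`E = 1`), `V₂` (`E = e`), `[F : K] = 1 + e`.
* `normResInsep_lb` : one extension `V`, `[F : K] = q` prime `= char`, `z₀ ^ q ≡ c₀` with `c₀` not
  a `q`-th power mod `m_O`.  For `y ∈ V` with `y ^ q ≡ c mod m_V`: `N y ≡ c mod m_O`.
* `valNorm_split`, `valNorm_insep` : the corresponding valuations of norms.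
-/

set_option autoImplicit false
set_option linter.unusedSectionVars false
set_option linter.style.haveILetI false

namespace Fermat.Agent.S36.H253

open scoped BigOperators
open Fermat.Agent.S35.H253

section Canon

variable {K F : Type*} [Field K] [Field F] [Algebra K F]

/-- The inclusion `O → V` of a valuation ring into a valuation ring over it. -/
def inclOver {O : ValuationSubring K} {V : ValuationSubring F} (h : Over O V) : O →+* V :=
  RingHom.codRestrict ((algebraMap K F).comp O.subtype) V (fun a => (h a).2 a.2)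

theorem inclOver_coe {O : ValuationSubring K} {V : ValuationSubring F} (h : Over O V) (a : O) :
    ((inclOver h a : V) : F) = algebraMap K F a := rfl

theorem isLocalHom_inclOver {O : ValuationSubring K} {V : ValuationSubring F} (h : Over O V) :
    IsLocalHom (inclOver h) := by
  constructor
  intro a ha
  rw [ValuationSubring.valuation_eq_one_iff] at ha ⊢
  rw [inclOver_coe] at ha
  refine le_antisymm (O.valuation_le_one a) ?_
  rw [← not_lt, ← h.val_lt_one_iff, ha]
  exact lt_irrefl _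

/-- The residue field of `V` as an algebra over the residue field of `O`. -/
@[reducible] noncomputable def resAlgebra {O : ValuationSubring K} {V : ValuationSubring F} (h : Over O V) :
    Algebra (IsLocalRing.ResidueField O) (IsLocalRing.ResidueField V) :=
  haveI := isLocalHom_inclOver h
  (IsLocalRing.ResidueField.map (inclOver h)).toAlgebra

theorem resAlgebra_residue {O : ValuationSubring K} {V : ValuationSubring F} (h : Over O V)
    (a : O) :
    letI := resAlgebra h
    IsLocalRing.residue V ⟨algebraMap K F a, (h a).2 a.2⟩ =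
      algebraMap (IsLocalRing.ResidueField O) (IsLocalRing.ResidueField V)
        (IsLocalRing.residue O a) := by
  letI := resAlgebra h
  haveI := isLocalHom_inclOver h
  exact (IsLocalRing.ResidueField.map_residue (inclOver h) a).symm

/-- Two elements of `V` with difference in the maximal ideal have the same residue. -/
theorem residue_eq_of_sub_mem {V : ValuationSubring F} {x y : F} (hx : x ∈ V) (hy : y ∈ V)
    (h : x - y ∈ V.nonunits) :
    IsLocalRing.residue V ⟨x, hx⟩ = IsLocalRing.residue V ⟨y, hy⟩ := by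
  rw [← sub_eq_zero, ← map_sub, IsLocalRing.residue_eq_zero_iff,
    ValuationSubring.valuation_lt_one_iff]
  exact h

theorem mem_of_sub_mem_nonunits {V : ValuationSubring F} {x y : F} (hx : x ∈ V)
    (h : x - y ∈ V.nonunits) : y ∈ V := by
  have : y = x - (x - y) := by ring
  rw [this]
  exact sub_mem hx (ValuationSubring.nonunits_subset h)

end Canon

section Split

variable {K F : Type*} [Field K] [Field F] [Algebra K F]
variable {ι : Type*} [Fintype ι]
    {O : ValuationSubring K} {ϖ : K} {V : ι → ValuationSubring F} {τ : ι → F} {E : ι → ℕ}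
    (hover : ∀ i, Over O (V i)) (hinc : ∀ i i', i ≠ i' → ¬ V i ≤ V i')
    (hϖ0 : ϖ ≠ 0) (hϖ : O.valuation ϖ < 1)
    (hdvr : ∀ a : K, a ≠ 0 → ∃ n : ℤ, O.valuation a = O.valuation ϖ ^ n)
    (hτ : ∀ i, (V i).valuation (τ i) < 1)
    (hram : ∀ i, (V i).valuation (algebraMap K F ϖ) = (V i).valuation (τ i) ^ E i)

include hover hinc hϖ0 hϖ hdvr hτ hram

/-- **Norm–residue formula, split case, elementwise.**  If `∑ i, E i = [F : K]`, then for
`y ∈ ⋂ V i` with `y ≡ c i mod m_{V i}`, `c i ∈ K`:  `N_{F/K} y ≡ ∏ i, c i ^ E i mod m_O`. -/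
theorem normRes_split [Module.Finite K F] (hdeg : ∑ i, E i = Module.finrank K F)
    {y : F} (hy : ∀ i, y ∈ V i) (c : ι → K)
    (hyc : ∀ i, y - algebraMap K F (c i) ∈ (V i).nonunits) :
    Algebra.norm K y - ∏ i, c i ^ E i ∈ O.nonunits := by
  classical
  letI alg : ∀ i, Algebra (IsLocalRing.ResidueField O) (IsLocalRing.ResidueField (V i)) :=
    fun i => resAlgebra (hover i)
  have hπ : Function.Surjective (IsLocalRing.residue O) := IsLocalRing.residue_surjective
  have hρ : ∀ i, Function.Surjective (IsLocalRing.residue (V i)) :=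
    fun i => IsLocalRing.residue_surjective
  have hc : ∀ i (a : O), IsLocalRing.residue (V i) ⟨algebraMap K F a, ((hover i) a).2 a.2⟩ =
      algebraMap (IsLocalRing.ResidueField O) (IsLocalRing.ResidueField (V i))
        (IsLocalRing.residue O a) := fun i a => resAlgebra_residue (hover i) a
  have hfin : ∀ i, Module.Finite (IsLocalRing.ResidueField O)
      (IsLocalRing.ResidueField (V i)) := fun i =>
    finite_residue_dvr hover hϖ0 hϖ hdvr hτ hram (IsLocalRing.residue O)
      (fun i => IsLocalRing.residue (V i)) hπ hρ hc i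
  have hf : ∀ i, (fun _ : ι => 1) i ≤
      Module.finrank (IsLocalRing.ResidueField O) (IsLocalRing.ResidueField (V i)) :=
    fun i => Module.finrank_pos
  have heq : ∑ i, E i * (fun _ : ι => 1) i = Module.finrank K F := by
    rw [← hdeg]; exact Finset.sum_congr rfl fun i _ => mul_one _
  obtain ⟨hN, hred⟩ := norm_red_ram_lb hover hinc hϖ0 hϖ hdvr hτ hram (IsLocalRing.residue O)
    (fun i => IsLocalRing.residue (V i)) hπ hρ hc (fun _ => 1) hf heq hy
  have hfr := finrank_eq_of_fund_eq hover hinc hϖ0 hϖ (genO_of_dvr hϖ0 hϖ hdvr) hτ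
    (fun i _ hz => exists_pow_le_of_dvr (hover i) hϖ0 hϖ hdvr hz) hram (IsLocalRing.residue O)
    (fun i => IsLocalRing.residue (V i)) hπ hρ hc (fun _ => 1) hf heq
  have hcV : ∀ i, algebraMap K F (c i) ∈ V i := fun i => mem_of_sub_mem_nonunits (hy i) (hyc i)
  have hcO : ∀ i, c i ∈ O := fun i => ((hover i) (c i)).1 (hcV i)
  have hnorm : ∀ i, Algebra.norm (IsLocalRing.ResidueField O)
      (IsLocalRing.residue (V i) ⟨y, hy i⟩) = IsLocalRing.residue O ⟨c i, hcO i⟩ := by
    intro i
    apply (algebraMap (IsLocalRing.ResidueField O) (IsLocalRing.ResidueField (V i))).injective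
    rw [algebraMap_norm_of_finrank_eq_one (hfr i), ← hc i ⟨c i, hcO i⟩]
    exact residue_eq_of_sub_mem (hy i) (hcV i) (hyc i)
  have hprodO : ∏ i, c i ^ E i ∈ O := prod_mem fun i _ => pow_mem (hcO i) _
  have hred' : IsLocalRing.residue O ⟨Algebra.norm K y, hN⟩ =
      IsLocalRing.residue O ⟨∏ i, c i ^ E i, hprodO⟩ := by
    rw [hred]
    have e1 : (⟨∏ i, c i ^ E i, hprodO⟩ : O) = ∏ i, (⟨c i, hcO i⟩ : O) ^ E i := by
      apply Subtype.ext
      rw [SubmonoidClass.coe_finsetProd]
      rfl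
    rw [e1, map_prod]
    exact Finset.prod_congr rfl fun i _ => by rw [hnorm i, map_pow]
  rw [← sub_eq_zero, ← map_sub, IsLocalRing.residue_eq_zero_iff,
    ValuationSubring.valuation_lt_one_iff] at hred'
  exact hred'

/-- **Norm–valuation formula, split case, elementwise.**  If `∑ i, E i = [F : K]`, every
`y ≠ 0` has `v i (y) = v i (τ i) ^ a i` and `v (N_{F/K} y) = v ϖ ^ ∑ i, a i`. -/
theorem valNorm_split [Module.Finite K F] (hdeg : ∑ i, E i = Module.finrank K F)
    {y : F} (hy : y ≠ 0) :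
    ∃ a : ι → ℤ, (∀ i, (V i).valuation y = (V i).valuation (τ i) ^ a i) ∧
      O.valuation (Algebra.norm K y) = O.valuation ϖ ^ (∑ i, a i) := by
  classical
  letI alg : ∀ i, Algebra (IsLocalRing.ResidueField O) (IsLocalRing.ResidueField (V i)) :=
    fun i => resAlgebra (hover i)
  have hπ : Function.Surjective (IsLocalRing.residue O) := IsLocalRing.residue_surjective
  have hρ : ∀ i, Function.Surjective (IsLocalRing.residue (V i)) :=
    fun i => IsLocalRing.residue_surjective
  have hc : ∀ i (a : O), IsLocalRing.residue (V i) ⟨algebraMap K F a, ((hover i) a).2 a.2⟩ =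
      algebraMap (IsLocalRing.ResidueField O) (IsLocalRing.ResidueField (V i))
        (IsLocalRing.residue O a) := fun i a => resAlgebra_residue (hover i) a
  have hfin : ∀ i, Module.Finite (IsLocalRing.ResidueField O)
      (IsLocalRing.ResidueField (V i)) := fun i =>
    finite_residue_dvr hover hϖ0 hϖ hdvr hτ hram (IsLocalRing.residue O)
      (fun i => IsLocalRing.residue (V i)) hπ hρ hc i
  have hf : ∀ i, (fun _ : ι => 1) i ≤
      Module.finrank (IsLocalRing.ResidueField O) (IsLocalRing.ResidueField (V i)) :=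
    fun i => Module.finrank_pos
  have heq : ∑ i, E i * (fun _ : ι => 1) i = Module.finrank K F := by
    rw [← hdeg]; exact Finset.sum_congr rfl fun i _ => mul_one _
  obtain ⟨a, ha, hN⟩ := val_norm_ram_lb hover hinc hϖ0 hϖ hdvr hτ hram (IsLocalRing.residue O)
    (fun i => IsLocalRing.residue (V i)) hπ hρ hc (fun _ => 1) hf heq hy
  refine ⟨a, ha, ?_⟩
  rw [hN]
  congr 1
  exact Finset.sum_congr rfl fun i _ => by simp

/-- **Equality case, elementwise** (split case): `τ i` generates the maximal ideal of `V i`. -/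
theorem gen_split [Module.Finite K F] (hdeg : ∑ i, E i = Module.finrank K F) (i₀ : ι) (z : F)
    (hz : (V i₀).valuation z < 1) : (V i₀).valuation z ≤ (V i₀).valuation (τ i₀) := by
  classical
  letI alg : ∀ i, Algebra (IsLocalRing.ResidueField O) (IsLocalRing.ResidueField (V i)) :=
    fun i => resAlgebra (hover i)
  have hπ : Function.Surjective (IsLocalRing.residue O) := IsLocalRing.residue_surjective
  have hρ : ∀ i, Function.Surjective (IsLocalRing.residue (V i)) :=
    fun i => IsLocalRing.residue_surjective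
  have hc : ∀ i (a : O), IsLocalRing.residue (V i) ⟨algebraMap K F a, ((hover i) a).2 a.2⟩ =
      algebraMap (IsLocalRing.ResidueField O) (IsLocalRing.ResidueField (V i))
        (IsLocalRing.residue O a) := fun i a => resAlgebra_residue (hover i) a
  have hfin : ∀ i, Module.Finite (IsLocalRing.ResidueField O)
      (IsLocalRing.ResidueField (V i)) := fun i =>
    finite_residue_dvr hover hϖ0 hϖ hdvr hτ hram (IsLocalRing.residue O)
      (fun i => IsLocalRing.residue (V i)) hπ hρ hc i
  have hf : ∀ i, (fun _ : ι => 1) i ≤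
      Module.finrank (IsLocalRing.ResidueField O) (IsLocalRing.ResidueField (V i)) :=
    fun i => Module.finrank_pos
  have heq : ∑ i, E i * (fun _ : ι => 1) i = Module.finrank K F := by
    rw [← hdeg]; exact Finset.sum_congr rfl fun i _ => mul_one _
  have hfr := finrank_eq_of_fund_eq hover hinc hϖ0 hϖ (genO_of_dvr hϖ0 hϖ hdvr) hτ
    (fun i _ hz => exists_pow_le_of_dvr (hover i) hϖ0 hϖ hdvr hz) hram (IsLocalRing.residue O)
    (fun i => IsLocalRing.residue (V i)) hπ hρ hc (fun _ => 1) hf heq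
  have hdeg' : ∑ i, E i * Module.finrank (IsLocalRing.ResidueField O)
      (IsLocalRing.ResidueField (V i)) = Module.finrank K F := by
    rw [← heq]; exact Finset.sum_congr rfl fun i _ => by rw [hfr i]
  exact gen_of_fund_eq hover hinc hϖ0 hϖ hdvr hτ hram (IsLocalRing.residue O)
    (fun i => IsLocalRing.residue (V i)) hπ hρ hc hdeg' i₀ z hz

/-- **Equality case, elementwise** (split case): the `V i` are all the extensions of `O`. -/
theorem eq_split [Module.Finite K F] (hdeg : ∑ i, E i = Module.finrank K F)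
    {W : ValuationSubring F} (hW : Over O W) : ∃ i, W = V i := by
  classical
  letI alg : ∀ i, Algebra (IsLocalRing.ResidueField O) (IsLocalRing.ResidueField (V i)) :=
    fun i => resAlgebra (hover i)
  have hπ : Function.Surjective (IsLocalRing.residue O) := IsLocalRing.residue_surjective
  have hρ : ∀ i, Function.Surjective (IsLocalRing.residue (V i)) :=
    fun i => IsLocalRing.residue_surjective
  have hc : ∀ i (a : O), IsLocalRing.residue (V i) ⟨algebraMap K F a, ((hover i) a).2 a.2⟩ =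
      algebraMap (IsLocalRing.ResidueField O) (IsLocalRing.ResidueField (V i))
        (IsLocalRing.residue O a) := fun i a => resAlgebra_residue (hover i) a
  have hfin : ∀ i, Module.Finite (IsLocalRing.ResidueField O)
      (IsLocalRing.ResidueField (V i)) := fun i =>
    finite_residue_dvr hover hϖ0 hϖ hdvr hτ hram (IsLocalRing.residue O)
      (fun i => IsLocalRing.residue (V i)) hπ hρ hc i
  have hf : ∀ i, (fun _ : ι => 1) i ≤
      Module.finrank (IsLocalRing.ResidueField O) (IsLocalRing.ResidueField (V i)) :=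
    fun i => Module.finrank_pos
  have heq : ∑ i, E i * (fun _ : ι => 1) i = Module.finrank K F := by
    rw [← hdeg]; exact Finset.sum_congr rfl fun i _ => mul_one _
  have hfr := finrank_eq_of_fund_eq hover hinc hϖ0 hϖ (genO_of_dvr hϖ0 hϖ hdvr) hτ
    (fun i _ hz => exists_pow_le_of_dvr (hover i) hϖ0 hϖ hdvr hz) hram (IsLocalRing.residue O)
    (fun i => IsLocalRing.residue (V i)) hπ hρ hc (fun _ => 1) hf heq
  have hdeg' : ∑ i, E i * Module.finrank (IsLocalRing.ResidueField O)
      (IsLocalRing.ResidueField (V i)) = Module.finrank K F := by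
    rw [← heq]; exact Finset.sum_congr rfl fun i _ => by rw [hfr i]
  exact eq_of_fund_eq hover hinc hϖ0 hϖ hdvr hτ hram (IsLocalRing.residue O)
    (fun i => IsLocalRing.residue (V i)) hπ hρ hc hdeg' hW

end Split

section Two

variable {K F : Type*} [Field K] [Field F] [Algebra K F]

/-- **`NormResSplit`** (shape of `S36/H630/LabNorm.lean`).  `O` discrete with uniformiser `ϖ`;
`V₁ ≠ V₂` valuation subrings of `F` over `O`; `τ ∈ m_{V₂}` with `v₂ (ϖ) = v₂ (τ) ^ e`;
`[F : K] = 1 + e`.  Then for `y ∈ V₁ ∩ V₂`, `y ≡ y₁ mod m_{V₁}`, `y ≡ y₂ mod m_{V₂}`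
(`y₁, y₂ ∈ K`):  `N_{F/K} y ≡ y₁ * y₂ ^ e mod m_O`. -/
theorem normResSplit_lb [Module.Finite K F] {O : ValuationSubring K} {ϖ : K}
    {V₁ V₂ : ValuationSubring F} (h₁ : Over O V₁) (h₂ : Over O V₂) (hne : V₁ ≠ V₂)
    (hϖ0 : ϖ ≠ 0) (hϖ : O.valuation ϖ < 1)
    (hdvr : ∀ a : K, a ≠ 0 → ∃ n : ℤ, O.valuation a = O.valuation ϖ ^ n)
    {τ : F} {e : ℕ} (hτ : V₂.valuation τ < 1)
    (hram : V₂.valuation (algebraMap K F ϖ) = V₂.valuation τ ^ e)
    (hdeg : Module.finrank K F = 1 + e) :
    ∀ y : F, y ∈ V₁ → y ∈ V₂ → ∀ y₁ y₂ : K,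
      y - algebraMap K F y₁ ∈ V₁.nonunits → y - algebraMap K F y₂ ∈ V₂.nonunits →
        Algebra.norm K y - y₁ * y₂ ^ e ∈ O.nonunits := by
  intro y hy₁ hy₂ y₁ y₂ hd₁ hd₂
  have key := normRes_split (ι := Bool) (V := fun b => cond b V₁ V₂)
    (τ := fun b => cond b (algebraMap K F ϖ) τ) (E := fun b => cond b 1 e)
    (fun b => by cases b <;> assumption)
    (fun b b' hbb' => by
      cases b <;> cases b'
      · exact absurd rfl hbb'
      · intro hle
        exact hne (eq_of_le_of_over h₂ h₁ hϖ0 hϖ hdvr hle).symm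
      · intro hle
        exact hne (eq_of_le_of_over h₁ h₂ hϖ0 hϖ hdvr hle)
      · exact absurd rfl hbb')
    hϖ0 hϖ hdvr
    (fun b => by
      cases b
      · exact hτ
      · exact (h₁.val_lt_one_iff ϖ).2 hϖ)
    (fun b => by
      cases b
      · exact hram
      · simp)
    (by rw [Fintype.sum_bool, hdeg]; rfl)
    (y := y) (fun b => by cases b <;> assumption) (fun b => cond b y₁ y₂)
    (fun b => by cases b <;> assumption)
  rw [Fintype.prod_bool] at key
  simpa using key

end Two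

section Insep

variable {K F : Type*} [Field K] [Field F] [Algebra K F]
variable {O : ValuationSubring K} {ϖ : K} {V : ValuationSubring F} (h : Over O V)
    (hϖ0 : ϖ ≠ 0) (hϖ : O.valuation ϖ < 1)
    (hdvr : ∀ a : K, a ≠ 0 → ∃ n : ℤ, O.valuation a = O.valuation ϖ ^ n)
    (q : ℕ) (hq : q.Prime) (hqO : O.valuation (q : K) < 1)
    (hdeg : Module.finrank K F = q)
    {z₀ : F} {c₀ : K} (hz₀ : z₀ ∈ V) (hzc : z₀ ^ q - algebraMap K F c₀ ∈ V.nonunits)
    (hnp : ∀ a : K, a ∈ O → a ^ q - c₀ ∉ O.nonunits)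

include h hϖ0 hϖ hdvr hq hqO hdeg hz₀ hzc hnp

/-- Residue degree `q` in the purely inseparable case (statement with the canonical residue
fields). -/
theorem insep_finrank [Module.Finite K F] :
    letI := resAlgebra h
    Module.finrank (IsLocalRing.ResidueField O) (IsLocalRing.ResidueField V) = q ∧
      CharP (IsLocalRing.ResidueField O) q ∧
      ∀ ξ : IsLocalRing.ResidueField V, ξ ^ q ∈
        (algebraMap (IsLocalRing.ResidueField O) (IsLocalRing.ResidueField V)).range := by
  classical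
  letI alg := resAlgebra h
  have hπ : Function.Surjective (IsLocalRing.residue O) := IsLocalRing.residue_surjective
  have hρ : Function.Surjective (IsLocalRing.residue V) := IsLocalRing.residue_surjective
  have hc : ∀ (a : O), IsLocalRing.residue V ⟨algebraMap K F a, (h a).2 a.2⟩ =
      algebraMap (IsLocalRing.ResidueField O) (IsLocalRing.ResidueField V)
        (IsLocalRing.residue O a) := fun a => resAlgebra_residue h a
  have hτ : V.valuation (algebraMap K F ϖ) < 1 := (h.val_lt_one_iff ϖ).2 hϖ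
  have hfin : Module.Finite (IsLocalRing.ResidueField O) (IsLocalRing.ResidueField V) :=
    finite_residue_dvr (ι := Unit) (V := fun _ => V) (τ := fun _ => algebraMap K F ϖ)
      (E := fun _ => 1) (κ := fun _ => IsLocalRing.ResidueField V)
      (fun _ => h) hϖ0 hϖ hdvr (fun _ => hτ) (fun _ => by simp) (IsLocalRing.residue O)
      (fun _ => IsLocalRing.residue V) hπ (fun _ => hρ) (fun _ => hc) ()
  -- characteristic
  have hqmem : (q : K) ∈ O := (O.valuation_le_one_iff _).1 hqO.le
  have hchar : CharP (IsLocalRing.ResidueField O) q := by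
    rw [CharP.charP_iff_prime_eq_zero hq]
    have e1 : ((q : O) : K) = (q : K) := by simp
    have e2 : IsLocalRing.residue O (q : O) = 0 := by
      rw [IsLocalRing.residue_eq_zero_iff, ValuationSubring.valuation_lt_one_iff, e1]
      exact hqO
    rw [← e2, map_natCast]
  -- the witness
  have hc₀V : algebraMap K F c₀ ∈ V := mem_of_sub_mem_nonunits (pow_mem hz₀ q) hzc
  have hc₀O : c₀ ∈ O := (h c₀).1 hc₀V
  set z := IsLocalRing.residue V ⟨z₀, hz₀⟩ with hz
  set cb := IsLocalRing.residue O ⟨c₀, hc₀O⟩ with hcb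
  have hzq : z ^ q = algebraMap (IsLocalRing.ResidueField O) (IsLocalRing.ResidueField V) cb := by
    rw [hcb, ← hc ⟨c₀, hc₀O⟩, hz, ← map_pow]
    exact residue_eq_of_sub_mem (pow_mem hz₀ q) hc₀V hzc
  have hnpow : ∀ b : IsLocalRing.ResidueField O, b ^ q ≠ cb := by
    intro b hb
    obtain ⟨a, rfl⟩ := hπ b
    rw [hcb, ← map_pow, ← sub_eq_zero, ← map_sub, IsLocalRing.residue_eq_zero_iff,
      ValuationSubring.valuation_lt_one_iff] at hb
    exact hnp a a.2 hb
  have hirr := X_pow_sub_C_irreducible_of_prime hq hnpow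
  have hmin : (Polynomial.X ^ q - Polynomial.C cb : Polynomial (IsLocalRing.ResidueField O)) =
      minpoly (IsLocalRing.ResidueField O) z := by
    refine minpoly.eq_of_irreducible_of_monic hirr ?_ (Polynomial.monic_X_pow_sub_C cb hq.ne_zero)
    rw [map_sub, map_pow, Polynomial.aeval_X, Polynomial.aeval_C, hzq, sub_self]
  have hle : q ≤ Module.finrank (IsLocalRing.ResidueField O) (IsLocalRing.ResidueField V) := by
    have h1 := minpoly.natDegree_le (A := IsLocalRing.ResidueField O) z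
    rw [← hmin, Polynomial.natDegree_X_pow_sub_C] at h1
    exact h1
  have hfr : Module.finrank (IsLocalRing.ResidueField O) (IsLocalRing.ResidueField V) = q :=
    finrank_eq_of_fund_eq (ι := Unit) (V := fun _ => V) (τ := fun _ => algebraMap K F ϖ)
      (E := fun _ => 1) (κ := fun _ => IsLocalRing.ResidueField V)
      (fun _ => h) (fun i i' hii' => absurd (Subsingleton.elim i i') hii') hϖ0 hϖ
      (genO_of_dvr hϖ0 hϖ hdvr) (fun _ => hτ)
      (fun _ _ hz => exists_pow_le_of_dvr h hϖ0 hϖ hdvr hz) (fun _ => by simp)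
      (IsLocalRing.residue O) (fun _ => IsLocalRing.residue V) hπ (fun _ => hρ) (fun _ => hc)
      (fun _ => q) (fun _ => hle) (by simp [hdeg]) ()
  refine ⟨hfr, hchar, ?_⟩
  -- `κ = k(z)` and `z ^ q ∈ k`
  haveI := hchar
  haveI : Fact q.Prime := ⟨hq⟩
  haveI : CharP (IsLocalRing.ResidueField V) q :=
    charP_of_injective_algebraMap
      (algebraMap (IsLocalRing.ResidueField O) (IsLocalRing.ResidueField V)).injective q
  let S : Subalgebra (IsLocalRing.ResidueField O) (IsLocalRing.ResidueField V) :=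
    { carrier := {ξ | ξ ^ q ∈
        (algebraMap (IsLocalRing.ResidueField O) (IsLocalRing.ResidueField V)).range}
      mul_mem' := by
        intro a b ha hb
        rw [Set.mem_ofPred_eq] at ha hb ⊢
        rw [mul_pow]; exact mul_mem ha hb
      add_mem' := by
        intro a b ha hb
        rw [Set.mem_ofPred_eq] at ha hb ⊢
        rw [add_pow_char]; exact add_mem ha hb
      algebraMap_mem' := by
        intro a
        rw [Set.mem_ofPred_eq, ← map_pow]
        exact ⟨a ^ q, rfl⟩ }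
  have hSmem : ∀ ξ, ξ ∈ S ↔ ξ ^ q ∈
      (algebraMap (IsLocalRing.ResidueField O) (IsLocalRing.ResidueField V)).range :=
    fun ξ => Iff.rfl
  have hzS : z ∈ S := by
    rw [hSmem, hzq]; exact ⟨cb, rfl⟩
  have htop : IntermediateField.adjoin (IsLocalRing.ResidueField O) {z} = ⊤ := by
    rw [Field.primitive_element_iff_minpoly_natDegree_eq, ← hmin,
      Polynomial.natDegree_X_pow_sub_C, hfr]
  have halg : IsAlgebraic (IsLocalRing.ResidueField O) z :=
    (IsIntegral.of_finite (IsLocalRing.ResidueField O) z).isAlgebraic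
  have hadj : Algebra.adjoin (IsLocalRing.ResidueField O) {z} = ⊤ := by
    rw [← IntermediateField.adjoin_simple_toSubalgebra_of_isAlgebraic halg, htop]
    rfl
  have hle' : (⊤ : Subalgebra (IsLocalRing.ResidueField O) (IsLocalRing.ResidueField V)) ≤ S := by
    rw [← hadj]
    exact Algebra.adjoin_le (by
      intro x hx
      rw [Set.mem_singleton_iff] at hx
      rw [hx]; exact hzS)
  intro ξ
  exact (hSmem ξ).1 (hle' (Algebra.mem_top : ξ ∈ ⊤))

/-- **`NormResInsep`** (shape of `S36/H630/LabNorm.lean`).  `O` discrete with uniformiser `ϖ`,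
residue characteristic `q` prime; `V` over `O`, `[F : K] = q`; `z₀ ∈ V` with
`z₀ ^ q ≡ c₀ mod m_V`, `c₀` not a `q`-th power mod `m_O`.  Then for `y ∈ V` with
`y ^ q ≡ y' mod m_V` (`y' ∈ K`):  `N_{F/K} y ≡ y' mod m_O`. -/
theorem normResInsep_lb [Module.Finite K F] :
    ∀ y : F, y ∈ V → ∀ y' : K, y ^ q - algebraMap K F y' ∈ V.nonunits →
      Algebra.norm K y - y' ∈ O.nonunits := by
  classical
  intro y hy y' hyy'
  letI alg := resAlgebra h
  obtain ⟨hfr, hchar, -⟩ := insep_finrank h hϖ0 hϖ hdvr q hq hqO hdeg hz₀ hzc hnp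
  haveI := hchar
  haveI : Fact q.Prime := ⟨hq⟩
  have hπ : Function.Surjective (IsLocalRing.residue O) := IsLocalRing.residue_surjective
  have hρ : Function.Surjective (IsLocalRing.residue V) := IsLocalRing.residue_surjective
  have hc : ∀ (a : O), IsLocalRing.residue V ⟨algebraMap K F a, (h a).2 a.2⟩ =
      algebraMap (IsLocalRing.ResidueField O) (IsLocalRing.ResidueField V)
        (IsLocalRing.residue O a) := fun a => resAlgebra_residue h a
  have hτ : V.valuation (algebraMap K F ϖ) < 1 := (h.val_lt_one_iff ϖ).2 hϖ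
  obtain ⟨hN, hred⟩ := norm_red_ram_lb (ι := Unit) (V := fun _ => V)
    (τ := fun _ => algebraMap K F ϖ) (E := fun _ => 1)
    (κ := fun _ => IsLocalRing.ResidueField V)
    (fun _ => h) (fun i i' hii' => absurd (Subsingleton.elim i i') hii') hϖ0 hϖ hdvr
    (fun _ => hτ) (fun _ => by simp)
    (IsLocalRing.residue O) (fun _ => IsLocalRing.residue V) hπ (fun _ => hρ) (fun _ => hc)
    (fun _ => q) (fun _ => hfr.ge) (by simp [hdeg]) (y := y) (fun _ => hy)
  simp only [Finset.univ_unique, Finset.prod_singleton, pow_one] at hred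
  have hy'V : algebraMap K F y' ∈ V := mem_of_sub_mem_nonunits (pow_mem hy q) hyy'
  have hy'O : y' ∈ O := (h y').1 hy'V
  have ha : algebraMap (IsLocalRing.ResidueField O) (IsLocalRing.ResidueField V)
      (IsLocalRing.residue O ⟨y', hy'O⟩) = IsLocalRing.residue V ⟨y, hy⟩ ^ q := by
    rw [← hc ⟨y', hy'O⟩, ← map_pow]
    exact (residue_eq_of_sub_mem (pow_mem hy q) hy'V hyy').symm
  have hnorm := norm_eq_of_pow_eq q hfr ha
  rw [hnorm, ← sub_eq_zero, ← map_sub, IsLocalRing.residue_eq_zero_iff,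
    ValuationSubring.valuation_lt_one_iff] at hred
  exact hred

/-- **Norm–residue formula, purely inseparable case, all `y`.**  Under the hypotheses of
`normResInsep_lb`, for EVERY `y ∈ V`:  `N_{F/K} y ≡ y ^ q mod m_V` (in particular the `q`-th
power of every residue comes from the base). -/
theorem normResInsep_all [Module.Finite K F] :
    ∀ y : F, y ∈ V → algebraMap K F (Algebra.norm K y) - y ^ q ∈ V.nonunits := by
  classical
  intro y hy
  letI alg := resAlgebra h
  obtain ⟨hfr, hchar, hpow⟩ := insep_finrank h hϖ0 hϖ hdvr q hq hqO hdeg hz₀ hzc hnp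
  haveI := hchar
  haveI : Fact q.Prime := ⟨hq⟩
  have hπ : Function.Surjective (IsLocalRing.residue O) := IsLocalRing.residue_surjective
  have hρ : Function.Surjective (IsLocalRing.residue V) := IsLocalRing.residue_surjective
  have hc : ∀ (a : O), IsLocalRing.residue V ⟨algebraMap K F a, (h a).2 a.2⟩ =
      algebraMap (IsLocalRing.ResidueField O) (IsLocalRing.ResidueField V)
        (IsLocalRing.residue O a) := fun a => resAlgebra_residue h a
  have hτ : V.valuation (algebraMap K F ϖ) < 1 := (h.val_lt_one_iff ϖ).2 hϖ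
  obtain ⟨hN, hred⟩ := norm_red_ram_lb (ι := Unit) (V := fun _ => V)
    (τ := fun _ => algebraMap K F ϖ) (E := fun _ => 1)
    (κ := fun _ => IsLocalRing.ResidueField V)
    (fun _ => h) (fun i i' hii' => absurd (Subsingleton.elim i i') hii') hϖ0 hϖ hdvr
    (fun _ => hτ) (fun _ => by simp)
    (IsLocalRing.residue O) (fun _ => IsLocalRing.residue V) hπ (fun _ => hρ) (fun _ => hc)
    (fun _ => q) (fun _ => hfr.ge) (by simp [hdeg]) (y := y) (fun _ => hy)
  simp only [Finset.univ_unique, Finset.prod_singleton, pow_one] at hred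
  have h1 := algebraMap_norm_eq_pow q hfr hpow (IsLocalRing.residue V ⟨y, hy⟩)
  rw [← hred, ← hc ⟨Algebra.norm K y, hN⟩, ← map_pow] at h1
  have hNV : algebraMap K F (Algebra.norm K y) ∈ V := (h _).2 hN
  rw [← sub_eq_zero, ← map_sub, IsLocalRing.residue_eq_zero_iff,
    ValuationSubring.valuation_lt_one_iff] at h1
  exact h1

/-- **Norm–valuation formula, purely inseparable case, elementwise.**  Every `y ≠ 0` has
`v_V (y) = v_V (ϖ) ^ a` and `v (N_{F/K} y) = v ϖ ^ (q * a)`. -/
theorem valNorm_insep [Module.Finite K F] {y : F} (hy : y ≠ 0) :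
    ∃ a : ℤ, V.valuation y = V.valuation (algebraMap K F ϖ) ^ a ∧
      O.valuation (Algebra.norm K y) = O.valuation ϖ ^ ((q : ℤ) * a) := by
  classical
  letI alg := resAlgebra h
  obtain ⟨hfr, hchar, -⟩ := insep_finrank h hϖ0 hϖ hdvr q hq hqO hdeg hz₀ hzc hnp
  have hπ : Function.Surjective (IsLocalRing.residue O) := IsLocalRing.residue_surjective
  have hρ : Function.Surjective (IsLocalRing.residue V) := IsLocalRing.residue_surjective
  have hc : ∀ (a : O), IsLocalRing.residue V ⟨algebraMap K F a, (h a).2 a.2⟩ =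
      algebraMap (IsLocalRing.ResidueField O) (IsLocalRing.ResidueField V)
        (IsLocalRing.residue O a) := fun a => resAlgebra_residue h a
  have hτ : V.valuation (algebraMap K F ϖ) < 1 := (h.val_lt_one_iff ϖ).2 hϖ
  obtain ⟨a, ha, hN⟩ := val_norm_ram_lb (ι := Unit) (V := fun _ => V)
    (τ := fun _ => algebraMap K F ϖ) (E := fun _ => 1)
    (κ := fun _ => IsLocalRing.ResidueField V)
    (fun _ => h) (fun i i' hii' => absurd (Subsingleton.elim i i') hii') hϖ0 hϖ hdvr
    (fun _ => hτ) (fun _ => by simp)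
    (IsLocalRing.residue O) (fun _ => IsLocalRing.residue V) hπ (fun _ => hρ) (fun _ => hc)
    (fun _ => q) (fun _ => hfr.ge) (by simp [hdeg]) hy
  refine ⟨a (), ha (), ?_⟩
  rw [hN]
  simp

end Insep

end Fermat.Agent.S36.H253

end
-- ===== PACK-END S36/H253/NormAdapt.lean

-- ===== PACK-BEGIN S36/H922/ThetaBar.lean
section



/-!
# S36 engine / cell REG, route R4 (MID-UNIT): the `θ`-identity modulo `p`  — helper922

Formal `q`-series only.  In `𝔽_p((q))`, with `j̄ = j mod p`, `ū = Δ(q^p)/Δ(q) mod p = Δ̄^(p-1)`,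
and `Ū` the reduction of the Eisenstein constant `Ψ(j)/p` of helper83's leaf EIS
(`h83_eisenstein`: `Ū · θ j̄ = (j̄ - j̄^(p²)) · (θ j̄)^p`):

  `(j̄⁴ (j̄ - 1728)³) ^ (2 (p-1)) · ū² · (j̄^(p²) - j̄)^12 = Ū^12`.

This is hypothesis (3) of `h922_hres_abs` (`ResAbs.lean`) after dividing by the unit
`(j^(p²) - j)^12`: with `ρ = G(j)/(j^(p²) - j)`, `e = (j⁴ (j - 1728)³)^(2(p-1))`:
`e · u² ≡ ρ^12` modulo `p`.
-/

set_option autoImplicit false

noncomputable section

open ModularCurve HahnSeries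

namespace Fermat.Agent.S36.H922

open Fermat.Agent.S28

variable (p : ℕ) [hp : Fact p.Prime] [NeZero p]

theorem h922_thetaL_jqModC_ne_zero (k : Type*) [Field k] : thetaL k (jqModC k) ≠ 0 := by
  intro h
  have h1 : (thetaL k (jqModC k)).coeff (-1) = -1 := by
    rw [thetaL_coeff, coeff_jqModC_neg_one]
    simp
  rw [h, HahnSeries.coeff_zero] at h1
  exact one_ne_zero (neg_eq_zero.mp h1.symm)

/-- `ū = Δ̄^p · Δ̄⁻¹` over `𝔽_p`. -/
theorem h922_unitL_zmod :
    unitL (ZMod p) p = deltaL (ZMod p) ^ p * deltaInvL (ZMod p) := by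
  rw [unitL, h88_qExpand_zmod]

/-- **The `θ`-identity modulo `p` in the form consumed by route R4.** -/
theorem h922_theta_bar (Ubar : LaurentSeries (ZMod p))
    (hU : Ubar * thetaL (ZMod p) (jqModC (ZMod p))
      = (jqModC (ZMod p) - jqModC (ZMod p) ^ (p ^ 2))
          * thetaL (ZMod p) (jqModC (ZMod p)) ^ p) :
    (jqModC (ZMod p) ^ 4 * (jqModC (ZMod p) - 1728) ^ 3) ^ (2 * (p - 1))
        * unitL (ZMod p) p ^ 2 * (jqModC (ZMod p) ^ (p ^ 2) - jqModC (ZMod p)) ^ 12
      = Ubar ^ 12 := by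
  set J := jqModC (ZMod p) with hJ
  set T := thetaL (ZMod p) J with hT
  set D := deltaL (ZMod p) with hD
  set Di := deltaInvL (ZMod p) with hDi
  have hT0 : T ≠ 0 := h922_thetaL_jqModC_ne_zero (ZMod p)
  have hDD : D * Di = 1 := h88_deltaL_mul_deltaInvL (ZMod p)
  have hθ : T ^ 6 = D * J ^ 4 * (J - 1728) ^ 3 := th327_theta_identity_ring (ZMod p)
  have hp1 : 1 ≤ p := hp.out.one_lt.le
  -- `Ū = (j - j^{p²}) (θ j)^{p-1}`
  have hU' : Ubar = (J - J ^ (p ^ 2)) * T ^ (p - 1) := by
    apply mul_right_cancel₀ hT0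
    rw [hU, mul_assoc, ← pow_succ, Nat.sub_add_cancel hp1]
  have hD0 : D ≠ 0 := by
    intro h
    rw [h, zero_mul] at hDD
    exact zero_ne_one hDD
  -- `Δ^{2(p-1)} = (Δ^p Δ⁻¹)^2`
  have hu : (D ^ p * Di) ^ 2 = D ^ (2 * (p - 1)) := by
    have h1 : D ^ p = D ^ (p - 1) * D := by rw [← pow_succ, Nat.sub_add_cancel hp1]
    rw [h1, mul_assoc, hDD, mul_one, ← pow_mul, mul_comm]
  have hT12 : (T ^ (p - 1)) ^ 12 = (D * J ^ 4 * (J - 1728) ^ 3) ^ (2 * (p - 1)) := by
    rw [← hθ, ← pow_mul, ← pow_mul]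
    congr 1
    ring
  have hev : (J - J ^ (p ^ 2)) ^ 12 = (J ^ (p ^ 2) - J) ^ 12 := by
    rw [← neg_sub, Even.neg_pow (by decide)]
  rw [h922_unitL_zmod, hu, hU', mul_pow (J - J ^ (p ^ 2)), hT12, hev, mul_pow, mul_pow,
    mul_pow]
  ring

end Fermat.Agent.S36.H922

end
end
-- ===== PACK-END S36/H922/ThetaBar.lean

-- ===== PACK-BEGIN S59/TW/H658/IntCMain.lean
section



/-!
# S21 INT-C (helper544): the unfolding identity, with the INT-A facts on `chi` as hypotheses
-/

set_option autoImplicit false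

open UpperHalfPlane CongruenceSubgroup Filter Topology MeasureTheory
open scoped MatrixGroups ComplexConjugate ContDiff

namespace Fermat.Agent.S59.TW.H658.H544

open Fermat.Agent.S21
open Fermat.Agent.S21.H544

open Fermat.Agent.S21

variable (L : Lev) {χ₁ : ℂ → ℝ}

theorem chi_eq_zero_of_notMem {z : ℂ} (hz : z ∉ Uhp) : _root_.Fermat.Agent.S59.TW.H658.chi L χ₁ z = 0 := by
  unfold _root_.Fermat.Agent.S59.TW.H658.chi
  exact Set.indicator_of_notMem hz _

theorem measurableSet_Uhp : MeasurableSet Uhp := isOpen_Uhp.measurableSet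

theorem continuousOn_dens {u η : ℂ → ℝ} (hu : ContDiffOn ℝ 1 u Uhp) (hη : ContDiff ℝ ∞ η) :
    ContinuousOn (dens u η) Uhp := by
  have h1 := hu.continuousOn_fderiv_of_isOpen isOpen_Uhp le_rfl
  have h2 : Continuous (fderiv ℝ η) := hη.continuous_fderiv (by simp)
  unfold dens
  exact ((h1.clm_apply continuousOn_const).mul (h2.continuousOn.clm_apply continuousOn_const)).add
    ((h1.clm_apply continuousOn_const).mul (h2.continuousOn.clm_apply continuousOn_const))

theorem integrableOn_Uhp_of_continuousOn {f : ℂ → ℝ} (hf : ContinuousOn f Uhp) {K : Set ℂ}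
    (hK : IsCompact K) (hKU : K ⊆ Uhp) (h0 : ∀ z ∈ Uhp, z ∉ K → f z = 0) :
    IntegrableOn f Uhp := by
  have h1 : IntegrableOn f K := (hf.mono hKU).integrableOn_compact hK
  exact h1.of_forall_sdiff_eq_zero _root_.Fermat.Agent.S59.TW.H658.H544.measurableSet_Uhp (fun x hx => h0 x hx.1 hx.2)

/-- The translated density `z ↦ dens u η (γ z) / |cz+d|⁴`. -/
noncomputable def phi (u η : ℂ → ℝ) (g : SL(2, ℤ)) (z : ℂ) : ℝ :=
  dens u η (mob g z) / ‖cd g z‖ ^ 4

theorem continuousOn_cd (g : SL(2, ℤ)) : ContinuousOn (cd g) Uhp := by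
  unfold cd
  fun_prop

theorem continuousOn_phi {u η : ℂ → ℝ} (hu : ContDiffOn ℝ 1 u Uhp) (hη : ContDiff ℝ ∞ η)
    (g : SL(2, ℤ)) : ContinuousOn (_root_.Fermat.Agent.S59.TW.H658.H544.phi u η g) Uhp := by
  unfold _root_.Fermat.Agent.S59.TW.H658.H544.phi
  refine ContinuousOn.div ?_ ?_ ?_
  · exact (_root_.Fermat.Agent.S59.TW.H658.H544.continuousOn_dens hu hη).comp (_root_.Fermat.Agent.S21.H544.continuousOn_mob g) (fun z _ => _root_.Fermat.Agent.S21.H544.mob_mem_Uhp g z)
  · exact ((_root_.Fermat.Agent.S59.TW.H658.H544.continuousOn_cd g).norm).pow 4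
  · intro z hz
    exact pow_ne_zero 4 (norm_ne_zero_iff.mpr (SmallAux.cd_ne_zero g hz))

theorem integrableOn_phi {u η : ℂ → ℝ} (hu : ContDiffOn ℝ 1 u Uhp) (hη : IsTest η)
    (g : SL(2, ℤ)) : IntegrableOn (_root_.Fermat.Agent.S59.TW.H658.H544.phi u η g) Uhp := by
  refine _root_.Fermat.Agent.S59.TW.H658.H544.integrableOn_Uhp_of_continuousOn (_root_.Fermat.Agent.S59.TW.H658.H544.continuousOn_phi hu hη.1 g)
    (K := mob g⁻¹ '' tsupport η) ?_ ?_ ?_
  · exact hη.2.1.image_of_continuousOn ((_root_.Fermat.Agent.S21.H544.continuousOn_mob g⁻¹).mono hη.2.2)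
  · rintro _ ⟨w, _, rfl⟩
    exact _root_.Fermat.Agent.S21.H544.mob_mem_Uhp _ _
  · intro z hz hzK
    have : mob g z ∉ tsupport η := fun hmem => hzK ⟨mob g z, hmem, mob_inv_mob g hz⟩
    simp [_root_.Fermat.Agent.S59.TW.H658.H544.phi, dens_eq_zero_of_notMem_tsupport this]

theorem integrableOn_dens {u η : ℂ → ℝ} (hu : ContDiffOn ℝ 1 u Uhp) (hη : IsTest η) :
    IntegrableOn (dens u η) Uhp :=
  _root_.Fermat.Agent.S59.TW.H658.H544.integrableOn_Uhp_of_continuousOn (_root_.Fermat.Agent.S59.TW.H658.H544.continuousOn_dens hu hη.1) hη.2.1 hη.2.2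
    (fun _ _ hz => dens_eq_zero_of_notMem_tsupport hz)

section Main

variable (hmeas : Measurable (_root_.Fermat.Agent.S59.TW.H658.chi L χ₁)) (h0 : ∀ z, 0 ≤ _root_.Fermat.Agent.S59.TW.H658.chi L χ₁ z)
  (h1 : ∀ z, _root_.Fermat.Agent.S59.TW.H658.chi L χ₁ z ≤ 1)

include hmeas h0 h1 in
theorem integrableOn_phi_mul_chi {u η : ℂ → ℝ} (hu : ContDiffOn ℝ 1 u Uhp) (hη : IsTest η)
    (g : SL(2, ℤ)) : IntegrableOn (fun z => _root_.Fermat.Agent.S59.TW.H658.H544.phi u η g z * _root_.Fermat.Agent.S59.TW.H658.chi L χ₁ z) Uhp := by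
  refine (_root_.Fermat.Agent.S59.TW.H658.H544.integrableOn_phi hu hη g).mul_bdd (c := 1) hmeas.aestronglyMeasurable ?_
  filter_upwards with z
  rw [Real.norm_eq_abs, abs_le]
  exact ⟨by linarith [h0 z], h1 z⟩

include hmeas h0 h1 in
theorem integrableOn_dens_mul_chi_mob {u η : ℂ → ℝ} (hu : ContDiffOn ℝ 1 u Uhp)
    (hη : IsTest η) (g : SL(2, ℤ)) :
    IntegrableOn (fun w => dens u η w * _root_.Fermat.Agent.S59.TW.H658.chi L χ₁ (mob g w)) Uhp := by
  refine (_root_.Fermat.Agent.S59.TW.H658.H544.integrableOn_dens hu hη).mul_bdd (c := 1) ?_ ?_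
  · have hm : AEMeasurable (mob g) (volume.restrict Uhp) :=
      (_root_.Fermat.Agent.S21.H544.continuousOn_mob g).aemeasurable _root_.Fermat.Agent.S59.TW.H658.H544.measurableSet_Uhp
    exact (hmeas.comp_aemeasurable hm).aestronglyMeasurable
  · filter_upwards with z
    rw [Real.norm_eq_abs, abs_le]
    exact ⟨by linarith [h0 (mob g z)], h1 _⟩

/-- Change of variables for one piece. -/
theorem setIntegral_phi_mul_chi (u η : ℂ → ℝ) (g : SL(2, ℤ)) :
    ∫ z in Uhp, _root_.Fermat.Agent.S59.TW.H658.H544.phi u η g z * _root_.Fermat.Agent.S59.TW.H658.chi L χ₁ z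
      = ∫ w in Uhp, dens u η w * _root_.Fermat.Agent.S59.TW.H658.chi L χ₁ (mob g⁻¹ w) := by
  have h := setIntegral_mob g Uhp _root_.Fermat.Agent.S59.TW.H658.H544.measurableSet_Uhp subset_rfl
    (fun w => dens u η w * _root_.Fermat.Agent.S59.TW.H658.chi L χ₁ (mob g⁻¹ w))
  rw [mob_image_Uhp] at h
  rw [← h]
  refine setIntegral_congr_fun _root_.Fermat.Agent.S59.TW.H658.H544.measurableSet_Uhp fun z hz => ?_
  simp only [_root_.Fermat.Agent.S59.TW.H658.H544.phi, mob_inv_mob g hz]
  ring

end Main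

/-- **INT-C, hypothesis-explicit form**: the unfolding identity, with the needed facts about
`chi` (INT-A) as hypotheses. -/
theorem unfolding_of (hχ : IsSL2ZPartition χ₁)
    (hmeas : Measurable (_root_.Fermat.Agent.S59.TW.H658.chi L χ₁)) (h0 : ∀ z, 0 ≤ _root_.Fermat.Agent.S59.TW.H658.chi L χ₁ z) (h1 : ∀ z, _root_.Fermat.Agent.S59.TW.H658.chi L χ₁ z ≤ 1)
    (hlocfin : ∀ K : Set ℂ, IsCompact K → K ⊆ Uhp →
      {γ : L.Γ | ∃ z ∈ K, _root_.Fermat.Agent.S59.TW.H658.chi L χ₁ (mob (γ : SL(2, ℤ)) z) ≠ 0}.Finite)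
    (hsum : ∀ z ∈ Uhp, ∑ᶠ γ : L.Γ, _root_.Fermat.Agent.S59.TW.H658.chi L χ₁ (mob (γ : SL(2, ℤ)) z) = 1)
    (u : ℂ → ℝ) (hu : ContDiffOn ℝ 1 u Uhp)
    (hinv : ∀ γ : L.Γ, ∀ z ∈ Uhp,
      dz u (mob (γ : SL(2, ℤ)) z) = (cd (γ : SL(2, ℤ)) z) ^ 2 * dz u z)
    {η : ℂ → ℝ} (hη : IsTest η) :
    ∫ z, (fderiv ℝ u z 1 * fderiv ℝ (_root_.Fermat.Agent.S59.TW.H658.sym L η) z 1
        + fderiv ℝ u z Complex.I * fderiv ℝ (_root_.Fermat.Agent.S59.TW.H658.sym L η) z Complex.I) * _root_.Fermat.Agent.S59.TW.H658.chi L χ₁ z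
      = ∫ z, (fderiv ℝ u z 1 * fderiv ℝ η z 1
        + fderiv ℝ u z Complex.I * fderiv ℝ η z Complex.I) := by
  classical
  change ∫ z, dens u (_root_.Fermat.Agent.S59.TW.H658.sym L η) z * _root_.Fermat.Agent.S59.TW.H658.chi L χ₁ z = ∫ z, dens u η z
  -- the finite set of relevant group elements
  have hC := hlocfin (tsupport η) hη.2.1 hη.2.2
  set T : Finset (L.Γ) := hC.toFinset.image (fun γ => γ⁻¹) with hT
  have hTmem : ∀ (γ : L.Γ) (w : ℂ), w ∈ tsupport η →
      _root_.Fermat.Agent.S59.TW.H658.chi L χ₁ (mob ((γ : SL(2, ℤ))⁻¹) w) ≠ 0 → γ ∈ T := by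
    intro γ w hw hne
    rw [hT, Finset.mem_image]
    refine ⟨γ⁻¹, ?_, inv_inv γ⟩
    rw [Set.Finite.mem_toFinset]
    exact ⟨w, hw, by simpa using hne⟩
  -- Claim A
  have hA : ∀ z ∈ Uhp, dens u (_root_.Fermat.Agent.S59.TW.H658.sym L η) z * _root_.Fermat.Agent.S59.TW.H658.chi L χ₁ z
      = ∑ γ ∈ T, _root_.Fermat.Agent.S59.TW.H658.H544.phi u η (γ : SL(2, ℤ)) z * _root_.Fermat.Agent.S59.TW.H658.chi L χ₁ z := by
    intro z hz
    by_cases hchi : _root_.Fermat.Agent.S59.TW.H658.chi L χ₁ z = 0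
    · simp [hchi]
    obtain ⟨S, hS, hd⟩ := _root_.Fermat.Agent.S59.TW.H658.H544.dens_sym L hχ u hinv hη hz
    rw [hd, ← Finset.sum_mul]
    congr 1
    have e1 : ∑ᶠ γ : L.Γ, _root_.Fermat.Agent.S59.TW.H658.H544.phi u η (γ : SL(2, ℤ)) z
        = ∑ γ ∈ S, _root_.Fermat.Agent.S59.TW.H658.H544.phi u η (γ : SL(2, ℤ)) z := by
      refine finsum_eq_sum_of_support_subset _ ?_
      intro γ hγ
      by_contra hγS
      exact hγ (by simp [_root_.Fermat.Agent.S59.TW.H658.H544.phi, dens_eq_zero_of_notMem_tsupport (hS γ hγS)])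
    have e2 : ∑ᶠ γ : L.Γ, _root_.Fermat.Agent.S59.TW.H658.H544.phi u η (γ : SL(2, ℤ)) z
        = ∑ γ ∈ T, _root_.Fermat.Agent.S59.TW.H658.H544.phi u η (γ : SL(2, ℤ)) z := by
      refine finsum_eq_sum_of_support_subset _ ?_
      intro γ hγ
      have hmem : mob (γ : SL(2, ℤ)) z ∈ tsupport η := by
        by_contra hnot
        exact hγ (by simp [_root_.Fermat.Agent.S59.TW.H658.H544.phi, dens_eq_zero_of_notMem_tsupport hnot])
      refine Finset.mem_coe.mpr (hTmem γ _ hmem ?_)
      rw [mob_inv_mob _ hz]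
      exact hchi
    have : ∑ γ ∈ S, dens u η (mob (γ : SL(2, ℤ)) z) / ‖cd (γ : SL(2, ℤ)) z‖ ^ 4
        = ∑ γ ∈ S, _root_.Fermat.Agent.S59.TW.H658.H544.phi u η (γ : SL(2, ℤ)) z := rfl
    rw [this, ← e1, e2]
  -- Claim E
  have hE : ∀ w ∈ Uhp, ∑ γ ∈ T, dens u η w * _root_.Fermat.Agent.S59.TW.H658.chi L χ₁ (mob ((γ : SL(2, ℤ))⁻¹) w)
      = dens u η w := by
    intro w hw
    by_cases hd : dens u η w = 0
    · simp [hd]
    have hwK : w ∈ tsupport η := by
      by_contra hnot
      exact hd (dens_eq_zero_of_notMem_tsupport hnot)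
    rw [← Finset.mul_sum]
    have e1 : ∑ᶠ γ : L.Γ, _root_.Fermat.Agent.S59.TW.H658.chi L χ₁ (mob ((γ : SL(2, ℤ))⁻¹) w)
        = ∑ γ ∈ T, _root_.Fermat.Agent.S59.TW.H658.chi L χ₁ (mob ((γ : SL(2, ℤ))⁻¹) w) := by
      refine finsum_eq_sum_of_support_subset _ ?_
      intro γ hγ
      exact Finset.mem_coe.mpr (hTmem γ w hwK hγ)
    have e2 : ∑ᶠ γ : L.Γ, _root_.Fermat.Agent.S59.TW.H658.chi L χ₁ (mob ((γ : SL(2, ℤ))⁻¹) w) = 1 := by
      have := finsum_comp_equiv (Equiv.inv (L.Γ))
        (f := fun γ : L.Γ => _root_.Fermat.Agent.S59.TW.H658.chi L χ₁ (mob (γ : SL(2, ℤ)) w))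
      simp only [Equiv.inv_apply, Subgroup.coe_inv] at this
      rw [this]
      exact hsum w hw
    rw [← e1, e2, mul_one]
  -- assembly
  calc ∫ z, dens u (_root_.Fermat.Agent.S59.TW.H658.sym L η) z * _root_.Fermat.Agent.S59.TW.H658.chi L χ₁ z
      = ∫ z in Uhp, dens u (_root_.Fermat.Agent.S59.TW.H658.sym L η) z * _root_.Fermat.Agent.S59.TW.H658.chi L χ₁ z := by
        refine (setIntegral_eq_integral_of_forall_compl_eq_zero fun z hz => ?_).symm
        rw [_root_.Fermat.Agent.S59.TW.H658.H544.chi_eq_zero_of_notMem L hz, mul_zero]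
    _ = ∫ z in Uhp, ∑ γ ∈ T, _root_.Fermat.Agent.S59.TW.H658.H544.phi u η (γ : SL(2, ℤ)) z * _root_.Fermat.Agent.S59.TW.H658.chi L χ₁ z :=
        setIntegral_congr_fun _root_.Fermat.Agent.S59.TW.H658.H544.measurableSet_Uhp hA
    _ = ∑ γ ∈ T, ∫ z in Uhp, _root_.Fermat.Agent.S59.TW.H658.H544.phi u η (γ : SL(2, ℤ)) z * _root_.Fermat.Agent.S59.TW.H658.chi L χ₁ z :=
        integral_finsetSum T fun γ _ => _root_.Fermat.Agent.S59.TW.H658.H544.integrableOn_phi_mul_chi L hmeas h0 h1 hu hη _
    _ = ∑ γ ∈ T, ∫ w in Uhp, dens u η w * _root_.Fermat.Agent.S59.TW.H658.chi L χ₁ (mob ((γ : SL(2, ℤ))⁻¹) w) :=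
        Finset.sum_congr rfl fun γ _ => _root_.Fermat.Agent.S59.TW.H658.H544.setIntegral_phi_mul_chi L u η _
    _ = ∫ w in Uhp, ∑ γ ∈ T, dens u η w * _root_.Fermat.Agent.S59.TW.H658.chi L χ₁ (mob ((γ : SL(2, ℤ))⁻¹) w) :=
        (integral_finsetSum T fun γ _ =>
          _root_.Fermat.Agent.S59.TW.H658.H544.integrableOn_dens_mul_chi_mob L hmeas h0 h1 hu hη _).symm
    _ = ∫ w in Uhp, dens u η w := setIntegral_congr_fun _root_.Fermat.Agent.S59.TW.H658.H544.measurableSet_Uhp hE
    _ = ∫ w, dens u η w := by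
        refine setIntegral_eq_integral_of_forall_compl_eq_zero fun w hw => ?_
        exact dens_eq_zero_of_notMem_tsupport fun hmem => hw (hη.2.2 hmem)

end Fermat.Agent.S59.TW.H658.H544

end
-- ===== PACK-END S59/TW/H658/IntCMain.lean

-- ===== PACK-BEGIN A3/H619/Counit.lean
section
/-
A3 / piece ORD (helper619): counit and antipode of an order `H` satisfying `OrderHyp`.
-/


set_option autoImplicit false

noncomputable section

namespace Fermat.Agent.A3.H619

open GaloisRep TensorProduct Module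

variable {p : ℕ} {T : Type} [AddCommGroup T]
variable {H : Subalgebra (ratLocalizedAt p) (T → Qb)} {act : GQ → T → T}

namespace OrderHyp

variable (h : OrderHyp p T act H)
include h

/-- Values at `0` of functions in `H` lie in `R`. -/
theorem ev0_mem_range (f : ↥H) : ev0 H f ∈ (Algebra.ofId (ratLocalizedAt p) Qb).range := by
  -- rationality
  have hfix : ∀ σ : GQ, σ ((f : T → Qb) 0) = (f : T → Qb) 0 := by
    intro σ
    rw [← h.equiv f.1 f.2 σ 0, h.act_zero]
  obtain ⟨q, hq⟩ := exists_rat_of_fixed _ hfix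
  -- integrality
  have := h.finite
  have hint : IsIntegral (ratLocalizedAt p) f := IsIntegral.of_finite (ratLocalizedAt p) f
  have hint2 : IsIntegral (ratLocalizedAt p) (ev0 H f) := hint.map (ev0 H)
  rw [ev0_apply, ← hq] at hint2
  have hint3 : IsIntegral (ratLocalizedAt p) q :=
    (isIntegral_algebraMap_iff (algebraMap ℚ Qb).injective).mp hint2
  have hmem := mem_ratLoc_of_isIntegral p hint3
  refine (AlgHom.mem_range _).mpr ⟨⟨q, hmem⟩, ?_⟩
  rw [ev0_apply, ← hq]
  rfl

/-- The counit of `H`. -/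
def counitAlg : ↥H →ₐ[ratLocalizedAt p] ratLocalizedAt p :=
  ((AlgEquiv.ofInjective (Algebra.ofId (ratLocalizedAt p) Qb)
      (algebraMap_ratLoc_Qb_injective p)).symm :
      (Algebra.ofId (ratLocalizedAt p) Qb).range →ₐ[ratLocalizedAt p] ratLocalizedAt p).comp
    ((ev0 H).codRestrict _ h.ev0_mem_range)

theorem algebraMap_counitAlg (f : ↥H) :
    algebraMap (ratLocalizedAt p) Qb (h.counitAlg f) = (f : T → Qb) 0 := by
  have := (AlgEquiv.ofInjective (Algebra.ofId (ratLocalizedAt p) Qb)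
      (algebraMap_ratLoc_Qb_injective p)).apply_symm_apply
    ((ev0 H).codRestrict _ h.ev0_mem_range f)
  exact congrArg Subtype.val this

/-- `H` is stable under `f ↦ f ∘ (m • ·)` for `m ≥ 1`. -/
theorem comp_nsmul_mem (m : ℕ) : ∀ f ∈ H, (fun t : T => f ((m + 1) • t)) ∈ H := by
  induction m with
  | zero => intro f hf; simpa using hf
  | succ m ih =>
    intro f hf
    obtain ⟨n, a, b, ha, hb, hab⟩ := h.comul f hf
    have : (fun t : T => f ((m + 1 + 1) • t))
        = ∑ i, (fun t : T => a i ((m + 1) • t)) * b i := by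
      funext t
      rw [succ_nsmul, hab, Finset.sum_apply]
      rfl
    rw [this]
    exact H.sum_mem fun i _ => H.mul_mem (ih _ (ha i)) (hb i)

/-- `H` is stable under `f ↦ f ∘ neg`. -/
theorem comp_neg_mem [Finite T] (f : ↥H) :
    (pullAlg p (Neg.neg : T → T)).comp H.val f ∈ H := by
  have hc : 0 < Nat.card T := Nat.card_pos
  have := h.comp_nsmul_mem (2 * Nat.card T - 2) f.1 f.2
  convert this using 1
  funext t
  show (f : T → Qb) (-t) = (f : T → Qb) ((2 * Nat.card T - 2 + 1) • t)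
  have h1 : (2 * Nat.card T - 2 + 1) + 1 = 2 * Nat.card T := by omega
  have h2 : (2 * Nat.card T) • t = 0 := by
    rw [mul_smul, card_nsmul_eq_zero', smul_zero]
  have h3 : ((2 * Nat.card T - 2 + 1) + 1) • t = 0 := by rw [h1, h2]
  rw [succ_nsmul] at h3
  exact (eq_neg_of_add_eq_zero_left h3).symm ▸ rfl

/-- The antipode of `H`. -/
def antipodeAlg [Finite T] : ↥H →ₐ[ratLocalizedAt p] ↥H :=
  ((pullAlg p (Neg.neg : T → T)).comp H.val).codRestrict H h.comp_neg_mem

@[simp]
theorem antipodeAlg_apply [Finite T] (f : ↥H) (t : T) :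
    ((h.antipodeAlg f : ↥H) : T → Qb) t = (f : T → Qb) (-t) := rfl

end OrderHyp

end Fermat.Agent.A3.H619

end
end
-- ===== PACK-END A3/H619/Counit.lean

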