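import Mathlib
import Fermat.Agent.Pack.S44C.G0E19L0
import Fermat.Agent.Pack.S44C.G0E17L3
import Fermat.Agent.Pack.S43MC.G0E15L2
import Fermat.Agent.Pack.S43MC.G0E5L0
import Fermat.Agent.Pack.S43MC.G0E15L0
import Fermat.Agent.Pack.S43MC.G0E15L1
import Fermat.Agent.Pack.S43MC.G0E10L0
import Fermat.Agent.Pack.S43MC.G0E8L0
import Fermat.Agent.Pack.S43MC.G0E14L3
import Fermat.Agent.Pack.S43MC.G0E14L1
import Fermat.Agent.Pack.S43MC.G0E2L0
import Fermat.Agent.Pack.S44C.G0E6L0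
import Fermat.Agent.Pack.S44C.G0E11L0
import Fermat.Agent.Pack.S44C.G0E14L2
import Fermat.Agent.Pack.S43GC.G0E5L0
import Fermat.Agent.Pack.S43MC.G0E10L3
import Fermat.Agent.Pack.S43MC.G0E14L2
import Fermat.Agent.Pack.S43MC.G0E10L2
import Fermat.Agent.Pack.S43MC.G0E4L1
import Fermat.Agent.Pack.S43MC.G0E7L1
import Fermat.Agent.Pack.S43MC.G0E4L2
import Fermat.Agent.Pack.S43GC.G0E0L2
import Fermat.Agent.Pack.S43GC.G0E11L3
import Fermat.Agent.Pack.Fast891

-- ===== PACK-BEGIN S35/G/H126/Stable.lean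
section



/-!
# S35, piece (G') — leaves STABLE, COORD, FROB-RES (helper126)

Statements of `Fermat/Agent/S35/G/SpecLevel.lean`, verbatim:

* `stable   : StableStatement A E`      — an element of the decomposition group of `A` stabilising
  `E` commutes with the Fricke involution and preserves the Gauss valuation ring `V∞`
  (`A2.Mod.H549.fricke_comm`, `A2.Mod.H549.isGaussInt_coeffMap`);
* `coord    : CoordStatement E M q`     — `x = j · j_q` is fixed by the action on the coefficients;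
* `frobRes  : FrobResStatement A E q`   — `s²` induces on `R_E = A ∩ E` an automorphism which is
  `r ↦ r ^ (q ^ 2)` modulo the maximal ideal.
-/

set_option autoImplicit false
set_option linter.unusedSectionVars false
set_option synthInstance.maxHeartbeats 400000
set_option maxHeartbeats 1600000

noncomputable section

namespace Fermat.Agent.S35.G.H126

open ModularCurve HahnSeries Fermat.Agent.A2

/-! ## STABLE -/

/-- The restriction `resE` is the restriction. -/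
theorem coe_resE (E : IntermediateField ℚ A2.Mod.Qb) (s : A2.Mod.Qb ≃ₐ[ℚ] A2.Mod.Qb)
    (hs : StableUnder E s) (e : E) :
    ((A2.Mod.resE E s hs e : E) : A2.Mod.Qb) = s (e : A2.Mod.Qb) := rfl

/-- An element of the decomposition group stabilising `E` preserves `R_E = A ∩ E`. -/
theorem resE_mem_RE (A : ValuationSubring A2.Mod.Qb) (E : IntermediateField ℚ A2.Mod.Qb)
    (s : A2.Mod.Qb ≃ₐ[ℚ] A2.Mod.Qb) (hs : StableUnder E s)
    (hsD : s ∈ A.decompositionSubgroup ℚ) (a : E) (ha : a ∈ A2.Mod.RE A E) :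
    A2.Mod.resE E s hs a ∈ A2.Mod.RE A E := by
  rw [ValuationSubring.mem_comap] at ha ⊢
  exact H708.apply_mem_of_mem_decomposition A hsD ha

/-- ... and reflects it. -/
theorem mem_RE_of_resE_mem (A : ValuationSubring A2.Mod.Qb) (E : IntermediateField ℚ A2.Mod.Qb)
    (s : A2.Mod.Qb ≃ₐ[ℚ] A2.Mod.Qb) (hs : StableUnder E s)
    (hsD : s ∈ A.decompositionSubgroup ℚ) (a : E) (ha : A2.Mod.resE E s hs a ∈ A2.Mod.RE A E) :
    a ∈ A2.Mod.RE A E := by
  rw [ValuationSubring.mem_comap] at ha ⊢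
  exact H708.mem_of_apply_mem_of_mem_decomposition A hsD ha

/-- **STABLE.** -/
theorem stable (A : ValuationSubring A2.Mod.Qb) (E : IntermediateField ℚ A2.Mod.Qb) :
    StableStatement A E := by
  intro N hN _hdvr V W hV hW s hs hsD
  constructor
  · -- `σ W = W σ`
    refine A2.Mod.H549.fricke_comm N (W : _ →+* _) (fun c => W.commutes c)
      (A2.Mod.resE E s hs) ?_
    intro d hne hd
    obtain ⟨d', hd'⟩ := hd
    have hd'0 : d' ≠ 0 := by
      rintro rfl
      exact hN (by rw [hd', mul_zero])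
    have : NeZero d' := ⟨hd'0⟩
    have hdN : d ∣ N := ⟨d', hd'⟩
    have hd'N : d' ∣ N := ⟨d, by rw [hd', mul_comm]⟩
    show W (A2.Mod.jE E N d hdN) ∈ A2.Mod.H549.fixSub N (A2.Mod.resE E s hs)
    rw [hW.1 d d' hdN hd'N hd'.symm, A2.Mod.H549.mem_fixSub]
    exact Subtype.ext (coeffMap_coeffEmb (A2.Mod.resE E s hs) _)
  · -- `σ V∞ ⊆ V∞`
    intro f hf
    exact (hV _).mpr
      (A2.Mod.H549.isGaussInt_coeffMap (F₀ := modularFunctionFieldFull N) (A2.Mod.resE E s hs)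
        (resE_mem_RE A E s hs hsD) ((hV f).mp hf))

/-! ## COORD -/

/-- the generators `j_d` are fixed by the action on the coefficients -/
theorem actE_jE (E : IntermediateField ℚ A2.Mod.Qb) (N : ℕ) (t : E ≃ₐ[ℚ] E) (d : ℕ) [NeZero d]
    (hd : d ∣ N) : actE E N t (A2.Mod.jE E N d hd) = A2.Mod.jE E N d hd :=
  Subtype.ext (coeffMap_coeffEmb t _)

/-- **COORD.** -/
theorem coord (E : IntermediateField ℚ A2.Mod.Qb) (M q : ℕ) [NeZero M] [NeZero q] :
    CoordStatement E M q := by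
  intro t
  rw [A2.Mod.xE, map_mul, actE_jE, actE_jE]

/-! ## FROB-RES -/

/-- A Frobenius element is the `q`-th power map on the residue field (elementwise form). -/
theorem frob_sub_pow_mem_nonunits (A : ValuationSubring A2.Mod.Qb) {q : ℕ}
    {s : A2.Mod.Qb ≃ₐ[ℚ] A2.Mod.Qb} (hF : A.IsFrobeniusAt s q) {z : A2.Mod.Qb} (hz : z ∈ A) :
    s z - z ^ q ∈ A.nonunits := by
  obtain ⟨hσD, hF⟩ := hF
  have h2 := hF (IsLocalRing.residue A ⟨z, hz⟩)
  rw [← IsLocalRing.ResidueField.residue_smul, ← map_pow] at h2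
  have h3 : ((⟨s, hσD⟩ : A.decompositionSubgroup ℚ) • (⟨z, hz⟩ : A)) - (⟨z, hz⟩ : A) ^ q
      ∈ IsLocalRing.maximalIdeal A := by
    rw [← Ideal.Quotient.eq]
    exact h2
  rw [← ValuationSubring.coe_mem_nonunits_iff] at h3
  exact h3

/-- `s² z ≡ z ^ (q²)`. -/
theorem frob_sq_sub_pow_mem_nonunits (A : ValuationSubring A2.Mod.Qb) {q : ℕ}
    {s : A2.Mod.Qb ≃ₐ[ℚ] A2.Mod.Qb} (hF : A.IsFrobeniusAt s q) {z : A2.Mod.Qb} (hz : z ∈ A) :
    s (s z) - z ^ (q ^ 2) ∈ A.nonunits := by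
  have hsz : s z ∈ A := H708.apply_mem_of_mem_decomposition A hF.mem_decompositionSubgroup hz
  have h1 := frob_sub_pow_mem_nonunits A hF hsz
  have h2 := frob_sub_pow_mem_nonunits A hF hz
  -- work in `A`
  have e1 : (⟨s (s z), H708.apply_mem_of_mem_decomposition A hF.mem_decompositionSubgroup hsz⟩ : A)
      - (⟨s z, hsz⟩ : A) ^ q ∈ IsLocalRing.maximalIdeal A := by
    rw [← ValuationSubring.coe_mem_nonunits_iff]
    exact h1
  have e2 : (⟨s z, hsz⟩ : A) - (⟨z, hz⟩ : A) ^ q ∈ IsLocalRing.maximalIdeal A := by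
    rw [← ValuationSubring.coe_mem_nonunits_iff]
    exact h2
  have e3 : (⟨s z, hsz⟩ : A) ^ q - ((⟨z, hz⟩ : A) ^ q) ^ q ∈ IsLocalRing.maximalIdeal A :=
    Ideal.mem_of_dvd _ (sub_dvd_pow_sub_pow _ _ q) e2
  have e4 := add_mem e1 e3
  rw [sub_add_sub_cancel, ← pow_mul, ← sq, ← ValuationSubring.coe_mem_nonunits_iff] at e4
  exact e4

/-- **FROB-RES.** -/
theorem frobRes (A : ValuationSubring A2.Mod.Qb) (E : IntermediateField ℚ A2.Mod.Qb) (q : ℕ)
    [NeZero q] : FrobResStatement A E q := by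
  intro _hA _hq s hs hF
  have hsD : s ∈ A.decompositionSubgroup ℚ := hF.mem_decompositionSubgroup
  -- the ring homomorphism induced by `s²` on `R_E`
  let φ : A2.Mod.RE A E →+* A2.Mod.RE A E :=
    { toFun := fun r => ⟨(A2.Mod.resE E s hs * A2.Mod.resE E s hs) (r : E),
        resE_mem_RE A E s hs hsD _ (resE_mem_RE A E s hs hsD _ r.2)⟩
      map_one' := Subtype.ext (map_one _)
      map_mul' := fun a b => Subtype.ext (map_mul _ (a : E) (b : E))
      map_zero' := Subtype.ext (map_zero _)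
      map_add' := fun a b => Subtype.ext (map_add _ (a : E) (b : E)) }
  have hφ : Function.Bijective φ := by
    constructor
    · intro a b hab
      have h := congrArg Subtype.val hab
      exact Subtype.ext ((A2.Mod.resE E s hs * A2.Mod.resE E s hs).injective h)
    · intro b
      obtain ⟨a, ha⟩ := (A2.Mod.resE E s hs * A2.Mod.resE E s hs).surjective (b : E)
      have ha' : A2.Mod.resE E s hs (A2.Mod.resE E s hs a) = (b : E) := ha
      have hmem : a ∈ A2.Mod.RE A E := by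
        apply mem_RE_of_resE_mem A E s hs hsD
        apply mem_RE_of_resE_mem A E s hs hsD
        rw [ha']
        exact b.2
      exact ⟨⟨a, hmem⟩, Subtype.ext ha⟩
  refine ⟨RingEquiv.ofBijective φ hφ, fun r => rfl, fun r => ?_⟩
  rw [← ValuationSubring.coe_mem_nonunits_iff, A2.Mod.H549.mem_nonunits_comap]
  have hr : ((r : E) : A2.Mod.Qb) ∈ A := r.2
  have key := frob_sq_sub_pow_mem_nonunits A hF hr
  exact key

end Fermat.Agent.S35.G.H126

end

end
-- ===== PACK-END S35/G/H126/Stable.lean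

-- ===== PACK-BEGIN S25/H130/Locus.lean
section


/-!
# S25 / AS4 (helper130): the chart loci are compatible with base change and cover the base
-/

set_option autoImplicit false
universe u
open CategoryTheory CategoryTheory.Limits AlgebraicGeometry AlgebraicGeometry.RelPicard
  NeronModelInfra GoodReductionJacobian TopologicalSpace

namespace Fermat.Agent.S25.H130

noncomputable section

variable {k : Type u} [Field k] {C : Scheme.{u}} {c : C ⟶ Spec (CommRingCat.of k)}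
  {ε : SchemeHomOver (𝟙 (Spec (CommRingCat.of k))) c}

variable {T T' : Scheme.{u}} {t : T ⟶ Spec (CommRingCat.of k)}
  {t' : T' ⟶ Spec (CommRingCat.of k)}

/-- Points of an affine open of `T` outside `V(I)` lie in the chart locus. -/
theorem mem_chartLocus_of_notMem (ch : ChartFamily c ε) (i : ch.ι)
    {N : RigidifiedLineBundle c ε t} (A : CommRingCat.{u}) (a : Spec A ⟶ T) [IsOpenImmersion a]
    {s : Spec A ⟶ Spec (CommRingCat.of k)} {NA : RigidifiedLineBundle c ε s} (hNA : IsPB N a NA)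
    (I : Ideal A)
    (hI : ∀ (A' : CommRingCat.{u}) (ψ : A ⟶ A') {s' : Spec A' ⟶ Spec (CommRingCat.of k)}
      (N' : RigidifiedLineBundle c ε s'), IsPB NA (Spec.map ψ) N' →
        I.map ψ.hom = ⊤ → InChart ch i N')
    (p : Spec A) (f : A) (hf : f ∈ I) (hfp : f ∉ (p : PrimeSpectrum A).asIdeal) :
    a p ∈ chartLocus ch i N := by
  let ψ : A ⟶ CommRingCat.of (Localization.Away f) :=
    CommRingCat.ofHom (algebraMap A (Localization.Away f))
  have hNf := isPB_mk NA (Spec.map ψ) rfl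
  have htop : I.map ψ.hom = ⊤ :=
    Ideal.eq_top_of_isUnit_mem _ (Ideal.mem_map_of_mem _ hf)
      (IsLocalization.Away.algebraMap_isUnit f)
  have hin := hI _ ψ _ hNf htop
  have hle := opensRange_le_chartLocus (Spec.map ψ ≫ a) (hNA.comp hNf) hin
  apply hle
  have hp : (p : PrimeSpectrum A) ∈ Set.range (PrimeSpectrum.comap (algebraMap A (Localization.Away f))) := by
    rw [PrimeSpectrum.localization_away_comap_range (Localization.Away f) f]
    exact hfp
  obtain ⟨q, hq⟩ := hp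
  exact ⟨q, by rw [Scheme.Hom.comp_apply]; exact congrArg a hq⟩

/-- If the pullback of `N` along `f` lies in the `i`-th chart, then `f` maps into the chart
locus of `N`. -/
theorem mem_chartLocus_of_inChart (ch : ChartFamily c ε) (i : ch.ι)
    {N : RigidifiedLineBundle c ε t} (hN : FibrewiseAlgEquivZero N) {f : T' ⟶ T}
    {N' : RigidifiedLineBundle c ε t'} (hf : IsPB N f N') (h : InChart ch i N') (x' : T') :
    f x' ∈ chartLocus ch i N := by
  -- an affine open neighbourhood of `f x'`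
  let a := T.affineOpenCover.f (T.affineOpenCover.idx (f x'))
  have hNA := isPB_mk N a rfl
  obtain ⟨I, -, hI⟩ := locus_spec_isPB ch _ _ (hNA.deg0 hN)
  -- the point `x'` as a morphism from the spectrum of its residue field
  let pt := T'.fromSpecResidueField x'
  have hrange : Set.range (pt ≫ f) ⊆ Set.range a := by
    rintro _ ⟨z, rfl⟩
    rw [Scheme.Hom.comp_apply, Scheme.fromSpecResidueField_apply]
    exact T.affineOpenCover.covers (f x')
  let l := IsOpenImmersion.lift a (pt ≫ f) hrange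
  have hl : l ≫ a = pt ≫ f := IsOpenImmersion.lift_fac _ _ _
  obtain ⟨ψ, hψ⟩ : ∃ ψ, l = Spec.map ψ := ⟨Spec.preimage l, (Spec.map_preimage l).symm⟩
  have hNκ := isPB_mk N' pt rfl
  have h1 : IsPB _ (Spec.map ψ) _ := hNA.of_comp ((hf.comp hNκ).of_eq (hψ ▸ hl.symm))
  have htop := (hI i _ ψ _ h1).1 (h.pullback hNκ)
  -- a point of the residue field spectrum
  obtain ⟨z⟩ : Nonempty (Spec (T'.residueField x')) := inferInstance
  have hz : a (l z) = f x' := by
    rw [← Scheme.Hom.comp_apply, hl, Scheme.Hom.comp_apply, Scheme.fromSpecResidueField_apply]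
  rw [← hz]
  have hnot : ¬ I i ≤ ((l z : Spec _) : PrimeSpectrum _).asIdeal := by
    intro hle
    have h2 : (I i).map ψ.hom ≤ (z : PrimeSpectrum _).asIdeal := by
      rw [Ideal.map_le_iff_le_comap]
      intro r hr
      have := hle hr
      rw [hψ] at this
      exact this
    rw [htop] at h2
    exact (z : PrimeSpectrum _).isPrime.ne_top (top_le_iff.1 h2)
  obtain ⟨r, hr, hrp⟩ := Set.not_subset.1 hnot
  exact mem_chartLocus_of_notMem ch i _ a hNA (I i)
    (fun A' ψ' s' N'' hN'' htop' => (hI i A' ψ' N'' hN'').2 htop') (l z) r hr hrp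

/-- The chart loci of a degree-zero bundle cover the base. -/
theorem iSup_chartLocus (ch : ChartFamily c ε) {N : RigidifiedLineBundle c ε t}
    (hN : FibrewiseAlgEquivZero N) : (⨆ i, chartLocus ch i N) = ⊤ := by
  rw [eq_top_iff]
  rintro x -
  let a := T.affineOpenCover.f (T.affineOpenCover.idx x)
  have hNA := isPB_mk N a rfl
  obtain ⟨I, hItop, hI⟩ := locus_spec_isPB ch _ _ (hNA.deg0 hN)
  obtain ⟨p, hp⟩ := T.affineOpenCover.covers x
  have hex : ∃ i, ¬ I i ≤ (p : PrimeSpectrum _).asIdeal := by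
    by_contra hcon
    push Not at hcon
    have : (⨆ i, I i) ≤ (p : PrimeSpectrum _).asIdeal := iSup_le hcon
    rw [hItop] at this
    exact (p : PrimeSpectrum _).isPrime.ne_top (top_le_iff.1 this)
  obtain ⟨i, hi⟩ := hex
  obtain ⟨r, hr, hrp⟩ := Set.not_subset.1 hi
  refine Opens.mem_iSup.2 ⟨i, ?_⟩
  rw [← hp]
  exact mem_chartLocus_of_notMem ch i _ a hNA (I i)
    (fun A' ψ' s' N'' hN'' htop' => (hI i A' ψ' N'' hN'').2 htop') p r hr hrp

end

end Fermat.Agent.S25.H130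

end
-- ===== PACK-END S25/H130/Locus.lean

-- ===== PACK-BEGIN S25/H265/GDCBaseChange.lean
section



/-!
# S25 / helper265, block GDC, part 7: base changes of gluing data exist

`exists_isBC` : for a morphism of cospans `(ρ₀, ρ₁, ρ₀₁)` every gluing datum has a base change.
`curveGD_exists_isBC`, `algBCExists` : the frozen statement `Stmt.AlgBCExists`.
-/

set_option autoImplicit false
set_option linter.style.haveILetI false

universe u

open scoped TensorProduct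

namespace Fermat.Agent.S25.H265

open Fermat.Agent.S25 GlueDatum

section General

variable {A R₀ R₁ R₀₁ : Type u} [CommRing A] [CommRing R₀] [CommRing R₁]
    [CommRing R₀₁] [Algebra A R₀] [Algebra A R₁] [Algebra A R₀₁] [Algebra R₀ R₀₁]
    [Algebra R₁ R₀₁] [IsScalarTower A R₀ R₀₁] [IsScalarTower A R₁ R₀₁]
    {A' R₀' R₁' R₀₁' : Type u} [CommRing A'] [CommRing R₀'] [CommRing R₁']
    [CommRing R₀₁'] [Algebra A' R₀'] [Algebra A' R₁'] [Algebra A' R₀₁'] [Algebra R₀' R₀₁']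
    [Algebra R₁' R₀₁'] [IsScalarTower A' R₀' R₀₁'] [IsScalarTower A' R₁' R₀₁']

/-- The restriction map `r₀` of a gluing datum, as a semilinear map. -/
def r₀Semi (G : GlueDatum A R₀ R₁ R₀₁) : G.N₀ →ₛₗ[algebraMap R₀ R₀₁] G.N₀₁ where
  toFun := G.r₀
  map_add' := G.r₀.map_add
  map_smul' := r₀_smul G

/-- The restriction map `r₁` of a gluing datum, as a semilinear map. -/
def r₁Semi (G : GlueDatum A R₀ R₁ R₀₁) : G.N₁ →ₛₗ[algebraMap R₁ R₀₁] G.N₀₁ where
  toFun := G.r₁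
  map_add' := G.r₁.map_add
  map_smul' := r₁_smul G

theorem semiUP_r₀ (G : GlueDatum A R₀ R₁ R₀₁) : SemiUP (algebraMap R₀ R₀₁) (r₀Semi G) :=
  semiUP_of_isBaseChange G.N₀ G.r₀ G.isBaseChange₀ _ (fun _ => rfl)

theorem semiUP_r₁ (G : GlueDatum A R₀ R₁ R₀₁) : SemiUP (algebraMap R₁ R₀₁) (r₁Semi G) :=
  semiUP_of_isBaseChange G.N₁ G.r₁ G.isBaseChange₁ _ (fun _ => rfl)

/-- Base changes of gluing data along a morphism of cospans exist. -/
theorem exists_isBC (ρ₀ : R₀ →+* R₀') (ρ₁ : R₁ →+* R₁') (ρ₀₁ : R₀₁ →+* R₀₁')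
    (hcosp₀ : ∀ r, ρ₀₁ (algebraMap R₀ R₀₁ r) = algebraMap R₀' R₀₁' (ρ₀ r))
    (hcosp₁ : ∀ r, ρ₀₁ (algebraMap R₁ R₀₁ r) = algebraMap R₁' R₀₁' (ρ₁ r))
    (G : GlueDatum A R₀ R₁ R₀₁) :
    ∃ G' : GlueDatum A' R₀' R₁' R₀₁', GlueDatum.IsBC ρ₀ ρ₁ ρ₀₁ G G' := by
  obtain ⟨N₀', _, _, b₀, hb₀⟩ := exists_semiUP ρ₀ G.N₀
  obtain ⟨N₁', _, _, b₁, hb₁⟩ := exists_semiUP ρ₁ G.N₁
  obtain ⟨N₀₁', _, _, b₀₁, hb₀₁⟩ := exists_semiUP ρ₀₁ G.N₀₁
  letI mL : Module R₀' N₀₁' := Module.compHom N₀₁' (algebraMap R₀' R₀₁')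
  letI mR : Module R₁' N₀₁' := Module.compHom N₀₁' (algebraMap R₁' R₀₁')
  haveI tL : IsScalarTower R₀' R₀₁' N₀₁' := IsScalarTower.of_algebraMap_smul fun _ _ => rfl
  haveI tR : IsScalarTower R₁' R₀₁' N₀₁' := IsScalarTower.of_algebraMap_smul fun _ _ => rfl
  letI a₀ : Module A' N₀' := Module.compHom N₀' (algebraMap A' R₀')
  letI a₁ : Module A' N₁' := Module.compHom N₁' (algebraMap A' R₁')
  letI a₀₁ : Module A' N₀₁' := Module.compHom N₀₁' (algebraMap A' R₀₁')
  haveI t₀ : IsScalarTower A' R₀' N₀' := IsScalarTower.of_algebraMap_smul fun _ _ => rfl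
  haveI t₁ : IsScalarTower A' R₁' N₁' := IsScalarTower.of_algebraMap_smul fun _ _ => rfl
  haveI t₀₁ : IsScalarTower A' R₀₁' N₀₁' := IsScalarTower.of_algebraMap_smul fun _ _ => rfl
  haveI : RingHomCompTriple (algebraMap R₀ R₀₁) ρ₀₁ (ρ₀₁.comp (algebraMap R₀ R₀₁)) := ⟨rfl⟩
  haveI : RingHomCompTriple (algebraMap R₁ R₀₁) ρ₀₁ (ρ₀₁.comp (algebraMap R₁ R₀₁)) := ⟨rfl⟩
  haveI : RingHomCompTriple ρ₀ (algebraMap R₀' R₀₁') ((algebraMap R₀' R₀₁').comp ρ₀) := ⟨rfl⟩
  haveI : RingHomCompTriple ρ₁ (algebraMap R₁' R₀₁') ((algebraMap R₁' R₀₁').comp ρ₁) := ⟨rfl⟩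
  -- the restriction maps of the base change
  obtain ⟨s₀, hs₀⟩ := hb₀.exists_lift (algebraMap R₀' R₀₁') (fun n => b₀₁ (G.r₀ n))
    (fun x y => by rw [G.r₀.map_add, b₀₁.map_add])
    (fun r x => by rw [r₀_smul, LinearMap.map_smulₛₗ, hcosp₀])
  obtain ⟨s₁, hs₁⟩ := hb₁.exists_lift (algebraMap R₁' R₀₁') (fun n => b₀₁ (G.r₁ n))
    (fun x y => by rw [G.r₁.map_add, b₀₁.map_add])
    (fun r x => by rw [r₁_smul, LinearMap.map_smulₛₗ, hcosp₁])
  have hs₀UP : SemiUP (algebraMap R₀' R₀₁') s₀ := by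
    refine hb₀.of_comp (τ := (algebraMap R₀' R₀₁').comp ρ₀) ?_
    exact ((semiUP_r₀ G).comp hb₀₁).congr (RingHom.ext hcosp₀) (fun n => (hs₀ n).symm)
  have hs₁UP : SemiUP (algebraMap R₁' R₀₁') s₁ := by
    refine hb₁.of_comp (τ := (algebraMap R₁' R₀₁').comp ρ₁) ?_
    exact ((semiUP_r₁ G).comp hb₀₁).congr (RingHom.ext hcosp₁) (fun n => (hs₁ n).symm)
  let r₀' : N₀' →ₗ[R₀'] N₀₁' :=
    { toFun := s₀
      map_add' := s₀.map_add
      map_smul' := fun r x => LinearMap.map_smulₛₗ s₀ r x }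
  let r₁' : N₁' →ₗ[R₁'] N₀₁' :=
    { toFun := s₁
      map_add' := s₁.map_add
      map_smul' := fun r x => LinearMap.map_smulₛₗ s₁ r x }
  haveI : Module.Invertible R₀ G.N₀ := G.invertible₀
  haveI : Module.Invertible R₁ G.N₁ := G.invertible₁
  let G' : GlueDatum A' R₀' R₁' R₀₁' :=
    { N₀ := N₀'
      N₁ := N₁'
      N₀₁ := N₀₁'
      moduleL := mL
      moduleR := mR
      towerL := tL
      towerR := tR
      baseModule₀ := a₀
      baseModule₁ := a₁
      baseModule₀₁ := a₀₁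
      baseTower₀ := t₀
      baseTower₁ := t₁
      baseTower₀₁ := t₀₁
      r₀ := r₀'
      r₁ := r₁'
      isBaseChange₀ := isBaseChange_of_semiUP N₀' r₀' s₀ (fun _ => rfl) hs₀UP
      isBaseChange₁ := isBaseChange_of_semiUP N₁' r₁' s₁ (fun _ => rfl) hs₁UP
      invertible₀ := invertible_of_semiUP ρ₀ hb₀
      invertible₁ := invertible_of_semiUP ρ₁ hb₁ }
  refine ⟨G', ⟨{ b₀ := b₀, b₁ := b₁, b₀₁ := b₀₁, comm₀ := fun s => (hs₀ s).symm,
                 comm₁ := fun s => (hs₁ s).symm,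
                 isBaseChange₀ := isSemilinearBaseChange_of_semiUP _ _ hb₀,
                 isBaseChange₁ := isSemilinearBaseChange_of_semiUP _ _ hb₁,
                 isBaseChange₀₁ := isSemilinearBaseChange_of_semiUP _ _ hb₀₁ }⟩⟩

end General

section Curve

variable {k : Type u} [Field k] {B₀ B₁ B₀₁ : Type u} [CommRing B₀] [CommRing B₁] [CommRing B₀₁]
  [Algebra k B₀] [Algebra k B₁] [Algebra k B₀₁] [Algebra B₀ B₀₁] [Algebra B₁ B₀₁]
  [IsScalarTower k B₀ B₀₁] [IsScalarTower k B₁ B₀₁]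
  {A A' : Type u} [CommRing A] [Algebra k A] [CommRing A'] [Algebra k A']

/-- Base changes of curve gluing data exist. -/
theorem curveGD_exists_isBC (φ : A →ₐ[k] A') (G : CurveGD k B₀ B₁ B₀₁ A) :
    ∃ G' : CurveGD k B₀ B₁ B₀₁ A', CurveGD.IsBC φ G G' :=
  exists_isBC _ _ _ (tensorMapLeft_algebraMap φ B₀ B₀₁) (tensorMapLeft_algebraMap φ B₁ B₀₁) G

end Curve

section Stmt

open CategoryTheory AlgebraicGeometry NeronModelInfra

variable {k : Type u} [Field k] {C : Scheme.{u}} {c : C ⟶ Spec (CommRingCat.of k)}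
  {ε : SchemeHomOver (𝟙 (Spec (CommRingCat.of k))) c}

/-- **ALG-BC-EXISTS** (frozen statement of `DefsDict`). -/
theorem algBCExists (Ch : ChartOf c ε) : Stmt.AlgBCExists Ch :=
  fun _ _ _ _ _ _ φ G => curveGD_exists_isBC φ G

end Stmt

end Fermat.Agent.S25.H265

end
-- ===== PACK-END S25/H265/GDCBaseChange.lean

-- ===== PACK-BEGIN S25/H567/AbelGlue.lean
section



/-!
# Row S25, block ABEL (scheme side), part 3 (helper567): gluing the Abel family

Let `𝔉` be an algebraic Abel family and `q : Fin g → (T ⟶ C)` a tuple of morphisms over `k`.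
A rigidified line bundle `N` over `T` is an *Abel bundle* for `q` (`IsAbelBundle`) if its pullback
along every affine test morphism `r : Spec R ⟶ T` on which the points `r ≫ q i` are chart points
`Q i` is the bundle of the gluing datum `𝔉.F R Q`.

* `isAbelBundle_of_corr`   : the local model (from `DictBC`, `DictIso`, `𝔉.bc`, `𝔉.same`);
* `IsAbelBundle.of_isPB`   : stability under pullback;
* `IsAbelBundle.rIso`      : uniqueness (from `SheafSep`, `DictGlue` and the good charts);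
* `exists_isAbelBundleField` : existence (from `SheafGlue`), tested on fields.
-/

set_option autoImplicit false
universe u
open CategoryTheory CategoryTheory.Limits AlgebraicGeometry AlgebraicGeometry.RelPicard
  NeronModelInfra GoodReductionJacobian
open scoped TensorProduct

namespace Fermat.Agent.S25.H567

open Fermat.Agent.S25 Fermat.Agent.S25.H746 Fermat.Agent.S25.H130

noncomputable section

section GDC

variable {A R₀ R₁ R₀₁ : Type u} [CommRing A] [CommRing R₀] [CommRing R₁]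
    [CommRing R₀₁] [Algebra A R₀] [Algebra A R₁] [Algebra A R₀₁] [Algebra R₀ R₀₁]
    [Algebra R₁ R₀₁] [IsScalarTower A R₀ R₀₁] [IsScalarTower A R₁ R₀₁]

theorem gdIsIso_refl (G : GlueDatum A R₀ R₁ R₀₁) : G.IsIso G :=
  ⟨⟨LinearEquiv.refl _ _, LinearEquiv.refl _ _, LinearEquiv.refl _ _, fun _ => rfl,
    fun _ => rfl⟩⟩

theorem gdIsIso_symm {G G' : GlueDatum A R₀ R₁ R₀₁} (h : G.IsIso G') : G'.IsIso G := by
  obtain ⟨e⟩ := h
  refine ⟨⟨e.e₀.symm, e.e₁.symm, e.e₀₁.symm, fun s => ?_, fun s => ?_⟩⟩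
  · apply e.e₀₁.injective
    rw [LinearEquiv.apply_symm_apply, e.comm₀, LinearEquiv.apply_symm_apply]
  · apply e.e₀₁.injective
    rw [LinearEquiv.apply_symm_apply, e.comm₁, LinearEquiv.apply_symm_apply]

theorem gdIsIso_trans {G G' G'' : GlueDatum A R₀ R₁ R₀₁} (h : G.IsIso G')
    (h' : G'.IsIso G'') : G.IsIso G'' := by
  obtain ⟨e⟩ := h
  obtain ⟨e'⟩ := h'
  refine ⟨⟨e.e₀.trans e'.e₀, e.e₁.trans e'.e₁, e.e₀₁.trans e'.e₀₁, fun s => ?_, fun s => ?_⟩⟩
  · simp only [LinearEquiv.trans_apply, e.comm₀, e'.comm₀]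
  · simp only [LinearEquiv.trans_apply, e.comm₁, e'.comm₁]

end GDC

variable {k : Type u} [Field k] {C : Scheme.{u}} {c : C ⟶ Spec (CommRingCat.of k)}
  {ε : SchemeHomOver (𝟙 (Spec (CommRingCat.of k))) c} (Ch : ChartOf c ε)
  (𝔉 : AlgAbelFamily k Ch.B₀ Ch.B₁ Ch.B₀₁ Ch.e)

/-- Restrictions to the range of an open immersion are isomorphic as soon as the pullbacks
along the open immersion are. -/
theorem rIso_restrictOpen_opensRange {T S : Scheme.{u}} {t : T ⟶ Spec (CommRingCat.of k)}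
    {s : S ⟶ Spec (CommRingCat.of k)} (N N' : RigidifiedLineBundle c ε t)
    (j : SchemeHomOver s t) [IsOpenImmersion j.1]
    (h : RIso (N.pullbackAlong j) (N'.pullbackAlong j)) :
    RIso (restrictOpen N j.1.opensRange) (restrictOpen N' j.1.opensRange) := by
  have hr : Set.range (j.1.opensRange.ι) ⊆ Set.range j.1 := by
    rw [Scheme.Opens.range_ι]; exact subset_rfl
  have hfac : IsOpenImmersion.lift j.1 (j.1.opensRange.ι) hr ≫ j.1 = j.1.opensRange.ι :=
    IsOpenImmersion.lift_fac _ _ _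
  have h1 : IsPB (N.pullbackAlong j) (IsOpenImmersion.lift j.1 (j.1.opensRange.ι) hr)
      (restrictOpen N j.1.opensRange) :=
    (isPB_pullbackAlong N j).of_comp ((isPB_restrictOpen N _).of_eq hfac.symm)
  have h2 : IsPB (N'.pullbackAlong j) (IsOpenImmersion.lift j.1 (j.1.opensRange.ι) hr)
      (restrictOpen N' j.1.opensRange) :=
    (isPB_pullbackAlong N' j).of_comp ((isPB_restrictOpen N' _).of_eq hfac.symm)
  exact (h1.of_rIso_left h).rIso h2

/-- `N` is an Abel bundle for the tuple of points `q`. -/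
def IsAbelBundle {T : Scheme.{u}} (t : T ⟶ Spec (CommRingCat.of k)) (q : Fin 𝔉.g → (T ⟶ C))
    (N : RigidifiedLineBundle c ε t) : Prop :=
  ∀ (R : Type u) [CommRing R] [Algebra k R] (r : SchemeHomOver (specStr k R) t)
    (Q : Fin 𝔉.g → ChartPt k Ch.B₀ Ch.B₁ R), (∀ i, chartPtHom Ch (Q i) = r.1 ≫ q i) →
    ∀ (L : RigidifiedLineBundle c ε (specStr k R)) (G : CurveGD k Ch.B₀ Ch.B₁ Ch.B₀₁ R),
      Corr Ch R L.L G → G.IsIso (𝔉.F R Q) → RIso (N.pullbackAlong r) L

/-- The same property, tested on fields only. -/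
def IsAbelBundleField {T : Scheme.{u}} (t : T ⟶ Spec (CommRingCat.of k))
    (q : Fin 𝔉.g → (T ⟶ C)) (N : RigidifiedLineBundle c ε t) : Prop :=
  ∀ (K : Type u) [Field K] [Algebra k K] (r : SchemeHomOver (specStr k K) t)
    (Q : Fin 𝔉.g → ChartPt k Ch.B₀ Ch.B₁ K), (∀ i, chartPtHom Ch (Q i) = r.1 ≫ q i) →
    ∀ (L : RigidifiedLineBundle c ε (specStr k K)) (G : CurveGD k Ch.B₀ Ch.B₁ Ch.B₀₁ K),
      Corr Ch K L.L G → G.IsIso (𝔉.F K Q) → RIso (N.pullbackAlong r) L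

variable {Ch 𝔉}

theorem IsAbelBundle.field {T : Scheme.{u}} {t : T ⟶ Spec (CommRingCat.of k)}
    {q : Fin 𝔉.g → (T ⟶ C)} {N : RigidifiedLineBundle c ε t} (h : IsAbelBundle Ch 𝔉 t q N) :
    IsAbelBundleField Ch 𝔉 t q N :=
  fun K _ _ r Q hQ L G hL hG => h K r Q hQ L G hL hG

/-- The local model: a bundle over `Spec A` with gluing datum `𝔉.F A P`. -/
theorem isAbelBundle_of_corr (hDI : Stmt.DictIso Ch) (hDB : Stmt.DictBC Ch)
    {A : Type u} [CommRing A] [Algebra k A] (P : Fin 𝔉.g → ChartPt k Ch.B₀ Ch.B₁ A)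
    (M : RigidifiedLineBundle c ε (specStr k A)) (hM : Corr Ch A M.L (𝔉.F A P)) :
    IsAbelBundle Ch 𝔉 (specStr k A) (fun i => chartPtHom Ch (P i)) M := by
  intro R _ _ r Q hQ L G hL hG
  obtain ⟨a, rfl⟩ := exists_specHomOver_eq r
  have hcorr : Corr Ch R (M.pullbackAlong (specHomOver k a)).L
      (𝔉.F R (fun i => (P i).map a)) :=
    hDB A R a M _ _ hM (𝔉.bc A R a P)
  have hsame : (𝔉.F R (fun i => (P i).map a)).IsIso (𝔉.F R Q) := by
    refine 𝔉.same R _ Q (fun i => same_of_chartPtHom_eq Ch _ _ ?_)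
    rw [chartPtHom_map, hQ i]
    rfl
  exact (hDI R _ L _ G hcorr hL).2 (gdIsIso_trans hsame (gdIsIso_symm hG))

/-- Abel bundles are stable under pullback. -/
theorem IsAbelBundle.of_isPB {T T' : Scheme.{u}} {t : T ⟶ Spec (CommRingCat.of k)}
    {t' : T' ⟶ Spec (CommRingCat.of k)} {q : Fin 𝔉.g → (T ⟶ C)}
    {N : RigidifiedLineBundle c ε t} (hN : IsAbelBundle Ch 𝔉 t q N) {f : T' ⟶ T}
    {N' : RigidifiedLineBundle c ε t'} (h : IsPB N f N') {q' : Fin 𝔉.g → (T' ⟶ C)}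
    (hq' : ∀ i, q' i = f ≫ q i) : IsAbelBundle Ch 𝔉 t' q' N' := by
  intro R _ _ r Q hQ L G hL hG
  have hw : (r.1 ≫ f) ≫ t = specStr k R := by rw [Category.assoc, h.w, r.2]
  have h1 : RIso (N.pullbackAlong (⟨r.1 ≫ f, hw⟩ : SchemeHomOver (specStr k R) t)) L :=
    hN R ⟨r.1 ≫ f, hw⟩ Q (fun i => by rw [hQ i, hq' i, Category.assoc]) L G hL hG
  have h2 : IsPB N (r.1 ≫ f) (N'.pullbackAlong r) := h.comp (isPB_pullbackAlong N' r)
  exact rIso_trans (rIso_symm h2.2) h1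

/-- Uniqueness of Abel bundles. -/
theorem IsAbelBundle.rIso (hSep : Stmt.SheafSep c ε) (hDG : Stmt.DictGlue Ch)
    {T : Scheme.{u}} {t : T ⟶ Spec (CommRingCat.of k)} {q : Fin 𝔉.g → (T ⟶ C)}
    (hq : ∀ i, q i ≫ c = t) {N N' : RigidifiedLineBundle c ε t}
    (hN : IsAbelBundle Ch 𝔉 t q N) (hN' : IsAbelBundle Ch 𝔉 t q N') : RIso N N' := by
  let ι : Type u := {V : T.Opens // RIso (restrictOpen N V) (restrictOpen N' V)}
  refine hSep t (ι := ι) (fun V => V.1) ?_ N N' (fun V => V.2)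
  rw [eq_top_iff]
  intro ξ _
  obtain ⟨A, _, _, j, _, hj, P, hξ, hP, hrig⟩ := exists_goodChart Ch 𝔉 t q hq ξ
  obtain ⟨L, hL⟩ := hDG A (𝔉.F A P) hrig
  have h1 := hN A ⟨j, hj⟩ P hP L _ hL (gdIsIso_refl _)
  have h2 := hN' A ⟨j, hj⟩ P hP L _ hL (gdIsIso_refl _)
  have h3 := rIso_restrictOpen_opensRange N N' (⟨j, hj⟩ : SchemeHomOver (specStr k A) t)
    (rIso_trans h1 (rIso_symm h2))
  exact TopologicalSpace.Opens.mem_iSup.2 ⟨⟨j.opensRange, h3⟩, hξ⟩

/-- Local existence of Abel bundles. -/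
theorem exists_isAbelBundle_local (hDG : Stmt.DictGlue Ch) (hDI : Stmt.DictIso Ch)
    (hDB : Stmt.DictBC Ch) {T : Scheme.{u}} (t : T ⟶ Spec (CommRingCat.of k))
    (q : Fin 𝔉.g → (T ⟶ C)) (hq : ∀ i, q i ≫ c = t) (ξ : T) :
    ∃ V : T.Opens, ξ ∈ V ∧ ∃ N : RigidifiedLineBundle c ε (V.ι ≫ t),
      IsAbelBundle Ch 𝔉 (V.ι ≫ t) (fun i => V.ι ≫ q i) N := by
  obtain ⟨A, _, _, j, _, hj, P, hξ, hP, hrig⟩ := exists_goodChart Ch 𝔉 t q hq ξ
  obtain ⟨M, hM⟩ := hDG A (𝔉.F A P) hrig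
  have hr : Set.range (j.opensRange.ι) ⊆ Set.range j := by
    rw [Scheme.Opens.range_ι]; exact subset_rfl
  have hfac : IsOpenImmersion.lift j (j.opensRange.ι) hr ≫ j = j.opensRange.ι :=
    IsOpenImmersion.lift_fac _ _ _
  have hw : IsOpenImmersion.lift j (j.opensRange.ι) hr ≫ specStr k A = j.opensRange.ι ≫ t := by
    rw [← hj, ← Category.assoc, hfac]
  refine ⟨j.opensRange, hξ, M.pullbackAlong ⟨_, hw⟩, ?_⟩
  refine (isAbelBundle_of_corr hDI hDB P M hM).of_isPB (isPB_pullbackAlong M ⟨_, hw⟩) ?_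
  intro i
  change _ = _ ≫ chartPtHom Ch (P i)
  rw [hP i, ← Category.assoc, hfac]

/-- Existence of Abel bundles (tested on fields), by gluing. -/
theorem exists_isAbelBundleField (hGlue : Stmt.SheafGlue c ε) (hSep : Stmt.SheafSep c ε)
    (hDG : Stmt.DictGlue Ch) (hDI : Stmt.DictIso Ch) (hDB : Stmt.DictBC Ch)
    {T : Scheme.{u}} (t : T ⟶ Spec (CommRingCat.of k))
    (q : Fin 𝔉.g → (T ⟶ C)) (hq : ∀ i, q i ≫ c = t) :
    ∃ N : RigidifiedLineBundle c ε t, IsAbelBundleField Ch 𝔉 t q N := by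
  let ι : Type u := {V : T.Opens // ∃ N : RigidifiedLineBundle c ε (V.ι ≫ t),
    IsAbelBundle Ch 𝔉 (V.ι ≫ t) (fun i => V.ι ≫ q i) N}
  let U : ι → T.Opens := fun V => V.1
  let M : ∀ V : ι, RigidifiedLineBundle c ε ((U V).ι ≫ t) := fun V => V.2.choose
  have hM : ∀ V : ι, IsAbelBundle Ch 𝔉 ((U V).ι ≫ t) (fun i => (U V).ι ≫ q i) (M V) :=
    fun V => V.2.choose_spec
  have hcover : ∀ ξ : T, ∃ V : ι, ξ ∈ U V := by
    intro ξ
    obtain ⟨V, hξ, hV⟩ := exists_isAbelBundle_local hDG hDI hDB t q hq ξ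
    exact ⟨⟨V, hV⟩, hξ⟩
  have hU : (⨆ V, U V) = ⊤ := by
    rw [eq_top_iff]
    intro ξ _
    obtain ⟨V, hV⟩ := hcover ξ
    exact TopologicalSpace.Opens.mem_iSup.2 ⟨V, hV⟩
  obtain ⟨M₀, hM₀⟩ := hGlue t U hU M (fun V V' => by
    have h1 : IsAbelBundle Ch 𝔉 ((U V ⊓ U V').ι ≫ t) (fun i => (U V ⊓ U V').ι ≫ q i)
        (restrictLE (M V) (inf_le_left : U V ⊓ U V' ≤ U V)) :=
      (hM V).of_isPB (isPB_pullbackAlong _ _) (fun i => by
        rw [← Category.assoc, Scheme.homOfLE_ι])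
    have h2 : IsAbelBundle Ch 𝔉 ((U V ⊓ U V').ι ≫ t) (fun i => (U V ⊓ U V').ι ≫ q i)
        (restrictLE (M V') (inf_le_right : U V ⊓ U V' ≤ U V')) :=
      (hM V').of_isPB (isPB_pullbackAlong _ _) (fun i => by
        rw [← Category.assoc, Scheme.homOfLE_ι])
    exact h1.rIso hSep hDG (fun i => by rw [Category.assoc, hq]) h2)
  refine ⟨M₀, ?_⟩
  intro K _ _ r Q hQ L G hL hG
  -- the unique point of `Spec K` lands in some member of the cover
  let pt : Spec (CommRingCat.of K) := ⟨⊥, Ideal.isPrime_bot⟩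
  obtain ⟨V, hV⟩ := hcover (r.1 pt)
  have hr : Set.range r.1 ⊆ Set.range (U V).ι := by
    rw [Scheme.Opens.range_ι]
    rintro _ ⟨z, rfl⟩
    have hz : z = pt := Subsingleton.elim _ _
    rw [hz]
    exact hV
  have hfac : IsOpenImmersion.lift (U V).ι r.1 hr ≫ (U V).ι = r.1 :=
    IsOpenImmersion.lift_fac _ _ _
  have hw : IsOpenImmersion.lift (U V).ι r.1 hr ≫ (U V).ι ≫ t = specStr k K := by
    rw [← Category.assoc, hfac, r.2]
  have h1 : IsPB M₀ (U V).ι (M V) := (isPB_restrictOpen M₀ (U V)).of_rIso_right (hM₀ V)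
  have h2 : IsPB M₀ r.1 ((M V).pullbackAlong ⟨_, hw⟩) :=
    (h1.comp (isPB_pullbackAlong (M V) ⟨_, hw⟩)).of_eq hfac
  have h3 : RIso (M₀.pullbackAlong r) ((M V).pullbackAlong ⟨_, hw⟩) :=
    (isPB_pullbackAlong M₀ r).rIso h2
  have h4 : RIso ((M V).pullbackAlong ⟨_, hw⟩) L :=
    hM V K ⟨_, hw⟩ Q (fun i => by rw [hQ i, ← Category.assoc, hfac]) L G hL hG
  exact rIso_trans h3 h4

end

end Fermat.Agent.S25.H567

end
-- ===== PACK-END S25/H567/AbelGlue.lean

-- ===== PACK-BEGIN S25/H747/AbTriv.lean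
section
/-
S25 / block ABEL, sub-block AB-ALG (helper747), leaf AA5: the Abel datum of the tuple
`(ε, …, ε)` is trivial.
-/



set_option autoImplicit false
universe u
open scoped TensorProduct

namespace Fermat.Agent.S25.H747

open Fermat.Agent.S25

section

variable {k : Type u} [Field k] [IsAlgClosed k]
  {B₀ B₁ B₀₁ : Type u} [CommRing B₀] [CommRing B₁] [CommRing B₀₁]
  [Algebra k B₀] [Algebra k B₁] [Algebra k B₀₁] [Algebra B₀ B₀₁] [Algebra B₁ B₀₁]
  [IsScalarTower k B₀ B₀₁] [IsScalarTower k B₁ B₀₁]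
  {x : B₀} {y : B₁} {e : B₁ →ₐ[k] k}

omit [IsAlgClosed k] [Algebra k B₀₁] [Algebra B₀ B₀₁] [Algebra B₁ B₀₁] [IsScalarTower k B₀ B₀₁]
  [IsScalarTower k B₁ B₀₁] [CommRing B₀₁] in
theorem epsPt_self (e : B₁ →ₐ[k] k) :
    epsPt B₀ e k = (Sum.inr e : H746.ChartPt k B₀ B₁ k) := by
  unfold epsPt
  congr 1

/-- The Abel datum in terms of `homDatum`, for a curve chart. -/
theorem abelDatum_eq_homDatum (hC : IsCurveChart k B₀ B₁ B₀₁ x y e) (g : ℕ)
    (A : Type u) [CommRing A] [Algebra k A] (P : Fin g → H746.ChartPt k B₀ B₁ A) :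
    abelDatum (B₀₁ := B₀₁) e g A P =
      homDatum (ofIdeals A (tupCartier hC A P))
        (ofIdeals A (tupCartier hC A (fun _ : Fin g => epsPt B₀ e A))) :=
  abelDatum_eq e g A P _ _

/-- **AA5.** At the tuple `(ε, …, ε)` the datum is trivial. -/
theorem abelDatum_triv (hC : IsCurveChart k B₀ B₁ B₀₁ x y e) (g : ℕ) :
    (abelDatum (B₀₁ := B₀₁) e g k (fun _ => (Sum.inr e : H746.ChartPt k B₀ B₁ k))).IsIso
      (GlueDatum.unit k (k ⊗[k] B₀) (k ⊗[k] B₁) (k ⊗[k] B₀₁)) := by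
  have he : (fun _ : Fin g => (Sum.inr e : H746.ChartPt k B₀ B₁ k)) =
      fun _ => epsPt B₀ e k := by
    funext i
    exact (epsPt_self e).symm
  rw [he, abelDatum_eq_homDatum hC]
  exact homDatum_self_isIso _

end

end Fermat.Agent.S25.H747

end
-- ===== PACK-END S25/H747/AbTriv.lean

-- ===== PACK-BEGIN S30/H709/OccJ.lean
section


/-!
# S30-OCC, transport to the Jacobian: occurrence of `χ` in `𝒪 ⊗ J` modulo every power of `p`

`KummerSystem` is the interface expected from the Kummer layer (`M4b` for all `pⁿ`): maps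
`κ n : (Γ₀(N) → ℤ) → J` (the class attached to `c mod pⁿ`), additive on integral parabolic
characters, compatible (`p • κ (n+1) = κ n`, `κ 0 = 0`), Hecke-equivariant, and injective modulo `p`
at level `1`.

`exists_occ_tensor`: from `PeriodHecke` and a `KummerSystem`, every `χ : heckeAlgebra N 2 S →+* 𝒪`
(`𝒪` a local principal ideal domain of characteristic `0` with `p ∈ 𝔪`) occurs in `𝒪 ⊗ J` with
exact order `pⁿ⁺¹` for every `n`: exactly the hypothesis `hocc` of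
`Fermat.Agent.S30.H349.nonempty_adicEigenModule_of_tower`.
-/

set_option autoImplicit false

noncomputable section

namespace Fermat.Agent.S30.H709

open CongruenceSubgroup ModularCurve ModularCurve.Period TensorProduct IsLocalRing
open scoped MatrixGroups

/-- Integral parabolic characters of `Γ₀(N)`, as plain functions. -/
def IsParZ {N : ℕ} (c : Gamma0 N → ℤ) : Prop :=
  (∀ γ δ : Gamma0 N, c (γ * δ) = c γ + c δ) ∧
    ∀ γ : Gamma0 N, ((γ : SL(2, ℤ)) : Matrix (Fin 2) (Fin 2) ℤ).trace ^ 2 = 4 → c γ = 0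

theorem IsParZ.zero {N : ℕ} : IsParZ (0 : Gamma0 N → ℤ) :=
  ⟨fun _ _ => by simp, fun _ _ => rfl⟩

theorem IsParZ.add {N : ℕ} {c c' : Gamma0 N → ℤ} (h : IsParZ c) (h' : IsParZ c') :
    IsParZ (c + c') :=
  ⟨fun γ δ => by simp only [Pi.add_apply, h.1 γ δ, h'.1 γ δ]; ring,
    fun γ hγ => by simp only [Pi.add_apply, h.2 γ hγ, h'.2 γ hγ, add_zero]⟩

theorem IsParZ.neg {N : ℕ} {c : Gamma0 N → ℤ} (h : IsParZ c) : IsParZ (-c) :=
  ⟨fun γ δ => by simp only [Pi.neg_apply, h.1 γ δ]; ring,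
    fun γ hγ => by simp only [Pi.neg_apply, h.2 γ hγ, neg_zero]⟩

theorem IsParZ.smul {N : ℕ} {c : Gamma0 N → ℤ} (h : IsParZ c) (a : ℤ) : IsParZ (a • c) :=
  ⟨fun γ δ => by simp only [Pi.smul_apply, smul_eq_mul, h.1 γ δ]; ring,
    fun γ hγ => by simp only [Pi.smul_apply, smul_eq_mul, h.2 γ hγ, mul_zero]⟩

theorem IsParZ.sum {N : ℕ} {ι : Type*} (s : Finset ι) (f : ι → Gamma0 N → ℤ)
    (h : ∀ i ∈ s, IsParZ (f i)) : IsParZ (∑ i ∈ s, f i) := by
  classical
  induction s using Finset.induction_on with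
  | empty => rw [Finset.sum_empty]; exact IsParZ.zero
  | insert a s ha ih =>
    rw [Finset.sum_insert ha]
    exact (h a (Finset.mem_insert_self a s)).add
      (ih fun i hi => h i (Finset.mem_insert_of_mem hi))

/-- The cohomological Hecke operator on functions `Γ₀(N) → ℤ` attached to `fac`. -/
def heckeFn {N : ℕ} (fac : ℕ → Gamma0 N → Multiset (Gamma0 N)) (ℓ : ℕ) (c : Gamma0 N → ℤ) :
    Gamma0 N → ℤ :=
  fun γ => ((fac ℓ γ).map c).sum

/-- **Interface of the Kummer layer for all powers of `p`.**  `κ n c` is the class in `J[pⁿ]`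
attached to the character `c mod pⁿ` (for S30: `J = JZero N`, `T ℓ` the Hecke operator). -/
structure KummerSystem (N : ℕ) (fac : ℕ → Gamma0 N → Multiset (Gamma0 N)) (S : Set ℕ) (p : ℕ)
    (J : Type*) [AddCommGroup J] (T : Nat.Primes → J →+ J) where
  /-- the Kummer maps -/
  κ : ℕ → (Gamma0 N → ℤ) → J
  map_add : ∀ n c c', IsParZ c → IsParZ c' → κ n (c + c') = κ n c + κ n c'
  map_zero_level : ∀ c, IsParZ c → κ 0 c = 0
  compat : ∀ n c, IsParZ c → p • κ (n + 1) c = κ n c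
  inj : ∀ c, IsParZ c → κ 1 c = 0 → ∀ γ, (p : ℤ) ∣ c γ
  hecke : ∀ (n : ℕ) (ℓ : Nat.Primes), ¬ (ℓ : ℕ) ∣ N → (ℓ : ℕ) ∉ S → ∀ c, IsParZ c →
    T ℓ (κ n c) = κ n (heckeFn fac ℓ c)

namespace KummerSystem

variable {N : ℕ} {fac : ℕ → Gamma0 N → Multiset (Gamma0 N)} {S : Set ℕ} {p : ℕ}
  {J : Type*} [AddCommGroup J] {T : Nat.Primes → J →+ J} (K : KummerSystem N fac S p J T)

theorem map_zero (n : ℕ) : K.κ n 0 = 0 := by
  have h := K.map_add n 0 0 IsParZ.zero IsParZ.zero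
  rw [add_zero] at h
  exact left_eq_add.mp h

theorem map_neg (n : ℕ) {c : Gamma0 N → ℤ} (hc : IsParZ c) : K.κ n (-c) = - K.κ n c := by
  have h := K.map_add n c (-c) hc hc.neg
  rw [add_neg_cancel, K.map_zero] at h
  exact (neg_eq_of_add_eq_zero_right h.symm).symm

theorem map_nsmul (n : ℕ) {c : Gamma0 N → ℤ} (hc : IsParZ c) (k : ℕ) :
    K.κ n (k • c) = k • K.κ n c := by
  induction k with
  | zero => rw [zero_smul, zero_smul, K.map_zero]
  | succ k ih =>
    rw [succ_nsmul, succ_nsmul, K.map_add n _ _ (by simpa using hc.smul (k : ℤ)) hc, ih]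

theorem map_zsmul (n : ℕ) {c : Gamma0 N → ℤ} (hc : IsParZ c) (a : ℤ) :
    K.κ n (a • c) = a • K.κ n c := by
  rcases Int.eq_nat_or_neg a with ⟨k, rfl | rfl⟩
  · rw [natCast_zsmul, natCast_zsmul, K.map_nsmul n hc]
  · rw [neg_smul, neg_smul, natCast_zsmul, natCast_zsmul,
      K.map_neg n (by simpa using hc.smul (k : ℤ)), K.map_nsmul n hc]

theorem map_sum (n : ℕ) {ι : Type*} (s : Finset ι) (f : ι → Gamma0 N → ℤ)
    (h : ∀ i ∈ s, IsParZ (f i)) : K.κ n (∑ i ∈ s, f i) = ∑ i ∈ s, K.κ n (f i) := by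
  classical
  induction s using Finset.induction_on with
  | empty => rw [Finset.sum_empty, Finset.sum_empty, K.map_zero]
  | insert a s ha ih =>
    rw [Finset.sum_insert ha, Finset.sum_insert ha,
      K.map_add n _ _ (h a (Finset.mem_insert_self a s))
        (IsParZ.sum s f fun i hi => h i (Finset.mem_insert_of_mem hi)),
      ih fun i hi => h i (Finset.mem_insert_of_mem hi)]

theorem pow_smul (n k : ℕ) {c : Gamma0 N → ℤ} (hc : IsParZ c) :
    p ^ k • K.κ (n + k) c = K.κ n c := by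
  induction k with
  | zero => rw [pow_zero, one_smul, add_zero]
  | succ k ih =>
    rw [pow_succ, mul_smul, ← add_assoc, K.compat (n + k) c hc, ih]

end KummerSystem

/-- In a local principal ideal domain every nonzero vector is a nonzero multiple of a vector
with a unit coordinate. -/
theorem exists_primitive_vector {O : Type*} [CommRing O] [IsDomain O] [IsLocalRing O]
    [IsPrincipalIdealRing O] {r : ℕ} (w : Fin r → O) (hw : w ≠ 0) :
    ∃ (g : O) (w' : Fin r → O), g ≠ 0 ∧ (∀ j, w j = g * w' j) ∧ ∃ j, IsUnit (w' j) := by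
  classical
  obtain ⟨g, hg⟩ := (IsPrincipalIdealRing.principal (Ideal.span (Set.range w))).principal
  have hmem : ∀ j, w j ∈ Ideal.span ({g} : Set O) := by
    intro j
    have : w j ∈ Ideal.span (Set.range w) := Ideal.subset_span ⟨j, rfl⟩
    rw [hg] at this
    exact this
  have hdiv : ∀ j, ∃ a, w j = g * a := fun j => by
    obtain ⟨a, ha⟩ := Ideal.mem_span_singleton'.mp (hmem j)
    exact ⟨a, by rw [← ha, mul_comm]⟩
  choose w' hw' using hdiv
  have hg0 : g ≠ 0 := by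
    rintro rfl
    apply hw
    funext j
    rw [hw' j, zero_mul]
    rfl
  have hgmem : g ∈ Ideal.span (Set.range w) := by
    rw [hg]
    exact Ideal.subset_span rfl
  obtain ⟨a, ha⟩ := Ideal.mem_span_range_iff_exists_fun.mp hgmem
  have hone : ∑ j, a j * w' j = 1 := by
    have h1 : g * ∑ j, a j * w' j = g * 1 := by
      rw [mul_one, Finset.mul_sum]
      conv_rhs => rw [← ha]
      refine Finset.sum_congr rfl fun j _ => ?_
      rw [hw' j]
      ring
    exact mul_left_cancel₀ hg0 h1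
  refine ⟨g, w', hg0, hw', ?_⟩
  by_contra hcon
  rw [not_exists] at hcon
  have hmax : ∑ j, a j * w' j ∈ maximalIdeal O :=
    Ideal.sum_mem _ fun j _ => Ideal.mul_mem_left _ _ ((mem_maximalIdeal _).mpr (hcon j))
  rw [hone] at hmax
  exact (mem_maximalIdeal _).mp hmax isUnit_one

section Nonvanishing

variable {O : Type*} [CommRing O] [IsDomain O] [CharZero O] {J : Type*} [AddCommGroup J]

/-- The `j`-th coordinate `O ⊗ ℤʳ → O`. -/
def coordTensor (O : Type*) [CommRing O] {r : ℕ} (j : Fin r) : O ⊗[ℤ] (Fin r → ℤ) →+ O :=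
  (TensorProduct.lift (LinearMap.mk₂ ℤ (fun (o : O) (a : Fin r → ℤ) => a j • o)
    (fun o o' a => by simp only [smul_add])
    (fun t o a => smul_comm (a j) t o)
    (fun o a a' => by simp only [Pi.add_apply, add_smul])
    (fun t o a => by simp only [Pi.smul_apply, smul_eq_mul, mul_smul]))).toAddMonoidHom

omit [IsDomain O] [CharZero O] in
theorem coordTensor_tmul {r : ℕ} (j : Fin r) (o : O) (a : Fin r → ℤ) :
    coordTensor O j (o ⊗ₜ[ℤ] a) = a j • o := by
  simp only [coordTensor, LinearMap.toAddMonoidHom_coe, TensorProduct.lift.tmul,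
    LinearMap.mk₂_apply]

/-- Flatness: if `φ : ℤʳ → J` has kernel inside `p ℤʳ` and `∑ wⱼ ⊗ φ(eⱼ) = 0` in `O ⊗ J`,
then `p` divides every `wⱼ`. -/
theorem dvd_of_tensor_eq_zero {r : ℕ} (φ : (Fin r → ℤ) →ₗ[ℤ] J) (m : ℤ)
    (hker : ∀ a : Fin r → ℤ, φ a = 0 → ∀ j, m ∣ a j) (w : Fin r → O)
    (hz : ∑ j, w j ⊗ₜ[ℤ] φ (Pi.single j 1) = 0) (j : Fin r) : (m : O) ∣ w j := by
  classical
  let z : O ⊗[ℤ] (Fin r → ℤ) := ∑ k, w k ⊗ₜ[ℤ] (Pi.single k (1 : ℤ))
  have hzφ : LinearMap.lTensor O φ z = 0 := by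
    rw [map_sum, ← hz]
    refine Finset.sum_congr rfl fun k _ => ?_
    rw [LinearMap.lTensor_tmul]
  have hex := Module.Flat.lTensor_exact O (LinearMap.exact_subtype_ker_map φ)
  obtain ⟨t, ht⟩ := (hex z).mp hzφ
  have hzj : coordTensor O j z = w j := by
    rw [map_sum]
    simp only [coordTensor_tmul]
    rw [Finset.sum_eq_single j]
    · rw [Pi.single_eq_same, one_smul]
    · intro k _ hk
      rw [Pi.single_eq_of_ne (Ne.symm hk), zero_smul]
    · intro h
      exact absurd (Finset.mem_univ j) h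
  have hall : ∀ t : O ⊗[ℤ] LinearMap.ker φ,
      (m : O) ∣ coordTensor O j (LinearMap.lTensor O (LinearMap.ker φ).subtype t) := by
    intro t
    induction t using TensorProduct.induction_on with
    | zero => rw [map_zero, map_zero]; exact dvd_zero _
    | tmul o a =>
      rw [LinearMap.lTensor_tmul, coordTensor_tmul]
      obtain ⟨b, hb⟩ := hker a.1 (LinearMap.mem_ker.mp a.2) j
      rw [Submodule.subtype_apply, hb, mul_smul, zsmul_eq_mul]
      exact Dvd.intro _ rfl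
    | add x y hx hy => rw [map_add, map_add]; exact dvd_add hx hy
  rw [← hzj, ← ht]
  exact hall t

end Nonvanishing

section Main

variable {N : ℕ} [NeZero N]

/-- **Occurrence of `χ` in `𝒪 ⊗ J` modulo every power of `p`**: the hypothesis `hocc` of the
`p`-adic module layer, from `PeriodHecke` and a `KummerSystem`. -/
theorem exists_occ_tensor {fac : ℕ → Gamma0 N → Multiset (Gamma0 N)}
    (hPH : PeriodHecke N fac) {S : Set ℕ} (hNS : ∀ q : ℕ, q.Prime → q ∣ N → q ∈ S)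
    {O : Type*} [CommRing O] [IsDomain O] [IsLocalRing O] [IsPrincipalIdealRing O] [CharZero O]
    (χ : CuspForm.heckeAlgebra N 2 S →+* O)
    {p : ℕ} (hpO : (p : O) ∈ maximalIdeal O)
    {J : Type*} [AddCommGroup J] {T : Nat.Primes → J →+ J}
    (K : KummerSystem N fac S p J T) (n : ℕ) :
    ∃ x : O ⊗[ℤ] J, (p : O) ^ (n + 1) • x = 0 ∧ (p : O) ^ n • x ≠ 0 ∧
      ∀ (ℓ : ℕ) (hℓ : ℓ.Prime) (hℓN : ¬ ℓ ∣ N) (hℓS : ℓ ∉ S),
        (T ⟨ℓ, hℓ⟩).toIntLinearMap.baseChange O x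
          = χ (CuspForm.heckeAlgebra.T hℓ hℓN hℓS) • x := by
  classical
  obtain ⟨r, c, τ, w₀, hpar, hsat, hτ, hw₀, heig₀⟩ := exists_adic_eigen_lattice hPH hNS χ
  obtain ⟨g, w, hg0, hgw, j₀, hj₀⟩ := exists_primitive_vector w₀ hw₀
  -- the eigen-relation for the primitive vector
  have heig : ∀ (ℓ : ℕ) (hℓ : ℓ.Prime) (hℓN : ¬ ℓ ∣ N) (hℓS : ℓ ∉ S) (k : Fin r),
      ∑ j, w j * ((τ ℓ j k : ℤ) : O) = χ (CuspForm.heckeAlgebra.T hℓ hℓN hℓS) * w k := by
    intro ℓ hℓ hℓN hℓS k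
    have h := heig₀ ℓ hℓ hℓN hℓS k
    apply mul_left_cancel₀ hg0
    rw [Finset.mul_sum]
    calc ∑ j, g * (w j * ((τ ℓ j k : ℤ) : O)) = ∑ j, w₀ j * ((τ ℓ j k : ℤ) : O) := by
          refine Finset.sum_congr rfl fun j _ => ?_
          rw [hgw j]; ring
      _ = χ (CuspForm.heckeAlgebra.T hℓ hℓN hℓS) * w₀ k := h
      _ = g * (χ (CuspForm.heckeAlgebra.T hℓ hℓN hℓS) * w k) := by rw [hgw k]; ring
  -- the characters as functions
  let cf : Fin r → Gamma0 N → ℤ := fun j γ => c j (Additive.ofMul γ)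
  have hcf : ∀ j, IsParZ (cf j) := fun j =>
    ⟨fun γ δ => by simp only [cf, ofMul_mul, map_add], fun γ hγ => hpar j γ hγ⟩
  have hheckeFn : ∀ (ℓ : ℕ) (hℓ : ℓ.Prime) (hℓN : ¬ ℓ ∣ N) (hℓS : ℓ ∉ S) (j : Fin r),
      heckeFn fac ℓ (cf j) = ∑ k, τ ℓ j k • cf k := by
    intro ℓ hℓ hℓN hℓS j
    funext γ
    rw [heckeFn, hτ ℓ hℓ hℓN hℓS j γ, Finset.sum_apply]
    rfl
  -- the eigenclass at level `m`
  let x : ℕ → O ⊗[ℤ] J := fun m => ∑ j, w j ⊗ₜ[ℤ] K.κ m (cf j)
  have hx_pow : ∀ m k : ℕ, (p : O) ^ k • x (m + k) = x m := by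
    intro m k
    simp only [x]
    rw [Finset.smul_sum]
    refine Finset.sum_congr rfl fun j _ => ?_
    rw [← K.pow_smul m k (hcf j), TensorProduct.tmul_smul, ← Nat.cast_pow,
      Nat.cast_smul_eq_nsmul]
  have hx0 : x 0 = 0 := by
    simp only [x]
    refine Finset.sum_eq_zero fun j _ => ?_
    rw [K.map_zero_level _ (hcf j), TensorProduct.tmul_zero]
  refine ⟨x (n + 1), ?_, ?_, ?_⟩
  · have := hx_pow 0 (n + 1)
    rw [zero_add] at this
    rw [this, hx0]
  · have h1 := hx_pow 1 n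
    rw [add_comm 1 n] at h1
    rw [h1]
    intro hzero
    -- `x 1 = 0` forces `p ∣ w j₀`, impossible for a unit
    let φ : (Fin r → ℤ) →ₗ[ℤ] J :=
      { toFun := fun a => ∑ j, a j • K.κ 1 (cf j)
        map_add' := fun a b => by
          simp only [Pi.add_apply, add_smul, Finset.sum_add_distrib]
        map_smul' := fun t a => by
          simp only [Pi.smul_apply, smul_eq_mul, mul_smul, Finset.smul_sum, RingHom.id_apply] }
    have hφ : ∀ a : Fin r → ℤ, φ a = K.κ 1 (∑ j, a j • cf j) := by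
      intro a
      rw [K.map_sum 1 Finset.univ (fun j => a j • cf j) fun j _ => (hcf j).smul (a j)]
      show ∑ j, a j • K.κ 1 (cf j) = _
      refine Finset.sum_congr rfl fun j _ => ?_
      rw [K.map_zsmul 1 (hcf j)]
    have hker : ∀ a : Fin r → ℤ, φ a = 0 → ∀ j, (p : ℤ) ∣ a j := by
      intro a ha
      rw [hφ] at ha
      have hdiv := K.inj _ (IsParZ.sum Finset.univ (fun j => a j • cf j)
        fun j _ => (hcf j).smul (a j)) ha
      refine hsat (p : ℤ) a fun γ => ?_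
      have := hdiv γ
      simpa [Finset.sum_apply, cf] using this
    have hsingle : ∀ j, φ (Pi.single j 1) = K.κ 1 (cf j) := by
      intro j
      show ∑ k, (Pi.single j (1 : ℤ) : Fin r → ℤ) k • K.κ 1 (cf k) = _
      rw [Finset.sum_eq_single j]
      · rw [Pi.single_eq_same, one_smul]
      · intro k _ hk
        rw [Pi.single_eq_of_ne hk, zero_smul]
      · intro h
        exact absurd (Finset.mem_univ j) h
    have hz : ∑ j, w j ⊗ₜ[ℤ] φ (Pi.single j 1) = 0 := by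
      rw [← hzero]
      refine Finset.sum_congr rfl fun j _ => ?_
      rw [hsingle]
    have hdvd := dvd_of_tensor_eq_zero φ (p : ℤ) hker w hz j₀
    rw [Int.cast_natCast] at hdvd
    have hmem : w j₀ ∈ maximalIdeal O := by
      obtain ⟨b, hb⟩ := hdvd
      rw [hb]
      exact Ideal.mul_mem_right _ _ hpO
    exact (mem_maximalIdeal _).mp hmem hj₀
  · intro ℓ hℓ hℓN hℓS
    simp only [x]
    rw [map_sum, Finset.smul_sum]
    have h1 : ∀ j, (T ⟨ℓ, hℓ⟩).toIntLinearMap.baseChange O (w j ⊗ₜ[ℤ] K.κ (n + 1) (cf j))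
        = ∑ k, (w j * ((τ ℓ j k : ℤ) : O)) ⊗ₜ[ℤ] K.κ (n + 1) (cf k) := by
      intro j
      rw [LinearMap.baseChange_tmul, AddMonoidHom.coe_toIntLinearMap,
        K.hecke (n + 1) ⟨ℓ, hℓ⟩ hℓN hℓS _ (hcf j), hheckeFn ℓ hℓ hℓN hℓS j,
        K.map_sum (n + 1) Finset.univ (fun k => τ ℓ j k • cf k)
          fun k _ => (hcf k).smul (τ ℓ j k), TensorProduct.tmul_sum]
      refine Finset.sum_congr rfl fun k _ => ?_
      rw [K.map_zsmul (n + 1) (hcf k), TensorProduct.tmul_smul, TensorProduct.smul_tmul',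
        zsmul_eq_mul, mul_comm]
    rw [Finset.sum_congr rfl fun j _ => h1 j, Finset.sum_comm]
    refine Finset.sum_congr rfl fun k _ => ?_
    rw [← TensorProduct.sum_tmul, heig ℓ hℓ hℓN hℓS k, TensorProduct.smul_tmul', smul_eq_mul]

end Main

end Fermat.Agent.S30.H709

end
end
-- ===== PACK-END S30/H709/OccJ.lean

-- ===== PACK-BEGIN S22/H262/Sep.lean
section



set_option autoImplicit false

/-!
# The period lattice separates points
-/

open Complex Filter Function Metric Set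
open UpperHalfPlane hiding I
open scoped Real Topology Manifold ModularForm MatrixGroups

namespace Fermat.Agent.S22.H262

open Matrix.SpecialLinearGroup CuspForm

variable {N : ℕ} [NeZero N] {n : ℕ}

/-- `x ↦ bigG n E w (a x + b, c x + d)` is a polynomial function. -/
theorem bigG_polynomial (n : ℕ) (E : ℕ → ℍ → ℂ) (w : ℍ) (a b c d : ℂ) :
    ∃ P : Polynomial ℂ, ∀ x : ℂ, P.eval x = bigG n E w (a * x + b, c * x + d) := by
  refine ⟨∑ j ∈ Finset.range (n + 1), Polynomial.C ((n.descFactorial j : ℂ) * E (j + 1) w) *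
    (Polynomial.C a * Polynomial.X + Polynomial.C b -
      Polynomial.C (w : ℂ) * (Polynomial.C c * Polynomial.X + Polynomial.C d)) ^ (n - j) *
    (Polynomial.C c * Polynomial.X + Polynomial.C d) ^ j, fun x => ?_⟩
  simp [bigG, Polynomial.eval_finset_sum]

theorem infinite_int_cast_complex : Set.Infinite (Set.range (fun x : ℤ => (x : ℂ))) :=
  Set.infinite_range_of_injective Int.cast_injective

/-- If the tower at level `r + 1` vanishes then so does the level `r`. -/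
theorem IsTower.eq_zero_of_succ {h : ℍ → ℂ} {E : ℕ → ℍ → ℂ} (hE : IsTower h E) (r : ℕ)
    (h0 : E (r + 1) = 0) : E r = 0 := by
  funext z
  have h1 := hE.hasDeriv r z
  rw [h0] at h1
  have h2 : HasDerivAt ((0 : ℍ → ℂ) ∘ ofComplex) 0 (z : ℂ) := by
    have : ((0 : ℍ → ℂ) ∘ ofComplex) = fun _ => (0 : ℂ) := rfl
    rw [this]
    exact hasDerivAt_const _ _
  exact h1.unique h2

theorem IsTower.eq_zero_of_top {h : ℍ → ℂ} {E : ℕ → ℍ → ℂ} (hE : IsTower h E) (r : ℕ)
    (h0 : E r = 0) : h = 0 := by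
  induction r with
  | zero => rw [← hE.zero, h0]
  | succ r ih => exact ih (hE.eq_zero_of_succ r h0)

/-- If the cocycle of `f` at `g ∈ SL₂(ℤ)` vanishes on integer vectors then the top of the tower
transforms like a form of weight `-n`. -/
theorem tower_top_slash (f : CuspForm (CongruenceSubgroup.Gamma0 N) ((n : ℤ) + 2))
    (g : SL(2, ℤ))
    (h : ∀ v ∈ Vint, cocyc n (⇑f) (mapGL ℝ g) v = 0) :
    (tower (⇑f) (n + 1)) ∣[-(n : ℤ)] g = tower (⇑f ∣[(n : ℤ) + 2] (mapGL ℝ g)) (n + 1) := by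
  funext z
  have hg : (mapGL ℝ g : GL (Fin 2) ℝ) ∈ posInt := mapGL_mem_posInt g
  have hT := hasTower_cuspForm f
  have hTg := hasTower_slash_posInt f hg
  -- the polynomial identity
  obtain ⟨P₁, hP₁⟩ := bigG_polynomial n (tower (⇑f)) ((mapGL ℝ g : GL (Fin 2) ℝ) • z)
    (((mapGL ℝ g : GL (Fin 2) ℝ) 0 0 : ℝ) : ℂ) (((mapGL ℝ g : GL (Fin 2) ℝ) 0 1 : ℝ) : ℂ)
    (((mapGL ℝ g : GL (Fin 2) ℝ) 1 0 : ℝ) : ℂ) (((mapGL ℝ g : GL (Fin 2) ℝ) 1 1 : ℝ) : ℂ)
  obtain ⟨P₂, hP₂⟩ := bigG_polynomial n (tower (⇑f ∣[(n : ℤ) + 2] (mapGL ℝ g))) z 1 0 0 1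
  have hroot : ∀ x : ℤ, (P₁ - P₂).IsRoot (x : ℂ) := by
    intro x
    have hv : (((x : ℂ), (1 : ℂ)) : ℂ × ℂ) ∈ Vint := ⟨x, 1, by simp⟩
    have h1 := h _ hv
    rw [cocyc_eq n _ hg.2 hT hTg _ z] at h1
    rw [Polynomial.IsRoot, Polynomial.eval_sub, hP₁, hP₂]
    simpa [actV] using h1
  have hzero : P₁ - P₂ = 0 := by
    apply Polynomial.eq_zero_of_infinite_isRoot
    refine infinite_int_cast_complex.mono ?_
    rintro _ ⟨x, rfl⟩
    exact hroot x
  have hz : P₁.eval (z : ℂ) = P₂.eval (z : ℂ) := by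
    have := congrArg (Polynomial.eval (z : ℂ)) hzero
    simpa [sub_eq_zero] using this
  rw [hP₁, hP₂] at hz
  -- evaluate both sides on the diagonal
  have hnum : (((mapGL ℝ g : GL (Fin 2) ℝ) 0 0 : ℝ) : ℂ) * (z : ℂ) +
      (((mapGL ℝ g : GL (Fin 2) ℝ) 0 1 : ℝ) : ℂ) =
      (((mapGL ℝ g : GL (Fin 2) ℝ) • z : ℍ) : ℂ) * denom (mapGL ℝ g : GL (Fin 2) ℝ) z := by
    rw [coe_smul_of_det_pos hg.2, div_mul_cancel₀ _ (denom_ne_zero _ z)]
    rfl
  have hden : (((mapGL ℝ g : GL (Fin 2) ℝ) 1 0 : ℝ) : ℂ) * (z : ℂ) +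
      (((mapGL ℝ g : GL (Fin 2) ℝ) 1 1 : ℝ) : ℂ) = denom (mapGL ℝ g : GL (Fin 2) ℝ) z := rfl
  rw [hnum, hden, bigG_diag] at hz
  have h2 : ((1 : ℂ) * (z : ℂ) + 0, (0 : ℂ) * (z : ℂ) + 1) = ((z : ℂ) * 1, (1 : ℂ)) := by simp
  rw [h2, bigG_diag] at hz
  have hfact : (n.factorial : ℂ) ≠ 0 := by exact_mod_cast n.factorial_ne_zero
  rw [ModularForm.SL_slash_apply]
  have hz' : tower (⇑f) (n + 1) ((mapGL ℝ g : GL (Fin 2) ℝ) • z) *
      denom (mapGL ℝ g : GL (Fin 2) ℝ) z ^ n =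
      tower (⇑f ∣[(n : ℤ) + 2] (mapGL ℝ g)) (n + 1) z := by
    apply mul_left_cancel₀ hfact
    rw [← mul_assoc, hz]
    simp
  rw [neg_neg, zpow_natCast]
  exact hz'

/-- The period lattice separates points. -/
theorem periodLattice_separating (f : CuspForm (CongruenceSubgroup.Gamma0 N) ((n : ℤ) + 2))
    (h : ∀ l ∈ periodLattice N n, l f = 0) : f = 0 := by
  have hc : ∀ (g : SL(2, ℤ)), ∀ v ∈ Vint, cocyc n (⇑f) (mapGL ℝ g) v = 0 := by
    intro g v hv
    have := h _ (lam_mem_periodLattice ⟨mapGL ℝ g, mapGL_mem_posInt g⟩ hv)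
    rwa [lam_apply] at this
  have hT := hasTower_cuspForm f
  have hF : tower (⇑f) (n + 1) = 0 := by
    apply eq_zero_of_weight_nonpos N (k := -(n : ℤ)) (by omega)
    · exact hT.isTower.mdiff n
    · rintro γ ⟨g, hg, rfl⟩
      have h1 := tower_top_slash f g (hc g)
      have h2 : ⇑f ∣[(n : ℤ) + 2] (mapGL ℝ g) = ⇑f :=
        SlashInvariantFormClass.slash_action_eq f _ ⟨g, hg, rfl⟩
      rw [h2] at h1
      exact h1
    · intro g
      rw [tower_top_slash f g (hc g)]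
      exact (hasTower_slash_posInt f (mapGL_mem_posInt g)).isTower.isZero n
  have : (⇑f : ℍ → ℂ) = 0 := hT.isTower.eq_zero_of_top (n + 1) hF
  exact DFunLike.coe_injective this

end Fermat.Agent.S22.H262

end
-- ===== PACK-END S22/H262/Sep.lean

-- ===== PACK-BEGIN S30/H169/OccCoord.lean
section
/-
S30 row -- PIECE `OccCoord` (helper169): `exists_eigen_parLattice_coord`, with EXACTLY the type of
`exists_eigen_parLattice_coord` in `origin/helper49:Fermat/Agent/S30/SkeletonLat.lean`.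

Every character `χ` of the Hecke algebra with values in a characteristic-zero domain `R` occurs
in `Hom_par(Γ₀(N), ℤ) ⊗ R`, in coordinates.

Proof: adapter.  `H829.exists_eigen_parabolicHom_adic` (on main) gives a nonzero parabolic
eigen-homomorphism `φ : Γ₀(N) → R`; its image spans a finitely generated torsion-free, hence free,
`ℤ`-submodule `W ⊆ R`; `c j` are the coordinates of `φ` in a `ℤ`-basis `b j` of `W`, `w j := b j`.
The Hecke operator `heckeCoh` of `S29.DefsM` is the transfer sum of `H201`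
(`S29.M4aTop_heckeCoh_eq_sum_trf`, on main).
-/





set_option autoImplicit false

noncomputable section

namespace Fermat.Agent.S30.H169

open Fermat.Agent.S29 (G0 IsParHom heckeCoh)
open CongruenceSubgroup ModularCurve ModularCurve.Period
open scoped MatrixGroups

/-- PIECE `OccCoord` of the S30 lattice layer. -/
theorem exists_eigen_parLattice_coord (N : ℕ) [NeZero N] (S : Set ℕ) (R : Type) [CommRing R]
    [IsDomain R] [CharZero R] (χ : CuspForm.heckeAlgebra N 2 S →+* R) :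
    ∃ (n : ℕ) (w : Fin n → R) (c : Fin n → G0 N → ℤ),
      (∀ j, IsParHom (c j)) ∧ (∃ γ : G0 N, ∑ j, w j * ((c j γ : ℤ) : R) ≠ 0) ∧
      ∀ (ℓ : ℕ) (hℓ : ℓ.Prime) (hℓN : ¬ ℓ ∣ N) (hℓS : ℓ ∉ S) (γ : G0 N),
        ∑ j, w j * ((heckeCoh N ℓ (c j) γ : ℤ) : R)
          = χ (CuspForm.heckeAlgebra.T hℓ hℓN hℓS) * ∑ j, w j * ((c j γ : ℤ) : R) := by
  classical
  obtain ⟨φ, hφ0, hpar, hecke⟩ := Fermat.Agent.S30.H829.exists_eigen_parabolicHom_adic N S χ
  -- a finite generating set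
  obtain ⟨S₀, hS₀, hS₀fin⟩ := Group.fg_iff.mp (Fermat.Agent.S29.M4aTop_fg_Gamma0 N)
  set W : Submodule ℤ R :=
    Submodule.span ℤ ((fun x : Gamma0 N => φ (Additive.ofMul x)) '' S₀) with hW
  have hmem : ∀ γ : Gamma0 N, φ (Additive.ofMul γ) ∈ W :=
    fun γ => Fermat.Agent.S29.M4aTop_mem_span φ S₀ hS₀ γ
  have : Module.Finite ℤ W := Module.Finite.span_of_finite ℤ (hS₀fin.image _)
  have : Module.Free ℤ W := Module.free_of_finite_type_torsion_free'
  let b := Module.finBasis ℤ W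
  -- the coordinates
  let X : G0 N → W := fun γ => ⟨φ (Additive.ofMul γ), hmem γ⟩
  have hXmul : ∀ γ γ' : G0 N, X (γ * γ') = X γ + X γ' := fun γ γ' =>
    Subtype.ext (by simp only [X, ofMul_mul, map_add, Submodule.coe_add])
  have hX0 : ∀ γ : G0 N, φ (Additive.ofMul γ) = 0 → X γ = 0 := fun γ h => Subtype.ext h
  have hsum : ∀ γ : G0 N, φ (Additive.ofMul γ)
      = ∑ j, (b j : R) * ((b.repr (X γ) j : ℤ) : R) := by
    intro γ
    have h1 := congrArg (fun x : W => (x : R)) (b.sum_repr (X γ))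
    simp only [Submodule.coe_sum, Submodule.coe_smul] at h1
    rw [show φ (Additive.ofMul γ) = ((X γ : W) : R) from rfl, ← h1]
    refine Finset.sum_congr rfl fun j _ => ?_
    rw [zsmul_eq_mul, mul_comm]
  refine ⟨Module.finrank ℤ W, fun j => (b j : R), fun j γ => b.repr (X γ) j, ?_, ?_, ?_⟩
  · intro j
    refine ⟨fun γ γ' => ?_, fun γ hγ => ?_, fun γ n hn hγ => ?_⟩
    · show b.repr (X (γ * γ')) j = b.repr (X γ) j + b.repr (X γ') j
      rw [hXmul, map_add, Finsupp.add_apply]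
    · show b.repr (X γ) j = 0
      have h4 : (((γ : Gamma0 N) : SL(2, ℤ)) : Matrix (Fin 2) (Fin 2) ℤ).trace ^ 2 = 4 := by
        have h5 : Fermat.Agent.S29.G0.mat γ
            = (((γ : Gamma0 N) : SL(2, ℤ)) : Matrix (Fin 2) (Fin 2) ℤ) := rfl
        rw [h5] at hγ
        rcases hγ with h | h <;> rw [h] <;> norm_num
      rw [hX0 γ (hpar γ h4), map_zero, Finsupp.zero_apply]
    · show b.repr (X γ) j = 0
      have h6 : (n : ℤ) • φ (Additive.ofMul γ) = 0 := by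
        rw [natCast_zsmul, ← map_nsmul, ← ofMul_pow, hγ, ofMul_one, map_zero]
      have h7 : φ (Additive.ofMul γ) = 0 := by
        rw [zsmul_eq_mul] at h6
        rcases mul_eq_zero.mp h6 with h | h
        · exact absurd (by exact_mod_cast h) hn.ne'
        · exact h
      rw [hX0 γ h7, map_zero, Finsupp.zero_apply]
  · by_contra hcon
    rw [not_exists] at hcon
    apply hφ0
    ext γ
    have h8 := hsum (Additive.toMul γ)
    have h9 := not_not.mp (hcon (Additive.toMul γ))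
    show φ (Additive.ofMul (Additive.toMul γ)) = 0
    rw [h8]
    exact h9
  · intro ℓ hℓ hℓN hℓS γ
    have : Fact ℓ.Prime := ⟨hℓ⟩
    have hk := hecke ℓ hℓ hℓN hℓS
    have h10 : ∀ j, ((heckeCoh N ℓ (fun γ => b.repr (X γ) j) γ : ℤ) : R)
        = ∑ x : OnePoint (ZMod ℓ),
            ((b.repr (X (Fermat.Agent.S29.H201.trf hℓN γ x)) j : ℤ) : R) := by
      intro j
      rw [Fermat.Agent.S29.M4aTop_heckeCoh_eq_sum_trf hℓN]
      push_cast
      rfl
    calc ∑ j, (b j : R) * ((heckeCoh N ℓ (fun γ => b.repr (X γ) j) γ : ℤ) : R)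
        = ∑ j, ∑ x : OnePoint (ZMod ℓ),
            (b j : R) * ((b.repr (X (Fermat.Agent.S29.H201.trf hℓN γ x)) j : ℤ) : R) := by
          refine Finset.sum_congr rfl fun j _ => ?_
          rw [h10 j, Finset.mul_sum]
      _ = ∑ x : OnePoint (ZMod ℓ), φ (Additive.ofMul (Fermat.Agent.S29.H201.trf hℓN γ x)) := by
          rw [Finset.sum_comm]
          refine Finset.sum_congr rfl fun x _ => ?_
          rw [hsum]
      _ = Fermat.Agent.S29.H201.heckeHom ℓ hℓN R φ (Additive.ofMul γ) := by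
          rw [Fermat.Agent.S29.H201.heckeHom_apply]
      _ = χ (CuspForm.heckeAlgebra.T hℓ hℓN hℓS) * φ (Additive.ofMul γ) := by
          rw [hk]
          rfl
      _ = χ (CuspForm.heckeAlgebra.T hℓ hℓN hℓS)
            * ∑ j, (b j : R) * ((b.repr (X γ) j : ℤ) : R) := by
          rw [hsum]

end Fermat.Agent.S30.H169

end

end
-- ===== PACK-END S30/H169/OccCoord.lean

-- ===== PACK-BEGIN S41/H281/HeckeComm.lean
section





/-!
# S41 / block HK, leaf COMM (helper281): the Hecke transfers commute — reduction to HT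

`T_l T_l' = t₁ r₂ T_l'` (TRH at `(N, l)`) `= t₁ T_l' r₂` (HR at `(N, q := l)`, `l' ∤ N l`)
`= T_l' t₁ r₂` (HT at `(N, q := l)`) `= T_l' T_l` (TRH).  For `l = l'` there is nothing to prove.

* `heckeComm_of_HT : Spec.HeckeTransferStatement → Spec.HeckeCommStatement`.
-/

set_option autoImplicit false

namespace Fermat.Agent.S41.H281

open CongruenceSubgroup Matrix.SpecialLinearGroup
open Fermat.Agent.S29.H642 Fermat.Agent.S41.Spec
open scoped MatrixGroups

universe u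

/-- **Leaf COMM** of block HK, modulo leaf HT: the Hecke transfers `T_l`, `T_l'` commute. -/
theorem heckeComm_of_HT (hHT : HeckeTransferStatement.{u}) : HeckeCommStatement.{u} := by
  intro N l l' _ _ hl hl' A _ φ
  by_cases hll : l = l'
  · subst hll
    rfl
  · have hN : N ≠ 0 := by
      rintro rfl
      exact hl (dvd_zero _)
    have hlp : l.Prime := Fact.out
    have hlp' : l'.Prime := Fact.out
    have hl'' : ¬ l' ∣ N * l := by
      intro h
      rcases (Nat.Prime.dvd_mul hlp').mp h with h1 | h1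
      · exact hl' h1
      · exact hll ((Nat.prime_dvd_prime_iff_eq hlp' hlp).mp h1).symm
    have hNl : N * l ≠ 0 := Nat.mul_ne_zero hN hlp.ne_zero
    have hTRH := H761.transferRestrictHecke.{u} N l hl hN A
    calc heckeTransfer hl (heckeTransfer hl' φ)
        = t₁ N l (r₂ N l (heckeTransfer hl' φ)) := ((hTRH (heckeTransfer hl' φ)).1).symm
      _ = t₁ N l (heckeTransfer hl'' (r₂ N l φ)) := by
          rw [(heckeRestrict.{u} N l l' hl' hl'' A φ).2]
      _ = heckeTransfer hl' (t₁ N l (r₂ N l φ)) := ((hHT N l l' hl' hl'' hNl A (r₂ N l φ)).1).symm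
      _ = heckeTransfer hl' (heckeTransfer hl φ) := by rw [(hTRH φ).1]

end Fermat.Agent.S41.H281

end
-- ===== PACK-END S41/H281/HeckeComm.lean

-- ===== PACK-BEGIN S59/TW/Aut/H762/CorGen.lean
section




/-!
# S59 / cell TW, layer 3 (AUT), leaf CTRL, piece (5) COR — generic form (helper762)

Vocabulary of block M-FREE: `Γ ≤ SL(2,ℤ)`, `κ : Γ →* D` onto a finite group, `Γ' = kerSub κ`,
`conjAct κ g`, `res κ`, `cor κ`.  `𝒪` a domain of characteristic `0`.

`cor_ctrl_gen_h762` : `V ⊆ Hom(Γ', 𝒪)`, `W ⊆ Hom(Γ, 𝒪)` submodules with `cor V ⊆ W`, `res W ⊆ V`,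
and `V` has an "`𝒪[D]`-basis" (`∃!` form, section `s` of `κ`).  Then `cor V = W` and
`ker (cor | V)` is the additive closure of the `conjAct κ g y' - y'` (`y' ∈ V`).

`corLin_h762` : the `𝒪`-linear map `cor`.
-/

set_option autoImplicit false

namespace Fermat.Agent.S59.TW.Aut.H762

open Fermat.Agent.S41.Spec Fermat.Agent.S59.MFree
open scoped MatrixGroups

section Lin

variable {Γ : Subgroup SL(2, ℤ)} {D : Type} [Group D] (κ : Γ →* D)
  (𝒪 : Type) [CommRing 𝒪]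

theorem smul_eq_comp_h762 {G : Type*} [AddMonoid G] (a : 𝒪) (φ : G →+ 𝒪) :
    a • φ = (AddMonoidHom.mulLeft a).comp φ := by
  ext h
  rfl

/-- `cor`, `𝒪`-linear. -/
noncomputable def corLin_h762 : (Additive (kerSub κ) →+ 𝒪) →ₗ[𝒪] (Additive Γ →+ 𝒪) where
  toFun x := cor κ x
  map_add' x y := Fermat.Agent.S41.H581.transferAlong_add _ x y
  map_smul' a x := by
    rw [RingHom.id_apply, smul_eq_comp_h762, smul_eq_comp_h762]
    exact Fermat.Agent.S41.H581.transferAlong_comp _ (AddMonoidHom.mulLeft a) x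

@[simp] theorem corLin_h762_apply (x : Additive (kerSub κ) →+ 𝒪) :
    corLin_h762 κ 𝒪 x = cor κ x := rfl

/-- `res`, `𝒪`-linear. -/
def resLin_h762 : (Additive Γ →+ 𝒪) →ₗ[𝒪] (Additive (kerSub κ) →+ 𝒪) where
  toFun y := res κ y
  map_add' _ _ := rfl
  map_smul' _ _ := rfl

@[simp] theorem resLin_h762_apply (y : Additive Γ →+ 𝒪) :
    resLin_h762 κ 𝒪 y = res κ y := rfl

/-- the diamond operator `conjAct κ g`, `𝒪`-linear. -/
def conjLin_h762 (g : Γ) : (Additive (kerSub κ) →+ 𝒪) →ₗ[𝒪] (Additive (kerSub κ) →+ 𝒪) where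
  toFun x := conjAct κ g x
  map_add' _ _ := rfl
  map_smul' _ _ := rfl

@[simp] theorem conjLin_h762_apply (g : Γ) (x : Additive (kerSub κ) →+ 𝒪) :
    conjLin_h762 κ 𝒪 g x = conjAct κ g x := rfl

end Lin

section Facts

variable {Γ : Subgroup SL(2, ℤ)} {D : Type} [Group D] (κ : Γ →* D)
  {A : Type} [AddCommGroup A]

theorem conjAct_mul_h762 (g h : Γ) (x : Additive (kerSub κ) →+ A) :
    conjAct κ g (conjAct κ h x) = conjAct κ (g * h) x := by
  refine AddMonoidHom.ext fun k' => ?_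
  obtain ⟨k, rfl⟩ : ∃ k : kerSub κ, Additive.ofMul k = k' := ⟨Additive.toMul k', rfl⟩
  rw [conjAct_apply, conjAct_apply, conjAct_apply]
  have e : conjKer κ h (conjKer κ g k) = conjKer κ (g * h) k := by
    apply Subtype.ext
    simp only [conjKer_coe, Subgroup.coe_mul, mul_inv_rev, mul_assoc]
  rw [e]

/-- The diamond operators act trivially on restrictions. -/
theorem conjAct_res_h762 (g : Γ) (y : Additive Γ →+ A) :
    conjAct κ g (res κ y) = res κ y := by
  refine AddMonoidHom.ext fun k' => ?_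
  obtain ⟨k, rfl⟩ : ∃ k : kerSub κ, Additive.ofMul k = k' := ⟨Additive.toMul k', rfl⟩
  rw [conjAct_apply, res_apply, res_apply]
  have e : Subgroup.inclusion (kerSub_le κ) (conjKer κ g k) =
      g⁻¹ * Subgroup.inclusion (kerSub_le κ) k * g := rfl
  rw [e, ofMul_mul, ofMul_mul, ofMul_inv, map_add, map_add, map_neg]
  abel

end Facts

section Ctrl

variable {Γ : Subgroup SL(2, ℤ)} {D : Type} [Group D] [Fintype D] (κ : Γ →* D)
  (hκ : Function.Surjective κ)
  (𝒪 : Type) [CommRing 𝒪] [IsDomain 𝒪] [CharZero 𝒪]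
  (V : Submodule 𝒪 (Additive (kerSub κ) →+ 𝒪)) (W : Submodule 𝒪 (Additive Γ →+ 𝒪))
  (hres : ∀ y ∈ W, res κ y ∈ V)
  {d : ℕ} (b : Fin d → (Additive (kerSub κ) →+ 𝒪)) (hbV : ∀ i, b i ∈ V)
  (s : D → Γ) (hs : ∀ d, κ (s d) = d)
  (hb : ∀ y ∈ V, ∃! c : Fin d → D → 𝒪, y = ∑ i, ∑ g, c i g • conjAct κ (s g) (b i))

omit [Fintype D] [IsDomain 𝒪] [CharZero 𝒪] in
include hs in
theorem conjAct_section_mul_h762 (g h : D) (x : Additive (kerSub κ) →+ 𝒪) :
    conjAct κ (s g) (conjAct κ (s h) x) = conjAct κ (s (g * h)) x := by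
  rw [conjAct_mul_h762]
  apply H57.conjAct_congr57
  rw [hs, map_mul, hs, hs]

omit [Fintype D] [IsDomain 𝒪] [CharZero 𝒪] in
include hs in
theorem conjAct_eq_section_h762 (g : Γ) (x : Additive (kerSub κ) →+ 𝒪) :
    conjAct κ g x = conjAct κ (s (κ g)) x := by
  apply H57.conjAct_congr57
  rw [hs]

theorem torsionFree_h762 (n : ℕ) (hn : n ≠ 0) (y : Additive Γ →+ 𝒪) (h : n • y = 0) : y = 0 := by
  refine AddMonoidHom.ext fun γ => ?_
  have h1 := congrArg (fun f : Additive Γ →+ 𝒪 => f γ) h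
  simp only [AddMonoidHom.smul_apply, AddMonoidHom.zero_apply, nsmul_eq_mul] at h1
  rcases mul_eq_zero.mp h1 with h2 | h2
  · exact absurd (Nat.cast_eq_zero.mp h2) hn
  · exact h2

include hκ hres hbV hs hb in
/-- **COR, surjectivity**: every element of `W` is `cor v`, `v ∈ V`. -/
theorem cor_surj_gen_h762 {w : Additive Γ →+ 𝒪} (hw : w ∈ W) : ∃ v ∈ V, cor κ v = w := by
  have key := cor_surj_abs_h762 (G := D) (fun g x => conjAct κ (s g) x)
    (corLin_h762 κ 𝒪).toAddMonoidHom (resLin_h762 κ 𝒪).toAddMonoidHom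
    (fun x => H57.resCor.{0} Γ D κ s hs 𝒪 x)
    (fun y => H57.corRes.{0} Γ D κ hκ 𝒪 y)
    (fun g y => conjAct_res_h762 κ (s g) y)
    (fun y hy => torsionFree_h762 𝒪 _ Fintype.card_ne_zero y hy)
    V.toAddSubgroup W.toAddSubgroup hres
    (fun y hy hinv => inv_norm_h762 (fun g => conjLin_h762 κ 𝒪 (s g))
      (fun g h x => conjAct_section_mul_h762 κ 𝒪 s hs g h x) V b hbV hb hy hinv)
    hw
  exact key

omit [IsDomain 𝒪] [CharZero 𝒪] in
include hs hbV hb in
/-- **COR, kernel**: `ker (cor | V) = I_D V`. -/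
theorem cor_ker_gen_h762 {v : Additive (kerSub κ) →+ 𝒪} (hv : v ∈ V) :
    cor κ v = 0 ↔ v ∈ AddSubgroup.closure
      {z : Additive (kerSub κ) →+ 𝒪 | ∃ (g : Γ) (y' : Additive (kerSub κ) →+ 𝒪),
        y' ∈ V ∧ z = conjAct κ g y' - y'} := by
  have key := cor_ker_abs_h762 (G := D) (fun g x => conjAct κ (s g) x)
    (corLin_h762 κ 𝒪).toAddMonoidHom (resLin_h762 κ 𝒪).toAddMonoidHom
    (fun x => H57.resCor.{0} Γ D κ s hs 𝒪 x)
    (fun g x => H57.corConj.{0} Γ D κ (s g) 𝒪 x)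
    V.toAddSubgroup
    (fun y hy hN => ker_norm_h762 (fun g => conjLin_h762 κ 𝒪 (s g))
      (fun g h x => conjAct_section_mul_h762 κ 𝒪 s hs g h x) V b hbV hb hy hN)
    hv
  have hset : {z : Additive (kerSub κ) →+ 𝒪 | ∃ (g : D) (y' : Additive (kerSub κ) →+ 𝒪),
      y' ∈ V.toAddSubgroup ∧ z = conjAct κ (s g) y' - y'} =
      {z : Additive (kerSub κ) →+ 𝒪 | ∃ (g : Γ) (y' : Additive (kerSub κ) →+ 𝒪),
        y' ∈ V ∧ z = conjAct κ g y' - y'} := by
    ext z
    constructor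
    · rintro ⟨g, y', hy', rfl⟩
      exact ⟨s g, y', hy', rfl⟩
    · rintro ⟨g, y', hy', rfl⟩
      exact ⟨κ g, y', hy', by rw [← conjAct_eq_section_h762 κ 𝒪 s hs g y']⟩
  rw [← hset]
  exact key

end Ctrl

end Fermat.Agent.S59.TW.Aut.H762

end
-- ===== PACK-END S59/TW/Aut/H762/CorGen.lean

-- ===== PACK-BEGIN S48/H548/Chi0.lean
section



/-!
# S48 / RES piece CHI0 (helper548): the character of the Hecke algebra attached to a
mod-`λ` eigenvector

`exists_chi0` : let `g₀ ∈ S_2(Γ₁(M))` have nebentypus `χ₀` and `R`-integral `q`-expansion `c`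
(`ι : R → ℂ` injective, `φ : R → k` a ring homomorphism to a field), with `φ ∘ c ≠ 0` a
simultaneous eigenvector of the formal Hecke operators:
`φ c(np) + φ(χ₀(p)) p [p ∣ n] φ c(n/p) = φ(α_p) φ c(n)` for all primes `p ∤ M`.
Then there is a ring homomorphism `χ₀ : heckeAlg1 M 2 → k` with `χ₀(T_p) = φ(α_p)` and
`χ₀(⟨a⟩) = φ(χ₀(a₁₁))`.  No characteristic-zero eigenform is needed.
-/

set_option autoImplicit false
set_option linter.unusedSectionVars false
set_option linter.deprecated false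

noncomputable section

namespace Fermat.Agent.S48.H548

open Matrix.SpecialLinearGroup UpperHalfPlane ModularForm CongruenceSubgroup ModularFormClass
open scoped MatrixGroups ModularForm OnePoint Manifold

variable {M : ℕ} [NeZero M] {wt : ℤ}

/-! ### `q`-coefficients of cusp forms -/

theorem qCoeff_add548 (f g : CuspForm (Gamma1 M) wt) (n : ℕ) :
    qCoeff (⇑(f + g) : ℍ → ℂ) n = qCoeff (⇑f : ℍ → ℂ) n + qCoeff (⇑g : ℍ → ℂ) n :=
  (coe_nice (f + g)).qCoeff_eq (c := fun n ↦ qCoeff (⇑f : ℍ → ℂ) n + qCoeff (⇑g : ℍ → ℂ) n)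
    (by rw [CuspForm.coe_add]; exact (coe_nice f).hasQ.add (coe_nice g).hasQ) n

theorem qCoeff_smul548 (a : ℂ) (f : CuspForm (Gamma1 M) wt) (n : ℕ) :
    qCoeff (⇑(a • f) : ℍ → ℂ) n = a * qCoeff (⇑f : ℍ → ℂ) n :=
  (coe_nice (a • f)).qCoeff_eq (c := fun n ↦ a * qCoeff (⇑f : ℍ → ℂ) n)
    (by rw [CuspForm.IsGLPos.coe_smul]; exact (coe_nice f).hasQ.smul a) n

theorem qCoeff_neg548 (f : CuspForm (Gamma1 M) wt) (n : ℕ) :
    qCoeff (⇑(-f) : ℍ → ℂ) n = -qCoeff (⇑f : ℍ → ℂ) n := by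
  have h : -f = (-1 : ℂ) • f := (neg_one_smul ℂ f).symm
  rw [h, qCoeff_smul548, neg_mul, one_mul]

theorem qCoeff_zero548 (n : ℕ) : qCoeff (⇑(0 : CuspForm (Gamma1 M) wt) : ℍ → ℂ) n = 0 := by
  have h : (0 : CuspForm (Gamma1 M) wt) = (0 : ℂ) • (0 : CuspForm (Gamma1 M) wt) := by
    rw [zero_smul]
  rw [h, qCoeff_smul548, zero_mul]

/-! ### The Hecke operators on forms with nebentypus -/

section Hecke

variable {p : ℕ} [Fact p.Prime] {χ₀ : ZMod M → ℂ}

theorem dia_eq_smul_of_hasNeb (g : CuspForm (Gamma1 M) wt) (hch : HasNeb χ₀ ⇑g wt)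
    (a : SL(2, ℤ)) (ha : a ∈ Gamma0 M) : diaL a ha g = χ₀ ((a 1 1 : ℤ) : ZMod M) • g := by
  apply DFunLike.coe_injective
  rw [coe_diaL, CuspForm.IsGLPos.coe_smul]
  exact hch a ha

/-- `T_p` preserves the nebentypus. -/
theorem hasNeb_TpL (hpM : ¬ p ∣ M) (g : CuspForm (Gamma1 M) wt) (hch : HasNeb χ₀ ⇑g wt) :
    HasNeb χ₀ (⇑(TpL p hpM g)) wt := fun a ha ↦ by
  rw [← coe_diaL a ha, diaL_TpL hpM a ha g, dia_eq_smul_of_hasNeb g hch a ha, map_smul,
    CuspForm.IsGLPos.coe_smul]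

theorem coe_TpL_of_hasNeb (hpM : ¬ p ∣ M) (g : CuspForm (Gamma1 M) wt) (hch : HasNeb χ₀ ⇑g wt) :
    (⇑(TpL p hpM g) : ℍ → ℂ) =
      heckeU wt p ⇑g + χ₀ (p : ZMod M) • ((⇑g : ℍ → ℂ) ∣[wt] heckeDiagMatrix p) := by
  rw [coe_TpL hpM g _ (sigmaP_mem hpM) (sigmaP_lower hpM), hch _ (sigmaP_mem hpM),
    sigmaP_lower hpM, smul_slash_diag']

/-- The `q`-expansion of `T_p g`, `g` with nebentypus `χ₀`. -/
theorem qCoeff_TpL (hpM : ¬ p ∣ M) (g : CuspForm (Gamma1 M) wt) (hch : HasNeb χ₀ ⇑g wt) (n : ℕ) :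
    qCoeff (⇑(TpL p hpM g) : ℍ → ℂ) n =
      qCoeff (⇑g : ℍ → ℂ) (n * p) + χ₀ (p : ZMod M) *
        (if p ∣ n then (p : ℂ) ^ (wt - 1) * qCoeff (⇑g : ℍ → ℂ) (n / p) else 0) := by
  have hp : p ≠ 0 := (Fact.out : p.Prime).ne_zero
  refine (coe_nice (TpL p hpM g)).qCoeff_eq
    (c := fun n ↦ qCoeff (⇑g : ℍ → ℂ) (n * p) + χ₀ (p : ZMod M) *
        (if p ∣ n then (p : ℂ) ^ (wt - 1) * qCoeff (⇑g : ℍ → ℂ) (n / p) else 0)) ?_ n
  rw [coe_TpL_of_hasNeb hpM g hch]
  exact ((coe_nice g).hasQ_heckeU hp wt).add (((coe_nice g).hasQ_diag hp wt).smul _)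

end Hecke

/-! ### Integral `q`-expansions and their reductions -/

section Red

variable {R : Type*} [CommRing R] {k : Type*} [Field k] (ι : R →+* ℂ) (φ : R →+* k)

/-- The family `W b` : forms with nebentypus `χ₀` and integral `q`-expansion reducing to
`b • c₀`. -/
def famW (χ₀ : ZMod M → ℂ) (c₀ : ℕ → k) (b : k) : Set (CuspForm (Gamma1 M) 2) :=
  {g | HasNeb χ₀ (⇑g) 2 ∧ ∃ c : ℕ → R, (∀ n, qCoeff (⇑g : ℍ → ℂ) n = ι (c n)) ∧
    ∀ n, φ (c n) = b * c₀ n}

variable {ι φ} {χ₀ : ZMod M → ℂ} {c₀ : ℕ → k}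

theorem famW_zero : (0 : CuspForm (Gamma1 M) 2) ∈ famW ι φ χ₀ c₀ 0 :=
  ⟨by rw [CuspForm.coe_zero]; exact HasNeb.zero,
    ⟨fun _ ↦ 0, fun n ↦ by rw [qCoeff_zero548, map_zero], fun n ↦ by rw [map_zero, zero_mul]⟩⟩

theorem famW_add (b b' : k) (g g' : CuspForm (Gamma1 M) 2) (hg : g ∈ famW ι φ χ₀ c₀ b)
    (hg' : g' ∈ famW ι φ χ₀ c₀ b') : g + g' ∈ famW ι φ χ₀ c₀ (b + b') := by
  obtain ⟨h1, c, hc, hr⟩ := hg
  obtain ⟨h1', c', hc', hr'⟩ := hg'
  refine ⟨by rw [CuspForm.coe_add]; exact h1.add h1', fun n ↦ c n + c' n, fun n ↦ ?_, fun n ↦ ?_⟩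
  · rw [qCoeff_add548, hc, hc', map_add]
  · rw [map_add, hr, hr', add_mul]

theorem famW_neg (b : k) (g : CuspForm (Gamma1 M) 2) (hg : g ∈ famW ι φ χ₀ c₀ b) :
    -g ∈ famW ι φ χ₀ c₀ (-b) := by
  obtain ⟨h1, c, hc, hr⟩ := hg
  refine ⟨by rw [CuspForm.coe_neg]; exact h1.neg, fun n ↦ -c n, fun n ↦ ?_, fun n ↦ ?_⟩
  · rw [qCoeff_neg548, hc, map_neg]
  · rw [map_neg, hr, neg_mul]

theorem famW_sep (hι : Function.Injective ι) (hc₀ : ∃ n, c₀ n ≠ 0) (b b' : k)
    (g : CuspForm (Gamma1 M) 2) (hg : g ∈ famW ι φ χ₀ c₀ b) (hg' : g ∈ famW ι φ χ₀ c₀ b') :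
    b = b' := by
  obtain ⟨n, hn⟩ := hc₀
  obtain ⟨-, c, hc, hr⟩ := hg
  obtain ⟨-, c', hc', hr'⟩ := hg'
  have h1 : c n = c' n := hι ((hc n).symm.trans (hc' n))
  have h2 : b * c₀ n = b' * c₀ n := by rw [← hr, ← hr', h1]
  exact mul_right_cancel₀ hn h2

/-- The diamond operators act on `W` through `φ(χ₀(a₁₁))`. -/
theorem actsBy_diaL (chR : ZMod M → R) (hchR : ∀ x, ι (chR x) = χ₀ x) (a : SL(2, ℤ))
    (ha : a ∈ Gamma0 M) :
    ActsBy (famW ι φ χ₀ c₀) (diaL a ha) (φ (chR ((a 1 1 : ℤ) : ZMod M))) := by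
  rintro b g ⟨h1, c, hc, hr⟩
  have hd := dia_eq_smul_of_hasNeb g h1 a ha
  refine ⟨?_, fun n ↦ chR ((a 1 1 : ℤ) : ZMod M) * c n, fun n ↦ ?_, fun n ↦ ?_⟩
  · rw [hd, CuspForm.IsGLPos.coe_smul]
    exact h1.smul _
  · rw [hd, qCoeff_smul548, hc, map_mul, hchR]
  · rw [map_mul, hr, mul_assoc]

/-- `T_p` acts on `W` through `φ(α_p)` if `c₀` is a formal eigenvector. -/
theorem actsBy_TpL (chR : ZMod M → R) (hchR : ∀ x, ι (chR x) = χ₀ x) {p : ℕ} [Fact p.Prime]
    (hpM : ¬ p ∣ M) (ap : k)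
    (hrel : ∀ n, c₀ (n * p) + φ (chR (p : ZMod M)) * (p : k) *
      (if p ∣ n then c₀ (n / p) else 0) = ap * c₀ n) :
    ActsBy (famW ι φ χ₀ c₀) (TpL p hpM) ap := by
  rintro b g ⟨h1, c, hc, hr⟩
  refine ⟨hasNeb_TpL hpM g h1, fun n ↦ c (n * p) + chR (p : ZMod M) *
    (if p ∣ n then (p : R) * c (n / p) else 0), fun n ↦ ?_, fun n ↦ ?_⟩
  · rw [qCoeff_TpL hpM g h1, hc, map_add, map_mul, hchR]
    congr 2
    split_ifs
    · rw [map_mul, hc, map_natCast]
      norm_num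
    · rw [map_zero]
  · have h2 : ap * b * c₀ n = b * (ap * c₀ n) := by ring
    rw [map_add, map_mul, hr, h2, ← hrel n]
    split_ifs
    · rw [map_mul, hr, map_natCast]
      ring
    · rw [map_zero]
      ring

end Red

/-! ### The character -/

section Main

variable {R : Type*} [CommRing R] {k : Type*} [Field k] {ι : R →+* ℂ} {φ : R →+* k}

/-- **CHI0, abstract level `M`.** -/
theorem exists_chi0 (hι : Function.Injective ι) (χ₀ : ZMod M → ℂ) (chR : ZMod M → R)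
    (hchR : ∀ x, ι (chR x) = χ₀ x) (α : ℕ → k) (g₀ : CuspForm (Gamma1 M) 2)
    (hneb : HasNeb χ₀ (⇑g₀) 2) (c : ℕ → R) (hc : ∀ n, qCoeff (⇑g₀ : ℍ → ℂ) n = ι (c n))
    (hne : ∃ n, φ (c n) ≠ 0)
    (hrel : ∀ p : ℕ, p.Prime → ¬ p ∣ M → ∀ n : ℕ,
      φ (c (n * p)) + φ (chR (p : ZMod M)) * (p : k) * (if p ∣ n then φ (c (n / p)) else 0) =
        α p * φ (c n)) :
    ∃ χ : heckeAlg1 M 2 →+* k,
      (∀ (p : ℕ) [Fact p.Prime] (hpM : ¬ p ∣ M), χ ⟨TpL p hpM, TpL_mem_heckeAlg1 hpM⟩ = α p) ∧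
      (∀ (a : SL(2, ℤ)) (ha : a ∈ Gamma0 M),
        χ ⟨diaL a ha, diaL_mem_heckeAlg1 a ha⟩ = φ (chR ((a 1 1 : ℤ) : ZMod M))) ∧
      ∀ t : heckeAlg1 M 2, ActsBy (famW ι φ χ₀ (fun n ↦ φ (c n))) (t : Module.End ℂ _) (χ t) := by
  set c₀ : ℕ → k := fun n ↦ φ (c n) with hc₀
  have hg₀ : g₀ ∈ famW ι φ χ₀ c₀ 1 := ⟨hneb, c, hc, fun n ↦ by rw [one_mul]⟩
  have hsep := famW_sep (M := M) (χ₀ := χ₀) (φ := φ) hι (c₀ := c₀) hne
  have hG : ∀ t ∈ heckeGens M 2, ∃ b : k, ActsBy (famW ι φ χ₀ c₀) t b := by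
    rintro t (⟨p, hp, hpM, rfl⟩ | ⟨a, ha, rfl⟩)
    · exact ⟨α p, actsBy_TpL chR hchR hpM (α p) (hrel p hp.out hpM)⟩
    · exact ⟨_, actsBy_diaL chR hchR a ha⟩
  obtain ⟨χ, hχ⟩ := exists_ringHom_actsBy (W := famW ι φ χ₀ c₀) famW_zero famW_add famW_neg
    hsep hg₀ hG
  refine ⟨χ, fun p _ hpM ↦ ?_, fun a ha ↦ ?_, hχ⟩
  · exact (hχ ⟨TpL p hpM, TpL_mem_heckeAlg1 hpM⟩).unique hsep hg₀
      (actsBy_TpL chR hchR hpM (α p) (hrel p Fact.out hpM))
  · exact (hχ ⟨diaL a ha, diaL_mem_heckeAlg1 a ha⟩).unique hsep hg₀ (actsBy_diaL chR hchR a ha)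

end Main

end Fermat.Agent.S48.H548

end
end
-- ===== PACK-END S48/H548/Chi0.lean

-- ===== PACK-BEGIN S19/H679/NT.lean
section



/-!
# Cell A3 (S19), block UNR (helper679) — number-theoretic inputs

`V` a valuation subring of `ℚ̄` over the prime `ℓ`.  Elementary facts about algebraic integers
and `V` ("rank one" lemmas), orbits under subgroups of the Galois group, and the two existence
lemmas used by the descent:

* `exists_sepH679`  : an inertia-invariant integer of a normal level `E` moved (mod `𝔪_V`) by a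
  given decomposition element which is not inertial on `E`;
* `exists_crtH679`  : an inertia-invariant integer `U` of `E`, `U ≡ 1 mod 𝔪_V`, whose conjugates
  `σ U` are divisible by `ℓ ^ n` for all `σ` not in `D_V · Gal(ℚ̄/E)`.
-/

set_option autoImplicit false

namespace Fermat.Agent.S19.H679

open Fermat.Agent.S54 Fermat.Agent.S55.Bridge Fermat.Agent.S55.Bridge.H594
open Polynomial

attribute [local instance] isAlgebraic_Qbar isGalois_Qbar

variable (V : ValuationSubring Qb)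

/-! ## Basic valuation facts -/

theorem mul_mem_nonunitsH679 {a b : Qb} (ha : a ∈ V) (hb : b ∈ V.nonunits) :
    a * b ∈ V.nonunits := by
  rw [ValuationSubring.mem_nonunits_iff] at hb ⊢
  rw [map_mul]
  have h1 : V.valuation a ≤ 1 := (V.valuation_le_one_iff a).2 ha
  calc V.valuation a * V.valuation b ≤ 1 * V.valuation b := mul_le_mul' h1 le_rfl
    _ = V.valuation b := one_mul _
    _ < 1 := hb

theorem mul_mem_nonunitsH679' {a b : Qb} (ha : a ∈ V.nonunits) (hb : b ∈ V) :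
    a * b ∈ V.nonunits := by
  rw [mul_comm]
  exact mul_mem_nonunitsH679 V hb ha

theorem mem_of_mem_nonunitsH679 {a : Qb} (ha : a ∈ V.nonunits) : a ∈ V :=
  V.nonunits_subset ha

theorem inv_mem_of_not_mem_nonunitsH679 {a : Qb} (ha : a ∉ V.nonunits) : a⁻¹ ∈ V := by
  by_contra h
  exact ha (V.mem_nonunits_iff_or.mpr (Or.inr h))

/-- `𝔪_V` is a prime ideal: a product of elements of `V` in `𝔪_V` has a factor in `𝔪_V`. -/
theorem mem_nonunits_of_mulH679 {a b : Qb} (_ha : a ∈ V) (_hb : b ∈ V)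
    (hab : a * b ∈ V.nonunits) : a ∈ V.nonunits ∨ b ∈ V.nonunits := by
  by_contra hcon
  rw [not_or] at hcon
  have h1 := inv_mem_of_not_mem_nonunitsH679 V hcon.1
  have h2 := inv_mem_of_not_mem_nonunitsH679 V hcon.2
  have ha0 : a ≠ 0 := fun h => hcon.1 (h ▸ V.nonunits.zero_mem)
  have hb0 : b ≠ 0 := fun h => hcon.2 (h ▸ V.nonunits.zero_mem)
  have h3 : (a⁻¹ * b⁻¹) * (a * b) ∈ V.nonunits :=
    mul_mem_nonunitsH679 V (V.mul_mem _ _ h1 h2) hab
  have h4 : (a⁻¹ * b⁻¹) * (a * b) = 1 := by field_simp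
  rw [h4, ValuationSubring.mem_nonunits_iff, map_one] at h3
  exact lt_irrefl _ h3

theorem one_not_mem_nonunitsH679 : (1 : Qb) ∉ V.nonunits := by
  rw [ValuationSubring.mem_nonunits_iff, map_one]
  exact lt_irrefl _

theorem prod_mem_nonunitsH679 {ι : Type*} (s : Finset ι) (g : ι → Qb) (hg : ∀ i ∈ s, g i ∈ V)
    (i₀ : ι) (hi₀ : i₀ ∈ s) (h0 : g i₀ ∈ V.nonunits) : ∏ i ∈ s, g i ∈ V.nonunits := by
  classical
  rw [← Finset.mul_prod_erase s g hi₀]
  refine mul_mem_nonunitsH679' V h0 ?_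
  exact Subring.prod_mem V.toSubring fun i hi => hg i (Finset.mem_of_mem_erase hi)

theorem exists_mem_nonunits_of_prodH679 {ι : Type*} (s : Finset ι) (g : ι → Qb)
    (hg : ∀ i ∈ s, g i ∈ V) (h : ∏ i ∈ s, g i ∈ V.nonunits) : ∃ i ∈ s, g i ∈ V.nonunits := by
  classical
  induction s using Finset.induction_on with
  | empty =>
    rw [Finset.prod_empty] at h
    exact absurd h (one_not_mem_nonunitsH679 V)
  | insert a s ha ih =>
    rw [Finset.prod_insert ha] at h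
    have h1 : g a ∈ V := hg a (Finset.mem_insert_self a s)
    have h2 : ∏ i ∈ s, g i ∈ V :=
      Subring.prod_mem V.toSubring fun i hi => hg i (Finset.mem_insert_of_mem hi)
    rcases mem_nonunits_of_mulH679 V h1 h2 h with h3 | h3
    · exact ⟨a, Finset.mem_insert_self a s, h3⟩
    · obtain ⟨i, hi, hi'⟩ := ih (fun i hi => hg i (Finset.mem_insert_of_mem hi)) h3
      exact ⟨i, Finset.mem_insert_of_mem hi, hi'⟩

variable {ℓ : ℕ} (hℓ : ℓ.Prime) (hV : (ℓ : Qb) ∈ V.nonunits)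

include hℓ hV in
/-- Integers prime to `ℓ` are units of `V`. -/
theorem intCast_inv_memH679 (d : ℤ) (hd : ¬ (ℓ : ℤ) ∣ d) : ((d : Qb))⁻¹ ∈ V := by
  apply inv_mem_of_not_mem_nonunitsH679
  intro h
  exact hd (_root_.Fermat.Agent.S54.dvd_of_intCast_mem_nonunits V ℓ hℓ hV d h)

include hℓ hV in
/-- **Bounded denominators**: for every `x` some `ℓ ^ a` clears the `V`-denominators of all
conjugates of `x`. -/
theorem exists_pow_mul_conj_memH679 (x : Qb) : ∃ a : ℕ, ∀ σ : GalQ, (ℓ : Qb) ^ a * σ x ∈ V := by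
  have halg : IsAlgebraic ℤ x :=
    (IsFractionRing.isAlgebraic_iff ℤ ℚ Qb).mpr (Algebra.IsAlgebraic.isAlgebraic x)
  obtain ⟨d, hd0, hd⟩ := halg.exists_integral_multiple
  -- `d = ℓ ^ a * d'` with `ℓ ∤ d'`
  obtain ⟨a, d', hd', hdd⟩ : ∃ (a : ℕ) (d' : ℤ), ¬ (ℓ : ℤ) ∣ d' ∧ d = (ℓ : ℤ) ^ a * d' := by
    have hfin : FiniteMultiplicity (ℓ : ℤ) d := by
      rw [Int.finiteMultiplicity_iff]
      refine ⟨?_, hd0⟩
      have := hℓ.one_lt
      simp only [Int.natAbs_natCast]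
      omega
    obtain ⟨c, hc1, hc2⟩ := hfin.exists_eq_pow_mul_and_not_dvd
    exact ⟨_, c, hc2, hc1⟩
  refine ⟨a, fun σ => ?_⟩
  have h1 : IsIntegral ℤ (σ (d • x)) := hd.map σ
  have h2 : σ (d • x) ∈ V := isIntegral_mem_valuationSubring V h1
  have h3 : ((d' : Qb))⁻¹ ∈ V := intCast_inv_memH679 V hℓ hV d' hd'
  have hd'0 : (d' : Qb) ≠ 0 := by
    intro h
    apply hd'
    have : d' = 0 := by exact_mod_cast h
    rw [this]
    exact dvd_zero _
  have h4 : (ℓ : Qb) ^ a * σ x = σ (d • x) * ((d' : Qb))⁻¹ := by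
    rw [zsmul_eq_mul, map_mul, map_intCast, hdd]
    push_cast
    field_simp
  rw [h4]
  exact V.mul_mem _ _ h2 h3

include hℓ hV in
/-- For a nonzero `y` some power of `ℓ` is divisible by `y` in `V`. -/
theorem exists_pow_div_memH679 (y : Qb) : ∃ e : ℕ, (ℓ : Qb) ^ e * y⁻¹ ∈ V := by
  obtain ⟨a, ha⟩ := exists_pow_mul_conj_memH679 V hℓ hV y⁻¹
  exact ⟨a, by simpa using ha 1⟩

include hℓ hV in
/-- **Rank one**: a non-unit algebraic integer has a power divisible by `ℓ`. -/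
theorem exists_pow_eq_mulH679 (y : Qb) (hy : IsIntegral ℤ y) (hyV : y ∈ V.nonunits) :
    ∃ k : ℕ, 0 < k ∧ ∃ z ∈ V, y ^ k = (ℓ : Qb) * z := by
  rcases eq_or_ne y 0 with rfl | hy0
  · exact ⟨1, one_pos, 0, V.zero_mem, by simp⟩
  obtain ⟨p, hpm, hpy⟩ := hy
  have hpy' : aeval y p = 0 := by
    rw [aeval_def]; exact hpy
  -- the least index with coefficient prime to `ℓ`
  have hex : ∃ i, ¬ (ℓ : ℤ) ∣ p.coeff i := by
    refine ⟨p.natDegree, ?_⟩
    rw [hpm.coeff_natDegree]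
    intro h
    have h1 := Int.isUnit_iff.mp (isUnit_of_dvd_one h)
    have := hℓ.one_lt
    omega
  classical
  set i := Nat.find hex with hi
  have hi1 : ¬ (ℓ : ℤ) ∣ p.coeff i := Nat.find_spec hex
  have hi2 : ∀ j < i, (ℓ : ℤ) ∣ p.coeff j := fun j hj => by
    by_contra h
    exact Nat.find_min hex hj h
  -- valuations
  set v := V.valuation with hv
  have hvy : v y < 1 := (ValuationSubring.mem_nonunits_iff V).1 hyV
  have hvy0 : v y ≠ 0 := (Valuation.ne_zero_iff v).2 hy0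
  have hvl : v (ℓ : Qb) < 1 := (ValuationSubring.mem_nonunits_iff V).1 hV
  have hvint : ∀ n : ℤ, v (n : Qb) ≤ 1 := fun n =>
    (V.valuation_le_one_iff _).2 (intCast_mem V n)
  have hvunit : v ((p.coeff i : ℤ) : Qb) = 1 := by
    have h1 := intCast_inv_memH679 V hℓ hV _ hi1
    have h2 : v (((p.coeff i : ℤ) : Qb))⁻¹ ≤ 1 := (V.valuation_le_one_iff _).2 h1
    have h3 := hvint (p.coeff i)
    have hne : ((p.coeff i : ℤ) : Qb) ≠ 0 := by
      intro h
      apply hi1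
      have : p.coeff i = 0 := by exact_mod_cast h
      rw [this]; exact dvd_zero _
    rw [map_inv₀] at h2
    have h4 : v ((p.coeff i : ℤ) : Qb) ≠ 0 := (Valuation.ne_zero_iff v).2 hne
    have h5 : 1 ≤ v ((p.coeff i : ℤ) : Qb) := by
      rwa [inv_le_one₀ (zero_lt_iff.2 h4)] at h2
    exact le_antisymm h3 h5
  -- the relation
  have hsum : aeval y p = ∑ j ∈ Finset.range (p.natDegree + 1), ((p.coeff j : ℤ) : Qb) * y ^ j := by
    rw [aeval_eq_sum_range]
    refine Finset.sum_congr rfl fun j _ => ?_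
    rw [zsmul_eq_mul]
  have hile : i ≤ p.natDegree := by
    by_contra h
    rw [not_le] at h
    exact hi1 (by rw [coeff_eq_zero_of_natDegree_lt h]; exact dvd_zero _)
  have himem : i ∈ Finset.range (p.natDegree + 1) := Finset.mem_range.2 (by omega)
  rw [hpy', ← Finset.add_sum_erase _ _ himem] at hsum
  have hrel : ((p.coeff i : ℤ) : Qb) * y ^ i
      = - ∑ j ∈ (Finset.range (p.natDegree + 1)).erase i, ((p.coeff j : ℤ) : Qb) * y ^ j := by
    rw [eq_neg_iff_add_eq_zero]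
    exact hsum.symm
  have hvi : v (y ^ i) = v (∑ j ∈ (Finset.range (p.natDegree + 1)).erase i,
      ((p.coeff j : ℤ) : Qb) * y ^ j) := by
    have := congrArg v hrel
    rw [map_mul, hvunit, one_mul, Valuation.map_neg] at this
    exact this
  -- bound each term by `max (v ℓ) (v y ^ (i+1))`
  have hbound : v (∑ j ∈ (Finset.range (p.natDegree + 1)).erase i,
      ((p.coeff j : ℤ) : Qb) * y ^ j) ≤ max (v (ℓ : Qb)) (v y ^ (i + 1)) := by
    apply Valuation.map_sum_le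
    intro j hj
    have hji : j ≠ i := Finset.ne_of_mem_erase hj
    rcases lt_or_gt_of_ne hji with hlt | hgt
    · obtain ⟨c, hc⟩ := hi2 j hlt
      refine le_trans ?_ (le_max_left _ _)
      rw [hc]
      push_cast
      rw [map_mul, map_mul, map_pow]
      have h1 : v (c : Qb) ≤ 1 := hvint c
      have h2 : v y ^ j ≤ 1 := pow_le_one₀ zero_le hvy.le
      calc v (ℓ : Qb) * v (c : Qb) * v y ^ j ≤ v (ℓ : Qb) * 1 * 1 := by
            gcongr
        _ = v (ℓ : Qb) := by rw [mul_one, mul_one]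
    · refine le_trans ?_ (le_max_right _ _)
      rw [map_mul, map_pow]
      have h1 : v ((p.coeff j : ℤ) : Qb) ≤ 1 := hvint _
      have h2 : v y ^ j ≤ v y ^ (i + 1) := pow_le_pow_of_le_one zero_le hvy.le (by omega)
      calc v ((p.coeff j : ℤ) : Qb) * v y ^ j ≤ 1 * v y ^ (i + 1) := by
            gcongr
        _ = v y ^ (i + 1) := one_mul _
  rw [← hvi, map_pow] at hbound
  have hstrict : v y ^ (i + 1) < v y ^ i := by
    rw [pow_succ]
    calc v y ^ i * v y < v y ^ i * 1 := by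
          apply mul_lt_mul_of_pos_left hvy
          exact zero_lt_iff.2 (pow_ne_zero _ hvy0)
      _ = v y ^ i := mul_one _
  have hle : v y ^ i ≤ v (ℓ : Qb) := by
    rcases le_max_iff.1 hbound with h | h
    · exact h
    · exact absurd h (not_le.2 hstrict)
  have hipos : 0 < i := by
    rcases Nat.eq_zero_or_pos i with h0 | h0
    · rw [h0, pow_zero] at hle
      exact absurd hvl (not_lt.2 hle)
    · exact h0
  refine ⟨i, hipos, y ^ i * ((ℓ : Qb))⁻¹, ?_, ?_⟩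
  · rw [← V.valuation_le_one_iff, map_mul, map_inv₀, map_pow]
    have hl0 : v (ℓ : Qb) ≠ 0 := by
      rw [Valuation.ne_zero_iff]
      exact_mod_cast hℓ.ne_zero
    rw [← div_eq_mul_inv, div_le_one₀ (zero_lt_iff.2 hl0)]
    exact hle
  · have hl0 : (ℓ : Qb) ≠ 0 := by exact_mod_cast hℓ.ne_zero
    field_simp

/-! ## Orbits of subgroups of the Galois group -/

/-- Orbits of elements of `ℚ̄` under any set of automorphisms are finite. -/
theorem finite_orbH679 (H : Set GalQ) (x : Qb) : {y : Qb | ∃ h ∈ H, h x = y}.Finite := by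
  refine Set.Finite.subset (Polynomial.rootSet_finite (minpoly ℚ x) Qb) ?_
  rintro y ⟨h, -, rfl⟩
  rw [Polynomial.mem_rootSet]
  refine ⟨minpoly.ne_zero (Algebra.IsIntegral.isIntegral x), ?_⟩
  exact minpoly.aeval_algHom ℚ (h : Qb →ₐ[ℚ] Qb) x

/-- The orbit of `x` under a subgroup, as a finset. -/
noncomputable def orbH679 (H : Subgroup GalQ) (x : Qb) : Finset Qb :=
  (finite_orbH679 (H : Set GalQ) x).toFinset

theorem mem_orbH679 {H : Subgroup GalQ} {x y : Qb} :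
    y ∈ orbH679 H x ↔ ∃ h ∈ H, h x = y := by
  rw [orbH679, Set.Finite.mem_toFinset]
  rfl

theorem self_mem_orbH679 (H : Subgroup GalQ) (x : Qb) : x ∈ orbH679 H x :=
  mem_orbH679.2 ⟨1, H.one_mem, rfl⟩

theorem apply_mem_orbH679 {H : Subgroup GalQ} {x y : Qb} {h : GalQ} (hh : h ∈ H)
    (hy : y ∈ orbH679 H x) : h y ∈ orbH679 H x := by
  obtain ⟨g, hg, rfl⟩ := mem_orbH679.1 hy
  exact mem_orbH679.2 ⟨h * g, H.mul_mem hh hg, rfl⟩

theorem galH679_inv_apply (h : GalQ) (y : Qb) : h⁻¹ (h y) = y := by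
  show (h⁻¹ * h) y = y
  rw [inv_mul_cancel]; rfl

theorem galH679_apply_inv (h : GalQ) (y : Qb) : h (h⁻¹ y) = y := by
  show (h * h⁻¹) y = y
  rw [mul_inv_cancel]; rfl

/-- Products over an orbit are invariant. -/
theorem apply_prod_orbH679 {H : Subgroup GalQ} (x : Qb) {h : GalQ} (hh : h ∈ H) :
    h (∏ y ∈ orbH679 H x, y) = ∏ y ∈ orbH679 H x, y := by
  rw [map_prod]
  refine Finset.prod_nbij' (fun y => h y) (fun y => h⁻¹ y)
    (fun y hy => apply_mem_orbH679 hh hy) (fun y hy => apply_mem_orbH679 (H.inv_mem hh) hy)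
    (fun y _ => galH679_inv_apply h y) (fun y _ => galH679_apply_inv h y) (fun y _ => rfl)

/-- The orbit polynomial. -/
noncomputable def orbPolyH679 (H : Subgroup GalQ) (x : Qb) : Qb[X] :=
  ∏ y ∈ orbH679 H x, (X - C y)

theorem map_orbPolyH679 {H : Subgroup GalQ} (x : Qb) {h : GalQ} (hh : h ∈ H) :
    (orbPolyH679 H x).map (h : Qb →+* Qb) = orbPolyH679 H x := by
  unfold orbPolyH679
  rw [Polynomial.map_prod]
  refine Finset.prod_nbij' (fun y => h y) (fun y => h⁻¹ y)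
    (fun y hy => apply_mem_orbH679 hh hy) (fun y hy => apply_mem_orbH679 (H.inv_mem hh) hy)
    (fun y _ => galH679_inv_apply h y) (fun y _ => galH679_apply_inv h y) ?_
  intro y _
  simp

theorem apply_coeff_orbPolyH679 {H : Subgroup GalQ} (x : Qb) {h : GalQ} (hh : h ∈ H) (j : ℕ) :
    h ((orbPolyH679 H x).coeff j) = (orbPolyH679 H x).coeff j := by
  conv_rhs => rw [← map_orbPolyH679 x hh]
  rw [Polynomial.coeff_map]
  rfl

/-- Coefficients of `∏ (X - y)` lie in any subring containing the `y`. -/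
theorem coeff_prod_X_sub_C_memH679 (A : Subring Qb) (s : Finset Qb) (hs : ∀ y ∈ s, y ∈ A)
    (j : ℕ) : (∏ y ∈ s, (X - C y)).coeff j ∈ A := by
  classical
  induction s using Finset.induction_on generalizing j with
  | empty =>
    rw [Finset.prod_empty, Polynomial.coeff_one]
    split_ifs
    · exact A.one_mem
    · exact A.zero_mem
  | insert a s ha ih =>
    rw [Finset.prod_insert ha, mul_comm]
    have hsa : ∀ y ∈ s, y ∈ A := fun y hy => hs y (Finset.mem_insert_of_mem hy)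
    have haA : a ∈ A := hs a (Finset.mem_insert_self a s)
    rcases j with _ | j
    · rw [Polynomial.mul_coeff_zero]
      refine A.mul_mem (ih hsa 0) ?_
      simp only [coeff_sub, coeff_X_zero, coeff_C_zero, zero_sub]
      exact A.neg_mem haA
    · rw [Polynomial.coeff_mul_X_sub_C]
      exact A.sub_mem (ih hsa j) (A.mul_mem (ih hsa (j + 1)) haA)

theorem orbPolyH679_eval_self (H : Subgroup GalQ) (x : Qb) : (orbPolyH679 H x).eval x = 0 := by
  unfold orbPolyH679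
  rw [Polynomial.eval_prod]
  exact Finset.prod_eq_zero (self_mem_orbH679 H x) (by simp)

/-! ## Decomposition and inertia, elementwise -/

theorem mem_decompH679 {V : ValuationSubring Qb} {δ : GalQ}
    (hδ : δ ∈ V.decompositionSubgroup ℚ) (x : Qb) : δ x ∈ V ↔ x ∈ V :=
  (mem_decompositionSubgroup_iff V δ).1 hδ x

theorem mem_nonunits_decompH679 {V : ValuationSubring Qb} {δ : GalQ}
    (hδ : δ ∈ V.decompositionSubgroup ℚ) (x : Qb) : δ x ∈ V.nonunits ↔ x ∈ V.nonunits := by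
  rw [V.mem_nonunits_iff_or, V.mem_nonunits_iff_or, ← map_inv₀, mem_decompH679 hδ,
    map_eq_zero_iff _ δ.injective]

theorem inertia_le_decompH679 {V : ValuationSubring Qb} {ι : GalQ}
    (hι : ι ∈ V.inertiaSubgroupIn ℚ) : ι ∈ V.decompositionSubgroup ℚ :=
  ((mem_inertiaSubgroupIn_iff V ι).1 hι).1

theorem inertia_sub_memH679 {V : ValuationSubring Qb} {ι : GalQ}
    (hι : ι ∈ V.inertiaSubgroupIn ℚ) {z : Qb} (hz : z ∈ V) : ι z - z ∈ V.nonunits :=
  ((mem_inertiaSubgroupIn_iff V ι).1 hι).2 z hz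

/-- The `S19` inertia predicate follows from membership in the inertia group. -/
theorem isInertiaAt_of_memH679 {V : ValuationSubring Qb} {ι : GalQ}
    (hι : ι ∈ V.inertiaSubgroupIn ℚ) : IsInertiaAt V ι :=
  fun _ hz => inertia_sub_memH679 hι hz

/-- Inertia is normal in the decomposition group. -/
theorem conj_mem_inertiaH679 {V : ValuationSubring Qb} {δ ι : GalQ}
    (hδ : δ ∈ V.decompositionSubgroup ℚ) (hι : ι ∈ V.inertiaSubgroupIn ℚ) :
    δ * ι * δ⁻¹ ∈ V.inertiaSubgroupIn ℚ := by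
  rw [mem_inertiaSubgroupIn_iff]
  refine ⟨(V.decompositionSubgroup ℚ).mul_mem
    ((V.decompositionSubgroup ℚ).mul_mem hδ (inertia_le_decompH679 hι))
    ((V.decompositionSubgroup ℚ).inv_mem hδ), fun z hz => ?_⟩
  have h1 : δ⁻¹ z ∈ V := (mem_decompH679 ((V.decompositionSubgroup ℚ).inv_mem hδ) z).2 hz
  have h2 := inertia_sub_memH679 hι h1
  have h3 : (δ * ι * δ⁻¹) z - z = δ (ι (δ⁻¹ z) - δ⁻¹ z) := by
    rw [map_sub, galH679_apply_inv]
    rfl
  rw [h3]
  exact (mem_nonunits_decompH679 hδ _).2 h2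

theorem prod_sub_one_mem_nonunitsH679 {ι : Type*} (s : Finset ι) (g : ι → Qb)
    (hg : ∀ i ∈ s, g i - 1 ∈ V.nonunits) : ∏ i ∈ s, g i - 1 ∈ V.nonunits := by
  classical
  induction s using Finset.induction_on with
  | empty => simpa using V.nonunits.zero_mem
  | insert a s ha ih =>
    rw [Finset.prod_insert ha]
    have h1 := hg a (Finset.mem_insert_self a s)
    have h2 := ih fun i hi => hg i (Finset.mem_insert_of_mem hi)
    have h3 : g a ∈ V := by
      have := V.add_mem _ _ (mem_of_mem_nonunitsH679 V h1) V.one_mem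
      simpa using this
    have h4 : g a * ∏ i ∈ s, g i - 1 = g a * (∏ i ∈ s, g i - 1) + (g a - 1) := by ring
    rw [h4]
    exact V.nonunits.add_mem (mul_mem_nonunitsH679 V h3 h2) h1

/-! ## Finite order of residues -/

include hℓ hV in
/-- A unit of `V` which is an algebraic integer has finite order modulo `𝔪_V`. -/
theorem exists_pow_sub_one_memH679 (x : Qb) (hx : IsIntegral ℤ x) (hxu : x ∉ V.nonunits) :
    ∃ N : ℕ, 0 < N ∧ x ^ N - 1 ∈ V.nonunits := by
  have hprime := primeBelow_isPrime V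
  have hQ : (ℓ : integralClosure ℤ Qb) ∈ primeBelow V := by
    rw [mem_primeBelow]
    simpa using hV
  obtain ⟨σ, -, hσ⟩ := exists_frob_integralClosure ℓ hℓ (primeBelow V) hQ
  have hσ' : ∀ z : Qb, IsIntegral ℤ z → σ z - z ^ ℓ ∈ V.nonunits := by
    intro z hz
    have := hσ ⟨z, hz⟩
    rw [mem_primeBelow] at this
    simpa using this
  have hintV : ∀ z : Qb, IsIntegral ℤ z → z ∈ V := fun z hz =>
    isIntegral_mem_valuationSubring V hz
  -- iterate
  have hiter : ∀ k : ℕ, ∀ z : Qb, IsIntegral ℤ z → (σ ^ k) z - z ^ (ℓ ^ k) ∈ V.nonunits := by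
    intro k
    induction k with
    | zero =>
      intro z _
      simpa using V.nonunits.zero_mem
    | succ k ih =>
      intro z hz
      have h1 := ih (σ z) (hz.map σ)
      have h2 : (σ z) ^ (ℓ ^ k) - (z ^ ℓ) ^ (ℓ ^ k) ∈ V.nonunits := by
        have hgeom := Commute.mul_geom_sum₂ (Commute.all (σ z) (z ^ ℓ)) (ℓ ^ k)
        have hne : IsIntegral ℤ (∑ i ∈ Finset.range (ℓ ^ k),
            (σ z) ^ i * (z ^ ℓ) ^ (ℓ ^ k - 1 - i)) :=
          IsIntegral.sum _ fun i _ => ((hz.map σ).pow _).mul ((hz.pow _).pow _)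
        rw [← hgeom]
        exact mul_mem_nonunitsH679' V (hσ' z hz) (hintV _ hne)
      have h3 : (σ ^ (k + 1)) z - z ^ (ℓ ^ (k + 1))
          = ((σ ^ k) (σ z) - (σ z) ^ (ℓ ^ k)) + ((σ z) ^ (ℓ ^ k) - (z ^ ℓ) ^ (ℓ ^ k)) := by
        rw [pow_succ σ k, pow_succ ℓ k, mul_comm (ℓ ^ k) ℓ, pow_mul]
        show (σ ^ k) (σ z) - _ = _
        ring
      rw [h3]
      exact V.nonunits.add_mem h1 h2
  -- pigeonhole on the (finite) orbit of `x`
  have hfin : {y : Qb | ∃ h ∈ (Set.univ : Set GalQ), h x = y}.Finite := finite_orbH679 _ x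
  haveI : Finite ↥{y : Qb | ∃ h ∈ (Set.univ : Set GalQ), h x = y} := hfin.to_subtype
  obtain ⟨a, b, hab, heq⟩ := Finite.exists_ne_map_eq_of_infinite
    (fun n : ℕ => (⟨(σ ^ n) x, ⟨σ ^ n, trivial, rfl⟩⟩ :
      ↥{y : Qb | ∃ h ∈ (Set.univ : Set GalQ), h x = y}))
  have heq' : (σ ^ a) x = (σ ^ b) x := congrArg Subtype.val heq
  have key : ∀ a b : ℕ, a < b → (σ ^ a) x = (σ ^ b) x → ∃ k : ℕ, 0 < k ∧ (σ ^ k) x = x := by
    intro a b hlt h1
    refine ⟨b - a, by omega, ?_⟩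
    have h2 : σ ^ b = σ ^ a * σ ^ (b - a) := by
      rw [← pow_add]; congr 1; omega
    rw [h2] at h1
    exact ((σ ^ a).injective h1).symm
  obtain ⟨k, hk, hkx⟩ : ∃ k : ℕ, 0 < k ∧ (σ ^ k) x = x := by
    rcases lt_or_gt_of_ne hab with h | h
    · exact key a b h heq'
    · exact key b a h heq'.symm
  have h1 := hiter k x hx
  rw [hkx] at h1
  have hℓk : 2 ≤ ℓ ^ k := by
    calc 2 ≤ ℓ := hℓ.two_le
      _ = ℓ ^ 1 := (pow_one ℓ).symm
      _ ≤ ℓ ^ k := Nat.pow_le_pow_right hℓ.pos hk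
  refine ⟨ℓ ^ k - 1, by omega, ?_⟩
  have h2 : x - x ^ (ℓ ^ k) = x * (-(x ^ (ℓ ^ k - 1) - 1)) := by
    have : ℓ ^ k = (ℓ ^ k - 1) + 1 := by omega
    conv_lhs => rw [this, pow_succ]
    ring
  rw [h2] at h1
  have hxV : x ∈ V := hintV x hx
  have hpV : -(x ^ (ℓ ^ k - 1) - 1) ∈ V :=
    neg_mem (sub_mem (pow_mem hxV _) (one_mem V))
  rcases mem_nonunits_of_mulH679 V hxV hpV h1 with h | h
  · exact absurd h hxu
  · have := V.nonunits.neg_mem h
    simpa using this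

end Fermat.Agent.S19.H679

end
-- ===== PACK-END S19/H679/NT.lean

-- ===== PACK-BEGIN S59/H59/TWGalLevel.lean
section




/-!
# Row S59, leaf TW-GAL1 (helper59): finite levels and tame inertia

`r : G_ℚ → M₂(A)` a continuous matrix representation over a Noetherian local ring `A` with
`p ∈ 𝔪`, `P | q ≠ p` a place of `ℚ̄` such that `r` is residually trivial on the inertia group
`I_P`.  Using the tame structure theory of `Fermat.Agent.S56.H794` at the finite levels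
`A ⧸ 𝔪ⁿ` and Krull's intersection theorem:

* `rel_frob_h59` : `r (φ τ φ⁻¹) = r τ ^ q` for `τ ∈ I_P` and `φ` a Frobenius at `P`;
* `exists_pow_eq_of_pow_prime_h59` : if `r σ ^ p = 1`, `r τ ^ p = 1`, `r τ ≠ 1` (`σ τ ∈ I_P`) then
  `r σ = r τ ^ j` for some `j < p`.
-/

set_option autoImplicit false
set_option linter.unusedSectionVars false
set_option linter.style.haveILetI false

open IsLocalRing

namespace Fermat.Agent.S59.H59

open Fermat.Agent.S53 Fermat.Agent.S56.H794 Fermat.Agent.A2.H708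

section krull

variable {A : Type*} [CommRing A] [IsLocalRing A] [IsNoetherianRing A]

/-- Krull's intersection theorem, elementwise. -/
theorem eq_zero_of_forall_mem_pow_h59 {x : A} (hx : ∀ n : ℕ, x ∈ maximalIdeal A ^ n) : x = 0 := by
  have hbot : (⨅ n : ℕ, maximalIdeal A ^ n) = ⊥ :=
    Ideal.iInf_pow_eq_bot_of_isLocalRing (maximalIdeal A) Ideal.IsPrime.ne_top'
  have : x ∈ ⨅ n : ℕ, maximalIdeal A ^ n := by
    rw [Ideal.mem_iInf]; exact hx
  rwa [hbot, Ideal.mem_bot] at this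

/-- Krull's intersection theorem for matrices. -/
theorem mat_eq_of_forall_entIn_h59 {M N : Matrix (Fin 2) (Fin 2) A}
    (h : ∀ n : ℕ, EntIn (maximalIdeal A ^ n) (M - N)) : M = N := by
  ext i j
  rw [← sub_eq_zero]
  exact eq_zero_of_forall_mem_pow_h59 fun n => by simpa using h n i j

end krull

section level

variable {A : Type} [CommRing A] [IsLocalRing A]

/-- The reduction of `r` modulo `𝔪ⁿ`, as a homomorphism to a group. -/
noncomputable def lvlH59 (r : GQ →* M2 A) (n : ℕ) : GQ →* (M2 (A ⧸ maximalIdeal A ^ n))ˣ :=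
  (Units.map (Ideal.Quotient.mk (maximalIdeal A ^ n)).mapMatrix.toMonoidHom).comp r.toHomUnits

theorem lvlH59_val (r : GQ →* M2 A) (n : ℕ) (σ : GQ) :
    ((lvlH59 r n σ : (M2 (A ⧸ maximalIdeal A ^ n))ˣ) : M2 (A ⧸ maximalIdeal A ^ n)) =
      (r σ).map (Ideal.Quotient.mk (maximalIdeal A ^ n)) := rfl

theorem map_mk_eq_iff_h59 (I : Ideal A) (M N : M2 A) :
    M.map (Ideal.Quotient.mk I) = N.map (Ideal.Quotient.mk I) ↔ EntIn I (M - N) := by
  constructor
  · intro h i j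
    have := congrFun (congrFun h i) j
    rw [Matrix.map_apply, Matrix.map_apply] at this
    rw [Matrix.sub_apply]
    exact Ideal.Quotient.eq.mp this
  · intro h
    ext i j
    rw [Matrix.map_apply, Matrix.map_apply]
    have := h i j
    rw [Matrix.sub_apply] at this
    exact Ideal.Quotient.eq.mpr this

theorem lvlH59_eq_iff (r : GQ →* M2 A) (n : ℕ) (σ τ : GQ) :
    lvlH59 r n σ = lvlH59 r n τ ↔ EntIn (maximalIdeal A ^ n) (r σ - r τ) := by
  rw [Units.ext_iff, lvlH59_val, lvlH59_val, map_mk_eq_iff_h59]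

theorem lvlH59_eq_one_iff (r : GQ →* M2 A) (n : ℕ) (σ : GQ) :
    lvlH59 r n σ = 1 ↔ EntIn (maximalIdeal A ^ n) (r σ - 1) := by
  have := lvlH59_eq_iff r n σ 1
  rwa [map_one, map_one] at this

theorem lvlH59_finiteLevel {r : GQ →* M2 A} (hr : MatCont r) (n : ℕ) :
    FiniteLevel (lvlH59 r n) := by
  obtain ⟨L, hL, h⟩ := hr n
  exact ⟨L, hL, fun τ hτ => (lvlH59_eq_one_iff r n τ).mpr (h τ hτ)⟩

variable {p q : ℕ} {P : ValuationSubring (AlgebraicClosure ℚ)}

theorem lvlH59_pow_eq_one {r : GQ →* M2 A} (hpA : (p : A) ∈ maximalIdeal A) {τ : GQ}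
    (hτ : EntIn (maximalIdeal A) (r τ - 1)) (n : ℕ) : lvlH59 r n τ ^ p ^ n = 1 := by
  rw [← map_pow, lvlH59_eq_one_iff, map_pow]
  exact (entIn_pow_prime_pow_sub_one hpA hτ n).mono (Ideal.pow_le_pow_right (Nat.le_succ n))

theorem lvlH59_primeToResChar {r : GQ →* M2 A} (hp : p.Prime) (hpA : (p : A) ∈ maximalIdeal A)
    (hq : q.Prime) (hqp : q ≠ p) (hP : P.LiesOverPrime q)
    (hres : ∀ τ ∈ P.inertiaSubgroupIn ℚ, EntIn (maximalIdeal A) (r τ - 1)) (n : ℕ) :
    PrimeToResChar P (lvlH59 r n) := by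
  intro τ hτ
  refine ⟨p ^ n, ?_, lvlH59_pow_eq_one hpA (hres τ hτ) n⟩
  rw [Nat.cast_pow, map_pow, valuation_prime_eq_one hq hP hp (Ne.symm hqp), one_pow]

end level

section exact

variable {A : Type} [CommRing A] [IsLocalRing A] [IsNoetherianRing A]
  {p q : ℕ} {P : ValuationSubring (AlgebraicClosure ℚ)}

attribute [local instance] isAlgebraic_Qbar_h794 isGalois_Qbar_h794

/-- **The tame relation**, exactly: `r (φ τ φ⁻¹) = r τ ^ q`. -/
theorem rel_frob_h59 {r : GQ →* M2 A} (hr : MatCont r) (hp : p.Prime)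
    (hpA : (p : A) ∈ maximalIdeal A) (hq : q.Prime) (hqp : q ≠ p) (hP : P.LiesOverPrime q)
    (hres : ∀ τ ∈ P.inertiaSubgroupIn ℚ, EntIn (maximalIdeal A) (r τ - 1)) {φ τ : GQ}
    (hφ : P.IsFrobeniusAt φ q) (hτ : τ ∈ P.inertiaSubgroupIn ℚ) :
    r (φ * τ * φ⁻¹) = r τ ^ q := by
  rw [← map_pow]
  refine mat_eq_of_forall_entIn_h59 fun n => ?_
  rw [← lvlH59_eq_iff, map_pow]
  exact map_conj_frobenius (lvlH59_finiteLevel hr n)
    (lvlH59_primeToResChar hp hpA hq hqp hP hres n) hφ hτ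

/-- `r` is commutative on inertia. -/
theorem rel_comm_h59 {r : GQ →* M2 A} (hr : MatCont r) (hp : p.Prime)
    (hpA : (p : A) ∈ maximalIdeal A) (hq : q.Prime) (hqp : q ≠ p) (hP : P.LiesOverPrime q)
    (hres : ∀ τ ∈ P.inertiaSubgroupIn ℚ, EntIn (maximalIdeal A) (r τ - 1)) {σ τ : GQ}
    (hσ : σ ∈ P.inertiaSubgroupIn ℚ) (hτ : τ ∈ P.inertiaSubgroupIn ℚ) :
    r σ * r τ = r τ * r σ := by
  rw [← map_mul, ← map_mul]
  refine mat_eq_of_forall_entIn_h59 fun n => ?_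
  rw [← lvlH59_eq_iff, map_mul, map_mul]
  exact map_mul_comm_of_mem_inertiaIn (lvlH59_finiteLevel hr n)
    (lvlH59_primeToResChar hp hpA hq hqp hP hres n) hσ hτ

end exact

section cyclicLevel

variable {K L : Type*} [Field K] [Field L] [Algebra K L] [IsGalois K L]
  {B : ValuationSubring L}

/-- **Elements of prime order in the image of tame inertia** (variant of
`Fermat.Agent.S56.H794.exists_pow_eq_of_exponent_prime` with the exponent hypothesis only on
the two elements). -/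
theorem exists_pow_eq_of_pow_prime_lvl_h59 {G : Type*} [Group G] {f : (L ≃ₐ[K] L) →* G}
    (hf : FiniteLevel f) (hp : PrimeToResChar B f) (hR : RankOneOver K B) {ℓ : ℕ} (hℓ : ℓ.Prime)
    (hℓv : B.valuation (ℓ : L) = 1)
    {σ τ : L ≃ₐ[K] L} (hσ : σ ∈ B.inertiaSubgroupIn K) (hτ : τ ∈ B.inertiaSubgroupIn K)
    (hσℓ : f σ ^ ℓ = 1) (hτℓ : f τ ^ ℓ = 1)
    (hne : f τ ≠ 1) : ∃ j : ℕ, j < ℓ ∧ f σ = f τ ^ j := by
  obtain ⟨c₀, hc₀E, hζ⟩ := exists_tameHom_ne_one B hf hτ hℓv hτℓ hne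
  have hζℓ : tameHom B hτ c₀ ^ ℓ = 1 :=
    tameHom_pow_eq_one_of_map_pow_eq_one hτ hτℓ c₀ hc₀E
  have hξℓ : tameHom B hσ c₀ ^ ℓ = 1 :=
    tameHom_pow_eq_one_of_map_pow_eq_one hσ hσℓ c₀ hc₀E
  have hord : orderOf (tameHom B hτ c₀) = ℓ :=
    @orderOf_eq_prime _ _ _ ℓ (Fact.mk hℓ) hζℓ hζ
  have hprim : IsPrimitiveRoot (tameHom B hτ c₀) ℓ := hord ▸ IsPrimitiveRoot.orderOf _
  have hprim' : IsPrimitiveRoot
      ((tameHom B hτ c₀ : (IsLocalRing.ResidueField B)ˣ) : IsLocalRing.ResidueField B) ℓ :=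
    IsPrimitiveRoot.coe_units_iff.mpr hprim
  haveI : NeZero ℓ := ⟨hℓ.ne_zero⟩
  obtain ⟨j, hj, hjξ⟩ := hprim'.eq_pow_of_pow_eq_one
    (ξ := ((tameHom B hσ c₀ : (IsLocalRing.ResidueField B)ˣ) : IsLocalRing.ResidueField B))
    (by rw [← Units.val_pow_eq_pow_val, hξℓ, Units.val_one])
  have hjξ' : tameHom B hτ c₀ ^ j = tameHom B hσ c₀ :=
    Units.ext (by rw [Units.val_pow_eq_pow_val]; exact hjξ)
  refine ⟨j, hj, ?_⟩
  have hc₀U : c₀ ∉ B.unitGroup := by
    intro h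
    exact hζ (tameHom_eq_one_of_valuation_eq_one B hτ c₀
      ((ValuationSubring.mem_unitGroup_iff B c₀).mp h))
  have hγ : σ * (τ ^ j)⁻¹ ∈ B.inertiaSubgroupIn K := mul_mem hσ (inv_mem (pow_mem hτ j))
  have h1 : f (σ * (τ ^ j)⁻¹) = 1 := by
    apply map_eq_one_of_tameHom_eq_one hf hp hγ
    intro c hcE
    rw [tameHom_mul B hσ (inv_mem (pow_mem hτ j)), tameHom_inv B (pow_mem hτ j),
      tameHom_pow B hτ]
    obtain ⟨a, b, hab, hmem⟩ := exists_coprime_zpow_div_mem_unitGroup (K := K) B hR c c₀ hc₀U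
    have hv : B.valuation (((c ^ a / c₀ ^ b : Lˣ)) : L) = 1 :=
      (ValuationSubring.mem_unitGroup_iff B _).mp hmem
    have hxa : tameHom B hσ c ^ a = tameHom B hσ c₀ ^ b := by
      have := tameHom_eq_one_of_valuation_eq_one B hσ _ hv
      rwa [map_div, map_zpow, map_zpow, div_eq_one] at this
    have hya : tameHom B hτ c ^ a = tameHom B hτ c₀ ^ b := by
      have := tameHom_eq_one_of_valuation_eq_one B hτ _ hv
      rwa [map_div, map_zpow, map_zpow, div_eq_one] at this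
    have hxℓ : tameHom B hσ c ^ ℓ = 1 :=
      tameHom_pow_eq_one_of_map_pow_eq_one hσ hσℓ c hcE
    have hyℓ : tameHom B hτ c ^ ℓ = 1 :=
      tameHom_pow_eq_one_of_map_pow_eq_one hτ hτℓ c hcE
    set x := tameHom B hσ c with hx
    set y := tameHom B hτ c with hy
    set ζ := tameHom B hτ c₀ with hζdef
    set ξ := tameHom B hσ c₀ with hξdef
    have hua : (x * (y ^ j)⁻¹) ^ a = 1 := by
      rw [mul_zpow, inv_zpow, ← zpow_natCast y j, ← zpow_mul, mul_comm (j : ℤ) a, zpow_mul,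
        hxa, hya, ← hjξ', ← zpow_natCast ζ j, ← zpow_mul, ← zpow_mul, mul_comm (j : ℤ) b,
        mul_inv_cancel]
    have huℓ : (x * (y ^ j)⁻¹) ^ (ℓ : ℤ) = 1 := by
      rw [zpow_natCast, mul_pow, inv_pow, ← pow_mul, mul_comm j ℓ, pow_mul, hxℓ, hyℓ, one_pow,
        inv_one, mul_one]
    by_cases hdvd : (ℓ : ℤ) ∣ a
    · exfalso
      obtain ⟨a', ha'⟩ := hdvd
      have hζb : ζ ^ b = 1 := by
        rw [← hya, ha', zpow_mul, zpow_natCast, hyℓ, one_zpow]
      have hcop : IsCoprime (ℓ : ℤ) b := by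
        rw [ha'] at hab
        exact hab.of_mul_left_left
      have hζℓ' : ζ ^ (ℓ : ℤ) = 1 := by rw [zpow_natCast]; exact hζℓ
      exact hζ (eq_one_of_zpow_eq_one_of_isCoprime ζ hcop hζℓ' hζb)
    · have hcop : IsCoprime a (ℓ : ℤ) := by
        have hprime : Prime (ℓ : ℤ) := Nat.prime_iff_prime_int.mp hℓ
        exact (hprime.coprime_iff_not_dvd.mpr hdvd).symm
      exact eq_one_of_zpow_eq_one_of_isCoprime _ hcop hua huℓ
  rw [map_mul, map_inv, map_pow, mul_inv_eq_one] at h1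
  exact h1

end cyclicLevel

section cyclicExact

variable {A : Type} [CommRing A] [IsLocalRing A] [IsNoetherianRing A]
  {p q : ℕ} {P : ValuationSubring (AlgebraicClosure ℚ)}

attribute [local instance] isAlgebraic_Qbar_h794 isGalois_Qbar_h794

/-- **Elements of order `p` in the image of inertia**, exactly. -/
theorem exists_pow_eq_of_pow_prime_h59 {r : GQ →* M2 A} (hr : MatCont r) (hp : p.Prime)
    (hpA : (p : A) ∈ maximalIdeal A) (hq : q.Prime) (hqp : q ≠ p) (hP : P.LiesOverPrime q)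
    (hres : ∀ τ ∈ P.inertiaSubgroupIn ℚ, EntIn (maximalIdeal A) (r τ - 1)) {σ τ : GQ}
    (hσ : σ ∈ P.inertiaSubgroupIn ℚ) (hτ : τ ∈ P.inertiaSubgroupIn ℚ)
    (hσp : r σ ^ p = 1) (hτp : r τ ^ p = 1) (hne : r τ ≠ 1) :
    ∃ j : ℕ, j < p ∧ r σ = r τ ^ j := by
  -- a level where `τ` is visible
  obtain ⟨n₁, hn₁⟩ : ∃ n₁ : ℕ, lvlH59 r n₁ τ ≠ 1 := by
    by_contra hcon
    push Not at hcon
    apply hne
    refine mat_eq_of_forall_entIn_h59 fun n => ?_
    exact (lvlH59_eq_one_iff r n τ).mp (hcon n)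
  have hlvlp : ∀ (n : ℕ) (ρ : GQ), r ρ ^ p = 1 → lvlH59 r n ρ ^ p = 1 := by
    intro n ρ h
    rw [← map_pow, lvlH59_eq_one_iff, map_pow, h, sub_self]
    exact EntIn.zero _
  have hpv : P.valuation ((p : ℕ) : AlgebraicClosure ℚ) = 1 :=
    valuation_prime_eq_one hq hP hp (Ne.symm hqp)
  have hlev : ∀ n : ℕ, lvlH59 r n τ ≠ 1 → ∃ j : ℕ, j < p ∧ lvlH59 r n σ = lvlH59 r n τ ^ j :=
    fun n hn => exists_pow_eq_of_pow_prime_lvl_h59 (lvlH59_finiteLevel hr n)
      (lvlH59_primeToResChar hp hpA hq hqp hP hres n) (rankOneOver_rat P hq hP) hp hpv hσ hτ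
      (hlvlp n σ hσp) (hlvlp n τ hτp) hn
  obtain ⟨j, hj, hj₁⟩ := hlev n₁ hn₁
  refine ⟨j, hj, ?_⟩
  rw [← map_pow]
  refine mat_eq_of_forall_entIn_h59 fun n => ?_
  -- it suffices to treat the levels `n ≥ n₁`
  suffices hbig : ∀ m : ℕ, n₁ ≤ m → EntIn (maximalIdeal A ^ m) (r σ - r (τ ^ j)) by
    exact (hbig (max n n₁) (le_max_right _ _)).mono (Ideal.pow_le_pow_right (le_max_left _ _))
  intro m hm
  have hmτ : lvlH59 r m τ ≠ 1 := by
    intro h
    apply hn₁
    rw [lvlH59_eq_one_iff] at h ⊢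
    exact h.mono (Ideal.pow_le_pow_right hm)
  obtain ⟨j', hj', hjm⟩ := hlev m hmτ
  -- compare at level `n₁`
  have h1 : lvlH59 r n₁ σ = lvlH59 r n₁ τ ^ j' := by
    rw [← map_pow, lvlH59_eq_iff] at hjm ⊢
    exact hjm.mono (Ideal.pow_le_pow_right hm)
  have hord : orderOf (lvlH59 r n₁ τ) = p :=
    @orderOf_eq_prime _ _ _ p (Fact.mk hp) (hlvlp n₁ τ hτp) hn₁
  have h2 : lvlH59 r n₁ τ ^ j = lvlH59 r n₁ τ ^ j' := by rw [← hj₁, h1]
  have h3 : j ≡ j' [MOD p] := by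
    rw [← hord]
    exact pow_eq_pow_iff_modEq.mp h2
  have h4 : j = j' := Nat.ModEq.eq_of_lt_of_lt h3 hj hj'
  rw [← lvlH59_eq_iff, map_pow, h4]
  exact hjm

end cyclicExact

end Fermat.Agent.S59.H59

end
-- ===== PACK-END S59/H59/TWGalLevel.lean

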