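import Mathlib
import Fermat.Prelude.Def_ModularForm_HeckeOperator
import Fermat.Prelude.Def_ModularCurve_X0ModL
import Fermat.Prelude.Thm_ModularCurve_coeffMap_qExpand
import Fermat.Agent.Pack.S43MC.G0E15L0
import Fermat.Agent.Pack.S43MC.G0E7L0
import Fermat.Agent.Pack.S44C.G0E19L0
import Fermat.Agent.Pack.S44C.G0E17L3
import Fermat.Agent.Pack.S44C.G0E0L0
import Fermat.Agent.Pack.S43MC.G0E15L1
import Fermat.Agent.Pack.S43MC.G0E13L3
import Fermat.Agent.Pack.S43MC.G0E15L2
import Fermat.Agent.Pack.S43MC.G0E14L0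
import Fermat.Agent.Pack.S43MC.G0E2L2
import Fermat.Agent.Pack.S43MC.G0E2L3
import Fermat.Agent.Pack.S44C.G0E0L3
import Fermat.Agent.Pack.S43MC.G0E14L1
import Fermat.Agent.Pack.S44C.G0E17L1
import Fermat.Agent.Pack.S43MC.G0E10L2
import Fermat.Agent.Pack.S43MC.G0E10L3
import Fermat.Agent.Pack.S43MC.G0E10L1
import Fermat.Agent.Pack.S43MC.G0E14L3
import Fermat.Agent.Pack.Fast891

-- ===== PACK-BEGIN Lib/Newform/H743/QSeriesD.lean
section





/-!
# NEWFORM library (helper743), part 4: `q`-series bookkeeping at function level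

`HasQ c F` : `F(τ) = ∑ c_n q^n` for all `τ`, `q = e^{2πiτ}`.  Linear operations, the substitution
`τ ↦ d τ`, uniqueness of the coefficients, and the `q`-series of a cuspidal `T`-invariant function.
-/

set_option autoImplicit false

open UpperHalfPlane ModularForm Function Complex CongruenceSubgroup Matrix.SpecialLinearGroup
open scoped MatrixGroups ModularForm Manifold Topology Real

namespace Fermat.Agent.Lib.Newform.H743

open Fermat.Agent.Lib.Newform.H803

noncomputable section

/-- `F(τ) = ∑ c_n e^{2πi n τ}`. -/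
def HasQ (c : ℕ → ℂ) (F : ℍ → ℂ) : Prop :=
  ∀ τ : ℍ, HasSum (fun n : ℕ => c n * Function.Periodic.qParam 1 τ ^ n) (F τ)

theorem HasQ.congr {c c' : ℕ → ℂ} {F : ℍ → ℂ} (h : HasQ c F) (hc : ∀ n, c n = c' n) :
    HasQ c' F := by
  have : c = c' := funext hc
  rwa [← this]

theorem HasQ.add {c c' : ℕ → ℂ} {F F' : ℍ → ℂ} (h : HasQ c F) (h' : HasQ c' F') :
    HasQ (fun n => c n + c' n) (F + F') := by
  intro τ
  have := (h τ).add (h' τ)
  simpa [add_mul] using this

theorem HasQ.sub {c c' : ℕ → ℂ} {F F' : ℍ → ℂ} (h : HasQ c F) (h' : HasQ c' F') :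
    HasQ (fun n => c n - c' n) (F - F') := by
  intro τ
  have := (h τ).sub (h' τ)
  simpa [sub_mul] using this

theorem HasQ.smul {c : ℕ → ℂ} {F : ℍ → ℂ} (a : ℂ) (h : HasQ c F) :
    HasQ (fun n => a * c n) (a • F) := by
  intro τ
  have := (h τ).mul_left a
  simpa [mul_assoc] using this

theorem HasQ.zero : HasQ (fun _ => 0) (0 : ℍ → ℂ) := by
  intro τ
  simpa using (hasSum_zero : HasSum (fun _ : ℕ => (0 : ℂ)) 0)

theorem HasQ.sum {ι : Type*} (s : Finset ι) {c : ι → ℕ → ℂ} {F : ι → ℍ → ℂ}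
    (h : ∀ i ∈ s, HasQ (c i) (F i)) :
    HasQ (fun n => ∑ i ∈ s, c i n) (∑ i ∈ s, F i) := by
  classical
  induction s using Finset.induction_on with
  | empty => simp [HasQ.zero]
  | insert a s ha ih =>
    have h1 := (h a (Finset.mem_insert_self a s)).add
      (ih fun i hi => h i (Finset.mem_insert_of_mem hi))
    rw [Finset.sum_insert ha]
    refine h1.congr fun n => ?_
    rw [Finset.sum_insert ha]

theorem cuspFunction_one_zero : cuspFunction 1 (0 : ℍ → ℂ) = 0 := by
  simpa [cuspFunction, Function.Periodic.cuspFunction]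
    using! (tendsto_const_nhds.mono_left nhdsWithin_le_nhds).limUnder_eq

/-- Uniqueness of the coefficients: a `q`-series representing `0` is `0`. -/
theorem HasQ.eq_zero_of_zero {c : ℕ → ℂ} (h : HasQ c (0 : ℍ → ℂ)) (n : ℕ) : c n = 0 := by
  have han : AnalyticAt ℂ (cuspFunction 1 (0 : ℍ → ℂ)) 0 := by
    rw [cuspFunction_one_zero]
    exact analyticAt_const
  have h1 := UpperHalfPlane.hasFPowerSeriesOnBall_cuspFunction (f := (0 : ℍ → ℂ)) (c := c)
    one_pos han h
  rw [cuspFunction_one_zero] at h1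
  have h3 := h1.hasFPowerSeriesAt.eq_zero
  have h4 := congrArg (fun p => FormalMultilinearSeries.coeff p n) h3
  simp only [FormalMultilinearSeries.coeff_ofScalars] at h4
  rw [h4]
  simp [FormalMultilinearSeries.coeff]

theorem HasQ.unique {c c' : ℕ → ℂ} {F : ℍ → ℂ} (h : HasQ c F) (h' : HasQ c' F) (n : ℕ) :
    c n = c' n := by
  have h1 := h.sub h'
  rw [sub_self] at h1
  exact sub_eq_zero.mp (h1.eq_zero_of_zero n)

/-- The `q`-series of `τ ↦ H (d τ)`. -/
theorem HasQ.comp_diag {c : ℕ → ℂ} {H : ℍ → ℂ} (h : HasQ c H) {d : ℕ} (hd : d ≠ 0) :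
    HasQ (fun n => if d ∣ n then c (n / d) else 0) (fun τ => H (heckeDiagMatrix d • τ)) := by
  intro τ
  have h1 := h (heckeDiagMatrix d • τ)
  have hq : Function.Periodic.qParam 1 ((heckeDiagMatrix d • τ : ℍ) : ℂ) =
      Function.Periodic.qParam 1 (τ : ℂ) ^ d := by
    rw [coe_heckeDiagMatrix_smul hd, Function.Periodic.qParam, Function.Periodic.qParam,
      ← Complex.exp_nat_mul]
    congr 1
    push_cast
    ring
  rw [hq] at h1
  have hinj : Function.Injective (fun m : ℕ => d * m) :=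
    fun a b hab => Nat.eq_of_mul_eq_mul_left (Nat.pos_of_ne_zero hd) hab
  refine (hinj.hasSum_iff ?_).mp ?_
  · intro n hn
    have : ¬ d ∣ n := fun ⟨m, hm⟩ => hn ⟨m, hm.symm⟩
    simp [this]
  · have h3 : ((fun n : ℕ => (if d ∣ n then c (n / d) else 0) *
        Function.Periodic.qParam 1 (τ : ℂ) ^ n) ∘ fun m : ℕ => d * m) =
        fun m : ℕ => c m * (Function.Periodic.qParam 1 (τ : ℂ) ^ d) ^ m := by
      funext m
      simp only [Function.comp_apply, dvd_mul_right, if_true,
        Nat.mul_div_cancel_left m (Nat.pos_of_ne_zero hd), pow_mul]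
    rw [h3]
    exact h1

/-- A cuspidal function is zero at `i∞`. -/
theorem isZeroAtImInfty_of_isCuspidal {k : ℤ} {F : ℍ → ℂ} (hF : IsCuspidal k F) :
    IsZeroAtImInfty F := by
  have h1 : IsCusp OnePoint.infty 𝒮ℒ := by
    rw [isCusp_SL2Z_iff]
    exact ⟨OnePoint.infty, rfl⟩
  exact OnePoint.isZeroAt_infty_iff.mp (hF.2 _ h1)

/-- `T`-invariance gives `1`-periodicity. -/
theorem periodic_of_slash_T {k : ℤ} {F : ℍ → ℂ} (hT : F ∣[k] ModularGroup.T = F) :
    Periodic (F ∘ ofComplex) (1 : ℝ) := by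
  apply periodic_of_apply_vadd
  intro τ
  have h1 := congrFun hT τ
  rw [ModularForm.SL_slash_apply] at h1
  have hden : denom ModularGroup.T τ = 1 := by
    rw [ModularGroup.denom_apply]
    simp [ModularGroup.T]
  rw [hden, one_zpow, mul_one] at h1
  rw [← h1]
  congr 1
  ext
  have h2 := ModularGroup.coe_T_zpow_smul_eq (z := τ) (n := 1)
  rw [zpow_one] at h2
  rw [h2, coe_vadd]
  push_cast
  ring

/-- The `q`-series of a cuspidal `1`-periodic function. -/
theorem hasQ_of_isCuspidal {k : ℤ} {F : ℍ → ℂ} (hF : IsCuspidal k F)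
    (hper : Periodic (F ∘ ofComplex) (1 : ℝ)) :
    HasQ (fun n => (qExpansion 1 F).coeff n) F := by
  intro τ
  have := UpperHalfPlane.hasSum_qExpansion one_pos hper hF.1
    (isZeroAtImInfty_of_isCuspidal hF).isBoundedAtImInfty τ
  simpa [smul_eq_mul] using this

theorem qExpansion_coeff_zero_of_isCuspidal {k : ℤ} {F : ℍ → ℂ} (hF : IsCuspidal k F)
    (hper : Periodic (F ∘ ofComplex) (1 : ℝ)) : (qExpansion 1 F).coeff 0 = 0 := by
  have han := UpperHalfPlane.analyticAt_cuspFunction_zero one_pos hper hF.1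
    (isZeroAtImInfty_of_isCuspidal hF).isBoundedAtImInfty
  rw [UpperHalfPlane.qExpansion_coeff_zero one_pos han hper]
  exact (isZeroAtImInfty_of_isCuspidal hF).valueAtInfty_eq_zero

/-- A `Γ₀(N)`-invariant function is `1`-periodic. -/
theorem periodic_of_slInv_Gamma0 {k : ℤ} {N : ℕ} {F : ℍ → ℂ} (hF : SlInv k (Gamma0 N) F) :
    Periodic (F ∘ ofComplex) (1 : ℝ) := by
  apply periodic_of_slash_T (k := k)
  have := hF (ModularGroup.T ^ (1 : ℤ)) (T_zpow_mem_Gamma0 N 1)
  rwa [zpow_one] at this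

end

end Fermat.Agent.Lib.Newform.H743

end
-- ===== PACK-END Lib/Newform/H743/QSeriesD.lean

-- ===== PACK-BEGIN S35/G/H516/KronFrob.lean
section






/-!
# S35 (G'), leaf KRON-FROB (helper516)

* `kronFrob A E M q w : G.KronFrobStatement A E M q w` (`Fermat/Agent/S35/G/SpecLevel.lean`,
  verbatim): for a Frobenius lift `s` at `A` stabilising `E` and `a ∈ V∞_M`,
  `β (σ a) ≡ (α a) ^ q mod w V∞`.

Generic part (any field `L ⊇ ℚ`, valuation subring `A` with residue characteristic `q`,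
`σ` with `σ A ⊆ A` and `σ a ≡ a ^ q mod 𝔪_A`):

* `pow_eq_qExpand_frob` : in characteristic `q`, `y ^ q = (Frob y)(t ^ q)`;
* `red_qExpand_coeffMap` : `red ((σ U)(t ^ q)) = (red U) ^ q` for integral series `U`;
* `isGaussInt_kron` : `((σ f)(t ^ q) - f ^ q) / w` is Gauss-integral (at the higher level) if `f`
  is Gauss-integral;
* `sub_pow_mem_nonunits_of_isFrobeniusAt` : `s z - z ^ q ∈ 𝔪_A` for `z ∈ A`.
-/

set_option autoImplicit false
set_option linter.unusedSectionVars false
set_option synthInstance.maxHeartbeats 400000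
set_option maxHeartbeats 1600000

noncomputable section

namespace Fermat.Agent.S35.G.H516

open ModularCurve HahnSeries Fermat.Agent.A2

/-! ## Frobenius on Laurent series in characteristic `q` -/

/-- In characteristic `q`: `(∑ cₙ tⁿ) ^ q = ∑ cₙ ^ q t ^ (q n)`. -/
theorem pow_eq_qExpand_frob {k : Type*} [Field k] (q : ℕ) [hq : Fact q.Prime] [CharP k q]
    [NeZero q] (y : LaurentSeries k) :
    y ^ q = qExpand k q (coeffMap (frobenius k q) y) := by
  have hps : ∀ u : PowerSeries k, u ^ q = (u.map (frobenius k q)).expand q hq.out.ne_zero := by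
    intro u
    have h := MvPowerSeries.map_frobenius_expand (σ := Unit) (R := k) q hq.out.ne_zero (f := u)
    rw [← h]
    exact PowerSeries.map_expand q hq.out.ne_zero (frobenius k q) u
  conv_lhs => rw [← LaurentSeries.single_order_mul_powerSeriesPart y]
  conv_rhs => rw [← LaurentSeries.single_order_mul_powerSeriesPart y]
  rw [mul_pow, map_mul (coeffMap (frobenius k q)), map_mul (qExpand k q), coeffMap_single,
    RingHom.map_one, qExpand_single, HahnSeries.single_pow, one_pow, coeffMap_ofPowerSeries,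
    Fermat.Agent.A2.H528.qExpand_ofPowerSeries, ← map_pow, hps, nsmul_eq_mul]

/-! ## Generic part -/

section generic

variable {L : Type*} [Field L] [Algebra ℚ L] {A : ValuationSubring L}
  (q : ℕ) [Fact q.Prime] [NeZero q]

/-- `red ((ρ U)(t ^ q)) = (red U) ^ q` if `ρ` induces the `q`-Frobenius on the residue field. -/
theorem red_qExpand_coeffMap [CharP (IsLocalRing.ResidueField A) q] (ρ : A →+* A)
    (hρ : ∀ a : A, IsLocalRing.residue A (ρ a) = (IsLocalRing.residue A a) ^ q)
    (U : LaurentSeries A) :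
    H708.red A (qExpand A q (coeffMap ρ U)) = (H708.red A U) ^ q := by
  rw [pow_eq_qExpand_frob q, H708.red, coeffMap_qExpand]
  congr 1
  ext n
  rw [coeffMap_coeff, coeffMap_coeff, coeffMap_coeff, coeffMap_coeff, hρ, frobenius_def]

theorem incl_qExpand_coeffMap (σ : L ≃ₐ[ℚ] L) (hσA : ∀ a ∈ A, σ a ∈ A) (U : LaurentSeries A) :
    H708.incl A (qExpand A q (coeffMap (Mod.H549.resA A σ hσA) U)) =
      qExpand L q (coeffMap (σ : L →+* L) (H708.incl A U)) := by
  rw [H708.incl, coeffMap_qExpand]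
  exact congrArg (qExpand L q) (Mod.H549.incl_coeffMap_resA σ hσA U)

/-- **Kronecker congruence with explicit Frobenius twist, series form.** -/
theorem isGaussInt_kron [CharP (IsLocalRing.ResidueField A) q]
    (F₀ F₁ : IntermediateField ℚ (LaurentSeries ℚ))
    (σ : L ≃ₐ[ℚ] L) (hσA : ∀ a ∈ A, σ a ∈ A)
    (hfrob : ∀ a ∈ A, σ a - a ^ q ∈ A.nonunits)
    (hα : ∀ x ∈ laurentBaseChange L F₀, x ∈ laurentBaseChange L F₁)
    (hβ : ∀ x ∈ laurentBaseChange L F₀, qExpand L q x ∈ laurentBaseChange L F₁)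
    (w : A) (hw0 : w ≠ 0) (hw : ∀ a : A, (a : L) ∈ A.nonunits → w ∣ a)
    {f : LaurentSeries L} (hf : H708.IsGaussInt A F₀ f) :
    H708.IsGaussInt A F₁
      ((qExpand L q (coeffMap (σ : L →+* L) f) - f ^ q) * (H708.cst (w : L))⁻¹) := by
  obtain ⟨U₁, U₂, hred, hmem, heq⟩ := hf
  have hρ : ∀ a : A, IsLocalRing.residue A (Mod.H549.resA A σ hσA a) =
      (IsLocalRing.residue A a) ^ q := by
    intro a
    rw [← map_pow, ← sub_eq_zero, ← map_sub, IsLocalRing.residue_eq_zero_iff,
      ← ValuationSubring.coe_mem_nonunits_iff]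
    exact hfrob a a.2
  set V₁ : LaurentSeries A := qExpand A q (coeffMap (Mod.H549.resA A σ hσA) U₁) with hV₁
  set V₂ : LaurentSeries A := qExpand A q (coeffMap (Mod.H549.resA A σ hσA) U₂) with hV₂
  have e1 : qExpand L q (coeffMap (σ : L →+* L) f) * H708.incl A V₂ = H708.incl A V₁ := by
    rw [hV₁, hV₂, incl_qExpand_coeffMap, incl_qExpand_coeffMap, ← map_mul, ← map_mul, heq]
  have e2 : f ^ q * H708.incl A (U₂ ^ q) = H708.incl A (U₁ ^ q) := by
    rw [map_pow, map_pow, ← mul_pow, heq]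
  have hredV₂ : H708.red A V₂ = (H708.red A U₂) ^ q := red_qExpand_coeffMap q _ hρ U₂
  have hredV₁ : H708.red A V₁ = (H708.red A U₁) ^ q := red_qExpand_coeffMap q _ hρ U₁
  have hred0 : H708.red A (V₁ * U₂ ^ q - U₁ ^ q * V₂) = 0 := by
    rw [map_sub, map_mul, map_mul, map_pow, map_pow, hredV₁, hredV₂, sub_self]
  have hdiv : ∀ n, w ∣ (V₁ * U₂ ^ q - U₁ ^ q * V₂).coeff n := by
    intro n
    refine hw _ ?_
    rw [ValuationSubring.mem_nonunits_iff]
    exact (H708.red_eq_zero_iff A _).mp hred0 n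
  obtain ⟨U₃, hU₃⟩ := Mod.H549.exists_cstA_mul_eq w hw0 _ hdiv
  have hwL : (w : L) ≠ 0 := fun h => hw0 (Subtype.ext h)
  have hcst : H708.cst (w : L) ≠ 0 := H708.cst_ne_zero hwL
  refine ⟨U₃, V₂ * U₂ ^ q, ?_, ?_, ?_⟩
  · rw [map_mul, map_pow, hredV₂]
    exact mul_ne_zero (pow_ne_zero _ hred) (pow_ne_zero _ hred)
  · rw [map_mul, map_pow]
    refine mul_mem ?_ (hα _ (pow_mem hmem q))
    rw [hV₂, incl_qExpand_coeffMap]
    exact hβ _ (coeffMap_mem_laurentBaseChange σ hmem)
  · have key : H708.cst (w : L) * H708.incl A U₃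
        = (qExpand L q (coeffMap (σ : L →+* L) f) - f ^ q) * H708.incl A (V₂ * U₂ ^ q) := by
      rw [← H708.incl_cstA, ← map_mul, hU₃, map_sub, map_mul, map_mul, map_mul, ← e1, ← e2]
      ring
    rw [mul_right_comm, ← key, mul_comm (H708.cst (w : L)), mul_assoc,
      mul_inv_cancel₀ hcst, mul_one]

end generic

/-! ## Frobenius elements -/

/-- A Frobenius element at `A` is congruent to the `q`-th power map on `A`. -/
theorem sub_pow_mem_nonunits_of_isFrobeniusAt {K L : Type*} [Field K] [Field L] [Algebra K L]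
    (A : ValuationSubring L) {q : ℕ} {φ : L ≃ₐ[K] L} (hφ : A.IsFrobeniusAt φ q) {z : L}
    (hz : z ∈ A) : φ z - z ^ q ∈ A.nonunits := by
  obtain ⟨hσD, hF⟩ := hφ
  have h2 := hF (IsLocalRing.residue A ⟨z, hz⟩)
  rw [← IsLocalRing.ResidueField.residue_smul, ← map_pow] at h2
  have h3 : ((⟨φ, hσD⟩ : A.decompositionSubgroup K) • (⟨z, hz⟩ : A)) - (⟨z, hz⟩ : A) ^ q
      ∈ IsLocalRing.maximalIdeal A := by
    rw [← Ideal.Quotient.eq]
    exact h2
  rw [ValuationSubring.valuation_lt_one_iff] at h3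
  exact A.mem_nonunits_iff.mpr h3

section inst

variable (A : ValuationSubring _root_.Fermat.Agent.S35.G.Qb) (E : IntermediateField ℚ _root_.Fermat.Agent.S35.G.Qb)

/-- The restriction to `E` of an element of the decomposition group of `A` maps `R_E = A ∩ E`
into itself. -/
theorem resE_mem_RE (s : _root_.Fermat.Agent.S35.G.Qb ≃ₐ[ℚ] _root_.Fermat.Agent.S35.G.Qb) (hs : StableUnder E s)
    (hsD : s ∈ A.decompositionSubgroup ℚ) :
    ∀ a ∈ Mod.RE A E, (Mod.resE E s hs) a ∈ Mod.RE A E := by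
  intro a ha
  rw [ValuationSubring.mem_comap] at ha ⊢
  have e : algebraMap ↥E _root_.Fermat.Agent.S35.G.Qb (Mod.resE E s hs a) = s (algebraMap ↥E _root_.Fermat.Agent.S35.G.Qb a) := rfl
  rw [e]
  exact H708.apply_mem_of_mem_decomposition A hsD ha

theorem natCast_mem_nonunits_RE {q : ℕ} (hA : A.LiesOverPrime q) :
    (q : E) ∈ (Mod.RE A E).nonunits := by
  rw [Mod.H549.mem_nonunits_comap, map_natCast]
  exact hA

theorem charP_residueField_RE {q : ℕ} (hq : q.Prime) (hA : A.LiesOverPrime q) :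
    CharP (IsLocalRing.ResidueField (Mod.RE A E)) q := by
  rw [CharP.charP_iff_prime_eq_zero hq]
  have h1 : IsLocalRing.residue (Mod.RE A E) ((q : ℕ) : Mod.RE A E) = 0 := by
    rw [IsLocalRing.residue_eq_zero_iff, ← ValuationSubring.coe_mem_nonunits_iff]
    have : (((q : ℕ) : Mod.RE A E) : E) = (q : E) := by simp
    rw [this]
    exact natCast_mem_nonunits_RE A E hA
  rw [map_natCast] at h1
  exact h1

/-- The restriction to `E` of a Frobenius lift at `A` is congruent to the `q`-th power map on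
`R_E`. -/
theorem resE_sub_pow_mem_nonunits {q : ℕ} (s : _root_.Fermat.Agent.S35.G.Qb ≃ₐ[ℚ] _root_.Fermat.Agent.S35.G.Qb) (hs : StableUnder E s)
    (hF : A.IsFrobeniusAt s q) :
    ∀ a ∈ Mod.RE A E, (Mod.resE E s hs) a - a ^ q ∈ (Mod.RE A E).nonunits := by
  intro a ha
  rw [ValuationSubring.mem_comap] at ha
  rw [Mod.H549.mem_nonunits_comap, map_sub, map_pow]
  have e : algebraMap ↥E _root_.Fermat.Agent.S35.G.Qb (Mod.resE E s hs a) = s (algebraMap ↥E _root_.Fermat.Agent.S35.G.Qb a) := rfl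
  rw [e]
  exact sub_pow_mem_nonunits_of_isFrobeniusAt A hF ha

theorem dvd_of_mem_nonunits_RE (w : Mod.RE A E) (hdvr : IsDiscreteValuationRing (Mod.RE A E))
    (hw : Irreducible w) :
    ∀ a : Mod.RE A E, (a : E) ∈ (Mod.RE A E).nonunits → w ∣ a := by
  intro a ha
  rw [ValuationSubring.coe_mem_nonunits_iff, hw.maximalIdeal_eq, Ideal.mem_span_singleton] at ha
  exact ha

end inst

/-- **Leaf KRON-FROB** (`G.KronFrobStatement`, verbatim). -/
theorem kronFrob (A : ValuationSubring _root_.Fermat.Agent.S35.G.Qb) (E : IntermediateField ℚ _root_.Fermat.Agent.S35.G.Qb) (M q : ℕ) [NeZero M]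
    [NeZero q] (w : Mod.RE A E) : KronFrobStatement A E M q w := by
  intro hS VM V hVM hV s hs hF a ha
  have hq := hS.q_prime
  have : Fact q.Prime := ⟨hq⟩
  have := charP_residueField_RE A E hq hS.lies_over
  have hsD := hF.mem_decompositionSubgroup
  have key := isGaussInt_kron (A := Mod.RE A E) q (modularFunctionFieldFull M)
    (modularFunctionFieldFull (M * q)) (Mod.resE E s hs) (resE_mem_RE A E s hs hsD)
    (resE_sub_pow_mem_nonunits A E s hs hF)
    (fun x hx => by
      have := (Mod.αE E M q ⟨x, hx⟩).2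
      rwa [coe_heckeAlphaBar] at this)
    (fun x hx => by
      have := (Mod.βE E M q ⟨x, hx⟩).2
      rwa [coe_heckeBetaBar] at this)
    w hS.unif.ne_zero (dvd_of_mem_nonunits_RE A E w hS.dvr hS.unif) ((hVM a).mp ha)
  have hcoe : (((Mod.βE E M q (actE E M (Mod.resE E s hs) a) - (Mod.αE E M q a) ^ q) *
      (Mod.cE A E (M * q) w)⁻¹ : Mod.FE E (M * q)) : LaurentSeries E) =
      (qExpand E q (coeffMap ((Mod.resE E s hs : E ≃ₐ[ℚ] E) : E →+* E) (a : LaurentSeries E)) -
        (a : LaurentSeries E) ^ q) * (H708.cst ((w : E)))⁻¹ := by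
    rw [IntermediateField.coe_mul, IntermediateField.coe_inv, AddSubgroupClass.coe_sub,
      IntermediateField.coe_pow, coe_heckeBetaBar, coe_heckeAlphaBar,
      coe_arithmeticRingAut_apply]
    rfl
  rw [Mod.InW, hV, hcoe]
  exact key

end Fermat.Agent.S35.G.H516

end

end
-- ===== PACK-END S35/G/H516/KronFrob.lean

-- ===== PACK-BEGIN S25/H507/TwoCharts.lean
section


set_option autoImplicit false

universe u

open AlgebraicGeometry CategoryTheory TopologicalSpace Opposite

namespace Fermat.Agent.S25.H507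

variable {k : Type u} [Field k] {X : Scheme.{u}} (c : X ⟶ Spec (CommRingCat.of k))

lemma secLineHom_eq_comp (U : X.Opens) (x : Γ(X, U)) :
    secLineHom c U x =
      U.topIso.hom.hom.comp (lineRingHom (U.ι ≫ c) (U.topIso.inv x)) :=
  RingHom.ext fun p => (topIso_hom_lineRingHom c U x p).symm

lemma secLineHom_finite_of_lineRingHom_finite (U : X.Opens) (x : Γ(X, U))
    (h : (lineRingHom (U.ι ≫ c) (U.topIso.inv x)).Finite) : (secLineHom c U x).Finite := by
  rw [secLineHom_eq_comp]
  refine RingHom.Finite.comp (RingHom.Finite.of_surjective _ ?_) h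
  exact (ConcreteCategory.bijective_of_isIso U.topIso.hom).2

lemma secLineHom_injective_of_lineRingHom_injective (U : X.Opens) (x : Γ(X, U))
    (h : Function.Injective (lineRingHom (U.ι ≫ c) (U.topIso.inv x))) :
    Function.Injective (secLineHom c U x) := by
  rw [secLineHom_eq_comp]
  exact (ConcreteCategory.bijective_of_isIso U.topIso.hom).1.comp h

variable [IsIntegral X]

/-- **Two charts from a nonconstant rational function.** -/
theorem two_charts_of_not_mem_range [IsAlgClosed k] [IsProper c]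
    (hval : ∀ P : X, ValuationRing (X.presheaf.stalk P)) {t : X.functionField}
    (ht : t ∉ Set.range (kToK c)) :
    IsAffineOpen (regOpen X t) ∧ IsAffineOpen (regOpen X t⁻¹) ∧
      regOpen X t ⊔ regOpen X t⁻¹ = ⊤ ∧
      X.basicOpen (regSection X t) = regOpen X t ⊓ regOpen X t⁻¹ ∧
      X.basicOpen (regSection X t⁻¹) = regOpen X t ⊓ regOpen X t⁻¹ ∧
      X.presheaf.map (homOfLE (inf_le_left : regOpen X t ⊓ regOpen X t⁻¹ ≤ regOpen X t)).op
          (regSection X t) *
        X.presheaf.map (homOfLE (inf_le_right : regOpen X t ⊓ regOpen X t⁻¹ ≤ regOpen X t⁻¹)).op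
          (regSection X t⁻¹) = 1 ∧
      (secLineHom c (regOpen X t) (regSection X t)).Finite ∧
      (secLineHom c (regOpen X t⁻¹) (regSection X t⁻¹)).Finite ∧
      Function.Injective (secLineHom c (regOpen X t) (regSection X t)) ∧
      Function.Injective (secLineHom c (regOpen X t⁻¹) (regSection X t⁻¹)) := by
  have ht0 := ne_zero_of_not_mem_range_kToK c ht
  have ht' := inv_not_mem_range_kToK c ht
  have hi := lineRingHom_injective c ht
  have hi' := lineRingHom_injective c ht'
  refine ⟨isAffineOpen_regOpen c ht0 hval hi,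
    isAffineOpen_regOpen c (inv_ne_zero ht0) hval hi', ?_,
    basicOpen_regSection X ht0, basicOpen_regSection_inv X ht0,
    regSection_mul_regSection_inv X ht0,
    secLineHom_finite_of_lineRingHom_finite c _ _ (lineRingHom_finite c ht0 hval hi),
    secLineHom_finite_of_lineRingHom_finite c _ _
      (lineRingHom_finite c (inv_ne_zero ht0) hval hi'),
    secLineHom_injective_of_lineRingHom_injective c _ _ hi,
    secLineHom_injective_of_lineRingHom_injective c _ _ hi'⟩
  rw [eq_top_iff]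
  intro P _
  have := hval P
  exact regOpen_sup_regOpen_inv X t P

/-- **C4 (two charts), hypothesis-minimal form.** -/
theorem exists_two_charts [IsAlgClosed k] [IsProper c]
    (hval : ∀ P : X, ValuationRing (X.presheaf.stalk P))
    (V : X.Opens) (hV : (V : Set X).Nonempty) (hF : ¬ IsField Γ(X, V)) :
    ∃ (U0 U1 : X.Opens) (x : Γ(X, U0)) (y : Γ(X, U1)),
      IsAffineOpen U0 ∧ IsAffineOpen U1 ∧ U0 ⊔ U1 = ⊤ ∧
      X.basicOpen x = U0 ⊓ U1 ∧ X.basicOpen y = U0 ⊓ U1 ∧
      X.presheaf.map (homOfLE (inf_le_left : U0 ⊓ U1 ≤ U0)).op x *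
        X.presheaf.map (homOfLE (inf_le_right : U0 ⊓ U1 ≤ U1)).op y = 1 ∧
      (secLineHom c U0 x).Finite ∧ (secLineHom c U1 y).Finite ∧
      Function.Injective (secLineHom c U0 x) ∧ Function.Injective (secLineHom c U1 y) := by
  obtain ⟨t, ht⟩ := exists_not_mem_range_kToK c V hV hF
  exact ⟨regOpen X t, regOpen X t⁻¹, regSection X t, regSection X t⁻¹,
    two_charts_of_not_mem_range c hval ht⟩

end Fermat.Agent.S25.H507

end
-- ===== PACK-END S25/H507/TwoCharts.lean

-- ===== PACK-BEGIN S25/H146/GlueRigid.lean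
section
/-
S25 helper (helper146), assembly AS6, part 6: GLUING RIGIDIFIED MODULES, abstract sectionwise
form.

`σ : T ⟶ X`, opens `V i` covering `X`, modules `P i` which over `V i` have local generators and
an evaluation `e i : P i|_{V i} ⟶ σ_* 𝒪_T` sending local generators to units.  If the `P i` are
sectionwise isomorphic on the overlaps `V i ⊓ V j` (NO cocycle condition) and restriction of
functions along `σ` is bijective on the double and triple overlaps, then the `P i` glue to a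
module `M` on `X` with a rigidifying evaluation `ev : M ⟶ σ_* 𝒪_T`.
-/




set_option autoImplicit false

universe u

noncomputable section

open CategoryTheory AlgebraicGeometry TopologicalSpace Opposite

namespace Fermat.Agent.S25.H146

open Fermat.Agent.S25.H626
open Fermat.Agent.S25.H326 (LocHom funMod pfTo)

variable {X T : Scheme.{u}}

/-- A sectionwise morphism in the sense of `H326.LocHom`, as a `SecHom`. -/
def secHomOfLocHom {G : X.Opens} {P Q : X.Modules} (f : LocHom G P Q) : SecHom P Q G where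
  app W h := f.app W h
  app_add _ _ s s' := map_add _ s s'
  app_smul W h r s := f.app_smul W h r s
  app_res W W' h hle s := f.app_res W W' h hle s

/-- Restriction of functions along `σ` is bijective over the open `G`. -/
def RestrictionBijective (σ : T ⟶ X) (G : X.Opens) : Prop :=
  ∃ (U : T.Opens) (hUG : U ≤ σ ⁻¹ᵁ G), σ ⁻¹ᵁ G ≤ U ∧ Function.Bijective (σ.appLE G U hUG).hom

/-- **Gluing rigidified modules (abstract sectionwise form).** -/
theorem exists_glue_rigid (σ : T ⟶ X) {ι : Type u} (V : ι → X.Opens) (hV : ⨆ i, V i = ⊤)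
    (h2 : ∀ i j, RestrictionBijective σ (V i ⊓ V j))
    (h3 : ∀ i j k, RestrictionBijective σ (V i ⊓ V j ⊓ V k))
    (P : ι → X.Modules) (hP : ∀ i, _root_.Fermat.Agent.S25.H146.HasLocalGeneratorsOn (P i) (V i))
    (e : ∀ i, LocHom (V i) (P i) (funMod σ)) (he : ∀ i, LocUnitOnGen (e i))
    (θ : ∀ i j, ∃ f : LocHom (V i ⊓ V j) (P i) (P j), LocBij f) :
    ∃ (M : X.Modules) (ev : M ⟶ funMod σ) (f : ∀ i, LocHom (V i) M (P i)),
      (∀ i, LocBij (f i)) ∧
      (∀ (i : ι) (W : X.Opens) (hW : W ≤ V i) (s : Γ(M, W)),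
        locVal (e i) W hW ((f i).app W hW s) = H326.evFun ev W s) ∧
      H326.IsRigidifying ev := by
  -- normalized transition maps
  have hτ : ∀ i j, ∃ τ : LocHom (V i ⊓ V j) (P i) (P j), LocBij τ ∧
      LocNormalized ((e i).restrict inf_le_left) ((e j).restrict inf_le_right) τ := by
    intro i j
    obtain ⟨f, hf⟩ := θ i j
    obtain ⟨U, hUG, hGU, hbij⟩ := h2 i j
    exact loc_exists_normalized (hasLocalGeneratorsOn_mono (hP i) inf_le_left)
      (locUnitOnGen_restrict (he i) inf_le_left) (locUnitOnGen_restrict (he j) inf_le_right)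
      U hUG hGU hbij f hf
  choose τ hτb hτn using hτ
  -- the identity on self-overlaps
  have hself : ∀ (i : ι) (W : X.Opens) (hW : W ≤ V i ⊓ V i) (s : Γ(P i, W)),
      (τ i i).app W hW s = s := by
    intro i W hW s
    obtain ⟨U, hUG, hGU, hbij⟩ := h2 i i
    have key : τ i i = LocHom.id (V i ⊓ V i) (P i) :=
      loc_eq_of_normalized (hasLocalGeneratorsOn_mono (hP i) inf_le_left)
        (locUnitOnGen_restrict (he i) inf_le_left) U hUG
        (fun a ha => hbij.1 (ha.trans (map_one _).symm))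
        (locBij_id _ _) (hτn i i) (fun _ _ _ => rfl)
    rw [key]
    rfl
  -- the cocycle condition
  have hcocycle : ∀ (i j k : ι) (W : X.Opens) (hij : W ≤ V i ⊓ V j) (hjk : W ≤ V j ⊓ V k)
      (hik : W ≤ V i ⊓ V k) (s : Γ(P i, W)),
      (τ j k).app W hjk ((τ i j).app W hij s) = (τ i k).app W hik s := by
    intro i j k W hij hjk hik s
    obtain ⟨U, hUG, hGU, hbij⟩ := h3 i j k
    have l1 : V i ⊓ V j ⊓ V k ≤ V i ⊓ V j := inf_le_left
    have l2 : V i ⊓ V j ⊓ V k ≤ V j ⊓ V k := le_inf (inf_le_left.trans inf_le_right) inf_le_right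
    have l3 : V i ⊓ V j ⊓ V k ≤ V i ⊓ V k := le_inf (inf_le_left.trans inf_le_left) inf_le_right
    have li : V i ⊓ V j ⊓ V k ≤ V i := inf_le_left.trans inf_le_left
    have lk : V i ⊓ V j ⊓ V k ≤ V k := inf_le_right
    have key : ((τ i j).restrict l1).comp ((τ j k).restrict l2) = (τ i k).restrict l3 :=
      loc_eq_of_normalized (e := (e i).restrict li) (e' := (e k).restrict lk)
        (hasLocalGeneratorsOn_mono (hP i) li)
        (locUnitOnGen_restrict (he i) li) U hUG
        (fun a ha => hbij.1 (ha.trans (map_one _).symm))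
        (locBij_restrict (hτb i k) l3)
        (fun W' hW' s' => by
          have e1 := hτn j k W' (hW'.trans l2) ((τ i j).app W' (hW'.trans l1) s')
          have e2 := hτn i j W' (hW'.trans l1) s'
          exact e1.trans e2)
        (fun W' hW' s' => hτn i k W' (hW'.trans l3) s')
    have hW : W ≤ V i ⊓ V j ⊓ V k := le_inf hij (hjk.trans inf_le_right)
    exact congrArg (fun g : LocHom (V i ⊓ V j ⊓ V k) (P i) (P k) => g.app W hW s) key
  -- glue
  let D : H326.GlueData X ι :=
    { G := V, P := P, τ := τ, τ_self := hself, τ_cocycle := hcocycle }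
  obtain ⟨M, f, hfb, hfc⟩ := H326.exists_glue D
  -- glue the evaluations
  have hcompat : ∀ (i j : ι) (W : X.Opens) (hi : W ≤ V i) (hj : W ≤ V j) (s : Γ(M, W)),
      (secHomOfLocHom ((f i).comp (e i))).app W hi s =
        (secHomOfLocHom ((f j).comp (e j))).app W hj s := by
    intro i j W hi hj s
    have e1 := hτn i j W (le_inf hi hj) ((f i).app W hi s)
    have e2 := hfc i j W (le_inf hi hj) s
    have e3 : locVal (e j) W hj ((f j).app W hj s) = locVal (e i) W hi ((f i).app W hi s) := by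
      rw [← e2]
      exact e1
    exact e3.symm
  obtain ⟨ev, hev⟩ := exists_hom_of_secHoms V hV (fun i => secHomOfLocHom ((f i).comp (e i)))
    hcompat
  have hev' : ∀ (i : ι) (W : X.Opens) (hW : W ≤ V i) (s : Γ(M, W)),
      locVal (e i) W hW ((f i).app W hW s) = H326.evFun ev W s := by
    intro i W hW s
    exact (hev i W hW s).symm
  refine ⟨M, ev, f, hfb, hev', ?_⟩
  -- the glued evaluation is rigidifying
  intro t
  have ht : σ t ∈ ⨆ i, V i := by rw [hV]; trivial
  obtain ⟨i, hi⟩ := Opens.mem_iSup.mp ht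
  obtain ⟨W, hxW, s, hs⟩ := hasLocalGeneratorsOn_of_locBij (hfb i) (hP i) (σ t) hi
  have hs' : IsLocalGenerator M (W ⊓ V i) (res M inf_le_left s) := isLocalGenerator_res hs _
  refine ⟨W ⊓ V i, res M inf_le_left s, ⟨hxW, hi⟩, hs', ?_⟩
  rw [← hev' i (W ⊓ V i) inf_le_right]
  exact he i _ _ _ (isLocalGenerator_locApp (hfb i) inf_le_right hs')

end Fermat.Agent.S25.H146

end
end
-- ===== PACK-END S25/H146/GlueRigid.lean

-- ===== PACK-BEGIN S25/H146/OpenImm.lean
section
/-
S25 helper (helper146), assembly AS6, part 7: DICTIONARY for open immersions.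

For an open immersion `g : Y ⟶ X` and a module `L` on `Y` we compare `L` with its pushforward
`g_* L` on `X`, sectionwise over the opens contained in the range of `g`:
* `hasLocalGeneratorsOn_pushforward`: local generators of `L` give local generators of `g_* L`;
* `pullbackPushforwardIso`: `g^* g_* L ≅ L`;
* `nonempty_iso_of_locBij`: a bijective sectionwise morphism `N|_{range g} ⟶ g_* L` gives
  `g^* N ≅ L`;
* `exists_locBij_of_pullback_iso`: an isomorphism between pullbacks of `L₁`, `L₂` to a common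
  open gives a bijective sectionwise morphism between the pushforwards;
* `exists_locEval_of_rigidification`: a rigidification of `L` along `σ' : U ⟶ Y` over an open
  `U ⊆ T` gives a local evaluation `g_* L ⟶ σ_* 𝒪_T` which is a unit on generators.
-/




set_option autoImplicit false

universe u

noncomputable section

open CategoryTheory AlgebraicGeometry TopologicalSpace Opposite

namespace Fermat.Agent.S25.H146

open Fermat.Agent.S25.H626
open Fermat.Agent.S25.H326 (LocHom funMod pfTo pfOf)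
open AlgebraicGeometry.Scheme.Modules (pullback pushforward)

variable {X Y : Scheme.{u}}

/-! ## `SecHom` versus `LocHom` -/

/-- A `SecHom` as a sectionwise morphism in the sense of `H326.LocHom`. -/
def locHomOfSecHom {G : X.Opens} {P Q : X.Modules} (f : SecHom P Q G) : LocHom G P Q where
  app W h := AddMonoidHom.mk' (f.app W h) (f.app_add W h)
  app_smul W h r s := f.app_smul W h r s
  app_res W W' h hle s := f.app_res W W' h hle s

theorem locBij_locHomOfSecHom {G : X.Opens} {P Q : X.Modules} {f : SecHom P Q G}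
    (hf : f.IsIso) : LocBij (locHomOfSecHom f) := fun W h => hf W h

/-! ## Local generators of a pushforward along an open immersion -/

section PushGen

variable (g : Y ⟶ X) [IsOpenImmersion g] (L : Y.Modules)

theorem bijective_app_of_le_opensRange (W : X.Opens) (hW : W ≤ g.opensRange) :
    Function.Bijective (g.app W) := by
  have := g.isIso_app W hW
  exact (ConcreteCategory.isIso_iff_bijective (g.app W)).mp inferInstance

/-- A local generator of `L` over `W'` is a local generator of `g_* L` over `g(W')`. -/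
theorem isLocalGenerator_pushforward {W' : Y.Opens} {s' : Γ(L, W')}
    (hs' : IsLocalGenerator L W' s') :
    IsLocalGenerator ((pushforward g).obj L) (g ''ᵁ W')
      (pfOf g L (g ''ᵁ W') (res L (g.preimage_image_eq W').le s')) := by
  intro W'' hle
  have hW'' : W'' ≤ g.opensRange := hle.trans (g.image_le_opensRange W')
  have hle' : g ⁻¹ᵁ W'' ≤ W' := (g.preimage_mono hle).trans (g.preimage_image_eq W').le
  have h1 : (fun r : Γ(X, W'') => r • res ((pushforward g).obj L) hle
      (pfOf g L (g ''ᵁ W') (res L (g.preimage_image_eq W').le s'))) =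
      (fun x : Γ(L, g ⁻¹ᵁ W'') => pfOf g L W'' x) ∘
        (fun r' : Γ(Y, g ⁻¹ᵁ W'') => r' • res L hle' s') ∘ (fun r : Γ(X, W'') => g.app W'' r) := by
    funext r
    simp only [Function.comp_apply]
    apply H326.pfTo_injective
    rw [H326.pfTo_smul, H326.pfTo_res, H326.pfTo_pfOf, H326.pfTo_pfOf, res_res]
  rw [h1]
  refine Function.Bijective.comp ⟨fun _ _ h => h, fun x => ⟨x, rfl⟩⟩
    (Function.Bijective.comp (hs' _ hle') (bijective_app_of_le_opensRange g W'' hW''))

theorem hasLocalGeneratorsOn_pushforward (hL : HasLocalGenerators L) :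
    _root_.Fermat.Agent.S25.H146.HasLocalGeneratorsOn ((pushforward g).obj L) g.opensRange := by
  intro x hx
  obtain ⟨y, rfl⟩ := hx
  obtain ⟨W', hyW', s', hs'⟩ := hL y
  exact ⟨g ''ᵁ W', ⟨y, hyW', rfl⟩, _, isLocalGenerator_pushforward g L hs'⟩

end PushGen

/-! ## Pullback of a pushforward along an open immersion -/

section PullPush

variable (g : Y ⟶ X) [IsOpenImmersion g]

/-- `g^* g_* L ≅ L` for an open immersion `g`. -/
def pullbackPushforwardIso (L : Y.Modules) : (pullback g).obj ((pushforward g).obj L) ≅ L :=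
  (Scheme.Modules.restrictFunctorIsoPullback g).symm.app ((pushforward g).obj L) ≪≫
    (Scheme.Modules.restrictFunctorAdjCounitIso g).app L

end PullPush

/-! ## From sectionwise isomorphisms to isomorphisms of pullbacks -/

section IsoOfLocBij

variable (g : Y ⟶ X) [IsOpenImmersion g] (N : X.Modules) (L : Y.Modules)

/-- Sections of `N.restrict g` over `W'` are sections of `N` over `g(W')` (the identity). -/
def restrTo (W' : Y.Opens) (s : Γ(N.restrict g, W')) : Γ(N, g ''ᵁ W') := s

theorem restrTo_res {W' W'' : Y.Opens} (h : W'' ≤ W') (s : Γ(N.restrict g, W')) :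
    restrTo g N W'' (res (N.restrict g) h s) = res N (g.image_mono h) (restrTo g N W' s) := rfl

theorem restrTo_smul (W' : Y.Opens) (r : Γ(Y, W')) (s : Γ(N.restrict g, W')) :
    restrTo g N W' (r • s) = ((g.appIso W').inv r) • restrTo g N W' s := rfl

theorem restrTo_add (W' : Y.Opens) (s s' : Γ(N.restrict g, W')) :
    restrTo g N W' (s + s') = restrTo g N W' s + restrTo g N W' s' := rfl

theorem restrTo_bijective (W' : Y.Opens) : Function.Bijective (restrTo g N W') :=
  ⟨fun _ _ h => h, fun s => ⟨s, rfl⟩⟩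

theorem resO_app_appIso_inv (W' : Y.Opens) (r : Γ(Y, W')) :
    resO (g.preimage_image_eq W').ge (g.app (g ''ᵁ W') ((g.appIso W').inv r)) = r := by
  have h1 := g.appIso_inv_app W'
  have h2 : g.app (g ''ᵁ W') ((g.appIso W').inv r) =
      Y.presheaf.map (eqToHom (g.preimage_image_eq W')).op r := congr($h1 r)
  rw [h2]
  unfold resO
  rw [← ConcreteCategory.comp_apply, ← Functor.map_comp]
  have h3 : (eqToHom (g.preimage_image_eq W')).op ≫ (homOfLE (g.preimage_image_eq W').ge).op =
      𝟙 (op W') := Subsingleton.elim _ _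
  rw [h3, Y.presheaf.map_id]
  rfl

variable {N L}

/-- The component over `W'` of the morphism `N.restrict g ⟶ L` attached to a sectionwise
morphism `N ⟶ g_* L` over the range of `g`. -/
def restrictHomApp (f : LocHom g.opensRange N ((pushforward g).obj L)) (W' : Y.Opens)
    (s : Γ(N.restrict g, W')) : Γ(L, W') :=
  res L (g.preimage_image_eq W').ge
    (pfTo g L (g ''ᵁ W') (f.app (g ''ᵁ W') (g.image_le_opensRange W') (restrTo g N W' s)))

theorem restrictHomApp_add (f : LocHom g.opensRange N ((pushforward g).obj L)) (W' : Y.Opens)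
    (s s' : Γ(N.restrict g, W')) :
    restrictHomApp g f W' (s + s') = restrictHomApp g f W' s + restrictHomApp g f W' s' := by
  unfold restrictHomApp
  rw [restrTo_add, map_add, H326.pfTo_add, res_add]

theorem restrictHomApp_res (f : LocHom g.opensRange N ((pushforward g).obj L))
    (W' W'' : Y.Opens) (h : W'' ≤ W') (s : Γ(N.restrict g, W')) :
    restrictHomApp g f W'' (res (N.restrict g) h s) = res L h (restrictHomApp g f W' s) := by
  unfold restrictHomApp
  rw [restrTo_res, f.app_res (g ''ᵁ W') (g ''ᵁ W'') (g.image_le_opensRange W') (g.image_mono h),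
    H326.pfTo_res, res_res, res_res]

theorem restrictHomApp_smul (f : LocHom g.opensRange N ((pushforward g).obj L)) (W' : Y.Opens)
    (r : Γ(Y, W')) (s : Γ(N.restrict g, W')) :
    restrictHomApp g f W' (r • s) = r • restrictHomApp g f W' s := by
  unfold restrictHomApp
  rw [restrTo_smul, f.app_smul, H326.pfTo_smul, res_smul, resO_app_appIso_inv]

theorem restrictHomApp_bijective (f : LocHom g.opensRange N ((pushforward g).obj L))
    (hf : LocBij f) (W' : Y.Opens) : Function.Bijective (restrictHomApp g f W') := by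
  have h1 : restrictHomApp g f W' =
      (res L (g.preimage_image_eq W').ge) ∘ (fun x => pfTo g L (g ''ᵁ W') x) ∘
        (f.app (g ''ᵁ W') (g.image_le_opensRange W')) ∘ (restrTo g N W') := rfl
  rw [h1]
  exact (H326.res_bijective_of_le L _ (g.preimage_image_eq W').le).comp
    (Function.Bijective.comp ⟨fun _ _ h => h, fun x => ⟨x, rfl⟩⟩
      ((hf _ _).comp (restrTo_bijective g N W')))

/-- The morphism `N.restrict g ⟶ L` attached to a sectionwise morphism `N ⟶ g_* L` over the
range of `g`. -/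
def restrictHomOfLocHom (f : LocHom g.opensRange N ((pushforward g).obj L)) :
    N.restrict g ⟶ L :=
  H326.mkHom (fun W' => AddMonoidHom.mk' (restrictHomApp g f W') (restrictHomApp_add g f W'))
    (fun W' W'' h s => restrictHomApp_res g f W' W'' h s)
    (fun W' r s => restrictHomApp_smul g f W' r s)

theorem isIso_restrictHomOfLocHom (f : LocHom g.opensRange N ((pushforward g).obj L))
    (hf : LocBij f) : IsIso (_root_.Fermat.Agent.S25.H146.restrictHomOfLocHom g f) := by
  rw [Scheme.Modules.Hom.isIso_iff_isIso_app]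
  intro W'
  exact (ConcreteCategory.isIso_iff_bijective (C := Ab) ((_root_.Fermat.Agent.S25.H146.restrictHomOfLocHom g f).app W')).mpr
    (restrictHomApp_bijective g f hf W')

/-- A bijective sectionwise morphism `N ⟶ g_* L` over the range of the open immersion `g`
gives an isomorphism `g^* N ≅ L`. -/
theorem nonempty_iso_of_locBij (f : LocHom g.opensRange N ((pushforward g).obj L))
    (hf : LocBij f) : Nonempty ((pullback g).obj N ≅ L) :=
  ⟨(Scheme.Modules.restrictFunctorIsoPullback g).symm.app N ≪≫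
    @asIso _ _ _ _ (_root_.Fermat.Agent.S25.H146.restrictHomOfLocHom g f) (_root_.Fermat.Agent.S25.H146.isIso_restrictHomOfLocHom g f hf)⟩

end IsoOfLocBij

/-! ## From isomorphisms of pullbacks to sectionwise isomorphisms -/

section LocBijOfIso

variable {Y₁ Y₂ Z : Scheme.{u}} (g₁ : Y₁ ⟶ X) (g₂ : Y₂ ⟶ X) [IsOpenImmersion g₁]
  [IsOpenImmersion g₂] (g : Z ⟶ X) [IsOpenImmersion g] (b₁ : Z ⟶ Y₁) (b₂ : Z ⟶ Y₂)

/-- An isomorphism between the pullbacks of `L₁` (on `Y₁`) and `L₂` (on `Y₂`) to a common open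
`Z` of `Y₁`, `Y₂` gives a bijective sectionwise morphism between the pushforwards to `X`, over
every open contained in the image of `Z`. -/
theorem exists_locBij_of_pullback_iso (h₁ : b₁ ≫ g₁ = g) (h₂ : b₂ ≫ g₂ = g)
    (L₁ : Y₁.Modules) (L₂ : Y₂.Modules) (φ : (pullback b₁).obj L₁ ≅ (pullback b₂).obj L₂)
    (G : X.Opens) (hG : G ≤ g.opensRange) :
    ∃ f : LocHom G ((pushforward g₁).obj L₁) ((pushforward g₂).obj L₂), LocBij f := by
  let Θ : (pullback g).obj ((pushforward g₁).obj L₁) ≅ (pullback g).obj ((pushforward g₂).obj L₂) :=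
    (Scheme.Modules.pullbackCongr h₁.symm).app _ ≪≫
      (Scheme.Modules.pullbackComp b₁ g₁).symm.app _ ≪≫
      (pullback b₁).mapIso (_root_.Fermat.Agent.S25.H146.pullbackPushforwardIso g₁ L₁) ≪≫ φ ≪≫
      (pullback b₂).mapIso (_root_.Fermat.Agent.S25.H146.pullbackPushforwardIso g₂ L₂).symm ≪≫
      (Scheme.Modules.pullbackComp b₂ g₂).app _ ≪≫
      (Scheme.Modules.pullbackCongr h₂).app _
  exact ⟨locHomOfSecHom (secHomOfPullbackHom g Θ.hom G hG),
    locBij_locHomOfSecHom (isIso_secHomOfPullbackIso g Θ G hG)⟩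

end LocBijOfIso

/-! ## Local evaluations from rigidifications over an open of the base -/

section EvalOpen

variable {T : Scheme.{u}} (U : T.Opens) (σ : T ⟶ X) {P : X.Modules}

/-- Functions on `(U.ι ≫ σ)⁻¹ W ⊆ U` are functions on the open `U ∩ σ⁻¹ W` of `T`
(the identity). -/
def toCutFun (W : X.Opens) (a : Γ(U.toScheme, (U.ι ≫ σ) ⁻¹ᵁ W)) :
    Γ(T, H326.cut U (σ ⁻¹ᵁ W)) := a

theorem toCutFun_mul (W : X.Opens) (a b : Γ(U.toScheme, (U.ι ≫ σ) ⁻¹ᵁ W)) :
    toCutFun U σ W (a * b) = toCutFun U σ W a * toCutFun U σ W b := rfl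

theorem toCutFun_add (W : X.Opens) (a b : Γ(U.toScheme, (U.ι ≫ σ) ⁻¹ᵁ W)) :
    toCutFun U σ W (a + b) = toCutFun U σ W a + toCutFun U σ W b := rfl

theorem toCutFun_app (W : X.Opens) (r : Γ(X, W)) :
    toCutFun U σ W ((U.ι ≫ σ).app W r) = resO (H326.cut_le_right U (σ ⁻¹ᵁ W)) (σ.app W r) := rfl

theorem toCutFun_resO {W W' : X.Opens} (h : W' ≤ W) (a : Γ(U.toScheme, (U.ι ≫ σ) ⁻¹ᵁ W)) :
    toCutFun U σ W' (resO ((U.ι ≫ σ).preimage_mono h) a) =
      resO (H326.cut_mono le_rfl (σ.preimage_mono h)) (toCutFun U σ W a) := rfl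

theorem isUnit_toCutFun (W : X.Opens) {a : Γ(U.toScheme, (U.ι ≫ σ) ⁻¹ᵁ W)} (ha : IsUnit a) :
    IsUnit (toCutFun U σ W a) := ha

theorem evFun_add' {T' : Scheme.{u}} {f : T' ⟶ X} (ev : P ⟶ funMod f) (W : X.Opens)
    (s s' : Γ(P, W)) : H326.evFun ev W (s + s') = H326.evFun ev W s + H326.evFun ev W s' := by
  unfold H326.evFun
  rw [map_add]
  rfl

/-- The value on a section over `W` (with `σ⁻¹ W ⊆ U`) of an evaluation with values in
functions on `U`, as a function on `σ⁻¹ W`. -/
def openVal (ev' : P ⟶ funMod (U.ι ≫ σ)) (W : X.Opens) (hW : σ ⁻¹ᵁ W ≤ U) (s : Γ(P, W)) :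
    Γ(T, σ ⁻¹ᵁ W) :=
  resO (H326.le_cut hW le_rfl) (toCutFun U σ W (H326.evFun ev' W s))

theorem openVal_add (ev' : P ⟶ funMod (U.ι ≫ σ)) (W : X.Opens) (hW : σ ⁻¹ᵁ W ≤ U)
    (s s' : Γ(P, W)) :
    openVal U σ ev' W hW (s + s') = openVal U σ ev' W hW s + openVal U σ ev' W hW s' := by
  unfold openVal
  rw [evFun_add', toCutFun_add]
  exact map_add _ _ _

theorem openVal_smul (ev' : P ⟶ funMod (U.ι ≫ σ)) (W : X.Opens) (hW : σ ⁻¹ᵁ W ≤ U)
    (r : Γ(X, W)) (s : Γ(P, W)) :
    openVal U σ ev' W hW (r • s) = σ.app W r * openVal U σ ev' W hW s := by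
  unfold openVal
  rw [H326.evFun_smul, toCutFun_mul, toCutFun_app, resO_mul, resO_resO]
  congr 1
  exact H626.resO_id _

theorem openVal_res (ev' : P ⟶ funMod (U.ι ≫ σ)) (W W' : X.Opens) (hW : σ ⁻¹ᵁ W ≤ U)
    (h : W' ≤ W) (s : Γ(P, W)) :
    openVal U σ ev' W' ((σ.preimage_mono h).trans hW) (res P h s) =
      resO (σ.preimage_mono h) (openVal U σ ev' W hW s) := by
  unfold openVal
  rw [H326.evFun_res ev' h s, toCutFun_resO U σ h, resO_resO, resO_resO]

theorem isUnit_openVal (ev' : P ⟶ funMod (U.ι ≫ σ)) (W : X.Opens) (hW : σ ⁻¹ᵁ W ≤ U)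
    (s : Γ(P, W)) (h : IsUnit (H326.evFun ev' W s)) : IsUnit (openVal U σ ev' W hW s) :=
  (isUnit_toCutFun U σ W h).map (T.presheaf.map (homOfLE (H326.le_cut hW le_rfl)).op).hom

/-- The local evaluation over `V` (with `σ⁻¹ V ⊆ U`) attached to an evaluation with values in
functions on `U`. -/
def locEvalOfOpen (V : X.Opens) (hV : σ ⁻¹ᵁ V ≤ U) (ev' : P ⟶ funMod (U.ι ≫ σ)) :
    LocHom V P (funMod σ) where
  app W hW := AddMonoidHom.mk'
    (fun s => pfOf σ (unitMod T) W
      (toUnit T _ (openVal U σ ev' W ((σ.preimage_mono hW).trans hV) s)))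
    (fun s s' => by
      rw [openVal_add]
      rfl)
  app_smul W hW r s := by
    simp only [AddMonoidHom.mk'_apply]
    rw [openVal_smul]
    rfl
  app_res W W' hW h s := by
    simp only [AddMonoidHom.mk'_apply]
    rw [openVal_res U σ ev' W W' ((σ.preimage_mono hW).trans hV) h s]
    rfl

theorem locVal_locEvalOfOpen (V : X.Opens) (hV : σ ⁻¹ᵁ V ≤ U) (ev' : P ⟶ funMod (U.ι ≫ σ))
    (W : X.Opens) (hW : W ≤ V) (s : Γ(P, W)) :
    locVal (locEvalOfOpen U σ V hV ev') W hW s =
      openVal U σ ev' W ((σ.preimage_mono hW).trans hV) s := rfl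

/-- A rigidification of `L` along `σ' : U ⟶ Y` (`U ⊆ T` open, `g : Y ⟶ X` an open immersion,
`σ' ≫ g = U.ι ≫ σ`) gives a local evaluation of `g_* L` over every open `V` with
`σ⁻¹ V ⊆ U`, which is a unit on generators. -/
theorem exists_locEval_of_rigidification (g : Y ⟶ X) [IsOpenImmersion g] (σ' : U.toScheme ⟶ Y)
    (hsq : σ' ≫ g = U.ι ≫ σ) (L : Y.Modules)
    (ρ : (pullback σ').obj L ≅ unitMod U.toScheme) (V : X.Opens) (hV : σ ⁻¹ᵁ V ≤ U) :
    ∃ e : LocHom V ((pushforward g).obj L) (funMod σ), LocUnitOnGen e := by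
  let ρ' : (pullback (U.ι ≫ σ)).obj ((pushforward g).obj L) ≅ unitMod U.toScheme :=
    (Scheme.Modules.pullbackCongr hsq.symm).app _ ≪≫
      (Scheme.Modules.pullbackComp σ' g).symm.app _ ≪≫
      (pullback σ').mapIso (_root_.Fermat.Agent.S25.H146.pullbackPushforwardIso g L) ≪≫ ρ
  refine ⟨locEvalOfOpen U σ V hV
    ((Scheme.Modules.pullbackPushforwardAdjunction (U.ι ≫ σ)).homEquiv _ (unitMod U.toScheme)
      ρ'.hom), fun W hW s hs => ?_⟩
  rw [locVal_locEvalOfOpen]
  exact isUnit_openVal U σ _ W _ s (H326.isUnit_evFun_of_iso (U.ι ≫ σ) hs ρ')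

end EvalOpen

end Fermat.Agent.S25.H146

end
end
-- ===== PACK-END S25/H146/OpenImm.lean

-- ===== PACK-BEGIN S25/H505/DictGlue.lean
section
/-
S25, block DICT (helper505): `dictGlue : Stmt.DictGlue Ch` — every rigidifiable gluing datum
over `A` is the gluing datum of sections of a rigidified line bundle on `C_A`.  Built on
`GlueAffine.exists_glue_affine` (gluing on two affine charts), `H566.boxRingEquiv` and
`SectionBC.secMap_isBC`.
-/



set_option autoImplicit false
universe u
open CategoryTheory CategoryTheory.Limits AlgebraicGeometry AlgebraicGeometry.RelPicard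
  NeronModelInfra GoodReductionJacobian
open scoped TensorProduct

namespace Fermat.Agent.S25.H505

noncomputable section

section Triv

variable {R : CommRingCat.{u}}

/-- An invertible module on `Spec R` whose module of global sections is free of rank one is
trivial. -/
theorem nonempty_iso_unit_of_equiv (M : (Spec R).Modules) (hM : Scheme.Modules.IsInvertible M)
    (E : Γ(M, ⊤) ≃+ R) (hE : IsSL (Scheme.ΓSpecIso R).hom.hom E.toAddMonoidHom) :
    Nonempty (M ≅ SheafOfModules.unit (Spec R).ringCatSheaf) := by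
  let e' : (moduleSpecΓFunctor.obj M) ≃ₗ[R] (ModuleCat.of R R) :=
    { E with
      map_smul' := fun r x => by
        have h1 : r • (show Γ(M, ⊤) from x) =
            ((Spec R).presheaf.map (⊤ : (Spec R).Opens).leTop.op)
              ((Scheme.ΓSpecIso R).inv r) • (show Γ(M, ⊤) from x) :=
          Scheme.Modules.smul_Spec_def r x
        have h2 : ((Spec R).presheaf.map (⊤ : (Spec R).Opens).leTop.op)
            ((Scheme.ΓSpecIso R).inv r) = (Scheme.ΓSpecIso R).inv r := by
          have : (Spec R).presheaf.map (⊤ : (Spec R).Opens).leTop.op = 𝟙 _ := by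
            rw [← (Spec R).presheaf.map_id]; rfl
          rw [this]; rfl
        rw [h2] at h1
        change E (r • (show Γ(M, ⊤) from x)) = r • E x
        rw [h1]
        refine (hE _ _).trans ?_
        congr 1
        exact congr($((Scheme.ΓSpecIso R).inv_hom_id) r) }
  exact ⟨(tildeΓIsoOfIsInvertible M hM).symm ≪≫ (tilde.functor R).mapIso e'.toModuleIso ≪≫
    tildeSelf⟩

end Triv

variable {k : Type u} [Field k] {C : Scheme.{u}} {c : C ⟶ Spec (CommRingCat.of k)}
  {ε : SchemeHomOver (𝟙 (Spec (CommRingCat.of k))) c}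

section Rig

variable (Ch : ChartOf c ε) (A : Type u) [CommRing A] [Algebra k A]

/-- An invertible module on `C_A` whose module of sections over `U₁^A` becomes free of rank
one after base change along the marked point is rigidified. -/
theorem rigidified_of_isBC (L : (pullback c (specStr k A)).Modules)
    (hL : Scheme.Modules.IsInvertible L) {N₁ : Type u} [AddCommGroup N₁]
    [Module (A ⊗[k] Ch.B₁) N₁] (e₁ : Γ(L, preimageOpen (c := c) A Ch.U₁) ≃+ N₁)
    (h₁ : ∀ (y : A ⊗[k] Ch.B₁) (s : Γ(L, preimageOpen (c := c) A Ch.U₁)),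
      e₁ (H566.boxRingEquiv (A := A) Ch.isAffine₁ Ch.i₁ Ch.i₁_str y • s) = y • e₁ s)
    (b : N₁ →+ A) (hb : IsBC (epsHom Ch.e A).toRingHom b) :
    Nonempty ((Scheme.Modules.pullback (rigSection c (specStr k A) ε)).obj L ≅
      SheafOfModules.unit (Spec (CommRingCat.of A)).ringCatSheaf) := by
  have : L.IsQuasicoherent := isQuasicoherent_of_isInvertible L hL
  have a₁ := isAffineOpen_preimageOpen c A Ch.isAffine₁
  have hκ : IsBC (rigRing Ch A) (secMap (rigMap (ε := ε) A) L (le_rigMap_preimage Ch A)).hom :=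
    secMap_isBC _ L a₁ (isAffineOpen_top _) _
  have he₁ : IsBC (H566.boxRingEquiv (A := A) Ch.isAffine₁ Ch.i₁ Ch.i₁_str).symm.toRingHom
      e₁.toAddMonoidHom :=
    isBC_of_bijective (fun r s => by
      obtain ⟨y, rfl⟩ := (H566.boxRingEquiv (A := A) Ch.isAffine₁ Ch.i₁ Ch.i₁_str).surjective r
      change e₁ (_ • s) = (H566.boxRingEquiv (A := A) Ch.isAffine₁ Ch.i₁ Ch.i₁_str).symm _ • e₁ s
      rw [RingEquiv.symm_apply_apply]
      exact h₁ y s)
      (H566.boxRingEquiv (A := A) Ch.isAffine₁ Ch.i₁ Ch.i₁_str).symm.bijective e₁.bijective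
  have hg₂ := he₁.comp hb
  obtain ⟨E, hE, -⟩ := hκ.exists_equiv
    (Scheme.ΓSpecIso (CommRingCat.of A)).commRingCatIsoToRingEquiv hg₂ (fun r => by
      have := rigRing_boxRingEquiv Ch A
        ((H566.boxRingEquiv (A := A) Ch.isAffine₁ Ch.i₁ Ch.i₁_str).symm r)
      rw [RingEquiv.apply_symm_apply] at this
      exact this)
  exact nonempty_iso_unit_of_equiv (R := CommRingCat.of A) _ (hL.pullback _) E
    (fun r s => hE r s)

end Rig

/-- **DICT-GLUE**: every rigidifiable gluing datum over `A` is the gluing datum of sections of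
a rigidified line bundle on `C_A`. -/
theorem dictGlue (Ch : ChartOf c ε) : Stmt.DictGlue Ch := by
  intro A _ _ G hG
  have a₀ := isAffineOpen_preimageOpen c A Ch.isAffine₀
  have a₁ := isAffineOpen_preimageOpen c A Ch.isAffine₁
  have a₀₁ := isAffineOpen_preimageOpen c A (H566.chart_isAffine₀₁ Ch)
  have l₀ : preimageOpen (c := c) A (Ch.U₀ ⊓ Ch.U₁) ≤ preimageOpen (c := c) A Ch.U₀ :=
    Scheme.Hom.preimage_mono _ inf_le_left
  have l₁ : preimageOpen (c := c) A (Ch.U₀ ⊓ Ch.U₁) ≤ preimageOpen (c := c) A Ch.U₁ :=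
    Scheme.Hom.preimage_mono _ inf_le_right
  have hinf : preimageOpen (c := c) A Ch.U₀ ⊓ preimageOpen (c := c) A Ch.U₁ ≤
      preimageOpen (c := c) A (Ch.U₀ ⊓ Ch.U₁) := fun x hx => hx
  have hcov : preimageOpen (c := c) A Ch.U₀ ⊔ preimageOpen (c := c) A Ch.U₁ = ⊤ := by
    refine top_le_iff.mp (fun x _ => ?_)
    have hx : (pullback.fst c (specStr k A)) x ∈ Ch.U₀ ⊔ Ch.U₁ := by
      rw [Ch.cover]; trivial
    rcases hx with hx | hx
    · exact Or.inl hx
    · exact Or.inr hx
  obtain ⟨b, hb⟩ := hG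
  obtain ⟨L, hL, e₀, e₁, e₀₁, h₀, h₁, h₀₁, hr₀, hr₁⟩ :=
    exists_glue_affine a₀ a₁ a₀₁ l₀ l₁ hinf hcov
      (H566.boxRingEquiv (A := A) Ch.isAffine₀ Ch.i₀ Ch.i₀_str)
      (H566.boxRingEquiv (A := A) Ch.isAffine₁ Ch.i₁ Ch.i₁_str)
      (H566.boxRingEquiv (A := A) (H566.chart_isAffine₀₁ Ch) Ch.i₀₁ (H566.chart_i₀₁_str Ch))
      (algebraMap (A ⊗[k] Ch.B₀) (A ⊗[k] Ch.B₀₁)) (algebraMap (A ⊗[k] Ch.B₁) (A ⊗[k] Ch.B₀₁))
      (fun x => H566.boxRingEquiv_res (A := A) Ch.isAffine₀ (H566.chart_isAffine₀₁ Ch)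
        inf_le_left Ch.i₀ Ch.i₀_str Ch.i₀₁ (H566.chart_i₀₁_str Ch) Ch.i₀₁_res₀ x)
      (fun x => H566.boxRingEquiv_res (A := A) Ch.isAffine₁ (H566.chart_isAffine₀₁ Ch)
        inf_le_right Ch.i₁ Ch.i₁_str Ch.i₀₁ (H566.chart_i₀₁_str Ch) Ch.i₀₁_res₁ x)
      G.r₀.toAddMonoidHom G.r₁.toAddMonoidHom
      (isBC_of_isBaseChange G.r₀ G.isBaseChange₀) (isBC_of_isBaseChange G.r₁ G.isBaseChange₁)
      G.invertible₀ G.invertible₁
  refine ⟨⟨L, hL, rigidified_of_isBC Ch A L hL e₁ h₁ b.toAddMonoidHom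
    (isBC_of_isSemilinearBaseChange _ b hb)⟩, e₀, e₁, e₀₁, ?_, ?_, ?_, hr₀, hr₁⟩
  · refine isSectionsIso_of_isSL c Ch.isAffine₀ Ch.i₀ Ch.i₀_str L e₀ (fun r s => ?_)
    have := h₀ ((H566.boxRingEquiv (A := A) Ch.isAffine₀ Ch.i₀ Ch.i₀_str).symm r) s
    rwa [RingEquiv.apply_symm_apply] at this
  · refine isSectionsIso_of_isSL c Ch.isAffine₁ Ch.i₁ Ch.i₁_str L e₁ (fun r s => ?_)
    have := h₁ ((H566.boxRingEquiv (A := A) Ch.isAffine₁ Ch.i₁ Ch.i₁_str).symm r) s
    rwa [RingEquiv.apply_symm_apply] at this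
  · refine isSectionsIso_of_isSL c (H566.chart_isAffine₀₁ Ch) Ch.i₀₁ (H566.chart_i₀₁_str Ch) L
      e₀₁ (fun r s => ?_)
    have := h₀₁ ((H566.boxRingEquiv (A := A) (H566.chart_isAffine₀₁ Ch) Ch.i₀₁
      (H566.chart_i₀₁_str Ch)).symm r) s
    rwa [RingEquiv.apply_symm_apply] at this

end

end Fermat.Agent.S25.H505

end
-- ===== PACK-END S25/H505/DictGlue.lean

-- ===== PACK-BEGIN S15/H386/ModShape.lean
section
/-
Row S15, node GEO (helper386): the classical modular polynomial `Φ_p` has "modular shape".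

For every `D : S28.ModPolyData p` (the modular polynomial of level `p`: monic of degree `p + 1`
with `Φ(j, j_p) = 0 = Φ(j_p, j)`; it exists for every prime `p`, see the `nonempty_modPolyData`
of row S28) the polynomial `D.Φ` satisfies helper962's `IsModularShape p`:
`Φ = Y^{p+1} + c_p(X) Y^p + … + c_0(X)` with `c_0 = ± X^{p+1} + …`, `c_p = - X^p + …` and
`deg c_k ≤ p` for `0 < k < p`.

Proof: over `ℂ`, `Φ(j_p, Y) = (Y - j_{p²}) ∏_{b < p} (Y - j(ζ^b q))` (S28/H386/RootList); compare the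
leading terms of the `q`-expansions of the coefficients.
-/





set_option autoImplicit false

noncomputable section

open ModularCurve HahnSeries Polynomial
open Fermat.Agent.S28 Fermat.Agent.S28.H386 Fermat.Agent.S15.H962

namespace Fermat.Agent.S15.H386

variable {k : Type*} [Field k]

/-! ### Leading terms of the basic series -/

theorem isLead_jqModC : IsLead (jqModC k) (-1) 1 :=
  ⟨coeff_jqModC_neg_one k, fun _ hm => coeff_jqModC_of_lt k hm⟩

theorem isLead_qExpand (p : ℕ) [NeZero p] {f : LaurentSeries k} {n : ℤ} {a : k}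
    (h : IsLead f n a) : IsLead (qExpand k p f) (p * n) a := by
  refine ⟨by rw [qExpand_coeff_mul]; exact h.1, fun m hm => ?_⟩
  by_cases hd : (p : ℤ) ∣ m
  · obtain ⟨c, rfl⟩ := hd
    rw [qExpand_coeff_mul]
    have hp : (0 : ℤ) < p := by exact_mod_cast Nat.pos_of_ne_zero (NeZero.ne p)
    exact h.2 c (lt_of_mul_lt_mul_left hm hp.le)
  · exact qExpand_coeff_of_not_dvd p f hd

theorem isLead_twist (ξ : kˣ) {f : LaurentSeries k} {n : ℤ} {a : k} (h : IsLead f n a) :
    IsLead (_root_.Fermat.Agent.S28.H386.twist ξ f) n (((ξ ^ n : kˣ) : k) * a) :=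
  ⟨by rw [_root_.Fermat.Agent.S28.H386.twist_coeff, h.1], fun m hm => by rw [_root_.Fermat.Agent.S28.H386.twist_coeff, h.2 m hm, mul_zero]⟩

theorem isLead_jd (p : ℕ) [NeZero p] : IsLead (jd k p) (-(p : ℤ)) 1 := by
  have := isLead_qExpand p (isLead_jqModC (k := k))
  rwa [mul_neg, mul_one] at this

theorem isLead_qExpand_jd (p : ℕ) [NeZero p] :
    IsLead (qExpand k p (jd k p)) (-((p : ℤ) * p)) 1 := by
  have := isLead_qExpand p (isLead_jd (k := k) p)
  rwa [mul_neg] at this

theorem isLead_twist_jqModC (ξ : kˣ) : IsLead (_root_.Fermat.Agent.S28.H386.twist ξ (jqModC k)) (-1) ((ξ⁻¹ : kˣ) : k) := by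
  have := isLead_twist ξ (isLead_jqModC (k := k))
  rwa [mul_one, zpow_neg_one] at this

/-! ### Leading term of an integer polynomial in a series with a pole -/

theorem isLead_intEval {y : LaurentSeries k} {m : ℤ} (hm : 0 < m) (hy : IsLead y (-m) 1)
    (c : ℤ[X]) (d : ℕ) (hd : c.natDegree ≤ d) :
    IsLead (intEval y c) (-(m * d)) ((c.coeff d : ℤ) : k) := by
  have h1 : intEval y c =
      ∑ i ∈ Finset.range (d + 1), ((c.coeff i : ℤ) : LaurentSeries k) * y ^ i := by
    unfold intEval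
    rw [Polynomial.coe_eval₂RingHom, Polynomial.eval₂_eq_sum_range' _ (Nat.lt_succ_of_le hd)]
    simp
  have hterm : ∀ i : ℕ, IsLead (((c.coeff i : ℤ) : LaurentSeries k) * y ^ i) (-(m * i))
      ((c.coeff i : ℤ) : k) := by
    intro i
    have h2 := (isLead_intCast (k := k) (c.coeff i)).mul (hy.pow i)
    rw [one_pow, mul_one, zero_add] at h2
    have h3 : (i : ℤ) * -m = -(m * i) := by ring
    rwa [h3] at h2
  have hlow : IsLead (∑ i ∈ Finset.range d, ((c.coeff i : ℤ) : LaurentSeries k) * y ^ i)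
      (-(m * d)) 0 := by
    have h2 := isLead_sum (Finset.range d)
      (fun i => ((c.coeff i : ℤ) : LaurentSeries k) * y ^ i) (-(m * d)) (fun _ => (0 : k))
      (fun i hi => (hterm i).of_lt (by
        have hi' : (i : ℤ) < d := by exact_mod_cast Finset.mem_range.mp hi
        nlinarith))
    simpa using h2
  rw [h1, Finset.sum_range_succ]
  have h4 := hlow.add (hterm d)
  rwa [zero_add] at h4

/-! ### Coefficients of a product of linear factors with simple poles -/

theorem isLead_coeff_prod_X_sub_C (s : Multiset (LaurentSeries k))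
    (hs : ∀ r ∈ s, ∃ a, IsLead r (-1) a) (i : ℕ) :
    ∃ a, IsLead (((s.map fun r => X - Polynomial.C r).prod).coeff i)
      ((i : ℤ) - Multiset.card s) a := by
  induction s using Multiset.induction_on generalizing i with
  | empty =>
    rw [Multiset.map_zero, Multiset.prod_zero, Multiset.card_zero, Nat.cast_zero, sub_zero,
      Polynomial.coeff_one]
    rcases Nat.eq_zero_or_pos i with rfl | hi
    · rw [if_pos rfl, Nat.cast_zero]
      exact ⟨1, isLead_one⟩
    · rw [if_neg hi.ne']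
      exact ⟨0, isLead_zero _⟩
  | cons r s ih =>
    obtain ⟨a, ha⟩ := hs r (Multiset.mem_cons_self r s)
    have ih' := ih fun t ht => hs t (Multiset.mem_cons_of_mem ht)
    rw [Multiset.map_cons, Multiset.prod_cons, Multiset.card_cons]
    set Q := (s.map fun r => X - Polynomial.C r).prod with hQ
    rcases Nat.eq_zero_or_pos i with rfl | hi
    · obtain ⟨a₂, h₂⟩ := ih' 0
      have h0 : ((X - Polynomial.C r) * Q).coeff 0 = -r * Q.coeff 0 := by
        rw [Polynomial.mul_coeff_zero, Polynomial.coeff_sub, Polynomial.coeff_X_zero,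
          Polynomial.coeff_C_zero, zero_sub]
      rw [h0]
      refine ⟨-a * a₂, ?_⟩
      have h3 := ha.neg.mul h₂
      have h4 : (-1 : ℤ) + (((0 : ℕ) : ℤ) - (Multiset.card s : ℤ)) =
          ((0 : ℕ) : ℤ) - ((Multiset.card s + 1 : ℕ) : ℤ) := by
        push_cast; ring
      rwa [h4] at h3
    · obtain ⟨j, rfl⟩ : ∃ j, i = j + 1 := ⟨i - 1, by omega⟩
      obtain ⟨a₁, h₁⟩ := ih' j
      obtain ⟨a₂, h₂⟩ := ih' (j + 1)
      have h0 : ((X - Polynomial.C r) * Q).coeff (j + 1) = Q.coeff j - r * Q.coeff (j + 1) := by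
        rw [sub_mul, Polynomial.coeff_sub, Polynomial.coeff_X_mul, Polynomial.coeff_C_mul]
      rw [h0]
      refine ⟨a₁ - a * a₂, ?_⟩
      have h3 := ha.mul h₂
      have h4 : (-1 : ℤ) + (((j + 1 : ℕ) : ℤ) - (Multiset.card s : ℤ)) =
          (j : ℤ) - (Multiset.card s : ℤ) := by
        push_cast; ring
      rw [h4] at h3
      have h5 := h₁.sub h3
      have h6 : (j : ℤ) - (Multiset.card s : ℤ) =
          ((j + 1 : ℕ) : ℤ) - ((Multiset.card s + 1 : ℕ) : ℤ) := by
        push_cast; ring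
      rwa [h6] at h5

/-! ### The coefficients of `Φ_p(j_p, Y)` -/

section Main

variable {p : ℕ} [NeZero p] (D : ModPolyData p)

theorem coeff_phiAt (y : LaurentSeries k) (i : ℕ) :
    (phiAt D.Φ y).coeff i = intEval y (D.Φ.coeff i) :=
  Polynomial.coeff_map _ _

/-- `Q = ∏_{b < p} (Y - j(ζ^b q))`. -/
def twPoly (p : ℕ) (k : Type*) [Field k] (ζ : kˣ) : (LaurentSeries k)[X] :=
  ((twRoots p k ζ).map fun a => X - Polynomial.C a).prod

theorem phiAt_jp_eq_mul (hp : 1 < p) {ζ : kˣ} (hζ : IsPrimitiveRoot ζ p) :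
    phiAt D.Φ (jd k p) = (X - Polynomial.C (qExpand k p (jd k p))) * twPoly p k ζ := by
  rw [phiAt_jp_eq_prod D hp hζ, allRoots, Multiset.map_cons, Multiset.prod_cons, twPoly]

theorem twPoly_monic (ζ : kˣ) : (twPoly p k ζ).Monic :=
  Polynomial.monic_multiset_prod_of_monic _ _ fun a _ => Polynomial.monic_X_sub_C a

theorem natDegree_twPoly (ζ : kˣ) : (twPoly p k ζ).natDegree = p := by
  rw [twPoly, Polynomial.natDegree_multiset_prod_of_monic _
    (by
      intro f hf
      obtain ⟨a, -, rfl⟩ := Multiset.mem_map.mp hf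
      exact Polynomial.monic_X_sub_C a)]
  rw [Multiset.map_map]
  have : (Polynomial.natDegree ∘ fun a : LaurentSeries k => X - Polynomial.C a) = fun _ => 1 := by
    funext a
    exact Polynomial.natDegree_X_sub_C a
  rw [this, Multiset.map_const', Multiset.sum_replicate, card_twRoots, smul_eq_mul, mul_one]

theorem coeff_twPoly_self (ζ : kˣ) : (twPoly p k ζ).coeff p = 1 := by
  have h := twPoly_monic (p := p) (k := k) ζ
  rwa [Polynomial.Monic, Polynomial.leadingCoeff, natDegree_twPoly] at h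

theorem isLead_coeff_twPoly (ζ : kˣ) (i : ℕ) :
    ∃ a, IsLead ((twPoly p k ζ).coeff i) ((i : ℤ) - p) a := by
  have h := isLead_coeff_prod_X_sub_C (twRoots p k ζ) (fun r hr => by
    obtain ⟨b, -, rfl⟩ := Multiset.mem_map.mp hr
    exact ⟨_, isLead_twist_jqModC (ζ ^ b)⟩) i
  rwa [card_twRoots] at h

/-- The constant coefficient of `Q`. -/
theorem isLead_coeff_zero_twPoly {ζ : kˣ} (hζ : ζ ^ p = 1) :
    ∃ u : k, u ^ (2 * p) = 1 ∧ IsLead ((twPoly p k ζ).coeff 0) (-(p : ℤ)) u := by
  have h0 : (twPoly p k ζ).coeff 0 =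
      ((Multiset.range p).map fun b => -_root_.Fermat.Agent.S28.H386.twist (ζ ^ b) (jqModC k)).prod := by
    rw [twPoly, Polynomial.coeff_zero_multiset_prod, twRoots, Multiset.map_map, Multiset.map_map]
    congr 1
    refine Multiset.map_congr rfl fun b _ => ?_
    simp
  have h1 := isLead_multiset_prod (Multiset.range p) (fun b => -_root_.Fermat.Agent.S28.H386.twist (ζ ^ b) (jqModC k))
    (fun _ => (-1 : ℤ)) (fun b => -(((ζ ^ b)⁻¹ : kˣ) : k))
    (fun b _ => (isLead_twist_jqModC (ζ ^ b)).neg)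
  have h2 : ((Multiset.range p).map fun _ : ℕ => (-1 : ℤ)).sum = -(p : ℤ) := by
    rw [Multiset.map_const', Multiset.sum_replicate, Multiset.card_range]
    simp
  rw [h2, ← h0] at h1
  refine ⟨_, ?_, h1⟩
  rw [← Multiset.prod_map_pow]
  refine Multiset.prod_eq_one fun x hx => ?_
  obtain ⟨b, -, rfl⟩ := Multiset.mem_map.mp hx
  have h3 : (ζ ^ b)⁻¹ ^ (2 * p) = 1 := by
    rw [inv_pow, ← pow_mul, show b * (2 * p) = p * (b * 2) by ring, pow_mul, hζ, one_pow,
      inv_one]
  rw [neg_pow, pow_mul, neg_one_sq, one_pow, one_mul, ← Units.val_pow_eq_pow_val, h3,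
    Units.val_one]

/-- The coefficients of `Φ_p(j_p, Y)`: coefficient of `Y^{j+1}`. -/
theorem isLead_coeff_phiAt_succ (hp : 1 < p) {ζ : kˣ} (hζ : IsPrimitiveRoot ζ p) (j : ℕ) :
    ∃ a₂, IsLead ((twPoly p k ζ).coeff (j + 1)) (((j + 1 : ℕ) : ℤ) - p) a₂ ∧
      IsLead ((phiAt D.Φ (jd k p)).coeff (j + 1)) (((j + 1 : ℕ) : ℤ) - p - (p : ℤ) * p) (-a₂) := by
  obtain ⟨a₁, h₁⟩ := isLead_coeff_twPoly (p := p) (k := k) ζ j
  obtain ⟨a₂, h₂⟩ := isLead_coeff_twPoly (p := p) (k := k) ζ (j + 1)
  refine ⟨a₂, h₂, ?_⟩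
  have h0 : (phiAt D.Φ (jd k p)).coeff (j + 1) =
      (twPoly p k ζ).coeff j - qExpand k p (jd k p) * (twPoly p k ζ).coeff (j + 1) := by
    rw [phiAt_jp_eq_mul D hp hζ, sub_mul, Polynomial.coeff_sub, Polynomial.coeff_X_mul,
      Polynomial.coeff_C_mul]
  rw [h0]
  have hp' : (1 : ℤ) < p := by exact_mod_cast hp
  have h3 : IsLead ((twPoly p k ζ).coeff j) (((j + 1 : ℕ) : ℤ) - p - (p : ℤ) * p) 0 :=
    h₁.of_lt (by push_cast; nlinarith)
  have h4 := (isLead_qExpand_jd (k := k) p).mul h₂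
  have h5 : -((p : ℤ) * p) + (((j + 1 : ℕ) : ℤ) - p) = ((j + 1 : ℕ) : ℤ) - p - (p : ℤ) * p := by
    ring
  rw [h5, one_mul] at h4
  have h6 := h3.sub h4
  rwa [zero_sub] at h6

/-- The coefficient of `Y^p` of `Φ_p(j_p, Y)` is `-q^{-p²} + …`. -/
theorem isLead_coeff_phiAt_top (hp : 1 < p) {ζ : kˣ} (hζ : IsPrimitiveRoot ζ p) :
    IsLead ((phiAt D.Φ (jd k p)).coeff p) (-((p : ℤ) * p)) (-1) := by
  obtain ⟨j, hj⟩ : ∃ j, p = j + 1 := ⟨p - 1, by omega⟩
  obtain ⟨a₂, h₂, h⟩ := isLead_coeff_phiAt_succ (k := k) D hp hζ j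
  rw [← hj] at h h₂
  rw [sub_self] at h₂
  rw [sub_self, zero_sub] at h
  have h1 : a₂ = 1 := by
    rw [← h₂.coeff_eq, coeff_twPoly_self]
    exact isLead_one.coeff_eq
  rwa [h1] at h

/-- The constant coefficient of `Φ_p(j_p, Y)` is `u q^{-p²-p} + …` with `u` a root of unity. -/
theorem isLead_coeff_phiAt_zero (hp : 1 < p) {ζ : kˣ} (hζ : IsPrimitiveRoot ζ p) :
    ∃ u : k, u ^ (2 * p) = 1 ∧
      IsLead ((phiAt D.Φ (jd k p)).coeff 0) (-((p : ℤ) * p) - p) u := by
  obtain ⟨u, hu, h⟩ := isLead_coeff_zero_twPoly (p := p) (k := k) hζ.pow_eq_one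
  have h0 : (phiAt D.Φ (jd k p)).coeff 0 =
      -qExpand k p (jd k p) * (twPoly p k ζ).coeff 0 := by
    rw [phiAt_jp_eq_mul D hp hζ, Polynomial.mul_coeff_zero, Polynomial.coeff_sub,
      Polynomial.coeff_X_zero, Polynomial.coeff_C_zero, zero_sub]
  rw [h0]
  refine ⟨-1 * u, ?_, ?_⟩
  · rw [mul_pow, hu, mul_one, pow_mul, neg_one_sq, one_pow]
  · have h1 := (isLead_qExpand_jd (k := k) p).neg.mul h
    have h2 : -((p : ℤ) * p) + -(p : ℤ) = -((p : ℤ) * p) - p := by ring
    rwa [h2] at h1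

end Main

/-! ### Modular shape -/

section Shape

variable {p : ℕ} [NeZero p] (D : ModPolyData p)

/-- Comparison: the degree and the leading coefficient of an integer polynomial `c` from the
leading term of `c(j_p)`. -/
theorem natDegree_eq_of_isLead [CharZero k] {c : ℤ[X]} {n : ℕ} {u : k} (hu : u ≠ 0)
    (h : IsLead (intEval (jd k p) c) (-((p : ℤ) * n)) u) :
    c.natDegree = n ∧ ((c.leadingCoeff : ℤ) : k) = u := by
  have hp : (0 : ℤ) < p := by exact_mod_cast Nat.pos_of_ne_zero (NeZero.ne p)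
  have hc : c ≠ 0 := by
    rintro rfl
    rw [map_zero] at h
    exact hu (h.coeff_eq.symm.trans rfl)
  have h1 := isLead_intEval (k := k) hp (isLead_jd p) c c.natDegree le_rfl
  have hlc : ((c.coeff c.natDegree : ℤ) : k) ≠ 0 := by
    rw [Polynomial.coeff_natDegree]
    exact Int.cast_ne_zero.mpr (Polynomial.leadingCoeff_ne_zero.mpr hc)
  obtain ⟨h2, h3⟩ := h1.unique h hlc hu
  refine ⟨?_, ?_⟩
  · have h4 : (p : ℤ) * c.natDegree = (p : ℤ) * n := neg_injective h2
    exact_mod_cast mul_left_cancel₀ hp.ne' h4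
  · rw [← Polynomial.coeff_natDegree]
    exact h3

/-- Comparison: a bound for the degree of an integer polynomial `c` from the order of
`c(j_p)`. -/
theorem natDegree_le_of_isLead [CharZero k] {c : ℤ[X]} {n : ℕ} {m : ℤ} {a : k}
    (h : IsLead (intEval (jd k p) c) m a) (hm : -((p : ℤ) * (n + 1)) < m) :
    c.natDegree ≤ n := by
  have hp : (0 : ℤ) < p := by exact_mod_cast Nat.pos_of_ne_zero (NeZero.ne p)
  by_contra hcon
  have hd : n + 1 ≤ c.natDegree := by omega
  have hc : c ≠ 0 := by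
    rintro rfl
    simp at hd
  have h1 := isLead_intEval (k := k) hp (isLead_jd p) c c.natDegree le_rfl
  have hlc : ((c.coeff c.natDegree : ℤ) : k) ≠ 0 := by
    rw [Polynomial.coeff_natDegree]
    exact Int.cast_ne_zero.mpr (Polynomial.leadingCoeff_ne_zero.mpr hc)
  have h2 := h1.le_of_ne_zero hlc h
  have hd' : ((n : ℤ) + 1) ≤ c.natDegree := by exact_mod_cast hd
  nlinarith

/-- **The modular polynomial has modular shape** (version over a field of characteristic zero
containing a primitive `p`-th root of unity). -/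
theorem isModularShape_of_primitiveRoot [CharZero k] (hp : 1 < p) {ζ : kˣ}
    (hζ : IsPrimitiveRoot ζ p) : IsModularShape p D.Φ := by
  have hp0 : (0 : ℤ) < p := by exact_mod_cast Nat.pos_of_ne_zero (NeZero.ne p)
  -- constant coefficient
  obtain ⟨u, hu, h0⟩ := isLead_coeff_phiAt_zero (k := k) D hp hζ
  have hu0 : u ≠ 0 := by
    rintro rfl
    rw [zero_pow (by omega)] at hu
    exact zero_ne_one hu
  rw [coeff_phiAt] at h0
  have h0' : IsLead (intEval (jd k p) (D.Φ.coeff 0)) (-((p : ℤ) * ((p + 1 : ℕ) : ℤ))) u := by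
    have : -((p : ℤ) * ((p + 1 : ℕ) : ℤ)) = -((p : ℤ) * p) - p := by push_cast; ring
    rwa [this]
  obtain ⟨hd0, hl0⟩ := natDegree_eq_of_isLead hu0 h0'
  -- top coefficient
  have ht := isLead_coeff_phiAt_top (k := k) D hp hζ
  rw [coeff_phiAt] at ht
  obtain ⟨hdt, hlt⟩ := natDegree_eq_of_isLead (neg_ne_zero.mpr one_ne_zero) ht
  refine ⟨D.natDegree_eq, D.monic, hd0, ?_, hdt, ?_, ?_⟩
  · have h1 : ((D.Φ.coeff 0).leadingCoeff) ^ (2 * p) = 1 := by
      have : ((((D.Φ.coeff 0).leadingCoeff) ^ (2 * p) : ℤ) : k) = ((1 : ℤ) : k) := by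
        rw [Int.cast_pow, hl0, hu, Int.cast_one]
      exact Int.cast_injective this
    exact IsUnit.of_pow_eq_one h1 (by omega)
  · have h1 : (D.Φ.coeff p).leadingCoeff = -1 := by
      have : (((D.Φ.coeff p).leadingCoeff : ℤ) : k) = ((-1 : ℤ) : k) := by
        rw [hlt, Int.cast_neg, Int.cast_one]
      exact Int.cast_injective this
    rw [h1]
    exact isUnit_one.neg
  · intro i hi0 hip
    obtain ⟨j, rfl⟩ : ∃ j, i = j + 1 := ⟨i - 1, by omega⟩
    obtain ⟨a₂, -, h⟩ := isLead_coeff_phiAt_succ (k := k) D hp hζ j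
    rw [coeff_phiAt] at h
    refine natDegree_le_of_isLead h ?_
    push_cast
    nlinarith

/-- **The modular polynomial of level `p` has modular shape.** -/
theorem isModularShape_of_modPolyData (hp : 1 < p) : IsModularShape p D.Φ := by
  have hp0 : p ≠ 0 := NeZero.ne p
  have hζ := Complex.isPrimitiveRoot_exp p hp0
  have hu : IsUnit (Complex.exp (2 * Real.pi * Complex.I / p)) := hζ.isUnit hp0
  obtain ⟨ζ, hζ'⟩ := hu
  have hζ'' : IsPrimitiveRoot ζ p := by
    rw [← IsPrimitiveRoot.coe_units_iff, hζ']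
    exact hζ
  exact isModularShape_of_primitiveRoot (k := ℂ) D hp hζ''

end Shape

end Fermat.Agent.S15.H386

end
end
-- ===== PACK-END S15/H386/ModShape.lean

-- ===== PACK-BEGIN Lib/Cheb/H343/PrimeSumZ.lean
section




/-!
# CHEB pieces Z and B0 in the frozen `Spec` shape

* `Fermat.Agent.Lib.Cheb.H343.primeSum : Spec.PrimeSumStatement`
* `Fermat.Agent.Lib.Cheb.H343.primeCountBound : Spec.PrimeCountBoundStatement`
-/

set_option autoImplicit false
set_option linter.style.haveILetI false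
set_option linter.unusedSectionVars false

namespace Fermat.Agent.Lib.Cheb.H343

open NumberField Ideal Filter Topology Finset
open Fermat.Agent.Lib.EulerProd

variable (F : Type) [Field F] [NumberField F]

/-- The fibre type of `Spec.primeCount`. -/
abbrev PrimeFibre (p : ℕ) : Type := {𝔮 : Ideal (𝓞 F) // 𝔮.IsPrime ∧ Ideal.absNorm 𝔮 = p}

instance instFinitePrimeFibre (p : ℕ) : Finite (PrimeFibre F p) := by
  haveI : Finite {I : Ideal (𝓞 F) // absNorm I = p} := finite_setOfPred_absNorm_eq p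
  exact Finite.of_injective
    (fun 𝔮 : PrimeFibre F p => (⟨𝔮.1, 𝔮.2.2⟩ : {I : Ideal (𝓞 F) // absNorm I = p}))
    (fun a b h => Subtype.ext (congrArg (fun x => x.1) h))

theorem primeCount_eq (p : ℕ) : Spec.primeCount F p = Nat.card (PrimeFibre F p) := rfl

variable {F}

theorem PrimeFibre.prime {p : ℕ} (hp : p ≠ 0) (𝔮 : PrimeFibre F p) : Prime 𝔮.1 := by
  have hne : 𝔮.1 ≠ ⊥ := by
    intro h
    have := 𝔮.2.2
    rw [h, Ideal.absNorm_bot] at this
    exact hp this.symm
  exact (Ideal.prime_iff_isPrime hne).mpr 𝔮.2.1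

variable (F)

/-- Degree-one primes, fibred over their norm. -/
noncomputable def degOneEquiv : degOne F ≃ Σ p : Nat.Primes, PrimeFibre F p where
  toFun 𝔭 := ⟨⟨absNorm 𝔭.1.1, 𝔭.2⟩, ⟨𝔭.1.1, 𝔭.1.isPrime, rfl⟩⟩
  invFun x := ⟨⟨x.2.1, PrimeFibre.prime x.1.2.ne_zero x.2⟩, by
    show (absNorm x.2.1).Prime
    rw [x.2.2.2]
    exact x.1.2⟩
  left_inv 𝔭 := rfl
  right_inv x := by
    obtain ⟨⟨p, hp⟩, 𝔮, hq, h⟩ := x
    dsimp only at h
    subst h
    rfl

theorem primeSumOne_eq_tsum_primes {s : ℝ} (hs : 1 < s) :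
    primeSumOne F s =
      ∑' p : Nat.Primes, (Spec.primeCount F p : ℝ) * ((p : ℕ) : ℝ) ^ (-s) := by
  have hsum : Summable (fun 𝔭 : degOne F => 𝔭.1.x s) := summable_x_subtype F hs _
  have h1 : primeSumOne F s =
      ∑' x : (Σ p : Nat.Primes, PrimeFibre F p), (((x.1 : ℕ) : ℝ)) ^ (-s) := by
    rw [primeSumOne, ← (degOneEquiv F).tsum_eq]
    rfl
  have hsum' : Summable (fun x : (Σ p : Nat.Primes, PrimeFibre F p) =>
      (((x.1 : ℕ) : ℝ)) ^ (-s)) := by
    rw [← (degOneEquiv F).summable_iff]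
    exact hsum
  rw [h1, Summable.tsum_sigma' (fun p => Summable.of_finite) hsum']
  refine tsum_congr fun p => ?_
  show ∑' (_ : PrimeFibre F p), (((p : ℕ) : ℝ)) ^ (-s) = _
  rw [tsum_const, nsmul_eq_mul, primeCount_eq]

/-- **Z** (= F1 = W1). -/
theorem primeSum : Spec.PrimeSumStatement := by
  intro F _ _
  obtain ⟨C, hC⟩ := exists_primeSumOne_bound F
  refine ⟨C, fun s hs1 hs2 => ?_⟩
  have h := hC s hs1 hs2
  rw [primeSumOne_eq_tsum_primes F hs1] at h
  exact h

/-- **B0**: at most `[F : ℚ]` primes of norm `p`. -/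
theorem primeCountBound : Spec.PrimeCountBoundStatement := by
  classical
  intro F _ _ p
  rw [primeCount_eq]
  have hn : 1 ≤ Module.finrank ℚ F := Module.finrank_pos
  rcases Nat.eq_zero_or_pos p with rfl | hp
  · -- only `⊥` has norm `0`
    have : Subsingleton (PrimeFibre F 0) := by
      refine ⟨fun a b => Subtype.ext ?_⟩
      rw [Ideal.absNorm_eq_zero_iff.mp a.2.2, Ideal.absNorm_eq_zero_iff.mp b.2.2]
    exact le_trans (Finite.card_le_one_iff_subsingleton.mpr this) hn
  · rcases isEmpty_or_nonempty (PrimeFibre F p) with he | ⟨⟨𝔮₀⟩⟩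
    · rw [Nat.card_of_isEmpty]
      exact Nat.zero_le _
    · let 𝔭₀ : PrimeIdeal F := ⟨𝔮₀.1, PrimeFibre.prime hp.ne' 𝔮₀⟩
      obtain ⟨hq, hmem, k, hk1, -, hk⟩ := 𝔭₀.below_spec
      have hpk : p = 𝔭₀.below ^ k := by rw [← hk]; exact 𝔮₀.2.2.symm
      have hall : ∀ 𝔮 : PrimeFibre F p, ((𝔭₀.below : ℕ) : 𝓞 F) ∈ 𝔮.1 := by
        intro 𝔮
        have h1 : ((absNorm 𝔮.1 : ℕ) : 𝓞 F) ∈ 𝔮.1 := absNorm_mem 𝔮.1
        have h2 : absNorm 𝔮.1 = 𝔭₀.below ^ k := 𝔮.2.2.trans hpk
        rw [h2, Nat.cast_pow] at h1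
        exact 𝔮.2.1.mem_of_pow_mem k h1
      haveI : Fintype (PrimeFibre F p) := Fintype.ofFinite _
      let g : PrimeFibre F p → PrimeIdeal F := fun 𝔮 => ⟨𝔮.1, PrimeFibre.prime hp.ne' 𝔮⟩
      have hg : Function.Injective g := fun a b h =>
        Subtype.ext (congrArg (fun x : PrimeIdeal F => x.1) h)
      have hcard := card_le_finrank_of_mem hq (Finset.univ.image g) (fun 𝔭 h𝔭 => by
        obtain ⟨𝔮, -, rfl⟩ := Finset.mem_image.mp h𝔭
        exact hall 𝔮)
      rw [Finset.card_image_of_injective _ hg, Finset.card_univ] at hcard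
      rwa [Nat.card_eq_fintype_card]

end Fermat.Agent.Lib.Cheb.H343

end
-- ===== PACK-END Lib/Cheb/H343/PrimeSumZ.lean

-- ===== PACK-BEGIN S36/Mod3/H985/GaussChange.lean
section


/-!
# S36 / MOD3 — GAUSS-CHANGE (helper985): change of coordinate for the Gauss property

`R` a local ring, `L` a field over `R`, `V` a valuation subring of `L` lying over `R`
(`A2.H489.IsOver`).  `A2.H489.IsGaussOver R V y` says that the residue of `y` in the residue field
of `V` is transcendental over the residue field of `R`.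

* `isAlgebraic_of_isIntegralElem` : in a field extension, integral over `k[a]` with `a` algebraic
  implies algebraic;
* `isGaussOver_of_isIntegralElem` : **GAUSS-CHANGE**.  If `y` is Gauss at `V`, `x ∈ V` and `y` is
  integral over `R[x]`, then `x` is Gauss at `V`;
* `isGaussOver_of_mem_adjoin_integral` : the same with `IsIntegral (Algebra.adjoin R {x}) y`;
* `inv_aeval_mem_of_isGaussOver` : the elementwise form used by `A2.H12.IsSheet` and by the fields
  `gauss_i` of `S36.Eng.TripleCtx`.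

Mathlib + `A2.H489` (definitions `IsOver`, `IsGaussOver`) only.
-/

set_option autoImplicit false
set_option linter.unusedSectionVars false
set_option linter.style.haveILetI false

noncomputable section

namespace Fermat.Agent.S36.Mod3.H985

open Polynomial IsLocalRing
open Fermat.Agent.A2

/-! ## The residue-field statement -/

section Residue

variable {k κ : Type*} [Field k] [Field κ] [Algebra k κ]

/-- In a field extension `κ / k`: if `b` is a root of a monic polynomial whose coefficients are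
polynomials in `a`, and `a` is algebraic over `k`, then `b` is algebraic over `k`. -/
theorem isAlgebraic_of_isIntegralElem {a b : κ} (ha : IsAlgebraic k a)
    (hb : ∃ G : Polynomial (Polynomial k), G.Monic ∧
      G.eval₂ (Polynomial.eval₂RingHom (algebraMap k κ) a) b = 0) : IsAlgebraic k b := by
  obtain ⟨G, hG, hGb⟩ := hb
  have haC : a ∈ integralClosure k κ := ha.isIntegral
  set g : Polynomial k →+* integralClosure k κ :=
    (Polynomial.aeval (⟨a, haC⟩ : integralClosure k κ)).toRingHom with hg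
  have hcomp : (algebraMap (integralClosure k κ) κ).comp g =
      Polynomial.eval₂RingHom (algebraMap k κ) a := by
    apply Polynomial.ringHom_ext
    · intro c
      simp [hg]
    · simp [hg]
  have hint : IsIntegral (integralClosure k κ) b := by
    refine ⟨G.map g, hG.map g, ?_⟩
    rw [Polynomial.eval₂_map, hcomp]
    exact hGb
  exact (isIntegral_trans b hint).isAlgebraic

end Residue

/-! ## GAUSS-CHANGE -/

section Main

variable {R L : Type*} [CommRing R] [IsLocalRing R] [Field L] [Algebra R L]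
  {V : ValuationSubring L}

/-- The residue map of `V` on the image of `R`. -/
def resMap (hV : H489.IsOver R V) : R →+* ResidueField V :=
  (residue V).comp (H489.toValSub V hV.mem)

theorem resMap_eq_zero (hV : H489.IsOver R V) {r : R} (hr : r ∈ maximalIdeal R) :
    resMap hV r = 0 := by
  rw [resMap, RingHom.comp_apply, residue_eq_zero_iff]
  have h := hV.nonunit r hr
  rw [ValuationSubring.mem_nonunits_iff_exists_mem_maximalIdeal] at h
  obtain ⟨_, h⟩ := h
  exact h

theorem isLocalHom_resMap (hV : H489.IsOver R V) : IsLocalHom (resMap hV) :=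
  ⟨fun a ha => by
    by_contra hna
    have hm : a ∈ maximalIdeal R := (mem_maximalIdeal a).mpr hna
    rw [resMap_eq_zero hV hm] at ha
    exact not_isUnit_zero ha⟩

/-- The induced map of residue fields `k(R) → k(V)`. -/
def resLift (hV : H489.IsOver R V) : ResidueField R →+* ResidueField V :=
  haveI := isLocalHom_resMap hV
  ResidueField.lift (resMap hV)

theorem resLift_comp_residue (hV : H489.IsOver R V) :
    (resLift hV).comp (residue R) = resMap hV := by
  haveI := isLocalHom_resMap hV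
  exact ResidueField.lift_comp_residue (resMap hV)

theorem resLift_residue (hV : H489.IsOver R V) (r : R) :
    resLift hV (residue R r) = resMap hV r := by
  rw [← resLift_comp_residue hV]
  rfl

/-- the residue of `P(z)`, `z ∈ V`, `P ∈ R[X]` -/
theorem residue_aeval (hV : H489.IsOver R V) (z : V) (P : R[X])
    (h : aeval (z : L) P ∈ V) :
    residue V ⟨aeval (z : L) P, h⟩ =
      (P.map (residue R)).eval₂ (resLift hV) (residue V z) := by
  rw [Polynomial.eval₂_map, resLift_comp_residue, resMap, ← Polynomial.hom_eval₂]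
  congr 1
  apply Subtype.ext
  have h1 := Polynomial.hom_eval₂ P (H489.toValSub V hV.mem) V.subtype z
  have h2 : V.subtype.comp (H489.toValSub V hV.mem) = algebraMap R L := by
    ext r
    rfl
  rw [h2] at h1
  show aeval (z : L) P = V.subtype (eval₂ (H489.toValSub V hV.mem) z P)
  rw [h1]
  rfl

/-- the residue of `G(x, y)`, `x y ∈ V`, `G ∈ R[X][Y]` -/
theorem residue_eval₂_eval₂ (hV : H489.IsOver R V) (x y : V) (G : Polynomial (Polynomial R))
    (h0 : G.eval₂ (Polynomial.eval₂RingHom (algebraMap R L) (x : L)) (y : L) = 0) :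
    (G.map (Polynomial.mapRingHom (residue R))).eval₂
      (Polynomial.eval₂RingHom (resLift hV) (residue V x)) (residue V y) = 0 := by
  -- the identity holds in `V`
  have hV0 : G.eval₂ (Polynomial.eval₂RingHom (H489.toValSub V hV.mem) x) y = 0 := by
    apply Subtype.ext
    have h1 := Polynomial.hom_eval₂ G (Polynomial.eval₂RingHom (H489.toValSub V hV.mem) x)
      V.subtype y
    have h2 : V.subtype.comp (Polynomial.eval₂RingHom (H489.toValSub V hV.mem) x) =
        Polynomial.eval₂RingHom (algebraMap R L) (x : L) := by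
      apply Polynomial.ringHom_ext
      · intro r
        simp
      · simp
    rw [h2] at h1
    show V.subtype (eval₂ (Polynomial.eval₂RingHom (H489.toValSub V hV.mem) x) y G) = 0
    rw [h1]
    exact h0
  have h3 := Polynomial.hom_eval₂ G (Polynomial.eval₂RingHom (H489.toValSub V hV.mem) x)
    (residue V) y
  rw [hV0, map_zero] at h3
  rw [Polynomial.eval₂_map]
  have h4 : (Polynomial.eval₂RingHom (resLift hV) (residue V x)).comp
      (Polynomial.mapRingHom (residue R)) =
      (residue V).comp (Polynomial.eval₂RingHom (H489.toValSub V hV.mem) x) := by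
    apply Polynomial.ringHom_ext
    · intro r
      simp [resLift_residue, resMap]
    · simp
  rw [h4]
  exact h3.symm

/-- **GAUSS-CHANGE.**  If `y` is Gauss at `V` (its residue is transcendental over the residue
field of `R`), `x ∈ V`, and `y` is integral over `R[x]`, then `x` is Gauss at `V`. -/
theorem isGaussOver_of_isIntegralElem {x y : L} (hy : H489.IsGaussOver R V y) (hx : x ∈ V)
    (hint : ∃ G : Polynomial (Polynomial R), G.Monic ∧
      G.eval₂ (Polynomial.eval₂RingHom (algebraMap R L) x) y = 0) :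
    H489.IsGaussOver R V x where
  isOver := hy.isOver
  mem := hx
  prim := by
    intro P hP
    by_contra hne
    have hV := hy.isOver
    letI : Algebra (ResidueField R) (ResidueField V) := (resLift hV).toAlgebra
    have halg : algebraMap (ResidueField R) (ResidueField V) = resLift hV := rfl
    -- the residue of `x` is algebraic
    have hxa : IsAlgebraic (ResidueField R) (residue V ⟨x, hx⟩) := by
      refine ⟨P.map (residue R), hne, ?_⟩
      rw [Polynomial.aeval_def, halg]
      have h1 := residue_aeval hV ⟨x, hx⟩ P (hV.aeval_mem hx P)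
      rw [← h1, residue_eq_zero_iff]
      rw [ValuationSubring.mem_nonunits_iff_exists_mem_maximalIdeal] at hP
      obtain ⟨_, hP⟩ := hP
      exact hP
    -- hence so is the residue of `y`
    obtain ⟨G, hG, hGy⟩ := hint
    have hya : IsAlgebraic (ResidueField R) (residue V ⟨y, hy.mem⟩) := by
      refine isAlgebraic_of_isIntegralElem hxa
        ⟨G.map (Polynomial.mapRingHom (residue R)), hG.map _, ?_⟩
      rw [halg]
      exact residue_eval₂_eval₂ hV ⟨x, hx⟩ ⟨y, hy.mem⟩ G hGy
    obtain ⟨Qb, hQb0, hQb⟩ := hya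
    obtain ⟨Q, rfl⟩ := Polynomial.map_surjective (residue R) residue_surjective Qb
    apply hQb0
    apply hy.prim Q
    rw [ValuationSubring.mem_nonunits_iff_exists_mem_maximalIdeal]
    refine ⟨hy.aeval_mem Q, ?_⟩
    rw [← residue_eq_zero_iff, residue_aeval hV ⟨y, hy.mem⟩ Q (hy.aeval_mem Q)]
    rw [Polynomial.aeval_def, halg] at hQb
    exact hQb

/-- a monic equation over `R[X]` from integrality over `Algebra.adjoin R {x}` -/
theorem exists_monic_of_isIntegral_adjoin {R L : Type*} [CommRing R] [Field L] [Algebra R L]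
    {x y : L} (h : IsIntegral (Algebra.adjoin R ({x} : Set L)) y) :
    ∃ G : Polynomial (Polynomial R), G.Monic ∧
      G.eval₂ (Polynomial.eval₂RingHom (algebraMap R L) x) y = 0 := by
  obtain ⟨p, hp, hpy⟩ := h
  set xA : Algebra.adjoin R ({x} : Set L) := ⟨x, Algebra.subset_adjoin rfl⟩ with hxA
  set ψ : Polynomial R →+* Algebra.adjoin R ({x} : Set L) :=
    (Polynomial.aeval xA).toRingHom with hψ
  have hsurj : Function.Surjective ψ := by
    rintro ⟨a, ha⟩
    rw [Algebra.adjoin_singleton_eq_range_aeval] at ha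
    obtain ⟨c, hc⟩ := ha
    refine ⟨c, Subtype.ext ?_⟩
    have h1 : ((Polynomial.aeval xA c : Algebra.adjoin R ({x} : Set L)) : L) =
        Polynomial.aeval x c := by
      rw [hxA]
      exact Polynomial.aeval_subalgebra_coe c _ _
    show ((Polynomial.aeval xA c : Algebra.adjoin R ({x} : Set L)) : L) = a
    rw [h1]
    exact hc
  have hlift : p ∈ Polynomial.lifts ψ := by
    rw [Polynomial.lifts_iff_coeff_lifts]
    intro n
    exact hsurj _
  obtain ⟨G, hGp, -, hGm⟩ := Polynomial.lifts_and_natDegree_eq_and_monic hlift hp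
  refine ⟨G, hGm, ?_⟩
  have h2 : (algebraMap (Algebra.adjoin R ({x} : Set L)) L).comp ψ =
      Polynomial.eval₂RingHom (algebraMap R L) x := by
    apply Polynomial.ringHom_ext
    · intro r
      simp [hψ]
    · simp [hψ, hxA]
  rw [← h2, ← Polynomial.eval₂_map, hGp]
  exact hpy

/-- **GAUSS-CHANGE**, chart form. -/
theorem isGaussOver_of_isIntegral_adjoin {x y : L} (hy : H489.IsGaussOver R V y) (hx : x ∈ V)
    (hint : IsIntegral (Algebra.adjoin R ({x} : Set L)) y) : H489.IsGaussOver R V x :=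
  isGaussOver_of_isIntegralElem hy hx (exists_monic_of_isIntegral_adjoin hint)

/-- Elementwise form of the Gauss property (the shape of `A2.H12.IsSheet` and of the fields
`gauss_i` of `S36.Eng.TripleCtx`): `w` a generator of the maximal ideal of `R`. -/
theorem inv_aeval_mem_of_isGaussOver {x : L} (hx : H489.IsGaussOver R V x) {w : R}
    (hw : maximalIdeal R = Ideal.span {w}) (P : R[X]) (hP : ∃ i, ¬ w ∣ P.coeff i) :
    (aeval x P)⁻¹ ∈ V := by
  apply hx.inv_aeval_mem
  intro h0
  obtain ⟨i, hi⟩ := hP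
  apply hi
  have h1 := (H489.map_residue_eq_zero_iff P).mp h0 i
  rw [hw, Ideal.mem_span_singleton] at h1
  exact h1

end Main

end Fermat.Agent.S36.Mod3.H985

end

end
-- ===== PACK-END S36/Mod3/H985/GaussChange.lean

-- ===== PACK-BEGIN S41/H232/PDTransfer.lean
section





/-!
# Row S41, block PD, leaf TR (helper232): restriction / corestriction in the Manin model

Exact shapes of `Fermat/Agent/S41/Spec/PD.lean` (sub-architect helper221):

* `maninRepCores : Spec.ManinRepCoresStatement` (TR-2): Mathlib's transfer is the push-forward of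
  Manin symbols along `π : SL(2,ℤ) ⧸ Γ' → SL(2,ℤ) ⧸ Γ`;
* `maninFormAdjoint : Spec.ManinFormAdjointStatement` (TR-3);
* `maninRepRes : Spec.ManinRepResStatement` (TR-1);
* `transferAlongEquiv : Spec.TransferAlongEquivStatement` (TR-4).

Reusable: `quotMap_smul` (equivariance of `π`), `pushQ` (push-forward of functions),
`pushQ_smul`, `pushQ_add`, `pushQ_sub`, `isCocycle_pushQ`.
-/

set_option autoImplicit false

namespace Fermat.Agent.S41.H232

open CongruenceSubgroup Matrix.SpecialLinearGroup ModularCurve.Period ModularGroup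
open Fermat.Agent.S41.Spec Fermat.Agent.S21.H585
open scoped MatrixGroups

universe u

section Push

variable {Γ' Γ : Subgroup SL(2, ℤ)} (hle : Γ' ≤ Γ) {A : Type*} [AddCommGroup A]

/-- `π : SL(2,ℤ) ⧸ Γ' → SL(2,ℤ) ⧸ Γ` is equivariant. -/
theorem quotMap_smul (g : SL(2, ℤ)) (x' : SL(2, ℤ) ⧸ Γ') :
    Subgroup.quotientMapOfLE hle (g • x') = g • Subgroup.quotientMapOfLE hle x' := by
  induction x' using QuotientGroup.induction_on with
  | H a => rfl

/-- Push-forward of functions along `π`. -/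
noncomputable def pushQ (F : SL(2, ℤ) ⧸ Γ' → A) (x : SL(2, ℤ) ⧸ Γ) : A :=
  ∑ᶠ (x' : SL(2, ℤ) ⧸ Γ') (_ : Subgroup.quotientMapOfLE hle x' = x), F x'

theorem pushQ_eq (F : SL(2, ℤ) ⧸ Γ' → A) (x : SL(2, ℤ) ⧸ Γ) :
    pushQ hle F x = ∑ᶠ x' ∈ {x' : SL(2, ℤ) ⧸ Γ' | Subgroup.quotientMapOfLE hle x' = x}, F x' :=
  rfl

theorem pushQ_smul (g : SL(2, ℤ)) (F : SL(2, ℤ) ⧸ Γ' → A) (x : SL(2, ℤ) ⧸ Γ) :
    pushQ hle (fun x' => F (g • x')) x = pushQ hle F (g • x) := by
  rw [pushQ_eq, pushQ_eq]
  refine finsum_mem_eq_of_bijOn (fun x' => g • x') ⟨?_, ?_, ?_⟩ (fun _ _ => rfl)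
  · intro x' hx'
    show Subgroup.quotientMapOfLE hle (g • x') = g • x
    rw [quotMap_smul, hx']
  · intro a _ b _ hab
    exact MulAction.injective g hab
  · intro y hy
    refine ⟨g⁻¹ • y, ?_, smul_inv_smul g y⟩
    show Subgroup.quotientMapOfLE hle (g⁻¹ • y) = x
    rw [quotMap_smul, hy, inv_smul_smul]

variable [Γ'.FiniteIndex]

theorem pushQ_add (F F' : SL(2, ℤ) ⧸ Γ' → A) (x : SL(2, ℤ) ⧸ Γ) :
    pushQ hle (fun x' => F x' + F' x') x = pushQ hle F x + pushQ hle F' x := by
  rw [pushQ_eq, pushQ_eq, pushQ_eq]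
  exact finsum_mem_add_distrib (Set.toFinite _)

theorem pushQ_sub (F F' : SL(2, ℤ) ⧸ Γ' → A) (x : SL(2, ℤ) ⧸ Γ) :
    pushQ hle (fun x' => F x' - F' x') x = pushQ hle F x - pushQ hle F' x := by
  rw [pushQ_eq, pushQ_eq, pushQ_eq]
  exact finsum_mem_sub_distrib F F' (Set.toFinite _)

omit [Γ'.FiniteIndex] in
theorem pushQ_zero (x : SL(2, ℤ) ⧸ Γ) :
    pushQ hle (fun _ => (0 : A)) x = 0 := by
  rw [pushQ_eq]
  exact finsum_mem_zero _

/-- The push-forward of a cocycle is a cocycle. -/
theorem isCocycle_pushQ {f' : SL(2, ℤ) → SL(2, ℤ) ⧸ Γ' → A}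
    (hf' : ∀ (g h : SL(2, ℤ)) (x : SL(2, ℤ) ⧸ Γ'), f' (g * h) x = f' h x + f' g (h • x))
    (g h : SL(2, ℤ)) (x : SL(2, ℤ) ⧸ Γ) :
    pushQ hle (f' (g * h)) x = pushQ hle (f' h) x + pushQ hle (f' g) (h • x) := by
  have h1 : f' (g * h) = fun x' => f' h x' + f' g (h • x') := funext fun x' => hf' g h x'
  rw [h1, pushQ_add, pushQ_smul hle h (f' g)]

end Push

section Cores

variable {Γ' Γ : Subgroup SL(2, ℤ)} (hle : Γ' ≤ Γ) {A : Type*} [AddCommGroup A]

/-- The fibre of `π` over the base point, i.e. `Γ ⧸ Γ'`. -/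
abbrev Fib : Type := {x' : SL(2, ℤ) ⧸ Γ' // Subgroup.quotientMapOfLE hle x' = basePt Γ}

theorem out_mem_of_fib (y : Fib hle) : (Quotient.out y.1 : SL(2, ℤ)) ∈ Γ := by
  have h1 : Subgroup.quotientMapOfLE hle ((Quotient.out y.1 : SL(2, ℤ)) : SL(2, ℤ) ⧸ Γ') =
      basePt Γ := by
    rw [QuotientGroup.out_eq']; exact y.2
  rw [Subgroup.quotientMapOfLE_apply_mk] at h1
  have h2 : (((1 : SL(2, ℤ)) : SL(2, ℤ) ⧸ Γ)) = ((Quotient.out y.1 : SL(2, ℤ)) : SL(2, ℤ) ⧸ Γ) :=
    h1.symm
  rw [QuotientGroup.eq, inv_one, one_mul] at h2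
  exact h2

theorem smul_mem_fib (γ : Γ) (y : Fib hle) :
    Subgroup.quotientMapOfLE hle ((γ : SL(2, ℤ)) • y.1) = basePt Γ := by
  rw [quotMap_smul, y.2, smul_basePt_of_mem Γ γ.2]

/-- `γ ∈ Γ` permutes the fibre over the base point. -/
def fibPerm (γ : Γ) : Equiv.Perm (Fib hle) where
  toFun y := ⟨(γ : SL(2, ℤ)) • y.1, smul_mem_fib hle γ y⟩
  invFun y := ⟨((γ⁻¹ : Γ) : SL(2, ℤ)) • y.1, smul_mem_fib hle γ⁻¹ y⟩
  left_inv y := by
    apply Subtype.ext
    show ((γ⁻¹ : Γ) : SL(2, ℤ)) • (γ : SL(2, ℤ)) • y.1 = y.1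
    rw [Subgroup.coe_inv, inv_smul_smul]
  right_inv y := by
    apply Subtype.ext
    show (γ : SL(2, ℤ)) • ((γ⁻¹ : Γ) : SL(2, ℤ)) • y.1 = y.1
    rw [Subgroup.coe_inv, smul_inv_smul]

variable [Γ'.FiniteIndex]

omit [Γ'.FiniteIndex] in
theorem pushQ_basePt_eq_sum [Fintype (Fib hle)] (F : SL(2, ℤ) ⧸ Γ' → A) :
    pushQ hle F (basePt Γ) = ∑ y : Fib hle, F y.1 := by
  rw [pushQ_eq, ← finsum_set_coe_eq_finsum_mem, ← finsum_eq_sum_of_fintype]
  rfl

/-- **Transfer = push-forward**, cocycle form: for a cocycle `f'` on `SL(2,ℤ) ⧸ Γ'`, the transfer of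
the class `γ' ↦ f' γ' x₀'` is `γ ↦ (π_* f') γ x₀`. -/
theorem transferAlong_eq_pushQ {f' : SL(2, ℤ) → SL(2, ℤ) ⧸ Γ' → A} (hf' : IsCocycle f')
    (ψ : Additive Γ' →+ A)
    (hψ : ∀ γ' : Γ', ψ (Additive.ofMul γ') = f' (γ' : SL(2, ℤ)) (basePt Γ')) (γ : Γ) :
    transferAlong (Subgroup.inclusion hle) ψ (Additive.ofMul γ) =
      pushQ hle (f' (γ : SL(2, ℤ))) (basePt Γ) := by
  classical
  let _ : Fintype (Fib hle) := Fintype.ofFinite _
  have hψ' : ψ = homOfCocycle Γ' f' hf' := by
    refine AddMonoidHom.ext fun a => ?_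
    obtain ⟨γ', rfl⟩ := Additive.ofMul.surjective a
    rw [hψ, homOfCocycle_apply]
  -- the data of the transfer
  let s : Fib hle → Γ := fun y => ⟨(Quotient.out y.1 : SL(2, ℤ))⁻¹, inv_mem (out_mem_of_fib hle y)⟩
  let σ : Fib hle → Fib hle := (fibPerm hle γ).symm
  let k : Fib hle → Γ' := fun y =>
    ⟨(Quotient.out ((γ : SL(2, ℤ)) • (σ y).1) : SL(2, ℤ))⁻¹ * γ * Quotient.out (σ y).1,
      sec_mem Γ' γ (σ y).1⟩
  have hσ : ∀ y : Fib hle, (γ : SL(2, ℤ)) • (σ y).1 = y.1 := fun y =>
    congrArg Subtype.val ((fibPerm hle γ).apply_symm_apply y)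
  have hinj : ∀ x y : Fib hle, s x * (s y)⁻¹ ∈ (Subgroup.inclusion hle).range → x = y := by
    rintro x y ⟨δ, hδ⟩
    apply Subtype.ext
    have h1 : ((Quotient.out x.1 : SL(2, ℤ)) : SL(2, ℤ) ⧸ Γ') = (Quotient.out y.1 : SL(2, ℤ)) := by
      rw [QuotientGroup.eq]
      have h2 := congrArg (Subtype.val : Γ → SL(2, ℤ)) hδ
      have h3 : (Quotient.out x.1 : SL(2, ℤ))⁻¹ * Quotient.out y.1 = (δ : SL(2, ℤ)) := by
        rw [← Subgroup.coe_inclusion hle δ, h2]
        simp [s]
      rw [h3]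
      exact δ.2
    rwa [QuotientGroup.out_eq', QuotientGroup.out_eq'] at h1
  have hsurj : ∀ g : Γ, ∃ x : Fib hle, g * (s x)⁻¹ ∈ (Subgroup.inclusion hle).range := by
    intro g
    have hx : Subgroup.quotientMapOfLE hle (((g⁻¹ : Γ) : SL(2, ℤ)) : SL(2, ℤ) ⧸ Γ') = basePt Γ := by
      rw [Subgroup.quotientMapOfLE_apply_mk, ← smul_basePt_eq, smul_basePt_of_mem Γ (g⁻¹).2]
    refine ⟨⟨_, hx⟩, ?_⟩
    have h1 : (((g⁻¹ : Γ) : SL(2, ℤ)) : SL(2, ℤ) ⧸ Γ') =
        ((Quotient.out ((((g⁻¹ : Γ) : SL(2, ℤ)) : SL(2, ℤ) ⧸ Γ')) : SL(2, ℤ)) : SL(2, ℤ) ⧸ Γ') :=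
      (QuotientGroup.out_eq' _).symm
    rw [QuotientGroup.eq] at h1
    refine ⟨⟨_, h1⟩, ?_⟩
    apply Subtype.ext
    simp [s]
  have hk : ∀ y : Fib hle, s y * γ = Subgroup.inclusion hle (k y) * s (σ y) := by
    intro y
    apply Subtype.ext
    show (Quotient.out y.1 : SL(2, ℤ))⁻¹ * γ =
      ((Quotient.out ((γ : SL(2, ℤ)) • (σ y).1) : SL(2, ℤ))⁻¹ * γ * Quotient.out (σ y).1) *
        (Quotient.out (σ y).1 : SL(2, ℤ))⁻¹
    rw [hσ y, mul_assoc, mul_assoc, mul_inv_cancel, mul_one]
  rw [Fermat.Agent.S41.H863.transferAlong_eq_sum_reps (Subgroup.inclusion hle)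
    (Subgroup.inclusion_injective hle) s hinj hsurj ψ γ σ k hk, pushQ_basePt_eq_sum]
  -- telescoping
  have h1 : ∀ y : Fib hle, ψ (Additive.ofMul (k y)) =
      f' γ (σ y).1 - f' (Quotient.out y.1) (basePt Γ') + f' (Quotient.out (σ y).1) (basePt Γ') := by
    intro y
    have h2 := hf'.eq_indc_add (γ : SL(2, ℤ)) (σ y).1
    rw [← hψ'] at h2
    have h3 : indc Γ' ψ (γ : SL(2, ℤ)) (σ y).1 = ψ (Additive.ofMul (k y)) := rfl
    rw [h3, hσ y] at h2
    rw [h2]
    abel
  rw [Finset.sum_congr rfl fun y _ => h1 y, Finset.sum_add_distrib, Finset.sum_sub_distrib]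
  have h4 : ∑ y : Fib hle, f' (Quotient.out (σ y).1) (basePt Γ') =
      ∑ y : Fib hle, f' (Quotient.out y.1) (basePt Γ') :=
    Equiv.sum_comp (fibPerm hle γ).symm (fun y : Fib hle => f' (Quotient.out y.1) (basePt Γ'))
  have h5 : ∑ y : Fib hle, f' (γ : SL(2, ℤ)) (σ y).1 = ∑ y : Fib hle, f' (γ : SL(2, ℤ)) y.1 :=
    Equiv.sum_comp (fibPerm hle γ).symm (fun y : Fib hle => f' (γ : SL(2, ℤ)) y.1)
  rw [h4, h5]
  abel

/-- **TR-2** (exact shape of `Spec.ManinRepCoresStatement`). -/
theorem maninRepCores : Spec.ManinRepCoresStatement.{u} := by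
  intro Γ' Γ _ hle A _ ψ m' hrep
  obtain ⟨f', ⟨hcoc, hS, hU⟩, hψ⟩ := hrep
  have hf' : IsCocycle f' := hcoc
  refine ⟨fun g => pushQ hle (f' g), ⟨?_, ?_, ?_⟩, ?_⟩
  · intro g h x
    exact isCocycle_pushQ hle hcoc g h x
  · intro x
    have h1 : f' S = fun _ => (0 : A) := funext hS
    show pushQ hle (f' S) x = 0
    rw [h1, pushQ_zero]
  · intro x
    have h1 : f' (S * T) = fun x' => m' ((S * T) • x') - m' x' := funext hU
    show pushQ hle (f' (S * T)) x = pushQ hle m' ((S * T) • x) - pushQ hle m' x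
    rw [h1, pushQ_sub, pushQ_smul hle (S * T) m']
  · intro γ
    exact transferAlong_eq_pushQ hle hf' ψ hψ γ

end Cores

/-! ## TR-1: restriction -/

/-- **TR-1** (exact shape of `Spec.ManinRepResStatement`). -/
theorem maninRepRes : Spec.ManinRepResStatement.{u} := by
  intro Γ' Γ hle A _ φ m hrep
  obtain ⟨f, ⟨hcoc, hS, hU⟩, hφ⟩ := hrep
  refine ⟨fun g x' => f g (Subgroup.quotientMapOfLE hle x'), ⟨?_, ?_, ?_⟩, ?_⟩
  · intro g h x'
    show f (g * h) (Subgroup.quotientMapOfLE hle x') =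
      f h (Subgroup.quotientMapOfLE hle x') + f g (Subgroup.quotientMapOfLE hle (h • x'))
    rw [quotMap_smul, hcoc]
  · intro x'
    exact hS _
  · intro x'
    show f (S * T) (Subgroup.quotientMapOfLE hle x') =
      m (Subgroup.quotientMapOfLE hle ((S * T) • x')) - m (Subgroup.quotientMapOfLE hle x')
    rw [quotMap_smul, hU]
  · intro γ
    show φ (Additive.ofMul (Subgroup.inclusion hle γ)) = _
    rw [hφ]
    rfl

/-! ## TR-3: push-forward of parabolic data, adjunction for the Manin form -/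

section Adjoint

variable {Γ' Γ : Subgroup SL(2, ℤ)} (hle : Γ' ≤ Γ) {R : Type*} [CommRing R]

theorem pushQ_eq_sum_filter [Fintype (SL(2, ℤ) ⧸ Γ')] [DecidableEq (SL(2, ℤ) ⧸ Γ)]
    (F : SL(2, ℤ) ⧸ Γ' → R) (x : SL(2, ℤ) ⧸ Γ) :
    pushQ hle F x = ∑ x' with Subgroup.quotientMapOfLE hle x' = x, F x' := by
  rw [pushQ_eq, finsum_mem_eq_finite_toFinset_sum _ (Set.toFinite _)]
  refine Finset.sum_congr ?_ fun _ _ => rfl
  ext x'
  simp

theorem isParData_pushQ [Γ'.FiniteIndex] {m' e' : SL(2, ℤ) ⧸ Γ' → R}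
    (h : IsParData Γ' m' e') : IsParData Γ (pushQ hle m') (pushQ hle e') := by
  intro x
  rw [← pushQ_smul hle T e', ← pushQ_smul hle (S * T) m', ← pushQ_sub, ← pushQ_sub]
  congr 1
  exact funext h

theorem maninForm_pushQ [Γ'.FiniteIndex] (m : SL(2, ℤ) ⧸ Γ → R) (e' : SL(2, ℤ) ⧸ Γ' → R) :
    maninForm Γ' (fun x' => m (Subgroup.quotientMapOfLE hle x')) e' =
      maninForm Γ m (pushQ hle e') := by
  classical
  have : Γ.FiniteIndex := Subgroup.finiteIndex_of_le hle
  let _ : Fintype (SL(2, ℤ) ⧸ Γ') := Subgroup.fintypeQuotientOfFiniteIndex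
  let _ : Fintype (SL(2, ℤ) ⧸ Γ) := Subgroup.fintypeQuotientOfFiniteIndex
  rw [maninForm_eq_sum, maninForm_eq_sum]
  have h1 : ∀ x : SL(2, ℤ) ⧸ Γ, m x * (pushQ hle e' x - pushQ hle e' (S • x)) =
      ∑ x' with Subgroup.quotientMapOfLE hle x' = x,
        m (Subgroup.quotientMapOfLE hle x') * (e' x' - e' (S • x')) := by
    intro x
    rw [← pushQ_smul hle S e', ← pushQ_sub, pushQ_eq_sum_filter, Finset.mul_sum]
    refine Finset.sum_congr rfl fun x' hx' => ?_
    rw [(Finset.mem_filter.mp hx').2]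
  rw [Finset.sum_congr rfl fun x _ => h1 x]
  exact (Finset.sum_fiberwise Finset.univ (Subgroup.quotientMapOfLE hle)
    (fun x' => m (Subgroup.quotientMapOfLE hle x') * (e' x' - e' (S • x')))).symm

end Adjoint

/-- **TR-3** (exact shape of `Spec.ManinFormAdjointStatement`). -/
theorem maninFormAdjoint : Spec.ManinFormAdjointStatement.{u} := by
  intro Γ' Γ _ hle R _ m m' e' hpar
  exact ⟨isParData_pushQ hle hpar, maninForm_pushQ hle m e'⟩

/-! ## TR-4: transfer along `f' ∘ e` -/

/-- **TR-4** (exact shape of `Spec.TransferAlongEquivStatement`). -/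
theorem transferAlongEquiv : Spec.TransferAlongEquivStatement.{u} := by
  intro H H' G _ _ _ e f' A _ ψ
  classical
  have hrange : (f'.comp e.toMonoidHom).range = f'.range := by
    ext g
    constructor
    · rintro ⟨h, rfl⟩
      exact ⟨e h, rfl⟩
    · rintro ⟨h', rfl⟩
      exact ⟨e.symm h', by simp⟩
  by_cases h : Function.Injective f' ∧ f'.range.FiniteIndex
  · obtain ⟨hf, hfin⟩ := h
    have hf2 : Function.Injective (f'.comp e.toMonoidHom) := hf.comp e.injective
    have := hfin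
    let _ : Fintype (G ⧸ f'.range) := f'.range.fintypeQuotientOfFiniteIndex
    obtain ⟨s, hinj, hsurj⟩ := Fermat.Agent.S41.H863.exists_reps f'.range
    refine AddMonoidHom.ext fun g => ?_
    obtain ⟨g, rfl⟩ := Additive.ofMul.surjective g
    choose σ hσ using fun x : G ⧸ f'.range => hsurj (s x * g)
    choose k hk using hσ
    have hk' : ∀ x, s x * g = f' (k x) * s (σ x) := by
      intro x
      rw [hk x, inv_mul_cancel_right]
    rw [Fermat.Agent.S41.H863.transferAlong_eq_sum_reps f' hf s hinj hsurj _ g σ k hk']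
    have hinj2 : ∀ x y, s x * (s y)⁻¹ ∈ (f'.comp e.toMonoidHom).range → x = y := by
      intro x y hxy
      rw [hrange] at hxy
      exact hinj x y hxy
    have hsurj2 : ∀ g, ∃ x, g * (s x)⁻¹ ∈ (f'.comp e.toMonoidHom).range := by
      intro g
      obtain ⟨x, hx⟩ := hsurj g
      exact ⟨x, hrange ▸ hx⟩
    have hk2 : ∀ x, s x * g = (f'.comp e.toMonoidHom) (e.symm (k x)) * s (σ x) := by
      intro x
      rw [hk' x]
      simp
    rw [Fermat.Agent.S41.H863.transferAlong_eq_sum_reps _ hf2 s hinj2 hsurj2 ψ g σ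
      (fun x => e.symm (k x)) hk2]
    rfl
  · have h2 : ¬ (Function.Injective (f'.comp e.toMonoidHom) ∧
        (f'.comp e.toMonoidHom).range.FiniteIndex) := by
      rintro ⟨h1, h3⟩
      apply h
      refine ⟨?_, hrange ▸ h3⟩
      intro a b hab
      have h4 := @h1 (e.symm a) (e.symm b) (by simpa using hab)
      exact e.symm.injective h4
    rw [Fermat.Agent.S41.H581.transferAlong_of_not _ h,
      Fermat.Agent.S41.H581.transferAlong_of_not _ h2]

end Fermat.Agent.S41.H232

end
-- ===== PACK-END S41/H232/PDTransfer.lean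

-- ===== PACK-BEGIN S59/TW/H658/CosetForm.lean
section



/-!
# S59 / TW-ES (helper658), leaf E2: coset operators on cusp forms

For a coset system `ρ : I → GL(2,ℝ)⁺` from `Γ` to `Γ'` (finite-index subgroups of `SL(2,ℤ)`)
whose members preserve cuspidality (e.g. rational matrices):

* `famOp k ρ F = ∑ i, F ∣[k] ρ i` (function level); `slInv_famOp` : it maps `Γ`-invariant
  functions to `Γ'`-invariant functions;
* `cosetOp h hcusp : CuspForm Γ k →ₗ[ℂ] CuspForm Γ' k`;
* `perG_cosetOp` : `perG (cosetOp h hcusp f) = h.transfer (perG f)` (weight 2).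
-/

set_option autoImplicit false
set_option linter.unusedSectionVars false

noncomputable section

namespace Fermat.Agent.S59.TW.H658

open CongruenceSubgroup ModularCurve ModularCurve.Period
open UpperHalfPlane hiding I
open Matrix.SpecialLinearGroup Fermat.Agent.S41.H761 Fermat.Agent.Lib.Newform.H803
open scoped Manifold MatrixGroups ModularForm

variable {k : ℤ} {Γ Γ' : Subgroup SL(2, ℤ)} {I : Type*} [Fintype I]

/-- The function-level operator of a finite family of matrices. -/
def famOp (k : ℤ) (ρ : I → GL (Fin 2) ℝ) (F : ℍ → ℂ) : ℍ → ℂ := ∑ i, F ∣[k] ρ i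

theorem famOp_add (ρ : I → GL (Fin 2) ℝ) (F G : ℍ → ℂ) :
    famOp k ρ (F + G) = famOp k ρ F + famOp k ρ G := by
  simp only [famOp, SlashAction.add_slash, Finset.sum_add_distrib]

theorem famOp_smul (ρ : I → GL (Fin 2) ℝ)
    (hdet : ∀ i, 0 < ((ρ i : GL (Fin 2) ℝ) : Matrix (Fin 2) (Fin 2) ℝ).det) (c : ℂ)
    (F : ℍ → ℂ) : famOp k ρ (c • F) = c • famOp k ρ F := by
  simp only [famOp, Finset.smul_sum]
  refine Finset.sum_congr rfl fun i _ => ?_
  have hσ : UpperHalfPlane.σ (ρ i) = .refl ℝ ℂ := by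
    rw [UpperHalfPlane.σ, if_pos]
    have := hdet i
    rwa [← Matrix.GeneralLinearGroup.val_det_apply] at this
  rw [ModularForm.smul_slash, hσ]
  rfl

/-- The operator of a coset system maps `Γ`-invariant functions to `Γ'`-invariant functions. -/
theorem slInv_famOp {ρ : I → GL (Fin 2) ℝ} (h : IsCosetSystem (ιG Γ) (ιG Γ') ρ) {F : ℍ → ℂ}
    (hF : SlInv k Γ F) : SlInv k Γ' (famOp k ρ F) := by
  intro γ hγ
  have key : ∀ i : I, (F ∣[k] ρ i) ∣[k] γ = F ∣[k] ρ (h.act i ⟨γ, hγ⟩) := by
    intro i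
    have hs := h.spec i ⟨γ, hγ⟩
    rw [ιG_apply, ιG_apply] at hs
    rw [sl_slash_mapGL, ← SlashAction.slash_mul, hs, SlashAction.slash_mul, ← sl_slash_mapGL,
      hF _ (h.coc i ⟨γ, hγ⟩).2]
  rw [famOp, SlashAction.sum_slash]
  simp only [key]
  exact Equiv.sum_comp (h.actEquiv ⟨γ, hγ⟩) (fun j => F ∣[k] ρ j)

theorem isCuspidal_famOp {ρ : I → GL (Fin 2) ℝ}
    (hcusp : ∀ (F : ℍ → ℂ), IsCuspidal k F → ∀ i, IsCuspidal k (F ∣[k] ρ i)) {F : ℍ → ℂ}
    (hF : IsCuspidal k F) : IsCuspidal k (famOp k ρ F) := by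
  rw [← mem_cuspSub, famOp]
  exact Submodule.sum_mem _ fun i _ => hcusp F hF i

variable [Γ.FiniteIndex] [Γ'.FiniteIndex]

/-- The operator of a coset system on cusp forms. -/
def cosetOp {ρ : I → GL (Fin 2) ℝ} (h : IsCosetSystem (ιG Γ) (ιG Γ') ρ)
    (hdet : ∀ i, 0 < ((ρ i : GL (Fin 2) ℝ) : Matrix (Fin 2) (Fin 2) ℝ).det)
    (hcusp : ∀ (F : ℍ → ℂ), IsCuspidal k F → ∀ i, IsCuspidal k (F ∣[k] ρ i)) :
    CuspForm Γ k →ₗ[ℂ] CuspForm Γ' k where
  toFun f := cuspFormOfIsCuspidal Γ' (famOp k ρ ⇑f)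
    (isCuspidal_famOp hcusp (isCuspidal_of_cuspForm f)) (slInv_famOp h (slInv_of_cuspForm f))
  map_add' f g := DFunLike.coe_injective <| by
    show famOp k ρ ⇑(f + g) = famOp k ρ ⇑f + famOp k ρ ⇑g
    rw [FunLike.coe_add, famOp_add]
  map_smul' c f := DFunLike.coe_injective <| by
    show famOp k ρ ⇑(c • f) = c • famOp k ρ ⇑f
    rw [FunLike.coe_smul, famOp_smul ρ hdet]

@[simp] theorem coe_cosetOp {ρ : I → GL (Fin 2) ℝ} (h : IsCosetSystem (ιG Γ) (ιG Γ') ρ)
    (hdet : ∀ i, 0 < ((ρ i : GL (Fin 2) ℝ) : Matrix (Fin 2) (Fin 2) ℝ).det)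
    (hcusp : ∀ (F : ℍ → ℂ), IsCuspidal k F → ∀ i, IsCuspidal k (F ∣[k] ρ i))
    (f : CuspForm Γ k) : (⇑(cosetOp h hdet hcusp f) : ℍ → ℂ) = famOp k ρ ⇑f := rfl

/-- **E2.**  The period map intertwines the coset operator with the transfer. -/
theorem perG_cosetOp {ρ : I → GL (Fin 2) ℝ} (h : IsCosetSystem (ιG Γ) (ιG Γ') ρ)
    (hdet : ∀ i, 0 < ((ρ i : GL (Fin 2) ℝ) : Matrix (Fin 2) (Fin 2) ℝ).det)
    (hcusp : ∀ (F : ℍ → ℂ), IsCuspidal 2 F → ∀ i, IsCuspidal 2 (F ∣[(2 : ℤ)] ρ i))
    (f : CuspForm Γ 2) : perG (cosetOp h hdet hcusp f) = h.transfer (perG f) :=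
  perG_eq_transfer h hdet f _ rfl

end Fermat.Agent.S59.TW.H658

end
end
-- ===== PACK-END S59/TW/H658/CosetForm.lean

-- ===== PACK-BEGIN A3/H75/DiscAlgOfCons.lean
section


/-!
# A3 / LOCAL / DISC (helper75): `DiscAlg` from conservation of zeros

`ConsInput.discRing I Q` : the `A`-algebra of functions of Gauss norm `≤ 1` regular on the residue
disc of `Q`.  `DiscParam.discAlg T : DiscAlg A (discRing I Q)` : it is a disc algebra in the sense
of helper799 (`Fermat/Agent/A3/H799/Disc.lean`), with parameter `t`, and evaluation `ev a` = value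
at the unique point `center a` of the disc with `t = a`.

Dictionary lemmas: `DiscParam.ev_eq_of_hasVal` (the abstract evaluation is the value at the point),
`DiscParam.hasVal_center`, `DiscParam.center_eq`.
-/

set_option autoImplicit false
set_option linter.unusedSectionVars false

noncomputable section

namespace Fermat.Agent.A3.H75

open AlgebraicCurve Fermat.Agent.Lib.RR Fermat.Agent.A3.H799

variable {K : Type*} [Field K] {A : ValuationSubring K} {F : Type*} [Field F] [Algebra K F]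
variable {k : Type*} [Field k] {Fk : Type*} [Field Fk] [Algebra k Fk]

theorem coe_mem_nonunits_of_mem_maximalIdeal (a : IsLocalRing.maximalIdeal A) :
    (((a : A) : K)) ∈ A.nonunits := by
  have h1 : (a : A) ∈ nonunits A := (IsLocalRing.mem_maximalIdeal _).mp a.2
  exact (ValuationSubring.coe_mem_nonunits_iff (A := A)).mpr h1

namespace ConsInput

variable (I : ConsInput A F k Fk) (Q : Place k Fk)

/-- The ring of functions of Gauss norm `≤ 1` which are regular on the residue disc of `Q`. -/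
def discRing : Subalgebra A F where
  carrier := {f | f ∈ I.V ∧ I.RegOn Q f}
  mul_mem' := fun ha hb => ⟨I.V.mul_mem _ _ ha.1 hb.1, ha.2.mul hb.2⟩
  add_mem' := fun ha hb => ⟨I.V.add_mem _ _ ha.1 hb.1, ha.2.add hb.2⟩
  algebraMap_mem' := fun a => ⟨I.algebraMap_mem _ a.2, I.regOn_algebraMap Q _⟩

theorem mem_discRing {f : F} : f ∈ I.discRing Q ↔ f ∈ I.V ∧ I.RegOn Q f := Iff.rfl

/-- a function of the disc ring, as an element of `V` -/
def toV (f : I.discRing Q) : I.V := ⟨(f : F), f.2.1⟩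

@[simp] theorem coe_toV (f : I.discRing Q) : ((I.toV Q f : I.V) : F) = (f : F) := rfl

theorem regOn_coe (f : I.discRing Q) : I.RegOn Q (f : F) := f.2.2

end ConsInput

namespace DiscParam

variable {I : ConsInput A F k Fk} {Q : Place k Fk} (T : DiscParam I Q) [FF1 K F]

/-- the parameter, as an element of the disc ring -/
def tElt : I.discRing Q := ⟨(T.t : F), T.t.2, T.t_reg⟩

@[simp] theorem coe_tElt : ((T.tElt : I.discRing Q) : F) = (T.t : F) := rfl

/-- the point of the disc with parameter value `a` -/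
def center (a : IsLocalRing.maximalIdeal A) : Place K F :=
  (T.exists_center (a : A) (coe_mem_nonunits_of_mem_maximalIdeal a)).choose

theorem r_center (a : IsLocalRing.maximalIdeal A) : I.r (T.center a) = Q :=
  (T.exists_center (a : A) (coe_mem_nonunits_of_mem_maximalIdeal a)).choose_spec.1

theorem hasVal_center (a : IsLocalRing.maximalIdeal A) :
    HasVal (T.center a) (T.t : F) (((a : A) : K)) :=
  (T.exists_center (a : A) (coe_mem_nonunits_of_mem_maximalIdeal a)).choose_spec.2

/-- a point of the disc is the centre attached to its parameter value -/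
theorem center_eq (a : IsLocalRing.maximalIdeal A) (P : Place K F) (hP : I.r P = Q)
    (h : HasVal P (T.t : F) (((a : A) : K))) : T.center a = P :=
  T.center_unique (a : A) (coe_mem_nonunits_of_mem_maximalIdeal a) _ _ (T.r_center a) hP
    (T.hasVal_center a) h

/-- every point of the disc is a centre -/
theorem exists_center_eq (P : Place K F) (hP : I.r P = Q) :
    ∃ a : IsLocalRing.maximalIdeal A, T.center a = P := by
  obtain ⟨b, hb⟩ := I.exists_hasVal_mem Q T.t T.t_reg P hP
  have hbm := T.mem_nonunits_of_hasVal P hP b hb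
  have hb' : b ∈ IsLocalRing.maximalIdeal A := by
    rw [IsLocalRing.mem_maximalIdeal]
    exact (ValuationSubring.coe_mem_nonunits_iff (A := A)).mp hbm
  exact ⟨⟨b, hb'⟩, T.center_eq ⟨b, hb'⟩ P hP hb⟩

/-- the value of a disc function at the centre `a` -/
def evVal (a : IsLocalRing.maximalIdeal A) (f : I.discRing Q) : A :=
  (I.exists_hasVal_mem Q (I.toV Q f) (I.regOn_coe Q f) (T.center a) (T.r_center a)).choose

theorem hasVal_evVal (a : IsLocalRing.maximalIdeal A) (f : I.discRing Q) :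
    HasVal (T.center a) (f : F) ((T.evVal a f : A) : K) :=
  (I.exists_hasVal_mem Q (I.toV Q f) (I.regOn_coe Q f) (T.center a) (T.r_center a)).choose_spec

theorem evVal_eq (a : IsLocalRing.maximalIdeal A) (f : I.discRing Q) (b : A)
    (h : HasVal (T.center a) (f : F) (b : K)) : T.evVal a f = b :=
  Subtype.ext ((T.hasVal_evVal a f).unique h)

/-- evaluation at the centre `a`, as an algebra homomorphism -/
def ev (a : IsLocalRing.maximalIdeal A) : I.discRing Q →ₐ[A] A where
  toFun := T.evVal a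
  map_one' := T.evVal_eq a 1 1 (hasVal_one _)
  map_mul' f g := T.evVal_eq a (f * g) _ ((T.hasVal_evVal a f).mul (T.hasVal_evVal a g))
  map_zero' := T.evVal_eq a 0 0 (hasVal_zero _)
  map_add' f g := T.evVal_eq a (f + g) _ ((T.hasVal_evVal a f).add (T.hasVal_evVal a g))
  commutes' c := T.evVal_eq a _ c (hasVal_algebraMap _ _)

@[simp] theorem ev_apply (a : IsLocalRing.maximalIdeal A) (f : I.discRing Q) :
    T.ev a f = T.evVal a f := rfl

/-- **Dictionary.**  The abstract evaluation is the value at the point. -/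
theorem ev_eq_of_hasVal (a : IsLocalRing.maximalIdeal A) (f : I.discRing Q) (P : Place K F)
    (hP : I.r P = Q) (ht : HasVal P (T.t : F) (((a : A) : K))) (b : A)
    (hf : HasVal P (f : F) (b : K)) : T.ev a f = b := by
  have hc := T.center_eq a P hP ht
  apply T.evVal_eq
  rw [hc]
  exact hf

theorem ev_tElt (a : IsLocalRing.maximalIdeal A) : T.ev a T.tElt = (a : A) :=
  T.evVal_eq a T.tElt (a : A) (T.hasVal_center a)

/-- **Taylor.**  If `f` vanishes at the centre `a` then `f / (t - a)` is in the disc ring. -/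
theorem div_shift_mem (a : IsLocalRing.maximalIdeal A) (f : I.discRing Q)
    (hf : HasVal (T.center a) (f : F) 0) :
    (f : F) * (((T.shift (a : A) : I.V) : F))⁻¹ ∈ I.discRing Q := by
  have ha := coe_mem_nonunits_of_mem_maximalIdeal a
  have hu0 := T.shift_ne_zero (a : A) ha
  have hunit : ((T.shift (a : A) : I.V) : F) ∉ I.V.nonunits := by
    intro h
    exact T.ρ_shift_ne_zero (a : A) ha ((I.ρ_eq_zero _).mpr h)
  have hinv := (inv_mem_of_not_mem_nonunits I.V hunit).2
  refine ⟨I.V.mul_mem _ _ f.2.1 hinv, fun P hP => ?_⟩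
  by_cases hf0 : (f : F) = 0
  · rw [hf0, zero_mul]
    exact P.toValuationSubring.zero_mem
  apply mem_of_ord_nonneg
  rw [P.ord_mul hf0 (inv_ne_zero hu0), P.ord_inv]
  by_cases hPc : P = T.center a
  · subst hPc
    have h1 := T.ord_shift_le_one (a : A) ha _ hP
    rcases (hasVal_zero_iff _ _).mp hf with h0 | hpos
    · exact absurd h0 hf0
    · omega
  · have h1 := T.ord_shift_eq_zero (a : A) ha (T.center a) P (T.r_center a) hP
      (T.hasVal_center a) hPc
    have h2 := ord_nonneg_of_mem P (f.2.2 P hP)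
    omega

/-- **The disc algebra of a residue disc.** -/
def discAlg : DiscAlg A (I.discRing Q) where
  t := T.tElt
  ev := T.ev
  ev_t := T.ev_tElt
  taylor := by
    intro a f
    have ha := coe_mem_nonunits_of_mem_maximalIdeal a
    have hu0 := T.shift_ne_zero (a : A) ha
    set g : I.discRing Q := f - algebraMap A (I.discRing Q) (T.ev a f) with hg
    have hgval : HasVal (T.center a) (g : F) 0 := by
      have h1 := (T.hasVal_evVal a f).sub (hasVal_algebraMap (T.center a) ((T.evVal a f : A) : K))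
      rw [sub_self] at h1
      exact h1
    refine ⟨⟨_, T.div_shift_mem a g hgval⟩, Subtype.ext ?_⟩
    show (f : F) = algebraMap K F ((T.evVal a f : A) : K) +
      ((T.t : F) - algebraMap K F ((a : A) : K)) *
        (((f : F) - algebraMap K F ((T.evVal a f : A) : K)) *
          (((T.shift (a : A) : I.V) : F))⁻¹)
    rw [coe_shift]
    have hne : (T.t : F) - algebraMap K F ((a : A) : K) ≠ 0 := by
      rw [← coe_shift]
      exact hu0
    field_simp
    ring
  nzd := by
    intro a f hf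
    have ha := coe_mem_nonunits_of_mem_maximalIdeal a
    have hu0 := T.shift_ne_zero (a : A) ha
    have h1 := congrArg (Subtype.val) hf
    have h2 : ((T.t : F) - algebraMap K F ((a : A) : K)) * (f : F) = 0 := h1
    rw [← coe_shift] at h2
    rcases mul_eq_zero.mp h2 with h | h
    · exact absurd h hu0
    · exact Subtype.ext h

@[simp] theorem discAlg_t : T.discAlg.t = T.tElt := rfl

@[simp] theorem discAlg_ev (a : IsLocalRing.maximalIdeal A) : T.discAlg.ev a = T.ev a := rfl

end DiscParam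

end Fermat.Agent.A3.H75

end
end
-- ===== PACK-END A3/H75/DiscAlgOfCons.lean

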