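import Mathlib
import Fermat.Agent.Pack.S43MC.G0E8L2
import Fermat.Agent.Pack.S43MC.G0E13L2
import Fermat.Agent.Pack.S43MC.G0E11L2
import Fermat.Agent.Pack.S43MC.G0E15L3
import Fermat.Agent.Pack.S43MC.G0E6L2
import Fermat.Agent.Pack.S43MC.G0E15L2
import Fermat.Agent.Pack.S43MC.G0E15L1
import Fermat.Agent.Pack.S43MC.G0E13L1
import Fermat.Agent.Pack.S44C.G0E17L1
import Fermat.Agent.Pack.S44C.G0E18L3
import Fermat.Agent.Pack.S43MC.G0E16L0
import Fermat.Agent.Pack.S43MC.G0E6L0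
import Fermat.Agent.Pack.S44C.G0E18L0
import Fermat.Agent.Pack.S43MC.G0E16L1
import Fermat.Agent.Pack.S44C.G0E11L0
import Fermat.Agent.Pack.S44C.G0E11L3
import Fermat.Agent.Pack.S44C.G0E0L1
import Fermat.Agent.Pack.S43MC.G0E9L3
import Fermat.Agent.Pack.S43MC.G0E12L0
import Fermat.Agent.Pack.S43MC.G0E14L0
import Fermat.Agent.Pack.S44C.G0E4L3
import Fermat.Agent.Pack.S43GC.G0E5L0
import Fermat.Agent.Pack.S43MC.G0E14L1
import Fermat.Agent.Pack.S43MC.G0E10L3
import Fermat.Agent.Pack.S43MC.G0E16L2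
import Fermat.Agent.Pack.S43MC.G0E12L1
import Fermat.Agent.Pack.S43MC.G0E14L3
import Fermat.Agent.Pack.S43MC.G0E16L3
import Fermat.Agent.Pack.S44C.G0E13L3
import Fermat.Agent.Pack.S43MC.G0E7L2
import Fermat.Agent.Pack.S43GC.G0E13L3
import Fermat.Agent.Pack.S43MC.G0E4L3
import Fermat.Agent.Pack.Fast891

-- ===== PACK-BEGIN S25/H610/SecBC.lean
section
/-
S25, block ALGCHARTS (squad S25/S10), helper610: shared sub-lemma SH3 = base change of the
twisted Čech differential `tcech x n` and of its kernel `sec x n` (`H11/ACDefs.lean`).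

For `bc : GlueDatum.BaseChangeMaps (tensorMapLeft k ψ B₀) (tensorMapLeft k ψ B₁)
(tensorMapLeft k ψ B₀₁) G G'` (i.e. a witness of `CurveGD.IsBC ψ G G'`), `ψ : A →ₐ[k] A'`:

* `kerBaseChangeMap`, `kerBaseChangeMap_bijective`, `kerBaseChangeEquiv` (general): kernels of
  split surjections commute with base change;
* `tcech_baseChangeMaps` : `b₀₁ (tcech x n G p) = tcech x n G' (b₀ p.1, b₁ p.2)`;
* `mem_sec_of_baseChangeMaps` (SH3 a);
* `exists_tcech_square` : `A' ⊗[A] tcech x n G ≅ tcech x n G'`, same identifications for all `n`;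
* `P0_of_baseChangeMaps`, `P0_of_isBC` (SH3 b);
* `sec_finite_projective` (SH3 c): under `P0`, `tcech` is split onto, `sec` is f.g. projective;
* `exists_sec_baseChange_equiv` (SH3 d): under `P0`, `A' ⊗[A] sec G ≃ sec G'`,
  `a' ⊗ s ↦ a' • (b₀ s.1, b₁ s.2)`;
* `sec_eq_span_of_baseChangeMaps` (SH3 e), `rankAtStalk_sec_of_baseChangeMaps` (SH3 f).
-/





set_option autoImplicit false
set_option linter.style.haveILetI false
set_option linter.unusedSectionVars false

universe u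

open scoped TensorProduct

namespace Fermat.Agent.S25.H610

open Fermat.Agent.S25 Fermat.Agent.S25.H11

noncomputable section

/-! ### Kernels of split surjections commute with base change -/

section KerSplit

variable {A : Type*} [CommRing A] {M N : Type*} [AddCommGroup M] [AddCommGroup N]
  [Module A M] [Module A N] (A' : Type*) [CommRing A'] [Algebra A A']

/-- The natural map `A' ⊗ ker f → ker (A' ⊗ f)`. -/
def kerBaseChangeMap (f : M →ₗ[A] N) :
    A' ⊗[A] (LinearMap.ker f) →ₗ[A'] LinearMap.ker (f.baseChange A') :=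
  LinearMap.codRestrict _ ((LinearMap.ker f).subtype.baseChange A') (fun t => by
    rw [LinearMap.mem_ker, ← LinearMap.comp_apply, ← LinearMap.baseChange_comp]
    have : f ∘ₗ (LinearMap.ker f).subtype = 0 := by
      ext m; exact m.2
    rw [this, LinearMap.baseChange_zero, LinearMap.zero_apply])

@[simp] theorem kerBaseChangeMap_coe (f : M →ₗ[A] N) (t : A' ⊗[A] (LinearMap.ker f)) :
    (kerBaseChangeMap A' f t : A' ⊗[A] M) = (LinearMap.ker f).subtype.baseChange A' t := rfl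

theorem kerBaseChangeMap_tmul (f : M →ₗ[A] N) (a' : A') (m : LinearMap.ker f) :
    (kerBaseChangeMap A' f (a' ⊗ₜ[A] m) : A' ⊗[A] M) = a' ⊗ₜ[A] (m : M) := rfl

/-- For a split surjection `f`, the natural map `A' ⊗ ker f → ker (A' ⊗ f)` is bijective. -/
theorem kerBaseChangeMap_bijective (f : M →ₗ[A] N) (s : N →ₗ[A] M)
    (hs : f ∘ₗ s = LinearMap.id) : Function.Bijective (kerBaseChangeMap A' f) := by
  -- the projection onto the kernel
  let π₀ : M →ₗ[A] LinearMap.ker f :=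
    LinearMap.codRestrict _ (LinearMap.id - s ∘ₗ f) (fun m => by
      rw [LinearMap.mem_ker, LinearMap.sub_apply, LinearMap.id_apply, LinearMap.comp_apply,
        map_sub, ← LinearMap.comp_apply (f := f) (g := s), hs, LinearMap.id_apply, sub_self])
  have hπι : π₀ ∘ₗ (LinearMap.ker f).subtype = LinearMap.id := by
    ext m
    simp [π₀, (LinearMap.mem_ker.1 m.2)]
  have hιπ : (LinearMap.ker f).subtype ∘ₗ π₀ = LinearMap.id - s ∘ₗ f := by
    ext m
    simp [π₀]
  constructor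
  · intro t t' h
    have h' : (LinearMap.ker f).subtype.baseChange A' t =
        (LinearMap.ker f).subtype.baseChange A' t' := congrArg Subtype.val h
    have := congrArg (π₀.baseChange A') h'
    rwa [← LinearMap.comp_apply, ← LinearMap.comp_apply, ← LinearMap.baseChange_comp, hπι,
      LinearMap.baseChange_id, LinearMap.id_apply, LinearMap.id_apply] at this
  · rintro ⟨t, ht⟩
    refine ⟨π₀.baseChange A' t, Subtype.ext ?_⟩
    rw [kerBaseChangeMap_coe, ← LinearMap.comp_apply, ← LinearMap.baseChange_comp, hιπ,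
      LinearMap.baseChange_sub, LinearMap.sub_apply, LinearMap.baseChange_id,
      LinearMap.id_apply, LinearMap.baseChange_comp, LinearMap.comp_apply,
      LinearMap.mem_ker.1 ht, map_zero, sub_zero]

/-- For a split surjection `f`: `A' ⊗ ker f ≃ ker (A' ⊗ f)`. -/
def kerBaseChangeEquiv (f : M →ₗ[A] N) (s : N →ₗ[A] M) (hs : f ∘ₗ s = LinearMap.id) :
    A' ⊗[A] (LinearMap.ker f) ≃ₗ[A'] LinearMap.ker (f.baseChange A') :=
  LinearEquiv.ofBijective (kerBaseChangeMap A' f) (kerBaseChangeMap_bijective A' f s hs)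

theorem kerBaseChangeEquiv_tmul (f : M →ₗ[A] N) (s : N →ₗ[A] M) (hs : f ∘ₗ s = LinearMap.id)
    (a' : A') (m : LinearMap.ker f) :
    (kerBaseChangeEquiv A' f s hs (a' ⊗ₜ[A] m) : A' ⊗[A] M) = a' ⊗ₜ[A] (m : M) := rfl

end KerSplit

/-! ### Base change of the twisted Čech differential -/

section Tcech

variable {k : Type u} [Field k] {B₀ B₁ B₀₁ : Type u} [CommRing B₀] [CommRing B₁] [CommRing B₀₁]
  [Algebra k B₀] [Algebra k B₁] [Algebra k B₀₁] [Algebra B₀ B₀₁] [Algebra B₁ B₀₁]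
  [IsScalarTower k B₀ B₀₁] [IsScalarTower k B₁ B₀₁]
  {x : B₀} {y : B₁} {e : B₁ →ₐ[k] k}
  {A A' : Type u} [CommRing A] [Algebra k A] [CommRing A'] [Algebra k A']

theorem tensorMapLeft_xElt (ψ : A →ₐ[k] A') (x : B₀) :
    tensorMapLeft k ψ B₀₁ (xElt k B₀₁ A x) = xElt k B₀₁ A' x := by
  rw [xElt, xElt, tensorMapLeft_tmul, map_one]

theorem tensorMapLeft_yElt (ψ : A →ₐ[k] A') (y : B₁) :
    tensorMapLeft k ψ B₁ (yElt k A y) = yElt k A' y := by
  rw [yElt, yElt, tensorMapLeft_tmul, map_one]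

/-- Compatibility of the base-change maps with the twisted differentials. -/
theorem tcech_baseChangeMaps (ψ : A →ₐ[k] A') {G : CurveGD k B₀ B₁ B₀₁ A}
    {G' : CurveGD k B₀ B₁ B₀₁ A'}
    (bc : GlueDatum.BaseChangeMaps (tensorMapLeft k ψ B₀) (tensorMapLeft k ψ B₁)
      (tensorMapLeft k ψ B₀₁) G G') (x : B₀) (n : ℕ) (p : G.N₀ × G.N₁) :
    bc.b₀₁ (tcech x n G p) = tcech x n G' (bc.b₀ p.1, bc.b₁ p.2) := by
  rw [tcech_apply, tcech_apply, map_sub, LinearMap.map_smulₛₗ, bc.comm₀, bc.comm₁, map_pow,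
    tensorMapLeft_xElt]

/-- SH3 (a): base change maps sections to sections. -/
theorem mem_sec_of_baseChangeMaps (ψ : A →ₐ[k] A') {G : CurveGD k B₀ B₁ B₀₁ A}
    {G' : CurveGD k B₀ B₁ B₀₁ A'}
    (bc : GlueDatum.BaseChangeMaps (tensorMapLeft k ψ B₀) (tensorMapLeft k ψ B₁)
      (tensorMapLeft k ψ B₀₁) G G') (x : B₀) (n : ℕ) {p : G.N₀ × G.N₁} (hp : p ∈ sec x n G) :
    (bc.b₀ p.1, bc.b₁ p.2) ∈ sec x n G' := by
  rw [LinearMap.mem_ker, ← tcech_baseChangeMaps ψ bc x n p, LinearMap.mem_ker.1 hp, map_zero]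

/-- **AD4 for twists.** If `G'` is a base change of `G` along `ψ : A → A'`, the twisted Čech
differentials of `G'` are the base changes `A' ⊗[A] -` of those of `G` (with the same
identifications for all twists `n`). -/
theorem exists_tcech_square (ψ : A →ₐ[k] A') {G : CurveGD k B₀ B₁ B₀₁ A}
    {G' : CurveGD k B₀ B₁ B₀₁ A'}
    (bc : GlueDatum.BaseChangeMaps (tensorMapLeft k ψ B₀) (tensorMapLeft k ψ B₁)
      (tensorMapLeft k ψ B₀₁) G G') (x : B₀) :
    letI : Algebra A A' := ψ.toRingHom.toAlgebra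
    ∃ (E : A' ⊗[A] (G.N₀ × G.N₁) ≃ₗ[A'] (G'.N₀ × G'.N₁))
      (e : A' ⊗[A] G.N₀₁ ≃ₗ[A'] G'.N₀₁),
      (∀ (a' : A') (p : G.N₀ × G.N₁), E (a' ⊗ₜ[A] p) = a' • (bc.b₀ p.1, bc.b₁ p.2)) ∧
      (∀ (a' : A') (n : G.N₀₁), e (a' ⊗ₜ[A] n) = a' • bc.b₀₁ n) ∧
      ∀ (n : ℕ) t, e ((tcech x n G).baseChange A' t) = tcech x n G' (E t) := by
  letI algAA' : Algebra A A' := ψ.toRingHom.toAlgebra
  obtain ⟨E, e, hE, he, -⟩ := exists_cech_square ψ bc
  refine ⟨E, e, hE, he, fun n t => ?_⟩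
  induction t using TensorProduct.induction_on with
  | zero => rw [map_zero, map_zero, map_zero, map_zero]
  | add s t hs ht => rw [map_add, map_add, hs, ht, map_add, map_add]
  | tmul a' p =>
    rw [LinearMap.baseChange_tmul, he, hE, tcech_baseChangeMaps ψ bc x n p, map_smul]


/-- SH3 (b): `P0` is stable under base change. -/
theorem P0_of_baseChangeMaps (ψ : A →ₐ[k] A') {G : CurveGD k B₀ B₁ B₀₁ A}
    {G' : CurveGD k B₀ B₁ B₀₁ A'}
    (bc : GlueDatum.BaseChangeMaps (tensorMapLeft k ψ B₀) (tensorMapLeft k ψ B₁)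
      (tensorMapLeft k ψ B₀₁) G G') (x : B₀) (n : ℕ) (h0 : P0 x n G) : P0 x n G' := by
  letI algAA' : Algebra A A' := ψ.toRingHom.toAlgebra
  obtain ⟨E, e, -, -, h⟩ := exists_tcech_square ψ bc x
  intro z'
  have hsurj : Function.Surjective ((tcech x n G).baseChange A') := by
    rw [LinearMap.baseChange_eq_ltensor]
    exact LinearMap.lTensor_surjective A' h0
  obtain ⟨t, ht⟩ := hsurj (e.symm z')
  exact ⟨E t, by rw [← h n t, ht, LinearEquiv.apply_symm_apply]⟩

theorem P0_of_isBC (ψ : A →ₐ[k] A') {G : CurveGD k B₀ B₁ B₀₁ A}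
    {G' : CurveGD k B₀ B₁ B₀₁ A'} (h : CurveGD.IsBC ψ G G') (x : B₀) (n : ℕ)
    (h0 : P0 x n G) : P0 x n G' := by
  obtain ⟨bc⟩ := h
  exact P0_of_baseChangeMaps ψ bc x n h0

/-- SH3 (c): under `P0`, the twisted differential is a split surjection and `sec` is a
finitely generated projective `A`-module (K1 through the adapter). -/
theorem sec_finite_projective (hC : IsCurveChart k B₀ B₁ B₀₁ x y e)
    (G : CurveGD k B₀ B₁ B₀₁ A) (n : ℕ) (h0 : P0 x n G) :
    (∃ s : G.N₀₁ →ₗ[A] G.N₀ × G.N₁, tcech x n G ∘ₗ s = LinearMap.id) ∧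
      Module.Finite A (sec x n G) ∧ Module.Projective A (sec x n G) := by
  have hd := Fermat.Agent.S25.H190.tcech_eq_d hC n G
  have h := Fermat.Agent.S25.H370.H0_finite_projective_of_surjective
    (Fermat.Agent.S25.H250.chartCechOps hC G) (Fermat.Agent.S25.H250.isFGProj_X0 hC G)
    (Fermat.Agent.S25.H250.isFGProj_Y1 hC G) (Fermat.Agent.S25.H250.r0_injective hC G)
    (Fermat.Agent.S25.H250.r1_injective hC G) n (by rw [← hd]; exact h0)
  rw [← hd, ← Fermat.Agent.S25.H190.sec_eq_H0 hC n G] at h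
  exact h

/-- SH3 (d): under `P0`, `sec` commutes with base change. -/
theorem exists_sec_baseChange_equiv (hC : IsCurveChart k B₀ B₁ B₀₁ x y e) (ψ : A →ₐ[k] A')
    {G : CurveGD k B₀ B₁ B₀₁ A} {G' : CurveGD k B₀ B₁ B₀₁ A'}
    (bc : GlueDatum.BaseChangeMaps (tensorMapLeft k ψ B₀) (tensorMapLeft k ψ B₁)
      (tensorMapLeft k ψ B₀₁) G G') (n : ℕ) (h0 : P0 x n G) :
    letI : Algebra A A' := ψ.toRingHom.toAlgebra
    ∃ ε : A' ⊗[A] (sec x n G) ≃ₗ[A'] (sec x n G'),
      ∀ (a' : A') (s : sec x n G), ((ε (a' ⊗ₜ[A] s) : sec x n G') : G'.N₀ × G'.N₁) =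
        a' • (bc.b₀ (s : G.N₀ × G.N₁).1, bc.b₁ (s : G.N₀ × G.N₁).2) := by
  letI algAA' : Algebra A A' := ψ.toRingHom.toAlgebra
  obtain ⟨E, e, hE, -, h⟩ := exists_tcech_square ψ bc x
  obtain ⟨⟨s, hs⟩, -, -⟩ := sec_finite_projective hC G n h0
  refine ⟨(kerBaseChangeEquiv A' (tcech x n G) s hs).trans
    (kerEquivOfSquare (R := A') (M := A' ⊗[A] (G.N₀ × G.N₁)) (N := A' ⊗[A] G.N₀₁)
      (M' := G'.N₀ × G'.N₁) (N' := G'.N₀₁) ((tcech x n G).baseChange A') (tcech x n G') E e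
      (h n)), fun a' s => ?_⟩
  exact hE a' s


/-- SH3 (e): under `P0`, `sec G'` is the `A'`-span of the image of `sec G`. -/
theorem sec_eq_span_of_baseChangeMaps (hC : IsCurveChart k B₀ B₁ B₀₁ x y e) (ψ : A →ₐ[k] A')
    {G : CurveGD k B₀ B₁ B₀₁ A} {G' : CurveGD k B₀ B₁ B₀₁ A'}
    (bc : GlueDatum.BaseChangeMaps (tensorMapLeft k ψ B₀) (tensorMapLeft k ψ B₁)
      (tensorMapLeft k ψ B₀₁) G G') (n : ℕ) (h0 : P0 x n G) :
    sec x n G' = Submodule.span A'
      (Set.range fun s : sec x n G =>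
        ((bc.b₀ (s : G.N₀ × G.N₁).1, bc.b₁ (s : G.N₀ × G.N₁).2) : G'.N₀ × G'.N₁)) := by
  letI algAA' : Algebra A A' := ψ.toRingHom.toAlgebra
  obtain ⟨ε, hε⟩ := exists_sec_baseChange_equiv hC ψ bc n h0
  apply le_antisymm
  · intro t ht
    obtain ⟨u, hu⟩ := ε.surjective ⟨t, ht⟩
    have key : ∀ u : A' ⊗[A] (sec x n G), ((ε u : sec x n G') : G'.N₀ × G'.N₁) ∈
        Submodule.span A' (Set.range fun s : sec x n G =>
          ((bc.b₀ (s : G.N₀ × G.N₁).1, bc.b₁ (s : G.N₀ × G.N₁).2) : G'.N₀ × G'.N₁)) := by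
      intro u
      induction u using TensorProduct.induction_on with
      | zero => rw [map_zero]; exact Submodule.zero_mem _
      | tmul a' s =>
        rw [hε]
        exact Submodule.smul_mem _ _ (Submodule.subset_span ⟨s, rfl⟩)
      | add u v hu hv =>
        rw [map_add]
        exact Submodule.add_mem _ hu hv
    have := key u
    rw [hu] at this
    exact this
  · rw [Submodule.span_le]
    rintro _ ⟨s, rfl⟩
    exact mem_sec_of_baseChangeMaps ψ bc x n s.2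

/-- SH3 (f): under `P0`, the rank of `sec G'` at `p'` is the rank of `sec G` at `ψ⁻¹ p'`. -/
theorem rankAtStalk_sec_of_baseChangeMaps (hC : IsCurveChart k B₀ B₁ B₀₁ x y e)
    (ψ : A →ₐ[k] A') {G : CurveGD k B₀ B₁ B₀₁ A} {G' : CurveGD k B₀ B₁ B₀₁ A'}
    (bc : GlueDatum.BaseChangeMaps (tensorMapLeft k ψ B₀) (tensorMapLeft k ψ B₁)
      (tensorMapLeft k ψ B₀₁) G G') (n : ℕ) (h0 : P0 x n G) (p' : PrimeSpectrum A') :
    Module.rankAtStalk (sec x n G') p' =
      Module.rankAtStalk (sec x n G) (PrimeSpectrum.comap ψ.toRingHom p') := by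
  letI algAA' : Algebra A A' := ψ.toRingHom.toAlgebra
  obtain ⟨ε, -⟩ := exists_sec_baseChange_equiv hC ψ bc n h0
  obtain ⟨-, hfin, hproj⟩ := sec_finite_projective hC G n h0
  rw [← Module.rankAtStalk_eq_of_equiv ε, Module.rankAtStalk_baseChange]
  rfl

end Tcech

end

end Fermat.Agent.S25.H610

end
-- ===== PACK-END S25/H610/SecBC.lean

-- ===== PACK-BEGIN S25/H325/ACUnivProd.lean
section
/-
S25 helper (helper325), block ALGCHARTS, leaf COV3-DATUM (part 2): products of Hilbert ideals and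
the divisor `Σ q i`; the universal datum for `J = I' * ptIdeal q A`.
-/




set_option autoImplicit false
set_option linter.style.haveILetI false
set_option linter.unusedSectionVars false

universe u

open TensorProduct

namespace Fermat.Agent.S25.H325

open Fermat.Agent.S25 Fermat.Agent.S25.H11

noncomputable section

variable {k : Type u} [Field k] [IsAlgClosed k] {B₀ B₁ B₀₁ : Type u} [CommRing B₀] [CommRing B₁]
  [CommRing B₀₁] [Algebra k B₀] [Algebra k B₁] [Algebra k B₀₁] [Algebra B₀ B₀₁] [Algebra B₁ B₀₁]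
  [IsScalarTower k B₀ B₀₁] [IsScalarTower k B₁ B₀₁] {x : B₀} {y : B₁} {e : B₁ →ₐ[k] k}

variable (A : Type u) [CommRing A] [Algebra k A]

/-- In a curve chart, the quotient by a product of two ideals with finite projective quotients
is finite projective over the base. -/
theorem hilb_quot_mul (hC : IsCurveChart k B₀ B₁ B₀₁ x y e) (I I' : Ideal (A ⊗[k] B₀))
    [Module.Finite A ((A ⊗[k] B₀) ⧸ I)] [Module.Projective A ((A ⊗[k] B₀) ⧸ I)]
    [Module.Finite A ((A ⊗[k] B₀) ⧸ I')] [Module.Projective A ((A ⊗[k] B₀) ⧸ I')] :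
    Module.Finite A ((A ⊗[k] B₀) ⧸ (I * I')) ∧ Module.Projective A ((A ⊗[k] B₀) ⧸ (I * I')) := by
  haveI : Module.Invertible (A ⊗[k] B₀) I' := H851.hilb_invertible A hC I'
  exact finite_projective_quot_mul (A := A) I I'

theorem ptHom_surjective (p : B₀ →ₐ[k] k) : Function.Surjective (ptHom p A) := fun a =>
  ⟨a ⊗ₜ[k] 1, by simp⟩

/-- The quotient by the ideal of a point is free of rank one. -/
theorem quot_ker_ptHom (p : B₀ →ₐ[k] k) :
    Module.Finite A ((A ⊗[k] B₀) ⧸ RingHom.ker (ptHom p A)) ∧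
      Module.Projective A ((A ⊗[k] B₀) ⧸ RingHom.ker (ptHom p A)) := by
  let E : ((A ⊗[k] B₀) ⧸ RingHom.ker (ptHom p A)) ≃ₗ[A] A :=
    (Ideal.quotientKerAlgEquivOfSurjective (ptHom_surjective A p)).toLinearEquiv
  exact ⟨Module.Finite.equiv E.symm, Module.Projective.of_equiv E.symm⟩

/-- The quotient by a finite product of ideals with finite projective quotients is finite
projective. -/
theorem hilb_quot_prod (hC : IsCurveChart k B₀ B₁ B₀₁ x y e) {ι : Type*} (s : Finset ι)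
    (I : ι → Ideal (A ⊗[k] B₀))
    (hI : ∀ i ∈ s, Module.Finite A ((A ⊗[k] B₀) ⧸ I i) ∧
      Module.Projective A ((A ⊗[k] B₀) ⧸ I i)) :
    Module.Finite A ((A ⊗[k] B₀) ⧸ ∏ i ∈ s, I i) ∧
      Module.Projective A ((A ⊗[k] B₀) ⧸ ∏ i ∈ s, I i) := by
  classical
  induction s using Finset.induction_on with
  | empty =>
    rw [Finset.prod_empty, Ideal.one_eq_top]
    haveI : Subsingleton ((A ⊗[k] B₀) ⧸ (⊤ : Ideal (A ⊗[k] B₀))) :=
      Ideal.Quotient.subsingleton_iff.mpr rfl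
    exact ⟨inferInstance, inferInstance⟩
  | insert a s ha ih =>
    rw [Finset.prod_insert ha]
    obtain ⟨h1, h2⟩ := hI a (Finset.mem_insert_self a s)
    obtain ⟨h3, h4⟩ := ih (fun i hi => hI i (Finset.mem_insert_of_mem hi))
    exact hilb_quot_mul A hC (I a) (∏ i ∈ s, I i)

/-- The quotient by the ideal of the divisor `Σ q i` is finite projective. -/
theorem quot_ptIdeal (hC : IsCurveChart k B₀ B₁ B₀₁ x y e) {m : ℕ} (q : Fin m → (B₀ →ₐ[k] k)) :
    Module.Finite A ((A ⊗[k] B₀) ⧸ ptIdeal q A) ∧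
      Module.Projective A ((A ⊗[k] B₀) ⧸ ptIdeal q A) :=
  hilb_quot_prod A hC Finset.univ _ (fun i _ => quot_ker_ptHom A (q i))

/-- The quotient by `I' * ptIdeal q A` is finite projective if the quotient by `I'` is. -/
theorem quot_mul_ptIdeal (hC : IsCurveChart k B₀ B₁ B₀₁ x y e) (I' : Ideal (A ⊗[k] B₀))
    [Module.Finite A ((A ⊗[k] B₀) ⧸ I')] [Module.Projective A ((A ⊗[k] B₀) ⧸ I')]
    {m : ℕ} (q : Fin m → (B₀ →ₐ[k] k)) :
    Module.Finite A ((A ⊗[k] B₀) ⧸ (I' * ptIdeal q A)) ∧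
      Module.Projective A ((A ⊗[k] B₀) ⧸ (I' * ptIdeal q A)) := by
  obtain ⟨h1, h2⟩ := quot_ptIdeal A hC q
  exact hilb_quot_mul A hC I' (ptIdeal q A)

/-- **COV3-DATUM for `J = I' * ptIdeal q A`.** -/
theorem exists_datum_mul_ptIdeal (hC : IsCurveChart k B₀ B₁ B₀₁ x y e) (n : ℕ)
    (I' : Ideal (A ⊗[k] B₀)) [Module.Finite A ((A ⊗[k] B₀) ⧸ I')]
    [Module.Projective A ((A ⊗[k] B₀) ⧸ I')] {m : ℕ} (q : Fin m → (B₀ →ₐ[k] k)) :
    ∃ D : CurveGD k B₀ B₁ B₀₁ A, D.Rigidifiable e ∧ ∃ s ∈ sec x n D, GenModY y D s.2 ∧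
      Submodule.span (A ⊗[k] B₀) {s.1} =
        (I' * ptIdeal q A) • (⊤ : Submodule (A ⊗[k] B₀) D.N₀) := by
  obtain ⟨h1, h2⟩ := quot_mul_ptIdeal A hC I' q
  exact exists_datum_of_ideal A hC n (I' * ptIdeal q A)

/-- **COV3-DATUM for a chart ideal.** -/
theorem exists_datum_of_isChart (hC : IsCurveChart k B₀ B₁ B₀₁ x y e) (n : ℕ) {g : ℕ}
    (β : Fin g → B₀) {I' : Ideal (A ⊗[k] B₀)} (hI' : H491.IsChart β I') {m : ℕ}
    (q : Fin m → (B₀ →ₐ[k] k)) :
    ∃ D : CurveGD k B₀ B₁ B₀₁ A, D.Rigidifiable e ∧ ∃ s ∈ sec x n D, GenModY y D s.2 ∧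
      Submodule.span (A ⊗[k] B₀) {s.1} =
        (I' * ptIdeal q A) • (⊤ : Submodule (A ⊗[k] B₀) D.N₀) := by
  haveI := hI'.isHilb.finite
  haveI := hI'.isHilb.projective
  exact exists_datum_mul_ptIdeal A hC n I' q

/-- **COV3: the universal datum** over `Rβ`, for the chart index `i`. -/
theorem exists_univ_datum (hC : IsCurveChart k B₀ B₁ B₀₁ x y e) (i : ChartIndex k B₀) :
    ∃ D : CurveGD k B₀ B₁ B₀₁ (H491.Rβ k i.β), D.Rigidifiable e ∧ ∃ s ∈ sec x i.n D,
      GenModY y D s.2 ∧ Submodule.span (H491.Rβ k i.β ⊗[k] B₀) {s.1} =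
        (H491.univIdeal (k := k) i.β * ptIdeal i.q (H491.Rβ k i.β)) •
          (⊤ : Submodule (H491.Rβ k i.β ⊗[k] B₀) D.N₀) :=
  exists_datum_of_isChart (H491.Rβ k i.β) hC i.n i.β (H491.isChart_univIdeal i.β) i.q

/-- **COV3 over any base**: the datum with Hilbert coordinates `φ₀`, in the shape of
`PointCond.sect`. -/
theorem exists_datum_of_coord (hC : IsCurveChart k B₀ B₁ B₀₁ x y e) (i : ChartIndex k B₀)
    (φ₀ : H491.Rβ k i.β →ₐ[k] A) :
    ∃ D : CurveGD k B₀ B₁ B₀₁ A, D.Rigidifiable e ∧ ∃ s ∈ sec x i.n D,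
      GenModY y D s.2 ∧ Submodule.span (A ⊗[k] B₀) {s.1} =
        ((H491.univIdeal (k := k) i.β).map (H491.bc B₀ φ₀) * ptIdeal i.q A) •
          (⊤ : Submodule (A ⊗[k] B₀) D.N₀) :=
  exists_datum_of_isChart A hC i.n i.β ((H491.isChart_univIdeal i.β).map φ₀) i.q

end

end Fermat.Agent.S25.H325

end
-- ===== PACK-END S25/H325/ACUnivProd.lean

-- ===== PACK-BEGIN S26/H70/CubeGeom.lean
section


/-!
# Row S26, block CUBE, leaf C5 (`cube_of`), part (b): geometric preliminaries (helper70)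

* `geometricallyIntegral_prodStr` : the product of two geometrically integral `K`-schemes is
  geometrically integral (second factor flat and universally open, first locally of finite type);
* instances for an abelian variety.
-/

set_option autoImplicit false
universe u

open CategoryTheory CategoryTheory.Limits AlgebraicGeometry NeronModelInfra GoodReductionJacobian

namespace Fermat.Agent.S26.H70

noncomputable section

variable {K : Type u} [Field K]

/-- The product of two geometrically integral `K`-schemes is geometrically integral. -/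
theorem geometricallyIntegral_prodStr {Y Z : Scheme.{u}} (y : Y ⟶ Spec (CommRingCat.of K))
    (z : Z ⟶ Spec (CommRingCat.of K)) [GeometricallyIntegral y] [GeometricallyIntegral z]
    [Flat z] [UniversallyOpen z] [LocallyOfFiniteType y] :
    GeometricallyIntegral (prodStr y z) := by
  rw [geometricallyIntegral_iff]
  intro L _ ℓ Z'' fst'' snd'' hpb
  -- the base change `Y_L`
  have hYL : IsIntegral (pullback y ℓ) :=
    (GeometricallyIntegral.geometrically_isIntegral (f := y)) ℓ _ _ (IsPullback.of_hasPullback y ℓ)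
  have hN : IsLocallyNoetherian (pullback y ℓ) :=
    LocallyOfFiniteType.isLocallyNoetherian (pullback.snd y ℓ)
  -- the map `Z'' ⟶ Y_L`
  have hw : (fst'' ≫ pullback.fst y z) ≫ y = snd'' ≫ ℓ := by
    rw [Category.assoc]; exact hpb.w
  let q : Z'' ⟶ pullback y ℓ := pullback.lift (fst'' ≫ pullback.fst y z) snd'' hw
  have hq1 : q ≫ pullback.fst y ℓ = fst'' ≫ pullback.fst y z := pullback.lift_fst _ _ _
  have hq2 : q ≫ pullback.snd y ℓ = snd'' := pullback.lift_snd _ _ _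
  have hbig : IsPullback (q ≫ pullback.snd y ℓ) fst'' ℓ (pullback.fst y z ≫ y) := by
    rw [hq2]; exact hpb.flip
  have hleft : IsPullback q fst'' (pullback.fst y ℓ) (pullback.fst y z) :=
    IsPullback.of_right hbig hq1 (IsPullback.of_hasPullback y ℓ).flip
  have h1 : GeometricallyIntegral q :=
    MorphismProperty.of_isPullback (P := @GeometricallyIntegral) hleft.flip inferInstance
  have h2 : Flat q :=
    MorphismProperty.of_isPullback (P := @Flat) hleft.flip inferInstance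
  have h3 : UniversallyOpen q :=
    MorphismProperty.of_isPullback (P := @UniversallyOpen) hleft.flip inferInstance
  exact GeometricallyIntegral.isIntegral_of_isLocallyNoetherian q

namespace AbVarInst

variable (X : AbVar K)

theorem smooth : Smooth X.str := X.bundle.smooth

theorem proper : IsProper X.str := X.bundle.proper

end AbVarInst

end

end Fermat.Agent.S26.H70

end
-- ===== PACK-END S26/H70/CubeGeom.lean

-- ===== PACK-BEGIN S37/H459/ChartGen.lean
section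





/-!
# S37 / node_rim (helper459): the fields `P_unif`, `P_sep` of `H518.Chart` (generic fibre)

Characteristic-free function-field statements (`K` algebraically closed, `F` finite over `K(x)`,
`x` transcendental), proved from Riemann's theorem (`Lib/RR`):

* `exists_integral_uniformizer` : for a place `P` with `x` regular at `P` there is `w` with
  `ord_P w = 1` which is regular at every place where `x` is regular;
* `exists_integral_separator`   : for `P ≠ P'` (both with `x` regular) there is `s`, regular where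
  `x` is regular, with `s(P') = 0`, `s(P) ≠ 0`;
* `isIntegral_of_forall_ord_nonneg` : a function regular at all places where `x` is regular is
  integral over `K[x]`.

Chart level (`H518` language; `B ⊆ V` chart algebra, `x ∈ B`):
`P_unif_of_scaling`, `P_sep_of_scaling` give the fields `P_unif`, `P_sep` of `H518.Chart` from the
SCALING hypothesis "every `f` integral over `L[ι x]` has a nonzero constant multiple in `ι(B)`".
-/

set_option autoImplicit false

noncomputable section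

namespace Fermat.Agent.S37.H459

open AlgebraicCurve IntermediateField Fermat.Agent.S24.H504 Fermat.Agent.S37.H518
open Fermat.Agent.Lib.RR

section Generic

variable {K F : Type*} [Field K] [Field F] [Algebra K F] [IsAlgClosed K]

/-- The pole divisor of `x` vanishes at places where `x` is regular. -/
theorem poleD_eq_zero_of_ord_nonneg {x : F} (hx : Transcendental K x)
    [FiniteDimensional K⟮x⟯ F] {v : Place K F} (hv : 0 ≤ v.ord x) :
    H560.poleD x hx x v = 0 := by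
  rw [H560.poleD_apply]
  omega

/-- There are `m` and the divisor `E = m (x)_∞` such that `ℓ(D) = deg D + 1 - g` for every `D`
of degree `≥ deg E - 2`.  Technical core of the two lemmas below. -/
theorem exists_large_poleD {x : F} (hx : Transcendental K x) [FiniteDimensional K⟮x⟯ F] :
    haveI : FF1 K F := H560.ff1 x hx
    ∃ E : Divisor K F, (∀ v : Place K F, 0 ≤ v.ord x → E v = 0) ∧
      ∀ D : Divisor K F, Divisor.degree E - 2 ≤ Divisor.degree D →
        (ell D : ℤ) = Divisor.degree D + 1 - (genusR K F : ℤ) := by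
  haveI : FF1 K F := H560.ff1 x hx
  obtain ⟨c, hc⟩ := exists_degree_bound (K := K) (F := F)
  have hn : (1 : ℤ) ≤ Divisor.degree (H560.poleD x hx x) := by
    rw [H560.degree_poleD x hx x hx]
    have : 0 < Module.finrank K⟮x⟯ F := Module.finrank_pos
    exact_mod_cast this
  refine ⟨(c + 2).toNat • H560.poleD x hx x, fun v hv => ?_, fun D hD => hc D ?_⟩
  · rw [Finsupp.smul_apply, poleD_eq_zero_of_ord_nonneg hx hv, smul_zero]
  · rw [map_nsmul, nsmul_eq_mul] at hD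
    have h1 : c + 2 ≤ ((c + 2).toNat : ℤ) := Int.self_le_toNat _
    have h2 : (0 : ℤ) ≤ ((c + 2).toNat : ℤ) := Int.natCast_nonneg _
    nlinarith

/-- **Local uniformisers in the chart.**  If `x` is regular at `P`, some function regular at all
places where `x` is regular has a simple zero at `P`. -/
theorem exists_integral_uniformizer {x : F} (hx : Transcendental K x)
    [FiniteDimensional K⟮x⟯ F] (P : Place K F) (hP : 0 ≤ P.ord x) :
    ∃ w : F, P.ord w = 1 ∧ ∀ v : Place K F, 0 ≤ v.ord x → 0 ≤ v.ord w := by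
  classical
  haveI : FF1 K F := H560.ff1 x hx
  obtain ⟨E, hE, hell⟩ := exists_large_poleD (K := K) (F := F) hx
  have hdegP : Divisor.degree (prim P) = 1 := degree_prim P (_root_.Fermat.Agent.Lib.RR.deg_eq_one P)
  set D₁ : Divisor K F := E - prim P with hD₁
  set D₂ : Divisor K F := E - prim P - prim P with hD₂
  have hd₁ : Divisor.degree D₁ = Divisor.degree E - 1 := by rw [hD₁, map_sub, hdegP]
  have hd₂ : Divisor.degree D₂ = Divisor.degree E - 2 := by
    rw [hD₂, map_sub, map_sub, hdegP]; ring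
  have hl₁ := hell D₁ (by rw [hd₁]; omega)
  have hl₂ := hell D₂ (by rw [hd₂])
  have hlt : ell D₂ < ell D₁ := by
    have : (ell D₂ : ℤ) < ell D₁ := by rw [hl₁, hl₂, hd₁, hd₂]; omega
    exact_mod_cast this
  have hPP : prim P P = 1 := by simp [prim]
  -- an element of `L(D₁) \ L(D₂)`
  have hex : ∃ w ∈ riemannRochSpace D₁, w ∉ riemannRochSpace D₂ := by
    by_contra hcon
    push Not at hcon
    have hle : riemannRochSpace D₁ ≤ riemannRochSpace D₂ := fun w hw => hcon w hw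
    have := Submodule.finrank_mono hle
    unfold ell at hlt
    omega
  obtain ⟨w, hw₁, hw₂⟩ := hex
  have hw0 : w ≠ 0 := fun h => hw₂ (h ▸ Submodule.zero_mem _)
  rw [mem_L_iff] at hw₁ hw₂
  have hw₁' : ∀ v : Place K F, -D₁ v ≤ v.ord w := fun v => (hw₁ v).resolve_left hw0
  push Not at hw₂
  obtain ⟨v₀, -, hv₀⟩ := hw₂
  have hv₀P : v₀ = P := by
    by_contra hne
    have h1 := hw₁' v₀
    have e : D₂ v₀ = D₁ v₀ := by
      rw [hD₂, hD₁, Finsupp.sub_apply, prim_apply_of_ne hne, sub_zero]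
    rw [e] at hv₀
    omega
  subst hv₀P
  have hEP : E v₀ = 0 := hE v₀ hP
  have e₁ : D₁ v₀ = -1 := by rw [hD₁, Finsupp.sub_apply, hEP, hPP]; ring
  have e₂ : D₂ v₀ = -2 := by
    rw [hD₂, Finsupp.sub_apply, Finsupp.sub_apply, hEP, hPP]; ring
  refine ⟨w, ?_, fun v hv => ?_⟩
  · have h1 := hw₁' v₀
    rw [e₁] at h1
    rw [e₂] at hv₀
    omega
  · have h1 := hw₁' v
    by_cases hvP : v = v₀
    · subst hvP
      rw [e₁] at h1
      omega
    · have e : D₁ v = 0 := by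
        rw [hD₁, Finsupp.sub_apply, prim_apply_of_ne hvP, hE v hv, sub_zero]
      rw [e] at h1
      omega

/-- **Separation in the chart.**  If `x` is regular at `P ≠ P'`, some function regular at all
places where `x` is regular vanishes at `P'` and not at `P`. -/
theorem exists_integral_separator {x : F} (hx : Transcendental K x)
    [FiniteDimensional K⟮x⟯ F] (P P' : Place K F) (hP : 0 ≤ P.ord x) (hP' : 0 ≤ P'.ord x)
    (hne : P ≠ P') :
    ∃ s : F, s ≠ 0 ∧ P.ord s = 0 ∧ 0 < P'.ord s ∧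
      ∀ v : Place K F, 0 ≤ v.ord x → 0 ≤ v.ord s := by
  classical
  haveI : FF1 K F := H560.ff1 x hx
  obtain ⟨E, hE, hell⟩ := exists_large_poleD (K := K) (F := F) hx
  have hdegP : Divisor.degree (prim P) = 1 := degree_prim P (_root_.Fermat.Agent.Lib.RR.deg_eq_one P)
  have hdegP' : Divisor.degree (prim P') = 1 := degree_prim P' (_root_.Fermat.Agent.Lib.RR.deg_eq_one P')
  set D₁ : Divisor K F := E - prim P' with hD₁
  set D₂ : Divisor K F := E - prim P' - prim P with hD₂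
  have hd₁ : Divisor.degree D₁ = Divisor.degree E - 1 := by rw [hD₁, map_sub, hdegP']
  have hd₂ : Divisor.degree D₂ = Divisor.degree E - 2 := by
    rw [hD₂, map_sub, map_sub, hdegP, hdegP']; ring
  have hl₁ := hell D₁ (by rw [hd₁]; omega)
  have hl₂ := hell D₂ (by rw [hd₂])
  have hlt : ell D₂ < ell D₁ := by
    have : (ell D₂ : ℤ) < ell D₁ := by rw [hl₁, hl₂, hd₁, hd₂]; omega
    exact_mod_cast this
  have hPP : prim P P = 1 := by simp [prim]
  have hP'P' : prim P' P' = 1 := by simp [prim]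
  have hP'P : prim P' P = 0 := prim_apply_of_ne hne
  have hPP' : prim P P' = 0 := prim_apply_of_ne (Ne.symm hne)
  have hex : ∃ w ∈ riemannRochSpace D₁, w ∉ riemannRochSpace D₂ := by
    by_contra hcon
    push Not at hcon
    have hle : riemannRochSpace D₁ ≤ riemannRochSpace D₂ := fun w hw => hcon w hw
    have := Submodule.finrank_mono hle
    unfold ell at hlt
    omega
  obtain ⟨s, hs₁, hs₂⟩ := hex
  have hs0 : s ≠ 0 := fun h => hs₂ (h ▸ Submodule.zero_mem _)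
  rw [mem_L_iff] at hs₁ hs₂
  have hs₁' : ∀ v : Place K F, -D₁ v ≤ v.ord s := fun v => (hs₁ v).resolve_left hs0
  push Not at hs₂
  obtain ⟨v₀, -, hv₀⟩ := hs₂
  have hv₀P : v₀ = P := by
    by_contra hne'
    have h1 := hs₁' v₀
    have e : D₂ v₀ = D₁ v₀ := by
      rw [hD₂, Finsupp.sub_apply, prim_apply_of_ne hne', sub_zero]
    rw [e] at hv₀
    omega
  subst hv₀P
  have e₁ : D₁ v₀ = 0 := by rw [hD₁, Finsupp.sub_apply, hE v₀ hP, hP'P]; ring
  have e₂ : D₂ v₀ = -1 := by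
    rw [hD₂, Finsupp.sub_apply, Finsupp.sub_apply, hE v₀ hP, hP'P, hPP]; ring
  have e₁' : D₁ P' = -1 := by rw [hD₁, Finsupp.sub_apply, hE P' hP', hP'P']; ring
  refine ⟨s, hs0, ?_, ?_, fun v hv => ?_⟩
  · have h1 := hs₁' v₀
    rw [e₁] at h1
    rw [e₂] at hv₀
    omega
  · have h1 := hs₁' P'
    rw [e₁'] at h1
    omega
  · have h1 := hs₁' v
    by_cases hvP : v = P'
    · subst hvP
      rw [e₁'] at h1
      omega
    · have e : D₁ v = 0 := by
        rw [hD₁, Finsupp.sub_apply, prim_apply_of_ne hvP, hE v hv, sub_zero]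
      rw [e] at h1
      omega

omit [IsAlgClosed K] in
/-- **Regular on the chart ⟹ integral.**  A function which is regular at every place at which
`x` is regular is integral over `K[x]` (characteristic free). -/
theorem isIntegral_of_forall_ord_nonneg {x : F} (hx : Transcendental K x)
    [FiniteDimensional K⟮x⟯ F] {f : F}
    (hf : ∀ v : Place K F, 0 ≤ v.ord x → 0 ≤ v.ord f) :
    IsIntegral (Algebra.adjoin K {x}) f := by
  classical
  set R : Subring F := (integralClosure (Algebra.adjoin K {x}) F).toSubring with hR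
  by_contra hfint
  have hfR : f ∉ R := fun h => hfint h
  haveI : IsIntegrallyClosedIn R F := by
    rw [Subring.isIntegrallyClosedIn_iff]
    intro y hy
    have hy' : IsIntegral (integralClosure (Algebra.adjoin K {x}) F) y := hy
    exact isIntegral_trans (A := integralClosure (Algebra.adjoin K {x}) F) y hy'
  obtain ⟨O, hRO, hfO⟩ := Subring.exists_le_valuationSubring_of_isIntegrallyClosedIn hfR
  have hadj : ∀ y ∈ Algebra.adjoin K {x}, y ∈ O := fun y hy =>
    hRO (show y ∈ integralClosure (Algebra.adjoin K {x}) F from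
      (isIntegral_algebraMap (R := Algebra.adjoin K {x}) (x := ⟨y, hy⟩)))
  have hK : ∀ a : K, algebraMap K F a ∈ O := fun a =>
    hadj _ (Subalgebra.algebraMap_mem _ a)
  have hO : O ≠ ⊤ := fun h => hfO (h ▸ ValuationSubring.mem_top f)
  obtain ⟨v, hv⟩ := Fermat.Agent.S18.H504.exists_place_eq hx O hK hO
  have hxv : 0 ≤ v.ord x := by
    rw [← mem_iff_ord_nonneg', hv]
    exact hadj x (Algebra.self_mem_adjoin_singleton K x)
  have := hf v hxv
  rw [← mem_iff_ord_nonneg', hv] at this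
  exact hfO this

end Generic

section Chart

variable {L : Type*} [Field L] {A : ValuationSubring L} {k : Type*} [Field k]
variable {F : Type*} [Field F] [Algebra L F] {Fk : Type*} [Field Fk] [Algebra k Fk]
variable {V : Type*} [CommRing V] [Algebra A V]
variable {ι : V →+* F} [IsAlgClosed L]

/-- **Field `P_unif` of `H518.Chart`** from the scaling hypothesis. -/
theorem P_unif_of_scaling {B : Subalgebra A V} {x : V} (hx : x ∈ B)
    (hxt : Transcendental L (ι x)) (hfin : FiniteDimensional L⟮ι x⟯ F)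
    (hSC : ∀ f : F, IsIntegral (Algebra.adjoin L {ι x}) f →
      ∃ c : L, c ≠ 0 ∧ ∃ b ∈ B, ι b = algebraMap L F c * f)
    (P : Place L F) (hP : PC ι B P) : ∃ w ∈ B, P.ord (ι w) = 1 := by
  have := hfin
  obtain ⟨w, hw, hwreg⟩ := exists_integral_uniformizer hxt P (PC.ord_nonneg hP hx)
  obtain ⟨c, hc, b, hb, hbw⟩ := hSC w (isIntegral_of_forall_ord_nonneg hxt hwreg)
  refine ⟨b, hb, ?_⟩
  have hw0 : w ≠ 0 := Fermat.Agent.S24.H504.ne_zero_of_ord_ne_zero P (by omega)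
  have hc0 : algebraMap L F c ≠ 0 := by
    rwa [Ne, map_eq_zero_iff _ (algebraMap L F).injective]
  rw [hbw, P.ord_mul hc0 hw0, Fermat.Agent.S24.H504.ord_algebraMap, hw, zero_add]

/-- **Field `P_sep` of `H518.Chart`** from the scaling hypothesis. -/
theorem P_sep_of_scaling {B : Subalgebra A V} {x : V} (hx : x ∈ B)
    (hxt : Transcendental L (ι x)) (hfin : FiniteDimensional L⟮ι x⟯ F)
    (hSC : ∀ f : F, IsIntegral (Algebra.adjoin L {ι x}) f →
      ∃ c : L, c ≠ 0 ∧ ∃ b ∈ B, ι b = algebraMap L F c * f)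
    (P P' : Place L F) (hP : PC ι B P) (hP' : PC ι B P') (hne : P ≠ P') :
    ∃ s ∈ B, ¬ InMax P (ι s) ∧ InMax P' (ι s) := by
  have := hfin
  obtain ⟨s, hs0, hsP, hsP', hsreg⟩ := exists_integral_separator hxt P P'
    (PC.ord_nonneg hP hx) (PC.ord_nonneg hP' hx) hne
  obtain ⟨c, hc, b, hb, hbs⟩ := hSC s (isIntegral_of_forall_ord_nonneg hxt hsreg)
  have hc0 : algebraMap L F c ≠ 0 := by
    rwa [Ne, map_eq_zero_iff _ (algebraMap L F).injective]
  refine ⟨b, hb, ?_, ?_⟩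
  · rw [hbs]
    refine not_inMax_of_ord_eq_zero (mul_ne_zero hc0 hs0) ?_
    rw [P.ord_mul hc0 hs0, Fermat.Agent.S24.H504.ord_algebraMap, hsP, zero_add]
  · rw [hbs]
    right
    rw [P'.ord_mul hc0 hs0, Fermat.Agent.S24.H504.ord_algebraMap, zero_add]
    exact hsP'

end Chart

end Fermat.Agent.S37.H459

end
end
-- ===== PACK-END S37/H459/ChartGen.lean

-- ===== PACK-BEGIN S30/H990/Final.lean
section
/-
S30 top glue (helper990): the frozen statement S30 from the adic eigenmodules alone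
(the Chebotarev input is Tier 1 of the shared CHEB library).
-/




set_option autoImplicit false

namespace Fermat.Agent.S30.H990

open Polynomial

/-- **S30 from the adic eigenmodules.** -/
theorem result_of_hasAdicEigenModules (hmod : HasAdicEigenModules) :
    ∀ (p : ℕ) [Fact p.Prime] (N : ℕ) [NeZero N] (S : Finset ℕ)
      (_hpS : p ∈ S) (_hNS : ∀ q : ℕ, q.Prime → q ∣ N → q ∈ S)
      (𝒪' : Type) [CommRing 𝒪'] [IsDomain 𝒪'] [IsDiscreteValuationRing 𝒪']
      [IsAdicComplete (IsLocalRing.maximalIdeal 𝒪') 𝒪'] [Finite (IsLocalRing.ResidueField 𝒪')]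
      [CharZero 𝒪'] (_hp𝒪' : (p : 𝒪') ∈ IsLocalRing.maximalIdeal 𝒪')
      (χ : CuspForm.heckeAlgebra N 2 (↑S : Set ℕ) →+* 𝒪'),
      ∃ (𝒪'' : Type) (_ : CommRing 𝒪'') (_ : IsDomain 𝒪'') (_ : IsDiscreteValuationRing 𝒪'')
        (_ : IsAdicComplete (IsLocalRing.maximalIdeal 𝒪'') 𝒪'')
        (_ : Finite (IsLocalRing.ResidueField 𝒪'')) (_ : CharZero 𝒪'')
        (_ : Algebra 𝒪' 𝒪'') (_ : Module.Finite 𝒪' 𝒪'') (_ : IsLocalHom (algebraMap 𝒪' 𝒪'')),
      Function.Injective (algebraMap 𝒪' 𝒪'') ∧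
      ∃ ρ : GaloisRepAdic 𝒪'',
        (∀ (ℓ : ℕ) (hℓ : ℓ.Prime) (hℓN : ¬ ℓ ∣ N) (hℓS : ℓ ∉ (↑S : Set ℕ)),
          ∀ A : ValuationSubring (AlgebraicClosure ℚ), A.LiesOverPrime ℓ →
            ∀ σ : AlgebraicClosure ℚ ≃ₐ[ℚ] AlgebraicClosure ℚ, A.IsFrobeniusAt σ ℓ →
              LinearMap.charpoly (ρ.ρ σ) =
                X ^ 2 - C (algebraMap 𝒪' 𝒪'' (χ (CuspForm.heckeAlgebra.T hℓ hℓN hℓS))) * X
                  + C ((ℓ : 𝒪''))) ∧
        (∀ q : ℕ, q.Prime → ¬ q ∣ N → q ≠ p → ρ.IsUnramifiedAt q) :=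
  result_of (chebWeak_of_frobeniusDivision Fermat.Agent.Lib.Cheb.frobeniusDivision) hmod

end Fermat.Agent.S30.H990

end
-- ===== PACK-END S30/H990/Final.lean

-- ===== PACK-BEGIN S30/H709/ParEigen.lean
section




/-!
# S30-OCC, unconditional: the eigensystem `χ` occurs in the parabolic cohomology `H¹_par(Γ₀(N), O)`

* `periodHecke_facCoh` : the hypothesis `PeriodHecke` holds for the factorisation of `DefsM.lean`
  (`heckeFac`), by helper201's E2a (`H201.periodMap_heckeTLin`) and helper391's bridge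
  (`M4aTop_heckeCoh_eq_sum_trf`).
* `exists_parEigen` : for every domain `O` (any characteristic) and every ring homomorphism
  `χ : heckeAlgebra N 2 S →+* O` (`S` containing the primes dividing `N`) there is a nonzero
  parabolic character `c : Γ₀(N) → O` (`S29.IsParHom`) with `heckeCoh N ℓ c = χ (T_ℓ) • c` for all
  primes `ℓ ∉ S`.  This is the statement `(P) ParEigenStatement` of the adic module layer
  (helper330 `AdicDefs.lean`), unfolded.
* `exists_adic_eigen_lattice_coh`, `exists_occ_tensor_coh` : the lattice form and the transport to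
  `O ⊗ J`, with `PeriodHecke` discharged.
-/

set_option autoImplicit false

noncomputable section

namespace Fermat.Agent.S30.H709

open CongruenceSubgroup ModularCurve ModularCurve.Period TensorProduct IsLocalRing
open Fermat.Agent.S29
open scoped MatrixGroups

variable (N : ℕ) [NeZero N]

/-- The multiset `{γ'ᵢ}` of `DefsM.heckeFac`: `αᵢ γ = γ'ᵢ α_{π i}`. -/
def facCoh (ℓ : ℕ) (γ : Gamma0 N) : Multiset (Gamma0 N) :=
  (Finset.univ : Finset (Option (Fin ℓ))).val.map fun i => (heckeFac N ℓ γ i).2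

omit [NeZero N] in
theorem sum_map_facCoh {A : Type*} [AddCommMonoid A] (ℓ : ℕ) (c : Gamma0 N → A) (γ : Gamma0 N) :
    ((facCoh N ℓ γ).map c).sum = heckeCoh N ℓ c γ := by
  rw [facCoh, Multiset.map_map]
  rfl

omit [NeZero N] in
/-- **`PeriodHecke` holds** for the factorisation `heckeFac` of `DefsM.lean`. -/
theorem periodHecke_facCoh : PeriodHecke N (facCoh N) := by
  intro ℓ hℓ hℓN f γ
  have : Fact ℓ.Prime := ⟨hℓ⟩
  rw [sum_map_facCoh N ℓ (fun δ => periodMap N f (Additive.ofMul δ)) γ,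
    M4aTop_heckeCoh_eq_sum_trf hℓN, Fermat.Agent.S29.H201.periodMap_heckeTLin hℓ hℓN f,
    Fermat.Agent.S29.H201.heckeHom_apply]

variable {N}

/-- Period classes of elements of finite order vanish. -/
theorem perCls_eq_zero_of_pow {γ : Gamma0 N} {n : ℕ} (hn : 0 < n) (hγ : γ ^ n = 1) :
    perCls N γ = 0 := by
  have hpow : ∀ k : ℕ, perCls N (γ ^ k) = k • perCls N γ := by
    intro k
    induction k with
    | zero => rw [pow_zero, perCls_one, zero_smul]
    | succ k ih => rw [pow_succ, perCls_mul, ih, succ_nsmul]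
  have h := hpow n
  rw [hγ, perCls_one] at h
  have h2 : (n : ℤ) • perCls N γ = 0 := by rw [natCast_zsmul]; exact h.symm
  rcases smul_eq_zero.mp h2 with h3 | h3
  · exact absurd h3 (by exact_mod_cast hn.ne')
  · exact h3

/-- **(P)** The eigensystem `χ` occurs in the parabolic cohomology of `Γ₀(N)` with coefficients
in `O` (any domain). -/
theorem exists_parEigen {S : Set ℕ} (hNS : ∀ q : ℕ, q.Prime → q ∣ N → q ∈ S)
    {O : Type*} [CommRing O] [IsDomain O] (χ : CuspForm.heckeAlgebra N 2 S →+* O) :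
    ∃ c : G0 N → O, IsParHom c ∧ c ≠ 0 ∧
      ∀ (ℓ : ℕ) (hℓ : ℓ.Prime) (hℓN : ¬ ℓ ∣ N) (hℓS : ℓ ∉ S) (γ : G0 N),
        heckeCoh N ℓ c γ = χ (CuspForm.heckeAlgebra.T hℓ hℓN hℓS) * c γ := by
  classical
  have hPH := periodHecke_facCoh N
  let b := Module.finBasis ℤ (perLattice N)
  obtain ⟨w, hw0, hw⟩ := exists_eigen_coeffs (perRho hPH hNS) (perRho_injective hPH hNS) b χ
  -- the `χ`-semilinear functional on the period lattice
  let u : perLattice N →+ O :=
    { toFun := fun x => ∑ j, w j * ((b.repr x j : ℤ) : O)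
      map_zero' := by simp
      map_add' := fun x y => by
        simp only [map_add, Finsupp.coe_add, Pi.add_apply, Int.cast_add, mul_add,
          Finset.sum_add_distrib] }
  have hu : ∀ x, u x = ∑ j, w j * ((b.repr x j : ℤ) : O) := fun _ => rfl
  have hub : ∀ k, u (b k) = w k := by
    intro k
    rw [hu, Finset.sum_eq_single k]
    · rw [Module.Basis.repr_self, Finsupp.single_eq_same, Int.cast_one, mul_one]
    · intro j _ hj
      rw [Module.Basis.repr_self, Finsupp.single_eq_of_ne hj, Int.cast_zero, mul_zero]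
    · intro h
      exact absurd (Finset.mem_univ k) h
  have hsemi : ∀ (t : CuspForm.heckeAlgebra N 2 S) (x : perLattice N),
      u (perRho hPH hNS t x) = χ t * u x := by
    intro t x
    conv_lhs => rw [← b.sum_repr x]
    conv_rhs => rw [← b.sum_repr x]
    rw [map_sum, map_sum, map_sum, Finset.mul_sum]
    refine Finset.sum_congr rfl fun k _ => ?_
    rw [map_zsmul, map_zsmul, map_zsmul, hub, zsmul_eq_mul, zsmul_eq_mul, hu, hw t k]
    ring
  refine ⟨fun γ => u (perCls N γ), ⟨?_, ?_, ?_⟩, ?_, ?_⟩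
  · intro γ γ'
    show u (perCls N (γ * γ')) = _
    rw [perCls_mul, map_add]
  · intro γ hγ
    have htr : ((γ : SL(2, ℤ)) : Matrix (Fin 2) (Fin 2) ℤ).trace ^ 2 = 4 := by
      rcases hγ with h | h
      · have : ((γ : SL(2, ℤ)) : Matrix (Fin 2) (Fin 2) ℤ).trace = 2 := h
        rw [this]; norm_num
      · have : ((γ : SL(2, ℤ)) : Matrix (Fin 2) (Fin 2) ℤ).trace = -2 := h
        rw [this]; norm_num
    show u (perCls N γ) = 0
    rw [perCls_eq_zero_of_trace γ htr, map_zero]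
  · intro γ n hn hγ
    show u (perCls N γ) = 0
    rw [perCls_eq_zero_of_pow hn hγ, map_zero]
  · intro hc
    apply hw0
    have hvan : ∀ x : perLattice N, u x = 0 := by
      intro x
      induction x using perCls_induction with
      | h0 => exact map_zero u
      | hadd x y hx hy => rw [map_add, hx, hy, add_zero]
      | hneg x hx => rw [map_neg, hx, neg_zero]
      | hcls γ => exact congrFun hc γ
    funext k
    rw [← hub k, hvan]
    rfl
  · intro ℓ hℓ hℓN hℓS γ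
    rw [← sum_map_facCoh N ℓ (fun γ => u (perCls N γ)) γ]
    have h1 : ((facCoh N ℓ γ).map fun δ => u (perCls N δ)).sum
        = u (((facCoh N ℓ γ).map (perCls N)).sum) := by
      rw [map_multiset_sum, Multiset.map_map]
      rfl
    rw [h1, ← perRho_perCls hPH hNS hℓ hℓN hℓS γ, hsemi]

end Fermat.Agent.S30.H709

end
end
-- ===== PACK-END S30/H709/ParEigen.lean

-- ===== PACK-BEGIN S28/H208/Upper.lean
section
/-
S28 [L.UP], consumer forms:
* `integral_jd` : every `j(q^d)`, `d ∣ N`, is integral over `ℤ[j]`  (`CoreData.integral`);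
* `card_le_dedekindPsi` : a `k(j)`-linearly independent family in `k(j(q^d) : d ∣ N)` has at most
  `dedekindPsi N` elements (any field `k` with `N` invertible);
* `upper_bound_rat` : the same over `ℚ`, in the shape `hU` of `H325.coreData_of_bounds`.
-/








set_option autoImplicit false

noncomputable section

open ModularCurve Polynomial IntermediateField

namespace Fermat.Agent.S28.H208

/-! ### Integrality of the `j(q^d)` over `ℤ[j]` -/

section Integral

/-- One integrality step: if `y` is integral over `ℤ[j]` (via `f`) and `x` is a root of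
`Φ(X, y)` with `Φ` monic, then `x` is integral over `ℤ[j]`. -/
theorem isIntegralElem_of_root {A : Type*} [CommRing A] (f : Polynomial ℤ →+* A)
    (Φ : Polynomial (Polynomial ℤ)) (hΦ : Φ.Monic) (x y : A)
    (hy : f.IsIntegralElem y) (hx : Φ.eval₂ (evZ y) x = 0) : f.IsIntegralElem x := by
  letI : Algebra (Polynomial ℤ) A := f.toAlgebra
  have hy' : IsIntegral (Polynomial ℤ) y := hy
  let S := integralClosure (Polynomial ℤ) A
  let yS : S := ⟨y, hy'⟩
  have hcomp : (algebraMap S A).comp (evZ yS) = evZ y := evZ_comp _ _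
  have hxS : IsIntegral S x := by
    refine ⟨Φ.map (evZ yS), hΦ.map _, ?_⟩
    rw [Polynomial.eval₂_map, hcomp]
    exact hx
  exact isIntegral_trans x hxS

theorem integral_jd_aux (d : ℕ) :
    ∀ [NeZero d], HasModPoly d →
      (evalAt (jqModC ℤ)).IsIntegralElem (qExpand ℤ d (jqModC ℤ)) := by
  induction d using induction_on_primes with
  | zero => intro h; exact absurd rfl (NeZero.ne (0 : ℕ))
  | one =>
    intro _ _
    refine ⟨Polynomial.X - Polynomial.C Polynomial.X, Polynomial.monic_X_sub_C _, ?_⟩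
    rw [Polynomial.eval₂_sub, Polynomial.eval₂_X, Polynomial.eval₂_C, qExpand_one_apply]
    simp [evalAt]
  | prime_mul p M hp ih =>
    intro _ hΦ
    have hM : M ≠ 0 := fun h => NeZero.ne (p * M) (by rw [h, mul_zero])
    haveI : NeZero M := ⟨hM⟩
    haveI : NeZero p := ⟨hp.ne_zero⟩
    obtain ⟨Dp⟩ := hΦ p hp (Dvd.intro _ rfl)
    have hy := ih (hΦ.of_dvd (Dvd.intro_left _ rfl))
    have hx := eval_jp_ring_qExpand ℤ Dp M
    rw [qExpand_congr (mul_comm M p)] at hx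
    exact isIntegralElem_of_root _ Dp.Φ Dp.monic _ _ hy hx

/-- **Integrality** of `j(q^d)` over `ℤ[j]` (the field `integral` of `CoreData`). -/
theorem integral_jd (N : ℕ) (hΦ : HasModPoly N) (d : ℕ) [NeZero d] (hd : d ∣ N) :
    ∃ P : Polynomial (Polynomial ℤ), P.Monic ∧
      P.eval₂ (evalAt (jqModC ℤ)) (qExpand ℤ d (jqModC ℤ)) = 0 :=
  integral_jd_aux d (hΦ.of_dvd hd)

end Integral

/-! ### The upper bound in "independent families are small" form -/

section Upper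

theorem card_le_of_span {k : Type*} [Field k] {n m : ℕ} (y : Fin n → LaurentSeries k)
    (x : Fin m → LaurentSeries k)
    (hx : ∀ i, x i ∈ Submodule.span (jField k) (Set.range y))
    (hli : LinearIndependent (jField k) x) : m ≤ n := by
  haveI : Module.Finite (jField k) (Submodule.span (jField k) (Set.range y)) :=
    Module.Finite.span_of_finite _ (Set.finite_range y)
  have hli' : LinearIndependent (jField k)
      (fun i => (⟨x i, hx i⟩ : Submodule.span (jField k) (Set.range y))) := by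
    apply LinearIndependent.of_comp (Submodule.span (jField k) (Set.range y)).subtype
    exact hli
  have h1 := hli'.fintype_card_le_finrank
  have h2 := finrank_range_le_card (R := jField k) y
  rw [Fintype.card_fin] at h1 h2
  exact h1.trans h2

/-- **Upper bound**, any field `k` (of type `Type`) in which `N` is invertible. -/
theorem card_le_dedekindPsi (N : ℕ) (hN : N ≠ 0) (hΦ : HasModPoly N) (k : Type) [Field k]
    (hk : (N : k) ≠ 0) (m : ℕ) (x : Fin m → LaurentSeries k)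
    (hx : ∀ i, x i ∈ modularFunctionFieldFullC k N)
    (hli : LinearIndependent (jField k) x) : m ≤ dedekindPsi N := by
  obtain ⟨n, y, hn, -, hspan⟩ := exists_spanning_monomials N hN hΦ
  rw [← hn]
  exact card_le_of_span _ x (fun i => hspan k hk _ (hx i)) hli

/-- **Upper bound over `ℚ`**, in the shape of the hypothesis `hU` of
`H325.coreData_of_bounds`. -/
theorem upper_bound_rat (N : ℕ) [NeZero N] (hΦ : HasModPoly N) :
    ∀ (m : ℕ) (x : Fin m → LaurentSeries ℚ), (∀ i, x i ∈ modularFunctionFieldFull N) →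
      LinearIndependent (jField ℚ) x → m ≤ dedekindPsi N := by
  intro m x hx hli
  have hk : ((N : ℕ) : ℚ) ≠ 0 := Nat.cast_ne_zero.mpr (NeZero.ne N)
  exact card_le_dedekindPsi N (NeZero.ne N) hΦ ℚ hk m x hx hli

/-- `HasModPoly N` from the analytic stub. -/
theorem hasModPoly_of_nonempty
    (h : ∀ (p : ℕ) [NeZero p], p.Prime → Nonempty (ModPolyData p)) (N : ℕ) : HasModPoly N :=
  fun r _ hr _ => h r hr

end Upper

end Fermat.Agent.S28.H208

end

end
-- ===== PACK-END S28/H208/Upper.lean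

-- ===== PACK-BEGIN S36/H253/EngNorm.lean
section



/-!
# The NORM fields of `S36.Eng.TripleCtx` (helper253)

Generic adapters producing the six fields `nv_α`, `nv_β`, `nr_α₁`, `nr_α₂`, `nr_β₁`, `nr_β₂` of
`Fermat.Agent.S36.Eng.TripleCtx` (`S36/Eng/Spec.lean` v1.2, architect helper996) from the `(e, f)`
table.  `φ : F' →ₐ[E] F` is one of the degeneracy maps, `normAlong φ = N_{F / φ F'}`.

Vocabulary of the Spec v1.2, UNFOLDED here (so that this file does not depend on the Spec; the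
statements below are definitionally the fields of `TripleCtx`):
`UnitAt V y` = `y ≠ 0 ∧ y ∈ V ∧ y⁻¹ ∈ V`,
`UnifAt V t` = `t ≠ 0 ∧ t ∈ V.nonunits ∧ ∀ f ∈ V.nonunits, f * t⁻¹ ∈ V`.

* `eng_nr_split` : `Va` (`e = f = 1`), `Vb` (`e = q - 1`, `f = 1`) over `V'`, `[F : φ F'] = q`:
  `φ xa ≡ y` at `Va`, `φ xb ≡ y` at `Vb`  ⟹  `N y ≡ xa * xb ^ (q - 1)` at `V'`.
* `eng_nr_insep` : `V` over `V'`, `[F : φ F'] = q` prime `= char`, witness of inseparability:
  `φ (N y) ≡ y ^ q` at `V` for all `y ∈ V`.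
* `eng_nv_split`, `eng_nv_insep`, `eng_nv` : valuations of norms.
-/

set_option autoImplicit false
set_option linter.unusedSectionVars false
set_option linter.style.haveILetI false

namespace Fermat.Agent.S36.H253

open AlgebraicCurve
open Fermat.Agent.S35.H253
open Fermat.Agent.S29.H395 (normAlong)

section Vocab

variable {F : Type*} [Field F]

/-- `UnitAt V y` in valuation form. -/
theorem val_eq_one_of_unitAt (V : ValuationSubring F) {y : F}
    (h : y ≠ 0 ∧ y ∈ V ∧ y⁻¹ ∈ V) : V.valuation y = 1 := by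
  refine le_antisymm ((V.valuation_le_one_iff _).2 h.2.1) ?_
  have h2 := (V.valuation_le_one_iff _).2 h.2.2
  rw [map_inv₀] at h2
  exact (inv_le_one₀ (by rw [Valuation.pos_iff]; exact h.1)).1 h2

/-- `UnitAt V y` from the valuation. -/
theorem unitAt_of_val_eq_one (V : ValuationSubring F) {y : F} (h : V.valuation y = 1) :
    y ≠ 0 ∧ y ∈ V ∧ y⁻¹ ∈ V := by
  refine ⟨?_, (V.valuation_le_one_iff _).1 h.le, ?_⟩
  · intro h0; rw [h0, map_zero] at h; exact zero_ne_one h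
  · rw [← V.valuation_le_one_iff, map_inv₀, h, inv_one]

/-- `UnitAt V (y * (τ ^ a)⁻¹)` in valuation form. -/
theorem val_eq_zpow_of_unitAt (V : ValuationSubring F) {y τ : F} (hτ0 : τ ≠ 0) (a : ℤ)
    (h : y * (τ ^ a)⁻¹ ≠ 0 ∧ y * (τ ^ a)⁻¹ ∈ V ∧ (y * (τ ^ a)⁻¹)⁻¹ ∈ V) :
    V.valuation y = V.valuation τ ^ a := by
  have h1 := val_eq_one_of_unitAt V h
  have hτv : V.valuation τ ≠ 0 := by rw [Ne, Valuation.zero_iff]; exact hτ0
  rw [map_mul, map_inv₀, map_zpow₀] at h1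
  calc V.valuation y = V.valuation y * (V.valuation τ ^ a)⁻¹ * V.valuation τ ^ a := by
        rw [inv_mul_cancel_right₀ (zpow_ne_zero _ hτv)]
    _ = V.valuation τ ^ a := by rw [h1, one_mul]

/-- `UnitAt V (y * (τ ^ a)⁻¹)` from the valuation. -/
theorem unitAt_of_val_eq_zpow (V : ValuationSubring F) {y τ : F} (hτ0 : τ ≠ 0) (a : ℤ)
    (h : V.valuation y = V.valuation τ ^ a) :
    y * (τ ^ a)⁻¹ ≠ 0 ∧ y * (τ ^ a)⁻¹ ∈ V ∧ (y * (τ ^ a)⁻¹)⁻¹ ∈ V := by
  apply unitAt_of_val_eq_one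
  have hτv : V.valuation τ ≠ 0 := by rw [Ne, Valuation.zero_iff]; exact hτ0
  rw [map_mul, map_inv₀, map_zpow₀, h, mul_inv_cancel₀ (zpow_ne_zero _ hτv)]

/-- Two uniformisers have the same valuation. -/
theorem val_eq_of_unifAt (V : ValuationSubring F) {t t₀ : F}
    (ht : t ≠ 0 ∧ t ∈ V.nonunits ∧ ∀ f ∈ V.nonunits, f * t⁻¹ ∈ V)
    (ht₀ : t₀ ≠ 0 ∧ t₀ ∈ V.nonunits ∧ ∀ f ∈ V.nonunits, f * t₀⁻¹ ∈ V) :
    V.valuation t = V.valuation t₀ := by
  have h1 := (V.valuation_le_one_iff _).2 (ht.2.2 t₀ ht₀.2.1)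
  have h2 := (V.valuation_le_one_iff _).2 (ht₀.2.2 t ht.2.1)
  rw [map_mul, map_inv₀] at h1 h2
  have hp : 0 < V.valuation t := by rw [Valuation.pos_iff]; exact ht.1
  have hp₀ : 0 < V.valuation t₀ := by rw [Valuation.pos_iff]; exact ht₀.1
  refine le_antisymm ?_ ?_
  · calc V.valuation t = V.valuation t * (V.valuation t₀)⁻¹ * V.valuation t₀ := by
          rw [inv_mul_cancel_right₀ hp₀.ne']
      _ ≤ 1 * V.valuation t₀ := by gcongr
      _ = _ := one_mul _
  · calc V.valuation t₀ = V.valuation t₀ * (V.valuation t)⁻¹ * V.valuation t := by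
          rw [inv_mul_cancel_right₀ hp.ne']
      _ ≤ 1 * V.valuation t := by gcongr
      _ = _ := one_mul _

/-- The exponent of a power of an element of the maximal ideal is determined. -/
theorem zpow_inj_of_val (V : ValuationSubring F) {τ : F} (hτ0 : τ ≠ 0)
    (hτ : V.valuation τ < 1) {a b : ℤ} (h : V.valuation τ ^ a = V.valuation τ ^ b) : a = b := by
  have hp : 0 < V.valuation τ := by rw [Valuation.pos_iff]; exact hτ0
  exact zpow_right_injective₀ hp hτ.ne h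

/-- In a discrete valuation ring the value group is generated by the value of a uniformiser. -/
theorem hdvr_of_dvr (V : ValuationSubring F) (hV : IsDiscreteValuationRing V) {t : F}
    (ht : t ≠ 0 ∧ t ∈ V.nonunits ∧ ∀ f ∈ V.nonunits, f * t⁻¹ ∈ V) :
    ∀ y : F, y ≠ 0 → ∃ n : ℤ, V.valuation y = V.valuation t ^ n := by
  haveI := hV
  obtain ⟨ht0, htn, htg⟩ := ht
  have htV : t ∈ V := V.nonunits_le htn
  have hirr : Irreducible (⟨t, htV⟩ : V) := by
    rw [IsDiscreteValuationRing.irreducible_iff_uniformizer]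
    apply le_antisymm
    · intro f hf
      have hf' : (f : F) ∈ V.nonunits := ValuationSubring.coe_mem_nonunits_iff.2 hf
      rw [Ideal.mem_span_singleton]
      refine ⟨⟨(f : F) * t⁻¹, htg _ hf'⟩, Subtype.ext ?_⟩
      show (f : F) = t * ((f : F) * t⁻¹)
      rw [mul_comm, inv_mul_cancel_right₀ ht0]
    · rw [Ideal.span_singleton_le_iff_mem]
      exact ValuationSubring.coe_mem_nonunits_iff.1 htn
  have key : ∀ y : F, y ≠ 0 → y ∈ V → ∃ n : ℕ, V.valuation y = V.valuation t ^ n := by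
    intro y hy0 hyV
    have hy0' : (⟨y, hyV⟩ : V) ≠ 0 := fun h => hy0 (congrArg Subtype.val h)
    obtain ⟨n, u, hu⟩ := IsDiscreteValuationRing.eq_unit_mul_pow_irreducible hy0' hirr
    refine ⟨n, ?_⟩
    have h1 : y = ((u : V) : F) * t ^ n := congrArg Subtype.val hu
    rw [h1, map_mul, map_pow, ValuationSubring.valuation_unit, one_mul]
  intro y hy0
  rcases V.mem_or_inv_mem y with hy | hy
  · obtain ⟨n, hn⟩ := key y hy0 hy
    exact ⟨n, by rw [hn, zpow_natCast]⟩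
  · obtain ⟨n, hn⟩ := key y⁻¹ (inv_ne_zero hy0) hy
    refine ⟨-(n : ℤ), ?_⟩
    rw [zpow_neg, zpow_natCast, ← hn, map_inv₀, inv_inv]

end Vocab

section Down

variable {K F : Type*} [Field K] [Field F] [Algebra K F]

/-- **Discreteness goes down** along an extension with `e = 1`. -/
theorem hdvr_down {O : ValuationSubring K} {V : ValuationSubring F} (h : Over O V) {ϖ : K}
    (hϖ0 : ϖ ≠ 0)
    (hV : ∀ y : F, y ≠ 0 → ∃ n : ℤ, V.valuation y = V.valuation (algebraMap K F ϖ) ^ n) :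
    ∀ a : K, a ≠ 0 → ∃ n : ℤ, O.valuation a = O.valuation ϖ ^ n := by
  intro a ha0
  obtain ⟨n, hn⟩ := hV (algebraMap K F a) ((map_ne_zero _).2 ha0)
  refine ⟨n, ?_⟩
  have hvϖ : O.valuation ϖ ≠ 0 := by rw [Ne, Valuation.zero_iff]; exact hϖ0
  have hvϖF : V.valuation (algebraMap K F ϖ) ≠ 0 := by
    rw [Ne, Valuation.zero_iff, map_eq_zero]; exact hϖ0
  have h1 : V.valuation (algebraMap K F (a * (ϖ ^ n)⁻¹)) = 1 := by
    rw [map_mul, map_inv₀, map_zpow₀, map_mul, map_inv₀, map_zpow₀, hn,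
      mul_inv_cancel₀ (zpow_ne_zero _ hvϖF)]
  have h2 : O.valuation (a * (ϖ ^ n)⁻¹) = 1 := by
    refine le_antisymm ((h.val_le_one_iff _).1 h1.le) ?_
    rw [← not_lt, ← h.val_lt_one_iff, h1]
    exact lt_irrefl _
  rw [map_mul, map_inv₀, map_zpow₀] at h2
  calc O.valuation a = O.valuation a * (O.valuation ϖ ^ n)⁻¹ * O.valuation ϖ ^ n := by
        rw [inv_mul_cancel_right₀ (zpow_ne_zero _ hvϖ)]
    _ = O.valuation ϖ ^ n := by rw [h2, one_mul]

end Down

section Along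

variable {R E F F' : Type*} [CommRing R] [Field E] [Algebra R E]
  [Field F] [Algebra E F] [Algebra R F]
  [Field F'] [Algebra E F'] [Algebra R F']

/-- A degeneracy map commutes with the structure maps from `R`. -/
theorem along_algebraMap [IsScalarTower R E F] [IsScalarTower R E F'] (φ : F' →ₐ[E] F) (w : R) :
    φ (algebraMap R F' w) = algebraMap R F w := by
  rw [IsScalarTower.algebraMap_apply R E F', IsScalarTower.algebraMap_apply R E F,
    AlgHom.commutes]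

/-- `V.comap φ = V'` says that `V` lies over `V'` along `φ`. -/
theorem over_of_comap (φ : F' →ₐ[E] F) {V : ValuationSubring F} {V' : ValuationSubring F'}
    (hc : V.comap (φ : F' →+* F) = V') :
    letI := algebraAlong φ
    Over V' V := by
  letI := algebraAlong φ
  intro a
  rw [← hc]
  exact Iff.rfl

variable (w : R) (q : ℕ) (φ : F' →ₐ[E] F)

/-- The value group of `V'` is generated by `v' (w)` if `V` over `V'` is a discrete valuation
ring with uniformiser `w`. -/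
theorem eng_hdvr {V' : ValuationSubring F'} {V : ValuationSubring F}
    (hc : V.comap (φ : F' →+* F) = V')
    (hφw : φ (algebraMap R F' w) = algebraMap R F w)
    (hdvrV : IsDiscreteValuationRing V)
    (hunif : algebraMap R F w ≠ 0 ∧ algebraMap R F w ∈ V.nonunits ∧
      ∀ f ∈ V.nonunits, f * (algebraMap R F w)⁻¹ ∈ V) :
    algebraMap R F' w ≠ 0 ∧ V'.valuation (algebraMap R F' w) < 1 ∧
      ∀ a : F', a ≠ 0 → ∃ n : ℤ, V'.valuation a = V'.valuation (algebraMap R F' w) ^ n := by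
  letI := algebraAlong φ
  have ho : Over V' V := over_of_comap φ hc
  have hwF : algebraMap F' F (algebraMap R F' w) = algebraMap R F w := hφw
  have hw0 : algebraMap R F' w ≠ 0 := by
    intro h0
    rw [h0, map_zero] at hwF
    exact hunif.1 hwF.symm
  refine ⟨hw0, ?_, ?_⟩
  · rw [← ho.val_lt_one_iff, hwF]; exact hunif.2.1
  · refine hdvr_down ho hw0 ?_
    rw [hwF]
    exact hdvr_of_dvr V hdvrV hunif

/-- **NR, split case** (fields `nr_α₁`, `nr_β₁` of `TripleCtx`), strong form: `y ∈ Va ∩ Vb`. -/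
theorem eng_nr_split_mem (hfin : FiniteAlong E φ) (hdeg : finrankAlong E φ = q) (hq : 0 < q)
    {V' : ValuationSubring F'} {Va Vb : ValuationSubring F}
    (hca : Va.comap (φ : F' →+* F) = V') (hcb : Vb.comap (φ : F' →+* F) = V') (hne : Va ≠ Vb)
    (hφw : φ (algebraMap R F' w) = algebraMap R F w)
    (hdvra : IsDiscreteValuationRing Va)
    (hunifa : algebraMap R F w ≠ 0 ∧ algebraMap R F w ∈ Va.nonunits ∧
      ∀ f ∈ Va.nonunits, f * (algebraMap R F w)⁻¹ ∈ Va)
    (hram : ∃ t : F, (t ≠ 0 ∧ t ∈ Vb.nonunits ∧ ∀ f ∈ Vb.nonunits, f * t⁻¹ ∈ Vb) ∧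
      (algebraMap R F w * (t ^ (q - 1))⁻¹ ≠ 0 ∧ algebraMap R F w * (t ^ (q - 1))⁻¹ ∈ Vb ∧
        (algebraMap R F w * (t ^ (q - 1))⁻¹)⁻¹ ∈ Vb)) :
    ∀ y : F, y ∈ Va → y ∈ Vb → ∀ xa xb : F',
      φ xa - y ∈ Va.nonunits → φ xb - y ∈ Vb.nonunits →
        normAlong φ y - xa * xb ^ (q - 1) ∈ V'.nonunits := by
  letI := algebraAlong φ
  haveI : Module.Finite F' F := hfin
  intro y hya hyb xa xb hxa hxb
  have hoa : Over V' Va := over_of_comap φ hca
  have hob : Over V' Vb := over_of_comap φ hcb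
  have hwF : algebraMap F' F (algebraMap R F' w) = algebraMap R F w := hφw
  obtain ⟨hw0, hϖ, hdvr⟩ := eng_hdvr w φ hca hφw hdvra hunifa
  obtain ⟨t, ht, hu⟩ := hram
  have hram' : Vb.valuation (algebraMap F' F (algebraMap R F' w)) =
      Vb.valuation t ^ (q - 1) := by
    rw [hwF]
    have := val_eq_zpow_of_unitAt Vb ht.1 ((q - 1 : ℕ) : ℤ) (by rw [zpow_natCast]; exact hu)
    rw [this, zpow_natCast]
  have hdeg' : Module.finrank F' F = 1 + (q - 1) := by
    have : Module.finrank F' F = q := hdeg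
    omega
  exact normResSplit_lb hoa hob hne hw0 hϖ hdvr (τ := t) (e := q - 1) ht.2.1 hram' hdeg'
    y hya hyb xa xb
    (by
      have : y - algebraMap F' F xa = -(φ xa - y) := by
        show y - φ xa = -(φ xa - y); ring
      rw [this]; exact (Va.nonunits).neg_mem hxa)
    (by
      have : y - algebraMap F' F xb = -(φ xb - y) := by
        show y - φ xb = -(φ xb - y); ring
      rw [this]; exact (Vb.nonunits).neg_mem hxb)

/-- **NR, split case**: EXACT shape of the fields `nr_α₁`, `nr_β₁` of `TripleCtx` (v1.2). -/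
theorem eng_nr_split (hfin : FiniteAlong E φ) (hdeg : finrankAlong E φ = q) (hq : 0 < q)
    {V' : ValuationSubring F'} {Va Vb : ValuationSubring F}
    (hca : Va.comap (φ : F' →+* F) = V') (hcb : Vb.comap (φ : F' →+* F) = V') (hne : Va ≠ Vb)
    (hφw : φ (algebraMap R F' w) = algebraMap R F w)
    (hdvra : IsDiscreteValuationRing Va)
    (hunifa : algebraMap R F w ≠ 0 ∧ algebraMap R F w ∈ Va.nonunits ∧
      ∀ f ∈ Va.nonunits, f * (algebraMap R F w)⁻¹ ∈ Va)
    (hram : ∃ t : F, (t ≠ 0 ∧ t ∈ Vb.nonunits ∧ ∀ f ∈ Vb.nonunits, f * t⁻¹ ∈ Vb) ∧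
      (algebraMap R F w * (t ^ (q - 1))⁻¹ ≠ 0 ∧ algebraMap R F w * (t ^ (q - 1))⁻¹ ∈ Vb ∧
        (algebraMap R F w * (t ^ (q - 1))⁻¹)⁻¹ ∈ Vb)) :
    ∀ y : F, (y ≠ 0 ∧ y ∈ Va ∧ y⁻¹ ∈ Va) → (y ≠ 0 ∧ y ∈ Vb ∧ y⁻¹ ∈ Vb) → ∀ xa xb : F',
      φ xa - y ∈ Va.nonunits → φ xb - y ∈ Vb.nonunits →
        normAlong φ y - xa * xb ^ (q - 1) ∈ V'.nonunits :=
  fun y hya hyb => eng_nr_split_mem w q φ hfin hdeg hq hca hcb hne hφw hdvra hunifa hram
    y hya.2.1 hyb.2.1

/-- **NV, split case** (first halves of the fields `nv_α`, `nv_β` of `TripleCtx`). -/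
theorem eng_nv_split (hfin : FiniteAlong E φ) (hdeg : finrankAlong E φ = q) (hq : 0 < q)
    {V' : ValuationSubring F'} {Va Vb : ValuationSubring F}
    (hca : Va.comap (φ : F' →+* F) = V') (hcb : Vb.comap (φ : F' →+* F) = V') (hne : Va ≠ Vb)
    (hφw : φ (algebraMap R F' w) = algebraMap R F w)
    (hdvra : IsDiscreteValuationRing Va)
    (hunifa : algebraMap R F w ≠ 0 ∧ algebraMap R F w ∈ Va.nonunits ∧
      ∀ f ∈ Va.nonunits, f * (algebraMap R F w)⁻¹ ∈ Va)
    (hram : ∃ t : F, (t ≠ 0 ∧ t ∈ Vb.nonunits ∧ ∀ f ∈ Vb.nonunits, f * t⁻¹ ∈ Vb) ∧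
      (algebraMap R F w * (t ^ (q - 1))⁻¹ ≠ 0 ∧ algebraMap R F w * (t ^ (q - 1))⁻¹ ∈ Vb ∧
        (algebraMap R F w * (t ^ (q - 1))⁻¹)⁻¹ ∈ Vb)) :
    ∀ t : F, (t ≠ 0 ∧ t ∈ Vb.nonunits ∧ ∀ f ∈ Vb.nonunits, f * t⁻¹ ∈ Vb) →
      ∀ (y : F) (aa ab : ℤ), y ≠ 0 →
        (y * (algebraMap R F w ^ aa)⁻¹ ≠ 0 ∧ y * (algebraMap R F w ^ aa)⁻¹ ∈ Va ∧
          (y * (algebraMap R F w ^ aa)⁻¹)⁻¹ ∈ Va) →
        (y * (t ^ ab)⁻¹ ≠ 0 ∧ y * (t ^ ab)⁻¹ ∈ Vb ∧ (y * (t ^ ab)⁻¹)⁻¹ ∈ Vb) →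
        (normAlong φ y * (algebraMap R F' w ^ (aa + ab))⁻¹ ≠ 0 ∧
          normAlong φ y * (algebraMap R F' w ^ (aa + ab))⁻¹ ∈ V' ∧
          (normAlong φ y * (algebraMap R F' w ^ (aa + ab))⁻¹)⁻¹ ∈ V') := by
  letI := algebraAlong φ
  haveI : Module.Finite F' F := hfin
  intro t ht y aa ab hy0 hya hyb
  have hoa : Over V' Va := over_of_comap φ hca
  have hob : Over V' Vb := over_of_comap φ hcb
  have hwF : algebraMap F' F (algebraMap R F' w) = algebraMap R F w := hφw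
  obtain ⟨hw0, hϖ, hdvr⟩ := eng_hdvr w φ hca hφw hdvra hunifa
  obtain ⟨t₀, ht₀, hu⟩ := hram
  have hram' : Vb.valuation (algebraMap F' F (algebraMap R F' w)) =
      Vb.valuation t₀ ^ (q - 1) := by
    rw [hwF]
    have := val_eq_zpow_of_unitAt Vb ht₀.1 ((q - 1 : ℕ) : ℤ) (by rw [zpow_natCast]; exact hu)
    rw [this, zpow_natCast]
  have hdeg' : Module.finrank F' F = 1 + (q - 1) := by
    have : Module.finrank F' F = q := hdeg
    omega
  have ht₀v : Vb.valuation t₀ < 1 := ht₀.2.1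
  have hwa : Va.valuation (algebraMap R F w) < 1 := hunifa.2.1
  obtain ⟨a, ha, hN⟩ := valNorm_split (ι := Bool) (V := fun b => cond b Va Vb)
    (τ := fun b => cond b (algebraMap F' F (algebraMap R F' w)) t₀) (E := fun b => cond b 1 (q - 1))
    (fun b => by cases b <;> assumption)
    (fun b b' hbb' => by
      cases b <;> cases b'
      · exact absurd rfl hbb'
      · intro hle
        exact hne (eq_of_le_of_over hob hoa hw0 hϖ hdvr hle).symm
      · intro hle
        exact hne (eq_of_le_of_over hoa hob hw0 hϖ hdvr hle)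
      · exact absurd rfl hbb')
    hw0 hϖ hdvr
    (fun b => by
      cases b
      · exact ht₀v
      · exact (hoa.val_lt_one_iff _).2 hϖ)
    (fun b => by
      cases b
      · exact hram'
      · simp)
    (by rw [Fintype.sum_bool, hdeg']; rfl) hy0
  have h1 : a true = aa := by
    have e1 := ha true
    have e2 := val_eq_zpow_of_unitAt Va hunifa.1 aa hya
    simp only [cond_true] at e1
    rw [hwF, e2] at e1
    exact (zpow_inj_of_val Va hunifa.1 hwa e1).symm
  have h2 : a false = ab := by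
    have e1 := ha false
    have e2 := val_eq_zpow_of_unitAt Vb ht.1 ab hyb
    simp only [cond_false] at e1
    rw [e2, val_eq_of_unifAt Vb ht ht₀] at e1
    exact (zpow_inj_of_val Vb ht₀.1 ht₀v e1).symm
  rw [Fintype.sum_bool, h1, h2] at hN
  exact unitAt_of_val_eq_zpow V' hw0 (aa + ab) hN

/-- **NR, purely inseparable case**: EXACT shape of the fields `nr_α₂`, `nr_β₂` of `TripleCtx`
(strong form: all `y ∈ V`).  Witness of inseparability: `z₀ ∈ V`, `c₀ ∈ F'` with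
`z₀ ^ q ≡ φ c₀` at `V` and `c₀` not a `q`-th power modulo `𝔪_{V'}`. -/
theorem eng_nr_insep_mem (hfin : FiniteAlong E φ) (hdeg : finrankAlong E φ = q) (hq : q.Prime)
    {V' : ValuationSubring F'} {V : ValuationSubring F}
    (hc : V.comap (φ : F' →+* F) = V')
    (hφw : φ (algebraMap R F' w) = algebraMap R F w)
    (hdvrV : IsDiscreteValuationRing V)
    (hunif : algebraMap R F w ≠ 0 ∧ algebraMap R F w ∈ V.nonunits ∧
      ∀ f ∈ V.nonunits, f * (algebraMap R F w)⁻¹ ∈ V)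
    (hqV : (q : F) ∈ V.nonunits)
    {z₀ : F} {c₀ : F'} (hz₀ : z₀ ∈ V) (hzc : z₀ ^ q - φ c₀ ∈ V.nonunits)
    (hnp : ∀ a : F', a ∈ V' → a ^ q - c₀ ∉ V'.nonunits) :
    ∀ y : F, y ∈ V → φ (normAlong φ y) - y ^ q ∈ V.nonunits := by
  letI := algebraAlong φ
  haveI : Module.Finite F' F := hfin
  have ho : Over V' V := over_of_comap φ hc
  obtain ⟨hw0, hϖ, hdvr⟩ := eng_hdvr w φ hc hφw hdvrV hunif
  have hqO : V'.valuation ((q : ℕ) : F') < 1 := by
    rw [← ho.val_lt_one_iff, map_natCast]; exact hqV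
  exact normResInsep_all ho hw0 hϖ hdvr q hq hqO hdeg hz₀ hzc hnp

/-- **NR, purely inseparable case**: EXACT shape of the fields `nr_α₂`, `nr_β₂`. -/
theorem eng_nr_insep (hfin : FiniteAlong E φ) (hdeg : finrankAlong E φ = q) (hq : q.Prime)
    {V' : ValuationSubring F'} {V : ValuationSubring F}
    (hc : V.comap (φ : F' →+* F) = V')
    (hφw : φ (algebraMap R F' w) = algebraMap R F w)
    (hdvrV : IsDiscreteValuationRing V)
    (hunif : algebraMap R F w ≠ 0 ∧ algebraMap R F w ∈ V.nonunits ∧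
      ∀ f ∈ V.nonunits, f * (algebraMap R F w)⁻¹ ∈ V)
    (hqV : (q : F) ∈ V.nonunits)
    {z₀ : F} {c₀ : F'} (hz₀ : z₀ ∈ V) (hzc : z₀ ^ q - φ c₀ ∈ V.nonunits)
    (hnp : ∀ a : F', a ∈ V' → a ^ q - c₀ ∉ V'.nonunits) :
    ∀ y : F, (y ≠ 0 ∧ y ∈ V ∧ y⁻¹ ∈ V) → φ (normAlong φ y) - y ^ q ∈ V.nonunits :=
  fun y hy => eng_nr_insep_mem w q φ hfin hdeg hq hc hφw hdvrV hunif hqV hz₀ hzc hnp y hy.2.1

/-- **NV, purely inseparable case** (second halves of the fields `nv_α`, `nv_β`). -/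
theorem eng_nv_insep (hfin : FiniteAlong E φ) (hdeg : finrankAlong E φ = q) (hq : q.Prime)
    {V' : ValuationSubring F'} {V : ValuationSubring F}
    (hc : V.comap (φ : F' →+* F) = V')
    (hφw : φ (algebraMap R F' w) = algebraMap R F w)
    (hdvrV : IsDiscreteValuationRing V)
    (hunif : algebraMap R F w ≠ 0 ∧ algebraMap R F w ∈ V.nonunits ∧
      ∀ f ∈ V.nonunits, f * (algebraMap R F w)⁻¹ ∈ V)
    (hqV : (q : F) ∈ V.nonunits)
    {z₀ : F} {c₀ : F'} (hz₀ : z₀ ∈ V) (hzc : z₀ ^ q - φ c₀ ∈ V.nonunits)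
    (hnp : ∀ a : F', a ∈ V' → a ^ q - c₀ ∉ V'.nonunits) :
    ∀ (y : F) (a : ℤ), y ≠ 0 →
      (y * (algebraMap R F w ^ a)⁻¹ ≠ 0 ∧ y * (algebraMap R F w ^ a)⁻¹ ∈ V ∧
        (y * (algebraMap R F w ^ a)⁻¹)⁻¹ ∈ V) →
      (normAlong φ y * (algebraMap R F' w ^ ((q : ℤ) * a))⁻¹ ≠ 0 ∧
        normAlong φ y * (algebraMap R F' w ^ ((q : ℤ) * a))⁻¹ ∈ V' ∧
        (normAlong φ y * (algebraMap R F' w ^ ((q : ℤ) * a))⁻¹)⁻¹ ∈ V') := by
  letI := algebraAlong φ
  haveI : Module.Finite F' F := hfin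
  intro y a hy0 hya
  have ho : Over V' V := over_of_comap φ hc
  have hwF : algebraMap F' F (algebraMap R F' w) = algebraMap R F w := hφw
  obtain ⟨hw0, hϖ, hdvr⟩ := eng_hdvr w φ hc hφw hdvrV hunif
  have hqO : V'.valuation ((q : ℕ) : F') < 1 := by
    rw [← ho.val_lt_one_iff, map_natCast]; exact hqV
  obtain ⟨a', ha', hN⟩ := valNorm_insep ho hw0 hϖ hdvr q hq hqO hdeg hz₀ hzc hnp hy0
  have e2 := val_eq_zpow_of_unitAt V hunif.1 a hya
  rw [hwF, e2] at ha'
  have h1 : a' = a := (zpow_inj_of_val V hunif.1 hunif.2.1 ha').symm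
  rw [h1] at hN
  exact unitAt_of_val_eq_zpow V' hw0 ((q : ℤ) * a) hN

/-- **NV**: EXACT shape of the fields `nv_α` (`Va, Vb, Vc = V₁, V₂, V₃`, `V₁', V₂'`) and, after
permuting the arguments, `nv_β` (`Va, Vb, Vc = V₃, V₂, V₁`, with `V₂', V₁'`) of `TripleCtx`. -/
theorem eng_nv (hfin : FiniteAlong E φ) (hdeg : finrankAlong E φ = q) (hq : q.Prime)
    {V₁' V₂' : ValuationSubring F'} {Va Vb Vc : ValuationSubring F}
    (hca : Va.comap (φ : F' →+* F) = V₁') (hcb : Vb.comap (φ : F' →+* F) = V₁')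
    (hcc : Vc.comap (φ : F' →+* F) = V₂') (hne : Va ≠ Vb)
    (hφw : φ (algebraMap R F' w) = algebraMap R F w)
    (hdvra : IsDiscreteValuationRing Va)
    (hunifa : algebraMap R F w ≠ 0 ∧ algebraMap R F w ∈ Va.nonunits ∧
      ∀ f ∈ Va.nonunits, f * (algebraMap R F w)⁻¹ ∈ Va)
    (hram : ∃ t : F, (t ≠ 0 ∧ t ∈ Vb.nonunits ∧ ∀ f ∈ Vb.nonunits, f * t⁻¹ ∈ Vb) ∧
      (algebraMap R F w * (t ^ (q - 1))⁻¹ ≠ 0 ∧ algebraMap R F w * (t ^ (q - 1))⁻¹ ∈ Vb ∧
        (algebraMap R F w * (t ^ (q - 1))⁻¹)⁻¹ ∈ Vb))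
    (hdvrc : IsDiscreteValuationRing Vc)
    (hunifc : algebraMap R F w ≠ 0 ∧ algebraMap R F w ∈ Vc.nonunits ∧
      ∀ f ∈ Vc.nonunits, f * (algebraMap R F w)⁻¹ ∈ Vc)
    (hqV : (q : F) ∈ Vc.nonunits)
    {z₀ : F} {c₀ : F'} (hz₀ : z₀ ∈ Vc) (hzc : z₀ ^ q - φ c₀ ∈ Vc.nonunits)
    (hnp : ∀ a : F', a ∈ V₂' → a ^ q - c₀ ∉ V₂'.nonunits) :
    ∀ t : F, (t ≠ 0 ∧ t ∈ Vb.nonunits ∧ ∀ f ∈ Vb.nonunits, f * t⁻¹ ∈ Vb) →
      ∀ (y : F) (aa ab ac : ℤ), y ≠ 0 →
        (y * (algebraMap R F w ^ aa)⁻¹ ≠ 0 ∧ y * (algebraMap R F w ^ aa)⁻¹ ∈ Va ∧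
          (y * (algebraMap R F w ^ aa)⁻¹)⁻¹ ∈ Va) →
        (y * (t ^ ab)⁻¹ ≠ 0 ∧ y * (t ^ ab)⁻¹ ∈ Vb ∧ (y * (t ^ ab)⁻¹)⁻¹ ∈ Vb) →
        (y * (algebraMap R F w ^ ac)⁻¹ ≠ 0 ∧ y * (algebraMap R F w ^ ac)⁻¹ ∈ Vc ∧
          (y * (algebraMap R F w ^ ac)⁻¹)⁻¹ ∈ Vc) →
        (normAlong φ y * (algebraMap R F' w ^ (aa + ab))⁻¹ ≠ 0 ∧
          normAlong φ y * (algebraMap R F' w ^ (aa + ab))⁻¹ ∈ V₁' ∧
          (normAlong φ y * (algebraMap R F' w ^ (aa + ab))⁻¹)⁻¹ ∈ V₁') ∧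
        (normAlong φ y * (algebraMap R F' w ^ ((q : ℤ) * ac))⁻¹ ≠ 0 ∧
          normAlong φ y * (algebraMap R F' w ^ ((q : ℤ) * ac))⁻¹ ∈ V₂' ∧
          (normAlong φ y * (algebraMap R F' w ^ ((q : ℤ) * ac))⁻¹)⁻¹ ∈ V₂') :=
  fun t ht y aa ab ac hy0 hya hyb hyc =>
    ⟨eng_nv_split w q φ hfin hdeg hq.pos hca hcb hne hφw hdvra hunifa hram t ht y aa ab hy0
        hya hyb,
      eng_nv_insep w q φ hfin hdeg hq hcc hφw hdvrc hunifc hqV hz₀ hzc hnp y ac hy0 hyc⟩

/-- The residue characteristic: `q ∈ 𝔪_V` if `w ∣ q` in `R` and `R ⊆ V`, `w ∈ 𝔪_V`. -/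
theorem natCast_mem_nonunits {V : ValuationSubring F} (hR : ∀ r : R, algebraMap R F r ∈ V)
    (hw : algebraMap R F w ∈ V.nonunits) (hqw : w ∣ (q : R)) : (q : F) ∈ V.nonunits := by
  obtain ⟨r, hr⟩ := hqw
  have h1 : (q : F) = algebraMap R F w * algebraMap R F r := by
    rw [← map_mul, ← hr, map_natCast]
  rw [h1, ValuationSubring.mem_nonunits_iff, map_mul]
  have h2 : V.valuation (algebraMap R F r) ≤ 1 := (V.valuation_le_one_iff _).2 (hR r)
  have h3 : V.valuation (algebraMap R F w) < 1 := hw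
  calc V.valuation (algebraMap R F w) * V.valuation (algebraMap R F r)
      ≤ V.valuation (algebraMap R F w) * 1 := by gcongr
    _ = V.valuation (algebraMap R F w) := mul_one _
    _ < 1 := h3

/-- The witness of inseparability in the form "`z₀` is not congruent at `V` to an element of
`φ V'`" gives the form "`c₀` is not a `q`-th power modulo `𝔪_{V'}`". -/
theorem hnp_of_not_congr (hq : q.Prime) {V' : ValuationSubring F'} {V : ValuationSubring F}
    (hc : V.comap (φ : F' →+* F) = V') (hqV : (q : F) ∈ V.nonunits)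
    {z₀ : F} {c₀ : F'} (hz₀ : z₀ ∈ V) (hzc : z₀ ^ q - φ c₀ ∈ V.nonunits)
    (hnc : ∀ a : F', a ∈ V' → z₀ - φ a ∉ V.nonunits) :
    ∀ a : F', a ∈ V' → a ^ q - c₀ ∉ V'.nonunits := by
  letI := algebraAlong φ
  have ho : Over V' V := over_of_comap φ hc
  intro a ha hac
  apply hnc a ha
  have haV : φ a ∈ V := (ho a).2 ha
  have h1 : φ (a ^ q - c₀) ∈ V.nonunits := by
    have := (ho.val_lt_one_iff (a ^ q - c₀)).2 hac
    exact this
  rw [map_sub, map_pow] at h1
  have h2 : z₀ ^ q - φ a ^ q ∈ V.nonunits := by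
    have : z₀ ^ q - φ a ^ q = (z₀ ^ q - φ c₀) - (φ a ^ q - φ c₀) := by ring
    rw [this]
    exact (V.nonunits).sub_mem hzc h1
  -- pass to the residue field, of characteristic `q`
  haveI : Fact q.Prime := ⟨hq⟩
  have hq0 : ((q : ℕ) : IsLocalRing.ResidueField V) = 0 := by
    have : IsLocalRing.residue V ⟨(q : F), V.nonunits_le hqV⟩ = 0 := by
      rw [IsLocalRing.residue_eq_zero_iff]
      exact ValuationSubring.coe_mem_nonunits_iff.1 hqV
    rw [← this, ← map_natCast (IsLocalRing.residue V)]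
    rfl
  haveI : CharP (IsLocalRing.ResidueField V) q :=
    (CharP.charP_iff_prime_eq_zero hq).2 hq0
  have h3 : IsLocalRing.residue V (⟨z₀, hz₀⟩ - ⟨φ a, haV⟩) ^ q = 0 := by
    rw [map_sub, sub_pow_char, ← map_pow, ← map_pow, ← map_sub,
      IsLocalRing.residue_eq_zero_iff]
    exact ValuationSubring.coe_mem_nonunits_iff.1 h2
  have h4 := pow_eq_zero_iff (hq.ne_zero) |>.1 h3
  rw [IsLocalRing.residue_eq_zero_iff] at h4
  exact ValuationSubring.coe_mem_nonunits_iff.2 h4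

/-- **All six NORM fields of `TripleCtx` at once** (`nv_α`, `nv_β`, `nr_α₁`, `nr_α₂`, `nr_β₁`,
`nr_β₂`, in this order, shapes of Spec v1.2 with `UnitAt`, `UnifAt` unfolded) from: the degrees
`[F : α F'] = [F : β F'] = q`, the fields `dvr₁ dvr₃ ne₁₂ ne₂₃ unif₁ unif₃ ram₂ comap_*` of
`TripleCtx`, the residue characteristic, and one witness of inseparability for `α` at `V₃`
(`zα ^ q ≡ α cα`, `cα` not a `q`-th power modulo `𝔪_{V₂'}`) and one for `β` at `V₁`. -/
theorem eng_norm_six (hq : q.Prime) (α β : F' →ₐ[E] F)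
    {V₁ V₂ V₃ : ValuationSubring F} {V₁' V₂' : ValuationSubring F'}
    (fin_α : FiniteAlong E α) (fin_β : FiniteAlong E β)
    (deg_α : finrankAlong E α = q) (deg_β : finrankAlong E β = q)
    (hαw : α (algebraMap R F' w) = algebraMap R F w)
    (hβw : β (algebraMap R F' w) = algebraMap R F w)
    (dvr₁ : IsDiscreteValuationRing V₁) (dvr₃ : IsDiscreteValuationRing V₃)
    (ne₁₂ : V₁ ≠ V₂) (ne₂₃ : V₂ ≠ V₃)
    (unif₁ : algebraMap R F w ≠ 0 ∧ algebraMap R F w ∈ V₁.nonunits ∧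
      ∀ f ∈ V₁.nonunits, f * (algebraMap R F w)⁻¹ ∈ V₁)
    (unif₃ : algebraMap R F w ≠ 0 ∧ algebraMap R F w ∈ V₃.nonunits ∧
      ∀ f ∈ V₃.nonunits, f * (algebraMap R F w)⁻¹ ∈ V₃)
    (ram₂ : ∃ t : F, (t ≠ 0 ∧ t ∈ V₂.nonunits ∧ ∀ f ∈ V₂.nonunits, f * t⁻¹ ∈ V₂) ∧
      (algebraMap R F w * (t ^ (q - 1))⁻¹ ≠ 0 ∧ algebraMap R F w * (t ^ (q - 1))⁻¹ ∈ V₂ ∧
        (algebraMap R F w * (t ^ (q - 1))⁻¹)⁻¹ ∈ V₂))
    (comap_α₁ : V₁.comap (α : F' →+* F) = V₁')
    (comap_α₂ : V₂.comap (α : F' →+* F) = V₁')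
    (comap_α₃ : V₃.comap (α : F' →+* F) = V₂')
    (comap_β₁ : V₁.comap (β : F' →+* F) = V₁')
    (comap_β₂ : V₂.comap (β : F' →+* F) = V₂')
    (comap_β₃ : V₃.comap (β : F' →+* F) = V₂')
    (hq₁ : (q : F) ∈ V₁.nonunits) (hq₃ : (q : F) ∈ V₃.nonunits)
    {zα : F} {cα : F'} (hzα : zα ∈ V₃) (hzcα : zα ^ q - α cα ∈ V₃.nonunits)
    (hnpα : ∀ a : F', a ∈ V₂' → a ^ q - cα ∉ V₂'.nonunits)
    {zβ : F} {cβ : F'} (hzβ : zβ ∈ V₁) (hzcβ : zβ ^ q - β cβ ∈ V₁.nonunits)
    (hnpβ : ∀ a : F', a ∈ V₁' → a ^ q - cβ ∉ V₁'.nonunits) :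
    (∀ t : F, (t ≠ 0 ∧ t ∈ V₂.nonunits ∧ ∀ f ∈ V₂.nonunits, f * t⁻¹ ∈ V₂) →
      ∀ (y : F) (a₁ a₂ a₃ : ℤ), y ≠ 0 →
        (y * (algebraMap R F w ^ a₁)⁻¹ ≠ 0 ∧ y * (algebraMap R F w ^ a₁)⁻¹ ∈ V₁ ∧
          (y * (algebraMap R F w ^ a₁)⁻¹)⁻¹ ∈ V₁) →
        (y * (t ^ a₂)⁻¹ ≠ 0 ∧ y * (t ^ a₂)⁻¹ ∈ V₂ ∧ (y * (t ^ a₂)⁻¹)⁻¹ ∈ V₂) →
        (y * (algebraMap R F w ^ a₃)⁻¹ ≠ 0 ∧ y * (algebraMap R F w ^ a₃)⁻¹ ∈ V₃ ∧
          (y * (algebraMap R F w ^ a₃)⁻¹)⁻¹ ∈ V₃) →
        (normAlong α y * (algebraMap R F' w ^ (a₁ + a₂))⁻¹ ≠ 0 ∧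
          normAlong α y * (algebraMap R F' w ^ (a₁ + a₂))⁻¹ ∈ V₁' ∧
          (normAlong α y * (algebraMap R F' w ^ (a₁ + a₂))⁻¹)⁻¹ ∈ V₁') ∧
        (normAlong α y * (algebraMap R F' w ^ ((q : ℤ) * a₃))⁻¹ ≠ 0 ∧
          normAlong α y * (algebraMap R F' w ^ ((q : ℤ) * a₃))⁻¹ ∈ V₂' ∧
          (normAlong α y * (algebraMap R F' w ^ ((q : ℤ) * a₃))⁻¹)⁻¹ ∈ V₂')) ∧
    (∀ t : F, (t ≠ 0 ∧ t ∈ V₂.nonunits ∧ ∀ f ∈ V₂.nonunits, f * t⁻¹ ∈ V₂) →
      ∀ (y : F) (a₁ a₂ a₃ : ℤ), y ≠ 0 →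
        (y * (algebraMap R F w ^ a₁)⁻¹ ≠ 0 ∧ y * (algebraMap R F w ^ a₁)⁻¹ ∈ V₁ ∧
          (y * (algebraMap R F w ^ a₁)⁻¹)⁻¹ ∈ V₁) →
        (y * (t ^ a₂)⁻¹ ≠ 0 ∧ y * (t ^ a₂)⁻¹ ∈ V₂ ∧ (y * (t ^ a₂)⁻¹)⁻¹ ∈ V₂) →
        (y * (algebraMap R F w ^ a₃)⁻¹ ≠ 0 ∧ y * (algebraMap R F w ^ a₃)⁻¹ ∈ V₃ ∧
          (y * (algebraMap R F w ^ a₃)⁻¹)⁻¹ ∈ V₃) →
        (normAlong β y * (algebraMap R F' w ^ (a₃ + a₂))⁻¹ ≠ 0 ∧
          normAlong β y * (algebraMap R F' w ^ (a₃ + a₂))⁻¹ ∈ V₂' ∧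
          (normAlong β y * (algebraMap R F' w ^ (a₃ + a₂))⁻¹)⁻¹ ∈ V₂') ∧
        (normAlong β y * (algebraMap R F' w ^ ((q : ℤ) * a₁))⁻¹ ≠ 0 ∧
          normAlong β y * (algebraMap R F' w ^ ((q : ℤ) * a₁))⁻¹ ∈ V₁' ∧
          (normAlong β y * (algebraMap R F' w ^ ((q : ℤ) * a₁))⁻¹)⁻¹ ∈ V₁')) ∧
    (∀ y : F, (y ≠ 0 ∧ y ∈ V₁ ∧ y⁻¹ ∈ V₁) → (y ≠ 0 ∧ y ∈ V₂ ∧ y⁻¹ ∈ V₂) → ∀ x₁ x₂ : F',
      α x₁ - y ∈ V₁.nonunits → α x₂ - y ∈ V₂.nonunits →
        normAlong α y - x₁ * x₂ ^ (q - 1) ∈ V₁'.nonunits) ∧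
    (∀ y : F, (y ≠ 0 ∧ y ∈ V₃ ∧ y⁻¹ ∈ V₃) → α (normAlong α y) - y ^ q ∈ V₃.nonunits) ∧
    (∀ y : F, (y ≠ 0 ∧ y ∈ V₃ ∧ y⁻¹ ∈ V₃) → (y ≠ 0 ∧ y ∈ V₂ ∧ y⁻¹ ∈ V₂) → ∀ x₃ x₂ : F',
      β x₃ - y ∈ V₃.nonunits → β x₂ - y ∈ V₂.nonunits →
        normAlong β y - x₃ * x₂ ^ (q - 1) ∈ V₂'.nonunits) ∧
    (∀ y : F, (y ≠ 0 ∧ y ∈ V₁ ∧ y⁻¹ ∈ V₁) → β (normAlong β y) - y ^ q ∈ V₁.nonunits) :=
  ⟨eng_nv w q α fin_α deg_α hq comap_α₁ comap_α₂ comap_α₃ ne₁₂ hαw
      dvr₁ unif₁ ram₂ dvr₃ unif₃ hq₃ hzα hzcα hnpα,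
    fun t ht y a₁ a₂ a₃ hy h₁ h₂ h₃ =>
      eng_nv w q β fin_β deg_β hq comap_β₃ comap_β₂ comap_β₁ ne₂₃.symm hβw
        dvr₃ unif₃ ram₂ dvr₁ unif₁ hq₁ hzβ hzcβ hnpβ t ht y a₃ a₂ a₁ hy h₃ h₂ h₁,
    eng_nr_split w q α fin_α deg_α hq.pos comap_α₁ comap_α₂ ne₁₂ hαw dvr₁ unif₁ ram₂,
    eng_nr_insep w q α fin_α deg_α hq comap_α₃ hαw dvr₃ unif₃ hq₃ hzα hzcα hnpα,
    eng_nr_split w q β fin_β deg_β hq.pos comap_β₃ comap_β₂ ne₂₃.symm hβw dvr₃ unif₃ ram₂,
    eng_nr_insep w q β fin_β deg_β hq comap_β₁ hβw dvr₁ unif₁ hq₁ hzβ hzcβ hnpβ⟩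

end Along

end Fermat.Agent.S36.H253

end
-- ===== PACK-END S36/H253/EngNorm.lean

-- ===== PACK-BEGIN S59/H105/UqHK.lean
section







/-!
# Row S59, cell TW, leaf TW-CTRL (helper105): `U_q = t₂ r₁` at level `(M, q)`, `q ∣ M`

* `t₂_r₁_eq_Uq` : `t₂ M q (r₁ M q φ) = U_q φ` (degeneracy maps between the levels `M` and `M q`);
* `heckeTransfer_Uq` : `T_l` commutes with `U_q` (`l ∤ M q`);
* `isCuspidal_Uq` : `U_q` preserves cuspidal classes.
-/

set_option autoImplicit false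

namespace Fermat.Agent.S59.H105

open CongruenceSubgroup Matrix.SpecialLinearGroup ModularForm
open Fermat.Agent.S29.H642 Fermat.Agent.S41 Fermat.Agent.S41.Spec Fermat.Agent.S41.H761
open P2MW.S_ModularForm_heckeT_slash_eq_self_of_mem_Gamma0.ModularForm.HeckeSlashInvariance
open scoped MatrixGroups

universe u

variable {M q : ℕ} [Fact q.Prime] {A : Type u} [AddCommGroup A]

/-- `t₂ r₁ = U_q` at level `(M, q)` with `q ∣ M`. -/
theorem t₂_r₁_eq_Uq (hq : q ∣ M) (φ : Additive (Gamma0 M) →+ A) :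
    t₂ M q (r₁ M q φ) = Uq hq φ := by
  have hqp : q.Prime := Fact.out
  have hinj := H105.conjDelta_injective M hqp.ne_zero
  have hs1 := IsCosetSystem.single (ι' := (ιN M).comp (conjDelta M q)) (ιN_injective M)
    (incl M q) (heckeRep q ((0 : ZMod q) : OnePoint (ZMod q))) r1_rel
  have hs2 := IsCosetSystem.ofTransfer (conjDelta M q) hinj (ιN M) (ιN_injective M)
  have hprod := hs1.prod hs2 (fun _ _ x y g e => ⟨rfl, prod_S2_t2r1 x y g e⟩)
  have hle : ∀ z : Unit × (Gamma0 M ⧸ (conjDelta M q).range), ∃ (j : ZMod q) (g : Gamma0 M),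
      heckeRep q ((0 : ZMod q) : OnePoint (ZMod q)) * ιN M (z.2.out)⁻¹ = ιN M g * uqRep q j :=
    fun z => ⟨_, _, (uqSystem hq).spec 0 (z.2.out)⁻¹⟩
  have hfin : Finite (Unit × (Gamma0 M ⧸ (conjDelta M q).range)) :=
    hprod.finite_of_le (ρ' := uqRep q) hle
  have hfin2 : Finite (Gamma0 M ⧸ (conjDelta M q).range) :=
    Finite.of_injective (fun x => (((), x) : Unit × (Gamma0 M ⧸ (conjDelta M q).range)))
      (fun x y h => (Prod.mk.inj h).2)
  have : (conjDelta M q).range.FiniteIndex := Subgroup.finiteIndex_of_finite_quotient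
  let _ : Fintype (Gamma0 M ⧸ (conjDelta M q).range) :=
    (conjDelta M q).range.fintypeQuotientOfFiniteIndex
  show transferAlong (conjDelta M q) (r₁ M q φ) = _
  rw [transferAlong_eq (conjDelta M q) hinj (ιN M) (ιN_injective M)]
  have hr1 : r₁ M q φ = hs1.transfer φ :=
    (IsCosetSystem.single_transfer (ι' := (ιN M).comp (conjDelta M q)) (ιN_injective M)
      (incl M q) (heckeRep q ((0 : ZMod q) : OnePoint (ZMod q))) r1_rel φ).symm
  rw [hr1, IsCosetSystem.transfer_comp hs1 hs2 hprod]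
  have : Nonempty (Unit × (Gamma0 M ⧸ (conjDelta M q).range)) := ⟨((), ((1 : Gamma0 M) : _))⟩
  exact IsCosetSystem.transfer_eq_of_le hprod (uqSystem hq) hle (uqSystem_transitive hq) φ

/-- `T_l` commutes with `U_q`. -/
theorem heckeTransfer_Uq {l : ℕ} [Fact l.Prime] (hM : M ≠ 0) (hq : q ∣ M) (hl : ¬ l ∣ M)
    (φ : Additive (Gamma0 M) →+ A) :
    heckeTransfer hl (Uq hq φ) = Uq hq (heckeTransfer hl φ) := by
  have hqp : q.Prime := Fact.out
  have hlp : l.Prime := Fact.out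
  have hlq : ¬ l ∣ q := fun h => hl (dvd_trans h hq)
  have hl' : ¬ l ∣ M * q := fun h => (hlp.dvd_mul.mp h).elim hl hlq
  have hMq : M * q ≠ 0 := Nat.mul_ne_zero hM hqp.ne_zero
  rw [← t₂_r₁_eq_Uq hq, ← t₂_r₁_eq_Uq hq,
    (H761.heckeTransferComm.{u} M q l hl hl' hMq A (r₁ M q φ)).2,
    (H281.heckeRestrict.{u} M q l hl hl' A φ).1]

/-- `U_q` preserves cuspidal classes. -/
theorem isCuspidal_Uq (hq : q ∣ M) (φ : Additive (Gamma0 M) →+ A) (hφ : IsCuspidal φ) :
    IsCuspidal (Uq hq φ) := by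
  rw [← t₂_r₁_eq_Uq hq]
  exact (H581.transferCusp.{u} M q A _ (H581.restrictCusp.{u} M q A φ hφ).1).2

end Fermat.Agent.S59.H105

end
-- ===== PACK-END S59/H105/UqHK.lean

-- ===== PACK-BEGIN S59/MFree/H761/ManinConj.lean
section






/-!
# S59 / M-FREE (helper761): the diamond operators in the Manin model

* `finiteIndex_kerSub` : `ker κ` has finite index in `SL(2,ℤ)`;
* `rmul κ g` : right multiplication by `g ∈ Γ` on `X' = SL(2,ℤ) ⧸ ker κ`;
* `isManinRep_conjAct` : if `m` represents `φ`, then `m ∘ rmul g` represents `conjAct κ g φ`;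
* `isManinRep_zero`, `isManinRep_sum` : linearity for finite sums;
* `eq_of_isManinRep` : two classes with the same Manin symbol are equal.
-/

set_option autoImplicit false

namespace Fermat.Agent.S59.MFree.H761

open CongruenceSubgroup Matrix.SpecialLinearGroup ModularGroup
open Fermat.Agent.S41.Spec Fermat.Agent.S59.MFree
open scoped MatrixGroups

universe u

section Basic

variable {Γ : Subgroup SL(2, ℤ)} {D : Type*} [Group D] (κ : Γ →* D)

theorem finiteIndex_kerSub [Γ.FiniteIndex] [Finite D] : (kerSub κ).FiniteIndex := by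
  constructor
  have h1 : (kerSub κ).index = κ.ker.index * Γ.index := by
    unfold kerSub
    rw [Subgroup.index_map_subtype]
  rw [h1]
  have h2 : κ.ker.index ≠ 0 := by
    rw [Subgroup.index_ker]
    exact Nat.card_pos.ne'
  exact Nat.mul_ne_zero h2 Subgroup.FiniteIndex.index_ne_zero

/-- Right multiplication by `g ∈ Γ` on `X' = SL(2,ℤ) ⧸ ker κ`. -/
def rmul (g : Γ) : SL(2, ℤ) ⧸ kerSub κ → SL(2, ℤ) ⧸ kerSub κ :=
  Quotient.map' (fun h => h * (g : SL(2, ℤ))) (by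
    intro a b hab
    rw [QuotientGroup.leftRel_apply] at hab ⊢
    have := conj_mem_kerSub κ g hab
    have e : (a * (g : SL(2, ℤ)))⁻¹ * (b * (g : SL(2, ℤ))) = (g : SL(2, ℤ))⁻¹ * (a⁻¹ * b) * g := by
      group
    rw [e]
    exact this)

@[simp] theorem rmul_mk (g : Γ) (h : SL(2, ℤ)) :
    rmul κ g (h : SL(2, ℤ) ⧸ kerSub κ) = ((h * (g : SL(2, ℤ)) : SL(2, ℤ)) : SL(2, ℤ) ⧸ kerSub κ) :=
  rfl

theorem rmul_smul (g : Γ) (a : SL(2, ℤ)) (x : SL(2, ℤ) ⧸ kerSub κ) :
    rmul κ g (a • x) = a • rmul κ g x := by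
  induction x using QuotientGroup.induction_on with
  | H h =>
    show rmul κ g ((a * h : SL(2, ℤ)) : SL(2, ℤ) ⧸ kerSub κ) = a • rmul κ g (h : SL(2, ℤ) ⧸ kerSub κ)
    rw [rmul_mk, rmul_mk, mul_assoc]
    rfl

theorem rmul_mul (g g' : Γ) (x : SL(2, ℤ) ⧸ kerSub κ) :
    rmul κ (g * g') x = rmul κ g' (rmul κ g x) := by
  induction x using QuotientGroup.induction_on with
  | H h =>
    rw [rmul_mk, rmul_mk, rmul_mk, Subgroup.coe_mul, mul_assoc]

theorem rmul_one (x : SL(2, ℤ) ⧸ kerSub κ) : rmul κ 1 x = x := by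
  induction x using QuotientGroup.induction_on with
  | H h =>
    rw [rmul_mk, Subgroup.coe_one, mul_one]

theorem rmul_inv_rmul (g : Γ) (x : SL(2, ℤ) ⧸ kerSub κ) : rmul κ g⁻¹ (rmul κ g x) = x := by
  rw [← rmul_mul, mul_inv_cancel, rmul_one]

theorem rmul_rmul_inv (g : Γ) (x : SL(2, ℤ) ⧸ kerSub κ) : rmul κ g (rmul κ g⁻¹ x) = x := by
  rw [← rmul_mul, inv_mul_cancel, rmul_one]

theorem rmul_injective (g : Γ) : Function.Injective (rmul κ g) :=
  Function.LeftInverse.injective (rmul_inv_rmul κ g)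

/-- `rmul` only depends on the class mod `ker κ`. -/
theorem rmul_eq_of_mem (g : Γ) (hg : κ g = 1) (x : SL(2, ℤ) ⧸ kerSub κ) : rmul κ g x = x := by
  induction x using QuotientGroup.induction_on with
  | H h =>
    rw [rmul_mk]
    apply QuotientGroup.eq.mpr
    have e : (h * (g : SL(2, ℤ)))⁻¹ * h = ((g : SL(2, ℤ)))⁻¹ := by group
    rw [e]
    exact (kerSub κ).inv_mem (mem_kerSub.mpr ⟨g.2, hg⟩)

/-- The projection `X' → X` is invariant under `rmul`. -/
theorem quotMap_rmul (g : Γ) (x : SL(2, ℤ) ⧸ kerSub κ) :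
    Subgroup.quotientMapOfLE (kerSub_le κ) (rmul κ g x) = Subgroup.quotientMapOfLE (kerSub_le κ) x := by
  induction x using QuotientGroup.induction_on with
  | H h =>
    rw [rmul_mk]
    show ((h * (g : SL(2, ℤ)) : SL(2, ℤ)) : SL(2, ℤ) ⧸ Γ) = ((h : SL(2, ℤ)) : SL(2, ℤ) ⧸ Γ)
    apply QuotientGroup.eq.mpr
    have e : (h * (g : SL(2, ℤ)))⁻¹ * h = ((g : SL(2, ℤ)))⁻¹ := by group
    rw [e]
    exact Γ.inv_mem g.2

/-- Two points of `X'` with the same image in `X` differ by `rmul g`. -/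
theorem exists_rmul_eq {x y : SL(2, ℤ) ⧸ kerSub κ}
    (h : Subgroup.quotientMapOfLE (kerSub_le κ) x = Subgroup.quotientMapOfLE (kerSub_le κ) y) :
    ∃ g : Γ, rmul κ g x = y := by
  induction x using QuotientGroup.induction_on with
  | H a =>
    induction y using QuotientGroup.induction_on with
    | H b =>
      have h1 : ((a : SL(2, ℤ)) : SL(2, ℤ) ⧸ Γ) = ((b : SL(2, ℤ)) : SL(2, ℤ) ⧸ Γ) := h
      have h2 : a⁻¹ * b ∈ Γ := QuotientGroup.eq.mp h1
      refine ⟨⟨a⁻¹ * b, h2⟩, ?_⟩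
      rw [rmul_mk]
      simp

/-- `rmul g x = x` forces `g ∈ ker κ`. -/
theorem mem_ker_of_rmul_eq {g : Γ} {x : SL(2, ℤ) ⧸ kerSub κ} (h : rmul κ g x = x) : κ g = 1 := by
  induction x using QuotientGroup.induction_on with
  | H a =>
    rw [rmul_mk] at h
    have h2 : (a * (g : SL(2, ℤ)))⁻¹ * a ∈ kerSub κ := QuotientGroup.eq.mp h
    have e : (a * (g : SL(2, ℤ)))⁻¹ * a = ((g : SL(2, ℤ)))⁻¹ := by group
    rw [e] at h2
    obtain ⟨h3, h4⟩ := mem_kerSub.mp h2
    have h5 : (⟨((g : SL(2, ℤ)))⁻¹, h3⟩ : Γ) = g⁻¹ := rfl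
    rw [h5, map_inv, inv_eq_one] at h4
    exact h4

end Basic

section Conj

variable {Γ : Subgroup SL(2, ℤ)} {D : Type*} [Group D] (κ : Γ →* D)
variable {A : Type*} [AddCommGroup A]

/-- (CONJ) the diamond operators in the Manin model. -/
theorem isManinRep_conjAct (g : Γ) {φ : Additive (kerSub κ) →+ A} {m : SL(2, ℤ) ⧸ kerSub κ → A}
    (h : IsManinRep (kerSub κ) φ m) :
    IsManinRep (kerSub κ) (conjAct κ g φ) (fun x => m (rmul κ g x)) := by
  obtain ⟨f, ⟨hcoc, hS, hU⟩, hφ⟩ := h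
  refine ⟨fun a x => f a (rmul κ g x), ⟨?_, ?_, ?_⟩, ?_⟩
  · intro a b x
    show f (a * b) (rmul κ g x) = f b (rmul κ g x) + f a (rmul κ g (b • x))
    rw [rmul_smul, hcoc]
  · intro x
    exact hS _
  · intro x
    show f (S * T) (rmul κ g x) = m (rmul κ g ((S * T) • x)) - m (rmul κ g x)
    rw [rmul_smul, hU]
  · intro γ
    show φ (Additive.ofMul (conjKer κ g γ)) =
      f (γ : SL(2, ℤ)) (rmul κ g ((1 : SL(2, ℤ)) : SL(2, ℤ) ⧸ kerSub κ))
    rw [hφ, rmul_mk, one_mul]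
    -- `f (g⁻¹ γ g) base = f γ (g • base)`
    have hbase : (((g : SL(2, ℤ)) : SL(2, ℤ)) : SL(2, ℤ) ⧸ kerSub κ) =
        (g : SL(2, ℤ)) • (((1 : SL(2, ℤ)) : SL(2, ℤ)) : SL(2, ℤ) ⧸ kerSub κ) := by
      show _ = (((g : SL(2, ℤ)) * 1 : SL(2, ℤ)) : SL(2, ℤ) ⧸ kerSub κ)
      rw [mul_one]
    set k : SL(2, ℤ) := ((conjKer κ g γ : kerSub κ) : SL(2, ℤ)) with hk
    have hk' : k = (g : SL(2, ℤ))⁻¹ * γ * g := rfl
    have hkfix : k • (((1 : SL(2, ℤ)) : SL(2, ℤ)) : SL(2, ℤ) ⧸ kerSub κ) =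
        (((1 : SL(2, ℤ)) : SL(2, ℤ)) : SL(2, ℤ) ⧸ kerSub κ) := by
      show (((k * 1 : SL(2, ℤ)) : SL(2, ℤ)) : SL(2, ℤ) ⧸ kerSub κ) = _
      rw [mul_one]
      apply QuotientGroup.eq.mpr
      rw [mul_one]
      exact (kerSub κ).inv_mem (conjKer κ g γ).2
    have e1 : (γ : SL(2, ℤ)) * g = g * k := by rw [hk']; group
    have c1 := hcoc (γ : SL(2, ℤ)) (g : SL(2, ℤ)) (((1 : SL(2, ℤ)) : SL(2, ℤ)) : SL(2, ℤ) ⧸ kerSub κ)
    have c2 := hcoc (g : SL(2, ℤ)) k (((1 : SL(2, ℤ)) : SL(2, ℤ)) : SL(2, ℤ) ⧸ kerSub κ)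
    rw [hkfix] at c2
    rw [e1, c2] at c1
    rw [hbase]
    have c3 : f k (((1 : SL(2, ℤ)) : SL(2, ℤ)) : SL(2, ℤ) ⧸ kerSub κ) =
        f (γ : SL(2, ℤ)) ((g : SL(2, ℤ)) • (((1 : SL(2, ℤ)) : SL(2, ℤ)) : SL(2, ℤ) ⧸ kerSub κ)) := by
      have := c1
      -- c1 : f k base + f g base = f g base + f γ (g • base)
      exact add_right_cancel (b := f (g : SL(2, ℤ))
        (((1 : SL(2, ℤ)) : SL(2, ℤ)) : SL(2, ℤ) ⧸ kerSub κ)) (by rw [this, add_comm])
    exact c3

end Conj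

section Linear

variable {Γ : Subgroup SL(2, ℤ)} [Γ.FiniteIndex]

/-- The zero class is represented by the zero symbol. -/
theorem isManinRep_zero (hneg : (-1 : SL(2, ℤ)) ∈ Γ) (A : Type u) [AddCommGroup A] :
    IsManinRep Γ (0 : Additive Γ →+ A) (0 : SL(2, ℤ) ⧸ Γ → A) := by
  obtain ⟨φ, hφ⟩ := Fermat.Agent.S41.H585.maninRepRealize.{u} Γ hneg A (0 : SL(2, ℤ) ⧸ Γ → A)
  have h0 : φ = 0 := Fermat.Agent.S41.H460.maninRepInvariant.{u} Γ hneg A φ 0 hφ
    ⟨0, 0, fun _ => rfl, fun _ => rfl, (add_zero 0).symm⟩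
  rwa [h0] at hφ

/-- Two classes with the same Manin symbol are equal. -/
theorem eq_of_isManinRep (hneg : (-1 : SL(2, ℤ)) ∈ Γ) {A : Type u} [AddCommGroup A]
    {φ ψ : Additive Γ →+ A} {m : SL(2, ℤ) ⧸ Γ → A} (h1 : IsManinRep Γ φ m)
    (h2 : IsManinRep Γ ψ m) : φ = ψ := by
  have h3 := (Fermat.Agent.S41.H460.maninRepLinear.{u} Γ A A (AddMonoidHom.id A) φ ψ m m h1 h2).2.1
  rw [sub_self] at h3
  have h0 : φ - ψ = 0 := Fermat.Agent.S41.H460.maninRepInvariant.{u} Γ hneg A (φ - ψ) 0 h3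
    ⟨0, 0, fun _ => rfl, fun _ => rfl, (add_zero 0).symm⟩
  exact sub_eq_zero.mp h0

omit [Γ.FiniteIndex] in
theorem isManinRep_add {A : Type u} [AddCommGroup A]
    {φ ψ : Additive Γ →+ A} {m m' : SL(2, ℤ) ⧸ Γ → A} (h1 : IsManinRep Γ φ m)
    (h2 : IsManinRep Γ ψ m') : IsManinRep Γ (φ + ψ) (m + m') :=
  (Fermat.Agent.S41.H460.maninRepLinear.{u} Γ A A (AddMonoidHom.id A) φ ψ m m' h1 h2).1

omit [Γ.FiniteIndex] in
theorem isManinRep_sub {A : Type u} [AddCommGroup A]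
    {φ ψ : Additive Γ →+ A} {m m' : SL(2, ℤ) ⧸ Γ → A} (h1 : IsManinRep Γ φ m)
    (h2 : IsManinRep Γ ψ m') : IsManinRep Γ (φ - ψ) (m - m') :=
  (Fermat.Agent.S41.H460.maninRepLinear.{u} Γ A A (AddMonoidHom.id A) φ ψ m m' h1 h2).2.1

theorem isManinRep_sum (hneg : (-1 : SL(2, ℤ)) ∈ Γ) {A : Type u} [AddCommGroup A] {ι : Type*}
    (s : Finset ι) (φ : ι → (Additive Γ →+ A)) (m : ι → SL(2, ℤ) ⧸ Γ → A)
    (h : ∀ i ∈ s, IsManinRep Γ (φ i) (m i)) :
    IsManinRep Γ (∑ i ∈ s, φ i) (∑ i ∈ s, m i) := by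
  classical
  induction s using Finset.induction_on with
  | empty =>
    simp only [Finset.sum_empty]
    exact isManinRep_zero hneg A
  | insert a s ha ih =>
    rw [Finset.sum_insert ha, Finset.sum_insert ha]
    exact isManinRep_add (h a (Finset.mem_insert_self a s))
      (ih fun i hi => h i (Finset.mem_insert_of_mem hi))

end Linear

end Fermat.Agent.S59.MFree.H761

end
-- ===== PACK-END S59/MFree/H761/ManinConj.lean

-- ===== PACK-BEGIN S41/H701/NonEisenstein.lean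
section







/-!
# S41, block NE (helper701, piece D3): irreducible `E[p]` is not Eisenstein

`nonEisenstein_of_frobRelation_h701`: for an integral Weierstrass model `W` with `Δ ≠ 0`, an odd
prime `p` with `W[p]` irreducible, a finite set `S` and `M₀ ≥ 1` there is a prime `ℓ ∉ S` of good
reduction with `ℓ ≡ 1 mod M₀` and `p ∤ ℓ + 1 - a_ℓ(W)`.

Inputs: the Frobenius relation `Lib.Frob.FrobRelation` (hypothesis here; proved by row S52), the
Frobenius division theorem `Lib.Cheb.frobeniusDivision` (Tier 1 of CHEB), Dirichlet's theorem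
(Mathlib), `dim E[p] = 2` (piece D1) and the abstract lemma of piece D2.
-/

set_option autoImplicit false

open WeierstrassCurve WeierstrassCurve.Affine WeierstrassCurve.Affine.Point

namespace Fermat.Agent.S41.H701

open Fermat.Agent.Lib.Frob (Qb Pts)
open Fermat.Agent.S55.H414 (cycloPow zetaBar zetaBar_spec)

/-- `Gal(ℚ̄/ℚ)` -/
abbrev GQ701 : Type := Qb ≃ₐ[ℚ] Qb

section Coord

variable {E : WeierstrassCurve ℚ}

/-- `x`-coordinate with junk value at infinity -/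
noncomputable def xCoord_h701 : (E⁄Qb).Point → Qb
  | .zero => 0
  | .some x _ _ => x

/-- `y`-coordinate with junk value at infinity -/
noncomputable def yCoord_h701 : (E⁄Qb).Point → Qb
  | .zero => 0
  | .some _ y _ => y

/-- Two automorphisms agreeing on the coordinates of a point act in the same way on it. -/
lemma smul_eq_smul_of_coord_h701 (σ τ : GQ701) (P : (E⁄Qb).Point)
    (hx : σ (xCoord_h701 P) = τ (xCoord_h701 P)) (hy : σ (yCoord_h701 P) = τ (yCoord_h701 P)) :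
    σ • P = τ • P := by
  cases P with
  | zero => rfl
  | some x y h =>
    simp only [xCoord_h701, yCoord_h701] at hx hy
    rw [algEquiv_smul_def, algEquiv_smul_def]
    simp only [Point.map_some]
    congr 1

end Coord

section Field

variable (W : WeierstrassCurve ℤ) (p : ℕ) (M : ℕ) [NeZero M]

/-- generators of the field `ℚ(E[p], ζ_M)` -/
def genSet_h701 : Set Qb :=
  {Fermat.Agent.S55.H414.zetaBar M} ∪
    ((fun P : Submodule.torsionBy ℤ (Pts W) p => xCoord_h701 (P : Pts W)) '' Set.univ ∪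
     (fun P : Submodule.torsionBy ℤ (Pts W) p => yCoord_h701 (P : Pts W)) '' Set.univ)

/-- the field `ℚ(E[p], ζ_M)` -/
noncomputable def splitField_h701 : IntermediateField ℚ Qb :=
  IntermediateField.adjoin ℚ (genSet_h701 W p M)

lemma zeta_mem_splitField_h701 :
    Fermat.Agent.S55.H414.zetaBar M ∈ splitField_h701 W p M :=
  IntermediateField.subset_adjoin _ _ (Or.inl rfl)

lemma xCoord_mem_splitField_h701 (P : Submodule.torsionBy ℤ (Pts W) p) :
    xCoord_h701 (P : Pts W) ∈ splitField_h701 W p M :=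
  IntermediateField.subset_adjoin _ _ (Or.inr (Or.inl ⟨P, trivial, rfl⟩))

lemma yCoord_mem_splitField_h701 (P : Submodule.torsionBy ℤ (Pts W) p) :
    yCoord_h701 (P : Pts W) ∈ splitField_h701 W p M :=
  IntermediateField.subset_adjoin _ _ (Or.inr (Or.inr ⟨P, trivial, rfl⟩))

lemma finiteDimensional_splitField_h701 (hfin : Finite (Submodule.torsionBy ℤ (Pts W) p)) :
    FiniteDimensional ℚ (splitField_h701 W p M) := by
  have hS : (genSet_h701 W p M).Finite := by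
    unfold genSet_h701
    refine (Set.finite_singleton _).union ((Set.finite_univ.image _).union (Set.finite_univ.image _))
  have : Finite (genSet_h701 W p M) := hS.to_subtype
  have : Algebra.IsAlgebraic ℚ Qb := AlgebraicClosure.isAlgebraic ℚ
  exact IntermediateField.finiteDimensional_adjoin
    (fun x _ => (Algebra.IsAlgebraic.isAlgebraic x).isIntegral)

/-- agreeing on the field ⇒ same action on `E[p]` -/
lemma smul_eq_of_eqOn_splitField_h701 (σ τ : GQ701)
    (h : ∀ x ∈ splitField_h701 W p M, σ x = τ x) (P : Submodule.torsionBy ℤ (Pts W) p) :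
    σ • P = τ • P := by
  apply Subtype.ext
  exact smul_eq_smul_of_coord_h701 σ τ (P : Pts W) (h _ (xCoord_mem_splitField_h701 W p M P))
    (h _ (yCoord_mem_splitField_h701 W p M P))

/-- agreeing on the field ⇒ same cyclotomic character -/
lemma cycloPow_eq_of_eqOn_splitField_h701 (σ τ : GQ701)
    (h : ∀ x ∈ splitField_h701 W p M, σ x = τ x) :
    Fermat.Agent.S55.H414.cycloPow M σ = Fermat.Agent.S55.H414.cycloPow M τ := by
  rw [Fermat.Agent.S55.H414.cycloPow_eq_iff, h _ (zeta_mem_splitField_h701 W p M)]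
  exact Fermat.Agent.S55.H414.cycloPow_spec M τ

end Field

section Val

variable {A : ValuationSubring Qb}

/-- A natural number prime to `ℓ` is a unit at a place over `ℓ`. -/
theorem val_natCast_eq_one_h701 {ℓ M : ℕ} (hA : A.LiesOverPrime ℓ) (hcop : Nat.Coprime ℓ M) :
    A.valuation (M : Qb) = 1 := by
  have hq' : A.valuation (ℓ : Qb) < 1 := (A.mem_nonunits_iff).mp hA
  have hcop' : IsCoprime (ℓ : ℤ) (M : ℤ) := by
    rw [Int.isCoprime_iff_gcd_eq_one, Int.gcd_natCast_natCast]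
    exact hcop
  obtain ⟨u, w, huw⟩ := hcop'
  have h1 : (u : Qb) * (ℓ : Qb) + (w : Qb) * (M : Qb) = 1 := by
    exact_mod_cast congrArg (Int.cast : ℤ → Qb) huw
  have hsmall : A.valuation ((u : Qb) * (ℓ : Qb)) < 1 := by
    rw [map_mul]
    exact (mul_le_of_le_one_left' (Fermat.Agent.S55.Bridge.val_intCast_le_one u)).trans_lt hq'
  have hwn : A.valuation ((w : Qb) * (M : Qb)) = 1 := by
    have : (w : Qb) * (M : Qb) = 1 + -((u : Qb) * (ℓ : Qb)) := by linear_combination h1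
    rw [this, (A.valuation).map_add_eq_of_lt_left
      (by rw [Valuation.map_neg, map_one]; exact hsmall), map_one]
  rw [map_mul] at hwn
  have hp1 : A.valuation (M : Qb) ≤ 1 := by
    have := Fermat.Agent.S55.Bridge.val_intCast_le_one (A := A) (M : ℤ)
    rwa [Int.cast_natCast] at this
  refine le_antisymm hp1 ?_
  calc (1 : A.ValueGroup)
      = A.valuation (w : Qb) * A.valuation (M : Qb) := hwn.symm
    _ ≤ 1 * A.valuation (M : Qb) :=
        mul_le_mul_left (Fermat.Agent.S55.Bridge.val_intCast_le_one w) _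
    _ = A.valuation (M : Qb) := one_mul _

/-- The cyclotomic character of a Frobenius element at `ℓ ∤ M` is `ℓ mod M`. -/
theorem coe_cycloPow_frob_h701 {ℓ M : ℕ} [NeZero M] {σ : GQ701} (hA : A.LiesOverPrime ℓ)
    (hσ : A.IsFrobeniusAt σ ℓ) (hcop : Nat.Coprime ℓ M) :
    ((cycloPow M σ : (ZMod M)ˣ) : ZMod M) = (ℓ : ZMod M) := by
  have hNv := val_natCast_eq_one_h701 hA hcop
  have hζ : σ (zetaBar M) = zetaBar M ^ ℓ :=
    Fermat.Agent.S55.H414.IsFrobeniusAt_apply_root hσ (NeZero.ne _) hNv (zetaBar_spec M).pow_eq_one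
  exact Fermat.Agent.S55.H414.coe_cycloPow_of_apply_eq_pow M σ ℓ hζ

end Val

/-- There is `c ∈ Gal(ℚ̄/ℚ)` with `χ_M(c) = -1` (a Frobenius at a prime `≡ -1 mod M`). -/
theorem exists_cycloPow_eq_neg_one_h701 (M : ℕ) [NeZero M] :
    ∃ c : GQ701, cycloPow M c = -1 := by
  have hu : IsUnit (-1 : ZMod M) := isUnit_one.neg
  obtain ⟨q, -, hq, hqM⟩ := Nat.forall_exists_prime_gt_and_eq_mod hu 0
  obtain ⟨A, σ, hA, hσ⟩ := Fermat.Agent.S54.exists_frobenius q hq
  have hcop : Nat.Coprime q M := by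
    rw [← ZMod.isUnit_iff_coprime, hqM]
    exact hu
  refine ⟨σ, ?_⟩
  apply Units.ext
  rw [coe_cycloPow_frob_h701 hA hσ hcop, hqM]
  simp

section Main

/-- zsmul on the torsion module versus the Galois action, coordinates -/
theorem coe_galois_smul_torsion_h701 (W : WeierstrassCurve ℤ) (n : ℕ) (σ : GQ701)
    (P : Submodule.torsionBy ℤ (Pts W) n) :
    ((σ • P : Submodule.torsionBy ℤ (Pts W) n) : Pts W) = σ • (P : Pts W) := rfl

/-- The Frobenius relation on `E[p]` as an identity of `𝔽_p`-endomorphisms. -/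
theorem frob_relation_end_h701 (hFrob : Fermat.Agent.Lib.Frob.FrobRelation)
    (W : WeierstrassCurve ℤ) (p : ℕ) [Fact p.Prime] (ℓ : ℕ) (hℓ : ℓ.Prime) (h5 : 5 ≤ ℓ)
    (hgood : W.IsGoodPrimeFor ℓ) (hℓp : ℓ ≠ p) (A : ValuationSubring Qb) (τ : GQ701)
    (hA : A.LiesOverPrime ℓ) (hτ : A.IsFrobeniusAt τ ℓ) :
    galoisRepModuleEnd ℚ (W.map (Int.castRingHom ℚ)) p τ *
        galoisRepModuleEnd ℚ (W.map (Int.castRingHom ℚ)) p τ
      - ((W.apOfModel ℓ : ℤ) : ZMod p) • galoisRepModuleEnd ℚ (W.map (Int.castRingHom ℚ)) p τ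
      + (ℓ : ZMod p) • (1 : Module.End (ZMod p) (Submodule.torsionBy ℤ (Pts W) p)) = 0 := by
  have hp : p.Prime := Fact.out
  have hℓp' : ¬ ℓ ∣ p := by
    intro h
    exact hℓp ((Nat.prime_dvd_prime_iff_eq hℓ hp).mp h)
  apply LinearMap.ext
  intro P
  simp only [LinearMap.add_apply, LinearMap.sub_apply, Module.End.mul_apply,
    LinearMap.smul_apply, galoisRepModuleEnd_apply, Module.End.one_apply, LinearMap.zero_apply]
  rw [Int.cast_smul_eq_zsmul, Nat.cast_smul_eq_nsmul, ← natCast_zsmul]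
  apply Subtype.ext
  simp only [Submodule.coe_add, Submodule.coe_sub, Submodule.coe_smul_of_tower,
    coe_galois_smul_torsion_h701, ZeroMemClass.coe_zero]
  have hP : p • (P : Pts W) = 0 := by
    have := P.2
    rw [Submodule.mem_torsionBy_iff] at this
    rw [← this]
    exact (natCast_zsmul (P : Pts W) p).symm
  exact hFrob W ℓ hℓ h5 hgood A τ hA hτ p hp.pos hℓp' (P : Pts W) hP

/-- **Block NE, conditional on the Frobenius relation.**  If `W[p]` is irreducible (`p` odd), then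
for every finite set `S` and every `M₀ ≥ 1` there is a prime `ℓ ∉ S` of good reduction,
`ℓ ≡ 1 mod M₀`, with `p ∤ ℓ + 1 - a_ℓ(W)`. -/
theorem nonEisenstein_of_frobRelation_h701 (hFrob : Fermat.Agent.Lib.Frob.FrobRelation)
    (W : WeierstrassCurve ℤ) (hΔ : W.Δ ≠ 0) (p : ℕ) (hp : p.Prime) (hp2 : p ≠ 2)
    (hirr : W.ModRepIsIrreducible p) (S : Finset ℕ) (M₀ : ℕ) (hM₀ : 0 < M₀) :
    ∃ ℓ : ℕ, ℓ.Prime ∧ ℓ ∉ S ∧ W.IsGoodPrimeFor ℓ ∧ ℓ ≡ 1 [MOD M₀] ∧
      ¬ (p : ℤ) ∣ ((ℓ : ℤ) + 1 - W.apOfModel ℓ) := by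
  classical
  by_contra hcon
  push Not at hcon
  have : Fact p.Prime := ⟨hp⟩
  obtain ⟨M, hMdef⟩ : ∃ M : ℕ, M = M₀ * p := ⟨_, rfl⟩
  have hMpos : 0 < M := by rw [hMdef]; exact Nat.mul_pos hM₀ hp.pos
  have : NeZero M := ⟨hMpos.ne'⟩
  have hpM : p ∣ M := by rw [hMdef]; exact Dvd.intro_left _ rfl
  have hM₀M : M₀ ∣ M := by rw [hMdef]; exact Dvd.intro _ rfl
  -- the elliptic instance
  have hΔQ : ((W.map (Int.castRingHom ℚ))⁄Qb).Δ ≠ 0 := by
    simp only [WeierstrassCurve.baseChange, WeierstrassCurve.map_Δ]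
    simpa using hΔ
  have : ((W.map (Int.castRingHom ℚ))⁄Qb).IsElliptic := ⟨isUnit_iff_ne_zero.mpr hΔQ⟩
  have hdim : Module.finrank (ZMod p) (Submodule.torsionBy ℤ (Pts W) p) = 2 :=
    finrank_torsion_eq_two_h701 (K := Qb) (W.map (Int.castRingHom ℚ)) p
  have hfin : Finite (Submodule.torsionBy ℤ (Pts W) p) :=
    finite_torsion_prelude_h701 (K := Qb) (W.map (Int.castRingHom ℚ)) p hp.one_le
  have hfd := finiteDimensional_splitField_h701 W p M hfin
  have h2 : (2 : ZMod p) ≠ 0 := by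
    intro h
    have h' : ((2 : ℕ) : ZMod p) = 0 := by exact_mod_cast h
    rw [ZMod.natCast_eq_zero_iff] at h'
    exact hp2 ((Nat.prime_dvd_prime_iff_eq hp Nat.prime_two).mp h')
  -- the Frobenius-power hypothesis
  have hF : ∀ σ : GQ701, ∃ (τ : GQ701) (j : ℕ) (a : ZMod p),
      galoisRepModuleEnd ℚ (W.map (Int.castRingHom ℚ)) p σ
          = galoisRepModuleEnd ℚ (W.map (Int.castRingHom ℚ)) p τ ^ j ∧
        cycloPow M σ = cycloPow M τ ^ j ∧ (cycloPow M σ = 1 → cycloPow M τ = 1) ∧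
        galoisRepModuleEnd ℚ (W.map (Int.castRingHom ℚ)) p τ *
            galoisRepModuleEnd ℚ (W.map (Int.castRingHom ℚ)) p τ
          - a • galoisRepModuleEnd ℚ (W.map (Int.castRingHom ℚ)) p τ
          + ((ZMod.unitsMap hpM (cycloPow M τ) : (ZMod p)ˣ) : ZMod p) •
              (1 : Module.End (ZMod p) (Submodule.torsionBy ℤ (Pts W) p)) = 0 ∧
        (cycloPow M τ = 1 → a = 2) := by
    intro σ
    obtain ⟨ℓ, A, τ, k, j, hℓ, hℓS, hA, hτ, -, hτσ, hστ⟩ :=
      Fermat.Agent.Lib.Cheb.frobeniusDivision (splitField_h701 W p M) hfd σ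
        (S ∪ {2, 3, p} ∪ M.primeFactors ∪ W.Δ.natAbs.primeFactors)
    simp only [Finset.mem_union, Finset.mem_insert, Finset.mem_singleton, not_or] at hℓS
    obtain ⟨⟨⟨hℓS, hℓ2, hℓ3, hℓp⟩, hℓM⟩, hℓΔ⟩ := hℓS
    have h5 : 5 ≤ ℓ := by
      have h2' := hℓ.two_le
      by_contra hlt
      push Not at hlt
      interval_cases ℓ
      · exact hℓ2 rfl
      · exact hℓ3 rfl
      · exact absurd hℓ (by decide)
    have hcop : Nat.Coprime ℓ M := by
      rw [Nat.Prime.coprime_iff_not_dvd hℓ]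
      intro h
      exact hℓM (Nat.mem_primeFactors.mpr ⟨hℓ, h, hMpos.ne'⟩)
    have hgood : W.IsGoodPrimeFor ℓ := by
      intro h
      apply hℓΔ
      rw [Nat.mem_primeFactors]
      refine ⟨hℓ, ?_, by simpa using hΔ⟩
      exact Int.natCast_dvd.mp h
    have hχτ : ((cycloPow M τ : (ZMod M)ˣ) : ZMod M) = (ℓ : ZMod M) :=
      coe_cycloPow_frob_h701 hA hτ hcop
    have hε : ((ZMod.unitsMap hpM (cycloPow M τ) : (ZMod p)ˣ) : ZMod p) = (ℓ : ZMod p) := by
      rw [ZMod.unitsMap_def, Units.coe_map, MonoidHom.coe_coe, hχτ, map_natCast]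
    refine ⟨τ, j, ((W.apOfModel ℓ : ℤ) : ZMod p), ?_, ?_, ?_, ?_, ?_⟩
    · rw [← map_pow]
      apply LinearMap.ext
      intro P
      rw [galoisRepModuleEnd_apply, galoisRepModuleEnd_apply]
      exact (smul_eq_of_eqOn_splitField_h701 W p M (τ ^ j) σ hστ P).symm
    · rw [← map_pow]
      exact (cycloPow_eq_of_eqOn_splitField_h701 W p M (τ ^ j) σ hστ).symm
    · intro hσ1
      rw [cycloPow_eq_of_eqOn_splitField_h701 W p M τ (σ ^ k) hτσ, map_pow, hσ1, one_pow]
    · rw [hε]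
      exact frob_relation_end_h701 hFrob W p ℓ hℓ h5 hgood hℓp A τ hA hτ
    · intro hτ1
      rw [hτ1, Units.val_one] at hχτ
      have hℓ1 : ℓ ≡ 1 [MOD M] := by
        rw [← ZMod.natCast_eq_natCast_iff, ← hχτ, Nat.cast_one]
      have hdvd := hcon ℓ hℓ hℓS hgood (hℓ1.of_dvd hM₀M)
      have hℓ1p : (ℓ : ZMod p) = 1 := by
        have := (ZMod.natCast_eq_natCast_iff ℓ 1 p).mpr (hℓ1.of_dvd hpM)
        simpa using this
      have h0 : (((ℓ : ℤ) + 1 - W.apOfModel ℓ : ℤ) : ZMod p) = 0 :=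
        (ZMod.intCast_zmod_eq_zero_iff_dvd _ p).mpr hdvd
      push_cast at h0
      rw [hℓ1p] at h0
      have : ((W.apOfModel ℓ : ℤ) : ZMod p) = 1 + 1 := (sub_eq_zero.mp h0).symm
      rw [this]; norm_num
  obtain ⟨c, hc⟩ := exists_cycloPow_eq_neg_one_h701 M
  have hc2 : cycloPow M c * cycloPow M c = 1 := by rw [hc]; simp
  have hcε : ((ZMod.unitsMap hpM (cycloPow M c) : (ZMod p)ˣ) : ZMod p) = -1 := by
    rw [hc, ZMod.unitsMap_def, Units.coe_map, MonoidHom.coe_coe, Units.val_neg, Units.val_one,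
      map_neg, map_one]
  obtain ⟨L, hL0, hL1, hLstab⟩ := exists_stable_line_of_eisenstein_h701 h2 hdim
    (galoisRepModuleEnd ℚ (W.map (Int.castRingHom ℚ)) p) (cycloPow M) (ZMod.unitsMap hpM) hF c
    hc2 hcε
  rcases hirr.2 L (fun σ x hx => hLstab σ x hx) with h | h
  · exact hL0 h
  · exact hL1 h

end Main

end Fermat.Agent.S41.H701

end
-- ===== PACK-END S41/H701/NonEisenstein.lean

-- ===== PACK-BEGIN S59/TW/H324/Boundary.lean
section




/-!
# S59 / cell TW, leaf CUSP (helper324): the boundary values of a class and the Hecke operators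

For `Γ₁(M) ≤ K ≤ Γ₀(M)` and `φ ∈ X_K(A) = Hom(K, A)` put
`bdry hK φ a c = φ (unip M a c)`  (`unip M a c = 1 + M · v (Jv)ᵀ ∈ Γ(M) ⊆ K`, `v = (a, c)`).

* `bdry_smul_vec`  : `bdry φ (n v) = n² • bdry φ v`;
* `bdry_conj`      : `bdry φ (k v) = bdry φ v` for `k ∈ K`;
* `bdry_congr`     : `bdry φ v = bdry φ v'` for coprime `v ≡ v'` mod `M`;
* `transfer_unipK` : for a coset system `ρ` of `K` with integral representatives `m i` of
  determinant `d`: `(T_ρ φ)(unip (d M) v) = ∑ i, bdry φ (m i v)`.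
-/

set_option autoImplicit false

namespace Fermat.Agent.S59.TW.H324

open CongruenceSubgroup Matrix.SpecialLinearGroup ModularCurve.Period ModularForm
open Fermat.Agent.S29.H642 Fermat.Agent.S41.H761 Fermat.Agent.S59.TW.H653
open scoped MatrixGroups

variable {M : ℕ} {K : Subgroup SL(2, ℤ)} {A : Type*} [AddCommGroup A]

theorem unip_mem_Gamma1 {t : ℤ} (ht : (M : ℤ) ∣ t) (a c : ℤ) : unip t a c ∈ Gamma1 M := by
  have h := (Gamma_mem (N := M)).mp (unip_mem_Gamma ht a c)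
  rw [Gamma1_mem]
  exact ⟨h.1, h.2.2.2, h.2.2.1⟩

theorem Gamma_le_of_isMid (hK : IsMid M K) : Gamma M ≤ K := by
  intro g hg
  apply hK.ge
  have h := (Gamma_mem (N := M)).mp hg
  rw [Gamma1_mem]
  exact ⟨h.1, h.2.2.2, h.2.2.1⟩

/-- `unip t a c` as an element of `K` (`M ∣ t`). -/
def unipK (hK : IsMid M K) (t a c : ℤ) (ht : (M : ℤ) ∣ t) : K :=
  ⟨unip t a c, hK.ge (unip_mem_Gamma1 ht a c)⟩

@[simp] theorem coe_unipK (hK : IsMid M K) (t a c : ℤ) (ht : (M : ℤ) ∣ t) :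
    ((unipK hK t a c ht : K) : SL(2, ℤ)) = unip t a c := rfl

/-- The boundary value of `φ` at the vector `(a, c)`. -/
def bdry (hK : IsMid M K) (φ : Additive K →+ A) (a c : ℤ) : A :=
  φ (Additive.ofMul (unipK hK M a c (dvd_refl _)))

theorem unipK_zsmul (hK : IsMid M K) (n t a c : ℤ) (ht : (M : ℤ) ∣ t) :
    unipK hK (n * t) a c (Dvd.dvd.mul_left ht n) = unipK hK t a c ht ^ n := by
  apply Subtype.ext
  rw [Subgroup.coe_zpow]
  exact unip_zsmul n t a c

theorem apply_unipK (hK : IsMid M K) (φ : Additive K →+ A) (n a c : ℤ)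
    (h : (M : ℤ) ∣ n * M) :
    φ (Additive.ofMul (unipK hK (n * M) a c h)) = n • bdry hK φ a c := by
  have e : unipK hK (n * M) a c h = unipK hK M a c (dvd_refl _) ^ n :=
    unipK_zsmul hK n M a c (dvd_refl _)
  rw [e, ofMul_zpow, map_zsmul]
  rfl

theorem apply_unipK' (hK : IsMid M K) (φ : Additive K →+ A) {t : ℤ} (n a c : ℤ)
    (h : (M : ℤ) ∣ t) (e : t = n * M) :
    φ (Additive.ofMul (unipK hK t a c h)) = n • bdry hK φ a c := by
  subst e
  exact apply_unipK hK φ n a c h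

theorem bdry_smul_vec (hK : IsMid M K) (φ : Additive K →+ A) (n a c : ℤ) :
    bdry hK φ (n * a) (n * c) = (n ^ 2) • bdry hK φ a c := by
  have e : unipK hK M (n * a) (n * c) (dvd_refl _) =
      unipK hK (n ^ 2 * M) a c (Dvd.intro_left _ rfl) := by
    apply Subtype.ext
    show unip M (n * a) (n * c) = unip (n ^ 2 * M) a c
    rw [unip_scale, mul_comm]
  unfold bdry
  rw [e, apply_unipK]
  rfl

theorem apply_conj (φ : Additive K →+ A) (k x : K) :
    φ (Additive.ofMul (k * x * k⁻¹)) = φ (Additive.ofMul x) := by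
  rw [ofMul_mul, ofMul_mul, ofMul_inv, map_add, map_add, map_neg]
  abel

theorem bdry_conj (hK : IsMid M K) (φ : Additive K →+ A) (k : K) (a c : ℤ) :
    bdry hK φ ((k : SL(2, ℤ)) 0 0 * a + (k : SL(2, ℤ)) 0 1 * c)
      ((k : SL(2, ℤ)) 1 0 * a + (k : SL(2, ℤ)) 1 1 * c) = bdry hK φ a c := by
  have e : unipK hK M ((k : SL(2, ℤ)) 0 0 * a + (k : SL(2, ℤ)) 0 1 * c)
      ((k : SL(2, ℤ)) 1 0 * a + (k : SL(2, ℤ)) 1 1 * c) (dvd_refl _) =
      k * unipK hK M a c (dvd_refl _) * k⁻¹ := by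
    apply Subtype.ext
    show unip M _ _ = (k : SL(2, ℤ)) * unip M a c * (k : SL(2, ℤ))⁻¹
    rw [conj_unip]
  unfold bdry
  rw [e, apply_conj]

/-- The boundary value only depends on the coprime vector mod `M`. -/
theorem bdry_congr (hK : IsMid M K) (φ : Additive K →+ A) {a c a' c' : ℤ} (h : IsCoprime a c)
    (h' : IsCoprime a' c') (ha : (M : ℤ) ∣ a' - a) (hc : (M : ℤ) ∣ c' - c) :
    bdry hK φ a' c' = bdry hK φ a c := by
  obtain ⟨k, hk, e1, e2⟩ := exists_Gamma_conj M h h' ha hc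
  have := bdry_conj hK φ ⟨k, Gamma_le_of_isMid hK hk⟩ a c
  simp only [] at this
  rw [e1, e2] at this
  exact this

/-- The boundary value at `(a + b c, c)` (translation by an element of `Γ₁(M)`). -/
theorem bdry_shear (hK : IsMid M K) (φ : Additive K →+ A) (b a c : ℤ) :
    bdry hK φ (a + b * c) c = bdry hK φ a c := by
  have hmem : unip b 1 0 ∈ Gamma1 M := by
    rw [Gamma1_mem, unip_apply_00, unip_apply_11, unip_apply_10]
    simp
  have := bdry_conj hK φ ⟨unip b 1 0, hK.ge hmem⟩ a c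
  simp only [unip_apply_00, unip_apply_01, unip_apply_10, unip_apply_11] at this
  rw [← this]
  congr 1 <;> ring

/-! ## Coset systems with integral representatives -/

/-- The integral matrix `m` represents `X ∈ GL(2, ℝ)`. -/
def IsIntMat (X : GL (Fin 2) ℝ) (m : Matrix (Fin 2) (Fin 2) ℤ) : Prop :=
  ∀ i j, (X : Matrix (Fin 2) (Fin 2) ℝ) i j = ((m i j : ℤ) : ℝ)

theorem mul_mapGL_of_isIntMat {X : GL (Fin 2) ℝ} {m : Matrix (Fin 2) (Fin 2) ℤ}
    (hX : IsIntMat X m) {δ k : SL(2, ℤ)}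
    (e : m * (δ : Matrix (Fin 2) (Fin 2) ℤ) = (k : Matrix (Fin 2) (Fin 2) ℤ) * m) :
    X * mapGL ℝ δ = mapGL ℝ k * X := by
  have e' : ∀ i j, m i 0 * δ 0 j + m i 1 * δ 1 j = k i 0 * m 0 j + k i 1 * m 1 j := by
    intro i j
    have := congrFun (congrFun e i) j
    rwa [Matrix.mul_apply, Matrix.mul_apply, Fin.sum_univ_two, Fin.sum_univ_two] at this
  apply gl_ext <;>
    · simp only [coe_mul_apply, coe_mapGL_apply, hX _ _]
      exact_mod_cast e' _ _

/-- **The transfer of a coset system on a unipotent element.**  For a coset system `ρ` of `K`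
whose representatives are the integral matrices `m i` of determinant `d`:
`(T_ρ φ)(unip (d M) v) = ∑ i, bdry φ (m i v)`. -/
theorem transfer_unipK (hK : IsMid M K) {I : Type*} [Fintype I] {ρ : I → GL (Fin 2) ℝ}
    (h : IsCosetSystem (ιK K) (ιK K) ρ) (m : I → Matrix (Fin 2) (Fin 2) ℤ)
    (hm : ∀ i, IsIntMat (ρ i) (m i)) (d : ℤ) (hd : ∀ i, (m i).det = d)
    (φ : Additive K →+ A) (a c : ℤ) :
    h.transfer φ (Additive.ofMul (unipK hK (d * M) a c (Dvd.intro_left _ rfl))) =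
      ∑ i, bdry hK φ (m i 0 0 * a + m i 0 1 * c) (m i 1 0 * a + m i 1 1 * c) := by
  rw [IsCosetSystem.transfer_apply]
  refine Finset.sum_congr rfl fun i _ => ?_
  have e : ρ i * ιK K (unipK hK (d * M) a c (Dvd.intro_left _ rfl)) =
      ιK K (unipK hK M (m i 0 0 * a + m i 0 1 * c) (m i 1 0 * a + m i 1 1 * c) (dvd_refl _)) *
        ρ i := by
    rw [ιK_apply, ιK_apply]
    apply mul_mapGL_of_isIntMat (hm i)
    have := mul_unipMat (m i) M a c
    rw [hd i] at this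
    exact this
  rw [h.coc_eq e]
  rfl

end Fermat.Agent.S59.TW.H324

end
-- ===== PACK-END S59/TW/H324/Boundary.lean

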