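import Mathlib
import Fermat.Prelude.Def_ModularForm_HeckeOperator
import Fermat.Agent.Pack.S43MC.G0E0L0
import Fermat.Agent.Pack.S43MC.G0E5L3
import Fermat.Agent.Pack.S43MC.G0E15L0
import Fermat.Agent.Pack.S43MC.G0E15L2
import Fermat.Agent.Pack.S43MC.G0E11L1
import Fermat.Agent.Pack.S43MC.G0E14L1
import Fermat.Agent.Pack.S43MC.G0E14L3
import Fermat.Agent.Pack.S43MC.G0E14L2
import Fermat.Agent.Pack.S44C.G0E17L2
import Fermat.Agent.Pack.S43GC.G0E5L0
import Fermat.Agent.Pack.S43MC.G0E12L0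
import Fermat.Agent.Pack.S43GC.G0E12L1
import Fermat.Agent.Pack.S43MC.G0E3L1
import Fermat.Agent.Pack.S43MC.G0E12L1
import Fermat.Agent.Pack.S43MC.G0E13L0
import Fermat.Agent.Pack.Fast891

-- ===== PACK-BEGIN S25/H146/SheafSep.lean
section
/-
S25 helper (helper146), assembly AS6, part 4: **SHEAF-SEP**.

`Stmt.SheafSep c ε`: isomorphism of rigidified line bundles on `C ×ₖ T` is Zariski-local on `T`.
Proof: normalise the local isomorphisms with respect to the evaluation morphisms of the two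
global rigidifications (Rigid.lean), so that they agree on overlaps, and glue (GlueSec.lean).
-/





set_option autoImplicit false

universe u

noncomputable section

open CategoryTheory CategoryTheory.Limits AlgebraicGeometry AlgebraicGeometry.RelPicard
  NeronModelInfra TopologicalSpace Opposite

namespace Fermat.Agent.S25.H146

open Fermat.Agent.S25.H626

section BaseChange

variable {k : Type u} [Field k] {C : Scheme.{u}} (c : C ⟶ Spec (CommRingCat.of k))
  {T : Scheme.{u}} (t : T ⟶ Spec (CommRingCat.of k))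

/-- The open immersion `C ×ₖ U ⟶ C ×ₖ T` for an open `U ⊆ T`. -/
abbrev openBC (U : T.Opens) : pullback c (U.ι ≫ t) ⟶ pullback c t :=
  baseChangeSnd c (⟨U.ι, rfl⟩ : SchemeHomOver (U.ι ≫ t) t)

instance isOpenImmersion_openBC (U : T.Opens) : IsOpenImmersion (openBC c t U) :=
  MorphismProperty.of_isPullback (P := @IsOpenImmersion)
    (H205.isPullback_baseChangeSnd c (⟨U.ι, rfl⟩ : SchemeHomOver (U.ι ≫ t) t)).flip
    (inferInstance : IsOpenImmersion U.ι)

theorem opensRange_congr {X Y : Scheme.{u}} {f g : Y ⟶ X} [IsOpenImmersion f]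
    [IsOpenImmersion g] (h : f = g) : f.opensRange = g.opensRange := by
  subst h
  rfl

theorem opensRange_openBC (U : T.Opens) :
    (openBC c t U).opensRange = (pullback.snd c t) ⁻¹ᵁ U := by
  have H := H205.isPullback_baseChangeSnd c (⟨U.ι, rfl⟩ : SchemeHomOver (U.ι ≫ t) t)
  have h1 : H.isoPullback.hom ≫ pullback.fst (pullback.snd c t) U.ι = openBC c t U :=
    H.isoPullback_hom_fst
  rw [opensRange_congr h1.symm, Scheme.Hom.opensRange_comp_of_isIso,
    Scheme.Hom.opensRange_pullbackFst, Scheme.Opens.opensRange_ι]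

end BaseChange

section Main

variable (k : Type u) [Field k] [IsAlgClosed k] {C : Scheme.{u}}
  (c : C ⟶ Spec (CommRingCat.of k)) [IsProper c] [IsIntegral C]
  (ε : SchemeHomOver (𝟙 (Spec (CommRingCat.of k))) c)

/-- **SHEAF-SEP** (frozen interface `Stmt.SheafSep` of `Fermat/Agent/S25/Defs.lean`):
isomorphism of rigidified line bundles is Zariski-local on the base. -/
theorem sheafSep : Stmt.SheafSep c ε := by
  intro T t ι U hU M M' hloc
  -- notation
  set σ : T ⟶ pullback c t := rigSection c t ε with hσ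
  set π : pullback c t ⟶ T := pullback.snd c t with hπ
  -- evaluation morphisms
  have hL : HasLocalGenerators M.L := hasLocalGenerators_of_isInvertible M.isInvertible
  have he : UnitOnGen (evalHom σ M.rigidified.some.hom) :=
    unitOnGen_of_isRigidification M.isInvertible (isRigidification_evalHom M.rigidified.some)
  have he' : UnitOnGen (evalHom σ M'.rigidified.some.hom) :=
    unitOnGen_of_isRigidification M'.isInvertible (isRigidification_evalHom M'.rigidified.some)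
  -- the local isomorphisms, sectionwise
  have hrange : ∀ i, π ⁻¹ᵁ (U i) ≤ (openBC c t (U i)).opensRange := fun i =>
    (opensRange_openBC c t (U i)).ge
  have hnorm : ∀ i, ∃ f : SecHom M.L M'.L (π ⁻¹ᵁ (U i)), f.IsIso ∧
      f.IsNormalized (evalHom σ M.rigidified.some.hom) (evalHom σ M'.rigidified.some.hom) := by
    intro i
    obtain ⟨φ⟩ := hloc i
    exact SecHom.exists_isNormalized hL he he' (U i)
      (H205.rigSection_preimage_snd_preimage c t ε (U i)).ge
      (H205.rigSection_preimage_snd_preimage c t ε (U i)).le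
      (H205.rigRestrict_bijective k c t ε (U i))
      (secHomOfPullbackHom (openBC c t (U i)) φ.hom _ (hrange i))
      (isIso_secHomOfPullbackIso (openBC c t (U i)) φ _ (hrange i))
  choose f hfiso hfnorm using hnorm
  -- compatibility on overlaps
  have hcompat : ∀ (i j : ι) (W : (pullback c t).Opens) (hi : W ≤ π ⁻¹ᵁ (U i))
      (hj : W ≤ π ⁻¹ᵁ (U j)) (s : Γ(M.L, W)), (f i).app W hi s = (f j).app W hj s := by
    intro i j W hi hj s
    have hle_i : π ⁻¹ᵁ (U i ⊓ U j) ≤ π ⁻¹ᵁ (U i) := π.preimage_mono inf_le_left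
    have hle_j : π ⁻¹ᵁ (U i ⊓ U j) ≤ π ⁻¹ᵁ (U j) := π.preimage_mono inf_le_right
    have key : (f i).restrict hle_i = (f j).restrict hle_j :=
      SecHom.eq_of_isNormalized hL he (U i ⊓ U j)
        (H205.rigSection_preimage_snd_preimage c t ε (U i ⊓ U j)).ge
        (fun a ha => H205.eq_one_of_rigRestrict_eq_one k c t ε (U i ⊓ U j) a ha)
        (SecHom.isIso_restrict (hfiso j) hle_j)
        (SecHom.isNormalized_restrict (hfnorm i) hle_i)
        (SecHom.isNormalized_restrict (hfnorm j) hle_j)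
    have hW : W ≤ π ⁻¹ᵁ (U i ⊓ U j) := le_inf hi hj
    exact congrArg (fun g : SecHom M.L M'.L (π ⁻¹ᵁ (U i ⊓ U j)) => g.app W hW s) key
  -- glue
  have hcover : ⨆ i, π ⁻¹ᵁ (U i) = ⊤ := by
    rw [← Scheme.Hom.preimage_iSup, hU]
    rfl
  obtain ⟨ψ, hψ⟩ := exists_hom_of_secHoms (fun i => π ⁻¹ᵁ (U i)) hcover f hcompat
  have hiso : IsIso ψ := isIso_of_secHoms (fun i => π ⁻¹ᵁ (U i)) hcover f hfiso ψ hψ
  exact ⟨asIso ψ⟩

end Main

end Fermat.Agent.S25.H146

end
end
-- ===== PACK-END S25/H146/SheafSep.lean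

-- ===== PACK-BEGIN S25/H910/UnitDegree.lean
section
/-
S25, block DEGREE, leaf D6 (helper910): the unit datum and the Riemann inequality
(statements exactly as in `H10/DegreeSkel.lean`).
-/



set_option autoImplicit false
set_option linter.style.haveILetI false
set_option linter.unusedSectionVars false

namespace Fermat.Agent.S25.H910

open TensorProduct Module Fermat.Agent.S25 Fermat.Agent.S25.H10

universe u

variable {k : Type u} [Field k] {B₀ B₁ B₀₁ : Type u} [CommRing B₀] [CommRing B₁] [CommRing B₀₁]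
  [Algebra k B₀] [Algebra k B₁] [Algebra k B₀₁] [Algebra B₀ B₀₁] [Algebra B₁ B₀₁]
  [IsScalarTower k B₀ B₀₁] [IsScalarTower k B₁ B₀₁]
  {x : B₀} {y : B₁} {e : B₁ →ₐ[k] k}

/-- An element of a domain over an algebraically closed field which is algebraic is a scalar. -/
theorem exists_algebraMap_eq_of_isAlgebraic [IsAlgClosed k] {R : Type u} [CommRing R]
    [IsDomain R] [Algebra k R] (a : R) (ha : IsAlgebraic k a) : ∃ c : k, algebraMap k R c = a := by
  have hint : IsIntegral k a := ha.isIntegral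
  have hirr := minpoly.irreducible hint
  have hdeg := IsAlgClosed.degree_eq_one_of_irreducible k hirr
  exact minpoly.degree_eq_one_iff.mp hdeg

section AbstractUnit

variable (F R₀ R₁ R₀₁ : Type u) [Field F] [CommRing R₀] [CommRing R₁]
    [CommRing R₀₁] [Algebra F R₀] [Algebra F R₁] [Algebra F R₀₁] [Algebra R₀ R₀₁]
    [Algebra R₁ R₀₁] [IsScalarTower F R₀ R₀₁] [IsScalarTower F R₁ R₀₁]

/-- The Čech differential of the unit datum, with honest types. -/
noncomputable def unitCech : (R₀ × R₁) →ₗ[F] R₀₁ :=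
  ((Algebra.linearMap R₀ R₀₁).restrictScalars F).coprod
    (-((Algebra.linearMap R₁ R₀₁).restrictScalars F))

variable {F R₀ R₁ R₀₁}

theorem unitCech_apply (a : R₀) (b : R₁) :
    unitCech F R₀ R₁ R₀₁ (a, b) = algebraMap R₀ R₀₁ a - algebraMap R₁ R₀₁ b := by
  simp [unitCech, sub_eq_add_neg]

theorem mem_ker_unitCech_iff (a : R₀) (b : R₁) :
    ((a, b) : R₀ × R₁) ∈ LinearMap.ker (unitCech F R₀ R₁ R₀₁) ↔
      algebraMap R₀ R₀₁ a = algebraMap R₁ R₀₁ b := by
  rw [LinearMap.mem_ker, unitCech_apply, sub_eq_zero]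

/-- `Ȟ⁰` of the unit datum is one-dimensional when it is finite-dimensional, `R₀` is a domain
and the base field is algebraically closed. -/
theorem finrank_ker_unitCech_eq_one [IsAlgClosed F] [IsDomain R₀]
    (hinj₁ : Function.Injective (algebraMap R₁ R₀₁))
    (hfin : Module.Finite F (LinearMap.ker (unitCech F R₀ R₁ R₀₁))) :
    Module.finrank F (LinearMap.ker (unitCech F R₀ R₁ R₀₁)) = 1 := by
  have h1mem : ((1, 1) : R₀ × R₁) ∈ LinearMap.ker (unitCech F R₀ R₁ R₀₁) := by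
    rw [mem_ker_unitCech_iff, map_one, map_one]
  have key : ∀ s : LinearMap.ker (unitCech F R₀ R₁ R₀₁),
      ∃ c : F, c • (⟨(1, 1), h1mem⟩ : LinearMap.ker (unitCech F R₀ R₁ R₀₁)) = s := by
    rintro ⟨⟨a, b⟩, hs⟩
    have hab : algebraMap R₀ R₀₁ a = algebraMap R₁ R₀₁ b := (mem_ker_unitCech_iff a b).mp hs
    let Φ : Polynomial F →ₗ[F] LinearMap.ker (unitCech F R₀ R₁ R₀₁) :=
      { toFun := fun p => ⟨((Polynomial.aeval a p, Polynomial.aeval b p) : R₀ × R₁), by
          rw [mem_ker_unitCech_iff, ← Polynomial.aeval_algebraMap_apply,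
            ← Polynomial.aeval_algebraMap_apply, hab]⟩
        map_add' := fun p q => by
          apply Subtype.ext
          show ((Polynomial.aeval a (p + q), Polynomial.aeval b (p + q)) : R₀ × R₁) =
            (Polynomial.aeval a p, Polynomial.aeval b p) +
              (Polynomial.aeval a q, Polynomial.aeval b q)
          rw [map_add, map_add, Prod.mk_add_mk]
        map_smul' := fun c p => by
          apply Subtype.ext
          show ((Polynomial.aeval a (c • p), Polynomial.aeval b (c • p)) : R₀ × R₁) =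
            c • ((Polynomial.aeval a p, Polynomial.aeval b p) : R₀ × R₁)
          rw [map_smul, map_smul, Prod.smul_mk] }
    have hΦ : ¬ Function.Injective Φ := fun hinj =>
      Polynomial.not_finite (R := F) (Module.Finite.of_injective Φ hinj)
    have hker : LinearMap.ker Φ ≠ ⊥ := fun h => hΦ (LinearMap.ker_eq_bot.mp h)
    obtain ⟨p, hp, hp0⟩ := (Submodule.ne_bot_iff _).mp hker
    have hpa : Polynomial.aeval a p = 0 := by
      have h2 : Φ p = 0 := hp
      have := congrArg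
        (fun s : LinearMap.ker (unitCech F R₀ R₁ R₀₁) => (s : R₀ × R₁).1) h2
      exact this
    obtain ⟨c, hc⟩ := exists_algebraMap_eq_of_isAlgebraic a ⟨p, hp0, hpa⟩
    refine ⟨c, Subtype.ext ?_⟩
    have hb : algebraMap F R₁ c = b := by
      apply hinj₁
      rw [← hab, ← hc, ← IsScalarTower.algebraMap_apply, ← IsScalarTower.algebraMap_apply]
    show c • ((1, 1) : R₀ × R₁) = (a, b)
    rw [Prod.smul_mk, Algebra.smul_def, Algebra.smul_def, mul_one, mul_one, hc, hb]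
  have hne : (⟨(1, 1), h1mem⟩ : LinearMap.ker (unitCech F R₀ R₁ R₀₁)) ≠ 0 := by
    intro h
    have := congrArg (fun s : LinearMap.ker (unitCech F R₀ R₁ R₀₁) => (s : R₀ × R₁).1) h
    exact one_ne_zero this
  exact finrank_eq_one _ hne key

end AbstractUnit

/-- `Ȟ⁰` of the unit datum over `k` is `k`. -/
theorem finrank_H0_unit_base [IsAlgClosed k] (hC : IsCurveChart k B₀ B₁ B₀₁ x y e) :
    Module.finrank k (GlueDatum.unit k (k ⊗[k] B₀) (k ⊗[k] B₁) (k ⊗[k] B₀₁)).H0 = 1 := by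
  haveI := hC.isDomain₀
  haveI hdom : IsDomain (k ⊗[k] B₀) :=
    MulEquiv.isDomain B₀ (Algebra.TensorProduct.lid k B₀).toRingEquiv.toMulEquiv
  have hfin : Module.Finite k
      (GlueDatum.unit k (k ⊗[k] B₀) (k ⊗[k] B₁) (k ⊗[k] B₀₁)).H0 :=
    _root_.Fermat.Agent.S25.H910.finite_H0 hC (GlueDatum.unit k (k ⊗[k] B₀) (k ⊗[k] B₁) (k ⊗[k] B₀₁))
  have hinj₁ : Function.Injective (algebraMap (k ⊗[k] B₁) (k ⊗[k] B₀₁)) :=
    H250.r1_injective hC (GlueDatum.unit k (k ⊗[k] B₀) (k ⊗[k] B₁) (k ⊗[k] B₀₁))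
  have hfin' : Module.Finite k
      (LinearMap.ker (unitCech k (k ⊗[k] B₀) (k ⊗[k] B₁) (k ⊗[k] B₀₁))) := hfin
  have key := finrank_ker_unitCech_eq_one hinj₁ hfin'
  exact key

/-- D6-a. `Ȟ⁰(unit) = K`. -/
theorem finrank_H0_unit [IsAlgClosed k] (hC : IsCurveChart k B₀ B₁ B₀₁ x y e)
    (K : Type u) [Field K] [Algebra k K] :
    Module.finrank K (GlueDatum.unit K (K ⊗[k] B₀) (K ⊗[k] B₁) (K ⊗[k] B₀₁)).H0 = 1 := by
  rw [finrank_H0_eq_of_isBC hC (Algebra.ofId k K)
    (isBC_unit (B₀ := B₀) (B₁ := B₁) (B₀₁ := B₀₁) (Algebra.ofId k K))]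
  exact finrank_H0_unit_base hC

/-- D6-b. `h¹(unit over K) = g`. -/
theorem finrank_H1_unit (hC : IsCurveChart k B₀ B₁ B₀₁ x y e)
    (K : Type u) [Field K] [Algebra k K] :
    Module.finrank K (GlueDatum.unit K (K ⊗[k] B₀) (K ⊗[k] B₁) (K ⊗[k] B₀₁)).H1 =
      genus k B₀ B₁ B₀₁ := by
  rw [finrank_H1_eq_of_isBC hC (Algebra.ofId k K)
    (isBC_unit (B₀ := B₀) (B₁ := B₁) (B₀₁ := B₀₁) (Algebra.ofId k K))]
  rfl

/-- D6-c. `χ(G) = deg G + 1 - g`. -/
theorem euler_eq_degree [IsAlgClosed k] (hC : IsCurveChart k B₀ B₁ B₀₁ x y e)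
    {K : Type u} [Field K] [Algebra k K] (G : CurveGD k B₀ B₁ B₀₁ K) :
    G.euler = G.degree + 1 - genus k B₀ B₁ B₀₁ := by
  have h0 := finrank_H0_unit hC K
  have h1 := finrank_H1_unit hC K
  rw [GlueDatum.degree]
  have hu : (GlueDatum.unit K (K ⊗[k] B₀) (K ⊗[k] B₁) (K ⊗[k] B₀₁)).euler =
      1 - genus k B₀ B₁ B₀₁ := by
    rw [GlueDatum.euler, h0, h1]
    norm_num
  rw [hu]
  ring

/-- D6-d. Riemann inequality. -/
theorem riemann_inequality [IsAlgClosed k] (hC : IsCurveChart k B₀ B₁ B₀₁ x y e)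
    {K : Type u} [Field K] [Algebra k K] (G : CurveGD k B₀ B₁ B₀₁ K) :
    G.degree + 1 - genus k B₀ B₁ B₀₁ ≤ Module.finrank K G.H0 := by
  rw [← euler_eq_degree hC G, GlueDatum.euler]
  have : (0 : ℤ) ≤ Module.finrank K G.H1 := Int.natCast_nonneg _
  linarith

end Fermat.Agent.S25.H910

end
-- ===== PACK-END S25/H910/UnitDegree.lean

-- ===== PACK-BEGIN S22/H262/FG.lean
section


set_option autoImplicit false

/-!
# The period lattice is finitely generated
-/

open Complex Filter Function Metric Set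
open UpperHalfPlane hiding I
open scoped Real Topology Manifold ModularForm MatrixGroups

namespace Fermat.Agent.S22.H262

open Matrix.SpecialLinearGroup CuspForm

variable {N : ℕ} [NeZero N] {n : ℕ}

/-- An element of `SL₂(ℤ)` as an element of the submonoid `posInt`. -/
noncomputable def sl (g : SL(2, ℤ)) : posInt := ⟨mapGL ℝ g, mapGL_mem_posInt g⟩

@[simp] theorem coe_sl (g : SL(2, ℤ)) : ((sl g : posInt) : GL (Fin 2) ℝ) = mapGL ℝ g := rfl

theorem sl_mul (g h : SL(2, ℤ)) : sl (g * h) = sl g * sl h :=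
  Subtype.ext (by simp)

theorem sl_one : sl 1 = 1 := Subtype.ext (by simp)

/-- The functional `f ↦ (tower (f|B) r)(i)`. -/
noncomputable def mu (N : ℕ) [NeZero N] (n : ℕ) (B : posInt) (r : ℕ) :
    Module.Dual ℂ (CuspForm (CongruenceSubgroup.Gamma0 N) ((n : ℤ) + 2)) where
  toFun f := tower (⇑f ∣[(n : ℤ) + 2] (B : GL (Fin 2) ℝ)) r UpperHalfPlane.I
  map_add' f g := by
    rw [FunLike.coe_add, SlashAction.add_slash,
      tower_add (hasTower_slash_posInt f B.2) (hasTower_slash_posInt g B.2)]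
    rfl
  map_smul' c f := by
    rw [FunLike.coe_smul, smul_slash_pos _ B.2.2, tower_smul (hasTower_slash_posInt f B.2)]
    rfl

theorem mu_apply (B : posInt) (r : ℕ)
    (f : CuspForm (CongruenceSubgroup.Gamma0 N) ((n : ℤ) + 2)) :
    mu N n B r f = tower (⇑f ∣[(n : ℤ) + 2] (B : GL (Fin 2) ℝ)) r UpperHalfPlane.I := rfl

theorem mu_sl_mul_of_mem {γ : SL(2, ℤ)} (hγ : γ ∈ CongruenceSubgroup.Gamma0 N) (g : SL(2, ℤ))
    (r : ℕ) : mu N n (sl (γ * g)) r = mu N n (sl g) r := by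
  ext f
  rw [mu_apply, mu_apply, coe_sl, coe_sl, map_mul, SlashAction.slash_mul]
  have h2 : ⇑f ∣[(n : ℤ) + 2] (mapGL ℝ γ) = ⇑f :=
    SlashInvariantFormClass.slash_action_eq f _ ⟨γ, hγ, rfl⟩
  rw [h2]

theorem finite_range_mu (r : ℕ) :
    (Set.range fun g : SL(2, ℤ) => mu N n (sl g) r).Finite := by
  let Ψ : SL(2, ℤ) ⧸ CongruenceSubgroup.Gamma0 N →
      Module.Dual ℂ (CuspForm (CongruenceSubgroup.Gamma0 N) ((n : ℤ) + 2)) :=
    fun q => Quotient.liftOn' q (fun g => mu N n (sl g⁻¹) r) (by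
      intro a b hab
      rw [QuotientGroup.leftRel_apply] at hab
      have : a⁻¹ = (a⁻¹ * b) * b⁻¹ := by group
      show mu N n (sl a⁻¹) r = mu N n (sl b⁻¹) r
      rw [this, mu_sl_mul_of_mem hab])
  refine (Set.finite_range Ψ).subset ?_
  rintro _ ⟨g, rfl⟩
  refine ⟨QuotientGroup.mk g⁻¹, ?_⟩
  show mu N n (sl g⁻¹⁻¹) r = _
  rw [inv_inv]

/-- The finite generating set of the container lattice. -/
def muSet (N : ℕ) [NeZero N] (n : ℕ) :
    Set (Module.Dual ℂ (CuspForm (CongruenceSubgroup.Gamma0 N) ((n : ℤ) + 2))) :=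
  ⋃ r ∈ Finset.range (n + 2),
    ((Set.range fun g : SL(2, ℤ) => mu N n (sl g) r) ∪
      (fun l => Complex.I • l) '' (Set.range fun g : SL(2, ℤ) => mu N n (sl g) r))

theorem muSet_finite : (muSet N n).Finite := by
  unfold muSet
  refine Set.Finite.biUnion (Finset.finite_toSet _) fun r _ => ?_
  exact (finite_range_mu r).union ((finite_range_mu r).image _)

/-- The container lattice. -/
noncomputable def container (N : ℕ) [NeZero N] (n : ℕ) :
    Submodule ℤ (Module.Dual ℂ (CuspForm (CongruenceSubgroup.Gamma0 N) ((n : ℤ) + 2))) :=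
  Submodule.span ℤ (muSet N n)

theorem container_fg : (container N n).FG := Submodule.fg_span muSet_finite

theorem mu_mem_container (g : SL(2, ℤ)) {r : ℕ} (hr : r < n + 2) :
    mu N n (sl g) r ∈ container N n := by
  apply Submodule.subset_span
  simp only [muSet, Set.mem_iUnion]
  exact ⟨r, Finset.mem_range.mpr hr, Or.inl ⟨g, rfl⟩⟩

theorem I_smul_mu_mem_container (g : SL(2, ℤ)) {r : ℕ} (hr : r < n + 2) :
    Complex.I • mu N n (sl g) r ∈ container N n := by
  apply Submodule.subset_span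
  simp only [muSet, Set.mem_iUnion]
  exact ⟨r, Finset.mem_range.mpr hr, Or.inr ⟨_, ⟨g, rfl⟩, rfl⟩⟩

/-- Gaussian integers inside `ℂ`. -/
def IsGauss (z : ℂ) : Prop := ∃ a b : ℤ, z = a + b * Complex.I

theorem IsGauss.mul {z w : ℂ} (hz : IsGauss z) (hw : IsGauss w) : IsGauss (z * w) := by
  obtain ⟨a, b, rfl⟩ := hz
  obtain ⟨c, d, rfl⟩ := hw
  refine ⟨a * c - b * d, a * d + b * c, ?_⟩
  push_cast
  linear_combination (b : ℂ) * d * Complex.I_sq

theorem isGauss_one : IsGauss 1 := ⟨1, 0, by simp⟩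

theorem IsGauss.pow {z : ℂ} (hz : IsGauss z) (m : ℕ) : IsGauss (z ^ m) := by
  induction m with
  | zero => simpa using isGauss_one
  | succ m ih => rw [pow_succ]; exact ih.mul hz

theorem isGauss_int (x : ℤ) : IsGauss x := ⟨x, 0, by simp⟩

theorem isGauss_nat (x : ℕ) : IsGauss x := ⟨x, 0, by simp⟩

theorem isGauss_sub_I_mul (x y : ℤ) : IsGauss ((x : ℂ) - Complex.I * y) :=
  ⟨x, -y, by push_cast; ring⟩

/-- `bigG n E i v` for an integer vector `v` is a Gaussian-integer combination of the tower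
values at `i`, with coefficients independent of the tower. -/
theorem bigG_I_eq (n : ℕ) {v : ℂ × ℂ} (hv : v ∈ Vint) :
    ∃ a b : ℕ → ℤ, ∀ E : ℕ → ℍ → ℂ, bigG n E UpperHalfPlane.I v =
      ∑ j ∈ Finset.range (n + 1), ((a j : ℂ) * E (j + 1) UpperHalfPlane.I +
        (b j : ℂ) * (Complex.I * E (j + 1) UpperHalfPlane.I)) := by
  obtain ⟨x, y, rfl⟩ := hv
  have key : ∀ j : ℕ, IsGauss ((n.descFactorial j : ℂ) *
      (((x : ℂ) - Complex.I * y) ^ (n - j) * (y : ℂ) ^ j)) := fun j =>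
    (isGauss_nat _).mul (((isGauss_sub_I_mul x y).pow _).mul ((isGauss_int y).pow _))
  choose a b hab using key
  refine ⟨a, b, fun E => ?_⟩
  unfold bigG
  refine Finset.sum_congr rfl fun j _ => ?_
  have := hab j
  simp only [UpperHalfPlane.coe_I] at *
  linear_combination E (j + 1) UpperHalfPlane.I * this

/-- The functional `f ↦ bigG n (tower (f|g)) i v` lies in the container lattice. -/
theorem exists_mem_container_bigG (g : SL(2, ℤ)) {v : ℂ × ℂ} (hv : v ∈ Vint) :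
    ∃ l ∈ container N n, ∀ f : CuspForm (CongruenceSubgroup.Gamma0 N) ((n : ℤ) + 2),
      l f = bigG n (tower (⇑f ∣[(n : ℤ) + 2] (mapGL ℝ g))) UpperHalfPlane.I v := by
  obtain ⟨a, b, hab⟩ := bigG_I_eq n hv
  refine ⟨∑ j ∈ Finset.range (n + 1),
    (a j • mu N n (sl g) (j + 1) + b j • (Complex.I • mu N n (sl g) (j + 1))), ?_, fun f => ?_⟩
  · refine Submodule.sum_mem _ fun j hj => ?_
    have hj' : j + 1 < n + 2 := by
      have := Finset.mem_range.mp hj
      omega
    exact Submodule.add_mem _ (Submodule.smul_mem _ _ (mu_mem_container g hj'))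
      (Submodule.smul_mem _ _ (I_smul_mu_mem_container g hj'))
  · rw [hab]
    simp only [LinearMap.sum_apply, LinearMap.add_apply, LinearMap.smul_apply, mu_apply, coe_sl,
      smul_eq_mul, zsmul_eq_mul]

theorem mapGL_apply_entry (g : SL(2, ℤ)) (i j : Fin 2) :
    (mapGL ℝ g : GL (Fin 2) ℝ) i j = ((g.1 i j : ℤ) : ℝ) := by
  simp

theorem mapGL_S_smul_I : (mapGL ℝ ModularGroup.S : GL (Fin 2) ℝ) • UpperHalfPlane.I =
    UpperHalfPlane.I := by
  apply UpperHalfPlane.ext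
  rw [coe_smul_of_det_pos (mapGL_mem_posInt _).2]
  have h00 : (mapGL ℝ ModularGroup.S : GL (Fin 2) ℝ) 0 0 = 0 := by
    rw [mapGL_apply_entry, ModularGroup.coe_S]; simp
  have h01 : (mapGL ℝ ModularGroup.S : GL (Fin 2) ℝ) 0 1 = -1 := by
    rw [mapGL_apply_entry, ModularGroup.coe_S]; simp
  have h10 : (mapGL ℝ ModularGroup.S : GL (Fin 2) ℝ) 1 0 = 1 := by
    rw [mapGL_apply_entry, ModularGroup.coe_S]; simp
  have h11 : (mapGL ℝ ModularGroup.S : GL (Fin 2) ℝ) 1 1 = 0 := by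
    rw [mapGL_apply_entry, ModularGroup.coe_S]; simp
  simp only [num, denom, h00, h01, h10, h11, UpperHalfPlane.coe_I]
  push_cast
  rw [zero_mul, zero_add, one_mul, add_zero, neg_div, one_div, Complex.inv_I, neg_neg]

theorem mapGL_T_one_zero : (mapGL ℝ ModularGroup.T : GL (Fin 2) ℝ) 1 0 = 0 := by
  rw [mapGL_apply_entry, ModularGroup.coe_T]; simp

/-- Slashing by a product in `SL₂(ℤ)`. -/
theorem slash_sl_mul (h : ℍ → ℂ) (k : ℤ) (x y : SL(2, ℤ)) :
    h ∣[k] (mapGL ℝ (x * y) : GL (Fin 2) ℝ) =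
      (h ∣[k] (mapGL ℝ x : GL (Fin 2) ℝ)) ∣[k] (mapGL ℝ y : GL (Fin 2) ℝ) := by
  rw [map_mul, SlashAction.slash_mul]

theorem lamG_sl_mem_container (g : SL(2, ℤ)) :
    ∀ (g₀ : SL(2, ℤ)) (w : ℂ × ℂ), w ∈ Vint → lamG N n (sl g₀) (sl g) w ∈ container N n := by
  have hg : g ∈ Subgroup.closure ({ModularGroup.S, ModularGroup.T} : Set SL(2, ℤ)) := by
    rw [SpecialLinearGroup.SL2Z_generators]
    exact Subgroup.mem_top g
  induction hg using Subgroup.closure_induction with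
  | mem x hx =>
    intro g₀ w hw
    rcases hx with rfl | rfl
    · -- `S`
      obtain ⟨l₁, hl₁, h₁⟩ := exists_mem_container_bigG (N := N) (n := n) g₀
        (actV_mem_Vint (mapGL_mem_posInt ModularGroup.S) hw)
      obtain ⟨l₂, hl₂, h₂⟩ := exists_mem_container_bigG (N := N) (n := n)
        (g₀ * ModularGroup.S) hw
      have : lamG N n (sl g₀) (sl ModularGroup.S) w = l₁ - l₂ := by
        ext f
        rw [lamG_apply, LinearMap.sub_apply, h₁, h₂, cocyc, coe_sl, coe_sl, mapGL_S_smul_I,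
          slash_sl_mul]
      rw [this]
      exact Submodule.sub_mem _ hl₁ hl₂
    · -- `T`
      have : lamG N n (sl g₀) (sl ModularGroup.T) w = 0 := by
        ext f
        rw [lamG_apply, LinearMap.zero_apply]
        exact cocyc_upper n (hasTower_slash_posInt f (sl g₀).2) _
          (mapGL_mem_posInt ModularGroup.T).2 mapGL_T_one_zero w
      rw [this]
      exact Submodule.zero_mem _
  | one =>
    intro g₀ w _
    have : lamG N n (sl g₀) (sl 1) w = 0 := by
      ext f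
      rw [lamG_apply, LinearMap.zero_apply]
      exact cocyc_upper n (hasTower_slash_posInt f (sl g₀).2) _
        (mapGL_mem_posInt 1).2 (by simp) w
    rw [this]
    exact Submodule.zero_mem _
  | mul x y _ _ hx hy =>
    intro g₀ w hw
    have : lamG N n (sl g₀) (sl (x * y)) w =
        lamG N n (sl g₀) (sl x) (actV (mapGL ℝ y) w) + lamG N n (sl (g₀ * x)) (sl y) w := by
      ext f
      rw [LinearMap.add_apply, lamG_apply, lamG_apply, lamG_apply, coe_sl, coe_sl, coe_sl,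
        coe_sl, coe_sl, map_mul, cocyc_mul n _ _ (mapGL_mem_posInt x).2 (mapGL_mem_posInt y).2
          (hasTower_slash_posInt f (mapGL_mem_posInt g₀))
          (hasTower_slash_slash f (mapGL_mem_posInt g₀) (mapGL_mem_posInt x))
          (hasTower_slash_slash f (mapGL_mem_posInt g₀)
            (mul_mem (mapGL_mem_posInt x) (mapGL_mem_posInt y))),
        map_mul, SlashAction.slash_mul]
    rw [this]
    exact Submodule.add_mem _ (hx g₀ _ (actV_mem_Vint (mapGL_mem_posInt y) hw))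
      (hy (g₀ * x) w hw)
  | inv x _ hx =>
    intro g₀ w hw
    have : lamG N n (sl g₀) (sl x⁻¹) w =
        - lamG N n (sl (g₀ * x⁻¹)) (sl x) (actV (mapGL ℝ x⁻¹) w) := by
      ext f
      rw [LinearMap.neg_apply, lamG_apply, lamG_apply, coe_sl, coe_sl, coe_sl, coe_sl]
      have hmul := cocyc_mul n (h := ⇑f ∣[(n : ℤ) + 2] (mapGL ℝ (g₀ * x⁻¹) : GL (Fin 2) ℝ))
        (mapGL ℝ x) (mapGL ℝ x⁻¹) (mapGL_mem_posInt x).2 (mapGL_mem_posInt x⁻¹).2
        (hasTower_slash_posInt f (mapGL_mem_posInt _))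
        (hasTower_slash_slash f (mapGL_mem_posInt _) (mapGL_mem_posInt x))
        (hasTower_slash_slash f (mapGL_mem_posInt _)
            (mul_mem (mapGL_mem_posInt x) (mapGL_mem_posInt x⁻¹))) w
      have h1 : (mapGL ℝ x : GL (Fin 2) ℝ) * mapGL ℝ x⁻¹ = 1 := by
        rw [← map_mul, mul_inv_cancel, map_one]
      have h2 : (⇑f ∣[(n : ℤ) + 2] (mapGL ℝ (g₀ * x⁻¹) : GL (Fin 2) ℝ)) ∣[(n : ℤ) + 2]
          (mapGL ℝ x : GL (Fin 2) ℝ) = ⇑f ∣[(n : ℤ) + 2] (mapGL ℝ g₀ : GL (Fin 2) ℝ) := by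
        rw [← slash_sl_mul, inv_mul_cancel_right]
      rw [h1, h2, cocyc_upper n (hasTower_slash_posInt f (mapGL_mem_posInt _)) 1
        (by simp) (by simp)] at hmul
      linear_combination -hmul
    rw [this]
    exact Submodule.neg_mem _ (hx (g₀ * x⁻¹) _ (actV_mem_Vint (mapGL_mem_posInt x⁻¹) hw))

theorem lam_mem_container (A : posInt) {v : ℂ × ℂ} (hv : v ∈ Vint) :
    lam N n A v ∈ container N n := by
  obtain ⟨g, δ, hδ, h10, hA⟩ := exists_mapGL_mul_upper A.2
  have : lam N n A v = lamG N n (sl 1) (sl g) (actV δ v) := by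
    ext f
    rw [lam_apply, lamG_apply, coe_sl, coe_sl, map_one, SlashAction.slash_one, hA,
      cocyc_mul n _ _ (mapGL_mem_posInt g).2 hδ.2 (hasTower_cuspForm f)
        (hasTower_slash_posInt f (mapGL_mem_posInt g))
        (hasTower_slash_posInt f (mul_mem (mapGL_mem_posInt g) hδ)),
      cocyc_upper n (hasTower_slash_posInt f (mapGL_mem_posInt g)) δ hδ.2 h10, add_zero]
  rw [this]
  exact lamG_sl_mem_container g 1 _ (actV_mem_Vint hδ hv)

theorem periodLattice_le_container : periodLattice N n ≤ container N n := by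
  apply Submodule.span_le.mpr
  rintro _ ⟨A, v, hv, rfl⟩
  exact lam_mem_container A hv

/-- The period lattice is finitely generated. -/
theorem periodLattice_fg : (periodLattice N n).FG := by
  have : IsNoetherian ℤ (container N n) := isNoetherian_of_fg_of_noetherian _ container_fg
  exact Submodule.FG.of_le_of_isNoetherian periodLattice_le_container

end Fermat.Agent.S22.H262

end
-- ===== PACK-END S22/H262/FG.lean

-- ===== PACK-BEGIN S31/H862/Unfold.lean
section



/-!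
# S31 / SS (helper862) — the Petersson pairing and the double unfolding identities
-/

set_option autoImplicit false

open UpperHalfPlane CongruenceSubgroup MeasureTheory Matrix.SpecialLinearGroup
open scoped MatrixGroups ENNReal NNReal ModularForm ComplexConjugate

namespace Fermat.Agent.S31.H862

/-- The Petersson pairing (weight 2, level `Γ₀(N)`), on functions. -/
noncomputable def pet (N : ℕ) (f g : ℍ → ℂ) : ℂ := pint (wt N) f g

/-- The doubly weighted kernel. -/
noncomputable def kern (N : ℕ) (f g : ℍ → ℂ) (δ : GL (Fin 2) ℝ) : ℂ :=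
  pint (fun z => wt N z * wt N (δ • z)) f (g ∣[(2 : ℤ)] δ)

theorem countable_SL2Z : Countable SL(2, ℤ) := by
  have : Countable (Matrix (Fin 2) (Fin 2) ℤ) := by unfold Matrix; infer_instance
  unfold Matrix.SpecialLinearGroup; infer_instance

theorem countable_Gamma0 (N : ℕ) : Countable (Gamma0 N) := by
  have := countable_SL2Z
  infer_instance

section

variable (N : ℕ) [NeZero N]

theorem integrable_wt_mul (δ : GL (Fin 2) ℝ) :
    Integrable (fun z : ℍ => wt N z * wt N (δ • z)) volume := by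
  have hc : Continuous fun z : ℍ => wt N (δ • z) :=
    (continuous_wt N).comp (continuous_const_smul δ)
  refine (integrable_wt N).mul_bdd (c := 1) hc.aestronglyMeasurable
    (Filter.Eventually.of_forall fun z => ?_)
  rw [Real.norm_of_nonneg (wt_nonneg N _)]
  exact wt_le_one N _

theorem petersson_add_right (f g₁ g₂ : ℍ → ℂ) (z : ℍ) :
    petersson 2 f (g₁ + g₂) z = petersson 2 f g₁ z + petersson 2 f g₂ z := by
  simp only [petersson, Pi.add_apply]
  ring

theorem petersson_sum_right {ι : Type*} (s : Finset ι) (f : ℍ → ℂ) (g : ι → ℍ → ℂ) (z : ℍ) :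
    petersson 2 f (∑ i ∈ s, g i) z = ∑ i ∈ s, petersson 2 f (g i) z := by
  simp only [petersson, Finset.sum_apply, Finset.mul_sum, Finset.sum_mul]

theorem pint_sum_right {w : ℍ → ℝ} (hw : Integrable w volume) {ι : Type*} (s : Finset ι)
    {f : ℍ → ℂ} {g : ι → ℍ → ℂ} (hf : Nice f) (hg : ∀ i ∈ s, Nice (g i)) :
    pint w f (∑ i ∈ s, g i) = ∑ i ∈ s, pint w f (g i) := by
  unfold pint
  rw [← integral_finset_sum s fun i hi => integrable_pint hw hf (hg i hi)]
  refine integral_congr_ae (Filter.Eventually.of_forall fun z => ?_)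
  simp only [petersson_sum_right, Finset.sum_mul]

theorem pint_conj (w : ℍ → ℝ) (f g : ℍ → ℂ) : conj (pint w f g) = pint w g f := by
  unfold pint
  rw [← integral_conj]
  refine integral_congr_ae (Filter.Eventually.of_forall fun z => ?_)
  simp only [map_mul, Complex.conj_ofReal]
  rw [← petersson_symm]

theorem pet_conj (f g : ℍ → ℂ) : conj (pet N f g) = pet N g f := pint_conj _ f g

/-- **Unfolding.**  For `g` invariant under `Γ₀(N)`. -/
theorem hasSum_kern {f g : ℍ → ℂ} (hf : Nice f) (hg : Nice g)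
    (hinv : ∀ γ : Gamma0 N, g ∣[(2 : ℤ)] (mapGL ℝ (γ : SL(2, ℤ))) = g) (δ : GL (Fin 2) ℝ) :
    HasSum (fun γ : Gamma0 N => kern N f g (mapGL ℝ (γ : SL(2, ℤ)) * δ))
      (pet N f (g ∣[(2 : ℤ)] δ)) := by
  haveI := countable_Gamma0 N
  obtain ⟨C, hC⟩ := hf.bdd
  obtain ⟨D, hD⟩ := (hg.slash δ).bdd
  have hslash : ∀ γ : Gamma0 N, g ∣[(2 : ℤ)] (mapGL ℝ (γ : SL(2, ℤ)) * δ) = g ∣[(2 : ℤ)] δ := by
    intro γ
    rw [SlashAction.slash_mul, hinv]
  have hcont : Continuous (petersson 2 f (g ∣[(2 : ℤ)] δ)) :=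
    petersson_continuous 2 hf.cont (hg.slash δ).cont
  have hsmul : ∀ (γ : Gamma0 N) (z : ℍ),
      (mapGL ℝ (γ : SL(2, ℤ)) * δ) • z = (γ : SL(2, ℤ)) • (δ • z) := by
    intro γ z
    rw [mul_smul]
    rfl
  unfold kern pet pint
  simp only [hslash]
  refine hasSum_integral_of_dominated_convergence
    (fun (γ : Gamma0 N) (z : ℍ) => C * D * (wt N z * wt N ((mapGL ℝ (γ : SL(2, ℤ)) * δ) • z)))
    (fun γ => ?_) (fun γ => Filter.Eventually.of_forall fun z => ?_)
    (Filter.Eventually.of_forall fun z => ?_) ?_ (Filter.Eventually.of_forall fun z => ?_)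
  · exact (integrable_pint (integrable_wt_mul N _) hf (hg.slash δ)).aestronglyMeasurable
  · rw [norm_mul, norm_petersson_eq, Complex.norm_real,
      Real.norm_of_nonneg (mul_nonneg (wt_nonneg N _) (wt_nonneg N _))]
    exact mul_le_mul_of_nonneg_right
      (mul_le_mul (hC z) (hD z) (nrm_nonneg _ _) ((nrm_nonneg f z).trans (hC z)))
      (mul_nonneg (wt_nonneg N _) (wt_nonneg N _))
  · simp only [hsmul]
    exact (((hasSum_wt N (δ • z)).mul_left (wt N z)).mul_left (C * D)).summable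
  · have h : (fun z : ℍ => ∑' γ : Gamma0 N,
        C * D * (wt N z * wt N ((mapGL ℝ (γ : SL(2, ℤ)) * δ) • z))) =
        fun z : ℍ => C * D * wt N z := by
      funext z
      simp only [hsmul]
      rw [(((hasSum_wt N (δ • z)).mul_left (wt N z)).mul_left (C * D)).tsum_eq, mul_one]
    rw [h]
    exact (integrable_wt N).const_mul _
  · simp only [hsmul]
    have h := ((hasSum_wt N (δ • z)).mul_left (wt N z))
    rw [mul_one] at h
    have h2 := (Complex.hasSum_ofReal.mpr h).mul_left (petersson 2 f (g ∣[(2 : ℤ)] δ) z)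
    simpa using h2

/-- **Key symmetry.** -/
theorem conj_kern {f g : ℍ → ℂ} (δ δ' : GL (Fin 2) ℝ) (hdet : 0 < δ.det.val)
    (h1 : ∀ z : ℍ, δ' • (δ • z) = z) (h2 : (g ∣[(2 : ℤ)] δ') ∣[(2 : ℤ)] δ = g) :
    conj (kern N g f δ) = kern N f g δ' := by
  unfold kern
  rw [pint_conj]
  unfold pint
  have hσ : σ δ = ContinuousAlgEquiv.refl ℝ ℂ := by
    rw [σ, if_pos hdet]
  have hp : ∀ z : ℍ, petersson 2 (f ∣[(2 : ℤ)] δ) g z =
      petersson 2 f (g ∣[(2 : ℤ)] δ') (δ • z) := by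
    intro z
    conv_lhs => rw [← h2]
    rw [petersson_slash, hσ]
    simp
  have hE : ∀ z : ℍ, petersson 2 (f ∣[(2 : ℤ)] δ) g z * ((wt N z * wt N (δ • z) : ℝ) : ℂ) =
      (fun u : ℍ => petersson 2 f (g ∣[(2 : ℤ)] δ') u * ((wt N u * wt N (δ' • u) : ℝ) : ℂ))
        (δ • z) := by
    intro z
    simp only [hp, h1]
    rw [mul_comm (wt N z)]
  simp only [hE]
  exact integral_smul_eq_self
    (fun u : ℍ => petersson 2 f (g ∣[(2 : ℤ)] δ') u * ((wt N u * wt N (δ' • u) : ℝ) : ℂ)) 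

end

end Fermat.Agent.S31.H862

end
-- ===== PACK-END S31/H862/Unfold.lean

-- ===== PACK-BEGIN S31/H622/Alg.lean
section


/-!
# Row S31, piece SS (helper622) — from self-adjointness of `T_ℓ` to reducedness

If every `T_ℓ` (`ℓ ∤ N`) is symmetric for the Petersson product, the Hecke algebra away from a set
`S` containing the primes of `N` is reduced.
-/

set_option autoImplicit false
set_option linter.unusedSectionVars false

open UpperHalfPlane CongruenceSubgroup MeasureTheory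
open scoped MatrixGroups ModularForm ComplexConjugate

namespace Fermat.Agent.S31.H622

variable (N : ℕ) [NeZero N]

/-- Symmetric operators for the Petersson product. -/
def IsPetSymm (X : Module.End ℂ (CuspForm (Gamma0 N) 2)) : Prop :=
  ∀ f g, petC N (X f) g = petC N f (X g)

theorem petC_zero_right (f : CuspForm (Gamma0 N) 2) : petC N f 0 = 0 := by
  have h := petC_smul_right N 0 f 0
  rwa [zero_smul, zero_mul] at h

theorem isPetSymm_add {X Y : Module.End ℂ (CuspForm (Gamma0 N) 2)} (hX : IsPetSymm N X)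
    (hY : IsPetSymm N Y) : IsPetSymm N (X + Y) := by
  intro f g
  rw [LinearMap.add_apply, LinearMap.add_apply, petC_add_left, petC_add_right, hX f g, hY f g]

theorem isPetSymm_algebraMap (n : ℤ) :
    IsPetSymm N (algebraMap ℤ (Module.End ℂ (CuspForm (Gamma0 N) 2)) n) := by
  intro f g
  have h : ∀ f : CuspForm (Gamma0 N) 2,
      (algebraMap ℤ (Module.End ℂ (CuspForm (Gamma0 N) 2)) n) f = (n : ℂ) • f := by
    intro f
    rw [Algebra.algebraMap_eq_smul_one, LinearMap.smul_apply, Module.End.one_apply,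
      Int.cast_smul_eq_zsmul]
  rw [h, h, petC_smul_left, petC_smul_right, map_intCast]

theorem isPetSymm_mul_of_commute {X Y : Module.End ℂ (CuspForm (Gamma0 N) 2)} (hX : IsPetSymm N X)
    (hY : IsPetSymm N Y) (hc : X * Y = Y * X) : IsPetSymm N (X * Y) := by
  intro f g
  calc petC N ((X * Y) f) g = petC N (X (Y f)) g := rfl
    _ = petC N (Y f) (X g) := hX _ _
    _ = petC N f (Y (X g)) := hY _ _
    _ = petC N f ((Y * X) g) := rfl
    _ = petC N f ((X * Y) g) := by rw [hc]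

theorem isPetSymm_of_mem_heckeAlgebra (S : Set ℕ)
    (hNS : ∀ q : ℕ, q.Prime → q ∣ N → q ∈ S)
    (hsa : ∀ (ℓ : ℕ) (hℓ : ℓ.Prime) (hℓN : ¬ ℓ ∣ N), IsPetSymm N (CuspForm.heckeTLin 2 hℓ hℓN))
    {X : Module.End ℂ (CuspForm (Gamma0 N) 2)} (hX : X ∈ CuspForm.heckeAlgebra N 2 S) :
    IsPetSymm N X := by
  unfold CuspForm.heckeAlgebra at hX
  induction hX using Algebra.adjoin_induction with
  | mem x hx =>
    rcases hx with ⟨ℓ, hℓ, hℓN, -, rfl⟩ | ⟨q, hqN, hq, hqS, rfl⟩
    · exact hsa ℓ hℓ hℓN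
    · exact absurd (hNS q hq hqN) hqS
  | algebraMap n => exact isPetSymm_algebraMap N n
  | add x y hx hy ihx ihy => exact isPetSymm_add N ihx ihy
  | mul x y hx hy ihx ihy =>
    refine isPetSymm_mul_of_commute N ihx ihy ?_
    have h := mul_comm (⟨x, hx⟩ : CuspForm.heckeAlgebra N 2 S) ⟨y, hy⟩
    exact congrArg Subtype.val h

theorem isReduced_of_selfAdjoint (S : Set ℕ)
    (hNS : ∀ q : ℕ, q.Prime → q ∣ N → q ∈ S)
    (hsa : ∀ (ℓ : ℕ) (hℓ : ℓ.Prime) (hℓN : ¬ ℓ ∣ N), IsPetSymm N (CuspForm.heckeTLin 2 hℓ hℓN)) :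
    IsReduced (CuspForm.heckeAlgebra N 2 S) := by
  rw [isReduced_iff_pow_one_lt 2 one_lt_two]
  intro X hX
  have hsym := isPetSymm_of_mem_heckeAlgebra N S hNS hsa X.2
  have h2 : (X : Module.End ℂ (CuspForm (Gamma0 N) 2)) * X = 0 := by
    have := congrArg Subtype.val hX
    rwa [pow_two] at this
  apply Subtype.ext
  apply LinearMap.ext
  intro f
  apply eq_zero_of_petC_self_eq_zero N
  rw [hsym, ← Module.End.mul_apply, h2, LinearMap.zero_apply, petC_zero_right]

end Fermat.Agent.S31.H622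

end
-- ===== PACK-END S31/H622/Alg.lean

-- ===== PACK-BEGIN S36/H193/ClopenGraph.lean
section


/-!
# S36 engine, leaf CLOPEN (helper193), part 2: the dual graph of the special fibre is connected

Setting of `Clopen.lean`.  In addition the sheets are pairwise *separated*:

  `Sep 𝒲` : for distinct sheets `W ≠ W'` there is `c`, integral on all sheets, vanishing on `W'`
            and not on `W`

(true as soon as the centres of the sheets on one chart are pairwise incomparable, e.g. distinct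
height-one primes).

* `exists_sep_idem` (weak approximation): every subset of the sheets is cut out by an element of
  `F` which is `≡ 1` on it and `≡ 0` on the other sheets.
* **`clopen_sheets`**: a property of sheets which propagates along sheets meeting at a closed
  point of one of the two charts holds for all sheets or for none: *the graph "sheets, joined
  when they pass through a common closed point of the special fibre" is connected*.
* **`clopen_label`**: a labelling of the sheets (values in any type) which agrees on sheets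
  through a common closed point is constant.
* `clopen_const`: the same for labels `lab W ∈ F` which are the residues of one element `G`
  (`G ≡ lab W` on `W`); no separation hypothesis is needed, only that distinct labels stay
  distinct on every sheet.
-/

set_option autoImplicit false
set_option linter.style.haveILetI false

namespace Fermat.Agent.S36.H193

open Fermat.Agent.S18.H138

variable {R : Type*} [CommRing R] {F : Type*} [Field F] [Algebra R F]

/-- The sheets are pairwise separated by everywhere integral elements. -/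
def Sep (𝒲 : Set (ValuationSubring F)) : Prop :=
  ∀ W ∈ 𝒲, ∀ W' ∈ 𝒲, W ≠ W' →
    ∃ c : F, (∀ V ∈ 𝒲, c ∈ V) ∧ c ∈ W'.nonunits ∧ c ∉ W.nonunits

section Approx

theorem nu_unit_mul (W : ValuationSubring F) {a b : F} (ha : a ∈ W) (hb : b ∈ W)
    (ha' : a ∉ W.nonunits) (hb' : b ∉ W.nonunits) : a * b ∉ W.nonunits := by
  rw [ValuationSubring.mem_nonunits_iff, not_lt] at *
  have h1 : W.valuation a = 1 := le_antisymm ((W.valuation_le_one_iff a).2 ha) ha'
  have h2 : W.valuation b = 1 := le_antisymm ((W.valuation_le_one_iff b).2 hb) hb'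
  rw [map_mul, h1, h2, one_mul]

theorem nu_unit_inv (W : ValuationSubring F) {a : F} (ha : a ∈ W) (ha' : a ∉ W.nonunits) :
    a⁻¹ ∈ W := by
  rw [ValuationSubring.mem_nonunits_iff, not_lt] at ha'
  have h1 : W.valuation a = 1 := le_antisymm ((W.valuation_le_one_iff a).2 ha) ha'
  rw [← W.valuation_le_one_iff, map_inv₀, h1, inv_one]

theorem nu_sum (W : ValuationSubring F) {ι : Type*} (s : Finset ι) (f : ι → F)
    (h : ∀ i ∈ s, f i ∈ W.nonunits) : ∑ i ∈ s, f i ∈ W.nonunits := by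
  classical
  induction s using Finset.induction_on with
  | empty => simp
  | insert a s ha ih =>
    rw [Finset.sum_insert ha]
    exact nu_add W (h a (Finset.mem_insert_self a s))
      (ih fun i hi => h i (Finset.mem_insert_of_mem hi))

/-- An everywhere integral element vanishing on the sheets of `𝒮` and not on `W ∉ 𝒮`. -/
theorem exists_sep_elt {𝒲 : Set (ValuationSubring F)} (hsep : Sep 𝒲)
    (W : ValuationSubring F) (hW : W ∈ 𝒲) (𝒮 : Finset (ValuationSubring F))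
    (h𝒮 : ∀ V ∈ 𝒮, V ∈ 𝒲 ∧ V ≠ W) :
    ∃ c : F, (∀ V ∈ 𝒲, c ∈ V) ∧ c ∉ W.nonunits ∧ ∀ V ∈ 𝒮, c ∈ V.nonunits := by
  classical
  induction 𝒮 using Finset.induction_on with
  | empty => exact ⟨1, fun V _ => V.one_mem, nu_one_not W, by simp⟩
  | insert V₀ 𝒮 hV₀ ih =>
    obtain ⟨c, hc, hcW, hc𝒮⟩ := ih fun V hV => h𝒮 V (Finset.mem_insert_of_mem hV)
    obtain ⟨hV₀𝒲, hV₀W⟩ := h𝒮 V₀ (Finset.mem_insert_self V₀ 𝒮)
    obtain ⟨d, hd, hdV₀, hdW⟩ := hsep W hW V₀ hV₀𝒲 (Ne.symm hV₀W)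
    refine ⟨d * c, fun V hV => V.mul_mem _ _ (hd V hV) (hc V hV),
      nu_unit_mul W (hd W hW) (hc W hW) hdW hcW, ?_⟩
    intro V hV
    rw [Finset.mem_insert] at hV
    rcases hV with rfl | hV
    · exact nu_mul_right V hdV₀ (hc V hV₀𝒲)
    · exact nu_mul_left V (hc𝒮 V hV) (hd V (h𝒮 V (Finset.mem_insert_of_mem hV)).1)

/-- **Weak approximation for separated sheets.**  Every set of sheets is cut out by an
element which is `≡ 1` on it and `≡ 0` on the other sheets. -/
theorem exists_sep_idem {𝒲 : Set (ValuationSubring F)} (h𝒲 : 𝒲.Finite) (hsep : Sep 𝒲)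
    (P : ValuationSubring F → Prop) :
    ∃ e : F, ∀ W ∈ 𝒲, (P W → 1 - e ∈ W.nonunits) ∧ (¬ P W → e ∈ W.nonunits) := by
  classical
  -- the local generators
  have hc : ∀ W : ValuationSubring F, ∃ c : F, W ∈ 𝒲 →
      (∀ V ∈ 𝒲, c ∈ V) ∧ c ∉ W.nonunits ∧ ∀ V ∈ 𝒲, V ≠ W → c ∈ V.nonunits := by
    intro W
    by_cases hW : W ∈ 𝒲
    · obtain ⟨c, h1, h2, h3⟩ := exists_sep_elt hsep W hW (h𝒲.toFinset.erase W) (by
        intro V hV
        rw [Finset.mem_erase, Set.Finite.mem_toFinset] at hV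
        exact ⟨hV.2, hV.1⟩)
      refine ⟨c, fun _ => ⟨h1, h2, fun V hV hne => h3 V ?_⟩⟩
      rw [Finset.mem_erase, Set.Finite.mem_toFinset]
      exact ⟨hne, hV⟩
    · exact ⟨0, fun h => absurd h hW⟩
  choose c hc using hc
  set s : F := ∑ W ∈ h𝒲.toFinset, c W with hs
  set a : F := ∑ W ∈ h𝒲.toFinset.filter P, c W with ha
  set b : F := ∑ W ∈ h𝒲.toFinset.filter (fun W => ¬ P W), c W with hb
  have hab : a + b = s := by
    rw [ha, hb, hs]
    exact Finset.sum_filter_add_sum_filter_not _ _ _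
  have hcV : ∀ W ∈ 𝒲, ∀ V ∈ 𝒲, c W ∈ V := fun W hW V hV => (hc W hW).1 V hV
  -- `s` is a unit of every sheet
  have hsunit : ∀ V ∈ 𝒲, s ∈ V ∧ s ∉ V.nonunits := by
    intro V hV
    have hVmem : V ∈ h𝒲.toFinset := (Set.Finite.mem_toFinset h𝒲).2 hV
    have h1 : s = c V + ∑ W ∈ h𝒲.toFinset.erase V, c W := by
      rw [hs, Finset.add_sum_erase _ _ hVmem]
    have h2 : ∑ W ∈ h𝒲.toFinset.erase V, c W ∈ V.nonunits := by
      refine nu_sum V _ _ fun W hW => ?_
      rw [Finset.mem_erase, Set.Finite.mem_toFinset] at hW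
      exact (hc W hW.2).2.2 V hV (Ne.symm hW.1)
    refine ⟨?_, ?_⟩
    · rw [h1]
      exact V.add_mem _ _ (hcV V hV V hV) (nu_mem V h2)
    · intro h3
      apply (hc V hV).2.1
      have : c V = s - ∑ W ∈ h𝒲.toFinset.erase V, c W := by rw [h1]; ring
      rw [this]
      exact nu_sub V h3 h2
  refine ⟨a * s⁻¹, fun V hV => ⟨fun hP => ?_, fun hP => ?_⟩⟩
  · -- `1 - e = b / s`
    obtain ⟨hsV, hsu⟩ := hsunit V hV
    have hs0 : s ≠ 0 := by
      rintro h0
      rw [h0] at hsu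
      exact hsu (nu_zero V)
    have h1 : 1 - a * s⁻¹ = b * s⁻¹ := by
      field_simp
      rw [← hab]; ring
    rw [h1]
    refine nu_mul_right V (nu_sum V _ _ fun W hW => ?_) (nu_unit_inv V hsV hsu)
    rw [Finset.mem_filter, Set.Finite.mem_toFinset] at hW
    refine (hc W hW.1).2.2 V hV ?_
    rintro rfl
    exact hW.2 hP
  · obtain ⟨hsV, hsu⟩ := hsunit V hV
    refine nu_mul_right V (nu_sum V _ _ fun W hW => ?_) (nu_unit_inv V hsV hsu)
    rw [Finset.mem_filter, Set.Finite.mem_toFinset] at hW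
    refine (hc W hW.1).2.2 V hV ?_
    rintro rfl
    exact hP hW.2

end Approx

section Main

variable [IsNoetherianRing R] [IsIntegrallyClosed (Polynomial R)] [CharZero F]

/-- **CLOPEN, graph form.**  The graph whose vertices are the sheets of the special fibre,
two sheets being joined when they pass through a common closed point of one of the two charts,
is connected: a property of sheets which propagates along edges holds for all or for none. -/
theorem clopen_sheets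
    (hinjR : Function.Injective (algebraMap R F))
    (hRF : ∀ y : F, IsIntegral R y → y ∈ Set.range (algebraMap R F))
    {x : F} (hx : Transcendental R x) [FiniteDimensional (baseField R x) F]
    (w : R) (hw : Prime w)
    {𝒲 : Set (ValuationSubring F)} (h𝒲 : 𝒲.Finite) (hsep : Sep 𝒲)
    (hmid : ∀ W ∈ 𝒲, ∀ c ∈ chart R ({x, x⁻¹} : Set F), c ∈ W)
    (hwW : ∀ W ∈ 𝒲, algebraMap R F w ∈ W.nonunits)
    (qep_fin : QepRad 𝒲 w (chart R ({x} : Set F)))
    (qep_inf : QepRad 𝒲 w (chart R ({x⁻¹} : Set F)))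
    (qep_mid : QepRad 𝒲 w (chart R ({x, x⁻¹} : Set F)))
    (P : ValuationSubring F → Prop)
    (hloc_fin : ∀ 𝔫 : Ideal (chart R ({x} : Set F)), 𝔫.IsMaximal →
      algebraMap R (chart R ({x} : Set F)) w ∈ 𝔫 →
      ∀ W ∈ 𝒲, ∀ W' ∈ 𝒲, Through _ 𝔫 W → Through _ 𝔫 W' → P W → P W')
    (hloc_inf : ∀ 𝔫 : Ideal (chart R ({x⁻¹} : Set F)), 𝔫.IsMaximal →
      algebraMap R (chart R ({x⁻¹} : Set F)) w ∈ 𝔫 →
      ∀ W ∈ 𝒲, ∀ W' ∈ 𝒲, Through _ 𝔫 W → Through _ 𝔫 W' → P W → P W') :
    (∀ W ∈ 𝒲, P W) ∨ (∀ W ∈ 𝒲, ¬ P W) := by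
  obtain ⟨e, he⟩ := exists_sep_idem h𝒲 hsep fun W => ¬ P W
  have he₀ : ∀ W ∈ 𝒲, e ∈ W.nonunits ∨ 1 - e ∈ W.nonunits := by
    intro W hW
    by_cases hP : P W
    · exact Or.inl ((he W hW).2 (not_not.2 hP))
    · exact Or.inr ((he W hW).1 hP)
  have hiff : ∀ W ∈ 𝒲, e ∈ W.nonunits ↔ P W := by
    intro W hW
    constructor
    · intro h
      by_contra hP
      exact nu_not_both W h ((he W hW).1 hP)
    · intro hP
      exact (he W hW).2 (not_not.2 hP)
  rcases clopen_idem hinjR hRF hx w hw h𝒲 hmid hwW qep_fin qep_inf qep_mid he₀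
      (fun 𝔫 h𝔫 hw𝔫 W hW W' hW' hth hth' h =>
        (hiff W' hW').2 (hloc_fin 𝔫 h𝔫 hw𝔫 W hW W' hW' hth hth' ((hiff W hW).1 h)))
      (fun 𝔫 h𝔫 hw𝔫 W hW W' hW' hth hth' h =>
        (hiff W' hW').2 (hloc_inf 𝔫 h𝔫 hw𝔫 W hW W' hW' hth hth' ((hiff W hW).1 h))) with h | h
  · exact Or.inl fun W hW => (hiff W hW).1 (h W hW)
  · refine Or.inr fun W hW hP => ?_
    exact nu_not_both W ((hiff W hW).2 hP) (h W hW)

/-- **CLOPEN, label form.**  A labelling of the sheets which agrees on any two sheets passing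
through a common closed point of the special fibre is constant. -/
theorem clopen_label
    (hinjR : Function.Injective (algebraMap R F))
    (hRF : ∀ y : F, IsIntegral R y → y ∈ Set.range (algebraMap R F))
    {x : F} (hx : Transcendental R x) [FiniteDimensional (baseField R x) F]
    (w : R) (hw : Prime w)
    {𝒲 : Set (ValuationSubring F)} (h𝒲 : 𝒲.Finite) (hsep : Sep 𝒲)
    (hmid : ∀ W ∈ 𝒲, ∀ c ∈ chart R ({x, x⁻¹} : Set F), c ∈ W)
    (hwW : ∀ W ∈ 𝒲, algebraMap R F w ∈ W.nonunits)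
    (qep_fin : QepRad 𝒲 w (chart R ({x} : Set F)))
    (qep_inf : QepRad 𝒲 w (chart R ({x⁻¹} : Set F)))
    (qep_mid : QepRad 𝒲 w (chart R ({x, x⁻¹} : Set F)))
    {α : Type*} (lab : ValuationSubring F → α)
    (hloc_fin : ∀ 𝔫 : Ideal (chart R ({x} : Set F)), 𝔫.IsMaximal →
      algebraMap R (chart R ({x} : Set F)) w ∈ 𝔫 →
      ∀ W ∈ 𝒲, ∀ W' ∈ 𝒲, Through _ 𝔫 W → Through _ 𝔫 W' → lab W = lab W')
    (hloc_inf : ∀ 𝔫 : Ideal (chart R ({x⁻¹} : Set F)), 𝔫.IsMaximal →
      algebraMap R (chart R ({x⁻¹} : Set F)) w ∈ 𝔫 →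
      ∀ W ∈ 𝒲, ∀ W' ∈ 𝒲, Through _ 𝔫 W → Through _ 𝔫 W' → lab W = lab W') :
    ∀ W ∈ 𝒲, ∀ W' ∈ 𝒲, lab W = lab W' := by
  intro W₀ hW₀ W₁ hW₁
  rcases clopen_sheets hinjR hRF hx w hw h𝒲 hsep hmid hwW qep_fin qep_inf qep_mid
      (fun W => lab W = lab W₀)
      (fun 𝔫 h𝔫 hw𝔫 W hW W' hW' hth hth' h =>
        (hloc_fin 𝔫 h𝔫 hw𝔫 W' hW' W hW hth' hth).trans h)
      (fun 𝔫 h𝔫 hw𝔫 W hW W' hW' hth hth' h =>
        (hloc_inf 𝔫 h𝔫 hw𝔫 W' hW' W hW hth' hth).trans h) with h | h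
  · exact (h W₁ hW₁).symm
  · exact absurd rfl (h W₀ hW₀)

/-- **CLOPEN, residue form** (no separation hypothesis).  Let `G ∈ F` have residue `lab W` on the
sheet `W`, where the `lab W ∈ F` are integral on every sheet and distinct labels stay distinct
on every sheet (e.g. roots of unity of order invertible in `R`).  If the labels of two sheets
through a common closed point of the special fibre agree, all labels agree. -/
theorem clopen_const
    (hinjR : Function.Injective (algebraMap R F))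
    (hRF : ∀ y : F, IsIntegral R y → y ∈ Set.range (algebraMap R F))
    {x : F} (hx : Transcendental R x) [FiniteDimensional (baseField R x) F]
    (w : R) (hw : Prime w)
    {𝒲 : Set (ValuationSubring F)} (h𝒲 : 𝒲.Finite)
    (hmid : ∀ W ∈ 𝒲, ∀ c ∈ chart R ({x, x⁻¹} : Set F), c ∈ W)
    (hwW : ∀ W ∈ 𝒲, algebraMap R F w ∈ W.nonunits)
    (qep_fin : QepRad 𝒲 w (chart R ({x} : Set F)))
    (qep_inf : QepRad 𝒲 w (chart R ({x⁻¹} : Set F)))
    (qep_mid : QepRad 𝒲 w (chart R ({x, x⁻¹} : Set F)))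
    (G : F) (lab : ValuationSubring F → F)
    (hG : ∀ W ∈ 𝒲, G - lab W ∈ W.nonunits)
    (hlabW : ∀ W ∈ 𝒲, ∀ V ∈ 𝒲, lab W ∈ V)
    (hlabne : ∀ W ∈ 𝒲, ∀ W' ∈ 𝒲, ∀ V ∈ 𝒲, lab W ≠ lab W' → lab W - lab W' ∉ V.nonunits)
    (hloc_fin : ∀ 𝔫 : Ideal (chart R ({x} : Set F)), 𝔫.IsMaximal →
      algebraMap R (chart R ({x} : Set F)) w ∈ 𝔫 →
      ∀ W ∈ 𝒲, ∀ W' ∈ 𝒲, Through _ 𝔫 W → Through _ 𝔫 W' → lab W = lab W')
    (hloc_inf : ∀ 𝔫 : Ideal (chart R ({x⁻¹} : Set F)), 𝔫.IsMaximal →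
      algebraMap R (chart R ({x⁻¹} : Set F)) w ∈ 𝔫 →
      ∀ W ∈ 𝒲, ∀ W' ∈ 𝒲, Through _ 𝔫 W → Through _ 𝔫 W' → lab W = lab W') :
    ∀ W ∈ 𝒲, ∀ W' ∈ 𝒲, lab W = lab W' := by
  classical
  intro W₀ hW₀ W₁ hW₁
  set ℓ₀ : F := lab W₀ with hℓ₀
  -- the other labels
  set Λ : Finset F := (h𝒲.toFinset.image lab).erase ℓ₀ with hΛ
  have hΛmem : ∀ ℓ, ℓ ∈ Λ ↔ ℓ ≠ ℓ₀ ∧ ∃ W ∈ 𝒲, lab W = ℓ := by
    intro ℓ
    rw [hΛ, Finset.mem_erase, Finset.mem_image]
    simp only [Set.Finite.mem_toFinset]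
  -- Lagrange idempotent of the label `ℓ₀`
  set e : F := ∏ ℓ ∈ Λ, (G - ℓ) * (ℓ₀ - ℓ)⁻¹ with he
  have hGV : ∀ V ∈ 𝒲, G ∈ V := by
    intro V hV
    have : G = (G - lab V) + lab V := by ring
    rw [this]
    exact V.add_mem _ _ (nu_mem V (hG V hV)) (hlabW V hV V hV)
  have hinv : ∀ ℓ ∈ Λ, ∀ V ∈ 𝒲, (ℓ₀ - ℓ)⁻¹ ∈ V := by
    intro ℓ hℓ V hV
    obtain ⟨hne, W, hW, rfl⟩ := (hΛmem ℓ).1 hℓ
    exact nu_unit_inv V (V.sub_mem (hlabW W₀ hW₀ V hV) (hlabW W hW V hV))
      (hlabne W₀ hW₀ W hW V hV (Ne.symm hne))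
  have hfac : ∀ ℓ ∈ Λ, ∀ V ∈ 𝒲, (G - ℓ) * (ℓ₀ - ℓ)⁻¹ ∈ V := by
    intro ℓ hℓ V hV
    obtain ⟨hne, W, hW, rfl⟩ := (hΛmem ℓ).1 hℓ
    exact V.mul_mem _ _ (V.sub_mem (hGV V hV) (hlabW W hW V hV)) (hinv _ hℓ V hV)
  -- `e ≡ 1` on the sheets with label `ℓ₀`
  have he1 : ∀ V ∈ 𝒲, lab V = ℓ₀ → 1 - e ∈ V.nonunits := by
    intro V hV hlab
    have hgen : ∀ S : Finset F, S ⊆ Λ →
        1 - ∏ ℓ ∈ S, (G - ℓ) * (ℓ₀ - ℓ)⁻¹ ∈ V.nonunits ∧
          ∏ ℓ ∈ S, (G - ℓ) * (ℓ₀ - ℓ)⁻¹ ∈ V := by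
      intro S
      induction S using Finset.induction_on with
      | empty =>
        intro _
        refine ⟨by simp, by simp [V.one_mem]⟩
      | insert ℓ S hℓ ih =>
        intro hS
        obtain ⟨ih1, ih2⟩ := ih fun a ha => hS (Finset.mem_insert_of_mem ha)
        have hℓΛ : ℓ ∈ Λ := hS (Finset.mem_insert_self ℓ S)
        have hne : ℓ₀ - ℓ ≠ 0 := sub_ne_zero.2 (Ne.symm ((hΛmem ℓ).1 hℓΛ).1)
        have h1 : 1 - (G - ℓ) * (ℓ₀ - ℓ)⁻¹ ∈ V.nonunits := by
          have : 1 - (G - ℓ) * (ℓ₀ - ℓ)⁻¹ = -((G - lab V) * (ℓ₀ - ℓ)⁻¹) := by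
            rw [hlab]
            field_simp
            ring
          rw [this]
          exact nu_neg V (nu_mul_right V (hG V hV) (hinv ℓ hℓΛ V hV))
        rw [Finset.prod_insert hℓ]
        refine ⟨?_, V.mul_mem _ _ (hfac ℓ hℓΛ V hV) ih2⟩
        have : 1 - (G - ℓ) * (ℓ₀ - ℓ)⁻¹ * ∏ ℓ ∈ S, (G - ℓ) * (ℓ₀ - ℓ)⁻¹ =
            (1 - (G - ℓ) * (ℓ₀ - ℓ)⁻¹) * ∏ ℓ ∈ S, (G - ℓ) * (ℓ₀ - ℓ)⁻¹ +
              (1 - ∏ ℓ ∈ S, (G - ℓ) * (ℓ₀ - ℓ)⁻¹) := by ring
        rw [this]
        exact nu_add V (nu_mul_right V h1 ih2) ih1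
    exact (hgen Λ (Finset.Subset.refl _)).1
  -- `e ≡ 0` on the other sheets
  have he0 : ∀ V ∈ 𝒲, lab V ≠ ℓ₀ → e ∈ V.nonunits := by
    intro V hV hlab
    have hmem : lab V ∈ Λ := (hΛmem _).2 ⟨hlab, V, hV, rfl⟩
    rw [he, ← Finset.mul_prod_erase _ _ hmem]
    refine nu_mul_right V (nu_mul_right V (hG V hV) (hinv _ hmem V hV)) ?_
    exact V.prod_mem fun ℓ hℓ => hfac ℓ (Finset.mem_of_mem_erase hℓ) V hV
  have he₀ : ∀ V ∈ 𝒲, e ∈ V.nonunits ∨ 1 - e ∈ V.nonunits := by
    intro V hV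
    by_cases h : lab V = ℓ₀
    · exact Or.inr (he1 V hV h)
    · exact Or.inl (he0 V hV h)
  have hiff : ∀ V ∈ 𝒲, e ∈ V.nonunits ↔ lab V ≠ ℓ₀ := by
    intro V hV
    constructor
    · intro h hlab
      exact nu_not_both V h (he1 V hV hlab)
    · exact he0 V hV
  rcases clopen_idem hinjR hRF hx w hw h𝒲 hmid hwW qep_fin qep_inf qep_mid he₀
      (fun 𝔫 h𝔫 hw𝔫 W hW W' hW' hth hth' h => by
        rw [hiff W' hW', ← hloc_fin 𝔫 h𝔫 hw𝔫 W hW W' hW' hth hth']
        exact (hiff W hW).1 h)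
      (fun 𝔫 h𝔫 hw𝔫 W hW W' hW' hth hth' h => by
        rw [hiff W' hW', ← hloc_inf 𝔫 h𝔫 hw𝔫 W hW W' hW' hth hth']
        exact (hiff W hW).1 h) with h | h
  · exact absurd rfl ((hiff W₀ hW₀).1 (h W₀ hW₀))
  · by_contra hne
    exact nu_not_both W₁ ((hiff W₁ hW₁).2 (Ne.symm hne)) (h W₁ hW₁)

end Main

end Fermat.Agent.S36.H193

end
-- ===== PACK-END S36/H193/ClopenGraph.lean

-- ===== PACK-BEGIN S36/H83/EisChain.lean
section
/-
S36 engine, MOD-3 leaf "EIS" (helper83), part 1: the bivariate chain rule for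
`θ = q d/dq` on `A((q))`:  `θ (F(x, y)) = F_X(x, y) θ x + F_Y(x, y) θ y`, `F ∈ ℤ[Y][X]`.
-/


set_option autoImplicit false

noncomputable section

open ModularCurve HahnSeries Polynomial

namespace Fermat.Agent.S36.H83

open Fermat.Agent.S28

section ChainRule

variable {A : Type*} [CommRing A]

theorem h83_thetaL_intCast (c : ℤ) : thetaL A ((c : ℤ) : LaurentSeries A) = 0 := by
  have hc : ((c : ℤ) : LaurentSeries A) = HahnSeries.C (c : A) :=
    (map_intCast (HahnSeries.C : A →+* LaurentSeries A) c).symm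
  rw [hc, h88_thetaL_C]

theorem h83_thetaL_pow (f : LaurentSeries A) (n : ℕ) :
    thetaL A (f ^ n) = (n : LaurentSeries A) * f ^ (n - 1) * thetaL A f := by
  cases n with
  | zero => simp [h88_thetaL_one]
  | succ n => rw [h88_thetaL_pow, Nat.add_sub_cancel]

theorem h83_evalAt_monomial (y : LaurentSeries A) (n : ℕ) (a : ℤ) :
    evalAt y (Polynomial.monomial n a) = (a : LaurentSeries A) * y ^ n := by
  show Polynomial.aeval y (Polynomial.monomial n a) = _
  rw [Polynomial.aeval_monomial, eq_intCast]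

theorem h83_evalAt_eq_eval₂ (y : LaurentSeries A) (c : Polynomial ℤ) :
    evalAt y c = c.eval₂ (Int.castRingHom (LaurentSeries A)) y := by
  show Polynomial.aeval y c = _
  rw [Polynomial.aeval_def]
  congr 1
  exact RingHom.ext_int _ _

/-- One-variable chain rule: `θ (c(y)) = c'(y) θ y` for `c ∈ ℤ[Y]`. -/
theorem h83_thetaL_evalAt (c : Polynomial ℤ) (y : LaurentSeries A) :
    thetaL A (evalAt y c) = evalAt y (Polynomial.derivative c) * thetaL A y := by
  induction c using Polynomial.induction_on' with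
  | add c d hc hd =>
    rw [map_add, h88_thetaL_add, hc, hd, Polynomial.derivative_add, map_add, add_mul]
  | monomial n a =>
    rw [h83_evalAt_monomial, Polynomial.derivative_monomial, h83_evalAt_monomial,
      h88_thetaL_mul, h83_thetaL_intCast, zero_mul, zero_add, h83_thetaL_pow]
    push_cast
    ring

/-- **Bivariate chain rule** for `θ`:
`θ (F(x,y)) = (∂F/∂X)(x,y) · θ x + (∂F/∂Y)(x,y) · θ y`, where the two partial derivatives are
expressed through the one-variable specialisations `F(X, y) ∈ L[X]` and `F(x, Y) ∈ L[Y]`. -/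
theorem h83_chain_rule (F : Polynomial (Polynomial ℤ)) (x y : LaurentSeries A) :
    thetaL A (F.eval₂ (evalAt y) x) =
      (Polynomial.derivative (F.map (evalAt y))).eval x * thetaL A x
      + (Polynomial.derivative
          (F.eval₂ (Polynomial.mapRingHom (Int.castRingHom (LaurentSeries A)))
            (Polynomial.C x))).eval y * thetaL A y := by
  induction F using Polynomial.induction_on' with
  | add F G hF hG =>
    rw [Polynomial.eval₂_add, h88_thetaL_add, hF, hG, Polynomial.map_add,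
      Polynomial.derivative_add, Polynomial.eval_add, Polynomial.eval₂_add,
      Polynomial.derivative_add, Polynomial.eval_add]
    ring
  | monomial n c =>
    have h2 : (Polynomial.derivative
        ((Polynomial.mapRingHom (Int.castRingHom (LaurentSeries A))) c)).eval y
        = evalAt y (Polynomial.derivative c) := by
      rw [Polynomial.coe_mapRingHom, Polynomial.derivative_map, Polynomial.eval_map,
        h83_evalAt_eq_eval₂]
    rw [Polynomial.eval₂_monomial, Polynomial.map_monomial, Polynomial.derivative_monomial,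
      Polynomial.eval_monomial, Polynomial.eval₂_monomial, ← Polynomial.C_pow,
      Polynomial.derivative_mul, Polynomial.derivative_C, mul_zero, add_zero,
      Polynomial.eval_mul, Polynomial.eval_C, h2, h88_thetaL_mul, h83_thetaL_pow,
      h83_thetaL_evalAt]
    ring

end ChainRule

end Fermat.Agent.S36.H83

end

end
-- ===== PACK-END S36/H83/EisChain.lean

-- ===== PACK-BEGIN S59/H105/UqRel.lean
section





/-!
# Row S59, cell TW, leaf TW-CTRL (helper105): the old-form relations of `U_q`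

Level `N`, prime `q ∤ N`; `r₁, r₂ : X_N → X_{Nq}` the degeneracy maps of S41 (`Spec/HK.lean`),
`T_q = heckeTransfer` on `X_N`, `U_q = Uq` on `X_{Nq}`.

* `Uq_r₂`  : `U_q (r₂ φ) = q • r₁ φ`;
* `r₁_heckeTransfer` : `r₁ (T_q φ) = U_q (r₁ φ) + r₂ φ`, i.e. `U_q r₁ = r₁ T_q - r₂`.
-/

set_option autoImplicit false

namespace Fermat.Agent.S59.H105

open CongruenceSubgroup Matrix.SpecialLinearGroup ModularForm
open Fermat.Agent.S29.H642 Fermat.Agent.S41.Spec Fermat.Agent.S41.H761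
open P2MW.S_ModularForm_heckeT_slash_eq_self_of_mem_Gamma0.ModularForm.HeckeSlashInvariance
open scoped MatrixGroups

variable {N q : ℕ} [Fact q.Prime]

theorem dvd_mul_self_left (N q : ℕ) : q ∣ N * q := Dvd.intro_left N rfl

theorem sum_onePoint {X : Type*} [Fintype X] {B : Type*} [AddCommMonoid B]
    (f : OnePoint X → B) : ∑ x : OnePoint X, f x = f OnePoint.infty + ∑ j : X, f (j : OnePoint X) :=
  Fintype.sum_option f

omit [Fact (Nat.Prime q)] in
theorem ιN_incl (γ : Gamma0 (N * q)) : ιN N (incl N q γ) = ιN (N * q) γ := rfl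

/-- The spec of the `U_q` system at level `N q`, read at level `N`. -/
theorem uq_spec_incl (j : ZMod q) (γ : Gamma0 (N * q)) :
    heckeRep q (j : OnePoint (ZMod q)) * ιN N (incl N q γ) =
      ιN N (incl N q ((uqSystem (dvd_mul_self_left N q)).coc j γ)) *
        heckeRep q (((uqSystem (dvd_mul_self_left N q)).act j γ : ZMod q) : OnePoint (ZMod q)) :=
  (uqSystem (dvd_mul_self_left N q)).spec j γ

theorem hElt_incl_infty (hqN : ¬ q ∣ N) (γ : Gamma0 (N * q)) :
    hElt hqN (incl N q γ) OnePoint.infty = conjDelta N q γ := by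
  rw [← heckeSystem_coc hqN]
  exact (heckeSystem hqN).coc_eq (j := OnePoint.infty) (r2_rel γ)

theorem hElt_incl_coe (hqN : ¬ q ∣ N) (γ : Gamma0 (N * q)) (j : ZMod q) :
    hElt hqN (incl N q γ) (j : OnePoint (ZMod q)) =
      incl N q ((uqSystem (dvd_mul_self_left N q)).coc j γ) := by
  rw [← heckeSystem_coc hqN]
  exact (heckeSystem hqN).coc_eq (uq_spec_incl j γ)

variable {A : Type*} [AddCommGroup A]

/-- `r₁ T_q = U_q r₁ + r₂`. -/
theorem r₁_heckeTransfer (hqN : ¬ q ∣ N) (φ : Additive (Gamma0 N) →+ A) :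
    r₁ N q (heckeTransfer hqN φ) = Uq (dvd_mul_self_left N q) (r₁ N q φ) + r₂ N q φ := by
  refine AddMonoidHom.ext fun g' => ?_
  obtain ⟨γ, rfl⟩ : ∃ g : Gamma0 (N * q), Additive.ofMul g = g' := ⟨Additive.toMul g', rfl⟩
  rw [AddMonoidHom.add_apply, Uq_apply]
  show heckeTransfer hqN φ (Additive.ofMul (incl N q γ)) = _
  rw [heckeTransfer_apply, sum_onePoint, hElt_incl_infty, add_comm]
  congr 1
  exact Finset.sum_congr rfl fun j _ => by rw [hElt_incl_coe]; rfl

/-- `U_q r₁ = r₁ T_q - r₂`. -/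
theorem Uq_r₁ (hqN : ¬ q ∣ N) (φ : Additive (Gamma0 N) →+ A) :
    Uq (dvd_mul_self_left N q) (r₁ N q φ) = r₁ N q (heckeTransfer hqN φ) - r₂ N q φ := by
  rw [r₁_heckeTransfer, add_sub_cancel_right]

/-- `c_δ(g_j) * u_{j'} = u_j * γ` for the cocycle `g_j` of the `U_q` system. -/
theorem conjDelta_coc_mul (γ : Gamma0 (N * q)) (j : ZMod q) :
    conjDelta N q ((uqSystem (dvd_mul_self_left N q)).coc j γ) *
        upperUnip N (((uqSystem (dvd_mul_self_left N q)).act j γ).val : ℤ) =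
      upperUnip N (j.val : ℤ) * incl N q γ := by
  set g := (uqSystem (dvd_mul_self_left N q)).coc j γ with hg
  set j' := (uqSystem (dvd_mul_self_left N q)).act j γ with hj'
  have hq0 : (q : ℝ) ≠ 0 := by exact_mod_cast (Fact.out : q.Prime).ne_zero
  have e := (uqSystem (dvd_mul_self_left N q)).spec j γ
  rw [← hg, ← hj'] at e
  have e00 := congrArg (fun M : GL (Fin 2) ℝ => (M : Matrix (Fin 2) (Fin 2) ℝ) 0 0) e
  have e01 := congrArg (fun M : GL (Fin 2) ℝ => (M : Matrix (Fin 2) (Fin 2) ℝ) 0 1) e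
  have e10 := congrArg (fun M : GL (Fin 2) ℝ => (M : Matrix (Fin 2) (Fin 2) ℝ) 1 0) e
  have e11 := congrArg (fun M : GL (Fin 2) ℝ => (M : Matrix (Fin 2) (Fin 2) ℝ) 1 1) e
  simp only [coe_mul_apply, coe_ιN_apply, coe_uqRep, Matrix.of_apply, Matrix.cons_val',
    Matrix.cons_val_zero, Matrix.cons_val_one, Matrix.cons_val_fin_one] at e00 e01 e10 e11
  obtain ⟨c00, c01, c10, c11⟩ := conjDelta_apply_entries g
  have c10' : ((((conjDelta N q g : Gamma0 N) : SL(2, ℤ)) 1 0 : ℤ) : ℝ) * (q : ℝ) =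
      (((g : SL(2, ℤ)) 1 0 : ℤ) : ℝ) := by exact_mod_cast c10
  obtain ⟨u00, u01, u10, u11⟩ := upperUnip_entries N (j.val : ℤ)
  obtain ⟨v00, v01, v10, v11⟩ := upperUnip_entries N (j'.val : ℤ)
  apply ιN_injective N
  rw [map_mul, map_mul]
  have hi : ∀ a b, ((ιN N (incl N q γ) : GL (Fin 2) ℝ) : Matrix (Fin 2) (Fin 2) ℝ) a b
      = (((γ : SL(2, ℤ)) a b : ℤ) : ℝ) := fun a b => coe_mapGL_apply _ a b
  have k10 : ((((conjDelta N q g : Gamma0 N) : SL(2, ℤ)) 1 0 : ℤ) : ℝ) =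
      (((γ : SL(2, ℤ)) 1 0 : ℤ) : ℝ) := by
    apply mul_right_cancel₀ hq0
    rw [c10']
    linear_combination (-1 : ℝ) * e10
  apply gl_ext <;>
    simp only [coe_mul_apply, coe_ιN_apply, hi, c00, c01, c11, u00, u01, u10, u11, v00, v01,
      v10, v11, k10] <;>
    push_cast
  · linear_combination (-1 : ℝ) * e00
  · linear_combination (-1 : ℝ) * e01
  · ring
  · apply mul_left_cancel₀ hq0
    linear_combination (-1 : ℝ) * e11 + (j'.val : ℝ) * e10
  
/-- `U_q r₂ = q r₁`. -/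
theorem Uq_r₂ (φ : Additive (Gamma0 N) →+ A) :
    Uq (dvd_mul_self_left N q) (r₂ N q φ) = q • r₁ N q φ := by
  classical
  refine AddMonoidHom.ext fun g' => ?_
  obtain ⟨γ, rfl⟩ : ∃ g : Gamma0 (N * q), Additive.ofMul g = g' := ⟨Additive.toMul g', rfl⟩
  rw [Uq_apply]
  have h1 : ∀ j : ZMod q,
      r₂ N q φ (Additive.ofMul ((uqSystem (dvd_mul_self_left N q)).coc j γ)) =
        φ (Additive.ofMul (upperUnip N (j.val : ℤ))) + φ (Additive.ofMul (incl N q γ)) -
          φ (Additive.ofMul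
            (upperUnip N (((uqSystem (dvd_mul_self_left N q)).act j γ).val : ℤ))) := by
    intro j
    show φ (Additive.ofMul (conjDelta N q ((uqSystem (dvd_mul_self_left N q)).coc j γ))) = _
    have h := conjDelta_coc_mul γ j
    have h2 : conjDelta N q ((uqSystem (dvd_mul_self_left N q)).coc j γ) =
        upperUnip N (j.val : ℤ) * incl N q γ *
          (upperUnip N (((uqSystem (dvd_mul_self_left N q)).act j γ).val : ℤ))⁻¹ := by
      rw [← h, mul_inv_cancel_right]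
    rw [h2]
    simp only [ofMul_mul, ofMul_inv, map_add, map_neg]
    abel
  simp only [h1, Finset.sum_sub_distrib, Finset.sum_add_distrib, Finset.sum_const,
    Finset.card_univ, ZMod.card]
  have h3 : ∑ j : ZMod q, φ (Additive.ofMul
      (upperUnip N (((uqSystem (dvd_mul_self_left N q)).act j γ).val : ℤ))) =
      ∑ j : ZMod q, φ (Additive.ofMul (upperUnip N (j.val : ℤ))) :=
    Equiv.sum_comp ((uqSystem (dvd_mul_self_left N q)).actEquiv γ)
      (fun j : ZMod q => φ (Additive.ofMul (upperUnip N (j.val : ℤ))))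
  rw [h3]
  simp only [AddMonoidHom.coe_smul, Pi.smul_apply]
  show _ = q • φ (Additive.ofMul (incl N q γ))
  abel

end Fermat.Agent.S59.H105

end
-- ===== PACK-END S59/H105/UqRel.lean

-- ===== PACK-BEGIN S59/TW/H653/Comm/Abstract.lean
section




/-!
# S59 / TW-HECKE (helper653): commutation of the transfers of two normalised coset systems

* `IsIntRep M n X` : `X ∈ GL(2, ℝ)` is an integral matrix of determinant `n`, `≡ [[1,*],[0,*]] mod M`;
* `cancel_GL` : cancellation for products of integral representatives of coprime determinants;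
* `comm_of_le` : two coset systems `σ`, `σ'` of `Γ₀(M)` with integral normalised representatives
  of coprime determinants such that every `σ i * σ' j` lies in some `Γ₀(M) * σ' j' * σ i'` have
  commuting transfers on `Hom(K, A)`, for every `K` with `Γ₁(M) ≤ K ≤ Γ₀(M)`;
* `le_twist` : the hypothesis of `comm_of_le` is insensitive to twisting.
-/

set_option autoImplicit false

namespace Fermat.Agent.S59.TW.H653

open CongruenceSubgroup Matrix.SpecialLinearGroup ModularCurve.Period ModularForm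
open Fermat.Agent.S29.H642 Fermat.Agent.S41.H761
open P2MW.S_ModularForm_heckeT_slash_eq_self_of_mem_Gamma0.ModularForm.HeckeSlashInvariance
open scoped MatrixGroups

/-- `X ∈ GL(2, ℝ)` is an integral matrix `m` of determinant `n` with `M ∣ m 1 0` and
`m 0 0 ≡ 1 mod M`. -/
def IsIntRep (M : ℕ) (n : ℤ) (X : GL (Fin 2) ℝ) : Prop :=
  ∃ m : Matrix (Fin 2) (Fin 2) ℤ, (M : ℤ) ∣ m 1 0 ∧ (M : ℤ) ∣ m 0 0 - 1 ∧ m.det = n ∧
    ∀ i j, (X : Matrix (Fin 2) (Fin 2) ℝ) i j = ((m i j : ℤ) : ℝ)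

variable {M : ℕ}

theorem IsIntRep.isNormRep {n : ℤ} {X : GL (Fin 2) ℝ} (h : IsIntRep M n X) : IsNormRep M X := by
  obtain ⟨m, h1, h2, -, h4⟩ := h
  refine ⟨m 0 0, m 0 1, m 1 0, m 1 1, h1, h2, ?_⟩
  ext i j
  fin_cases i <;> fin_cases j <;> simp [h4]

theorem isIntRep_heckeMatrix {q : ℕ} (hq : q ≠ 0) (j : ℕ) : IsIntRep M q (heckeMatrix q j) := by
  refine ⟨!![1, j; 0, q], by simp, by simp, by simp [Matrix.det_fin_two_of], ?_⟩
  intro i k
  rw [val_heckeMatrix hq]
  fin_cases i <;> fin_cases k <;> simp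

theorem isNormRep_mul {X Y : GL (Fin 2) ℝ} (hX : IsNormRep M X) (hY : IsNormRep M Y) :
    IsNormRep M (X * Y) := by
  obtain ⟨a, b, c, d, ⟨k1, hk1⟩, ⟨k2, hk2⟩, hXe⟩ := hX
  obtain ⟨a', b', c', d', ⟨k3, hk3⟩, ⟨k4, hk4⟩, hYe⟩ := hY
  refine ⟨a * a' + b * c', a * b' + b * d', c * a' + d * c', c * b' + d * d',
    ⟨k1 * a' + d * k3, by rw [hk1, hk3]; ring⟩,
    ⟨k2 * a' + k4 + b * k3, by
      have ha : a = 1 + M * k2 := by linarith
      have ha' : a' = 1 + M * k4 := by linarith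
      rw [hk3, ha, ha']; ring⟩, ?_⟩
  ext i j
  fin_cases i <;> fin_cases j <;>
    simp [Matrix.mul_apply, Fin.sum_univ_two, hXe, hYe]

/-- From an identity of integral matrices to an identity in `GL(2, ℝ)`. -/
theorem gl_eq_mul_of_int {X Y Z : GL (Fin 2) ℝ} {x y z : Matrix (Fin 2) (Fin 2) ℤ}
    (hX : ∀ i j, (X : Matrix (Fin 2) (Fin 2) ℝ) i j = ((x i j : ℤ) : ℝ))
    (hY : ∀ i j, (Y : Matrix (Fin 2) (Fin 2) ℝ) i j = ((y i j : ℤ) : ℝ))
    (hZ : ∀ i j, (Z : Matrix (Fin 2) (Fin 2) ℝ) i j = ((z i j : ℤ) : ℝ))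
    (e : x = y * z) : X = Y * Z := by
  have key : ∀ i j, (X : Matrix (Fin 2) (Fin 2) ℝ) i j =
      ((Y * Z : GL (Fin 2) ℝ) : Matrix (Fin 2) (Fin 2) ℝ) i j := by
    intro i j
    rw [coe_mul_apply, hX, hY, hY, hZ, hZ, e, Matrix.mul_apply, Fin.sum_univ_two]
    push_cast
    ring
  exact gl_ext (key 0 0) (key 0 1) (key 1 0) (key 1 1)

/-- From an identity in `GL(2, ℝ)` to an identity of integral matrices. -/
theorem int_eq_mul_of_gl {X Y Z W : GL (Fin 2) ℝ} {x y z w : Matrix (Fin 2) (Fin 2) ℤ}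
    (hX : ∀ i j, (X : Matrix (Fin 2) (Fin 2) ℝ) i j = ((x i j : ℤ) : ℝ))
    (hY : ∀ i j, (Y : Matrix (Fin 2) (Fin 2) ℝ) i j = ((y i j : ℤ) : ℝ))
    (hZ : ∀ i j, (Z : Matrix (Fin 2) (Fin 2) ℝ) i j = ((z i j : ℤ) : ℝ))
    (hW : ∀ i j, (W : Matrix (Fin 2) (Fin 2) ℝ) i j = ((w i j : ℤ) : ℝ))
    (e : X * Y = Z * W) : x * y = z * w := by
  ext i j
  have h1 := congrArg (fun U : GL (Fin 2) ℝ => (U : Matrix (Fin 2) (Fin 2) ℝ) i j) e
  simp only [coe_mul_apply, hX, hY, hZ, hW] at h1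
  rw [Matrix.mul_apply, Matrix.mul_apply, Fin.sum_univ_two, Fin.sum_univ_two]
  exact_mod_cast h1

theorem coe_mul_int {X Y : GL (Fin 2) ℝ} {x y : Matrix (Fin 2) (Fin 2) ℤ}
    (hX : ∀ i j, (X : Matrix (Fin 2) (Fin 2) ℝ) i j = ((x i j : ℤ) : ℝ))
    (hY : ∀ i j, (Y : Matrix (Fin 2) (Fin 2) ℝ) i j = ((y i j : ℤ) : ℝ)) (i j : Fin 2) :
    ((X * Y : GL (Fin 2) ℝ) : Matrix (Fin 2) (Fin 2) ℝ) i j = (((x * y) i j : ℤ) : ℝ) := by
  rw [coe_mul_apply, hX, hX, hY, hY, Matrix.mul_apply, Fin.sum_univ_two]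
  push_cast
  ring

/-- **Cancellation.**  If `A * B = g * (A' * B')` with integral `A, A'` of determinant `m` and
`B, B'` of determinant `n`, `m` and `n` coprime, then `B = γ * B'` and `A * γ = g * A'` for some
`γ ∈ SL(2, ℤ)`. -/
theorem cancel_GL {m n : ℤ} {A A' B B' : GL (Fin 2) ℝ} (hA : IsIntRep M m A)
    (hA' : IsIntRep M m A') (hB : IsIntRep M n B) (hB' : IsIntRep M n B')
    (hmn : IsCoprime m n) (hm : m ≠ 0) (hn : n ≠ 0) {g : SL(2, ℤ)}
    (e : A * B = mapGL ℝ g * (A' * B')) :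
    ∃ γ : SL(2, ℤ), B = mapGL ℝ γ * B' ∧ A * mapGL ℝ γ = mapGL ℝ g * A' := by
  obtain ⟨a, -, -, ha, hAe⟩ := hA
  obtain ⟨a', -, -, -, hAe'⟩ := hA'
  obtain ⟨b, -, -, hb, hBe⟩ := hB
  obtain ⟨b', -, -, hb', hBe'⟩ := hB'
  have hg : ∀ i j, ((mapGL ℝ g : GL (Fin 2) ℝ) : Matrix (Fin 2) (Fin 2) ℝ) i j =
      ((((g : Matrix (Fin 2) (Fin 2) ℤ)) i j : ℤ) : ℝ) := fun i j => coe_mapGL_apply g i j
  have e1 : a * b = (g : Matrix (Fin 2) (Fin 2) ℤ) * (a' * b') := by
    refine int_eq_mul_of_gl hAe hBe hg (coe_mul_int hAe' hBe') e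
  obtain ⟨W, hW1, hW2, hW3⟩ := int_cancel ha hb' hb hmn hm hn e1
  let γ : SL(2, ℤ) := ⟨W, hW1⟩
  have hγ : ∀ i j, ((mapGL ℝ γ : GL (Fin 2) ℝ) : Matrix (Fin 2) (Fin 2) ℝ) i j =
      ((W i j : ℤ) : ℝ) := fun i j => coe_mapGL_apply γ i j
  refine ⟨γ, gl_eq_mul_of_int hBe hγ hBe' hW2, ?_⟩
  have key : ∀ i j, ((A * mapGL ℝ γ : GL (Fin 2) ℝ) : Matrix (Fin 2) (Fin 2) ℝ) i j =
      ((mapGL ℝ g * A' : GL (Fin 2) ℝ) : Matrix (Fin 2) (Fin 2) ℝ) i j := by
    intro i j
    rw [coe_mul_int hAe hγ, coe_mul_int hg hAe', hW3]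
  exact gl_ext (key 0 0) (key 0 1) (key 1 0) (key 1 1)

section Comm

variable {K : Subgroup SL(2, ℤ)} {I J : Type*} {σ : I → GL (Fin 2) ℝ} {σ' : J → GL (Fin 2) ℝ}

/-- Distinctness of the cosets of the product of two integral normalised coset systems of
coprime determinants. -/
theorem prod_S2 (h₀ : IsCosetSystem (ιN M) (ιN M) σ) (h₀' : IsCosetSystem (ιN M) (ιN M) σ')
    {m n : ℤ} (hσ : ∀ i, IsIntRep M m (σ i)) (hσ' : ∀ j, IsIntRep M n (σ' j))
    (hmn : IsCoprime m n) (hm : m ≠ 0) (hn : n ≠ 0) (i i' : I) (j j' : J) (g : Gamma0 M)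
    (e : σ i * σ' j = ιN M g * (σ i' * σ' j')) : i = i' ∧ j = j' := by
  obtain ⟨γ, h1, h2⟩ := cancel_GL (hσ i) (hσ i') (hσ' j) (hσ' j') hmn hm hn e
  -- `γ ∈ Γ₀(M)`
  have h3 : σ' j * mapGL ℝ (1 : SL(2, ℤ)) = mapGL ℝ γ * σ' j' := by
    rw [map_one, mul_one]
    exact h1
  obtain ⟨h4, -⟩ := normRep_coc_aux (hσ' j).isNormRep (hσ' j').isNormRep (one_mem _) h3
  have hj : j = j' := h₀'.eq_of_mul j j' ⟨γ, mem_Gamma0_of_dvd h4⟩ h1
  subst hj
  have h5 : mapGL ℝ γ = 1 := by
    have : (1 : GL (Fin 2) ℝ) * σ' j = mapGL ℝ γ * σ' j := by rw [one_mul]; exact h1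
    exact (mul_right_cancel this).symm
  rw [h5, mul_one] at h2
  exact ⟨h₀.eq_of_mul i i' g h2, rfl⟩

/-- **Commutation.**  Two coset systems of `Γ₀(M)` with integral normalised representatives of
coprime determinants such that every product `σ i * σ' j` lies in some coset
`Γ₀(M) * σ' j' * σ i'` have commuting transfers on `Hom(K, A)`, `Γ₁(M) ≤ K ≤ Γ₀(M)`. -/
theorem comm_of_le [Fintype I] [Fintype J] {A : Type*} [AddCommGroup A] (hK : IsMid M K)
    (h₀ : IsCosetSystem (ιN M) (ιN M) σ) (h₀' : IsCosetSystem (ιN M) (ιN M) σ')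
    {m n : ℤ} (hσ : ∀ i, IsIntRep M m (σ i)) (hσ' : ∀ j, IsIntRep M n (σ' j))
    (hmn : IsCoprime m n) (hm : m ≠ 0) (hn : n ≠ 0)
    (hle : ∀ i j, ∃ (j' : J) (i' : I) (g : Gamma0 M), σ i * σ' j = ιN M g * (σ' j' * σ i'))
    (φ : Additive K →+ A) :
    (system_of_gamma0 hK h₀' (fun j => (hσ' j).isNormRep)).transfer
        ((system_of_gamma0 hK h₀ (fun i => (hσ i).isNormRep)).transfer φ) =
      (system_of_gamma0 hK h₀ (fun i => (hσ i).isNormRep)).transfer
        ((system_of_gamma0 hK h₀' (fun j => (hσ' j).isNormRep)).transfer φ) := by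
  set hH := system_of_gamma0 hK h₀ (fun i => (hσ i).isNormRep)
  set hH' := system_of_gamma0 hK h₀' (fun j => (hσ' j).isNormRep)
  have hprod : IsCosetSystem (ιK K) (ιK K) (fun x : I × J => σ x.1 * σ' x.2) :=
    IsCosetSystem.prod hH hH' (fun i i' j j' g e =>
      prod_S2 h₀ h₀' hσ hσ' hmn hm hn i i' j j' (inclK hK g) e)
  have hprod' : IsCosetSystem (ιK K) (ιK K) (fun x : J × I => σ' x.1 * σ x.2) :=
    IsCosetSystem.prod hH' hH (fun j j' i i' g e =>
      prod_S2 h₀' h₀ hσ' hσ hmn.symm hn hm j j' i i' (inclK hK g) e)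
  rw [IsCosetSystem.transfer_comp hH hH' hprod φ, IsCosetSystem.transfer_comp hH' hH hprod' φ]
  refine IsCosetSystem.transfer_eq_of_le_of_card hprod hprod' ?_ ?_ φ
  · rw [Fintype.card_prod, Fintype.card_prod, mul_comm]
  · rintro ⟨i, j⟩
    obtain ⟨j', i', g, e⟩ := hle i j
    -- `g ∈ K`
    have e' : (σ i * σ' j) * ιN M 1 = mapGL ℝ (g : SL(2, ℤ)) * (σ' j' * σ i') := by
      rw [map_one, mul_one]
      exact e
    obtain ⟨hg', hd⟩ := normRep_coc (isNormRep_mul (hσ i).isNormRep (hσ' j).isNormRep)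
      (isNormRep_mul (hσ' j').isNormRep (hσ i').isNormRep) e'
    have hgK : (g : SL(2, ℤ)) ∈ K := by
      apply hK.mem_of_dUnit_eq_one
      rw [← map_one (dUnit M), ← hd]
    exact ⟨(j', i'), ⟨_, hgK⟩, e⟩

end Comm

/-! ## Twisting -/

section TwistLE

variable {𝒢 Γ : Type*} [Group 𝒢] [Group Γ] {I J : Type*}
variable {ι : Γ →* 𝒢} {ρ : I → 𝒢} {ρ' : J → 𝒢}

/-- The hypothesis `hle` of `comm_of_le` for two coset systems implies the one for their
twists. -/
theorem le_twist (h : IsCosetSystem ι ι ρ) (h' : IsCosetSystem ι ι ρ') (τ : I → Γ) (τ' : J → Γ)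
    (hle : ∀ i j, ∃ (j' : J) (i' : I) (g : Γ), ρ i * ρ' j = ι g * (ρ' j' * ρ i')) (i : I)
    (j : J) :
    ∃ (j' : J) (i' : I) (g : Γ),
      (ι (τ i) * ρ i) * (ι (τ' j) * ρ' j) = ι g * ((ι (τ' j') * ρ' j') * (ι (τ i') * ρ i')) := by
  -- `ρ i * τ' j = c₁ * ρ a`
  have s1 := h.spec i (τ' j)
  obtain ⟨b, c, g₁, e1⟩ := hle (h.act i (τ' j)) j
  -- `ρ' b * (τ c)⁻¹ = c₂ * ρ' b'`
  have s2 := h'.spec b (τ c)⁻¹
  refine ⟨h'.act b (τ c)⁻¹, c,
    τ i * h.coc i (τ' j) * g₁ * h'.coc b (τ c)⁻¹ * (τ' (h'.act b (τ c)⁻¹))⁻¹, ?_⟩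
  calc (ι (τ i) * ρ i) * (ι (τ' j) * ρ' j)
      = ι (τ i) * (ρ i * ι (τ' j)) * ρ' j := by simp only [mul_assoc]
    _ = ι (τ i) * ι (h.coc i (τ' j)) * (ρ (h.act i (τ' j)) * ρ' j) := by
        rw [s1]; simp only [mul_assoc]
    _ = ι (τ i) * ι (h.coc i (τ' j)) * ι g₁ * (ρ' b * ι (τ c)⁻¹) * (ι (τ c) * ρ c) := by
        rw [e1]; simp only [map_inv, mul_assoc, inv_mul_cancel_left]
    _ = _ := by
        rw [s2]
        simp only [map_mul, map_inv, mul_assoc, inv_mul_cancel_left]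

end TwistLE

end Fermat.Agent.S59.TW.H653

end
-- ===== PACK-END S59/TW/H653/Comm/Abstract.lean

-- ===== PACK-BEGIN S59/MFree/H587/FreeOfAbs.lean
section
/-
Row S59, block M-FREE, leaf **ASM2** (helper587, subtask 725):
`freeOfAbs : FreeOfAbsStatement`  (`S59/MFree/Spec.lean`), i.e.
`FreeAbsStatement → EisensteinStatement → FreeStatement`.

Content: the hypothesis "Eisenstein on the defect" of the abstract form follows from
`cor ∘ t = T_l ∘ cor` and `T_l = l + 1` on the classes of `Γ₀(M)` trivial on `Γ₁(M)`: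
for a `D`-invariant `x` the class `cor x` is `|D| · x` on `Γ' = ker κ` (`cor_apply_of_ker`),
so `cor x mod |D|` is trivial on `Γ₁(M) ≤ Γ'`; divide by `|D|` in the domain `O`.
-/



set_option autoImplicit false
set_option linter.unusedSectionVars false

namespace Fermat.Agent.S59.MFree.H587

open CongruenceSubgroup Matrix.SpecialLinearGroup
open Fermat.Agent.S41.Spec Fermat.Agent.S29.H642
open scoped MatrixGroups

universe u

section General

variable {Γ : Subgroup SL(2, ℤ)} {D : Type} [Group D]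

theorem mem_range_inclusion_iff (κ : Γ →* D) (g : Γ) :
    g ∈ (Subgroup.inclusion (kerSub_le κ)).range ↔ κ g = 1 := by
  constructor
  · rintro ⟨h, rfl⟩
    obtain ⟨h1, h2⟩ := mem_kerSub.mp h.2
    exact h2
  · intro hg
    exact ⟨⟨(g : SL(2, ℤ)), mem_kerSub.mpr ⟨g.2, hg⟩⟩, rfl⟩

/-- The conjugate `s γ s⁻¹` of an element of `ker κ`, as an element of `Γ' = kerSub κ`. -/
def conjElt (κ : Γ →* D) (s γ : Γ) (hγ : κ γ = 1) : kerSub κ :=
  ⟨(s : SL(2, ℤ)) * γ * (s : SL(2, ℤ))⁻¹, mem_kerSub.mpr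
    ⟨Γ.mul_mem (Γ.mul_mem s.2 γ.2) (Γ.inv_mem s.2), by
      have : (⟨(s : SL(2, ℤ)) * γ * (s : SL(2, ℤ))⁻¹,
          Γ.mul_mem (Γ.mul_mem s.2 γ.2) (Γ.inv_mem s.2)⟩ : Γ) = s * γ * s⁻¹ := rfl
      rw [this, map_mul, map_mul, hγ, mul_one, map_inv, mul_inv_cancel]⟩⟩

variable [Fintype D] {A : Type*} [AddCommGroup A]

/-- The transfer of `x`, evaluated on `γ ∈ ker κ`, is the sum of the values of `x` on the
conjugates of `γ` by a system of representatives. -/
theorem cor_apply_of_ker (κ : Γ →* D) (s : D → Γ) (hs : ∀ d, κ (s d) = d)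
    (x : Additive (kerSub κ) →+ A) (γ : Γ) (hγ : κ γ = 1) :
    cor κ x (Additive.ofMul γ) = ∑ d : D, x (Additive.ofMul (conjElt κ (s d) γ hγ)) := by
  unfold cor
  refine Fermat.Agent.S41.H863.transferAlong_eq_sum_reps (Subgroup.inclusion (kerSub_le κ))
    (Subgroup.inclusion_injective _) s ?_ ?_ x γ id (fun d => conjElt κ (s d) γ hγ) ?_
  · intro a b hab
    have h1 := (mem_range_inclusion_iff κ _).1 hab
    rw [map_mul, map_inv, hs, hs, mul_inv_eq_one] at h1
    exact h1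
  · intro g
    refine ⟨κ g, (mem_range_inclusion_iff κ _).2 ?_⟩
    rw [map_mul, map_inv, hs, mul_inv_cancel]
  · intro d
    apply Subtype.ext
    show ((s d : SL(2, ℤ)) * γ) = ((s d : SL(2, ℤ)) * γ * (s d : SL(2, ℤ))⁻¹) * (s d : SL(2, ℤ))
    group

/-- For a class `x` invariant under the diamond operators, `cor x = |D| · x` on `ker κ`. -/
theorem cor_apply_of_ker_of_invariant (κ : Γ →* D) (hκ : Function.Surjective κ)
    (x : Additive (kerSub κ) →+ A) (hx : ∀ g : Γ, conjAct κ g x = x) (γ : Γ) (hγ : κ γ = 1) :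
    cor κ x (Additive.ofMul γ) =
      Fintype.card D • x (Additive.ofMul ⟨(γ : SL(2, ℤ)), mem_kerSub.mpr ⟨γ.2, hγ⟩⟩) := by
  choose s hs using hκ
  rw [cor_apply_of_ker κ s hs x γ hγ, Finset.sum_congr rfl (g := fun _ =>
    x (Additive.ofMul ⟨(γ : SL(2, ℤ)), mem_kerSub.mpr ⟨γ.2, hγ⟩⟩)), Finset.sum_const,
    Finset.card_univ]
  intro d _
  have h1 := congrArg (fun φ => φ (Additive.ofMul (⟨(γ : SL(2, ℤ)),
    mem_kerSub.mpr ⟨γ.2, hγ⟩⟩ : kerSub κ))) (hx (s d)⁻¹)
  simp only [conjAct_apply] at h1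
  rw [← h1]
  congr 2
  apply Subtype.ext
  show (s d : SL(2, ℤ)) * γ * (s d : SL(2, ℤ))⁻¹ =
    (((s d)⁻¹ : Γ) : SL(2, ℤ))⁻¹ * γ * (((s d)⁻¹ : Γ) : SL(2, ℤ))
  rw [Subgroup.coe_inv, inv_inv]

theorem cor_add (κ : Γ →* D) (x y : Additive (kerSub κ) →+ A) :
    cor κ (x + y) = cor κ x + cor κ y :=
  Fermat.Agent.S41.H581.transferAlong_add _ x y

theorem cor_sub (κ : Γ →* D) (x y : Additive (kerSub κ) →+ A) :
    cor κ (x - y) = cor κ x - cor κ y := by
  rw [eq_sub_iff_add_eq, ← cor_add, sub_add_cancel]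

theorem cor_comp {B : Type*} [AddCommGroup B] (κ : Γ →* D) (π : A →+ B)
    (x : Additive (kerSub κ) →+ A) : cor κ (π.comp x) = π.comp (cor κ x) :=
  Fermat.Agent.S41.H581.transferAlong_comp _ π x

theorem cor_smul {O : Type*} [CommRing O] (κ : Γ →* D) (c : O)
    (x : Additive (kerSub κ) →+ O) : cor κ (c • x) = c • cor κ x := by
  have h1 : c • x = (AddMonoidHom.mulLeft c).comp x := by
    ext h
    rfl
  have h2 : c • cor κ x = (AddMonoidHom.mulLeft c).comp (cor κ x) := by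
    ext h
    rfl
  rw [h1, h2, cor_comp]

end General


/-! ## Division by `|D|` -/

section Div

variable {G : Type*} [Group G] {O : Type*} [CommRing O] [IsDomain O]

/-- An additive class with values in `n O` (`n ≠ 0` in the domain `O`) is `n` times a class. -/
theorem exists_eq_nsmul_of_forall_dvd (n : ℕ) (hn : (n : O) ≠ 0) (w : Additive G →+ O)
    (hw : ∀ g : G, ∃ z : O, w (Additive.ofMul g) = (n : O) * z) :
    ∃ y : Additive G →+ O, w = n • y := by
  choose z hz using hw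
  have hz' : ∀ g : Additive G, w g = (n : O) * z (Additive.toMul g) := fun g => hz _
  refine ⟨{ toFun := fun g => z (Additive.toMul g)
            map_zero' := ?_
            map_add' := ?_ }, ?_⟩
  · apply mul_left_cancel₀ hn
    rw [← hz', map_zero, mul_zero]
  · intro a b
    apply mul_left_cancel₀ hn
    rw [← hz', mul_add, ← hz', ← hz', map_add]
  · refine AddMonoidHom.ext fun g => ?_
    rw [AddMonoidHom.nsmul_apply, nsmul_eq_mul]
    exact hz' g

end Div

/-! ## The leaf -/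

/-- **ASM2.**  `FreeAbsStatement → EisensteinStatement → FreeStatement`. -/
theorem freeOfAbs : FreeOfAbsStatement.{u} := by
  intro hAbs hEis p M l _ _ hl hM D _ _ κ hκ hcard hell hΓ1 O _ _ _ _ hp e t he het hec htc hcor
    hsurj hinj
  have : NeZero M := ⟨hM⟩
  have hneg1 : (-1 : SL(2, ℤ)) ∈ Gamma0 M := by
    rw [Gamma0_mem]
    simp
  have hfin : IsOfFinOrder (⟨-1, hneg1⟩ : Gamma0 M) := by
    refine isOfFinOrder_iff_pow_eq_one.2 ⟨2, by norm_num, ?_⟩
    apply Subtype.ext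
    simp
  have hneg : (-1 : SL(2, ℤ)) ∈ kerSub κ := mem_kerSub.mpr ⟨hneg1, hell _ hfin⟩
  refine hAbs p (Gamma0 M) D κ hκ hcard hneg hell O hp e t ((l : O) + 1) he het hec htc ?_
    hsurj hinj
  intro x hx
  -- `|D| ≠ 0` in `O`
  have hD : ((Fintype.card D : ℕ) : O) ≠ 0 := by
    rw [Nat.cast_ne_zero]
    exact Fintype.card_ne_zero
  -- reduction modulo `|D|`
  let I : Ideal O := Ideal.span {((Fintype.card D : ℕ) : O)}
  let π : O →+ O ⧸ I := (Ideal.Quotient.mk I).toAddMonoidHom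
  have hπ : ∀ a : O, π a = 0 → ∃ z : O, a = ((Fintype.card D : ℕ) : O) * z := by
    intro a ha
    have h1 : a ∈ I := Ideal.Quotient.eq_zero_iff_mem.1 ha
    obtain ⟨z, hz⟩ := Ideal.mem_span_singleton'.1 h1
    exact ⟨z, by rw [← hz, mul_comm]⟩
  -- `cor x mod |D|` is trivial on `Γ₁(M)`
  have hθ : ∀ γ : Gamma0 M, ((((γ : SL(2, ℤ)) 1 1 : ℤ)) : ZMod M) = 1 →
      (π.comp (cor κ x)) (Additive.ofMul γ) = 0 := by
    intro γ hγ
    rw [AddMonoidHom.comp_apply, cor_apply_of_ker_of_invariant κ hκ x hx γ (hΓ1 γ hγ),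
      nsmul_eq_mul]
    exact Ideal.Quotient.eq_zero_iff_mem.2
      (Ideal.mul_mem_right _ _ (Ideal.subset_span rfl))
  have hE := hEis M l hl hM (O ⧸ I) (π.comp (cor κ x)) hθ
  rw [heckeTransfer_comp] at hE
  -- the defect has values in `|D| O`
  have hw : ∀ γ : Gamma0 M, ∃ z : O,
      (cor κ (t x - ((l : O) + 1) • x)) (Additive.ofMul γ) = ((Fintype.card D : ℕ) : O) * z := by
    intro γ
    apply hπ
    rw [cor_sub, cor_smul, hcor, AddMonoidHom.sub_apply, map_sub]
    have h1 := congrArg (fun φ => φ (Additive.ofMul γ)) hE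
    simp only [AddMonoidHom.comp_apply, AddMonoidHom.nsmul_apply] at h1
    rw [h1, sub_eq_zero]
    show (l + 1) • π (cor κ x (Additive.ofMul γ)) =
      π (((l : O) + 1) * cor κ x (Additive.ofMul γ))
    rw [← map_nsmul, nsmul_eq_mul, Nat.cast_add, Nat.cast_one]
  exact exists_eq_nsmul_of_forall_dvd (Fintype.card D) hD _ hw

end Fermat.Agent.S59.MFree.H587

end
-- ===== PACK-END S59/MFree/H587/FreeOfAbs.lean

-- ===== PACK-BEGIN S59/TW/H564/Twist.lean
section




/-!
# Twisting a form with nebentypus by a Dirichlet character (helper564, row S59, leaf E4 TWIST)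

Function level, any weight `k`.  `IsNeb k M χ f` : `f ∣[k] γ = χ(d_γ) • f` for `γ ∈ Γ₀(M)`
(`χ : ℤ → ℂ`, periodic modulo `M`, `χ 1 = 1`: `IsCharMod M χ`).

For `q ∣ M` and a Dirichlet character `ψ` modulo `q`:

    twist k q ψ f  :=  ∑_{u mod q} ψ⁻¹(u) • f ∣[k] tr (u / q).

* `twist_isNeb`  : `twist k q ψ f` has nebentypus `d ↦ χ(d) ψ(d)²` on `Γ₀(M q)`;
* `isCuspidal_twist` : holomorphy and vanishing at the cusps are preserved;
* `heckeT_twist` : `T_ℓ (twist f) = ψ(ℓ) • twist (U_ℓ f) + ψ(ℓ)⁻¹ • twist (f ∣ diag(ℓ,1))`,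
   i.e. `= ψ(ℓ) • twist (U_ℓ f + χ(ℓ) f ∣ diag(ℓ,1))` when `χ(ℓ) ψ(ℓ)² = 1`;
* `twist_injective` : if `q ∥ M`, `ψ ≠ 1` and `χ` is non-trivial on the units `≡ 1 mod M/q`, then
  `twist k q ψ f = 0 → f = 0`.
-/

set_option autoImplicit false
set_option linter.unusedSectionVars false

namespace Fermat.Agent.S59.TW.H564

open Matrix Matrix.SpecialLinearGroup CongruenceSubgroup UpperHalfPlane ModularForm
open Fermat.Agent.Lib.Newform.H803
open scoped MatrixGroups ModularForm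

variable {k : ℤ}

/-- `f` has nebentypus `χ` on `Γ₀(M)`: `f ∣[k] γ = χ(d_γ) • f`. -/
def IsNeb (k : ℤ) (M : ℕ) (χ : ℤ → ℂ) (f : ℍ → ℂ) : Prop :=
  ∀ γ ∈ Gamma0 M, f ∣[k] γ = χ (γ 1 1) • f

/-- `χ : ℤ → ℂ` is periodic modulo `M` and `χ 1 = 1`. -/
structure IsCharMod (M : ℕ) (χ : ℤ → ℂ) : Prop where
  one : χ 1 = 1
  periodic : ∀ d d' : ℤ, (M : ℤ) ∣ d - d' → χ d = χ d'

/-- `f` is invariant under the integer translations. -/
def IsPer (k : ℤ) (f : ℍ → ℂ) : Prop := ∀ n : ℤ, f ∣[k] tU n = f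

theorem IsNeb.isPer {M : ℕ} {χ : ℤ → ℂ} (hχ : IsCharMod M χ) {f : ℍ → ℂ}
    (hf : IsNeb k M χ f) : IsPer k f := by
  intro n
  have hmem : tU n ∈ Gamma0 M := by
    rw [mem_Gamma0_iff_dvd]
    have : tU n 1 0 = 0 := rfl
    rw [this]
    exact dvd_zero _
  have h11 : tU n 1 1 = 1 := rfl
  rw [hf _ hmem, h11, hχ.one, one_smul]

theorem IsNeb.slInv {M : ℕ} {χ : ℤ → ℂ} {f : ℍ → ℂ} (hf : IsNeb k M χ f)
    (h1 : ∀ γ ∈ Gamma0 M, χ (γ 1 1) = 1) : SlInv k (Gamma0 M) f := by
  intro γ hγ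
  rw [hf γ hγ, h1 γ hγ, one_smul]

theorem IsPer.add {f g : ℍ → ℂ} (hf : IsPer k f) (hg : IsPer k g) : IsPer k (f + g) := by
  intro n
  rw [SlashAction.add_slash, hf n, hg n]

theorem IsPer.smul {f : ℍ → ℂ} (c : ℂ) (hf : IsPer k f) : IsPer k (c • f) := by
  intro n
  rw [ModularForm.SL_smul_slash, hf n]

theorem IsPer.slash_tr_int {f : ℍ → ℂ} (hf : IsPer k f) (n : ℤ) :
    f ∣[k] tr (n : ℝ) = f := by
  rw [Fermat.Agent.S59.TW.H564.slash_tr_intCast, hf n]

section Shift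

variable (k) (q : ℕ) [NeZero q]

/-- `f ∣[k] tr (u / q)` for `u : ZMod q`. -/
noncomputable def shift (f : ℍ → ℂ) (u : ZMod q) : ℍ → ℂ :=
  f ∣[k] tr ((u.val : ℝ) / q)

variable {k q}

theorem shift_zero {f : ℍ → ℂ} : shift k q f 0 = f := by
  rw [shift, ZMod.val_zero, Nat.cast_zero, zero_div, tr_zero, SlashAction.slash_one]

theorem shift_add' (f g : ℍ → ℂ) (u : ZMod q) :
    shift k q (f + g) u = shift k q f u + shift k q g u := by
  rw [shift, shift, shift, SlashAction.add_slash]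

theorem shift_smul (c : ℂ) (f : ℍ → ℂ) (u : ZMod q) :
    shift k q (c • f) u = c • shift k q f u := by
  rw [shift, shift, smul_slash_tr]

/-- For a periodic `f`, `f ∣ tr (n / q)` only depends on `n` modulo `q`. -/
theorem slash_tr_div {f : ℍ → ℂ} (hf : IsPer k f) (n : ℤ) :
    f ∣[k] tr ((n : ℝ) / q) = shift k q f (n : ZMod q) := by
  have hq : (q : ℝ) ≠ 0 := by exact_mod_cast NeZero.ne q
  have h1 : (n : ℝ) / q = ((n / (q : ℤ) : ℤ) : ℝ) + (((n : ZMod q).val : ℕ) : ℝ) / q := by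
    have h2 : (((n : ZMod q).val : ℕ) : ℤ) = n % q := ZMod.val_intCast n
    have h3 := Int.emod_add_mul_ediv n (q : ℤ)
    have h4 : (n : ℝ) = (((n : ZMod q).val : ℕ) : ℝ) + (q : ℝ) * ((n / (q : ℤ) : ℤ) : ℝ) := by
      rw [← h2] at h3
      exact_mod_cast h3.symm
    field_simp
    linear_combination h4
  rw [h1, slash_tr_add, hf.slash_tr_int]
  rfl

theorem shift_shift {f : ℍ → ℂ} (hf : IsPer k f) (u v : ZMod q) :
    (shift k q f u) ∣[k] tr ((v.val : ℝ) / q) = shift k q f (u + v) := by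
  have h := slash_tr_div (q := q) hf ((u.val : ℤ) + (v.val : ℤ))
  rw [shift, ← slash_tr_add]
  have e : ((u.val : ℝ) / q + (v.val : ℝ) / q) = (((u.val : ℤ) + (v.val : ℤ) : ℤ) : ℝ) / q := by
    push_cast
    ring
  rw [e, h]
  congr 1
  push_cast
  rw [ZMod.natCast_zmod_val, ZMod.natCast_zmod_val]

theorem shift_slash_tr_div {f : ℍ → ℂ} (hf : IsPer k f) (u : ZMod q) (n : ℤ) :
    (shift k q f u) ∣[k] tr ((n : ℝ) / q) = shift k q f (u + (n : ZMod q)) := by
  have h := slash_tr_div (q := q) hf ((u.val : ℤ) + n)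
  rw [shift, ← slash_tr_add]
  have e : ((u.val : ℝ) / q + (n : ℝ) / q) = (((u.val : ℤ) + n : ℤ) : ℝ) / q := by
    push_cast
    ring
  rw [e, h]
  congr 1
  push_cast
  rw [ZMod.natCast_zmod_val]

end Shift

section Twist

variable (k) (q : ℕ) [NeZero q]

/-- The twist of `f` by the Dirichlet character `ψ` modulo `q` (up to the Gauss sum):
`∑_{u mod q} ψ⁻¹(u) • f ∣[k] tr (u / q)`. -/
noncomputable def twist (ψ : DirichletCharacter ℂ q) (f : ℍ → ℂ) : ℍ → ℂ :=
  ∑ u : ZMod q, (ψ u)⁻¹ • shift k q f u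

variable {k q}

theorem twist_add (ψ : DirichletCharacter ℂ q) (f g : ℍ → ℂ) :
    twist k q ψ (f + g) = twist k q ψ f + twist k q ψ g := by
  simp only [twist, shift_add', smul_add, Finset.sum_add_distrib]

theorem twist_smul (ψ : DirichletCharacter ℂ q) (c : ℂ) (f : ℍ → ℂ) :
    twist k q ψ (c • f) = c • twist k q ψ f := by
  simp only [twist, shift_smul, Finset.smul_sum, smul_comm c]

theorem twist_zero (ψ : DirichletCharacter ℂ q) : twist k q ψ (0 : ℍ → ℂ) = 0 := by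
  have := twist_smul (k := k) ψ 0 (0 : ℍ → ℂ)
  simpa using this

/-- The twist as a linear map. -/
noncomputable def twistLin (k : ℤ) (q : ℕ) [NeZero q] (ψ : DirichletCharacter ℂ q) :
    (ℍ → ℂ) →ₗ[ℂ] (ℍ → ℂ) where
  toFun := twist k q ψ
  map_add' := twist_add ψ
  map_smul' := twist_smul ψ

@[simp] theorem twistLin_apply (ψ : DirichletCharacter ℂ q) (f : ℍ → ℂ) :
    twistLin k q ψ f = twist k q ψ f := rfl

/-- Reindexing a twisted sum along multiplication by a unit. -/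
theorem sum_inv_smul_mul_unit (ψ : DirichletCharacter ℂ q) {a : ZMod q} (ha : IsUnit a)
    (G : ZMod q → ℍ → ℂ) :
    ∑ u : ZMod q, (ψ u)⁻¹ • G (a * u) = ψ a • ∑ v : ZMod q, (ψ v)⁻¹ • G v := by
  have hψa : ψ a ≠ 0 := (ha.map ψ).ne_zero
  have hbij : Function.Bijective (fun u : ZMod q => a * u) := by
    obtain ⟨w, rfl⟩ := ha
    exact (Units.mulLeft w).bijective
  rw [← hbij.sum_comp (fun v => (ψ v)⁻¹ • G v), Finset.smul_sum]
  refine Finset.sum_congr rfl fun u _ => ?_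
  rw [map_mul, mul_inv, smul_smul, ← mul_assoc, mul_inv_cancel₀ hψa, one_mul]

end Twist

/-! ## The nebentypus of the twist -/

section Neb

theorem isUnit_cast_of_mem_Gamma0 {N q : ℕ} (hq : q ∣ N) {γ : SL(2, ℤ)}
    (hγ : γ ∈ Gamma0 N) : IsUnit ((γ 1 1 : ℤ) : ZMod q) := by
  have hdet := det_eq_one' γ
  have hc : ((γ 1 0 : ℤ) : ZMod q) = 0 := by
    rw [ZMod.intCast_zmod_eq_zero_iff_dvd]
    exact (Int.natCast_dvd_natCast.mpr hq).trans (mem_Gamma0_iff_dvd.mp hγ)
  have h1 : ((γ 0 0 : ℤ) : ZMod q) * ((γ 1 1 : ℤ) : ZMod q) = 1 := by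
    have := congrArg (Int.cast : ℤ → ZMod q) hdet
    push_cast at this
    rw [hc, mul_zero, sub_zero] at this
    exact this
  exact IsUnit.of_mul_eq_one _ (by rwa [mul_comm] at h1)

variable {M q : ℕ} [NeZero q]

theorem shift_slash_of_mem (hqM : q ∣ M) {χ : ℤ → ℂ} (hχ : IsCharMod M χ)
    {f : ℍ → ℂ} (hf : IsNeb k M χ f) {γ : SL(2, ℤ)} (hγ : γ ∈ Gamma0 (M * q)) (u : ZMod q) :
    (shift k q f u) ∣[k] γ =
      χ (γ 1 1) • shift k q f (((γ 1 1 : ℤ) : ZMod q) ^ 2 * u) := by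
  obtain ⟨c₁, hc₁⟩ := mem_Gamma0_iff_dvd.mp hγ
  obtain ⟨m, hm⟩ := hqM
  have hc : γ 1 0 = (q : ℤ) ^ 2 * (m * c₁) := by
    rw [hc₁, hm]; push_cast; ring
  have hq0 : (q : ℤ) ≠ 0 := by exact_mod_cast NeZero.ne q
  have key := tr_mul_mapGL γ hq0 (m * c₁) (u.val : ℤ) hc
  have hcast : ((u.val : ℕ) : ℝ) = (((u.val : ℕ) : ℤ) : ℝ) := by push_cast; rfl
  have hcast' : (((q : ℕ) : ℤ) : ℝ) = (q : ℝ) := by push_cast; rfl
  rw [hcast'] at key
  rw [shift, sl_slash_mapGL, ← SlashAction.slash_mul, hcast, key, SlashAction.slash_mul,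
    ← sl_slash_mapGL]
  have hγ' : conjMat γ q (m * c₁) u.val hc ∈ Gamma0 M := by
    rw [mem_Gamma0_iff_dvd, conjMat_apply_10, hc₁]
    exact ⟨q * c₁, by push_cast; ring⟩
  rw [hf _ hγ', smul_slash_tr, conjMat_apply_11]
  have hχ' : χ (γ 1 1 - q * (m * c₁) * γ 1 1 ^ 2 * u.val) = χ (γ 1 1) := by
    apply hχ.periodic
    refine ⟨-(c₁ * γ 1 1 ^ 2 * u.val), ?_⟩
    rw [hm]; push_cast; ring
  rw [hχ']
  congr 1
  rw [slash_tr_div (hf.isPer hχ)]
  congr 1
  push_cast
  rw [ZMod.natCast_zmod_val]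

/-- **T1.** The twist of a form with nebentypus `χ` on `Γ₀(M)` has nebentypus `χ ψ²` on
`Γ₀(M q)` (`q ∣ M`). -/
theorem twist_isNeb (hqM : q ∣ M) {χ : ℤ → ℂ} (hχ : IsCharMod M χ)
    (ψ : DirichletCharacter ℂ q) {f : ℍ → ℂ} (hf : IsNeb k M χ f) :
    IsNeb k (M * q) (fun d => χ d * ψ (d : ZMod q) ^ 2) (twist k q ψ f) := by
  intro γ hγ
  have hu := isUnit_cast_of_mem_Gamma0 (q := q) (Dvd.intro_left M rfl) hγ
  rw [twist, SlashAction.sum_slash]
  simp_rw [ModularForm.SL_smul_slash, shift_slash_of_mem hqM hχ hf hγ,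
    smul_comm _ (χ (γ 1 1))]
  rw [← Finset.smul_sum, sum_inv_smul_mul_unit ψ (hu.pow 2) (shift k q f), map_pow, smul_smul]

theorem isCharMod_twist {χ : ℤ → ℂ} (hχ : IsCharMod M χ)
    (ψ : DirichletCharacter ℂ q) :
    IsCharMod (M * q) (fun d => χ d * ψ (d : ZMod q) ^ 2) := by
  refine ⟨by simp [hχ.one], fun d d' h => ?_⟩
  have h1 : (M : ℤ) ∣ d - d' := (Dvd.intro _ (by push_cast; rfl)).trans h
  have h2 : ((d : ℤ) : ZMod q) = d' := by
    rw [ZMod.intCast_eq_intCast_iff_dvd_sub]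
    have : ((q : ℕ) : ℤ) ∣ d - d' := (Dvd.intro_left _ (by push_cast; rfl)).trans h
    simpa using (dvd_neg.mpr this)
  simp only [hχ.periodic d d' h1, h2]

end Neb

/-! ## Holomorphy and cusps -/

section Cusp

variable {q : ℕ} [NeZero q]

theorem tr_ratCast (x : ℚ) :
    tr (x : ℝ) = (upperTriQ 1 x 1 (by norm_num)).map (Rat.castHom ℝ) := by
  apply Units.ext
  rw [val_tr]
  ext i j
  fin_cases i <;> fin_cases j <;> simp [upperTriQ]

theorem isCuspidal_slash_tr_rat {F : ℍ → ℂ} (hF : IsCuspidal k F) (x : ℚ) :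
    IsCuspidal k (F ∣[k] tr (x : ℝ)) := by
  rw [tr_ratCast]
  exact hF.slash_rat _

theorem isCuspidal_shift {F : ℍ → ℂ} (hF : IsCuspidal k F) (u : ZMod q) :
    IsCuspidal k (shift k q F u) := by
  have e : ((u.val : ℝ) / q) = (((u.val : ℚ) / q : ℚ) : ℝ) := by push_cast; rfl
  rw [shift, e]
  exact isCuspidal_slash_tr_rat hF _

/-- **T2.** The twist preserves holomorphy and the vanishing at all cusps. -/
theorem isCuspidal_twist (ψ : DirichletCharacter ℂ q) {F : ℍ → ℂ} (hF : IsCuspidal k F) :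
    IsCuspidal k (twist k q ψ F) := by
  rw [← mem_cuspSub, twist]
  exact Submodule.sum_mem _ fun u _ => Submodule.smul_mem _ _ (isCuspidal_shift hF u)

/-- The twist as a cusp form on `Γ₀(M q)`, when the twisted nebentypus is trivial. -/
noncomputable def twistCuspForm {M : ℕ} (hqM : q ∣ M) {χ : ℤ → ℂ} (hχ : IsCharMod M χ)
    (ψ : DirichletCharacter ℂ q) (f : ℍ → ℂ) (hf : IsNeb k M χ f) (hc : IsCuspidal k f)
    (h1 : ∀ γ ∈ Gamma0 (M * q), χ (γ 1 1) * ψ ((γ 1 1 : ℤ) : ZMod q) ^ 2 = 1) :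
    CuspForm (Gamma0 (M * q)) k :=
  cuspFormOfIsCuspidal (Gamma0 (M * q)) (twist k q ψ f) (isCuspidal_twist ψ hc)
    ((twist_isNeb hqM hχ ψ hf).slInv h1)

@[simp] theorem coe_twistCuspForm {M : ℕ} (hqM : q ∣ M) {χ : ℤ → ℂ} (hχ : IsCharMod M χ)
    (ψ : DirichletCharacter ℂ q) (f : ℍ → ℂ) (hf : IsNeb k M χ f) (hc : IsCuspidal k f)
    (h1 : ∀ γ ∈ Gamma0 (M * q), χ (γ 1 1) * ψ ((γ 1 1 : ℤ) : ZMod q) ^ 2 = 1) :
    ((twistCuspForm hqM hχ ψ f hf hc h1 : CuspForm (Gamma0 (M * q)) k) : ℍ → ℂ) =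
      twist k q ψ f := rfl

end Cusp

/-! ## Hecke operators -/

section Hecke

variable {q : ℕ} [NeZero q]

theorem heckeMatrix_mul_tr_one {ℓ : ℕ} (hℓ : ℓ ≠ 0) (j : ℕ) :
    heckeMatrix ℓ j * tr 1 = heckeMatrix ℓ (j + 1) := by
  apply Units.ext
  rw [Units.val_mul, val_tr, val_heckeMatrix hℓ, val_heckeMatrix hℓ]
  ext i j
  fin_cases i <;> fin_cases j <;> simp [Matrix.mul_apply, Fin.sum_univ_two]
  ring

theorem heckeMatrix_self {ℓ : ℕ} (hℓ : ℓ ≠ 0) :
    heckeMatrix ℓ ℓ = tr 1 * heckeMatrix ℓ 0 := by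
  apply Units.ext
  rw [Units.val_mul, val_tr, val_heckeMatrix hℓ, val_heckeMatrix hℓ]
  ext i j
  fin_cases i <;> fin_cases j <;> simp [Matrix.mul_apply, Fin.sum_univ_two]

theorem tr_one : tr 1 = mapGL ℝ (tU 1) := by
  have := tr_intCast 1
  simpa using this

/-- `U_ℓ f` is periodic if `f` is. -/
theorem isPer_heckeU {f : ℍ → ℂ} (hf : IsPer k f) (ℓ : ℕ) : IsPer k (heckeU k ℓ f) := by
  rcases eq_or_ne ℓ 0 with rfl | hℓ
  · intro n
    rw [heckeU_zero_left, SlashAction.zero_slash]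
  have h1 : (heckeU k ℓ f) ∣[k] tU 1 = heckeU k ℓ f := by
    rw [heckeU_def, sl_slash_mapGL, ← tr_one, SlashAction.sum_slash]
    have key : ∀ j : ℕ, (f ∣[k] heckeMatrix ℓ j) ∣[k] tr 1 = f ∣[k] heckeMatrix ℓ (j + 1) := by
      intro j
      rw [← SlashAction.slash_mul, heckeMatrix_mul_tr_one hℓ]
    simp only [key]
    have e1 := Finset.sum_range_succ' (fun j : ℕ => f ∣[k] heckeMatrix ℓ j) ℓ
    have e2 := Finset.sum_range_succ (fun j : ℕ => f ∣[k] heckeMatrix ℓ j) ℓ
    have e3 : f ∣[k] heckeMatrix ℓ ℓ = f ∣[k] heckeMatrix ℓ 0 := by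
      rw [heckeMatrix_self hℓ, SlashAction.slash_mul, tr_one, ← sl_slash_mapGL, hf 1]
    rw [e3] at e2
    rw [e2] at e1
    exact (add_right_cancel e1).symm
  intro n
  have := slash_tU_mul h1 n
  rwa [mul_one] at this

theorem shift_slash_heckeMatrix {ℓ : ℕ} (hℓ : ℓ ≠ 0) (j : ℕ) (f : ℍ → ℂ) (u : ZMod q) :
    (shift k q f u) ∣[k] heckeMatrix ℓ j =
      (f ∣[k] heckeMatrix ℓ j) ∣[k] tr ((((ℓ : ℤ) * (u.val : ℤ) : ℤ) : ℝ) / q) := by
  rw [shift, ← SlashAction.slash_mul, tr_mul_heckeMatrix hℓ, SlashAction.slash_mul]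
  congr 2
  push_cast
  ring

/-- `U_ℓ (twist f) = ψ(ℓ) • twist (U_ℓ f)`. -/
theorem heckeU_twist {ℓ : ℕ} (hℓ : ℓ ≠ 0) (hℓq : IsUnit (ℓ : ZMod q))
    (ψ : DirichletCharacter ℂ q) {f : ℍ → ℂ} (hf : IsPer k f) :
    heckeU k ℓ (twist k q ψ f) = ψ (ℓ : ZMod q) • twist k q ψ (heckeU k ℓ f) := by
  have hU := isPer_heckeU hf ℓ
  have step : ∀ u : ZMod q, ∑ j ∈ Finset.range ℓ, (shift k q f u) ∣[k] heckeMatrix ℓ j =
      shift k q (heckeU k ℓ f) ((ℓ : ZMod q) * u) := by
    intro u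
    simp only [shift_slash_heckeMatrix hℓ]
    rw [← SlashAction.sum_slash, ← heckeU_def, slash_tr_div hU]
    congr 1
    push_cast
    rw [ZMod.natCast_zmod_val]
  rw [heckeU_def, twist]
  simp only [SlashAction.sum_slash, smul_slash_heckeMatrix]
  rw [Finset.sum_comm]
  simp only [← Finset.smul_sum, step]
  exact sum_inv_smul_mul_unit ψ hℓq (shift k q (heckeU k ℓ f))

theorem shift_slash_heckeDiagMatrix {ℓ : ℕ} (hℓ : ℓ ≠ 0) {a : ZMod q}
    (ha : a * (ℓ : ZMod q) = 1) {f : ℍ → ℂ} (hf : IsPer k f) (u : ZMod q) :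
    (shift k q f u) ∣[k] heckeDiagMatrix ℓ = shift k q (f ∣[k] heckeDiagMatrix ℓ) (a * u) := by
  have e1 : shift k q f u = f ∣[k] tr ((ℓ : ℝ) * (((a * u).val : ℝ) / q)) := by
    have h := slash_tr_div (q := q) hf ((ℓ : ℤ) * ((a * u).val : ℤ))
    have e : ((((ℓ : ℤ) * ((a * u).val : ℤ) : ℤ) : ℝ) / q) = (ℓ : ℝ) * (((a * u).val : ℝ) / q) := by
      push_cast
      ring
    rw [e] at h
    rw [h]
    congr 1
    push_cast
    rw [ZMod.natCast_zmod_val, ← mul_assoc, mul_comm (ℓ : ZMod q), ha, one_mul]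
  rw [e1, ← SlashAction.slash_mul, tr_mul_heckeDiagMatrix hℓ, SlashAction.slash_mul]
  rfl

/-- `(twist f) ∣ diag(ℓ, 1) = ψ(ℓ)⁻¹ • twist (f ∣ diag(ℓ, 1))`. -/
theorem twist_slash_heckeDiagMatrix {ℓ : ℕ} (hℓ : ℓ ≠ 0) (hℓq : IsUnit (ℓ : ZMod q))
    (ψ : DirichletCharacter ℂ q) {f : ℍ → ℂ} (hf : IsPer k f) :
    (twist k q ψ f) ∣[k] heckeDiagMatrix ℓ =
      (ψ (ℓ : ZMod q))⁻¹ • twist k q ψ (f ∣[k] heckeDiagMatrix ℓ) := by
  obtain ⟨w, hw⟩ := hℓq
  have ha : ((w⁻¹ : (ZMod q)ˣ) : ZMod q) * (ℓ : ZMod q) = 1 := by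
    rw [← hw, ← Units.val_mul, inv_mul_cancel, Units.val_one]
  have hψ : ψ ((w⁻¹ : (ZMod q)ˣ) : ZMod q) = (ψ (ℓ : ZMod q))⁻¹ := by
    have h1 : ψ ((w⁻¹ : (ZMod q)ˣ) : ZMod q) * ψ (ℓ : ZMod q) = 1 := by
      rw [← map_mul, ha, map_one]
    exact eq_inv_of_mul_eq_one_left h1
  rw [twist]
  simp only [SlashAction.sum_slash, smul_slash_heckeDiagMatrix,
    shift_slash_heckeDiagMatrix hℓ ha hf]
  rw [sum_inv_smul_mul_unit ψ (w⁻¹).isUnit (shift k q (f ∣[k] heckeDiagMatrix ℓ)), hψ]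
  rfl

/-- **T3.** Hecke operators and the twist. -/
theorem heckeT_twist {ℓ : ℕ} (hℓ : ℓ ≠ 0) (hℓq : IsUnit (ℓ : ZMod q))
    (ψ : DirichletCharacter ℂ q) {f : ℍ → ℂ} (hf : IsPer k f) :
    heckeT k ℓ (twist k q ψ f) =
      ψ (ℓ : ZMod q) • twist k q ψ (heckeU k ℓ f) +
        (ψ (ℓ : ZMod q))⁻¹ • twist k q ψ (f ∣[k] heckeDiagMatrix ℓ) := by
  rw [heckeT_eq_heckeU_add, heckeU_twist hℓ hℓq ψ hf, twist_slash_heckeDiagMatrix hℓ hℓq ψ hf]

/-- **T3'.** If `c ψ(ℓ)² = 1` (`c = χ(ℓ)`, the value of the nebentypus at `ℓ`), then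
`T_ℓ (twist f) = ψ(ℓ) • twist (U_ℓ f + c • f ∣ diag(ℓ, 1))`: the twist intertwines the
Hecke operator with nebentypus with `ψ(ℓ)`-times the Hecke operator of trivial character. -/
theorem heckeT_twist' {ℓ : ℕ} (hℓ : ℓ ≠ 0) (hℓq : IsUnit (ℓ : ZMod q))
    (ψ : DirichletCharacter ℂ q) {f : ℍ → ℂ} (hf : IsPer k f) {c : ℂ}
    (hc : c * ψ (ℓ : ZMod q) ^ 2 = 1) :
    heckeT k ℓ (twist k q ψ f) =
      ψ (ℓ : ZMod q) • twist k q ψ (heckeU k ℓ f + c • f ∣[k] heckeDiagMatrix ℓ) := by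
  have hψ : ψ (ℓ : ZMod q) ≠ 0 := (hℓq.map ψ).ne_zero
  have hc' : (ψ (ℓ : ZMod q))⁻¹ = ψ (ℓ : ZMod q) * c := by
    field_simp
    linear_combination -hc
  rw [heckeT_twist hℓ hℓq ψ hf, twist_add, twist_smul, smul_add, smul_smul, hc']

end Hecke

end Fermat.Agent.S59.TW.H564

end
-- ===== PACK-END S59/TW/H564/Twist.lean

-- ===== PACK-BEGIN Lib/RR/H638/NonSpecial.lean
section


/-!
# Non-special effective divisors (helper638)

From Riemann's theorem (`IsRiemannGenus K F g`) alone — no duality, no canonical divisor: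

`exists_nonspecial`: if `F / K` has infinitely many places (e.g. `K` infinite), then for every
finite set `S` of places and every `d ≤ g` there are `d` distinct places `P₁, …, P_d ∉ S` with
`ℓ(P₁ + ⋯ + P_d) = 1`, i.e. `L(P₁ + ⋯ + P_d) = K`.

This is input (G2) of the S18 endgames (origin/helper573:coord/S18-endgame-helper573.md).
-/

set_option autoImplicit false

noncomputable section

open AlgebraicCurve

namespace Fermat.Agent.Lib.RR.H638

open Fermat.Agent.Lib.RR

variable {K F : Type*} [Field K] [Field F] [Algebra K F]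

/-- An element of `L(E + P) ∖ L(E)` has order exactly `-(E P + 1)` at `P`. -/
theorem ord_eq_of_mem_of_not_mem (E : Divisor K F) (v : Place K F) {f : F}
    (hf : f ∈ riemannRochSpace (E + prim v)) (hf' : f ∉ riemannRochSpace E) :
    v.ord f = -(E v + 1) := by
  have hf0 : f ≠ 0 := fun h => hf' (h ▸ Submodule.zero_mem _)
  have h1 := (mem_L_iff.mp hf v).resolve_left hf0
  simp only [Finsupp.coe_add, Pi.add_apply, prim_apply_self] at h1
  by_contra hne
  apply hf'
  rw [mem_L_iff]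
  intro w
  right
  by_cases hw : w = v
  · subst hw; omega
  · have h2 := (mem_L_iff.mp hf w).resolve_left hf0
    simpa [prim_apply_of_ne hw] using h2

section

variable [FF1 K F]

/-- If `ℓ(E + P) > ℓ(E)` for all `P` in a finset `T` of places outside the support of `E`, then
`ℓ(E + ∑_{P ∈ T} P) ≥ ℓ(E) + #T`. -/
theorem ell_add_divT_ge (E : Divisor K F) (T : Finset (Place K F))
    (hT : ∀ v ∈ T, ell E < ell (E + prim v)) :
    ell E + T.card ≤ ell (E + divT T) := by
  classical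
  induction T using Finset.induction_on with
  | empty => simp [divT]
  | insert v T hv ih =>
    have ih' := ih (fun w hw => hT w (Finset.mem_insert_of_mem hw))
    have hvT := hT v (Finset.mem_insert_self v T)
    -- an element of L(E + v) not in L(E)
    have hne : ¬ riemannRochSpace (E + prim v) ≤ riemannRochSpace E := by
      intro hle
      have := Submodule.finrank_mono hle
      unfold ell at hvT
      omega
    obtain ⟨f, hf, hf'⟩ := SetLike.not_le_iff_exists.mp hne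
    have hford := ord_eq_of_mem_of_not_mem E v hf hf'
    have hdiv : divT (insert v T) = divT T + prim v := by
      unfold divT
      rw [Finset.sum_insert hv, add_comm]
    rw [hdiv, ← add_assoc, Finset.card_insert_of_notMem hv]
    -- f ∈ L(E + T + v) \ L(E + T)
    have hle : E + prim v ≤ E + divT T + prim v := by
      rw [Finsupp.le_def]; intro w
      have := divT_nonneg T w
      simp only [Finsupp.coe_add, Pi.add_apply]
      omega
    have hf1 : f ∈ riemannRochSpace (E + divT T + prim v) := L_mono hle hf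
    have hf2 : f ∉ riemannRochSpace (E + divT T) := by
      intro hmem
      have hf0 : f ≠ 0 := fun h => hf' (h ▸ Submodule.zero_mem _)
      have := (mem_L_iff.mp hmem v).resolve_left hf0
      simp only [Finsupp.coe_add, Pi.add_apply, divT_apply_not_mem hv] at this
      omega
    have hlt : ell (E + divT T) < ell (E + divT T + prim v) := by
      unfold ell
      apply Submodule.finrank_lt_finrank_of_lt
      refine lt_of_le_of_ne (L_mono ?_) ?_
      · rw [Finsupp.le_def]; intro w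
        simp only [Finsupp.coe_add, Pi.add_apply]
        by_cases hw : w = v
        · subst hw; rw [prim_apply_self]; omega
        · rw [prim_apply_of_ne hw]; omega
      · intro heq
        exact hf2 (heq ▸ hf1)
    omega

/-- One step: if `ℓ(E) = 1`-type bound `deg E + 1 - ℓ(E) < g`, then only finitely many places
`P ∉ supp E` can have `ℓ(E + P) > ℓ(E)`; quantitatively, any finset `T` of such places, disjoint
from the support of `E`, has `#T` bounded. -/
theorem card_le_of_ell_lt {g : ℕ} (hg : IsRiemannGenus K F g) (E : Divisor K F) :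
    ∃ N : ℕ, ∀ T : Finset (Place K F), (∀ v ∈ T, ell E < ell (E + prim v)) →
      (Divisor.degree E + 1 - (ell E : ℤ) < g) → T.card < N := by
  obtain ⟨c, hc⟩ := hg
  refine ⟨(c - Divisor.degree E).toNat + 1, fun T hT hlt => ?_⟩
  by_contra hcard
  push Not at hcard
  have h1 := ell_add_divT_ge E T hT
  have hdeg : Divisor.degree (E + divT T) = Divisor.degree E + T.card := by
    rw [map_add, degree_divT]
  have hc' : c ≤ Divisor.degree (E + divT T) := by
    rw [hdeg]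
    have := Int.self_le_toNat (c - Divisor.degree E)
    have : ((c - Divisor.degree E).toNat : ℤ) + 1 ≤ (T.card : ℤ) := by exact_mod_cast hcard
    omega
  have h2 := hc _ hc'
  rw [hdeg] at h2
  have h3 : (ell E : ℤ) + T.card ≤ ell (E + divT T) := by exact_mod_cast h1
  omega

/-- **Existence of non-special effective divisors.**  Assume `F / K` has infinitely many places.
For every finite set `S` of places and every `d ≤ g` there is a set `T` of `d` places outside `S`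
with `ℓ(∑_{P ∈ T} P) = 1`. -/
theorem exists_nonspecial {g : ℕ} (hg : IsRiemannGenus K F g) [Infinite (Place K F)]
    (S : Finset (Place K F)) (d : ℕ) (hd : d ≤ g) :
    ∃ T : Finset (Place K F), T.card = d ∧ Disjoint T S ∧ ell (divT T) = 1 := by
  classical
  induction d with
  | zero => exact ⟨∅, rfl, Finset.disjoint_empty_left S, by simp [divT, ell_zero]⟩
  | succ d ih =>
    obtain ⟨T, hTc, hTS, hTl⟩ := ih (by omega)
    obtain ⟨N, hN⟩ := card_le_of_ell_lt hg (divT T)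
    have hdeg : Divisor.degree (divT T) + 1 - (ell (divT T) : ℤ) < g := by
      rw [degree_divT, hTl, hTc]
      push_cast
      omega
    -- choose N fresh places outside `S ∪ T`
    have hinf : (((S ∪ T : Finset (Place K F)) : Set (Place K F))ᶜ).Infinite :=
      Set.Finite.infinite_compl (Finset.finite_toSet _)
    obtain ⟨U, hUsub, hUcard⟩ := hinf.exists_subset_card_eq N
    have hex : ∃ v ∈ U, ¬ ell (divT T) < ell (divT T + prim v) := by
      by_contra hall
      push Not at hall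
      have := hN U hall hdeg
      omega
    obtain ⟨v, hvU, hv⟩ := hex
    have hvST : v ∉ S ∪ T := by
      have := hUsub (Finset.mem_coe.mpr hvU)
      simpa using this
    have hvS : v ∉ S := fun h => hvST (Finset.mem_union_left _ h)
    have hvT : v ∉ T := fun h => hvST (Finset.mem_union_right _ h)
    refine ⟨insert v T, ?_, ?_, ?_⟩
    · rw [Finset.card_insert_of_notMem hvT, hTc]
    · rw [Finset.disjoint_insert_left]
      exact ⟨hvS, hTS⟩
    · have hdiv : divT (insert v T) = divT T + prim v := by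
        unfold divT
        rw [Finset.sum_insert hvT, add_comm]
      rw [hdiv]
      have hle : divT T ≤ divT T + prim v := by
        rw [Finsupp.le_def]; intro w
        simp only [Finsupp.coe_add, Pi.add_apply]
        by_cases hw : w = v
        · subst hw; rw [prim_apply_self]; omega
        · rw [prim_apply_of_ne hw]; omega
      have := ell_mono hle
      omega

/-- Over an infinite constant field there are infinitely many places: the zeros of `x - c`,
`c ∈ K`, are pairwise distinct. -/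
theorem infinite_place [Infinite K] : Infinite (Place K F) := by
  obtain ⟨x, hxt, -⟩ := FF1.exists_finite (K := K) (F := F)
  have hnc : ∀ c : K, x - algebraMap K F c ∉ Set.range (algebraMap K F) := by
    rintro c ⟨b, hb⟩
    apply hxt
    have hx : x = algebraMap K F (b + c) := by
      rw [map_add, hb]; ring
    rw [hx]
    exact isAlgebraic_algebraMap _
  have hne : ∀ c : K, x - algebraMap K F c ≠ 0 := by
    intro c h0
    exact hnc c ⟨0, by rw [map_zero, h0]⟩
  have hz : ∀ c : K, ∃ v : Place K F, 0 < v.ord (x - algebraMap K F c) := by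
    intro c
    obtain ⟨v, hv⟩ := zerosOf_nonempty (K := K) (hne c) (hnc c)
    exact ⟨v, mem_zerosOf.mp hv⟩
  choose z hz using hz
  refine Infinite.of_injective z ?_
  intro c c' hcc
  by_contra hne'
  have h1 := hz c
  have h2 := hz c'
  rw [hcc] at h1
  have hsub : (x - algebraMap K F c') - (x - algebraMap K F c) = algebraMap K F (c - c') := by
    rw [map_sub]; ring
  have hcne : algebraMap K F (c - c') ≠ 0 := by
    rw [Ne, map_eq_zero, sub_eq_zero]; exact hne'
  -- strict version: the difference has positive order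
  have h4 : 0 < (z c').ord ((x - algebraMap K F c') - (x - algebraMap K F c)) := by
    have := ord_add_of_le (z c') (f := x - algebraMap K F c') (g := -(x - algebraMap K F c))
      (n := 1) (Or.inr (by omega)) (Or.inr (by rw [ord_neg]; omega))
    rw [← sub_eq_add_neg] at this
    rcases this with h | h
    · rw [hsub] at h; exact absurd h hcne
    · omega
  rw [hsub, ord_algebraMap] at h4
  exact lt_irrefl _ h4

/-- `L(∑_{P ∈ T} P) = K` for the divisors of `exists_nonspecial`. -/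
theorem L_eq_range_of_ell_eq_one {E : Divisor K F} (hE : 0 ≤ E) (h : ell E = 1) :
    riemannRochSpace E = LinearMap.range (Algebra.linearMap K F) := by
  have hle : riemannRochSpace (0 : Divisor K F) ≤ riemannRochSpace E := L_mono hE
  have heq : riemannRochSpace (0 : Divisor K F) = riemannRochSpace E := by
    apply Submodule.eq_of_le_of_finrank_eq hle
    have h0 : ell (0 : Divisor K F) = 1 := ell_zero
    unfold ell at h h0
    rw [h, h0]
  rw [← heq, L_zero]

/-- Version of `exists_nonspecial` in terms of `L`: `d ≤ g` places outside `S` such that every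
function with at most simple poles at these places (and no other poles) is constant. -/
theorem exists_nonspecial' {g : ℕ} (hg : IsRiemannGenus K F g) [Infinite (Place K F)]
    (S : Finset (Place K F)) (d : ℕ) (hd : d ≤ g) :
    ∃ T : Finset (Place K F), T.card = d ∧ Disjoint T S ∧
      ∀ f : F, (∀ v : Place K F, v ∉ T → 0 ≤ v.ord f) → (∀ v ∈ T, -1 ≤ v.ord f) →
        f ∈ Set.range (algebraMap K F) := by
  obtain ⟨T, hc, hdisj, hl⟩ := exists_nonspecial hg S d hd
  refine ⟨T, hc, hdisj, fun f h1 h2 => ?_⟩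
  have hE : (0 : Divisor K F) ≤ divT T := by
    rw [Finsupp.le_def]; intro v; exact divT_nonneg T v
  have hf : f ∈ riemannRochSpace (divT T) := by
    rw [mem_L_iff]
    intro v
    right
    by_cases hv : v ∈ T
    · rw [divT_apply_mem hv]; exact h2 v hv
    · rw [divT_apply_not_mem hv]; simpa using h1 v hv
  rw [L_eq_range_of_ell_eq_one hE hl] at hf
  obtain ⟨c, hc⟩ := hf
  exact ⟨c, hc⟩

end

end Fermat.Agent.Lib.RR.H638

end
end
-- ===== PACK-END Lib/RR/H638/NonSpecial.lean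

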