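import Mathlib
import Fermat.Statements.S22
import Fermat.Agent.Pack.S43MC.G0E15L1
import Fermat.Agent.Pack.S43MC.G0E9L2
import Fermat.Agent.Pack.S43MC.G0E13L2
import Fermat.Agent.Pack.S43MC.G0E15L3
import Fermat.Agent.Pack.S43MC.G0E2L3
import Fermat.Agent.Pack.S43MC.G0E2L2
import Fermat.Agent.Pack.S43MC.G0E16L2
import Fermat.Agent.Pack.S43MC.G0E16L1
import Fermat.Agent.Pack.S43MC.G0E2L1
import Fermat.Agent.Pack.S43MC.G0E6L3
import Fermat.Agent.Pack.S44C.G0E19L0
import Fermat.Agent.Pack.S44C.G0E12L3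
import Fermat.Agent.Pack.S44C.G0E17L1
import Fermat.Agent.Pack.S44C.G0E2L0
import Fermat.Agent.Pack.S43GC.G0E5L0
import Fermat.Agent.Pack.S43MC.G0E14L1
import Fermat.Agent.Pack.S43GC.G0E5L3
import Fermat.Agent.Pack.S43GC.G0E13L2
import Fermat.Agent.Pack.S43MC.G0E4L3
import Fermat.Agent.Pack.S43MC.G0E12L3
import Fermat.Agent.Pack.S43MC.G0E16L0
import Fermat.Agent.Pack.S43MC.G0E16L3
import Fermat.Agent.Pack.Fast891

-- ===== PACK-BEGIN S25/H326/Transport.lean
section
/-
S25 helper (helper326), assembly block AS6 (`Stmt.SheafGlue`), part 3: transport along open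
immersions.

* `locHomOfRestrictHom`, `restrictHomOfLocHom` : morphisms between restrictions along an open
  immersion `f` versus sectionwise morphisms over the range of `f`;
* `nonempty_pullback_iso_of_locHom` (Conv3) : a sectionwise isomorphism `M ≅ b_* L` over the
  range of `b` gives `b^* M ≅ L`;
* `exists_locHom_of_pullback_iso` (Conv2) : an isomorphism `a_i^* L_i ≅ a_j^* L_j` gives a
  sectionwise isomorphism `(b_i)_* L_i ≅ (b_j)_* L_j` over the range of `a_i ≫ b_i = a_j ≫ b_j`;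
* `hasLocalGeneratorsOn_pushforward`, `rigLocOfIso`, `rigLocPushforward` (Conv1) : the
  pushforward of a rigidified invertible module along an open immersion is rigidified over the
  range.
-/




set_option autoImplicit false
set_option linter.unusedVariables false

universe u

noncomputable section

open CategoryTheory AlgebraicGeometry TopologicalSpace Opposite Limits

namespace Fermat.Agent.S25.H326

open Fermat.Agent.S25.H626 (res resO res_res res_smul res_add app_res hom_ext_apply resO_resO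
  unitMod toUnit ofUnit IsLocalGenerator eq_of_locally_eq_M eq_of_locally_eq_O exists_gluing_O
  resO_mul resO_one)

variable {X Y : Scheme.{u}}

section RestrictLocHom

variable (f : Y ⟶ X) [IsOpenImmersion f] {M N : X.Modules}

/-- A morphism between restrictions along an open immersion, sectionwise over its range. -/
def locHomOfRestrictHom (ψ : M.restrict f ⟶ N.restrict f) : LocHom f.opensRange M N where
  app W hW := H926.sectionMap f ψ W hW
  app_smul W hW r s := H926.sectionMap_smul f ψ W hW r s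
  app_res W W' hW h s := H926.sectionMap_map f ψ hW h s

theorem isBij_locHomOfRestrictIso (e : M.restrict f ≅ N.restrict f) :
    (locHomOfRestrictHom f e.hom).IsBij := fun W hW =>
  Function.bijective_iff_has_inverse.mpr
    ⟨H926.sectionMap f e.inv W hW, fun s => H926.sectionMap_inv_hom f e W hW s,
      fun s => H926.sectionMap_hom_inv f e W hW s⟩

/-- A sectionwise morphism over an open containing the range of `f` induces a morphism between
the restrictions along `f`. -/
def restrictHomOfLocHom {G : X.Opens} (hf : f.opensRange ≤ G) (φ : LocHom G M N) :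
    M.restrict f ⟶ N.restrict f :=
  mkHom (fun V => (H926.toRestr f N V).comp
      ((φ.app (f ''ᵁ V) ((f.image_le_opensRange V).trans hf)).comp (H926.ofRestr f M V)))
    (fun V V' h s => by
      simp only [AddMonoidHom.comp_apply]
      have h1 : H926.ofRestr f M V' (res (M.restrict f) h s) =
          res M (f.image_mono h) (H926.ofRestr f M V s) := rfl
      rw [h1, φ.app_res (f ''ᵁ V) (f ''ᵁ V') _ (f.image_mono h)]
      rfl)
    (fun V r s => by
      simp only [AddMonoidHom.comp_apply]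
      rw [H926.ofRestr_smul, φ.app_smul, H926.toRestr_smul]
      congr 1
      simp)

theorem restrictHomOfLocHom_app {G : X.Opens} (hf : f.opensRange ≤ G) (φ : LocHom G M N)
    (V : Y.Opens) (s : Γ(M.restrict f, V)) :
    (restrictHomOfLocHom f hf φ).app V s =
      H926.toRestr f N V (φ.app (f ''ᵁ V) ((f.image_le_opensRange V).trans hf)
        (H926.ofRestr f M V s)) := rfl

theorem isIso_restrictHomOfLocHom {G : X.Opens} (hf : f.opensRange ≤ G) (φ : LocHom G M N)
    (hφ : φ.IsBij) : IsIso (restrictHomOfLocHom f hf φ) := by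
  rw [Scheme.Modules.Hom.isIso_iff_isIso_app]
  intro V
  refine (ConcreteCategory.isIso_iff_bijective (C := Ab) _).mpr ?_
  exact hφ (f ''ᵁ V) ((f.image_le_opensRange V).trans hf)

/-- **Conv3.** A sectionwise isomorphism `M ≅ b_* L` over the range of the open immersion `b`
gives an isomorphism `b^* M ≅ L`. -/
theorem nonempty_pullback_iso_of_locHom (L : Y.Modules)
    (e : LocHom f.opensRange M ((Scheme.Modules.pushforward f).obj L)) (he : e.IsBij) :
    Nonempty ((Scheme.Modules.pullback f).obj M ≅ L) := by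
  have := isIso_restrictHomOfLocHom f le_rfl e he
  exact ⟨((Scheme.Modules.restrictFunctorIsoPullback f).app M).symm ≪≫
    asIso (restrictHomOfLocHom f le_rfl e) ≪≫
    (Scheme.Modules.restrictFunctorAdjCounitIso f).app L⟩

end RestrictLocHom

section Conv2

variable {X Y Z : Scheme.{u}}

/-- `(b_* L)|_{a ≫ b} ≅ a^* L` for open immersions `a`, `b`. -/
def restrictPushforwardIso (a : Z ⟶ Y) (b : Y ⟶ X) [IsOpenImmersion a] [IsOpenImmersion b]
    (L : Y.Modules) :
    ((Scheme.Modules.pushforward b).obj L).restrict (a ≫ b) ≅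
      (Scheme.Modules.pullback a).obj L :=
  (Scheme.Modules.restrictFunctorComp a b).app _ ≪≫
    (Scheme.Modules.restrictFunctor a).mapIso
      ((Scheme.Modules.restrictFunctorAdjCounitIso b).app L) ≪≫
    (Scheme.Modules.restrictFunctorIsoPullback a).app L

variable {Yi Yj : Scheme.{u}} (ai : Z ⟶ Yi) (aj : Z ⟶ Yj) (bi : Yi ⟶ X) (bj : Yj ⟶ X)
  [IsOpenImmersion ai] [IsOpenImmersion aj] [IsOpenImmersion bi] [IsOpenImmersion bj]

/-- **Conv2.** An isomorphism between the pullbacks of `L i`, `L j` to a common open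
subscheme gives a sectionwise isomorphism between the pushforwards over its range. -/
theorem exists_locHom_of_pullback_iso (h : ai ≫ bi = aj ≫ bj) (Li : Yi.Modules)
    (Lj : Yj.Modules)
    (iso : (Scheme.Modules.pullback ai).obj Li ≅ (Scheme.Modules.pullback aj).obj Lj) :
    ∃ φ : LocHom (ai ≫ bi).opensRange ((Scheme.Modules.pushforward bi).obj Li)
      ((Scheme.Modules.pushforward bj).obj Lj), φ.IsBij := by
  let E : ((Scheme.Modules.pushforward bi).obj Li).restrict (ai ≫ bi) ≅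
      ((Scheme.Modules.pushforward bj).obj Lj).restrict (ai ≫ bi) :=
    restrictPushforwardIso ai bi Li ≪≫ iso ≪≫ (restrictPushforwardIso aj bj Lj).symm ≪≫
      ((Scheme.Modules.restrictFunctorCongr h).app _).symm
  exact ⟨locHomOfRestrictHom (ai ≫ bi) E.hom, isBij_locHomOfRestrictIso (ai ≫ bi) E⟩

end Conv2

section Conv1

variable {X Y : Scheme.{u}}

/-- **Conv1 (generators).** The pushforward of an invertible module along an open immersion
has local generators over the range. -/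
theorem hasLocalGeneratorsOn_pushforward (b : Y ⟶ X) [IsOpenImmersion b] (L : Y.Modules)
    (hL : Scheme.Modules.IsInvertible L) :
    HasLocalGeneratorsOn b.opensRange ((Scheme.Modules.pushforward b).obj L) := by
  rintro x ⟨y, rfl⟩
  obtain ⟨V, hyV, ⟨e⟩⟩ := hL.exists_trivialization y
  let e' : ((Scheme.Modules.pushforward b).obj L).restrict (V.ι ≫ b) ≅ unitMod V.toScheme :=
    restrictPushforwardIso V.ι b L ≪≫ e
  refine ⟨(V.ι ≫ b) ''ᵁ ⊤, H626.genX (V.ι ≫ b) _ e' ⊤, ?_, ?_,
    H626.isLocalGenerator_genX (V.ι ≫ b) _ e'⟩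
  · rw [Scheme.Hom.comp_image]
    exact b.image_le_opensRange _
  · rw [Scheme.Hom.comp_image, Scheme.Opens.ι_image_top]
    exact ⟨y, hyV, rfl⟩

end Conv1

section LemmaA

variable {X T T' : Scheme.{u}} (j : T' ⟶ T) [IsOpenImmersion j] (σ : T ⟶ X) {P : X.Modules}

/-- For an open immersion `j`, the ring isomorphism `j^♯` on an open inside the range. -/
def appEquiv (V : T.Opens) (hV : V ≤ j.opensRange) : Γ(T, V) ≃+* Γ(T', j ⁻¹ᵁ V) :=
  haveI := j.isIso_app V hV
  RingEquiv.ofBijective (j.app V).hom (ConcreteCategory.bijective_of_isIso (j.app V))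

theorem appEquiv_apply (V : T.Opens) (hV : V ≤ j.opensRange) (a : Γ(T, V)) :
    appEquiv j V hV a = j.app V a := rfl

theorem appEquiv_symm_resO {V V' : T.Opens} (hV : V ≤ j.opensRange) (h : V' ≤ V)
    (x : Γ(T', j ⁻¹ᵁ V)) :
    (appEquiv j V' (h.trans hV)).symm (resO (j.preimage_mono h) x) =
      resO h ((appEquiv j V hV).symm x) := by
  apply (appEquiv j V' (h.trans hV)).injective
  rw [RingEquiv.apply_symm_apply, appEquiv_apply, app_resO, ← appEquiv_apply j V hV,
    RingEquiv.apply_symm_apply]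

theorem evFun_add {f : T' ⟶ X} {L : X.Modules} (ev : L ⟶ funMod f) (W : X.Opens)
    (s s' : Γ(L, W)) : evFun ev W (s + s') = evFun ev W s + evFun ev W s' := by
  unfold evFun
  rw [map_add]
  rfl

/-- The evaluation as an additive map. -/
def evFunHom {f : T' ⟶ X} {L : X.Modules} (ev : L ⟶ funMod f) (W : X.Opens) :
    Γ(L, W) →+ Γ(T', f ⁻¹ᵁ W) :=
  AddMonoidHom.mk' (evFun ev W) (evFun_add ev W)

/-- The evaluation attached to a trivialisation of the pullback. -/
def evOfIso {f : T' ⟶ X} {L : X.Modules}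
    (ρ : (Scheme.Modules.pullback f).obj L ≅ unitMod T') : L ⟶ funMod f :=
  (Scheme.Modules.pullbackPushforwardAdjunction f).homEquiv L (unitMod T') ρ.hom

/-- Functions on `(j ≫ σ)⁻¹ W` are functions on `j⁻¹ (σ⁻¹ W)` (the identity). -/
def castComp (W : X.Opens) : Γ(T', (j ≫ σ) ⁻¹ᵁ W) →+* Γ(T', j ⁻¹ᵁ (σ ⁻¹ᵁ W)) := RingHom.id _

omit [IsOpenImmersion j] in
theorem castComp_app (W : X.Opens) (r : Γ(X, W)) :
    castComp j σ W ((j ≫ σ).app W r) = j.app (σ ⁻¹ᵁ W) (σ.app W r) := rfl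

omit [IsOpenImmersion j] in
theorem castComp_resO {W W' : X.Opens} (h : W' ≤ W) (x : Γ(T', (j ≫ σ) ⁻¹ᵁ W)) :
    castComp j σ W' (resO ((j ≫ σ).preimage_mono h) x) =
      resO (j.preimage_mono (σ.preimage_mono h)) (castComp j σ W x) := rfl

/-- **Conv1 (evaluation).**  A trivialisation of the pullback of `P` along `j ≫ σ`, where `j`
is an open immersion whose range contains `σ⁻¹ G`, and local generators of `P` over `G`, give
a rigidification of `P` over `G` along `σ`. -/
def rigLocOfIso (ρ : (Scheme.Modules.pullback (j ≫ σ)).obj P ≅ unitMod T') (G : X.Opens)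
    (hG : σ ⁻¹ᵁ G ≤ j.opensRange) (hgen : HasLocalGeneratorsOn G P) : RigLoc σ G P where
  val W hW :=
    ((appEquiv j (σ ⁻¹ᵁ W) ((σ.preimage_mono hW).trans hG)).symm :
        Γ(T', j ⁻¹ᵁ (σ ⁻¹ᵁ W)) →+ Γ(T, σ ⁻¹ᵁ W)).comp
      (((castComp j σ W : Γ(T', (j ≫ σ) ⁻¹ᵁ W) →+ Γ(T', j ⁻¹ᵁ (σ ⁻¹ᵁ W)))).comp
        (evFunHom (f := j ≫ σ) (evOfIso ρ) W))
  val_smul W hW r s := by
    show (appEquiv j (σ ⁻¹ᵁ W) ((σ.preimage_mono hW).trans hG)).symm
        (castComp j σ W (evFun (f := j ≫ σ) (evOfIso ρ) W (r • s))) =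
      σ.app W r * (appEquiv j (σ ⁻¹ᵁ W) ((σ.preimage_mono hW).trans hG)).symm
        (castComp j σ W (evFun (f := j ≫ σ) (evOfIso ρ) W s))
    rw [evFun_smul, map_mul, map_mul, castComp_app]
    congr 1
    exact (appEquiv j (σ ⁻¹ᵁ W) _).symm_apply_apply (σ.app W r)
  val_res W W' hW h s := by
    show (appEquiv j (σ ⁻¹ᵁ W') (((σ.preimage_mono (h.trans hW))).trans hG)).symm
        (castComp j σ W' (evFun (f := j ≫ σ) (evOfIso ρ) W' (res P h s))) =
      resO (σ.preimage_mono h) ((appEquiv j (σ ⁻¹ᵁ W) ((σ.preimage_mono hW).trans hG)).symm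
        (castComp j σ W (evFun (f := j ≫ σ) (evOfIso ρ) W s)))
    rw [evFun_res, castComp_resO j σ h]
    exact appEquiv_symm_resO j ((σ.preimage_mono hW).trans hG) (σ.preimage_mono h) _
  gen := hgen
  unit W hW s hs := by
    show IsUnit ((appEquiv j (σ ⁻¹ᵁ W) ((σ.preimage_mono hW).trans hG)).symm
        (castComp j σ W (evFun (f := j ≫ σ) (evOfIso ρ) W s)))
    exact ((isUnit_evFun_of_iso (j ≫ σ) hs ρ).map (castComp j σ W)).map
      (appEquiv j (σ ⁻¹ᵁ W) ((σ.preimage_mono hW).trans hG)).symm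

end LemmaA

section Square

variable {X Y T T' : Scheme.{u}} (σ' : T' ⟶ Y) (b : Y ⟶ X) (j : T' ⟶ T) (σ : T ⟶ X)
  [IsOpenImmersion b] [IsOpenImmersion j]

/-- A trivialisation of `σ'^* L` gives a trivialisation of `(j ≫ σ)^* (b_* L)` when
`σ' ≫ b = j ≫ σ`. -/
def pullbackPushforwardIso (h : σ' ≫ b = j ≫ σ) (L : Y.Modules)
    (ρ : (Scheme.Modules.pullback σ').obj L ≅ unitMod T') :
    (Scheme.Modules.pullback (j ≫ σ)).obj ((Scheme.Modules.pushforward b).obj L) ≅
      unitMod T' :=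
  (Scheme.Modules.pullbackCongr h.symm).app _ ≪≫
    ((Scheme.Modules.pullbackComp σ' b).app _).symm ≪≫
    (Scheme.Modules.pullback σ').mapIso
      (((Scheme.Modules.restrictFunctorIsoPullback b).app _).symm ≪≫
        (Scheme.Modules.restrictFunctorAdjCounitIso b).app L) ≪≫ ρ

/-- **Conv1.** The pushforward along the open immersion `b` of an invertible module rigidified
along `σ'` is rigidified over the range of `b` along `σ`, in a square `σ' ≫ b = j ≫ σ` with
`j` an open immersion whose range contains `σ⁻¹ (range b)`. -/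
def rigLocPushforward (h : σ' ≫ b = j ≫ σ) (L : Y.Modules)
    (hL : Scheme.Modules.IsInvertible L) (ρ : (Scheme.Modules.pullback σ').obj L ≅ unitMod T')
    (hG : σ ⁻¹ᵁ b.opensRange ≤ j.opensRange) :
    RigLoc σ b.opensRange ((Scheme.Modules.pushforward b).obj L) :=
  rigLocOfIso j σ (pullbackPushforwardIso σ' b j σ h L ρ) b.opensRange hG
    (hasLocalGeneratorsOn_pushforward b L hL)

end Square

end Fermat.Agent.S25.H326

end

end
-- ===== PACK-END S25/H326/Transport.lean

-- ===== PACK-BEGIN S27/H267/GenusChart.lean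
section



/-!
# Row S27, leaf GENUS (helper267): the genus of a function field is `dim Ȟ¹(O)` of a chart

`(B₀, B₁, B₀₁, x, y, e)` a curve chart over an algebraically closed field `K` (row S25,
`IsCurveChart`), `j₀, j₁, j₀₁` compatible `K`-algebra maps to a field `F` with `j₀₁` injective
and `F = Frac (j₀₁ B₀₁)`.  Then

  `genusFF K F = finrank K (GlueDatum.unit K (K ⊗ B₀) (K ⊗ B₁) (K ⊗ B₀₁)).H1`.

Proof: the places of `F/K` are the maximal ideals of `B₀` and of `B₁` (valuative criterion from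
the finiteness of `x`, `y`), and `GenusCore` identifies Weil's `𝔸/(𝔸(0) + F)` with
`B₀₁/(B₀ + B₁)` by partial fractions on the two Dedekind charts.  No Riemann–Roch is used.
-/

set_option autoImplicit false
set_option linter.style.haveILetI false
set_option linter.unusedSectionVars false

noncomputable section

open AlgebraicCurve IsDedekindDomain
open scoped TensorProduct

namespace Fermat.Agent.S27.H267

open Fermat.Agent.S25

universe u v

/-! ## Integrality and valuation rings -/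

section Integral

variable {K : Type u} [Field K] {F : Type v} [Field F] [Algebra K F]

/-- If `z ∈ B` generates a finite `K[z]`-algebra `B` and a place contains `j z`, it contains
`j B`. -/
theorem mem_chartPlaces_of_mem {B : Type u} [CommRing B] [Algebra K B] (z : B)
    (hfin : (Polynomial.aeval z : Polynomial K →ₐ[K] B).Finite) (j : B →ₐ[K] F)
    (v : Place K F) (hz : j z ∈ v.toValuationSubring) :
    v ∈ chartPlaces (K := K) j.toRingHom := by
  intro b
  letI : Algebra (Polynomial K) B := (Polynomial.aeval z : Polynomial K →ₐ[K] B).toRingHom.toAlgebra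
  have hint : IsIntegral (Polynomial K) b :=
    (RingHom.Finite.to_isIntegral (f := (Polynomial.aeval z : Polynomial K →ₐ[K] B).toRingHom)
      hfin) b
  let g : Polynomial K →+* v.toValuationSubring :=
    (Polynomial.aeval (⟨j z, hz⟩ : v.toValuationSubring) :
      Polynomial K →ₐ[K] v.toValuationSubring).toRingHom
  have hcomp : (algebraMap v.toValuationSubring F).comp g =
      j.toRingHom.comp (algebraMap (Polynomial K) B) := by
    apply Polynomial.ringHom_ext
    · intro c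
      show algebraMap v.toValuationSubring F
          ((Polynomial.aeval (⟨j z, hz⟩ : v.toValuationSubring)) (Polynomial.C c)) =
        j ((Polynomial.aeval z) (Polynomial.C c))
      rw [Polynomial.aeval_C, Polynomial.aeval_C, AlgHom.commutes]
      rfl
    · show algebraMap v.toValuationSubring F
          ((Polynomial.aeval (⟨j z, hz⟩ : v.toValuationSubring)) Polynomial.X) =
        j ((Polynomial.aeval z) Polynomial.X)
      rw [Polynomial.aeval_X, Polynomial.aeval_X]
      rfl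
  have h2 : IsIntegral v.toValuationSubring (j.toRingHom b) :=
    IsIntegral.map_of_comp_eq g j.toRingHom hcomp hint
  obtain ⟨a, ha⟩ := (IsIntegrallyClosed.isIntegral_iff (R := v.toValuationSubring) (K := F)).mp h2
  rw [← ha]
  exact a.2

end Integral

/-! ## The chart -/

section Chart

variable {K : Type u} [Field K] [IsAlgClosed K] {F : Type v} [Field F] [Algebra K F]
  {B₀ B₁ B₀₁ : Type u} [CommRing B₀] [CommRing B₁] [CommRing B₀₁]
  [Algebra K B₀] [Algebra K B₁] [Algebra K B₀₁] [Algebra B₀ B₀₁] [Algebra B₁ B₀₁]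
  [IsScalarTower K B₀ B₀₁] [IsScalarTower K B₁ B₀₁]
  {x : B₀} {y : B₁} {e : B₁ →ₐ[K] K}
  (hC : IsCurveChart K B₀ B₁ B₀₁ x y e)
  (j₀ : B₀ →ₐ[K] F) (j₁ : B₁ →ₐ[K] F) (j₀₁ : B₀₁ →ₐ[K] F)
  (comp₀ : ∀ b : B₀, j₀₁ (algebraMap B₀ B₀₁ b) = j₀ b)
  (comp₁ : ∀ b : B₁, j₀₁ (algebraMap B₁ B₀₁ b) = j₁ b)
  (hinj : Function.Injective j₀₁)
  (hfrac : ∀ f : F, ∃ a b : B₀₁, j₀₁ b ≠ 0 ∧ f * j₀₁ b = j₀₁ a)

include hC comp₀ comp₁

theorem jx_mul_jy : j₀ x * j₁ y = 1 := by
  rw [← comp₀, ← comp₁, ← map_mul, hC.mul_eq_one, map_one]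

theorem jx_ne_zero : j₀ x ≠ 0 := fun h => by
  have := jx_mul_jy hC j₀ j₁ j₀₁ comp₀ comp₁
  rw [h, zero_mul] at this
  exact zero_ne_one this

theorem jy_ne_zero : j₁ y ≠ 0 := fun h => by
  have := jx_mul_jy hC j₀ j₁ j₀₁ comp₀ comp₁
  rw [h, mul_zero] at this
  exact zero_ne_one this

theorem jy_eq_inv : j₁ y = (j₀ x)⁻¹ :=
  eq_inv_of_mul_eq_one_right (jx_mul_jy hC j₀ j₁ j₀₁ comp₀ comp₁)

/-- Valuative criterion: every place lies on one of the two charts. -/
theorem mem_chart₀_or_mem_chart₁ (v : Place K F) :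
    v ∈ chartPlaces (K := K) j₀.toRingHom ∨ v ∈ chartPlaces (K := K) j₁.toRingHom := by
  rcases v.toValuationSubring.mem_or_inv_mem (j₀ x) with h | h
  · exact Or.inl (mem_chartPlaces_of_mem x hC.finite₀ j₀ v h)
  · refine Or.inr (mem_chartPlaces_of_mem y hC.finite₁ j₁ v ?_)
    rw [jy_eq_inv hC j₀ j₁ j₀₁ comp₀ comp₁]
    exact h

theorem chart_union :
    chartPlaces (K := K) j₀.toRingHom ∪ chartPlaces (K := K) j₁.toRingHom = Set.univ :=
  Set.eq_univ_of_forall fun v => mem_chart₀_or_mem_chart₁ hC j₀ j₁ j₀₁ comp₀ comp₁ v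

include hinj

theorem j₀_injective : Function.Injective j₀ := by
  intro a b h
  apply H207.injective_algebraMap_chart₀ hC
  apply hinj
  rw [comp₀, comp₀, h]

theorem j₁_injective : Function.Injective j₁ := by
  intro a b h
  apply H207.injective_algebraMap_chart₁ hC
  apply hinj
  rw [comp₁, comp₁, h]

include hfrac

theorem frac₀ (f : F) : ∃ a b : B₀, j₀ b ≠ 0 ∧ f * j₀ b = j₀ a := by
  haveI := hC.away₀
  obtain ⟨a, b, hb, hab⟩ := hfrac f
  obtain ⟨n, a₀, ha₀⟩ := IsLocalization.Away.surj x a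
  obtain ⟨m, b₀, hb₀⟩ := IsLocalization.Away.surj x b
  have hx := jx_ne_zero hC j₀ j₁ j₀₁ comp₀ comp₁
  have ha' : j₀₁ a * j₀ x ^ n = j₀ a₀ := by
    rw [← comp₀ a₀, ← ha₀, map_mul, map_pow, comp₀]
  have hb' : j₀₁ b * j₀ x ^ m = j₀ b₀ := by
    rw [← comp₀ b₀, ← hb₀, map_mul, map_pow, comp₀]
  refine ⟨a₀ * x ^ m, b₀ * x ^ n, ?_, ?_⟩
  · rw [map_mul, map_pow, ← hb']
    exact mul_ne_zero (mul_ne_zero hb (pow_ne_zero _ hx)) (pow_ne_zero _ hx)
  · rw [map_mul, map_pow, map_mul, map_pow, ← hb', ← ha']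
    calc f * (j₀₁ b * j₀ x ^ m * j₀ x ^ n) = f * j₀₁ b * j₀ x ^ m * j₀ x ^ n := by ring
      _ = j₀₁ a * j₀ x ^ n * j₀ x ^ m := by rw [hab]; ring

theorem frac₁ (f : F) : ∃ a b : B₁, j₁ b ≠ 0 ∧ f * j₁ b = j₁ a := by
  haveI := hC.away₁
  obtain ⟨a, b, hb, hab⟩ := hfrac f
  obtain ⟨n, a₀, ha₀⟩ := IsLocalization.Away.surj y a
  obtain ⟨m, b₀, hb₀⟩ := IsLocalization.Away.surj y b
  have hy := jy_ne_zero hC j₀ j₁ j₀₁ comp₀ comp₁
  have ha' : j₀₁ a * j₁ y ^ n = j₁ a₀ := by
    rw [← comp₁ a₀, ← ha₀, map_mul, map_pow, comp₁]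
  have hb' : j₀₁ b * j₁ y ^ m = j₁ b₀ := by
    rw [← comp₁ b₀, ← hb₀, map_mul, map_pow, comp₁]
  refine ⟨a₀ * y ^ m, b₀ * y ^ n, ?_, ?_⟩
  · rw [map_mul, map_pow, ← hb']
    exact mul_ne_zero (mul_ne_zero hb (pow_ne_zero _ hy)) (pow_ne_zero _ hy)
  · rw [map_mul, map_pow, map_mul, map_pow, ← hb', ← ha']
    calc f * (j₀₁ b * j₁ y ^ m * j₁ y ^ n) = f * j₀₁ b * j₁ y ^ m * j₁ y ^ n := by ring
      _ = j₀₁ a * j₁ y ^ n * j₁ y ^ m := by rw [hab]; ring

/-- The complement of the first chart is finite. -/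
theorem finite_compl_chart₀ : ((chartPlaces (K := K) j₀.toRingHom)ᶜ : Set (Place K F)).Finite := by
  haveI := H207.isDedekindDomain_chart₁ hC
  refine (finite_poles_chartPlaces j₁ (j₁_injective hC j₀ j₁ j₀₁ comp₀ comp₁ hinj)
    (frac₁ hC j₀ j₁ j₀₁ comp₀ comp₁ hinj hfrac) (j₀ x)).subset ?_
  intro v hv
  have hx : j₀ x ∉ v.toValuationSubring := fun h =>
    hv (mem_chartPlaces_of_mem x hC.finite₀ j₀ v h)
  refine ⟨?_, hx⟩
  exact (mem_chart₀_or_mem_chart₁ hC j₀ j₁ j₀₁ comp₀ comp₁ v).resolve_left hv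

/-- Every function has finitely many poles. -/
theorem finite_poles (f : F) : {v : Place K F | f ∉ v.toValuationSubring}.Finite := by
  haveI := H207.isDedekindDomain_chart₀ hC
  refine ((finite_poles_chartPlaces j₀ (j₀_injective hC j₀ j₁ j₀₁ comp₀ comp₁ hinj)
    (frac₀ hC j₀ j₁ j₀₁ comp₀ comp₁ hinj hfrac) f).union
    (finite_compl_chart₀ hC j₀ j₁ j₀₁ comp₀ comp₁ hinj hfrac)).subset ?_
  intro v hv
  by_cases h0 : v ∈ chartPlaces (K := K) j₀.toRingHom
  · exact Or.inl ⟨h0, hv⟩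
  · exact Or.inr h0

/-- The places of the intersection chart. -/
theorem chartPlaces₀₁ :
    chartPlaces (K := K) j₀₁.toRingHom =
      chartPlaces (K := K) j₀.toRingHom ∩ chartPlaces (K := K) j₁.toRingHom := by
  haveI := hC.away₀
  ext v
  constructor
  · intro hv
    exact ⟨fun b => by rw [AlgHom.toRingHom_eq_coe, RingHom.coe_coe, ← comp₀]; exact hv _,
      fun b => by rw [AlgHom.toRingHom_eq_coe, RingHom.coe_coe, ← comp₁]; exact hv _⟩
  · rintro ⟨h0, h1⟩ b
    obtain ⟨n, b₀, hb₀⟩ := IsLocalization.Away.surj x b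
    have hx := jx_ne_zero hC j₀ j₁ j₀₁ comp₀ comp₁
    have hb' : j₀₁ b * j₀ x ^ n = j₀ b₀ := by
      rw [← comp₀ b₀, ← hb₀, map_mul, map_pow, comp₀]
    have hb'' : j₀₁ b = j₀ b₀ * j₁ y ^ n := by
      rw [jy_eq_inv hC j₀ j₁ j₀₁ comp₀ comp₁, ← hb', inv_pow, mul_assoc,
        mul_inv_cancel₀ (pow_ne_zero _ hx), mul_one]
    show j₀₁ b ∈ v.toValuationSubring
    rw [hb'']
    exact mul_mem (h0 b₀) (pow_mem (h1 y) n)

end Chart

end Fermat.Agent.S27.H267

end
end
-- ===== PACK-END S27/H267/GenusChart.lean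

-- ===== PACK-BEGIN S37/H518/Conserve.lean
section


/-!
# S37 / RIM (helper518): conservation of number for a two-chart model

Main results (for `h : TwoCharts π ι ρ B₀ B₁ x₀ x₁`, with principal divisors of degree `0` on both
fibres):

* `TwoCharts.mapDomain_rmap_eq` : for every `y : V` with `ρ y ≠ 0`,
  `(rmap)_* div (ι y) = div (ρ y)`;
* `TwoCharts.principal_le_closure` : principal divisors are generated by the `div (ι y)`.
-/

set_option autoImplicit false

namespace Fermat.Agent.S37.H518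

open AlgebraicCurve Fermat.Agent.S24.H504 Polynomial

section Finsupp

variable {α β : Type*}

theorem mapDomain_apply_eq_sum [DecidableEq β] (r : α → β) (D : α →₀ ℤ) (Q : β) :
    Finsupp.mapDomain r D Q = ∑ P ∈ D.support with r P = Q, D P := by
  rw [Finsupp.mapDomain, Finsupp.sum_apply, Finsupp.sum, Finset.sum_filter]
  refine Finset.sum_congr rfl fun P _ => ?_
  rw [Finsupp.single_apply]

theorem sum_filter_support_eq [DecidableEq β] (r : α → β) (D : α →₀ ℤ) (Q : β) (S : Finset α)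
    (hS : D.support ⊆ S) :
    ∑ P ∈ S with r P = Q, D P = ∑ P ∈ D.support with r P = Q, D P := by
  symm
  refine Finset.sum_subset (Finset.filter_subset_filter _ hS) fun P hP hP' => ?_
  rw [Finset.mem_filter] at hP hP'
  by_contra hne
  exact hP' ⟨Finsupp.mem_support_iff.mpr hne, hP.2⟩

end Finsupp

variable {L : Type*} [Field L] {A : ValuationSubring L} {k : Type*} [Field k]
variable {F : Type*} [Field F] [Algebra L F] {Fk : Type*} [Field Fk] [Algebra k Fk]
variable {V : Type*} [CommRing V] [Algebra A V]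
variable {π : A →+* k} {ι : V →+* F} {ρ : V →+* Fk} {B₀ B₁ : Subalgebra A V} {x₀ x₁ : V}

theorem degree_eq_sum_of_deg_one {K' F' : Type*} [Field K'] [Field F'] [Algebra K' F']
    (D : Divisor K' F') (hdeg : ∀ P : Place K' F', P.deg = 1) :
    Divisor.degree D = ∑ P ∈ D.support, D P := by
  rw [Divisor.degree, Finsupp.liftAddHom_apply, Finsupp.sum]
  refine Finset.sum_congr rfl fun P _ => ?_
  simp [hdeg P]

namespace TwoCharts

variable (h : TwoCharts π ι ρ B₀ B₁ x₀ x₁)
include h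

theorem iota_x₁_ne_zero : ι x₁ ≠ 0 := by
  have : ι x₀ * ι x₁ = 1 := by rw [← map_mul, h.mul_eq_one, map_one]
  exact right_ne_zero_of_mul_eq_one this

theorem iota_x₀_ne_zero : ι x₀ ≠ 0 := by
  have : ι x₀ * ι x₁ = 1 := by rw [← map_mul, h.mul_eq_one, map_one]
  exact left_ne_zero_of_mul_eq_one this

theorem rho_x₁_ne_zero : ρ x₁ ≠ 0 := by
  have : ρ x₀ * ρ x₁ = 1 := by rw [← map_mul, h.mul_eq_one, map_one]
  exact right_ne_zero_of_mul_eq_one this

theorem rho_x₀_ne_zero : ρ x₀ ≠ 0 := by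
  have : ρ x₀ * ρ x₁ = 1 := by rw [← map_mul, h.mul_eq_one, map_one]
  exact left_ne_zero_of_mul_eq_one this

theorem ordP_x₁ (P : Place L F) : P.ord (ι x₁) = - P.ord (ι x₀) := by
  have h1 := P.ord_mul h.iota_x₀_ne_zero h.iota_x₁_ne_zero
  rw [← map_mul, h.mul_eq_one, map_one, Place.ord_one] at h1
  omega

theorem ordQ_x₁ (Q : Place k Fk) : Q.ord (ρ x₁) = - Q.ord (ρ x₀) := by
  have h1 := Q.ord_mul h.rho_x₀_ne_zero h.rho_x₁_ne_zero
  rw [← map_mul, h.mul_eq_one, map_one, Place.ord_one] at h1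
  omega

theorem iota_ne_zero {y : V} (hy : ρ y ≠ 0) : ι y ≠ 0 := by
  intro h0
  apply hy
  have : y = 0 := h.inj (by rw [h0, map_zero])
  rw [this, map_zero]

open Classical in
/-- Conservation of number for the coordinate `x₁` at places centred on the chart `B₁`:
this is where the equality of degrees `FI` enters. -/
theorem sum_fiber_x₁ [HasPrincipalDivisors k Fk] (D₁ : Divisor L F)
    (hD₁ : ∀ P, D₁ P = P.ord (ι x₁)) {Q : Place k Fk} (hQ : QC ρ B₁ Q) :
    ∑ P ∈ D₁.support with h.rmap P = Q, D₁ P = Q.ord (ρ x₁) := by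
  classical
  obtain ⟨E₁, hE₁, -⟩ := HasPrincipalDivisors.exists_divisor (K := k) (ρ x₁) h.rho_x₁_ne_zero
  have hFI := h.FI D₁ E₁ hD₁ hE₁
  have hb : ∀ P, QC ρ B₁ (h.rmap P) → 0 ≤ D₁ P := fun P hP => by
    rw [hD₁]
    exact (h.rmap_chart1 hP).1.ord_nonneg h.chart1.x_mem
  have hc : ∀ P, ¬ QC ρ B₁ (h.rmap P) → D₁ P ≤ 0 := fun P hP => by
    rw [hD₁, h.ordP_x₁]
    have h0 : QC ρ B₀ (h.rmap P) := (h.cover_Q _).resolve_right hP
    have := (h.rmap_chart0 h0).1.ord_nonneg h.chart0.x_mem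
    omega
  have hd : ∀ Q', QC ρ B₁ Q' → 0 ≤ E₁ Q' := fun Q' hQ' => by
    rw [hE₁]; exact hQ' x₁ h.chart1.x_mem
  have hd' : ∀ Q', ¬ QC ρ B₁ Q' → E₁ Q' ≤ 0 := fun Q' hQ' => by
    rw [hE₁, h.ordQ_x₁]
    have h0 : QC ρ B₀ Q' := (h.cover_Q _).resolve_right hQ'
    have := h0 x₀ h.chart0.x_mem
    omega
  set f : Place k Fk → ℤ := fun Q' =>
    if QC ρ B₁ Q' then ∑ P ∈ D₁.support with h.rmap P = Q', D₁ P else 0 with hf
  set g : Place k Fk → ℤ := fun Q' => if QC ρ B₁ Q' then E₁ Q' else 0 with hg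
  set T : Finset (Place k Fk) := D₁.support.image h.rmap ∪ E₁.support with hT
  have hle : ∀ Q' ∈ T, f Q' ≤ g Q' := by
    intro Q' _
    simp only [hf, hg]
    split_ifs with hQ'
    · have := h.sum_le1 hQ' (D₁.support.filter fun P => h.rmap P = Q')
        (fun P hP => (Finset.mem_filter.mp hP).2) h.chart1.x_mem h.rho_x₁_ne_zero
      rw [hE₁]
      calc ∑ P ∈ D₁.support with h.rmap P = Q', D₁ P
          = ∑ P ∈ D₁.support with h.rmap P = Q', P.ord (ι x₁) :=
            Finset.sum_congr rfl fun P _ => hD₁ P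
        _ ≤ _ := this
    · exact le_refl _
  have hsumf : ∑ Q' ∈ T, f Q' = ∑ P ∈ D₁.support, max (D₁ P) 0 := by
    have e1 : ∑ P ∈ D₁.support, max (D₁ P) 0
        = ∑ P ∈ D₁.support, if QC ρ B₁ (h.rmap P) then D₁ P else 0 := by
      refine Finset.sum_congr rfl fun P _ => ?_
      split_ifs with hP
      · exact max_eq_left (hb P hP)
      · exact max_eq_right (hc P hP)
    rw [e1, ← Finset.sum_fiberwise_of_maps_to (t := T) (g := h.rmap)
      (fun P hP => Finset.mem_union_left _ (Finset.mem_image_of_mem _ hP))]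
    refine Finset.sum_congr rfl fun Q' _ => ?_
    simp only [hf]
    split_ifs with hQ'
    · refine Finset.sum_congr rfl fun P hP => ?_
      rw [(Finset.mem_filter.mp hP).2, if_pos hQ']
    · symm
      refine Finset.sum_eq_zero fun P hP => ?_
      rw [(Finset.mem_filter.mp hP).2, if_neg hQ']
  have hsumg : ∑ Q' ∈ T, g Q' = ∑ Q' ∈ E₁.support, max (E₁ Q') 0 := by
    have e1 : ∑ Q' ∈ E₁.support, max (E₁ Q') 0 = ∑ Q' ∈ T, max (E₁ Q') 0 := by
      refine Finset.sum_subset Finset.subset_union_right fun Q' _ hQ' => ?_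
      rw [Finsupp.notMem_support_iff.mp hQ', max_self]
    rw [e1]
    refine Finset.sum_congr rfl fun Q' _ => ?_
    simp only [hg]
    split_ifs with hQ'
    · exact (max_eq_left (hd Q' hQ')).symm
    · exact (max_eq_right (hd' Q' hQ')).symm
  have hall := (Finset.sum_eq_sum_iff_of_le hle).mp (by rw [hsumf, hsumg, hFI])
  by_cases hQT : Q ∈ T
  · have := hall Q hQT
    simp only [hf, hg, if_pos hQ] at this
    rw [this, hE₁]
  · have h1 : Q ∉ D₁.support.image h.rmap := fun hc' => hQT (Finset.mem_union_left _ hc')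
    have h2 : Q ∉ E₁.support := fun hc' => hQT (Finset.mem_union_right _ hc')
    rw [← hE₁, Finsupp.notMem_support_iff.mp h2]
    refine Finset.sum_eq_zero fun P hP => ?_
    exfalso
    rw [Finset.mem_filter] at hP
    exact h1 (Finset.mem_image.mpr ⟨P, hP.1, hP.2⟩)

open Classical in
/-- Zeros only merge, at every place of the special fibre, for functions of the chart `B₀`. -/
theorem sum_fiber_le [HasPrincipalDivisors L F] [HasPrincipalDivisors k Fk] {a : V}
    (ha : a ∈ B₀) (ha0 : ρ a ≠ 0) (D : Divisor L F) (hD : ∀ P, D P = P.ord (ι a))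
    (Q : Place k Fk) :
    ∑ P ∈ D.support with h.rmap P = Q, D P ≤ Q.ord (ρ a) := by
  by_cases hQ0 : QC ρ B₀ Q
  · have := h.sum_le0 hQ0 (D.support.filter fun P => h.rmap P = Q)
      (fun P hP => (Finset.mem_filter.mp hP).2) ha ha0
    calc ∑ P ∈ D.support with h.rmap P = Q, D P
        = ∑ P ∈ D.support with h.rmap P = Q, P.ord (ι a) :=
          Finset.sum_congr rfl fun P _ => hD P
      _ ≤ _ := this
  · have hQ1 : QC ρ B₁ Q := (h.cover_Q Q).resolve_left hQ0
    obtain ⟨n, hn⟩ := h.trans10 a ha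
    obtain ⟨D₁, hD₁, -⟩ := HasPrincipalDivisors.exists_divisor (K := L) (ι x₁) h.iota_x₁_ne_zero
    have ha₁0 : ρ (a * x₁ ^ n) ≠ 0 := by
      rw [map_mul, map_pow]
      exact mul_ne_zero ha0 (pow_ne_zero _ h.rho_x₁_ne_zero)
    have hle := h.sum_le1 hQ1 ((D.support ∪ D₁.support).filter fun P => h.rmap P = Q)
      (fun P hP => (Finset.mem_filter.mp hP).2) hn ha₁0
    have hιa : ι a ≠ 0 := h.iota_ne_zero ha0
    have e1 : ∀ P : Place L F, P.ord (ι (a * x₁ ^ n)) = D P + n * D₁ P := fun P => by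
      rw [map_mul, map_pow, P.ord_mul hιa (pow_ne_zero _ h.iota_x₁_ne_zero), ord_pow, hD, hD₁]
    have e2 : Q.ord (ρ (a * x₁ ^ n)) = Q.ord (ρ a) + n * Q.ord (ρ x₁) := by
      rw [map_mul, map_pow, Q.ord_mul ha0 (pow_ne_zero _ h.rho_x₁_ne_zero), ord_pow]
    simp only [e1] at hle
    rw [Finset.sum_add_distrib, ← Finset.mul_sum, e2,
      sum_filter_support_eq h.rmap D Q _ Finset.subset_union_left,
      sum_filter_support_eq h.rmap D₁ Q _ Finset.subset_union_right,
      h.sum_fiber_x₁ D₁ hD₁ hQ1] at hle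
    linarith

open Classical in
/-- **Conservation of number** for functions of the chart `B₀` with nonzero reduction. -/
theorem mapDomain_rmap_eq_of_mem [HasPrincipalDivisors L F] [HasPrincipalDivisors k Fk] {a : V}
    (ha : a ∈ B₀) (ha0 : ρ a ≠ 0) (D : Divisor L F) (hD : ∀ P, D P = P.ord (ι a))
    (Q : Place k Fk) :
    Finsupp.mapDomain h.rmap D Q = Q.ord (ρ a) := by
  obtain ⟨E, hE, hEdeg⟩ := HasPrincipalDivisors.exists_divisor (K := k) (ρ a) ha0
  obtain ⟨D', hD', hD'deg⟩ :=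
    HasPrincipalDivisors.exists_divisor (K := L) (ι a) (h.iota_ne_zero ha0)
  have hDD' : D = D' := Finsupp.ext fun P => by rw [hD, hD']
  have hDdeg : Divisor.degree D = 0 := by rw [hDD']; exact hD'deg
  rw [degree_eq_sum_of_deg_one D h.degP] at hDdeg
  rw [degree_eq_sum_of_deg_one E h.degQ] at hEdeg
  set T : Finset (Place k Fk) := D.support.image h.rmap ∪ E.support with hT
  have hle : ∀ Q' ∈ T, ∑ P ∈ D.support with h.rmap P = Q', D P ≤ E Q' := fun Q' _ => by
    rw [hE]; exact h.sum_fiber_le ha ha0 D hD Q'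
  have hsum1 : ∑ Q' ∈ T, ∑ P ∈ D.support with h.rmap P = Q', D P = 0 := by
    rw [Finset.sum_fiberwise_of_maps_to (t := T) (g := h.rmap) (s := D.support)
      (fun P hP => Finset.mem_union_left _ (Finset.mem_image_of_mem _ hP)) (fun P => D P), hDdeg]
  have hsum2 : ∑ Q' ∈ T, E Q' = 0 := by
    rw [← hEdeg]
    symm
    refine Finset.sum_subset Finset.subset_union_right fun Q' _ hQ' => ?_
    exact Finsupp.notMem_support_iff.mp hQ'
  have hall := (Finset.sum_eq_sum_iff_of_le hle).mp (by rw [hsum1, hsum2])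
  rw [mapDomain_apply_eq_sum]
  by_cases hQT : Q ∈ T
  · rw [hall Q hQT, hE]
  · have h1 : Q ∉ D.support.image h.rmap := fun hc' => hQT (Finset.mem_union_left _ hc')
    have h2 : Q ∉ E.support := fun hc' => hQT (Finset.mem_union_right _ hc')
    rw [← hE, Finsupp.notMem_support_iff.mp h2]
    refine Finset.sum_eq_zero fun P hP => ?_
    exfalso
    rw [Finset.mem_filter] at hP
    exact h1 (Finset.mem_image.mpr ⟨P, hP.1, hP.2⟩)

/-- If `y b = μ a` with all three of `y, a, b` of nonzero reduction, then `μ` is a unit of `A`,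
so the relation survives reduction. -/
theorem exists_unit_const {y a b : V} {μ : L} (hμ : μ ≠ 0) (hy : ρ y ≠ 0) (ha : ρ a ≠ 0)
    (hb : ρ b ≠ 0) (heq : ι y * ι b = algebraMap L F μ * ι a) :
    ∃ c : k, c ≠ 0 ∧ ρ y * ρ b = algebraMap k Fk c * ρ a := by
  rcases A.mem_or_inv_mem μ with hμA | hμA
  · set u : A := ⟨μ, hμA⟩ with hu
    have h1 : y * b = u • a := by
      apply h.inj
      rw [map_mul, h.iota_smul, heq]
    have h2 : ρ y * ρ b = algebraMap k Fk (π u) * ρ a := by
      rw [← map_mul, h1, h.rho_smul]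
    refine ⟨π u, fun h0 => ?_, h2⟩
    rw [h0, map_zero, zero_mul] at h2
    exact mul_ne_zero hy hb h2
  · set u : A := ⟨μ⁻¹, hμA⟩ with hu
    have h1 : u • (y * b) = a := by
      apply h.inj
      rw [h.iota_smul, map_mul, heq, ← mul_assoc, ← map_mul]
      have : (u : L) * μ = 1 := inv_mul_cancel₀ hμ
      rw [this, map_one, one_mul]
    have h2 : algebraMap k Fk (π u) * (ρ y * ρ b) = ρ a := by
      rw [← map_mul, ← h.rho_smul, h1]
    have hπu : π u ≠ 0 := by
      intro h0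
      rw [h0, map_zero, zero_mul] at h2
      exact ha h2.symm
    refine ⟨(π u)⁻¹, inv_ne_zero hπu, ?_⟩
    have h3 : algebraMap k Fk (π u)⁻¹ * algebraMap k Fk (π u) = 1 := by
      rw [← map_mul, inv_mul_cancel₀ hπu, map_one]
    rw [← h2, ← mul_assoc, h3, one_mul]

/-- **Conservation of number**: `(rmap)_* div (ι y) = div (ρ y)` for every integral function `y`
with nonzero reduction. -/
theorem mapDomain_rmap_eq [HasPrincipalDivisors L F] [HasPrincipalDivisors k Fk] {y : V}
    (hy : ρ y ≠ 0) (D : Divisor L F) (hD : ∀ P, D P = P.ord (ι y)) (Q : Place k Fk) :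
    Finsupp.mapDomain h.rmap D Q = Q.ord (ρ y) := by
  have hιy := h.iota_ne_zero hy
  obtain ⟨a, ha, b, hb, ha0, hb0, μ, hμ, heq⟩ := h.frac (ι y) hιy
  obtain ⟨c, hc, hceq⟩ := h.exists_unit_const hμ hy ha0 hb0 heq
  have hιa := h.iota_ne_zero ha0
  have hιb := h.iota_ne_zero hb0
  obtain ⟨Da, hDa, -⟩ := HasPrincipalDivisors.exists_divisor (K := L) (ι a) hιa
  obtain ⟨Db, hDb, -⟩ := HasPrincipalDivisors.exists_divisor (K := L) (ι b) hιb
  have hμF : algebraMap L F μ ≠ 0 := by rwa [Ne, map_eq_zero]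
  have hcF : algebraMap k Fk c ≠ 0 := by rwa [Ne, map_eq_zero]
  have hDeq : D = Da - Db := Finsupp.ext fun P => by
    rw [Finsupp.sub_apply, hD, hDa, hDb]
    have h1 := congrArg P.ord heq
    rw [P.ord_mul hιy hιb, P.ord_mul hμF hιa, ord_algebraMap] at h1
    omega
  rw [hDeq, Finsupp.mapDomain_sub, Finsupp.sub_apply, h.mapDomain_rmap_eq_of_mem ha ha0 Da hDa,
    h.mapDomain_rmap_eq_of_mem hb hb0 Db hDb]
  have h2 := congrArg Q.ord hceq
  rw [Q.ord_mul hy hb0, Q.ord_mul hcF ha0, ord_algebraMap] at h2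
  omega

/-- Principal divisors are generated by divisors of integral functions with nonzero reduction. -/
theorem principal_le_closure [HasPrincipalDivisors L F] :
    Divisor.principal (K := L) (F := F) ≤
      AddSubgroup.closure {D | ∃ y : V, ρ y ≠ 0 ∧ ∀ P : Place L F, D P = P.ord (ι y)} := by
  rintro D ⟨f, hf, hD⟩
  obtain ⟨a, ha, b, hb, ha0, hb0, μ, hμ, heq⟩ := h.frac f hf
  have hιa := h.iota_ne_zero ha0
  have hιb := h.iota_ne_zero hb0
  obtain ⟨Da, hDa, -⟩ := HasPrincipalDivisors.exists_divisor (K := L) (ι a) hιa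
  obtain ⟨Db, hDb, -⟩ := HasPrincipalDivisors.exists_divisor (K := L) (ι b) hιb
  have hμF : algebraMap L F μ ≠ 0 := by rwa [Ne, map_eq_zero]
  have hDeq : D = Da - Db := Finsupp.ext fun P => by
    rw [Finsupp.sub_apply, hD, hDa, hDb]
    have h1 := congrArg P.ord heq
    rw [P.ord_mul hf hιb, P.ord_mul hμF hιa, ord_algebraMap] at h1
    omega
  rw [hDeq]
  exact AddSubgroup.sub_mem _ (AddSubgroup.subset_closure ⟨a, ha0, hDa⟩)
    (AddSubgroup.subset_closure ⟨b, hb0, hDb⟩)

theorem deg_rmap (P : Place L F) : (h.rmap P).deg = P.deg := by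
  rw [h.degP, h.degQ]

end TwoCharts

end Fermat.Agent.S37.H518

end
-- ===== PACK-END S37/H518/Conserve.lean

-- ===== PACK-BEGIN S22.lean
section
-- Template for statement S22 (row 21; see the milestone table for weights).
-- The statement below is byte-identical to the frozen
-- statement CuspForm.FermatFrozen.S22 (Fermat/Statements/S22.lean; the theorem CuspForm.moduleFinite_heckeAlgebra);
-- the grader kernel-checks Fermat.Agent.S22.result against that frozen type.






set_option autoImplicit false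
open CuspForm

namespace Fermat.Agent.S22

theorem result (N : ℕ) [NeZero N] (k : ℤ) (S : Set ℕ) :
    Module.Finite ℤ (CuspForm.heckeAlgebra N k S) := by
  by_cases hk : k ≤ 1
  · exact H262.moduleFinite_heckeAlgebra_of_subsingleton (H262.cuspForm_eq_zero_of_le_one hk)
  · obtain ⟨n, rfl⟩ : ∃ n : ℕ, k = (n : ℤ) + 2 := ⟨(k - 2).toNat, by omega⟩
    exact H262.moduleFinite_heckeAlgebra_of_lattice (H262.periodLattice N n)
      H262.periodLattice_fg (H262.periodLattice_stable S) H262.periodLattice_separating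

end Fermat.Agent.S22

end
-- ===== PACK-END S22.lean

-- ===== PACK-BEGIN S31/H862/SelfAdjoint.lean
section




/-!
# S31 / SS (helper862) — `T_p` (`p ∤ N`) is self-adjoint for the Petersson pairing
-/

set_option autoImplicit false

open UpperHalfPlane CongruenceSubgroup MeasureTheory Matrix.SpecialLinearGroup
open scoped MatrixGroups ModularForm ComplexConjugate

open P2MW.S_ModularForm_heckeT_slash_eq_self_of_mem_Gamma0.ModularForm.HeckeSlashInvariance

namespace Fermat.Agent.S31.H862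

/-- `HasSum` over a product with a finite second factor, from `HasSum` on each fibre. -/
theorem hasSum_prod_of_fintype {α β M : Type*} [Fintype β] [AddCommMonoid M]
    [TopologicalSpace M] [ContinuousAdd M] {f : α × β → M} {a : β → M}
    (h : ∀ b, HasSum (fun x => f (x, b)) (a b)) : HasSum f (∑ b, a b) := by
  classical
  have h1 : ∀ b : β, HasSum (fun y : α × β => if y.2 = b then f y else 0) (a b) := by
    intro b
    have hinj : Function.Injective (fun x : α => ((x, b) : α × β)) := fun x x' hxx' => by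
      simpa using hxx'
    have := (hinj.hasSum_iff (f := fun y : α × β => if y.2 = b then f y else 0) (a := a b)
      (by
        rintro ⟨x, b'⟩ hy
        have hb : b' ≠ b := by
          rintro rfl
          exact hy ⟨x, rfl⟩
        simp [hb])).mp
    apply this
    simpa [Function.comp_def] using h b
  have h2 := hasSum_sum (s := Finset.univ) fun b _ => h1 b
  have h3 : (fun y : α × β => ∑ i : β, if y.2 = i then f y else 0) = f := by
    funext y
    rw [Finset.sum_ite_eq]
    simp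
  rwa [h3] at h2

section

variable {p : ℕ} [Fact p.Prime]

theorem scalarP_smul (z : ℍ) : scalarP p • z = z := by
  rw [scalarP]
  exact glScalar_smul _ z

theorem slash_scalarP (g : ℍ → ℂ) : g ∣[(2 : ℤ)] scalarP p = g := by
  funext z
  have hp : (p : ℝ) ≠ 0 := Nat.cast_ne_zero.mpr (Fact.out : p.Prime).ne_zero
  have hpc : (p : ℂ) ≠ 0 := Nat.cast_ne_zero.mpr (Fact.out : p.Prime).ne_zero
  have hdet : (scalarP p).det.val = (p : ℝ) ^ 2 := by
    rw [scalarP, Matrix.GeneralLinearGroup.det_scalar]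
    simp
  have hσ : σ (scalarP p) = ContinuousAlgEquiv.refl ℝ ℂ := by
    rw [σ, if_pos (by rw [hdet]; positivity)]
  have hden : denom (scalarP p) z = (p : ℂ) := by
    rw [scalarP, denom_scalar]
    simp
  rw [slash_two_apply, scalarP_smul, hσ, hdet, hden]
  simp only [ContinuousAlgEquiv.refl_apply]
  rw [abs_of_pos (by positivity)]
  push_cast
  field_simp

end

section

variable {N : ℕ} [NeZero N]

theorem cusp_slash_mapGL (g : CuspForm (Gamma0 N) 2) (γ : Gamma0 N) :
    (g : ℍ → ℂ) ∣[(2 : ℤ)] (mapGL ℝ (γ : SL(2, ℤ))) = g :=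
  SlashInvariantFormClass.slash_action_eq g _ (Subgroup.mem_map_of_mem (mapGL ℝ) γ.2)

theorem nice_cusp (g : CuspForm (Gamma0 N) 2) : Nice (g : ℍ → ℂ) := nice_cuspForm g

variable {p : ℕ} [Fact p.Prime]

/-- `⟨f, T_p g⟩` as an unfolded sum over the double coset. -/
theorem hasSum_kern_cosets (f g : CuspForm (Gamma0 N) 2) :
    HasSum (fun y : Gamma0 N × OnePoint (ZMod p) => kern N f g (cosetMap p N y))
      (pet N f (ModularForm.heckeT 2 p g)) := by
  haveI : NeZero p := ⟨(Fact.out : p.Prime).ne_zero⟩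
  have h1 : pet N f (ModularForm.heckeT 2 p g) =
      ∑ x : OnePoint (ZMod p), pet N f ((g : ℍ → ℂ) ∣[(2 : ℤ)] heckeRep p x) := by
    rw [heckeT_eq_sum_onePoint]
    exact pint_sum_right (integrable_wt N) Finset.univ (nice_cusp f)
      fun x _ => (nice_cusp g).slash _
  rw [h1]
  exact hasSum_prod_of_fintype fun x =>
    hasSum_kern N (nice_cusp f) (nice_cusp g) (cusp_slash_mapGL g) (heckeRep p x)

/-- **Self-adjointness of `T_p`, `p ∤ N`** (function level). -/
theorem pet_heckeT_comm (hpN : ¬ p ∣ N) (f g : CuspForm (Gamma0 N) 2) :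
    pet N (ModularForm.heckeT 2 p f) g = pet N f (ModularForm.heckeT 2 p g) := by
  have hA := hasSum_kern_cosets (p := p) f g
  have hB := hasSum_kern_cosets (p := p) g f
  have hB' : HasSum (fun y : Gamma0 N × OnePoint (ZMod p) => conj (kern N g f (cosetMap p N y)))
      (conj (pet N g (ModularForm.heckeT 2 p f))) :=
    hB.map (starRingEnd ℂ) Complex.continuous_conj
  rw [pet_conj] at hB'
  have hkey : ∀ y : Gamma0 N × OnePoint (ZMod p),
      conj (kern N g f (cosetMap p N y)) = kern N f g (cosetMap p N (adjPerm hpN y)) := by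
    intro y
    refine conj_kern N _ _ (det_cosetMap_pos y) (fun z => ?_) ?_
    · rw [← mul_smul, adjPerm_apply, adjFun_spec, scalarP_smul]
    · rw [← SlashAction.slash_mul, adjPerm_apply, adjFun_spec, slash_scalarP]
  simp only [hkey] at hB'
  have hB'' := (Equiv.hasSum_iff (adjPerm (N := N) (p := p) hpN)
    (f := fun y => kern N f g (cosetMap p N y))).mp hB'
  exact hB''.unique hA

end

end Fermat.Agent.S31.H862

end
-- ===== PACK-END S31/H862/SelfAdjoint.lean

-- ===== PACK-BEGIN S31/H838/SSGlue.lean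
section



/-!
# Row S31, piece SS — glue (helper838)

`heckeAlgebra_isReduced` (= `Skeleton.heckeAlgebra_isReduced` verbatim) obtained by combining

* helper695's function-level adjointness `Lib.Pet695.pet_heckeT_adjoint` (valid for every partition
  function of `Γ₀(N)`), and
* helper622's partition function `chiH`, Petersson product `petC` (positive definite) and
  `isReduced_of_selfAdjoint`.
-/

set_option autoImplicit false
set_option linter.unusedSectionVars false

open UpperHalfPlane CongruenceSubgroup MeasureTheory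
open scoped MatrixGroups ModularForm

namespace Fermat.Agent.S31.H838

open Fermat.Agent.Lib.Pet695 Fermat.Agent.S31.H622

variable (N : ℕ) [NeZero N]

theorem aGL_smul_eq (γ : Gamma0 N) (τ : ℍ) : aGL N γ • τ = (γ : SL(2, ℤ)) • τ := rfl

theorem isPartFn_chiH : IsPartFn (aGL N) (chiH N) where
  meas := measurable_chiH N
  nonneg := chiH_nonneg N
  hasSum τ := by
    simpa only [aGL_smul_eq] using hasSum_chiH N τ
  integrable := integrable_chiH N

theorem isAdm_cuspForm (f : CuspForm (Gamma0 N) 2) : IsAdm 2 (f : ℍ → ℂ) where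
  cont := ModularFormClass.continuous f
  bdd := by
    obtain ⟨C, -, hC⟩ := exists_petersson_self_bound N f
    exact ⟨C, hC⟩

theorem slash_aGL_eq (f : CuspForm (Gamma0 N) 2) (γ : Gamma0 N) :
    (f : ℍ → ℂ) ∣[(2 : ℤ)] aGL N γ = f :=
  SlashInvariantFormClass.slash_action_eq f _ ⟨(γ : SL(2, ℤ)), γ.2, rfl⟩

theorem petC_eq_pet (f g : CuspForm (Gamma0 N) 2) :
    petC N f g = pet 2 (chiH N) (f : ℍ → ℂ) (g : ℍ → ℂ) := by
  unfold petC pet
  refine integral_congr_ae (Filter.Eventually.of_forall fun τ => ?_)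
  simp only [mul_comm]

/-- `T_ℓ` (`ℓ ∤ N`) is symmetric for the Petersson product. -/
theorem isPetSymm_heckeTLin (ℓ : ℕ) (hℓ : ℓ.Prime) (hℓN : ¬ ℓ ∣ N) :
    IsPetSymm N (CuspForm.heckeTLin 2 hℓ hℓN) := by
  intro f g
  rw [petC_eq_pet, petC_eq_pet, CuspForm.coe_heckeTLin_apply, CuspForm.coe_heckeTLin_apply]
  exact pet_heckeT_adjoint hℓ hℓN (isPartFn_chiH N) (isAdm_cuspForm N f) (isAdm_cuspForm N g)
    (slash_aGL_eq N f) (slash_aGL_eq N g)

/-- **SS**.  The anemic Hecke algebra of weight 2 and level `N` is reduced. -/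
theorem heckeAlgebra_isReduced (N : ℕ) [NeZero N] (S : Set ℕ)
    (hNS : ∀ q : ℕ, q.Prime → q ∣ N → q ∈ S) : IsReduced (CuspForm.heckeAlgebra N 2 S) :=
  isReduced_of_selfAdjoint N S hNS (isPetSymm_heckeTLin N)

end Fermat.Agent.S31.H838

end
-- ===== PACK-END S31/H838/SSGlue.lean

-- ===== PACK-BEGIN S35/G/Top.lean
section




/-!
# S35, piece (G') — the assembly (architect helper450), sorry-free

* `levelFrob_of_parts` : `ALG-FROB + MODEL + STABLE + NODE-RAT + TORIC + FROB-RES + COORD`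
                          `⟹ LevelFrobAt A E M q m` (levels with the auxiliary prime).
* `newPartFrobExplicit_of_parts`, `newPartFrobStatement_of_parts` : the leaves `DEG`, `T0F`,
  `T1F`, `D2F`, `IFs` and the level statement give (G').
-/

set_option autoImplicit false
set_option linter.style.haveILetI false
set_option linter.unusedSectionVars false
set_option synthInstance.maxHeartbeats 400000
set_option maxHeartbeats 1600000

noncomputable section

namespace Fermat.Agent.S35.G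

open ModularCurve AlgebraicCurve

/-! ## Small lemmas -/

theorem actE_mul_apply (E : IntermediateField ℚ Qb) (N : ℕ) (t₁ t₂ : E ≃ₐ[ℚ] E)
    (f : A2.Mod.FE E N) : actE E N (t₁ * t₂) f = actE E N t₁ (actE E N t₂ f) := by
  have h := congrArg SemilinearAut.toRingAut
    (map_mul (arithmeticGalois (L := E) (modularFunctionFieldFull N)) t₁ t₂)
  exact congrArg (fun φ : RingAut (A2.Mod.FE E N) => φ f) h

theorem frobSub_ne_zero {F : Type*} [Field F] (φ : F ≃+* F) (Q : ℕ) {f : F} (hf : f ≠ 0) :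
    frobSub φ Q f ≠ 0 :=
  mul_ne_zero ((map_ne_zero φ).2 hf) (inv_ne_zero (pow_ne_zero Q hf))

theorem divisibleDiv_frobSub_one {E F : Type*} [Field E] [Field F] [Algebra E F]
    (φ : F ≃+* F) (φE : E ≃+* E)
    (hφE : ∀ e : E, φ (algebraMap E F e) = algebraMap E F (φE e)) (m : ℕ) (f : F)
    (h : A2.DivisibleDiv E m f) : A2.DivisibleDiv E m (frobSub φ 1 f) := by
  unfold frobSub
  rw [pow_one]
  exact A2.Alg.H34.divisibleDiv_mul_inv m _ _ (A2.Alg.H34.divisibleDiv_tau φ φE hφE m f h) h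

theorem auxM_ne_zero {M : ℕ} (q : ℕ) (hM : M ≠ 0) : auxM M q ≠ 0 := by
  unfold auxM
  split_ifs
  · exact Nat.lcm_ne_zero hM (by norm_num)
  · exact Nat.lcm_ne_zero hM (by norm_num)
  · exact hM

theorem not_dvd_lcm_prime {M q a : ℕ} (hq : q.Prime) (ha : a.Prime) (hqa : q ≠ a)
    (hqM : ¬ q ∣ M) : ¬ q ∣ Nat.lcm M a := by
  intro h
  have h1 : q ∣ M * a := h.trans (Nat.lcm_dvd_mul M a)
  rcases (Nat.Prime.dvd_mul hq).1 h1 with h2 | h2
  · exact hqM h2
  · exact hqa ((Nat.prime_dvd_prime_iff_eq hq ha).1 h2)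

theorem not_dvd_auxM {M q : ℕ} (hq : q.Prime) (hqM : ¬ q ∣ M) : ¬ q ∣ auxM M q := by
  unfold auxM
  split_ifs with h3 h2
  · exact not_dvd_lcm_prime hq Nat.prime_two (by omega) hqM
  · exact not_dvd_lcm_prime hq Nat.prime_three (by omega) hqM
  · exact hqM

theorem hasAux_auxM (M q : ℕ) : HasAux (auxM M q) q := by
  refine ⟨fun h => ?_, fun h => ?_⟩
  · unfold auxM
    rw [if_pos h]
    exact Nat.dvd_lcm_right M 2
  · unfold auxM
    rw [if_neg (by omega), if_pos h]
    exact Nat.dvd_lcm_right M 3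

/-! ## The level statement from ALG-FROB and the modular inputs -/

theorem levelFrob_of_parts (A : ValuationSubring Qb) (E : IntermediateField ℚ Qb)
    (M q m : ℕ) [NeZero M] [NeZero q]
    (hq : q.Prime) (hqM : ¬ q ∣ M) (haux : HasAux M q) (hm : 0 < m) (hqm : ¬ q ∣ m)
    (hALG : AlgFrobStatement)
    (hMODEL : ∀ w, ModelStatement A E M q w)
    (hSTAB : StableStatement A E)
    (hNODE : ∀ w, NodeRatStatement A E M q w)
    (hTORIC : ∀ w, ToricStatement A E M q m w)
    (hRES : FrobResStatement A E q)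
    (hCOORD : CoordStatement E M q) :
    LevelFrobAt A E M q m := by
  intro hA hE s hs hsF y hy hdiv hNα hNβ
  haveI : IsDiscreteValuationRing ↥(A2.Mod.RE A E) := hE.dvr
  haveI : HenselianLocalRing ↥(A2.Mod.RE A E) := hE.henselian
  haveI : IsAlgClosed (IsLocalRing.ResidueField ↥(A2.Mod.RE A E)) := hE.algClosed
  obtain ⟨w, hw⟩ := IsDiscreteValuationRing.exists_irreducible ↥(A2.Mod.RE A E)
  have hS : A2.Mod.Setting A E M q w :=
    { q_prime := hq
      q_not_dvd := hqM
      M_ne_zero := NeZero.ne M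
      lies_over := hA
      dvr := hE.dvr
      unif := hw }
  obtain ⟨V, W, VM, hV, hW, hVM, hg1, hg2, hDeg, sf, si, cf, ci, hcf, hci⟩ :=
    hMODEL w hS hE haux
  obtain ⟨hx, hfr, hconst⟩ := hDeg hq hqM
  have hpos : 0 < Module.finrank
      (IntermediateField.adjoin E ({A2.Mod.xE E M q} : Set (A2.Mod.FE E (M * q))))
      (A2.Mod.FE E (M * q)) := by
    rw [hfr]
    have h1 := A2.Mod.dedekindPsi_pos_of_ne_zero M (NeZero.ne M)
    positivity
  have hfin : FiniteDimensional
      (IntermediateField.adjoin E ({A2.Mod.xE E M q} : Set (A2.Mod.FE E (M * q))))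
      (A2.Mod.FE E (M * q)) := Module.finite_of_finrank_pos hpos
  obtain ⟨ψR, hψR, hQ⟩ := hRES hA hq s hs hsF
  have hsD : s ∈ A.decompositionSubgroup ℚ := hsF.mem_decompositionSubgroup
  have hN0 : M * q ≠ 0 := Nat.mul_ne_zero (NeZero.ne M) (NeZero.ne q)
  obtain ⟨hcomm, hσV⟩ := hSTAB (M * q) hN0 hE.dvr V W hV hW s hs hsD
  -- `ψ = σ ∘ σ`
  have hψσ : ∀ f : A2.Mod.FE E (M * q), psiE E (M * q) s hs f =
      actE E (M * q) (A2.Mod.resE E s hs) (actE E (M * q) (A2.Mod.resE E s hs) f) :=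
    fun f => actE_mul_apply E (M * q) _ _ f
  have hψV : ∀ f ∈ V, psiE E (M * q) s hs f ∈ V := fun f hf => by
    rw [hψσ]
    exact hσV _ (hσV _ hf)
  have hψV₀ : ∀ f ∈ V.comap (W : A2.Mod.FE E (M * q) →+* A2.Mod.FE E (M * q)),
      psiE E (M * q) s hs f ∈ V.comap (W : A2.Mod.FE E (M * q) →+* A2.Mod.FE E (M * q)) :=
    fun f hf => by
      show W (psiE E (M * q) s hs f) ∈ V
      rw [hψσ, ← hcomm, ← hcomm]
      exact hσV _ (hσV _ hf)
  -- semilinearity
  have hψE : ∀ e : E, psiE E (M * q) s hs (algebraMap E (A2.Mod.FE E (M * q)) e) =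
      algebraMap E (A2.Mod.FE E (M * q))
        ((A2.Mod.resE E s hs * A2.Mod.resE E s hs).toRingEquiv e) :=
    fun e => arithmeticRingAut_algebraMap (modularFunctionFieldFull (M * q)) _ e
  have hψRE : ∀ r : ↥(A2.Mod.RE A E),
      (A2.Mod.resE E s hs * A2.Mod.resE E s hs).toRingEquiv (algebraMap ↥(A2.Mod.RE A E) E r) =
        algebraMap ↥(A2.Mod.RE A E) E (ψR r) := fun r => hψR r
  -- the function `(ψ - 1)² y`
  set h₁ := frobSub (psiE E (M * q) s hs) 1 y with hh₁
  set h₂ := frobSub (psiE E (M * q) s hs) 1 h₁ with hh₂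
  have hh₁0 : h₁ ≠ 0 := frobSub_ne_zero _ 1 hy
  have hh₂0 : h₂ ≠ 0 := frobSub_ne_zero _ 1 hh₁0
  have hd₁ : A2.DivisibleDiv E m h₁ := divisibleDiv_frobSub_one _ _ hψE m y hdiv
  have hd₂ : A2.DivisibleDiv E m h₂ := divisibleDiv_frobSub_one _ _ hψE m h₁ hd₁
  obtain ⟨ht₁, ht₂⟩ := hTORIC w hS hE hm hqm V W hV hW s hs hsF y hy hNα hNβ
  have hnf := hNODE w hS hE VM V W hVM hV hW _ _ (Or.inl ⟨rfl, rfl⟩) hg1 cf
    hcf.cut₁ hcf.cut₂ s hs hsF
  have hni := hNODE w hS hE VM V W hVM hV hW _ _ (Or.inr ⟨rfl, rfl⟩) hg2 ci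
    hci.cut₁ hci.cut₂ s hs hsF
  obtain ⟨z, hz, hzz⟩ := hALG (R := ↥(A2.Mod.RE A E)) (E := E) (F := ↥(A2.Mod.FE E (M * q)))
    w hw q m (q ^ 2) hq (A2.T1.H669.natCast_mem_maximalIdeal_RE E hA) hm hqm
    (A2.Mod.xE E M q) hx hfin hconst
    (A2.Mod.chartAlg A E (M * q) (A2.Mod.xE E M q))
    (A2.Mod.chartAlg A E (M * q) (A2.Mod.xE E M q)⁻¹)
    (fun _ => Iff.rfl) (fun _ => Iff.rfl) cf ci sf si V
    (V.comap (W : A2.Mod.FE E (M * q) →+* A2.Mod.FE E (M * q))) hcf hci
    (psiE E (M * q) s hs) (A2.Mod.resE E s hs * A2.Mod.resE E s hs).toRingEquiv ψR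
    hψE hψRE (hCOORD _) hQ hψV hψV₀ hnf hni h₂ hh₂0 hd₂ ht₁ ht₂
  refine ⟨z, hz, ?_⟩
  show frobSub (psiE E (M * q) s hs) (q ^ 2) h₂ = z ^ m
  unfold frobSub
  rw [hzz, mul_assoc, mul_inv_cancel₀ (pow_ne_zero _ hh₂0), mul_one]

/-! ## The top assembly -/

/-- **(G'), explicit form, from the leaves.** -/
theorem newPartFrobExplicit_of_parts (hDEG : DegStatement) (hT0 : T0FStatement)
    (hT1 : T1FStatement) (hD2 : D2FStatement) (hIF : IFsStatement)
    (hLEV : ∀ (M q m : ℕ) [NeZero M] [NeZero q], q.Prime → ¬ q ∣ M → HasAux M q → 0 < m →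
      ¬ q ∣ m → ∀ (A : ValuationSubring Qb) (E : IntermediateField ℚ Qb),
        LevelFrobAt A E M q m) :
    NewPartFrobExplicit := by
  intro M q m _ _ hq hqM hm hqm
  haveI : NeZero (auxM M q) := ⟨auxM_ne_zero q (NeZero.ne M)⟩
  have hqM' : ¬ q ∣ auxM M q := not_dvd_auxM hq hqM
  apply hD2 M q m hq hqM hm hqm
  obtain ⟨hα, hβ, -, -⟩ := hDEG (auxM M q) q hq hqM'
  apply hT0 (auxM M q) q m hq hqM' hm hqm hα hβ
  apply hT1 (auxM M q) q m hq hqM' hm hqm hIF
  intro A E
  exact hLEV (auxM M q) q m hq hqM' (hasAux_auxM M q) hm hqm A E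

/-- **(G'), bundled form, from the leaves.** -/
theorem newPartFrobStatement_of_explicit (hDEG : DegStatement) (h : NewPartFrobExplicit) :
    NewPartFrobStatement := by
  intro M q p _ _ hq hqM hp hpq
  obtain ⟨-, -, hA, hB⟩ := hDEG M q hq hqM
  refine ⟨degA M q, degB M q, ?_, ?_, ?_⟩
  · intro ℓ hℓ x
    exact hA ℓ (fun hd => hℓ (Dvd.dvd.mul_right hd p)) x
  · intro ℓ hℓ x
    exact hB ℓ (fun hd => hℓ (Dvd.dvd.mul_right hd p)) x
  · intro A hA' s hs x hx ha hb
    obtain ⟨n, hn⟩ := hx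
    have hqm : ¬ q ∣ p ^ n := fun hd =>
      hpq ((Nat.prime_dvd_prime_iff_eq hq hp).1 (hq.dvd_of_dvd_pow hd)).symm
    exact h M q (p ^ n) hq hqM (pow_pos hp.pos n) hqm A hA' s hs x hn ha hb

end Fermat.Agent.S35.G

end

end
-- ===== PACK-END S35/G/Top.lean

-- ===== PACK-BEGIN S35/G/H60/ToricSpec.lean
section


/-!
# S35, piece (G'), leaf TORIC — frozen SUB-LEAVES (sub-architect helper60)

`ToricStatement A E M q m w` (`S35/G/SpecLevel.lean`) is proved in `H60/Toric.lean` from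

* the sibling leaves `StableStatement`, `KronFrobStatement` (as hypotheses),
* the landed A2/MOD leaves L1, L2, L4, L5, L6, L7, L11,
* `NormRedStatement` : **norm reduction along `α`**: for `y ∈ V∞ ∩ V₀` with
  `y ≡ α U mod w V∞` and `y ^ q ≡ α T mod w V₀` (`U, T ∈ V∞_M`):
  `N_α y ≡ U * T mod w V∞_M`.
  (`[F_{Mq} : α F_M] = q + 1`, `V∞`, `V₀` are the two extensions of `V∞_M`, with residue degrees
  `1` and `q`, the second purely inseparable; abstract theorem: `S35.H253.norm_red_insep`.)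

`NormRedStatement` itself is proved in `H60/NormRed.lean` from

* `NotPowStatement` : `j` is not a `q`-th power modulo `w` at level `M`
  (`t`-expansions: the reduction of `j` has a nonzero coefficient at `t⁻¹`, a `q`-th power in
  `k((t))` lies in `k((t^q))`),
* the fundamental inequality `f₁ + f₂ ≤ [F : K]` (`H60/FundIneq.lean`, from `S35.H253`),
* `S37.H818.finrankAlong_heckeAlphaBar` (`[F_{Mq} : α F_M] = q + 1`).

Definitions only (no `sorry`).
-/

set_option autoImplicit false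
set_option linter.style.haveILetI false
set_option linter.unusedSectionVars false
set_option synthInstance.maxHeartbeats 400000
set_option maxHeartbeats 1600000

noncomputable section

namespace Fermat.Agent.S35.G.H60

open ModularCurve AlgebraicCurve

variable (A : ValuationSubring Qb) (E : IntermediateField ℚ Qb) (M q : ℕ) [NeZero M] [NeZero q]
  (w : A2.Mod.RE A E)

/-- **NORM-RED (norm reduction along `α`).**  For `y ∈ V∞ ∩ V₀` (level `M q`) and `U, T ∈ V∞_M`
with `y ≡ α U mod w V∞` and `y ^ q ≡ α T mod w V₀`:  `N_α y ≡ U * T mod w V∞_M`. -/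
def NormRedStatement : Prop :=
  A2.Mod.Setting A E M q w →
    ∀ (VM : ValuationSubring (A2.Mod.FE E M)) (V : ValuationSubring (A2.Mod.FE E (M * q)))
      (W : A2.Mod.FE E (M * q) ≃ₐ[E] A2.Mod.FE E (M * q)),
      A2.Mod.IsVinf A E M VM → A2.Mod.IsVinf A E (M * q) V → A2.Mod.IsFricke E (M * q) W →
      ∀ y : A2.Mod.FE E (M * q), y ∈ V → W y ∈ V →
        ∀ U ∈ VM, ∀ T ∈ VM,
          A2.Mod.InW A E (M * q) V w (y - A2.Mod.αE E M q U) →
          A2.Mod.InW A E (M * q)
            (V.comap (W : A2.Mod.FE E (M * q) →+* A2.Mod.FE E (M * q))) w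
            (y ^ q - A2.Mod.αE E M q T) →
          A2.Mod.InW A E M VM w (S29.H395.normAlong (A2.Mod.αE E M q) y - U * T)

/-- **NOT-POW.**  At level `M` (prime to `q`), `j` is not a `q`-th power modulo `w`:
there is no `a ∈ V∞_M` with `a ^ q ≡ j mod w V∞_M`.
(Reduce the `t`-expansions modulo `w`: `red (j) = t⁻¹ + ⋯`, while a `q`-th power in `k((t))`,
`char k = q`, has no term of exponent prime to `q`: `S37.H400.laurent_pow_char`.) -/
def NotPowStatement : Prop :=
  A2.Mod.Setting A E M q w →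
    ∀ VM : ValuationSubring (A2.Mod.FE E M), A2.Mod.IsVinf A E M VM →
      ∀ a ∈ VM, ¬ A2.Mod.InW A E M VM w (a ^ q - A2.Mod.jE E M 1 (one_dvd _))

/-- **GLUE.**  TORIC from NORM-RED and the sibling leaves STABLE, KRON-FROB (the A2/MOD leaves
L1, L2, L4, L5, L7, L11 are on main).  Proof sketch: `coord/S35-TORIC-helper60.md`. -/
def GlueStatement (m : ℕ) : Prop :=
  NormRedStatement A E M q w → StableStatement A E → KronFrobStatement A E M q w →
    ToricStatement A E M q m w

/-- **NORM-RED assembly.**  NORM-RED from NOT-POW (plus landed degree theory and the abstract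
norm reduction `S35.H253.norm_red_insep`). -/
def NormRedAsmStatement : Prop :=
  NotPowStatement A E M q w → NormRedStatement A E M q w

end Fermat.Agent.S35.G.H60

end

end
-- ===== PACK-END S35/G/H60/ToricSpec.lean

-- ===== PACK-BEGIN S36/Eng/Spec.lean
section



/-!
# S36 ENGINE — frozen interfaces (architect helper996)

Target (helper36, `S36/H36/KummerAt.lean`, on main): `KummerQNewInertiaAt` at NEAT levels.
After DESC (helper756) the Galois action is gone and everything happens over the inertia field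
`E = ℚ̄^{I_P}` (`R = P ∩ E` henselian DVR, UNRAMIFIED: uniformiser `w = q`, residue field `𝔽̄_q`).

Level `N = M q`, `q ∤ M`; `F' = F_E(N)`, `F = F_E(N q)`; `α, β : F' → F` the two degeneracy maps.
The special fibre of the normal model of `F` has THREE components `FF`, `mid`, `VV`
(valuation rings `V₁, V₂, V₃` of `F`), with multiplicities `1, q - 1, 1`;
level `N` has two, `V₁'` (`∞`) and `V₂'` (`0`).  Table (`e`, `f`):

    via α :  V₁ | V₁' (1,1)    V₂ | V₁' (q-1,1)    V₃ | V₂' (1, q insep)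
    via β :  V₃ | V₂' (1,1)    V₂ | V₂' (q-1,1)    V₁ | V₁' (1, q insep)

* `TripleCtx`        : EVERYTHING the abstract argument uses (a `Prop`; elementwise, no quotient
                        or localisation types).  This is the ALG3 / MOD3 boundary.
* `Alg3Statement`    : ABSTRACT (Mathlib + `normAlong`): `TripleCtx` ⟹ there is `C > 0` such that
                        for all `m` prime to `q` and all `f ≠ 0` with `m ∣ div f` whose norms along
                        `α` and `β` are constants times `m`-th powers, `f ^ C` is a constant times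
                        an `m`-th power.  (`C = (q² - 1)²` works.)
* `Model3Statement`  : the modular function fields carry a `TripleCtx` at neat levels.
* `LevelInertiaAt`   : the engine at the level `E`;  `Skel.lean` proves
                        `Alg3Statement → Model3Statement → LevelInertiaAt` (sorry-free).

Definitions only (no `sorry`).  Board: `coord/S36-ENGINE.md` on `origin/helper996`.

v1.2 (21:30Z): `UnitAt`, `UnifAt` exclude the junk value `0` (referee helper229);
`regular_f`, `regular_i` only at the closed points of the middle component; `fin_α`, `fin_β`.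
v1.3 (21:50Z, FINAL): `base_i`, `gauss_i` (the `V_i` are sheets; asked by helper586);
`NeatFor` contains `4 ∣ M` (`q` odd) resp. `9 ∣ M` (`q = 2`) (asked by REG: helper878, helper925,
helper843, helper336).
-/

set_option autoImplicit false
set_option linter.style.haveILetI false
set_option linter.unusedSectionVars false
set_option synthInstance.maxHeartbeats 400000
set_option maxHeartbeats 1600000

noncomputable section

namespace Fermat.Agent.S36.Eng

open ModularCurve AlgebraicCurve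
open Fermat.Agent.S18.H138 (chart)

/-! ## Elementwise vocabulary (Mathlib only) -/

section Vocab

variable {R F : Type*} [CommRing R] [Field F] [Algebra R F]

/-- `y` is a unit of the valuation ring `V` (in particular `y ≠ 0`). -/
def UnitAt (V : ValuationSubring F) (y : F) : Prop := y ≠ 0 ∧ y ∈ V ∧ y⁻¹ ∈ V

/-- The component of the special fibre cut out by `V` passes through the closed point `𝔪` of the
chart `B`:  `B ∩ 𝔪_V ⊆ 𝔪`. -/
def Through (B : Subalgebra R F) (𝔪 : Ideal B) (V : ValuationSubring F) : Prop :=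
  ∀ b : B, (b : F) ∈ V.nonunits → b ∈ 𝔪

/-- The prime `B ∩ 𝔪_V` is principal locally at `𝔪`: some `t ∈ B ∩ 𝔪_V` divides every element of
`B ∩ 𝔪_V` in `B_𝔪`.  (With `NormalAlong` this says that `B_𝔪` is REGULAR.) -/
def PrincipalAt (B : Subalgebra R F) (𝔪 : Ideal B) (V : ValuationSubring F) : Prop :=
  ∃ t : B, (t : F) ∈ V.nonunits ∧
    ∀ a : B, (a : F) ∈ V.nonunits → ∃ g c : B, g ∉ 𝔪 ∧ g * a = t * c

/-- The component of the chart `B` cut out by `V` is normal, with function field the residue field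
of `V`:  an element of `F` which is integral over `B` modulo `𝔪_V` is congruent modulo `𝔪_V` to an
element of `B`. -/
def NormalAlong (B : Subalgebra R F) (V : ValuationSubring F) : Prop :=
  ∀ (f : F) (p : Polynomial B), p.Monic → Polynomial.aeval f p ∈ V.nonunits →
    ∃ b : B, f - (b : F) ∈ V.nonunits

/-- `B ∩ w (V₁ ∩ V₂ ∩ V₃) = w B`: the three valuation rings are ALL the components of the special
fibre of the chart `B`, with their multiplicities (`q`-expansion principle). -/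
def Qep3 (w : R) (B : Subalgebra R F) (V₁ V₂ V₃ : ValuationSubring F) : Prop :=
  ∀ b : B, (b : F) * (algebraMap R F w)⁻¹ ∈ V₁ → (b : F) * (algebraMap R F w)⁻¹ ∈ V₂ →
    (b : F) * (algebraMap R F w)⁻¹ ∈ V₃ → ∃ c : B, b = algebraMap R B w * c

/-- `t` is a uniformiser of `V` (in particular `t ≠ 0`). -/
def UnifAt (V : ValuationSubring F) (t : F) : Prop :=
  t ≠ 0 ∧ t ∈ V.nonunits ∧ ∀ f ∈ V.nonunits, f * t⁻¹ ∈ V

/-- `𝔪` is a TRIPLE point of the chart `B`: all three components pass through it. -/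
def IsTriple (B : Subalgebra R F) (𝔪 : Ideal B) (V₁ V₂ V₃ : ValuationSubring F) : Prop :=
  Through B 𝔪 V₁ ∧ Through B 𝔪 V₂ ∧ Through B 𝔪 V₃

end Vocab

/-! ## The context of ALG3 -/

section Ctx

variable {R E F F' : Type*} [CommRing R] [Field E] [Algebra R E]
  [Field F] [Algebra E F] [Algebra R F] [Field F'] [Algebra E F'] [Algebra R F']

/-- **The three-component context** (level `q² M'` over level `q M'`), elementwise.

Data: uniformiser `w` of `R`, residue characteristic `q`, the degeneracy maps `α, β : F' → F`,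
coordinates `x` of `F` and `x'` of `F'`, valuation rings `V₁ = FF`, `V₂ = mid`, `V₃ = VV` of `F`
and `V₁'`, `V₂'` of `F'`.  Charts: `Bf = chart R {x}`, `Bi = chart R {x⁻¹}`, `Bf' = chart R {x'}`
(integral closures of `R[x]`, `R[x⁻¹]`, `R[x']`). -/
structure TripleCtx (w : R) (q : ℕ) (α β : F' →ₐ[E] F) (x : F) (x' : F')
    (V₁ V₂ V₃ : ValuationSubring F) (V₁' V₂' : ValuationSubring F') : Prop where
  -- ### the function field
  hx : Transcendental E x
  hfin : FiniteDimensional (IntermediateField.adjoin E ({x} : Set F)) F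
  hconst : ∀ f : F, IsAlgebraic E f → f ∈ (algebraMap E F).range
  -- ### the three valuation rings: DVRs, distinct, multiplicities `1, q - 1, 1`
  dvr₁ : IsDiscreteValuationRing V₁
  dvr₂ : IsDiscreteValuationRing V₂
  dvr₃ : IsDiscreteValuationRing V₃
  ne₁₂ : V₁ ≠ V₂
  ne₁₃ : V₁ ≠ V₃
  ne₂₃ : V₂ ≠ V₃
  unif₁ : UnifAt V₁ (algebraMap R F w)
  unif₃ : UnifAt V₃ (algebraMap R F w)
  /-- `w = unit · t ^ (q - 1)` at `V₂`, `t` a uniformiser -/
  ram₂ : ∃ t : F, UnifAt V₂ t ∧ UnitAt V₂ (algebraMap R F w * (t ^ (q - 1))⁻¹)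
  -- ### the charts of level `q² M'`
  base₁ : ∀ r : R, algebraMap R F r ∈ V₁
  base₂ : ∀ r : R, algebraMap R F r ∈ V₂
  base₃ : ∀ r : R, algebraMap R F r ∈ V₃
  /-- `x` is a unit of the three valuation rings (so both charts lie in `V₁ ∩ V₂ ∩ V₃`) -/
  x_unit₁ : UnitAt V₁ x
  x_unit₂ : UnitAt V₂ x
  x_unit₃ : UnitAt V₃ x
  /-- the three valuation rings are SHEETS of `x` (they induce the Gauss valuation on `R[x]`:
  the residue of `x` is transcendental); with `base_i`, `x_unit_i`, `unif_i`/`ram₂` this is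
  `A2.H12.IsSheet w x V_i`, so `V_i` is the localisation of the chart at `B ∩ 𝔪_{V_i}`
  (`S36.H193.sheet_mem_iff`) -/
  gauss₁ : ∀ P : Polynomial R, (∃ i, ¬ w ∣ P.coeff i) → (Polynomial.aeval x P)⁻¹ ∈ V₁
  gauss₂ : ∀ P : Polynomial R, (∃ i, ¬ w ∣ P.coeff i) → (Polynomial.aeval x P)⁻¹ ∈ V₂
  gauss₃ : ∀ P : Polynomial R, (∃ i, ¬ w ∣ P.coeff i) → (Polynomial.aeval x P)⁻¹ ∈ V₃
  qep_f : Qep3 w (chart R ({x} : Set F)) V₁ V₂ V₃
  qep_i : Qep3 w (chart R ({x⁻¹} : Set F)) V₁ V₂ V₃
  normal_f₁ : NormalAlong (chart R ({x} : Set F)) V₁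
  normal_f₂ : NormalAlong (chart R ({x} : Set F)) V₂
  normal_f₃ : NormalAlong (chart R ({x} : Set F)) V₃
  normal_i₁ : NormalAlong (chart R ({x⁻¹} : Set F)) V₁
  normal_i₂ : NormalAlong (chart R ({x⁻¹} : Set F)) V₂
  normal_i₃ : NormalAlong (chart R ({x⁻¹} : Set F)) V₃
  /-- INCIDENCE (finite chart): a closed point on two components is a triple point -/
  incidence : ∀ 𝔪 : Ideal (chart R ({x} : Set F)), 𝔪.IsMaximal →
    (Through _ 𝔪 V₁ ∧ Through _ 𝔪 V₂) ∨ (Through _ 𝔪 V₁ ∧ Through _ 𝔪 V₃) ∨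
      (Through _ 𝔪 V₂ ∧ Through _ 𝔪 V₃) → IsTriple _ 𝔪 V₁ V₂ V₃
  /-- REGULARITY (finite chart): at every closed point of the MIDDLE component some component
  through the point is locally principal.  (At the other closed points of the special fibre
  regularity is automatic: one component of multiplicity one, `Qep3`.) -/
  regular_f : ∀ 𝔪 : Ideal (chart R ({x} : Set F)), 𝔪.IsMaximal → Through _ 𝔪 V₂ →
    (Through _ 𝔪 V₁ ∧ PrincipalAt _ 𝔪 V₁) ∨ PrincipalAt _ 𝔪 V₂ ∨
      (Through _ 𝔪 V₃ ∧ PrincipalAt _ 𝔪 V₃)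
  /-- the points at infinity (`x⁻¹ = 0`, the cusps) lie on ONE component -/
  cusp_single : ∀ 𝔪 : Ideal (chart R ({x⁻¹} : Set F)), 𝔪.IsMaximal →
    algebraMap R (chart R ({x⁻¹} : Set F)) w ∈ 𝔪 →
    (⟨x⁻¹, Fermat.Agent.S18.H138.mem_chart_of_mem rfl⟩ : chart R ({x⁻¹} : Set F)) ∈ 𝔪 →
    ¬ (Through _ 𝔪 V₁ ∧ Through _ 𝔪 V₂) ∧ ¬ (Through _ 𝔪 V₁ ∧ Through _ 𝔪 V₃) ∧
      ¬ (Through _ 𝔪 V₂ ∧ Through _ 𝔪 V₃)
  /-- REGULARITY at the points at infinity of the MIDDLE component -/
  regular_i : ∀ 𝔪 : Ideal (chart R ({x⁻¹} : Set F)), 𝔪.IsMaximal →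
    (⟨x⁻¹, Fermat.Agent.S18.H138.mem_chart_of_mem rfl⟩ : chart R ({x⁻¹} : Set F)) ∈ 𝔪 →
    Through _ 𝔪 V₂ → PrincipalAt _ 𝔪 V₂
  -- ### the two degeneracy maps: the `(e, f)` table
  fin_α : FiniteAlong E α
  fin_β : FiniteAlong E β
  comap_α₁ : V₁.comap (α : F' →+* F) = V₁'
  comap_α₂ : V₂.comap (α : F' →+* F) = V₁'
  comap_α₃ : V₃.comap (α : F' →+* F) = V₂'
  comap_β₁ : V₁.comap (β : F' →+* F) = V₁'
  comap_β₂ : V₂.comap (β : F' →+* F) = V₂'
  comap_β₃ : V₃.comap (β : F' →+* F) = V₂'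
  /-- NV (valuations of norms), `α`:  `v₁'(N y) = v₁ y + v₂ y`, `v₂'(N y) = q · v₃ y` -/
  nv_α : ∀ (t : F), UnifAt V₂ t → ∀ (y : F) (a₁ a₂ a₃ : ℤ), y ≠ 0 →
    UnitAt V₁ (y * (algebraMap R F w ^ a₁)⁻¹) → UnitAt V₂ (y * (t ^ a₂)⁻¹) →
    UnitAt V₃ (y * (algebraMap R F w ^ a₃)⁻¹) →
    UnitAt V₁' (S29.H395.normAlong α y * (algebraMap R F' w ^ (a₁ + a₂))⁻¹) ∧
      UnitAt V₂' (S29.H395.normAlong α y * (algebraMap R F' w ^ ((q : ℤ) * a₃))⁻¹)
  /-- NV, `β`:  `v₂'(N y) = v₃ y + v₂ y`, `v₁'(N y) = q · v₁ y` -/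
  nv_β : ∀ (t : F), UnifAt V₂ t → ∀ (y : F) (a₁ a₂ a₃ : ℤ), y ≠ 0 →
    UnitAt V₁ (y * (algebraMap R F w ^ a₁)⁻¹) → UnitAt V₂ (y * (t ^ a₂)⁻¹) →
    UnitAt V₃ (y * (algebraMap R F w ^ a₃)⁻¹) →
    UnitAt V₂' (S29.H395.normAlong β y * (algebraMap R F' w ^ (a₃ + a₂))⁻¹) ∧
      UnitAt V₁' (S29.H395.normAlong β y * (algebraMap R F' w ^ ((q : ℤ) * a₁))⁻¹)
  /-- NR (residues of norms), `α` over `V₁'`:  `res (N y) = res₁ y · (res₂ y) ^ (q - 1)` -/
  nr_α₁ : ∀ y : F, UnitAt V₁ y → UnitAt V₂ y → ∀ x₁ x₂ : F',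
    α x₁ - y ∈ V₁.nonunits → α x₂ - y ∈ V₂.nonunits →
    S29.H395.normAlong α y - x₁ * x₂ ^ (q - 1) ∈ V₁'.nonunits
  /-- NR, `α` over `V₂'` (purely inseparable of degree `q`):  `res (N y) = (res₃ y) ^ q` -/
  nr_α₂ : ∀ y : F, UnitAt V₃ y → α (S29.H395.normAlong α y) - y ^ q ∈ V₃.nonunits
  /-- NR, `β` over `V₂'` -/
  nr_β₁ : ∀ y : F, UnitAt V₃ y → UnitAt V₂ y → ∀ x₃ x₂ : F',
    β x₃ - y ∈ V₃.nonunits → β x₂ - y ∈ V₂.nonunits →
    S29.H395.normAlong β y - x₃ * x₂ ^ (q - 1) ∈ V₂'.nonunits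
  /-- NR, `β` over `V₁'` (purely inseparable of degree `q`) -/
  nr_β₂ : ∀ y : F, UnitAt V₁ y → β (S29.H395.normAlong β y) - y ^ q ∈ V₁.nonunits
  -- ### the finite chart of level `q M'`
  /-- `α` and `β` map the finite chart of level `q M'` into the finite chart of level `q² M'` -/
  chart_α : ∀ b ∈ chart R ({x'} : Set F'), α b ∈ chart R ({x} : Set F)
  chart_β : ∀ b ∈ chart R ({x'} : Set F'), β b ∈ chart R ({x} : Set F)
  /-- the finite chart of level `q² M'` is integral over the image of the one of level `q M'` -/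
  int_α : ∀ b ∈ chart R ({x} : Set F), ∃ p : Polynomial F', p.Monic ∧
    (∀ i, p.coeff i ∈ chart R ({x'} : Set F')) ∧ (p.map (α : F' →+* F)).eval b = 0
  int_β : ∀ b ∈ chart R ({x} : Set F), ∃ p : Polynomial F', p.Monic ∧
    (∀ i, p.coeff i ∈ chart R ({x'} : Set F')) ∧ (p.map (β : F' →+* F)).eval b = 0
  /-- RES (residue degree one, in chart form):  `Bf = α (Bf') + (Bf ∩ 𝔪_V)` -/
  res_α₁ : ∀ b ∈ chart R ({x} : Set F), ∃ b' ∈ chart R ({x'} : Set F'), b - α b' ∈ V₁.nonunits
  res_α₂ : ∀ b ∈ chart R ({x} : Set F), ∃ b' ∈ chart R ({x'} : Set F'), b - α b' ∈ V₂.nonunits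
  res_β₃ : ∀ b ∈ chart R ({x} : Set F), ∃ b' ∈ chart R ({x'} : Set F'), b - β b' ∈ V₃.nonunits
  res_β₂ : ∀ b ∈ chart R ({x} : Set F), ∃ b' ∈ chart R ({x'} : Set F'), b - β b' ∈ V₂.nonunits
  /-- a triple point is the ONLY closed point of the finite chart over its image under `α` -/
  unique_α : ∀ 𝔪 𝔪' : Ideal (chart R ({x} : Set F)), 𝔪.IsMaximal → 𝔪'.IsMaximal →
    IsTriple _ 𝔪 V₁ V₂ V₃ →
    (∀ (b' : F') (h : b' ∈ chart R ({x'} : Set F')),
      (⟨α b', chart_α b' h⟩ : chart R ({x} : Set F)) ∈ 𝔪 →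
        (⟨α b', chart_α b' h⟩ : chart R ({x} : Set F)) ∈ 𝔪') → 𝔪' = 𝔪
  /-- … and over its image under `β` -/
  unique_β : ∀ 𝔪 𝔪' : Ideal (chart R ({x} : Set F)), 𝔪.IsMaximal → 𝔪'.IsMaximal →
    IsTriple _ 𝔪 V₁ V₂ V₃ →
    (∀ (b' : F') (h : b' ∈ chart R ({x'} : Set F')),
      (⟨β b', chart_β b' h⟩ : chart R ({x} : Set F)) ∈ 𝔪 →
        (⟨β b', chart_β b' h⟩ : chart R ({x} : Set F)) ∈ 𝔪') → 𝔪' = 𝔪

end Ctx

/-! ## ALG3 -/

/-- **ALG3 (interface statement).**  `R` a henselian DVR with algebraically closed residue field of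
characteristic `q`, uniformiser `w`, `E = Frac R`; a three-component context.  Then there is
`C > 0` such that for all `m` prime to `q`: every `f ∈ Fˣ` with `m ∣ div f` whose norms along `α`
and `β` are constants times `m`-th powers satisfies `f ^ C ∈ Eˣ · (Fˣ) ^ m`. -/
def Alg3Statement : Prop :=
  ∀ {R E F F' : Type} [CommRing R] [IsDomain R] [IsDiscreteValuationRing R]
    [HenselianLocalRing R] [IsAlgClosed (IsLocalRing.ResidueField R)]
    [Field E] [CharZero E] [Algebra R E] [IsFractionRing R E]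
    [Field F] [Algebra E F] [Algebra R F] [IsScalarTower R E F]
    [Field F'] [Algebra E F'] [Algebra R F'] [IsScalarTower R E F']
    (w : R) (_ : Irreducible w) (q : ℕ) (_ : q.Prime)
    (_ : (q : R) ∈ IsLocalRing.maximalIdeal R)
    (α β : F' →ₐ[E] F) (x : F) (x' : F')
    (V₁ V₂ V₃ : ValuationSubring F) (V₁' V₂' : ValuationSubring F')
    (_ : TripleCtx w q α β x x' V₁ V₂ V₃ V₁' V₂'),
    ∃ C : ℕ, 0 < C ∧ ∀ m : ℕ, 0 < m → ¬ q ∣ m →
      ∀ f : F, f ≠ 0 → A2.DivisibleDiv E m f →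
        S35.G.NormPow α m f → S35.G.NormPow β m f →
        ∃ (c : E) (h : F), h ≠ 0 ∧ f ^ C = algebraMap E F c * h ^ m

/-! ## The level-`E` engine and MOD3 -/

section Level

variable (P : ValuationSubring A2.Qb) (E : IntermediateField ℚ A2.Qb) (M q : ℕ)
  [NeZero M] [NeZero q]

/-- **The engine at the level `E`**, levels `N = M q` and `N q = M q q`. -/
def LevelInertiaAt [NeZero (M * q)] : Prop :=
  ∃ C : ℕ, 0 < C ∧ ∀ m : ℕ, 0 < m → ¬ q ∣ m →
    ∀ y : A2.Mod.FE E (M * q * q), y ≠ 0 → A2.DivisibleDiv E m y →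
      S35.G.NormPow (A2.Mod.αE E (M * q) q) m y → S35.G.NormPow (A2.Mod.βE E (M * q) q) m y →
      ∃ (c : E) (h : A2.Mod.FE E (M * q * q)), h ≠ 0 ∧
        y ^ C = algebraMap E (A2.Mod.FE E (M * q * q)) c * h ^ m

/-- The level `M q` is NEAT for `q`: some prime `r ≡ 11 mod 12` divides `M`, and `4 ∣ M` if `q` is
odd, `9 ∣ M` if `q = 2` (no elliptic points in characteristic `q`, with the EXPLICIT local
coordinate `t₄` resp. `t₉` at every non-cuspidal point; in particular `S35.G.HasAux M q`). -/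
def NeatFor : Prop :=
  (∃ r : ℕ, r.Prime ∧ r % 12 = 11 ∧ r ≠ q ∧ r ∣ M) ∧ (q ≠ 2 → 4 ∣ M) ∧ (q = 2 → 9 ∣ M)

theorem NeatFor.hasAux {M q : ℕ} (h : NeatFor M q) : S35.G.HasAux M q :=
  ⟨fun h3 => Dvd.dvd.trans (by norm_num) (h.2.1 (by omega)),
    fun h2 => Dvd.dvd.trans (by norm_num) (h.2.2 h2)⟩

/-- `E` is an UNRAMIFIED good level for `P`: `q` is a uniformiser of `R_E = P ∩ E`. -/
def Unramified (P : ValuationSubring A2.Qb) (E : IntermediateField ℚ A2.Qb) (q : ℕ) : Prop :=
  A2.GoodField P E ∧ ∀ e : E, (e : A2.Qb) ∈ P.nonunits → (e : A2.Qb) * ((q : A2.Qb))⁻¹ ∈ P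

/-- **MOD3 (interface statement).**  At a neat level `M q`, `q ∤ M`, over an unramified good
level `E`, the function fields `F' = F_E(M q)`, `F = F_E(M q²)` with the two degeneracy maps carry
a three-component context. -/
def Model3Statement : Prop :=
  ∀ (P : ValuationSubring A2.Qb) (E : IntermediateField ℚ A2.Qb) (M q : ℕ)
    [NeZero M] [NeZero q] [NeZero (M * q)],
    q.Prime → ¬ q ∣ M → P.LiesOverPrime q → Unramified P E q → NeatFor M q →
    ∀ w : A2.RE P E, Irreducible w →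
    ∃ (x : A2.Mod.FE E (M * q * q)) (x' : A2.Mod.FE E (M * q))
      (V₁ V₂ V₃ : ValuationSubring (A2.Mod.FE E (M * q * q)))
      (V₁' V₂' : ValuationSubring (A2.Mod.FE E (M * q))),
      TripleCtx (R := A2.RE P E) (E := E) w q (A2.Mod.αE E (M * q) q) (A2.Mod.βE E (M * q) q)
        x x' V₁ V₂ V₃ V₁' V₂'

/-- **The level engine (interface statement).** -/
def LevelInertiaStatement : Prop :=
  ∀ (P : ValuationSubring A2.Qb) (E : IntermediateField ℚ A2.Qb) (M q : ℕ)
    [NeZero M] [NeZero q] [NeZero (M * q)],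
    q.Prime → ¬ q ∣ M → P.LiesOverPrime q → Unramified P E q → NeatFor M q →
    LevelInertiaAt E M q

end Level

end Fermat.Agent.S36.Eng

end

end
-- ===== PACK-END S36/Eng/Spec.lean

-- ===== PACK-BEGIN S59/H105/UqAL.lean
section






/-!
# Row S59, cell TW, leaf TW-CTRL (helper105): the Atkin–Lehner coset and `U_q² = 1` on new classes

Level `N`, prime `q ∤ N`, `x q - b N = 1`, `g₀ = [[x, b], [N, q]] ∈ Γ₀(N)`,
`w = g₀ · diag(q, 1) = [[x q, b], [N q, q]]` (an Atkin–Lehner element of level `N q`).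

* `alSystem` : the representatives `[[1, j], [0, q]]` (`j ∈ ℤ/q`) and `w` form a coset system from
  `Γ₀(N q)` to `Γ₀(N)`; its transfer is `t₂` (`t₂_eq_transfer`);
* `r₁_t₂_apply` : `(r₁ t₂ ψ)(γ) = ψ(c_w γ) + (U_q ψ)(γ)`;
* `r₁_t₁_apply` : `(r₁ t₁ ψ)(γ) = ψ(γ) + ∑_j ψ(c_w (γ_j))`;
* `Uq_Uq` : `U_q (U_q ψ) = ψ + U_q (r₁ (t₂ ψ)) - r₁ (t₁ ψ)`;
* `Uq_Uq_of_new` : `t₁ ψ = 0`, `t₂ ψ = 0` imply `U_q (U_q ψ) = ψ`.
-/

set_option autoImplicit false

namespace Fermat.Agent.S59.H105

open CongruenceSubgroup Matrix.SpecialLinearGroup ModularForm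
open Fermat.Agent.S29.H642 Fermat.Agent.S41 Fermat.Agent.S41.Spec Fermat.Agent.S41.H761
open P2MW.S_ModularForm_heckeT_slash_eq_self_of_mem_Gamma0.ModularForm.HeckeSlashInvariance
open scoped MatrixGroups

variable {N q : ℕ} [Fact q.Prime]

theorem exists_bezout_al (hqN : ¬ q ∣ N) : ∃ x b : ℤ, x * q - b * N = 1 := by
  have hcop : IsCoprime (N : ℤ) (q : ℤ) := by
    rw [Int.isCoprime_iff_gcd_eq_one, Int.gcd_natCast_natCast]
    exact (Nat.Coprime.symm ((Fact.out : q.Prime).coprime_iff_not_dvd.mpr hqN))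
  obtain ⟨u, v, huv⟩ := hcop
  exact ⟨v, -u, by linear_combination huv⟩

/-- `g₀ = [[x, b], [N, q]]`. -/
def alElt (N q : ℕ) (x b : ℤ) (hxb : x * q - b * N = 1) : Gamma0 N :=
  mkGamma0 N x b N q hxb (dvd_refl _)

/-- The modification of the representatives: `1` at the finite points, `g₀` at `∞`. -/
def alBeta (g₀ : Gamma0 N) (y : OnePoint (ZMod q)) : Gamma0 N :=
  Option.elim y g₀ (fun _ => 1)

omit [Fact (Nat.Prime q)] in
theorem alBeta_infty (g₀ : Gamma0 N) : alBeta (q := q) g₀ OnePoint.infty = g₀ := rfl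

omit [Fact (Nat.Prime q)] in
theorem alBeta_coe (g₀ : Gamma0 N) (j : ZMod q) : alBeta g₀ (j : OnePoint (ZMod q)) = 1 := rfl

/-- The representatives `[[1, j], [0, q]]` and `w = g₀ diag(q, 1)`. -/
noncomputable def alRep (g₀ : Gamma0 N) (y : OnePoint (ZMod q)) : GL (Fin 2) ℝ :=
  ιN N (alBeta g₀ y) * heckeRep q y

omit [Fact (Nat.Prime q)] in
theorem alRep_infty (g₀ : Gamma0 N) :
    alRep g₀ (OnePoint.infty : OnePoint (ZMod q)) = ιN N g₀ * heckeRep q OnePoint.infty := rfl

omit [Fact (Nat.Prime q)] in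
theorem alRep_coe (g₀ : Gamma0 N) (j : ZMod q) :
    alRep g₀ (j : OnePoint (ZMod q)) = heckeRep q (j : OnePoint (ZMod q)) := by
  rw [alRep, alBeta_coe, map_one, one_mul]

omit [Fact (Nat.Prime q)] in
theorem alElt_entries (x b : ℤ) (hxb : x * q - b * N = 1) :
    ((alElt N q x b hxb : Gamma0 N) : SL(2, ℤ)) 0 0 = x ∧
    ((alElt N q x b hxb : Gamma0 N) : SL(2, ℤ)) 0 1 = b ∧
    ((alElt N q x b hxb : Gamma0 N) : SL(2, ℤ)) 1 0 = N ∧
    ((alElt N q x b hxb : Gamma0 N) : SL(2, ℤ)) 1 1 = q :=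
  mkGamma0_apply N x b N q hxb (dvd_refl _)

/-- The lower row of `alRep` is divisible by `q`. -/
theorem alRep_low (x b : ℤ) (hxb : x * q - b * N = 1) (y : OnePoint (ZMod q)) (i : Fin 2) :
    ∃ m : ℤ,
      ((alRep (alElt N q x b hxb) y : GL (Fin 2) ℝ) : Matrix (Fin 2) (Fin 2) ℝ) 1 i =
        (q : ℝ) * m := by
  obtain ⟨g00, g01, g10, g11⟩ := alElt_entries (N := N) (q := q) x b hxb
  induction y using OnePoint.rec with
  | infty =>
    fin_cases i
    · refine ⟨N, ?_⟩
      simp only [alRep_infty, coe_mul_apply, coe_ιN_apply, coe_heckeRep_infty, Matrix.of_apply,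
        Matrix.cons_val', Matrix.cons_val_zero, Matrix.cons_val_one, Matrix.cons_val_fin_one,
        g10, g11, Fin.zero_eta, Fin.isValue]
      push_cast
      ring
    · refine ⟨1, ?_⟩
      simp only [alRep_infty, coe_mul_apply, coe_ιN_apply, coe_heckeRep_infty, Matrix.of_apply,
        Matrix.cons_val', Matrix.cons_val_zero, Matrix.cons_val_one, Matrix.cons_val_fin_one,
        g10, g11, Fin.mk_one, Fin.isValue]
      push_cast
      ring
  | coe j =>
    fin_cases i
    · refine ⟨0, ?_⟩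
      simp only [alRep_coe, coe_heckeRep_coe, Matrix.of_apply, Matrix.cons_val',
        Matrix.cons_val_zero, Matrix.cons_val_one, Matrix.cons_val_fin_one, Fin.zero_eta,
        Fin.isValue]
      push_cast
      ring
    · refine ⟨1, ?_⟩
      simp only [alRep_coe, coe_heckeRep_coe, Matrix.of_apply, Matrix.cons_val',
        Matrix.cons_val_zero, Matrix.cons_val_one, Matrix.cons_val_fin_one, Fin.mk_one,
        Fin.isValue]
      push_cast
      ring

/-- An entry of the upper row of `alRep` is an integer prime to `q`. -/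
theorem alRep_top (x b : ℤ) (hxb : x * q - b * N = 1) (y : OnePoint (ZMod q)) :
    ∃ (i : Fin 2) (t : ℤ),
      ((alRep (alElt N q x b hxb) y : GL (Fin 2) ℝ) : Matrix (Fin 2) (Fin 2) ℝ) 0 i = (t : ℝ) ∧
      IsCoprime (q : ℤ) t := by
  obtain ⟨g00, g01, g10, g11⟩ := alElt_entries (N := N) (q := q) x b hxb
  induction y using OnePoint.rec with
  | infty =>
    refine ⟨1, b, ?_, ⟨x, -N, by linear_combination hxb⟩⟩
    simp only [alRep_infty, coe_mul_apply, coe_ιN_apply, coe_heckeRep_infty, Matrix.of_apply,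
      Matrix.cons_val', Matrix.cons_val_zero, Matrix.cons_val_one, Matrix.cons_val_fin_one,
      g00, g01]
    push_cast
    ring
  | coe j =>
    refine ⟨0, 1, ?_, isCoprime_one_right⟩
    simp only [alRep_coe, coe_heckeRep_coe, Matrix.of_apply, Matrix.cons_val',
      Matrix.cons_val_zero, Matrix.cons_val_one, Matrix.cons_val_fin_one]
    push_cast
    ring

/-- If `τ_y g = h τ_{y'}` with `g, h ∈ Γ₀(N)`, then `q ∣ h₁₀`. -/
theorem dvd_of_alRep_mul (x b : ℤ) (hxb : x * q - b * N = 1) {y y' : OnePoint (ZMod q)}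
    {g h : Gamma0 N}
    (e : alRep (alElt N q x b hxb) y * ιN N g = ιN N h * alRep (alElt N q x b hxb) y') :
    (q : ℤ) ∣ (h : SL(2, ℤ)) 1 0 := by
  obtain ⟨i, t, ht, hcop⟩ := alRep_top x b hxb y'
  obtain ⟨m₀, hm₀⟩ := alRep_low x b hxb y 0
  obtain ⟨m₁, hm₁⟩ := alRep_low x b hxb y 1
  obtain ⟨m', hm'⟩ := alRep_low x b hxb y' i
  have e1 := congrArg (fun M : GL (Fin 2) ℝ => (M : Matrix (Fin 2) (Fin 2) ℝ) 1 i) e
  simp only [coe_mul_apply, coe_ιN_apply, hm₀, hm₁, hm', ht] at e1
  have e2 : (h : SL(2, ℤ)) 1 0 * t =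
      q * (m₀ * (g : SL(2, ℤ)) 0 i + m₁ * (g : SL(2, ℤ)) 1 i - (h : SL(2, ℤ)) 1 1 * m') := by
    have : (((h : SL(2, ℤ)) 1 0 * t : ℤ) : ℝ) =
        ((q * (m₀ * (g : SL(2, ℤ)) 0 i + m₁ * (g : SL(2, ℤ)) 1 i - (h : SL(2, ℤ)) 1 1 * m') : ℤ) :
          ℝ) := by
      push_cast
      linear_combination (-1 : ℝ) * e1
    exact_mod_cast this
  exact hcop.dvd_of_dvd_mul_right ⟨_, e2⟩

/-- The relation `τ_y g = (β_y g_y β_{y'}⁻¹) τ_{y'}` coming from the Hecke system. -/
theorem alRep_mul (hqN : ¬ q ∣ N) (g₀ : Gamma0 N) (y : OnePoint (ZMod q)) (g : Gamma0 N) :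
    alRep g₀ y * ιN N g =
      ιN N (alBeta g₀ y * hElt hqN g y * (alBeta g₀ (hPerm q (g : SL(2, ℤ)) y))⁻¹) *
        alRep g₀ (hPerm q (g : SL(2, ℤ)) y) := by
  rw [alRep, alRep, mul_assoc, heckeSystem_spec hqN y g]
  simp only [map_mul, map_inv, mul_assoc, inv_mul_cancel_left]

/-- **The Atkin–Lehner coset system** from `Γ₀(N q)` to `Γ₀(N)`. -/
theorem alSystem (hqN : ¬ q ∣ N) (x b : ℤ) (hxb : x * q - b * N = 1) :
    IsCosetSystem (ιN (N * q)) (ιN N) (alRep (q := q) (alElt N q x b hxb)) where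
  inj := ιN_injective (N * q)
  exists_mul := by
    intro y g
    have e := alRep_mul hqN (alElt N q x b hxb) y g
    have hdvd := dvd_of_alRep_mul x b hxb e
    obtain ⟨h', hh'⟩ := (H105.mem_range_incl_iff (Fact.out : q.Prime) hqN _).mpr hdvd
    refine ⟨hPerm q (g : SL(2, ℤ)) y, h', ?_⟩
    rw [e, ← hh']
    rfl
  eq_of_mul := by
    intro y y' g e
    have e2 : heckeRep q y = ιN N ((alBeta (alElt N q x b hxb) y)⁻¹ * incl N q g *
        alBeta (alElt N q x b hxb) y') * heckeRep q y' := by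
      have e3 : ιN N (alBeta (alElt N q x b hxb) y) * heckeRep q y =
          ιN N (incl N q g) * (ιN N (alBeta (alElt N q x b hxb) y') * heckeRep q y') := e
      simp only [map_mul, map_inv, mul_assoc]
      rw [← e3, inv_mul_cancel_left]
    exact heckeRep_eq_of_mul e2

theorem alSystem_act (hqN : ¬ q ∣ N) (x b : ℤ) (hxb : x * q - b * N = 1)
    (y : OnePoint (ZMod q)) (g : Gamma0 N) :
    (alSystem hqN x b hxb).act y g = hPerm q (g : SL(2, ℤ)) y := by
  have e := alRep_mul hqN (alElt N q x b hxb) y g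
  have hdvd := dvd_of_alRep_mul x b hxb e
  obtain ⟨h', hh'⟩ := (H105.mem_range_incl_iff (Fact.out : q.Prime) hqN _).mpr hdvd
  apply (alSystem hqN x b hxb).act_eq (g := h')
  rw [e, ← hh']
  rfl

theorem alSystem_transitive (hqN : ¬ q ∣ N) (x b : ℤ) (hxb : x * q - b * N = 1)
    (y y' : OnePoint (ZMod q)) : ∃ g : Gamma0 N, (alSystem hqN x b hxb).act y g = y' := by
  obtain ⟨g, hg⟩ := heckeSystem_transitive hqN y y'
  exact ⟨g, by rw [alSystem_act hqN x b hxb, ← hg, heckeSystem_act hqN]⟩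

section Transfer

variable {A : Type*} [AddCommGroup A]

/-- `t₂` is the transfer of the Atkin–Lehner coset system. -/
theorem t₂_eq_transfer (hqN : ¬ q ∣ N) (x b : ℤ) (hxb : x * q - b * N = 1)
    (ψ : Additive (Gamma0 (N * q)) →+ A) :
    t₂ N q ψ = (alSystem hqN x b hxb).transfer ψ := by
  have hqp : q.Prime := Fact.out
  have hN : N ≠ 0 := by rintro rfl; exact hqN (dvd_zero q)
  have : (conjDelta N q).range.FiniteIndex :=
    ⟨by rw [H105.index_range_conjDelta hN hqp hqN]; omega⟩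
  let _ : Fintype (Gamma0 N ⧸ (conjDelta N q).range) :=
    (conjDelta N q).range.fintypeQuotientOfFiniteIndex
  have hinj := H105.conjDelta_injective N hqp.ne_zero
  have hs1 := IsCosetSystem.single (ι := ιN (N * q)) (ι' := (ιN N).comp (conjDelta N q))
    (ιN_injective (N * q)) (MonoidHom.id (Gamma0 (N * q)))
    (heckeRep q ((0 : ZMod q) : OnePoint (ZMod q))) (fun g' => r1_rel g')
  have hs2 := IsCosetSystem.ofTransfer (conjDelta N q) hinj (ιN N) (ιN_injective N)
  have hprod := hs1.prod hs2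
    (fun _ _ z z' g e => ⟨rfl, prod_S2_t2r1 z z' (incl N q g) e⟩)
  show transferAlong (conjDelta N q) ψ = _
  rw [transferAlong_eq (conjDelta N q) hinj (ιN N) (ιN_injective N)]
  have hr1 : ψ = hs1.transfer ψ := by
    rw [IsCosetSystem.single_transfer (ι := ιN (N * q)) (ι' := (ιN N).comp (conjDelta N q))
      (ιN_injective (N * q)) (MonoidHom.id (Gamma0 (N * q)))
      (heckeRep q ((0 : ZMod q) : OnePoint (ZMod q))) (fun g' => r1_rel g') ψ]
    rfl
  conv_lhs => rw [hr1]
  rw [IsCosetSystem.transfer_comp hs1 hs2 hprod]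
  have : Nonempty (Unit × (Gamma0 N ⧸ (conjDelta N q).range)) := ⟨((), ((1 : Gamma0 N) : _))⟩
  refine IsCosetSystem.transfer_eq_of_le hprod (alSystem hqN x b hxb) (fun z => ?_)
    (alSystem_transitive hqN x b hxb) ψ
  have := (alSystem hqN x b hxb).spec ((0 : ZMod q) : OnePoint (ZMod q)) (z.2.out)⁻¹
  rw [alRep_coe] at this
  exact ⟨_, _, this⟩

/-- The Atkin–Lehner conjugation `γ ↦ w γ w⁻¹` on `Γ₀(N q)`. -/
noncomputable def alConj (hqN : ¬ q ∣ N) (x b : ℤ) (hxb : x * q - b * N = 1)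
    (γ : Gamma0 (N * q)) : Gamma0 (N * q) :=
  (alSystem hqN x b hxb).coc OnePoint.infty (incl N q γ)

/-- At the finite points the Atkin–Lehner system restricts to the `U_q` system. -/
theorem alSystem_coe (hqN : ¬ q ∣ N) (x b : ℤ) (hxb : x * q - b * N = 1)
    (γ : Gamma0 (N * q)) (j : ZMod q) :
    (alSystem hqN x b hxb).act (j : OnePoint (ZMod q)) (incl N q γ) =
        (((uqSystem (dvd_mul_self_left N q)).act j γ : ZMod q) : OnePoint (ZMod q)) ∧
      (alSystem hqN x b hxb).coc (j : OnePoint (ZMod q)) (incl N q γ) =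
        (uqSystem (dvd_mul_self_left N q)).coc j γ := by
  apply (alSystem hqN x b hxb).unique
  rw [alRep_coe, alRep_coe]
  exact uq_spec_incl j γ

/-- `∞` is fixed by `Γ₀(N q)`, and `c_w(γ) g₀ = g₀ c_δ(γ)`. -/
theorem alSystem_infty (hqN : ¬ q ∣ N) (x b : ℤ) (hxb : x * q - b * N = 1)
    (γ : Gamma0 (N * q)) :
    (alSystem hqN x b hxb).act OnePoint.infty (incl N q γ) = OnePoint.infty ∧
      incl N q (alConj hqN x b hxb γ) * alElt N q x b hxb =
        alElt N q x b hxb * conjDelta N q γ := by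
  have e' : alRep (alElt N q x b hxb) (OnePoint.infty : OnePoint (ZMod q)) * ιN N (incl N q γ) =
      ιN N (alElt N q x b hxb * conjDelta N q γ * (alElt N q x b hxb)⁻¹) *
        alRep (alElt N q x b hxb) (OnePoint.infty : OnePoint (ZMod q)) := by
    rw [alRep_infty, mul_assoc]
    have := r2_rel (N := N) (q := q) γ
    rw [MonoidHom.comp_apply] at this
    rw [this]
    simp only [map_mul, map_inv, mul_assoc, inv_mul_cancel_left]
  have hdvd := dvd_of_alRep_mul x b hxb e'
  obtain ⟨h', hh'⟩ := (H105.mem_range_incl_iff (Fact.out : q.Prime) hqN _).mpr hdvd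
  have e'' : alRep (alElt N q x b hxb) (OnePoint.infty : OnePoint (ZMod q)) *
      ιN N (incl N q γ) =
      ιN (N * q) h' * alRep (alElt N q x b hxb) (OnePoint.infty : OnePoint (ZMod q)) := by
    rw [e', ← hh']
    rfl
  obtain ⟨h1, h2⟩ := (alSystem hqN x b hxb).unique e''
  refine ⟨h1, ?_⟩
  rw [alConj, h2, hh', inv_mul_cancel_right]

/-- `(r₁ t₂ ψ)(γ) = ψ(c_w γ) + (U_q ψ)(γ)`. -/
theorem r₁_t₂_apply (hqN : ¬ q ∣ N) (x b : ℤ) (hxb : x * q - b * N = 1)
    (ψ : Additive (Gamma0 (N * q)) →+ A) (γ : Gamma0 (N * q)) :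
    r₁ N q (t₂ N q ψ) (Additive.ofMul γ) =
      ψ (Additive.ofMul (alConj hqN x b hxb γ)) +
        Uq (dvd_mul_self_left N q) ψ (Additive.ofMul γ) := by
  rw [t₂_eq_transfer hqN x b hxb]
  show (alSystem hqN x b hxb).transfer ψ (Additive.ofMul (incl N q γ)) = _
  rw [IsCosetSystem.transfer_apply, sum_onePoint, Uq_apply]
  congr 1
  exact Finset.sum_congr rfl fun j _ => by rw [(alSystem_coe hqN x b hxb γ j).2]

end Transfer

/-! ## The coset system of a transversal -/

section Transversal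

variable {G H' 𝒢 I : Type*} [Group G] [Group H'] [Group 𝒢]

/-- A family of `[G : f(H')]` elements of `G` in pairwise distinct right cosets of `f(H')` is a
coset system from `H'` to `G`. -/
theorem isCosetSystem_of_transversal [Finite I] (f : H' →* G) (hf : Function.Injective f)
    (ι : G →* 𝒢) (hι : Function.Injective ι) (g : I → G)
    (hd : ∀ i j, g i * (g j)⁻¹ ∈ f.range → i = j) (hc : Nat.card I = f.range.index)
    (h0 : f.range.index ≠ 0) : IsCosetSystem (ι.comp f) ι (fun i => ι (g i)) where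
  inj := hι.comp hf
  exists_mul := by
    intro i g'
    haveI : f.range.FiniteIndex := ⟨h0⟩
    haveI : Finite (G ⧸ f.range) := Subgroup.finite_quotient_of_finiteIndex
    let e : I → G ⧸ f.range := fun i => (((g i)⁻¹ : G) : G ⧸ f.range)
    have einj : Function.Injective e := by
      intro i j hij
      have := QuotientGroup.eq.mp hij
      rw [inv_inv] at this
      exact hd i j this
    have ebij : Function.Bijective e :=
      einj.bijective_of_nat_card_le (by rw [hc]; exact le_of_eq rfl)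
    obtain ⟨j, hj⟩ := ebij.2 ((((g i * g')⁻¹ : G)) : G ⧸ f.range)
    have h1 := QuotientGroup.eq.mp hj
    rw [inv_inv] at h1
    have h2 : g i * g' * (g j)⁻¹ ∈ f.range := by
      have := f.range.inv_mem h1
      rwa [mul_inv_rev, inv_inv] at this
    obtain ⟨h, hh⟩ := h2
    refine ⟨j, h, ?_⟩
    rw [MonoidHom.comp_apply, hh, ← map_mul, ← map_mul, inv_mul_cancel_right]
  eq_of_mul := by
    intro i j h e
    rw [MonoidHom.comp_apply, ← map_mul] at e
    have e2 := hι e
    exact hd i j ⟨h, by rw [e2, mul_inv_cancel_right]⟩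

/-- The transfer of the coset system of a transversal is the transfer along `f`. -/
theorem transferAlong_eq_of_transversal [Fintype I] {A : Type*} [AddCommGroup A] (f : H' →* G)
    (hf : Function.Injective f) (ι : G →* 𝒢) (hι : Function.Injective ι) (g : I → G)
    (hd : ∀ i j, g i * (g j)⁻¹ ∈ f.range → i = j) (hc : Nat.card I = f.range.index)
    (h0 : f.range.index ≠ 0) (ψ : Additive H' →+ A) :
    transferAlong f ψ = (isCosetSystem_of_transversal f hf ι hι g hd hc h0).transfer ψ := by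
  haveI : f.range.FiniteIndex := ⟨h0⟩
  letI : Fintype (G ⧸ f.range) := f.range.fintypeQuotientOfFiniteIndex
  rw [transferAlong_eq f hf ι hι]
  symm
  refine IsCosetSystem.transfer_eq_of_le_of_card _ _ ?_ (fun i => ?_) ψ
  · rw [← Nat.card_eq_fintype_card, hc, ← Nat.card_eq_fintype_card]
    rfl
  · obtain ⟨h, e⟩ := QuotientGroup.mk_out_eq_mul f.range ((g i)⁻¹)
    obtain ⟨h', hh'⟩ := h.2
    refine ⟨(((g i)⁻¹ : G) : G ⧸ f.range), h', ?_⟩
    rw [MonoidHom.comp_apply, ← map_mul, e, mul_inv_rev, inv_inv, hh', mul_inv_cancel_left]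

end Transversal

/-! ## The transversal `1, g₀ [[1, j], [0, 1]]` of `Γ₀(N q)` in `Γ₀(N)` -/

omit [Fact (Nat.Prime q)] in
theorem mul_inv_apply_one_zero (g g' : Gamma0 N) :
    ((g * g'⁻¹ : Gamma0 N) : SL(2, ℤ)) 1 0 =
      (g : SL(2, ℤ)) 1 0 * (g' : SL(2, ℤ)) 1 1 - (g : SL(2, ℤ)) 1 1 * (g' : SL(2, ℤ)) 1 0 := by
  rw [Subgroup.coe_mul, Subgroup.coe_inv, Matrix.SpecialLinearGroup.coe_mul,
    Matrix.SpecialLinearGroup.SL2_inv_expl, Matrix.mul_apply, Fin.sum_univ_two]
  simp
  ring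

omit [Fact (Nat.Prime q)] in
theorem mul_apply_one (g g' : Gamma0 N) :
    ((g * g' : Gamma0 N) : SL(2, ℤ)) 1 0 =
      (g : SL(2, ℤ)) 1 0 * (g' : SL(2, ℤ)) 0 0 + (g : SL(2, ℤ)) 1 1 * (g' : SL(2, ℤ)) 1 0 ∧
    ((g * g' : Gamma0 N) : SL(2, ℤ)) 1 1 =
      (g : SL(2, ℤ)) 1 0 * (g' : SL(2, ℤ)) 0 1 + (g : SL(2, ℤ)) 1 1 * (g' : SL(2, ℤ)) 1 1 := by
  rw [Subgroup.coe_mul, Matrix.SpecialLinearGroup.coe_mul, Matrix.mul_apply, Matrix.mul_apply,
    Fin.sum_univ_two, Fin.sum_univ_two]
  exact ⟨rfl, rfl⟩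

/-- The representatives `1` (at `∞`) and `g₀ [[1, j], [0, 1]]` of `Γ₀(N q) \ Γ₀(N)`. -/
def alTrans (g₀ : Gamma0 N) (y : OnePoint (ZMod q)) : Gamma0 N :=
  Option.elim y 1 (fun j => g₀ * upperUnip N (j.val : ℤ))

omit [Fact (Nat.Prime q)] in
theorem alTrans_infty (g₀ : Gamma0 N) : alTrans (q := q) g₀ OnePoint.infty = 1 := rfl

omit [Fact (Nat.Prime q)] in
theorem alTrans_coe (g₀ : Gamma0 N) (j : ZMod q) :
    alTrans g₀ (j : OnePoint (ZMod q)) = g₀ * upperUnip N (j.val : ℤ) := rfl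

omit [Fact (Nat.Prime q)] in
/-- The lower row of `alTrans`. -/
theorem alTrans_low (x b : ℤ) (hxb : x * q - b * N = 1) (y : OnePoint (ZMod q)) :
    (y = OnePoint.infty ∧ ((alTrans (alElt N q x b hxb) y : Gamma0 N) : SL(2, ℤ)) 1 0 = 0 ∧
      ((alTrans (alElt N q x b hxb) y : Gamma0 N) : SL(2, ℤ)) 1 1 = 1) ∨
    (∃ j : ZMod q, y = (j : OnePoint (ZMod q)) ∧
      ((alTrans (alElt N q x b hxb) y : Gamma0 N) : SL(2, ℤ)) 1 0 = N ∧
      ((alTrans (alElt N q x b hxb) y : Gamma0 N) : SL(2, ℤ)) 1 1 = N * (j.val : ℤ) + q) := by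
  induction y using OnePoint.rec with
  | infty =>
    left
    refine ⟨rfl, ?_, ?_⟩ <;> simp [alTrans_infty]
  | coe j =>
    right
    obtain ⟨g00, g01, g10, g11⟩ := alElt_entries (N := N) (q := q) x b hxb
    obtain ⟨u00, u01, u10, u11⟩ := upperUnip_entries N (j.val : ℤ)
    obtain ⟨m10, m11⟩ := mul_apply_one (alElt N q x b hxb) (upperUnip N (j.val : ℤ))
    refine ⟨j, rfl, ?_, ?_⟩
    · rw [alTrans_coe, m10, g10, g11, u00, u10]
      ring
    · rw [alTrans_coe, m11, g10, g11, u01, u11]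
      ring

/-- The representatives `alTrans` lie in distinct cosets of `Γ₀(N q)`. -/
theorem alTrans_distinct (hqN : ¬ q ∣ N) (x b : ℤ) (hxb : x * q - b * N = 1)
    (y y' : OnePoint (ZMod q))
    (h : alTrans (alElt N q x b hxb) y * (alTrans (alElt N q x b hxb) y')⁻¹ ∈ (incl N q).range) :
    y = y' := by
  have hqp : q.Prime := Fact.out
  rw [H105.mem_range_incl_iff hqp hqN, mul_inv_apply_one_zero] at h
  have hcop : IsCoprime (q : ℤ) (N : ℤ) := by
    rw [Int.isCoprime_iff_gcd_eq_one, Int.gcd_natCast_natCast]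
    exact hqp.coprime_iff_not_dvd.mpr hqN
  have hN : ¬ (q : ℤ) ∣ (N : ℤ) := fun hh => hqN (Int.natCast_dvd_natCast.mp hh)
  rcases alTrans_low x b hxb y with ⟨rfl, e10, e11⟩ | ⟨j, rfl, e10, e11⟩ <;>
    rcases alTrans_low x b hxb y' with ⟨rfl, e10', e11'⟩ | ⟨k, rfl, e10', e11'⟩
  · rfl
  · exfalso
    rw [e10, e11, e10'] at h
    apply hN
    have : (q : ℤ) ∣ -(N : ℤ) := by
      convert h using 1
      ring
    exact (dvd_neg.mp this)
  · exfalso
    rw [e10, e11', e10'] at h
    apply hN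
    convert h using 1
    ring
  · rw [e10, e11, e10', e11'] at h
    have h2 : (q : ℤ) ∣ (N : ℤ) * ((N : ℤ) * ((k.val : ℤ) - (j.val : ℤ))) := by
      convert h using 1
      ring
    have h3 := hcop.dvd_of_dvd_mul_left (hcop.dvd_of_dvd_mul_left h2)
    have h4 : (((k.val : ℤ) - (j.val : ℤ) : ℤ) : ZMod q) = 0 :=
      (ZMod.intCast_zmod_eq_zero_iff_dvd _ _).mpr h3
    push_cast at h4
    rw [ZMod.natCast_zmod_val, ZMod.natCast_zmod_val, sub_eq_zero] at h4
    rw [h4]

theorem card_onePoint_zmod : Nat.card (OnePoint (ZMod q)) = q + 1 := by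
  rw [Nat.card_eq_fintype_card]
  show Fintype.card (Option (ZMod q)) = q + 1
  rw [Fintype.card_option, ZMod.card]

/-- The coset system of the transversal `alTrans`. -/
theorem alTransSystem (hqN : ¬ q ∣ N) (x b : ℤ) (hxb : x * q - b * N = 1) :
    IsCosetSystem ((ιN N).comp (incl N q)) (ιN N)
      (fun y : OnePoint (ZMod q) => ιN N (alTrans (alElt N q x b hxb) y)) := by
  have hqp : q.Prime := Fact.out
  have hN : N ≠ 0 := by rintro rfl; exact hqN (dvd_zero q)
  exact isCosetSystem_of_transversal (incl N q) (H105.incl_injective N q) (ιN N)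
    (ιN_injective N) (alTrans (alElt N q x b hxb)) (alTrans_distinct hqN x b hxb)
    (by rw [card_onePoint_zmod, H105.index_range_incl hN hqp hqN])
    (by rw [H105.index_range_incl hN hqp hqN]; omega)

section Transfer2

variable {A : Type*} [AddCommGroup A]

/-- `t₁` is the transfer of the coset system of `alTrans`. -/
theorem t₁_eq_transfer (hqN : ¬ q ∣ N) (x b : ℤ) (hxb : x * q - b * N = 1)
    (ψ : Additive (Gamma0 (N * q)) →+ A) :
    t₁ N q ψ = (alTransSystem hqN x b hxb).transfer ψ := by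
  have hqp : q.Prime := Fact.out
  have hN : N ≠ 0 := by rintro rfl; exact hqN (dvd_zero q)
  exact transferAlong_eq_of_transversal (incl N q) (H105.incl_injective N q) (ιN N)
    (ιN_injective N) (alTrans (alElt N q x b hxb)) (alTrans_distinct hqN x b hxb)
    (by rw [card_onePoint_zmod, H105.index_range_incl hN hqp hqN])
    (by rw [H105.index_range_incl hN hqp hqN]; omega) ψ

/-- The trivial coset is fixed by `Γ₀(N q)`, with cocycle the identity. -/
theorem alTransSystem_infty (hqN : ¬ q ∣ N) (x b : ℤ) (hxb : x * q - b * N = 1)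
    (γ : Gamma0 (N * q)) :
    (alTransSystem hqN x b hxb).coc OnePoint.infty (incl N q γ) = γ := by
  apply (alTransSystem hqN x b hxb).coc_eq (j := OnePoint.infty)
  rw [alTrans_infty, map_one, one_mul, mul_one]
  rfl

/-- On the other cosets the cocycle is `c_w` of the cocycle of `U_q`. -/
theorem alTransSystem_coe (hqN : ¬ q ∣ N) (x b : ℤ) (hxb : x * q - b * N = 1)
    (γ : Gamma0 (N * q)) (j : ZMod q) :
    (alTransSystem hqN x b hxb).coc (j : OnePoint (ZMod q)) (incl N q γ) =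
      alConj hqN x b hxb ((uqSystem (dvd_mul_self_left N q)).coc j γ) := by
  apply (alTransSystem hqN x b hxb).coc_eq
    (j := (((uqSystem (dvd_mul_self_left N q)).act j γ : ZMod q) : OnePoint (ZMod q)))
  rw [alTrans_coe, alTrans_coe, MonoidHom.comp_apply, ← map_mul, ← map_mul]
  congr 1
  rw [← mul_assoc, (alSystem_infty hqN x b hxb _).2, mul_assoc, mul_assoc,
    conjDelta_coc_mul γ j]

/-- `(r₁ t₁ ψ)(γ) = ψ(γ) + ∑_j ψ(c_w (γ_j))`. -/
theorem r₁_t₁_apply (hqN : ¬ q ∣ N) (x b : ℤ) (hxb : x * q - b * N = 1)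
    (ψ : Additive (Gamma0 (N * q)) →+ A) (γ : Gamma0 (N * q)) :
    r₁ N q (t₁ N q ψ) (Additive.ofMul γ) =
      ψ (Additive.ofMul γ) + ∑ j : ZMod q, ψ (Additive.ofMul
        (alConj hqN x b hxb ((uqSystem (dvd_mul_self_left N q)).coc j γ))) := by
  rw [t₁_eq_transfer hqN x b hxb]
  show (alTransSystem hqN x b hxb).transfer ψ (Additive.ofMul (incl N q γ)) = _
  rw [IsCosetSystem.transfer_apply, sum_onePoint, alTransSystem_infty hqN x b hxb]
  congr 1
  exact Finset.sum_congr rfl fun j _ => by rw [alTransSystem_coe hqN x b hxb]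

/-- **`U_q² = 1 + U_q r₁ t₂ - r₁ t₁`** on `Hom(Γ₀(N q), A)`, `q ∤ N`. -/
theorem Uq_Uq (hqN : ¬ q ∣ N) (ψ : Additive (Gamma0 (N * q)) →+ A) :
    Uq (dvd_mul_self_left N q) (Uq (dvd_mul_self_left N q) ψ) =
      ψ + Uq (dvd_mul_self_left N q) (r₁ N q (t₂ N q ψ)) - r₁ N q (t₁ N q ψ) := by
  obtain ⟨x, b, hxb⟩ := exists_bezout_al (N := N) (q := q) hqN
  refine AddMonoidHom.ext fun g' => ?_
  obtain ⟨γ, rfl⟩ : ∃ g : Gamma0 (N * q), Additive.ofMul g = g' := ⟨Additive.toMul g', rfl⟩
  have hW : ∀ γ' : Gamma0 (N * q), ψ (Additive.ofMul (alConj hqN x b hxb γ')) =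
      r₁ N q (t₂ N q ψ) (Additive.ofMul γ') -
        Uq (dvd_mul_self_left N q) ψ (Additive.ofMul γ') := by
    intro γ'
    rw [r₁_t₂_apply hqN x b hxb, add_sub_cancel_right]
  rw [AddMonoidHom.sub_apply, AddMonoidHom.add_apply, r₁_t₁_apply hqN x b hxb, Uq_apply,
    Uq_apply]
  simp only [hW, Finset.sum_sub_distrib]
  abel

/-- **`U_q² = 1` on the `q`-new classes.** -/
theorem Uq_Uq_of_new (hqN : ¬ q ∣ N) (ψ : Additive (Gamma0 (N * q)) →+ A)
    (h₁ : t₁ N q ψ = 0) (h₂ : t₂ N q ψ = 0) :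
    Uq (dvd_mul_self_left N q) (Uq (dvd_mul_self_left N q) ψ) = ψ := by
  have hz : ∀ M : ℕ, r₁ M q (0 : Additive (Gamma0 M) →+ A) = 0 := fun M => rfl
  have hU0 : Uq (dvd_mul_self_left N q) (0 : Additive (Gamma0 (N * q)) →+ A) = 0 := by
    have := Uq_add (dvd_mul_self_left N q) (0 : Additive (Gamma0 (N * q)) →+ A) 0
    rw [add_zero] at this
    exact left_eq_add.mp this
  rw [Uq_Uq hqN, h₁, h₂, hz, hU0, add_zero, sub_zero]

end Transfer2

end Fermat.Agent.S59.H105

end
-- ===== PACK-END S59/H105/UqAL.lean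

-- ===== PACK-BEGIN S59/TW/H427/InertiaExists.lean
section


/-!
# S59, cell TW, layer 2, LEAF INX (helper427): `TW.InertiaExistsStatement`

Inertia values exist: if the characteristic polynomial of `ρ̄(φ)` is `(X - ā₀)(X - β)` with
`ā₀ ≠ β`, then the characteristic polynomial of `ρ(φ)` factors as `(X - a)(X - b)` with
`a ≡ a₀` and `a - b` a unit (Hensel's lemma in the complete local ring `A`), and
`w := (a - b)⁻¹ (tr ρ(φσ) - b tr ρ(σ))` is an inertia value.

* `exists_factor_of_residue_factor` : Hensel for a monic quadratic polynomial (Mathlib only).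
* `charpoly_residual` : `charpoly ρ̄(φ)` is the reduction of `charpoly ρ(φ)`.
* `inertiaExists : InertiaExistsStatement` (verbatim).
-/

set_option autoImplicit false

open Polynomial IsLocalRing

namespace Fermat.Agent.S59.TW.H427

open Fermat.Agent.S59.Arch Fermat.Agent.S59.TW.H959 Fermat.Agent.S59.TW

section Hensel

variable {A : Type*} [CommRing A] [IsLocalRing A] [IsAdicComplete (maximalIdeal A) A]

/-- **Hensel's lemma for a monic quadratic polynomial** whose reduction has two distinct roots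
`ā₀ ≠ β`: it factors as `(X - a)(X - b)` with `a ≡ a₀` and `a - b` a unit. -/
theorem exists_factor_of_residue_factor (f : A[X]) (hf : f.Monic) (hdeg : f.natDegree = 2)
    (a₀ : A) (β : ResidueField A) (hne : residue A a₀ ≠ β)
    (hfac : f.map (residue A) = (X - C (residue A a₀)) * (X - C β)) :
    ∃ a b : A, a - a₀ ∈ maximalIdeal A ∧ IsUnit (a - b) ∧ f = (X - C a) * (X - C b) := by
  have h₁ : f.eval a₀ ∈ maximalIdeal A := by
    rw [← residue_eq_zero_iff, ← Polynomial.eval₂_at_apply, ← Polynomial.eval_map, hfac]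
    simp
  have h₂ : IsUnit (Ideal.Quotient.mk (maximalIdeal A) (f.derivative.eval a₀)) := by
    have h : residue A (f.derivative.eval a₀) = residue A a₀ - β := by
      rw [← Polynomial.eval₂_at_apply, ← Polynomial.eval_map, ← Polynomial.derivative_map, hfac]
      simp
    have h' : residue A (f.derivative.eval a₀) ≠ 0 := by
      rw [h]; exact sub_ne_zero.mpr hne
    exact IsUnit.mk0 _ h'
  obtain ⟨a, ha, haa₀⟩ := HenselianRing.is_henselian f hf a₀ h₁ h₂
  have hXa : (X - C a : A[X]).Monic := monic_X_sub_C a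
  set g : A[X] := f /ₘ (X - C a) with hg
  have hfg : (X - C a) * g = f := mul_divByMonic_eq_iff_isRoot.mpr ha
  have hgm : g.Monic := by
    have : ((X - C a) * g).Monic := by rw [hfg]; exact hf
    exact hXa.of_mul_monic_left this
  have hgdeg : g.natDegree = 1 := by
    rw [hg, natDegree_divByMonic f hXa, hdeg, natDegree_X_sub_C]
  have hgX : g = X - C (-(g.coeff 0)) := by
    rw [C_neg, sub_neg_eq_add]
    exact hgm.eq_X_add_C hgdeg
  set b : A := -(g.coeff 0) with hb
  have hres : residue A a = residue A a₀ := by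
    rw [← sub_eq_zero, ← map_sub, residue_eq_zero_iff]; exact haa₀
  have hbβ : residue A b = β := by
    have h1 : f.map (residue A) = (X - C (residue A a₀)) * (X - C (residue A b)) := by
      rw [← hfg, hgX, Polynomial.map_mul, Polynomial.map_sub, Polynomial.map_sub, map_X, map_C,
        map_C, hres]
    rw [hfac] at h1
    have h2 := mul_left_cancel₀ (X_sub_C_ne_zero (residue A a₀)) h1
    have h3 : (C β : (ResidueField A)[X]) = C (residue A b) := by
      have := congrArg (fun q => (X : (ResidueField A)[X]) - q) h2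
      simpa using this
    exact (C_injective h3).symm
  refine ⟨a, b, haa₀, ?_, ?_⟩
  · have hne' : residue A (a - b) ≠ 0 := by
      rw [map_sub, hres, hbβ]; exact sub_ne_zero.mpr hne
    by_contra hnu
    exact hne' ((residue_eq_zero_iff _).mpr ((mem_maximalIdeal _).mpr hnu))
  · rw [← hfg, hgX]

end Hensel

section Residual

variable {A : Type} [CommRing A] [IsLocalRing A]

/-- The characteristic polynomial of `ρ̄(φ)` is the reduction of that of `ρ(φ)`. -/
theorem charpoly_residual (ρ : GaloisRepAdic A) (φ : GQ) :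
    LinearMap.charpoly (ρ.residual.ρ φ) = (LinearMap.charpoly (ρ.ρ φ)).map (residue A) :=
  LinearMap.charpoly_baseChange (A := ResidueField A) (ρ.ρ φ)

end Residual

/-- **LEAF INX** of cell TW, layer 2 (`TW.InertiaExistsStatement`, verbatim). -/
theorem inertiaExists : InertiaExistsStatement := by
  intro A _ _ _ _ ρ φ σ a₀ β hne hchar
  have hmap : (LinearMap.charpoly (ρ.ρ φ)).map (residue A) =
      (X - C (residue A a₀)) * (X - C β) := by
    rw [← hchar, charpoly_residual]
  have hdeg : (LinearMap.charpoly (ρ.ρ φ)).natDegree = 2 := by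
    rw [LinearMap.charpoly_natDegree, ρ.finrank_eq]
  obtain ⟨a, b, haa₀, hu, hfac⟩ := exists_factor_of_residue_factor _
    (LinearMap.charpoly_monic _) hdeg a₀ β hne hmap
  obtain ⟨u, hu'⟩ := hu
  refine ⟨↑u⁻¹ * (ρ.trace (φ * σ) - b * ρ.trace σ), a, b, haa₀, ⟨u, hu'⟩, hfac, ?_⟩
  rw [← hu', ← mul_assoc, Units.mul_inv, one_mul]

end Fermat.Agent.S59.TW.H427

end
-- ===== PACK-END S59/TW/H427/InertiaExists.lean

-- ===== PACK-BEGIN S59/TW/H658/IntC.lean
section




/-!
# S21 — INT-C: the unfolding identity (helper544)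

Exact statement of `MSInterface.lean`, proved from INT-A (`IntA.lean`, helper480) and the
change of variables / chain rule of `Small.lean` (helper906).
-/

set_option autoImplicit false

open ModularCurve ModularCurve.Period UpperHalfPlane CongruenceSubgroup Filter Topology
open MeasureTheory
open scoped MatrixGroups ComplexConjugate ContDiff

namespace Fermat.Agent.S59.TW.H658

open Fermat.Agent.S21

variable (L : Lev) {χ₁ : ℂ → ℝ}

/-- **INT-C**: unfolding. -/
theorem unfolding (hχ : IsSL2ZPartition χ₁) (u : ℂ → ℝ) (hu : ContDiffOn ℝ 1 u Uhp)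
    (hinv : ∀ γ : L.Γ, ∀ z ∈ Uhp,
      dz u (mob (γ : SL(2, ℤ)) z) = (cd (γ : SL(2, ℤ)) z) ^ 2 * dz u z)
    {η : ℂ → ℝ} (hη : IsTest η) :
    ∫ z, (fderiv ℝ u z 1 * fderiv ℝ (_root_.Fermat.Agent.S59.TW.H658.sym L η) z 1
        + fderiv ℝ u z Complex.I * fderiv ℝ (_root_.Fermat.Agent.S59.TW.H658.sym L η) z Complex.I) * _root_.Fermat.Agent.S59.TW.H658.chi L χ₁ z
      = ∫ z, (fderiv ℝ u z 1 * fderiv ℝ η z 1
        + fderiv ℝ u z Complex.I * fderiv ℝ η z Complex.I) :=
  _root_.Fermat.Agent.S59.TW.H658.H544.unfolding_of L hχ (_root_.Fermat.Agent.S59.TW.H658.measurable_chi L hχ) (_root_.Fermat.Agent.S59.TW.H658.chi_nonneg L hχ) (_root_.Fermat.Agent.S59.TW.H658.chi_le_one L hχ)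
    (_root_.Fermat.Agent.S59.TW.H658.chi_locfin L hχ) (_root_.Fermat.Agent.S59.TW.H658.chi_sum_eq_one L hχ) u hu hinv hη

end Fermat.Agent.S59.TW.H658

end
-- ===== PACK-END S59/TW/H658/IntC.lean

-- ===== PACK-BEGIN A3/H619/Bialg.lean
section
/-
A3 / piece ORD (helper619): bialgebra and Hopf algebra structure on an order `H` satisfying
`OrderHyp`.
-/


set_option autoImplicit false
set_option linter.unusedSectionVars false

noncomputable section

namespace Fermat.Agent.A3.H619

open GaloisRep TensorProduct Module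

variable {p : ℕ} {T : Type} [AddCommGroup T]
variable {H : Subalgebra (ratLocalizedAt p) (T → Qb)} {act : GQ → T → T}

namespace OrderHyp

variable (h : OrderHyp p T act H)
include h

theorem mu3_map_id_comul (x : ↥H ⊗[ratLocalizedAt p] ↥H) (s t u : T) :
    mu3 H (Algebra.TensorProduct.map (AlgHom.id (ratLocalizedAt p) ↥H) h.comulAlg x) (s, (t, u))
      = mu H x (s, t + u) := by
  induction x using TensorProduct.induction_on with
  | zero => simp
  | tmul a b =>
    rw [Algebra.TensorProduct.map_tmul, mu3_tmul, AlgHom.coe_id, id_eq, mu_tmul]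
    show (a : T → Qb) s * mu H (h.comulAlg b) (t, u) = _
    rw [h.mu_comulAlg_apply]
  | add x y hx hy =>
    rw [map_add, map_add, map_add, Pi.add_apply, Pi.add_apply, hx, hy]

theorem mu3_assoc_tmul (y : ↥H ⊗[ratLocalizedAt p] ↥H) (b : ↥H) (s t u : T) :
    mu3 H (Algebra.TensorProduct.assoc (ratLocalizedAt p) (ratLocalizedAt p) (ratLocalizedAt p)
        ↥H ↥H ↥H (y ⊗ₜ b)) (s, (t, u))
      = mu H y (s, t) * (b : T → Qb) u := by
  induction y using TensorProduct.induction_on with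
  | zero => simp
  | tmul a' b' =>
    rw [Algebra.TensorProduct.assoc_tmul, mu3_tmul, mu_tmul, mu_tmul, mul_assoc]
  | add x y hx hy =>
    rw [TensorProduct.add_tmul, map_add, map_add, Pi.add_apply, map_add, Pi.add_apply, hx, hy,
      add_mul]

theorem mu3_assoc_map_comul_id (x : ↥H ⊗[ratLocalizedAt p] ↥H) (s t u : T) :
    mu3 H (Algebra.TensorProduct.assoc (ratLocalizedAt p) (ratLocalizedAt p) (ratLocalizedAt p)
        ↥H ↥H ↥H
        (Algebra.TensorProduct.map h.comulAlg (AlgHom.id (ratLocalizedAt p) ↥H) x)) (s, (t, u))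
      = mu H x (s + t, u) := by
  induction x using TensorProduct.induction_on with
  | zero => simp
  | tmul a b =>
    rw [Algebra.TensorProduct.map_tmul, AlgHom.coe_id, id_eq, h.mu3_assoc_tmul,
      h.mu_comulAlg_apply, mu_tmul]
  | add x y hx hy =>
    rw [map_add, map_add, map_add, Pi.add_apply, map_add, Pi.add_apply, hx, hy]

theorem coassoc_alg :
    (Algebra.TensorProduct.assoc (ratLocalizedAt p) (ratLocalizedAt p) (ratLocalizedAt p)
        ↥H ↥H ↥H).toAlgHom.comp
      ((Algebra.TensorProduct.map h.comulAlg (.id (ratLocalizedAt p) ↥H)).comp h.comulAlg)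
      = (Algebra.TensorProduct.map (.id (ratLocalizedAt p) ↥H) h.comulAlg).comp h.comulAlg := by
  apply AlgHom.ext
  intro f
  apply h.mu3_injective
  funext ⟨s, t, u⟩
  simp only [AlgHom.comp_apply]
  rw [h.mu3_map_id_comul]
  erw [h.mu3_assoc_map_comul_id]
  rw [h.mu_comulAlg_apply, h.mu_comulAlg_apply, add_assoc]

theorem val_lid_map_counit (x : ↥H ⊗[ratLocalizedAt p] ↥H) (t : T) :
    ((Algebra.TensorProduct.lid (ratLocalizedAt p) ↥H
        (Algebra.TensorProduct.map h.counitAlg (.id (ratLocalizedAt p) ↥H) x) : ↥H) : T → Qb) t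
      = mu H x (0, t) := by
  induction x using TensorProduct.induction_on with
  | zero => simp
  | tmul a b =>
    rw [Algebra.TensorProduct.map_tmul, Algebra.TensorProduct.lid_tmul, AlgHom.coe_id, id_eq,
      mu_tmul]
    show (h.counitAlg a • (b : T → Qb)) t = _
    rw [Pi.smul_apply, Algebra.smul_def, h.algebraMap_counitAlg]
  | add x y hx hy =>
    rw [map_add, map_add, map_add, Pi.add_apply]
    show ((_ : T → Qb) + _) t = _
    rw [Pi.add_apply, hx, hy]

theorem val_rid_map_counit (x : ↥H ⊗[ratLocalizedAt p] ↥H) (t : T) :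
    ((Algebra.TensorProduct.rid (ratLocalizedAt p) (ratLocalizedAt p) ↥H
        (Algebra.TensorProduct.map (.id (ratLocalizedAt p) ↥H) h.counitAlg x) : ↥H) : T → Qb) t
      = mu H x (t, 0) := by
  induction x using TensorProduct.induction_on with
  | zero => simp
  | tmul a b =>
    rw [Algebra.TensorProduct.map_tmul, Algebra.TensorProduct.rid_tmul, AlgHom.coe_id, id_eq,
      mu_tmul]
    show (h.counitAlg b • (a : T → Qb)) t = _
    rw [Pi.smul_apply, Algebra.smul_def, h.algebraMap_counitAlg, mul_comm]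
  | add x y hx hy =>
    rw [map_add, map_add, map_add, Pi.add_apply]
    show ((_ : T → Qb) + _) t = _
    rw [Pi.add_apply, hx, hy]

theorem rTensor_alg :
    (Algebra.TensorProduct.map h.counitAlg (.id (ratLocalizedAt p) ↥H)).comp h.comulAlg
      = (Algebra.TensorProduct.lid (ratLocalizedAt p) ↥H).symm := by
  apply AlgHom.ext
  intro f
  apply (Algebra.TensorProduct.lid (ratLocalizedAt p) ↥H).injective
  rw [AlgHom.comp_apply]
  erw [AlgEquiv.apply_symm_apply]
  apply Subtype.ext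
  funext t
  rw [h.val_lid_map_counit, h.mu_comulAlg_apply, zero_add]

theorem lTensor_alg :
    (Algebra.TensorProduct.map (.id (ratLocalizedAt p) ↥H) h.counitAlg).comp h.comulAlg
      = (Algebra.TensorProduct.rid (ratLocalizedAt p) (ratLocalizedAt p) ↥H).symm := by
  apply AlgHom.ext
  intro f
  apply (Algebra.TensorProduct.rid (ratLocalizedAt p) (ratLocalizedAt p) ↥H).injective
  rw [AlgHom.comp_apply]
  erw [AlgEquiv.apply_symm_apply]
  apply Subtype.ext
  funext t
  rw [h.val_rid_map_counit, h.mu_comulAlg_apply, add_zero]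

/-- The bialgebra structure on `H`. -/
@[reducible]
def bialgebra : Bialgebra (ratLocalizedAt p) ↥H :=
  Bialgebra.ofAlgHom h.comulAlg h.counitAlg h.coassoc_alg h.rTensor_alg h.lTensor_alg

end OrderHyp

end Fermat.Agent.A3.H619

end
end
-- ===== PACK-END A3/H619/Bialg.lean

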