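import Mathlib.AlgebraicGeometry.Morphisms.Proper
import Mathlib.AlgebraicGeometry.Geometrically.Integral
import Mathlib
import Fermat.Prelude.Def_ModularForm_HeckeOperator
import Fermat.Agent.Pack.S43MC.G0E15L3
import Fermat.Agent.Pack.S43MC.G0E5L2
import Fermat.Agent.Pack.S43MC.G0E15L2
import Fermat.Agent.Pack.S43MC.G0E1L1
import Fermat.Agent.Pack.S43MC.G0E15L0
import Fermat.Agent.Pack.S43MC.G0E13L2
import Fermat.Agent.Pack.S43MC.G0E15L1
import Fermat.Agent.Pack.S43MC.G0E6L2
import Fermat.Agent.Pack.S43MC.G0E9L3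
import Fermat.Agent.Pack.S43MC.G0E2L0
import Fermat.Agent.Pack.S43MC.G0E9L1
import Fermat.Agent.Pack.S43MC.G0E6L3
import Fermat.Agent.Pack.S43MC.G0E8L0
import Fermat.Agent.Pack.S43MC.G0E8L3
import Fermat.Agent.Pack.S44C.G0E10L2
import Fermat.Agent.Pack.S43MC.G0E16L2
import Fermat.Agent.Pack.S43MC.G0E4L1
import Fermat.Agent.Pack.S44C.G0E18L0
import Fermat.Agent.Pack.S43GC.G0E13L2
import Fermat.Agent.Pack.S43GC.G0E12L3
import Fermat.Agent.Pack.S43MC.G0E14L3
import Fermat.Agent.Pack.S43MC.G0E6L0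
import Fermat.Agent.Pack.Fast891

-- ===== PACK-BEGIN S25/H446/PtBC.lean
section



/-!
# Row S25, block ALGCHARTS, shared sub-lemma SH2, part 3 (helper446): base change of `N₀ ⧸ I_q N₀`

* `isBaseChange_of_surjective_of_ker` : quotients of a base change are base changes (general).
* `vanq_eq_span` : for base-change maps `bm : G → G'` along `φ : A → A'`,
  `vanq q G'` is the `A' ⊗ B₀`-span of the image of `vanq q G`.
* `vanqMap φ bm q : N₀ ⧸ vanq q G → N₀' ⧸ vanq q G'`, the induced semilinear map;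
  `vanqMap_isSemilinearBaseChange`.
* `exists_vanq_quotient_equiv` : `A' ⊗[A] (N₀ ⧸ vanq q G) ≃ₗ[A'] N₀' ⧸ vanq q G'`.
-/

set_option autoImplicit false
set_option linter.style.haveILetI false
set_option linter.unusedSectionVars false

universe u

open scoped TensorProduct

namespace Fermat.Agent.S25.H446

open Fermat.Agent.S25 Fermat.Agent.S25.H11

section QuotientBC

variable {R R' : Type u} [CommRing R] [CommRing R'] [Algebra R R']
  {M M' Q Q' : Type u} [AddCommGroup M] [Module R M]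
  [AddCommGroup M'] [Module R M'] [Module R' M'] [IsScalarTower R R' M']
  [AddCommGroup Q] [Module R Q]
  [AddCommGroup Q'] [Module R Q'] [Module R' Q'] [IsScalarTower R R' Q']

/-- **Quotients of a base change.**  If `b : M → M'` is a base change along `R → R'`,
`π : M → Q` and `π' : M' → Q'` are surjective, `c : Q → Q'` is compatible with `b`, and the
kernel of `π'` is spanned by the image of the kernel of `π`, then `c` is a base change. -/
theorem isBaseChange_of_surjective_of_ker {b : M →ₗ[R] M'} (hb : IsBaseChange R' b)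
    (π : M →ₗ[R] Q) (π' : M' →ₗ[R'] Q') (c : Q →ₗ[R] Q')
    (hπ : Function.Surjective π) (hπ' : Function.Surjective π')
    (comm : ∀ n, c (π n) = π' (b n))
    (hker : LinearMap.ker π' ≤ Submodule.span R' (b '' (LinearMap.ker π : Set M))) :
    IsBaseChange R' c := by
  apply IsBaseChange.of_lift_unique
  intro P instP _ _ _ g
  letI instG : AddCommGroup P := Module.addCommMonoidToAddCommGroup R'
  let gt : M' →ₗ[R'] P := hb.lift (g.comp π)
  have hgt : ∀ n, gt (b n) = g (π n) := fun n => hb.lift_eq _ n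
  have hgt0 : LinearMap.ker π' ≤ LinearMap.ker gt := by
    refine hker.trans (Submodule.span_le.mpr ?_)
    rintro _ ⟨n, hn, rfl⟩
    rw [SetLike.mem_coe, LinearMap.mem_ker, hgt, LinearMap.mem_ker.mp hn, map_zero]
  let e := π'.quotKerEquivOfSurjective hπ'
  let g' : Q' →ₗ[R'] P := ((LinearMap.ker π').liftQ gt hgt0).comp e.symm.toLinearMap
  have he : ∀ x, e.symm (π' x) = Submodule.Quotient.mk x := by
    intro x
    rw [LinearEquiv.symm_apply_eq]
    rfl
  have hg' : ∀ x, g' (π' x) = gt x := by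
    intro x
    change (LinearMap.ker π').liftQ gt hgt0 (e.symm (π' x)) = gt x
    rw [he]
    rfl
  refine ⟨g', ?_, ?_⟩
  · ext z
    obtain ⟨n, rfl⟩ := hπ z
    change g' (c (π n)) = g (π n)
    rw [comm, hg', hgt]
  · intro g'' hg''
    have h1 : g''.comp π' = gt := by
      apply hb.algHom_ext
      intro n
      change g'' (π' (b n)) = gt (b n)
      rw [hgt, ← comm]
      exact congrArg (fun f : Q →ₗ[R] P => f (π n)) hg''
    ext z'
    obtain ⟨x, rfl⟩ := hπ' z'
    rw [hg', ← h1]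
    rfl

end QuotientBC

section SemiQuot

variable {R R' : Type u} [CommRing R] [CommRing R'] (ρ : R →+* R')
  {N N' : Type u} [AddCommGroup N] [Module R N] [AddCommGroup N'] [Module R' N']

/-- The linear map underlying a semilinear map, for the module structure `Module.compHom`. -/
theorem span_image_eq_top_of_isSemilinearBaseChange (b : N →ₛₗ[ρ] N')
    (hb : IsSemilinearBaseChange ρ b) (n' : N') :
    n' ∈ Submodule.span R' (Set.range b) := by
  letI algRR' : Algebra R R' := ρ.toAlgebra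
  letI modRN' : Module R N' := Module.compHom N' ρ
  haveI t3 : IsScalarTower R R' N' := ⟨fun r r' n => by
    change (ρ r * r') • n = ρ r • (r' • n); rw [mul_smul]⟩
  have hb' : IsBaseChange R' (show N →ₗ[R] N' from
    { toFun := fun n => b n
      map_add' := fun m n => b.map_add m n
      map_smul' := fun r n => LinearMap.map_smulₛₗ b r n }) := hb
  refine hb'.inductionOn n' (fun x => x ∈ Submodule.span R' (Set.range b)) (zero_mem _) ?_ ?_ ?_
  · intro n
    exact Submodule.subset_span ⟨n, rfl⟩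
  · intro s x hx
    exact Submodule.smul_mem _ s hx
  · intro x y hx hy
    exact add_mem hx hy

/-- `b` maps `I • ⊤` into `(I.map ρ) • ⊤`. -/
theorem semilinear_mem_map_smul_top (b : N →ₛₗ[ρ] N') (I : Ideal R) {n : N}
    (hn : n ∈ I • (⊤ : Submodule R N)) : b n ∈ (I.map ρ) • (⊤ : Submodule R' N') := by
  refine Submodule.smul_induction_on (p := fun n => b n ∈ (I.map ρ) • (⊤ : Submodule R' N')) hn
    ?_ ?_
  · intro i hi n _
    rw [b.map_smulₛₗ]
    exact Submodule.smul_mem_smul (Ideal.mem_map_of_mem ρ hi) Submodule.mem_top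
  · intro x y hx hy
    rw [map_add]
    exact add_mem hx hy

/-- For a semilinear base change `b : N → N'` along `ρ` and an ideal `I` of `R`, the submodule
`(I.map ρ) • ⊤` of `N'` is spanned by the image of `I • ⊤`. -/
theorem map_smul_top_le_span (b : N →ₛₗ[ρ] N') (hb : IsSemilinearBaseChange ρ b) (I : Ideal R) :
    (I.map ρ) • (⊤ : Submodule R' N') ≤
      Submodule.span R' (b '' ((I • (⊤ : Submodule R N) : Submodule R N) : Set N)) := by
  set S : Submodule R' N' :=
    Submodule.span R' (b '' ((I • (⊤ : Submodule R N) : Submodule R N) : Set N)) with hS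
  have key : ∀ r ∈ I.map ρ, ∀ n' : N', r • n' ∈ S := by
    intro r hr
    refine Submodule.span_induction (p := fun r _ => ∀ n' : N', r • n' ∈ S) ?_ ?_ ?_ ?_ hr
    · rintro _ ⟨i, hi, rfl⟩ n'
      have hn' := span_image_eq_top_of_isSemilinearBaseChange ρ b hb n'
      refine Submodule.span_induction (p := fun x _ => ρ i • x ∈ S) ?_ ?_ ?_ ?_ hn'
      · rintro _ ⟨n, rfl⟩
        rw [← b.map_smulₛₗ]
        exact Submodule.subset_span
          ⟨i • n, Submodule.smul_mem_smul hi Submodule.mem_top, rfl⟩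
      · rw [smul_zero]; exact zero_mem _
      · intro x y _ _ hx hy
        rw [smul_add]; exact add_mem hx hy
      · intro a x _ hx
        rw [smul_comm]; exact Submodule.smul_mem _ a hx
    · intro n'
      rw [zero_smul]; exact zero_mem _
    · intro x y _ _ hx hy n'
      rw [add_smul]; exact add_mem (hx n') (hy n')
    · intro a x _ hx n'
      rw [smul_eq_mul, mul_smul]; exact Submodule.smul_mem _ a (hx n')
  exact Submodule.smul_le.mpr fun r hr n' _ => key r hr n'

/-- The semilinear map `N ⧸ V → N' ⧸ V'` induced by `b`. -/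
noncomputable def quotMapSL (b : N →ₛₗ[ρ] N') (V : Submodule R N) (V' : Submodule R' N')
    (h : V ≤ V'.comap b) : (N ⧸ V) →ₛₗ[ρ] (N' ⧸ V') :=
  Submodule.mapQ V V' b h

@[simp] theorem quotMapSL_mk (b : N →ₛₗ[ρ] N') (V : Submodule R N) (V' : Submodule R' N')
    (h : V ≤ V'.comap b) (n : N) :
    quotMapSL ρ b V V' h (Submodule.Quotient.mk n) = Submodule.Quotient.mk (b n) := rfl

/-- **Base change of a quotient.**  If `b : N → N'` is a semilinear base change and `V'` is
spanned by the image of `V`, then `N ⧸ V → N' ⧸ V'` is a semilinear base change. -/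
theorem quotMapSL_isSemilinearBaseChange (b : N →ₛₗ[ρ] N')
    (hb : IsSemilinearBaseChange ρ b) (V : Submodule R N) (V' : Submodule R' N')
    (h : V ≤ V'.comap b) (hV' : V' ≤ Submodule.span R' (b '' (V : Set N))) :
    IsSemilinearBaseChange ρ (quotMapSL ρ b V V' h) := by
  unfold IsSemilinearBaseChange
  letI algRR' : Algebra R R' := ρ.toAlgebra
  letI modRN' : Module R N' := Module.compHom N' ρ
  haveI t3 : IsScalarTower R R' N' := ⟨fun r r' n => by
    change (ρ r * r') • n = ρ r • (r' • n); rw [mul_smul]⟩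
  letI modRQ' : Module R (N' ⧸ V') := Module.compHom _ ρ
  haveI t4 : IsScalarTower R R' (N' ⧸ V') := ⟨fun r r' n => by
    change (ρ r * r') • n = ρ r • (r' • n); rw [mul_smul]⟩
  have hb' : IsBaseChange R' (show N →ₗ[R] N' from
    { toFun := fun n => b n
      map_add' := fun m n => b.map_add m n
      map_smul' := fun r n => LinearMap.map_smulₛₗ b r n }) := hb
  refine isBaseChange_of_surjective_of_ker hb' V.mkQ V'.mkQ _ (Submodule.mkQ_surjective _)
    (Submodule.mkQ_surjective _) (fun n => rfl) ?_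
  rw [Submodule.ker_mkQ, Submodule.ker_mkQ]
  exact hV'

/-- The semilinear map `N ⧸ I N → N' ⧸ (I.map ρ) N'` induced by `b`. -/
noncomputable def quotSMulTopMap (b : N →ₛₗ[ρ] N') (I : Ideal R) (I' : Ideal R')
    (hI : I.map ρ = I') :
    (N ⧸ I • (⊤ : Submodule R N)) →ₛₗ[ρ] (N' ⧸ I' • (⊤ : Submodule R' N')) :=
  quotMapSL ρ b _ _ (fun n hn => by
    rw [Submodule.mem_comap, ← hI]
    exact semilinear_mem_map_smul_top ρ b I hn)

@[simp] theorem quotSMulTopMap_mk (b : N →ₛₗ[ρ] N') (I : Ideal R) (I' : Ideal R')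
    (hI : I.map ρ = I') (n : N) :
    quotSMulTopMap ρ b I I' hI (Submodule.Quotient.mk n) = Submodule.Quotient.mk (b n) := rfl

/-- **Base change of `N ⧸ I N`.** -/
theorem quotSMulTopMap_isSemilinearBaseChange (b : N →ₛₗ[ρ] N')
    (hb : IsSemilinearBaseChange ρ b) (I : Ideal R) (I' : Ideal R') (hI : I.map ρ = I') :
    IsSemilinearBaseChange ρ (quotSMulTopMap ρ b I I' hI) := by
  refine quotMapSL_isSemilinearBaseChange ρ b hb _ _ _ ?_
  rw [← hI]
  exact map_smul_top_le_span ρ b hb I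

end SemiQuot

section Vanq

variable {k : Type u} [Field k] {B₀ B₁ B₀₁ : Type u} [CommRing B₀] [CommRing B₁] [CommRing B₀₁]
  [Algebra k B₀] [Algebra k B₁] [Algebra k B₀₁] [Algebra B₀ B₀₁] [Algebra B₁ B₀₁]
  [IsScalarTower k B₀ B₀₁] [IsScalarTower k B₁ B₀₁]
  {A A' : Type u} [CommRing A] [Algebra k A] [CommRing A'] [Algebra k A']
  (φ : A →ₐ[k] A') {G : CurveGD k B₀ B₁ B₀₁ A} {G' : CurveGD k B₀ B₁ B₀₁ A'}
  (bm : GlueDatum.BaseChangeMaps (tensorMapLeft k φ B₀) (tensorMapLeft k φ B₁)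
    (tensorMapLeft k φ B₀₁) G G')
  {m : ℕ} (q : Fin m → (B₀ →ₐ[k] k))

/-- Base-change maps send `vanq q G` into `vanq q G'`. -/
theorem b₀_mem_vanq {n : G.N₀} (hn : n ∈ vanq q G) : bm.b₀ n ∈ vanq q G' := by
  have h := semilinear_mem_map_smul_top (tensorMapLeft k φ B₀) bm.b₀ (ptIdeal q A) hn
  rwa [ptIdeal_map φ q] at h

/-- `vanq q G'` is spanned by the image of `vanq q G`. -/
theorem vanq_eq_span :
    vanq q G' = Submodule.span (A' ⊗[k] B₀) (bm.b₀ '' (vanq q G : Set G.N₀)) := by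
  apply le_antisymm
  · have h := map_smul_top_le_span (tensorMapLeft k φ B₀) bm.b₀ bm.isBaseChange₀ (ptIdeal q A)
    rwa [ptIdeal_map φ q] at h
  · refine Submodule.span_le.mpr ?_
    rintro _ ⟨n, hn, rfl⟩
    exact b₀_mem_vanq φ bm q hn

/-- The semilinear map `N₀ ⧸ I_q N₀ → N₀' ⧸ I_q N₀'` induced by base-change maps. -/
noncomputable def vanqMap :
    (G.N₀ ⧸ vanq q G) →ₛₗ[tensorMapLeft k φ B₀] (G'.N₀ ⧸ vanq q G') :=
  quotSMulTopMap (tensorMapLeft k φ B₀) bm.b₀ (ptIdeal q A) (ptIdeal q A') (ptIdeal_map φ q)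

@[simp] theorem vanqMap_mk (n : G.N₀) :
    vanqMap φ bm q (Submodule.Quotient.mk n) = Submodule.Quotient.mk (bm.b₀ n) := rfl

/-- **Base change of `N₀ ⧸ I_q N₀`** (semilinear form over `A ⊗ B₀ → A' ⊗ B₀`). -/
theorem vanqMap_isSemilinearBaseChange :
    IsSemilinearBaseChange (tensorMapLeft k φ B₀) (vanqMap φ bm q) :=
  quotSMulTopMap_isSemilinearBaseChange _ bm.b₀ bm.isBaseChange₀ _ _ _

/-- **Base change of `N₀ ⧸ I_q N₀`** (`A`-linear form):
`A' ⊗[A] (N₀ ⧸ I_q N₀) ≃ N₀' ⧸ I_q N₀'`. -/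
theorem exists_vanq_quotient_equiv [Algebra A A'] [IsScalarTower k A A']
    (hφ : ∀ a, φ a = algebraMap A A' a) :
    ∃ E : A' ⊗[A] (G.N₀ ⧸ vanq q G) ≃ₗ[A'] (G'.N₀ ⧸ vanq q G'),
      ∀ (s : A') (n : G.N₀),
        E (s ⊗ₜ[A] Submodule.Quotient.mk n) = s • Submodule.Quotient.mk (bm.b₀ n) := by
  obtain ⟨E, hE⟩ := H550.exists_equiv_of_isSemilinearBaseChange_tensor φ hφ B₀
    (vanqMap φ bm q) (vanqMap_isSemilinearBaseChange φ bm q)
  exact ⟨E, fun s n => hE s _⟩

end Vanq

end Fermat.Agent.S25.H446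

end
-- ===== PACK-END S25/H446/PtBC.lean

-- ===== PACK-BEGIN S25/H911/ACCov2.lean
section



/-!
# S25 / ALGCHARTS, COV2 (helper911): over a field, `P2` and degree zero give `P3`

By a degree count, without the long exact sequence: over a field `K`, for `G` of degree `0` and
a generator `s` of `H⁰(G(n E₀ - Σ q))` (not vanishing on `E₀`), the colon ideal
`I' := (R₀ s₀ : I_q N₀)` satisfies `R₀ s₀ = (I' * I_q) N₀` and
`dim R₀ / I' = dim N₀ / (s₀) - m = n d - m = g`.

* `finite_quotient_of_finite_quotient_smul_top` : `N / J N` finite over `K`, `N` invertible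
  `⇒ R / J` finite over `K`;
* `core_field` : CORE over a field (`∃ I', IsHilb g I' ∧ span {s.1} = (I' * ptIdeal q K) • ⊤`);
* `cov2` : `P2 x y n q G → ∃ β, P3 x y n q β G`.

DEG2 (`degree_eq_of_section` of the skeleton) is an explicit hypothesis `hDEG2`.
-/

set_option autoImplicit false
set_option linter.style.haveILetI false
set_option linter.unusedSectionVars false

universe u

open scoped TensorProduct

namespace Fermat.Agent.S25.H911

open Fermat.Agent.S25

/-- If `N` is invertible and `N / J N` is finite over `K`, then `R / J` is finite over `K`. -/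
theorem finite_quotient_of_finite_quotient_smul_top {K R N : Type u} [Field K] [CommRing R]
    [Algebra K R] [AddCommGroup N] [Module R N] [Module K N] [IsScalarTower K R N]
    [Module.Invertible R N] (J : Ideal R) [Module.Finite K (N ⧸ (J • ⊤ : Submodule R N))] :
    Module.Finite K (R ⧸ J) := by
  have e1 : ((R ⧸ J) ⊗[R] N) ≃ₗ[K] N ⧸ (J • (⊤ : Submodule R N)) :=
    (TensorProduct.quotTensorEquivQuotSMul N J).restrictScalars K
  haveI : Module.Finite K ((R ⧸ J) ⊗[R] N) := Module.Finite.equiv e1.symm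
  let f : (R ⧸ J) →ₗ[K] Module.End K ((R ⧸ J) ⊗[R] N) :=
    (Algebra.lsmul K K ((R ⧸ J) ⊗[R] N)).toLinearMap
  have hf : Function.Injective f := by
    intro r r' h
    apply eq_of_smul_eq_smul (α := (R ⧸ J) ⊗[R] N)
    intro v
    exact LinearMap.congr_fun h v
  exact Module.Finite.of_injective f hf

variable {k : Type u} [Field k] [IsAlgClosed k]
  {B₀ B₁ B₀₁ : Type u} [CommRing B₀] [CommRing B₁] [CommRing B₀₁]
  [Algebra k B₀] [Algebra k B₁] [Algebra k B₀₁] [Algebra B₀ B₀₁] [Algebra B₁ B₀₁]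
  [IsScalarTower k B₀ B₀₁] [IsScalarTower k B₁ B₀₁] {x : B₀} {y : B₁} {e : B₁ →ₐ[k] k}
  {K : Type u} [Field K] [Algebra k K]

/-- `ptIdeal q K` is an invertible module (over a field `K`). -/
theorem ptIdeal_invertible_field (hC : IsCurveChart k B₀ B₁ B₀₁ x y e) {m : ℕ}
    (q : Fin m → (B₀ →ₐ[k] k)) : Module.Invertible (K ⊗[k] B₀) (H11.ptIdeal q K) := by
  obtain ⟨hf, -⟩ := finrank_quotient_ptIdeal (K := K) hC q
  exact H851.hilb_invertible K hC (H11.ptIdeal q K)

/-- **CORE over a field**: the divisor of a section of `G(n E₀ - Σ q)` not vanishing on `E₀`,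
for `G` of degree `0`, is `I' * ptIdeal q K` with `I'` a point of `Hilb^g`, `m + g = n d`. -/
theorem core_field (hC : IsCurveChart k B₀ B₁ B₀₁ x y e)
    (hDEG2 : ∀ (K : Type u) [Field K] [Algebra k K] (G : CurveGD k B₀ B₁ B₀₁ K) (n : ℕ)
      (s : G.N₀ × G.N₁), s ∈ H11.sec x n G → H11.GenModY y G s.2 →
      Module.Finite K (G.N₀ ⧸ Submodule.span (K ⊗[k] B₀) {s.1}) ∧
        G.degree = (Module.finrank K (G.N₀ ⧸ Submodule.span (K ⊗[k] B₀) {s.1}) : ℤ) -
          (n * Module.finrank k (B₁ ⧸ Ideal.span {y}) : ℕ))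
    {n m g : ℕ} (q : Fin m → (B₀ →ₐ[k] k))
    (hnum : m + g = n * Module.finrank k (B₁ ⧸ Ideal.span {y}))
    (G : CurveGD k B₀ B₁ B₀₁ K) (hdeg : G.degree = 0) (s : G.N₀ × G.N₁)
    (hs : s ∈ H11.secq x n q G) (hgen : H11.GenModY y G s.2) :
    ∃ I' : Ideal (K ⊗[k] B₀), H491.IsHilb g I' ∧
      Submodule.span (K ⊗[k] B₀) {s.1} =
        (I' * H11.ptIdeal q K) • (⊤ : Submodule (K ⊗[k] B₀) G.N₀) := by
  obtain ⟨hfinN, hdegeq⟩ := hDEG2 K G n s hs.1 hgen
  haveI := G.invertible₀
  obtain ⟨hfP, hrP⟩ := finrank_quotient_ptIdeal (K := K) hC q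
  haveI : Module.Invertible (K ⊗[k] B₀) (H11.ptIdeal q K) := ptIdeal_invertible_field hC q
  have hle : Submodule.span (K ⊗[k] B₀) {s.1} ≤
      H11.ptIdeal q K • (⊤ : Submodule (K ⊗[k] B₀) G.N₀) :=
    (Submodule.span_singleton_le_iff_mem _ _).2 hs.2
  have hM' := H671.submodule_eq_colon_mul_smul_top hle
  set I' : Ideal (K ⊗[k] B₀) := (Submodule.span (K ⊗[k] B₀) {s.1}).colon
    ((H11.ptIdeal q K • (⊤ : Submodule (K ⊗[k] B₀) G.N₀) : Submodule (K ⊗[k] B₀) G.N₀) :
      Set G.N₀) with hI'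
  refine ⟨I', ?_, hM'⟩
  -- dimensions
  have hN : Module.finrank K (G.N₀ ⧸ Submodule.span (K ⊗[k] B₀) {s.1}) = m + g := by
    rw [hdeg] at hdegeq
    have : (Module.finrank K (G.N₀ ⧸ Submodule.span (K ⊗[k] B₀) {s.1}) : ℤ) =
        ((m + g : ℕ) : ℤ) := by
      rw [hnum]; linarith
    exact_mod_cast this
  haveI hfinN' : Module.Finite K
      (G.N₀ ⧸ ((I' * H11.ptIdeal q K) • (⊤ : Submodule (K ⊗[k] B₀) G.N₀))) := by
    rw [← hM']; exact hfinN
  haveI hfinIP : Module.Finite K ((K ⊗[k] B₀) ⧸ (I' * H11.ptIdeal q K)) :=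
    finite_quotient_of_finite_quotient_smul_top (N := G.N₀) (I' * H11.ptIdeal q K)
  obtain ⟨-, hrankIP⟩ := finrank_quotient_smul_top_invertible (K := K) (N := G.N₀)
    (I' * H11.ptIdeal q K)
  have hleI : I' * H11.ptIdeal q K ≤ I' := Ideal.mul_le_left
  haveI hfinI : Module.Finite K ((K ⊗[k] B₀) ⧸ I') :=
    Module.Finite.of_surjective (Ideal.Quotient.factorₐ K hleI).toLinearMap
      (Ideal.Quotient.factor_surjective hleI)
  obtain ⟨-, hadd⟩ := finrank_quotient_mul_invertible (K := K) I' (H11.ptIdeal q K)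
  have hg : Module.finrank K ((K ⊗[k] B₀) ⧸ I') = g := by
    have h1 : Module.finrank K
        (G.N₀ ⧸ ((I' * H11.ptIdeal q K) • (⊤ : Submodule (K ⊗[k] B₀) G.N₀))) = m + g := by
      rw [← hM']; exact hN
    rw [hrankIP, hadd, hrP] at h1
    omega
  refine ⟨hfinI, inferInstance, fun p => ?_⟩
  rw [Module.rankAtStalk_eq_finrank_of_free]
  simp [hg]

/-- **COV2**: over a field, a gluing datum of degree `0` with `P2` lies in some Hilbert chart
`β`, i.e. has `P3`. -/
theorem cov2 (hC : IsCurveChart k B₀ B₁ B₀₁ x y e)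
    (hDEG2 : ∀ (K : Type u) [Field K] [Algebra k K] (G : CurveGD k B₀ B₁ B₀₁ K) (n : ℕ)
      (s : G.N₀ × G.N₁), s ∈ H11.sec x n G → H11.GenModY y G s.2 →
      Module.Finite K (G.N₀ ⧸ Submodule.span (K ⊗[k] B₀) {s.1}) ∧
        G.degree = (Module.finrank K (G.N₀ ⧸ Submodule.span (K ⊗[k] B₀) {s.1}) : ℤ) -
          (n * Module.finrank k (B₁ ⧸ Ideal.span {y}) : ℕ))
    {n m g : ℕ} (q : Fin m → (B₀ →ₐ[k] k))
    (hnum : m + g = n * Module.finrank k (B₁ ⧸ Ideal.span {y}))
    (G : CurveGD k B₀ B₁ B₀₁ K) (hdeg : G.degree = 0) (h2 : H11.P2 x y n q G) :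
    ∃ β : Fin g → B₀, H11.P3 x y n q β G := by
  obtain ⟨h1, s, hs⟩ := h2
  obtain ⟨I', hI', hspan⟩ := core_field hC hDEG2 q hnum G hdeg s hs.mem hs.gen
  obtain ⟨β, hβ⟩ := H491.exists_isChart_of_isLocalRing hI'
  exact ⟨β, h1, s, hs, I', hβ, hspan⟩

end Fermat.Agent.S25.H911

end
-- ===== PACK-END S25/H911/ACCov2.lean

-- ===== PACK-BEGIN S26/H605/GenericTrivial.lean
section





/-!
# Row S26, block PIC, leaf P5 (helper605): `Stmt.GenericTrivial` for the Čech model

`genericTrivial : Stmt.GenericTrivial Pic.cechPic K` — a class on `X × W` (`X` integral, `W`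
proper geometrically integral over `K`) which dies on `Spec K' × W` for a geometric generic point
`Spec K' ⟶ X` dies on `U × W` for a nonempty open `U ⊆ X`.

Route: flat base change of twisted Čech sections along `Γ(X₀) → K'` (`BCGeom.lean`),
`Γ(Spec K' × W, 𝒪)` is a field, zero locus + closedness of `X × W → X`
(`GenTrivCore.exists_open_twisted`).  Neither `IsAlgClosed` nor `LocallyOfFiniteType x` is used.
-/

set_option autoImplicit false

open AlgebraicGeometry CategoryTheory CategoryTheory.Limits TopologicalSpace Opposite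

universe u

namespace Fermat.Agent.S26.H605

/-- **P5, generic triviality** for the Čech Picard functor. -/
theorem genericTrivial (K : Type u) [Field K] [IsAlgClosed K] :
    Stmt.GenericTrivial Pic.cechPic.{u} K := by
  intro X W x w _ _ _ _ N K' _ _ ξ hξ hN
  obtain ⟨c, rfl⟩ := Pic.cl_surjective N
  rw [Pic.map_cl] at hN
  obtain ⟨σ', hσ', hu⟩ := exists_twisted_of_cl_pullback_eq_zero _ c hN
  have H := isPullback_prodMapLeft x w ξ
  haveI : Flat ξ := flat_of_forall_eq_genericPoint ξ hξ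
  haveI : IsIntegral (pullback (ξ ≫ x) w) :=
    GeometricallyIntegral.isIntegral_of_subsingleton (pullback.fst (ξ ≫ x) w)
  have hfield : IsField Γ(pullback (ξ ≫ x) w, ⊤) :=
    isField_of_universallyClosed K' (pullback.fst (ξ ≫ x) w)
  obtain ⟨U, hηU, hU⟩ := exists_open_twisted H (isAffineOpen_top _) (genericPoint X) hξ hfield
    c σ' hσ' hu
  refine ⟨U, ⟨genericPoint X, hηU⟩, ?_⟩
  rw [Pic.map_cl]
  obtain ⟨σ, hσ, hσu⟩ := hU _ (prodMapLeft x (U.ι ≫ x) w U.ι rfl) (fun z => by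
    rw [← Scheme.Hom.comp_apply, prodMapLeft_fst, Scheme.Hom.comp_apply]
    exact (pullback.fst (U.ι ≫ x) w z).2)
  exact cl_pullback_eq_zero_of_twisted _ c σ hσ hσu

end Fermat.Agent.S26.H605

end
-- ===== PACK-END S26/H605/GenericTrivial.lean

-- ===== PACK-BEGIN S26/H126/Boundary.lean
section





/-!
# Row S26, block AMPLE, leaf AM-BOUNDARY (helper126): `Ample.Boundary K`

The complement of a nonempty affine open `U` of an abelian variety `A` is the support of an
effective Cartier divisor.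

For a point `y` let `vanSet U y ⊆ K(A)` be the set of germs at `y` of sections vanishing outside
`U` (an ideal of `O_y`).  Locally on an affine chart it is generated by one element
(`exists_local_generator`: factoriality of the local rings + Hartogs), and the inverses of these
local generators form the Cartier divisor.
-/

set_option autoImplicit false
universe u

open CategoryTheory CategoryTheory.Limits AlgebraicGeometry NeronModelInfra GoodReductionJacobian
open TopologicalSpace Opposite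

namespace Fermat.Agent.S26.H126

open Fermat.Agent.S26 Fermat.Agent.S26.H926 Fermat.Agent.S26.H926.Ample

noncomputable section

section VanSet

variable {X : Scheme.{u}} [IsIntegral X]

/-- The germs at `y`, as rational functions, of the sections vanishing outside `U`. -/
def vanSet (U : X.Opens) (y : X) : Set X.functionField :=
  {φ | ∃ (V : X.Opens) (hy : y ∈ V) (s : Γ(X, V)), X.basicOpen s ≤ U ∧
      algebraMap (X.presheaf.stalk y) X.functionField (X.presheaf.germ V y hy s) = φ}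

variable {U : X.Opens} {y : X}

theorem inO_of_mem_vanSet {φ : X.functionField} (h : φ ∈ vanSet U y) : InO y φ := by
  obtain ⟨V, hy, s, -, rfl⟩ := h
  exact inO_iff.2 ⟨_, rfl⟩

theorem one_mem_vanSet_iff : (1 : X.functionField) ∈ vanSet U y ↔ y ∈ U := by
  constructor
  · rintro ⟨V, hy, s, hs, h1⟩
    apply hs
    rw [X.mem_basicOpen s y hy]
    have hinj : Function.Injective (algebraMap (X.presheaf.stalk y) X.functionField) :=
      IsFractionRing.injective _ _
    have : X.presheaf.germ V y hy s = 1 := hinj (by rw [h1, map_one])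
    rw [this]
    exact isUnit_one
  · intro hy
    refine ⟨U, hy, 1, X.basicOpen_le _, ?_⟩
    rw [map_one, map_one]

/-- `vanSet U y` is stable under multiplication by `O_y`. -/
theorem smul_mem_vanSet {φ : X.functionField} (h : φ ∈ vanSet U y) (c : X.presheaf.stalk y) :
    c • φ ∈ vanSet U y := by
  obtain ⟨V, hy, s, hs, rfl⟩ := h
  obtain ⟨W, hyW, c', rfl⟩ := X.presheaf.germ_exist (x := y) c
  refine ⟨V ⊓ W, ⟨hy, hyW⟩, X.presheaf.map (homOfLE inf_le_right).op c' *
    X.presheaf.map (homOfLE inf_le_left).op s, ?_, ?_⟩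
  · rw [Scheme.basicOpen_mul]
    refine inf_le_right.trans ?_
    rw [Scheme.basicOpen_res]
    exact inf_le_right.trans hs
  · rw [map_mul, map_mul, Algebra.smul_def]
    congr 2
    · exact X.presheaf.germ_res_apply (homOfLE inf_le_right) y ⟨hy, hyW⟩ c'
    · exact X.presheaf.germ_res_apply (homOfLE inf_le_left) y ⟨hy, hyW⟩ s

end VanSet

section Chart

variable {X : Scheme.{u}} [IsIntegral X]

/-- The map from sections over a neighbourhood of `y` to the function field. -/
def toFF {W : X.Opens} {y : X} (hy : y ∈ W) : Γ(X, W) →+* X.functionField :=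
  (algebraMap (X.presheaf.stalk y) X.functionField).comp (X.presheaf.germ W y hy).hom

theorem toFF_apply {W : X.Opens} {y : X} (hy : y ∈ W) (s : Γ(X, W)) :
    toFF hy s = algebraMap (X.presheaf.stalk y) X.functionField (X.presheaf.germ W y hy s) :=
  rfl

theorem toFF_res {W W' : X.Opens} {y : X} (hy : y ∈ W) (hy' : y ∈ W') (h : W' ≤ W)
    (s : Γ(X, W)) : toFF hy' (X.presheaf.map (homOfLE h).op s) = toFF hy s := by
  rw [toFF_apply, toFF_apply]
  congr 1
  exact X.presheaf.germ_res_apply (homOfLE h) y hy' s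

theorem toFF_eq_germToFunctionField {W : X.Opens} [Nonempty W] {y : X} (hy : y ∈ W)
    (s : Γ(X, W)) : toFF hy s = X.germToFunctionField W s :=
  Scheme.algebraMap_germ_eq_germToFunctionField X hy s

theorem toFF_ne_zero_of_mem_basicOpen {W : X.Opens} {y : X} (hy : y ∈ W) (s : Γ(X, W))
    (hs : y ∈ X.basicOpen s) : toFF hy s ≠ 0 := by
  have hu : IsUnit (X.presheaf.germ W y hy s) := (X.mem_basicOpen s y hy).1 hs
  exact (hu.map (algebraMap (X.presheaf.stalk y) X.functionField)).ne_zero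

/-- The inverse of a section invertible at `y` is regular at `y`. -/
theorem inO_inv_toFF_of_mem_basicOpen {W : X.Opens} {y : X} (hy : y ∈ W) (s : Γ(X, W))
    (hs : y ∈ X.basicOpen s) : InO y (toFF hy s)⁻¹ := by
  have hu : IsUnit (X.presheaf.germ W y hy s) := (X.mem_basicOpen s y hy).1 hs
  obtain ⟨u, hu'⟩ := hu
  refine inO_iff.2 ⟨((u⁻¹ : (X.presheaf.stalk y)ˣ) : X.presheaf.stalk y), ?_⟩
  rw [toFF_apply, ← hu']
  apply eq_inv_of_mul_eq_one_left
  rw [← map_mul, Units.inv_mul, map_one]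

theorem inO_pow {y : X} {φ : X.functionField} (h : InO y φ) (n : ℕ) : InO y (φ ^ n) := by
  induction n with
  | zero => rw [pow_zero]; exact inO_one
  | succ n ih => rw [pow_succ]; exact ih.mul h

theorem inO_toFF {W : X.Opens} {y : X} (hy : y ∈ W) (s : Γ(X, W)) : InO y (toFF hy s) :=
  inO_iff.2 ⟨_, rfl⟩

/-- `f ∈ O_y · g` if `f / g ∈ O_y`. -/
theorem mem_span1_of_inO_div {y : X} {φ π : X.functionField} (hπ : π ≠ 0)
    (h : InO y (φ * π⁻¹)) : φ ∈ LS.span1 π y := by
  obtain ⟨c, hc⟩ := inO_iff.1 h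
  refine mem_span1_iff.2 ⟨c, ?_⟩
  rw [Algebra.smul_def, hc, mul_assoc, inv_mul_cancel₀ hπ, mul_one]

variable (U : X.Opens)

/-- The ideal of the sections over `V` vanishing outside `U`. -/
def vanIdeal (V : X.Opens) : Ideal Γ(X, V) where
  carrier := {s | X.basicOpen s ≤ U}
  zero_mem' := by
    show X.basicOpen (0 : Γ(X, V)) ≤ U
    rw [Scheme.basicOpen_zero]
    exact bot_le
  add_mem' := fun {a b} ha hb => (X.basicOpen_add_le a b).trans (sup_le ha hb)
  smul_mem' := fun c s hs => by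
    show X.basicOpen (c * s) ≤ U
    rw [Scheme.basicOpen_mul]
    exact inf_le_right.trans hs

variable {U}

theorem mem_vanIdeal {V : X.Opens} {s : Γ(X, V)} : s ∈ vanIdeal U V ↔ X.basicOpen s ≤ U :=
  Iff.rfl

theorem vanIdeal_isRadical (V : X.Opens) : (vanIdeal U V).IsRadical := by
  rintro s ⟨n, hn⟩
  rw [mem_vanIdeal] at hn ⊢
  rcases Nat.eq_zero_or_pos n with rfl | hpos
  · rw [pow_zero, Scheme.basicOpen_one] at hn
    exact (X.basicOpen_le s).trans hn
  · rwa [X.basicOpen_pow s hpos] at hn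

/-- **Local generation on a chart.**  If `b ∈ vanIdeal U V` and `f • vanIdeal U V ⊆ (b)`, then
`b` generates `vanSet U y` for all `y ∈ D(f)`. -/
theorem mem_vanSet_iff_of_chart {V : X.Opens} (hV : IsAffineOpen V) [Nonempty V]
    (b f : Γ(X, V)) (hb : b ∈ vanIdeal U V) (hb0 : b ≠ 0)
    (hf : ∀ g ∈ vanIdeal U V, ∃ c, f * g = c * b) {y : X} (hy : y ∈ X.basicOpen f)
    (φ : X.functionField) :
    φ ∈ vanSet U y ↔ φ ∈ LS.span1 (X.germToFunctionField V b) y := by
  have hyV : y ∈ V := X.basicOpen_le f hy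
  have hπ0 : X.germToFunctionField V b ≠ 0 := by
    intro h0
    apply hb0
    apply Scheme.germToFunctionField_injective X V
    rw [h0, map_zero]
  constructor
  · rintro ⟨V', hy', s', hs', rfl⟩
    obtain ⟨h, hhV', hyh⟩ := hV.exists_basicOpen_le (⟨y, hy'⟩ : V') hyV
    have hyD : y ∈ X.basicOpen h := hyh
    haveI := hV.isLocalization_basicOpen h
    obtain ⟨n, t, ht⟩ := IsLocalization.Away.surj h (X.presheaf.map (homOfLE hhV').op s')
    have halg : ∀ r : Γ(X, V), algebraMap Γ(X, V) Γ(X, X.basicOpen h) r =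
        X.presheaf.map (homOfLE (X.basicOpen_le h)).op r := fun r => rfl
    rw [halg, halg] at ht
    -- `t * h` vanishes outside `U`
    have hth : t * h ∈ vanIdeal U V := by
      rw [mem_vanIdeal, Scheme.basicOpen_mul, inf_comm]
      have h1 := Scheme.basicOpen_res X t (homOfLE (X.basicOpen_le h)).op
      rw [← h1, ← ht, Scheme.basicOpen_mul]
      refine inf_le_left.trans ?_
      rw [Scheme.basicOpen_res]
      exact inf_le_right.trans hs'
    obtain ⟨c, hc⟩ := hf _ hth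
    -- the equations in the function field
    have e1 : toFF hy' s' * toFF hyV h ^ n = toFF hyV t := by
      have := congrArg (toFF hyD) ht
      rwa [map_mul, map_pow, toFF_res hy' hyD hhV', toFF_res hyV hyD, toFF_res hyV hyD] at this
    have e2 : toFF hyV f * (toFF hyV t * toFF hyV h) = toFF hyV c * toFF hyV b := by
      have := congrArg (toFF hyV) hc
      rwa [map_mul, map_mul, map_mul] at this
    have hF : toFF hyV f ≠ 0 := toFF_ne_zero_of_mem_basicOpen hyV f hy
    have hH : toFF hyV h ≠ 0 := toFF_ne_zero_of_mem_basicOpen hyV h hyD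
    rw [← toFF_apply hy', ← toFF_eq_germToFunctionField hyV]
    rw [← toFF_eq_germToFunctionField hyV] at hπ0
    apply mem_span1_of_inO_div hπ0
    have e4 : toFF hy' s' * (toFF hyV f * toFF hyV h ^ (n + 1)) = toFF hyV c * toFF hyV b := by
      linear_combination (toFF hyV f * toFF hyV h) * e1 + e2
    have hFH : toFF hyV f * toFF hyV h ^ (n + 1) ≠ 0 := mul_ne_zero hF (pow_ne_zero _ hH)
    have e5 : toFF hy' s' = toFF hyV c * toFF hyV b * (toFF hyV f * toFF hyV h ^ (n + 1))⁻¹ := by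
      rw [eq_mul_inv_iff_mul_eq₀ hFH]
      exact e4
    have e3 : toFF hy' s' * (toFF hyV b)⁻¹ =
        toFF hyV c * ((toFF hyV f)⁻¹ * ((toFF hyV h)⁻¹) ^ (n + 1)) := by
      calc toFF hy' s' * (toFF hyV b)⁻¹
          = toFF hyV c * toFF hyV b * (toFF hyV f * toFF hyV h ^ (n + 1))⁻¹ *
              (toFF hyV b)⁻¹ := by rw [← e5]
        _ = toFF hyV c * ((toFF hyV f)⁻¹ * ((toFF hyV h)⁻¹) ^ (n + 1)) *
              (toFF hyV b * (toFF hyV b)⁻¹) := by
            rw [mul_inv, inv_pow]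
            ring
        _ = toFF hyV c * ((toFF hyV f)⁻¹ * ((toFF hyV h)⁻¹) ^ (n + 1)) := by
            rw [mul_inv_cancel₀ hπ0, mul_one]
    rw [e3]
    exact (inO_toFF hyV c).mul ((inO_inv_toFF_of_mem_basicOpen hyV f hy).mul
      (inO_pow (inO_inv_toFF_of_mem_basicOpen hyV h hyD) (n + 1)))
  · intro h
    obtain ⟨c, rfl⟩ := mem_span1_iff.1 h
    apply smul_mem_vanSet
    exact ⟨V, hyV, b, hb, toFF_eq_germToFunctionField hyV b⟩

end Chart

section Hartogs

variable {X : Scheme.{u}} [IsIntegral X]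

/-- Dictionary: `y ∈ D(s)` iff `s` is not in the prime ideal of `y`. -/
theorem mem_basicOpen_iff_notMem_primeIdealOf {V : X.Opens} (hV : IsAffineOpen V)
    (s : Γ(X, V)) {y : X} (hy : y ∈ V) :
    y ∈ X.basicOpen s ↔ s ∉ (hV.primeIdealOf ⟨y, hy⟩).asIdeal := by
  have h1 : (hV.primeIdealOf ⟨y, hy⟩) ∈ hV.fromSpec ⁻¹ᵁ X.basicOpen s ↔ y ∈ X.basicOpen s := by
    show hV.fromSpec (hV.primeIdealOf ⟨y, hy⟩) ∈ X.basicOpen s ↔ _
    rw [hV.fromSpec_primeIdealOf]
  rw [← h1, hV.fromSpec_preimage_basicOpen]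
  exact PrimeSpectrum.mem_basicOpen _ _

theorem fromSpec_mem {V : X.Opens} (hV : IsAffineOpen V) (P : PrimeSpectrum Γ(X, V)) :
    hV.fromSpec P ∈ V := by
  have h := hV.range_fromSpec
  have : hV.fromSpec P ∈ Set.range hV.fromSpec := ⟨P, rfl⟩
  rw [h] at this
  exact this

theorem primeIdealOf_fromSpec {V : X.Opens} (hV : IsAffineOpen V) (P : PrimeSpectrum Γ(X, V)) :
    hV.primeIdealOf ⟨hV.fromSpec P, fromSpec_mem hV P⟩ = P := by
  apply hV.fromSpec.isOpenEmbedding.injective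
  exact hV.fromSpec_primeIdealOf ⟨hV.fromSpec P, fromSpec_mem hV P⟩

/-- Points of `V` outside `U` are the primes containing `vanIdeal U V`. -/
theorem vanIdeal_le_primeIdealOf_iff {U V : X.Opens} (hV : IsAffineOpen V) {y : X} (hy : y ∈ V) :
    vanIdeal U V ≤ (hV.primeIdealOf ⟨y, hy⟩).asIdeal ↔ y ∉ U := by
  constructor
  · intro hle hyU
    obtain ⟨s, hsU, hys⟩ := hV.exists_basicOpen_le (⟨y, hyU⟩ : U) hy
    have h1 : s ∈ vanIdeal U V := hsU
    exact (mem_basicOpen_iff_notMem_primeIdealOf hV s hy).1 hys (hle h1)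
  · intro hyU s hs
    by_contra hsy
    exact hyU (hs ((mem_basicOpen_iff_notMem_primeIdealOf hV s hy).2 hsy))

/-- Specialisation in terms of prime ideals of a chart. -/
theorem primeIdealOf_le_of_specializes {V : X.Opens} (hV : IsAffineOpen V) {y z : X}
    (hy : y ∈ V) (hz : z ∈ V) (h : y ⤳ z) :
    (hV.primeIdealOf ⟨y, hy⟩).asIdeal ≤ (hV.primeIdealOf ⟨z, hz⟩).asIdeal := by
  have h1 : hV.fromSpec (hV.primeIdealOf ⟨y, hy⟩) ⤳ hV.fromSpec (hV.primeIdealOf ⟨z, hz⟩) := by
    rw [hV.fromSpec_primeIdealOf, hV.fromSpec_primeIdealOf]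
    exact h
  have h2 := (hV.fromSpec.isOpenEmbedding.isInducing.specializes_iff).1 h1
  exact (PrimeSpectrum.le_iff_specializes _ _).2 h2

/-- **Hartogs.**  The minimal primes of the ideal of the complement of an affine open have
height one. -/
theorem height_eq_one_of_mem_minimalPrimes_vanIdeal [IsLocallyNoetherian X]
    {S : Scheme.{u}} (g : X ⟶ S) [IsSeparated g] [IsAffine S]
    {U : X.Opens} (hU : IsAffineOpen U) [Nonempty U] {V : X.Opens} (hV : IsAffineOpen V)
    [IsIntegrallyClosed Γ(X, V)] (P : Ideal Γ(X, V))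
    (hP : P ∈ (vanIdeal U V).minimalPrimes) : P.height = 1 := by
  haveI hPp : P.IsPrime := hP.isPrime
  set P' : PrimeSpectrum Γ(X, V) := ⟨P, hPp⟩ with hP'
  set z : X := hV.fromSpec P' with hz
  have hzV : z ∈ V := fromSpec_mem hV P'
  have hpz : hV.primeIdealOf ⟨z, hzV⟩ = P' := primeIdealOf_fromSpec hV P'
  have hzU : z ∉ U := by
    rw [← vanIdeal_le_primeIdealOf_iff hV hzV, hpz]
    exact hP.1.2
  have hmax : ∀ y : X, y ⤳ z → y ∉ U → y = z := by
    intro y hyz hyU
    have hyV : y ∈ V := hyz.mem_open V.isOpen hzV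
    have h1 := primeIdealOf_le_of_specializes hV hyV hzV hyz
    rw [hpz] at h1
    have h2 := (vanIdeal_le_primeIdealOf_iff hV hyV).2 hyU
    have h3 : P ≤ (hV.primeIdealOf ⟨y, hyV⟩).asIdeal :=
      hP.2 ⟨(hV.primeIdealOf ⟨y, hyV⟩).isPrime, h2⟩ h1
    have h4 : hV.primeIdealOf ⟨y, hyV⟩ = P' := PrimeSpectrum.ext (le_antisymm h1 h3)
    have h5 := hV.fromSpec_primeIdealOf ⟨y, hyV⟩
    rw [h4] at h5
    exact h5.symm
  have hnorm : IsIntegrallyClosed (X.presheaf.stalk z) :=
    Fermat.Agent.S26.H714.isIntegrallyClosed_stalk_of_isAffineOpen hV z hzV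
  have hdim := Fermat.Agent.S26.H714.ringKrullDim_stalk_eq_one_of_isAffineOpen_over g hU hnorm
    hzU hmax
  have h6 := @IsLocalization.AtPrime.ringKrullDim_eq_height _ _ P'.asIdeal _
    (X.presheaf.stalk (hV.fromSpec P')) _
    (TopCat.Presheaf.algebra_section_stalk X.presheaf ⟨_, hzV⟩) (hV.isLocalization_stalk' P' hzV)
  rw [hdim] at h6
  exact_mod_cast h6.symm

end Hartogs

section Smooth

variable {K : Type u} [Field K] {X : Scheme.{u}} (str : X ⟶ Spec (CommRingCat.of K))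

/-- The structure map `K → Γ(X, V)` of a `K`-scheme. -/
def secStr (V : X.Opens) : K →+* Γ(X, V) :=
  (str.appLE ⊤ V (fun _ _ => trivial)).hom.comp (Scheme.ΓSpecIso (CommRingCat.of K)).inv.hom

theorem secStr_smooth [Smooth str] {V : X.Opens} (hV : IsAffineOpen V) :
    (secStr str V).Smooth := by
  have h := str.smooth_appLE (isAffineOpen_top (Spec (CommRingCat.of K))) hV
    (fun _ _ => trivial)
  rw [secStr]
  exact RingHom.Smooth.comp
    (RingHom.Smooth.of_bijective
      (ConcreteCategory.bijective_of_isIso (Scheme.ΓSpecIso (CommRingCat.of K)).inv)) h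

variable [IsAlgClosed K] [IsIntegral X] [Smooth str] [IsSeparated str]

include str in
/-- **Local generators of the ideal of the complement of an affine open** on a smooth
separated integral scheme over an algebraically closed field. -/
theorem exists_chart_generator (U : X.Opens) (hU : IsAffineOpen U) [Nonempty U] (x : X) :
    ∃ (W : X.Opens) (π : X.functionField), x ∈ W ∧ π ≠ 0 ∧
      ∀ y ∈ W, ∀ φ, φ ∈ vanSet U y ↔ φ ∈ LS.span1 π y := by
  classical
  obtain ⟨_, ⟨V, hV, rfl⟩, hxV, -⟩ :=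
    X.isBasis_affineOpens.exists_subset_of_mem_open (Set.mem_univ x) isOpen_univ
  have hxV' : x ∈ V := hxV
  haveI : Nonempty V := ⟨⟨x, hxV'⟩⟩
  letI : Algebra K Γ(X, V) := (secStr str V).toAlgebra
  haveI hsm : Algebra.Smooth K Γ(X, V) := secStr_smooth str hV
  haveI : Algebra.FinitePresentation K Γ(X, V) := hsm.finitePresentation
  haveI : Algebra.FiniteType K Γ(X, V) := Algebra.FiniteType.of_finitePresentation
  haveI : IsNoetherianRing Γ(X, V) := Algebra.FiniteType.isNoetherianRing K _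
  haveI : IsLocallyNoetherian X := LocallyOfFiniteType.isLocallyNoetherian str
  haveI : IsIntegrallyClosed Γ(X, V) :=
    IsIntegrallyClosed.of_localization_maximal (fun p _ _ => by
      obtain ⟨hd, hu⟩ := Fermat.Agent.S26.H445.ufd_of_smooth_localization K Γ(X, V) p
        (Localization.AtPrime p)
      exact UniqueFactorizationMonoid.instIsIntegrallyClosed)
  -- the maximal ideal
  set p : Ideal Γ(X, V) := (hV.primeIdealOf ⟨x, hxV'⟩).asIdeal with hp
  obtain ⟨m, hm, hpm⟩ := Ideal.exists_le_maximal p (hV.primeIdealOf ⟨x, hxV'⟩).isPrime.ne_top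
  haveI := hm
  obtain ⟨hd, hu⟩ := Fermat.Agent.S26.H445.ufd_of_smooth_localization K Γ(X, V) m
    (Localization.AtPrime m)
  obtain ⟨b, hbI, f, hfm, hf⟩ := exists_local_generator (vanIdeal U V) (vanIdeal_isRadical V) m
    (Localization.AtPrime m)
    (fun P hP _ => height_eq_one_of_mem_minimalPrimes_vanIdeal str hU hV P hP)
  -- `b ≠ 0`
  have hb0 : b ≠ 0 := by
    rintro rfl
    obtain ⟨u⟩ := ‹Nonempty U›
    have hgU : genericPoint X ∈ U :=
      ((genericPoint_spec X).mem_open_set_iff U.isOpen).2 ⟨u.1, Set.mem_univ _, u.2⟩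
    have hgV : genericPoint X ∈ V :=
      ((genericPoint_spec X).mem_open_set_iff V.isOpen).2 ⟨x, Set.mem_univ _, hxV'⟩
    obtain ⟨s, hsU, hgs⟩ := hV.exists_basicOpen_le (⟨genericPoint X, hgU⟩ : U) hgV
    have hs0 : s ≠ 0 := by
      rintro rfl
      rw [Scheme.basicOpen_zero] at hgs
      exact hgs
    obtain ⟨c, hc⟩ := hf s hsU
    rw [mul_zero] at hc
    rcases mul_eq_zero.1 hc with h | h
    · exact hfm (h ▸ m.zero_mem)
    · exact hs0 h
  refine ⟨X.basicOpen f, X.germToFunctionField V b, ?_, ?_, ?_⟩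
  · rw [mem_basicOpen_iff_notMem_primeIdealOf hV f hxV']
    exact fun h => hfm (hpm h)
  · intro h0
    apply hb0
    apply Scheme.germToFunctionField_injective X V
    rw [h0, map_zero]
  · intro y hy φ
    exact mem_vanSet_iff_of_chart hV b f hbI hb0 hf hy φ

end Smooth

section Assembly

/-- Equal principal fractional ideals have equal inverses. -/
theorem span1_inv_congr {X : Scheme.{u}} [IsIntegral X] {y : X} {φ ψ : X.functionField}
    (hφ : φ ≠ 0) (hψ : ψ ≠ 0) (h : LS.span1 φ y = LS.span1 ψ y) :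
    LS.span1 φ⁻¹ y = LS.span1 ψ⁻¹ y := by
  have h1 : Triv y (φ * ψ⁻¹) := by
    rw [triv_iff_span1_mul hψ]
    rw [← h]
    congr 1
    field_simp
  have h2 := (triv_iff_span1_mul (x := y) (inv_ne_zero hφ)).1 h1
  rw [← h2]
  congr 1
  field_simp

variable {K : Type u} [Field K] [IsAlgClosed K] {X : Scheme.{u}} [IsIntegral X]
  (str : X ⟶ Spec (CommRingCat.of K)) [Smooth str] [IsSeparated str]

include str in
/-- **The boundary divisor, intrinsic form.**  On a smooth separated integral scheme over an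
algebraically closed field, the ideal sheaf of the complement of a nonempty affine open `U` is
invertible: there is a Cartier divisor `D` whose inverse local generators generate
`vanSet U a` at every point `a`. -/
theorem exists_cdiv_vanSet (U : X.Opens) (hU : IsAffineOpen U) [Nonempty U] :
    ∃ D : CDiv X, ∀ (a : X) (φ : X.functionField),
      φ ∈ vanSet U a ↔ φ ∈ LS.span1 (D.gen a)⁻¹ a := by
  choose W π hxW hπ0 hgen using exists_chart_generator str U hU
  refine ⟨⟨fun x => (π x)⁻¹, fun x => inv_ne_zero (hπ0 x),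
    fun x => ⟨W x, hxW x, fun y hy => ?_⟩⟩, fun a φ => ?_⟩
  · have h1 : LS.span1 (π y) y = LS.span1 (π x) y := by
      ext φ
      rw [← hgen y y (hxW y) φ, ← hgen x y hy φ]
    exact span1_inv_congr (hπ0 y) (hπ0 x) h1
  · show φ ∈ vanSet U a ↔ φ ∈ LS.span1 ((π a)⁻¹)⁻¹ a
    rw [inv_inv]
    exact hgen a a (hxW a) φ

end Assembly

/-- **AM-BOUNDARY.**  The complement of a nonempty affine open of an abelian variety is the
support of an effective Cartier divisor. -/
theorem boundary (K : Type u) [Field K] [IsAlgClosed K] : Ample.Boundary K := by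
  intro X _ U hU hne
  haveI : Nonempty U := by
    obtain ⟨a, ha⟩ := hne
    exact ⟨⟨a, ha⟩⟩
  haveI : Smooth X.str := X.bundle.smooth
  haveI : IsProper X.str := X.bundle.proper
  obtain ⟨D, hD⟩ := exists_cdiv_vanSet X.str U hU
  have hin : ∀ a, InO a (D.gen a)⁻¹ := fun a =>
    inO_of_mem_vanSet ((hD a _).2 (self_mem_span1 _))
  refine ⟨D, fun a => ?_, fun a => ?_⟩
  · exact eff_of_inO_inv (D.gen_ne a) (hin a)
  · rw [← one_mem_vanSet_iff (U := U) (y := a), hD a 1]
    constructor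
    · intro h1
      have hT : Triv a (D.gen a)⁻¹ := triv_iff.2 ⟨hin a, h1⟩
      have := hT.inv
      rwa [inv_inv] at this
    · intro hT
      exact (triv_iff.1 hT.inv).2

end

end Fermat.Agent.S26.H126

end
-- ===== PACK-END S26/H126/Boundary.lean

-- ===== PACK-BEGIN S27/H386/PointDict.lean
section
/-
Row S27, block GRP (helper386): the dictionary between `A`-points of the Jacobian and gluing data.

`Rel Ch hrep A g G` : the gluing datum `G` over `A` is a datum of sections of the pull-back of the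
Poincaré bundle along the point `g : Spec A ⟶ J`.  From the S25 dictionary (`Dict Ch`):

* `rel_exists`  : every point has a datum, rigidifiable and of degree zero;
* `rel_surj`    : every rigidifiable datum of degree zero is the datum of a point;
* `rel_eq_iff`  : two points are equal iff their data are isomorphic;
* `rel_of_isIso`, `rel_bc` (base change), `rel_one` (the zero section ↔ the unit datum).
-/






set_option autoImplicit false

open CategoryTheory CategoryTheory.Limits AlgebraicGeometry AlgebraicGeometry.RelPicard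
  NeronModelInfra GoodReductionJacobian
open scoped TensorProduct

universe u

namespace Fermat.Agent.S27.H386

open Fermat.Agent.S25

variable {k : Type u} [Field k] {C : Scheme.{u}} {c : C ⟶ Spec (CommRingCat.of k)}
  {ε : SchemeHomOver (𝟙 (Spec (CommRingCat.of k))) c} (Ch : ChartOf c ε)

/-- The S25 dictionary, as one hypothesis. -/
structure Dict : Prop where
  sec : Stmt.DictSections Ch
  glue : Stmt.DictGlue Ch
  iso : Stmt.DictIso Ch
  bc : Stmt.DictBC Ch
  deg : Stmt.DictDeg Ch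
  unit : H687.DictUnit Ch

variable {Ch}

/-- `Corr` is invariant under isomorphisms of rigidified line bundles. -/
theorem corr_of_rIso (d : Dict Ch) {A : Type u} [CommRing A] [Algebra k A]
    {M M' : RigidifiedLineBundle c ε (specStr k A)} {G : CurveGD k Ch.B₀ Ch.B₁ Ch.B₀₁ A}
    (h : Corr Ch A M.L G) (hM : RIso M M') : Corr Ch A M'.L G := by
  obtain ⟨G', hG', -⟩ := d.sec A M'
  have h1 : G.IsIso G' := (d.iso A M M' G G' h hG').1 hM
  exact corr_of_isIso Ch A hG' (H265.isIso_symm h1)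

variable {D : RelativePic0Designation k c}
  (hrep : RepresentsRelSubPic c ε (algEquivZeroCut c ε) D)

variable (Ch) in
/-- `G` is a gluing datum of the point `g`. -/
def Rel (A : Type u) [CommRing A] [Algebra k A] (g : SchemeHomOver (specStr k A) D.toBase)
    (G : CurveGD k Ch.B₀ Ch.B₁ Ch.B₀₁ A) : Prop :=
  Corr Ch A (hrep.poincare.pullbackAlong g).L G

variable {hrep} {A : Type u} [CommRing A] [Algebra k A]

theorem faez_pullback (g : SchemeHomOver (specStr k A) D.toBase) :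
    FibrewiseAlgEquivZero (hrep.poincare.pullbackAlong g) :=
  (algEquivZeroCut c ε).pullback_mem _ _ g _ hrep.poincare_mem

theorem rel_of_isIso {g : SchemeHomOver (specStr k A) D.toBase}
    {G G' : CurveGD k Ch.B₀ Ch.B₁ Ch.B₀₁ A} (h : Rel Ch hrep A g G) (hG : G.IsIso G') :
    Rel Ch hrep A g G' :=
  corr_of_isIso Ch A h hG

theorem rel_exists (d : Dict Ch) (g : SchemeHomOver (specStr k A) D.toBase) :
    ∃ G : CurveGD k Ch.B₀ Ch.B₁ Ch.B₀₁ A, Rel Ch hrep A g G ∧ G.Rigidifiable Ch.e ∧ G.Deg0 := by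
  obtain ⟨G, hG, hr⟩ := d.sec A (hrep.poincare.pullbackAlong g)
  exact ⟨G, hG, hr, (d.deg A _ G hG).1 (faez_pullback g)⟩

theorem rel_rigidifiable (d : Dict Ch) {g : SchemeHomOver (specStr k A) D.toBase}
    {G : CurveGD k Ch.B₀ Ch.B₁ Ch.B₀₁ A} (h : Rel Ch hrep A g G) : G.Rigidifiable Ch.e := by
  obtain ⟨G', hG', hr⟩ := d.sec A (hrep.poincare.pullbackAlong g)
  have h1 : G'.IsIso G := (d.iso A _ _ G' G hG' h).1 ⟨Iso.refl _⟩
  exact H265.rigidifiable_of_isIso h1 hr

theorem rel_deg0 (d : Dict Ch) {g : SchemeHomOver (specStr k A) D.toBase}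
    {G : CurveGD k Ch.B₀ Ch.B₁ Ch.B₀₁ A} (h : Rel Ch hrep A g G) : G.Deg0 :=
  (d.deg A _ G h).1 (faez_pullback g)

theorem rel_surj (d : Dict Ch) (G : CurveGD k Ch.B₀ Ch.B₁ Ch.B₀₁ A) (hr : G.Rigidifiable Ch.e)
    (h0 : G.Deg0) : ∃ g : SchemeHomOver (specStr k A) D.toBase, Rel Ch hrep A g G := by
  obtain ⟨M, hM⟩ := d.glue A G hr
  have hF : FibrewiseAlgEquivZero M := (d.deg A M G hM).2 h0
  obtain ⟨e⟩ := hrep.classify_spec (specStr k A) M hF
  exact ⟨hrep.classify (specStr k A) M hF, corr_of_rIso d hM ⟨e.symm⟩⟩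

theorem rel_eq_iff (d : Dict Ch) {g g' : SchemeHomOver (specStr k A) D.toBase}
    {G G' : CurveGD k Ch.B₀ Ch.B₁ Ch.B₀₁ A} (h : Rel Ch hrep A g G) (h' : Rel Ch hrep A g' G') :
    g = g' ↔ G.IsIso G' := by
  constructor
  · rintro rfl
    exact (d.iso A _ _ G G' h h').1 ⟨Iso.refl _⟩
  · intro hG
    exact hrep.ext_of_iso (specStr k A) g g' ((d.iso A _ _ G G' h h').2 hG)

theorem rel_bc (d : Dict Ch) {A' : Type u} [CommRing A'] [Algebra k A'] (φ : A →ₐ[k] A')
    {g : SchemeHomOver (specStr k A) D.toBase} {G : CurveGD k Ch.B₀ Ch.B₁ Ch.B₀₁ A}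
    {G' : CurveGD k Ch.B₀ Ch.B₁ Ch.B₀₁ A'} (h : Rel Ch hrep A g G) (hG : CurveGD.IsBC φ G G') :
    Rel Ch hrep A' (postComp g (specHomOver k φ)) G' := by
  have h1 := d.bc A A' φ (hrep.poincare.pullbackAlong g) G G' h hG
  exact corr_of_rIso d h1
    (H327.rIso_symm (H327.rIso_pullbackAlong_comp hrep.poincare g (specHomOver k φ)))

variable (D) (A) in
/-- The zero point over `A`. -/
noncomputable def onePt : SchemeHomOver (specStr k A) D.toBase :=
  ⟨specStr k A ≫ D.zeroSection, by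
    rw [Category.assoc, D.zeroSection_toBase, Category.comp_id]⟩

/-- The pull-back of the Poincaré bundle along the zero point is trivial. -/
theorem rIso_pullback_onePt :
    RIso (hrep.poincare.pullbackAlong (onePt D A))
      (RigidifiedLineBundle.unit (c := c) (ε := ε) (specStr k A)) := by
  let z₀ : SchemeHomOver (𝟙 (Spec (CommRingCat.of k))) D.toBase :=
    ⟨D.zeroSection, D.zeroSection_toBase⟩
  let τ : SchemeHomOver (specStr k A) (𝟙 (Spec (CommRingCat.of k))) :=
    ⟨specStr k A, Category.comp_id _⟩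
  have hg : onePt D A = postComp z₀ τ := Subtype.ext rfl
  rw [hg]
  have h1 := H327.rIso_pullbackAlong_comp hrep.poincare z₀ τ
  obtain ⟨e₂⟩ := RigidifiedLineBundle.pullbackAlong_congr τ hrep.zero
  have h3 : RIso ((RigidifiedLineBundle.unit (c := c) (ε := ε)
      (𝟙 (Spec (CommRingCat.of k)))).pullbackAlong τ)
      (RigidifiedLineBundle.unit (c := c) (ε := ε) (specStr k A)) :=
    ⟨Scheme.Modules.pullbackUnitIso _⟩
  exact H327.rIso_trans h1 (H327.rIso_trans ⟨e₂⟩ h3)

theorem rel_one (d : Dict Ch) :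
    Rel Ch hrep A (onePt D A)
      (GlueDatum.unit A (A ⊗[k] Ch.B₀) (A ⊗[k] Ch.B₁) (A ⊗[k] Ch.B₀₁)) :=
  corr_of_rIso d (d.unit A) (H327.rIso_symm rIso_pullback_onePt)

end Fermat.Agent.S27.H386

end
-- ===== PACK-END S27/H386/PointDict.lean

-- ===== PACK-BEGIN S13/H365/NodeKer.lean
section



/-!
# Kernel of the component map, torsion near the node, nonsingularity away from the node

Everything is valid in every residue characteristic (no hypothesis on `v 2`).
-/

set_option autoImplicit false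
set_option linter.unusedSectionVars false

namespace Fermat.Agent.S13.H365

open WeierstrassCurve WeierstrassCurve.Affine
open Fermat.Agent.S05.Comp (cls cls_mul cls_alpha_sq cls_alpha_mul_self cls_alpha_inv CompGroup
  cls_alpha_ne_one exists_zpow_of_cls_eq_one exists_pow_of_zpow toU_pow toU)
open Fermat.Agent.S05.SameRed

variable {K : Type*} [Field K] {Γ₀ : Type*} [LinearOrderedCommGroupWithZero Γ₀]
  {v : Valuation K Γ₀}

/-- The class of an element strictly between `v a` and `1` is nontrivial. -/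
lemma cls_ne_one_of_mid {a : K} (ha0 : a ≠ 0) (ha : v a < 1) {g : Γ₀} (hlo : v a < g)
    (hhi : g < 1) : cls v a g ≠ 1 := by
  intro h
  have h0 : v a ≠ 0 := (Valuation.ne_zero_iff v).mpr ha0
  have hpos : 0 < v a := zero_lt_iff.mpr h0
  have hg0 : g ≠ 0 := (hpos.trans hlo).ne'
  have hsq0 : v a ^ 2 ≠ 0 := pow_ne_zero 2 h0
  have hsq1 : v a ^ 2 < 1 := pow_lt_one₀ zero_le ha (by norm_num)
  obtain ⟨k, hk⟩ := exists_zpow_of_cls_eq_one ha0 hg0 h
  obtain ⟨j, hj⟩ := exists_pow_of_zpow hsq0 hsq1 hhi hk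
  rcases Nat.eq_zero_or_pos j with h0j | hjpos
  · rw [h0j, pow_zero] at hj
    exact hhi.ne hj
  · have h1 : (v a ^ 2) ^ j ≤ v a ^ 2 := pow_le_of_le_one zero_le hsq1.le hjpos.ne'
    have h2 : v a ^ 2 < v a := by
      calc v a ^ 2 = v a * v a := pow_two _
        _ < v a * 1 := mul_lt_mul_of_pos_left ha hpos
        _ = v a := mul_one _
    rw [← hj] at h1
    exact absurd (h1.trans_lt h2) (not_lt.mpr hlo.le)

lemma cls_pow {a : K} {g : Γ₀} (hg : g ≠ 0) (n : ℕ) : cls v a (g ^ n) = cls v a g ^ n := by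
  rw [cls, cls, toU_pow hg]; rfl

namespace NodeModel

variable {W : Affine K}

/-- The points with nonsingular reduction (relative to the node `(e, f)`). -/
def InE0 (M : NodeModel v W) : W.Point → Prop
  | .zero => True
  | .some x _ _ => 1 ≤ v (x - M.e)

@[simp] lemma inE0_zero (M : NodeModel v W) : M.InE0 0 := trivial

@[simp] lemma inE0_some (M : NodeModel v W) {x y : K} (h : W.Nonsingular x y) :
    M.InE0 (Point.some x y h) ↔ 1 ≤ v (x - M.e) := Iff.rfl

lemma comp_some_eq_one_iff (M : NodeModel v W) {x y : K} (h : W.Nonsingular x y) :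
    M.comp (Point.some x y h) = 1 ↔ 1 ≤ v (x - M.e) := by
  rw [M.comp_some]
  constructor
  · intro hc
    by_contra hlt
    rw [not_le] at hlt
    rcases compN_cases M.hδ M.ha ((M.equation_iff x y).mp h.1) with ⟨hZ, -⟩ | ⟨hM, e⟩ |
      ⟨hlo, hhi, -, e⟩ | ⟨hlo, hhi, -, e⟩
    · exact absurd hZ (not_le.mpr hlt)
    · rw [e] at hc; exact cls_alpha_ne_one M.ha0 M.ha hc
    · rw [e] at hc; exact cls_ne_one_of_mid M.ha0 M.ha hlo hhi hc
    · rw [e, inv_eq_one] at hc; exact cls_ne_one_of_mid M.ha0 M.ha hlo hhi hc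
  · intro hZ; exact compN_of_Z hZ

/-- **The kernel of the component map is `E₀`.** -/
theorem comp_eq_one_iff (M : NodeModel v W) (P : W.Point) : M.comp P = 1 ↔ M.InE0 P := by
  rcases P with _ | ⟨x, y, h⟩
  · exact ⟨fun _ => trivial, fun _ => rfl⟩
  · exact M.comp_some_eq_one_iff h

variable [DecidableEq K]

/-- `E₀` is a subgroup: closed under addition. -/
theorem inE0_add (M : NodeModel v W) {P Q : W.Point} (hP : M.InE0 P) (hQ : M.InE0 Q) :
    M.InE0 (P + Q) := by
  rw [← comp_eq_one_iff] at *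
  rw [M.comp_add, hP, hQ, one_mul]

theorem inE0_neg (M : NodeModel v W) {P : W.Point} (hP : M.InE0 P) : M.InE0 (-P) := by
  rw [← comp_eq_one_iff] at *
  rw [M.comp_neg, hP, inv_one]

theorem inE0_sub (M : NodeModel v W) {P Q : W.Point} (hP : M.InE0 P) (hQ : M.InE0 Q) :
    M.InE0 (P - Q) := by
  rw [← comp_eq_one_iff] at *
  rw [M.comp_sub, hP, hQ, inv_one, one_mul]

/-- If two points have the same component, their difference lies in `E₀`. -/
theorem inE0_sub_of_comp_eq (M : NodeModel v W) {P Q : W.Point} (h : M.comp P = M.comp Q) :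
    M.InE0 (P - Q) := by
  rw [← comp_eq_one_iff, M.comp_sub, h, mul_inv_cancel]

/-- **(C3c) without `v 2 = 1`.** An odd-torsion point reducing to the node has `v (x - e)`
strictly between `v a` and `1`, and `v (x - e) ^ n` is an even power of `v a`. -/
theorem torsion_near_node (M : NodeModel v W) {n : ℕ} (hn : Odd n) {x y : K}
    (h : W.Nonsingular x y) (hP : n • Point.some x y h = 0) (hx : v (x - M.e) < 1) :
    v M.a < v (x - M.e) ∧ ∃ j : ℕ, v (x - M.e) ^ n = v M.a ^ (2 * j) := by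
  have h0 : v M.a ≠ 0 := (Valuation.ne_zero_iff v).mpr M.ha0
  have hμ : 0 < v M.a := zero_lt_iff.mpr h0
  have hc : M.comp (Point.some x y h) ^ n = 1 := by
    rw [← M.comp_nsmul, hP, comp_zero]
  rw [comp_some] at hc
  have hE := (M.equation_iff x y).mp h.1
  have hsq0 : v M.a ^ 2 ≠ 0 := pow_ne_zero 2 h0
  have hsq1 : v M.a ^ 2 < 1 := pow_lt_one₀ zero_le M.ha (by norm_num)
  have hnpos : 0 < n := hn.pos
  -- the main computation for a middle-range point
  have main : v M.a < v (x - M.e) → cls v M.a (v (x - M.e)) ^ n = 1 →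
      ∃ j : ℕ, v (x - M.e) ^ n = v M.a ^ (2 * j) := by
    intro hlo hcls
    have hr0 : v (x - M.e) ≠ 0 := (hμ.trans hlo).ne'
    have hrn0 : v (x - M.e) ^ n ≠ 0 := pow_ne_zero n hr0
    have hcls' : cls v M.a (v (x - M.e) ^ n) = 1 := by
      rw [cls_pow hr0, hcls]
    obtain ⟨k, hk⟩ := exists_zpow_of_cls_eq_one M.ha0 hrn0 hcls'
    have hlt : v (x - M.e) ^ n < 1 := pow_lt_one₀ zero_le hx hnpos.ne'
    obtain ⟨j, hj⟩ := exists_pow_of_zpow hsq0 hsq1 hlt hk
    exact ⟨j, by rw [hj, ← pow_mul]⟩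
  rcases compN_cases M.hδ M.ha hE with ⟨hZ, -⟩ | ⟨hM, e⟩ | ⟨hlo, hhi, -, e⟩ |
    ⟨hlo, hhi, -, e⟩
  · exact absurd hZ (not_le.mpr hx)
  · exfalso
    rw [e] at hc
    obtain ⟨m, rfl⟩ := hn
    have hsq : cls v M.a (v M.a) ^ 2 = 1 :=
      (pow_two _).trans (cls_alpha_mul_self v M.a M.ha0)
    rw [pow_succ, pow_mul, hsq, one_pow, one_mul] at hc
    exact cls_alpha_ne_one M.ha0 M.ha hc
  · rw [e] at hc
    exact ⟨hlo, main hlo hc⟩
  · rw [e, inv_pow, inv_eq_one] at hc
    exact ⟨hlo, main hlo hc⟩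

/-- The tangent slopes of an integral model are integral. -/
lemma val_γ₁_le_one (M : NodeModel v W) (hW : IntegralCoeffs W v) (he : v M.e ≤ 1) :
    v M.γ₁ ≤ 1 := by
  by_contra hcon
  rw [not_le] at hcon
  have h0 : (0 : Γ₀) < v M.γ₁ := lt_trans zero_lt_one hcon
  have hsq : M.γ₁ ^ 2 = -(W.a₁ * M.γ₁) + (W.a₂ + 3 * M.e) := by
    linear_combination M.γ₁ * M.hsum - M.hprod
  have h3 : v (3 : K) ≤ 1 := by
    have : (3 : K) = 2 + 1 := by norm_num
    rw [this]; exact val_add_le_one val_two_le_one (by rw [map_one])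
  have hlt : v M.γ₁ < v (M.γ₁ ^ 2) := by
    rw [map_pow, pow_two]; exact lt_mul_of_one_lt_left h0 hcon
  have hle : v (-(W.a₁ * M.γ₁) + (W.a₂ + 3 * M.e)) ≤ v M.γ₁ := by
    refine (v.map_add _ _).trans (max_le ?_ ?_)
    · rw [Valuation.map_neg, map_mul]; exact mul_le_of_le_one_left' hW.a₁
    · exact (val_add_le_one hW.a₂ (val_mul_le_one h3 he)).trans hcon.le
  rw [← hsq] at hle
  exact absurd hle (not_le.mpr hlt)

/-- The model with the two branches exchanged. -/
def swap (M : NodeModel v W) : NodeModel v W where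
  e := M.e
  f := M.f
  γ₁ := M.γ₂
  γ₂ := M.γ₁
  a := M.a
  h2tors := M.h2tors
  hon := M.hon
  hsum := by rw [add_comm]; exact M.hsum
  hprod := by rw [mul_comm]; exact M.hprod
  ha_def := M.ha_def
  hδ := by rw [Valuation.map_sub_swap]; exact M.hδ
  ha := M.ha
  ha0 := M.ha0

lemma val_γ₂_le_one (M : NodeModel v W) (hW : IntegralCoeffs W v) (he : v M.e ≤ 1) :
    v M.γ₂ ≤ 1 :=
  M.swap.val_γ₁_le_one hW he

omit [DecidableEq K] in
/-- First identity behind the nonsingularity lemma. -/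
lemma ns_id₁ (M : NodeModel v W) (x y : K) :
    (x - M.e) * ((M.γ₁ - M.γ₂) ^ 2 + 6 * (x - M.e)) =
      W.a₁ * (2 * y + W.a₁ * x + W.a₃)
        - 2 * (W.a₁ * y - (3 * x ^ 2 + 2 * W.a₂ * x + W.a₄)) - 2 * M.a := by
  rw [M.a₄_eq, M.a₃_eq, M.a₂_eq, M.a₁_eq]
  ring

omit [DecidableEq K] in
/-- Second identity behind the nonsingularity lemma. -/
lemma ns_id₂ (M : NodeModel v W) {x y : K} (h : W.Equation x y) :
    (x - M.e) ^ 2 * ((M.γ₁ - M.γ₂) ^ 2 + 4 * (x - M.e)) =
      (2 * y + W.a₁ * x + W.a₃) ^ 2 - 4 * M.a * (x - M.e) := by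
  have hE := (M.equation_iff x y).mp h
  rw [M.a₃_eq, M.a₁_eq]
  linear_combination (-4) * hE

/-- **Nonsingular reduction away from the node**: at an integral point whose `x`-coordinate
is not congruent to `e`, one of the two partial derivatives is a unit. -/
theorem nonsingular_red (M : NodeModel v W) (hW : IntegralCoeffs W v) {x y : K}
    (h : W.Equation x y) (hx : v x ≤ 1) (hy : v y ≤ 1) (hξ : v (x - M.e) = 1) :
    v (W.a₁ * y - (3 * x ^ 2 + 2 * W.a₂ * x + W.a₄)) = 1 ∨
      v (2 * y + W.a₁ * x + W.a₃) = 1 := by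
  have h2 : v (2 : K) ≤ 1 := val_two_le_one
  have h3 : v (3 : K) ≤ 1 := by
    have : (3 : K) = 2 + 1 := by norm_num
    rw [this]; exact val_add_le_one h2 (by rw [map_one])
  have h4 : v (4 : K) ≤ 1 := val_four_le_one
  have h6 : v (6 : K) ≤ 1 := by
    have : (6 : K) = 2 * 3 := by norm_num
    rw [this]; exact val_mul_le_one h2 h3
  have hX : v (W.a₁ * y - (3 * x ^ 2 + 2 * W.a₂ * x + W.a₄)) ≤ 1 := by
    apply val_sub_le_one (val_mul_le_one hW.a₁ hy)
    apply val_add_le_one (val_add_le_one _ _) hW.a₄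
    · exact val_mul_le_one h3 (by rw [map_pow]; exact pow_le_one' hx 2)
    · exact val_mul_le_one (val_mul_le_one h2 hW.a₂) hx
  have hY : v (2 * y + W.a₁ * x + W.a₃) ≤ 1 :=
    val_add_le_one (val_add_le_one (val_mul_le_one h2 hy) (val_mul_le_one hW.a₁ hx)) hW.a₃
  by_contra hcon
  rw [not_or] at hcon
  have hX' : v (W.a₁ * y - (3 * x ^ 2 + 2 * W.a₂ * x + W.a₄)) < 1 := lt_of_le_of_ne hX hcon.1
  have hY' : v (2 * y + W.a₁ * x + W.a₃) < 1 := lt_of_le_of_ne hY hcon.2
  have hδ2 : v ((M.γ₁ - M.γ₂) ^ 2) = 1 := by rw [map_pow, M.hδ, one_pow]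
  -- from the second identity: `δ² + 4 ξ` is small
  have s2 : v ((M.γ₁ - M.γ₂) ^ 2 + 4 * (x - M.e)) < 1 := by
    have hR : v ((2 * y + W.a₁ * x + W.a₃) ^ 2 - 4 * M.a * (x - M.e)) < 1 := by
      rw [sub_eq_add_neg]
      apply val_add_lt_one
      · rw [pow_two]; exact val_mul_lt_one_left hY' hY
      · rw [Valuation.map_neg]
        exact val_mul_lt_one_left (val_mul_lt_one_right h4 M.ha) hξ.le
    rw [← M.ns_id₂ h, map_mul, map_pow, hξ, one_pow, one_mul] at hR
    exact hR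
  -- from the first identity: `δ² + 6 ξ` is small
  have s1 : v ((M.γ₁ - M.γ₂) ^ 2 + 6 * (x - M.e)) < 1 := by
    have hR : v (W.a₁ * (2 * y + W.a₁ * x + W.a₃)
        - 2 * (W.a₁ * y - (3 * x ^ 2 + 2 * W.a₂ * x + W.a₄)) - 2 * M.a) < 1 := by
      rw [sub_eq_add_neg, sub_eq_add_neg]
      apply val_add_lt_one (val_add_lt_one _ _) _
      · exact val_mul_lt_one_right hW.a₁ hY'
      · rw [Valuation.map_neg]; exact val_mul_lt_one_right h2 hX'
      · rw [Valuation.map_neg]; exact val_mul_lt_one_right h2 M.ha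
    rw [← M.ns_id₁ x y, map_mul, hξ, one_mul] at hR
    exact hR
  -- hence `2 ξ` is small, so `2` is small, so `δ²` is small
  have s3 : v (2 * (x - M.e)) < 1 := by
    have : 2 * (x - M.e) = ((M.γ₁ - M.γ₂) ^ 2 + 6 * (x - M.e))
        + -((M.γ₁ - M.γ₂) ^ 2 + 4 * (x - M.e)) := by ring
    rw [this]
    exact val_add_lt_one s1 (by rwa [Valuation.map_neg])
  have s4 : v (4 * (x - M.e)) < 1 := by
    have : 4 * (x - M.e) = 2 * (2 * (x - M.e)) := by ring
    rw [this]; exact val_mul_lt_one_right h2 s3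
  have s5 : v ((M.γ₁ - M.γ₂) ^ 2) < 1 := by
    have : (M.γ₁ - M.γ₂) ^ 2 = ((M.γ₁ - M.γ₂) ^ 2 + 4 * (x - M.e)) + -(4 * (x - M.e)) := by
      ring
    rw [this]
    exact val_add_lt_one s2 (by rwa [Valuation.map_neg])
  rw [hδ2] at s5
  exact lt_irrefl _ s5

end NodeModel

end Fermat.Agent.S13.H365

end
-- ===== PACK-END S13/H365/NodeKer.lean

-- ===== PACK-BEGIN S31/H862/Positive.lean
section



/-!
# S31 / SS (helper862) — the Petersson pairing is positive definite on cusp forms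
-/

set_option autoImplicit false

open UpperHalfPlane CongruenceSubgroup MeasureTheory Matrix.SpecialLinearGroup
open scoped MatrixGroups ModularForm ComplexConjugate ENNReal NNReal

namespace Fermat.Agent.S31.H862

/-- The invariant measure on `ℍ` is positive on nonempty open sets. -/
theorem isOpenPosMeasure_uhp : (volume : Measure ℍ).IsOpenPosMeasure := by
  refine ⟨fun U hU hne hzero => ?_⟩
  rw [UpperHalfPlane.volume_eq_lintegral] at hzero
  have hopen : IsOpen ((↑) '' U : Set ℂ) := isOpenEmbedding_coe.isOpenMap U hU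
  have hmeas : Measurable fun z : ℂ => ((↑((1 / ‖z.im‖₊) ^ 2 : NNReal) : ℝ≥0∞)) := by
    fun_prop
  rw [lintegral_eq_zero_iff hmeas, Filter.EventuallyEq, ae_restrict_iff' hopen.measurableSet]
    at hzero
  have h2 : ∀ᵐ z : ℂ, z ∉ ((↑) '' U : Set ℂ) := by
    filter_upwards [hzero] with z hz hzU
    have h3 := hz hzU
    obtain ⟨w, -, rfl⟩ := hzU
    have him : (0 : ℝ) < (w : ℂ).im := w.im_pos
    simp only [Pi.zero_apply, ENNReal.coe_eq_zero] at h3
    have h5 := pow_eq_zero_iff (two_ne_zero) |>.mp h3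
    rw [one_div, inv_eq_zero, nnnorm_eq_zero] at h5
    exact him.ne' h5
  have h4 : volume ((↑) '' U : Set ℂ) = 0 := by
    rw [← compl_compl ((↑) '' U : Set ℂ)]
    exact h2
  exact (hopen.measure_ne_zero volume (hne.image _)) h4

section

variable (N : ℕ) [NeZero N]

theorem petersson_self (f : ℍ → ℂ) (z : ℍ) :
    petersson 2 f f z = ((nrm f z ^ 2 : ℝ) : ℂ) := by
  simp only [petersson, nrm]
  rw [zpow_ofNat, mul_comm (conj (f z)), Complex.mul_conj, Complex.normSq_eq_norm_sq]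
  push_cast
  ring

theorem continuous_nrm {f : ℍ → ℂ} (hf : Continuous f) : Continuous (nrm f) :=
  (continuous_norm.comp hf).mul UpperHalfPlane.continuous_im

theorem nrm_smul_of_slash_eq {f : ℍ → ℂ} {δ : GL (Fin 2) ℝ} (h : f ∣[(2 : ℤ)] δ = f) (z : ℍ) :
    nrm f (δ • z) = nrm f z := by
  rw [← nrm_slash, h]

theorem eq_zero_of_pet_self_eq_zero {f : ℍ → ℂ} (hf : Nice f)
    (hinv : ∀ γ : Gamma0 N, f ∣[(2 : ℤ)] (mapGL ℝ (γ : SL(2, ℤ))) = f)
    (h0 : pet N f f = 0) : f = 0 := by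
  have := isOpenPosMeasure_uhp
  have hint : Integrable (fun z : ℍ => nrm f z ^ 2 * wt N z) volume := by
    have := integrable_pint (integrable_wt N) hf hf
    have h2 : (fun z : ℍ => petersson 2 f f z * (wt N z : ℂ)) =
        fun z : ℍ => ((nrm f z ^ 2 * wt N z : ℝ) : ℂ) := by
      funext z
      rw [petersson_self]
      push_cast
      ring
    rw [h2] at this
    exact this.re.congr (Filter.Eventually.of_forall fun z => by
      simp only [RCLike.re_to_complex, Complex.ofReal_re])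
  have h1 : ∫ z : ℍ, nrm f z ^ 2 * wt N z = 0 := by
    have h2 : pet N f f = ((∫ z : ℍ, nrm f z ^ 2 * wt N z : ℝ) : ℂ) := by
      unfold pet pint
      rw [← integral_complex_ofReal]
      refine integral_congr_ae (Filter.Eventually.of_forall fun z => ?_)
      simp only [petersson_self]
      push_cast
      ring
    rw [h2] at h0
    exact_mod_cast h0
  have hnn : 0 ≤ fun z : ℍ => nrm f z ^ 2 * wt N z :=
    fun z => mul_nonneg (sq_nonneg _) (wt_nonneg N z)
  have hae := (integral_eq_zero_iff_of_nonneg hnn hint).mp h1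
  have hcont : Continuous fun z : ℍ => nrm f z ^ 2 * wt N z :=
    ((continuous_nrm hf.cont).pow 2).mul (continuous_wt N)
  have hall : (fun z : ℍ => nrm f z ^ 2 * wt N z) = 0 :=
    (Continuous.ae_eq_iff_eq volume hcont continuous_const).mp hae
  funext z
  obtain ⟨γ, hγ⟩ : ∃ γ : Gamma0 N, wt N ((γ : SL(2, ℤ)) • z) ≠ 0 := by
    by_contra hcon
    push Not at hcon
    have h := hasSum_wt N z
    simp only [hcon] at h
    exact zero_ne_one (h.unique hasSum_zero).symm
  have h3 := congrFun hall ((γ : SL(2, ℤ)) • z)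
  simp only [Pi.zero_apply, mul_eq_zero, hγ, or_false] at h3
  replace h3 := pow_eq_zero_iff (two_ne_zero) |>.mp h3
  have h4 : nrm f ((mapGL ℝ (γ : SL(2, ℤ))) • z) = nrm f z := nrm_smul_of_slash_eq (hinv γ) z
  have h5 : nrm f z = 0 := by
    rw [← h4]
    exact h3
  rw [nrm, mul_eq_zero] at h5
  rcases h5 with h5 | h5
  · simpa using h5
  · exact absurd h5 z.im_pos.ne'

end

end Fermat.Agent.S31.H862

end
-- ===== PACK-END S31/H862/Positive.lean

-- ===== PACK-BEGIN S36/H193/LabelWall.lean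
section


/-!
# S36 engine, leaf CLOPEN (helper193), part 4: the label wall (constant labels ⇒ trivial cover)

Setting of `ClopenGraph.lean` for the cover field `Z` (finite separated set of sheets `𝒲`, radical
`q`-expansion principle for the three charts of `Z`, `R` integrally closed in `Z`), and a base
field `F ⊆ Z` with `Z / F` finite Galois, `𝒲` stable under `Gal (Z / F)`.

`m` is invertible in `R`, `ζ ∈ R` a primitive `m`-th root of unity, `G ∈ Z` with `G ^ m ∈ F` and
`G ^ m ≡ 1` on every sheet (`G ^ m` is *split*).  Every sheet `W` then carries a *label*: the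
unique `ζ ^ a` with `G ≡ ζ ^ a` on `W` (`exists_label`, `label_unique`).

**Theorem** (`kummer_wall3`).  Let `κ` be a function on the sheets of `F` (the *colours*).  If for
any two sheets `W, W'` of `Z` through a common closed point of the special fibre the normalised
labels agree, `label W / ζ ^ κ (colour W) = label W' / ζ ^ κ (colour W')`, then `G ∈ F`.

No reducedness of the special fibre is used, and any number of sheets may pass through a closed
point.  (Level `q²`: colours `FF, mid, VV`; the local hypothesis is "purity + norm compatibility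
of the label ratios + COUNT".)
-/

set_option autoImplicit false
set_option linter.style.haveILetI false

namespace Fermat.Agent.S36.H193

open Polynomial Fermat.Agent.S18.H138

section Labels

variable {Z : Type*} [Field Z]

theorem nu_mem_of_pow (W : ValuationSubring Z) {a : Z} {n : ℕ} (hn : n ≠ 0) (h : a ^ n ∈ W) :
    a ∈ W := by
  rw [← W.valuation_le_one_iff] at h ⊢
  rw [map_pow] at h
  exact (pow_le_one_iff_of_nonneg zero_le hn).1 h

/-- In a finite product of elements of `W` lying in the maximal ideal, some factor lies in the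
maximal ideal. -/
theorem nu_exists_of_prod (W : ValuationSubring Z) {ι : Type*} (s : Finset ι) (f : ι → Z)
    (hf : ∀ i ∈ s, f i ∈ W) (h : ∏ i ∈ s, f i ∈ W.nonunits) : ∃ i ∈ s, f i ∈ W.nonunits := by
  classical
  induction s using Finset.induction_on with
  | empty =>
    rw [Finset.prod_empty] at h
    exact absurd h (nu_one_not W)
  | insert a s ha ih =>
    rw [Finset.prod_insert ha] at h
    by_cases h1 : f a ∈ W.nonunits
    · exact ⟨a, Finset.mem_insert_self a s, h1⟩
    · by_cases h2 : ∏ i ∈ s, f i ∈ W.nonunits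
      · obtain ⟨i, hi, hfi⟩ := ih (fun i hi => hf i (Finset.mem_insert_of_mem hi)) h2
        exact ⟨i, Finset.mem_insert_of_mem hi, hfi⟩
      · exact absurd h (nu_unit_mul W (hf a (Finset.mem_insert_self a s))
          (W.prod_mem fun i hi => hf i (Finset.mem_insert_of_mem hi)) h1 h2)

/-- A root of unity `≠ 1` of order dividing `m`, `m` invertible in `W`, is not `≡ 1`. -/
theorem zeta_sub_one_not_mem (W : ValuationSubring Z) {m : ℕ} {μ : Z} (hμW : μ ∈ W)
    (hμ : μ * (m : Z) = 1) {ξ : Z} (hξW : ξ ∈ W) (hξm : ξ ^ m = 1) (hne : ξ ≠ 1) :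
    ξ - 1 ∉ W.nonunits := by
  intro h
  have hsum : ∑ i ∈ Finset.range m, ξ ^ i = 0 := by
    have h2 : (ξ - 1) * ∑ i ∈ Finset.range m, ξ ^ i = 0 := by
      rw [mul_geom_sum, hξm, sub_self]
    rcases mul_eq_zero.1 h2 with h3 | h3
    · exact absurd (sub_eq_zero.1 h3) hne
    · exact h3
  have hpow : ∀ i : ℕ, ξ ^ i - 1 ∈ W.nonunits := by
    intro i
    rw [← mul_geom_sum]
    exact nu_mul_right W h (W.sum_mem fun j _ => W.pow_mem hξW j)
  have h4 : ∑ i ∈ Finset.range m, (ξ ^ i - 1) ∈ W.nonunits :=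
    nu_sum W _ _ fun i _ => hpow i
  rw [Finset.sum_sub_distrib, hsum, zero_sub] at h4
  simp only [Finset.sum_const, Finset.card_range, nsmul_eq_mul, mul_one] at h4
  have h5 : (m : Z) ∈ W.nonunits := by
    have := nu_neg W h4
    rwa [neg_neg] at this
  have h6 := nu_mul_left W h5 hμW
  rw [hμ] at h6
  exact nu_one_not W h6

/-- **Existence of the label**: if `G ^ m ≡ 1` on `W` then `G ≡ ζ ^ a` on `W` for some `a < m`. -/
theorem exists_label (W : ValuationSubring Z) {m : ℕ} (hm : 0 < m) {ζ : Z}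
    (hζ : IsPrimitiveRoot ζ m) (hζW : ζ ∈ W) {G : Z} (hG : G ^ m - 1 ∈ W.nonunits) :
    ∃ a < m, G - ζ ^ a ∈ W.nonunits := by
  have hGW : G ∈ W := by
    refine nu_mem_of_pow W hm.ne' ?_
    have : G ^ m = (G ^ m - 1) + 1 := by ring
    rw [this]
    exact W.add_mem _ _ (nu_mem W hG) W.one_mem
  have hprod : G ^ m - 1 = ∏ i ∈ Finset.range m, (G - ζ ^ i) := by
    have h := X_pow_sub_C_eq_prod hζ hm (one_pow m)
    have h2 := congrArg (fun p : Z[X] => p.eval G) h
    simp only [eval_sub, eval_pow, eval_X, eval_C, eval_prod, mul_one] at h2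
    exact h2
  rw [hprod] at hG
  obtain ⟨i, hi, h⟩ := nu_exists_of_prod W _ _
    (fun i _ => W.sub_mem hGW (W.pow_mem hζW i)) hG
  exact ⟨i, Finset.mem_range.1 hi, h⟩

/-- **Uniqueness of the label.** -/
theorem label_unique (W : ValuationSubring Z) {m : ℕ} {μ : Z} (hμW : μ ∈ W)
    (hμ : μ * (m : Z) = 1) {ζ : Z} (hζm : ζ ^ m = 1) (hζW : ζ ∈ W) {G : Z} {a b : ℕ}
    (ha : G - ζ ^ a ∈ W.nonunits) (hb : G - ζ ^ b ∈ W.nonunits) : ζ ^ a = ζ ^ b := by
  by_contra hne
  have hζ0 : ζ ≠ 0 := by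
    rintro rfl
    have hm0 : m ≠ 0 := by
      rintro rfl
      simp at hμ
    rw [zero_pow hm0] at hζm
    exact zero_ne_one hζm
  have hb0 : ζ ^ b ≠ 0 := pow_ne_zero _ hζ0
  -- `(ζ ^ b)⁻¹ = ζ ^ (b (m - 1))`
  have hinv : (ζ ^ b)⁻¹ = ζ ^ (b * (m - 1)) := by
    apply inv_eq_of_mul_eq_one_left
    rw [← pow_add]
    have hm1 : 1 ≤ m := by
      rcases Nat.eq_zero_or_pos m with h0 | h0
      · subst h0
        simp at hμ
      · exact h0
    have : b * (m - 1) + b = m * b := by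
      have : m - 1 + 1 = m := Nat.sub_add_cancel hm1
      calc b * (m - 1) + b = b * (m - 1 + 1) := by ring
        _ = m * b := by rw [this, mul_comm]
    rw [this, pow_mul, hζm, one_pow]
  set ξ : Z := ζ ^ a * (ζ ^ b)⁻¹ with hξ
  have hξW : ξ ∈ W := by
    rw [hξ, hinv]
    exact W.mul_mem _ _ (W.pow_mem hζW a) (W.pow_mem hζW _)
  have hξm : ξ ^ m = 1 := by
    rw [hξ, mul_pow, inv_pow, ← pow_mul, ← pow_mul, mul_comm a m, mul_comm b m, pow_mul, pow_mul,
      hζm, one_pow, one_pow, inv_one, mul_one]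
  have hξne : ξ ≠ 1 := by
    intro h
    apply hne
    rw [hξ] at h
    field_simp at h
    exact h
  apply zeta_sub_one_not_mem W hμW hμ hξW hξm hξne
  have : ξ - 1 = ((G - ζ ^ b) - (G - ζ ^ a)) * (ζ ^ b)⁻¹ := by
    rw [hξ]
    field_simp
    ring
  rw [this, hinv]
  exact nu_mul_right W (nu_sub W hb ha) (W.pow_mem hζW _)

end Labels

section Galois

variable {F : Type*} [Field F] {Z : Type*} [Field Z] [Algebra F Z]

theorem mem_nonunits_comap_symm (W : ValuationSubring Z) (σ : Z ≃ₐ[F] Z) (b : Z) :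
    σ b ∈ (W.comap ((σ.symm : Z ≃+* Z) : Z →+* Z)).nonunits ↔ b ∈ W.nonunits := by
  rw [ValuationSubring.mem_nonunits_iff_or, ValuationSubring.mem_nonunits_iff_or,
    ValuationSubring.mem_comap]
  have h1 : ((σ.symm : Z ≃+* Z) : Z →+* Z) (σ b)⁻¹ = b⁻¹ := by
    rw [map_inv₀]
    congr 1
    exact σ.symm_apply_apply b
  rw [h1, map_eq_zero_iff σ σ.injective]

theorem comap_symm_comap_algebraMap (W : ValuationSubring Z) (σ : Z ≃ₐ[F] Z) :
    (W.comap ((σ.symm : Z ≃+* Z) : Z →+* Z)).comap (algebraMap F Z) =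
      W.comap (algebraMap F Z) := by
  ext f
  rw [ValuationSubring.mem_comap, ValuationSubring.mem_comap, ValuationSubring.mem_comap]
  have : ((σ.symm : Z ≃+* Z) : Z →+* Z) (algebraMap F Z f) = algebraMap F Z f :=
    σ.symm.commutes f
  rw [this]

/-- If `G ^ m ∈ F`, `G ≡ c` on a sheet `W` and on its conjugate `σ W`, with `c ∈ F` a unit of
`σ W` and `m` invertible on `σ W`, then `σ G = G`. -/
theorem fixed_of_label_eq (W : ValuationSubring Z) (σ : Z ≃ₐ[F] Z) {m : ℕ} {μ : Z}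
    (hμW : μ ∈ W.comap ((σ.symm : Z ≃+* Z) : Z →+* Z)) (hμ : μ * (m : Z) = 1)
    {G : Z} (hGF : G ^ m ∈ Set.range (algebraMap F Z)) (c : F)
    (hcW : algebraMap F Z c ∈ W.comap ((σ.symm : Z ≃+* Z) : Z →+* Z))
    (hc : algebraMap F Z c ∉ (W.comap ((σ.symm : Z ≃+* Z) : Z →+* Z)).nonunits)
    (h1 : G - algebraMap F Z c ∈ W.nonunits)
    (h2 : G - algebraMap F Z c ∈ (W.comap ((σ.symm : Z ≃+* Z) : Z →+* Z)).nonunits) :
    σ G = G := by
  set W' : ValuationSubring Z := W.comap ((σ.symm : Z ≃+* Z) : Z →+* Z) with hW'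
  have h3 : σ G - algebraMap F Z c ∈ W'.nonunits := by
    have := (mem_nonunits_comap_symm W σ (G - algebraMap F Z c)).2 h1
    rwa [map_sub, σ.commutes] at this
  have hGW' : G ∈ W' := by
    have : G = (G - algebraMap F Z c) + algebraMap F Z c := by ring
    rw [this]
    exact W'.add_mem _ _ (nu_mem W' h2) hcW
  have hσGW' : σ G ∈ W' := by
    have : σ G = (σ G - algebraMap F Z c) + algebraMap F Z c := by ring
    rw [this]
    exact W'.add_mem _ _ (nu_mem W' h3) hcW
  have hGnu : G ∉ W'.nonunits := by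
    intro h
    apply hc
    have : algebraMap F Z c = G - (G - algebraMap F Z c) := by ring
    rw [this]
    exact nu_sub W' h h2
  have hG0 : G ≠ 0 := by
    rintro rfl
    exact hGnu (nu_zero W')
  have hGinv : G⁻¹ ∈ W' := nu_unit_inv W' hGW' hGnu
  set ξ : Z := σ G * G⁻¹ with hξ
  have hξW : ξ ∈ W' := W'.mul_mem _ _ hσGW' hGinv
  have hξm : ξ ^ m = 1 := by
    obtain ⟨f, hf⟩ := hGF
    have : (σ G) ^ m = G ^ m := by
      rw [← map_pow, ← hf, σ.commutes]
    rw [hξ, mul_pow, this, inv_pow, mul_inv_cancel₀ (pow_ne_zero _ hG0)]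
  by_contra hne
  have hξne : ξ ≠ 1 := by
    intro h
    apply hne
    rw [hξ] at h
    field_simp at h
    exact h
  apply zeta_sub_one_not_mem W' hμW hμ hξW hξm hξne
  have : ξ - 1 = ((σ G - algebraMap F Z c) - (G - algebraMap F Z c)) * G⁻¹ := by
    rw [hξ]
    field_simp
    ring
  rw [this]
  exact nu_mul_right W' (nu_sub W' h3 h2) hGinv

end Galois

section Wall

variable {R : Type*} [CommRing R] {Z : Type*} [Field Z] [Algebra R Z]
variable [IsNoetherianRing R] [IsIntegrallyClosed (Polynomial R)] [CharZero Z]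

/-- **The label wall.**  Constant normalised labels at the closed points of the special fibre
force a split Kummer generator into the base field. -/
theorem kummer_wall3
    (hinjR : Function.Injective (algebraMap R Z))
    (hRF : ∀ y : Z, IsIntegral R y → y ∈ Set.range (algebraMap R Z))
    {x : Z} (hx : Transcendental R x) [FiniteDimensional (baseField R x) Z]
    (w : R) (hw : Prime w)
    {𝒲 : Set (ValuationSubring Z)} (h𝒲 : 𝒲.Finite) (hne : 𝒲.Nonempty) (hsep : Sep 𝒲)
    (hmid : ∀ W ∈ 𝒲, ∀ c ∈ chart R ({x, x⁻¹} : Set Z), c ∈ W)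
    (hwW : ∀ W ∈ 𝒲, algebraMap R Z w ∈ W.nonunits)
    (qep_fin : QepRad 𝒲 w (chart R ({x} : Set Z)))
    (qep_inf : QepRad 𝒲 w (chart R ({x⁻¹} : Set Z)))
    (qep_mid : QepRad 𝒲 w (chart R ({x, x⁻¹} : Set Z)))
    {F : Type*} [Field F] [Algebra R F] [Algebra F Z] [IsScalarTower R F Z]
    [IsGalois F Z] [FiniteDimensional F Z]
    (hstable : ∀ σ : Z ≃ₐ[F] Z, ∀ W ∈ 𝒲, W.comap ((σ.symm : Z ≃+* Z) : Z →+* Z) ∈ 𝒲)
    {m : ℕ} (hm : 0 < m) {mi : R} (hmi : (m : R) * mi = 1) {ζ : R} (hζ : IsPrimitiveRoot ζ m)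
    {G : Z} (hGF : G ^ m ∈ Set.range (algebraMap F Z))
    (hG1 : ∀ W ∈ 𝒲, G ^ m - 1 ∈ W.nonunits)
    (κ : ValuationSubring F → ℕ)
    (hloc_fin : ∀ 𝔫 : Ideal (chart R ({x} : Set Z)), 𝔫.IsMaximal →
      algebraMap R (chart R ({x} : Set Z)) w ∈ 𝔫 →
      ∀ W ∈ 𝒲, ∀ W' ∈ 𝒲, Through _ 𝔫 W → Through _ 𝔫 W' → ∀ a b : ℕ,
        G - algebraMap R Z (ζ ^ a) ∈ W.nonunits → G - algebraMap R Z (ζ ^ b) ∈ W'.nonunits →
        ζ ^ (a + κ (W'.comap (algebraMap F Z))) = ζ ^ (b + κ (W.comap (algebraMap F Z))))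
    (hloc_inf : ∀ 𝔫 : Ideal (chart R ({x⁻¹} : Set Z)), 𝔫.IsMaximal →
      algebraMap R (chart R ({x⁻¹} : Set Z)) w ∈ 𝔫 →
      ∀ W ∈ 𝒲, ∀ W' ∈ 𝒲, Through _ 𝔫 W → Through _ 𝔫 W' → ∀ a b : ℕ,
        G - algebraMap R Z (ζ ^ a) ∈ W.nonunits → G - algebraMap R Z (ζ ^ b) ∈ W'.nonunits →
        ζ ^ (a + κ (W'.comap (algebraMap F Z))) = ζ ^ (b + κ (W.comap (algebraMap F Z)))) :
    G ∈ Set.range (algebraMap F Z) := by
  classical
  set ζZ : Z := algebraMap R Z ζ with hζZ
  have hζZp : IsPrimitiveRoot ζZ m := hζ.map_of_injective hinjR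
  have hRW : ∀ W ∈ 𝒲, ∀ r : R, algebraMap R Z r ∈ W := fun W hW r =>
    hmid W hW _ (Subalgebra.algebraMap_mem _ r)
  have hμ : algebraMap R Z mi * (m : Z) = 1 := by
    have := congrArg (algebraMap R Z) hmi
    rw [mul_comm]
    simpa using this
  -- the labels
  have hlab : ∀ W : ValuationSubring Z, ∃ a : ℕ, W ∈ 𝒲 → G - algebraMap R Z (ζ ^ a) ∈ W.nonunits := by
    intro W
    by_cases hW : W ∈ 𝒲
    · obtain ⟨a, -, ha⟩ := exists_label W hm hζZp (hRW W hW ζ) (hG1 W hW)
      refine ⟨a, fun _ => ?_⟩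
      rw [map_pow]
      exact ha
    · exact ⟨0, fun h => absurd h hW⟩
  choose lab hlab using hlab
  have huniq : ∀ W ∈ 𝒲, ∀ a : ℕ, G - algebraMap R Z (ζ ^ a) ∈ W.nonunits → ζ ^ a = ζ ^ lab W := by
    intro W hW a ha
    apply hinjR
    rw [map_pow, map_pow]
    have h1 := hlab W hW
    rw [map_pow] at h1 ha
    exact label_unique W (hRW W hW mi) hμ hζZp.pow_eq_one (hRW W hW ζ) ha h1
  -- normalised labels
  set ν : ValuationSubring Z → R := fun W =>
    ζ ^ (lab W + (m - 1) * κ (W.comap (algebraMap F Z))) with hν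
  have hm1 : m - 1 + 1 = m := Nat.sub_add_cancel hm
  have hνloc : ∀ W ∈ 𝒲, ∀ W' ∈ 𝒲,
      ζ ^ (lab W + κ (W'.comap (algebraMap F Z))) =
        ζ ^ (lab W' + κ (W.comap (algebraMap F Z))) → ν W = ν W' := by
    intro W _ W' _ h
    set k := κ (W.comap (algebraMap F Z)) with hk
    set k' := κ (W'.comap (algebraMap F Z)) with hk'
    have e1 : ζ ^ (lab W + (m - 1) * k) = ζ ^ (lab W + k') * ζ ^ ((m - 1) * k + (m - 1) * k') := by
      rw [← pow_add]
      have : lab W + k' + ((m - 1) * k + (m - 1) * k') = lab W + (m - 1) * k + m * k' := by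
        calc lab W + k' + ((m - 1) * k + (m - 1) * k')
            = lab W + (m - 1) * k + (m - 1 + 1) * k' := by ring
          _ = lab W + (m - 1) * k + m * k' := by rw [hm1]
      rw [this, pow_add ζ (lab W + (m - 1) * k) (m * k'), pow_mul ζ m k', hζ.pow_eq_one, one_pow,
        mul_one]
    have e2 : ζ ^ (lab W' + (m - 1) * k') = ζ ^ (lab W' + k) * ζ ^ ((m - 1) * k + (m - 1) * k') := by
      rw [← pow_add]
      have : lab W' + k + ((m - 1) * k + (m - 1) * k') = lab W' + (m - 1) * k' + m * k := by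
        calc lab W' + k + ((m - 1) * k + (m - 1) * k')
            = lab W' + (m - 1) * k' + (m - 1 + 1) * k := by ring
          _ = lab W' + (m - 1) * k' + m * k := by rw [hm1]
      rw [this, pow_add ζ (lab W' + (m - 1) * k') (m * k), pow_mul ζ m k, hζ.pow_eq_one, one_pow,
        mul_one]
    change ζ ^ (lab W + (m - 1) * k) = ζ ^ (lab W' + (m - 1) * k')
    rw [e1, e2, h]
  have hconst := clopen_label hinjR hRF hx w hw h𝒲 hsep hmid hwW qep_fin qep_inf qep_mid ν
    (fun 𝔫 h𝔫 hw𝔫 W hW W' hW' hth hth' =>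
      hνloc W hW W' hW' (hloc_fin 𝔫 h𝔫 hw𝔫 W hW W' hW' hth hth' _ _ (hlab W hW) (hlab W' hW')))
    (fun 𝔫 h𝔫 hw𝔫 W hW W' hW' hth hth' =>
      hνloc W hW W' hW' (hloc_inf 𝔫 h𝔫 hw𝔫 W hW W' hW' hth hth' _ _ (hlab W hW) (hlab W' hW')))
  -- `G` is Galois-invariant
  rw [IsGalois.mem_range_algebraMap_iff_fixed]
  intro σ
  obtain ⟨W, hW⟩ := hne
  set W' : ValuationSubring Z := W.comap ((σ.symm : Z ≃+* Z) : Z →+* Z) with hW'
  have hW'mem : W' ∈ 𝒲 := hstable σ W hW
  have hcol : W'.comap (algebraMap F Z) = W.comap (algebraMap F Z) :=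
    comap_symm_comap_algebraMap W σ
  have hνeq : ν W' = ν W := hconst W' hW'mem W hW
  have hlabeq : ζ ^ lab W' = ζ ^ lab W := by
    have h := hνeq
    change ζ ^ (lab W' + (m - 1) * κ (W'.comap (algebraMap F Z))) =
      ζ ^ (lab W + (m - 1) * κ (W.comap (algebraMap F Z))) at h
    rw [hcol, pow_add, pow_add] at h
    have hu : IsUnit (ζ ^ ((m - 1) * κ (W.comap (algebraMap F Z)))) :=
      (hζ.isUnit hm.ne').pow _
    exact hu.mul_left_injective h
  have hcF : algebraMap R Z (ζ ^ lab W) = algebraMap F Z (algebraMap R F (ζ ^ lab W)) :=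
    IsScalarTower.algebraMap_apply R F Z _
  have h1 : G - algebraMap F Z (algebraMap R F (ζ ^ lab W)) ∈ W.nonunits := by
    rw [← hcF]
    exact hlab W hW
  have h2 : G - algebraMap F Z (algebraMap R F (ζ ^ lab W)) ∈ W'.nonunits := by
    rw [← hcF, ← hlabeq]
    exact hlab W' hW'mem
  refine fixed_of_label_eq W σ (hRW W' hW'mem mi) hμ hGF (algebraMap R F (ζ ^ lab W)) ?_ ?_ h1 h2
  · rw [← hcF]
    exact hRW W' hW'mem _
  · rw [← hcF]
    intro hmem
    -- `ζ ^ a` is a unit
    have hu : algebraMap R Z (ζ ^ lab W) * algebraMap R Z (ζ ^ (lab W * (m - 1))) = 1 := by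
      rw [← map_mul, ← pow_add]
      have : lab W + lab W * (m - 1) = m * lab W := by
        calc lab W + lab W * (m - 1) = lab W * (m - 1 + 1) := by ring
          _ = m * lab W := by rw [hm1, mul_comm]
      rw [this, pow_mul, hζ.pow_eq_one, one_pow, map_one]
    have := nu_mul_right W' hmem (hRW W' hW'mem (ζ ^ (lab W * (m - 1))))
    rw [hu] at this
    exact nu_one_not W' this

end Wall

end Fermat.Agent.S36.H193

end
-- ===== PACK-END S36/H193/LabelWall.lean

-- ===== PACK-BEGIN S59/TW/H653/Comm/Explicit.lean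
section



/-!
# S59 / TW-HECKE (helper653): products of Hecke representatives at coprime levels

Explicit identities `r * r' = t * (r'' * r''')` in `GL(2, ℝ)` between products of the standard
representatives `[[1, j], [0, ℓ]]`, `[[ℓ, 0], [0, 1]]` for coprime `ℓ`, `ℓ'`, with `t` a translation
`[[1, t], [0, 1]]`.
-/

set_option autoImplicit false

namespace Fermat.Agent.S59.TW.H653

open CongruenceSubgroup Matrix.SpecialLinearGroup ModularCurve.Period ModularForm
open Fermat.Agent.S29.H642 Fermat.Agent.S41.H761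
open P2MW.S_ModularForm_heckeT_slash_eq_self_of_mem_Gamma0.ModularForm.HeckeSlashInvariance
open scoped MatrixGroups

variable (M : ℕ)

/-- The translation `[[1, t], [0, 1]] ∈ Γ₀(M)`. -/
def transl (t : ℤ) : Gamma0 M := mkGamma0 M 1 t 0 1 (by ring) (dvd_zero _)

theorem coe_transl (t : ℤ) :
    (ιN M (transl M t) : Matrix (Fin 2) (Fin 2) ℝ) = !![(1 : ℝ), (t : ℝ); 0, 1] := by
  obtain ⟨e00, e01, e10, e11⟩ := mkGamma0_apply M 1 t 0 1 (by ring) (dvd_zero _)
  ext i j
  fin_cases i <;> fin_cases j <;>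
    simp only [coe_ιN_apply, transl, e00, e01, e10, e11, Fin.zero_eta, Fin.mk_one,
      Matrix.of_apply, Matrix.cons_val', Matrix.cons_val_zero, Matrix.cons_val_one,
      Matrix.cons_val_fin_one] <;> simp

variable {M} {ℓ ℓ' : ℕ}

theorem heckeMatrix_mul_heckeMatrix_core (hℓ : ℓ ≠ 0) (hℓ' : ℓ' ≠ 0) (i j i' j' : ℕ) (t : ℤ)
    (h : (j : ℤ) + i * ℓ' = i' + ℓ * j' + ℓ * ℓ' * t) :
    heckeMatrix ℓ i * heckeMatrix ℓ' j =
      ιN M (transl M t) * (heckeMatrix ℓ' j' * heckeMatrix ℓ i') := by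
  have h3 : (j : ℝ) + i * ℓ' = i' + ℓ * j' + ℓ * ℓ' * t := by exact_mod_cast h
  apply gl_ext <;>
    simp only [coe_mul_apply, coe_transl, val_heckeMatrix hℓ, val_heckeMatrix hℓ',
      Matrix.of_apply, Matrix.cons_val', Matrix.cons_val_zero, Matrix.cons_val_one,
      Matrix.cons_val_fin_one]
  · ring
  · linear_combination h3
  · ring
  · ring

/-- `[[1,i],[0,ℓ]] * [[1,j],[0,ℓ']] = [[1,t],[0,1]] * [[1,j'],[0,ℓ']] * [[1,i'],[0,ℓ]]`. -/
theorem heckeMatrix_mul_heckeMatrix (hℓ : ℓ ≠ 0) (hℓ' : ℓ' ≠ 0) (i j : ℕ) :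
    ∃ (j' i' : ℕ) (g : Gamma0 M), i' < ℓ ∧ j' < ℓ' ∧
      heckeMatrix ℓ i * heckeMatrix ℓ' j = ιN M g * (heckeMatrix ℓ' j' * heckeMatrix ℓ i') := by
  set n := j + i * ℓ' with hn
  refine ⟨(n / ℓ) % ℓ', n % ℓ, transl M ((n / ℓ / ℓ' : ℕ) : ℤ),
    Nat.mod_lt _ (Nat.pos_of_ne_zero hℓ), Nat.mod_lt _ (Nat.pos_of_ne_zero hℓ'), ?_⟩
  apply heckeMatrix_mul_heckeMatrix_core hℓ hℓ'
  have h1 : n % ℓ + ℓ * (n / ℓ) = n := Nat.mod_add_div n ℓ
  have h2 : (n / ℓ) % ℓ' + ℓ' * (n / ℓ / ℓ') = n / ℓ := Nat.mod_add_div (n / ℓ) ℓ'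
  generalize n / ℓ / ℓ' = c at h2 ⊢
  generalize (n / ℓ) % ℓ' = b at h2 ⊢
  generalize n / ℓ = a at h1 h2 ⊢
  generalize n % ℓ = r at h1 ⊢
  have e : (n : ℤ) = j + i * ℓ' := by rw [hn]; push_cast; ring
  have h1' : (r : ℤ) + ℓ * a = n := by exact_mod_cast h1
  have h2' : (b : ℤ) + ℓ' * c = a := by exact_mod_cast h2
  rw [← e, ← h1', ← h2']
  ring

theorem heckeDiag_mul_heckeMatrix_core (hℓ : ℓ ≠ 0) (hℓ' : ℓ' ≠ 0) (j j' : ℕ) (t : ℤ)
    (h : (ℓ : ℤ) * j = j' + ℓ' * t) :
    heckeDiagMatrix ℓ * heckeMatrix ℓ' j =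
      ιN M (transl M t) * (heckeMatrix ℓ' j' * heckeDiagMatrix ℓ) := by
  have h3 : (ℓ : ℝ) * j = j' + ℓ' * t := by exact_mod_cast h
  apply gl_ext <;>
    simp only [coe_mul_apply, coe_transl, val_heckeMatrix hℓ', val_heckeDiagMatrix hℓ,
      Matrix.of_apply, Matrix.cons_val', Matrix.cons_val_zero, Matrix.cons_val_one,
      Matrix.cons_val_fin_one]
  · ring
  · linear_combination h3
  · ring
  · ring

/-- `[[ℓ,0],[0,1]] * [[1,j],[0,ℓ']] = [[1,t],[0,1]] * [[1,j'],[0,ℓ']] * [[ℓ,0],[0,1]]`. -/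
theorem heckeDiag_mul_heckeMatrix (hℓ : ℓ ≠ 0) (hℓ' : ℓ' ≠ 0) (j : ℕ) :
    ∃ (j' : ℕ) (g : Gamma0 M), j' < ℓ' ∧
      heckeDiagMatrix ℓ * heckeMatrix ℓ' j =
        ιN M g * (heckeMatrix ℓ' j' * heckeDiagMatrix ℓ) := by
  refine ⟨(ℓ * j) % ℓ', transl M ((ℓ * j / ℓ' : ℕ) : ℤ),
    Nat.mod_lt _ (Nat.pos_of_ne_zero hℓ'), ?_⟩
  apply heckeDiag_mul_heckeMatrix_core hℓ hℓ'
  have h1 : (ℓ * j) % ℓ' + ℓ' * (ℓ * j / ℓ') = ℓ * j := Nat.mod_add_div _ _
  generalize ℓ * j / ℓ' = c at h1 ⊢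
  generalize (ℓ * j) % ℓ' = b at h1 ⊢
  have h1' : (b : ℤ) + ℓ' * c = ℓ * j := by exact_mod_cast h1
  rw [← h1']

theorem heckeMatrix_mul_heckeDiag_core (hℓ : ℓ ≠ 0) (hℓ' : ℓ' ≠ 0) (i i' : ℕ) (t : ℤ)
    (h : (i : ℤ) = ℓ' * i' + t * ℓ) :
    heckeMatrix ℓ i * heckeDiagMatrix ℓ' =
      ιN M (transl M t) * (heckeDiagMatrix ℓ' * heckeMatrix ℓ i') := by
  have h3 : (i : ℝ) = ℓ' * i' + t * ℓ := by exact_mod_cast h
  apply gl_ext <;>
    simp only [coe_mul_apply, coe_transl, val_heckeMatrix hℓ, val_heckeDiagMatrix hℓ',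
      Matrix.of_apply, Matrix.cons_val', Matrix.cons_val_zero, Matrix.cons_val_one,
      Matrix.cons_val_fin_one]
  · ring
  · linear_combination h3
  · ring
  · ring

/-- `[[1,i],[0,ℓ]] * [[ℓ',0],[0,1]] = [[1,t],[0,1]] * [[ℓ',0],[0,1]] * [[1,i'],[0,ℓ]]`. -/
theorem heckeMatrix_mul_heckeDiag (hℓ : ℓ ≠ 0) (hℓ' : ℓ' ≠ 0) (hcop : Nat.Coprime ℓ' ℓ)
    (i : ℕ) :
    ∃ (i' : ℕ) (g : Gamma0 M), i' < ℓ ∧
      heckeMatrix ℓ i * heckeDiagMatrix ℓ' =
        ιN M g * (heckeDiagMatrix ℓ' * heckeMatrix ℓ i') := by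
  -- `u ℓ' + v ℓ = 1`
  have hb : ((Nat.gcd ℓ' ℓ : ℕ) : ℤ) = ℓ' * Int.gcdA ℓ' ℓ + ℓ * Int.gcdB ℓ' ℓ :=
    Int.gcd_eq_gcd_ab ℓ' ℓ
  rw [Nat.Coprime] at hcop
  rw [hcop] at hb
  push_cast at hb
  generalize Int.gcdA ℓ' ℓ = u at hb
  generalize Int.gcdB ℓ' ℓ = v at hb
  -- `i' = (i u) mod ℓ`
  have hℓpos : (0 : ℤ) < ℓ := by exact_mod_cast Nat.pos_of_ne_zero hℓ
  have hi'0 : 0 ≤ (i * u) % (ℓ : ℤ) := Int.emod_nonneg _ hℓpos.ne'
  have hi'1 : (i * u) % (ℓ : ℤ) < ℓ := Int.emod_lt_of_pos _ hℓpos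
  have h1 : (i * u) % (ℓ : ℤ) + ℓ * ((i * u) / ℓ) = i * u := Int.emod_add_mul_ediv _ _
  generalize (i * u) / (ℓ : ℤ) = k at h1
  generalize (i * u) % (ℓ : ℤ) = i' at h1 hi'0 hi'1
  have hc : ((i'.toNat : ℕ) : ℤ) = i' := Int.toNat_of_nonneg hi'0
  refine ⟨i'.toNat, transl M (i * v + ℓ' * k), ?_, ?_⟩
  · have : (i'.toNat : ℤ) < ℓ := by rw [hc]; exact hi'1
    exact_mod_cast this
  apply heckeMatrix_mul_heckeDiag_core hℓ hℓ'
  rw [hc]
  linear_combination (i : ℤ) * hb - (ℓ' : ℤ) * h1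

/-- `[[ℓ,0],[0,1]] * [[ℓ',0],[0,1]] = [[ℓ',0],[0,1]] * [[ℓ,0],[0,1]]`. -/
theorem heckeDiag_mul_heckeDiag (hℓ : ℓ ≠ 0) (hℓ' : ℓ' ≠ 0) :
    heckeDiagMatrix ℓ * heckeDiagMatrix ℓ' =
      ιN M 1 * (heckeDiagMatrix ℓ' * heckeDiagMatrix ℓ) := by
  rw [map_one, one_mul]
  apply gl_ext <;>
    simp only [coe_mul_apply, val_heckeDiagMatrix hℓ, val_heckeDiagMatrix hℓ',
      Matrix.of_apply, Matrix.cons_val', Matrix.cons_val_zero, Matrix.cons_val_one,
      Matrix.cons_val_fin_one] <;>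
    ring

end Fermat.Agent.S59.TW.H653

end
-- ===== PACK-END S59/TW/H653/Comm/Explicit.lean

-- ===== PACK-BEGIN S41/H45/Fld.lean
section



/-!
# S41, block NE, leaves FLD and RFLD (helper45)

* `torsionField_h45 : Spec.TorsionFieldStatement` — a finite extension `L ⊆ ℚ̄` such that the action
  of `G_ℚ` on `E[n](ℚ̄)` only depends on the restriction to `L` (adjoin the coordinates);
* `rootField_h45 : Spec.RootFieldStatement` — a finite extension containing the `M`-th roots of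
  unity.
-/

set_option autoImplicit false

namespace Fermat.Agent.S41.H45

open WeierstrassCurve WeierstrassCurve.Affine WeierstrassCurve.Affine.Point

/-- `x`-coordinate of a point (junk value `0` at the origin). -/
noncomputable def xCoord_h45 {F : Type*} [Field F] {W : WeierstrassCurve.Affine F} :
    W.Point → F
  | .zero => 0
  | .some x _ _ => x

/-- `y`-coordinate of a point (junk value `0` at the origin). -/
noncomputable def yCoord_h45 {F : Type*} [Field F] {W : WeierstrassCurve.Affine F} :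
    W.Point → F
  | .zero => 0
  | .some _ y _ => y

/-- `ℚ̄/ℚ` is algebraic (for the canonical `ℚ`-algebra structure). -/
theorem isAlgebraic_Qb_h45 : Algebra.IsAlgebraic ℚ (AlgebraicClosure ℚ) :=
  AlgebraicClosure.isAlgebraic ℚ

/-- Two automorphisms agreeing on the coordinates of `P` act in the same way on `P`. -/
theorem smul_eq_smul_of_coords_h45 (E : WeierstrassCurve ℚ)
    (σ τ : AlgebraicClosure ℚ ≃ₐ[ℚ] AlgebraicClosure ℚ)
    (P : (E⁄(AlgebraicClosure ℚ)).Point)
    (hx : σ (xCoord_h45 P) = τ (xCoord_h45 P)) (hy : σ (yCoord_h45 P) = τ (yCoord_h45 P)) :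
    σ • P = τ • P := by
  rcases P with _ | ⟨x, y, h⟩
  · rfl
  · rw [algEquiv_smul_def, algEquiv_smul_def, Point.map_some, Point.map_some]
    simp only [Point.some.injEq]
    exact ⟨hx, hy⟩

/-- **Leaf FLD.** -/
theorem torsionField_h45 : Spec.TorsionFieldStatement := by
  intro E _ n hn
  classical
  have : (E⁄(AlgebraicClosure ℚ)).IsElliptic :=
    inferInstanceAs (E.map (algebraMap ℚ (AlgebraicClosure ℚ))).IsElliptic
  have hfin : Finite (Submodule.torsionBy ℤ (E⁄(AlgebraicClosure ℚ)).Point n) :=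
    Fermat.Agent.S41.H701.finite_torsion_prelude_h701 (K := AlgebraicClosure ℚ) E n hn
  set T : Set (AlgebraicClosure ℚ) :=
    Set.range (fun P : Submodule.torsionBy ℤ (E⁄(AlgebraicClosure ℚ)).Point n =>
        xCoord_h45 (P : (E⁄(AlgebraicClosure ℚ)).Point)) ∪
      Set.range (fun P : Submodule.torsionBy ℤ (E⁄(AlgebraicClosure ℚ)).Point n =>
        yCoord_h45 (P : (E⁄(AlgebraicClosure ℚ)).Point)) with hT
  have hTfin : T.Finite := (Set.finite_range _).union (Set.finite_range _)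
  have : Finite T := hTfin
  refine ⟨IntermediateField.adjoin ℚ T, ?_, ?_⟩
  · exact IntermediateField.finiteDimensional_adjoin
      (fun x _ => (isAlgebraic_Qb_h45.isAlgebraic x).isIntegral)
  · intro σ τ hστ P
    apply Subtype.ext
    show σ • (P : (E⁄(AlgebraicClosure ℚ)).Point) = τ • (P : (E⁄(AlgebraicClosure ℚ)).Point)
    apply smul_eq_smul_of_coords_h45
    · apply hστ
      apply IntermediateField.subset_adjoin
      exact Or.inl ⟨P, rfl⟩
    · apply hστ
      apply IntermediateField.subset_adjoin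
      exact Or.inr ⟨P, rfl⟩

/-- **Leaf RFLD.** -/
theorem rootField_h45 : Spec.RootFieldStatement := by
  intro M hM
  classical
  set T : Set (AlgebraicClosure ℚ) := {t | t ^ M = 1} with hT
  have hTfin : T.Finite := by
    have h : T ⊆ ((Polynomial.nthRoots M (1 : AlgebraicClosure ℚ)).toFinset : Set _) := by
      intro t ht
      rw [Finset.mem_coe, Multiset.mem_toFinset, Polynomial.mem_nthRoots hM]
      exact ht
    exact (Finset.finite_toSet _).subset h
  have : Finite T := hTfin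
  refine ⟨IntermediateField.adjoin ℚ T, ?_, ?_⟩
  · exact IntermediateField.finiteDimensional_adjoin
      (fun x _ => (isAlgebraic_Qb_h45.isAlgebraic x).isIntegral)
  · intro t ht
    exact IntermediateField.subset_adjoin ℚ T ht

end Fermat.Agent.S41.H45

end
-- ===== PACK-END S41/H45/Fld.lean

-- ===== PACK-BEGIN S59/TW/H564/TwistInj.lean
section




/-!
# Injectivity of the twist (helper564, row S59, leaf E4 TWIST)

`twist_injective`: `q` prime, `q ∤ M'`, `f` with nebentypus `χ` on `Γ₀(M' q)`, `χ` non-trivial on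
the units `≡ 1 mod M'`, `ψ ≠ 1` a Dirichlet character modulo `q`.  Then `twist k q ψ f = 0`
implies `f = 0`.

Proof.  (1) `twist f = 0` forces `f ∣ tr (1/q) = f` (finite Fourier analysis, done with the
elementary character sums `K(w) = ∑_s ψ(s) ψ(s+w)⁻¹ = q δ_{w,0} - 1`).
(2) `tr (a/q) · [1,0;M,1] · tr (b/q) ∈ Γ₀(M)` has lower right entry `1 + b M'`, which is an
arbitrary unit modulo `q`; so `χ(d₀) f = f`.
-/

set_option autoImplicit false
set_option linter.unusedSectionVars false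

namespace Fermat.Agent.S59.TW.H564

open Matrix Matrix.SpecialLinearGroup CongruenceSubgroup UpperHalfPlane ModularForm
open Fermat.Agent.Lib.Newform.H803
open scoped MatrixGroups ModularForm

variable {k : ℤ}

/-! ## Character sums over `𝔽_q` -/

section CharSum

variable {q : ℕ} [Fact q.Prime]

/-- `K(w) = ∑_s ψ(s) ψ(s + w)⁻¹`. -/
noncomputable def kerSum (ψ : DirichletCharacter ℂ q) (w : ZMod q) : ℂ :=
  ∑ s : ZMod q, ψ s * (ψ (s + w))⁻¹

theorem kerSum_zero (ψ : DirichletCharacter ℂ q) : kerSum ψ 0 = (q : ℂ) - 1 := by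
  have h : ∀ s : ZMod q, ψ s * (ψ (s + 0))⁻¹ = if s = 0 then 0 else 1 := by
    intro s
    rw [add_zero]
    split_ifs with hs
    · rw [hs, MulChar.map_zero, zero_mul]
    · have hu : IsUnit s := isUnit_iff_ne_zero.mpr hs
      exact mul_inv_cancel₀ (hu.map ψ).ne_zero
  rw [kerSum]
  simp only [h]
  rw [Finset.sum_ite, Finset.sum_const_zero, zero_add, Finset.sum_const, nsmul_eq_mul, mul_one,
    Finset.filter_ne' Finset.univ (0 : ZMod q), Finset.card_erase_of_mem (Finset.mem_univ _),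
    Finset.card_univ, ZMod.card]
  have hq : 1 ≤ q := (Fact.out : q.Prime).one_lt.le
  push_cast [Nat.cast_sub hq]
  ring

theorem kerSum_of_ne_zero (ψ : DirichletCharacter ℂ q) {w : ZMod q} (hw : w ≠ 0) :
    kerSum ψ w = kerSum ψ 1 := by
  have hu : IsUnit w := isUnit_iff_ne_zero.mpr hw
  have hψw : ψ w ≠ 0 := (hu.map ψ).ne_zero
  have hbij : Function.Bijective (fun t : ZMod q => w * t) := by
    obtain ⟨x, rfl⟩ := hu
    exact (Units.mulLeft x).bijective
  rw [kerSum, kerSum, ← hbij.sum_comp (fun s => ψ s * (ψ (s + w))⁻¹)]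
  refine Finset.sum_congr rfl fun t _ => ?_
  have e : w * t + w = w * (t + 1) := by ring
  rw [e, map_mul, map_mul, mul_inv]
  field_simp

theorem sum_kerSum (ψ : DirichletCharacter ℂ q) (hψ : ψ ≠ 1) :
    ∑ w : ZMod q, kerSum ψ w = 0 := by
  have h0 : ∑ s : ZMod q, ψ s = 0 := MulChar.sum_eq_zero_of_ne_one hψ
  simp only [kerSum]
  rw [Finset.sum_comm]
  have h1 : ∀ s : ZMod q, ∑ w : ZMod q, ψ s * (ψ (s + w))⁻¹ =
      ψ s * ∑ x : ZMod q, (ψ x)⁻¹ := by
    intro s
    rw [Finset.mul_sum]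
    exact Equiv.sum_comp (Equiv.addLeft s) (fun x => ψ s * (ψ x)⁻¹)
  simp only [h1]
  rw [← Finset.sum_mul, h0, zero_mul]

theorem kerSum_one (ψ : DirichletCharacter ℂ q) (hψ : ψ ≠ 1) : kerSum ψ 1 = -1 := by
  have h := sum_kerSum ψ hψ
  rw [← Finset.add_sum_erase Finset.univ _ (Finset.mem_univ (0 : ZMod q)), kerSum_zero] at h
  have h2 : ∑ w ∈ Finset.univ.erase (0 : ZMod q), kerSum ψ w =
      ((q : ℂ) - 1) * kerSum ψ 1 := by
    rw [Finset.sum_congr rfl (fun w hw => kerSum_of_ne_zero ψ (Finset.ne_of_mem_erase hw)),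
      Finset.sum_const, nsmul_eq_mul, Finset.card_erase_of_mem (Finset.mem_univ _),
      Finset.card_univ, ZMod.card]
    have hq : 1 ≤ q := (Fact.out : q.Prime).one_lt.le
    push_cast [Nat.cast_sub hq]
    ring
  rw [h2] at h
  have hq1 : (q : ℂ) - 1 ≠ 0 := by
    have : (1 : ℕ) < q := (Fact.out : q.Prime).one_lt
    have h' : (q : ℂ) ≠ 1 := by exact_mod_cast this.ne'
    exact sub_ne_zero.mpr h'
  have h3 : ((q : ℂ) - 1) * (1 + kerSum ψ 1) = 0 := by linear_combination h
  rcases mul_eq_zero.mp h3 with h4 | h4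
  · exact absurd h4 hq1
  · linear_combination h4

theorem kerSum_eq (ψ : DirichletCharacter ℂ q) (hψ : ψ ≠ 1) (w : ZMod q) :
    kerSum ψ w = if w = 0 then (q : ℂ) - 1 else -1 := by
  split_ifs with hw
  · rw [hw, kerSum_zero]
  · rw [kerSum_of_ne_zero ψ hw, kerSum_one ψ hψ]

/-- If all the `ψ⁻¹`-twisted sums of the translates of `φ` vanish, then `q φ(0) = ∑ φ`. -/
theorem card_mul_eq_sum_of_conv_eq_zero (ψ : DirichletCharacter ℂ q) (hψ : ψ ≠ 1)
    (φ : ZMod q → ℂ) (h : ∀ v : ZMod q, ∑ u : ZMod q, (ψ u)⁻¹ * φ (u + v) = 0) :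
    (q : ℂ) * φ 0 = ∑ w : ZMod q, φ w := by
  -- `∑_w φ(w) K(w) = 0`
  have h1 : ∑ w : ZMod q, φ w * kerSum ψ w = 0 := by
    have e1 : ∀ v : ZMod q, ∑ w : ZMod q, (ψ (w - v))⁻¹ * φ w = 0 := by
      intro v
      rw [← h v]
      refine (Equiv.sum_comp (Equiv.addRight v) (fun w => (ψ (w - v))⁻¹ * φ w)).symm.trans ?_
      refine Finset.sum_congr rfl fun u _ => ?_
      simp
    have e2 : ∑ v : ZMod q, ψ (-v) * ∑ w : ZMod q, (ψ (w - v))⁻¹ * φ w = 0 := by
      simp only [e1, mul_zero, Finset.sum_const_zero]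
    simp only [Finset.mul_sum] at e2
    rw [Finset.sum_comm] at e2
    rw [← e2]
    refine Finset.sum_congr rfl fun w _ => ?_
    rw [kerSum, Finset.mul_sum]
    refine (Equiv.sum_comp (Equiv.neg (ZMod q))
      (fun s => φ w * (ψ s * (ψ (s + w))⁻¹))).symm.trans ?_
    refine Finset.sum_congr rfl fun v _ => ?_
    have e3 : (Equiv.neg (ZMod q)) v + w = w - v := by
      simp only [Equiv.neg_apply]
      ring
    rw [e3]
    simp only [Equiv.neg_apply]
    ring
  simp only [kerSum_eq ψ hψ] at h1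
  rw [← Finset.add_sum_erase Finset.univ _ (Finset.mem_univ (0 : ZMod q))] at h1 ⊢
  rw [if_pos rfl] at h1
  have h2 : ∑ w ∈ Finset.univ.erase (0 : ZMod q), φ w * (if w = 0 then (q : ℂ) - 1 else -1) =
      -∑ w ∈ Finset.univ.erase (0 : ZMod q), φ w := by
    rw [← Finset.sum_neg_distrib]
    refine Finset.sum_congr rfl fun w hw => ?_
    rw [if_neg (Finset.ne_of_mem_erase hw)]
    ring
  rw [h2] at h1
  linear_combination h1

/-- If all the `ψ⁻¹`-twisted sums of the translates of `φ` vanish, then `φ` is constant. -/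
theorem const_of_conv_eq_zero (ψ : DirichletCharacter ℂ q) (hψ : ψ ≠ 1)
    (φ : ZMod q → ℂ) (h : ∀ v : ZMod q, ∑ u : ZMod q, (ψ u)⁻¹ * φ (u + v) = 0)
    (a : ZMod q) : φ a = φ 0 := by
  have h0 := card_mul_eq_sum_of_conv_eq_zero ψ hψ φ h
  have ha := card_mul_eq_sum_of_conv_eq_zero ψ hψ (fun x => φ (x + a)) (fun v => by
    have := h (v + a)
    simpa only [add_assoc] using this)
  simp only [zero_add] at ha
  have hs : ∑ w : ZMod q, φ (w + a) = ∑ w : ZMod q, φ w :=
    Equiv.sum_comp (Equiv.addRight a) φ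
  rw [hs] at ha
  have hq : (q : ℂ) ≠ 0 := by
    exact_mod_cast (Fact.out : q.Prime).ne_zero
  have : (q : ℂ) * φ a = (q : ℂ) * φ 0 := by rw [ha, h0]
  exact mul_left_cancel₀ hq this

end CharSum

/-! ## Step 1: `twist f = 0` forces invariance under `tr (1/q)` -/

section Step1

variable {q : ℕ} [NeZero q]

theorem twist_slash_tr (ψ : DirichletCharacter ℂ q) {f : ℍ → ℂ} (hf : IsPer k f)
    (v : ZMod q) :
    (twist k q ψ f) ∣[k] tr ((v.val : ℝ) / q) =
      ∑ u : ZMod q, (ψ u)⁻¹ • shift k q f (u + v) := by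
  rw [twist, SlashAction.sum_slash]
  simp only [smul_slash_tr, shift_shift hf]

theorem shift_eq_of_twist_eq_zero (hq : q.Prime) (ψ : DirichletCharacter ℂ q) (hψ : ψ ≠ 1)
    {f : ℍ → ℂ} (hf : IsPer k f) (h0 : twist k q ψ f = 0) (u : ZMod q) :
    shift k q f u = f := by
  have : Fact q.Prime := ⟨hq⟩
  funext τ
  have h : ∀ v : ZMod q, ∑ u : ZMod q, (ψ u)⁻¹ * (shift k q f (u + v)) τ = 0 := by
    intro v
    have h1 := twist_slash_tr ψ hf v
    rw [h0, SlashAction.zero_slash] at h1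
    have h2 := congrFun h1 τ
    simp only [Pi.zero_apply, Finset.sum_apply, Pi.smul_apply, smul_eq_mul] at h2
    exact h2.symm
  have hc := const_of_conv_eq_zero ψ hψ (fun u => shift k q f u τ) h u
  rw [hc, shift_zero]

end Step1

/-! ## Step 2: the group-theoretic argument -/

section Step2

variable {M' q : ℕ} [NeZero q]

theorem tL_mem_Gamma0 (N : ℕ) : tL (N : ℤ) ∈ Gamma0 N := by
  rw [mem_Gamma0_iff_dvd]
  have : tL (N : ℤ) 1 0 = N := rfl
  rw [this]

theorem eq_zero_of_shift_eq (hcop : Nat.Coprime M' q) {χ : ℤ → ℂ}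
    (hχ : IsCharMod (M' * q) χ) {f : ℍ → ℂ} (hf : IsNeb k (M' * q) χ f)
    (hinv : ∀ u : ZMod q, shift k q f u = f) {d₀ : ℤ} (hd₁ : (M' : ℤ) ∣ d₀ - 1)
    (hd₂ : IsUnit ((d₀ : ℤ) : ZMod q)) (hd₃ : χ d₀ ≠ 1) : f = 0 := by
  have hper := hf.isPer hχ
  have hinv' : ∀ n : ℤ, f ∣[k] tr ((n : ℝ) / q) = f := fun n =>
    (slash_tr_div hper n).trans (hinv _)
  have hq0 : (q : ℤ) ≠ 0 := by exact_mod_cast NeZero.ne q
  -- the inverse of `M'` modulo `q`
  obtain ⟨m, hm⟩ := (ZMod.isUnit_iff_coprime M' q).mpr hcop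
  obtain ⟨w, hw⟩ := hd₂
  -- the integers `a`, `b`
  set a : ℤ :=
    (((((w⁻¹ : (ZMod q)ˣ) : ZMod q) - 1) * ((m⁻¹ : (ZMod q)ˣ) : ZMod q)).val : ℤ) with ha
  set b : ℤ := ((((w : ZMod q) - 1) * ((m⁻¹ : (ZMod q)ˣ) : ZMod q)).val : ℤ) with hb
  have hmm : ((m⁻¹ : (ZMod q)ˣ) : ZMod q) * (M' : ZMod q) = 1 := by
    rw [← hm, ← Units.val_mul, inv_mul_cancel, Units.val_one]
  have ha' : ((a : ℤ) : ZMod q) * (M' : ZMod q) = ((w⁻¹ : (ZMod q)ˣ) : ZMod q) - 1 := by
    rw [ha]
    push_cast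
    rw [ZMod.natCast_zmod_val, mul_assoc, hmm, mul_one]
  have hb' : ((b : ℤ) : ZMod q) * (M' : ZMod q) = (w : ZMod q) - 1 := by
    rw [hb]
    push_cast
    rw [ZMod.natCast_zmod_val, mul_assoc, hmm, mul_one]
  have hww : ((w⁻¹ : (ZMod q)ˣ) : ZMod q) * (w : ZMod q) = 1 := by
    rw [← Units.val_mul, inv_mul_cancel, Units.val_one]
  -- `q ∣ a + b + a b M'`
  have hdiv : (q : ℤ) ∣ a + b + a * b * M' := by
    rw [← ZMod.intCast_zmod_eq_zero_iff_dvd]
    have h1 : (((a + b + a * b * M' : ℤ) : ZMod q)) * (M' : ZMod q) = 0 := by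
      push_cast
      have : ((a : ZMod q) + b + a * b * M') * (M' : ZMod q) =
          (1 + (a : ZMod q) * M') * (1 + (b : ZMod q) * M') - 1 := by ring
      rw [this, ha', hb']
      have : (1 + (((w⁻¹ : (ZMod q)ˣ) : ZMod q) - 1)) * (1 + ((w : ZMod q) - 1)) - 1 =
          ((w⁻¹ : (ZMod q)ˣ) : ZMod q) * (w : ZMod q) - 1 := by ring
      rw [this, hww, sub_self]
    have h2 : ∀ x : ZMod q, x = x * (M' : ZMod q) * ((m⁻¹ : (ZMod q)ˣ) : ZMod q) := by
      intro x
      rw [mul_assoc, mul_comm (M' : ZMod q), hmm, mul_one]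
    rw [h2 ((a + b + a * b * M' : ℤ) : ZMod q), h1, zero_mul]
  obtain ⟨e, he⟩ := hdiv
  have he' : (q : ℤ) * e = a + b + a * b * M' := he.symm
  -- the matrix
  have hδ : sandwich M' q a b e he' ∈ Gamma0 (M' * q) := by
    rw [mem_Gamma0_iff_dvd, sandwich_apply_10]
    push_cast
    exact dvd_rfl
  have h1 := hf _ hδ
  rw [sandwich_apply_11] at h1
  -- `χ (1 + b M') = χ d₀`
  have hχd : χ (1 + b * M') = χ d₀ := by
    apply hχ.periodic
    have hcop' : IsCoprime (M' : ℤ) (q : ℤ) := Nat.Coprime.isCoprime hcop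
    have hM : (M' : ℤ) ∣ 1 + b * M' - d₀ := by
      have : 1 + b * M' - d₀ = b * M' - (d₀ - 1) := by ring
      rw [this]
      exact dvd_sub (Dvd.intro_left _ rfl) hd₁
    have hq : (q : ℤ) ∣ 1 + b * M' - d₀ := by
      rw [← ZMod.intCast_zmod_eq_zero_iff_dvd]
      push_cast
      rw [hb', ← hw]
      ring
    have := hcop'.mul_dvd hM hq
    push_cast
    exact this
  rw [hχd] at h1
  -- `f ∣ δ = f`
  have h2 : f ∣[k] sandwich M' q a b e he' = f := by
    have hq' : (((q : ℕ) : ℤ) : ℝ) = (q : ℝ) := by push_cast; rfl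
    have key := tr_mul_tL_mul_tr (M' := M') hq0 a b e he'
    rw [hq'] at key
    rw [sl_slash_mapGL, ← key, SlashAction.slash_mul, SlashAction.slash_mul, hinv' a,
      ← sl_slash_mapGL]
    have hL : tL ((M' : ℤ) * (q : ℤ)) ∈ Gamma0 (M' * q) := by
      have := tL_mem_Gamma0 (M' * q)
      push_cast at this
      exact this
    have h11 : tL ((M' : ℤ) * (q : ℤ)) 1 1 = 1 := rfl
    rw [hf _ hL, h11, hχ.one, one_smul, hinv' b]
  rw [h2] at h1
  have h3 : (χ d₀ - 1) • f = 0 := by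
    rw [sub_smul, one_smul, ← h1, sub_self]
  rcases smul_eq_zero.mp h3 with h4 | h4
  · exact absurd (sub_eq_zero.mp h4) hd₃
  · exact h4

/-- **T4.** Injectivity of the twist on forms whose nebentypus is ramified at `q`. -/
theorem twist_injective (hq : q.Prime) (hcop : Nat.Coprime M' q) {χ : ℤ → ℂ}
    (hχ : IsCharMod (M' * q) χ) (ψ : DirichletCharacter ℂ q) (hψ : ψ ≠ 1)
    {f : ℍ → ℂ} (hf : IsNeb k (M' * q) χ f) {d₀ : ℤ} (hd₁ : (M' : ℤ) ∣ d₀ - 1)
    (hd₂ : IsUnit ((d₀ : ℤ) : ZMod q)) (hd₃ : χ d₀ ≠ 1) (h0 : twist k q ψ f = 0) : f = 0 :=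
  eq_zero_of_shift_eq hcop hχ hf
    (shift_eq_of_twist_eq_zero hq ψ hψ (hf.isPer hχ) h0) hd₁ hd₂ hd₃

end Step2

end Fermat.Agent.S59.TW.H564

end
-- ===== PACK-END S59/TW/H564/TwistInj.lean

-- ===== PACK-BEGIN S59/TW/H59/CycloSurj.lean
section



/-!
# Row S59, cell TW, leaf CYC (helper59): inertia at `q` surjects onto `(ℤ/q)^×`

`cycloSurj : CycloSurjStatement`, from the total ramification of `ℚ(ζ_q)` at `q`
(`Fermat.Agent.S55.G.Rec.exists_inertia_cycloChar_eq63`) and the surjectivity of the mod `q`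
cyclotomic character (`cycloChar_surjective63`).
-/

set_option autoImplicit false
set_option linter.style.haveILetI false

namespace Fermat.Agent.S59.TW.H59

open Fermat.Agent.S59.TW Fermat.Agent.S55.G.Rec Fermat.Agent.S55.Bridge ExtCitation

/-- **CYC.** -/
theorem cycloSurj : CycloSurjStatement := by
  intro q hq P hP a
  haveI : Fact q.Prime := ⟨hq⟩
  obtain ⟨g, hg⟩ := cycloChar_surjective63 q a
  obtain ⟨σ, hσ, hσg⟩ := exists_inertia_cycloChar_eq63 q P hP g
  rw [hg] at hσg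
  refine ⟨σ, hσ, fun μ hμ => ?_⟩
  have hμ0 : μ ≠ 0 := by
    rintro rfl
    rw [zero_pow hq.ne_zero] at hμ
    exact zero_ne_one hμ
  have hmem : Units.mk0 μ hμ0 ∈ rootsOfUnity q (AlgebraicClosure ℚ) := by
    rw [mem_rootsOfUnity]
    apply Units.ext
    rw [Units.val_pow_eq_pow_val, Units.val_mk0, hμ, Units.val_one]
  have h := cycloChar_spec q σ hmem
  rw [Units.val_mk0, hσg] at h
  exact h

end Fermat.Agent.S59.TW.H59

end
-- ===== PACK-END S59/TW/H59/CycloSurj.lean

-- ===== PACK-BEGIN S59/TW/H659/Clean/Rel.lean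
section
/-
Row S59 / HARD (helper659): REL on the realizer-free chain.

`rel659 : S32.RelStatement` — the same statement as `S32.H692.rel`, but the closure of this file
contains NONE of the four modules which realize `S31.powTr.eq_def`
(`coord/CI-realized-collisions-helper475.md`), so it can be imported together with `S31.lean`,
`S34.lean`, `S59/G4/*`.  `S32.H692.rel` is the ONLY entry of `S31/H982/TracePow.lean` into the
chains of S32 and of S33.
-/




set_option autoImplicit false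

namespace Fermat.Agent.S59.TW.H659.Clean

/-- **REL** (realizer-free chain).  At a local point `P` of the coefficient ring of a datum, every
element of `G_ℚ` satisfies on the eigenmodule of `P.χ ∘ π` the characteristic polynomial of
`H.ρ`. -/
theorem rel659 : Fermat.Agent.S32.RelStatement :=
  rel_of_chebWeak659
    (Fermat.Agent.S30.H990.chebWeak_of_frobeniusDivision Fermat.Agent.Lib.Cheb.frobeniusDivision)

end Fermat.Agent.S59.TW.H659.Clean

end
-- ===== PACK-END S59/TW/H659/Clean/Rel.lean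

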