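import Mathlib
import Fermat.Prelude.Def_ModularCurve_JqCoeff
import Mathlib.RingTheory.Valuation.LocalSubring
import Mathlib.FieldTheory.IntermediateField.Adjoin.Algebra
import Fermat.Agent.Pack.S43MC.G0E15L0
import Fermat.Agent.Pack.S43MC.G0E15L1
import Fermat.Agent.Pack.S43MC.G0E15L2
import Fermat.Agent.Pack.S43MC.G0E15L3
import Fermat.Agent.Pack.S44C.G0E14L1
import Fermat.Agent.Pack.S43MC.G0E2L1
import Fermat.Agent.Pack.S44C.G0E1L2
import Fermat.Agent.Pack.S44C.G0E18L1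
import Fermat.Agent.Pack.S44C.G0E10L2
import Fermat.Agent.Pack.S44C.G0E6L1
import Fermat.Agent.Pack.S43MC.G0E16L3
import Fermat.Agent.Pack.S44C.G0E6L2
import Fermat.Agent.Pack.S43MC.G0E6L2
import Fermat.Agent.Pack.S43MC.G0E11L0
import Fermat.Agent.Pack.S44C.G0E18L3
import Fermat.Agent.Pack.S44C.G0E9L0
import Fermat.Agent.Pack.S43MC.G0E16L2
import Fermat.Agent.Pack.S43GC.G0E5L0
import Fermat.Agent.Pack.S43MC.G0E12L1
import Fermat.Agent.Pack.S43MC.G0E10L2
import Fermat.Agent.Pack.S43MC.G0E12L2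
import Fermat.Agent.Pack.S43MC.G0E10L3
import Fermat.Agent.Pack.S43MC.G0E16L1
import Fermat.Agent.Pack.S43MC.G0E14L1
import Fermat.Agent.Pack.S43MC.G0E14L0
import Fermat.Agent.Pack.S43GC.G0E13L3
import Fermat.Agent.Pack.S43MC.G0E16L0
import Fermat.Agent.Pack.Fast891

-- ===== PACK-BEGIN S26/Pic/Descent.lean
section


/-!
# Row S26, block PIC: descent of a locally trivial cocycle (formal half of P4; helper347)

`exists_descent`: let `π : P ⟶ X` be a morphism such that units on `π⁻¹ U` are exactly the units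
on `U` (for every open `U ⊆ X`).  A cocycle `c` on `P` which is a coboundary (after shrinking) over
`π⁻¹ (U p)`, for a family of opens `U p ∋ p` of `X`, has the class of the pull-back of a cocycle
on `X`.
-/

set_option autoImplicit false

open AlgebraicGeometry CategoryTheory TopologicalSpace Opposite

universe u

namespace Fermat.Agent.S26.Pic

noncomputable section

variable {P X : Scheme.{u}}

/-- Transport of the indices of a transition unit along equalities of points. -/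
lemma Cocycle.res_g_congr (c : Cocycle P) {a a' b b' : P} (ha : a = a') (hb : b = b')
    {W : P.Opens} (h1 : W ≤ c.U a ⊓ c.U b) (h2 : W ≤ c.U a' ⊓ c.U b') :
    res h1 (c.g a b) = res h2 (c.g a' b') := by
  subst ha hb; rfl

section CommGroupAux

variable {G : Type*} [CommGroup G]

lemma descent_aux₁ {gii' gi'k' gik gkk' hpi hpk hqi' hqk' : G}
    (e1 : gik * hpk = hpi) (e2 : gi'k' * hqk' = hqi') (e3 : gii' * gi'k' = gik * gkk') :
    gii' * hqi' * hpi⁻¹ = gkk' * hqk' * hpk⁻¹ := by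
  subst e1 e2
  rw [mul_inv_eq_iff_eq_mul]
  calc gii' * (gi'k' * hqk') = gii' * gi'k' * hqk' := (mul_assoc _ _ _).symm
    _ = gik * gkk' * hqk' := by rw [e3]
    _ = gkk' * hqk' * hpk⁻¹ * (gik * hpk) := by
      apply (Additive.ofMul (α := G)).injective
      simp only [ofMul_mul, ofMul_inv]
      abel

lemma descent_aux₂ {a b c d e f : G} (h : a * b = c) :
    (a * d * e⁻¹) * (b * f * d⁻¹) = c * f * e⁻¹ := by
  subst h
  apply (Additive.ofMul (α := G)).injective
  simp only [ofMul_mul, ofMul_inv]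
  abel

lemma descent_aux₃ (g h h' : G) : g * h' = h * (g * h' * h⁻¹) := by
  apply (Additive.ofMul (α := G)).injective
  simp only [ofMul_mul, ofMul_inv]
  abel

end CommGroupAux

/-- **Descent of a locally trivial cocycle.** -/
theorem exists_descent (π : P ⟶ X)
    (hinj : ∀ U : X.Opens, Function.Injective (pull π (le_refl (π ⁻¹ᵁ U))))
    (hsurj : ∀ U : X.Opens, Function.Surjective (pull π (le_refl (π ⁻¹ᵁ U))))
    (c : Cocycle P) (U : X → X.Opens) (hU : ∀ p, p ∈ U p)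
    (I : X → Type u) (ζ : ∀ p, I p → P) (hζ : ∀ p z, π z ∈ U p → ∃ i, ζ p i = z)
    (V : ∀ p, I p → P.Opens) (hV : ∀ p i, ζ p i ∈ V p i)
    (hVc : ∀ p i, V p i ≤ c.U (ζ p i)) (hVU : ∀ p i, V p i ≤ π ⁻¹ᵁ U p)
    (h : ∀ p i, Γ(P, V p i)ˣ)
    (H : ∀ p i i', res (inf_le_inf (hVc p i) (hVc p i')) (c.g (ζ p i) (ζ p i')) *
        res (inf_le_right : V p i ⊓ V p i' ≤ V p i') (h p i') =
      res (inf_le_left : V p i ⊓ V p i' ≤ V p i) (h p i)) :
    ∃ d : Cocycle X, cl c = cechPic.map π (cl d) := by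
  -- the local units on `V p i ⊓ V q i'`
  have hOc : ∀ p q (a : I p × I q),
      V p a.1 ⊓ V q a.2 ≤ c.U (ζ p a.1) ⊓ c.U (ζ q a.2) := fun p q a =>
    inf_le_inf (hVc p a.1) (hVc q a.2)
  have hOB : ∀ p q (a : I p × I q), V p a.1 ⊓ V q a.2 ≤ π ⁻¹ᵁ (U p ⊓ U q) := fun p q a =>
    (inf_le_inf (hVU p a.1) (hVU q a.2)).trans (inf_preimage_le π _ _)
  have hOcov : ∀ p q, ∀ z ∈ π ⁻¹ᵁ (U p ⊓ U q), ∃ a : I p × I q, z ∈ V p a.1 ⊓ V q a.2 := by
    intro p q z hz
    obtain ⟨i, hi⟩ := hζ p z hz.1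
    obtain ⟨i', hi'⟩ := hζ q z hz.2
    exact ⟨(i, i'), hi ▸ hV p i, hi' ▸ hV q i'⟩
  have hs : ∀ p q (a b : I p × I q),
      res (inf_le_left : (V p a.1 ⊓ V q a.2) ⊓ (V p b.1 ⊓ V q b.2) ≤ V p a.1 ⊓ V q a.2)
        (res (hOc p q a) (c.g (ζ p a.1) (ζ q a.2)) *
          res (inf_le_right : V p a.1 ⊓ V q a.2 ≤ V q a.2) (h q a.2) *
          (res (inf_le_left : V p a.1 ⊓ V q a.2 ≤ V p a.1) (h p a.1))⁻¹) =
      res (inf_le_right : (V p a.1 ⊓ V q a.2) ⊓ (V p b.1 ⊓ V q b.2) ≤ V p b.1 ⊓ V q b.2)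
        (res (hOc p q b) (c.g (ζ p b.1) (ζ q b.2)) *
          res (inf_le_right : V p b.1 ⊓ V q b.2 ≤ V q b.2) (h q b.2) *
          (res (inf_le_left : V p b.1 ⊓ V q b.2 ≤ V p b.1) (h p b.1))⁻¹) := by
    intro p q a b
    simp only [map_mul, map_inv, res_res]
    have e1 := congrArg (res (inf_le_inf inf_le_left inf_le_left :
      (V p a.1 ⊓ V q a.2) ⊓ (V p b.1 ⊓ V q b.2) ≤ V p a.1 ⊓ V p b.1)) (H p a.1 b.1)
    have e2 := congrArg (res (inf_le_inf inf_le_right inf_le_right :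
      (V p a.1 ⊓ V q a.2) ⊓ (V p b.1 ⊓ V q b.2) ≤ V q a.2 ⊓ V q b.2)) (H q a.2 b.2)
    simp only [map_mul, res_res] at e1 e2
    refine descent_aux₁ e1 e2 ?_
    have h3 : (V p a.1 ⊓ V q a.2) ⊓ (V p b.1 ⊓ V q b.2) ≤ c.U (ζ p a.1) ⊓ c.U (ζ q b.2) :=
      (inf_le_inf inf_le_left inf_le_right).trans (inf_le_inf (hVc p a.1) (hVc q b.2))
    exact (c.cocycle_on (W := (V p a.1 ⊓ V q a.2) ⊓ (V p b.1 ⊓ V q b.2)) _ _ h3).trans
      (c.cocycle_on (W := (V p a.1 ⊓ V q a.2) ⊓ (V p b.1 ⊓ V q b.2)) _ _ h3).symm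
  -- glue
  choose Gl hGl using fun p q => exists_glue_units (fun a : I p × I q => V p a.1 ⊓ V q a.2)
    (hOB p q) (hOcov p q) (fun a => res (hOc p q a) (c.g (ζ p a.1) (ζ q a.2)) *
          res (inf_le_right : V p a.1 ⊓ V q a.2 ≤ V q a.2) (h q a.2) *
          (res (inf_le_left : V p a.1 ⊓ V q a.2 ≤ V p a.1) (h p a.1))⁻¹) (hs p q)
  -- descend
  choose γ hγ using fun p q => hsurj (U p ⊓ U q) (Gl p q)
  have hpull : ∀ p q {W : P.Opens} (e : W ≤ π ⁻¹ᵁ (U p ⊓ U q)),
      pull π e (γ p q) = res e (Gl p q) := by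
    intro p q W e
    rw [← hγ, res_pull]
  -- the cocycle on `X`
  have hcoc : ∀ p q r,
      res (inf_le_left : U p ⊓ U q ⊓ U r ≤ U p ⊓ U q) (γ p q) *
        res (le_inf (inf_le_left.trans inf_le_right) inf_le_right :
          U p ⊓ U q ⊓ U r ≤ U q ⊓ U r) (γ q r) =
        res (le_inf (inf_le_left.trans inf_le_left) inf_le_right :
          U p ⊓ U q ⊓ U r ≤ U p ⊓ U r) (γ p r) := by
    intro p q r
    apply hinj
    simp only [map_mul, pull_res, hpull]
    -- check locally on `V p i ⊓ V q i' ⊓ V r i''`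
    have hO3 : ∀ a : I p × I q × I r,
        V p a.1 ⊓ V q a.2.1 ⊓ V r a.2.2 ≤ π ⁻¹ᵁ (U p ⊓ U q ⊓ U r) := fun a =>
      le_inf (le_inf (inf_le_left.trans (inf_le_left.trans (hVU p a.1)))
        (inf_le_left.trans (inf_le_right.trans (hVU q a.2.1)))) (inf_le_right.trans (hVU r a.2.2))
    refine eq_of_res_eq (fun a : I p × I q × I r => V p a.1 ⊓ V q a.2.1 ⊓ V r a.2.2) hO3
      ?_ _ _ fun a => ?_
    · intro z hz
      obtain ⟨i, hi⟩ := hζ p z hz.1.1
      obtain ⟨i', hi'⟩ := hζ q z hz.1.2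
      obtain ⟨i'', hi''⟩ := hζ r z hz.2
      exact ⟨(i, i', i''), ⟨hi ▸ hV p i, hi' ▸ hV q i'⟩, hi'' ▸ hV r i''⟩
    · simp only [map_mul, res_res]
      have e1 := congrArg (res (inf_le_left :
        V p a.1 ⊓ V q a.2.1 ⊓ V r a.2.2 ≤ V p a.1 ⊓ V q a.2.1)) (hGl p q (a.1, a.2.1))
      have e2 := congrArg (res (le_inf (inf_le_left.trans inf_le_right) inf_le_right :
        V p a.1 ⊓ V q a.2.1 ⊓ V r a.2.2 ≤ V q a.2.1 ⊓ V r a.2.2)) (hGl q r (a.2.1, a.2.2))
      have e3 := congrArg (res (le_inf (inf_le_left.trans inf_le_left) inf_le_right :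
        V p a.1 ⊓ V q a.2.1 ⊓ V r a.2.2 ≤ V p a.1 ⊓ V r a.2.2)) (hGl p r (a.1, a.2.2))
      simp only [map_mul, map_inv, res_res] at e1 e2 e3
      rw [e1, e2, e3]
      exact descent_aux₂ (c.cocycle_on _ _ _)
  let d : Cocycle X := ⟨U, hU, γ, hcoc⟩
  refine ⟨d, ?_⟩
  rw [map_cl, cl_eq_cl]
  -- choice of an index for every point of `P`
  choose idx hidx using fun z : P => hζ (π z) z (hU (π z))
  refine ⟨fun z => V (π z) (idx z), fun z => by
      have := hV (π z) (idx z)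
      rwa [hidx z] at this,
    fun z => (hVc (π z) (idx z)).trans (le_of_eq (congrArg c.U (hidx z))),
    fun z => hVU (π z) (idx z), fun z => h (π z) (idx z), fun z z' => ?_⟩
  have e1 := hGl (π z) (π z') (idx z, idx z')
  have e2 : res (inf_le_inf (hVU (π z) (idx z)) (hVU (π z') (idx z')))
      ((d.pullback π).g z z') = res (hOB (π z) (π z') (idx z, idx z')) (Gl (π z) (π z')) := by
    rw [res_pull]
    exact hpull _ _ _
  rw [e2, e1, c.res_g_congr (hidx z).symm (hidx z').symm _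
    (hOc (π z) (π z') (idx z, idx z'))]
  exact descent_aux₃ _ _ _

end

end Fermat.Agent.S26.Pic

end
-- ===== PACK-END S26/Pic/Descent.lean

-- ===== PACK-BEGIN S26/H326/DictCore.lean
section
/-
S26 helper (helper326), block PIC / DICT26, core 1: isomorphism criteria for modules which are
locally free of rank one, in sectionwise form.

* `exists_iso_of_locHoms` : compatible sectionwise isomorphisms on an open cover glue to an
  isomorphism of modules;
* `isIso_adj_of_isGenerating` : for `f : Y ⟶ X` and `ψ : L ⟶ f_* N` sending local generators of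
  `L` to local generators of `N`, the adjoint morphism `f^* L ⟶ N` is an isomorphism.
-/



set_option autoImplicit false
set_option linter.unusedVariables false

universe u

noncomputable section

open CategoryTheory AlgebraicGeometry TopologicalSpace Opposite Limits

namespace Fermat.Agent.S26.H326

open Fermat.Agent.S25.H626 (res resO res_res res_smul res_add app_res hom_ext_apply resO_resO
  unitMod toUnit ofUnit IsLocalGenerator eq_of_locally_eq_M eq_of_locally_eq_O exists_gluing_O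
  resO_mul resO_one)
open Fermat.Agent.S25.H326 (LocHom coverSet isDownBasis_coverSet pfVal pfVal_smul pfVal_res
  pfVal_ext pfTo pfOf coord coord_smul_gen coord_smul coord_add coord_res coord_gen coordHom
  coord_eq_of_smul_eq app_resO mkHom resHom resHom_apply cut cut_le_left cut_le_right le_cut
  cut_mono onOpen toCut ofCut toCut_ofCut ofCut_toCut toCut_res ofCut_res toCut_smul ofCut_smul
  cutMap toCut_cutMap_app probe probeVal probe_val probeVal_gen cut_preimage_le unit_smul_eq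
  res_res_cancel resO_resO_cancel)
open Fermat.Agent.S25

variable {X : Scheme.{u}}

/-! ### Gluing sectionwise morphisms on a cover -/

section GlueLocHom

variable {ι : Type u} (G : ι → X.Opens) {M N : X.Modules}

/-- The basis data of a compatible family of sectionwise morphisms. -/
def locHomData (φ : ∀ i, LocHom (G i) M N)
    (hφ : ∀ (i j : ι) (W : X.Opens) (hi : W ≤ G i) (hj : W ≤ G j) (s : Γ(M, W)),
      (φ i).app W hi s = (φ j).app W hj s) :
    H926.BasisHomData (coverSet G) M N where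
  a W hW := (φ hW.choose).app W hW.choose_spec
  nat W W' hW hW' h s := by
    show (φ hW'.choose).app W' hW'.choose_spec (res M h s) =
      res N h ((φ hW.choose).app W hW.choose_spec s)
    rw [hφ hW'.choose hW.choose W' hW'.choose_spec (h.trans hW.choose_spec),
      (φ hW.choose).app_res W W' hW.choose_spec h]
  lin W hW r s := (φ hW.choose).app_smul W hW.choose_spec r s

/-- Compatible sectionwise morphisms on an open cover glue to a morphism. -/
theorem exists_hom_of_locHoms (hG : ⨆ i, G i = ⊤) (φ : ∀ i, LocHom (G i) M N)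
    (hφ : ∀ (i j : ι) (W : X.Opens) (hi : W ≤ G i) (hj : W ≤ G j) (s : Γ(M, W)),
      (φ i).app W hi s = (φ j).app W hj s) :
    ∃ ψ : M ⟶ N, ∀ (i : ι) (W : X.Opens) (hi : W ≤ G i) (s : Γ(M, W)),
      ψ.app W s = (φ i).app W hi s := by
  have hB := isDownBasis_coverSet G hG
  refine ⟨(locHomData G φ hφ).glue hB, fun i W hi s => ?_⟩
  have hW : W ∈ coverSet G := ⟨i, hi⟩
  rw [(locHomData G φ hφ).glue_app_of_mem hB W hW s]
  exact hφ hW.choose i W hW.choose_spec hi s

/-- Two morphisms agreeing on the sections over the members of the basis of a cover agree. -/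
theorem hom_ext_of_cover (hG : ⨆ i, G i = ⊤) {ψ ψ' : M ⟶ N}
    (h : ∀ (i : ι) (W : X.Opens) (hi : W ≤ G i) (s : Γ(M, W)), ψ.app W s = ψ'.app W s) :
    ψ = ψ' :=
  H926.hom_ext_of_basis (isDownBasis_coverSet G hG) ψ ψ' (fun W hW s => h hW.choose W hW.choose_spec s)

/-- **Gluing isomorphisms.**  Compatible sectionwise isomorphisms on an open cover glue to an
isomorphism of modules. -/
theorem exists_iso_of_locHoms (hG : ⨆ i, G i = ⊤) (φ : ∀ i, LocHom (G i) M N)
    (hb : ∀ i, (φ i).IsBij)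
    (hφ : ∀ (i j : ι) (W : X.Opens) (hi : W ≤ G i) (hj : W ≤ G j) (s : Γ(M, W)),
      (φ i).app W hi s = (φ j).app W hj s) :
    ∃ ψ : M ≅ N, ∀ (i : ι) (W : X.Opens) (hi : W ≤ G i) (s : Γ(M, W)),
      ψ.hom.app W s = (φ i).app W hi s := by
  obtain ⟨ψ, hψ⟩ := exists_hom_of_locHoms G hG φ hφ
  have hφ' : ∀ (i j : ι) (W : X.Opens) (hi : W ≤ G i) (hj : W ≤ G j) (s : Γ(N, W)),
      ((φ i).symm (hb i)).app W hi s = ((φ j).symm (hb j)).app W hj s := by
    intro i j W hi hj s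
    apply (hb j W hj).1
    rw [LocHom.apply_symm_apply, ← hφ i j W hi hj, LocHom.apply_symm_apply]
  obtain ⟨ψ', hψ'⟩ := exists_hom_of_locHoms G hG (fun i => (φ i).symm (hb i)) hφ'
  refine ⟨⟨ψ, ψ', ?_, ?_⟩, hψ⟩
  · apply hom_ext_of_cover G hG
    intro i W hi s
    show ψ'.app W (ψ.app W s) = s
    rw [hψ i W hi, hψ' i W hi, LocHom.symm_apply_apply]
  · apply hom_ext_of_cover G hG
    intro i W hi s
    show ψ.app W (ψ'.app W s) = s
    rw [hψ' i W hi, hψ i W hi, LocHom.apply_symm_apply]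

end GlueLocHom

/-! ### Coordinates as a sectionwise isomorphism -/

section CoordLoc

variable {L : X.Modules} {W : X.Opens} {s : Γ(L, W)}

/-- The coordinate with respect to a local generator, as a sectionwise morphism to `𝒪_X`. -/
def coordLoc (hs : IsLocalGenerator L W s) : LocHom W L (unitMod X) where
  app W' h := AddMonoidHom.mk' (fun x => toUnit X W' (coord hs h x)) (fun x y => by
    rw [coord_add]
    rfl)
  app_smul W' h r x := by
    simp only [AddMonoidHom.mk'_apply]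
    rw [coord_smul]
    rfl
  app_res W' W'' h h' x := by
    simp only [AddMonoidHom.mk'_apply]
    rw [coord_res]
    rfl

theorem coordLoc_app (hs : IsLocalGenerator L W s) {W' : X.Opens} (h : W' ≤ W) (x : Γ(L, W')) :
    ofUnit X W' ((coordLoc hs).app W' h x) = coord hs h x := rfl

theorem isBij_coordLoc (hs : IsLocalGenerator L W s) : (coordLoc hs).IsBij := by
  intro W' h
  refine Function.bijective_iff_has_inverse.mpr
    ⟨fun a => ofUnit X W' a • res L h s, fun x => ?_, fun a => ?_⟩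
  · exact coord_smul_gen hs h x
  · show toUnit X W' (coord hs h (ofUnit X W' a • res L h s)) = a
    rw [coord_eq_of_smul_eq hs h _ _ rfl]
    rfl

/-- Multiplication with a section, as a sectionwise morphism from `𝒪_X`. -/
def smulLoc (P : X.Modules) {V : X.Opens} (e : Γ(P, V)) : LocHom V (unitMod X) P where
  app V' h := AddMonoidHom.mk' (fun r => ofUnit X V' r • res P h e) (fun r r' => by
    have : ofUnit X V' (r + r') = ofUnit X V' r + ofUnit X V' r' := rfl
    rw [this, add_smul])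
  app_smul V' h a r := by
    simp only [AddMonoidHom.mk'_apply]
    rw [unit_smul_eq, S25.H626.ofUnit_toUnit, mul_smul]
  app_res V' V'' h h' r := by
    simp only [AddMonoidHom.mk'_apply]
    rw [res_smul, res_res]
    rfl

theorem smulLoc_app (P : X.Modules) {V : X.Opens} (e : Γ(P, V)) {V' : X.Opens} (h : V' ≤ V)
    (r : Γ(unitMod X, V')) : (smulLoc P e).app V' h r = ofUnit X V' r • res P h e := rfl

/-- The restriction morphism `P ⟶ onOpen G P`. -/
def toOnOpen (G : X.Opens) (P : X.Modules) : P ⟶ onOpen G P :=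
  mkHom (fun W => (ofCut G P W).comp (resHom P (cut_le_right G W)))
    (fun W W' h s => by
      simp only [AddMonoidHom.comp_apply, resHom_apply]
      rw [res_res, ← ofCut_res, res_res])
    (fun W r s => by
      simp only [AddMonoidHom.comp_apply, resHom_apply]
      rw [res_smul, ofCut_smul])

theorem toCut_toOnOpen_app (G : X.Opens) (P : X.Modules) (W : X.Opens) (s : Γ(P, W)) :
    toCut G P W ((toOnOpen G P).app W s) = res P (cut_le_right G W) s := rfl

end CoordLoc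

/-! ### The pull-back of a local generator is a local generator -/

section GenPull

variable {T' : Scheme.{u}} (f : T' ⟶ X)

/-- The unit of the adjunction `f^* ⊣ f_*`. -/
def pbUnit (L : X.Modules) :
    L ⟶ (Scheme.Modules.pushforward f).obj ((Scheme.Modules.pullback f).obj L) :=
  (Scheme.Modules.pullbackPushforwardAdjunction f).homEquiv L
    ((Scheme.Modules.pullback f).obj L) (𝟙 _)

/-- The pull-back of a section of `L` to a section of `f^* L` (unit of the adjunction). -/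
def pbSec (L : X.Modules) (W : X.Opens) (s : Γ(L, W)) :
    Γ((Scheme.Modules.pullback f).obj L, f ⁻¹ᵁ W) :=
  pfVal (N := (Scheme.Modules.pullback f).obj L) (pbUnit f L) W s

theorem pbSec_smul (L : X.Modules) (W : X.Opens) (r : Γ(X, W)) (s : Γ(L, W)) :
    pbSec f L W (r • s) = f.app W r • pbSec f L W s :=
  pfVal_smul _ W r s

theorem pbSec_res (L : X.Modules) {W W' : X.Opens} (h : W' ≤ W) (s : Γ(L, W)) :
    pbSec f L W' (res L h s) =
      res ((Scheme.Modules.pullback f).obj L) (f.preimage_mono h) (pbSec f L W s) :=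
  pfVal_res _ h s

/-- The value of a morphism `f^* L ⟶ N` on a pulled back section is the value of the adjoint
morphism `L ⟶ f_* N`. -/
theorem app_pbSec {L : X.Modules} {N : T'.Modules} (φ : (Scheme.Modules.pullback f).obj L ⟶ N)
    (W : X.Opens) (s : Γ(L, W)) :
    φ.app (f ⁻¹ᵁ W) (pbSec f L W s) =
      pfVal ((Scheme.Modules.pullbackPushforwardAdjunction f).homEquiv L N φ) W s := by
  have h : (Scheme.Modules.pullbackPushforwardAdjunction f).homEquiv L N φ =
      pbUnit f L ≫ (Scheme.Modules.pushforward f).map φ := by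
    unfold pbUnit
    rw [← Adjunction.homEquiv_naturality_right, Category.id_comp]
  rw [h]
  rfl

variable {L : X.Modules} {W : X.Opens} {s : Γ(L, W)}

/-- **Pull-back of local generators.**  If `s` is a local generator of `L` on `W`, then its
pull-back is a local generator of `f^* L` on `f⁻¹ W`, for every morphism `f`. -/
theorem isLocalGenerator_pbSec (hs : IsLocalGenerator L W s) :
    IsLocalGenerator ((Scheme.Modules.pullback f).obj L) (f ⁻¹ᵁ W) (pbSec f L W s) := by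
  -- the coordinate morphism
  obtain ⟨p, hp⟩ : ∃ p : (Scheme.Modules.pullback f).obj L ⟶ onOpen (f ⁻¹ᵁ W) (unitMod T'),
      (Scheme.Modules.pullbackPushforwardAdjunction f).homEquiv L _ p = probe f hs :=
    ⟨((Scheme.Modules.pullbackPushforwardAdjunction f).homEquiv L _).symm (probe f hs),
      Equiv.apply_symm_apply _ _⟩
  have hpv : ∀ (W' : X.Opens) (s' : Γ(L, W')),
      ofUnit T' _ (toCut (f ⁻¹ᵁ W) (unitMod T') (f ⁻¹ᵁ W')
        (p.app (f ⁻¹ᵁ W') (pbSec f L W' s'))) = probeVal f hs W' s' := by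
    intro W' s'
    rw [app_pbSec, hp]
    exact probe_val f hs W' s'
  -- generation
  have hAB : toOnOpen (f ⁻¹ᵁ W) ((Scheme.Modules.pullback f).obj L) =
      p ≫ cutMap (smulLoc ((Scheme.Modules.pullback f).obj L) (pbSec f L W s)) := by
    apply ((Scheme.Modules.pullbackPushforwardAdjunction f).homEquiv L _).injective
    apply pfVal_ext
    intro W' s'
    rw [← app_pbSec, ← app_pbSec]
    have e2 : (p ≫ cutMap (smulLoc ((Scheme.Modules.pullback f).obj L)
        (pbSec f L W s))).app (f ⁻¹ᵁ W') (pbSec f L W' s') =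
        (cutMap (smulLoc ((Scheme.Modules.pullback f).obj L) (pbSec f L W s))).app (f ⁻¹ᵁ W')
          (p.app (f ⁻¹ᵁ W') (pbSec f L W' s')) := rfl
    rw [e2]
    suffices key : toCut (f ⁻¹ᵁ W) ((Scheme.Modules.pullback f).obj L) (f ⁻¹ᵁ W')
        ((toOnOpen (f ⁻¹ᵁ W) ((Scheme.Modules.pullback f).obj L)).app (f ⁻¹ᵁ W')
          (pbSec f L W' s')) =
        toCut (f ⁻¹ᵁ W) ((Scheme.Modules.pullback f).obj L) (f ⁻¹ᵁ W')
          ((cutMap (smulLoc ((Scheme.Modules.pullback f).obj L) (pbSec f L W s))).app (f ⁻¹ᵁ W')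
            (p.app (f ⁻¹ᵁ W') (pbSec f L W' s'))) from key
    rw [toCut_toOnOpen_app, toCut_cutMap_app, smulLoc_app, hpv W' s']
    unfold probeVal
    have h1 := coord_smul_gen hs (inf_le_right : W' ⊓ W ≤ W)
      (res L (inf_le_left : W' ⊓ W ≤ W') s')
    have h2 := congrArg (pbSec f L (W' ⊓ W)) h1
    rw [pbSec_smul, pbSec_res, pbSec_res] at h2
    have h3 := congrArg (res ((Scheme.Modules.pullback f).obj L) (cut_preimage_le f W W')) h2
    rw [res_smul, res_res, res_res] at h3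
    exact h3.symm
  intro V' hV'
  have hle : V' ≤ cut (f ⁻¹ᵁ W) V' := le_cut hV' le_rfl
  -- the value of `p` on the generator
  have hgen : resO hle (ofUnit T' _ (toCut (f ⁻¹ᵁ W) (unitMod T') V'
      (p.app V' (res ((Scheme.Modules.pullback f).obj L) hV' (pbSec f L W s))))) = 1 := by
    rw [app_res, toCut_res]
    have h1 : ofUnit T' _ (res (unitMod T') (cut_mono (le_refl (f ⁻¹ᵁ W)) hV')
        (toCut (f ⁻¹ᵁ W) (unitMod T') (f ⁻¹ᵁ W) (p.app (f ⁻¹ᵁ W) (pbSec f L W s)))) =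
        resO (cut_mono (le_refl (f ⁻¹ᵁ W)) hV') (ofUnit T' _
          (toCut (f ⁻¹ᵁ W) (unitMod T') (f ⁻¹ᵁ W) (p.app (f ⁻¹ᵁ W) (pbSec f L W s)))) := rfl
    rw [h1, hpv W s, probeVal_gen, resO_one, resO_one]
  -- the value of `p` on a multiple
  have hsmul : ∀ (r : Γ(T', V')) (m : Γ((Scheme.Modules.pullback f).obj L, V')),
      resO hle (ofUnit T' _ (toCut (f ⁻¹ᵁ W) (unitMod T') V' (p.app V' (r • m)))) =
        r * resO hle (ofUnit T' _ (toCut (f ⁻¹ᵁ W) (unitMod T') V' (p.app V' m))) := by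
    intro r m
    rw [Scheme.Modules.Hom.app_smul, toCut_smul, unit_smul_eq, S25.H626.ofUnit_toUnit, resO_mul,
      resO_resO_cancel]
  constructor
  · intro r r' hrr'
    simp only at hrr'
    have h1 := congrArg (fun m => resO hle (ofUnit T' _ (toCut (f ⁻¹ᵁ W) (unitMod T') V'
      (p.app V' m)))) hrr'
    simp only at h1
    rw [hsmul, hsmul, hgen, mul_one, mul_one] at h1
    exact h1
  · intro m
    refine ⟨resO hle (ofUnit T' _ (toCut (f ⁻¹ᵁ W) (unitMod T') V' (p.app V' m))), ?_⟩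
    simp only
    have h1 : toCut (f ⁻¹ᵁ W) ((Scheme.Modules.pullback f).obj L) V'
        ((toOnOpen (f ⁻¹ᵁ W) ((Scheme.Modules.pullback f).obj L)).app V' m) =
        toCut (f ⁻¹ᵁ W) ((Scheme.Modules.pullback f).obj L) V'
          ((cutMap (smulLoc ((Scheme.Modules.pullback f).obj L) (pbSec f L W s))).app V'
            (p.app V' m)) := by
      rw [hAB]
      rfl
    rw [toCut_toOnOpen_app, toCut_cutMap_app, smulLoc_app] at h1
    have h2 := congrArg (res ((Scheme.Modules.pullback f).obj L) hle) h1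
    rw [res_res_cancel, res_smul, res_res] at h2
    exact h2.symm

end GenPull

end Fermat.Agent.S26.H326

end

end
-- ===== PACK-END S26/H326/DictCore.lean

-- ===== PACK-BEGIN S26/C4/Assembly.lean
section


/-!
# Row S26, leaf C4: curves generate (assembly, helper478)

`curvesGenerate_of_ab : Stmt.Integral K → C4ab → C4cSum → C4cChain → Stmt.CurvesGenerate K`.

Proof.  Let `H ⊆ A(K)` be a subgroup containing the `K`-points of all pointed curves.  Among the
irreducible closed subsets `Z ∋ 0` all of whose `K`-points lie in `H` (e.g. `{0}`) choose a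
maximal one (`C4cChain`).  If `Z ≠ A`, `C4ab` gives a pointed curve `Γ` with a `K`-point outside
`Z`, and `C4cSum` an irreducible closed `Z' ⊇ Z ∪ ι(Γ)` whose `K`-points are sums of `K`-points
of `Z` and of `Γ`, hence lie in `H`: contradiction.
-/

set_option autoImplicit false
universe u

open CategoryTheory CategoryTheory.Limits AlgebraicGeometry NeronModelInfra GoodReductionJacobian
open TopologicalSpace

namespace Fermat.Agent.S26.C4

variable {K : Type u} [Field K]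

theorem ptOf_image_mem_range {X : AbVar K} (Γ : X.PtdCurve) (p : KPt Γ.str) :
    ptOf (Γ.image p) ∈ Set.range Γ.ι :=
  ⟨ptOf p, rfl⟩

/-- The core of the assembly, for a single abelian variety. -/
theorem forall_mem_of_curves (X : AbVar K) [IsSeparated X.str]
    [WellFoundedGT (IrreducibleCloseds X.A)]
    (hab : ∀ B : Set X.A, IsClosed B → IsIrreducible B → B ≠ Set.univ → ptOf X.zero ∈ B →
      ∃ (Γ : X.PtdCurve) (p : KPt Γ.str), ptOf (Γ.image p) ∉ B)
    (hsum : ∀ B : Set X.A, IsClosed B → IsIrreducible B → ptOf X.zero ∈ B →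
      ∀ Γ : X.PtdCurve, ∃ B' : Set X.A, IsClosed B' ∧ IsIrreducible B' ∧ B ⊆ B' ∧
        Set.range Γ.ι ⊆ B' ∧ ∀ x : X.Pt, ptOf x ∈ B' →
          ∃ (b : X.Pt) (p : KPt Γ.str), ptOf b ∈ B ∧ x = X.law.mul (𝟙 _) b (Γ.image p))
    (H : X.Pt → Prop) (h0 : H X.zero)
    (hmul : ∀ x y, H x → H y → H (X.law.mul (𝟙 _) x y))
    (hcurve : ∀ (Γ : X.PtdCurve) (p : KPt Γ.str), H (Γ.image p)) (x : X.Pt) : H x := by
  classical
  let 𝓑 : Set (IrreducibleCloseds X.A) :=
    {Z | ptOf X.zero ∈ (Z : Set X.A) ∧ ∀ x : X.Pt, ptOf x ∈ (Z : Set X.A) → H x}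
  have hne : 𝓑.Nonempty := by
    refine ⟨⟨{ptOf X.zero}, isIrreducible_singleton, isClosed_singleton_ptOf X.zero⟩,
      Set.mem_singleton _, fun x hx => ?_⟩
    have hx' : ptOf x = ptOf X.zero := hx
    rw [ptOf_injective hx']
    exact h0
  obtain ⟨Z, hZ, hmax⟩ := (wellFounded_gt (α := IrreducibleCloseds X.A)).has_min 𝓑 hne
  by_cases hZu : (Z : Set X.A) = Set.univ
  · exact hZ.2 x (hZu ▸ Set.mem_univ _)
  · exfalso
    obtain ⟨Γ, p, hp⟩ := hab Z Z.isClosed Z.isIrreducible hZu hZ.1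
    obtain ⟨B', hB'c, hB'i, hZB', hΓB', hpts⟩ := hsum Z Z.isClosed Z.isIrreducible hZ.1 Γ
    let Z' : IrreducibleCloseds X.A := ⟨B', hB'i, hB'c⟩
    have hZ' : Z' ∈ 𝓑 := by
      refine ⟨hZB' hZ.1, fun y hy => ?_⟩
      obtain ⟨b, q, hb, rfl⟩ := hpts y hy
      exact hmul _ _ (hZ.2 b hb) (hcurve Γ q)
    have hle : Z ≤ Z' := hZB'
    have hne' : Z ≠ Z' := by
      intro h
      apply hp
      have : ptOf (Γ.image p) ∈ (Z' : Set X.A) := hΓB' (ptOf_image_mem_range Γ p)
      rw [← h] at this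
      exact this
    exact hmax Z' hZ' (lt_of_le_of_ne hle hne')

variable (K)

/-- **C4 (assembly).**  Curves generate, from the leaves `C4ab`, `C4cSum`, `C4cChain` and the
integrality of abelian varieties. -/
theorem curvesGenerate_of_ab (hInt : Stmt.Integral K) (hab : Stmt.C4ab K)
    (hsum : Stmt.C4cSum K) (hchain : Stmt.C4cChain K) : Stmt.CurvesGenerate K := by
  intro X H h0 hmul _ hcurve x
  have : IsIntegral X.A := hInt X
  have : IsProper X.str := X.bundle.proper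
  have := hchain X
  refine forall_mem_of_curves X (fun B hB _ hBu h0B => hab X B hB hBu h0B)
    (fun B hB hBi h0B Γ => ?_) H h0 hmul hcurve x
  have := Γ.proper
  have := Γ.integral
  exact hsum X B hB hBi h0B Γ.C Γ.str Γ.ι Γ.ι_str Γ.base Γ.base_zero

end Fermat.Agent.S26.C4

end
-- ===== PACK-END S26/C4/Assembly.lean

-- ===== PACK-BEGIN S26/H926/AmpleTop.lean
section


/-!
# Row S26, block AMPLE: the glue `alpha_of` (helper926)

`Stmt.Alpha` from the leaves of `AmpleSpec.lean`, `Stmt.CDivOps`, `Stmt.LSDivOps` and the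
theorem of the square `Stmt.SquareLS`.
-/

set_option autoImplicit false
universe u

open CategoryTheory CategoryTheory.Limits AlgebraicGeometry NeronModelInfra GoodReductionJacobian

namespace Fermat.Agent.S26.H926

open Fermat.Agent.S26

noncomputable section

namespace Ample

variable {K : Type u} [Field K]

/-- The symmetric boundary divisor: an effective Cartier divisor `D` with support the
complement of a nonempty affine open `U`, with `[-1]^* D = D`. -/
theorem exists_symm_boundary (hS : FFStalk.{u}) (hN : NegInvol K) (h1 : SymmAffine K)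
    (h2 : Boundary K) (hOps : Stmt.CDivOps.{u}) (X : AbVar K) [IsIntegral X.A]
    (hneg : X.negHom (genericPoint X.A) = genericPoint X.A) :
    ∃ (U : X.A.Opens) (D : CDiv X.A), IsAffineOpen U ∧ (∃ a : X.A, a ∈ U) ∧
      (∀ a : X.A, Eff a (D.gen a)) ∧ (∀ a : X.A, a ∈ U ↔ Triv a (D.gen a)) ∧
      ∀ a : X.A, LS.span1 (ffMap X.negHom hneg (D.gen (X.negHom a))) a = LS.span1 (D.gen a) a := by
  obtain ⟨U, hUaff, hUne, hUsymm⟩ := h1 X
  obtain ⟨D₀, hD₀eff', hD₀U⟩ := h2 X U hUaff hUne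
  have hD₀eff : ∀ a : X.A, Eff a (D₀.gen a) := hD₀eff'
  obtain ⟨-, hmul₀, hpb₀⟩ := hOps X.A D₀
  obtain ⟨D₀n, hD₀n⟩ := hpb₀ X.A X.negHom hneg
  obtain ⟨D, hD⟩ := hmul₀ D₀n
  obtain ⟨hinv, hinvF⟩ := hN X hneg
  -- the local shape of `D`
  have hshape : ∀ a : X.A, LS.span1 (D.gen a) a =
      LS.span1 (D₀.gen a * ffMap X.negHom hneg (D₀.gen (X.negHom a))) a := fun a =>
    (hD a).trans (span1_mul_congr_right _ (hD₀n a))
  have heffn : ∀ a : X.A, Eff a (ffMap X.negHom hneg (D₀.gen (X.negHom a))) := fun a =>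
    eff_ffMap hS X.negHom hneg a (hD₀eff (X.negHom a))
  refine ⟨U, D, hUaff, hUne, fun a => ?_, fun a => ?_, fun a => ?_⟩
  · rw [eff_congr (hshape a)]
    exact (hD₀eff a).mul (heffn a)
  · rw [triv_congr (hshape a), triv_mul_iff (hD₀eff a) (heffn a),
      triv_ffMap_iff hS X.negHom hneg a (hD₀eff (X.negHom a)), ← hD₀U a, ← hD₀U (X.negHom a),
      hUsymm a, and_self]
  · have h3 := hshape (X.negHom a)
    rw [hinv a] at h3
    have h4 := span1_ffMap_congr hS X.negHom hneg a h3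
    rw [h4, map_mul, hinvF, hshape a, mul_comm]

/-- The section `h_x` of `I²` attached to a `K`-point `x` by the theorem of the square. -/
theorem exists_square_section (hS : FFStalk.{u}) (hT : TranslGeneric K)
    (hOps : Stmt.CDivOps.{u}) (hSq : Stmt.SquareLS K) (X : AbVar K) [IsIntegral X.A]
    (U : X.A.Opens) (D D2 : CDiv X.A) (hDeff : ∀ a : X.A, Eff a (D.gen a))
    (hDU : ∀ a : X.A, a ∈ U ↔ Triv a (D.gen a)) (hD2 : CDiv.IsPow D 2 D2) (x : X.Pt) :
    ∃ h : X.A.functionField, h ≠ 0 ∧ ∀ a : X.A, ∃ p : X.A.functionField, Eff a p ∧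
      (Triv a p ↔ (X.transl x a ∈ U ∧ X.transl (X.negPt x) a ∈ U)) ∧
      LS.span1 (D2.gen a) a = LS.span1 (h * p) a := by
  have hx := hT X x
  have hx' := hT X (X.negPt x)
  obtain ⟨-, -, hpb⟩ := hOps X.A D
  obtain ⟨D₁, hD₁⟩ := hpb X.A (X.transl x) hx
  obtain ⟨D₂, hD₂⟩ := hpb X.A (X.transl (X.negPt x)) hx'
  obtain ⟨-, hmul₁, -⟩ := hOps X.A D₁
  obtain ⟨D₃, hD₃⟩ := hmul₁ D₂
  obtain ⟨h, hh, hh'⟩ := hSq X x hx hx' D D₁ D₂ D₃ D2 hD₁ hD₂ hD₃ hD2
  refine ⟨h, hh, fun a => ⟨D₃.gen a, ?_, ?_, hh' a⟩⟩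
  · rw [eff_congr ((hD₃ a).trans (span1_mul_congr (hD₁ a) (hD₂ a)))]
    exact (eff_ffMap hS _ hx a (hDeff _)).mul (eff_ffMap hS _ hx' a (hDeff _))
  · rw [triv_congr ((hD₃ a).trans (span1_mul_congr (hD₁ a) (hD₂ a))),
      triv_mul_iff (eff_ffMap hS _ hx a (hDeff _)) (eff_ffMap hS _ hx' a (hDeff _)),
      triv_ffMap_iff hS _ hx a (hDeff _), triv_ffMap_iff hS _ hx' a (hDeff _),
      ← hDU, ← hDU]

/-- **Block AMPLE, glue.**  `Stmt.Alpha` from the leaves. -/
theorem alpha_of (hS : FFStalk.{u}) (hN : NegInvol K) (hT : TranslGeneric K)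
    (h1 : SymmAffine K) (h2 : Boundary K) (h3a : TranslAffine K) (h3b : Cover K)
    (h4 : Project K) (hOps : Stmt.CDivOps.{u}) (hLO : Stmt.LSDivOps.{u})
    (hSq : Stmt.SquareLS K) : Stmt.Alpha K := by
  intro X _ hneg
  obtain ⟨U, D, hUaff, hUne, hDeff, hDU, hDsymm⟩ := exists_symm_boundary hS hN h1 h2 hOps X hneg
  obtain ⟨hpow, -, -⟩ := hOps X.A D
  obtain ⟨D2, hD2⟩ := hpow 2
  obtain ⟨N, x, hcov⟩ := h3b X U hUne
  have key := exists_square_section hS hT hOps hSq X U D D2 hDeff hDU hD2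
  choose h hh0 hh using key
  set w : Fin (N + 1) → X.A.functionField := fun j => h (x j) with hw
  -- every member of `w` is a section of `I²`
  have hmem : ∀ (a : X.A) (j : Fin (N + 1)), w j ∈ LS.span1 (D2.gen a) a := by
    intro a j
    obtain ⟨p, hp, -, hp2⟩ := hh (x j) a
    rw [hp2]
    obtain ⟨c, hc⟩ := inO_iff.1 hp.inO_inv
    refine mem_span1_iff.2 ⟨c, ?_⟩
    rw [Algebra.smul_def, hc, mul_comm, mul_assoc, mul_inv_cancel₀ hp.ne_zero, mul_one]
  -- where `w j` generates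
  have hgen : ∀ (a : X.A) (j : Fin (N + 1)),
      LS.span1 (w j) a = LS.span1 (D2.gen a) a ↔
        (X.transl (x j) a ∈ U ∧ X.transl (X.negPt (x j)) a ∈ U) := by
    intro a j
    obtain ⟨p, hp, hp1, hp2⟩ := hh (x j) a
    rw [hp2, ← hp1, triv_iff_span1_mul (hh0 (x j)), eq_comm]
  -- `w` is a system with divisor `D2`
  have hwD2 : CDiv.IsOfSystem w D2 := by
    intro a
    apply le_antisymm
    · rw [LS.span, Submodule.span_le]
      rintro _ ⟨j, rfl⟩
      exact hmem a j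
    · obtain ⟨j, hj⟩ := hcov a
      rw [← (hgen a j).2 hj]
      exact Submodule.span_mono (Set.singleton_subset_iff.2 ⟨j, rfl⟩)
  have hGenAt : ∀ (a : X.A) (j : Fin (N + 1)),
      LS.GenAt w a j ↔ (X.transl (x j) a ∈ U ∧ X.transl (X.negPt (x j)) a ∈ U) := by
    intro a j
    rw [← hgen a j, LS.GenAt, hwD2 a]
    constructor
    · rintro ⟨-, h2⟩
      exact h2.symm
    · intro h2
      exact ⟨hh0 (x j), h2.symm⟩
  have hGood : LS.Good w := by
    refine ⟨fun a => ?_, fun j => ?_⟩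
    · obtain ⟨j, hj⟩ := hcov a
      exact ⟨j, (hGenAt a j).2 hj⟩
    · obtain ⟨V, hV, hV'⟩ := h3a X U hUaff (x j)
      exact ⟨V, hV, fun a => (hV' a).trans (hGenAt a j).symm⟩
  obtain ⟨u, huGood, huInd, hudeg, husame⟩ := h4 X N w hGood
  refine ⟨u, huGood, huInd, hudeg, 1, one_ne_zero, fun a => ?_⟩
  -- symmetry
  have huD2 : CDiv.IsOfSystem u D2 := fun a => (husame a).trans (hwD2 a)
  obtain ⟨-, -, hpb2⟩ := hOps X.A D2
  obtain ⟨D2n, hD2n⟩ := hpb2 X.A X.negHom hneg
  have h5 := (hLO X.A X.dim u D2 huD2).2 X.A X.negHom hneg D2n hD2n a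
  simp only [one_mul]
  rw [h5, huD2 a, hD2n a, hD2 a,
    span1_ffMap_congr hS X.negHom hneg a (hD2 (X.negHom a)), map_pow]
  exact span1_pow_congr (hDsymm a) 2

end Ample

end

end Fermat.Agent.S26.H926

end
-- ===== PACK-END S26/H926/AmpleTop.lean

-- ===== PACK-BEGIN Lib/Haupt/Main.lean
section



/-!
# Hauptmoduln of `Γ₀(2)` and `Γ₀(3)`: the relations with `j` (helper637)

For every commutative ring `K`:

* `t2 K = Δ(q)/Δ(q²) = q⁻¹ ∏ (1 - qⁿ)²⁴ / (1 - q²ⁿ)²⁴ ∈ K((q))`,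
  `jq_mul_t2_sq  : j · t₂² = (t₂ + 256)³`,
  `jq2_mul_t2    : j(q²) · t₂ = (t₂ + 16)³`;
* `t3 K = q⁻¹ ∏ (1 - qⁿ)¹² / (1 - q³ⁿ)¹² ∈ K((q))`,
  `jq_mul_t3_cube : j · t₃³ = (t₃ + 27)(t₃ + 243)³`,
  `jq3_mul_t3     : j(q³) · t₃ = (t₃ + 27)(t₃ + 3)³`,

where `j = ModularCurve.jqModC K` and `j(q^d) = ModularCurve.qExpand K d (jqModC K)`
(`= jqNModC K d`).  The integral power series versions are `T2_rel₁`, `T2_rel₂`, `T3_rel₁`,
`T3_rel₂`.
-/

set_option autoImplicit false

noncomputable section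

namespace Fermat.Agent.Lib.Haupt

open PowerSeries

/-- `P(X²)²⁴`. -/
abbrev Q2 : PowerSeries ℤ := ex 2 PZ ^ 24
/-- `P(X³)¹²`. -/
abbrev Q3 : PowerSeries ℤ := ex 3 PZ ^ 12

theorem constantCoeff_Q2 : constantCoeff Q2 = 1 := by
  rw [Q2, map_pow, constantCoeff_ex, constantCoeff_PZ, one_pow]

theorem constantCoeff_Q3 : constantCoeff Q3 = 1 := by
  rw [Q3, map_pow, constantCoeff_ex, constantCoeff_PZ, one_pow]

/-- `q · t₂ = ∏ (1 - qⁿ)²⁴ / (1 - q²ⁿ)²⁴` as an integral power series. -/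
def T2 : PowerSeries ℤ := PZ ^ 24 * Q2.invOfUnit 1

/-- `q · t₃ = ∏ (1 - qⁿ)¹² / (1 - q³ⁿ)¹²` as an integral power series. -/
def T3 : PowerSeries ℤ := PZ ^ 12 * Q3.invOfUnit 1

theorem T2_mul_Q2 : T2 * Q2 = PZ ^ 24 := by
  rw [T2, mul_assoc, mul_comm (Q2.invOfUnit 1),
    PowerSeries.mul_invOfUnit _ _ (by rw [constantCoeff_Q2]; rfl), mul_one]

theorem T3_mul_Q3 : T3 * Q3 = PZ ^ 12 := by
  rw [T3, mul_assoc, mul_comm (Q3.invOfUnit 1),
    PowerSeries.mul_invOfUnit _ _ (by rw [constantCoeff_Q3]; rfl), mul_one]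

theorem constantCoeff_T2 : constantCoeff T2 = 1 := by
  have h := congrArg constantCoeff T2_mul_Q2
  rwa [map_mul, constantCoeff_Q2, mul_one, map_pow, constantCoeff_PZ, one_pow] at h

theorem constantCoeff_T3 : constantCoeff T3 = 1 := by
  have h := congrArg constantCoeff T3_mul_Q3
  rwa [map_mul, constantCoeff_Q3, mul_one, map_pow, constantCoeff_PZ, one_pow] at h

theorem jNum_mul_P24 : ModularCurve.jNum * PZ ^ 24 = E4Z ^ 3 := by
  have h := ModularCurve.dedekindEtaUnit_mul_inv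
  rw [ModularCurve.dedekindEtaUnit] at h
  rw [ModularCurve.jNum, mul_assoc, mul_comm ModularCurve.dedekindEtaUnitInv, h, mul_one]

theorem Q2_ne_zero : Q2 ≠ 0 := fun h => by
  have := constantCoeff_Q2; rw [h, map_zero] at this; exact zero_ne_one this

theorem Q3_ne_zero : Q3 ≠ 0 := fun h => by
  have := constantCoeff_Q3; rw [h, map_zero] at this; exact zero_ne_one this

theorem PZ_ne_zero : PZ ≠ 0 := fun h => by
  have := constantCoeff_PZ; rw [h, map_zero] at this; exact zero_ne_one this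

/-- `j · t₂² = (t₂ + 256)³`, integral power series form. -/
theorem T2_rel₁ : ModularCurve.jNum * T2 ^ 2 = (T2 + C 256 * X) ^ 3 := by
  apply mul_right_cancel₀ (mul_ne_zero (pow_ne_zero 24 PZ_ne_zero) (pow_ne_zero 3 Q2_ne_zero))
  calc ModularCurve.jNum * T2 ^ 2 * (PZ ^ 24 * Q2 ^ 3)
      = (ModularCurve.jNum * PZ ^ 24) * (T2 * Q2) ^ 2 * Q2 := by ring
    _ = (E4Z ^ 3 * (PZ ^ 24 * Q2)) * PZ ^ 24 := by rw [jNum_mul_P24, T2_mul_Q2]; ring
    _ = (PZ ^ 24 + C 256 * (X * Q2)) ^ 3 * PZ ^ 24 := by rw [ps1]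
    _ = (T2 * Q2 + C 256 * (X * Q2)) ^ 3 * PZ ^ 24 := by rw [T2_mul_Q2]
    _ = (T2 + C 256 * X) ^ 3 * (PZ ^ 24 * Q2 ^ 3) := by ring

theorem ex_jNum_mul (d : ℕ) [NeZero d] :
    ex d ModularCurve.jNum * ex d PZ ^ 24 = ex d E4Z ^ 3 := by
  rw [← map_pow, ← map_mul, jNum_mul_P24, map_pow]

/-- `j(q²) · t₂ = (t₂ + 16)³`, integral power series form. -/
theorem T2_rel₂ : ex 2 ModularCurve.jNum * T2 = (T2 + C 16 * X) ^ 3 := by
  apply mul_right_cancel₀ (pow_ne_zero 3 Q2_ne_zero)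
  calc ex 2 ModularCurve.jNum * T2 * Q2 ^ 3
      = (ex 2 ModularCurve.jNum * ex 2 PZ ^ 24) * (T2 * Q2) * Q2 := by ring
    _ = ex 2 E4Z ^ 3 * (PZ ^ 24 * Q2) := by rw [ex_jNum_mul, T2_mul_Q2]; ring
    _ = (PZ ^ 24 + C 16 * (X * Q2)) ^ 3 := by rw [ps2]
    _ = (T2 * Q2 + C 16 * (X * Q2)) ^ 3 := by rw [T2_mul_Q2]
    _ = (T2 + C 16 * X) ^ 3 * Q2 ^ 3 := by ring

/-- `j · t₃³ = (t₃ + 27)(t₃ + 243)³`, integral power series form. -/
theorem T3_rel₁ :
    ModularCurve.jNum * T3 ^ 3 = (T3 + C 27 * X) * (T3 + C 243 * X) ^ 3 := by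
  apply mul_right_cancel₀ (mul_ne_zero (pow_ne_zero 24 PZ_ne_zero) (pow_ne_zero 4 Q3_ne_zero))
  calc ModularCurve.jNum * T3 ^ 3 * (PZ ^ 24 * Q3 ^ 4)
      = (ModularCurve.jNum * PZ ^ 24) * (T3 * Q3) ^ 3 * Q3 := by ring
    _ = (E4Z ^ 3 * (PZ ^ 12 * Q3)) * PZ ^ 24 := by rw [jNum_mul_P24, T3_mul_Q3]; ring
    _ = (PZ ^ 12 + C 27 * (X * Q3)) * (PZ ^ 12 + C 243 * (X * Q3)) ^ 3 * PZ ^ 24 := by
        rw [ps3]
    _ = (T3 * Q3 + C 27 * (X * Q3)) * (T3 * Q3 + C 243 * (X * Q3)) ^ 3 * PZ ^ 24 := by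
        rw [T3_mul_Q3]
    _ = (T3 + C 27 * X) * (T3 + C 243 * X) ^ 3 * (PZ ^ 24 * Q3 ^ 4) := by ring

/-- `j(q³) · t₃ = (t₃ + 27)(t₃ + 3)³`, integral power series form. -/
theorem T3_rel₂ :
    ex 3 ModularCurve.jNum * T3 = (T3 + C 27 * X) * (T3 + C 3 * X) ^ 3 := by
  apply mul_right_cancel₀ (pow_ne_zero 4 Q3_ne_zero)
  have hQ : ex 3 PZ ^ 24 = Q3 ^ 2 := by rw [Q3]; ring
  calc ex 3 ModularCurve.jNum * T3 * Q3 ^ 4
      = (ex 3 ModularCurve.jNum * ex 3 PZ ^ 24) * (T3 * Q3) * Q3 := by rw [hQ]; ring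
    _ = ex 3 E4Z ^ 3 * (PZ ^ 12 * Q3) := by rw [ex_jNum_mul, T3_mul_Q3]; ring
    _ = (PZ ^ 12 + C 27 * (X * Q3)) * (PZ ^ 12 + C 3 * (X * Q3)) ^ 3 := by rw [ps4]
    _ = (T3 * Q3 + C 27 * (X * Q3)) * (T3 * Q3 + C 3 * (X * Q3)) ^ 3 := by rw [T3_mul_Q3]
    _ = (T3 + C 27 * X) * (T3 + C 3 * X) ^ 3 * Q3 ^ 4 := by ring

end Fermat.Agent.Lib.Haupt

end
end
-- ===== PACK-END Lib/Haupt/Main.lean

-- ===== PACK-BEGIN S13/AtTwo511.lean
section







/-!
# The Frey curve at the prime `2`: inertia is unipotent on `E[p]` (S13/T4)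
-/

set_option autoImplicit false

namespace Fermat.Agent.S13.AtTwo511

open WeierstrassCurve WeierstrassCurve.Affine WeierstrassCurve.Affine.Point
open Fermat.Agent.S05 Fermat.Agent.S05.Assemble Fermat.Agent.S05.SameRed
open Fermat.Agent.S13.Comp2

section arithmetic

variable (P : FreyPackage)

lemma two_dvd_b : (2 : ℤ) ∣ P.b := (ZMod.intCast_zmod_eq_zero_iff_dvd P.b 2).1 P.hb2

lemma not_two_dvd_a : ¬ (2 : ℤ) ∣ P.a := by
  rintro ⟨k, hk⟩
  have h := P.ha4
  rw [hk] at h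
  push_cast at h
  have h2 : (2 : ZMod 4) * ((2 : ZMod 4) * (k : ZMod 4)) = 2 * 3 := by rw [h]
  rw [← mul_assoc] at h2
  have h4 : (2 : ZMod 4) * 2 = 0 := by decide
  rw [h4, zero_mul] at h2
  exact absurd h2 (by decide)

lemma four_dvd_a₂_num : (4 : ℤ) ∣ P.b ^ P.p - 1 - P.a ^ P.p := by
  have hb : (4 : ℤ) ∣ P.b ^ P.p := by
    have h1 : (2 : ℤ) ^ P.p ∣ P.b ^ P.p := pow_dvd_pow_of_dvd (two_dvd_b P) _
    have h2 : (2 : ℤ) ^ 2 ∣ 2 ^ P.p := pow_dvd_pow 2 (by have := P.hp5; omega)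
    have h3 : (4 : ℤ) = 2 ^ 2 := by norm_num
    rw [h3]
    exact h2.trans h1
  have ha : (4 : ℤ) ∣ P.a ^ P.p + 1 := by
    have h0 : ((P.a ^ P.p + 1 : ℤ) : ZMod 4) = 0 := by
      push_cast
      rw [P.ha4]
      have h3 : (3 : ZMod 4) = -1 := by decide
      rw [h3, P.hp_odd.neg_one_pow]
      ring
    exact_mod_cast (ZMod.intCast_zmod_eq_zero_iff_dvd _ 4).mp h0
  have e : P.b ^ P.p - 1 - P.a ^ P.p = P.b ^ P.p - (P.a ^ P.p + 1) := by ring
  rw [e]
  exact dvd_sub hb ha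

lemma thirtytwo_dvd_b_pow : (32 : ℤ) ∣ P.b ^ P.p := by
  have h1 : (2 : ℤ) ^ P.p ∣ P.b ^ P.p := pow_dvd_pow_of_dvd (two_dvd_b P) _
  have h2 : (2 : ℤ) ^ 5 ∣ 2 ^ P.p := pow_dvd_pow 2 P.hp5
  have h3 : (32 : ℤ) = 2 ^ 5 := by norm_num
  rw [h3]
  exact h2.trans h1

lemma not_two_dvd_b₂ : ¬ (2 : ℤ) ∣ P.b ^ P.p - P.a ^ P.p := by
  intro h
  have hb : (2 : ℤ) ∣ P.b ^ P.p := dvd_pow (two_dvd_b P) P.hp0
  have ha : (2 : ℤ) ∣ P.a ^ P.p := by
    have := dvd_sub hb h
    simpa using this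
  exact not_two_dvd_a P (Int.prime_two.dvd_of_dvd_pow ha)

end arithmetic

section valuations

variable (P : FreyPackage) {A : ValuationSubring Qb}

lemma val_two_lt_one (hA : A.LiesOverPrime 2) : A.valuation (2 : Qb) < 1 := by
  have := (A.mem_nonunits_iff).mp hA
  simpa using this

lemma frey_a₂_int : ∃ m : ℤ, (P.freyCurve⁄Qb).a₂ = (m : Qb) := by
  obtain ⟨m, hm⟩ := four_dvd_a₂_num P
  refine ⟨m, ?_⟩
  rw [frey_a₂]
  have h : fB P - 1 - fA P = 4 * (m : Qb) := by
    simp only [fA, fB]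
    exact_mod_cast congrArg (Int.cast : ℤ → Qb) hm
  rw [h]
  field_simp

lemma frey_a₄_int : ∃ m : ℤ, (P.freyCurve⁄Qb).a₄ = 2 * (m : Qb) := by
  obtain ⟨m, hm⟩ := thirtytwo_dvd_b_pow P
  refine ⟨-(P.a ^ P.p * m), ?_⟩
  rw [frey_a₄]
  have h : fB P = 32 * (m : Qb) := by
    simp only [fB]
    exact_mod_cast congrArg (Int.cast : ℤ → Qb) hm
  rw [h]
  simp only [fA]
  push_cast
  ring

lemma frey_a₄_ne_zero : (P.freyCurve⁄Qb).a₄ ≠ 0 := by
  rw [frey_a₄]
  exact div_ne_zero (mul_ne_zero (neg_ne_zero.mpr (fA_ne_zero P)) (fB_ne_zero P)) (by norm_num)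

lemma val_frey_a₄_lt_one (hA : A.LiesOverPrime 2) :
    A.valuation (P.freyCurve⁄Qb).a₄ < 1 := by
  obtain ⟨m, hm⟩ := frey_a₄_int P
  rw [hm, map_mul]
  exact (mul_le_of_le_one_right' (val_int_le_one m)).trans_lt (val_two_lt_one hA)

lemma frey_b₂ : (P.freyCurve⁄Qb).b₂ = ((P.b ^ P.p - P.a ^ P.p : ℤ) : Qb) := by
  rw [WeierstrassCurve.b₂, frey_a₁, frey_a₂]
  simp only [fA, fB]
  push_cast
  field_simp
  ring

lemma val_frey_b₂ (hA : A.LiesOverPrime 2) : A.valuation (P.freyCurve⁄Qb).b₂ = 1 := by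
  rw [frey_b₂]
  exact val_int_eq_one hA Nat.prime_two (by exact_mod_cast not_two_dvd_b₂ P)

lemma frey_integral_two (hA : A.LiesOverPrime 2) :
    IntegralCoeffs (P.freyCurve⁄Qb) A.valuation := by
  refine ⟨?_, ?_, ?_, ?_, ?_⟩
  · rw [frey_a₁, map_one]
  · obtain ⟨m, hm⟩ := frey_a₂_int P
    rw [hm]; exact val_int_le_one m
  · rw [frey_a₃, _root_.map_zero]; exact zero_le_one
  · exact (val_frey_a₄_lt_one P hA).le
  · rw [frey_a₆, _root_.map_zero]; exact zero_le_one

lemma val_p_eq_one_two (hA : A.LiesOverPrime 2) : A.valuation (P.p : Qb) = 1 := by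
  refine val_nat_eq_one hA Nat.prime_two ?_
  intro h
  have := (Nat.prime_dvd_prime_iff_eq Nat.prime_two P.pp).mp h
  have := P.hp5
  omega

/-- The nodal model of the Frey curve at a place over `2`. -/
lemma exists_frey_nodeModel2 (hA : A.LiesOverPrime 2) :
    Nonempty (NodeModel2 A.valuation (P.freyCurve⁄Qb)) :=
  exists_nodeModel2 _ (frey_a₃ P) (frey_a₆ P) (val_frey_b₂ P hA) (val_frey_a₄_lt_one P hA)
    (frey_a₄_ne_zero P)

end valuations

section inertia

variable (P : FreyPackage) {A : ValuationSubring Qb}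

lemma mem_decomposition_of_mem_inertia {σ : Qb ≃ₐ[ℚ] Qb} (hσ : σ ∈ A.inertiaSubgroupIn ℚ) :
    σ ∈ A.decompositionSubgroup ℚ := by
  obtain ⟨g, -, rfl⟩ := hσ
  exact g.2

/-- A `p`-torsion point with nonsingular reduction at `2` is fixed by inertia. -/
theorem smul_eq_self_of_mem_E0 (hA : A.LiesOverPrime 2)
    (M : NodeModel2 A.valuation (P.freyCurve⁄Qb))
    {σ : Qb ≃ₐ[ℚ] Qb} (hσ : σ ∈ A.inertiaSubgroupIn ℚ)
    (Q : (P.freyCurve⁄Qb).Point) (hQ : Q ∈ M.E0) (hQp : (P.p : ℤ) • Q = 0) :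
    σ • Q = Q := by
  have hW := frey_integral_two P hA
  have hp1 := val_p_eq_one_two P hA
  have hres := inertia_res A hσ
  have hC1 : ∀ R : (P.freyCurve⁄Qb).Point, InKer (P.freyCurve⁄Qb) A.valuation R →
      (P.p : ℤ) • R = 0 → R = 0 :=
    fun R hR h => C1b.eq_zero_of_inKer_of_zsmul_eq_zero hW P.p hp1 R hR h
  rcases Q with _ | ⟨x, y, h⟩
  · rfl
  · have hx1 : 1 ≤ A.valuation x := (M.some_mem_E0_iff h).mp hQ
    have hQp' : P.p • Point.some x y h = 0 := by rwa [natCast_zsmul] at hQp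
    obtain ⟨hx, hy⟩ := C1b.val_x_le_one_of_nsmul_eq_zero hW hp1 h hQp'
    have hxe : A.valuation x = 1 := le_antisymm hx hx1
    refine GoodRed.smul_eq_self_of_nonsingular_reduction hW σ hres (P.p : ℤ) hC1 h hx
      (Or.inr ?_) hQp
    rw [frey_a₁, frey_a₃, add_zero, one_mul]
    have h2y : A.valuation (2 * y) < 1 := by
      rw [map_mul]
      exact (mul_le_of_le_one_right' hy).trans_lt (val_two_lt_one hA)
    rw [Valuation.map_add_eq_of_lt_right _ (by rw [hxe]; exact h2y), hxe]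

/-- **S13/T4, pointwise form**: for every place over `2` and every `σ` in its inertia group,
`(σ - 1)² = 0` on `E[p]`. -/
theorem unipotent_at_two_point (hA : A.LiesOverPrime 2)
    {σ : Qb ≃ₐ[ℚ] Qb} (hσ : σ ∈ A.inertiaSubgroupIn ℚ)
    (pt : (P.freyCurve⁄Qb).Point) (hpt : (P.p : ℤ) • pt = 0) :
    σ • (σ • pt - pt) = σ • pt - pt := by
  obtain ⟨M⟩ := exists_frey_nodeModel2 P hA
  have hW := frey_integral_two P hA
  have hdec := mem_decomposition_of_mem_inertia hσ
  haveI : Algebra.IsAlgebraic ℚ Qb := AlgebraicClosure.isAlgebraic ℚ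
  have hv : ∀ t : Qb, A.valuation (σ t) = A.valuation t :=
    fun t => ValInv511.val_map_eq A hdec t
  have hres := inertia_res A hσ
  have hQ : σ • pt - pt ∈ M.E0 := M.smul_sub_mem_E0 σ hv hres hW.a₁ hW.a₂ pt
  have hQp : (P.p : ℤ) • (σ • pt - pt) = 0 := by
    rw [zsmul_sub, ← Point.algEquiv_smul_zsmul, hpt, smul_zero, sub_zero]
  exact smul_eq_self_of_mem_E0 P hA M hσ _ hQ hQp

/-- **S13/T4** for every place over `2`, in the shape of `Skel.result_of_parts`. -/
theorem unipotent_at_two (hA : A.LiesOverPrime 2)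
    {σ : Qb ≃ₐ[ℚ] Qb} (hσ : σ ∈ A.inertiaSubgroupIn ℚ) (x : Skel.Vp P) :
    σ • (σ • x - x) = σ • x - x := by
  obtain ⟨pt, hpt⟩ := x
  apply Subtype.ext
  have hpt' : (P.p : ℤ) • pt = 0 := (Submodule.mem_torsionBy_iff _ _).mp hpt
  exact unipotent_at_two_point P hA hσ pt hpt'

end inertia

end Fermat.Agent.S13.AtTwo511

end
-- ===== PACK-END S13/AtTwo511.lean

-- ===== PACK-BEGIN Lib/Cheb/H943/End.lean
section







/-!
# CHEB Tier 1 assembled (helper943): the qualitative Frobenius density theorem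

`frobFiniteStatement : Spec.FrobFiniteStatement` (finite level) and
`frobeniusDivisionStatement : Spec.FrobeniusDivisionStatement` (Prelude level, `Gal(ℚ̄/ℚ)`),
unconditionally, from the landed pieces

* Z  = `H343.primeSum`                (helper343),
* B0 = `H943.primeCountBoundStatement`,
* A  = `H764.count`                   (helper764),
* D  = `H943.frobStatement`,
* M  = `H993.frobFinite`              (helper993),
* F6 = `H943.bridgeDivisionStatement`.

Also a client-friendly unfolded form `exists_frobenius_division`.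
-/

set_option autoImplicit false

namespace Fermat.Agent.Lib.Cheb.H943

/-- Finite-level qualitative Frobenius density theorem. -/
theorem frobFiniteStatement : Spec.FrobFiniteStatement :=
  H993.frobFinite H343.primeSum primeCountBoundStatement H764.count frobStatement

/-- **FROB**, Prelude level. -/
theorem frobeniusDivisionStatement : Spec.FrobeniusDivisionStatement :=
  bridgeDivisionStatement frobFiniteStatement

/-- **FROB**, unfolded for clients: on every finite extension `E` of `ℚ` inside `ℚ̄`, every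
`σ ∈ Gal(ℚ̄/ℚ)` and some Frobenius element `τ` (at a valuation subring `A` over a prime
`ℓ ∉ S`, with inertia at `A` acting trivially on `E`) are powers of each other on `E`. -/
theorem exists_frobenius_division (E : IntermediateField ℚ (AlgebraicClosure ℚ))
    [FiniteDimensional ℚ E] (σ : AlgebraicClosure ℚ ≃ₐ[ℚ] AlgebraicClosure ℚ) (S : Finset ℕ) :
    ∃ (ℓ : ℕ) (A : ValuationSubring (AlgebraicClosure ℚ))
      (τ : AlgebraicClosure ℚ ≃ₐ[ℚ] AlgebraicClosure ℚ) (k j : ℕ),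
      ℓ.Prime ∧ ℓ ∉ S ∧ A.LiesOverPrime ℓ ∧ A.IsFrobeniusAt τ ℓ ∧
      (∀ ι ∈ A.inertiaSubgroupIn ℚ, ∀ x ∈ E, ι x = x) ∧
      (∀ x ∈ E, τ x = (σ ^ k) x) ∧ (∀ x ∈ E, (τ ^ j) x = σ x) :=
  frobeniusDivisionStatement E inferInstance σ S

end Fermat.Agent.Lib.Cheb.H943

end
-- ===== PACK-END Lib/Cheb/H943/End.lean

-- ===== PACK-BEGIN A2/H93/Sheets.lean
section





/-!
# Cell A2, route G, leaf SHEETS (core) — helper93

`sheetsConclusion_of_gen` : the conclusion `Fermat.Agent.A2.H12.SheetsConclusion L w x` of the leaf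
**SHEETS** of `H12.algG`, for a finite Galois cover `L = F(y_i)`, `y_i ^ m = g_i`, where every
`g_i` is a UNIT `m`-th power modulo every sheet of `F` (`SplitUnitAt`, i.e. `H12.SplitAt` with the
junk value `u = 0` excluded), from the following hypotheses on the BASE field `F` only
(`SheetsBase`):

* `finite` : `F` has finitely many sheets;
* `unif`   : `w` generates the maximal ideal of every sheet of `F`;
* `disc`   : every sheet of `F` is discrete (`∀ f, ∃ k, f * w ^ k ∈ V`);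

together with `w ≠ 0`, `R → F` injective, `¬ w ∣ m`, `0 < m` and a primitive `m`-th root of unity
in `R`.  `SheetsBase.of_discrete` produces `unif` and `disc` from the field `discrete` of
`H12.BaseConclusion`.

The proof is an adapter on `CoverSplit` (files `CoverSplit.lean`, `CoverSplitTrans.lean`); the
existence of a sheet of `L` over a sheet of `F` is Chevalley's extension theorem (Mathlib).

NB. `H12.SplitAt m V g` as frozen in `H12/GSpec.lean` holds for every `g ∈ 𝔪_V` (take `u = 0`),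
so `H12.IsKummerSplit` allows covers ramified at the sheets, for which `SheetsConclusion` is false.
-/

set_option autoImplicit false
set_option linter.style.haveILetI false

namespace Fermat.Agent.A2.H93

open Polynomial
open Fermat.Agent.A2.H12

universe u

section Base

variable {R : Type u} [CommRing R] {F : Type u} [Field F] [Algebra R F]

/-- `g` is the `m`-th power of a UNIT of `V` modulo the maximal ideal of `V`
(`H12.SplitAt` with `u ≠ 0`). -/
def SplitUnitAt (m : ℕ) (V : ValuationSubring F) (g : F) : Prop :=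
  ∃ u : F, u ≠ 0 ∧ u ∈ V ∧ u⁻¹ ∈ V ∧ g - u ^ m ∈ V.nonunits

theorem SplitUnitAt.splitAt {m : ℕ} {V : ValuationSubring F} {g : F} (h : SplitUnitAt m V g) :
    SplitAt m V g := by
  obtain ⟨u, -, h1, h2, h3⟩ := h
  exact ⟨u, h1, h2, h3⟩

/-- `SplitAt` at a unit `g` of `V` is `SplitUnitAt`. -/
theorem splitUnitAt_of_splitAt {m : ℕ} (hm : 0 < m) {V : ValuationSubring F} {g : F}
    (hg0 : g ≠ 0) (hg : g⁻¹ ∈ V) (h : SplitAt m V g) : SplitUnitAt m V g := by
  obtain ⟨u, h1, h2, h3⟩ := h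
  refine ⟨u, ?_, h1, h2, h3⟩
  rintro rfl
  rw [zero_pow hm.ne', sub_zero, ValuationSubring.mem_nonunits_iff_or] at h3
  rcases h3 with h3 | h3
  · exact hg0 h3
  · exact h3 hg

/-- The hypotheses on the sheets of the base field `F` used by the leaf SHEETS. -/
structure SheetsBase (w : R) (x : F) : Prop where
  /-- `F` has finitely many sheets -/
  finite : {V : ValuationSubring F | IsSheet w x V}.Finite
  /-- `w` generates the maximal ideal of every sheet of `F` -/
  unif : ∀ V : ValuationSubring F, IsSheet w x V →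
    ∀ a ∈ V.nonunits, ∃ b ∈ V, a = algebraMap R F w * b
  /-- every sheet of `F` is discrete -/
  disc : ∀ V : ValuationSubring F, IsSheet w x V →
    ∀ f : F, ∃ k : ℕ, f * algebraMap R F w ^ k ∈ V

/-- `SheetsBase` from finiteness and the field `discrete` of `H12.BaseConclusion`. -/
theorem SheetsBase.of_discrete {w : R} {x : F}
    (hfin : {V : ValuationSubring F | IsSheet w x V}.Finite)
    (hdisc : ∀ V : ValuationSubring F, IsSheet w x V → ∀ f : F, f ≠ 0 →
      ∃ (n : ℤ) (u : F), u ∈ V ∧ u⁻¹ ∈ V ∧ f = algebraMap R F w ^ n * u) :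
    SheetsBase w x := by
  refine ⟨hfin, ?_, ?_⟩
  · intro V hV a ha
    by_cases ha0 : a = 0
    · exact ⟨0, V.zero_mem, by rw [ha0, mul_zero]⟩
    obtain ⟨n, u, hu, hu', hau⟩ := hdisc V hV a ha0
    have hw : algebraMap R F w ∈ V.nonunits := hV.2.2.1
    have hwV : algebraMap R F w ∈ V := ValuationSubring.nonunits_subset hw
    have hu0 : u ≠ 0 := by
      rintro rfl
      exact ha0 (by rw [hau, mul_zero])
    have hw0 : algebraMap R F w ≠ 0 := by
      intro h0
      rw [h0] at hau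
      rcases eq_or_ne n 0 with hn | hn
      · rw [hn, zpow_zero, one_mul] at hau
        rw [hau, ValuationSubring.mem_nonunits_iff_or] at ha
        rcases ha with ha | ha
        · exact hu0 ha
        · exact ha hu'
      · rw [zero_zpow n hn, zero_mul] at hau
        exact ha0 hau
    -- `n ≥ 1`
    have hn : 1 ≤ n := by
      by_contra hcon
      rw [not_le] at hcon
      have hn0 : 0 ≤ -n := by omega
      obtain ⟨k, hk⟩ := Int.eq_ofNat_of_zero_le hn0
      have h1 : a⁻¹ = algebraMap R F w ^ k * u⁻¹ := by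
        rw [hau, mul_inv, ← zpow_neg, hk, zpow_natCast]
      have h2 : a⁻¹ ∈ V := by
        rw [h1]
        exact V.mul_mem _ _ (pow_mem hwV k) hu'
      rw [ValuationSubring.mem_nonunits_iff_or] at ha
      rcases ha with ha | ha
      · exact ha0 ha
      · exact ha h2
    obtain ⟨k, hk⟩ := Int.eq_ofNat_of_zero_le (show 0 ≤ n - 1 by omega)
    refine ⟨algebraMap R F w ^ k * u, V.mul_mem _ _ (pow_mem hwV k) hu, ?_⟩
    have hn' : n = (k : ℤ) + 1 := by omega
    rw [hau, hn', zpow_add_one₀ hw0, zpow_natCast]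
    ring
  · intro V hV f
    by_cases hw0 : algebraMap R F w = 0
    · exact ⟨1, by rw [hw0, pow_one, mul_zero]; exact V.zero_mem⟩
    by_cases hf0 : f = 0
    · exact ⟨0, by rw [hf0, zero_mul]; exact V.zero_mem⟩
    obtain ⟨n, u, hu, hu', hfu⟩ := hdisc V hV f hf0
    have hw : algebraMap R F w ∈ V.nonunits := hV.2.2.1
    have hwV : algebraMap R F w ∈ V := ValuationSubring.nonunits_subset hw
    obtain ⟨j, hj⟩ := Int.eq_ofNat_of_zero_le (show 0 ≤ n + (n.natAbs : ℤ) by omega)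
    refine ⟨n.natAbs, ?_⟩
    have h1 : f * algebraMap R F w ^ n.natAbs = algebraMap R F w ^ j * u := by
      rw [hfu, ← zpow_natCast (algebraMap R F w) j, ← hj, zpow_add₀ hw0, zpow_natCast]
      ring
    rw [h1]
    exact V.mul_mem _ _ (pow_mem hwV j) hu

end Base

section Tower

variable {R : Type u} [CommRing R] {F : Type u} [Field F] [Algebra R F]
variable {L : Type u} [Field L] [Algebra F L] [Algebra R L] [IsScalarTower R F L]

/-- A valuation subring of `L` lying over a sheet of `F` is a sheet of `L`. -/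
theorem isSheet_of_comap_eq {w : R} {x : F} {V : ValuationSubring F} (hV : IsSheet w x V)
    {W : ValuationSubring L} (hWV : W.comap (algebraMap F L) = V) :
    IsSheet w (algebraMap F L x) W := by
  have hle : ∀ f ∈ V, algebraMap F L f ∈ W := by
    intro f hf
    rw [← hWV] at hf
    exact hf
  refine ⟨?_, ?_, ?_, ?_⟩
  · intro r
    rw [IsScalarTower.algebraMap_apply R F L]
    exact hle _ (hV.1 r)
  · exact hle _ hV.2.1
  · rw [IsScalarTower.algebraMap_apply R F L, ← mem_nonunits_comap, hWV]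
    exact hV.2.2.1
  · intro P hP
    rw [aeval_algebraMap_apply, ← map_inv₀]
    exact hle _ (hV.2.2.2 P hP)

/-- **Chevalley**: a valuation subring `V` of `F` whose maximal ideal is generated by `w` extends
to `L`. -/
theorem exists_comap_eq_of_unif (V : ValuationSubring F) (w : F) (hw : w ∈ V.nonunits)
    (hunif : ∀ a ∈ V.nonunits, ∃ b ∈ V, a = w * b) :
    ∃ W : ValuationSubring L, W.comap (algebraMap F L) = V := by
  classical
  let A : Subring L := V.toSubring.map (algebraMap F L)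
  have hwA : algebraMap F L w ∈ A :=
    ⟨w, ValuationSubring.nonunits_subset hw, rfl⟩
  let I : Ideal A := Ideal.span {⟨algebraMap F L w, hwA⟩}
  have hI : I ≠ ⊤ := by
    intro h
    rw [Ideal.eq_top_iff_one, Ideal.mem_span_singleton'] at h
    obtain ⟨⟨a, v, hv, rfl⟩, ha⟩ := h
    have h1 : algebraMap F L v * algebraMap F L w = 1 := congrArg Subtype.val ha
    rw [← map_mul] at h1
    have h2 : v * w = 1 := (algebraMap F L).injective (by rw [h1, map_one])
    have h3 := mul_mem_nonunits V hw hv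
    rw [h2] at h3
    exact one_not_mem_nonunits V h3
  obtain ⟨B, hAB, hIB⟩ := Ideal.image_subset_nonunits_valuationSubring I hI
  have hwB : algebraMap F L w ∈ B.nonunits :=
    hIB ⟨⟨algebraMap F L w, hwA⟩, Ideal.subset_span rfl, rfl⟩
  refine ⟨B, ?_⟩
  ext f
  rw [ValuationSubring.mem_comap]
  constructor
  · intro hf
    by_contra hfV
    have hinv : f⁻¹ ∈ V.nonunits := by
      rw [ValuationSubring.inv_mem_nonunits_iff]
      exact Or.inr hfV
    obtain ⟨b, hb, hfb⟩ := hunif _ hinv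
    have hf0 : f ≠ 0 := by
      rintro rfl
      exact hfV V.zero_mem
    have h1 : algebraMap F L w * (algebraMap F L b * algebraMap F L f) = 1 := by
      rw [← map_mul, ← map_mul, ← mul_assoc, ← hfb, inv_mul_cancel₀ hf0, map_one]
    have hbB : algebraMap F L b ∈ B := hAB ⟨b, hb, rfl⟩
    have h2 := mul_mem_nonunits B hwB (B.mul_mem _ _ hbB hf)
    rw [mul_comm, h1] at h2
    exact one_not_mem_nonunits B h2
  · intro hf
    exact hAB ⟨f, hf, rfl⟩

end Tower

section Sheets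

variable {R : Type u} [CommRing R] {F : Type u} [Field F] [Algebra R F]
variable {L : Type u} [Field L] [Algebra F L] [Algebra R L] [IsScalarTower R F L]

omit [Algebra R L] [IsScalarTower R F L] in
/-- The `CoverSplit` datum of a valuation subring `W` of `L` over a sheet `V` of `F`. -/
theorem coverSplit_of_sheet {w : R} {x : F} {m : ℕ} (hw0 : w ≠ 0)
    (hinj : Function.Injective (algebraMap R F)) (hm : 0 < m) (hwm : ¬ w ∣ (m : R))
    {ζ : R} (hζ : IsPrimitiveRoot ζ m) (hB : SheetsBase w x)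
    [FiniteDimensional F L]
    {n : ℕ} {y : Fin n → L} {g : Fin n → F} (hg0 : ∀ i, g i ≠ 0)
    (hpow : ∀ i, y i ^ m = algebraMap F L (g i))
    (hgen : IntermediateField.adjoin F (Set.range y) = ⊤)
    {V : ValuationSubring F} (hV : IsSheet w x V)
    {c : Fin n → F}
    (hc : ∀ i, c i ≠ 0 ∧ c i ∈ V ∧ (c i)⁻¹ ∈ V ∧ g i - c i ^ m ∈ V.nonunits)
    {W : ValuationSubring L} (hWV : W.comap (algebraMap F L) = V) :
    CoverSplit V W (algebraMap R F w) m (algebraMap R F ζ) y g c := by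
  have hwF0 : algebraMap R F w ≠ 0 := fun h => hw0 (hinj (by rw [h, map_zero]))
  have hunif : ∀ f ∈ V.nonunits, f * (algebraMap R F w)⁻¹ ∈ V := by
    intro f hf
    obtain ⟨b, hb, rfl⟩ := hB.unif V hV f hf
    rw [mul_comm, ← mul_assoc, inv_mul_cancel₀ hwF0, one_mul]
    exact hb
  have hgV : ∀ i, g i ∈ V := by
    intro i
    have : g i = c i ^ m + (g i - c i ^ m) := by ring
    rw [this]
    exact V.add_mem _ _ (pow_mem (hc i).2.1 m) (ValuationSubring.nonunits_subset (hc i).2.2.2)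
  have hvc : ∀ i, V.valuation (c i ^ m) = 1 := by
    intro i
    rw [map_pow, val_eq_one_of_mem_of_inv_mem V (hc i).1 (hc i).2.1 (hc i).2.2.1, one_pow]
  have hvg : ∀ i, V.valuation (g i) = 1 := by
    intro i
    have h1 : V.valuation (g i - c i ^ m) < V.valuation (c i ^ m) := by
      rw [hvc i]
      exact (ValuationSubring.mem_nonunits_iff V).1 (hc i).2.2.2
    have : g i = c i ^ m + (g i - c i ^ m) := by ring
    rw [this, Valuation.map_add_eq_of_lt_left _ h1, hvc i]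
  refine
    { ext := fun f => by rw [← hWV, ValuationSubring.mem_comap]
      w_inv_notMem := ?_
      w_gen := ?_
      w_disc := hB.disc V hV
      zeta := hζ.map_of_injective hinj
      m_pos := hm
      m_inv := ?_
      pow_eq := hpow
      g_mem := hgV
      g_ne_zero := hg0
      g_inv := fun i => inv_mem_of_val_eq_one V (hvg i)
      c_mem := fun i => (hc i).2.1
      cong := fun i => hunif _ (hc i).2.2.2
      gen := ?_ }
  · intro h
    have h1 := hV.2.2.1
    rw [ValuationSubring.mem_nonunits_iff_or] at h1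
    rcases h1 with h1 | h1
    · exact hwF0 h1
    · exact h1 h
  · intro f hf hf'
    refine hunif f ?_
    rw [ValuationSubring.mem_nonunits_iff_or]
    exact Or.inr hf'
  · have := hV.2.2.2 (C (m : R)) ⟨0, by rw [coeff_C_zero]; exact hwm⟩
    rw [aeval_C, map_natCast] at this
    exact this
  · have h1 := IntermediateField.adjoin_toSubalgebra_of_isAlgebraic (F := F) (S := Set.range y)
      (fun z _ => Algebra.IsAlgebraic.isAlgebraic z)
    rw [← h1, hgen, IntermediateField.top_toSubalgebra]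

/-- **Leaf SHEETS, core.**  For a finite Galois Kummer cover `L = F(y_i)`, `y_i ^ m = g_i`,
with every `g_i` a unit `m`-th power modulo every sheet of `F`. -/
theorem sheetsConclusion_of_gen {w : R} {x : F} {m : ℕ} (hw0 : w ≠ 0)
    (hinj : Function.Injective (algebraMap R F)) (hm : 0 < m) (hwm : ¬ w ∣ (m : R))
    (hroot : ∃ ζ : R, IsPrimitiveRoot ζ m) (hB : SheetsBase w x)
    [FiniteDimensional F L] [IsGalois F L]
    {n : ℕ} (y : Fin n → L) (g : Fin n → F) (hg0 : ∀ i, g i ≠ 0)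
    (hpow : ∀ i, y i ^ m = algebraMap F L (g i))
    (hgen : IntermediateField.adjoin F (Set.range y) = ⊤)
    (hsplit : ∀ i, ∀ V : ValuationSubring F, IsSheet w x V → SplitUnitAt m V (g i)) :
    SheetsConclusion L w x := by
  classical
  obtain ⟨ζ, hζ⟩ := hroot
  -- the chosen residues
  have hex : ∀ V : ValuationSubring F, IsSheet w x V → ∃ c : Fin n → F,
      ∀ i, c i ≠ 0 ∧ c i ∈ V ∧ (c i)⁻¹ ∈ V ∧ g i - c i ^ m ∈ V.nonunits := by
    intro V hV
    choose c hc using fun i => hsplit i V hV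
    exact ⟨c, hc⟩
  have hwL : algebraMap R L w = algebraMap F L (algebraMap R F w) :=
    IsScalarTower.algebraMap_apply R F L w
  have key : ∀ W : ValuationSubring L, IsSheet w (algebraMap F L x) W →
      ∃ c : Fin n → F, ∀ W' : ValuationSubring L,
        W'.comap (algebraMap F L) = W.comap (algebraMap F L) →
        CoverSplit (W.comap (algebraMap F L)) W' (algebraMap R F w) m (algebraMap R F ζ) y g c := by
    intro W hW
    have hV := IsSheet.comap_algebraMap hW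
    obtain ⟨c, hc⟩ := hex _ hV
    exact ⟨c, fun W' hW' => coverSplit_of_sheet hw0 hinj hm hwm hζ hB hg0 hpow hgen hV hc hW'⟩
  refine ⟨?_, ?_, ?_, ?_, ?_, ?_⟩
  · -- finite
    refine Set.Finite.of_finite_fibers (fun W : ValuationSubring L => W.comap (algebraMap F L))
      (hB.finite.subset ?_) ?_
    · rintro V ⟨W, hW, rfl⟩
      exact IsSheet.comap_algebraMap hW
    · rintro V ⟨W, hW, rfl⟩
      obtain ⟨c, hc⟩ := key W hW
      refine (CoverSplit.finite_setOf (W.comap (algebraMap F L)) (algebraMap R F w) m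
        (algebraMap R F ζ) y g c).subset ?_
      rintro W' ⟨-, hW'⟩
      exact hc W' hW'
  · -- exists_over
    intro V hV
    obtain ⟨W, hW⟩ := exists_comap_eq_of_unif (L := L) V (algebraMap R F w) hV.2.2.1
      (hB.unif V hV)
    exact ⟨W, isSheet_of_comap_eq hV hW, hW⟩
  · -- unif
    intro W hW a ha
    obtain ⟨c, hc⟩ := key W hW
    have D := hc W rfl
    by_cases ha0 : a = 0
    · exact ⟨0, W.zero_mem, by rw [ha0, mul_zero]⟩
    have ha' : a⁻¹ ∉ W := by
      rw [ValuationSubring.mem_nonunits_iff_or] at ha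
      exact ha.resolve_left ha0
    refine ⟨_, D.mul_inv_mem (ValuationSubring.nonunits_subset ha) ha', ?_⟩
    rw [hwL, mul_comm, mul_assoc, inv_mul_cancel₀ D.φw_ne_zero, mul_one]
  · -- resdeg
    intro W hW b hb
    obtain ⟨c, hc⟩ := key W hW
    have D := hc W rfl
    obtain ⟨a, -, ha⟩ := D.exists_sub_mem hb
    refine ⟨a, ?_⟩
    have h1 : b - algebraMap F L a =
        (b - algebraMap F L a) * (algebraMap F L (algebraMap R F w))⁻¹ *
          algebraMap R L w := by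
      rw [hwL, mul_assoc, inv_mul_cancel₀ D.φw_ne_zero, mul_one]
    rw [h1]
    exact mul_mem_nonunits W hW.2.2.1 ha
  · -- trans
    intro W W' hW hW' hWW'
    obtain ⟨c, hc⟩ := key W hW
    have D := hc W rfl
    have D' := hc W' hWW'.symm
    obtain ⟨σ, hσ⟩ := D'.exists_comap_eq D
    refine ⟨σ, fun b => ?_⟩
    rw [← hσ, ValuationSubring.mem_comap]
    rfl
  · -- free
    intro W hW σ hσ
    obtain ⟨c, hc⟩ := key W hW
    exact (hc W rfl).eq_one_of_map_eq σ hσ

end Sheets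

end Fermat.Agent.A2.H93

end
-- ===== PACK-END A2/H93/Sheets.lean

-- ===== PACK-BEGIN S36/H83/Eis.lean
section
/-
S36 engine, MOD-3 leaf "EIS" (helper83), part 2.

Formal `q`-series input for the three valuations of `X₀(p²)` above the Gauss valuation.
With `j = j(q)`, `j_p = j(q^p)`, `j_{pp} = j(q^{p²})` in `ℤ((q))` and `Φ = Φ_p ∈ ℤ[Y][X]`:

* `P(X) := Φ(X, j_p) ∈ ℤ((q))[X]` is monic of degree `p + 1` with roots `j` and `j_{pp}`;
* `P ≡ (X - j)^p (X - j^{p²}) mod p`;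
* `Ψ := P / (X - j)` (the minimal polynomial of `j_{pp}` over `ℚ(j, j_p)`) satisfies
  `Ψ ≡ (X - j)^{p-1} (X - j^{p²}) mod p` and is **Eisenstein at `j`**:
  `Ψ(j) = p · U` with `U mod p ≠ 0`   (more precisely `U θj ≡ (j - j^{p²}) (θ j)^p`);
* `Ψ_B := P / (X - j_{pp})` (the minimal polynomial of `j` over `ℚ(j_p, j_{pp})`) satisfies
  `Ψ_B ≡ (X - j)^p = X^p - j^p mod p`   (purely inseparable).
-/


set_option autoImplicit false

noncomputable section

open ModularCurve Polynomial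

namespace Fermat.Agent.S36.H83

open Fermat.Agent.S28

/-! ### `θ j` is a unit of `ℤ((q))` -/

section ThetaJ

variable (A : Type*) [CommRing A]

theorem h83_thetaL_jqModC_coeff_neg_one : (thetaL A (jqModC A)).coeff (-1) = -1 := by
  rw [thetaL_coeff, coeff_jqModC_neg_one]
  simp

theorem h83_thetaL_jqModC_coeff_of_lt {n : ℤ} (hn : n < -1) :
    (thetaL A (jqModC A)).coeff n = 0 := by
  rw [thetaL_coeff, coeff_jqModC_of_lt A hn, mul_zero]

theorem h83_thetaL_jqModC_ne_zero [Nontrivial A] : thetaL A (jqModC A) ≠ 0 := by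
  intro h
  have h1 := h83_thetaL_jqModC_coeff_neg_one A
  rw [h, HahnSeries.coeff_zero] at h1
  exact (neg_ne_zero.mpr (one_ne_zero (α := A))) h1.symm

theorem h83_order_thetaL_jqModC [Nontrivial A] : (thetaL A (jqModC A)).order = -1 := by
  have hne := h83_thetaL_jqModC_ne_zero A
  apply le_antisymm
  · apply HahnSeries.order_le_of_coeff_ne_zero
    rw [h83_thetaL_jqModC_coeff_neg_one]
    exact neg_ne_zero.mpr one_ne_zero
  · by_contra h
    rw [not_le] at h
    exact (HahnSeries.coeff_order_eq_zero.not.mpr hne) (h83_thetaL_jqModC_coeff_of_lt A h)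

theorem h83_isUnit_thetaL_jqModC [IsDomain A] : IsUnit (thetaL A (jqModC A)) := by
  rw [HahnSeries.isUnit_iff, HahnSeries.leadingCoeff_eq, h83_order_thetaL_jqModC,
    h83_thetaL_jqModC_coeff_neg_one]
  exact isUnit_one.neg

end ThetaJ

/-! ### The Kronecker congruence, specialised in either variable -/

section KroneckerSpec

variable (p : ℕ) [hp : Fact p.Prime] [NeZero p] (Φ : ModPolyData p)

/-- `Φ̄(X, y) = (X^p - y)(X - y^p)` over `𝔽_p((q))`. -/
theorem h83_map_evalAt_zmod (y : LaurentSeries (ZMod p)) :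
    Φ.Φ.map (evalAt y) = (X ^ p - C y) * (X - C (y ^ p)) := by
  rw [← h88_aeval_comp_mapRingHom (ZMod p) y, ← Polynomial.map_map,
    h88_kronecker_charP p (ZMod p) Φ]
  simp

/-- `Φ̄(x, Y) = (x^p - Y)(x - Y^p)` over `𝔽_p((q))`. -/
theorem h83_eval₂_C_zmod (x : LaurentSeries (ZMod p)) :
    Φ.Φ.eval₂ (Polynomial.mapRingHom (Int.castRingHom (LaurentSeries (ZMod p)))) (C x)
      = (C (x ^ p) - X) * (C x - X ^ p) := by
  have hcomp : Polynomial.mapRingHom (Int.castRingHom (LaurentSeries (ZMod p)))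
      = (Polynomial.mapRingHom (HahnSeries.C : ZMod p →+* LaurentSeries (ZMod p))).comp
          (Polynomial.mapRingHom (Int.castRingHom (ZMod p))) := by
    apply Polynomial.ringHom_ext
    · intro a
      simp
    · simp
  rw [hcomp, ← Polynomial.eval₂_map, h88_kronecker_charP p (ZMod p) Φ, Polynomial.eval₂_mul,
    Polynomial.eval₂_sub, Polynomial.eval₂_sub, Polynomial.eval₂_pow, Polynomial.eval₂_X,
    Polynomial.eval₂_C, Polynomial.eval₂_C, Polynomial.coe_mapRingHom, Polynomial.map_X,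
    Polynomial.map_pow, Polynomial.map_X, ← Polynomial.C_pow]

end KroneckerSpec

/-- Reduction of coefficients `ℤ((q)) → 𝔽_p((q))`. -/
abbrev h83_red (p : ℕ) : LaurentSeries ℤ →+* LaurentSeries (ZMod p) :=
  coeffMap (Int.castRingHom (ZMod p))

/-! ### The polynomial `P = Φ(X, j_p)` and its two cofactors -/

section Main

variable (p : ℕ) [hp : Fact p.Prime] [NeZero p] (Φ : ModPolyData p)

/-- `P(X) = Φ_p(X, j(q^p)) ∈ ℤ((q))[X]`. -/
def h83_eisP : Polynomial (LaurentSeries ℤ) :=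
  Φ.Φ.map (evalAt (qExpand ℤ p (jqModC ℤ)))

omit hp in
theorem h83_eisP_monic : (h83_eisP p Φ).Monic := Φ.monic.map _

omit hp in
theorem h83_eisP_natDegree : (h83_eisP p Φ).natDegree = p + 1 := by
  rw [h83_eisP, Φ.monic.natDegree_map, Φ.natDegree_eq]

omit hp in
theorem h83_eisP_eval_j : (h83_eisP p Φ).eval (jqModC ℤ) = 0 := by
  rw [h83_eisP, Polynomial.eval_map]
  exact Φ.eval_j

omit hp in
theorem h83_eisP_eval_jpp :
    (h83_eisP p Φ).eval (qExpand ℤ p (qExpand ℤ p (jqModC ℤ))) = 0 := by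
  rw [h83_eisP, Polynomial.eval_map]
  have h := congrArg (qExpand ℤ p) Φ.eval_jp
  rw [Polynomial.hom_eval₂, map_zero, h88_comp_evalAt] at h
  exact h

/-- `Ψ = P / (X - j)`: the polynomial satisfied by `j(q^{p²})` over `ℤ[j, j_p]`. -/
def h83_eisPsi : Polynomial (LaurentSeries ℤ) :=
  h83_eisP p Φ /ₘ (X - C (jqModC ℤ))

/-- `Ψ_B = P / (X - j_{pp})`: the polynomial satisfied by `j` over `ℤ[j_p, j_{pp}]`. -/
def h83_eisPsiB : Polynomial (LaurentSeries ℤ) :=
  h83_eisP p Φ /ₘ (X - C (qExpand ℤ p (qExpand ℤ p (jqModC ℤ))))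

omit hp in
theorem h83_eisP_eq_mul_eisPsi :
    h83_eisP p Φ = (X - C (jqModC ℤ)) * h83_eisPsi p Φ :=
  (Polynomial.mul_divByMonic_eq_iff_isRoot.mpr (h83_eisP_eval_j p Φ)).symm

omit hp in
theorem h83_eisP_eq_mul_eisPsiB :
    h83_eisP p Φ = (X - C (qExpand ℤ p (qExpand ℤ p (jqModC ℤ)))) * h83_eisPsiB p Φ :=
  (Polynomial.mul_divByMonic_eq_iff_isRoot.mpr (h83_eisP_eval_jpp p Φ)).symm

omit hp in
theorem h83_eisPsi_monic : (h83_eisPsi p Φ).Monic := by
  have h := h83_eisP_monic p Φ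
  rw [h83_eisP_eq_mul_eisPsi] at h
  exact (Polynomial.monic_X_sub_C _).of_mul_monic_left h

omit hp in
theorem h83_eisPsiB_monic : (h83_eisPsiB p Φ).Monic := by
  have h := h83_eisP_monic p Φ
  rw [h83_eisP_eq_mul_eisPsiB] at h
  exact (Polynomial.monic_X_sub_C _).of_mul_monic_left h

omit hp in
theorem h83_eisPsi_natDegree : (h83_eisPsi p Φ).natDegree = p := by
  rw [h83_eisPsi, Polynomial.natDegree_divByMonic _ (Polynomial.monic_X_sub_C _),
    h83_eisP_natDegree, Polynomial.natDegree_X_sub_C, Nat.add_sub_cancel]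

omit hp in
theorem h83_eisPsiB_natDegree : (h83_eisPsiB p Φ).natDegree = p := by
  rw [h83_eisPsiB, Polynomial.natDegree_divByMonic _ (Polynomial.monic_X_sub_C _),
    h83_eisP_natDegree, Polynomial.natDegree_X_sub_C, Nat.add_sub_cancel]

/-- `j ≠ j(q^{p²})` in `ℤ((q))`. -/
theorem h83_j_ne_jpp : jqModC ℤ ≠ qExpand ℤ p (qExpand ℤ p (jqModC ℤ)) := by
  intro h
  have h1 := coeff_jqModC_neg_one ℤ
  rw [h, qExpand_coeff_of_not_dvd p _] at h1
  · exact zero_ne_one h1
  · intro hdvd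
    have h2 : (p : ℤ) ∣ 1 := (dvd_neg).mp hdvd
    have h3 := Int.le_of_dvd (by norm_num) h2
    have h4 : (1 : ℤ) < p := by exact_mod_cast hp.out.one_lt
    omega

/-- `Ψ(j_{pp}) = 0`. -/
theorem h83_eisPsi_eval_jpp :
    (h83_eisPsi p Φ).eval (qExpand ℤ p (qExpand ℤ p (jqModC ℤ))) = 0 := by
  have h := h83_eisP_eval_jpp p Φ
  rw [h83_eisP_eq_mul_eisPsi, Polynomial.eval_mul, Polynomial.eval_sub, Polynomial.eval_X,
    Polynomial.eval_C] at h
  rcases mul_eq_zero.mp h with h0 | h0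
  · exact absurd (sub_eq_zero.mp h0).symm (h83_j_ne_jpp p)
  · exact h0

/-- `Ψ_B(j) = 0`. -/
theorem h83_eisPsiB_eval_j : (h83_eisPsiB p Φ).eval (jqModC ℤ) = 0 := by
  have h := h83_eisP_eval_j p Φ
  rw [h83_eisP_eq_mul_eisPsiB, Polynomial.eval_mul, Polynomial.eval_sub, Polynomial.eval_X,
    Polynomial.eval_C] at h
  rcases mul_eq_zero.mp h with h0 | h0
  · exact absurd (sub_eq_zero.mp h0) (h83_j_ne_jpp p)
  · exact h0

/-! ### Reduction modulo `p` -/

omit hp [NeZero p] in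
theorem h83_red_j : h83_red p (jqModC ℤ) = jqModC (ZMod p) := coeffMap_jqModC _

theorem h83_red_jp : h83_red p (qExpand ℤ p (jqModC ℤ)) = jqModC (ZMod p) ^ p := by
  rw [h83_red, coeffMap_qExpand, coeffMap_jqModC, h88_qExpand_zmod]

theorem h83_red_jpp :
    h83_red p (qExpand ℤ p (qExpand ℤ p (jqModC ℤ))) = jqModC (ZMod p) ^ (p ^ 2) := by
  rw [h83_red, coeffMap_qExpand, coeffMap_qExpand, coeffMap_jqModC, h88_qExpand_zmod,
    h88_qExpand_zmod, ← pow_mul, pow_two]

/-- `j̄ ≠ j̄^{p²}` in `𝔽_p((q))`. -/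
theorem h83_jbar_ne_pow : jqModC (ZMod p) ≠ jqModC (ZMod p) ^ (p ^ 2) := by
  rw [pow_two, pow_mul, ← h88_qExpand_zmod p (jqModC (ZMod p) ^ p)]
  exact h88_jqModC_ne_qExpand (ZMod p) p hp.out.one_lt _

/-- `P ≡ (X - j)^p (X - j^{p²}) mod p`. -/
theorem h83_eisP_map_red :
    (h83_eisP p Φ).map (h83_red p)
      = (X - C (jqModC (ZMod p))) ^ p * (X - C (jqModC (ZMod p) ^ (p ^ 2))) := by
  have : CharP (LaurentSeries (ZMod p)) p := h88_charP_laurent (ZMod p) p
  rw [h83_eisP, Polynomial.map_map, h88_comp_evalAt, h83_red_jp, h83_map_evalAt_zmod,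
    sub_pow_char, ← Polynomial.C_pow, ← pow_mul, pow_two]

/-- `Ψ ≡ (X - j)^{p-1} (X - j^{p²}) mod p`. -/
theorem h83_eisPsi_map_red :
    (h83_eisPsi p Φ).map (h83_red p)
      = (X - C (jqModC (ZMod p))) ^ (p - 1) * (X - C (jqModC (ZMod p) ^ (p ^ 2))) := by
  have hpow : (X - C (jqModC (ZMod p))) ^ p
      = (X - C (jqModC (ZMod p))) * (X - C (jqModC (ZMod p))) ^ (p - 1) := by
    rw [← pow_succ', Nat.sub_add_cancel hp.out.one_le]
  have hD : (X - C (jqModC ℤ)).map (h83_red p) = X - C (jqModC (ZMod p)) := by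
    rw [Polynomial.map_sub, Polynomial.map_X, Polynomial.map_C, h83_red_j]
  rw [h83_eisPsi, Polynomial.map_divByMonic _ (Polynomial.monic_X_sub_C _), hD,
    h83_eisP_map_red]
  rw [hpow, mul_assoc]
  exact Polynomial.mul_divByMonic_cancel_left _ (Polynomial.monic_X_sub_C _)

/-- `Ψ_B ≡ (X - j)^p = X^p - j^p mod p`. -/
theorem h83_eisPsiB_map_red :
    (h83_eisPsiB p Φ).map (h83_red p) = (X - C (jqModC (ZMod p))) ^ p := by
  have hD : (X - C (qExpand ℤ p (qExpand ℤ p (jqModC ℤ)))).map (h83_red p)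
      = X - C (jqModC (ZMod p) ^ (p ^ 2)) := by
    rw [Polynomial.map_sub, Polynomial.map_X, Polynomial.map_C, h83_red_jpp]
  rw [h83_eisPsiB, Polynomial.map_divByMonic _ (Polynomial.monic_X_sub_C _), hD,
    h83_eisP_map_red, mul_comm]
  exact Polynomial.mul_divByMonic_cancel_left _ (Polynomial.monic_X_sub_C _)

/-- `Ψ_B ≡ X^p - j^p mod p`. -/
theorem h83_eisPsiB_map_red' :
    (h83_eisPsiB p Φ).map (h83_red p) = X ^ p - C (jqModC (ZMod p) ^ p) := by
  have : CharP (LaurentSeries (ZMod p)) p := h88_charP_laurent (ZMod p) p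
  rw [h83_eisPsiB_map_red, sub_pow_char, ← Polynomial.C_pow]

/-! ### The Eisenstein property of `Ψ` at `j` -/

omit hp in
/-- `Ψ(j) = P'(j)`. -/
theorem h83_eisPsi_eval_j_eq_derivative :
    (h83_eisPsi p Φ).eval (jqModC ℤ)
      = (Polynomial.derivative (h83_eisP p Φ)).eval (jqModC ℤ) := by
  conv_rhs => rw [h83_eisP_eq_mul_eisPsi]
  rw [Polynomial.derivative_mul, Polynomial.derivative_sub, Polynomial.derivative_X,
    Polynomial.derivative_C, sub_zero, one_mul, Polynomial.eval_add, Polynomial.eval_mul,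
    Polynomial.eval_sub, Polynomial.eval_X, Polynomial.eval_C, sub_self, zero_mul, add_zero]

/-- The partial derivative `(∂Φ/∂Y)(j, j_p) ∈ ℤ((q))`. -/
def h83_eisDY : LaurentSeries ℤ :=
  (Polynomial.derivative
    (Φ.Φ.eval₂ (Polynomial.mapRingHom (Int.castRingHom (LaurentSeries ℤ)))
      (C (jqModC ℤ)))).eval (qExpand ℤ p (jqModC ℤ))

omit hp in
/-- The `θ`-identity: `Ψ(j) · θ j = - p · (∂Φ/∂Y)(j, j_p) · (θ j)(q^p)`. -/
theorem h83_eisPsi_eval_j_mul_theta :
    (h83_eisPsi p Φ).eval (jqModC ℤ) * thetaL ℤ (jqModC ℤ)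
      = -((p : LaurentSeries ℤ) * (h83_eisDY p Φ * qExpand ℤ p (thetaL ℤ (jqModC ℤ)))) := by
  have h := h83_chain_rule Φ.Φ (jqModC ℤ) (qExpand ℤ p (jqModC ℤ))
  rw [Φ.eval_j, h88_thetaL_zero, h88_thetaL_qExpand] at h
  rw [h83_eisPsi_eval_j_eq_derivative]
  unfold h83_eisP h83_eisDY
  linear_combination -h

/-- `(∂Φ/∂Y)(j, j_p) ≡ j^{p²} - j mod p`. -/
theorem h83_red_eisDY :
    h83_red p (h83_eisDY p Φ) = jqModC (ZMod p) ^ (p ^ 2) - jqModC (ZMod p) := by
  have : CharP (LaurentSeries (ZMod p)) p := h88_charP_laurent (ZMod p) p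
  have hcomp : (Polynomial.mapRingHom (h83_red p)).comp
      (Polynomial.mapRingHom (Int.castRingHom (LaurentSeries ℤ)))
      = Polynomial.mapRingHom (Int.castRingHom (LaurentSeries (ZMod p))) := by
    apply Polynomial.ringHom_ext
    · intro a
      simp
    · simp
  have hQ : (Φ.Φ.eval₂ (Polynomial.mapRingHom (Int.castRingHom (LaurentSeries ℤ)))
      (C (jqModC ℤ))).map (h83_red p)
      = (C (jqModC (ZMod p) ^ p) - X) * (C (jqModC (ZMod p)) - X ^ p) := by
    rw [← Polynomial.coe_mapRingHom, Polynomial.hom_eval₂, hcomp, Polynomial.coe_mapRingHom,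
      Polynomial.map_C, h83_red_j, h83_eval₂_C_zmod]
  have hpz : ((p : ℕ) : LaurentSeries (ZMod p)) = 0 := CharP.cast_eq_zero _ p
  unfold h83_eisDY
  rw [← Polynomial.eval₂_hom, ← Polynomial.eval_map, ← Polynomial.derivative_map, hQ, h83_red_jp,
    Polynomial.derivative_mul, Polynomial.derivative_sub, Polynomial.derivative_sub,
    Polynomial.derivative_C, Polynomial.derivative_C, Polynomial.derivative_X,
    Polynomial.derivative_X_pow, hpz]
  simp only [Polynomial.eval_add, Polynomial.eval_mul, Polynomial.eval_sub, Polynomial.eval_C,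
    Polynomial.eval_X, Polynomial.eval_pow, Polynomial.eval_zero, Polynomial.eval_one, Polynomial.eval_neg,
    Polynomial.C_0, zero_mul, zero_sub, sub_zero, mul_zero, add_zero, ← pow_mul, pow_two]
  ring

/-- **Eisenstein property of `Ψ` at `j`**: `Ψ(j) = p · U` with `U` a unit modulo `p`;
more precisely `U · θ j = -(∂Φ/∂Y)(j, j_p) · (θ j)(q^p)` and
`Ū · θ j̄ = (j̄ - j̄^{p²}) · (θ j̄)^p`. -/
theorem h83_eisenstein :
    ∃ U : LaurentSeries ℤ,
      (h83_eisPsi p Φ).eval (jqModC ℤ) = (p : LaurentSeries ℤ) * U ∧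
      U * thetaL ℤ (jqModC ℤ)
        = -(h83_eisDY p Φ * qExpand ℤ p (thetaL ℤ (jqModC ℤ))) ∧
      h83_red p U * thetaL (ZMod p) (jqModC (ZMod p))
        = (jqModC (ZMod p) - jqModC (ZMod p) ^ (p ^ 2))
            * thetaL (ZMod p) (jqModC (ZMod p)) ^ p ∧
      h83_red p U ≠ 0 := by
  obtain ⟨V, hV⟩ := (h83_isUnit_thetaL_jqModC ℤ).exists_right_inv
  have hθ := h83_eisPsi_eval_j_mul_theta p Φ
  set T := thetaL ℤ (jqModC ℤ) with hT
  set D := h83_eisDY p Φ with hD
  have h2 : (-(D * qExpand ℤ p T) * V) * T = -(D * qExpand ℤ p T) := by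
    linear_combination (-(D * qExpand ℤ p T)) * hV
  have h3 : h83_red p (-(D * qExpand ℤ p T) * V) * thetaL (ZMod p) (jqModC (ZMod p))
      = (jqModC (ZMod p) - jqModC (ZMod p) ^ (p ^ 2))
          * thetaL (ZMod p) (jqModC (ZMod p)) ^ p := by
    have h := congrArg (h83_red p) h2
    rw [map_mul, map_neg (h83_red p) (D * qExpand ℤ p T), map_mul (h83_red p) D, hD,
      h83_red_eisDY, hT] at h
    rw [show h83_red p (thetaL ℤ (jqModC ℤ)) = thetaL (ZMod p) (jqModC (ZMod p)) from by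
        rw [h83_red, h88_coeffMap_thetaL, coeffMap_jqModC],
      show h83_red p (qExpand ℤ p (thetaL ℤ (jqModC ℤ)))
          = thetaL (ZMod p) (jqModC (ZMod p)) ^ p from by
        rw [h83_red, coeffMap_qExpand, h88_coeffMap_thetaL, coeffMap_jqModC,
          h88_qExpand_zmod]] at h
    rw [h]
    ring
  refine ⟨-(D * qExpand ℤ p T) * V, ?_, h2, h3, ?_⟩
  · linear_combination V * hθ - ((h83_eisPsi p Φ).eval (jqModC ℤ)) * hV
  · intro h0
    rw [h0, zero_mul] at h3
    rcases mul_eq_zero.mp h3.symm with h | h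
    · exact h83_jbar_ne_pow p (sub_eq_zero.mp h)
    · exact h83_thetaL_jqModC_ne_zero (ZMod p) (pow_eq_zero_iff (NeZero.ne p) |>.mp h)

/-! ### Rings of definition -/

omit hp in
/-- `evalAt y` factors through any subring containing `y`. -/
theorem h83_subtype_comp_aeval (S : Subring (LaurentSeries ℤ)) {y : LaurentSeries ℤ}
    (hy : y ∈ S) :
    S.subtype.comp (Polynomial.aeval (R := ℤ) (⟨y, hy⟩ : S)).toRingHom = evalAt y := by
  apply Polynomial.ringHom_ext
  · intro a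
    simp [evalAt]
  · simp [evalAt]

omit hp in
/-- `P` has coefficients in `ℤ[j_p]`. -/
theorem h83_eisP_mem_lifts (S : Subring (LaurentSeries ℤ))
    (hjp : qExpand ℤ p (jqModC ℤ) ∈ S) :
    ∃ P₀ : Polynomial S, P₀.Monic ∧ P₀.map S.subtype = h83_eisP p Φ :=
  ⟨Φ.Φ.map (Polynomial.aeval (R := ℤ) (⟨_, hjp⟩ : S)).toRingHom, Φ.monic.map _, by
    rw [Polynomial.map_map, h83_subtype_comp_aeval S hjp, h83_eisP]⟩

omit hp in
/-- `Ψ` has coefficients in `ℤ[j, j_p]`. -/
theorem h83_eisPsi_mem_lifts (S : Subring (LaurentSeries ℤ)) (hj : jqModC ℤ ∈ S)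
    (hjp : qExpand ℤ p (jqModC ℤ) ∈ S) :
    ∃ Ψ₀ : Polynomial S, Ψ₀.Monic ∧ Ψ₀.map S.subtype = h83_eisPsi p Φ := by
  obtain ⟨P₀, hP₀m, hP₀⟩ := h83_eisP_mem_lifts p Φ S hjp
  have hD : (X - C (⟨jqModC ℤ, hj⟩ : S)).map S.subtype = X - C (jqModC ℤ) := by
    rw [Polynomial.map_sub, Polynomial.map_X, Polynomial.map_C]
    rfl
  have hmap : (P₀ /ₘ (X - C (⟨jqModC ℤ, hj⟩ : S))).map S.subtype = h83_eisPsi p Φ := by
    rw [Polynomial.map_divByMonic _ (Polynomial.monic_X_sub_C _), hD, hP₀, h83_eisPsi]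
  refine ⟨P₀ /ₘ (X - C (⟨jqModC ℤ, hj⟩ : S)), ?_, hmap⟩
  have hinj : Function.Injective S.subtype := Subtype.val_injective
  have hm := h83_eisPsi_monic p Φ
  rw [← hmap] at hm
  exact Polynomial.monic_of_injective hinj hm

omit hp in
/-- `Ψ_B` has coefficients in `ℤ[j_p, j_{pp}]`. -/
theorem h83_eisPsiB_mem_lifts (S : Subring (LaurentSeries ℤ))
    (hjp : qExpand ℤ p (jqModC ℤ) ∈ S)
    (hjpp : qExpand ℤ p (qExpand ℤ p (jqModC ℤ)) ∈ S) :
    ∃ Ψ₀ : Polynomial S, Ψ₀.Monic ∧ Ψ₀.map S.subtype = h83_eisPsiB p Φ := by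
  obtain ⟨P₀, hP₀m, hP₀⟩ := h83_eisP_mem_lifts p Φ S hjp
  have hD : (X - C (⟨_, hjpp⟩ : S)).map S.subtype
      = X - C (qExpand ℤ p (qExpand ℤ p (jqModC ℤ))) := by
    rw [Polynomial.map_sub, Polynomial.map_X, Polynomial.map_C]
    rfl
  have hmap : (P₀ /ₘ (X - C (⟨_, hjpp⟩ : S))).map S.subtype = h83_eisPsiB p Φ := by
    rw [Polynomial.map_divByMonic _ (Polynomial.monic_X_sub_C _), hD, hP₀, h83_eisPsiB]
  refine ⟨P₀ /ₘ (X - C (⟨_, hjpp⟩ : S)), ?_, hmap⟩
  have hinj : Function.Injective S.subtype := Subtype.val_injective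
  have hm := h83_eisPsiB_monic p Φ
  rw [← hmap] at hm
  exact Polynomial.monic_of_injective hinj hm

/-! ### Integral form: `Ψ = (X - j)^{p-1} (X - j^{p²}) + p · G` with `G(j)` a unit mod `p` -/

omit hp in
/-- The kernel of the reduction `ℤ((q)) → 𝔽_p((q))` is generated by `p`. -/
theorem h83_dvd_of_red_eq_zero {x : LaurentSeries ℤ} (hx : h83_red p x = 0) :
    (p : LaurentSeries ℤ) ∣ x := by
  have hcoeff : ∀ n : ℤ, (p : ℤ) ∣ x.coeff n := by
    intro n
    have h := congrArg (fun y : LaurentSeries (ZMod p) => y.coeff n) hx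
    simp only [h83_red, coeffMap_coeff, HahnSeries.coeff_zero, Int.coe_castRingHom] at h
    exact (ZMod.intCast_zmod_eq_zero_iff_dvd _ p).mp h
  have hp0 : (p : ℤ) ≠ 0 := by exact_mod_cast NeZero.ne p
  refine ⟨⟨fun n => x.coeff n / (p : ℤ), x.isPWO_support.mono fun n hn => ?_⟩, ?_⟩
  · simp only [Function.mem_support, ne_eq] at hn ⊢
    intro h0
    exact hn (by rw [h0, Int.zero_ediv])
  · have hc : (p : LaurentSeries ℤ) = HahnSeries.C ((p : ℕ) : ℤ) :=
      (map_natCast (HahnSeries.C : ℤ →+* LaurentSeries ℤ) p).symm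
    ext n
    rw [hc, HahnSeries.C_mul_eq_smul, HahnSeries.coeff_smul, smul_eq_mul]
    exact (Int.mul_ediv_cancel' (hcoeff n)).symm

omit hp in
/-- A polynomial over `ℤ((q))` whose reduction mod `p` vanishes is divisible by `p`. -/
theorem h83_C_dvd_of_map_red_eq_zero {D : Polynomial (LaurentSeries ℤ)}
    (hD : D.map (h83_red p) = 0) : C (p : LaurentSeries ℤ) ∣ D := by
  rw [Polynomial.C_dvd_iff_dvd_coeff]
  intro i
  apply h83_dvd_of_red_eq_zero
  have h := congrArg (fun q : Polynomial (LaurentSeries (ZMod p)) => q.coeff i) hD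
  simpa only [Polynomial.coeff_map, Polynomial.coeff_zero] using h

omit hp in
theorem h83_natCast_ne_zero : (p : LaurentSeries ℤ) ≠ 0 := by
  have hc : (p : LaurentSeries ℤ) = HahnSeries.C ((p : ℕ) : ℤ) :=
    (map_natCast (HahnSeries.C : ℤ →+* LaurentSeries ℤ) p).symm
  rw [hc]
  intro h
  have h1 : ((p : ℕ) : ℤ) = 0 := HahnSeries.C_injective (by rw [h, map_zero])
  exact NeZero.ne p (by exact_mod_cast h1)

/-- `P = (X - j)^p (X - j^{p²}) + p · G_P` over `ℤ((q))`. -/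
theorem h83_eisP_eq_add :
    ∃ G : Polynomial (LaurentSeries ℤ),
      h83_eisP p Φ = (X - C (jqModC ℤ)) ^ p * (X - C (jqModC ℤ ^ (p ^ 2)))
        + C (p : LaurentSeries ℤ) * G := by
  have hD : (h83_eisP p Φ - (X - C (jqModC ℤ)) ^ p * (X - C (jqModC ℤ ^ (p ^ 2)))).map
      (h83_red p) = 0 := by
    rw [Polynomial.map_sub, h83_eisP_map_red]
    simp only [Polynomial.map_mul, Polynomial.map_pow, Polynomial.map_sub, Polynomial.map_X,
      Polynomial.map_C, map_pow, h83_red_j, sub_self]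
  obtain ⟨G, hG⟩ := h83_C_dvd_of_map_red_eq_zero p hD
  exact ⟨G, by rw [← hG]; ring⟩

/-- `Ψ_B = X^p - j^p + p · G_B` over `ℤ((q))`. -/
theorem h83_eisPsiB_eq_add :
    ∃ G : Polynomial (LaurentSeries ℤ),
      h83_eisPsiB p Φ = X ^ p - C (jqModC ℤ ^ p) + C (p : LaurentSeries ℤ) * G := by
  have hD : (h83_eisPsiB p Φ - (X ^ p - C (jqModC ℤ ^ p))).map (h83_red p) = 0 := by
    rw [Polynomial.map_sub, h83_eisPsiB_map_red']
    simp only [Polynomial.map_pow, Polynomial.map_sub, Polynomial.map_X,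
      Polynomial.map_C, map_pow, h83_red_j, sub_self]
  obtain ⟨G, hG⟩ := h83_C_dvd_of_map_red_eq_zero p hD
  exact ⟨G, by rw [← hG]; ring⟩

/-- **Eisenstein-split form of `Ψ`** (the hypothesis shape of the two-valuation lemma):
`Ψ = (X - j)^{p-1} (X - j^{p²}) + p · G` over `ℤ((q))`, with `G(j) ≢ 0 mod p` and
`j^{p²} - j ≢ 0 mod p`. -/
theorem h83_eisPsi_eq_add :
    ∃ G : Polynomial (LaurentSeries ℤ),
      h83_eisPsi p Φ = (X - C (jqModC ℤ)) ^ (p - 1) * (X - C (jqModC ℤ ^ (p ^ 2)))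
        + C (p : LaurentSeries ℤ) * G ∧
      (h83_eisPsi p Φ).eval (jqModC ℤ) = (p : LaurentSeries ℤ) * G.eval (jqModC ℤ) ∧
      h83_red p (G.eval (jqModC ℤ)) ≠ 0 ∧
      h83_red p (jqModC ℤ ^ (p ^ 2) - jqModC ℤ) ≠ 0 := by
  have hD : (h83_eisPsi p Φ
      - (X - C (jqModC ℤ)) ^ (p - 1) * (X - C (jqModC ℤ ^ (p ^ 2)))).map (h83_red p) = 0 := by
    rw [Polynomial.map_sub, h83_eisPsi_map_red]
    simp only [Polynomial.map_mul, Polynomial.map_pow, Polynomial.map_sub, Polynomial.map_X,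
      Polynomial.map_C, map_pow, h83_red_j, sub_self]
  obtain ⟨G, hG⟩ := h83_C_dvd_of_map_red_eq_zero p hD
  have hΨ : h83_eisPsi p Φ = (X - C (jqModC ℤ)) ^ (p - 1) * (X - C (jqModC ℤ ^ (p ^ 2)))
      + C (p : LaurentSeries ℤ) * G := by rw [← hG]; ring
  have hp1 : p - 1 ≠ 0 := Nat.sub_ne_zero_of_lt hp.out.one_lt
  have hev : (h83_eisPsi p Φ).eval (jqModC ℤ) = (p : LaurentSeries ℤ) * G.eval (jqModC ℤ) := by
    conv_lhs => rw [hΨ]
    rw [Polynomial.eval_add, Polynomial.eval_mul, Polynomial.eval_pow, Polynomial.eval_sub,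
      Polynomial.eval_X, Polynomial.eval_C, sub_self, zero_pow hp1, zero_mul, zero_add,
      Polynomial.eval_mul, Polynomial.eval_C]
  refine ⟨G, hΨ, hev, ?_, ?_⟩
  · obtain ⟨U, hU, -, -, hU0⟩ := h83_eisenstein p Φ
    have hGU : G.eval (jqModC ℤ) = U :=
      mul_left_cancel₀ (h83_natCast_ne_zero p) (hev.symm.trans hU)
    rw [hGU]
    exact hU0
  · rw [map_sub, map_pow, h83_red_j]
    exact sub_ne_zero.mpr (h83_jbar_ne_pow p).symm

end Main

end Fermat.Agent.S36.H83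

end

end
-- ===== PACK-END S36/H83/Eis.lean

-- ===== PACK-BEGIN S41/H761/HK.lean
section











/-!
# Row S41, block HK: assembly (helper761, sub-architect of block HK)

`hk : Spec.HKStatement` — the conjunction of the nine leaves of block HK:

| leaf | statement | theorem | owner |
|---|---|---|---|
| FUN  | `Spec.FunctorialityStatement`        | `H581.functoriality`         | helper581 |
| RC   | `Spec.RestrictCuspStatement`         | `H581.restrictCusp`          | helper581 |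
| TC   | `Spec.TransferCuspStatement`         | `H581.transferCusp`          | helper581 |
| HC   | `Spec.HeckeCuspStatement`            | `H761.heckeCusp`             | helper761 |
| HR   | `Spec.HeckeRestrictStatement`        | `H281.heckeRestrict`         | helper281 |
| HT   | `Spec.HeckeTransferStatement`        | `H761.heckeTransferComm`     | helper761 |
| TR   | `Spec.TransferRestrictStatement`     | `H105.transferRestrict`      | helper105 (also helper263) |
| TRH  | `Spec.TransferRestrictHeckeStatement`| `H761.transferRestrictHecke` | helper761 |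
| COMM | `Spec.HeckeCommStatement`            | `H281.heckeComm_of_HT`       | helper281 |
-/

set_option autoImplicit false

namespace Fermat.Agent.S41.H761

universe u

/-- Leaf COMM of block HK, unconditional. -/
theorem heckeComm : Spec.HeckeCommStatement.{u} :=
  H281.heckeComm_of_HT heckeTransferComm

/-- **Block HK** of row S41: all nine leaves. -/
theorem hk : Spec.HKStatement.{u} :=
  ⟨H581.functoriality, H581.restrictCusp, H581.transferCusp, heckeCusp,
    H281.heckeRestrict, heckeTransferComm, H105.transferRestrict,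
    transferRestrictHecke, heckeComm⟩

end Fermat.Agent.S41.H761

end
-- ===== PACK-END S41/H761/HK.lean

-- ===== PACK-BEGIN S59/TW/H658/HeckeForms.lean
section



/-!
# S59 / TW-ES (helper658), leaf E2: `T_ℓ` and diamonds on `S₂(K)`, `Γ₁(M) ≤ K ≤ Γ₀(M)`

For `hK : H653.IsMid M K` (e.g. `K = H653.GammaH M H`):

* `TForm hK hℓ : CuspForm K 2 →ₗ[ℂ] CuspForm K 2`, `⇑(TForm hK hℓ f) = ∑ₓ ⇑f ∣[2] repsT M ℓ x`;
  `perG_TForm : perG (TForm hK hℓ f) = H653.TK M K ℓ (perG f)`;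
* `diaForm hK g : CuspForm K 2 →ₗ[ℂ] CuspForm K 2`, `⇑(diaForm hK g f) = ⇑f ∣[2] g`
  (`g ∈ Γ₀(M)`); `perG_diaForm : perG (diaForm hK g f) = H653.diamond hK g (perG f)`.
-/

set_option autoImplicit false
set_option linter.unusedSectionVars false

noncomputable section

namespace Fermat.Agent.S59.TW.H658

open CongruenceSubgroup ModularCurve ModularCurve.Period ModularForm
open UpperHalfPlane hiding I
open Matrix.SpecialLinearGroup Fermat.Agent.S41.H761 Fermat.Agent.Lib.Newform.H803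
open Fermat.Agent.S59.TW.H653 Fermat.Agent.S29.H642
open scoped Manifold MatrixGroups ModularForm

variable {M : ℕ} {K : Subgroup SL(2, ℤ)}

theorem det_repsT_pos (M ℓ : ℕ) (x : OnePoint (ZMod ℓ)) :
    0 < ((repsT M ℓ x : GL (Fin 2) ℝ) : Matrix (Fin 2) (Fin 2) ℝ).det := by
  induction x using OnePoint.rec with
  | infty =>
    rw [repsT_infty, Matrix.GeneralLinearGroup.coe_mul, Matrix.det_mul]
    have h1 : ((ιN M (sigma M ℓ) : GL (Fin 2) ℝ) : Matrix (Fin 2) (Fin 2) ℝ).det = 1 :=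
      Fermat.Agent.S21.H381.det_coe_SL _
    rw [h1, one_mul]
    have := ModularForm.det_heckeDiagMatrix_pos ℓ
    rwa [Matrix.GeneralLinearGroup.val_det_apply] at this
  | coe j =>
    rw [repsT_coe]
    have := ModularForm.det_heckeMatrix_pos ℓ j.val
    rwa [Matrix.GeneralLinearGroup.val_det_apply] at this

theorem isCuspidal_slash_repsT {k : ℤ} (M : ℕ) {ℓ : ℕ} (hℓ0 : ℓ ≠ 0) (F : ℍ → ℂ)
    (hF : IsCuspidal k F) (x : OnePoint (ZMod ℓ)) : IsCuspidal k (F ∣[k] repsT M ℓ x) := by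
  induction x using OnePoint.rec with
  | infty =>
    rw [repsT_infty, SlashAction.slash_mul]
    exact (hF.slash_SL (sigma M ℓ : SL(2, ℤ))).slash_heckeDiagMatrix hℓ0
  | coe j =>
    rw [repsT_coe]
    exact hF.slash_heckeMatrix hℓ0 _

variable [K.FiniteIndex]

/-- `T_ℓ` on weight-2 cusp forms of `K`. -/
def TForm (hK : IsMid M K) {ℓ : ℕ} [Fact ℓ.Prime] (hℓ : ¬ ℓ ∣ M) :
    CuspForm K 2 →ₗ[ℂ] CuspForm K 2 :=
  cosetOp (repsT_system hK hℓ) (det_repsT_pos M ℓ)
    (isCuspidal_slash_repsT M (Fact.out : ℓ.Prime).ne_zero)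

@[simp] theorem coe_TForm (hK : IsMid M K) {ℓ : ℕ} [Fact ℓ.Prime] (hℓ : ¬ ℓ ∣ M)
    (f : CuspForm K 2) : (⇑(TForm hK hℓ f) : ℍ → ℂ) = famOp 2 (repsT M ℓ) ⇑f := rfl

/-- **E2 for `T_ℓ`.** -/
theorem perG_TForm (hK : IsMid M K) {ℓ : ℕ} [Fact ℓ.Prime] (hℓ : ¬ ℓ ∣ M) (f : CuspForm K 2) :
    perG (TForm hK hℓ f) = TK M K ℓ (perG f) := by
  rw [TK_eq hK hℓ]
  exact perG_cosetOp (repsT_system hK hℓ) _ _ f

omit [K.FiniteIndex] in
theorem slInv_slash_of_isMid {k : ℤ} (hK : IsMid M K) (g : Gamma0 M) {F : ℍ → ℂ}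
    (hF : SlInv k K F) : SlInv k K (F ∣[k] (g : SL(2, ℤ))) := by
  intro γ hγ
  have h1 : (g : SL(2, ℤ)) * γ = ((conjK hK g ⟨γ, hγ⟩ : K) : SL(2, ℤ)) * (g : SL(2, ℤ)) := by
    rw [conjK_coe]
    group
  rw [← SlashAction.slash_mul, h1, SlashAction.slash_mul, hF _ (conjK hK g ⟨γ, hγ⟩).2]

/-- The diamond operator `f ↦ f ∣ g`, `g ∈ Γ₀(M)`, on weight-2 cusp forms of `K`. -/
def diaForm (hK : IsMid M K) (g : Gamma0 M) : CuspForm K 2 →ₗ[ℂ] CuspForm K 2 where
  toFun f := cuspFormOfIsCuspidal K ((⇑f : ℍ → ℂ) ∣[(2 : ℤ)] (g : SL(2, ℤ)))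
    ((isCuspidal_of_cuspForm f).slash_SL _) (slInv_slash_of_isMid hK g (slInv_of_cuspForm f))
  map_add' f f' := DFunLike.coe_injective <| by
    show (⇑(f + f') : ℍ → ℂ) ∣[(2 : ℤ)] (g : SL(2, ℤ)) = _
    rw [FunLike.coe_add, SlashAction.add_slash]
    rfl
  map_smul' c f := DFunLike.coe_injective <| by
    show (⇑(c • f) : ℍ → ℂ) ∣[(2 : ℤ)] (g : SL(2, ℤ)) = _
    rw [FunLike.coe_smul, ModularForm.SL_smul_slash]
    rfl

@[simp] theorem coe_diaForm (hK : IsMid M K) (g : Gamma0 M) (f : CuspForm K 2) :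
    (⇑(diaForm hK g f) : ℍ → ℂ) = (⇑f : ℍ → ℂ) ∣[(2 : ℤ)] (g : SL(2, ℤ)) := rfl

/-- **E2 for the diamond operators.** -/
theorem perG_diaForm (hK : IsMid M K) (g : Gamma0 M) (f : CuspForm K 2) :
    perG (diaForm hK g f) = diamond hK g (perG f) := by
  obtain ⟨F, hF⟩ := exists_isPrimG f
  refine AddMonoidHom.ext fun γ ↦ ?_
  obtain ⟨γ, rfl⟩ : ∃ γ' : K, Additive.ofMul γ' = γ := ⟨Additive.toMul γ, rfl⟩
  have hFa : IsPrimG (⇑(diaForm hK g f)) (fun w : ℍ ↦ F ((g : SL(2, ℤ)) • w)) := by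
    rw [coe_diaForm]
    exact hF.comp_smul (g : SL(2, ℤ))
  rw [perG_apply (diaForm hK g f) hFa γ UpperHalfPlane.I, diamond_apply,
    perG_apply f hF (conjK hK g γ) ((g : SL(2, ℤ)) • UpperHalfPlane.I)]
  have h1 : ((conjK hK g γ : K) : SL(2, ℤ)) • ((g : SL(2, ℤ)) • UpperHalfPlane.I) =
      (g : SL(2, ℤ)) • ((γ : SL(2, ℤ)) • UpperHalfPlane.I) := by
    rw [conjK_coe, ← mul_smul, ← mul_smul]
    congr 1
    group
  rw [h1]

end Fermat.Agent.S59.TW.H658

end
end
-- ===== PACK-END S59/TW/H658/HeckeForms.lean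

-- ===== PACK-BEGIN S48/H548/Comm.lean
section


/-!
# S48 / RES (helper548): the Hecke algebra `heckeAlg1 M k` is commutative

* `diaU d` : the diamond operator `⟨d⟩`, `d ∈ (ℤ/M)ˣ`; `diaL a = diaU d` if `a₁₁ ≡ d`;
* `neProj χ` : the projector onto the nebentypus-`χ` part; `sum_neProj : ∑ χ, neProj χ g = g`;
* `TpL_comm` : `T_p T_q = T_q T_p` on `S_k(Γ₁(M))` (via `q`-expansions on each `χ`-part);
* `heckeGens_comm`, `heckeAlg1_comm` : commutativity of the generators / of the algebra.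
-/

set_option autoImplicit false
set_option linter.unusedSectionVars false
set_option linter.deprecated false

noncomputable section

namespace Fermat.Agent.S48.H548

open Matrix.SpecialLinearGroup UpperHalfPlane ModularForm CongruenceSubgroup ModularFormClass
open scoped MatrixGroups ModularForm OnePoint Manifold

variable {M : ℕ} [NeZero M] {wt : ℤ}

/-! ### Diamond operators indexed by units -/

theorem exists_diaRep (M : ℕ) [NeZero M] (d : (ZMod M)ˣ) :
    ∃ σ : SL(2, ℤ), σ ∈ Gamma0 M ∧ ((σ 1 1 : ℤ) : ZMod M) = (d : ZMod M) := by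
  obtain ⟨σ, hσ, -, h1⟩ := exists_Gamma0_lower M (d : ZMod M).val (ZMod.val_coe_unit_coprime d)
  refine ⟨σ, hσ, ?_⟩
  rw [h1, Int.cast_natCast, ZMod.natCast_zmod_val]

/-- A representative in `Γ₀(M)` of the unit `d`. -/
def diaRep (M : ℕ) [NeZero M] (d : (ZMod M)ˣ) : SL(2, ℤ) := (exists_diaRep M d).choose

theorem diaRep_mem (d : (ZMod M)ˣ) : diaRep M d ∈ Gamma0 M := (exists_diaRep M d).choose_spec.1

theorem diaRep_lower (d : (ZMod M)ˣ) : (((diaRep M d) 1 1 : ℤ) : ZMod M) = (d : ZMod M) :=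
  (exists_diaRep M d).choose_spec.2

/-- The diamond operator `⟨d⟩`. -/
def diaU (d : (ZMod M)ˣ) : CuspForm (Gamma1 M) wt →ₗ[ℂ] CuspForm (Gamma1 M) wt :=
  diaL (diaRep M d) (diaRep_mem d)

theorem diaL_eq_of_lower_eq (a b : SL(2, ℤ)) (ha : a ∈ Gamma0 M) (hb : b ∈ Gamma0 M)
    (h : ((a 1 1 : ℤ) : ZMod M) = ((b 1 1 : ℤ) : ZMod M)) :
    (diaL a ha : CuspForm (Gamma1 M) wt →ₗ[ℂ] CuspForm (Gamma1 M) wt) = diaL b hb := by
  ext1 g
  apply DFunLike.coe_injective
  rw [coe_diaL, coe_diaL]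
  exact (coe_inv1 g).slash_eq_of_lower_eq a b ha hb h

theorem diaL_eq_diaU (a : SL(2, ℤ)) (ha : a ∈ Gamma0 M) (d : (ZMod M)ˣ)
    (h : ((a 1 1 : ℤ) : ZMod M) = (d : ZMod M)) :
    (diaL a ha : CuspForm (Gamma1 M) wt →ₗ[ℂ] CuspForm (Gamma1 M) wt) = diaU d :=
  diaL_eq_of_lower_eq a _ ha (diaRep_mem d) (h.trans (diaRep_lower d).symm)

theorem diaL_mul (a b : SL(2, ℤ)) (ha : a ∈ Gamma0 M) (hb : b ∈ Gamma0 M)
    (g : CuspForm (Gamma1 M) wt) :
    diaL b hb (diaL a ha g) = diaL (a * b) ((Gamma0 M).mul_mem ha hb) g := by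
  apply DFunLike.coe_injective
  rw [coe_diaL, coe_diaL, coe_diaL, slash_mapGL_mul]

theorem diaL_comm (a b : SL(2, ℤ)) (ha : a ∈ Gamma0 M) (hb : b ∈ Gamma0 M)
    (g : CuspForm (Gamma1 M) wt) :
    diaL b hb (diaL a ha g) = diaL a ha (diaL b hb g) := by
  rw [diaL_mul, diaL_mul]
  refine LinearMap.congr_fun (diaL_eq_of_lower_eq _ _ _ _ ?_) g
  rw [lower_right_mul a b ha, lower_right_mul b a hb, mul_comm]

theorem diaU_one (g : CuspForm (Gamma1 M) wt) : diaU (1 : (ZMod M)ˣ) g = g := by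
  apply DFunLike.coe_injective
  show (⇑(diaL _ _ g) : ℍ → ℂ) = _
  rw [coe_diaL]
  refine coe_inv1 g _ (mem_Gamma1_of_lower _ (Gamma0_mem.mp (diaRep_mem 1)) ?_)
  rw [diaRep_lower]
  rfl

/-- The unit of `ℤ/M` given by the lower right entry of `a ∈ Γ₀(M)`. -/
def lowerUnit (a : SL(2, ℤ)) (ha : a ∈ Gamma0 M) : (ZMod M)ˣ :=
  ⟨((a 1 1 : ℤ) : ZMod M), ((a 0 0 : ℤ) : ZMod M),
    by rw [mul_comm]; exact lower_right_isUnit a ha, lower_right_isUnit a ha⟩

@[simp] theorem coe_lowerUnit (a : SL(2, ℤ)) (ha : a ∈ Gamma0 M) :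
    ((lowerUnit a ha : (ZMod M)ˣ) : ZMod M) = ((a 1 1 : ℤ) : ZMod M) := rfl

theorem diaL_diaU (a : SL(2, ℤ)) (ha : a ∈ Gamma0 M) (d : (ZMod M)ˣ)
    (g : CuspForm (Gamma1 M) wt) : diaL a ha (diaU d g) = diaU (d * lowerUnit a ha) g := by
  show diaL a ha (diaL _ _ g) = _
  rw [diaL_mul]
  refine LinearMap.congr_fun (diaL_eq_diaU _ _ _ ?_) g
  rw [lower_right_mul _ a (diaRep_mem d), diaRep_lower, Units.val_mul, coe_lowerUnit]

/-! ### Decomposition into nebentypus components -/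

/-- The projector onto the nebentypus-`χ` component. -/
def neProj (χ : DirichletCharacter ℂ M) :
    CuspForm (Gamma1 M) wt →ₗ[ℂ] CuspForm (Gamma1 M) wt :=
  ((M.totient : ℂ)⁻¹) • ∑ d : (ZMod M)ˣ, χ ((d⁻¹ : (ZMod M)ˣ) : ZMod M) • diaU d

theorem neProj_apply (χ : DirichletCharacter ℂ M) (g : CuspForm (Gamma1 M) wt) :
    neProj χ g =
      ((M.totient : ℂ)⁻¹) • ∑ d : (ZMod M)ˣ, χ ((d⁻¹ : (ZMod M)ˣ) : ZMod M) • diaU d g := by
  simp [neProj, LinearMap.sum_apply]

theorem diaL_neProj (χ : DirichletCharacter ℂ M) (a : SL(2, ℤ)) (ha : a ∈ Gamma0 M)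
    (g : CuspForm (Gamma1 M) wt) :
    diaL a ha (neProj χ g) = χ ((a 1 1 : ℤ) : ZMod M) • neProj χ g := by
  set u := lowerUnit a ha with hu
  have h1 : diaL a ha (neProj χ g) = ((M.totient : ℂ)⁻¹) •
      ∑ d : (ZMod M)ˣ, χ ((d⁻¹ : (ZMod M)ˣ) : ZMod M) • diaU (d * u) g := by
    rw [neProj_apply, map_smul, map_sum]
    congr 1
    refine Finset.sum_congr rfl fun d _ ↦ ?_
    rw [map_smul, diaL_diaU]
  have h2 : ∑ d : (ZMod M)ˣ, χ ((d⁻¹ : (ZMod M)ˣ) : ZMod M) • diaU (d * u) g =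
      ∑ d : (ZMod M)ˣ, χ (((d * u⁻¹)⁻¹ : (ZMod M)ˣ) : ZMod M) • diaU d g := by
    refine Fintype.sum_equiv (Equiv.mulRight u) _ _ fun d ↦ ?_
    rw [Equiv.coe_mulRight, mul_inv_cancel_right]
  have h3 : ∀ d : (ZMod M)ˣ, χ (((d * u⁻¹)⁻¹ : (ZMod M)ˣ) : ZMod M) =
      χ ((a 1 1 : ℤ) : ZMod M) * χ ((d⁻¹ : (ZMod M)ˣ) : ZMod M) := by
    intro d
    rw [mul_inv_rev, inv_inv, Units.val_mul, map_mul]
    rfl
  rw [h1, h2, neProj_apply, smul_comm (χ ((a 1 1 : ℤ) : ZMod M)) ((M.totient : ℂ)⁻¹)]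
  congr 1
  rw [Finset.smul_sum]
  refine Finset.sum_congr rfl fun d _ ↦ ?_
  rw [h3, mul_smul]

theorem hasNeb_neProj (χ : DirichletCharacter ℂ M) (g : CuspForm (Gamma1 M) wt) :
    HasNeb (⇑χ) (⇑(neProj χ g)) wt := fun a ha ↦ by
  rw [← coe_diaL a ha, diaL_neProj, CuspForm.IsGLPos.coe_smul]

theorem sum_neProj (g : CuspForm (Gamma1 M) wt) :
    ∑ χ : DirichletCharacter ℂ M, neProj χ g = g := by
  simp only [neProj_apply]
  rw [← Finset.smul_sum, Finset.sum_comm]
  simp only [← Finset.sum_smul]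
  have h1 : ∀ d : (ZMod M)ˣ,
      (∑ χ : DirichletCharacter ℂ M, χ ((d⁻¹ : (ZMod M)ˣ) : ZMod M)) =
        if d = 1 then (M.totient : ℂ) else 0 := by
    intro d
    rw [DirichletCharacter.sum_characters_eq]
    congr 1
    rw [eq_iff_iff]
    constructor
    · intro h
      have : (d⁻¹ : (ZMod M)ˣ) = 1 := Units.ext h
      simpa using this
    · rintro rfl
      simp
  simp only [h1]
  rw [Finset.sum_eq_single (1 : (ZMod M)ˣ)]
  · rw [if_pos rfl, smul_smul, diaU_one, inv_mul_cancel₀, one_smul]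
    exact_mod_cast (Nat.totient_pos.mpr (NeZero.pos M)).ne'
  · intro d _ hd
    rw [if_neg hd, zero_smul]
  · intro h
    exact absurd (Finset.mem_univ _) h

/-! ### Commutativity of the `T_p` -/

section TT

variable {p q : ℕ} [Fact p.Prime] [Fact q.Prime]

theorem eq_of_qCoeff_eq (f g : CuspForm (Gamma1 M) wt)
    (h : ∀ n, qCoeff (⇑f : ℍ → ℂ) n = qCoeff (⇑g : ℍ → ℂ) n) : f = g := by
  apply DFunLike.coe_injective
  exact HasQ.unique ((coe_nice f).hasQ.congr h) (coe_nice g).hasQ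

/-- The `q`-expansion of `T_p T_q g` (symmetric in `p`, `q`). -/
theorem qCoeff_TpL_TpL (hpq : p ≠ q) (hpM : ¬ p ∣ M) (hqM : ¬ q ∣ M) {χ : ZMod M → ℂ}
    (g : CuspForm (Gamma1 M) wt) (hχ : HasNeb χ ⇑g wt) (n : ℕ) :
    qCoeff (⇑(TpL p hpM (TpL q hqM g)) : ℍ → ℂ) n =
      qCoeff (⇑g : ℍ → ℂ) (n * p * q) +
      (if q ∣ n then χ q * (q : ℂ) ^ (wt - 1) * qCoeff (⇑g : ℍ → ℂ) (n / q * p) else 0) +
      (if p ∣ n then χ p * (p : ℂ) ^ (wt - 1) * qCoeff (⇑g : ℍ → ℂ) (n / p * q) else 0) +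
      (if p ∣ n ∧ q ∣ n then χ p * (p : ℂ) ^ (wt - 1) * (χ q * (q : ℂ) ^ (wt - 1)) *
        qCoeff (⇑g : ℍ → ℂ) (n / (p * q)) else 0) := by
  have hp : p.Prime := Fact.out
  have hq : q.Prime := Fact.out
  have hcop : Nat.Coprime q p := (Nat.coprime_primes hq hp).mpr (Ne.symm hpq)
  rw [qCoeff_TpL hpM _ (hasNeb_TpL hqM g hχ), qCoeff_TpL hqM g hχ, qCoeff_TpL hqM g hχ]
  have h1 : q ∣ n * p ↔ q ∣ n := hcop.dvd_mul_right
  by_cases hqn : q ∣ n
  · have h2 : n * p / q = n / q * p := (Nat.div_mul_right_comm hqn p).symm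
    by_cases hpn : p ∣ n
    · have h3 : q ∣ n / p := by
        obtain ⟨m, rfl⟩ := hpn
        rw [Nat.mul_div_cancel_left m hp.pos]
        exact (hcop.dvd_mul_left).mp hqn
      have h4 : n / p / q = n / (p * q) := Nat.div_div_eq_div_mul n p q
      rw [if_pos (h1.mpr hqn), if_pos hpn, if_pos h3, if_pos hqn, if_pos hpn,
        if_pos ⟨hpn, hqn⟩, h2, h4]
      ring
    · rw [if_pos (h1.mpr hqn), if_neg hpn, if_pos hqn, if_neg hpn,
        if_neg (fun h ↦ hpn h.1), h2]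
      ring
  · by_cases hpn : p ∣ n
    · have h3 : ¬ q ∣ n / p := fun h ↦ hqn (h.trans (Nat.div_dvd_of_dvd hpn))
      rw [if_neg (fun h ↦ hqn (h1.mp h)), if_pos hpn, if_neg h3, if_neg hqn, if_pos hpn,
        if_neg (fun h ↦ hqn h.2)]
      ring
    · rw [if_neg (fun h ↦ hqn (h1.mp h)), if_neg hpn, if_neg hqn, if_neg hpn,
        if_neg (fun h ↦ hqn h.2)]
      ring

theorem TpL_comm_of_hasNeb (hpM : ¬ p ∣ M) (hqM : ¬ q ∣ M) {χ : ZMod M → ℂ}
    (g : CuspForm (Gamma1 M) wt) (hχ : HasNeb χ ⇑g wt) :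
    TpL p hpM (TpL q hqM g) = TpL q hqM (TpL p hpM g) := by
  by_cases hpq : p = q
  · subst hpq
    have : (inferInstance : Fact p.Prime) = ‹Fact p.Prime› := Subsingleton.elim _ _
    congr!
  · refine eq_of_qCoeff_eq _ _ fun n ↦ ?_
    rw [qCoeff_TpL_TpL hpq hpM hqM g hχ, qCoeff_TpL_TpL (Ne.symm hpq) hqM hpM g hχ]
    have e1 : n * p * q = n * q * p := by ring
    have e2 : n / (p * q) = n / (q * p) := by rw [mul_comm]
    have e3 : (p ∣ n ∧ q ∣ n) ↔ (q ∣ n ∧ p ∣ n) := and_comm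
    rw [e1, e2]
    simp only [e3]
    ring_nf

/-- `T_p T_q = T_q T_p`. -/
theorem TpL_comm (hpM : ¬ p ∣ M) (hqM : ¬ q ∣ M) (g : CuspForm (Gamma1 M) wt) :
    TpL p hpM (TpL q hqM g) = TpL q hqM (TpL p hpM g) := by
  conv_lhs => rw [← sum_neProj g]
  conv_rhs => rw [← sum_neProj g]
  rw [map_sum, map_sum, map_sum, map_sum]
  exact Finset.sum_congr rfl fun χ _ ↦ TpL_comm_of_hasNeb hpM hqM _ (hasNeb_neProj χ g)

end TT

/-! ### Commutativity of the algebra -/

theorem heckeGens_comm (s t : Module.End ℂ (CuspForm (Gamma1 M) wt)) (hs : s ∈ heckeGens M wt)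
    (ht : t ∈ heckeGens M wt) : s * t = t * s := by
  ext1 g
  rw [Module.End.mul_apply, Module.End.mul_apply]
  rcases hs with ⟨p, hp, hpM, rfl⟩ | ⟨a, ha, rfl⟩ <;>
    rcases ht with ⟨q, hq, hqM, rfl⟩ | ⟨b, hb, rfl⟩
  · exact TpL_comm hpM hqM g
  · exact (diaL_TpL hpM b hb g).symm
  · exact diaL_TpL hqM a ha g
  · exact diaL_comm b a hb ha g

/-- The Hecke algebra is commutative. -/
theorem heckeAlg1_comm (s t : heckeAlg1 M wt) : s * t = t * s := by
  exact (Algebra.adjoinCommRingOfComm ℤ (s := heckeGens M wt)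
    (fun a ha b hb ↦ heckeGens_comm a b ha hb)).mul_comm s t

/-- The Hecke algebra as a commutative ring. -/
instance heckeAlg1.instCommRing : CommRing (heckeAlg1 M wt) :=
  { (inferInstance : Ring (heckeAlg1 M wt)) with mul_comm := heckeAlg1_comm }

end Fermat.Agent.S48.H548

end
end
-- ===== PACK-END S48/H548/Comm.lean

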