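import Fermat.Prelude.Def_CuspForm_Newforms
import Fermat.Prelude.Def_GaloisRep_LocalConditions
import Fermat.Prelude.Def_AlgebraicCurve_BaseChangeGalois
import Fermat.Agent.Pack.S43MC.G0E16L1
import Fermat.Agent.Pack.S43MC.G0E8L0
import Fermat.Agent.Pack.S43MC.G0E0L1
import Fermat.Agent.Pack.S43MC.G0E8L3
import Fermat.Agent.Pack.S43MC.G0E15L3
import Fermat.Agent.Pack.S43MC.G0E17L3
import Fermat.Agent.Pack.S43MC.G0E15L1
import Fermat.Agent.Pack.S43MC.G0E17L2
import Fermat.Agent.Pack.S43MC.G0E15L2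
import Fermat.Agent.Pack.S43MC.G0E11L2
import Fermat.Agent.Pack.S43MC.G0E1L3
import Fermat.Agent.Pack.S43MC.G0E9L3
import Fermat.Agent.Pack.S43MC.G0E9L2
import Fermat.Agent.Pack.S43MC.G0E17L0
import Fermat.Agent.Pack.S43MC.G0E2L0
import Fermat.Agent.Pack.S43MC.G0E3L2
import Fermat.Agent.Pack.S44C.G0E6L2
import Fermat.Agent.Pack.S44C.G0E20L3
import Fermat.Agent.Pack.S43MC.G0E7L3
import Fermat.Agent.Pack.S44C.G0E2L0
import Fermat.Agent.Pack.S43MC.G0E17L1
import Fermat.Agent.Pack.S44C.G0E18L3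
import Fermat.Agent.Pack.S44C.G0E14L2
import Fermat.Agent.Pack.S43GC.G0E13L2
import Fermat.Agent.Pack.Fast891

-- ===== PACK-BEGIN S25/H567/AbelFamily.lean
section






/-!
# Row S25, block ABEL (scheme side), part 4 (helper567): the Abel family on `C × C^g`

From an algebraic Abel family `𝔉` (block AB-ALG), the dictionary (`DictGlue`, `DictIso`,
`DictBC`, `DictUnit`) and Zariski descent in the base (`SheafGlue`, `SheafSep`) we construct the
rigidified line bundle on `C × C^g` and prove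

* `abelFamily_core` : the common core (a bundle on `C^g`, trivial at a `k`-point, whose fibre at
  the point of a tuple `Q` of chart points is the bundle of `𝔉.F K Q`);
* `abelFamily`      : `H746.Stmt.AbelFamily Ch`;
* `abelAlg`         : `H687.AbelAlg Ch`.
-/

set_option autoImplicit false
universe u
open CategoryTheory CategoryTheory.Limits AlgebraicGeometry AlgebraicGeometry.RelPicard
  NeronModelInfra GoodReductionJacobian
open scoped TensorProduct

namespace Fermat.Agent.S25.H567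

open Fermat.Agent.S25 Fermat.Agent.S25.H746 Fermat.Agent.S25.H130

noncomputable section

variable {k : Type u} [Field k] {C : Scheme.{u}} {c : C ⟶ Spec (CommRingCat.of k)}
  {ε : SchemeHomOver (𝟙 (Spec (CommRingCat.of k))) c}

theorem specStr_self : specStr k k = 𝟙 (Spec (CommRingCat.of k)) :=
  Spec.map_id _

/-- Change of the structure morphism of the test scheme along an equality. -/
theorem unit_fibre_of_eq {T S : Scheme.{u}} {t : T ⟶ Spec (CommRingCat.of k)}
    (M : RigidifiedLineBundle c ε t) {s s' : S ⟶ Spec (CommRingCat.of k)} (h : s = s')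
    (r : SchemeHomOver s t) (r' : SchemeHomOver s' t) (hr : r.1 = r'.1)
    (hiso : RIso (M.pullbackAlong r) (RigidifiedLineBundle.unit s)) :
    Nonempty ((M.pullbackAlong r').L ≅
      (RigidifiedLineBundle.unit (c := c) (ε := ε) s').L) := by
  subst h
  obtain rfl : r = r' := Subtype.ext hr
  exact hiso

variable (Ch : ChartOf c ε)

/-- The common core of the two forms of the Abel family. -/
theorem abelFamily_core [IsAlgClosed k] [IsProper c] [IsIntegral C]
    (𝔉 : AlgAbelFamily k Ch.B₀ Ch.B₁ Ch.B₀₁ Ch.e)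
    (hGlue : Stmt.SheafGlue c ε) (hSep : Stmt.SheafSep c ε)
    (hDG : Stmt.DictGlue Ch) (hDI : Stmt.DictIso Ch) (hDB : Stmt.DictBC Ch)
    (hDU : H746.Stmt.DictUnit Ch) :
    ∃ (X : Scheme.{u}) (x : X ⟶ Spec (CommRingCat.of k)) (_ : IsProper x)
      (_ : GeometricallyIntegral x) (M : RigidifiedLineBundle c ε x)
      (x₀ : SchemeHomOver (𝟙 (Spec (CommRingCat.of k))) x),
      Nonempty ((M.pullbackAlong x₀).L ≅
        SheafOfModules.unit (pullback c (𝟙 (Spec (CommRingCat.of k)))).ringCatSheaf) ∧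
      ∀ (K : Type u) [Field K] [Algebra k K]
        (L : RigidifiedLineBundle c ε (specStr k K)) (G : CurveGD k Ch.B₀ Ch.B₁ Ch.B₀₁ K)
        (Q : Fin 𝔉.g → ChartPt k Ch.B₀ Ch.B₁ K), Corr Ch K L.L G → G.IsIso (𝔉.F K Q) →
        ∃ p : SchemeHomOver (specStr k K) x, RIso (M.pullbackAlong p) L := by
  let P := fibrePower c 𝔉.g
  obtain ⟨hproper, hgi, -⟩ := fibrePower_isProper_and_geometricallyIntegral c 𝔉.g
  obtain ⟨M, hM⟩ := exists_isAbelBundleField (𝔉 := 𝔉) hGlue hSep hDG hDI hDB P.x P.pr P.pr_comp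
  -- fibres at tuples of chart points
  have hfib : ∀ (K : Type u) [Field K] [Algebra k K]
      (L : RigidifiedLineBundle c ε (specStr k K)) (G : CurveGD k Ch.B₀ Ch.B₁ Ch.B₀₁ K)
      (Q : Fin 𝔉.g → ChartPt k Ch.B₀ Ch.B₁ K), Corr Ch K L.L G → G.IsIso (𝔉.F K Q) →
      ∃ p : SchemeHomOver (specStr k K) P.x, RIso (M.pullbackAlong p) L := by
    intro K _ _ L G Q hL hG
    have hlx := P.lift_x (specStr k K) (fun i => chartPtHom Ch (Q i))
      (fun i => chartPtHom_comp_str Ch (Q i))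
    have hlp := P.lift_pr (specStr k K) (fun i => chartPtHom Ch (Q i))
      (fun i => chartPtHom_comp_str Ch (Q i))
    exact ⟨⟨_, hlx⟩, hM K ⟨_, hlx⟩ Q (fun i => (hlp i).symm) L G hL hG⟩
  -- the trivial fibre
  obtain ⟨p, hp⟩ := hfib k (RigidifiedLineBundle.unit (specStr k k)) _ (fun _ => Sum.inr Ch.e)
    (hDU k) (gdIsIso_symm 𝔉.triv)
  refine ⟨P.X, P.x, hproper, hgi, M, ⟨p.1, by rw [p.2, specStr_self]⟩, ?_, hfib⟩
  exact unit_fibre_of_eq M specStr_self p _ rfl hp

/-- **ABEL-FAMILY** (`H746.Stmt.AbelFamily`). -/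
theorem abelFamily [IsAlgClosed k] [IsProper c] [IsIntegral C]
    (𝔉 : AlgAbelFamily k Ch.B₀ Ch.B₁ Ch.B₀₁ Ch.e)
    (hGlue : Stmt.SheafGlue c ε) (hSep : Stmt.SheafSep c ε)
    (hDG : Stmt.DictGlue Ch) (hDI : Stmt.DictIso Ch) (hDB : Stmt.DictBC Ch)
    (hDU : H746.Stmt.DictUnit Ch) : H746.Stmt.AbelFamily Ch := by
  obtain ⟨X, x, hproper, hgi, M, x₀, h₀, hfib⟩ :=
    abelFamily_core Ch 𝔉 hGlue hSep hDG hDI hDB hDU
  have hlft : LocallyOfFiniteType x := inferInstance
  refine ⟨X, x, hproper, hgi, M, H206.fibrewiseAlgEquivZero_of_trivial_fibre x M x₀ h₀, ?_⟩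
  intro K _ _ _ L G hL hG
  obtain ⟨Q, hQ⟩ := 𝔉.surj K G hG
  exact hfib K L G Q hL hQ

/-- **ABEL, algebraic form** (`H687.AbelAlg`). -/
theorem abelAlg [IsAlgClosed k] [IsProper c] [IsIntegral C]
    (𝔉 : AlgAbelFamily k Ch.B₀ Ch.B₁ Ch.B₀₁ Ch.e)
    (hGlue : Stmt.SheafGlue c ε) (hSep : Stmt.SheafSep c ε)
    (hDG : Stmt.DictGlue Ch) (hDI : Stmt.DictIso Ch) (hDB : Stmt.DictBC Ch)
    (hDU : H746.Stmt.DictUnit Ch) : H687.AbelAlg Ch := by
  obtain ⟨X, x, hproper, hgi, M, x₀, h₀, hfib⟩ :=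
    abelFamily_core Ch 𝔉 hGlue hSep hDG hDI hDB hDU
  refine ⟨X, x, hproper, hgi, M, x₀, h₀, ?_⟩
  intro K _ _ _ L G hL hG
  have hdeg : G.Deg0 := fun K' _ _ φ G' h => (H310.degree_eq_of_isBC φ h).trans hG
  obtain ⟨Q, hQ⟩ := 𝔉.surj K G hdeg
  exact hfib K L G Q hL hQ

end

end Fermat.Agent.S25.H567

end
-- ===== PACK-END S25/H567/AbelFamily.lean

-- ===== PACK-BEGIN S25/H747/AlgAbelTop.lean
section
/-
S25 / block ABEL, sub-block AB-ALG (helper747): TOP.  `Stmt.AlgAbel` from the three remaining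
leaves AA2 (base change), AA4 (local rigidifiability), AA6 (surjectivity), taken as explicit
hypotheses in their exact skeleton form; AA1, AA3, AA5 are proved in this directory.
-/



set_option autoImplicit false
universe u
open scoped TensorProduct

namespace Fermat.Agent.S25.H747

open Fermat.Agent.S25

section

variable (k : Type u) [Field k] [IsAlgClosed k]
  (B₀ B₁ B₀₁ : Type u) [CommRing B₀] [CommRing B₁] [CommRing B₀₁]
  [Algebra k B₀] [Algebra k B₁] [Algebra k B₀₁] [Algebra B₀ B₀₁] [Algebra B₁ B₀₁]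
  [IsScalarTower k B₀ B₀₁] [IsScalarTower k B₁ B₀₁]

/-- Leaf **AA2** as a statement. -/
def StmtAA2 : Prop :=
  ∀ (x : B₀) (y : B₁) (e : B₁ →ₐ[k] k), IsCurveChart k B₀ B₁ B₀₁ x y e → ∀ (g : ℕ)
    (A A' : Type u) [CommRing A] [Algebra k A] [CommRing A'] [Algebra k A']
    (ψ : A →ₐ[k] A') (P : Fin g → H746.ChartPt k B₀ B₁ A),
    CurveGD.IsBC ψ (abelDatum (B₀₁ := B₀₁) e g A P)
      (abelDatum (B₀₁ := B₀₁) e g A' (fun i => (P i).map ψ))

/-- Leaf **AA4** as a statement. -/
def StmtAA4 : Prop :=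
  ∀ (x : B₀) (y : B₁) (e : B₁ →ₐ[k] k), IsCurveChart k B₀ B₁ B₀₁ x y e → ∀ (g : ℕ)
    (A : Type u) [CommRing A] [Algebra k A] (P : Fin g → H746.ChartPt k B₀ B₁ A)
    (𝔭 : Ideal A), 𝔭.IsPrime → ∃ f : A, f ∉ 𝔭 ∧
      ∀ (A' : Type u) [CommRing A'] [Algebra k A'] (ψ : A →ₐ[k] A'), IsUnit (ψ f) →
        (abelDatum (B₀₁ := B₀₁) e g A' (fun i => (P i).map ψ)).Rigidifiable e

/-- Leaf **AA6** as a statement. -/
def StmtAA6 : Prop :=
  ∀ (x : B₀) (y : B₁) (e : B₁ →ₐ[k] k), IsCurveChart k B₀ B₁ B₀₁ x y e →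
    ∀ (K : Type u) [Field K] [IsAlgClosed K] [Algebra k K] (G : CurveGD k B₀ B₁ B₀₁ K),
      G.Deg0 → ∃ P : Fin (genus k B₀ B₁ B₀₁) → H746.ChartPt k B₀ B₁ K,
        G.IsIso (abelDatum (B₀₁ := B₀₁) e (genus k B₀ B₁ B₀₁) K P)

variable {k B₀ B₁ B₀₁}

/-- **TOP.** `Stmt.AlgAbel` from the leaves AA2, AA4, AA6. -/
theorem algAbel_of_leaves (h2 : StmtAA2 k B₀ B₁ B₀₁) (h4 : StmtAA4 k B₀ B₁ B₀₁)
    (h6 : StmtAA6 k B₀ B₁ B₀₁) : H746.Stmt.AlgAbel k B₀ B₁ B₀₁ := by
  intro x y e hC
  exact ⟨{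
    g := genus k B₀ B₁ B₀₁
    F := fun A _ _ P => abelDatum (B₀₁ := B₀₁) e (genus k B₀ B₁ B₀₁) A P
    bc := fun A A' _ _ _ _ ψ P => h2 x y e hC _ A A' ψ P
    same := fun A _ _ P Q h => abelDatum_same hC _ A P Q h
    locRig := fun A _ _ P 𝔭 h𝔭 => h4 x y e hC _ A P 𝔭 h𝔭
    triv := abelDatum_triv hC _
    surj := fun K _ _ _ G hG => h6 x y e hC K G hG }⟩

end

end Fermat.Agent.S25.H747

end
-- ===== PACK-END S25/H747/AlgAbelTop.lean

-- ===== PACK-BEGIN S25/H911/ACCov12.lean
section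




/-!
# S25 / ALGCHARTS, COV1 + COV2 (helper911): every degree-zero gluing datum over a field has `P3`

`cov12` : for a field `K ⊇ k` and `G` over `K` of degree `0` there are a twist `n`, distinct
`k`-points `q : Fin m → (B₀ →ₐ[k] k)` and `β : Fin g → B₀` (`g` the genus, `m + g = n d`) with
`P3 x y n q β G`.  `cov12_index` packages them into a `ChartIndex` (with `f = 1`).

Inputs: COV1 (`H971.cov1`), DEG1 (`H310.finrank_sec`), DEG3 (`H190.exists_P0`), all on main, and
COV2 (`H911.cov2`).  DEG2 is an explicit hypothesis `hDEG2` (skeleton shape).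
-/

set_option autoImplicit false
set_option linter.style.haveILetI false
set_option linter.unusedSectionVars false

universe u

open scoped TensorProduct

namespace Fermat.Agent.S25.H911

open Fermat.Agent.S25

variable {k : Type u} [Field k] [IsAlgClosed k]
  {B₀ B₁ B₀₁ : Type u} [CommRing B₀] [CommRing B₁] [CommRing B₀₁]
  [Algebra k B₀] [Algebra k B₁] [Algebra k B₀₁] [Algebra B₀ B₀₁] [Algebra B₁ B₀₁]
  [IsScalarTower k B₀ B₀₁] [IsScalarTower k B₁ B₀₁] {x : B₀} {y : B₁} {e : B₁ →ₐ[k] k}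
  {K : Type u} [Field K] [Algebra k K]

/-- **COV1 + COV2**: a gluing datum of degree `0` over a field satisfies `P3` for suitable
`n, q, β`. -/
theorem cov12 (hC : IsCurveChart k B₀ B₁ B₀₁ x y e)
    (hDEG2 : ∀ (K : Type u) [Field K] [Algebra k K] (G : CurveGD k B₀ B₁ B₀₁ K) (n : ℕ)
      (s : G.N₀ × G.N₁), s ∈ H11.sec x n G → H11.GenModY y G s.2 →
      Module.Finite K (G.N₀ ⧸ Submodule.span (K ⊗[k] B₀) {s.1}) ∧
        G.degree = (Module.finrank K (G.N₀ ⧸ Submodule.span (K ⊗[k] B₀) {s.1}) : ℤ) -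
          (n * Module.finrank k (B₁ ⧸ Ideal.span {y}) : ℕ))
    (G : CurveGD k B₀ B₁ B₀₁ K) (hdeg : G.degree = 0) :
    ∃ (n m : ℕ) (q : Fin m → (B₀ →ₐ[k] k))
      (β : Fin (Module.finrank k
        (GlueDatum.unit k (k ⊗[k] B₀) (k ⊗[k] B₁) (k ⊗[k] B₀₁)).H1) → B₀),
      Function.Injective q ∧
      m + Module.finrank k (GlueDatum.unit k (k ⊗[k] B₀) (k ⊗[k] B₁) (k ⊗[k] B₀₁)).H1 =
        n * Module.finrank k (B₁ ⧸ Ideal.span {y}) ∧ H11.P3 x y n q β G := by
  obtain ⟨n, m, q, hq, hnum, h2⟩ := H971.cov1 hC G (H190.exists_P0 hC G)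
    (fun n h0 => H310.finrank_sec hC G hdeg n h0)
  obtain ⟨β, h3⟩ := cov2 hC hDEG2 q hnum G hdeg h2
  exact ⟨n, m, q, β, hq, hnum, h3⟩

/-- `cov12` with the data packaged in a numeric `ChartIndex` (with `f = 1`). -/
theorem cov12_index (hC : IsCurveChart k B₀ B₁ B₀₁ x y e)
    (hDEG2 : ∀ (K : Type u) [Field K] [Algebra k K] (G : CurveGD k B₀ B₁ B₀₁ K) (n : ℕ)
      (s : G.N₀ × G.N₁), s ∈ H11.sec x n G → H11.GenModY y G s.2 →
      Module.Finite K (G.N₀ ⧸ Submodule.span (K ⊗[k] B₀) {s.1}) ∧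
        G.degree = (Module.finrank K (G.N₀ ⧸ Submodule.span (K ⊗[k] B₀) {s.1}) : ℤ) -
          (n * Module.finrank k (B₁ ⧸ Ideal.span {y}) : ℕ))
    (G : CurveGD k B₀ B₁ B₀₁ K) (hdeg : G.degree = 0) :
    ∃ i : H11.ChartIndex k B₀, i.Numeric B₀₁ y ∧ Function.Injective i.q ∧ i.f = 1 ∧
      H11.P3 x y i.n i.q i.β G := by
  obtain ⟨n, m, q, β, hq, hnum, h3⟩ := cov12 hC hDEG2 G hdeg
  exact ⟨⟨n, m, _, q, β, 1⟩, ⟨hnum, rfl⟩, hq, rfl, h3⟩

end Fermat.Agent.S25.H911

end
-- ===== PACK-END S25/H911/ACCov12.lean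

-- ===== PACK-BEGIN S26/H926/AmpleBridge.lean
section






/-!
# Row S26, block AMPLE: small leaves and adapters between the two interfaces (helper926)

* PROVED outright: `ffStalk : Ample.FFStalk`, `ffStalkMap : Ample.Stmt.FFStalkMap`,
  `negInvol : Ample.NegInvol K`, `translGeneric : Ample.TranslGeneric K`,
  `translIso : Ample.Stmt.TranslIso K`; functoriality of `ffMap` (`ffMap_id`, `ffMap_comp`).
* adapters between `Fermat.Agent.S26.Ample.Stmt.*` (helper752) and
  `Fermat.Agent.S26.H926.Ample.*` (helper926).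
* `alpha_of_mixed` : `Stmt.Alpha` from helper752's leaves with A2 in the WEAK form
  `H926.Ample.Boundary` (no canonicity).
-/

set_option autoImplicit false
universe u

open CategoryTheory CategoryTheory.Limits AlgebraicGeometry NeronModelInfra GoodReductionJacobian

namespace Fermat.Agent.S26.H926

open Fermat.Agent.S26

noncomputable section

namespace Ample

/-! ## Functoriality of `ffMap` -/

section FF

variable {X Y Z : Scheme.{u}} [IsIntegral X] [IsIntegral Y] [IsIntegral Z]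

theorem ffMap_congr {φ φ' : X ⟶ Y} (e : φ = φ') (h : φ (genericPoint X) = genericPoint Y)
    (h' : φ' (genericPoint X) = genericPoint Y) (f : Y.functionField) :
    ffMap φ h f = ffMap φ' h' f := by
  subst e
  rfl

theorem exists_germ_eq_ff (f : X.functionField) :
    ∃ (V : X.Opens) (hV : genericPoint X ∈ V) (s : Γ(X, V)),
      X.presheaf.germ V (genericPoint X) hV s = f :=
  X.presheaf.exists_germ_eq f

theorem ffMap_id (h : (𝟙 X : X ⟶ X) (genericPoint X) = genericPoint X)
    (f : X.functionField) : ffMap (𝟙 X) h f = f := by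
  obtain ⟨V, hV, s, rfl⟩ := exists_germ_eq_ff f
  rw [FF.H660.ffMap_germ660 (𝟙 X) h V hV s]
  rfl

theorem ffMap_comp (φ : X ⟶ Y) (ψ : Y ⟶ Z) (hφ : φ (genericPoint X) = genericPoint Y)
    (hψ : ψ (genericPoint Y) = genericPoint Z)
    (hφψ : (φ ≫ ψ) (genericPoint X) = genericPoint Z) (f : Z.functionField) :
    ffMap (φ ≫ ψ) hφψ f = ffMap φ hφ (ffMap ψ hψ f) := by
  obtain ⟨V, hV, s, rfl⟩ := exists_germ_eq_ff f
  rw [FF.H660.ffMap_germ660 (φ ≫ ψ) hφψ V hV s, FF.H660.ffMap_germ660 ψ hψ V hV s,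
    FF.H660.ffMap_germ660 φ hφ (ψ ⁻¹ᵁ V) (show ψ (genericPoint Y) ∈ V from hψ ▸ hV)]
  rfl

/-- An isomorphism of integral schemes preserves the generic point. -/
theorem iso_genericPoint (σ : X ⟶ Y) [IsIso σ] : σ (genericPoint X) = genericPoint Y :=
  genericPoint_eq_of_isOpenImmersion σ

end FF

/-! ## The small leaves, proved -/

theorem ffStalkMap : Fermat.Agent.S26.Ample.Stmt.FFStalkMap.{u} := by
  intro X Y _ _ φ h x r
  exact H164.ffMap_algebraMap φ h x r

theorem ffStalk : FFStalk.{u} := by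
  intro X Y _ _ φ h x f hf
  obtain ⟨s, rfl⟩ := inO_iff.1 hf
  have key := H164.ffMap_algebraMap φ h x s
  refine ⟨inO_iff.2 ⟨φ.stalkMap x s, key.symm⟩, fun ht => ?_⟩
  rw [key] at ht
  obtain ⟨c, hc⟩ := eff_iff.1 (triv_iff.1 ht).2
  rw [← map_mul] at hc
  have hc1 : c * φ.stalkMap x s = 1 :=
    IsFractionRing.injective (X.presheaf.stalk x) X.functionField (by rw [hc, map_one])
  have hu : IsUnit ((φ.stalkMap x).hom s) := IsUnit.of_mul_eq_one _ (by rw [mul_comm]; exact hc1)
  have hs : IsUnit s := (isUnit_map_iff (φ.stalkMap x).hom s).1 hu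
  obtain ⟨u, rfl⟩ := hs
  refine triv_iff.2 ⟨inO_iff.2 ⟨u, rfl⟩, eff_iff.2 ⟨((u⁻¹ : _ˣ) : _), ?_⟩⟩
  rw [← map_mul, Units.inv_mul, map_one]

variable (K : Type u) [Field K]

theorem negHom_eq (X : AbVar K) : X.negHom = H126.negHom X.law := rfl

theorem transl_eq (X : AbVar K) (x : X.Pt) : X.transl x = H126.transl X.law x := rfl

instance negHom_isIso' (X : AbVar K) : IsIso X.negHom := H126.negHom_isIso X.law

instance transl_isIso' (X : AbVar K) (x : X.Pt) : IsIso (X.transl x) :=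
  H126.transl_isIso X.law x

theorem negInvol : NegInvol K := by
  intro X _ hneg
  have h2 : X.negHom ≫ X.negHom = 𝟙 X.A := H126.negHom_negHom X.law
  refine ⟨fun a => ?_, fun f => ?_⟩
  · have := congrArg (fun φ : X.A ⟶ X.A => φ a) h2
    simpa using this
  · have hid : (𝟙 X.A : X.A ⟶ X.A) (genericPoint X.A) = genericPoint X.A := by simp
    have hcomp : (X.negHom ≫ X.negHom) (genericPoint X.A) = genericPoint X.A := by
      rw [h2]; exact hid
    rw [← ffMap_comp X.negHom X.negHom hneg hneg hcomp, ffMap_congr h2 hcomp hid, ffMap_id]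

theorem translGeneric : TranslGeneric K := by
  intro X _ x
  exact iso_genericPoint _

theorem translIso : Fermat.Agent.S26.Ample.Stmt.TranslIso K := by
  intro X _
  exact ⟨inferInstance, fun x => ⟨inferInstance, iso_genericPoint _⟩⟩

/-! ## Adapters -/

variable {K}

theorem symmAffine_of (h : Fermat.Agent.S26.Ample.Stmt.AffSym K) : SymmAffine K := h

theorem affSym_of (h : SymmAffine K) : Fermat.Agent.S26.Ample.Stmt.AffSym K := h

theorem translAffine_of (h : Fermat.Agent.S26.Ample.Stmt.TranslAffine K) : TranslAffine K := h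

theorem project_of (h : Fermat.Agent.S26.Ample.Stmt.Project K) : Project K := by
  intro X _ N w hw
  obtain ⟨u, h1, h2, h3, h4⟩ := h X N w hw
  exact ⟨u, h1, h3, h4, h2⟩

theorem project_to (h : Project K) : Fermat.Agent.S26.Ample.Stmt.Project K := by
  intro X _ N w hw
  obtain ⟨u, h1, h2, h3, h4⟩ := h X N w hw
  exact ⟨u, h1, h4, h2, h3⟩

theorem boundary_of_complDiv (h : Fermat.Agent.S26.Ample.Stmt.ComplDiv K) : Boundary K := by
  intro X _ U hU hne
  obtain ⟨D, h1, h2, -⟩ := h X U hU hne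
  exact ⟨D, h1, h2⟩

/-! ## Affine opens of an abelian variety -/

section Affine

variable (X : AbVar K)

theorem isProper_str : IsProper X.str := X.bundle.proper

/-- Intersections of affine opens of an abelian variety are affine (`A` is separated). -/
theorem isAffineOpen_inf {U V : X.A.Opens} (hU : IsAffineOpen U) (hV : IsAffineOpen V) :
    IsAffineOpen (U ⊓ V) := by
  have := isProper_str X
  have h : IsAffineHom (pullback.diagonal X.str) := inferInstance
  exact isAffineHom_diagonal_iff.mp h ⊤ (isAffineOpen_top _) U (by simp) V (by simp) hU hV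

theorem symmAffine : SymmAffine K := by
  intro X _
  obtain ⟨_, ⟨V, hV, rfl⟩, hx, -⟩ :=
    X.A.isBasis_affineOpens.exists_subset_of_mem_open (Set.mem_univ (genericPoint X.A))
      isOpen_univ
  have hneg : X.negHom (genericPoint X.A) = genericPoint X.A := iso_genericPoint _
  refine ⟨V ⊓ X.negHom ⁻¹ᵁ V, isAffineOpen_inf X hV (hV.preimage X.negHom),
    ⟨genericPoint X.A, hx, ?_⟩, fun a => ?_⟩
  · show X.negHom (genericPoint X.A) ∈ V
    rw [hneg]
    exact hx
  · have hinv := ((negInvol K) X hneg).1 a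
    constructor
    · rintro ⟨h1, h2⟩
      refine ⟨?_, h1⟩
      have h3 : X.negHom (X.negHom a) ∈ V := h2
      rwa [hinv] at h3
    · rintro ⟨h1, h2⟩
      refine ⟨h2, ?_⟩
      show X.negHom (X.negHom a) ∈ V
      rwa [hinv]

theorem translAffine : TranslAffine K := by
  intro X _ U hU x
  refine ⟨X.transl x ⁻¹ᵁ U ⊓ X.transl (X.negPt x) ⁻¹ᵁ U,
    isAffineOpen_inf X (hU.preimage _) (hU.preimage _), fun a => Iff.rfl⟩

/-- Compactness: a pointwise cover by the sets `(U - x) ∩ (U + x)` has a finite subcover. -/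
theorem cover_of (h : Fermat.Agent.S26.Ample.Stmt.Cover K) : Cover K := by
  intro X _ U hne
  have := isProper_str X
  have : CompactSpace X.A := QuasiCompact.compactSpace_of_compactSpace X.str
  let W : X.Pt → X.A.Opens := fun x => X.transl x ⁻¹ᵁ U ⊓ X.transl (X.negPt x) ⁻¹ᵁ U
  have hcov : (Set.univ : Set X.A) ⊆ ⋃ x, (W x : Set X.A) := by
    intro a _
    obtain ⟨x, hx⟩ := h X U hne a
    exact Set.mem_iUnion.2 ⟨x, hx⟩
  obtain ⟨s, hs⟩ := isCompact_univ.elim_finite_subcover (fun x => (W x : Set X.A))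
    (fun x => (W x).isOpen) hcov
  -- enumerate `insert x₀ s`
  obtain ⟨x₀, -⟩ := h X U hne (genericPoint X.A)
  classical
  let s' : Finset X.Pt := insert x₀ s
  have hpos : s'.card ≠ 0 := Finset.card_ne_zero.2 ⟨x₀, Finset.mem_insert_self _ _⟩
  obtain ⟨N, hN⟩ := Nat.exists_eq_succ_of_ne_zero hpos
  let e : Fin (N + 1) ≃ s' := (Fin.castOrderIso hN.symm).toEquiv.trans s'.equivFin.symm
  refine ⟨N, fun j => (e j).1, fun a => ?_⟩
  obtain ⟨x, hx, hax⟩ := Set.mem_iUnion₂.1 (hs (Set.mem_univ a))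
  have hx' : x ∈ s' := Finset.mem_insert_of_mem hx
  refine ⟨e.symm ⟨x, hx'⟩, ?_⟩
  simp only [Equiv.apply_symm_apply]
  exact hax

end Affine

/-! ## The mixed glue -/

/-- **Block AMPLE** from the geometric leaves only: `Cover` (pointwise), `Boundary` (weak form
of A2, no canonicity), `Project`, and the row inputs `CDivOps`, `LSDivOps`, `SquareLS`. -/
theorem alpha_of_mixed (hcov : Fermat.Agent.S26.Ample.Stmt.Cover K) (h2 : Boundary K)
    (h4 : Fermat.Agent.S26.Ample.Stmt.Project K) (hOps : Stmt.CDivOps.{u})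
    (hLO : Stmt.LSDivOps.{u}) (hSq : Stmt.SquareLS K) : Stmt.Alpha K :=
  alpha_of ffStalk (negInvol K) (translGeneric K) symmAffine h2 translAffine (cover_of hcov)
    (project_of h4) hOps hLO hSq

/-- The same with `CDivOps`, `LSDivOps` discharged (helper164). -/
theorem alpha_of_geometric (hcov : Fermat.Agent.S26.Ample.Stmt.Cover K) (h2 : Boundary K)
    (h4 : Fermat.Agent.S26.Ample.Stmt.Project K) (hSq : Stmt.SquareLS K) : Stmt.Alpha K :=
  alpha_of_mixed hcov h2 h4 H164.cDivOps H164.lsDivOps hSq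

end Ample

end

end Fermat.Agent.S26.H926

end
-- ===== PACK-END S26/H926/AmpleBridge.lean

-- ===== PACK-BEGIN S13/H365/NodeInertia.lean
section


/-!
# Inertia acts unipotently on the odd torsion of a curve with nodal reduction

Abstract form of (T4): `K` a valued field, `W` an integral Weierstrass curve with a node
at `(e, f)` (a `NodeModel`), `σ` a field endomorphism acting trivially on the residue field
(`v z ≤ 1 → v (σ z - z) < 1`), `τ` the induced action on points.  Then for every `n`-torsion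
point `P` (`n` odd, the kernel of reduction without `n`-torsion), `τ (τ P - P) = τ P - P`.
No hypothesis on `v 2`.
-/

set_option autoImplicit false
set_option linter.unusedSectionVars false
set_option linter.unusedVariables false

namespace Fermat.Agent.S13.H365

open WeierstrassCurve WeierstrassCurve.Affine
open Fermat.Agent.S05.Comp (cls CompGroup)
open Fermat.Agent.S05.SameRed
open Fermat.Agent.S05.Assemble (KerTorsionFree val_y_le_one val_x_le_one_of_torsion)

variable {K : Type*} [Field K] [DecidableEq K] {Γ₀ : Type*} [LinearOrderedCommGroupWithZero Γ₀]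
  {v : Valuation K Γ₀} {W : Affine K}

section sigma

variable {σ : K →+* K} (hres : ∀ z, v z ≤ 1 → v (σ z - z) < 1)
include hres

lemma val_sigma_le_one {z : K} (hz : v z ≤ 1) : v (σ z) ≤ 1 := by
  have : σ z = z + (σ z - z) := by ring
  rw [this]; exact val_add_le_one hz (hres z hz).le

lemma val_sigma_lt_one {z : K} (hz : v z < 1) : v (σ z) < 1 := by
  have : σ z = z + (σ z - z) := by ring
  rw [this]; exact val_add_lt_one hz (hres z hz.le)

lemma val_sigma_eq_one {z : K} (hz : v z = 1) : v (σ z) = 1 := by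
  have : σ z = z + (σ z - z) := by ring
  rw [this, v.map_add_eq_of_lt_left (by rw [hz]; exact hres z hz.le), hz]

/-- Transfer of the branch condition. -/
lemma sign_sigma {γ ξ υ : K} (hγ : v γ ≤ 1) (hξ0 : ξ ≠ 0)
    (h : v (υ - γ * ξ) < v ξ) : v (σ υ - γ * σ ξ) < v (σ ξ) := by
  have hσξ0 : σ ξ ≠ 0 := (map_ne_zero σ).mpr hξ0
  have hpos : 0 < v ξ := (Valuation.pos_iff v).mpr hξ0
  have hpos' : 0 < v (σ ξ) := (Valuation.pos_iff v).mpr hσξ0
  have ht : v ((υ - γ * ξ) / ξ) < 1 := by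
    rw [map_div₀]; exact (div_lt_one₀ hpos).mpr h
  have ht' := val_sigma_lt_one hres ht
  rw [map_div₀, map_sub, map_mul, map_div₀, div_lt_one₀ hpos'] at ht'
  have hγ' : v ((σ γ - γ) * σ ξ) < v (σ ξ) := by
    rw [map_mul]
    exact mul_lt_of_lt_one_left hpos' (hres γ hγ)
  have : σ υ - γ * σ ξ = (σ υ - σ γ * σ ξ) + (σ γ - γ) * σ ξ := by ring
  rw [this]
  exact lt_of_le_of_lt (v.map_add _ _) (max_lt ht' hγ')

end sigma

namespace NodeModel

/-- **Step A**: the component of an odd torsion point is invariant under inertia. -/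
theorem comp_sigma (M : NodeModel v W) (he : v M.e ≤ 1)
    (hγ₁ : v M.γ₁ ≤ 1) (hγ₂ : v M.γ₂ ≤ 1)
    {σ : K →+* K} (hres : ∀ z, v z ≤ 1 → v (σ z - z) < 1)
    (hσe : σ M.e = M.e) (hσf : σ M.f = M.f) (hσa : σ M.a = M.a)
    {n : ℕ} (hn : Odd n) (hC1 : KerTorsionFree W v n) {x y : K}
    (h : W.Nonsingular x y) (hP : n • Point.some x y h = 0)
    (h' : W.Nonsingular (σ x) (σ y)) :
    M.comp (Point.some (σ x) (σ y) h') = M.comp (Point.some x y h) := by
  have hx : v x ≤ 1 := val_x_le_one_of_torsion hC1 h hP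
  have hξ : v (x - M.e) ≤ 1 := val_sub_le_one hx he
  have hσξ : σ x - M.e = σ (x - M.e) := by rw [map_sub, hσe]
  have hσυ : σ y - M.f = σ (y - M.f) := by rw [map_sub, hσf]
  rw [comp_some, comp_some, hσξ, hσυ]
  rcases le_or_gt 1 (v (x - M.e)) with hZ | hlt
  · have h1 : v (x - M.e) = 1 := le_antisymm hξ hZ
    rw [compN_of_Z hZ, compN_of_Z (val_sigma_eq_one hres h1).ge]
  · obtain ⟨hlo, j, hj⟩ := M.torsion_near_node hn h hP hlt
    have ha0 : v M.a ≠ 0 := (Valuation.ne_zero_iff v).mpr M.ha0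
    have hapos : 0 < v M.a := zero_lt_iff.mpr ha0
    have hξ0 : x - M.e ≠ 0 := (Valuation.ne_zero_iff v).mp (hapos.trans hlo).ne'
    -- `v (σ ξ) = v ξ`
    have hval : v (σ (x - M.e)) = v (x - M.e) := by
      have hu : v ((x - M.e) ^ n / M.a ^ (2 * j)) = 1 := by
        rw [map_div₀, map_pow, map_pow, hj]
        exact div_self (pow_ne_zero _ ha0)
      have hu' := val_sigma_eq_one hres hu
      rw [map_div₀, map_pow, map_pow, hσa, map_div₀, map_pow, map_pow,
        div_eq_one_iff_eq (pow_ne_zero _ ha0), ← hj] at hu'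
      exact (pow_left_inj hn.pos.ne').mp hu'
    have hlo' : v M.a < v (σ (x - M.e)) := by rw [hval]; exact hlo
    have hlt' : v (σ (x - M.e)) < 1 := by rw [hval]; exact hlt
    rcases _root_.Fermat.Agent.S13.H365.sign_exists ((M.equation_iff x y).mp h.1) hlo hlt with hP1 | hN1
    · rw [compN_of_P hlo hlt hP1, compN_of_P hlo' hlt' (sign_sigma hres hγ₁ hξ0 hP1), hval]
    · rw [compN_of_N M.hδ hlo hlt hN1,
        compN_of_N M.hδ hlo' hlt' (sign_sigma hres hγ₂ hξ0 hN1), hval]

/-- **Step B**: a torsion point with nonsingular reduction is fixed by inertia. -/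
theorem fixed_of_inE0 (M : NodeModel v W) (hW : IntegralCoeffs W v) (he : v M.e ≤ 1)
    {σ : K →+* K} (hres : ∀ z, v z ≤ 1 → v (σ z - z) < 1)
    (τ : W.Point →+ W.Point)
    (hτ : ∀ (x y : K) (h : W.Nonsingular x y),
      ∃ h' : W.Nonsingular (σ x) (σ y), τ (Point.some x y h) = Point.some (σ x) (σ y) h')
    {n : ℕ} (hC1 : KerTorsionFree W v n) (D : W.Point) (hD : n • D = 0) (hE0 : M.InE0 D) :
    τ D = D := by
  rcases D with _ | ⟨x, y, h⟩
  · exact map_zero τ
  · have hx : v x ≤ 1 := val_x_le_one_of_torsion hC1 h hD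
    have hy : v y ≤ 1 := val_y_le_one hW h.1 hx
    have hξ : v (x - M.e) = 1 := le_antisymm (val_sub_le_one hx he) hE0
    have hns := M.nonsingular_red hW h.1 hx hy hξ
    obtain ⟨h', hτD⟩ := hτ x y h
    have hker := inKer_sub_of_same_reduction hW h h' hx hy (val_sigma_le_one hres hx)
      (val_sigma_le_one hres hy) (by rw [Valuation.map_sub_swap]; exact hres x hx)
      (by rw [Valuation.map_sub_swap]; exact hres y hy) hns
    have htors : n • (Point.some x y h - Point.some (σ x) (σ y) h') = 0 := by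
      rw [smul_sub, hD, zero_sub, ← hτD, ← map_nsmul, hD, map_zero, neg_zero]
    have := hC1 _ hker htors
    rw [hτD]
    exact (sub_eq_zero.mp this).symm

/-- **(T4), abstract form**: inertia acts unipotently on the `n`-torsion. -/
theorem unipotent (M : NodeModel v W) (hW : IntegralCoeffs W v) (he : v M.e ≤ 1)
    {σ : K →+* K} (hres : ∀ z, v z ≤ 1 → v (σ z - z) < 1)
    (hσe : σ M.e = M.e) (hσf : σ M.f = M.f) (hσa : σ M.a = M.a)
    (τ : W.Point →+ W.Point)
    (hτ : ∀ (x y : K) (h : W.Nonsingular x y),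
      ∃ h' : W.Nonsingular (σ x) (σ y), τ (Point.some x y h) = Point.some (σ x) (σ y) h')
    {n : ℕ} (hn : Odd n) (hC1 : KerTorsionFree W v n) (P : W.Point) (hP : n • P = 0) :
    τ (τ P - P) = τ P - P := by
  apply M.fixed_of_inE0 hW he hres τ hτ hC1
  · rw [smul_sub, hP, sub_zero, ← map_nsmul, hP, map_zero]
  · apply M.inE0_sub_of_comp_eq
    rcases P with _ | ⟨x, y, h⟩
    · have : τ (0 : W.Point) = 0 := map_zero τ
      change M.comp (τ 0) = M.comp 0
      rw [this]
    · obtain ⟨h', hτP⟩ := hτ x y h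
      rw [hτP]
      exact M.comp_sigma he (M.val_γ₁_le_one hW he) (M.val_γ₂_le_one hW he) hres hσe hσf hσa
        hn hC1 h hP h'

end NodeModel

end Fermat.Agent.S13.H365

end
-- ===== PACK-END S13/H365/NodeInertia.lean

-- ===== PACK-BEGIN S30/H990/FromH330.lean
section
/-
S30 top glue (helper990): adapter from helper330's adic module layer
(`H330.HasAdicFrobModule O (N * p) (· ∉ S) (eigenvalue χ)`) to the input of the top glue, and the
frozen statement S30 from it.
-/



set_option autoImplicit false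

namespace Fermat.Agent.S30.H990

open Polynomial

/-- helper330's output is an adic eigenmodule. -/
theorem nonempty_adicEigenModule_of_H330 {p N : ℕ} [NeZero N] (hp : p.Prime) {S : Finset ℕ}
    {𝒪 : Type} [CommRing 𝒪] [IsLocalRing 𝒪]
    (χ : CuspForm.heckeAlgebra N 2 (↑S : Set ℕ) →+* 𝒪)
    (h : Fermat.Agent.S30.H330.HasAdicFrobModule 𝒪 (N * p) (fun ℓ => ℓ ∉ S)
      (Fermat.Agent.S30.H330.eigenvalue χ)) :
    Nonempty (AdicEigenModule p N S 𝒪 χ) := by
  obtain ⟨M, i1, i2, i3, i4, ρ, hnt, hcont, hunr, hfrob⟩ := h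
  have hdvd : ∀ q : ℕ, q.Prime → ¬ q ∣ N → q ≠ p → ¬ q ∣ N * p := by
    intro q hq hqN hqp hdiv
    rcases (Nat.Prime.dvd_mul hq).1 hdiv with h1 | h1
    · exact hqN h1
    · exact hqp ((Nat.prime_dvd_prime_iff_eq hq hp).1 h1)
  exact ⟨{
    M := M
    ρ := ρ
    cont := hcont
    unram := fun q hq hqN hqp P hP σ hσ => hunr q hq (hdvd q hq hqN hqp) P hP σ hσ
    frob := fun ℓ hℓ hℓN hℓS A hA σ hσ => by
      have h1 := hfrob ℓ hℓ (fun hmem => hℓS (Finset.mem_coe.mpr hmem)) A hA σ hσ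
      have h2 : Fermat.Agent.S30.H330.eigenvalue χ ℓ
          = χ (CuspForm.heckeAlgebra.T hℓ hℓN hℓS) := by
        unfold Fermat.Agent.S30.H330.eigenvalue
        rw [dif_pos ⟨hℓ, hℓN, hℓS⟩]
      rw [h2] at h1
      exact h1 }⟩

/-- The tower hypothesis of the top glue from helper330's adic module layer. -/
theorem hasAdicEigenModules_of_H330
    (h : ∀ (p : ℕ) [Fact p.Prime] (N : ℕ) [NeZero N] (S : Finset ℕ)
      (_hpS : p ∈ S) (_hNS : ∀ q : ℕ, q.Prime → q ∣ N → q ∈ S)
      (𝒪' : Type) [CommRing 𝒪'] [IsDomain 𝒪'] [IsDiscreteValuationRing 𝒪']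
      [IsAdicComplete (IsLocalRing.maximalIdeal 𝒪') 𝒪'] [Finite (IsLocalRing.ResidueField 𝒪')]
      [CharZero 𝒪'] (_hp𝒪' : (p : 𝒪') ∈ IsLocalRing.maximalIdeal 𝒪')
      (χ : CuspForm.heckeAlgebra N 2 (↑S : Set ℕ) →+* 𝒪'),
      Fermat.Agent.S30.H330.HasAdicFrobModule 𝒪' (N * p) (fun ℓ => ℓ ∉ S)
        (Fermat.Agent.S30.H330.eigenvalue χ)) :
    HasAdicEigenModules := by
  intro p _ N _ S hpS hNS 𝒪' _ _ _ _ _ _ hp𝒪' χ
  exact nonempty_adicEigenModule_of_H330 (Fact.out : p.Prime) χ (h p N S hpS hNS 𝒪' hp𝒪' χ)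

end Fermat.Agent.S30.H990

end
-- ===== PACK-END S30/H990/FromH330.lean

-- ===== PACK-BEGIN S35/H991/Glue.lean
section
/-
S35 top glue (helper991): the frozen statement S35 from ONE tower input.

`HasNewformEigenModules` : for the eigencharacter of a weight-2 NEWFORM `g` of level `M` there is
an adic eigenmodule (helper990's `S30.H990.AdicEigenModule`: nonzero finite free `𝒪'`-module with
adically continuous Galois action, unramified outside `M·λ`, Eichler–Shimura relation at good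
primes) on which, in addition, every Frobenius lift `σ` at every prime `q ≠ λ`, `q ‖ M`, satisfies
the BAD-FROBENIUS relation `(σ² - 1)(σ² - q²) = 0`.

`result_of : HasNewformEigenModules → <frozen statement S35>`   (with `𝒪'' := 𝒪'`).

Proof: helper990's extraction (`exists_cyclo`, `exists_rel_mod`, `exists_rel_of_mod`,
`exists_twoDim`, all on main) gives a rank-2 `ρ₂` with
`charpoly ρ₂(g) = X² - a X + d(g)` for EVERY `a` with `ρ(g)² - a ρ(g) + d(g) = 0` on the
eigenmodule, `d` = cyclotomic character, `d(σ) = q` for a Frobenius lift at `q ≠ λ`.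
The algebraic core (`BadFrobAlg.lean`) shows `a = ±(q+1)`.
-/





set_option autoImplicit false

namespace Fermat.Agent.S35.H991

open Polynomial Fermat.Agent.S30.H990 Fermat.Agent.S55.H414

section Assembly

variable {p N : ℕ} [Fact p.Prime] [NeZero N] {S : Finset ℕ}
  {𝒪 : Type} [CommRing 𝒪] [IsDomain 𝒪] [IsDiscreteValuationRing 𝒪]
  [IsAdicComplete (IsLocalRing.maximalIdeal 𝒪) 𝒪] [Finite (IsLocalRing.ResidueField 𝒪)]
  {χ : CuspForm.heckeAlgebra N 2 (↑S : Set ℕ) →+* 𝒪}

/-- The bad-Frobenius clause for an adic eigenmodule: at every prime `q ≠ p` exactly dividing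
the level, every Frobenius lift `σ` satisfies `(σ² - 1)(σ² - q²) = 0` on the module. -/
def HasBadFrob (E : AdicEigenModule p N S 𝒪 χ) : Prop :=
  ∀ q : ℕ, q.Prime → q ≠ p → q ∣ N → ¬ q ^ 2 ∣ N →
    ∀ A : ValuationSubring (AlgebraicClosure ℚ), A.LiesOverPrime q →
      ∀ σ : GQ, A.IsFrobeniusAt σ q → BadFrobRel (q : 𝒪) (E.ρ σ)

/-- From an adic eigenmodule with the bad-Frobenius clause to a two-dimensional adic Galois
representation with the Frobenius characteristic polynomials of S35. -/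
theorem exists_galoisRepAdic_badFrob [CharZero 𝒪] (hcheb : ChebWeak) (hpS : p ∈ S)
    (hNS : ∀ q : ℕ, q.Prime → q ∣ N → q ∈ S)
    (hp𝒪 : (p : 𝒪) ∈ IsLocalRing.maximalIdeal 𝒪) (E : AdicEigenModule p N S 𝒪 χ)
    (hE : HasBadFrob E) :
    ∃ ρ : GaloisRepAdic 𝒪,
      (∀ (ℓ : ℕ) (hℓ : ℓ.Prime) (hℓN : ¬ ℓ ∣ N) (hℓS : ℓ ∉ (↑S : Set ℕ)),
        ∀ A : ValuationSubring (AlgebraicClosure ℚ), A.LiesOverPrime ℓ →
          ∀ σ : AlgebraicClosure ℚ ≃ₐ[ℚ] AlgebraicClosure ℚ, A.IsFrobeniusAt σ ℓ →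
            LinearMap.charpoly (ρ.ρ σ) =
              X ^ 2 - C (χ (CuspForm.heckeAlgebra.T hℓ hℓN hℓS)) * X + C ((ℓ : 𝒪))) ∧
      (∀ q : ℕ, q.Prime → ¬ q ∣ N → q ≠ p → ρ.IsUnramifiedAt q) ∧
      (∀ q : ℕ, q.Prime → q ≠ p → q ∣ N → ¬ q ^ 2 ∣ N →
        ∀ A : ValuationSubring (AlgebraicClosure ℚ), A.LiesOverPrime q →
          ∀ σ : AlgebraicClosure ℚ ≃ₐ[ℚ] AlgebraicClosure ℚ, A.IsFrobeniusAt σ q →
            LinearMap.charpoly (ρ.ρ σ) = X ^ 2 - C ((q : 𝒪) + 1) * X + C ((q : 𝒪)) ∨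
            LinearMap.charpoly (ρ.ρ σ) = X ^ 2 + C ((q : 𝒪) + 1) * X + C ((q : 𝒪))) := by
  obtain ⟨d, hdfrob, hdinert, hdc, hdcont⟩ := exists_cyclo p 𝒪 hp𝒪
  have hrel : ∀ g : GQ, ∃ a, S30.H990.Rel E.ρ d g a := fun g =>
    exists_rel_of_mod E.ρ d g (fun n => exists_rel_mod hcheb hpS hNS E d hdfrob hdcont g n)
  have h2 : (2 : 𝒪) ≠ 0 := two_ne_zero
  obtain ⟨T⟩ := exists_twoDim E.ρ d h2 hrel complexConjugation complexConjugation_mul_self hdc
  refine ⟨{ V := T.V
            finrank_eq := T.finrank_eq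
            ρ := T.ρ₂
            isAdicContinuous := ?_ }, ?_, ?_, ?_⟩
  · intro n
    obtain ⟨L₁, hL₁fin, hL₁⟩ := E.cont n
    have : FiniteDimensional ℚ L₁ := hL₁fin
    refine ⟨L₁ ⊔ cycloLevel (p ^ n),
      IntermediateField.finiteDimensional_sup L₁ (cycloLevel (p ^ n)), fun σ hσ v => ?_⟩
    refine T.cong (IsLocalRing.maximalIdeal 𝒪 ^ n) σ ?_ ?_ v
    · exact hL₁ σ (fun x hx => hσ x ((le_sup_left : L₁ ≤ L₁ ⊔ cycloLevel (p ^ n)) hx))
    · exact hdcont n σ (fun x hx =>
        hσ x ((le_sup_right : cycloLevel (p ^ n) ≤ L₁ ⊔ cycloLevel (p ^ n)) hx))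
  · intro ℓ hℓ hℓN hℓS A hA σ hσ
    have hℓp : ℓ ≠ p := fun h => hℓS (Finset.mem_coe.mpr (h ▸ hpS))
    have hr : S30.H990.Rel E.ρ d σ (χ (CuspForm.heckeAlgebra.T hℓ hℓN hℓS)) := by
      unfold S30.H990.Rel
      rw [hdfrob ℓ hℓ hℓp A hA σ hσ]
      exact E.frob ℓ hℓ hℓN hℓS A hA σ hσ
    have := T.charpoly_eq σ _ hr
    rw [hdfrob ℓ hℓ hℓp A hA σ hσ] at this
    exact this
  · intro q hq hqN hqp P hP σ hσ
    have h1 : E.ρ σ = 1 := E.unram q hq hqN hqp P hP σ hσ
    have h2 : d σ = 1 := hdinert q hq hqp P hP σ hσ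
    have h3 := T.cong ⊥ σ (fun v => by rw [h1]; simp) (by rw [h2]; simp)
    ext v
    have h4 := h3 v
    rw [Submodule.bot_smul, Submodule.mem_bot, sub_eq_zero] at h4
    simpa using h4
  · intro q hq hqp hqN hq2 A hA σ hσ
    obtain ⟨a, ha⟩ := hrel σ
    have hdσ : ((d σ : 𝒪ˣ) : 𝒪) = (q : 𝒪) := hdfrob q hq hqp A hA σ hσ
    have hq0 : (q : 𝒪) ≠ 0 := Nat.cast_ne_zero.mpr hq.ne_zero
    have hquad : ∀ v : E.M, E.ρ σ (E.ρ σ v) - a • E.ρ σ v + (q : 𝒪) • v = 0 := by
      intro v
      have := rel_apply E.ρ d ha v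
      rwa [hdσ] at this
    have hch := T.charpoly_eq σ a ha
    rw [hdσ] at hch
    rcases eq_or_eq_neg_of_rel_of_badFrob hq0 hquad (hE q hq hqp hqN hq2 A hA σ hσ) with h | h
    · left
      show LinearMap.charpoly (T.ρ₂ σ) = _
      rw [hch, h]
    · right
      show LinearMap.charpoly (T.ρ₂ σ) = _
      rw [hch, h, map_neg, neg_mul, sub_neg_eq_add]

end Assembly

/-- **The tower hypothesis of S35**: the eigencharacter of a newform has an adic eigenmodule
satisfying the bad-Frobenius relation at the primes exactly dividing the level. -/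
def HasNewformEigenModules : Prop :=
  ∀ (M : ℕ) [NeZero M] (g : CuspForm (CongruenceSubgroup.Gamma0 M) 2), g.IsNewform →
    ∀ (lam : ℕ) [Fact lam.Prime] (S : Finset ℕ)
      (O' : Type) [CommRing O'] [IsDomain O'] [IsDiscreteValuationRing O']
      [IsAdicComplete (IsLocalRing.maximalIdeal O') O'] [Finite (IsLocalRing.ResidueField O')]
      [CharZero O'] (_hlamO' : (lam : O') ∈ IsLocalRing.maximalIdeal O')
      (chig : CuspForm.heckeAlgebra M 2 (↑S : Set ℕ) →+* ℂ)
      (_hchig : ∀ (ℓ : ℕ) (hℓ : ℓ.Prime) (hℓM : ¬ ℓ ∣ M) (hℓS : ℓ ∉ (↑S : Set ℕ)),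
        chig (CuspForm.heckeAlgebra.T hℓ hℓM hℓS) = ModularFormClass.qCoeff g ℓ)
      (iota : chig.range →+* O')
      (_hlamS : lam ∈ S) (_hMS : ∀ q : ℕ, q.Prime → q ∣ M → q ∈ S),
      ∃ E : AdicEigenModule lam M S O' (iota.comp chig.rangeRestrict), HasBadFrob E

/-- **S35 from the Chebotarev hypothesis and the newform eigenmodules.** -/
theorem result_of_chebWeak (hcheb : ChebWeak) (hmod : HasNewformEigenModules)
    {M : ℕ} [NeZero M] {g : CuspForm (CongruenceSubgroup.Gamma0 M) 2} (hg : g.IsNewform)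
    (lam : ℕ) [Fact lam.Prime]
    (S : Finset ℕ)
    (O' : Type) [CommRing O'] [IsDomain O'] [IsDiscreteValuationRing O']
    [IsAdicComplete (IsLocalRing.maximalIdeal O') O'] [Finite (IsLocalRing.ResidueField O')]
    [CharZero O'] (hlamO' : (lam : O') ∈ IsLocalRing.maximalIdeal O')
    (chig : CuspForm.heckeAlgebra M 2 (↑S : Set ℕ) →+* ℂ)
    (hchig : ∀ (ℓ : ℕ) (hℓ : ℓ.Prime) (hℓM : ¬ ℓ ∣ M) (hℓS : ℓ ∉ (↑S : Set ℕ)),
      chig (CuspForm.heckeAlgebra.T hℓ hℓM hℓS) = ModularFormClass.qCoeff g ℓ)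
    (iota : chig.range →+* O')
    (hlamS : lam ∈ S) (hMS : ∀ q : ℕ, q.Prime → q ∣ M → q ∈ S) :
    ∃ (O'' : Type) (_ : CommRing O'') (_ : IsDomain O'') (_ : IsDiscreteValuationRing O'')
      (_ : IsAdicComplete (IsLocalRing.maximalIdeal O'') O'') (_ : Finite (IsLocalRing.ResidueField O''))
      (_ : CharZero O'') (_ : Algebra O' O'') (_ : Module.Finite O' O'') (_ : IsLocalHom (algebraMap O' O'')),
      Function.Injective (algebraMap O' O'') ∧
      ∃ ρ : GaloisRepAdic O'',
        (∀ (ℓ : ℕ) (hℓ : ℓ.Prime) (hℓM : ¬ ℓ ∣ M) (hℓS : ℓ ∉ (↑S : Set ℕ)),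
          ∀ A : ValuationSubring (AlgebraicClosure ℚ), A.LiesOverPrime ℓ →
            ∀ σ : AlgebraicClosure ℚ ≃ₐ[ℚ] AlgebraicClosure ℚ, A.IsFrobeniusAt σ ℓ →
              LinearMap.charpoly (ρ.ρ σ) =
                X ^ 2 - C (algebraMap O' O'' ((iota.comp chig.rangeRestrict) (CuspForm.heckeAlgebra.T hℓ hℓM hℓS))) * X
                  + C ((ℓ : O''))) ∧
        (∀ q : ℕ, q.Prime → q ≠ lam → q ∣ M → ¬ q ^ 2 ∣ M →
          ∀ A : ValuationSubring (AlgebraicClosure ℚ), A.LiesOverPrime q →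
            ∀ σ : AlgebraicClosure ℚ ≃ₐ[ℚ] AlgebraicClosure ℚ, A.IsFrobeniusAt σ q →
              LinearMap.charpoly (ρ.ρ σ) = X ^ 2 - C ((q : O'') + 1) * X + C ((q : O'')) ∨
              LinearMap.charpoly (ρ.ρ σ) = X ^ 2 + C ((q : O'') + 1) * X + C ((q : O''))) := by
  obtain ⟨E, hE⟩ := hmod M g hg lam S O' hlamO' chig hchig iota hlamS hMS
  obtain ⟨ρ, hρ1, -, hρ3⟩ := exists_galoisRepAdic_badFrob hcheb hlamS hMS hlamO' E hE
  exact ⟨O', inferInstance, inferInstance, inferInstance, inferInstance, inferInstance,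
    inferInstance, Algebra.id O', Module.Finite.self O', isLocalHom_id O',
    Function.injective_id, ρ, hρ1, hρ3⟩

/-- **S35 from the newform eigenmodules** (Chebotarev = Tier 1 of the shared CHEB library). -/
theorem result_of (hmod : HasNewformEigenModules)
    {M : ℕ} [NeZero M] {g : CuspForm (CongruenceSubgroup.Gamma0 M) 2} (hg : g.IsNewform)
    (lam : ℕ) [Fact lam.Prime]
    (S : Finset ℕ)
    (O' : Type) [CommRing O'] [IsDomain O'] [IsDiscreteValuationRing O']
    [IsAdicComplete (IsLocalRing.maximalIdeal O') O'] [Finite (IsLocalRing.ResidueField O')]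
    [CharZero O'] (hlamO' : (lam : O') ∈ IsLocalRing.maximalIdeal O')
    (chig : CuspForm.heckeAlgebra M 2 (↑S : Set ℕ) →+* ℂ)
    (hchig : ∀ (ℓ : ℕ) (hℓ : ℓ.Prime) (hℓM : ¬ ℓ ∣ M) (hℓS : ℓ ∉ (↑S : Set ℕ)),
      chig (CuspForm.heckeAlgebra.T hℓ hℓM hℓS) = ModularFormClass.qCoeff g ℓ)
    (iota : chig.range →+* O')
    (hlamS : lam ∈ S) (hMS : ∀ q : ℕ, q.Prime → q ∣ M → q ∈ S) :
    ∃ (O'' : Type) (_ : CommRing O'') (_ : IsDomain O'') (_ : IsDiscreteValuationRing O'')
      (_ : IsAdicComplete (IsLocalRing.maximalIdeal O'') O'') (_ : Finite (IsLocalRing.ResidueField O''))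
      (_ : CharZero O'') (_ : Algebra O' O'') (_ : Module.Finite O' O'') (_ : IsLocalHom (algebraMap O' O'')),
      Function.Injective (algebraMap O' O'') ∧
      ∃ ρ : GaloisRepAdic O'',
        (∀ (ℓ : ℕ) (hℓ : ℓ.Prime) (hℓM : ¬ ℓ ∣ M) (hℓS : ℓ ∉ (↑S : Set ℕ)),
          ∀ A : ValuationSubring (AlgebraicClosure ℚ), A.LiesOverPrime ℓ →
            ∀ σ : AlgebraicClosure ℚ ≃ₐ[ℚ] AlgebraicClosure ℚ, A.IsFrobeniusAt σ ℓ →
              LinearMap.charpoly (ρ.ρ σ) =
                X ^ 2 - C (algebraMap O' O'' ((iota.comp chig.rangeRestrict) (CuspForm.heckeAlgebra.T hℓ hℓM hℓS))) * X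
                  + C ((ℓ : O''))) ∧
        (∀ q : ℕ, q.Prime → q ≠ lam → q ∣ M → ¬ q ^ 2 ∣ M →
          ∀ A : ValuationSubring (AlgebraicClosure ℚ), A.LiesOverPrime q →
            ∀ σ : AlgebraicClosure ℚ ≃ₐ[ℚ] AlgebraicClosure ℚ, A.IsFrobeniusAt σ q →
              LinearMap.charpoly (ρ.ρ σ) = X ^ 2 - C ((q : O'') + 1) * X + C ((q : O'')) ∨
              LinearMap.charpoly (ρ.ρ σ) = X ^ 2 + C ((q : O'') + 1) * X + C ((q : O''))) :=
  result_of_chebWeak (chebWeak_of_frobeniusDivision Fermat.Agent.Lib.Cheb.frobeniusDivision) hmod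
    hg lam S O' hlamO' chig hchig iota hlamS hMS

end Fermat.Agent.S35.H991

end
-- ===== PACK-END S35/H991/Glue.lean

-- ===== PACK-BEGIN S36/H36/Glue.lean
section
/-
S36 top glue (helper36): the frozen statement S36 (Carayol at `q² ∥ M`) from ONE tower input.

`HasNewformEigenModulesNoInv` : for the eigencharacter of a weight-2 NEWFORM `g` of level `M`
there is an adic eigenmodule (helper990's `S30.H990.AdicEigenModule`) on which, for every prime
`q ≠ λ` with `q² ∥ M` and every place `A` over `q`, the inertia group `I_A` has NO nonzero fixed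
vector.

`result_of : HasNewformEigenModulesNoInv → <frozen statement S36>`   (with `𝒪'' := 𝒪'`; the
hypotheses `hlam2`, `hres` of the frozen statement are not used).

Proof: helper990's extraction gives a rank-2 `ρ₂` with
`charpoly ρ₂(τ) = X² - a X + d(τ)` for EVERY `a` with `ρ(τ)² - a ρ(τ) + d(τ) = 0` on the
eigenmodule (`d` = cyclotomic character, trivial on `I_A`).  If `ρ₂` is unipotent on `I_A` then
`a = 2` for every `τ ∈ I_A`, i.e. `(ρ(τ) - 1)² = 0` on the eigenmodule, and the Kolchin-type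
lemma (`Kolchin.lean`) produces a nonzero `I_A`-fixed vector.
-/






set_option autoImplicit false

namespace Fermat.Agent.S36.H36

open Polynomial Fermat.Agent.S30.H990 Fermat.Agent.S55.H414

section Assembly

variable {p N : ℕ} [Fact p.Prime] [NeZero N] {S : Finset ℕ}
  {𝒪 : Type} [CommRing 𝒪] [IsDomain 𝒪] [IsDiscreteValuationRing 𝒪]
  [IsAdicComplete (IsLocalRing.maximalIdeal 𝒪) 𝒪] [Finite (IsLocalRing.ResidueField 𝒪)]
  {χ : CuspForm.heckeAlgebra N 2 (↑S : Set ℕ) →+* 𝒪}

/-- No inertia invariants at the primes `q ≠ p` with `q² ∥ N`. -/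
def NoInertiaInvariants (E : AdicEigenModule p N S 𝒪 χ) : Prop :=
  ∀ q : ℕ, q.Prime → q ≠ p → N.factorization q = 2 →
    ∀ A : ValuationSubring (AlgebraicClosure ℚ), A.LiesOverPrime q →
      ∀ w : E.M, (∀ τ ∈ A.inertiaSubgroupIn ℚ, E.ρ τ w = w) → w = 0

/-- Comparison of the linear coefficients. -/
theorem eq_two_of_charpoly_eq {a d : 𝒪}
    (h : (X ^ 2 - C a * X + C d : 𝒪[X]) = (X - 1) ^ 2) : a = 2 := by
  have h1 := congrArg (fun f : 𝒪[X] => f.coeff 1) h
  have e1 : (X ^ 2 - C a * X + C d : 𝒪[X]).coeff 1 = -a := by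
    simp [coeff_X_pow, coeff_C]
  have e2 : ((X - 1) ^ 2 : 𝒪[X]).coeff 1 = -2 := by
    have : ((X - 1) ^ 2 : 𝒪[X]) = X ^ 2 - C 2 * X + C 1 := by
      simp only [map_ofNat, map_one]
      ring
    rw [this]
    simp [coeff_X_pow, coeff_C, coeff_one]
  simp only [e1, e2] at h1
  exact neg_injective h1

/-- From an adic eigenmodule without inertia invariants to a two-dimensional adic Galois
representation with the Frobenius characteristic polynomials of S36, not unipotent on inertia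
at the primes `q ≠ p`, `q² ∥ N`. -/
theorem exists_galoisRepAdic_not_unipotent [CharZero 𝒪] (hcheb : ChebWeak) (hpS : p ∈ S)
    (hNS : ∀ q : ℕ, q.Prime → q ∣ N → q ∈ S)
    (hp𝒪 : (p : 𝒪) ∈ IsLocalRing.maximalIdeal 𝒪) (E : AdicEigenModule p N S 𝒪 χ)
    (hE : NoInertiaInvariants E) :
    ∃ ρ : GaloisRepAdic 𝒪,
      (∀ (ℓ : ℕ) (hℓ : ℓ.Prime) (hℓN : ¬ ℓ ∣ N) (hℓS : ℓ ∉ (↑S : Set ℕ)),
        ∀ A : ValuationSubring (AlgebraicClosure ℚ), A.LiesOverPrime ℓ →
          ∀ σ : AlgebraicClosure ℚ ≃ₐ[ℚ] AlgebraicClosure ℚ, A.IsFrobeniusAt σ ℓ →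
            LinearMap.charpoly (ρ.ρ σ) =
              X ^ 2 - C (χ (CuspForm.heckeAlgebra.T hℓ hℓN hℓS)) * X + C ((ℓ : 𝒪))) ∧
      (∀ q : ℕ, q.Prime → ¬ q ∣ N → q ≠ p → ρ.IsUnramifiedAt q) ∧
      (∀ q : ℕ, q.Prime → q ≠ p → N.factorization q = 2 → ¬ ρ.IsUnipotentOnInertiaAt q) := by
  obtain ⟨d, hdfrob, hdinert, hdc, hdcont⟩ := exists_cyclo p 𝒪 hp𝒪
  have hrel : ∀ g : GQ, ∃ a, S30.H990.Rel E.ρ d g a := fun g =>
    exists_rel_of_mod E.ρ d g (fun n => exists_rel_mod hcheb hpS hNS E d hdfrob hdcont g n)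
  have h2 : (2 : 𝒪) ≠ 0 := two_ne_zero
  obtain ⟨T⟩ := exists_twoDim E.ρ d h2 hrel complexConjugation complexConjugation_mul_self hdc
  refine ⟨{ V := T.V
            finrank_eq := T.finrank_eq
            ρ := T.ρ₂
            isAdicContinuous := ?_ }, ?_, ?_, ?_⟩
  · intro n
    obtain ⟨L₁, hL₁fin, hL₁⟩ := E.cont n
    have : FiniteDimensional ℚ L₁ := hL₁fin
    refine ⟨L₁ ⊔ cycloLevel (p ^ n),
      IntermediateField.finiteDimensional_sup L₁ (cycloLevel (p ^ n)), fun σ hσ v => ?_⟩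
    refine T.cong (IsLocalRing.maximalIdeal 𝒪 ^ n) σ ?_ ?_ v
    · exact hL₁ σ (fun x hx => hσ x ((le_sup_left : L₁ ≤ L₁ ⊔ cycloLevel (p ^ n)) hx))
    · exact hdcont n σ (fun x hx =>
        hσ x ((le_sup_right : cycloLevel (p ^ n) ≤ L₁ ⊔ cycloLevel (p ^ n)) hx))
  · intro ℓ hℓ hℓN hℓS A hA σ hσ
    have hℓp : ℓ ≠ p := fun h => hℓS (Finset.mem_coe.mpr (h ▸ hpS))
    have hr : S30.H990.Rel E.ρ d σ (χ (CuspForm.heckeAlgebra.T hℓ hℓN hℓS)) := by
      unfold S30.H990.Rel
      rw [hdfrob ℓ hℓ hℓp A hA σ hσ]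
      exact E.frob ℓ hℓ hℓN hℓS A hA σ hσ
    have := T.charpoly_eq σ _ hr
    rw [hdfrob ℓ hℓ hℓp A hA σ hσ] at this
    exact this
  · intro q hq hqN hqp P hP σ hσ
    have h1 : E.ρ σ = 1 := E.unram q hq hqN hqp P hP σ hσ
    have h2 : d σ = 1 := hdinert q hq hqp P hP σ hσ
    have h3 := T.cong ⊥ σ (fun v => by rw [h1]; simp) (by rw [h2]; simp)
    ext v
    have h4 := h3 v
    rw [Submodule.bot_smul, Submodule.mem_bot, sub_eq_zero] at h4
    simpa using h4
  · intro q hq hqp hfac hunip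
    obtain ⟨A, hA⟩ := Fermat.Agent.S54.exists_valuationSubring_liesOver q hq
    have hsq : ∀ τ ∈ A.inertiaSubgroupIn ℚ, (E.ρ τ - 1) * (E.ρ τ - 1) = 0 := by
      intro τ hτ
      obtain ⟨a, ha⟩ := hrel τ
      have hch := T.charpoly_eq τ a ha
      have hu : LinearMap.charpoly (T.ρ₂ τ) = (X - 1) ^ 2 := hunip A hA τ hτ
      have hd : d τ = 1 := hdinert q hq hqp A hA τ hτ
      rw [hu] at hch
      have ha2 : a = 2 := eq_two_of_charpoly_eq hch.symm
      unfold S30.H990.Rel at ha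
      rw [ha2, hd, Units.val_one] at ha
      have e : (E.ρ τ - 1) * (E.ρ τ - 1)
          = E.ρ τ * E.ρ τ - (2 : 𝒪) • E.ρ τ + (1 : 𝒪) • (1 : Module.End 𝒪 E.M) := by
        rw [one_smul, two_smul]
        noncomm_ring
      rw [e]
      exact ha
    obtain ⟨w, hw, hfix⟩ :=
      exists_fixed_of_sq_zero E.ρ (A.inertiaSubgroupIn ℚ) h2 hsq
    exact hw (hE q hq hqp hfac A hA w hfix)

end Assembly

/-- **The tower hypothesis of S36**: the eigencharacter of a newform has an adic eigenmodule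
without inertia invariants at the primes `q ≠ λ` with `q² ∥ M`. -/
def HasNewformEigenModulesNoInv : Prop :=
  ∀ (M : ℕ) [NeZero M] (g : CuspForm (CongruenceSubgroup.Gamma0 M) 2), g.IsNewform →
    ∀ (lam : ℕ) [Fact lam.Prime] (S : Finset ℕ)
      (O' : Type) [CommRing O'] [IsDomain O'] [IsDiscreteValuationRing O']
      [IsAdicComplete (IsLocalRing.maximalIdeal O') O'] [Finite (IsLocalRing.ResidueField O')]
      [CharZero O'] (_hlamO' : (lam : O') ∈ IsLocalRing.maximalIdeal O')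
      (chig : CuspForm.heckeAlgebra M 2 (↑S : Set ℕ) →+* ℂ)
      (_hchig : ∀ (ℓ : ℕ) (hℓ : ℓ.Prime) (hℓM : ¬ ℓ ∣ M) (hℓS : ℓ ∉ (↑S : Set ℕ)),
        chig (CuspForm.heckeAlgebra.T hℓ hℓM hℓS) = ModularFormClass.qCoeff g ℓ)
      (iota : chig.range →+* O')
      (_hlamS : lam ∈ S) (_hMS : ∀ q : ℕ, q.Prime → q ∣ M → q ∈ S),
      ∃ E : AdicEigenModule lam M S O' (iota.comp chig.rangeRestrict), NoInertiaInvariants E

/-- **S36 from the Chebotarev hypothesis and the newform eigenmodules.** -/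
theorem result_of_chebWeak (hcheb : ChebWeak) (hmod : HasNewformEigenModulesNoInv)
    {M : ℕ} [NeZero M] {g : CuspForm (CongruenceSubgroup.Gamma0 M) 2} (hg : g.IsNewform)
    (lam : ℕ) [Fact lam.Prime]
    (S : Finset ℕ)
    (O' : Type) [CommRing O'] [IsDomain O'] [IsDiscreteValuationRing O']
    [IsAdicComplete (IsLocalRing.maximalIdeal O') O'] [Finite (IsLocalRing.ResidueField O')]
    [CharZero O'] (hlamO' : (lam : O') ∈ IsLocalRing.maximalIdeal O')
    (chig : CuspForm.heckeAlgebra M 2 (↑S : Set ℕ) →+* ℂ)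
    (hchig : ∀ (ℓ : ℕ) (hℓ : ℓ.Prime) (hℓM : ¬ ℓ ∣ M) (hℓS : ℓ ∉ (↑S : Set ℕ)),
      chig (CuspForm.heckeAlgebra.T hℓ hℓM hℓS) = ModularFormClass.qCoeff g ℓ)
    (iota : chig.range →+* O')
    (hlamS : lam ∈ S) (hMS : ∀ q : ℕ, q.Prime → q ∣ M → q ∈ S) :
    ∃ (O'' : Type) (_ : CommRing O'') (_ : IsDomain O'') (_ : IsDiscreteValuationRing O'')
      (_ : IsAdicComplete (IsLocalRing.maximalIdeal O'') O'') (_ : Finite (IsLocalRing.ResidueField O''))
      (_ : CharZero O'') (_ : Algebra O' O'') (_ : Module.Finite O' O'') (_ : IsLocalHom (algebraMap O' O'')),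
      Function.Injective (algebraMap O' O'') ∧
      ∃ ρ : GaloisRepAdic O'',
        (∀ (ℓ : ℕ) (hℓ : ℓ.Prime) (hℓM : ¬ ℓ ∣ M) (hℓS : ℓ ∉ (↑S : Set ℕ)),
          ∀ A : ValuationSubring (AlgebraicClosure ℚ), A.LiesOverPrime ℓ →
            ∀ σ : AlgebraicClosure ℚ ≃ₐ[ℚ] AlgebraicClosure ℚ, A.IsFrobeniusAt σ ℓ →
              LinearMap.charpoly (ρ.ρ σ) =
                X ^ 2 - C (algebraMap O' O'' ((iota.comp chig.rangeRestrict) (CuspForm.heckeAlgebra.T hℓ hℓM hℓS))) * X
                  + C ((ℓ : O''))) ∧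
        (∀ q : ℕ, q.Prime → q ≠ lam → M.factorization q = 2 → ¬ ρ.IsUnipotentOnInertiaAt q) := by
  obtain ⟨E, hE⟩ := hmod M g hg lam S O' hlamO' chig hchig iota hlamS hMS
  obtain ⟨ρ, hρ1, -, hρ3⟩ := exists_galoisRepAdic_not_unipotent hcheb hlamS hMS hlamO' E hE
  exact ⟨O', inferInstance, inferInstance, inferInstance, inferInstance, inferInstance,
    inferInstance, Algebra.id O', Module.Finite.self O', isLocalHom_id O',
    Function.injective_id, ρ, hρ1, hρ3⟩

/-- **S36 from the newform eigenmodules without inertia invariants**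
(Chebotarev = Tier 1 of the shared CHEB library). -/
theorem result_of (hmod : HasNewformEigenModulesNoInv)
    {M : ℕ} [NeZero M] {g : CuspForm (CongruenceSubgroup.Gamma0 M) 2} (hg : g.IsNewform)
    (lam : ℕ) [Fact lam.Prime]
    (S : Finset ℕ)
    (O' : Type) [CommRing O'] [IsDomain O'] [IsDiscreteValuationRing O']
    [IsAdicComplete (IsLocalRing.maximalIdeal O') O'] [Finite (IsLocalRing.ResidueField O')]
    [CharZero O'] (hlamO' : (lam : O') ∈ IsLocalRing.maximalIdeal O')
    (chig : CuspForm.heckeAlgebra M 2 (↑S : Set ℕ) →+* ℂ)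
    (hchig : ∀ (ℓ : ℕ) (hℓ : ℓ.Prime) (hℓM : ¬ ℓ ∣ M) (hℓS : ℓ ∉ (↑S : Set ℕ)),
      chig (CuspForm.heckeAlgebra.T hℓ hℓM hℓS) = ModularFormClass.qCoeff g ℓ)
    (iota : chig.range →+* O')
    (hlamS : lam ∈ S) (hMS : ∀ q : ℕ, q.Prime → q ∣ M → q ∈ S) :
    ∃ (O'' : Type) (_ : CommRing O'') (_ : IsDomain O'') (_ : IsDiscreteValuationRing O'')
      (_ : IsAdicComplete (IsLocalRing.maximalIdeal O'') O'') (_ : Finite (IsLocalRing.ResidueField O''))
      (_ : CharZero O'') (_ : Algebra O' O'') (_ : Module.Finite O' O'') (_ : IsLocalHom (algebraMap O' O'')),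
      Function.Injective (algebraMap O' O'') ∧
      ∃ ρ : GaloisRepAdic O'',
        (∀ (ℓ : ℕ) (hℓ : ℓ.Prime) (hℓM : ¬ ℓ ∣ M) (hℓS : ℓ ∉ (↑S : Set ℕ)),
          ∀ A : ValuationSubring (AlgebraicClosure ℚ), A.LiesOverPrime ℓ →
            ∀ σ : AlgebraicClosure ℚ ≃ₐ[ℚ] AlgebraicClosure ℚ, A.IsFrobeniusAt σ ℓ →
              LinearMap.charpoly (ρ.ρ σ) =
                X ^ 2 - C (algebraMap O' O'' ((iota.comp chig.rangeRestrict) (CuspForm.heckeAlgebra.T hℓ hℓM hℓS))) * X
                  + C ((ℓ : O''))) ∧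
        (∀ q : ℕ, q.Prime → q ≠ lam → M.factorization q = 2 → ¬ ρ.IsUnipotentOnInertiaAt q) :=
  result_of_chebWeak (chebWeak_of_frobeniusDivision Fermat.Agent.Lib.Cheb.frobeniusDivision) hmod
    hg lam S O' hlamO' chig hchig iota hlamS hMS

end Fermat.Agent.S36.H36

end
-- ===== PACK-END S36/H36/Glue.lean

-- ===== PACK-BEGIN S36/Mod3/H756/NormalSide.lean
section




/-!
# S36 / MOD3, leaf NORMAL — one component, any level (helper756)

`normalIn_side3` : for a valuation subring `V'` of `F_{N,E}` (ANY level `N`; `w ∈ 𝔪_{V'}`, `w` need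
not be a uniformiser of `V'`) and an `E`-embedding `γ : F_{M,E} → F_{N,E}` such that

* `γ V∞_M ⊆ V'`, residue degree one (`V' = γ V∞_M + 𝔪_{V'}`),
* `y ≡ γ (y_M ^ k) mod 𝔪_{V'}`, `γ y_M ∈ chartAlg y`,
* good reduction at level `M` in the chart of `y_M`,

the image of the chart `chartAlg y` in the residue field of `V'` is integrally closed
(`H142.NormalIn`), hence `S36.Eng.NormalAlong (chart R {y}) V'` (`normalAlong_side3`, unfolded).

This is helper142's `normal_side` (level `M q`, `V'` unramified) with the level and the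
ramification freed; the abstract core is `H142.normalIn_transfer` + `isIntegralElem_of_coord`.
-/

set_option autoImplicit false
set_option synthInstance.maxHeartbeats 400000
set_option maxHeartbeats 1600000
set_option linter.unusedSectionVars false
set_option linter.style.haveILetI false

noncomputable section

namespace Fermat.Agent.S36.Mod3.H756

open ModularCurve HahnSeries Polynomial
open Fermat.Agent.A2.Mod Fermat.Agent.A2.Mod.H142

variable (P : ValuationSubring Qb) (E : IntermediateField ℚ Qb)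
variable (M N : ℕ) [NeZero M] (w : RE P E)

/-- **One component is normal** (`NormalIn` form), any level, any ramification. -/
theorem normalIn_side3 (hdvr : IsDiscreteValuationRing (RE P E)) (hw : Irreducible w)
    (VM : ValuationSubring (FE E M)) (hVM : IsVinf P E M VM)
    (V' : ValuationSubring (FE E N))
    (hRV' : ∀ r : RE P E, algebraMap (RE P E) (FE E N) r ∈ V')
    (hwV' : V'.valuation (cE P E N w) < 1)
    (γ : FE E M →ₐ[E] FE E N)
    (hγV : ∀ g ∈ VM, γ g ∈ V')
    (hres : ∀ f ∈ V', ∃ g ∈ VM, V'.valuation (f - γ g) < 1)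
    (yM : FE E M) (y : FE E N) (k : ℕ)
    (hyM : yM ∈ VM) (hy : y ∈ V')
    (hcong : V'.valuation (y - γ (yM ^ k)) < 1)
    (hγy : γ yM ∈ chartAlg P E N y)
    (hgood : GoodRedAt P E M w VM yM) :
    NormalIn V' ((chartAlg P E N y : Subalgebra (RE P E) (FE E N)) : Set (FE E N)) := by
  have hL2M := Fermat.Agent.A2.Mod.H553.vinfBasic P E w M (NeZero.ne M) hdvr hw VM hVM
  have hUM : Fermat.Agent.A2.H48.IsUnif VM (cE P E M w) := hL2M.1
  have hRVM : ∀ r : RE P E, algebraMap (RE P E) (FE E M) r ∈ VM := fun r =>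
    (hL2M.2.1 (r : E)).mpr r.2
  have hγR : ∀ r : RE P E, (γ : FE E M →+* FE E N) (algebraMap (RE P E) (FE E M) r) =
      algebraMap (RE P E) (FE E N) r := fun r => γ.commutes (r : E)
  have hγc : γ (cE P E M w) = cE P E N w := γ.commutes (w : E)
  -- the charts lie in the valuation rings
  have hB₀ : ∀ b ∈ chartAlg P E M yM, b ∈ VM := fun b hb =>
    mem_valuationSubring_of_isIntegral_adjoin VM hRVM hyM ((mem_chartAlg P E M).1 hb)
  have hB : ∀ b ∈ chartAlg P E N y, b ∈ V' := fun b hb =>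
    mem_valuationSubring_of_isIntegral_adjoin V' hRV' hy ((mem_chartAlg P E N).1 hb)
  have hγB : ∀ b ∈ chartAlg P E M yM, (γ : FE E M →+* FE E N) b ∈ chartAlg P E N y :=
    fun b hb => (mem_chartAlg P E N).2
      (isIntegral_adjoin_map (γ : FE E M →+* FE E N) hγR
        ((mem_chartAlg P E N).1 hγy) ((mem_chartAlg P E M).1 hb))
  have hγp : ∀ g : FE E M, VM.valuation g < 1 →
      V'.valuation ((γ : FE E M →+* FE E N) g) < 1 := by
    intro g hg
    rw [← inW_iff hUM] at hg
    unfold InW at hg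
    have h1 := hγV _ hg
    rw [map_mul, map_inv₀, hγc] at h1
    have hc0 : cE P E N w ≠ 0 := by
      rw [← hγc]
      exact (map_ne_zero γ).2 hUM.ne_zero
    have h2 : (γ : FE E M →+* FE E N) g = γ g * (cE P E N w)⁻¹ * cE P E N w := by
      rw [mul_assoc, inv_mul_cancel₀ hc0, mul_one]
      rfl
    rw [h2, map_mul]
    calc V'.valuation (γ g * (cE P E N w)⁻¹) * V'.valuation (cE P E N w)
        ≤ 1 * V'.valuation (cE P E N w) := by
          gcongr
          exact (V'.valuation_le_one_iff _).2 h1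
      _ = V'.valuation (cE P E N w) := one_mul _
      _ < 1 := hwV'
  have hnorm₀ : NormalIn VM ((chartAlg P E M yM : Subalgebra (RE P E) (FE E M)) : Set (FE E M)) := by
    intro f hf ⟨n, c, hc, hrel⟩
    obtain ⟨b, hb, hfb⟩ := hgood.normal f hf
      ⟨n, c, fun i => (mem_chart_iff P E M yM (c i)).2 (hc i), (inW_iff hUM _).2 hrel⟩
    exact ⟨b, (mem_chart_iff P E M yM b).1 hb, (inW_iff hUM _).1 hfb⟩
  have hint := isIntegralElem_of_coord (γ : FE E M →+* FE E N) hγR V'
    (chartAlg P E M yM) (chartAlg P E N y) hB hγB y (self_mem_chartAlg P E N y)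
    (yM ^ k) (pow_mem (self_mem_chartAlg P E M yM) _) hcong
    (fun b hb => (mem_chartAlg P E N).1 hb)
  exact normalIn_transfer (γ : FE E M →+* FE E N) VM V' hγV hγp
    (chartAlg P E M yM) (chartAlg P E N y) hB₀ hB hγB hres hint hnorm₀

/-- `A2.Mod.chartAlg` and `S18.H138.chart` at a single coordinate are the same subalgebra. -/
theorem chartAlg_eq_chart (y : FE E N) :
    chartAlg P E N y = Fermat.Agent.S18.H138.chart (RE P E) ({y} : Set (FE E N)) := rfl

/-- **One component is normal** (`S36.Eng.NormalAlong` form, unfolded). -/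
theorem normalAlong_side3 (hdvr : IsDiscreteValuationRing (RE P E)) (hw : Irreducible w)
    (VM : ValuationSubring (FE E M)) (hVM : IsVinf P E M VM)
    (V' : ValuationSubring (FE E N))
    (hRV' : ∀ r : RE P E, algebraMap (RE P E) (FE E N) r ∈ V')
    (hwV' : V'.valuation (cE P E N w) < 1)
    (γ : FE E M →ₐ[E] FE E N)
    (hγV : ∀ g ∈ VM, γ g ∈ V')
    (hres : ∀ f ∈ V', ∃ g ∈ VM, V'.valuation (f - γ g) < 1)
    (yM : FE E M) (y : FE E N) (k : ℕ)
    (hyM : yM ∈ VM) (hy : y ∈ V')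
    (hcong : V'.valuation (y - γ (yM ^ k)) < 1)
    (hγy : γ yM ∈ Fermat.Agent.S18.H138.chart (RE P E) ({y} : Set (FE E N)))
    (hgood : GoodRedAt P E M w VM yM) :
    ∀ (f : FE E N) (p : Polynomial (Fermat.Agent.S18.H138.chart (RE P E) ({y} : Set (FE E N)))),
      p.Monic → Polynomial.aeval f p ∈ V'.nonunits →
      ∃ b : Fermat.Agent.S18.H138.chart (RE P E) ({y} : Set (FE E N)),
        f - (b : FE E N) ∈ V'.nonunits := by
  have hB : ∀ b ∈ Fermat.Agent.S18.H138.chart (RE P E) ({y} : Set (FE E N)), b ∈ V' :=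
    fun b hb => mem_valuationSubring_of_isIntegral_adjoin V' hRV' hy hb
  exact normalAlong_of_normalIn V' _ hB
    (normalIn_side3 P E M N w hdvr hw VM hVM V' hRV' hwV' γ hγV hres yM y k hyM hy hcong hγy
      hgood)

end Fermat.Agent.S36.Mod3.H756

end

end
-- ===== PACK-END S36/Mod3/H756/NormalSide.lean

-- ===== PACK-BEGIN S36/H878/RegSelf.lean
section


/-!
# PU-self in the vocabulary of `Eng.TripleCtx` (helper878, S36 cell REG / MOD3 leaf `LeafReg`)

Elementwise form of `S36.H878.principal_of_unit_self`: NO Hartogs lemma, NO noetherianity,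
NO localisation, NO `IsLocDVR`.  Everything is read off from `Eng.Qep3`.

`B ⊆ V₁ ∩ V₂ ∩ V₃` a chart with `Qep3 w B V₁ V₂ V₃`, `𝔪` a closed point on the component `V₂`,

* `U ∈ B` a unit of `B[1/w]` (`U d = w ^ k`), a unit of `V₁` and of `V₃`
  (`U = U_m`, the modular unit with divisor `N · [mid]`),
* `x ∈ B` a uniformiser of `V₂`,
* `g ∈ B`, `g ∉ 𝔪`, with `x ^ N / U ≡ g` modulo `𝔪_{V₂}`.

Then `ω = x ^ N / U` lies in `B \ 𝔪` and `ω a = x (a x ^ (N - 1) / U)` for every `a ∈ B ∩ 𝔪_{V₂}`: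
this is `Eng.PrincipalAt B 𝔪 V₂` with generator `x`.

* `qep3_pow`                        : `Qep3` iterated (`b / w ^ k ∈ V₁ ∩ V₂ ∩ V₃ ⟹ b / w ^ k ∈ B`);
* `principalAt_of_unit_self`        : the statement above;
* `unifAt_of_pow`                   : `x ^ N / U` and `U / t ^ N` units, `t` uniformiser ⟹ `x`
                                      uniformiser;
* `principalAt_of_unit_self'`       : the same with `v₂(U) = N` instead of "`x` uniformiser".
-/

set_option autoImplicit false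

namespace Fermat.Agent.S36.H878

open Fermat.Agent.S36.Eng

variable {R F : Type*} [CommRing R] [Field F] [Algebra R F]

/-- `Qep3`, iterated: an element `b / w ^ k` (`b ∈ B`) of `V₁ ∩ V₂ ∩ V₃` lies in `B`. -/
theorem qep3_pow (w : R) (B : Subalgebra R F) (V₁ V₂ V₃ : ValuationSubring F)
    (hw0 : algebraMap R F w ≠ 0)
    (hw₁ : algebraMap R F w ∈ V₁) (hw₂ : algebraMap R F w ∈ V₂) (hw₃ : algebraMap R F w ∈ V₃)
    (hqep : Qep3 w B V₁ V₂ V₃) (k : ℕ) (b : B)
    (h₁ : (b : F) * (algebraMap R F w ^ k)⁻¹ ∈ V₁)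
    (h₂ : (b : F) * (algebraMap R F w ^ k)⁻¹ ∈ V₂)
    (h₃ : (b : F) * (algebraMap R F w ^ k)⁻¹ ∈ V₃) :
    ∃ c : B, (c : F) = (b : F) * (algebraMap R F w ^ k)⁻¹ := by
  induction k generalizing b with
  | zero => exact ⟨b, by simp⟩
  | succ k ih =>
    have e : (b : F) * (algebraMap R F w)⁻¹
        = (b : F) * (algebraMap R F w ^ (k + 1))⁻¹ * algebraMap R F w ^ k := by
      rw [pow_succ, mul_inv, mul_assoc, mul_assoc, mul_comm (algebraMap R F w)⁻¹,
        inv_mul_cancel_left₀ (pow_ne_zero k hw0)]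
    obtain ⟨c, hc⟩ := hqep b
      (by rw [e]; exact V₁.mul_mem _ _ h₁ (pow_mem hw₁ k))
      (by rw [e]; exact V₂.mul_mem _ _ h₂ (pow_mem hw₂ k))
      (by rw [e]; exact V₃.mul_mem _ _ h₃ (pow_mem hw₃ k))
    have hcF : (b : F) = algebraMap R F w * (c : F) := by
      have := congrArg (fun t : B => (t : F)) hc
      simpa using this
    have e' : (c : F) * (algebraMap R F w ^ k)⁻¹
        = (b : F) * (algebraMap R F w ^ (k + 1))⁻¹ := by
      rw [hcF, pow_succ, mul_inv]
      field_simp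
    obtain ⟨c', hc'⟩ := ih c (by rw [e']; exact h₁) (by rw [e']; exact h₂) (by rw [e']; exact h₃)
    exact ⟨c', by rw [hc', e']⟩

/-- **PU-self, elementwise.**  See the header. -/
theorem principalAt_of_unit_self (w : R) (B : Subalgebra R F) (V₁ V₂ V₃ : ValuationSubring F)
    (hw0 : algebraMap R F w ≠ 0)
    (hB₁ : ∀ b : B, (b : F) ∈ V₁) (hB₂ : ∀ b : B, (b : F) ∈ V₂) (hB₃ : ∀ b : B, (b : F) ∈ V₃)
    (hqep : Qep3 w B V₁ V₂ V₃)
    (𝔪 : Ideal B) (hthr : Through B 𝔪 V₂)
    (x U d g : B) (k N : ℕ) (hN : 0 < N)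
    (hUd : U * d = algebraMap R B w ^ k)
    (hU₁ : (U : F)⁻¹ ∈ V₁) (hU₃ : (U : F)⁻¹ ∈ V₃)
    (hx : UnifAt V₂ (x : F)) (hg : g ∉ 𝔪)
    (hres : ((x : F) ^ N - (g : F) * (U : F)) * (U : F)⁻¹ ∈ V₂.nonunits) :
    PrincipalAt B 𝔪 V₂ := by
  have hwB : ∀ V : ValuationSubring F, (∀ b : B, (b : F) ∈ V) → algebraMap R F w ∈ V :=
    fun V h => by simpa using h (algebraMap R B w)
  have hwk0 : algebraMap R F w ^ k ≠ 0 := pow_ne_zero k hw0
  have hUdF : (U : F) * (d : F) = algebraMap R F w ^ k := by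
    have := congrArg (fun t : B => (t : F)) hUd
    simpa using this
  have hU0 : (U : F) ≠ 0 := by
    intro h
    rw [h, zero_mul] at hUdF
    exact hwk0 hUdF.symm
  have hd0 : (d : F) ≠ 0 := by
    intro h
    rw [h, mul_zero] at hUdF
    exact hwk0 hUdF.symm
  have hUinv : (U : F)⁻¹ = (d : F) * (algebraMap R F w ^ k)⁻¹ := by
    rw [← hUdF]
    field_simp
  -- `ω = x ^ N / U`
  have hωsplit : (x : F) ^ N * (U : F)⁻¹
      = ((x : F) ^ N - (g : F) * (U : F)) * (U : F)⁻¹ + (g : F) := by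
    rw [sub_mul, mul_assoc (g : F), mul_inv_cancel₀ hU0, mul_one, sub_add_cancel]
  have hres' : ((x : F) ^ N - (g : F) * (U : F)) * (U : F)⁻¹ ∈ V₂ :=
    (V₂.valuation_le_one_iff _).1 ((V₂.mem_nonunits_iff).1 hres).le
  have hω₂ : (x : F) ^ N * (U : F)⁻¹ ∈ V₂ := by
    rw [hωsplit]
    exact V₂.add_mem _ _ hres' (hB₂ g)
  obtain ⟨ω, hω⟩ := qep3_pow w B V₁ V₂ V₃ hw0 (hwB V₁ hB₁) (hwB V₂ hB₂) (hwB V₃ hB₃) hqep k
    (x ^ N * d)
    (by
      have : ((x ^ N * d : B) : F) * (algebraMap R F w ^ k)⁻¹ = (x : F) ^ N * (U : F)⁻¹ := by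
        rw [hUinv]; push_cast; ring
      rw [this]
      exact V₁.mul_mem _ _ (pow_mem (hB₁ x) N) hU₁)
    (by
      have : ((x ^ N * d : B) : F) * (algebraMap R F w ^ k)⁻¹ = (x : F) ^ N * (U : F)⁻¹ := by
        rw [hUinv]; push_cast; ring
      rw [this]
      exact hω₂)
    (by
      have : ((x ^ N * d : B) : F) * (algebraMap R F w ^ k)⁻¹ = (x : F) ^ N * (U : F)⁻¹ := by
        rw [hUinv]; push_cast; ring
      rw [this]
      exact V₃.mul_mem _ _ (pow_mem (hB₃ x) N) hU₃)
  have hωF : (ω : F) = (x : F) ^ N * (U : F)⁻¹ := by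
    rw [hω, hUinv]; push_cast; ring
  -- `ω ∉ 𝔪`
  have hω𝔪 : ω ∉ 𝔪 := by
    intro hmem
    have h1 : ω - g ∈ 𝔪 := by
      apply hthr
      have : ((ω - g : B) : F) = ((x : F) ^ N - (g : F) * (U : F)) * (U : F)⁻¹ := by
        push_cast
        rw [hωF, hωsplit]
        ring
      rw [this]
      exact hres
    apply hg
    have := 𝔪.sub_mem hmem h1
    simpa using this
  obtain ⟨hx0, hxnu, hxunif⟩ := hx
  refine ⟨x, hxnu, fun a ha => ?_⟩
  -- `z = a x ^ (N - 1) / U`
  obtain ⟨N', rfl⟩ : ∃ N', N = N' + 1 := ⟨N - 1, by omega⟩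
  have hz₂ : (a : F) * (x : F) ^ N' * (U : F)⁻¹ ∈ V₂ := by
    have : (a : F) * (x : F) ^ N' * (U : F)⁻¹
        = ((a : F) * (x : F)⁻¹) * ((x : F) ^ (N' + 1) * (U : F)⁻¹) := by
      rw [pow_succ]
      field_simp
    rw [this]
    exact V₂.mul_mem _ _ (hxunif _ ha) hω₂
  obtain ⟨z, hz⟩ := qep3_pow w B V₁ V₂ V₃ hw0 (hwB V₁ hB₁) (hwB V₂ hB₂) (hwB V₃ hB₃) hqep k
    (a * x ^ N' * d)
    (by
      have : ((a * x ^ N' * d : B) : F) * (algebraMap R F w ^ k)⁻¹
          = (a : F) * (x : F) ^ N' * (U : F)⁻¹ := by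
        rw [hUinv]; push_cast; ring
      rw [this]
      exact V₁.mul_mem _ _ (V₁.mul_mem _ _ (hB₁ a) (pow_mem (hB₁ x) N')) hU₁)
    (by
      have : ((a * x ^ N' * d : B) : F) * (algebraMap R F w ^ k)⁻¹
          = (a : F) * (x : F) ^ N' * (U : F)⁻¹ := by
        rw [hUinv]; push_cast; ring
      rw [this]
      exact hz₂)
    (by
      have : ((a * x ^ N' * d : B) : F) * (algebraMap R F w ^ k)⁻¹
          = (a : F) * (x : F) ^ N' * (U : F)⁻¹ := by
        rw [hUinv]; push_cast; ring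
      rw [this]
      exact V₃.mul_mem _ _ (V₃.mul_mem _ _ (hB₃ a) (pow_mem (hB₃ x) N')) hU₃)
  have hzF : (z : F) = (a : F) * (x : F) ^ N' * (U : F)⁻¹ := by
    rw [hz, hUinv]; push_cast; ring
  refine ⟨ω, z, hω𝔪, ?_⟩
  apply Subtype.ext
  push_cast
  rw [hωF, hzF, pow_succ]
  ring

/-- In a valuation subring: if `t` is a uniformiser and `x ^ N` has the valuation of `t ^ N`
(`N > 0`), then `x` is a uniformiser. -/
theorem unifAt_of_pow (V : ValuationSubring F) (t x : F) (N : ℕ) (hN : 0 < N)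
    (ht : UnifAt V t) (hxt : V.valuation x ^ N = V.valuation t ^ N) : UnifAt V x := by
  obtain ⟨ht0, htnu, htunif⟩ := ht
  have hvx : V.valuation x = V.valuation t := by
    rcases lt_trichotomy (V.valuation x) (V.valuation t) with h | h | h
    · exfalso
      have := pow_lt_pow_left₀ h (zero_le (a := V.valuation _)) hN.ne'
      rw [hxt] at this
      exact lt_irrefl _ this
    · exact h
    · exfalso
      have := pow_lt_pow_left₀ h (zero_le (a := V.valuation _)) hN.ne'
      rw [hxt] at this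
      exact lt_irrefl _ this
  have hvt0 : V.valuation t ≠ 0 := by rw [Ne, map_eq_zero]; exact ht0
  have hx0 : x ≠ 0 := by
    intro h
    rw [h, map_zero] at hvx
    exact hvt0 hvx.symm
  refine ⟨hx0, ?_, fun f hf => ?_⟩
  · rw [ValuationSubring.mem_nonunits_iff, hvx]
    exact (V.mem_nonunits_iff).1 htnu
  · have h1 := htunif f hf
    rw [← V.valuation_le_one_iff] at h1 ⊢
    rw [map_mul, map_inv₀] at h1 ⊢
    rwa [hvx]

/-- A unit of a valuation subring has valuation one. -/
theorem valuation_eq_one_of_unitAt (V : ValuationSubring F) {y : F} (hy : UnitAt V y) :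
    V.valuation y = 1 := by
  obtain ⟨hy0, hy1, hy2⟩ := hy
  have h1 : V.valuation y ≤ 1 := (V.valuation_le_one_iff _).2 hy1
  have h2 : V.valuation y⁻¹ ≤ 1 := (V.valuation_le_one_iff _).2 hy2
  rw [map_inv₀] at h2
  have hv0 : V.valuation y ≠ 0 := by rw [Ne, map_eq_zero]; exact hy0
  have h3 : 1 ≤ V.valuation y := by
    have := (inv_le_one₀ (zero_lt_iff.2 hv0)).1 h2
    exact this
  exact le_antisymm h1 h3

/-- An element of valuation one is a unit of the valuation subring. -/
theorem unitAt_of_valuation_eq_one (V : ValuationSubring F) {y : F} (hy : V.valuation y = 1) :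
    UnitAt V y := by
  refine ⟨fun h => ?_, (V.valuation_le_one_iff _).1 hy.le, ?_⟩
  · rw [h, map_zero] at hy
    exact zero_ne_one hy
  · rw [← V.valuation_le_one_iff, map_inv₀, hy, inv_one]

/-- **PU-self, elementwise, divisor form**: `v₂(U) = N` (`U / t ^ N` a unit of `V₂` for a
uniformiser `t`) instead of "`x` is a uniformiser of `V₂`". -/
theorem principalAt_of_unit_self' (w : R) (B : Subalgebra R F) (V₁ V₂ V₃ : ValuationSubring F)
    (hw0 : algebraMap R F w ≠ 0)
    (hB₁ : ∀ b : B, (b : F) ∈ V₁) (hB₂ : ∀ b : B, (b : F) ∈ V₂) (hB₃ : ∀ b : B, (b : F) ∈ V₃)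
    (hqep : Qep3 w B V₁ V₂ V₃)
    (𝔪 : Ideal B) (hthr : Through B 𝔪 V₂)
    (x U d g : B) (k N : ℕ) (hN : 0 < N)
    (hUd : U * d = algebraMap R B w ^ k)
    (hU₁ : (U : F)⁻¹ ∈ V₁) (hU₃ : (U : F)⁻¹ ∈ V₃)
    (t : F) (ht : UnifAt V₂ t) (hU₂ : UnitAt V₂ ((U : F) * (t ^ N)⁻¹))
    (hg : g ∉ 𝔪)
    (hres : ((x : F) ^ N - (g : F) * (U : F)) * (U : F)⁻¹ ∈ V₂.nonunits) :
    PrincipalAt B 𝔪 V₂ := by
  have hwk0 : algebraMap R F w ^ k ≠ 0 := pow_ne_zero k hw0
  have hUdF : (U : F) * (d : F) = algebraMap R F w ^ k := by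
    have := congrArg (fun t : B => (t : F)) hUd
    simpa using this
  have hU0 : (U : F) ≠ 0 := by
    intro h
    rw [h, zero_mul] at hUdF
    exact hwk0 hUdF.symm
  -- `g` is a unit of `V₂`
  have hvg : V₂.valuation (g : F) = 1 := by
    have h1 : V₂.valuation (g : F) ≤ 1 := (V₂.valuation_le_one_iff _).2 (hB₂ g)
    rcases lt_or_eq_of_le h1 with h | h
    · exact absurd (hthr g ((V₂.mem_nonunits_iff).2 h)) hg
    · exact h
  -- `x ^ N / U` is a unit of `V₂`
  have hsplit : (x : F) ^ N * (U : F)⁻¹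
      = ((x : F) ^ N - (g : F) * (U : F)) * (U : F)⁻¹ + (g : F) := by
    rw [sub_mul, mul_assoc (g : F), mul_inv_cancel₀ hU0, mul_one, sub_add_cancel]
  have hone : V₂.valuation ((x : F) ^ N * (U : F)⁻¹) = 1 := by
    rw [hsplit, ← hvg]
    apply Valuation.map_add_eq_of_lt_right
    rw [hvg]
    exact (V₂.mem_nonunits_iff).1 hres
  have hvU : V₂.valuation (U : F) = V₂.valuation t ^ N := by
    have h := valuation_eq_one_of_unitAt V₂ hU₂
    rw [map_mul, map_inv₀, map_pow] at h
    have hne : V₂.valuation t ^ N ≠ 0 := by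
      apply pow_ne_zero
      rw [Ne, map_eq_zero]; exact ht.1
    calc V₂.valuation (U : F)
        = V₂.valuation (U : F) * (V₂.valuation t ^ N)⁻¹ * V₂.valuation t ^ N := by
          rw [mul_assoc, inv_mul_cancel₀ hne, mul_one]
      _ = V₂.valuation t ^ N := by rw [h, one_mul]
  have hvx : V₂.valuation (x : F) ^ N = V₂.valuation t ^ N := by
    rw [map_mul, map_inv₀, map_pow] at hone
    have hne : V₂.valuation (U : F) ≠ 0 := by rw [Ne, map_eq_zero]; exact hU0
    calc V₂.valuation (x : F) ^ N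
        = V₂.valuation (x : F) ^ N * (V₂.valuation (U : F))⁻¹ * V₂.valuation (U : F) := by
          rw [mul_assoc, inv_mul_cancel₀ hne, mul_one]
      _ = V₂.valuation t ^ N := by rw [hone, one_mul, hvU]
  exact principalAt_of_unit_self w B V₁ V₂ V₃ hw0 hB₁ hB₂ hB₃ hqep 𝔪 hthr x U d g k N hN hUd
    hU₁ hU₃ (unifAt_of_pow V₂ t (x : F) N hN ht hvx) hg hres

end Fermat.Agent.S36.H878

end
-- ===== PACK-END S36/H878/RegSelf.lean

-- ===== PACK-BEGIN S17/H680/Descent.lean
section



/-!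
# S17 / P2 (helper680): minimal representatives of divisor classes, Galois descent

Let `F / K` be a function field all of whose places have degree one (`FF1 K F`) and let `vinf` be a
place.  Every class `x ∈ Pic⁰(F)` has a unique *minimal representative*: the least `m` with
`ℓ(x + m vinf) ≥ 1` (then `ℓ = 1` and `m ≤ g`), and the unique effective divisor `E` of degree `m`
with `x = [E - m vinf]`; moreover `E(vinf) = 0`.

The construction is equivariant for every semilinear automorphism fixing `vinf`; hence a class fixed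
by a group `Γ` of such automorphisms is represented by the `Γ`-invariant divisor `E - m vinf`.
-/

set_option autoImplicit false

noncomputable section

open AlgebraicCurve

namespace Fermat.Agent.S17.H680

open Fermat.Agent.Lib.RR

variable {K F : Type*} [Field K] [Field F] [Algebra K F]

/-! ### Generalities on divisors -/

section Generalities

variable [FF1 K F]

theorem apply_le_degree {E : Divisor K F} (h0 : 0 ≤ E) (v : Place K F) :
    E v ≤ Divisor.degree E := by
  classical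
  have hge : E v • prim v ≤ E := by
    rw [Finsupp.le_def]
    intro w
    by_cases hw : w = v
    · subst hw
      simp [prim]
    · have : (0 : ℤ) ≤ E w := by simpa using Finsupp.le_def.mp h0 w
      simpa [prim, Finsupp.single_apply, Ne.symm hw] using this
  have := degree_mono hge
  rw [map_zsmul, degree_prim v (deg_eq_one v)] at this
  simpa using this

theorem eq_zero_of_nonneg_of_degree_eq_zero {E : Divisor K F} (h0 : 0 ≤ E)
    (hd : Divisor.degree E = 0) : E = 0 := by
  ext v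
  have h1 := apply_le_degree h0 v
  have h2 : (0 : ℤ) ≤ E v := by simpa using Finsupp.le_def.mp h0 v
  rw [hd] at h1
  simpa using le_antisymm h1 h2

theorem divOf_mul (f g : F) (hf : f ≠ 0) (hg : g ≠ 0) :
    divOf (K := K) (f * g) (mul_ne_zero hf hg) = divOf f hf + divOf g hg := by
  ext v
  simp [divOf_apply, v.ord_mul hf hg]

theorem divOf_inv (f : F) (hf : f ≠ 0) :
    divOf (K := K) f⁻¹ (inv_ne_zero hf) = -divOf f hf := by
  ext v
  simp [divOf_apply, v.ord_inv]

theorem divOf_algebraMap (c : K) (hc : algebraMap K F c ≠ 0) :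
    divOf (K := K) (algebraMap K F c) hc = 0 := by
  ext v
  simp [divOf_apply, ord_algebraMap]

theorem divOf_congr {f g : F} (hf : f ≠ 0) (h : f = g) :
    divOf (K := K) f hf = divOf g (h ▸ hf) := by
  subst h; rfl

theorem divOf_smul (c : K) (hc : c ≠ 0) (f : F) (hf : f ≠ 0) (h : c • f ≠ 0) :
    divOf (K := K) (c • f) h = divOf f hf := by
  ext v
  have hc' : algebraMap K F c ≠ 0 := by
    simpa using hc
  rw [divOf_apply, divOf_apply, Algebra.smul_def, v.ord_mul hc' hf, ord_algebraMap, zero_add]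

theorem mem_L_iff_nonneg {D : Divisor K F} {f : F} (hf : f ≠ 0) :
    f ∈ riemannRochSpace D ↔ 0 ≤ D + divOf f hf := by
  rw [mem_L_iff, Finsupp.le_def]
  constructor
  · intro h v
    have := (h v).resolve_left hf
    simp only [Finsupp.coe_zero, Pi.zero_apply, Finsupp.coe_add, Pi.add_apply, divOf_apply]
    omega
  · intro h v
    right
    have := h v
    simp only [Finsupp.coe_zero, Pi.zero_apply, Finsupp.coe_add, Pi.add_apply,
      divOf_apply] at this
    omega

omit [FF1 K F] in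
theorem add_nsmul_prim_apply (D : Divisor K F) (m : ℕ) (v w : Place K F) :
    (D + m • prim v) w = D w + m * prim v w := by
  simp [Finsupp.add_apply, Finsupp.smul_apply]

theorem isPrincipal_iff {D : Divisor K F} :
    D ∈ Divisor.principal (K := K) (F := F) ↔ ∃ (h : F) (hh : h ≠ 0), D = divOf h hh := by
  rw [Divisor.mem_principal]
  constructor
  · rintro ⟨h, hh, hD⟩
    refine ⟨h, hh, ?_⟩
    ext v
    rw [hD v, divOf_apply]
  · rintro ⟨h, hh, rfl⟩
    exact ⟨h, hh, fun v => divOf_apply h hh v⟩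

/-- In a one-dimensional `L(D)`, any two nonzero elements have the same divisor. -/
theorem divOf_eq_of_ell_eq_one {D : Divisor K F} (h1 : ell D = 1) {f f' : F} (hf : f ≠ 0)
    (hf' : f' ≠ 0) (hfL : f ∈ riemannRochSpace D) (hfL' : f' ∈ riemannRochSpace D) :
    divOf (K := K) f hf = divOf f' hf' := by
  have hfin : Module.finrank K (riemannRochSpace D) = 1 := h1
  have hne : (⟨f, hfL⟩ : riemannRochSpace D) ≠ 0 := fun h => hf (congrArg Subtype.val h)
  obtain ⟨c, hc⟩ := (finrank_eq_one_iff_of_nonzero' ⟨f, hfL⟩ hne).mp hfin ⟨f', hfL'⟩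
  have hc' : c • f = f' := congrArg Subtype.val hc
  have hc0 : c ≠ 0 := by
    rintro rfl
    rw [zero_smul] at hc'
    exact hf' hc'.symm
  have hcf : c • f ≠ 0 := by rw [hc']; exact hf'
  rw [← divOf_smul c hc0 f hf hcf]
  exact divOf_congr hcf hc'

end Generalities

/-! ### Minimal representatives, on the level of divisors -/

section MinRepD

variable [FF1 K F] (vinf : Place K F)

theorem exists_one_le_ell (D : Divisor K F) : ∃ m : ℕ, 1 ≤ ell (D + m • prim vinf) := by
  refine ⟨(genusR K F - Divisor.degree D).toNat, ?_⟩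
  have h := riemann_inequality (D + (genusR K F - Divisor.degree D).toNat • prim vinf)
  rw [map_add, map_nsmul, degree_prim vinf (deg_eq_one vinf), nsmul_eq_mul, mul_one] at h
  have h2 : (genusR K F : ℤ) - Divisor.degree D ≤ ((genusR K F - Divisor.degree D).toNat : ℤ) :=
    Int.self_le_toNat _
  have h3 : (1 : ℤ) ≤ ell (D + (genusR K F - Divisor.degree D).toNat • prim vinf) := by omega
  exact_mod_cast h3

open Classical in
/-- The least `m` with `ℓ(D + m vinf) ≥ 1`. -/
def minDegD (D : Divisor K F) : ℕ := Nat.find (exists_one_le_ell vinf D)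

theorem one_le_ell_minDegD (D : Divisor K F) : 1 ≤ ell (D + minDegD vinf D • prim vinf) := by
  classical
  exact Nat.find_spec (exists_one_le_ell vinf D)

theorem minDegD_le {D : Divisor K F} {m : ℕ} (h : 1 ≤ ell (D + m • prim vinf)) :
    minDegD vinf D ≤ m := by
  classical
  exact Nat.find_min' (exists_one_le_ell vinf D) h

theorem ell_eq_zero_of_lt_minDegD {D : Divisor K F} {m : ℕ} (h : m < minDegD vinf D) :
    ell (D + m • prim vinf) = 0 := by
  classical
  have := Nat.find_min (exists_one_le_ell vinf D) h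
  omega

theorem minDegD_le_genus {D : Divisor K F} (hD : Divisor.degree D = 0) :
    minDegD vinf D ≤ genusR K F := by
  apply minDegD_le
  have h := riemann_inequality (D + genusR K F • prim vinf)
  rw [map_add, map_nsmul, degree_prim vinf (deg_eq_one vinf), nsmul_eq_mul, mul_one, hD] at h
  have h3 : (1 : ℤ) ≤ ell (D + genusR K F • prim vinf) := by omega
  exact_mod_cast h3

theorem ell_minDegD {D : Divisor K F} (hD : Divisor.degree D ≤ 0) :
    ell (D + minDegD vinf D • prim vinf) = 1 := by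
  refine le_antisymm ?_ (one_le_ell_minDegD vinf D)
  rcases Nat.eq_zero_or_pos (minDegD vinf D) with h0 | hpos
  · rw [h0, zero_smul, add_zero]
    have h1 := one_le_ell_minDegD vinf D
    rw [h0, zero_smul, add_zero] at h1
    have h2 := ell_le_toNat D
    have h3 : (Divisor.degree D + 1).toNat ≤ 1 := by omega
    omega
  · have hlt : minDegD vinf D - 1 < minDegD vinf D := by omega
    have h1 := ell_eq_zero_of_lt_minDegD vinf hlt
    have h2 := ell_add_prim_le (D + (minDegD vinf D - 1) • prim vinf) vinf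
    have h3 : D + (minDegD vinf D - 1) • prim vinf + prim vinf = D + minDegD vinf D • prim vinf := by
      rw [add_assoc, ← succ_nsmul]
      congr 2
      omega
    rw [h3, h1] at h2
    exact h2

theorem exists_minFun (D : Divisor K F) :
    ∃ f : F, f ≠ 0 ∧ f ∈ riemannRochSpace (D + minDegD vinf D • prim vinf) := by
  have h := one_le_ell_minDegD vinf D
  have hpos : 0 < Module.finrank K (riemannRochSpace (D + minDegD vinf D • prim vinf)) := h
  obtain ⟨⟨f, hfL⟩, hf⟩ := Module.finrank_pos_iff_exists_ne_zero.mp hpos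
  exact ⟨f, fun h => hf (Subtype.ext h), hfL⟩

/-- A nonzero function in `L(D + m vinf)`, `m` minimal. -/
def minFun (D : Divisor K F) : F := (exists_minFun vinf D).choose

theorem minFun_ne_zero (D : Divisor K F) : minFun vinf D ≠ 0 := (exists_minFun vinf D).choose_spec.1

theorem minFun_mem (D : Divisor K F) :
    minFun vinf D ∈ riemannRochSpace (D + minDegD vinf D • prim vinf) :=
  (exists_minFun vinf D).choose_spec.2

/-- The minimal effective representative of the class of `D + m vinf`. -/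
def minRepD (D : Divisor K F) : Divisor K F :=
  D + minDegD vinf D • prim vinf + divOf (minFun vinf D) (minFun_ne_zero vinf D)

theorem minRepD_apply (D : Divisor K F) (w : Place K F) :
    minRepD vinf D w = D w + minDegD vinf D * prim vinf w + w.ord (minFun vinf D) := by
  rw [minRepD, Finsupp.add_apply, add_nsmul_prim_apply, divOf_apply]

theorem minRepD_nonneg (D : Divisor K F) : 0 ≤ minRepD vinf D :=
  (mem_L_iff_nonneg (minFun_ne_zero vinf D)).mp (minFun_mem vinf D)

theorem degree_minRepD (D : Divisor K F) :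
    Divisor.degree (minRepD vinf D) = Divisor.degree D + minDegD vinf D := by
  rw [minRepD, map_add, map_add, degree_divOf, map_nsmul, degree_prim vinf (deg_eq_one vinf)]
  simp

theorem minRepD_eq {D : Divisor K F} (hD : Divisor.degree D ≤ 0) {f : F} (hf : f ≠ 0)
    (hfL : f ∈ riemannRochSpace (D + minDegD vinf D • prim vinf)) :
    minRepD vinf D = D + minDegD vinf D • prim vinf + divOf f hf := by
  rw [minRepD, divOf_eq_of_ell_eq_one (ell_minDegD vinf hD) (minFun_ne_zero vinf D) hf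
    (minFun_mem vinf D) hfL]

/-- The minimal representative does not contain `vinf`. -/
theorem minRepD_apply_infty {D : Divisor K F} (hD : Divisor.degree D = 0) :
    minRepD vinf D vinf = 0 := by
  rcases Nat.eq_zero_or_pos (minDegD vinf D) with h0 | hpos
  · have hdeg := degree_minRepD vinf D
    rw [h0, hD] at hdeg
    rw [eq_zero_of_nonneg_of_degree_eq_zero (minRepD_nonneg vinf D) (by simpa using hdeg)]
    rfl
  · by_contra hne
    have hnn : (0 : ℤ) ≤ minRepD vinf D vinf := by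
      simpa using Finsupp.le_def.mp (minRepD_nonneg vinf D) vinf
    have h1 : (1 : ℤ) ≤ minRepD vinf D vinf := by omega
    -- then `minFun ∈ L(D + (m - 1) vinf)`
    have hlt : minDegD vinf D - 1 < minDegD vinf D := by omega
    have hz := ell_eq_zero_of_lt_minDegD vinf hlt
    have hmem : minFun vinf D ∈ riemannRochSpace (D + (minDegD vinf D - 1) • prim vinf) := by
      rw [mem_L_iff_nonneg (minFun_ne_zero vinf D), Finsupp.le_def]
      intro w
      have hw : (0 : ℤ) ≤ minRepD vinf D w := by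
        simpa using Finsupp.le_def.mp (minRepD_nonneg vinf D) w
      have hcast : ((minDegD vinf D - 1 : ℕ) : ℤ) = (minDegD vinf D : ℤ) - 1 := by
        rw [Nat.cast_sub (by omega)]; simp
      rw [minRepD_apply] at hw h1
      rw [Finsupp.coe_zero, Pi.zero_apply, Finsupp.add_apply, add_nsmul_prim_apply, divOf_apply,
        hcast]
      by_cases hwv : w = vinf
      · subst hwv
        rw [prim_apply_self] at h1 ⊢
        linarith
      · rw [prim_apply_of_ne hwv] at hw ⊢
        linarith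
    have hpos' : 0 < Module.finrank K (riemannRochSpace (D + (minDegD vinf D - 1) • prim vinf)) :=
      Module.finrank_pos_iff_exists_ne_zero.mpr
        ⟨⟨_, hmem⟩, fun h => minFun_ne_zero vinf D (congrArg Subtype.val h)⟩
    have : ell (D + (minDegD vinf D - 1) • prim vinf) = 0 := hz
    unfold ell at this
    omega

/-- Linearly equivalent divisors have the same minimal degree. -/
theorem minDegD_add_divOf (D : Divisor K F) (h : F) (hh : h ≠ 0) :
    minDegD vinf (D + divOf h hh) = minDegD vinf D := by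
  have key : ∀ m : ℕ, ell (D + divOf h hh + m • prim vinf) = ell (D + m • prim vinf) := by
    intro m
    rw [add_right_comm, ell_add_divOf]
  apply le_antisymm
  · apply minDegD_le
    rw [key]
    exact one_le_ell_minDegD vinf D
  · apply minDegD_le
    rw [← key]
    exact one_le_ell_minDegD vinf (D + divOf h hh)

/-- Linearly equivalent divisors (of degree `0`) have the same minimal representative. -/
theorem minRepD_add_divOf {D : Divisor K F} (hD : Divisor.degree D ≤ 0) (h : F) (hh : h ≠ 0) :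
    minRepD vinf (D + divOf h hh) = minRepD vinf D := by
  have hm := minDegD_add_divOf vinf D h hh
  set f := minFun vinf (D + divOf h hh) with hf_def
  have hf0 : f ≠ 0 := minFun_ne_zero vinf _
  have hfL := minFun_mem vinf (D + divOf h hh)
  have hhf : h * f ≠ 0 := mul_ne_zero hh hf0
  have hmem : h * f ∈ riemannRochSpace (D + minDegD vinf D • prim vinf) := by
    rw [mem_L_iff_nonneg hhf, divOf_mul h f hh hf0]
    rw [mem_L_iff_nonneg hf0, hm] at hfL
    have : D + divOf h hh + minDegD vinf D • prim vinf + divOf f hf0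
        = D + minDegD vinf D • prim vinf + (divOf h hh + divOf f hf0) := by abel
    rwa [this] at hfL
  rw [minRepD_eq vinf hD hhf hmem, minRepD, hm, divOf_mul h f hh hf0]
  abel

end MinRepD

/-! ### Semilinear automorphisms -/

section Semilinear

variable [FF1 K F] (g : SemilinearAut K F)

omit [FF1 K F] in
theorem smul_ne_zero {f : F} (hf : f ≠ 0) : g • f ≠ 0 := by
  rw [SemilinearAut.smul_def]
  exact (map_ne_zero_iff _ (SemilinearAut.toRingAut g).injective).mpr hf

theorem smul_divOf (f : F) (hf : f ≠ 0) :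
    g • divOf (K := K) f hf = divOf (g • f) (smul_ne_zero g hf) := by
  ext w
  rw [SemilinearAut.divisor_smul_apply, divOf_apply, divOf_apply]
  have h := SemilinearAut.ord_smul g (g⁻¹ • w) f
  rw [smul_inv_smul] at h
  exact h.symm

omit [FF1 K F] in
theorem smul_prim (v : Place K F) : g • prim v = prim (g • v) := by
  rw [prim, prim, SemilinearAut.smul_single]

omit [FF1 K F] in
theorem smul_nonneg {D : Divisor K F} (h : 0 ≤ D) : 0 ≤ g • D := by
  rw [Finsupp.le_def] at h ⊢
  intro w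
  rw [SemilinearAut.divisor_smul_apply]
  simpa using h (g⁻¹ • w)

theorem smul_mem_L {D : Divisor K F} {f : F} (hf : f ∈ riemannRochSpace D) :
    g • f ∈ riemannRochSpace (g • D) := by
  rcases eq_or_ne f 0 with rfl | hf0
  · rw [smul_zero]; exact Submodule.zero_mem _
  · rw [mem_L_iff_nonneg (smul_ne_zero g hf0), ← smul_divOf g f hf0, ← smul_add]
    exact smul_nonneg g ((mem_L_iff_nonneg hf0).mp hf)

theorem smul_mem_L_iff {D : Divisor K F} {f : F} :
    g • f ∈ riemannRochSpace (g • D) ↔ f ∈ riemannRochSpace D := by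
  refine ⟨fun h => ?_, smul_mem_L g⟩
  have := smul_mem_L g⁻¹ h
  rwa [inv_smul_smul, inv_smul_smul] at this

/-- The semilinear bijection `L(D) ≃ L(g D)`. -/
def smulL (D : Divisor K F) : riemannRochSpace D ≃+ riemannRochSpace (g • D) where
  toFun f := ⟨g • (f : F), smul_mem_L g f.2⟩
  invFun f := ⟨g⁻¹ • (f : F), by
    have := smul_mem_L g⁻¹ f.2
    rwa [inv_smul_smul] at this⟩
  left_inv f := Subtype.ext (inv_smul_smul g (f : F))
  right_inv f := Subtype.ext (smul_inv_smul g (f : F))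
  map_add' f f' := Subtype.ext (smul_add g (f : F) (f' : F))

theorem ell_smul (D : Divisor K F) : ell (g • D) = ell D := by
  have h := rank_eq_of_equiv_equiv (R := K) (R' := K) (SemilinearAut.baseAut g) (smulL g D)
    (SemilinearAut.baseAut g).bijective (fun c f => by
      apply Subtype.ext
      show g • (c • (f : F)) = SemilinearAut.baseAut g c • (g • (f : F))
      rw [Algebra.smul_def, Algebra.smul_def, smul_mul', SemilinearAut.smul_algebraMap])
  unfold ell Module.finrank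
  rw [h]

variable {vinf : Place K F} (hg : g • vinf = vinf)

include hg in
theorem minDegD_smul (D : Divisor K F) : minDegD vinf (g • D) = minDegD vinf D := by
  have key : ∀ m : ℕ, ell (g • D + m • prim vinf) = ell (D + m • prim vinf) := by
    intro m
    rw [← ell_smul g (D + m • prim vinf), smul_add, smul_comm g m (prim vinf), smul_prim, hg]
  apply le_antisymm
  · apply minDegD_le
    rw [key]
    exact one_le_ell_minDegD vinf D
  · apply minDegD_le
    rw [← key]
    exact one_le_ell_minDegD vinf (g • D)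

include hg in
/-- The minimal representative is equivariant. -/
theorem minRepD_smul {D : Divisor K F} (hD : Divisor.degree D ≤ 0) :
    minRepD vinf (g • D) = g • minRepD vinf D := by
  have hm := minDegD_smul g hg D
  have hD' : Divisor.degree (g • D) ≤ 0 := by rwa [SemilinearAut.degree_smul]
  have hf0 := minFun_ne_zero vinf D
  have hmem : g • minFun vinf D ∈ riemannRochSpace (g • D + minDegD vinf (g • D) • prim vinf) := by
    have := smul_mem_L g (minFun_mem vinf D)
    rwa [smul_add, smul_comm g (minDegD vinf D) (prim vinf), smul_prim, hg, ← hm] at this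
  rw [minRepD_eq vinf hD' (smul_ne_zero g hf0) hmem, minRepD, smul_add, smul_add,
    smul_comm g (minDegD vinf D) (prim vinf), smul_prim, hg, smul_divOf, hm]

end Semilinear

/-! ### Minimal representatives of classes in `Pic⁰` -/

section Pic0

variable [FF1 K F] (vinf : Place K F)

omit [FF1 K F] in
theorem mk_eq_mk_iff {D D' : Divisor.degZero (K := K) (F := F)} :
    Pic0.mk D = Pic0.mk D' ↔ (D' : Divisor K F) - D ∈ Divisor.principal (K := K) (F := F) := by
  unfold Pic0.mk
  rw [QuotientAddGroup.eq, AddSubgroup.mem_addSubgroupOf]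
  have : ((-D + D' : Divisor.degZero (K := K) (F := F)) : Divisor K F)
      = (D' : Divisor K F) - D := by
    rw [AddSubgroup.coe_add, AddSubgroup.coe_neg]; abel
  rw [this]

theorem mk_eq_mk_iff' {D D' : Divisor.degZero (K := K) (F := F)} :
    Pic0.mk D = Pic0.mk D' ↔
      ∃ (h : F) (hh : h ≠ 0), (D' : Divisor K F) = (D : Divisor K F) + divOf h hh := by
  rw [mk_eq_mk_iff, isPrincipal_iff]
  constructor
  · rintro ⟨h, hh, e⟩
    exact ⟨h, hh, by rw [← e]; abel⟩
  · rintro ⟨h, hh, e⟩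
    exact ⟨h, hh, by rw [e]; abel⟩

/-- A chosen representative of a class. -/
def repD (x : Pic0 K F) : Divisor.degZero (K := K) (F := F) := (Pic0.mk_surjective x).choose

omit [FF1 K F] in
theorem mk_repD (x : Pic0 K F) : Pic0.mk (repD x) = x := (Pic0.mk_surjective x).choose_spec

omit [FF1 K F] in
theorem degree_coe (D : Divisor.degZero (K := K) (F := F)) :
    Divisor.degree (D : Divisor K F) = 0 := D.2

/-- The least `m` such that `x + m v∞` contains an effective divisor. -/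
def minDeg (x : Pic0 K F) : ℕ := minDegD vinf (repD x : Divisor K F)

/-- The effective divisor `E` of degree `minDeg x` with `x = [E - m v∞]`. -/
def minRep (x : Pic0 K F) : Divisor K F := minRepD vinf (repD x : Divisor K F)

theorem minDeg_mk (D : Divisor.degZero (K := K) (F := F)) :
    minDeg vinf (Pic0.mk D) = minDegD vinf (D : Divisor K F) := by
  obtain ⟨h, hh, e⟩ := mk_eq_mk_iff'.mp (mk_repD (Pic0.mk D)).symm
  rw [minDeg, e, minDegD_add_divOf]

theorem minRep_mk (D : Divisor.degZero (K := K) (F := F)) :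
    minRep vinf (Pic0.mk D) = minRepD vinf (D : Divisor K F) := by
  obtain ⟨h, hh, e⟩ := mk_eq_mk_iff'.mp (mk_repD (Pic0.mk D)).symm
  rw [minRep, e, minRepD_add_divOf vinf (le_of_eq (degree_coe D))]

theorem minRep_nonneg (x : Pic0 K F) : 0 ≤ minRep vinf x := minRepD_nonneg vinf _

theorem degree_minRep (x : Pic0 K F) : Divisor.degree (minRep vinf x) = minDeg vinf x := by
  rw [minRep, degree_minRepD, degree_coe, zero_add, minDeg]

theorem minRep_apply_infty (x : Pic0 K F) : minRep vinf x vinf = 0 :=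
  minRepD_apply_infty vinf (degree_coe _)

theorem minDeg_le_genus (x : Pic0 K F) : minDeg vinf x ≤ genusR K F :=
  minDegD_le_genus vinf (degree_coe _)

theorem ell_minRep (x : Pic0 K F) : ell (minRep vinf x) = 1 := by
  rw [minRep, minRepD, ell_add_divOf]
  exact ell_minDegD vinf (le_of_eq (degree_coe _))

theorem degree_minRep_sub (x : Pic0 K F) :
    Divisor.degree (minRep vinf x - minDeg vinf x • prim vinf) = 0 := by
  rw [map_sub, degree_minRep, map_nsmul, degree_prim vinf (deg_eq_one vinf)]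
  simp

/-- The divisor `E - m v∞` of degree zero representing `x`. -/
def minDiv (x : Pic0 K F) : Divisor.degZero (K := K) (F := F) :=
  ⟨minRep vinf x - minDeg vinf x • prim vinf, degree_minRep_sub vinf x⟩

theorem coe_minDiv (x : Pic0 K F) :
    (minDiv vinf x : Divisor K F) = minRep vinf x - minDeg vinf x • prim vinf := rfl

/-- `x = [E - m v∞]`. -/
theorem mk_minDiv (x : Pic0 K F) : Pic0.mk (minDiv vinf x) = x := by
  conv_rhs => rw [← mk_repD x]
  rw [eq_comm, mk_eq_mk_iff']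
  refine ⟨minFun vinf (repD x : Divisor K F), minFun_ne_zero vinf _, ?_⟩
  rw [coe_minDiv, minRep, minRepD, minDeg]
  abel

/-- Uniqueness: an effective divisor `E` of degree `minDeg x` with `x = [E - m v∞]` is the
minimal representative. -/
theorem eq_minRep {x : Pic0 K F} {E : Divisor K F} (hE : 0 ≤ E)
    (hdeg : Divisor.degree (E - minDeg vinf x • prim vinf) = 0)
    (hx : Pic0.mk ⟨E - minDeg vinf x • prim vinf, hdeg⟩ = x) : E = minRep vinf x := by
  have h1 : Pic0.mk (repD x) = Pic0.mk ⟨E - minDeg vinf x • prim vinf, hdeg⟩ := by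
    rw [mk_repD, hx]
  obtain ⟨h, hh, e⟩ := mk_eq_mk_iff'.mp h1
  have e' : E = (repD x : Divisor K F) + minDeg vinf x • prim vinf + divOf h hh := by
    have : E - minDeg vinf x • prim vinf = (repD x : Divisor K F) + divOf h hh := e
    rw [sub_eq_iff_eq_add] at this
    rw [this]; abel
  have hmem : h ∈ riemannRochSpace ((repD x : Divisor K F) + minDeg vinf x • prim vinf) := by
    rw [mem_L_iff_nonneg hh, ← e']
    exact hE
  rw [minRep, minRepD_eq vinf (le_of_eq (degree_coe _)) hh hmem, e']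
  rfl

/-- Any effective divisor `E` of degree `m` with `x = [E - m v∞]` has `m ≥ minDeg x`. -/
theorem minDeg_le_of_rep {x : Pic0 K F} {E : Divisor K F} {m : ℕ} (hE : 0 ≤ E)
    (hdeg : Divisor.degree (E - m • prim vinf) = 0)
    (hx : Pic0.mk ⟨E - m • prim vinf, hdeg⟩ = x) : minDeg vinf x ≤ m := by
  have h1 : Pic0.mk (repD x) = Pic0.mk ⟨E - m • prim vinf, hdeg⟩ := by
    rw [mk_repD, hx]
  obtain ⟨h, hh, e⟩ := mk_eq_mk_iff'.mp h1
  have e' : E = (repD x : Divisor K F) + m • prim vinf + divOf h hh := by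
    have : E - m • prim vinf = (repD x : Divisor K F) + divOf h hh := e
    rw [sub_eq_iff_eq_add] at this
    rw [this]; abel
  have hmem : h ∈ riemannRochSpace ((repD x : Divisor K F) + m • prim vinf) := by
    rw [mem_L_iff_nonneg hh, ← e']
    exact hE
  apply minDegD_le
  have hpos : 0 < Module.finrank K (riemannRochSpace ((repD x : Divisor K F) + m • prim vinf)) :=
    Module.finrank_pos_iff_exists_ne_zero.mpr ⟨⟨h, hmem⟩, fun h0 => hh (congrArg Subtype.val h0)⟩
  exact hpos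

/-! ### Equivariance and descent -/

variable {vinf}

theorem minDeg_smul (g : SemilinearAut K F) (hg : g • vinf = vinf) (x : Pic0 K F) :
    minDeg vinf (g • x) = minDeg vinf x := by
  obtain ⟨D, rfl⟩ := Pic0.mk_surjective x
  rw [SemilinearAut.pic0_smul_mk, minDeg_mk, minDeg_mk, SemilinearAut.coe_degZeroSMulHom,
    minDegD_smul g hg]

theorem minRep_smul (g : SemilinearAut K F) (hg : g • vinf = vinf) (x : Pic0 K F) :
    minRep vinf (g • x) = g • minRep vinf x := by
  obtain ⟨D, rfl⟩ := Pic0.mk_surjective x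
  rw [SemilinearAut.pic0_smul_mk, minRep_mk, minRep_mk, SemilinearAut.coe_degZeroSMulHom,
    minRepD_smul g hg (le_of_eq (degree_coe D))]

/-- **Descent**: the minimal representative of a class fixed by `g` is fixed by `g`. -/
theorem smul_minRep_eq (g : SemilinearAut K F) (hg : g • vinf = vinf) {x : Pic0 K F}
    (hx : g • x = x) : g • minRep vinf x = minRep vinf x := by
  rw [← minRep_smul g hg, hx]

theorem smul_minDiv_eq (g : SemilinearAut K F) (hg : g • vinf = vinf) {x : Pic0 K F}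
    (hx : g • x = x) : g • (minDiv vinf x : Divisor K F) = minDiv vinf x := by
  rw [coe_minDiv, smul_sub, smul_minRep_eq g hg hx, smul_comm g (minDeg vinf x) (prim vinf),
    smul_prim, hg]

/-- A class is determined by its minimal representative. -/
theorem minRep_injective : Function.Injective (minRep (K := K) (F := F) vinf) := by
  intro x y h
  have hd : minDeg vinf x = minDeg vinf y := by
    have h1 := degree_minRep vinf x
    have h2 := degree_minRep vinf y
    rw [h] at h1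
    exact_mod_cast h1.symm.trans h2
  rw [← mk_minDiv vinf x, ← mk_minDiv vinf y]
  congr 1
  apply Subtype.ext
  rw [coe_minDiv, coe_minDiv, h, hd]

end Pic0

end Fermat.Agent.S17.H680

end
end
-- ===== PACK-END S17/H680/Descent.lean

-- ===== PACK-BEGIN S59/H59/TWGalMat.lean
section



/-!
# Row S59, leaf TW-GAL1 (helper59): the matrix form

`TWDiagMat p q r P α β` is the matrix form of `TWDiag`; `twDiagMat_exists` shows that a continuous
matrix representation `r₀` which is residually trivial and of determinant `1` on the inertia group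
at `P | q` (`q ≡ 1 mod p`), with `r₀(Frob)` residually of distinct eigenvalues `α ≠ β`, has a
conjugate satisfying `TWDiagMat`.
-/

set_option autoImplicit false
set_option linter.unusedSectionVars false
set_option linter.style.haveILetI false
set_option linter.unusedSimpArgs false

open IsLocalRing Polynomial
open scoped Pointwise

namespace Fermat.Agent.S59.H59

open Fermat.Agent.S53 Fermat.Agent.S56.H794 Fermat.Agent.Lib.Cheb.H476

/-! ### A commutative `p`-group with a unique subgroup of order `p` is cyclic -/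

section group

variable {G : Type*} [Group G]

theorem exists_generator_h59 (H : Subgroup G) (hcomm : ∀ x ∈ H, ∀ y ∈ H, x * y = y * x)
    {p v : ℕ} (hexp : ∀ x ∈ H, x ^ p ^ v = 1)
    (huniq : ∀ x ∈ H, ∀ y ∈ H, x ^ p = 1 → y ^ p = 1 → y ≠ 1 → ∃ j : ℕ, x = y ^ j) :
    ∃ y ∈ H, ∀ x ∈ H, ∃ k : ℕ, x = y ^ k := by
  classical
  -- the minimal exponent
  have hex : ∃ e : ℕ, ∀ x ∈ H, x ^ p ^ e = 1 := ⟨v, hexp⟩
  set e := Nat.find hex with he
  have hemin : ∀ x ∈ H, x ^ p ^ e = 1 := Nat.find_spec hex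
  rcases Nat.eq_zero_or_pos e with h0 | hpos
  · refine ⟨1, H.one_mem, fun x hx => ⟨0, ?_⟩⟩
    have := hemin x hx
    rw [h0, pow_zero, pow_one] at this
    rw [this, pow_zero]
  · have hlt : e - 1 < e := by omega
    have hnot := Nat.find_min hex hlt
    push Not at hnot
    obtain ⟨y, hyH, hy⟩ := hnot
    have hye : y ^ p ^ e = 1 := hemin y hyH
    have hy1p : (y ^ p ^ (e - 1)) ^ p = 1 := by
      rw [← pow_mul, ← pow_succ]
      have : e - 1 + 1 = e := by omega
      rw [this]; exact hye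
    refine ⟨y, hyH, ?_⟩
    have key : ∀ d : ℕ, d ≤ e → ∀ x ∈ H, x ^ p ^ d = 1 → ∃ k : ℕ, x = y ^ k := by
      intro d
      induction d with
      | zero =>
        intro _ x _ hx
        rw [pow_zero, pow_one] at hx
        exact ⟨0, by rw [hx, pow_zero]⟩
      | succ d ih =>
        intro hd x hxH hx
        have hx1p : (x ^ p ^ d) ^ p = 1 := by rw [← pow_mul, ← pow_succ]; exact hx
        obtain ⟨j, hj⟩ := huniq (x ^ p ^ d) (H.pow_mem hxH _) (y ^ p ^ (e - 1))
          (H.pow_mem hyH _) hx1p hy1p hy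
        set z : G := y ^ (j * p ^ (e - 1 - d)) with hz
        have hzH : z ∈ H := H.pow_mem hyH _
        have hzd : z ^ p ^ d = x ^ p ^ d := by
          rw [hj, hz, ← pow_mul, ← pow_mul, mul_assoc, ← pow_add, mul_comm]
          congr 2
          congr 1
          omega
        have hcz : Commute x z⁻¹ := (hcomm x hxH z⁻¹ (H.inv_mem hzH))
        have hx' : (x * z⁻¹) ^ p ^ d = 1 := by
          rw [hcz.mul_pow, inv_pow, hzd, mul_inv_cancel]
        obtain ⟨k', hk'⟩ := ih (by omega) (x * z⁻¹) (H.mul_mem hxH (H.inv_mem hzH)) hx'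
        refine ⟨k' + j * p ^ (e - 1 - d), ?_⟩
        rw [pow_add, ← hk', ← hz, inv_mul_cancel_right]
    intro x hx
    exact key e le_rfl x hx (hemin x hx)

end group

/-! ### Diagonal `2 × 2` matrices -/

section diag

variable {A : Type*} [CommRing A]

theorem eq_diagonal_h59 {M : Matrix (Fin 2) (Fin 2) A} (h01 : M 0 1 = 0) (h10 : M 1 0 = 0) :
    M = Matrix.diagonal (fun i => M i i) := by
  ext i j
  fin_cases i <;> fin_cases j <;> simp [h01, h10]

theorem pow_apply_diag_h59 {M : Matrix (Fin 2) (Fin 2) A} (h01 : M 0 1 = 0) (h10 : M 1 0 = 0)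
    (k : ℕ) (i : Fin 2) : (M ^ k) i i = (M i i) ^ k := by
  conv_lhs => rw [eq_diagonal_h59 h01 h10, Matrix.diagonal_pow]
  simp

theorem pow_eq_one_of_diag_h59 {M : Matrix (Fin 2) (Fin 2) A} (h01 : M 0 1 = 0)
    (h10 : M 1 0 = 0) {k : ℕ} (h : ∀ i, (M i i) ^ k = 1) : M ^ k = 1 := by
  rw [eq_diagonal_h59 h01 h10, Matrix.diagonal_pow]
  ext i j
  fin_cases i <;> fin_cases j <;> simp [h]

end diag

/-- **Matrix form of `TWDiag`.** -/
structure TWDiagMat (p q : ℕ) {A : Type} [CommRing A] [IsLocalRing A] (r : GQ →* M2 A)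
    (P : ValuationSubring (AlgebraicClosure ℚ)) (α β : ResidueField A) : Prop where
  diag : ∀ σ ∈ P.decompositionSubgroup ℚ, r σ 0 1 = 0 ∧ r σ 1 0 = 0
  frob : ∀ φ : GQ, P.IsFrobeniusAt φ q → residue A (r φ 0 0) = α ∧ residue A (r φ 1 1) = β
  inertia_res : ∀ σ ∈ P.inertiaSubgroupIn ℚ, ∀ i, r σ i i - 1 ∈ maximalIdeal A
  inertia_mul : ∀ σ ∈ P.inertiaSubgroupIn ℚ, r σ 0 0 * r σ 1 1 = 1
  inertia_pow : ∀ σ ∈ P.inertiaSubgroupIn ℚ, ∀ i, r σ i i ^ p ^ padicValNat p (q - 1) = 1
  inertia_cyclic : ∃ τ ∈ P.inertiaSubgroupIn ℚ, ∀ σ ∈ P.inertiaSubgroupIn ℚ,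
    ∃ k : ℕ, ∀ i, r σ i i = r τ i i ^ k

section main

variable {A : Type} [CommRing A] [IsLocalRing A] [IsNoetherianRing A]
  {p q : ℕ} {P : ValuationSubring (AlgebraicClosure ℚ)}

theorem inertia_le_decomposition_h59 {σ : GQ} (hσ : σ ∈ P.inertiaSubgroupIn ℚ) :
    σ ∈ P.decompositionSubgroup ℚ :=
  ((mem_inertiaSubgroupIn_iff' P σ).mp hσ).1

/-- the commutator of an element of the decomposition group with a Frobenius lies in inertia -/
theorem comm_frob_mem_inertia_h59 {σ φ : GQ} (hσ : σ ∈ P.decompositionSubgroup ℚ)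
    (hφ : P.IsFrobeniusAt φ q) : σ * φ * σ⁻¹ * φ⁻¹ ∈ P.inertiaSubgroupIn ℚ := by
  have h1 := isFrobeniusAt_conj σ hφ
  rw [MulAction.mem_stabilizer_iff.mp hσ] at h1
  exact mul_inv_mem_inertia_of_isFrobeniusAt hφ h1

/-- **TW-GAL1, matrix form with `r φ` already diagonal.** -/
theorem twDiagMat_of_diag_frob {r : GQ →* M2 A} (hr : MatCont r) (hp : p.Prime)
    (hpA : (p : A) ∈ maximalIdeal A) (hq : q.Prime) (hqp : p ∣ q - 1) (hP : P.LiesOverPrime q)
    (hres : ∀ τ ∈ P.inertiaSubgroupIn ℚ, EntIn (maximalIdeal A) (r τ - 1))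
    (hdet : ∀ τ ∈ P.inertiaSubgroupIn ℚ, (r τ).det = 1)
    {φ : GQ} (hφ : P.IsFrobeniusAt φ q) {a₀ a₁ : A} (hrφ : r φ = !![a₀, 0; 0, a₁])
    (hu : IsUnit (a₀ - a₁)) :
    TWDiagMat p q r P (residue A a₀) (residue A a₁) := by
  have hq1 : 1 ≤ q := hq.one_lt.le
  have hqne : q ≠ p := by
    rintro rfl
    have := Nat.le_of_dvd (by have := hq.two_le; omega) hqp
    have := hq.two_le
    omega
  -- `q ≡ 1 mod 𝔪`
  have hqA : (q : A) - 1 ∈ maximalIdeal A := by
    obtain ⟨c, hc⟩ := hqp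
    have : (q : A) - 1 = (p : A) * (c : A) := by
      have h1 : q = p * c + 1 := by omega
      rw [h1]; push_cast; ring
    rw [this]
    exact Ideal.mul_mem_right _ _ hpA
  have hres1 : residue A (q : A) = 1 := by
    rw [← sub_eq_zero, ← map_one (residue A), ← map_sub]
    exact (residue_eq_zero_iff _).mpr hqA
  have hne : residue A a₀ ≠ residue A a₁ := by
    intro h
    have : residue A (a₀ - a₁) = 0 := by rw [map_sub, h, sub_self]
    exact ((residue_ne_zero_iff_isUnit _).mpr hu) this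
  have hu0 : IsUnit (a₀ - q * a₁) := by
    rw [← residue_ne_zero_iff_isUnit, map_sub, map_mul, hres1, one_mul]
    exact sub_ne_zero.mpr hne
  have hu1 : IsUnit (a₁ - q * a₀) := by
    rw [← residue_ne_zero_iff_isUnit, map_sub, map_mul, hres1, one_mul]
    exact sub_ne_zero.mpr (Ne.symm hne)
  -- the eigenvalues are units
  have hφinv : r φ * r φ⁻¹ = 1 := by rw [← map_mul, mul_inv_cancel, map_one]
  have hφinv' : r φ⁻¹ * r φ = 1 := by rw [← map_mul, inv_mul_cancel, map_one]
  have hdetφ : IsUnit (a₀ * a₁) := by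
    have h1 : IsUnit (r φ).det := by
      have := congrArg Matrix.det hφinv
      rw [Matrix.det_mul, Matrix.det_one] at this
      exact IsUnit.of_mul_eq_one _ this
    rwa [hrφ, Matrix.det_fin_two_of, mul_zero, sub_zero] at h1
  have ha₀ : IsUnit a₀ := isUnit_of_mul_isUnit_left hdetφ
  have ha₁ : IsUnit a₁ := isUnit_of_mul_isUnit_right hdetφ
  -- the tame relation in the form `F T = T^q F`
  have hrel : ∀ τ ∈ P.inertiaSubgroupIn ℚ, r φ * r τ = r τ ^ q * r φ := by
    intro τ hτ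
    have h := rel_frob_h59 hr hp hpA hq hqne hP hres hφ hτ
    rw [map_mul, map_mul] at h
    calc r φ * r τ = r φ * r τ * (r φ⁻¹ * r φ) := by rw [hφinv', mul_one]
      _ = (r φ * r τ * r φ⁻¹) * r φ := by simp only [mul_assoc]
      _ = r τ ^ q * r φ := by rw [h]
  -- inertia is diagonal
  have key1 : ∀ τ ∈ P.inertiaSubgroupIn ℚ, r τ 0 1 = 0 ∧ r τ 1 0 = 0 := by
    intro τ hτ
    have h := hrel τ hτ
    rw [hrφ] at h
    have h01 := congrFun (congrFun h 0) 1
    have h10 := congrFun (congrFun h 1) 0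
    simp only [Matrix.mul_apply, Fin.sum_univ_two, Matrix.of_apply, Matrix.cons_val_zero,
      Matrix.cons_val_one, Matrix.cons_val', Matrix.cons_val_fin_one, mul_zero, zero_mul,
      add_zero, zero_add] at h01 h10
    exact offdiag_eq_zero_h59 (hres τ hτ) h01 h10 hu0 hu1
  have hresd : ∀ τ ∈ P.inertiaSubgroupIn ℚ, ∀ i, r τ i i - 1 ∈ maximalIdeal A := by
    intro τ hτ i
    have := hres τ hτ i i
    simpa using this
  -- the decomposition group is diagonal
  have key2 : ∀ σ ∈ P.decompositionSubgroup ℚ, r σ 0 1 = 0 ∧ r σ 1 0 = 0 := by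
    intro σ hσ
    have hτ' := comm_frob_mem_inertia_h59 hσ hφ
    obtain ⟨τ', hτ'def⟩ : ∃ τ' : GQ, τ' = σ * φ * σ⁻¹ * φ⁻¹ := ⟨_, rfl⟩
    rw [← hτ'def] at hτ'
    have hgrp : σ * φ = τ' * φ * σ := by rw [hτ'def]; group
    have h := congrArg r hgrp
    rw [map_mul, map_mul, map_mul, hrφ] at h
    obtain ⟨t01, t10⟩ := key1 τ' hτ'
    have h01 := congrFun (congrFun h 0) 1
    have h10 := congrFun (congrFun h 1) 0
    simp only [Matrix.mul_apply, Fin.sum_univ_two, Matrix.of_apply, Matrix.cons_val_zero,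
      Matrix.cons_val_one, Matrix.cons_val', Matrix.cons_val_fin_one, mul_zero, zero_mul,
      add_zero, zero_add, t01, t10] at h01 h10
    have d0 := hresd τ' hτ' 0
    have d1 := hresd τ' hτ' 1
    have hres0 : residue A (r τ' 0 0) = 1 := by
      rw [← sub_eq_zero, ← map_one (residue A), ← map_sub]
      exact (residue_eq_zero_iff _).mpr d0
    have hres1' : residue A (r τ' 1 1) = 1 := by
      rw [← sub_eq_zero, ← map_one (residue A), ← map_sub]
      exact (residue_eq_zero_iff _).mpr d1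
    have hv0 : IsUnit (a₁ - r τ' 0 0 * a₀) := by
      rw [← residue_ne_zero_iff_isUnit, map_sub, map_mul, hres0, one_mul]
      exact sub_ne_zero.mpr (Ne.symm hne)
    have hv1 : IsUnit (a₀ - r τ' 1 1 * a₁) := by
      rw [← residue_ne_zero_iff_isUnit, map_sub, map_mul, hres1', one_mul]
      exact sub_ne_zero.mpr hne
    constructor
    · have : (a₁ - r τ' 0 0 * a₀) * r σ 0 1 = 0 := by linear_combination h01
      exact (hv0.mul_right_eq_zero).mp this
    · have : (a₀ - r τ' 1 1 * a₁) * r σ 1 0 = 0 := by linear_combination h10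
      exact (hv1.mul_right_eq_zero).mp this
  have hmul : ∀ τ ∈ P.inertiaSubgroupIn ℚ, r τ 0 0 * r τ 1 1 = 1 := by
    intro τ hτ
    have h := hdet τ hτ
    rw [Matrix.det_fin_two, (key1 τ hτ).1, zero_mul, sub_zero] at h
    exact h
  have hpow : ∀ τ ∈ P.inertiaSubgroupIn ℚ, ∀ i, r τ i i ^ p ^ padicValNat p (q - 1) = 1 := by
    intro τ hτ i
    obtain ⟨t01, t10⟩ := key1 τ hτ
    have h := hrel τ hτ
    rw [hrφ] at h
    have h00 := congrFun (congrFun h 0) 0
    have h11 := congrFun (congrFun h 1) 1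
    simp only [Matrix.mul_apply, Fin.sum_univ_two, Matrix.of_apply, Matrix.cons_val_zero,
      Matrix.cons_val_one, Matrix.cons_val', Matrix.cons_val_fin_one, mul_zero, zero_mul,
      add_zero, zero_add, t01, t10] at h00 h11
    have hii : ∀ i : Fin 2, r τ i i ^ q = r τ i i := by
      rw [Fin.forall_fin_two]
      constructor
      · rw [← pow_apply_diag_h59 t01 t10 q 0]
        have : a₀ * ((r τ ^ q) 0 0 - r τ 0 0) = 0 := by linear_combination -h00
        exact sub_eq_zero.mp ((ha₀.mul_right_eq_zero).mp this)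
      · rw [← pow_apply_diag_h59 t01 t10 q 1]
        have : a₁ * ((r τ ^ q) 1 1 - r τ 1 1) = 0 := by linear_combination -h11
        exact sub_eq_zero.mp ((ha₁.mul_right_eq_zero).mp this)
    have hunit : IsUnit (r τ i i) := by
      have h2 := hmul τ hτ
      have hall : ∀ i : Fin 2, IsUnit (r τ i i) := by
        rw [Fin.forall_fin_two]
        exact ⟨IsUnit.of_mul_eq_one _ h2, IsUnit.of_mul_eq_one _ (by rw [mul_comm]; exact h2)⟩
      exact hall i
    have hq1' : r τ i i ^ (q - 1) = 1 := by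
      have h1 : r τ i i * r τ i i ^ (q - 1) = r τ i i * 1 := by
        rw [← pow_succ', mul_one]
        have : q - 1 + 1 = q := by omega
        rw [this]; exact hii i
      exact hunit.mul_left_cancel h1
    have hqm : q - 1 ≠ 0 := by have := hq.two_le; omega
    exact pow_ppart_eq_one_h59 hp hpA (hresd τ hτ i) hqm hq1'
  refine ⟨key2, ?_, hresd, hmul, hpow, ?_⟩
  · -- Frobenius
    intro φ' hφ'
    have hτ := mul_inv_mem_inertia_of_isFrobeniusAt hφ hφ'
    obtain ⟨τ, hτdef⟩ : ∃ τ : GQ, τ = φ' * φ⁻¹ := ⟨_, rfl⟩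
    rw [← hτdef] at hτ
    have hgrp : φ' = τ * φ := by rw [hτdef]; group
    have h := congrArg r hgrp
    rw [map_mul, hrφ] at h
    obtain ⟨t01, t10⟩ := key1 τ hτ
    have h00 := congrFun (congrFun h 0) 0
    have h11 := congrFun (congrFun h 1) 1
    simp only [Matrix.mul_apply, Fin.sum_univ_two, Matrix.of_apply, Matrix.cons_val_zero,
      Matrix.cons_val_one, Matrix.cons_val', Matrix.cons_val_fin_one, mul_zero, zero_mul,
      add_zero, zero_add, t01, t10] at h00 h11
    have hres0 : residue A (r τ 0 0) = 1 := by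
      rw [← sub_eq_zero, ← map_one (residue A), ← map_sub]
      exact (residue_eq_zero_iff _).mpr (hresd τ hτ 0)
    have hres1' : residue A (r τ 1 1) = 1 := by
      rw [← sub_eq_zero, ← map_one (residue A), ← map_sub]
      exact (residue_eq_zero_iff _).mpr (hresd τ hτ 1)
    rw [h00, h11, map_mul, map_mul, hres0, hres1', one_mul, one_mul]
    exact ⟨rfl, rfl⟩
  · -- cyclicity
    set v := padicValNat p (q - 1) with hv
    let f : GQ →* (M2 A)ˣ := r.toHomUnits
    have hf : ∀ σ, ((f σ : (M2 A)ˣ) : M2 A) = r σ := fun σ => rfl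
    have hfpow : ∀ (σ : GQ) (k : ℕ), f σ ^ k = 1 ↔ r σ ^ k = 1 := by
      intro σ k
      rw [Units.ext_iff, Units.val_pow_eq_pow_val, hf, Units.val_one]
    set H : Subgroup (M2 A)ˣ := (P.inertiaSubgroupIn ℚ).map f with hH
    have hcomm : ∀ x ∈ H, ∀ y ∈ H, x * y = y * x := by
      rintro _ ⟨σ, hσ, rfl⟩ _ ⟨τ, hτ, rfl⟩
      apply Units.ext
      rw [Units.val_mul, Units.val_mul, hf, hf]
      exact rel_comm_h59 hr hp hpA hq hqne hP hres hσ hτ
    have hexp : ∀ x ∈ H, x ^ p ^ v = 1 := by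
      rintro _ ⟨σ, hσ, rfl⟩
      rw [hfpow]
      exact pow_eq_one_of_diag_h59 (key1 σ hσ).1 (key1 σ hσ).2 (hpow σ hσ)
    have huniq : ∀ x ∈ H, ∀ y ∈ H, x ^ p = 1 → y ^ p = 1 → y ≠ 1 → ∃ j : ℕ, x = y ^ j := by
      rintro _ ⟨σ, hσ, rfl⟩ _ ⟨τ, hτ, rfl⟩ hσp hτp hne1
      rw [hfpow] at hσp hτp
      have hne' : r τ ≠ 1 := by
        intro h
        apply hne1
        apply Units.ext
        rw [hf, h, Units.val_one]
      obtain ⟨j, -, hj⟩ := exists_pow_eq_of_pow_prime_h59 hr hp hpA hq hqne hP hres hσ hτ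
        hσp hτp hne'
      refine ⟨j, ?_⟩
      apply Units.ext
      rw [Units.val_pow_eq_pow_val, hf, hf, hj]
    obtain ⟨y, ⟨τ, hτ, rfl⟩, hy⟩ := exists_generator_h59 H hcomm hexp huniq
    refine ⟨τ, hτ, fun σ hσ => ?_⟩
    obtain ⟨k, hk⟩ := hy (f σ) ⟨σ, hσ, rfl⟩
    refine ⟨k, fun i => ?_⟩
    have h1 : r σ = r τ ^ k := by
      have := congrArg (fun u : (M2 A)ˣ => (u : M2 A)) hk
      simpa [Units.val_pow_eq_pow_val, hf] using this
    rw [h1, pow_apply_diag_h59 (key1 τ hτ).1 (key1 τ hτ).2]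

end main

end Fermat.Agent.S59.H59

end
-- ===== PACK-END S59/H59/TWGalMat.lean

-- ===== PACK-BEGIN S59/TW/H95/Alg.lean
section



/-!
# S59 / cell TW / Layer 2, leaf ALG (helper95)

`theorem alg : Fermat.Agent.S59.TW.AlgStatement` — VERBATIM, unconditional.

Proof.  `V` is `𝒪`-free on the `dia (g^e) b_i`.  By `hrange`, `∑_j (w_j - 1) V = ∑_j (X_j - 1) V`
(`X_j = dia g_j`), so `V = ∑ 𝒪 b_i + ∑_j (w_j - 1) V`.  As `(w_j - 1)^(p^(m_j)) ∈ p T` and
`p ∈ Jac 𝒪`, Nakayama gives that the `w^e b_i` span `V`; they are as many as the rank, so they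
form an `𝒪`-basis (Orzech).  Folding the exponents modulo `p^n` gives `IsGroupRingBasis`.
(`hX`, `IsDomain 𝒪`, `CharZero 𝒪` are not used.)
-/

set_option autoImplicit false

namespace Fermat.Agent.S59.TW.H95

open Fermat.Agent.S59.TW Fermat.Agent.S59.TW.H959

theorem alg : AlgStatement := by
  intro p hp hp2 𝒪 _ _ _ hpJ T _ _ V _ _ r G _ m n hn dia g _hX d b hb w hw hrange
  classical
  letI : Module 𝒪 V := Module.compHom V (algebraMap 𝒪 T)
  haveI : IsScalarTower 𝒪 T V := IsScalarTower.of_algebraMap_smul fun _ _ => rfl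
  -- the `X`-basis
  set vX : Fin d × (∀ j : Fin r, Fin (p ^ m j)) → V :=
    fun x => dia (fun j => g j ^ (x.2 j : ℕ)) (b x.1) with hvX
  have hli : LinearIndependent 𝒪 vX := by
    rw [Fintype.linearIndependent_iff]
    intro c hc x
    obtain ⟨c0, -, huniq⟩ := hb 0
    have h1 : (fun i e => c (i, e)) = c0 := by
      refine huniq _ ?_
      rw [← hc, Fintype.sum_prod_type]
      rfl
    have h2 : (fun (_ : Fin d) (_ : ∀ j : Fin r, Fin (p ^ m j)) => (0 : 𝒪)) = c0 := by
      refine huniq _ ?_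
      simp
    exact congrFun (congrFun (h1.trans h2.symm) x.1) x.2
  have hsp : ⊤ ≤ Submodule.span 𝒪 (Set.range vX) := by
    intro y _
    obtain ⟨c, hc, -⟩ := hb y
    rw [hc]
    refine Submodule.sum_mem _ fun i _ => Submodule.sum_mem _ fun e _ => ?_
    exact Submodule.smul_mem _ (c i e) (Submodule.subset_span ⟨(i, e), rfl⟩)
  set BX : Module.Basis (Fin d × (∀ j : Fin r, Fin (p ^ m j))) 𝒪 V := Module.Basis.mk hli hsp
    with hBXdef
  have hBXv : ∀ x, BX x = vX x := fun x => by rw [hBXdef, Module.Basis.mk_apply]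
  -- `X^e y - y ∈ ∑ (w_j - 1) V`
  set S : Submodule 𝒪 V := ⨆ j, LinearMap.range (mulT95 𝒪 V (w j - 1)) with hS
  let Z : Submonoid (∀ j : Fin r, G j) :=
    { carrier := {h | ∀ y : V, dia h y - y ∈ S}
      one_mem' := fun y => by
        rw [map_one, Module.End.one_apply, sub_self]; exact S.zero_mem
      mul_mem' := fun {h h'} hh hh' y => by
        have : dia (h * h') y - y = (dia h (dia h' y) - dia h' y) + (dia h' y - y) := by
          rw [map_mul, Module.End.mul_apply]; abel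
        rw [this]
        exact S.add_mem (hh _) (hh' _) }
  have hZ1 : ∀ j, Pi.mulSingle j (g j) ∈ Z := by
    intro j y
    obtain ⟨y', hy'⟩ := (hrange j (dia (Pi.mulSingle j (g j)) y - y)).mpr ⟨y, rfl⟩
    rw [hy']
    refine Submodule.mem_iSup_of_mem j ⟨y', ?_⟩
    rw [mulT95_apply, sub_smul, one_smul]
  have hZ : ∀ e : (∀ j : Fin r, Fin (p ^ m j)), (fun j => g j ^ (e j : ℕ)) ∈ Z := by
    intro e
    have : (fun j => g j ^ (e j : ℕ)) = ∏ j, (Pi.mulSingle j (g j)) ^ (e j : ℕ) := by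
      rw [← Finset.univ_prod_mulSingle (fun j => g j ^ (e j : ℕ))]
      refine Finset.prod_congr rfl fun j _ => ?_
      exact map_pow (MonoidHom.mulSingle G j) (g j) _
    rw [this]
    exact Submonoid.prod_mem _ fun j _ => Submonoid.pow_mem _ (hZ1 j) _
  have hBX : ∀ x, BX x - b x.1 ∈ S := fun x => by
    rw [hBXv]
    exact hZ x.2 (b x.1)
  -- nilpotence of `w_j - 1` modulo `p`
  have hk : ∀ j, ∃ t : T, (w j - 1) ^ (p ^ m j) = algebraMap 𝒪 T (p : 𝒪) * t := by
    intro j
    obtain ⟨t, ht⟩ := exists_sub_one_pow_eq_h95 hp hp2 (w j) (m j) (hw j)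
    exact ⟨t, by rw [ht, map_natCast]⟩
  have hq : ∀ j : Fin r, 0 < p ^ m j := fun j => pow_pos hp.pos _
  obtain ⟨BW, hBW⟩ := exists_basis_w_h95 (p : 𝒪) hpJ w (fun j => p ^ m j) (fun j => p ^ m j)
    hq hw hk b BX hBX
  exact ⟨fun x => fold_exists_h95 w (fun j => p ^ m j) (p ^ n) (pow_pos hp.pos _) b BW hBW x,
    fun c hc => fold_unique_h95 w (fun j => p ^ m j) hq hw (p ^ n) (pow_pos hp.pos _)
      (fun j => pow_dvd_pow p (hn j)) b BW hBW c hc⟩

example : AlgStatement := alg

end Fermat.Agent.S59.TW.H95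

end
-- ===== PACK-END S59/TW/H95/Alg.lean

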