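import Mathlib
import Fermat.Prelude.Def_ModularForm_HeckeOperator
import Fermat.Prelude.Def_ModularCurve_LaurentCoeff
import Fermat.Agent.Pack.S43MC.G0E16L3
import Fermat.Agent.Pack.S43MC.G0E0L0
import Fermat.Agent.Pack.S43MC.G0E5L3
import Fermat.Agent.Pack.S43MC.G0E16L2
import Fermat.Agent.Pack.S43MC.G0E17L2
import Fermat.Agent.Pack.S43MC.G0E11L1
import Fermat.Agent.Pack.S43MC.G0E9L3
import Fermat.Agent.Pack.S43MC.G0E15L3
import Fermat.Agent.Pack.S43MC.G0E16L1
import Fermat.Agent.Pack.S43MC.G0E13L2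
import Fermat.Agent.Pack.S43MC.G0E13L0
import Fermat.Agent.Pack.S44C.G0E13L0
import Fermat.Agent.Pack.S44C.G0E20L3
import Fermat.Agent.Pack.S43MC.G0E17L0
import Fermat.Agent.Pack.S43MC.G0E14L3
import Fermat.Agent.Pack.S43MC.G0E14L2
import Fermat.Agent.Pack.S43MC.G0E17L3
import Fermat.Agent.Pack.S43MC.G0E7L0
import Fermat.Agent.Pack.S43MC.G0E17L1
import Fermat.Agent.Pack.S44C.G0E18L1
import Fermat.Agent.Pack.S43MC.G0E7L3
import Fermat.Agent.Pack.Fast891

-- ===== PACK-BEGIN Lib/Newform/H743/ALq.lean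
section




/-!
# NEWFORM library (helper743), part 5: integral matrices in `GL₂(ℝ)` and the slash action

`intGL a b c d` is the matrix `[a, b; c, d]` (integers, nonzero determinant) as an element of
`GL₂(ℝ)` coming from `GL₂(ℚ)`; slashing with it preserves cuspidality.  We record how slashing
interacts with scalars, with `B_d : F ↦ F(d τ)` and with scalar matrices.
-/

set_option autoImplicit false

open UpperHalfPlane ModularForm Function Complex CongruenceSubgroup Matrix.SpecialLinearGroup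
open scoped MatrixGroups ModularForm Manifold Topology Real

namespace Fermat.Agent.Lib.Newform.H743

open Fermat.Agent.Lib.Newform.H803

noncomputable section

/-- `[a, b; c, d]` as an element of `GL₂(ℚ)`. -/
def intGLQ (a b c d : ℤ) (h : a * d - b * c ≠ 0) : GL (Fin 2) ℚ :=
  Matrix.GeneralLinearGroup.mkOfDetNeZero !![(a : ℚ), (b : ℚ); (c : ℚ), (d : ℚ)]
    (by rw [Matrix.det_fin_two_of]; exact_mod_cast h)

/-- `[a, b; c, d]` as an element of `GL₂(ℝ)`. -/
def intGL (a b c d : ℤ) (h : a * d - b * c ≠ 0) : GL (Fin 2) ℝ :=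
  (intGLQ a b c d h).map (Rat.castHom ℝ)

@[simp] theorem val_intGL (a b c d : ℤ) (h : a * d - b * c ≠ 0) :
    ((intGL a b c d h : GL (Fin 2) ℝ) : Matrix (Fin 2) (Fin 2) ℝ) =
      !![(a : ℝ), (b : ℝ); (c : ℝ), (d : ℝ)] := by
  ext i j
  fin_cases i <;> fin_cases j <;> simp [intGL, intGLQ]

theorem det_intGL (a b c d : ℤ) (h : a * d - b * c ≠ 0) :
    ((intGL a b c d h).det : ℝ) = a * d - b * c := by
  rw [Matrix.GeneralLinearGroup.val_det_apply, val_intGL, Matrix.det_fin_two_of]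

theorem σ_intGL (a b c d : ℤ) (h : a * d - b * c ≠ 0) (hpos : 0 < a * d - b * c) :
    UpperHalfPlane.σ (intGL a b c d h) = .refl ℝ ℂ := by
  rw [UpperHalfPlane.σ, if_pos]
  rw [det_intGL]
  exact_mod_cast hpos

theorem isCuspidal_slash_intGL {k : ℤ} {F : ℍ → ℂ} (hF : IsCuspidal k F) (a b c d : ℤ)
    (h : a * d - b * c ≠ 0) : IsCuspidal k (F ∣[k] intGL a b c d h) :=
  hF.slash_rat _

/-- Slashing commutes with scalars for matrices of positive determinant. -/
theorem smul_slash_of_σ {k : ℤ} (A : GL (Fin 2) ℝ) (hA : UpperHalfPlane.σ A = .refl ℝ ℂ)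
    (c : ℂ) (F : ℍ → ℂ) : (c • F) ∣[k] A = c • (F ∣[k] A) := by
  rw [ModularForm.smul_slash, hA]
  rfl

/-- The operator `B_d : F ↦ F(d τ)`. -/
def Bd (d : ℕ) (F : ℍ → ℂ) : ℍ → ℂ := fun τ => F (heckeDiagMatrix d • τ)

theorem Bd_apply (d : ℕ) (F : ℍ → ℂ) (τ : ℍ) : Bd d F τ = F (heckeDiagMatrix d • τ) := rfl

theorem slash_heckeDiagMatrix_eq_smul_Bd (k : ℤ) {d : ℕ} (hd : d ≠ 0) (F : ℍ → ℂ) :
    F ∣[k] heckeDiagMatrix d = ((d : ℂ) ^ (k - 1)) • Bd d F := by
  funext τ
  rw [slash_heckeDiagMatrix_apply k hd]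
  rfl

theorem Bd_eq_smul_slash (k : ℤ) {d : ℕ} (hd : d ≠ 0) (F : ℍ → ℂ) :
    Bd d F = ((d : ℂ) ^ (k - 1))⁻¹ • (F ∣[k] heckeDiagMatrix d) := by
  have hd' : ((d : ℂ) ^ (k - 1)) ≠ 0 := zpow_ne_zero _ (by exact_mod_cast hd)
  rw [slash_heckeDiagMatrix_eq_smul_Bd k hd, smul_smul, inv_mul_cancel₀ hd', one_smul]

/-- If `diag(d,1) * A = A' * diag(d,1)` then `(B_d G) ∣ A = B_d (G ∣ A')`. -/
theorem Bd_slash_of_comm (k : ℤ) {d : ℕ} (hd : d ≠ 0) (A A' : GL (Fin 2) ℝ)
    (hA : UpperHalfPlane.σ A = .refl ℝ ℂ)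
    (hcomm : heckeDiagMatrix d * A = A' * heckeDiagMatrix d) (G : ℍ → ℂ) :
    (Bd d G) ∣[k] A = Bd d (G ∣[k] A') := by
  rw [Bd_eq_smul_slash k hd G, smul_slash_of_σ A hA, ← SlashAction.slash_mul, hcomm,
    SlashAction.slash_mul, ← Bd_eq_smul_slash k hd]

/-- The `q`-series of `B_d H`. -/
theorem HasQ.Bd {c : ℕ → ℂ} {H : ℍ → ℂ} (h : HasQ c H) {d : ℕ} (hd : d ≠ 0) :
    HasQ (fun n => if d ∣ n then c (n / d) else 0) (Bd d H) :=
  h.comp_diag hd

end

end Fermat.Agent.Lib.Newform.H743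

end
-- ===== PACK-END Lib/Newform/H743/ALq.lean

-- ===== PACK-BEGIN S25/H146/SheafGlue.lean
section
/-
S25 helper (helper146), assembly AS6, part 8: **SHEAF-GLUE**.

`Stmt.SheafGlue c ε`: rigidified line bundles on `C ×ₖ U i` (for a Zariski cover `U i` of `T`)
which are isomorphic on the overlaps glue to a rigidified line bundle on `C ×ₖ T`.  No cocycle
condition is needed: the isomorphisms on the overlaps are normalised with respect to the
rigidifications, and normalised isomorphisms are unique (`Γ(C ×ₖ U, 𝒪) = Γ(U, 𝒪)`).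

Proof: push the bundles forward to `X = C ×ₖ T` along the open immersions `C ×ₖ U i ⟶ X`
(OpenImm.lean), glue sectionwise (GlueRigid.lean, on top of `H326.exists_glue`), and obtain the
rigidification of the glued module from the glued evaluation (`H326.nonempty_iso_of_isRigidifying`).
-/








set_option autoImplicit false

universe u

noncomputable section

open CategoryTheory CategoryTheory.Limits AlgebraicGeometry AlgebraicGeometry.RelPicard
  NeronModelInfra TopologicalSpace Opposite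

namespace Fermat.Agent.S25.H146

open Fermat.Agent.S25.H626
open Fermat.Agent.S25.H326 (LocHom funMod)

section BaseChange

variable {k : Type u} [Field k] {C : Scheme.{u}} (c : C ⟶ Spec (CommRingCat.of k))
  {T : Scheme.{u}} (t : T ⟶ Spec (CommRingCat.of k))

/-- `C ×ₖ U' ⟶ C ×ₖ U ⟶ C ×ₖ T` is `C ×ₖ U' ⟶ C ×ₖ T`, for opens `U' ≤ U` of `T`. -/
theorem baseChangeSnd_homOfLE_comp_openBC {U U' : T.Opens} (h : U' ≤ U)
    (hp : T.homOfLE h ≫ (U.ι ≫ t) = U'.ι ≫ t) :
    baseChangeSnd c (⟨T.homOfLE h, hp⟩ : SchemeHomOver (U'.ι ≫ t) (U.ι ≫ t)) ≫ openBC c t U =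
      openBC c t U' := by
  unfold openBC
  rw [baseChangeSnd_comp]
  congr 1
  apply Subtype.ext
  exact T.homOfLE_ι h

end BaseChange

section Main

variable (k : Type u) [Field k] [IsAlgClosed k] {C : Scheme.{u}}
  (c : C ⟶ Spec (CommRingCat.of k)) [IsProper c] [IsIntegral C]
  (ε : SchemeHomOver (𝟙 (Spec (CommRingCat.of k))) c)

/-- F5 in the form needed for gluing: restriction of functions along the rigidifying section
is bijective over every open of the form `pr₂⁻¹ U`. -/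
theorem restrictionBijective_preimage {T : Scheme.{u}} (t : T ⟶ Spec (CommRingCat.of k))
    (U : T.Opens) :
    RestrictionBijective (rigSection c t ε) ((pullback.snd c t) ⁻¹ᵁ U) :=
  ⟨U, (H205.rigSection_preimage_snd_preimage c t ε U).ge,
    (H205.rigSection_preimage_snd_preimage c t ε U).le, H205.rigRestrict_bijective k c t ε U⟩

/-- **SHEAF-GLUE** (frozen interface `Stmt.SheafGlue` of `Fermat/Agent/S25/Defs.lean`):
rigidified line bundles glue along a Zariski cover of the base as soon as they are isomorphic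
on the pairwise overlaps. -/
theorem sheafGlue : Stmt.SheafGlue c ε := by
  intro T t ι U hU M hloc
  -- notation
  set σ : T ⟶ pullback c t := rigSection c t ε with hσ
  set π : pullback c t ⟶ T := pullback.snd c t with hπ
  let g : ∀ i, pullback c ((U i).ι ≫ t) ⟶ pullback c t := fun i => openBC c t (U i)
  have hrange : ∀ i, (g i).opensRange = π ⁻¹ᵁ (U i) := fun i => opensRange_openBC c t (U i)
  have hsq : ∀ i, rigSection c ((U i).ι ≫ t) ε ≫ g i = (U i).ι ≫ σ := fun i =>
    rigSection_baseChangeSnd c ε (⟨(U i).ι, rfl⟩ : SchemeHomOver ((U i).ι ≫ t) t)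
  have hσπ : ∀ U' : T.Opens, σ ⁻¹ᵁ (π ⁻¹ᵁ U') = U' := fun U' =>
    H205.rigSection_preimage_snd_preimage c t ε U'
  have hcover : ⨆ i, π ⁻¹ᵁ (U i) = ⊤ := by
    rw [← Scheme.Hom.preimage_iSup, hU]
    rfl
  -- the pushforwards
  let P : ι → (pullback c t).Modules := fun i =>
    (Scheme.Modules.pushforward (g i)).obj (M i).L
  have hP : ∀ i, _root_.Fermat.Agent.S25.H146.HasLocalGeneratorsOn (P i) (π ⁻¹ᵁ (U i)) := fun i =>
    hasLocalGeneratorsOn_mono
      (_root_.Fermat.Agent.S25.H146.hasLocalGeneratorsOn_pushforward (g i) (M i).L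
        (hasLocalGenerators_of_isInvertible (M i).isInvertible))
      (hrange i).ge
  -- the local evaluations
  have hev : ∀ i, ∃ e : LocHom (π ⁻¹ᵁ (U i)) (P i) (funMod σ), LocUnitOnGen e := fun i =>
    exists_locEval_of_rigidification (U i) σ (g i) (rigSection c ((U i).ι ≫ t) ε) (hsq i)
      (M i).L (M i).rigidified.some (π ⁻¹ᵁ (U i)) (hσπ (U i)).le
  choose e he using hev
  -- the sectionwise isomorphisms on the overlaps
  have hθ : ∀ i j, ∃ f : LocHom (π ⁻¹ᵁ (U i) ⊓ π ⁻¹ᵁ (U j)) (P i) (P j), LocBij f := by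
    intro i j
    obtain ⟨φ⟩ := hloc i j
    exact exists_locBij_of_pullback_iso (g i) (g j) (openBC c t (U i ⊓ U j)) _ _
      (baseChangeSnd_homOfLE_comp_openBC c t inf_le_left _)
      (baseChangeSnd_homOfLE_comp_openBC c t inf_le_right _)
      (M i).L (M j).L φ _ (opensRange_openBC c t (U i ⊓ U j)).ge
  -- glue
  obtain ⟨M₀, ev, f, hfb, -, hrig⟩ := exists_glue_rigid σ (fun i => π ⁻¹ᵁ (U i)) hcover
    (fun i j => restrictionBijective_preimage k c ε t (U i ⊓ U j))
    (fun i j l => restrictionBijective_preimage k c ε t (U i ⊓ U j ⊓ U l))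
    P hP e he hθ
  -- the restrictions of the glued module
  have hiso : ∀ i, Nonempty ((Scheme.Modules.pullback (g i)).obj M₀ ≅ (M i).L) := fun i =>
    nonempty_iso_of_locBij (g i) ((f i).restrict (hrange i).le)
      (locBij_restrict (hfb i) (hrange i).le)
  have hcov : ∀ x : ↥(pullback c t), ∃ i, x ∈ Set.range (g i) := by
    intro x
    have hx : x ∈ ⨆ i, π ⁻¹ᵁ (U i) := by rw [hcover]; trivial
    obtain ⟨i, hi⟩ := Opens.mem_iSup.mp hx
    have hi' : x ∈ (g i).opensRange := by rw [hrange i]; exact hi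
    exact ⟨i, hi'⟩
  have hinv : Scheme.Modules.IsInvertible M₀ :=
    H206.isInvertible_of_openImmersion_cover M₀ (fun i => pullback c ((U i).ι ≫ t)) g hcov
      (fun i => H206.isInvertible_of_iso (hiso i).some.symm (M i).isInvertible)
  exact ⟨⟨M₀, hinv, H326.nonempty_iso_of_isRigidifying ev hrig⟩, hiso⟩

end Main

end Fermat.Agent.S25.H146

end
end
-- ===== PACK-END S25/H146/SheafGlue.lean

-- ===== PACK-BEGIN S26/Pic/P4.lean
section



/-!
# Row S26, block PIC, P4: `Stmt.LocalOnBase` for the Čech model, formal half (helper347)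

`SectionsOnProduct K` : for `W` proper and geometrically integral over `K`, functions on
`pr₁⁻¹ U ⊆ X ×_K W` are the functions on `U` (= S25 `H205.isIso_snd_app` up to symmetry).
`localOnBase_of_sections : SectionsOnProduct K → Stmt.LocalOnBase cechPic K`.
-/

set_option autoImplicit false

open AlgebraicGeometry CategoryTheory CategoryTheory.Limits TopologicalSpace Opposite

universe u

namespace Fermat.Agent.S26.Pic

noncomputable section

/-- Functions on `pr₁⁻¹ U ⊆ X ×_K W` are the functions on `U`, for `W` proper and geometrically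
integral over `K`. -/
def SectionsOnProduct (K : Type u) [Field K] : Prop :=
  ∀ (X W : Scheme.{u}) (x : X ⟶ Spec (CommRingCat.of K)) (w : W ⟶ Spec (CommRingCat.of K))
    [IsProper w] [GeometricallyIntegral w] (U : X.Opens),
    Function.Bijective ((pullback.fst x w).app U).hom

section Units

variable {P X : Scheme.{u}} (π : P ⟶ X)

lemma pull_eq_units_map_app (U : X.Opens) :
    pull π (le_refl (π ⁻¹ᵁ U)) = Units.map (π.app U).hom.toMonoidHom := by
  ext a
  simp only [pull, Units.coe_map, MonoidHom.coe_coe]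
  rw [Scheme.Hom.app_eq_appLE]
  rfl

lemma pull_injective_of_bijective (U : X.Opens) (h : Function.Bijective (π.app U).hom) :
    Function.Injective (pull π (le_refl (π ⁻¹ᵁ U))) := by
  rw [pull_eq_units_map_app]
  exact Units.map_injective h.1

lemma pull_surjective_of_bijective (U : X.Opens) (h : Function.Bijective (π.app U).hom) :
    Function.Surjective (pull π (le_refl (π ⁻¹ᵁ U))) := by
  rw [pull_eq_units_map_app]
  intro b
  let e := RingEquiv.ofBijective (π.app U).hom h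
  refine ⟨Units.map e.symm.toRingHom.toMonoidHom b, ?_⟩
  apply Units.ext
  simp only [Units.coe_map, MonoidHom.coe_coe]
  exact e.apply_symm_apply _

end Units

variable {K : Type u} [Field K]

lemma inl_fst {X W : Scheme.{u}} (x : X ⟶ Spec (CommRingCat.of K))
    (w : W ⟶ Spec (CommRingCat.of K)) (w₀ : KPt w) :
    inl x w w₀ ≫ pullback.fst x w = 𝟙 X := by
  rw [inl, pullback.lift_fst]

lemma range_prodMapLeft {X W : Scheme.{u}} (x : X ⟶ Spec (CommRingCat.of K))
    (w : W ⟶ Spec (CommRingCat.of K)) (U : X.Opens) :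
    Set.range (prodMapLeft x (U.ι ≫ x) w U.ι rfl) = pullback.fst x w ⁻¹' (U : Set X) := by
  rw [prodMapLeft, Scheme.Pullback.range_map]
  simp

/-- **P4, formal half.** -/
theorem localOnBase_of_sections [IsAlgClosed K] (hGS : SectionsOnProduct K) :
    Stmt.LocalOnBase cechPic.{u} K := by
  intro X W x w _ _ w₀ N hN
  obtain ⟨c, rfl⟩ := cl_surjective N
  choose U hpU hU using hN
  have hj : ∀ p, IsOpenImmersion (prodMapLeft x ((U p).ι ≫ x) w (U p).ι rfl) := fun p => by
    unfold prodMapLeft; infer_instance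
  have hran : ∀ p, ((prodMapLeft x ((U p).ι ≫ x) w (U p).ι rfl).opensRange : Set _) =
      pullback.fst x w ⁻¹' (U p : Set X) := fun p => range_prodMapLeft x w (U p)
  choose V' hmem hle hV'r h H using fun p =>
    (map_cl_eq_zero_iff (prodMapLeft x ((U p).ι ≫ x) w (U p).ι rfl) c).mp (hU p)
  obtain ⟨d, hd⟩ := exists_descent (pullback.fst x w)
    (fun U => pull_injective_of_bijective _ U (hGS X W x w U))
    (fun U => pull_surjective_of_bijective _ U (hGS X W x w U))
    c U hpU (fun p => ↥(pullback ((U p).ι ≫ x) w))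
    (fun p v => prodMapLeft x ((U p).ι ≫ x) w (U p).ι rfl v)
    (fun p z hz => by
      have : z ∈ Set.range (prodMapLeft x ((U p).ι ≫ x) w (U p).ι rfl) := by
        rw [range_prodMapLeft]; exact hz
      exact this)
    V' hmem hle
    (fun p v z hz => by
      have := hV'r p v hz
      have h2 : z ∈ ((prodMapLeft x ((U p).ι ≫ x) w (U p).ι rfl).opensRange : Set _) := this
      rw [hran p] at h2
      exact h2)
    h H
  rw [hd, ← cechPic.map_comp (inl x w w₀), inl_fst, cechPic.map_id]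

end

end Fermat.Agent.S26.Pic

end
-- ===== PACK-END S26/Pic/P4.lean

-- ===== PACK-BEGIN S27/H325/TensorDegFam.lean
section
/-
S27 / GRP, sub-leaf TENSOR-DEG (helper325): degree, `Deg0` and `Rigidifiable` are compatible
with tensor products of gluing data, in the language of `S27/Spec.lean` (`IsTensor`).

* `isIso_tensorGD_of_isTensor` : `IsTensor G G' G'' → (tensorGD G G').IsIso G''`;
* `degree_of_isTensor` (**DEG-ADD**) : over a field, `IsTensor G G' G''` gives
  `G''.degree = G.degree + G'.degree`;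
* `deg0_tensorGD`, `deg0_dualGD`, `deg0_unit`, `deg0_of_isTensor`;
* `rigidifiable_tensorGD`, `rigidifiable_dualGD`, `rigidifiable_unit`,
  `rigidifiable_of_isTensor`.
-/





set_option autoImplicit false
set_option linter.style.haveILetI false
set_option linter.unusedSectionVars false

universe u

open scoped TensorProduct

namespace Fermat.Agent.S27.H325

open Fermat.Agent.S25 Fermat.Agent.S25.H10

noncomputable section

section General

variable {A R₀ R₁ R₀₁ : Type u} [CommRing A] [CommRing R₀] [CommRing R₁]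
    [CommRing R₀₁] [Algebra A R₀] [Algebra A R₁] [Algebra A R₀₁] [Algebra R₀ R₀₁]
    [Algebra R₁ R₀₁] [IsScalarTower A R₀ R₀₁] [IsScalarTower A R₁ R₀₁]

/-- The isomorphism `G ⊗ G' ≅ G''` defined by tensor maps. -/
def isoOfTensorMaps {G G' G'' : GlueDatum A R₀ R₁ R₀₁} (T : TensorMaps G G' G'') :
    GlueDatum.Iso (S25.H325.tensorGD G G') G'' where
  e₀ := LinearEquiv.ofBijective (TensorProduct.lift T.β₀) T.bijective₀
  e₁ := LinearEquiv.ofBijective (TensorProduct.lift T.β₁) T.bijective₁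
  e₀₁ := LinearEquiv.ofBijective (TensorProduct.lift T.β₀₁) T.bijective₀₁
  comm₀ := fun s => by
    show TensorProduct.lift T.β₀₁ (S25.H325.tensorRes (S := R₀₁) G.r₀ G'.r₀ s) =
      G''.r₀ (TensorProduct.lift T.β₀ s)
    induction s using TensorProduct.induction_on with
    | zero => simp
    | tmul a b =>
      rw [S25.H325.tensorRes_tmul, TensorProduct.lift.tmul, TensorProduct.lift.tmul, T.comm₀]
    | add a b ha hb => simp only [map_add, ha, hb]
  comm₁ := fun s => by
    show TensorProduct.lift T.β₀₁ (S25.H325.tensorRes (S := R₀₁) G.r₁ G'.r₁ s) =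
      G''.r₁ (TensorProduct.lift T.β₁ s)
    induction s using TensorProduct.induction_on with
    | zero => simp
    | tmul a b =>
      rw [S25.H325.tensorRes_tmul, TensorProduct.lift.tmul, TensorProduct.lift.tmul, T.comm₁]
    | add a b ha hb => simp only [map_add, ha, hb]

/-- A tensor product in the sense of `IsTensor` is isomorphic to `tensorGD`. -/
theorem isIso_tensorGD_of_isTensor {G G' G'' : GlueDatum A R₀ R₁ R₀₁}
    (h : IsTensor G G' G'') : (S25.H325.tensorGD G G').IsIso G'' := by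
  obtain ⟨T⟩ := h
  exact ⟨isoOfTensorMaps T⟩

end General

section Curve

variable {k : Type u} [Field k] {B₀ B₁ B₀₁ : Type u} [CommRing B₀] [CommRing B₁] [CommRing B₀₁]
  [Algebra k B₀] [Algebra k B₁] [Algebra k B₀₁] [Algebra B₀ B₀₁] [Algebra B₁ B₀₁]
  [IsScalarTower k B₀ B₀₁] [IsScalarTower k B₁ B₀₁]
  {x : B₀} {y : B₁} {e : B₁ →ₐ[k] k}

/-- **DEG-ADD**: over a field, the degree of a tensor product is the sum of the degrees. -/
theorem degree_of_isTensor [IsAlgClosed k] (hC : IsCurveChart k B₀ B₁ B₀₁ x y e)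
    {K : Type u} [Field K] [Algebra k K] {G G' G'' : CurveGD k B₀ B₁ B₀₁ K}
    (h : IsTensor G G' G'') : G''.degree = G.degree + G'.degree := by
  rw [← degree_tensorGD hC G G']
  exact (H265.degree_eq_of_isIso (isIso_tensorGD_of_isTensor h)).symm

variable {A : Type u} [CommRing A] [Algebra k A]

/-! ### `Deg0` -/

theorem deg0_unit :
    CurveGD.Deg0 (GlueDatum.unit A (A ⊗[k] B₀) (A ⊗[k] B₁) (A ⊗[k] B₀₁) :
      CurveGD k B₀ B₁ B₀₁ A) := by
  intro K _ _ φ G' hbc
  have h := H265.curveGD_isIso_of_isBC hbc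
    (S25.H325.curveGD_isBC_unit (B₀ := B₀) (B₁ := B₁) (B₀₁ := B₀₁) φ)
  rw [H265.degree_eq_of_isIso h]
  exact H565.D.degree_unit K

theorem deg0_tensorGD [IsAlgClosed k] (hC : IsCurveChart k B₀ B₁ B₀₁ x y e)
    {G G' : CurveGD k B₀ B₁ B₀₁ A} (h : G.Deg0) (h' : G'.Deg0) :
    CurveGD.Deg0 (S25.H325.tensorGD G G' : CurveGD k B₀ B₁ B₀₁ A) := by
  intro K _ _ φ G'' hbc
  obtain ⟨H, hH⟩ := H265.curveGD_exists_isBC φ G
  obtain ⟨H', hH'⟩ := H265.curveGD_exists_isBC φ G'
  have hi := H265.curveGD_isIso_of_isBC hbc (S25.H325.curveGD_isBC_tensorGD φ hH hH')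
  rw [H265.degree_eq_of_isIso hi, degree_tensorGD hC H H', h K φ H hH, h' K φ H' hH',
    add_zero]

theorem deg0_dualGD [IsAlgClosed k] (hC : IsCurveChart k B₀ B₁ B₀₁ x y e)
    {G : CurveGD k B₀ B₁ B₀₁ A} (h : G.Deg0) :
    CurveGD.Deg0 (S25.H325.dualGD G : CurveGD k B₀ B₁ B₀₁ A) := by
  intro K _ _ φ G'' hbc
  obtain ⟨H, hH⟩ := H265.curveGD_exists_isBC φ G
  have hi := H265.curveGD_isIso_of_isBC hbc (S25.H325.curveGD_isBC_dualGD φ hH)
  rw [H265.degree_eq_of_isIso hi, degree_dualGD hC H, h K φ H hH, neg_zero]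

theorem deg0_of_isTensor [IsAlgClosed k] (hC : IsCurveChart k B₀ B₁ B₀₁ x y e)
    {G G' G'' : CurveGD k B₀ B₁ B₀₁ A} (hT : IsTensor G G' G'') (h : G.Deg0) (h' : G'.Deg0) :
    G''.Deg0 :=
  H265.deg0_of_isIso (isIso_tensorGD_of_isTensor hT) (deg0_tensorGD hC h h')

/-! ### `Rigidifiable` -/

theorem rigidifiable_unit (e : B₁ →ₐ[k] k) :
    CurveGD.Rigidifiable e (GlueDatum.unit A (A ⊗[k] B₀) (A ⊗[k] B₁) (A ⊗[k] B₀₁) :
      CurveGD k B₀ B₁ B₀₁ A) :=
  ⟨(epsHom e A).toRingHom.toSemilinearMap,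
    S25.H325.isSemilinearBaseChange_ringHom (epsHom e A).toRingHom⟩

theorem rigidifiable_tensorGD (e : B₁ →ₐ[k] k) {G G' : CurveGD k B₀ B₁ B₀₁ A}
    (h : G.Rigidifiable e) (h' : G'.Rigidifiable e) :
    CurveGD.Rigidifiable e (S25.H325.tensorGD G G' : CurveGD k B₀ B₁ B₀₁ A) := by
  obtain ⟨b, hb⟩ := h
  obtain ⟨b', hb'⟩ := h'
  refine ⟨(TensorProduct.lid A A).toLinearMap.comp
    (S25.H325.semiTensor (epsHom e A).toRingHom b b'), ?_⟩
  exact H371.isSemilinearBaseChange_equiv_comp (epsHom e A).toRingHom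
    (S25.H325.semiTensor (epsHom e A).toRingHom b b') (TensorProduct.lid A A) _
    (fun _ => rfl) (S25.H325.isSemilinearBaseChange_semiTensor _ hb hb')

theorem rigidifiable_dualGD (e : B₁ →ₐ[k] k) {G : CurveGD k B₀ B₁ B₀₁ A}
    (h : G.Rigidifiable e) :
    CurveGD.Rigidifiable e (S25.H325.dualGD G : CurveGD k B₀ B₁ B₀₁ A) := by
  obtain ⟨b, hb⟩ := h
  haveI := G.invertible₁
  refine ⟨(LinearMap.ringLmapEquivSelf A A A).toLinearMap.comp
    (S25.H325.semiHom (epsHom e A).toRingHom hb (epsHom e A).toRingHom.toSemilinearMap), ?_⟩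
  exact H371.isSemilinearBaseChange_equiv_comp (epsHom e A).toRingHom
    (S25.H325.semiHom (epsHom e A).toRingHom hb (epsHom e A).toRingHom.toSemilinearMap)
    (LinearMap.ringLmapEquivSelf A A A) _
    (fun _ => rfl) (S25.H325.isSemilinearBaseChange_semiHom _ hb
      (S25.H325.isSemilinearBaseChange_ringHom _))

theorem rigidifiable_of_isTensor (e : B₁ →ₐ[k] k) {G G' G'' : CurveGD k B₀ B₁ B₀₁ A}
    (hT : IsTensor G G' G'') (h : G.Rigidifiable e) (h' : G'.Rigidifiable e) :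
    G''.Rigidifiable e :=
  H265.rigidifiable_of_isIso (isIso_tensorGD_of_isTensor hT) (rigidifiable_tensorGD e h h')

end Curve

end

end Fermat.Agent.S27.H325

end
-- ===== PACK-END S27/H325/TensorDegFam.lean

-- ===== PACK-BEGIN S27/H970/TwistCech.lean
section




/-!
# S27 / twisted Čech formula (helper970)

For a function field `F / K` (`FF1 K F`), a divisor `D` and two disjoint nonempty finite sets of
places `Tz`, `Ti`, put `LOff T D = {f | ∀ v ∉ T, f = 0 ∨ -D v ≤ ord_v f}` (sections of `O(D)` on the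
complement of `T`).  Then

* `LOff Ti D ⊓ LOff Tz D = L(D)`                                         (`LOff_inf_eq`),
* `LOff (Tz ∪ Ti) D / (LOff Ti D + LOff Tz D)` is finite-dimensional of dimension
  `ℓ(D) - deg D - 1 + g`                                                  (`finrank_twisted_cech`).

This is the twisted version of `Lib.RR.H638.finrank_cech_map` (`D = 0`).
-/

set_option autoImplicit false

noncomputable section

open AlgebraicCurve

namespace Fermat.Agent.S27.H970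

open Fermat.Agent.Lib.RR Fermat.Agent.Lib.RR.H638 Fermat.Agent.Lib.RR.H623

variable {K F : Type*} [Field K] [Field F] [Algebra K F]

/-- Sections of `O(D)` over the complement of `T`:
functions `f` with `ord_v f ≥ -D v` at all places `v ∉ T`. -/
def LOff (T : Set (Place K F)) (D : Divisor K F) : Submodule K F where
  carrier := {f | ∀ v : Place K F, v ∉ T → Big v (-D v) f}
  zero_mem' := fun v _ => Big.zero v _
  add_mem' := fun hf hg v hv => (hf v hv).add (hg v hv)
  smul_mem' := by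
    intro c f hf v hv
    rw [Algebra.smul_def]
    have h1 : Big v 0 (algebraMap K F c) := Or.inr (by rw [ord_algebraMap])
    have := h1.mul (hf v hv)
    rwa [zero_add] at this

theorem mem_LOff {T : Set (Place K F)} {D : Divisor K F} {f : F} :
    f ∈ LOff T D ↔ ∀ v : Place K F, v ∉ T → Big v (-D v) f := Iff.rfl

theorem LOff_mono {T T' : Set (Place K F)} (h : T ⊆ T') (D : Divisor K F) :
    LOff T D ≤ LOff T' D :=
  fun _ hf v hv => hf v (fun hvT => hv (h hvT))

theorem LOff_empty (D : Divisor K F) : LOff (∅ : Set (Place K F)) D = riemannRochSpace D := by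
  ext f
  rw [mem_LOff, mem_L_iff]
  exact ⟨fun h v => h v (Set.notMem_empty v), fun h v _ => h v⟩

theorem L_le_LOff (T : Set (Place K F)) (D : Divisor K F) : riemannRochSpace D ≤ LOff T D := by
  rw [← LOff_empty]
  exact LOff_mono (Set.empty_subset T) D

section Cech

variable (Tz Ti : Finset (Place K F)) (D : Divisor K F)

theorem L_add_le_LOff (T : Finset (Place K F)) (n : ℕ) :
    riemannRochSpace (D + n • divT T) ≤ LOff (T : Set (Place K F)) D := by
  intro f hf v hv
  have hv' : v ∉ T := fun h => hv (Finset.mem_coe.mpr h)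
  have := mem_L_iff.mp hf v
  simpa [divT_apply_not_mem hv', Big] using this

theorem LM_le_LOff (n : ℕ) :
    riemannRochSpace (D + divM Tz Ti n) ≤ LOff ((Tz : Set (Place K F)) ∪ Ti) D := by
  intro f hf v hv
  have hvz : v ∉ Tz := fun h => hv (Or.inl (Finset.mem_coe.mpr h))
  have hvi : v ∉ Ti := fun h => hv (Or.inr (Finset.mem_coe.mpr h))
  have := mem_L_iff.mp hf v
  simpa [divM_apply, divT_apply_not_mem hvz, divT_apply_not_mem hvi, Big] using this

theorem add_divM_mono {m n : ℕ} (h : m ≤ n) : D + divM Tz Ti m ≤ D + divM Tz Ti n :=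
  add_le_add le_rfl (divM_mono Tz Ti h)

theorem exists_mem_LM_of_mem_LOff {f : F}
    (hf : f ∈ LOff ((Tz : Set (Place K F)) ∪ Ti) D) :
    ∃ n : ℕ, f ∈ riemannRochSpace (D + divM Tz Ti n) := by
  classical
  by_cases hf0 : f = 0
  · exact ⟨0, hf0 ▸ Submodule.zero_mem _⟩
  refine ⟨∑ v ∈ Tz ∪ Ti, (v.ord f + D v).natAbs, ?_⟩
  rw [mem_L_iff]
  intro v
  right
  rw [Finsupp.add_apply, divM_apply]
  have hz := divT_nonneg Tz v
  have hi := divT_nonneg Ti v
  by_cases hv : v ∈ Tz ∪ Ti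
  · have h1 : (v.ord f + D v).natAbs ≤ ∑ w ∈ Tz ∪ Ti, (w.ord f + D w).natAbs :=
      Finset.single_le_sum (f := fun w => (w.ord f + D w).natAbs) (fun _ _ => Nat.zero_le _) hv
    have h2 : (1 : ℤ) ≤ divT Tz v + divT Ti v := by
      rcases Finset.mem_union.mp hv with h | h
      · rw [divT_apply_mem h]; omega
      · rw [divT_apply_mem h]; omega
    set N : ℕ := ∑ w ∈ Tz ∪ Ti, (w.ord f + D w).natAbs with hN
    have h3 : ((v.ord f + D v).natAbs : ℤ) ≤ (N : ℤ) := by exact_mod_cast h1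
    have h4 : (N : ℤ) ≤ N * divT Tz v + N * divT Ti v := by
      have : (0 : ℤ) ≤ N := Int.natCast_nonneg N
      nlinarith
    have h5 : -(v.ord f + D v) ≤ ((v.ord f + D v).natAbs : ℤ) := by
      rw [Int.natCast_natAbs]; exact neg_le_abs _
    omega
  · have hvz : v ∉ Tz := fun h => hv (Finset.mem_union_left _ h)
    have hvi : v ∉ Ti := fun h => hv (Finset.mem_union_right _ h)
    have := (hf v (by
      rintro (h | h)
      · exact hvz (Finset.mem_coe.mp h)
      · exact hvi (Finset.mem_coe.mp h))).le_ord hf0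
    rw [divT_apply_not_mem hvz, divT_apply_not_mem hvi]
    omega

theorem add_nsmul_divT_le_add_divM_right (n : ℕ) : D + n • divT Ti ≤ D + divM Tz Ti n :=
  add_le_add le_rfl (nsmul_divT_le_divM_right Tz Ti n)

theorem add_nsmul_divT_le_add_divM_left (n : ℕ) : D + n • divT Tz ≤ D + divM Tz Ti n :=
  add_le_add le_rfl (nsmul_divT_le_divM_left Tz Ti n)

/-- Key separation, twisted. -/
theorem sup_inf_LD_le (hdisj : Disjoint Tz Ti) (n : ℕ) :
    (LOff (Ti : Set (Place K F)) D ⊔ LOff (Tz : Set (Place K F)) D) ⊓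
        riemannRochSpace (D + divM Tz Ti n) ≤
      riemannRochSpace (D + n • divT Ti) ⊔ riemannRochSpace (D + n • divT Tz) := by
  classical
  rintro f ⟨hf1, hf2⟩
  obtain ⟨a, ha, b, hb, rfl⟩ := Submodule.mem_sup.mp hf1
  have ha' : ∀ v : Place K F, v ∉ Ti → Big v (-D v) a := fun v hv =>
    ha v (fun h => hv (Finset.mem_coe.mp h))
  have hb' : ∀ v : Place K F, v ∉ Tz → Big v (-D v) b := fun v hv =>
    hb v (fun h => hv (Finset.mem_coe.mp h))
  have hab : ∀ v : Place K F, Big v (-(D v + divM Tz Ti n v)) (a + b) := by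
    intro v
    have := mem_L_iff.mp hf2 v
    simpa [Big] using this
  refine Submodule.add_mem_sup ?_ ?_
  · rw [mem_L_iff]; intro v
    by_cases hv : v ∈ Ti
    · have hv0 : v ∉ Tz := Finset.disjoint_right.mp hdisj hv
      have h1 := hab v
      rw [divM_apply, divT_apply_mem hv, divT_apply_not_mem hv0] at h1
      have h2 : Big v (-(D v + n)) (a + b - b) :=
        (h1.mono (by simp)).sub ((hb' v hv0).mono (by
          have : (0 : ℤ) ≤ n := Int.natCast_nonneg n
          omega))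
      rw [add_sub_cancel_right] at h2
      simpa [Big, divT_apply_mem hv] using h2
    · have := ha' v hv
      simpa [Big, divT_apply_not_mem hv] using this
  · rw [mem_L_iff]; intro v
    by_cases hv : v ∈ Tz
    · have hv0 : v ∉ Ti := Finset.disjoint_left.mp hdisj hv
      have h1 := hab v
      rw [divM_apply, divT_apply_mem hv, divT_apply_not_mem hv0] at h1
      have h2 : Big v (-(D v + n)) (a + b - a) :=
        (h1.mono (by simp)).sub ((ha' v hv0).mono (by
          have : (0 : ℤ) ≤ n := Int.natCast_nonneg n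
          omega))
      rw [add_sub_cancel_left] at h2
      simpa [Big, divT_apply_mem hv] using h2
    · have := hb' v hv
      simpa [Big, divT_apply_not_mem hv] using this

theorem sup_inf_LD_eq (hdisj : Disjoint Tz Ti) (n : ℕ) :
    (LOff (Ti : Set (Place K F)) D ⊔ LOff (Tz : Set (Place K F)) D) ⊓
        riemannRochSpace (D + divM Tz Ti n) =
      riemannRochSpace (D + n • divT Ti) ⊔ riemannRochSpace (D + n • divT Tz) := by
  apply le_antisymm (sup_inf_LD_le Tz Ti D hdisj n)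
  exact le_inf (sup_le_sup (L_add_le_LOff D Ti n) (L_add_le_LOff D Tz n))
    (sup_le (L_mono (add_nsmul_divT_le_add_divM_right Tz Ti D n))
      (L_mono (add_nsmul_divT_le_add_divM_left Tz Ti D n)))

/-- `LOff Ti D ⊓ LOff Tz D = L(D)` for disjoint `Tz`, `Ti`. -/
theorem LOff_inf_eq (hdisj : Disjoint Tz Ti) :
    LOff (Ti : Set (Place K F)) D ⊓ LOff (Tz : Set (Place K F)) D = riemannRochSpace D := by
  apply le_antisymm
  · rintro f ⟨h1, h2⟩
    rw [mem_L_iff]
    intro v
    by_cases hv : v ∈ Ti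
    · have hv0 : v ∉ Tz := Finset.disjoint_right.mp hdisj hv
      exact h2 v (fun h => hv0 (Finset.mem_coe.mp h))
    · exact h1 v (fun h => hv (Finset.mem_coe.mp h))
  · exact le_inf (L_le_LOff _ D) (L_le_LOff _ D)

/-- `L(D + n Ti) ∩ L(D + n Tz) = L(D)`. -/
theorem LD_inf_eq (hdisj : Disjoint Tz Ti) (n : ℕ) :
    riemannRochSpace (D + n • divT Ti) ⊓ riemannRochSpace (D + n • divT Tz) =
      riemannRochSpace D := by
  classical
  apply le_antisymm
  · rintro f ⟨h1, h2⟩
    rw [mem_L_iff]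
    intro v
    by_cases hv : v ∈ Ti
    · have hv0 : v ∉ Tz := Finset.disjoint_right.mp hdisj hv
      have := mem_L_iff.mp h2 v
      simpa [divT_apply_not_mem hv0] using this
    · have := mem_L_iff.mp h1 v
      simpa [divT_apply_not_mem hv] using this
  · refine le_inf (L_mono ?_) (L_mono ?_)
    · rw [Finsupp.le_def]; intro v
      have h0 := divT_nonneg Ti v
      rw [Finsupp.add_apply, Finsupp.smul_apply, nsmul_eq_mul]
      have : (0 : ℤ) ≤ n * divT Ti v := by positivity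
      omega
    · rw [Finsupp.le_def]; intro v
      have h0 := divT_nonneg Tz v
      rw [Finsupp.add_apply, Finsupp.smul_apply, nsmul_eq_mul]
      have : (0 : ℤ) ≤ n * divT Tz v := by positivity
      omega

end Cech

section Main

variable [FF1 K F] (Tz Ti : Finset (Place K F)) (D : Divisor K F)

/-- The index of speciality `i(D) = ℓ(D) - deg D - 1 + g ≥ 0` as a natural number. -/
def specIndex (D : Divisor K F) : ℕ :=
  ((ell D : ℤ) - Divisor.degree D - 1 + (genusFF K F : ℤ)).toNat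

theorem specIndex_eq (D : Divisor K F) :
    (specIndex D : ℤ) = (ell D : ℤ) - Divisor.degree D - 1 + (genusFF K F : ℤ) := by
  unfold specIndex
  have := riemann_inequality_genusFF D
  rw [Int.toNat_of_nonneg (by omega)]

/-- **Twisted Čech formula** (image form). -/
theorem finrank_twisted_cech (hdisj : Disjoint Tz Ti) (hz : Tz.Nonempty) (hi : Ti.Nonempty) :
    Module.Finite K ↥((LOff ((Tz : Set (Place K F)) ∪ Ti) D).map
        (LOff (Ti : Set (Place K F)) D ⊔ LOff (Tz : Set (Place K F)) D).mkQ) ∧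
      Module.finrank K ↥((LOff ((Tz : Set (Place K F)) ∪ Ti) D).map
        (LOff (Ti : Set (Place K F)) D ⊔ LOff (Tz : Set (Place K F)) D).mkQ) = specIndex D := by
  obtain ⟨c, hc⟩ : ∃ c : ℤ, ∀ D : Divisor K F, c ≤ Divisor.degree D →
      (ell D : ℤ) = Divisor.degree D + 1 - (genusFF K F : ℤ) := by
    rw [genusFF_eq_genusR]
    exact exists_degree_bound (K := K) (F := F)
  have hz1 : 1 ≤ Tz.card := Finset.card_pos.mpr hz
  have hi1 : 1 ≤ Ti.card := Finset.card_pos.mpr hi
  refine finrank_map_mkQ_of_exhaust _ _ (fun n => riemannRochSpace (D + divM Tz Ti n))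
    (fun m n h => L_mono (add_divM_mono Tz Ti D h)) (fun n => inferInstance)
    (fun n => LM_le_LOff Tz Ti D n) (fun f hf => exists_mem_LM_of_mem_LOff Tz Ti D hf)
    (specIndex D) (c - Divisor.degree D).toNat ?_
  intro n hn
  have hcn : c - Divisor.degree D ≤ n := by
    have := Int.self_le_toNat (c - Divisor.degree D)
    have : (((c - Divisor.degree D).toNat : ℕ) : ℤ) ≤ (n : ℤ) := by exact_mod_cast hn
    omega
  have hnn : (0 : ℤ) ≤ n := Int.natCast_nonneg n
  have hzc : (n : ℤ) ≤ n * Tz.card := by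
    have : (1 : ℤ) ≤ Tz.card := by exact_mod_cast hz1
    nlinarith
  have hic : (n : ℤ) ≤ n * Ti.card := by
    have : (1 : ℤ) ≤ Ti.card := by exact_mod_cast hi1
    nlinarith
  have d1 : Divisor.degree (D + n • divT Ti) = Divisor.degree D + n * Ti.card := by
    rw [map_add, degree_nsmul_divT]
  have d2 : Divisor.degree (D + n • divT Tz) = Divisor.degree D + n * Tz.card := by
    rw [map_add, degree_nsmul_divT]
  have d3 : Divisor.degree (D + divM Tz Ti n) =
      Divisor.degree D + (n * Tz.card + n * Ti.card) := by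
    rw [map_add, degree_divM]
  have e1 := hc (D + n • divT Ti) (by rw [d1]; omega)
  have e2 := hc (D + n • divT Tz) (by rw [d2]; omega)
  have e3 := hc (D + divM Tz Ti n) (by rw [d3]; omega)
  rw [d1] at e1
  rw [d2] at e2
  rw [d3] at e3
  rw [sup_inf_LD_eq Tz Ti D hdisj n]
  have h4 := Submodule.finrank_sup_add_finrank_inf_eq (riemannRochSpace (D + n • divT Ti))
    (riemannRochSpace (D + n • divT Tz))
  rw [LD_inf_eq Tz Ti D hdisj n] at h4
  have hs := specIndex_eq D
  unfold ell at e1 e2 e3 hs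
  have h6 : (Module.finrank K
        ↥(riemannRochSpace (D + n • divT Ti) ⊔ riemannRochSpace (D + n • divT Tz)) : ℤ)
      + Module.finrank K ↥(riemannRochSpace D) =
        Module.finrank K ↥(riemannRochSpace (D + n • divT Ti)) +
        Module.finrank K ↥(riemannRochSpace (D + n • divT Tz)) := by exact_mod_cast h4
  have h7 : (Module.finrank K ↥(riemannRochSpace (D + divM Tz Ti n)) : ℤ) =
      Module.finrank K
        ↥(riemannRochSpace (D + n • divT Ti) ⊔ riemannRochSpace (D + n • divT Tz)) +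
        specIndex D := by
    rw [e3]; linarith
  exact_mod_cast h7

end Main

end Fermat.Agent.S27.H970

end
end
-- ===== PACK-END S27/H970/TwistCech.lean

-- ===== PACK-BEGIN Lib/Haupt/Laurent.lean
section



/-!
# Hauptmodul relations in `K((q))` for every commutative ring `K` (helper637)

* `t2 K`, `t3 K : LaurentSeries K`;
* `jq_mul_t2_sq`   : `jqModC K * t2 K ^ 2 = (t2 K + 256) ^ 3`
* `jq2_mul_t2`     : `qExpand K 2 (jqModC K) * t2 K = (t2 K + 16) ^ 3`
* `jq_mul_t3_cube` : `jqModC K * t3 K ^ 3 = (t3 K + 27) * (t3 K + 243) ^ 3`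
* `jq3_mul_t3`     : `qExpand K 3 (jqModC K) * t3 K = (t3 K + 27) * (t3 K + 3) ^ 3`
* `coeffMap_t2`, `coeffMap_t3` : compatibility with change of coefficients.
-/

set_option autoImplicit false

noncomputable section

namespace Fermat.Agent.Lib.Haupt

open PowerSeries HahnSeries ModularCurve

variable (K : Type*) [CommRing K]

/-- `q⁻¹ · f(q)` for an integral power series `f`, with coefficients in `K`. -/
def lau (f : PowerSeries ℤ) : LaurentSeries K :=
  HahnSeries.ofPowerSeries ℤ K (f.map (Int.castRingHom K))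

/-- `q⁻¹`. -/
def qinv : LaurentSeries K := HahnSeries.single (-1 : ℤ) 1

theorem lau_mul (f g : PowerSeries ℤ) : lau K (f * g) = lau K f * lau K g := by
  rw [lau, map_mul, map_mul]; rfl

theorem lau_add (f g : PowerSeries ℤ) : lau K (f + g) = lau K f + lau K g := by
  rw [lau, map_add, map_add]; rfl

theorem lau_pow (f : PowerSeries ℤ) (n : ℕ) : lau K (f ^ n) = lau K f ^ n := by
  rw [lau, map_pow, map_pow]; rfl

theorem qinv_mul_lau_X : qinv K * lau K X = 1 := by
  rw [qinv, lau, PowerSeries.map_X, HahnSeries.ofPowerSeries_X, HahnSeries.single_mul_single]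
  simp

theorem lau_C (c : ℤ) : lau K (C c) = (c : LaurentSeries K) := by
  rw [lau, PowerSeries.map_C, HahnSeries.ofPowerSeries_C]
  simp

theorem jqModC_eq : jqModC K = qinv K * lau K jNum := rfl

/-- The Hauptmodul of `Γ₀(2)`: `t₂ = Δ(q)/Δ(q²)`. -/
def t2 : LaurentSeries K := qinv K * lau K T2

/-- The Hauptmodul of `Γ₀(3)`: `t₃ = (η(q)/η(q³))¹²`. -/
def t3 : LaurentSeries K := qinv K * lau K T3

theorem t_add_const (T : PowerSeries ℤ) (c : ℤ) :
    qinv K * lau K T + (c : LaurentSeries K) = qinv K * lau K (T + C c * X) := by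
  rw [lau_add, lau_mul, lau_C, mul_add, mul_left_comm, qinv_mul_lau_X, mul_one]

/-- `j · t₂² = (t₂ + 256)³`. -/
theorem jq_mul_t2_sq : jqModC K * t2 K ^ 2 = (t2 K + 256) ^ 3 := by
  have h := congrArg (fun f => qinv K ^ 3 * lau K f) T2_rel₁
  simp only [lau_mul, lau_pow] at h
  have e : (t2 K + 256) = qinv K * lau K (T2 + C 256 * X) := by
    rw [← t_add_const, t2]; simp
  rw [e, jqModC_eq, t2]
  linear_combination h

theorem qExpand_ofPowerSeries (d : ℕ) [NeZero d] (g : PowerSeries K) :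
    qExpand K d (HahnSeries.ofPowerSeries ℤ K g)
      = HahnSeries.ofPowerSeries ℤ K (PowerSeries.expand d (NeZero.ne d) g) := by
  have hd : (0 : ℤ) < d := by exact_mod_cast Nat.pos_of_ne_zero (NeZero.ne d)
  ext k
  by_cases hk : (d : ℤ) ∣ k
  · obtain ⟨m, rfl⟩ := hk
    rw [qExpand_coeff_mul]
    rcases le_or_gt 0 m with hm | hm
    · lift m to ℕ using hm
      rw [HahnSeries.ofPowerSeries_apply_coeff, show (d : ℤ) * (m : ℤ) = ((d * m : ℕ) : ℤ) by
        push_cast; ring, HahnSeries.ofPowerSeries_apply_coeff, PowerSeries.coeff_expand_mul]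
    · rw [ofPowerSeries_coeff_of_neg _ hm, ofPowerSeries_coeff_of_neg _ (by nlinarith)]
  · rw [qExpand_coeff_of_not_dvd d _ hk]
    rcases le_or_gt 0 k with hk0 | hk0
    · lift k to ℕ using hk0
      rw [HahnSeries.ofPowerSeries_apply_coeff, PowerSeries.coeff_expand_of_not_dvd]
      intro h
      exact hk (by exact_mod_cast h)
    · rw [ofPowerSeries_coeff_of_neg _ hk0]

theorem qExpand_lau (d : ℕ) [NeZero d] (f : PowerSeries ℤ) :
    qExpand K d (lau K f) = lau K (ex d f) := by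
  rw [lau, qExpand_ofPowerSeries, lau, ex, PowerSeries.map_expand]

theorem qExpand_qinv (d : ℕ) [NeZero d] : qExpand K d (qinv K) = qinv K ^ d := by
  rw [qinv, qExpand_single, HahnSeries.single_pow, one_pow]
  simp

theorem qExpand_jqModC (d : ℕ) [NeZero d] :
    qExpand K d (jqModC K) = qinv K ^ d * lau K (ex d jNum) := by
  rw [jqModC_eq, map_mul, qExpand_qinv, qExpand_lau]

/-- `j(q²) · t₂ = (t₂ + 16)³`. -/
theorem jq2_mul_t2 : qExpand K 2 (jqModC K) * t2 K = (t2 K + 16) ^ 3 := by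
  have h := congrArg (fun f => qinv K ^ 3 * lau K f) T2_rel₂
  simp only [lau_mul, lau_pow] at h
  have e : (t2 K + 16) = qinv K * lau K (T2 + C 16 * X) := by
    rw [← t_add_const, t2]; simp
  rw [e, qExpand_jqModC, t2]
  linear_combination h

/-- `j · t₃³ = (t₃ + 27)(t₃ + 243)³`. -/
theorem jq_mul_t3_cube : jqModC K * t3 K ^ 3 = (t3 K + 27) * (t3 K + 243) ^ 3 := by
  have h := congrArg (fun f => qinv K ^ 4 * lau K f) T3_rel₁
  simp only [lau_mul, lau_pow] at h
  have e1 : (t3 K + 27) = qinv K * lau K (T3 + C 27 * X) := by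
    rw [← t_add_const, t3]; simp
  have e2 : (t3 K + 243) = qinv K * lau K (T3 + C 243 * X) := by
    rw [← t_add_const, t3]; simp
  rw [e1, e2, jqModC_eq, t3]
  linear_combination h

/-- `j(q³) · t₃ = (t₃ + 27)(t₃ + 3)³`. -/
theorem jq3_mul_t3 : qExpand K 3 (jqModC K) * t3 K = (t3 K + 27) * (t3 K + 3) ^ 3 := by
  have h := congrArg (fun f => qinv K ^ 4 * lau K f) T3_rel₂
  simp only [lau_mul, lau_pow] at h
  have e1 : (t3 K + 27) = qinv K * lau K (T3 + C 27 * X) := by
    rw [← t_add_const, t3]; simp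
  have e2 : (t3 K + 3) = qinv K * lau K (T3 + C 3 * X) := by
    rw [← t_add_const, t3]; simp
  rw [e1, e2, qExpand_jqModC, t3]
  linear_combination h

/-! ### Basic properties -/

variable {K}

theorem coeffMap_ofPS {K' : Type*} [CommRing K'] (φ : K →+* K') (p : PowerSeries K) :
    coeffMap φ (HahnSeries.ofPowerSeries ℤ K p) = HahnSeries.ofPowerSeries ℤ K' (p.map φ) := by
  ext k
  rw [coeffMap_coeff]
  rcases le_or_gt 0 k with hk | hk
  · lift k to ℕ using hk
    rw [HahnSeries.ofPowerSeries_apply_coeff, HahnSeries.ofPowerSeries_apply_coeff,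
      PowerSeries.coeff_map]
  · rw [ofPowerSeries_coeff_of_neg _ hk, ofPowerSeries_coeff_of_neg _ hk, map_zero]

theorem coeffMap_lau {K' : Type*} [CommRing K'] (φ : K →+* K') (g : PowerSeries ℤ) :
    coeffMap φ (lau K g) = lau K' g := by
  rw [lau, lau, coeffMap_ofPS,
    ← RingHom.comp_apply (PowerSeries.map φ) (PowerSeries.map (Int.castRingHom K)),
    ← PowerSeries.map_comp, RingHom.ext_int (φ.comp (Int.castRingHom K)) (Int.castRingHom K')]

theorem coeffMap_qinv {K' : Type*} [CommRing K'] (φ : K →+* K') :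
    coeffMap φ (qinv K) = qinv K' := by
  rw [qinv, coeffMap_single, map_one, qinv]

/-- `t₂` is compatible with every change of coefficients (base change, reduction mod `ℓ`). -/
theorem coeffMap_t2 {K' : Type*} [CommRing K'] (φ : K →+* K') :
    coeffMap φ (t2 K) = t2 K' := by
  rw [t2, map_mul, coeffMap_qinv, coeffMap_lau, t2]

/-- `t₃` is compatible with every change of coefficients (base change, reduction mod `ℓ`). -/
theorem coeffMap_t3 {K' : Type*} [CommRing K'] (φ : K →+* K') :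
    coeffMap φ (t3 K) = t3 K' := by
  rw [t3, map_mul, coeffMap_qinv, coeffMap_lau, t3]

variable (K)

theorem coeff_qinv_mul_lau (g : PowerSeries ℤ) (k : ℤ) :
    (qinv K * lau K g).coeff k = (lau K g).coeff (k + 1) := by
  rw [qinv, HahnSeries.coeff_single_mul, one_mul, sub_neg_eq_add]

theorem coeff_lau_natCast (g : PowerSeries ℤ) (n : ℕ) :
    (lau K g).coeff (n : ℤ) = ((PowerSeries.coeff n g : ℤ) : K) := by
  rw [lau, HahnSeries.ofPowerSeries_apply_coeff, PowerSeries.coeff_map, eq_intCast]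

theorem coeff_lau_of_neg (g : PowerSeries ℤ) {k : ℤ} (hk : k < 0) : (lau K g).coeff k = 0 :=
  ofPowerSeries_coeff_of_neg _ hk

/-- `t₂ = q⁻¹ + …`. -/
theorem coeff_t2_neg_one : (t2 K).coeff (-1) = 1 := by
  rw [t2, coeff_qinv_mul_lau, show (-1 : ℤ) + 1 = ((0 : ℕ) : ℤ) by norm_num, coeff_lau_natCast,
    PowerSeries.coeff_zero_eq_constantCoeff, constantCoeff_T2, Int.cast_one]

theorem coeff_t2_of_lt {k : ℤ} (hk : k < -1) : (t2 K).coeff k = 0 := by
  rw [t2, coeff_qinv_mul_lau, coeff_lau_of_neg K _ (by omega)]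

/-- `t₃ = q⁻¹ + …`. -/
theorem coeff_t3_neg_one : (t3 K).coeff (-1) = 1 := by
  rw [t3, coeff_qinv_mul_lau, show (-1 : ℤ) + 1 = ((0 : ℕ) : ℤ) by norm_num, coeff_lau_natCast,
    PowerSeries.coeff_zero_eq_constantCoeff, constantCoeff_T3, Int.cast_one]

theorem coeff_t3_of_lt {k : ℤ} (hk : k < -1) : (t3 K).coeff k = 0 := by
  rw [t3, coeff_qinv_mul_lau, coeff_lau_of_neg K _ (by omega)]

theorem t2_ne_zero [Nontrivial K] : t2 K ≠ 0 := fun h => by
  have := coeff_t2_neg_one K
  rw [h] at this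
  simp at this

theorem t3_ne_zero [Nontrivial K] : t3 K ≠ 0 := fun h => by
  have := coeff_t3_neg_one K
  rw [h] at this
  simp at this

/-- `t₂` is a root of the monic cubic `T³ + (768 - j) T² + 196608 T + 16777216` over `ℤ[j]`. -/
theorem t2_cubic :
    t2 K ^ 3 + (768 - jqModC K) * t2 K ^ 2 + 196608 * t2 K + 16777216 = 0 := by
  linear_combination -(jq_mul_t2_sq K)

/-- `t₂` is a root of the monic cubic `T³ + 48 T² + (768 - j(q²)) T + 4096` over `ℤ[j(q²)]`. -/
theorem t2_cubic' :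
    t2 K ^ 3 + 48 * t2 K ^ 2 + (768 - qExpand K 2 (jqModC K)) * t2 K + 4096 = 0 := by
  linear_combination -(jq2_mul_t2 K)

/-- `t₃` is a root of the monic quartic `T⁴ + (756 - j) T³ + 196830 T² + 19131876 T + 387420489`
over `ℤ[j]`. -/
theorem t3_quartic :
    t3 K ^ 4 + (756 - jqModC K) * t3 K ^ 3 + 196830 * t3 K ^ 2 + 19131876 * t3 K + 387420489
      = 0 := by
  linear_combination -(jq_mul_t3_cube K)

/-- `t₃` is a root of the monic quartic `T⁴ + 36 T³ + 270 T² + (756 - j(q³)) T + 729`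
over `ℤ[j(q³)]`. -/
theorem t3_quartic' :
    t3 K ^ 4 + 36 * t3 K ^ 3 + 270 * t3 K ^ 2 + (756 - qExpand K 3 (jqModC K)) * t3 K + 729
      = 0 := by
  linear_combination -(jq3_mul_t3 K)

/-- `j - 1728 = (t₂ + 64)(t₂ - 512)² / t₂²`: the elliptic point of order 2 of `X₀(2)` is
`t₂ = -64`; `t₂ = 512` lies over `j = 1728` with ramification index `2` (not a branch value of
higher levels over the `t₂`-line). -/
theorem jq_sub_1728_mul_t2_sq :
    (jqModC K - 1728) * t2 K ^ 2 = (t2 K + 64) * (t2 K - 512) ^ 2 := by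
  linear_combination jq_mul_t2_sq K

/-- `j - 1728 = (t₃² - 486 t₃ - 19683)² / t₃³`: `X₀(3)` has no elliptic point of order 2. -/
theorem jq_sub_1728_mul_t3_cube :
    (jqModC K - 1728) * t3 K ^ 3 = (t3 K ^ 2 - 486 * t3 K - 19683) ^ 2 := by
  linear_combination jq_mul_t3_cube K

end Fermat.Agent.Lib.Haupt

end
end
-- ===== PACK-END Lib/Haupt/Laurent.lean

-- ===== PACK-BEGIN S34/K789/S30U.lean
section
/-
Row S34 / cell A2 (helper789): the middle glue.  COLLISION-FREE COPY of `S34/H789/S30U.lean`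
(without the import of `S34.H193.Glue`: `S31.H169.PowTr` and `S31.H22.PowTr` realize the equation
lemma of `S31.powTr` with different proofs, so both must not be in one closure).

    (adic eigenmodules on which inertia at `q ∥ N` acts unipotently)  ⟹  `S30UStatement`
    ⟹ (with CHEB Tier 1 and PTS)  the frozen statement S34.

The top glue `Fermat.Agent.S34.H733.result_of_inputs`
consumes a Galois representation attached to a `p`-adic point of the Hecke algebra which is
unipotent on inertia at `q`.  The S30 top glue of helper990 builds that representation from an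
`AdicEigenModule`; here we record that the extraction keeps unipotency:
if `(ρ σ - 1)² = 0` on the eigenmodule and `σ` is in an inertia group at `q ≠ p`, then
`ρ σ` satisfies the quadratic relation with `a = 2`, `d σ = 1`, hence the extracted rank two
representation has characteristic polynomial `X² - 2 X + 1 = (X - 1)²` at `σ`.

So the only thing the cell A2 + the `p`-adic mid layer have to deliver for S34 is
`HasAdicEigenModulesU`: an eigenmodule (any nonzero finite free module with Eichler–Shimura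
relations, e.g. an eigenspace of `𝒪' ⊗ lim J₀(N)[pⁿ]`) on which `(σ - 1)² = 0` for `σ` in the
inertia groups at the primes `q ≠ p`, `q ∥ N`.
-/



set_option autoImplicit false

namespace Fermat.Agent.S34.K789

open Polynomial Fermat.Agent.S30.H990 Fermat.Agent.S55.H414

/-- Inertia at `q` acts unipotently (`(σ - 1)² = 0`) on the adic eigenmodule `E`. -/
def EigenUnipAt {p N : ℕ} [NeZero N] {S : Finset ℕ} {𝒪 : Type} [CommRing 𝒪] [IsLocalRing 𝒪]
    {χ : CuspForm.heckeAlgebra N 2 (↑S : Set ℕ) →+* 𝒪} (E : AdicEigenModule p N S 𝒪 χ)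
    (q : ℕ) : Prop :=
  ∀ P : ValuationSubring (AlgebraicClosure ℚ), P.LiesOverPrime q →
    ∀ σ ∈ P.inertiaSubgroupIn ℚ, (E.ρ σ - 1) * (E.ρ σ - 1) = 0

/-- **Deliverable of cell A2 + the `p`-adic mid layer**: every eigencharacter has an adic
eigenmodule on which the inertia groups at the primes `q ≠ p` exactly dividing the level act
unipotently. -/
def HasAdicEigenModulesU : Prop :=
  ∀ (p : ℕ) [Fact p.Prime] (N : ℕ) [NeZero N] (S : Finset ℕ)
    (_hpS : p ∈ S) (_hNS : ∀ q : ℕ, q.Prime → q ∣ N → q ∈ S)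
    (𝒪' : Type) [CommRing 𝒪'] [IsDomain 𝒪'] [IsDiscreteValuationRing 𝒪']
    [IsAdicComplete (IsLocalRing.maximalIdeal 𝒪') 𝒪'] [Finite (IsLocalRing.ResidueField 𝒪')]
    [CharZero 𝒪'] (_hp𝒪' : (p : 𝒪') ∈ IsLocalRing.maximalIdeal 𝒪')
    (χ : CuspForm.heckeAlgebra N 2 (↑S : Set ℕ) →+* 𝒪'),
    ∃ E : AdicEigenModule p N S 𝒪' χ,
      ∀ q : ℕ, q.Prime → q ≠ p → q ∣ N → ¬ q ^ 2 ∣ N → EigenUnipAt E q

theorem hasAdicEigenModules_of_U (h : HasAdicEigenModulesU) : HasAdicEigenModules := by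
  intro p _ N _ S hpS hNS 𝒪' _ _ _ _ _ _ hp𝒪' χ
  obtain ⟨E, -⟩ := h p N S hpS hNS 𝒪' hp𝒪' χ
  exact ⟨E⟩

section Assembly

variable {p N : ℕ} [Fact p.Prime] [NeZero N] {S : Finset ℕ}
  {𝒪 : Type} [CommRing 𝒪] [IsDomain 𝒪] [IsDiscreteValuationRing 𝒪]
  [IsAdicComplete (IsLocalRing.maximalIdeal 𝒪) 𝒪] [Finite (IsLocalRing.ResidueField 𝒪)]
  {χ : CuspForm.heckeAlgebra N 2 (↑S : Set ℕ) →+* 𝒪}

/-- `(X - 1)²` in the normal form of `TwoDimOut.charpoly_eq`. -/
theorem sq_X_sub_one_eq' {R : Type*} [CommRing R] :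
    ((X : R[X]) - 1) ^ 2 = X ^ 2 - C (2 : R) * X + C (1 : R) := by
  simp only [map_ofNat, map_one]
  ring

/-- The extraction of helper990 (`exists_galoisRepAdic`) with the additional conclusion that the
representation is unipotent on inertia at every prime `q ≠ p` at which the eigenmodule is. -/
theorem exists_galoisRepAdic_unip [CharZero 𝒪] (hcheb : ChebWeak) (hpS : p ∈ S)
    (hNS : ∀ q : ℕ, q.Prime → q ∣ N → q ∈ S)
    (hp𝒪 : (p : 𝒪) ∈ IsLocalRing.maximalIdeal 𝒪) (E : AdicEigenModule p N S 𝒪 χ) :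
    ∃ ρ : GaloisRepAdic 𝒪,
      (∀ (ℓ : ℕ) (hℓ : ℓ.Prime) (hℓN : ¬ ℓ ∣ N) (hℓS : ℓ ∉ (↑S : Set ℕ)),
        ∀ A : ValuationSubring (AlgebraicClosure ℚ), A.LiesOverPrime ℓ →
          ∀ σ : AlgebraicClosure ℚ ≃ₐ[ℚ] AlgebraicClosure ℚ, A.IsFrobeniusAt σ ℓ →
            LinearMap.charpoly (ρ.ρ σ) =
              X ^ 2 - C (χ (CuspForm.heckeAlgebra.T hℓ hℓN hℓS)) * X + C ((ℓ : 𝒪))) ∧
      (∀ q : ℕ, q.Prime → ¬ q ∣ N → q ≠ p → ρ.IsUnramifiedAt q) ∧
      (∀ q : ℕ, q.Prime → q ≠ p → EigenUnipAt E q → ρ.IsUnipotentOnInertiaAt q) := by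
  obtain ⟨d, hdfrob, hdinert, hdc, hdcont⟩ := exists_cyclo p 𝒪 hp𝒪
  have hrel : ∀ g : GQ, ∃ a, Fermat.Agent.S30.H990.Rel E.ρ d g a := fun g =>
    exists_rel_of_mod E.ρ d g (fun n => exists_rel_mod hcheb hpS hNS E d hdfrob hdcont g n)
  have h2 : (2 : 𝒪) ≠ 0 := two_ne_zero
  obtain ⟨T⟩ := exists_twoDim E.ρ d h2 hrel complexConjugation complexConjugation_mul_self hdc
  refine ⟨{ V := T.V
            finrank_eq := T.finrank_eq
            ρ := T.ρ₂
            isAdicContinuous := ?_ }, ?_, ?_, ?_⟩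
  · intro n
    obtain ⟨L₁, hL₁fin, hL₁⟩ := E.cont n
    have : FiniteDimensional ℚ L₁ := hL₁fin
    refine ⟨L₁ ⊔ cycloLevel (p ^ n),
      IntermediateField.finiteDimensional_sup L₁ (cycloLevel (p ^ n)), fun σ hσ v => ?_⟩
    refine T.cong (IsLocalRing.maximalIdeal 𝒪 ^ n) σ ?_ ?_ v
    · exact hL₁ σ (fun x hx => hσ x ((le_sup_left : L₁ ≤ L₁ ⊔ cycloLevel (p ^ n)) hx))
    · exact hdcont n σ (fun x hx =>
        hσ x ((le_sup_right : cycloLevel (p ^ n) ≤ L₁ ⊔ cycloLevel (p ^ n)) hx))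
  · intro ℓ hℓ hℓN hℓS A hA σ hσ
    have hℓp : ℓ ≠ p := fun h => hℓS (Finset.mem_coe.mpr (h ▸ hpS))
    have hr : Fermat.Agent.S30.H990.Rel E.ρ d σ (χ (CuspForm.heckeAlgebra.T hℓ hℓN hℓS)) := by
      unfold Fermat.Agent.S30.H990.Rel
      rw [hdfrob ℓ hℓ hℓp A hA σ hσ]
      exact E.frob ℓ hℓ hℓN hℓS A hA σ hσ
    have := T.charpoly_eq σ _ hr
    rw [hdfrob ℓ hℓ hℓp A hA σ hσ] at this
    exact this
  · intro q hq hqN hqp P hP σ hσ
    have h1 : E.ρ σ = 1 := E.unram q hq hqN hqp P hP σ hσ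
    have h2 : d σ = 1 := hdinert q hq hqp P hP σ hσ
    have h3 := T.cong ⊥ σ (fun v => by rw [h1]; simp) (by rw [h2]; simp)
    ext v
    have h4 := h3 v
    rw [Submodule.bot_smul, Submodule.mem_bot, sub_eq_zero] at h4
    simpa using h4
  · intro q hq hqp hU P hP σ hσ
    have hd : d σ = 1 := hdinert q hq hqp P hP σ hσ
    have hu : (E.ρ σ - 1) * (E.ρ σ - 1) = 0 := hU P hP σ hσ
    have hr : Fermat.Agent.S30.H990.Rel E.ρ d σ (2 : 𝒪) := by
      unfold Fermat.Agent.S30.H990.Rel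
      rw [hd, Units.val_one, one_smul, ← hu]
      simp only [mul_sub, sub_mul, mul_one, one_mul, two_smul]
      abel
    have := T.charpoly_eq σ _ hr
    rw [hd, Units.val_one] at this
    show LinearMap.charpoly (T.ρ₂ σ) = (X - 1) ^ 2
    rw [this, sq_X_sub_one_eq']

end Assembly

/-- **`S30UStatement` from the unipotent adic eigenmodules** (with `𝒪'' := 𝒪'`). -/
theorem s30U_of_hasAdicEigenModulesU (hmod : HasAdicEigenModulesU) :
    Fermat.Agent.S34.H733.S30UStatement := by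
  intro p _ N _ S hpS hNS 𝒪' _ _ _ _ _ _ hp𝒪' χ
  obtain ⟨E, hE⟩ := hmod p N S hpS hNS 𝒪' hp𝒪' χ
  obtain ⟨ρ, hρ1, -, hρ3⟩ := exists_galoisRepAdic_unip
    (chebWeak_of_frobeniusDivision Fermat.Agent.Lib.Cheb.frobeniusDivision) hpS hNS hp𝒪' E
  exact ⟨𝒪', inferInstance, inferInstance, inferInstance, inferInstance, inferInstance,
    inferInstance, Algebra.id 𝒪', Module.Finite.self 𝒪', isLocalHom_id 𝒪',
    Function.injective_id, ρ, hρ1, fun q hq hqp hqN hq2 => hρ3 q hq hqp (hE q hq hqp hqN hq2)⟩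

end Fermat.Agent.S34.K789

end
-- ===== PACK-END S34/K789/S30U.lean

-- ===== PACK-BEGIN S35/H891/FrobAsm.lean
section



/-!
# S35, cell FROB — the ALG assembly for a Frobenius lift (helper891)

Variant of helper12's `A2.H12.algG_core` / `algG` for a semilinear automorphism `φ` of the
function field `F` which is NOT the identity on the residue fields of the sheets:

* `φ` preserves every sheet of `F` (`hφV`), fixes the coordinate `x`;
* `φ` maps every CROSSING point of the two base charts to itself (`NodesFixed`);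
* `φ ζ = ζ ^ Q` for a primitive `m`-th root of unity `ζ ∈ R`.

For a Kummer-split cover `L / F` satisfying the conclusions of the route-G leaves SHEETS, RED,
CONST, COUNT (these do not involve any automorphism) and `SurjConclusion` (the charts of `L` are
generated by the charts of `F` modulo every sheet), and a lift `φ'` of `φ` to `L`:

  `algF_core`, `algF` :  `φ g = z ^ m * g ^ Q`  for every `g ∈ F` having an `m`-th root in `L`.
-/

set_option autoImplicit false

namespace Fermat.Agent.S35.H891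

open Polynomial
open Fermat.Agent.S18.H138 (chart baseField)
open Fermat.Agent.A2.H12

universe u

section Defs

variable {R : Type u} [CommRing R] {F : Type u} [Field F] [Algebra R F]

/-- **FIX.**  The automorphism `φ` maps every crossing point of the chart `R[T]`-integral
closure (a closed point lying on two distinct sheets) into itself, for `T = {x}` and
`T = {x⁻¹}`.  (Stated for `φ⁻¹`; for closed points this is equivalent to `φ 𝔫 = 𝔫`.) -/
def NodesFixed (w : R) (x : F) (φ : F ≃+* F) : Prop :=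
  ∀ T : Set F, T = {x} ∨ T = {x⁻¹} → ∀ 𝔫 : Ideal (chart R T), 𝔫.IsMaximal →
    ∀ V V' : ValuationSubring F, IsSheet w x V → IsSheet w x V' → V ≠ V' →
      (∀ c : chart R T, (c : F) ∈ V.nonunits → c ∈ 𝔫) →
      (∀ c : chart R T, (c : F) ∈ V'.nonunits → c ∈ 𝔫) →
      ∀ c : chart R T, c ∈ 𝔫 → ∀ h : φ.symm (c : F) ∈ chart R T,
        (⟨φ.symm (c : F), h⟩ : chart R T) ∈ 𝔫

variable (L : Type u) [Field L] [Algebra F L] [Algebra R L] [IsScalarTower R F L]

/-- **SURJ.**  Modulo every sheet `W` of the cover `L`, the charts of `L` are generated by the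
charts of `F` (the components of the special fibre of the cover map isomorphically onto the
components of the base: residue degree one + the base components are normal). -/
def SurjConclusion (w : R) (x : F) : Prop :=
  ∀ W : ValuationSubring L, IsSheet w (algebraMap F L x) W →
    (∀ b ∈ chart R ({algebraMap F L x} : Set L), ∃ c ∈ chart R ({x} : Set F),
      b - algebraMap F L c ∈ W.nonunits) ∧
    (∀ b ∈ chart R ({(algebraMap F L x)⁻¹} : Set L), ∃ c ∈ chart R ({x⁻¹} : Set F),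
      b - algebraMap F L c ∈ W.nonunits)

end Defs

section Charts

variable {R : Type u} [CommRing R] {F : Type u} [Field F] [Algebra R F]
variable {L : Type u} [Field L] [Algebra F L] [Algebra R L] [IsScalarTower R F L]

theorem algebraMap_mem_adjoin_image {T : Set F} {a : F} (ha : a ∈ Algebra.adjoin R T) :
    algebraMap F L a ∈ Algebra.adjoin R (algebraMap F L '' T) := by
  induction ha using Algebra.adjoin_induction with
  | mem y hy => exact Algebra.subset_adjoin ⟨y, hy, rfl⟩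
  | algebraMap r =>
    rw [← IsScalarTower.algebraMap_apply]
    exact Subalgebra.algebraMap_mem _ _
  | add y z _ _ hy hz => rw [map_add]; exact Subalgebra.add_mem _ hy hz
  | mul y z _ _ hy hz => rw [map_mul]; exact Subalgebra.mul_mem _ hy hz

/-- The chart of `F` maps into the chart of `L`. -/
theorem algebraMap_mem_chart_image {T : Set F} {c : F} (hc : c ∈ chart R T) :
    algebraMap F L c ∈ chart R (algebraMap F L '' T) := by
  let φ : Algebra.adjoin R T →+* Algebra.adjoin R (algebraMap F L '' T) :=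
    RingHom.restrict (algebraMap F L) _ _ (fun a ha => algebraMap_mem_adjoin_image ha)
  exact IsIntegral.map_of_comp_eq (R := Algebra.adjoin R T) (S := F)
    (T := Algebra.adjoin R (algebraMap F L '' T)) (U := L) φ (algebraMap F L) (by ext; rfl) hc

theorem algebraMap_mem_chart_fin {x c : F} (hc : c ∈ chart R ({x} : Set F)) :
    algebraMap F L c ∈ chart R ({algebraMap F L x} : Set L) := by
  have := algebraMap_mem_chart_image (L := L) hc
  rwa [Set.image_singleton] at this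

theorem algebraMap_mem_chart_inf {x c : F} (hc : c ∈ chart R ({x⁻¹} : Set F)) :
    algebraMap F L c ∈ chart R ({(algebraMap F L x)⁻¹} : Set L) := by
  have := algebraMap_mem_chart_image (L := L) hc
  rwa [Set.image_singleton, map_inv₀] at this

/-- The contraction of a maximal ideal of a chart of `L` to the chart of `F` is maximal. -/
theorem isMaximal_comap_chart {TF : Set F} {TL : Set L} (hT : TL = algebraMap F L '' TF)
    (ι : chart R TF →+* chart R TL) (hι : ∀ c : chart R TF, ((ι c : chart R TL) : L) =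
      algebraMap F L (c : F))
    (𝔫 : Ideal (chart R TL)) (h𝔫 : 𝔫.IsMaximal) : (𝔫.comap ι).IsMaximal := by
  subst hT
  have hint : ι.IsIntegral := by
    intro b
    have hb : IsIntegral (Algebra.adjoin R (algebraMap F L '' TF)) (b : L) := b.2
    obtain ⟨p, hpm, hp⟩ := hb
    -- the surjection `R[T_F] → R[T_L]`
    let ψ : Algebra.adjoin R TF →+* Algebra.adjoin R (algebraMap F L '' TF) :=
      RingHom.restrict (algebraMap F L) _ _ (fun a ha => algebraMap_mem_adjoin_image ha)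
    have hψ : Function.Surjective ψ := by
      rintro ⟨a, ha⟩
      induction ha using Algebra.adjoin_induction with
      | mem y hy =>
        obtain ⟨t, ht, rfl⟩ := hy
        exact ⟨⟨t, Algebra.subset_adjoin ht⟩, rfl⟩
      | algebraMap r =>
        refine ⟨algebraMap R _ r, Subtype.ext ?_⟩
        change algebraMap F L (algebraMap R F r) = algebraMap R L r
        rw [← IsScalarTower.algebraMap_apply]
      | add y z hy' hz' hy hz =>
        obtain ⟨cy, hcy⟩ := hy
        obtain ⟨cz, hcz⟩ := hz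
        refine ⟨cy + cz, ?_⟩
        rw [map_add, hcy, hcz]
        rfl
      | mul y z hy' hz' hy hz =>
        obtain ⟨cy, hcy⟩ := hy
        obtain ⟨cz, hcz⟩ := hz
        refine ⟨cy * cz, ?_⟩
        rw [map_mul, hcy, hcz]
        rfl
    have hpl : p ∈ Polynomial.lifts ψ := by
      rw [Polynomial.mem_lifts]
      exact Polynomial.map_surjective ψ hψ p
    obtain ⟨q₀, hq₀, -, hq₀m⟩ := Polynomial.lifts_and_degree_eq_and_monic hpl hpm
    -- the inclusion `R[T_F] → chart_F`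
    let j : Algebra.adjoin R TF →+* chart R TF :=
      (Subalgebra.inclusion (Fermat.Agent.S18.H138.adjoin_le_chart TF)).toRingHom
    refine ⟨q₀.map j, hq₀m.map j, ?_⟩
    apply Subtype.ext
    have h1 : ((Polynomial.eval₂ ι b (q₀.map j) : chart R (algebraMap F L '' TF)) : L) =
        Polynomial.eval₂ ((chart R (algebraMap F L '' TF)).val.toRingHom.comp ι) (b : L)
          (q₀.map j) :=
      Polynomial.hom_eval₂ (q₀.map j) ι ((chart R (algebraMap F L '' TF)).val.toRingHom) b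
    rw [h1, Polynomial.eval₂_map]
    have h2 : ((chart R (algebraMap F L '' TF)).val.toRingHom.comp ι).comp j =
        (algebraMap (Algebra.adjoin R (algebraMap F L '' TF)) L).comp ψ := by
      ext a
      change ((ι (j a) : chart R (algebraMap F L '' TF)) : L) = algebraMap F L (a : F)
      rw [hι]
      rfl
    rw [h2, ← Polynomial.eval₂_map, hq₀, hp]
    rfl
  have := h𝔫
  exact Ideal.isMaximal_comap_of_isIntegral_of_isMaximal' ι hint 𝔫

end Charts

section Asm

variable {R : Type u} [CommRing R] {F : Type u} [Field F] [Algebra R F]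
variable {L : Type u} [Field L] [Algebra F L] [Algebra R L] [IsScalarTower R F L]

/-- A semilinear automorphism fixing `x` preserves the charts of `F`. -/
theorem symm_mem_chart (x : F) (φ : F ≃+* F) (φR : R ≃+* R)
    (hφx : φ x = x) (hφR : ∀ r, φ (algebraMap R F r) = algebraMap R F (φR r))
    {T : Set F} (hT : T = {x} ∨ T = {x⁻¹}) {c : F} (hc : c ∈ chart R T) :
    φ.symm c ∈ chart R T := by
  have hxs : φ.symm x = x := by rw [RingEquiv.symm_apply_eq, hφx]
  refine chart_map_mem (T := T) (φ.symm : F →+* F) (fun r => ⟨φR.symm r, ?_⟩) ?_ hc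
  · change φ.symm (algebraMap R F r) = _
    rw [RingEquiv.symm_apply_eq, hφR, RingEquiv.apply_symm_apply]
  · intro t ht
    rcases hT with rfl | rfl
    · rw [Set.mem_singleton_iff] at ht
      subst ht
      change φ.symm t ∈ _
      rw [hxs]
      exact Algebra.subset_adjoin rfl
    · rw [Set.mem_singleton_iff] at ht
      subst ht
      change φ.symm x⁻¹ ∈ _
      rw [map_inv₀, hxs]
      exact Algebra.subset_adjoin rfl

/-- **The node step.**  A crossing point `𝔫` of the cover chart lying on a `φ'`-fixed sheet `W`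
is mapped into itself by `φ'⁻¹`. -/
theorem node_step (w : R) (x : F) (φ : F ≃+* F) (φR : R ≃+* R)
    (hφx : φ x = x) (hφR : ∀ r, φ (algebraMap R F r) = algebraMap R F (φR r))
    (hFix : NodesFixed w x φ)
    (φ' : L ≃+* L) (hφ' : ∀ f : F, φ' (algebraMap F L f) = algebraMap F L (φ f))
    (TF : Set F) (hTF : TF = {x} ∨ TF = {x⁻¹}) (TL : Set L) (hTL : TL = algebraMap F L '' TF)
    (hCount : CountAt L w x TL)
    (hφchart : ∀ b, b ∈ chart R TL ↔ φ' b ∈ chart R TL)
    (W W' : ValuationSubring L) (hW : IsSheet w (algebraMap F L x) W)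
    (hW' : IsSheet w (algebraMap F L x) W') (hne : W ≠ W')
    (hsurj : ∀ b ∈ chart R TL, ∃ c ∈ chart R TF, b - algebraMap F L c ∈ W.nonunits)
    (hWfix : ∀ b, b ∈ W.nonunits ↔ φ' b ∈ W.nonunits)
    (𝔫 : Ideal (chart R TL)) (h𝔫 : 𝔫.IsMaximal)
    (hWn : ∀ c : chart R TL, (c : L) ∈ W.nonunits → c ∈ 𝔫)
    (hW'n : ∀ c : chart R TL, (c : L) ∈ W'.nonunits → c ∈ 𝔫)
    (c : chart R TL) (hc : c ∈ 𝔫) (h : φ'.symm (c : L) ∈ chart R TL) :
    (⟨φ'.symm (c : L), h⟩ : chart R TL) ∈ 𝔫 := by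
  have hmemL : ∀ c₀ : F, c₀ ∈ chart R TF → algebraMap F L c₀ ∈ chart R TL := by
    intro c₀ hc₀
    rw [hTL]
    exact algebraMap_mem_chart_image hc₀
  -- the inclusion of charts
  let ι : chart R TF →+* chart R TL :=
    { toFun := fun c₀ => ⟨algebraMap F L (c₀ : F), hmemL _ c₀.2⟩
      map_one' := Subtype.ext (map_one _)
      map_mul' := fun a b => Subtype.ext (map_mul _ _ _)
      map_zero' := Subtype.ext (map_zero _)
      map_add' := fun a b => Subtype.ext (map_add _ _ _) }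
  have hι : ∀ c₀ : chart R TF, ((ι c₀ : chart R TL) : L) = algebraMap F L (c₀ : F) :=
    fun _ => rfl
  have hmax : (𝔫.comap ι).IsMaximal := isMaximal_comap_chart hTL ι hι 𝔫 h𝔫
  -- decompose `c`
  obtain ⟨c₀, hc₀, hc₀W⟩ := hsurj c c.2
  have ha : (c - ι ⟨c₀, hc₀⟩ : chart R TL) ∈ 𝔫 := hWn _ hc₀W
  have hc₀n : (⟨c₀, hc₀⟩ : chart R TF) ∈ 𝔫.comap ι := by
    rw [Ideal.mem_comap]
    have : ι ⟨c₀, hc₀⟩ = c - (c - ι ⟨c₀, hc₀⟩) := by ring
    rw [this]
    exact 𝔫.sub_mem hc ha
  -- the sheets below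
  have hV := IsSheet.comap_algebraMap hW
  have hV' := IsSheet.comap_algebraMap hW'
  have hVne : W.comap (algebraMap F L) ≠ W'.comap (algebraMap F L) := fun hVV =>
    hne (hCount 𝔫 h𝔫 W W' hW hW' hVV hWn hW'n)
  have hVn : ∀ d : chart R TF, (d : F) ∈ (W.comap (algebraMap F L)).nonunits →
      d ∈ 𝔫.comap ι := by
    intro d hd
    rw [Ideal.mem_comap]
    exact hWn _ ((mem_nonunits_comap W (algebraMap F L) _).1 hd)
  have hV'n : ∀ d : chart R TF, (d : F) ∈ (W'.comap (algebraMap F L)).nonunits →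
      d ∈ 𝔫.comap ι := by
    intro d hd
    rw [Ideal.mem_comap]
    exact hW'n _ ((mem_nonunits_comap W' (algebraMap F L) _).1 hd)
  have hsymm₀ : φ.symm c₀ ∈ chart R TF := symm_mem_chart x φ φR hφx hφR hTF hc₀
  have h1 := hFix TF hTF (𝔫.comap ι) hmax _ _ hV hV' hVne hVn hV'n ⟨c₀, hc₀⟩ hc₀n hsymm₀
  rw [Ideal.mem_comap] at h1
  -- the part in the sheet
  have hsymm_chart : ∀ b, b ∈ chart R TL → φ'.symm b ∈ chart R TL := by
    intro b hb
    rw [hφchart]
    simpa using hb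
  have h2mem : φ'.symm ((c : L) - algebraMap F L c₀) ∈ chart R TL :=
    hsymm_chart _ (Subalgebra.sub_mem _ c.2 (hmemL _ hc₀))
  have h2 : (⟨φ'.symm ((c : L) - algebraMap F L c₀), h2mem⟩ : chart R TL) ∈ 𝔫 := by
    apply hWn
    change φ'.symm ((c : L) - algebraMap F L c₀) ∈ W.nonunits
    rw [hWfix]
    simpa using hc₀W
  have h3 : (⟨φ'.symm (c : L), h⟩ : chart R TL) =
      ι ⟨φ.symm c₀, hsymm₀⟩ + ⟨φ'.symm ((c : L) - algebraMap F L c₀), h2mem⟩ := by
    apply Subtype.ext
    change φ'.symm (c : L) = algebraMap F L (φ.symm c₀) + φ'.symm ((c : L) - algebraMap F L c₀)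
    rw [map_sub, lift_symm_algebraMap φ φ' hφ']
    ring
  rw [h3]
  exact 𝔫.add_mem h1 h2

/-- **Frobenius ALG core.**  Cover `L / F` with the leaf conclusions, lift `φ'` of `φ` fixing
the sheet `W₀`: then `φ g / g ^ Q ∈ F ^ m` for every `g` with an `m`-th root in `L`. -/
theorem algF_core [IsDomain R] [IsNoetherianRing R] [IsIntegrallyClosed R[X]] [CharZero F]
    (w : R) (x : F) (m Q : ℕ) (φ : F ≃+* F) (φR : R ≃+* R)
    (hinj : Function.Injective (algebraMap R F)) (hx : Transcendental R x) (hw : Prime w)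
    (hm : 0 < m) (hroot : ∃ ζ : R, IsPrimitiveRoot ζ m ∧ φR ζ = ζ ^ Q)
    (hφx : φ x = x) (hφR : ∀ r, φ (algebraMap R F r) = algebraMap R F (φR r))
    (hφw : ∀ r, w ∣ r ↔ w ∣ φR r)
    (hφV : ∀ V : ValuationSubring F, IsSheet w x V → ∀ c : F, (c ∈ V ↔ φ c ∈ V))
    (hFix : NodesFixed w x φ)
    [FiniteDimensional F L] [IsGalois F L]
    (hS : SheetsConclusion L w x) (hRed : RedConclusion L w x)
    (hConst : ConstConclusion (R := R) L x) (hCount : CountConclusion L w x)
    (hSurj : SurjConclusion L w x)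
    (φ' : L ≃+* L) (hφ' : ∀ f : F, φ' (algebraMap F L f) = algebraMap F L (φ f))
    (W₀ : ValuationSubring L) (hW₀ : IsSheet w (algebraMap F L x) W₀)
    (hfix : ∀ b, b ∈ W₀ ↔ φ' b ∈ W₀)
    (g : F) (hg : g ≠ 0) (y : L) (hy : y ^ m = algebraMap F L g) :
    ∃ z : F, φ g = z ^ m * g ^ Q := by
  classical
  set xL : L := algebraMap F L x with hxL
  let S := ↥{W : ValuationSubring L | IsSheet w xL W}
  have : Fintype S := hS.finite.fintype
  let M : S → AddSubgroup L := fun s => s.1.nonunits.toAddSubgroup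
  have hι : Function.Injective (algebraMap F L) := (algebraMap F L).injective
  have hinjL : Function.Injective (algebraMap R L) := by
    rw [IsScalarTower.algebraMap_eq R F L]
    exact hι.comp hinj
  have : CharZero L := charZero_of_injective_algebraMap hι
  have := hConst.finite
  have hxLt : Transcendental R xL := (transcendental_algebraMap_iff hι).2 hx
  have hy0 : y ≠ 0 := by
    rintro rfl
    rw [zero_pow hm.ne'] at hy
    exact hg (hι (by rw [← hy, map_zero]))
  have hιg : algebraMap F L g ≠ 0 := fun h => hg (hι (by rw [h, map_zero]))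
  -- roots of unity
  have hζ : ∀ σ ∈ galSubgroup F L, ∃ ζ : L, σ y = ζ * y ∧ φ' ζ = ζ ^ Q := by
    intro σ hσ
    obtain ⟨ζ₀, hζ₀, hφζ₀⟩ := hroot
    have hprim : IsPrimitiveRoot (algebraMap R L ζ₀) m := hζ₀.map_of_injective hinjL
    have hpow : (σ y / y) ^ m = 1 := by
      rw [div_pow, ← map_pow, hy, hσ g, div_self hιg]
    have : NeZero m := ⟨hm.ne'⟩
    obtain ⟨i, -, hi⟩ := hprim.eq_pow_of_pow_eq_one hpow
    refine ⟨σ y / y, by field_simp, ?_⟩
    rw [← hi, map_pow, lift_algebraMap_R φ φR hφR φ' hφ', hφζ₀, map_pow, ← pow_mul, ← pow_mul,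
      mul_comm]
  have hchart_fin := lift_chart_iff (L := L) x φ φR hφx hφR φ' hφ' {xL}
    (Set.singleton_subset_iff.2 (Or.inl rfl))
  have hchart_inf := lift_chart_iff (L := L) x φ φR hφx hφR φ' hφ' {xL⁻¹}
    (Set.singleton_subset_iff.2 (Or.inr rfl))
  have key := wallF (R := R) (L := L) (S := S) w (chart R {xL}) (chart R {xL⁻¹})
    (chart R {xL, xL⁻¹}) M
    (fun s c hc a ha => mul_mem_nonunits s.1 ha (s.2.chart_le Set.Subset.rfl hc))
    (Fermat.Agent.S18.H138.chart_mono (Set.singleton_subset_iff.2 (Or.inl rfl)))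
    (Fermat.Agent.S18.H138.chart_mono (Set.singleton_subset_iff.2 (Or.inr rfl)))
    (fun s => one_not_mem_nonunits s.1)
    (fun s => s.2.2.2.1)
    (fun b hb h => hRed _ (Or.inr (Or.inr rfl)) b hb (fun W hW => h ⟨W, hW⟩))
    (fun b hb h => hRed _ (Or.inl rfl) b hb (fun W hW => h ⟨W, hW⟩))
    (fun b hb h => hRed _ (Or.inr (Or.inl rfl)) b hb (fun W hW => h ⟨W, hW⟩))
    (fun e₁ e₂ he₁ he₂ h1 h2 h12 =>
      Fermat.Agent.S18.H138.connected_special_fibre hinjL hConst.closed hxLt w hw e₁ e₂ he₁ he₂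
        h1 h2 h12)
    φ' hchart_fin hchart_inf
    (fun s => ⟨⟨s.1.comap (φ'.symm : L →+* L), lift_isSheet w x φ φR hφx hφR hφw φ' hφ' s.2⟩,
      fun b => by
        change b ∈ s.1.nonunits ↔ φ' b ∈ (s.1.comap (φ'.symm : L →+* L)).nonunits
        rw [mem_nonunits_comap]
        simp⟩)
    (fun s t hst => by
      apply Subtype.ext
      apply ValuationSubring.nonunits_injective
      ext b
      have := congrArg (fun A : AddSubgroup L => b ∈ A) hst
      exact iff_of_eq this)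
    (col := fun s : S => s.1.comap (algebraMap F L))
    (fun s s' h => by
      have hmem := mem_iff_of_nonunits_iff φ' s.1 s'.1 h
      have hV := (IsSheet.comap_algebraMap s.2)
      ext f
      have h1 := hmem (algebraMap F L (φ.symm f))
      rw [hφ', RingEquiv.apply_symm_apply] at h1
      have h2 := hφV _ hV (φ.symm f)
      rw [RingEquiv.apply_symm_apply] at h2
      rw [ValuationSubring.mem_comap, ← h1, ← ValuationSubring.mem_comap, h2])
    (fun s t hs hst 𝔫 h𝔫 hsn htn c hc h =>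
      node_step w x φ φR hφx hφR hFix φ' hφ' {x} (Or.inl rfl) {xL}
        (by rw [Set.image_singleton]) hCount.1 hchart_fin s.1 t.1 s.2 t.2
        (fun hst' => hst (Subtype.ext hst')) (hSurj s.1 s.2).1 hs 𝔫 h𝔫 hsn htn c hc h)
    (fun s t hs hst 𝔫 h𝔫 hsn htn c hc h =>
      node_step w x φ φR hφx hφR hFix φ' hφ' {x⁻¹} (Or.inr rfl) {xL⁻¹}
        (by rw [Set.image_singleton, map_inv₀]) hCount.2 hchart_inf s.1 t.1 s.2 t.2
        (fun hst' => hst (Subtype.ext hst')) (hSurj s.1 s.2).2 hs 𝔫 h𝔫 hsn htn c hc h)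
    (fun 𝔫 h𝔫 s t hc hs ht => Subtype.ext (hCount.1 𝔫 h𝔫 s.1 t.1 s.2 t.2 hc hs ht))
    (fun 𝔫 h𝔫 s t hc hs ht => Subtype.ext (hCount.2 𝔫 h𝔫 s.1 t.1 s.2 t.2 hc hs ht))
    ⟨W₀, hW₀⟩ (nonunits_iff_of_mem_iff φ' W₀ W₀ hfix)
    (galSubgroup F L)
    (fun σ hσ s => ⟨⟨s.1.comap (σ.symm : L →+* L), gal_isSheet w x σ hσ s.2⟩, fun b => by
        change b ∈ s.1.nonunits ↔ σ b ∈ (s.1.comap (σ.symm : L →+* L)).nonunits
        rw [mem_nonunits_comap]
        simp⟩)
    (fun σ hσ s h => by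
      have hmem := mem_iff_of_nonunits_iff σ s.1 s.1 h
      have h1 := hS.free s.1 s.2 (AlgEquiv.ofRingEquiv (f := σ) hσ) hmem
      ext b
      have := congrArg (fun f : L ≃ₐ[F] L => f b) h1
      exact this)
    (fun σ hσ f => by
      change φ' (σ (φ'.symm (algebraMap F L f))) = algebraMap F L f
      rw [lift_symm_algebraMap φ φ' hφ', hσ, hφ', RingEquiv.apply_symm_apply])
    y hy0 Q hζ
  -- conclusion
  have hz : φ' y / y ^ Q ∈ (⊥ : IntermediateField F L) := by
    rw [IsGalois.mem_bot_iff_fixed]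
    intro f
    exact key (f : L ≃+* L) (fun c => f.commutes c)
  obtain ⟨z, hz⟩ := IntermediateField.mem_bot.1 hz
  refine ⟨z, hι ?_⟩
  have hyQ : y ^ Q ≠ 0 := pow_ne_zero _ hy0
  rw [map_mul, map_pow, map_pow, hz, div_pow, ← hy, ← pow_mul, ← pow_mul, mul_comm Q m,
    div_mul_cancel₀ _ (pow_ne_zero _ hy0), ← map_pow, hy, hφ']

/-- **Frobenius ALG assembly.**  From the leaf conclusions SHEETS, RED, CONST, COUNT, SURJ (for
all Kummer-split covers of `F`) and a cover to which `φ` lifts (COVER): `φ g / g ^ Q` is an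
`m`-th power in `F`. -/
theorem algF [IsDomain R] [IsNoetherianRing R] [IsIntegrallyClosed R[X]] [CharZero F]
    (w : R) (x : F) (m Q : ℕ) (φ : F ≃+* F) (φR : R ≃+* R)
    (hinj : Function.Injective (algebraMap R F)) (hx : Transcendental R x) (hw : Prime w)
    (hm : 0 < m) (hroot : ∃ ζ : R, IsPrimitiveRoot ζ m ∧ φR ζ = ζ ^ Q)
    (hφx : φ x = x) (hφR : ∀ r, φ (algebraMap R F r) = algebraMap R F (φR r))
    (hφw : ∀ r, w ∣ r ↔ w ∣ φR r)
    (hφV : ∀ V : ValuationSubring F, IsSheet w x V → ∀ c : F, (c ∈ V ↔ φ c ∈ V))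
    (hFix : NodesFixed w x φ)
    (hsheet : ∃ V : ValuationSubring F, IsSheet w x V)
    (hSheets : ∀ (L : Type u) [Field L] [Algebra F L] [Algebra R L] [IsScalarTower R F L],
      IsKummerSplit L w x m → SheetsConclusion L w x)
    (hRed : ∀ (L : Type u) [Field L] [Algebra F L] [Algebra R L] [IsScalarTower R F L],
      IsKummerSplit L w x m → RedConclusion L w x)
    (hConst : ∀ (L : Type u) [Field L] [Algebra F L] [Algebra R L] [IsScalarTower R F L],
      IsKummerSplit L w x m → ConstConclusion (R := R) L x)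
    (hCount : ∀ (L : Type u) [Field L] [Algebra F L] [Algebra R L] [IsScalarTower R F L],
      IsKummerSplit L w x m → CountConclusion L w x)
    (hSurj : ∀ (L : Type u) [Field L] [Algebra F L] [Algebra R L] [IsScalarTower R F L],
      IsKummerSplit L w x m → SurjConclusion L w x)
    (g : F) (hg : g ≠ 0) (hCover : CoverConclusion w x m φ g) :
    ∃ z : F, φ g = z ^ m * g ^ Q := by
  obtain ⟨L, _, _, _, _, hKS, φ₀, y, hφ₀, hy⟩ := hCover
  have := hKS.finite
  have := hKS.galois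
  have S1 := hSheets L hKS
  obtain ⟨V₀, hV₀⟩ := hsheet
  obtain ⟨W₀, hW₀, -⟩ := S1.exists_over V₀ hV₀
  have hW₁ : IsSheet w (algebraMap F L x) (W₀.comap (φ₀.symm : L →+* L)) :=
    lift_isSheet w x φ φR hφx hφR hφw φ₀ hφ₀ hW₀
  have hcol : (W₀.comap (φ₀.symm : L →+* L)).comap (algebraMap F L) =
      W₀.comap (algebraMap F L) := by
    ext f
    have h2 := hφV _ (IsSheet.comap_algebraMap hW₀) (φ.symm f)
    rw [RingEquiv.apply_symm_apply] at h2
    rw [ValuationSubring.mem_comap, ValuationSubring.mem_comap]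
    change φ₀.symm (algebraMap F L f) ∈ W₀ ↔ _
    rw [lift_symm_algebraMap φ φ₀ hφ₀, ← ValuationSubring.mem_comap, h2]
  obtain ⟨σ, hσ⟩ := S1.trans _ W₀ hW₁ hW₀ hcol
  refine algF_core (L := L) w x m Q φ φR hinj hx hw hm hroot hφx hφR hφw hφV hFix S1
    (hRed L hKS) (hConst L hKS) (hCount L hKS) (hSurj L hKS) (φ₀.trans (σ : L ≃+* L)) ?_ W₀ hW₀
    ?_ g hg y hy
  · intro f
    change σ (φ₀ (algebraMap F L f)) = _
    rw [hφ₀, σ.commutes]
  · intro b
    change b ∈ W₀ ↔ σ (φ₀ b) ∈ W₀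
    rw [← hσ, ValuationSubring.mem_comap]
    change _ ↔ φ₀.symm (φ₀ b) ∈ W₀
    rw [RingEquiv.symm_apply_apply]

end Asm

end Fermat.Agent.S35.H891

end
-- ===== PACK-END S35/H891/FrobAsm.lean

-- ===== PACK-BEGIN S36/H193/LabelLocal.lean
section


/-!
# S36 engine, leaf CLOPEN (helper193), part 5: labels at a closed point from a purity datum

Setting of `LabelWall.lean`.  `C` is a chart of the cover field `Z`, `𝔫` a closed point of its
special fibre, `G ∈ Z` the Kummer generator.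

* `isUnit_sub_of_pow_eq_one` : two distinct `m`-th roots of unity in a domain in which `m` is
  invertible differ by a unit.
* `label_ratio_at_point` : let `G = Y h` with `Y` regular at `𝔫` (`s' G = a' h`, `s' ∉ 𝔫`), and let
  `W, W'` be sheets through `𝔫` on which `h` has the residues `t / s`, `t₁ / s₁` (regular at `𝔫`)
  and `G` the labels `ca`, `cb`.  Then `ca · s · t₁ ≡ cb · s₁ · t` modulo `𝔫`: *the ratio of the
  labels is the ratio of the values at `𝔫` of the residues of `h`*.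
* `PureValuesAt` : a purity datum `h` at `𝔫` whose residue on every sheet `W` through `𝔫` has
  the value `ζ ^ κ W · v` at `𝔫` (the output of purity + norm compatibility of the label ratios).
* **`kummer_wall3_of_values`** : `PureValuesAt` at every closed point of the special fibre of the
  two charts of `Z`, with `κ` depending only on the colour of the sheet, implies `G ∈ F`.
-/

set_option autoImplicit false
set_option linter.style.haveILetI false

namespace Fermat.Agent.S36.H193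

open Polynomial Fermat.Agent.S18.H138

section Units

variable {A : Type*} [CommRing A] [IsDomain A]

/-- Distinct `m`-th roots of unity differ by a unit if `m` is invertible. -/
theorem isUnit_sub_of_pow_eq_one {m : ℕ} {mi : A} (hmi : (m : A) * mi = 1) {u v : A}
    (hu : u ^ m = 1) (hv : v ^ m = 1) (hne : u ≠ v) : IsUnit (u - v) := by
  have hm0 : m ≠ 0 := by
    rintro rfl
    simp at hmi
  have hS : ∑ i ∈ Finset.range m, u ^ i * v ^ (m - 1 - i) = 0 := by
    have h := geom_sum₂_mul u v m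
    rw [hu, hv, sub_self] at h
    rcases mul_eq_zero.1 h with h1 | h1
    · exact h1
    · exact absurd (sub_eq_zero.1 h1) hne
  have hdvd : u - v ∣ ∑ i ∈ Finset.range m, (u ^ i - v ^ i) * v ^ (m - 1 - i) :=
    Finset.dvd_sum fun i _ => Dvd.dvd.mul_right (sub_dvd_pow_sub_pow u v i) _
  have hsum : ∑ i ∈ Finset.range m, (u ^ i - v ^ i) * v ^ (m - 1 - i) =
      -((m : A) * v ^ (m - 1)) := by
    have h1 : ∀ i ∈ Finset.range m, (u ^ i - v ^ i) * v ^ (m - 1 - i) =
        u ^ i * v ^ (m - 1 - i) - v ^ (m - 1) := by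
      intro i hi
      have hi' : i + (m - 1 - i) = m - 1 := by
        have := Finset.mem_range.1 hi
        omega
      rw [sub_mul, ← pow_add, hi']
    rw [Finset.sum_congr rfl h1, Finset.sum_sub_distrib, hS, zero_sub]
    simp
  rw [hsum] at hdvd
  have hvu : IsUnit v := IsUnit.of_pow_eq_one hv hm0
  have hmu : IsUnit (m : A) := IsUnit.of_mul_eq_one _ hmi
  exact isUnit_of_dvd_unit hdvd ((hmu.mul (hvu.pow _)).neg)

end Units

section Local

variable {R : Type*} [CommRing R] {Z : Type*} [Field Z] [Algebra R Z]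

/-- **The ratio of the labels of two sheets through a closed point** is the ratio of the values
at that point of the residues of a purity datum. -/
theorem label_ratio_at_point (C : Subalgebra R Z) (𝔫 : Ideal C) [h𝔫 : 𝔫.IsPrime]
    {W W' : ValuationSubring Z} (hCW : ∀ c ∈ C, c ∈ W) (hCW' : ∀ c ∈ C, c ∈ W')
    (hth : Through C 𝔫 W) (hth' : Through C 𝔫 W')
    {G h : Z} {a' s' : C} (hs' : s' ∉ 𝔫) (hY : (s' : Z) * G = a' * h)
    {s t s₁ t₁ : C} (hh : (s : Z) * h - t ∈ W.nonunits) (hh' : (s₁ : Z) * h - t₁ ∈ W'.nonunits)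
    {ca cb : C} (hGa : G - ca ∈ W.nonunits) (hGb : G - cb ∈ W'.nonunits) :
    ca * s * t₁ - cb * s₁ * t ∈ 𝔫 := by
  -- on `W`: `s s' ca - a' t ∈ 𝔫`
  have key : ∀ {V : ValuationSubring Z}, (∀ c ∈ C, c ∈ V) → Through C 𝔫 V →
      ∀ {σ τ c : C}, (σ : Z) * h - τ ∈ V.nonunits → G - c ∈ V.nonunits →
        σ * s' * c - a' * τ ∈ 𝔫 := by
    intro V hCV hV σ τ c h1 h2
    apply hV
    have : ((σ * s' * c - a' * τ : C) : Z) =
        (a' : Z) * ((σ : Z) * h - τ) - (σ : Z) * (s' : Z) * (G - c) := by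
      push_cast
      have : (σ : Z) * (s' : Z) * G = (σ : Z) * ((a' : Z) * h) := by rw [← hY]; ring
      linear_combination this
    rw [this]
    exact nu_sub V (nu_mul_left V h1 (hCV _ a'.2))
      (nu_mul_left V h2 (V.mul_mem _ _ (hCV _ σ.2) (hCV _ s'.2)))
  have h1 := key hCW hth hh hGa
  have h2 := key hCW' hth' hh' hGb
  have h3 : s' * (ca * s * t₁ - cb * s₁ * t) ∈ 𝔫 := by
    have : s' * (ca * s * t₁ - cb * s₁ * t) =
        t₁ * (s * s' * ca - a' * t) - t * (s₁ * s' * cb - a' * t₁) := by ring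
    rw [this]
    exact 𝔫.sub_mem (𝔫.mul_mem_left _ h1) (𝔫.mul_mem_left _ h2)
  exact (h𝔫.mem_or_mem h3).resolve_left hs'

/-- A **purity datum with normalised values** at the closed point `𝔫` of the chart `C`:
`G = Y h` with `Y` regular at `𝔫`, and on every sheet `W` through `𝔫` the residue of `h` is
regular at `𝔫` with value `ζ ^ κ W · v`. -/
def PureValuesAt (𝒲 : Set (ValuationSubring Z)) (C : Subalgebra R Z) (𝔫 : Ideal C) (G : Z)
    (ζ : R) (κ : ValuationSubring Z → ℕ) : Prop :=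
  ∃ (h : Z) (a' s' v : C), s' ∉ 𝔫 ∧ v ∉ 𝔫 ∧ (s' : Z) * G = a' * h ∧
    ∀ W ∈ 𝒲, Through C 𝔫 W → ∃ s t : C, s ∉ 𝔫 ∧ (s : Z) * h - t ∈ W.nonunits ∧
      t - algebraMap R C (ζ ^ κ W) * v * s ∈ 𝔫

/-- The local hypothesis of `kummer_wall3` from a purity datum with normalised values. -/
theorem label_eq_of_pureValuesAt [IsDomain R] {𝒲 : Set (ValuationSubring Z)}
    (C : Subalgebra R Z) (𝔫 : Ideal C) [h𝔫 : 𝔫.IsPrime]
    (hC : ∀ W ∈ 𝒲, ∀ c ∈ C, c ∈ W)
    {m : ℕ} {mi : R} (hmi : (m : R) * mi = 1) {ζ : R} (hζ : ζ ^ m = 1)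
    {G : Z} {κ : ValuationSubring Z → ℕ} (hpv : PureValuesAt 𝒲 C 𝔫 G ζ κ)
    {W W' : ValuationSubring Z} (hW : W ∈ 𝒲) (hW' : W' ∈ 𝒲)
    (hth : Through C 𝔫 W) (hth' : Through C 𝔫 W') {a b : ℕ}
    (ha : G - algebraMap R Z (ζ ^ a) ∈ W.nonunits)
    (hb : G - algebraMap R Z (ζ ^ b) ∈ W'.nonunits) :
    ζ ^ (a + κ W') = ζ ^ (b + κ W) := by
  obtain ⟨h, a', s', v, hs', hv, hY, hval⟩ := hpv
  obtain ⟨s, t, hs, hh, ht⟩ := hval W hW hth
  obtain ⟨s₁, t₁, hs₁, hh', ht₁⟩ := hval W' hW' hth'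
  have hA := label_ratio_at_point C 𝔫 (hC W hW) (hC W' hW') hth hth' hs' hY hh hh'
    (ca := algebraMap R C (ζ ^ a)) (cb := algebraMap R C (ζ ^ b)) ha hb
  -- substitute the values
  have hB : algebraMap R C (ζ ^ (a + κ W') - ζ ^ (b + κ W)) * (v * s * s₁) ∈ 𝔫 := by
    have : algebraMap R C (ζ ^ (a + κ W') - ζ ^ (b + κ W)) * (v * s * s₁) =
        (algebraMap R C (ζ ^ a) * s * t₁ - algebraMap R C (ζ ^ b) * s₁ * t)
          - algebraMap R C (ζ ^ a) * s * (t₁ - algebraMap R C (ζ ^ κ W') * v * s₁)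
          + algebraMap R C (ζ ^ b) * s₁ * (t - algebraMap R C (ζ ^ κ W) * v * s) := by
      simp only [map_sub, map_pow, map_mul, pow_add]
      ring
    rw [this]
    exact 𝔫.add_mem (𝔫.sub_mem hA (𝔫.mul_mem_left _ ht₁)) (𝔫.mul_mem_left _ ht)
  have hprod : v * s * s₁ ∉ 𝔫 := by
    intro hmem
    rcases h𝔫.mem_or_mem hmem with h1 | h1
    · rcases h𝔫.mem_or_mem h1 with h2 | h2
      · exact hv h2
      · exact hs h2
    · exact hs₁ h1
  have hC0 : algebraMap R C (ζ ^ (a + κ W') - ζ ^ (b + κ W)) ∈ 𝔫 :=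
    (h𝔫.mem_or_mem hB).resolve_right hprod
  by_contra hne
  have hu : IsUnit (ζ ^ (a + κ W') - ζ ^ (b + κ W)) :=
    isUnit_sub_of_pow_eq_one hmi (by rw [← pow_mul, mul_comm, pow_mul, hζ, one_pow])
      (by rw [← pow_mul, mul_comm, pow_mul, hζ, one_pow]) hne
  exact h𝔫.ne_top (𝔫.eq_top_of_isUnit_mem hC0 (hu.map (algebraMap R C)))

end Local

section Wall

variable {R : Type*} [CommRing R] {Z : Type*} [Field Z] [Algebra R Z]
variable [IsNoetherianRing R] [IsIntegrallyClosed (Polynomial R)] [CharZero Z]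

/-- **The label wall, purity form.**  If at every closed point of the special fibre of the two
charts of the cover there is a purity datum with normalised values (normalisation depending only
on the colour of the sheet), then the split Kummer generator `G` lies in the base field. -/
theorem kummer_wall3_of_values [IsDomain R]
    (hinjR : Function.Injective (algebraMap R Z))
    (hRF : ∀ y : Z, IsIntegral R y → y ∈ Set.range (algebraMap R Z))
    {x : Z} (hx : Transcendental R x) [FiniteDimensional (baseField R x) Z]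
    (w : R) (hw : Prime w)
    {𝒲 : Set (ValuationSubring Z)} (h𝒲 : 𝒲.Finite) (hne : 𝒲.Nonempty) (hsep : Sep 𝒲)
    (hmid : ∀ W ∈ 𝒲, ∀ c ∈ chart R ({x, x⁻¹} : Set Z), c ∈ W)
    (hwW : ∀ W ∈ 𝒲, algebraMap R Z w ∈ W.nonunits)
    (qep_fin : QepRad 𝒲 w (chart R ({x} : Set Z)))
    (qep_inf : QepRad 𝒲 w (chart R ({x⁻¹} : Set Z)))
    (qep_mid : QepRad 𝒲 w (chart R ({x, x⁻¹} : Set Z)))
    {F : Type*} [Field F] [Algebra R F] [Algebra F Z] [IsScalarTower R F Z]
    [IsGalois F Z] [FiniteDimensional F Z]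
    (hstable : ∀ σ : Z ≃ₐ[F] Z, ∀ W ∈ 𝒲, W.comap ((σ.symm : Z ≃+* Z) : Z →+* Z) ∈ 𝒲)
    {m : ℕ} (hm : 0 < m) {mi : R} (hmi : (m : R) * mi = 1) {ζ : R} (hζ : IsPrimitiveRoot ζ m)
    {G : Z} (hGF : G ^ m ∈ Set.range (algebraMap F Z))
    (hG1 : ∀ W ∈ 𝒲, G ^ m - 1 ∈ W.nonunits)
    (κ : ValuationSubring F → ℕ)
    (hpv_fin : ∀ 𝔫 : Ideal (chart R ({x} : Set Z)), 𝔫.IsMaximal →
      algebraMap R (chart R ({x} : Set Z)) w ∈ 𝔫 →
      PureValuesAt 𝒲 (chart R ({x} : Set Z)) 𝔫 G ζ fun W => κ (W.comap (algebraMap F Z)))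
    (hpv_inf : ∀ 𝔫 : Ideal (chart R ({x⁻¹} : Set Z)), 𝔫.IsMaximal →
      algebraMap R (chart R ({x⁻¹} : Set Z)) w ∈ 𝔫 →
      PureValuesAt 𝒲 (chart R ({x⁻¹} : Set Z)) 𝔫 G ζ fun W => κ (W.comap (algebraMap F Z))) :
    G ∈ Set.range (algebraMap F Z) := by
  have hfm : chart R ({x} : Set Z) ≤ chart R ({x, x⁻¹} : Set Z) := chart_mono (by simp)
  have him : chart R ({x⁻¹} : Set Z) ≤ chart R ({x, x⁻¹} : Set Z) := chart_mono (by simp)
  refine kummer_wall3 hinjR hRF hx w hw h𝒲 hne hsep hmid hwW qep_fin qep_inf qep_mid hstable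
    hm hmi hζ hGF hG1 κ ?_ ?_
  · intro 𝔫 h𝔫 hw𝔫 W hW W' hW' hth hth' a b ha hb
    haveI := h𝔫.isPrime
    exact label_eq_of_pureValuesAt _ 𝔫 (fun V hV c hc => hmid V hV c (hfm hc)) hmi
      hζ.pow_eq_one (hpv_fin 𝔫 h𝔫 hw𝔫) hW hW' hth hth' ha hb
  · intro 𝔫 h𝔫 hw𝔫 W hW W' hW' hth hth' a b ha hb
    haveI := h𝔫.isPrime
    exact label_eq_of_pureValuesAt _ 𝔫 (fun V hV c hc => hmid V hV c (him hc)) hmi
      hζ.pow_eq_one (hpv_inf 𝔫 h𝔫 hw𝔫) hW hW' hth hth' ha hb

end Wall

end Fermat.Agent.S36.H193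

end
-- ===== PACK-END S36/H193/LabelLocal.lean

-- ===== PACK-BEGIN S36/H630/LabelHloc.lean
section



/-!
# S36 engine, LABEL core (helper630), part 3: the local hypothesis of the label wall

`H193.kummer_wall3` (main) proves `G ∈ F` for a split Kummer generator `G ^ m = u` from the local
hypothesis `hloc`: *sheets of the cover `Z` through a common closed point of the special fibre
have the same normalised label*.  This file produces `hloc` from a datum on the BASE `F`:

`LabelAt B n 𝒱 m u ζ κ` : at the closed point `n` of the chart `B ⊆ F` there is a purity datum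
`d` (`u d ^ m ∈ B_n`) whose values along the sheets `V ∈ 𝒱` through `n` are
`η₀ ζ ^ (-κ V)`, with `η₀` independent of the sheet.

So the engine has to provide, at every closed point of the two charts of `F`,
purity (cell REG) and the constancy of the label ratios (LAB-NORM + label algebra).
-/

set_option autoImplicit false
set_option linter.unusedSectionVars false

namespace Fermat.Agent.S36.H630

open Fermat.Agent.S18.H138 Fermat.Agent.S36.H193

variable {R : Type*} [CommRing R] {F : Type*} [Field F] [Algebra R F]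
variable {Z : Type*} [Field Z] [Algebra R Z] [Algebra F Z] [IsScalarTower R F Z]

/-- **The label datum on the base** at a closed point `n` of the chart `B`. -/
def LabelAt (B : Subalgebra R F) (n : Ideal B) (𝒱 : Set (ValuationSubring F)) (m : ℕ) (u : F)
    (ζ : R) (κ : ValuationSubring F → ℕ) : Prop :=
  ∃ (d : F) (a₀ s₀ : B) (η₀ : R), d ≠ 0 ∧ s₀ ∉ n ∧ u * d ^ m * (s₀ : F) = a₀ ∧
    algebraMap R B η₀ ∉ n ∧
    ∀ V ∈ 𝒱, PassThrough B n V → ValAt B n V d (η₀ * ζ ^ ((m - 1) * κ V))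

/-- the image of a chart of `F` lies in the corresponding chart of `Z` -/
theorem algebraMap_mem_chart (S₀ : Set F) {b : F} (hb : b ∈ chart R S₀) :
    algebraMap F Z b ∈ chart R (algebraMap F Z '' S₀) := by
  rw [mem_chart] at hb ⊢
  -- transport an integral equation
  obtain ⟨p, hp, hpb⟩ := hb
  -- the map of coefficient rings
  have hle : ∀ y ∈ Algebra.adjoin R S₀, algebraMap F Z y ∈ Algebra.adjoin R (algebraMap F Z '' S₀) := by
    intro y hy
    have h1 : (IsScalarTower.toAlgHom R F Z) y ∈ (Algebra.adjoin R S₀).map (IsScalarTower.toAlgHom R F Z) :=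
      ⟨y, hy, rfl⟩
    rw [AlgHom.map_adjoin] at h1
    exact h1
  let φ : Algebra.adjoin R S₀ →+* Algebra.adjoin R (algebraMap F Z '' S₀) :=
    { toFun := fun y => ⟨algebraMap F Z (y : F), hle y y.2⟩
      map_one' := Subtype.ext (map_one _)
      map_mul' := fun _ _ => Subtype.ext (map_mul _ _ _)
      map_zero' := Subtype.ext (map_zero _)
      map_add' := fun _ _ => Subtype.ext (map_add _ _ _) }
  refine ⟨p.map φ, hp.map φ, ?_⟩
  have h2 : Polynomial.eval₂ (algebraMap (Algebra.adjoin R (algebraMap F Z '' S₀)) Z)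
      (algebraMap F Z b) (p.map φ)
      = algebraMap F Z (Polynomial.eval₂ (algebraMap (Algebra.adjoin R S₀) F) b p) := by
    rw [Polynomial.eval₂_map, Polynomial.hom_eval₂]
    rfl
  rw [h2, hpb, map_zero]

/-- the chart of `Z` is closed under `m`-th roots -/
theorem chart_root_mem (S : Set Z) {m : ℕ} (hm : 0 < m) {z : Z} (hz : z ^ m ∈ chart R S) :
    z ∈ chart R S := by
  rw [mem_chart] at hz ⊢
  exact IsIntegral.of_pow hm hz

section RootsOfUnity

/-- Two powers of a root of unity of order `m`, `m` invertible, which are different, differ by a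
unit. -/
theorem isUnit_zeta_pow_sub (hinjR : Function.Injective (algebraMap R Z))
    {m : ℕ} (hm : 0 < m) {mi : R} (hmi : (m : R) * mi = 1) {ζ : R} (hζ : ζ ^ m = 1)
    {i j : ℕ} (hne : ζ ^ i ≠ ζ ^ j) : IsUnit (ζ ^ i - ζ ^ j) := by
  have hm1 : m - 1 + 1 = m := Nat.sub_add_cancel hm
  -- `ξ = ζ ^ i / ζ ^ j`
  set ξ : R := ζ ^ i * ζ ^ (j * (m - 1)) with hξ
  have hjj : ζ ^ j * ζ ^ (j * (m - 1)) = 1 := by
    rw [← pow_add]
    have : j + j * (m - 1) = m * j := by
      calc j + j * (m - 1) = j * (m - 1 + 1) := by ring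
        _ = m * j := by rw [hm1, mul_comm]
    rw [this, pow_mul, hζ, one_pow]
  have hξm : ξ ^ m = 1 := by
    rw [hξ, mul_pow, ← pow_mul, ← pow_mul, mul_comm i m, mul_comm (j * (m - 1)) m, pow_mul,
      pow_mul ζ m, hζ, one_pow, one_pow, one_mul]
  have hdiff : ζ ^ i - ζ ^ j = ζ ^ j * (ξ - 1) := by
    rw [hξ]
    calc ζ ^ i - ζ ^ j = ζ ^ i * (ζ ^ j * ζ ^ (j * (m - 1))) - ζ ^ j := by rw [hjj, mul_one]
      _ = ζ ^ j * (ζ ^ i * ζ ^ (j * (m - 1)) - 1) := by ring
  have hξne : ξ ≠ 1 := by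
    intro h
    apply hne
    have : ζ ^ i - ζ ^ j = 0 := by rw [hdiff, h, sub_self, mul_zero]
    exact sub_eq_zero.1 this
  -- the geometric sum vanishes
  have hsum : ∑ t ∈ Finset.range m, ξ ^ t = 0 := by
    apply hinjR
    rw [map_zero]
    have h2 : (algebraMap R Z ξ - 1) * algebraMap R Z (∑ t ∈ Finset.range m, ξ ^ t) = 0 := by
      rw [← map_one (algebraMap R Z), ← map_sub, ← map_mul, mul_geom_sum, hξm, sub_self, map_zero]
    rcases mul_eq_zero.1 h2 with h3 | h3
    · exfalso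
      apply hξne
      apply hinjR
      rw [map_one]
      exact sub_eq_zero.1 h3
    · exact h3
  -- `m = (1 - ξ) * (…)`
  have hdiv : ∀ t : ℕ, ∃ c : R, 1 - ξ ^ t = (1 - ξ) * c := by
    intro t
    refine ⟨∑ s ∈ Finset.range t, ξ ^ s, ?_⟩
    have := mul_neg_geom_sum ξ t
    rw [this]
  choose c hc using hdiv
  have hmm : (m : R) = (1 - ξ) * ∑ t ∈ Finset.range m, c t := by
    rw [Finset.mul_sum]
    have : ∑ t ∈ Finset.range m, (1 - ξ) * c t = ∑ t ∈ Finset.range m, (1 - ξ ^ t) :=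
      Finset.sum_congr rfl fun t _ => (hc t).symm
    rw [this, Finset.sum_sub_distrib, hsum, sub_zero]
    simp
  have hu1 : IsUnit (1 - ξ) := by
    refine IsUnit.of_mul_eq_one ((∑ t ∈ Finset.range m, c t) * mi) ?_
    rw [← mul_assoc, ← hmm, hmi]
  have hu2 : IsUnit (ξ - 1) := by
    have : ξ - 1 = -(1 - ξ) := by ring
    rw [this]
    exact hu1.neg
  have hu3 : IsUnit (ζ ^ j) := IsUnit.of_mul_eq_one _ hjj
  rw [hdiff]
  exact hu3.mul hu2

end RootsOfUnity

/-- The map of charts `B → C`. -/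
def chartHom (S₀ : Set F) : chart R S₀ →+* chart R (algebraMap F Z '' S₀) where
  toFun := fun b => ⟨algebraMap F Z (b : F), _root_.Fermat.Agent.S36.H630.algebraMap_mem_chart S₀ b.2⟩
  map_one' := Subtype.ext (map_one _)
  map_mul' := fun _ _ => Subtype.ext (map_mul _ _ _)
  map_zero' := Subtype.ext (map_zero _)
  map_add' := fun _ _ => Subtype.ext (map_add _ _ _)

/-- **The local hypothesis of the label wall from the label datum on the base.** -/
theorem hloc_of_labelAt
    (hinjR : Function.Injective (algebraMap R Z))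
    {m : ℕ} (hm : 0 < m) {mi : R} (hmi : (m : R) * mi = 1) {ζ : R} (hζ : ζ ^ m = 1)
    (S₀ : Set F) {u : F} {G : Z} (hG : G ^ m = algebraMap F Z u)
    (𝒱 : Set (ValuationSubring F)) (κ : ValuationSubring F → ℕ)
    (𝔫 : Ideal (chart R (algebraMap F Z '' S₀))) [𝔫.IsPrime]
    (hlab : LabelAt (chart R S₀) (𝔫.comap (chartHom (R := R) (Z := Z) S₀)) 𝒱 m u ζ κ)
    {W W' : ValuationSubring Z}
    (hW : W.comap (algebraMap F Z) ∈ 𝒱) (hW' : W'.comap (algebraMap F Z) ∈ 𝒱)
    (hCW : ∀ c ∈ chart R (algebraMap F Z '' S₀), c ∈ W)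
    (hCW' : ∀ c ∈ chart R (algebraMap F Z '' S₀), c ∈ W')
    (hth : Through (chart R (algebraMap F Z '' S₀)) 𝔫 W)
    (hth' : Through (chart R (algebraMap F Z '' S₀)) 𝔫 W')
    (a b : ℕ) (ha : G - algebraMap R Z (ζ ^ a) ∈ W.nonunits)
    (hb : G - algebraMap R Z (ζ ^ b) ∈ W'.nonunits) :
    ζ ^ (a + κ (W'.comap (algebraMap F Z))) = ζ ^ (b + κ (W.comap (algebraMap F Z))) := by
  classical
  have hBC : ∀ b : chart R S₀, algebraMap F Z (b : F) ∈ chart R (algebraMap F Z '' S₀) :=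
    fun b => _root_.Fermat.Agent.S36.H630.algebraMap_mem_chart S₀ b.2
  have hn𝔫 : ∀ b : chart R S₀, b ∈ 𝔫.comap (chartHom (R := R) (Z := Z) S₀) ↔
      (⟨algebraMap F Z (b : F), hBC b⟩ : chart R (algebraMap F Z '' S₀)) ∈ 𝔫 := fun b => Iff.rfl
  have hCWl : ChartLe (chart R (algebraMap F Z '' S₀)) W := fun c => hCW c c.2
  have hCWl' : ChartLe (chart R (algebraMap F Z '' S₀)) W' := fun c => hCW' c c.2
  have hthP : PassThrough (chart R (algebraMap F Z '' S₀)) 𝔫 W := hth
  have hthP' : PassThrough (chart R (algebraMap F Z '' S₀)) 𝔫 W' := hth'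
  obtain ⟨d, a₀, s₀, η₀, -, hs₀, hpure, hη₀, hval⟩ := hlab
  set k := κ (W.comap (algebraMap F Z)) with hk
  set k' := κ (W'.comap (algebraMap F Z)) with hk'
  have hv := hval _ hW (PassThrough.comap hBC (fun b hb => (hn𝔫 b).2 hb) hthP)
  have hv' := hval _ hW' (PassThrough.comap hBC (fun b hb => (hn𝔫 b).2 hb) hthP')
  have hroot : ∀ z : Z, z ^ m ∈ chart R (algebraMap F Z '' S₀) →
      z ∈ chart R (algebraMap F Z '' S₀) := fun z hz => chart_root_mem _ hm hz
  have key := cover_local hBC hn𝔫 hroot hG hs₀ hpure hCWl hCWl' hthP hthP' ha hb hv hv'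
  -- `key : (ζ^a η₀ ζ^((m-1)k) - ζ^b η₀ ζ^((m-1)k')) ∈ 𝔫`
  have hm1 : m - 1 + 1 = m := Nat.sub_add_cancel hm
  by_contra hne
  -- first: `ζ ^ (a + (m-1) k) ≠ ζ ^ (b + (m-1) k')`
  have hne2 : ζ ^ (a + (m - 1) * k) ≠ ζ ^ (b + (m - 1) * k') := by
    intro h
    apply hne
    have e1 : ζ ^ (a + k') = ζ ^ (a + (m - 1) * k) * ζ ^ (k + k') := by
      rw [← pow_add]
      have : a + (m - 1) * k + (k + k') = a + k' + m * k := by
        calc a + (m - 1) * k + (k + k') = a + k' + (m - 1 + 1) * k := by ring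
          _ = a + k' + m * k := by rw [hm1]
      rw [this, pow_add ζ (a + k') (m * k), pow_mul ζ m k, hζ, one_pow, mul_one]
    have e2 : ζ ^ (b + k) = ζ ^ (b + (m - 1) * k') * ζ ^ (k + k') := by
      rw [← pow_add]
      have : b + (m - 1) * k' + (k + k') = b + k + m * k' := by
        calc b + (m - 1) * k' + (k + k') = b + k + (m - 1 + 1) * k' := by ring
          _ = b + k + m * k' := by rw [hm1]
      rw [this, pow_add ζ (b + k) (m * k'), pow_mul ζ m k', hζ, one_pow, mul_one]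
    rw [e1, e2, h]
  have hu := isUnit_zeta_pow_sub hinjR hm hmi hζ hne2
  have h1 : algebraMap R (chart R (algebraMap F Z '' S₀))
        (ζ ^ a * (η₀ * ζ ^ ((m - 1) * k)) - ζ ^ b * (η₀ * ζ ^ ((m - 1) * k')))
      = algebraMap R (chart R (algebraMap F Z '' S₀))
          (ζ ^ (a + (m - 1) * k) - ζ ^ (b + (m - 1) * k'))
        * algebraMap R (chart R (algebraMap F Z '' S₀)) η₀ := by
    rw [← map_mul]
    congr 1
    rw [pow_add, pow_add]
    ring
  rw [h1] at key
  rcases (Ideal.IsPrime.mem_or_mem ‹𝔫.IsPrime› key) with h5 | h5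
  · exact (Ideal.IsPrime.ne_top ‹𝔫.IsPrime›) (Ideal.eq_top_of_isUnit_mem _ h5 (hu.map _))
  · apply hη₀
    rw [Ideal.mem_comap]
    have h6 : chartHom (R := R) (Z := Z) S₀ (algebraMap R (chart R S₀) η₀)
        = algebraMap R (chart R (algebraMap F Z '' S₀)) η₀ := by
      apply Subtype.ext
      show algebraMap F Z (algebraMap R F η₀) = algebraMap R Z η₀
      rw [← IsScalarTower.algebraMap_apply]
    rw [h6]
    exact h5

end Fermat.Agent.S36.H630

end
-- ===== PACK-END S36/H630/LabelHloc.lean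

-- ===== PACK-BEGIN S36/Mod3/Spec.lean
section


/-!
# S36 / MOD3 — frozen interfaces (sub-architect helper928)

`Eng/Spec.lean` (architect helper996) freezes `Eng.TripleCtx` and `Eng.Model3Statement`.  This file

* splits `Eng.TripleCtx` (Eng/Spec v1.3 FINAL) into thirteen GENERIC parts (`PartFF`, `PartVal`,
  `PartSheet`, `PartQep`, `PartNormal`, `PartInc`, `PartReg`, `PartFin`, `PartTable`, `PartNV`,
  `PartNR`, `PartChart`, `PartUniq`), each a `Prop`-valued structure whose fields are VERBATIM the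
  fields of `Eng.TripleCtx` (`tripleCtx_of_parts` in `Skel.lean` reassembles them);
  `PartReg` is further split into `PartRegT` (triple points) and `PartRegM` (points of the middle
  component only, and its cusps), see `partReg_of_split` in `Skel.lean`;
* fixes the CONCRETE objects at the levels `M q` and `M q q` (`q ∤ M`), in the vocabulary of
  `A2/Mod/Spec.lean`:

  - `x' = A2.Mod.xE E M q = j · j_q`           (so that the model of cell A2 / S35.G is reusable),
  - `x  = x3E E M q = j · j_q · j_{q²}`          (Fricke-invariant),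
  - `V₁' = V∞` (`A2.Mod.IsVinf` at level `M q`),  `V₂' = V₁'.comap W'`  (`W'` Fricke of level `M q`),
  - `V₁  = V∞` (`A2.Mod.IsVinf` at level `M q q`), `V₃ = V₁.comap W`    (`W` Fricke of level `M q q`),
  - `V₂`  = THE OTHER extension of `V₁'` along `α`:  `V₂.comap α = V₁'`, `V₂ ≠ V₁`
            (unique: Eisenstein splitting `Φ_q(j_q, Y)/(Y - j) ≡ (Y - j^{q²})(Y - j)^{q-1}`);

* states one LEAF per part: `Leaf… : Prop` (prove `theorem foo : Leaf…` in
  `Fermat/Agent/S36/Mod3/H<seat>/*.lean` or cite your own file, importing this one).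

`Skel.lean`: `model3_of_leaves : (all leaves) → Eng.Model3Statement` (sorry-free).
Definitions only (no `sorry`).

v2 (22:00Z): re-based on Eng/Spec v1.3 (`UnitAt`/`UnifAt` exclude `0`; new fields `base_i`,
`gauss_i` = `PartSheet`, `fin_α`, `fin_β` = `PartFin`; `regular_f`, `regular_i` only on the middle
component; `NeatFor` contains `4 ∣ M` resp. `9 ∣ M`).  The other parts are textually unchanged.
-/

set_option autoImplicit false
set_option linter.style.haveILetI false
set_option linter.unusedSectionVars false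
set_option synthInstance.maxHeartbeats 400000
set_option maxHeartbeats 1600000

noncomputable section

namespace Fermat.Agent.S36.Mod3

open ModularCurve AlgebraicCurve
open Fermat.Agent.S18.H138 (chart)
open Fermat.Agent.S36.Eng

/-! ## The parts of `Eng.TripleCtx` (generic; fields verbatim) -/

section Parts

variable {R E F F' : Type*} [CommRing R] [Field E] [Algebra R E]
  [Field F] [Algebra E F] [Algebra R F] [Field F'] [Algebra E F'] [Algebra R F']

/-- FF: the function field. -/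
structure PartFF (E : Type*) [Field E] {F : Type*} [Field F] [Algebra E F] (x : F) : Prop where
  hx : Transcendental E x
  hfin : FiniteDimensional (IntermediateField.adjoin E ({x} : Set F)) F
  hconst : ∀ f : F, IsAlgebraic E f → f ∈ (algebraMap E F).range

/-- VAL: the three valuation rings are DVRs, distinct, `e = (1, q - 1, 1)`, `x` is a unit. -/
structure PartVal (w : R) (q : ℕ) (x : F) (V₁ V₂ V₃ : ValuationSubring F) : Prop where
  dvr₁ : IsDiscreteValuationRing V₁
  dvr₂ : IsDiscreteValuationRing V₂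
  dvr₃ : IsDiscreteValuationRing V₃
  ne₁₂ : V₁ ≠ V₂
  ne₁₃ : V₁ ≠ V₃
  ne₂₃ : V₂ ≠ V₃
  unif₁ : UnifAt V₁ (algebraMap R F w)
  unif₃ : UnifAt V₃ (algebraMap R F w)
  ram₂ : ∃ t : F, UnifAt V₂ t ∧ UnitAt V₂ (algebraMap R F w * (t ^ (q - 1))⁻¹)
  x_unit₁ : UnitAt V₁ x
  x_unit₂ : UnitAt V₂ x
  x_unit₃ : UnitAt V₃ x

/-- SHEET: the three valuation rings contain `R` and induce the Gauss valuation on `R[x]`. -/
structure PartSheet (w : R) (x : F) (V₁ V₂ V₃ : ValuationSubring F) : Prop where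
  base₁ : ∀ r : R, algebraMap R F r ∈ V₁
  base₂ : ∀ r : R, algebraMap R F r ∈ V₂
  base₃ : ∀ r : R, algebraMap R F r ∈ V₃
  gauss₁ : ∀ P : Polynomial R, (∃ i, ¬ w ∣ P.coeff i) → (Polynomial.aeval x P)⁻¹ ∈ V₁
  gauss₂ : ∀ P : Polynomial R, (∃ i, ¬ w ∣ P.coeff i) → (Polynomial.aeval x P)⁻¹ ∈ V₂
  gauss₃ : ∀ P : Polynomial R, (∃ i, ¬ w ∣ P.coeff i) → (Polynomial.aeval x P)⁻¹ ∈ V₃

/-- QEP3: the three valuation rings are all the components, with multiplicities. -/
structure PartQep (w : R) (x : F) (V₁ V₂ V₃ : ValuationSubring F) : Prop where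
  qep_f : Qep3 w (chart R ({x} : Set F)) V₁ V₂ V₃
  qep_i : Qep3 w (chart R ({x⁻¹} : Set F)) V₁ V₂ V₃

/-- NORMAL: the three components of both charts are normal. -/
structure PartNormal (R : Type*) [CommRing R] {F : Type*} [Field F] [Algebra R F]
    (x : F) (V₁ V₂ V₃ : ValuationSubring F) : Prop where
  normal_f₁ : NormalAlong (chart R ({x} : Set F)) V₁
  normal_f₂ : NormalAlong (chart R ({x} : Set F)) V₂
  normal_f₃ : NormalAlong (chart R ({x} : Set F)) V₃
  normal_i₁ : NormalAlong (chart R ({x⁻¹} : Set F)) V₁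
  normal_i₂ : NormalAlong (chart R ({x⁻¹} : Set F)) V₂
  normal_i₃ : NormalAlong (chart R ({x⁻¹} : Set F)) V₃

/-- INC: incidence in the finite chart, the cusps lie on one component. -/
structure PartInc (w : R) (x : F) (V₁ V₂ V₃ : ValuationSubring F) : Prop where
  incidence : ∀ 𝔪 : Ideal (chart R ({x} : Set F)), 𝔪.IsMaximal →
    (Through _ 𝔪 V₁ ∧ Through _ 𝔪 V₂) ∨ (Through _ 𝔪 V₁ ∧ Through _ 𝔪 V₃) ∨
      (Through _ 𝔪 V₂ ∧ Through _ 𝔪 V₃) → IsTriple _ 𝔪 V₁ V₂ V₃
  cusp_single : ∀ 𝔪 : Ideal (chart R ({x⁻¹} : Set F)), 𝔪.IsMaximal →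
    algebraMap R (chart R ({x⁻¹} : Set F)) w ∈ 𝔪 →
    (⟨x⁻¹, Fermat.Agent.S18.H138.mem_chart_of_mem rfl⟩ : chart R ({x⁻¹} : Set F)) ∈ 𝔪 →
    ¬ (Through _ 𝔪 V₁ ∧ Through _ 𝔪 V₂) ∧ ¬ (Through _ 𝔪 V₁ ∧ Through _ 𝔪 V₃) ∧
      ¬ (Through _ 𝔪 V₂ ∧ Through _ 𝔪 V₃)

/-- REG: regularity at the closed points of the middle component (both charts). -/
structure PartReg (R : Type*) [CommRing R] {F : Type*} [Field F] [Algebra R F]
    (x : F) (V₁ V₂ V₃ : ValuationSubring F) : Prop where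
  regular_f : ∀ 𝔪 : Ideal (chart R ({x} : Set F)), 𝔪.IsMaximal → Through _ 𝔪 V₂ →
    (Through _ 𝔪 V₁ ∧ PrincipalAt _ 𝔪 V₁) ∨ PrincipalAt _ 𝔪 V₂ ∨
      (Through _ 𝔪 V₃ ∧ PrincipalAt _ 𝔪 V₃)
  regular_i : ∀ 𝔪 : Ideal (chart R ({x⁻¹} : Set F)), 𝔪.IsMaximal →
    (⟨x⁻¹, Fermat.Agent.S18.H138.mem_chart_of_mem rfl⟩ : chart R ({x⁻¹} : Set F)) ∈ 𝔪 →
    Through _ 𝔪 V₂ → PrincipalAt _ 𝔪 V₂

/-- REG-T: at a TRIPLE point of the finite chart the component `V₃` (or `V₁`) is locally
principal (helper263 `bridge_of_th1`: from TH1 at level `M q` and `Qep3`). -/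
structure PartRegT (R : Type*) [CommRing R] {F : Type*} [Field F] [Algebra R F]
    (x : F) (V₁ V₂ V₃ : ValuationSubring F) : Prop where
  regular_t : ∀ 𝔪 : Ideal (chart R ({x} : Set F)), 𝔪.IsMaximal → IsTriple _ 𝔪 V₁ V₂ V₃ →
    PrincipalAt _ 𝔪 V₁ ∨ PrincipalAt _ 𝔪 V₃

/-- REG-M: at a closed point of the finite chart lying on the middle component ONLY, and at the
cusps of the middle component, the middle component is locally principal (R4). -/
structure PartRegM (R : Type*) [CommRing R] {F : Type*} [Field F] [Algebra R F]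
    (x : F) (V₁ V₂ V₃ : ValuationSubring F) : Prop where
  regular_m : ∀ 𝔪 : Ideal (chart R ({x} : Set F)), 𝔪.IsMaximal → Through _ 𝔪 V₂ →
    ¬ Through _ 𝔪 V₁ → ¬ Through _ 𝔪 V₃ → PrincipalAt _ 𝔪 V₂
  regular_i : ∀ 𝔪 : Ideal (chart R ({x⁻¹} : Set F)), 𝔪.IsMaximal →
    (⟨x⁻¹, Fermat.Agent.S18.H138.mem_chart_of_mem rfl⟩ : chart R ({x⁻¹} : Set F)) ∈ 𝔪 →
    Through _ 𝔪 V₂ → PrincipalAt _ 𝔪 V₂

/-- FIN: the two degeneracy maps are finite. -/
structure PartFin (E : Type*) [Field E] {F F' : Type*} [Field F] [Algebra E F] [Field F']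
    [Algebra E F'] (α β : F' →ₐ[E] F) : Prop where
  fin_α : FiniteAlong E α
  fin_β : FiniteAlong E β

/-- TABLE: lying over. -/
structure PartTable (α β : F' →ₐ[E] F) (V₁ V₂ V₃ : ValuationSubring F)
    (V₁' V₂' : ValuationSubring F') : Prop where
  comap_α₁ : V₁.comap (α : F' →+* F) = V₁'
  comap_α₂ : V₂.comap (α : F' →+* F) = V₁'
  comap_α₃ : V₃.comap (α : F' →+* F) = V₂'
  comap_β₁ : V₁.comap (β : F' →+* F) = V₁'
  comap_β₂ : V₂.comap (β : F' →+* F) = V₂'
  comap_β₃ : V₃.comap (β : F' →+* F) = V₂'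

/-- NV: valuations of norms. -/
structure PartNV (w : R) (q : ℕ) (α β : F' →ₐ[E] F) (V₁ V₂ V₃ : ValuationSubring F)
    (V₁' V₂' : ValuationSubring F') : Prop where
  nv_α : ∀ (t : F), UnifAt V₂ t → ∀ (y : F) (a₁ a₂ a₃ : ℤ), y ≠ 0 →
    UnitAt V₁ (y * (algebraMap R F w ^ a₁)⁻¹) → UnitAt V₂ (y * (t ^ a₂)⁻¹) →
    UnitAt V₃ (y * (algebraMap R F w ^ a₃)⁻¹) →
    UnitAt V₁' (S29.H395.normAlong α y * (algebraMap R F' w ^ (a₁ + a₂))⁻¹) ∧
      UnitAt V₂' (S29.H395.normAlong α y * (algebraMap R F' w ^ ((q : ℤ) * a₃))⁻¹)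
  nv_β : ∀ (t : F), UnifAt V₂ t → ∀ (y : F) (a₁ a₂ a₃ : ℤ), y ≠ 0 →
    UnitAt V₁ (y * (algebraMap R F w ^ a₁)⁻¹) → UnitAt V₂ (y * (t ^ a₂)⁻¹) →
    UnitAt V₃ (y * (algebraMap R F w ^ a₃)⁻¹) →
    UnitAt V₂' (S29.H395.normAlong β y * (algebraMap R F' w ^ (a₃ + a₂))⁻¹) ∧
      UnitAt V₁' (S29.H395.normAlong β y * (algebraMap R F' w ^ ((q : ℤ) * a₁))⁻¹)

/-- NR: residues of norms. -/
structure PartNR (q : ℕ) (α β : F' →ₐ[E] F) (V₁ V₂ V₃ : ValuationSubring F)
    (V₁' V₂' : ValuationSubring F') : Prop where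
  nr_α₁ : ∀ y : F, UnitAt V₁ y → UnitAt V₂ y → ∀ x₁ x₂ : F',
    α x₁ - y ∈ V₁.nonunits → α x₂ - y ∈ V₂.nonunits →
    S29.H395.normAlong α y - x₁ * x₂ ^ (q - 1) ∈ V₁'.nonunits
  nr_α₂ : ∀ y : F, UnitAt V₃ y → α (S29.H395.normAlong α y) - y ^ q ∈ V₃.nonunits
  nr_β₁ : ∀ y : F, UnitAt V₃ y → UnitAt V₂ y → ∀ x₃ x₂ : F',
    β x₃ - y ∈ V₃.nonunits → β x₂ - y ∈ V₂.nonunits →
    S29.H395.normAlong β y - x₃ * x₂ ^ (q - 1) ∈ V₂'.nonunits
  nr_β₂ : ∀ y : F, UnitAt V₁ y → β (S29.H395.normAlong β y) - y ^ q ∈ V₁.nonunits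

/-- CHART: the finite charts of the two levels, integrality, residue degree one in chart form. -/
structure PartChart (R : Type*) [CommRing R] {E F F' : Type*} [Field E] [Field F] [Algebra E F]
    [Algebra R F] [Field F'] [Algebra E F'] [Algebra R F']
    (α β : F' →ₐ[E] F) (x : F) (x' : F') (V₁ V₂ V₃ : ValuationSubring F) : Prop where
  chart_α : ∀ b ∈ chart R ({x'} : Set F'), α b ∈ chart R ({x} : Set F)
  chart_β : ∀ b ∈ chart R ({x'} : Set F'), β b ∈ chart R ({x} : Set F)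
  int_α : ∀ b ∈ chart R ({x} : Set F), ∃ p : Polynomial F', p.Monic ∧
    (∀ i, p.coeff i ∈ chart R ({x'} : Set F')) ∧ (p.map (α : F' →+* F)).eval b = 0
  int_β : ∀ b ∈ chart R ({x} : Set F), ∃ p : Polynomial F', p.Monic ∧
    (∀ i, p.coeff i ∈ chart R ({x'} : Set F')) ∧ (p.map (β : F' →+* F)).eval b = 0
  res_α₁ : ∀ b ∈ chart R ({x} : Set F), ∃ b' ∈ chart R ({x'} : Set F'), b - α b' ∈ V₁.nonunits
  res_α₂ : ∀ b ∈ chart R ({x} : Set F), ∃ b' ∈ chart R ({x'} : Set F'), b - α b' ∈ V₂.nonunits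
  res_β₃ : ∀ b ∈ chart R ({x} : Set F), ∃ b' ∈ chart R ({x'} : Set F'), b - β b' ∈ V₃.nonunits
  res_β₂ : ∀ b ∈ chart R ({x} : Set F), ∃ b' ∈ chart R ({x'} : Set F'), b - β b' ∈ V₂.nonunits

/-- UNIQ: a triple point is the only closed point over its image under `α`, and under `β`
(the chart inclusions `hα`, `hβ` are hypotheses: they are the fields `chart_α`, `chart_β`). -/
structure PartUniq (R : Type*) [CommRing R] {E F F' : Type*} [Field E] [Field F] [Algebra E F]
    [Algebra R F] [Field F'] [Algebra E F'] [Algebra R F']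
    (α β : F' →ₐ[E] F) (x : F) (x' : F') (V₁ V₂ V₃ : ValuationSubring F) : Prop where
  unique_α : ∀ (hα : ∀ b ∈ chart R ({x'} : Set F'), α b ∈ chart R ({x} : Set F))
    (𝔪 𝔪' : Ideal (chart R ({x} : Set F))), 𝔪.IsMaximal → 𝔪'.IsMaximal →
    IsTriple _ 𝔪 V₁ V₂ V₃ →
    (∀ (b' : F') (h : b' ∈ chart R ({x'} : Set F')),
      (⟨α b', hα b' h⟩ : chart R ({x} : Set F)) ∈ 𝔪 →
        (⟨α b', hα b' h⟩ : chart R ({x} : Set F)) ∈ 𝔪') → 𝔪' = 𝔪
  unique_β : ∀ (hβ : ∀ b ∈ chart R ({x'} : Set F'), β b ∈ chart R ({x} : Set F))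
    (𝔪 𝔪' : Ideal (chart R ({x} : Set F))), 𝔪.IsMaximal → 𝔪'.IsMaximal →
    IsTriple _ 𝔪 V₁ V₂ V₃ →
    (∀ (b' : F') (h : b' ∈ chart R ({x'} : Set F')),
      (⟨β b', hβ b' h⟩ : chart R ({x} : Set F)) ∈ 𝔪 →
        (⟨β b', hβ b' h⟩ : chart R ({x} : Set F)) ∈ 𝔪') → 𝔪' = 𝔪

end Parts

/-! ## The concrete objects -/

section Concrete

variable (P : ValuationSubring A2.Qb) (E : IntermediateField ℚ A2.Qb) (M q : ℕ)
  [NeZero M] [NeZero q] [NeZero (M * q)]

/-- `j` at level `M q q`. -/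
def j1 : A2.Mod.FE E (M * q * q) := A2.Mod.jE E (M * q * q) 1 (one_dvd _)

/-- `j_q` at level `M q q`. -/
def jq : A2.Mod.FE E (M * q * q) :=
  A2.Mod.jE E (M * q * q) q (Dvd.intro_left (M * q) rfl)

/-- `j_{q²}` at level `M q q`. -/
def jqq : A2.Mod.FE E (M * q * q) :=
  A2.Mod.jE E (M * q * q) (q * q) ⟨M, by ring⟩

/-- **The coordinate** `x = j · j_q · j_{q²}` of level `M q q`. -/
def x3E : A2.Mod.FE E (M * q * q) := j1 E M q * jq E M q * jqq E M q

/-- The standing hypotheses of `Eng.Model3Statement`. -/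
structure Std (w : A2.RE P E) : Prop where
  q_prime : q.Prime
  q_not_dvd : ¬ q ∣ M
  lies_over : P.LiesOverPrime q
  unram : Unramified P E q
  neat : NeatFor M q
  unif : Irreducible w

/-- **The objects.**  `V₁' = V∞`, `V₂' = V₀` at level `M q`; `V₁ = V∞` (`FF`), `V₃ = V₀` (`VV`) at
level `M q q`; `V₂` (`mid`) is the other extension of `V₁'` along `α`. -/
structure Objs (V₁' V₂' : ValuationSubring (A2.Mod.FE E (M * q)))
    (V₁ V₂ V₃ : ValuationSubring (A2.Mod.FE E (M * q * q)))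
    (W' : A2.Mod.FE E (M * q) ≃ₐ[E] A2.Mod.FE E (M * q))
    (W : A2.Mod.FE E (M * q * q) ≃ₐ[E] A2.Mod.FE E (M * q * q)) : Prop where
  vinf' : A2.Mod.IsVinf P E (M * q) V₁'
  fricke' : A2.Mod.IsFricke E (M * q) W'
  vzero' : V₂' = V₁'.comap (W' : A2.Mod.FE E (M * q) →+* A2.Mod.FE E (M * q))
  vinf : A2.Mod.IsVinf P E (M * q * q) V₁
  fricke : A2.Mod.IsFricke E (M * q * q) W
  vzero : V₃ = V₁.comap (W : A2.Mod.FE E (M * q * q) →+* A2.Mod.FE E (M * q * q))
  mid : V₂.comap (A2.Mod.αE E (M * q) q : A2.Mod.FE E (M * q) →+* A2.Mod.FE E (M * q * q)) = V₁'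
  mid_ne : V₂ ≠ V₁

end Concrete

/-! ## The leaves -/

section Leaves

/-- Binder prefix of every leaf. -/
def Leaf (body : ∀ (P : ValuationSubring A2.Qb) (E : IntermediateField ℚ A2.Qb) (M q : ℕ)
    [NeZero M] [NeZero q] [NeZero (M * q)] (_ : A2.RE P E)
    (_ _ : ValuationSubring (A2.Mod.FE E (M * q)))
    (_ _ _ : ValuationSubring (A2.Mod.FE E (M * q * q))), Prop) : Prop :=
  ∀ (P : ValuationSubring A2.Qb) (E : IntermediateField ℚ A2.Qb) (M q : ℕ)
    [NeZero M] [NeZero q] [NeZero (M * q)] (w : A2.RE P E),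
    Std P E M q w →
    ∀ (V₁' V₂' : ValuationSubring (A2.Mod.FE E (M * q)))
      (V₁ V₂ V₃ : ValuationSubring (A2.Mod.FE E (M * q * q)))
      (W' : A2.Mod.FE E (M * q) ≃ₐ[E] A2.Mod.FE E (M * q))
      (W : A2.Mod.FE E (M * q * q) ≃ₐ[E] A2.Mod.FE E (M * q * q)),
      Objs P E M q V₁' V₂' V₁ V₂ V₃ W' W → body P E M q w V₁' V₂' V₁ V₂ V₃

/-- **OBJ (leaf).**  The objects exist: `V∞` and Fricke at both levels (L1, L4 of A2/Mod, any
level) and the MIDDLE valuation ring `V₂` (Eisenstein splitting of `Φ_q(j_q, Y) / (Y - j)` over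
`V₁'`; needs `E` unramified). -/
def LeafObj : Prop :=
  ∀ (P : ValuationSubring A2.Qb) (E : IntermediateField ℚ A2.Qb) (M q : ℕ)
    [NeZero M] [NeZero q] [NeZero (M * q)] (w : A2.RE P E),
    Std P E M q w →
    ∃ (V₁' V₂' : ValuationSubring (A2.Mod.FE E (M * q)))
      (V₁ V₂ V₃ : ValuationSubring (A2.Mod.FE E (M * q * q)))
      (W' : A2.Mod.FE E (M * q) ≃ₐ[E] A2.Mod.FE E (M * q))
      (W : A2.Mod.FE E (M * q * q) ≃ₐ[E] A2.Mod.FE E (M * q * q)),
      Objs P E M q V₁' V₂' V₁ V₂ V₃ W' W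

/-- **FF (leaf).**  `x = j j_q j_{q²}` is transcendental, `F` is finite over `E(x)`, `E` is
algebraically closed in `F` (as L8 of A2/Mod). -/
def LeafFF : Prop :=
  ∀ (E : IntermediateField ℚ A2.Qb) (M q : ℕ) [NeZero M] [NeZero q] [NeZero (M * q)],
    q.Prime → ¬ q ∣ M → PartFF E (x3E E M q)

/-- **VAL (leaf).** -/
def LeafVal : Prop :=
  Leaf fun P E M q _ _ _ w _ _ V₁ V₂ V₃ =>
    PartVal (R := A2.RE P E) w q (x3E E M q) V₁ V₂ V₃

/-- **QEP3 (leaf).** -/
def LeafQep : Prop :=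
  Leaf fun P E M q _ _ _ w _ _ V₁ V₂ V₃ =>
    PartQep (R := A2.RE P E) w (x3E E M q) V₁ V₂ V₃

/-- **NORMAL (leaf).** -/
def LeafNormal : Prop :=
  Leaf fun P E M q _ _ _ _ _ _ V₁ V₂ V₃ =>
    PartNormal (A2.RE P E) (x3E E M q) V₁ V₂ V₃

/-- **INC (leaf).** -/
def LeafInc : Prop :=
  Leaf fun P E M q _ _ _ w _ _ V₁ V₂ V₃ =>
    PartInc (R := A2.RE P E) w (x3E E M q) V₁ V₂ V₃

/-- **REG (leaf)** `= LeafRegT + LeafRegM + LeafInc` (`leafReg_of_split`). -/
def LeafReg : Prop :=
  Leaf fun P E M q _ _ _ _ _ _ V₁ V₂ V₃ =>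
    PartReg (A2.RE P E) (x3E E M q) V₁ V₂ V₃

/-- **REG-T (leaf).** -/
def LeafRegT : Prop :=
  Leaf fun P E M q _ _ _ _ _ _ V₁ V₂ V₃ =>
    PartRegT (A2.RE P E) (x3E E M q) V₁ V₂ V₃

/-- **REG-M (leaf).** -/
def LeafRegM : Prop :=
  Leaf fun P E M q _ _ _ _ _ _ V₁ V₂ V₃ =>
    PartRegM (A2.RE P E) (x3E E M q) V₁ V₂ V₃

/-- **SHEET (leaf).** -/
def LeafSheet : Prop :=
  Leaf fun P E M q _ _ _ w _ _ V₁ V₂ V₃ =>
    PartSheet (R := A2.RE P E) w (x3E E M q) V₁ V₂ V₃

/-- **FIN (leaf).** -/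
def LeafFin : Prop :=
  ∀ (E : IntermediateField ℚ A2.Qb) (M q : ℕ) [NeZero M] [NeZero q] [NeZero (M * q)],
    q.Prime → ¬ q ∣ M → PartFin E (A2.Mod.αE E (M * q) q) (A2.Mod.βE E (M * q) q)

/-- **TABLE (leaf).** -/
def LeafTable : Prop :=
  Leaf fun _ E M q _ _ _ _ V₁' V₂' V₁ V₂ V₃ =>
    PartTable (A2.Mod.αE E (M * q) q) (A2.Mod.βE E (M * q) q) V₁ V₂ V₃ V₁' V₂'

/-- **NV (leaf).** -/
def LeafNV : Prop :=
  Leaf fun P E M q _ _ _ w V₁' V₂' V₁ V₂ V₃ =>
    PartNV (R := A2.RE P E) w q (A2.Mod.αE E (M * q) q) (A2.Mod.βE E (M * q) q)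
      V₁ V₂ V₃ V₁' V₂'

/-- **NR (leaf).** -/
def LeafNR : Prop :=
  Leaf fun _ E M q _ _ _ _ V₁' V₂' V₁ V₂ V₃ =>
    PartNR q (A2.Mod.αE E (M * q) q) (A2.Mod.βE E (M * q) q) V₁ V₂ V₃ V₁' V₂'

/-- **CHART (leaf).** -/
def LeafChart : Prop :=
  Leaf fun P E M q _ _ _ _ _ _ V₁ V₂ V₃ =>
    PartChart (A2.RE P E) (A2.Mod.αE E (M * q) q) (A2.Mod.βE E (M * q) q)
      (x3E E M q) (A2.Mod.xE E M q) V₁ V₂ V₃

/-- **UNIQ (leaf).** -/
def LeafUniq : Prop :=
  Leaf fun P E M q _ _ _ _ _ _ V₁ V₂ V₃ =>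
    PartUniq (A2.RE P E) (A2.Mod.αE E (M * q) q) (A2.Mod.βE E (M * q) q)
      (x3E E M q) (A2.Mod.xE E M q) V₁ V₂ V₃

end Leaves

end Fermat.Agent.S36.Mod3

end

end
-- ===== PACK-END S36/Mod3/Spec.lean

-- ===== PACK-BEGIN S36/H972/EisOfH83.lean
section




/-!
# S36 / MOD3 (helper972): the formal input `EisSeries` from helper83's EIS leaf

`exists_eisSeries q hq : ∃ Ψ G, EisSeries q (J ^ (q ^ 2)) Ψ G` for every prime `q`, from
`S36/H83/Eis.lean` (`h83_eisPsi_eq_add`, `h83_eisPsi_mem_lifts`, `h83_eisPsi_eval_jpp`) and the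
modular polynomial `S28.H326.nonempty_modPolyData`.
-/

set_option autoImplicit false

noncomputable section

namespace Fermat.Agent.S36.H972

open Polynomial ModularCurve Fermat.Agent.S28 Fermat.Agent.S36.H83

theorem exists_not_dvd_of_red_ne_zero (q : ℕ) {x : LaurentSeries ℤ} (hx : h83_red q x ≠ 0) :
    ∃ n : ℤ, ¬ (q : ℤ) ∣ x.coeff n := by
  by_contra hcon
  simp only [not_exists, not_not] at hcon
  apply hx
  ext n
  simp only [h83_red, coeffMap_coeff, HahnSeries.coeff_zero, Int.coe_castRingHom]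
  exact (ZMod.intCast_zmod_eq_zero_iff_dvd _ q).mpr (hcon n)

theorem exists_eisSeries (q : ℕ) [NeZero q] (hq : q.Prime) :
    ∃ Ψ G : (LaurentSeries ℤ)[X], EisSeries q (jqModC ℤ ^ (q ^ 2)) Ψ G := by
  have : Fact q.Prime := ⟨hq⟩
  obtain ⟨Φ⟩ := Fermat.Agent.S28.H326.nonempty_modPolyData q hq
  obtain ⟨G, hdec, -, hG, hA⟩ := h83_eisPsi_eq_add q Φ
  have hJ : jqModC ℤ ∈ jjRing q := Subring.subset_closure (by simp)
  have hJq : qExpand ℤ q (jqModC ℤ) ∈ jjRing q := Subring.subset_closure (by simp)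
  have hqq : qExpand ℤ (q * q) (jqModC ℤ) = qExpand ℤ q (qExpand ℤ q (jqModC ℤ)) :=
    (qExpand_qExpand q q (jqModC ℤ)).symm
  refine ⟨h83_eisPsi q Φ, G, ?_⟩
  refine
    { monic := h83_eisPsi_monic q Φ
      natDegree_eq := h83_eisPsi_natDegree q Φ
      coeff_mem := ?_
      root := by rw [hqq]; exact h83_eisPsi_eval_jpp q Φ
      A_mem := pow_mem hJ _
      A_cong := ?_
      A_unit := exists_not_dvd_of_red_ne_zero q hA
      dec := by rw [hdec]; ring
      unit := exists_not_dvd_of_red_ne_zero q hG }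
  · intro i
    obtain ⟨Ψ₀, -, hΨ₀⟩ := h83_eisPsi_mem_lifts q Φ (jjRing q) hJ hJq
    rw [← hΨ₀, Polynomial.coeff_map]
    exact (Ψ₀.coeff i).2
  · have h0 : h83_red q (qExpand ℤ (q * q) (jqModC ℤ) - jqModC ℤ ^ (q ^ 2)) = 0 := by
      rw [map_sub, hqq, h83_red_jpp, map_pow, h83_red_j, sub_self]
    obtain ⟨H, hH⟩ := h83_dvd_of_red_eq_zero q h0
    exact ⟨H, hH⟩

end Fermat.Agent.S36.H972

end

end
-- ===== PACK-END S36/H972/EisOfH83.lean

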