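import Mathlib
import Fermat.Agent.Pack.S44C.G0E20L1
import Fermat.Agent.Pack.S43MC.G0E16L3
import Fermat.Agent.Pack.S43MC.G0E8L3
import Fermat.Agent.Pack.S43MC.G0E16L1
import Fermat.Agent.Pack.S43MC.G0E17L2
import Fermat.Agent.Pack.S43MC.G0E17L1
import Fermat.Agent.Pack.S43MC.G0E1L2
import Fermat.Agent.Pack.S43MC.G0E0L0
import Fermat.Agent.Pack.S43MC.G0E10L3
import Fermat.Agent.Pack.S43MC.G0E11L1
import Fermat.Agent.Pack.S43MC.G0E15L0
import Fermat.Agent.Pack.S43MC.G0E17L3
import Fermat.Agent.Pack.S44C.G0E20L2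
import Fermat.Agent.Pack.S44C.G0E18L1
import Fermat.Agent.Pack.Fast891

-- ===== PACK-BEGIN S35/H433/ResField.lean
section


/-!
# S35 / (G) — closed points of the special fibre of a chart have residue field `R / w` (helper433)

`exists_const_sub_mem` : `R` a discrete valuation ring with algebraically closed residue field,
`B` a chart (integral closure of `R[x]` in `F`), `n` a maximal ideal of `B` containing `w`.  Then
every `b ∈ B` is congruent modulo `n` to a constant `r ∈ R`.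
-/

set_option autoImplicit false

namespace Fermat.Agent.S35.H433

open Polynomial Fermat.Agent.A2 Fermat.Agent.A2.Alg

/-- A field `κ` which is integral over `k[X]` (`k` algebraically closed) via a ring homomorphism
`ψ` is equal to the image of `k`. -/
theorem surjective_of_isIntegral_polynomial {k κ : Type*} [Field k] [IsAlgClosed k] [Field κ]
    (ψ : k[X] →+* κ) (hψ : ψ.IsIntegral) : Function.Surjective (ψ.comp C) := by
  have hmax : ((⊥ : Ideal κ).comap ψ).IsMaximal :=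
    Ideal.isMaximal_comap_of_isIntegral_of_isMaximal' ψ hψ ⊥
  set P : Ideal k[X] := (⊥ : Ideal κ).comap ψ with hP
  have h₁ : ((Ideal.Quotient.mk P).comp C).IsIntegral :=
    Polynomial.quotient_mk_comp_C_isIntegral_of_isJacobsonRing P
  let ψb : k[X] ⧸ P →+* κ := Ideal.Quotient.lift P ψ (fun a ha => by
    rw [hP, Ideal.mem_comap, Ideal.mem_bot] at ha
    exact ha)
  have hcomp : ψb.comp (Ideal.Quotient.mk P) = ψ := by
    ext <;> simp [ψb]
  have h₂ : ψb.IsIntegral := by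
    apply RingHom.IsIntegral.tower_top (Ideal.Quotient.mk P) ψb
    rw [hcomp]
    exact hψ
  have h₃ : (ψ.comp C).IsIntegral := by
    have : ψ.comp C = ψb.comp ((Ideal.Quotient.mk P).comp C) := by
      rw [← RingHom.comp_assoc, hcomp]
    rw [this]
    exact RingHom.IsIntegral.trans _ _ h₁ h₂
  exact (IsAlgClosed.ringHom_bijective_of_isIntegral (ψ.comp C) h₃).2

variable {R E F : Type*} [CommRing R] [IsDomain R] [IsDiscreteValuationRing R]
  [IsAlgClosed (IsLocalRing.ResidueField R)]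
  [Field E] [Algebra R E] [Field F] [Algebra E F] [Algebra R F]

/-- **Residue fields of closed points.** -/
theorem exists_const_sub_mem (w : R) (x : F) (B : Subalgebra R F) (hB : ChartCtx E w x B)
    (n : Ideal B) (hn : n.IsMaximal) (hwn : algebraMap R B w ∈ n) (b : B) :
    ∃ r : R, b - algebraMap R B r ∈ n := by
  let _ : Field (B ⧸ n) := Ideal.Quotient.field n
  let xB : B := ⟨x, H609.self_mem_chart x B hB.hB⟩
  let f : R →+* B ⧸ n := (Ideal.Quotient.mk n).comp (algebraMap R B)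
  have hker : ∀ a ∈ IsLocalRing.maximalIdeal R, f a = 0 := by
    intro a ha
    rw [hB.hw.maximalIdeal_eq, Ideal.mem_span_singleton] at ha
    obtain ⟨t, rfl⟩ := ha
    show Ideal.Quotient.mk n (algebraMap R B (w * t)) = 0
    rw [Ideal.Quotient.eq_zero_iff_mem, map_mul]
    exact n.mul_mem_right _ hwn
  let g : IsLocalRing.ResidueField R →+* B ⧸ n :=
    Ideal.Quotient.lift (IsLocalRing.maximalIdeal R) f hker
  have hg : ∀ r : R, g (IsLocalRing.residue R r) = f r := fun r => rfl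
  let ψ : (IsLocalRing.ResidueField R)[X] →+* B ⧸ n :=
    Polynomial.eval₂RingHom g (Ideal.Quotient.mk n xB)
  let φ₀ : R[X] →+* B ⧸ n := (Ideal.Quotient.mk n).comp (aeval (R := R) xB).toRingHom
  have hφ₀ : φ₀.IsIntegral :=
    RingHom.IsIntegral.trans _ _ (H609.isIntegral_aeval_chart x B hB.hB)
      (RingHom.isIntegral_of_surjective _ Ideal.Quotient.mk_surjective)
  have hcomp : ψ.comp (Polynomial.mapRingHom (IsLocalRing.residue R)) = φ₀ := by
    refine Polynomial.ringHom_ext (fun r => ?_) ?_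
    · simp only [RingHom.comp_apply, Polynomial.coe_mapRingHom, Polynomial.map_C, ψ, φ₀,
        Polynomial.coe_eval₂RingHom, Polynomial.eval₂_C, hg, f, AlgHom.toRingHom_eq_coe,
        RingHom.coe_coe, aeval_C]
    · simp only [RingHom.comp_apply, Polynomial.coe_mapRingHom, Polynomial.map_X, ψ, φ₀,
        Polynomial.coe_eval₂RingHom, Polynomial.eval₂_X, AlgHom.toRingHom_eq_coe,
        RingHom.coe_coe, aeval_X]
  have hψ : ψ.IsIntegral := by
    apply RingHom.IsIntegral.tower_top (Polynomial.mapRingHom (IsLocalRing.residue R)) ψ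
    rw [hcomp]
    exact hφ₀
  obtain ⟨c, hc⟩ := surjective_of_isIntegral_polynomial ψ hψ (Ideal.Quotient.mk n b)
  obtain ⟨r, rfl⟩ := IsLocalRing.residue_surjective c
  refine ⟨r, ?_⟩
  rw [← Ideal.Quotient.eq_zero_iff_mem, map_sub, sub_eq_zero, ← hc]
  simp only [RingHom.comp_apply, ψ, Polynomial.coe_eval₂RingHom, Polynomial.eval₂_C, hg, f]

end Fermat.Agent.S35.H433

end
-- ===== PACK-END S35/H433/ResField.lean

-- ===== PACK-BEGIN S25/H507/TwoChartsCurve.lean
section



/-!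
# C4 (two charts) under the hypotheses of S25

`C` proper, smooth of relative dimension one, integral over an algebraically closed field `k`.
Every nonconstant rational function `t` gives a two-chart atlas
`U0 = regOpen C t`, `U1 = regOpen C t⁻¹` with coordinates `x = t`, `y = t⁻¹`.
The input on stalks (valuation rings) and on coordinate rings (not fields) is helper627's
C1 hand-in.
-/

set_option autoImplicit false

universe u

open AlgebraicGeometry CategoryTheory TopologicalSpace Opposite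

namespace Fermat.Agent.S25.H507

variable (k : Type u) [Field k] [IsAlgClosed k] {C : Scheme.{u}}
  (c : C ⟶ Spec (CommRingCat.of k)) [IsProper c] [SmoothOfRelativeDimension 1 c] [IsIntegral C]

/-- On the curve of S25 there is a nonconstant rational function. -/
theorem curve_exists_nonconstant : ∃ t : C.functionField, t ∉ Set.range (kToK c) := by
  obtain ⟨V, hV, hx, -, hF⟩ := Fermat.Agent.S25.H627.exists_dedekind_chart k c (genericPoint C)
  exact exists_not_mem_range_kToK c V ⟨_, hx⟩ hF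

/-- **C4 for a given nonconstant function.** The regular loci of `t` and `t⁻¹` form a two-chart
affine atlas of the curve, finite over the `t`-line resp. the `t⁻¹`-line. -/
theorem curve_two_charts_of_not_mem_range {t : C.functionField}
    (ht : t ∉ Set.range (kToK c)) :
    IsAffineOpen (regOpen C t) ∧ IsAffineOpen (regOpen C t⁻¹) ∧
      regOpen C t ⊔ regOpen C t⁻¹ = ⊤ ∧
      C.basicOpen (regSection C t) = regOpen C t ⊓ regOpen C t⁻¹ ∧
      C.basicOpen (regSection C t⁻¹) = regOpen C t ⊓ regOpen C t⁻¹ ∧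
      C.presheaf.map (homOfLE (inf_le_left : regOpen C t ⊓ regOpen C t⁻¹ ≤ regOpen C t)).op
          (regSection C t) *
        C.presheaf.map (homOfLE (inf_le_right : regOpen C t ⊓ regOpen C t⁻¹ ≤ regOpen C t⁻¹)).op
          (regSection C t⁻¹) = 1 ∧
      (secLineHom c (regOpen C t) (regSection C t)).Finite ∧
      (secLineHom c (regOpen C t⁻¹) (regSection C t⁻¹)).Finite ∧
      Function.Injective (secLineHom c (regOpen C t) (regSection C t)) ∧
      Function.Injective (secLineHom c (regOpen C t⁻¹) (regSection C t⁻¹)) :=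
  two_charts_of_not_mem_range c (Fermat.Agent.S25.H627.valuationRing_stalk k c) ht

/-- **C4 (two charts)** under the hypotheses of S25. -/
theorem curve_exists_two_charts :
    ∃ (U0 U1 : C.Opens) (x : Γ(C, U0)) (y : Γ(C, U1)),
      IsAffineOpen U0 ∧ IsAffineOpen U1 ∧ U0 ⊔ U1 = ⊤ ∧
      C.basicOpen x = U0 ⊓ U1 ∧ C.basicOpen y = U0 ⊓ U1 ∧
      C.presheaf.map (homOfLE (inf_le_left : U0 ⊓ U1 ≤ U0)).op x *
        C.presheaf.map (homOfLE (inf_le_right : U0 ⊓ U1 ≤ U1)).op y = 1 ∧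
      (secLineHom c U0 x).Finite ∧ (secLineHom c U1 y).Finite ∧
      Function.Injective (secLineHom c U0 x) ∧ Function.Injective (secLineHom c U1 y) := by
  obtain ⟨t, ht⟩ := curve_exists_nonconstant k c
  exact ⟨regOpen C t, regOpen C t⁻¹, regSection C t, regSection C t⁻¹,
    curve_two_charts_of_not_mem_range k c ht⟩

end Fermat.Agent.S25.H507

end
-- ===== PACK-END S25/H507/TwoChartsCurve.lean

-- ===== PACK-BEGIN S25/H130/Glue.lean
section


/-!
# S25 / AS4 (helper130): the gluing datum of the charts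
-/

set_option autoImplicit false
universe u
open CategoryTheory CategoryTheory.Limits AlgebraicGeometry AlgebraicGeometry.RelPicard
  NeronModelInfra GoodReductionJacobian TopologicalSpace

namespace Fermat.Agent.S25.H130

noncomputable section

variable {k : Type u} [Field k] {C : Scheme.{u}} {c : C ⟶ Spec (CommRingCat.of k)}
  {ε : SchemeHomOver (𝟙 (Spec (CommRingCat.of k))) c}

/-- The locus of the `i`-th chart over which its universal bundle lies in the `j`-th chart. -/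
def ovl (ch : ChartFamily c ε) (i j : ch.ι) : (chX ch i).Opens :=
  chartLocus ch j (ch.bundle i)

/-- The universal bundle of the `i`-th chart, restricted to the overlap with the `j`-th. -/
abbrev ovlBundle (ch : ChartFamily c ε) (i j : ch.ι) :
    RigidifiedLineBundle c ε ((ovl ch i j).ι ≫ chStr ch i) :=
  restrictOpen (ch.bundle i) (ovl ch i j)

theorem exists_trans (H : Hyp c ε) (ch : ChartFamily c ε) (i j : ch.ι) :
    ∃ φ : (ovl ch i j).toScheme ⟶ chX ch j, IsPB (ch.bundle j) φ (ovlBundle ch i j) :=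
  inChart_chartLocus H.sep ch j (ch.bundle i)

/-- The transition morphism from the overlap `ovl i j` to the `j`-th chart. -/
def trans (H : Hyp c ε) (ch : ChartFamily c ε) (i j : ch.ι) :
    (ovl ch i j).toScheme ⟶ chX ch j :=
  (exists_trans H ch i j).choose

theorem trans_isPB (H : Hyp c ε) (ch : ChartFamily c ε) (i j : ch.ι) :
    IsPB (ch.bundle j) (trans H ch i j) (ovlBundle ch i j) :=
  (exists_trans H ch i j).choose_spec

theorem trans_mem (H : Hyp c ε) (ch : ChartFamily c ε) (i j : ch.ι)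
    (x : (ovl ch i j).toScheme) : trans H ch i j x ∈ ovl ch j i :=
  mem_chartLocus_of_inChart ch i (ch.deg0 j) (trans_isPB H ch i j)
    ⟨(ovl ch i j).ι, isPB_restrictOpen _ _⟩ x

theorem range_trans_subset (H : Hyp c ε) (ch : ChartFamily c ε) (i j : ch.ι) :
    Set.range (trans H ch i j) ⊆ Set.range (ovl ch j i).ι := by
  rintro _ ⟨x, rfl⟩
  simpa using trans_mem H ch i j x

/-- The transition isomorphism `ovl i j ⟶ ovl j i`. -/
def tmap (H : Hyp c ε) (ch : ChartFamily c ε) (i j : ch.ι) :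
    (ovl ch i j).toScheme ⟶ (ovl ch j i).toScheme :=
  IsOpenImmersion.lift (ovl ch j i).ι (trans H ch i j) (range_trans_subset H ch i j)

@[reassoc]
theorem tmap_ι (H : Hyp c ε) (ch : ChartFamily c ε) (i j : ch.ι) :
    tmap H ch i j ≫ (ovl ch j i).ι = trans H ch i j :=
  IsOpenImmersion.lift_fac _ _ _

theorem tmap_isPB (H : Hyp c ε) (ch : ChartFamily c ε) (i j : ch.ι) :
    IsPB (ovlBundle ch j i) (tmap H ch i j) (ovlBundle ch i j) :=
  (isPB_restrictOpen _ _).of_comp ((trans_isPB H ch i j).of_eq (tmap_ι H ch i j).symm)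

/-- Morphisms into an overlap are determined by the pullback of the universal bundle. -/
theorem hom_ovl_ext (ch : ChartFamily c ε) (i j : ch.ι) {Z : Scheme.{u}}
    {z : Z ⟶ Spec (CommRingCat.of k)} (N : RigidifiedLineBundle c ε z)
    {f g : Z ⟶ (ovl ch i j).toScheme}
    (hf : IsPB (ovlBundle ch i j) f N) (hg : IsPB (ovlBundle ch i j) g N) : f = g := by
  rw [← cancel_mono (ovl ch i j).ι]
  exact inj_scheme ch i N ((isPB_restrictOpen _ _).comp hf) ((isPB_restrictOpen _ _).comp hg)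

/-- If the universal bundles of the charts `i` and `j` pull back to the same bundle along `a`
and `b`, then `a` maps into the overlap `ovl i j`. -/
theorem mem_ovl_of_isPB (ch : ChartFamily c ε) (i j : ch.ι) {Z : Scheme.{u}}
    {z : Z ⟶ Spec (CommRingCat.of k)} {L : RigidifiedLineBundle c ε z}
    {a : Z ⟶ chX ch i} {b : Z ⟶ chX ch j}
    (ha : IsPB (ch.bundle i) a L) (hb : IsPB (ch.bundle j) b L) (x : Z) : a x ∈ ovl ch i j :=
  mem_chartLocus_of_inChart ch j (ch.deg0 i) ha ⟨b, hb⟩ x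

theorem range_subset_ovl_of_isPB (ch : ChartFamily c ε) (i j : ch.ι) {Z : Scheme.{u}}
    {z : Z ⟶ Spec (CommRingCat.of k)} {L : RigidifiedLineBundle c ε z}
    {a : Z ⟶ chX ch i} {b : Z ⟶ chX ch j}
    (ha : IsPB (ch.bundle i) a L) (hb : IsPB (ch.bundle j) b L) :
    Set.range a ⊆ Set.range (ovl ch i j).ι := by
  rintro _ ⟨x, rfl⟩
  simpa using mem_ovl_of_isPB ch i j ha hb x

theorem ovl_self (ch : ChartFamily c ε) (i : ch.ι) : ovl ch i i = ⊤ := by
  rw [eq_top_iff]
  rintro x -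
  exact mem_chartLocus_of_inChart ch i (ch.deg0 i) (isPB_id (ch.bundle i))
    (inChart_bundle ch i) x

instance isIso_ovl_self_ι (ch : ChartFamily c ε) (i : ch.ι) : IsIso (ovl ch i i).ι := by
  rw [isIso_iff_isOpenImmersion_and_surjective]
  refine ⟨inferInstance, ⟨fun x => ?_⟩⟩
  have hx : x ∈ ovl ch i i := by rw [ovl_self]; trivial
  exact ⟨⟨x, hx⟩, rfl⟩

theorem tmap_self (H : Hyp c ε) (ch : ChartFamily c ε) (i : ch.ι) :
    tmap H ch i i = 𝟙 _ :=
  hom_ovl_ext ch i i _ (tmap_isPB H ch i i) (isPB_id _)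

/-- The triple overlap, as a pullback. -/
abbrev ovl₃ (ch : ChartFamily c ε) (i j k : ch.ι) : Scheme.{u} :=
  pullback (ovl ch i j).ι (ovl ch i k).ι

/-- The morphism from the triple overlap to the chart. -/
abbrev ovl₃ι (ch : ChartFamily c ε) (i j k : ch.ι) : ovl₃ ch i j k ⟶ chX ch i :=
  pullback.fst (ovl ch i j).ι (ovl ch i k).ι ≫ (ovl ch i j).ι

instance (ch : ChartFamily c ε) (i j k : ch.ι) : Mono (ovl₃ι ch i j k) := by
  unfold ovl₃ι
  infer_instance

/-- The universal bundle restricted to the triple overlap. -/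
abbrev ovl₃Bundle (ch : ChartFamily c ε) (i j k : ch.ι) :
    RigidifiedLineBundle c ε (ovl₃ι ch i j k ≫ chStr ch i) :=
  (ch.bundle i).pullbackAlong ⟨ovl₃ι ch i j k, rfl⟩

theorem ovl₃_isPB (ch : ChartFamily c ε) (i j k : ch.ι) :
    IsPB (ch.bundle i) (ovl₃ι ch i j k) (ovl₃Bundle ch i j k) :=
  isPB_mk _ _ rfl

theorem ovl₃_isPB_fst (ch : ChartFamily c ε) (i j k : ch.ι) :
    IsPB (ovlBundle ch i j) (pullback.fst (ovl ch i j).ι (ovl ch i k).ι) (ovl₃Bundle ch i j k) :=
  (isPB_restrictOpen _ _).of_comp (ovl₃_isPB ch i j k)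

theorem ovl₃_isPB_snd (ch : ChartFamily c ε) (i j k : ch.ι) :
    IsPB (ovlBundle ch i k) (pullback.snd (ovl ch i j).ι (ovl ch i k).ι) (ovl₃Bundle ch i j k) :=
  (isPB_restrictOpen _ _).of_comp ((ovl₃_isPB ch i j k).of_eq pullback.condition)

/-- Morphisms into a triple overlap are determined by the pullback of the universal bundle. -/
theorem hom_ovl₃_ext (ch : ChartFamily c ε) (i j l : ch.ι) {Z : Scheme.{u}}
    {z : Z ⟶ Spec (CommRingCat.of k)} (N : RigidifiedLineBundle c ε z)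
    {f g : Z ⟶ ovl₃ ch i j l}
    (hf : IsPB (ovl₃Bundle ch i j l) f N) (hg : IsPB (ovl₃Bundle ch i j l) g N) : f = g := by
  rw [← cancel_mono (ovl₃ι ch i j l)]
  exact inj_scheme ch i N ((ovl₃_isPB ch i j l).comp hf) ((ovl₃_isPB ch i j l).comp hg)

theorem ovl₃_trans_isPB (H : Hyp c ε) (ch : ChartFamily c ε) (i j k : ch.ι) :
    IsPB (ch.bundle j) (pullback.fst (ovl ch i j).ι (ovl ch i k).ι ≫ trans H ch i j)
      (ovl₃Bundle ch i j k) :=
  (trans_isPB H ch i j).comp (ovl₃_isPB_fst ch i j k)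

theorem ovl₃_trans_mem (H : Hyp c ε) (ch : ChartFamily c ε) (i j k : ch.ι)
    (x : ovl₃ ch i j k) :
    (pullback.fst (ovl ch i j).ι (ovl ch i k).ι ≫ trans H ch i j) x ∈ ovl ch j k :=
  mem_chartLocus_of_inChart ch k (ch.deg0 j) (ovl₃_trans_isPB H ch i j k)
    ((inChart_chartLocus H.sep ch k (ch.bundle i)).pullback (ovl₃_isPB_snd ch i j k)) x

theorem range_ovl₃_trans_subset (H : Hyp c ε) (ch : ChartFamily c ε)
    (i j k : ch.ι) :
    Set.range (pullback.fst (ovl ch i j).ι (ovl ch i k).ι ≫ trans H ch i j) ⊆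
      Set.range (ovl ch j k).ι := by
  rintro _ ⟨x, rfl⟩
  simpa using ovl₃_trans_mem H ch i j k x

/-- The transition morphism on triple overlaps. -/
def tmap₃ (H : Hyp c ε) (ch : ChartFamily c ε) (i j k : ch.ι) :
    ovl₃ ch i j k ⟶ ovl₃ ch j k i :=
  pullback.lift
    (IsOpenImmersion.lift (ovl ch j k).ι
      (pullback.fst (ovl ch i j).ι (ovl ch i k).ι ≫ trans H ch i j)
      (range_ovl₃_trans_subset H ch i j k))
    (pullback.fst (ovl ch i j).ι (ovl ch i k).ι ≫ tmap H ch i j)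
    (by rw [IsOpenImmersion.lift_fac, Category.assoc, tmap_ι])

theorem tmap₃_snd (H : Hyp c ε) (ch : ChartFamily c ε) (i j k : ch.ι) :
    tmap₃ H ch i j k ≫ pullback.snd _ _ =
      pullback.fst (ovl ch i j).ι (ovl ch i k).ι ≫ tmap H ch i j :=
  pullback.lift_snd _ _ _

theorem tmap₃_ι (H : Hyp c ε) (ch : ChartFamily c ε) (i j k : ch.ι) :
    tmap₃ H ch i j k ≫ ovl₃ι ch j k i =
      pullback.fst (ovl ch i j).ι (ovl ch i k).ι ≫ trans H ch i j := by
  unfold tmap₃ ovl₃ι
  rw [pullback.lift_fst_assoc, IsOpenImmersion.lift_fac]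

theorem tmap₃_isPB (H : Hyp c ε) (ch : ChartFamily c ε) (i j k : ch.ι) :
    IsPB (ovl₃Bundle ch j k i) (tmap₃ H ch i j k) (ovl₃Bundle ch i j k) :=
  (ovl₃_isPB ch j k i).of_comp
    ((ovl₃_trans_isPB H ch i j k).of_eq (tmap₃_ι H ch i j k).symm)

theorem tmap₃_cocycle (H : Hyp c ε) (ch : ChartFamily c ε) (i j k : ch.ι) :
    tmap₃ H ch i j k ≫ tmap₃ H ch j k i ≫ tmap₃ H ch k i j = 𝟙 _ :=
  hom_ovl₃_ext ch i j k _
    (((tmap₃_isPB H ch k i j).comp (tmap₃_isPB H ch j k i)).comp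
      (tmap₃_isPB H ch i j k))
    (isPB_id _)

/-- The gluing datum of the charts. -/
def glueData (H : Hyp c ε) (ch : ChartFamily c ε) : Scheme.GlueData.{u} where
  J := ch.ι
  U := chX ch
  V := fun p => (ovl ch p.1 p.2).toScheme
  f := fun i j => (ovl ch i j).ι
  f_mono := fun _ _ => inferInstance
  f_hasPullback := fun _ _ _ => inferInstance
  f_id := fun i => isIso_ovl_self_ι ch i
  t := fun i j => tmap H ch i j
  t_id := fun i => tmap_self H ch i
  t' := fun i j k => tmap₃ H ch i j k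
  t_fac := fun i j k => tmap₃_snd H ch i j k
  cocycle := fun i j k => tmap₃_cocycle H ch i j k
  f_open := fun _ _ => inferInstance

end

end Fermat.Agent.S25.H130

end
-- ===== PACK-END S25/H130/Glue.lean

-- ===== PACK-BEGIN S26/H326/DictRealize.lean
section
/-
S26 helper (helper326), block PIC / DICT26, core 2: invertible modules realizing a Čech cocycle
(model `Fermat.Agent.S26.Pic.Cocycle`, indexed by points).

* `Realizes c L` : `L` has local generators `t x ∈ Γ(L, c.U x)` with `t x = c.g x y • t y` on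
  `c.U x ⊓ c.U y`;
* `exists_realizes` : every cocycle is realized by an invertible module (gluing);
* `realizes_iso_unit_iff` : `L ≅ 𝒪_X` iff the cocycle is a coboundary after shrinking;
* `realizes_pullback` : `f^* L` realizes the pulled back cocycle.
-/





set_option autoImplicit false
set_option linter.unusedVariables false

universe u

noncomputable section

open CategoryTheory AlgebraicGeometry TopologicalSpace Opposite Limits

namespace Fermat.Agent.S26.H326

open Fermat.Agent.S25.H626 (res resO res_res res_smul res_add app_res hom_ext_apply resO_resO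
  unitMod toUnit ofUnit IsLocalGenerator resO_mul resO_one res_id resO_id smul_toUnit_one
  res_toUnit_one)
open Fermat.Agent.S25.H326 (LocHom GlueData exists_glue coord coord_smul_gen coord_smul coord_add
  coord_res coord_gen coord_eq_of_smul_eq unit_smul_eq restrictHomOfLocHom
  isIso_restrictHomOfLocHom)
open Fermat.Agent.S25

variable {X Y : Scheme.{u}}

/-! ### Units and their underlying sections -/

theorem coe_picRes {U V : X.Opens} (h : V ≤ U) (a : Γ(X, U)ˣ) :
    ((Pic.res h a : Γ(X, V)ˣ) : Γ(X, V)) = resO h (a : Γ(X, U)) := rfl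

theorem coe_picPull (f : Y ⟶ X) {U : X.Opens} {V : Y.Opens} (e : V ≤ f ⁻¹ᵁ U) (a : Γ(X, U)ˣ) :
    ((Pic.pull f e a : Γ(Y, V)ˣ) : Γ(Y, V)) = resO e (f.app U (a : Γ(X, U))) := rfl

/-- `1` is a local generator of `𝒪_X` on every open. -/
theorem isLocalGenerator_one (U : X.Opens) : IsLocalGenerator (unitMod X) U (toUnit X U 1) := by
  intro V h
  have e : (fun r : Γ(X, V) => r • res (unitMod X) h (toUnit X U 1)) = toUnit X V := by
    funext r
    rw [res_toUnit_one, smul_toUnit_one]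
  rw [e]
  exact S25.H626.toUnit_bijective X V

/-- A local generator of `𝒪_X` on `U` is a unit. -/
theorem isUnit_of_isLocalGenerator_unit {U : X.Opens} {a : Γ(unitMod X, U)}
    (ha : IsLocalGenerator (unitMod X) U a) : IsUnit (ofUnit X U a) := by
  obtain ⟨r, hr⟩ := (ha U le_rfl).2 (toUnit X U 1)
  simp only [res_id] at hr
  have h1 : r * ofUnit X U a = 1 := congrArg (ofUnit X U) hr
  exact IsUnit.of_mul_eq_one _ (by rw [mul_comm]; exact h1)

/-! ### Modules realizing a cocycle -/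

/-- The module `L` realizes the cocycle `c`: it has local generators `t x` over `c.U x` with
`t x = c.g x y • t y` over `c.U x ⊓ c.U y`. -/
def Realizes (c : Pic.Cocycle X) (L : X.Modules) : Prop :=
  ∃ t : ∀ x, Γ(L, c.U x), (∀ x, IsLocalGenerator L (c.U x) (t x)) ∧
    ∀ x y, res L (inf_le_left : c.U x ⊓ c.U y ≤ c.U x) (t x) =
      ((c.g x y : Γ(X, c.U x ⊓ c.U y)ˣ) : Γ(X, c.U x ⊓ c.U y)) •
        res L (inf_le_right : c.U x ⊓ c.U y ≤ c.U y) (t y)

/-- The relation between the generators, over any open of the overlap. -/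
theorem Realizes.rel_on {c : Pic.Cocycle X} {L : X.Modules} {t : ∀ x, Γ(L, c.U x)}
    (hrel : ∀ x y, res L (inf_le_left : c.U x ⊓ c.U y ≤ c.U x) (t x) =
      ((c.g x y : Γ(X, c.U x ⊓ c.U y)ˣ) : Γ(X, c.U x ⊓ c.U y)) •
        res L (inf_le_right : c.U x ⊓ c.U y ≤ c.U y) (t y))
    (x y : X) {W : X.Opens} (hx : W ≤ c.U x) (hy : W ≤ c.U y) :
    res L hx (t x) =
      resO (le_inf hx hy) ((c.g x y : Γ(X, c.U x ⊓ c.U y)ˣ) : Γ(X, c.U x ⊓ c.U y)) •
        res L hy (t y) := by
  have := congrArg (res L (le_inf hx hy)) (hrel x y)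
  rwa [res_smul, res_res, res_res] at this

/-! ### Existence: gluing -/

/-- Sectionwise trivialisations with transition functions `c.g` give an invertible module
realizing `c`. -/
theorem realizes_of_locHoms (c : Pic.Cocycle X) (M : X.Modules)
    (e : ∀ x, LocHom (c.U x) M (unitMod X)) (hbij : ∀ x, (e x).IsBij)
    (hcompat : ∀ (x y : X) (W : X.Opens) (hW : W ≤ c.U x ⊓ c.U y) (s : Γ(M, W)),
      resO hW ((c.g x y : Γ(X, c.U x ⊓ c.U y)ˣ) : Γ(X, c.U x ⊓ c.U y)) •
          (e x).app W (hW.trans inf_le_left) s =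
        (e y).app W (hW.trans inf_le_right) s) :
    Scheme.Modules.IsInvertible M ∧ Realizes c M := by
  refine ⟨⟨fun x => ⟨c.U x, c.mem x, ?_⟩⟩, ?_⟩
  · have hf : (c.U x).ι.opensRange ≤ c.U x := le_of_eq (Scheme.Opens.opensRange_ι _)
    have := isIso_restrictHomOfLocHom (c.U x).ι hf (e x) (hbij x)
    exact ⟨((Scheme.Modules.restrictFunctorIsoPullback (c.U x).ι).app M).symm ≪≫
      asIso (restrictHomOfLocHom (c.U x).ι hf (e x)) ≪≫
      Scheme.Modules.restrictUnitIso (c.U x).ι⟩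
  · have ht : ∀ x, (e x).app (c.U x) le_rfl
        (((e x).symm (hbij x)).app (c.U x) le_rfl (toUnit X _ 1)) = toUnit X _ 1 :=
      fun x => LocHom.apply_symm_apply (e x) (hbij x) (c.U x) le_rfl _
    refine ⟨fun x => ((e x).symm (hbij x)).app (c.U x) le_rfl (toUnit X _ 1), fun x => ?_,
      fun x y => ?_⟩
    · exact LocHom.isLocalGenerator_app (LocHom.isBij_symm (e x) (hbij x)) le_rfl
        (isLocalGenerator_one (c.U x))
    · apply (hbij y (c.U x ⊓ c.U y) inf_le_right).1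
      rw [(e y).app_smul, (e y).app_res (c.U y) (c.U x ⊓ c.U y) le_rfl inf_le_right, ht y,
        ← hcompat x y (c.U x ⊓ c.U y) le_rfl,
        (e x).app_res (c.U x) (c.U x ⊓ c.U y) le_rfl inf_le_left, ht x, resO_id, res_toUnit_one,
        res_toUnit_one]

/-- The gluing data of a cocycle. -/
def cocycleGlueData (c : Pic.Cocycle X) : GlueData X X where
  G := c.U
  P := fun _ => unitMod X
  τ := fun x y =>
    LocHom.smul ((c.g x y : Γ(X, c.U x ⊓ c.U y)ˣ) : Γ(X, c.U x ⊓ c.U y)) (LocHom.id _ _)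
  τ_self := fun x W hW s => by
    rw [LocHom.smul_app]
    have h := congrArg Units.val (c.g_self_on hW)
    rw [coe_picRes, Units.val_one] at h
    rw [h, one_smul]
    rfl
  τ_cocycle := fun i j k W hij hjk hik s => by
    rw [LocHom.smul_app, LocHom.smul_app, LocHom.smul_app]
    have h := congrArg Units.val (c.cocycle_on hij hjk hik)
    rw [Units.val_mul, coe_picRes, coe_picRes, coe_picRes] at h
    rw [← h, mul_comm, mul_smul]
    rfl

/-- **DICT26, existence.**  Every cocycle is realized by an invertible module. -/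
theorem exists_realizes (c : Pic.Cocycle X) :
    ∃ L : X.Modules, Scheme.Modules.IsInvertible L ∧ Realizes c L := by
  have key : ∃ (M : X.Modules) (e : ∀ x, LocHom (c.U x) M (unitMod X)),
      (∀ x, (e x).IsBij) ∧
      ∀ (x y : X) (W : X.Opens) (hW : W ≤ c.U x ⊓ c.U y) (s : Γ(M, W)),
        (LocHom.smul ((c.g x y : Γ(X, c.U x ⊓ c.U y)ˣ) : Γ(X, c.U x ⊓ c.U y))
            (LocHom.id _ (unitMod X))).app W hW ((e x).app W (hW.trans inf_le_left) s) =
          (e y).app W (hW.trans inf_le_right) s :=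
    exists_glue (cocycleGlueData c)
  obtain ⟨M, e, hbij, hcompat⟩ := key
  refine ⟨M, realizes_of_locHoms c M e hbij ?_⟩
  intro x y W hW s
  rw [← hcompat x y W hW s, LocHom.smul_app]
  rfl

/-! ### Pull-back -/

/-- **DICT26, pull-back.**  If `L` realizes `c`, then `f^* L` realizes the pulled back
cocycle. -/
theorem realizes_pullback (f : Y ⟶ X) {c : Pic.Cocycle X} {L : X.Modules} (h : Realizes c L) :
    Realizes (c.pullback f) ((Scheme.Modules.pullback f).obj L) := by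
  obtain ⟨t, ht, hrel⟩ := h
  refine ⟨fun y => pbSec f L (c.U (f y)) (t (f y)), fun y => isLocalGenerator_pbSec f (ht (f y)),
    fun y y' => ?_⟩
  have h1 := congrArg (pbSec f L (c.U (f y) ⊓ c.U (f y'))) (hrel (f y) (f y'))
  rw [pbSec_smul, pbSec_res, pbSec_res] at h1
  have h2 := congrArg (res ((Scheme.Modules.pullback f).obj L)
    (Pic.inf_preimage_le f (c.U (f y)) (c.U (f y')))) h1
  rw [res_smul, res_res, res_res] at h2
  exact h2

/-! ### Triviality -/

/-- **DICT26, triviality.**  A module realizing `c` is trivial iff `c` is a coboundary after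
shrinking the opens. -/
theorem realizes_iso_unit_iff {c : Pic.Cocycle X} {L : X.Modules} (h : Realizes c L) :
    Nonempty (L ≅ unitMod X) ↔
      ∃ (V : X → X.Opens) (_ : ∀ x, x ∈ V x) (hc : ∀ x, V x ≤ c.U x)
        (h : ∀ x, Γ(X, V x)ˣ), ∀ x y,
          Pic.res (inf_le_inf (hc x) (hc y)) (c.g x y) *
              Pic.res (inf_le_right : V x ⊓ V y ≤ V y) (h y) =
            Pic.res (inf_le_left : V x ⊓ V y ≤ V x) (h x) := by
  obtain ⟨t, ht, hrel⟩ := h
  constructor
  · rintro ⟨e⟩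
    -- the values of the trivialisation on the generators are units
    have hu : ∀ x, IsUnit (ofUnit X (c.U x) (e.hom.app (c.U x) (t x))) := by
      intro x
      apply isUnit_of_isLocalGenerator_unit
      have hb : (LocHom.ofHom (c.U x) e.hom).IsBij := by
        intro W hW
        refine Function.bijective_iff_has_inverse.mpr ⟨fun s => e.inv.app W s, fun s => ?_,
          fun s => ?_⟩
        · exact S25.H626.app_inv_hom_apply e W s
        · exact S25.H626.app_hom_inv_apply e W s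
      exact LocHom.isLocalGenerator_app hb le_rfl (ht x)
    refine ⟨c.U, c.mem, fun _ => le_rfl, fun x => (hu x).unit, fun x y => ?_⟩
    apply Units.ext
    rw [Units.val_mul, coe_picRes, coe_picRes, coe_picRes, IsUnit.unit_spec, IsUnit.unit_spec]
    have h1 := congrArg (fun s => ofUnit X _ (e.hom.app (c.U x ⊓ c.U y) s)) (hrel x y)
    beta_reduce at h1
    rw [Scheme.Modules.Hom.app_smul, app_res, app_res, unit_smul_eq,
      S25.H626.ofUnit_toUnit] at h1
    rw [resO_id]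
    exact h1.symm
  · rintro ⟨V, hV, hc, u, H⟩
    have hcover : ⨆ x, V x = ⊤ := by
      rw [eq_top_iff]
      intro x _
      exact Opens.mem_iSup.mpr ⟨x, hV x⟩
    have hH : ∀ (x y : X) (W : X.Opens) (hx : W ≤ V x) (hy : W ≤ V y),
        resO (le_inf (hx.trans (hc x)) (hy.trans (hc y)))
            ((c.g x y : Γ(X, c.U x ⊓ c.U y)ˣ) : Γ(X, c.U x ⊓ c.U y)) *
          resO hy ((u y : Γ(X, V y)ˣ) : Γ(X, V y)) = resO hx ((u x : Γ(X, V x)ˣ) : Γ(X, V x)) := by
      intro x y W hx hy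
      have h1 := congrArg (fun a => resO (le_inf hx hy) (Units.val a)) (H x y)
      beta_reduce at h1
      rw [Units.val_mul, coe_picRes, coe_picRes, coe_picRes, resO_mul, resO_resO, resO_resO,
        resO_resO] at h1
      exact h1
    obtain ⟨ψ, -⟩ := exists_iso_of_locHoms V hcover
      (fun x => LocHom.smul ((u x : Γ(X, V x)ˣ) : Γ(X, V x)) ((coordLoc (ht x)).restrict (hc x)))
      (fun x => LocHom.isBij_smul ((isBij_coordLoc (ht x)).restrict (hc x)) (u x).isUnit)
      (by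
        intro x y W hx hy s
        rw [LocHom.smul_app, LocHom.smul_app]
        show resO hx _ • toUnit X W (coord (ht x) (hx.trans (hc x)) s) =
          resO hy _ • toUnit X W (coord (ht y) (hy.trans (hc y)) s)
        have h1 : coord (ht y) (hy.trans (hc y)) s =
            coord (ht x) (hx.trans (hc x)) s *
              resO (le_inf (hx.trans (hc x)) (hy.trans (hc y)))
                ((c.g x y : Γ(X, c.U x ⊓ c.U y)ˣ) : Γ(X, c.U x ⊓ c.U y)) := by
          apply coord_eq_of_smul_eq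
          rw [mul_smul, ← Realizes.rel_on hrel x y (hx.trans (hc x)) (hy.trans (hc y)),
            coord_smul_gen]
        rw [h1, ← hH x y W hx hy, unit_smul_eq, unit_smul_eq, S25.H626.ofUnit_toUnit,
          S25.H626.ofUnit_toUnit]
        congr 1
        ring)
    exact ⟨ψ⟩

end Fermat.Agent.S26.H326

end

end
-- ===== PACK-END S26/H326/DictRealize.lean

-- ===== PACK-BEGIN S26/C4/Bridge.lean
section


/-!
# Row S26, leaf C4: `C4a + C4b ⇒ C4ab` and the final assembly (helper478)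

* `exists_kpt_lift_of_isClosedImmersion` : a `K`-point whose underlying point lies in the range
  of a closed immersion lifts to it;
* `exists_kpt_mem_of_isOpen` : a nonempty open subset of a `K`-scheme locally of finite type
  (`K` algebraically closed) contains a `K`-point;
* `c4ab_of` : `C4a → C4b → C4ab`;
* `curvesGenerate_of` : `Stmt.Integral → C4a → C4b → C4cSum → C4cChain → Stmt.CurvesGenerate`.
-/

set_option autoImplicit false
universe u

open CategoryTheory CategoryTheory.Limits AlgebraicGeometry NeronModelInfra GoodReductionJacobian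
open TopologicalSpace

namespace Fermat.Agent.S26.C4

variable {K : Type u} [Field K]

/-- A `K`-point of `Y` whose underlying point lies in the range of a closed immersion
`i : Z ⟶ Y` lifts to a `K`-point of `Z`. -/
theorem exists_kpt_lift_of_isClosedImmersion {Y Z : Scheme.{u}}
    (y : Y ⟶ Spec (CommRingCat.of K)) (i : Z ⟶ Y) [IsClosedImmersion i] (x : KPt y)
    (hx : ptOf x ∈ Set.range i) : ∃ g : KPt (i ≫ y), g.1 ≫ i = x.1 := by
  have hsurj : Function.Surjective (pullback.fst x.1 i) := by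
    rw [← Set.range_eq_univ, Scheme.Pullback.range_fst]
    ext s
    simp only [Set.mem_preimage, Set.mem_univ, iff_true]
    rw [Subsingleton.elim s default]
    exact hx
  have : Surjective (pullback.fst x.1 i) := ⟨hsurj⟩
  have : IsIso (pullback.fst x.1 i) := isIso_of_isClosedImmersion_of_surjective _
  have hg : (inv (pullback.fst x.1 i) ≫ pullback.snd x.1 i) ≫ i = x.1 := by
    rw [Category.assoc, ← pullback.condition, IsIso.inv_hom_id_assoc]
  exact ⟨⟨inv (pullback.fst x.1 i) ≫ pullback.snd x.1 i, by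
    rw [← Category.assoc, hg, x.2]⟩, hg⟩

variable [IsAlgClosed K]

/-- The `K`-point with a given closed underlying point. -/
noncomputable def kptOfClosed {Y : Scheme.{u}} (y : Y ⟶ Spec (CommRingCat.of K))
    [LocallyOfFiniteType y] (a : Y) (ha : IsClosed ({a} : Set Y)) : KPt y :=
  ⟨pointOfClosedPoint y a ha, pointOfClosedPoint_comp y a ha⟩

@[simp]
theorem ptOf_kptOfClosed {Y : Scheme.{u}} (y : Y ⟶ Spec (CommRingCat.of K))
    [LocallyOfFiniteType y] (a : Y) (ha : IsClosed ({a} : Set Y)) :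
    ptOf (kptOfClosed y a ha) = a :=
  pointOfClosedPoint_apply y a ha _

/-- A nonempty locally closed subset of a `K`-scheme locally of finite type contains the point
underlying a `K`-point. -/
theorem exists_kpt_mem_of_isLocallyClosed {Y : Scheme.{u}} (y : Y ⟶ Spec (CommRingCat.of K))
    [LocallyOfFiniteType y] {U : Set Y} (hU : IsLocallyClosed U) (hne : U.Nonempty) :
    ∃ p : KPt y, ptOf p ∈ U := by
  have : JacobsonSpace Y := LocallyOfFiniteType.jacobsonSpace y
  obtain ⟨a, haU, ha⟩ := nonempty_inter_closedPoints hne hU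
  exact ⟨kptOfClosed y a ha, by rw [ptOf_kptOfClosed]; exact haU⟩

/-- A nonempty open subset of a `K`-scheme locally of finite type contains the point
underlying a `K`-point. -/
theorem exists_kpt_mem_of_isOpen {Y : Scheme.{u}} (y : Y ⟶ Spec (CommRingCat.of K))
    [LocallyOfFiniteType y] {U : Set Y} (hU : IsOpen U) (hne : U.Nonempty) :
    ∃ p : KPt y, ptOf p ∈ U :=
  exists_kpt_mem_of_isLocallyClosed y hU.isLocallyClosed hne

variable (K)

/-- **C4a + C4b ⇒ C4ab.** -/
theorem c4ab_of (ha : Stmt.C4a K) (hb : Stmt.C4b K) : Stmt.C4ab K := by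
  intro X _ B hB hBu h0
  obtain ⟨Γ, hΓ, i, hi, hcurve, h0i, hiB⟩ := ha X B hB hBu h0
  have : IsProper X.str := X.bundle.proper
  have : IsProper (i ≫ X.str) := inferInstance
  obtain ⟨C, c, ν, hν, hCint, hCprop, hCsm, -, hνsurj, hlift⟩ := hb Γ (i ≫ X.str) hcurve
  obtain ⟨g₀, hg₀⟩ := exists_kpt_lift_of_isClosedImmersion X.str i X.zero h0i
  obtain ⟨c₀, hc₀⟩ := hlift g₀
  let Γ' : X.PtdCurve :=
    { C := C
      str := c
      proper := hCprop
      smooth := hCsm
      integral := hCint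
      ι := ν ≫ i
      ι_str := by rw [Category.assoc, hν]
      base := c₀
      base_zero := by rw [← Category.assoc, hc₀, hg₀] }
  have hU : IsOpen ((ν ≫ i) ⁻¹' Bᶜ) := hB.isOpen_compl.preimage (ν ≫ i).continuous
  have hUne : ((ν ≫ i) ⁻¹' Bᶜ).Nonempty := by
    obtain ⟨_, ⟨g, rfl⟩, hg⟩ := Set.not_subset.mp hiB
    obtain ⟨z, rfl⟩ := hνsurj g
    exact ⟨z, hg⟩
  obtain ⟨p, hp⟩ := exists_kpt_mem_of_isOpen c hU hUne
  exact ⟨Γ', p, hp⟩

/-- **C4 (final assembly).** -/
theorem curvesGenerate_of (hInt : Stmt.Integral K) (ha : Stmt.C4a K) (hb : Stmt.C4b K)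
    (hsum : Stmt.C4cSum K) (hchain : Stmt.C4cChain K) : Stmt.CurvesGenerate K :=
  curvesGenerate_of_ab K hInt (c4ab_of K ha hb) hsum hchain

end Fermat.Agent.S26.C4

end
-- ===== PACK-END S26/C4/Bridge.lean

-- ===== PACK-BEGIN S27/H267/GenusMain.lean
section


/-!
# Row S27, leaf GENUS (helper267): main theorem

`genusFF_eq_finrank_H1_unit` : for a curve chart `(B₀, B₁, B₀₁, x, y, e)` over an algebraically
closed field `K` with compatible maps `j₀, j₁, j₀₁` to `F`, `j₀₁` injective, `F = Frac (j₀₁ B₀₁)`: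

  `genusFF K F = finrank K (GlueDatum.unit K (K ⊗ B₀) (K ⊗ B₁) (K ⊗ B₀₁)).H1`,

together with the explicit `K`-linear equivalence `h1Equiv`.
-/

set_option autoImplicit false
set_option linter.style.haveILetI false
set_option linter.unusedSectionVars false

noncomputable section

open AlgebraicCurve IsDedekindDomain
open scoped TensorProduct

namespace Fermat.Agent.S27.H267

open Fermat.Agent.S25

universe u v

section Main

variable {K : Type u} [Field K] [IsAlgClosed K] {F : Type v} [Field F] [Algebra K F]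
  {B₀ B₁ B₀₁ : Type u} [CommRing B₀] [CommRing B₁] [CommRing B₀₁]
  [Algebra K B₀] [Algebra K B₁] [Algebra K B₀₁] [Algebra B₀ B₀₁] [Algebra B₁ B₀₁]
  [IsScalarTower K B₀ B₀₁] [IsScalarTower K B₁ B₀₁]
  {x : B₀} {y : B₁} {e : B₁ →ₐ[K] K}

/-- `K ⊗ B → B → F`. -/
def toF {B : Type u} [CommRing B] [Algebra K B] (j : B →ₐ[K] F) : (K ⊗[K] B) →ₗ[K] F :=
  j.toLinearMap ∘ₗ (TensorProduct.lid K B).toLinearMap

theorem toF_tmul {B : Type u} [CommRing B] [Algebra K B] (j : B →ₐ[K] F) (c : K) (b : B) :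
    toF j (c ⊗ₜ[K] b) = c • j b := by
  simp [toF]

theorem toF_one_tmul {B : Type u} [CommRing B] [Algebra K B] (j : B →ₐ[K] F) (b : B) :
    toF j ((1 : K) ⊗ₜ[K] b) = j b := by
  rw [toF_tmul, one_smul]

theorem toF_injective {B : Type u} [CommRing B] [Algebra K B] (j : B →ₐ[K] F)
    (hj : Function.Injective j) : Function.Injective (toF j) := by
  intro a b h
  apply (TensorProduct.lid K B).injective
  apply hj
  exact h

variable (j₀ : B₀ →ₐ[K] F) (j₁ : B₁ →ₐ[K] F) (j₀₁ : B₀₁ →ₐ[K] F)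
  (comp₀ : ∀ b : B₀, j₀₁ (algebraMap B₀ B₀₁ b) = j₀ b)
  (comp₁ : ∀ b : B₁, j₀₁ (algebraMap B₁ B₀₁ b) = j₁ b)

include comp₀ in
theorem toF_algebraMap₀ (a : K ⊗[K] B₀) :
    toF j₀₁ (algebraMap (K ⊗[K] B₀) (K ⊗[K] B₀₁) a) = toF j₀ a := by
  induction a using TensorProduct.induction_on with
  | zero => simp
  | tmul c b =>
    have h : algebraMap (K ⊗[K] B₀) (K ⊗[K] B₀₁) (c ⊗ₜ[K] b) =
        c ⊗ₜ[K] algebraMap B₀ B₀₁ b := by
      show tensorMapRight K K B₀ B₀₁ (c ⊗ₜ[K] b) = _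
      simp [tensorMapRight]
    rw [h, toF_tmul, toF_tmul, comp₀]
  | add a b ha hb => rw [map_add, map_add, map_add, ha, hb]

include comp₁ in
theorem toF_algebraMap₁ (a : K ⊗[K] B₁) :
    toF j₀₁ (algebraMap (K ⊗[K] B₁) (K ⊗[K] B₀₁) a) = toF j₁ a := by
  induction a using TensorProduct.induction_on with
  | zero => simp
  | tmul c b =>
    have h : algebraMap (K ⊗[K] B₁) (K ⊗[K] B₀₁) (c ⊗ₜ[K] b) =
        c ⊗ₜ[K] algebraMap B₁ B₀₁ b := by
      show tensorMapRight K K B₁ B₀₁ (c ⊗ₜ[K] b) = _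
      simp [tensorMapRight]
    rw [h, toF_tmul, toF_tmul, comp₁]
  | add a b ha hb => rw [map_add, map_add, map_add, ha, hb]

theorem cech_unit_apply (a : K ⊗[K] B₀) (b : K ⊗[K] B₁) :
    (GlueDatum.unit K (K ⊗[K] B₀) (K ⊗[K] B₁) (K ⊗[K] B₀₁)).cech (a, b) =
      algebraMap (K ⊗[K] B₀) (K ⊗[K] B₀₁) a - algebraMap (K ⊗[K] B₁) (K ⊗[K] B₀₁) b := by
  show algebraMap (K ⊗[K] B₀) (K ⊗[K] B₀₁) a + -(algebraMap (K ⊗[K] B₁) (K ⊗[K] B₀₁) b) = _
  rw [sub_eq_add_neg]

theorem range_toF {B : Type u} [CommRing B] [Algebra K B] (j : B →ₐ[K] F) {f : F}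
    (hf : f ∈ Set.range j) : ∃ t : K ⊗[K] B, toF j t = f := by
  obtain ⟨b, rfl⟩ := hf
  exact ⟨(1 : K) ⊗ₜ[K] b, toF_one_tmul j b⟩

theorem toF_mem_chartPlaces {B : Type u} [CommRing B] [Algebra K B] (j : B →ₐ[K] F)
    (t : K ⊗[K] B) (v : Place K F) (hv : v ∈ chartPlaces (K := K) j.toRingHom) :
    toF j t ∈ v.toValuationSubring := by
  have : toF j t = j (TensorProduct.lid K B t) := rfl
  rw [this]
  exact hv _

variable (hC : IsCurveChart K B₀ B₁ B₀₁ x y e)
  (hinj : Function.Injective j₀₁)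
  (hfrac : ∀ f : F, ∃ a b : B₀₁, j₀₁ b ≠ 0 ∧ f * j₀₁ b = j₀₁ a)

include hC comp₀ comp₁ hinj hfrac

/-- The map `K ⊗ B₀₁ → H¹(0)`, `f ↦ [f · 1_Z]`, `Z` the complement of the first chart. -/
def bigPsi : (K ⊗[K] B₀₁) →ₗ[K] H1 (0 : Divisor K F) :=
  (psi (chartPlaces (K := K) j₀.toRingHom)ᶜ
    (finite_compl_chart₀ hC j₀ j₁ j₀₁ comp₀ comp₁ hinj hfrac)) ∘ₗ toF j₀₁

theorem bigPsi_apply (t : K ⊗[K] B₀₁) :
    bigPsi j₀ j₁ j₀₁ comp₀ comp₁ hC hinj hfrac t =
      psi (chartPlaces (K := K) j₀.toRingHom)ᶜ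
        (finite_compl_chart₀ hC j₀ j₁ j₀₁ comp₀ comp₁ hinj hfrac) (toF j₀₁ t) := rfl

theorem bigPsi_surjective :
    Function.Surjective (bigPsi j₀ j₁ j₀₁ comp₀ comp₁ hC hinj hfrac) := by
  haveI := H207.isDedekindDomain_chart₀ hC
  haveI := H207.isDedekindDomain_chart₁ hC
  haveI := H207.isDedekindDomain_chart₀₁ hC
  intro ξ
  obtain ⟨g, hg, hgξ⟩ := psi_surjective (chartPlaces (K := K) j₀.toRingHom)
    (chartPlaces (K := K) j₁.toRingHom) (chart_union hC j₀ j₁ j₀₁ comp₀ comp₁)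
    (finite_compl_chart₀ hC j₀ j₁ j₀₁ comp₀ comp₁ hinj hfrac)
    (finite_poles hC j₀ j₁ j₀₁ comp₀ comp₁ hinj hfrac)
    (partialFractions j₀ (j₀_injective hC j₀ j₁ j₀₁ comp₀ comp₁ hinj)
      (frac₀ hC j₀ j₁ j₀₁ comp₀ comp₁ hinj hfrac))
    (partialFractions j₁ (j₁_injective hC j₀ j₁ j₀₁ comp₀ comp₁ hinj)
      (frac₁ hC j₀ j₁ j₀₁ comp₀ comp₁ hinj hfrac)) ξ
  have hg' : g ∈ Set.range j₀₁ := by
    apply mem_range_of_regular j₀₁ hinj hfrac
    rw [chartPlaces₀₁ hC j₀ j₁ j₀₁ comp₀ comp₁ hinj hfrac]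
    exact hg
  obtain ⟨t, ht⟩ := range_toF j₀₁ hg'
  refine ⟨t, ?_⟩
  rw [bigPsi_apply, ht, hgξ]

theorem bigPsi_eq_zero_iff (t : K ⊗[K] B₀₁) :
    bigPsi j₀ j₁ j₀₁ comp₀ comp₁ hC hinj hfrac t = 0 ↔
      ∃ (s₀ : K ⊗[K] B₀) (s₁ : K ⊗[K] B₁),
        algebraMap (K ⊗[K] B₀) (K ⊗[K] B₀₁) s₀ -
          algebraMap (K ⊗[K] B₁) (K ⊗[K] B₀₁) s₁ = t := by
  haveI := H207.isDedekindDomain_chart₀ hC
  haveI := H207.isDedekindDomain_chart₁ hC
  haveI := H207.isDedekindDomain_chart₀₁ hC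
  have hreg : ∀ v ∈ chartPlaces (K := K) j₀.toRingHom ∩
      chartPlaces (K := K) j₁.toRingHom, toF j₀₁ t ∈ v.toValuationSubring := by
    intro v hv
    rw [← chartPlaces₀₁ hC j₀ j₁ j₀₁ comp₀ comp₁ hinj hfrac] at hv
    exact toF_mem_chartPlaces j₀₁ t v hv
  rw [bigPsi_apply, psi_eq_zero_iff (chartPlaces (K := K) j₀.toRingHom)
    (chartPlaces (K := K) j₁.toRingHom) (chart_union hC j₀ j₁ j₀₁ comp₀ comp₁)
    (finite_compl_chart₀ hC j₀ j₁ j₀₁ comp₀ comp₁ hinj hfrac) hreg]
  constructor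
  · rintro ⟨a, b, ha, hb, hab⟩
    obtain ⟨s₀, hs₀⟩ := range_toF j₀ (mem_range_of_regular j₀
      (j₀_injective hC j₀ j₁ j₀₁ comp₀ comp₁ hinj)
      (frac₀ hC j₀ j₁ j₀₁ comp₀ comp₁ hinj hfrac) ha)
    obtain ⟨s₁, hs₁⟩ := range_toF j₁ (mem_range_of_regular j₁
      (j₁_injective hC j₀ j₁ j₀₁ comp₀ comp₁ hinj)
      (frac₁ hC j₀ j₁ j₀₁ comp₀ comp₁ hinj hfrac) hb)
    refine ⟨s₀, -s₁, ?_⟩
    apply toF_injective j₀₁ hinj
    rw [map_sub, toF_algebraMap₀ j₀ j₀₁ comp₀, toF_algebraMap₁ j₁ j₀₁ comp₁,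
      map_neg, sub_neg_eq_add, hs₀, hs₁, hab]
  · rintro ⟨s₀, s₁, rfl⟩
    refine ⟨toF j₀ s₀, -toF j₁ s₁, fun v hv => toF_mem_chartPlaces j₀ s₀ v hv,
      fun v hv => neg_mem (toF_mem_chartPlaces j₁ s₁ v hv), ?_⟩
    rw [map_sub, toF_algebraMap₀ j₀ j₀₁ comp₀, toF_algebraMap₁ j₁ j₀₁ comp₁,
      sub_eq_add_neg]

theorem ker_bigPsi :
    LinearMap.ker (bigPsi j₀ j₁ j₀₁ comp₀ comp₁ hC hinj hfrac) =
      LinearMap.range (GlueDatum.unit K (K ⊗[K] B₀) (K ⊗[K] B₁) (K ⊗[K] B₀₁)).cech := by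
  apply le_antisymm
  · intro t ht
    obtain ⟨s₀, s₁, h⟩ := (bigPsi_eq_zero_iff j₀ j₁ j₀₁ comp₀ comp₁ hC hinj hfrac t).mp ht
    exact ⟨(s₀, s₁), (cech_unit_apply s₀ s₁).trans h⟩
  · rintro t ⟨⟨s₀, s₁⟩, h⟩
    exact (bigPsi_eq_zero_iff j₀ j₁ j₀₁ comp₀ comp₁ hC hinj hfrac t).mpr
      ⟨s₀, s₁, (cech_unit_apply s₀ s₁).symm.trans h⟩

/-- **GENUS**: Čech `Ȟ¹(O)` of the chart is Weil's `H¹(0) = 𝔸/(𝔸(0) + F)`. -/
def h1Equiv :
    (GlueDatum.unit K (K ⊗[K] B₀) (K ⊗[K] B₁) (K ⊗[K] B₀₁)).H1 ≃ₗ[K] H1 (0 : Divisor K F) :=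
  (Submodule.quotEquivOfEq _ _ (ker_bigPsi j₀ j₁ j₀₁ comp₀ comp₁ hC hinj hfrac).symm).trans
    ((bigPsi j₀ j₁ j₀₁ comp₀ comp₁ hC hinj hfrac).quotKerEquivOfSurjective
      (bigPsi_surjective j₀ j₁ j₀₁ comp₀ comp₁ hC hinj hfrac))

/-- **GENUS**: the genus of the function field is `dim_K Ȟ¹(O)` of any of its curve charts. -/
theorem genusFF_eq_finrank_H1_unit :
    genusFF K F =
      Module.finrank K (GlueDatum.unit K (K ⊗[K] B₀) (K ⊗[K] B₁) (K ⊗[K] B₀₁)).H1 := by
  unfold genusFF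
  exact (h1Equiv j₀ j₁ j₀₁ comp₀ comp₁ hC hinj hfrac).finrank_eq.symm

end Main

end Fermat.Agent.S27.H267

end
end
-- ===== PACK-END S27/H267/GenusMain.lean

-- ===== PACK-BEGIN S27/H551/AlgTangent.lean
section







/-!
# S27 / DIM (helper551): the tangent space of the Picard functor is `Ȟ¹(O)` — pure algebra

`k` algebraically closed, `(B₀, B₁, B₀₁, x, y, e)` a curve chart, `S` a `k`-algebra with a
`k`-point `z : S →ₐ[k] k`, and `G` a gluing datum over `S` (on `C_S`) such that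

* (triv) the fibre of `G` at `z` is the unit datum;
* (inj)  two `k[ε]`-points `φ, ψ` of `S` over `z` with `φ^* G ≅ ψ^* G` are equal;
* (surj) every gluing datum over `k[ε]` with trivial reduction is `φ^* G` for a `k[ε]`-point
  `φ` of `S` over `z`.

Then the tangent space of `S` at `z` is isomorphic to `Ȟ¹(unit datum over k)`:

* `tanSpace z` : the `k`-vector space of `k`-linear `δ : S → k` with
  `δ (a b) = z a δ b + z b δ a`;
* `tangentEquiv` : `Nonempty (tanSpace z ≃ₗ[k] Ȟ¹)`;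
* `finrank_tanSpace` : `finrank k (tanSpace z) = finrank k Ȟ¹`;
* `finrank_derivation` : the same for `Derivation k S k` (`k` an `S`-module through `z`).
-/

set_option autoImplicit false
set_option linter.style.haveILetI false
set_option linter.unusedSectionVars false

universe u

open scoped TensorProduct

namespace Fermat.Agent.S27.H551

open Fermat.Agent.S25 Fermat.Agent.S25.H265 Fermat.Agent.S25.H671

noncomputable section

variable {k : Type u} [Field k] {S : Type u} [CommRing S] [Algebra k S]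

/-! ## Tangent vectors -/

/-- The tangent space of `S` at the `k`-point `z`: point derivations. -/
def tanSpace (z : S →ₐ[k] k) : Submodule k (S →ₗ[k] k) where
  carrier := {δ | ∀ a b, δ (a * b) = z a * δ b + z b * δ a}
  add_mem' := by
    intro δ δ' h h' a b
    rw [LinearMap.add_apply, LinearMap.add_apply, LinearMap.add_apply, h a b, h' a b]
    ring
  zero_mem' := by
    intro a b
    simp
  smul_mem' := by
    intro c δ h a b
    rw [LinearMap.smul_apply, LinearMap.smul_apply, LinearMap.smul_apply, h a b, smul_eq_mul,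
      smul_eq_mul, smul_eq_mul]
    ring

theorem mem_tanSpace {z : S →ₐ[k] k} {δ : S →ₗ[k] k} :
    δ ∈ tanSpace z ↔ ∀ a b, δ (a * b) = z a * δ b + z b * δ a := Iff.rfl

theorem tanSpace_map_one {z : S →ₐ[k] k} (δ : tanSpace z) : δ.1 1 = 0 := by
  have h := mem_tanSpace.1 δ.2 (1 : S) (1 : S)
  rw [mul_one, show z 1 = 1 from map_one z, one_mul] at h
  have h2 : δ.1 1 + 0 = δ.1 1 + δ.1 1 := by rw [add_zero]; exact h
  exact (add_left_cancel h2).symm

/-- The `k[ε]`-point attached to a tangent vector: `s ↦ z s + δ s ε`. -/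
def tanHom (z : S →ₐ[k] k) (δ : tanSpace z) : S →ₐ[k] DualNum k :=
  AlgHom.ofLinearMap ((dInl k).toLinearMap ∘ₗ z.toLinearMap + (dInr k) ∘ₗ δ.1)
    (by
      show dInl k (z 1) + dInr k (δ.1 1) = 1
      rw [tanSpace_map_one, map_zero, add_zero, map_one, map_one])
    (by
      intro a b
      show dInl k (z (a * b)) + dInr k (δ.1 (a * b)) =
        (dInl k (z a) + dInr k (δ.1 a)) * (dInl k (z b) + dInr k (δ.1 b))
      apply dualNum_ext
      · simp only [map_add, map_mul, dAug_dInl, dAug_dInr, add_zero]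
      · rw [dSnd_mul]
        simp only [map_add, dAug_dInl, dAug_dInr, dSnd_dInl, dSnd_dInr, add_zero, zero_add]
        rw [δ.2 a b]
        ring)

theorem tanHom_apply (z : S →ₐ[k] k) (δ : tanSpace z) (s : S) :
    tanHom z δ s = dInl k (z s) + dInr k (δ.1 s) := rfl

@[simp] theorem dAug_tanHom (z : S →ₐ[k] k) (δ : tanSpace z) (s : S) :
    dAug k (tanHom z δ s) = z s := by
  rw [tanHom_apply, map_add, dAug_dInl, dAug_dInr, add_zero]

@[simp] theorem dSnd_tanHom (z : S →ₐ[k] k) (δ : tanSpace z) (s : S) :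
    dSnd k (tanHom z δ s) = δ.1 s := by
  rw [tanHom_apply, map_add, dSnd_dInl, dSnd_dInr, zero_add]

theorem dAug_comp_tanHom (z : S →ₐ[k] k) (δ : tanSpace z) : (dAug k).comp (tanHom z δ) = z :=
  AlgHom.ext fun s => dAug_tanHom z δ s

theorem tanHom_injective (z : S →ₐ[k] k) : Function.Injective (tanHom z) := by
  intro δ δ' h
  apply Subtype.ext
  apply LinearMap.ext
  intro s
  rw [← dSnd_tanHom z δ s, ← dSnd_tanHom z δ' s, h]

/-- The tangent vector of a `k[ε]`-point over `z`. -/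
def tanOfHom (z : S →ₐ[k] k) (φ : S →ₐ[k] DualNum k) (hφ : (dAug k).comp φ = z) : tanSpace z :=
  ⟨(dSnd k) ∘ₗ φ.toLinearMap, by
    intro a b
    have ha : dAug k (φ a) = z a := by rw [← hφ]; rfl
    have hb : dAug k (φ b) = z b := by rw [← hφ]; rfl
    show dSnd k (φ (a * b)) = z a * dSnd k (φ b) + z b * dSnd k (φ a)
    rw [map_mul, dSnd_mul, ha, hb]
    ring⟩

theorem tanHom_tanOfHom (z : S →ₐ[k] k) (φ : S →ₐ[k] DualNum k) (hφ : (dAug k).comp φ = z) :
    tanHom z (tanOfHom z φ hφ) = φ := by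
  apply AlgHom.ext
  intro s
  have hs : dAug k (φ s) = z s := by rw [← hφ]; rfl
  rw [tanHom_apply, ← hs]
  exact dInl_dAug_add_dInr_dSnd (φ s)

/-- `k` as an `S`-module through the `k`-point `z`. -/
@[reducible] def ptModule (z : S →ₐ[k] k) : Module S k := Module.compHom k z.toRingHom

theorem ptModule_isScalarTower (z : S →ₐ[k] k) :
    letI := ptModule z
    IsScalarTower k S k := by
  letI := ptModule z
  refine ⟨fun a s m => ?_⟩
  show z (a • s) * m = a • (z s * m)
  rw [map_smul, smul_mul_assoc]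

/-- Point derivations are the derivations `S → k` for the module structure of `k` through
`z`. -/
def derivationEquiv (z : S →ₐ[k] k) :
    letI := ptModule z
    haveI := ptModule_isScalarTower z
    Derivation k S k ≃ₗ[k] tanSpace z :=
  letI := ptModule z
  haveI := ptModule_isScalarTower z
  { toFun := fun d => ⟨d.toLinearMap, fun a b => by
      have := d.leibniz a b
      rw [add_comm]
      exact this.trans (by rw [add_comm]; rfl)⟩
    invFun := fun δ =>
      { toLinearMap := δ.1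
        map_one_eq_zero' := tanSpace_map_one δ
        leibniz' := fun a b => by
          show δ.1 (a * b) = z a * δ.1 b + z b * δ.1 a
          exact δ.2 a b }
    left_inv := fun d => by ext; rfl
    right_inv := fun δ => by ext; rfl
    map_add' := fun d d' => rfl
    map_smul' := fun c d => rfl }

/-! ## The first-order neighbourhood of `z` -/

section Nbhd

variable (z : S →ₐ[k] k)

/-- The square of the maximal ideal of the point `z`. -/
def kerSq : Ideal S := (RingHom.ker (z : S →+* k)) ^ 2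

theorem kerSq_le_ker : kerSq z ≤ RingHom.ker (z : S →+* k) :=
  Ideal.pow_le_self two_ne_zero

/-- The first-order neighbourhood `S / 𝔪_z²`. -/
abbrev nbhdRing : Type u := S ⧸ kerSq z

/-- `S → S / 𝔪_z²`. -/
def nbhdMk : S →ₐ[k] nbhdRing z := Ideal.Quotient.mkₐ k (kerSq z)

theorem nbhdMk_surjective : Function.Surjective (nbhdMk z) :=
  Ideal.Quotient.mkₐ_surjective k (kerSq z)

/-- The augmentation `S / 𝔪_z² → k`. -/
def nbhdAug : nbhdRing z →ₐ[k] k :=
  Ideal.Quotient.liftₐ (kerSq z) z (fun _ ha => (RingHom.mem_ker).1 (kerSq_le_ker z ha))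

@[simp] theorem nbhdAug_nbhdMk (s : S) : nbhdAug z (nbhdMk z s) = z s := rfl

theorem nbhdAug_comp_nbhdMk : (nbhdAug z).comp (nbhdMk z) = z := AlgHom.ext fun _ => rfl

theorem nbhdMk_eq_zero {s : S} (hs : s ∈ kerSq z) : nbhdMk z s = 0 :=
  Ideal.Quotient.eq_zero_iff_mem.2 hs

theorem ker_nbhdAug_sq : (RingHom.ker (nbhdAug z : nbhdRing z →+* k)) ^ 2 = ⊥ := by
  rw [pow_two, eq_bot_iff, Ideal.mul_le]
  intro a ha b hb
  rw [RingHom.mem_ker] at ha hb
  obtain ⟨s, rfl⟩ := nbhdMk_surjective z a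
  obtain ⟨t, rfl⟩ := nbhdMk_surjective z b
  have hs : s ∈ RingHom.ker (z : S →+* k) := RingHom.mem_ker.2 ha
  have ht : t ∈ RingHom.ker (z : S →+* k) := RingHom.mem_ker.2 hb
  rw [Ideal.mem_bot, ← map_mul]
  apply nbhdMk_eq_zero
  rw [kerSq, pow_two]
  exact Ideal.mul_mem_mul hs ht

theorem tanHom_eq_zero_of_mem_kerSq (δ : tanSpace z) {a : S} (ha : a ∈ kerSq z) :
    tanHom z δ a = 0 := by
  have hle : kerSq z ≤ RingHom.ker (tanHom z δ : S →+* DualNum k) := by
    rw [kerSq, pow_two, Ideal.mul_le]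
    intro s hs t ht
    rw [RingHom.mem_ker] at hs ht ⊢
    have h1 : dAug k (tanHom z δ s) = 0 := by rw [dAug_tanHom]; exact hs
    have h2 : dAug k (tanHom z δ t) = 0 := by rw [dAug_tanHom]; exact ht
    show tanHom z δ (s * t) = 0
    rw [map_mul]
    exact mul_eq_zero_of_dAug h1 h2
  exact RingHom.mem_ker.1 (hle ha)

/-- The `k[ε]`-point of the first-order neighbourhood attached to a tangent vector. -/
def tanBar (δ : tanSpace z) : nbhdRing z →ₐ[k] DualNum k :=
  Ideal.Quotient.liftₐ (kerSq z) (tanHom z δ) (fun _ ha => tanHom_eq_zero_of_mem_kerSq z δ ha)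

@[simp] theorem tanBar_nbhdMk (δ : tanSpace z) (s : S) :
    tanBar z δ (nbhdMk z s) = tanHom z δ s := rfl

theorem tanBar_comp_nbhdMk (δ : tanSpace z) : (tanBar z δ).comp (nbhdMk z) = tanHom z δ :=
  AlgHom.ext fun _ => rfl

theorem dAug_comp_tanBar (δ : tanSpace z) : (dAug k).comp (tanBar z δ) = nbhdAug z := by
  apply AlgHom.ext
  intro a
  obtain ⟨s, rfl⟩ := nbhdMk_surjective z a
  show dAug k (tanHom z δ s) = z s
  exact dAug_tanHom z δ s

/-- The linear functional on the first-order neighbourhood attached to a tangent vector. -/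
def tanLin (δ : tanSpace z) : nbhdRing z →ₗ[k] k := (dSnd k) ∘ₗ (tanBar z δ).toLinearMap

@[simp] theorem tanLin_nbhdMk (δ : tanSpace z) (s : S) : tanLin z δ (nbhdMk z s) = δ.1 s :=
  dSnd_tanHom z δ s

theorem tanLin_add (δ δ' : tanSpace z) : tanLin z (δ + δ') = tanLin z δ + tanLin z δ' := by
  apply LinearMap.ext
  intro a
  obtain ⟨s, rfl⟩ := nbhdMk_surjective z a
  rw [LinearMap.add_apply, tanLin_nbhdMk, tanLin_nbhdMk, tanLin_nbhdMk]
  rfl

theorem tanLin_smul (c : k) (δ : tanSpace z) : tanLin z (c • δ) = c • tanLin z δ := by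
  apply LinearMap.ext
  intro a
  obtain ⟨s, rfl⟩ := nbhdMk_surjective z a
  rw [LinearMap.smul_apply, tanLin_nbhdMk, tanLin_nbhdMk]
  rfl

theorem dCoeff_tensorMapLeft_tanBar (δ : tanSpace z) (B : Type u) [CommRing B] [Algebra k B]
    (w : nbhdRing z ⊗[k] B) :
    dCoeff k B (tensorMapLeft k (tanBar z δ) B w) = LinearMap.rTensor B (tanLin z δ) w := by
  induction w using TensorProduct.induction_on with
  | zero => simp
  | tmul a b => rfl
  | add w w' hw hw' => rw [map_add, map_add, map_add, hw, hw']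

end Nbhd

/-! ## The main theorem -/

section Main

variable [IsAlgClosed k] {B₀ B₁ B₀₁ : Type u} [CommRing B₀] [CommRing B₁] [CommRing B₀₁]
  [Algebra k B₀] [Algebra k B₁] [Algebra k B₀₁] [Algebra B₀ B₀₁] [Algebra B₁ B₀₁]
  [IsScalarTower k B₀ B₀₁] [IsScalarTower k B₁ B₀₁]
  {x : B₀} {y : B₁} {e : B₁ →ₐ[k] k}

/-- **The tangent space of the Picard functor at the origin is `Ȟ¹(O)`** (pure algebra). -/
theorem exists_tangent_linearEquiv (hC : IsCurveChart k B₀ B₁ B₀₁ x y e)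
    (z : S →ₐ[k] k) (G : CurveGD k B₀ B₁ B₀₁ S)
    (htriv : CurveGD.IsBC z G (unitGD k B₀ B₁ B₀₁ k))
    (hinj : ∀ φ ψ : S →ₐ[k] DualNum k, (dAug k).comp φ = z → (dAug k).comp ψ = z →
      ∀ G' : CurveGD k B₀ B₁ B₀₁ (DualNum k),
        CurveGD.IsBC φ G G' → CurveGD.IsBC ψ G G' → φ = ψ)
    (hsurj : ∀ G' : CurveGD k B₀ B₁ B₀₁ (DualNum k),
      CurveGD.IsBC (dAug k) G' (unitGD k B₀ B₁ B₀₁ k) →
        ∃ φ : S →ₐ[k] DualNum k, (dAug k).comp φ = z ∧ CurveGD.IsBC φ G G') :
    Nonempty (tanSpace z ≃ₗ[k] (unitGD k B₀ B₁ B₀₁ k).H1) := by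
  -- the universal first-order deformation
  obtain ⟨GW, hGW⟩ := curveGD_exists_isBC (B₀ := B₀) (B₁ := B₁) (B₀₁ := B₀₁) (nbhdMk z) G
  have hGWk : CurveGD.IsBC (nbhdAug z) GW (unitGD k B₀ B₁ B₀₁ k) :=
    curveGD_isBC_of_comp_eq (nbhdAug_comp_nbhdMk z).symm hGW htriv
  obtain ⟨u, hu1, hu⟩ := exists_curveTwist_isIso_of_isBC (nbhdAug z) (ker_nbhdAug_sq z) GW hGWk
  have hGu : CurveGD.IsBC (nbhdMk z) G (curveTwist B₀ B₁ B₀₁ (nbhdRing z) u) :=
    curveGD_isBC_of_isIso_right hGW (isIso_symm hu)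
  -- the twist attached to a tangent vector
  let v : tanSpace z → (DualNum k ⊗[k] B₀₁)ˣ := fun δ =>
    Units.map (tensorMapLeft k (tanBar z δ) B₀₁).toMonoidHom u
  have hv : ∀ δ, ((v δ : (DualNum k ⊗[k] B₀₁)ˣ) : DualNum k ⊗[k] B₀₁) =
      tensorMapLeft k (tanBar z δ) B₀₁ u := fun δ => rfl
  have hP : ∀ δ : tanSpace z,
      CurveGD.IsBC (tanHom z δ) G (curveTwist B₀ B₁ B₀₁ (DualNum k) (v δ)) := by
    intro δ
    have h2 := isBC_curveTwist (B₀ := B₀) (B₁ := B₁) (tanBar z δ) u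
    have h3 := curveGD_isBC_comp hGu h2
    rwa [tanBar_comp_nbhdMk] at h3
  have hred : ∀ δ : tanSpace z, dRed k B₀₁ (v δ : DualNum k ⊗[k] B₀₁) = 1 := by
    intro δ
    rw [hv]
    have h1 : (dRed k B₀₁).comp (tensorMapLeft k (tanBar z δ) B₀₁) =
        tensorMapLeft k (nbhdAug z) B₀₁ := by
      rw [← dAug_comp_tanBar z δ, tensorMapLeft_comp]
    have h2 := congrArg (fun f : nbhdRing z ⊗[k] B₀₁ →+* k ⊗[k] B₀₁ =>
      f (u : nbhdRing z ⊗[k] B₀₁)) h1
    exact h2.trans hu1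
  have hcoef : ∀ δ : tanSpace z, dCoeff k B₀₁ (v δ : DualNum k ⊗[k] B₀₁) =
      LinearMap.rTensor B₀₁ (tanLin z δ) (u : nbhdRing z ⊗[k] B₀₁) := by
    intro δ
    rw [hv, dCoeff_tensorMapLeft_tanBar]
  -- the class map
  let Ψ : tanSpace z →ₗ[k] (unitGD k B₀ B₁ B₀₁ k).H1 :=
    { toFun := fun δ => cls k B₀ B₁ B₀₁
        (LinearMap.rTensor B₀₁ (tanLin z δ) (u : nbhdRing z ⊗[k] B₀₁))
      map_add' := fun δ δ' => by
        rw [tanLin_add, LinearMap.rTensor_add, LinearMap.add_apply, cls_add]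
      map_smul' := fun c δ => by
        rw [tanLin_smul, LinearMap.rTensor_smul, LinearMap.smul_apply, cls_smul]
        rfl }
  have hΨ : ∀ δ, Ψ δ = cls k B₀ B₁ B₀₁ (dCoeff k B₀₁ (v δ : DualNum k ⊗[k] B₀₁)) := by
    intro δ
    rw [hcoef]
    rfl
  refine ⟨LinearEquiv.ofBijective Ψ ⟨?_, ?_⟩⟩
  · -- injectivity
    intro δ δ' h
    rw [hΨ, hΨ] at h
    have hiso := curveTwist_dual_isIso_of_cls_eq (B₀ := B₀) (B₁ := B₁) (v δ) (v δ')
      (hred δ) (hred δ') h
    have h1 : CurveGD.IsBC (tanHom z δ) G (curveTwist B₀ B₁ B₀₁ (DualNum k) (v δ')) :=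
      curveGD_isBC_of_isIso_right (hP δ) hiso
    exact tanHom_injective z
      (hinj _ _ (dAug_comp_tanHom z δ) (dAug_comp_tanHom z δ') _ h1 (hP δ'))
  · -- surjectivity
    intro c
    obtain ⟨h, rfl⟩ := cls_surjective (k := k) (B₀ := B₀) (B₁ := B₁) (B₀₁ := B₀₁) c
    set w : (DualNum k ⊗[k] B₀₁)ˣ := dUnit h with hw
    have hbc : CurveGD.IsBC (dAug k) (curveTwist B₀ B₁ B₀₁ (DualNum k) w)
        (unitGD k B₀ B₁ B₀₁ k) := by
      have h1 := isBC_curveTwist (B₀ := B₀) (B₁ := B₁) (dAug k) w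
      have h2 : Units.map (tensorMapLeft k (dAug k) B₀₁).toMonoidHom w = 1 := by
        apply Units.ext
        exact dRed_dUnit h
      rw [h2] at h1
      exact curveGD_isBC_of_isIso_right h1 unitTwist_one_isIso
    obtain ⟨φ, hφz, hφ⟩ := hsurj _ hbc
    refine ⟨tanOfHom z φ hφz, ?_⟩
    rw [hΨ]
    have h1 := hP (tanOfHom z φ hφz)
    rw [tanHom_tanOfHom] at h1
    have hiso := curveGD_isIso_of_isBC h1 hφ
    have := cls_eq_of_curveTwist_dual_isIso hC _ _ (hred _) (dRed_dUnit h) hiso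
    rw [this, dCoeff_dUnit]

/-- Dimension form. -/
theorem finrank_tanSpace (hC : IsCurveChart k B₀ B₁ B₀₁ x y e)
    (z : S →ₐ[k] k) (G : CurveGD k B₀ B₁ B₀₁ S)
    (htriv : CurveGD.IsBC z G (unitGD k B₀ B₁ B₀₁ k))
    (hinj : ∀ φ ψ : S →ₐ[k] DualNum k, (dAug k).comp φ = z → (dAug k).comp ψ = z →
      ∀ G' : CurveGD k B₀ B₁ B₀₁ (DualNum k),
        CurveGD.IsBC φ G G' → CurveGD.IsBC ψ G G' → φ = ψ)
    (hsurj : ∀ G' : CurveGD k B₀ B₁ B₀₁ (DualNum k),
      CurveGD.IsBC (dAug k) G' (unitGD k B₀ B₁ B₀₁ k) →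
        ∃ φ : S →ₐ[k] DualNum k, (dAug k).comp φ = z ∧ CurveGD.IsBC φ G G') :
    Module.finrank k (tanSpace z) = Module.finrank k (unitGD k B₀ B₁ B₀₁ k).H1 := by
  obtain ⟨E⟩ := exists_tangent_linearEquiv hC z G htriv hinj hsurj
  exact E.finrank_eq

/-- Derivation form: `dim_k Der_k(S, k_z) = dim_k Ȟ¹(O)`. -/
theorem finrank_derivation (hC : IsCurveChart k B₀ B₁ B₀₁ x y e)
    (z : S →ₐ[k] k) (G : CurveGD k B₀ B₁ B₀₁ S)
    (htriv : CurveGD.IsBC z G (unitGD k B₀ B₁ B₀₁ k))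
    (hinj : ∀ φ ψ : S →ₐ[k] DualNum k, (dAug k).comp φ = z → (dAug k).comp ψ = z →
      ∀ G' : CurveGD k B₀ B₁ B₀₁ (DualNum k),
        CurveGD.IsBC φ G G' → CurveGD.IsBC ψ G G' → φ = ψ)
    (hsurj : ∀ G' : CurveGD k B₀ B₁ B₀₁ (DualNum k),
      CurveGD.IsBC (dAug k) G' (unitGD k B₀ B₁ B₀₁ k) →
        ∃ φ : S →ₐ[k] DualNum k, (dAug k).comp φ = z ∧ CurveGD.IsBC φ G G') :
    letI := ptModule z
    haveI := ptModule_isScalarTower z
    Module.finrank k (Derivation k S k) = Module.finrank k (unitGD k B₀ B₁ B₀₁ k).H1 := by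
  letI := ptModule z
  haveI := ptModule_isScalarTower z
  rw [(derivationEquiv z).finrank_eq]
  exact finrank_tanSpace hC z G htriv hinj hsurj

end Main

end

end Fermat.Agent.S27.H551

end
-- ===== PACK-END S27/H551/AlgTangent.lean

-- ===== PACK-BEGIN S31/H862/Reduced.lean
section




/-!
# S31 / SS (helper862) — the anemic Hecke algebra of weight 2 is reduced

`heckeAlgebra_isReduced`: if `S` contains all primes dividing `N`, then
`CuspForm.heckeAlgebra N 2 S` is reduced (exact statement of the row skeleton, piece SS).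
-/

set_option autoImplicit false

open UpperHalfPlane CongruenceSubgroup MeasureTheory Matrix.SpecialLinearGroup
open scoped MatrixGroups ModularForm ComplexConjugate

namespace Fermat.Agent.S31.H862

section

variable {N : ℕ} [NeZero N]

/-- The Petersson pairing on cusp forms. -/
noncomputable def petC (f g : CuspForm (Gamma0 N) 2) : ℂ := pet N f g

theorem pet_add_right {f g₁ g₂ : ℍ → ℂ} (hf : Nice f) (hg₁ : Nice g₁) (hg₂ : Nice g₂) :
    pet N f (g₁ + g₂) = pet N f g₁ + pet N f g₂ := by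
  unfold pet pint
  rw [← integral_add (integrable_pint (integrable_wt N) hf hg₁)
    (integrable_pint (integrable_wt N) hf hg₂)]
  refine integral_congr_ae (Filter.Eventually.of_forall fun z => ?_)
  simp only [petersson_add_right]
  ring

theorem petC_add_right (f g₁ g₂ : CuspForm (Gamma0 N) 2) :
    petC f (g₁ + g₂) = petC f g₁ + petC f g₂ := by
  unfold petC
  rw [FunLike.coe_add]
  exact pet_add_right (nice_cusp f) (nice_cusp g₁) (nice_cusp g₂)

theorem petC_conj (f g : CuspForm (Gamma0 N) 2) : conj (petC f g) = petC g f :=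
  pet_conj N _ _

theorem petC_add_left (f₁ f₂ g : CuspForm (Gamma0 N) 2) :
    petC (f₁ + f₂) g = petC f₁ g + petC f₂ g := by
  rw [← petC_conj g, petC_add_right, map_add, petC_conj, petC_conj]

omit [NeZero N] in
theorem petC_zero_right (f : CuspForm (Gamma0 N) 2) : petC f 0 = 0 := by
  unfold petC pet pint
  simp [petersson]

theorem petC_smul_int (n : ℤ) (f g : CuspForm (Gamma0 N) 2) :
    petC (n • f) g = petC f (n • g) := by
  unfold petC pet pint
  refine integral_congr_ae (Filter.Eventually.of_forall fun z => ?_)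
  have h1 : ∀ h : CuspForm (Gamma0 N) 2, ((n • h : CuspForm (Gamma0 N) 2) : ℍ → ℂ) z
      = (n : ℂ) * h z := by
    intro h
    rw [← Int.cast_smul_eq_zsmul ℂ n h]
    simp
  simp only [petersson, h1, map_mul, map_intCast]
  ring

theorem eq_zero_of_petC_self (f : CuspForm (Gamma0 N) 2) (h : petC f f = 0) : f = 0 := by
  have h1 := eq_zero_of_pet_self_eq_zero N (nice_cusp f) (cusp_slash_mapGL f) h
  exact DFunLike.coe_injective h1

/-- Self-adjoint endomorphisms of the space of cusp forms. -/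
def IsSA (t : Module.End ℂ (CuspForm (Gamma0 N) 2)) : Prop :=
  ∀ f g : CuspForm (Gamma0 N) 2, petC (t f) g = petC f (t g)

theorem isSA_heckeTLin {p : ℕ} (hp : p.Prime) (hpN : ¬ p ∣ N) :
    IsSA (CuspForm.heckeTLin (N := N) 2 hp hpN) := by
  intro f g
  have : Fact p.Prime := ⟨hp⟩
  unfold petC
  rw [CuspForm.coe_heckeTLin_apply, CuspForm.coe_heckeTLin_apply]
  exact pet_heckeT_comm hpN f g

theorem isSA_algebraMap (n : ℤ) :
    IsSA (algebraMap ℤ (Module.End ℂ (CuspForm (Gamma0 N) 2)) n) := by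
  intro f g
  have h : ∀ h : CuspForm (Gamma0 N) 2,
      (algebraMap ℤ (Module.End ℂ (CuspForm (Gamma0 N) 2)) n) h = n • h := by
    intro h
    simp
  rw [h, h]
  exact petC_smul_int n f g

theorem IsSA.add {s t : Module.End ℂ (CuspForm (Gamma0 N) 2)} (hs : IsSA s) (ht : IsSA t) :
    IsSA (s + t) := by
  intro f g
  rw [LinearMap.add_apply, LinearMap.add_apply, petC_add_left, petC_add_right, hs f g, ht f g]

omit [NeZero N] in
theorem IsSA.mul {s t : Module.End ℂ (CuspForm (Gamma0 N) 2)} (hs : IsSA s) (ht : IsSA t)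
    (hc : s * t = t * s) : IsSA (s * t) := by
  intro f g
  have h1 : petC ((s * t) f) g = petC f ((t * s) g) := by
    rw [Module.End.mul_apply, Module.End.mul_apply, hs, ht]
  rw [h1, hc]

end

/-- **SS**: the anemic Hecke algebra of weight 2 and level `Γ₀(N)` is reduced. -/
theorem heckeAlgebra_isReduced (N : ℕ) [NeZero N] (S : Set ℕ)
    (hNS : ∀ q : ℕ, q.Prime → q ∣ N → q ∈ S) : IsReduced (CuspForm.heckeAlgebra N 2 S) := by
  have hgen : ∀ t ∈ CuspForm.heckeGenerators N 2 S, IsSA t := by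
    rintro t (⟨ℓ, hℓ, hℓN, -, rfl⟩ | ⟨q, hqN, hq, hqS, rfl⟩)
    · exact isSA_heckeTLin hℓ hℓN
    · exact absurd (hNS q hq hqN) hqS
  have hcomm : ∀ s t : Module.End ℂ (CuspForm (Gamma0 N) 2),
      s ∈ CuspForm.heckeAlgebra N 2 S → t ∈ CuspForm.heckeAlgebra N 2 S → s * t = t * s := by
    intro s t hs ht
    have := mul_comm (⟨s, hs⟩ : CuspForm.heckeAlgebra N 2 S) ⟨t, ht⟩
    exact congrArg Subtype.val this
  have hall : ∀ t ∈ CuspForm.heckeAlgebra N 2 S, IsSA t := by
    intro t ht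
    unfold CuspForm.heckeAlgebra at ht
    induction ht using Algebra.adjoin_induction with
    | mem x hx => exact hgen x hx
    | algebraMap r => exact isSA_algebraMap r
    | add x y hx hy ihx ihy => exact ihx.add ihy
    | mul x y hx hy ihx ihy => exact ihx.mul ihy (hcomm x y hx hy)
  rw [isReduced_iff_pow_one_lt 2 one_lt_two]
  rintro ⟨t, ht⟩ h2
  have h3 : t * t = 0 := by
    have := congrArg Subtype.val h2
    simpa [pow_two] using this
  apply Subtype.ext
  show t = 0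
  refine LinearMap.ext fun f => ?_
  apply eq_zero_of_petC_self
  rw [hall t ht, ← Module.End.mul_apply, h3, LinearMap.zero_apply]
  exact petC_zero_right _

end Fermat.Agent.S31.H862

end
-- ===== PACK-END S31/H862/Reduced.lean

-- ===== PACK-BEGIN S36/H370/Mod3Res.lean
section
/-
S36 / MOD3, rows FF (helper370): residue degree one along `α` at ANY level.

`resInfQ` is leaf L11 of A2/MOD (`A2.Mod.H378.resInf`, helper378) with the hypothesis `q ∤ M`
removed: for every level `M ≠ 0` (in particular `M = q M'`) and every prime `q`,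

    V∞(M q) = α (V∞(M)) + w · V∞(M q).

The proof is helper378's, verbatim: it never used `q ∤ M` (the Kronecker relation
`(j_{dq}^q - j_d)(j_{dq} - j_d^q) = - q Θ` holds for every `d`, and the divisors of `M q` are the
`d ∣ M` and the `d' q`, `d' ∣ M`, for every `M`); only the packaging `A2.Mod.Setting` carried it.
`SettingQ` is `Setting` without `q_not_dvd` and `M_ne_zero`.

Also: `comap_alpha_vinfQ` : `V∞(M q).comap α = V∞(M)` (field `comap_α₁` of `S36.Eng.TripleCtx`).
-/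


set_option autoImplicit false
set_option linter.unusedSectionVars false
set_option linter.style.haveILetI false
set_option synthInstance.maxHeartbeats 400000
set_option maxHeartbeats 1600000

noncomputable section

namespace Fermat.Agent.S36.H370

open ModularCurve HahnSeries Fermat.Agent.A2 Fermat.Agent.A2.Mod Fermat.Agent.A2.H708
  Fermat.Agent.S28 Fermat.Agent.A2.Mod.H378

/-- The standing hypotheses of the `q`-adic leaves at an ARBITRARY level: `q` prime, `P` over `q`,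
`R_E = P ∩ E` a discrete valuation ring with uniformiser `w`.  (`A2.Mod.Setting` without the
hypothesis `q ∤ M`.) -/
structure SettingQ (P : ValuationSubring _root_.Fermat.Agent.A2.Mod.Qb) (E : IntermediateField ℚ _root_.Fermat.Agent.A2.Mod.Qb) (q : ℕ)
    (w : _root_.Fermat.Agent.A2.Mod.RE P E) : Prop where
  q_prime : q.Prime
  lies_over : P.LiesOverPrime q
  dvr : IsDiscreteValuationRing (_root_.Fermat.Agent.A2.Mod.RE P E)
  unif : Irreducible w

theorem SettingQ.of_setting {P : ValuationSubring _root_.Fermat.Agent.A2.Mod.Qb} {E : IntermediateField ℚ _root_.Fermat.Agent.A2.Mod.Qb} {M q : ℕ}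
    {w : _root_.Fermat.Agent.A2.Mod.RE P E} (h : Setting P E M q w) : SettingQ P E q w :=
  ⟨h.q_prime, h.lies_over, h.dvr, h.unif⟩

section Concrete

variable {P : ValuationSubring _root_.Fermat.Agent.A2.Mod.Qb} {E : IntermediateField ℚ _root_.Fermat.Agent.A2.Mod.Qb} {M q : ℕ} [NeZero M] [NeZero q]
  {w : _root_.Fermat.Agent.A2.Mod.RE P E}

theorem attainsQ (hS : SettingQ P E q w) (N : ℕ) :
    AttainsMax (_root_.Fermat.Agent.A2.Mod.RE P E) (modularFunctionFieldFull N) := by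
  haveI := hS.dvr
  exact attainsMax_of_isNoetherianRing _ _

theorem alpha_mem_iffQ (hS : SettingQ P E q w) {VM : ValuationSubring (_root_.Fermat.Agent.A2.Mod.FE E M)}
    {V : ValuationSubring (_root_.Fermat.Agent.A2.Mod.FE E (M * q))} (hVM : IsVinf P E M VM) (hV : IsVinf P E (M * q) V)
    (g : _root_.Fermat.Agent.A2.Mod.FE E M) : αE E M q g ∈ V ↔ g ∈ VM := by
  rw [hV (αE E M q g), hVM g, coe_heckeAlphaBar]
  constructor
  · exact isGaussInt_descend (_root_.Fermat.Agent.A2.Mod.RE P E) (intGen_full M) (attainsQ hS M) (FE_le E M q) g.2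
  · exact isGaussInt_mono (_root_.Fermat.Agent.A2.Mod.RE P E) (FE_le E M q)

theorem w_ne_zeroQ (hS : SettingQ P E q w) : (w : E) ≠ 0 :=
  fun h => hS.unif.ne_zero (Subtype.ext h)

theorem cE_ne_zeroQ (hS : SettingQ P E q w) (N : ℕ) : cE P E N w ≠ 0 := by
  intro h
  exact w_ne_zeroQ hS ((map_eq_zero (algebraMap E (_root_.Fermat.Agent.A2.Mod.FE E N))).mp h)

theorem w_inv_not_memQ (hS : SettingQ P E q w) : (w : E)⁻¹ ∉ _root_.Fermat.Agent.A2.Mod.RE P E := by
  intro h
  apply hS.unif.not_isUnit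
  refine ⟨⟨w, ⟨(w : E)⁻¹, h⟩, ?_, ?_⟩, rfl⟩
  · exact Subtype.ext (mul_inv_cancel₀ (w_ne_zeroQ hS))
  · exact Subtype.ext (inv_mul_cancel₀ (w_ne_zeroQ hS))

theorem exists_q_eqQ (hS : SettingQ P E q w) : ∃ c : _root_.Fermat.Agent.A2.Mod.RE P E, ((q : ℕ) : E) = (w : E) * (c : E) := by
  haveI := hS.dvr
  have hq := hS.lies_over
  have hqv : P.valuation ((q : ℕ) : _root_.Fermat.Agent.A2.Mod.Qb) < 1 := (ValuationSubring.mem_nonunits_iff P).mp hq
  have hqP : algebraMap E _root_.Fermat.Agent.A2.Mod.Qb ((q : ℕ) : E) ∈ P := by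
    rw [map_natCast, ← ValuationSubring.valuation_le_one_iff]
    exact hqv.le
  set qA : _root_.Fermat.Agent.A2.Mod.RE P E := ⟨((q : ℕ) : E), hqP⟩ with hqA
  have hnu : ¬ IsUnit qA := by
    rintro ⟨u, hu⟩
    have h1 : qA * ((u⁻¹ : (_root_.Fermat.Agent.A2.Mod.RE P E)ˣ) : _root_.Fermat.Agent.A2.Mod.RE P E) = 1 := by
      rw [← hu]
      exact u.mul_inv
    have h2 : ((q : ℕ) : _root_.Fermat.Agent.A2.Mod.Qb) * algebraMap E _root_.Fermat.Agent.A2.Mod.Qb (((u⁻¹ : (_root_.Fermat.Agent.A2.Mod.RE P E)ˣ) : _root_.Fermat.Agent.A2.Mod.RE P E) : E) = 1 := by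
      have h3 := congrArg (fun z : _root_.Fermat.Agent.A2.Mod.RE P E => algebraMap E _root_.Fermat.Agent.A2.Mod.Qb (z : E)) h1
      simpa [hqA] using h3
    have h4 : P.valuation (algebraMap E _root_.Fermat.Agent.A2.Mod.Qb (((u⁻¹ : (_root_.Fermat.Agent.A2.Mod.RE P E)ˣ) : _root_.Fermat.Agent.A2.Mod.RE P E) : E)) ≤ 1 :=
      (ValuationSubring.valuation_le_one_iff _ _).mpr ((u⁻¹ : (_root_.Fermat.Agent.A2.Mod.RE P E)ˣ) : _root_.Fermat.Agent.A2.Mod.RE P E).2
    have h5 := congrArg P.valuation h2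
    rw [map_mul, map_one] at h5
    have h6 : P.valuation ((q : ℕ) : _root_.Fermat.Agent.A2.Mod.Qb) *
        P.valuation (algebraMap E _root_.Fermat.Agent.A2.Mod.Qb (((u⁻¹ : (_root_.Fermat.Agent.A2.Mod.RE P E)ˣ) : _root_.Fermat.Agent.A2.Mod.RE P E) : E)) < 1 := by
      calc _ ≤ P.valuation ((q : ℕ) : _root_.Fermat.Agent.A2.Mod.Qb) * 1 := by gcongr
        _ = P.valuation ((q : ℕ) : _root_.Fermat.Agent.A2.Mod.Qb) := mul_one _
        _ < 1 := hqv
    exact (ne_of_lt h6) h5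
  have hmem : qA ∈ IsLocalRing.maximalIdeal (_root_.Fermat.Agent.A2.Mod.RE P E) := (IsLocalRing.mem_maximalIdeal _).mpr hnu
  rw [hS.unif.maximalIdeal_eq, Ideal.mem_span_singleton] at hmem
  obtain ⟨c, hc⟩ := hmem
  refine ⟨c, ?_⟩
  have := congrArg Subtype.val hc
  simpa [hqA] using this

theorem kron_XQ (hS : SettingQ P E q w) {VM : ValuationSubring (_root_.Fermat.Agent.A2.Mod.FE E M)}
    {V : ValuationSubring (_root_.Fermat.Agent.A2.Mod.FE E (M * q))} (hVM : IsVinf P E M VM) (hV : IsVinf P E (M * q) V)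
    {x : _root_.Fermat.Agent.A2.Mod.FE E (M * q)} (hx : x ∈ Xset E M q) :
    ∃ a ∈ Oring E M q VM,
      ∃ s ∈ Subring.closure ((Oring E M q VM : Set (_root_.Fermat.Agent.A2.Mod.FE E (M * q))) ∪ Xset E M q),
        s ≠ 0 ∧ s⁻¹ ∈ V.toSubring ∧
        ∃ c ∈ Subring.closure ((Oring E M q VM : Set (_root_.Fermat.Agent.A2.Mod.FE E (M * q))) ∪ Xset E M q),
          s * (x - a) = cE P E (M * q) w * c := by
  obtain ⟨d, hd, hdM, hxd⟩ := hx
  haveI := hd
  set B := Subring.closure ((Oring E M q VM : Set (_root_.Fermat.Agent.A2.Mod.FE E (M * q))) ∪ Xset E M q) with hB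
  set y0 : _root_.Fermat.Agent.A2.Mod.FE E M := ⟨jser E d, jser_mem E M d hdM⟩ with hy0
  have hy0V : y0 ∈ VM := jser_mem_V hVM (d := d) rfl
  set y : _root_.Fermat.Agent.A2.Mod.FE E (M * q) := αE E M q y0 with hy
  have hyc : (y : LaurentSeries E) = jser E d := coe_heckeAlphaBar M q y0
  have hyO : y ∈ Oring E M q VM := mem_Oring.mpr ⟨y0, hy0V, rfl⟩
  have hxB : x ∈ B := Subring.subset_closure (Or.inr ⟨d, hd, hdM, hxd⟩)
  have hyB : y ∈ B := Subring.subset_closure (Or.inl hyO)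
  obtain ⟨Θ, hΘ⟩ := kron_series E q hS.q_prime d
  obtain ⟨c0, hc0⟩ := exists_q_eqQ hS
  set θ : _root_.Fermat.Agent.A2.Mod.FE E (M * q) := Θ.eval₂ ((Polynomial.aeval (R := ℤ) y).toRingHom) x with hθ
  have hθB : θ ∈ B := by
    refine eval₂_mem_subring _ x B (fun r => ?_) hxB Θ
    show Polynomial.aeval y r ∈ B
    rw [Polynomial.aeval_def]
    refine eval₂_mem_subring _ y B (fun n => ?_) hyB r
    rw [eq_intCast]
    exact intCast_mem B n
  have hθc : (θ : LaurentSeries E) = Θ.eval₂ (evalAt (jser E d)) (jser E (d * q)) := by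
    rw [← valHom_apply, hθ, Polynomial.hom_eval₂, valHom_comp_aeval, valHom_apply, hxd, hyc]
  -- the unit `s`
  have hsc : ((x ^ q - y : _root_.Fermat.Agent.A2.Mod.FE E (M * q)) : LaurentSeries E)
      = incl (_root_.Fermat.Agent.A2.Mod.RE P E) (castA (_root_.Fermat.Agent.A2.Mod.RE P E) (jInt (d * q) ^ q - jInt d)) := by
    rw [incl_sInt, ← valHom_apply, map_sub, map_pow, valHom_apply, valHom_apply, hxd, hyc]
  have hred := red_sInt_ne_zero E (_root_.Fermat.Agent.A2.Mod.RE P E) q hS.q_prime.two_le d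
  have hs0 : x ^ q - y ≠ 0 := by
    intro h
    have h1 : ((x ^ q - y : _root_.Fermat.Agent.A2.Mod.FE E (M * q)) : LaurentSeries E) = 0 := by
      rw [h]
      rfl
    rw [hsc] at h1
    exact incl_ne_zero _ (ne_zero_of_red_ne_zero _ hred) h1
  have hsi : (x ^ q - y)⁻¹ ∈ V := by
    rw [hV, IntermediateField.coe_inv, hsc]
    refine isGaussInt_inv_of_prim _ hred ?_
    rw [← hsc]
    exact (x ^ q - y).2
  have hc0O : cE P E (M * q) c0 ∈ Oring E M q VM :=
    mem_Oring.mpr ⟨cE P E M c0, cE_mem hVM c0, alpha_cE c0⟩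
  refine ⟨y ^ q, (Oring E M q VM).pow_mem hyO q, x ^ q - y,
    B.sub_mem (B.pow_mem hxB q) hyB, hs0, hsi, -(cE P E (M * q) c0 * θ),
    B.neg_mem (B.mul_mem (Subring.subset_closure (Or.inl hc0O)) hθB), ?_⟩
  apply Subtype.ext
  have hqc : ((q : ℕ) : LaurentSeries E) = cst ((w : E)) * cst (c0 : E) := by
    rw [← cst_mul, ← hc0]
    exact (map_natCast (algebraMap E (LaurentSeries E)) q).symm
  have hL : (((x ^ q - y) * (x - y ^ q) : _root_.Fermat.Agent.A2.Mod.FE E (M * q)) : LaurentSeries E)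
      = (jser E (d * q) ^ q - jser E d) * (jser E (d * q) - jser E d ^ q) := by
    rw [← valHom_apply, map_mul, map_sub, map_sub, map_pow, map_pow, valHom_apply, valHom_apply,
      hxd, hyc]
  have hR : ((cE P E (M * q) w * -(cE P E (M * q) c0 * θ) : _root_.Fermat.Agent.A2.Mod.FE E (M * q)) : LaurentSeries E)
      = cst (w : E) * -(cst (c0 : E) * Θ.eval₂ (evalAt (jser E d)) (jser E (d * q))) := by
    rw [← valHom_apply, map_mul, map_neg, map_mul, valHom_apply _ θ, hθc]
    rfl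
  rw [hL, hR]
  rw [hqc] at hΘ
  linear_combination hΘ

theorem gen_XQ (hS : SettingQ P E q w) {VM : ValuationSubring (_root_.Fermat.Agent.A2.Mod.FE E M)}
    (hVM : IsVinf P E M VM) (f : _root_.Fermat.Agent.A2.Mod.FE E (M * q)) :
    f ∈ Subfield.closure ((Oring E M q VM : Set (_root_.Fermat.Agent.A2.Mod.FE E (M * q))) ∪ Xset E M q) := by
  set G := Subfield.closure ((Oring E M q VM : Set (_root_.Fermat.Agent.A2.Mod.FE E (M * q))) ∪ Xset E M q) with hG
  set Gs : Subfield (LaurentSeries E) := G.map (valHom E (M * q)) with hGsdef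
  have hGs : ∀ x : _root_.Fermat.Agent.A2.Mod.FE E (M * q), (x : LaurentSeries E) ∈ Gs → x ∈ G := by
    intro x hx
    obtain ⟨y, hy, hyx⟩ := Subfield.mem_map.mp hx
    have h1 : y = x := Subtype.ext hyx
    rw [← h1]
    exact hy
  have hGs' : ∀ x : _root_.Fermat.Agent.A2.Mod.FE E (M * q), x ∈ G → (x : LaurentSeries E) ∈ Gs :=
    fun x hx => Subfield.mem_map.mpr ⟨x, hx, rfl⟩
  -- constants
  have hconstA : ∀ r : _root_.Fermat.Agent.A2.Mod.RE P E, cE P E (M * q) r ∈ G := fun r =>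
    Subfield.subset_closure (Or.inl (mem_Oring.mpr ⟨cE P E M r, cE_mem hVM r, alpha_cE r⟩))
  have hconst : ∀ e : E, algebraMap E (LaurentSeries E) e ∈ Gs := by
    intro e
    refine hGs' (algebraMap E (_root_.Fermat.Agent.A2.Mod.FE E (M * q)) e) ?_
    rcases (_root_.Fermat.Agent.A2.Mod.RE P E).mem_or_inv_mem e with h | h
    · exact hconstA ⟨e, h⟩
    · have h1 : algebraMap E (_root_.Fermat.Agent.A2.Mod.FE E (M * q)) e = (cE P E (M * q) ⟨e⁻¹, h⟩)⁻¹ := by
        rw [cE, ← map_inv₀, inv_inv]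
      rw [h1]
      exact G.inv_mem (hconstA _)
  -- generators
  have hj : ∀ (d : ℕ) [NeZero d], d ∣ M * q → jser E d ∈ Gs := by
    intro d hd hdN
    rcases dvd_cases hS.q_prime hdN with hdM | ⟨d', hd'M, hdd'⟩
    · have h1 : αE E M q ⟨jser E d, jser_mem E M d hdM⟩ ∈ G :=
        Subfield.subset_closure (Or.inl (mem_Oring.mpr
          ⟨⟨jser E d, jser_mem E M d hdM⟩, jser_mem_V hVM (d := d) rfl, rfl⟩))
      exact hGs' _ h1
    · subst hdd'
      haveI : NeZero d' := ⟨fun h => by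
        rw [h, zero_mul] at hd
        exact hd.out rfl⟩
      have h1 : (⟨jser E (d' * q), jser_mem E (M * q) (d' * q) hdN⟩ : _root_.Fermat.Agent.A2.Mod.FE E (M * q)) ∈ G :=
        Subfield.subset_closure (Or.inr ⟨d', inferInstance, hd'M, rfl⟩)
      exact hGs' _ h1
  apply hGs
  have hf := mem_laurentBaseChange_iff.mp f.2
  refine Subfield.closure_le.mpr ?_ hf
  rintro z (⟨e, rfl⟩ | ⟨z0, hz0, rfl⟩)
  · exact hconst e
  · have hz0' : z0 ∈ IntermediateField.adjoin ℚ (divisorExpansions (M * q)) := hz0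
    induction hz0' using IntermediateField.adjoin_induction with
    | mem y hy =>
      obtain ⟨d, hd, hdN, rfl⟩ := hy
      haveI := hd
      show coeffEmb E (qExpand ℚ d jq) ∈ Gs
      rw [← jser_eq_coeffEmb]
      exact hj d hdN
    | algebraMap c =>
      have h1 : coeffEmb E (algebraMap ℚ (LaurentSeries ℚ) c)
          = algebraMap E (LaurentSeries E) (algebraMap ℚ E c) := by
        rw [coeffEmb, algebraMap_laurentSeries_eq_single, algebraMap_laurentSeries_eq_single,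
          coeffMap_single]
      show coeffEmb E (algebraMap ℚ (LaurentSeries ℚ) c) ∈ Gs
      rw [h1]
      exact hconst _
    | add x y hx hy ihx ihy =>
      show coeffEmb E (x + y) ∈ Gs
      rw [map_add]
      exact Gs.add_mem (ihx hx) (ihy hy)
    | inv x hx ihx =>
      show coeffEmb E x⁻¹ ∈ Gs
      rw [map_inv₀]
      exact Gs.inv_mem (ihx hx)
    | mul x y hx hy ihx ihy =>
      show coeffEmb E (x * y) ∈ Gs
      rw [map_mul]
      exact Gs.mul_mem (ihx hx) (ihy hy)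

theorem disc_VQ (hS : SettingQ P E q w) (N : ℕ) {V : ValuationSubring (_root_.Fermat.Agent.A2.Mod.FE E N)}
    (hV : IsVinf P E N V) {x : _root_.Fermat.Agent.A2.Mod.FE E N} (hx : x ∈ V) (hx0 : x ≠ 0) :
    ∃ (n : ℕ) (u : _root_.Fermat.Agent.A2.Mod.FE E N), u ∈ V ∧ u⁻¹ ∈ V ∧ x = cE P E N w ^ n * u := by
  haveI := hS.dvr
  have hx0' : (x : LaurentSeries E) ≠ 0 := fun h => hx0 (Subtype.ext h)
  obtain ⟨n, h1, h2⟩ := exists_pow_mul_unit (_root_.Fermat.Agent.A2.Mod.RE P E) hS.unif (intGen_full N) (attainsQ hS N)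
    x.2 hx0' ((hV x).mp hx)
  have hcw := cE_ne_zeroQ hS N
  have hu : ((x * (cE P E N w ^ n)⁻¹ : _root_.Fermat.Agent.A2.Mod.FE E N) : LaurentSeries E)
      = (x : LaurentSeries E) * (cst ((w : _root_.Fermat.Agent.A2.Mod.RE P E) : E) ^ n)⁻¹ := by
    rw [← valHom_apply, map_mul, map_inv₀, map_pow]
    rfl
  refine ⟨n, x * (cE P E N w ^ n)⁻¹, ?_, ?_, ?_⟩
  · rw [hV, hu]
    exact h1
  · rw [hV, ← valHom_apply, map_inv₀, valHom_apply, hu]
    exact h2
  · field_simp

theorem resOneDataQ (hS : SettingQ P E q w) {VM : ValuationSubring (_root_.Fermat.Agent.A2.Mod.FE E M)}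
    {V : ValuationSubring (_root_.Fermat.Agent.A2.Mod.FE E (M * q))} (hVM : IsVinf P E M VM) (hV : IsVinf P E (M * q) V) :
    ResOneData V.toSubring (Oring E M q VM) (cE P E (M * q) w) (Xset E M q) where
  O_le := by
    intro x hx
    obtain ⟨g, hg, rfl⟩ := mem_Oring.mp hx
    exact (alpha_mem_iffQ hS hVM hV g).mpr hg
  w_mem := mem_Oring.mpr ⟨cE P E M w, cE_mem hVM w, alpha_cE w⟩
  w_ne := cE_ne_zeroQ hS _
  w_nonunit := by
    intro h
    have h1 : (cE P E (M * q) w)⁻¹ ∈ V := h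
    rw [hV, ← valHom_apply, map_inv₀] at h1
    have h2 : valHom E (M * q) (cE P E (M * q) w) = cst ((w : _root_.Fermat.Agent.A2.Mod.RE P E) : E) := rfl
    have h3 : (cst ((w : _root_.Fermat.Agent.A2.Mod.RE P E) : E))⁻¹ = cst ((w : E)⁻¹) := (map_inv₀ _ _).symm
    rw [h2, h3, isGaussInt_cst_iff] at h1
    exact w_inv_not_memQ hS h1
  O_div := by
    intro x hx hxw
    obtain ⟨g, hg, rfl⟩ := mem_Oring.mp hx
    have h1 : αE E M q g * (cE P E (M * q) w)⁻¹ = αE E M q (g * (cE P E M w)⁻¹) := by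
      rw [map_mul, map_inv₀, alpha_cE]
    rw [h1] at hxw ⊢
    exact mem_Oring.mpr ⟨_, (alpha_mem_iffQ hS hVM hV _).mp hxw, rfl⟩
  O_inv := by
    intro x hx hxi
    obtain ⟨g, hg, rfl⟩ := mem_Oring.mp hx
    have h1 : (αE E M q g)⁻¹ = αE E M q g⁻¹ := (map_inv₀ _ _).symm
    rw [h1] at hxi ⊢
    exact mem_Oring.mpr ⟨_, (alpha_mem_iffQ hS hVM hV _).mp hxi, rfl⟩
  X_le := by
    rintro x ⟨d, hd, hdM, hxd⟩
    haveI := hd
    exact jser_mem_V hV hxd
  disc := fun x hx hx0 => disc_VQ hS (M * q) hV hx hx0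
  kron := fun x hx => kron_XQ hS hVM hV hx
  gen := gen_XQ hS hVM

/-- **Residue degree one along `α`, any level** (`q ∣ M` allowed):
`V∞(M q) = α (V∞(M)) + w V∞(M q)`. -/
theorem resInfQ (hS : SettingQ P E q w) {VM : ValuationSubring (_root_.Fermat.Agent.A2.Mod.FE E M)}
    {V : ValuationSubring (_root_.Fermat.Agent.A2.Mod.FE E (M * q))} (hVM : IsVinf P E M VM) (hV : IsVinf P E (M * q) V)
    {f : _root_.Fermat.Agent.A2.Mod.FE E (M * q)} (hf : f ∈ V) :
    ∃ g ∈ VM, InW P E (M * q) V w (f - αE E M q g) := by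
  obtain ⟨g', hg', hcong⟩ := (resOneDataQ hS hVM hV).exists_congr hf
  obtain ⟨g, hg, rfl⟩ := mem_Oring.mp hg'
  exact ⟨g, hg, hcong⟩

/-- `V∞(M q)` lies over `V∞(M)` along `α` (any level). -/
theorem comap_alpha_vinfQ (hS : SettingQ P E q w) {VM : ValuationSubring (_root_.Fermat.Agent.A2.Mod.FE E M)}
    {V : ValuationSubring (_root_.Fermat.Agent.A2.Mod.FE E (M * q))} (hVM : IsVinf P E M VM) (hV : IsVinf P E (M * q) V) :
    V.comap (αE E M q : _root_.Fermat.Agent.A2.Mod.FE E M →+* _root_.Fermat.Agent.A2.Mod.FE E (M * q)) = VM := by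
  ext g
  rw [ValuationSubring.mem_comap]
  exact alpha_mem_iffQ hS hVM hV g

end Concrete

end Fermat.Agent.S36.H370

end
end
-- ===== PACK-END S36/H370/Mod3Res.lean

-- ===== PACK-BEGIN S37/Core/Geo.lean
section


/-!
# S37 row (helper37): the Layer-2 interface `GeoRed` (definitions only)

Notation: `A` a valuation subring of `ℚ̄` over `ℓ`, `k = A/𝔪`, `F = ℚ̄(X₀(N))`
(`modularFunctionFieldBar N ⊆ ℚ̄((q))`), `F_k = modularFunctionFieldFullC k N ⊆ k((q))`.

* `HasValue P f b` : the function `f` is regular at the place `P` with value `b`.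
* `IntElt A N` : a q-series `y ∈ A((q))` lying in `F` whose reduction lies in `F_k`.
* `IntElt.IsFin` / `IsInf` : `y` is integral over `A[j]` / over `A[j⁻¹]` (inside `A((q))`).
* `GeoRed A N` : a place reduction map `r` with the Prelude spec (`isRed`, `gen`) and
  - `vc_fin`/`vc_inf` (value compatibility): for `f` integral over `A[j]` and `P` with `j(P) ∈ A`,
    `f(P) = b` implies `f̄(r P) = b̄`; same at infinity;
  - `sep_fin`/`sep_inf` (separation, = normality of the special fibre of the model): two places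
    of `F_k` at which all reductions `f̄` take the same values are equal.
-/

set_option autoImplicit false
set_option synthInstance.maxHeartbeats 400000

noncomputable section

namespace Fermat.Agent.S37.Core

open ModularCurve ValuationSubring AlgebraicCurve HahnSeries

/-- `f` is regular at `P` with value `b` -/
def HasValue {K F : Type*} [Field K] [Field F] [Algebra K F] (P : Place K F) (f : F) (b : K) :
    Prop :=
  f - algebraMap K F b ∈ P.toValuationSubring.nonunits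

section

variable (A : ValuationSubring (AlgebraicClosure ℚ)) (N : ℕ)

/-- an `A`-integral q-series lying in `F = ℚ̄(X₀(N))` with reduction in `F_k` -/
structure IntElt where
  /-- the q-series -/
  y : LaurentSeries A
  mem : coeffMap A.subtype y ∈ modularFunctionFieldBar N
  memk : coeffMap (IsLocalRing.residue A) y ∈
    modularFunctionFieldFullC (IsLocalRing.ResidueField A) N

variable {A N}

/-- the function in characteristic `0` -/
def IntElt.gen (c : IntElt A N) : modularFunctionFieldBar N := ⟨coeffMap A.subtype c.y, c.mem⟩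

/-- the reduced function -/
def IntElt.sp (c : IntElt A N) : modularFunctionFieldFullC (IsLocalRing.ResidueField A) N :=
  ⟨coeffMap (IsLocalRing.residue A) c.y, c.memk⟩

variable (A) in
/-- evaluation `A[X] → A((q))`, `X ↦ u` -/
def evalSeries (u : LaurentSeries A) : Polynomial A →+* LaurentSeries A :=
  Polynomial.eval₂RingHom (HahnSeries.C : A →+* LaurentSeries A) u

/-- `y` is integral over `A[j]` -/
def IntElt.IsFin (c : IntElt A N) : Prop :=
  ∃ p : Polynomial (Polynomial A), p.Monic ∧ p.eval₂ (evalSeries A (jqModC A)) c.y = 0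

/-- `y` is integral over `A[j⁻¹]` -/
def IntElt.IsInf (c : IntElt A N) : Prop :=
  ∃ u : LaurentSeries A, u * jqModC A = 1 ∧
    ∃ p : Polynomial (Polynomial A), p.Monic ∧ p.eval₂ (evalSeries A u) c.y = 0

variable (A N) in
/-- **Layer-2 interface**: a geometric place reduction map. -/
structure GeoRed [NeZero N] : Type where
  /-- the reduction map on places -/
  r : Place (AlgebraicClosure ℚ) (modularFunctionFieldBar N) →
    Place (IsLocalRing.ResidueField A) (modularFunctionFieldFullC (IsLocalRing.ResidueField A) N)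
  isRed : IsPlaceReductionModL A N r
  gen : PrincipalGeneratedByIntegral A (IsLocalRing.residue A) N
  vc_fin : ∀ j : IntElt A N, j.y = jqModC A → ∀ c : IntElt A N, c.IsFin →
    ∀ (P : Place (AlgebraicClosure ℚ) (modularFunctionFieldBar N)) (a b : A),
      HasValue P j.gen a → HasValue P c.gen b → HasValue (r P) c.sp (IsLocalRing.residue A b)
  vc_inf : ∀ j : IntElt A N, j.y * jqModC A = 1 → ∀ c : IntElt A N, c.IsInf →
    ∀ (P : Place (AlgebraicClosure ℚ) (modularFunctionFieldBar N)) (a b : A),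
      HasValue P j.gen a → HasValue P c.gen b → HasValue (r P) c.sp (IsLocalRing.residue A b)
  sep_fin : ∀ j : IntElt A N, j.y = jqModC A →
    ∀ (Q Q' : Place (IsLocalRing.ResidueField A)
      (modularFunctionFieldFullC (IsLocalRing.ResidueField A) N)) (a : IsLocalRing.ResidueField A),
      HasValue Q j.sp a →
      (∀ c : IntElt A N, c.IsFin → ∀ b : IsLocalRing.ResidueField A,
        HasValue Q c.sp b → HasValue Q' c.sp b) → Q = Q'
  sep_inf : ∀ j : IntElt A N, j.y * jqModC A = 1 →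
    ∀ (Q Q' : Place (IsLocalRing.ResidueField A)
      (modularFunctionFieldFullC (IsLocalRing.ResidueField A) N)) (a : IsLocalRing.ResidueField A),
      HasValue Q j.sp a →
      (∀ c : IntElt A N, c.IsInf → ∀ b : IsLocalRing.ResidueField A,
        HasValue Q c.sp b → HasValue Q' c.sp b) → Q = Q'

end

end Fermat.Agent.S37.Core

end
end
-- ===== PACK-END S37/Core/Geo.lean

-- ===== PACK-BEGIN S19/H679/Level.lean
section


/-!
# Cell A3 (S19), block UNR (helper679) — elements at a finite normal level `E`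

`V` a valuation subring of `ℚ̄` over `ℓ`, `D_V ⊇ I_V` its decomposition and inertia groups,
`E ⊂ ℚ̄` a finite normal extension of `ℚ`.

* `exists_repsH679`     : finitely many automorphisms represent all restrictions to `E`;
* `exists_crtH679`      : for every `n` an inertia-invariant integer `U ∈ E`, `U ≡ 1 mod 𝔪_V`,
                          with `σ U ∈ ℓ ^ n V` for all `σ` not agreeing on `E` with an element of
                          `D_V`;
* `exists_weightsH679`  : inertia-invariant integers `c_j ∈ E` and weights `a_j ∈ V` with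
                          `∑ a_j δ(c_j) = 1` or `0` for `δ ∈ D_V`, according to whether `δ`
                          agrees on `E` with an inertia element or not.
-/

set_option autoImplicit false

namespace Fermat.Agent.S19.H679

open Fermat.Agent.S54 Fermat.Agent.S55.Bridge Fermat.Agent.S55.Bridge.H594
open Polynomial

attribute [local instance] isAlgebraic_Qbar isGalois_Qbar

variable (V : ValuationSubring Qb) (E : IntermediateField ℚ Qb)

/-- Elements of `E` which are algebraic integers fixed by the inertia group of `V`. -/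
def IsGoodEltH679 (c : Qb) : Prop :=
  c ∈ E ∧ IsIntegral ℤ c ∧ ∀ ι ∈ V.inertiaSubgroupIn ℚ, ι c = c

theorem IsGoodEltH679.one : IsGoodEltH679 V E 1 :=
  ⟨E.one_mem, isIntegral_one, fun ι _ => map_one ι⟩

theorem IsGoodEltH679.mul {a b : Qb} (ha : IsGoodEltH679 V E a) (hb : IsGoodEltH679 V E b) :
    IsGoodEltH679 V E (a * b) :=
  ⟨E.mul_mem ha.1 hb.1, ha.2.1.mul hb.2.1, fun ι hι => by rw [map_mul, ha.2.2 ι hι, hb.2.2 ι hι]⟩

theorem IsGoodEltH679.prod {ι : Type*} (s : Finset ι) (g : ι → Qb)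
    (hg : ∀ i ∈ s, IsGoodEltH679 V E (g i)) : IsGoodEltH679 V E (∏ i ∈ s, g i) := by
  classical
  induction s using Finset.induction_on with
  | empty => simpa using IsGoodEltH679.one V E
  | insert a s ha ih =>
    rw [Finset.prod_insert ha]
    exact (hg a (Finset.mem_insert_self a s)).mul V E
      (ih fun i hi => hg i (Finset.mem_insert_of_mem hi))

theorem IsGoodEltH679.mem_V {c : Qb} (hc : IsGoodEltH679 V E c) : c ∈ V :=
  isIntegral_mem_valuationSubring V hc.2.1

theorem IsGoodEltH679.apply_mem_V {c : Qb} (hc : IsGoodEltH679 V E c) (σ : GalQ) : σ c ∈ V :=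
  isIntegral_mem_valuationSubring V (hc.2.1.map σ)

section normal

variable [Normal ℚ E]

theorem apply_mem_levelH679 (σ : GalQ) {x : Qb} (hx : x ∈ E) : σ x ∈ E := by
  have := restrictNormalHom_apply E σ ⟨x, hx⟩
  rw [← this]
  exact (AlgEquiv.restrictNormalHom E σ ⟨x, hx⟩).2

theorem agree_iff_restrictH679 (σ τ : GalQ) :
    (∀ x ∈ E, σ x = τ x) ↔ AlgEquiv.restrictNormalHom E σ = AlgEquiv.restrictNormalHom E τ := by
  constructor
  · intro h
    apply AlgEquiv.ext
    intro x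
    apply Subtype.ext
    rw [restrictNormalHom_apply, restrictNormalHom_apply]
    exact h x x.2
  · intro h x hx
    have h1 := restrictNormalHom_apply E σ ⟨x, hx⟩
    have h2 := restrictNormalHom_apply E τ ⟨x, hx⟩
    rw [← h1, ← h2, h]

variable [FiniteDimensional ℚ E]

/-- Finitely many automorphisms represent all restrictions to `E`. -/
theorem exists_repsH679 :
    ∃ reps : Finset GalQ, ∀ σ : GalQ, ∃ ρ ∈ reps, ∀ x ∈ E, σ x = ρ x := by
  classical
  haveI : Fintype (E ≃ₐ[ℚ] E) := Fintype.ofFinite _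
  have hsurj := AlgEquiv.restrictNormalHom_surjective (F := ℚ) (K₁ := E) Qb
  refine ⟨Finset.univ.image (Function.surjInv hsurj), fun σ => ?_⟩
  refine ⟨Function.surjInv hsurj (AlgEquiv.restrictNormalHom E σ),
    Finset.mem_image_of_mem _ (Finset.mem_univ _), ?_⟩
  rw [agree_iff_restrictH679, Function.surjInv_eq hsurj]

end normal

variable {ℓ : ℕ} (hℓ : ℓ.Prime) (hV : (ℓ : Qb) ∈ V.nonunits)

section crt

variable [Normal ℚ E]

include hℓ hV in
/-- One bad automorphism: an integer of `E`, `≡ 1 mod 𝔪_V`, sent into `𝔪_V`. -/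
theorem exists_crt1H679 (σ : GalQ)
    (hσ : ¬ ∃ δ ∈ V.decompositionSubgroup ℚ, ∀ x ∈ E, δ x = σ x) :
    ∃ w : Qb, w ∈ E ∧ IsIntegral ℤ w ∧ w - 1 ∈ V.nonunits ∧ σ w ∈ V.nonunits := by
  have hex : ∃ x : E, IsIntegral ℤ x ∧
      ¬ ((σ (x : Qb)) ∈ V.nonunits ↔ (x : Qb) ∈ V.nonunits) := by
    by_contra hcon
    push Not at hcon
    apply hσ
    obtain ⟨δ, hδ, hδr⟩ := exists_decomposition_lift E V hℓ hV (AlgEquiv.restrictNormalHom E σ)
      (fun x hx => by
        rw [restrictNormalHom_apply]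
        exact hcon x hx)
    exact ⟨δ, hδ, (agree_iff_restrictH679 E δ σ).2 hδr⟩
  obtain ⟨x, hxint, hx⟩ := hex
  have hxint' : IsIntegral ℤ (x : Qb) := hxint.map (IntermediateField.val E)
  have hxV : (x : Qb) ∈ V := isIntegral_mem_valuationSubring V hxint'
  have hσxint : IsIntegral ℤ (σ (x : Qb)) := hxint'.map σ
  have hσxV : σ (x : Qb) ∈ V := isIntegral_mem_valuationSubring V hσxint
  by_cases h1 : (x : Qb) ∈ V.nonunits
  · -- `x ∈ 𝔪`, `σ x ∉ 𝔪`
    have h2 : σ (x : Qb) ∉ V.nonunits := fun h => hx ⟨fun _ => h1, fun _ => h⟩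
    obtain ⟨N, hN, hN'⟩ := exists_pow_sub_one_memH679 V hℓ hV _ hσxint h2
    refine ⟨1 - (x : Qb) ^ N, E.sub_mem E.one_mem (pow_mem x.2 N),
      isIntegral_one.sub (hxint'.pow N), ?_, ?_⟩
    · have : (1 - (x : Qb) ^ N) - 1 = -((x : Qb) ^ (N - 1) * (x : Qb)) := by
        rw [← pow_succ, Nat.sub_add_cancel hN]; ring
      rw [this]
      exact V.nonunits.neg_mem (mul_mem_nonunitsH679 V (pow_mem hxV _) h1)
    · have : σ (1 - (x : Qb) ^ N) = -((σ (x : Qb)) ^ N - 1) := by
        rw [map_sub, map_one, map_pow]; ring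
      rw [this]
      exact V.nonunits.neg_mem hN'
  · -- `x ∉ 𝔪`, `σ x ∈ 𝔪`
    have h2 : σ (x : Qb) ∈ V.nonunits := by
      by_contra h
      exact hx ⟨fun h' => absurd h' h, fun h' => absurd h' h1⟩
    obtain ⟨N, hN, hN'⟩ := exists_pow_sub_one_memH679 V hℓ hV _ hxint' h1
    refine ⟨(x : Qb) ^ N, pow_mem x.2 N, hxint'.pow N, hN', ?_⟩
    rw [map_pow]
    have : (σ (x : Qb)) ^ N = (σ (x : Qb)) ^ (N - 1) * σ (x : Qb) := by
      rw [← pow_succ, Nat.sub_add_cancel hN]
    rw [this]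
    exact mul_mem_nonunitsH679 V (pow_mem hσxV _) h2

include hℓ hV in
/-- One bad automorphism, with divisibility by `ℓ ^ n`. -/
theorem exists_crt2H679 (n : ℕ) (σ : GalQ)
    (hσ : ¬ ∃ δ ∈ V.decompositionSubgroup ℚ, ∀ x ∈ E, δ x = σ x) :
    ∃ w : Qb, w ∈ E ∧ IsIntegral ℤ w ∧ w - 1 ∈ V.nonunits ∧
      ∃ z ∈ V, σ w = (ℓ : Qb) ^ n * z := by
  obtain ⟨w, hwE, hwint, hw1, hσw⟩ := exists_crt1H679 V E hℓ hV σ hσ
  obtain ⟨k, -, z, hz, hk⟩ := exists_pow_eq_mulH679 V hℓ hV (σ w) (hwint.map σ) hσw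
  refine ⟨w ^ (k * n), pow_mem hwE _, hwint.pow _, ?_, z ^ n, pow_mem hz n, ?_⟩
  · have := prod_sub_one_mem_nonunitsH679 V (Finset.range (k * n)) (fun _ => w) (fun _ _ => hw1)
    simpa using this
  · rw [map_pow, pow_mul, hk, mul_pow]

variable [FiniteDimensional ℚ E]

include hℓ hV in
/-- **CRT element**: an inertia-invariant integer `U ∈ E`, `U ≡ 1 mod 𝔪_V`, all of whose bad
conjugates are divisible by `ℓ ^ n`. -/
theorem exists_crtH679 (n : ℕ) :
    ∃ U : Qb, IsGoodEltH679 V E U ∧ U - 1 ∈ V.nonunits ∧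
      ∀ σ : GalQ, (¬ ∃ δ ∈ V.decompositionSubgroup ℚ, ∀ x ∈ E, δ x = σ x) →
        ∃ z ∈ V, σ U = (ℓ : Qb) ^ n * z := by
  classical
  obtain ⟨reps, hreps⟩ := exists_repsH679 E
  -- the bad representatives
  set bad : Finset GalQ := reps.filter fun ρ =>
    ¬ ∃ δ ∈ V.decompositionSubgroup ℚ, ∀ x ∈ E, δ x = ρ x with hbad
  have hchoose : ∀ ρ : GalQ, ∃ w : Qb, ρ ∈ bad → (w ∈ E ∧ IsIntegral ℤ w ∧ w - 1 ∈ V.nonunits ∧
      ∃ z ∈ V, ρ w = (ℓ : Qb) ^ n * z) := by
    intro ρ
    by_cases hρ : ρ ∈ bad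
    · obtain ⟨w, hw⟩ := exists_crt2H679 V E hℓ hV n ρ (Finset.mem_filter.1 hρ).2
      exact ⟨w, fun _ => hw⟩
    · exact ⟨0, fun h => absurd h hρ⟩
  choose w hw using hchoose
  set U₀ : Qb := ∏ ρ ∈ bad, w ρ with hU₀
  have hU₀E : U₀ ∈ E := Subring.prod_mem E.toSubfield.toSubring fun ρ hρ => (hw ρ hρ).1
  have hU₀int : IsIntegral ℤ U₀ := IsIntegral.prod _ fun ρ hρ => (hw ρ hρ).2.1
  have hU₀1 : U₀ - 1 ∈ V.nonunits :=
    prod_sub_one_mem_nonunitsH679 V bad w fun ρ hρ => (hw ρ hρ).2.2.1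
  have hU₀bad : ∀ σ : GalQ, (¬ ∃ δ ∈ V.decompositionSubgroup ℚ, ∀ x ∈ E, δ x = σ x) →
      ∃ z ∈ V, σ U₀ = (ℓ : Qb) ^ n * z := by
    intro σ hσ
    obtain ⟨ρ, hρ, hσρ⟩ := hreps σ
    have hρbad : ρ ∈ bad := by
      rw [hbad, Finset.mem_filter]
      refine ⟨hρ, ?_⟩
      rintro ⟨δ, hδ, hδρ⟩
      exact hσ ⟨δ, hδ, fun x hx => (hδρ x hx).trans (hσρ x hx).symm⟩
    obtain ⟨z, hz, hρw⟩ := (hw ρ hρbad).2.2.2
    refine ⟨z * ∏ ρ' ∈ bad.erase ρ, σ (w ρ'), ?_, ?_⟩
    · refine V.mul_mem _ _ hz (Subring.prod_mem V.toSubring fun ρ' hρ' => ?_)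
      exact isIntegral_mem_valuationSubring V
        (((hw ρ' (Finset.mem_of_mem_erase hρ')).2.1).map σ)
    · rw [hU₀, map_prod, ← Finset.mul_prod_erase bad _ hρbad, hσρ _ (hw ρ hρbad).1, hρw]
      ring
  -- make it inertia-invariant
  set I := V.inertiaSubgroupIn ℚ with hI
  refine ⟨∏ y ∈ orbH679 I U₀, y, ⟨?_, ?_, ?_⟩, ?_, ?_⟩
  · refine Subring.prod_mem E.toSubfield.toSubring fun y hy => ?_
    obtain ⟨ι, -, rfl⟩ := mem_orbH679.1 hy
    exact apply_mem_levelH679 E ι hU₀E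
  · refine IsIntegral.prod _ fun y hy => ?_
    obtain ⟨ι, -, rfl⟩ := mem_orbH679.1 hy
    exact hU₀int.map ι
  · intro ι hι
    exact apply_prod_orbH679 U₀ hι
  · refine prod_sub_one_mem_nonunitsH679 V _ _ fun y hy => ?_
    obtain ⟨ι, hι, rfl⟩ := mem_orbH679.1 hy
    have h1 := inertia_sub_memH679 hι (isIntegral_mem_valuationSubring V hU₀int)
    have : ι U₀ - 1 = (ι U₀ - U₀) + (U₀ - 1) := by ring
    rw [this]
    exact V.nonunits.add_mem h1 hU₀1
  · intro σ hσ
    obtain ⟨z, hz, hσU⟩ := hU₀bad σ hσ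
    refine ⟨z * ∏ y ∈ (orbH679 I U₀).erase U₀, σ y, ?_, ?_⟩
    · refine V.mul_mem _ _ hz (Subring.prod_mem V.toSubring fun y hy => ?_)
      obtain ⟨ι, -, rfl⟩ := mem_orbH679.1 (Finset.mem_of_mem_erase hy)
      exact isIntegral_mem_valuationSubring V ((hU₀int.map ι).map σ)
    · rw [map_prod, ← Finset.mul_prod_erase _ _ (self_mem_orbH679 I U₀), hσU]
      ring

end crt

section sep

variable [Normal ℚ E]

include hℓ hV in
/-- **Separating element**: a decomposition element which is not inertial on `E` moves the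
residue of some inertia-invariant integer of `E`. -/
theorem exists_sep1H679 (δ : GalQ) (hδ : δ ∈ V.decompositionSubgroup ℚ)
    (hδI : ¬ ∃ ι ∈ V.inertiaSubgroupIn ℚ, ∀ x ∈ E, δ x = ι x) :
    ∃ t : Qb, IsGoodEltH679 V E t ∧ δ t - t ∉ V.nonunits := by
  have hex : ∃ x : E, IsIntegral ℤ x ∧ δ (x : Qb) - (x : Qb) ∉ V.nonunits := by
    by_contra hcon
    push Not at hcon
    apply hδI
    obtain ⟨ι, hι, hιr⟩ := exists_inertia_lift E V hℓ hV (AlgEquiv.restrictNormalHom E δ)
      (fun x hx => by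
        rw [restrictNormalHom_apply]
        exact hcon x hx)
    exact ⟨ι, hι, fun x hx => ((agree_iff_restrictH679 E ι δ).2 hιr x hx).symm⟩
  obtain ⟨x, hxint, hx⟩ := hex
  have hxint' : IsIntegral ℤ (x : Qb) := hxint.map (IntermediateField.val E)
  have hxV : (x : Qb) ∈ V := isIntegral_mem_valuationSubring V hxint'
  set I := V.inertiaSubgroupIn ℚ with hI
  set Q := orbPolyH679 I (x : Qb) with hQ
  have horbE : ∀ y ∈ orbH679 I (x : Qb), y ∈ E := by
    intro y hy
    obtain ⟨ι, -, rfl⟩ := mem_orbH679.1 hy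
    exact apply_mem_levelH679 E ι x.2
  have horbint : ∀ y ∈ orbH679 I (x : Qb), IsIntegral ℤ y := by
    intro y hy
    obtain ⟨ι, -, rfl⟩ := mem_orbH679.1 hy
    exact hxint'.map ι
  have hgood : ∀ j, IsGoodEltH679 V E (Q.coeff j) := by
    intro j
    refine ⟨?_, ?_, fun ι hι => apply_coeff_orbPolyH679 (x : Qb) hι j⟩
    · exact coeff_prod_X_sub_C_memH679 E.toSubfield.toSubring _ horbE j
    · exact coeff_prod_X_sub_C_memH679 (integralClosure ℤ Qb).toSubring _ horbint j
  by_contra hcon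
  push Not at hcon
  have hall : ∀ j, δ (Q.coeff j) - Q.coeff j ∈ V.nonunits := fun j =>
    hcon (Q.coeff j) (hgood j)
  -- evaluate `Q^δ - Q` at `x`
  have hdeg : (Q.map (δ : Qb →+* Qb)).natDegree = Q.natDegree :=
    Polynomial.natDegree_map_eq_of_injective δ.injective Q
  have h1 : (Q.map (δ : Qb →+* Qb)).eval (x : Qb) - Q.eval (x : Qb)
      = ∑ i ∈ Finset.range (Q.natDegree + 1), (δ (Q.coeff i) - Q.coeff i) * (x : Qb) ^ i := by
    rw [Polynomial.eval_eq_sum_range, Polynomial.eval_eq_sum_range, hdeg, ← Finset.sum_sub_distrib]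
    refine Finset.sum_congr rfl fun i _ => ?_
    rw [Polynomial.coeff_map, sub_mul]
    rfl
  have h2 : (Q.map (δ : Qb →+* Qb)).eval (x : Qb) ∈ V.nonunits := by
    have h3 : Q.eval (x : Qb) = 0 := orbPolyH679_eval_self I (x : Qb)
    rw [h3, sub_zero] at h1
    rw [h1]
    refine V.nonunits.sum_mem fun i _ => ?_
    exact mul_mem_nonunitsH679' V (hall i) (pow_mem hxV i)
  have h4 : (Q.map (δ : Qb →+* Qb)).eval (x : Qb)
      = ∏ y ∈ orbH679 I (x : Qb), ((x : Qb) - δ y) := by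
    rw [hQ, orbPolyH679, Polynomial.map_prod, Polynomial.eval_prod]
    refine Finset.prod_congr rfl fun y _ => ?_
    simp
  rw [h4] at h2
  obtain ⟨y, hy, hy'⟩ := exists_mem_nonunits_of_prodH679 V _ _ (fun y hy =>
    sub_mem hxV (isIntegral_mem_valuationSubring V ((horbint y hy).map δ))) h2
  obtain ⟨ι, hι, rfl⟩ := mem_orbH679.1 hy
  have h5 : δ (ι (x : Qb)) - δ (x : Qb) ∈ V.nonunits := by
    rw [← map_sub]
    exact (mem_nonunits_decompH679 hδ _).2 (inertia_sub_memH679 hι hxV)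
  apply hx
  have h6 : δ (x : Qb) - (x : Qb) = -(((x : Qb) - δ (ι (x : Qb))) + (δ (ι (x : Qb)) - δ (x : Qb))) := by
    ring
  rw [h6]
  exact V.nonunits.neg_mem (V.nonunits.add_mem hy' h5)

variable [FiniteDimensional ℚ E]

include hℓ hV in
/-- **Lagrange weights** for the unramified part of the descent. -/
theorem exists_weightsH679 :
    ∃ (J : Type) (_ : Fintype J) (c : J → Qb) (a : J → V),
      (∀ j, IsGoodEltH679 V E (c j)) ∧
      (∀ δ ∈ V.decompositionSubgroup ℚ, (∃ ι ∈ V.inertiaSubgroupIn ℚ, ∀ x ∈ E, δ x = ι x) →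
        ∑ j, (a j : Qb) * δ (c j) = 1) ∧
      (∀ δ ∈ V.decompositionSubgroup ℚ, (¬ ∃ ι ∈ V.inertiaSubgroupIn ℚ, ∀ x ∈ E, δ x = ι x) →
        ∑ j, (a j : Qb) * δ (c j) = 0) := by
  classical
  obtain ⟨reps, hreps⟩ := exists_repsH679 E
  set B : Finset GalQ := reps.filter fun ρ =>
    ∃ δ ∈ V.decompositionSubgroup ℚ, (∀ x ∈ E, δ x = ρ x) ∧
      ¬ ∃ ι ∈ V.inertiaSubgroupIn ℚ, ∀ x ∈ E, δ x = ι x with hB
  have hchoose : ∀ ρ : GalQ, ∃ (δ : GalQ) (t : Qb), ρ ∈ B →
      ((∀ x ∈ E, δ x = ρ x) ∧ IsGoodEltH679 V E t ∧ δ t - t ∉ V.nonunits) := by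
    intro ρ
    by_cases hρ : ρ ∈ B
    · obtain ⟨δ, hδ, hδρ, hδI⟩ := (Finset.mem_filter.1 hρ).2
      obtain ⟨t, ht, ht'⟩ := exists_sep1H679 V E hℓ hV δ hδ hδI
      exact ⟨δ, t, fun _ => ⟨hδρ, ht, ht'⟩⟩
    · exact ⟨1, 0, fun h => absurd h hρ⟩
  choose d t hdt using hchoose
  set β : GalQ → Qb := fun ρ => d ρ (t ρ) with hβ
  have hβV : ∀ ρ ∈ B, β ρ ∈ V := fun ρ hρ => (hdt ρ hρ).2.1.apply_mem_V V E (d ρ)
  have hunit : ∀ ρ ∈ B, (t ρ - β ρ)⁻¹ ∈ V := by
    intro ρ hρ
    apply inv_mem_of_not_mem_nonunitsH679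
    intro h
    apply (hdt ρ hρ).2.2
    have : d ρ (t ρ) - t ρ = -(t ρ - β ρ) := by rw [hβ]; ring
    rw [this]
    exact V.nonunits.neg_mem h
  have hne : ∀ ρ ∈ B, t ρ - β ρ ≠ 0 := by
    intro ρ hρ h
    apply (hdt ρ hρ).2.2
    have : d ρ (t ρ) - t ρ = -(t ρ - β ρ) := by rw [hβ]; ring
    rw [this, h, neg_zero]
    exact V.nonunits.zero_mem
  set κ : Qb := ∏ ρ ∈ B, (t ρ - β ρ)⁻¹ with hκ
  have hκV : κ ∈ V := Subring.prod_mem V.toSubring hunit
  have haV : ∀ S : Finset GalQ, S ∈ B.powerset → κ * ∏ ρ ∈ B \ S, (-β ρ) ∈ V := by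
    intro S _
    refine V.mul_mem _ _ hκV (Subring.prod_mem V.toSubring fun ρ hρ => ?_)
    exact V.neg_mem _ (hβV ρ (Finset.mem_sdiff.1 hρ).1)
  -- the key identity
  have hkey : ∀ δ : GalQ, ∑ S ∈ B.powerset, (κ * ∏ ρ ∈ B \ S, (-β ρ)) * δ (∏ ρ ∈ S, t ρ)
      = κ * ∏ ρ ∈ B, (δ (t ρ) - β ρ) := by
    intro δ
    have h1 : ∏ ρ ∈ B, (δ (t ρ) - β ρ) = ∏ ρ ∈ B, (δ (t ρ) + (-β ρ)) :=
      Finset.prod_congr rfl fun ρ _ => sub_eq_add_neg _ _
    rw [h1, Finset.prod_add, Finset.mul_sum]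
    refine Finset.sum_congr rfl fun S _ => ?_
    rw [map_prod]
    ring
  refine ⟨↥B.powerset, inferInstance, fun S => ∏ ρ ∈ S.1, t ρ,
    fun S => ⟨κ * ∏ ρ ∈ B \ S.1, (-β ρ), haV S.1 S.2⟩, ?_, ?_, ?_⟩
  · intro S
    refine IsGoodEltH679.prod V E _ _ fun ρ hρ => (hdt ρ ?_).2.1
    exact Finset.mem_powerset.1 S.2 hρ
  · intro δ _ hδI
    obtain ⟨ι, hι, hδι⟩ := hδI
    have hsum := Finset.sum_coe_sort B.powerset
      (fun S => (κ * ∏ ρ ∈ B \ S, (-β ρ)) * δ (∏ ρ ∈ S, t ρ))
    rw [hkey] at hsum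
    show ∑ S : ↥B.powerset, (κ * ∏ ρ ∈ B \ S.1, (-β ρ)) * δ (∏ ρ ∈ S.1, t ρ) = 1
    rw [hsum]
    have h2 : ∀ ρ ∈ B, δ (t ρ) = t ρ := by
      intro ρ hρ
      rw [hδι _ (hdt ρ hρ).2.1.1]
      exact (hdt ρ hρ).2.1.2.2 ι hι
    rw [Finset.prod_congr rfl fun ρ hρ => by rw [h2 ρ hρ], hκ, ← Finset.prod_mul_distrib]
    exact Finset.prod_eq_one fun ρ hρ => inv_mul_cancel₀ (hne ρ hρ)
  · intro δ hδ hδI
    have hsum := Finset.sum_coe_sort B.powerset
      (fun S => (κ * ∏ ρ ∈ B \ S, (-β ρ)) * δ (∏ ρ ∈ S, t ρ))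
    rw [hkey] at hsum
    show ∑ S : ↥B.powerset, (κ * ∏ ρ ∈ B \ S.1, (-β ρ)) * δ (∏ ρ ∈ S.1, t ρ) = 0
    rw [hsum]
    obtain ⟨ρ, hρ, hδρ⟩ := hreps δ
    have hρB : ρ ∈ B := by
      rw [hB, Finset.mem_filter]
      exact ⟨hρ, δ, hδ, hδρ, hδI⟩
    have h3 : δ (t ρ) - β ρ = 0 := by
      rw [hβ, sub_eq_zero, hδρ _ (hdt ρ hρB).2.1.1, ← (hdt ρ hρB).1 _ (hdt ρ hρB).2.1.1]
    rw [Finset.prod_eq_zero hρB h3, mul_zero]

end sep

end Fermat.Agent.S19.H679

end
-- ===== PACK-END S19/H679/Level.lean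

-- ===== PACK-BEGIN S19/H679/Basis.lean
section


/-!
# Cell A3 (S19), block UNR (helper679) — minimal spanning sets over a valuation ring

* `exists_minimal_spanningH679` : a finitely generated module spanned by a set `S` is spanned
  by a finite subset of `S` none of whose elements is in the span of the others;
* `indep_of_minimalH679`        : over a valuation ring `V` of `ℚ̄` such a set is linearly
  independent over `ℚ̄`;
* `tensor_indepH679`            : products `f(x) g(y)` of an independent family of functions are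
  independent;
* `mem_ratLocalizedAtH679`      : `ℚ ∩ V = ℤ_(ℓ)`;
* `isIntegral_of_conj_memH679`  : an element all of whose conjugates lie in `V` is integral
  over `ℤ_(ℓ)`.
-/

set_option autoImplicit false

namespace Fermat.Agent.S19.H679

open Fermat.Agent.S54 Fermat.Agent.S55.Bridge
open Polynomial

attribute [local instance] isAlgebraic_Qbar isGalois_Qbar

/-- A finite generating subset of `S` with no redundant element. -/
theorem exists_minimal_spanningH679 {A W : Type*} [CommRing A] [AddCommGroup W] [Module A W]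
    (S : Set W) (N : Submodule A W) (hN : N.FG) (hS : Submodule.span A S = N) :
    ∃ F : Finset W, (F : Set W) ⊆ S ∧ Submodule.span A (F : Set W) = N ∧
      ∀ f ∈ F, f ∉ Submodule.span A ((F : Set W) \ {f}) := by
  classical
  have hex : ∃ n : ℕ, ∃ F : Finset W, (F : Set W) ⊆ S ∧ Submodule.span A (F : Set W) = N ∧
      F.card = n := by
    rw [← hS] at hN
    obtain ⟨F, hF1, hF2⟩ := (Submodule.fg_span_iff_fg_span_finset_subset S).1 hN
    exact ⟨F.card, F, hF1, by rw [← hF2, hS], rfl⟩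
  obtain ⟨F, hF1, hF2, hF3⟩ := Nat.find_spec hex
  refine ⟨F, hF1, hF2, fun f hf hmem => ?_⟩
  rw [← Finset.coe_erase] at hmem
  have hlt : (F.erase f).card < Nat.find hex := by
    rw [← hF3]
    exact Finset.card_erase_lt_of_mem hf
  apply Nat.find_min hex hlt
  refine ⟨F.erase f, ?_, ?_, rfl⟩
  · exact fun x hx => hF1 (Finset.mem_of_mem_erase (Finset.mem_coe.1 hx))
  · rw [← hF2]
    apply le_antisymm
    · exact Submodule.span_mono fun x hx => Finset.mem_of_mem_erase (Finset.mem_coe.1 hx)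
    · rw [Submodule.span_le]
      intro x hx
      by_cases hxf : x = f
      · rw [hxf]; exact hmem
      · exact Submodule.subset_span (Finset.mem_coe.2 (Finset.mem_erase.2 ⟨hxf, hx⟩))

/-- Over a valuation ring, a spanning set without redundant elements is independent over the
fraction field. -/
theorem indep_of_minimalH679 (V : ValuationSubring Qb) {N : Type*} (F : Finset (N → Qb))
    (hmin : ∀ f ∈ F, f ∉ Submodule.span V ((F : Set (N → Qb)) \ {f}))
    (g : (N → Qb) → Qb) (hg : ∑ f ∈ F, g f • f = 0) : ∀ f ∈ F, g f = 0 := by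
  classical
  by_contra hcon
  push Not at hcon
  obtain ⟨f₀, hf₀, hgf₀⟩ := hcon
  obtain ⟨f₁, hf₁, hmax⟩ := Finset.exists_max_image F (fun f => V.valuation (g f)) ⟨f₀, hf₀⟩
  have hg1 : g f₁ ≠ 0 := by
    intro h
    have h1 := hmax f₀ hf₀
    rw [h, map_zero] at h1
    exact hgf₀ ((Valuation.zero_iff _).1 (le_antisymm h1 zero_le))
  have hcoef : ∀ f ∈ F, g f * (g f₁)⁻¹ ∈ V := by
    intro f hf
    rw [← V.valuation_le_one_iff, map_mul, map_inv₀, ← div_eq_mul_inv]
    have hpos : 0 < V.valuation (g f₁) := zero_lt_iff.2 ((Valuation.ne_zero_iff _).2 hg1)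
    rw [div_le_one₀ hpos]
    exact hmax f hf
  apply hmin f₁ hf₁
  rw [← Finset.coe_erase]
  have hrel : f₁ = ∑ f ∈ F.erase f₁, (-(g f * (g f₁)⁻¹)) • f := by
    rw [← Finset.add_sum_erase F _ hf₁] at hg
    have h1 : g f₁ • f₁ = -∑ f ∈ F.erase f₁, g f • f := eq_neg_of_add_eq_zero_left hg
    calc f₁ = (g f₁)⁻¹ • (g f₁ • f₁) := by rw [smul_smul, inv_mul_cancel₀ hg1, one_smul]
      _ = (g f₁)⁻¹ • (-∑ f ∈ F.erase f₁, g f • f) := by rw [h1]
      _ = ∑ f ∈ F.erase f₁, (-(g f * (g f₁)⁻¹)) • f := by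
        rw [smul_neg, Finset.smul_sum, ← Finset.sum_neg_distrib]
        refine Finset.sum_congr rfl fun f _ => ?_
        rw [smul_smul, neg_smul, mul_comm]
  have hgoal : ∑ f ∈ F.erase f₁, (-(g f * (g f₁)⁻¹)) • f
      ∈ Submodule.span V ((F.erase f₁ : Finset (N → Qb)) : Set (N → Qb)) := by
    refine Submodule.sum_mem _ fun f hf => ?_
    have hfF : f ∈ F := Finset.mem_of_mem_erase hf
    have h3 : (-(g f * (g f₁)⁻¹)) • f
        = (⟨-(g f * (g f₁)⁻¹), V.neg_mem _ (hcoef f hfF)⟩ : V) • f := rfl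
    rw [h3]
    exact Submodule.smul_mem _ _ (Submodule.subset_span (Finset.mem_coe.2 hf))
  have key : ∀ S : Submodule V (N → Qb),
      ∑ f ∈ F.erase f₁, (-(g f * (g f₁)⁻¹)) • f ∈ S → f₁ ∈ S := by
    intro S h
    rw [hrel]
    exact h
  exact key _ hgoal

/-- Independence of the products `f(x) g(y)`. -/
theorem tensor_indepH679 {N : Type*} (F : Finset (N → Qb))
    (hind : ∀ g : (N → Qb) → Qb, ∑ f ∈ F, g f • f = 0 → ∀ f ∈ F, g f = 0)
    (c : (N → Qb) → (N → Qb) → Qb)
    (hc : ∀ x y : N, ∑ f ∈ F, ∑ g ∈ F, c f g * (f x * g y) = 0) :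
    ∀ f ∈ F, ∀ g ∈ F, c f g = 0 := by
  classical
  -- first in the variable `x`
  have h1 : ∀ y : N, ∀ f ∈ F, ∑ g ∈ F, c f g * g y = 0 := by
    intro y
    apply hind (fun f => ∑ g ∈ F, c f g * g y)
    funext x
    rw [Finset.sum_apply, Pi.zero_apply, ← hc x y]
    refine Finset.sum_congr rfl fun f _ => ?_
    rw [Pi.smul_apply, smul_eq_mul, Finset.sum_mul]
    refine Finset.sum_congr rfl fun g _ => ?_
    ring
  intro f hf
  apply hind (fun g => c f g)
  funext y
  rw [Finset.sum_apply, Pi.zero_apply, ← h1 y f hf]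
  refine Finset.sum_congr rfl fun g _ => ?_
  rw [Pi.smul_apply, smul_eq_mul]

variable (V : ValuationSubring Qb) {ℓ : ℕ} (hℓ : ℓ.Prime) (hV : (ℓ : Qb) ∈ V.nonunits)

include hℓ hV in
/-- `ℚ ∩ V = ℤ_(ℓ)`. -/
theorem mem_ratLocalizedAtH679 (q : ℚ) (hq : (algebraMap ℚ Qb q) ∈ V) : q ∈ Rl ℓ := by
  show q.den.Coprime ℓ
  rw [Nat.coprime_comm, hℓ.coprime_iff_not_dvd]
  intro hdvd
  obtain ⟨k, hk⟩ := hdvd
  -- `num = q * den ∈ 𝔪`
  have h1 : ((q.num : ℤ) : Qb) = algebraMap ℚ Qb q * ((q.den : ℕ) : Qb) := by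
    have h2 : (q.num : ℚ) = q * (q.den : ℚ) := (Rat.mul_den_eq_num q).symm
    have h3 := congrArg (algebraMap ℚ Qb) h2
    rw [map_mul, map_intCast, map_natCast] at h3
    exact h3
  have h4 : ((q.den : ℕ) : Qb) ∈ V.nonunits := by
    rw [hk]
    push_cast
    exact mul_mem_nonunitsH679' V hV (natCast_mem V k)
  have h5 : ((q.num : ℤ) : Qb) ∈ V.nonunits := by
    rw [h1]
    exact mul_mem_nonunitsH679 V hq h4
  have h6 := _root_.Fermat.Agent.S54.dvd_of_intCast_mem_nonunits V ℓ hℓ hV _ h5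
  have h7 : (ℓ : ℤ) ∣ (q.den : ℤ) := ⟨k, by exact_mod_cast hk⟩
  have h8 : IsCoprime q.num (q.den : ℤ) := by
    rw [Int.isCoprime_iff_gcd_eq_one]
    have := q.reduced
    rw [Nat.Coprime] at this
    rw [Int.gcd]
    simpa using this
  have h9 : IsUnit (ℓ : ℤ) := h8.isUnit_of_dvd' h6 h7
  rw [Int.isUnit_iff] at h9
  have := hℓ.one_lt
  omega

/-- Elements of `ℚ̄` fixed by the whole Galois group are rational. -/
theorem mem_range_of_fixedH679 (x : Qb) (hx : ∀ σ : GalQ, σ x = x) :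
    ∃ q : ℚ, algebraMap ℚ Qb q = x := by
  have hfix : x ∈ IntermediateField.fixedField (⊤ : Subgroup GalQ) := by
    rintro ⟨g, -⟩
    exact hx g
  rw [InfiniteGalois.fixedField_bot, IntermediateField.mem_bot] at hfix
  exact hfix

include hℓ hV in
/-- An element all of whose conjugates lie in `V` is integral over `ℤ_(ℓ)`. -/
theorem isIntegral_of_conj_memH679 (x : Qb) (hx : ∀ σ : GalQ, σ x ∈ V) :
    IsIntegral (Rl ℓ) x := by
  set Q := orbPolyH679 (⊤ : Subgroup GalQ) x with hQ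
  have hmonic : Q.Monic := monic_prod_of_monic _ _ fun y _ => monic_X_sub_C y
  have hcoefV : ∀ j, Q.coeff j ∈ V := fun j =>
    coeff_prod_X_sub_C_memH679 V.toSubring _ (fun y hy => by
      obtain ⟨σ, -, rfl⟩ := mem_orbH679.1 hy
      exact hx σ) j
  have hcoefQ : ∀ j, ∃ r : Rl ℓ, algebraMap (Rl ℓ) Qb r = Q.coeff j := by
    intro j
    obtain ⟨q, hq⟩ := mem_range_of_fixedH679 (Q.coeff j) fun σ =>
      apply_coeff_orbPolyH679 x (Subgroup.mem_top σ) j
    exact ⟨⟨q, mem_ratLocalizedAtH679 V hℓ hV q (hq ▸ hcoefV j)⟩, hq⟩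
  have hlift : Q ∈ Polynomial.lifts (algebraMap (Rl ℓ) Qb) := by
    rw [Polynomial.lifts_iff_coeff_lifts]
    intro j
    obtain ⟨r, hr⟩ := hcoefQ j
    exact ⟨r, hr⟩
  obtain ⟨P, hP, -, hPm⟩ := Polynomial.lifts_and_degree_eq_and_monic hlift hmonic
  refine ⟨P, hPm, ?_⟩
  rw [← Polynomial.eval_map, hP]
  exact orbPolyH679_eval_self _ x

end Fermat.Agent.S19.H679

end
-- ===== PACK-END S19/H679/Basis.lean

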