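import Mathlib
import Fermat.Prelude.Def_ModularForm_HeckeOperator
import Fermat.Prelude.Def_FLTPrelim_ModularRep
import Fermat.Prelude.Def_CuspForm_HeckeAlgebra
import Fermat.Agent.Pack.S44C.G0E21L0
import Fermat.Agent.Pack.S44C.G0E18L2
import Fermat.Agent.Pack.S43MC.G0E4L2
import Fermat.Agent.Pack.S43MC.G0E18L2
import Fermat.Agent.Pack.S43MC.G0E18L0
import Fermat.Agent.Pack.S43MC.G0E15L1
import Fermat.Agent.Pack.S43MC.G0E15L0
import Fermat.Agent.Pack.S43MC.G0E13L1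
import Fermat.Agent.Pack.S43MC.G0E8L0
import Fermat.Agent.Pack.S43MC.G0E1L1
import Fermat.Agent.Pack.S43MC.G0E10L3
import Fermat.Agent.Pack.S43MC.G0E13L2
import Fermat.Agent.Pack.S43MC.G0E15L2
import Fermat.Agent.Pack.S43MC.G0E17L0
import Fermat.Agent.Pack.S43MC.G0E18L3
import Fermat.Agent.Pack.S43MC.G0E1L3
import Fermat.Agent.Pack.S43MC.G0E9L3
import Fermat.Agent.Pack.S43MC.G0E14L0
import Fermat.Agent.Pack.S44C.G0E6L0
import Fermat.Agent.Pack.S44C.G0E6L1
import Fermat.Agent.Pack.S44C.G0E10L2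
import Fermat.Agent.Pack.S44C.G0E19L3
import Fermat.Agent.Pack.S43MC.G0E17L1
import Fermat.Agent.Pack.S44C.G0E3L2
import Fermat.Agent.Pack.S44C.G0E12L2
import Fermat.Agent.Pack.S43MC.G0E5L2
import Fermat.Agent.Pack.S43MC.G0E5L1
import Fermat.Agent.Pack.S43GC.G0E15L3
import Fermat.Agent.Pack.S43GC.G0E11L1
import Fermat.Agent.Pack.S44C.G0E6L2
import Fermat.Agent.Pack.S43MC.G0E17L3
import Fermat.Agent.Pack.Fast891

-- ===== PACK-BEGIN A2/Alg/H754/PuritySmoothLeaf.lean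
section



/-!
# A2 / ALG leaf P-S (helper754): `puritySmoothLeaf : H34.PuritySmoothLeaf`

The leaf `Prop` of `Fermat/Agent/A2/Alg/H34/Asm.lean` (universe level `0`), from the
universe-polymorphic `H754.purity_smooth` (VERBATIM statement of `Alg/Skel.lean`).
-/

set_option autoImplicit false

namespace Fermat.Agent.A2.Alg.H754

/-- **Leaf P-S**, in the exact shape consumed by `H34.algSS_of_leaves`. -/
theorem puritySmoothLeaf : Fermat.Agent.A2.Alg.H34.PuritySmoothLeaf :=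
  fun q m hq hqR hm hqm w x B hB c hc u hu hdiv hs n hn hwn h1 =>
    purity_smooth q m hq hqR hm hqm w x B hB c hc u hu hdiv hs n hn hwn h1

end Fermat.Agent.A2.Alg.H754

end
-- ===== PACK-END A2/Alg/H754/PuritySmoothLeaf.lean

-- ===== PACK-BEGIN Lib/Newform/H743/DropQ.lean
section





/-!
# NEWFORM library (helper743), part 6: dropping a prime `q ∤ N`

Let `F` be cuspidal and `Γ₀(N)`-invariant, `q ∤ N` a prime, and assume
`F = B_q G₀ + ∑_{p ∈ s} B_p G_p` with `G₀` of level `N` and `G_p` of level `(N / p) q`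
(`p ∣ N`).  Then `a_n(F) = 0` for all `n` prime to `s`.

Proof: slash the identity with the Atkin–Lehner matrix `A = [q, b; N q, q d]`
(`q d - N b = 1`).  `F ∣ A = q^{k-1} B_q F`, `(B_q G₀) ∣ A = q⁻¹ G₀` and
`(B_p G_p) ∣ A = B_p (G_p ∣ A'_p)`.  Comparing coefficients prime to `s` in both identities gives
`a_n(G₀) = q^k a_{n / q²}(G₀)`, hence `a_n(G₀) = 0` by descent.
-/

set_option autoImplicit false

open UpperHalfPlane ModularForm Function Complex CongruenceSubgroup Matrix.SpecialLinearGroup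
open scoped MatrixGroups ModularForm Manifold Topology Real

namespace Fermat.Agent.Lib.Newform.H743

open Fermat.Agent.Lib.Newform.H803

noncomputable section

/-- An element of `SL(2, ℤ)` with prescribed entries. -/
def mkSL (a b c d : ℤ) (h : a * d - b * c = 1) : SL(2, ℤ) :=
  ⟨!![a, b; c, d], by rw [Matrix.det_fin_two_of]; exact h⟩

theorem val_mapGL_mkSL (a b c d : ℤ) (h : a * d - b * c = 1) :
    ((mapGL ℝ (mkSL a b c d h) : GL (Fin 2) ℝ) : Matrix (Fin 2) (Fin 2) ℝ) =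
      !![(a : ℝ), (b : ℝ); (c : ℝ), (d : ℝ)] := by
  rw [coe_mapGL_eq_of]
  rfl

theorem mkSL_mem_Gamma0 (N : ℕ) (a b c d : ℤ) (h : a * d - b * c = 1) (hc : (N : ℤ) ∣ c) :
    mkSL a b c d h ∈ Gamma0 N := by
  rw [Gamma0_mem, ZMod.intCast_zmod_eq_zero_iff_dvd]
  exact hc

/-- `A = γ * diag(q, 1)`. -/
theorem AL_eq_mul (q : ℕ) (hq : q ≠ 0) (N b d : ℤ) (h : (q : ℤ) * d - N * b = 1)
    (hA : (q : ℤ) * (q * d) - b * (N * q) ≠ 0) :
    intGL q b (N * q) (q * d) hA =
      mapGL ℝ (mkSL 1 b N (q * d) (by linear_combination h)) * heckeDiagMatrix q := by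
  apply Units.ext
  rw [Units.val_mul, val_intGL, val_mapGL_mkSL, val_heckeDiagMatrix hq, Matrix.mul_fin_two]
  congr 1
  ext i j
  fin_cases i <;> fin_cases j <;> simp <;> ring

/-- `diag(q, 1) * A = q • γ'`. -/
theorem diag_mul_AL (q : ℕ) (hq : q ≠ 0) (N b d : ℤ) (h : (q : ℤ) * d - N * b = 1)
    (hA : (q : ℤ) * (q * d) - b * (N * q) ≠ 0) :
    ((heckeDiagMatrix q * intGL q b (N * q) (q * d) hA : GL (Fin 2) ℝ) :
        Matrix (Fin 2) (Fin 2) ℝ) =
      (q : ℝ) • ((mapGL ℝ (mkSL q b N d (by linear_combination h)) : GL (Fin 2) ℝ) :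
        Matrix (Fin 2) (Fin 2) ℝ) := by
  rw [Units.val_mul, val_intGL, val_mapGL_mkSL, val_heckeDiagMatrix hq, Matrix.mul_fin_two]
  ext i j
  fin_cases i <;> fin_cases j <;> simp <;> ring

/-- `diag(p, 1) * A = A' * diag(p, 1)` for `N = p * N'`. -/
theorem diag_mul_AL_comm (q p : ℕ) (hp : p ≠ 0) (N' b d : ℤ)
    (hA : (q : ℤ) * (q * d) - b * ((p : ℤ) * N' * q) ≠ 0)
    (hA' : (q : ℤ) * (q * d) - (p * b) * (N' * q) ≠ 0) :
    heckeDiagMatrix p * intGL q b ((p : ℤ) * N' * q) (q * d) hA =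
      intGL q (p * b) (N' * q) (q * d) hA' * heckeDiagMatrix p := by
  apply Units.ext
  rw [Units.val_mul, Units.val_mul, val_intGL, val_intGL, val_heckeDiagMatrix hp,
    Matrix.mul_fin_two, Matrix.mul_fin_two]
  congr 1
  ext i j
  fin_cases i <;> fin_cases j <;> simp <;> ring

/-- `A' * T = δ * A'`. -/
theorem AL'_mul_T (q p : ℕ) (N' b d : ℤ) (h : (q : ℤ) * d - (p : ℤ) * N' * b = 1)
    (hA' : (q : ℤ) * (q * d) - (p * b) * (N' * q) ≠ 0) :
    intGL q (p * b) (N' * q) (q * d) hA' * mapGL ℝ (mkSL 1 1 0 1 (by ring)) =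
      mapGL ℝ (mkSL (1 - q * N') q (-(N' ^ 2 * q)) (1 + N' * q) (by ring)) *
        intGL q (p * b) (N' * q) (q * d) hA' := by
  have h' : (q : ℝ) * d - (p : ℝ) * N' * b = 1 := by exact_mod_cast h
  apply Units.ext
  rw [Units.val_mul, Units.val_mul, val_intGL, val_mapGL_mkSL, val_mapGL_mkSL,
    Matrix.mul_fin_two, Matrix.mul_fin_two]
  congr 1
  ext i j
  fin_cases i <;> fin_cases j
  · simp
    ring
  · simp
    linear_combination (-(q : ℝ)) * h'
  · simp
    ring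
  · simp
    linear_combination (-(N' : ℝ) * (q : ℝ)) * h'

/-- **Dropping a prime `q ∤ N`.** -/
theorem dropQ_coeff {k : ℤ} {N q : ℕ} (hq : q.Prime) (hqN : ¬ q ∣ N)
    (s : Finset ℕ) (N' : ℕ → ℕ) (hs : ∀ p ∈ s, p ≠ 0 ∧ N = p * N' p)
    {F : ℍ → ℂ} (hF : IsCuspidal k F) (hFinv : SlInv k (Gamma0 N) F)
    {G₀ : ℍ → ℂ} (hG₀ : IsCuspidal k G₀) (hG₀inv : SlInv k (Gamma0 N) G₀)
    {G : ℕ → ℍ → ℂ} (hG : ∀ p ∈ s, IsCuspidal k (G p) ∧ SlInv k (Gamma0 (N' p * q)) (G p))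
    (hsum : F = Bd q G₀ + ∑ p ∈ s, Bd p (G p)) :
    ∀ n : ℕ, (∀ p ∈ s, ¬ p ∣ n) → (qExpansion 1 F).coeff n = 0 := by
  classical
  have hq0 : q ≠ 0 := hq.ne_zero
  have hqC : (q : ℂ) ≠ 0 := by exact_mod_cast hq0
  -- Bezout
  have hcop : IsCoprime (q : ℤ) (N : ℤ) := by
    rw [Prime.coprime_iff_not_dvd (Nat.prime_iff_prime_int.mp hq)]
    exact_mod_cast hqN
  obtain ⟨d, b', hdb⟩ := hcop
  set b : ℤ := -b' with hb
  have hbez : (q : ℤ) * d - (N : ℤ) * b = 1 := by rw [hb]; linear_combination hdb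
  have hdetA : (q : ℤ) * (q * d) - b * ((N : ℤ) * q) = q := by linear_combination (q : ℤ) * hbez
  have hqZ : (q : ℤ) ≠ 0 := by exact_mod_cast hq0
  have hqpos : (0 : ℤ) < q := by exact_mod_cast hq.pos
  have hA : (q : ℤ) * (q * d) - b * ((N : ℤ) * q) ≠ 0 := by rw [hdetA]; exact hqZ
  set A : GL (Fin 2) ℝ := intGL q b ((N : ℤ) * q) (q * d) hA with hAdef
  have hσA : UpperHalfPlane.σ A = .refl ℝ ℂ := σ_intGL _ _ _ _ hA (by rw [hdetA]; exact hqpos)
  -- q-series
  have hperF := periodic_of_slInv_Gamma0 hFinv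
  have hperG₀ := periodic_of_slInv_Gamma0 hG₀inv
  have hQF := hasQ_of_isCuspidal hF hperF
  have hQG₀ := hasQ_of_isCuspidal hG₀ hperG₀
  have hQG : ∀ p ∈ s, HasQ (fun n => (qExpansion 1 (G p)).coeff n) (G p) := fun p hp =>
    hasQ_of_isCuspidal (hG p hp).1 (periodic_of_slInv_Gamma0 (hG p hp).2)
  -- the functions `H p = G p ∣ A'_p`
  have hA' : ∀ p : ℕ, N = p * N' p →
      (q : ℤ) * (q * d) - ((p : ℤ) * b) * ((N' p : ℤ) * q) ≠ 0 := by
    intro p hp
    have : ((N : ℤ)) = p * N' p := by exact_mod_cast hp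
    have e : (q : ℤ) * (q * d) - ((p : ℤ) * b) * ((N' p : ℤ) * q) = q := by
      rw [this] at hbez
      linear_combination (q : ℤ) * hbez
    rw [e]; exact hqZ
  let H : ℕ → ℍ → ℂ := fun p =>
    if hp : N = p * N' p then G p ∣[k] intGL q (p * b) ((N' p : ℤ) * q) (q * d) (hA' p hp) else 0
  have hHdef : ∀ p (hp : N = p * N' p),
      H p = G p ∣[k] intGL q (p * b) ((N' p : ℤ) * q) (q * d) (hA' p hp) := by
    intro p hp
    simp only [H, dif_pos hp]
  have hHcusp : ∀ p ∈ s, IsCuspidal k (H p) := by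
    intro p hp
    rw [hHdef p (hs p hp).2]
    exact isCuspidal_slash_intGL (hG p hp).1 _ _ _ _ _
  have hHper : ∀ p ∈ s, Periodic (H p ∘ ofComplex) (1 : ℝ) := by
    intro p hp
    have hpN := (hs p hp).2
    have hpNZ : ((N : ℤ)) = p * N' p := by exact_mod_cast hpN
    apply periodic_of_slash_T (k := k)
    rw [hHdef p hpN]
    have hbez' : (q : ℤ) * d - (p : ℤ) * (N' p : ℤ) * b = 1 := by rw [← hpNZ]; exact hbez
    have hT : ModularGroup.T = mkSL 1 1 0 1 (by ring) := by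
      ext i j
      fin_cases i <;> fin_cases j <;> rfl
    rw [sl_slash_mapGL, hT]
    have hcomm := AL'_mul_T q p (N' p) b d hbez' (hA' p hpN)
    rw [← SlashAction.slash_mul, hcomm, SlashAction.slash_mul]
    congr 1
    have hmem : mkSL (1 - q * (N' p : ℤ)) q (-((N' p : ℤ) ^ 2 * q)) (1 + (N' p : ℤ) * q)
        (by ring) ∈ Gamma0 (N' p * q) := by
      apply mkSL_mem_Gamma0
      refine ⟨-(N' p : ℤ), ?_⟩
      push_cast
      ring
    have := (hG p hp).2 _ hmem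
    rw [sl_slash_mapGL] at this
    exact this
  have hQH : ∀ p ∈ s, HasQ (fun n => (qExpansion 1 (H p)).coeff n) (H p) := fun p hp =>
    hasQ_of_isCuspidal (hHcusp p hp) (hHper p hp)
  -- first identity of coefficients
  have hQ1 : HasQ (fun n => (if q ∣ n then (qExpansion 1 G₀).coeff (n / q) else 0) +
      ∑ p ∈ s, if p ∣ n then (qExpansion 1 (G p)).coeff (n / p) else 0) F := by
    rw [hsum]
    exact (hQG₀.Bd hq0).add (HasQ.sum s fun p hp => (hQG p hp).Bd (hs p hp).1)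
  have hc1 : ∀ n : ℕ, (∀ p ∈ s, ¬ p ∣ n) →
      (qExpansion 1 F).coeff n = if q ∣ n then (qExpansion 1 G₀).coeff (n / q) else 0 := by
    intro n hn
    rw [hQF.unique hQ1 n]
    rw [Finset.sum_eq_zero (fun p hp => if_neg (hn p hp)), add_zero]
  -- second identity: slash with `A`
  have hFA : F ∣[k] A = ((q : ℂ) ^ (k - 1)) • Bd q F := by
    rw [hAdef, AL_eq_mul q hq0 N b d hbez hA, SlashAction.slash_mul]
    have hγ : mkSL 1 b N (q * d) (by linear_combination hbez) ∈ Gamma0 N :=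
      mkSL_mem_Gamma0 N _ _ _ _ _ (dvd_refl _)
    have := hFinv _ hγ
    rw [sl_slash_mapGL] at this
    rw [this, slash_heckeDiagMatrix_eq_smul_Bd k hq0]
  have hG₀A : (Bd q G₀) ∣[k] A = (((q : ℂ) ^ (k - 1))⁻¹ * (q : ℂ) ^ (k - 2)) • G₀ := by
    rw [Bd_eq_smul_slash k hq0 G₀, smul_slash_of_σ A hσA, ← SlashAction.slash_mul]
    have hγ' : mkSL q b N d (by linear_combination hbez) ∈ Gamma0 N :=
      mkSL_mem_Gamma0 N _ _ _ _ _ (dvd_refl _)
    rw [Fermat.Agent.Lib.Newform.H623.slash_eq_of_val_eq_smul k G₀ _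
      (mapGL ℝ (mkSL q b N d (by linear_combination hbez))) q hq0
      (diag_mul_AL q hq0 N b d hbez hA)]
    have := hG₀inv _ hγ'
    rw [sl_slash_mapGL] at this
    rw [this, smul_smul]
  have hGpA : ∀ p ∈ s, (Bd p (G p)) ∣[k] A = Bd p (H p) := by
    intro p hp
    have hpN := (hs p hp).2
    have hpNZ : ((N : ℤ)) = p * N' p := by exact_mod_cast hpN
    rw [hHdef p hpN]
    refine Bd_slash_of_comm k (hs p hp).1 A _ hσA ?_ (G p)
    have hA2 : (q : ℤ) * (q * d) - b * ((p : ℤ) * (N' p : ℤ) * q) ≠ 0 := by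
      rw [← hpNZ]; exact hA
    have h1 := diag_mul_AL_comm q p (hs p hp).1 (N' p) b d hA2 (hA' p hpN)
    have h2 : A = intGL q b ((p : ℤ) * (N' p : ℤ) * q) (q * d) hA2 := by
      rw [hAdef]
      congr 1
      rw [hpNZ]
    rw [h2]
    exact h1
  have hsumA : ((q : ℂ) ^ (k - 1)) • Bd q F =
      (((q : ℂ) ^ (k - 1))⁻¹ * (q : ℂ) ^ (k - 2)) • G₀ + ∑ p ∈ s, Bd p (H p) := by
    rw [← hFA]
    conv_lhs => rw [hsum]
    rw [SlashAction.add_slash, SlashAction.sum_slash, hG₀A]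
    congr 1
    exact Finset.sum_congr rfl hGpA
  have hQ2L := (hQF.Bd hq0).smul ((q : ℂ) ^ (k - 1))
  have hQ2R : HasQ (fun n => (((q : ℂ) ^ (k - 1))⁻¹ * (q : ℂ) ^ (k - 2)) *
      (qExpansion 1 G₀).coeff n +
      ∑ p ∈ s, if p ∣ n then (qExpansion 1 (H p)).coeff (n / p) else 0)
      (((q : ℂ) ^ (k - 1)) • Bd q F) := by
    rw [hsumA]
    exact (hQG₀.smul _).add (HasQ.sum s fun p hp => (hQH p hp).Bd (hs p hp).1)
  have hC : (((q : ℂ) ^ (k - 1))⁻¹ * (q : ℂ) ^ (k - 2)) ≠ 0 :=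
    mul_ne_zero (inv_ne_zero (zpow_ne_zero _ hqC)) (zpow_ne_zero _ hqC)
  have hc2 : ∀ n : ℕ, (∀ p ∈ s, ¬ p ∣ n) → ¬ q ^ 2 ∣ n → (qExpansion 1 G₀).coeff n = 0 := by
    intro n hn hq2
    have h1 := hQ2L.unique hQ2R n
    rw [Finset.sum_eq_zero (fun p hp => if_neg (hn p hp)), add_zero] at h1
    have h2 : (if q ∣ n then (qExpansion 1 F).coeff (n / q) else 0) = 0 := by
      split_ifs with hqn
      · obtain ⟨m, rfl⟩ := hqn
        rw [Nat.mul_div_cancel_left m hq.pos]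
        have hm : ∀ p ∈ s, ¬ p ∣ m := fun p hp hpm => hn p hp (hpm.mul_left q)
        rw [hc1 m hm, if_neg]
        intro hqm
        apply hq2
        obtain ⟨m', rfl⟩ := hqm
        exact ⟨m', by ring⟩
      · rfl
    rw [h2, mul_zero] at h1
    rcases mul_eq_zero.mp h1.symm with h3 | h3
    · exact absurd h3 hC
    · exact h3
  have hc3 : ∀ n : ℕ, (∀ p ∈ s, ¬ p ∣ n) → (qExpansion 1 G₀).coeff (q ^ 2 * n) =
      ((((q : ℂ) ^ (k - 1))⁻¹ * (q : ℂ) ^ (k - 2))⁻¹ * (q : ℂ) ^ (k - 1)) *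
        (qExpansion 1 G₀).coeff n := by
    intro n hn
    have hn2 : ∀ p ∈ s, ¬ p ∣ q ^ 2 * n := by
      intro p hp hpn
      have hpN := (hs p hp).2
      have hpq : Nat.Coprime p q := by
        rw [Nat.coprime_comm, Nat.Prime.coprime_iff_not_dvd hq]
        intro hqp
        exact hqN (hpN ▸ hqp.mul_right _)
      exact hn p hp ((hpq.pow_right 2).dvd_of_dvd_mul_left hpn)
    have h1 := hQ2L.unique hQ2R (q ^ 2 * n)
    rw [Finset.sum_eq_zero (fun p hp => if_neg (hn2 p hp)), add_zero] at h1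
    have hdiv : q ∣ q ^ 2 * n := ⟨q * n, by ring⟩
    rw [if_pos hdiv] at h1
    have e1 : q ^ 2 * n / q = q * n := by
      rw [show q ^ 2 * n = q * (q * n) by ring, Nat.mul_div_cancel_left _ hq.pos]
    rw [e1] at h1
    have hn1 : ∀ p ∈ s, ¬ p ∣ q * n := by
      intro p hp hpn
      exact hn2 p hp (by rw [show q ^ 2 * n = q * (q * n) by ring]; exact hpn.mul_left q)
    rw [hc1 (q * n) hn1, if_pos (dvd_mul_right q n), Nat.mul_div_cancel_left _ hq.pos] at h1
    rw [mul_assoc, h1, ← mul_assoc, inv_mul_cancel₀ hC, one_mul]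
  -- descent
  have hG₀zero : ∀ n : ℕ, (∀ p ∈ s, ¬ p ∣ n) → (qExpansion 1 G₀).coeff n = 0 := by
    intro n
    induction n using Nat.strong_induction_on with
    | _ n ih =>
      intro hn
      by_cases hq2 : q ^ 2 ∣ n
      · obtain ⟨m, rfl⟩ := hq2
        rcases Nat.eq_zero_or_pos m with rfl | hm
        · rw [mul_zero]
          exact qExpansion_coeff_zero_of_isCuspidal hG₀ hperG₀
        · have hm' : ∀ p ∈ s, ¬ p ∣ m := fun p hp hpm => hn p hp (hpm.mul_left _)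
          have hlt : m < q ^ 2 * m := by
            have : 1 < q ^ 2 := Nat.one_lt_pow (by norm_num) hq.one_lt
            nlinarith
          rw [hc3 m hm', ih m hlt hm', mul_zero]
      · exact hc2 n hn hq2
  intro n hn
  rw [hc1 n hn]
  split_ifs with hqn
  · apply hG₀zero
    intro p hp hpn
    exact hn p hp (hpn.trans (Nat.div_dvd_of_dvd hqn))
  · rfl

end

end Fermat.Agent.Lib.Newform.H743

end
-- ===== PACK-END Lib/Newform/H743/DropQ.lean

-- ===== PACK-BEGIN S25/H927/AbAlgAA2.lean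
section
/-
S25 / block ABEL, sub-block AB-ALG (skeleton of helper747), helper927.

**AA2** `abelDatum_isBC` : exact statement of `H747/Skel/AbAlgSkel.lean`, no extra hypotheses;
`stmtAA2 : H747.StmtAA2 k B₀ B₁ B₀₁` (the input of `H747.algAbel_of_leaves`).
Inputs: AA1 `H747.tupCartier`, C5 `H147.ptI₀_map`/`ptI₁_map`, and G3/G4/G6 of this directory.
-/





set_option autoImplicit false
universe u
open scoped TensorProduct

namespace Fermat.Agent.S25.H927

open Fermat.Agent.S25 Fermat.Agent.S25.H747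

variable {k : Type u} [Field k] [IsAlgClosed k]
  {B₀ B₁ B₀₁ : Type u} [CommRing B₀] [CommRing B₁] [CommRing B₀₁]
  [Algebra k B₀] [Algebra k B₁] [Algebra k B₀₁] [Algebra B₀ B₀₁] [Algebra B₁ B₀₁]
  [IsScalarTower k B₀ B₀₁] [IsScalarTower k B₁ B₀₁]
  {x : B₀} {y : B₁} {e : B₁ →ₐ[k] k}

/-- **AA2.** Compatibility of the algebraic Abel datum with base change.
(Exact statement of `H747.Skel.abelDatum_isBC`.) -/
theorem abelDatum_isBC (hC : IsCurveChart k B₀ B₁ B₀₁ x y e) (g : ℕ)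
    (A A' : Type u) [CommRing A] [Algebra k A] [CommRing A'] [Algebra k A']
    (ψ : A →ₐ[k] A') (P : Fin g → H746.ChartPt k B₀ B₁ A) :
    CurveGD.IsBC ψ (abelDatum (B₀₁ := B₀₁) e g A P)
      (abelDatum (B₀₁ := B₀₁) e g A' (fun i => (P i).map ψ)) :=
  abelDatum_isBC_of e (fun A _ _ _ P => H747.tupCartier hC A P)
    (fun ψ P => H147.ptI₀_map hC ψ P) (fun ψ P => H147.ptI₁_map hC ψ P) g A A' ψ P

/-- Leaf AA2 in the form consumed by `H747.algAbel_of_leaves`. -/
theorem stmtAA2 : H747.StmtAA2 k B₀ B₁ B₀₁ :=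
  fun _ _ _ hC g A A' _ _ _ _ ψ P => abelDatum_isBC hC g A A' ψ P

end Fermat.Agent.S25.H927

end
-- ===== PACK-END S25/H927/AbAlgAA2.lean

-- ===== PACK-BEGIN S25/H206/SurjMain.lean
section
/-
S25 / block ABEL / AB-ALG leaf AA6 (helper206): every gluing datum of degree `0` over an
algebraically closed field is in the algebraic Abel family (`H747.StmtAA6`), from
* D3-a (`euler_eq_of_injective`), D6-a/b (`finrank_H0_unit`, `finrank_H1_unit`) of the block
  DEGREE, as hypotheses in their frozen form (`H10/DegreeSkel.lean`);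
* PTS (helper627, private copy `H206/SurjPts.lean`), AA1 (`H747.tupCartier`).
-/






set_option autoImplicit false
set_option linter.style.haveILetI false
set_option linter.unusedSectionVars false

universe u

open scoped TensorProduct
open Module

namespace Fermat.Agent.S25.H206

open Fermat.Agent.S25

noncomputable section

variable {k : Type u} [Field k]
  {B₀ B₁ B₀₁ : Type u} [CommRing B₀] [CommRing B₁] [CommRing B₀₁]
  [Algebra k B₀] [Algebra k B₁] [Algebra k B₀₁] [Algebra B₀ B₀₁] [Algebra B₁ B₀₁]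
  [IsScalarTower k B₀ B₀₁] [IsScalarTower k B₁ B₀₁]

/-! ### Hypotheses from the block DEGREE, in frozen form -/

variable (k B₀ B₁ B₀₁) in
/-- D3-a (`H10/DegreeSkel.lean`, `euler_eq_of_injective`). -/
def HypEulerInj : Prop :=
  ∀ {x : B₀} {y : B₁} {e : B₁ →ₐ[k] k} (_ : IsCurveChart k B₀ B₁ B₀₁ x y e) {K : Type u}
    [Field K] [Algebra k K] {G G' : CurveGD k B₀ B₁ B₀₁ K} (f : H10.GDHom G G')
    (_ : f.Injective) (_ : Module.Finite K (G'.N₀ ⧸ LinearMap.range f.f₀))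
    (_ : Module.Finite K (G'.N₁ ⧸ LinearMap.range f.f₁)),
    G'.euler = G.euler + Module.finrank K (G'.N₀ ⧸ LinearMap.range f.f₀)
      + Module.finrank K (G'.N₁ ⧸ LinearMap.range f.f₁)
      - Module.finrank K (G'.N₀₁ ⧸ LinearMap.range f.f₀₁)

variable (k B₀ B₁ B₀₁) in
/-- D6-a (`finrank_H0_unit`). -/
def HypH0Unit : Prop :=
  ∀ {x : B₀} {y : B₁} {e : B₁ →ₐ[k] k} (_ : IsCurveChart k B₀ B₁ B₀₁ x y e) (K : Type u)
    [Field K] [Algebra k K],
    Module.finrank K (GlueDatum.unit K (K ⊗[k] B₀) (K ⊗[k] B₁) (K ⊗[k] B₀₁)).H0 = 1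

variable (k B₀ B₁ B₀₁) in
/-- D6-b (`finrank_H1_unit`). -/
def HypH1Unit : Prop :=
  ∀ {x : B₀} {y : B₁} {e : B₁ →ₐ[k] k} (_ : IsCurveChart k B₀ B₁ B₀₁ x y e) (K : Type u)
    [Field K] [Algebra k K],
    Module.finrank K (GlueDatum.unit K (K ⊗[k] B₀) (K ⊗[k] B₁) (K ⊗[k] B₀₁)).H1 =
      H10.genus k B₀ B₁ B₀₁

/-! ### Points -/

section Points

variable {K : Type u} [Field K] [Algebra k K] {B : Type u} [CommRing B] [Algebra k B]

/-- The `k`-point of `Spec B` with values in `K` underlying a `K`-point of `Spec (K ⊗ B)`. -/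
def ptOfAlgHom (ψ : K ⊗[k] B →ₐ[K] K) : B →ₐ[k] K :=
  (ψ.restrictScalars k).comp (Algebra.TensorProduct.includeRight (R := k) (A := K) (B := B))

theorem evalHom_ptOfAlgHom (ψ : K ⊗[k] B →ₐ[K] K) : H747.evalHom (ptOfAlgHom ψ) = ψ := by
  apply Algebra.TensorProduct.ext'
  intro a b
  rw [H747.evalHom_tmul]
  show a * ψ ((1 : K) ⊗ₜ[k] b) = ψ (a ⊗ₜ[k] b)
  have : a ⊗ₜ[k] b = a • ((1 : K) ⊗ₜ[k] b) := by
    rw [TensorProduct.smul_tmul', smul_eq_mul, mul_one]
  rw [this, map_smul, smul_eq_mul]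

theorem graphIdeal_ptOfAlgHom (ψ : K ⊗[k] B →ₐ[K] K) :
    H747.graphIdeal (ptOfAlgHom ψ) = RingHom.ker ψ := by
  unfold H747.graphIdeal
  rw [evalHom_ptOfAlgHom]

end Points

section ChartPoints

variable {K : Type u} [Field K] [Algebra k K]

/-- Conversion of chart points. -/
def chartPtOf (P : (K ⊗[k] B₀ →ₐ[K] K) ⊕ (K ⊗[k] B₁ →ₐ[K] K)) : H746.ChartPt k B₀ B₁ K :=
  Sum.map ptOfAlgHom ptOfAlgHom P

theorem ptI₀_chartPtOf (P : (K ⊗[k] B₀ →ₐ[K] K) ⊕ (K ⊗[k] B₁ →ₐ[K] K)) :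
    H747.ptI₀ B₀₁ (chartPtOf P) = Pts.ptIdeal₀ (K ⊗[k] B₀₁) P := by
  rcases P with ψ | ψ
  · exact graphIdeal_ptOfAlgHom ψ
  · show Ideal.comap _ (Ideal.map _ (H747.graphIdeal (ptOfAlgHom ψ))) = _
    rw [graphIdeal_ptOfAlgHom]
    rfl

theorem ptI₁_chartPtOf (P : (K ⊗[k] B₀ →ₐ[K] K) ⊕ (K ⊗[k] B₁ →ₐ[K] K)) :
    H747.ptI₁ B₀₁ (chartPtOf P) = Pts.ptIdeal₁ (K ⊗[k] B₀₁) P := by
  rcases P with ψ | ψ
  · show Ideal.comap _ (Ideal.map _ (H747.graphIdeal (ptOfAlgHom ψ))) = _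
    rw [graphIdeal_ptOfAlgHom]
    rfl
  · exact graphIdeal_ptOfAlgHom ψ

end ChartPoints

/-! ### The rings `K ⊗ Bᵢ` -/

section Rings

variable [IsAlgClosed k] {x : B₀} {y : B₁} {e : B₁ →ₐ[k] k}
  (hC : IsCurveChart k B₀ B₁ B₀₁ x y e) (K : Type u) [Field K] [Algebra k K]

include hC

theorem away₀ : IsLocalization.Away ((1 : K) ⊗ₜ[k] x) (K ⊗[k] B₀₁) :=
  haveI := hC.away₀
  H747.isLocalization_away_tensor (k := k) K B₀ B₀₁ x

theorem away₁ : IsLocalization.Away ((1 : K) ⊗ₜ[k] y) (K ⊗[k] B₀₁) :=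
  haveI := hC.away₁
  H747.isLocalization_away_tensor (k := k) K B₁ B₀₁ y

theorem one_tmul_x_ne_zero : ((1 : K) ⊗ₜ[k] x : K ⊗[k] B₀) ≠ 0 := by
  intro h
  have h1 := H747.chart_mul_eq_one hC K
  rw [h, map_zero, zero_mul] at h1
  haveI := H207.isDomain_tensor_chart₀₁ hC K
  exact zero_ne_one h1

theorem powers_le₀ :
    Submonoid.powers ((1 : K) ⊗ₜ[k] x : K ⊗[k] B₀) ≤ nonZeroDivisors (K ⊗[k] B₀) := by
  haveI := H207.isDedekindDomain_tensor_chart₀ hC K
  exact powers_le_nonZeroDivisors_of_noZeroDivisors (one_tmul_x_ne_zero hC K)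

theorem dedekind₀₁ : IsDedekindDomain (K ⊗[k] B₀₁) := by
  haveI := H207.isDedekindDomain_tensor_chart₀ hC K
  haveI := H207.isDomain_tensor_chart₀₁ hC K
  haveI := away₀ hC K
  exact IsLocalization.isDedekindDomain (K ⊗[k] B₀) (powers_le₀ hC K) (K ⊗[k] B₀₁)

theorem finiteType₀₁ : Algebra.FiniteType K (K ⊗[k] B₀₁) := by
  haveI := hC.away₀
  haveI := H207.finiteType_chart₀ hC
  haveI : Algebra.FiniteType B₀ B₀₁ :=
    IsLocalization.finiteType_of_monoid_fg (Submonoid.powers x) B₀₁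
  haveI : Algebra.FiniteType k B₀₁ := Algebra.FiniteType.trans (S := B₀) inferInstance inferInstance
  infer_instance

theorem injective₀ : Function.Injective (algebraMap (K ⊗[k] B₀) (K ⊗[k] B₀₁)) :=
  H747.algebraMap_tensor_injective K B₀ B₀₁ (H747.chart_injective₀ hC)

theorem injective₁ : Function.Injective (algebraMap (K ⊗[k] B₁) (K ⊗[k] B₀₁)) :=
  H747.algebraMap_tensor_injective K B₁ B₀₁ (H747.chart_injective₁ hC)

end Rings

/-! ### The ideals of the marked point -/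

section Eps

variable [IsAlgClosed k] {x : B₀} {y : B₁} {e : B₁ →ₐ[k] k}
  (hC : IsCurveChart k B₀ B₁ B₀₁ x y e) (K : Type u) [Field K] [Algebra k K]

/-- The maximal ideal of the marked point on `Spec (K ⊗ B₁)`. -/
abbrev epsIdeal (e : B₁ →ₐ[k] k) (K : Type u) [Field K] [Algebra k K] : Ideal (K ⊗[k] B₁) :=
  H747.graphIdeal ((Algebra.ofId k K).comp e)

theorem ptI₁_epsPt' (e : B₁ →ₐ[k] k) (K : Type u) [Field K] [Algebra k K] :
    H747.ptI₁ B₀₁ (H747.epsPt B₀ e K) = epsIdeal e K := rfl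

theorem tupI₁_eps (e : B₁ →ₐ[k] k) (K : Type u) [Field K] [Algebra k K] (g : ℕ) :
    H747.tupI₁ B₀₁ (fun _ : Fin g => H747.epsPt B₀ e K) = epsIdeal e K ^ g := by
  unfold H747.tupI₁
  simp only [ptI₁_epsPt', Finset.prod_const, Finset.card_univ, Fintype.card_fin]

theorem epsIdeal_isMaximal (e : B₁ →ₐ[k] k) (K : Type u) [Field K] [Algebra k K] :
    (epsIdeal (B₁ := B₁) e K).IsMaximal :=
  RingHom.ker_isMaximal_of_surjective _ (H747.evalHom_surjective _)

include hC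

theorem one_tmul_y_mem : (1 : K) ⊗ₜ[k] y ∈ epsIdeal (B₁ := B₁) e K := by
  show H747.evalHom _ _ = 0
  rw [H747.evalHom_tmul]
  simp [hC.e_y]

theorem ptI₀₁_epsPt : H747.ptI₀₁ B₀₁ (H747.epsPt B₀ e K) = ⊤ := by
  apply Ideal.eq_top_of_isUnit_mem _ (Ideal.mem_map_of_mem _ (one_tmul_y_mem hC K))
  exact IsUnit.of_mul_eq_one _ (H747.chart_mul_eq_one' hC K)

theorem ptI₀_epsPt : H747.ptI₀ B₀₁ (H747.epsPt B₀ e K) = ⊤ := by
  show Ideal.comap _ (H747.ptI₀₁ B₀₁ (H747.epsPt B₀ e K)) = ⊤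
  rw [ptI₀₁_epsPt hC K, Ideal.comap_top]

theorem tupI₀_eps (g : ℕ) : H747.tupI₀ B₀₁ (fun _ : Fin g => H747.epsPt B₀ e K) = ⊤ := by
  unfold H747.tupI₀
  simp only [ptI₀_epsPt hC K, Finset.prod_const, Ideal.top_pow]

theorem tupI₀₁_eps (g : ℕ) : H747.tupI₀₁ B₀₁ (fun _ : Fin g => H747.epsPt B₀ e K) = ⊤ := by
  unfold H747.tupI₀₁
  simp only [ptI₀₁_epsPt hC K, Finset.prod_const, Ideal.top_pow]

theorem epsIdeal_ne_bot : epsIdeal (B₁ := B₁) e K ≠ ⊥ := by
  haveI := H207.isDedekindDomain_tensor_chart₁ hC K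
  exact Ring.ne_bot_of_isMaximal_of_not_isField (epsIdeal_isMaximal (B₁ := B₁) e K)
    (H207.not_isField_tensor_chart₁ hC K)

theorem finrank_quotient_epsIdeal_pow [IsAlgClosed K] (g : ℕ) :
    Module.Finite K ((K ⊗[k] B₁) ⧸ epsIdeal e K ^ g) ∧
      finrank K ((K ⊗[k] B₁) ⧸ epsIdeal e K ^ g) = g := by
  haveI := H207.isDedekindDomain_tensor_chart₁ hC K
  haveI := H207.finiteType_chart₁ hC
  haveI := epsIdeal_isMaximal (B₁ := B₁) e K
  induction g with
  | zero =>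
    rw [pow_zero, Ideal.one_eq_top]
    exact ⟨inferInstance, Pts.finrank_quotient_top⟩
  | succ n ih =>
    have hne : epsIdeal (B₁ := B₁) e K ^ n ≠ ⊥ := pow_ne_zero n (epsIdeal_ne_bot hC K)
    rw [pow_succ']
    refine ⟨Pts.finite_quotient_of_ne_bot _ (mul_ne_zero (epsIdeal_ne_bot hC K) hne), ?_⟩
    rw [Pts.finrank_quotient_mul _ _ hne, ih.2]

end Eps

/-! ### Euler characteristics -/

section Euler

variable [IsAlgClosed k] {x : B₀} {y : B₁} {e : B₁ →ₐ[k] k}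
  (hC : IsCurveChart k B₀ B₁ B₀₁ x y e) (hD : HypEulerInj k B₀ B₁ B₀₁)
  {K : Type u} [Field K] [Algebra k K]

/-- The number of points (with multiplicity) of an ideal triple. -/
def chartCount (I₀ : Ideal (K ⊗[k] B₀)) (I₁ : Ideal (K ⊗[k] B₁)) (I₀₁ : Ideal (K ⊗[k] B₀₁)) :
    ℤ :=
  finrank K ((K ⊗[k] B₀) ⧸ I₀) + finrank K ((K ⊗[k] B₁) ⧸ I₁)
    - finrank K ((K ⊗[k] B₀₁) ⧸ I₀₁)

omit [IsAlgClosed k] [IsScalarTower k B₀ B₀₁] [IsScalarTower k B₁ B₀₁] [Algebra B₁ B₀₁]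
  [Algebra B₀ B₀₁] in
theorem ideal_smul_top {R : Type*} [CommRing R] (I : Ideal R) :
    I = I • (⊤ : Submodule R R) := by
  rw [smul_eq_mul, Ideal.mul_top]

include hC hD

/-- `χ(ℋom(O(-D), G)) = χ(G) + deg D`. -/
theorem euler_homDatum_ofIdeals {I₀ : Ideal (K ⊗[k] B₀)} {I₁ : Ideal (K ⊗[k] B₁)}
    {I₀₁ : Ideal (K ⊗[k] B₀₁)} (hI : H747.IsCartierTriple I₀ I₁ I₀₁)
    [Module.Finite K ((K ⊗[k] B₀) ⧸ I₀)] [Module.Finite K ((K ⊗[k] B₁) ⧸ I₁)]
    [Module.Finite K ((K ⊗[k] B₀₁) ⧸ I₀₁)] (G : CurveGD k B₀ B₁ B₀₁ K) :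
    (H747.homDatum (H747.ofIdeals K hI) G).euler = G.euler + chartCount I₀ I₁ I₀₁ := by
  haveI := H207.isDedekindDomain_tensor_chart₀ hC K
  haveI := H207.isDedekindDomain_tensor_chart₁ hC K
  haveI := (H747.homDatum (H747.ofIdeals K hI) G).invertible₀
  haveI := (H747.homDatum (H747.ofIdeals K hI) G).invertible₁
  haveI := invertible_N₀₁ (H747.homDatum (H747.ofIdeals K hI) G)
  have h := hD hC (smulHom hI G) (smulHom_injective hI G)
    (finite_quotient_of_eq (K := K) I₀ _ _ (range_smulHom_f₀ hI G))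
    (finite_quotient_of_eq (K := K) I₁ _ _ (range_smulHom_f₁ hI G))
  rw [finrank_quotient_of_eq (K := K) I₀ _ _ (range_smulHom_f₀ hI G),
    finrank_quotient_of_eq (K := K) I₁ _ _ (range_smulHom_f₁ hI G),
    finrank_quotient_of_eq (K := K) I₀₁ _ _ (range_smulHom_f₀₁ hI G)] at h
  rw [h, chartCount]
  ring

/-- `χ(O) = χ(O(-D)) + deg D`. -/
theorem euler_unit_ofIdeals {I₀ : Ideal (K ⊗[k] B₀)} {I₁ : Ideal (K ⊗[k] B₁)}
    {I₀₁ : Ideal (K ⊗[k] B₀₁)} (hI : H747.IsCartierTriple I₀ I₁ I₀₁)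
    [Module.Finite K ((K ⊗[k] B₀) ⧸ I₀)] [Module.Finite K ((K ⊗[k] B₁) ⧸ I₁)]
    [Module.Finite K ((K ⊗[k] B₀₁) ⧸ I₀₁)] :
    (GlueDatum.unit K (K ⊗[k] B₀) (K ⊗[k] B₁) (K ⊗[k] B₀₁)).euler =
      (H747.ofIdeals K hI).euler + chartCount I₀ I₁ I₀₁ := by
  have e₀ : LinearMap.range (inclHom (A := K) hI).f₀ = I₀ • ⊤ :=
    (range_inclHom_f₀ hI).trans (ideal_smul_top I₀)
  have e₁ : LinearMap.range (inclHom (A := K) hI).f₁ = I₁ • ⊤ :=
    (range_inclHom_f₁ hI).trans (ideal_smul_top I₁)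
  have e₀₁ : LinearMap.range (inclHom (A := K) hI).f₀₁ = I₀₁ • ⊤ :=
    (range_inclHom_f₀₁ hI).trans (ideal_smul_top I₀₁)
  haveI := (GlueDatum.unit K (K ⊗[k] B₀) (K ⊗[k] B₁) (K ⊗[k] B₀₁)).invertible₀
  haveI := (GlueDatum.unit K (K ⊗[k] B₀) (K ⊗[k] B₁) (K ⊗[k] B₀₁)).invertible₁
  haveI := invertible_N₀₁ (GlueDatum.unit K (K ⊗[k] B₀) (K ⊗[k] B₁) (K ⊗[k] B₀₁))
  have h := hD hC (inclHom (A := K) hI) (inclHom_injective hI)
    (finite_quotient_of_eq (K := K) I₀ _ _ e₀)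
    (finite_quotient_of_eq (K := K) I₁ _ _ e₁)
  rw [finrank_quotient_of_eq (K := K) I₀ _ _ e₀,
    finrank_quotient_of_eq (K := K) I₁ _ _ e₁,
    finrank_quotient_of_eq (K := K) I₀₁ _ _ e₀₁] at h
  rw [h, chartCount]
  ring

/-- `χ(G) = χ(E) + deg (div s)` for an injective morphism `s : E → G`. -/
theorem euler_of_div {E G : CurveGD k B₀ B₁ B₀₁ K} (s : H10.GDHom E G)
    (hs : s.Injective)
    [Module.Finite K ((K ⊗[k] B₀) ⧸ (LinearMap.range (divC₀ s) : Ideal (K ⊗[k] B₀)))]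
    [Module.Finite K ((K ⊗[k] B₁) ⧸ (LinearMap.range (divC₁ s) : Ideal (K ⊗[k] B₁)))]
    [Module.Finite K ((K ⊗[k] B₀₁) ⧸ (LinearMap.range (divC₀₁ s) : Ideal (K ⊗[k] B₀₁)))] :
    G.euler = E.euler + chartCount (LinearMap.range (divC₀ s) : Ideal (K ⊗[k] B₀))
      (LinearMap.range (divC₁ s) : Ideal (K ⊗[k] B₁))
      (LinearMap.range (divC₀₁ s) : Ideal (K ⊗[k] B₀₁)) := by
  haveI := H207.isDedekindDomain_tensor_chart₀ hC K
  haveI := H207.isDedekindDomain_tensor_chart₁ hC K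
  haveI := H207.isDomain_tensor_chart₀₁ hC K
  haveI := G.invertible₀
  haveI := G.invertible₁
  haveI := invertible_N₀₁ G
  have h := hD hC s hs
    (finite_quotient_of_eq (K := K) _ _ _ (range_f₀_eq s))
    (finite_quotient_of_eq (K := K) _ _ _ (range_f₁_eq s))
  rw [finrank_quotient_of_eq (K := K) _ _ _ (range_f₀_eq s),
    finrank_quotient_of_eq (K := K) _ _ _ (range_f₁_eq s),
    finrank_quotient_of_eq (K := K) _ _ _ (range_f₀₁_eq s)] at h
  rw [h, chartCount]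
  ring

end Euler

/-! ### The main theorem -/

section Main

variable [IsAlgClosed k]

/-- **AA6** (`H747.StmtAA6`) from the DEGREE leaves D3-a, D6-a, D6-b: over an algebraically
closed field every gluing datum of degree `0` is isomorphic to `O(Σ Pᵢ - g ε)` for a `g`-tuple
of chart points. -/
theorem stmtAA6_of (hD : HypEulerInj k B₀ B₁ B₀₁) (hH0 : HypH0Unit k B₀ B₁ B₀₁)
    (hH1 : HypH1Unit k B₀ B₁ B₀₁) : H747.StmtAA6 k B₀ B₁ B₀₁ := by
  intro x y e hC K _ _ _ G hG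
  haveI := H207.isDedekindDomain_tensor_chart₀ hC K
  haveI := H207.isDedekindDomain_tensor_chart₁ hC K
  haveI := dedekind₀₁ hC K
  haveI := finiteType₀₁ hC K
  haveI := H207.finiteType_chart₀ hC
  haveI := H207.finiteType_chart₁ hC
  haveI := away₀ hC K
  haveI := away₁ hC K
  obtain ⟨g, hg⟩ : ∃ g : ℕ, g = H747.genus k B₀ B₁ B₀₁ := ⟨_, rfl⟩
  rw [← hg]
  -- the datum `O(-g ε)`
  have hε := H747.tupCartier hC K (fun _ : Fin g => H747.epsPt B₀ e K)
  have c₀ := tupI₀_eps hC K g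
  have c₀₁ := tupI₀₁_eps hC K g
  have c₁ := tupI₁_eps (B₀ := B₀) (B₀₁ := B₀₁) e K g
  obtain ⟨fε, cε⟩ := finrank_quotient_epsIdeal_pow hC K g
  haveI : Module.Finite K ((K ⊗[k] B₀) ⧸
      H747.tupI₀ B₀₁ (fun _ : Fin g => H747.epsPt B₀ e K)) := by rw [c₀]; infer_instance
  haveI : Module.Finite K ((K ⊗[k] B₀₁) ⧸
      H747.tupI₀₁ B₀₁ (fun _ : Fin g => H747.epsPt B₀ e K)) := by rw [c₀₁]; infer_instance
  haveI : Module.Finite K ((K ⊗[k] B₁) ⧸
      H747.tupI₁ B₀₁ (fun _ : Fin g => H747.epsPt B₀ e K)) := by rw [c₁]; exact fε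
  have hcε : chartCount (H747.tupI₀ B₀₁ (fun _ : Fin g => H747.epsPt B₀ e K))
      (H747.tupI₁ B₀₁ (fun _ : Fin g => H747.epsPt B₀ e K))
      (H747.tupI₀₁ B₀₁ (fun _ : Fin g => H747.epsPt B₀ e K)) = g := by
    unfold chartCount
    rw [Pts.finrank_quotient_congr (K := K) c₀, Pts.finrank_quotient_congr (K := K) c₀₁,
      Pts.finrank_quotient_congr (K := K) c₁, Pts.finrank_quotient_top,
      Pts.finrank_quotient_top, cε]
    simp
  -- Euler characteristics
  have hdeg : G.degree = 0 := hG K (AlgHom.id k K) G (H265.curveGD_isBC_id G)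
  have hU : (GlueDatum.unit K (K ⊗[k] B₀) (K ⊗[k] B₁) (K ⊗[k] B₀₁)).euler = 1 - g := by
    unfold GlueDatum.euler
    rw [hH0 hC K, hH1 hC K, hg]
    rfl
  have hGe : G.euler = 1 - g := by
    unfold GlueDatum.degree at hdeg
    rw [hU] at hdeg
    linarith
  have h1 := euler_homDatum_ofIdeals hC hD hε G
  rw [hcε, hGe] at h1
  -- a nonzero section of `G(g ε)`
  have hne : (H747.homDatum (H747.ofIdeals K hε) G).H0 ≠ ⊥ := by
    intro hbot
    unfold GlueDatum.euler at h1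
    rw [hbot, finrank_bot] at h1
    have : (0 : ℤ) ≤ (finrank K (H747.homDatum (H747.ofIdeals K hε) G).H1 : ℤ) :=
      Int.natCast_nonneg _
    push_cast at h1
    linarith
  obtain ⟨s, hs⟩ := exists_gdHom_of_H0_ne_bot _ G hne
  obtain ⟨i₀, i₁, i₀₁⟩ := injective_of_ne_zero_chart s (injective₀ hC K) (injective₁ hC K) hs
  -- its divisor
  have hI := divCartier s i₀ i₁ i₀₁
  have iso1 := isIso_homDatum_div s i₀ i₁ i₀₁
  have n₀ := range_divC₀_ne_bot s i₀
  have n₁ := range_divC₁_ne_bot s i₁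
  have n₀₁ : (LinearMap.range (divC₀₁ s) : Ideal (K ⊗[k] B₀₁)) ≠ ⊥ := by
    rw [← hI.map₀]
    intro h
    exact n₀ ((Ideal.map_eq_bot_iff_of_injective (injective₀ hC K)).mp h)
  haveI : Module.Finite K ((K ⊗[k] B₀) ⧸ (LinearMap.range (divC₀ s) : Ideal (K ⊗[k] B₀))) :=
    Pts.finite_quotient_of_ne_bot _ n₀
  haveI : Module.Finite K ((K ⊗[k] B₁) ⧸ (LinearMap.range (divC₁ s) : Ideal (K ⊗[k] B₁))) :=
    Pts.finite_quotient_of_ne_bot _ n₁
  haveI : Module.Finite K ((K ⊗[k] B₀₁) ⧸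
      (LinearMap.range (divC₀₁ s) : Ideal (K ⊗[k] B₀₁))) :=
    Pts.finite_quotient_of_ne_bot _ n₀₁
  have h2 := euler_of_div hC hD s ⟨i₀, i₁⟩
  have h3 := euler_unit_ofIdeals hC hD hε
  rw [hcε, hU] at h3
  rw [hGe] at h2
  have hn : chartCount (LinearMap.range (divC₀ s) : Ideal (K ⊗[k] B₀))
      (LinearMap.range (divC₁ s) : Ideal (K ⊗[k] B₁))
      (LinearMap.range (divC₀₁ s) : Ideal (K ⊗[k] B₀₁)) = g := by linarith
  -- the points of the divisor
  obtain ⟨n, P, e0, e1, en⟩ := Pts.exists_points_of_compatible (K := K) (K ⊗[k] B₀₁)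
    ((1 : K) ⊗ₜ[k] x) ((1 : K) ⊗ₜ[k] y) (one_tmul_x_ne_zero hC K)
    (LinearMap.range (divC₀ s) : Ideal (K ⊗[k] B₀))
    (LinearMap.range (divC₁ s) : Ideal (K ⊗[k] B₁)) n₀ n₁ (hI.map₀.trans hI.map₁.symm)
  have hng : n = g := by
    rw [Pts.finrank_quotient_congr (K := K) hI.map₀] at en
    unfold chartCount at hn
    have : (n : ℤ) = g := en.trans hn
    exact_mod_cast this
  subst hng
  have hQ := H747.tupCartier hC K (fun i : Fin n => chartPtOf (P i))
  have q₀ : H747.tupI₀ B₀₁ (fun i : Fin n => chartPtOf (P i)) =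
      (LinearMap.range (divC₀ s) : Ideal (K ⊗[k] B₀)) := by
    unfold H747.tupI₀
    simp only [ptI₀_chartPtOf]
    exact e0.symm
  have q₁ : H747.tupI₁ B₀₁ (fun i : Fin n => chartPtOf (P i)) =
      (LinearMap.range (divC₁ s) : Ideal (K ⊗[k] B₁)) := by
    unfold H747.tupI₁
    simp only [ptI₁_chartPtOf]
    exact e1.symm
  have q₀₁ : H747.tupI₀₁ B₀₁ (fun i : Fin n => chartPtOf (P i)) =
      (LinearMap.range (divC₀₁ s) : Ideal (K ⊗[k] B₀₁)) := by
    rw [← hQ.map₀, q₀, hI.map₀]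
  refine ⟨fun i : Fin n => chartPtOf (P i), ?_⟩
  rw [H747.abelDatum_eq_homDatum hC, ofIdeals_congr hQ hI q₀ q₁ q₀₁]
  exact iso1

end Main

end

end Fermat.Agent.S25.H206

end
-- ===== PACK-END S25/H206/SurjMain.lean

-- ===== PACK-BEGIN S25/H911/ACCov3.lean
section




/-!
# S25 / ALGCHARTS, COV1–COV3 unconditional (helper911)

DEG2 (`H565.degree_eq_of_section`) plugged into `H911.deg0_of_section`, `H911.cov2`,
`H911.cov12`; the datum of helper325 (`H325.exists_datum_of_coord`) completed by `Deg0`.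

* `deg0_of_section'`, `rigidifiable_and_deg0_of_section'` : COV3 RIG + DEG0, unconditional;
* `cov2'` : over a field, `G.degree = 0 → P2 → ∃ β, P3`;
* `cov12'` : over a field, `G.degree = 0 → ∃ i, Numeric ∧ Injective q ∧ f = 1 ∧ P3`;
* `cov3_coord` : for every numeric index `i` and `φ₀ : Rβ → A` a datum over `A`, rigidifiable,
  of degree `0`, with a section in the shape of `PointCond.sect`;
* `cov3_univ` : the universal datum over `Rβ`.
-/

set_option autoImplicit false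
set_option linter.style.haveILetI false
set_option linter.unusedSectionVars false

universe u

open scoped TensorProduct

namespace Fermat.Agent.S25.H911

open Fermat.Agent.S25

variable {k : Type u} [Field k] [IsAlgClosed k]
  {B₀ B₁ B₀₁ : Type u} [CommRing B₀] [CommRing B₁] [CommRing B₀₁]
  [Algebra k B₀] [Algebra k B₁] [Algebra k B₀₁] [Algebra B₀ B₀₁] [Algebra B₁ B₀₁]
  [IsScalarTower k B₀ B₀₁] [IsScalarTower k B₁ B₀₁] {x : B₀} {y : B₁} {e : B₁ →ₐ[k] k}

/-- **COV3, degree** (unconditional). -/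
theorem deg0_of_section' (hC : IsCurveChart k B₀ B₁ B₀₁ x y e) {n m g : ℕ}
    (q : Fin m → (B₀ →ₐ[k] k))
    (hnum : m + g = n * Module.finrank k (B₁ ⧸ Ideal.span {y}))
    {A : Type u} [CommRing A] [Algebra k A] (G : CurveGD k B₀ B₁ B₀₁ A) (s : G.N₀ × G.N₁)
    (hs : s ∈ H11.sec x n G) (hgen : H11.GenModY y G s.2) (I' : Ideal (A ⊗[k] B₀))
    (hI' : H491.IsHilb g I')
    (hspan : Submodule.span (A ⊗[k] B₀) {s.1} =
      (I' * H11.ptIdeal q A) • (⊤ : Submodule (A ⊗[k] B₀) G.N₀)) :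
    G.Deg0 :=
  deg0_of_section hC (fun _ _ _ G n s hs hgen => H565.degree_eq_of_section hC G n s hs hgen)
    q hnum G s hs hgen I' hI' hspan

/-- **COV3, rigidification and degree** (unconditional). -/
theorem rigidifiable_and_deg0_of_section' (hC : IsCurveChart k B₀ B₁ B₀₁ x y e) {n m g : ℕ}
    (q : Fin m → (B₀ →ₐ[k] k))
    (hnum : m + g = n * Module.finrank k (B₁ ⧸ Ideal.span {y}))
    {A : Type u} [CommRing A] [Algebra k A] (G : CurveGD k B₀ B₁ B₀₁ A) (s : G.N₀ × G.N₁)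
    (hs : s ∈ H11.sec x n G) (hgen : H11.GenModY y G s.2) (I' : Ideal (A ⊗[k] B₀))
    (hI' : H491.IsHilb g I')
    (hspan : Submodule.span (A ⊗[k] B₀) {s.1} =
      (I' * H11.ptIdeal q A) • (⊤ : Submodule (A ⊗[k] B₀) G.N₀)) :
    G.Rigidifiable e ∧ G.Deg0 :=
  ⟨rigidifiable_of_genModY hC.e_y G s.2 hgen, deg0_of_section' hC q hnum G s hs hgen I' hI' hspan⟩

/-- **COV2** (unconditional): over a field, degree `0` and `P2` give `P3` for some `β`. -/
theorem cov2' (hC : IsCurveChart k B₀ B₁ B₀₁ x y e) {K : Type u} [Field K] [Algebra k K]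
    {n m g : ℕ} (q : Fin m → (B₀ →ₐ[k] k))
    (hnum : m + g = n * Module.finrank k (B₁ ⧸ Ideal.span {y}))
    (G : CurveGD k B₀ B₁ B₀₁ K) (hdeg : G.degree = 0) (h2 : H11.P2 x y n q G) :
    ∃ β : Fin g → B₀, H11.P3 x y n q β G :=
  cov2 hC (fun _ _ _ G n s hs hgen => H565.degree_eq_of_section hC G n s hs hgen)
    q hnum G hdeg h2

/-- **COV1 + COV2** (unconditional): every gluing datum of degree `0` over a field has `P3` for
a numeric chart index. -/
theorem cov12' (hC : IsCurveChart k B₀ B₁ B₀₁ x y e) {K : Type u} [Field K] [Algebra k K]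
    (G : CurveGD k B₀ B₁ B₀₁ K) (hdeg : G.degree = 0) :
    ∃ i : H11.ChartIndex k B₀, i.Numeric B₀₁ y ∧ Function.Injective i.q ∧ i.f = 1 ∧
      H11.P3 x y i.n i.q i.β G :=
  cov12_index hC (fun _ _ _ G n s hs hgen => H565.degree_eq_of_section hC G n s hs hgen) G hdeg

/-- **COV3 over any base**: for a numeric chart index `i` and Hilbert coordinates
`φ₀ : Rβ → A` there is a gluing datum over `A`, rigidifiable, of degree `0`, with a section
in the shape of `PointCond.sect`. -/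
theorem cov3_coord (hC : IsCurveChart k B₀ B₁ B₀₁ x y e) (i : H11.ChartIndex k B₀)
    (hnum : i.Numeric B₀₁ y) {A : Type u} [CommRing A] [Algebra k A]
    (φ₀ : H491.Rβ k i.β →ₐ[k] A) :
    ∃ D : CurveGD k B₀ B₁ B₀₁ A, D.Rigidifiable e ∧ D.Deg0 ∧ ∃ s ∈ H11.sec x i.n D,
      H11.GenModY y D s.2 ∧ Submodule.span (A ⊗[k] B₀) {s.1} =
        ((H491.univIdeal (k := k) i.β).map (H491.bc B₀ φ₀) * H11.ptIdeal i.q A) •
          (⊤ : Submodule (A ⊗[k] B₀) D.N₀) := by
  obtain ⟨D, hrig, s, hs, hgen, hspan⟩ := H325.exists_datum_of_coord (e := e) A hC i φ₀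
  refine ⟨D, hrig, ?_, s, hs, hgen, hspan⟩
  exact deg0_of_section' hC i.q hnum.1 D s hs hgen _
    ((H491.isChart_univIdeal i.β).isHilb.map φ₀) hspan

/-- **COV3: the universal datum** over `Rβ`, rigidifiable and of degree `0`. -/
theorem cov3_univ (hC : IsCurveChart k B₀ B₁ B₀₁ x y e) (i : H11.ChartIndex k B₀)
    (hnum : i.Numeric B₀₁ y) :
    ∃ D : CurveGD k B₀ B₁ B₀₁ (H491.Rβ k i.β), D.Rigidifiable e ∧ D.Deg0 ∧
      ∃ s ∈ H11.sec x i.n D, H11.GenModY y D s.2 ∧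
        Submodule.span (H491.Rβ k i.β ⊗[k] B₀) {s.1} =
          (H491.univIdeal (k := k) i.β * H11.ptIdeal i.q (H491.Rβ k i.β)) •
            (⊤ : Submodule (H491.Rβ k i.β ⊗[k] B₀) D.N₀) := by
  obtain ⟨D, hrig, s, hs, hgen, hspan⟩ := H325.exists_univ_datum (e := e) hC i
  refine ⟨D, hrig, ?_, s, hs, hgen, hspan⟩
  exact deg0_of_section' hC i.q hnum.1 D s hs hgen _ (H491.isChart_univIdeal i.β).isHilb hspan

end Fermat.Agent.S25.H911

end
-- ===== PACK-END S25/H911/ACCov3.lean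

-- ===== PACK-BEGIN S26/C4/SumH841.lean
section




/-!
# Row S26, leaf C4c (sums): `C4.Stmt.C4cSum K` (helper841)

For an irreducible closed subset `B ∋ 0` of an abelian variety `A` over an algebraically closed
field and a pointed proper integral `K`-scheme `ι : (C, c₀) → (A, 0)`, the set
`B' := B + ι(C)` (image of `B × ι(C)` under the addition `m = H126.addHom`) is irreducible,
closed, contains `B` and `ι(C)`, and its `K`-points are sums of `K`-points of `B` and images of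
`K`-points of `C`.

Everything is a specialisation of `H841/SumIrred.lean` to `m := H126.addHom X.law`.
-/

set_option autoImplicit false
universe u

open CategoryTheory CategoryTheory.Limits AlgebraicGeometry NeronModelInfra GoodReductionJacobian

namespace Fermat.Agent.S26.C4.H841

variable {K : Type u} [Field K]

/-- The range of a `K`-point is the singleton of its underlying point. -/
theorem range_eq_singleton_ptOf {Y : Scheme.{u}} {y : Y ⟶ Spec (CommRingCat.of K)}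
    (p : KPt y) : Set.range p.1 = {ptOf p} :=
  range_kpt p

/-- Right unit law for the addition morphism. -/
theorem addHom_unit_right {A : Scheme.{u}} {f : A ⟶ Spec (CommRingCat.of K)}
    (G : RelativeGroupLaw K f) (h : f ≫ (H126.zeroSec G) ≫ f = (𝟙 A) ≫ f) :
    pullback.lift (𝟙 A) (f ≫ H126.zeroSec G) (by rw [Category.assoc]; exact h.symm) ≫
      H126.addHom G = 𝟙 A := by
  have h1 := H126.transl_eq_pairHom_comp_addHom G (G.one (𝟙 _))
  rw [H126.transl_one] at h1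
  exact h1.symm

/-- Left unit law for the addition morphism (commutative law). -/
theorem addHom_unit_left {A : Scheme.{u}} {f : A ⟶ Spec (CommRingCat.of K)}
    (G : RelativeGroupLaw K f) (hc : G.IsCommutative)
    (h : f ≫ (H126.zeroSec G) ≫ f = (𝟙 A) ≫ f) :
    pullback.lift (f ≫ H126.zeroSec G) (𝟙 A) (by rw [Category.assoc]; exact h) ≫
      H126.addHom G = 𝟙 A := by
  have h1 := H126.transl_eq_pairHom_comp_addHom' G hc (G.one (𝟙 _))
  rw [H126.transl_one] at h1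
  exact h1.symm

variable (K) [IsAlgClosed K]

/-- **C4c (sums).** -/
theorem c4cSum : Stmt.C4cSum K := by
  intro X B hBc hBi h0B C c _ _ ι hι c₀ hc₀
  have : IsProper X.str := X.bundle.proper
  have : IsLocallyNoetherian X.A := LocallyOfFiniteType.isLocallyNoetherian X.str
  have ho : X.zero.1 ≫ X.str = 𝟙 _ := X.zero.2
  have hm : H126.addHom X.law ≫ X.str = pullback.fst X.str X.str ≫ X.str :=
    H126.addHom_over X.law
  have hzero : X.str ≫ X.zero.1 ≫ X.str = 𝟙 X.A ≫ X.str := by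
    rw [ho, Category.comp_id, Category.id_comp]
  have hunitr : pullback.lift (𝟙 X.A) (X.str ≫ X.zero.1)
      (by rw [Category.assoc, ho, Category.id_comp, Category.comp_id]) ≫
        H126.addHom X.law = 𝟙 X.A :=
    addHom_unit_right X.law hzero
  have hunitl : pullback.lift (X.str ≫ X.zero.1) (𝟙 X.A)
      (by rw [Category.assoc, ho, Category.id_comp, Category.comp_id]) ≫
        H126.addHom X.law = 𝟙 X.A :=
    addHom_unit_left X.law X.comm hzero
  -- the image of `ι`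
  have : IsProper (ι ≫ X.str) := by rw [hι]; infer_instance
  have : IsProper ι := IsProper.of_comp ι X.str
  have hΓc : IsClosed (Set.range ι) := ι.isClosedMap.isClosed_range
  have hΓi : IsIrreducible (Set.range ι) := by
    rw [← Set.image_univ]
    exact (IrreducibleSpace.isIrreducible_univ C).image ι ι.continuous.continuousOn
  have hoB : Set.range X.zero.1 ⊆ B := by
    rw [range_kpt X.zero]
    exact Set.singleton_subset_iff.2 h0B
  have hoΓ : Set.range X.zero.1 ⊆ Set.range ι := by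
    rintro _ ⟨s, rfl⟩
    refine ⟨c₀.1 s, ?_⟩
    rw [← Scheme.Hom.comp_apply, hc₀]
  refine ⟨S26.H841.sumSet X.str (H126.addHom X.law) B (Set.range ι),
    S26.H841.isClosed_sumSet X.str _ hm hBc hΓc,
    S26.H841.isIrreducible_sumSet X.str _ hBi hΓi hΓc,
    S26.H841.subset_sumSet_left X.str _ X.zero.1 ho hunitr hoΓ,
    S26.H841.subset_sumSet_right X.str _ X.zero.1 ho hunitl hoB, ?_⟩
  intro x hx
  have hxs : Set.range x.1 ⊆ S26.H841.sumSet X.str (H126.addHom X.law) B (Set.range ι) := by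
    rw [range_kpt x]
    exact Set.singleton_subset_iff.2 hx
  obtain ⟨q, r, hq, hr, hqB, hrΓ, hqr⟩ :=
    S26.H841.exists_kpoints_of_mem_sumSet X.str _ hm hBc hΓc x.1 x.2 hxs
  -- lift `r` to a `K`-point of `C`
  let rr : X.Pt := ⟨r, hr⟩
  have hrc : IsClosed ({ptOf rr} : Set X.A) := isClosed_singleton_ptOf rr
  have hfib : IsClosed (ι ⁻¹' {ptOf rr}) := hrc.preimage ι.continuous
  have hfibne : (ι ⁻¹' {ptOf rr}).Nonempty := by
    obtain ⟨z, hz⟩ := hrΓ ⟨default, rfl⟩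
    exact ⟨z, hz⟩
  obtain ⟨p, hp⟩ := exists_kpt_mem_of_isLocallyClosed c hfib.isLocallyClosed hfibne
  have hpr : mapPt ι hι p = rr := ptOf_injective (by rw [ptOf_mapPt]; exact hp)
  refine ⟨⟨q, hq⟩, p, hqB ⟨default, rfl⟩, ?_⟩
  rw [hpr]
  apply Subtype.ext
  rw [H126.law_mul_coe]
  exact hqr.symm

/-- Strictly increasing chains of irreducible closed subsets of a locally noetherian scheme
are finite. -/
theorem wellFoundedGT_irreducibleCloseds (Y : Scheme.{u}) [IsLocallyNoetherian Y] :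
    WellFoundedGT (TopologicalSpace.IrreducibleCloseds Y) := by
  let f : TopologicalSpace.IrreducibleCloseds Y → ℕ := fun Z =>
    S26.H841.ptCodim (Z.isIrreducible.genericPoint)
  have hgen : ∀ Z : TopologicalSpace.IrreducibleCloseds Y,
      IsGenericPoint Z.isIrreducible.genericPoint (Z : Set Y) := by
    intro Z
    have h := Z.isIrreducible.isGenericPoint_genericPoint_closure
    rwa [Z.isClosed.closure_eq] at h
  have hf : StrictAnti f := by
    intro Z Z' h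
    have hle : (Z : Set Y) ⊆ (Z' : Set Y) := h.le
    have hne : (Z : Set Y) ≠ (Z' : Set Y) := fun e => h.ne (SetLike.coe_injective e)
    exact S26.H841.ptCodim_lt (S26.H841.genericPoint_lt_of_ssubset (hgen Z) (hgen Z') hle hne)
  exact hf.wellFoundedGT

omit [IsAlgClosed K] in
/-- **C4c (chains).** -/
theorem c4cChain : Stmt.C4cChain K := by
  intro X
  have : IsProper X.str := X.bundle.proper
  have : IsLocallyNoetherian X.A := LocallyOfFiniteType.isLocallyNoetherian X.str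
  exact wellFoundedGT_irreducibleCloseds X.A

end Fermat.Agent.S26.C4.H841

end
-- ===== PACK-END S26/C4/SumH841.lean

-- ===== PACK-BEGIN S38/H719/UqCross.lean
section




/-!
# HARD / HECKE, leaf CTRL-MIN, part (ii-a): cross-level commutation of `U_{q'}` (helper719)

Levels `N` and `N q` (`q ∤ N` prime), `q' ∣ N` a prime.  `t₁, t₂ : Hom(Γ₀(N q), A) → Hom(Γ₀(N), A)` the two
transfers of row S41 (`Spec/HK.lean`), `U_{q'}` the operator of `S59/H105/UqSystem.lean` at both levels.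

* `sysTransfer_transferAlong` : the general commutation lemma of `S41/H761/HT.lean`
  (`heckeTransfer_transferAlong`) for an ARBITRARY family of representatives which is a coset system
  at both levels;
* `Uq_t₁` : `U_{q'} (t₁ ψ) = t₁ (U_{q'} ψ)`;
* `Uq_t₂` : `U_{q'} (t₂ ψ) = t₂ (U_{q'} ψ)`.

These are what is needed to iterate the one-prime control theorem of `S59/H105/CtrlOps.lean` over several
Taylor–Wiles primes: the transfers at the last prime respect the conditions `U_{q_j} ≡ α_j` at the earlier ones.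
-/

set_option autoImplicit false

namespace Fermat.Agent.S38.H719

open CongruenceSubgroup Matrix.SpecialLinearGroup ModularForm
open Fermat.Agent.S29.H642 Fermat.Agent.S41.Spec Fermat.Agent.S41.H761 Fermat.Agent.S59.H105
open P2MW.S_ModularForm_heckeT_slash_eq_self_of_mem_Gamma0.ModularForm.HeckeSlashInvariance
open scoped MatrixGroups

section General

variable {N M : ℕ} {A : Type*} [AddCommGroup A] {I : Type*} [Fintype I]
  {ρ : I → GL (Fin 2) ℝ}

/-- **General commutation lemma** (any family of representatives).  `f : Γ₀(M) →* Γ₀(N)` injective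
with finite index range, realized by conjugation by `d`; `ρ` a coset system at both levels; the
conjugated representatives `d ρ_y d⁻¹` are representatives up to `Γ₀(N)`, and the cosets of the
family `d ρ_y d⁻¹ x⁻¹` are distinct.  Then the operator of `ρ` commutes with the transfer along
`f`. -/
theorem sysTransfer_transferAlong (sysN : IsCosetSystem (ιN N) (ιN N) ρ)
    (sysM : IsCosetSystem (ιN M) (ιN M) ρ) (f : Gamma0 M →* Gamma0 N)
    (hf : Function.Injective f) [f.range.FiniteIndex] (d : GL (Fin 2) ℝ)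
    (hd : ∀ g : Gamma0 M, d * ιN M g = ((ιN N).comp f) g * d)
    (H1 : ∀ y : I, ∃ (u : Gamma0 N) (y' : I), d * ρ y * d⁻¹ = ιN N u * ρ y')
    (H2 : ∀ (y y' : I) (m : Gamma0 N) (g : Gamma0 M) (Q : GL (Fin 2) ℝ),
      d * Q = ιN N m * d → ρ y * Q = ιN M g * ρ y' → m ∈ f.range)
    (ψ : Additive (Gamma0 M) →+ A) :
    sysN.transfer (transferAlong f ψ) = transferAlong f (sysM.transfer ψ) := by
  classical
  let _ : Fintype (Gamma0 N ⧸ f.range) := f.range.fintypeQuotientOfFiniteIndex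
  have sysT' := sysM.conj d hd hd
  have sysTr := IsCosetSystem.ofTransfer f hf (ιN N) (ιN_injective N)
  -- family A
  have famA := sysTr.prod sysN (by
    intro x x' y y' g e
    have e2 : ρ y = ιN N (x.out * f g * (x'.out)⁻¹) * ρ y' := by
      have h1 : ρ y = ιN N x.out * (ιN N (x.out)⁻¹ * ρ y) := by
        rw [map_inv, mul_inv_cancel_left]
      rw [h1, e]
      simp only [MonoidHom.comp_apply, map_mul, mul_assoc]
    have hy := sysN.eq_of_mul _ _ _ e2
    subst hy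
    have e3 : ιN N (x.out * f g * (x'.out)⁻¹) = 1 := by
      have h2 : ιN N (x.out * f g * (x'.out)⁻¹) * ρ y = 1 * ρ y := by
        rw [one_mul]; exact e2.symm
      exact mul_right_cancel h2
    have e4 : x.out * f g * (x'.out)⁻¹ = 1 := ιN_injective N (e3.trans (map_one _).symm)
    have e5 : f g = (x.out)⁻¹ * x'.out := by
      have := congrArg (fun t => (x.out)⁻¹ * t * x'.out) e4
      simpa [mul_assoc] using this
    have hmem : (x.out)⁻¹ * x'.out ∈ f.range := ⟨g, e5⟩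
    have h3 := QuotientGroup.eq.mpr hmem
    rw [QuotientGroup.out_eq', QuotientGroup.out_eq'] at h3
    exact ⟨h3, rfl⟩)
  -- family B
  have famB := sysT'.prod sysTr (by
    intro y y' x x' g e
    have hfg : ((ιN N).comp f) g = d * ιN M g * d⁻¹ := by
      rw [hd g, mul_inv_cancel_right]
    have hQ : ρ y * (d⁻¹ * ιN N ((x.out)⁻¹ * x'.out) * d) = ιN M g * ρ y' := by
      have e' := congrArg (fun t => d⁻¹ * t * (ιN N (x'.out)⁻¹)⁻¹ * d) e
      simp only [hfg, mul_assoc, inv_mul_cancel_left, inv_mul_cancel, mul_one, map_inv,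
        inv_inv] at e'
      simp only [map_mul, map_inv, mul_assoc]
      exact e'
    have hmem := H2 y y' ((x.out)⁻¹ * x'.out) g (d⁻¹ * ιN N ((x.out)⁻¹ * x'.out) * d)
      (by simp only [mul_assoc, mul_inv_cancel_left]) hQ
    have hx : x = x' := by
      have h3 := QuotientGroup.eq.mpr hmem
      rwa [QuotientGroup.out_eq', QuotientGroup.out_eq'] at h3
    subst hx
    refine ⟨?_, rfl⟩
    have e2 := mul_right_cancel (e.trans (mul_assoc _ _ _).symm)
    exact sysT'.eq_of_mul _ _ _ e2)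
  rw [transferAlong_eq f hf (ιN N) (ιN_injective N),
    transferAlong_eq f hf (ιN N) (ιN_injective N), ← IsCosetSystem.conj_transfer sysM d hd hd]
  rw [IsCosetSystem.transfer_comp sysTr sysN famA, IsCosetSystem.transfer_comp sysT' sysTr famB]
  symm
  refine IsCosetSystem.transfer_eq_of_le_of_card famB famA ?_ ?_ ψ
  · rw [Fintype.card_prod, Fintype.card_prod, mul_comm]
  · rintro ⟨y, x⟩
    obtain ⟨u, y₁, hu⟩ := H1 y
    set w : Gamma0 N := u * sysN.coc y₁ (x.out)⁻¹ with hw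
    have hmem : (w⁻¹)⁻¹ * ((w⁻¹ : Gamma0 N) : Gamma0 N ⧸ f.range).out ∈ f.range :=
      QuotientGroup.eq.mp (QuotientGroup.out_eq' _).symm
    obtain ⟨g, hg⟩ := hmem
    rw [inv_inv] at hg
    refine ⟨(((w⁻¹ : Gamma0 N) : Gamma0 N ⧸ f.range), sysN.act y₁ (x.out)⁻¹), g, ?_⟩
    rw [hu, mul_assoc, sysN.spec y₁ (x.out)⁻¹, MonoidHom.comp_apply, hg]
    simp only [map_mul, map_inv, mul_assoc, hw]
    rw [mul_inv_cancel_left]

end General

section Level

variable {N q q' : ℕ} [Fact q'.Prime] {A : Type*} [AddCommGroup A]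

theorem Uq_zero719 {M : ℕ} (hq' : q' ∣ M) : Uq hq' (0 : Additive (Gamma0 M) →+ A) = 0 := by
  have h := Uq_add hq' (0 : Additive (Gamma0 M) →+ A) 0
  rw [add_zero] at h
  exact left_eq_add.mp h

/-- `U_{q'} t₁ = t₁ U_{q'}` for `q' ∣ N`, `q ∤ N` prime. -/
theorem Uq_t₁ (hq : q.Prime) (hqN : ¬ q ∣ N) (hq' : q' ∣ N) (hq'' : q' ∣ N * q)
    (ψ : Additive (Gamma0 (N * q)) →+ A) :
    Uq hq' (t₁ N q ψ) = t₁ N q (Uq hq'' ψ) := by
  by_cases hfin : (incl N q).range.FiniteIndex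
  · refine sysTransfer_transferAlong (uqSystem hq') (uqSystem hq'') (incl N q)
      (Fermat.Agent.S41.H105.incl_injective N q) 1 (fun g => by rw [one_mul, mul_one]; rfl)
      (fun y => ⟨1, y, by simp⟩) ?_ ψ
    intro y y' m g Q hQ e
    rw [one_mul, mul_one] at hQ
    subst hQ
    have e10 := congrArg (fun M : GL (Fin 2) ℝ => (M : Matrix (Fin 2) (Fin 2) ℝ) 1 0) e
    simp only [coe_mul_apply, coe_ιN_apply, coe_uqRep, Matrix.of_apply, Matrix.cons_val',
      Matrix.cons_val_zero, Matrix.cons_val_one, Matrix.cons_val_fin_one, zero_mul, zero_add,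
      mul_zero, add_zero, mul_one] at e10
    have e10' : (q' : ℤ) * (m : SL(2, ℤ)) 1 0 = (g : SL(2, ℤ)) 1 0 := by exact_mod_cast e10
    have hg : ((N * q : ℕ) : ℤ) ∣ (g : SL(2, ℤ)) 1 0 := dvd_of_mem_Gamma0 g.2
    have hqg : (q : ℤ) ∣ (q' : ℤ) * (m : SL(2, ℤ)) 1 0 := by
      rw [e10']
      exact dvd_trans ⟨(N : ℤ), by push_cast; ring⟩ hg
    have hqq' : ¬ q ∣ q' := fun h => hqN (dvd_trans h hq')
    have hcop : IsCoprime (q : ℤ) (q' : ℤ) := by
      rw [Int.isCoprime_iff_gcd_eq_one, Int.gcd_natCast_natCast]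
      exact hq.coprime_iff_not_dvd.mpr hqq'
    exact (Fermat.Agent.S41.H105.mem_range_incl_iff hq hqN m).mpr (hcop.dvd_of_dvd_mul_left hqg)
  · have h0 : ∀ χ : Additive (Gamma0 (N * q)) →+ A, t₁ N q χ = 0 := by
      intro χ
      unfold t₁ transferAlong
      rw [dif_neg (fun h => hfin h.2)]
    rw [h0, h0, Uq_zero719]

/-- Conjugation of the `U_{q'}` representatives by `diag(q, 1)`. -/
theorem diag_conj_uqRep (hq : q ≠ 0) (j : ZMod q') :
    ∃ (u : Gamma0 N) (j' : ZMod q'),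
      heckeDiagMatrix q * uqRep q' j * (heckeDiagMatrix q)⁻¹ = ιN N u * uqRep q' j' := by
  obtain ⟨T, Y, hmod⟩ : ∃ (T : ℕ) (Y : ZMod q'),
      ((Y.val : ℕ) : ℝ) + (T : ℝ) * q' = (q : ℝ) * j.val := by
    refine ⟨q * j.val / q', ((q * j.val : ℕ) : ZMod q'), ?_⟩
    rw [ZMod.val_natCast]
    have := Nat.mod_add_div (q * j.val) q'
    have h2 : (((q * j.val) % q' + q' * (q * j.val / q') : ℕ) : ℝ) = ((q * j.val : ℕ) : ℝ) := by
      rw [this]
    push_cast at h2
    linarith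
  obtain ⟨u00, u01, u10, u11⟩ := mkGamma0_apply N 1 (T : ℤ) 0 1 (by ring) (dvd_zero _)
  refine ⟨mkGamma0 N 1 (T : ℤ) 0 1 (by ring) (dvd_zero _), Y, ?_⟩
  rw [mul_inv_eq_iff_eq_mul]
  apply gl_ext <;>
    simp only [coe_mul_apply, coe_ιN_apply, coe_uqRep, val_heckeDiagMatrix hq,
      Matrix.of_apply, Matrix.cons_val', Matrix.cons_val_zero, Matrix.cons_val_one,
      Matrix.cons_val_fin_one, u00, u01, u10, u11] <;>
    push_cast
  · ring
  · linear_combination (-1 : ℝ) * hmod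
  · ring
  · ring

/-- `U_{q'} t₂ = t₂ U_{q'}` for `q' ∣ N` (any `q ≠ 0`). -/
theorem Uq_t₂ (hq0 : q ≠ 0) (hq' : q' ∣ N) (hq'' : q' ∣ N * q)
    (ψ : Additive (Gamma0 (N * q)) →+ A) :
    Uq hq' (t₂ N q ψ) = t₂ N q (Uq hq'' ψ) := by
  by_cases hfin : (conjDelta N q).range.FiniteIndex
  · refine sysTransfer_transferAlong (uqSystem hq') (uqSystem hq'') (conjDelta N q)
      (Fermat.Agent.S41.H105.conjDelta_injective N hq0) (heckeDiagMatrix q) (diag_rel hq0)
      (diag_conj_uqRep hq0) ?_ ψ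
    intro y y' m g Q hQ e
    have q01 := congrArg (fun M : GL (Fin 2) ℝ => (M : Matrix (Fin 2) (Fin 2) ℝ) 0 1) hQ
    have q11 := congrArg (fun M : GL (Fin 2) ℝ => (M : Matrix (Fin 2) (Fin 2) ℝ) 1 1) hQ
    have e01 := congrArg (fun M : GL (Fin 2) ℝ => (M : Matrix (Fin 2) (Fin 2) ℝ) 0 1) e
    simp only [coe_mul_apply, coe_ιN_apply, val_heckeDiagMatrix hq0, Matrix.of_apply,
      Matrix.cons_val', Matrix.cons_val_zero, Matrix.cons_val_one, Matrix.cons_val_fin_one,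
      zero_mul, zero_add, mul_zero, add_zero, one_mul, mul_one] at q01 q11
    simp only [coe_mul_apply, coe_ιN_apply, coe_uqRep, Matrix.of_apply, Matrix.cons_val',
      Matrix.cons_val_zero, Matrix.cons_val_one, Matrix.cons_val_fin_one, one_mul] at e01
    rw [q11] at e01
    -- `m01 = q * (g00 * j' + g01 * q' - j * m11)`
    have key : (((m : SL(2, ℤ)) 0 1 : ℤ) : ℝ) =
        (q : ℝ) * ((((g : SL(2, ℤ)) 0 0 : ℤ) : ℝ) * (y'.val : ℝ)
          + (((g : SL(2, ℤ)) 0 1 : ℤ) : ℝ) * (q' : ℝ)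
          - (y.val : ℝ) * (((m : SL(2, ℤ)) 1 1 : ℤ) : ℝ)) := by
      rw [← q01]
      linear_combination (q : ℝ) * e01
    have key' : (m : SL(2, ℤ)) 0 1 =
        q * ((g : SL(2, ℤ)) 0 0 * (y'.val : ℤ) + (g : SL(2, ℤ)) 0 1 * (q' : ℤ)
          - (y.val : ℤ) * (m : SL(2, ℤ)) 1 1) := by
      exact_mod_cast key
    exact (Fermat.Agent.S41.H105.mem_range_conjDelta_iff N hq0 m).mpr ⟨_, key'⟩
  · have h0 : ∀ χ : Additive (Gamma0 (N * q)) →+ A, t₂ N q χ = 0 := by
      intro χ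
      unfold t₂ transferAlong
      rw [dif_neg (fun h => hfin h.2)]
    rw [h0, h0, Uq_zero719]

end Level

end Fermat.Agent.S38.H719

end
-- ===== PACK-END S38/H719/UqCross.lean

-- ===== PACK-BEGIN S59/H899/Unram.lean
section






/-!
# Row S59, layer E, piece CR-U (helper899): the Tate module is unramified at good primes

For an integral Weierstrass model `W : WeierstrassCurve ℤ` and a prime `ℓ ∤ Δ(W)`:

* `inertia_smul_eq_self_of_good` : every inertia group at `ℓ` fixes every torsion point of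
  `E(ℚ̄)` of order prime to `ℓ`  (finite level; input of
  `H127.tateGaloisRep_isUnramifiedAt`);
* `galoisRepUnramifiedAt_of_good` : the Prelude's `GaloisRepUnramifiedAt` for `E[m]`, `ℓ ∤ m`;
* `tateGaloisRep_isUnramifiedAt_of_good` : the `p`-adic Tate module (`H127.tateGaloisRep`) is
  unramified at every good prime `ℓ ≠ p`  (= the field `unram` of `Arch.CurveRep` over `ℤ_p`).
-/

set_option autoImplicit false

namespace Fermat.Agent.S59.H899

open WeierstrassCurve WeierstrassCurve.Affine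
open scoped WeierstrassCurve.Affine
open Fermat.Agent.S05

/-- **CR-U, finite level.**  At a prime `ℓ` of good reduction, inertia fixes the torsion points
of order prime to `ℓ`. -/
theorem inertia_smul_eq_self_of_good (W : WeierstrassCurve ℤ) {ℓ : ℕ} (hℓ : ℓ.Prime)
    (hgood : W.IsGoodPrimeFor ℓ) {m : ℕ} (hm : ¬ ℓ ∣ m)
    (A : ValuationSubring QbarH) (hA : A.LiesOverPrime ℓ)
    (σ : GalQH) (hσ : σ ∈ A.inertiaSubgroupIn ℚ)
    (x : (curveQbar W).Point) (hx : m • x = 0) : σ • x = x := by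
  have hW := integralCoeffs W A
  have hΔ : A.valuation (curveQbar W).Δ = 1 := val_Δ_eq_one_of_good hℓ hA hgood
  have hmv : A.valuation (m : QbarH) = 1 := val_natCast_eq_one hA hℓ hm
  exact GoodRed.smul_eq_self_of_good_reduction
    (W' := (W.map (Int.castRingHom ℚ)).toAffine) (S := ℚ) hW hΔ σ
    (fun t ht => inertia_val_sub_lt_one hσ t ht) (m : ℤ)
    (fun Q hQ h => C1b.eq_zero_of_inKer_of_zsmul_eq_zero hW m hmv Q hQ h) x
    (by rwa [natCast_zsmul])

/-- prime powers of a prime `p ≠ ℓ` are prime to `ℓ` -/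
lemma not_dvd_prime_pow {ℓ p : ℕ} (hℓ : ℓ.Prime) (hp : p.Prime) (hne : ℓ ≠ p) (n : ℕ) :
    ¬ ℓ ∣ p ^ n := fun h =>
  hne ((Nat.prime_dvd_prime_iff_eq hℓ hp).mp (hℓ.dvd_of_dvd_pow h))

/-- **CR-U** in the Prelude's vocabulary: `E[m]` is unramified at the good primes `ℓ ∤ m`. -/
theorem galoisRepUnramifiedAt_of_good (W : WeierstrassCurve ℤ) {ℓ : ℕ} (hℓ : ℓ.Prime)
    (hgood : W.IsGoodPrimeFor ℓ) {m : ℕ} (hm : ¬ ℓ ∣ m) :
    WeierstrassCurve.Affine.Point.GaloisRepUnramifiedAt (K := AlgebraicClosure ℚ) ℚ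
      (W.map (Int.castRingHom ℚ)).toAffine m ℓ := by
  intro A hA σ hσ x
  apply Subtype.ext
  have hx : m • (x : (curveQbar W).Point) = 0 := by
    have := x.2
    rw [Submodule.mem_torsionBy_iff] at this
    rwa [natCast_zsmul] at this
  exact inertia_smul_eq_self_of_good W hℓ hgood hm A hA σ hσ x hx

/-- **CR-U, Tate module.**  The `p`-adic Tate module of `W` is unramified at the good primes
`ℓ ≠ p`. -/
theorem tateGaloisRep_isUnramifiedAt_of_good (W : WeierstrassCurve ℤ)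
    [(curveQbar W).IsElliptic] {p : ℕ} [hp : Fact p.Prime]
    (cb : H127.CompatBasis (curveQbar W).Point p 2) {ℓ : ℕ} (hℓ : ℓ.Prime)
    (hgood : W.IsGoodPrimeFor ℓ) (hne : ℓ ≠ p) :
    (H127.tateGaloisRep (W.map (Int.castRingHom ℚ)).toAffine cb).IsUnramifiedAt ℓ :=
  H127.tateGaloisRep_isUnramifiedAt _ cb ℓ fun A hA σ hσ n x hx =>
    inertia_smul_eq_self_of_good W hℓ hgood (not_dvd_prime_pow hℓ hp.out hne n) A hA σ hσ x hx

/-- the curve over `ℚ̄` is elliptic as soon as `Δ(W) ≠ 0` -/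
theorem isElliptic_curveQbar (W : WeierstrassCurve ℤ) (hΔ : W.Δ ≠ 0) :
    (curveQbar W).IsElliptic := by
  refine ⟨?_⟩
  rw [curveQbar_Δ]
  exact isUnit_iff_ne_zero.mpr (by exact_mod_cast hΔ)

end Fermat.Agent.S59.H899

end
-- ===== PACK-END S59/H899/Unram.lean

-- ===== PACK-BEGIN S59/MFree/H761/Section.lean
section



/-!
# S59 / M-FREE (helper761): sections of `X' → X` stable under a torsion element, fibres as torsors
-/

set_option autoImplicit false

namespace Fermat.Agent.S59.MFree.H761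

open CongruenceSubgroup Matrix.SpecialLinearGroup ModularGroup
open Fermat.Agent.S41.Spec Fermat.Agent.S59.MFree Fermat.Agent.S41.H232
open scoped MatrixGroups

universe u

section Section

variable {Γ' Γ : Subgroup SL(2, ℤ)} (hle : Γ' ≤ Γ)

theorem quotMap_surjective : Function.Surjective (Subgroup.quotientMapOfLE hle) := by
  intro x
  induction x using QuotientGroup.induction_on with
  | H a => exact ⟨(a : SL(2, ℤ) ⧸ Γ'), rfl⟩

theorem quotMap_zpow_smul (σ : SL(2, ℤ)) (k : ℤ) (x' : SL(2, ℤ) ⧸ Γ') :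
    Subgroup.quotientMapOfLE hle (σ ^ k • x') = σ ^ k • Subgroup.quotientMapOfLE hle x' :=
  quotMap_smul hle _ _

/-- A section of `π : X' → X` commuting with `σ`, if the stabilisers of the powers of `σ` lift. -/
theorem exists_stable_section (σ : SL(2, ℤ))
    (hstab : ∀ (k : ℤ) (x' : SL(2, ℤ) ⧸ Γ'),
      σ ^ k • Subgroup.quotientMapOfLE hle x' = Subgroup.quotientMapOfLE hle x' → σ ^ k • x' = x') :
    ∃ t : SL(2, ℤ) ⧸ Γ → SL(2, ℤ) ⧸ Γ',
      (∀ x, Subgroup.quotientMapOfLE hle (t x) = x) ∧ ∀ x, t (σ • x) = σ • t x := by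
  classical
  -- the orbit relation of `σ` on `X`
  let r : Setoid (SL(2, ℤ) ⧸ Γ) :=
    { r := fun x y => ∃ k : ℤ, σ ^ k • x = y
      iseqv := by
        refine ⟨fun x => ⟨0, by simp⟩, ?_, ?_⟩
        · rintro x y ⟨k, hk⟩
          refine ⟨-k, ?_⟩
          rw [← hk, ← mul_smul, ← zpow_add, neg_add_cancel, zpow_zero, one_smul]
        · rintro x y z ⟨k, hk⟩ ⟨l, hl⟩
          refine ⟨l + k, ?_⟩
          rw [zpow_add, mul_smul, hk, hl] }
  let rep : SL(2, ℤ) ⧸ Γ → SL(2, ℤ) ⧸ Γ := fun x => (Quotient.mk r x).out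
  have hrep : ∀ x, ∃ k : ℤ, σ ^ k • rep x = x := fun x => Quotient.exact (Quotient.out_eq (Quotient.mk r x))
  have hrepσ : ∀ x, rep (σ • x) = rep x := by
    intro x
    have : Quotient.mk r (σ • x) = Quotient.mk r x := by
      apply Quotient.sound
      exact ⟨-1, by rw [← mul_smul, zpow_neg, zpow_one, inv_mul_cancel, one_smul]⟩
    show (Quotient.mk r (σ • x)).out = (Quotient.mk r x).out
    rw [this]
  choose k hk using hrep
  choose lift hlift using quotMap_surjective hle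
  refine ⟨fun x => σ ^ k x • lift (rep x), ?_, ?_⟩
  · intro x
    rw [quotMap_zpow_smul, hlift, hk]
  · intro x
    show σ ^ k (σ • x) • lift (rep (σ • x)) = σ • σ ^ k x • lift (rep x)
    rw [hrepσ]
    have hcomm : σ ^ (k x + 1) = σ * σ ^ k x := by
      rw [add_comm, zpow_add, zpow_one]
    have h1 : σ ^ k (σ • x) • rep x = σ ^ (k x + 1) • rep x := by
      have := hk (σ • x)
      rw [hrepσ] at this
      rw [this, hcomm, mul_smul, hk]
    have h2 : σ ^ (k (σ • x) - (k x + 1)) • Subgroup.quotientMapOfLE hle (lift (rep x)) =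
        Subgroup.quotientMapOfLE hle (lift (rep x)) := by
      rw [hlift, zpow_sub, mul_smul]
      rw [show σ ^ k (σ • x) • (σ ^ (k x + 1))⁻¹ • rep x =
        (σ ^ (k x + 1))⁻¹ • σ ^ k (σ • x) • rep x by
          rw [← mul_smul, ← mul_smul]
          congr 1
          rw [← zpow_neg, ← zpow_add, ← zpow_add, add_comm]]
      rw [h1, inv_smul_smul]
    have h3 := hstab _ _ h2
    have h4 : σ ^ k (σ • x) • lift (rep x) = σ ^ (k x + 1) • lift (rep x) := by
      have : σ ^ k (σ • x) = σ ^ (k x + 1) * σ ^ (k (σ • x) - (k x + 1)) := by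
        rw [← zpow_add]
        congr 1
        ring
      rw [this, mul_smul, h3]
    rw [h4, hcomm, mul_smul]

end Section

section Stab

variable {Γ : Subgroup SL(2, ℤ)} {D : Type*} [Group D] (κ : Γ →* D)

/-- (Ell) ⇒ stabilisers of torsion elements lift from `X` to `X'`. -/
theorem smul_eq_of_ell (hell : ∀ g : Γ, IsOfFinOrder g → κ g = 1) {a : SL(2, ℤ)}
    (ha : IsOfFinOrder a) (x' : SL(2, ℤ) ⧸ kerSub κ)
    (h : a • Subgroup.quotientMapOfLE (kerSub_le κ) x' = Subgroup.quotientMapOfLE (kerSub_le κ) x') :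
    a • x' = x' := by
  induction x' using QuotientGroup.induction_on with
  | H b =>
    have h1 : (((a * b : SL(2, ℤ)) : SL(2, ℤ)) : SL(2, ℤ) ⧸ Γ) = ((b : SL(2, ℤ)) : SL(2, ℤ) ⧸ Γ) := h
    have h2 : (a * b)⁻¹ * b ∈ Γ := QuotientGroup.eq.mp h1
    have h3 : IsOfFinOrder ((a * b)⁻¹ * b) := by
      have e : (a * b)⁻¹ * b = b⁻¹ * a⁻¹ * b := by group
      rw [e]
      obtain ⟨n, hn, hn'⟩ := (isOfFinOrder_iff_pow_eq_one.mp ha.inv)
      refine isOfFinOrder_iff_pow_eq_one.mpr ⟨n, hn, ?_⟩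
      have : (b⁻¹ * a⁻¹ * b) ^ n = b⁻¹ * (a⁻¹) ^ n * b := by
        have := conj_pow (a := b⁻¹) (b := a⁻¹) (i := n)
        rw [inv_inv] at this
        exact this
      rw [this, hn']
      group
    have h4 : κ ⟨(a * b)⁻¹ * b, h2⟩ = 1 := hell ⟨_, h2⟩ (by
      have := Submonoid.isOfFinOrder_coe (H := Γ.toSubmonoid) (x := ⟨(a * b)⁻¹ * b, h2⟩)
      exact this.mp h3)
    show (((a * b : SL(2, ℤ)) : SL(2, ℤ)) : SL(2, ℤ) ⧸ kerSub κ) = ((b : SL(2, ℤ)) : SL(2, ℤ) ⧸ kerSub κ)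
    exact QuotientGroup.eq.mpr (mem_kerSub.mpr ⟨h2, h4⟩)

theorem exists_stable_section_of_ell (hell : ∀ g : Γ, IsOfFinOrder g → κ g = 1) {σ : SL(2, ℤ)}
    (hσ : IsOfFinOrder σ) :
    ∃ t : SL(2, ℤ) ⧸ Γ → SL(2, ℤ) ⧸ kerSub κ,
      (∀ x, Subgroup.quotientMapOfLE (kerSub_le κ) (t x) = x) ∧ ∀ x, t (σ • x) = σ • t x :=
  exists_stable_section (kerSub_le κ) σ fun _ x' h => smul_eq_of_ell κ hell hσ.zpow x' h

end Stab

section LiftFun

variable {Γ' Γ : Subgroup SL(2, ℤ)} (hle : Γ' ≤ Γ) {A : Type*} [AddCommGroup A]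

/-- The function on `X'` supported on the section `t`, with values `n`. -/
noncomputable def liftFun (t : SL(2, ℤ) ⧸ Γ → SL(2, ℤ) ⧸ Γ') (n : SL(2, ℤ) ⧸ Γ → A) :
    SL(2, ℤ) ⧸ Γ' → A :=
  open Classical in
  fun x' => if x' = t (Subgroup.quotientMapOfLE hle x') then n (Subgroup.quotientMapOfLE hle x') else 0

theorem pushQ_liftFun (t : SL(2, ℤ) ⧸ Γ → SL(2, ℤ) ⧸ Γ')
    (ht : ∀ x, Subgroup.quotientMapOfLE hle (t x) = x) (n : SL(2, ℤ) ⧸ Γ → A) (x : SL(2, ℤ) ⧸ Γ) :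
    pushQ hle (liftFun hle t n) x = n x := by
  classical
  unfold pushQ
  have h1 : ∀ x' : SL(2, ℤ) ⧸ Γ',
      (∑ᶠ (_ : Subgroup.quotientMapOfLE hle x' = x), liftFun hle t n x') =
        if x' = t x then n x else 0 := by
    intro x'
    rw [finsum_eq_if]
    unfold liftFun
    by_cases hx : Subgroup.quotientMapOfLE hle x' = x
    · rw [if_pos hx, hx]
    · rw [if_neg hx]
      rw [if_neg]
      rintro rfl
      exact hx (ht x)
  rw [finsum_congr h1, finsum_eq_single _ (t x) (fun y hy => if_neg hy), if_pos rfl]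

theorem liftFun_smul (t : SL(2, ℤ) ⧸ Γ → SL(2, ℤ) ⧸ Γ') (σ : SL(2, ℤ))
    (htσ : ∀ x, t (σ • x) = σ • t x) (n : SL(2, ℤ) ⧸ Γ → A) (hn : ∀ x, n (σ • x) = n x)
    (x' : SL(2, ℤ) ⧸ Γ') : liftFun hle t n (σ • x') = liftFun hle t n x' := by
  classical
  unfold liftFun
  rw [quotMap_smul, htσ, hn]
  by_cases h : x' = t (Subgroup.quotientMapOfLE hle x')
  · rw [if_pos h, if_pos (by rw [← h])]
  · rw [if_neg h, if_neg]
    intro h'
    exact h (MulAction.injective σ h')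

end LiftFun

end Fermat.Agent.S59.MFree.H761

end
-- ===== PACK-END S59/MFree/H761/Section.lean

-- ===== PACK-BEGIN Lib/Ribet/H404/ResMod.lean
section










/-!
# RIBET, forms-side interface (helper404)

Residual modularity of level `M` (Prelude `WeierstrassCurve.IsResiduallyModularOfLevel`) is
equivalent to the existence of a maximal ideal of the full weight-2 Hecke algebra of level `M`
(Prelude `CuspForm.heckeAlgebra M 2 ∅`) containing `p` and all `T_ℓ - a_ℓ(W)`: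

* `isResiduallyModularOfLevel_of_heckeResMod` (Deligne–Serre lifting);
* `heckeResMod_of_isResiduallyModularOfLevel` (eigencharacter of the eigenform);
* `isResiduallyModularOfLevel_iff`.

So a level-lowering argument only has to produce a *proper ideal* of the Hecke algebra of the
lower level.
-/

set_option autoImplicit false

open CuspForm CongruenceSubgroup ModularFormClass

namespace Fermat.Agent.Lib.Ribet.H404

/-- The Hecke-algebra form of residual modularity of level `M`. -/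
def HeckeResMod (W : WeierstrassCurve ℤ) (p M : ℕ) [NeZero M] : Prop :=
  ∃ 𝔫 : Ideal (heckeAlgebra M 2 (∅ : Set ℕ)), 𝔫.IsMaximal ∧
    ((p : ℕ) : heckeAlgebra M 2 (∅ : Set ℕ)) ∈ 𝔫 ∧
    ∀ (ℓ : ℕ) (hℓ : ℓ.Prime) (hℓM : ¬ ℓ ∣ M), W.IsGoodPrimeFor ℓ → ℓ ≠ p →
      (heckeAlgebra.T hℓ hℓM (Set.notMem_empty _) : heckeAlgebra M 2 (∅ : Set ℕ))
        - algebraMap ℤ _ (W.apOfModel ℓ) ∈ 𝔫

variable {M : ℕ} [NeZero M]

/-- Every ring homomorphism from the Hecke algebra to `ℂ` takes values in `ℤ̄`. -/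
theorem ringHom_mem_integralClosure (χ : heckeAlgebra M 2 (∅ : Set ℕ) →+* ℂ)
    (t : heckeAlgebra M 2 (∅ : Set ℕ)) : χ t ∈ integralClosure ℤ ℂ := by
  have : Module.Finite ℤ (heckeAlgebra M 2 (∅ : Set ℕ)) := Fermat.Agent.S22.result M 2 ∅
  have ht : IsIntegral ℤ t := Algebra.IsIntegral.isIntegral t
  exact ht.map χ.toIntAlgHom

/-- **Deligne–Serre lifting**: a maximal ideal of the Hecke algebra of level `M` containing `p`
and the `T_ℓ - a_ℓ(W)` gives a normalised eigenform of level `M` congruent to `W`. -/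
theorem isResiduallyModularOfLevel_of_heckeResMod {W : WeierstrassCurve ℤ} {p : ℕ}
    (h : HeckeResMod W p M) : W.IsResiduallyModularOfLevel p M := by
  classical
  obtain ⟨𝔫, h𝔫max, hp𝔫, hT⟩ := h
  have := Fermat.Agent.Lib.Newform.H683.finiteDimensional_cuspForm M 2
  have : 𝔫.IsPrime := h𝔫max.isPrime
  obtain ⟨g, χ, hg, hχ, hker⟩ := Fermat.Agent.S49.exists_eigenvector_ker_le
    (K := ℂ) (V := CuspForm (Gamma0 M) 2)
    ((heckeAlgebra M 2 (∅ : Set ℕ)).val.toRingHom) Subtype.val_injective 𝔫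
  let χ' : heckeAlgebra M 2 (∅ : Set ℕ) →+* integralClosure ℤ ℂ :=
    χ.codRestrict (integralClosure ℤ ℂ).toSubring (ringHom_mem_integralClosure χ)
  have hχ' : ∀ t, ((χ' t : integralClosure ℤ ℂ) : ℂ) = χ t := fun t => rfl
  have hker' : RingHom.ker χ' ≤ 𝔫 := by
    intro t ht
    apply hker
    rw [RingHom.mem_ker] at ht ⊢
    rw [← hχ', ht]
    rfl
  obtain ⟨𝔪', h𝔪', hover⟩ := Fermat.Agent.S49.exists_maximal_over χ' 𝔫 hker'
  obtain ⟨f, hf, hfℓ⟩ := Fermat.Agent.S49.exists_normalized_eigenform g hg χ hχ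
  refine ⟨f, 𝔪', hf, h𝔪', ?_, fun ℓ hℓ hgood hℓM hℓp => ?_⟩
  · have hp' := hover _ hp𝔫
    rw [map_natCast] at hp'
    exact hp'
  · refine ⟨χ' (heckeAlgebra.T hℓ hℓM (Set.notMem_empty _)), ?_, ?_⟩
    · rw [hχ', hfℓ ℓ hℓ hℓM]
    · have := hover _ (hT ℓ hℓ hℓM hgood hℓp)
      simpa using this

/-- A normalised eigenform is an eigenvector of every element of the Hecke algebra. -/
theorem exists_eigenvalue {f : CuspForm (Gamma0 M) 2} (hf : f.IsNormalizedEigenform)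
    (t : heckeAlgebra M 2 (∅ : Set ℕ)) :
    ∃ c : ℂ, (t : Module.End ℂ (CuspForm (Gamma0 M) 2)) f = c • f := by
  obtain ⟨t, ht⟩ := t
  show ∃ c : ℂ, t f = c • f
  induction ht using Algebra.adjoin_induction with
  | mem x hx =>
    rcases hx with ⟨ℓ, hℓ, hℓN, -, rfl⟩ | ⟨q, hqN, hq, -, rfl⟩
    · exact ⟨_, Fermat.Agent.Lib.Newform.H683.heckeTLin_eq_of_eigenform hf hℓ hℓN⟩
    · exact ⟨_, Fermat.Agent.Lib.Newform.H683.heckeULin_eq_of_eigenform hf hq hqN⟩
  | algebraMap r =>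
    refine ⟨(r : ℂ), ?_⟩
    rw [Algebra.algebraMap_eq_smul_one, LinearMap.smul_apply, Module.End.one_apply]
    exact (Int.cast_smul_eq_zsmul ℂ r f).symm
  | add x y _ _ hx hy =>
    obtain ⟨c, hc⟩ := hx
    obtain ⟨d, hd⟩ := hy
    exact ⟨c + d, by rw [LinearMap.add_apply, hc, hd, add_smul]⟩
  | mul x y _ _ hx hy =>
    obtain ⟨c, hc⟩ := hx
    obtain ⟨d, hd⟩ := hy
    exact ⟨d * c, by rw [Module.End.mul_apply, hd, map_smul, hc, smul_smul]⟩

/-- The eigenvalue of `t` on a normalised eigenform is the first coefficient of `t f`. -/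
theorem apply_eq_qCoeff_one_smul {f : CuspForm (Gamma0 M) 2} (hf : f.IsNormalizedEigenform)
    (t : heckeAlgebra M 2 (∅ : Set ℕ)) :
    (t : Module.End ℂ (CuspForm (Gamma0 M) 2)) f =
      qCoeff ⇑((t : Module.End ℂ (CuspForm (Gamma0 M) 2)) f) 1 • f := by
  obtain ⟨c, hc⟩ := exists_eigenvalue hf t
  have h1 : qCoeff ⇑((t : Module.End ℂ (CuspForm (Gamma0 M) 2)) f) 1 = c := by
    rw [hc, Fermat.Agent.Lib.Newform.H683.qCoeff_smul_cusp, hf.qCoeff_one, mul_one]
  rw [h1, hc]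

/-- The eigencharacter of a normalised eigenform. -/
noncomputable def eigenChar {f : CuspForm (Gamma0 M) 2} (hf : f.IsNormalizedEigenform) :
    heckeAlgebra M 2 (∅ : Set ℕ) →+* ℂ where
  toFun t := qCoeff ⇑((t : Module.End ℂ (CuspForm (Gamma0 M) 2)) f) 1
  map_one' := by
    show qCoeff ⇑(((1 : heckeAlgebra M 2 (∅ : Set ℕ)) :
      Module.End ℂ (CuspForm (Gamma0 M) 2)) f) 1 = 1
    rw [Subalgebra.coe_one, Module.End.one_apply, hf.qCoeff_one]
  map_mul' s t := by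
    obtain ⟨c, hc⟩ := exists_eigenvalue hf t
    have hc1 : qCoeff ⇑((t : Module.End ℂ (CuspForm (Gamma0 M) 2)) f) 1 = c := by
      rw [hc, Fermat.Agent.Lib.Newform.H683.qCoeff_smul_cusp, hf.qCoeff_one, mul_one]
    show qCoeff ⇑(((s * t : heckeAlgebra M 2 (∅ : Set ℕ)) :
      Module.End ℂ (CuspForm (Gamma0 M) 2)) f) 1 =
        qCoeff ⇑((s : Module.End ℂ (CuspForm (Gamma0 M) 2)) f) 1 *
          qCoeff ⇑((t : Module.End ℂ (CuspForm (Gamma0 M) 2)) f) 1
    rw [hc1, Subalgebra.coe_mul, Module.End.mul_apply, hc, map_smul,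
      Fermat.Agent.Lib.Newform.H683.qCoeff_smul_cusp, mul_comm]
  map_zero' := by
    show qCoeff ⇑(((0 : heckeAlgebra M 2 (∅ : Set ℕ)) :
      Module.End ℂ (CuspForm (Gamma0 M) 2)) f) 1 = 0
    rw [Subalgebra.coe_zero, LinearMap.zero_apply]
    have : (0 : CuspForm (Gamma0 M) 2) = (0 : ℂ) • f := by simp
    rw [this, Fermat.Agent.Lib.Newform.H683.qCoeff_smul_cusp, zero_mul]
  map_add' s t := by
    show qCoeff ⇑(((s + t : heckeAlgebra M 2 (∅ : Set ℕ)) :
      Module.End ℂ (CuspForm (Gamma0 M) 2)) f) 1 = _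
    rw [Subalgebra.coe_add, LinearMap.add_apply,
      Fermat.Agent.Lib.Newform.H683.qCoeff_add_cusp]

theorem eigenChar_apply {f : CuspForm (Gamma0 M) 2} (hf : f.IsNormalizedEigenform)
    (t : heckeAlgebra M 2 (∅ : Set ℕ)) :
    eigenChar hf t = qCoeff ⇑((t : Module.End ℂ (CuspForm (Gamma0 M) 2)) f) 1 := rfl

theorem eigenChar_T {f : CuspForm (Gamma0 M) 2} (hf : f.IsNormalizedEigenform) {ℓ : ℕ}
    (hℓ : ℓ.Prime) (hℓM : ¬ ℓ ∣ M) :
    eigenChar hf (heckeAlgebra.T hℓ hℓM (Set.notMem_empty _)) = qCoeff ⇑f ℓ := by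
  rw [eigenChar_apply, heckeAlgebra.coe_T,
    Fermat.Agent.Lib.Newform.H683.heckeTLin_eq_of_eigenform hf hℓ hℓM,
    Fermat.Agent.Lib.Newform.H683.qCoeff_smul_cusp, hf.qCoeff_one, mul_one]

theorem eigenChar_U {f : CuspForm (Gamma0 M) 2} (hf : f.IsNormalizedEigenform) {q : ℕ}
    (hq : q.Prime) (hqM : q ∣ M) :
    eigenChar hf (heckeAlgebra.U hq hqM (Set.notMem_empty _)) = qCoeff ⇑f q := by
  rw [eigenChar_apply, heckeAlgebra.coe_U,
    Fermat.Agent.Lib.Newform.H683.heckeULin_eq_of_eigenform hf hq hqM,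
    Fermat.Agent.Lib.Newform.H683.qCoeff_smul_cusp, hf.qCoeff_one, mul_one]

/-- The eigencharacter with values in `ℤ̄`. -/
noncomputable def eigenCharInt {f : CuspForm (Gamma0 M) 2} (hf : f.IsNormalizedEigenform) :
    heckeAlgebra M 2 (∅ : Set ℕ) →+* integralClosure ℤ ℂ :=
  (eigenChar hf).codRestrict (integralClosure ℤ ℂ).toSubring
    (ringHom_mem_integralClosure (eigenChar hf))

theorem coe_eigenCharInt {f : CuspForm (Gamma0 M) 2} (hf : f.IsNormalizedEigenform)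
    (t : heckeAlgebra M 2 (∅ : Set ℕ)) :
    ((eigenCharInt hf t : integralClosure ℤ ℂ) : ℂ) = eigenChar hf t := rfl

/-- Conversely, a congruent normalised eigenform gives a maximal ideal of the Hecke algebra. -/
theorem heckeResMod_of_isResiduallyModularOfLevel {W : WeierstrassCurve ℤ} {p : ℕ}
    (h : W.IsResiduallyModularOfLevel p M) : HeckeResMod W p M := by
  obtain ⟨f, 𝔪, hf, h𝔪, hp𝔪, hcong⟩ := h
  let _ : Algebra (heckeAlgebra M 2 (∅ : Set ℕ)) (integralClosure ℤ ℂ) :=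
    (eigenCharInt hf).toAlgebra
  have hint : Algebra.IsIntegral (heckeAlgebra M 2 (∅ : Set ℕ)) (integralClosure ℤ ℂ) :=
    ⟨fun x => (Algebra.IsIntegral.isIntegral (R := ℤ) x).tower_top⟩
  have hmax : (𝔪.comap (algebraMap (heckeAlgebra M 2 (∅ : Set ℕ)) (integralClosure ℤ ℂ))).IsMaximal :=
    Ideal.isMaximal_comap_of_isIntegral_of_isMaximal 𝔪
  refine ⟨_, hmax, ?_, fun ℓ hℓ hℓM hgood hℓp => ?_⟩
  · rw [Ideal.mem_comap, map_natCast]
    exact hp𝔪
  · rw [Ideal.mem_comap]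
    obtain ⟨a, ha, ham⟩ := hcong ℓ hℓ hgood hℓM hℓp
    have e : algebraMap (heckeAlgebra M 2 (∅ : Set ℕ)) (integralClosure ℤ ℂ)
        (heckeAlgebra.T hℓ hℓM (Set.notMem_empty _) - algebraMap ℤ _ (W.apOfModel ℓ)) =
        a - ((W.apOfModel ℓ : ℤ) : integralClosure ℤ ℂ) := by
      rw [map_sub]
      congr 1
      · apply Subtype.ext
        rw [ha]
        exact eigenChar_T hf hℓ hℓM
      · simp
    rw [e]
    exact ham

/-- **Forms-side interface of level lowering.** -/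
theorem isResiduallyModularOfLevel_iff {W : WeierstrassCurve ℤ} {p : ℕ} :
    W.IsResiduallyModularOfLevel p M ↔ HeckeResMod W p M :=
  ⟨heckeResMod_of_isResiduallyModularOfLevel, isResiduallyModularOfLevel_of_heckeResMod⟩

end Fermat.Agent.Lib.Ribet.H404

end
-- ===== PACK-END Lib/Ribet/H404/ResMod.lean

-- ===== PACK-BEGIN S59/TW/Aut/H581/Nontriv.lean
section



/-!
# Row S59 / row 37, cell TW, layer 3 (AUT): leaf NONTRIV (helper581)

`nontriv : TW.Aut.NontrivStatement`: the localisation `V₀` of `X_{Γ₀(N₀)}(𝒪)` at the maximal ideal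
of the minimal package is nonzero.

Route (no new Eichler–Shimura input): the Hecke algebra acts faithfully on the period lattice
(`S30.H709.perRho`, `perRho_injective`), so the residual character `θ` of the package has nonzero
eigen-coefficients `w` on a `ℤ`-basis of the lattice (`S30.H709.exists_eigen_coeffs`, with values
in the residue field).  Lifting the coefficients to `𝒪` gives a class `x = ũ ∘ perCls` in
`X_{Γ₀(N₀)}(𝒪)` which is not in `𝔪_𝒪 X` and is an eigenvector modulo `𝔪_𝒪 X` for all `T_ℓ` with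
the eigenvalues of `θ`.  The fullness clause of `IsLocPart` then gives `e x ≠ 0`.
-/

set_option autoImplicit false

open Polynomial IsLocalRing CongruenceSubgroup
open scoped MatrixGroups

namespace Fermat.Agent.S59.TW.Aut.H581

open Fermat.Agent.S59.Arch Fermat.Agent.S59.TW.H959 Fermat.Agent.S59.TW.H653
open Fermat.Agent.S59.TW.Aut

/-! ## `𝔪_𝒪 · X_K(𝒪)` elementwise -/

section MX

variable {K : Subgroup SL(2, ℤ)} {𝒪 : Type} [CommRing 𝒪]

/-- An element of `𝔪_𝒪 · X_K(𝒪)` has all its values in `𝔪_𝒪`. -/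
theorem h581_apply_mem_of_mem_mX [IsLocalRing 𝒪] {y : Additive K →+ 𝒪} (hy : y ∈ mX K 𝒪) (γ : Additive K) :
    y γ ∈ maximalIdeal 𝒪 := by
  unfold mX at hy
  refine Submodule.smul_induction_on hy ?_ ?_
  · intro r hr n _
    rw [AddMonoidHom.smul_apply, smul_eq_mul]
    exact Ideal.mul_mem_right _ _ hr
  · intro a b ha hb
    rw [AddMonoidHom.add_apply]
    exact Ideal.add_mem _ ha hb

/-- A class with all its values in `𝔪_𝒪` lies in `𝔪_𝒪 · X_K(𝒪)` (`𝒪` a discrete valuation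
ring). -/
theorem h581_mem_mX_of_forall_mem [IsDomain 𝒪] [IsDiscreteValuationRing 𝒪]
    (y : Additive K →+ 𝒪) (h : ∀ γ, y γ ∈ maximalIdeal 𝒪) : y ∈ mX K 𝒪 := by
  obtain ⟨ϖ, hϖ⟩ := IsDiscreteValuationRing.exists_irreducible 𝒪
  have hm : maximalIdeal 𝒪 = Ideal.span {ϖ} := hϖ.maximalIdeal_eq
  have hϖ0 : ϖ ≠ 0 := hϖ.ne_zero
  have hex : ∀ γ, ∃ z, y γ = ϖ * z := fun γ => by
    have h1 := h γ
    rw [hm, Ideal.mem_span_singleton'] at h1
    obtain ⟨a, ha⟩ := h1
    exact ⟨a, by rw [← ha, mul_comm]⟩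
  choose z hz using hex
  let zh : Additive K →+ 𝒪 :=
    { toFun := z
      map_zero' := by
        have h1 := hz 0
        rw [map_zero] at h1
        exact (mul_eq_zero.mp h1.symm).resolve_left hϖ0
      map_add' := fun a b => by
        have h1 := hz (a + b)
        rw [map_add, hz a, hz b, ← mul_add] at h1
        exact (mul_left_cancel₀ hϖ0 h1).symm }
  have hy : y = ϖ • zh := by
    refine AddMonoidHom.ext fun γ => ?_
    rw [AddMonoidHom.smul_apply, smul_eq_mul]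
    exact hz γ
  rw [hy]
  unfold mX
  exact Submodule.smul_mem_smul (by rw [hm]; exact Ideal.mem_span_singleton_self ϖ)
    Submodule.mem_top

end MX

/-! ## The primes of the minimal level lie in `Smin` -/

theorem h581_mem_of_dvd_wilesLevel {p : ℕ} {t : PType} {Smin : Finset ℕ}
    (hp : p ∈ Smin) (hS : ∀ q ∈ Smin, q.Prime) {q : ℕ} (hq : q.Prime)
    (hdvd : q ∣ wilesLevel p t Smin Smin) : q ∈ (↑Smin : Set ℕ) := by
  unfold wilesLevel at hdvd
  rw [Finset.sdiff_self, Finset.prod_empty, mul_one] at hdvd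
  rcases (Nat.Prime.dvd_mul hq).mp hdvd with h | h
  · obtain ⟨a, ha, hqa⟩ := (Prime.dvd_finsetProd_iff hq.prime _).mp h
    have ha' : a ∈ Smin := Finset.mem_of_mem_erase ha
    have : q = a := (Nat.prime_dvd_prime_iff_eq hq (hS a ha')).mp hqa
    rw [this]
    exact ha'
  · cases t with
    | flat => exact absurd (Nat.dvd_one.mp h) hq.one_lt.ne'
    | sord =>
      have hpp : p.Prime := hS p hp
      have : q = p := (Nat.prime_dvd_prime_iff_eq hq hpp).mp h
      rw [this]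
      exact hp
    | ord =>
      have hpp : p.Prime := hS p hp
      have : q = p := (Nat.prime_dvd_prime_iff_eq hq hpp).mp h
      rw [this]
      exact hp

/-! ## Occurrence of a residual character in `X_{Γ₀(N)}(𝒪)` -/

section Occ

open Fermat.Agent.S30.H709 Fermat.Agent.S29

variable {N : ℕ} [NeZero N]

omit [NeZero N] in
/-- The two transfer elements (helper201's `trf`, helper642's `hElt`) agree. -/
theorem h581_hElt_eq_trf {ℓ : ℕ} [Fact ℓ.Prime] (hℓN : ¬ ℓ ∣ N) (γ : Gamma0 N)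
    (x : OnePoint (ZMod ℓ)) : H642.hElt hℓN γ x = H201.trf hℓN γ x :=
  H201.trf_unique hℓN γ _ x (H642.hElt_spec hℓN γ x)

/-- **Occurrence.**  Every character `θ` of the Hecke algebra (away from `S ⊇ primes(N)`) with
values in the residue field of a discrete valuation ring `𝒪` occurs in
`X_{Γ₀(N)}(𝒪) / 𝔪_𝒪`: there is a class `x ∉ 𝔪_𝒪 X` with `T_ℓ x - c x ∈ 𝔪_𝒪 X` for every good prime
`ℓ` and every lift `c` of `θ(T_ℓ)`. -/
theorem h581_exists_occ {S : Set ℕ} (hNS : ∀ q : ℕ, q.Prime → q ∣ N → q ∈ S)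
    {𝒪 : Type} [CommRing 𝒪] [IsDomain 𝒪] [IsDiscreteValuationRing 𝒪]
    (θ : CuspForm.heckeAlgebra N 2 S →+* ResidueField 𝒪) :
    ∃ x : Additive (Gamma0 N) →+ 𝒪, x ∉ mX (Gamma0 N) 𝒪 ∧
      ∀ (ℓ : ℕ) [Fact ℓ.Prime] (hℓN : ¬ ℓ ∣ N) (hℓS : ℓ ∉ S) (c : 𝒪),
        residue 𝒪 c = θ (CuspForm.heckeAlgebra.T (Fact.out : ℓ.Prime) hℓN hℓS) →
        H642.heckeTransfer hℓN x - c • x ∈ mX (Gamma0 N) 𝒪 := by
  classical
  have hPH := periodHecke_facCoh N
  let b := Module.finBasis ℤ (perLattice N)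
  obtain ⟨w, hw0, hw⟩ := exists_eigen_coeffs (perRho hPH hNS) (perRho_injective hPH hNS) b θ
  -- lift the coefficients
  have hlift : ∀ j, ∃ a : 𝒪, residue 𝒪 a = w j := fun j => residue_surjective (w j)
  choose wt hwt using hlift
  -- the functional on the period lattice
  let u : perLattice N →+ 𝒪 :=
    { toFun := fun y => ∑ j, wt j * ((b.repr y j : ℤ) : 𝒪)
      map_zero' := by simp
      map_add' := fun y z => by
        simp only [map_add, Finsupp.coe_add, Pi.add_apply, Int.cast_add, mul_add,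
          Finset.sum_add_distrib] }
  have hu : ∀ y, u y = ∑ j, wt j * ((b.repr y j : ℤ) : 𝒪) := fun _ => rfl
  -- its reduction
  let ub : perLattice N →+ ResidueField 𝒪 := (residue 𝒪 : 𝒪 →+* ResidueField 𝒪).toAddMonoidHom.comp u
  have hub_apply : ∀ y, ub y = ∑ j, w j * ((b.repr y j : ℤ) : ResidueField 𝒪) := by
    intro y
    show residue 𝒪 (u y) = _
    rw [hu, map_sum]
    refine Finset.sum_congr rfl fun j _ => ?_
    rw [map_mul, hwt, map_intCast]
  have hub : ∀ k, ub (b k) = w k := by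
    intro k
    rw [hub_apply, Finset.sum_eq_single k]
    · rw [Module.Basis.repr_self, Finsupp.single_eq_same, Int.cast_one, mul_one]
    · intro j _ hj
      rw [Module.Basis.repr_self, Finsupp.single_eq_of_ne hj, Int.cast_zero, mul_zero]
    · intro h
      exact absurd (Finset.mem_univ k) h
  have hsemi : ∀ (t : CuspForm.heckeAlgebra N 2 S) (y : perLattice N),
      ub (perRho hPH hNS t y) = θ t * ub y := by
    intro t y
    conv_lhs => rw [← b.sum_repr y]
    conv_rhs => rw [← b.sum_repr y]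
    rw [map_sum, map_sum, map_sum, Finset.mul_sum]
    refine Finset.sum_congr rfl fun k _ => ?_
    rw [map_zsmul, map_zsmul, map_zsmul, hub, zsmul_eq_mul, zsmul_eq_mul, hub_apply, hw t k]
    ring
  -- the class
  let x : Additive (Gamma0 N) →+ 𝒪 :=
    { toFun := fun γ => u (perCls N (Additive.toMul γ))
      map_zero' := by rw [toMul_zero, perCls_one, map_zero]
      map_add' := fun γ δ => by rw [toMul_add, perCls_mul, map_add] }
  have hx : ∀ γ : Gamma0 N, x (Additive.ofMul γ) = u (perCls N γ) := fun _ => rfl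
  refine ⟨x, ?_, ?_⟩
  · -- `x ∉ 𝔪 X`
    intro hmem
    apply hw0
    have hvan : ∀ y : perLattice N, ub y = 0 := by
      intro y
      induction y using perCls_induction with
      | h0 => exact map_zero ub
      | hadd y z hy hz => rw [map_add, hy, hz, add_zero]
      | hneg y hy => rw [map_neg, hy, neg_zero]
      | hcls γ =>
        show residue 𝒪 (u (perCls N γ)) = 0
        rw [← hx, residue_eq_zero_iff]
        exact h581_apply_mem_of_mem_mX hmem _
    funext k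
    rw [← hub k, hvan]
    rfl
  · -- eigenvector modulo `𝔪 X`
    intro ℓ _ hℓN hℓS c hc
    apply h581_mem_mX_of_forall_mem
    intro γ
    obtain ⟨γ, rfl⟩ : ∃ γ' : Gamma0 N, Additive.ofMul γ' = γ := ⟨Additive.toMul γ, rfl⟩
    rw [AddMonoidHom.sub_apply, AddMonoidHom.smul_apply, smul_eq_mul, H642.heckeTransfer_apply,
      ← residue_eq_zero_iff, map_sub, map_mul, hc]
    have h1 : ∑ pt : OnePoint (ZMod ℓ), x (Additive.ofMul (H642.hElt hℓN γ pt))
        = u (perRho hPH hNS (CuspForm.heckeAlgebra.T (Fact.out : ℓ.Prime) hℓN hℓS)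
            (perCls N γ)) := by
      rw [perRho_perCls hPH hNS (Fact.out : ℓ.Prime) hℓN hℓS γ, map_multiset_sum,
        Multiset.map_map]
      have h2 := sum_map_facCoh N ℓ (fun δ => u (perCls N δ)) γ
      rw [M4aTop_heckeCoh_eq_sum_trf hℓN] at h2
      rw [show ((facCoh N ℓ γ).map (⇑u ∘ perCls N)).sum
          = ((facCoh N ℓ γ).map fun δ => u (perCls N δ)).sum from rfl, h2]
      refine Finset.sum_congr rfl fun pt _ => ?_
      rw [hx, h581_hElt_eq_trf]
    rw [h1]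
    have h3 := hsemi (CuspForm.heckeAlgebra.T (Fact.out : ℓ.Prime) hℓN hℓS) (perCls N γ)
    have h4 : residue 𝒪 (u (perRho hPH hNS (CuspForm.heckeAlgebra.T (Fact.out : ℓ.Prime) hℓN hℓS)
        (perCls N γ))) = ub (perRho hPH hNS (CuspForm.heckeAlgebra.T (Fact.out : ℓ.Prime) hℓN hℓS)
        (perCls N γ)) := rfl
    have h5 : residue 𝒪 (x (Additive.ofMul γ)) = ub (perCls N γ) := rfl
    rw [h4, h3, h5, sub_self]

end Occ

/-! ## The leaf -/

/-- **NONTRIV** (leaf of `TW/Aut/Spec.lean`). -/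
theorem nontriv : NontrivStatement := by
  intro p _ 𝒪 _ _ _ _ _ _ ρbar Smin h t _ hN P₀ V₀ hV₀
  classical
  have hNS : ∀ q : ℕ, q.Prime → q ∣ wilesLevel p t Smin Smin → q ∈ (↑Smin : Set ℕ) :=
    fun q hq hdvd => h581_mem_of_dvd_wilesLevel h.hpSmin h.hSmin hq hdvd
  obtain ⟨x, hx0, hxe⟩ := h581_exists_occ hNS P₀.θ
  obtain ⟨e, -, he_mem, -, -, -, -, hfull⟩ := hV₀.exists_proj
  have hex : e x ≠ 0 := by
    intro h0
    apply hx0
    refine hfull x h0 ?_ ?_
    · intro ℓ _ c hc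
      obtain ⟨hℓ, hℓN, hℓS, hres⟩ := hc
      rw [TK_Gamma0 hℓN]
      exact hxe ℓ hℓN hℓS c hres
    · intro q _ α hα
      exact absurd hα (Set.notMem_empty _)
  exact nontrivial_of_ne (⟨e x, he_mem x⟩ : V₀) 0 fun h0 => hex (congrArg Subtype.val h0)

end Fermat.Agent.S59.TW.Aut.H581

end
-- ===== PACK-END S59/TW/Aut/H581/Nontriv.lean

-- ===== PACK-BEGIN S59/TW/Aut/SkelLemmas.lean
section




/-!
# Row S59 / row 37, cell TW, layer 3 (AUT): lemmas for the glue (helper511)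

* `pkg_induction` : the Hecke ring of a package is generated over `𝒪` by the `T_ℓ`, `ℓ ∉ Σ`;
* `red_surjective` : `(ℤ/M_Q)ˣ → ∏ (ℤ/q_j)ˣ` is onto (Chinese remainder theorem);
* `diamondU_eq_of_chi` : the diamond operator of `K_Q` depends only on the class in `Δ_Q`;
* `ModOf V a` : the submodule `V` with the action of `T` through `a : T →ₐ[𝒪] End_𝒪 V`.
-/

set_option autoImplicit false

open Polynomial IsLocalRing CongruenceSubgroup
open scoped MatrixGroups

namespace Fermat.Agent.S59.TW.Aut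

open Fermat.Agent.S59.Arch Fermat.Agent.S59.TW.H959 Fermat.Agent.S59.TW.H653

/-! ## Generation of the Hecke ring -/

section Gen

variable {p : ℕ}
  {𝒪 : Type} [CommRing 𝒪] [IsDomain 𝒪] [IsDiscreteValuationRing 𝒪]
  [IsAdicComplete (maximalIdeal 𝒪) 𝒪]
  {ρbar : ResidualGaloisRep (ResidueField 𝒪)} {t : PType} {Smin : Finset ℕ}

/-- Induction principle for the Hecke ring of a package all of whose bad primes lie in `Σ`:
it is generated as an `𝒪`-algebra by the `T_ℓ`, `ℓ ∉ Σ`. -/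
theorem pkg_induction {Sig : Finset ℕ} [NeZero (wilesLevel p t Smin Sig)]
    (P : HeckePkg p 𝒪 ρbar t Smin Sig)
    (hU : ∀ q : ℕ, q.Prime → q ∣ wilesLevel p t Smin Sig → q ∈ (↑Sig : Set ℕ))
    (C : P.T → Prop) (h𝒪 : ∀ c : 𝒪, C (algebraMap 𝒪 P.T c))
    (hadd : ∀ x y, C x → C y → C (x + y)) (hmul : ∀ x y, C x → C y → C (x * y))
    (hT : ∀ (ℓ : ℕ) (hℓ : ℓ.Prime) (hℓN : ¬ ℓ ∣ wilesLevel p t Smin Sig)
      (hℓS : ℓ ∉ (↑Sig : Set ℕ)), C (P.H.π (CuspForm.heckeAlgebra.T hℓ hℓN hℓS))) :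
    ∀ s : P.T, C s := by
  intro s
  have hs : s ∈ Algebra.adjoin 𝒪 (Set.range P.H.π) := by
    rw [P.H.adjoin_range_π]
    trivial
  induction hs using Algebra.adjoin_induction with
  | mem x hx =>
    obtain ⟨⟨t0, ht0⟩, rfl⟩ := hx
    have key : ∀ (y : Module.End ℂ (CuspForm (Gamma0 (wilesLevel p t Smin Sig)) 2))
        (hy : y ∈ Algebra.adjoin ℤ (CuspForm.heckeGenerators (wilesLevel p t Smin Sig) 2
          (↑Sig : Set ℕ))), C (P.H.π ⟨y, hy⟩) := by
      intro y hy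
      induction hy using Algebra.adjoin_induction with
      | mem z hz =>
        rcases hz with ⟨ℓ, hℓ, hℓN, hℓS, rfl⟩ | ⟨q, hqN, hq, hqS, rfl⟩
        · exact hT ℓ hℓ hℓN hℓS
        · exact absurd (hU q hq hqN) hqS
      | algebraMap n =>
        have h1 : (⟨algebraMap ℤ _ n, Subalgebra.algebraMap_mem _ n⟩ :
            CuspForm.heckeAlgebra (wilesLevel p t Smin Sig) 2 (↑Sig : Set ℕ)) =
            ((n : ℤ) : CuspForm.heckeAlgebra (wilesLevel p t Smin Sig) 2 (↑Sig : Set ℕ)) := by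
          apply Subtype.ext
          simp
        rw [h1, map_intCast]
        have h2 : ((n : ℤ) : P.T) = algebraMap 𝒪 P.T (n : 𝒪) := by
          rw [map_intCast]
        rw [h2]
        exact h𝒪 _
      | add a b ha hb iha ihb =>
        have h1 : (⟨a + b, add_mem ha hb⟩ :
            CuspForm.heckeAlgebra (wilesLevel p t Smin Sig) 2 (↑Sig : Set ℕ)) =
            ⟨a, ha⟩ + ⟨b, hb⟩ := rfl
        rw [h1, map_add]
        exact hadd _ _ iha ihb
      | mul a b ha hb iha ihb =>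
        have h1 : (⟨a * b, mul_mem ha hb⟩ :
            CuspForm.heckeAlgebra (wilesLevel p t Smin Sig) 2 (↑Sig : Set ℕ)) =
            ⟨a, ha⟩ * ⟨b, hb⟩ := rfl
        rw [h1, map_mul]
        exact hmul _ _ iha ihb
    exact key t0 ht0
  | algebraMap c => exact h𝒪 c
  | add x y _ _ hx hy => exact hadd x y hx hy
  | mul x y _ _ hx hy => exact hmul x y hx hy

end Gen

/-! ## The Chinese remainder theorem for `red` -/

section CRT

variable (N₀ : ℕ) {r : ℕ} (qv : Fin r → ℕ)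

theorem red_apply (u : (ZMod (bLevel N₀ qv))ˣ) (j : Fin r) :
    red N₀ qv u j = ZMod.unitsMap (dvd_bLevel N₀ qv j) u := rfl

/-- `(ℤ/M_Q)ˣ → ∏ (ℤ/q_j)ˣ` is onto. -/
theorem red_surjective (hN₀ : N₀ ≠ 0) (hinj : Function.Injective qv)
    (hprime : ∀ j, (qv j).Prime) : Function.Surjective (red N₀ qv) := by
  intro a
  have hcop : Pairwise (Function.onFun Nat.Coprime qv) := by
    intro i j hij
    exact (Nat.coprime_primes (hprime i) (hprime j)).mpr fun h => hij (hinj h)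
  have hM : NeZero (bLevel N₀ qv) :=
    ⟨Nat.mul_ne_zero hN₀ (Finset.prod_ne_zero_iff.mpr fun j _ => (hprime j).ne_zero)⟩
  have hPM : (∏ j, qv j) ∣ bLevel N₀ qv := Dvd.intro_left _ rfl
  set e := ZMod.prodEquivPi qv hcop with he
  set x : ZMod (∏ j, qv j) := e.symm (fun j => ((a j : (ZMod (qv j))ˣ) : ZMod (qv j))) with hx
  set y : ZMod (∏ j, qv j) := e.symm (fun j => ((a j)⁻¹ : (ZMod (qv j))ˣ)) with hy
  have hxy : x * y = 1 := by
    rw [hx, hy, ← map_mul]
    have : ((fun j => ((a j : (ZMod (qv j))ˣ) : ZMod (qv j))) *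
        fun j => (((a j)⁻¹ : (ZMod (qv j))ˣ) : ZMod (qv j))) = 1 := by
      funext j
      simp
    rw [this, map_one]
  obtain ⟨u, hu⟩ := ZMod.unitsMap_surjective hPM (Units.mkOfMulEqOne x y hxy)
  refine ⟨u, ?_⟩
  funext j
  apply Units.ext
  rw [red_apply]
  have h1 : ZMod.unitsMap (dvd_bLevel N₀ qv j) u =
      ZMod.unitsMap (Finset.dvd_prod_of_mem qv (Finset.mem_univ j)) (ZMod.unitsMap hPM u) := by
    rw [← MonoidHom.comp_apply, ZMod.unitsMap_comp]
  rw [h1, hu]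
  show ZMod.castHom (Finset.dvd_prod_of_mem qv (Finset.mem_univ j)) (ZMod (qv j)) x = _
  rw [← ZMod.prodEquivPi_apply qv hcop x j, ← he, hx, RingEquiv.apply_symm_apply]

end CRT

/-! ## The diamond operators of `K_Q` -/

section Dia

variable (p N₀ : ℕ) {r : ℕ} (qv : Fin r → ℕ) {A : Type} [AddCommGroup A]

theorem diamondU_of_chi [NeZero (bLevel N₀ qv)] {u : (ZMod (bLevel N₀ qv))ˣ}
    (hu : chi p N₀ qv u = 1) (x : Additive (KQ p N₀ qv) →+ A) :
    diamondU (isMid_KQ p N₀ qv) u x = x := by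
  have h := diamondHom_GammaH (A := A) (M := bLevel N₀ qv) (H := (chi p N₀ qv).ker)
    (u := u) (MonoidHom.mem_ker.mpr hu)
  have h2 := congrArg (fun f : AddMonoid.End (Additive (GammaH (bLevel N₀ qv)
    (chi p N₀ qv).ker) →+ A) => f x) h
  exact h2

/-- The diamond operator of `K_Q` depends only on the class in `Δ_Q`. -/
theorem diamondU_eq_of_chi [NeZero (bLevel N₀ qv)] {u u' : (ZMod (bLevel N₀ qv))ˣ}
    (hu : chi p N₀ qv u = chi p N₀ qv u') (x : Additive (KQ p N₀ qv) →+ A) :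
    diamondU (isMid_KQ p N₀ qv) u x = diamondU (isMid_KQ p N₀ qv) u' x := by
  have h1 : u = u' * (u'⁻¹ * u) := by group
  have h2 : chi p N₀ qv (u'⁻¹ * u) = 1 := by
    rw [map_mul, map_inv, hu, inv_mul_cancel]
  rw [h1, diamondU_mul, diamondU_of_chi p N₀ qv h2]

theorem chi_eq_of_red {u u' : (ZMod (bLevel N₀ qv))ˣ} (h : red N₀ qv u = red N₀ qv u') :
    chi p N₀ qv u = chi p N₀ qv u' := by
  unfold chi
  rw [MonoidHom.comp_apply, MonoidHom.comp_apply, h]

end Dia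

end Fermat.Agent.S59.TW.Aut

end
-- ===== PACK-END S59/TW/Aut/SkelLemmas.lean

-- ===== PACK-BEGIN S59/TW/H564/TwistIter.lean
section




/-!
# Iterated twists (helper564, row S59, leaf E4 TWIST)

`twistL k ψ L f`: twist `f` successively by the Dirichlet characters `ψ q`, `q ∈ L`
(`L : List ℕ` a list of primes dividing the level `M`).

* `isNeb_twistL`      : nebentypus `chiL ψ χ L = χ · ∏_{q ∈ L} ψ_q²` on `Γ₀(M · ∏ L)`;
* `isCuspidal_twistL` : holomorphy and cusps;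
* `heckeT_twistL'`    : `T_ℓ (twistL f) = psiL(ℓ) • twistL (U_ℓ f + c • f ∣ diag(ℓ,1))`
                        if `c · psiL(ℓ)² = 1`, `psiL(ℓ) = ∏_{q ∈ L} ψ_q(ℓ)`;
* `twistL_injective`  : injectivity, if `χ` is ramified at every `q ∈ L` (`Ram q χ`), `q ∥ M`;
* `twistLCuspForm`    : the bundled cusp form on any `Γ' ≤ Γ₀(M · ∏ L)` when the twisted
                        nebentypus is trivial on `Γ'`.
-/

set_option autoImplicit false
set_option linter.unusedSectionVars false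
set_option linter.style.haveILetI false

namespace Fermat.Agent.S59.TW.H564

open Matrix Matrix.SpecialLinearGroup CongruenceSubgroup UpperHalfPlane ModularForm
open Fermat.Agent.Lib.Newform.H803
open scoped MatrixGroups ModularForm

variable {k : ℤ}

/-! ## Periodicity of the twist -/

theorem isPer_twist {q : ℕ} [NeZero q] (ψ : DirichletCharacter ℂ q) {f : ℍ → ℂ}
    (hf : IsPer k f) : IsPer k (twist k q ψ f) := by
  intro n
  rw [twist, SlashAction.sum_slash]
  refine Finset.sum_congr rfl fun u _ => ?_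
  rw [ModularForm.SL_smul_slash]
  congr 1
  rw [shift, ← Fermat.Agent.S59.TW.H564.slash_tr_intCast, ← slash_tr_add, add_comm,
    slash_tr_add, hf.slash_tr_int]

theorem isPer_slash_heckeDiagMatrix {f : ℍ → ℂ} (hf : IsPer k f) {ℓ : ℕ} (hℓ : ℓ ≠ 0) :
    IsPer k (f ∣[k] heckeDiagMatrix ℓ) := by
  intro n
  have e : ((ℓ : ℝ) * (n : ℝ)) = (((ℓ : ℤ) * n : ℤ) : ℝ) := by push_cast; rfl
  rw [← Fermat.Agent.S59.TW.H564.slash_tr_intCast, ← SlashAction.slash_mul,
    ← tr_mul_heckeDiagMatrix hℓ, SlashAction.slash_mul, e, hf.slash_tr_int]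

/-! ## The twist without instance arguments -/

/-- `twist` without the `NeZero` instance (identity for `q = 0`). -/
noncomputable def twist' (k : ℤ) (q : ℕ) (ψ : DirichletCharacter ℂ q) (f : ℍ → ℂ) : ℍ → ℂ :=
  if h : q = 0 then f else
    haveI : NeZero q := ⟨h⟩
    twist k q ψ f

theorem twist'_eq {q : ℕ} [NeZero q] (ψ : DirichletCharacter ℂ q) (f : ℍ → ℂ) :
    twist' k q ψ f = twist k q ψ f := by
  rw [twist', dif_neg (NeZero.ne q)]

theorem twist'_add {q : ℕ} (ψ : DirichletCharacter ℂ q) (f g : ℍ → ℂ) :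
    twist' k q ψ (f + g) = twist' k q ψ f + twist' k q ψ g := by
  rcases eq_or_ne q 0 with h | h
  · simp only [twist', dif_pos h]
  · haveI : NeZero q := ⟨h⟩
    simp only [twist'_eq, twist_add]

theorem twist'_smul {q : ℕ} (ψ : DirichletCharacter ℂ q) (c : ℂ) (f : ℍ → ℂ) :
    twist' k q ψ (c • f) = c • twist' k q ψ f := by
  rcases eq_or_ne q 0 with h | h
  · simp only [twist', dif_pos h]
  · haveI : NeZero q := ⟨h⟩
    simp only [twist'_eq, twist_smul]

/-! ## Iteration -/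

section Iter

variable (k) (ψ : (q : ℕ) → DirichletCharacter ℂ q)

/-- The iterated twist along a list of moduli. -/
noncomputable def twistL : List ℕ → (ℍ → ℂ) → (ℍ → ℂ)
  | [], f => f
  | q :: L, f => twistL L (twist' k q (ψ q) f)

/-- The nebentypus of the iterated twist: `χ · ∏_{q ∈ L} ψ_q²`. -/
noncomputable def chiL (χ : ℤ → ℂ) : List ℕ → ℤ → ℂ
  | [], d => χ d
  | q :: L, d => chiL (fun d => χ d * ψ q (d : ZMod q) ^ 2) L d

/-- `∏_{q ∈ L} ψ_q(ℓ)`. -/
noncomputable def psiL (L : List ℕ) (ℓ : ℕ) : ℂ :=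
  (L.map fun q => ψ q (ℓ : ZMod q)).prod

variable {k ψ}

@[simp] theorem twistL_nil (f : ℍ → ℂ) : twistL k ψ [] f = f := rfl

@[simp] theorem twistL_cons (q : ℕ) (L : List ℕ) (f : ℍ → ℂ) :
    twistL k ψ (q :: L) f = twistL k ψ L (twist' k q (ψ q) f) := rfl

@[simp] theorem chiL_nil (χ : ℤ → ℂ) : chiL ψ χ [] = χ := rfl

@[simp] theorem chiL_cons (χ : ℤ → ℂ) (q : ℕ) (L : List ℕ) :
    chiL ψ χ (q :: L) = chiL ψ (fun d => χ d * ψ q (d : ZMod q) ^ 2) L := rfl

@[simp] theorem psiL_nil (ℓ : ℕ) : psiL ψ [] ℓ = 1 := rfl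

@[simp] theorem psiL_cons (q : ℕ) (L : List ℕ) (ℓ : ℕ) :
    psiL ψ (q :: L) ℓ = ψ q (ℓ : ZMod q) * psiL ψ L ℓ := by
  simp [psiL]

theorem chiL_apply (χ : ℤ → ℂ) (L : List ℕ) (d : ℤ) :
    chiL ψ χ L d = χ d * (L.map fun q => ψ q (d : ZMod q) ^ 2).prod := by
  induction L generalizing χ with
  | nil => simp
  | cons q L ih =>
    rw [chiL_cons, ih, List.map_cons, List.prod_cons, mul_assoc]

theorem twistL_add (L : List ℕ) (f g : ℍ → ℂ) :
    twistL k ψ L (f + g) = twistL k ψ L f + twistL k ψ L g := by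
  induction L generalizing f g with
  | nil => rfl
  | cons q L ih => rw [twistL_cons, twistL_cons, twistL_cons, twist'_add, ih]

theorem twistL_smul (L : List ℕ) (c : ℂ) (f : ℍ → ℂ) :
    twistL k ψ L (c • f) = c • twistL k ψ L f := by
  induction L generalizing f with
  | nil => rfl
  | cons q L ih => rw [twistL_cons, twistL_cons, twist'_smul, ih]

/-- The iterated twist as a linear map. -/
noncomputable def twistLLin (k : ℤ) (ψ : (q : ℕ) → DirichletCharacter ℂ q) (L : List ℕ) :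
    (ℍ → ℂ) →ₗ[ℂ] (ℍ → ℂ) where
  toFun := twistL k ψ L
  map_add' := twistL_add L
  map_smul' := twistL_smul L

@[simp] theorem twistLLin_apply (L : List ℕ) (f : ℍ → ℂ) :
    twistLLin k ψ L f = twistL k ψ L f := rfl

/-- **T1, iterated.** -/
theorem isNeb_twistL (L : List ℕ) {M : ℕ} (hL : ∀ q ∈ L, q ≠ 0 ∧ q ∣ M) {χ : ℤ → ℂ}
    (hχ : IsCharMod M χ) {f : ℍ → ℂ} (hf : IsNeb k M χ f) :
    IsCharMod (M * L.prod) (chiL ψ χ L) ∧
      IsNeb k (M * L.prod) (chiL ψ χ L) (twistL k ψ L f) := by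
  induction L generalizing M χ f with
  | nil =>
    simp only [List.prod_nil, mul_one, chiL_nil, twistL_nil]
    exact ⟨hχ, hf⟩
  | cons q L ih =>
    obtain ⟨hq0, hqM⟩ := hL q (List.mem_cons_self)
    haveI : NeZero q := ⟨hq0⟩
    have h1 := twist_isNeb hqM hχ (ψ q) hf
    have h2 := isCharMod_twist (q := q) hχ (ψ q)
    have hL' : ∀ q' ∈ L, q' ≠ 0 ∧ q' ∣ M * q := fun q' hq' =>
      ⟨(hL q' (List.mem_cons_of_mem _ hq')).1,
        (hL q' (List.mem_cons_of_mem _ hq')).2.trans (Dvd.intro _ rfl)⟩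
    have h3 := ih hL' h2 h1
    rw [List.prod_cons, ← mul_assoc, chiL_cons, twistL_cons, twist'_eq]
    exact h3

/-- **T2, iterated.** -/
theorem isCuspidal_twistL (L : List ℕ) {f : ℍ → ℂ} (hf : IsCuspidal k f) :
    IsCuspidal k (twistL k ψ L f) := by
  induction L generalizing f with
  | nil => exact hf
  | cons q L ih =>
    rw [twistL_cons]
    apply ih
    rcases eq_or_ne q 0 with h | h
    · rw [twist', dif_pos h]
      exact hf
    · haveI : NeZero q := ⟨h⟩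
      rw [twist'_eq]
      exact isCuspidal_twist (ψ q) hf

theorem isPer_twistL (L : List ℕ) {f : ℍ → ℂ} (hf : IsPer k f) :
    IsPer k (twistL k ψ L f) := by
  induction L generalizing f with
  | nil => exact hf
  | cons q L ih =>
    rw [twistL_cons]
    apply ih
    rcases eq_or_ne q 0 with h | h
    · rw [twist', dif_pos h]
      exact hf
    · haveI : NeZero q := ⟨h⟩
      rw [twist'_eq]
      exact isPer_twist (ψ q) hf

theorem heckeU_twistL (L : List ℕ) {ℓ : ℕ} (hℓ : ℓ ≠ 0)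
    (hL : ∀ q ∈ L, q ≠ 0 ∧ IsUnit (ℓ : ZMod q)) {f : ℍ → ℂ} (hf : IsPer k f) :
    heckeU k ℓ (twistL k ψ L f) = psiL ψ L ℓ • twistL k ψ L (heckeU k ℓ f) := by
  induction L generalizing f with
  | nil => simp
  | cons q L ih =>
    obtain ⟨hq0, hu⟩ := hL q (List.mem_cons_self)
    haveI : NeZero q := ⟨hq0⟩
    have hL' : ∀ q' ∈ L, q' ≠ 0 ∧ IsUnit (ℓ : ZMod q') := fun q' hq' =>
      hL q' (List.mem_cons_of_mem _ hq')
    rw [twistL_cons, twistL_cons, twist'_eq, twist'_eq, ih hL' (isPer_twist (ψ q) hf),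
      heckeU_twist hℓ hu (ψ q) hf, twistL_smul, smul_smul, psiL_cons, mul_comm]

theorem twistL_slash_heckeDiagMatrix (L : List ℕ) {ℓ : ℕ} (hℓ : ℓ ≠ 0)
    (hL : ∀ q ∈ L, q ≠ 0 ∧ IsUnit (ℓ : ZMod q)) {f : ℍ → ℂ} (hf : IsPer k f) :
    (twistL k ψ L f) ∣[k] heckeDiagMatrix ℓ =
      (psiL ψ L ℓ)⁻¹ • twistL k ψ L (f ∣[k] heckeDiagMatrix ℓ) := by
  induction L generalizing f with
  | nil => simp
  | cons q L ih =>
    obtain ⟨hq0, hu⟩ := hL q (List.mem_cons_self)
    haveI : NeZero q := ⟨hq0⟩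
    have hL' : ∀ q' ∈ L, q' ≠ 0 ∧ IsUnit (ℓ : ZMod q') := fun q' hq' =>
      hL q' (List.mem_cons_of_mem _ hq')
    rw [twistL_cons, twistL_cons, twist'_eq, twist'_eq, ih hL' (isPer_twist (ψ q) hf),
      twist_slash_heckeDiagMatrix hℓ hu (ψ q) hf, twistL_smul, smul_smul, psiL_cons, mul_inv,
      mul_comm]

/-- **T3, iterated.** -/
theorem heckeT_twistL (L : List ℕ) {ℓ : ℕ} (hℓ : ℓ ≠ 0)
    (hL : ∀ q ∈ L, q ≠ 0 ∧ IsUnit (ℓ : ZMod q)) {f : ℍ → ℂ} (hf : IsPer k f) :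
    heckeT k ℓ (twistL k ψ L f) =
      psiL ψ L ℓ • twistL k ψ L (heckeU k ℓ f) +
        (psiL ψ L ℓ)⁻¹ • twistL k ψ L (f ∣[k] heckeDiagMatrix ℓ) := by
  rw [heckeT_eq_heckeU_add, heckeU_twistL L hℓ hL hf, twistL_slash_heckeDiagMatrix L hℓ hL hf]

theorem psiL_ne_zero (L : List ℕ) {ℓ : ℕ} (hL : ∀ q ∈ L, q ≠ 0 ∧ IsUnit (ℓ : ZMod q)) :
    psiL ψ L ℓ ≠ 0 := by
  induction L with
  | nil => simp
  | cons q L ih =>
    rw [psiL_cons]
    exact mul_ne_zero (((hL q (List.mem_cons_self)).2.map (ψ q)).ne_zero)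
      (ih fun q' hq' => hL q' (List.mem_cons_of_mem _ hq'))

/-- **T3', iterated.**  If `c · psiL(ℓ)² = 1` then
`T_ℓ (twistL f) = psiL(ℓ) • twistL (U_ℓ f + c • f ∣ diag(ℓ, 1))`. -/
theorem heckeT_twistL' (L : List ℕ) {ℓ : ℕ} (hℓ : ℓ ≠ 0)
    (hL : ∀ q ∈ L, q ≠ 0 ∧ IsUnit (ℓ : ZMod q)) {f : ℍ → ℂ} (hf : IsPer k f) {c : ℂ}
    (hc : c * psiL ψ L ℓ ^ 2 = 1) :
    heckeT k ℓ (twistL k ψ L f) =
      psiL ψ L ℓ • twistL k ψ L (heckeU k ℓ f + c • f ∣[k] heckeDiagMatrix ℓ) := by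
  have hψ := psiL_ne_zero (ψ := ψ) L hL
  have hc' : (psiL ψ L ℓ)⁻¹ = psiL ψ L ℓ * c := by
    field_simp
    linear_combination -hc
  rw [heckeT_twistL L hℓ hL hf, twistL_add, twistL_smul, smul_add, smul_smul, hc']

/-! ## Injectivity -/

/-- `χ` is ramified at `q`: it is non-trivial on the units congruent to `1` modulo any given
modulus prime to `q`. -/
def Ram (q : ℕ) (χ : ℤ → ℂ) : Prop :=
  ∀ N' : ℕ, Nat.Coprime N' q →
    ∃ d : ℤ, (N' : ℤ) ∣ d - 1 ∧ IsUnit ((d : ℤ) : ZMod q) ∧ χ d ≠ 1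

theorem Ram.twist {q q' : ℕ} {χ : ℤ → ℂ} (h : Ram q' χ) (hqq' : Nat.Coprime q q')
    (ψq : DirichletCharacter ℂ q) :
    Ram q' (fun d => χ d * ψq (d : ZMod q) ^ 2) := by
  intro N' hN'
  obtain ⟨d, hd1, hd2, hd3⟩ := h (N' * q) (Nat.Coprime.mul_left hN' hqq')
  refine ⟨d, (Dvd.intro _ (by push_cast; rfl)).trans hd1, hd2, ?_⟩
  have hq : ((d : ℤ) : ZMod q) = 1 := by
    have h1 : ((q : ℕ) : ℤ) ∣ d - 1 := (Dvd.intro_left _ (by push_cast; rfl)).trans hd1
    have h2 := (ZMod.intCast_zmod_eq_zero_iff_dvd (d - 1) q).mpr h1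
    push_cast at h2
    exact sub_eq_zero.mp h2
  simp only [hq, map_one, one_pow, mul_one]
  exact hd3

/-- **T4, iterated.**  Injectivity of the iterated twist: `L` a list of distinct primes,
`q ∥ M`, `χ` ramified at `q` and `ψ q ≠ 1` for every `q ∈ L`. -/
theorem twistL_injective (L : List ℕ) (hnd : L.Nodup) {M : ℕ}
    (hL : ∀ q ∈ L, q.Prime ∧ ∃ M' : ℕ, M = M' * q ∧ Nat.Coprime M' q)
    (hψ : ∀ q ∈ L, ψ q ≠ 1) {χ : ℤ → ℂ} (hχ : IsCharMod M χ)
    (hram : ∀ q ∈ L, Ram q χ) {f : ℍ → ℂ} (hf : IsNeb k M χ f)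
    (h0 : twistL k ψ L f = 0) : f = 0 := by
  induction L generalizing M χ f with
  | nil => exact h0
  | cons q L ih =>
    obtain ⟨hq, M', hM, hcop⟩ := hL q (List.mem_cons_self)
    haveI : NeZero q := ⟨hq.ne_zero⟩
    have hqM : q ∣ M := ⟨M', by rw [hM, mul_comm]⟩
    rw [twistL_cons, twist'_eq] at h0
    have hnd' : L.Nodup := (List.nodup_cons.mp hnd).2
    have hqL : q ∉ L := (List.nodup_cons.mp hnd).1
    -- the twist vanishes
    have h1 : twist k q (ψ q) f = 0 := by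
      refine ih hnd' (M := M * q) ?_ (fun q' hq' => hψ q' (List.mem_cons_of_mem _ hq'))
        (isCharMod_twist hχ (ψ q)) ?_ (twist_isNeb hqM hχ (ψ q) hf) h0
      · intro q' hq'
        obtain ⟨hq'p, M'', hM'', hcop''⟩ := hL q' (List.mem_cons_of_mem _ hq')
        have hne : q' ≠ q := fun h => hqL (h ▸ hq')
        refine ⟨hq'p, M'' * q, by rw [hM'']; ring, ?_⟩
        exact Nat.Coprime.mul_left hcop''
          ((Nat.coprime_primes hq hq'p).mpr (fun h => hne h.symm))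
      · intro q' hq'
        have hne : q' ≠ q := fun h => hqL (h ▸ hq')
        obtain ⟨hq'p, -⟩ := hL q' (List.mem_cons_of_mem _ hq')
        exact (hram q' (List.mem_cons_of_mem _ hq')).twist
          ((Nat.coprime_primes hq hq'p).mpr (fun h => hne h.symm)) (ψ q)
    -- injectivity at `q`
    obtain ⟨d, hd1, hd2, hd3⟩ := hram q (List.mem_cons_self) M' hcop
    subst hM
    exact twist_injective hq hcop hχ (ψ q) (hψ q (List.mem_cons_self)) hf hd1 hd2 hd3 h1

/-! ## The bundled cusp form -/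

/-- The iterated twist as a cusp form on `Γ' ≤ Γ₀(M · ∏ L)`, when the twisted nebentypus is
trivial on `Γ'`. -/
noncomputable def twistLCuspForm (L : List ℕ) {M : ℕ} (hL : ∀ q ∈ L, q ≠ 0 ∧ q ∣ M)
    {χ : ℤ → ℂ} (hχ : IsCharMod M χ) (f : ℍ → ℂ) (hf : IsNeb k M χ f)
    (hc : IsCuspidal k f) (Γ' : Subgroup SL(2, ℤ)) (hΓ' : Γ' ≤ Gamma0 (M * L.prod))
    (h1 : ∀ γ ∈ Γ', chiL ψ χ L (γ 1 1) = 1) : CuspForm Γ' k :=
  cuspFormOfIsCuspidal Γ' (twistL k ψ L f) (isCuspidal_twistL L hc) (fun γ hγ => by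
    rw [(isNeb_twistL (ψ := ψ) L hL hχ hf).2 γ (hΓ' hγ), h1 γ hγ, one_smul])

@[simp] theorem coe_twistLCuspForm (L : List ℕ) {M : ℕ} (hL : ∀ q ∈ L, q ≠ 0 ∧ q ∣ M)
    {χ : ℤ → ℂ} (hχ : IsCharMod M χ) (f : ℍ → ℂ) (hf : IsNeb k M χ f)
    (hc : IsCuspidal k f) (Γ' : Subgroup SL(2, ℤ)) (hΓ' : Γ' ≤ Gamma0 (M * L.prod))
    (h1 : ∀ γ ∈ Γ', chiL ψ χ L (γ 1 1) = 1) :
    ((twistLCuspForm (ψ := ψ) L hL hχ f hf hc Γ' hΓ' h1 : CuspForm Γ' k) : ℍ → ℂ) =
      twistL k ψ L f := rfl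

end Iter

end Fermat.Agent.S59.TW.H564

end
-- ===== PACK-END S59/TW/H564/TwistIter.lean

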