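import Mathlib
import Fermat.Prelude.Def_GaloisRep_Adic
import Fermat.Prelude.Def_GaloisRep_LocalConditions
import Fermat.Prelude.Def_EllipticCurve_FrobeniusTrace
import Fermat.Agent.Pack.S43MC.G0E15L0
import Fermat.Agent.Pack.S43MC.G0E18L3
import Fermat.Agent.Pack.S44C.G0E21L0
import Fermat.Agent.Pack.S44C.G0E12L3
import Fermat.Agent.Pack.S43MC.G0E5L0
import Fermat.Agent.Pack.S43MC.G0E0L3
import Fermat.Agent.Pack.S43MC.G0E8L0
import Fermat.Agent.Pack.S43MC.G0E10L1
import Fermat.Agent.Pack.S43MC.G0E18L1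
import Fermat.Agent.Pack.S43MC.G0E5L3
import Fermat.Agent.Pack.S43MC.G0E13L2
import Fermat.Agent.Pack.S43MC.G0E18L2
import Fermat.Agent.Pack.S43MC.G0E18L0
import Fermat.Agent.Pack.S43MC.G0E13L3
import Fermat.Agent.Pack.S43MC.G0E17L3
import Fermat.Agent.Pack.S43MC.G0E15L3
import Fermat.Agent.Pack.S43MC.G0E14L2
import Fermat.Agent.Pack.S43MC.G0E17L2
import Fermat.Agent.Pack.S44C.G0E6L0
import Fermat.Agent.Pack.S44C.G0E21L3
import Fermat.Agent.Pack.S44C.G0E19L3
import Fermat.Agent.Pack.S43MC.G0E10L3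
import Fermat.Agent.Pack.S43GC.G0E5L0
import Fermat.Agent.Pack.S43MC.G0E10L2
import Fermat.Agent.Pack.S43MC.G0E12L2
import Fermat.Agent.Pack.S43MC.G0E14L1
import Fermat.Agent.Pack.S43MC.G0E17L0
import Fermat.Agent.Pack.S43MC.G0E17L1
import Fermat.Agent.Pack.S43MC.G0E3L3
import Fermat.Agent.Pack.S43MC.G0E4L0
import Fermat.Agent.Pack.S43GC.G0E15L3
import Fermat.Agent.Pack.S43MC.G0E3L2
import Fermat.Agent.Pack.S43GC.G0E4L1
import Fermat.Agent.Pack.Fast891

-- ===== PACK-BEGIN S35/H433/Final.lean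
section





/-!
# S35 / (G) — N4 in statement form (helper433)

`frobToric_of_leaves : PuritySmoothLeaf → PurityNodeLeaf → GlueLeaf → FrobToricStatement`.

`FrobToricStatement` is the analogue of `A2.AlgSSStatement` (Step II) for a semilinear
automorphism `φ` which, instead of being the identity modulo `w`, acts on the constants as the
`Q`-power map modulo `w`, preserves the charts and their components and fixes the crossing points
of the special fibre: every split Kummer class `u` (`m ∣ div u`) satisfies `φ u = h ^ m · u ^ Q`.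

The three leaves are those of the A2 wall (`Fermat/Agent/A2/Alg/H34/Asm.lean`); no new geometric
input is needed.
-/

set_option autoImplicit false

namespace Fermat.Agent.S35.H433

open Fermat.Agent.A2 Fermat.Agent.A2.Alg

/-- **N4 (interface statement)**: the toric Frobenius relation. -/
def FrobToricStatement : Prop :=
  ∀ {R E F : Type} [CommRing R] [IsDomain R] [IsDiscreteValuationRing R] [HenselianLocalRing R]
    [IsAlgClosed (IsLocalRing.ResidueField R)]
    [Field E] [CharZero E] [Algebra R E] [IsFractionRing R E]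
    [Field F] [Algebra E F] [Algebra R F] [IsScalarTower R E F]
    (w : R) (_ : Irreducible w) (q m : ℕ) (_ : q.Prime)
    (_ : (q : R) ∈ IsLocalRing.maximalIdeal R) (_ : 0 < m) (_ : ¬ q ∣ m)
    (x : F) (_ : Transcendental E x)
    (_ : FiniteDimensional (IntermediateField.adjoin E ({x} : Set F)) F)
    (_ : ∀ f : F, IsAlgebraic E f → f ∈ (algebraMap E F).range)
    (Bf Bi : Subalgebra R F)
    (_ : ∀ f : F, f ∈ Bf ↔ IsIntegral (Algebra.adjoin R ({x} : Set F)) f)
    (_ : ∀ f : F, f ∈ Bi ↔ IsIntegral (Algebra.adjoin R ({x⁻¹} : Set F)) f)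
    (cf : SSChart w Bf) (ci : SSChart w Bi)
    (_ : SepCoord R E x Bf) (_ : SepCoord R E x⁻¹ Bi)
    (φ : F ≃+* F) (φE : E ≃+* E) (Q : ℕ) (_ : 0 < Q)
    (_ : ∀ e : E, φ (algebraMap E F e) = algebraMap E F (φE e))
    (hφf : PhiCtx w Bf cf φ Q) (hφi : PhiCtx w Bi ci φ Q)
    (_ : ∀ n : Ideal Bf, n.IsMaximal → cf.p₁ ≤ n → cf.p₂ ≤ n →
      ∀ b : Bf, b ∈ n → hφf.hom b ∈ n)
    (_ : ∀ n : Ideal Bi, n.IsMaximal → ci.p₁ ≤ n → ci.p₂ ≤ n →
      ∀ b : Bi, b ∈ n → hφi.hom b ∈ n)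
    (u : F), u ≠ 0 → DivisibleDiv E m u → IsSplit Bf cf u → IsSplit Bi ci u →
      ∃ h : F, h ≠ 0 ∧ φ u = h ^ m * u ^ Q

section

variable {R E F : Type*} [CommRing R] [IsDomain R] [IsDiscreteValuationRing R]
  [Field E] [CharZero E] [Algebra R E] [IsFractionRing R E]
  [Field F] [Algebra E F] [Algebra R F] [IsScalarTower R E F]

/-- Local transversality at a crossing point of a chart. -/
theorem exists_mul_mem_sup (w : R) (x : F) (B : Subalgebra R F) (hB : ChartCtx E w x B)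
    (c : SSChart w B) (n : Ideal B) (hn : n.IsMaximal) (h1 : c.p₁ ≤ n) (h2 : c.p₂ ≤ n)
    (b : B) (hb : b ∈ n) : ∃ s : B, s ∉ n ∧ s * b ∈ c.p₁ ⊔ c.p₂ := by
  have := hn.isPrime
  have := c.prime₁
  have := c.normal₁
  obtain ⟨hnoeth, -, -⟩ := H34.chart_instances' w x B hB
  have hD : IsDedekindDomain (B ⧸ c.p₁) :=
    H609.isDedekindDomain_quotient_chart w x B hB c.p₁ (mem_w_left c)
  exact H372.exists_mul_mem_of_isRadical (p := c.p₁) le_sup_left (sup_le h1 h2)
    (fun h => c.not_le₂₁ (le_sup_right.trans h)) c.transversal hb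

end

/-- **N4 from the three leaves of the A2 wall.** -/
theorem frobToric_of_leaves (hPS : H34.PuritySmoothLeaf) (hPN : H34.PurityNodeLeaf)
    (hG : H34.GlueLeaf) : FrobToricStatement := by
  intro R E F _ _ _ _ _ _ _ _ _ _ _ _ _ w hw q m hq hqR hm hqm x hx hfin hconst Bf Bi hBf hBi
    cf ci sf si φ φE Q hQ hφE hφf hφi hfixf hfixi u hu hdiv hsf hsi
  have hCf : ChartCtx E w x Bf := ⟨hw, hx, hfin, hconst, hBf⟩
  have hCi : ChartCtx E w x⁻¹ Bi := H34.chartCtx_inv w hw x hx hfin hconst Bi hBi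
  exact frobToric_of_parts m hm w Bf Bi cf ci φ φE Q hQ hφE hφf hφi
    (fun n hn _ _ b => exists_const_sub_mem w x Bf hCf n hn
      ((Ideal.span_singleton_le_iff_mem (I := n)).1
        (by rw [← cf.inf_eq]; exact inf_le_left.trans ‹cf.p₁ ≤ n›)) b)
    (fun n hn _ _ b => exists_const_sub_mem w x⁻¹ Bi hCi n hn
      ((Ideal.span_singleton_le_iff_mem (I := n)).1
        (by rw [← ci.inf_eq]; exact inf_le_left.trans ‹ci.p₁ ≤ n›)) b)
    hfixf hfixi
    (fun n hn h1 h2 b hb => exists_mul_mem_sup w x Bf hCf cf n hn h1 h2 b hb)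
    (fun n hn h1 h2 b hb => exists_mul_mem_sup w x⁻¹ Bi hCi ci n hn h1 h2 b hb)
    u hu hdiv hsf hsi
    (fun n hn hwn => H34.purity_of_leaves hPS hPN q m hq hqR hm hqm w x Bf hCf cf sf u hu hdiv
      hsf n hn hwn)
    (fun n hn hwn => H34.purity_of_leaves hPS hPN q m hq hqR hm hqm w x⁻¹ Bi hCi ci si u hu hdiv
      hsi n hn hwn)
    (fun v hv hdv hf hi => hG q m hq hqR hm hqm w x Bf Bi hCf hCi cf ci
      (H34.incomparable_of_ssChart cf) (H34.incomparable_of_ssChart ci) v hv hdv hf hi)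

end Fermat.Agent.S35.H433

end
-- ===== PACK-END S35/H433/Final.lean

-- ===== PACK-BEGIN S25/H507/ChartAux.lean
section





set_option autoImplicit false

universe u

open AlgebraicGeometry CategoryTheory TopologicalSpace Opposite NeronModelInfra

namespace Fermat.Agent.S25.H507

section General

variable {k : Type u} [Field k] {C : Scheme.{u}} (c : C ⟶ Spec (CommRingCat.of k))

lemma kSec_eq_sectionsStr (U : C.Opens) : kSec c U = sectionsStr c U := rfl

lemma sectionMap_eq_sectionsStr (U : C.Opens) :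
    Fermat.Agent.S25.H747.sectionMap c U = sectionsStr c U := by
  ext a
  simp only [Fermat.Agent.S25.H747.sectionMap, sectionsStr, Scheme.Hom.appLE,
    CommRingCat.hom_comp, RingHom.comp_apply]
  rfl

/-- Localization property of the restriction to an open equal to a basic open. -/
lemma away_of_eq_basicOpen {U : C.Opens} (hU : IsAffineOpen U) (f : Γ(C, U)) (V : C.Opens)
    (hle : V ≤ U) (hV : V = C.basicOpen f) :
    @IsLocalization.Away Γ(C, U) _ f Γ(C, V) _ (resRing hle).toAlgebra := by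
  subst hV
  exact hU.isLocalization_basicOpen f

variable [IsIntegral C]

/-- The constants inside a stalk. -/
lemma algebraMap_germ_kSec_top (P : C) (hP : P ∈ (⊤ : C.Opens)) (b : k) :
    algebraMap (C.presheaf.stalk P) C.functionField
      (C.presheaf.germ ⊤ P hP (kSec c ⊤ b)) = kToK c b := by
  rw [algebraMap_germ_eq_germ_genericPoint, germ_kSec]

/-- A nonzero element of the maximal ideal of a stalk is a nonconstant rational function. -/
lemma not_mem_range_kToK_of_mem_maximalIdeal (P : C) (a : C.presheaf.stalk P)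
    (ha : a ∈ IsLocalRing.maximalIdeal (C.presheaf.stalk P)) (ha0 : a ≠ 0) :
    algebraMap (C.presheaf.stalk P) C.functionField a ∉ Set.range (kToK c) := by
  rintro ⟨b, hb⟩
  have hP : P ∈ (⊤ : C.Opens) := Opens.mem_top P
  rw [← algebraMap_germ_kSec_top c P hP b] at hb
  have hab := algebraMap_stalk_injective C P hb
  by_cases hb0 : b = 0
  · apply ha0
    rw [← hab, hb0, map_zero, map_zero]
  · have hu : IsUnit (C.presheaf.germ ⊤ P hP (kSec c ⊤ b)) :=
      ((isUnit_iff_ne_zero.mpr hb0).map (kSec c ⊤)).map (C.presheaf.germ ⊤ P hP).hom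
    rw [hab] at hu
    exact (IsLocalRing.mem_maximalIdeal a).mp ha hu

/-- If `t⁻¹` comes from an element `a` of the maximal ideal at `P`, then `P` lies in the
second chart and the coordinate `y = t⁻¹` vanishes at `P`. -/
lemma mem_regOpen_inv_and_not_mem_basicOpen (P : C) (a : C.presheaf.stalk P)
    (ha : a ∈ IsLocalRing.maximalIdeal (C.presheaf.stalk P)) (t : C.functionField)
    (hat : algebraMap (C.presheaf.stalk P) C.functionField a = t⁻¹) :
    P ∈ regOpen C t⁻¹ ∧ P ∉ C.basicOpen (regSection C t⁻¹) := by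
  have hP : P ∈ regOpen C t⁻¹ := ⟨a, hat⟩
  refine ⟨hP, fun hb => ?_⟩
  rw [Scheme.mem_basicOpen C _ P hP] at hb
  have h1 := (algebraMap_germ_regSection C t⁻¹ hP).trans hat.symm
  rw [algebraMap_stalk_injective C P h1] at hb
  exact (IsLocalRing.mem_maximalIdeal a).mp ha hb

end General

end Fermat.Agent.S25.H507

end
-- ===== PACK-END S25/H507/ChartAux.lean

-- ===== PACK-BEGIN S25/H130/Glued.lean
section


/-!
# S25 / AS4 (helper130): the glued scheme `J`, its structure morphism and the Poincaré bundle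
-/

set_option autoImplicit false
universe u
open CategoryTheory CategoryTheory.Limits AlgebraicGeometry AlgebraicGeometry.RelPicard
  NeronModelInfra GoodReductionJacobian TopologicalSpace

namespace Fermat.Agent.S25.H130

noncomputable section

variable {k : Type u} [Field k] {C : Scheme.{u}} {c : C ⟶ Spec (CommRingCat.of k)}
  {ε : SchemeHomOver (𝟙 (Spec (CommRingCat.of k))) c}

/-- The glued scheme. -/
abbrev jac (H : Hyp c ε) (ch : ChartFamily c ε) : Scheme.{u} :=
  (glueData H ch).glued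

/-- The open immersion of the `i`-th chart into the glued scheme. -/
abbrev jacι (H : Hyp c ε) (ch : ChartFamily c ε) (i : ch.ι) :
    chX ch i ⟶ jac H ch :=
  (glueData H ch).ι i

instance isOpenImmersion_jacι (H : Hyp c ε) (ch : ChartFamily c ε) (i : ch.ι) :
    IsOpenImmersion (jacι H ch i) :=
  (glueData H ch).ι_isOpenImmersion i

/-- The glue condition. -/
theorem ovl_ι_jacι (H : Hyp c ε) (ch : ChartFamily c ε) (i j : ch.ι) :
    (ovl ch i j).ι ≫ jacι H ch i = trans H ch i j ≫ jacι H ch j := by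
  have h := (glueData H ch).glue_condition i j
  rw [← tmap_ι, Category.assoc]
  exact h.symm

/-- Two morphisms into charts which agree in `J` factor through the overlap. -/
theorem exists_lift_ovl (H : Hyp c ε) (ch : ChartFamily c ε) (i j : ch.ι)
    {Z : Scheme.{u}} (a : Z ⟶ chX ch i) (b : Z ⟶ chX ch j)
    (h : a ≫ jacι H ch i = b ≫ jacι H ch j) :
    ∃ l : Z ⟶ (ovl ch i j).toScheme, l ≫ (ovl ch i j).ι = a ∧ l ≫ trans H ch i j = b := by
  obtain ⟨l, hl₁, hl₂⟩ :=
    PullbackCone.IsLimit.lift' ((glueData H ch).vPullbackConeIsLimit i j) a b h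
  refine ⟨l, hl₁, ?_⟩
  rw [← tmap_ι]
  exact hl₂

/-- **Key lemma.** Two morphisms into charts along which the universal bundles pull back to the
same bundle agree in `J`. -/
theorem comp_jacι_eq (H : Hyp c ε) (ch : ChartFamily c ε) (i j : ch.ι)
    {Z : Scheme.{u}} {z : Z ⟶ Spec (CommRingCat.of k)} (L : RigidifiedLineBundle c ε z)
    {a : Z ⟶ chX ch i} {b : Z ⟶ chX ch j}
    (ha : IsPB (ch.bundle i) a L) (hb : IsPB (ch.bundle j) b L) :
    a ≫ jacι H ch i = b ≫ jacι H ch j := by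
  have hrange : Set.range a ⊆ Set.range (ovl ch i j).ι := range_subset_ovl_of_isPB ch i j ha hb
  let l := IsOpenImmersion.lift (ovl ch i j).ι a hrange
  have hl : l ≫ (ovl ch i j).ι = a := IsOpenImmersion.lift_fac _ _ _
  have hL : IsPB (ovlBundle ch i j) l L := (isPB_restrictOpen _ _).of_comp (ha.of_eq hl.symm)
  have hb' : l ≫ trans H ch i j = b :=
    inj_scheme ch j L ((trans_isPB H ch i j).comp hL) hb
  rw [← hl, ← hb', Category.assoc, Category.assoc, ovl_ι_jacι]

theorem jacStr_compat (H : Hyp c ε) (ch : ChartFamily c ε) (i j : ch.ι) :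
    pullback.fst (jacι H ch i) (jacι H ch j) ≫ chStr ch i =
      pullback.snd (jacι H ch i) (jacι H ch j) ≫ chStr ch j := by
  obtain ⟨l, hl₁, hl₂⟩ := exists_lift_ovl H ch i j
    (pullback.fst (jacι H ch i) (jacι H ch j))
    (pullback.snd (jacι H ch i) (jacι H ch j)) pullback.condition
  rw [← hl₁, ← hl₂, Category.assoc, Category.assoc, (trans_isPB H ch i j).w]

/-- The structure morphism of the glued scheme. -/
def jacStr (H : Hyp c ε) (ch : ChartFamily c ε) :
    jac H ch ⟶ Spec (CommRingCat.of k) :=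
  (glueData H ch).openCover.glueMorphisms (fun i => chStr ch i)
    (fun i j => jacStr_compat H ch i j)

@[reassoc]
theorem jacι_jacStr (H : Hyp c ε) (ch : ChartFamily c ε) (i : ch.ι) :
    jacι H ch i ≫ jacStr H ch = chStr ch i :=
  (glueData H ch).openCover.ι_glueMorphisms _ _ i

/-- The image of the `i`-th chart in the glued scheme. -/
abbrev jacU (H : Hyp c ε) (ch : ChartFamily c ε) (i : ch.ι) :
    (jac H ch).Opens :=
  (jacι H ch i).opensRange

theorem iSup_jacU (H : Hyp c ε) (ch : ChartFamily c ε) :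
    (⨆ i, jacU H ch i) = ⊤ :=
  (glueData H ch).openCover.iSup_opensRange

/-- The chart of `J`, from the image of the chart back to the chart. -/
abbrev jacE (H : Hyp c ε) (ch : ChartFamily c ε) (i : ch.ι) :
    (jacU H ch i).toScheme ⟶ chX ch i :=
  (jacι H ch i).isoOpensRange.inv

theorem jacE_jacι (H : Hyp c ε) (ch : ChartFamily c ε) (i : ch.ι) :
    jacE H ch i ≫ jacι H ch i = (jacU H ch i).ι :=
  Scheme.Hom.isoOpensRange_inv_comp _

theorem jacE_chStr (H : Hyp c ε) (ch : ChartFamily c ε) (i : ch.ι) :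
    jacE H ch i ≫ chStr ch i = (jacU H ch i).ι ≫ jacStr H ch := by
  rw [← jacE_jacι, Category.assoc, jacι_jacStr]

/-- The universal bundle of the `i`-th chart, transported to the image of the chart in `J`. -/
abbrev jacN (H : Hyp c ε) (ch : ChartFamily c ε) (i : ch.ι) :
    RigidifiedLineBundle c ε ((jacU H ch i).ι ≫ jacStr H ch) :=
  (ch.bundle i).pullbackAlong ⟨jacE H ch i, jacE_chStr H ch i⟩

theorem jacN_isPB (H : Hyp c ε) (ch : ChartFamily c ε) (i : ch.ι) :
    IsPB (ch.bundle i) (jacE H ch i) (jacN H ch i) :=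
  isPB_mk _ _ _

theorem exists_poincare (H : Hyp c ε) (ch : ChartFamily c ε) :
    ∃ P : RigidifiedLineBundle c ε (jacStr H ch),
      ∀ i, IsPB P (jacι H ch i) (ch.bundle i) := by
  obtain ⟨P, hP⟩ := sheafGlue_isPB H.glue (jacU H ch) (iSup_jacU H ch)
    (fun i => (jacU H ch i).ι ≫ jacStr H ch) (fun _ => rfl) (jacN H ch) (by
      intro i j
      have hL := isPB_mk (jacN H ch i)
        ((jac H ch).homOfLE (inf_le_left : jacU H ch i ⊓ jacU H ch j ≤ jacU H ch i))
        rfl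
      refine ⟨_, _, hL, ?_⟩
      refine (jacN_isPB H ch j).of_comp ?_
      have ha := (jacN_isPB H ch i).comp hL
      have hab : ((jac H ch).homOfLE
            (inf_le_left : jacU H ch i ⊓ jacU H ch j ≤ jacU H ch i) ≫
              jacE H ch i) ≫ jacι H ch i =
          ((jac H ch).homOfLE
            (inf_le_right : jacU H ch i ⊓ jacU H ch j ≤ jacU H ch j) ≫
              jacE H ch j) ≫ jacι H ch j := by
        rw [Category.assoc, Category.assoc, jacE_jacι, jacE_jacι, Scheme.homOfLE_ι,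
          Scheme.homOfLE_ι]
      obtain ⟨l, hl₁, hl₂⟩ := exists_lift_ovl H ch i j _ _ hab
      have h1 : IsPB (ovlBundle ch i j) l _ :=
        (isPB_restrictOpen _ _).of_comp (ha.of_eq hl₁.symm)
      exact ((trans_isPB H ch i j).comp h1).of_eq hl₂)
  refine ⟨P, fun i => ?_⟩
  have h1 : IsPB (jacN H ch i) (jacι H ch i).isoOpensRange.hom (ch.bundle i) :=
    (jacN_isPB H ch i).symm_of_inv _ (Iso.hom_inv_id _)
  exact ((hP i).comp h1).of_eq (Scheme.Hom.isoOpensRange_hom_ι _)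

end

end Fermat.Agent.S25.H130

end
-- ===== PACK-END S25/H130/Glued.lean

-- ===== PACK-BEGIN S25/H11/ACTop.lean
section





/-!
# Row S25, block ALGCHARTS: `Stmt.AlgCharts` from the leaves (helper11)

`algCharts_of_leaves`: the nine leaves of `ACLeaves.lean` imply `Stmt.AlgCharts`.
The charts are the good numeric chart indices; the chart atlas of helper926
(`H926.ChartAtlas`, `H926.algCharts_of_atlas`) is built from the leaves:
`inj ⇐ PointBC + PointUnique`, `fib`/`spread ⇐ Stage0–4 + PointIso + PointBC`, `cover ⇐ Cover`.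
The gluing-datum calculus is helper265's (`H265`).
-/

set_option autoImplicit false

universe u

open scoped TensorProduct

namespace Fermat.Agent.S25.H11

open Fermat.Agent.S25

section

variable {k : Type u} [Field k] {B₀ B₁ B₀₁ : Type u} [CommRing B₀] [CommRing B₁] [CommRing B₀₁]
  [Algebra k B₀] [Algebra k B₁] [Algebra k B₀₁] [Algebra B₀ B₀₁] [Algebra B₁ B₀₁]
  [IsScalarTower k B₀ B₀₁] [IsScalarTower k B₁ B₀₁]
  {x : B₀} {y : B₁} {e : B₁ →ₐ[k] k}

/-! ### The chain of stages -/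

section Chain

variable {A : Type u} [CommRing A] [Algebra k A]

theorem P1.p0 {n : ℕ} {m : ℕ} {q : Fin m → (B₀ →ₐ[k] k)} {G : CurveGD k B₀ B₁ B₀₁ A}
    (h : P1 x n q G) : P0 x n G := h.1

theorem P2.p1 {n : ℕ} {m : ℕ} {q : Fin m → (B₀ →ₐ[k] k)} {G : CurveGD k B₀ B₁ B₀₁ A}
    (h : P2 x y n q G) : P1 x n q G := h.1

theorem P3.p2 {n : ℕ} {m : ℕ} {q : Fin m → (B₀ →ₐ[k] k)} {g : ℕ} {β : Fin g → B₀}
    {G : CurveGD k B₀ B₁ B₀₁ A} (h : P3 x y n q β G) : P2 x y n q G := by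
  obtain ⟨h1, s, hs, -⟩ := h
  exact ⟨h1, s, hs⟩

theorem isChart_univIdeal_map {g : ℕ} (β : Fin g → B₀) (φ₀ : H491.Rβ k β →ₐ[k] A) :
    H491.IsChart β ((H491.univIdeal (k := k) β).map (H491.bc B₀ φ₀)) := by
  rw [← H491.hilbChartEquiv_eq_map]
  exact (H491.hilbChartEquiv β A φ₀).2

theorem P4.p3 {i : ChartIndex k B₀} {G : CurveGD k B₀ B₁ B₀₁ A} (h : P4 x y i G) :
    P3 x y i.n i.q i.β G := by
  obtain ⟨φ₀, hpc⟩ := h
  obtain ⟨s, hs, hspan⟩ := hpc.sect
  exact ⟨hpc.p1, s, hs, _, isChart_univIdeal_map i.β φ₀, hspan⟩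

end Chain

variable [IsAlgClosed k]

/-- The fibrewise criterion and openness for membership `P4` in the chart `i`. -/
theorem p4_crit (hC : IsCurveChart k B₀ B₁ B₀₁ x y e)
    (h0 : Leaf.Stage0 k B₀ B₁ B₀₁) (h1 : Leaf.Stage1 k B₀ B₁ B₀₁)
    (h2 : Leaf.Stage2 k B₀ B₁ B₀₁) (h3 : Leaf.Stage3 k B₀ B₁ B₀₁)
    (h4 : Leaf.Stage4 k B₀ B₁ B₀₁) (i : ChartIndex k B₀) (hnum : i.Numeric B₀₁ y) :
    FibCrit e (fun A _ _ (G : CurveGD k B₀ B₁ B₀₁ A) => P4 x y i G) ∧
      SpreadCrit e (fun A _ _ (G : CurveGD k B₀ B₁ B₀₁ A) => P4 x y i G) := by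
  -- stage 0
  have hL0 : ∀ (A : Type u) [CommRing A] [Algebra k A] (G : CurveGD k B₀ B₁ B₀₁ A),
      G.Rigidifiable e → G.Deg0 → True →
        HasLocusAt (fun A _ _ (G : CurveGD k B₀ B₁ B₀₁ A) => P0 x i.n G) A G :=
    fun A _ _ G _ _ _ => h0 x y e hC i.n A G
  have f0 := fibCrit_step (e := e) (fun _ _ _ _ _ => trivial) (fibCrit_true e) hL0
  have s0 := spreadCrit_step (e := e) (fun _ _ _ _ _ => trivial) (fibCrit_true e)
    (spreadCrit_true e) hL0
  -- stage 1
  have hL1 : ∀ (A : Type u) [CommRing A] [Algebra k A] (G : CurveGD k B₀ B₁ B₀₁ A),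
      G.Rigidifiable e → G.Deg0 → P0 x i.n G →
        HasLocusAt (fun A _ _ (G : CurveGD k B₀ B₁ B₀₁ A) => P1 x i.n i.q G) A G :=
    fun A _ _ G _ _ hp => h1 x y e hC i.n i.q A G hp
  have f1 := fibCrit_step (e := e) (fun _ _ _ _ h => P1.p0 h) f0 hL1
  have s1 := spreadCrit_step (e := e) (fun _ _ _ _ h => P1.p0 h) f0 s0 hL1
  -- stage 2
  have hL2 : ∀ (A : Type u) [CommRing A] [Algebra k A] (G : CurveGD k B₀ B₁ B₀₁ A),
      G.Rigidifiable e → G.Deg0 → P1 x i.n i.q G →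
        HasLocusAt (fun A _ _ (G : CurveGD k B₀ B₁ B₀₁ A) => P2 x y i.n i.q G) A G :=
    fun A _ _ G hr hd hp => h2 x y e hC i hnum A G hr hd hp
  have f2 := fibCrit_step (e := e) (fun _ _ _ _ h => P2.p1 h) f1 hL2
  have s2 := spreadCrit_step (e := e) (fun _ _ _ _ h => P2.p1 h) f1 s1 hL2
  -- stage 3
  have hL3 : ∀ (A : Type u) [CommRing A] [Algebra k A] (G : CurveGD k B₀ B₁ B₀₁ A),
      G.Rigidifiable e → G.Deg0 → P2 x y i.n i.q G →
        HasLocusAt (fun A _ _ (G : CurveGD k B₀ B₁ B₀₁ A) => P3 x y i.n i.q i.β G) A G :=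
    fun A _ _ G hr hd hp => h3 x y e hC i hnum A G hr hd hp
  have f3 := fibCrit_step (e := e) (fun _ _ _ _ h => P3.p2 h) f2 hL3
  have s3 := spreadCrit_step (e := e) (fun _ _ _ _ h => P3.p2 h) f2 s2 hL3
  -- stage 4
  have hL4 : ∀ (A : Type u) [CommRing A] [Algebra k A] (G : CurveGD k B₀ B₁ B₀₁ A),
      G.Rigidifiable e → G.Deg0 → P3 x y i.n i.q i.β G →
        HasLocusAt (fun A _ _ (G : CurveGD k B₀ B₁ B₀₁ A) => P4 x y i G) A G :=
    fun A _ _ G hr hd hp => h4 x y e hC i hnum A G hr hd hp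
  exact ⟨fibCrit_step (e := e) (fun _ _ _ _ h => P4.p3 h) f3 hL4,
    spreadCrit_step (e := e) (fun _ _ _ _ h => P4.p3 h) f3 s3 hL4⟩

/-! ### Points of a good chart -/

section Points

variable {A : Type u} [CommRing A] [Algebra k A]

/-- A point of the chart ring gives the point conditions. -/
theorem pointCond_of_isBC (hC : IsCurveChart k B₀ B₁ B₀₁ x y e)
    (hBC : Leaf.PointBC k B₀ B₁ B₀₁) (i : ChartIndex k B₀) (hnum : i.Numeric B₀₁ y)
    {D : CurveGD k B₀ B₁ B₀₁ (chartRing i)} (hDr : D.Rigidifiable e) (hDd : D.Deg0)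
    (hD : PointCond x y i D (chartCan i)) {G : CurveGD k B₀ B₁ B₀₁ A}
    (φ : chartRing i →ₐ[k] A) (hφ : CurveGD.IsBC φ D G) :
    PointCond x y i G (φ.comp (chartCan i)) :=
  hBC x y e hC i hnum (chartRing i) A D G φ hφ hDr hDd (chartCan i) hD

/-- The point conditions give a point of the chart ring. -/
theorem isBC_of_pointCond (hC : IsCurveChart k B₀ B₁ B₀₁ x y e)
    (hBC : Leaf.PointBC k B₀ B₁ B₀₁) (hI : Leaf.PointIso k B₀ B₁ B₀₁)
    (i : ChartIndex k B₀) (hnum : i.Numeric B₀₁ y)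
    {D : CurveGD k B₀ B₁ B₀₁ (chartRing i)} (hDr : D.Rigidifiable e) (hDd : D.Deg0)
    (hD : PointCond x y i D (chartCan i)) {G : CurveGD k B₀ B₁ B₀₁ A}
    {φ₀ : H491.Rβ k i.β →ₐ[k] A} (h : PointCond x y i G φ₀) :
    ∃ φ : chartRing i →ₐ[k] A, CurveGD.IsBC φ D G := by
  let φ : chartRing i →ₐ[k] A :=
    IsLocalization.Away.liftAlgHom (S := chartRing i) i.f (f := φ₀) h.unit
  have hφ : φ.comp (chartCan i) = φ₀ := by
    ext b
    simp [φ, chartCan, IsLocalization.Away.lift_eq]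
  obtain ⟨G', hG'⟩ := H265.curveGD_exists_isBC φ D
  have h' := pointCond_of_isBC hC hBC i hnum hDr hDd hD φ hG'
  rw [hφ] at h'
  exact ⟨φ, H265.curveGD_isBC_of_isIso_right hG' (hI x y e hC i A G' G φ₀ h' h)⟩

end Points

/-! ### The atlas -/

variable (B₀₁ x y e) in
/-- The index set of the atlas: good numeric chart indices. -/
def AtlasIndex : Type u :=
  {i : ChartIndex k B₀ // i.Numeric B₀₁ y ∧ ChartIndex.Good (B₀₁ := B₀₁) x y e i}

/-- The universal datum of a good chart. -/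
noncomputable def atlasDatum (i : AtlasIndex B₀₁ x y e) :
    CurveGD k B₀ B₁ B₀₁ (chartRing i.1) :=
  i.2.2.choose

theorem atlasDatum_rig (i : AtlasIndex B₀₁ x y e) :
    (atlasDatum i).Rigidifiable e := i.2.2.choose_spec.1

theorem atlasDatum_deg0 (i : AtlasIndex B₀₁ x y e) :
    (atlasDatum i).Deg0 := i.2.2.choose_spec.2.1

theorem atlasDatum_pointCond (i : AtlasIndex B₀₁ x y e) :
    PointCond x y i.1 (atlasDatum i) (chartCan i.1) := i.2.2.choose_spec.2.2

theorem finiteType_chartRing (hC : IsCurveChart k B₀ B₁ B₀₁ x y e) (i : ChartIndex k B₀) :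
    Algebra.FiniteType k (chartRing i) := by
  have : Algebra.FiniteType k B₀ := H207.finiteType_chart₀ hC
  have : Algebra.FiniteType k (H491.Rβ k i.β) := H491.finiteType_Rβ
  have : Algebra.FiniteType (H491.Rβ k i.β) (chartRing i) :=
    IsLocalization.finiteType_of_monoid_fg (Submonoid.powers i.f) (chartRing i)
  exact Algebra.FiniteType.trans ‹Algebra.FiniteType k (H491.Rβ k i.β)›
    ‹Algebra.FiniteType (H491.Rβ k i.β) (chartRing i)›

/-- **The chart atlas from the leaves.** -/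
noncomputable def atlasOfLeaves (hC : IsCurveChart k B₀ B₁ B₀₁ x y e)
    (h0 : Leaf.Stage0 k B₀ B₁ B₀₁) (h1 : Leaf.Stage1 k B₀ B₁ B₀₁)
    (h2 : Leaf.Stage2 k B₀ B₁ B₀₁) (h3 : Leaf.Stage3 k B₀ B₁ B₀₁)
    (h4 : Leaf.Stage4 k B₀ B₁ B₀₁) (hBC : Leaf.PointBC k B₀ B₁ B₀₁)
    (hU : Leaf.PointUnique k B₀ B₁ B₀₁) (hI : Leaf.PointIso k B₀ B₁ B₀₁)
    (hCov : Leaf.Cover k B₀ B₁ B₀₁) : H926.ChartAtlas k B₀ B₁ B₀₁ e where
  ι := AtlasIndex B₀₁ x y e
  R := fun i => chartRing i.1
  finiteType := fun i => finiteType_chartRing hC i.1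
  datum := fun i => atlasDatum i
  rig := fun i => atlasDatum_rig i
  deg0 := fun i => atlasDatum_deg0 i
  inj := by
    intro i A _ _ φ ψ G G' hφ hψ hiso
    have hG := pointCond_of_isBC hC hBC i.1 i.2.1 (atlasDatum_rig i) (atlasDatum_deg0 i)
      (atlasDatum_pointCond i) φ hφ
    have hψ' : CurveGD.IsBC ψ (atlasDatum i) G :=
      H265.curveGD_isBC_of_isIso_right hψ (H265.isIso_symm hiso)
    have hG' := pointCond_of_isBC hC hBC i.1 i.2.1 (atlasDatum_rig i) (atlasDatum_deg0 i)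
      (atlasDatum_pointCond i) ψ hψ'
    have heq := hU x y e hC i.1 A G _ _ hG hG'
    apply AlgHom.coe_ringHom_injective
    apply IsLocalization.ringHom_ext (Submonoid.powers i.1.f)
    exact RingHom.ext fun b => AlgHom.congr_fun heq b
  fib := by
    intro i A _ _ G hrig hdeg hfib
    obtain ⟨φ₀, hpc⟩ := (p4_crit hC h0 h1 h2 h3 h4 i.1 i.2.1).1 A G hrig hdeg
      (fun K _ _ ψ GK hGK => by
        obtain ⟨φ, hφ⟩ := hfib K ψ GK hGK
        exact ⟨_, pointCond_of_isBC hC hBC i.1 i.2.1 (atlasDatum_rig i) (atlasDatum_deg0 i)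
          (atlasDatum_pointCond i) φ hφ⟩)
    exact isBC_of_pointCond hC hBC hI i.1 i.2.1 (atlasDatum_rig i) (atlasDatum_deg0 i)
      (atlasDatum_pointCond i) hpc
  spread := by
    intro i A _ _ G hrig hdeg K _ _ ψ GK hGK hin
    obtain ⟨φ, hφ⟩ := hin
    have hP : P4 x y i.1 GK :=
      ⟨_, pointCond_of_isBC hC hBC i.1 i.2.1 (atlasDatum_rig i) (atlasDatum_deg0 i)
        (atlasDatum_pointCond i) φ hφ⟩
    obtain ⟨a, ha, hgood⟩ := (p4_crit hC h0 h1 h2 h3 h4 i.1 i.2.1).2 A G hrig hdeg K ψ GK hGK hP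
    refine ⟨a, ha, fun L _ _ θ Gθ hGθ hθ => ?_⟩
    obtain ⟨φ₀, hpc⟩ := hgood L θ Gθ hGθ hθ
    exact isBC_of_pointCond hC hBC hI i.1 i.2.1 (atlasDatum_rig i) (atlasDatum_deg0 i)
      (atlasDatum_pointCond i) hpc
  cover := by
    intro K _ _ _ G hrig hdeg
    obtain ⟨i, hnum, D, hDr, hDd, hD, φ, hφ⟩ := hCov x y e hC K G hrig hdeg
    let j : AtlasIndex B₀₁ x y e := ⟨i, hnum, D, hDr, hDd, hD⟩
    have hiso : D.IsIso (atlasDatum j) :=
      hI x y e hC i (chartRing i) D (atlasDatum j) (chartCan i) hD (atlasDatum_pointCond j)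
    exact ⟨j, φ, H265.curveGD_isBC_of_isIso_left hiso hφ⟩

end

section Final

variable (k : Type u) [Field k] [IsAlgClosed k] (B₀ B₁ B₀₁ : Type u) [CommRing B₀] [CommRing B₁]
  [CommRing B₀₁] [Algebra k B₀] [Algebra k B₁] [Algebra k B₀₁] [Algebra B₀ B₀₁] [Algebra B₁ B₀₁]
  [IsScalarTower k B₀ B₀₁] [IsScalarTower k B₁ B₀₁]

/-- **ALGCHARTS from the leaves.** -/
theorem algCharts_of_leaves
    (h0 : Leaf.Stage0 k B₀ B₁ B₀₁) (h1 : Leaf.Stage1 k B₀ B₁ B₀₁)
    (h2 : Leaf.Stage2 k B₀ B₁ B₀₁) (h3 : Leaf.Stage3 k B₀ B₁ B₀₁)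
    (h4 : Leaf.Stage4 k B₀ B₁ B₀₁) (hBC : Leaf.PointBC k B₀ B₁ B₀₁)
    (hU : Leaf.PointUnique k B₀ B₁ B₀₁) (hI : Leaf.PointIso k B₀ B₁ B₀₁)
    (hCov : Leaf.Cover k B₀ B₁ B₀₁) : Stmt.AlgCharts k B₀ B₁ B₀₁ :=
  H926.algCharts_of_atlas
    (fun _ _ _ _ _ _ φ G => H265.curveGD_exists_isBC φ G)
    (fun _ _ _ _ _ _ _ _ _ _ _ _ _ _ h h' => H265.curveGD_isBC_comp h h')
    (fun _ _ _ _ _ _ _ _ _ _ h hr => H265.rigidifiable_of_isBC h hr)
    (fun _ _ _ hC => ⟨atlasOfLeaves hC h0 h1 h2 h3 h4 hBC hU hI hCov⟩)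

end Final

end Fermat.Agent.S25.H11

end
-- ===== PACK-END S25/H11/ACTop.lean

-- ===== PACK-BEGIN S26/Pic/P4Final.lean
section



/-!
# Row S26, block PIC, P4: `Stmt.LocalOnBase cechPic K` (helper347)

`sectionsOnProduct` (from S25 `H205.isIso_snd_app`, by symmetry of the fibre product) and
`localOnBase : Stmt.LocalOnBase cechPic K`.
-/

set_option autoImplicit false

open AlgebraicGeometry CategoryTheory CategoryTheory.Limits TopologicalSpace Opposite

universe u

namespace Fermat.Agent.S26.Pic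

noncomputable section

variable (K : Type u) [Field K] [IsAlgClosed K]

/-- Functions on `pr₁⁻¹ U ⊆ X ×_K W` are the functions on `U`. -/
theorem sectionsOnProduct : SectionsOnProduct K := by
  intro X W x w _ _ U
  haveI : IsIntegral W := GeometricallyIntegral.isIntegral_of_subsingleton w
  have h1 : IsIso ((pullback.snd w x).app U) := Fermat.Agent.S25.H205.isIso_snd_app K w x U
  have h2 : pullback.fst x w = (pullbackSymmetry x w).hom ≫ pullback.snd w x := by simp
  have h3 : IsIso ((pullback.fst x w).app U) := by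
    rw [Scheme.Hom.congr_app h2 U, Scheme.Hom.comp_app]
    have h4 : IsIso ((pullbackSymmetry x w).hom.app (pullback.snd w x ⁻¹ᵁ U)) := inferInstance
    have h5 : IsIso ((pullback.snd w x).app U ≫
        (pullbackSymmetry x w).hom.app (pullback.snd w x ⁻¹ᵁ U)) := IsIso.comp_isIso' h1 h4
    exact IsIso.comp_isIso' h5 inferInstance
  exact ConcreteCategory.bijective_of_isIso _

/-- **P4** for the Čech model. -/
theorem localOnBase : Stmt.LocalOnBase cechPic.{u} K :=
  localOnBase_of_sections (sectionsOnProduct K)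

end

end Fermat.Agent.S26.Pic

end
-- ===== PACK-END S26/Pic/P4Final.lean

-- ===== PACK-BEGIN S26/Ample/Final.lean
section





/-!
# Row S26, block AMPLE: FINAL assembly (sub-architect helper752), sorry-free

`alpha_of_squareLS : Stmt.SquareLS K → Stmt.Alpha K`

Block AMPLE is closed up to the theorem of the square (`Stmt.SquareLS`, block CUBE/PIC):

* `Ample.H73.cover`      : `Ample.Stmt.Cover K`        (helper73)
* `H126.boundary`        : `H926.Ample.Boundary K`     (helper126; UFD helper445, Hartogs helper714)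
* `Ample.H277.project`   : `Ample.Stmt.Project K`      (helper277; GNN, LS2 helper566, B2 helper87)
* `H926.Ample.alpha_of_geometric` : the glue            (helper926; small leaves, CDivOps helper164)
-/

set_option autoImplicit false
universe u

open CategoryTheory CategoryTheory.Limits AlgebraicGeometry NeronModelInfra GoodReductionJacobian

namespace Fermat.Agent.S26.Ample

/-- **Block AMPLE.** On an abelian variety over an algebraically closed field there is a
symmetric good system of `dim + 1` rational functions with algebraically independent affine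
coordinates and finite degree, provided the theorem of the square holds. -/
theorem alpha_of_squareLS (K : Type u) [Field K] [IsAlgClosed K] (hSq : Stmt.SquareLS K) :
    Stmt.Alpha K :=
  H926.Ample.alpha_of_geometric H73.cover (H126.boundary K) (H277.project K) hSq

end Fermat.Agent.S26.Ample

end
-- ===== PACK-END S26/Ample/Final.lean

-- ===== PACK-BEGIN Ribet/H577/Ram2.lean
section





/-!
# RIBET / HARD, leaf RAM2 (helper577): the mod-`p` representation of the Frey curve is RAMIFIED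
# at `2`

`frey_ramified_two577` : for every Frey package `P` (`p ≥ 5`) and EVERY place `A` of `ℚ̄` over `2`
there are `σ` in the inertia group of `A` and `t ∈ E[p]` with `σ • t ≠ t`.
`not_galoisRepUnramifiedAt_two577 : ¬ P.GaloisRepUnramifiedAt 2`.

Proof (no Tate curve).  The constant coefficient of the `p`-division polynomial `freyQ P` is even
(`Ram2Ladder`), its leading coefficient `p` is a `2`-adic unit, so some root `x` has `v(x) < 1`:
a point `(x, y) ∈ E[p]` reducing to the node.  The node law at `2` (helper511,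
`NodeModel2.torsion_near_node`) gives `v(a₄) < v(x)` and `v(x) ^ p = v(a₄) ^ (2 j)`.  If inertia
fixed `(x, y)`, then `x` would lie in the inertia field, whose value group is generated by `v(2)`
(helper429, `exists_zpow_of_mem_inertiaField`): `v(x) = v(2) ^ ξ`, while
`v(a₄) = v(2) ^ (p β - 4)`; so `p ξ = 2 (p β - 4) j` with `0 < ξ < p β - 4`, which is impossible
because `p ∤ 8` (helper11, `frey_arith_contra`).
-/

set_option autoImplicit false

namespace Fermat.Agent.Ribet.H577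

open WeierstrassCurve WeierstrassCurve.Affine WeierstrassCurve.Affine.Point Polynomial
open Fermat.Agent.S05.Assemble Fermat.Agent.S13.H164

section Root

variable {K : Type*} [Field K] [IsAlgClosed K] {Γ₀ : Type*} [LinearOrderedCommGroupWithZero Γ₀]

/-- A polynomial over an algebraically closed valued field whose leading coefficient is a unit
and whose constant coefficient is not has a root of valuation `< 1`. -/
theorem exists_root_val_lt_one577 (v : Valuation K Γ₀) (f : K[X])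
    (hlead : v f.leadingCoeff = 1) (h0 : v (f.coeff 0) < 1) :
    ∃ x, f.eval x = 0 ∧ v x < 1 := by
  by_contra hcon
  push Not at hcon
  have hf0 : f ≠ 0 := by
    rintro rfl
    simp at hlead
  have hc := (IsAlgClosed.splits f).coeff_zero_eq_leadingCoeff_mul_prod_roots
  have hprod : 1 ≤ v f.roots.prod := by
    refine Multiset.prod_induction (fun x => 1 ≤ v x) f.roots ?_ ?_ ?_
    · intro a b ha hb
      rw [map_mul]
      calc (1 : Γ₀) = 1 * 1 := (one_mul 1).symm
        _ ≤ v a * v b := mul_le_mul' ha hb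
    · rw [map_one]
    · intro a ha
      exact hcon a ((mem_roots hf0).mp ha)
  rw [hc, map_mul, map_mul, hlead, mul_one, map_pow, Valuation.map_neg, map_one, one_pow,
    one_mul] at h0
  exact absurd hprod (not_le.mpr h0)

end Root

section Frey

variable (P : FreyPackage) {A : ValuationSubring Qb}

/-- There is a point of `E[p]` of the Frey curve which reduces to the node at `2`. -/
theorem exists_torsion_near_node577 (hA : A.LiesOverPrime 2) :
    ∃ (x y : Qb) (h : (P.freyCurve⁄Qb).toAffine.Nonsingular x y),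
      P.p • Point.some x y h = 0 ∧ A.valuation x < 1 := by
  set f : Qb[X] := (freyQ P).map (Int.castRingHom Qb) with hf
  have hinj : Function.Injective (Int.castRingHom Qb) := RingHom.injective_int _
  have hlead : f.leadingCoeff = (P.p : Qb) := by
    rw [hf, leadingCoeff_map_of_injective hinj, freyQ_leadingCoeff]
    simp
  have hc0 : f.coeff 0 = (((freyQ P).eval 0 : ℤ) : Qb) := by
    rw [hf, coeff_map, coeff_zero_eq_eval_zero]
    rfl
  obtain ⟨x, hx, hvx⟩ := exists_root_val_lt_one577 A.valuation f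
    (by rw [hlead]; exact Fermat.Agent.S13.AtTwo511.val_p_eq_one_two P hA)
    (by
      rw [hc0]
      exact val_int_lt_one hA (by exact_mod_cast constCoeff_freyQ_even577 P))
  obtain ⟨y, hy⟩ := IsAlgClosed.exists_root
    (Fermat.Agent.S51.H780.yPoly (P.freyCurve⁄Qb).toAffine x) (by
      rw [Polynomial.degree_eq_natDegree (Fermat.Agent.S51.H780.yPoly_ne_zero _ x),
        Fermat.Agent.S51.H780.yPoly_natDegree]
      norm_num)
  have he : (P.freyCurve⁄Qb).toAffine.Equation x y := (Fermat.Agent.S51.H780.yPoly_eval _).mp hy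
  have hns : (P.freyCurve⁄Qb).toAffine.Nonsingular x y :=
    (Affine.equation_iff_nonsingular_of_Δ_ne_zero (frey_baseChange_Δ_ne_zero P)).mp he
  refine ⟨x, y, hns, (frey_nsmul_eq_zero_iff P hns).mpr ?_, hvx⟩
  rw [aeval_def, eval₂_eq_eval_map]
  exact hx

/-- `v(a₄) = v(2) ^ (p β - 4)` at a place of `ℚ̄` over `2`. -/
theorem val_frey_a₄_eq577 (hA : A.LiesOverPrime 2) :
    ∃ β : ℕ, 1 ≤ β ∧ A.valuation (P.freyCurve⁄Qb).a₄ =
      A.valuation (2 : Qb) ^ ((P.p : ℤ) * β - 4) := by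
  have h2 : (A.valuation.comap (algebraMap ℚ Qb)) (2 : ℚ) < 1 := by
    rw [Valuation.comap_apply]
    simpa using Fermat.Agent.S13.AtTwo511.val_two_lt_one hA
  obtain ⟨β, hβ, hval⟩ := Fermat.Agent.S13.H11.frey_val_a₄ P
    (w := A.valuation.comap (algebraMap ℚ Qb)) h2
  refine ⟨β, hβ, ?_⟩
  rw [Valuation.comap_apply, Valuation.comap_apply] at hval
  have e2 : algebraMap ℚ Qb 2 = 2 := by simp
  rw [e2] at hval
  rw [← hval]
  rfl

/-- **RAM2.**  At every place over `2`, inertia acts non-trivially on `E[p]` of the Frey curve. -/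
theorem frey_ramified_two577 (A : ValuationSubring Qb) (hA : A.LiesOverPrime 2) :
    ∃ σ ∈ A.inertiaSubgroupIn ℚ,
      ∃ t : Submodule.torsionBy ℤ (P.freyCurve⁄Qb).Point P.p, σ • t ≠ t := by
  by_contra hcon
  push Not at hcon
  obtain ⟨x, y, h, hP, hx⟩ := exists_torsion_near_node577 P hA
  obtain ⟨M⟩ := Fermat.Agent.S13.AtTwo511.exists_frey_nodeModel2 P hA
  obtain ⟨hlo, j, hj⟩ := M.torsion_near_node P.hp_odd h hP hx
  -- `x` lies in the inertia field
  have hfix : ∀ σ ∈ A.inertiaSubgroupIn ℚ, σ x = x := by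
    intro σ hσ
    have hmem : (Point.some x y h : (P.freyCurve⁄Qb).Point) ∈
        Submodule.torsionBy ℤ (P.freyCurve⁄Qb).Point P.p := by
      rw [Submodule.mem_torsionBy_iff, natCast_zsmul]
      exact hP
    have h1 := congrArg Subtype.val (hcon σ hσ ⟨_, hmem⟩)
    have h2 : σ • (Point.some x y h : (P.freyCurve⁄Qb).Point) = Point.some x y h := h1
    rw [Fermat.Agent.S13.Comp2.smul_some'] at h2
    exact (Point.some.inj h2).1
  have hx0 : x ≠ 0 := by
    rintro rfl
    rw [_root_.map_zero] at hlo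
    exact absurd hlo (not_lt.mpr zero_le)
  obtain ⟨ξ, hξ⟩ := Fermat.Agent.A2.IF.H429.exists_zpow_of_mem_inertiaField A 2 Nat.prime_two hA
    x ((Fermat.Agent.A2.IF.H429.mem_inertiaField_iff A).mpr hfix) hx0
  have h2lt : A.valuation (2 : Qb) < 1 := Fermat.Agent.S13.AtTwo511.val_two_lt_one hA
  have h20 : A.valuation (2 : Qb) ≠ 0 := by
    rw [Valuation.ne_zero_iff]
    norm_num
  have hvx : A.valuation x = A.valuation (2 : Qb) ^ ξ := by
    have e2 : ((2 : ℕ) : Qb) = 2 := by norm_num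
    rw [e2, map_div₀, map_zpow₀] at hξ
    exact (div_eq_one_iff_eq (zpow_ne_zero ξ h20)).mp hξ
  obtain ⟨β, hβ, hva⟩ := val_frey_a₄_eq577 P hA
  -- transport to the valuation `w` on `ℚ` to use helper11's exponent arithmetic
  have hw2 : (A.valuation.comap (algebraMap ℚ Qb)) (2 : ℚ) = A.valuation (2 : Qb) := by
    rw [Valuation.comap_apply]
    simp
  have h2 : (A.valuation.comap (algebraMap ℚ Qb)) (2 : ℚ) < 1 := by rw [hw2]; exact h2lt
  rw [hvx, hva] at hlo hj
  rw [hvx] at hx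
  rw [← hw2] at hlo hj hx
  have h0 : 0 < ξ := (Fermat.Agent.S13.H11.zpow_lt_one_iff h2 ξ).mp hx
  have h1 : ξ < (P.p : ℤ) * β - 4 := (Fermat.Agent.S13.H11.zpow_lt_zpow_iff h2 _ _).mp hlo
  have e : (P.p : ℤ) * ξ = 2 * ((P.p : ℤ) * β - 4) * j := by
    have e1 : ((A.valuation.comap (algebraMap ℚ Qb)) (2 : ℚ) ^ ξ) ^ P.p =
        (A.valuation.comap (algebraMap ℚ Qb)) 2 ^ (ξ * (P.p : ℤ)) := by
      rw [zpow_mul, zpow_natCast]
    have e2 : ((A.valuation.comap (algebraMap ℚ Qb)) (2 : ℚ) ^ ((P.p : ℤ) * β - 4)) ^ (2 * j) =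
        (A.valuation.comap (algebraMap ℚ Qb)) 2 ^ (((P.p : ℤ) * β - 4) * ((2 * j : ℕ) : ℤ)) := by
      rw [zpow_mul, zpow_natCast]
    rw [e1, e2, Fermat.Agent.S13.H11.zpow_eq_zpow_iff h2] at hj
    push_cast at hj
    linarith
  exact Fermat.Agent.S13.H11.frey_arith_contra P β ξ j h0 h1 e

/-- **RAM2**, Prelude form: the mod-`p` representation of the Frey curve is ramified at `2`. -/
theorem not_galoisRepUnramifiedAt_two577 : ¬ P.GaloisRepUnramifiedAt 2 := by
  intro hunr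
  obtain ⟨A, hA⟩ := Fermat.Agent.S54.exists_valuationSubring_liesOver 2 Nat.prime_two
  obtain ⟨σ, hσ, t, ht⟩ := frey_ramified_two577 P A hA
  exact ht (hunr A hA σ hσ t)

end Frey

end Fermat.Agent.Ribet.H577

end
-- ===== PACK-END Ribet/H577/Ram2.lean

-- ===== PACK-BEGIN S59/H127/BridgeE.lean
section







/-!
# E-side foundation, part 7: finite levels of the Tate module of an elliptic curve over `ℚ`

For `W' : Affine ℚ` elliptic, `ρ = tateGaloisRep W' cb` and the Prelude's finite-level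
representations `galoisRepModuleEnd ℚ W' (p^n)` on `E[p^n]` (a `ZMod (p^n)`-module):

* `free_torsion_pow`, `finite_torsion_pow` : `E[p^n]` is finite free over `ZMod (p^n)`;
* `charpoly_tate_map`, `det_tate_map`, `trace_tate_map` : the characteristic polynomial /
  determinant / trace of `ρ σ` reduce mod `p^n` to those of `σ` on `E[p^n]`;
* `charpoly_tate_eq_of_level` : if `σ` has characteristic polynomial `X² - aX + b` on every
  `E[p^n]` then so has `ρ σ`;
* `det_tate_sub_mem_of_level` : the form needed for `DetIsCyclotomic`;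
* `detIsCyclotomic_of_level`, `isUnipotentOnInertiaAt_of_level`;
* `galoisFactorsThroughFiniteLevel_torsion` : the field `hker` of `CurveRep`.
-/

open PadicInt Polynomial WeierstrassCurve WeierstrassCurve.Affine
open scoped WeierstrassCurve.Affine

namespace Fermat.Agent.S59.H127

variable (W' : WeierstrassCurve.Affine ℚ) [hE : (W'⁄(AlgebraicClosure ℚ)).IsElliptic]
variable {p : ℕ} [hp : Fact p.Prime]

section finiteLevel

/-- the action on `E[m]` factors through a finite quotient of the Galois group -/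
theorem galoisFactorsThroughFiniteLevel_torsion (m : ℕ) (hm : 1 ≤ m) :
    GaloisFactorsThroughFiniteLevel
      (WeierstrassCurve.Affine.Point.galoisRepModuleEnd (K := AlgebraicClosure ℚ) ℚ W' m) := by
  obtain ⟨L, hL, hfix⟩ := exists_finite_level W' m hm
  refine ⟨L, hL, fun σ hσ => ?_⟩
  apply LinearMap.ext
  intro x
  apply Subtype.ext
  exact hfix σ hσ x (mem_torsionBy_natCast_iff.mp x.2)

/-- `#E[p] = p^2` (the field `hcard` of `CurveRep`) -/
theorem card_torsion_prime (p : ℕ) :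
    Nat.card (Submodule.torsionBy ℤ (W'⁄(AlgebraicClosure ℚ)).Point ((p : ℕ) : ℤ)) = p ^ 2 :=
  card_torsion_eq _ p

variable (p) in
/-- `E[p^n]` is free over `ZMod (p^n)` -/
theorem free_torsion_pow (n : ℕ) :
    Module.Free (ZMod (p ^ n))
      (Submodule.torsionBy ℤ (W'⁄(AlgebraicClosure ℚ)).Point ((p ^ n : ℕ) : ℤ)) := by
  obtain ⟨cb⟩ := nonempty_compatBasis_point (W'⁄(AlgebraicClosure ℚ)) p
  exact cb.free_level n

variable (p) in
/-- `E[p^n]` is finite over `ZMod (p^n)` -/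
theorem finite_torsion_pow (n : ℕ) :
    Module.Finite (ZMod (p ^ n))
      (Submodule.torsionBy ℤ (W'⁄(AlgebraicClosure ℚ)).Point ((p ^ n : ℕ) : ℤ)) := by
  obtain ⟨cb⟩ := nonempty_compatBasis_point (W'⁄(AlgebraicClosure ℚ)) p
  exact cb.finite_level n

end finiteLevel

section bridge

variable (cb : CompatBasis (W'⁄(AlgebraicClosure ℚ)).Point p 2)

lemma tateGaloisRep_ρ (σ : GQ) :
    (tateGaloisRep W' cb).ρ σ
      = cb.tateEnd (DistribMulAction.toAddMonoidEnd GQ (W'⁄(AlgebraicClosure ℚ)).Point σ) :=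
  rfl

/-- the characteristic polynomial of `ρ σ` reduces mod `p^n` to that of `σ` on `E[p^n]` -/
theorem charpoly_tate_map (σ : GQ) (n : ℕ)
    [Module.Free (ZMod (p ^ n))
      (Submodule.torsionBy ℤ (W'⁄(AlgebraicClosure ℚ)).Point ((p ^ n : ℕ) : ℤ))]
    [Module.Finite (ZMod (p ^ n))
      (Submodule.torsionBy ℤ (W'⁄(AlgebraicClosure ℚ)).Point ((p ^ n : ℕ) : ℤ))] :
    (LinearMap.charpoly ((tateGaloisRep W' cb).ρ σ)).map (toZModPow n) =
      LinearMap.charpoly
        (WeierstrassCurve.Affine.Point.galoisRepModuleEnd (K := AlgebraicClosure ℚ) ℚ W'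
          (p ^ n) σ) :=
  (cb.charpoly_level n _ _ (fun _ => rfl)).symm

/-- the determinant of `ρ σ` reduces mod `p^n` to that of `σ` on `E[p^n]` -/
theorem det_tate_map (σ : GQ) (n : ℕ) :
    toZModPow n (LinearMap.det ((tateGaloisRep W' cb).ρ σ)) =
      LinearMap.det
        (WeierstrassCurve.Affine.Point.galoisRepModuleEnd (K := AlgebraicClosure ℚ) ℚ W'
          (p ^ n) σ) :=
  (cb.det_level n _ _ (fun _ => rfl)).symm

/-- the trace of `ρ σ` reduces mod `p^n` to that of `σ` on `E[p^n]` -/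
theorem trace_tate_map (σ : GQ) (n : ℕ) :
    toZModPow n ((tateGaloisRep W' cb).trace σ) =
      WeierstrassCurve.Affine.Point.galoisTrace (K := AlgebraicClosure ℚ) ℚ W' (p ^ n) σ :=
  (cb.trace_level n _ _ (fun _ => rfl)).symm

/-- if `σ` has characteristic polynomial `Q mod p^n` on every `E[p^n]`, then `ρ σ` has
characteristic polynomial `Q` -/
theorem charpoly_tate_eq_of_level (σ : GQ) (Q : ℤ_[p][X])
    (h : ∀ n : ℕ,
      haveI := free_torsion_pow W' p n
      haveI := finite_torsion_pow W' p n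
      LinearMap.charpoly
        (WeierstrassCurve.Affine.Point.galoisRepModuleEnd (K := AlgebraicClosure ℚ) ℚ W'
          (p ^ n) σ) = Q.map (toZModPow n)) :
    LinearMap.charpoly ((tateGaloisRep W' cb).ρ σ) = Q := by
  apply poly_eq_of_map_toZModPow
  intro n
  have := free_torsion_pow W' p n
  have := finite_torsion_pow W' p n
  rw [charpoly_tate_map W' cb σ n]
  exact h n

/-- the determinant of `ρ σ` is congruent to `a` mod `p^n` if the determinant of `σ` on
`E[p^n]` is `a` -/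
theorem det_tate_sub_mem_of_level (σ : GQ) (n : ℕ) (a : ℤ_[p])
    (h : LinearMap.det
        (WeierstrassCurve.Affine.Point.galoisRepModuleEnd (K := AlgebraicClosure ℚ) ℚ W'
          (p ^ n) σ) = toZModPow n a) :
    LinearMap.det ((tateGaloisRep W' cb).ρ σ) - a ∈ Ideal.span {((p ^ n : ℕ) : ℤ_[p])} := by
  rw [Nat.cast_pow, ← ker_toZModPow, RingHom.mem_ker, map_sub, det_tate_map, h, sub_self]

/-- `DetIsCyclotomic` from the finite levels -/
theorem detIsCyclotomic_of_level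
    (h : ∀ (n : ℕ) (σ : GQ) (a : ℕ),
      (∀ μ : AlgebraicClosure ℚ, μ ^ p ^ n = 1 → σ μ = μ ^ a) →
      LinearMap.det
        (WeierstrassCurve.Affine.Point.galoisRepModuleEnd (K := AlgebraicClosure ℚ) ℚ W'
          (p ^ n) σ) = (a : ZMod (p ^ n))) :
    (tateGaloisRep W' cb).DetIsCyclotomic p := by
  refine ⟨?_, fun n σ a ha => ?_⟩
  · rw [maximalIdeal_eq_span_p]
    exact Ideal.mem_span_singleton_self _
  · apply det_tate_sub_mem_of_level
    rw [h n σ a ha, map_natCast]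

/-- `IsUnipotentOnInertiaAt` from the finite levels -/
theorem isUnipotentOnInertiaAt_of_level (q : ℕ)
    (h : ∀ P : ValuationSubring (AlgebraicClosure ℚ), P.LiesOverPrime q →
      ∀ σ ∈ P.inertiaSubgroupIn ℚ, ∀ n : ℕ,
        haveI := free_torsion_pow W' p n
        haveI := finite_torsion_pow W' p n
        LinearMap.charpoly
          (WeierstrassCurve.Affine.Point.galoisRepModuleEnd (K := AlgebraicClosure ℚ) ℚ W'
            (p ^ n) σ) = (X - 1) ^ 2) :
    (tateGaloisRep W' cb).IsUnipotentOnInertiaAt q := by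
  intro P hP σ hσ
  apply charpoly_tate_eq_of_level
  intro n
  have := free_torsion_pow W' p n
  have := finite_torsion_pow W' p n
  rw [h P hP σ hσ n]
  simp

/-- charpoly of Frobenius from the finite levels, in the form of `CurveRep.charpoly_frob` -/
theorem charpoly_tate_eq_quadratic_of_level (σ : GQ) (a b : ℤ)
    (h : ∀ n : ℕ,
      haveI := free_torsion_pow W' p n
      haveI := finite_torsion_pow W' p n
      LinearMap.charpoly
        (WeierstrassCurve.Affine.Point.galoisRepModuleEnd (K := AlgebraicClosure ℚ) ℚ W'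
          (p ^ n) σ) = X ^ 2 - C ((a : ℤ) : ZMod (p ^ n)) * X + C ((b : ℤ) : ZMod (p ^ n))) :
    LinearMap.charpoly ((tateGaloisRep W' cb).ρ σ)
      = X ^ 2 - C ((a : ℤ) : ℤ_[p]) * X + C ((b : ℤ) : ℤ_[p]) := by
  apply charpoly_tate_eq_of_level
  intro n
  have := free_torsion_pow W' p n
  have := finite_torsion_pow W' p n
  rw [h n]
  simp

end bridge

end Fermat.Agent.S59.H127

end
-- ===== PACK-END S59/H127/BridgeE.lean

-- ===== PACK-BEGIN S59/H105/CtrlOps.lean
section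









/-!
# Row S59, cell TW, leaf TW-CTRL (helper105): the operators as linear maps, `DegRel`, control

`A` a module over a commutative ring `O`; `H_M = Hom(Γ₀(M), A)` (Lean: `Additive (Gamma0 M) →+ A`)
is an `O`-module.  Level `N`, prime `q ∤ N`.

* `r₁L, r₂L : H_N →ₗ[O] H_{N q}`, `t₁L, t₂L : H_{N q} →ₗ[O] H_N`, `TqL : H_N →ₗ[O] H_N`,
  `UqL : H_{N q} →ₗ[O] H_{N q}`: the operators of S41 (`Spec/HK.lean`), `heckeTransfer` and `Uq`;
* `degRel : DegRel q r₁L r₂L t₁L t₂L TqL UqL` : all the identities of `CtrlCore.lean`;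
* `ctrl_Gamma0` : **TW-CTRL** for one prime (the instance of `ctrl_t₂`).
-/

set_option autoImplicit false

namespace Fermat.Agent.S59.H105

open CongruenceSubgroup Matrix.SpecialLinearGroup
open Fermat.Agent.S29.H642 Fermat.Agent.S41 Fermat.Agent.S41.Spec Fermat.Agent.S41.H761
open scoped MatrixGroups

universe u v

section Ops

variable (O : Type v) [CommRing O] (A : Type u) [AddCommGroup A] [Module O A]

/-- Multiplication by `c` on the coefficients. -/
def coeffSmul (c : O) : A →+ A := DistribSMul.toAddMonoidHom A c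

variable {O A}

theorem smul_eq_coeffSmul_comp {G : Type*} [AddMonoid G] (c : O) (φ : G →+ A) :
    c • φ = (coeffSmul O A c).comp φ := rfl

variable (O A)

/-- `r₁` as a linear map. -/
def r₁L (N q : ℕ) : (Additive (Gamma0 N) →+ A) →ₗ[O] (Additive (Gamma0 (N * q)) →+ A) where
  toFun := r₁ N q
  map_add' _ _ := rfl
  map_smul' _ _ := rfl

/-- `r₂` as a linear map. -/
def r₂L (N q : ℕ) : (Additive (Gamma0 N) →+ A) →ₗ[O] (Additive (Gamma0 (N * q)) →+ A) where
  toFun := r₂ N q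
  map_add' _ _ := rfl
  map_smul' _ _ := rfl

/-- `t₁` as a linear map. -/
noncomputable def t₁L (N q : ℕ) :
    (Additive (Gamma0 (N * q)) →+ A) →ₗ[O] (Additive (Gamma0 N) →+ A) where
  toFun := t₁ N q
  map_add' φ ψ := H581.transferAlong_add (incl N q) φ ψ
  map_smul' c φ := by
    rw [smul_eq_coeffSmul_comp]
    exact H581.transferAlong_comp (incl N q) (coeffSmul O A c) φ

/-- `t₂` as a linear map. -/
noncomputable def t₂L (N q : ℕ) :
    (Additive (Gamma0 (N * q)) →+ A) →ₗ[O] (Additive (Gamma0 N) →+ A) where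
  toFun := t₂ N q
  map_add' φ ψ := H581.transferAlong_add (conjDelta N q) φ ψ
  map_smul' c φ := by
    rw [smul_eq_coeffSmul_comp]
    exact H581.transferAlong_comp (conjDelta N q) (coeffSmul O A c) φ

/-- `T_l` (`l ∤ M`) as a linear map. -/
noncomputable def TlL {M l : ℕ} [Fact l.Prime] (hl : ¬ l ∣ M) :
    (Additive (Gamma0 M) →+ A) →ₗ[O] (Additive (Gamma0 M) →+ A) where
  toFun := heckeTransfer hl
  map_add' φ ψ := heckeTransfer_add hl φ ψ
  map_smul' c φ := by
    rw [smul_eq_coeffSmul_comp]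
    exact heckeTransfer_comp hl (coeffSmul O A c) φ

/-- `U_q` (`q ∣ M`) as a linear map. -/
noncomputable def UqL {M q : ℕ} [Fact q.Prime] (hq : q ∣ M) :
    (Additive (Gamma0 M) →+ A) →ₗ[O] (Additive (Gamma0 M) →+ A) where
  toFun := Uq hq
  map_add' φ ψ := Uq_add hq φ ψ
  map_smul' c φ := by
    rw [smul_eq_coeffSmul_comp]
    exact Uq_comp hq (coeffSmul O A c) φ

@[simp] theorem r₁L_apply (N q : ℕ) (φ : Additive (Gamma0 N) →+ A) :
    r₁L O A N q φ = r₁ N q φ := rfl

@[simp] theorem r₂L_apply (N q : ℕ) (φ : Additive (Gamma0 N) →+ A) :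
    r₂L O A N q φ = r₂ N q φ := rfl

@[simp] theorem t₁L_apply (N q : ℕ) (ψ : Additive (Gamma0 (N * q)) →+ A) :
    t₁L O A N q ψ = t₁ N q ψ := rfl

@[simp] theorem t₂L_apply (N q : ℕ) (ψ : Additive (Gamma0 (N * q)) →+ A) :
    t₂L O A N q ψ = t₂ N q ψ := rfl

@[simp] theorem TlL_apply {M l : ℕ} [Fact l.Prime] (hl : ¬ l ∣ M)
    (φ : Additive (Gamma0 M) →+ A) : TlL O A hl φ = heckeTransfer hl φ := rfl

@[simp] theorem UqL_apply {M q : ℕ} [Fact q.Prime] (hq : q ∣ M)
    (φ : Additive (Gamma0 M) →+ A) : UqL O A hq φ = Uq hq φ := rfl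

/-- **The degeneracy relations** between the levels `N` and `N q` (`q ∤ N` prime). -/
theorem degRel {N q : ℕ} [Fact q.Prime] (hqN : ¬ q ∣ N) :
    DegRel q (r₁L O A N q) (r₂L O A N q) (t₁L O A N q) (t₂L O A N q) (TlL O A hqN)
      (UqL O A (dvd_mul_self_left N q)) where
  t₁r₁ φ := by
    have hN : N ≠ 0 := by rintro rfl; exact hqN (dvd_zero q)
    exact (H105.transferRestrict.{u} N q hN Fact.out hqN A φ).1
  t₂r₂ φ := by
    have hN : N ≠ 0 := by rintro rfl; exact hqN (dvd_zero q)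
    exact (H105.transferRestrict.{u} N q hN Fact.out hqN A φ).2
  t₁r₂ φ := t1_r2 hqN φ
  t₂r₁ φ := t2_r1 hqN φ
  Ur₁ φ := Uq_r₁ hqN φ
  Ur₂ φ := Uq_r₂ φ
  UU ψ := Uq_Uq hqN ψ

/-- **TW-CTRL, one prime `q ∤ N`.**  `X ⊆ Hom(Γ₀(N), A)` a submodule on which `T_q = a + b`,
`a b = q`, with `a - b`, `1 - a²`, `1 - b²`, `b - α` bijective, `a - α` nilpotent modulo `ϖ`,
`X` `ϖ`-adically separated; `P ⊆ Hom(Γ₀(N q), A)` a submodule with `t₁ P, t₂ P ⊆ X`, `U_q² - 1` onto
on `P`, `U_q - α` nilpotent modulo `ϖ` on `P`, and a complement `P'` (meeting `P` trivially, with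
`s_a (X) ⊆ P + P'`, separated) on which `U_q - α` is bijective.  Then

* `P = s_a (X) = {r₂ x - r₁ (a x) : x ∈ X}`, and
* `t₂ : P → X` is bijective.

(`t₂` commutes with `T_l`, `l ∤ N q`: `S41.H761.heckeTransferComm`.) -/
theorem ctrl_Gamma0 {N q : ℕ} [Fact q.Prime] (hqN : ¬ q ∣ N)
    (X : Submodule O (Additive (Gamma0 N) →+ A))
    (a b : (Additive (Gamma0 N) →+ A) →ₗ[O] (Additive (Gamma0 N) →+ A))
    (hp : HenselPair X q (TlL O A hqN) a b) (α ϖ : O)
    (hab : BijOnSub (a - b) X) (ha2 : BijOnSub (oneSubSq a) X) (hb2 : BijOnSub (oneSubSq b) X)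
    (hbα : BijOnSub (shiftBy b α) X) (hsep : SepOn X ϖ) (hnila : NilpOn (shiftBy a α) X ϖ)
    (P P' : Submodule O (Additive (Gamma0 (N * q)) →+ A))
    (ht₁ : ∀ y ∈ P, t₁ N q y ∈ X) (ht₂ : ∀ y ∈ P, t₂ N q y ∈ X)
    (hsurj : ∀ y ∈ P, ∃ y' ∈ P,
      Uq (dvd_mul_self_left N q) (Uq (dvd_mul_self_left N q) y') - y' = y)
    (hnil : NilpOn (shiftBy (UqL O A (dvd_mul_self_left N q)) α) P ϖ)
    (hdisj : ∀ y ∈ P, y ∈ P' → y = 0)
    (hbij : BijOnSub (shiftBy (UqL O A (dvd_mul_self_left N q)) α) P') (hsep' : SepOn P' ϖ)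
    (hsum : ∀ x ∈ X, ∃ y₁ ∈ P, ∃ y₂ ∈ P', r₂ N q x - r₁ N q (a x) = y₁ + y₂) :
    (∀ y ∈ P, ∃ u ∈ X, y = r₂ N q u - r₁ N q (a u)) ∧
    (∀ x ∈ X, r₂ N q x - r₁ N q (a x) ∈ P) ∧
    (∀ y ∈ P, t₂ N q y = 0 → y = 0) ∧ (∀ x ∈ X, ∃ y ∈ P, t₂ N q y = x) :=
  ctrl_t₂ (degRel O A hqN) hp α ϖ hab ha2 hb2 hbα hsep hnila P P' ht₁ ht₂ hsurj hnil hdisj hbij
    hsep' hsum

/-- `Hom(Γ, A)` is `ϖ`-adically separated if `A` is. -/
theorem sepOn_top {G : Type*} [AddMonoid G] (ϖ : O)
    (hA : ∀ x : A, (∀ n : ℕ, ∃ z : A, x = ϖ ^ n • z) → x = 0) :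
    ∀ φ : G →+ A, (∀ n : ℕ, ∃ ψ : G →+ A, φ = ϖ ^ n • ψ) → φ = 0 := by
  intro φ h
  refine AddMonoidHom.ext fun g => hA _ fun n => ?_
  obtain ⟨ψ, rfl⟩ := h n
  exact ⟨ψ g, rfl⟩

end Ops

end Fermat.Agent.S59.H105

end
-- ===== PACK-END S59/H105/CtrlOps.lean

-- ===== PACK-BEGIN S59/TW/H324/BoundaryEis.lean
section



/-!
# S59 / cell TW, leaf CUSP (helper324): the boundary is Eisenstein

For `Γ₁(M) ≤ K ≤ Γ₀(M)`, a prime `ℓ ≡ 1` mod `M` and a torsion-free `A`:
`(T_ℓ φ)(γ) = (ℓ + 1) • φ(γ)` for every `φ ∈ Hom(K, A)` and every `γ ∈ K` with `(tr γ)² = 4`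
(`TK_apply_parabolic`).  Also `T_ℓ`, `U_q` preserve the classes vanishing on these `γ`
(`TK_parabolic`, `UK_parabolic`), for every `ℓ ∤ M`, `q ∣ M`.
-/

set_option autoImplicit false

namespace Fermat.Agent.S59.TW.H324

open CongruenceSubgroup Matrix.SpecialLinearGroup ModularCurve.Period ModularForm
open Fermat.Agent.S29.H642 Fermat.Agent.S41.H761 Fermat.Agent.S59.TW.H653
open P2MW.S_ModularForm_heckeT_slash_eq_self_of_mem_Gamma0.ModularForm.HeckeSlashInvariance
open scoped MatrixGroups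

variable {M : ℕ} {K : Subgroup SL(2, ℤ)} {A : Type*} [AddCommGroup A]

/-! ## The integral representatives of `T_ℓ` and `U_q` -/

/-- The integral matrices of `repsU q`. -/
def repMatU (q : ℕ) (j : ZMod q) : Matrix (Fin 2) (Fin 2) ℤ := !![1, (j.val : ℤ); 0, (q : ℤ)]

/-- The integral matrices of `repsT M ℓ`. -/
def repMatT (M ℓ : ℕ) (x : OnePoint (ZMod ℓ)) : Matrix (Fin 2) (Fin 2) ℤ :=
  x.elim !![Int.gcdA ℓ M * ℓ, -Int.gcdB ℓ M; (M : ℤ) * ℓ, (ℓ : ℤ)] (repMatU ℓ)

@[simp] theorem repMatT_infty (M ℓ : ℕ) :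
    repMatT M ℓ OnePoint.infty =
      !![Int.gcdA ℓ M * ℓ, -Int.gcdB ℓ M; (M : ℤ) * ℓ, (ℓ : ℤ)] := rfl

@[simp] theorem repMatT_coe (M ℓ : ℕ) (j : ZMod ℓ) :
    repMatT M ℓ (j : OnePoint (ZMod ℓ)) = repMatU ℓ j := rfl

theorem isIntMat_repsU {q : ℕ} (hq : q ≠ 0) (j : ZMod q) : IsIntMat (repsU q j) (repMatU q j) := by
  intro i k
  unfold repsU repMatU
  rw [val_heckeMatrix hq]
  fin_cases i <;> fin_cases k <;> simp

theorem det_repMatU (q : ℕ) (j : ZMod q) : (repMatU q j).det = q := by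
  rw [repMatU, Matrix.det_fin_two_of]
  ring

theorem isIntMat_repsT {ℓ : ℕ} [Fact ℓ.Prime] (hℓ : ¬ ℓ ∣ M) (x : OnePoint (ZMod ℓ)) :
    IsIntMat (repsT M ℓ x) (repMatT M ℓ x) := by
  have hp : ℓ ≠ 0 := (Fact.out : ℓ.Prime).ne_zero
  induction x using OnePoint.rec with
  | coe j => exact isIntMat_repsU hp j
  | infty =>
    have hcop : Nat.Coprime ℓ M := (Nat.Prime.coprime_iff_not_dvd Fact.out).mpr hℓ
    obtain ⟨s00, s01, s10, s11, hs⟩ := sigma_spec hcop
    intro i j
    rw [repsT_infty, repMatT_infty]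
    fin_cases i <;> fin_cases j <;>
      simp only [coe_mul_apply, coe_ιN_apply, val_heckeDiagMatrix hp, Matrix.of_apply,
        Matrix.cons_val', Matrix.cons_val_zero, Matrix.cons_val_one, Matrix.cons_val_fin_one,
        Fin.zero_eta, Fin.mk_one, s00, s01, s10, s11] <;>
      push_cast <;> ring

theorem det_repMatT {ℓ : ℕ} [Fact ℓ.Prime] (hℓ : ¬ ℓ ∣ M) (x : OnePoint (ZMod ℓ)) :
    (repMatT M ℓ x).det = ℓ := by
  induction x using OnePoint.rec with
  | coe j => exact det_repMatU ℓ j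
  | infty =>
    have hcop : Nat.Coprime ℓ M := (Nat.Prime.coprime_iff_not_dvd Fact.out).mpr hℓ
    obtain ⟨-, -, -, -, hs⟩ := sigma_spec hcop
    rw [repMatT_infty, Matrix.det_fin_two_of]
    linear_combination (ℓ : ℤ) * hs

/-! ## Reduction of a parabolic element to the `unip (d M) a c` -/

theorem trace_sq_unipK (hK : IsMid M K) (t a c : ℤ) (ht : (M : ℤ) ∣ t) :
    (((unipK hK t a c ht : K) : SL(2, ℤ)) : Matrix (Fin 2) (Fin 2) ℤ).trace ^ 2 = 4 := by
  rw [coe_unipK, trace_unip]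
  norm_num

/-- Two classes with values in a torsion-free group which agree on the `unip (d M) a c`,
`(a, c)` coprime, agree on all `γ` with `(tr γ)² = 4`. -/
theorem eq_on_parabolic [NeZero M] [IsAddTorsionFree A] (hK : IsMid M K) (d : ℕ) (hd : d ≠ 0)
    (ψ χ : Additive K →+ A)
    (H : ∀ a c : ℤ, IsCoprime a c →
      ψ (Additive.ofMul (unipK hK ((d : ℤ) * M) a c (Dvd.intro_left _ rfl))) =
        χ (Additive.ofMul (unipK hK ((d : ℤ) * M) a c (Dvd.intro_left _ rfl))))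
    (γ : K) (hγ : ((γ : SL(2, ℤ)) : Matrix (Fin 2) (Fin 2) ℤ).trace ^ 2 = 4) :
    ψ (Additive.ofMul γ) = χ (Additive.ofMul γ) := by
  obtain ⟨t, a, c, hac, e⟩ := exists_unip_of_trace_two (sq_trace_two hγ)
  have hN : 2 * (d * M) ≠ 0 :=
    mul_ne_zero two_ne_zero (mul_ne_zero hd (NeZero.ne M))
  have key : γ ^ (2 * (d * M)) = unipK hK ((d : ℤ) * M) a c (Dvd.intro_left _ rfl) ^ t := by
    apply Subtype.ext
    rw [Subgroup.coe_pow, Subgroup.coe_zpow, coe_unipK, pow_mul, e, ← unip_nsmul, ← unip_zsmul]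
    congr 1
    push_cast
    ring
  have h1 : ∀ ξ : Additive K →+ A, (2 * (d * M)) • ξ (Additive.ofMul γ) =
      t • ξ (Additive.ofMul (unipK hK ((d : ℤ) * M) a c (Dvd.intro_left _ rfl))) := by
    intro ξ
    rw [← map_nsmul, ← ofMul_pow, key, ofMul_zpow, map_zsmul]
  have h2 : (2 * (d * M)) • ψ (Additive.ofMul γ) = (2 * (d * M)) • χ (Additive.ofMul γ) := by
    rw [h1 ψ, h1 χ, H a c hac]
  exact nsmul_right_injective hN h2

/-! ## `T_ℓ` and `U_q` preserve the classes which vanish on the parabolic elements -/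

theorem transfer_parabolic [NeZero M] [IsAddTorsionFree A] (hK : IsMid M K) {I : Type*}
    [Fintype I] {ρ : I → GL (Fin 2) ℝ} (h : IsCosetSystem (ιK K) (ιK K) ρ)
    (m : I → Matrix (Fin 2) (Fin 2) ℤ) (hm : ∀ i, IsIntMat (ρ i) (m i)) (d : ℕ) (hd0 : d ≠ 0)
    (hd : ∀ i, (m i).det = d) (φ : Additive K →+ A) (hφ : IsParabolicHom K φ) :
    IsParabolicHom K (h.transfer φ) := by
  intro γ hγ
  have := eq_on_parabolic hK d hd0 (h.transfer φ) 0 (fun a c _ => ?_) γ hγ
  · rw [this]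
    rfl
  · rw [transfer_unipK hK h m hm d hd φ a c, AddMonoidHom.zero_apply]
    refine Finset.sum_eq_zero fun i _ => ?_
    exact hφ _ (trace_sq_unipK hK _ _ _ _)

/-- `T_ℓ` (`ℓ ∤ M`) preserves the parabolic classes (`A` torsion-free). -/
theorem TK_parabolic [NeZero M] [IsAddTorsionFree A] (hK : IsMid M K) {ℓ : ℕ} [Fact ℓ.Prime]
    (hℓ : ¬ ℓ ∣ M) (φ : Additive K →+ A) (hφ : IsParabolicHom K φ) :
    IsParabolicHom K (TK M K ℓ φ) := by
  rw [TK_eq hK hℓ]
  exact transfer_parabolic hK _ (repMatT M ℓ) (isIntMat_repsT hℓ) ℓ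
    (Fact.out : ℓ.Prime).ne_zero (det_repMatT hℓ) φ hφ

/-- `U_q` (`q ∣ M`) preserves the parabolic classes (`A` torsion-free). -/
theorem UK_parabolic [NeZero M] [IsAddTorsionFree A] (hK : IsMid M K) {q : ℕ} [Fact q.Prime]
    (hq : q ∣ M) (φ : Additive K →+ A) (hφ : IsParabolicHom K φ) :
    IsParabolicHom K (UK K q φ) := by
  rw [UK_eq hK hq]
  exact transfer_parabolic hK _ (repMatU q) (isIntMat_repsU (Fact.out : q.Prime).ne_zero) q
    (Fact.out : q.Prime).ne_zero (det_repMatU q) φ hφ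

/-! ## The boundary is Eisenstein: `ℓ ≡ 1` mod `M` -/

/-- For `m ≡ [[1, b], [0, 1]]` mod `M` of prime determinant `ℓ ≡ 1` mod `M`:
`bdry φ (m v) = ℓ² • bdry φ v` if `ℓ ∣ m v`, and `bdry φ (m v) = bdry φ v` otherwise. -/
theorem bdry_mul_vec (hK : IsMid M K) (φ : Additive K →+ A) {ℓ : ℕ} (hℓ : ℓ.Prime)
    (h1 : (M : ℤ) ∣ (ℓ : ℤ) - 1) (m : Matrix (Fin 2) (Fin 2) ℤ) (hm : m.det = ℓ)
    (h00 : (M : ℤ) ∣ m 0 0 - 1) (h10 : (M : ℤ) ∣ m 1 0) {a c : ℤ} (hac : IsCoprime a c) :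
    bdry hK φ (m 0 0 * a + m 0 1 * c) (m 1 0 * a + m 1 1 * c) =
      (open scoped Classical in
        if (ℓ : ℤ) ∣ m 0 0 * a + m 0 1 * c ∧ (ℓ : ℤ) ∣ m 1 0 * a + m 1 1 * c then (ℓ : ℤ) ^ 2
        else 1) • bdry hK φ a c := by
  classical
  have h11 : (M : ℤ) ∣ m 1 1 - 1 := by
    -- `m 0 0 * m 1 1 - m 0 1 * m 1 0 = ℓ`
    rw [Matrix.det_fin_two] at hm
    obtain ⟨u, hu⟩ := h00
    obtain ⟨w, hw⟩ := h10
    obtain ⟨z, hz⟩ := h1
    refine ⟨z - u * m 1 1 + m 0 1 * w, ?_⟩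
    have e00 : m 0 0 = 1 + M * u := by linarith
    rw [e00, hw] at hm
    linear_combination hm + hz
  have hsh : IsCoprime (a + m 0 1 * c) c := by
    exact hac.add_mul_right_left (m 0 1)
  rcases content_cases hℓ m hm hac with ⟨a', c', hac', e1, e2⟩ | ⟨hnd, hcop⟩
  · have hdiv : (ℓ : ℤ) ∣ m 0 0 * a + m 0 1 * c ∧ (ℓ : ℤ) ∣ m 1 0 * a + m 1 1 * c :=
      ⟨⟨a', e1⟩, ⟨c', e2⟩⟩
    rw [if_pos hdiv, e1, e2, bdry_smul_vec, ← bdry_shear hK φ (m 0 1) a c]
    congr 1
    apply bdry_congr hK φ hsh hac'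
    · obtain ⟨u, hu⟩ := h00
      obtain ⟨z, hz⟩ := h1
      refine ⟨u * a - z * a', ?_⟩
      linear_combination -e1 + a * hu - a' * hz
    · obtain ⟨u, hu⟩ := h11
      obtain ⟨w, hw⟩ := h10
      obtain ⟨z, hz⟩ := h1
      refine ⟨w * a + u * c - z * c', ?_⟩
      linear_combination -e2 + a * hw + c * hu - c' * hz
  · rw [if_neg hnd, one_smul, ← bdry_shear hK φ (m 0 1) a c]
    apply bdry_congr hK φ hsh hcop
    · obtain ⟨u, hu⟩ := h00
      refine ⟨u * a, ?_⟩
      linear_combination a * hu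
    · obtain ⟨u, hu⟩ := h11
      obtain ⟨w, hw⟩ := h10
      refine ⟨w * a + u * c, ?_⟩
      linear_combination a * hw + c * hu

/-- Exactly one representative of `T_ℓ` maps the coprime vector `(a, c)` into `ℓ ℤ²`. -/
theorem exists_unique_dvd {ℓ : ℕ} [Fact ℓ.Prime] (hℓ : ¬ ℓ ∣ M) {a c : ℤ} (hac : IsCoprime a c) :
    ∃ i₀ : OnePoint (ZMod ℓ), ∀ i : OnePoint (ZMod ℓ),
      ((ℓ : ℤ) ∣ repMatT M ℓ i 0 0 * a + repMatT M ℓ i 0 1 * c ∧
        (ℓ : ℤ) ∣ repMatT M ℓ i 1 0 * a + repMatT M ℓ i 1 1 * c) ↔ i = i₀ := by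
  have hp : ℓ.Prime := Fact.out
  have hcopM : Nat.Coprime ℓ M := (Nat.Prime.coprime_iff_not_dvd hp).mpr hℓ
  obtain ⟨-, -, -, -, hs⟩ := sigma_spec hcopM
  -- the two divisibilities, in `ZMod ℓ`
  have hfin : ∀ j : ZMod ℓ,
      ((ℓ : ℤ) ∣ repMatT M ℓ (j : OnePoint (ZMod ℓ)) 0 0 * a +
          repMatT M ℓ (j : OnePoint (ZMod ℓ)) 0 1 * c ∧
        (ℓ : ℤ) ∣ repMatT M ℓ (j : OnePoint (ZMod ℓ)) 1 0 * a +
          repMatT M ℓ (j : OnePoint (ZMod ℓ)) 1 1 * c) ↔ (a : ZMod ℓ) + j * c = 0 := by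
    intro j
    have e00 : repMatT M ℓ (j : OnePoint (ZMod ℓ)) 0 0 = 1 := rfl
    have e01 : repMatT M ℓ (j : OnePoint (ZMod ℓ)) 0 1 = (j.val : ℤ) := rfl
    have e10 : repMatT M ℓ (j : OnePoint (ZMod ℓ)) 1 0 = 0 := rfl
    have e11 : repMatT M ℓ (j : OnePoint (ZMod ℓ)) 1 1 = (ℓ : ℤ) := rfl
    rw [e00, e01, e10, e11]
    have h2 : (ℓ : ℤ) ∣ 0 * a + (ℓ : ℤ) * c := ⟨c, by ring⟩
    rw [← ZMod.intCast_zmod_eq_zero_iff_dvd]
    constructor
    · rintro ⟨h, -⟩
      push_cast at h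
      rw [ZMod.natCast_zmod_val] at h
      linear_combination h
    · intro h
      refine ⟨?_, h2⟩
      push_cast
      rw [ZMod.natCast_zmod_val]
      linear_combination h
  have hinf : ((ℓ : ℤ) ∣ repMatT M ℓ OnePoint.infty 0 0 * a + repMatT M ℓ OnePoint.infty 0 1 * c ∧
        (ℓ : ℤ) ∣ repMatT M ℓ OnePoint.infty 1 0 * a + repMatT M ℓ OnePoint.infty 1 1 * c) ↔
      (c : ZMod ℓ) = 0 := by
    have e00 : repMatT M ℓ OnePoint.infty 0 0 = Int.gcdA ℓ M * ℓ := rfl
    have e01 : repMatT M ℓ OnePoint.infty 0 1 = -Int.gcdB ℓ M := rfl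
    have e10 : repMatT M ℓ OnePoint.infty 1 0 = (M : ℤ) * ℓ := rfl
    have e11 : repMatT M ℓ OnePoint.infty 1 1 = (ℓ : ℤ) := rfl
    rw [e00, e01, e10, e11]
    have h2 : (ℓ : ℤ) ∣ (M : ℤ) * ℓ * a + (ℓ : ℤ) * c := ⟨M * a + c, by ring⟩
    have hs' : ((Int.gcdB ℓ M : ℤ) : ZMod ℓ) * (M : ZMod ℓ) = 1 := by
      have := congrArg (Int.cast : ℤ → ZMod ℓ) hs
      push_cast at this
      rw [ZMod.natCast_self, mul_zero, zero_add] at this
      exact this
    rw [← ZMod.intCast_zmod_eq_zero_iff_dvd]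
    constructor
    · rintro ⟨h, -⟩
      push_cast at h
      rw [ZMod.natCast_self, mul_zero, zero_mul, zero_add] at h
      have : (c : ZMod ℓ) = ((Int.gcdB ℓ M : ℤ) : ZMod ℓ) * (M : ZMod ℓ) * c := by
        rw [hs', one_mul]
      rw [this]
      linear_combination (-(M : ZMod ℓ)) * h
    · intro h
      refine ⟨?_, h2⟩
      push_cast
      rw [ZMod.natCast_self, mul_zero, zero_mul, zero_add, h, mul_zero]
  by_cases hc : (c : ZMod ℓ) = 0
  · refine ⟨OnePoint.infty, fun i => ?_⟩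
    induction i using OnePoint.rec with
    | infty => exact ⟨fun _ => rfl, fun _ => hinf.mpr hc⟩
    | coe j =>
      rw [hfin j]
      constructor
      · intro h
        exfalso
        rw [hc, mul_zero, add_zero] at h
        have ha : (ℓ : ℤ) ∣ a := (ZMod.intCast_zmod_eq_zero_iff_dvd a ℓ).mp h
        have hc' : (ℓ : ℤ) ∣ c := (ZMod.intCast_zmod_eq_zero_iff_dvd c ℓ).mp hc
        have h1 : IsUnit (ℓ : ℤ) := hac.isUnit_of_dvd' ha hc'
        have h2 : ((ℓ : ℤ)).natAbs = 1 := Int.isUnit_iff_natAbs_eq.mp h1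
        rw [Int.natAbs_natCast] at h2
        exact hp.one_lt.ne' h2
      · intro h
        exact absurd h (OnePoint.coe_ne_infty j)
  · refine ⟨((-(a : ZMod ℓ) * (c : ZMod ℓ)⁻¹ : ZMod ℓ) : OnePoint (ZMod ℓ)), fun i => ?_⟩
    induction i using OnePoint.rec with
    | infty =>
      constructor
      · intro h
        exact absurd (hinf.mp h) hc
      · intro h
        exact absurd h.symm (OnePoint.coe_ne_infty _)
    | coe j =>
      rw [hfin j, OnePoint.coe_eq_coe]
      constructor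
      · intro h
        field_simp
        linear_combination h
      · intro h
        rw [h]
        field_simp
        ring

theorem dvd_repMatT_sub_one {ℓ : ℕ} [Fact ℓ.Prime] (hℓ : ¬ ℓ ∣ M) (i : OnePoint (ZMod ℓ)) :
    (M : ℤ) ∣ repMatT M ℓ i 0 0 - 1 ∧ (M : ℤ) ∣ repMatT M ℓ i 1 0 := by
  induction i using OnePoint.rec with
  | coe j =>
    have e00 : repMatT M ℓ (j : OnePoint (ZMod ℓ)) 0 0 = 1 := rfl
    have e10 : repMatT M ℓ (j : OnePoint (ZMod ℓ)) 1 0 = 0 := rfl
    rw [e00, e10]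
    exact ⟨by simp, dvd_zero _⟩
  | infty =>
    have hcopM : Nat.Coprime ℓ M :=
      (Nat.Prime.coprime_iff_not_dvd (Fact.out : ℓ.Prime)).mpr hℓ
    obtain ⟨-, -, -, -, hs⟩ := sigma_spec hcopM
    have e00 : repMatT M ℓ OnePoint.infty 0 0 = Int.gcdA ℓ M * ℓ := rfl
    have e10 : repMatT M ℓ OnePoint.infty 1 0 = (M : ℤ) * ℓ := rfl
    rw [e00, e10]
    exact ⟨⟨-Int.gcdB ℓ M, by linear_combination hs⟩, Dvd.intro _ rfl⟩

/-- **`T_ℓ` on the unipotent elements**, `ℓ ≡ 1` mod `M`: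
`(T_ℓ φ)(unip (ℓ M) v) = (ℓ + 1) • φ (unip (ℓ M) v)` for coprime `v`. -/
theorem TK_apply_unipK (hK : IsMid M K) {ℓ : ℕ} [Fact ℓ.Prime] (hℓ : ¬ ℓ ∣ M)
    (h1 : (M : ℤ) ∣ (ℓ : ℤ) - 1) (φ : Additive K →+ A) {a c : ℤ} (hac : IsCoprime a c) :
    TK M K ℓ φ (Additive.ofMul (unipK hK ((ℓ : ℤ) * M) a c (Dvd.intro_left _ rfl))) =
      ((ℓ : ℤ) + 1) • φ (Additive.ofMul (unipK hK ((ℓ : ℤ) * M) a c (Dvd.intro_left _ rfl))) := by
  classical
  have hp : ℓ.Prime := Fact.out
  rw [TK_eq hK hℓ, transfer_unipK hK (repsT_system hK hℓ) (repMatT M ℓ) (isIntMat_repsT hℓ) ℓ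
    (det_repMatT hℓ) φ a c, apply_unipK hK φ (ℓ : ℤ) a c]
  obtain ⟨i₀, hi₀⟩ := exists_unique_dvd hℓ hac
  have hterm : ∀ i : OnePoint (ZMod ℓ),
      bdry hK φ (repMatT M ℓ i 0 0 * a + repMatT M ℓ i 0 1 * c)
          (repMatT M ℓ i 1 0 * a + repMatT M ℓ i 1 1 * c) =
        bdry hK φ a c + (if i = i₀ then ((ℓ : ℤ) ^ 2 - 1) • bdry hK φ a c else 0) := by
    intro i
    rw [bdry_mul_vec hK φ hp h1 (repMatT M ℓ i) (det_repMatT hℓ i)
      (dvd_repMatT_sub_one hℓ i).1 (dvd_repMatT_sub_one hℓ i).2 hac]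
    by_cases hi : i = i₀
    · rw [if_pos ((hi₀ i).mpr hi), if_pos hi, sub_smul, one_smul]
      abel
    · rw [if_neg (fun h => hi ((hi₀ i).mp h)), if_neg hi, one_smul, add_zero]
  rw [Finset.sum_congr rfl (fun i _ => hterm i), Finset.sum_add_distrib, Finset.sum_const,
    Finset.sum_ite_eq' Finset.univ i₀, if_pos (Finset.mem_univ _), Finset.card_univ]
  have hcard : Fintype.card (OnePoint (ZMod ℓ)) = ℓ + 1 := by
    have h : Fintype.card (OnePoint (ZMod ℓ)) = Fintype.card (Option (ZMod ℓ)) := rfl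
    rw [h, Fintype.card_option, ZMod.card]
  rw [hcard, ← natCast_zsmul, ← add_smul, smul_smul]
  congr 1
  push_cast
  ring

/-- **The boundary is Eisenstein.**  For `Γ₁(M) ≤ K ≤ Γ₀(M)`, a prime `ℓ ≡ 1` mod `M` and a
torsion-free `A`: `(T_ℓ φ)(γ) = (ℓ + 1) • φ(γ)` for every `γ ∈ K` with `(tr γ)² = 4`. -/
theorem TK_apply_parabolic [NeZero M] [IsAddTorsionFree A] (hK : IsMid M K) {ℓ : ℕ}
    [Fact ℓ.Prime] (hℓ : ¬ ℓ ∣ M) (h1 : (M : ℤ) ∣ (ℓ : ℤ) - 1) (φ : Additive K →+ A) (γ : K)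
    (hγ : ((γ : SL(2, ℤ)) : Matrix (Fin 2) (Fin 2) ℤ).trace ^ 2 = 4) :
    TK M K ℓ φ (Additive.ofMul γ) = ((ℓ : ℤ) + 1) • φ (Additive.ofMul γ) := by
  have := eq_on_parabolic hK ℓ (Fact.out : ℓ.Prime).ne_zero (TK M K ℓ φ) (((ℓ : ℤ) + 1) • φ)
    (fun a c hac => ?_) γ hγ
  · rw [this]
    rfl
  · rw [TK_apply_unipK hK hℓ h1 φ hac]
    rfl

end Fermat.Agent.S59.TW.H324

end
-- ===== PACK-END S59/TW/H324/BoundaryEis.lean

-- ===== PACK-BEGIN S59/TW/H54/TraceZero.lean
section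


/-!
# TW-NS, part B (helper54): TRACE-ZERO for a twist

`f` with nebentypus `χ` on `Γ₀(N q)`, `q ∤ N` prime, `ψ ≠ 1` a Dirichlet character modulo `q` with
`χ(d) ψ(d)² = 1` (so that `F = twist k q ψ f` is `Γ₀(N q²)`-invariant).  Then

* `heckeU_twist_self` : `U_q F = 0`;
* `twist_trace_zero`  : `∑_{v mod q} F ∣ [1, 0; N q v, 1] = 0`  (the trace of `F` to level `N q`).

Function level, any weight; built on helper564's `twist` (`S59/TW/H564`).  The second statement is
the coset computation of referee memo `coord/S59-TWALG-referee-helper645.md`, §4.1 (c), organised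
so that both cases are instances of helper564's `sandwich` identity.
-/

set_option autoImplicit false
set_option linter.unusedSectionVars false

namespace Fermat.Agent.S59.TW.H54

open Matrix Matrix.SpecialLinearGroup CongruenceSubgroup UpperHalfPlane ModularForm
open Fermat.Agent.Lib.Newform.H803 Fermat.Agent.S59.TW.H564
open scoped MatrixGroups ModularForm

variable {k : ℤ} {N q : ℕ} [NeZero q]

/-- `tr x * tr (-x) = 1`. -/
theorem tr_mul_tr_neg_h54 (x : ℝ) : tr x * tr (-x) = 1 := by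
  rw [← tr_add, add_neg_cancel, tr_zero]

/-- **The sandwich relation for shifts**: if `u - x - u x N w = 0` in `ZMod q`, then
`(f ∣ tr (u/q)) ∣ [1, 0; N w q, 1] = χ(1 - x N w) • f ∣ tr (x/q)`. -/
theorem shift_slash_tL_h54 {χ : ℤ → ℂ} {f : ℍ → ℂ} (hf : IsNeb k (N * q) χ f)
    (u x : ZMod q) (w : ℤ)
    (h : u - x - u * x * (N : ZMod q) * (w : ZMod q) = 0) :
    (shift k q f u) ∣[k] tL ((N : ℤ) * w * q) =
      χ (1 - (x.val : ℤ) * ((N : ℤ) * w)) • shift k q f x := by
  have hq0 : (q : ℤ) ≠ 0 := by exact_mod_cast NeZero.ne q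
  -- the integer `e`
  have hdvd : (q : ℤ) ∣ (u.val : ℤ) + (-(x.val : ℤ)) + (u.val : ℤ) * (-(x.val : ℤ)) *
      ((N : ℤ) * w) := by
    rw [← ZMod.intCast_zmod_eq_zero_iff_dvd]
    push_cast
    rw [ZMod.natCast_zmod_val, ZMod.natCast_zmod_val]
    linear_combination h
  obtain ⟨e, he⟩ := hdvd
  have key := tr_mul_tL_mul_tr (M' := (N : ℤ) * w) hq0 (u.val : ℤ) (-(x.val : ℤ)) e he.symm
  -- move the last translation to the right hand side
  have key2 : tr (((u.val : ℤ) : ℝ) / ((q : ℤ) : ℝ)) * mapGL ℝ (tL ((N : ℤ) * w * q)) =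
      mapGL ℝ (sandwich ((N : ℤ) * w) q (u.val : ℤ) (-(x.val : ℤ)) e he.symm) *
        tr (((x.val : ℤ) : ℝ) / ((q : ℤ) : ℝ)) := by
    have h1 : tr (((-(x.val : ℤ) : ℤ) : ℝ) / ((q : ℤ) : ℝ)) *
        tr (((x.val : ℤ) : ℝ) / ((q : ℤ) : ℝ)) = 1 := by
      rw [← tr_add]
      have : (((-(x.val : ℤ) : ℤ) : ℝ) / ((q : ℤ) : ℝ)) + (((x.val : ℤ) : ℝ) / ((q : ℤ) : ℝ))
          = 0 := by
        push_cast
        ring
      rw [this, tr_zero]
    rw [← key, mul_assoc (tr (((u.val : ℤ) : ℝ) / ((q : ℤ) : ℝ)) *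
      mapGL ℝ (tL ((N : ℤ) * w * q))), h1, mul_one]
  have hcast : ((u.val : ℕ) : ℝ) / (q : ℝ) = (((u.val : ℕ) : ℤ) : ℝ) / (((q : ℕ) : ℤ) : ℝ) := by
    push_cast
    rfl
  have hcastx : ((x.val : ℕ) : ℝ) / (q : ℝ) = (((x.val : ℕ) : ℤ) : ℝ) / (((q : ℕ) : ℤ) : ℝ) := by
    push_cast
    rfl
  have hmem : sandwich ((N : ℤ) * w) q (u.val : ℤ) (-(x.val : ℤ)) e he.symm ∈
      Gamma0 (N * q) := by
    rw [mem_Gamma0_iff_dvd, sandwich_apply_10]
    exact ⟨w, by push_cast; ring⟩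
  rw [shift, shift, sl_slash_mapGL, ← SlashAction.slash_mul, hcast, key2,
    SlashAction.slash_mul, ← sl_slash_mapGL, hf _ hmem, smul_slash_tr, sandwich_apply_11,
    ← hcastx]
  congr 2
  ring

variable [Fact q.Prime]

/-- The nebentypus relation on the `(1,1)`-entries of `Γ₀(N q)`. -/
def NebRelH54 (N q : ℕ) (χ : ℤ → ℂ) (ψ : DirichletCharacter ℂ q) : Prop :=
  ∀ γ ∈ Gamma0 (N * q), χ (γ 1 1) * ψ ((γ 1 1 : ℤ) : ZMod q) ^ 2 = 1

/-- The sandwich relation, with the nebentypus expressed through `ψ`. -/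
theorem shift_slash_tL_psi_h54 {χ : ℤ → ℂ} {ψ : DirichletCharacter ℂ q}
    (hχψ : NebRelH54 N q χ ψ) {f : ℍ → ℂ} (hf : IsNeb k (N * q) χ f)
    (u x : ZMod q) (w : ℤ)
    (h : u - x - u * x * (N : ZMod q) * (w : ZMod q) = 0) :
    (shift k q f u) ∣[k] tL ((N : ℤ) * w * q) =
      (ψ (1 - x * ((N : ZMod q) * (w : ZMod q))) ^ 2)⁻¹ • shift k q f x := by
  have hq0 : (q : ℤ) ≠ 0 := by exact_mod_cast NeZero.ne q
  have hdvd : (q : ℤ) ∣ (u.val : ℤ) + (-(x.val : ℤ)) + (u.val : ℤ) * (-(x.val : ℤ)) *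
      ((N : ℤ) * w) := by
    rw [← ZMod.intCast_zmod_eq_zero_iff_dvd]
    push_cast
    rw [ZMod.natCast_zmod_val, ZMod.natCast_zmod_val]
    linear_combination h
  obtain ⟨e, he⟩ := hdvd
  have hmem : sandwich ((N : ℤ) * w) q (u.val : ℤ) (-(x.val : ℤ)) e he.symm ∈
      Gamma0 (N * q) := by
    rw [mem_Gamma0_iff_dvd, sandwich_apply_10]
    exact ⟨w, by push_cast; ring⟩
  have h1 := hχψ _ hmem
  rw [sandwich_apply_11] at h1
  have h2 : (((1 + -(x.val : ℤ) * ((N : ℤ) * w) : ℤ)) : ZMod q) =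
      1 - x * ((N : ZMod q) * (w : ZMod q)) := by
    push_cast
    rw [ZMod.natCast_zmod_val]
    ring
  rw [h2] at h1
  have h3 : (1 : ℤ) + -(x.val : ℤ) * ((N : ℤ) * w) = 1 - (x.val : ℤ) * ((N : ℤ) * w) := by ring
  rw [h3] at h1
  rw [shift_slash_tL_h54 hf u x w h]
  congr 1
  have hne : ψ (1 - x * ((N : ZMod q) * (w : ZMod q))) ^ 2 ≠ 0 := by
    intro h0
    rw [h0, mul_zero] at h1
    exact zero_ne_one h1
  exact eq_inv_of_mul_eq_one_left h1

/-- **Case A**: `c = 1 + N u v ≠ 0`. -/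
theorem shift_slash_caseA_h54 {χ : ℤ → ℂ} {ψ : DirichletCharacter ℂ q}
    (hχψ : NebRelH54 N q χ ψ) {f : ℍ → ℂ} (hf : IsNeb k (N * q) χ f)
    (u v : ZMod q) (hc : 1 + (N : ZMod q) * u * v ≠ 0) :
    (shift k q f u) ∣[k] tL ((N : ℤ) * (v.val : ℤ) * q) =
      ψ (1 + (N : ZMod q) * u * v) ^ 2 • shift k q f (u / (1 + (N : ZMod q) * u * v)) := by
  set c := 1 + (N : ZMod q) * u * v with hcdef
  have hv : (((v.val : ℕ) : ℤ) : ZMod q) = v := by
    push_cast
    exact ZMod.natCast_zmod_val v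
  have h : u - u / c - u * (u / c) * (N : ZMod q) * (((v.val : ℕ) : ℤ) : ZMod q) = 0 := by
    rw [hv]
    field_simp
    rw [hcdef]
    ring
  rw [shift_slash_tL_psi_h54 hχψ hf u (u / c) (v.val : ℤ) h, hv]
  congr 1
  have h1 : 1 - u / c * ((N : ZMod q) * v) = c⁻¹ := by
    field_simp
    rw [hcdef]
    ring
  rw [h1, ← MulChar.inv_apply', MulChar.inv_apply_eq_inv', inv_pow, inv_inv]

/-- **Case B**: `1 + N u v = 0`; everything is a multiple of one reference translate. -/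
theorem shift_slash_caseB_h54 (hN : (N : ZMod q) ≠ 0) {χ : ℤ → ℂ} {ψ : DirichletCharacter ℂ q}
    (hχψ : NebRelH54 N q χ ψ) {f : ℍ → ℂ} (hf : IsNeb k (N * q) χ f)
    (u v : ZMod q) (hc : 1 + (N : ZMod q) * u * v = 0) :
    (shift k q f u) ∣[k] tL ((N : ℤ) * (v.val : ℤ) * q) =
      (ψ v ^ 2)⁻¹ • (shift k q f (-(N : ZMod q)⁻¹)) ∣[k] tL ((N : ℤ) * 1 * q) := by
  have hv : (((v.val : ℕ) : ℤ) : ZMod q) = v := by
    push_cast
    exact ZMod.natCast_zmod_val v
  have hsplit : tL ((N : ℤ) * (v.val : ℤ) * q) =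
      tL ((N : ℤ) * ((v.val : ℤ) - 1) * q) * tL ((N : ℤ) * 1 * q) := by
    rw [← tL_add]
    congr 1
    ring
  have h : u - (-(N : ZMod q)⁻¹) - u * (-(N : ZMod q)⁻¹) * (N : ZMod q) *
      ((((v.val : ℤ) - 1 : ℤ)) : ZMod q) = 0 := by
    push_cast
    rw [ZMod.natCast_zmod_val]
    field_simp
    linear_combination hc
  rw [hsplit, SlashAction.slash_mul,
    shift_slash_tL_psi_h54 hχψ hf u (-(N : ZMod q)⁻¹) ((v.val : ℤ) - 1) h,
    ModularForm.SL_smul_slash]
  congr 3
  push_cast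
  rw [ZMod.natCast_zmod_val]
  field_simp
  ring

/-- The unified pointwise formula, for all `u`, `v`. -/
theorem shift_slash_unified_h54 (hN : (N : ZMod q) ≠ 0) {χ : ℤ → ℂ}
    {ψ : DirichletCharacter ℂ q}
    (hχψ : NebRelH54 N q χ ψ) {f : ℍ → ℂ} (hf : IsNeb k (N * q) χ f) (u v : ZMod q) :
    (shift k q f u) ∣[k] tL ((N : ℤ) * (v.val : ℤ) * q) =
      ψ (1 + (N : ZMod q) * u * v) ^ 2 • shift k q f (u / (1 + (N : ZMod q) * u * v)) +
        (if 1 + (N : ZMod q) * u * v = 0 then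
          (ψ v ^ 2)⁻¹ • (shift k q f (-(N : ZMod q)⁻¹)) ∣[k] tL ((N : ℤ) * 1 * q) else 0) := by
  by_cases hc : 1 + (N : ZMod q) * u * v = 0
  · rw [if_pos hc, shift_slash_caseB_h54 hN hχψ hf u v hc, hc, MulChar.map_zero, zero_pow two_ne_zero,
      zero_smul, zero_add]
  · rw [if_neg hc, add_zero, shift_slash_caseA_h54 hχψ hf u v hc]

/-- The sum over `v` of the translates of one shift. -/
theorem sum_shift_slash_h54 (hN : (N : ZMod q) ≠ 0) {χ : ℤ → ℂ}
    {ψ : DirichletCharacter ℂ q}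
    (hχψ : NebRelH54 N q χ ψ) {f : ℍ → ℂ} (hf : IsNeb k (N * q) χ f) {u : ZMod q}
    (hu : u ≠ 0) :
    ∑ v : ZMod q, (shift k q f u) ∣[k] tL ((N : ℤ) * (v.val : ℤ) * q) =
      ∑ c : ZMod q, ψ c ^ 2 • shift k q f (u / c) +
        ψ ((N : ZMod q) * u) ^ 2 • (shift k q f (-(N : ZMod q)⁻¹)) ∣[k] tL ((N : ℤ) * 1 * q) := by
  classical
  set R : ℍ → ℂ := (shift k q f (-(N : ZMod q)⁻¹)) ∣[k] tL ((N : ℤ) * 1 * q) with hR
  have hNu : (N : ZMod q) * u ≠ 0 := mul_ne_zero hN hu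
  -- pointwise formula in terms of `c = 1 + N u v`
  have hpt : ∀ v : ZMod q, (shift k q f u) ∣[k] tL ((N : ℤ) * (v.val : ℤ) * q) =
      (fun c : ZMod q => ψ c ^ 2 • shift k q f (u / c) +
        (if c = 0 then ψ ((N : ZMod q) * u) ^ 2 • R else 0)) (1 + (N : ZMod q) * u * v) := by
    intro v
    rw [shift_slash_unified_h54 hN hχψ hf u v]
    dsimp only
    congr 1
    by_cases hc : 1 + (N : ZMod q) * u * v = 0
    · rw [if_pos hc, if_pos hc]
      congr 1
      have hv : v = -((N : ZMod q) * u)⁻¹ := by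
        field_simp
        linear_combination hc
      have h1 : ψ v ^ 2 * ψ ((N : ZMod q) * u) ^ 2 = 1 := by
        rw [← mul_pow, ← map_mul, hv]
        have : -((N : ZMod q) * u)⁻¹ * ((N : ZMod q) * u) = -1 := by
          field_simp
        rw [this, ← map_pow]
        simp
      exact inv_eq_of_mul_eq_one_right h1
    · rw [if_neg hc, if_neg hc]
  have hbij : Function.Bijective (fun v : ZMod q => 1 + (N : ZMod q) * u * v) := by
    apply Finite.injective_iff_bijective.mp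
    intro a b hab
    have h1 : (N : ZMod q) * u * a = (N : ZMod q) * u * b := add_left_cancel hab
    exact mul_left_cancel₀ hNu h1
  rw [Finset.sum_congr rfl (fun v _ => hpt v),
    hbij.sum_comp (fun c : ZMod q => ψ c ^ 2 • shift k q f (u / c) +
        (if c = 0 then ψ ((N : ZMod q) * u) ^ 2 • R else 0)),
    Finset.sum_add_distrib, Finset.sum_ite_eq' Finset.univ (0 : ZMod q), if_pos (Finset.mem_univ _)]

/-- **TRACE-ZERO (c)**: the trace of a twist from level `N q²` to level `N q` vanishes. -/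
theorem twist_trace_zero (hN : (N : ZMod q) ≠ 0) {χ : ℤ → ℂ} (hχ : IsCharMod (N * q) χ)
    {ψ : DirichletCharacter ℂ q} (hψ : ψ ≠ 1)
    (hχψ : NebRelH54 N q χ ψ) {f : ℍ → ℂ} (hf : IsNeb k (N * q) χ f) :
    ∑ v : ZMod q, (twist k q ψ f) ∣[k] tL ((N : ℤ) * (v.val : ℤ) * q) = 0 := by
  classical
  set R : ℍ → ℂ := (shift k q f (-(N : ZMod q)⁻¹)) ∣[k] tL ((N : ℤ) * 1 * q) with hR
  have hsum0 : ∑ s : ZMod q, ψ s = 0 := MulChar.sum_eq_zero_of_ne_one hψ
  -- expand the twist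
  have h1 : ∀ v : ZMod q, (twist k q ψ f) ∣[k] tL ((N : ℤ) * (v.val : ℤ) * q) =
      ∑ u : ZMod q, (ψ u)⁻¹ • (shift k q f u) ∣[k] tL ((N : ℤ) * (v.val : ℤ) * q) := by
    intro v
    rw [twist, SlashAction.sum_slash]
    refine Finset.sum_congr rfl fun u _ => ?_
    rw [ModularForm.SL_smul_slash]
  rw [Finset.sum_congr rfl (fun v _ => h1 v), Finset.sum_comm]
  -- the inner sums
  have h2 : ∀ u : ZMod q,
      ∑ v : ZMod q, (ψ u)⁻¹ • (shift k q f u) ∣[k] tL ((N : ℤ) * (v.val : ℤ) * q) =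
      ∑ c : ZMod q, ((ψ u)⁻¹ * ψ c ^ 2) • shift k q f (u / c) +
        (ψ (N : ZMod q) ^ 2 * ψ u) • R := by
    intro u
    rw [← Finset.smul_sum]
    by_cases hu : u = 0
    · rw [hu, MulChar.map_zero, _root_.inv_zero, zero_smul, mul_zero, zero_smul, add_zero]
      symm
      refine Finset.sum_eq_zero fun c _ => ?_
      rw [zero_mul, zero_smul]
    · rw [sum_shift_slash_h54 hN hχψ hf hu, smul_add, Finset.smul_sum, smul_smul]
      congr 1
      · refine Finset.sum_congr rfl fun c _ => ?_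
        rw [smul_smul]
      · congr 1
        have hψu : ψ u ≠ 0 := ((isUnit_iff_ne_zero.mpr hu).map ψ).ne_zero
        rw [map_mul, mul_pow]
        field_simp
  rw [Finset.sum_congr rfl (fun u _ => h2 u), Finset.sum_add_distrib]
  -- second part
  have h3 : ∑ u : ZMod q, (ψ (N : ZMod q) ^ 2 * ψ u) • R = 0 := by
    rw [← Finset.sum_smul, ← Finset.mul_sum, hsum0, mul_zero, zero_smul]
  -- first part
  have h4 : ∑ u : ZMod q, ∑ c : ZMod q, ((ψ u)⁻¹ * ψ c ^ 2) • shift k q f (u / c) = 0 := by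
    rw [Finset.sum_comm]
    have h5 : ∀ c : ZMod q, ∑ u : ZMod q, ((ψ u)⁻¹ * ψ c ^ 2) • shift k q f (u / c) =
        ψ c • twist k q ψ f := by
      intro c
      by_cases hc : c = 0
      · rw [hc, MulChar.map_zero, zero_smul]
        refine Finset.sum_eq_zero fun u _ => ?_
        rw [zero_pow two_ne_zero, mul_zero, zero_smul]
      · have hψc : ψ c ≠ 0 := ((isUnit_iff_ne_zero.mpr hc).map ψ).ne_zero
        have hcu : IsUnit (c⁻¹ : ZMod q) := isUnit_iff_ne_zero.mpr (inv_ne_zero hc)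
        have h6 := sum_inv_smul_mul_unit ψ hcu (fun x => shift k q f x)
        have h7 : ∑ u : ZMod q, ((ψ u)⁻¹ * ψ c ^ 2) • shift k q f (u / c) =
            ψ c ^ 2 • ∑ u : ZMod q, (ψ u)⁻¹ • shift k q f (c⁻¹ * u) := by
          rw [Finset.smul_sum]
          refine Finset.sum_congr rfl fun u _ => ?_
          rw [smul_smul, mul_comm (ψ c ^ 2), div_eq_mul_inv, mul_comm u]
        rw [h7, h6, smul_smul, twist]
        congr 1
        rw [← MulChar.inv_apply', MulChar.inv_apply_eq_inv']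
        field_simp
    rw [Finset.sum_congr rfl (fun c _ => h5 c), ← Finset.sum_smul, hsum0, zero_smul]
  rw [h3, h4, add_zero]

/-- **TRACE-ZERO (b)**: `U_q` kills a twist by a non-trivial character modulo `q`. -/
theorem heckeU_twist_self {ψ : DirichletCharacter ℂ q} (hψ : ψ ≠ 1) {f : ℍ → ℂ}
    (hf : IsPer k f) : heckeU k q (twist k q ψ f) = 0 := by
  classical
  have hq0 : q ≠ 0 := NeZero.ne q
  have hU := isPer_heckeU hf q
  have step : ∀ u : ZMod q, heckeU k q (shift k q f u) = heckeU k q f := by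
    intro u
    rw [heckeU_def, heckeU_def]
    have h1 : ∀ j : ℕ, (shift k q f u) ∣[k] heckeMatrix q j =
        (f ∣[k] heckeMatrix q j) ∣[k] tr (((u.val : ℤ) : ℝ)) := by
      intro j
      rw [shift_slash_heckeMatrix hq0 j f u]
      congr 2
      have hqr : (q : ℝ) ≠ 0 := by exact_mod_cast hq0
      push_cast
      field_simp
    rw [Finset.sum_congr rfl (fun j _ => h1 j), ← SlashAction.sum_slash, ← heckeU_def]
    exact hU.slash_tr_int _
  have hsum : ∑ u : ZMod q, (ψ u)⁻¹ = 0 := by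
    have h := MulChar.sum_eq_zero_of_ne_one (inv_ne_one.mpr hψ)
    rw [← h]
    refine Finset.sum_congr rfl fun u _ => ?_
    rw [MulChar.inv_apply_eq_inv']
  -- linearity of `heckeU`
  have hlin : heckeU k q (twist k q ψ f) = ∑ u : ZMod q, (ψ u)⁻¹ • heckeU k q (shift k q f u) := by
    rw [twist, heckeU_def]
    simp_rw [SlashAction.sum_slash, smul_slash_heckeMatrix]
    rw [Finset.sum_comm]
    refine Finset.sum_congr rfl fun u _ => ?_
    rw [heckeU_def, Finset.smul_sum]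
  rw [hlin, Finset.sum_congr rfl (fun u _ => by rw [step u]), ← Finset.sum_smul, hsum, zero_smul]

end Fermat.Agent.S59.TW.H54

end
-- ===== PACK-END S59/TW/H54/TraceZero.lean

-- ===== PACK-BEGIN S19/H679/Conj.lean
section



/-!
# Cell A3 (S19), block UNR (helper679) — the conjugate family and the local algebra `Hloc`

For a `LocalCoordDatum` `L` (valuation ring `V`, coordinates `Ψ_i`, equivariant under inertia):

* `conjFamH679 L`  : the functions `δ ⋆ Ψ_i`, `δ ∈ D_V` (a finite set);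
* `HlocH679 L`     : the `V`-subalgebra of `M → ℚ̄` generated by them.

Proved here: the generators are `V`-valued and inertia-invariant, `Hloc` is stable under `D_V`,
finitely generated as a `V`-module, contains `ℓ ^ e • 1_m` for some `e` (conductor), and there
is a finite normal level `E` containing all values, over which the action on `M` is trivial.
-/

set_option autoImplicit false

namespace Fermat.Agent.S19.H679

open Fermat.Agent.S54 Fermat.Agent.S55.Bridge Fermat.Agent.S55.Bridge.H594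
open Polynomial

attribute [local instance] isAlgebraic_Qbar isGalois_Qbar

variable {ℓ : ℕ} {M : Type} [AddCommGroup M] {act : GalQ → M → M}

theorem isActH679_of_cont (hact : IsContAddAction act) : IsActH679 act :=
  ⟨hact.act_one, hact.act_mul⟩

/-- The `i`-th coordinate as a function on `M`. -/
def psiH679 (L : LocalCoordDatum ℓ M act) (i : L.ι) : M → Qb := fun m => L.Ψ m i

/-- The conjugates of the coordinates under the decomposition group. -/
def conjFamH679 (L : LocalCoordDatum ℓ M act) : Set (M → Qb) :=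
  {φ | ∃ δ ∈ L.V.decompositionSubgroup ℚ, ∃ i, φ = starH679 act δ (psiH679 L i)}

/-- The local algebra. -/
noncomputable def HlocH679 (L : LocalCoordDatum ℓ M act) : Subalgebra L.V (M → Qb) :=
  Algebra.adjoin L.V (conjFamH679 L)

/-- Functions with values in `V`. -/
noncomputable def valuedH679 (V : ValuationSubring Qb) (N : Type*) : Subalgebra V (N → Qb) where
  carrier := {f | ∀ m, f m ∈ V}
  mul_mem' := fun hf hg m => V.mul_mem _ _ (hf m) (hg m)
  add_mem' := fun hf hg m => V.add_mem _ _ (hf m) (hg m)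
  algebraMap_mem' := fun r _ => r.2

theorem mem_valuedH679 {V : ValuationSubring Qb} {N : Type*} {f : N → Qb} :
    f ∈ valuedH679 V N ↔ ∀ m, f m ∈ V := Iff.rfl

section basic

variable (hact : IsContAddAction act) (L : LocalCoordDatum ℓ M act)

include hact in
theorem psi_mem_conjFamH679 (i : L.ι) : psiH679 L i ∈ conjFamH679 L :=
  ⟨1, (L.V.decompositionSubgroup ℚ).one_mem, i, (starH679_one (isActH679_of_cont hact) _).symm⟩

include hact in
theorem psi_mem_HlocH679 (i : L.ι) : psiH679 L i ∈ HlocH679 L :=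
  Algebra.subset_adjoin (psi_mem_conjFamH679 hact L i)

include hact in
/-- The coordinates are inertia-invariant. -/
theorem star_psiH679 {ι : GalQ} (hι : ι ∈ L.V.inertiaSubgroupIn ℚ) (i : L.ι) :
    starH679 act ι (psiH679 L i) = psiH679 L i := by
  rw [starH679_eq_self_iff (isActH679_of_cont hact)]
  intro m
  exact L.equivariant ι (isInertiaAt_of_memH679 hι) m i

theorem conjFam_valuedH679 {φ : M → Qb} (hφ : φ ∈ conjFamH679 L) (m : M) : φ m ∈ L.V := by
  obtain ⟨δ, hδ, i, rfl⟩ := hφ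
  exact (mem_decompH679 hδ _).2 (L.integral _ i)

include hact in
theorem conjFam_inertiaH679 {φ : M → Qb} (hφ : φ ∈ conjFamH679 L) {ι : GalQ}
    (hι : ι ∈ L.V.inertiaSubgroupIn ℚ) : starH679 act ι φ = φ := by
  obtain ⟨δ, hδ, i, rfl⟩ := hφ
  have hA := isActH679_of_cont hact
  have h1 : δ⁻¹ * ι * δ ∈ L.V.inertiaSubgroupIn ℚ := by
    have := conj_mem_inertiaH679 ((L.V.decompositionSubgroup ℚ).inv_mem hδ) hι
    rwa [inv_inv] at this
  have h2 : ι * δ = δ * (δ⁻¹ * ι * δ) := by group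
  rw [← starH679_mul hA, h2, starH679_mul hA, star_psiH679 hact L h1]

include hact in
theorem conjFam_stableH679 {φ : M → Qb} (hφ : φ ∈ conjFamH679 L) {δ : GalQ}
    (hδ : δ ∈ L.V.decompositionSubgroup ℚ) : starH679 act δ φ ∈ conjFamH679 L := by
  obtain ⟨δ', hδ', i, rfl⟩ := hφ
  exact ⟨δ * δ', (L.V.decompositionSubgroup ℚ).mul_mem hδ hδ', i,
    (starH679_mul (isActH679_of_cont hact) _ _ _).symm⟩

theorem Hloc_le_valuedH679 : HlocH679 L ≤ valuedH679 L.V M :=
  Algebra.adjoin_le fun _ hφ => conjFam_valuedH679 L hφ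

end basic

/-- Transport of membership in an adjoin along the semilinear action of a decomposition
element. -/
theorem star_mem_adjoinH679 {V : ValuationSubring Qb} {N : Type*} (act' : GalQ → N → N)
    {δ : GalQ} (hδ : δ ∈ V.decompositionSubgroup ℚ) (S S' : Set (N → Qb))
    (hS : ∀ g ∈ S, starH679 act' δ g ∈ Algebra.adjoin V S') {h : N → Qb}
    (hh : h ∈ Algebra.adjoin V S) : starH679 act' δ h ∈ Algebra.adjoin V S' := by
  induction hh using Algebra.adjoin_induction with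
  | mem x hx => exact hS x hx
  | algebraMap r =>
    have : starH679 act' δ (algebraMap V (N → Qb) r)
        = algebraMap V (N → Qb) ⟨δ (r : Qb), (mem_decompH679 hδ _).2 r.2⟩ := by
      funext m
      rfl
    rw [this]
    exact Subalgebra.algebraMap_mem _ _
  | add x y _ _ hx hy =>
    rw [starH679_add]
    exact add_mem hx hy
  | mul x y _ _ hx hy =>
    have : starH679 act' δ (x * y) = starH679 act' δ x * starH679 act' δ y :=
      map_mul (starRingHomH679 act' δ) x y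
    rw [this]
    exact mul_mem hx hy

theorem Hloc_stableH679 (hact : IsContAddAction act) (L : LocalCoordDatum ℓ M act)
    {δ : GalQ} (hδ : δ ∈ L.V.decompositionSubgroup ℚ) {h : M → Qb} (hh : h ∈ HlocH679 L) :
    starH679 act δ h ∈ HlocH679 L :=
  star_mem_adjoinH679 act hδ _ _
    (fun _ hg => Algebra.subset_adjoin (conjFam_stableH679 hact L hg hδ)) hh

/-! ## The level -/

section level

variable [Finite M]

/-- A finite normal level containing a given finite set, over which the action is trivial. -/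
theorem exists_levelH679 (hact : IsContAddAction act) (s : Finset Qb) :
    ∃ E : IntermediateField ℚ Qb, FiniteDimensional ℚ E ∧ Normal ℚ E ∧ (∀ x ∈ s, x ∈ E) ∧
      ∀ ρ : GalQ, (∀ x ∈ E, ρ x = x) → ∀ m, act ρ m = m := by
  classical
  choose Lm hLfin hLfix using hact.cont
  haveI : ∀ m, FiniteDimensional ℚ (Lm m) := hLfin
  haveI : FiniteDimensional ℚ (IntermediateField.adjoin ℚ (s : Set Qb)) :=
    IntermediateField.finiteDimensional_adjoin fun x _ => Algebra.IsIntegral.isIntegral x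
  set E₀ : IntermediateField ℚ Qb := (⨆ m, Lm m) ⊔ IntermediateField.adjoin ℚ (s : Set Qb)
    with hE₀
  haveI : FiniteDimensional ℚ E₀ := by
    rw [hE₀]
    exact IntermediateField.finiteDimensional_sup _ _
  refine ⟨IntermediateField.normalClosure ℚ E₀ Qb,
    normalClosure.is_finiteDimensional ℚ E₀ Qb, normalClosure.normal ℚ E₀ Qb, ?_, ?_⟩
  · intro x hx
    apply IntermediateField.le_normalClosure E₀
    exact (le_sup_right : _ ≤ E₀) (IntermediateField.subset_adjoin ℚ _ hx)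
  · intro ρ hρ m
    apply hLfix m ρ
    intro a ha
    apply hρ
    apply IntermediateField.le_normalClosure E₀
    exact (le_sup_left : _ ≤ E₀) ((le_iSup Lm m) ha)

end level

/-- `E` is a level for the action: automorphisms fixing `E` act trivially on `M`. -/
def IsLevelH679 (act : GalQ → M → M) (E : IntermediateField ℚ Qb) : Prop :=
  ∀ ρ : GalQ, (∀ x ∈ E, ρ x = x) → ∀ m, act ρ m = m

section ratfun

variable (hact : IsContAddAction act) {E : IntermediateField ℚ Qb} (hE : IsLevelH679 act E)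

include hact hE in
/-- Automorphisms agreeing on `E` act in the same way on `M`. -/
theorem act_eq_of_agreeH679 {σ ρ : GalQ} (h : ∀ x ∈ E, σ x = ρ x) (m : M) :
    act σ m = act ρ m := by
  have h1 : ∀ x ∈ E, (ρ⁻¹ * σ) x = x := by
    intro x hx
    show ρ⁻¹ (σ x) = x
    rw [h x hx]
    exact galH679_inv_apply ρ x
  have h2 := hE _ h1 m
  have h3 : act σ m = act ρ (act (ρ⁻¹ * σ) m) := by
    rw [← hact.act_mul, mul_inv_cancel_left]
  rw [h3, h2]

include hact hE in
/-- Automorphisms agreeing on `E` act in the same way on `E`-valued functions. -/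
theorem star_eq_of_agreeH679 [Normal ℚ E] {σ ρ : GalQ} (h : ∀ x ∈ E, σ x = ρ x) {f : M → Qb}
    (hf : ∀ m, f m ∈ E) : starH679 act σ f = starH679 act ρ f := by
  funext m
  have h1 : ∀ x ∈ E, σ⁻¹ x = ρ⁻¹ x := by
    intro x hx
    have hx' : ρ⁻¹ x ∈ E := apply_mem_levelH679 E ρ⁻¹ hx
    have h2 := h _ hx'
    rw [galH679_apply_inv] at h2
    calc σ⁻¹ x = σ⁻¹ (σ (ρ⁻¹ x)) := by rw [h2]
      _ = ρ⁻¹ x := galH679_inv_apply σ _
  rw [starH679_apply, starH679_apply, act_eq_of_agreeH679 hact hE h1 m]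
  exact h _ (hf _)

end ratfun

theorem smul_applyH679 {V : ValuationSubring Qb} {N : Type*} (r : V) (f : N → Qb) (n : N) :
    (r • f) n = (r : Qb) * f n := rfl

/-! ## Integrality and finite generation -/

/-- A `V`-valued function on a finite set is integral over `V`. -/
theorem isIntegral_of_valuedH679 {N : Type*} [Finite N] (V : ValuationSubring Qb) (f : N → Qb)
    (hf : ∀ n, f n ∈ V) : IsIntegral V f := by
  classical
  haveI := Fintype.ofFinite N
  refine ⟨∏ n : N, (X - C (⟨f n, hf n⟩ : V)), monic_prod_of_monic _ _ fun n _ => monic_X_sub_C _,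
    ?_⟩
  funext n
  have h1 := Polynomial.hom_eval₂ (∏ n : N, (X - C (⟨f n, hf n⟩ : V)))
    (algebraMap V (N → Qb)) (Pi.evalRingHom (fun _ : N => Qb) n) f
  show Pi.evalRingHom (fun _ : N => Qb) n (eval₂ (algebraMap V (N → Qb)) f _) = 0
  rw [h1, Polynomial.eval₂_finsetProd]
  refine Finset.prod_eq_zero (Finset.mem_univ n) ?_
  rw [eval₂_sub, eval₂_X, eval₂_C]
  show f n - f n = 0
  exact sub_self _

/-- Data of a finite normal level for a local coordinate datum. -/
structure LevelDataH679 (L : LocalCoordDatum ℓ M act) where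
  E : IntermediateField ℚ Qb
  fin : FiniteDimensional ℚ E
  normal : Normal ℚ E
  level : IsLevelH679 act E
  psi_mem : ∀ m i, L.Ψ m i ∈ E

theorem exists_levelDataH679 [Finite M] (hact : IsContAddAction act)
    (L : LocalCoordDatum ℓ M act) : Nonempty (LevelDataH679 L) := by
  classical
  haveI := L.fin
  haveI := Fintype.ofFinite M
  haveI := Fintype.ofFinite L.ι
  obtain ⟨E, h1, h2, h3, h4⟩ := exists_levelH679 hact
    (Finset.univ.image fun p : M × L.ι => L.Ψ p.1 p.2)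
  exact ⟨⟨E, h1, h2, h4, fun m i => h3 _ (Finset.mem_image_of_mem _ (Finset.mem_univ (m, i)))⟩⟩

section withLevel

variable (hact : IsContAddAction act) (L : LocalCoordDatum ℓ M act) (Λ : LevelDataH679 L)

theorem conjFam_mem_levelH679 {φ : M → Qb} (hφ : φ ∈ conjFamH679 L) (m : M) : φ m ∈ Λ.E := by
  haveI := Λ.normal
  obtain ⟨δ, -, i, rfl⟩ := hφ
  exact apply_mem_levelH679 Λ.E δ (Λ.psi_mem _ i)

include hact Λ in
theorem conjFam_finiteH679 : (conjFamH679 L).Finite := by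
  classical
  haveI := Λ.normal
  haveI := Λ.fin
  haveI := L.fin
  haveI := Fintype.ofFinite L.ι
  obtain ⟨reps, hreps⟩ := exists_repsH679 Λ.E
  refine Set.Finite.subset
    ((reps ×ˢ (Finset.univ : Finset L.ι)).image
      fun p : GalQ × L.ι => starH679 act p.1 (psiH679 L p.2)).finite_toSet ?_
  rintro φ ⟨δ, -, i, rfl⟩
  obtain ⟨ρ, hρ, hδρ⟩ := hreps δ
  rw [Finset.mem_coe, Finset.mem_image]
  refine ⟨(ρ, i), Finset.mem_product.2 ⟨hρ, Finset.mem_univ i⟩, ?_⟩
  exact (star_eq_of_agreeH679 hact Λ.level hδρ fun m => Λ.psi_mem m i).symm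

include hact Λ in
/-- `Hloc` is a finitely generated `V`-module. -/
theorem Hloc_fgH679 [Finite M] : (Subalgebra.toSubmodule (HlocH679 L)).FG :=
  fg_adjoin_of_finite (conjFam_finiteH679 hact L Λ) fun φ hφ =>
    isIntegral_of_valuedH679 L.V φ (conjFam_valuedH679 L hφ)

/-- The functions used as module generators of `Hloc`: `E`-valued, inertia-invariant elements
of `Hloc`. -/
def IsGoodFunH679 (f : M → Qb) : Prop :=
  (∀ m, f m ∈ Λ.E) ∧ (∀ ι ∈ L.V.inertiaSubgroupIn ℚ, starH679 act ι f = f) ∧ f ∈ HlocH679 L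

include hact in
theorem isGoodFun_of_mem_closureH679 {f : M → Qb}
    (hf : f ∈ Submonoid.closure (conjFamH679 L)) : IsGoodFunH679 L Λ f := by
  induction hf using Submonoid.closure_induction with
  | mem x hx =>
    exact ⟨conjFam_mem_levelH679 L Λ hx, fun ι hι => conjFam_inertiaH679 hact L hx hι,
      Algebra.subset_adjoin hx⟩
  | one =>
    refine ⟨fun m => Λ.E.one_mem, fun ι _ => ?_, one_mem _⟩
    exact map_one (starRingHomH679 (Ω := Qb) act ι)
  | mul x y _ _ hx hy =>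
    refine ⟨fun m => Λ.E.mul_mem (hx.1 m) (hy.1 m), fun ι hι => ?_, mul_mem hx.2.2 hy.2.2⟩
    have : starH679 act ι (x * y) = starH679 act ι x * starH679 act ι y :=
      map_mul (starRingHomH679 act ι) x y
    rw [this, hx.2.1 ι hι, hy.2.1 ι hι]

include hact in
/-- `Hloc` is spanned by good functions. -/
theorem Hloc_le_span_goodH679 :
    Subalgebra.toSubmodule (HlocH679 L) ≤ Submodule.span L.V {f | IsGoodFunH679 L Λ f} := by
  rw [HlocH679, Algebra.adjoin_eq_span]
  exact Submodule.span_mono fun f hf => isGoodFun_of_mem_closureH679 hact L Λ hf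

end withLevel

/-! ## The conductor -/

section conductor

variable [Finite M] (hℓ : ℓ.Prime) (hact : IsContAddAction act) (L : LocalCoordDatum ℓ M act)

include hℓ hact in
/-- Multiples of the indicator functions lie in `Hloc`. -/
theorem exists_single_memH679 (m : M) :
    ∃ (e : ℕ) (P : M → Qb), P ∈ HlocH679 L ∧ P m = (ℓ : Qb) ^ e ∧ ∀ m', m' ≠ m → P m' = 0 := by
  classical
  haveI := Fintype.ofFinite M
  have hsep : ∀ m' : M, ∃ g : M → Qb, g ∈ HlocH679 L ∧ (m' ≠ m → g m' = 0) ∧ g m ≠ 0 := by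
    intro m'
    by_cases h : m' = m
    · exact ⟨1, one_mem _, fun h' => absurd h h', one_ne_zero⟩
    · have hex : ∃ i : L.ι, L.Ψ m i ≠ L.Ψ m' i := by
        by_contra hcon
        push Not at hcon
        apply h
        apply L.inj
        funext i
        exact (hcon i).symm
      obtain ⟨i, hi⟩ := hex
      refine ⟨psiH679 L i - algebraMap L.V (M → Qb) ⟨L.Ψ m' i, L.integral m' i⟩,
        sub_mem (psi_mem_HlocH679 hact L i) (Subalgebra.algebraMap_mem _ _), fun _ => ?_, ?_⟩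
      · show L.Ψ m' i - L.Ψ m' i = 0
        exact sub_self _
      · show L.Ψ m i - L.Ψ m' i ≠ 0
        exact sub_ne_zero.2 hi
  choose g hg1 hg2 hg3 using hsep
  set P : M → Qb := ∏ m', g m' with hP
  have hPmem : P ∈ HlocH679 L := prod_mem fun m' _ => hg1 m'
  have hPval : ∀ n, P n = ∏ m', g m' n := fun n => by
    rw [hP, Finset.prod_apply]
  have hP0 : ∀ m', m' ≠ m → P m' = 0 := by
    intro m' hm'
    rw [hPval]
    exact Finset.prod_eq_zero (Finset.mem_univ m') (hg2 m' hm')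
  have hPm : P m ≠ 0 := by
    rw [hPval]
    exact Finset.prod_ne_zero_iff.2 fun m' _ => hg3 m'
  obtain ⟨e, he⟩ := exists_pow_div_memH679 L.V hℓ L.ell_mem (P m)
  refine ⟨e, (⟨(ℓ : Qb) ^ e * (P m)⁻¹, he⟩ : L.V) • P, Subalgebra.smul_mem _ hPmem _, ?_, ?_⟩
  · rw [smul_applyH679]
    show (ℓ : Qb) ^ e * (P m)⁻¹ * P m = (ℓ : Qb) ^ e
    rw [mul_assoc, inv_mul_cancel₀ hPm, mul_one]
  · intro m' hm'
    rw [smul_applyH679, hP0 m' hm', mul_zero]

include hℓ hact in
/-- **Conductor**: functions with values in `ℓ ^ (e+1) V` lie in `𝔪_V • Hloc`. -/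
theorem exists_conductorH679 :
    ∃ e : ℕ, ∀ F : M → Qb, (∀ m, ∃ z ∈ L.V, F m = (ℓ : Qb) ^ (e + 1) * z) →
      F ∈ IsLocalRing.maximalIdeal L.V • Subalgebra.toSubmodule (HlocH679 L) := by
  classical
  haveI := Fintype.ofFinite M
  choose em P hP1 hP2 hP3 using exists_single_memH679 hℓ hact L
  refine ⟨∑ m, em m, fun F hF => ?_⟩
  choose z hz hFz using hF
  have hle : ∀ m, em m ≤ ∑ m, em m := fun m =>
    Finset.single_le_sum (fun _ _ => Nat.zero_le _) (Finset.mem_univ m)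
  have hℓV : (ℓ : Qb) ∈ L.V := mem_of_mem_nonunitsH679 L.V L.ell_mem
  set lV : L.V := ⟨(ℓ : Qb), hℓV⟩ with hlV
  have hlm : lV ∈ IsLocalRing.maximalIdeal L.V :=
    (ValuationSubring.coe_mem_nonunits_iff).1 L.ell_mem
  have hcoef : ∀ m, (ℓ : Qb) ^ ((∑ m, em m) - em m) * z m ∈ L.V := fun m =>
    L.V.mul_mem _ _ (pow_mem hℓV _) (hz m)
  have hF' : F = ∑ m, lV • ((⟨_, hcoef m⟩ : L.V) • P m) := by
    funext n
    rw [Finset.sum_apply, Finset.sum_eq_single n]
    · rw [smul_applyH679, smul_applyH679, hP2, hFz n]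
      show _ = (ℓ : Qb) * ((ℓ : Qb) ^ ((∑ m, em m) - em n) * z n * (ℓ : Qb) ^ em n)
      have : (∑ m, em m) + 1 = 1 + ((∑ m, em m) - em n) + em n := by
        have := hle n
        omega
      rw [this, pow_add, pow_add, pow_one]
      ring
    · intro m _ hmn
      rw [smul_applyH679, smul_applyH679, hP3 m n (Ne.symm hmn), mul_zero, mul_zero]
    · intro h
      exact absurd (Finset.mem_univ n) h
  rw [hF']
  refine Submodule.sum_mem _ fun m _ => ?_
  exact Submodule.smul_mem_smul hlm (Submodule.smul_mem _ _ (hP1 m))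

end conductor

end Fermat.Agent.S19.H679

end
-- ===== PACK-END S19/H679/Conj.lean

-- ===== PACK-BEGIN S59/TW/H314/CmpSpec.lean
section




/-!
# Row S59, cell TW, LAYER 4: the leaf CMP of `TW/Aut/Spec.lean` — interface  (helper314)

`Aut.CmpStatement`: `(w - 1) V = (⟨u⟩_j - 1) V` for every inertia value `w` at `(φ, σ)`, `σ ↦ u`.
Route TW-ALG (`S59/H314/TwAlg.lean`, `TwCmp.lean`, `TwT.lean`, on main): it is enough to know

* **(T)** `TptAt`: a `T_Q`-eigenvector `y ∈ V` (= nonzero vector with PRIME annihilator) with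
  `⟨u⟩_j y = y` satisfies `w y = y`;
* **(R)** `RptAt`: a `T_Q`-eigenvector `y ∈ V` with `(1 + ⟨u⟩_j + … + ⟨u⟩_j^(p-1)) y = 0` satisfies
  `w y ≠ y`;

together with the freeness `Aut.FreeAt V`.  This is `CmpGlueStatement` (pure algebra, helper314).

(T) and (R) are cut into an AUTOMORPHIC half (DICT) and a GALOIS half (GAL) along the notion of a
**newform point** of `T_Q`: a local ring hom `emb : T_Q → O'` into a complete DVR whose values at
the `T_ℓ` are the Hecke eigenvalues of a newform `g` of some level `M` (in the shape of the frozen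
statements S35 / S36: `chig`, `iota`).

| leaf | Prop | content | inputs |
|---|---|---|---|
| CMP-GLUE | `CmpGlueStatement` | `FreeAt` + `TptAt` + `RptAt` ⇒ `CmpAt` | TW-ALG (on main) + `Aut/Skel.lean` |
| DICT-T | `DictTStatement` | eigenvector with `⟨u⟩_j y = y` ⇒ newform point with `q_j² ∤ M` | ES + twist for `Γ₀(q_j) ∩ Γ_H(Q ∖ q_j)` at level `N_Q / q_j` (helper658, helper564), NEWFORM lib |
| DICT-R | `DictRStatement` | eigenvector with `Φ_p(⟨u⟩_j) y = 0` ⇒ newform point with `q_j² ∥ M` | ES + NEB + twist (helper658, helper564) + TW-NS (helper54) |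
| GAL-T | `GalTStatement` | newform point with `q_j² ∤ M` ⇒ `emb w = 1` | frozen S30 (`q_j ∤ M`: unramified), frozen S35 + TW condition (`q_j ∥ M` impossible), Chebotarev |
| GAL-R | `GalRStatement` | newform point with `q_j² ∥ M` ⇒ `emb w ≠ 1` | frozen S36, Chebotarev, `H59.twGal1`, `H59.twGalCyc` |

Glue (`TW/H314/CmpGlue.lean`): `cmp_of_leaves : FreeQStatement → CmpGlueStatement → DictTStatement →
DictRStatement → (S30 → S35 → GalTStatement) → (S36 → GalRStatement) → … → Aut.CmpStatement`.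

Only sorry-free definitions here.
-/

set_option autoImplicit false

open Polynomial IsLocalRing CongruenceSubgroup
open scoped MatrixGroups

namespace Fermat.Agent.S59.TW.H314

open Fermat.Agent.S59.Arch Fermat.Agent.S59.TW.H959 Fermat.Agent.S59.TW.H653
  Fermat.Agent.S59.TW.Aut

section At

variable {p : ℕ}
  {𝒪 : Type} [CommRing 𝒪] [IsDomain 𝒪] [IsDiscreteValuationRing 𝒪]
  [IsAdicComplete (maximalIdeal 𝒪) 𝒪]
  {ρbar : ResidualGaloisRep (ResidueField 𝒪)} {t : PType} {Smin : Finset ℕ}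
  {r : ℕ} {qv : Fin r → ℕ}
  [NeZero (wilesLevel p t Smin (Smin ∪ Finset.univ.image qv))]

/-- `y` is an **eigenvector** of `T_Q` in `V`: a nonzero vector whose annihilator is a prime ideal
(`T_Q / Ann y` is a domain; every associated prime of `V` is of this form). -/
def IsEigVec (PQ : HeckePkg p 𝒪 ρbar t Smin (Smin ∪ Finset.univ.image qv))
    (V : Submodule 𝒪 (XQ p t Smin qv 𝒪)) (a : PQ.T →ₐ[𝒪] Module.End 𝒪 V) (y : V) : Prop :=
  y ≠ 0 ∧ ∀ s s' : PQ.T, a (s * s') y = 0 → a s y = 0 ∨ a s' y = 0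

/-- **(T) at `V`, pointwise**: an eigenvector of `T_Q` fixed by the diamond operator `⟨u⟩_j` is
fixed by the inertia value `w`. -/
def TptAt (PQ : HeckePkg p 𝒪 ρbar t Smin (Smin ∪ Finset.univ.image qv))
    (V : Submodule 𝒪 (XQ p t Smin qv 𝒪)) (a : PQ.T →ₐ[𝒪] Module.End 𝒪 V) : Prop :=
  ∀ (j : Fin r) (P : ValuationSubring Qb), P.LiesOverPrime (qv j) →
    ∀ φ : GQ, P.IsFrobeniusAt φ (qv j) →
    ∀ σ ∈ P.inertiaSubgroupIn ℚ, ∀ u : (ZMod (qv j))ˣ, orderOf u = qv j - 1 →
      CycloAt (qv j) σ (u : ZMod (qv j)).val →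
      ∀ a₀ w : PQ.T, IsInertiaValue PQ.H.ρ φ σ a₀ w →
        ∀ y : V, IsEigVec PQ V a y →
          diaQ p t Smin qv 𝒪 (Pi.mulSingle j u) (y : XQ p t Smin qv 𝒪) = y →
          a w y = y

/-- **(R) at `V`, pointwise**: an eigenvector of `T_Q` on which the diamond operator `⟨u⟩_j` has
order exactly `p` (`Φ_p(⟨u⟩_j) y = 0`) is NOT fixed by the inertia value `w`. -/
def RptAt (PQ : HeckePkg p 𝒪 ρbar t Smin (Smin ∪ Finset.univ.image qv))
    (V : Submodule 𝒪 (XQ p t Smin qv 𝒪)) (a : PQ.T →ₐ[𝒪] Module.End 𝒪 V) : Prop :=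
  ∀ (j : Fin r) (P : ValuationSubring Qb), P.LiesOverPrime (qv j) →
    ∀ φ : GQ, P.IsFrobeniusAt φ (qv j) →
    ∀ σ ∈ P.inertiaSubgroupIn ℚ, ∀ u : (ZMod (qv j))ˣ, orderOf u = qv j - 1 →
      CycloAt (qv j) σ (u : ZMod (qv j)).val →
      ∀ a₀ w : PQ.T, IsInertiaValue PQ.H.ρ φ σ a₀ w →
        ∀ y : V, IsEigVec PQ V a y →
          (∑ k ∈ Finset.range p,
            (diaQ p t Smin qv 𝒪 (Pi.mulSingle j u))^[k] (y : XQ p t Smin qv 𝒪)) = 0 →
          a w y ≠ y

/-- **A newform point of `T_Q`.**  `emb : T_Q → O'` takes at the `T_ℓ` (`ℓ ∉ Σ_Q`) the Hecke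
eigenvalues of a newform `g` of level `M` (all of whose prime factors lie in `Σ_Q`) satisfying `c M`,
in the shape of the frozen statements S35 / S36: `chig` is the eigen-character of `g` on the Hecke
algebra of level `M` and `iota` embeds its values into `O'`. -/
def IsNewPt (PQ : HeckePkg p 𝒪 ρbar t Smin (Smin ∪ Finset.univ.image qv))
    {O' : Type} [CommRing O'] (emb : PQ.T →+* O') (c : ℕ → Prop) : Prop :=
  ∃ (M : ℕ) (_ : NeZero M) (g : CuspForm (Gamma0 M) 2), g.IsNewform ∧ c M ∧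
    (∀ q : ℕ, q.Prime → q ∣ M → q ∈ Smin ∪ Finset.univ.image qv) ∧
    ∃ (chig : CuspForm.heckeAlgebra M 2 (↑(Smin ∪ Finset.univ.image qv) : Set ℕ) →+* ℂ)
      (iota : chig.range →+* O'),
      (∀ (ℓ : ℕ) (hℓ : ℓ.Prime) (hℓM : ¬ ℓ ∣ M)
        (hℓS : ℓ ∉ (↑(Smin ∪ Finset.univ.image qv) : Set ℕ)),
        chig (CuspForm.heckeAlgebra.T hℓ hℓM hℓS) = ModularFormClass.qCoeff g ℓ) ∧
      ∀ (ℓ : ℕ) (hℓ : ℓ.Prime)
        (hℓN : ¬ ℓ ∣ wilesLevel p t Smin (Smin ∪ Finset.univ.image qv)) (hℓM : ¬ ℓ ∣ M)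
        (hℓS : ℓ ∉ (↑(Smin ∪ Finset.univ.image qv) : Set ℕ)),
        iota (chig.rangeRestrict (CuspForm.heckeAlgebra.T hℓ hℓM hℓS)) =
          emb (PQ.H.π (CuspForm.heckeAlgebra.T hℓ hℓN hℓS))

/-- **The eigenvector `y` is a newform point**: there is a newform point `emb : T_Q → O'`, `O'` a
complete DVR of characteristic `0` with finite residue field, `emb` local, whose kernel is the
annihilator of `y`. -/
def HasNewPt (PQ : HeckePkg p 𝒪 ρbar t Smin (Smin ∪ Finset.univ.image qv))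
    (V : Submodule 𝒪 (XQ p t Smin qv 𝒪)) (a : PQ.T →ₐ[𝒪] Module.End 𝒪 V) (y : V)
    (c : ℕ → Prop) : Prop :=
  ∃ (O' : Type) (_ : CommRing O') (_ : IsDomain O') (_ : IsDiscreteValuationRing O')
    (_ : IsAdicComplete (maximalIdeal O') O') (_ : Finite (ResidueField O')) (_ : CharZero O')
    (emb : PQ.T →+* O'), IsLocalHom emb ∧ (∀ s : PQ.T, a s y = 0 ↔ emb s = 0) ∧
      IsNewPt PQ emb c

end At

/-! ## The leaves, as closed statements -/

/-- **CMP-GLUE** (pure algebra, route TW-ALG).  Freeness + (T) + (R) ⇒ `CmpAt`. -/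
def CmpGlueStatement : Prop :=
  ∀ (p : ℕ) [Fact p.Prime]
    (𝒪 : Type) [CommRing 𝒪] [IsDomain 𝒪] [IsDiscreteValuationRing 𝒪]
    [IsAdicComplete (maximalIdeal 𝒪) 𝒪] [Finite (ResidueField 𝒪)] [CharZero 𝒪]
    (ρbar : ResidualGaloisRep (ResidueField 𝒪)) (Smin : Finset ℕ)
    (_h : ResidualHyp p 𝒪 ρbar Smin) (t : PType)
    [NeZero (wilesLevel p t Smin Smin)]
    (n r : ℕ) (qv : Fin r → ℕ) (_hq : IsTWSet p ρbar Smin n qv)
    [NeZero (wilesLevel p t Smin (Smin ∪ Finset.univ.image qv))]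
    (PQ : HeckePkg p 𝒪 ρbar t Smin (Smin ∪ Finset.univ.image qv))
    (α : Fin r → 𝒪)
    (V : Submodule 𝒪 (XQ p t Smin qv 𝒪)) (h : ℕ) (a : PQ.T →ₐ[𝒪] Module.End 𝒪 V),
    IsQPart PQ α V → IsQAction PQ V h a → FreeAt V → TptAt PQ V a → RptAt PQ V a →
      CmpAt PQ V a

/-- **DICT-T** (automorphic).  An eigenvector of `T_Q` in `V` fixed by `⟨u⟩_j` is a newform point
of a level `M` with `q_j² ∤ M`.
(`V^{⟨u⟩_j = 1}` is, up to `p`-power index, the restriction of the localisation of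
`Hom(K', 𝒪)`, `K' = Γ₀(q_j) ∩ Γ_H(Q ∖ q_j) ⊇ K_Q`; Eichler–Shimura + twist for `K'` map its
eigen-systems to `S₂(Γ₀(N_Q / q_j))`; take a minimal level.) -/
def DictTStatement : Prop :=
  ∀ (p : ℕ) [Fact p.Prime]
    (𝒪 : Type) [CommRing 𝒪] [IsDomain 𝒪] [IsDiscreteValuationRing 𝒪]
    [IsAdicComplete (maximalIdeal 𝒪) 𝒪] [Finite (ResidueField 𝒪)] [CharZero 𝒪]
    (ρbar : ResidualGaloisRep (ResidueField 𝒪)) (Smin : Finset ℕ)
    (_h : ResidualHyp p 𝒪 ρbar Smin) (t : PType)
    (_ht : (t = .flat ∧ (GaloisRepAdic.ofResidualGaloisRep ρbar).IsFlatAt p) ∨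
      (t = .sord ∧ (GaloisRepAdic.ofResidualGaloisRep ρbar).IsStrictOrdinaryAt p ∧
        ¬ (GaloisRepAdic.ofResidualGaloisRep ρbar).IsFlatAt p))
    [NeZero (wilesLevel p t Smin Smin)]
    (n r : ℕ) (qv : Fin r → ℕ) (_hq : IsTWSet p ρbar Smin n qv)
    [NeZero (wilesLevel p t Smin (Smin ∪ Finset.univ.image qv))]
    (PQ : HeckePkg p 𝒪 ρbar t Smin (Smin ∪ Finset.univ.image qv))
    (α : Fin r → 𝒪) (_hα : IsFrobLift ρbar qv α)
    (V : Submodule 𝒪 (XQ p t Smin qv 𝒪)) (h : ℕ) (a : PQ.T →ₐ[𝒪] Module.End 𝒪 V),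
    IsQPart PQ α V → IsHalf p qv h → IsQAction PQ V h a →
    ∀ (j : Fin r) (u : (ZMod (qv j))ˣ), orderOf u = qv j - 1 →
      ∀ y : V, IsEigVec PQ V a y →
        diaQ p t Smin qv 𝒪 (Pi.mulSingle j u) (y : XQ p t Smin qv 𝒪) = y →
        HasNewPt PQ V a y (fun M => ¬ qv j ^ 2 ∣ M)

/-- **DICT-R** (automorphic).  An eigenvector of `T_Q` in `V` on which `⟨u⟩_j` has order exactly
`p` is a newform point of a level `M` with `q_j² ∥ M`.
(Eichler–Shimura for `K_Q`: the eigen-system comes from a cusp form `f` with nebentypus `χ`,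
`χ_j(u)` a primitive `p`-th root of unity; its twist `f ⊗ χ^h` has trivial character [`IsHalf`]
and is `q_j²`-new: TW-NS, helper54.) -/
def DictRStatement : Prop :=
  ∀ (p : ℕ) [Fact p.Prime]
    (𝒪 : Type) [CommRing 𝒪] [IsDomain 𝒪] [IsDiscreteValuationRing 𝒪]
    [IsAdicComplete (maximalIdeal 𝒪) 𝒪] [Finite (ResidueField 𝒪)] [CharZero 𝒪]
    (ρbar : ResidualGaloisRep (ResidueField 𝒪)) (Smin : Finset ℕ)
    (_h : ResidualHyp p 𝒪 ρbar Smin) (t : PType)
    (_ht : (t = .flat ∧ (GaloisRepAdic.ofResidualGaloisRep ρbar).IsFlatAt p) ∨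
      (t = .sord ∧ (GaloisRepAdic.ofResidualGaloisRep ρbar).IsStrictOrdinaryAt p ∧
        ¬ (GaloisRepAdic.ofResidualGaloisRep ρbar).IsFlatAt p))
    [NeZero (wilesLevel p t Smin Smin)]
    (n r : ℕ) (qv : Fin r → ℕ) (_hq : IsTWSet p ρbar Smin n qv)
    [NeZero (wilesLevel p t Smin (Smin ∪ Finset.univ.image qv))]
    (PQ : HeckePkg p 𝒪 ρbar t Smin (Smin ∪ Finset.univ.image qv))
    (α : Fin r → 𝒪) (_hα : IsFrobLift ρbar qv α)
    (V : Submodule 𝒪 (XQ p t Smin qv 𝒪)) (h : ℕ) (a : PQ.T →ₐ[𝒪] Module.End 𝒪 V),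
    IsQPart PQ α V → IsHalf p qv h → IsQAction PQ V h a →
    ∀ (j : Fin r) (u : (ZMod (qv j))ˣ), orderOf u = qv j - 1 →
      ∀ y : V, IsEigVec PQ V a y →
        (∑ k ∈ Finset.range p,
          (diaQ p t Smin qv 𝒪 (Pi.mulSingle j u))^[k] (y : XQ p t Smin qv 𝒪)) = 0 →
        HasNewPt PQ V a y (fun M => M.factorization (qv j) = 2)

/-- **GAL-T** (Galois).  At a newform point of level `M` with `q_j² ∤ M` the inertia value is `1`.
(`q_j ∤ M`: the representation of the frozen S30 at level `M` is unramified at `q_j` and has the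
same Frobenius characteristic polynomials as `ρ_Q ⊗ O''`, so the same traces [Chebotarev];
the inertia value is a formula in traces.  `q_j ∥ M`: impossible, by the frozen S35 the Frobenius
at `q_j` would have eigenvalues `±1, ±q_j`, equal modulo `p`.) -/
def GalTStatement : Prop :=
  ∀ (p : ℕ) [Fact p.Prime]
    (𝒪 : Type) [CommRing 𝒪] [IsDomain 𝒪] [IsDiscreteValuationRing 𝒪]
    [IsAdicComplete (maximalIdeal 𝒪) 𝒪] [Finite (ResidueField 𝒪)] [CharZero 𝒪]
    (ρbar : ResidualGaloisRep (ResidueField 𝒪)) (Smin : Finset ℕ)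
    (_h : ResidualHyp p 𝒪 ρbar Smin) (t : PType)
    [NeZero (wilesLevel p t Smin Smin)]
    (n r : ℕ) (qv : Fin r → ℕ) (_hq : IsTWSet p ρbar Smin n qv)
    [NeZero (wilesLevel p t Smin (Smin ∪ Finset.univ.image qv))]
    (PQ : HeckePkg p 𝒪 ρbar t Smin (Smin ∪ Finset.univ.image qv))
    (j : Fin r) (P : ValuationSubring Qb), P.LiesOverPrime (qv j) →
    ∀ φ : GQ, P.IsFrobeniusAt φ (qv j) →
    ∀ σ ∈ P.inertiaSubgroupIn ℚ,
      ∀ a₀ w : PQ.T, IsInertiaValue PQ.H.ρ φ σ a₀ w →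
      ∀ (O' : Type) [CommRing O'] [IsDomain O'] [IsDiscreteValuationRing O']
        [IsAdicComplete (maximalIdeal O') O'] [Finite (ResidueField O')] [CharZero O']
        (emb : PQ.T →+* O'), IsLocalHom emb →
        IsNewPt PQ emb (fun M => ¬ qv j ^ 2 ∣ M) → emb w = 1

/-- **GAL-R** (Galois).  At a newform point of level `M` with `q_j² ∥ M` the inertia value at
`(φ, σ)`, `σ ↦` a primitive root, is not `1`.
(Frozen S36: some representation attached to `g` is not unipotent on inertia at `q_j`; it has the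
same characteristic polynomials as `ρ_Q ⊗ O''` [Chebotarev]; if `emb w = 1` then `ρ_Q ⊗ O''` is
unramified at `q_j`: `H59.twGal1` [diagonal on the decomposition group] + `H59.twGalCyc`
[inertia acts through `(ℤ/q_j)ˣ`, generated by `σ`].) -/
def GalRStatement : Prop :=
  ∀ (p : ℕ) [Fact p.Prime]
    (𝒪 : Type) [CommRing 𝒪] [IsDomain 𝒪] [IsDiscreteValuationRing 𝒪]
    [IsAdicComplete (maximalIdeal 𝒪) 𝒪] [Finite (ResidueField 𝒪)] [CharZero 𝒪]
    (ρbar : ResidualGaloisRep (ResidueField 𝒪)) (Smin : Finset ℕ)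
    (_h : ResidualHyp p 𝒪 ρbar Smin) (t : PType)
    [NeZero (wilesLevel p t Smin Smin)]
    (n r : ℕ) (qv : Fin r → ℕ) (_hq : IsTWSet p ρbar Smin n qv)
    [NeZero (wilesLevel p t Smin (Smin ∪ Finset.univ.image qv))]
    (PQ : HeckePkg p 𝒪 ρbar t Smin (Smin ∪ Finset.univ.image qv))
    (j : Fin r) (P : ValuationSubring Qb), P.LiesOverPrime (qv j) →
    ∀ φ : GQ, P.IsFrobeniusAt φ (qv j) →
    ∀ σ ∈ P.inertiaSubgroupIn ℚ, ∀ u : (ZMod (qv j))ˣ, orderOf u = qv j - 1 →
      CycloAt (qv j) σ (u : ZMod (qv j)).val →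
      ∀ a₀ w : PQ.T, IsInertiaValue PQ.H.ρ φ σ a₀ w →
      ∀ (O' : Type) [CommRing O'] [IsDomain O'] [IsDiscreteValuationRing O']
        [IsAdicComplete (maximalIdeal O') O'] [Finite (ResidueField O')] [CharZero O']
        (emb : PQ.T →+* O'), IsLocalHom emb →
        IsNewPt PQ emb (fun M => M.factorization (qv j) = 2) → emb w ≠ 1

end Fermat.Agent.S59.TW.H314

end
-- ===== PACK-END S59/TW/H314/CmpSpec.lean

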