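import Mathlib
import Fermat.Prelude.Def_AlgebraicCurve_DivisorClassGroup
import Fermat.Agent.Pack.S44C.G0E17L0
import Fermat.Agent.Pack.S44C.G0E20L2
import Fermat.Agent.Pack.S44C.G0E9L1
import Fermat.Agent.Pack.S43MC.G0E0L0
import Fermat.Agent.Pack.S43MC.G0E10L3
import Fermat.Agent.Pack.S43MC.G0E13L0
import Fermat.Agent.Pack.S43MC.G0E15L0
import Fermat.Agent.Pack.S43MC.G0E16L1
import Fermat.Agent.Pack.S43MC.G0E8L2
import Fermat.Agent.Pack.S43MC.G0E6L3
import Fermat.Agent.Pack.S43MC.G0E11L0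
import Fermat.Agent.Pack.S43MC.G0E16L0
import Fermat.Agent.Pack.S43MC.G0E15L3
import Fermat.Agent.Pack.S43MC.G0E8L3
import Fermat.Agent.Pack.S43MC.G0E10L1
import Fermat.Agent.Pack.S43MC.G0E15L2
import Fermat.Agent.Pack.S43MC.G0E17L0
import Fermat.Agent.Pack.S43MC.G0E1L2
import Fermat.Agent.Pack.S43MC.G0E17L3
import Fermat.Agent.Pack.S43MC.G0E2L2
import Fermat.Agent.Pack.S43MC.G0E9L2
import Fermat.Agent.Pack.S43MC.G0E9L3
import Fermat.Agent.Pack.S43MC.G0E17L2
import Fermat.Agent.Pack.S43MC.G0E17L1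
import Fermat.Agent.Pack.S44C.G0E19L2
import Fermat.Agent.Pack.S44C.G0E6L3
import Fermat.Agent.Pack.Fast891

-- ===== PACK-BEGIN Ribet/H714/DictLevel.lean
section




/-!
# RIBET, wall at `p`, leaf S2:DICT — the Gauss valuation at level `E` and at level `ℚ̄`
(helper714)

`P` a valuation subring of `ℚ̄` over `ℓ`, `E ⊆ ℚ̄` with `R_E = P ∩ E` a discrete valuation ring,
`V` the Gauss valuation ring of `F_{N,E}` (`A2.Mod.IsVinf`), `V̄ = H553.VinfModular P _ _ N` the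
Gauss valuation ring of `F̄_N`, `ι = T1.H669.iota : F_{N,E} → F̄_N`.

* `iota_mem_Vinf_of_mem`  : `z ∈ V ⟹ ι z ∈ V̄`;
* `mem_of_iota_mem_Vinf`  : `ι z ∈ V̄ ⟹ z ∈ V`;
* `mem_iff_iota_mem`      : `V = ι⁻¹ V̄`;
* `val_lt_one_iff_iota`   : `v_V z < 1 ↔ v_V̄ (ι z) < 1`.
-/

set_option autoImplicit false
set_option synthInstance.maxHeartbeats 400000
set_option maxHeartbeats 1600000
set_option linter.unusedSectionVars false
set_option linter.style.haveILetI false

noncomputable section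

namespace Fermat.Agent.Ribet.H714

open ModularCurve HahnSeries
open Fermat.Agent.A2.Mod
open Fermat.Agent.A2.T1.H669 (iota iota_ne_zero iota_algebraMap iota_injective)
open Fermat.Agent.S28.H86

variable (P : ValuationSubring _root_.Fermat.Agent.A2.Mod.Qb) (E : IntermediateField ℚ _root_.Fermat.Agent.A2.Mod.Qb)

/-- The inclusion `R_E → P`. -/
def toP : ↥(RE P E) →+* ↥P.toSubring where
  toFun r := ⟨((r : ↥E) : _root_.Fermat.Agent.A2.Mod.Qb), r.2⟩
  map_one' := rfl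
  map_mul' _ _ := rfl
  map_zero' := rfl
  map_add' _ _ := rfl

theorem coeffMap_incl (U : LaurentSeries ↥(RE P E)) :
    coeffMap (algebraMap ↥E _root_.Fermat.Agent.A2.Mod.Qb) (Fermat.Agent.A2.H708.incl (RE P E) U) =
      inclL P.toSubring (coeffMap (toP P E) U) := by
  ext n
  rfl

variable {P E}

theorem val_eq_one_toP {e : ↥E} (he : (RE P E).valuation e = 1) :
    P.valuation ((e : ↥E) : _root_.Fermat.Agent.A2.Mod.Qb) = 1 := by
  have he0 : e ≠ 0 := by
    rintro rfl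
    rw [map_zero] at he
    exact zero_ne_one he
  have he0' : ((e : ↥E) : _root_.Fermat.Agent.A2.Mod.Qb) ≠ 0 := fun h => he0 (Subtype.ext h)
  obtain ⟨h1, h2⟩ := (Fermat.Agent.A2.H553.valuation_eq_one_iff_mem (RE P E) he0).1 he
  refine (Fermat.Agent.A2.H553.valuation_eq_one_iff_mem P he0').2 ⟨h1, ?_⟩
  have h3 : (((e⁻¹ : ↥E)) : _root_.Fermat.Agent.A2.Mod.Qb) ∈ P := h2
  simpa using h3

theorem redL_toP_ne_zero {U : LaurentSeries ↥(RE P E)} (hU : Fermat.Agent.A2.H708.red (RE P E) U ≠ 0) :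
    redL (Fermat.Agent.A2.H553.resA P) (coeffMap (toP P E) U) ≠ 0 := by
  obtain ⟨n, hn⟩ := (Fermat.Agent.A2.H708.red_ne_zero_iff (RE P E) U).1 hU
  exact (Fermat.Agent.A2.H553.redL_ne_zero_iff _).2 ⟨n, val_eq_one_toP hn⟩

variable {N : ℕ}

/-- `z ∈ V ⟹ ι z ∈ V̄`. -/
theorem iota_mem_Vinf_of_mem {V : ValuationSubring ↥(FE E N)} (hV : IsVinf P E N V)
    {ℓ : ℕ} (hℓ : ℓ ≠ 0) (hP : P.LiesOverPrime ℓ) {z : ↥(FE E N)} (hz : z ∈ V) :
    iota E (modularFunctionFieldFull N) z ∈ Fermat.Agent.A2.H553.VinfModular P hℓ hP N := by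
  obtain ⟨U₁, U₂, h₂, -, he⟩ := (hV z).1 hz
  refine ⟨coeffMap (toP P E) U₁, coeffMap (toP P E) U₂, redL_toP_ne_zero h₂, ?_⟩
  show coeffMap (algebraMap ↥E _root_.Fermat.Agent.A2.Mod.Qb) (z : LaurentSeries ↥E) *
      inclL P.toSubring (coeffMap (toP P E) U₂) = inclL P.toSubring (coeffMap (toP P E) U₁)
  rw [← coeffMap_incl, ← coeffMap_incl, ← map_mul, he]

/-- `ι z ∈ V̄ ⟹ z ∈ V`. -/
theorem mem_of_iota_mem_Vinf [NeZero N] (hdvr : IsDiscreteValuationRing ↥(RE P E))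
    {V : ValuationSubring ↥(FE E N)} (hV : IsVinf P E N V)
    {ℓ : ℕ} (hℓ : ℓ ≠ 0) (hP : P.LiesOverPrime ℓ) {z : ↥(FE E N)}
    (hz : iota E (modularFunctionFieldFull N) z ∈
      Fermat.Agent.A2.H553.VinfModular P hℓ hP N) : z ∈ V := by
  haveI := hdvr
  by_contra hzV
  obtain ⟨w, hw⟩ := IsDiscreteValuationRing.exists_irreducible ↥(RE P E)
  obtain ⟨hU, -, -⟩ := H553.vinfBasic P E w N (NeZero.ne N) hdvr hw V hV
  have hzinv : z⁻¹ ∈ V := (V.mem_or_inv_mem z).resolve_left hzV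
  have hzinv' : (z⁻¹)⁻¹ ∉ V := by rwa [inv_inv]
  have h1 : z⁻¹ * (cE P E N w)⁻¹ ∈ V := hU.gen _ hzinv hzinv'
  have h2 := iota_mem_Vinf_of_mem hV hℓ hP h1
  have h3 := (Fermat.Agent.A2.H553.VinfModular P hℓ hP N).mul_mem _ _ hz h2
  have hz0 : z ≠ 0 := by
    rintro rfl
    exact hzV (zero_mem _)
  have hι0 : iota E (modularFunctionFieldFull N) z ≠ 0 := iota_ne_zero E _ hz0
  have h4 : iota E (modularFunctionFieldFull N) z *
      iota E (modularFunctionFieldFull N) (z⁻¹ * (cE P E N w)⁻¹) =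
      algebraMap _root_.Fermat.Agent.A2.Mod.Qb ↥(modularFunctionFieldBar N) (((w : ↥E) : _root_.Fermat.Agent.A2.Mod.Qb)⁻¹) := by
    rw [map_mul, map_inv₀, map_inv₀, ← mul_assoc, mul_inv_cancel₀ hι0, one_mul, cE,
      iota_algebraMap, map_inv₀]
    rfl
  rw [h4] at h3
  have h5 : (((w : ↥E) : _root_.Fermat.Agent.A2.Mod.Qb)⁻¹) ∈ P :=
    (Fermat.Agent.A2.H553.algebraMap_mem_Vinf_iff
      (Fermat.Agent.A2.H553.gaussInput_modular P hℓ hP N)).1 h3
  -- but `w` is not a unit of `R_E`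
  have h6 : ((w : ↥E))⁻¹ ∈ RE P E := by
    show (((w : ↥E)⁻¹ : ↥E) : _root_.Fermat.Agent.A2.Mod.Qb) ∈ P
    simpa using h5
  have hw0 : (w : ↥E) ≠ 0 := fun h0 => hw.ne_zero (Subtype.ext h0)
  apply hw.not_isUnit
  refine ⟨⟨w, ⟨_, h6⟩, ?_, ?_⟩, rfl⟩
  · exact Subtype.ext (mul_inv_cancel₀ hw0)
  · exact Subtype.ext (inv_mul_cancel₀ hw0)

/-- `V = ι⁻¹ V̄`. -/
theorem mem_iff_iota_mem [NeZero N] (hdvr : IsDiscreteValuationRing ↥(RE P E))
    {V : ValuationSubring ↥(FE E N)} (hV : IsVinf P E N V)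
    {ℓ : ℕ} (hℓ : ℓ ≠ 0) (hP : P.LiesOverPrime ℓ) (z : ↥(FE E N)) :
    z ∈ V ↔ iota E (modularFunctionFieldFull N) z ∈
      Fermat.Agent.A2.H553.VinfModular P hℓ hP N :=
  ⟨iota_mem_Vinf_of_mem hV hℓ hP, mem_of_iota_mem_Vinf hdvr hV hℓ hP⟩

/-- `v_V z < 1 ↔ v_V̄ (ι z) < 1`. -/
theorem val_lt_one_iff_iota [NeZero N] (hdvr : IsDiscreteValuationRing ↥(RE P E))
    {V : ValuationSubring ↥(FE E N)} (hV : IsVinf P E N V)
    {ℓ : ℕ} (hℓ : ℓ ≠ 0) (hP : P.LiesOverPrime ℓ) (z : ↥(FE E N)) :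
    V.valuation z < 1 ↔
      (Fermat.Agent.A2.H553.VinfModular P hℓ hP N).valuation
        (iota E (modularFunctionFieldFull N) z) < 1 := by
  rw [Fermat.Agent.A2.H553.valuation_lt_one_iff_mem, Fermat.Agent.A2.H553.valuation_lt_one_iff_mem,
    mem_iff_iota_mem hdvr hV hℓ hP z, mem_iff_iota_mem hdvr hV hℓ hP z⁻¹, map_inv₀,
    map_eq_zero_iff _ (iota_injective E (modularFunctionFieldFull N))]

end Fermat.Agent.Ribet.H714

end

end
-- ===== PACK-END Ribet/H714/DictLevel.lean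

-- ===== PACK-BEGIN S25/H11/ACFormal.lean
section






/-!
# Row S25, block ALGCHARTS: formal chaining of open conditions (helper11)

A predicate `P` on gluing data has a *locus* at `(A, G)` if there is an ideal `J` of `A` with
`P A' G' ↔ J·A' = A'` for every base change `G'` of `G`.  If a chain of predicates
`P₀ ⇐ P₁ ⇐ …` has loci step by step (the locus of `Pⱼ₊₁` being available only where `Pⱼ`
holds), then every `Pⱼ` satisfies the fibrewise criterion (`Fib`) and is open (`Spread`) in the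
sense of helper926's `ChartAtlas`.
-/

set_option autoImplicit false

universe u

open scoped TensorProduct

namespace Fermat.Agent.S25.H11

open Fermat.Agent.S25

section

variable {k : Type u} [Field k] {B₀ B₁ B₀₁ : Type u} [CommRing B₀] [CommRing B₁] [CommRing B₀₁]
  [Algebra k B₀] [Algebra k B₁] [Algebra k B₀₁] [Algebra B₀ B₀₁] [Algebra B₁ B₀₁]
  [IsScalarTower k B₀ B₀₁] [IsScalarTower k B₁ B₀₁]

variable (k B₀ B₁ B₀₁) in
/-- A predicate on gluing data over arbitrary `k`-algebras. -/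
abbrev GDPred : Type (u + 1) :=
  ∀ (A : Type u) [CommRing A] [Algebra k A], CurveGD k B₀ B₁ B₀₁ A → Prop

/-- `P` has a locus at `(A, G)`. -/
def HasLocusAt (P : GDPred k B₀ B₁ B₀₁) (A : Type u) [CommRing A] [Algebra k A]
    (G : CurveGD k B₀ B₁ B₀₁ A) : Prop :=
  ∃ J : Ideal A, ∀ (A' : Type u) [CommRing A'] [Algebra k A'] (ψ : A →ₐ[k] A')
    (G' : CurveGD k B₀ B₁ B₀₁ A'), CurveGD.IsBC ψ G G' → (P A' G' ↔ J.map ψ.toRingHom = ⊤)

/-- The fibrewise criterion for `P` (on rigidifiable data of degree zero). -/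
def FibCrit (e : B₁ →ₐ[k] k) (P : GDPred k B₀ B₁ B₀₁) : Prop :=
  ∀ (A : Type u) [CommRing A] [Algebra k A] (G : CurveGD k B₀ B₁ B₀₁ A),
    G.Rigidifiable e → G.Deg0 →
    (∀ (K : Type u) [Field K] [Algebra k K] (ψ : A →ₐ[k] K) (GK : CurveGD k B₀ B₁ B₀₁ K),
      CurveGD.IsBC ψ G GK → P K GK) → P A G

/-- Openness of `P` on field-valued points (on rigidifiable data of degree zero). -/
def SpreadCrit (e : B₁ →ₐ[k] k) (P : GDPred k B₀ B₁ B₀₁) : Prop :=
  ∀ (A : Type u) [CommRing A] [Algebra k A] (G : CurveGD k B₀ B₁ B₀₁ A),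
    G.Rigidifiable e → G.Deg0 →
    ∀ (K : Type u) [Field K] [Algebra k K] (ψ : A →ₐ[k] K) (GK : CurveGD k B₀ B₁ B₀₁ K),
      CurveGD.IsBC ψ G GK → P K GK →
      ∃ a : A, ψ a ≠ 0 ∧
        ∀ (L : Type u) [Field L] [Algebra k L] (θ : A →ₐ[k] L) (Gθ : CurveGD k B₀ B₁ B₀₁ L),
          CurveGD.IsBC θ G Gθ → θ a ≠ 0 → P L Gθ

/-- A locus gives the predicate as soon as it holds on all field-valued fibres. -/
theorem of_fibres_of_hasLocusAt {P : GDPred k B₀ B₁ B₀₁} {A : Type u} [CommRing A] [Algebra k A]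
    {G : CurveGD k B₀ B₁ B₀₁ A} (hL : HasLocusAt P A G)
    (hfib : ∀ (K : Type u) [Field K] [Algebra k K] (ψ : A →ₐ[k] K)
      (GK : CurveGD k B₀ B₁ B₀₁ K), CurveGD.IsBC ψ G GK → P K GK) : P A G := by
  obtain ⟨J, hJ⟩ := hL
  have hid := hJ A (AlgHom.id k A) G (H265.curveGD_isBC_id G)
  rw [hid]
  have hJtop : J = ⊤ := by
    by_contra hne
    obtain ⟨m, hm, hle⟩ := Ideal.exists_le_maximal _ hne
    let _ : Field (A ⧸ m) := Ideal.Quotient.field m
    let χ : A →ₐ[k] (A ⧸ m) := Ideal.Quotient.mkₐ k m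
    obtain ⟨GK, hGK⟩ := H265.curveGD_exists_isBC χ G
    have h1 := (hJ (A ⧸ m) χ GK hGK).1 (hfib (A ⧸ m) χ GK hGK)
    have h2 : J.map χ.toRingHom ≤ ⊥ := by
      rw [Ideal.map_le_iff_le_comap]
      intro a ha
      rw [Ideal.mem_comap, Ideal.mem_bot]
      exact Ideal.Quotient.eq_zero_iff_mem.2 (hle ha)
    rw [h1] at h2
    exact top_ne_bot (le_bot_iff.1 h2)
  rw [hJtop]
  have : (AlgHom.id k A).toRingHom = RingHom.id A := rfl
  rw [this, Ideal.map_id]

/-- One step of the chain for the fibrewise criterion. -/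
theorem fibCrit_step {e : B₁ →ₐ[k] k} {Q P : GDPred k B₀ B₁ B₀₁}
    (hPQ : ∀ (A : Type u) [CommRing A] [Algebra k A] (G : CurveGD k B₀ B₁ B₀₁ A),
      P A G → Q A G)
    (hQ : FibCrit e Q)
    (hL : ∀ (A : Type u) [CommRing A] [Algebra k A] (G : CurveGD k B₀ B₁ B₀₁ A),
      G.Rigidifiable e → G.Deg0 → Q A G → HasLocusAt P A G) :
    FibCrit e P := by
  intro A _ _ G hrig hdeg hfib
  have hQG : Q A G := hQ A G hrig hdeg (fun K _ _ ψ GK hGK => hPQ K GK (hfib K ψ GK hGK))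
  exact of_fibres_of_hasLocusAt (hL A G hrig hdeg hQG) hfib

/-- A locus gives openness on field-valued points. -/
theorem spread_of_hasLocusAt {P : GDPred k B₀ B₁ B₀₁} {A : Type u} [CommRing A] [Algebra k A]
    {G : CurveGD k B₀ B₁ B₀₁ A} (hL : HasLocusAt P A G)
    (K : Type u) [Field K] [Algebra k K] (ψ : A →ₐ[k] K) (GK : CurveGD k B₀ B₁ B₀₁ K)
    (hGK : CurveGD.IsBC ψ G GK) (hP : P K GK) :
    ∃ a : A, ψ a ≠ 0 ∧
      ∀ (L : Type u) [Field L] [Algebra k L] (θ : A →ₐ[k] L) (Gθ : CurveGD k B₀ B₁ B₀₁ L),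
        CurveGD.IsBC θ G Gθ → θ a ≠ 0 → P L Gθ := by
  obtain ⟨J, hJ⟩ := hL
  have h1 := (hJ K ψ GK hGK).1 hP
  have hex : ∃ a ∈ J, ψ a ≠ 0 := by
    by_contra hno
    push Not at hno
    have h2 : J.map ψ.toRingHom ≤ ⊥ := by
      rw [Ideal.map_le_iff_le_comap]
      intro a ha
      rw [Ideal.mem_comap, Ideal.mem_bot]
      exact hno a ha
    rw [h1] at h2
    exact top_ne_bot (le_bot_iff.1 h2)
  obtain ⟨a, haJ, ha⟩ := hex
  refine ⟨a, ha, fun L _ _ θ Gθ hGθ hθ => (hJ L θ Gθ hGθ).2 ?_⟩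
  rw [Ideal.eq_top_iff_one]
  have hmem : θ a ∈ J.map θ.toRingHom := Ideal.mem_map_of_mem θ.toRingHom haJ
  have hu : IsUnit (θ a) := isUnit_iff_ne_zero.2 hθ
  exact (Ideal.eq_top_of_isUnit_mem _ hmem hu) ▸ Submodule.mem_top

/-- Extension of a field-valued point to the localization away from an element which does not
vanish at the point. -/
theorem exists_lift_away {A : Type u} [CommRing A] [Algebra k A] (a : A) {L : Type u} [Field L]
    [Algebra k L] (θ : A →ₐ[k] L) (hθ : θ a ≠ 0) :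
    ∃ θ₁ : Localization.Away a →ₐ[k] L,
      θ₁.comp (IsScalarTower.toAlgHom k A (Localization.Away a)) = θ := by
  have hu : IsUnit (θ a) := isUnit_iff_ne_zero.2 hθ
  refine ⟨IsLocalization.Away.liftAlgHom (S := Localization.Away a) a (f := θ) hu, ?_⟩
  ext b
  simp [IsLocalization.Away.lift_eq]

/-- One step of the chain for openness. -/
theorem spreadCrit_step {e : B₁ →ₐ[k] k} {Q P : GDPred k B₀ B₁ B₀₁}
    (hPQ : ∀ (A : Type u) [CommRing A] [Algebra k A] (G : CurveGD k B₀ B₁ B₀₁ A),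
      P A G → Q A G)
    (hQfib : FibCrit e Q) (hQspr : SpreadCrit e Q)
    (hL : ∀ (A : Type u) [CommRing A] [Algebra k A] (G : CurveGD k B₀ B₁ B₀₁ A),
      G.Rigidifiable e → G.Deg0 → Q A G → HasLocusAt P A G) :
    SpreadCrit e P := by
  intro A _ _ G hrig hdeg K _ _ ψ GK hGK hP
  obtain ⟨a₁, ha₁, hgood₁⟩ := hQspr A G hrig hdeg K ψ GK hGK (hPQ K GK hP)
  let can : A →ₐ[k] Localization.Away a₁ := IsScalarTower.toAlgHom k A (Localization.Away a₁)
  have hcan : ∀ a, can a = algebraMap A (Localization.Away a₁) a := fun _ => rfl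
  obtain ⟨G₁, hG₁⟩ := H265.curveGD_exists_isBC can G
  have hrig₁ := H265.rigidifiable_of_isBC hG₁ hrig
  have hdeg₁ := H265.deg0_of_isBC hG₁ hdeg
  have hunit : IsUnit (can a₁) := IsLocalization.Away.algebraMap_isUnit a₁
  have hQ₁ : Q (Localization.Away a₁) G₁ := by
    refine hQfib _ G₁ hrig₁ hdeg₁ (fun L _ _ θ₁ Gθ hGθ => ?_)
    refine hgood₁ L (θ₁.comp can) Gθ (H265.curveGD_isBC_comp hG₁ hGθ) ?_
    rw [AlgHom.comp_apply]
    exact (hunit.map θ₁).ne_zero
  have hL₁ := hL _ G₁ hrig₁ hdeg₁ hQ₁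
  obtain ⟨ψ₁, hψ₁⟩ := exists_lift_away a₁ ψ ha₁
  have hGK₁ : CurveGD.IsBC ψ₁ G₁ GK := H265.curveGD_isBC_of_comp_eq hψ₁.symm hG₁ hGK
  obtain ⟨b, hb, hgoodb⟩ := spread_of_hasLocusAt hL₁ K ψ₁ GK hGK₁ hP
  obtain ⟨⟨a₂, s⟩, hb₂⟩ := IsLocalization.surj (Submonoid.powers a₁) b
  obtain ⟨N, hN⟩ := s.2
  have hN' : a₁ ^ N = (s : A) := hN
  have hb₂' : b * can a₁ ^ N = can a₂ := by
    rw [hcan, hcan, ← map_pow, hN']
    exact hb₂
  have key : ∀ (L : Type u) [Field L] [Algebra k L] (θ₁ : Localization.Away a₁ →ₐ[k] L),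
      θ₁ b * (θ₁.comp can) a₁ ^ N = (θ₁.comp can) a₂ := by
    intro L _ _ θ₁
    rw [AlgHom.comp_apply, AlgHom.comp_apply, ← map_pow, ← map_mul, hb₂']
  refine ⟨a₁ * a₂, ?_, ?_⟩
  · have h := key K ψ₁
    rw [hψ₁] at h
    rw [map_mul, ← h]
    exact mul_ne_zero ha₁ (mul_ne_zero hb (pow_ne_zero N ha₁))
  · intro L _ _ θ Gθ hGθ hθ
    rw [map_mul] at hθ
    have hθ₁ : θ a₁ ≠ 0 := left_ne_zero_of_mul hθ
    have hθ₂ : θ a₂ ≠ 0 := right_ne_zero_of_mul hθ
    obtain ⟨θ₁, hθ₁'⟩ := exists_lift_away a₁ θ hθ₁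
    have hGθ₁ : CurveGD.IsBC θ₁ G₁ Gθ := H265.curveGD_isBC_of_comp_eq hθ₁'.symm hG₁ hGθ
    refine hgoodb L θ₁ Gθ hGθ₁ ?_
    have h := key L θ₁
    rw [hθ₁'] at h
    intro h0
    rw [h0, zero_mul] at h
    exact hθ₂ h.symm

/-- The trivial predicate satisfies both criteria. -/
theorem fibCrit_true (e : B₁ →ₐ[k] k) :
    FibCrit e (fun _ _ _ (_ : CurveGD k B₀ B₁ B₀₁ _) => True) :=
  fun _ _ _ _ _ _ _ => trivial

theorem spreadCrit_true (e : B₁ →ₐ[k] k) :
    SpreadCrit e (fun _ _ _ (_ : CurveGD k B₀ B₁ B₀₁ _) => True) := by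
  intro A _ _ G _ _ K _ _ ψ GK _ _
  exact ⟨1, by rw [map_one]; exact one_ne_zero, fun _ _ _ _ _ _ _ => trivial⟩

end

end Fermat.Agent.S25.H11

end
-- ===== PACK-END S25/H11/ACFormal.lean

-- ===== PACK-BEGIN S25/H611/ACCore.lean
section









/-!
# S25 / ALGCHARTS, leaf ST3: CORE (helper611)

`stage3_core`: for a gluing datum `G` over `A` with `P2` (a free generator `s` of
`H⁰(G(nE₀ - Σq))` not vanishing on `E₀`, and `H¹ = 0`), the divisor `D' = div s - Σq` is an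
`A`-point of `Hilb^g (Spec B₀)`: there is an ideal `I'` of `A ⊗ B₀` with
`(A ⊗ B₀) ⧸ I'` finite projective of rank `g` over `A` and `R₀ s₀ = (I' · I_q) N₀`.

Route: `I' := (R₀ s₀ : I_q N₀)`; the long exact sequence (`H611.LesData.equiv`) identifies
`I_q N₀ ⧸ R₀ s₀` with `H¹(O_A) = A ⊗ H¹(O_k)`, which is free of rank `g`; rank-one calculus
(`H611.ACHilbCore`) transfers this to `R₀ ⧸ I'`.
-/

set_option autoImplicit false
set_option linter.style.haveILetI false
set_option linter.unusedSectionVars false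

universe u

open scoped TensorProduct

namespace Fermat.Agent.S25.H611

open Fermat.Agent.S25 Fermat.Agent.S25.H11

section SmulTop

variable {R : Type*} [CommRing R] (I : Ideal R) (N : Type*) [AddCommGroup N] [Module R N]

/-- The multiplication map `I ⊗ N → N`. -/
noncomputable def idealTensorToModule : (I ⊗[R] N) →ₗ[R] N :=
  (TensorProduct.lid R N).toLinearMap ∘ₗ (I.subtype.rTensor N)

@[simp]
theorem idealTensorToModule_tmul (i : I) (n : N) :
    idealTensorToModule I N (i ⊗ₜ[R] n) = (i : R) • n := by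
  simp [idealTensorToModule]

theorem range_idealTensorToModule :
    LinearMap.range (idealTensorToModule I N) = I • (⊤ : Submodule R N) := by
  apply le_antisymm
  · rintro _ ⟨t, rfl⟩
    induction t using TensorProduct.induction_on with
    | zero => simp
    | tmul i n =>
      rw [idealTensorToModule_tmul]
      exact Submodule.smul_mem_smul i.2 Submodule.mem_top
    | add a b ha hb =>
      rw [map_add]
      exact Submodule.add_mem _ ha hb
  · rw [Submodule.smul_le]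
    intro r hr n _
    exact ⟨(⟨r, hr⟩ : I) ⊗ₜ[R] n, by simp⟩

/-- For an invertible ideal `I` and an invertible module `N`, `I • N` is invertible. -/
theorem invertible_smul_top [Module.Invertible R I] [Module.Invertible R N] :
    Module.Invertible R (I • (⊤ : Submodule R N) : Submodule R N) := by
  have hinj : Function.Injective (idealTensorToModule I N) := by
    unfold idealTensorToModule
    rw [LinearMap.coe_comp, LinearEquiv.coe_coe, EquivLike.comp_injective]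
    exact Module.Flat.rTensor_preserves_injective_linearMap _ Subtype.val_injective
  exact Module.Invertible.congr
    ((LinearEquiv.ofInjective _ hinj) ≪≫ₗ LinearEquiv.ofEq _ _ (range_idealTensorToModule I N))

end SmulTop

variable {k : Type u} [Field k] [IsAlgClosed k]
  {B₀ B₁ B₀₁ : Type u} [CommRing B₀] [CommRing B₁] [CommRing B₀₁]
  [Algebra k B₀] [Algebra k B₁] [Algebra k B₀₁] [Algebra B₀ B₀₁] [Algebra B₁ B₀₁]
  [IsScalarTower k B₀ B₀₁] [IsScalarTower k B₁ B₀₁]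
  {x : B₀} {y : B₁} {e : B₁ →ₐ[k] k}
  {A : Type u} [CommRing A] [Algebra k A]

/-- `H¹(O_A)` in the form of `H611.ACLes`. -/
abbrev unitH1 (A : Type u) [CommRing A] [Algebra k A] (B₀ B₁ B₀₁ : Type u) [CommRing B₀]
    [CommRing B₁] [CommRing B₀₁] [Algebra k B₀] [Algebra k B₁] [Algebra k B₀₁] [Algebra B₀ B₀₁]
    [Algebra B₁ B₀₁] [IsScalarTower k B₀ B₀₁] [IsScalarTower k B₁ B₀₁] : Type u :=
  (A ⊗[k] B₀₁) ⧸ LinearMap.range (unitCech A (A ⊗[k] B₀) (A ⊗[k] B₁) (A ⊗[k] B₀₁))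

/-- `H¹(O_A) ≃ A ⊗ H¹(O_k)`. -/
noncomputable def unitH1Equiv (A : Type u) [CommRing A] [Algebra k A] :
    (A ⊗[k] (GlueDatum.unit k (k ⊗[k] B₀) (k ⊗[k] B₁) (k ⊗[k] B₀₁)).H1) ≃ₗ[A]
      unitH1 (k := k) A B₀ B₁ B₀₁ :=
  (H310.unitBCMaps (k := k) (A := k) (A' := A) (B₀ := B₀) (B₁ := B₁) (B₀₁ := B₀₁)).H1Equiv

/-- `A ⊗ B₁ → A ⊗ B₀₁` is injective. -/
theorem algebraMap_tensor₁_injective (hC : IsCurveChart k B₀ B₁ B₀₁ x y e) :
    Function.Injective (algebraMap (A ⊗[k] B₁) (A ⊗[k] B₀₁)) :=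
  H250.r1_injective hC (GlueDatum.unit A (A ⊗[k] B₀) (A ⊗[k] B₁) (A ⊗[k] B₀₁))

/-- The hypotheses of the long exact sequence hold for a generator. -/
theorem lesData_of_isGen (hC : IsCurveChart k B₀ B₁ B₀₁ x y e) (n : ℕ) {m : ℕ}
    (q : Fin m → (B₀ →ₐ[k] k)) (G : CurveGD k B₀ B₁ B₀₁ A) (h1 : P1 x n q G)
    {s : G.N₀ × G.N₁} (hs : IsGen x y n q G s) :
    LesData G (yElt k A y) (xElt k B₀₁ A x ^ n) (vanq q G) s.1 s.2 where
  away := by
    haveI := hC.away₁
    exact H250.isLocalization_away_tensor B₁ B₀₁ y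
  unitX := (H550.isUnit_xElt hC).pow n
  inj₁ := algebraMap_tensor₁_injective hC
  sec := mem_sec.mp hs.mem.1
  mem := hs.mem.2
  p0 := fun c => by
    obtain ⟨p, hp⟩ := h1.1 c
    exact ⟨p.1, p.2, by rw [← hp, tcech_apply]⟩
  p1 := fun a => by
    obtain ⟨s', hs', h⟩ := h1.2 a
    exact ⟨s'.1, s'.2, mem_sec.mp hs', h⟩
  gen := fun a b hab ha => by
    obtain ⟨α, hα⟩ := hs.span (a, b) ⟨mem_sec.mpr hab, ha⟩
    exact ⟨α, congrArg Prod.fst hα, congrArg Prod.snd hα⟩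
  genY := hs.gen
  inj := fun ρ hρ => by
    have h := H550.sec_smul_injective₀₁ hC G n s hs.mem.1 hs.gen
    apply h
    simpa using hρ

/-- **ST3, CORE.**  Under `P2`, the divisor `D' = div s - Σq` of the generator `s` is an
`A`-point of `Hilb^g (Spec B₀)`. -/
theorem stage3_core (hC : IsCurveChart k B₀ B₁ B₀₁ x y e) (i : ChartIndex k B₀)
    (hnum : i.Numeric B₀₁ y) (G : CurveGD k B₀ B₁ B₀₁ A) (h2 : P2 x y i.n i.q G) :
    ∃ (s : G.N₀ × G.N₁) (I' : Ideal (A ⊗[k] B₀)), IsGen x y i.n i.q G s ∧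
      H491.IsHilb i.g I' ∧ Submodule.span (A ⊗[k] B₀) {s.1} =
        (I' * ptIdeal i.q A) • (⊤ : Submodule (A ⊗[k] B₀) G.N₀) := by
  obtain ⟨h1, s, hs⟩ := h2
  have hles := lesData_of_isGen hC i.n i.q G h1 hs
  haveI := G.invertible₀
  haveI := H446.ptIdeal_invertible A hC i.q
  haveI hMinv : Module.Invertible (A ⊗[k] B₀) (vanq i.q G) :=
    invertible_smul_top (ptIdeal i.q A) G.N₀
  let s' : vanq i.q G := ⟨s.1, hles.mem⟩
  let eQ : ((vanq i.q G) ⧸ Submodule.span (A ⊗[k] B₀) {s'}) ≃ₗ[A]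
      (A ⊗[k] (GlueDatum.unit k (k ⊗[k] B₀) (k ⊗[k] B₁) (k ⊗[k] B₀₁)).H1) :=
    hles.equiv ≪≫ₗ (unitH1Equiv (k := k) (B₀ := B₀) (B₁ := B₁) (B₀₁ := B₀₁) A).symm
  haveI : Module.Finite k (GlueDatum.unit k (k ⊗[k] B₀) (k ⊗[k] B₁) (k ⊗[k] B₀₁)).H1 :=
    H250.finite_H1 hC _
  haveI : Module.Finite A ((vanq i.q G) ⧸ Submodule.span (A ⊗[k] B₀) {s'}) :=
    Module.Finite.equiv eQ.symm
  haveI : Module.Free A ((vanq i.q G) ⧸ Submodule.span (A ⊗[k] B₀) {s'}) :=
    Module.Free.of_equiv eQ.symm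
  obtain ⟨hfin, hproj⟩ := quotient_colonIdeal_finite_projective A (R := A ⊗[k] B₀) s'
  refine ⟨s, colonIdeal (R := A ⊗[k] B₀) s', hs, ⟨hfin, hproj, fun p => ?_⟩, ?_⟩
  · rw [rankAtStalk_quotient_colonIdeal A s' p]
    haveI : Nontrivial A := p.nontrivial
    rw [Module.rankAtStalk_eq_finrank_of_free, eQ.finrank_eq, Module.finrank_baseChange,
      ← hnum.2]
    rfl
  · have h3 := colonIdeal_smul_top (R := A ⊗[k] B₀) s'
    have h4 := congrArg (Submodule.map (vanq i.q G).subtype) h3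
    rw [Submodule.map_smul'', Submodule.map_top, Submodule.range_subtype, Submodule.map_span,
      Set.image_singleton] at h4
    rw [Submodule.mul_smul]
    exact h4.symm

end Fermat.Agent.S25.H611

end
-- ===== PACK-END S25/H611/ACCore.lean

-- ===== PACK-BEGIN S25/H446/ACStage2.lean
section










/-!
# Row S25, block ALGCHARTS, leaf ST2 (helper446): the locus where `H⁰(G(nE₀ - Σq))` generates
`N₁ / y N₁`

`stage2_locus` : exact statement of `coord/S25-ALGCHARTS-skeleton.lean` (squad-lead helper11);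
`leaf_stage2 : H11.Leaf.Stage2 k B₀ B₁ B₀₁`.

Route.  For `G` over `A` with `P1`:
* `genSub x y n q G := y N₁ + R₁ · snd (secq)`, an `A ⊗ B₁`-submodule of `N₁`;
  `N₁ ⧸ genSub` is a finite `A`-module and commutes with base change (`genSubMap`);
  `J := Ann_A (N₁ ⧸ genSub)`.
* `P2 ⇒ genSub = ⊤` (`genSub_eq_top_of_isGen`).
* `genSub = ⊤ ⇒ P2` (`exists_isGen_of_genSub_eq_top`): `ker (sec → N₀ ⧸ I_q N₀)` is a finite
  projective `A`-module of rank `(n d + 1 - g) - m = 1` (DEG1 on the fibres + SH2), hence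
  invertible; the rigidification `b : N₁ → A` gives `λ : ker → A`, which is onto because
  `genSub = ⊤` and `b (y N₁) = 0`; a surjection of invertible modules is bijective.
-/

set_option autoImplicit false
set_option linter.style.haveILetI false
set_option linter.unusedSectionVars false

universe u

open scoped TensorProduct

namespace Fermat.Agent.S25.H446

open Fermat.Agent.S25 Fermat.Agent.S25.H11

variable {k : Type u} [Field k]
  {B₀ B₁ B₀₁ : Type u} [CommRing B₀] [CommRing B₁] [CommRing B₀₁]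
  [Algebra k B₀] [Algebra k B₁] [Algebra k B₀₁] [Algebra B₀ B₀₁] [Algebra B₁ B₀₁]
  [IsScalarTower k B₀ B₀₁] [IsScalarTower k B₁ B₀₁]
  {x : B₀} {y : B₁} {e : B₁ →ₐ[k] k}

section GenSub

variable {A : Type u} [CommRing A] [Algebra k A]

/-- The submodule `y N₁ + R₁ · snd (secq)` of `N₁`. -/
def genSub (x : B₀) (y : B₁) (n : ℕ) {m : ℕ} (q : Fin m → (B₀ →ₐ[k] k))
    (G : CurveGD k B₀ B₁ B₀₁ A) : Submodule (A ⊗[k] B₁) G.N₁ :=
  (Ideal.span {yElt k A y}) • (⊤ : Submodule (A ⊗[k] B₁) G.N₁) ⊔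
    Submodule.span (A ⊗[k] B₁)
      ((fun s : G.N₀ × G.N₁ => s.2) '' (secq x n q G : Set (G.N₀ × G.N₁)))

/-- `P2 ⇒ genSub = ⊤`. -/
theorem genSub_eq_top_of_isGen {n : ℕ} {m : ℕ} {q : Fin m → (B₀ →ₐ[k] k)}
    {G : CurveGD k B₀ B₁ B₀₁ A} {s : G.N₀ × G.N₁} (hs : IsGen x y n q G s) :
    genSub x y n q G = ⊤ := by
  rw [eq_top_iff]
  intro c _
  obtain ⟨r, hr⟩ := hs.gen c
  have hc : c = (c - r • s.2) + r • s.2 := by abel
  rw [hc]
  exact Submodule.add_mem _ (Submodule.mem_sup_left hr)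
    (Submodule.mem_sup_right (Submodule.smul_mem _ r (Submodule.subset_span ⟨s, hs.mem, rfl⟩)))

/-- The evaluation map `sec → N₀ ⧸ I_q N₀`. -/
noncomputable def evq (x : B₀) (n : ℕ) {m : ℕ} (q : Fin m → (B₀ →ₐ[k] k))
    (G : CurveGD k B₀ B₁ B₀₁ A) : sec x n G →ₗ[A] (G.N₀ ⧸ vanq q G) :=
  ((vanq q G).mkQ.restrictScalars A) ∘ₗ (LinearMap.fst A G.N₀ G.N₁) ∘ₗ (sec x n G).subtype

theorem evq_apply {n : ℕ} {m : ℕ} {q : Fin m → (B₀ →ₐ[k] k)} {G : CurveGD k B₀ B₁ B₀₁ A}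
    (s : sec x n G) : evq x n q G s = Submodule.Quotient.mk (s : G.N₀ × G.N₁).1 := rfl

theorem mem_ker_evq {n : ℕ} {m : ℕ} {q : Fin m → (B₀ →ₐ[k] k)} {G : CurveGD k B₀ B₁ B₀₁ A}
    (s : sec x n G) : s ∈ LinearMap.ker (evq x n q G) ↔ (s : G.N₀ × G.N₁) ∈ secq x n q G := by
  rw [LinearMap.mem_ker, evq_apply, Submodule.Quotient.mk_eq_zero, mem_secq]
  exact ⟨fun h => ⟨s.2, h⟩, fun h => h.2⟩

theorem evq_surjective {n : ℕ} {m : ℕ} {q : Fin m → (B₀ →ₐ[k] k)} {G : CurveGD k B₀ B₁ B₀₁ A}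
    (h1 : P1 x n q G) : Function.Surjective (evq x n q G) := by
  intro z
  obtain ⟨a, rfl⟩ := Submodule.Quotient.mk_surjective _ z
  obtain ⟨s, hs, hv⟩ := h1.2 a
  refine ⟨⟨s, hs⟩, ?_⟩
  rw [evq_apply, Submodule.Quotient.eq]
  have : s.1 - a = -(a - s.1) := by abel
  rw [this]
  exact (vanq q G).neg_mem hv

end GenSub

section Rank

variable [IsAlgClosed k] {A : Type u} [CommRing A] [Algebra k A]

/-- Under `P0` and `Deg0`, `H⁰(G(nE₀))` has rank `m + 1 = n d + 1 - g` at every prime. -/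
theorem rankAtStalk_sec (hC : IsCurveChart k B₀ B₁ B₀₁ x y e) (i : ChartIndex k B₀)
    (hnum : i.Numeric B₀₁ y) (G : CurveGD k B₀ B₁ B₀₁ A) (hdeg : G.Deg0) (h0 : P0 x i.n G)
    (p : PrimeSpectrum A) :
    Module.rankAtStalk (R := A) (sec x i.n G) p = i.m + 1 := by
  let K := p.asIdeal.ResidueField
  letI algkK : Algebra k K := ((algebraMap A K).comp (algebraMap k A)).toAlgebra
  haveI tower : IsScalarTower k A K := IsScalarTower.of_algebraMap_eq (fun _ => rfl)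
  let ψ : A →ₐ[k] K := IsScalarTower.toAlgHom k A K
  obtain ⟨GK, hbc⟩ := H265.curveGD_exists_isBC (B₀ := B₀) (B₁ := B₁) (B₀₁ := B₀₁) ψ G
  have h0K : P0 x i.n GK := H610.P0_of_isBC ψ hbc x i.n h0
  have hdegK : GK.degree = 0 := hdeg K ψ GK hbc
  obtain ⟨hfin, hrk⟩ := H190.finrank_sec hC GK hdegK i.n h0K
  obtain ⟨bc⟩ := hbc
  let p' : PrimeSpectrum K := ⟨⊥, Ideal.isPrime_bot⟩
  have h1 := H610.rankAtStalk_sec_of_baseChangeMaps hC ψ bc i.n h0 p'
  have hp : PrimeSpectrum.comap ψ.toRingHom p' = p := by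
    apply PrimeSpectrum.ext
    change Ideal.comap ψ.toRingHom ⊥ = p.asIdeal
    rw [← RingHom.ker_eq_comap_bot]
    exact Ideal.ker_algebraMap_residueField (I := p.asIdeal)
  rw [hp] at h1
  have h4 : Module.rankAtStalk (R := K) (sec x i.n GK) p' = Module.finrank K (sec x i.n GK) := by
    rw [Module.rankAtStalk_eq_finrank_of_free]
    rfl
  rw [← h1, h4]
  have h2 := hnum.1
  have h3 := hnum.2
  omega

/-- Under `P1` and `Deg0`, `H⁰(G(nE₀ - Σq))` is an invertible `A`-module. -/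
theorem ker_evq_invertible (hC : IsCurveChart k B₀ B₁ B₀₁ x y e) (i : ChartIndex k B₀)
    (hnum : i.Numeric B₀₁ y) (G : CurveGD k B₀ B₁ B₀₁ A) (hdeg : G.Deg0)
    (h1 : P1 x i.n i.q G) :
    Module.Invertible A (LinearMap.ker (evq x i.n i.q G)) := by
  obtain ⟨-, hfin, hproj⟩ := H610.sec_finite_projective hC G i.n h1.1
  haveI := hfin
  haveI := hproj
  haveI hQf := vanq_quotient_finite hC i.q G
  haveI hQp := vanq_quotient_projective hC i.q G
  obtain ⟨σ, hσ⟩ := Module.projective_lifting_property (evq x i.n i.q G) LinearMap.id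
    (evq_surjective h1)
  have hex : Function.Exact (LinearMap.ker (evq x i.n i.q G)).subtype (evq x i.n i.q G) :=
    LinearMap.exact_subtype_ker_map _
  obtain ⟨E, hE1, hE2⟩ := hex.splitSurjectiveEquiv (Submodule.injective_subtype _) ⟨σ, hσ⟩
  let pr : sec x i.n G →ₗ[A] LinearMap.ker (evq x i.n i.q G) :=
    (LinearMap.fst A _ _) ∘ₗ E.toLinearMap
  have hpr' : ∀ ℓ : LinearMap.ker (evq x i.n i.q G),
      pr ((LinearMap.ker (evq x i.n i.q G)).subtype ℓ) = ℓ := by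
    intro ℓ
    have h : E ((LinearMap.ker (evq x i.n i.q G)).subtype ℓ) = (ℓ, 0) := by
      have h' := congrArg
        (fun f : LinearMap.ker (evq x i.n i.q G) →ₗ[A] sec x i.n G => E (f ℓ)) hE1
      simpa using h'
    show (E ((LinearMap.ker (evq x i.n i.q G)).subtype ℓ)).1 = ℓ
    rw [h]
  have hpr : pr ∘ₗ (LinearMap.ker (evq x i.n i.q G)).subtype = LinearMap.id :=
    LinearMap.ext hpr'
  haveI : Module.Projective A (LinearMap.ker (evq x i.n i.q G)) :=
    Module.Projective.of_split _ pr hpr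
  haveI : Module.Finite A (LinearMap.ker (evq x i.n i.q G)) :=
    Module.Finite.of_surjective pr (fun ℓ => ⟨(LinearMap.ker (evq x i.n i.q G)).subtype ℓ,
      hpr' ℓ⟩)
  refine H551.invertible_of_rankAtStalk_eq_one (R := A) (LinearMap.ker (evq x i.n i.q G)) ?_
  intro p
  have h := congrFun (Module.rankAtStalk_eq_of_equiv (R := A) (M := sec x i.n G)
    (N := LinearMap.ker (evq x i.n i.q G) × (G.N₀ ⧸ vanq i.q G)) E) p
  rw [Module.rankAtStalk_prod, Pi.add_apply, rankAtStalk_sec hC i hnum G hdeg h1.1 p,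
    vanq_quotient_rank hC i.q G p] at h
  omega

end Rank

section Rigid

variable {A : Type u} [CommRing A] [Algebra k A]

/-- A rigidification is `A`-linear. -/
theorem rig_smul {G : CurveGD k B₀ B₁ B₀₁ A} (b : G.N₁ →ₛₗ[(epsHom e A).toRingHom] A) (a : A)
    (n : G.N₁) : b (a • n) = a * b n := by
  rw [← algebraMap_smul (A ⊗[k] B₁) a n, b.map_smulₛₗ]
  have h : (epsHom e A).toRingHom (algebraMap A (A ⊗[k] B₁) a) = a := (epsHom e A).commutes a
  rw [h, smul_eq_mul]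

/-- The marked point lies on `y = 0`. -/
theorem epsHom_yElt (hC : IsCurveChart k B₀ B₁ B₀₁ x y e) : epsHom e A (yElt k A y) = 0 := by
  simp [epsHom, yElt, hC.e_y]

/-- A rigidification kills `y N₁`. -/
theorem rig_eq_zero_of_mem (hC : IsCurveChart k B₀ B₁ B₀₁ x y e) {G : CurveGD k B₀ B₁ B₀₁ A}
    (b : G.N₁ →ₛₗ[(epsHom e A).toRingHom] A) {u : G.N₁}
    (hu : u ∈ (Ideal.span {yElt k A y}) • (⊤ : Submodule (A ⊗[k] B₁) G.N₁)) : b u = 0 := by
  refine Submodule.smul_induction_on (p := fun u => b u = 0) hu ?_ ?_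
  · intro r hr n' _
    obtain ⟨c, rfl⟩ := Ideal.mem_span_singleton'.mp hr
    rw [b.map_smulₛₗ]
    have h : (epsHom e A).toRingHom (c * yElt k A y) = 0 := by
      change epsHom e A (c * yElt k A y) = 0
      rw [map_mul, epsHom_yElt hC, mul_zero]
    rw [h, zero_smul]
  · intro a c ha hc
    rw [map_add, ha, hc, add_zero]

variable [IsAlgClosed k]

/-- `genSub = ⊤ ⇒ P2`: if `H⁰(G(nE₀ - Σq))` generates `N₁` modulo `y`, it is free of rank one
on a section generating `N₁` modulo `y`. -/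
theorem exists_isGen_of_genSub_eq_top (hC : IsCurveChart k B₀ B₁ B₀₁ x y e)
    (i : ChartIndex k B₀) (hnum : i.Numeric B₀₁ y) (G : CurveGD k B₀ B₁ B₀₁ A)
    (hrig : G.Rigidifiable e) (hdeg : G.Deg0) (h1 : P1 x i.n i.q G)
    (htop : genSub x y i.n i.q G = ⊤) : ∃ s, IsGen x y i.n i.q G s := by
  obtain ⟨b, hb⟩ := hrig
  haveI := ker_evq_invertible hC i hnum G hdeg h1
  let lam : LinearMap.ker (evq x i.n i.q G) →ₗ[A] A :=
    { toFun := fun ℓ => b ((ℓ : sec x i.n G) : G.N₀ × G.N₁).2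
      map_add' := fun ℓ ℓ' => by
        show b (((ℓ : sec x i.n G) : G.N₀ × G.N₁).2 + ((ℓ' : sec x i.n G) : G.N₀ × G.N₁).2) = _
        rw [map_add]
      map_smul' := fun a ℓ => by
        show b (a • ((ℓ : sec x i.n G) : G.N₀ × G.N₁).2) = _
        rw [rig_smul]
        rfl }
  have hlam : ∀ ℓ : LinearMap.ker (evq x i.n i.q G),
      lam ℓ = b ((ℓ : sec x i.n G) : G.N₀ × G.N₁).2 := fun _ => rfl
  have hrange : ∀ n : G.N₁, b n ∈ LinearMap.range lam := by
    intro n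
    have hn : n ∈ genSub x y i.n i.q G := by rw [htop]; trivial
    obtain ⟨u, hu, v, hv, rfl⟩ := Submodule.mem_sup.mp hn
    rw [map_add, rig_eq_zero_of_mem hC b hu, zero_add]
    refine Submodule.span_induction (p := fun v _ => b v ∈ LinearMap.range lam) ?_ ?_ ?_ ?_ hv
    · rintro _ ⟨s, hs, rfl⟩
      exact ⟨⟨⟨s, hs.1⟩, (mem_ker_evq _).mpr hs⟩, rfl⟩
    · rw [map_zero]; exact zero_mem _
    · intro a c _ _ ha hc
      rw [map_add]; exact add_mem ha hc
    · intro r v _ hv'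
      rw [b.map_smulₛₗ]
      exact (LinearMap.range lam).smul_mem _ hv'
  have hsurj : Function.Surjective lam := by
    rw [← LinearMap.range_eq_top, eq_top_iff]
    have h1' := span_image_eq_top_of_isSemilinearBaseChange _ b hb (1 : A)
    have hle : Submodule.span A (Set.range b) ≤ LinearMap.range lam :=
      Submodule.span_le.mpr (by rintro _ ⟨n, rfl⟩; exact hrange n)
    intro a _
    have ha : a = a • (1 : A) := by rw [smul_eq_mul, mul_one]
    rw [ha]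
    exact Submodule.smul_mem _ a (hle h1')
  have hbij : Function.Bijective lam := Module.Invertible.bijective_of_surjective hsurj
  obtain ⟨s₀, hs₀⟩ := hsurj 1
  have hspan : ∀ t ∈ secq x i.n i.q G, ∃ a : A,
      t = a • ((s₀ : sec x i.n G) : G.N₀ × G.N₁) := by
    intro t ht
    let tt : LinearMap.ker (evq x i.n i.q G) := ⟨⟨t, ht.1⟩, (mem_ker_evq _).mpr ht⟩
    refine ⟨lam tt, ?_⟩
    have h : tt = lam tt • s₀ := by
      apply hbij.1
      rw [map_smul, hs₀, smul_eq_mul, mul_one]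
    exact congrArg (fun ℓ : LinearMap.ker (evq x i.n i.q G) =>
      ((ℓ : sec x i.n G) : G.N₀ × G.N₁)) h
  refine ⟨((s₀ : sec x i.n G) : G.N₀ × G.N₁), (mem_ker_evq _).mp s₀.2, hspan, ?_⟩
  intro c
  have hc : c ∈ genSub x y i.n i.q G := by rw [htop]; trivial
  obtain ⟨u, hu, v, hv, rfl⟩ := Submodule.mem_sup.mp hc
  have hv' : v ∈ Submodule.span (A ⊗[k] B₁) {((s₀ : sec x i.n G) : G.N₀ × G.N₁).2} := by
    refine Submodule.span_le.mpr ?_ hv
    rintro _ ⟨t, ht, rfl⟩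
    obtain ⟨a, rfl⟩ := hspan t ht
    show a • ((s₀ : sec x i.n G) : G.N₀ × G.N₁).2 ∈ _
    rw [← algebraMap_smul (A ⊗[k] B₁) a]
    exact Submodule.smul_mem _ _ (Submodule.mem_span_singleton_self _)
  obtain ⟨r, rfl⟩ := Submodule.mem_span_singleton.mp hv'
  refine ⟨r, ?_⟩
  rw [add_sub_cancel_right]
  exact hu

end Rigid

section Finite

variable {A : Type u} [CommRing A] [Algebra k A]

/-- `span {1 ⊗ y}` is the extension of `span {y}`. -/
theorem span_yElt_eq_map (y : B₁) :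
    (Ideal.span {yElt k A y} : Ideal (A ⊗[k] B₁)) =
      (Ideal.span {y}).map (Algebra.TensorProduct.includeRight : B₁ →ₐ[k] A ⊗[k] B₁) := by
  rw [Ideal.map_span, Set.image_singleton]
  rfl

/-- `(A ⊗ B₁) ⧸ (1 ⊗ y)` is a finite free `A`-module. -/
theorem finite_free_quotient_yElt (hC : IsCurveChart k B₀ B₁ B₀₁ x y e) :
    Module.Finite A ((A ⊗[k] B₁) ⧸ (Ideal.span {yElt k A y} : Ideal (A ⊗[k] B₁))) ∧
      Module.Free A ((A ⊗[k] B₁) ⧸ (Ideal.span {yElt k A y} : Ideal (A ⊗[k] B₁))) := by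
  haveI := H190.finite_quot_y hC
  let E : A ⊗[k] (B₁ ⧸ Ideal.span {y}) ≃ₐ[A]
      (A ⊗[k] B₁) ⧸ (Ideal.span {yElt k A y} : Ideal (A ⊗[k] B₁)) :=
    (Algebra.TensorProduct.tensorQuotientEquiv (R := k) A B₁ A (Ideal.span {y})).trans
      (Ideal.quotientEquivAlgOfEq A (span_yElt_eq_map (A := A) y).symm)
  exact ⟨Module.Finite.equiv E.toLinearEquiv, Module.Free.of_equiv E.toLinearEquiv⟩

/-- `N₁ ⧸ y N₁` is a finite `A`-module. -/
theorem finite_quotient_y_smul_top (hC : IsCurveChart k B₀ B₁ B₀₁ x y e)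
    (G : CurveGD k B₀ B₁ B₀₁ A) :
    Module.Finite A
      (G.N₁ ⧸ (Ideal.span {yElt k A y}) • (⊤ : Submodule (A ⊗[k] B₁) G.N₁)) := by
  haveI := G.invertible₁
  haveI := (finite_free_quotient_yElt (A := A) hC).1
  haveI := (finite_free_quotient_yElt (A := A) hC).2
  exact (quotient_smul_top_of_invertible (A := A) (Ideal.span {yElt k A y}) G.N₁).1

/-- `N₁ ⧸ (y N₁ + R₁ · snd secq)` is a finite `A`-module. -/
theorem finite_quotient_genSub (hC : IsCurveChart k B₀ B₁ B₀₁ x y e) (n : ℕ) {m : ℕ}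
    (q : Fin m → (B₀ →ₐ[k] k)) (G : CurveGD k B₀ B₁ B₀₁ A) :
    Module.Finite A (G.N₁ ⧸ genSub x y n q G) := by
  haveI := finite_quotient_y_smul_top hC G
  let f : (G.N₁ ⧸ (Ideal.span {yElt k A y}) • (⊤ : Submodule (A ⊗[k] B₁) G.N₁)) →ₗ[A]
      (G.N₁ ⧸ genSub x y n q G) :=
    (Submodule.mapQ _ (genSub x y n q G) LinearMap.id
      (fun u hu => Submodule.mem_sup_left hu)).restrictScalars A
  refine Module.Finite.of_surjective f ?_
  intro z
  obtain ⟨c, rfl⟩ := Submodule.Quotient.mk_surjective _ z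
  exact ⟨Submodule.Quotient.mk c, rfl⟩

end Finite

section BaseChange

variable {A A' : Type u} [CommRing A] [Algebra k A] [CommRing A'] [Algebra k A']
  [Algebra A A'] [IsScalarTower k A A']
  {ψ : A →ₐ[k] A'} {G : CurveGD k B₀ B₁ B₀₁ A} {G' : CurveGD k B₀ B₁ B₀₁ A'}
  {bc : GlueDatum.BaseChangeMaps (tensorMapLeft k ψ B₀) (tensorMapLeft k ψ B₁)
      (tensorMapLeft k ψ B₀₁) G G'}

omit [Algebra A A'] [IsScalarTower k A A'] in
/-- Base change of the ideal `(1 ⊗ y)`. -/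
theorem map_span_yElt (ψ : A →ₐ[k] A') (y : B₁) :
    (Ideal.span {yElt k A y} : Ideal (A ⊗[k] B₁)).map (tensorMapLeft k ψ B₁) =
      Ideal.span {yElt k A' y} := by
  rw [Ideal.map_span, Set.image_singleton, H610.tensorMapLeft_yElt]

omit [Algebra A A'] [IsScalarTower k A A'] in
/-- Base-change maps send `genSub G` into `genSub G'`. -/
theorem genSub_le_comap (ψ : A →ₐ[k] A')
    (bc : GlueDatum.BaseChangeMaps (tensorMapLeft k ψ B₀) (tensorMapLeft k ψ B₁)
      (tensorMapLeft k ψ B₀₁) G G') (x : B₀) (y : B₁) (n : ℕ) {m : ℕ}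
    (q : Fin m → (B₀ →ₐ[k] k)) :
    genSub x y n q G ≤ (genSub x y n q G').comap bc.b₁ := by
  refine sup_le ?_ (Submodule.span_le.mpr ?_)
  · intro u hu
    rw [Submodule.mem_comap]
    have h := semilinear_mem_map_smul_top (tensorMapLeft k ψ B₁) bc.b₁ _ hu
    rw [map_span_yElt] at h
    exact Submodule.mem_sup_left h
  · rintro _ ⟨s, hs, rfl⟩
    rw [SetLike.mem_coe, Submodule.mem_comap]
    exact Submodule.mem_sup_right (Submodule.subset_span
      ⟨(bc.b₀ s.1, bc.b₁ s.2),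
        ⟨H610.mem_sec_of_baseChangeMaps ψ bc x n hs.1, b₀_mem_vanq ψ bc q hs.2⟩, rfl⟩)

/-- Under `P1` for `G`, `genSub G'` is spanned by the image of `genSub G`. -/
theorem genSub_le_span (E : H791.BCEquivs ψ bc) (hC : IsCurveChart k B₀ B₁ B₀₁ x y e)
    (n : ℕ) {m : ℕ} (q : Fin m → (B₀ →ₐ[k] k)) (h1 : P1 x n q G) :
    genSub x y n q G' ≤
      Submodule.span (A' ⊗[k] B₁) (bc.b₁ '' (genSub x y n q G : Set G.N₁)) := by
  refine sup_le ?_ (Submodule.span_le.mpr ?_)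
  · have h := map_smul_top_le_span (tensorMapLeft k ψ B₁) bc.b₁ bc.isBaseChange₁
      (Ideal.span {yElt k A y})
    rw [map_span_yElt] at h
    refine h.trans (Submodule.span_mono (Set.image_mono ?_))
    intro u hu
    exact Submodule.mem_sup_left hu
  · rintro _ ⟨t', ht', rfl⟩
    have h := E.mem_span_of_mem_secq hC n q h1 ht'
    refine Submodule.span_induction
      (p := fun t' _ => t'.2 ∈
        Submodule.span (A' ⊗[k] B₁) (bc.b₁ '' (genSub x y n q G : Set G.N₁))) ?_ ?_ ?_ ?_ h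
    · rintro _ ⟨s, hs, rfl⟩
      exact Submodule.subset_span
        ⟨s.2, Submodule.mem_sup_right (Submodule.subset_span ⟨s, hs, rfl⟩), rfl⟩
    · exact zero_mem _
    · intro a c _ _ ha hc
      exact add_mem ha hc
    · intro a' t _ ht
      show a' • t.2 ∈ _
      rw [← algebraMap_smul (A' ⊗[k] B₁) a']
      exact Submodule.smul_mem _ _ ht

/-- The semilinear map `N₁ ⧸ genSub G → N₁' ⧸ genSub G'`. -/
noncomputable def genSubMap (ψ : A →ₐ[k] A')
    (bc : GlueDatum.BaseChangeMaps (tensorMapLeft k ψ B₀) (tensorMapLeft k ψ B₁)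
      (tensorMapLeft k ψ B₀₁) G G') (x : B₀) (y : B₁) (n : ℕ) {m : ℕ}
    (q : Fin m → (B₀ →ₐ[k] k)) :
    (G.N₁ ⧸ genSub x y n q G) →ₛₗ[tensorMapLeft k ψ B₁] (G'.N₁ ⧸ genSub x y n q G') :=
  quotMapSL (tensorMapLeft k ψ B₁) bc.b₁ _ _ (genSub_le_comap ψ bc x y n q)

/-- Under `P1` for `G`: `N₁' ⧸ genSub G' ≃ A' ⊗[A] (N₁ ⧸ genSub G)`. -/
theorem exists_genSub_quotient_equiv (hψ : ∀ a, ψ a = algebraMap A A' a)
    (E : H791.BCEquivs ψ bc) (hC : IsCurveChart k B₀ B₁ B₀₁ x y e)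
    (n : ℕ) {m : ℕ} (q : Fin m → (B₀ →ₐ[k] k)) (h1 : P1 x n q G) :
    Nonempty (A' ⊗[A] (G.N₁ ⧸ genSub x y n q G) ≃ₗ[A'] (G'.N₁ ⧸ genSub x y n q G')) := by
  have hbc : IsSemilinearBaseChange (tensorMapLeft k ψ B₁) (genSubMap ψ bc x y n q) :=
    quotMapSL_isSemilinearBaseChange _ bc.b₁ bc.isBaseChange₁ _ _ _
      (genSub_le_span E hC n q h1)
  obtain ⟨F, -⟩ := H550.exists_equiv_of_isSemilinearBaseChange_tensor ψ hψ B₁
    (genSubMap ψ bc x y n q) hbc
  exact ⟨F⟩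

/-- Under `P1` for `G`: `genSub G' = ⊤` iff the annihilator of `N₁ ⧸ genSub G` generates the
unit ideal of `A'`. -/
theorem genSub_eq_top_iff (hψ : ∀ a, ψ a = algebraMap A A' a)
    (E : H791.BCEquivs ψ bc) (hC : IsCurveChart k B₀ B₁ B₀₁ x y e)
    (n : ℕ) {m : ℕ} (q : Fin m → (B₀ →ₐ[k] k)) (h1 : P1 x n q G) :
    genSub x y n q G' = ⊤ ↔
      (Module.annihilator A (G.N₁ ⧸ genSub x y n q G)).map (algebraMap A A') = ⊤ := by
  haveI := finite_quotient_genSub hC n q G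
  obtain ⟨F⟩ := exists_genSub_quotient_equiv hψ E hC n q h1
  rw [← H791.subsingleton_tensorProduct_iff, F.toEquiv.subsingleton_congr,
    Submodule.Quotient.subsingleton_iff]

end BaseChange

section Main

variable [IsAlgClosed k] {A : Type u} [CommRing A] [Algebra k A]

/-- **ST2** (exact skeleton statement): given `P1`, rigidifiability and degree 0, the locus
where the rank one module `H⁰(G(nE₀ - Σq))` generates `N₁ / y N₁`; there it is free on a
generator `s`. -/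
theorem stage2_locus (hC : IsCurveChart k B₀ B₁ B₀₁ x y e) (i : ChartIndex k B₀)
    (hnum : i.Numeric B₀₁ y) (G : CurveGD k B₀ B₁ B₀₁ A) (hrig : G.Rigidifiable e)
    (hdeg : G.Deg0) (h1 : P1 x i.n i.q G) :
    ∃ J : Ideal A, ∀ (A' : Type u) [CommRing A'] [Algebra k A'] (ψ : A →ₐ[k] A')
      (G' : CurveGD k B₀ B₁ B₀₁ A'), CurveGD.IsBC ψ G G' →
        (P2 x y i.n i.q G' ↔ J.map ψ.toRingHom = ⊤) := by
  refine ⟨Module.annihilator A (G.N₁ ⧸ genSub x y i.n i.q G), ?_⟩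
  intro A' _ _ ψ G' hbc
  letI : Algebra A A' := ψ.toRingHom.toAlgebra
  haveI : IsScalarTower k A A' := IsScalarTower.of_algebraMap_eq' (by
    ext c
    exact (ψ.commutes c).symm)
  have hψ : ∀ a, ψ a = algebraMap A A' a := fun _ => rfl
  have h1' : P1 x i.n i.q G' := H791.p1_baseChange hC i.n i.q ψ hψ hbc h1
  have hrig' : G'.Rigidifiable e := H265.rigidifiable_of_isBC hbc hrig
  have hdeg' : G'.Deg0 := H265.deg0_of_isBC hbc hdeg
  obtain ⟨bc⟩ := hbc
  obtain ⟨E⟩ := H791.exists_bcEquivs ψ hψ bc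
  have hiff := genSub_eq_top_iff (x := x) (y := y) hψ E hC i.n i.q h1
  change _ ↔ (Module.annihilator A (G.N₁ ⧸ genSub x y i.n i.q G)).map (algebraMap A A') = ⊤
  rw [← hiff]
  constructor
  · rintro ⟨-, s, hs⟩
    exact genSub_eq_top_of_isGen hs
  · intro htop
    exact ⟨h1', exists_isGen_of_genSub_eq_top hC i hnum G' hrig' hdeg' h1' htop⟩

/-- Leaf `Stage2` of ALGCHARTS. -/
theorem leaf_stage2 : H11.Leaf.Stage2 k B₀ B₁ B₀₁ :=
  fun _ _ _ hC i hnum _ _ _ G hrig hdeg h1 => stage2_locus hC i hnum G hrig hdeg h1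

end Main

end Fermat.Agent.S25.H446

end
-- ===== PACK-END S25/H446/ACStage2.lean

-- ===== PACK-BEGIN S26/H70/CubeTransl.lean
section


/-!
# Row S26, block CUBE, leaf C5 (`cube_of`), part (c): translates of an open set (helper70)
-/

set_option autoImplicit false
universe u

open CategoryTheory CategoryTheory.Limits AlgebraicGeometry NeronModelInfra GoodReductionJacobian

namespace Fermat.Agent.S26.H70

noncomputable section

variable {K : Type u} [Field K] {X : AbVar K} {T : PicTheory.{u}}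

theorem prodMapLeft_fst {X₁ X' W : Scheme.{u}} (x : X₁ ⟶ Spec (CommRingCat.of K))
    (x' : X' ⟶ Spec (CommRingCat.of K)) (w : W ⟶ Spec (CommRingCat.of K)) (f : X' ⟶ X₁)
    (hf : f ≫ x = x') :
    prodMapLeft x x' w f hf ≫ pullback.fst x w = pullback.fst x' w ≫ f := by
  rw [prodMapLeft, pullback.map, pullback.lift_fst]

theorem prodMapLeft_snd {X₁ X' W : Scheme.{u}} (x : X₁ ⟶ Spec (CommRingCat.of K))
    (x' : X' ⟶ Spec (CommRingCat.of K)) (w : W ⟶ Spec (CommRingCat.of K)) (f : X' ⟶ X₁)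
    (hf : f ≫ x = x') :
    prodMapLeft x x' w f hf ≫ pullback.snd x w = pullback.snd x' w := by
  rw [prodMapLeft, pullback.map, pullback.lift_snd, Category.comp_id]

/-- The restriction of the universal class to `Y × (A × A)` for `f : Y ⟶ A`, in terms of
points. -/
theorem map_prodMapLeft_N₀ {Y : Scheme.{u}} (f : Y ⟶ X.A) (M : T.Pic X.A)
    (a b c : X.SPt (prodStr (f ≫ X.str) (prodStr X.str X.str)))
    (ha : a.1 = pullback.fst _ _ ≫ f)
    (hb : b.1 = pullback.snd _ _ ≫ pullback.fst _ _)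
    (hc : c.1 = pullback.snd _ _ ≫ pullback.snd _ _) :
    T.map (prodMapLeft X.str (f ≫ X.str) (prodStr X.str X.str) f rfl) (N₀ X T M) =
      X.theta T (prodStr (f ≫ X.str) (prodStr X.str X.str)) a b c M := by
  refine map_N₀ _ _ ?_ a b c ?_ ?_ ?_ M
  · show prodMapLeft _ _ _ f rfl ≫ pullback.fst _ _ ≫ X.str = pullback.fst _ _ ≫ f ≫ X.str
    rw [← Category.assoc, prodMapLeft_fst, Category.assoc]
  · show prodMapLeft _ _ _ f rfl ≫ pullback.fst _ _ = a.1
    rw [prodMapLeft_fst, ha]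
  · show prodMapLeft _ _ _ f rfl ≫ pullback.snd _ _ ≫ pullback.fst _ _ = b.1
    rw [← Category.assoc, prodMapLeft_snd, hb]
  · show prodMapLeft _ _ _ f rfl ≫ pullback.snd _ _ ≫ pullback.snd _ _ = c.1
    rw [← Category.assoc, prodMapLeft_snd, hc]

section Pts

variable (X)

/-- The three restricted universal points on `Y × (A × A)`. -/
def aOf {Y : Scheme.{u}} (f : Y ⟶ X.A) : X.SPt (prodStr (f ≫ X.str) (prodStr X.str X.str)) :=
  ⟨pullback.fst _ _ ≫ f, by rw [Category.assoc]⟩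

def bOf {Y : Scheme.{u}} (f : Y ⟶ X.A) : X.SPt (prodStr (f ≫ X.str) (prodStr X.str X.str)) :=
  ⟨pullback.snd _ _ ≫ pullback.fst _ _, by
    rw [Category.assoc]
    exact (pullback.condition (f := f ≫ X.str) (g := prodStr X.str X.str)).symm⟩

def cOf {Y : Scheme.{u}} (f : Y ⟶ X.A) : X.SPt (prodStr (f ≫ X.str) (prodStr X.str X.str)) :=
  ⟨pullback.snd _ _ ≫ pullback.snd _ _, by
    rw [Category.assoc, ← pullback.condition (f := X.str) (g := X.str)]
    exact (pullback.condition (f := f ≫ X.str) (g := prodStr X.str X.str)).symm⟩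

end Pts

theorem map_prodMapLeft_N₀' {Y : Scheme.{u}} (f : Y ⟶ X.A) (M : T.Pic X.A) :
    T.map (prodMapLeft X.str (f ≫ X.str) (prodStr X.str X.str) f rfl) (N₀ X T M) =
      X.theta T (prodStr (f ≫ X.str) (prodStr X.str X.str)) (aOf X f) (bOf X f) (cOf X f) M :=
  map_prodMapLeft_N₀ f M _ _ _ rfl rfl rfl

theorem transl_str (t : X.Pt) : X.transl t ≫ X.str = X.str :=
  (X.law.mul X.str RelativeGroupLaw.idPoint (X.const X.str t)).2

/-- If the universal class vanishes over `U₀ × (A × A)` and `t ∈ H_M`, then it vanishes over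
`T_t⁻¹(U₀) × (A × A)`. -/
theorem map_N₀_preimage (hT : T.IsLocal) (M : T.Pic X.A) (t : X.Pt) (ht : X.InH T M t)
    (U₀ : X.A.Opens)
    (h0 : T.map (prodMapLeft X.str (U₀.ι ≫ X.str) (prodStr X.str X.str) U₀.ι rfl)
      (N₀ X T M) = 0) :
    T.map (prodMapLeft X.str (((X.transl t) ⁻¹ᵁ U₀).ι ≫ X.str) (prodStr X.str X.str)
      ((X.transl t) ⁻¹ᵁ U₀).ι rfl) (N₀ X T M) = 0 := by
  set V : X.A.Opens := (X.transl t) ⁻¹ᵁ U₀ with hV
  have hres : (X.transl t ∣_ U₀) ≫ U₀.ι = V.ι ≫ X.transl t := morphismRestrict_ι _ _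
  rw [map_prodMapLeft_N₀' V.ι M, ← AbVar.theta_mul_const hT M ht]
  -- the map `τ : V × W ⟶ U₀ × W`
  have hτ1 : (V.ι ≫ X.str) ≫ 𝟙 _ = (X.transl t ∣_ U₀) ≫ U₀.ι ≫ X.str := by
    rw [Category.comp_id, ← Category.assoc, hres, Category.assoc, transl_str]
  have hτ2 : prodStr X.str X.str ≫ 𝟙 _ = 𝟙 _ ≫ prodStr X.str X.str := by
    rw [Category.comp_id, Category.id_comp]
  let τ : pullback (V.ι ≫ X.str) (prodStr X.str X.str) ⟶
      pullback (U₀.ι ≫ X.str) (prodStr X.str X.str) :=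
    pullback.map _ _ _ _ (X.transl t ∣_ U₀) (𝟙 _) (𝟙 _) hτ1 hτ2
  have hτfst : τ ≫ pullback.fst _ _ = pullback.fst _ _ ≫ (X.transl t ∣_ U₀) :=
    pullback.lift_fst _ _ _
  have hτsnd : τ ≫ pullback.snd _ _ = pullback.snd _ _ := by
    show pullback.map _ _ _ _ _ _ _ _ _ ≫ _ = _
    rw [pullback.map, pullback.lift_snd, Category.comp_id]
  have key : T.map (τ ≫ prodMapLeft X.str (U₀.ι ≫ X.str) (prodStr X.str X.str) U₀.ι rfl)
      (N₀ X T M) =
      X.theta T (prodStr (V.ι ≫ X.str) (prodStr X.str X.str))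
        (X.law.mul _ (aOf X V.ι) (X.const _ t)) (bOf X V.ι) (cOf X V.ι) M := by
    refine map_N₀ _ _ ?_ _ _ _ ?_ ?_ ?_ M
    · show (τ ≫ prodMapLeft _ _ _ U₀.ι rfl) ≫ pullback.fst _ _ ≫ X.str =
        pullback.fst _ _ ≫ V.ι ≫ X.str
      rw [Category.assoc, ← Category.assoc (prodMapLeft _ _ _ _ _), prodMapLeft_fst,
        Category.assoc, ← Category.assoc τ, hτfst, Category.assoc, ← Category.assoc _ U₀.ι,
        hres, Category.assoc, transl_str]
    · show (τ ≫ prodMapLeft _ _ _ U₀.ι rfl) ≫ pullback.fst _ _ = _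
      rw [← AbVar.comp_transl, Category.assoc, prodMapLeft_fst, ← Category.assoc, hτfst,
        Category.assoc, hres]
      rfl
    · show (τ ≫ prodMapLeft _ _ _ U₀.ι rfl) ≫ pullback.snd _ _ ≫ pullback.fst _ _ = _
      rw [Category.assoc, ← Category.assoc (prodMapLeft _ _ _ _ _), prodMapLeft_snd,
        ← Category.assoc, hτsnd]
      rfl
    · show (τ ≫ prodMapLeft _ _ _ U₀.ι rfl) ≫ pullback.snd _ _ ≫ pullback.snd _ _ = _
      rw [Category.assoc, ← Category.assoc (prodMapLeft _ _ _ _ _), prodMapLeft_snd,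
        ← Category.assoc, hτsnd]
      rfl
  rw [← key, T.map_comp, h0, map_zero]

end

end Fermat.Agent.S26.H70

end
-- ===== PACK-END S26/H70/CubeTransl.lean

-- ===== PACK-BEGIN Ribet/H384/RamTwoCore.lean
section


/-!
# Ramification at `2`, abstract core (helper384)

* `NodeModel.one_le_of_val_zpow` : a point of odd prime order `n` of a node model whose
  `x`-coordinate has valuation in `g ^ ℤ`, where `v a = g ^ t` and `n ∤ 2 t`, lies in `E⁰`.
* `dblX_char2`, `dblY_char2` : the duplication formula on `y² + x y = x³ + a x²` in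
  characteristic `2`: `2 (x, y) = (x², y² + a x²)`.
-/

set_option autoImplicit false
set_option linter.unusedSectionVars false
set_option linter.unusedVariables false

namespace Fermat.Agent.Ribet.H384

open WeierstrassCurve WeierstrassCurve.Affine
open Fermat.Agent.S13.H365

section comp

variable {K : Type*} [Field K] [DecidableEq K] {Γ₀ : Type*} [LinearOrderedCommGroupWithZero Γ₀]
  {v : Valuation K Γ₀} {W : Affine K}

/-- **Step A.** If `v a = g ^ t`, `n` is an odd prime not dividing `2 t`, and the `x`-coordinate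
(relative to the node) of an `n`-torsion point has valuation in `g ^ ℤ`, then the point has
nonsingular reduction. -/
theorem one_le_of_val_zpow (M : NodeModel v W) {n : ℕ} (hn : n.Prime) (hodd : Odd n)
    {g : Γ₀} (hg0 : g ≠ 0) (hg1 : g < 1) {t : ℤ} (ha : v M.a = g ^ t)
    (hnt : ¬ (n : ℤ) ∣ 2 * t) {x y : K} (h : W.Nonsingular x y)
    (hP : n • Point.some x y h = 0) {m : ℤ} (hm : v (x - M.e) = g ^ m) :
    1 ≤ v (x - M.e) := by
  by_contra hlt
  rw [not_le] at hlt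
  obtain ⟨hlo, j, hj⟩ := M.torsion_near_node hodd h hP hlt
  have hinj := (zpow_right_strictAnti₀ (zero_lt_iff.mpr hg0) hg1).injective
  -- `m * n = t * (2 * j)`
  have e1 : g ^ (m * (n : ℤ)) = g ^ (t * ((2 * j : ℕ) : ℤ)) := by
    rw [zpow_mul, zpow_mul, zpow_natCast, zpow_natCast, ← hm, ← ha, hj]
  have e2 : m * (n : ℤ) = t * ((2 * j : ℕ) : ℤ) := hinj e1
  push_cast at e2
  have hnp : Prime (n : ℤ) := Nat.prime_iff_prime_int.mp hn
  have hdvd : (n : ℤ) ∣ 2 * t * (j : ℤ) := ⟨m, by linarith⟩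
  rcases hnp.dvd_or_dvd hdvd with h1 | h1
  · exact hnt h1
  obtain ⟨j', hj'⟩ := h1
  have hn0 : (n : ℤ) ≠ 0 := by exact_mod_cast hn.ne_zero
  have e3 : m = 2 * t * j' := by
    have : m * (n : ℤ) = (2 * t * j') * (n : ℤ) := by rw [e2, hj']; ring
    exact mul_right_cancel₀ hn0 this
  have hj'nn : 0 ≤ j' := by
    by_contra hneg
    rw [not_le] at hneg
    have hjn : (0 : ℤ) ≤ (j : ℤ) := Int.natCast_nonneg j
    have hnpos : (0 : ℤ) < (n : ℤ) := by exact_mod_cast hn.pos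
    have : (n : ℤ) * j' < 0 := mul_neg_of_pos_of_neg hnpos hneg
    linarith
  obtain ⟨i, rfl⟩ := Int.eq_ofNat_of_zero_le hj'nn
  -- `v (x - e) = (v a ^ 2) ^ i`
  have e4 : v (x - M.e) = (v M.a ^ 2) ^ i := by
    rw [hm, e3, ha, ← zpow_natCast (g ^ t) 2, ← zpow_mul, ← zpow_natCast _ i, ← zpow_mul]
    congr 1
    push_cast
    ring
  have h0 : v M.a ≠ 0 := (Valuation.ne_zero_iff v).mpr M.ha0
  have hpos : 0 < v M.a := zero_lt_iff.mpr h0
  rcases Nat.eq_zero_or_pos i with hi | hi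
  · rw [hi, pow_zero] at e4
    exact hlt.ne e4
  · have hsq1 : v M.a ^ 2 < 1 := pow_lt_one₀ zero_le M.ha (by norm_num)
    have h1 : (v M.a ^ 2) ^ i ≤ v M.a ^ 2 := pow_le_of_le_one zero_le hsq1.le hi.ne'
    have h2 : v M.a ^ 2 < v M.a := by
      calc v M.a ^ 2 = v M.a * v M.a := pow_two _
        _ < v M.a * 1 := mul_lt_mul_of_pos_left M.ha hpos
        _ = v M.a := mul_one _
    rw [← e4] at h1
    exact absurd (h1.trans_lt h2) (not_lt.mpr hlo.le)

end comp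

section dbl

variable {κ : Type*} [Field κ]

/-- Duplication on `y² + x y = x³ + a x²` in characteristic `2`, `x`-coordinate. -/
lemma dblX_char2 {X Y a L : κ} (h2 : (2 : κ) = 0) (hX : X ≠ 0)
    (hL : L * (2 * Y + X) = 3 * X ^ 2 + 2 * a * X - Y)
    (hE : Y ^ 2 + X * Y = X ^ 3 + a * X ^ 2) :
    L ^ 2 + L - a - X - X = X ^ 2 := by
  have key : X ^ 2 * (L ^ 2 + L - a - X - X - X ^ 2) = 0 := by
    linear_combination (L * (2 * Y + X) + (3 * X ^ 2 + 2 * a * X - Y) - 4 * Y * L + X) * hL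
      + hE + (-(X * Y) - X ^ 2 * Y + 2 * (X ^ 2 - Y) * (X ^ 2 + a * X)
        + 2 * (X ^ 2 + a * X) ^ 2 + X * (X ^ 2 + a * X)
        - 2 * Y * L * (3 * X ^ 2 + 2 * a * X - Y) + 2 * Y ^ 2 * L ^ 2 - X * Y * L) * h2
  rcases mul_eq_zero.mp key with h | h
  · exact absurd (pow_eq_zero_iff (two_ne_zero' ℕ) |>.mp h) hX
  · linear_combination h

end dbl

end Fermat.Agent.Ribet.H384

end
-- ===== PACK-END Ribet/H384/RamTwoCore.lean

-- ===== PACK-BEGIN S31/H22/Final.lean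
section







/-!
# S31: final glue (row-lead helper22)

`result_of_S30_SS` : the frozen statement S31 from the two remaining inputs
* `h30 : S30Statement`  — the frozen statement S30 (row S30, Galois tower);
* `hSS` : the anemic Hecke algebra is reduced (piece SS),
and `result_of_S30_petersson`, the same with SS replaced by its analytic core `PeterssonData`.

Everything else is on main: CHEB Tier 1 (`Lib.Cheb.H943.frobeniusDivisionStatement`), S22,
piece A (`H202.trace_criterion`), piece D (`H262.pts_of_reduced`), pieces B, C, E (`H22`).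
-/

set_option autoImplicit false

namespace Fermat.Agent.S31.H22

open Fermat.Agent.S31

/-- piece SS as a `Prop` -/
def SSStatement : Prop :=
  ∀ (N : ℕ) [NeZero N] (S : Set ℕ), (∀ q : ℕ, q.Prime → q ∣ N → q ∈ S) →
    IsReduced (CuspForm.heckeAlgebra N 2 S)

theorem ssStatement_of_petersson (hPet : ∀ (N : ℕ) [NeZero N], Nonempty (PeterssonData N)) :
    SSStatement :=
  fun N _ S hNS => isReduced_of_petersson (hPet N).some S hNS

section

variable {p : ℕ} {N : ℕ} [NeZero N] {S : Finset ℕ}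
  {𝒪 : Type} [CommRing 𝒪] [IsDomain 𝒪] [IsDiscreteValuationRing 𝒪]
  [IsAdicComplete (IsLocalRing.maximalIdeal 𝒪) 𝒪]
  {θ : CuspForm.heckeAlgebra N 2 (↑S : Set ℕ) →+* IsLocalRing.ResidueField 𝒪}
  {T : Type} [CommRing T] [IsLocalRing T] [IsNoetherianRing T]
  [IsAdicComplete (IsLocalRing.maximalIdeal T) T] [Algebra 𝒪 T] [IsLocalHom (algebraMap 𝒪 T)]
  [Module.Finite 𝒪 T] [Module.Free 𝒪 T]

theorem result_of_S30_SS (h30 : S30Statement) (hSS : SSStatement) (hp : p.Prime)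
    (hp𝒪 : (p : 𝒪) ∈ IsLocalRing.maximalIdeal 𝒪) (hpS : p ∈ S)
    (hNS : ∀ q : ℕ, q.Prime → q ∣ N → q ∈ S)
    (H : CuspForm.HeckeGaloisRepDatum N (↑S : Set ℕ) 𝒪 θ T)
    (q : ℕ) (hq : q.Prime) (hqS : q ∉ S) :
    H.ρ.IsUnramifiedAt q := by
  have hfin : Module.Finite ℤ (CuspForm.heckeAlgebra N 2 (↑S : Set ℕ)) :=
    Fermat.Agent.S22.result N 2 (↑S : Set ℕ)
  have hred : IsReduced (CuspForm.heckeAlgebra N 2 (↑S : Set ℕ)) :=
    hSS N (↑S : Set ℕ) (fun q hq hqN => by simpa using hNS q hq hqN)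
  have hPTS : PTS p (CuspForm.heckeAlgebra N 2 (↑S : Set ℕ)) :=
    H262.pts_of_reduced p hp _
  exact unramified_of_parts_of_criterion h30
    Fermat.Agent.Lib.Cheb.H943.frobeniusDivisionStatement hp hp𝒪 hpS hNS hPTS H
    (fun τ h => H202.trace_criterion H.ρ H.residual_absIrr τ h) q hq hqS

theorem result_of_S30_petersson (h30 : S30Statement)
    (hPet : ∀ (N : ℕ) [NeZero N], Nonempty (PeterssonData N)) (hp : p.Prime)
    (hp𝒪 : (p : 𝒪) ∈ IsLocalRing.maximalIdeal 𝒪) (hpS : p ∈ S)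
    (hNS : ∀ q : ℕ, q.Prime → q ∣ N → q ∈ S)
    (H : CuspForm.HeckeGaloisRepDatum N (↑S : Set ℕ) 𝒪 θ T)
    (q : ℕ) (hq : q.Prime) (hqS : q ∉ S) :
    H.ρ.IsUnramifiedAt q :=
  result_of_S30_SS h30 (ssStatement_of_petersson hPet) hp hp𝒪 hpS hNS H q hq hqS

end

end Fermat.Agent.S31.H22

end
-- ===== PACK-END S31/H22/Final.lean

-- ===== PACK-BEGIN S36/Eng/Skel.lean
section


/-!
# S36 ENGINE — skeleton, part 1 (architect helper996): `ALG3 + MOD3 ⟹ level engine`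

`levelInertia_of_alg3_model3 : Alg3Statement → Model3Statement → LevelInertiaStatement`
(sorry-free).  The leaves are hypotheses.
-/

set_option autoImplicit false
set_option linter.style.haveILetI false
set_option linter.unusedSectionVars false
set_option synthInstance.maxHeartbeats 400000
set_option maxHeartbeats 1600000

noncomputable section

namespace Fermat.Agent.S36.Eng

open ModularCurve AlgebraicCurve

/-- `q` lies in the maximal ideal of `R_E = P ∩ E`. -/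
theorem natCast_mem_maximalIdeal_RE {P : ValuationSubring A2.Qb} (E : IntermediateField ℚ A2.Qb)
    {q : ℕ} (hP : P.LiesOverPrime q) :
    ((q : ℕ) : ↥(A2.RE P E)) ∈ IsLocalRing.maximalIdeal ↥(A2.RE P E) := by
  rw [IsLocalRing.mem_maximalIdeal, mem_nonunits_iff]
  intro hu
  obtain ⟨u, hu⟩ := hu
  have h1 : ((q : ℕ) : ↥(A2.RE P E)) * ((u⁻¹ : (↥(A2.RE P E))ˣ) : ↥(A2.RE P E)) = 1 := by
    rw [← hu]; exact u.mul_inv
  have h2 : ((q : ℕ) : A2.Qb) * (((((u⁻¹ : (↥(A2.RE P E))ˣ) : ↥(A2.RE P E)) : E) : A2.Qb)) = 1 := by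
    have := congrArg (fun z : ↥(A2.RE P E) => (((z : E)) : A2.Qb)) h1
    simpa using this
  have hmem : (((((u⁻¹ : (↥(A2.RE P E))ˣ) : ↥(A2.RE P E)) : E) : A2.Qb)) ∈ P :=
    ((u⁻¹ : (↥(A2.RE P E))ˣ) : ↥(A2.RE P E)).2
  have hval : P.valuation ((q : ℕ) : A2.Qb) < 1 :=
    (ValuationSubring.mem_nonunits_iff P).1 hP
  have hval2 : P.valuation (((((u⁻¹ : (↥(A2.RE P E))ˣ) : ↥(A2.RE P E)) : E) : A2.Qb)) ≤ 1 :=
    (ValuationSubring.valuation_le_one_iff P _).2 hmem
  have : P.valuation (1 : A2.Qb) < 1 := by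
    rw [← h2, map_mul]
    calc P.valuation ((q : ℕ) : A2.Qb) * P.valuation _
        ≤ P.valuation ((q : ℕ) : A2.Qb) * 1 := by gcongr
      _ < 1 := by rwa [mul_one]
  rw [map_one] at this
  exact lt_irrefl _ this

/-- **Skeleton, part 1.**  `ALG3 + MOD3 ⟹` the engine at every unramified good level, at neat
levels. -/
theorem levelInertia_of_alg3_model3 (hALG : Alg3Statement) (hMOD : Model3Statement) :
    LevelInertiaStatement := by
  intro P E M q _ _ _ hq hqM hP hE hneat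
  haveI : IsDiscreteValuationRing ↥(A2.RE P E) := hE.1.dvr
  haveI : HenselianLocalRing ↥(A2.RE P E) := hE.1.henselian
  haveI : IsAlgClosed (IsLocalRing.ResidueField ↥(A2.RE P E)) := hE.1.algClosed
  obtain ⟨w, hw⟩ := IsDiscreteValuationRing.exists_irreducible ↥(A2.RE P E)
  obtain ⟨x, x', V₁, V₂, V₃, V₁', V₂', hctx⟩ := hMOD P E M q hq hqM hP hE hneat w hw
  exact hALG (R := ↥(A2.RE P E)) (E := E) (F := ↥(A2.Mod.FE E (M * q * q)))
    (F' := ↥(A2.Mod.FE E (M * q))) w hw q hq (natCast_mem_maximalIdeal_RE E hP)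
    (A2.Mod.αE E (M * q) q) (A2.Mod.βE E (M * q) q) x x' V₁ V₂ V₃ V₁' V₂' hctx

end Fermat.Agent.S36.Eng

end

end
-- ===== PACK-END S36/Eng/Skel.lean

-- ===== PACK-BEGIN S29/H871/Gauss.lean
section





/-!
# S29 / E3 (descent `ℂ → ℚ̄`), part 1: the Gauss extension of a rational place

`K ⊆ K'` fields, `F/K` a field, `A = O_v` the valuation ring of a place `v` of `F/K` whose
residue field is `K`.  We study the ring `A ⊗[K] K'`:

* `epsHom v hv : A ⊗[K] K' →ₐ[K] K'`  ("reduction modulo `π`"),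
* `epsHom_eq_zero_iff` : its kernel is generated by `π ⊗ 1`,
* `exists_pow_mul_eps_ne_zero` : every nonzero element is `(π ⊗ 1)^n * y` with `ε y ≠ 0`.

(helper871)
-/

set_option autoImplicit false

noncomputable section

namespace Fermat.Agent.S29.H871

open AlgebraicCurve TensorProduct

variable {K F : Type*} [Field K] [Field F] [Algebra K F]

/-- A place is *rational* if every integral element is congruent to a constant modulo the
maximal ideal (automatic when `K` is algebraically closed and `F/K` is a function field). -/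
def IsRationalPlace (v : Place K F) : Prop :=
  ∀ f ∈ v.toValuationSubring, ∃ a : K, f - algebraMap K F a ∈ v.toValuationSubring.nonunits

theorem isRationalPlace_of_isAlgClosed [IsAlgClosed K] (v : Place K F) {x : F}
    (hx : Transcendental K x) [FiniteDimensional (IntermediateField.adjoin K {x}) F] :
    IsRationalPlace v :=
  fun _ hf => Fermat.Agent.S24.FF.exists_const_sub_mem_nonunits v hx hf

namespace IsRationalPlace

variable {v : Place K F} (hv : IsRationalPlace v)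

include hv in
theorem algebraMap_residue_bijective :
    Function.Bijective (algebraMap K (IsLocalRing.ResidueField v.toValuationSubring)) := by
  refine ⟨(algebraMap K (IsLocalRing.ResidueField v.toValuationSubring)).injective, ?_⟩
  intro c
  obtain ⟨f, rfl⟩ := IsLocalRing.residue_surjective c
  obtain ⟨a, ha⟩ := hv f f.2
  refine ⟨a, ?_⟩
  have hmem : f - algebraMap K v.toValuationSubring a ∈
      IsLocalRing.maximalIdeal v.toValuationSubring := by
    rw [← ValuationSubring.coe_mem_nonunits_iff]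
    exact ha
  have h0 := (IsLocalRing.residue_eq_zero_iff _).mpr hmem
  rw [map_sub, sub_eq_zero] at h0
  rw [h0]
  rfl

/-- The residue field of a rational place is `K`. -/
def residueEquiv : K ≃ₐ[K] IsLocalRing.ResidueField v.toValuationSubring :=
  AlgEquiv.ofBijective (Algebra.ofId K _) hv.algebraMap_residue_bijective

/-- The value of an integral element at a rational place. -/
def res : v.toValuationSubring →ₐ[K] K :=
  (hv.residueEquiv.symm : IsLocalRing.ResidueField v.toValuationSubring →ₐ[K] K).comp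
    (IsScalarTower.toAlgHom K v.toValuationSubring (IsLocalRing.ResidueField v.toValuationSubring))

theorem res_eq_zero_iff (a : v.toValuationSubring) :
    hv.res a = 0 ↔ a ∈ IsLocalRing.maximalIdeal v.toValuationSubring := by
  unfold res
  rw [AlgHom.comp_apply]
  erw [EmbeddingLike.map_eq_zero_iff (f := hv.residueEquiv.symm)]
  exact IsLocalRing.residue_eq_zero_iff a

theorem res_ne_zero_iff (a : v.toValuationSubring) : hv.res a ≠ 0 ↔ IsUnit a := by
  rw [Ne, res_eq_zero_iff, IsLocalRing.mem_maximalIdeal, mem_nonunits_iff, not_not]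

end IsRationalPlace

section Eps

variable {K' : Type*} [Field K'] [Algebra K K']
variable {v : Place K F} (hv : IsRationalPlace v)

/-- Reduction `A ⊗[K] K' → K'`, `a ⊗ c ↦ a(v) c`. -/
def epsHom : v.toValuationSubring ⊗[K] K' →ₐ[K] K' :=
  Algebra.TensorProduct.productMap ((Algebra.ofId K K').comp hv.res) (AlgHom.id K K')

@[simp]
theorem epsHom_tmul (a : v.toValuationSubring) (c : K') :
    epsHom hv (a ⊗ₜ[K] c) = algebraMap K K' (hv.res a) * c := by
  simp [epsHom, Algebra.ofId_apply]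

theorem epsHom_sum_basis {I : Type*} (𝒞 : Module.Basis I K K') (b : I →₀ v.toValuationSubring) :
    epsHom hv (b.sum fun i m => m ⊗ₜ[K] 𝒞 i) = b.sum fun i m => hv.res m • 𝒞 i := by
  rw [Finsupp.sum, map_sum, Finsupp.sum]
  refine Finset.sum_congr rfl fun i _ => ?_
  rw [epsHom_tmul, Algebra.smul_def]

theorem res_eq_zero_of_epsHom_sum_eq_zero {I : Type*} (𝒞 : Module.Basis I K K')
    (b : I →₀ v.toValuationSubring)
    (h : epsHom hv (b.sum fun i m => m ⊗ₜ[K] 𝒞 i) = 0) (i : I) : hv.res (b i) = 0 := by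
  classical
  rw [epsHom_sum_basis] at h
  have hli := 𝒞.linearIndependent
  rw [linearIndependent_iff'] at hli
  by_cases hi : i ∈ b.support
  · exact hli b.support (fun i => hv.res (b i)) h i hi
  · rw [Finsupp.notMem_support_iff.mp hi, map_zero]

/-- The element `π ⊗ 1`. -/
abbrev piT (π : v.toValuationSubring) : v.toValuationSubring ⊗[K] K' := π ⊗ₜ[K] (1 : K')

theorem piT_pow (π : v.toValuationSubring) (n : ℕ) :
    (piT (K' := K') π) ^ n = (π ^ n) ⊗ₜ[K] (1 : K') := by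
  rw [piT, Algebra.TensorProduct.tmul_pow, one_pow]

theorem piT_pow_mul_sum {I : Type*} (𝒞 : I → K') (π : v.toValuationSubring) (n : ℕ)
    (s : Finset I) (c : I → v.toValuationSubring) :
    (piT (K' := K') π) ^ n * ∑ i ∈ s, c i ⊗ₜ[K] 𝒞 i = ∑ i ∈ s, (π ^ n * c i) ⊗ₜ[K] 𝒞 i := by
  rw [piT_pow, Finset.mul_sum]
  refine Finset.sum_congr rfl fun i _ => ?_
  rw [Algebra.TensorProduct.tmul_mul_tmul, one_mul]

theorem epsHom_piT {π : v.toValuationSubring} (hπ : Irreducible π) :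
    epsHom hv (piT (K' := K') π) = 0 := by
  rw [piT, epsHom_tmul, mul_one]
  have : hv.res π = 0 := by
    rw [hv.res_eq_zero_iff, IsLocalRing.mem_maximalIdeal, mem_nonunits_iff]
    exact hπ.not_isUnit
  rw [this, map_zero]

/-- **Kernel of the reduction**: `ε x = 0` iff `π ⊗ 1` divides `x`. -/
theorem exists_eq_piT_mul_of_epsHom_eq_zero {π : v.toValuationSubring} (hπ : Irreducible π)
    {x : v.toValuationSubring ⊗[K] K'} (hx : epsHom hv x = 0) :
    ∃ y, x = piT π * y := by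
  classical
  let 𝒞 := Module.Basis.ofVectorSpace K K'
  obtain ⟨b, rfl⟩ := TensorProduct.eq_repr_basis_right 𝒞 x
  have hb : ∀ i, ∃ c : v.toValuationSubring, b i = π * c := by
    intro i
    have h0 := res_eq_zero_of_epsHom_sum_eq_zero hv 𝒞 b hx i
    rw [hv.res_eq_zero_iff, hπ.maximalIdeal_eq, Ideal.mem_span_singleton] at h0
    exact h0
  choose c hc using hb
  refine ⟨∑ i ∈ b.support, c i ⊗ₜ[K] 𝒞 i, ?_⟩
  have := piT_pow_mul_sum (K := K) 𝒞 π 1 b.support c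
  rw [pow_one] at this
  rw [this, Finsupp.sum]
  refine Finset.sum_congr rfl fun i _ => ?_
  rw [pow_one, ← hc i]

theorem epsHom_eq_zero_iff {π : v.toValuationSubring} (hπ : Irreducible π)
    {x : v.toValuationSubring ⊗[K] K'} :
    epsHom hv x = 0 ↔ ∃ y, x = piT π * y := by
  refine ⟨exists_eq_piT_mul_of_epsHom_eq_zero hv hπ, ?_⟩
  rintro ⟨y, rfl⟩
  rw [map_mul, epsHom_piT hv hπ, zero_mul]

omit hv in
/-- Separatedness: an element divisible by all powers of `π ⊗ 1` vanishes. -/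
theorem eq_zero_of_forall_piT_pow_dvd {π : v.toValuationSubring} (hπ : Irreducible π)
    {x : v.toValuationSubring ⊗[K] K'} (hx : ∀ n : ℕ, ∃ y, x = piT π ^ n * y) : x = 0 := by
  classical
  let 𝒞 := Module.Basis.ofVectorSpace K K'
  obtain ⟨b, rfl⟩ := TensorProduct.eq_repr_basis_right 𝒞 x
  have hb : b = 0 := by
    refine Finsupp.ext fun i => ?_
    by_contra hbi
    have hbi' : b i ≠ 0 := hbi
    obtain ⟨n, hn⟩ := FiniteMultiplicity.of_not_isUnit hπ.not_isUnit hbi'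
    obtain ⟨y, hy⟩ := hx (n + 1)
    obtain ⟨c, rfl⟩ := TensorProduct.eq_repr_basis_right 𝒞 y
    apply hn
    -- compare coordinates
    have h1 : (piT (K' := K') π) ^ (n + 1) * (c.sum fun i m => m ⊗ₜ[K] 𝒞 i)
        = (c.mapRange (fun m => π ^ (n + 1) * m) (mul_zero _)).sum fun i m => m ⊗ₜ[K] 𝒞 i := by
      rw [Finsupp.sum, piT_pow_mul_sum, Finsupp.sum_mapRange_index (by intro i; simp)]
      rfl
    rw [h1] at hy
    have h3 : b = c.mapRange (fun m => π ^ (n + 1) * m) (mul_zero _) := by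
      apply (TensorProduct.equivFinsuppOfBasisRight (M := v.toValuationSubring) 𝒞).symm.injective
      rw [TensorProduct.equivFinsuppOfBasisRight_symm_apply,
        TensorProduct.equivFinsuppOfBasisRight_symm_apply]
      exact hy
    rw [h3, Finsupp.mapRange_apply]
    exact dvd_mul_right _ _
  rw [hb, Finsupp.sum_zero_index]

/-- **Gauss decomposition**: every nonzero element of `A ⊗[K] K'` is `(π ⊗ 1)^n * y`
with `ε y ≠ 0`. -/
theorem exists_pow_mul_eps_ne_zero {π : v.toValuationSubring} (hπ : Irreducible π)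
    {x : v.toValuationSubring ⊗[K] K'} (hx : x ≠ 0) :
    ∃ (n : ℕ) (y : v.toValuationSubring ⊗[K] K'), x = piT π ^ n * y ∧ epsHom hv y ≠ 0 := by
  by_contra hcon
  have hcon : ∀ (n : ℕ) (y : v.toValuationSubring ⊗[K] K'), x = piT π ^ n * y →
      epsHom hv y = 0 := by
    intro n y hy
    by_contra h
    exact hcon ⟨n, y, hy, h⟩
  apply hx
  apply eq_zero_of_forall_piT_pow_dvd hπ
  intro n
  induction n with
  | zero => exact ⟨x, by rw [pow_zero, one_mul]⟩
  | succ n ih =>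
    obtain ⟨y, hy⟩ := ih
    obtain ⟨z, hz⟩ := exists_eq_piT_mul_of_epsHom_eq_zero hv hπ (hcon n y hy)
    exact ⟨z, by rw [hy, hz, pow_succ, mul_assoc]⟩

end Eps

end Fermat.Agent.S29.H871

end
end
-- ===== PACK-END S29/H871/Gauss.lean

-- ===== PACK-BEGIN S36/Mod3/H189/ResAbs.lean
section


/-!
# S36 / MOD3, cell CHART (helper189) — residue degree one in chart form, abstract part

Vocabulary of `S36/Eng/Spec.lean`.  Mathlib only.

* `normalAlong_of_closed` : a chart `B ⊆ V` whose centre `p = B ∩ 𝔪_V` has an integrally closed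
  quotient `B / p`, with `V` the local ring of `B` at `p` (`hfrac`), is `Eng.NormalAlong B V`.
* `res_chart_of_normalAlong` : the chart form of residue degree one.  `V | V'` along `α`,
  `B ⊆ V` integral over `α B'`, `B'` normal along `V'`, residue degree one at the level of the
  valuation rings  ⟹  `∀ b ∈ B, ∃ b' ∈ B', b - α b' ∈ 𝔪_V`
  (the shape of the fields `res_α₁`, `res_α₂`, `res_β₃`, `res_β₂` of `Eng.TripleCtx`).
-/

set_option autoImplicit false
set_option linter.style.haveILetI false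
set_option linter.unusedSectionVars false

noncomputable section

namespace Fermat.Agent.S36.Mod3.H189

open Polynomial
open Fermat.Agent.S36.Eng (NormalAlong)

section Nonunits

variable {K : Type*} [Field K]

theorem mul_mem_nonunits_left (V : ValuationSubring K) {x y : K} (hx : x ∈ V)
    (hy : y ∈ V.nonunits) : x * y ∈ V.nonunits := by
  rw [ValuationSubring.mem_nonunits_iff] at hy ⊢
  rw [map_mul]
  calc V.valuation x * V.valuation y ≤ 1 * V.valuation y := by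
        gcongr
        exact (V.valuation_le_one_iff x).2 hx
    _ < 1 := by rwa [one_mul]

theorem mul_mem_nonunits_right (V : ValuationSubring K) {x y : K} (hx : x ∈ V.nonunits)
    (hy : y ∈ V) : x * y ∈ V.nonunits := by
  rw [mul_comm]
  exact mul_mem_nonunits_left V hy hx

theorem nonunits_subset (V : ValuationSubring K) {x : K} (hx : x ∈ V.nonunits) : x ∈ V :=
  (V.valuation_le_one_iff x).1 ((ValuationSubring.mem_nonunits_iff V).1 hx).le

theorem inv_mem_of_not_mem_nonunits (V : ValuationSubring K) {s : K} (hs : s ∉ V.nonunits) :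
    s⁻¹ ∈ V := by
  rw [ValuationSubring.mem_nonunits_iff_or, not_or, not_not] at hs
  exact hs.2

theorem ne_zero_of_not_mem_nonunits (V : ValuationSubring K) {s : K} (hs : s ∉ V.nonunits) :
    s ≠ 0 := by
  rw [ValuationSubring.mem_nonunits_iff_or, not_or, not_not] at hs
  exact hs.1

/-- Nonunits of the pull-back of a valuation ring along a field homomorphism. -/
theorem mem_nonunits_comap_iff {K' : Type*} [Field K'] (V : ValuationSubring K) (φ : K' →+* K)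
    (f : K') : f ∈ (V.comap φ).nonunits ↔ φ f ∈ V.nonunits := by
  rw [ValuationSubring.mem_nonunits_iff_or, ValuationSubring.mem_nonunits_iff_or,
    ValuationSubring.mem_comap]
  constructor
  · rintro (h | h)
    · left
      rw [h, map_zero]
    · right
      intro h'
      apply h
      rw [map_inv₀]
      exact h'
  · rintro (h | h)
    · left
      exact (map_eq_zero φ).mp h
    · right
      intro h'
      apply h
      rwa [map_inv₀] at h'

end Nonunits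

section Normal

variable {R F : Type*} [CommRing R] [Field F] [Algebra R F]

/-- A root modulo `𝔪_V` of a monic polynomial over `B ⊆ V` lies in `V`. -/
theorem mem_of_monic_aeval_nonunit (B : Subalgebra R F) (V : ValuationSubring F)
    (hle : ∀ b ∈ B, b ∈ V) {f : F} (P : Polynomial B) (hPm : P.Monic)
    (hPf : aeval f P ∈ V.nonunits) : f ∈ V := by
  classical
  let φ : B →+* V :=
    { toFun := fun b => ⟨(b : F), hle b b.2⟩
      map_one' := rfl
      map_mul' := fun _ _ => rfl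
      map_zero' := rfl
      map_add' := fun _ _ => rfl }
  have hφ : (algebraMap V F).comp φ = algebraMap B F := by
    ext b
    rfl
  have hc : aeval f P ∈ V := nonunits_subset V hPf
  have hdeg : 0 < P.natDegree := by
    rcases Nat.eq_zero_or_pos P.natDegree with h0 | h0
    · exfalso
      have h1 : P = 1 := by
        have := Polynomial.eq_C_of_natDegree_eq_zero h0
        rw [this]
        have hl : P.coeff 0 = 1 := by
          have := hPm.leadingCoeff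
          rwa [Polynomial.leadingCoeff, h0] at this
        rw [hl, map_one]
      rw [h1, map_one, ValuationSubring.mem_nonunits_iff, map_one] at hPf
      exact lt_irrefl _ hPf
    · exact h0
  have hint : IsIntegral V f := by
    refine ⟨P.map φ - C ⟨aeval f P, hc⟩, ?_, ?_⟩
    · apply (hPm.map φ).sub_of_left
      have h2 : (P.map φ).natDegree = P.natDegree := hPm.natDegree_map φ
      have h3 : (P.map φ).degree = (P.natDegree : WithBot ℕ) := by
        rw [Polynomial.degree_eq_natDegree (hPm.map φ).ne_zero, h2]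
      calc (C (⟨aeval f P, hc⟩ : V)).degree ≤ 0 := degree_C_le
        _ < (P.map φ).degree := by
            rw [h3]
            exact_mod_cast hdeg
    · rw [eval₂_sub, eval₂_map, eval₂_C, hφ]
      show eval₂ (algebraMap B F) f P - aeval f P = 0
      rw [Polynomial.aeval_def, sub_self]
  obtain ⟨y, hy⟩ := IsIntegrallyClosed.isIntegral_iff (R := V) (K := F) |>.mp hint
  rw [← hy]
  exact y.2

/-- In a ring `A` with `A / 𝔭` an integrally closed domain: if `t / s` (`s ∉ 𝔭`) is a root modulo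
`𝔭` of a monic polynomial, in the homogeneous form `(P.scaleRoots s)(t) ∈ 𝔭`, then `t ≡ b s` modulo
`𝔭` for some `b ∈ A`. -/
theorem exists_mul_sub_mem_of_scaleRoots_mem {A : Type*} [CommRing A] (p : Ideal A) [p.IsPrime]
    [IsIntegrallyClosed (A ⧸ p)] (P : A[X]) (hPm : P.Monic) (s t : A) (hs : s ∉ p)
    (hB : eval t (P.scaleRoots s) ∈ p) : ∃ b : A, b * s - t ∈ p := by
  classical
  have hfinj : Function.Injective (algebraMap (A ⧸ p) (FractionRing (A ⧸ p))) :=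
    IsFractionRing.injective (A ⧸ p) (FractionRing (A ⧸ p))
  have hs0 : algebraMap (A ⧸ p) (FractionRing (A ⧸ p)) (Ideal.Quotient.mk p s) ≠ 0 := by
    intro h
    have h1 : Ideal.Quotient.mk p s = 0 := hfinj (by rw [h, map_zero])
    exact hs (Ideal.Quotient.eq_zero_iff_mem.1 h1)
  have hint : IsIntegral (A ⧸ p)
      (algebraMap (A ⧸ p) (FractionRing (A ⧸ p)) (Ideal.Quotient.mk p t) /
        algebraMap (A ⧸ p) (FractionRing (A ⧸ p)) (Ideal.Quotient.mk p s)) := by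
    refine ⟨P.map (Ideal.Quotient.mk p), hPm.map _, ?_⟩
    have h2 := scaleRoots_eval₂_mul (p := P.map (Ideal.Quotient.mk p))
      (algebraMap (A ⧸ p) (FractionRing (A ⧸ p)))
      (algebraMap (A ⧸ p) (FractionRing (A ⧸ p)) (Ideal.Quotient.mk p t) /
        algebraMap (A ⧸ p) (FractionRing (A ⧸ p)) (Ideal.Quotient.mk p s)) (Ideal.Quotient.mk p s)
    have h3 : algebraMap (A ⧸ p) (FractionRing (A ⧸ p)) (Ideal.Quotient.mk p s) *
        (algebraMap (A ⧸ p) (FractionRing (A ⧸ p)) (Ideal.Quotient.mk p t) /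
        algebraMap (A ⧸ p) (FractionRing (A ⧸ p)) (Ideal.Quotient.mk p s))
        = algebraMap (A ⧸ p) (FractionRing (A ⧸ p)) (Ideal.Quotient.mk p t) := by
      field_simp
    have h4 : (P.map (Ideal.Quotient.mk p)).scaleRoots (Ideal.Quotient.mk p s)
        = (P.scaleRoots s).map (Ideal.Quotient.mk p) := by
      rw [map_scaleRoots]
      rw [hPm.leadingCoeff, map_one]
      exact one_ne_zero
    rw [h3, eval₂_at_apply, h4, eval_map, eval₂_at_apply] at h2
    have h5 : Ideal.Quotient.mk p (eval t (P.scaleRoots s)) = 0 :=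
      Ideal.Quotient.eq_zero_iff_mem.2 hB
    rw [h5, map_zero] at h2
    rcases mul_eq_zero.1 h2.symm with h | h
    · exact absurd (eq_zero_of_pow_eq_zero h) hs0
    · exact h
  obtain ⟨a, ha⟩ := IsIntegrallyClosed.isIntegral_iff.1 hint
  obtain ⟨b', rfl⟩ := Ideal.Quotient.mk_surjective a
  refine ⟨b', ?_⟩
  rw [← Ideal.Quotient.eq_zero_iff_mem]
  apply hfinj
  rw [map_zero, map_sub, map_sub, map_mul, map_mul, ha]
  field_simp
  ring

/-- **Normality along a component**, from the ring-theoretic form: `B ⊆ V`, `p = B ∩ 𝔪_V`,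
`B / p` integrally closed, `V` the local ring of `B` at `p`. -/
theorem normalAlong_of_closed (B : Subalgebra R F) (V : ValuationSubring F) (p : Ideal B)
    [p.IsPrime] [IsIntegrallyClosed (B ⧸ p)]
    (hle : ∀ b ∈ B, b ∈ V)
    (hp : ∀ b : B, b ∈ p ↔ (b : F) ∈ V.nonunits)
    (hfrac : ∀ y ∈ V, ∃ a s : B, (s : F) ∉ V.nonunits ∧ y = a * (s : F)⁻¹) :
    NormalAlong B V := by
  intro f P hPm hPf
  have hfV : f ∈ V := mem_of_monic_aeval_nonunit B V hle P hPm hPf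
  obtain ⟨a, s, hs, hfa⟩ := hfrac f hfV
  have hs0 : (s : F) ≠ 0 := ne_zero_of_not_mem_nonunits V hs
  have hsi : (s : F)⁻¹ ∈ V := inv_mem_of_not_mem_nonunits V hs
  have hsp : s ∉ p := fun h => hs ((hp s).1 h)
  -- `(P.scaleRoots s)(a) = s ^ n * P(f)`
  have h1 : ((eval a (P.scaleRoots s) : B) : F) = (s : F) ^ P.natDegree * aeval f P := by
    have h2 := scaleRoots_eval₂_mul (p := P) (algebraMap B F) f s
    have h3 : algebraMap B F s * f = algebraMap B F a := by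
      rw [hfa]
      show (s : F) * ((a : F) * (s : F)⁻¹) = (a : F)
      field_simp
    rw [h3, eval₂_at_apply] at h2
    rw [Polynomial.aeval_def]
    exact h2
  have h4 : eval a (P.scaleRoots s) ∈ p := by
    rw [hp, h1]
    exact mul_mem_nonunits_left V (pow_mem (hle s s.2) _) hPf
  obtain ⟨b, hb⟩ := exists_mul_sub_mem_of_scaleRoots_mem p P hPm s a hsp h4
  refine ⟨b, ?_⟩
  have h5 : f - (b : F) = -(((b * s - a : B) : F)) * (s : F)⁻¹ := by
    rw [hfa]
    push_cast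
    field_simp
    ring
  rw [h5]
  exact mul_mem_nonunits_right V (neg_mem ((hp _).1 hb)) hsi

end Normal

section Res

variable {R E F F' : Type*} [CommRing R] [Field E] [Algebra R E]
  [Field F] [Algebra E F] [Algebra R F] [Field F'] [Algebra E F'] [Algebra R F']

/-- **RES, chart form.**  Residue degree one at the level of the valuation rings, integrality of
the chart `B` over `α B'` and normality of `B'` along `V'` give residue degree one in chart
form. -/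
theorem res_chart_of_normalAlong (α : F' →ₐ[E] F) (B' : Subalgebra R F') (B : Subalgebra R F)
    (V : ValuationSubring F) (V' : ValuationSubring F')
    (hcomap : V.comap (α : F' →+* F) = V')
    (hnorm : NormalAlong B' V')
    (hint : ∀ b ∈ B, ∃ p : Polynomial F', p.Monic ∧ (∀ i, p.coeff i ∈ B') ∧
      (p.map (α : F' →+* F)).eval b = 0)
    (hB'V' : ∀ b ∈ B', b ∈ V')
    (hBV : ∀ b ∈ B, b ∈ V)
    (hres : ∀ z ∈ V, ∃ y ∈ V', z - α y ∈ V.nonunits) :
    ∀ b ∈ B, ∃ b' ∈ B', b - α b' ∈ V.nonunits := by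
  classical
  intro b hb
  have hover : ∀ a : F', α a ∈ V ↔ a ∈ V' := by
    intro a
    rw [← hcomap]
    rfl
  have hoverN : ∀ a : F', α a ∈ V.nonunits ↔ a ∈ V'.nonunits := by
    intro a
    rw [← hcomap, mem_nonunits_comap_iff]
    rfl
  obtain ⟨y, hy, hby⟩ := hres b (hBV b hb)
  obtain ⟨p, hpm, hpc, hp0⟩ := hint b hb
  -- lift `p` to `B'[X]`
  have hlift : p ∈ Polynomial.lifts (algebraMap B' F') := by
    rw [Polynomial.lifts_iff_coeff_lifts]
    intro n
    exact ⟨⟨p.coeff n, hpc n⟩, rfl⟩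
  obtain ⟨P, hP, -, hPm⟩ := Polynomial.lifts_and_degree_eq_and_monic hlift hpm
  -- the ring homomorphism `B' → V`
  let φ : B' →+* V :=
    { toFun := fun c => ⟨α (c : F'), (hover _).2 (hB'V' c c.2)⟩
      map_one' := by ext; simp
      map_mul' := fun x y => by ext; simp
      map_zero' := by ext; simp
      map_add' := fun x y => by ext; simp }
  have hφ : ∀ x : V, ((eval x (P.map φ) : V) : F) = eval (x : F) (p.map (α : F' →+* F)) := by
    intro x
    rw [← hP, Polynomial.map_map, eval_map, eval_map]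
    have hcomp : (V.subtype : V →+* F).comp φ = (α : F' →+* F).comp (algebraMap B' F') := by
      ext c
      rfl
    have := hom_eval₂ P φ (V.subtype : V →+* F) x
    rw [hcomp] at this
    exact this
  have hyV : α y ∈ V := (hover y).2 hy
  have hbV : b ∈ V := hBV b hb
  -- `P(y) ∈ 𝔪_{V'}`
  have hA : aeval y P ∈ V'.nonunits := by
    rw [← hoverN]
    have h1 : α (aeval y P) = eval (α y) (p.map (α : F' →+* F)) := by
      rw [← hP, Polynomial.map_map, eval_map, Polynomial.aeval_def]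
      exact hom_eval₂ P (algebraMap B' F') (α : F' →+* F) y
    obtain ⟨c, hc⟩ := sub_dvd_eval_sub (⟨α y, hyV⟩ : V) ⟨b, hbV⟩ (P.map φ)
    have h4 : ((eval (⟨α y, hyV⟩ : V) (P.map φ) - eval (⟨b, hbV⟩ : V) (P.map φ) : V) : F)
        = (((⟨α y, hyV⟩ : V) - ⟨b, hbV⟩) * c : V) := congrArg (fun x : V => (x : F)) hc
    push_cast at h4
    rw [hφ, hφ] at h4
    rw [hp0, sub_zero] at h4
    rw [h1, h4]
    refine mul_mem_nonunits_right V ?_ c.2
    have : α y - b = -(b - α y) := by ring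
    rw [this]
    exact neg_mem hby
  obtain ⟨b', hb'⟩ := hnorm y P hPm hA
  refine ⟨b', b'.2, ?_⟩
  have h6 : b - α (b' : F') = (b - α y) + α (y - (b' : F')) := by
    rw [map_sub]
    ring
  rw [h6]
  exact add_mem hby ((hoverN _).2 hb')

end Res

end Fermat.Agent.S36.Mod3.H189

end

end
-- ===== PACK-END S36/Mod3/H189/ResAbs.lean

-- ===== PACK-BEGIN S36/Mod3/H356/RegUAbs.lean
section


/-!
# S36 / MOD3, cell REG, piece (R-U): the modular unit `U_m`, abstract part (helper356)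

Vocabulary of `S36/Eng/Spec.lean` only (`Qep3`, `UnitAt`, `UnifAt`), Mathlib otherwise.

Setting: fields `F'` (level `M q`), `F` (level `M q q`), ring homomorphisms `α β : F' → F`
compatible with the structure maps of `R`, valuation subrings `V₁ V₂ V₃` of `F` and `V₁' V₂'`
of `F'` with the comap table of `Eng.TripleCtx`, a chart `B ⊆ F` with `Qep3 w B V₁ V₂ V₃`, and a
UNIT PAIR `D · D' = ε' w ^ 12` of level `M q` (`ε'` a unit of `R`), `D'` a unit of `V₁'`, `D` a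
unit of `V₂'`, such that `α D, α D', β D, β D' ∈ B`.

Then `U = α D / β D` (`= β D' / α D'`) satisfies

* `U ∈ B`, and `d = ε · α D' · β D ∈ B` has `U · d = w ^ 12`;
* `U` is a unit of `V₁` and of `V₃`;
* `U / w ^ 12` is a unit of `V₂`  (hence `U / t ^ (12 e)` for a uniformiser `t` of `V₂` with
  `w / t ^ e` a unit).

These are the hypotheses `hUd`, `hU₁`, `hU₃`, `hU₂` of `S36.H878.principalAt_of_unit_self'`.

* `qep3_pow_h356`   : `Qep3` iterated;
* `regU_abs_h356`   : the statement above;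
* `unitAt_div_unif_pow_h356` : from `w ^ 12` to `t ^ (12 e)`.
-/

set_option autoImplicit false
set_option linter.style.haveILetI false
set_option linter.unusedSectionVars false

namespace Fermat.Agent.S36.Mod3.H356

open Fermat.Agent.S36.Eng

section Abs

variable {R F F' : Type*} [CommRing R] [Field F] [Algebra R F] [Field F'] [Algebra R F']

/-- `Qep3`, iterated: an element `b / w ^ k` (`b ∈ B`) of `V₁ ∩ V₂ ∩ V₃` lies in `B`. -/
theorem qep3_pow_h356 (w : R) (B : Subalgebra R F) (V₁ V₂ V₃ : ValuationSubring F)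
    (hw0 : algebraMap R F w ≠ 0)
    (hw₁ : algebraMap R F w ∈ V₁) (hw₂ : algebraMap R F w ∈ V₂) (hw₃ : algebraMap R F w ∈ V₃)
    (hqep : Qep3 w B V₁ V₂ V₃) (k : ℕ) (b : B)
    (h₁ : (b : F) * (algebraMap R F w ^ k)⁻¹ ∈ V₁)
    (h₂ : (b : F) * (algebraMap R F w ^ k)⁻¹ ∈ V₂)
    (h₃ : (b : F) * (algebraMap R F w ^ k)⁻¹ ∈ V₃) :
    ∃ c : B, (c : F) = (b : F) * (algebraMap R F w ^ k)⁻¹ := by
  induction k generalizing b with
  | zero => exact ⟨b, by simp⟩
  | succ k ih =>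
    have e : (b : F) * (algebraMap R F w)⁻¹
        = (b : F) * (algebraMap R F w ^ (k + 1))⁻¹ * algebraMap R F w ^ k := by
      have hk0 : algebraMap R F w ^ k ≠ 0 := pow_ne_zero k hw0
      rw [pow_succ, mul_inv]
      field_simp
    obtain ⟨c, hc⟩ := hqep b
      (by rw [e]; exact V₁.mul_mem _ _ h₁ (pow_mem hw₁ k))
      (by rw [e]; exact V₂.mul_mem _ _ h₂ (pow_mem hw₂ k))
      (by rw [e]; exact V₃.mul_mem _ _ h₃ (pow_mem hw₃ k))
    have hcF : (b : F) = algebraMap R F w * (c : F) := by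
      have := congrArg (fun t : B => (t : F)) hc
      simpa using this
    have e' : (c : F) * (algebraMap R F w ^ k)⁻¹
        = (b : F) * (algebraMap R F w ^ (k + 1))⁻¹ := by
      rw [hcF, pow_succ, mul_inv]
      field_simp
    obtain ⟨c', hc'⟩ := ih c (by rw [e']; exact h₁) (by rw [e']; exact h₂) (by rw [e']; exact h₃)
    exact ⟨c', by rw [hc', e']⟩

/-- Membership in a comap. -/
theorem mem_of_comap_eq_h356 {α : F' →+* F} {V : ValuationSubring F} {V' : ValuationSubring F'}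
    (h : V.comap α = V') {x : F'} (hx : x ∈ V') : α x ∈ V := by
  rw [← h] at hx
  exact hx

/-- **(R-U), abstract.** -/
theorem regU_abs_h356 (w ε ε' : R) (hεε' : ε * ε' = 1)
    (B : Subalgebra R F) (V₁ V₂ V₃ : ValuationSubring F) (V₁' V₂' : ValuationSubring F')
    (α β : F' →+* F)
    (hαR : ∀ r : R, α (algebraMap R F' r) = algebraMap R F r)
    (hβR : ∀ r : R, β (algebraMap R F' r) = algebraMap R F r)
    (hw0 : algebraMap R F w ≠ 0)
    (hR₁ : ∀ r : R, algebraMap R F r ∈ V₁) (hR₂ : ∀ r : R, algebraMap R F r ∈ V₂)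
    (hR₃ : ∀ r : R, algebraMap R F r ∈ V₃)
    (hqep : Qep3 w B V₁ V₂ V₃)
    (c₁α : V₁.comap α = V₁') (c₂α : V₂.comap α = V₁') (c₃α : V₃.comap α = V₂')
    (c₁β : V₁.comap β = V₁') (c₂β : V₂.comap β = V₂') (c₃β : V₃.comap β = V₂')
    (D D' : F') (hDD' : D * D' = algebraMap R F' (ε' * w ^ 12))
    (hD'₁ : D' ∈ V₁') (hD'₁i : D'⁻¹ ∈ V₁') (hD₂ : D ∈ V₂') (hD₂i : D⁻¹ ∈ V₂')
    (hαD : α D ∈ B) (hαD' : α D' ∈ B) (hβD : β D ∈ B) (hβD' : β D' ∈ B) :
    ∃ U d : B, (U : F) = α D * (β D)⁻¹ ∧ U * d = algebraMap R B w ^ 12 ∧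
      (U : F) ∈ V₁ ∧ (U : F)⁻¹ ∈ V₁ ∧ (U : F) ∈ V₃ ∧ (U : F)⁻¹ ∈ V₃ ∧
      UnitAt V₂ ((U : F) * (algebraMap R F w ^ 12)⁻¹) := by
  -- the constants
  set wF : F := algebraMap R F w with hwF
  set eF : F := algebraMap R F ε with heF
  set eF' : F := algebraMap R F ε' with heF'
  have hee : eF * eF' = 1 := by rw [heF, heF', ← map_mul, hεε', map_one]
  have heF0 : eF ≠ 0 := left_ne_zero_of_mul_eq_one hee
  have heF'0 : eF' ≠ 0 := right_ne_zero_of_mul_eq_one hee
  have hw12 : wF ^ 12 ≠ 0 := pow_ne_zero 12 hw0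
  have hc : algebraMap R F (ε' * w ^ 12) = eF' * wF ^ 12 := by
    rw [map_mul, map_pow]
  -- the relations `α D · α D' = β D · β D' = ε' w ^ 12`
  have hα : α D * α D' = eF' * wF ^ 12 := by rw [← map_mul, hDD', hαR, hc]
  have hβ : β D * β D' = eF' * wF ^ 12 := by rw [← map_mul, hDD', hβR, hc]
  have hc0 : eF' * wF ^ 12 ≠ 0 := mul_ne_zero heF'0 hw12
  have hαD0 : α D ≠ 0 := left_ne_zero_of_mul (hα ▸ hc0)
  have hαD'0 : α D' ≠ 0 := right_ne_zero_of_mul (hα ▸ hc0)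
  have hβD0 : β D ≠ 0 := left_ne_zero_of_mul (hβ ▸ hc0)
  have hβD'0 : β D' ≠ 0 := right_ne_zero_of_mul (hβ ▸ hc0)
  -- the two expressions of `U`
  have hU' : α D * (β D)⁻¹ = β D' * (α D')⁻¹ := by
    have h1 : α D * α D' = β D * β D' := by rw [hα, hβ]
    field_simp
    linear_combination h1
  -- the element of `B` above `w ^ 12 U`
  have hb : eF * (α D * β D') ∈ B := by
    have h := B.smul_mem (B.mul_mem hαD hβD') ε
    rwa [Algebra.smul_def] at h
  have hbU : eF * (α D * β D') * (wF ^ 12)⁻¹ = α D * (β D)⁻¹ := by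
    have h1 : β D' = eF' * wF ^ 12 * (β D)⁻¹ := by
      rw [← hβ]; field_simp
    rw [h1]
    have : eF * (α D * (eF' * wF ^ 12 * (β D)⁻¹)) * (wF ^ 12)⁻¹
        = (eF * eF') * (α D * (β D)⁻¹) * (wF ^ 12 * (wF ^ 12)⁻¹) := by ring
    rw [this, hee, mul_inv_cancel₀ hw12, one_mul, mul_one]
  -- valuations: `V₁`
  have hαD'₁ : α D' ∈ V₁ := mem_of_comap_eq_h356 c₁α hD'₁
  have hαD'₁i : (α D')⁻¹ ∈ V₁ := by
    rw [← map_inv₀]; exact mem_of_comap_eq_h356 c₁α hD'₁i
  have hβD'₁ : β D' ∈ V₁ := mem_of_comap_eq_h356 c₁β hD'₁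
  have hβD'₁i : (β D')⁻¹ ∈ V₁ := by
    rw [← map_inv₀]; exact mem_of_comap_eq_h356 c₁β hD'₁i
  have hU₁ : α D * (β D)⁻¹ ∈ V₁ := by
    rw [hU']; exact V₁.mul_mem _ _ hβD'₁ hαD'₁i
  have hU₁i : (α D * (β D)⁻¹)⁻¹ ∈ V₁ := by
    rw [hU', mul_inv, inv_inv]; exact V₁.mul_mem _ _ hβD'₁i hαD'₁
  -- valuations: `V₃`
  have hαD₃ : α D ∈ V₃ := mem_of_comap_eq_h356 c₃α hD₂
  have hαD₃i : (α D)⁻¹ ∈ V₃ := by
    rw [← map_inv₀]; exact mem_of_comap_eq_h356 c₃α hD₂i
  have hβD₃ : β D ∈ V₃ := mem_of_comap_eq_h356 c₃β hD₂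
  have hβD₃i : (β D)⁻¹ ∈ V₃ := by
    rw [← map_inv₀]; exact mem_of_comap_eq_h356 c₃β hD₂i
  have hU₃ : α D * (β D)⁻¹ ∈ V₃ := V₃.mul_mem _ _ hαD₃ hβD₃i
  have hU₃i : (α D * (β D)⁻¹)⁻¹ ∈ V₃ := by
    rw [mul_inv, inv_inv]; exact V₃.mul_mem _ _ hαD₃i hβD₃
  -- valuations: `V₂`
  have hαD'₂ : α D' ∈ V₂ := mem_of_comap_eq_h356 c₂α hD'₁
  have hαD'₂i : (α D')⁻¹ ∈ V₂ := by
    rw [← map_inv₀]; exact mem_of_comap_eq_h356 c₂α hD'₁i
  have hβD₂ : β D ∈ V₂ := mem_of_comap_eq_h356 c₂β hD₂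
  have hβD₂i : (β D)⁻¹ ∈ V₂ := by
    rw [← map_inv₀]; exact mem_of_comap_eq_h356 c₂β hD₂i
  have hUw : α D * (β D)⁻¹ * (wF ^ 12)⁻¹ = eF' * ((α D')⁻¹ * (β D)⁻¹) := by
    have h1 : α D = eF' * wF ^ 12 * (α D')⁻¹ := by
      rw [← hα]; field_simp
    rw [h1]
    field_simp
  have hUw₂ : α D * (β D)⁻¹ * (wF ^ 12)⁻¹ ∈ V₂ := by
    rw [hUw]; exact V₂.mul_mem _ _ (hR₂ ε') (V₂.mul_mem _ _ hαD'₂i hβD₂i)
  have hUw₂i : (α D * (β D)⁻¹ * (wF ^ 12)⁻¹)⁻¹ ∈ V₂ := by
    have h2 : (α D * (β D)⁻¹ * (wF ^ 12)⁻¹)⁻¹ = eF * (α D' * β D) := by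
      rw [hUw, mul_inv, mul_inv, inv_inv, inv_inv]
      have : eF'⁻¹ = eF := (eq_inv_of_mul_eq_one_left hee).symm
      rw [this]
    rw [h2]; exact V₂.mul_mem _ _ (hR₂ ε) (V₂.mul_mem _ _ hαD'₂ hβD₂)
  have hU₂ : α D * (β D)⁻¹ ∈ V₂ := by
    have h3 : α D * (β D)⁻¹ = α D * (β D)⁻¹ * (wF ^ 12)⁻¹ * wF ^ 12 := by
      field_simp
    rw [h3]; exact V₂.mul_mem _ _ hUw₂ (pow_mem (hR₂ w) 12)
  -- `U ∈ B` by `Qep3`
  obtain ⟨U, hU⟩ := qep3_pow_h356 w B V₁ V₂ V₃ hw0 (hR₁ w) (hR₂ w) (hR₃ w) hqep 12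
    ⟨_, hb⟩ (by rw [hbU]; exact hU₁) (by rw [hbU]; exact hU₂) (by rw [hbU]; exact hU₃)
  have hUF : (U : F) = α D * (β D)⁻¹ := by rw [hU]; exact hbU
  -- the cofactor
  have hd : eF * (α D' * β D) ∈ B := by
    have h := B.smul_mem (B.mul_mem hαD' hβD) ε
    rwa [Algebra.smul_def] at h
  refine ⟨U, ⟨_, hd⟩, hUF, ?_, ?_, ?_, ?_, ?_, ?_⟩
  · apply Subtype.ext
    have h4 : ((algebraMap R B w ^ 12 : B) : F) = wF ^ 12 := by
      simp [hwF]
    rw [h4]
    show (U : F) * (eF * (α D' * β D)) = wF ^ 12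
    rw [hUF, hU']
    have : β D' * (α D')⁻¹ * (eF * (α D' * β D))
        = eF * (β D * β D') * ((α D')⁻¹ * α D') := by ring
    rw [this, hβ, inv_mul_cancel₀ hαD'0, mul_one, ← mul_assoc, hee, one_mul]
  · rw [hUF]; exact hU₁
  · rw [hUF]; exact hU₁i
  · rw [hUF]; exact hU₃
  · rw [hUF]; exact hU₃i
  · rw [hUF]
    refine ⟨?_, hUw₂, hUw₂i⟩
    exact mul_ne_zero (mul_ne_zero hαD0 (inv_ne_zero hβD0)) (inv_ne_zero hw12)

/-- From `U / w ^ k` to `U / t ^ (k e)`, `t` a uniformiser with `w / t ^ e` a unit. -/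
theorem unitAt_div_unif_pow_h356 (V : ValuationSubring F) (U wF t : F) (k e : ℕ)
    (hU : UnitAt V (U * (wF ^ k)⁻¹)) (ht : UnitAt V (wF * (t ^ e)⁻¹)) :
    UnitAt V (U * (t ^ (k * e))⁻¹) := by
  obtain ⟨hU0, hU1, hU2⟩ := hU
  obtain ⟨ht0, ht1, ht2⟩ := ht
  have hw0 : wF ≠ 0 := left_ne_zero_of_mul ht0
  have hte0 : (t ^ e)⁻¹ ≠ 0 := right_ne_zero_of_mul ht0
  have hte : t ^ e ≠ 0 := fun h => hte0 (by rw [h, inv_zero])
  have hwk : wF ^ k ≠ 0 := pow_ne_zero k hw0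
  have hUne : U ≠ 0 := left_ne_zero_of_mul hU0
  have h2 : ((t ^ e) ^ k) ≠ 0 := pow_ne_zero k hte
  have h1 : t ^ (k * e) = (t ^ e) ^ k := by rw [mul_comm, pow_mul]
  have hkey : U * (t ^ (k * e))⁻¹ = U * (wF ^ k)⁻¹ * (wF * (t ^ e)⁻¹) ^ k := by
    rw [h1, mul_pow, inv_pow]
    field_simp
  have hkey' : (U * (t ^ (k * e))⁻¹)⁻¹ = (U * (wF ^ k)⁻¹)⁻¹ * ((wF * (t ^ e)⁻¹)⁻¹) ^ k := by
    rw [hkey, mul_inv, inv_pow]
  refine ⟨?_, ?_, ?_⟩
  · rw [hkey]; exact mul_ne_zero hU0 (pow_ne_zero k ht0)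
  · rw [hkey]; exact V.mul_mem _ _ hU1 (pow_mem ht1 k)
  · rw [hkey']
    exact V.mul_mem _ _ hU2 (pow_mem ht2 k)

/-- Two uniformisers differ by a unit: `w / t₀ ^ e` a unit ⟹ `w / t ^ e` a unit. -/
theorem unitAt_div_pow_of_unif_h356 (V : ValuationSubring F) (wF t₀ t : F) (e : ℕ)
    (ht₀ : UnifAt V t₀) (h₀ : UnitAt V (wF * (t₀ ^ e)⁻¹)) (ht : UnifAt V t) :
    UnitAt V (wF * (t ^ e)⁻¹) := by
  obtain ⟨ht₀0, ht₀m, ht₀d⟩ := ht₀
  obtain ⟨ht0, htm, htd⟩ := ht
  obtain ⟨h0, h1, h2⟩ := h₀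
  have hw0 : wF ≠ 0 := left_ne_zero_of_mul h0
  have ha : t₀ * t⁻¹ ∈ V := htd t₀ ht₀m
  have hb : t * t₀⁻¹ ∈ V := ht₀d t htm
  have hp0 : t₀ ^ e ≠ 0 := pow_ne_zero e ht₀0
  have hp : t ^ e ≠ 0 := pow_ne_zero e ht0
  have hkey : wF * (t ^ e)⁻¹ = wF * (t₀ ^ e)⁻¹ * (t₀ * t⁻¹) ^ e := by
    rw [mul_pow, inv_pow]
    field_simp
  have hkey' : (wF * (t ^ e)⁻¹)⁻¹ = (wF * (t₀ ^ e)⁻¹)⁻¹ * (t * t₀⁻¹) ^ e := by
    rw [mul_pow, inv_pow]
    field_simp
  refine ⟨mul_ne_zero hw0 (inv_ne_zero hp), ?_, ?_⟩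
  · rw [hkey]; exact V.mul_mem _ _ h1 (pow_mem ha e)
  · rw [hkey']; exact V.mul_mem _ _ h2 (pow_mem hb e)

end Abs

end Fermat.Agent.S36.Mod3.H356

end
-- ===== PACK-END S36/Mod3/H356/RegUAbs.lean

-- ===== PACK-BEGIN S36/H876/LiteSelf.lean
section


/-!
# REG at the closed points lying on the middle component ONLY, from `Qep3` alone
(helper876, S36 / MOD3, leaf `LeafRegM`: fields `regular_m` and `regular_i`)

Elementwise, in the vocabulary of `Eng.TripleCtx`.  NO noetherianity, NO Hartogs lemma,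
NO localisation, NO `IsLocDVR`, NO modular unit with prescribed divisor, NO horizontal analysis.

`B ⊆ V₁ ∩ V₂ ∩ V₃` a chart with `Qep3 w B V₁ V₂ V₃`, `w` a uniformiser of `V₁` and of `V₃`,
`𝔪` a prime of `B` on the component `V₂` and NOT on `V₁`, NOT on `V₃`
(a point of the middle component only: an ordinary point of `mid`, or a cusp of `mid`).  If

* `x ∈ B` is a uniformiser of `V₂`,
* `g₁ ∈ B ∖ 𝔪`, `g₂ ∈ B`,
* `x ^ N · g₂ ≡ w ^ k · g₁` modulo `w ^ k · 𝔪_{V₂}`      (a congruence in the residue field of `V₂`),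

then `x` generates `B ∩ 𝔪_{V₂}` locally at `𝔪`: `Eng.PrincipalAt B 𝔪 V₂`.

Proof.  Choose `e₁ ∈ B ∩ 𝔪_{V₁}`, `e₃ ∈ B ∩ 𝔪_{V₃}` outside `𝔪`, `e = e₁ e₃`.  Then
`G = x ^ N g₂ e ^ k / w ^ k` and `c = a x ^ (N - 1) g₂ e ^ k / w ^ k` (`a ∈ B ∩ 𝔪_{V₂}`) lie in
`V₁ ∩ V₂ ∩ V₃`, hence in `B` (`Qep3` iterated), `G a = x c`, and `G ≡ g₁ e ^ k` modulo `𝔪_{V₂}`,
so `G ∉ 𝔪`.

* `lite_qep3_pow`          : `Qep3` iterated;
* `principalAt_lite`       : the statement above;
* `lite_unifAt_of_cong`    : the congruence + `w ^ k = unit · t ^ N` (`t` a uniformiser) ⟹ `x` is a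
                             uniformiser;
* `principalAt_lite'`      : the same with `w ^ k = unit · t ^ N` instead of "`x` uniformiser"
                             (application: `k = 12`, `N = 12 (q - 1)`, `ram₂`).
-/

set_option autoImplicit false

namespace Fermat.Agent.S36.H876

open Fermat.Agent.S36.Eng

variable {R F : Type*} [CommRing R] [Field F] [Algebra R F]

/-- `𝔪_V · V ⊆ 𝔪_V`. -/
theorem lite_nonunits_mul (V : ValuationSubring F) {a b : F} (ha : a ∈ V.nonunits)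
    (hb : b ∈ V) : a * b ∈ V.nonunits := by
  rw [ValuationSubring.mem_nonunits_iff, map_mul]
  exact mul_lt_one_of_lt_of_le ((V.mem_nonunits_iff).1 ha) ((V.valuation_le_one_iff b).2 hb)

/-- `Qep3`, iterated: an element `b / w ^ k` (`b ∈ B`) of `V₁ ∩ V₂ ∩ V₃` lies in `B`. -/
theorem lite_qep3_pow (w : R) (B : Subalgebra R F) (V₁ V₂ V₃ : ValuationSubring F)
    (hw0 : algebraMap R F w ≠ 0)
    (hw₁ : algebraMap R F w ∈ V₁) (hw₂ : algebraMap R F w ∈ V₂) (hw₃ : algebraMap R F w ∈ V₃)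
    (hqep : Qep3 w B V₁ V₂ V₃) (k : ℕ) (b : B)
    (h₁ : (b : F) * (algebraMap R F w ^ k)⁻¹ ∈ V₁)
    (h₂ : (b : F) * (algebraMap R F w ^ k)⁻¹ ∈ V₂)
    (h₃ : (b : F) * (algebraMap R F w ^ k)⁻¹ ∈ V₃) :
    ∃ c : B, (c : F) = (b : F) * (algebraMap R F w ^ k)⁻¹ := by
  induction k generalizing b with
  | zero => exact ⟨b, by simp⟩
  | succ k ih =>
    have e : (b : F) * (algebraMap R F w)⁻¹
        = (b : F) * (algebraMap R F w ^ (k + 1))⁻¹ * algebraMap R F w ^ k := by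
      rw [pow_succ, mul_inv, mul_assoc, mul_assoc, mul_comm (algebraMap R F w)⁻¹,
        inv_mul_cancel_left₀ (pow_ne_zero k hw0)]
    obtain ⟨c, hc⟩ := hqep b
      (by rw [e]; exact V₁.mul_mem _ _ h₁ (pow_mem hw₁ k))
      (by rw [e]; exact V₂.mul_mem _ _ h₂ (pow_mem hw₂ k))
      (by rw [e]; exact V₃.mul_mem _ _ h₃ (pow_mem hw₃ k))
    have hcF : (b : F) = algebraMap R F w * (c : F) := by
      have := congrArg (fun t : B => (t : F)) hc
      simpa using this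
    have e' : (c : F) * (algebraMap R F w ^ k)⁻¹
        = (b : F) * (algebraMap R F w ^ (k + 1))⁻¹ := by
      rw [hcF, pow_succ, mul_inv]
      field_simp
    obtain ⟨c', hc'⟩ := ih c (by rw [e']; exact h₁) (by rw [e']; exact h₂) (by rw [e']; exact h₃)
    exact ⟨c', by rw [hc', e']⟩

/-- `e ∈ 𝔪_V`, `w` a uniformiser of `V`: `e ^ k / w ^ k ∈ V`. -/
theorem lite_pow_div_mem (V : ValuationSubring F) {w₀ e : F} (hw : UnifAt V w₀)
    (he : e ∈ V.nonunits) (k : ℕ) : e ^ k * (w₀ ^ k)⁻¹ ∈ V := by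
  have h : e ^ k * (w₀ ^ k)⁻¹ = (e * w₀⁻¹) ^ k := by
    rw [mul_pow, inv_pow]
  rw [h]
  exact pow_mem (hw.2.2 e he) k

/-- **REG-lite from `Qep3`.**  See the header. -/
theorem principalAt_lite (w : R) (B : Subalgebra R F) (V₁ V₂ V₃ : ValuationSubring F)
    (hB₁ : ∀ b : B, (b : F) ∈ V₁) (hB₂ : ∀ b : B, (b : F) ∈ V₂) (hB₃ : ∀ b : B, (b : F) ∈ V₃)
    (hqep : Qep3 w B V₁ V₂ V₃)
    (hu₁ : UnifAt V₁ (algebraMap R F w)) (hu₃ : UnifAt V₃ (algebraMap R F w))
    (𝔪 : Ideal B) (h𝔪 : 𝔪.IsPrime) (hthr : Through B 𝔪 V₂)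
    (hn₁ : ¬ Through B 𝔪 V₁) (hn₃ : ¬ Through B 𝔪 V₃)
    (x g₁ g₂ : B) (k N : ℕ) (hN : 0 < N)
    (hx : UnifAt V₂ (x : F)) (hg₁ : g₁ ∉ 𝔪)
    (hcong : ((x : F) ^ N * (g₂ : F) - algebraMap R F w ^ k * (g₁ : F))
        * (algebraMap R F w ^ k)⁻¹ ∈ V₂.nonunits) :
    PrincipalAt B 𝔪 V₂ := by
  have hw0 : algebraMap R F w ≠ 0 := hu₁.1
  have hwk0 : algebraMap R F w ^ k ≠ 0 := pow_ne_zero k hw0
  have hwB : ∀ V : ValuationSubring F, (∀ b : B, (b : F) ∈ V) → algebraMap R F w ∈ V :=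
    fun V h => by simpa using h (algebraMap R B w)
  -- the two auxiliary elements
  obtain ⟨e₁, he₁V, he₁⟩ : ∃ e₁ : B, (e₁ : F) ∈ V₁.nonunits ∧ e₁ ∉ 𝔪 := by
    by_contra hcon
    exact hn₁ fun b hb => by_contra fun hbm => hcon ⟨b, hb, hbm⟩
  obtain ⟨e₃, he₃V, he₃⟩ : ∃ e₃ : B, (e₃ : F) ∈ V₃.nonunits ∧ e₃ ∉ 𝔪 := by
    by_contra hcon
    exact hn₃ fun b hb => by_contra fun hbm => hcon ⟨b, hb, hbm⟩
  -- `y = x ^ N g₂ / w ^ k ∈ V₂`, `y ≡ g₁`
  have hysplit : (x : F) ^ N * (g₂ : F) * (algebraMap R F w ^ k)⁻¹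
      = ((x : F) ^ N * (g₂ : F) - algebraMap R F w ^ k * (g₁ : F)) * (algebraMap R F w ^ k)⁻¹
        + (g₁ : F) := by
    field_simp
    ring
  have hcong' : ((x : F) ^ N * (g₂ : F) - algebraMap R F w ^ k * (g₁ : F))
      * (algebraMap R F w ^ k)⁻¹ ∈ V₂ :=
    (V₂.valuation_le_one_iff _).1 ((V₂.mem_nonunits_iff).1 hcong).le
  have hy₂ : (x : F) ^ N * (g₂ : F) * (algebraMap R F w ^ k)⁻¹ ∈ V₂ := by
    rw [hysplit]
    exact V₂.add_mem _ _ hcong' (hB₂ g₁)
  have hE₁ : ((e₁ : F) * (e₃ : F)) ^ k * (algebraMap R F w ^ k)⁻¹ ∈ V₁ := by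
    have h : ((e₁ : F) * (e₃ : F)) ^ k * (algebraMap R F w ^ k)⁻¹
        = ((e₁ : F) ^ k * (algebraMap R F w ^ k)⁻¹) * (e₃ : F) ^ k := by
      rw [mul_pow]; ring
    rw [h]
    exact V₁.mul_mem _ _ (lite_pow_div_mem V₁ hu₁ he₁V k) (pow_mem (hB₁ e₃) k)
  have hE₃ : ((e₁ : F) * (e₃ : F)) ^ k * (algebraMap R F w ^ k)⁻¹ ∈ V₃ := by
    have h : ((e₁ : F) * (e₃ : F)) ^ k * (algebraMap R F w ^ k)⁻¹
        = ((e₃ : F) ^ k * (algebraMap R F w ^ k)⁻¹) * (e₁ : F) ^ k := by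
      rw [mul_pow]; ring
    rw [h]
    exact V₃.mul_mem _ _ (lite_pow_div_mem V₃ hu₃ he₃V k) (pow_mem (hB₃ e₁) k)
  -- `G = x ^ N g₂ e ^ k / w ^ k ∈ B`
  obtain ⟨G, hG⟩ := lite_qep3_pow w B V₁ V₂ V₃ hw0 (hwB V₁ hB₁) (hwB V₂ hB₂) (hwB V₃ hB₃) hqep k
    (x ^ N * g₂ * (e₁ * e₃) ^ k)
    (by
      have : ((x ^ N * g₂ * (e₁ * e₃) ^ k : B) : F) * (algebraMap R F w ^ k)⁻¹
          = ((x : F) ^ N * (g₂ : F))
            * (((e₁ : F) * (e₃ : F)) ^ k * (algebraMap R F w ^ k)⁻¹) := by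
        push_cast; ring
      rw [this]
      exact V₁.mul_mem _ _ (V₁.mul_mem _ _ (pow_mem (hB₁ x) N) (hB₁ g₂)) hE₁)
    (by
      have : ((x ^ N * g₂ * (e₁ * e₃) ^ k : B) : F) * (algebraMap R F w ^ k)⁻¹
          = ((x : F) ^ N * (g₂ : F) * (algebraMap R F w ^ k)⁻¹)
            * ((e₁ : F) * (e₃ : F)) ^ k := by
        push_cast; ring
      rw [this]
      exact V₂.mul_mem _ _ hy₂ (pow_mem (V₂.mul_mem _ _ (hB₂ e₁) (hB₂ e₃)) k))
    (by
      have : ((x ^ N * g₂ * (e₁ * e₃) ^ k : B) : F) * (algebraMap R F w ^ k)⁻¹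
          = ((x : F) ^ N * (g₂ : F))
            * (((e₁ : F) * (e₃ : F)) ^ k * (algebraMap R F w ^ k)⁻¹) := by
        push_cast; ring
      rw [this]
      exact V₃.mul_mem _ _ (V₃.mul_mem _ _ (pow_mem (hB₃ x) N) (hB₃ g₂)) hE₃)
  have hGF : (G : F) = (x : F) ^ N * (g₂ : F) * (algebraMap R F w ^ k)⁻¹
      * ((e₁ : F) * (e₃ : F)) ^ k := by
    rw [hG]; push_cast; ring
  -- `G ∉ 𝔪`
  have hG𝔪 : G ∉ 𝔪 := by
    intro hmem
    have h1 : G - g₁ * (e₁ * e₃) ^ k ∈ 𝔪 := by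
      apply hthr
      have : ((G - g₁ * (e₁ * e₃) ^ k : B) : F)
          = ((x : F) ^ N * (g₂ : F) - algebraMap R F w ^ k * (g₁ : F))
              * (algebraMap R F w ^ k)⁻¹ * ((e₁ : F) * (e₃ : F)) ^ k := by
        push_cast
        rw [hGF, hysplit]
        ring
      rw [this]
      exact lite_nonunits_mul V₂ hcong (pow_mem (V₂.mul_mem _ _ (hB₂ e₁) (hB₂ e₃)) k)
    have h2 : g₁ * (e₁ * e₃) ^ k ∈ 𝔪 := by
      have := 𝔪.sub_mem hmem h1
      simpa using this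
    rcases h𝔪.mem_or_mem h2 with h | h
    · exact hg₁ h
    · rcases h𝔪.mem_or_mem (h𝔪.mem_of_pow_mem k h) with h' | h'
      · exact he₁ h'
      · exact he₃ h'
  obtain ⟨hx0, hxnu, hxunif⟩ := hx
  refine ⟨x, hxnu, fun a ha => ?_⟩
  obtain ⟨N', rfl⟩ : ∃ N', N = N' + 1 := ⟨N - 1, by omega⟩
  -- `c = a x ^ N' g₂ e ^ k / w ^ k ∈ B`
  have hz₂ : (a : F) * (x : F) ^ N' * (g₂ : F) * (algebraMap R F w ^ k)⁻¹ ∈ V₂ := by
    have : (a : F) * (x : F) ^ N' * (g₂ : F) * (algebraMap R F w ^ k)⁻¹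
        = ((a : F) * (x : F)⁻¹)
          * ((x : F) ^ (N' + 1) * (g₂ : F) * (algebraMap R F w ^ k)⁻¹) := by
      rw [pow_succ]
      field_simp
    rw [this]
    exact V₂.mul_mem _ _ (hxunif _ ha) hy₂
  obtain ⟨c, hc⟩ := lite_qep3_pow w B V₁ V₂ V₃ hw0 (hwB V₁ hB₁) (hwB V₂ hB₂) (hwB V₃ hB₃) hqep k
    (a * x ^ N' * g₂ * (e₁ * e₃) ^ k)
    (by
      have : ((a * x ^ N' * g₂ * (e₁ * e₃) ^ k : B) : F) * (algebraMap R F w ^ k)⁻¹
          = ((a : F) * (x : F) ^ N' * (g₂ : F))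
            * (((e₁ : F) * (e₃ : F)) ^ k * (algebraMap R F w ^ k)⁻¹) := by
        push_cast; ring
      rw [this]
      exact V₁.mul_mem _ _
        (V₁.mul_mem _ _ (V₁.mul_mem _ _ (hB₁ a) (pow_mem (hB₁ x) N')) (hB₁ g₂)) hE₁)
    (by
      have : ((a * x ^ N' * g₂ * (e₁ * e₃) ^ k : B) : F) * (algebraMap R F w ^ k)⁻¹
          = ((a : F) * (x : F) ^ N' * (g₂ : F) * (algebraMap R F w ^ k)⁻¹)
            * ((e₁ : F) * (e₃ : F)) ^ k := by
        push_cast; ring
      rw [this]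
      exact V₂.mul_mem _ _ hz₂ (pow_mem (V₂.mul_mem _ _ (hB₂ e₁) (hB₂ e₃)) k))
    (by
      have : ((a * x ^ N' * g₂ * (e₁ * e₃) ^ k : B) : F) * (algebraMap R F w ^ k)⁻¹
          = ((a : F) * (x : F) ^ N' * (g₂ : F))
            * (((e₁ : F) * (e₃ : F)) ^ k * (algebraMap R F w ^ k)⁻¹) := by
        push_cast; ring
      rw [this]
      exact V₃.mul_mem _ _
        (V₃.mul_mem _ _ (V₃.mul_mem _ _ (hB₃ a) (pow_mem (hB₃ x) N')) (hB₃ g₂)) hE₃)
  refine ⟨G, c, hG𝔪, ?_⟩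
  apply Subtype.ext
  push_cast
  rw [hGF, hc]
  push_cast
  rw [pow_succ]
  ring

/-- A unit of a valuation subring has valuation one. -/
theorem lite_valuation_eq_one (V : ValuationSubring F) {y : F} (hy : UnitAt V y) :
    V.valuation y = 1 := by
  obtain ⟨hy0, hy1, hy2⟩ := hy
  have h1 : V.valuation y ≤ 1 := (V.valuation_le_one_iff _).2 hy1
  have h2 : V.valuation y⁻¹ ≤ 1 := (V.valuation_le_one_iff _).2 hy2
  rw [map_inv₀] at h2
  have hv0 : V.valuation y ≠ 0 := by rw [Ne, map_eq_zero]; exact hy0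
  exact le_antisymm h1 ((inv_le_one₀ (zero_lt_iff.2 hv0)).1 h2)

/-- An element of `B ∖ 𝔪` has valuation one at a component through `𝔪`. -/
theorem lite_valuation_eq_one_of_not_mem (B : Subalgebra R F) (V : ValuationSubring F)
    (hB : ∀ b : B, (b : F) ∈ V) (𝔪 : Ideal B) (hthr : Through B 𝔪 V) {g : B} (hg : g ∉ 𝔪) :
    V.valuation (g : F) = 1 := by
  have h1 : V.valuation (g : F) ≤ 1 := (V.valuation_le_one_iff _).2 (hB g)
  rcases lt_or_eq_of_le h1 with h | h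
  · exact absurd (hthr g ((V.mem_nonunits_iff).2 h)) hg
  · exact h

/-- In a valuation subring: if `t` is a uniformiser and `x ^ N` has the valuation of `t ^ N`
(`N > 0`), then `x` is a uniformiser. -/
theorem lite_unifAt_of_pow (V : ValuationSubring F) (t x : F) (N : ℕ) (hN : 0 < N)
    (ht : UnifAt V t) (hxt : V.valuation x ^ N = V.valuation t ^ N) : UnifAt V x := by
  obtain ⟨ht0, htnu, htunif⟩ := ht
  have hvx : V.valuation x = V.valuation t := by
    rcases lt_trichotomy (V.valuation x) (V.valuation t) with h | h | h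
    · exfalso
      have := pow_lt_pow_left₀ h (zero_le (a := V.valuation _)) hN.ne'
      rw [hxt] at this
      exact lt_irrefl _ this
    · exact h
    · exfalso
      have := pow_lt_pow_left₀ h (zero_le (a := V.valuation _)) hN.ne'
      rw [hxt] at this
      exact lt_irrefl _ this
  have hvt0 : V.valuation t ≠ 0 := by rw [Ne, map_eq_zero]; exact ht0
  have hx0 : x ≠ 0 := by
    intro h
    rw [h, map_zero] at hvx
    exact hvt0 hvx.symm
  refine ⟨hx0, ?_, fun f hf => ?_⟩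
  · rw [ValuationSubring.mem_nonunits_iff, hvx]
    exact (V.mem_nonunits_iff).1 htnu
  · have h1 := htunif f hf
    rw [← V.valuation_le_one_iff] at h1 ⊢
    rw [map_mul, map_inv₀] at h1 ⊢
    rwa [hvx]

/-- The congruence `x ^ N g₂ ≡ w ^ k g₁` (`g₁, g₂ ∉ 𝔪`) and `w ^ k = unit · t ^ N` with `t` a
uniformiser of `V₂` force `x` to be a uniformiser of `V₂`. -/
theorem lite_unifAt_of_cong (w : R) (B : Subalgebra R F) (V₂ : ValuationSubring F)
    (hw0 : algebraMap R F w ≠ 0)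
    (hB₂ : ∀ b : B, (b : F) ∈ V₂)
    (𝔪 : Ideal B) (hthr : Through B 𝔪 V₂)
    (x g₁ g₂ : B) (k N : ℕ) (hN : 0 < N)
    (t : F) (ht : UnifAt V₂ t) (hwt : UnitAt V₂ (algebraMap R F w ^ k * (t ^ N)⁻¹))
    (hg₁ : g₁ ∉ 𝔪) (hg₂ : g₂ ∉ 𝔪)
    (hcong : ((x : F) ^ N * (g₂ : F) - algebraMap R F w ^ k * (g₁ : F))
        * (algebraMap R F w ^ k)⁻¹ ∈ V₂.nonunits) :
    UnifAt V₂ (x : F) := by
  have hwk0 : algebraMap R F w ^ k ≠ 0 := pow_ne_zero k hw0
  have hvg₁ := lite_valuation_eq_one_of_not_mem B V₂ hB₂ 𝔪 hthr hg₁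
  have hvg₂ := lite_valuation_eq_one_of_not_mem B V₂ hB₂ 𝔪 hthr hg₂
  have hysplit : (x : F) ^ N * (g₂ : F) * (algebraMap R F w ^ k)⁻¹
      = ((x : F) ^ N * (g₂ : F) - algebraMap R F w ^ k * (g₁ : F)) * (algebraMap R F w ^ k)⁻¹
        + (g₁ : F) := by
    field_simp
    ring
  have hone : V₂.valuation ((x : F) ^ N * (g₂ : F) * (algebraMap R F w ^ k)⁻¹) = 1 := by
    rw [hysplit, ← hvg₁]
    apply Valuation.map_add_eq_of_lt_right
    rw [hvg₁]
    exact (V₂.mem_nonunits_iff).1 hcong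
  have hvw : V₂.valuation (algebraMap R F w ^ k) = V₂.valuation t ^ N := by
    have h := lite_valuation_eq_one V₂ hwt
    rw [map_mul, map_inv₀, map_pow V₂.valuation t] at h
    have hne : V₂.valuation t ^ N ≠ 0 := by
      apply pow_ne_zero
      rw [Ne, map_eq_zero]; exact ht.1
    calc V₂.valuation (algebraMap R F w ^ k)
        = V₂.valuation (algebraMap R F w ^ k) * (V₂.valuation t ^ N)⁻¹ * V₂.valuation t ^ N := by
          rw [mul_assoc, inv_mul_cancel₀ hne, mul_one]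
      _ = V₂.valuation t ^ N := by rw [h, one_mul]
  have hvx : V₂.valuation (x : F) ^ N = V₂.valuation t ^ N := by
    rw [map_mul, map_mul, map_inv₀, map_pow V₂.valuation (x : F), hvg₂, mul_one] at hone
    have hne : V₂.valuation (algebraMap R F w ^ k) ≠ 0 := by rw [Ne, map_eq_zero]; exact hwk0
    calc V₂.valuation (x : F) ^ N
        = V₂.valuation (x : F) ^ N * (V₂.valuation (algebraMap R F w ^ k))⁻¹
            * V₂.valuation (algebraMap R F w ^ k) := by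
          rw [mul_assoc, inv_mul_cancel₀ hne, mul_one]
      _ = V₂.valuation t ^ N := by rw [hone, one_mul, hvw]
  exact lite_unifAt_of_pow V₂ t (x : F) N hN ht hvx

/-- **REG-lite from `Qep3`, ramification form**: `w ^ k = unit · t ^ N` at `V₂` (`t` a
uniformiser) instead of "`x` is a uniformiser of `V₂`".  Application: `k = 12`,
`N = 12 (q - 1)`, `t` from `ram₂`. -/
theorem principalAt_lite' (w : R) (B : Subalgebra R F) (V₁ V₂ V₃ : ValuationSubring F)
    (hB₁ : ∀ b : B, (b : F) ∈ V₁) (hB₂ : ∀ b : B, (b : F) ∈ V₂) (hB₃ : ∀ b : B, (b : F) ∈ V₃)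
    (hqep : Qep3 w B V₁ V₂ V₃)
    (hu₁ : UnifAt V₁ (algebraMap R F w)) (hu₃ : UnifAt V₃ (algebraMap R F w))
    (𝔪 : Ideal B) (h𝔪 : 𝔪.IsPrime) (hthr : Through B 𝔪 V₂)
    (hn₁ : ¬ Through B 𝔪 V₁) (hn₃ : ¬ Through B 𝔪 V₃)
    (x g₁ g₂ : B) (k N : ℕ) (hN : 0 < N)
    (t : F) (ht : UnifAt V₂ t) (hwt : UnitAt V₂ (algebraMap R F w ^ k * (t ^ N)⁻¹))
    (hg₁ : g₁ ∉ 𝔪) (hg₂ : g₂ ∉ 𝔪)
    (hcong : ((x : F) ^ N * (g₂ : F) - algebraMap R F w ^ k * (g₁ : F))
        * (algebraMap R F w ^ k)⁻¹ ∈ V₂.nonunits) :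
    PrincipalAt B 𝔪 V₂ :=
  principalAt_lite w B V₁ V₂ V₃ hB₁ hB₂ hB₃ hqep hu₁ hu₃ 𝔪 h𝔪 hthr hn₁ hn₃ x g₁ g₂ k N hN
    (lite_unifAt_of_cong w B V₂ hu₁.1 hB₂ 𝔪 hthr x g₁ g₂ k N hN t ht hwt hg₁ hg₂ hcong)
    hg₁ hcong

/-- `ram₂` in the form used by `principalAt_lite'`: `w = unit · t ^ e` ⟹
`w ^ k = unit · t ^ (k e)`. -/
theorem lite_unitAt_pow (V : ValuationSubring F) {a t : F} (e k : ℕ)
    (h : UnitAt V (a * (t ^ e)⁻¹)) : UnitAt V (a ^ k * (t ^ (k * e))⁻¹) := by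
  obtain ⟨h0, h1, h2⟩ := h
  have heq : a ^ k * (t ^ (k * e))⁻¹ = (a * (t ^ e)⁻¹) ^ k := by
    rw [mul_pow, inv_pow, ← pow_mul, mul_comm e k]
  refine ⟨?_, ?_, ?_⟩
  · rw [heq]; exact pow_ne_zero k h0
  · rw [heq]; exact pow_mem h1 k
  · rw [heq, ← inv_pow]; exact pow_mem h2 k

end Fermat.Agent.S36.H876

end
-- ===== PACK-END S36/H876/LiteSelf.lean

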