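import Mathlib
import Fermat.Prelude.Def_ModularCurve_X0ModL
import Fermat.Prelude.Def_GaloisRep_ComplexConjugation
import Fermat.Agent.Pack.S43MC.G0E18L3
import Fermat.Agent.Pack.S43MC.G0E11L1
import Fermat.Agent.Pack.S43MC.G0E13L0
import Fermat.Agent.Pack.S43MC.G0E9L3
import Fermat.Agent.Pack.S43MC.G0E0L0
import Fermat.Agent.Pack.S43MC.G0E8L0
import Fermat.Agent.Pack.S43MC.G0E18L2
import Fermat.Agent.Pack.S44C.G0E21L2
import Fermat.Agent.Pack.S43MC.G0E13L3
import Fermat.Agent.Pack.S44C.G0E21L3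
import Fermat.Agent.Pack.S43MC.G0E17L3
import Fermat.Agent.Pack.S43MC.G0E17L0
import Fermat.Agent.Pack.S43GC.G0E15L3
import Fermat.Agent.Pack.S43MC.G0E4L3
import Fermat.Agent.Pack.S43MC.G0E10L3
import Fermat.Agent.Pack.S43MC.G0E7L2
import Fermat.Agent.Pack.S44C.G0E3L0
import Fermat.Agent.Pack.S44C.G0E8L1
import Fermat.Agent.Pack.S44C.G0E8L0
import Fermat.Agent.Pack.S43MC.G0E12L1
import Fermat.Agent.Pack.S43MC.G0E12L3
import Fermat.Agent.Pack.S43MC.G0E12L2
import Fermat.Agent.Pack.S43MC.G0E17L1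
import Fermat.Agent.Pack.S43MC.G0E14L1
import Fermat.Agent.Pack.S43GC.G0E15L1
import Fermat.Agent.Pack.S43MC.G0E6L2
import Fermat.Agent.Pack.S43MC.G0E4L2
import Fermat.Agent.Pack.S43MC.G0E18L0
import Fermat.Agent.Pack.S43GC.G1E0L0
import Fermat.Agent.Pack.S43GC.G0E9L3
import Fermat.Agent.Pack.Fast891

-- ===== PACK-BEGIN S26/H326/ModDict.lean
section
/-
S26 helper (helper326), block PIC / DICT26 (subtasks 598/599): the dictionary between the
classes of the Čech Picard theory `Pic.cechPic` and invertible sheaves of modules, in the form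
`H687.ModDict` consumed by C1 (`H687.curveCube`).
-/




set_option autoImplicit false

universe u

noncomputable section

open CategoryTheory AlgebraicGeometry

namespace Fermat.Agent.S26.H326

/-- **DICT26.**  The dictionary between Čech classes and invertible modules:
`Rep a L` iff `L` realizes some cocycle of class `a`. -/
def modDict : H687.ModDict Pic.cechPic.{u} where
  Rep {X} a L := ∃ c : Pic.Cocycle X, Pic.cl c = a ∧ Realizes c L
  exists_rep a := by
    obtain ⟨c, rfl⟩ := Pic.cl_surjective a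
    obtain ⟨L, hL, hr⟩ := exists_realizes c
    exact ⟨L, hL, c, rfl, hr⟩
  rep_zero_iff a L := by
    rintro ⟨c, rfl, hr⟩
    rw [Pic.cl_eq_zero_iff]
    exact (realizes_iso_unit_iff hr).symm
  rep_pullback f a L := by
    rintro ⟨c, rfl, hr⟩
    exact ⟨c.pullback f, (Pic.map_cl f c).symm, realizes_pullback f hr⟩

/-- **C1, the cube for a curve**, for the Čech Picard theory, from the existence of Jacobians
(row S25). -/
theorem curveCube_cechPic (hS25 : H687.S25Statement.{u}) (K : Type u) [Field K]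
    [IsAlgClosed K] : Stmt.CurveCube Pic.cechPic.{u} K :=
  H687.curveCube hS25 Pic.cechPic modDict K

end Fermat.Agent.S26.H326

end

end
-- ===== PACK-END S26/H326/ModDict.lean

-- ===== PACK-BEGIN S27/H267/Genus.lean
section



/-!
# Row S27, leaf GENUS (helper267): hand-in

`genus K F : Stmt.Genus K F` (exact Prop of `Fermat/Agent/S27/Spec.lean`): for every curve model
`M` of the function field `F`, `genusFF K F = chartGenus M.Ch`.

Proof (`GenusCore`, `GenusDedekind`, `GenusChart`, `GenusMain`): the places of `F/K` are the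
maximal ideals of the two Dedekind charts; Weil's `𝔸/(𝔸(0) + F)` is identified with the Čech
`B₀₁/(B₀ + B₁)` by partial fractions.  No Riemann–Roch, no `IsCurveOver` needed.
-/

set_option autoImplicit false

noncomputable section

open AlgebraicCurve
open scoped TensorProduct

namespace Fermat.Agent.S27.H267

open Fermat.Agent.S25 Fermat.Agent.S27

universe u

/-- **GENUS** for a curve model, without `IsCurveOver`. -/
theorem genusFF_eq_chartGenus {K F : Type u} [Field K] [Field F] [Algebra K F] [IsAlgClosed K]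
    (M : CurveModel K F) : genusFF K F = chartGenus M.Ch :=
  genusFF_eq_finrank_H1_unit M.j₀ M.j₁ M.j₀₁ M.j₀₁_algebraMap₀ M.j₀₁_algebraMap₁
    M.Ch.isCurveChart M.isFracMap.1 M.isFracMap.2

/-- **GENUS** (leaf of row S27, exact Prop). -/
theorem genus (K F : Type u) [Field K] [Field F] [Algebra K F] : Stmt.Genus K F :=
  fun {_} {_} M => genusFF_eq_chartGenus M

end Fermat.Agent.S27.H267

end
end
-- ===== PACK-END S27/H267/Genus.lean

-- ===== PACK-BEGIN S27/H970/Cospan.lean
section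




/-!
# S27 / function-field cospans and the gluing datum `O(D)` (helper970)

A *function-field cospan*: a cospan of `K`-algebras `R₀ → R₀₁ ← R₁` mapping to the
function field `F / K`, whose images are the rings of functions regular on the charts
`x ≠ ∞`, `x ≠ 0` of a nonconstant function `x`, `R₀₁ = R₀[1/x] = R₁[x]`.

For a divisor `D` we construct the gluing datum `ofDivisor h D` (`= O(D)`), whose modules are
`N_i = {f ∈ F | ∀ v on chart i, f = 0 ∨ -D v ≤ ord_v f}`.
-/

set_option autoImplicit false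
set_option linter.unusedSectionVars false
set_option linter.style.haveILetI false
universe u

noncomputable section

open AlgebraicCurve

namespace Fermat.Agent.S27.H970

open Fermat.Agent.S25 Fermat.Agent.Lib.RR Fermat.Agent.Lib.RR.H638 Fermat.Agent.Lib.RR.H623

variable (K F : Type u) {R₀ R₁ : Type u} (R₀₁ : Type u) [Field K] [Field F] [Algebra K F]
  [CommRing R₀] [CommRing R₁] [CommRing R₀₁] [Algebra K R₀] [Algebra K R₁] [Algebra K R₀₁]
  [Algebra R₀ R₀₁] [Algebra R₁ R₀₁] [IsScalarTower K R₀ R₀₁] [IsScalarTower K R₁ R₀₁]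
  [Algebra R₀ F] [Algebra R₁ F] [Algebra R₀₁ F]
  [IsScalarTower R₀ R₀₁ F] [IsScalarTower R₁ R₀₁ F]
  [IsScalarTower K R₀ F] [IsScalarTower K R₁ F] [IsScalarTower K R₀₁ F]

/-- The cospan `R₀ → R₀₁ ← R₁` realises inside `F` the two charts `x ≠ ∞`, `x ≠ 0` of the
nonconstant function `x = x₀`, with `y₁ = 1 / x`. -/
structure IsFFCospan (x₀ : R₀) (y₁ : R₁) : Prop where
  ff1 : FF1 K F
  x_nonconst : algebraMap R₀ F x₀ ∉ Set.range (algebraMap K F)
  mul_eq_one : algebraMap R₀ F x₀ * algebraMap R₁ F y₁ = 1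
  range₀ : ∀ f : F, f ∈ Set.range (algebraMap R₀ F) ↔
    ∀ v : Place K F, 0 ≤ v.ord (algebraMap R₀ F x₀) → 0 ≤ v.ord f
  range₁ : ∀ f : F, f ∈ Set.range (algebraMap R₁ F) ↔
    ∀ v : Place K F, v.ord (algebraMap R₀ F x₀) ≤ 0 → 0 ≤ v.ord f
  dedekind₀ : IsDedekindDomain R₀
  dedekind₁ : IsDedekindDomain R₁
  frac₀ : IsFractionRing R₀ F
  frac₁ : IsFractionRing R₁ F
  away₀ : IsLocalization.Away x₀ R₀₁
  away₁ : IsLocalization.Away y₁ R₀₁

variable {K F R₀₁}

namespace IsFFCospan

variable {x₀ : R₀} {y₁ : R₁} (h : IsFFCospan K F R₀₁ x₀ y₁)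

include h

theorem x_ne_zero : algebraMap R₀ F x₀ ≠ 0 := fun h0 =>
  h.x_nonconst ⟨0, by rw [map_zero, h0]⟩

theorem inj₀ : Function.Injective (algebraMap R₀ F) :=
  haveI := h.frac₀
  haveI := h.dedekind₀
  IsFractionRing.injective R₀ F

theorem inj₁ : Function.Injective (algebraMap R₁ F) :=
  haveI := h.frac₁
  haveI := h.dedekind₁
  IsFractionRing.injective R₁ F

theorem y_eq : algebraMap R₁ F y₁ = (algebraMap R₀ F x₀)⁻¹ :=
  eq_inv_of_mul_eq_one_right h.mul_eq_one

/-- The zeros of `x`. -/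
def Tz : Finset (Place K F) :=
  haveI := h.ff1
  zerosOf (K := K) (algebraMap R₀ F x₀) h.x_ne_zero

/-- The poles of `x`. -/
def Ti : Finset (Place K F) :=
  haveI := h.ff1
  polesOf (K := K) (algebraMap R₀ F x₀) h.x_ne_zero

theorem mem_Tz {v : Place K F} : v ∈ h.Tz ↔ 0 < v.ord (algebraMap R₀ F x₀) :=
  haveI := h.ff1
  mem_zerosOf

theorem mem_Ti {v : Place K F} : v ∈ h.Ti ↔ v.ord (algebraMap R₀ F x₀) < 0 :=
  haveI := h.ff1
  mem_polesOf

theorem disjoint : Disjoint h.Tz h.Ti :=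
  haveI := h.ff1
  disjoint_zerosOf_polesOf _ _

theorem Tz_nonempty : h.Tz.Nonempty :=
  haveI := h.ff1
  zerosOf_nonempty _ h.x_nonconst

theorem Ti_nonempty : h.Ti.Nonempty :=
  haveI := h.ff1
  polesOf_nonempty _ h.x_nonconst

theorem reg₀ (r : R₀) (v : Place K F) (hv : v ∉ (h.Ti : Set (Place K F))) :
    0 ≤ v.ord (algebraMap R₀ F r) := by
  refine (h.range₀ _).mp ⟨r, rfl⟩ v ?_
  rw [Finset.mem_coe, h.mem_Ti] at hv
  omega

theorem reg₁ (r : R₁) (v : Place K F) (hv : v ∉ (h.Tz : Set (Place K F))) :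
    0 ≤ v.ord (algebraMap R₁ F r) := by
  refine (h.range₁ _).mp ⟨r, rfl⟩ v ?_
  rw [Finset.mem_coe, h.mem_Tz] at hv
  omega

theorem ord_x_eq_zero {v : Place K F} (hv : v ∉ (h.Tz : Set (Place K F)) ∪ h.Ti) :
    v.ord (algebraMap R₀ F x₀) = 0 := by
  rw [Set.mem_union, Finset.mem_coe, Finset.mem_coe, h.mem_Tz, h.mem_Ti] at hv
  omega

theorem algebraMap₀₁_x : algebraMap R₀₁ F (algebraMap R₀ R₀₁ x₀) = algebraMap R₀ F x₀ :=
  (IsScalarTower.algebraMap_apply R₀ R₀₁ F x₀).symm

theorem reg₀₁ (r : R₀₁) (v : Place K F) (hv : v ∉ (h.Tz : Set (Place K F)) ∪ h.Ti) :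
    0 ≤ v.ord (algebraMap R₀₁ F r) := by
  haveI := h.away₀
  obtain ⟨⟨a, s⟩, hr⟩ := IsLocalization.surj (Submonoid.powers x₀) r
  obtain ⟨n, hn⟩ := s.2
  have h1 : algebraMap R₀₁ F r * (algebraMap R₀ F x₀) ^ n = algebraMap R₀ F a := by
    have := congrArg (algebraMap R₀₁ F) hr
    rw [map_mul, ← IsScalarTower.algebraMap_apply R₀ R₀₁ F,
      ← IsScalarTower.algebraMap_apply R₀ R₀₁ F] at this
    rw [← this]
    simp only [← hn, map_pow]
  have hx0 := h.ord_x_eq_zero hv
  have ha : 0 ≤ v.ord (algebraMap R₀ F a) :=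
    h.reg₀ a v (fun hv' => hv (Or.inr hv'))
  by_cases hr0 : algebraMap R₀₁ F r = 0
  · rw [hr0, v.ord_zero]
  · rw [← h1, v.ord_mul hr0 (pow_ne_zero _ h.x_ne_zero), ord_pow, hx0, mul_zero,
      add_zero] at ha
    exact ha

theorem range₀' (f : F) (hf : ∀ v : Place K F, v ∉ (h.Ti : Set (Place K F)) → 0 ≤ v.ord f) :
    f ∈ Set.range (algebraMap R₀ F) := by
  refine (h.range₀ f).mpr fun v hv => hf v ?_
  rw [Finset.mem_coe, h.mem_Ti]
  omega

theorem range₁' (f : F) (hf : ∀ v : Place K F, v ∉ (h.Tz : Set (Place K F)) → 0 ≤ v.ord f) :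
    f ∈ Set.range (algebraMap R₁ F) := by
  refine (h.range₁ f).mpr fun v hv => hf v ?_
  rw [Finset.mem_coe, h.mem_Tz]
  omega

end IsFFCospan

end Fermat.Agent.S27.H970

end
end
-- ===== PACK-END S27/H970/Cospan.lean

-- ===== PACK-BEGIN Lib/RR/H439/StrongApprox.lean
section



/-!
# Strong approximation inside Riemann–Roch spaces (vanishing of `H¹` in large degree)

(helper439, cell A3 / pieces D5, D8(b): "the jet matrix has full rank".)

* `sup_eq_top_of_degree_gt` : `deg D > 2g - 2` ⟹ `𝔸 = 𝔸(D) + F`.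
* `exists_approx`           : `deg D > 2g - 2`, `S` finite, targets `φ v` (`v ∈ S`) ⟹ there is
                              `f ∈ F` with `ord_v (f - φ v) ≥ -D(v)` on `S` and `ord_v f ≥ -D(v)`
                              off `S`.
* `exists_mem_L_approx`     : interpolation of jets inside `L(B)`: if `D ≥ 0` on `S`,
                              `D = 0` off `S`, `deg (B - D) > 2g - 2` and the targets satisfy
                              `ord_v (φ v) ≥ -B(v)`, then some `f ∈ L(B)` has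
                              `ord_v (f - φ v) ≥ D(v) - B(v)` for all `v ∈ S`.
-/

set_option autoImplicit false

noncomputable section

open AlgebraicCurve

namespace Fermat.Agent.Lib.RR.H439

open Fermat.Agent.Lib.RR

variable {K F : Type*} [Field K] [Field F] [Algebra K F] [FF1 K F]

/-- **Vanishing of `H¹`**: if `deg D > 2g - 2` then `𝔸 = 𝔸(D) + F`. -/
theorem sup_eq_top_of_degree_gt {D : Divisor K F}
    (hD : 2 * (genusFF K F : ℤ) - 2 < Divisor.degree D) :
    repartitionsOf D ⊔ principalRepartitions K F = ⊤ :=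
  sup_eq_top_of_attains (genusFF K F : ℤ) (fun D' => riemann_inequality_genusFF D') D
    (ell_eq_of_degree_gt hD)

open Classical in
/-- **Strong approximation**: if `deg D > 2g - 2`, then for every finite set `S` of places and
arbitrary targets `φ v ∈ F` there is `f ∈ F` with `ord_v (f - φ v) ≥ -D(v)` for `v ∈ S` and
`ord_v f ≥ -D(v)` for `v ∉ S`. -/
theorem exists_approx {D : Divisor K F}
    (hD : 2 * (genusFF K F : ℤ) - 2 < Divisor.degree D) (S : Finset (Place K F))
    (φ : Place K F → F) :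
    ∃ f : F, (∀ v ∈ S, f - φ v = 0 ∨ -D v ≤ v.ord (f - φ v)) ∧
      ∀ v ∉ S, f = 0 ∨ -D v ≤ v.ord f := by
  -- the repartition `α = φ` on `S`, `0` elsewhere
  let α₀ : Place K F → F := fun v => if v ∈ S then φ v else 0
  have hα₀ : α₀ ∈ repartitions K F := by
    apply mem_repartitions_of_finite_ord
    refine (Finset.finite_toSet S).subset fun v hv => ?_
    by_contra hvS
    have hv' : v.ord (α₀ v) < 0 := hv
    have : α₀ v = 0 := if_neg hvS
    rw [this, v.ord_zero] at hv'
    exact lt_irrefl _ hv'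
  let α : ↥(repartitions K F) := ⟨α₀, hα₀⟩
  have hmem : α ∈ repartitionsOf D ⊔ principalRepartitions K F := by
    rw [sup_eq_top_of_degree_gt hD]; trivial
  obtain ⟨β, hβ, γ, hγ, hsum⟩ := Submodule.mem_sup.mp hmem
  obtain ⟨f, hf⟩ := mem_principalRepartitions_iff.mp hγ
  rw [mem_repartitionsOf_iff] at hβ
  have hval : ∀ v, (β : Place K F → F) v = α₀ v - f := by
    intro v
    have h1 := congrArg (fun x : ↥(repartitions K F) => (x : Place K F → F) v) hsum
    simp only [coe_add_apply] at h1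
    have h2 : (γ : Place K F → F) v = f := by rw [hf]
    rw [h2] at h1
    have h3 : (α : Place K F → F) v = α₀ v := rfl
    rw [h3] at h1
    rw [← h1]; ring
  refine ⟨f, fun v hv => ?_, fun v hv => ?_⟩
  · have h := hβ v
    rw [hval v] at h
    have hα : α₀ v = φ v := if_pos hv
    rw [hα] at h
    rcases h with h | h
    · left
      rw [← neg_sub, h, neg_zero]
    · right
      rw [← neg_sub, ord_neg]
      exact h
  · have h := hβ v
    rw [hval v] at h
    have hα : α₀ v = 0 := if_neg hv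
    rw [hα, zero_sub] at h
    rcases h with h | h
    · left
      exact neg_eq_zero.mp h
    · right
      rwa [ord_neg] at h

/-- **Interpolation of jets in `L(B)`**.  Let `D` be a divisor with `D ≥ 0` on the finite set `S`
and `D = 0` off `S`, and assume `deg (B - D) > 2g - 2`.  For arbitrary targets `φ v ∈ F`
(`v ∈ S`) with `ord_v (φ v) ≥ -B(v)` there is `f ∈ L(B)` with
`ord_v (f - φ v) ≥ D(v) - B(v)` for all `v ∈ S`. -/
theorem exists_mem_L_approx {B D : Divisor K F} (S : Finset (Place K F))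
    (hDS : ∀ v ∈ S, 0 ≤ D v) (hD0 : ∀ v ∉ S, D v = 0)
    (hdeg : 2 * (genusFF K F : ℤ) - 2 < Divisor.degree (B - D))
    (φ : Place K F → F) (hφ : ∀ v ∈ S, φ v = 0 ∨ -B v ≤ v.ord (φ v)) :
    ∃ f ∈ riemannRochSpace B, ∀ v ∈ S, f - φ v = 0 ∨ D v - B v ≤ v.ord (f - φ v) := by
  obtain ⟨f, h1, h2⟩ := exists_approx hdeg S φ
  simp only [Finsupp.coe_sub, Pi.sub_apply, neg_sub] at h1 h2
  refine ⟨f, ?_, h1⟩
  rw [mem_L_iff]
  intro v
  by_cases hv : v ∈ S
  · -- `f = (f - φ v) + φ v`
    have hdec : f = (f - φ v) + φ v := by ring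
    have hD := hDS v hv
    have ha : f - φ v = 0 ∨ -B v ≤ v.ord (f - φ v) := by
      rcases h1 v hv with h | h
      · exact Or.inl h
      · right; omega
    have := ord_add_of_le v ha (hφ v hv)
    rwa [← hdec] at this
  · have := h2 v hv
    rw [hD0 v hv] at this
    rcases this with h | h
    · exact Or.inl h
    · right; omega

end Fermat.Agent.Lib.RR.H439

end
end
-- ===== PACK-END Lib/RR/H439/StrongApprox.lean

-- ===== PACK-BEGIN S18/B12/H273/B2Normal.lean
section




/-!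
# S18 b2 / S37 RED-E (helper273): FULL NORMALITY of the special fibre, `B2NormalStatement`

Requested by row S37 (helper37, `coord/S37-b2-request.md`): same hypotheses as `B2Statement`
(`B12/Spec.lean`), but for ALL integral elements `ε = b/g` of the total fraction ring of `B/wB`
(not only idempotents), and WITHOUT assuming that `B/wB` is a domain.

* `exists_eq_smul_of_integral_eq` : abstract form over a PID `Λ` (non-domain version of A8
  `IntClosedOfDiscrStatement`): `C` free over `Λ` with the discriminant bound of the heart at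
  every prime `t`; `e ^ d + ∑ a i * e ^ i * g ^ (d - i) = 0`, `g ≠ 0` ⟹ `e = g • c`.
* `b2NormalAbs` : abstract form over `P` (setting of `B2CoreAbsStatement`).
* `b2Normal : B2NormalStatement` : the exact statement wanted by S37; `b2Normal_unfolded` the
  same with the definition unfolded; `b2_of_b2Normal : B2Statement` (the case `d = 2`).

Inputs (all on main, unconditional): `H33.b2CoreAbs` (heart A6'), `H93.regSeqAbs` (A0),
`H203.polyInst` (A1), `H278.mem_range_of_isIntegral_of_forall_prime` (Theorem L, global form).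
-/

set_option autoImplicit false
set_option linter.style.haveILetI false
set_option linter.unusedSectionVars false

noncomputable section

namespace Fermat.Agent.S18.B12.H273

open Polynomial

universe u v

/-- **b2, full normality form** (statement requested by row S37, helper37 note #4592).
`ε = b/g` satisfies `ε ^ d + ∑ a i * ε ^ i = 0` in `Frac(B/wB)` ⟹ `ε ∈ B/wB`. -/
def B2NormalStatement : Prop :=
  ∀ (R : Type u) [CommRing R] [IsDomain R] [IsDiscreteValuationRing R] [CharZero R]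
    (w : R) (_ : Irreducible w)
    (B : Type v) [CommRing B] [IsDomain B] [IsIntegrallyClosed B] [Algebra R[X] B]
    [Module.Finite R[X] B] [Module.IsTorsionFree R[X] B]
    (_ : ∃ x : Fin (Module.finrank R[X] B) → B,
        ¬ C w ∣ (Matrix.of fun i j => Algebra.intTrace R[X] B (x i * x j)).det)
    (S : Finset R) (_ : ∀ c ∈ S, ∀ c' ∈ S, c ≠ c' → IsUnit (c - c'))
    (_ : ∀ π : R[X], Prime π → ¬ Associated π (C w) → (∀ c ∈ S, ¬ Associated π (X - C c)) →
        (Ideal.span {algebraMap R[X] B π}).IsRadical)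
    (b : B) (g : R[X]), ¬ C w ∣ g →
    (∃ (d : ℕ) (a : Fin d → B),
        b ^ d + ∑ i : Fin d, a i * b ^ (i : ℕ) * algebraMap R[X] B g ^ (d - (i : ℕ)) ∈
          Ideal.span {algebraMap R[X] B (C w)}) →
      ∃ b₀ : B, b - algebraMap R[X] B g * b₀ ∈ Ideal.span {algebraMap R[X] B (C w)}

/-- Abstract version of `B2NormalStatement` (setting of `B2CoreAbsStatement`, Spec3). -/
def B2NormalAbsStatement : Prop :=
  ∀ (P : Type u) [CommRing P] [IsDomain P] [UniqueFactorizationMonoid P] [IsNoetherianRing P]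
    (w : P) (_ : Prime w) (_ : IsPrincipalIdealRing (P ⧸ Ideal.span {w}))
    (_ : IsPrincipalIdealRing (Localization.Away w))
    (_ : ∀ m : ℕ, m ≠ 0 → IsUnit (algebraMap P (Localization.Away w) (m : P)))
    (B : Type v) [CommRing B] [IsDomain B] [IsIntegrallyClosed B] [Algebra P B]
    [Module.Finite P B] [Module.IsTorsionFree P B]
    (_ : ∃ x : Fin (Module.finrank P B) → B, ¬ w ∣ intDiscr P B x)
    (S : Finset P)
    (_ : ∀ s ∈ S, Prime s ∧ ¬ Associated s w ∧ (Ideal.span {w, s}).IsMaximal ∧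
      IsPrincipalIdealRing (P ⧸ Ideal.span {s}))
    (_ : ∀ s ∈ S, ∀ s' ∈ S, s ≠ s' → s' ∉ Ideal.span {w, s})
    (_ : ∀ π : P, Prime π → ¬ Associated π w → (∀ s ∈ S, ¬ Associated π s) →
        (Ideal.span {algebraMap P B π}).IsRadical)
    (b : B) (g : P), ¬ w ∣ g →
    (∃ (d : ℕ) (a : Fin d → B),
        b ^ d + ∑ i : Fin d, a i * b ^ (i : ℕ) * algebraMap P B g ^ (d - (i : ℕ)) ∈
          Ideal.span {algebraMap P B w}) →
      ∃ b₀ : B, b - algebraMap P B g * b₀ ∈ Ideal.span {algebraMap P B w}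

/-- **Normality of a free algebra over a PID from the discriminant bounds** (non-domain form of
A8): if `e ^ d + ∑ a i * e ^ i * g ^ (d - i) = 0` with `g ≠ 0`, then `e = g • c`. -/
theorem exists_eq_smul_of_integral_eq
    {Λ : Type u} [CommRing Λ] [IsDomain Λ] [IsPrincipalIdealRing Λ]
    {C : Type v} [CommRing C] [Algebra Λ C] {n : ℕ} (bb : Module.Basis (Fin n) Λ C)
    (hloc : ∀ t : Λ, Prime t → ∃ (s : ℕ) (y : Fin s → C),
      (∀ c : C, ∃ a : Fin s → Λ,
        c - ∑ i, a i • y i ∈ (Ideal.span {algebraMap Λ C t}).radical) ∧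
      ¬ t ^ (n - s + 1) ∣ Algebra.discr Λ bb)
    (e : C) (g : Λ) (hg : g ≠ 0) (d : ℕ) (a : Fin d → C)
    (he : e ^ d + ∑ i : Fin d, a i * e ^ (i : ℕ) * algebraMap Λ C g ^ (d - (i : ℕ)) = 0) :
    ∃ c : C, e = g • c := by
  classical
  haveI : Module.Free Λ C := Module.Free.of_basis bb
  haveI : Module.Finite Λ C := Module.Finite.of_basis bb
  let L₀ := Localization (Algebra.algebraMapSubmonoid C (nonZeroDivisors Λ))
  have hinj : Function.Injective (algebraMap C L₀) :=
    Fermat.Agent.S37.H278.algebraMap_injective_of_free (o := Λ) L₀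
  have hunit : ∀ r : Λ, r ≠ 0 → IsUnit (algebraMap Λ L₀ r) := by
    intro r hr
    rw [IsScalarTower.algebraMap_apply Λ C L₀]
    exact IsLocalization.map_units L₀ (⟨algebraMap Λ C r, ⟨r, mem_nonZeroDivisors_of_ne_zero hr,
      rfl⟩⟩ : Algebra.algebraMapSubmonoid C (nonZeroDivisors Λ))
  have hL : ∀ (r : Λ) (l : L₀), r ≠ 0 → r • l = 0 → l = 0 := by
    intro r l hr h
    rw [Algebra.smul_def] at h
    exact ((hunit r hr).mul_right_eq_zero).mp h
  obtain ⟨w, hw⟩ := (hunit g hg).exists_left_inv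
  -- the fraction `ε = e / g`
  obtain ⟨ε, hε⟩ : ∃ ε : L₀, ε = w * algebraMap C L₀ e := ⟨_, rfl⟩
  have hgε : algebraMap Λ L₀ g * ε = algebraMap C L₀ e := by
    rw [hε, ← mul_assoc, mul_comm _ w, hw, one_mul]
  -- `ε` is a root of the monic polynomial `X ^ d + ∑ a i X ^ i` over `C`
  have hroot : ε ^ d + ∑ i : Fin d, algebraMap C L₀ (a i) * ε ^ (i : ℕ) = 0 := by
    have hu : IsUnit (algebraMap Λ L₀ g ^ d) := (hunit g hg).pow d
    apply (hu.mul_right_eq_zero).mp
    have h1 := congrArg (algebraMap C L₀) he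
    rw [map_zero, map_add, map_pow, map_sum] at h1
    rw [← h1, mul_add, ← mul_pow, hgε, Finset.mul_sum]
    congr 1
    refine Finset.sum_congr rfl fun i _ => ?_
    rw [map_mul, map_mul, map_pow, map_pow, ← IsScalarTower.algebraMap_apply Λ C L₀, ← hgε]
    have hi : (i : ℕ) + (d - (i : ℕ)) = d := Nat.add_sub_cancel' i.2.le
    calc algebraMap Λ L₀ g ^ d * (algebraMap C L₀ (a i) * ε ^ (i : ℕ))
        = algebraMap Λ L₀ g ^ ((i : ℕ) + (d - (i : ℕ))) * (algebraMap C L₀ (a i) * ε ^ (i : ℕ)) := by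
          rw [hi]
      _ = algebraMap C L₀ (a i) * (algebraMap Λ L₀ g * ε) ^ (i : ℕ) *
            algebraMap Λ L₀ g ^ (d - (i : ℕ)) := by
          rw [pow_add, mul_pow]; ring
  have hintC : IsIntegral C ε := by
    refine ⟨X ^ d + ∑ i : Fin d, Polynomial.C (a i) * X ^ (i : ℕ), ?_, ?_⟩
    · exact Polynomial.monic_X_pow_add (Polynomial.degree_sum_fin_lt a)
    · simp only [Polynomial.eval₂_add, Polynomial.eval₂_pow, Polynomial.eval₂_X,
        Polynomial.eval₂_finsetSum, Polynomial.eval₂_mul, Polynomial.eval₂_C]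
      exact hroot
  haveI : Algebra.IsIntegral Λ C := Algebra.IsIntegral.of_finite Λ C
  have hint : IsIntegral Λ ε := isIntegral_trans ε hintC
  have hx0 : ∃ g₀ : Λ, g₀ ≠ 0 ∧ g₀ • ε ∈ (IsScalarTower.toAlgHom Λ C L₀).range :=
    ⟨g, hg, e, by rw [Algebra.smul_def, hgε]; rfl⟩
  obtain ⟨c, hc⟩ := H278.mem_range_of_isIntegral_of_forall_prime hL
    (IsScalarTower.toAlgHom Λ C L₀) hinj bb (by simpa using hloc) ε hint hx0
  have hc' : algebraMap C L₀ c = ε := hc
  refine ⟨c, hinj ?_⟩
  rw [← hgε, ← hc', Algebra.smul_def, map_mul, ← IsScalarTower.algebraMap_apply]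

/-- **b2, full normality, abstract form** (unconditional). -/
theorem b2NormalAbs : B2NormalAbsStatement.{u, v} := by
  intro P _ _ _ _ w hw hΛ hΛ₀ hℚ B _ _ _ _ _ _ hsep S hS1 hS2 hNC b g hg hint
  obtain ⟨d, a, hd⟩ := hint
  have hJ : (Ideal.span {w}).map (algebraMap P B) = Ideal.span {algebraMap P B w} := by
    rw [Ideal.map_span, Set.image_singleton]
  haveI := hΛ
  haveI : IsDomain (P ⧸ Ideal.span {w}) := by
    rw [Ideal.Quotient.isDomain_iff_prime]
    exact (Ideal.span_singleton_prime hw.ne_zero).mpr hw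
  haveI tf := H33.isTorsionFree_quotient (B := B) H93.regSeqAbs w hw
  haveI : Module.Finite (P ⧸ Ideal.span {w}) (B ⧸ (Ideal.span {w}).map (algebraMap P B)) :=
    Module.Finite.of_restrictScalars_finite P _ _
  haveI : Module.Free (P ⧸ Ideal.span {w}) (B ⧸ (Ideal.span {w}).map (algebraMap P B)) :=
    Module.free_of_finite_type_torsion_free'
  let bb := Module.finBasis (P ⧸ Ideal.span {w}) (B ⧸ (Ideal.span {w}).map (algebraMap P B))
  have hcore' := H33.b2CoreAbs P w hw hΛ hΛ₀ hℚ B hsep S hS1 hS2 hNC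
  have hg' : Ideal.Quotient.mk (Ideal.span {w}) g ≠ 0 := fun h =>
    hg (Ideal.mem_span_singleton.mp (Ideal.Quotient.eq_zero_iff_mem.mp h))
  have halg : ∀ r : P, algebraMap (P ⧸ Ideal.span {w}) (B ⧸ (Ideal.span {w}).map (algebraMap P B))
      (Ideal.Quotient.mk (Ideal.span {w}) r)
      = Ideal.Quotient.mk ((Ideal.span {w}).map (algebraMap P B)) (algebraMap P B r) :=
    fun r => rfl
  have he : Ideal.Quotient.mk ((Ideal.span {w}).map (algebraMap P B)) b ^ d +
      ∑ i : Fin d, Ideal.Quotient.mk ((Ideal.span {w}).map (algebraMap P B)) (a i) *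
        Ideal.Quotient.mk ((Ideal.span {w}).map (algebraMap P B)) b ^ (i : ℕ) *
        algebraMap (P ⧸ Ideal.span {w}) (B ⧸ (Ideal.span {w}).map (algebraMap P B))
          (Ideal.Quotient.mk (Ideal.span {w}) g) ^ (d - (i : ℕ)) = 0 := by
    rw [← hJ] at hd
    have h1 := Ideal.Quotient.eq_zero_iff_mem.mpr hd
    rw [map_add, map_pow, map_sum] at h1
    rw [← h1]
    congr 1
  obtain ⟨c, hc⟩ := exists_eq_smul_of_integral_eq bb (fun t ht => (hcore' t ht _ bb).2)
    _ _ hg' d _ he
  obtain ⟨b₀, rfl⟩ := Ideal.Quotient.mk_surjective c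
  refine ⟨b₀, ?_⟩
  rw [← hJ, ← Ideal.Quotient.eq_zero_iff_mem, map_sub, map_mul, hc, Algebra.smul_def, halg,
    sub_self]

/-- **b2, full normality** (unconditional): the exact statement requested by row S37. -/
theorem b2Normal : B2NormalStatement.{u, v} := by
  intro R _ _ _ _ w hw B _ _ _ _ _ _ hsep S hS hNC b g hg hint
  obtain ⟨hCw, hΛ, hΛ₀, hℚ, hc⟩ := H203.polyInst R w hw
  classical
  have hS1' : ∀ s ∈ S.image (fun c => (X - C c : R[X])), Prime s ∧ ¬ Associated s (C w) ∧
      (Ideal.span {(C w : R[X]), s}).IsMaximal ∧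
      IsPrincipalIdealRing (R[X] ⧸ Ideal.span {s}) := by
    intro s hs
    obtain ⟨c, -, rfl⟩ := Finset.mem_image.mp hs
    obtain ⟨h1, h2, h3, h4, -⟩ := hc c
    exact ⟨h1, h2, h3, h4⟩
  have hS2' : ∀ s ∈ S.image (fun c => (X - C c : R[X])),
      ∀ s' ∈ S.image (fun c => (X - C c : R[X])), s ≠ s' →
      s' ∉ Ideal.span {(C w : R[X]), s} := by
    intro s hs s' hs' hne hmem
    obtain ⟨c, hcS, rfl⟩ := Finset.mem_image.mp hs
    obtain ⟨c', hcS', rfl⟩ := Finset.mem_image.mp hs'
    have hcc : c ≠ c' := fun h => hne (by rw [h])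
    exact (hc c).2.2.2.2 c' hmem (hS c hcS c' hcS' hcc)
  have hNC' : ∀ π : R[X], Prime π → ¬ Associated π (C w) →
      (∀ s ∈ S.image (fun c => (X - C c : R[X])), ¬ Associated π s) →
      (Ideal.span {algebraMap R[X] B π}).IsRadical := by
    intro π hπ hπw hπS
    exact hNC π hπ hπw (fun c hcS => hπS _ (Finset.mem_image_of_mem _ hcS))
  exact b2NormalAbs R[X] (C w) hCw hΛ hΛ₀ hℚ B hsep (S.image (fun c => (X - C c : R[X])))
    hS1' hS2' hNC' b g hg hint

/-- `b2Normal` with the definition unfolded (no need to import the `def`). -/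
theorem b2Normal_unfolded
    (R : Type u) [CommRing R] [IsDomain R] [IsDiscreteValuationRing R] [CharZero R]
    (w : R) (hw : Irreducible w)
    (B : Type v) [CommRing B] [IsDomain B] [IsIntegrallyClosed B] [Algebra R[X] B]
    [Module.Finite R[X] B] [Module.IsTorsionFree R[X] B]
    (hsep : ∃ x : Fin (Module.finrank R[X] B) → B,
        ¬ C w ∣ (Matrix.of fun i j => Algebra.intTrace R[X] B (x i * x j)).det)
    (S : Finset R) (hS : ∀ c ∈ S, ∀ c' ∈ S, c ≠ c' → IsUnit (c - c'))
    (hNC : ∀ π : R[X], Prime π → ¬ Associated π (C w) → (∀ c ∈ S, ¬ Associated π (X - C c)) →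
        (Ideal.span {algebraMap R[X] B π}).IsRadical)
    (b : B) (g : R[X]) (hg : ¬ C w ∣ g)
    (hint : ∃ (d : ℕ) (a : Fin d → B),
        b ^ d + ∑ i : Fin d, a i * b ^ (i : ℕ) * algebraMap R[X] B g ^ (d - (i : ℕ)) ∈
          Ideal.span {algebraMap R[X] B (C w)}) :
    ∃ b₀ : B, b - algebraMap R[X] B g * b₀ ∈ Ideal.span {algebraMap R[X] B (C w)} :=
  b2Normal R w hw B hsep S hS hNC b g hg hint

/-- **O2 = `B2Statement`** (idempotent form, Spec.lean) is the case `d = 2`, `a = (0, -g)`. -/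
theorem b2_of_b2Normal : B2Statement.{u, v} := by
  intro R _ _ _ _ w hw B _ _ _ _ _ _ hsep S hS hNC b g hg hb
  refine b2Normal R w hw B hsep S hS hNC b g hg ⟨2, ![0, -1], ?_⟩
  have : b ^ 2 + ∑ i : Fin 2, (![0, -1] : Fin 2 → B) i * b ^ (i : ℕ) *
      algebraMap R[X] B g ^ (2 - (i : ℕ)) = b ^ 2 - algebraMap R[X] B g * b := by
    simp [Fin.sum_univ_two]
    ring
  rw [this]
  exact hb

end Fermat.Agent.S18.B12.H273

end
end
-- ===== PACK-END S18/B12/H273/B2Normal.lean

-- ===== PACK-BEGIN S18/H634/HauptMember.lean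
section



/-!
# S18 / c3 (helper634): the Hauptmoduln `t2`, `t3` of `Lib/Haupt` (helper637) are transcendental
# and lie in the modular function fields

All statements are about `Fermat.Agent.Lib.Haupt.t2`, `Fermat.Agent.Lib.Haupt.t3`.

* `transcendental_t2`, `transcendental_t3` (any commutative ring of constants)
* `t2_mem_fullC : (2 : K) ≠ 0 → 2 ∣ M → t2 K ∈ modularFunctionFieldFullC K M`
* `t3_mem_fullC : (3 : K) ≠ 0 → 3 ∣ M → t3 K ∈ modularFunctionFieldFullC K M`
* `t2_mem_baseChange`, `t3_mem_baseChange` : membership in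
  `laurentBaseChange L (modularFunctionFieldFull M)` for every field `L` of characteristic `0`.
* `t2_eq_div`, `t3_eq_div` : the explicit rational expressions `t = -num(j, j_d) / den(j, j_d)`.

The membership proofs are explicit eliminations (first subresultant of the two relations of
`Lib/Haupt/Laurent.lean`); the big polynomial expressions are GENERATED
(coord/S18-c3-genmem-helper634.py.txt).
-/

set_option autoImplicit false
set_option maxHeartbeats 4000000
set_option maxRecDepth 100000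

noncomputable section

namespace Fermat.Agent.S18.H634

open ModularCurve HahnSeries Fermat.Agent.Lib.Haupt

/-- series of Hauptmodul shape `q⁻¹ · J(q)` -/
def hauptForm (K : Type*) [CommRing K] (J : PowerSeries ℤ) : LaurentSeries K :=
  qinv K * lau K J

theorem t2_eq_hauptForm (K : Type*) [CommRing K] : t2 K = hauptForm K T2 := rfl

theorem t3_eq_hauptForm (K : Type*) [CommRing K] : t3 K = hauptForm K T3 := rfl

theorem t2_rel_j (K : Type*) [CommRing K] : jqModC K * t2 K ^ 2 = (t2 K + 256) ^ 3 :=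
  jq_mul_t2_sq K

theorem t2_rel_j2 (K : Type*) [CommRing K] : jqNModC K 2 * t2 K = (t2 K + 16) ^ 3 :=
  jq2_mul_t2 K

theorem t3_rel_j (K : Type*) [CommRing K] :
    jqModC K * t3 K ^ 3 = (t3 K + 27) * (t3 K + 243) ^ 3 :=
  jq_mul_t3_cube K

theorem t3_rel_j3 (K : Type*) [CommRing K] :
    jqNModC K 3 * t3 K = (t3 K + 27) * (t3 K + 3) ^ 3 :=
  jq3_mul_t3 K

/-! ### series of Hauptmodul shape -/

section HauptForm

variable (K : Type*) [CommRing K] (J : PowerSeries ℤ)

theorem hauptForm_pow (n : ℕ) :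
    hauptForm K J ^ n = HahnSeries.single (-(n : ℤ)) 1 *
      HahnSeries.ofPowerSeries ℤ K ((J.map (Int.castRingHom K)) ^ n) := by
  have h : n • (-1 : ℤ) = -(n : ℤ) := by simp
  rw [hauptForm, qinv, lau, mul_pow, HahnSeries.single_pow, one_pow, h, ← map_pow]

variable {J}

theorem constantCoeff_map_int (hJ : PowerSeries.constantCoeff J = 1) :
    PowerSeries.constantCoeff (J.map (Int.castRingHom K)) = 1 := by
  rw [← PowerSeries.coeff_zero_eq_constantCoeff, PowerSeries.coeff_map,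
    PowerSeries.coeff_zero_eq_constantCoeff, hJ, map_one]

theorem coeff_hauptForm_pow_self (hJ : PowerSeries.constantCoeff J = 1) (n : ℕ) :
    (hauptForm K J ^ n).coeff (-(n : ℤ)) = 1 := by
  rw [hauptForm_pow, HahnSeries.coeff_single_mul, one_mul, sub_neg_eq_add, neg_add_cancel,
    show (0 : ℤ) = ((0 : ℕ) : ℤ) from rfl, HahnSeries.ofPowerSeries_apply_coeff,
    PowerSeries.coeff_zero_eq_constantCoeff, map_pow, constantCoeff_map_int K hJ, one_pow]

variable (J) in
theorem coeff_hauptForm_pow_of_lt {n : ℕ} {m : ℤ} (hm : m < -(n : ℤ)) :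
    (hauptForm K J ^ n).coeff m = 0 := by
  rw [hauptForm_pow, HahnSeries.coeff_single_mul, one_mul]
  exact ofPowerSeries_coeff_of_neg _ (by omega)

theorem algebraMap_laurent_eq_single (c : K) :
    algebraMap K (LaurentSeries K) c = HahnSeries.single 0 c := by
  have h1 : algebraMap K (PowerSeries K) c = PowerSeries.C c := by simp
  rw [HahnSeries.algebraMap_apply', h1, HahnSeries.ofPowerSeries_C]
  rfl

theorem aeval_hauptForm_eq_zero (hJ : PowerSeries.constantCoeff J = 1) {p : Polynomial K}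
    (hp : Polynomial.aeval (hauptForm K J) p = 0) : p = 0 := by
  by_contra hp0
  set n := p.natDegree with hn
  have hcoeff : (Polynomial.aeval (hauptForm K J) p).coeff (-(n : ℤ)) = p.coeff n := by
    rw [Polynomial.aeval_def, Polynomial.eval₂_eq_sum_range, HahnSeries.coeff_sum,
      Finset.sum_eq_single n]
    · rw [algebraMap_laurent_eq_single, HahnSeries.coeff_single_zero_mul,
        coeff_hauptForm_pow_self K hJ, mul_one]
    · intro i hi hin
      have hilt : i < n := lt_of_le_of_ne (Nat.lt_succ_iff.mp (Finset.mem_range.mp hi)) hin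
      rw [algebraMap_laurent_eq_single, HahnSeries.coeff_single_zero_mul,
        coeff_hauptForm_pow_of_lt, mul_zero]
      omega
    · intro hn'
      exact absurd (Finset.self_mem_range_succ n) hn'
  rw [hp] at hcoeff
  simp only [HahnSeries.coeff_zero] at hcoeff
  exact hp0 (Polynomial.leadingCoeff_eq_zero.mp hcoeff.symm)

theorem transcendental_hauptForm (hJ : PowerSeries.constantCoeff J = 1) :
    Transcendental K (hauptForm K J) :=
  transcendental_iff.mpr fun _ hp => aeval_hauptForm_eq_zero K hJ hp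

theorem transcendental_t2 : Transcendental K (t2 K) :=
  transcendental_hauptForm K constantCoeff_T2

theorem transcendental_t3 : Transcendental K (t3 K) :=
  transcendental_hauptForm K constantCoeff_T3

end HauptForm


/-! ### `t2` lies in the function field of level divisible by `2` -/

section Memt2

variable {L : Type*} [Field L]

/-- (generated) the denominator of the elimination -/
def den2 (j J : L) : L := (19906560000) + (-161280) * J + (1) * J^2 + (25067520) * j + (1488) * j * J + (768) * j^2 + (-1) * j^2 * J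

/-- (generated) the numerator of the elimination -/
def num2 (j J : L) : L := (2707292160000) + (16773120) * J + (799211520) * j + (4096) * j^2

/-- (generated) first subresultant relation -/
theorem lin2 (j J t : L) (h1 : j * t ^ 2 = (t + 256) ^ 3) (h2 : J * t = (t + 16) ^ 3) :
    den2 j J * t + num2 j J = 0 := by
  unfold den2 num2
  linear_combination (-(((161280) + (1) * J + (48) * j) + ((-720) + (1) * j) * t)) * h1 + (-(((357120) + (-1) * J + (-1488) * j + (1) * j^2) + ((720) + (-1) * j) * t)) * h2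

/-- (generated) the denominator in terms of `t` -/
theorem den2_mul (j J t : L) (h1 : j * t ^ 2 = (t + 256) ^ 3) (h2 : J * t = (t + 16) ^ 3) :
    den2 j J * t ^ 5 = -((2 : L) ^ 24 * ((1) * t ^ 6 + (96) * t ^ 5 + (198960) * t ^ 4 + (9451775) * t ^ 3 + (814940160) * t ^ 2 + (1610612736) * t + (68719476736))) := by
  have e0 : den2 j J * t ^ 5 = (19906560000) * t ^ 5 + (-161280) * (J * t) ^ 1 * t ^ 4 + (1) * (J * t) ^ 2 * t ^ 3 + (25067520) * (j * t ^ 2) ^ 1 * t ^ 3 + (1488) * (j * t ^ 2) ^ 1 * (J * t) ^ 1 * t ^ 2 + (768) * (j * t ^ 2) ^ 2 * t ^ 1 + (-1) * (j * t ^ 2) ^ 2 * (J * t) ^ 1 := by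
    unfold den2
    ring
  rw [e0, h1, h2]
  ring

end Memt2

theorem den2_jq_ne_zero (K : Type*) [Field K] (hchar : (2 : K) ≠ 0) :
    den2 (jqModC K) (jqNModC K 2) ≠ 0 := by
  have h1 := t2_rel_j K
  have h2 := t2_rel_j2 K
  have hlin := lin2 (jqModC K) (jqNModC K 2) (t2 K) h1 h2
  have hmul := den2_mul (jqModC K) (jqNModC K 2) (t2 K) h1 h2
  -- the denominator does not vanish
  have hQ : ((1) * t2 K ^ 6 + (96) * t2 K ^ 5 + (198960) * t2 K ^ 4 + (9451775) * t2 K ^ 3 + (814940160) * t2 K ^ 2 + (1610612736) * t2 K + (68719476736) : LaurentSeries K) ≠ 0 := by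
    have hp : ((1) * Polynomial.X ^ 6 + (96) * Polynomial.X ^ 5 + (198960) * Polynomial.X ^ 4 + (9451775) * Polynomial.X ^ 3 + (814940160) * Polynomial.X ^ 2 + (1610612736) * Polynomial.X + (68719476736) : Polynomial K).Monic := by
      monicity!
    have h := mt (aeval_hauptForm_eq_zero K constantCoeff_T2
      (p := ((1) * Polynomial.X ^ 6 + (96) * Polynomial.X ^ 5 + (198960) * Polynomial.X ^ 4 + (9451775) * Polynomial.X ^ 3 + (814940160) * Polynomial.X ^ 2 + (1610612736) * Polynomial.X + (68719476736) : Polynomial K))) hp.ne_zero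
    simpa only [map_add, map_mul, map_pow, Polynomial.aeval_X, map_ofNat, map_one, ← t2_eq_hauptForm] using h
  have hp : ((2 : LaurentSeries K) ^ 24) ≠ 0 := by
    apply pow_ne_zero
    have : (2 : LaurentSeries K) = algebraMap K (LaurentSeries K) 2 := (map_ofNat _ 2).symm
    rw [this]
    exact (map_ne_zero _).mpr hchar
  have hden : den2 (jqModC K) (jqNModC K 2) ≠ 0 := by
    intro h0
    rw [h0, zero_mul] at hmul
    exact (mul_ne_zero hp hQ) (neg_eq_zero.mp hmul.symm)
  exact hden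

/-- explicit rational expression of `t2` in `j(q)`, `j(q^2)` -/
theorem t2_eq_div (K : Type*) [Field K] (hchar : (2 : K) ≠ 0) :
    t2 K = -num2 (jqModC K) (jqNModC K 2) / den2 (jqModC K) (jqNModC K 2) := by
  have hlin := lin2 (jqModC K) (jqNModC K 2) (t2 K) (t2_rel_j K) (t2_rel_j2 K)
  rw [eq_div_iff (den2_jq_ne_zero K hchar)]
  linear_combination hlin

theorem t2_mem_fullC (K : Type*) [Field K] (hchar : (2 : K) ≠ 0) (M : ℕ) [NeZero M]
    (hM : 2 ∣ M) : t2 K ∈ modularFunctionFieldFullC K M := by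
  set F := modularFunctionFieldFullC K M with hF
  have hj : jqModC K ∈ F := jqModC_mem_full K M
  have hJ : jqNModC K 2 ∈ F := jqModCd_mem_full K M hM
  -- membership of numerator and denominator
  have hden_mem : den2 (jqModC K) (jqNModC K 2) ∈ F := by
    have := (den2 (⟨_, hj⟩ : F) (⟨_, hJ⟩ : F)).2
    unfold den2 at this ⊢
    exact_mod_cast this
  have hnum_mem : num2 (jqModC K) (jqNModC K 2) ∈ F := by
    have := (num2 (⟨_, hj⟩ : F) (⟨_, hJ⟩ : F)).2
    unfold num2 at this ⊢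
    exact_mod_cast this
  rw [t2_eq_div K hchar]
  exact div_mem (neg_mem hnum_mem) hden_mem


/-! ### `t3` lies in the function field of level divisible by `3` -/

section Memt3

variable {L : Type*} [Field L]

/-- (generated) the denominator of the elimination -/
def den3 (j J : L) : L := (2641807540224000000000) + (328219361280000) * J + (36864720) * J^2 + (1) * J^3 + (-572980708638720000) * j + (9457338111840) * j * J + (-1069956) * j * J^2 + (3513047559120) * j^2 + (2202104637) * j^2 * J + (2232) * j^2 * J^2 + (-374706) * j^3 + (1512) * j^3 * J + (-1) * j^3 * J^2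

/-- (generated) the numerator of the elimination -/
def num3 (j J : L) : L := (71328803586048000000000) + (-35305797058560000) * J + (387419760) * J^2 + (-10354866501058560000) * j + (55775383276320) * j * J + (16876879720560) * j^2 + (13945510476) * j^2 * J + (-551124) * j^3 + (729) * j^3 * J

/-- (generated) first subresultant relation -/
theorem lin3 (j J t : L) (h1 : j * t ^ 3 = (t + 27) * (t + 243) ^ 3) (h2 : J * t = (t + 27) * (t + 3) ^ 3) :
    den3 j J * t + num3 j J = 0 := by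
  unfold den3 num3
  linear_combination (-(((184115773440000) + (-91130400) * J + (1) * J^2 + (-26714059200) * j + (143964) * j * J + (45684) * j^2 + (36) * j^2 * J) + ((-2269347840000) + (321840) * J + (-145586160) * j + (-1440) * j * J + (8964) * j^2 + (1) * j^2 * J) * t + ((19906560000) + (-720) * J + (25818480) * j + (1) * j * J + (270) * j^2) * t^2)) * h1 + (-(((-1947040727040000) + (-17733600) * J + (-1) * J^2 + (-7260113332800) * j + (1069956) * j * J + (-1127624004) * j^2 + (-2232) * j^2 * J + (-756) * j^3 + (1) * j^3 * J) + ((-12063375360000) + (196560) * J + (1462840560) * j + (25615116) * j^2 + (270) * j^3) * t + ((-19906560000) + (720) * J + (-25818480) * j + (-1) * j * J + (-270) * j^2) * t^2)) * h2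

/-- (generated) the denominator in terms of `t` -/
theorem den3_mul (j J t : L) (h1 : j * t ^ 3 = (t + 27) * (t + 243) ^ 3) (h2 : J * t = (t + 27) * (t + 3) ^ 3) :
    den3 j J * t ^ 11 = -((3 : L) ^ 18 * ((1) * t ^ 16 + (108) * t ^ 15 + (201528) * t ^ 14 + (59626404) * t ^ 13 + (42369876252) * t ^ 12 + (6661370952684) * t ^ 11 + (710775193256712) * t ^ 10 + (27393572738312388) * t ^ 9 + (795914464089548294) * t ^ 8 + (19969914526229730852) * t ^ 7 + (377735079479540281992) * t ^ 6 + (2580751591899231142476) * t ^ 5 + (11966504510609689549212) * t ^ 4 + (12276547822292907512196) * t ^ 3 + (30248271662133638856888) * t ^ 2 + (11817250826203334794572) * t + (79766443076872509863361))) := by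
  have e0 : den3 j J * t ^ 11 = (2641807540224000000000) * t ^ 11 + (328219361280000) * (J * t) ^ 1 * t ^ 10 + (36864720) * (J * t) ^ 2 * t ^ 9 + (1) * (J * t) ^ 3 * t ^ 8 + (-572980708638720000) * (j * t ^ 3) ^ 1 * t ^ 8 + (9457338111840) * (j * t ^ 3) ^ 1 * (J * t) ^ 1 * t ^ 7 + (-1069956) * (j * t ^ 3) ^ 1 * (J * t) ^ 2 * t ^ 6 + (3513047559120) * (j * t ^ 3) ^ 2 * t ^ 5 + (2202104637) * (j * t ^ 3) ^ 2 * (J * t) ^ 1 * t ^ 4 + (2232) * (j * t ^ 3) ^ 2 * (J * t) ^ 2 * t ^ 3 + (-374706) * (j * t ^ 3) ^ 3 * t ^ 2 + (1512) * (j * t ^ 3) ^ 3 * (J * t) ^ 1 * t ^ 1 + (-1) * (j * t ^ 3) ^ 3 * (J * t) ^ 2 := by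
    unfold den3
    ring
  rw [e0, h1, h2]
  ring

end Memt3

theorem den3_jq_ne_zero (K : Type*) [Field K] (hchar : (3 : K) ≠ 0) :
    den3 (jqModC K) (jqNModC K 3) ≠ 0 := by
  have h1 := t3_rel_j K
  have h2 := t3_rel_j3 K
  have hlin := lin3 (jqModC K) (jqNModC K 3) (t3 K) h1 h2
  have hmul := den3_mul (jqModC K) (jqNModC K 3) (t3 K) h1 h2
  -- the denominator does not vanish
  have hQ : ((1) * t3 K ^ 16 + (108) * t3 K ^ 15 + (201528) * t3 K ^ 14 + (59626404) * t3 K ^ 13 + (42369876252) * t3 K ^ 12 + (6661370952684) * t3 K ^ 11 + (710775193256712) * t3 K ^ 10 + (27393572738312388) * t3 K ^ 9 + (795914464089548294) * t3 K ^ 8 + (19969914526229730852) * t3 K ^ 7 + (377735079479540281992) * t3 K ^ 6 + (2580751591899231142476) * t3 K ^ 5 + (11966504510609689549212) * t3 K ^ 4 + (12276547822292907512196) * t3 K ^ 3 + (30248271662133638856888) * t3 K ^ 2 + (11817250826203334794572) * t3 K + (79766443076872509863361) : LaurentSeries K) ≠ 0 := by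
    have hp : ((1) * Polynomial.X ^ 16 + (108) * Polynomial.X ^ 15 + (201528) * Polynomial.X ^ 14 + (59626404) * Polynomial.X ^ 13 + (42369876252) * Polynomial.X ^ 12 + (6661370952684) * Polynomial.X ^ 11 + (710775193256712) * Polynomial.X ^ 10 + (27393572738312388) * Polynomial.X ^ 9 + (795914464089548294) * Polynomial.X ^ 8 + (19969914526229730852) * Polynomial.X ^ 7 + (377735079479540281992) * Polynomial.X ^ 6 + (2580751591899231142476) * Polynomial.X ^ 5 + (11966504510609689549212) * Polynomial.X ^ 4 + (12276547822292907512196) * Polynomial.X ^ 3 + (30248271662133638856888) * Polynomial.X ^ 2 + (11817250826203334794572) * Polynomial.X + (79766443076872509863361) : Polynomial K).Monic := by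
      monicity!
    have h := mt (aeval_hauptForm_eq_zero K constantCoeff_T3
      (p := ((1) * Polynomial.X ^ 16 + (108) * Polynomial.X ^ 15 + (201528) * Polynomial.X ^ 14 + (59626404) * Polynomial.X ^ 13 + (42369876252) * Polynomial.X ^ 12 + (6661370952684) * Polynomial.X ^ 11 + (710775193256712) * Polynomial.X ^ 10 + (27393572738312388) * Polynomial.X ^ 9 + (795914464089548294) * Polynomial.X ^ 8 + (19969914526229730852) * Polynomial.X ^ 7 + (377735079479540281992) * Polynomial.X ^ 6 + (2580751591899231142476) * Polynomial.X ^ 5 + (11966504510609689549212) * Polynomial.X ^ 4 + (12276547822292907512196) * Polynomial.X ^ 3 + (30248271662133638856888) * Polynomial.X ^ 2 + (11817250826203334794572) * Polynomial.X + (79766443076872509863361) : Polynomial K))) hp.ne_zero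
    simpa only [map_add, map_mul, map_pow, Polynomial.aeval_X, map_ofNat, map_one, ← t3_eq_hauptForm] using h
  have hp : ((3 : LaurentSeries K) ^ 18) ≠ 0 := by
    apply pow_ne_zero
    have : (3 : LaurentSeries K) = algebraMap K (LaurentSeries K) 3 := (map_ofNat _ 3).symm
    rw [this]
    exact (map_ne_zero _).mpr hchar
  have hden : den3 (jqModC K) (jqNModC K 3) ≠ 0 := by
    intro h0
    rw [h0, zero_mul] at hmul
    exact (mul_ne_zero hp hQ) (neg_eq_zero.mp hmul.symm)
  exact hden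

/-- explicit rational expression of `t3` in `j(q)`, `j(q^3)` -/
theorem t3_eq_div (K : Type*) [Field K] (hchar : (3 : K) ≠ 0) :
    t3 K = -num3 (jqModC K) (jqNModC K 3) / den3 (jqModC K) (jqNModC K 3) := by
  have hlin := lin3 (jqModC K) (jqNModC K 3) (t3 K) (t3_rel_j K) (t3_rel_j3 K)
  rw [eq_div_iff (den3_jq_ne_zero K hchar)]
  linear_combination hlin

theorem t3_mem_fullC (K : Type*) [Field K] (hchar : (3 : K) ≠ 0) (M : ℕ) [NeZero M]
    (hM : 3 ∣ M) : t3 K ∈ modularFunctionFieldFullC K M := by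
  set F := modularFunctionFieldFullC K M with hF
  have hj : jqModC K ∈ F := jqModC_mem_full K M
  have hJ : jqNModC K 3 ∈ F := jqModCd_mem_full K M hM
  -- membership of numerator and denominator
  have hden_mem : den3 (jqModC K) (jqNModC K 3) ∈ F := by
    have := (den3 (⟨_, hj⟩ : F) (⟨_, hJ⟩ : F)).2
    unfold den3 at this ⊢
    exact_mod_cast this
  have hnum_mem : num3 (jqModC K) (jqNModC K 3) ∈ F := by
    have := (num3 (⟨_, hj⟩ : F) (⟨_, hJ⟩ : F)).2
    unfold num3 at this ⊢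
    exact_mod_cast this
  rw [t3_eq_div K hchar]
  exact div_mem (neg_mem hnum_mem) hden_mem


/-! ### base change: membership in `laurentBaseChange L (modularFunctionFieldFull M)` -/

theorem t2_mem_baseChange (L : Type*) [Field L] [Algebra ℚ L] (M : ℕ) [NeZero M] (hM : 2 ∣ M) :
    t2 L ∈ laurentBaseChange L (modularFunctionFieldFull M) := by
  have h := _root_.Fermat.Agent.S18.H634.t2_mem_fullC ℚ (by norm_num) M hM
  rw [modularFunctionFieldFullC_rat] at h
  have h' := coeffEmb_mem_laurentBaseChange L h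
  rwa [coeffEmb, coeffMap_t2] at h'

theorem t3_mem_baseChange (L : Type*) [Field L] [Algebra ℚ L] (M : ℕ) [NeZero M] (hM : 3 ∣ M) :
    t3 L ∈ laurentBaseChange L (modularFunctionFieldFull M) := by
  have h := _root_.Fermat.Agent.S18.H634.t3_mem_fullC ℚ (by norm_num) M hM
  rw [modularFunctionFieldFullC_rat] at h
  have h' := coeffEmb_mem_laurentBaseChange L h
  rwa [coeffEmb, coeffMap_t3] at h'

end Fermat.Agent.S18.H634

end
end
-- ===== PACK-END S18/H634/HauptMember.lean

-- ===== PACK-BEGIN S59/TW/H653/Comm/Main.lean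
section



/-!
# S59 / TW-HECKE (helper653): the Hecke operators on `Hom(K, A)` commute (`Γ₁(M) ≤ K ≤ Γ₀(M)`)

* `TK_comm`    : `T_ℓ T_ℓ' = T_ℓ' T_ℓ` (`ℓ, ℓ' ∤ M` primes);
* `TK_UK_comm` : `U_q T_ℓ = T_ℓ U_q` (`ℓ ∤ M`, `q ∣ M` primes);
* `UK_comm`    : `U_q U_q' = U_q' U_q` (`q, q' ∣ M` primes);
* `heckeTransfer_UK_comm` : the case `K = Γ₀(M)` in the vocabulary of S29/S41.
-/

set_option autoImplicit false

namespace Fermat.Agent.S59.TW.H653

open CongruenceSubgroup Matrix.SpecialLinearGroup ModularCurve.Period ModularForm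
open Fermat.Agent.S29.H642 Fermat.Agent.S41.H761
open P2MW.S_ModularForm_heckeT_slash_eq_self_of_mem_Gamma0.ModularForm.HeckeSlashInvariance
open scoped MatrixGroups

variable {M : ℕ} {K : Subgroup SL(2, ℤ)} {A : Type*} [AddCommGroup A]

/-! ## Integrality of the representatives -/

theorem isIntRep_repsU (q : ℕ) [Fact q.Prime] (j : ZMod q) : IsIntRep M q (repsU q j) :=
  isIntRep_heckeMatrix (Fact.out : q.Prime).ne_zero _

theorem isIntRep_repsT {ℓ : ℕ} [Fact ℓ.Prime] (hℓ : ¬ ℓ ∣ M) (x : OnePoint (ZMod ℓ)) :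
    IsIntRep M ℓ (repsT M ℓ x) := by
  have hp : ℓ ≠ 0 := (Fact.out : ℓ.Prime).ne_zero
  induction x using OnePoint.rec with
  | coe j => exact isIntRep_heckeMatrix hp _
  | infty =>
    have hcop : Nat.Coprime ℓ M := (Nat.Prime.coprime_iff_not_dvd Fact.out).mpr hℓ
    obtain ⟨s00, s01, s10, s11, hs⟩ := sigma_spec hcop
    refine ⟨!![Int.gcdA ℓ M * ℓ, -Int.gcdB ℓ M; M * ℓ, ℓ], ?_, ?_, ?_, ?_⟩
    · simp
    · refine ⟨-Int.gcdB ℓ M, ?_⟩
      simp only [Matrix.of_apply, Matrix.cons_val', Matrix.cons_val_zero,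
        Matrix.cons_val_fin_one]
      linear_combination hs
    · rw [Matrix.det_fin_two_of]
      linear_combination (ℓ : ℤ) * hs
    · intro i j
      rw [repsT_infty]
      fin_cases i <;> fin_cases j <;>
        simp only [coe_mul_apply, coe_ιN_apply, val_heckeDiagMatrix hp, Matrix.of_apply,
          Matrix.cons_val', Matrix.cons_val_zero, Matrix.cons_val_one, Matrix.cons_val_fin_one,
          Fin.zero_eta, Fin.mk_one, s00, s01, s10, s11] <;>
        push_cast <;> ring

/-! ## The products of the untwisted representatives -/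

theorem heckeRep_coe_natCast {ℓ : ℕ} [NeZero ℓ] {i : ℕ} (hi : i < ℓ) :
    heckeRep ℓ (((i : ZMod ℓ)) : OnePoint (ZMod ℓ)) = heckeMatrix ℓ i := by
  rw [heckeRep_coe, ZMod.val_cast_of_lt hi]

theorem repsU_natCast {q : ℕ} [NeZero q] {i : ℕ} (hi : i < q) :
    repsU q (i : ZMod q) = heckeMatrix q i := by
  rw [repsU, ZMod.val_cast_of_lt hi]

/-- Products of untwisted representatives of `T_ℓ` and `T_ℓ'`, `ℓ ≠ ℓ'`. -/
theorem heckeRep_le {ℓ ℓ' : ℕ} [Fact ℓ.Prime] [Fact ℓ'.Prime] (hne : ℓ ≠ ℓ')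
    (x : OnePoint (ZMod ℓ)) (y : OnePoint (ZMod ℓ')) :
    ∃ (y' : OnePoint (ZMod ℓ')) (x' : OnePoint (ZMod ℓ)) (g : Gamma0 M),
      heckeRep ℓ x * heckeRep ℓ' y = ιN M g * (heckeRep ℓ' y' * heckeRep ℓ x') := by
  have hp : ℓ ≠ 0 := (Fact.out : ℓ.Prime).ne_zero
  have hp' : ℓ' ≠ 0 := (Fact.out : ℓ'.Prime).ne_zero
  induction x using OnePoint.rec with
  | infty =>
    induction y using OnePoint.rec with
    | infty => exact ⟨OnePoint.infty, OnePoint.infty, 1, heckeDiag_mul_heckeDiag hp hp'⟩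
    | coe j =>
      obtain ⟨j', g, hj', e⟩ := heckeDiag_mul_heckeMatrix (M := M) hp hp' j.val
      refine ⟨((j' : ZMod ℓ') : OnePoint (ZMod ℓ')), OnePoint.infty, g, ?_⟩
      rw [heckeRep_coe_natCast hj']
      exact e
  | coe i =>
    induction y using OnePoint.rec with
    | infty =>
      have hcop : Nat.Coprime ℓ' ℓ :=
        (Nat.coprime_primes Fact.out Fact.out).mpr (Ne.symm hne)
      obtain ⟨i', g, hi', e⟩ := heckeMatrix_mul_heckeDiag (M := M) hp hp' hcop i.val
      refine ⟨OnePoint.infty, ((i' : ZMod ℓ) : OnePoint (ZMod ℓ)), g, ?_⟩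
      rw [heckeRep_coe_natCast hi']
      exact e
    | coe j =>
      obtain ⟨j', i', g, hi', hj', e⟩ := heckeMatrix_mul_heckeMatrix (M := M) hp hp' i.val j.val
      refine ⟨((j' : ZMod ℓ') : OnePoint (ZMod ℓ')), ((i' : ZMod ℓ) : OnePoint (ZMod ℓ)), g, ?_⟩
      rw [heckeRep_coe_natCast hi', heckeRep_coe_natCast hj']
      exact e

/-- Products of untwisted representatives of `T_ℓ` and `U_q`. -/
theorem heckeRep_repsU_le {ℓ q : ℕ} [Fact ℓ.Prime] [Fact q.Prime]
    (x : OnePoint (ZMod ℓ)) (j : ZMod q) :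
    ∃ (j' : ZMod q) (x' : OnePoint (ZMod ℓ)) (g : Gamma0 M),
      heckeRep ℓ x * repsU q j = ιN M g * (repsU q j' * heckeRep ℓ x') := by
  have hp : ℓ ≠ 0 := (Fact.out : ℓ.Prime).ne_zero
  have hq : q ≠ 0 := (Fact.out : q.Prime).ne_zero
  induction x using OnePoint.rec with
  | infty =>
    obtain ⟨j', g, hj', e⟩ := heckeDiag_mul_heckeMatrix (M := M) hp hq j.val
    refine ⟨(j' : ZMod q), OnePoint.infty, g, ?_⟩
    rw [repsU_natCast hj']
    exact e
  | coe i =>
    obtain ⟨j', i', g, hi', hj', e⟩ := heckeMatrix_mul_heckeMatrix (M := M) hp hq i.val j.val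
    refine ⟨(j' : ZMod q), ((i' : ZMod ℓ) : OnePoint (ZMod ℓ)), g, ?_⟩
    rw [heckeRep_coe_natCast hi', repsU_natCast hj']
    exact e

/-- Products of representatives of `U_q` and `U_q'`. -/
theorem repsU_le {q q' : ℕ} [Fact q.Prime] [Fact q'.Prime] (i : ZMod q) (j : ZMod q') :
    ∃ (j' : ZMod q') (i' : ZMod q) (g : Gamma0 M),
      repsU q i * repsU q' j = ιN M g * (repsU q' j' * repsU q i') := by
  have hq : q ≠ 0 := (Fact.out : q.Prime).ne_zero
  have hq' : q' ≠ 0 := (Fact.out : q'.Prime).ne_zero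
  obtain ⟨j', i', g, hi', hj', e⟩ := heckeMatrix_mul_heckeMatrix (M := M) hq hq' i.val j.val
  refine ⟨(j' : ZMod q'), (i' : ZMod q), g, ?_⟩
  rw [repsU_natCast hi', repsU_natCast hj']
  exact e

/-! ## The products of the twisted representatives -/

theorem repsT_le {ℓ ℓ' : ℕ} [Fact ℓ.Prime] [Fact ℓ'.Prime] (hℓ : ¬ ℓ ∣ M) (hℓ' : ¬ ℓ' ∣ M)
    (hne : ℓ ≠ ℓ') (x : OnePoint (ZMod ℓ)) (y : OnePoint (ZMod ℓ')) :
    ∃ (y' : OnePoint (ZMod ℓ')) (x' : OnePoint (ZMod ℓ)) (g : Gamma0 M),
      repsT M ℓ x * repsT M ℓ' y = ιN M g * (repsT M ℓ' y' * repsT M ℓ x') := by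
  rw [repsT_eq_twist M ℓ, repsT_eq_twist M ℓ']
  exact le_twist (heckeSystem hℓ) (heckeSystem hℓ') (tauT M ℓ) (tauT M ℓ')
    (heckeRep_le hne) x y

theorem repsT_repsU_le {ℓ q : ℕ} [Fact ℓ.Prime] [Fact q.Prime] (hℓ : ¬ ℓ ∣ M) (hq : q ∣ M)
    (x : OnePoint (ZMod ℓ)) (j : ZMod q) :
    ∃ (j' : ZMod q) (x' : OnePoint (ZMod ℓ)) (g : Gamma0 M),
      repsT M ℓ x * repsU q j = ιN M g * (repsU q j' * repsT M ℓ x') := by
  rw [repsT_eq_twist M ℓ]
  obtain ⟨j', x', g, e⟩ := le_twist (heckeSystem hℓ) (repsU_system0 hq) (tauT M ℓ)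
    (fun _ => 1) heckeRep_repsU_le x j
  refine ⟨j', x', g, ?_⟩
  simpa only [map_one, one_mul] using e

/-! ## Commutation -/

/-- **`T_ℓ` and `T_ℓ'` commute on `Hom(K, A)`.** -/
theorem TK_comm (hK : IsMid M K) {ℓ ℓ' : ℕ} [Fact ℓ.Prime] [Fact ℓ'.Prime] (hℓ : ¬ ℓ ∣ M)
    (hℓ' : ¬ ℓ' ∣ M) (φ : Additive K →+ A) :
    TK M K ℓ' (TK M K ℓ φ) = TK M K ℓ (TK M K ℓ' φ) := by
  by_cases hne : ℓ = ℓ'
  · subst hne
    rfl
  have hcop : IsCoprime (ℓ : ℤ) (ℓ' : ℤ) :=
    Nat.isCoprime_iff_coprime.mpr ((Nat.coprime_primes Fact.out Fact.out).mpr hne)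
  have hm : (ℓ : ℤ) ≠ 0 := by exact_mod_cast (Fact.out : ℓ.Prime).ne_zero
  have hn : (ℓ' : ℤ) ≠ 0 := by exact_mod_cast (Fact.out : ℓ'.Prime).ne_zero
  simp only [TK_eq hK hℓ, TK_eq hK hℓ']
  exact comm_of_le hK (repsT_system0 hℓ) (repsT_system0 hℓ') (isIntRep_repsT hℓ)
    (isIntRep_repsT hℓ') hcop hm hn (repsT_le hℓ hℓ' hne) φ

/-- **`T_ℓ` and `U_q` commute on `Hom(K, A)`.** -/
theorem TK_UK_comm (hK : IsMid M K) {ℓ q : ℕ} [Fact ℓ.Prime] [Fact q.Prime] (hℓ : ¬ ℓ ∣ M)
    (hq : q ∣ M) (φ : Additive K →+ A) :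
    UK K q (TK M K ℓ φ) = TK M K ℓ (UK K q φ) := by
  have hne : ℓ ≠ q := by
    rintro rfl
    exact hℓ hq
  have hcop : IsCoprime (ℓ : ℤ) (q : ℤ) :=
    Nat.isCoprime_iff_coprime.mpr ((Nat.coprime_primes Fact.out Fact.out).mpr hne)
  have hm : (ℓ : ℤ) ≠ 0 := by exact_mod_cast (Fact.out : ℓ.Prime).ne_zero
  have hn : (q : ℤ) ≠ 0 := by exact_mod_cast (Fact.out : q.Prime).ne_zero
  simp only [TK_eq hK hℓ, UK_eq hK hq]
  exact comm_of_le hK (repsT_system0 hℓ) (repsU_system0 hq) (isIntRep_repsT hℓ)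
    (isIntRep_repsU q) hcop hm hn (repsT_repsU_le hℓ hq) φ

/-- **`U_q` and `U_q'` commute on `Hom(K, A)`.** -/
theorem UK_comm (hK : IsMid M K) {q q' : ℕ} [Fact q.Prime] [Fact q'.Prime] (hq : q ∣ M)
    (hq' : q' ∣ M) (φ : Additive K →+ A) :
    UK K q' (UK K q φ) = UK K q (UK K q' φ) := by
  by_cases hne : q = q'
  · subst hne
    rfl
  have hcop : IsCoprime (q : ℤ) (q' : ℤ) :=
    Nat.isCoprime_iff_coprime.mpr ((Nat.coprime_primes Fact.out Fact.out).mpr hne)
  have hm : (q : ℤ) ≠ 0 := by exact_mod_cast (Fact.out : q.Prime).ne_zero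
  have hn : (q' : ℤ) ≠ 0 := by exact_mod_cast (Fact.out : q'.Prime).ne_zero
  simp only [UK_eq hK hq, UK_eq hK hq']
  exact comm_of_le hK (repsU_system0 hq) (repsU_system0 hq') (isIntRep_repsU q)
    (isIntRep_repsU q') hcop hm hn repsU_le φ

/-! ## The case `K = Γ₀(M)` in the vocabulary of S29/S41 -/

/-- `U_q` commutes with the Hecke transfer `T_ℓ` of S29/S41 on `Hom(Γ₀(M), A)`. -/
theorem heckeTransfer_UK_comm {ℓ q : ℕ} [Fact ℓ.Prime] [Fact q.Prime] (hℓ : ¬ ℓ ∣ M)
    (hq : q ∣ M) (φ : Additive (Gamma0 M) →+ A) :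
    UK (Gamma0 M) q (heckeTransfer hℓ φ) = heckeTransfer hℓ (UK (Gamma0 M) q φ) := by
  rw [← TK_Gamma0 hℓ, ← TK_Gamma0 hℓ]
  exact TK_UK_comm (isMid_Gamma0 M) hℓ hq φ

end Fermat.Agent.S59.TW.H653

end
-- ===== PACK-END S59/TW/H653/Comm/Main.lean

-- ===== PACK-BEGIN S41/H701/NonEisensteinKummer.lean
section




/-!
# S41, block NE' (helper701): non-Eisenstein primes with a Kummer condition

Needed by the CSP-free routes for Ihara's lemma (helper744 "IH'", helper161 "IK"):
for `W[p]` irreducible (`p` odd), a prime `q`, a finite set `S` and `M₀ ≥ 1` there is a good prime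
`ℓ ∉ S`, `ℓ ≡ 1 mod M₀ p`, with `p ∤ ℓ + 1 - a_ℓ(W)` and `q ^ ((ℓ - 1) / p) ≢ 1 mod ℓ`
(equivalently: `q` is not a `p`-th power mod `ℓ`).

Contents:
* `unipotent_of_pair_h701` : the `2 × 2` trace trick;
* `exists_stable_line_of_unipotent_h701` : the abstract stable-line lemma with unipotence of the
  kernel of the cyclotomic character as a hypothesis;
* `exists_real_root_h701`, `exists_moving_h701` (K1), `frob_fix_root_h701` (K2);
* `exists_frob_package_h701` : Frobenius division on `ℚ(E[p], ζ_M, β)`;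
* `nonEisenstein_kummer_of_frobRelation_h701` : the theorem, conditional on `Lib.Frob.FrobRelation`.
-/

set_option autoImplicit false

open WeierstrassCurve WeierstrassCurve.Affine WeierstrassCurve.Affine.Point
open Module

namespace Fermat.Agent.S41.H701

open Fermat.Agent.Lib.Frob (Qb Pts)
open Fermat.Agent.S55.H414 (cycloPow zetaBar zetaBar_spec)

section TraceTrick

variable {k : Type*} [Field k]

/-- a `2 × 2` matrix `U` with `(U - 1)² = 0` has trace `2` and determinant `1` -/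
lemma matrix_trace_det_of_unipotent_h701 (U : Matrix (Fin 2) (Fin 2) k)
    (hU : (U - 1) * (U - 1) = 0) : U.trace = 2 ∧ U.det = 1 := by
  have h00 := congrFun (congrFun hU 0) 0
  have h01 := congrFun (congrFun hU 0) 1
  have h10 := congrFun (congrFun hU 1) 0
  have h11 := congrFun (congrFun hU 1) 1
  simp only [Matrix.sub_apply, Matrix.mul_apply, Fin.sum_univ_two,
    Matrix.one_apply_eq, Matrix.zero_apply, ne_eq,
    Matrix.one_apply_ne, Fin.isValue, zero_ne_one, one_ne_zero,
    not_false_eq_true, sub_zero] at h00 h01 h10 h11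
  rw [Matrix.trace_fin_two, Matrix.det_fin_two]
  by_cases htr : U 0 0 + U 1 1 = 2
  · refine ⟨htr, ?_⟩
    linear_combination (-1 : k) * h00 + U 0 0 * htr
  · exfalso
    have htr' : U 0 0 + U 1 1 - 2 ≠ 0 := sub_ne_zero.mpr htr
    have e01 : U 0 1 = 0 := by
      have : U 0 1 * (U 0 0 + U 1 1 - 2) = 0 := by linear_combination h01
      exact (mul_eq_zero.mp this).resolve_right htr'
    have e00 : U 0 0 - 1 = 0 := by
      have : (U 0 0 - 1) * (U 0 0 - 1) = 0 := by
        rw [e01] at h00; linear_combination h00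
      exact mul_self_eq_zero.mp this
    have e11 : U 1 1 - 1 = 0 := by
      have : (U 1 1 - 1) * (U 1 1 - 1) = 0 := by
        rw [e01] at h11; linear_combination h11
      exact mul_self_eq_zero.mp this
    apply htr
    linear_combination e00 + e11

/-- Cayley–Hamilton for `2 × 2` matrices -/
lemma matrix_cayley_hamilton_two_h701 (H : Matrix (Fin 2) (Fin 2) k) :
    H * H - H.trace • H + H.det • (1 : Matrix (Fin 2) (Fin 2) k) = 0 := by
  rw [Matrix.trace_fin_two, Matrix.det_fin_two]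
  ext i j
  fin_cases i <;> fin_cases j <;>
    simp [Matrix.mul_apply, Fin.sum_univ_two] <;> ring

/-- **Trace trick**, matrices: if `G`, `G H`, `G² H` are unipotent then so is `H`. -/
lemma matrix_unipotent_of_pair_h701 (G H : Matrix (Fin 2) (Fin 2) k)
    (hG : (G - 1) * (G - 1) = 0) (h1 : (G * H - 1) * (G * H - 1) = 0)
    (h2 : (G * G * H - 1) * (G * G * H - 1) = 0) : (H - 1) * (H - 1) = 0 := by
  obtain ⟨-, dG⟩ := matrix_trace_det_of_unipotent_h701 G hG
  obtain ⟨t1, d1⟩ := matrix_trace_det_of_unipotent_h701 (G * H) h1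
  obtain ⟨t2, -⟩ := matrix_trace_det_of_unipotent_h701 (G * G * H) h2
  have hGG : G * G = (2 : k) • G - 1 := by
    have : (G - 1) * (G - 1) = G * G - (2 : k) • G + 1 := by
      rw [two_smul]; noncomm_ring
    rw [this] at hG
    have h3 := sub_eq_zero.mp (show G * G - ((2 : k) • G - 1) = 0 by rw [← hG]; abel)
    exact h3
  have dH : H.det = 1 := by
    rw [Matrix.det_mul, dG, one_mul] at d1
    exact d1
  have tH : H.trace = 2 := by
    rw [hGG, Matrix.sub_mul, Matrix.one_mul, Matrix.smul_mul, Matrix.trace_sub,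
      Matrix.trace_smul, t1, smul_eq_mul] at t2
    linear_combination (-1 : k) * t2
  have hCH := matrix_cayley_hamilton_two_h701 H
  rw [tH, dH, one_smul] at hCH
  have : (H - 1) * (H - 1) = H * H - (2 : k) • H + 1 := by
    rw [two_smul]; noncomm_ring
  rw [this, hCH]

variable {V : Type*} [AddCommGroup V] [Module k V]

/-- **Trace trick**: in dimension `2`, if `g`, `g h`, `g² h` are unipotent then so is `h`. -/
theorem unipotent_of_pair_h701 (hdim : finrank k V = 2) (g h : End k V)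
    (hg : (g - 1) * (g - 1) = 0) (h1 : (g * h - 1) * (g * h - 1) = 0)
    (h2 : (g * g * h - 1) * (g * g * h - 1) = 0) : (h - 1) * (h - 1) = 0 := by
  have hfd : FiniteDimensional k V := FiniteDimensional.of_finrank_pos (by omega)
  let b : Basis (Fin 2) k V := Module.finBasisOfFinrankEq k V hdim
  let φ := LinearMap.toMatrixAlgEquiv b
  apply φ.injective
  rw [_root_.map_zero, map_mul, map_sub, map_one]
  apply matrix_unipotent_of_pair_h701 (φ g) (φ h)
  · have := congrArg φ hg
    simpa using this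
  · have := congrArg φ h1
    simpa using this
  · have := congrArg φ h2
    simpa using this

end TraceTrick

section AbstractNE2

variable {k V Γ X : Type*} [Field k] [AddCommGroup V] [Module k V] [Group Γ] [CommGroup X]

/-- Variant of `exists_stable_line_of_eisenstein_h701` where unipotence of the kernel of `χ` is a
hypothesis (and the Frobenius relation is only used for determinants). -/
theorem exists_stable_line_of_unipotent_h701
    (h2 : (2 : k) ≠ 0) (hdim : finrank k V = 2)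
    (ρ : Γ →* End k V) (χ : Γ →* X) (ε : X →* kˣ)
    (hunip : ∀ σ : Γ, χ σ = 1 → (ρ σ - 1) * (ρ σ - 1) = 0)
    (hF : ∀ σ : Γ, ∃ (τ : Γ) (j : ℕ) (a : k),
        ρ σ = ρ τ ^ j ∧ χ σ = χ τ ^ j ∧
        ρ τ * ρ τ - a • ρ τ + ((ε (χ τ) : kˣ) : k) • (1 : End k V) = 0)
    (c : Γ) (hc2 : χ c * χ c = 1) (hcε : ((ε (χ c) : kˣ) : k) = -1) :
    ∃ L : Submodule k V, L ≠ ⊥ ∧ L ≠ ⊤ ∧ ∀ g : Γ, ∀ v ∈ L, ρ g v ∈ L := by
  classical
  have hfd : FiniteDimensional k V := FiniteDimensional.of_finrank_pos (by omega)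
  have hnt : Nontrivial V := Module.nontrivial_of_finrank_pos (R := k) (by omega)
  by_cases hA : ∃ σ₀ : Γ, χ σ₀ = 1 ∧ ρ σ₀ ≠ 1
  · -- Case A: a non-trivial unipotent element
    obtain ⟨σ₀, hσ₀, hρ₀⟩ := hA
    refine ⟨LinearMap.ker (ρ σ₀ - 1), ?_, ?_, ?_⟩
    · intro hbot
      rw [LinearMap.ker_eq_bot] at hbot
      apply hρ₀
      have h0 : ρ σ₀ - 1 = 0 := by
        ext x
        apply hbot
        have := congrArg (fun f : End k V => f x) (hunip σ₀ hσ₀)
        simpa using this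
      exact sub_eq_zero.mp h0
    · intro htop
      rw [LinearMap.ker_eq_top] at htop
      exact hρ₀ (sub_eq_zero.mp htop)
    · intro g v hv
      rw [LinearMap.mem_ker, LinearMap.sub_apply, Module.End.one_apply, sub_eq_zero] at hv ⊢
      have hχ1 : χ (g * σ₀ * g⁻¹) = 1 := by
        rw [map_mul, map_mul, hσ₀, mul_one, ← map_mul, mul_inv_cancel, map_one]
      have hχ2 : χ (g * σ₀ * g⁻¹ * σ₀) = 1 := by rw [map_mul, hχ1, hσ₀, mul_one]
      have hne : ρ (g * σ₀ * g⁻¹) ≠ 1 := by
        intro h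
        apply hρ₀
        have : ρ σ₀ = ρ g⁻¹ * ρ (g * σ₀ * g⁻¹) * ρ g := by
          rw [← map_mul, ← map_mul]; congr 1; group
        rw [this, h, mul_one, ← map_mul, inv_mul_cancel, map_one]
      have huv : (ρ (g * σ₀ * g⁻¹) * ρ σ₀ - 1) * (ρ (g * σ₀ * g⁻¹) * ρ σ₀ - 1) = 0 := by
        rw [← map_mul]; exact hunip _ hχ2
      apply ker_le_of_unipotent_pair_h701 hdim (ρ (g * σ₀ * g⁻¹)) (ρ σ₀) (hunip _ hχ1)
        (hunip _ hσ₀) huv hne hρ₀
      -- `ρ g v` is fixed by `ρ (g σ₀ g⁻¹)`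
      have : ρ (g * σ₀ * g⁻¹) (ρ g v) = ρ (g * σ₀ * g⁻¹ * g) v := by
        rw [map_mul _ _ g]; rfl
      rw [this]
      have e : g * σ₀ * g⁻¹ * g = g * σ₀ := by group
      rw [e, map_mul, Module.End.mul_apply, hv]
  · -- Case B: the kernel of `χ` acts trivially, so the image of `ρ` is abelian
    have hB : ∀ σ : Γ, χ σ = 1 → ρ σ = 1 := by
      intro σ hσ
      by_contra h
      exact hA ⟨σ, hσ, h⟩
    have hcomm : ∀ g₁ g₂ : Γ, ρ g₁ * ρ g₂ = ρ g₂ * ρ g₁ := by
      intro g₁ g₂
      have h1 : χ (g₁ * g₂ * g₁⁻¹ * g₂⁻¹) = 1 := by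
        simp only [map_mul, map_inv]
        rw [mul_comm (χ g₁) (χ g₂), mul_assoc (χ g₂), mul_inv_cancel, mul_one, mul_inv_cancel]
      have h2 := hB _ h1
      have h3 : g₁ * g₂ = (g₁ * g₂ * g₁⁻¹ * g₂⁻¹) * (g₂ * g₁) := by group
      rw [← map_mul, ← map_mul, h3, map_mul, h2, one_mul]
    have hcc : ρ c * ρ c = 1 := by
      rw [← map_mul]
      exact hB _ (by rw [map_mul, hc2])
    by_cases hcs : ∃ s : k, ρ c = s • (1 : End k V)
    · -- `ρ c` scalar
      obtain ⟨s, hs⟩ := hcs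
      by_cases hall : ∀ g : Γ, ∃ t : k, ρ g = t • (1 : End k V)
      · -- everything is scalar: any line is stable
        obtain ⟨v, hv⟩ := exists_ne (0 : V)
        refine ⟨Submodule.span k {v}, ?_, ?_, ?_⟩
        · rw [Ne, Submodule.span_singleton_eq_bot]; exact hv
        · intro htop
          have h1 : finrank k (Submodule.span k {v}) = 1 := finrank_span_singleton hv
          rw [htop, finrank_top, hdim] at h1
          omega
        · intro g w hw
          obtain ⟨t, ht⟩ := hall g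
          rw [ht, LinearMap.smul_apply, Module.End.one_apply]
          exact Submodule.smul_mem _ _ hw
      · exfalso
        rw [not_forall] at hall
        obtain ⟨g₀, hg₀⟩ := hall
        rw [not_exists] at hg₀
        -- determinant of non-scalar elements
        have hdet : ∀ g : Γ, (∀ t : k, ρ g ≠ t • (1 : End k V)) →
            LinearMap.det (ρ g) = ((ε (χ g) : kˣ) : k) := by
          intro g hg
          obtain ⟨τ, j, a, hρ, hχ, hrel⟩ := hF g
          have hτns : ∀ t : k, ρ τ ≠ t • (1 : End k V) := by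
            intro t ht
            apply hg (t ^ j)
            rw [hρ, ht, smul_pow, one_pow]
          have h1 := det_eq_of_quadratic_h701 hdim (ρ τ) a _ hrel hτns
          rw [hρ, map_pow, h1, hχ, map_pow, Units.val_pow_eq_pow_val]
        have hs2 : s * s = 1 := by
          rw [hs, smul_mul_smul_comm, one_mul] at hcc
          have : (s * s) • (1 : End k V) = (1 : k) • (1 : End k V) := by rw [hcc, one_smul]
          exact smul_one_injective_h701 this
        have hs0 : s ≠ 0 := by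
          rintro rfl
          rw [mul_zero] at hs2
          exact zero_ne_one hs2
        have hcg : ρ (c * g₀) = s • ρ g₀ := by
          rw [map_mul, hs, smul_mul_assoc, one_mul]
        have hcgns : ∀ t : k, ρ (c * g₀) ≠ t • (1 : End k V) := by
          intro t ht
          apply hg₀ (s⁻¹ * t)
          rw [hcg] at ht
          rw [mul_smul, ← ht, smul_smul, inv_mul_cancel₀ hs0, one_smul]
        have hd1 := hdet g₀ hg₀
        have hd2 := hdet (c * g₀) hcgns
        rw [hcg, LinearMap.det_smul, hdim, pow_two, hs2, one_mul, hd1, map_mul, map_mul,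
          Units.val_mul, hcε] at hd2
        have hd3 : (2 : k) * ((ε (χ g₀) : kˣ) : k) = 0 := by linear_combination hd2
        rcases mul_eq_zero.mp hd3 with h | h
        · exact h2 h
        · exact (ε (χ g₀)).ne_zero h
    · -- `ρ c` is a non-scalar involution commuting with everything
      rw [not_exists] at hcs
      refine ⟨LinearMap.ker (ρ c - 1), ?_, ?_, ?_⟩
      · intro hbot
        rw [LinearMap.ker_eq_bot] at hbot
        apply hcs (-1)
        have h0 : ρ c + 1 = 0 := by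
          ext x
          apply hbot
          have : (ρ c - 1) * (ρ c + 1) = 0 := by
            have : (ρ c - 1) * (ρ c + 1) = ρ c * ρ c - 1 := by noncomm_ring
            rw [this, hcc, sub_self]
          have := congrArg (fun f : End k V => f x) this
          simpa using this
        rw [neg_smul, one_smul]
        exact eq_neg_of_add_eq_zero_left h0
      · intro htop
        rw [LinearMap.ker_eq_top] at htop
        apply hcs 1
        rw [one_smul]
        exact sub_eq_zero.mp htop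
      · intro g v hv
        rw [LinearMap.mem_ker, LinearMap.sub_apply, Module.End.one_apply, sub_eq_zero] at hv ⊢
        have := congrArg (fun f : End k V => f v) (hcomm c g)
        simp only [Module.End.mul_apply] at this
        rw [this, hv]

end AbstractNE2

section KummerRoot

/-- a root of `X ^ p - q` in `ℚ̄` fixed by complex conjugation (the real root) -/
theorem exists_real_root_h701 (p q : ℕ) (hp : p ≠ 0) :
    ∃ β : Qb, β ^ p = q ∧ complexConjugation β = β := by
  classical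
  -- the real root in `ℂ`
  set r : ℝ := (q : ℝ) ^ ((p : ℝ)⁻¹) with hr
  have hrp : r ^ p = q := by
    rw [hr, ← Real.rpow_natCast, ← Real.rpow_mul (Nat.cast_nonneg q),
      inv_mul_cancel₀ (Nat.cast_ne_zero.mpr hp), Real.rpow_one]
  -- the polynomial over `ℚ̄`
  let f : Polynomial Qb := Polynomial.X ^ p - Polynomial.C (q : Qb)
  have hf0 : f ≠ 0 := Polynomial.X_pow_sub_C_ne_zero (Nat.pos_of_ne_zero hp) _
  have hsplit : f.Splits := IsAlgClosed.splits f
  have hmap : f.map complexEmbedding.toRingHom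
      = Polynomial.X ^ p - Polynomial.C (q : ℂ) := by
    simp [f]
  have hroot : (r : ℂ) ∈ (f.map complexEmbedding.toRingHom).roots := by
    rw [hmap, Polynomial.mem_roots (Polynomial.X_pow_sub_C_ne_zero (Nat.pos_of_ne_zero hp) _)]
    simp only [Polynomial.IsRoot.def, Polynomial.eval_sub, Polynomial.eval_pow,
      Polynomial.eval_X, Polynomial.eval_C]
    rw [sub_eq_zero]
    exact_mod_cast hrp
  rw [hsplit.roots_map] at hroot
  obtain ⟨β, hβ, hβr⟩ := Multiset.mem_map.mp hroot
  rw [Polynomial.mem_roots hf0] at hβ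
  simp only [f, Polynomial.IsRoot.def, Polynomial.eval_sub, Polynomial.eval_pow,
    Polynomial.eval_X, Polynomial.eval_C, sub_eq_zero] at hβ
  refine ⟨β, hβ, ?_⟩
  apply complexEmbedding.toRingHom.injective
  show complexEmbedding (complexConjugation β) = complexEmbedding β
  have hβr' : complexEmbedding β = (r : ℂ) := hβr
  rw [complexEmbedding_complexConjugation, hβr', Complex.conj_ofReal]

end KummerRoot

section KummerMove

/-- Complex conjugation inverts roots of unity. -/
theorem complexConjugation_root_h701 {m : ℕ} (hm : m ≠ 0) {t : Qb} (ht : t ^ m = 1) :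
    complexConjugation t = t⁻¹ := by
  apply complexEmbedding.toRingHom.injective
  show complexEmbedding (complexConjugation t) = complexEmbedding t⁻¹
  rw [complexEmbedding_complexConjugation, map_inv₀]
  have h1 : (complexEmbedding t) ^ m = 1 := by rw [← map_pow, ht, map_one]
  have h2 : ‖complexEmbedding t‖ = 1 := Complex.norm_eq_one_of_pow_eq_one h1 hm
  exact (Complex.inv_eq_conj h2).symm

/-- a `p`-th root of a prime number is irrational (`p ≥ 2`) -/
theorem root_not_rational_h701 {p q : ℕ} (hp : 2 ≤ p) (hq : q.Prime) {β : Qb}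
    (hβ : β ^ p = q) : β ∉ Set.range (algebraMap ℚ Qb) := by
  rintro ⟨r, rfl⟩
  have hr : r ^ p = (q : ℚ) := by
    apply (algebraMap ℚ Qb).injective
    rw [map_pow, hβ, map_natCast]
  have hx : ((r : ℝ)) ^ p = ((q : ℤ) : ℝ) := by
    have := congrArg (fun t : ℚ => (t : ℝ)) hr
    simpa using this
  have hint : ∃ y : ℤ, (r : ℝ) = y := by
    by_contra hv
    exact (irrational_nrt_of_notint_nrt p (q : ℤ) hx hv (by omega)) ⟨r, rfl⟩
  obtain ⟨y, hy⟩ := hint
  rw [hy] at hx
  have hy2 : y ^ p = (q : ℤ) := by exact_mod_cast hx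
  have hy3 : y.natAbs ^ p = q := by
    have := congrArg Int.natAbs hy2
    rwa [Int.natAbs_pow, Int.natAbs_natCast] at this
  have := ((Nat.Prime.pow_eq_iff hq).mp hy3).2
  omega

/-- There is an element of `Gal(ℚ̄/ℚ(ζ_M))` moving the real `p`-th root `β` of the prime `q`
(`p` odd): `ℚ(β)` is not contained in the abelian field `ℚ(ζ_M)`. -/
theorem exists_moving_h701 {p q : ℕ} (hp : p.Prime) (hp2 : p ≠ 2) (hq : q.Prime) {β : Qb}
    (hβ : β ^ p = q) (hc : complexConjugation β = β) (M : ℕ) [NeZero M] :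
    ∃ s : GQ701, cycloPow M s = 1 ∧ s β ≠ β := by
  by_contra hcon
  push Not at hcon
  have hnot := root_not_rational_h701 hp.two_le hq hβ
  have : Algebra.IsAlgebraic ℚ Qb := AlgebraicClosure.isAlgebraic ℚ
  have : IsAlgClosure ℚ Qb := ⟨inferInstance, inferInstance⟩
  have : Normal ℚ Qb := IsAlgClosure.normal ℚ Qb
  have : IsGalois ℚ Qb := ⟨⟩
  rw [InfiniteGalois.mem_range_algebraMap_iff_fixed] at hnot
  push Not at hnot
  obtain ⟨g, hg⟩ := hnot
  have hs : cycloPow M (complexConjugation * g * complexConjugation⁻¹ * g⁻¹) = 1 := by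
    simp only [map_mul, map_inv]
    rw [mul_comm (cycloPow M complexConjugation) (cycloPow M g),
      mul_assoc (cycloPow M g), mul_inv_cancel, mul_one, mul_inv_cancel]
  have h1 := hcon _ hs
  rw [complexConjugation_inv] at h1
  -- `c (g (c (g⁻¹ β))) = β`
  have h2 : complexConjugation (g (complexConjugation (g⁻¹ β))) = β := h1
  have hcc : ∀ x : Qb, complexConjugation (complexConjugation x) = x := by
    intro x
    have := congrArg (fun f : GQ701 => f x) complexConjugation_mul_self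
    exact this
  have h3 : g (complexConjugation (g⁻¹ β)) = β := by
    have := congrArg complexConjugation h2
    rw [hcc, hc] at this
    exact this
  have h4 : complexConjugation (g⁻¹ β) = g⁻¹ β := by
    have := congrArg (fun x => (g⁻¹ : GQ701) x) h3
    have e : (g⁻¹ : GQ701) (g (complexConjugation (g⁻¹ β))) = complexConjugation (g⁻¹ β) := by
      show (g⁻¹ * g) _ = _
      rw [inv_mul_cancel]; rfl
    rw [e] at this
    exact this
  -- `y = g⁻¹ β` is a root fixed by `c`
  set y := g⁻¹ β with hy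
  have hq0 : (q : Qb) ≠ 0 := Nat.cast_ne_zero.mpr hq.ne_zero
  have hβ0 : β ≠ 0 := by
    rintro rfl
    rw [zero_pow hp.ne_zero] at hβ
    exact hq0 hβ.symm
  have hyp : y ^ p = q := by
    rw [hy, ← map_pow, hβ, map_natCast]
  have hz : (y / β) ^ p = 1 := by
    rw [div_pow, hyp, hβ, div_self hq0]
  have hcz : complexConjugation (y / β) = y / β := by
    rw [map_div₀, h4, hc]
  rw [complexConjugation_root_h701 hp.ne_zero hz] at hcz
  have hz0 : y / β ≠ 0 := by
    intro h
    rw [h, zero_pow hp.ne_zero] at hz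
    exact zero_ne_one hz
  have hz2 : (y / β) ^ 2 = 1 := by
    have := congrArg (fun t => t * (y / β)) hcz
    simp only [inv_mul_cancel₀ hz0] at this
    rw [pow_two]; exact this.symm
  have hodd : Odd p := hp.odd_of_ne_two hp2
  obtain ⟨t, ht⟩ := hodd
  have hz1 : y / β = 1 := by
    have : (y / β) ^ p = y / β := by
      rw [ht, pow_succ, pow_mul, hz2, one_pow, one_mul]
    rw [← this, hz]
  have hyβ : y = β := by
    rw [div_eq_one_iff_eq hβ0] at hz1
    exact hz1
  apply hg
  have := congrArg g hyβ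
  rw [hy] at this
  have e : g (g⁻¹ β) = β := by
    show (g * g⁻¹) β = β
    rw [mul_inv_cancel]; rfl
  rw [e] at this
  exact this.symm

end KummerMove

section Kummer2

/-- **(K2)** A Frobenius element at `ℓ ≡ 1 mod p`, `ℓ ∤ pq`, fixes every `p`-th root of `q` as
soon as `q ^ ((ℓ - 1) / p) ≡ 1 mod ℓ`. -/
theorem frob_fix_root_h701 {A : ValuationSubring Qb} {τ : GQ701} {ℓ p q : ℕ}
    (hℓ : ℓ.Prime) (hp : p.Prime) (hℓp : ℓ ≠ p) (hℓq : ¬ ℓ ∣ q)
    (hA : A.LiesOverPrime ℓ) (hτ : A.IsFrobeniusAt τ ℓ) (hpℓ : p ∣ ℓ - 1)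
    {β : Qb} (hβ : β ^ p = q) (hq : (q : ZMod ℓ) ^ ((ℓ - 1) / p) = 1) : τ β = β := by
  by_contra hne
  have : NeZero ℓ := ⟨hℓ.ne_zero⟩
  have hvq : A.valuation (q : Qb) = 1 :=
    val_natCast_eq_one_h701 hA ((Nat.Prime.coprime_iff_not_dvd hℓ).mpr hℓq)
  have hvp : A.valuation (p : Qb) = 1 :=
    val_natCast_eq_one_h701 hA ((Nat.coprime_primes hℓ hp).2 hℓp)
  have hvβ : A.valuation β = 1 := by
    have h : (A.valuation β) ^ p = 1 := by rw [← map_pow, hβ, hvq]
    exact (pow_eq_one_iff.1 h).resolve_right hp.ne_zero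
  have hβA : β ∈ A := (A.valuation_le_one_iff β).1 hvβ.le
  have h1 := Fermat.Agent.S55.H414.IsFrobeniusAt_val_sub_pow_lt_one hτ β hβA
  obtain ⟨e, he⟩ := hpℓ
  have hℓe : ℓ = p * e + 1 := by have := hℓ.one_le; omega
  have he' : (ℓ - 1) / p = e := by rw [he]; exact Nat.mul_div_cancel_left e hp.pos
  rw [he'] at hq
  have h2 : β ^ ℓ - β = β * ((q : Qb) ^ e - 1) := by
    rw [hℓe, pow_succ, pow_mul, hβ]; ring
  have h3 : (ℓ : ℤ) ∣ (q : ℤ) ^ e - 1 := by
    rw [← ZMod.intCast_zmod_eq_zero_iff_dvd]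
    push_cast
    rw [hq, sub_self]
  obtain ⟨t, ht⟩ := h3
  have h4 : A.valuation ((q : Qb) ^ e - 1) < 1 := by
    have : ((q : Qb) ^ e - 1) = (ℓ : Qb) * (t : Qb) := by
      have := congrArg (Int.cast : ℤ → Qb) ht
      push_cast at this
      exact this
    rw [this, map_mul]
    have hℓv : A.valuation (ℓ : Qb) < 1 := (A.mem_nonunits_iff).mp hA
    exact (mul_le_of_le_one_right' (Fermat.Agent.S55.Bridge.val_intCast_le_one t)).trans_lt hℓv
  have h5 : A.valuation (β ^ ℓ - β) < 1 := by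
    rw [h2, map_mul, hvβ, one_mul]; exact h4
  have h6 : A.valuation (τ β - β) < 1 := by
    have : τ β - β = (τ β - β ^ ℓ) + (β ^ ℓ - β) := by ring
    rw [this]
    exact Valuation.map_add_lt _ h1 h5
  have hq0 : (q : Qb) ≠ 0 := by
    intro h
    rw [h, _root_.map_zero] at hvq
    exact zero_ne_one hvq
  have hβ0 : β ≠ 0 := by
    rintro rfl
    rw [zero_pow hp.ne_zero] at hβ
    exact hq0 hβ.symm
  have hτβ : (τ β) ^ p = q := by rw [← map_pow, hβ, map_natCast]
  have hz : (τ β / β) ^ p = 1 := by rw [div_pow, hτβ, hβ, div_self hq0]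
  have hz1 : τ β / β ≠ 1 := fun h => hne ((div_eq_one_iff_eq hβ0).1 h)
  have h7 := Fermat.Agent.S55.Bridge.val_sub_roots_eq_one (A := A) hp.ne_zero hvp hz
    (one_pow p) hz1
  have h8 : τ β - β = β * (τ β / β - 1) := by field_simp
  rw [h8, map_mul, hvβ, h7, one_mul] at h6
  exact lt_irrefl _ h6

/-- If `x ^ p = q` in `ZMod ℓ` (`ℓ ∤ q`, `p ∣ ℓ - 1`) then `q ^ ((ℓ - 1) / p) = 1`. -/
theorem pow_eq_one_of_isPow_h701 {ℓ p q : ℕ} (hℓ : ℓ.Prime) (hp : 0 < p) (hℓq : ¬ ℓ ∣ q)
    (hpℓ : p ∣ ℓ - 1) (x : ZMod ℓ) (hx : x ^ p = (q : ZMod ℓ)) :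
    (q : ZMod ℓ) ^ ((ℓ - 1) / p) = 1 := by
  have : Fact ℓ.Prime := ⟨hℓ⟩
  have hq0 : (q : ZMod ℓ) ≠ 0 := by
    intro h
    exact hℓq ((ZMod.natCast_eq_zero_iff q ℓ).mp h)
  have hx0 : x ≠ 0 := by
    rintro rfl
    rw [zero_pow hp.ne'] at hx
    exact hq0 hx.symm
  rw [← hx, ← pow_mul, Nat.mul_div_cancel' hpℓ]
  exact ZMod.pow_card_sub_one_eq_one hx0

end Kummer2

section Package

variable (W : WeierstrassCurve ℤ) (p : ℕ) (M : ℕ) [NeZero M]

/-- the field `ℚ(E[p], ζ_M, β)` -/
noncomputable def kummerField_h701 (β : Qb) : IntermediateField ℚ Qb :=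
  IntermediateField.adjoin ℚ (genSet_h701 W p M ∪ {β})

lemma splitField_le_kummerField_h701 (β : Qb) :
    splitField_h701 W p M ≤ kummerField_h701 W p M β :=
  IntermediateField.adjoin.mono ℚ _ _ Set.subset_union_left

lemma mem_kummerField_h701 (β : Qb) : β ∈ kummerField_h701 W p M β :=
  IntermediateField.subset_adjoin _ _ (Or.inr rfl)

lemma finiteDimensional_kummerField_h701 (hfin : Finite (Submodule.torsionBy ℤ (Pts W) p))
    (β : Qb) : FiniteDimensional ℚ (kummerField_h701 W p M β) := by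
  have hS : (genSet_h701 W p M ∪ {β}).Finite := by
    unfold genSet_h701
    refine ((Set.finite_singleton _).union
      ((Set.finite_univ.image _).union (Set.finite_univ.image _))).union (Set.finite_singleton _)
  have : Finite (genSet_h701 W p M ∪ {β} : Set Qb) := hS.to_subtype
  have : Algebra.IsAlgebraic ℚ Qb := AlgebraicClosure.isAlgebraic ℚ
  exact IntermediateField.finiteDimensional_adjoin
    (fun x _ => (Algebra.IsAlgebraic.isAlgebraic x).isIntegral)

/-- **Frobenius package**: every `σ` is, on `ℚ(E[p], ζ_M, β)`, a power of a Frobenius element `τ`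
at a good prime `ℓ ∉ S`, `ℓ ∤ 6pM`, which is itself a power of `σ` there. -/
theorem exists_frob_package_h701 (hFrob : Fermat.Agent.Lib.Frob.FrobRelation)
    (hΔ : W.Δ ≠ 0) [Fact p.Prime] (hpM : p ∣ M)
    (hfin : Finite (Submodule.torsionBy ℤ (Pts W) p)) (β : Qb) (S : Finset ℕ) (σ : GQ701) :
    ∃ (ℓ : ℕ) (A : ValuationSubring Qb) (τ : GQ701) (k j : ℕ),
      ℓ.Prime ∧ ℓ ∉ S ∧ ℓ ≠ p ∧ W.IsGoodPrimeFor ℓ ∧ A.LiesOverPrime ℓ ∧ A.IsFrobeniusAt τ ℓ ∧
      galoisRepModuleEnd ℚ (W.map (Int.castRingHom ℚ)) p σ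
          = galoisRepModuleEnd ℚ (W.map (Int.castRingHom ℚ)) p τ ^ j ∧
      cycloPow M σ = cycloPow M τ ^ j ∧ cycloPow M τ = cycloPow M σ ^ k ∧
      (τ ^ j) β = σ β ∧
      ((cycloPow M τ : (ZMod M)ˣ) : ZMod M) = (ℓ : ZMod M) ∧
      galoisRepModuleEnd ℚ (W.map (Int.castRingHom ℚ)) p τ *
            galoisRepModuleEnd ℚ (W.map (Int.castRingHom ℚ)) p τ
          - ((W.apOfModel ℓ : ℤ) : ZMod p) •
              galoisRepModuleEnd ℚ (W.map (Int.castRingHom ℚ)) p τ
          + ((ZMod.unitsMap hpM (cycloPow M τ) : (ZMod p)ˣ) : ZMod p) •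
              (1 : Module.End (ZMod p) (Submodule.torsionBy ℤ (Pts W) p)) = 0 := by
  classical
  have hMpos : 0 < M := Nat.pos_of_ne_zero (NeZero.ne M)
  have hfd := finiteDimensional_kummerField_h701 W p M hfin β
  obtain ⟨ℓ, A, τ, k, j, hℓ, hℓS, hA, hτ, -, hτσ, hστ⟩ :=
    Fermat.Agent.Lib.Cheb.frobeniusDivision (kummerField_h701 W p M β) hfd σ
      (S ∪ {2, 3, p} ∪ M.primeFactors ∪ W.Δ.natAbs.primeFactors)
  simp only [Finset.mem_union, Finset.mem_insert, Finset.mem_singleton, not_or] at hℓS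
  obtain ⟨⟨⟨hℓS, hℓ2, hℓ3, hℓp⟩, hℓM⟩, hℓΔ⟩ := hℓS
  have h5 : 5 ≤ ℓ := by
    have h2' := hℓ.two_le
    by_contra hlt
    push Not at hlt
    interval_cases ℓ
    · exact hℓ2 rfl
    · exact hℓ3 rfl
    · exact absurd hℓ (by decide)
  have hcop : Nat.Coprime ℓ M := by
    rw [Nat.Prime.coprime_iff_not_dvd hℓ]
    intro h
    exact hℓM (Nat.mem_primeFactors.mpr ⟨hℓ, h, hMpos.ne'⟩)
  have hgood : W.IsGoodPrimeFor ℓ := by
    intro h
    apply hℓΔ
    rw [Nat.mem_primeFactors]
    refine ⟨hℓ, ?_, by simpa using hΔ⟩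
    exact Int.natCast_dvd.mp h
  have hχτ : ((cycloPow M τ : (ZMod M)ˣ) : ZMod M) = (ℓ : ZMod M) :=
    coe_cycloPow_frob_h701 hA hτ hcop
  have hε : ((ZMod.unitsMap hpM (cycloPow M τ) : (ZMod p)ˣ) : ZMod p) = (ℓ : ZMod p) := by
    rw [ZMod.unitsMap_def, Units.coe_map, MonoidHom.coe_coe, hχτ, map_natCast]
  have hτσ' : ∀ x ∈ splitField_h701 W p M, τ x = (σ ^ k) x :=
    fun x hx => hτσ x (splitField_le_kummerField_h701 W p M β hx)
  have hστ' : ∀ x ∈ splitField_h701 W p M, (τ ^ j) x = σ x :=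
    fun x hx => hστ x (splitField_le_kummerField_h701 W p M β hx)
  refine ⟨ℓ, A, τ, k, j, hℓ, hℓS, hℓp, hgood, hA, hτ, ?_, ?_, ?_, ?_, hχτ, ?_⟩
  · rw [← map_pow]
    apply LinearMap.ext
    intro P
    rw [galoisRepModuleEnd_apply, galoisRepModuleEnd_apply]
    exact (smul_eq_of_eqOn_splitField_h701 W p M (τ ^ j) σ hστ' P).symm
  · rw [← map_pow]
    exact (cycloPow_eq_of_eqOn_splitField_h701 W p M (τ ^ j) σ hστ').symm
  · rw [cycloPow_eq_of_eqOn_splitField_h701 W p M τ (σ ^ k) hτσ', map_pow]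
  · exact hστ β (mem_kummerField_h701 W p M β)
  · rw [hε]
    exact frob_relation_end_h701 hFrob W p ℓ hℓ h5 hgood hℓp A τ hA hτ

end Package

section Fix

/-- an element of the kernel of the cyclotomic character mod `M` fixes all `M`-th roots of unity -/
lemma apply_root_of_cycloPow_eq_one_h701 (M : ℕ) [NeZero M] (s : GQ701)
    (hs : cycloPow M s = 1) {t : Qb} (ht : t ^ M = 1) : s t = t := by
  have h1 : s (zetaBar M) = zetaBar M := by
    have := (Fermat.Agent.S55.H414.cycloPow_eq_iff M s 1).mp hs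
    rw [this, Units.val_one, ZMod.val_one_eq_one_mod]
    have hz := (zetaBar_spec M).pow_eq_one
    have h2 : zetaBar M ^ 1 = zetaBar M ^ (1 % M) := by
      conv_lhs => rw [← Nat.mod_add_div 1 M, pow_add, pow_mul, hz, one_pow, mul_one]
    rw [← h2, pow_one]
  obtain ⟨i, -, rfl⟩ := (zetaBar_spec M).eq_pow_of_pow_eq_one ht
  rw [map_pow, h1]

/-- powers of an automorphism fixing `β` fix `β` -/
lemma pow_apply_of_apply_h701 (τ : GQ701) {β : Qb} (h : τ β = β) (j : ℕ) : (τ ^ j) β = β := by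
  induction j with
  | zero => rfl
  | succ n ih =>
    rw [pow_succ]
    show (τ ^ n) (τ β) = β
    rw [h, ih]

end Fix

section NEPrime

/-- **Block NE', conditional on the Frobenius relation.** -/
theorem nonEisenstein_kummer_of_frobRelation_h701 (hFrob : Fermat.Agent.Lib.Frob.FrobRelation)
    (W : WeierstrassCurve ℤ) (hΔ : W.Δ ≠ 0) (p : ℕ) (hp : p.Prime) (hp2 : p ≠ 2)
    (hirr : W.ModRepIsIrreducible p) (q : ℕ) (hq : q.Prime)
    (S : Finset ℕ) (M₀ : ℕ) (hM₀ : 0 < M₀) :
    ∃ ℓ : ℕ, ℓ.Prime ∧ ℓ ∉ S ∧ W.IsGoodPrimeFor ℓ ∧ ℓ ≡ 1 [MOD M₀] ∧ ℓ ≡ 1 [MOD p] ∧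
      ¬ (p : ℤ) ∣ ((ℓ : ℤ) + 1 - W.apOfModel ℓ) ∧ (q : ZMod ℓ) ^ ((ℓ - 1) / p) ≠ 1 := by
  classical
  by_contra hcon0
  have hcon : ∀ ℓ : ℕ, ℓ.Prime → ℓ ∉ S → W.IsGoodPrimeFor ℓ → ℓ ≡ 1 [MOD M₀] → ℓ ≡ 1 [MOD p] →
      (q : ZMod ℓ) ^ ((ℓ - 1) / p) ≠ 1 → (p : ℤ) ∣ ((ℓ : ℤ) + 1 - W.apOfModel ℓ) := by
    intro ℓ h1 h2 h3 h4 h5 h6
    by_contra h7
    exact hcon0 ⟨ℓ, h1, h2, h3, h4, h5, h7, h6⟩
  have : Fact p.Prime := ⟨hp⟩
  obtain ⟨M, hMdef⟩ : ∃ M : ℕ, M = M₀ * p := ⟨_, rfl⟩
  have hMpos : 0 < M := by rw [hMdef]; exact Nat.mul_pos hM₀ hp.pos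
  have : NeZero M := ⟨hMpos.ne'⟩
  have hpM : p ∣ M := by rw [hMdef]; exact Dvd.intro_left _ rfl
  have hM₀M : M₀ ∣ M := by rw [hMdef]; exact Dvd.intro _ rfl
  have hΔQ : ((W.map (Int.castRingHom ℚ))⁄Qb).Δ ≠ 0 := by
    simp only [WeierstrassCurve.baseChange, WeierstrassCurve.map_Δ]
    simpa using hΔ
  have : ((W.map (Int.castRingHom ℚ))⁄Qb).IsElliptic := ⟨isUnit_iff_ne_zero.mpr hΔQ⟩
  have hdim : Module.finrank (ZMod p) (Submodule.torsionBy ℤ (Pts W) p) = 2 :=
    finrank_torsion_eq_two_h701 (K := Qb) (W.map (Int.castRingHom ℚ)) p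
  have hfin : Finite (Submodule.torsionBy ℤ (Pts W) p) :=
    finite_torsion_prelude_h701 (K := Qb) (W.map (Int.castRingHom ℚ)) p hp.one_le
  have h2 : (2 : ZMod p) ≠ 0 := by
    intro h
    have h' : ((2 : ℕ) : ZMod p) = 0 := by exact_mod_cast h
    rw [ZMod.natCast_eq_zero_iff] at h'
    exact hp2 ((Nat.prime_dvd_prime_iff_eq hp Nat.prime_two).mp h')
  -- the real `p`-th root of `q`
  obtain ⟨β, hβ, hcβ⟩ := exists_real_root_h701 p q hp.ne_zero
  have hq0 : (q : Qb) ≠ 0 := Nat.cast_ne_zero.mpr hq.ne_zero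
  have hβ0 : β ≠ 0 := by
    rintro rfl
    rw [zero_pow hp.ne_zero] at hβ
    exact hq0 hβ.symm
  -- (Eis') elements of the kernel moving `β` are unipotent
  have hmove : ∀ s : GQ701, cycloPow M s = 1 → s β ≠ β →
      (galoisRepModuleEnd ℚ (W.map (Int.castRingHom ℚ)) p s - 1) *
        (galoisRepModuleEnd ℚ (W.map (Int.castRingHom ℚ)) p s - 1) = 0 := by
    intro s hs hsβ
    obtain ⟨ℓ, A, τ, k, j, hℓ, hℓS, hℓp, hgood, hA, hτ, hρ, -, hχk, hβj, hχτ, hrel⟩ :=
      exists_frob_package_h701 W p M hFrob hΔ hpM hfin β (insert q S) s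
    rw [Finset.mem_insert, not_or] at hℓS
    obtain ⟨hℓq, hℓS⟩ := hℓS
    have hτ1 : cycloPow M τ = 1 := by rw [hχk, hs, one_pow]
    rw [hτ1, Units.val_one] at hχτ
    have hℓ1 : ℓ ≡ 1 [MOD M] := by
      rw [← ZMod.natCast_eq_natCast_iff, ← hχτ, Nat.cast_one]
    have hℓ1p : ℓ ≡ 1 [MOD p] := hℓ1.of_dvd hpM
    have hpℓ : p ∣ ℓ - 1 := (Nat.modEq_iff_dvd' hℓ.one_le).mp hℓ1p.symm
    have hτβ : τ β ≠ β := by
      intro h
      apply hsβ
      rw [← hβj]
      exact pow_apply_of_apply_h701 τ h j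
    have hℓq' : ¬ ℓ ∣ q := by
      intro h
      exact hℓq ((Nat.prime_dvd_prime_iff_eq hℓ hq).mp h)
    have hkum : (q : ZMod ℓ) ^ ((ℓ - 1) / p) ≠ 1 := by
      intro h
      exact hτβ (frob_fix_root_h701 hℓ hp hℓp hℓq' hA hτ hpℓ hβ h)
    have hdvd := hcon ℓ hℓ hℓS hgood (hℓ1.of_dvd hM₀M) hℓ1p hkum
    have hℓ1p' : (ℓ : ZMod p) = 1 := by
      have := (ZMod.natCast_eq_natCast_iff ℓ 1 p).mpr hℓ1p
      simpa using this
    have h0 : (((ℓ : ℤ) + 1 - W.apOfModel ℓ : ℤ) : ZMod p) = 0 :=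
      (ZMod.intCast_zmod_eq_zero_iff_dvd _ p).mpr hdvd
    push_cast at h0
    rw [hℓ1p'] at h0
    have ha : ((W.apOfModel ℓ : ℤ) : ZMod p) = 2 := by
      have : ((W.apOfModel ℓ : ℤ) : ZMod p) = 1 + 1 := (sub_eq_zero.mp h0).symm
      rw [this]; norm_num
    rw [ha, hτ1, map_one, Units.val_one, one_smul, two_smul] at hrel
    have h1 : (galoisRepModuleEnd ℚ (W.map (Int.castRingHom ℚ)) p τ - 1) *
        (galoisRepModuleEnd ℚ (W.map (Int.castRingHom ℚ)) p τ - 1) = 0 := by
      rw [← hrel]; noncomm_ring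
    rw [hρ]
    exact sq_zero_pow_sub_one_h701 _ h1 j
  -- (K1) an element of the kernel moving `β`
  obtain ⟨s₁, hs₁, hs₁β⟩ := exists_moving_h701 hp hp2 hq hβ hcβ M
  -- (K3) the whole kernel is unipotent
  have hunip : ∀ s : GQ701, cycloPow M s = 1 →
      (galoisRepModuleEnd ℚ (W.map (Int.castRingHom ℚ)) p s - 1) *
        (galoisRepModuleEnd ℚ (W.map (Int.castRingHom ℚ)) p s - 1) = 0 := by
    intro s hs
    by_cases hsβ : s β = β
    · -- trace trick with `s₁`
      have e1 : (s₁ * s) β = s₁ β := by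
        show s₁ (s β) = s₁ β
        rw [hsβ]
      have hz : (s₁ β / β) ^ p = 1 := by
        rw [div_pow, ← map_pow, hβ, map_natCast, div_self hq0]
      have hzM : (s₁ β / β) ^ M = 1 := by
        obtain ⟨d, hd⟩ := hpM
        rw [hd, pow_mul, hz, one_pow]
      have hfixz : s₁ (s₁ β / β) = s₁ β / β :=
        apply_root_of_cycloPow_eq_one_h701 M s₁ hs₁ hzM
      have e2 : (s₁ * s₁ * s) β = β * (s₁ β / β) ^ 2 := by
        show s₁ (s₁ (s β)) = _
        rw [hsβ]
        have : s₁ β = β * (s₁ β / β) := by field_simp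
        conv_lhs => rw [this, map_mul, hfixz]
        rw [this]
        field_simp
      have hne2 : (s₁ * s₁ * s) β ≠ β := by
        rw [e2]
        intro h
        have hz2 : (s₁ β / β) ^ 2 = 1 := by
          have := mul_left_cancel₀ hβ0 (h.trans (mul_one β).symm)
          exact this
        obtain ⟨t, ht⟩ := hp.odd_of_ne_two hp2
        have hz1 : s₁ β / β = 1 := by
          have : (s₁ β / β) ^ p = s₁ β / β := by
            rw [ht, pow_succ, pow_mul, hz2, one_pow, one_mul]
          rw [← this, hz]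
        exact hs₁β ((div_eq_one_iff_eq hβ0).1 hz1)
      have u0 := hmove s₁ hs₁ hs₁β
      have u1 := hmove (s₁ * s) (by rw [map_mul, hs₁, hs, one_mul]) (by rw [e1]; exact hs₁β)
      have u2 := hmove (s₁ * s₁ * s) (by rw [map_mul, map_mul, hs₁, hs, one_mul, one_mul]) hne2
      rw [map_mul] at u1
      rw [map_mul, map_mul] at u2
      exact unipotent_of_pair_h701 hdim _ _ u0 u1 u2
    · exact hmove s hs hsβ
  -- the Frobenius relation for determinants
  have hF : ∀ σ : GQ701, ∃ (τ : GQ701) (j : ℕ) (a : ZMod p),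
      galoisRepModuleEnd ℚ (W.map (Int.castRingHom ℚ)) p σ
          = galoisRepModuleEnd ℚ (W.map (Int.castRingHom ℚ)) p τ ^ j ∧
        cycloPow M σ = cycloPow M τ ^ j ∧
        galoisRepModuleEnd ℚ (W.map (Int.castRingHom ℚ)) p τ *
            galoisRepModuleEnd ℚ (W.map (Int.castRingHom ℚ)) p τ
          - a • galoisRepModuleEnd ℚ (W.map (Int.castRingHom ℚ)) p τ
          + ((ZMod.unitsMap hpM (cycloPow M τ) : (ZMod p)ˣ) : ZMod p) •
              (1 : Module.End (ZMod p) (Submodule.torsionBy ℤ (Pts W) p)) = 0 := by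
    intro σ
    obtain ⟨ℓ, A, τ, k, j, -, -, -, -, -, -, hρ, hχ, -, -, -, hrel⟩ :=
      exists_frob_package_h701 W p M hFrob hΔ hpM hfin β S σ
    exact ⟨τ, j, _, hρ, hχ, hrel⟩
  obtain ⟨c, hc⟩ := exists_cycloPow_eq_neg_one_h701 M
  have hc2 : cycloPow M c * cycloPow M c = 1 := by rw [hc]; simp
  have hcε : ((ZMod.unitsMap hpM (cycloPow M c) : (ZMod p)ˣ) : ZMod p) = -1 := by
    rw [hc, ZMod.unitsMap_def, Units.coe_map, MonoidHom.coe_coe, Units.val_neg, Units.val_one,
      map_neg, map_one]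
  obtain ⟨L, hL0, hL1, hLstab⟩ := exists_stable_line_of_unipotent_h701 h2 hdim
    (galoisRepModuleEnd ℚ (W.map (Int.castRingHom ℚ)) p) (cycloPow M) (ZMod.unitsMap hpM)
    hunip hF c hc2 hcε
  rcases hirr.2 L (fun σ x hx => hLstab σ x hx) with h | h
  · exact hL0 h
  · exact hL1 h

end NEPrime

end Fermat.Agent.S41.H701

end
-- ===== PACK-END S41/H701/NonEisensteinKummer.lean

-- ===== PACK-BEGIN S59/TW/Aut/H762/CorIdx.lean
section


/-!
# S59 / cell TW, layer 3 (AUT), leaf CTRL, piece (5) COR — the index set of `FreeAt` (helper762)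

For primitive roots `g_j` modulo the primes `q_j`, the map
`e ↦ class of (g_j ^ e_j)_j`, `∏_j Fin (p ^ m_j) → Δ_Q` (`m_j = v_p(q_j - 1)`), is bijective.
-/

set_option autoImplicit false

namespace Fermat.Agent.S59.TW.Aut.H762

open Fermat.Agent.S59.TW.Aut

variable (p : ℕ) {r : ℕ} (qv : Fin r → ℕ)

/-- The index map `e ↦ class of (g_j ^ e_j)_j` of `FreeAt`. -/
def epsIdx (g : ∀ j : Fin r, (ZMod (qv j))ˣ)
    (e : ∀ j : Fin r, Fin (p ^ padicValNat p (qv j - 1))) : Delta p qv :=
  QuotientGroup.mk (fun j => g j ^ (e j : ℕ))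

theorem mem_powSub_iff (a : ∀ j : Fin r, (ZMod (qv j))ˣ) :
    a ∈ powSub p qv ↔ ∀ j, ∃ u : (ZMod (qv j))ˣ, u ^ (p ^ padicValNat p (qv j - 1)) = a j := by
  unfold powSub
  rw [Subgroup.mem_pi]
  constructor
  · intro h j
    obtain ⟨u, hu⟩ := h j (Set.mem_univ j)
    exact ⟨u, hu⟩
  · intro h j _
    obtain ⟨u, hu⟩ := h j
    exact ⟨u, hu⟩

/-- A primitive root generates. -/
theorem exists_pow_eq_of_orderOf {q : ℕ} (hq : q.Prime) {g : (ZMod q)ˣ}
    (hg : orderOf g = q - 1) (u : (ZMod q)ˣ) : ∃ k : ℕ, g ^ k = u := by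
  have : Fact q.Prime := ⟨hq⟩
  have hcard : Nat.card (ZMod q)ˣ = q - 1 := by
    rw [Nat.card_eq_fintype_card, ZMod.card_units]
  have h1 : Subgroup.zpowers g = ⊤ := by
    apply (Subgroup.card_eq_iff_eq_top _).mp
    rw [Nat.card_zpowers, hg, hcard]
  have h2 : u ∈ Subgroup.zpowers g := by
    rw [h1]
    exact Subgroup.mem_top u
  rw [← mem_powers_iff_mem_zpowers] at h2
  exact (Submonoid.mem_powers_iff u g).mp h2

theorem epsIdx_injective [Fact p.Prime] (hprime : ∀ j, (qv j).Prime)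
    (g : ∀ j : Fin r, (ZMod (qv j))ˣ) (hg : ∀ j, orderOf (g j) = qv j - 1) :
    Function.Injective (epsIdx p qv g) := by
  intro e e' h
  unfold epsIdx at h
  rw [QuotientGroup.eq, mem_powSub_iff] at h
  funext j
  obtain ⟨u, hu⟩ := h j
  obtain ⟨k, rfl⟩ := exists_pow_eq_of_orderOf (hprime j) (hg j) u
  have h1 : g j ^ (k * p ^ padicValNat p (qv j - 1) + (e j : ℕ)) = g j ^ (e' j : ℕ) := by
    rw [pow_add, pow_mul, hu]
    simp
  rw [pow_eq_pow_iff_modEq, hg j] at h1
  have hdvd : p ^ padicValNat p (qv j - 1) ∣ qv j - 1 := pow_padicValNat_dvd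
  have h2 : (k * p ^ padicValNat p (qv j - 1) + (e j : ℕ)) ≡ (e' j : ℕ)
      [MOD p ^ padicValNat p (qv j - 1)] := h1.of_dvd hdvd
  have h3 : ((e j : ℕ)) ≡ (e' j : ℕ) [MOD p ^ padicValNat p (qv j - 1)] := by
    have h4 : (k * p ^ padicValNat p (qv j - 1) + (e j : ℕ)) ≡ (e j : ℕ)
        [MOD p ^ padicValNat p (qv j - 1)] := by
      unfold Nat.ModEq
      rw [Nat.mul_add_mod_of_lt (e j).2] 
      exact (Nat.mod_eq_of_lt (e j).2).symm
    exact h4.symm.trans h2
  apply Fin.ext
  unfold Nat.ModEq at h3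
  rw [Nat.mod_eq_of_lt (e j).2, Nat.mod_eq_of_lt (e' j).2] at h3
  exact h3

theorem epsIdx_surjective [hp : Fact p.Prime] (hprime : ∀ j, (qv j).Prime)
    (g : ∀ j : Fin r, (ZMod (qv j))ˣ) (hg : ∀ j, orderOf (g j) = qv j - 1) :
    Function.Surjective (epsIdx p qv g) := by
  intro d
  obtain ⟨a, rfl⟩ := QuotientGroup.mk_surjective d
  have hk : ∀ j, ∃ k : ℕ, g j ^ k = a j := fun j =>
    exists_pow_eq_of_orderOf (hprime j) (hg j) (a j)
  choose k hk using hk
  have hpos : ∀ j, 0 < p ^ padicValNat p (qv j - 1) := fun j => pow_pos hp.out.pos _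
  refine ⟨fun j => ⟨k j % p ^ padicValNat p (qv j - 1), Nat.mod_lt _ (hpos j)⟩, ?_⟩
  unfold epsIdx
  rw [QuotientGroup.eq, mem_powSub_iff]
  intro j
  refine ⟨g j ^ (k j / p ^ padicValNat p (qv j - 1)), ?_⟩
  show _ = ((fun j => g j ^ (k j % p ^ padicValNat p (qv j - 1)))⁻¹ * a) j
  rw [Pi.mul_apply, Pi.inv_apply, ← hk j, ← pow_mul, eq_inv_mul_iff_mul_eq, ← pow_add]
  congr 1
  rw [mul_comm]
  exact Nat.mod_add_div _ _

theorem epsIdx_bijective [Fact p.Prime] (hprime : ∀ j, (qv j).Prime)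
    (g : ∀ j : Fin r, (ZMod (qv j))ˣ) (hg : ∀ j, orderOf (g j) = qv j - 1) :
    Function.Bijective (epsIdx p qv g) :=
  ⟨epsIdx_injective p qv hprime g hg, epsIdx_surjective p qv hprime g hg⟩

/-- Primitive roots exist. -/
theorem exists_primitive_roots (hprime : ∀ j, (qv j).Prime) :
    ∃ g : ∀ j : Fin r, (ZMod (qv j))ˣ, ∀ j, orderOf (g j) = qv j - 1 := by
  have h : ∀ j, ∃ g : (ZMod (qv j))ˣ, orderOf g = qv j - 1 := by
    intro j
    have : Fact (qv j).Prime := ⟨hprime j⟩
    obtain ⟨g, hg⟩ := IsCyclic.exists_generator (α := (ZMod (qv j))ˣ)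
    refine ⟨g, ?_⟩
    rw [orderOf_eq_card_of_forall_mem_zpowers hg, Nat.card_eq_fintype_card, ZMod.card_units]
  choose g hg using h
  exact ⟨g, hg⟩

end Fermat.Agent.S59.TW.Aut.H762

end
-- ===== PACK-END S59/TW/Aut/H762/CorIdx.lean

-- ===== PACK-BEGIN S59/TW/H658/MSInterface.lean
section












/-!
# S21 — interface statements for the minimizing sequence (MS)

All pieces are now proved:
* MS-A `exists_partition_SL2Z` (helper896, `Partition.lean`), repackaged here as
  `exists_isSL2ZPartition`;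
* MS-C `exists_u0` (helper81, `H81/U0Final.lean`);
* INT-A (helper480, `IntA.lean`), INT-B (helper753, `IntB.lean`), INT-C (helper544, `IntC.lean`),
  INT-D (helper98, `IntD.lean`, `IntDCore.lean`).
-/

set_option autoImplicit false

open ModularCurve ModularCurve.Period UpperHalfPlane CongruenceSubgroup Filter Topology
open MeasureTheory
open scoped MatrixGroups ComplexConjugate ContDiff

namespace Fermat.Agent.S59.TW.H658

open Fermat.Agent.S21

/-- **MS-A**, packaged as a structure. -/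
theorem exists_isSL2ZPartition : ∃ χ₁ : ℂ → ℝ, IsSL2ZPartition χ₁ := by
  obtain ⟨χ₁, h1, h2, h3, h4, h5⟩ := exists_partition_SL2Z
  exact ⟨χ₁, ⟨h1, h2, h3, h4, h5⟩⟩

/-- **MS-C**: the initial function `u₀` with periods `φ`, locally constant high in every cusp. -/
theorem exists_u0 (L : Lev) (φ : Additive (L.Γ) →+ ℝ)
    (hφ : ModularCurve.Period.IsParabolicHom (L.Γ) φ) :
    ∃ u₀ : ℂ → ℝ, ContDiffOn ℝ ∞ u₀ Uhp ∧
      (∀ (γ : L.Γ) (z : ℍ), u₀ ↑((γ : SL(2, ℤ)) • z) = u₀ ↑z + φ (Additive.ofMul γ)) ∧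
      (∀ (δ : SL(2, ℤ)) (z : ℂ), 2 < z.im → dz u₀ (mob δ z) = 0) :=
  _root_.Fermat.Agent.S59.TW.H658.H81.exists_u0 L φ hφ

end Fermat.Agent.S59.TW.H658

end
-- ===== PACK-END S59/TW/H658/MSInterface.lean

-- ===== PACK-BEGIN S32/Top.lean
section
/-
Row S32 (flat at `p`), TOP GLUE — assembly (helper32).

`s32_of_pieces` : the frozen statement S32 from the pieces EIG, REL, EMB, RED of `Spec.lean`,
`S59.G4.PointsStatement` and the (landed) ORD block of cell A3.

Proof.  `T` is reduced (RED), so it has a strict finite family of local `p`-adic points `P_i`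
(POINTS).  At each point: a flat eigenmodule `E_i` (EIG) on which every `g` satisfies the
characteristic polynomial of `H.ρ g` (REL), hence a strict semilinear equivariant map
`φ_i : V → E_i.M` (EMB; `T[G] → End V` is onto by Burnside–Nakayama, `S31.H202`).
For an ideal `I` of finite colength, `𝔪_T ^ n ≤ I`; strictness of the points and of the `φ_i`
gives exponents with `ker (V → ∏ E_i.M / J_i) ≤ I V`.  So `V / I V` is an equivariant
sub-quotient of the finite product `∏ E_i.M / J_i` of Hopf models (closure, `S19.H135`).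
-/




set_option autoImplicit false

noncomputable section

namespace Fermat.Agent.S32

open IsLocalRing Fermat.Agent.S19 Fermat.Agent.S31 Fermat.Agent.S59

/-! ### Finite dependent products of Hopf models -/

section DepProd

variable (hord : OrdStatement) {ℓ : ℕ} [Fact ℓ.Prime]

include hord

theorem hopfModel_piFin (n : ℕ) : ∀ (M : Fin n → Type) [_inst : ∀ i, AddCommGroup (M i)]
    (act : ∀ i, GalQ → M i → M i), (∀ i, HopfModel ℓ (M i) (act i)) →
    HopfModel ℓ (∀ i, M i) (fun σ v i => act i σ (v i)) := by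
  induction n with
  | zero =>
    intro M _ act _
    exact (H135.hasHopfLattice_of_subsingleton).hopfModel hord
  | succ n ih =>
    intro M _ act h
    have h1 := H135.hopfModel_prod hord (h 0)
      (ih (fun i => M i.succ) (fun i => act i.succ) (fun i => h i.succ))
    let e : (M 0 × (∀ i : Fin n, M i.succ)) ≃+ (∀ i, M i) :=
      { toFun := fun q => Fin.cons (α := M) q.1 q.2
        invFun := fun v => (v 0, fun i => v i.succ)
        left_inv := fun q => by simp
        right_inv := fun v => by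
          funext i
          refine Fin.cases ?_ (fun i => ?_) i <;> simp
        map_add' := fun q q' => by
          funext i
          refine Fin.cases ?_ (fun i => ?_) i <;> simp }
    refine H135.hopfModel_of_addEquiv hord h1 e ?_
    intro σ q
    funext i
    refine Fin.cases ?_ (fun i => ?_) i <;> simp [e]

/-- A module `W` which is an equivariant quotient of `V`, such that the kernel of `V → W`
contains the common kernel of finitely many equivariant maps from `V` to Hopf models, is a Hopf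
model. -/
theorem hopfModel_of_family {V W : Type} [AddCommGroup V] [AddCommGroup W]
    (actV : GalQ → V →+ V) (actW : GalQ → W → W) (n : ℕ) (M : Fin n → Type)
    [∀ i, AddCommGroup (M i)] (act : ∀ i, GalQ → M i → M i)
    (hM : ∀ i, HopfModel ℓ (M i) (act i))
    (f : ∀ i, V →+ M i) (hf : ∀ i σ v, f i (actV σ v) = act i σ (f i v))
    (π : V →+ W) (hπ : Function.Surjective π) (hπeq : ∀ σ v, π (actV σ v) = actW σ (π v))
    (hker : ∀ v, (∀ i, f i v = 0) → π v = 0) : HopfModel ℓ W actW := by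
  have hprod := hopfModel_piFin hord n M act hM
  have hact0 : ∀ i σ, act i σ 0 = 0 := by
    intro i σ
    have h := H135.HopfModel.act_add_h135 (hM i) σ 0 0
    rw [add_zero] at h
    exact left_eq_add.mp h
  let j : V →+ (∀ i, M i) := AddMonoidHom.pi f
  have hj : ∀ v i, j v i = f i v := fun _ _ => rfl
  have hjeq : ∀ σ v, j (actV σ v) = fun i => act i σ (j v i) := by
    intro σ v
    funext i
    exact hf i σ v
  have hstab : ∀ σ : GalQ, j.ker ≤ j.ker.comap (actV σ) := by
    intro σ v hv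
    rw [AddSubgroup.mem_comap, AddMonoidHom.mem_ker]
    rw [AddMonoidHom.mem_ker] at hv
    rw [hjeq, hv]
    funext i
    exact hact0 i σ
  have hle : j.ker ≤ π.ker := by
    intro v hv
    rw [AddMonoidHom.mem_ker] at hv ⊢
    exact hker v fun i => by rw [← hj, hv]; rfl
  refine H135.hopfModel_of_subquotient hord (M₁ := V ⧸ j.ker)
    (act₁ := fun σ => QuotientAddGroup.map j.ker j.ker (actV σ) (hstab σ)) hprod
    (QuotientAddGroup.kerLift j) (QuotientAddGroup.kerLift_injective j) ?_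
    (QuotientAddGroup.lift j.ker π hle) ?_ ?_
  · intro σ m
    induction m using QuotientAddGroup.induction_on with
    | H v => exact hjeq σ v
  · intro y
    obtain ⟨v, rfl⟩ := hπ y
    exact ⟨QuotientAddGroup.mk v, rfl⟩
  · intro σ m
    induction m using QuotientAddGroup.induction_on with
    | H v => exact hπeq σ v

end DepProd

/-! ### Auxiliary algebra -/

section Aux

variable {T : Type} [CommRing T] [IsLocalRing T] [IsNoetherianRing T]

/-- An ideal of finite colength in a Noetherian local ring contains a power of the maximal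
ideal. -/
theorem exists_pow_le_of_finite_quotient (I : Ideal T) (hI : Finite (T ⧸ I)) :
    ∃ n : ℕ, maximalIdeal T ^ n ≤ I := by
  refine Ideal.exists_pow_le_of_le_radical_of_fg ?_ (IsNoetherian.noetherian _)
  intro x hx
  -- two powers of `x` agree modulo `I`
  obtain ⟨a, b, hab, hEq⟩ : ∃ a b : ℕ, a < b ∧
      Ideal.Quotient.mk I (x ^ a) = Ideal.Quotient.mk I (x ^ b) := by
    have hninj : ¬ Function.Injective (fun k : ℕ => Ideal.Quotient.mk I (x ^ k)) :=
      not_injective_infinite_finite _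
    rw [Function.Injective] at hninj
    push Not at hninj
    obtain ⟨a, b, hEq, hne⟩ := hninj
    rcases Nat.lt_or_gt_of_ne hne with h | h
    · exact ⟨a, b, h, hEq⟩
    · exact ⟨b, a, h, hEq.symm⟩
  obtain ⟨c, rfl⟩ : ∃ c, b = a + (c + 1) := ⟨b - a - 1, by omega⟩
  have h1 : x ^ a * (1 - x ^ (c + 1)) ∈ I := by
    rw [← Ideal.Quotient.eq_zero_iff_mem, mul_sub, mul_one, ← pow_add, map_sub, hEq, sub_self]
  have hu : IsUnit (1 - x ^ (c + 1)) := by
    have hm : x ^ (c + 1) ∈ maximalIdeal T := Ideal.pow_mem_of_mem _ hx _ (by omega)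
    by_contra hnu
    have h2 : 1 - x ^ (c + 1) ∈ maximalIdeal T := (mem_maximalIdeal _).mpr hnu
    have h3 : (1 : T) ∈ maximalIdeal T := by
      have := Ideal.add_mem _ h2 hm
      rwa [sub_add_cancel] at this
    exact (Ideal.ne_top_iff_one _).mp (maximalIdeal.isMaximal T).ne_top h3
  refine ⟨a, ?_⟩
  obtain ⟨u, hu'⟩ := hu
  have h4 : x ^ a = x ^ a * (1 - x ^ (c + 1)) * ((u⁻¹ : Tˣ) : T) := by
    rw [mul_assoc, ← hu', Units.mul_inv, mul_one]
  rw [h4]
  exact Ideal.mul_mem_right _ _ h1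

omit [IsLocalRing T] [IsNoetherianRing T] in
/-- Membership in `J V` for a finite free module is tested on coordinates. -/
theorem mem_smul_top_of_repr {V : Type} [AddCommGroup V] [Module T V] {ι : Type} [Fintype ι]
    (b : Module.Basis ι T V) (J : Ideal T) (v : V) (h : ∀ i, b.repr v i ∈ J) :
    v ∈ J • (⊤ : Submodule T V) := by
  rw [← b.sum_repr v]
  exact Submodule.sum_mem _ fun i _ => Submodule.smul_mem_smul (h i) Submodule.mem_top

omit [IsLocalRing T] [IsNoetherianRing T] in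
theorem repr_mem_of_mem_smul_top' {V : Type} [AddCommGroup V] [Module T V] {ι : Type}
    (b : Module.Basis ι T V) (J : Ideal T) (v : V) (h : v ∈ J • (⊤ : Submodule T V)) (i : ι) :
    b.repr v i ∈ J := by
  refine Submodule.smul_induction_on h ?_ ?_
  · intro r hr w _
    rw [map_smul, Finsupp.smul_apply, smul_eq_mul]
    exact Ideal.mul_mem_right _ _ hr
  · intro x y hx hy
    rw [map_add, Finsupp.add_apply]
    exact Ideal.add_mem _ hx hy

end Aux

/-! ### The assembly -/

section Asm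

open Fermat.Agent.S30.H990 (AdicEigenModule)

/-- **S32 from the pieces.** -/
theorem s32_of_pieces (hord : OrdStatement) (hEig : FlatEigenStatement) (hRel : RelStatement)
    (hEmb : EmbedStatement) (hRed : RedStatement) (hPts : G4.PointsStatement) :
    S32Statement := by
  intro p N _ S 𝒪 _ _ _ _ θ T _ _ _ _ _ _ _ _ _ _ hp _ hp𝒪 hpN hpS hNS H
  have : Fact p.Prime := ⟨hp⟩
  have : IsReduced T := hRed N S hNS 𝒪 θ T H
  obtain ⟨F, hstrict, hloc⟩ := hPts p 𝒪 hp𝒪 T
  have hspan := H202.span_range_rho_eq_top H.ρ H.residual_absIrr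
  -- the residue field of `T` is finite
  have hresT : Finite (ResidueField T) :=
    Finite.of_surjective (fun x : ResidueField 𝒪 =>
      ResidueField.map (algebraMap 𝒪 T) x) (by
        intro y
        obtain ⟨a, rfl⟩ := H.residue_surjective y
        exact ⟨residue 𝒪 a, rfl⟩)
  refine ⟨hresT, fun I hI => ?_⟩
  obtain ⟨n, hn⟩ := exists_pow_le_of_finite_quotient I hI
  obtain ⟨n', hn'⟩ := hstrict n
  -- the data at the points
  have hpt : ∀ i : Fin F.length, ∃ (E : AdicEigenModule p N S (F.get i).O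
      ((F.get i).χ.comp H.π)) (φ : H.ρ.V →+ E.M) (k : ℕ), IsFlatMod p E.ρ ∧
      (∀ (g : GalQ) (v : H.ρ.V), φ (H.ρ.ρ g v) = E.ρ g (φ v)) ∧
      ∀ (m : ℕ) (v : H.ρ.V),
        φ v ∈ (maximalIdeal (F.get i).O ^ (m + k)) • (⊤ : Submodule (F.get i).O E.M) →
          v ∈ (Ideal.comap (F.get i).χ (maximalIdeal (F.get i).O ^ m)) •
            (⊤ : Submodule T H.ρ.V) := by
    intro i
    have hmem : F.get i ∈ F := List.get_mem F i
    obtain ⟨E, hE⟩ := hEig p N S hpS hNS hpN (F.get i).O (F.get i).hp ((F.get i).χ.comp H.π)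
    have hrel := hRel p N S hpS hNS 𝒪 θ T H (F.get i) (hloc _ hmem) E
    have h2 : (2 : (F.get i).O) ≠ 0 := two_ne_zero
    obtain ⟨φ, -, heq, k, hk⟩ := hEmb T H.ρ hspan (F.get i).O h2 (F.get i).χ E.M E.ρ hrel
    exact ⟨E, φ, k, hE, heq, hk⟩
  choose E φ k hflat heq hstr using hpt
  -- the ideals and the finite quotients
  have hJfin : ∀ i : Fin F.length,
      Finite ((F.get i).O ⧸ maximalIdeal (F.get i).O ^ (n' + k i)) := by
    intro i
    have : Finite ((F.get i).O ⧸ maximalIdeal (F.get i).O) :=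
      (inferInstance : Finite (ResidueField (F.get i).O))
    exact Ideal.finite_quotient_pow (IsNoetherian.noetherian _) _
  show HopfModel p (H.ρ.V ⧸ (I • (⊤ : Submodule T H.ρ.V))) (fun σ x => H.ρ.levelAction I σ x)
  refine hopfModel_of_family hord (fun σ => (H.ρ.ρ σ).toAddMonoidHom) _ F.length
    (fun i => (E i).M ⧸ ((maximalIdeal (F.get i).O ^ (n' + k i)) •
      (⊤ : Submodule (F.get i).O (E i).M)))
    (fun i σ x => modAct (E i).ρ (maximalIdeal (F.get i).O ^ (n' + k i)) σ x)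
    (fun i => hflat i _ (hJfin i))
    (fun i => (Submodule.mkQ _).toAddMonoidHom.comp (φ i)) ?_
    (Submodule.mkQ (I • (⊤ : Submodule T H.ρ.V))).toAddMonoidHom
    (Submodule.mkQ_surjective _) (fun _ _ => rfl) ?_
  · intro i σ v
    exact congrArg (Submodule.Quotient.mk (p := (maximalIdeal (F.get i).O ^ (n' + k i)) •
      (⊤ : Submodule (F.get i).O (E i).M))) (heq i σ v)
  · intro v hv
    refine (Submodule.Quotient.mk_eq_zero _).mpr ?_
    let b := Module.Free.chooseBasis T H.ρ.V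
    refine mem_smul_top_of_repr b I v fun c => hn (hn' _ fun P hP => ?_)
    obtain ⟨i, rfl⟩ := List.mem_iff_get.mp hP
    have h1 : φ i v ∈ (maximalIdeal (F.get i).O ^ (n' + k i)) •
        (⊤ : Submodule (F.get i).O (E i).M) :=
      (Submodule.Quotient.mk_eq_zero _).mp (hv i)
    exact repr_mem_of_mem_smul_top' b _ v (hstr i n' v h1) c

end Asm

end Fermat.Agent.S32

end
end
-- ===== PACK-END S32/Top.lean

-- ===== PACK-BEGIN S59/H59/TWGal1.lean
section





/-!
# Row S59, leaf TW-GAL1 (helper59): the local structure at a Taylor–Wiles prime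

`twGal1 : TWGal1Statement`.
-/

set_option autoImplicit false
set_option linter.unusedSectionVars false
set_option linter.style.haveILetI false
set_option linter.unusedSimpArgs false

open IsLocalRing Polynomial
open scoped Pointwise

namespace Fermat.Agent.S59.H59

open Fermat.Agent.S53 Fermat.Agent.S56.H794 Fermat.Agent.Lib.Cheb.H476

section conj

variable {A : Type} [CommRing A] [IsLocalRing A] [IsNoetherianRing A]
  [IsAdicComplete (maximalIdeal A) A]
  {p q : ℕ} {P : ValuationSubring (AlgebraicClosure ℚ)}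

/-- **TW-GAL1, matrix form.** -/
theorem twDiagMat_exists {r₀ : GQ →* M2 A} (hr₀ : MatCont r₀) (hp : p.Prime)
    (hpA : (p : A) ∈ maximalIdeal A) (hq : q.Prime) (hqp : p ∣ q - 1) (hP : P.LiesOverPrime q)
    (hres : ∀ τ ∈ P.inertiaSubgroupIn ℚ, EntIn (maximalIdeal A) (r₀ τ - 1))
    (hdet : ∀ τ ∈ P.inertiaSubgroupIn ℚ, (r₀ τ).det = 1)
    {φ : GQ} (hφ : P.IsFrobeniusAt φ q) {α β : ResidueField A} (hαβ : α ≠ β)
    (hchar : ((r₀ φ).map (residue A)).charpoly = (X - C α) * (X - C β)) :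
    ∃ Q : (M2 A)ˣ, TWDiagMat p q (conjRep Q r₀) P α β := by
  obtain ⟨a₀, a₁, ha₀, ha₁, htr, hdetF⟩ := exists_eigenvalues_h59 (r₀ φ) hαβ hchar
  have hu : IsUnit (a₀ - a₁) := by
    rw [← residue_ne_zero_iff_isUnit, map_sub, ha₀, ha₁]
    exact sub_ne_zero.mpr hαβ
  obtain ⟨Pm, hPm⟩ := exists_diagonalizer_h59 (r₀ φ) htr hdetF hu
  refine ⟨Pm⁻¹, ?_⟩
  have hrφ : conjRep Pm⁻¹ r₀ φ = !![a₀, 0; 0, a₁] := by
    rw [conjRep_apply, inv_inv, mul_assoc, hPm, ← mul_assoc, Units.inv_mul, one_mul]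
  have hres' : ∀ τ ∈ P.inertiaSubgroupIn ℚ,
      EntIn (maximalIdeal A) (conjRep Pm⁻¹ r₀ τ - 1) := by
    intro τ hτ
    have h1 : conjRep Pm⁻¹ r₀ τ - 1 =
        ((Pm⁻¹ : (M2 A)ˣ) : M2 A) * (r₀ τ - 1) * (((Pm⁻¹)⁻¹ : (M2 A)ˣ) : M2 A) := by
      simp [mul_sub, sub_mul]
    rw [h1]
    exact entry_mul_mul_mem _ _ _ _ (hres τ hτ)
  have hdet' : ∀ τ ∈ P.inertiaSubgroupIn ℚ, (conjRep Pm⁻¹ r₀ τ).det = 1 := by
    intro τ hτ
    rw [conjRep_apply, Matrix.det_units_conj]
    exact hdet τ hτ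
  have := twDiagMat_of_diag_frob (hr₀.conj Pm⁻¹) hp hpA hq hqp hP hres' hdet' hφ hrφ hu
  rwa [ha₀, ha₁] at this

end conj

section transport

variable {A : Type} [CommRing A] [IsLocalRing A]
  {p q : ℕ} {P : ValuationSubring (AlgebraicClosure ℚ)}

/-- From the matrix form to `TWDiag`. -/
theorem twDiag_of_mat {ρ : GaloisRepAdic A} {r : GQ →* M2 A} {hr : MatCont r}
    (e : GaloisRepAdic.Equiv ρ (toAdic r hr)) {α β : ResidueField A}
    (h : TWDiagMat p q r P α β) :
    ∃ (b : Module.Basis (Fin 2) A ρ.V) (ξ : Fin 2 → GQ → A), TWDiag p q ρ P α β b ξ := by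
  let e' : ρ.V ≃ₗ[A] (Fin 2 → A) := e.toLinearEquiv
  refine ⟨Module.Basis.ofEquivFun e', fun i σ => r σ i i, ?_, h.frob, h.inertia_res,
    h.inertia_mul, h.inertia_pow, h.inertia_cyclic⟩
  intro σ hσ i
  obtain ⟨h01, h10⟩ := h.diag σ hσ
  apply e'.injective
  have hb : e' (Module.Basis.ofEquivFun e' i) = Pi.single i 1 := by
    rw [Module.Basis.coe_ofEquivFun, LinearEquiv.apply_symm_apply]
  have h1 : e' (ρ.ρ σ (Module.Basis.ofEquivFun e' i)) =
      (r σ).mulVec (e' (Module.Basis.ofEquivFun e' i)) := e.map_apply σ _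
  rw [h1, map_smul, hb, Matrix.mulVec_single_one]
  ext j
  fin_cases i <;> fin_cases j <;> simp [h01, h10]

end transport

section final

variable {A : Type} [CommRing A] [IsLocalRing A]

/-- residual triviality in matrix terms -/
theorem entIn_of_residual_eq_one {ρ : GaloisRepAdic A} {r : GQ →* M2 A} {hr : MatCont r}
    (e : GaloisRepAdic.Equiv ρ (toAdic r hr)) {τ : GQ} (hτ : ρ.residual.ρ τ = 1) :
    EntIn (maximalIdeal A) (r τ - 1) := by
  obtain ⟨e1⟩ := residual_toAdic r hr
  let E := e.residual.trans e1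
  have h1 : ∀ y : Fin 2 → ResidueField A, ((r τ).map (residue A)).mulVec y = y := by
    intro y
    obtain ⟨x, rfl⟩ := E.toLinearEquiv.surjective y
    have := E.map_apply τ x
    rw [hτ, Module.End.one_apply] at this
    exact this.symm
  have h2 : (r τ).map (residue A) = 1 :=
    mulVec_injective_M2 fun v => by rw [h1 v, Matrix.one_mulVec]
  intro i j
  rw [← residue_eq_zero_iff, Matrix.sub_apply, map_sub]
  have h3 := congrFun (congrFun h2 i) j
  rw [Matrix.map_apply] at h3
  rw [h3]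
  by_cases hij : i = j
  · subst hij; simp
  · simp [hij]

/-- the residual characteristic polynomial in matrix terms -/
theorem charpoly_map_residue_eq {ρ : GaloisRepAdic A} {r : GQ →* M2 A} {hr : MatCont r}
    (e : GaloisRepAdic.Equiv ρ (toAdic r hr)) (σ : GQ) :
    ((r σ).map (residue A)).charpoly = LinearMap.charpoly (ρ.residual.ρ σ) := by
  obtain ⟨e1⟩ := residual_toAdic r hr
  let E := e.residual.trans e1
  have h1 : (toRes (mapRep (residue A) r) hr.factors_residue).ρ σ =
      E.toLinearEquiv.conj (ρ.residual.ρ σ) := by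
    refine LinearMap.ext fun y => ?_
    rw [LinearEquiv.conj_apply_apply, E.map_apply, LinearEquiv.apply_symm_apply]
  have h2 : LinearMap.charpoly ((toRes (mapRep (residue A) r) hr.factors_residue).ρ σ) =
      ((r σ).map (residue A)).charpoly :=
    Matrix.charpoly_toLin' ((r σ).map (residue A))
  rw [← h2, h1, LinearEquiv.charpoly_conj]

/-- the determinant on inertia at `q ≠ p` -/
theorem det_eq_one_of_detIsCyclotomic [IsNoetherianRing A] {ρ : GaloisRepAdic A}
    {r : GQ →* M2 A} {hr : MatCont r} (e : GaloisRepAdic.Equiv ρ (toAdic r hr)) {p q : ℕ}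
    [Fact p.Prime] (hq : q.Prime) (hqp : q ≠ p) (hdet : ρ.DetIsCyclotomic p)
    {P : ValuationSubring (AlgebraicClosure ℚ)} (hP : P.LiesOverPrime q) {τ : GQ}
    (hτ : τ ∈ P.inertiaSubgroupIn ℚ) : (r τ).det = 1 := by
  have hd := Fermat.Agent.S56.H966.detIsCyclotomic_of_isEquiv ⟨e⟩ hdet
  have h1 : ∀ n : ℕ, (r τ).det - 1 ∈ maximalIdeal A ^ n := by
    intro n
    have h2 := hd.2 n τ 1 (fun μ hμ => by
      rw [pow_one]
      exact Fermat.Agent.S30.H870.inertia_root_eq p hq hqp P hP τ hτ hμ)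
    have h3 : LinearMap.det ((toAdic r hr).ρ τ) = (r τ).det := LinearMap.det_toLin' (r τ)
    rw [h3, Nat.cast_one] at h2
    have h4 : Ideal.span {((p ^ n : ℕ) : A)} ≤ maximalIdeal A ^ n := by
      rw [Ideal.span_le, Set.singleton_subset_iff, Nat.cast_pow]
      exact Ideal.pow_mem_pow hd.1 n
    exact h4 h2
  exact sub_eq_zero.mp (eq_zero_of_forall_mem_pow_h59 h1)

/-- **TW-GAL1.** -/
theorem twGal1 : TWGal1Statement := by
  intro p q _ hq hqp A _ _ _ _ hpA ρ hdet hunr P hP φ hφ α β hαβ hchar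
  have hp : p.Prime := Fact.out
  have hqne : q ≠ p := by
    rintro rfl
    have := Nat.le_of_dvd (by have := hq.two_le; omega) hqp
    have := hq.two_le
    omega
  obtain ⟨r₀, hr₀, ⟨e₀⟩⟩ := exists_toAdic ρ
  have hres : ∀ τ ∈ P.inertiaSubgroupIn ℚ, EntIn (maximalIdeal A) (r₀ τ - 1) :=
    fun τ hτ => entIn_of_residual_eq_one e₀ (hunr P hP τ hτ)
  have hdet' : ∀ τ ∈ P.inertiaSubgroupIn ℚ, (r₀ τ).det = 1 :=
    fun τ hτ => det_eq_one_of_detIsCyclotomic e₀ hq hqne hdet hP hτ
  have hchar' : ((r₀ φ).map (residue A)).charpoly = (X - C α) * (X - C β) := by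
    rw [charpoly_map_residue_eq e₀ φ, hchar]
  obtain ⟨Q, hQ⟩ := twDiagMat_exists hr₀ hp hpA hq hqp hP hres hdet' hφ hαβ hchar'
  obtain ⟨e1⟩ := toAdic_conjRep_isEquiv r₀ hr₀ Q
  exact twDiag_of_mat (e₀.trans e1) hQ

end final

end Fermat.Agent.S59.H59

end
-- ===== PACK-END S59/H59/TWGal1.lean

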