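import Mathlib
import Fermat.Agent.Pack.S44C.G0E21L1
import Fermat.Agent.Pack.S43MC.G0E4L0
import Fermat.Agent.Pack.S43MC.G0E10L0
import Fermat.Agent.Pack.S43MC.G0E15L2
import Fermat.Agent.Pack.S43MC.G0E18L3
import Fermat.Agent.Pack.S43MC.G0E18L1
import Fermat.Agent.Pack.S43MC.G0E13L2
import Fermat.Agent.Pack.S43MC.G0E17L3
import Fermat.Agent.Pack.S43MC.G0E6L1
import Fermat.Agent.Pack.S43MC.G0E15L1
import Fermat.Agent.Pack.S43MC.G0E18L2
import Fermat.Agent.Pack.S43MC.G0E9L1
import Fermat.Agent.Pack.S43MC.G0E13L0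
import Fermat.Agent.Pack.S43MC.G0E15L0
import Fermat.Agent.Pack.S43MC.G0E13L1
import Fermat.Agent.Pack.S44C.G0E0L1
import Fermat.Agent.Pack.S44C.G0E10L2
import Fermat.Agent.Pack.S43MC.G0E18L0
import Fermat.Agent.Pack.S43MC.G0E2L2
import Fermat.Agent.Pack.S44C.G0E18L1
import Fermat.Agent.Pack.S43MC.G0E12L1
import Fermat.Agent.Pack.S43MC.G0E14L2
import Fermat.Agent.Pack.S43MC.G0E17L0
import Fermat.Agent.Pack.S43GC.G0E4L1
import Fermat.Agent.Pack.S43MC.G0E14L1
import Fermat.Agent.Pack.S43MC.G0E4L3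
import Fermat.Agent.Pack.S43MC.G0E7L2
import Fermat.Agent.Pack.S44C.G0E18L0
import Fermat.Agent.Pack.S43MC.G0E17L1
import Fermat.Agent.Pack.S43MC.G0E4L2
import Fermat.Agent.Pack.S44C.G0E3L1
import Fermat.Agent.Pack.Fast891

-- ===== PACK-BEGIN A2/Alg/H348/HConst.lean
section




/-!
# A2 / ALG / GLUE, the `hconst` part

`hconst_of_locallyFactored`: in the setting of the leaf `glue` of `Alg/Skel.lean` (only ONE chart
`B` with its `SSChart` and its local factorisations is used), constants do not grow in the residue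
fields of the Kummer algebra `F[X]/(X ^ m - u)`:  this is EXACTLY the hypothesis `hconst` of
`Fermat.Agent.A2.H348.exists_pow_eq_of_local_factorisation`.

Proof: `V₁ = B_{p₁}` is a discrete valuation ring with uniformiser `w` (`ChartComp.lean`),
`u ∈ 1 + w V₁` (local factorisation at a closed point of the component `p₁`), so `V₁` is unramified
in every residue field `L` of the Kummer algebra and `E` is algebraically closed in `L`
(`ConstDvr.lean`: Chevalley + `H93.CoverSplit` + `H313.hens_integral`).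
-/

set_option autoImplicit false
set_option linter.unusedSectionVars false
set_option linter.style.haveILetI false

open Polynomial

namespace Fermat.Agent.A2.Alg.H348

open Fermat.Agent.A2 Fermat.Agent.A2.Alg Fermat.Agent.A2.H348

section One

variable {R F : Type*} [CommRing R] [Field F] [Algebra R F]
  {A B : Subalgebra R F} {p p' : Ideal B} [hp : p.IsPrime] {w : R}

/-- `p B_p = w B_p`. -/
theorem CompData.mul_inv_mem_of_mem (D : CompData A B p p' w) {d : B} (hd : d ∈ p) :
    (d : F) * (algebraMap R F w)⁻¹ ∈ locAt B p := by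
  obtain ⟨t, ht', ht⟩ := D.exists_notMem
  have hdt : d * t ∈ p ⊓ p' := ⟨p.mul_mem_right _ hd, p'.mul_mem_left _ ht'⟩
  rw [D.inf_eq, Ideal.mem_span_singleton'] at hdt
  obtain ⟨c, hc⟩ := hdt
  refine ⟨t, ht, ?_⟩
  have hc' : (c : F) * algebraMap R F w = (d : F) * (t : F) := congrArg Subtype.val hc
  have : (t : F) * ((d : F) * (algebraMap R F w)⁻¹) = c := by
    rw [← mul_assoc, mul_comm (t : F) d, ← hc', mul_assoc, mul_inv_cancel₀ D.w_ne, mul_one]
  rw [this]
  exact c.2

/-- `LocOne B n I v` with `I ⊆ p ⊆ n` gives `v ∈ 1 + w B_p`. -/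
theorem CompData.one_of_locOne (D : CompData A B p p' w) {n I : Ideal B} (hpn : p ≤ n)
    (hI : I ≤ p) {v : F} (h : LocOne B n I v) :
    ∃ t ∈ locAt B p, v = 1 + algebraMap R F w * t := by
  obtain ⟨a, b, hb, hab, hv⟩ := h
  have hbp : b ∉ p := fun h => hb (hpn h)
  have hb0 : (b : F) ≠ 0 := coe_ne_zero_of_notMem p hbp
  have h1 := D.mul_inv_mem_of_mem (hI hab)
  refine ⟨((a - b : B) : F) * (algebraMap R F w)⁻¹ * (b : F)⁻¹,
    (locAt B p).mul_mem h1 (inv_mem_locAt p hbp), ?_⟩
  have hw := D.w_ne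
  have hv' : v = (a : F) * (b : F)⁻¹ := by
    rw [← hv]; field_simp
  rw [hv']
  push_cast
  field_simp
  ring

theorem CompData.one_mul (D : CompData A B p p' w) {v v' : F}
    (h : ∃ t ∈ locAt B p, v = 1 + algebraMap R F w * t)
    (h' : ∃ t ∈ locAt B p, v' = 1 + algebraMap R F w * t) :
    ∃ t ∈ locAt B p, v * v' = 1 + algebraMap R F w * t := by
  obtain ⟨t, ht, rfl⟩ := h
  obtain ⟨t', ht', rfl⟩ := h'
  refine ⟨t + t' + algebraMap R F w * t * t', ?_, by ring⟩
  exact (locAt B p).add_mem ((locAt B p).add_mem ht ht')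
    ((locAt B p).mul_mem ((locAt B p).mul_mem ((locAt B p).algebraMap_mem w) ht) ht')

theorem CompData.one_pow (D : CompData A B p p' w) {v : F}
    (h : ∃ t ∈ locAt B p, v = 1 + algebraMap R F w * t) (k : ℕ) :
    ∃ t ∈ locAt B p, v ^ k = 1 + algebraMap R F w * t := by
  induction k with
  | zero => exact ⟨0, (locAt B p).zero_mem, by simp⟩
  | succ k ih =>
    rw [pow_succ]
    exact D.one_mul ih h

theorem CompData.one_inv (D : CompData A B p p' w) {v : F}
    (h : ∃ t ∈ locAt B p, v = 1 + algebraMap R F w * t) :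
    v⁻¹ ∈ locAt B p ∧ ∃ t ∈ locAt B p, v⁻¹ = 1 + algebraMap R F w * t := by
  obtain ⟨t, ht, rfl⟩ := h
  have h1 : (1 + algebraMap R F w * t)⁻¹ ∈ locAt B p :=
    one_add_mul_inv_mem_locAt p D.w_mem ht
  have hne : (1 + algebraMap R F w * t) ≠ 0 := by
    intro h0
    apply D.w_inv_notMem
    have h2 : algebraMap R F w * (-t) = 1 := by linear_combination -h0
    rw [inv_eq_of_mul_eq_one_right h2]
    exact (locAt B p).neg_mem ht
  refine ⟨h1, -(t * (1 + algebraMap R F w * t)⁻¹),
    (locAt B p).neg_mem ((locAt B p).mul_mem ht h1), ?_⟩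
  field_simp
  ring

end One

section Main

variable {R E F : Type*} [CommRing R] [IsDomain R] [IsDiscreteValuationRing R]
  [HenselianLocalRing R] [IsAlgClosed (IsLocalRing.ResidueField R)]
  [Field E] [CharZero E] [Algebra R E] [IsFractionRing R E]
  [Field F] [Algebra E F] [Algebra R F] [IsScalarTower R E F]

/-- `u ∈ 1 + w B_{p₁}` for a locally factored `u`. -/
theorem one_of_locallyFactored {w : R} {x : F} {B : Subalgebra R F} (hB : ChartCtx E w x B)
    (c : SSChart w B) {m : ℕ} {u : F} (hf : LocallyFactored B c m u) :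
    haveI := c.prime₁
    ∃ t ∈ locAt B c.p₁, u = 1 + algebraMap R F w * t := by
  haveI := c.prime₁
  have D := compData₁ hB c
  obtain ⟨n, hn, hpn⟩ := Ideal.exists_le_maximal c.p₁ c.prime₁.ne_top
  obtain ⟨h, hh0, hLO, hO1, -⟩ := hf n hn (hpn D.w_mem)
  have hspan : Ideal.span {algebraMap R B w} ≤ c.p₁ := by
    rw [Ideal.span_le, Set.singleton_subset_iff]
    exact D.w_mem
  have h1 := D.one_of_locOne hpn hspan hLO
  have h2 := D.one_of_locOne le_rfl le_rfl hO1
  have h3 := (D.one_inv (D.one_pow h2 m)).2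
  have h4 := D.one_mul h1 h3
  have : u * h ^ m * (h ^ m)⁻¹ = u := by
    rw [mul_assoc, mul_inv_cancel₀ (pow_ne_zero _ hh0), mul_one]
  rwa [this] at h4

/-- **The `hconst` part of GLUE.** -/
theorem hconst_of_locallyFactored (q m : ℕ) (hq : q.Prime)
    (hqR : (q : R) ∈ IsLocalRing.maximalIdeal R) (hm : 0 < m) (hqm : ¬ q ∣ m)
    (w : R) (x : F) (B : Subalgebra R F) (hB : ChartCtx E w x B) (c : SSChart w B)
    (u : F) (hf : LocallyFactored B c m u) :
    ∀ 𝔫 : Ideal (AdjoinRoot (X ^ m - C u : F[X])), 𝔫.IsMaximal →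
      ∀ y : AdjoinRoot (X ^ m - C u : F[X]) ⧸ 𝔫, IsIntegral R y →
        y ∈ Set.range (algebraMap R (AdjoinRoot (X ^ m - C u : F[X]) ⧸ 𝔫)) := by
  intro 𝔫 h𝔫 y hy
  haveI := c.prime₁
  have D := compData₁ hB c
  have hAB := adjoin_le_of_ctx hB
  letI : Field (AdjoinRoot (X ^ m - C u : F[X]) ⧸ 𝔫) := Ideal.Quotient.field 𝔫
  obtain ⟨ζ, hζ⟩ := exists_primitiveRoot (R := R) q m hq hqR hm hqm
  have hmu := isUnit_natCast (R := R) q m hq hqR hqm
  obtain ⟨t, ht, hut⟩ := one_of_locallyFactored hB c hf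
  have hw0 := D.w_ne
  have huV : u ∈ locAt B c.p₁ := by
    rw [hut]
    exact (locAt B c.p₁).add_mem (locAt B c.p₁).one_mem
      ((locAt B c.p₁).mul_mem ((locAt B c.p₁).algebraMap_mem w) ht)
  have hu' : u⁻¹ ∈ locAt B c.p₁ := (D.one_inv ⟨t, ht, hut⟩).1
  have hu1 : (u - 1) * (algebraMap R F w)⁻¹ ∈ locAt B c.p₁ := by
    have : (u - 1) * (algebraMap R F w)⁻¹ = t := by
      rw [hut]; field_simp; ring
    rw [this]; exact ht
  have hz : (Ideal.Quotient.mk 𝔫 (AdjoinRoot.root (X ^ m - C u : F[X]))) ^ m =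
      algebraMap F (AdjoinRoot (X ^ m - C u : F[X]) ⧸ 𝔫) u := by
    have h := AdjoinRoot.eval₂_root (X ^ m - C u : F[X])
    rw [eval₂_sub, eval₂_pow, eval₂_X, eval₂_C, sub_eq_zero] at h
    rw [← map_pow, h]
    rfl
  have hgen : Algebra.adjoin F
      ({Ideal.Quotient.mk 𝔫 (AdjoinRoot.root (X ^ m - C u : F[X]))} :
        Set (AdjoinRoot (X ^ m - C u : F[X]) ⧸ 𝔫)) = ⊤ := by
    have h1 : (Ideal.Quotient.mkₐ F 𝔫) '' {AdjoinRoot.root (X ^ m - C u : F[X])} =
        {Ideal.Quotient.mk 𝔫 (AdjoinRoot.root (X ^ m - C u : F[X]))} := by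
      rw [Set.image_singleton]; rfl
    rw [← h1, ← AlgHom.map_adjoin, AdjoinRoot.adjoinRoot_eq_top, Algebra.map_top,
      AlgHom.range_eq_top]
    exact Ideal.Quotient.mkₐ_surjective F 𝔫
  exact const_of_dvr E w hB.hw (D.valuationSubring hAB)
    (fun r => (locAt B c.p₁).algebraMap_mem r) D.w_inv_notMem
    (fun f hf hf' => D.mul_inv_mem hf hf') (D.exists_mul_pow_mem hAB) m hm ζ hζ hmu u huV hu' hu1
    (Ideal.Quotient.mk 𝔫 (AdjoinRoot.root (X ^ m - C u : F[X]))) hz hgen y hy

end Main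

end Fermat.Agent.A2.Alg.H348

end
-- ===== PACK-END A2/Alg/H348/HConst.lean

-- ===== PACK-BEGIN S35/H433/Ident.lean
section




/-!
# S35 / (G) — identification of the components of a chart with valuation subrings (helper433)

`B` a chart (`ChartCtx`), `c : SSChart w B`.  Every valuation subring `V ⊇ B` of `F` with
`w⁻¹ ∉ V` on which the coordinate `x` is non-constant (`x - r` is a unit of `V` for every constant
`r`) is the local ring of one of the two components:

* `eq_locAt_or` : `V = B_{p₁}` or `V = B_{p₂}` (as sets: `z ∈ V ↔ InLoc B pᵢ ⊤ z`);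
* `mem_nonunits_iff_inLoc` : then `𝔪_V = pᵢ B_{pᵢ}`.

Used to translate statements on the Gauss valuations `V∞`, `V₀` (A2/MOD language) into the chart
language of `A2/Alg/Spec.lean` (`LocUnit`, `OneAt`, `ConstAt`, `IsSplit`), for an ARBITRARY
`SSChart` (e.g. one obtained from `Nonempty (SSChart w B)`).
-/

set_option autoImplicit false
set_option linter.unusedSectionVars false

namespace Fermat.Agent.S35.H433

open Fermat.Agent.A2 Fermat.Agent.A2.Alg Fermat.Agent.A2.H348 Fermat.Agent.A2.Alg.H348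

section Core

variable {R F : Type*} [CommRing R] [Field F] [Algebra R F] {B : Subalgebra R F}

theorem inLoc_top_iff_mem_locAt {p : Ideal B} [p.IsPrime] {z : F} :
    InLoc B p ⊤ z ↔ z ∈ locAt B p := by
  constructor
  · rintro ⟨a, b, -, hb, hab⟩
    exact ⟨b, hb, by rw [mul_comm, hab]; exact a.2⟩
  · rintro ⟨s, hs, hsz⟩
    exact ⟨⟨_, hsz⟩, s, trivial, hs, by rw [mul_comm]⟩

/-- The contraction of the maximal ideal of `V ⊇ B` to `B`. -/
def cutIdeal (V : ValuationSubring F) (hBV : ∀ b : B, (b : F) ∈ V) : Ideal B :=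
  Ideal.comap ((B.val : B →+* F).codRestrict V.toSubring hBV) (IsLocalRing.maximalIdeal V)

theorem mem_cutIdeal {V : ValuationSubring F} {hBV : ∀ b : B, (b : F) ∈ V} {b : B} :
    b ∈ cutIdeal V hBV ↔ (b : F) ∈ V.nonunits := by
  rw [cutIdeal, Ideal.mem_comap, ← ValuationSubring.coe_mem_nonunits_iff]
  rfl

instance cutIdeal_isPrime (V : ValuationSubring F) (hBV : ∀ b : B, (b : F) ∈ V) :
    (cutIdeal V hBV).IsPrime :=
  Ideal.comap_isPrime _ _

/-- A non-unit of `B` in `V` which is not in the cut ideal is a unit of `V`. -/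
theorem inv_mem_of_not_mem_cutIdeal {V : ValuationSubring F} {hBV : ∀ b : B, (b : F) ∈ V}
    {b : B} (hb : b ∉ cutIdeal V hBV) : (b : F)⁻¹ ∈ V := by
  rw [mem_cutIdeal, ValuationSubring.mem_nonunits_iff_or, not_or, not_not] at hb
  exact hb.2

/-- **Core.**  If the cut ideal of `V` equals the component `p`, then `V = B_p`. -/
theorem mem_iff_mem_locAt {A : Subalgebra R F} {p p' : Ideal B} [hp : p.IsPrime] {w : R}
    (D : CompData A B p p' w) (hAB : A ≤ B) (V : ValuationSubring F)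
    (hBV : ∀ b : B, (b : F) ∈ V) (hwV : (algebraMap R F w)⁻¹ ∉ V)
    (hcut : cutIdeal V hBV = p) (z : F) : z ∈ V ↔ z ∈ locAt B p := by
  constructor
  · intro hz
    rcases D.mem_or_inv_mem hAB z with h | h
    · exact h
    · by_contra hz'
      have h1 := D.mul_inv_mem h (by rwa [inv_inv])
      obtain ⟨s, hs, hsz⟩ := h1
      -- `z⁻¹ w⁻¹ ∈ B_p ⊆ V`
      have hsV : (s : F)⁻¹ ∈ V := inv_mem_of_not_mem_cutIdeal (hBV := hBV) (by rw [hcut]; exact hs)
      have h2 : z⁻¹ * (algebraMap R F w)⁻¹ ∈ V := by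
        have hs0 : (s : F) ≠ 0 := coe_ne_zero_of_not_mem hs
        have e : z⁻¹ * (algebraMap R F w)⁻¹
            = (s : F)⁻¹ * ((s : F) * (z⁻¹ * (algebraMap R F w)⁻¹)) := by
          rw [← mul_assoc, inv_mul_cancel₀ hs0, one_mul]
        rw [e]
        exact V.mul_mem _ _ hsV (hBV ⟨_, hsz⟩)
      apply hwV
      have hz0 : z ≠ 0 := by
        rintro rfl
        exact hz' (locAt B p).zero_mem
      have e : (algebraMap R F w)⁻¹ = z * (z⁻¹ * (algebraMap R F w)⁻¹) := by
        rw [← mul_assoc, mul_inv_cancel₀ hz0, one_mul]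
      rw [e]
      exact V.mul_mem _ _ hz h2
  · rintro ⟨s, hs, hsz⟩
    have hsV : (s : F)⁻¹ ∈ V := inv_mem_of_not_mem_cutIdeal (hBV := hBV) (by rw [hcut]; exact hs)
    have hs0 : (s : F) ≠ 0 := coe_ne_zero_of_not_mem hs
    have e : z = (s : F)⁻¹ * ((s : F) * z) := by
      rw [← mul_assoc, inv_mul_cancel₀ hs0, one_mul]
    rw [e]
    exact V.mul_mem _ _ hsV (hBV ⟨_, hsz⟩)

/-- If `V = B_p` then `𝔪_V = p B_p`. -/
theorem mem_nonunits_iff_inLoc {p : Ideal B} [hp : p.IsPrime] (V : ValuationSubring F)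
    (hV : ∀ z : F, z ∈ V ↔ InLoc B p ⊤ z) (z : F) : z ∈ V.nonunits ↔ InLoc B p p z := by
  rw [ValuationSubring.mem_nonunits_iff_or]
  constructor
  · rintro (rfl | hz)
    · exact inLoc_zero p p
    · by_contra h
      by_cases hzV : InLoc B p ⊤ z
      · exact hz ((hV _).2 (inLoc_inv_of_not hzV h))
      · -- `z ∉ V`, so `z⁻¹ ∈ V`
        have : z⁻¹ ∈ V := (V.mem_or_inv_mem z).resolve_left (fun h' => hzV ((hV _).1 h'))
        exact hz this
  · intro h
    by_cases hz0 : z = 0
    · exact Or.inl hz0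
    · right
      intro hz
      have h1 : InLoc B p ⊤ z⁻¹ := (hV _).1 hz
      have := h.mul' h1
      rw [mul_inv_cancel₀ hz0] at this
      exact not_inLoc_one this

end Core

section Chart

variable {R E F : Type*} [CommRing R] [IsDomain R] [IsDiscreteValuationRing R]
  [IsAlgClosed (IsLocalRing.ResidueField R)]
  [Field E] [CharZero E] [Algebra R E] [IsFractionRing R E]
  [Field F] [Algebra E F] [Algebra R F] [IsScalarTower R E F]

/-- The cut ideal of `V` is one of the two components. -/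
theorem cutIdeal_eq_or (w : R) (x : F) (B : Subalgebra R F) (hB : ChartCtx E w x B)
    (c : SSChart w B) (V : ValuationSubring F) (hBV : ∀ b : B, (b : F) ∈ V)
    (hwV : (algebraMap R F w)⁻¹ ∉ V) (hxV : ∀ r : R, (x - algebraMap R F r)⁻¹ ∈ V) :
    cutIdeal V hBV = c.p₁ ∨ cutIdeal V hBV = c.p₂ := by
  have hp₁ := c.prime₁
  have hp₂ := c.prime₂
  have hn₁ := c.normal₁
  have hn₂ := c.normal₂
  obtain ⟨hnoeth, -, -⟩ := H34.chart_instances' w x B hB
  have hD₁ : IsDedekindDomain (B ⧸ c.p₁) :=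
    H609.isDedekindDomain_quotient_chart w x B hB c.p₁ (mem_w_left c)
  have hD₂ : IsDedekindDomain (B ⧸ c.p₂) :=
    H609.isDedekindDomain_quotient_chart w x B hB c.p₂ (mem_w_right c)
  set P := cutIdeal V hBV with hP
  have hw0 : algebraMap R F w ≠ 0 := by
    intro h
    apply hwV
    rw [h, inv_zero]
    exact V.zero_mem
  have hwP : algebraMap R B w ∈ P := by
    rw [hP, mem_cutIdeal, ValuationSubring.mem_nonunits_iff_or]
    exact Or.inr hwV
  -- `P` is not maximal
  have hnm : ¬ P.IsMaximal := by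
    intro hmax
    obtain ⟨r, hr⟩ := exists_const_sub_mem w x B hB P hmax hwP
      ⟨x, H609.self_mem_chart x B hB.hB⟩
    rw [hP, mem_cutIdeal, ValuationSubring.mem_nonunits_iff_or] at hr
    rcases hr with hr | hr
    · have h1 := hxV r
      have h2 : x - algebraMap R F r = 0 := hr
      rw [h2, inv_zero] at h1
      -- no contradiction from `0 ∈ V`; use that `x - r ≠ 0` since `x` is transcendental
      have hx : Transcendental R x := H34.transcendental_of_field hB.hx
      apply hx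
      refine ⟨Polynomial.X - Polynomial.C r, Polynomial.X_sub_C_ne_zero r, ?_⟩
      simpa using h2
    · exact hr (hxV r)
  have key : ∀ (p : Ideal B) [p.IsPrime] [IsDedekindDomain (B ⧸ p)], p ≤ P → P = p := by
    intro p _ _ hpP
    refine le_antisymm ?_ hpP
    by_contra hle
    apply hnm
    -- the image of `P` in `B ⧸ p` is a nonzero prime, hence maximal
    have hPb : (P.map (Ideal.Quotient.mk p)).IsPrime :=
      Ideal.map_isPrime_of_surjective Ideal.Quotient.mk_surjective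
        (by rw [Ideal.mk_ker]; exact hpP)
    have hne : P.map (Ideal.Quotient.mk p) ≠ ⊥ := by
      intro h
      apply hle
      intro b hb
      have : Ideal.Quotient.mk p b ∈ P.map (Ideal.Quotient.mk p) := Ideal.mem_map_of_mem _ hb
      rw [h, Ideal.mem_bot, Ideal.Quotient.eq_zero_iff_mem] at this
      exact this
    have hmax : (P.map (Ideal.Quotient.mk p)).IsMaximal := hPb.isMaximal hne
    have hcomap : (P.map (Ideal.Quotient.mk p)).comap (Ideal.Quotient.mk p) = P := by
      rw [Ideal.comap_map_of_surjective _ Ideal.Quotient.mk_surjective, ← RingHom.ker_eq_comap_bot,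
        Ideal.mk_ker, sup_eq_left]
      exact hpP
    rw [← hcomap]
    exact Ideal.comap_isMaximal_of_surjective _ Ideal.Quotient.mk_surjective
  have hle : c.p₁ ⊓ c.p₂ ≤ P := by
    rw [c.inf_eq, Ideal.span_singleton_le_iff_mem]
    exact hwP
  rcases (Ideal.IsPrime.inf_le (cutIdeal_isPrime V hBV)).1 hle with h | h
  · exact Or.inl (key c.p₁ h)
  · exact Or.inr (key c.p₂ h)

/-- **Identification.**  `V = B_{p₁}` or `V = B_{p₂}`. -/
theorem eq_locAt_or (w : R) (x : F) (B : Subalgebra R F) (hB : ChartCtx E w x B)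
    (c : SSChart w B) (V : ValuationSubring F) (hBV : ∀ b : B, (b : F) ∈ V)
    (hwV : (algebraMap R F w)⁻¹ ∉ V) (hxV : ∀ r : R, (x - algebraMap R F r)⁻¹ ∈ V) :
    (∀ z : F, z ∈ V ↔ InLoc B c.p₁ ⊤ z) ∨ (∀ z : F, z ∈ V ↔ InLoc B c.p₂ ⊤ z) := by
  have hp₁ := c.prime₁
  have hp₂ := c.prime₂
  have hAB := adjoin_le_of_ctx hB
  rcases cutIdeal_eq_or w x B hB c V hBV hwV hxV with h | h
  · left
    intro z
    rw [inLoc_top_iff_mem_locAt]
    exact mem_iff_mem_locAt (compData₁ hB c) hAB V hBV hwV h z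
  · right
    intro z
    rw [inLoc_top_iff_mem_locAt]
    exact mem_iff_mem_locAt (compData₂ hB c) hAB V hBV hwV h z

end Chart

end Fermat.Agent.S35.H433

end
-- ===== PACK-END S35/H433/Ident.lean

-- ===== PACK-BEGIN S25/H611/ACStage3.lean
section



/-!
# S25 / ALGCHARTS, leaf ST3 (helper611 + helper671): `Leaf.Stage3` from `Leaf.Stage2`

helper671's assembly `H671.stage3_of_stage2_of_core` with the inputs SH2
(`H446.ptIdeal_invertible`) and CORE (`H611.stage3_core`).
-/

set_option autoImplicit false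

universe u

open scoped TensorProduct

namespace Fermat.Agent.S25.H611

open Fermat.Agent.S25 Fermat.Agent.S25.H11

variable {k : Type u} [Field k] [IsAlgClosed k]
  {B₀ B₁ B₀₁ : Type u} [CommRing B₀] [CommRing B₁] [CommRing B₀₁]
  [Algebra k B₀] [Algebra k B₁] [Algebra k B₀₁] [Algebra B₀ B₀₁] [Algebra B₁ B₀₁]
  [IsScalarTower k B₀ B₀₁] [IsScalarTower k B₁ B₀₁]

/-- **ST3**: the leaf `Stage3` follows from the leaf `Stage2`. -/
theorem stage3_of_stage2 (hst2 : H11.Leaf.Stage2 k B₀ B₁ B₀₁) :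
    H11.Leaf.Stage3 k B₀ B₁ B₀₁ :=
  H671.stage3_of_stage2_of_core hst2
    (fun _ _ _ hC _ q A' _ _ => H446.ptIdeal_invertible A' hC q)
    (fun _ _ _ hC i hnum _ _ _ G _ _ h2 => stage3_core hC i hnum G h2)

end Fermat.Agent.S25.H611

end
-- ===== PACK-END S25/H611/ACStage3.lean

-- ===== PACK-BEGIN S26/H70/CubeCover.lean
section


/-!
# Row S26, block CUBE, leaf C5 (`cube_of`), part (c'): translates of a nonempty open set cover
an abelian variety (helper70)
-/

set_option autoImplicit false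
universe u

open CategoryTheory CategoryTheory.Limits AlgebraicGeometry NeronModelInfra GoodReductionJacobian

namespace Fermat.Agent.S26.H70

noncomputable section

variable {K : Type u} [Field K] [IsAlgClosed K] (X : AbVar K)

/-- The `K`-point of a closed point. -/
def ptOfClosed [LocallyOfFiniteType X.str] (p : X.A) (hp : IsClosed {p}) : X.Pt :=
  ⟨pointOfClosedPoint X.str p hp, pointOfClosedPoint_comp X.str p hp⟩

theorem ptOfClosed_apply [LocallyOfFiniteType X.str] (p : X.A) (hp : IsClosed {p})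
    (a : Spec (CommRingCat.of K)) : (ptOfClosed X p hp).1 a = p :=
  pointOfClosedPoint_apply X.str p hp a

omit [IsAlgClosed K] in
theorem const_id (t : X.Pt) : X.const (𝟙 _) t = t :=
  Subtype.ext (Category.id_comp _)

/-- Translation by `y⁻¹ u` maps `y` to `u`. -/
theorem comp_transl_inv_mul (y u : X.Pt) :
    y.1 ≫ X.transl (X.law.mul (𝟙 _) (X.law.inv (𝟙 _) y) u) = u.1 := by
  rw [AbVar.comp_transl (𝟙 _) y, const_id, ← X.law.mul_assoc, X.law.mul_inv_cancel,
    X.law.one_mul]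

/-- A nonempty open subset of a Jacobson space contains a closed point; more generally every
nonempty locally closed subset does. -/
theorem exists_closedPoint_mem {Y : Type*} [TopologicalSpace Y] [JacobsonSpace Y] {S : Set Y}
    (hS : IsLocallyClosed S) (hne : S.Nonempty) : ∃ p ∈ S, IsClosed {p} := by
  have h := JacobsonSpace.closure_inter_closedPoints_eq_closure hS
  have hne' : (S ∩ closedPoints Y).Nonempty := by
    rw [← closure_nonempty_iff, h, closure_nonempty_iff]
    exact hne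
  obtain ⟨p, hpS, hp⟩ := hne'
  exact ⟨p, hpS, hp⟩

/-- The translates of a nonempty open subset cover an abelian variety. -/
theorem exists_transl_mem (U₀ : X.A.Opens) (hU : (U₀ : Set X.A).Nonempty) (p : X.A) :
    ∃ t : X.Pt, p ∈ (X.transl t) ⁻¹ᵁ U₀ := by
  have : Smooth X.str := X.bundle.smooth
  have : JacobsonSpace X.A := LocallyOfFiniteType.jacobsonSpace X.str
  obtain ⟨u, huU, hu⟩ := exists_closedPoint_mem U₀.2.isLocallyClosed hU
  -- the closed set of points none of whose translates lies in `U₀`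
  by_contra hcon
  push Not at hcon
  let C : Set X.A := ⋂ t : X.Pt, ((X.transl t) ⁻¹ᵁ U₀ : Set X.A)ᶜ
  have hC : IsClosed C := isClosed_iInter fun t => ((X.transl t) ⁻¹ᵁ U₀).2.isClosed_compl
  have hpC : p ∈ C := Set.mem_iInter.2 fun t => hcon t
  obtain ⟨p', hp'C, hp'⟩ := exists_closedPoint_mem hC.isLocallyClosed ⟨p, hpC⟩
  set y := ptOfClosed X p' hp' with hy
  set yu := ptOfClosed X u hu with hyu
  have ht := Set.mem_iInter.1 hp'C (X.law.mul (𝟙 _) (X.law.inv (𝟙 _) y) yu)
  apply ht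
  show (X.transl _) p' ∈ U₀
  have e1 : p' = y.1 (IsLocalRing.closedPoint K) := (ptOfClosed_apply X p' hp' _).symm
  rw [e1, ← Scheme.Hom.comp_apply, comp_transl_inv_mul, ptOfClosed_apply]
  exact huU

end

end Fermat.Agent.S26.H70

end
-- ===== PACK-END S26/H70/CubeCover.lean

-- ===== PACK-BEGIN S27/H386/AffLaw.lean
section
/-
Row S27, block GRP (helper386): the group law on the affine points of the Jacobian.

From the S25 dictionary (`Dict Ch`) and the algebra of gluing data (tensor product, dual, unit):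
for every `k`-algebra `A` the set of `A`-points of the Jacobian is an abelian group, the product
of two points being the point of the tensor product of their gluing data, naturally in `A`.
`affLaw d hrep : H687.AffineLaw k D.toBase`, and `grp_of_dict` : the clause of `Stmt.Grp`.
-/





set_option autoImplicit false

open CategoryTheory CategoryTheory.Limits AlgebraicGeometry AlgebraicGeometry.RelPicard
  NeronModelInfra GoodReductionJacobian
open scoped TensorProduct

universe u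

namespace Fermat.Agent.S27.H386

open Fermat.Agent.S25

variable {k : Type u} [Field k] [IsAlgClosed k] {C : Scheme.{u}}
  {c : C ⟶ Spec (CommRingCat.of k)}
  {ε : SchemeHomOver (𝟙 (Spec (CommRingCat.of k))) c} {Ch : ChartOf c ε}
  {D : RelativePic0Designation k c}
  {hrep : RepresentsRelSubPic c ε (algEquivZeroCut c ε) D}
  {A : Type u} [CommRing A] [Algebra k A]

/-- Two data of the same point are isomorphic. -/
theorem rel_isIso (d : Dict Ch) {g : SchemeHomOver (specStr k A) D.toBase}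
    {G G' : CurveGD k Ch.B₀ Ch.B₁ Ch.B₀₁ A} (h : Rel Ch hrep A g G) (h' : Rel Ch hrep A g G') :
    G.IsIso G' :=
  (rel_eq_iff d h h').1 rfl

/-- Two points with isomorphic data are equal. -/
theorem rel_ext (d : Dict Ch) {g g' : SchemeHomOver (specStr k A) D.toBase}
    {G G' : CurveGD k Ch.B₀ Ch.B₁ Ch.B₀₁ A} (h : Rel Ch hrep A g G) (h' : Rel Ch hrep A g' G')
    (hG : G.IsIso G') : g = g' :=
  (rel_eq_iff d h h').2 hG

/-- The product of two points exists. -/
theorem amul_exists (d : Dict Ch) (g g' : SchemeHomOver (specStr k A) D.toBase) :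
    ∃ m : SchemeHomOver (specStr k A) D.toBase, ∀ G G' : CurveGD k Ch.B₀ Ch.B₁ Ch.B₀₁ A,
      Rel Ch hrep A g G → Rel Ch hrep A g' G' →
        Rel Ch hrep A m (S25.H325.tensorGD G G') := by
  obtain ⟨G₀, h₀, hr₀, hd₀⟩ := rel_exists (hrep := hrep) d g
  obtain ⟨G₀', h₀', hr₀', hd₀'⟩ := rel_exists (hrep := hrep) d g'
  obtain ⟨m, hm⟩ := rel_surj (hrep := hrep) d (S25.H325.tensorGD G₀ G₀')
    (S27.H325.rigidifiable_tensorGD Ch.e hr₀ hr₀')
    (S27.H325.deg0_tensorGD Ch.isCurveChart hd₀ hd₀')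
  exact ⟨m, fun G G' h h' => rel_of_isIso hm
    (S25.H325.tensorGD_isIso_congr (rel_isIso d h₀ h) (rel_isIso d h₀' h'))⟩

/-- The inverse of a point exists. -/
theorem ainv_exists (d : Dict Ch) (g : SchemeHomOver (specStr k A) D.toBase) :
    ∃ m : SchemeHomOver (specStr k A) D.toBase, ∀ G : CurveGD k Ch.B₀ Ch.B₁ Ch.B₀₁ A,
      Rel Ch hrep A g G → Rel Ch hrep A m (S25.H325.dualGD G) := by
  obtain ⟨G₀, h₀, hr₀, hd₀⟩ := rel_exists (hrep := hrep) d g
  obtain ⟨m, hm⟩ := rel_surj (hrep := hrep) d (S25.H325.dualGD G₀)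
    (S27.H325.rigidifiable_dualGD Ch.e hr₀) (S27.H325.deg0_dualGD Ch.isCurveChart hd₀)
  exact ⟨m, fun G h => rel_of_isIso hm (S25.H325.dualGD_isIso_congr (rel_isIso d h₀ h))⟩

variable (hrep) (A) in
/-- The product of two `A`-points. -/
noncomputable def amul (d : Dict Ch) (g g' : SchemeHomOver (specStr k A) D.toBase) :
    SchemeHomOver (specStr k A) D.toBase :=
  (amul_exists (hrep := hrep) d g g').choose

variable (hrep) (A) in
/-- The inverse of an `A`-point. -/
noncomputable def ainv (d : Dict Ch) (g : SchemeHomOver (specStr k A) D.toBase) :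
    SchemeHomOver (specStr k A) D.toBase :=
  (ainv_exists (hrep := hrep) d g).choose

theorem rel_amul (d : Dict Ch) {g g' : SchemeHomOver (specStr k A) D.toBase}
    {G G' : CurveGD k Ch.B₀ Ch.B₁ Ch.B₀₁ A} (h : Rel Ch hrep A g G)
    (h' : Rel Ch hrep A g' G') :
    Rel Ch hrep A (amul hrep A d g g') (S25.H325.tensorGD G G') :=
  (amul_exists (hrep := hrep) d g g').choose_spec G G' h h'

theorem rel_ainv (d : Dict Ch) {g : SchemeHomOver (specStr k A) D.toBase}
    {G : CurveGD k Ch.B₀ Ch.B₁ Ch.B₀₁ A} (h : Rel Ch hrep A g G) :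
    Rel Ch hrep A (ainv hrep A d g) (S25.H325.dualGD G) :=
  (ainv_exists (hrep := hrep) d g).choose_spec G h

/-- The product of two points is the point of any tensor product of their data. -/
theorem rel_amul_of_isTensor (d : Dict Ch) {g g' : SchemeHomOver (specStr k A) D.toBase}
    {G G' G'' : CurveGD k Ch.B₀ Ch.B₁ Ch.B₀₁ A} (h : Rel Ch hrep A g G)
    (h' : Rel Ch hrep A g' G') (hT : IsTensor G G' G'') :
    Rel Ch hrep A (amul hrep A d g g') G'' :=
  rel_of_isIso (rel_amul d h h') (S27.H325.isIso_tensorGD_of_isTensor hT)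

theorem amul_assoc (d : Dict Ch) (x y z : SchemeHomOver (specStr k A) D.toBase) :
    amul hrep A d (amul hrep A d x y) z = amul hrep A d x (amul hrep A d y z) := by
  obtain ⟨G₁, h₁, -⟩ := rel_exists (hrep := hrep) d x
  obtain ⟨G₂, h₂, -⟩ := rel_exists (hrep := hrep) d y
  obtain ⟨G₃, h₃, -⟩ := rel_exists (hrep := hrep) d z
  exact rel_ext d (rel_amul d (rel_amul d h₁ h₂) h₃) (rel_amul d h₁ (rel_amul d h₂ h₃))
    (S27.H323.tensorGD_assoc_isIso_h323 G₁ G₂ G₃)

theorem amul_comm (d : Dict Ch) (x y : SchemeHomOver (specStr k A) D.toBase) :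
    amul hrep A d x y = amul hrep A d y x := by
  obtain ⟨G₁, h₁, -⟩ := rel_exists (hrep := hrep) d x
  obtain ⟨G₂, h₂, -⟩ := rel_exists (hrep := hrep) d y
  exact rel_ext d (rel_amul d h₁ h₂) (rel_amul d h₂ h₁) (S25.H325.tensorGD_comm_isIso G₁ G₂)

theorem aone_amul (d : Dict Ch) (x : SchemeHomOver (specStr k A) D.toBase) :
    amul hrep A d (onePt D A) x = x := by
  obtain ⟨G₁, h₁, -⟩ := rel_exists (hrep := hrep) d x
  exact rel_ext d (rel_amul d (rel_one d) h₁) h₁ (S25.H325.tensorGD_unit_left_isIso G₁)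

theorem amul_aone (d : Dict Ch) (x : SchemeHomOver (specStr k A) D.toBase) :
    amul hrep A d x (onePt D A) = x := by
  obtain ⟨G₁, h₁, -⟩ := rel_exists (hrep := hrep) d x
  exact rel_ext d (rel_amul d h₁ (rel_one d)) h₁ (S25.H325.tensorGD_unit_right_isIso G₁)

theorem ainv_amul (d : Dict Ch) (x : SchemeHomOver (specStr k A) D.toBase) :
    amul hrep A d (ainv hrep A d x) x = onePt D A := by
  obtain ⟨G₁, h₁, -⟩ := rel_exists (hrep := hrep) d x
  exact rel_ext d (rel_amul d (rel_ainv d h₁) h₁) (rel_one d)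
    (S25.H325.tensorGD_dual_isIso_unit G₁)

theorem amul_natural (d : Dict Ch) {A' : Type u} [CommRing A'] [Algebra k A'] (φ : A →ₐ[k] A')
    (x y : SchemeHomOver (specStr k A) D.toBase) :
    S27.H687.bc φ (amul hrep A d x y) =
      amul hrep A' d (S27.H687.bc φ x) (S27.H687.bc φ y) := by
  obtain ⟨G₁, h₁, -⟩ := rel_exists (hrep := hrep) d x
  obtain ⟨G₂, h₂, -⟩ := rel_exists (hrep := hrep) d y
  obtain ⟨G₁', hb₁⟩ := H265.curveGD_exists_isBC φ G₁
  obtain ⟨G₂', hb₂⟩ := H265.curveGD_exists_isBC φ G₂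
  have e₁ : Rel Ch hrep A' (S27.H687.bc φ x) G₁' := rel_bc d φ h₁ hb₁
  have e₂ : Rel Ch hrep A' (S27.H687.bc φ y) G₂' := rel_bc d φ h₂ hb₂
  have e₃ : Rel Ch hrep A' (S27.H687.bc φ (amul hrep A d x y)) (S25.H325.tensorGD G₁' G₂') :=
    rel_bc d φ (rel_amul d h₁ h₂) (S25.H325.curveGD_isBC_tensorGD φ hb₁ hb₂)
  exact rel_ext d e₃ (rel_amul d e₁ e₂) (H265.isIso_refl _)

variable (hrep) in
/-- **The affine group law** on the Jacobian. -/
noncomputable def affLaw (d : Dict Ch) : S27.H687.AffineLaw k D.toBase where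
  mul A _ _ := amul hrep A d
  one A _ _ := onePt D A
  inv A _ _ := ainv hrep A d
  mul_assoc _ _ _ := amul_assoc d
  one_mul _ _ _ := aone_amul d
  mul_one _ _ _ := amul_aone d
  inv_mul_cancel _ _ _ := ainv_amul d
  mul_natural _ _ _ _ _ _ φ := amul_natural d φ

/-- **GRP from the dictionary**: the Jacobian carries a commutative group law which on affine
test schemes is the tensor product of gluing data. -/
theorem grp_of_dict (d : Dict Ch) (hrep : RepresentsRelSubPic c ε (algEquivZeroCut c ε) D) :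
    ∃ L : RelativeGroupLaw k D.toBase, L.IsCommutative ∧
      ∀ (A : Type u) [CommRing A] [Algebra k A] (g g' : SchemeHomOver (specStr k A) D.toBase)
        (G G' G'' : CurveGD k Ch.B₀ Ch.B₁ Ch.B₀₁ A),
        Corr Ch A (hrep.poincare.pullbackAlong g).L G →
        Corr Ch A (hrep.poincare.pullbackAlong g').L G' → IsTensor G G' G'' →
        Corr Ch A (hrep.poincare.pullbackAlong (L.mul (specStr k A) g g')).L G'' := by
  refine ⟨(affLaw hrep d).extend,
    (affLaw hrep d).extend_isCommutative fun A _ _ x y => amul_comm d x y,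
    fun A _ _ g g' G G' G'' h h' hT => ?_⟩
  rw [S27.H687.AffineLaw.extend_mul_affine]
  exact rel_amul_of_isTensor d h h' hT

end Fermat.Agent.S27.H386

end
-- ===== PACK-END S27/H386/AffLaw.lean

-- ===== PACK-BEGIN S27/H551/TanGlue.lean
section






/-!
# S27 / DIM (helper551): `TAN` from `CHART-AT`, `LOC`, `PTS-DICT-A` (no `TWIST` needed)

`tan_of_chartAt_loc_ptsDictA : Stmt.ChartAt k → Stmt.Loc k → Stmt.PtsDictA k → Stmt.Tan k`

(the leaves of `Fermat/Agent/S27/Dim/Spec.lean`), via the pure-algebra tangent theorem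
`H551.finrank_derivation`.  Also:

* `curveTwist_rigidifiable` : twists of the unit datum are rigidifiable;
* `rigidifiable_of_isBC_unit`, `deg0_of_isBC_unit` : a gluing datum over an augmented
  `k`-algebra with nil augmentation ideal whose reduction is the unit datum is rigidifiable
  and of degree zero.
-/

set_option autoImplicit false
set_option linter.style.haveILetI false
set_option linter.unusedSectionVars false

universe u

open CategoryTheory CategoryTheory.Limits AlgebraicGeometry AlgebraicGeometry.RelPicard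
  NeronModelInfra GoodReductionJacobian
open scoped TensorProduct

namespace Fermat.Agent.S27.H551

open Fermat.Agent.S25 Fermat.Agent.S25.H265 Fermat.Agent.S25.H671 Fermat.Agent.S27.H566

noncomputable section

section Alg

variable {k : Type u} [Field k] {B₀ B₁ B₀₁ : Type u} [CommRing B₀] [CommRing B₁] [CommRing B₀₁]
  [Algebra k B₀] [Algebra k B₁] [Algebra k B₀₁] [Algebra B₀ B₀₁] [Algebra B₁ B₀₁]
  [IsScalarTower k B₀ B₀₁] [IsScalarTower k B₁ B₀₁]
  {A : Type u} [CommRing A] [Algebra k A]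

/-- Twists of the unit datum are rigidifiable. -/
theorem curveTwist_rigidifiable (e : B₁ →ₐ[k] k) (u : (A ⊗[k] B₀₁)ˣ) :
    (curveTwist B₀ B₁ B₀₁ A u).Rigidifiable e := by
  refine ⟨(epsHom e A).toRingHom.toSemilinearMap, ?_⟩
  show IsSemilinearBaseChange (epsHom e A).toRingHom (epsHom e A).toRingHom.toSemilinearMap
  unfold IsSemilinearBaseChange
  letI : Algebra (A ⊗[k] B₁) A := (epsHom e A).toRingHom.toAlgebra
  exact IsBaseChange.linearMap (A ⊗[k] B₁) A

/-- A gluing datum with trivial reduction modulo a nilpotent augmentation ideal is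
rigidifiable. -/
theorem rigidifiable_of_isBC_unit (e : B₁ →ₐ[k] k) (π : A →ₐ[k] k) {n : ℕ}
    (hπ : (RingHom.ker (π : A →+* k)) ^ n = ⊥) (G : CurveGD k B₀ B₁ B₀₁ A)
    (h : CurveGD.IsBC π G (unitGD k B₀ B₁ B₀₁ k)) : G.Rigidifiable e := by
  obtain ⟨u, -, hu⟩ := exists_curveTwist_isIso_of_isBC π hπ G h
  exact rigidifiable_of_isIso hu (curveTwist_rigidifiable e u)

/-- A gluing datum with trivial reduction modulo a nil augmentation ideal has degree zero on
all fibres. -/
theorem deg0_of_isBC_unit (π : A →ₐ[k] k)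
    (hπ : ∀ a ∈ RingHom.ker (π : A →+* k), IsNilpotent a) (G : CurveGD k B₀ B₁ B₀₁ A)
    (h : CurveGD.IsBC π G (unitGD k B₀ B₁ B₀₁ k)) : G.Deg0 := by
  intro K _ _ χ G'' hbc
  have hfac : χ = (Algebra.ofId k K).comp π := by
    apply AlgHom.ext
    intro a
    have h1 : a - algebraMap k A (π a) ∈ RingHom.ker (π : A →+* k) := by
      rw [RingHom.mem_ker]
      show π (a - algebraMap k A (π a)) = 0
      rw [map_sub, AlgHom.commutes, sub_eq_zero]
      rfl
    obtain ⟨m, hm⟩ := hπ _ h1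
    have h2 : χ (a - algebraMap k A (π a)) = 0 := by
      have : χ (a - algebraMap k A (π a)) ^ m = 0 := by rw [← map_pow, hm, map_zero]
      exact eq_zero_of_pow_eq_zero this
    rw [map_sub, sub_eq_zero, AlgHom.commutes] at h2
    rw [h2]
    rfl
  have h3 : CurveGD.IsBC (Algebra.ofId k K) (unitGD k B₀ B₁ B₀₁ k) G'' :=
    curveGD_isBC_of_comp_eq hfac h hbc
  have h4 : CurveGD.IsBC (Algebra.ofId k K) (unitGD k B₀ B₁ B₀₁ k) (unitGD k B₀ B₁ B₀₁ K) :=
    Fermat.Agent.S25.H550.isBC_unit (Algebra.ofId k K)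
  have h5 : G''.IsIso (unitGD k B₀ B₁ B₀₁ K) := curveGD_isIso_of_isBC h3 h4
  rw [degree_eq_of_isIso h5]
  exact sub_self _

end Alg

section Glue

variable (k : Type u) [Field k]

theorem isNilpotent_of_dAug_eq_zero {a : DualNum k} (ha : dAug k a = 0) : IsNilpotent a :=
  ⟨2, by rw [pow_two]; exact mul_eq_zero_of_dAug ha ha⟩

theorem specMap_algHom_injective {R A : Type u} [CommRing R] [Algebra k R] [CommRing A]
    [Algebra k A] {φ ψ : R →ₐ[k] A}
    (h : Spec.map (CommRingCat.ofHom φ.toRingHom) = Spec.map (CommRingCat.ofHom ψ.toRingHom)) :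
    φ = ψ := by
  have h1 := Spec.map_injective h
  have h2 : φ.toRingHom = ψ.toRingHom := congrArg CommRingCat.Hom.hom h1
  exact AlgHom.coe_ringHom_injective h2

/-- **TAN from CHART-AT, LOC and PTS-DICT-A** (the leaf TWIST is not needed). -/
theorem tan_of_chartAt_loc_ptsDictA (hCA : Dim.Stmt.ChartAt k) (hLoc : Dim.Stmt.Loc k)
    (hPD : Dim.Stmt.PtsDictA k) : Dim.Stmt.Tan k := by
  intro _ C c _ _ _ ε Ch D hrep _ _ _
  obtain ⟨hP1, hP2, hP3, hP4, hP5⟩ := hPD c ε Ch D hrep
  obtain ⟨R, iR1, iR2, j, hj, x, hjf, hxj⟩ := hCA D.toBase D.zeroSection D.zeroSection_toBase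
  refine ⟨R, iR1, iR2, j, hj, hjf, x, ?_⟩
  let tR : SchemeHomOver (specStr k R) D.toBase := ⟨j, hjf⟩
  obtain ⟨G, hG⟩ := hP1 R tR
  have hC := Ch.isCurveChart
  -- points through the chart
  have hpt : ∀ (A : Type u) [CommRing A] [Algebra k A] (φ : R →ₐ[k] A)
      (G' : CurveGD k Ch.B₀ Ch.B₁ Ch.B₀₁ A), CurveGD.IsBC φ G G' →
      Corr Ch A (hrep.poincare.pullbackAlong (postComp tR (specHomOver k φ))).L G' :=
    fun A _ _ φ G' h => hP4 R A φ tR G G' hG h
  -- the zero point
  have hzero : postComp tR (specHomOver k x) = Dim.zeroPt D := Subtype.ext hxj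
  -- (triv)
  have htriv : CurveGD.IsBC x G (unitGD k Ch.B₀ Ch.B₁ Ch.B₀₁ k) := by
    obtain ⟨G₀, hG₀⟩ := curveGD_exists_isBC x G
    have h1 := hpt k x G₀ hG₀
    rw [hzero] at h1
    have h2 : G₀.IsIso (Dim.unitK k Ch.B₀ Ch.B₁ Ch.B₀₁) := (hP3 k _ _ G₀ _ h1 hP5).1 rfl
    exact curveGD_isBC_of_isIso_right hG₀ h2
  -- (inj)
  have hinj : ∀ φ ψ : R →ₐ[k] DualNum k, (dAug k).comp φ = x → (dAug k).comp ψ = x →
      ∀ G' : CurveGD k Ch.B₀ Ch.B₁ Ch.B₀₁ (DualNum k),
        CurveGD.IsBC φ G G' → CurveGD.IsBC ψ G G' → φ = ψ := by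
    intro φ ψ _ _ G' h1 h2
    have e1 := hpt _ φ G' h1
    have e2 := hpt _ ψ G' h2
    have e3 : postComp tR (specHomOver k φ) = postComp tR (specHomOver k ψ) :=
      (hP3 _ _ _ G' G' e1 e2).2 (isIso_refl G')
    have e4 : Spec.map (CommRingCat.ofHom φ.toRingHom) ≫ j =
        Spec.map (CommRingCat.ofHom ψ.toRingHom) ≫ j := congrArg Subtype.val e3
    exact specMap_algHom_injective k ((cancel_mono j).1 e4)
  -- (surj)
  have hsurj : ∀ G' : CurveGD k Ch.B₀ Ch.B₁ Ch.B₀₁ (DualNum k),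
      CurveGD.IsBC (dAug k) G' (unitGD k Ch.B₀ Ch.B₁ Ch.B₀₁ k) →
        ∃ φ : R →ₐ[k] DualNum k, (dAug k).comp φ = x ∧ CurveGD.IsBC φ G G' := by
    intro G' hG'
    have hnil : ∀ a ∈ RingHom.ker (dAug k).toRingHom, IsNilpotent a := fun a ha =>
      isNilpotent_of_dAug_eq_zero k (RingHom.mem_ker.1 ha)
    have hrig : G'.Rigidifiable Ch.e :=
      rigidifiable_of_isBC_unit Ch.e (dAug k) ker_dAug_sq G' hG'
    have hdeg : G'.Deg0 := deg0_of_isBC_unit (dAug k)
      (fun a ha => isNilpotent_of_dAug_eq_zero k (RingHom.mem_ker.1 ha)) G' hG'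
    obtain ⟨t, ht⟩ := hP2 (DualNum k) G' hrig hdeg
    have h1 := hP4 (DualNum k) k (dAug k) t G' _ ht hG'
    have h2 : postComp t (specHomOver k (dAug k)) = Dim.zeroPt D :=
      (hP3 k _ _ _ _ h1 hP5).2 (isIso_refl _)
    have h3 : Spec.map (CommRingCat.ofHom (dAug k).toRingHom) ≫ t.1 =
        Spec.map (CommRingCat.ofHom x.toRingHom) ≫ j :=
      (congrArg Subtype.val h2).trans hxj.symm
    obtain ⟨φ, hφ, hφx⟩ := hLoc D.toBase R j hjf x (DualNum k) (dAug k) hnil t h3
    refine ⟨φ, hφx, ?_⟩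
    obtain ⟨G'', hG''⟩ := curveGD_exists_isBC φ G
    have h4 := hpt _ φ G'' hG''
    have h5 : postComp tR (specHomOver k φ) = t := Subtype.ext hφ.symm
    rw [h5] at h4
    have h6 : G''.IsIso G' := (hP3 _ t t G'' G' h4 ht).1 rfl
    exact curveGD_isBC_of_isIso_right hG'' h6
  exact finrank_derivation hC x G htriv hinj hsurj

end Glue

end

end Fermat.Agent.S27.H551

end
-- ===== PACK-END S27/H551/TanGlue.lean

-- ===== PACK-BEGIN Ribet/H384/RamTwoRed.lean
section




/-!
# Ramification at `2`: Frobenius is `± 2` on the torsion of `E⁰` (helper384)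

`A` a valuation subring of `K` with `v 2 < 1`, `W : y² + x y = x³ + a₂ x² + a₄ x` with `a₂ ∈ A`,
`v a₄ < 1` (nodal reduction `y² + x y = x³ + ā₂ x²`).

* `dbl_cong` : for an integral point `(x, y)` with `v x = 1`, the coordinates of `2 (x, y)` are
  congruent to `(x², y² + a₂ x²)` modulo the maximal ideal;
* `frob_eq_two_nsmul`, `frob_eq_neg_two_nsmul` : if `σ z ≡ z²` on `A` and `τ` is the induced
  action on points, then `τ D = 2 D` (`ā₂ = 0`), resp. `τ D = -(2 D)` (`ā₂ = 1`) for every torsion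
  point `D` of order prime to the residue characteristic with `v x(D) = 1`.
-/

set_option autoImplicit false
set_option linter.unusedSectionVars false
set_option linter.unusedVariables false

namespace Fermat.Agent.Ribet.H384

open WeierstrassCurve WeierstrassCurve.Affine
open Fermat.Agent.S05.SameRed
open Fermat.Agent.S05.Assemble (KerTorsionFree val_y_le_one)

section dblY

variable {κ : Type*} [Field κ]

/-- Duplication on `y² + x y = x³ + a x²` in characteristic `2`, `y`-coordinate. -/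
lemma dblY_char2 {X Y a L : κ} (h2 : (2 : κ) = 0) (hX : X ≠ 0)
    (hL : L * (2 * Y + X) = 3 * X ^ 2 + 2 * a * X - Y)
    (hE : Y ^ 2 + X * Y = X ^ 3 + a * X ^ 2) :
    -(L * (X ^ 2 - X) + Y) - X ^ 2 = Y ^ 2 + a * X ^ 2 := by
  have key : X * (-(L * (X ^ 2 - X) + Y) - X ^ 2 - (Y ^ 2 + a * X ^ 2)) = 0 := by
    linear_combination (-(X ^ 2 - X)) * hL + (-X) * hE
      + (-X ^ 4 + X ^ 2 * Y - a * X ^ 3 - X * Y - (X ^ 2 + a * X) * (X ^ 2 - X)
        + Y * L * (X ^ 2 - X)) * h2
  rcases mul_eq_zero.mp key with h | h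
  · exact absurd h hX
  · linear_combination h

end dblY

section val

variable {K : Type*} [Field K] {A : ValuationSubring K}

lemma val_coe_lt_one_iff (z : A) :
    A.valuation (z : K) < 1 ↔ IsLocalRing.residue A z = 0 := by
  rw [IsLocalRing.residue_eq_zero_iff, A.valuation_lt_one_iff]

lemma val_sub_lt_one_iff (z w : A) :
    A.valuation ((z : K) - (w : K)) < 1 ↔ IsLocalRing.residue A z = IsLocalRing.residue A w := by
  have : ((z : K) - (w : K)) = ((z - w : A) : K) := rfl
  rw [this, val_coe_lt_one_iff, map_sub, sub_eq_zero]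

end val

section dbl

variable {K : Type*} [Field K] [DecidableEq K] {A : ValuationSubring K} {W : Affine K}

/-- **Duplication modulo the maximal ideal.** -/
theorem dbl_cong (hA2 : A.valuation (2 : K) < 1) (h1 : W.a₁ = 1) (h3 : W.a₃ = 0)
    (h6 : W.a₆ = 0) (h2 : W.a₂ ∈ A) (h4 : A.valuation W.a₄ < 1) {x y : K}
    (hE : W.Equation x y) (hx : A.valuation x = 1) (hy : y ∈ A) :
    y ≠ W.negY x y ∧ W.slope x x y y ∈ A ∧
      W.addX x x (W.slope x x y y) ∈ A ∧ W.addY x x y (W.slope x x y y) ∈ A ∧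
      A.valuation (W.addX x x (W.slope x x y y) - x ^ 2) < 1 ∧
      A.valuation (W.addY x x y (W.slope x x y y) - (y ^ 2 + W.a₂ * x ^ 2)) < 1 := by
  have hxA : x ∈ A := (A.valuation_le_one_iff x).mp hx.le
  have h4A : W.a₄ ∈ A := (A.valuation_le_one_iff _).mp h4.le
  have hvy : A.valuation y ≤ 1 := (A.valuation_le_one_iff y).mpr hy
  -- the denominator of the slope
  have hd : y - W.negY x y = 2 * y + x := by
    simp only [negY, h1, h3]; ring
  have hv2y : A.valuation (2 * y) < 1 := by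
    rw [map_mul]
    exact (mul_le_of_le_one_right' hvy).trans_lt hA2
  have hvd : A.valuation (2 * y + x) = 1 := by
    rw [add_comm, Valuation.map_add_eq_of_lt_left _ (by rw [hx]; exact hv2y), hx]
  have hd0 : 2 * y + x ≠ 0 := by
    intro h
    rw [h, map_zero] at hvd
    exact zero_ne_one hvd
  have hne : y ≠ W.negY x y := by
    intro h
    apply hd0
    rw [← hd, sub_eq_zero]
    exact h
  have hsl : W.slope x x y y = (3 * x ^ 2 + 2 * W.a₂ * x + W.a₄ - y) / (2 * y + x) := by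
    rw [slope_of_Y_ne rfl hne, hd, h1, one_mul]
  set ℓ := W.slope x x y y with hℓ
  have hnum : 3 * x ^ 2 + 2 * W.a₂ * x + W.a₄ - y ∈ A := by
    exact sub_mem (add_mem (add_mem (mul_mem (ofNat_mem A 3) (pow_mem hxA 2))
      (mul_mem (mul_mem (ofNat_mem A 2) h2) hxA)) h4A) hy
  have hℓA : ℓ ∈ A := by
    rw [← A.valuation_le_one_iff, hsl, map_div₀, hvd, div_one, A.valuation_le_one_iff]
    exact hnum
  -- everything in `A`
  let xA : A := ⟨x, hxA⟩
  let yA : A := ⟨y, hy⟩
  let aA : A := ⟨W.a₂, h2⟩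
  let bA : A := ⟨W.a₄, h4A⟩
  let lA : A := ⟨ℓ, hℓA⟩
  have idL : lA * (2 * yA + xA) = 3 * xA ^ 2 + 2 * aA * xA + bA - yA := by
    apply Subtype.ext
    show ℓ * (2 * y + x) = 3 * x ^ 2 + 2 * W.a₂ * x + W.a₄ - y
    rw [hsl, div_mul_cancel₀ _ hd0]
  have idE : yA ^ 2 + xA * yA = xA ^ 3 + aA * xA ^ 2 + bA * xA := by
    apply Subtype.ext
    show y ^ 2 + x * y = x ^ 3 + W.a₂ * x ^ 2 + W.a₄ * x
    have := (Affine.equation_iff x y).mp hE
    rw [h1, h3, h6] at this
    linear_combination this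
  -- in the residue field
  set r := IsLocalRing.residue A with hr
  have h2κ : (2 : IsLocalRing.ResidueField A) = 0 := by
    have := (val_coe_lt_one_iff (2 : A)).mp hA2
    rwa [map_ofNat] at this
  have hbκ : r bA = 0 := (val_coe_lt_one_iff bA).mp h4
  have hXκ : r xA ≠ 0 := by
    intro h
    have := (val_coe_lt_one_iff xA).mpr h
    exact this.ne hx
  have hLκ : r lA * (2 * r yA + r xA) = 3 * r xA ^ 2 + 2 * r aA * r xA - r yA := by
    have := congrArg r idL
    simpa only [map_mul, map_add, map_sub, map_pow, map_ofNat, hbκ, add_zero] using this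
  have hEκ : r yA ^ 2 + r xA * r yA = r xA ^ 3 + r aA * r xA ^ 2 := by
    have := congrArg r idE
    simpa only [map_mul, map_add, map_pow, hbκ, zero_mul, add_zero] using this
  have hX3 := dblX_char2 h2κ hXκ hLκ hEκ
  have hY3 := dblY_char2 h2κ hXκ hLκ hEκ
  -- the coordinates of the double
  let x3A : A := lA ^ 2 + lA - aA - xA - xA
  let y3A : A := -(lA * (x3A - xA) + yA) - x3A
  have ex3 : W.addX x x ℓ = (x3A : K) := by
    show ℓ ^ 2 + W.a₁ * ℓ - W.a₂ - x - x = ℓ ^ 2 + ℓ - W.a₂ - x - x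
    rw [h1, one_mul]
  have ey3 : W.addY x x y ℓ = (y3A : K) := by
    show W.negY (W.addX x x ℓ) (W.negAddY x x y ℓ) = _
    simp only [negY, negAddY, h1, h3, ex3]
    show -(ℓ * ((x3A : K) - x) + y) - 1 * (x3A : K) - 0 = -(ℓ * ((x3A : K) - x) + y) - (x3A : K)
    ring
  have rx3 : r x3A = r xA ^ 2 := by
    show r (lA ^ 2 + lA - aA - xA - xA) = _
    simp only [map_sub, map_add, map_pow]
    exact hX3
  refine ⟨hne, hℓA, ?_, ?_, ?_, ?_⟩
  · rw [ex3]; exact x3A.2
  · rw [ey3]; exact y3A.2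
  · rw [ex3]
    have : ((x3A : K) - x ^ 2) = ((x3A : K) - ((xA ^ 2 : A) : K)) := rfl
    rw [this, val_sub_lt_one_iff, map_pow]
    exact rx3
  · rw [ey3]
    have : ((y3A : K) - (y ^ 2 + W.a₂ * x ^ 2)) =
        ((y3A : K) - ((yA ^ 2 + aA * xA ^ 2 : A) : K)) := rfl
    rw [this, val_sub_lt_one_iff]
    show r (-(lA * (x3A - xA) + yA) - x3A) = _
    simp only [map_sub, map_add, map_pow, map_mul, map_neg, rx3]
    exact hY3

end dbl

section frob

variable {K : Type*} [Field K] [DecidableEq K] {A : ValuationSubring K} {W : Affine K}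

private lemma val_add_lt {a b : K} (ha : A.valuation a < 1) (hb : A.valuation b < 1) :
    A.valuation (a + b) < 1 :=
  lt_of_le_of_lt (A.valuation.map_add a b) (max_lt ha hb)

private lemma val_sub_lt {a b : K} (ha : A.valuation a < 1) (hb : A.valuation b < 1) :
    A.valuation (a - b) < 1 := by
  rw [sub_eq_add_neg]
  exact val_add_lt ha (by rwa [Valuation.map_neg])

private lemma val_mul_lt {a b : K} (ha : A.valuation a < 1) (hb : A.valuation b ≤ 1) :
    A.valuation (a * b) < 1 := by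
  rw [map_mul]
  exact (mul_le_of_le_one_right' hb).trans_lt ha

/-- **Frobenius is `2` or `-2` on torsion points with unit `x`-coordinate.**
`ε = false` : `ā₂ = 0`, `τ D = 2 D`;  `ε = true` : `ā₂ = 1`, `τ D = -(2 D)`. -/
theorem frob_eq_of_unit (hW : IntegralCoeffs W A.valuation) (hA2 : A.valuation (2 : K) < 1)
    (h1 : W.a₁ = 1) (h3 : W.a₃ = 0) (h6 : W.a₆ = 0) (h4 : A.valuation W.a₄ < 1)
    {σ : K →+* K} (hfrob : ∀ z, A.valuation z ≤ 1 → A.valuation (σ z - z ^ 2) < 1)
    (τ : W.Point →+ W.Point)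
    (hτ : ∀ (x y : K) (h : W.Nonsingular x y),
      ∃ h' : W.Nonsingular (σ x) (σ y), τ (Point.some x y h) = Point.some (σ x) (σ y) h')
    {n : ℕ} (hC1 : KerTorsionFree W A.valuation n) {x y : K} (h : W.Nonsingular x y)
    (hD : n • Point.some x y h = 0) (hx : A.valuation x = 1) :
    (A.valuation W.a₂ < 1 → τ (Point.some x y h) = 2 • Point.some x y h) ∧
    (A.valuation (W.a₂ - 1) < 1 → τ (Point.some x y h) = -(2 • Point.some x y h)) := by
  have h2A : W.a₂ ∈ A := (A.valuation_le_one_iff _).mp hW.a₂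
  have hvy : A.valuation y ≤ 1 := val_y_le_one hW h.1 hx.le
  have hyA : y ∈ A := (A.valuation_le_one_iff _).mp hvy
  obtain ⟨hne, hℓA, hx3A, hy3A, hcx, hcy⟩ := dbl_cong hA2 h1 h3 h6 h2A h4 h.1 hx hyA
  set ℓ := W.slope x x y y with hℓ
  have h2D : 2 • Point.some x y h =
      Point.some _ _ (nonsingular_add h h fun hxy => hne hxy.right) := by
    rw [two_nsmul]
    exact Point.add_self_of_Y_ne hne
  obtain ⟨h', hτD⟩ := hτ x y h
  have hfx := hfrob x hx.le
  have hfy := hfrob y hvy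
  have hvx2 : A.valuation (x ^ 2) = 1 := by rw [map_pow, hx, one_pow]
  have hvσx : A.valuation (σ x) = 1 := by
    have : σ x = x ^ 2 + (σ x - x ^ 2) := by ring
    rw [this, Valuation.map_add_eq_of_lt_left _ (by rw [hvx2]; exact hfx), hvx2]
  have hvσy : A.valuation (σ y) ≤ 1 := by
    have : σ y = y ^ 2 + (σ y - y ^ 2) := by ring
    rw [this]
    refine le_trans (A.valuation.map_add _ _) (max_le ?_ hfy.le)
    rw [map_pow]
    exact pow_le_one' hvy 2
  have hvx3 : A.valuation (W.addX x x ℓ) ≤ 1 := (A.valuation_le_one_iff _).mpr hx3A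
  have hvy3 : A.valuation (W.addY x x y ℓ) ≤ 1 := (A.valuation_le_one_iff _).mpr hy3A
  have hx2le : A.valuation (x ^ 2) ≤ 1 := hvx2.le
  have hy2le : A.valuation (y ^ 2) ≤ 1 := by rw [map_pow]; exact pow_le_one' hvy 2
  -- `σ x ≡ x₃`
  have hcx' : A.valuation (σ x - W.addX x x ℓ) < 1 := by
    have : σ x - W.addX x x ℓ = (σ x - x ^ 2) - (W.addX x x ℓ - x ^ 2) := by ring
    rw [this]
    exact val_sub_lt hfx hcx
  have htors : ∀ Q : W.Point, n • Q = 0 → n • (τ (Point.some x y h) - Q) = 0 := by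
    intro Q hQ
    rw [smul_sub, ← map_nsmul, hD, map_zero, hQ, sub_zero]
  have htors2 : n • (2 • Point.some x y h) = 0 := by
    rw [smul_comm, hD, smul_zero]
  constructor
  · intro ha2
    have hns : A.valuation (2 * σ y + W.a₁ * σ x + W.a₃) = 1 := by
      rw [h1, h3, one_mul, add_zero, add_comm,
        Valuation.map_add_eq_of_lt_left _ (by rw [hvσx]; exact val_mul_lt hA2 hvσy), hvσx]
    have hcy' : A.valuation (σ y - W.addY x x y ℓ) < 1 := by
      have : σ y - W.addY x x y ℓ =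
          (σ y - y ^ 2) - (W.addY x x y ℓ - (y ^ 2 + W.a₂ * x ^ 2)) - W.a₂ * x ^ 2 := by ring
      rw [this]
      exact val_sub_lt (val_sub_lt hfy hcy) (val_mul_lt ha2 hx2le)
    have hker := inKer_sub_of_same_reduction hW h'
      (nonsingular_add h h fun hxy => hne hxy.right) hvσx.le hvσy hvx3 hvy3 hcx' hcy'
      (Or.inr hns)
    have h0 := hC1 _ hker (by
      rw [← hτD, ← h2D]
      exact htors _ htors2)
    rw [hτD, h2D]
    exact sub_eq_zero.mp h0
  · intro ha2
    have hns : A.valuation (2 * σ y + W.a₁ * σ x + W.a₃) = 1 := by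
      rw [h1, h3, one_mul, add_zero, add_comm,
        Valuation.map_add_eq_of_lt_left _ (by rw [hvσx]; exact val_mul_lt hA2 hvσy), hvσx]
    have hneg : -(2 • Point.some x y h) =
        Point.some _ _ ((nonsingular_neg _ _).mpr
          (nonsingular_add h h fun hxy => hne hxy.right)) := by
      rw [h2D, Point.neg_some]
    have hcy' : A.valuation (σ y - W.negY (W.addX x x ℓ) (W.addY x x y ℓ)) < 1 := by
      have : σ y - W.negY (W.addX x x ℓ) (W.addY x x y ℓ) =
          (σ y - y ^ 2) + (W.addY x x y ℓ - (y ^ 2 + W.a₂ * x ^ 2))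
            + (W.addX x x ℓ - x ^ 2) + 2 * (y ^ 2 + x ^ 2) + (W.a₂ - 1) * x ^ 2 := by
        simp only [negY, h1, h3]
        ring
      rw [this]
      refine val_add_lt (val_add_lt (val_add_lt (val_add_lt hfy hcy) hcx) (val_mul_lt hA2 ?_))
        (val_mul_lt ha2 hx2le)
      exact le_trans (A.valuation.map_add _ _) (max_le hy2le hx2le)
    have hvny : A.valuation (W.negY (W.addX x x ℓ) (W.addY x x y ℓ)) ≤ 1 := by
      simp only [negY, h1, h3, one_mul, sub_zero]
      rw [sub_eq_add_neg]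
      refine le_trans (A.valuation.map_add _ _) (max_le ?_ ?_)
      · rwa [Valuation.map_neg]
      · rwa [Valuation.map_neg]
    have hker := inKer_sub_of_same_reduction hW h'
      ((nonsingular_neg _ _).mpr (nonsingular_add h h fun hxy => hne hxy.right))
      hvσx.le hvσy hvx3 hvny hcx' hcy' (Or.inr hns)
    have h0 := hC1 _ hker (by
      rw [← hτD, ← hneg]
      exact htors _ (by rw [smul_neg, htors2, neg_zero]))
    rw [hτD, hneg]
    exact sub_eq_zero.mp h0

end frob

end Fermat.Agent.Ribet.H384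

end
-- ===== PACK-END Ribet/H384/RamTwoRed.lean

-- ===== PACK-BEGIN S13/H365/FreyTwo.lean
section





/-!
# (T4) for the Frey curve: inertia at `2` acts unipotently on `E[p]`

For every valuation ring `A` of `ℚ̄` over `2` and every `σ` in its inertia group,
`(σ - 1)² = 0` on the `p`-torsion of the Frey curve.
-/

set_option autoImplicit false
set_option linter.unusedSectionVars false
set_option linter.unusedVariables false

namespace Fermat.Agent.S13.H365

open WeierstrassCurve WeierstrassCurve.Affine WeierstrassCurve.Affine.Point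
open Fermat.Agent.S05.SameRed
open Fermat.Agent.S05.Assemble (Qb inertia_res val_int_le_one val_int_lt_one val_int_eq_one
  val_nat_eq_one fA fB frey_a₁ frey_a₂ frey_a₃ frey_a₄ frey_a₆ val_p_eq_one KerTorsionFree
  fA_ne_zero fB_ne_zero sigma_int)

variable (P : FreyPackage)

/-- `a₂` of the Frey curve is an integer. -/
lemma frey_a₂_int : ∃ k : ℤ, (P.freyCurve⁄Qb).a₂ = (k : Qb) := by
  obtain ⟨k, hk⟩ := frey_exists_a₂ P
  refine ⟨k, ?_⟩
  rw [frey_a₂]
  have h : fB P - 1 - fA P = 4 * (k : Qb) := by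
    simp only [fA, fB]
    exact_mod_cast congrArg (Int.cast : ℤ → Qb) hk
  rw [h]
  field_simp

/-- `a₄` of the Frey curve is an even integer. -/
lemma frey_a₄_int : ∃ m : ℤ, (P.freyCurve⁄Qb).a₄ = ((2 * m : ℤ) : Qb) := by
  obtain ⟨m, hm⟩ := frey_exists_b_pow P
  refine ⟨-(P.a ^ P.p) * m, ?_⟩
  rw [frey_a₄]
  have h : fB P = 32 * (m : Qb) := by
    simp only [fB]
    exact_mod_cast congrArg (Int.cast : ℤ → Qb) hm
  rw [h]
  simp only [fA]
  push_cast
  ring

lemma frey_a₄_ne_zero : (P.freyCurve⁄Qb).a₄ ≠ 0 := by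
  rw [frey_a₄]
  exact div_ne_zero (mul_ne_zero (neg_ne_zero.mpr (fA_ne_zero P)) (fB_ne_zero P)) (by norm_num)

variable {A : ValuationSubring Qb}

/-- The Frey curve has integral coefficients at every valuation ring of `ℚ̄`. -/
lemma frey_integral_all : IntegralCoeffs (P.freyCurve⁄Qb) A.valuation := by
  obtain ⟨k, hk⟩ := frey_a₂_int P
  obtain ⟨m, hm⟩ := frey_a₄_int P
  refine ⟨?_, ?_, ?_, ?_, ?_⟩
  · rw [frey_a₁, map_one]
  · rw [hk]; exact val_int_le_one k
  · rw [frey_a₃, _root_.map_zero]; exact zero_le_one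
  · rw [hm]; exact val_int_le_one _
  · rw [frey_a₆, _root_.map_zero]; exact zero_le_one

lemma frey_val_a₄_lt_one (hA : A.LiesOverPrime 2) : A.valuation (P.freyCurve⁄Qb).a₄ < 1 := by
  obtain ⟨m, hm⟩ := frey_a₄_int P
  rw [hm]
  exact val_int_lt_one hA ⟨m, by push_cast; ring⟩

lemma frey_val_b₂_eq_one (hA : A.LiesOverPrime 2) : A.valuation (fB P - fA P) = 1 := by
  have h := val_int_eq_one hA Nat.prime_two (n := P.b ^ P.p - P.a ^ P.p)
    (by exact_mod_cast frey_b₂_odd P)
  have e : ((P.b ^ P.p - P.a ^ P.p : ℤ) : Qb) = fB P - fA P := by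
    simp only [fA, fB]; push_cast; ring
  rwa [e] at h

lemma sigma_frey_a₄ (σ : Qb ≃ₐ[ℚ] Qb) :
    (σ : Qb →+* Qb) (P.freyCurve⁄Qb).a₄ = (P.freyCurve⁄Qb).a₄ := by
  obtain ⟨m, hm⟩ := frey_a₄_int P
  rw [hm]
  exact sigma_int σ _

/-- The node model of the Frey curve at `2`: node at `(0, 0)`, tangent slopes the roots of
`t² + t - a₂`. -/
noncomputable def freyNode (hA : A.LiesOverPrime 2) (s : Qb) (hs : s ^ 2 = fB P - fA P) :
    NodeModel A.valuation (P.freyCurve⁄Qb) where
  e := 0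
  f := 0
  γ₁ := (-1 + s) / 2
  γ₂ := (-1 - s) / 2
  a := (P.freyCurve⁄Qb).a₄
  h2tors := by rw [frey_a₃]; ring
  hon := by rw [frey_a₆]; ring
  hsum := by rw [frey_a₁]; ring
  hprod := by
    rw [frey_a₂]
    have h2 : (2 : Qb) ≠ 0 := by norm_num
    have h4 : (4 : Qb) ≠ 0 := by norm_num
    field_simp
    linear_combination (-4 : Qb) * hs
  ha_def := by ring
  hδ := by
    have e : (-1 + s) / 2 - (-1 - s) / 2 = s := by ring
    rw [e]
    have h := frey_val_b₂_eq_one P hA
    rw [← hs, map_pow] at h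
    exact (pow_left_inj (n := 2) two_ne_zero).mp (by rw [h, one_pow])
  ha := frey_val_a₄_lt_one P hA
  ha0 := frey_a₄_ne_zero P

/-- **(T4)** for every valuation ring over `2`. -/
theorem inertia_two_unipotent (A : ValuationSubring Qb) (hA : A.LiesOverPrime 2)
    (σ : Qb ≃ₐ[ℚ] Qb) (hσ : σ ∈ A.inertiaSubgroupIn ℚ)
    (x : Submodule.torsionBy ℤ (P.freyCurve⁄Qb).Point P.p) :
    σ • (σ • x - x) = σ • x - x := by
  obtain ⟨pt, hpt⟩ := x
  apply Subtype.ext
  show Point.map (W' := P.freyCurve) σ.toAlgHom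
      (Point.map (W' := P.freyCurve) σ.toAlgHom pt - pt) =
    Point.map (W' := P.freyCurve) σ.toAlgHom pt - pt
  have hP : P.p • pt = 0 := by
    have := (Submodule.mem_torsionBy_iff _ _).mp hpt
    rwa [natCast_zsmul] at this
  have hW : IntegralCoeffs (P.freyCurve⁄Qb) A.valuation := frey_integral_all P
  have hp2 : (2 : ℕ) ≠ P.p := by have := P.hp5; omega
  have hp : A.valuation (P.p : Qb) = 1 := val_p_eq_one (P := P) hA Nat.prime_two hp2
  have hC1 : KerTorsionFree (P.freyCurve⁄Qb) A.valuation P.p := fun Q hQ hQ0 =>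
    Fermat.Agent.S05.C1b.eq_zero_of_inKer_of_nsmul_eq_zero hW P.p hp Q hQ hQ0
  have hres := inertia_res A hσ
  have hτ : ∀ (x y : Qb) (h : (P.freyCurve⁄Qb).Nonsingular x y),
      ∃ h' : (P.freyCurve⁄Qb).Nonsingular ((σ : Qb →+* Qb) x) ((σ : Qb →+* Qb) y),
        Point.map (W' := P.freyCurve) σ.toAlgHom (Point.some x y h) =
          Point.some ((σ : Qb →+* Qb) x) ((σ : Qb →+* Qb) y) h' := by
    intro x y h
    exact ⟨_, Point.map_some (W' := P.freyCurve) σ.toAlgHom h⟩
  obtain ⟨s, hs⟩ := IsAlgClosed.exists_pow_nat_eq (fB P - fA P) (n := 2) (by norm_num)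
  have h0 : A.valuation (0 : Qb) ≤ 1 := by rw [_root_.map_zero]; exact zero_le_one
  exact (freyNode P hA s hs).unipotent hW h0 (σ := (σ : Qb →+* Qb)) hres
    (_root_.map_zero _) (_root_.map_zero _) (sigma_frey_a₄ P σ) _ hτ P.hp_odd hC1 pt hP

end Fermat.Agent.S13.H365

end
-- ===== PACK-END S13/H365/FreyTwo.lean

-- ===== PACK-BEGIN S31/H22/FinalS30.lean
section



/-!
# S31 from S30 alone (row-lead helper22)

`result_of_S30 : S30Statement → <frozen S31>`.  All other inputs are on main: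
CHEB Tier 1 (`Lib.Cheb.H943`), S22, SS (`H862.heckeAlgebra_isReduced`, Petersson),
A (`H202.trace_criterion`), D (`H262.pts_of_reduced`), B/C/E (`H22`).
-/

set_option autoImplicit false

namespace Fermat.Agent.S31.H22

open Fermat.Agent.S31

theorem ssStatement : SSStatement :=
  fun N _ S hNS => Fermat.Agent.S31.H862.heckeAlgebra_isReduced N S hNS

section

variable {p : ℕ} {N : ℕ} [NeZero N] {S : Finset ℕ}
  {𝒪 : Type} [CommRing 𝒪] [IsDomain 𝒪] [IsDiscreteValuationRing 𝒪]
  [IsAdicComplete (IsLocalRing.maximalIdeal 𝒪) 𝒪]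
  {θ : CuspForm.heckeAlgebra N 2 (↑S : Set ℕ) →+* IsLocalRing.ResidueField 𝒪}
  {T : Type} [CommRing T] [IsLocalRing T] [IsNoetherianRing T]
  [IsAdicComplete (IsLocalRing.maximalIdeal T) T] [Algebra 𝒪 T] [IsLocalHom (algebraMap 𝒪 T)]
  [Module.Finite 𝒪 T] [Module.Free 𝒪 T]

/-- **S31 from S30.** -/
theorem result_of_S30 (h30 : S30Statement) (hp : p.Prime)
    (hp𝒪 : (p : 𝒪) ∈ IsLocalRing.maximalIdeal 𝒪) (hpS : p ∈ S)
    (hNS : ∀ q : ℕ, q.Prime → q ∣ N → q ∈ S)
    (H : CuspForm.HeckeGaloisRepDatum N (↑S : Set ℕ) 𝒪 θ T)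
    (q : ℕ) (hq : q.Prime) (hqS : q ∉ S) :
    H.ρ.IsUnramifiedAt q :=
  result_of_S30_SS h30 ssStatement hp hp𝒪 hpS hNS H q hq hqS

end

end Fermat.Agent.S31.H22

end
-- ===== PACK-END S31/H22/FinalS30.lean

-- ===== PACK-BEGIN S59/MFree/H761/FreeAbs.lean
section





/-!
# S59 / M-FREE, assembly ASM1 (helper761): `FreeAbsOfLeavesStatement`

`freeAbs_of_leaves : KerCor → CorSurj → ResCor → CorRes → CorConj → NormCriterion → FreeAbsStatement`.
-/

set_option autoImplicit false

namespace Fermat.Agent.S59.MFree.H761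

open CongruenceSubgroup Matrix.SpecialLinearGroup ModularGroup
open Fermat.Agent.S41.Spec Fermat.Agent.S59.MFree
open scoped MatrixGroups

universe u

/-! ## Generalities on `Hom(G, O)` -/

section Hom

variable {O : Type*} [CommRing O]

/-- Homomorphisms to a domain of characteristic zero vanish on the elements of finite order. -/
theorem isTorsionTrivial_of_charZero [IsDomain O] [CharZero O] {G : Type*} [Group G]
    (φ : Additive G →+ O) : IsTorsionTrivial φ := by
  intro γ hγ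
  obtain ⟨n, hn, hn'⟩ := isOfFinOrder_iff_pow_eq_one.mp hγ
  have h1 : n • φ (Additive.ofMul γ) = 0 := by
    rw [← map_nsmul, ← ofMul_pow, hn', ofMul_one, map_zero]
  rw [nsmul_eq_mul] at h1
  rcases mul_eq_zero.mp h1 with h | h
  · exact absurd (Nat.cast_eq_zero.mp h) hn.ne'
  · exact h

theorem eq_zero_of_nsmul_eq_zero [IsDomain O] [CharZero O] {G : Type*} [Group G] {n : ℕ}
    (hn : n ≠ 0) {φ : Additive G →+ O} (h : n • φ = 0) : φ = 0 := by
  refine AddMonoidHom.ext fun g => ?_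
  have h1 : n • φ g = 0 := by
    rw [← AddMonoidHom.smul_apply, h]
    rfl
  rw [nsmul_eq_mul] at h1
  rcases mul_eq_zero.mp h1 with h | h
  · exact absurd (Nat.cast_eq_zero.mp h) hn
  · exact h

/-- A module which embeds into a finite power of a PID is finite and free. -/
theorem finite_free_of_injective [IsDomain O] [IsPrincipalIdealRing O] {V ι : Type*} [Finite ι]
    [AddCommGroup V] [Module O V] (f : V →ₗ[O] (ι → O)) (hf : Function.Injective f) :
    Module.Finite O V ∧ Module.Free O V := by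
  let eqv : V ≃ₗ[O] LinearMap.range f := LinearEquiv.ofInjective f hf
  have h1 : Module.Finite O (LinearMap.range f) := inferInstance
  have h2 : Module.Free O (LinearMap.range f) := inferInstance
  exact ⟨Module.Finite.equiv eqv.symm, Module.Free.of_equiv eqv.symm⟩

/-- Evaluation of homomorphisms on a set. -/
def evalOn {G : Type*} [Group G] (S : Set G) : (Additive G →+ O) →ₗ[O] (S → O) where
  toFun φ := fun s => φ (Additive.ofMul (s : G))
  map_add' _ _ := rfl
  map_smul' _ _ := rfl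

theorem evalOn_injective {G : Type*} [Group G] (S : Set G) (hS : Subgroup.closure S = ⊤) :
    Function.Injective (evalOn (O := O) S) := by
  intro φ ψ h
  refine AddMonoidHom.ext fun g' => ?_
  obtain ⟨g, rfl⟩ : ∃ g : G, Additive.ofMul g = g' := ⟨Additive.toMul g', rfl⟩
  have hg : g ∈ Subgroup.closure S := by rw [hS]; trivial
  induction hg using Subgroup.closure_induction with
  | mem x hx => exact congrFun h ⟨x, hx⟩
  | one => rw [ofMul_one, map_zero, map_zero]
  | mul x y _ _ hx hy => rw [ofMul_mul, map_add, map_add, hx, hy]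
  | inv x _ hx => rw [ofMul_inv, map_neg, map_neg, hx]

theorem fg_SL2Z_h761 : Group.FG SL(2, ℤ) :=
  Group.fg_iff.mpr ⟨{S, T}, _root_.SpecialLinearGroup.SL2Z_generators, Set.toFinite _⟩

/-- Submodules of `Hom(Γ', O)` are finite free, `Γ'` of finite index in `SL(2,ℤ)`, `O` a PID. -/
theorem finite_free_submodule [IsDomain O] [IsPrincipalIdealRing O] (Γ' : Subgroup SL(2, ℤ))
    [Γ'.FiniteIndex] (V : Submodule O (Additive Γ' →+ O)) :
    Module.Finite O V ∧ Module.Free O V := by
  have := fg_SL2Z_h761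
  have : Group.FG Γ' := Subgroup.fg_of_index_ne_zero Γ'
  obtain ⟨S, hS, hfin⟩ := Group.fg_iff.mp this
  have : Finite S := hfin
  refine finite_free_of_injective (V := V) (ι := S) ((evalOn (O := O) S).comp V.subtype) ?_
  exact (evalOn_injective S hS).comp Subtype.val_injective

end Hom

/-! ## The diamond operators as linear maps -/

section Lin

variable {Γ : Subgroup SL(2, ℤ)} {D : Type*} [Group D] (κ : Γ →* D) {O : Type*} [CommRing O]

/-- `conjAct κ g` as an `O`-linear map. -/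
def conjL (g : Γ) : (Additive (kerSub κ) →+ O) →ₗ[O] (Additive (kerSub κ) →+ O) where
  toFun := conjAct κ g
  map_add' _ _ := rfl
  map_smul' _ _ := rfl

@[simp] theorem conjL_apply (g : Γ) (x : Additive (kerSub κ) →+ O) : conjL κ g x = conjAct κ g x := rfl

theorem conjAct_mul {A : Type*} [AddCommGroup A] (g g' : Γ) (x : Additive (kerSub κ) →+ A) :
    conjAct κ (g * g') x = conjAct κ g (conjAct κ g' x) := by
  refine AddMonoidHom.ext fun h' => ?_
  obtain ⟨h, rfl⟩ : ∃ h : kerSub κ, Additive.ofMul h = h' := ⟨Additive.toMul h', rfl⟩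
  rw [conjAct_apply, conjAct_apply, conjAct_apply]
  have e1 : conjKer κ (g * g') h = conjKer κ g' (conjKer κ g h) :=
    Subtype.ext (by simp only [conjKer_coe, Subgroup.coe_mul, mul_inv_rev, mul_assoc])
  rw [e1]

theorem conjAct_one {A : Type*} [AddCommGroup A] (x : Additive (kerSub κ) →+ A) :
    conjAct κ 1 x = x := by
  refine AddMonoidHom.ext fun h' => ?_
  obtain ⟨h, rfl⟩ : ∃ h : kerSub κ, Additive.ofMul h = h' := ⟨Additive.toMul h', rfl⟩
  rw [conjAct_apply]
  have e1 : conjKer κ 1 h = h :=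
    Subtype.ext (by simp only [conjKer_coe, Subgroup.coe_one, inv_one, one_mul, mul_one])
  rw [e1]

theorem res_nsmul {A : Type*} [AddCommGroup A] (n : ℕ) (y : Additive Γ →+ A) :
    res κ (n • y) = n • res κ y := rfl

end Lin

/-! ## Assembly -/

section Asm

variable {Γ : Subgroup SL(2, ℤ)} {D : Type} [Group D] [Fintype D] (κ : Γ →* D)
variable {O : Type u} [CommRing O]

/-- The span of the `g • y - y`, `y ∈ e H`. -/
def augSpan (e : (Additive (kerSub κ) →+ O) →ₗ[O] (Additive (kerSub κ) →+ O)) :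
    Submodule O (Additive (kerSub κ) →+ O) :=
  Submodule.span O {w | ∃ (g : Γ) (y : Additive (kerSub κ) →+ O), e y = y ∧ w = conjAct κ g y - y}

omit [Fintype D] in
theorem e_mem_augSpan (e : (Additive (kerSub κ) →+ O) →ₗ[O] (Additive (kerSub κ) →+ O))
    (he : ∀ x, e (e x) = e x) (hec : ∀ (g : Γ) x, e (conjAct κ g x) = conjAct κ g (e x))
    {w : Additive (kerSub κ) →+ O} (hw : w ∈ augSub κ O) : e w ∈ augSpan κ e := by
  unfold augSub at hw
  induction hw using AddSubgroup.closure_induction with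
  | mem x hx =>
    obtain ⟨g, y, -, rfl⟩ := hx
    rw [map_sub, hec]
    exact Submodule.subset_span ⟨g, e y, he y, rfl⟩
  | zero => rw [map_zero]; exact Submodule.zero_mem _
  | add x y _ _ hx hy => rw [map_add]; exact Submodule.add_mem _ hx hy
  | neg x _ hx => rw [map_neg]; exact Submodule.neg_mem _ hx

end Asm

/-- **ASM1.** -/
theorem freeAbs_of_leaves : FreeAbsOfLeavesStatement.{u} := by
  intro hA hB hN1 hN2 _hN3 hE p _ Γ _ D _ _ κ hκ hcard hneg hell O _ _ _ _ hp e t c he het hec htc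
    hEis hsurj hinj
  classical
  have hfi := finiteIndex_kerSub κ
  choose s hs using hκ
  have hκsurj : Function.Surjective κ := fun d => ⟨s d, hs d⟩
  have hcardne : Fintype.card D ≠ 0 := Fintype.card_ne_zero
  -- conjugation by `g` is conjugation by `s (κ g)`
  have hcongr : ∀ (g : Γ) (x : Additive (kerSub κ) →+ O), conjAct κ (s (κ g)) x = conjAct κ g x :=
    fun g x => H57.conjAct_congr57 κ x (hs (κ g)).symm
  -- the norm
  let N : (Additive (kerSub κ) →+ O) →ₗ[O] (Additive (kerSub κ) →+ O) := ∑ d, conjL κ (s d)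
  have hN : ∀ x, N x = ∑ d, conjAct κ (s d) x := by
    intro x
    show (∑ d, conjL κ (s d)) x = _
    rw [LinearMap.sum_apply]
    rfl
  have hNres : ∀ x, res κ (cor κ x) = N x := fun x => by rw [hN]; exact hN1 Γ D κ s hs O x
  have hcor0 : cor κ (0 : Additive (kerSub κ) →+ O) = 0 := by
    have := hN2 Γ D κ hκsurj O (0 : Additive Γ →+ O)
    rw [smul_zero] at this
    exact this
  have hresinj : ∀ y : Additive Γ →+ O, res κ y = 0 → y = 0 := by
    intro y hy
    have h1 := hN2 Γ D κ hκsurj O y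
    rw [hy, hcor0] at h1
    exact eq_zero_of_nsmul_eq_zero hcardne h1.symm
  have heN : ∀ x, e (N x) = N (e x) := by
    intro x
    rw [hN, hN, map_sum]
    exact Finset.sum_congr rfl fun d _ => hec _ _
  have htN : ∀ x, t (N x) = N (t x) := by
    intro x
    rw [hN, hN, map_sum]
    exact Finset.sum_congr rfl fun d _ => htc _ _
  -- control
  have hctrl : ∀ x, e x = x → cor κ x = 0 → x ∈ augSpan κ e := by
    intro x hx hcx
    have h1 := hA Γ D κ hneg hell O x (isTorsionTrivial_of_charZero x) hcx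
    have h2 := e_mem_augSpan κ e he hec h1
    rwa [hx] at h2
  have hcorsurj : ∀ y : Additive Γ →+ O, ∃ x : Additive (kerSub κ) →+ O, cor κ x = y := by
    intro y
    obtain ⟨x, -, hx⟩ := hB Γ D κ hneg O y (isTorsionTrivial_of_charZero y)
    exact ⟨x, hx⟩
  refine ⟨?_, hctrl, hcorsurj⟩
  -- the module `V = e H` and the representation of `D`
  let V : Submodule O (Additive (kerSub κ) →+ O) := LinearMap.range e
  have hVmem : ∀ x, x ∈ V ↔ e x = x := by
    intro x
    constructor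
    · rintro ⟨y, rfl⟩
      exact he y
    · intro h
      exact ⟨x, h⟩
  have hVstab : ∀ (g : Γ), ∀ x ∈ V, conjL κ g x ∈ V := by
    intro g x hx
    rw [hVmem] at hx ⊢
    rw [conjL_apply, hec, hx]
  obtain ⟨hfin, hfree⟩ := finite_free_submodule (O := O) (kerSub κ) V
  let ρ : Representation O D V :=
    { toFun := fun d => (conjL κ (s d)).restrict (hVstab (s d))
      map_one' := by
        apply LinearMap.ext
        intro x
        apply Subtype.ext
        show conjAct κ (s 1) (x : Additive (kerSub κ) →+ O) = x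
        have h1 : κ (s 1) = κ (1 : Γ) := by rw [hs, map_one]
        rw [H57.conjAct_congr57 κ _ h1.symm, conjAct_one]
      map_mul' := by
        intro d d'
        apply LinearMap.ext
        intro x
        apply Subtype.ext
        show conjAct κ (s (d * d')) (x : Additive (kerSub κ) →+ O) =
          conjAct κ (s d) (conjAct κ (s d') (x : Additive (kerSub κ) →+ O))
        have h1 : κ (s (d * d')) = κ (s d * s d') := by rw [hs, map_mul, hs, hs]
        rw [H57.conjAct_congr57 κ _ h1.symm, conjAct_mul] }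
  have hρ : ∀ (d : D) (x : V), ((ρ d x : V) : Additive (kerSub κ) →+ O) = conjAct κ (s d) x :=
    fun _ _ => rfl
  have hsumρ : ∀ x : V, ((∑ d, ρ d x : V) : Additive (kerSub κ) →+ O) = N x := by
    intro x
    rw [hN]
    rw [AddSubmonoidClass.coe_finsetSum]
    rfl
  -- hypothesis (a) of the norm criterion
  have ha : ∀ x : V, (∀ d, ρ d x = x) → ∃ z, x = ∑ d, ρ d z := by
    intro x hx
    have hxe : e (x : Additive (kerSub κ) →+ O) = x := (hVmem _).mp x.2
    have hxinv : ∀ g : Γ, conjAct κ g (x : Additive (kerSub κ) →+ O) = x := by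
      intro g
      rw [← hcongr]
      exact congrArg Subtype.val (hx (κ g))
    obtain ⟨y, hy⟩ := hEis x hxinv
    set w : Additive (kerSub κ) →+ O := t x - c • (x : Additive (kerSub κ) →+ O) with hw
    have hwinv : ∀ g : Γ, conjAct κ g w = w := by
      intro g
      have : conjAct κ g w = conjL κ g w := rfl
      rw [this, hw, map_sub, map_smul, conjL_apply, conjL_apply, ← htc, hxinv]
    have h1 : res κ (cor κ w) = Fintype.card D • w := by
      rw [hNres, hN, Finset.sum_congr rfl fun d _ => hwinv (s d), Finset.sum_const,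
        Finset.card_univ]
    have h2 : Fintype.card D • (w - res κ y) = 0 := by
      rw [smul_sub, ← h1, hy, res_nsmul, sub_self]
    have h3 : w = res κ y := sub_eq_zero.mp (eq_zero_of_nsmul_eq_zero hcardne h2)
    obtain ⟨z, hz⟩ := hcorsurj y
    have h4 : w = N (e z) := by
      have h5 : e w = w := by
        rw [hw, map_sub, map_smul, het, hxe]
      rw [← h5, h3, ← hz, hNres, heN]
    obtain ⟨z', hz'e, hz'⟩ := hsurj (e z) (he z)
    have h6 : t (x - N z') - c • ((x : Additive (kerSub κ) →+ O) - N z') = 0 := by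
      have : t (N z') - c • N z' = N (e z) := by
        rw [htN, ← map_smul, ← map_sub, hz']
      rw [map_sub, smul_sub]
      have h7 : t (x : Additive (kerSub κ) →+ O) - c • (x : Additive (kerSub κ) →+ O) = N (e z) := h4
      rw [show t (x : Additive (kerSub κ) →+ O) - t (N z') -
        (c • (x : Additive (kerSub κ) →+ O) - c • N z') =
        (t (x : Additive (kerSub κ) →+ O) - c • (x : Additive (kerSub κ) →+ O)) -
          (t (N z') - c • N z') by abel, h7, this, sub_self]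
    have h8 : e ((x : Additive (kerSub κ) →+ O) - N z') = x - N z' := by
      rw [map_sub, hxe, heN, hz'e]
    have h9 := hinj _ h8 h6
    refine ⟨⟨z', (hVmem _).mpr hz'e⟩, ?_⟩
    apply Subtype.ext
    rw [hsumρ]
    exact sub_eq_zero.mp h9
  -- hypothesis (b) of the norm criterion
  have hb : ∀ x : V, ∑ d, ρ d x = 0 → x ∈ Submodule.span O {w : V | ∃ d y, w = ρ d y - y} := by
    intro x hx
    have hxe : e (x : Additive (kerSub κ) →+ O) = x := (hVmem _).mp x.2
    have h1 : N (x : Additive (kerSub κ) →+ O) = 0 := by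
      rw [← hsumρ, hx]
      rfl
    have h2 : cor κ (x : Additive (kerSub κ) →+ O) = 0 := hresinj _ (by rw [hNres, h1])
    have h3 := hctrl x hxe h2
    -- transfer to `V`
    have h4 : augSpan κ e ≤ (Submodule.span O {w : V | ∃ d y, w = ρ d y - y}).map V.subtype := by
      unfold augSpan
      rw [Submodule.span_le]
      rintro _ ⟨g, y, hy, rfl⟩
      refine ⟨ρ (κ g) ⟨y, (hVmem _).mpr hy⟩ - ⟨y, (hVmem _).mpr hy⟩,
        Submodule.subset_span ⟨κ g, ⟨y, (hVmem _).mpr hy⟩, rfl⟩, ?_⟩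
      show conjAct κ (s (κ g)) y - y = conjAct κ g y - y
      rw [hcongr]
    obtain ⟨v, hv, hvx⟩ := h4 h3
    have : v = x := Subtype.ext hvx
    rwa [this] at hv
  obtain ⟨n, b, hli, hspan⟩ := hE p O hp D hcard V ρ ha hb
  refine ⟨n, fun i => (b i : Additive (kerSub κ) →+ O), fun i => (hVmem _).mp (b i).2, ?_⟩
  intro s' hs'
  have hfam : (fun z : D × Fin n => conjAct κ (s' z.1) (b z.2 : Additive (kerSub κ) →+ O)) =
      fun z : D × Fin n => V.subtype (ρ z.1 (b z.2)) := by
    funext z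
    show _ = conjAct κ (s z.1) (b z.2 : Additive (kerSub κ) →+ O)
    exact H57.conjAct_congr57 κ _ (by rw [hs, hs'])
  rw [hfam]
  refine ⟨hli.map' V.subtype (Submodule.ker_subtype V), ?_⟩
  intro x hx
  have h1 : (⟨x, (hVmem x).mpr hx⟩ : V) ∈
      Submodule.span O (Set.range fun z : D × Fin n => ρ z.1 (b z.2)) := by
    rw [hspan]
    trivial
  have h2 := Submodule.mem_map_of_mem (f := V.subtype) h1
  rw [Submodule.map_span, ← Set.range_comp] at h2
  exact h2

end Fermat.Agent.S59.MFree.H761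

end
-- ===== PACK-END S59/MFree/H761/FreeAbs.lean

-- ===== PACK-BEGIN S59/H950/NEPrimeK.lean
section








/-!
# S59 / cell NM / leaf IHARA2, arithmetic input NE' for `(k, ρ̄)` (helper950)

`nePrimeK` is, verbatim, the body of `Fermat.Agent.S59.H62.NEPrimeKStatement`
(`S59/H62/Ihara2Spec.lean`, helper62): for an absolutely irreducible `ρ̄ : G_ℚ → GL₂(k)`, `k` a
finite field of odd characteristic `p`, with Frobenius traces `a l` off `S ∋ p`, and a prime `q`:
for every `m ≥ 1` and every finite set `S'` there is a prime `l ∉ S ∪ S'`, `l ≡ 1 mod m`,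
`l ≡ 1 mod p`, with `a l ≠ l + 1` in `k` and `q` not a `p`-th power modulo `l`.

Proof: port of `Fermat.Agent.S41.H45.neKummer_h45` (S41 block NE') with `E[p]` replaced by `ρ̄`:
Frobenius division (`Lib.Cheb.frobeniusDivision`) on the compositum of the level of `ρ̄`,
`ℚ(ζ_{mp})` and `ℚ(β)`, `β ^ p = q ^ 2`; Cayley–Hamilton on the characteristic polynomials of
Frobenius elements; the trace trick `H45.unipotent_of_three_h45`; the abstract stable line lemma
`H701.exists_stable_line_of_eisenstein_h701`.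
-/

set_option autoImplicit false

open Polynomial
open scoped TensorProduct

namespace Fermat.Agent.S59.H950

open Fermat.Agent.S41.H45

section Aux

variable {k : Type} [Field k]

/-- Cayley–Hamilton: an endomorphism with characteristic polynomial `X² - a X + l` satisfies
`T² - a T + l = 0`. -/
theorem rel_of_charpoly_h950 {V : Type} [AddCommGroup V] [Module k V] [Module.Finite k V]
    (T : Module.End k V) (a l : k)
    (h : LinearMap.charpoly T = X ^ 2 - C a * X + C l) :
    T * T - a • T + l • (1 : Module.End k V) = 0 := by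
  have h1 := LinearMap.aeval_self_charpoly T
  rw [h] at h1
  simp only [map_add, map_sub, map_mul, map_pow, aeval_X, aeval_C] at h1
  rw [← h1, pow_two, Algebra.algebraMap_eq_smul_one, Algebra.algebraMap_eq_smul_one,
    smul_mul_assoc, one_mul]

/-- An absolutely irreducible `ρ̄` has no stable proper nonzero subspace over `k`. -/
theorem not_stable_of_absIrr_h950 (ρbar : ResidualGaloisRep k)
    (habs : ρbar.IsAbsolutelyIrreducible) (L : Submodule k ρbar.V) (hbot : L ≠ ⊥) (htop : L ≠ ⊤)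
    (hstab : ∀ σ : AlgebraicClosure ℚ ≃ₐ[ℚ] AlgebraicClosure ℚ, ∀ v ∈ L, ρbar.ρ σ v ∈ L) :
    False := by
  obtain ⟨w, hwL, hw⟩ := Submodule.exists_mem_ne_zero_of_ne_bot hbot
  have hlt : Module.finrank k L < Module.finrank k ρbar.V := Submodule.finrank_lt htop
  rw [ρbar.finrank_eq] at hlt
  have hpos : 0 < Module.finrank k L := by
    rw [Module.finrank_pos_iff_exists_ne_zero]
    exact ⟨⟨w, hwL⟩, fun h => hw (congrArg Subtype.val h)⟩
  have hone : Module.finrank k L = 1 := by omega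
  have hw' : (⟨w, hwL⟩ : L) ≠ 0 := fun h => hw (congrArg Subtype.val h)
  have hspan := (finrank_eq_one_iff_of_nonzero' (⟨w, hwL⟩ : L) hw').mp hone
  have hline : ∀ σ : AlgebraicClosure ℚ ≃ₐ[ℚ] AlgebraicClosure ℚ, ∃ c : k,
      ρbar.ρ σ w = c • w := by
    intro σ
    obtain ⟨c, hc⟩ := hspan ⟨ρbar.ρ σ w, hstab σ w hwL⟩
    exact ⟨c, (congrArg Subtype.val hc).symm⟩
  let x : AlgebraicClosure k ⊗[k] ρbar.V := (1 : AlgebraicClosure k) ⊗ₜ[k] w
  have hx : x ≠ 0 := by
    intro h
    apply hw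
    have hinj := Module.Flat.tensorProduct_mk_injective k ρbar.V (AlgebraicClosure k)
    apply hinj
    rw [map_zero]
    exact h
  let W : Submodule (AlgebraicClosure k) (AlgebraicClosure k ⊗[k] ρbar.V) :=
    Submodule.span (AlgebraicClosure k) {x}
  have hWstab : ∀ σ : AlgebraicClosure ℚ ≃ₐ[ℚ] AlgebraicClosure ℚ, ∀ y ∈ W,
      (ρbar.baseChange (AlgebraicClosure k)).ρ σ y ∈ W := by
    intro σ y hy
    obtain ⟨b, rfl⟩ := Submodule.mem_span_singleton.1 hy
    obtain ⟨c, hc⟩ := hline σ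
    have e : (ρbar.baseChange (AlgebraicClosure k)).ρ σ x =
        (algebraMap k (AlgebraicClosure k) c) • x := by
      show (ρbar.ρ σ).baseChange (AlgebraicClosure k) ((1 : AlgebraicClosure k) ⊗ₜ[k] w) = _
      rw [LinearMap.baseChange_tmul, hc, TensorProduct.tmul_smul, algebraMap_smul]
    rw [map_smul, e]
    exact Submodule.smul_mem _ _ (Submodule.smul_mem _ _ (Submodule.mem_span_singleton_self x))
  rcases habs W hWstab with h | h
  · exact hx (Submodule.span_singleton_eq_bot.1 h)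
  · have h1 : Module.finrank (AlgebraicClosure k) W = 2 := by
      rw [h, finrank_top, Module.finrank_baseChange, ρbar.finrank_eq]
    have h2 : Module.finrank (AlgebraicClosure k) W = 1 := finrank_span_singleton hx
    omega

end Aux

section Chi

variable {M : ℕ} [NeZero M] {ζ : AlgebraicClosure ℚ} (hζ : IsPrimitiveRoot ζ M)

/-- An element of the kernel of `χ` fixes the `M`-th roots of unity. -/
theorem apply_root_of_chi_eq_one_h950 (s : AlgebraicClosure ℚ ≃ₐ[ℚ] AlgebraicClosure ℚ)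
    (hs : hζ.autToPow ℚ s = 1) (t : AlgebraicClosure ℚ) (ht : t ^ M = 1) : s t = t := by
  have hζs : s ζ = ζ := by
    have h := hζ.autToPow_spec ℚ s
    rw [hs, Units.val_one] at h
    rw [← h]
    rcases Nat.lt_or_ge 1 M with h1 | h1
    · have : Fact (1 < M) := ⟨h1⟩
      rw [ZMod.val_one, pow_one]
    · have hM : M = 1 := le_antisymm h1 (Nat.pos_of_ne_zero (NeZero.ne M))
      subst hM
      have := hζ.pow_eq_one
      rw [pow_one] at this
      rw [this, one_pow]
  obtain ⟨i, -, rfl⟩ := hζ.eq_pow_of_pow_eq_one ht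
  rw [map_pow, hζs]

/-- The Kummer character is multiplicative on the kernel of `χ`. -/
theorem kummer_mul_h950 {p : ℕ} (hpM : p ∣ M) (a : ℚ) (β : AlgebraicClosure ℚ) (hβ0 : β ≠ 0)
    (hβ : β ^ p = algebraMap ℚ (AlgebraicClosure ℚ) a)
    (s t : AlgebraicClosure ℚ ≃ₐ[ℚ] AlgebraicClosure ℚ) (hs : hζ.autToPow ℚ s = 1) :
    (s * t) β = (s β / β) * (t β / β) * β := by
  have hκ : (t β / β) ^ M = 1 := by
    obtain ⟨k, rfl⟩ := hpM
    rw [pow_mul, div_pow, ← map_pow, hβ, AlgEquiv.commutes, div_self, one_pow]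
    rw [← hβ]
    exact pow_ne_zero p hβ0
  have h1 := apply_root_of_chi_eq_one_h950 hζ s hs _ hκ
  have h2 : t β = (t β / β) * β := by field_simp
  rw [AlgEquiv.mul_apply, h2, map_mul, h1]
  field_simp

end Chi

/-- **NE' for `(k, ρ̄)`** — verbatim the body of `Fermat.Agent.S59.H62.NEPrimeKStatement`. -/
theorem nePrimeK
    (p : ℕ) [Fact p.Prime] (_hp2 : p ≠ 2) (k : Type) [Field k] [Finite k] [CharP k p]
    (ρbar : ResidualGaloisRep k) (_habs : ρbar.IsAbsolutelyIrreducible)
    (_hsplit : ∀ σ : AlgebraicClosure ℚ ≃ₐ[ℚ] AlgebraicClosure ℚ,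
      ∃ α β : k, LinearMap.charpoly (ρbar.ρ σ) = (X - C α) * (X - C β))
    (S : Finset ℕ) (_hpS : p ∈ S) (a : ℕ → k)
    (_ha : ∀ (l : ℕ), l.Prime → l ∉ S →
      ∀ B : ValuationSubring Fermat.Agent.S31.Qb, B.LiesOverPrime l →
        ∀ σ : Fermat.Agent.S31.GQ, B.IsFrobeniusAt σ l →
          LinearMap.charpoly (ρbar.ρ σ) = X ^ 2 - C (a l) * X + C ((l : k)))
    (q : ℕ) (_hq : q.Prime) (_hqp : q ≠ p) (m : ℕ) (_hm : 0 < m) (S' : Finset ℕ) :
    ∃ l : ℕ, l.Prime ∧ l ∉ S ∧ l ∉ S' ∧ l ≡ 1 [MOD m] ∧ l ≡ 1 [MOD p] ∧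
      a l ≠ (l : k) + 1 ∧ ¬ (q ^ ((l - 1) / p) ≡ 1 [MOD l]) := by
  by_contra hcon
  classical
  have hp : p.Prime := Fact.out
  have hcon' : ∀ ℓ : ℕ, ℓ.Prime → ℓ ∉ S → ℓ ∉ S' → ℓ ≡ 1 [MOD m] → ℓ ≡ 1 [MOD p] →
      ¬ (q ^ ((ℓ - 1) / p) ≡ 1 [MOD ℓ]) → a ℓ = (ℓ : k) + 1 := by
    intro ℓ h1 h2 h3 h4 h5 h6
    by_contra h7
    exact hcon ⟨ℓ, h1, h2, h3, h4, h5, h7, h6⟩
  have hMpos : 0 < m * p := Nat.mul_pos _hm hp.pos
  have : NeZero (m * p) := ⟨hMpos.ne'⟩
  obtain ⟨ζ, hζ⟩ := HasEnoughRootsOfUnity.exists_primitiveRoot (AlgebraicClosure ℚ) (m * p)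
  obtain ⟨L₁, hL₁fin, hL₁⟩ := ρbar.factorsThroughFiniteLevel
  obtain ⟨L₂, hL₂fin, hL₂⟩ := rootField_h45 (m * p) hMpos
  obtain ⟨β, σ₀, hβ, hs₁β⟩ := exists_commutator_moving_h45 hp _hp2 _hq
  set s₁ : AlgebraicClosure ℚ ≃ₐ[ℚ] AlgebraicClosure ℚ :=
    σ₀ * complexConjugation * σ₀⁻¹ * complexConjugation⁻¹ with hs₁
  have hq0 : (q : AlgebraicClosure ℚ) ≠ 0 := by exact_mod_cast _hq.ne_zero
  have hβ0 : β ≠ 0 := by
    rintro rfl
    rw [zero_pow hp.ne_zero] at hβ
    exact pow_ne_zero 2 hq0 hβ.symm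
  have hβ' : β ^ p = algebraMap ℚ (AlgebraicClosure ℚ) ((q : ℚ) ^ 2) := by
    rw [hβ, map_pow, map_natCast]
  have hL₃fin : FiniteDimensional ℚ
      ↥(IntermediateField.adjoin ℚ ({β} : Set (AlgebraicClosure ℚ))) :=
    IntermediateField.adjoin.finiteDimensional (isAlgebraic_Qb_h45.isAlgebraic β).isIntegral
  set L₃ := IntermediateField.adjoin ℚ ({β} : Set (AlgebraicClosure ℚ)) with hL₃
  have hβL₃ : β ∈ L₃ := IntermediateField.subset_adjoin ℚ _ (Set.mem_singleton β)
  have hpM : p ∣ m * p := Dvd.intro_left m rfl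
  have hL₁₂fin : FiniteDimensional ℚ ↥(L₁ ⊔ L₂) := IntermediateField.finiteDimensional_sup L₁ L₂
  have hLfin : FiniteDimensional ℚ ↥(L₁ ⊔ L₂ ⊔ L₃) :=
    IntermediateField.finiteDimensional_sup (L₁ ⊔ L₂) L₃
  have hL₁le : L₁ ≤ L₁ ⊔ L₂ ⊔ L₃ := le_sup_left.trans le_sup_left
  have hζL : ζ ∈ L₁ ⊔ L₂ ⊔ L₃ :=
    (le_sup_right.trans le_sup_left : L₂ ≤ L₁ ⊔ L₂ ⊔ L₃) (hL₂ ζ hζ.pow_eq_one)
  have hβL : β ∈ L₁ ⊔ L₂ ⊔ L₃ := (le_sup_right : L₃ ≤ L₁ ⊔ L₂ ⊔ L₃) hβL₃
  have h2 : (2 : k) ≠ 0 := by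
    intro h
    have h' : ((2 : ℕ) : k) = 0 := by exact_mod_cast h
    rw [CharP.cast_eq_zero_iff k p] at h'
    exact _hp2 ((Nat.prime_dvd_prime_iff_eq hp Nat.prime_two).mp h')
  have hdim : Module.finrank k ρbar.V = 2 := ρbar.finrank_eq
  -- `ρ̄` only depends on the restriction to `L₁`
  have hρL : ∀ σ τ : AlgebraicClosure ℚ ≃ₐ[ℚ] AlgebraicClosure ℚ,
      (∀ x ∈ L₁, τ x = σ x) → ρbar.ρ σ = ρbar.ρ τ := by
    intro σ τ hστ
    have h1 : ρbar.ρ (σ⁻¹ * τ) = 1 := by
      apply hL₁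
      intro x hx
      rw [AlgEquiv.mul_apply, hστ x hx]
      exact σ.symm_apply_apply x
    have h3 : τ = σ * (σ⁻¹ * τ) := by group
    rw [h3, map_mul, h1, mul_one]
  -- the reduction `(ℤ/mp)ˣ → kˣ`
  set ε : (ZMod (m * p))ˣ →* kˣ := Units.map (ZMod.castHom hpM k : ZMod (m * p) →* k) with hε
  have hεval : ∀ u : (ZMod (m * p))ˣ, ((ε u : kˣ) : k) = ZMod.castHom hpM k (u : ZMod (m * p)) := by
    intro u
    rfl
  -- the data of a Frobenius element attached to `σ`
  have hFrob : ∀ σ : AlgebraicClosure ℚ ≃ₐ[ℚ] AlgebraicClosure ℚ,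
      ∃ (ℓ : ℕ) (A : ValuationSubring (AlgebraicClosure ℚ))
        (τ : AlgebraicClosure ℚ ≃ₐ[ℚ] AlgebraicClosure ℚ) (i j : ℕ),
        ℓ.Prime ∧ ℓ ∉ S ∧ ℓ ∉ S' ∧ ℓ ≠ p ∧ ℓ ≠ q ∧
        A.LiesOverPrime ℓ ∧ A.IsFrobeniusAt τ ℓ ∧
        ((hζ.autToPow ℚ τ : (ZMod (m * p))ˣ) : ZMod (m * p)) = (ℓ : ZMod (m * p)) ∧
        ρbar.ρ σ = ρbar.ρ τ ^ j ∧ hζ.autToPow ℚ σ = hζ.autToPow ℚ τ ^ j ∧
        hζ.autToPow ℚ τ = hζ.autToPow ℚ σ ^ i ∧ (τ ^ j) β = σ β := by
    intro σ
    obtain ⟨ℓ, A, τ, i, j, hℓ, hℓS, hA, hτ, -, hi, hj⟩ :=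
      Fermat.Agent.Lib.Cheb.frobeniusDivision (L₁ ⊔ L₂ ⊔ L₃) hLfin σ
        (S ∪ S' ∪ {p} ∪ {q} ∪ (m * p).primeFactors)
    simp only [Finset.mem_union, Finset.mem_singleton, not_or] at hℓS
    obtain ⟨⟨⟨⟨hℓS, hℓS'⟩, hℓp⟩, hℓq⟩, hℓM⟩ := hℓS
    have hℓM' : ¬ ℓ ∣ m * p := by
      intro hdvd
      apply hℓM
      rw [Nat.mem_primeFactors]
      exact ⟨hℓ, hdvd, hMpos.ne'⟩
    refine ⟨ℓ, A, τ, i, j, hℓ, hℓS, hℓS', hℓp, hℓq, hA, hτ,
      chi_frob_h45 hζ hℓ hℓM' A τ hA hτ, ?_, ?_, ?_, hj β hβL⟩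
    · rw [← map_pow]
      exact hρL σ (τ ^ j) (fun x hx => hj x (hL₁le hx))
    · rw [← map_pow]
      exact chi_eq_of_apply_eq_h45 hζ σ (τ ^ j) (hj ζ hζL).symm
    · rw [← map_pow]
      exact chi_eq_of_apply_eq_h45 hζ τ (σ ^ i) (hi ζ hζL)
  -- the Frobenius relation
  have hrel : ∀ (ℓ : ℕ) (A : ValuationSubring (AlgebraicClosure ℚ))
      (τ : AlgebraicClosure ℚ ≃ₐ[ℚ] AlgebraicClosure ℚ), ℓ.Prime → ℓ ∉ S →
      A.LiesOverPrime ℓ → A.IsFrobeniusAt τ ℓ →
      ρbar.ρ τ * ρbar.ρ τ - a ℓ • ρbar.ρ τ + (ℓ : k) • (1 : Module.End k ρbar.V) = 0 :=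
    fun ℓ A τ hℓ hℓS hA hτ => rel_of_charpoly_h950 _ _ _ (_ha ℓ hℓ hℓS A hA τ hτ)
  -- elements of `ker χ` moving `β` are unipotent
  have hU : ∀ s : AlgebraicClosure ℚ ≃ₐ[ℚ] AlgebraicClosure ℚ, hζ.autToPow ℚ s = 1 → s β ≠ β →
      (ρbar.ρ s - 1) * (ρbar.ρ s - 1) = 0 := by
    intro s hs hsβ
    obtain ⟨ℓ, A, τ, i, j, hℓ, hℓS, hℓS', hℓp, hℓq, hA, hτ, hχτ, hρ, -, hχi, hjβ⟩ := hFrob s
    have hτ1 : hζ.autToPow ℚ τ = 1 := by rw [hχi, hs, one_pow]
    rw [hτ1, Units.val_one] at hχτ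
    have hmod : ℓ ≡ 1 [MOD m * p] := by
      rw [← ZMod.natCast_eq_natCast_iff, ← hχτ, Nat.cast_one]
    have hmodm : ℓ ≡ 1 [MOD m] := Nat.ModEq.of_mul_right p hmod
    have hmodp : ℓ ≡ 1 [MOD p] := Nat.ModEq.of_mul_left m hmod
    have hpℓ : p ∣ ℓ - 1 := (Nat.modEq_iff_dvd' hℓ.one_le).mp hmodp.symm
    have hτβ : τ β ≠ β := by
      intro h
      apply hsβ
      rw [← hjβ]
      clear hjβ hρ
      induction j with
      | zero => simp
      | succ n ih => rw [pow_succ, AlgEquiv.mul_apply, h, ih]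
    have hK := not_modEq_of_frob_h45 hp _hq hℓ hℓp hℓq hpℓ A τ hA hτ β hβ hτβ
    have haℓ := hcon' ℓ hℓ hℓS hℓS' hmodm hmodp hK
    have h3 : ((ℓ : ℕ) : k) = 1 := by
      have := (CharP.natCast_eq_natCast k p).mpr hmodp
      simpa using this
    have hr := hrel ℓ A τ hℓ hℓS hA hτ
    rw [haℓ, h3, one_smul] at hr
    have hτu : (ρbar.ρ τ - 1) * (ρbar.ρ τ - 1) = 0 := by
      rw [← hr, add_smul, one_smul]; noncomm_ring
    rw [hρ]
    exact Fermat.Agent.S41.H701.sq_zero_pow_sub_one_h701 _ hτu j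
  have hcc : hζ.autToPow ℚ complexConjugation = -1 := chi_complexConjugation_h45 hζ
  have hs₁χ : hζ.autToPow ℚ s₁ = 1 := by
    rw [hs₁, map_mul, map_mul, map_mul, map_inv, map_inv, hcc]
    simp
  -- all elements of `ker χ` are unipotent
  have hUall : ∀ σ : AlgebraicClosure ℚ ≃ₐ[ℚ] AlgebraicClosure ℚ, hζ.autToPow ℚ σ = 1 →
      (ρbar.ρ σ - 1) * (ρbar.ρ σ - 1) = 0 := by
    intro σ hσ
    by_cases hσβ : σ β = β
    · have hκ1 : s₁ β / β ≠ 1 := fun h => hs₁β ((div_eq_one_iff_eq hβ0).mp h)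
      have hκp : (s₁ β / β) ^ p = 1 := by
        rw [div_pow, ← map_pow, hβ', AlgEquiv.commutes, div_self]
        rw [← hβ']
        exact pow_ne_zero p hβ0
      have hκ2 : (s₁ β / β) ^ 2 ≠ 1 := by
        intro h
        obtain ⟨t, ht⟩ := (hp.eq_two_or_odd'.resolve_left _hp2)
        apply hκ1
        have : (s₁ β / β) ^ p = (s₁ β / β) := by
          rw [ht, pow_succ, pow_mul, h, one_pow, one_mul]
        rw [← this, hκp]
      have e1 : (σ * s₁) β = (s₁ β / β) * β := by
        rw [kummer_mul_h950 hζ hpM _ β hβ0 hβ' σ s₁ hσ, hσβ, div_self hβ0, one_mul]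
      have e2 : (s₁ * s₁) β = (s₁ β / β) ^ 2 * β := by
        rw [kummer_mul_h950 hζ hpM _ β hβ0 hβ' s₁ s₁ hs₁χ, sq]
      have e3 : (σ * (s₁ * s₁)) β = (s₁ β / β) ^ 2 * β := by
        rw [kummer_mul_h950 hζ hpM _ β hβ0 hβ' σ (s₁ * s₁) hσ, hσβ, div_self hβ0, one_mul, e2]
        field_simp
      have n1 : (σ * s₁) β ≠ β := by
        rw [e1]
        intro h
        apply hκ1
        field_simp at h ⊢
        exact h
      have n3 : (σ * (s₁ * s₁)) β ≠ β := by
        rw [e3]
        intro h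
        apply hκ2
        have h' : ((s₁ β / β) ^ 2 - 1) * β = 0 := by rw [sub_mul, h, one_mul, sub_self]
        rcases mul_eq_zero.mp h' with h'' | h''
        · exact sub_eq_zero.mp h''
        · exact absurd h'' hβ0
      have u1 := hU s₁ hs₁χ hs₁β
      have u2 := hU (σ * s₁) (by rw [map_mul, hσ, hs₁χ, one_mul]) n1
      have u3 := hU (σ * (s₁ * s₁)) (by rw [map_mul, map_mul, hσ, hs₁χ, one_mul, one_mul]) n3
      rw [map_mul] at u2
      rw [map_mul, map_mul] at u3
      exact unipotent_of_three_h45 hdim (ρbar.ρ σ) (ρbar.ρ s₁) u1 u2 u3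
    · exact hU σ hσ hσβ
  have hF : ∀ σ : AlgebraicClosure ℚ ≃ₐ[ℚ] AlgebraicClosure ℚ,
      ∃ (τ : AlgebraicClosure ℚ ≃ₐ[ℚ] AlgebraicClosure ℚ) (j : ℕ) (b : k),
        ρbar.ρ σ = ρbar.ρ τ ^ j ∧ hζ.autToPow ℚ σ = hζ.autToPow ℚ τ ^ j ∧
        (hζ.autToPow ℚ σ = 1 → hζ.autToPow ℚ τ = 1) ∧
        ρbar.ρ τ * ρbar.ρ τ - b • ρbar.ρ τ
          + ((ε (hζ.autToPow ℚ τ) : kˣ) : k) • (1 : Module.End k ρbar.V) = 0 ∧
        (hζ.autToPow ℚ τ = 1 → b = 2) := by
    intro σ
    by_cases hσ : hζ.autToPow ℚ σ = 1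
    · refine ⟨σ, 1, 2, (pow_one _).symm, (pow_one _).symm, fun h => h, ?_, fun _ => rfl⟩
      have hu := hUall σ hσ
      rw [hσ, map_one, Units.val_one, one_smul, two_smul, ← hu]
      noncomm_ring
    · obtain ⟨ℓ, A, τ, i, j, hℓ, hℓS, hℓS', hℓp, hℓq, hA, hτ, hχτ, hρ, hχj, -, -⟩ := hFrob σ
      refine ⟨τ, j, a ℓ, hρ, hχj, fun h => absurd h hσ, ?_, ?_⟩
      · have hc : ((ε (hζ.autToPow ℚ τ) : kˣ) : k) = (ℓ : k) := by
          rw [hεval, hχτ, map_natCast]
        rw [hc]
        exact hrel ℓ A τ hℓ hℓS hA hτ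
      · intro hτ1
        exfalso
        apply hσ
        rw [hχj, hτ1, one_pow]
  have hc2 : hζ.autToPow ℚ complexConjugation * hζ.autToPow ℚ complexConjugation = 1 := by
    rw [hcc]
    simp
  have hcε : ((ε (hζ.autToPow ℚ complexConjugation) : kˣ) : k) = -1 := by
    rw [hεval, hcc, Units.val_neg, Units.val_one, map_neg, map_one]
  obtain ⟨L, hLbot, hLtop, hLstab⟩ :=
    Fermat.Agent.S41.H701.exists_stable_line_of_eisenstein_h701 h2 hdim ρbar.ρ
      (hζ.autToPow ℚ) ε hF complexConjugation hc2 hcε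
  exact not_stable_of_absIrr_h950 ρbar _habs L hLbot hLtop hLstab

end Fermat.Agent.S59.H950

end
-- ===== PACK-END S59/H950/NEPrimeK.lean

-- ===== PACK-BEGIN A3/H619/HopfAlg.lean
section
/-
A3 / piece ORD (helper619): Hopf algebra structure on an order `H` satisfying `OrderHyp`,
cocommutativity.
-/


set_option autoImplicit false
set_option linter.unusedSectionVars false

noncomputable section

namespace Fermat.Agent.A3.H619

open GaloisRep TensorProduct Module

variable {p : ℕ} {T : Type} [AddCommGroup T] [Finite T]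
variable {H : Subalgebra (ratLocalizedAt p) (T → Qb)} {act : GQ → T → T}

namespace OrderHyp

variable (h : OrderHyp p T act H)
include h

theorem val_mul_rTensor (x : ↥H ⊗[ratLocalizedAt p] ↥H) (t : T) :
    ((LinearMap.mul' (ratLocalizedAt p) ↥H
        ((h.antipodeAlg.toLinearMap).rTensor ↥H x) : ↥H) : T → Qb) t
      = mu H x (-t, t) := by
  induction x using TensorProduct.induction_on with
  | zero => simp
  | tmul a b =>
    rw [LinearMap.rTensor_tmul, LinearMap.mul'_apply, mu_tmul]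
    rfl
  | add x y hx hy =>
    rw [map_add, map_add, map_add, Pi.add_apply]
    show ((_ : T → Qb) + _) t = _
    rw [Pi.add_apply, hx, hy]

theorem val_mul_lTensor (x : ↥H ⊗[ratLocalizedAt p] ↥H) (t : T) :
    ((LinearMap.mul' (ratLocalizedAt p) ↥H
        ((h.antipodeAlg.toLinearMap).lTensor ↥H x) : ↥H) : T → Qb) t
      = mu H x (t, -t) := by
  induction x using TensorProduct.induction_on with
  | zero => simp
  | tmul a b =>
    rw [LinearMap.lTensor_tmul, LinearMap.mul'_apply, mu_tmul]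
    rfl
  | add x y hx hy =>
    rw [map_add, map_add, map_add, Pi.add_apply]
    show ((_ : T → Qb) + _) t = _
    rw [Pi.add_apply, hx, hy]

/-- The Hopf algebra structure on `H`. -/
@[reducible]
def hopfAlgebra : HopfAlgebra (ratLocalizedAt p) ↥H :=
  letI := h.bialgebra
  { antipode := h.antipodeAlg.toLinearMap
    mul_antipode_rTensor_comul := by
      apply LinearMap.ext
      intro f
      apply Subtype.ext
      funext t
      simp only [LinearMap.comp_apply]
      erw [h.val_mul_rTensor (h.comulAlg f) t]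
      rw [h.mu_comulAlg_apply, neg_add_cancel]
      exact (h.algebraMap_counitAlg f).symm
    mul_antipode_lTensor_comul := by
      apply LinearMap.ext
      intro f
      apply Subtype.ext
      funext t
      simp only [LinearMap.comp_apply]
      erw [h.val_mul_lTensor (h.comulAlg f) t]
      rw [h.mu_comulAlg_apply, add_neg_cancel]
      exact (h.algebraMap_counitAlg f).symm }

theorem mu_comm (x : ↥H ⊗[ratLocalizedAt p] ↥H) (s t : T) :
    mu H (TensorProduct.comm (ratLocalizedAt p) ↥H ↥H x) (s, t) = mu H x (t, s) := by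
  induction x using TensorProduct.induction_on with
  | zero => simp
  | tmul a b =>
    rw [TensorProduct.comm_tmul, mu_tmul, mu_tmul, mul_comm]
  | add x y hx hy =>
    rw [map_add, map_add, map_add, Pi.add_apply, Pi.add_apply, hx, hy]

theorem isCocomm :
    letI := h.bialgebra
    Coalgebra.IsCocomm (ratLocalizedAt p) ↥H := by
  letI := h.bialgebra
  refine ⟨?_⟩
  apply LinearMap.ext
  intro f
  apply h.mu_injective
  funext ⟨s, t⟩
  rw [LinearMap.comp_apply]
  erw [h.mu_comm (h.comulAlg f) s t]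
  erw [h.mu_comulAlg_apply, h.mu_comulAlg_apply]
  rw [add_comm]

end OrderHyp

end Fermat.Agent.A3.H619

end
end
-- ===== PACK-END A3/H619/HopfAlg.lean

-- ===== PACK-BEGIN S37/H448/AscentMod.lean
section




/-!
# S37 / RED-E4(c) (helper448): (H3) over `A` from (H3) over `𝔽_ℓ` — modular instance

`A ⊆ ℚ̄` a valuation subring, `k = A/𝔪` (algebraically closed, algebraic over `𝔽_ℓ`),
`F₀ = modularFunctionFieldFullC (ZMod ℓ) N ⊆ 𝔽_ℓ((q))`, `F_k = modularFunctionFieldFullC k N`.

* `mem_fullC_decomp` : every `z ∈ F_k` is `∑ C (e i) * ι (w i)` with `w i ∈ F₀`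
  (`F_k = k · ι(F₀)`, because `k / 𝔽_ℓ` is algebraic).
* `lift_of_base` : for ANY coordinate `X₀ ∈ 𝔽_ℓ((q))`: if every `w ∈ F₀` integral over `𝔽_ℓ[X₀]`
  lifts to an `A`-integral series `y` (in `F̄_N`, integral over `A[X]`, where `X̄ = ι X₀`), then
  every `z ∈ F_k` integral over `k[ι X₀]` lifts as well.
* `lift_fin_of_base`, `lift_inf_of_base` : the two charts, in the language of `Core.IntElt`
  (`IsFin`, `IsInf`), i.e. `(H3)` = `Red.Datum.Good.lift_fin / lift_inf` over `A` from the same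
  statement for `w` defined over `𝔽_ℓ` — normality of the special fibre is needed only for the
  model over `ℤ_(ℓ)`.
* `isAlgebraic_residueField`, `lift_fin_of_base_liesOver`, `lift_inf_of_base_liesOver` :
  the instances for `A` over `ℓ`.
-/

set_option autoImplicit false
set_option linter.style.haveILetI false
set_option linter.unusedSimpArgs false
set_option synthInstance.maxHeartbeats 400000

noncomputable section

namespace Fermat.Agent.S37.H448

open HahnSeries ModularCurve Polynomial AlgebraicCurve Fermat.Agent.S37.Core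

section Decomp

variable {k₀ k : Type*} [Field k₀] [Field k] [Algebra k₀ k]

theorem algebraMap_laurent_eq_C (c : k₀) :
    algebraMap k₀ (LaurentSeries k) c = HahnSeries.C (algebraMap k₀ k c) := by
  rw [HahnSeries.algebraMap_apply']
  have h1 : algebraMap k₀ (PowerSeries k) c = PowerSeries.C (algebraMap k₀ k c) := by
    simp [PowerSeries.algebraMap_apply]
  rw [h1, HahnSeries.ofPowerSeries_C]

theorem isScalarTower_laurent :
    @IsScalarTower k₀ k (LaurentSeries k) Algebra.toSMul Algebra.toSMul Algebra.toSMul := by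
  refine IsScalarTower.of_algebraMap_eq (R := k₀) (S := k) (A := LaurentSeries k) fun c => ?_
  rw [algebraMap_laurent_eq_C (k₀ := k₀) (k := k), algebraMap_laurent_eq_C (k₀ := k) (k := k)]
  rfl

/-- the coefficientwise embedding as a `k₀`-algebra homomorphism -/
def iotaAlg (k₀ k : Type*) [Field k₀] [Field k] [Algebra k₀ k] :
    LaurentSeries k₀ →ₐ[k₀] LaurentSeries k where
  __ := coeffMap (algebraMap k₀ k)
  commutes' c := by
    show coeffMap (algebraMap k₀ k) (algebraMap k₀ (LaurentSeries k₀) c) =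
      algebraMap k₀ (LaurentSeries k) c
    rw [algebraMap_laurent_eq_C (k₀ := k₀) (k := k₀), algebraMap_laurent_eq_C (k₀ := k₀) (k := k),
      coeffMap_C']
    rfl

@[simp]
theorem iotaAlg_apply (x : LaurentSeries k₀) : iotaAlg k₀ k x = coeffMap (algebraMap k₀ k) x :=
  rfl

/-- `F_k = k · ι(F₀)` for `k / k₀` algebraic. -/
theorem mem_fullC_decomp [Algebra.IsAlgebraic k₀ k] (N : ℕ) [NeZero N]
    {z : LaurentSeries k} (hz : z ∈ modularFunctionFieldFullC k N) :
    ∃ (m : ℕ) (e : Fin m → k) (w : Fin m → LaurentSeries k₀),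
      (∀ i, w i ∈ modularFunctionFieldFullC k₀ N) ∧
      z = ∑ i, HahnSeries.C (e i) * coeffMap (algebraMap k₀ k) (w i) := by
  classical
  set L : IntermediateField k₀ (LaurentSeries k) :=
    (modularFunctionFieldFullC k₀ N).map (iotaAlg k₀ k) with hL
  have hle : modularFunctionFieldFullC k N ≤ IntermediateField.adjoin k (L : Set (LaurentSeries k)) := by
    rw [modularFunctionFieldFullC, IntermediateField.adjoin_le_iff]
    rintro x ⟨d, hne, hd, rfl⟩
    haveI := hne
    refine IntermediateField.subset_adjoin k _ ?_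
    refine ⟨qExpand k₀ d (jqModC k₀), jqModCd_mem_full k₀ N hd, ?_⟩
    show coeffMap (algebraMap k₀ k) (qExpand k₀ d (jqModC k₀)) = qExpand k d (jqModC k)
    rw [coeffMap_qExpand, coeffMap_jqModC]
  have hz1 : z ∈ (IntermediateField.adjoin k (L : Set (LaurentSeries k))).toSubalgebra := hle hz
  haveI := isScalarTower_laurent (k₀ := k₀) (k := k)
  rw [IntermediateField.adjoin_intermediateField_toSubalgebra_of_isAlgebraic_left] at hz1
  have hz2 := hz1
  rw [← Subalgebra.mem_toSubmodule, Algebra.adjoin_eq_span] at hz2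
  have hcl : (Submonoid.closure (L : Set (LaurentSeries k)) : Set (LaurentSeries k)) =
      (L : Set (LaurentSeries k)) := by
    have : Submonoid.closure (L : Set (LaurentSeries k)) = L.toSubalgebra.toSubmonoid :=
      Submonoid.closure_eq L.toSubalgebra.toSubmonoid
    rw [this]
    rfl
  rw [hcl] at hz2
  obtain ⟨m, f, g, hfg⟩ :=
    (@Submodule.mem_span_set' k (LaurentSeries k) _ _ Algebra.toModule z
      (L : Set (LaurentSeries k))).mp hz2
  have hg : ∀ i, ∃ w ∈ modularFunctionFieldFullC k₀ N,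
      coeffMap (algebraMap k₀ k) w = (g i : LaurentSeries k) := by
    intro i
    obtain ⟨w, hw, hwg⟩ := (g i).2
    exact ⟨w, hw, hwg⟩
  choose w hw hwg using hg
  refine ⟨m, f, w, hw, ?_⟩
  rw [← hfg]
  refine Finset.sum_congr rfl fun i _ => ?_
  rw [hwg i, Algebra.smul_def, algebraMap_laurent_eq_C (k₀ := k) (k := k)]
  rfl

end Decomp

section Lift

variable {N : ℕ} [NeZero N] {ℓ : ℕ} [Fact ℓ.Prime] (A : ValuationSubring (AlgebraicClosure ℚ))

/-- **Generic lifting statement** (any coordinate): if every `w ∈ F₀` integral over `𝔽_ℓ[X₀]`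
is the reduction of an `A`-integral series in `F̄_N` integral over `A[X]` (`X̄ = ι X₀`), then so is
every `z ∈ F_k` integral over `k[ι X₀]`. -/
theorem lift_of_base [IsAlgClosed (IsLocalRing.ResidueField A)]
    (φ : ZMod ℓ →+* IsLocalRing.ResidueField A) (hφ : φ.IsIntegral)
    (X₀ : LaurentSeries (ZMod ℓ)) (X : LaurentSeries A)
    (hbase : ∀ w : LaurentSeries (ZMod ℓ), w ∈ modularFunctionFieldFullC (ZMod ℓ) N →
      (evalSer (ZMod ℓ) X₀).IsIntegralElem w →
      ∃ y : LaurentSeries A, coeffMap A.subtype y ∈ modularFunctionFieldBar N ∧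
        (evalSer A X).IsIntegralElem y ∧ coeffMap (IsLocalRing.residue A) y = coeffMap φ w)
    {z : LaurentSeries (IsLocalRing.ResidueField A)}
    (hz : z ∈ modularFunctionFieldFullC (IsLocalRing.ResidueField A) N)
    (hint : (evalSer (IsLocalRing.ResidueField A) (coeffMap φ X₀)).IsIntegralElem z) :
    ∃ y : LaurentSeries A, coeffMap A.subtype y ∈ modularFunctionFieldBar N ∧
      (evalSer A X).IsIntegralElem y ∧ coeffMap (IsLocalRing.residue A) y = z := by
  classical
  letI : Algebra (ZMod ℓ) (IsLocalRing.ResidueField A) := φ.toAlgebra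
  haveI : Algebra.IsIntegral (ZMod ℓ) (IsLocalRing.ResidueField A) := ⟨hφ⟩
  haveI : Algebra.IsAlgebraic (ZMod ℓ) (IsLocalRing.ResidueField A) :=
    Algebra.IsIntegral.isAlgebraic
  have hφa : algebraMap (ZMod ℓ) (IsLocalRing.ResidueField A) = φ := rfl
  obtain ⟨m, e, w, hw, rfl⟩ := mem_fullC_decomp (k₀ := ZMod ℓ) N hz
  have hCmem : ∀ (c : ZMod ℓ) (x : LaurentSeries (ZMod ℓ)),
      x ∈ (modularFunctionFieldFullC (ZMod ℓ) N : Set (LaurentSeries (ZMod ℓ))) →
      HahnSeries.C c * x ∈ (modularFunctionFieldFullC (ZMod ℓ) N : Set (LaurentSeries (ZMod ℓ))) := by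
    intro c x hx
    refine mul_mem ?_ hx
    have h1 : (HahnSeries.C c : LaurentSeries (ZMod ℓ)) =
        algebraMap (ZMod ℓ) (LaurentSeries (ZMod ℓ)) c := by
      rw [algebraMap_laurentSeries_eq_single]
      rfl
    rw [h1]
    exact (modularFunctionFieldFullC (ZMod ℓ) N).algebraMap_mem _
  obtain ⟨n, e', w', hw', hint', hzz⟩ := exists_integral_decomp
    (modularFunctionFieldFullC (ZMod ℓ) N : Set (LaurentSeries (ZMod ℓ))) (zero_mem _)
    (fun x y hx hy => add_mem hx hy) hCmem X₀ e w hw hint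
  have hy : ∀ j, ∃ y : LaurentSeries A, coeffMap A.subtype y ∈ modularFunctionFieldBar N ∧
      (evalSer A X).IsIntegralElem y ∧ coeffMap (IsLocalRing.residue A) y = coeffMap φ (w' j) :=
    fun j => hbase (w' j) (hw' j) (hint' j)
  choose y hy1 hy2 hy3 using hy
  have ha : ∀ j, ∃ a : A, IsLocalRing.residue A a = e' j := fun j =>
    IsLocalRing.residue_surjective (e' j)
  choose a ha using ha
  refine ⟨∑ j, HahnSeries.C (a j) * y j, ?_, ?_, ?_⟩
  · rw [map_sum]
    refine sum_mem fun j _ => ?_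
    rw [map_mul, coeffMap_C']
    refine mul_mem ?_ (hy1 j)
    have h1 : (HahnSeries.C (A.subtype (a j)) : LaurentSeries (AlgebraicClosure ℚ)) =
        algebraMap (AlgebraicClosure ℚ) (LaurentSeries (AlgebraicClosure ℚ)) (a j : AlgebraicClosure ℚ) := by
      rw [algebraMap_laurentSeries_eq_single]
      rfl
    rw [h1]
    exact (modularFunctionFieldBar N).algebraMap_mem _
  · exact isIntegralElem_sum _ _ _ fun j _ =>
      RingHom.IsIntegralElem.mul _ (isIntegralElem_C _ _) (hy2 j)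
  · rw [hzz, map_sum]
    refine Finset.sum_congr rfl fun j _ => ?_
    rw [map_mul, coeffMap_C', ha j, hy3 j, hφa]

/-- **(H3), finite chart**: lifting of elements of `F_k` integral over `k[j̄]` to
`Core.IntElt A N` with `IsFin`, from the same statement for the elements defined over `𝔽_ℓ`. -/
theorem lift_fin_of_base [IsAlgClosed (IsLocalRing.ResidueField A)]
    (φ : ZMod ℓ →+* IsLocalRing.ResidueField A) (hφ : φ.IsIntegral)
    (hbase : ∀ w : LaurentSeries (ZMod ℓ), w ∈ modularFunctionFieldFullC (ZMod ℓ) N →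
      (evalSer (ZMod ℓ) (jqModC (ZMod ℓ))).IsIntegralElem w →
      ∃ c : IntElt A N, c.IsFin ∧ coeffMap (IsLocalRing.residue A) c.y = coeffMap φ w)
    {z : LaurentSeries (IsLocalRing.ResidueField A)}
    (hz : z ∈ modularFunctionFieldFullC (IsLocalRing.ResidueField A) N)
    (hint : (evalSer (IsLocalRing.ResidueField A)
      (jqModC (IsLocalRing.ResidueField A))).IsIntegralElem z) :
    ∃ c : IntElt A N, c.IsFin ∧ coeffMap (IsLocalRing.residue A) c.y = z := by
  have hint' : (evalSer (IsLocalRing.ResidueField A)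
      (coeffMap φ (jqModC (ZMod ℓ)))).IsIntegralElem z := by
    rwa [coeffMap_jqModC]
  obtain ⟨y, hy1, hy2, hy3⟩ := lift_of_base A φ hφ (jqModC (ZMod ℓ)) (jqModC A)
    (fun w hw hwi => by
      obtain ⟨c, hc, hcw⟩ := hbase w hw hwi
      exact ⟨c.y, c.mem, hc, hcw⟩) hz hint'
  exact ⟨⟨y, hy1, by rw [hy3]; exact hz⟩, hy2, hy3⟩

/-- **(H3), chart at infinity**: the same with `j⁻¹`. -/
theorem lift_inf_of_base [IsAlgClosed (IsLocalRing.ResidueField A)]
    (φ : ZMod ℓ →+* IsLocalRing.ResidueField A) (hφ : φ.IsIntegral)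
    (hbase : ∀ w : LaurentSeries (ZMod ℓ), w ∈ modularFunctionFieldFullC (ZMod ℓ) N →
      (evalSer (ZMod ℓ) (jqModC (ZMod ℓ))⁻¹).IsIntegralElem w →
      ∃ c : IntElt A N, c.IsInf ∧ coeffMap (IsLocalRing.residue A) c.y = coeffMap φ w)
    {z : LaurentSeries (IsLocalRing.ResidueField A)}
    (hz : z ∈ modularFunctionFieldFullC (IsLocalRing.ResidueField A) N)
    (hint : (evalSer (IsLocalRing.ResidueField A)
      (jqModC (IsLocalRing.ResidueField A))⁻¹).IsIntegralElem z) :
    ∃ c : IntElt A N, c.IsInf ∧ coeffMap (IsLocalRing.residue A) c.y = z := by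
  -- the inverse of `j` over `A`
  obtain ⟨c₀, ⟨u, hu, -⟩, -⟩ := hbase 0 (zero_mem _) (RingHom.isIntegralElem_zero _)
  have huniq : ∀ u' : LaurentSeries A, u' * jqModC A = 1 → u' = u := by
    intro u' hu'
    calc u' = u' * (u * jqModC A) := by rw [hu, mul_one]
      _ = (u' * jqModC A) * u := by ring
      _ = u := by rw [hu', one_mul]
  have hint' : (evalSer (IsLocalRing.ResidueField A)
      (coeffMap φ (jqModC (ZMod ℓ))⁻¹)).IsIntegralElem z := by
    rwa [map_inv₀, coeffMap_jqModC]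
  obtain ⟨y, hy1, hy2, hy3⟩ := lift_of_base A φ hφ (jqModC (ZMod ℓ))⁻¹ u
    (fun w hw hwi => by
      obtain ⟨c, ⟨u', hu', hc⟩, hcw⟩ := hbase w hw hwi
      rw [huniq u' hu'] at hc
      exact ⟨c.y, c.mem, hc, hcw⟩) hz hint'
  exact ⟨⟨y, hy1, by rw [hy3]; exact hz⟩, ⟨u, hu, hy2⟩, hy3⟩

end Lift

section Instances

variable {ℓ : ℕ} [Fact ℓ.Prime] (A : ValuationSubring (AlgebraicClosure ℚ))

/-- the residue field of a valuation subring of `ℚ̄` is algebraic over `𝔽_ℓ` (for any ring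
homomorphism `𝔽_ℓ → k`) -/
theorem isIntegral_residueField (φ : ZMod ℓ →+* IsLocalRing.ResidueField A) : φ.IsIntegral := by
  intro x
  obtain ⟨a, rfl⟩ := IsLocalRing.residue_surjective x
  -- an integer polynomial killing `a`
  have halg : IsAlgebraic ℤ (a : AlgebraicClosure ℚ) :=
    (IsFractionRing.isAlgebraic_iff ℤ ℚ (AlgebraicClosure ℚ)).mpr
      ((AlgebraicClosure.isAlgebraic ℚ).isAlgebraic (a : AlgebraicClosure ℚ))
  obtain ⟨P, hP0, hPa⟩ := halg
  -- its primitive part
  have hc0 : (P.content : AlgebraicClosure ℚ) ≠ 0 := by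
    have : P.content ≠ 0 := fun h => hP0 (Polynomial.content_eq_zero_iff.mp h)
    exact_mod_cast this
  have hPa1 : Polynomial.aeval (a : AlgebraicClosure ℚ) P.primPart = 0 := by
    have h1 := hPa
    rw [P.eq_C_content_mul_primPart, map_mul, Polynomial.aeval_C] at h1
    rcases mul_eq_zero.mp h1 with h2 | h2
    · exact absurd (by simpa using h2) hc0
    · exact h2
  have hprim : P.primPart.IsPrimitive := P.isPrimitive_primPart
  have hℓ : (ℓ : ℕ).Prime := Fact.out
  have hred : P.primPart.map (Int.castRingHom (ZMod ℓ)) ≠ 0 := by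
    intro h0
    have hdvd : Polynomial.C ((ℓ : ℕ) : ℤ) ∣ P.primPart := by
      rw [Polynomial.C_dvd_iff_dvd_coeff]
      intro n
      have := congrArg (fun q => q.coeff n) h0
      simp only [Polynomial.coeff_map, Polynomial.coeff_zero, eq_intCast] at this
      exact (ZMod.intCast_zmod_eq_zero_iff_dvd _ _).mp this
    have hu := hprim _ hdvd
    rw [Int.isUnit_iff] at hu
    rcases hu with h | h
    · have : (ℓ : ℤ) = 1 := h
      have : ℓ = 1 := by exact_mod_cast this
      exact hℓ.one_lt.ne' this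
    · have : (ℓ : ℤ) = -1 := h
      have h2 : (0 : ℤ) ≤ (ℓ : ℤ) := Int.natCast_nonneg ℓ
      omega
  -- evaluation in `A`
  have hA0 : Polynomial.eval₂ (Int.castRingHom A) a P.primPart = 0 := by
    apply Subtype.ext
    have h1 : ((Polynomial.eval₂ (Int.castRingHom A) a P.primPart : A) : AlgebraicClosure ℚ) =
        Polynomial.eval₂ (A.subtype.comp (Int.castRingHom A)) (A.subtype a) P.primPart :=
      Polynomial.hom_eval₂ P.primPart (Int.castRingHom A) A.subtype a
    rw [h1, ZeroMemClass.coe_zero, ← hPa1, Polynomial.aeval_def]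
    congr 1
  letI : Algebra (ZMod ℓ) (IsLocalRing.ResidueField A) := φ.toAlgebra
  have halg' : IsAlgebraic (ZMod ℓ) (IsLocalRing.residue A a) := by
    refine ⟨P.primPart.map (Int.castRingHom (ZMod ℓ)), hred, ?_⟩
    rw [Polynomial.aeval_def, Polynomial.eval₂_map]
    have h2 : (algebraMap (ZMod ℓ) (IsLocalRing.ResidueField A)).comp (Int.castRingHom (ZMod ℓ)) =
        (IsLocalRing.residue A).comp (Int.castRingHom A) := RingHom.ext_int _ _
    rw [h2, ← Polynomial.hom_eval₂, hA0, map_zero]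
  exact halg'.isIntegral

/-- the residue field of a valuation subring of `ℚ̄` over `ℓ` has characteristic `ℓ`
(copy of `charP_residueField_of_liesOverPrime`, to keep this file light) -/
theorem charP_resField (hA : A.LiesOverPrime ℓ) : CharP (IsLocalRing.ResidueField A) ℓ := by
  refine (CharP.charP_iff_prime_eq_zero (Fact.out : ℓ.Prime)).mpr ?_
  have h1 : ((ℓ : A) : AlgebraicClosure ℚ) ∈ A.nonunits := by
    have : ((ℓ : A) : AlgebraicClosure ℚ) = (ℓ : AlgebraicClosure ℚ) := by push_cast; rfl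
    rw [this]; exact hA
  have h2 : (ℓ : A) ∈ IsLocalRing.maximalIdeal A := ValuationSubring.coe_mem_nonunits_iff.mp h1
  have h3 := (IsLocalRing.residue_eq_zero_iff (ℓ : A)).mpr h2
  rwa [map_natCast] at h3

/-- there is a ring homomorphism `𝔽_ℓ → k` -/
theorem exists_zmod_hom (hA : A.LiesOverPrime ℓ) :
    Nonempty (ZMod ℓ →+* IsLocalRing.ResidueField A) := by
  haveI := charP_resField A hA
  exact ⟨ZMod.castHom (dvd_refl ℓ) (IsLocalRing.ResidueField A)⟩

variable {N : ℕ} [NeZero N]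

/-- **(H3) over `A` from (H3) over `𝔽_ℓ`, finite chart**, `A` over `ℓ`.  (`c.sp` form.) -/
theorem lift_fin_of_base_liesOver (hA : A.LiesOverPrime ℓ)
    (hbase : ∀ (φ : ZMod ℓ →+* IsLocalRing.ResidueField A) (w : LaurentSeries (ZMod ℓ)),
      w ∈ modularFunctionFieldFullC (ZMod ℓ) N →
      (evalSer (ZMod ℓ) (jqModC (ZMod ℓ))).IsIntegralElem w →
      ∃ c : IntElt A N, c.IsFin ∧ coeffMap (IsLocalRing.residue A) c.y = coeffMap φ w)
    (z : modularFunctionFieldFullC (IsLocalRing.ResidueField A) N)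
    (hint : (evalSer (IsLocalRing.ResidueField A)
      (jqModC (IsLocalRing.ResidueField A))).IsIntegralElem (z : LaurentSeries _)) :
    ∃ c : IntElt A N, c.IsFin ∧ c.sp = z := by
  haveI := Fermat.Agent.S18.H9.resAlgClosed (AlgebraicClosure ℚ) A
  obtain ⟨φ⟩ := exists_zmod_hom A hA
  obtain ⟨c, hc, hcz⟩ := lift_fin_of_base A φ (isIntegral_residueField A φ) (hbase φ) z.2 hint
  exact ⟨c, hc, Subtype.ext hcz⟩

/-- **(H3) over `A` from (H3) over `𝔽_ℓ`, chart at infinity**, `A` over `ℓ`. -/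
theorem lift_inf_of_base_liesOver (hA : A.LiesOverPrime ℓ)
    (hbase : ∀ (φ : ZMod ℓ →+* IsLocalRing.ResidueField A) (w : LaurentSeries (ZMod ℓ)),
      w ∈ modularFunctionFieldFullC (ZMod ℓ) N →
      (evalSer (ZMod ℓ) (jqModC (ZMod ℓ))⁻¹).IsIntegralElem w →
      ∃ c : IntElt A N, c.IsInf ∧ coeffMap (IsLocalRing.residue A) c.y = coeffMap φ w)
    (z : modularFunctionFieldFullC (IsLocalRing.ResidueField A) N)
    (hint : (evalSer (IsLocalRing.ResidueField A)
      (jqModC (IsLocalRing.ResidueField A))⁻¹).IsIntegralElem (z : LaurentSeries _)) :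
    ∃ c : IntElt A N, c.IsInf ∧ c.sp = z := by
  haveI := Fermat.Agent.S18.H9.resAlgClosed (AlgebraicClosure ℚ) A
  obtain ⟨φ⟩ := exists_zmod_hom A hA
  obtain ⟨c, hc, hcz⟩ := lift_inf_of_base A φ (isIntegral_residueField A φ) (hbase φ) z.2 hint
  exact ⟨c, hc, Subtype.ext hcz⟩

end Instances

section BaseRing

variable {N : ℕ} {ℓ : ℕ} [Fact ℓ.Prime] (A : ValuationSubring (AlgebraicClosure ℚ))

/-- **Adapter for the producer of (H3) over a base ring `R₀`** (e.g. `R₀ = ℤ_(ℓ)`): if every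
`w ∈ F₀` integral over `𝔽_ℓ[j̄]` is the reduction (along `ρ₀ : R₀ → 𝔽_ℓ`) of a series
`y₀ ∈ R₀((q))`, integral over `R₀[j]`, whose image in `ℚ̄((q))` lies in `F̄_N`, then the hypothesis
`hbase` of `lift_fin_of_base` holds for every `φ` with `residue ∘ ψ = φ ∘ ρ₀`. -/
theorem base_fin_of_ring {R₀ : Type*} [CommRing R₀] (ψ : R₀ →+* A) (ρ₀ : R₀ →+* ZMod ℓ)
    (φ : ZMod ℓ →+* IsLocalRing.ResidueField A)
    (hcomp : (IsLocalRing.residue A).comp ψ = φ.comp ρ₀)
    (hmemk : ∀ y : LaurentSeries A, coeffMap A.subtype y ∈ modularFunctionFieldBar N →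
      coeffMap (IsLocalRing.residue A) y ∈ modularFunctionFieldFullC (IsLocalRing.ResidueField A) N)
    (h0 : ∀ w : LaurentSeries (ZMod ℓ), w ∈ modularFunctionFieldFullC (ZMod ℓ) N →
      (evalSer (ZMod ℓ) (jqModC (ZMod ℓ))).IsIntegralElem w →
      ∃ y₀ : LaurentSeries R₀,
        coeffMap (A.subtype.comp ψ) y₀ ∈ modularFunctionFieldBar N ∧
        (evalSer R₀ (jqModC R₀)).IsIntegralElem y₀ ∧ coeffMap ρ₀ y₀ = w)
    (w : LaurentSeries (ZMod ℓ)) (hw : w ∈ modularFunctionFieldFullC (ZMod ℓ) N)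
    (hwi : (evalSer (ZMod ℓ) (jqModC (ZMod ℓ))).IsIntegralElem w) :
    ∃ c : IntElt A N, c.IsFin ∧ coeffMap (IsLocalRing.residue A) c.y = coeffMap φ w := by
  obtain ⟨y₀, hy1, hy2, hy3⟩ := h0 w hw hwi
  have hmem : coeffMap A.subtype (coeffMap ψ y₀) ∈ modularFunctionFieldBar N := by
    rw [coeffMap_coeffMap]
    exact hy1
  refine ⟨⟨coeffMap ψ y₀, hmem, hmemk _ hmem⟩, ?_, ?_⟩
  · have h1 := isIntegralElem_coeffMap ψ hy2
    rw [coeffMap_jqModC] at h1
    exact h1
  · show coeffMap (IsLocalRing.residue A) (coeffMap ψ y₀) = coeffMap φ w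
    rw [coeffMap_coeffMap, hcomp, ← coeffMap_coeffMap, hy3]

end BaseRing

end Fermat.Agent.S37.H448

end
end
-- ===== PACK-END S37/H448/AscentMod.lean

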