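import Fermat.Prelude.Def_ModularCurve_X0ModL
import Fermat.Agent.Pack.S43MC.G0E19L2
import Fermat.Agent.Pack.S43MC.G0E17L1
import Fermat.Agent.Pack.S43MC.G0E18L1
import Fermat.Agent.Pack.S43MC.G0E5L1
import Fermat.Agent.Pack.S44C.G0E21L3
import Fermat.Agent.Pack.S44C.G0E21L0
import Fermat.Agent.Pack.S43MC.G0E14L1
import Fermat.Agent.Pack.S43MC.G0E14L3
import Fermat.Agent.Pack.S43MC.G0E7L0
import Fermat.Agent.Pack.S43MC.G0E18L2
import Fermat.Agent.Pack.S43MC.G0E18L3
import Fermat.Agent.Pack.S43MC.G0E18L0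
import Fermat.Agent.Pack.S43MC.G0E3L2
import Fermat.Agent.Pack.S43MC.G0E10L3
import Fermat.Agent.Pack.S43MC.G0E14L2
import Fermat.Agent.Pack.S44C.G0E10L3
import Fermat.Agent.Pack.S44C.G0E19L0
import Fermat.Agent.Pack.S44C.G0E20L1
import Fermat.Agent.Pack.S44C.G0E18L0
import Fermat.Agent.Pack.S43GC.G0E15L3
import Fermat.Agent.Pack.S43MC.G0E4L3
import Fermat.Agent.Pack.S43MC.G0E19L0
import Fermat.Agent.Pack.S43MC.G0E19L3
import Fermat.Agent.Pack.S43MC.G0E19L1
import Fermat.Agent.Pack.S43MC.G0E17L2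
import Fermat.Agent.Pack.S43MC.G0E12L1
import Fermat.Agent.Pack.S43MC.G0E2L1
import Fermat.Agent.Pack.Fast891

-- ===== PACK-BEGIN S25/H130/Rep.lean
section


/-!
# S25 / AS4 (helper130): representability from charts

`rep_of_charts : Stmt.Charts c ε → Stmt.SheafGlue c ε → Stmt.SheafSep c ε → Stmt.LocalP c ε →
  Stmt.Rep c ε`.
-/

set_option autoImplicit false
universe u
open CategoryTheory CategoryTheory.Limits AlgebraicGeometry AlgebraicGeometry.RelPicard
  NeronModelInfra GoodReductionJacobian TopologicalSpace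

namespace Fermat.Agent.S25.H130

noncomputable section

variable {k : Type u} [Field k] {C : Scheme.{u}} {c : C ⟶ Spec (CommRingCat.of k)}
  {ε : SchemeHomOver (𝟙 (Spec (CommRingCat.of k))) c}

variable {T : Scheme.{u}} {t : T ⟶ Spec (CommRingCat.of k)}

/-- The Poincaré bundle has degree zero. -/
theorem poincare_deg0 (H : Hyp c ε) (ch : ChartFamily c ε)
    (P : RigidifiedLineBundle c ε (jacStr H ch))
    (hP : ∀ i, IsPB P (jacι H ch i) (ch.bundle i)) : FibrewiseAlgEquivZero P := by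
  refine localP_isPB H.locP (jacU H ch) (iSup_jacU H ch) P fun i =>
    ⟨_, jacN H ch i, ?_, (jacN_isPB H ch i).deg0 (ch.deg0 i)⟩
  exact ((hP i).comp (jacN_isPB H ch i)).of_eq (jacE_jacι H ch i)

/-- Existence of classifying morphisms. -/
theorem exists_classify (H : Hyp c ε) (ch : ChartFamily c ε)
    (P : RigidifiedLineBundle c ε (jacStr H ch))
    (hP : ∀ i, IsPB P (jacι H ch i) (ch.bundle i))
    (M : RigidifiedLineBundle c ε t) (hM : FibrewiseAlgEquivZero M) :
    ∃ g : T ⟶ jac H ch, IsPB P g M := by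
  have hW : (⨆ i, chartLocus ch i M) = ⊤ := iSup_chartLocus ch hM
  choose φ hφ using fun i => inChart_chartLocus H.sep ch i M
  have compat : ∀ i j : ch.ι,
      pullback.fst (chartLocus ch i M).ι (chartLocus ch j M).ι ≫ φ i ≫ jacι H ch i =
        pullback.snd (chartLocus ch i M).ι (chartLocus ch j M).ι ≫ φ j ≫ jacι H ch j := by
    intro i j
    have hL := isPB_mk M
      (pullback.fst (chartLocus ch i M).ι (chartLocus ch j M).ι ≫ (chartLocus ch i M).ι) rfl
    have h1 := (hφ i).comp ((isPB_restrictOpen M _).of_comp hL)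
    have h2 := (hφ j).comp ((isPB_restrictOpen M _).of_comp (hL.of_eq pullback.condition))
    simpa only [Category.assoc] using comp_jacι_eq H ch i j _ h1 h2
  let 𝒲 : T.OpenCover := T.openCoverOfIsOpenCover (fun i => chartLocus ch i M) hW
  let g : T ⟶ jac H ch := 𝒲.glueMorphisms (fun i => φ i ≫ jacι H ch i) compat
  have hg : ∀ i, (chartLocus ch i M).ι ≫ g = φ i ≫ jacι H ch i :=
    fun i => 𝒲.ι_glueMorphisms _ compat i
  have hw : g ≫ jacStr H ch = t := by
    refine Scheme.Cover.hom_ext 𝒲 _ _ fun i => ?_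
    show (chartLocus ch i M).ι ≫ g ≫ jacStr H ch = (chartLocus ch i M).ι ≫ t
    rw [← Category.assoc, hg, Category.assoc, jacι_jacStr, (hφ i).w]
  refine ⟨g, hw, ?_⟩
  refine sheafSep_isPB H.sep (fun i => chartLocus ch i M) hW _ _ fun i =>
    ⟨_, restrictOpen M (chartLocus ch i M), ?_, isPB_restrictOpen M _⟩
  exact (isPB_mk P g hw).of_comp (((hP i).comp (hφ i)).of_eq (hg i).symm)

/-- Uniqueness of classifying morphisms. -/
theorem classify_unique (H : Hyp c ε) (ch : ChartFamily c ε)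
    (P : RigidifiedLineBundle c ε (jacStr H ch))
    (hP : ∀ i, IsPB P (jacι H ch i) (ch.bundle i))
    (M : RigidifiedLineBundle c ε t) {g g' : T ⟶ jac H ch}
    (hg : IsPB P g M) (hg' : IsPB P g' M) : g = g' := by
  refine Scheme.hom_ext_of_forall g g' fun x => ?_
  have hx : g x ∈ ⨆ i, jacU H ch i := by rw [iSup_jacU]; trivial
  have hx' : g' x ∈ ⨆ i, jacU H ch i := by rw [iSup_jacU]; trivial
  obtain ⟨i, hi⟩ := Opens.mem_iSup.1 hx
  obtain ⟨j, hj⟩ := Opens.mem_iSup.1 hx'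
  let G : T.Opens := g ⁻¹ᵁ (jacU H ch i) ⊓ g' ⁻¹ᵁ (jacU H ch j)
  refine ⟨G, ⟨hi, hj⟩, ?_⟩
  have hra : Set.range (G.ι ≫ g) ⊆ Set.range (jacι H ch i) := by
    rintro _ ⟨y, rfl⟩
    exact y.2.1
  have hrb : Set.range (G.ι ≫ g') ⊆ Set.range (jacι H ch j) := by
    rintro _ ⟨y, rfl⟩
    exact y.2.2
  have ha : IsOpenImmersion.lift (jacι H ch i) (G.ι ≫ g) hra ≫ jacι H ch i = G.ι ≫ g :=
    IsOpenImmersion.lift_fac _ _ _
  have hb : IsOpenImmersion.lift (jacι H ch j) (G.ι ≫ g') hrb ≫ jacι H ch j = G.ι ≫ g' :=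
    IsOpenImmersion.lift_fac _ _ _
  have h1 : IsPB (ch.bundle i) (IsOpenImmersion.lift (jacι H ch i) (G.ι ≫ g) hra)
      (restrictOpen M G) :=
    (hP i).of_comp ((hg.comp (isPB_restrictOpen M G)).of_eq ha.symm)
  have h2 : IsPB (ch.bundle j) (IsOpenImmersion.lift (jacι H ch j) (G.ι ≫ g') hrb)
      (restrictOpen M G) :=
    (hP j).of_comp ((hg'.comp (isPB_restrictOpen M G)).of_eq hb.symm)
  rw [← ha, ← hb]
  exact comp_jacι_eq H ch i j _ h1 h2

/-- The glued scheme is locally of finite type over `k`. -/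
theorem jacStr_locallyOfFiniteType (H : Hyp c ε) (ch : ChartFamily c ε) :
    LocallyOfFiniteType (jacStr H ch) := by
  refine IsZariskiLocalAtSource.of_openCover (glueData H ch).openCover fun i => ?_
  have h : (glueData H ch).openCover.f i ≫ jacStr H ch = chStr ch i := jacι_jacStr H ch i
  rw [h]
  exact HasRingHomProperty.Spec_iff.2 (RingHom.finiteType_algebraMap.2 (ch.finiteType i))

/-- **AS4.** Representability of the degree-zero rigidified Picard functor from a chart family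
and Zariski descent. -/
theorem rep_of_charts (hCh : Stmt.Charts c ε) (hGlue : Stmt.SheafGlue c ε)
    (hSep : Stmt.SheafSep c ε) (hLoc : Stmt.LocalP c ε) : Stmt.Rep c ε := by
  obtain ⟨ch⟩ := hCh
  have H : Hyp c ε := ⟨@hSep, @hGlue, @hLoc⟩
  obtain ⟨P, hP⟩ := exists_poincare H ch
  obtain ⟨z, hz⟩ := exists_classify H ch P hP
    (RigidifiedLineBundle.unit (c := c) (ε := ε) (𝟙 (Spec (CommRingCat.of k))))
    (fibrewiseAlgEquivZero_unit _)
  refine ⟨{ P := jac H ch, toBase := jacStr H ch, zeroSection := z, zeroSection_toBase := hz.w },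
    ⟨{ poincare := P
       poincare_mem := poincare_deg0 H ch P hP
       univ := fun {T} t M hM => ?_
       zero := hz.2 }⟩, jacStr_locallyOfFiniteType H ch⟩
  obtain ⟨g, hg⟩ := exists_classify H ch P hP M hM
  exact ⟨⟨g, hg.w⟩, hg.2, fun g' hg' =>
    Subtype.ext (classify_unique H ch P hP M ⟨g'.2, hg'⟩ hg)⟩

end

end Fermat.Agent.S25.H130

end
-- ===== PACK-END S25/H130/Rep.lean

-- ===== PACK-BEGIN S31/H838/OfS30.lean
section



/-!
# Row S31 — everything except S30 (helper838)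

* `petersonData N : H22.PeterssonData N` — the analytic core of piece SS in row-lead helper22's
  interface (`B` = Petersson product `H622.petC`).
* `ssStatement : H22.SSStatement`.
* `result_of_S30` : the frozen statement S31 from the single remaining input `S30Statement`.
-/

set_option autoImplicit false

open UpperHalfPlane CongruenceSubgroup MeasureTheory
open scoped MatrixGroups ModularForm

namespace Fermat.Agent.S31.H838

open Fermat.Agent.S31 Fermat.Agent.S31.H622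

/-- The Petersson product as a biadditive map. -/
noncomputable def petAdd (N : ℕ) [NeZero N] :
    CuspForm (Gamma0 N) 2 →+ CuspForm (Gamma0 N) 2 →+ ℂ :=
  AddMonoidHom.mk' (fun f => AddMonoidHom.mk' (fun g => petC N f g) (petC_add_right N f))
    (fun f₁ f₂ => by
      ext g
      exact petC_add_left N f₁ f₂ g)

/-- The analytic core of piece SS, in the interface `H22.PeterssonData`. -/
noncomputable def petersonData (N : ℕ) [NeZero N] : H22.PeterssonData N where
  B := petAdd N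
  definite f h := eq_zero_of_petC_self_eq_zero N f h
  symm_T ℓ hℓ hℓN f g := isPetSymm_heckeTLin N ℓ hℓ hℓN f g

theorem ssStatement : H22.SSStatement :=
  fun N _ S hNS => heckeAlgebra_isReduced N S hNS

section

variable {p : ℕ} {N : ℕ} [NeZero N] {S : Finset ℕ}
  {𝒪 : Type} [CommRing 𝒪] [IsDomain 𝒪] [IsDiscreteValuationRing 𝒪]
  [IsAdicComplete (IsLocalRing.maximalIdeal 𝒪) 𝒪]
  {θ : CuspForm.heckeAlgebra N 2 (↑S : Set ℕ) →+* IsLocalRing.ResidueField 𝒪}
  {T : Type} [CommRing T] [IsLocalRing T] [IsNoetherianRing T]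
  [IsAdicComplete (IsLocalRing.maximalIdeal T) T] [Algebra 𝒪 T] [IsLocalHom (algebraMap 𝒪 T)]
  [Module.Finite 𝒪 T] [Module.Free 𝒪 T]

/-- **S31 from S30 alone.**  The frozen statement S31, with the frozen statement S30 as the only
hypothesis. -/
theorem result_of_S30 (h30 : S30Statement) (hp : p.Prime)
    (hp𝒪 : (p : 𝒪) ∈ IsLocalRing.maximalIdeal 𝒪) (hpS : p ∈ S)
    (hNS : ∀ q : ℕ, q.Prime → q ∣ N → q ∈ S)
    (H : CuspForm.HeckeGaloisRepDatum N (↑S : Set ℕ) 𝒪 θ T)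
    (q : ℕ) (hq : q.Prime) (hqS : q ∉ S) :
    H.ρ.IsUnramifiedAt q :=
  H22.result_of_S30_SS h30 ssStatement hp hp𝒪 hpS hNS H q hq hqS

end

end Fermat.Agent.S31.H838

end
-- ===== PACK-END S31/H838/OfS30.lean

-- ===== PACK-BEGIN Lib/Newform/H958/Leaves.lean
section



/-!
# Shared library NEWFORM — leaves already available

* `occurs : Occurs` (adapter around helper863's `exists_normalizedEigenform_of_eigenvector`);
* `incl : Incl` (level inclusion `M ∣ C`).
-/

set_option autoImplicit false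

open CongruenceSubgroup UpperHalfPlane
open scoped MatrixGroups

namespace Fermat.Agent.Lib.Newform.H958

theorem occurs : Occurs := by
  intro M _ h hh P a heig
  obtain ⟨g, hg, hgl⟩ := Fermat.Agent.Lib.Newform.H863.exists_normalizedEigenform_of_eigenvector
    (S := Pᶜ) a h hh (fun ℓ hℓ hℓM hS => heig ℓ hℓ hℓM (by simpa using hS))
  exact ⟨g, hg, fun ℓ hℓ hℓM hP => hgl ℓ hℓ hℓM (by simpa using hP)⟩

theorem gamma0_le_of_dvd {M C : ℕ} (h : M ∣ C) : Gamma0 C ≤ Gamma0 M := by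
  intro γ hγ
  rw [Gamma0_mem] at hγ ⊢
  exact (ZMod.intCast_zmod_eq_zero_iff_dvd _ _).mpr
    ((Int.natCast_dvd_natCast.mpr h).trans ((ZMod.intCast_zmod_eq_zero_iff_dvd _ _).mp hγ))

theorem incl : Incl := by
  intro M C hMC g
  have hle : (Gamma0 C : Subgroup (GL (Fin 2) ℝ)) ≤ (Gamma0 M : Subgroup (GL (Fin 2) ℝ)) :=
    Subgroup.map_mono (gamma0_le_of_dvd hMC)
  exact ⟨{ toFun := ⇑g
           slash_action_eq' := fun γ hγ => SlashInvariantFormClass.slash_action_eq g γ (hle hγ)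
           holo' := CuspFormClass.holo g
           zero_at_cusps' := fun hc => CuspFormClass.zero_at_cusps g (hc.mono hle) }, rfl⟩

end Fermat.Agent.Lib.Newform.H958

end
-- ===== PACK-END Lib/Newform/H958/Leaves.lean

-- ===== PACK-BEGIN S36/H193/QepAll.lean
section



/-!
# S36 engine, leaf CLOPEN (helper193), part 6: the radical `q`-expansion principle is automatic

Setting: `R` a domain with `R[X]` integrally closed, `w ∈ R` prime, `Z` a field containing `R`,
`x ∈ Z` transcendental over `R`; the charts are the integral closures of `R[x]`, `R[x⁻¹]`,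
`R[x, x⁻¹]` in `Z`, the sheets are the valuation subrings `W` of `Z` with `A2.H12.IsSheet w x W`
(extensions of the Gauss valuation of `R[x]`).

**Theorem** (`qepRad_sheets`).  For each of the three charts `C`, an element of `C` lying in the
maximal ideal of every sheet is nilpotent modulo `w C`:
`QepRad {W | IsSheet w x W} w C`.

No hypothesis on the special fibre (reduced or not), no finiteness, no noetherianity.
Proof: `rad (w C)` is the intersection of the minimal primes `𝔭` over `w C`; by going down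
(`R[x]` is integrally closed) `𝔭 ∩ R[x] = w R[x]`, so any valuation subring of `Z` centred at `𝔭`
is a sheet (`isSheet_of_minimal`).
-/

set_option autoImplicit false
set_option linter.style.haveILetI false
set_option linter.unusedSectionVars false

namespace Fermat.Agent.S36.H193

open Polynomial
open Fermat.Agent.A2.H12 (IsSheet)
open Fermat.Agent.S18.H138 (chart mem_chart mem_adjoin_singleton_iff
  isIntegrallyClosed_adjoin_singleton)

universe u

section GoingDown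

variable {R : Type*} [CommRing R] [IsDomain R] {F : Type*} [Field F] [Algebra R F]

/-- **Going down.**  `B` the integral closure of `R[x]` in `F`, `p` a minimal prime over `w B`:
then `p ∩ R[x] = w R[x]`. -/
theorem coeff_dvd_of_mem_minimal [IsIntegrallyClosed R[X]] (w : R) (hw : Prime w) {x : F}
    (hx : Transcendental R x) (B : Subalgebra R F)
    (hB : ∀ f : F, f ∈ B ↔ IsIntegral (Algebra.adjoin R ({x} : Set F)) f)
    (p : Ideal B) (hp : p ∈ (Ideal.span {algebraMap R B w}).minimalPrimes)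
    (b : B) (hb : b ∈ p) (P : R[X]) (hbP : (b : F) = aeval x P) (i : ℕ) :
    w ∣ P.coeff i := by
  haveI hpp : p.IsPrime := hp.1.1
  have hAB : Algebra.adjoin R ({x} : Set F) ≤ B := fun y hy =>
    (hB y).2 (isIntegral_algebraMap (R := Algebra.adjoin R ({x} : Set F)) (x := ⟨y, hy⟩))
  letI : Algebra (Algebra.adjoin R ({x} : Set F)) B :=
    (Subalgebra.inclusion hAB).toRingHom.toAlgebra
  haveI : IsScalarTower (Algebra.adjoin R ({x} : Set F)) B F :=
    IsScalarTower.of_algebraMap_eq (fun _ => rfl)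
  have hinjAB : Function.Injective (algebraMap (Algebra.adjoin R ({x} : Set F)) B) :=
    Subalgebra.inclusion_injective hAB
  haveI : FaithfulSMul (Algebra.adjoin R ({x} : Set F)) B :=
    (faithfulSMul_iff_algebraMap_injective _ _).2 hinjAB
  haveI : Algebra.IsIntegral (Algebra.adjoin R ({x} : Set F)) B := ⟨fun y => by
    have := (hB y).1 y.2
    exact (isIntegral_algebraMap_iff (B := F) Subtype.val_injective).1 this⟩
  haveI : IsIntegrallyClosed (Algebra.adjoin R ({x} : Set F)) :=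
    isIntegrallyClosed_adjoin_singleton hx
  have hwA : Prime (algebraMap R (Algebra.adjoin R ({x} : Set F)) w) :=
    Fermat.Agent.A2.H652.prime_algebraMap_adjoin w hw hx
  haveI hq : (Ideal.span {algebraMap R (Algebra.adjoin R ({x} : Set F)) w}).IsPrime :=
    (Ideal.span_singleton_prime hwA.ne_zero).2 hwA
  have hwB : algebraMap (Algebra.adjoin R ({x} : Set F)) B
      (algebraMap R (Algebra.adjoin R ({x} : Set F)) w) = algebraMap R B w := rfl
  have hwp : algebraMap R B w ∈ p := hp.1.2 (Ideal.subset_span rfl)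
  have hle : Ideal.span {algebraMap R (Algebra.adjoin R ({x} : Set F)) w} ≤
      p.under (Algebra.adjoin R ({x} : Set F)) := by
    rw [Ideal.span_le, Set.singleton_subset_iff]
    change algebraMap _ B _ ∈ p
    rw [hwB]
    exact hwp
  obtain ⟨P', hP'le, hP'prime, hP'over⟩ := Ideal.exists_ideal_le_liesOver_of_le
    (p := Ideal.span {algebraMap R (Algebra.adjoin R ({x} : Set F)) w})
    (q := p.under (Algebra.adjoin R ({x} : Set F))) p hle
  have hwP' : algebraMap R B w ∈ P' := by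
    rw [← hwB, ← Ideal.mem_of_liesOver P'
      (Ideal.span {algebraMap R (Algebra.adjoin R ({x} : Set F)) w})]
    exact Ideal.subset_span rfl
  have hpP' : p ≤ P' := by
    refine hp.2 ⟨hP'prime, ?_⟩ hP'le
    rw [Ideal.span_le, Set.singleton_subset_iff]
    exact hwP'
  have hPp : P' = p := le_antisymm hP'le hpP'
  -- `b ∈ p ∩ R[x] = (w)`
  have hbA : (b : F) ∈ Algebra.adjoin R ({x} : Set F) := by
    rw [hbP]
    exact mem_adjoin_singleton_iff.2 ⟨P, rfl⟩
  have hbq : (⟨(b : F), hbA⟩ : Algebra.adjoin R ({x} : Set F)) ∈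
      Ideal.span {algebraMap R (Algebra.adjoin R ({x} : Set F)) w} := by
    rw [Ideal.mem_of_liesOver P' (Ideal.span {algebraMap R (Algebra.adjoin R ({x} : Set F)) w}),
      hPp]
    have : algebraMap (Algebra.adjoin R ({x} : Set F)) B ⟨(b : F), hbA⟩ = b := Subtype.ext rfl
    rw [this]
    exact hb
  obtain ⟨c, hc⟩ := Ideal.mem_span_singleton'.1 hbq
  obtain ⟨Q, hQ⟩ := mem_adjoin_singleton_iff.1 c.2
  have h2 : aeval x (Q * C w) = aeval x P := by
    rw [map_mul, aeval_C, hQ, ← hbP]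
    exact congrArg Subtype.val hc
  have h3 : Q * C w = P := by
    have := (transcendental_iff.1 hx) (Q * C w - P) (by rw [map_sub, h2, sub_self])
    exact sub_eq_zero.1 this
  rw [← h3, coeff_mul_C]
  exact dvd_mul_left _ _

end GoingDown

section Sheets

variable {R : Type u} [CommRing R] [IsDomain R] {F : Type u} [Field F] [Algebra R F]

/-- A valuation subring of `F` centred at a minimal prime over `w` of the chart is a sheet. -/
theorem isSheet_of_minimal [IsIntegrallyClosed R[X]] (w : R) (hw : Prime w) {x : F}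
    (hx : Transcendental R x) (B : Subalgebra R F)
    (hB : ∀ f : F, f ∈ B ↔ IsIntegral (Algebra.adjoin R ({x} : Set F)) f)
    (p : Ideal B) (hp : p ∈ (Ideal.span {algebraMap R B w}).minimalPrimes)
    (V : ValuationSubring F) (hBV : ∀ b ∈ B, b ∈ V)
    (hV : ∀ b : B, (b : F) ∈ V.nonunits ↔ b ∈ p) : IsSheet w x V := by
  have hAB : Algebra.adjoin R ({x} : Set F) ≤ B := fun y hy =>
    (hB y).2 (isIntegral_algebraMap (R := Algebra.adjoin R ({x} : Set F)) (x := ⟨y, hy⟩))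
  have hwp : algebraMap R B w ∈ p := hp.1.2 (Ideal.subset_span rfl)
  refine ⟨fun r => hBV _ (B.algebraMap_mem r), hBV _ (hAB (Algebra.subset_adjoin rfl)),
    (hV (algebraMap R B w)).2 hwp, ?_⟩
  intro P hP
  have hyB : aeval x P ∈ B := hAB (mem_adjoin_singleton_iff.2 ⟨P, rfl⟩)
  have hnot : aeval x P ∉ V.nonunits := by
    intro h
    have h1 : (⟨aeval x P, hyB⟩ : B) ∈ p := (hV ⟨aeval x P, hyB⟩).1 h
    obtain ⟨i, hi⟩ := hP
    exact hi (coeff_dvd_of_mem_minimal w hw hx B hB p hp _ h1 P rfl i)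
  rw [ValuationSubring.mem_nonunits_iff_or] at hnot
  by_contra h
  exact hnot (Or.inr h)

/-- Every minimal prime over `w` of the chart `chart R {x}` is the centre of a sheet. -/
theorem exists_sheet_of_minimal [IsIntegrallyClosed R[X]] (w : R) (hw : Prime w) {x : F}
    (hx : Transcendental R x)
    (p : Ideal (chart R ({x} : Set F)))
    (hp : p ∈ (Ideal.span {algebraMap R (chart R ({x} : Set F)) w}).minimalPrimes) :
    ∃ V : ValuationSubring F, IsSheet w x V ∧
      ∀ b : chart R ({x} : Set F), (b : F) ∈ V.nonunits ↔ b ∈ p := by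
  haveI : p.IsPrime := hp.1.1
  obtain ⟨V, hBV, hV⟩ := Fermat.Agent.A2.H652.exists_valuationSubring_center
    (chart R ({x} : Set F)) p
  exact ⟨V, isSheet_of_minimal w hw hx _ (fun _ => Iff.rfl) p hp V hBV hV, hV⟩

/-- **Radical `q`-expansion principle, finite chart.** -/
theorem qepRad_sheets_fin [IsIntegrallyClosed R[X]] (w : R) (hw : Prime w) {x : F}
    (hx : Transcendental R x) :
    QepRad {W : ValuationSubring F | IsSheet w x W} w (chart R ({x} : Set F)) := by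
  intro b hb hJ
  set C := chart R ({x} : Set F) with hC
  have hrad : (⟨b, hb⟩ : C) ∈ (Ideal.span {algebraMap R C w}).radical := by
    rw [← Ideal.sInf_minimalPrimes, Ideal.mem_sInf]
    intro p hp
    obtain ⟨V, hVs, hV⟩ := exists_sheet_of_minimal w hw hx p hp
    exact (hV ⟨b, hb⟩).1 (hJ V hVs)
  obtain ⟨N, hN⟩ := Ideal.mem_radical_iff.1 hrad
  obtain ⟨t, ht⟩ := Ideal.mem_span_singleton'.1 hN
  refine ⟨N, t, t.2, ?_⟩
  have := congrArg Subtype.val ht
  rw [mul_comm]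
  exact this.symm

/-- Sheets for `x⁻¹` and sheets for `x` are the same. -/
theorem isSheet_inv_iff (w : R) {x : F} (hx0 : x ≠ 0) (V : ValuationSubring F) :
    IsSheet w x⁻¹ V ↔ IsSheet w x V := by
  constructor
  · exact Fermat.Agent.A2.H652.isSheet_of_isSheet_inv w hx0
  · intro h
    have := Fermat.Agent.A2.H652.isSheet_of_isSheet_inv w (inv_ne_zero hx0)
      (V := V) (by rwa [inv_inv])
    exact this

/-- **Radical `q`-expansion principle** for the three charts, with respect to all sheets. -/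
theorem qepRad_sheets [IsIntegrallyClosed R[X]] (w : R) (hw : Prime w) {x : F}
    (hx : Transcendental R x) :
    QepRad {W : ValuationSubring F | IsSheet w x W} w (chart R ({x} : Set F)) ∧
    QepRad {W : ValuationSubring F | IsSheet w x W} w (chart R ({x⁻¹} : Set F)) ∧
    QepRad {W : ValuationSubring F | IsSheet w x W} w (chart R ({x, x⁻¹} : Set F)) := by
  have hx0 : x ≠ 0 := Fermat.Agent.S18.H138.ne_zero_of_transcendental hx
  have hfin := qepRad_sheets_fin w hw hx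
  refine ⟨hfin, ?_, ?_⟩
  · have h := qepRad_sheets_fin w hw (Fermat.Agent.S18.H138.transcendental_inv hx)
    intro b hb hJ
    exact h b hb fun W hW => hJ W ((isSheet_inv_iff w hx0 W).1 hW)
  · intro b hb hJ
    obtain ⟨K, hK⟩ := Fermat.Agent.S18.H138.exists_pow_mul_mem_chart (R := R) hx0 hb
    obtain ⟨N, t, ht, hN⟩ := hfin _ hK fun W hW =>
      nu_mul_left W (hJ W hW) (W.pow_mem hW.2.1 K)
    refine ⟨N, (x⁻¹ ^ K) ^ N * t, ?_, ?_⟩
    · refine Subalgebra.mul_mem _ (Subalgebra.pow_mem _ (Subalgebra.pow_mem _ ?_ K) N) ?_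
      · exact Fermat.Agent.S18.H138.mem_chart_of_mem (by simp)
      · exact Fermat.Agent.S18.H138.chart_mono (by simp) ht
    · have hxK : x ^ K ≠ 0 := pow_ne_zero _ hx0
      have : b = x⁻¹ ^ K * (x ^ K * b) := by
        rw [inv_pow, ← mul_assoc, inv_mul_cancel₀ hxK, one_mul]
      rw [this, mul_pow, hN]
      ring

end Sheets

end Fermat.Agent.S36.H193

end
-- ===== PACK-END S36/H193/QepAll.lean

-- ===== PACK-BEGIN S36/H630/CtxAux.lean
section





/-!
# S36 engine, LABEL core (helper630), part 11: auxiliary lemmas for the adapter to `Eng.TripleCtx`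

Mathlib-level facts about charts (`S18.H138.chart`), used to derive the hypotheses of the label
theorems from the fields of the three-component context:

* `chartLe_chart`            : `R ⊆ V`, `S ⊆ V` ⟹ `chart R S ⊆ V`;
* `rat_chart`                : closed points of the special fibre of a chart are rational;
* `norm_mem_chart`           : the norm of an element integral over the chart below lies in it;
* `exists_local_denominator` : local denominators at a point which is alone in its fibre;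
* `exists_label`             : `k ^ m ≡ 1` on `V'` ⟹ `k ≡ ζ ^ i` on `V'`;
* `normalAlong_of_monic`     : the polynomial form of normality implies the `m`-th root form.
-/

set_option autoImplicit false
set_option linter.unusedSectionVars false
set_option linter.style.haveILetI false

namespace Fermat.Agent.S36.H630

open Polynomial
open Fermat.Agent.S18.H138 (chart mem_chart)

section Chart

variable {R : Type*} [CommRing R] {F : Type*} [Field F] [Algebra R F]

/-- A chart lies in every valuation ring containing `R` and the coordinates. -/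
theorem chartLe_chart {V : ValuationSubring F} (hRV : ∀ r : R, algebraMap R F r ∈ V)
    {S : Set F} (hS : ∀ s ∈ S, s ∈ V) : ChartLe (chart R S) V := by
  intro b
  have hb : IsIntegral (Algebra.adjoin R S) (b : F) := mem_chart.1 b.2
  have hle : ∀ y ∈ Algebra.adjoin R S, y ∈ V := by
    intro y hy
    induction hy using Algebra.adjoin_induction with
    | mem y hy => exact hS y hy
    | algebraMap r => exact hRV r
    | add y z _ _ hy hz => exact V.add_mem _ _ hy hz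
    | mul y z _ _ hy hz => exact V.mul_mem _ _ hy hz
  obtain ⟨p, hp, hpb⟩ := hb
  -- transport the integral equation to `V`
  let φ : Algebra.adjoin R S →+* V :=
    { toFun := fun y => ⟨(y : F), hle y y.2⟩
      map_one' := rfl
      map_mul' := fun _ _ => rfl
      map_zero' := rfl
      map_add' := fun _ _ => rfl }
  have hint : IsIntegral V (b : F) := by
    refine ⟨p.map φ, hp.map φ, ?_⟩
    rw [Polynomial.eval₂_map]
    exact hpb
  have h1 : (b : F) ∈ Set.range (algebraMap V F) :=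
    (IsIntegrallyClosed.isIntegral_iff (R := V) (K := F)).1 hint
  obtain ⟨v, hv⟩ := h1
  rw [← hv]
  exact v.2

/-- The polynomial form of normality along a sheet implies the `m`-th root form. -/
theorem normalAlong_of_monic {B : Subalgebra R F} {V : ValuationSubring F}
    (h : ∀ (f : F) (p : Polynomial B), p.Monic → Polynomial.aeval f p ∈ V.nonunits →
      ∃ b : B, f - (b : F) ∈ V.nonunits) {m : ℕ} (hm : 0 < m) : NormalAlong B V m := by
  intro y _ c hc
  refine h y (X ^ m - C c) (monic_X_pow_sub_C c hm.ne') ?_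
  have : Polynomial.aeval y (X ^ m - C c : Polynomial B) = y ^ m - (c : F) := by
    rw [map_sub, map_pow, aeval_X, aeval_C]
    rfl
  rw [this]
  exact hc

end Chart

section Rat

variable {R : Type*} [CommRing R] [IsDomain R] [IsDiscreteValuationRing R]
  [IsAlgClosed (IsLocalRing.ResidueField R)]
variable {F : Type*} [Field F] [Algebra R F]

/-- **Closed points of the special fibre of a chart are rational** (general form). -/
theorem rat_of_chart (x : F) (B : Subalgebra R F)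
    (hB : ∀ f : F, f ∈ B ↔ IsIntegral (Algebra.adjoin R ({x} : Set F)) f)
    (n : Ideal B) (hn : n.IsMaximal)
    (h𝔪n : ∀ r ∈ IsLocalRing.maximalIdeal R, algebraMap R B r ∈ n)
    (b : B) : ∃ r : R, b - algebraMap R B r ∈ n := by
  let _ : Field (B ⧸ n) := Ideal.Quotient.field n
  let xB : B := ⟨x, Fermat.Agent.A2.Alg.H609.self_mem_chart x B hB⟩
  let f : R →+* B ⧸ n := (Ideal.Quotient.mk n).comp (algebraMap R B)
  have hker : ∀ a ∈ IsLocalRing.maximalIdeal R, f a = 0 := by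
    intro a ha
    show Ideal.Quotient.mk n (algebraMap R B a) = 0
    rw [Ideal.Quotient.eq_zero_iff_mem]
    exact h𝔪n a ha
  let g : IsLocalRing.ResidueField R →+* B ⧸ n :=
    Ideal.Quotient.lift (IsLocalRing.maximalIdeal R) f hker
  have hg : ∀ r : R, g (IsLocalRing.residue R r) = f r := fun r => rfl
  let ψ : (IsLocalRing.ResidueField R)[X] →+* B ⧸ n :=
    Polynomial.eval₂RingHom g (Ideal.Quotient.mk n xB)
  let φ₀ : R[X] →+* B ⧸ n := (Ideal.Quotient.mk n).comp (aeval (R := R) xB).toRingHom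
  have hφ₀ : φ₀.IsIntegral :=
    RingHom.IsIntegral.trans _ _ (Fermat.Agent.A2.Alg.H609.isIntegral_aeval_chart x B hB)
      (RingHom.isIntegral_of_surjective _ Ideal.Quotient.mk_surjective)
  have hcomp : ψ.comp (Polynomial.mapRingHom (IsLocalRing.residue R)) = φ₀ := by
    refine Polynomial.ringHom_ext (fun r => ?_) ?_
    · simp only [RingHom.comp_apply, Polynomial.coe_mapRingHom, Polynomial.map_C, ψ, φ₀,
        Polynomial.coe_eval₂RingHom, Polynomial.eval₂_C, hg, f, AlgHom.toRingHom_eq_coe,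
        RingHom.coe_coe, aeval_C]
    · simp only [RingHom.comp_apply, Polynomial.coe_mapRingHom, Polynomial.map_X, ψ, φ₀,
        Polynomial.coe_eval₂RingHom, Polynomial.eval₂_X, AlgHom.toRingHom_eq_coe,
        RingHom.coe_coe, aeval_X]
  have hψ : ψ.IsIntegral := by
    apply RingHom.IsIntegral.tower_top (Polynomial.mapRingHom (IsLocalRing.residue R)) ψ
    rw [hcomp]
    exact hφ₀
  obtain ⟨c, hc⟩ :=
    Fermat.Agent.S35.H433.surjective_of_isIntegral_polynomial ψ hψ (Ideal.Quotient.mk n b)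
  obtain ⟨r, rfl⟩ := IsLocalRing.residue_surjective c
  refine ⟨r, ?_⟩
  rw [← Ideal.Quotient.eq_zero_iff_mem, map_sub, sub_eq_zero, ← hc]
  simp only [RingHom.comp_apply, ψ, Polynomial.coe_eval₂RingHom, Polynomial.eval₂_C, hg, f]

/-- **Closed points of the special fibre of a chart are rational.** -/
theorem rat_chart (x : F) (n : Ideal (chart R ({x} : Set F))) (hn : n.IsMaximal)
    (h𝔪n : ∀ r ∈ IsLocalRing.maximalIdeal R, algebraMap R (chart R ({x} : Set F)) r ∈ n)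
    (b : chart R ({x} : Set F)) : ∃ r : R, b - algebraMap R (chart R ({x} : Set F)) r ∈ n :=
  rat_of_chart x (chart R ({x} : Set F)) (fun _ => Iff.rfl) n hn h𝔪n b

end Rat

section Norm

variable {R : Type*} [CommRing R] {F' : Type*} [Field F'] [Algebra R F']
variable {F : Type*} [Field F] [Algebra R F] [Algebra F' F] [IsScalarTower R F' F]

/-- An element of `F` which is a root of a monic polynomial with coefficients in the chart of
`F'` is integral over the base of that chart. -/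
theorem isIntegral_adjoin_of_monic {S' : Set F'} {b : F}
    (hb : ∃ p : Polynomial F', p.Monic ∧ (∀ i, p.coeff i ∈ chart R S') ∧
      (p.map (algebraMap F' F)).eval b = 0) :
    IsIntegral (Algebra.adjoin R S') b := by
  obtain ⟨p, hp, hc, hroot⟩ := hb
  have hl : p ∈ Polynomial.lifts (algebraMap (integralClosure (Algebra.adjoin R S') F') F') :=
    (Polynomial.lifts_iff_coeff_lifts p).2 (fun i => ⟨⟨p.coeff i, hc i⟩, rfl⟩)
  obtain ⟨q, hq, -, hqm⟩ := Polynomial.lifts_and_degree_eq_and_monic hl hp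
  have hCb : IsIntegral (integralClosure (Algebra.adjoin R S') F') b := by
    refine ⟨q, hqm, ?_⟩
    have h1 : algebraMap (integralClosure (Algebra.adjoin R S') F') F
        = (algebraMap F' F).comp (algebraMap (integralClosure (Algebra.adjoin R S') F') F') :=
      rfl
    rw [h1, ← Polynomial.eval₂_map, hq, Polynomial.eval₂_eq_eval_map]
    exact hroot
  exact isIntegral_trans b hCb

/-- **The norm of an element integral over the chart below lies in the chart below.** -/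
theorem norm_mem_chart {S' : Set F'} {b : F}
    (hb : ∃ p : Polynomial F', p.Monic ∧ (∀ i, p.coeff i ∈ chart R S') ∧
      (p.map (algebraMap F' F)).eval b = 0) :
    Algebra.norm F' b ∈ chart R S' :=
  mem_chart.2 (Algebra.isIntegral_norm F' (isIntegral_adjoin_of_monic hb))

end Norm

section Denominators

variable {A B : Type*} [CommRing A] [CommRing B]

/-- **Local denominators.**  If `n` is the only prime of `B` over `n ∩ A` (`B` integral over
`A`), every `s ∉ n` divides the image of some `t ∈ A`, `t ∉ n ∩ A`. -/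
theorem exists_local_denominator (a : A →+* B) (ha_int : a.IsIntegral) (n : Ideal B)
    [n.IsPrime]
    (huniq : ∀ Q : Ideal B, Q.IsPrime → Q.comap a = n.comap a → Q = n)
    (s : B) (hs : s ∉ n) : ∃ (s' : B) (t : A), t ∉ n.comap a ∧ s * s' = a t := by
  classical
  by_contra hcon
  push Not at hcon
  haveI hN : (n.comap a).IsPrime := Ideal.comap_isPrime a n
  let S : Submonoid B := (n.comap a).primeCompl.map (a : A →* B)
  have hdisj : Disjoint ((Ideal.span {s} : Ideal B) : Set B) (S : Set B) := by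
    rw [Set.disjoint_left]
    rintro x hx ⟨t, ht, rfl⟩
    obtain ⟨s', hs'⟩ := Ideal.mem_span_singleton'.mp hx
    exact hcon s' t ht (by rw [mul_comm]; exact hs')
  obtain ⟨p, hp, hsp, hpS⟩ := Ideal.exists_le_prime_disjoint (Ideal.span {s}) S hdisj
  have hpc : p.comap a ≤ n.comap a := by
    intro t ht
    by_contra htn
    exact Set.disjoint_left.mp hpS (show a t ∈ p from ht) ⟨t, htn, rfl⟩
  letI : Algebra A B := a.toAlgebra
  haveI : Algebra.IsIntegral A B := ⟨ha_int⟩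
  obtain ⟨Q, hQ, hQp, hQc⟩ := Ideal.exists_ideal_over_prime_of_isIntegral (n.comap a) p hpc
  have hQn : Q = n := huniq Q hQp hQc
  exact hs (hQn ▸ hQ (hsp (Ideal.subset_span rfl)))

end Denominators

section Label

variable {R : Type*} [CommRing R] [IsDomain R] {F' : Type*} [Field F'] [Algebra R F']

/-- **Existence of the label.**  `k ^ m ≡ 1` on `V'` ⟹ `k ≡ ζ ^ i` on `V'` for some `i`. -/
theorem exists_label {V' : ValuationSubring F'} (hRV : ∀ r : R, algebraMap R F' r ∈ V')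
    (hinj : Function.Injective (algebraMap R F')) {m : ℕ} (hm : 0 < m) {ζ : R}
    (hζ : IsPrimitiveRoot ζ m) {k : F'} (hk : k ^ m - 1 ∈ V'.nonunits) :
    ∃ i : ℕ, k - algebraMap R F' (ζ ^ i) ∈ V'.nonunits := by
  classical
  have hζ' : IsPrimitiveRoot (algebraMap R F' ζ) m := hζ.map_of_injective hinj
  have hkm : k ^ m ∈ V' := by
    have : k ^ m = (k ^ m - 1) + 1 := by ring
    rw [this]
    exact V'.add_mem _ _ (vnu_mem V' hk) V'.one_mem
  have hkV : k ∈ V' := by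
    by_contra hkn
    have h1 : k⁻¹ ∈ V'.nonunits := by
      rw [ValuationSubring.mem_nonunits_iff_or]
      right
      rwa [inv_inv]
    have h2 : (k⁻¹) ^ m * k ^ m ∈ V'.nonunits :=
      vnu_mul_right V' (vnu_pow V' h1 hm.ne') hkm
    have hk0 : k ≠ 0 := by
      rintro rfl
      exact hkn V'.zero_mem
    rw [← mul_pow, inv_mul_cancel₀ hk0, one_pow] at h2
    exact vnu_one_not V' h2
  by_contra hcon
  push Not at hcon
  haveI : NeZero m := ⟨hm.ne'⟩
  have h1 : k ^ m - 1 = ∏ ξ ∈ nthRootsFinset m (1 : F'), (k - ξ) := by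
    have := hζ'.pow_sub_pow_eq_prod_sub_mul k 1 hm
    simpa using this
  have hall : ∀ ξ ∈ nthRootsFinset m (1 : F'), (k - ξ) ∈ V' ∧ (k - ξ) ∉ V'.nonunits := by
    intro ξ hξ
    have hξ1 : ξ ^ m = 1 := (mem_nthRootsFinset hm 1).1 hξ
    obtain ⟨i, -, rfl⟩ := hζ'.eq_pow_of_pow_eq_one hξ1
    rw [← map_pow]
    exact ⟨V'.sub_mem hkV (hRV _), hcon i⟩
  have h2 := Finset.prod_induction (fun ξ => k - ξ) (fun a => a ∈ V' ∧ a ∉ V'.nonunits)
    (fun a b ha hb => ⟨V'.mul_mem _ _ ha.1 hb.1, vnu_mul_not V' ha.1 hb.1 ha.2 hb.2⟩)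
    ⟨V'.one_mem, vnu_one_not V'⟩ hall
  rw [← h1] at h2
  exact h2.2 hk

end Label

end Fermat.Agent.S36.H630

end
-- ===== PACK-END S36/H630/CtxAux.lean

-- ===== PACK-BEGIN S36/Mod3/SpecVT.lean
section


/-!
# S36 / MOD3 — the VALUATION-LEVEL hub `LeafVT` (sub-architect helper928)

`Mod3/Spec.lean` states the leaves of `Eng.Model3Statement` (= groups of fields of
`Eng.TripleCtx`).  Most of them need the same VALUATION-LEVEL facts about the three valuation rings
`V₁` (`FF`), `V₂` (`mid`), `V₃` (`VV`) of level `M q q` over `V₁'`, `V₂'` of level `M q`: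
residue degree one, pure inseparability, completeness (no other extension), the uniformiser
`π = j_{q²} - j` of the middle component, the Kronecker congruences.  They are the output of the
concrete Eisenstein instance (`H972.EisData` at `O = V₁'`, `y = j_{q²}`, `c = j`), of helper83's
`β`-side (`h83_beta_unique`, `h83_beta_insep`), of helper370's rows `FF`, `VV` and of Fricke.

This file freezes them as ONE optional hub:

* `PartVT`  : the valuation-level table (generic);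
* `LeafVT`  : `Std → Objs → PartVT` for the concrete objects.

USE: a downstream leaf may be delivered as `theorem leafX_of : LeafVT → … → LeafX`
(hypotheses = `Mod3.Leaf…` Props only).  Definitions only (no `sorry`).
-/

set_option autoImplicit false
set_option linter.style.haveILetI false
set_option linter.unusedSectionVars false
set_option synthInstance.maxHeartbeats 400000
set_option maxHeartbeats 1600000

noncomputable section

namespace Fermat.Agent.S36.Mod3

open ModularCurve AlgebraicCurve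
open Fermat.Agent.S36.Eng

section Parts

variable {R E F F' : Type*} [CommRing R] [Field E] [Algebra R E]
  [Field F] [Algebra E F] [Algebra R F] [Field F'] [Algebra E F'] [Algebra R F']

/-- **The valuation-level table.**  `j`, `jq`, `jqq` are the three `j`-invariants of level
`M q q`.  Table (`e`, `f`):

    via α :  V₁ | V₁' (1,1)    V₂ | V₁' (q-1,1)    V₃ | V₂' (1, q insep)
    via β :  V₃ | V₂' (1,1)    V₂ | V₂' (q-1,1)    V₁ | V₁' (1, q insep)
-/
structure PartVT (w : R) (q : ℕ) (α β : F' →ₐ[E] F) (j jq jqq : F)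
    (V₁ V₂ V₃ : ValuationSubring F) (V₁' V₂' : ValuationSubring F') : Prop where
  -- ### residue degree one
  res_α₁ : ∀ f ∈ V₁, ∃ g ∈ V₁', f - α g ∈ V₁.nonunits
  res_α₂ : ∀ f ∈ V₂, ∃ g ∈ V₁', f - α g ∈ V₂.nonunits
  res_β₃ : ∀ f ∈ V₃, ∃ g ∈ V₂', f - β g ∈ V₃.nonunits
  res_β₂ : ∀ f ∈ V₂, ∃ g ∈ V₂', f - β g ∈ V₂.nonunits
  -- ### purely inseparable residue extensions of degree `q`
  insep_α₃ : ∀ f ∈ V₃, ∃ g ∈ V₂', f ^ q - α g ∈ V₃.nonunits
  insep_β₁ : ∀ f ∈ V₁, ∃ g ∈ V₁', f ^ q - β g ∈ V₁.nonunits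
  -- ### completeness: there is no other extension
  only_α₁ : ∀ V : ValuationSubring F, V.comap (α : F' →+* F) = V₁' → V = V₁ ∨ V = V₂
  only_α₃ : ∀ V : ValuationSubring F, V.comap (α : F' →+* F) = V₂' → V = V₃
  only_β₂ : ∀ V : ValuationSubring F, V.comap (β : F' →+* F) = V₂' → V = V₃ ∨ V = V₂
  only_β₁ : ∀ V : ValuationSubring F, V.comap (β : F' →+* F) = V₁' → V = V₁
  -- ### the uniformiser `π = j_{q²} - j` of the middle component, `π ^ (q - 1) = w · unit`
  pi_unif : UnifAt V₂ (jqq - j)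
  pi_pow : UnitAt V₂ (algebraMap R F w * ((jqq - j) ^ (q - 1))⁻¹)
  -- ### Kronecker congruences on the three components
  kron₁ : jq - j ^ q ∈ V₁.nonunits ∧ jqq - jq ^ q ∈ V₁.nonunits
  kron₂ : jq - j ^ q ∈ V₂.nonunits ∧ jqq - j ∈ V₂.nonunits
  kron₃ : j - jq ^ q ∈ V₃.nonunits ∧ jq - jqq ^ q ∈ V₃.nonunits

end Parts

/-- **VT (leaf, optional hub).**  The valuation-level table of the concrete objects. -/
def LeafVT : Prop :=
  Leaf fun P E M q _ _ _ w V₁' V₂' V₁ V₂ V₃ =>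
    PartVT (R := A2.RE P E) w q (A2.Mod.αE E (M * q) q) (A2.Mod.βE E (M * q) q)
      (j1 E M q) (jq E M q) (jqq E M q) V₁ V₂ V₃ V₁' V₂'

end Fermat.Agent.S36.Mod3

end

end
-- ===== PACK-END S36/Mod3/SpecVT.lean

-- ===== PACK-BEGIN Lib/Haupt/Member.lean
section



/-!
# The Hauptmoduln `t₂`, `t₃` lie in the function field of `X₀(M)` (helper637)

For EVERY field `K` (any characteristic) and every level `M`:

* `t2_mem_fullC : 2 ∣ M → t2 K ∈ modularFunctionFieldFullC K M`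
* `t3_mem_fullC : 3 ∣ M → t3 K ∈ modularFunctionFieldFullC K M`
* `t2_mem_full`, `t3_mem_full` : the same for `modularFunctionFieldFull M` (`K = ℚ`).

Proof: explicit linear relations `U · t = W` with `U, W ∈ ℤ[j, j(q^d)]` (found by linear algebra
over `ℚ[t, t⁻¹]`, checked here by `field_simp; ring` after substituting `j = (t+256)³/t²` etc.),

* `t2_lin : (j j₂ - 720 j - 720 j₂ - 16250625) · t₂ = j₂² + 4095 j + 195120 j₂ + 660960000`
* `t3_lin : U₃ · t₃ = W₃` (degree 4 in `j, j₃`),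

and `U ≠ 0` because `U · t^m` is a MONIC polynomial in `t = q⁻¹ + …` (`t2_U_ne_zero`,
`t3_U_ne_zero`).
-/

set_option autoImplicit false

noncomputable section

namespace Fermat.Agent.Lib.Haupt

open PowerSeries HahnSeries ModularCurve

section Generic

variable (K : Type*) [CommRing K]

theorem lau_neg (f : PowerSeries ℤ) : lau K (-f) = -lau K f := by
  rw [lau, map_neg, map_neg]; rfl

theorem lau_sub (f g : PowerSeries ℤ) : lau K (f - g) = lau K f - lau K g := by
  rw [sub_eq_add_neg, lau_add, lau_neg, sub_eq_add_neg]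

theorem lau_one : lau K 1 = 1 := by
  rw [lau, map_one, map_one]

/-- If `f · qⁿ` is an integral power series with constant coefficient `1`, then `f ≠ 0`. -/
theorem ne_zero_of_mul_eq_lau [Nontrivial K] {f : LaurentSeries K} {n : ℕ} {P : PowerSeries ℤ}
    (h : f * lau K X ^ n = lau K P) (hP : constantCoeff P = 1) : f ≠ 0 := by
  rintro rfl
  rw [zero_mul] at h
  have h0 := coeff_lau_natCast K P 0
  rw [← h, PowerSeries.coeff_zero_eq_constantCoeff, hP] at h0
  simp at h0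

end Generic

section Field

variable (K : Type*) [Field K]

theorem lau_X_ne_zero : lau K X ≠ 0 := fun h => by
  have := qinv_mul_lau_X K
  rw [h, mul_zero] at this
  exact zero_ne_one this

theorem qinv_eq_inv : qinv K = (lau K X)⁻¹ :=
  eq_inv_of_mul_eq_one_left (qinv_mul_lau_X K)

theorem lau_T2_ne_zero : lau K T2 ≠ 0 := fun h => by
  have := t2_ne_zero (K := K)
  rw [t2, h, mul_zero] at this
  exact this rfl

theorem lau_T3_ne_zero : lau K T3 ≠ 0 := fun h => by
  have := t3_ne_zero (K := K)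
  rw [t3, h, mul_zero] at this
  exact this rfl

theorem jq_eq_t2 : jqModC K = (t2 K + 256) ^ 3 / t2 K ^ 2 := by
  rw [eq_div_iff (pow_ne_zero 2 (t2_ne_zero (K := K)))]
  exact jq_mul_t2_sq K

theorem jq2_eq_t2 : qExpand K 2 (jqModC K) = (t2 K + 16) ^ 3 / t2 K := by
  rw [eq_div_iff (t2_ne_zero (K := K))]
  exact jq2_mul_t2 K

theorem jq_eq_t3 : jqModC K = (t3 K + 27) * (t3 K + 243) ^ 3 / t3 K ^ 3 := by
  rw [eq_div_iff (pow_ne_zero 3 (t3_ne_zero (K := K)))]
  exact jq_mul_t3_cube K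

theorem jq3_eq_t3 : qExpand K 3 (jqModC K) = (t3 K + 27) * (t3 K + 3) ^ 3 / t3 K := by
  rw [eq_div_iff (t3_ne_zero (K := K))]
  exact jq3_mul_t3 K

/-! ### Level 2 -/

/-- The denominator `U₂ = j j₂ - 720 j - 720 j₂ - 16250625`. -/
def U2 : LaurentSeries K :=
  jqModC K * qExpand K 2 (jqModC K) - 720 * jqModC K - 720 * qExpand K 2 (jqModC K) - 16250625

/-- The numerator `W₂ = j₂² + 4095 j + 195120 j₂ + 660960000`. -/
def W2 : LaurentSeries K :=
  qExpand K 2 (jqModC K) ^ 2 + 4095 * jqModC K + 195120 * qExpand K 2 (jqModC K) + 660960000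

/-- `U₂ · t₂ = W₂`. -/
theorem t2_lin : U2 K * t2 K = W2 K := by
  have ht := t2_ne_zero (K := K)
  rw [U2, W2, jq2_eq_t2, jq_eq_t2]
  field_simp
  ring

/-- `q⁶ · t₂³ · U₂`, an integral power series with constant coefficient `1`. -/
def P2 : PowerSeries ℤ :=
  (T2 + PowerSeries.C (256 : ℤ) * X) ^ 3 * (T2 + PowerSeries.C (16 : ℤ) * X) ^ 3
    - PowerSeries.C (720 : ℤ) * (T2 + PowerSeries.C (256 : ℤ) * X) ^ 3 * T2 * X ^ 2
    - PowerSeries.C (720 : ℤ) * (T2 + PowerSeries.C (16 : ℤ) * X) ^ 3 * T2 ^ 2 * X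
    - PowerSeries.C (16250625 : ℤ) * T2 ^ 3 * X ^ 3

theorem constantCoeff_P2 : constantCoeff P2 = 1 := by
  simp [P2, constantCoeff_T2]

theorem U2_mul : U2 K * t2 K ^ 3 * lau K X ^ 6 = lau K P2 := by
  have hu := lau_X_ne_zero K
  have hτ := lau_T2_ne_zero K
  have ht := t2_ne_zero (K := K)
  rw [U2, jq2_eq_t2, jq_eq_t2, P2]
  simp only [lau_sub, lau_add, lau_mul, lau_pow, lau_C]
  rw [t2, qinv_eq_inv] at ht ⊢
  push_cast
  field_simp

theorem U2_ne_zero : U2 K ≠ 0 := fun h => by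
  have := ne_zero_of_mul_eq_lau K (U2_mul K) constantCoeff_P2
  rw [h, zero_mul] at this
  exact this rfl

/-! ### Level 3 -/

/-- The denominator `U₃ ∈ ℤ[j, j₃]`. -/
def U3 : LaurentSeries K :=
  729 * jqModC K ^ 2 * qExpand K 3 (jqModC K)
    + 196830 * jqModC K * qExpand K 3 (jqModC K) ^ 2 + qExpand K 3 (jqModC K) ^ 3
    - 524880 * jqModC K ^ 2 + 18821147040 * jqModC K * qExpand K 3 (jqModC K)
    - 103456080 * qExpand K 3 (jqModC K) ^ 2 + 14229831680000 * jqModC K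
    + 276373831680000 * qExpand K 3 (jqModC K) - 3623878656000000000

/-- The numerator `W₃ ∈ ℤ[j, j₃]`. -/
def W3 : LaurentSeries K :=
  jqModC K * qExpand K 3 (jqModC K) ^ 3 + 19129644 * jqModC K * qExpand K 3 (jqModC K) ^ 2
    - 756 * qExpand K 3 (jqModC K) ^ 3 + 531440 * jqModC K ^ 2
    + 76509442080 * jqModC K * qExpand K 3 (jqModC K)
    + 23150726640 * qExpand K 3 (jqModC K) ^ 2 - 48430448640000 * jqModC K
    - 14204206448640000 * qExpand K 3 (jqModC K) + 97844723712000000000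

/-- `U₃ · t₃ = W₃`. -/
theorem t3_lin : U3 K * t3 K = W3 K := by
  have ht := t3_ne_zero (K := K)
  rw [U3, W3, jq3_eq_t3, jq_eq_t3]
  field_simp
  ring

/-- `q⁴ (t₃ + 27)(t₃ + 243)³`. -/
def N3a : PowerSeries ℤ :=
  (T3 + PowerSeries.C (27 : ℤ) * X) * (T3 + PowerSeries.C (243 : ℤ) * X) ^ 3

/-- `q⁴ (t₃ + 27)(t₃ + 3)³`. -/
def N3b : PowerSeries ℤ :=
  (T3 + PowerSeries.C (27 : ℤ) * X) * (T3 + PowerSeries.C (3 : ℤ) * X) ^ 3

/-- `q¹⁶ · t₃⁷ · U₃`, an integral power series with constant coefficient `1`. -/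
def P3 : PowerSeries ℤ :=
  PowerSeries.C (729 : ℤ) * N3a ^ 2 * N3b * X ^ 4
    + PowerSeries.C (196830 : ℤ) * N3a * N3b ^ 2 * T3 ^ 2 * X ^ 2 + N3b ^ 3 * T3 ^ 4
    - PowerSeries.C (524880 : ℤ) * N3a ^ 2 * T3 * X ^ 7
    + PowerSeries.C (18821147040 : ℤ) * N3a * N3b * T3 ^ 3 * X ^ 5
    - PowerSeries.C (103456080 : ℤ) * N3b ^ 2 * T3 ^ 5 * X ^ 3
    + PowerSeries.C (14229831680000 : ℤ) * N3a * T3 ^ 4 * X ^ 8
    + PowerSeries.C (276373831680000 : ℤ) * N3b * T3 ^ 6 * X ^ 6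
    - PowerSeries.C (3623878656000000000 : ℤ) * T3 ^ 7 * X ^ 9

theorem constantCoeff_P3 : constantCoeff P3 = 1 := by
  simp [P3, N3a, N3b, constantCoeff_T3]

theorem U3_mul : U3 K * t3 K ^ 7 * lau K X ^ 16 = lau K P3 := by
  have hu := lau_X_ne_zero K
  have hτ := lau_T3_ne_zero K
  have ht := t3_ne_zero (K := K)
  rw [U3, jq3_eq_t3, jq_eq_t3, P3, N3a, N3b]
  simp only [lau_sub, lau_add, lau_mul, lau_pow, lau_C]
  rw [t3, qinv_eq_inv] at ht ⊢
  push_cast
  field_simp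

theorem U3_ne_zero : U3 K ≠ 0 := fun h => by
  have := ne_zero_of_mul_eq_lau K (U3_mul K) constantCoeff_P3
  rw [h, zero_mul] at this
  exact this rfl

/-! ### Membership -/

theorem jqModC_mem_fullC (M : ℕ) : jqModC K ∈ modularFunctionFieldFullC K M := by
  have h := jqModCd_mem_full K M (one_dvd M)
  rwa [qExpand_one_apply] at h

theorem U2_mem (M : ℕ) (h2 : 2 ∣ M) : U2 K ∈ modularFunctionFieldFullC K M := by
  have hj := jqModC_mem_fullC K M
  have hk := jqModCd_mem_full K M h2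
  rw [U2]
  exact sub_mem (sub_mem (sub_mem (mul_mem hj hk) (mul_mem (ofNat_mem _ 720) hj))
    (mul_mem (ofNat_mem _ 720) hk)) (ofNat_mem _ 16250625)

theorem W2_mem (M : ℕ) (h2 : 2 ∣ M) : W2 K ∈ modularFunctionFieldFullC K M := by
  have hj := jqModC_mem_fullC K M
  have hk := jqModCd_mem_full K M h2
  rw [W2]
  exact add_mem (add_mem (add_mem (pow_mem hk 2) (mul_mem (ofNat_mem _ 4095) hj))
    (mul_mem (ofNat_mem _ 195120) hk)) (ofNat_mem _ 660960000)

/-- **`t₂ ∈ K(j_d : d ∣ M)` for `2 ∣ M`**, over every field `K`. -/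
theorem t2_mem_fullC (M : ℕ) (h2 : 2 ∣ M) : t2 K ∈ modularFunctionFieldFullC K M := by
  have h : t2 K = W2 K / U2 K := by
    rw [eq_div_iff (U2_ne_zero K), mul_comm]
    exact t2_lin K
  rw [h]
  exact div_mem (W2_mem K M h2) (U2_mem K M h2)

theorem U3_mem (M : ℕ) (h3 : 3 ∣ M) : U3 K ∈ modularFunctionFieldFullC K M := by
  have hj := jqModC_mem_fullC K M
  have hk := jqModCd_mem_full K M h3
  rw [U3]
  refine sub_mem (add_mem (add_mem (sub_mem (add_mem (sub_mem (add_mem (add_mem ?_ ?_) ?_) ?_)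
    ?_) ?_) ?_) ?_) (ofNat_mem _ _)
  · exact mul_mem (mul_mem (ofNat_mem _ _) (pow_mem hj 2)) hk
  · exact mul_mem (mul_mem (ofNat_mem _ _) hj) (pow_mem hk 2)
  · exact pow_mem hk 3
  · exact mul_mem (ofNat_mem _ _) (pow_mem hj 2)
  · exact mul_mem (mul_mem (ofNat_mem _ _) hj) hk
  · exact mul_mem (ofNat_mem _ _) (pow_mem hk 2)
  · exact mul_mem (ofNat_mem _ _) hj
  · exact mul_mem (ofNat_mem _ _) hk

theorem W3_mem (M : ℕ) (h3 : 3 ∣ M) : W3 K ∈ modularFunctionFieldFullC K M := by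
  have hj := jqModC_mem_fullC K M
  have hk := jqModCd_mem_full K M h3
  rw [W3]
  refine add_mem (sub_mem (sub_mem (add_mem (add_mem (add_mem (sub_mem (add_mem ?_ ?_) ?_) ?_)
    ?_) ?_) ?_) ?_) (ofNat_mem _ _)
  · exact mul_mem hj (pow_mem hk 3)
  · exact mul_mem (mul_mem (ofNat_mem _ _) hj) (pow_mem hk 2)
  · exact mul_mem (ofNat_mem _ _) (pow_mem hk 3)
  · exact mul_mem (ofNat_mem _ _) (pow_mem hj 2)
  · exact mul_mem (mul_mem (ofNat_mem _ _) hj) hk
  · exact mul_mem (ofNat_mem _ _) (pow_mem hk 2)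
  · exact mul_mem (ofNat_mem _ _) hj
  · exact mul_mem (ofNat_mem _ _) hk

/-- **`t₃ ∈ K(j_d : d ∣ M)` for `3 ∣ M`**, over every field `K`. -/
theorem t3_mem_fullC (M : ℕ) (h3 : 3 ∣ M) : t3 K ∈ modularFunctionFieldFullC K M := by
  have h : t3 K = W3 K / U3 K := by
    rw [eq_div_iff (U3_ne_zero K), mul_comm]
    exact t3_lin K
  rw [h]
  exact div_mem (W3_mem K M h3) (U3_mem K M h3)

end Field

/-- `t₂ ∈ ℚ(j_d : d ∣ M)` for `2 ∣ M`. -/
theorem t2_mem_full (M : ℕ) (h2 : 2 ∣ M) : t2 ℚ ∈ modularFunctionFieldFull M :=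
  t2_mem_fullC ℚ M h2

/-- `t₃ ∈ ℚ(j_d : d ∣ M)` for `3 ∣ M`. -/
theorem t3_mem_full (M : ℕ) (h3 : 3 ∣ M) : t3 ℚ ∈ modularFunctionFieldFull M :=
  t3_mem_fullC ℚ M h3

end Fermat.Agent.Lib.Haupt

end
end
-- ===== PACK-END Lib/Haupt/Member.lean

-- ===== PACK-BEGIN S36/H890/Reg9.lean
section




/-!
# `PrincipalAt` on the middle component from the Hauptmodul `t₉` (helper890, S36 REG, `q = 2`)

The level-`9` (`q = 2`) form of route R4, in the vocabulary of `Eng.TripleCtx`; composition of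

* `H878.principalAt_of_unit_self'` (PU-self, elementwise, from `Qep3`),
* `H934.hres_transfer9_shape`      (transfer of the residue from `j` to `t₉`),
* `exists_g9_unit_chart`           (`g₉ = Q(t₉)⁵ / t₉³` is a unit of the chart when `3` is).

`B = chart R S` with `B ⊆ V₁ ∩ V₂ ∩ V₃`, `Qep3 w B V₁ V₂ V₃`; `𝔪` ANY proper ideal of `B` with
`Through B 𝔪 V₂` (every closed point of the middle component, triple points and points over
`j = 0, 1728` included).  Inputs:

* (R-U)   `U, d ∈ B`, `U d = w ^ k`, `U⁻¹ ∈ V₁ ∩ V₃`, `v₂(U) = 6 kk`  (`U = U_m`, `6 kk = 12 (q - 1)`);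
* (R-RES) `hres` for `j`: `((j₂ - j₁) ^ (6 kk) - (j₁⁴ (j₁ - 1728)³) ^ kk · U) / U ∈ 𝔪_{V₂}`
          (`j₁ = j`, `j₂ = j_{q²}`);
* (R-9)   `h₁ = t₉`, `h₂ = t₉(t^{q²})` with `j_i · h_i⁹ Q(h_i) = (h_i + 9)³ (h_i³ + 243 Q(h_i))³`
          (`Haupt9.jq_mul_t9`), `j₁, j₂, 3⁻¹ ∈ B`, `h₁`, `Q(h₁)`, `j₁`, `j₁ - 1728` units of `V₂`
          (`Vinf9`), `h₂ - h₁ ∈ 𝔪_{V₂}`.

Output: `Eng.PrincipalAt B 𝔪 V₂`, generator `x = h₂ - h₁ = t₉(t^{q²}) - t₉`.
-/

set_option autoImplicit false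

noncomputable section

namespace Fermat.Agent.S36.H890

open Fermat.Agent.S36.Eng Fermat.Agent.S18.H138

variable {R F : Type*} [CommRing R] [Field F] [CharZero F] [Algebra R F]

/-- **Route R4 with `t₉`: the middle component is principal at every closed point.** -/
theorem principalAt_t9 (w : R) (S : Set F) (V₁ V₂ V₃ : ValuationSubring F)
    (hw0 : algebraMap R F w ≠ 0)
    (hB₁ : ∀ b : chart R S, (b : F) ∈ V₁) (hB₂ : ∀ b : chart R S, (b : F) ∈ V₂)
    (hB₃ : ∀ b : chart R S, (b : F) ∈ V₃)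
    (hqep : Qep3 w (chart R S) V₁ V₂ V₃)
    (𝔪 : Ideal (chart R S)) (h𝔪 : 𝔪 ≠ ⊤) (hthr : Through (chart R S) 𝔪 V₂)
    -- (R-U)
    (U d : chart R S) (k kk : ℕ) (hkk : 0 < kk)
    (hUd : U * d = algebraMap R (chart R S) w ^ k)
    (hU₁ : (U : F)⁻¹ ∈ V₁) (hU₃ : (U : F)⁻¹ ∈ V₃)
    (t : F) (ht : UnifAt V₂ t) (hU₂ : UnitAt V₂ ((U : F) * (t ^ (6 * kk))⁻¹))
    -- (R-9)
    (j₁ j₂ h₁ h₂ : F)
    (hj₁B : j₁ ∈ chart R S) (hj₂B : j₂ ∈ chart R S) (h3 : (3 : F)⁻¹ ∈ chart R S)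
    (hJ₁ : j₁ * (h₁ ^ 9 * (h₁ ^ 2 + 9 * h₁ + 27))
      = (h₁ + 9) ^ 3 * (h₁ ^ 3 + 243 * (h₁ ^ 2 + 9 * h₁ + 27)) ^ 3)
    (hJ₂ : j₂ * (h₂ ^ 9 * (h₂ ^ 2 + 9 * h₂ + 27))
      = (h₂ + 9) ^ 3 * (h₂ ^ 3 + 243 * (h₂ ^ 2 + 9 * h₂ + 27)) ^ 3)
    (hh₁ : UnitAt V₂ h₁) (hQ₁ : UnitAt V₂ (h₁ ^ 2 + 9 * h₁ + 27))
    (hj₁ : UnitAt V₂ j₁) (hj₁' : UnitAt V₂ (j₁ - 1728))
    (hx : h₂ - h₁ ∈ V₂.nonunits)
    -- (R-RES)
    (hres : ((j₂ - j₁) ^ (6 * kk) - (j₁ ^ 4 * (j₁ - 1728) ^ 3) ^ kk * (U : F)) * (U : F)⁻¹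
      ∈ V₂.nonunits) :
    PrincipalAt (chart R S) 𝔪 V₂ := by
  have hh₁B : h₁ ∈ chart R S := mem_chart_of_rel9 S hj₁B hJ₁
  have hh₂B : h₂ ∈ chart R S := mem_chart_of_rel9 S hj₂B hJ₂
  obtain ⟨g, g', hgF, hgg'⟩ := exists_g9_unit_chart S hj₁B h3 hJ₁ kk
  have hg : g ∉ 𝔪 := not_mem_of_mul_eq_one hgg' 𝔪 h𝔪
  have hres' := Fermat.Agent.S36.H934.hres_transfer9_shape V₂ j₁ j₂ h₁ h₂ (U : F) kk hJ₁ hJ₂
    (H878.valuation_eq_one_of_unitAt V₂ hh₁) (H878.valuation_eq_one_of_unitAt V₂ hQ₁)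
    (H878.valuation_eq_one_of_unitAt V₂ hj₁) (H878.valuation_eq_one_of_unitAt V₂ hj₁')
    (hB₂ ⟨h₂, hh₂B⟩) hx hres
  refine H878.principalAt_of_unit_self' w (chart R S) V₁ V₂ V₃ hw0 hB₁ hB₂ hB₃ hqep 𝔪 hthr
    ((⟨h₂, hh₂B⟩ : chart R S) - ⟨h₁, hh₁B⟩) U d g k (6 * kk) (by omega) hUd hU₁ hU₃ t ht hU₂ hg ?_
  rw [hgF]
  exact hres'

end Fermat.Agent.S36.H890

end
end
-- ===== PACK-END S36/H890/Reg9.lean

-- ===== PACK-BEGIN S36/Mod3/H839/UniqAbs.lean
section


/-!
# S36 / MOD3, leaf UNIQ — abstract core (helper839)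

`unique_α` and `unique_β` of `Eng.TripleCtx` (= `Mod3.PartUniq`) are FORMAL consequences of the
other fields (no going-up / going-down, no noetherian hypothesis):

* `Qep3` + the multiplicities `(1, q - 1, 1)` ⟹ every closed point of the special fibre of the
  finite chart lies on one of the three components (`through_of_qep839`);
* on `V₁`, `V₂` the chart is `α (Bf') + (Bf ∩ 𝔪_V)` (`res_α₁`, `res_α₂`): a closed point on the
  component is determined by its image under `α`;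
* on `V₃` the extension is radicial: `α (N_α b) ≡ b ^ q` (`nr_α₂`), and `N_α b ∈ Bf'`
  (`int_α` + integrality of norms).

Main statements: `unique_alpha839`, `unique_beta839` (fields passed one by one) and
`partUniq_of_parts839 : PartVal → Qep3 → PartChart → PartNR → PartUniq`.
-/

set_option autoImplicit false
set_option linter.style.haveILetI false
set_option linter.unusedSectionVars false
set_option linter.unusedVariables false

noncomputable section

namespace Fermat.Agent.S36.Mod3.H839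

open AlgebraicCurve Polynomial
open Fermat.Agent.S18.H138 (chart mem_chart)
open Fermat.Agent.S36.Eng

section Chart

variable {R F : Type*} [CommRing R] [Field F] [Algebra R F]

/-- A chart lies in every valuation ring which contains `R` and the coordinates. -/
theorem mem_valuationSubring_of_mem_chart839 (V : ValuationSubring F)
    (hR : ∀ r : R, algebraMap R F r ∈ V) {S : Set F} (hS : ∀ s ∈ S, s ∈ V) {y : F}
    (hy : y ∈ chart R S) : y ∈ V := by
  rw [mem_chart] at hy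
  have hle : ∀ a ∈ Algebra.adjoin R S, a ∈ V := by
    intro a ha
    induction ha using Algebra.adjoin_induction with
    | mem s hs => exact hS s hs
    | algebraMap r => exact hR r
    | add a b _ _ ha hb => exact V.add_mem _ _ ha hb
    | mul a b _ _ ha hb => exact V.mul_mem _ _ ha hb
  let φ : ↥(Algebra.adjoin R S) →+* ↥V :=
    (Algebra.adjoin R S).val.toRingHom.codRestrict V.toSubring fun a => hle a a.2
  have hy' : IsIntegral ↥V y := by
    have := IsIntegral.map_of_comp_eq (R := ↥(Algebra.adjoin R S)) (S := F) (T := ↥V) (U := F)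
      φ (RingHom.id F) (by ext; rfl) hy
    simpa using this
  obtain ⟨z, hz⟩ := IsIntegrallyClosed.isIntegral_iff.1 hy'
  rw [← hz]
  exact z.2

end Chart

section Norm

variable {R E F F' : Type*} [CommRing R] [Field E] [Algebra R E]
  [Field F] [Algebra E F] [Algebra R F] [Field F'] [Algebra E F'] [Algebra R F']

/-- The norm of an element which is integral over the image of a chart lies in the chart. -/
theorem normAlong_mem_chart839 (α : F' →ₐ[E] F) {S' : Set F'} {b : F}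
    (hb : ∃ p : Polynomial F', p.Monic ∧ (∀ i, p.coeff i ∈ chart R S') ∧
      (p.map (α : F' →+* F)).eval b = 0) :
    S29.H395.normAlong α b ∈ chart R S' := by
  letI := algebraAlong α
  obtain ⟨p, hpm, hpc, hpb⟩ := hb
  rw [mem_chart]
  have hlift : p ∈ Polynomial.lifts (algebraMap ↥(integralClosure ↥(Algebra.adjoin R S') F') F') := by
    rw [Polynomial.lifts_iff_coeff_lifts]
    intro n
    exact ⟨⟨p.coeff n, hpc n⟩, rfl⟩
  obtain ⟨p₀, hp₀, -, hp₀m⟩ := Polynomial.lifts_and_degree_eq_and_monic hlift hpm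
  have hC : IsIntegral ↥(integralClosure ↥(Algebra.adjoin R S') F') b := by
    refine ⟨p₀, hp₀m, ?_⟩
    rw [Polynomial.eval₂_eq_eval_map, ← hpb, ← hp₀, Polynomial.map_map]
    rfl
  have hint : IsIntegral ↥(Algebra.adjoin R S') b := isIntegral_trans b hC
  exact Algebra.isIntegral_norm F' hint

end Norm

section Main

variable {R E F F' : Type*} [CommRing R] [Field E] [Algebra R E]
  [Field F] [Algebra E F] [Algebra R F] [Field F'] [Algebra E F'] [Algebra R F']

/-- `Qep3` is symmetric in the outer components. -/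
theorem qep3_swap839 {w : R} {B : Subalgebra R F} {V₁ V₂ V₃ : ValuationSubring F}
    (h : Qep3 w B V₁ V₂ V₃) : Qep3 w B V₃ V₂ V₁ :=
  fun b h3 h2 h1 => h b h1 h2 h3

/-- `IsTriple` is symmetric in the outer components. -/
theorem isTriple_swap839 {B : Subalgebra R F} {𝔪 : Ideal B} {V₁ V₂ V₃ : ValuationSubring F}
    (h : IsTriple B 𝔪 V₁ V₂ V₃) : IsTriple B 𝔪 V₃ V₂ V₁ :=
  ⟨h.2.2, h.2.1, h.1⟩

/-- An element of a valuation ring which is not in the maximal ideal is a unit. -/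
theorem unitAt_of_not_mem_nonunits839 {V : ValuationSubring F} {y : F} (hy : y ∈ V)
    (hy' : y ∉ V.nonunits) : UnitAt V y := by
  rw [ValuationSubring.mem_nonunits_iff_or, not_or, not_not] at hy'
  exact ⟨hy'.1, hy, hy'.2⟩

/-- **Every closed point of the special fibre lies on one of the three components.** -/
theorem through_of_qep839 (w : R) (q : ℕ) (x : F) (V₁ V₂ V₃ : ValuationSubring F)
    (hB₁ : ∀ b ∈ chart R ({x} : Set F), b ∈ V₁) (hB₂ : ∀ b ∈ chart R ({x} : Set F), b ∈ V₂)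
    (hB₃ : ∀ b ∈ chart R ({x} : Set F), b ∈ V₃)
    (unif₁ : UnifAt V₁ (algebraMap R F w)) (unif₃ : UnifAt V₃ (algebraMap R F w))
    (ram₂ : ∃ t : F, UnifAt V₂ t ∧ UnitAt V₂ (algebraMap R F w * (t ^ (q - 1))⁻¹))
    (qep : Qep3 w (chart R ({x} : Set F)) V₁ V₂ V₃)
    (𝔪 : Ideal (chart R ({x} : Set F))) (h𝔪 : 𝔪.IsPrime)
    (hw : algebraMap R (chart R ({x} : Set F)) w ∈ 𝔪) :
    Through _ 𝔪 V₁ ∨ Through _ 𝔪 V₂ ∨ Through _ 𝔪 V₃ := by
  by_contra hcon
  rw [not_or, not_or] at hcon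
  obtain ⟨h1, h2, h3⟩ := hcon
  unfold Through at h1 h2 h3
  rw [not_forall] at h1 h2 h3
  obtain ⟨b₁, hb₁⟩ := h1
  obtain ⟨b₂, hb₂⟩ := h2
  obtain ⟨b₃, hb₃⟩ := h3
  rw [Classical.not_imp] at hb₁ hb₂ hb₃
  obtain ⟨t, ht, hu⟩ := ram₂
  have hw0 : algebraMap R F w ≠ 0 := unif₁.1
  have hT0 : t ^ (q - 1) ≠ 0 := pow_ne_zero _ ht.1
  have k1 : ((b₁ * b₂ ^ (q - 1) * b₃ : chart R ({x} : Set F)) : F) * (algebraMap R F w)⁻¹
      ∈ V₁ := by
    have e : ((b₁ * b₂ ^ (q - 1) * b₃ : chart R ({x} : Set F)) : F) * (algebraMap R F w)⁻¹ =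
        ((b₁ : F) * (algebraMap R F w)⁻¹) * ((b₂ : F) ^ (q - 1) * (b₃ : F)) := by
      push_cast
      ring
    rw [e]
    exact V₁.mul_mem _ _ (unif₁.2.2 _ hb₁.1)
      (V₁.mul_mem _ _ (pow_mem (hB₁ _ b₂.2) _) (hB₁ _ b₃.2))
  have k2 : ((b₁ * b₂ ^ (q - 1) * b₃ : chart R ({x} : Set F)) : F) * (algebraMap R F w)⁻¹
      ∈ V₂ := by
    have e : ((b₁ * b₂ ^ (q - 1) * b₃ : chart R ({x} : Set F)) : F) * (algebraMap R F w)⁻¹ =
        (b₁ : F) * (((b₂ : F) * t⁻¹) ^ (q - 1) *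
          (algebraMap R F w * (t ^ (q - 1))⁻¹)⁻¹) * (b₃ : F) := by
      push_cast
      have ht0 : t ≠ 0 := ht.1
      rw [mul_pow, mul_inv, inv_inv, inv_pow]
      field_simp
    rw [e]
    exact V₂.mul_mem _ _ (V₂.mul_mem _ _ (hB₂ _ b₁.2)
      (V₂.mul_mem _ _ (pow_mem (ht.2.2 _ hb₂.1) _) hu.2.2)) (hB₂ _ b₃.2)
  have k3 : ((b₁ * b₂ ^ (q - 1) * b₃ : chart R ({x} : Set F)) : F) * (algebraMap R F w)⁻¹
      ∈ V₃ := by
    have e : ((b₁ * b₂ ^ (q - 1) * b₃ : chart R ({x} : Set F)) : F) * (algebraMap R F w)⁻¹ =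
        ((b₁ : F) * (b₂ : F) ^ (q - 1)) * ((b₃ : F) * (algebraMap R F w)⁻¹) := by
      push_cast
      ring
    rw [e]
    exact V₃.mul_mem _ _ (V₃.mul_mem _ _ (hB₃ _ b₁.2) (pow_mem (hB₃ _ b₂.2) _))
      (unif₃.2.2 _ hb₃.1)
  have key : b₁ * b₂ ^ (q - 1) * b₃ ∈ 𝔪 := by
    obtain ⟨c, hc⟩ := qep (b₁ * b₂ ^ (q - 1) * b₃) k1 k2 k3
    rw [hc]
    exact 𝔪.mul_mem_right _ hw
  rcases h𝔪.mem_or_mem key with h | h
  · rcases h𝔪.mem_or_mem h with h | h
    · exact hb₁.2 h
    · exact hb₂.2 (h𝔪.mem_of_pow_mem _ h)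
  · exact hb₃.2 h

variable [IsScalarTower R E F] [IsScalarTower R E F']

/-- `α` is `R`-linear on constants. -/
theorem algHom_algebraMap839 (α : F' →ₐ[E] F) (r : R) :
    α (algebraMap R F' r) = algebraMap R F r := by
  rw [IsScalarTower.algebraMap_apply R E F', IsScalarTower.algebraMap_apply R E F, α.commutes]

/-- **UNIQ along `α`** (fields of `Eng.TripleCtx` passed one by one): a triple point is the only
closed point of the finite chart over its image under `α`. -/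
theorem unique_alpha839 (w : R) (q : ℕ) (hq : q ≠ 0) (α : F' →ₐ[E] F) (x : F) (x' : F')
    (V₁ V₂ V₃ : ValuationSubring F)
    (hB₁ : ∀ b ∈ chart R ({x} : Set F), b ∈ V₁) (hB₂ : ∀ b ∈ chart R ({x} : Set F), b ∈ V₂)
    (hB₃ : ∀ b ∈ chart R ({x} : Set F), b ∈ V₃)
    (unif₁ : UnifAt V₁ (algebraMap R F w)) (unif₃ : UnifAt V₃ (algebraMap R F w))
    (ram₂ : ∃ t : F, UnifAt V₂ t ∧ UnitAt V₂ (algebraMap R F w * (t ^ (q - 1))⁻¹))
    (qep : Qep3 w (chart R ({x} : Set F)) V₁ V₂ V₃)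
    (int_α : ∀ b ∈ chart R ({x} : Set F), ∃ p : Polynomial F', p.Monic ∧
      (∀ i, p.coeff i ∈ chart R ({x'} : Set F')) ∧ (p.map (α : F' →+* F)).eval b = 0)
    (res_α₁ : ∀ b ∈ chart R ({x} : Set F), ∃ b' ∈ chart R ({x'} : Set F'),
      b - α b' ∈ V₁.nonunits)
    (res_α₂ : ∀ b ∈ chart R ({x} : Set F), ∃ b' ∈ chart R ({x'} : Set F'),
      b - α b' ∈ V₂.nonunits)
    (nr_α₂ : ∀ y : F, UnitAt V₃ y → α (S29.H395.normAlong α y) - y ^ q ∈ V₃.nonunits)
    (hα : ∀ b ∈ chart R ({x'} : Set F'), α b ∈ chart R ({x} : Set F))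
    (𝔪 𝔪' : Ideal (chart R ({x} : Set F))) (h𝔪 : 𝔪.IsMaximal) (h𝔪' : 𝔪'.IsMaximal)
    (htri : IsTriple _ 𝔪 V₁ V₂ V₃)
    (hsub : ∀ (b' : F') (h : b' ∈ chart R ({x'} : Set F')),
      (⟨α b', hα b' h⟩ : chart R ({x} : Set F)) ∈ 𝔪 →
        (⟨α b', hα b' h⟩ : chart R ({x} : Set F)) ∈ 𝔪') : 𝔪' = 𝔪 := by
  have hw𝔪 : algebraMap R (chart R ({x} : Set F)) w ∈ 𝔪 := htri.1 _ unif₁.2.1
  have hwe : (⟨α (algebraMap R F' w), hα _ (Subalgebra.algebraMap_mem _ w)⟩ :
      chart R ({x} : Set F)) = algebraMap R (chart R ({x} : Set F)) w :=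
    Subtype.ext (algHom_algebraMap839 α w)
  have hw𝔪' : algebraMap R (chart R ({x} : Set F)) w ∈ 𝔪' := by
    rw [← hwe]
    exact hsub _ (Subalgebra.algebraMap_mem _ w) (by rw [hwe]; exact hw𝔪)
  have hle : 𝔪 ≤ 𝔪' := by
    -- the two "residue degree one" cases
    have hres : ∀ V : ValuationSubring F, Through _ 𝔪 V → Through _ 𝔪' V →
        (∀ b ∈ chart R ({x} : Set F), ∃ b' ∈ chart R ({x'} : Set F'), b - α b' ∈ V.nonunits) →
        𝔪 ≤ 𝔪' := by
      intro V hV hV' hres b hb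
      obtain ⟨b', hb', hbb'⟩ := hres b b.2
      have hc : b - ⟨α b', hα b' hb'⟩ ∈ 𝔪 := hV _ hbb'
      have hc' : b - ⟨α b', hα b' hb'⟩ ∈ 𝔪' := hV' _ hbb'
      have h1 : (⟨α b', hα b' hb'⟩ : chart R ({x} : Set F)) ∈ 𝔪 := by
        have := 𝔪.sub_mem hb hc
        rwa [sub_sub_cancel] at this
      have h2 := hsub b' hb' h1
      have := 𝔪'.add_mem hc' h2
      rwa [sub_add_cancel] at this
    rcases through_of_qep839 w q x V₁ V₂ V₃ hB₁ hB₂ hB₃ unif₁ unif₃ ram₂ qep 𝔪'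
      h𝔪'.isPrime hw𝔪' with h | h | h
    · exact hres V₁ htri.1 h res_α₁
    · exact hres V₂ htri.2.1 h res_α₂
    · intro b hb
      by_cases hbu : (b : F) ∈ V₃.nonunits
      · exact h b hbu
      · have hu : UnitAt V₃ (b : F) := unitAt_of_not_mem_nonunits839 (hB₃ _ b.2) hbu
        have hN : S29.H395.normAlong α (b : F) ∈ chart R ({x'} : Set F') :=
          normAlong_mem_chart839 α (int_α b b.2)
        have hnr := nr_α₂ b hu
        have hc : (⟨α (S29.H395.normAlong α (b : F)), hα _ hN⟩ : chart R ({x} : Set F)) - b ^ q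
            ∈ 𝔪 := htri.2.2 _ hnr
        have hc' : (⟨α (S29.H395.normAlong α (b : F)), hα _ hN⟩ : chart R ({x} : Set F)) - b ^ q
            ∈ 𝔪' := h _ hnr
        have hbq : b ^ q ∈ 𝔪 := 𝔪.pow_mem_of_mem hb q (Nat.pos_of_ne_zero hq)
        have h1 : (⟨α (S29.H395.normAlong α (b : F)), hα _ hN⟩ : chart R ({x} : Set F)) ∈ 𝔪 := by
          have := 𝔪.add_mem hc hbq
          rwa [sub_add_cancel] at this
        have h2 := hsub _ hN h1
        have h3 : b ^ q ∈ 𝔪' := by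
          have := 𝔪'.sub_mem h2 hc'
          rwa [sub_sub_cancel] at this
        exact h𝔪'.isPrime.mem_of_pow_mem _ h3
  exact (h𝔪.eq_of_le h𝔪'.ne_top hle).symm

/-- **UNIQ along `β`**: the same with the roles of `V₁` and `V₃` exchanged. -/
theorem unique_beta839 (w : R) (q : ℕ) (hq : q ≠ 0) (β : F' →ₐ[E] F) (x : F) (x' : F')
    (V₁ V₂ V₃ : ValuationSubring F)
    (hB₁ : ∀ b ∈ chart R ({x} : Set F), b ∈ V₁) (hB₂ : ∀ b ∈ chart R ({x} : Set F), b ∈ V₂)
    (hB₃ : ∀ b ∈ chart R ({x} : Set F), b ∈ V₃)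
    (unif₁ : UnifAt V₁ (algebraMap R F w)) (unif₃ : UnifAt V₃ (algebraMap R F w))
    (ram₂ : ∃ t : F, UnifAt V₂ t ∧ UnitAt V₂ (algebraMap R F w * (t ^ (q - 1))⁻¹))
    (qep : Qep3 w (chart R ({x} : Set F)) V₁ V₂ V₃)
    (int_β : ∀ b ∈ chart R ({x} : Set F), ∃ p : Polynomial F', p.Monic ∧
      (∀ i, p.coeff i ∈ chart R ({x'} : Set F')) ∧ (p.map (β : F' →+* F)).eval b = 0)
    (res_β₃ : ∀ b ∈ chart R ({x} : Set F), ∃ b' ∈ chart R ({x'} : Set F'),
      b - β b' ∈ V₃.nonunits)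
    (res_β₂ : ∀ b ∈ chart R ({x} : Set F), ∃ b' ∈ chart R ({x'} : Set F'),
      b - β b' ∈ V₂.nonunits)
    (nr_β₂ : ∀ y : F, UnitAt V₁ y → β (S29.H395.normAlong β y) - y ^ q ∈ V₁.nonunits)
    (hβ : ∀ b ∈ chart R ({x'} : Set F'), β b ∈ chart R ({x} : Set F))
    (𝔪 𝔪' : Ideal (chart R ({x} : Set F))) (h𝔪 : 𝔪.IsMaximal) (h𝔪' : 𝔪'.IsMaximal)
    (htri : IsTriple _ 𝔪 V₁ V₂ V₃)
    (hsub : ∀ (b' : F') (h : b' ∈ chart R ({x'} : Set F')),
      (⟨β b', hβ b' h⟩ : chart R ({x} : Set F)) ∈ 𝔪 →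
        (⟨β b', hβ b' h⟩ : chart R ({x} : Set F)) ∈ 𝔪') : 𝔪' = 𝔪 :=
  unique_alpha839 w q hq β x x' V₃ V₂ V₁ hB₃ hB₂ hB₁ unif₃ unif₁ ram₂ (qep3_swap839 qep)
    int_β res_β₃ res_β₂ nr_β₂ hβ 𝔪 𝔪' h𝔪 h𝔪' (isTriple_swap839 htri) hsub

/-- **`PartUniq` is a formal consequence of `PartVal`, `Qep3` (finite chart), `PartChart` and
`PartNR`**, as soon as `R` lies in the three valuation rings. -/
theorem partUniq_of_parts839 (w : R) (q : ℕ) (hq : q ≠ 0) (α β : F' →ₐ[E] F) (x : F) (x' : F')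
    (V₁ V₂ V₃ : ValuationSubring F) (V₁' V₂' : ValuationSubring F')
    (hR₁ : ∀ r : R, algebraMap R F r ∈ V₁) (hR₂ : ∀ r : R, algebraMap R F r ∈ V₂)
    (hR₃ : ∀ r : R, algebraMap R F r ∈ V₃)
    (hval : PartVal w q x V₁ V₂ V₃) (hqep : Qep3 w (chart R ({x} : Set F)) V₁ V₂ V₃)
    (hchart : PartChart R α β x x' V₁ V₂ V₃) (hnr : PartNR q α β V₁ V₂ V₃ V₁' V₂') :
    PartUniq R α β x x' V₁ V₂ V₃ := by
  have hB₁ : ∀ b ∈ chart R ({x} : Set F), b ∈ V₁ := fun b hb =>
    mem_valuationSubring_of_mem_chart839 V₁ hR₁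
      (fun s hs => by rw [Set.mem_singleton_iff.1 hs]; exact hval.x_unit₁.2.1) hb
  have hB₂ : ∀ b ∈ chart R ({x} : Set F), b ∈ V₂ := fun b hb =>
    mem_valuationSubring_of_mem_chart839 V₂ hR₂
      (fun s hs => by rw [Set.mem_singleton_iff.1 hs]; exact hval.x_unit₂.2.1) hb
  have hB₃ : ∀ b ∈ chart R ({x} : Set F), b ∈ V₃ := fun b hb =>
    mem_valuationSubring_of_mem_chart839 V₃ hR₃
      (fun s hs => by rw [Set.mem_singleton_iff.1 hs]; exact hval.x_unit₃.2.1) hb
  refine ⟨?_, ?_⟩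
  · intro hα 𝔪 𝔪' h𝔪 h𝔪' htri hsub
    exact unique_alpha839 w q hq α x x' V₁ V₂ V₃ hB₁ hB₂ hB₃ hval.unif₁ hval.unif₃ hval.ram₂
      hqep hchart.int_α hchart.res_α₁ hchart.res_α₂ hnr.nr_α₂ hα 𝔪 𝔪' h𝔪 h𝔪' htri hsub
  · intro hβ 𝔪 𝔪' h𝔪 h𝔪' htri hsub
    exact unique_beta839 w q hq β x x' V₁ V₂ V₃ hB₁ hB₂ hB₃ hval.unif₁ hval.unif₃ hval.ram₂
      hqep hchart.int_β hchart.res_β₃ hchart.res_β₂ hnr.nr_β₂ hβ 𝔪 𝔪' h𝔪 h𝔪' htri hsub

end Main

end Fermat.Agent.S36.Mod3.H839

end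

end
-- ===== PACK-END S36/Mod3/H839/UniqAbs.lean

-- ===== PACK-BEGIN S59/H667/E23Final.lean
section







/-!
# S59 / layer E, pieces E2+E3 for the Tate module (helper667)

Unconditional versions of `E23Galois.lean` (the inputs `FrobRelation` and
`FrobeniusDivisionStatement` are on main) and their transport, through helper127's bridge
(`S59/H127/BridgeE.lean`), to the `p`-adic Tate module `tateGaloisRep W' cb : GaloisRepAdic ℤ_[p]`
of an integral Weierstrass model `W` with `Δ ≠ 0` and irreducible `E[p]`: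

* `tate_detIsCyclotomic` : `(tateGaloisRep W' cb).DetIsCyclotomic p`   (field `det` of `CurveRep`);
* `tate_charpoly_frob`   : `charpoly ρ(Frob_ℓ) = X² − a_ℓ X + ℓ` for good `ℓ ≥ 5`, `ℓ ≠ p`
  (field `charpoly_frob` of `CurveRep`, except for `ℓ ∈ {2, 3}`).
-/

set_option autoImplicit false

open WeierstrassCurve WeierstrassCurve.Affine WeierstrassCurve.Affine.Point Polynomial

namespace Fermat.Agent.S59.H667

/-- the Frobenius relation (Lib/Frob), unconditionally -/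
theorem frobRelationE : Fermat.Agent.Lib.Frob.FrobRelation :=
  Fermat.Agent.Lib.Frob.frobRelation_of_parts Fermat.Agent.Lib.Frob.frobRelationFin
    Fermat.Agent.Lib.Frob.reductionData

variable (W : WeierstrassCurve ℤ) (hΔ : W.Δ ≠ 0) (p : ℕ) [Fact p.Prime]

include hΔ in
theorem isElliptic_of_Δ_ne_zero : ((W.map (Int.castRingHom ℚ))⁄QbE).IsElliptic := by
  refine ⟨isUnit_iff_ne_zero.mpr ?_⟩
  simp only [WeierstrassCurve.baseChange, WeierstrassCurve.map_Δ]
  simpa using hΔ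

variable (hirr : W.ModRepIsIrreducible p)
  (cb : Fermat.Agent.S59.H127.CompatBasis (PtsE W) p 2)

include hΔ hirr in
theorem exists_not_isScalarOnP' : ∃ h : GQE, ¬ IsScalarOnP W p h := by
  have := isElliptic_of_Δ_ne_zero W hΔ
  exact exists_not_isScalarOnP W p hirr
    (Fermat.Agent.S59.H127.card_torsion_prime (W.map (Int.castRingHom ℚ)) p)

include hΔ hirr cb in
/-- (E3) at finite level, unconditional. -/
theorem det_rhoFin_eq_natCast' (n : ℕ) (σ : GQE) (a : ℕ)
    (ha : ∀ μ : QbE, μ ^ p ^ n = 1 → σ μ = μ ^ a) :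
    LinearMap.det (rhoFin W (p ^ n) σ) = (a : ZMod (p ^ n)) := by
  rcases Nat.eq_zero_or_pos n with rfl | hn
  · have : Subsingleton (ZMod (p ^ 0)) := by
      rw [pow_zero]
      infer_instance
    exact Subsingleton.elim _ _
  · exact det_rhoFin_eq_natCast W frobRelationE Fermat.Agent.Lib.Cheb.frobeniusDivision hΔ p n hn
      (cb.levelBasis n) (exists_not_isScalarOnP' W hΔ p hirr) σ a ha

include hΔ hirr cb in
/-- (E2) at finite level, unconditional. -/
theorem charpoly_rhoFin_frob' (n : ℕ)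
    (ℓ : ℕ) (hℓ : ℓ.Prime) (h5 : 5 ≤ ℓ) (hgood : W.IsGoodPrimeFor ℓ) (hℓp : ℓ ≠ p)
    (A : ValuationSubring QbE) (hA : A.LiesOverPrime ℓ) (τ : GQE) (hτ : A.IsFrobeniusAt τ ℓ) :
    haveI := cb.free_level n
    haveI := cb.finite_level n
    LinearMap.charpoly (rhoFin W (p ^ n) τ)
      = X ^ 2 - C ((W.apOfModel ℓ : ℤ) : ZMod (p ^ n)) * X + C (((ℓ : ℤ) : ZMod (p ^ n))) := by
  rcases Nat.eq_zero_or_pos n with rfl | hn
  · have : Subsingleton (ZMod (p ^ 0)) := by
      rw [pow_zero]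
      infer_instance
    exact Subsingleton.elim _ _
  · have h := charpoly_rhoFin_frob W frobRelationE Fermat.Agent.Lib.Cheb.frobeniusDivision hΔ p n
      hn (cb.levelBasis n) (exists_not_isScalarOnP' W hΔ p hirr) ℓ hℓ h5 hgood hℓp A hA τ hτ
    rw [Int.cast_natCast]
    exact h

section Tate

variable [hE : ((W.map (Int.castRingHom ℚ))⁄(AlgebraicClosure ℚ)).IsElliptic]

include hΔ hirr in
/-- **(E3) for the Tate module**: its determinant is the `p`-adic cyclotomic character. -/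
theorem tate_detIsCyclotomic :
    (Fermat.Agent.S59.H127.tateGaloisRep (W.map (Int.castRingHom ℚ)) cb).DetIsCyclotomic p :=
  Fermat.Agent.S59.H127.detIsCyclotomic_of_level (W.map (Int.castRingHom ℚ)) cb
    (fun n σ a ha => det_rhoFin_eq_natCast' W hΔ p hirr cb n σ a ha)

include hΔ hirr in
/-- **(E2) for the Tate module**: the characteristic polynomial of a Frobenius element at a prime
`ℓ ≥ 5`, `ℓ ≠ p`, of good reduction is `X² − a_ℓ X + ℓ`. -/
theorem tate_charpoly_frob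
    (ℓ : ℕ) (hℓ : ℓ.Prime) (h5 : 5 ≤ ℓ) (hgood : W.IsGoodPrimeFor ℓ) (hℓp : ℓ ≠ p)
    (A : ValuationSubring QbE) (hA : A.LiesOverPrime ℓ) (τ : GQE) (hτ : A.IsFrobeniusAt τ ℓ) :
    LinearMap.charpoly ((Fermat.Agent.S59.H127.tateGaloisRep (W.map (Int.castRingHom ℚ)) cb).ρ τ)
      = X ^ 2 - C ((W.apOfModel ℓ : ℤ) : ℤ_[p]) * X + C (((ℓ : ℤ) : ℤ_[p])) :=
  Fermat.Agent.S59.H127.charpoly_tate_eq_quadratic_of_level (W.map (Int.castRingHom ℚ)) cb τ
    (W.apOfModel ℓ) (ℓ : ℤ)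
    (fun n => charpoly_rhoFin_frob' W hΔ p hirr cb n ℓ hℓ h5 hgood hℓp A hA τ hτ)

end Tate

end Fermat.Agent.S59.H667

end
-- ===== PACK-END S59/H667/E23Final.lean

-- ===== PACK-BEGIN S59/TW/Aut/H511/Idem.lean
section





/-!
# S59 / cell TW, layer 3, leaf IDEM (helper511): `idem : Aut.IdemStatement`

The localisation of `X_K(𝒪) = Hom(K, 𝒪)` at a maximal ideal of the Hecke algebra exists, for
every `K` between `Γ₁(M)` and `Γ₀(M)`: `IdemCore.idem_of_comm` applied to the commuting family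
of all `T_ℓ` (`ℓ ∤ M`), `U_q` (`q ∣ M`) and diamond operators (helper653, `TW/H653`).
-/

set_option autoImplicit false

open Polynomial IsLocalRing CongruenceSubgroup
open scoped MatrixGroups

namespace Fermat.Agent.S59.TW.Aut.H511

open Fermat.Agent.S59.TW.H653 Fermat.Agent.S59.TW.Aut

section Lin

variable {M : ℕ} {K : Subgroup SL(2, ℤ)} (hK : IsMid M K) (𝒪 : Type) [CommRing 𝒪]

theorem smul_eq_comp (c : 𝒪) (φ : Additive K →+ 𝒪) :
    c • φ = (AddMonoidHom.mulLeft c).comp φ := rfl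

/-- `T_ℓ` as an `𝒪`-linear map. -/
noncomputable def TKl (ℓ : ℕ) [Fact ℓ.Prime] (hℓ : ¬ ℓ ∣ M) :
    Module.End 𝒪 (Additive K →+ 𝒪) where
  toFun := TK M K ℓ
  map_add' := TK_add hK hℓ
  map_smul' c φ := by
    rw [RingHom.id_apply, smul_eq_comp, smul_eq_comp]
    exact TK_comp hK hℓ _ φ

/-- `U_q` as an `𝒪`-linear map. -/
noncomputable def UKl (q : ℕ) [Fact q.Prime] (hq : q ∣ M) :
    Module.End 𝒪 (Additive K →+ 𝒪) where
  toFun := UK K q
  map_add' := UK_add hK hq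
  map_smul' c φ := by
    rw [RingHom.id_apply, smul_eq_comp, smul_eq_comp]
    exact UK_comp hK hq _ φ

/-- The diamond operator as an `𝒪`-linear map. -/
noncomputable def Dl (u : (ZMod M)ˣ) : Module.End 𝒪 (Additive K →+ 𝒪) where
  toFun := diamondU hK u
  map_add' := diamondU_add hK u
  map_smul' _ _ := rfl

@[simp] theorem TKl_apply (ℓ : ℕ) [Fact ℓ.Prime] (hℓ : ¬ ℓ ∣ M) (φ : Additive K →+ 𝒪) :
    TKl hK 𝒪 ℓ hℓ φ = TK M K ℓ φ := rfl

@[simp] theorem UKl_apply (q : ℕ) [Fact q.Prime] (hq : q ∣ M) (φ : Additive K →+ 𝒪) :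
    UKl hK 𝒪 q hq φ = UK K q φ := rfl

@[simp] theorem Dl_apply (u : (ZMod M)ˣ) (φ : Additive K →+ 𝒪) :
    Dl hK 𝒪 u φ = diamondU hK u φ := rfl

/-- The family of all Hecke and diamond operators. -/
def opSet : Set (Module.End 𝒪 (Additive K →+ 𝒪)) :=
  {f | (∃ (ℓ : ℕ) (_ : Fact ℓ.Prime) (hℓ : ¬ ℓ ∣ M), f = TKl hK 𝒪 ℓ hℓ) ∨
    (∃ (q : ℕ) (_ : Fact q.Prime) (hq : q ∣ M), f = UKl hK 𝒪 q hq) ∨
    ∃ u : (ZMod M)ˣ, f = Dl hK 𝒪 u}

theorem opSet_comm [NeZero M] : ∀ a ∈ opSet hK 𝒪, ∀ b ∈ opSet hK 𝒪, a * b = b * a := by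
  rintro a (⟨ℓ, _, hℓ, rfl⟩ | ⟨q, _, hq, rfl⟩ | ⟨u, rfl⟩)
    b (⟨ℓ', _, hℓ', rfl⟩ | ⟨q', _, hq', rfl⟩ | ⟨u', rfl⟩) <;>
    refine LinearMap.ext fun φ => ?_
  · exact TK_comm hK hℓ' hℓ φ
  · exact (TK_UK_comm hK hℓ hq' φ).symm
  · exact diamondU_TK hK hℓ u' φ
  · exact TK_UK_comm hK hℓ' hq φ
  · exact UK_comm hK hq' hq φ
  · exact diamondU_UK hK hq u' φ
  · exact (diamondU_TK hK hℓ' u φ).symm
  · exact (diamondU_UK hK hq' u φ).symm
  · show diamondU hK u (diamondU hK u' φ) = diamondU hK u' (diamondU hK u φ)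
    rw [← diamondU_mul, ← diamondU_mul, mul_comm]

end Lin

/-- **Leaf IDEM.** -/
theorem idem : IdemStatement := by
  intro 𝒪 _ _ _ _ M hM K hK Tset Uset hT hU
  have : NeZero M := ⟨hM⟩
  have : K.FiniteIndex := Subgroup.finiteIndex_of_le hK.ge
  -- `X_K(𝒪)` is finite free
  obtain ⟨hfin, hfree⟩ :=
    Fermat.Agent.S59.MFree.H761.finite_free_submodule (O := 𝒪) K ⊤
  have : Module.Finite 𝒪 (Additive K →+ 𝒪) :=
    Module.Finite.equiv (Submodule.topEquiv (R := 𝒪) (M := Additive K →+ 𝒪))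
  have : Module.Free 𝒪 (Additive K →+ 𝒪) :=
    Module.Free.of_equiv (Submodule.topEquiv (R := 𝒪) (M := Additive K →+ 𝒪))
  -- the generators of the maximal ideal
  set gens : Set (Module.End 𝒪 (Additive K →+ 𝒪)) :=
    {g | (∃ (ℓ : ℕ) (c : 𝒪) (_ : Fact ℓ.Prime) (hℓ : ¬ ℓ ∣ M), (ℓ, c) ∈ Tset ∧
        g = TKl hK 𝒪 ℓ hℓ - c • 1) ∨
      ∃ (q : ℕ) (α : 𝒪) (_ : Fact q.Prime) (hq : q ∣ M), (q, α) ∈ Uset ∧
        g = UKl hK 𝒪 q hq - α • 1} with hgens
  have hsub : gens ⊆ Algebra.adjoin 𝒪 (opSet hK 𝒪) := by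
    rintro g (⟨ℓ, c, _, hℓ, -, rfl⟩ | ⟨q, α, _, hq, -, rfl⟩)
    · have h1 : TKl hK 𝒪 ℓ hℓ ∈ Algebra.adjoin 𝒪 (opSet hK 𝒪) :=
        Algebra.subset_adjoin (Or.inl ⟨ℓ, ‹_›, hℓ, rfl⟩)
      have h2 : (c • 1 : Module.End 𝒪 (Additive K →+ 𝒪)) ∈ Algebra.adjoin 𝒪 (opSet hK 𝒪) :=
        Subalgebra.smul_mem _ (one_mem _) c
      exact Subalgebra.sub_mem (Algebra.adjoin 𝒪 (opSet hK 𝒪)) h1 h2
    · have h1 : UKl hK 𝒪 q hq ∈ Algebra.adjoin 𝒪 (opSet hK 𝒪) :=
        Algebra.subset_adjoin (Or.inr (Or.inl ⟨q, ‹_›, hq, rfl⟩))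
      have h2 : (α • 1 : Module.End 𝒪 (Additive K →+ 𝒪)) ∈ Algebra.adjoin 𝒪 (opSet hK 𝒪) :=
        Subalgebra.smul_mem _ (one_mem _) α
      exact Subalgebra.sub_mem (Algebra.adjoin 𝒪 (opSet hK 𝒪)) h1 h2
  obtain ⟨e, hee, hcomm, hnil, hfull⟩ :=
    idem_of_comm (𝒪 := 𝒪) (opSet hK 𝒪) (opSet_comm hK 𝒪) gens hsub
  have hee' : ∀ x, e (e x) = e x := fun x => congrArg (fun f : Module.End 𝒪 _ => f x) hee
  have hrange : ∀ x, x ∈ LinearMap.range e ↔ e x = x := by
    intro x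
    constructor
    · rintro ⟨y, rfl⟩
      exact hee' y
    · intro h
      exact ⟨x, h⟩
  have hiter : ∀ (f : Module.End 𝒪 (Additive K →+ 𝒪)) (m : ℕ) (x : Additive K →+ 𝒪),
      (f ^ m) x = (fun y => f y)^[m] x := by
    intro f m x
    rw [Module.End.pow_apply]
  refine ⟨LinearMap.range e, ⟨⟨e, hee', fun x => ⟨x, rfl⟩, fun x hx => (hrange x).mp hx,
    ?_, ?_, ?_, ?_⟩, ?_, ?_⟩⟩
  · intro ℓ hℓF hℓ x
    exact LinearMap.congr_fun (hcomm (TKl hK 𝒪 ℓ hℓ) (Or.inl ⟨ℓ, hℓF, hℓ, rfl⟩)) x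
  · intro q hqF hq x
    exact LinearMap.congr_fun (hcomm (UKl hK 𝒪 q hq) (Or.inr (Or.inl ⟨q, hqF, hq, rfl⟩))) x
  · intro u x
    exact LinearMap.congr_fun (hcomm (Dl hK 𝒪 u) (Or.inr (Or.inr ⟨u, rfl⟩))) x
  · intro x hx h1 h2
    refine hfull x hx ?_
    rintro g (⟨ℓ, c, _, hℓ, hmem, rfl⟩ | ⟨q, α, _, hq, hmem, rfl⟩)
    · exact h1 ℓ c hmem
    · exact h2 q α hmem
  · intro ℓ hℓF c hmem
    have hℓ : ¬ ℓ ∣ M := (hT _ hmem).2
    obtain ⟨m, hm⟩ := hnil (TKl hK 𝒪 ℓ hℓ - c • 1) (Or.inl ⟨ℓ, c, hℓF, hℓ, hmem, rfl⟩)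
    refine ⟨m, fun x hx => ?_⟩
    have := hm x ((hrange x).mp hx)
    rw [hiter] at this
    exact this
  · intro q hqF α hmem
    have hq : q ∣ M := (hU _ hmem).2
    obtain ⟨m, hm⟩ := hnil (UKl hK 𝒪 q hq - α • 1)
      (Or.inr ⟨q, α, hqF, hq, hmem, rfl⟩)
    refine ⟨m, fun x hx => ?_⟩
    have := hm x ((hrange x).mp hx)
    rw [hiter] at this
    exact this

end Fermat.Agent.S59.TW.Aut.H511

end
-- ===== PACK-END S59/TW/Aut/H511/Idem.lean

-- ===== PACK-BEGIN S59/TW/Aut/Skel.lean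
section


/-!
# Row S59 / row 37, cell TW, layer 3 (AUT): the glue (helper511)

`aut_of_leaves : IdemStatement → Mod0Statement → NontrivStatement → ModQStatement →
  FreeQStatement → CtrlStatement → CmpStatement → TW.AutStatement`.
-/

set_option autoImplicit false

open Polynomial IsLocalRing CongruenceSubgroup
open scoped MatrixGroups

namespace Fermat.Agent.S59.TW.Aut

open Fermat.Agent.S59.Arch Fermat.Agent.S59.TW.H959 Fermat.Agent.S59.TW.H653

/-! ## A submodule with a Hecke action -/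

section ModOf

variable {𝒪 : Type} [CommRing 𝒪] {T : Type} [CommRing T] [Algebra 𝒪 T]
  {X : Type} [AddCommGroup X] [Module 𝒪 X]

/-- The submodule `V` with the action of `T` through `a : T →ₐ[𝒪] End_𝒪 V`. -/
def ModOf (V : Submodule 𝒪 X) (_a : T →ₐ[𝒪] Module.End 𝒪 V) : Type := V

variable (V : Submodule 𝒪 X) (a : T →ₐ[𝒪] Module.End 𝒪 V)

instance ModOf.instAddCommGroup : AddCommGroup (ModOf V a) := inferInstanceAs (AddCommGroup V)

instance ModOf.instModule : Module T (ModOf V a) :=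
  Module.compHom V (a : T →+* Module.End 𝒪 V)

/-- the underlying element of `V` -/
def ModOf.val (y : ModOf V a) : V := y

/-- an element of `V` as an element of `ModOf V a` -/
def ModOf.mk (v : V) : ModOf V a := v

@[simp] theorem ModOf.val_mk (v : V) : ModOf.val V a (ModOf.mk V a v) = v := rfl

@[simp] theorem ModOf.mk_val (y : ModOf V a) : ModOf.mk V a (ModOf.val V a y) = y := rfl

theorem ModOf.val_smul (s : T) (y : ModOf V a) :
    ModOf.val V a (s • y) = a s (ModOf.val V a y) := rfl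

theorem ModOf.val_add (y z : ModOf V a) :
    ModOf.val V a (y + z) = ModOf.val V a y + ModOf.val V a z := rfl

theorem ModOf.val_sub (y z : ModOf V a) :
    ModOf.val V a (y - z) = ModOf.val V a y - ModOf.val V a z := rfl

theorem ModOf.val_zero : ModOf.val V a 0 = 0 := rfl

theorem ModOf.val_injective : Function.Injective (ModOf.val V a) := fun _ _ h => h

theorem ModOf.val_algebraMap_smul (c : 𝒪) (y : ModOf V a) :
    ModOf.val V a (algebraMap 𝒪 T c • y) = c • ModOf.val V a y := by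
  rw [ModOf.val_smul, AlgHom.commutes]
  rfl

theorem ModOf.val_sum {ι : Type} (s : Finset ι) (f : ι → ModOf V a) :
    ModOf.val V a (∑ i ∈ s, f i) = ∑ i ∈ s, ModOf.val V a (f i) := by
  classical
  induction s using Finset.induction_on with
  | empty => rfl
  | insert i s hi ih =>
    rw [Finset.sum_insert hi, Finset.sum_insert hi, ModOf.val_add, ih]

end ModOf

/-! ## Arithmetic of the levels -/

section Arith

variable {p : ℕ} {t : PType} {Smin : Finset ℕ} {r : ℕ} {qv : Fin r → ℕ}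

theorem wilesLevel_min_dvd (p : ℕ) (t : PType) (Smin Sig : Finset ℕ) :
    wilesLevel p t Smin Smin ∣ wilesLevel p t Smin Sig := by
  rw [wilesLevel_eq, wilesLevel_eq, Finset.sdiff_self, Finset.prod_empty, mul_one]
  exact mul_dvd_mul_right (Dvd.intro _ rfl) _

theorem not_dvd_bLevel {ℓ : ℕ} (hℓ : ℓ.Prime) (hprime : ∀ j, (qv j).Prime)
    (hℓN : ¬ ℓ ∣ wilesLevel p t Smin (Smin ∪ Finset.univ.image qv))
    (hℓS : ℓ ∉ (↑(Smin ∪ Finset.univ.image qv) : Set ℕ)) :
    ¬ ℓ ∣ bLevel (wilesLevel p t Smin Smin) qv := by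
  intro h
  rcases (Nat.Prime.dvd_mul hℓ).mp h with h1 | h1
  · exact hℓN (h1.trans (wilesLevel_min_dvd p t Smin _))
  · obtain ⟨j, -, hj⟩ := (Prime.dvd_finset_prod_iff (Nat.Prime.prime hℓ) _).mp h1
    have : ℓ = qv j := (Nat.prime_dvd_prime_iff_eq hℓ (hprime j)).mp hj
    apply hℓS
    rw [this]
    exact Finset.mem_coe.mpr (Finset.mem_union_right _
      (Finset.mem_image_of_mem qv (Finset.mem_univ j)))

end Arith

/-! ## Stability of the localisation -/

section Stable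

variable {M : ℕ} {K : Subgroup SL(2, ℤ)} {hK : IsMid M K}
  {𝒪 : Type} [CommRing 𝒪] [IsLocalRing 𝒪] {Tset Uset : Set (ℕ × 𝒪)}
  {V : Submodule 𝒪 (Additive K →+ 𝒪)}

theorem IsLocPart.diamondU_mem (hV : IsLocPart hK Tset Uset V) (u : (ZMod M)ˣ)
    {x : Additive K →+ 𝒪} (hx : x ∈ V) : diamondU hK u x ∈ V := by
  obtain ⟨e, -, he2, he3, -, -, he6, -⟩ := hV.exists_proj
  have h1 : diamondU hK u x = e (diamondU hK u x) := by
    rw [he6 u x, he3 x hx]
  rw [h1]
  exact he2 _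

theorem IsLocPart.tOp_mem (hV : IsLocPart hK Tset Uset V) {ℓ : ℕ} (hℓ : ℓ.Prime)
    (hℓM : ¬ ℓ ∣ M) {x : Additive K →+ 𝒪} (hx : x ∈ V) : tOp M K 𝒪 ℓ hℓ x ∈ V := by
  obtain ⟨e, -, he2, he3, he4, -, -, -⟩ := hV.exists_proj
  have : Fact ℓ.Prime := ⟨hℓ⟩
  have h1 : tOp M K 𝒪 ℓ hℓ x = e (tOp M K 𝒪 ℓ hℓ x) := by
    have := he4 ℓ hℓM x
    rw [he3 x hx] at this
    exact this.symm
  rw [h1]
  exact he2 _

end Stable

theorem diamondU_smul {M : ℕ} {K : Subgroup SL(2, ℤ)} (hK : IsMid M K) {𝒪 : Type} [CommRing 𝒪]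
    (u : (ZMod M)ˣ) (c : 𝒪) (x : Additive K →+ 𝒪) :
    diamondU hK u (c • x) = c • diamondU hK u x := rfl

/-! ## The diamond action of `∏ (ℤ/q_j)ˣ` -/

section DiaQ

variable (p : ℕ) (t : PType) (Smin : Finset ℕ) {r : ℕ} (qv : Fin r → ℕ)
  (𝒪 : Type) [CommRing 𝒪]

theorem diaQ_one [NeZero (bLevel (wilesLevel p t Smin Smin) qv)] (x : XQ p t Smin qv 𝒪) :
    diaQ p t Smin qv 𝒪 1 x = x := by
  unfold diaQ
  apply diamondU_of_chi
  have h1 := red_liftU (wilesLevel p t Smin Smin) qv (a := 1) ⟨1, map_one _⟩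
  unfold chi
  rw [MonoidHom.comp_apply, h1, map_one]

theorem diaQ_mul [NeZero (bLevel (wilesLevel p t Smin Smin) qv)]
    (hsurj : Function.Surjective (red (wilesLevel p t Smin Smin) qv))
    (u u' : ∀ j : Fin r, (ZMod (qv j))ˣ) (x : XQ p t Smin qv 𝒪) :
    diaQ p t Smin qv 𝒪 (u * u') x = diaQ p t Smin qv 𝒪 u (diaQ p t Smin qv 𝒪 u' x) := by
  unfold diaQ
  rw [← diamondU_mul]
  apply diamondU_eq_of_chi
  apply chi_eq_of_red
  rw [map_mul, red_liftU _ _ (hsurj u), red_liftU _ _ (hsurj u'), red_liftU _ _ (hsurj (u * u'))]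

theorem diaQ_pow [NeZero (bLevel (wilesLevel p t Smin Smin) qv)]
    (hsurj : Function.Surjective (red (wilesLevel p t Smin Smin) qv))
    (u : ∀ j : Fin r, (ZMod (qv j))ˣ) (x : XQ p t Smin qv 𝒪) :
    diaQ p t Smin qv 𝒪 (fun j => u j ^ p ^ padicValNat p (qv j - 1)) x = x := by
  unfold diaQ
  apply diamondU_of_chi
  unfold chi
  rw [MonoidHom.comp_apply, red_liftU _ _ (hsurj _)]
  rw [QuotientGroup.mk'_apply, QuotientGroup.eq_one_iff]
  unfold powSub
  rw [Subgroup.mem_pi]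
  intro j _
  exact ⟨u j, rfl⟩

end DiaQ

/-! ## The automorphic level from the leaves -/

section Build

variable {p : ℕ} [hpF : Fact p.Prime]
  {𝒪 : Type} [CommRing 𝒪] [IsDomain 𝒪] [IsDiscreteValuationRing 𝒪]
  [IsAdicComplete (maximalIdeal 𝒪) 𝒪]
  {ρbar : ResidualGaloisRep (ResidueField 𝒪)} {t : PType} {Smin : Finset ℕ}
  [NeZero (wilesLevel p t Smin Smin)]
  {r : ℕ} {qv : Fin r → ℕ}
  [NeZero (wilesLevel p t Smin (Smin ∪ Finset.univ.image qv))]

/-- The restricted diamond operator on `V`. -/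
noncomputable def diaV {PQ : HeckePkg p 𝒪 ρbar t Smin (Smin ∪ Finset.univ.image qv)}
    {α : Fin r → 𝒪} {V : Submodule 𝒪 (XQ p t Smin qv 𝒪)} (hV : IsQPart PQ α V)
    (u : ∀ j : Fin r, (ZMod (qv j))ˣ) : V →ₗ[𝒪] V where
  toFun v := ⟨diaQ p t Smin qv 𝒪 u v, hV.diamondU_mem _ v.2⟩
  map_add' v w := Subtype.ext (diamondU_add _ _ _ _)
  map_smul' c v := Subtype.ext (diamondU_smul _ _ c _)

theorem coe_diaV {PQ : HeckePkg p 𝒪 ρbar t Smin (Smin ∪ Finset.univ.image qv)}
    {α : Fin r → 𝒪} {V : Submodule 𝒪 (XQ p t Smin qv 𝒪)} (hV : IsQPart PQ α V)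
    (u : ∀ j : Fin r, (ZMod (qv j))ˣ) (v : V) :
    ((diaV hV u v : V) : XQ p t Smin qv 𝒪) = diaQ p t Smin qv 𝒪 u v := rfl

variable (P₀ : HeckePkg p 𝒪 ρbar t Smin Smin)
  (PQ : HeckePkg p 𝒪 ρbar t Smin (Smin ∪ Finset.univ.image qv))
  (res : PQ.T →ₐ[𝒪] P₀.T) (α : Fin r → 𝒪)
  (V₀ : Submodule 𝒪 (Additive (Gamma0 (wilesLevel p t Smin Smin)) →+ 𝒪))
  (a₀ : P₀.T →ₐ[𝒪] Module.End 𝒪 V₀)
  (V : Submodule 𝒪 (XQ p t Smin qv 𝒪)) (h : ℕ) (a : PQ.T →ₐ[𝒪] Module.End 𝒪 V)

include hpF in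
/-- The restricted diamond operators commute with the action of `T_Q`. -/
theorem diaV_comm (hS : ∀ q ∈ Smin, q.Prime) (hpS : p ∈ Smin) (hprime : ∀ j, (qv j).Prime)
    (hV : IsQPart PQ α V) (ha : IsQAction PQ V h a) (u : ∀ j : Fin r, (ZMod (qv j))ˣ)
    (s : PQ.T) (v : V) : diaV hV u (a s v) = a s (diaV hV u v) := by
  have hSig : ∀ q ∈ Smin ∪ Finset.univ.image qv, q.Prime := by
    intro q hq
    rcases Finset.mem_union.mp hq with h' | h'
    · exact hS q h'
    · obtain ⟨j, -, rfl⟩ := Finset.mem_image.mp h'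
      exact hprime j
  revert v
  refine pkg_induction PQ (fun q hq hqN => Finset.mem_coe.mpr
    (mem_of_prime_dvd_wilesLevel hpF.out hS hSig hpS Finset.subset_union_left q hq hqN))
    (fun s => ∀ v : V, diaV hV u (a s v) = a s (diaV hV u v)) ?_ ?_ ?_ ?_ s
  · intro c v
    rw [AlgHom.commutes]
    exact (diaV hV u).map_smul c v
  · intro x y hx hy v
    rw [map_add, LinearMap.add_apply, map_add, hx, hy, LinearMap.add_apply]
  · intro x y hx hy v
    rw [map_mul, Module.End.mul_apply, hx, hy, Module.End.mul_apply]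
  · intro ℓ hℓ hℓN hℓS v
    have hℓM := not_dvd_bLevel hℓ hprime hℓN hℓS
    have : Fact ℓ.Prime := ⟨hℓ⟩
    apply Subtype.ext
    rw [coe_diaV, ha ℓ hℓ hℓN hℓS v, ha ℓ hℓ hℓN hℓS (diaV hV u v), coe_diaV]
    unfold tOpTw tOp diaQ
    have h1 := diamondU_TK (isMid_KQ p (wilesLevel p t Smin Smin) qv) hℓM
      (liftU (wilesLevel p t Smin Smin) qv u) (v : XQ p t Smin qv 𝒪)
    rw [h1]
    have hM : NeZero (bLevel (wilesLevel p t Smin Smin) qv) :=
      ⟨Nat.mul_ne_zero (NeZero.ne _) (Finset.prod_ne_zero_iff.mpr fun j _ => (hprime j).ne_zero)⟩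
    rw [← diamondU_mul, ← diamondU_mul, mul_comm]

include hpF in
/-- `π` is semilinear over `res`. -/
theorem pi_semilinear (hS : ∀ q ∈ Smin, q.Prime) (hpS : p ∈ Smin)
    (hinj : Function.Injective qv) (hprime : ∀ j, (qv j).Prime)
    (hqS : ∀ j, qv j ∉ Smin) (hres : IsRestriction P₀ PQ res)
    (hV₀ : IsMinPart P₀ V₀) (ha₀ : IsMinAction P₀ V₀ a₀)
    (hV : IsQPart PQ α V) (ha : IsQAction PQ V h a)
    (π : V →ₗ[𝒪] V₀)
    (hπT : ∀ (ℓ : ℕ) (hℓ : ℓ.Prime), ¬ ℓ ∣ bLevel (wilesLevel p t Smin Smin) qv →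
      ∀ v v' : V, (v' : XQ p t Smin qv 𝒪) =
          tOp (bLevel (wilesLevel p t Smin Smin) qv) (KQ p (wilesLevel p t Smin Smin) qv) 𝒪
            ℓ hℓ v →
        ((π v' : V₀) : Additive (Gamma0 (wilesLevel p t Smin Smin)) →+ 𝒪) =
          tOp (wilesLevel p t Smin Smin) (Gamma0 (wilesLevel p t Smin Smin)) 𝒪 ℓ hℓ (π v))
    (hker : ∀ y : V, π y = 0 ↔
      y ∈ AddSubgroup.closure {z : V | ∃ (a : ∀ j : Fin r, (ZMod (qv j))ˣ) (y' : V),
        (z : XQ p t Smin qv 𝒪) = diaQ p t Smin qv 𝒪 a y' - y'})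
    (s : PQ.T) (v : V) : π (a s v) = a₀ (res s) (π v) := by
  have hSig : ∀ q ∈ Smin ∪ Finset.univ.image qv, q.Prime := by
    intro q hq
    rcases Finset.mem_union.mp hq with h' | h'
    · exact hS q h'
    · obtain ⟨j, -, rfl⟩ := Finset.mem_image.mp h'
      exact hprime j
  have hM : NeZero (bLevel (wilesLevel p t Smin Smin) qv) :=
    ⟨Nat.mul_ne_zero (NeZero.ne _) (Finset.prod_ne_zero_iff.mpr fun j _ => (hprime j).ne_zero)⟩
  revert v
  refine pkg_induction PQ (fun q hq hqN => Finset.mem_coe.mpr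
    (mem_of_prime_dvd_wilesLevel hpF.out hS hSig hpS Finset.subset_union_left q hq hqN))
    (fun s => ∀ v : V, π (a s v) = a₀ (res s) (π v)) ?_ ?_ ?_ ?_ s
  · intro c v
    rw [AlgHom.commutes, AlgHom.commutes, AlgHom.commutes]
    exact π.map_smul c v
  · intro x y hx hy v
    rw [map_add, LinearMap.add_apply, map_add, hx, hy, map_add, map_add, LinearMap.add_apply]
  · intro x y hx hy v
    rw [map_mul, Module.End.mul_apply, hx, hy, map_mul, map_mul, Module.End.mul_apply]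
  · intro ℓ hℓ hℓN hℓS v
    have hℓM := not_dvd_bLevel hℓ hprime hℓN hℓS
    have hℓN₀ : ¬ ℓ ∣ wilesLevel p t Smin Smin := fun hd =>
      hℓN (hd.trans (wilesLevel_min_dvd p t Smin _))
    have hℓS₀ : ℓ ∉ (↑Smin : Set ℕ) := fun hm =>
      hℓS (Finset.mem_coe.mpr (Finset.mem_union_left _ (Finset.mem_coe.mp hm)))
    rw [hres ℓ hℓ hℓN hℓS hℓN₀ hℓS₀]
    apply Subtype.ext
    rw [ha₀ ℓ hℓ hℓN₀ hℓS₀ (π v)]
    -- the element `T_ℓ v` of `V`
    set v'' : V := ⟨tOp (bLevel (wilesLevel p t Smin Smin) qv)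
      (KQ p (wilesLevel p t Smin Smin) qv) 𝒪 ℓ hℓ v, hV.tOp_mem hℓ hℓM v.2⟩ with hv''
    rw [← hπT ℓ hℓ hℓM v v'' rfl]
    congr 1
    -- `a (T_ℓ) v - T_ℓ v` lies in the augmentation submodule
    have hdiff : π (a (PQ.H.π (CuspForm.heckeAlgebra.T hℓ hℓN hℓS)) v - v'') = 0 := by
      rw [hker]
      apply AddSubgroup.subset_closure
      refine ⟨red (wilesLevel p t Smin Smin) qv
        (uOf (bLevel (wilesLevel p t Smin Smin) qv) ℓ ^ h), v'', ?_⟩
      rw [Submodule.coe_sub, ha ℓ hℓ hℓN hℓS v]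
      unfold tOpTw diaQ
      rw [diamondU_eq_of_chi p (wilesLevel p t Smin Smin) qv
        (chi_eq_of_red p (wilesLevel p t Smin Smin) qv
          (red_liftU (wilesLevel p t Smin Smin) qv ⟨_, rfl⟩))]
    have h3 : π (a (PQ.H.π (CuspForm.heckeAlgebra.T hℓ hℓN hℓS)) v) - π v'' = 0 := by
      rw [← hdiff]
      exact (map_sub π _ _).symm
    exact sub_eq_zero.mp h3

/-- The diamond action on `ModOf V a`, linear over `T_Q`. -/
noncomputable def diaT (hcomm : ∀ (hV : IsQPart PQ α V) (u : ∀ j : Fin r, (ZMod (qv j))ˣ)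
      (s : PQ.T) (v : V), diaV hV u (a s v) = a s (diaV hV u v))
    (hV : IsQPart PQ α V) (u : ∀ j : Fin r, (ZMod (qv j))ˣ) :
    Module.End PQ.T (ModOf V a) where
  toFun y := ModOf.mk V a (diaV hV u (ModOf.val V a y))
  map_add' y z := (diaV hV u).map_add _ _
  map_smul' s y := hcomm hV u s (ModOf.val V a y)

theorem val_diaT (hcomm : ∀ (hV : IsQPart PQ α V) (u : ∀ j : Fin r, (ZMod (qv j))ˣ)
      (s : PQ.T) (v : V), diaV hV u (a s v) = a s (diaV hV u v))
    (hV : IsQPart PQ α V) (u : ∀ j : Fin r, (ZMod (qv j))ˣ) (y : ModOf V a) :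
    ((ModOf.val V a (diaT PQ α V a hcomm hV u y) : V) : XQ p t Smin qv 𝒪) =
      diaQ p t Smin qv 𝒪 u (ModOf.val V a y : V) := rfl

/-- The comparison on `ModOf V a`. -/
theorem cmp_modOf (hcomm : ∀ (hV : IsQPart PQ α V) (u : ∀ j : Fin r, (ZMod (qv j))ˣ)
      (s : PQ.T) (v : V), diaV hV u (a s v) = a s (diaV hV u v))
    (hV : IsQPart PQ α V) (hcmp : CmpAt PQ V a)
    (j : Fin r) (P : ValuationSubring Qb) (hP : P.LiesOverPrime (qv j))
    (φ : GQ) (hφ : P.IsFrobeniusAt φ (qv j))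
    (σ : GQ) (hσ : σ ∈ P.inertiaSubgroupIn ℚ) (u : (ZMod (qv j))ˣ) (hu : orderOf u = qv j - 1)
    (hcyc : CycloAt (qv j) σ (u : ZMod (qv j)).val)
    (a₀' w : PQ.T) (hw : IsInertiaValue PQ.H.ρ φ σ a₀' w) (y : ModOf V a) :
    (∃ y' : ModOf V a, y = w • y' - y') ↔
      ∃ y' : ModOf V a, y = diaT PQ α V a hcomm hV (Pi.mulSingle j u) y' - y' := by
  have := hcmp j P hP φ hφ σ hσ u hu hcyc a₀' w hw (ModOf.val V a y)
  constructor
  · rintro ⟨y', hy'⟩
    obtain ⟨z, hz⟩ := this.mp ⟨ModOf.val V a y', congrArg (ModOf.val V a) hy'⟩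
    exact ⟨ModOf.mk V a z, Subtype.ext hz⟩
  · rintro ⟨y', hy'⟩
    obtain ⟨z, hz⟩ := this.mpr ⟨ModOf.val V a y',
      congrArg (fun x : ModOf V a => ((ModOf.val V a x : V) : XQ p t Smin qv 𝒪)) hy'⟩
    exact ⟨ModOf.mk V a z, hz⟩

include hpF in
/-- **The automorphic level from the leaves at `(V₀, V)`.** -/
theorem exists_autLevel (hS : ∀ q ∈ Smin, q.Prime) (hpS : p ∈ Smin)
    (hinj : Function.Injective qv) (hprime : ∀ j, (qv j).Prime)
    (hqS : ∀ j, qv j ∉ Smin) (hres : IsRestriction P₀ PQ res)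
    (hV₀ : IsMinPart P₀ V₀) (ha₀ : IsMinAction P₀ V₀ a₀)
    (hV : IsQPart PQ α V) (ha : IsQAction PQ V h a)
    (hfree : FreeAt V) (hctrl : CtrlAt V₀ V) (hcmp : CmpAt PQ V a) :
    ∃ A : AutLevel P₀ (ModOf V₀ a₀) qv PQ res, A.Cmp := by
  obtain ⟨π, hsurj, hπT, hker⟩ := hctrl
  have hM : NeZero (bLevel (wilesLevel p t Smin Smin) qv) :=
    ⟨Nat.mul_ne_zero (NeZero.ne _) (Finset.prod_ne_zero_iff.mpr fun j _ => (hprime j).ne_zero)⟩
  have hred := red_surjective (wilesLevel p t Smin Smin) qv (NeZero.ne _) hinj hprime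
  have hcomm : ∀ (hV : IsQPart PQ α V) (u : ∀ j : Fin r, (ZMod (qv j))ˣ)
      (s : PQ.T) (v : V), diaV hV u (a s v) = a s (diaV hV u v) :=
    fun hV' u s v => diaV_comm PQ α V h a hS hpS hprime hV' ha u s v
  let D : (∀ j : Fin r, (ZMod (qv j))ˣ) →* Module.End PQ.T (ModOf V a) :=
    { toFun := fun u => diaT PQ α V a hcomm hV u
      map_one' := by
        refine LinearMap.ext fun y => ?_
        apply ModOf.val_injective
        apply Subtype.ext
        rw [val_diaT]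
        exact diaQ_one p t Smin qv 𝒪 _
      map_mul' := by
        intro u u'
        refine LinearMap.ext fun y => ?_
        apply ModOf.val_injective
        apply Subtype.ext
        rw [val_diaT, Module.End.mul_apply, val_diaT, val_diaT]
        exact diaQ_mul p t Smin qv 𝒪 hred u u' _ }
  have hD : ∀ u y, ((ModOf.val V a (D u y) : V) : XQ p t Smin qv 𝒪) =
      diaQ p t Smin qv 𝒪 u (ModOf.val V a y : V) := fun u y => rfl
  refine ⟨{ MQ := ModOf V a
            dia := D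
            dia_pow := ?_
            free := ?_
            π := (π : V →+ V₀)
            π_smul := ?_
            π_surjective := hsurj
            ker_π := ?_ }, ?_⟩
  · -- dia_pow
    intro u
    refine LinearMap.ext fun y => ?_
    apply ModOf.val_injective
    apply Subtype.ext
    rw [hD]
    exact diaQ_pow p t Smin qv 𝒪 hred u _
  · -- free
    intro g hg
    obtain ⟨d, b, hb⟩ := hfree g hg
    refine ⟨d, fun i => ModOf.mk V a (b i), fun y => ?_⟩
    have key : ∀ c : Fin d → (∀ j : Fin r, Fin (p ^ padicValNat p (qv j - 1))) → 𝒪,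
        (y = ∑ i, ∑ e, algebraMap 𝒪 PQ.T (c i e) •
            D (fun j => g j ^ (e j : ℕ)) (ModOf.mk V a (b i))) ↔
        ((ModOf.val V a y : V) : XQ p t Smin qv 𝒪) =
          ∑ i, ∑ e, c i e • diaQ p t Smin qv 𝒪 (fun j => g j ^ (e j : ℕ)) (b i) := by
      intro c
      have hsum : ((ModOf.val V a (∑ i, ∑ e, algebraMap 𝒪 PQ.T (c i e) •
            D (fun j => g j ^ (e j : ℕ)) (ModOf.mk V a (b i))) : V) : XQ p t Smin qv 𝒪) =
          ∑ i, ∑ e, c i e • diaQ p t Smin qv 𝒪 (fun j => g j ^ (e j : ℕ)) (b i) := by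
        rw [ModOf.val_sum, Submodule.coe_sum]
        refine Finset.sum_congr rfl fun i _ => ?_
        rw [ModOf.val_sum, Submodule.coe_sum]
        refine Finset.sum_congr rfl fun e _ => ?_
        rw [ModOf.val_algebraMap_smul, Submodule.coe_smul, hD]
        rfl
      constructor
      · intro hy
        rw [← hsum, ← hy]
      · intro hy
        apply ModOf.val_injective
        apply Subtype.ext
        rw [hsum]
        exact hy
    obtain ⟨c, hc, huniq⟩ := hb (ModOf.val V a y)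
    exact ⟨c, (key c).mpr hc, fun c' hc' => huniq c' ((key c').mp hc')⟩
  · -- π_smul
    intro s y
    exact pi_semilinear P₀ PQ res α V₀ a₀ V h a hS hpS hinj hprime hqS hres hV₀ ha₀ hV ha π
      hπT hker s (ModOf.val V a y)
  · -- ker_π
    intro y
    have hset : {z : ModOf V a | ∃ (u : ∀ j : Fin r, (ZMod (qv j))ˣ) (y' : ModOf V a),
        z = D u y' - y'} =
        {z : V | ∃ (u : ∀ j : Fin r, (ZMod (qv j))ˣ) (y' : V),
          (z : XQ p t Smin qv 𝒪) = diaQ p t Smin qv 𝒪 u y' - y'} := by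
      ext z
      constructor
      · rintro ⟨u, y', rfl⟩
        exact ⟨u, ModOf.val V a y', rfl⟩
      · rintro ⟨u, y', hz⟩
        exact ⟨u, ModOf.mk V a y', Subtype.ext hz⟩
    rw [hset]
    exact hker y
  · -- Cmp
    intro j P hP φ hφ σ hσ u hu hcyc a₀' w hw y
    exact cmp_modOf PQ α V a hcomm hV hcmp j P hP φ hφ σ hσ u hu hcyc a₀' w hw y

end Build

/-! ## The glue -/

/-- **Layer 3 of the cell TW: `AutStatement` from its leaves.** -/
theorem aut_of_leaves (hIdem : IdemStatement) (hMod0 : Mod0Statement)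
    (hNon : NontrivStatement) (hModQ : ModQStatement) (hFree : FreeQStatement)
    (hCtrl : CtrlStatement) (hCmp : CmpStatement) : AutStatement := by
  intro p hpF 𝒪 _ _ _ _ _ _ ρbar Smin hh t ht hN P₀
  -- the minimal level
  obtain ⟨V₀, hV₀⟩ := hIdem 𝒪 (wilesLevel p t Smin Smin) (NeZero.ne _)
    (Gamma0 (wilesLevel p t Smin Smin)) (isMid_Gamma0 _) (TsetOf P₀) ∅
    (by
      rintro ⟨ℓ, c⟩ ⟨hℓ, hℓN, -, -⟩
      exact ⟨hℓ, hℓN⟩)
    (by
      intro x hx
      exact absurd hx (Set.notMem_empty x))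
  have hV₀' : IsMinPart P₀ V₀ := hV₀
  obtain ⟨a₀, ha₀⟩ := hMod0 p 𝒪 ρbar Smin hh t ht P₀ V₀ hV₀'
  have hnt : Nontrivial V₀ := hNon p 𝒪 ρbar Smin hh t ht P₀ V₀ hV₀'
  refine ⟨ModOf V₀ a₀, inferInstance, inferInstance, hnt, ?_⟩
  intro n r qv hq hNQ PQ res hres
  obtain ⟨hinj, hqv, hfrob⟩ := id hq
  have hprime : ∀ j, (qv j).Prime := fun j => (hqv j).1
  -- lifts of Frobenius eigenvalues
  choose Pv φv hPv hφv using fun j => Fermat.Agent.S54.exists_frobenius (qv j) (hprime j)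
  choose αk βk hαβ hchar using fun j => hfrob j (Pv j) (hPv j) (φv j) (hφv j)
  choose α hα using fun j => residue_surjective (αk j)
  have hFL : IsFrobLift ρbar qv α := fun j =>
    ⟨Pv j, φv j, βk j, hPv j, hφv j, by rw [hα]; exact hαβ j, by rw [hα]; exact hchar j⟩
  -- the level `Q`
  have hM : bLevel (wilesLevel p t Smin Smin) qv ≠ 0 :=
    Nat.mul_ne_zero (NeZero.ne _) (Finset.prod_ne_zero_iff.mpr fun j _ => (hprime j).ne_zero)
  obtain ⟨V, hV⟩ := hIdem 𝒪 (bLevel (wilesLevel p t Smin Smin) qv) hM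
    (KQ p (wilesLevel p t Smin Smin) qv) (isMid_KQ p _ qv) (TsetOf PQ) (UsetOf qv α)
    (by
      rintro ⟨ℓ, c⟩ ⟨hℓ, hℓN, hℓS, -⟩
      exact ⟨hℓ, not_dvd_bLevel hℓ hprime hℓN hℓS⟩)
    (by
      rintro ⟨q, c⟩ ⟨j, hj⟩
      have h1 : q = qv j := congrArg Prod.fst hj
      rw [h1]
      exact ⟨hprime j, dvd_bLevel _ qv j⟩)
  have hV' : IsQPart PQ α V := hV
  obtain ⟨h, a, hhalf, ha⟩ :=
    hModQ p 𝒪 ρbar Smin hh t ht P₀ n r qv hq PQ res hres α hFL V hV'
  exact exists_autLevel P₀ PQ res α V₀ a₀ V h a hh.hSmin hh.hpSmin hinj hprime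
    (fun j => (hqv j).2.1) hres hV₀' ha₀ hV' ha
    (hFree p 𝒪 ρbar Smin hh t ht P₀ n r qv hq PQ res hres α hFL V hV')
    (hCtrl p 𝒪 ρbar Smin hh t ht P₀ n r qv hq PQ res hres α hFL V₀ V hV₀' hV')
    (hCmp p 𝒪 ρbar Smin hh t ht P₀ n r qv hq PQ res hres α hFL V h a hV' hhalf ha)

end Fermat.Agent.S59.TW.Aut

end
-- ===== PACK-END S59/TW/Aut/Skel.lean

-- ===== PACK-BEGIN S59/TW/H658/Neb.lean
section



/-!
# S59 / TW-ES (helper658), leaf E3: decomposition into nebentypus components (function level)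

For a `Γ₁(M)`-invariant function `F : ℍ → ℂ` and a Dirichlet character `χ` modulo `M`,

  `nebProj k χ F = φ(M)⁻¹ ∑_{u ∈ (ℤ/M)ˣ} χ(u)⁻¹ F ∣[k] σ_u`

has nebentypus `χ` on `Γ₀(M)` (`H564.IsNeb k M (chiZ χ)`), `∑_χ nebProj k χ F = F`, and
`nebProj k χ F = 0` if `F` is invariant under `K ≤ Γ₀(M)` and `χ` is non-trivial on `K`.
-/

set_option autoImplicit false
set_option linter.unusedSectionVars false

noncomputable section

namespace Fermat.Agent.S59.TW.H658

open CongruenceSubgroup ModularForm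
open UpperHalfPlane hiding I
open Matrix.SpecialLinearGroup Fermat.Agent.Lib.Newform.H803
open Fermat.Agent.S59.TW.H653 Fermat.Agent.S59.TW.H564
open scoped Manifold MatrixGroups ModularForm

variable {M : ℕ} {k : ℤ}

/-- A Dirichlet character as a function on `ℤ`. -/
def chiZ (χ : DirichletCharacter ℂ M) : ℤ → ℂ := fun d => χ ((d : ℤ) : ZMod M)

theorem chiZ_apply (χ : DirichletCharacter ℂ M) (d : ℤ) : chiZ χ d = χ ((d : ℤ) : ZMod M) := rfl

theorem isCharMod_chiZ (χ : DirichletCharacter ℂ M) : IsCharMod M (chiZ χ) := by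
  refine ⟨by simp [chiZ], fun d d' h => ?_⟩
  have : ((d : ℤ) : ZMod M) = ((d' : ℤ) : ZMod M) := by
    rw [ZMod.intCast_eq_intCast_iff_dvd_sub]
    have := dvd_neg.mpr h
    simpa using this
  rw [chiZ, chiZ, this]

theorem chiZ_of_mem (χ : DirichletCharacter ℂ M) (g : Gamma0 M) :
    chiZ χ ((g : SL(2, ℤ)) 1 1) = χ ((dUnit M g : (ZMod M)ˣ) : ZMod M) := by
  rw [chiZ, coe_dUnit]

/-- Slashing a `Γ₁(M)`-invariant function by `g ∈ Γ₀(M)` only depends on `d(g) mod M`. -/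
theorem slash_eq_of_dUnit_eq {F : ℍ → ℂ} (hF : SlInv k (Gamma1 M) F) {g g' : Gamma0 M}
    (h : dUnit M g = dUnit M g') :
    F ∣[k] (g : SL(2, ℤ)) = F ∣[k] (g' : SL(2, ℤ)) := by
  have h1 : dUnit M (g * g'⁻¹) = 1 := by
    rw [map_mul, map_inv, h, mul_inv_cancel]
  have h2 : ((g * g'⁻¹ : Gamma0 M) : SL(2, ℤ)) ∈ Gamma1 M := mem_Gamma1_of_dUnit h1
  have h3 : (g : SL(2, ℤ)) = ((g * g'⁻¹ : Gamma0 M) : SL(2, ℤ)) * (g' : SL(2, ℤ)) := by
    simp
  rw [h3, SlashAction.slash_mul, hF _ h2]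

variable [NeZero M]

/-- The chosen element of `Γ₀(M)` with `d ≡ u`. -/
def sg (u : (ZMod M)ˣ) : Gamma0 M := sigma M (u : ZMod M).val

@[simp] theorem dUnit_sg (u : (ZMod M)ˣ) : dUnit M (sg u) = u := dUnit_sigma_val u

/-- The projector onto the nebentypus-`χ` component. -/
def nebProj (k : ℤ) (χ : DirichletCharacter ℂ M) (F : ℍ → ℂ) : ℍ → ℂ :=
  ((M.totient : ℂ)⁻¹) •
    ∑ u : (ZMod M)ˣ, χ ((u⁻¹ : (ZMod M)ˣ) : ZMod M) • F ∣[k] ((sg u : Gamma0 M) : SL(2, ℤ))

theorem nebProj_add (χ : DirichletCharacter ℂ M) (F G : ℍ → ℂ) :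
    nebProj k χ (F + G) = nebProj k χ F + nebProj k χ G := by
  simp only [nebProj, SlashAction.add_slash, smul_add, Finset.sum_add_distrib]

theorem nebProj_smul (χ : DirichletCharacter ℂ M) (c : ℂ) (F : ℍ → ℂ) :
    nebProj k χ (c • F) = c • nebProj k χ F := by
  simp only [nebProj, ModularForm.SL_smul_slash, Finset.smul_sum]
  refine Finset.sum_congr rfl fun u _ => ?_
  simp only [smul_smul]
  congr 1
  ring

theorem isCuspidal_nebProj (χ : DirichletCharacter ℂ M) {F : ℍ → ℂ} (hF : IsCuspidal k F) :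
    IsCuspidal k (nebProj k χ F) := by
  rw [← mem_cuspSub, nebProj]
  refine Submodule.smul_mem _ _ (Submodule.sum_mem _ fun u _ => Submodule.smul_mem _ _ ?_)
  exact hF.slash_SL _

theorem nebProj_slash (χ : DirichletCharacter ℂ M) {F : ℍ → ℂ} (hF : SlInv k (Gamma1 M) F)
    (g : Gamma0 M) :
    (nebProj k χ F) ∣[k] (g : SL(2, ℤ)) =
      χ ((dUnit M g : (ZMod M)ˣ) : ZMod M) • nebProj k χ F := by
  set v := dUnit M g with hv
  have key : ∀ u : (ZMod M)ˣ, (F ∣[k] ((sg u : Gamma0 M) : SL(2, ℤ))) ∣[k] (g : SL(2, ℤ))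
      = F ∣[k] ((sg (u * v) : Gamma0 M) : SL(2, ℤ)) := by
    intro u
    rw [← SlashAction.slash_mul]
    have : (((sg u : Gamma0 M) : SL(2, ℤ)) * (g : SL(2, ℤ))) = ((sg u * g : Gamma0 M) : SL(2, ℤ)) :=
      rfl
    rw [this]
    apply slash_eq_of_dUnit_eq hF
    rw [map_mul, dUnit_sg, dUnit_sg]
  have h1 : (nebProj k χ F) ∣[k] (g : SL(2, ℤ)) = ((M.totient : ℂ)⁻¹) •
      ∑ u : (ZMod M)ˣ, χ ((u⁻¹ : (ZMod M)ˣ) : ZMod M) •
        F ∣[k] ((sg (u * v) : Gamma0 M) : SL(2, ℤ)) := by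
    rw [nebProj, ModularForm.SL_smul_slash, SlashAction.sum_slash]
    congr 1
    refine Finset.sum_congr rfl fun u _ => ?_
    rw [ModularForm.SL_smul_slash, key]
  have h2 : ∑ u : (ZMod M)ˣ, χ ((u⁻¹ : (ZMod M)ˣ) : ZMod M) •
        F ∣[k] ((sg (u * v) : Gamma0 M) : SL(2, ℤ)) =
      ∑ u : (ZMod M)ˣ, χ (((u * v⁻¹)⁻¹ : (ZMod M)ˣ) : ZMod M) •
        F ∣[k] ((sg u : Gamma0 M) : SL(2, ℤ)) := by
    refine Fintype.sum_equiv (Equiv.mulRight v) _ _ fun u => ?_
    rw [Equiv.coe_mulRight, mul_inv_cancel_right]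
  have h3 : ∀ u : (ZMod M)ˣ, χ (((u * v⁻¹)⁻¹ : (ZMod M)ˣ) : ZMod M) =
      χ ((v : (ZMod M)ˣ) : ZMod M) * χ ((u⁻¹ : (ZMod M)ˣ) : ZMod M) := by
    intro u
    rw [mul_inv_rev, inv_inv, Units.val_mul, map_mul]
  rw [h1, h2, nebProj, smul_comm (χ ((v : (ZMod M)ˣ) : ZMod M)) ((M.totient : ℂ)⁻¹)]
  congr 1
  rw [Finset.smul_sum]
  refine Finset.sum_congr rfl fun u _ => ?_
  rw [h3, mul_smul]

/-- `nebProj k χ F` has nebentypus `χ`. -/
theorem isNeb_nebProj (χ : DirichletCharacter ℂ M) {F : ℍ → ℂ} (hF : SlInv k (Gamma1 M) F) :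
    IsNeb k M (chiZ χ) (nebProj k χ F) := by
  intro γ hγ
  have := nebProj_slash χ hF ⟨γ, hγ⟩
  rw [← chiZ_of_mem] at this
  exact this

/-- The nebentypus components sum to `F`. -/
theorem sum_nebProj {F : ℍ → ℂ} (hF : SlInv k (Gamma1 M) F) :
    ∑ χ : DirichletCharacter ℂ M, nebProj k χ F = F := by
  simp only [nebProj]
  rw [← Finset.smul_sum, Finset.sum_comm]
  simp only [← Finset.sum_smul]
  have h1 : ∀ d : (ZMod M)ˣ,
      (∑ χ : DirichletCharacter ℂ M, χ ((d⁻¹ : (ZMod M)ˣ) : ZMod M)) =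
        if d = 1 then (M.totient : ℂ) else 0 := by
    intro d
    rw [DirichletCharacter.sum_characters_eq]
    congr 1
    rw [eq_iff_iff]
    constructor
    · intro h
      have : (d⁻¹ : (ZMod M)ˣ) = 1 := Units.ext h
      simpa using this
    · rintro rfl
      simp
  simp only [h1]
  rw [Finset.sum_eq_single (1 : (ZMod M)ˣ)]
  · rw [if_pos rfl, smul_smul, inv_mul_cancel₀, one_smul]
    · have h2 : F ∣[k] ((sg (1 : (ZMod M)ˣ) : Gamma0 M) : SL(2, ℤ))
          = F ∣[k] (((1 : Gamma0 M) : Gamma0 M) : SL(2, ℤ)) :=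
        slash_eq_of_dUnit_eq hF (by rw [dUnit_sg, map_one])
      rw [h2]
      exact SlashAction.slash_one k F
    · exact_mod_cast (Nat.totient_pos.mpr (NeZero.pos M)).ne'
  · intro d _ hd
    rw [if_neg hd, zero_smul]
  · intro h
    exact absurd (Finset.mem_univ _) h

/-- The `χ`-component of a `K`-invariant function vanishes if `χ` is non-trivial on `K`. -/
theorem nebProj_eq_zero {K : Subgroup SL(2, ℤ)} (hK : IsMid M K) (χ : DirichletCharacter ℂ M)
    {F : ℍ → ℂ} (hF : SlInv k K F) {g : Gamma0 M} (hg : (g : SL(2, ℤ)) ∈ K)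
    (hχ : χ ((dUnit M g : (ZMod M)ˣ) : ZMod M) ≠ 1) : nebProj k χ F = 0 := by
  have hF1 : SlInv k (Gamma1 M) F := hF.mono hK.ge
  have h1 := nebProj_slash χ hF1 g
  have h2 : (nebProj k χ F) ∣[k] (g : SL(2, ℤ)) = nebProj k χ F := by
    rw [nebProj, ModularForm.SL_smul_slash, SlashAction.sum_slash]
    congr 1
    refine Finset.sum_congr rfl fun u _ => ?_
    rw [ModularForm.SL_smul_slash]
    congr 1
    have h3 : ((sg u : Gamma0 M) : SL(2, ℤ)) * (g : SL(2, ℤ))
        = (((sg u : Gamma0 M) : SL(2, ℤ)) * (g : SL(2, ℤ)) * ((sg u : Gamma0 M) : SL(2, ℤ))⁻¹)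
          * ((sg u : Gamma0 M) : SL(2, ℤ)) := by group
    rw [← SlashAction.slash_mul, h3, SlashAction.slash_mul, hF _ (hK.conj_mem (sg u) hg)]
  rw [h2] at h1
  have h4 : (χ ((dUnit M g : (ZMod M)ˣ) : ZMod M) - 1) • nebProj k χ F = 0 := by
    rw [sub_smul, one_smul, ← h1, sub_self]
  rcases smul_eq_zero.mp h4 with h5 | h5
  · exact absurd (sub_eq_zero.mp h5) hχ
  · exact h5

end Fermat.Agent.S59.TW.H658

end
end
-- ===== PACK-END S59/TW/H658/Neb.lean

-- ===== PACK-BEGIN S32/H185/Red.lean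
section





/-!
# Row S32, piece RED (helper185): the coefficient ring of a Hecke–Galois datum is reduced

`red : Fermat.Agent.S32.RedStatement` (exact `Prop` of `S32/Spec.lean`).

Route.  Let `𝕋 = heckeAlgebra N 2 S`, `K = Frac 𝒪`.  The ring `K ⊗[ℤ] 𝕋` is reduced
(`S31.H862.heckeAlgebra_isReduced` = Petersson, `S31.H262.isReduced_field_tensor`) and artinian
(`𝕋` is finite over `ℤ`: landed S22), hence semisimple, so every quotient of it is reduced.
`K ⊗[𝒪] T` is such a quotient because `T` is generated over `𝒪` by the image of `π`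
(`adjoin_range_π`), and `T ↪ K ⊗[𝒪] T` because `T` is `𝒪`-free.

Abstract, reusable (no modular forms): `isReduced_of_surjective_of_isArtinianRing`,
`compMap`, `compMap_surjective`, `isReduced_of_adjoin_range`.
-/

set_option autoImplicit false
set_option linter.style.haveILetI false
set_option linter.unusedSectionVars false

open scoped TensorProduct

namespace Fermat.Agent.S32.H185

/-- A quotient of a reduced artinian commutative ring is reduced. -/
theorem isReduced_of_surjective_of_isArtinianRing {R R' : Type*} [CommRing R] [CommRing R']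
    [IsArtinianRing R] [IsReduced R] (f : R →+* R') (hf : Function.Surjective f) :
    IsReduced R' := by
  haveI : IsSemisimpleRing R := IsArtinianRing.isSemisimpleRing_of_isReduced R
  haveI : IsSemisimpleRing R' := f.isSemisimpleRing_of_surjective hf
  infer_instance

section

variable {𝒪 : Type} [CommRing 𝒪] (K : Type) [Field K] [Algebra 𝒪 K]
  {B : Type} [CommRing B] {T : Type} [CommRing T] [Algebra 𝒪 T]

/-- `B → K ⊗[𝒪] T`, as a `ℤ`-algebra homomorphism. -/
noncomputable def rightHom (π : B →+* T) : B →ₐ[ℤ] K ⊗[𝒪] T where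
  toRingHom := (Algebra.TensorProduct.includeRight : T →ₐ[𝒪] K ⊗[𝒪] T).toRingHom.comp π
  commutes' n := by
    rw [eq_intCast (algebraMap ℤ B) n, eq_intCast (algebraMap ℤ (K ⊗[𝒪] T)) n]
    simp

/-- `K → K ⊗[𝒪] T`, as a `ℤ`-algebra homomorphism. -/
noncomputable def leftHom : K →ₐ[ℤ] K ⊗[𝒪] T where
  toRingHom := (Algebra.TensorProduct.includeLeft : K →ₐ[𝒪] K ⊗[𝒪] T).toRingHom
  commutes' n := by
    rw [eq_intCast (algebraMap ℤ K) n, eq_intCast (algebraMap ℤ (K ⊗[𝒪] T)) n]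
    simp

/-- The comparison map `K ⊗[ℤ] B → K ⊗[𝒪] T`, `k ⊗ b ↦ k ⊗ π b`. -/
noncomputable def compMap (π : B →+* T) : K ⊗[ℤ] B →ₐ[ℤ] K ⊗[𝒪] T :=
  Algebra.TensorProduct.lift (leftHom (𝒪 := 𝒪) (T := T) K) (rightHom K π)
    (fun _ _ => Commute.all _ _)

theorem compMap_tmul (π : B →+* T) (k : K) (b : B) :
    compMap K π (k ⊗ₜ b) = k ⊗ₜ[𝒪] π b := by
  unfold compMap
  rw [Algebra.TensorProduct.lift_tmul]
  show (k ⊗ₜ[𝒪] (1 : T)) * ((1 : K) ⊗ₜ[𝒪] π b) = _
  rw [Algebra.TensorProduct.tmul_mul_tmul, one_mul, mul_one]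

/-- If `T` is generated over `𝒪` by the image of `π`, the comparison map is surjective. -/
theorem compMap_surjective (π : B →+* T) (hπ : Algebra.adjoin 𝒪 (Set.range π) = ⊤) :
    Function.Surjective (compMap (𝒪 := 𝒪) K π) := by
  have hright : ∀ t : T, (1 : K) ⊗ₜ[𝒪] t ∈ (compMap (𝒪 := 𝒪) K π).range := by
    intro t
    have ht : t ∈ Algebra.adjoin 𝒪 (Set.range π) := by rw [hπ]; trivial
    induction ht using Algebra.adjoin_induction with
    | mem x hx =>
      obtain ⟨b, rfl⟩ := hx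
      exact ⟨1 ⊗ₜ b, compMap_tmul K π 1 b⟩
    | algebraMap r =>
      refine ⟨algebraMap 𝒪 K r ⊗ₜ 1, (compMap_tmul K π _ _).trans ?_⟩
      rw [map_one, Algebra.algebraMap_eq_smul_one, Algebra.algebraMap_eq_smul_one,
        TensorProduct.smul_tmul]
    | add x y _ _ hx hy =>
      rw [TensorProduct.tmul_add]
      exact (compMap (𝒪 := 𝒪) K π).range.add_mem hx hy
    | mul x y _ _ hx hy =>
      have : (1 : K) ⊗ₜ[𝒪] (x * y) = ((1 : K) ⊗ₜ[𝒪] x) * ((1 : K) ⊗ₜ[𝒪] y) := by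
        rw [Algebra.TensorProduct.tmul_mul_tmul, one_mul]
      rw [this]
      exact (compMap (𝒪 := 𝒪) K π).range.mul_mem hx hy
  intro z
  have : z ∈ (compMap (𝒪 := 𝒪) K π).range := by
    induction z using TensorProduct.induction_on with
    | zero => exact (compMap (𝒪 := 𝒪) K π).range.zero_mem
    | tmul k t =>
      have : k ⊗ₜ[𝒪] t = (k ⊗ₜ[𝒪] (1 : T)) * ((1 : K) ⊗ₜ[𝒪] t) := by
        rw [Algebra.TensorProduct.tmul_mul_tmul, one_mul, mul_one]
      rw [this]
      refine (compMap (𝒪 := 𝒪) K π).range.mul_mem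
        ⟨k ⊗ₜ 1, (compMap_tmul K π _ _).trans ?_⟩ (hright t)
      rw [map_one]
    | add x y hx hy => exact (compMap (𝒪 := 𝒪) K π).range.add_mem hx hy
  exact this

/-- **Abstract form of RED.**  `T` a flat `𝒪`-algebra, `𝒪 ⊆ K` a field, `T` generated over `𝒪`
by the image of a ring homomorphism from a ring `B`, finite over `ℤ`, with `K ⊗[ℤ] B` reduced.
Then `T` is reduced. -/
theorem isReduced_of_adjoin_range [Module.Flat 𝒪 T] [Module.Finite ℤ B]
    (hK : Function.Injective (algebraMap 𝒪 K)) (hB : IsReduced (K ⊗[ℤ] B))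
    (π : B →+* T) (hπ : Algebra.adjoin 𝒪 (Set.range π) = ⊤) : IsReduced T := by
  haveI : Module.Finite K (K ⊗[ℤ] B) := inferInstance
  haveI : IsArtinianRing (K ⊗[ℤ] B) := isArtinian_of_tower K inferInstance
  haveI : IsReduced (K ⊗[𝒪] T) :=
    isReduced_of_surjective_of_isArtinianRing (compMap (𝒪 := 𝒪) K π).toRingHom
      (compMap_surjective K π hπ)
  exact isReduced_of_injective (Algebra.TensorProduct.includeRight : T →ₐ[𝒪] K ⊗[𝒪] T)
    (Algebra.TensorProduct.includeRight_injective hK)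

end

/-- **RED** (exact `Prop` of `S32/Spec.lean`): the coefficient ring `T` of a Hecke–Galois datum
is reduced. -/
theorem red : Fermat.Agent.S32.RedStatement := by
  intro N _ S hNS 𝒪 _ _ _ _ _ θ T _ _ _ _ _ _ _ _ H
  haveI : Module.Finite ℤ (CuspForm.heckeAlgebra N 2 (↑S : Set ℕ)) :=
    Fermat.Agent.S22.result N 2 (↑S : Set ℕ)
  haveI : IsReduced (CuspForm.heckeAlgebra N 2 (↑S : Set ℕ)) :=
    Fermat.Agent.S31.H862.heckeAlgebra_isReduced N (↑S : Set ℕ) hNS
  haveI : CharZero (FractionRing 𝒪) :=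
    charZero_of_injective_algebraMap (IsFractionRing.injective 𝒪 (FractionRing 𝒪))
  exact isReduced_of_adjoin_range (FractionRing 𝒪)
    (IsFractionRing.injective 𝒪 (FractionRing 𝒪))
    (Fermat.Agent.S31.H262.isReduced_field_tensor _ (FractionRing 𝒪)) H.π H.adjoin_range_π

end Fermat.Agent.S32.H185

end
-- ===== PACK-END S32/H185/Red.lean

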