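import Mathlib
import Fermat.Prelude.Def_ModularCurve_HeckeModule
import Fermat.Prelude.Def_ModularForm_HeckeOperator
import Fermat.Agent.Pack.S43MC.G0E19L3
import Fermat.Agent.Pack.S43MC.G0E19L2
import Fermat.Agent.Pack.S43MC.G0E19L1
import Fermat.Agent.Pack.S43MC.G0E13L1
import Fermat.Agent.Pack.S43MC.G0E16L2
import Fermat.Agent.Pack.S43MC.G0E10L1
import Fermat.Agent.Pack.S43MC.G0E18L1
import Fermat.Agent.Pack.S43MC.G0E15L2
import Fermat.Agent.Pack.S43MC.G0E11L3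
import Fermat.Agent.Pack.S43MC.G0E15L3
import Fermat.Agent.Pack.S44C.G0E20L2
import Fermat.Agent.Pack.S43MC.G0E17L0
import Fermat.Agent.Pack.S43MC.G0E12L3
import Fermat.Agent.Pack.S43MC.G0E18L0
import Fermat.Agent.Pack.S43MC.G0E12L0
import Fermat.Agent.Pack.S44C.G0E21L3
import Fermat.Agent.Pack.S43GC.G0E4L1
import Fermat.Agent.Pack.S43GC.G0E2L0
import Fermat.Agent.Pack.S43MC.G0E14L0
import Fermat.Agent.Pack.S43MC.G0E19L0
import Fermat.Agent.Pack.S43MC.G0E14L3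
import Fermat.Agent.Pack.S43GC.G0E12L3
import Fermat.Agent.Pack.Fast891

-- ===== PACK-BEGIN S35/H433/ValForm.lean
section



/-!
# S35 / (G) — F1 + F4 in valuation language (helper433)

`frobToric_val` : the toric Frobenius relation `φ u = h ^ m · u ^ Q`, with all hypotheses on the
two components expressed through the two valuation subrings `V₁ ≠ V₂` of `F` extending the Gauss
valuation (A2/MOD: `V∞`, `V₀`) instead of the primes of an `SSChart`:

* `ValCtx w x V` : `R ⊆ V`, `x` is a unit of `V`, `w` is not, and `x - r`, `x⁻¹ - r` are units of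
  `V` for all constants `r`  (the residue of `x` is not constant);
* `φ` preserves `V₁`, `V₂`, fixes `x`, is semilinear over `φR : R ≃+* R` with
  `φR r ≡ r ^ Q mod w`;
* the crossing points of both charts are fixed by `φ`;
* `u` has residues in `kˣ · (κˣ)^m` at `V₁` and `V₂` (`GSplitV`), and `m ∣ div u`.

The charts `Bf`, `Bi` and their `SSChart`s are arbitrary (e.g. from `A2.ModSSData`).
-/

set_option autoImplicit false
set_option linter.unusedSectionVars false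

namespace Fermat.Agent.S35.H433

open Fermat.Agent.A2 Fermat.Agent.A2.Alg Fermat.Agent.A2.H348 Fermat.Agent.A2.Alg.H348

section Defs

variable {R F : Type*} [CommRing R] [Field F] [Algebra R F]

/-- The standing hypotheses on a valuation subring `V` of `F` "extending the Gauss valuation". -/
structure ValCtx (w : R) (x : F) (V : ValuationSubring F) : Prop where
  hR : ∀ r : R, algebraMap R F r ∈ V
  hx : x ∈ V
  hxi : x⁻¹ ∈ V
  hw : (algebraMap R F w)⁻¹ ∉ V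
  hxr : ∀ r : R, (x - algebraMap R F r)⁻¹ ∈ V
  hxir : ∀ r : R, (x⁻¹ - algebraMap R F r)⁻¹ ∈ V

theorem ValCtx.inv {w : R} {x : F} {V : ValuationSubring F} (h : ValCtx w x V) :
    ValCtx w x⁻¹ V :=
  ⟨h.hR, h.hxi, by rw [inv_inv]; exact h.hx, h.hw, h.hxir, by rw [inv_inv]; exact h.hxr⟩

/-- `u` is a unit of `V` with constant residue. -/
def ConstV (R : Type*) [CommRing R] [Algebra R F] (V : ValuationSubring F) (u : F) : Prop :=
  ∃ c₀ : R, IsUnit c₀ ∧ u - algebraMap R F c₀ ∈ V.nonunits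

/-- `u` is a unit of `V` with residue in `kˣ · (κˣ)^m`. -/
def GSplitV (R : Type*) [CommRing R] [Algebra R F] (V : ValuationSubring F) (m : ℕ) (u : F) :
    Prop :=
  ∃ y : F, y ≠ 0 ∧ y ∈ V ∧ y⁻¹ ∈ V ∧ ConstV R V (u * (y ^ m)⁻¹)

/-- The chart is contained in every valuation subring containing `R` and `x`. -/
theorem chart_le_valuationSubring (x : F) (B : Subalgebra R F)
    (hB : ∀ f : F, f ∈ B ↔ IsIntegral (Algebra.adjoin R ({x} : Set F)) f)
    (V : ValuationSubring F) (hR : ∀ r : R, algebraMap R F r ∈ V) (hx : x ∈ V) (b : B) :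
    (b : F) ∈ V := by
  let Vs : Subalgebra R F := { V.toSubring with algebraMap_mem' := hR }
  have hle : Algebra.adjoin R ({x} : Set F) ≤ Vs :=
    Algebra.adjoin_le (Set.singleton_subset_iff.2 hx)
  obtain ⟨P, hPm, hP⟩ := (hB b).1 b.2
  let ι : Algebra.adjoin R ({x} : Set F) →+* V :=
    { toFun := fun a => ⟨a.1, hle a.2⟩
      map_one' := rfl
      map_mul' := fun _ _ => rfl
      map_zero' := rfl
      map_add' := fun _ _ => rfl }
  have hint : IsIntegral V (b : F) := by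
    refine ⟨P.map ι, hPm.map ι, ?_⟩
    rw [Polynomial.eval₂_map]
    exact hP
  obtain ⟨y, hy⟩ := IsIntegrallyClosed.isIntegral_iff.1 hint
  rw [← hy]
  exact y.2

end Defs

section Chart

variable {R E F : Type*} [CommRing R] [IsDomain R] [IsDiscreteValuationRing R]
  [IsAlgClosed (IsLocalRing.ResidueField R)]
  [Field E] [CharZero E] [Algebra R E] [IsFractionRing R E]
  [Field F] [Algebra E F] [Algebra R F] [IsScalarTower R E F]

/-- Two distinct valuation subrings satisfying `ValCtx` are the local rings of the two components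
of a chart, in some order. -/
theorem cutIdeal_perm (w : R) (x : F) (B : Subalgebra R F) (hB : ChartCtx E w x B)
    (c : SSChart w B) (V₁ V₂ : ValuationSubring F) (h₁ : ValCtx w x V₁) (h₂ : ValCtx w x V₂)
    (hne : V₁ ≠ V₂) :
    (cutIdeal V₁ (chart_le_valuationSubring x B hB.hB V₁ h₁.hR h₁.hx) = c.p₁ ∧
      cutIdeal V₂ (chart_le_valuationSubring x B hB.hB V₂ h₂.hR h₂.hx) = c.p₂) ∨
    (cutIdeal V₁ (chart_le_valuationSubring x B hB.hB V₁ h₁.hR h₁.hx) = c.p₂ ∧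
      cutIdeal V₂ (chart_le_valuationSubring x B hB.hB V₂ h₂.hR h₂.hx) = c.p₁) := by
  have hp₁ := c.prime₁
  have hp₂ := c.prime₂
  have hAB := adjoin_le_of_ctx hB
  have hB₁ := chart_le_valuationSubring x B hB.hB V₁ h₁.hR h₁.hx
  have hB₂ := chart_le_valuationSubring x B hB.hB V₂ h₂.hR h₂.hx
  have same : ∀ {A : Subalgebra R F} {p p' : Ideal B} [p.IsPrime], CompData A B p p' w → A ≤ B →
      cutIdeal V₁ hB₁ = p → cutIdeal V₂ hB₂ = p → False := by
    intro A p p' _ D hA e₁ e₂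
    apply hne
    ext z
    rw [mem_iff_mem_locAt D hA V₁ hB₁ h₁.hw e₁ z, mem_iff_mem_locAt D hA V₂ hB₂ h₂.hw e₂ z]
  rcases cutIdeal_eq_or w x B hB c V₁ hB₁ h₁.hw h₁.hxr with e₁ | e₁ <;>
    rcases cutIdeal_eq_or w x B hB c V₂ hB₂ h₂.hw h₂.hxr with e₂ | e₂
  · exact (same (compData₁ hB c) hAB e₁ e₂).elim
  · exact Or.inl ⟨e₁, e₂⟩
  · exact Or.inr ⟨e₁, e₂⟩
  · exact (same (compData₂ hB c) hAB e₁ e₂).elim

/-- Dictionary for one component: if the cut ideal of `V` is the component `p`, then the chart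
predicates at `p` are the valuation predicates at `V`. -/
theorem dict_of_cut (w : R) (x : F) (B : Subalgebra R F) (_hB : ChartCtx E w x B)
    {A : Subalgebra R F} {p p' : Ideal B} [hp : p.IsPrime] (D : CompData A B p p' w)
    (hA : A ≤ B) (V : ValuationSubring F) (hBV : ∀ b : B, (b : F) ∈ V)
    (hw : (algebraMap R F w)⁻¹ ∉ V) (hcut : cutIdeal V hBV = p) :
    (∀ z : F, z ∈ V ↔ InLoc B p ⊤ z) ∧ (∀ z : F, z ∈ V.nonunits ↔ InLoc B p p z) := by
  have h1 : ∀ z : F, z ∈ V ↔ InLoc B p ⊤ z := fun z => by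
    rw [inLoc_top_iff_mem_locAt]
    exact mem_iff_mem_locAt D hA V hBV hw hcut z
  exact ⟨h1, mem_nonunits_iff_inLoc V h1⟩

end Chart

section Dict

variable {R F : Type*} [CommRing R] [Field F] [Algebra R F] {B : Subalgebra R F}

theorem constAt_iff_constV {p : Ideal B} [hp : p.IsPrime] {V : ValuationSubring F}
    (h : ∀ z : F, z ∈ V.nonunits ↔ InLoc B p p z) {u : F} : ConstAt B p u ↔ ConstV R V u := by
  rw [constAt_iff]
  constructor
  · rintro ⟨c₀, hc, hu⟩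
    exact ⟨c₀, hc, (h _).2 hu⟩
  · rintro ⟨c₀, hc, hu⟩
    exact ⟨c₀, hc, (h _).1 hu⟩

theorem gSplitAt_of_gSplitV {p : Ideal B} [hp : p.IsPrime] {V : ValuationSubring F}
    (h1 : ∀ z : F, z ∈ V ↔ InLoc B p ⊤ z) (h : ∀ z : F, z ∈ V.nonunits ↔ InLoc B p p z)
    {m : ℕ} {u : F} (hu : GSplitV R V m u) : GSplitAt B p m u := by
  obtain ⟨y, hy0, hy, hyi, hc⟩ := hu
  exact ⟨y, locUnit_iff.2 ⟨hy0, (h1 _).1 hy, (h1 _).1 hyi⟩, (constAt_iff_constV h).2 hc⟩

end Dict

section Phi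

variable {R F : Type*} [CommRing R] [Field F] [Algebra R F]

/-- `φ` maps the subalgebra `R[x]` into itself. -/
theorem phi_mem_adjoin (φ : F ≃+* F) (φR : R → R)
    (hφR : ∀ r : R, φ (algebraMap R F r) = algebraMap R F (φR r)) {x : F} (hφx : φ x = x)
    {a : F} (ha : a ∈ Algebra.adjoin R ({x} : Set F)) :
    φ a ∈ Algebra.adjoin R ({x} : Set F) := by
  induction ha using Algebra.adjoin_induction with
  | mem y hy =>
    rw [Set.mem_singleton_iff] at hy
    subst hy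
    rw [hφx]
    exact Algebra.self_mem_adjoin_singleton R _
  | algebraMap r =>
    rw [hφR]
    exact Subalgebra.algebraMap_mem _ _
  | add y z _ _ hy hz =>
    rw [map_add]
    exact Subalgebra.add_mem _ hy hz
  | mul y z _ _ hy hz =>
    rw [map_mul]
    exact Subalgebra.mul_mem _ hy hz

/-- `φ` maps a chart into itself. -/
theorem phi_mem_chart (φ : F ≃+* F) (φR : R → R)
    (hφR : ∀ r : R, φ (algebraMap R F r) = algebraMap R F (φR r)) {x : F} (hφx : φ x = x)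
    (B : Subalgebra R F)
    (hB : ∀ f : F, f ∈ B ↔ IsIntegral (Algebra.adjoin R ({x} : Set F)) f) {b : F} (hb : b ∈ B) :
    φ b ∈ B := by
  rw [hB] at hb ⊢
  obtain ⟨P, hPm, hP⟩ := hb
  let ψ : Algebra.adjoin R ({x} : Set F) →+* Algebra.adjoin R ({x} : Set F) :=
    { toFun := fun a => ⟨φ a.1, phi_mem_adjoin φ φR hφR hφx a.2⟩
      map_one' := Subtype.ext (by simp)
      map_mul' := fun a b => Subtype.ext (by simp)
      map_zero' := Subtype.ext (by simp)
      map_add' := fun a b => Subtype.ext (by simp) }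
  refine ⟨P.map ψ, hPm.map ψ, ?_⟩
  rw [Polynomial.eval₂_map]
  have hcomp : (algebraMap (Algebra.adjoin R ({x} : Set F)) F).comp ψ
      = (φ : F →+* F).comp (algebraMap (Algebra.adjoin R ({x} : Set F)) F) := by
    ext a
    rfl
  rw [hcomp]
  have h := Polynomial.hom_eval₂ P (algebraMap (Algebra.adjoin R ({x} : Set F)) F)
    (φ : F →+* F) b
  rw [hP, map_zero] at h
  exact h.symm

/-- `φ` preserving `V` preserves its non-units. -/
theorem phi_mem_nonunits_iff (φ : F ≃+* F) (V : ValuationSubring F)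
    (hV : ∀ z : F, φ z ∈ V ↔ z ∈ V) (z : F) : φ z ∈ V.nonunits ↔ z ∈ V.nonunits := by
  rw [ValuationSubring.mem_nonunits_iff_or, ValuationSubring.mem_nonunits_iff_or, ← map_inv₀, hV,
    map_eq_zero_iff φ φ.injective]

end Phi

section Main

variable {R E F : Type*} [CommRing R] [IsDomain R] [IsDiscreteValuationRing R]
  [IsAlgClosed (IsLocalRing.ResidueField R)]
  [Field E] [CharZero E] [Algebra R E] [IsFractionRing R E]
  [Field F] [Algebra E F] [Algebra R F] [IsScalarTower R E F]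

/-- For each component of a chart, one of `V₁`, `V₂` is its local ring. -/
theorem exists_dict (w : R) (x : F) (B : Subalgebra R F) (hB : ChartCtx E w x B)
    (c : SSChart w B) (V₁ V₂ : ValuationSubring F) (h₁ : ValCtx w x V₁) (h₂ : ValCtx w x V₂)
    (hne : V₁ ≠ V₂) :
    (((∀ z : F, z ∈ V₁ ↔ InLoc B c.p₁ ⊤ z) ∧ (∀ z : F, z ∈ V₁.nonunits ↔ InLoc B c.p₁ c.p₁ z)) ∧
      ((∀ z : F, z ∈ V₂ ↔ InLoc B c.p₂ ⊤ z) ∧ (∀ z : F, z ∈ V₂.nonunits ↔ InLoc B c.p₂ c.p₂ z))) ∨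
    (((∀ z : F, z ∈ V₁ ↔ InLoc B c.p₂ ⊤ z) ∧ (∀ z : F, z ∈ V₁.nonunits ↔ InLoc B c.p₂ c.p₂ z)) ∧
      ((∀ z : F, z ∈ V₂ ↔ InLoc B c.p₁ ⊤ z) ∧
        (∀ z : F, z ∈ V₂.nonunits ↔ InLoc B c.p₁ c.p₁ z))) := by
  have hp₁ := c.prime₁
  have hp₂ := c.prime₂
  have hAB := adjoin_le_of_ctx hB
  rcases cutIdeal_perm w x B hB c V₁ V₂ h₁ h₂ hne with ⟨e₁, e₂⟩ | ⟨e₁, e₂⟩
  · exact Or.inl ⟨dict_of_cut w x B hB (compData₁ hB c) hAB V₁ _ h₁.hw e₁,
      dict_of_cut w x B hB (compData₂ hB c) hAB V₂ _ h₂.hw e₂⟩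
  · exact Or.inr ⟨dict_of_cut w x B hB (compData₂ hB c) hAB V₁ _ h₁.hw e₁,
      dict_of_cut w x B hB (compData₁ hB c) hAB V₂ _ h₂.hw e₂⟩

/-- Constant residues at `V₁`, `V₂`  ⟹  split on any chart. -/
theorem isSplit_of_constV (w : R) (x : F) (B : Subalgebra R F) (hB : ChartCtx E w x B)
    (c : SSChart w B) (V₁ V₂ : ValuationSubring F) (h₁ : ValCtx w x V₁) (h₂ : ValCtx w x V₂)
    (hne : V₁ ≠ V₂) {u : F} (hu₁ : ConstV R V₁ u) (hu₂ : ConstV R V₂ u) : IsSplit B c u := by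
  have hp₁ := c.prime₁
  have hp₂ := c.prime₂
  rcases exists_dict w x B hB c V₁ V₂ h₁ h₂ hne with ⟨⟨-, d₁⟩, ⟨-, d₂⟩⟩ | ⟨⟨-, d₁⟩, ⟨-, d₂⟩⟩
  · exact ⟨(constAt_iff_constV d₁).2 hu₁, (constAt_iff_constV d₂).2 hu₂⟩
  · exact ⟨(constAt_iff_constV d₂).2 hu₂, (constAt_iff_constV d₁).2 hu₁⟩

/-- `φ` preserves the components of a chart. -/
theorem phiCtx_of_val (w : R) (x : F) (B : Subalgebra R F) (hB : ChartCtx E w x B)
    (c : SSChart w B) (V₁ V₂ : ValuationSubring F) (h₁ : ValCtx w x V₁) (h₂ : ValCtx w x V₂)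
    (hne : V₁ ≠ V₂) (φ : F ≃+* F) (φR : R ≃+* R) (Q : ℕ)
    (hφR : ∀ r : R, φ (algebraMap R F r) = algebraMap R F (φR r))
    (hQ : ∀ r : R, ∃ s : R, φR r - r ^ Q = w * s) (hφx : φ x = x)
    (hV₁ : ∀ z : F, φ z ∈ V₁ ↔ z ∈ V₁) (hV₂ : ∀ z : F, φ z ∈ V₂ ↔ z ∈ V₂) :
    PhiCtx w B c φ Q := by
  have hp₁ := c.prime₁
  have hp₂ := c.prime₂
  have hmap : ∀ b : F, b ∈ B → φ b ∈ B := fun b hb => phi_mem_chart φ φR hφR hφx B hB.hB hb
  have hφR' : ∀ r : R, φ.symm (algebraMap R F r) = algebraMap R F (φR.symm r) := by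
    intro r
    rw [RingEquiv.symm_apply_eq, hφR, RingEquiv.apply_symm_apply]
  have hφx' : φ.symm x = x := by
    rw [RingEquiv.symm_apply_eq, hφx]
  have hmap' : ∀ b : F, φ b ∈ B → b ∈ B := fun b hb => by
    have := phi_mem_chart φ.symm φR.symm hφR' hφx' B hB.hB hb
    rwa [RingEquiv.symm_apply_apply] at this
  have key : ∀ (p : Ideal B) [p.IsPrime] (V : ValuationSubring F),
      (∀ z : F, φ z ∈ V ↔ z ∈ V) → (∀ z : F, z ∈ V.nonunits ↔ InLoc B p p z) →
      ∀ b : B, (⟨φ b, hmap b b.2⟩ : B) ∈ p ↔ b ∈ p := by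
    intro p _ V hV d b
    have e : ∀ b' : B, b' ∈ p ↔ (b' : F) ∈ V.nonunits := by
      intro b'
      rw [d]
      constructor
      · intro hb'
        exact inLoc_coe hb'
      · rintro ⟨a, s, ha, hs, has⟩
        have h1 : b' * s = a := Subtype.ext (by push_cast; exact has)
        have h2 : b' * s ∈ p := by rw [h1]; exact ha
        exact (‹p.IsPrime›.mem_or_mem h2).resolve_right hs
    rw [e, e]
    exact phi_mem_nonunits_iff φ V hV _
  refine ⟨hmap, hmap', ?_, ?_, ?_⟩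
  · rcases exists_dict w x B hB c V₁ V₂ h₁ h₂ hne with ⟨⟨-, d₁⟩, -⟩ | ⟨-, ⟨-, d₂⟩⟩
    · exact key c.p₁ V₁ hV₁ d₁
    · exact key c.p₁ V₂ hV₂ d₂
  · rcases exists_dict w x B hB c V₁ V₂ h₁ h₂ hne with ⟨-, ⟨-, d₂⟩⟩ | ⟨⟨-, d₁⟩, -⟩
    · exact key c.p₂ V₂ hV₂ d₂
    · exact key c.p₂ V₁ hV₁ d₁
  · intro r
    obtain ⟨s, hs⟩ := hQ r
    refine ⟨algebraMap R B s, ?_⟩
    rw [hφR, ← map_pow, ← map_sub, hs, map_mul]
    rfl

/-- **F4 in valuation language.**  Residues in `kˣ · (κˣ)^m` at `V₁`, `V₂`  ⟹  constant residues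
after division by an `m`-th power. -/
theorem exists_constV_of_gSplitV (w : R) (x : F) (B : Subalgebra R F) (hB : ChartCtx E w x B)
    (c : SSChart w B) (V₁ V₂ : ValuationSubring F) (h₁ : ValCtx w x V₁) (h₂ : ValCtx w x V₂)
    (hne : V₁ ≠ V₂) {m : ℕ} {u : F} (hu₁ : GSplitV R V₁ m u) (hu₂ : GSplitV R V₂ m u) :
    ∃ G : F, G ≠ 0 ∧ ConstV R V₁ (u * (G ^ m)⁻¹) ∧ ConstV R V₂ (u * (G ^ m)⁻¹) := by
  have hp₁ := c.prime₁
  have hp₂ := c.prime₂
  rcases exists_dict w x B hB c V₁ V₂ h₁ h₂ hne with ⟨⟨a₁, d₁⟩, ⟨a₂, d₂⟩⟩ | ⟨⟨a₁, d₁⟩, ⟨a₂, d₂⟩⟩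
  · obtain ⟨G, hG, hs⟩ := exists_isSplit_of_gSplit c (gSplitAt_of_gSplitV a₁ d₁ hu₁)
      (gSplitAt_of_gSplitV a₂ d₂ hu₂)
    exact ⟨G, hG, (constAt_iff_constV d₁).1 hs.1, (constAt_iff_constV d₂).1 hs.2⟩
  · obtain ⟨G, hG, hs⟩ := exists_isSplit_of_gSplit c (gSplitAt_of_gSplitV a₂ d₂ hu₂)
      (gSplitAt_of_gSplitV a₁ d₁ hu₁)
    exact ⟨G, hG, (constAt_iff_constV d₁).1 hs.2, (constAt_iff_constV d₂).1 hs.1⟩

end Main

section Div

variable {E F : Type*} [Field E] [Field F] [Algebra E F]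

theorem divisibleDiv_mul_inv_pow (m : ℕ) (u G : F) (hG : G ≠ 0) (hu : DivisibleDiv E m u) :
    DivisibleDiv E m (u * (G ^ m)⁻¹) := by
  intro V hV hE
  obtain ⟨h, ε, hh, hε, hε', rfl⟩ := hu V hV hE
  refine ⟨h * G⁻¹, ε, mul_ne_zero hh (inv_ne_zero hG), hε, hε', ?_⟩
  rw [mul_pow, inv_pow]
  ring

end Div

/-- **N4 / F1 + F4 (interface statement, valuation language).** -/
def FrobToricValStatement : Prop :=
  ∀ {R E F : Type} [CommRing R] [IsDomain R] [IsDiscreteValuationRing R] [HenselianLocalRing R]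
    [IsAlgClosed (IsLocalRing.ResidueField R)]
    [Field E] [CharZero E] [Algebra R E] [IsFractionRing R E]
    [Field F] [Algebra E F] [Algebra R F] [IsScalarTower R E F]
    (w : R) (_ : Irreducible w) (q m : ℕ) (_ : q.Prime)
    (_ : (q : R) ∈ IsLocalRing.maximalIdeal R) (_ : 0 < m) (_ : ¬ q ∣ m)
    (x : F) (_ : Transcendental E x)
    (_ : FiniteDimensional (IntermediateField.adjoin E ({x} : Set F)) F)
    (_ : ∀ f : F, IsAlgebraic E f → f ∈ (algebraMap E F).range)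
    (Bf Bi : Subalgebra R F)
    (_ : ∀ f : F, f ∈ Bf ↔ IsIntegral (Algebra.adjoin R ({x} : Set F)) f)
    (_ : ∀ f : F, f ∈ Bi ↔ IsIntegral (Algebra.adjoin R ({x⁻¹} : Set F)) f)
    (cf : SSChart w Bf) (ci : SSChart w Bi)
    (_ : SepCoord R E x Bf) (_ : SepCoord R E x⁻¹ Bi)
    (V₁ V₂ : ValuationSubring F) (_ : ValCtx w x V₁) (_ : ValCtx w x V₂) (_ : V₁ ≠ V₂)
    (φ : F ≃+* F) (φE : E ≃+* E) (φR : R ≃+* R) (Q : ℕ) (_ : 0 < Q)
    (_ : ∀ e : E, φ (algebraMap E F e) = algebraMap E F (φE e))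
    (_ : ∀ r : R, φE (algebraMap R E r) = algebraMap R E (φR r))
    (_ : ∀ r : R, ∃ s : R, φR r - r ^ Q = w * s)
    (_ : φ x = x)
    (_ : ∀ z : F, φ z ∈ V₁ ↔ z ∈ V₁) (_ : ∀ z : F, φ z ∈ V₂ ↔ z ∈ V₂)
    (_ : ∀ n : Ideal Bf, n.IsMaximal → cf.p₁ ≤ n → cf.p₂ ≤ n →
      ∀ b : Bf, b ∈ n → ∀ hb : φ b ∈ Bf, (⟨φ b, hb⟩ : Bf) ∈ n)
    (_ : ∀ n : Ideal Bi, n.IsMaximal → ci.p₁ ≤ n → ci.p₂ ≤ n →
      ∀ b : Bi, b ∈ n → ∀ hb : φ b ∈ Bi, (⟨φ b, hb⟩ : Bi) ∈ n)
    (u : F), u ≠ 0 → DivisibleDiv E m u → GSplitV R V₁ m u → GSplitV R V₂ m u →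
      ∃ h : F, h ≠ 0 ∧ φ u = h ^ m * u ^ Q

/-- **N4 in valuation language from the three leaves of the A2 wall.** -/
theorem frobToricVal_of_leaves (hPS : H34.PuritySmoothLeaf) (hPN : H34.PurityNodeLeaf)
    (hG : H34.GlueLeaf) : FrobToricValStatement := by
  intro R E F _ _ _ _ _ _ _ _ _ _ _ _ _ w hw q m hq hqR hm hqm x hx hfin hconst Bf Bi hBf hBi
    cf ci sf si V₁ V₂ h₁ h₂ hne φ φE φR Q hQ hφE hφER hfrob hφx hV₁ hV₂ hfixf hfixi u hu hdiv
    hu₁ hu₂
  have hCf : ChartCtx E w x Bf := ⟨hw, hx, hfin, hconst, hBf⟩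
  have hCi : ChartCtx E w x⁻¹ Bi := H34.chartCtx_inv w hw x hx hfin hconst Bi hBi
  have hφR : ∀ r : R, φ (algebraMap R F r) = algebraMap R F (φR r) := by
    intro r
    rw [IsScalarTower.algebraMap_apply R E F, hφE, hφER, ← IsScalarTower.algebraMap_apply]
  have hφxi : φ x⁻¹ = x⁻¹ := by rw [map_inv₀, hφx]
  have hφf : PhiCtx w Bf cf φ Q :=
    phiCtx_of_val w x Bf hCf cf V₁ V₂ h₁ h₂ hne φ φR Q hφR hfrob hφx hV₁ hV₂
  have hφi : PhiCtx w Bi ci φ Q :=
    phiCtx_of_val w x⁻¹ Bi hCi ci V₁ V₂ h₁.inv h₂.inv hne φ φR Q hφR hfrob hφxi hV₁ hV₂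
  obtain ⟨G, hG0, hc₁, hc₂⟩ := exists_constV_of_gSplitV w x Bf hCf cf V₁ V₂ h₁ h₂ hne hu₁ hu₂
  have hGm : G ^ m ≠ 0 := pow_ne_zero _ hG0
  have hu' : u * (G ^ m)⁻¹ ≠ 0 := mul_ne_zero hu (inv_ne_zero hGm)
  have hsf : IsSplit Bf cf (u * (G ^ m)⁻¹) :=
    isSplit_of_constV w x Bf hCf cf V₁ V₂ h₁ h₂ hne hc₁ hc₂
  have hsi : IsSplit Bi ci (u * (G ^ m)⁻¹) :=
    isSplit_of_constV w x⁻¹ Bi hCi ci V₁ V₂ h₁.inv h₂.inv hne hc₁ hc₂
  obtain ⟨h, hh, hrel⟩ := frobToric_of_leaves hPS hPN hG w hw q m hq hqR hm hqm x hx hfin hconst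
    Bf Bi hBf hBi cf ci sf si φ φE Q hQ hφE hφf hφi
    (fun n hn h1 h2 b hb => hfixf n hn h1 h2 b hb _)
    (fun n hn h1 h2 b hb => hfixi n hn h1 h2 b hb _)
    (u * (G ^ m)⁻¹) hu' (divisibleDiv_mul_inv_pow m u G hG0 hdiv) hsf hsi
  have hφG : φ G ≠ 0 := (map_ne_zero φ).2 hG0
  have hGQ : G ^ Q ≠ 0 := pow_ne_zero _ hG0
  refine ⟨h * φ G * (G ^ Q)⁻¹, mul_ne_zero (mul_ne_zero hh hφG) (inv_ne_zero hGQ), ?_⟩
  rw [map_mul, map_inv₀, map_pow] at hrel
  have hφGm : φ G ^ m ≠ 0 := pow_ne_zero _ hφG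
  have e1 : φ u = h ^ m * (u * (G ^ m)⁻¹) ^ Q * φ G ^ m := by
    rw [← hrel, mul_assoc, inv_mul_cancel₀ hφGm, mul_one]
  rw [e1]
  ring

end Fermat.Agent.S35.H433

end
-- ===== PACK-END S35/H433/ValForm.lean

-- ===== PACK-BEGIN S25/H507/ChartEps.lean
section


set_option autoImplicit false

universe u

open AlgebraicGeometry CategoryTheory TopologicalSpace Opposite NeronModelInfra

namespace Fermat.Agent.S25.H507

section Chart

variable (k : Type u) [Field k] [IsAlgClosed k] {C : Scheme.{u}}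
  (c : C ⟶ Spec (CommRingCat.of k)) [IsProper c] [SmoothOfRelativeDimension 1 c] [IsIntegral C]
  (ε : SchemeHomOver (𝟙 (Spec (CommRingCat.of k))) c)

/-- The marked point of the curve. -/
noncomputable def epsPoint : C := ε.1 (IsLocalRing.closedPoint k)

omit [SmoothOfRelativeDimension 1 c] [IsIntegral C] in
lemma isClosed_epsPoint : IsClosed ({epsPoint k c ε} : Set C) :=
  ((pointEquivClosedPoint c) ⟨ε.1, ε.2⟩).2

omit [IsAlgClosed k] [IsProper c] [SmoothOfRelativeDimension 1 c] [IsIntegral C] in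
lemma eps_apply (z : Spec (CommRingCat.of k)) : ε.1 z = epsPoint k c ε := by
  have : z = IsLocalRing.closedPoint k := Subsingleton.elim (α := PrimeSpectrum k) _ _
  rw [this]
  rfl

/-- There is a nonconstant rational function with a pole at the marked point. -/
theorem exists_pole_at_eps :
    ∃ t : C.functionField, t ∉ Set.range (kToK c) ∧ epsPoint k c ε ∈ regOpen C t⁻¹ ∧
      epsPoint k c ε ∉ C.basicOpen (regSection C t⁻¹) := by
  have hdvr := Fermat.Agent.S25.H627.isDiscreteValuationRing_stalk_of_isClosed k c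
    (epsPoint k c ε) (isClosed_epsPoint k c ε)
  have hne : IsLocalRing.maximalIdeal (C.presheaf.stalk (epsPoint k c ε)) ≠ ⊥ := by
    intro h
    exact IsDiscreteValuationRing.not_isField _ (IsLocalRing.isField_iff_maximalIdeal_eq.mpr h)
  obtain ⟨a, ha, ha0⟩ := Submodule.exists_mem_ne_zero_of_ne_bot hne
  have hs := not_mem_range_kToK_of_mem_maximalIdeal c (epsPoint k c ε) a ha ha0
  refine ⟨(algebraMap (C.presheaf.stalk (epsPoint k c ε)) C.functionField a)⁻¹,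
    inv_not_mem_range_kToK c hs, ?_⟩
  exact mem_regOpen_inv_and_not_mem_basicOpen (epsPoint k c ε) a ha _ (inv_inv _).symm

omit [IsAlgClosed k] [IsProper c] [SmoothOfRelativeDimension 1 c] [IsIntegral C] in
lemma eps_preimage_eq_top (U : C.Opens) (h : epsPoint k c ε ∈ U) : ε.1 ⁻¹ᵁ U = ⊤ := by
  ext z
  simp only [Opens.coe_top, Set.mem_univ, iff_true]
  change ε.1 z ∈ U
  rw [eps_apply]
  exact h

omit [IsAlgClosed k] [IsProper c] [SmoothOfRelativeDimension 1 c] [IsIntegral C] in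
/-- Evaluation at the marked point is a `k`-algebra retraction. -/
lemma evalAt_sectionsStr (U : C.Opens) (h : ε.1 ⁻¹ᵁ U = ⊤) (a : k) :
    evalAt c ε U h (sectionsStr c U a) = a := by
  have h1 : C.presheaf.map (homOfLE (le_top : U ≤ ⊤)).op ≫
      ε.1.appLE U ⊤ (le_of_eq h.symm) = ε.1.appTop := by
    rw [Scheme.Hom.map_appLE, ← appTop_eq_appLE]
  have h2 : c.appTop ≫ ε.1.appTop = 𝟙 _ := by
    rw [← Scheme.Hom.comp_appTop, ε.2]
    rfl
  have h3 : ((Scheme.ΓSpecIso (CommRingCat.of k)).inv ≫ c.appTop ≫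
      C.presheaf.map (homOfLE (le_top : U ≤ ⊤)).op) ≫
      (ε.1.appLE U ⊤ (le_of_eq h.symm) ≫ (Scheme.ΓSpecIso (CommRingCat.of k)).hom) = 𝟙 _ := by
    simp only [Category.assoc]
    rw [reassoc_of% h1, reassoc_of% h2, Iso.inv_hom_id]
  exact congrArg (fun φ => φ.hom a) h3

omit [IsAlgClosed k] [IsProper c] [SmoothOfRelativeDimension 1 c] [IsIntegral C] in
/-- A function vanishing at the marked point evaluates to zero. -/
lemma evalAt_eq_zero (U : C.Opens) (h : ε.1 ⁻¹ᵁ U = ⊤) (y : Γ(C, U))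
    (hy : epsPoint k c ε ∉ C.basicOpen y) : evalAt c ε U h y = 0 := by
  by_contra hne
  have hu : IsUnit (evalAt c ε U h y) := isUnit_iff_ne_zero.mpr hne
  have hu2 : IsUnit (ε.1.appLE U ⊤ (le_of_eq h.symm) y) := by
    have h3 := hu.map (Scheme.ΓSpecIso (CommRingCat.of k)).inv.hom
    have h4 : (Scheme.ΓSpecIso (CommRingCat.of k)).inv.hom (evalAt c ε U h y) =
        ε.1.appLE U ⊤ (le_of_eq h.symm) y := by
      simp only [evalAt, CommRingCat.hom_comp, RingHom.comp_apply]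
      exact congrArg (fun φ => φ.hom (ε.1.appLE U ⊤ (le_of_eq h.symm) y))
        (Scheme.ΓSpecIso (CommRingCat.of k)).hom_inv_id
    rwa [h4] at h3
  have h5 := Scheme.basicOpen_of_isUnit _ hu2
  rw [Scheme.basicOpen_appLE] at h5
  have h6 : IsLocalRing.closedPoint k ∈ (⊤ : (Spec (CommRingCat.of k)).Opens) := trivial
  rw [← h5] at h6
  exact hy h6.2

end Chart

end Fermat.Agent.S25.H507

end
-- ===== PACK-END S25/H507/ChartEps.lean

-- ===== PACK-BEGIN S25/H206/SurjFinal.lean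
section
/-
S25 / block ABEL / AB-ALG leaf AA6 (helper206): `H747.StmtAA6`, unconditional.
Plugs the DEGREE leaves on main (D3-a: `H565.D.euler_eq_of_injective`, D6-a/b:
`H910.finrank_H0_unit`, `H910.finrank_H1_unit`) into `stmtAA6_of`, and assembles
`H746.Stmt.AlgAbel` from a proof of AA2.
-/




set_option autoImplicit false

universe u

open scoped TensorProduct

namespace Fermat.Agent.S25.H206

open Fermat.Agent.S25

variable {k : Type u} [Field k] [IsAlgClosed k]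
  {B₀ B₁ B₀₁ : Type u} [CommRing B₀] [CommRing B₁] [CommRing B₀₁]
  [Algebra k B₀] [Algebra k B₁] [Algebra k B₀₁] [Algebra B₀ B₀₁] [Algebra B₁ B₀₁]
  [IsScalarTower k B₀ B₀₁] [IsScalarTower k B₁ B₀₁]

omit [IsAlgClosed k] in
theorem hypEulerInj : HypEulerInj k B₀ B₁ B₀₁ :=
  fun hC _ _ _ _ _ f hf h₀ h₁ => H565.D.euler_eq_of_injective hC f hf h₀ h₁

theorem hypH0Unit : HypH0Unit k B₀ B₁ B₀₁ :=
  fun hC K _ _ => H910.finrank_H0_unit hC K

omit [IsAlgClosed k] in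
theorem hypH1Unit : HypH1Unit k B₀ B₁ B₀₁ :=
  fun hC K _ _ => H910.finrank_H1_unit hC K

variable (k B₀ B₁ B₀₁) in
/-- **AA6** (`abelDatum_surj`, exact `H747` skeleton statement as a Prop): over an
algebraically closed field every gluing datum of degree `0` is in the algebraic Abel family. -/
theorem stmtAA6 : H747.StmtAA6 k B₀ B₁ B₀₁ :=
  stmtAA6_of hypEulerInj hypH0Unit hypH1Unit

/-- **AA6**, in the form of the skeleton theorem `abelDatum_surj`. -/
theorem abelDatum_surj {x : B₀} {y : B₁} {e : B₁ →ₐ[k] k}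
    (hC : IsCurveChart k B₀ B₁ B₀₁ x y e)
    (K : Type u) [Field K] [IsAlgClosed K] [Algebra k K] (G : CurveGD k B₀ B₁ B₀₁ K)
    (hG : G.Deg0) :
    ∃ P : Fin (H747.genus k B₀ B₁ B₀₁) → H746.ChartPt k B₀ B₁ K,
      G.IsIso (H747.abelDatum (B₀₁ := B₀₁) e (H747.genus k B₀ B₁ B₀₁) K P) :=
  stmtAA6 k B₀ B₁ B₀₁ x y e hC K G hG

end Fermat.Agent.S25.H206

end
-- ===== PACK-END S25/H206/SurjFinal.lean

-- ===== PACK-BEGIN S25/H911/ACCover.lean
section








/-!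
# S25 / ALGCHARTS, leaf COVER (helper911): `H11.Leaf.Cover` from the stage leaves 0–2

`cover_of_stages : Leaf.Stage0 → Leaf.Stage1 → Leaf.Stage2 → Leaf.Cover` and, with
`H791.leaf_stage0`, `H791.leaf_stage1` plugged in, `cover_of_stage2 : Leaf.Stage2 → Leaf.Cover`.

Proof.  `G` over a field `K`, of degree `0`.
1. COV1 + COV2 (`cov12'`): `G` has `P3` for a numeric index `(n, m, g, q, β)`; let `φ₀ : Rβ → K`
   be the Hilbert coordinates of the divisor `I'`.
2. COV3 (`cov3_univ`): the universal datum `D₀` over `Rβ`, rigidifiable, of degree `0`, with its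
   universal section.  By SectIso (`H851.isIso_of_sect`) `G` is the base change of `D₀` along `φ₀`.
3. `P2` is open and satisfies the fibrewise criterion (stages 0–2, `p2_crit`): there is
   `a : Rβ` with `φ₀ a ≠ 0` such that `D := D₀ ⊗ (Rβ)_a` has `P2`.
4. The universal section is a generator of `H⁰(D(nE₀ - Σq))` (`H671.isGen_of_mem_of_genModY`), so
   `PointCond x y i D (chartCan i)` for `i = (n, m, g, q, β, a)`.
-/

set_option autoImplicit false
set_option linter.style.haveILetI false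
set_option linter.unusedSectionVars false

universe u

open scoped TensorProduct

namespace Fermat.Agent.S25.H911

open Fermat.Agent.S25 Fermat.Agent.S25.H11

variable {k : Type u} [Field k] [IsAlgClosed k]
  {B₀ B₁ B₀₁ : Type u} [CommRing B₀] [CommRing B₁] [CommRing B₀₁]
  [Algebra k B₀] [Algebra k B₁] [Algebra k B₀₁] [Algebra B₀ B₀₁] [Algebra B₁ B₀₁]
  [IsScalarTower k B₀ B₀₁] [IsScalarTower k B₁ B₀₁] {x : B₀} {y : B₁} {e : B₁ →ₐ[k] k}

/-- The fibrewise criterion and openness for `P2` (stages 0–2). -/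
theorem p2_crit (hC : IsCurveChart k B₀ B₁ B₀₁ x y e)
    (h0 : Leaf.Stage0 k B₀ B₁ B₀₁) (h1 : Leaf.Stage1 k B₀ B₁ B₀₁)
    (h2 : Leaf.Stage2 k B₀ B₁ B₀₁) (i : ChartIndex k B₀) (hnum : i.Numeric B₀₁ y) :
    FibCrit e (fun A _ _ (G : CurveGD k B₀ B₁ B₀₁ A) => P2 x y i.n i.q G) ∧
      SpreadCrit e (fun A _ _ (G : CurveGD k B₀ B₁ B₀₁ A) => P2 x y i.n i.q G) := by
  have hL0 : ∀ (A : Type u) [CommRing A] [Algebra k A] (G : CurveGD k B₀ B₁ B₀₁ A),
      G.Rigidifiable e → G.Deg0 → True →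
        HasLocusAt (fun A _ _ (G : CurveGD k B₀ B₁ B₀₁ A) => P0 x i.n G) A G :=
    fun A _ _ G _ _ _ => h0 x y e hC i.n A G
  have f0 := fibCrit_step (e := e) (fun _ _ _ _ _ => trivial) (fibCrit_true e) hL0
  have s0 := spreadCrit_step (e := e) (fun _ _ _ _ _ => trivial) (fibCrit_true e)
    (spreadCrit_true e) hL0
  have hL1 : ∀ (A : Type u) [CommRing A] [Algebra k A] (G : CurveGD k B₀ B₁ B₀₁ A),
      G.Rigidifiable e → G.Deg0 → P0 x i.n G →
        HasLocusAt (fun A _ _ (G : CurveGD k B₀ B₁ B₀₁ A) => P1 x i.n i.q G) A G :=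
    fun A _ _ G _ _ hp => h1 x y e hC i.n i.q A G hp
  have f1 := fibCrit_step (e := e) (fun _ _ _ _ h => P1.p0 h) f0 hL1
  have s1 := spreadCrit_step (e := e) (fun _ _ _ _ h => P1.p0 h) f0 s0 hL1
  have hL2 : ∀ (A : Type u) [CommRing A] [Algebra k A] (G : CurveGD k B₀ B₁ B₀₁ A),
      G.Rigidifiable e → G.Deg0 → P1 x i.n i.q G →
        HasLocusAt (fun A _ _ (G : CurveGD k B₀ B₁ B₀₁ A) => P2 x y i.n i.q G) A G :=
    fun A _ _ G hr hd hp => h2 x y e hC i hnum A G hr hd hp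
  exact ⟨fibCrit_step (e := e) (fun _ _ _ _ h => P2.p1 h) f1 hL2,
    spreadCrit_step (e := e) (fun _ _ _ _ h => P2.p1 h) f1 s1 hL2⟩

/-- **COVER** from the stage leaves 0–2. -/
theorem cover_of_stages (h0 : Leaf.Stage0 k B₀ B₁ B₀₁) (h1 : Leaf.Stage1 k B₀ B₁ B₀₁)
    (h2 : Leaf.Stage2 k B₀ B₁ B₀₁) : Leaf.Cover k B₀ B₁ B₀₁ := by
  intro x y e hC K _ _ _ G _ hdeg
  -- 1. `G` has `P3`
  obtain ⟨i₀, hnum₀, -, -, hP1, s, hs, I', hI', hspan⟩ := cov12' hC G hdeg
  obtain ⟨φ₀, hφ₀, -⟩ := H491.existsUnique_algHom_of_isChart hI'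
  have hφ₀' : (H491.univIdeal (k := k) i₀.β).map (H491.bc B₀ φ₀) = I' := hφ₀
  -- 2. the universal datum, and `G` as its base change
  obtain ⟨D₀, hrigD, hdegD, sD, hsD, hgenD, hspanD⟩ := cov3_univ (e := e) hC i₀ hnum₀
  obtain ⟨G₀, hG₀⟩ := H265.curveGD_exists_isBC φ₀ D₀
  have hbc : CurveGD.IsBC φ₀ D₀ G := by
    obtain ⟨bm⟩ := hG₀
    refine H265.curveGD_isBC_of_isIso_right ⟨bm⟩ ?_
    refine H851.isIso_of_sect hC i₀.n i₀.β i₀.q φ₀
      ⟨(bm.b₀ sD.1, bm.b₁ sD.2), sec_map bm hsD, genModY_map bm hgenD,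
        span_map bm i₀.q _ hspanD⟩
      ⟨s, hs.mem.1, hs.gen, ?_⟩
    rw [hφ₀']
    exact hspan
  -- 3. spreading out `P2`
  have hP2 : P2 x y i₀.n i₀.q G := ⟨hP1, s, hs⟩
  obtain ⟨hfib, hspr⟩ := p2_crit (e := e) hC h0 h1 h2 i₀ hnum₀
  obtain ⟨a, ha, hgood⟩ := hspr (H491.Rβ k i₀.β) D₀ hrigD hdegD K φ₀ G hbc hP2
  -- the chart index
  let i : ChartIndex k B₀ := ⟨i₀.n, i₀.m, i₀.g, i₀.q, i₀.β, a⟩
  have hnum : i.Numeric B₀₁ y := hnum₀
  refine ⟨i, hnum, ?_⟩
  obtain ⟨D, hD⟩ := H265.curveGD_exists_isBC (chartCan i) D₀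
  have hrig' : D.Rigidifiable e := H265.rigidifiable_of_isBC hD hrigD
  have hdeg' : D.Deg0 := H265.deg0_of_isBC hD hdegD
  have hunit : IsUnit (chartCan i a) := IsLocalization.Away.algebraMap_isUnit a
  have hP2D : P2 x y i.n i.q D := by
    refine hfib (chartRing i) D hrig' hdeg' (fun L _ _ θ Gθ hGθ => ?_)
    refine hgood L (θ.comp (chartCan i)) Gθ (H265.curveGD_isBC_comp hD hGθ) ?_
    rw [AlgHom.comp_apply]
    exact (hunit.map θ).ne_zero
  -- 4. the point condition for the universal section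
  have hpc : PointCond x y i D (chartCan i) := by
    obtain ⟨bmD⟩ := hD
    obtain ⟨hP1D, t, ht⟩ := hP2D
    have hsec' := sec_map bmD hsD
    have hgen' := genModY_map bmD hgenD
    have hspan' := span_map bmD i.q _ hspanD
    have hvan : bmD.b₀ sD.1 ∈ vanq i.q D := by
      have h : bmD.b₀ sD.1 ∈ Submodule.span (chartRing i ⊗[k] B₀) {bmD.b₀ sD.1} :=
        Submodule.mem_span_singleton_self _
      rw [hspan'] at h
      have hle : (H491.univIdeal (k := k) i₀.β).map (H491.bc B₀ (chartCan i)) *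
          ptIdeal i.q (chartRing i) ≤ ptIdeal i.q (chartRing i) := Ideal.mul_le_right
      exact Submodule.smul_mono_left hle h
    exact ⟨hP1D, ⟨(bmD.b₀ sD.1, bmD.b₁ sD.2),
      H671.isGen_of_mem_of_genModY hC ht ⟨hsec', hvan⟩ hgen', hspan'⟩, hunit⟩
  obtain ⟨φ, hφ⟩ := exists_lift_away a φ₀ ha
  exact ⟨D, hrig', hdeg', hpc, φ, H265.curveGD_isBC_of_comp_eq hφ.symm hD hbc⟩

/-- **COVER** from the leaf `Stage2` alone (stages 0 and 1 are `H791.leaf_stage0/1`). -/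
theorem cover_of_stage2 (h2 : Leaf.Stage2 k B₀ B₁ B₀₁) : Leaf.Cover k B₀ B₁ B₀₁ :=
  cover_of_stages H791.leaf_stage0 H791.leaf_stage1 h2

end Fermat.Agent.S25.H911

end
-- ===== PACK-END S25/H911/ACCover.lean

-- ===== PACK-BEGIN S18/H208/Basis.lean
section
/-
S18 / M1 (helper208): the UNIFORM BASIS of the modular function fields.

`exists_uniform_basis` : from the three analytic inputs of S28 (all proved on main) there are
`ψ(N)` integral monomials `y i ∈ ℤ[j(q^d) : d ∣ N] ⊆ ℤ((q))` whose images in `k((q))` form a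
`k(j)`-basis of `F_{N,k} = modularFunctionFieldFullC k N`, for EVERY field `k` in which `N` is
invertible (characteristic `0` or `ℓ ∤ N`).
-/




set_option autoImplicit false

noncomputable section

namespace Fermat.Agent.S18.H208

open ModularCurve HahnSeries Fermat.Agent.S28

/-- The three analytic inputs of S28 (modular polynomial, unit polynomial, theta identity). -/
structure AnalyticInputs : Prop where
  modPoly : ∀ (p : ℕ) [NeZero p], p.Prime → Nonempty (ModPolyData p)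
  unitPoly : ∀ (p : ℕ) [NeZero p], p.Prime → Nonempty (UnitPolyData p)
  theta : (thetaL ℤ (jqModC ℤ)) ^ 6 = deltaL ℤ * (jqModC ℤ) ^ 4 * (jqModC ℤ - 1728) ^ 3

theorem natCast_prime_ne_zero_of_dvd {k : Type*} [Field k] {N : ℕ} (hN : (N : k) ≠ 0)
    (p : ℕ) (hpN : p ∣ N) : (p : k) ≠ 0 := by
  intro h0
  obtain ⟨m, rfl⟩ := hpN
  apply hN
  rw [Nat.cast_mul, h0, zero_mul]

/-- `Good k N` (helper867) from the analytic inputs. -/
theorem good_of_analytic (A : AnalyticInputs) (k : Type*) [Field k] (N : ℕ) [NeZero N]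
    (hN : (N : k) ≠ 0) : S28.H867.Good k N :=
  S28.H867.good_of_inputs k N (NeZero.ne N)
    (fun p hp _ _ => A.modPoly p hp) (fun p hp _ _ => A.unitPoly p hp) A.theta
    (fun p _ hpN => natCast_prime_ne_zero_of_dvd hN p hpN)

/-- **Uniform basis.** -/
theorem exists_uniform_basis (A : AnalyticInputs) (N : ℕ) [NeZero N] :
    ∃ y : Fin (dedekindPsi N) → LaurentSeries ℤ,
      (∀ i, y i ∈ Subring.closure (intDivisorExpansions N)) ∧
      ∀ (k : Type) [Field k], (N : k) ≠ 0 →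
        (∀ x ∈ modularFunctionFieldFullC k N,
          x ∈ Submodule.span (jField k)
            (Set.range fun i => coeffMap (Int.castRingHom k) (y i))) ∧
        LinearIndependent (jField k) (fun i => coeffMap (Int.castRingHom k) (y i)) := by
  obtain ⟨n, y, hn, hy, hspan⟩ := S28.H208.exists_spanning_monomials N (NeZero.ne N)
    (S28.H208.hasModPoly_of_nonempty A.modPoly N)
  subst hn
  refine ⟨y, hy, fun k _ hNk => ⟨hspan k hNk, ?_⟩⟩
  classical
  obtain ⟨x, hxF, hxli⟩ := (good_of_analytic A k N hNk).exists_linearIndependent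
  set v : Fin (dedekindPsi N) → LaurentSeries k := fun i => coeffMap (Int.castRingHom k) (y i)
    with hv
  set W : Submodule (jField k) (LaurentSeries k) := Submodule.span (jField k) (Set.range v)
    with hW
  have hxW : ∀ i, x i ∈ W := fun i => hspan k hNk (x i) (hxF i)
  have hli' : LinearIndependent (jField k) (fun i => (⟨x i, hxW i⟩ : W)) := by
    apply LinearIndependent.of_comp W.subtype
    exact hxli
  have : Module.Finite (jField k) W := Module.Finite.span_of_finite _ (Set.finite_range v)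
  have h1 : Fintype.card (Fin (dedekindPsi N)) ≤ Module.finrank (jField k) W :=
    hli'.fintype_card_le_finrank
  have h2 : Module.finrank (jField k) W ≤ Fintype.card (Fin (dedekindPsi N)) := by
    have := finrank_range_le_card (R := jField k) v
    simpa [Set.finrank, hW] using this
  rw [linearIndependent_iff_card_eq_finrank_span]
  exact le_antisymm h1 h2

end Fermat.Agent.S18.H208

end

end
-- ===== PACK-END S18/H208/Basis.lean

-- ===== PACK-BEGIN S35/H991/Mid.lean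
section
/-
S35 mid layer (helper991): `HasNewformEigenModules` (the input of the landed top glue
`Fermat.Agent.S35.H991.result_of`) from

* the inputs of row S30 in the unfolded lattice form used by row S34
  (`Fermat/Agent/S34/H789/Inputs.lean`): `hfin hsm hgeq hunr hes hlat`;
* `NewPartFrobStatement` (cell A2+): for `q ∥ M` there are two Hecke-equivariant additive maps
  `a b : J₀(M) → J₀(M/q)` (the two degeneracy push-forwards) such that every Frobenius lift `σ` at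
  `q` satisfies `(σ² - 1)(σ² - q²) = 0` on the torsion prime to `q` of the Galois-stable subgroup
  `{x | ∀ γ, a (γ x) = 0 ∧ b (γ x) = 0}` (the `q`-new part);
* `ExclTateStatement`: the eigensystem of a newform of level `M` does not occur in the
  `p`-adic Tate module of `J₀(M/q)`.

No case distinction ramified / unramified, no constants: see `coord/S35-helper991.md`.
-/





set_option autoImplicit false

namespace Fermat.Agent.S35.H991

open TensorProduct IsLocalRing Fermat.Agent.S30.H990 Fermat.Agent.S30.H529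

/-- **(A2+) Bad Frobenius on the `q`-new torsion.** -/
def NewPartFrobStatement : Prop :=
  ∀ (M q : ℕ) [NeZero M] [NeZero (M / q)], q.Prime → q ∣ M → ¬ q ^ 2 ∣ M →
    ∃ a b : ModularCurve.JZero M →+ ModularCurve.JZero (M / q),
      (∀ ℓ : Nat.Primes, ¬ (ℓ : ℕ) ∣ M → ∀ x : ModularCurve.JZero M,
        a (ModularCurve.heckeOperatorBar M ℓ x) = ModularCurve.heckeOperatorBar (M / q) ℓ (a x)) ∧
      (∀ ℓ : Nat.Primes, ¬ (ℓ : ℕ) ∣ M → ∀ x : ModularCurve.JZero M,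
        b (ModularCurve.heckeOperatorBar M ℓ x) = ModularCurve.heckeOperatorBar (M / q) ℓ (b x)) ∧
      ∀ A : ValuationSubring (AlgebraicClosure ℚ), A.LiesOverPrime q →
        ∀ σ : GQ, A.IsFrobeniusAt σ q →
          ∀ m : ℕ, ¬ q ∣ m → ∀ x : ModularCurve.JZero M, m • x = 0 →
            (∀ γ : GQ, a (γ • x) = 0 ∧ b (γ • x) = 0) →
            σ • σ • σ • σ • x - (1 + (q : ℤ) ^ 2) • (σ • σ • x) + ((q : ℤ) ^ 2) • x = 0

/-- **(X) Exclusion.**  The eigensystem of a newform of level `M` does not occur in the `p`-adic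
Tate module of `J₀(M / q)`, `q ∣ M` prime. -/
def ExclTateStatement : Prop :=
  ∀ (M : ℕ) [NeZero M] (g : CuspForm (CongruenceSubgroup.Gamma0 M) 2), g.IsNewform →
    ∀ (q : ℕ) [NeZero (M / q)], q.Prime → q ∣ M →
    ∀ (p : ℕ) [Fact p.Prime] (S : Finset ℕ)
      (O' : Type) [CommRing O'] [IsDomain O'] [IsDiscreteValuationRing O']
      [IsAdicComplete (IsLocalRing.maximalIdeal O') O'] [Finite (IsLocalRing.ResidueField O')]
      [CharZero O'] (_hpO' : (p : O') ∈ IsLocalRing.maximalIdeal O')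
      (chig : CuspForm.heckeAlgebra M 2 (↑S : Set ℕ) →+* ℂ)
      (_hchig : ∀ (ℓ : ℕ) (hℓ : ℓ.Prime) (hℓM : ¬ ℓ ∣ M) (hℓS : ℓ ∉ (↑S : Set ℕ)),
        chig (CuspForm.heckeAlgebra.T hℓ hℓM hℓS) = ModularFormClass.qCoeff g ℓ)
      (iota : chig.range →+* O')
      (_hpS : p ∈ S) (_hMS : ∀ r : ℕ, r.Prime → r ∣ M → r ∈ S)
      (z : ℕ → O' ⊗[ℤ] ModularCurve.JZero (M / q)),
      (p : O') • z 0 = 0 → (∀ n, (p : O') • z (n + 1) = z n) →
      (∀ (ℓ : ℕ) (hℓ : ℓ.Prime) (hℓM : ¬ ℓ ∣ M) (hℓS : ℓ ∉ (↑S : Set ℕ)) (n : ℕ),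
        (ModularCurve.heckeOperatorBar (M / q) ⟨ℓ, hℓ⟩).baseChange O' (z n)
          = (iota.comp chig.rangeRestrict) (CuspForm.heckeAlgebra.T hℓ hℓM hℓS) • z n) →
      z = 0

/-- **The newform eigenmodules from the inputs of row S30, (A2+) and (X).** -/
theorem hasNewformEigenModules_of_inputs
    (hfin : ∀ (N p : ℕ) [NeZero N], p.Prime →
      Finite {x : ModularCurve.JZero N // (p : ℤ) • x = 0})
    (hsm : ∀ (N p : ℕ) [NeZero N], ∀ x : ModularCurve.JZero N,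
      (∃ n : ℕ, ((p : ℤ) ^ n) • x = 0) →
        ∃ L : IntermediateField ℚ (AlgebraicClosure ℚ), FiniteDimensional ℚ L ∧
          ∀ σ : GQ, (∀ y ∈ L, σ y = y) → σ • x = x)
    (hgeq : ∀ (N : ℕ) [NeZero N] (ℓ : Nat.Primes) (σ : GQ) (x : ModularCurve.JZero N),
      ModularCurve.heckeOperatorBar N ℓ (σ • x) = σ • ModularCurve.heckeOperatorBar N ℓ x)
    (hunr : ∀ (N p : ℕ) [NeZero N], ∀ q : ℕ, q.Prime → ¬ q ∣ N * p →
      ∀ A : ValuationSubring (AlgebraicClosure ℚ), A.LiesOverPrime q →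
        ∀ σ ∈ A.inertiaSubgroupIn ℚ, ∀ x : ModularCurve.JZero N,
          (∃ n : ℕ, ((p : ℤ) ^ n) • x = 0) → σ • x = x)
    (hes : ∀ (N p : ℕ) [NeZero N], ∀ (ℓ : ℕ) (hℓ : ℓ.Prime), ¬ ℓ ∣ N * p →
      ∀ A : ValuationSubring (AlgebraicClosure ℚ), A.LiesOverPrime ℓ →
        ∀ σ : GQ, A.IsFrobeniusAt σ ℓ → ∀ x : ModularCurve.JZero N,
          (∃ n : ℕ, ((p : ℤ) ^ n) • x = 0) →
            σ • σ • x - ModularCurve.heckeOperatorBar N ⟨ℓ, hℓ⟩ (σ • x) + (ℓ : ℤ) • x = 0)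
    (hlat : ∀ (N p : ℕ) [NeZero N], p.Prime →
      ∃ (Λ : Type) (_ : AddCommGroup Λ) (_ : Module.Free ℤ Λ) (_ : Module.Finite ℤ Λ)
        (TΛ : Nat.Primes → Λ →ₗ[ℤ] Λ) (κ : ℕ → Λ →ₗ[ℤ] ModularCurve.JZero N),
        (∀ (n : ℕ) (x : Λ), κ n x = 0 ↔ ∃ y : Λ, x = ((p : ℤ) ^ n) • y) ∧
        (∀ (n : ℕ) (x : Λ), (p : ℤ) • κ (n + 1) x = κ n x) ∧
        (∀ ℓ : Nat.Primes, ¬ (ℓ : ℕ) ∣ N * p → ∀ (n : ℕ) (x : Λ),
          κ n (TΛ ℓ x) = ModularCurve.heckeOperatorBar N ℓ (κ n x)) ∧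
        (∀ (S : Set ℕ) (R : Type) [CommRing R] [IsDomain R] [CharZero R]
          (χ : CuspForm.heckeAlgebra N 2 S →+* R),
          ∃ v : R ⊗[ℤ] Λ, v ≠ 0 ∧
            ∀ (ℓ : ℕ) (hℓ : ℓ.Prime) (hℓN : ¬ ℓ ∣ N) (hℓS : ℓ ∉ S),
              (TΛ ⟨ℓ, hℓ⟩).baseChange R v = χ (CuspForm.heckeAlgebra.T hℓ hℓN hℓS) • v))
    (hG : NewPartFrobStatement) (hX : ExclTateStatement) :
    HasNewformEigenModules := by
  classical
  intro M _ g hg p _ S O' _ _ _ _ _ _ hpO' chig hchig iota hpS hMS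
  have hp : p.Prime := Fact.out
  set χ : CuspForm.heckeAlgebra M 2 (↑S : Set ℕ) →+* O' := iota.comp chig.rangeRestrict with hχ
  obtain ⟨Λ, i1, i2, i3, TΛ, κ, hκ0, hκs, hκT, hocc⟩ := hlat M p hp
  obtain ⟨v, hv, hva⟩ := hocc (↑S : Set ℕ) O' χ
  -- good primes
  have hNp : ∀ ℓ : ℕ, ℓ.Prime → ¬ ℓ ∣ M → ℓ ≠ p → ¬ ℓ ∣ M * p := by
    intro ℓ hℓ hℓN hℓp h
    rcases (Nat.Prime.dvd_mul hℓ).1 h with h | h
    · exact hℓN h
    · exact hℓp ((Nat.prime_dvd_prime_iff_eq hℓ hp).1 h)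
  have hιp : ∀ i : {ℓ : Nat.Primes // ¬ (ℓ : ℕ) ∣ M ∧ (ℓ : ℕ) ∉ (↑S : Set ℕ)},
      ((i.1 : Nat.Primes) : ℕ) ≠ p := by
    intro i h
    exact i.2.2 (by rw [h]; exact hpS)
  -- conversions between `ℤ`- and `ℕ`-torsion
  have hpow : ∀ (N : ℕ) (n : ℕ) (x : ModularCurve.JZero N),
      ((p : ℤ) ^ n) • x = p ^ n • x := by
    intro N n x
    rw [← Nat.cast_pow, natCast_zsmul]
  -- the operators
  let T : {ℓ : Nat.Primes // ¬ (ℓ : ℕ) ∣ M ∧ (ℓ : ℕ) ∉ (↑S : Set ℕ)} →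
      ModularCurve.JZero M →+ ModularCurve.JZero M :=
    fun i => (ModularCurve.heckeOperatorBar M i.1).toAddMonoidHom
  let a : {ℓ : Nat.Primes // ¬ (ℓ : ℕ) ∣ M ∧ (ℓ : ℕ) ∉ (↑S : Set ℕ)} → O' :=
    fun i => χ (CuspForm.heckeAlgebra.T i.1.2 i.2.1 i.2.2)
  have hT' : ∀ i, (T i).toIntLinearMap = ModularCurve.heckeOperatorBar M i.1 :=
    fun i => LinearMap.ext fun _ => rfl
  have hfin' : {x : ModularCurve.JZero M | p • x = 0}.Finite := by
    have h1 : {x : ModularCurve.JZero M | (p : ℤ) • x = 0}.Finite :=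
      Set.finite_coe_iff.mp (hfin M p hp)
    refine h1.subset fun x hx => ?_
    show (p : ℤ) • x = 0
    rw [natCast_zsmul]
    exact hx
  -- the Kummer sequence (as in `S30.H649.exists_adicFrobModule_of_lattice`)
  have hκzero : ∀ w : O' ⊗[ℤ] Λ, (κ 0).baseChange O' w = 0 := by
    have h0 : κ 0 = 0 := by
      apply LinearMap.ext
      intro x
      rw [LinearMap.zero_apply, hκ0 0 x]
      exact ⟨x, by rw [pow_zero, one_smul]⟩
    intro w
    rw [h0, LinearMap.baseChange_zero, LinearMap.zero_apply]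
  have hκsucc : ∀ (n : ℕ) (w : O' ⊗[ℤ] Λ),
      (p : O') • (κ (n + 1)).baseChange O' w = (κ n).baseChange O' w := by
    intro n w
    have h1 : (p : ℤ) • κ (n + 1) = κ n := LinearMap.ext fun x => hκs n x
    have h2 : ((p : ℤ) : O') • (κ (n + 1)).baseChange O' w
        = (p : ℤ) • (κ (n + 1)).baseChange O' w := Fermat.Agent.S30.H649.intCast_smul_tensor _ _
    rw [Int.cast_natCast] at h2
    rw [h2, ← LinearMap.smul_apply, ← LinearMap.baseChange_smul, h1]
  obtain ⟨n₀, hn₀⟩ := Fermat.Agent.S30.H649.exists_baseChange_ne_zero (𝒪 := O') hpO' κ hκ0 v hv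
  obtain ⟨m₀, rfl⟩ : ∃ m₀, n₀ = m₀ + 1 := by
    cases n₀ with
    | zero => exact absurd (hκzero v) hn₀
    | succ m => exact ⟨m, rfl⟩
  let seq : ℕ → O' ⊗[ℤ] ModularCurve.JZero M := fun n => (κ (n + 1)).baseChange O' v
  have hseq0 : (p : O') • seq 0 = 0 := by
    show (p : O') • (κ (0 + 1)).baseChange O' v = 0
    rw [hκsucc 0 v, hκzero v]
  have hseqs : ∀ n, (p : O') • seq (n + 1) = seq n := fun n => hκsucc (n + 1) v
  have hseqne : seq ≠ 0 := fun h => hn₀ (congrFun h m₀)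
  have hseqeig : ∀ i n, tensorOp O' T i (seq n) = a i • seq n := by
    intro i n
    show ((T i).toIntLinearMap.baseChange O') ((κ (n + 1)).baseChange O' v)
      = a i • (κ (n + 1)).baseChange O' v
    have h1 : ModularCurve.heckeOperatorBar M i.1 ∘ₗ κ (n + 1) = κ (n + 1) ∘ₗ TΛ i.1 :=
      LinearMap.ext fun x => (hκT i.1 (hNp _ i.1.2 i.2.1 (hιp i)) (n + 1) x).symm
    have hva' : (TΛ i.1).baseChange O' v = a i • v := hva i.1 i.1.2 i.2.1 i.2.2
    rw [hT' i, ← LinearMap.comp_apply, ← LinearMap.baseChange_comp, h1,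
      LinearMap.baseChange_comp, LinearMap.comp_apply, hva', map_smul]
  -- the degeneracy maps at the primes `q ∥ M`, `q ≠ p`
  let Q : Type := {q : ℕ // q.Prime ∧ q ≠ p ∧ q ∣ M ∧ ¬ q ^ 2 ∣ M}
  have hne0 : ∀ q : Q, NeZero (M / q.1) := by
    intro q
    refine ⟨?_⟩
    have hM : M ≠ 0 := NeZero.ne M
    intro h0
    have h1 := Nat.div_mul_cancel q.2.2.2.1
    rw [h0, zero_mul] at h1
    exact hM h1.symm
  have hab : ∀ q : Q, ∃ a b : ModularCurve.JZero M →+ ModularCurve.JZero (M / q.1),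
      (∀ ℓ : Nat.Primes, ¬ (ℓ : ℕ) ∣ M → ∀ x : ModularCurve.JZero M,
        a (ModularCurve.heckeOperatorBar M ℓ x)
          = @ModularCurve.heckeOperatorBar (M / q.1) (hne0 q) ℓ (a x)) ∧
      (∀ ℓ : Nat.Primes, ¬ (ℓ : ℕ) ∣ M → ∀ x : ModularCurve.JZero M,
        b (ModularCurve.heckeOperatorBar M ℓ x)
          = @ModularCurve.heckeOperatorBar (M / q.1) (hne0 q) ℓ (b x)) ∧
      ∀ A : ValuationSubring (AlgebraicClosure ℚ), A.LiesOverPrime q.1 →
        ∀ σ : GQ, A.IsFrobeniusAt σ q.1 →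
          ∀ m : ℕ, ¬ q.1 ∣ m → ∀ x : ModularCurve.JZero M, m • x = 0 →
            (∀ γ : GQ, a (γ • x) = 0 ∧ b (γ • x) = 0) →
            σ • σ • σ • σ • x - (1 + (q.1 : ℤ) ^ 2) • (σ • σ • x) + ((q.1 : ℤ) ^ 2) • x = 0 :=
    fun q => @hG M q.1 _ (hne0 q) q.2.1 q.2.2.2.1 q.2.2.2.2
  choose da db hda hdb hfrobq using hab
  let J' : Q × Bool → Type := fun c => ModularCurve.JZero (M / c.1.1)
  let f : ∀ c : Q × Bool, ModularCurve.JZero M →+ J' c := fun c =>
    match c with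
    | (q, true) => da q
    | (q, false) => db q
  let T'' : ∀ c : Q × Bool, {ℓ : Nat.Primes // ¬ (ℓ : ℕ) ∣ M ∧ (ℓ : ℕ) ∉ (↑S : Set ℕ)} →
      J' c →+ J' c :=
    fun c i => (@ModularCurve.heckeOperatorBar (M / c.1.1) (hne0 c.1) i.1).toAddMonoidHom
  have hf : ∀ (c : Q × Bool) (i : {ℓ : Nat.Primes // ¬ (ℓ : ℕ) ∣ M ∧ (ℓ : ℕ) ∉ (↑S : Set ℕ)})
      (x : ModularCurve.JZero M), f c (T i x) = T'' c i (f c x) := by
    rintro ⟨q, b⟩ i x
    cases b with
    | true => exact hda q i.1 i.2.1 x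
    | false => exact hdb q i.1 i.2.1 x
  have hexcl : ∀ (c : Q × Bool) (z : ℕ → O' ⊗[ℤ] J' c), (p : O') • z 0 = 0 →
      (∀ n, (p : O') • z (n + 1) = z n) →
      (∀ i n, tensorOp O' (T'' c) i (z n) = a i • z n) → z = 0 := by
    intro c z hz0 hzs hzeig
    exact @hX M _ g hg c.1.1 (hne0 c.1) c.1.2.1 c.1.2.2.2.1 p _ S O' _ _ _ _ _ _ hpO' chig hchig
      iota hpS hMS z hz0 hzs (fun ℓ hℓ hℓM hℓS n => hzeig ⟨⟨ℓ, hℓ⟩, hℓM, hℓS⟩ n)
  -- the eigenmodule of the new part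
  obtain ⟨E, j1, j2, j3, j4, ρ, hnt, hcont, hone, hquad, hquadZ⟩ :=
    exists_adic_eigenmodule_new (O := O') hpO' hp.ne_zero (J := ModularCurve.JZero M) T a
      (fun i γ x => hgeq M i.1 γ x) hfin'
      (fun x hx => hsm M p x (by
        obtain ⟨n, hn⟩ := hx
        exact ⟨n, by rw [hpow]; exact hn⟩))
      T'' f hf hexcl seq hseq0 hseqs hseqne hseqeig
  refine ⟨{ M := E
            ρ := ρ
            cont := hcont
            unram := fun q hq hqN hqp P hP σ hσ =>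
              hone σ fun x hx _ => hunr M p q hq (hNp q hq hqN hqp) P hP σ hσ x (by
                obtain ⟨n, hn⟩ := hx
                exact ⟨n, by rw [hpow]; exact hn⟩)
            frob := fun ℓ hℓ hℓN hℓS A hA σ hσ => by
              have hℓp : ℓ ≠ p := fun h => hℓS (Finset.mem_coe.mpr (h ▸ hpS))
              have h := hquad σ ⟨⟨ℓ, hℓ⟩, hℓN, hℓS⟩ ((ℓ : ℕ) : ℤ)
                (fun x hx _ => hes M p ℓ hℓ (hNp ℓ hℓ hℓN hℓp) A hA σ hσ x (by
                  obtain ⟨n, hn⟩ := hx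
                  exact ⟨n, by rw [hpow]; exact hn⟩))
              simpa using h }, ?_⟩
  -- the bad-Frobenius relation
  intro q hq hqp hqM hq2 A hA σ hσ
  have hqpn : ∀ n : ℕ, ¬ q ∣ p ^ n := by
    intro n h
    exact hqp ((Nat.prime_dvd_prime_iff_eq hq hp).1 (hq.dvd_of_dvd_pow h))
  have hrel := hquadZ (σ * σ) (1 + (q : ℤ) ^ 2) ((q : ℤ) ^ 2) (by
    rintro x ⟨n, hn⟩ hnew
    have h1 := hfrobq ⟨q, hq, hqp, hqM, hq2⟩ A hA σ hσ (p ^ n) (hqpn n) x hn
      (fun γ => ⟨hnew γ (⟨q, hq, hqp, hqM, hq2⟩, true), hnew γ (⟨q, hq, hqp, hqM, hq2⟩, false)⟩)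
    rw [mul_smul, mul_smul]
    exact h1)
  intro w
  have h2 := congrArg (fun F : Module.End O' E => F w) hrel
  simp only [map_mul, LinearMap.add_apply, LinearMap.sub_apply, LinearMap.smul_apply,
    Module.End.mul_apply, Module.End.one_apply, LinearMap.zero_apply] at h2
  have h3 : ((1 + (q : ℤ) ^ 2 : ℤ) : O') = 1 + (q : O') ^ 2 := by push_cast; ring
  have h4 : (((q : ℤ) ^ 2 : ℤ) : O') = (q : O') ^ 2 := by push_cast; ring
  rw [h3, h4] at h2
  exact h2

end Fermat.Agent.S35.H991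

end
-- ===== PACK-END S35/H991/Mid.lean

-- ===== PACK-BEGIN Lib/Newform/H863/Minimal.lean
section


/-!
# NEWFORM library, piece D2 (helper863): the newform attached to an eigenform

With the prelude's definition (`IsNewform` = normalised eigenform whose good eigensystem does
not occur at any proper divisor level), the existence of the associated newform is a
minimal-level argument.
-/

set_option autoImplicit false
open CuspForm CongruenceSubgroup ModularFormClass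

namespace Fermat.Agent.Lib.Newform.H863

/-- Transitivity of "the good eigensystem occurs". -/
theorem goodEigensystemOccursAt_trans {N M M' : ℕ} (hMN : M ∣ N)
    {f : CuspForm (Gamma0 N) 2} {g : CuspForm (Gamma0 M) 2}
    (hg : ∀ ℓ : ℕ, ℓ.Prime → ¬ ℓ ∣ N → qCoeff g ℓ = qCoeff f ℓ)
    (h : GoodEigensystemOccursAt g M') : GoodEigensystemOccursAt f M' := by
  obtain ⟨h', hh', hl⟩ := h
  refine ⟨h', hh', fun ℓ hℓ hℓN => ?_⟩
  rw [hl ℓ hℓ (fun hd => hℓN (hd.trans hMN)), hg ℓ hℓ hℓN]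

/-- **D2.** Every normalised eigenform of level `N ≠ 0` has an associated newform (in the
prelude's sense) of some level `M ∣ N` with the same good eigenvalues. -/
theorem exists_isNewform_of_isNormalizedEigenform {N : ℕ} [NeZero N]
    (f : CuspForm (Gamma0 N) 2) (hf : f.IsNormalizedEigenform) :
    ∃ M : ℕ, M ∣ N ∧ ∃ g : CuspForm (Gamma0 M) 2, g.IsNewform ∧
      ∀ ℓ : ℕ, ℓ.Prime → ¬ ℓ ∣ N → qCoeff g ℓ = qCoeff f ℓ := by
  classical
  have hex : ∃ M : ℕ, M ∣ N ∧ GoodEigensystemOccursAt f M :=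
    ⟨N, dvd_rfl, GoodEigensystemOccursAt.refl hf⟩
  obtain ⟨hMN, g, hg, hgl⟩ := Nat.find_spec hex
  refine ⟨Nat.find hex, hMN, g, ⟨hg, fun M' hM' hne hocc => ?_⟩, hgl⟩
  have hM0 : Nat.find hex ≠ 0 := fun h0 => NeZero.ne N (Nat.eq_zero_of_zero_dvd (h0 ▸ hMN))
  have hlt : M' < Nat.find hex :=
    lt_of_le_of_ne (Nat.le_of_dvd (Nat.pos_of_ne_zero hM0) hM') hne
  exact Nat.find_min hex hlt ⟨hM'.trans hMN, goodEigensystemOccursAt_trans hMN hgl hocc⟩

/-- A newform's good eigensystem occurs at no proper divisor level, even for a common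
eigenvector of the good Hecke operators only. -/
theorem IsNewform.eq_zero_of_eigenvector {N M : ℕ} [NeZero N] (hMN : M ∣ N) (hne : M ≠ N)
    {f : CuspForm (Gamma0 N) 2} (hf : f.IsNewform) (h : CuspForm (Gamma0 M) 2)
    (heig : ∀ (ℓ : ℕ) (hℓ : ℓ.Prime) (hℓN : ¬ ℓ ∣ N),
      CuspForm.heckeTLin 2 hℓ (fun hd => hℓN (hd.trans hMN)) h = qCoeff f ℓ • h) :
    h = 0 := by
  by_contra hh
  haveI : NeZero M := ⟨fun h0 => NeZero.ne N (Nat.eq_zero_of_zero_dvd (h0 ▸ hMN))⟩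
  exact hf.2 M hMN hne (goodEigensystemOccursAt_of_eigenvector hMN f h hh heig)

end Fermat.Agent.Lib.Newform.H863

end
-- ===== PACK-END Lib/Newform/H863/Minimal.lean

-- ===== PACK-BEGIN S59/H127/Inputs.lean
section




/-!
# Row S59, layer E — FINITE-LEVEL INPUT SHAPES for the assembly of `Arch.CurveRep`

`CR-ASM` (helper127) assembles `Fermat.Agent.S59.Arch.CurveRep p W 𝒪` from the following
statements about the torsion points of `W` over `ℚ̄` (definitions only in this file).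
`Pts W` is the group `E(ℚ̄)` of the Prelude (`(W.map (Int.castRingHom ℚ))⁄(AlgebraicClosure ℚ)`),
with the Prelude's Galois action.

* `FrobRelInput p W` : the Frobenius relation `σ² - a_ℓ σ + ℓ = 0` on `E[p^∞]` for Frobenius
  elements `σ` at good `ℓ ≠ p`  (Lib/Frob);
* `DetInput p W`     : `det (σ | E[p^n]) = a` whenever `σ = (·)^a` on `μ_{p^n}`  (E3);
* `UnramInput p W`   : inertia at good `ℓ ≠ p` acts trivially on `E[p^∞]`  (E4, Lib/Red);
* `UnipInput p W`    : `(σ - 1)² = 0` on `E[p^∞]` for `σ` in inertia at bad `ℓ ≠ p`  (E5 / CR-I);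
* `FlatInput p W`    : if `W` is good at `p`, every `E[p^k]` has a Hopf model over `ℤ_(p)`
  (CR-FLAT, via A3);
* `OrdInput p W`     : if `W` is bad at `p`, the Tate representation is strictly ordinary (CR-ORD).
-/

set_option autoImplicit false

open WeierstrassCurve WeierstrassCurve.Affine
open scoped WeierstrassCurve.Affine

namespace Fermat.Agent.S59.H127

/-- the curve over `ℚ` -/
abbrev WQ (W : WeierstrassCurve ℤ) : WeierstrassCurve.Affine ℚ := W.map (Int.castRingHom ℚ)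

/-- the group `E(ℚ̄)` -/
abbrev Pts (W : WeierstrassCurve ℤ) : Type := ((WQ W)⁄(AlgebraicClosure ℚ)).Point

/-- `ℚ̄` -/
abbrev Qb : Type := AlgebraicClosure ℚ

/-- the base change of `W` to `ℚ̄` is elliptic if `Δ ≠ 0` -/
theorem isElliptic_of_Δ_ne_zero (W : WeierstrassCurve ℤ) (hΔ : W.Δ ≠ 0) :
    ((WQ W)⁄(AlgebraicClosure ℚ)).IsElliptic := by
  refine ⟨?_⟩
  rw [isUnit_iff_ne_zero]
  show ((W.map (Int.castRingHom ℚ)).map (algebraMap ℚ (AlgebraicClosure ℚ))).Δ ≠ 0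
  rw [WeierstrassCurve.map_Δ, WeierstrassCurve.map_Δ]
  intro h
  have h1 := (algebraMap ℚ (AlgebraicClosure ℚ)).injective (h.trans (map_zero _).symm)
  exact hΔ (Int.cast_injective (h1.trans Int.cast_zero.symm))

variable (p : ℕ) (W : WeierstrassCurve ℤ)

/-- **INPUT (Frobenius relation)** -/
def FrobRelInput : Prop :=
  ∀ ℓ : ℕ, ℓ.Prime → W.IsGoodPrimeFor ℓ → ℓ ≠ p →
    ∀ A : ValuationSubring Qb, A.LiesOverPrime ℓ → ∀ σ : GQ, A.IsFrobeniusAt σ ℓ →
      ∀ (n : ℕ) (x : Pts W), p ^ n • x = 0 →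
        σ • σ • x - (W.apOfModel ℓ : ℤ) • σ • x + (ℓ : ℤ) • x = 0

/-- **INPUT (determinant at finite level)** -/
def DetInput : Prop :=
  ∀ (n : ℕ) (σ : GQ) (a : ℕ), (∀ μ : Qb, μ ^ p ^ n = 1 → σ μ = μ ^ a) →
    LinearMap.det
      (WeierstrassCurve.Affine.Point.galoisRepModuleEnd (K := AlgebraicClosure ℚ) ℚ (WQ W)
        (p ^ n) σ) = (a : ZMod (p ^ n))

/-- **INPUT (unramified at the good primes)** -/
def UnramInput : Prop :=
  ∀ ℓ : ℕ, ℓ.Prime → W.IsGoodPrimeFor ℓ → ℓ ≠ p →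
    ∀ A : ValuationSubring Qb, A.LiesOverPrime ℓ → ∀ σ ∈ A.inertiaSubgroupIn ℚ,
      ∀ (n : ℕ) (x : Pts W), p ^ n • x = 0 → σ • x = x

/-- **INPUT (unipotent inertia at the bad primes)** -/
def UnipInput : Prop :=
  ∀ ℓ : ℕ, ℓ.Prime → ¬ W.IsGoodPrimeFor ℓ → ℓ ≠ p →
    ∀ A : ValuationSubring Qb, A.LiesOverPrime ℓ → ∀ σ ∈ A.inertiaSubgroupIn ℚ,
      ∀ (n : ℕ) (x : Pts W), p ^ n • x = 0 → σ • σ • x - (2 : ℤ) • σ • x + (1 : ℤ) • x = 0

/-- **INPUT (finite flat models at `p`)** -/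
def FlatInput : Prop :=
  W.IsGoodPrimeFor p → ∀ k : ℕ,
    Fermat.Agent.S19.HopfModel p
      (Submodule.torsionBy ℤ (Pts W) ((p ^ k : ℕ) : ℤ))
      (fun σ x => σ • x)

/-- **INPUT (ordinary at `p`)**, for the Tate representation in any coordinates -/
def OrdInput [Fact p.Prime] : Prop :=
  ¬ W.IsGoodPrimeFor p → ∀ (hE : ((WQ W)⁄(AlgebraicClosure ℚ)).IsElliptic)
    (cb : CompatBasis (Pts W) p 2),
    (@tateGaloisRep (WQ W) hE p _ cb).IsStrictOrdinaryAt p

end Fermat.Agent.S59.H127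

end
-- ===== PACK-END S59/H127/Inputs.lean

-- ===== PACK-BEGIN S59/MFree/H761/KerCor.lean
section



/-!
# S59 / M-FREE, leaves (A) and (B) (helper761)

* `kerCor  : KerCorStatement`  — `ker (cor) ⊆ I_D · H(Γ', A)`;
* `corSurj : CorSurjStatement` — `cor` is onto.
-/

set_option autoImplicit false

namespace Fermat.Agent.S59.MFree.H761

open CongruenceSubgroup Matrix.SpecialLinearGroup ModularGroup
open Fermat.Agent.S41.Spec Fermat.Agent.S59.MFree Fermat.Agent.S41.H232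
open scoped MatrixGroups

universe u

section Torsor

variable {Γ : Subgroup SL(2, ℤ)} {D : Type*} [Group D] (κ : Γ →* D)

theorem finiteIndex_ker [Finite D] : κ.ker.FiniteIndex := by
  constructor
  rw [Subgroup.index_ker]
  exact Nat.card_pos.ne'

/-- The fibres of `X' → X` are torsors under `Γ ⧸ ker κ`. -/
theorem fibre_bijOn (y : SL(2, ℤ) ⧸ kerSub κ) :
    Set.BijOn (fun q : Γ ⧸ κ.ker => rmul κ q.out y) Set.univ
      {x' | Subgroup.quotientMapOfLE (kerSub_le κ) x' = Subgroup.quotientMapOfLE (kerSub_le κ) y} := by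
  refine ⟨fun q _ => quotMap_rmul κ _ y, ?_, ?_⟩
  · intro q _ q' _ h
    simp only at h
    have h1 : rmul κ (q'.out * (q.out)⁻¹) y = y := by
      rw [rmul_mul, ← h, rmul_inv_rmul]
    have h2 := mem_ker_of_rmul_eq κ h1
    rw [map_mul, map_inv, mul_inv_eq_one] at h2
    have h3 : ((q.out : Γ) : Γ ⧸ κ.ker) = ((q'.out : Γ) : Γ ⧸ κ.ker) := by
      apply QuotientGroup.eq.mpr
      rw [MonoidHom.mem_ker, map_mul, map_inv, h2, inv_mul_cancel]
    rwa [QuotientGroup.out_eq', QuotientGroup.out_eq'] at h3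
  · intro x' hx'
    obtain ⟨g, hg⟩ := exists_rmul_eq κ (x := y) (y := x') hx'.symm
    refine ⟨(g : Γ ⧸ κ.ker), Set.mem_univ _, ?_⟩
    obtain ⟨k, hk⟩ := QuotientGroup.mk_out_eq_mul κ.ker g
    simp only
    rw [hk, rmul_mul, hg]
    exact rmul_eq_of_mem κ k k.2 x'

variable {A : Type*} [AddCommGroup A]

theorem pushQ_eq_sum [Finite D] [Fintype (Γ ⧸ κ.ker)] (m : SL(2, ℤ) ⧸ kerSub κ → A)
    (y : SL(2, ℤ) ⧸ kerSub κ) :
    pushQ (kerSub_le κ) m (Subgroup.quotientMapOfLE (kerSub_le κ) y) =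
      ∑ q : Γ ⧸ κ.ker, m (rmul κ q.out y) := by
  rw [pushQ_eq]
  have h := finsum_mem_eq_of_bijOn (f := fun q : Γ ⧸ κ.ker => m (rmul κ q.out y)) (g := m)
    (fun q : Γ ⧸ κ.ker => rmul κ q.out y) (fibre_bijOn κ y) (fun _ _ => rfl)
  rw [← h, finsum_mem_univ, finsum_eq_sum_of_fintype]

/-- The component of `m` along the coset `q`, moved to the section `t`. -/
noncomputable def comp (t : SL(2, ℤ) ⧸ Γ → SL(2, ℤ) ⧸ kerSub κ) (m : SL(2, ℤ) ⧸ kerSub κ → A)
    (q : Γ ⧸ κ.ker) : SL(2, ℤ) ⧸ kerSub κ → A :=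
  open Classical in
  fun y => if y = t (Subgroup.quotientMapOfLE (kerSub_le κ) y) then m (rmul κ q.out y) else 0

theorem sum_comp_eq_zero [Finite D] [Fintype (Γ ⧸ κ.ker)]
    (t : SL(2, ℤ) ⧸ Γ → SL(2, ℤ) ⧸ kerSub κ) (m : SL(2, ℤ) ⧸ kerSub κ → A)
    (hm : ∀ x, pushQ (kerSub_le κ) m x = 0) (y : SL(2, ℤ) ⧸ kerSub κ) :
    ∑ q : Γ ⧸ κ.ker, comp κ t m q y = 0 := by
  classical
  unfold comp
  by_cases h : y = t (Subgroup.quotientMapOfLE (kerSub_le κ) y)
  · simp only [if_pos h]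
    rw [← pushQ_eq_sum, hm]
  · simp only [if_neg h, Finset.sum_const_zero]

theorem sum_comp_rmul [Finite D] [Fintype (Γ ⧸ κ.ker)]
    (t : SL(2, ℤ) ⧸ Γ → SL(2, ℤ) ⧸ kerSub κ)
    (ht : ∀ x, Subgroup.quotientMapOfLE (kerSub_le κ) (t x) = x)
    (m : SL(2, ℤ) ⧸ kerSub κ → A) (x' : SL(2, ℤ) ⧸ kerSub κ) :
    ∑ q : Γ ⧸ κ.ker, comp κ t m q (rmul κ (q.out)⁻¹ x') = m x' := by
  classical
  set y := t (Subgroup.quotientMapOfLE (kerSub_le κ) x') with hy
  have hfib : x' ∈ {z | Subgroup.quotientMapOfLE (kerSub_le κ) z =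
      Subgroup.quotientMapOfLE (kerSub_le κ) y} := by
    show Subgroup.quotientMapOfLE (kerSub_le κ) x' = Subgroup.quotientMapOfLE (kerSub_le κ) y
    rw [hy, ht]
  obtain ⟨q₀, -, hq₀⟩ := (fibre_bijOn κ y).surjOn hfib
  simp only at hq₀
  have key : ∀ q : Γ ⧸ κ.ker, comp κ t m q (rmul κ (q.out)⁻¹ x') = if q = q₀ then m x' else 0 := by
    intro q
    unfold comp
    rw [quotMap_rmul, rmul_rmul_inv, ← hy]
    by_cases hq : q = q₀
    · rw [if_pos hq, if_pos]
      rw [hq, ← hq₀, rmul_inv_rmul]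
    · rw [if_neg hq, if_neg]
      intro h
      apply hq
      apply (fibre_bijOn κ y).injOn (Set.mem_univ _) (Set.mem_univ _)
      simp only
      rw [hq₀, ← h, rmul_rmul_inv]
  rw [Finset.sum_congr rfl fun q _ => key q, Finset.sum_ite_eq' Finset.univ q₀]
  simp

end Torsor

/-- **Leaf (B)**: `cor` is onto. -/
theorem corSurj : CorSurjStatement.{u} := by
  intro Γ _ D _ _ κ hneg A _ y hy
  have := finiteIndex_kerSub κ
  have hnegΓ : (-1 : SL(2, ℤ)) ∈ Γ := kerSub_le κ hneg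
  obtain ⟨m, hm⟩ := Fermat.Agent.S41.H460.maninRepExists.{u} Γ hnegΓ A y hy
  obtain ⟨t, ht⟩ : ∃ t : SL(2, ℤ) ⧸ Γ → SL(2, ℤ) ⧸ kerSub κ,
      ∀ x, Subgroup.quotientMapOfLE (kerSub_le κ) (t x) = x := by
    choose t ht using quotMap_surjective (kerSub_le κ)
    exact ⟨t, ht⟩
  obtain ⟨x, hx⟩ := Fermat.Agent.S41.H585.maninRepRealize.{u} (kerSub κ) hneg A
    (liftFun (kerSub_le κ) t m)
  refine ⟨x, Fermat.Agent.S41.H585.maninRepTorsionU.{u} (kerSub κ) hneg A x _ hx, ?_⟩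
  have h1 := Fermat.Agent.S41.H232.maninRepCores.{u} (kerSub κ) Γ (kerSub_le κ) A x _ hx
  have h2 : (fun x => ∑ᶠ (x' : SL(2, ℤ) ⧸ kerSub κ)
      (_ : Subgroup.quotientMapOfLE (kerSub_le κ) x' = x), liftFun (kerSub_le κ) t m x') = m := by
    funext x
    exact pushQ_liftFun (kerSub_le κ) t ht m x
  rw [h2] at h1
  exact eq_of_isManinRep hnegΓ h1 hm

/-- **Leaf (A)**: `ker (cor) ⊆ I_D · H(Γ', A)`. -/
theorem kerCor : KerCorStatement.{u} := by
  intro Γ _ D _ _ κ hneg hell A _ x hx hcor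
  classical
  have := finiteIndex_kerSub κ
  have := finiteIndex_ker κ
  let _ : Fintype (Γ ⧸ κ.ker) := Subgroup.fintypeQuotientOfFiniteIndex
  have hnegΓ : (-1 : SL(2, ℤ)) ∈ Γ := kerSub_le κ hneg
  -- a Manin symbol of `x` and its push-forward
  obtain ⟨m', hm'⟩ := Fermat.Agent.S41.H460.maninRepExists.{u} (kerSub κ) hneg A x hx
  have h1 := Fermat.Agent.S41.H232.maninRepCores.{u} (kerSub κ) Γ (kerSub_le κ) A x _ hm'
  have hcor' : transferAlong (Subgroup.inclusion (kerSub_le κ)) x = 0 := hcor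
  rw [hcor'] at h1
  obtain ⟨n₁, n₂, hn₁, hn₂, hsum⟩ := Fermat.Agent.S41.H460.maninRepZero.{u} Γ hnegΓ A _ h1
  -- stable sections
  obtain ⟨t₁, ht₁, ht₁'⟩ := exists_stable_section_of_ell κ hell
    Fermat.Agent.S41.H460.isOfFinOrder_S_h460
  obtain ⟨t₂, ht₂, ht₂'⟩ := exists_stable_section_of_ell κ hell
    Fermat.Agent.S41.H460.isOfFinOrder_ST_h460
  set n₁' := liftFun (kerSub_le κ) t₁ n₁ with hn₁'
  set n₂' := liftFun (kerSub_le κ) t₂ n₂ with hn₂'
  -- `n₁' + n₂'` represents `0`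
  obtain ⟨ψ₀, hψ₀⟩ := Fermat.Agent.S41.H585.maninRepRealize.{u} (kerSub κ) hneg A (n₁' + n₂')
  have hψ₀0 : ψ₀ = 0 := Fermat.Agent.S41.H460.maninRepInvariant.{u} (kerSub κ) hneg A ψ₀ _ hψ₀
    ⟨n₁', n₂', fun x' => liftFun_smul (kerSub_le κ) t₁ S ht₁' n₁ hn₁ x',
      fun x' => liftFun_smul (kerSub_le κ) t₂ (S * T) ht₂' n₂ hn₂ x', rfl⟩
  rw [hψ₀0] at hψ₀
  -- the corrected symbol
  set m := m' - (n₁' + n₂') with hm
  have hmrep : IsManinRep (kerSub κ) x m := by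
    have := isManinRep_sub hm' hψ₀
    rwa [sub_zero] at this
  have hmpush : ∀ z, pushQ (kerSub_le κ) m z = 0 := by
    intro z
    have e1 : pushQ (kerSub_le κ) m z = pushQ (kerSub_le κ) m' z -
        (pushQ (kerSub_le κ) n₁' z + pushQ (kerSub_le κ) n₂' z) := by
      rw [hm]
      have : (m' - (n₁' + n₂')) = fun x' => m' x' - (n₁' + n₂') x' := rfl
      rw [this, pushQ_sub]
      have : (n₁' + n₂') = fun x' => n₁' x' + n₂' x' := rfl
      rw [this, pushQ_add]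
    rw [e1, hn₁', hn₂', pushQ_liftFun _ _ ht₁, pushQ_liftFun _ _ ht₂]
    have e2 : pushQ (kerSub_le κ) m' z = (n₁ + n₂) z := by
      rw [← hsum]
      rfl
    rw [e2]
    simp
  -- decomposition
  have hdec : m = ∑ q : Γ ⧸ κ.ker,
      ((fun x' => comp κ t₁ m q (rmul κ (q.out)⁻¹ x')) - comp κ t₁ m q) := by
    funext x'
    rw [Finset.sum_apply]
    simp only [Pi.sub_apply]
    rw [Finset.sum_sub_distrib, sum_comp_rmul κ t₁ ht₁ m x', sum_comp_eq_zero κ t₁ m hmpush x',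
      sub_zero]
  -- classes of the components
  have hcl : ∀ q : Γ ⧸ κ.ker, ∃ ψ : Additive (kerSub κ) →+ A, IsManinRep (kerSub κ) ψ (comp κ t₁ m q) :=
    fun q => Fermat.Agent.S41.H585.maninRepRealize.{u} (kerSub κ) hneg A _
  choose ψ hψ using hcl
  have hψtt : ∀ q, IsTorsionTrivial (ψ q) := fun q =>
    Fermat.Agent.S41.H585.maninRepTorsionU.{u} (kerSub κ) hneg A (ψ q) _ (hψ q)
  have hrep2 : IsManinRep (kerSub κ) (∑ q : Γ ⧸ κ.ker, (conjAct κ (q.out)⁻¹ (ψ q) - ψ q))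
      (∑ q : Γ ⧸ κ.ker,
        ((fun x' => comp κ t₁ m q (rmul κ (q.out)⁻¹ x')) - comp κ t₁ m q)) :=
    isManinRep_sum hneg Finset.univ _ _ fun q _ =>
      isManinRep_sub (isManinRep_conjAct κ (q.out)⁻¹ (hψ q)) (hψ q)
  rw [← hdec] at hrep2
  have hx_eq : x = ∑ q : Γ ⧸ κ.ker, (conjAct κ (q.out)⁻¹ (ψ q) - ψ q) :=
    eq_of_isManinRep hneg hmrep hrep2
  rw [hx_eq]
  refine AddSubgroup.sum_mem _ fun q _ => AddSubgroup.subset_closure ?_
  exact ⟨(q.out)⁻¹, ψ q, hψtt q, rfl⟩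

end Fermat.Agent.S59.MFree.H761

end
-- ===== PACK-END S59/MFree/H761/KerCor.lean

-- ===== PACK-BEGIN S59/TW/H564/TwistChar.lean
section




/-!
# S59 / TW leaf E4 TWIST (helper564), part 5: the twisting characters

Pure character theory (no modular forms).  Let `ε` be a Dirichlet character modulo `M`, `Qs` a
list of distinct primes with `q ∥ M`, such that `ε` factors through `∏ Qs` and
`ε ^ (2 m + 1) = 1`.

* `charComp ε q` : the `q`-component of `ε` (a character modulo `q`), characterised by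
  `charComp_spec : M' ∣ d - 1 → charComp ε q d = ε d` for `M = M' q`, `(M', q) = 1`;
* `charComp_prod_eq` : `ε(d) = ∏_{q ∈ Qs} ε_q(d)` for `d` prime to `M`;
* `ramList ε Qs` : the primes of `Qs` at which `ε` is ramified;
* `exists_psi` : the ramified list `L ⊆ Qs` and `ψ_q = ε_q ^ m` satisfy every hypothesis of
  `isNeb_twistL`, `twistL_injective`, `heckeT_twistL'` (with `psiL(ℓ) = ε(ℓ) ^ m`) and
  the twisted nebentypus `ε · ∏ ψ_q²` is trivial.
-/

set_option autoImplicit false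

namespace Fermat.Agent.S59.TW.H564

/-- Chinese remainder theorem on integers. -/
theorem exists_int_crt {a b : ℕ} (h : Nat.Coprime a b) (x y : ℤ) :
    ∃ z : ℤ, (a : ℤ) ∣ z - x ∧ (b : ℤ) ∣ z - y := by
  have hc : IsCoprime (a : ℤ) (b : ℤ) := Nat.isCoprime_iff_coprime.mpr h
  obtain ⟨s, t, hst⟩ := hc
  refine ⟨x * (t * b) + y * (s * a), ⟨s * (y - x), ?_⟩, ⟨t * (x - y), ?_⟩⟩
  · linear_combination x * hst
  · linear_combination y * hst

theorem intCast_zmod_eq_of_dvd {n : ℕ} {a b : ℤ} (h : (n : ℤ) ∣ a - b) :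
    ((a : ℤ) : ZMod n) = ((b : ℤ) : ZMod n) := by
  have := (ZMod.intCast_zmod_eq_zero_iff_dvd (a - b) n).mpr h
  push_cast at this
  exact sub_eq_zero.mp this

theorem dvd_of_intCast_zmod_eq {n : ℕ} {a b : ℤ} (h : ((a : ℤ) : ZMod n) = ((b : ℤ) : ZMod n)) :
    (n : ℤ) ∣ a - b := by
  rw [← ZMod.intCast_zmod_eq_zero_iff_dvd]
  push_cast
  exact sub_eq_zero.mpr h

theorem isUnit_intCast_of_dvd {n m : ℕ} (h : m ∣ n) {a : ℤ} (ha : IsUnit ((a : ℤ) : ZMod n)) :
    IsUnit ((a : ℤ) : ZMod m) := by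
  have := ha.map (ZMod.castHom h (ZMod m))
  simpa using this

theorem exists_charComp {M' q : ℕ} (hcop : Nat.Coprime M' q) (ε : DirichletCharacter ℂ (M' * q)) :
    ∃ εq : DirichletCharacter ℂ q, ∀ d : ℤ, (M' : ℤ) ∣ d - 1 →
      εq ((d : ℤ) : ZMod q) = ε ((d : ℤ) : ZMod (M' * q)) := by
  classical
  let e := ZMod.chineseRemainder hcop
  let ι : ZMod q →* ZMod (M' * q) :=
    (e.symm : ZMod M' × ZMod q →* ZMod (M' * q)).comp (MonoidHom.inr (ZMod M') (ZMod q))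
  refine ⟨MulChar.ofUnitHom (ε.toUnitHom.comp (Units.map ι)), fun d hd => ?_⟩
  have hd1 : ((d : ℤ) : ZMod M') = 1 := by
    have := intCast_zmod_eq_of_dvd hd
    simpa using this
  have hι : ι (d : ZMod q) = (d : ZMod (M' * q)) := by
    show e.symm ((1 : ZMod M'), (d : ZMod q)) = _
    rw [RingEquiv.symm_apply_eq, map_intCast]
    ext
    · simp [hd1]
    · simp
  by_cases hu : IsUnit ((d : ℤ) : ZMod q)
  · obtain ⟨u, hu'⟩ := hu
    rw [← hu', MulChar.ofUnitHom_coe]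
    simp only [MonoidHom.comp_apply, MulChar.coe_toUnitHom, Units.coe_map]
    rw [hu', hι]
  · rw [MulChar.map_nonunit _ hu, MulChar.map_nonunit]
    intro h
    exact hu (isUnit_intCast_of_dvd (Dvd.intro_left M' rfl) h)

/-- The `q`-component of a Dirichlet character modulo `M` (meaningful when `q ∥ M`). -/
noncomputable def charComp {M : ℕ} (ε : DirichletCharacter ℂ M) (q : ℕ) : DirichletCharacter ℂ q :=
  open Classical in
  if h : ∃ εq : DirichletCharacter ℂ q, ∀ d : ℤ, ((M / q : ℕ) : ℤ) ∣ d - 1 →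
      εq ((d : ℤ) : ZMod q) = ε ((d : ℤ) : ZMod M)
  then h.choose else 1

theorem charComp_spec {M M' q : ℕ} (hM : M = M' * q) (hq : q ≠ 0) (hcop : Nat.Coprime M' q)
    (ε : DirichletCharacter ℂ M) (d : ℤ) (hd : (M' : ℤ) ∣ d - 1) :
    charComp ε q ((d : ℤ) : ZMod q) = ε ((d : ℤ) : ZMod M) := by
  subst hM
  have hdiv : M' * q / q = M' := Nat.mul_div_cancel _ (Nat.pos_of_ne_zero hq)
  have hex : ∃ εq : DirichletCharacter ℂ q, ∀ d : ℤ, ((M' * q / q : ℕ) : ℤ) ∣ d - 1 →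
      εq ((d : ℤ) : ZMod q) = ε ((d : ℤ) : ZMod (M' * q)) := by
    rw [hdiv]
    exact exists_charComp hcop ε
  unfold charComp
  rw [dif_pos hex]
  exact hex.choose_spec d (by rw [hdiv]; exact hd)

section Formula

variable {M : ℕ} (ε : DirichletCharacter ℂ M)

theorem prime_dvd_cofactor {M M' q n : ℕ} (hM : M = M' * q) (hq : q.Prime) (hn : n.Prime)
    (hnM : n ∣ M) (hne : n ≠ q) : n ∣ M' := by
  rw [hM] at hnM
  rcases (Nat.Prime.dvd_mul hn).mp hnM with h | h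
  · exact h
  · exact absurd ((Nat.prime_dvd_prime_iff_eq hn hq).mp h) hne

theorem charComp_prod_aux (L : List ℕ) (hnd : L.Nodup)
    (hL : ∀ q ∈ L, q.Prime ∧ ∃ M' : ℕ, M = M' * q ∧ Nat.Coprime M' q) (d : ℤ) :
    ∃ r : ℤ, ε ((r : ℤ) : ZMod M) = (L.map fun q => charComp ε q ((d : ℤ) : ZMod q)).prod ∧
      (∀ q ∈ L, (q : ℤ) ∣ r - d) ∧
      (∀ n : ℕ, n.Prime → n ∣ M → n ∉ L → (n : ℤ) ∣ r - 1) := by
  induction L with
  | nil =>
    refine ⟨1, by simp, by simp, fun n _ _ _ => by simp⟩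
  | cons q L ih =>
    obtain ⟨hq, M', hM, hcop⟩ := hL q List.mem_cons_self
    have hqL : q ∉ L := (List.nodup_cons.mp hnd).1
    obtain ⟨r', hr1, hr2, hr3⟩ := ih (List.nodup_cons.mp hnd).2
      (fun q' hq' => hL q' (List.mem_cons_of_mem _ hq'))
    obtain ⟨x, hx1, hx2⟩ := exists_int_crt hcop 1 d
    have hqM : q ∣ M := ⟨M', by rw [hM, mul_comm]⟩
    refine ⟨r' * x, ?_, ?_, ?_⟩
    · rw [List.map_cons, List.prod_cons, ← hr1, Int.cast_mul, map_mul, mul_comm]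
      congr 1
      rw [← charComp_spec hM hq.ne_zero hcop ε x hx1, intCast_zmod_eq_of_dvd hx2]
    · intro q' hq'
      rcases List.mem_cons.mp hq' with rfl | hq'L
      · have h1 := hr3 q' hq hqM hqL
        have : r' * x - d = (r' - 1) * x + (x - d) := by ring
        rw [this]
        exact dvd_add (Dvd.dvd.mul_right h1 _) hx2
      · have hq'p := (hL q' hq').1
        have hne : q' ≠ q := fun h => hqL (h ▸ hq'L)
        have hq'M : q' ∣ M := by
          obtain ⟨-, M'', hM'', -⟩ := hL q' hq'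
          exact ⟨M'', by rw [hM'', mul_comm]⟩
        have h1 : (q' : ℤ) ∣ x - 1 :=
          (Int.natCast_dvd_natCast.mpr (prime_dvd_cofactor hM hq hq'p hq'M hne)).trans hx1
        have : r' * x - d = (r' - d) * x + d * (x - 1) := by ring
        rw [this]
        exact dvd_add (Dvd.dvd.mul_right (hr2 q' hq'L) _) (Dvd.dvd.mul_left h1 _)
    · intro n hn hnM hnL
      have hne : n ≠ q := fun h => hnL (h ▸ List.mem_cons_self)
      have hnL' : n ∉ L := fun h => hnL (List.mem_cons_of_mem _ h)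
      have h1 : (n : ℤ) ∣ x - 1 :=
        (Int.natCast_dvd_natCast.mpr (prime_dvd_cofactor hM hq hn hnM hne)).trans hx1
      have : r' * x - 1 = (r' - 1) * x + (x - 1) := by ring
      rw [this]
      exact dvd_add (Dvd.dvd.mul_right (hr3 n hn hnM hnL') _) h1

theorem charComp_apply_ne_zero {q : ℕ} (hqM : q ∣ M) {d : ℤ} (hd : IsUnit ((d : ℤ) : ZMod M)) :
    charComp ε q ((d : ℤ) : ZMod q) ≠ 0 :=
  ((isUnit_intCast_of_dvd hqM hd).map (charComp ε q)).ne_zero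

/-- **Product formula**: a character which factors through `∏ L` is the product of its
components. -/
theorem charComp_prod_eq (L : List ℕ) (hnd : L.Nodup)
    (hL : ∀ q ∈ L, q.Prime ∧ ∃ M' : ℕ, M = M' * q ∧ Nat.Coprime M' q)
    (hper : ∀ a b : ℤ, IsUnit ((a : ℤ) : ZMod M) → IsUnit ((b : ℤ) : ZMod M) →
      (∀ q ∈ L, (q : ℤ) ∣ a - b) → ε ((a : ℤ) : ZMod M) = ε ((b : ℤ) : ZMod M))
    (d : ℤ) (hd : IsUnit ((d : ℤ) : ZMod M)) :
    ε ((d : ℤ) : ZMod M) = (L.map fun q => charComp ε q ((d : ℤ) : ZMod q)).prod := by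
  obtain ⟨r, hr1, hr2, -⟩ := charComp_prod_aux ε L hnd hL d
  have hne : (L.map fun q => charComp ε q ((d : ℤ) : ZMod q)).prod ≠ 0 := by
    rw [Ne, List.prod_eq_zero_iff, List.mem_map]
    rintro ⟨q, hq, h0⟩
    obtain ⟨-, M', hM, -⟩ := hL q hq
    exact charComp_apply_ne_zero ε ⟨M', by rw [hM, mul_comm]⟩ hd h0
  have hru : IsUnit ((r : ℤ) : ZMod M) := by
    by_contra h
    rw [MulChar.map_nonunit _ h] at hr1
    exact hne hr1.symm
  rw [← hr1]
  exact (hper r d hru hd hr2).symm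

end Formula


section Psi

variable {M : ℕ} (ε : DirichletCharacter ℂ M)

theorem charComp_pow_eq_one {M' q : ℕ} (hM : M = M' * q) (hq : q ≠ 0) (hcop : Nat.Coprime M' q)
    (n : ℕ) (hn : ε ^ n = 1) : charComp ε q ^ n = 1 := by
  ext u
  obtain ⟨u₀, hu₀⟩ := ZMod.intCast_surjective (u : ZMod q)
  obtain ⟨x, hx1, hx2⟩ := exists_int_crt hcop 1 u₀
  have hxq : ((x : ℤ) : ZMod q) = u := (intCast_zmod_eq_of_dvd hx2).trans hu₀
  have hsp := charComp_spec hM hq hcop ε x hx1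
  rw [hxq] at hsp
  have hne : charComp ε q (u : ZMod q) ≠ 0 := (u.isUnit.map (charComp ε q)).ne_zero
  have hxu : IsUnit ((x : ℤ) : ZMod M) := by
    by_contra h
    rw [MulChar.map_nonunit _ h] at hsp
    exact hne hsp
  obtain ⟨v, hv⟩ := hxu
  rw [MulChar.pow_apply_coe, hsp, ← hv, ← MulChar.pow_apply_coe, hn, MulChar.one_apply_coe,
    MulChar.one_apply_coe]

theorem ram_of_charComp_ne_one {M' q : ℕ} (hM : M = M' * q) (hq : q ≠ 0)
    (hcop : Nat.Coprime M' q) (h : charComp ε q ≠ 1) :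
    Ram q (fun d : ℤ => ε ((d : ℤ) : ZMod M)) := by
  intro N' hN'
  obtain ⟨u, hu⟩ := MulChar.ne_one_iff.mp h
  obtain ⟨u₀, hu₀⟩ := ZMod.intCast_surjective (u : ZMod q)
  have hc : Nat.Coprime (N' * M') q := Nat.Coprime.mul_left hN' hcop
  obtain ⟨d, hd1, hd2⟩ := exists_int_crt hc 1 u₀
  have hdq : ((d : ℤ) : ZMod q) = u := (intCast_zmod_eq_of_dvd hd2).trans hu₀
  have hN'd : (N' : ℤ) ∣ d - 1 := dvd_trans (Dvd.intro _ (by push_cast; rfl)) hd1
  have hM'd : (M' : ℤ) ∣ d - 1 := dvd_trans (Dvd.intro_left _ (by push_cast; rfl)) hd1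
  refine ⟨d, hN'd, hdq ▸ u.isUnit, ?_⟩
  show ε ((d : ℤ) : ZMod M) ≠ 1
  rw [← charComp_spec hM hq hcop ε d hM'd, hdq]
  exact hu

theorem list_prod_map_pow {α : Type*} (L : List α) (f : α → ℂ) (n : ℕ) :
    (L.map fun q => f q ^ n).prod = (L.map f).prod ^ n := by
  induction L with
  | nil => simp
  | cons q L ih => simp [mul_pow, ih]

open Classical in
/-- The ramified part of a list of primes. -/
noncomputable def ramList (Qs : List ℕ) : List ℕ :=
  Qs.filter fun q => decide (charComp ε q ≠ 1)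

theorem mem_ramList {Qs : List ℕ} {q : ℕ} :
    q ∈ ramList ε Qs ↔ q ∈ Qs ∧ charComp ε q ≠ 1 := by
  classical
  simp [ramList, List.mem_filter]

theorem ramList_nodup {Qs : List ℕ} (h : Qs.Nodup) : (ramList ε Qs).Nodup := by
  classical
  exact h.filter _

theorem ramList_prod_dvd (Qs : List ℕ) : (ramList ε Qs).prod ∣ Qs.prod := by
  classical
  exact List.Sublist.prod_dvd_prod List.filter_sublist

theorem prod_ramList (Qs : List ℕ) (hQs : ∀ q ∈ Qs, q ∣ M) (d : ℤ)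
    (hd : IsUnit ((d : ℤ) : ZMod M)) :
    ((ramList ε Qs).map fun q => charComp ε q ((d : ℤ) : ZMod q)).prod =
      (Qs.map fun q => charComp ε q ((d : ℤ) : ZMod q)).prod := by
  classical
  induction Qs with
  | nil => rfl
  | cons q Qs ih =>
    have ih' := ih fun q' hq' => hQs q' (List.mem_cons_of_mem _ hq')
    by_cases hq : charComp ε q ≠ 1
    · have : ramList ε (q :: Qs) = q :: ramList ε Qs := by
        simp [ramList, hq]
      rw [this, List.map_cons, List.prod_cons, List.map_cons, List.prod_cons, ih']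
    · have : ramList ε (q :: Qs) = ramList ε Qs := by
        simp [ramList, hq]
      rw [this, List.map_cons, List.prod_cons, ih']
      rw [not_not] at hq
      obtain ⟨u, hu⟩ := isUnit_intCast_of_dvd (hQs q List.mem_cons_self) hd
      rw [hq, ← hu, MulChar.one_apply_coe, one_mul]

/-- **The twisting characters.**  For a character `ε` of odd order dividing `2 m + 1` which
factors through `∏ Qs` (`Qs` distinct primes exactly dividing `M`): the ramified part `L` of `Qs`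
and the characters `ψ_q = ε_q ^ m` (a square root of `ε_q⁻¹`). -/
theorem exists_psi (Qs : List ℕ) (hnd : Qs.Nodup)
    (hQs : ∀ q ∈ Qs, q.Prime ∧ ∃ M' : ℕ, M = M' * q ∧ Nat.Coprime M' q)
    (hper : ∀ a b : ℤ, IsUnit ((a : ℤ) : ZMod M) → IsUnit ((b : ℤ) : ZMod M) →
      (∀ q ∈ Qs, (q : ℤ) ∣ a - b) → ε ((a : ℤ) : ZMod M) = ε ((b : ℤ) : ZMod M))
    (m : ℕ) (hm : ε ^ (2 * m + 1) = 1) :
    ∃ (L : List ℕ) (ψ : (q : ℕ) → DirichletCharacter ℂ q),
      L.Nodup ∧ (∀ q ∈ L, q ∈ Qs) ∧ L.prod ∣ Qs.prod ∧ (∀ q ∈ L, ψ q ≠ 1) ∧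
      (∀ q ∈ L, Ram q (fun d : ℤ => ε ((d : ℤ) : ZMod M))) ∧
      (∀ d : ℤ, IsUnit ((d : ℤ) : ZMod M) →
        ε ((d : ℤ) : ZMod M) * (L.map fun q => ψ q ((d : ℤ) : ZMod q) ^ 2).prod = 1) ∧
      (∀ d : ℤ, IsUnit ((d : ℤ) : ZMod M) →
        (L.map fun q => ψ q ((d : ℤ) : ZMod q)).prod = ε ((d : ℤ) : ZMod M) ^ m) := by
  have hdvd : ∀ q ∈ Qs, q ∣ M := fun q hq => by
    obtain ⟨-, M', hM, -⟩ := hQs q hq
    exact ⟨M', by rw [hM, mul_comm]⟩
  have hmem : ∀ q ∈ ramList ε Qs, q ∈ Qs := fun q hq => ((mem_ramList ε).mp hq).1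
  -- values of `ψ`
  have hval : ∀ q ∈ Qs, ∀ d : ℤ, IsUnit ((d : ℤ) : ZMod M) →
      (charComp ε q ^ m) ((d : ℤ) : ZMod q) = charComp ε q ((d : ℤ) : ZMod q) ^ m := by
    intro q hq d hd
    obtain ⟨u, hu⟩ := isUnit_intCast_of_dvd (hdvd q hq) hd
    rw [← hu, MulChar.pow_apply_coe]
  have hprod : ∀ d : ℤ, IsUnit ((d : ℤ) : ZMod M) →
      ((ramList ε Qs).map fun q => charComp ε q ((d : ℤ) : ZMod q)).prod =
        ε ((d : ℤ) : ZMod M) := fun d hd => by
    rw [prod_ramList ε Qs hdvd d hd, ← charComp_prod_eq ε Qs hnd hQs hper d hd]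
  have hpow : ∀ d : ℤ, IsUnit ((d : ℤ) : ZMod M) →
      ε ((d : ℤ) : ZMod M) ^ (2 * m + 1) = 1 := by
    intro d hd
    obtain ⟨u, hu⟩ := hd
    rw [← hu, ← MulChar.pow_apply_coe, hm, MulChar.one_apply_coe]
  refine ⟨ramList ε Qs, fun q => charComp ε q ^ m, ramList_nodup ε hnd, hmem,
    ramList_prod_dvd ε Qs, ?_, ?_, ?_, ?_⟩
  · intro q hq h1
    obtain ⟨hqQ, hne⟩ := (mem_ramList ε).mp hq
    obtain ⟨hqp, M', hM, hcop⟩ := hQs q hqQ
    apply hne
    have h1' : charComp ε q ^ m = 1 := h1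
    have h2 := charComp_pow_eq_one ε hM hqp.ne_zero hcop (2 * m + 1) hm
    rw [pow_succ, pow_mul', h1', one_pow, one_mul] at h2
    exact h2
  · intro q hq
    obtain ⟨hqQ, hne⟩ := (mem_ramList ε).mp hq
    obtain ⟨hqp, M', hM, hcop⟩ := hQs q hqQ
    exact ram_of_charComp_ne_one ε hM hqp.ne_zero hcop hne
  · intro d hd
    have h1 : ((ramList ε Qs).map fun q => (charComp ε q ^ m) ((d : ℤ) : ZMod q) ^ 2) =
        (ramList ε Qs).map fun q => charComp ε q ((d : ℤ) : ZMod q) ^ (2 * m) := by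
      refine List.map_congr_left fun q hq => ?_
      rw [hval q (hmem q hq) d hd, ← pow_mul, mul_comm]
    rw [h1, list_prod_map_pow, hprod d hd, ← pow_succ', hpow d hd]
  · intro d hd
    have h1 : ((ramList ε Qs).map fun q => (charComp ε q ^ m) ((d : ℤ) : ZMod q)) =
        (ramList ε Qs).map fun q => charComp ε q ((d : ℤ) : ZMod q) ^ m :=
      List.map_congr_left fun q hq => hval q (hmem q hq) d hd
    rw [h1, list_prod_map_pow, hprod d hd]

end Psi

end Fermat.Agent.S59.TW.H564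

end
-- ===== PACK-END S59/TW/H564/TwistChar.lean

-- ===== PACK-BEGIN S59/TW/H653/Cross/Level.lean
section





/-!
# S59 / TW-HECKE (helper653), block CROSS: change of level for the representatives

* `repsT_system_of_dvd`, `TK_eq_of_dvd` : for `N ∣ N'`, `ℓ ∤ N'`, the representatives
  `repsT N' ℓ` of level `N'` are a coset system for every `K` of level `N`, with operator `T_ℓ`;
* `mem_of_normRep` : `X = g * Y` with `X`, `Y` normalised modulo `N` implies `g ∈ K`;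
* `isNormRep_conjDiag` : `δ X δ⁻¹` is normalised modulo `N` if `X` is normalised modulo `N q`
  (`δ = diag(q, 1)`);
* `conjDiag_repsT`, `conjDiag_repsU` : `δ ρ_y δ⁻¹ = u ρ_y'` with `u ∈ K`;
* the arithmetic of the separation properties: `lower_dvd_of_rel`, `upper_dvd_of_rel`,
  `upper_dvd_of_rel'`.
-/

set_option autoImplicit false

namespace Fermat.Agent.S59.TW.H653.Cross

open CongruenceSubgroup Matrix.SpecialLinearGroup ModularCurve.Period ModularForm
open Fermat.Agent.S29.H642 Fermat.Agent.S41.Spec Fermat.Agent.S41.H761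
open Fermat.Agent.S59.TW.H653
open P2MW.S_ModularForm_heckeT_slash_eq_self_of_mem_Gamma0.ModularForm.HeckeSlashInvariance
open scoped MatrixGroups

variable {N N' : ℕ} {K : Subgroup SL(2, ℤ)} {A : Type*} [AddCommGroup A]

/-! ## Change of level -/

theorem gamma0_le_of_dvd (h : N ∣ N') : Gamma0 N' ≤ Gamma0 N := by
  intro g hg
  exact mem_Gamma0_of_dvd (dvd_trans (Int.natCast_dvd_natCast.mpr h) (dvd_of_mem_Gamma0 hg))

/-- The inclusion `Γ₀(N') → Γ₀(N)`, `N ∣ N'`. -/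
def inclG (h : N ∣ N') : Gamma0 N' →* Gamma0 N := Subgroup.inclusion (gamma0_le_of_dvd h)

theorem ιN_inclG (h : N ∣ N') (g : Gamma0 N') : ιN N (inclG h g) = ιN N' g := rfl

theorem isNormRep_of_dvd (h : N ∣ N') {X : GL (Fin 2) ℝ} (hX : IsNormRep N' X) :
    IsNormRep N X := by
  obtain ⟨a, b, c, d, hc, ha, hXe⟩ := hX
  have hd : (N : ℤ) ∣ (N' : ℤ) := Int.natCast_dvd_natCast.mpr h
  exact ⟨a, b, c, d, dvd_trans hd hc, dvd_trans hd ha, hXe⟩

theorem isIntRep_of_dvd (h : N ∣ N') {n : ℤ} {X : GL (Fin 2) ℝ} (hX : IsIntRep N' n X) :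
    IsIntRep N n X := by
  obtain ⟨m, h1, h2, h3, h4⟩ := hX
  have hd : (N : ℤ) ∣ (N' : ℤ) := Int.natCast_dvd_natCast.mpr h
  exact ⟨m, dvd_trans hd h1, dvd_trans hd h2, h3, h4⟩

/-- If `X = g * Y` with `X`, `Y` normalised modulo `N`, then `g ∈ K`. -/
theorem mem_of_normRep (hK : IsMid N K) {X Y : GL (Fin 2) ℝ} (hX : IsNormRep N X)
    (hY : IsNormRep N Y) {g : SL(2, ℤ)} (e : X = mapGL ℝ g * Y) : g ∈ K := by
  have e' : X * ιN N 1 = mapGL ℝ g * Y := by rw [map_one, mul_one]; exact e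
  obtain ⟨hg', hd⟩ := normRep_coc hX hY e'
  have h1 : dUnit N ⟨g, hg'⟩ = 1 := by rw [hd, map_one]
  exact hK.mem_of_dUnit_eq_one h1

variable {ℓ : ℕ} [Fact ℓ.Prime]

/-- The representatives of `T_ℓ` of level `N'` form a coset system for `Γ₀(N)`, `N ∣ N'`. -/
theorem repsT_system0_of_dvd (h : N ∣ N') (hℓ : ¬ ℓ ∣ N) :
    IsCosetSystem (ιN N) (ιN N) (repsT N' ℓ) := by
  have e : repsT N' ℓ = fun x => ιN N (inclG h (tauT N' ℓ x)) * heckeRep ℓ x :=
    repsT_eq_twist N' ℓ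
  rw [e]
  exact twist (heckeSystem hℓ) _

/-- The representatives of `T_ℓ` of level `N'` form a coset system for `K` of level `N ∣ N'`. -/
theorem repsT_system_of_dvd (hK : IsMid N K) (h : N ∣ N') (hℓ' : ¬ ℓ ∣ N') :
    IsCosetSystem (ιK K) (ιK K) (repsT N' ℓ) :=
  system_of_gamma0 hK (repsT_system0_of_dvd h (fun h' => hℓ' (dvd_trans h' h)))
    (fun x => isNormRep_of_dvd h (isNormRep_repsT hℓ' x))

/-- **Change of level.**  `T_ℓ` on `Hom(K, A)` is the operator of the representatives of any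
level `N'`, `N ∣ N'`, `ℓ ∤ N'`. -/
theorem TK_eq_of_dvd (hK : IsMid N K) (h : N ∣ N') (hℓ' : ¬ ℓ ∣ N') (φ : Additive K →+ A) :
    TK N K ℓ φ = (repsT_system_of_dvd hK h hℓ').transfer φ := by
  have hℓ : ¬ ℓ ∣ N := fun h' => hℓ' (dvd_trans h' h)
  rw [TK_eq hK hℓ]
  refine IsCosetSystem.transfer_eq_of_le_of_card _ _ rfl ?_ φ
  intro x
  have e1 : repsT N ℓ x = ιN N (tauT N ℓ x) * heckeRep ℓ x := congrFun (repsT_eq_twist N ℓ) x
  have e2 : repsT N' ℓ x = ιN N (inclG h (tauT N' ℓ x)) * heckeRep ℓ x :=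
    congrFun (repsT_eq_twist N' ℓ) x
  have e3 : repsT N ℓ x =
      mapGL ℝ ((tauT N ℓ x * (inclG h (tauT N' ℓ x))⁻¹ : Gamma0 N) : SL(2, ℤ)) *
        repsT N' ℓ x := by
    have : mapGL ℝ ((tauT N ℓ x * (inclG h (tauT N' ℓ x))⁻¹ : Gamma0 N) : SL(2, ℤ)) =
        ιN N (tauT N ℓ x) * (ιN N (inclG h (tauT N' ℓ x)))⁻¹ := by
      rw [← ιN_apply, map_mul, map_inv]
    rw [this, e1, e2]
    simp only [mul_assoc, inv_mul_cancel_left]
  have hmem := mem_of_normRep hK (isNormRep_repsT hℓ x)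
    (isNormRep_of_dvd h (isNormRep_repsT hℓ' x)) e3
  exact ⟨x, ⟨_, hmem⟩, e3⟩

omit [Fact ℓ.Prime]

/-! ## Conjugation by `δ = diag(q, 1)` -/

variable {q : ℕ}

/-- `δ X δ⁻¹` is normalised modulo `N` if `X` is normalised modulo `N q`. -/
theorem isNormRep_conjDiag (hq : q ≠ 0) {X : GL (Fin 2) ℝ} (hX : IsNormRep (N * q) X) :
    IsNormRep N (heckeDiagMatrix q * X * (heckeDiagMatrix q)⁻¹) := by
  obtain ⟨a, b, c, d, ⟨k, hk⟩, ⟨k', hk'⟩, hXe⟩ := hX
  have hq' : (q : ℝ) ≠ 0 := Nat.cast_ne_zero.mpr hq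
  refine ⟨a, q * b, N * k, d, Dvd.intro _ rfl, ⟨q * k', ?_⟩, ?_⟩
  · rw [hk']
    push_cast
    ring
  · set W := heckeDiagMatrix q * X * (heckeDiagMatrix q)⁻¹ with hW
    have hWd : W * heckeDiagMatrix q = heckeDiagMatrix q * X := by
      rw [hW, inv_mul_cancel_right]
    have key : ∀ i j, ((W * heckeDiagMatrix q : GL (Fin 2) ℝ) :
        Matrix (Fin 2) (Fin 2) ℝ) i j =
        ((heckeDiagMatrix q * X : GL (Fin 2) ℝ) : Matrix (Fin 2) (Fin 2) ℝ) i j := by
      intro i j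
      rw [hWd]
    have k00 := key 0 0
    have k01 := key 0 1
    have k10 := key 1 0
    have k11 := key 1 1
    simp only [coe_mul_apply, val_heckeDiagMatrix hq, hXe, Matrix.of_apply, Matrix.cons_val',
      Matrix.cons_val_zero, Matrix.cons_val_one, Matrix.cons_val_fin_one, mul_zero, add_zero,
      zero_mul, zero_add, mul_one, one_mul] at k00 k01 k10 k11
    have hc : (c : ℝ) = (N : ℝ) * (q : ℝ) * (k : ℝ) := by
      rw [hk]
      push_cast
      ring
    ext i j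
    fin_cases i <;> fin_cases j <;>
      simp only [Matrix.of_apply, Matrix.cons_val', Matrix.cons_val_zero, Matrix.cons_val_one,
        Matrix.cons_val_fin_one, Fin.zero_eta, Fin.mk_one, Fin.isValue]
    · exact mul_right_cancel₀ hq' (by rw [k00]; ring)
    · rw [k01]
      push_cast
      ring
    · apply mul_right_cancel₀ hq'
      rw [k10, hc]
      push_cast
      ring
    · exact k11

/-- `δ ρ_y δ⁻¹ = u ρ_y'`, `u ∈ K`, for the representatives of `T_ℓ` of level `N q`. -/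
theorem conjDiag_repsT [Fact ℓ.Prime] (hK : IsMid N K) (hq : q ≠ 0) (hℓ' : ¬ ℓ ∣ N * q)
    (y : OnePoint (ZMod ℓ)) :
    ∃ (u : K) (y' : OnePoint (ZMod ℓ)),
      heckeDiagMatrix q * repsT (N * q) ℓ y * (heckeDiagMatrix q)⁻¹ =
        ιK K u * repsT (N * q) ℓ y' := by
  obtain ⟨u₀, y', hu₀⟩ := diag_conj_heckeRep (N := N) (l := ℓ) hq y
  have e1 : repsT (N * q) ℓ y = ιN (N * q) (tauT (N * q) ℓ y) * heckeRep ℓ y :=
    congrFun (repsT_eq_twist (N * q) ℓ) y
  have e2 : repsT (N * q) ℓ y' = ιN N (incl N q (tauT (N * q) ℓ y')) * heckeRep ℓ y' :=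
    congrFun (repsT_eq_twist (N * q) ℓ) y'
  set g : Gamma0 N := conjDelta N q (tauT (N * q) ℓ y) * u₀ *
    (incl N q (tauT (N * q) ℓ y'))⁻¹ with hg
  have e3 : heckeDiagMatrix q * repsT (N * q) ℓ y * (heckeDiagMatrix q)⁻¹ =
      mapGL ℝ (g : SL(2, ℤ)) * repsT (N * q) ℓ y' := by
    have hgι : mapGL ℝ (g : SL(2, ℤ)) = ιN N (conjDelta N q (tauT (N * q) ℓ y)) * ιN N u₀ *
        (ιN N (incl N q (tauT (N * q) ℓ y')))⁻¹ := by
      rw [← ιN_apply, hg, map_mul, map_mul, map_inv]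
    have hrel := diag_rel (N := N) hq (tauT (N * q) ℓ y)
    rw [MonoidHom.comp_apply] at hrel
    rw [hgι, e1, e2, ← mul_assoc (heckeDiagMatrix q), hrel]
    simp only [mul_assoc, inv_mul_cancel_left]
    rw [← mul_assoc (heckeDiagMatrix q) (heckeRep ℓ y), hu₀]
  have hdvd : N ∣ N * q := Dvd.intro _ rfl
  have hmem := mem_of_normRep hK (isNormRep_conjDiag hq (isNormRep_repsT hℓ' y))
    (isNormRep_of_dvd hdvd (isNormRep_repsT hℓ' y')) e3
  exact ⟨⟨_, hmem⟩, y', e3⟩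

/-- `δ ρ_j δ⁻¹ = u ρ_j'`, `u ∈ K`, for the representatives of `U_q'`. -/
theorem conjDiag_repsU (hK : IsMid N K) (hq : q ≠ 0) {q' : ℕ} [Fact q'.Prime] (j : ZMod q') :
    ∃ (u : K) (j' : ZMod q'),
      heckeDiagMatrix q * repsU q' j * (heckeDiagMatrix q)⁻¹ = ιK K u * repsU q' j' := by
  have hq'0 : q' ≠ 0 := (Fact.out : q'.Prime).ne_zero
  obtain ⟨T, Y, hmod⟩ : ∃ (T : ℕ) (Y : ZMod q'),
      ((Y.val : ℕ) : ℝ) + (T : ℝ) * q' = (q : ℝ) * j.val := by
    refine ⟨q * j.val / q', ((q * j.val : ℕ) : ZMod q'), ?_⟩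
    rw [ZMod.val_natCast]
    have := Nat.mod_add_div (q * j.val) q'
    have h2 : (((q * j.val) % q' + q' * (q * j.val / q') : ℕ) : ℝ) = ((q * j.val : ℕ) : ℝ) := by
      rw [this]
    push_cast at h2
    linarith
  obtain ⟨u00, u01, u10, u11⟩ := mkGamma0_apply N 1 (T : ℤ) 0 1 (by ring) (dvd_zero _)
  have e3 : heckeDiagMatrix q * repsU q' j * (heckeDiagMatrix q)⁻¹ =
      mapGL ℝ ((mkGamma0 N 1 (T : ℤ) 0 1 (by ring) (dvd_zero _) : Gamma0 N) : SL(2, ℤ)) *
        repsU q' Y := by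
    rw [mul_inv_eq_iff_eq_mul]
    apply gl_ext <;>
      simp only [repsU, coe_mul_apply, coe_mapGL_apply, val_heckeMatrix hq'0,
        val_heckeDiagMatrix hq, Matrix.of_apply, Matrix.cons_val', Matrix.cons_val_zero,
        Matrix.cons_val_one, Matrix.cons_val_fin_one, u00, u01, u10, u11] <;>
      push_cast
    · ring
    · linear_combination (-1 : ℝ) * hmod
    · ring
    · ring
  have hmem := mem_of_normRep hK
    (isNormRep_conjDiag hq (isNormRep_repsU (M := N * q) q' j)) (isNormRep_repsU q' Y) e3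
  exact ⟨⟨_, hmem⟩, Y, e3⟩

/-! ## The arithmetic of the separation properties -/

theorem isCoprime_of_det {x : Matrix (Fin 2) (Fin 2) ℤ} {n D : ℤ} (hdet : x.det = n)
    (hn : IsCoprime n D) (hx : D ∣ x 1 0) : IsCoprime (x 1 1) D := by
  obtain ⟨a, b, hab⟩ := hn
  obtain ⟨k, hk⟩ := hx
  rw [Matrix.det_fin_two] at hdet
  refine ⟨a * x 0 0, b - a * x 0 1 * k, ?_⟩
  rw [← hdet, hk] at hab
  linear_combination hab

/-- If `X * m = g * Y` with integral `X`, `Y`, `D ∣ X₁₀, Y₁₀, g₁₀` and `det X` prime to `D`, then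
`D ∣ m₁₀`. -/
theorem lower_dvd_of_rel {D : ℕ} {n n' : ℤ} {D' : ℤ} {X Y : GL (Fin 2) ℝ}
    (hX : IsIntRep D n X) (hY : IsIntRep D n' Y) (hD : D' ∣ (D : ℤ)) (hn : IsCoprime n D')
    {m g : SL(2, ℤ)} (hg : D' ∣ g 1 0) (e : X * mapGL ℝ m = mapGL ℝ g * Y) : D' ∣ m 1 0 := by
  obtain ⟨x, hx1, -, hxdet, hXe⟩ := hX
  obtain ⟨y, hy1, -, -, hYe⟩ := hY
  have e1 : x * (m : Matrix (Fin 2) (Fin 2) ℤ) = (g : Matrix (Fin 2) (Fin 2) ℤ) * y :=
    int_eq_mul_of_gl hXe (fun i j => coe_mapGL_apply m i j) (fun i j => coe_mapGL_apply g i j)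
      hYe e
  have e10 := congrFun (congrFun e1 1) 0
  simp only [Matrix.mul_apply, Fin.sum_univ_two] at e10
  have hcop := isCoprime_of_det hxdet hn (dvd_trans hD hx1)
  have h1 : D' ∣ x 1 1 * m 1 0 := by
    have h2 : x 1 1 * m 1 0 = g 1 0 * y 0 0 + g 1 1 * y 1 0 - x 1 0 * m 0 0 := by
      linear_combination e10
    rw [h2]
    exact dvd_sub (dvd_add (dvd_mul_of_dvd_left hg _) (dvd_mul_of_dvd_right (dvd_trans hD hy1) _))
      (dvd_mul_of_dvd_left (dvd_trans hD hx1) _)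
  exact hcop.symm.dvd_of_dvd_mul_left h1

/-- If `δ Q = m δ` and `X Q = g Y` with integral `X`, `Y`, `X₀₀ ≡ 1 mod q`, then `q ∣ m₀₁`. -/
theorem upper_dvd_of_rel {D : ℕ} {n n' : ℤ} (hq : q ≠ 0) (hD : (q : ℤ) ∣ (D : ℤ))
    {X Y Q : GL (Fin 2) ℝ} (hX : IsIntRep D n X) (hY : IsIntRep D n' Y) {m g : SL(2, ℤ)}
    (hQ : heckeDiagMatrix q * Q = mapGL ℝ m * heckeDiagMatrix q)
    (e : X * Q = mapGL ℝ g * Y) : (q : ℤ) ∣ m 0 1 := by
  obtain ⟨x, -, hx0, -, hXe⟩ := hX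
  obtain ⟨y, -, -, -, hYe⟩ := hY
  have q01 := congrArg (fun M : GL (Fin 2) ℝ => (M : Matrix (Fin 2) (Fin 2) ℝ) 0 1) hQ
  have q11 := congrArg (fun M : GL (Fin 2) ℝ => (M : Matrix (Fin 2) (Fin 2) ℝ) 1 1) hQ
  have e01 := congrArg (fun M : GL (Fin 2) ℝ => (M : Matrix (Fin 2) (Fin 2) ℝ) 0 1) e
  simp only [coe_mul_apply, coe_mapGL_apply, val_heckeDiagMatrix hq, Matrix.of_apply,
    Matrix.cons_val', Matrix.cons_val_zero, Matrix.cons_val_one, Matrix.cons_val_fin_one,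
    zero_mul, zero_add, mul_zero, add_zero, one_mul, mul_one] at q01 q11
  simp only [coe_mul_apply, coe_mapGL_apply, hXe, hYe] at e01
  rw [q11] at e01
  have key : ((x 0 0 : ℤ) : ℝ) * ((m 0 1 : ℤ) : ℝ) =
      (q : ℝ) * (((g 0 0 : ℤ) : ℝ) * ((y 0 1 : ℤ) : ℝ) + ((g 0 1 : ℤ) : ℝ) * ((y 1 1 : ℤ) : ℝ)
        - ((x 0 1 : ℤ) : ℝ) * ((m 1 1 : ℤ) : ℝ)) := by
    rw [← q01]
    linear_combination (q : ℝ) * e01
  have key' : x 0 0 * m 0 1 = q * (g 0 0 * y 0 1 + g 0 1 * y 1 1 - x 0 1 * m 1 1) := by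
    exact_mod_cast key
  obtain ⟨k, hk⟩ := dvd_trans hD hx0
  refine ⟨g 0 0 * y 0 1 + g 0 1 * y 1 1 - x 0 1 * m 1 1 - k * m 0 1, ?_⟩
  have hx : x 0 0 = 1 + q * k := by linarith
  rw [hx] at key'
  linear_combination key'

/-- If `δ X = m δ Y` with integral `X`, `Y`, `q ∣ Y₁₀` and `det Y` prime to `q`, then
`q ∣ m₀₁`. -/
theorem upper_dvd_of_rel' {D : ℕ} {n n' : ℤ} (hq : q ≠ 0) (hD : (q : ℤ) ∣ (D : ℤ))
    {X Y : GL (Fin 2) ℝ} (hX : IsIntRep D n X) (hY : IsIntRep D n' Y)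
    (hn' : IsCoprime n' (q : ℤ)) {m : SL(2, ℤ)}
    (e : heckeDiagMatrix q * X = mapGL ℝ m * (heckeDiagMatrix q * Y)) : (q : ℤ) ∣ m 0 1 := by
  obtain ⟨x, -, -, -, hXe⟩ := hX
  obtain ⟨y, hy1, -, hydet, hYe⟩ := hY
  have e01 := congrArg (fun M : GL (Fin 2) ℝ => (M : Matrix (Fin 2) (Fin 2) ℝ) 0 1) e
  simp only [coe_mul_apply, coe_mapGL_apply, val_heckeDiagMatrix hq, hXe, hYe, Matrix.of_apply,
    Matrix.cons_val', Matrix.cons_val_zero, Matrix.cons_val_one, Matrix.cons_val_fin_one,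
    zero_mul, zero_add, add_zero, one_mul] at e01
  have key : (q : ℤ) * x 0 1 = m 0 0 * (q * y 0 1) + m 0 1 * y 1 1 := by
    exact_mod_cast e01
  have hcop := isCoprime_of_det hydet hn' (dvd_trans hD hy1)
  have h1 : (q : ℤ) ∣ y 1 1 * m 0 1 := ⟨x 0 1 - m 0 0 * y 0 1, by linear_combination -key⟩
  exact hcop.symm.dvd_of_dvd_mul_left h1

end Fermat.Agent.S59.TW.H653.Cross

end
-- ===== PACK-END S59/TW/H653/Cross/Level.lean

-- ===== PACK-BEGIN S19/H679/Descent.lean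
section


/-!
# Cell A3 (S19), block UNR (helper679) — the key descent

`Hloc = V · (Hloc ∩ {Galois-invariant functions})`.

For a good function `f` (inertia-invariant, `E`-valued, in `Hloc`) the orbit traces
`∑_{p ∈ orbit of (c, f)} c_p • f_p` with coefficients `c_j = U · c⁰_j` (`U` the CRT element,
`c⁰_j` the Lagrange monomials) are Galois-invariant elements of `Hloc`, and
`∑_j a_j • trace_j ≡ f` modulo `𝔪_V • Hloc`.  Nakayama finishes.
-/

set_option autoImplicit false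

namespace Fermat.Agent.S19.H679

open Fermat.Agent.S54 Fermat.Agent.S55.Bridge Fermat.Agent.S55.Bridge.H594

attribute [local instance] isAlgebraic_Qbar isGalois_Qbar

variable {ℓ : ℕ} {M : Type} [AddCommGroup M] {act : GalQ → M → M}

/-- The Galois-invariant elements of `Hloc`. -/
def invSetH679 (L : LocalCoordDatum ℓ M act) : Set (M → Qb) :=
  {h | h ∈ Subalgebra.toSubmodule (HlocH679 L) ∧ ∀ σ : GalQ, starH679 act σ h = h}

section

variable [Finite M] (hℓ : ℓ.Prime) (hact : IsContAddAction act) (L : LocalCoordDatum ℓ M act)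

include hℓ in
/-- Uniform bound for the denominators of the conjugates of the values of a function. -/
theorem exists_denomH679 (f : M → Qb) :
    ∃ a : ℕ, ∀ (σ : GalQ) (m : M), (ℓ : Qb) ^ a * σ (f m) ∈ L.V := by
  classical
  haveI := Fintype.ofFinite M
  choose am ham using fun m => exists_pow_mul_conj_memH679 L.V hℓ L.ell_mem (f m)
  refine ⟨∑ m, am m, fun σ m => ?_⟩
  have hle : am m ≤ ∑ m, am m :=
    Finset.single_le_sum (fun _ _ => Nat.zero_le _) (Finset.mem_univ m)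
  have : (ℓ : Qb) ^ (∑ m, am m) * σ (f m)
      = (ℓ : Qb) ^ ((∑ m, am m) - am m) * ((ℓ : Qb) ^ am m * σ (f m)) := by
    rw [← mul_assoc, ← pow_add, Nat.sub_add_cancel hle]
  rw [this]
  exact L.V.mul_mem _ _ (pow_mem (mem_of_mem_nonunitsH679 L.V L.ell_mem) _) (ham m σ)

include hℓ hact in
/-- One good function is, modulo `𝔪 • Hloc`, a combination of invariants. -/
theorem good_mem_supH679 (Λ : LevelDataH679 L) (e : ℕ)
    (he : ∀ F : M → Qb, (∀ m, ∃ z ∈ L.V, F m = (ℓ : Qb) ^ (e + 1) * z) →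
      F ∈ IsLocalRing.maximalIdeal L.V • Subalgebra.toSubmodule (HlocH679 L))
    {f : M → Qb} (hf : IsGoodFunH679 L Λ f) :
    f ∈ Submodule.span L.V (invSetH679 L) ⊔
      IsLocalRing.maximalIdeal L.V • Subalgebra.toSubmodule (HlocH679 L) := by
  classical
  haveI := Λ.normal
  haveI := Λ.fin
  have hA := isActH679_of_cont hact
  obtain ⟨a, ha⟩ := exists_denomH679 hℓ L f
  obtain ⟨U, hUgood, hU1, hUbad⟩ := exists_crtH679 L.V Λ.E hℓ L.ell_mem (e + 1 + a)
  obtain ⟨J, hJ, c, w, hcgood, hw1, hw0⟩ := exists_weightsH679 L.V Λ.E hℓ L.ell_mem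
  obtain ⟨reps, hreps⟩ := exists_repsH679 Λ.E
  have hc'good : ∀ j, IsGoodEltH679 L.V Λ.E (U * c j) := fun j => hUgood.mul L.V Λ.E (hcgood j)
  -- agreement on `E` gives the same action on the base point
  have hagree : ∀ σ ρ : GalQ, (∀ x ∈ Λ.E, σ x = ρ x) →
      actPairH679 act σ ((fun j => U * c j), f) = actPairH679 act ρ ((fun j => U * c j), f) := by
    intro σ ρ h
    unfold actPairH679
    refine Prod.ext ?_ ?_
    · funext j
      exact h _ (hc'good j).1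
    · exact star_eq_of_agreeH679 hact Λ.level h hf.1
  have hfix : ∀ ι ∈ L.V.inertiaSubgroupIn ℚ,
      actPairH679 act ι ((fun j => U * c j), f) = ((fun j => U * c j), f) := by
    intro ι hι
    unfold actPairH679
    refine Prod.ext ?_ ?_
    · funext j
      exact (hc'good j).2.2 ι hι
    · exact hf.2.1 ι hι
  refine orbitTrace_mem hA (IsLocalRing.maximalIdeal L.V) (Subalgebra.toSubmodule (HlocH679 L))
    (fun j => U * c j) w f (L.V.decompositionSubgroup ℚ : Set GalQ)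
    (L.V.decompositionSubgroup ℚ).one_mem ?_ ?_ ?_ ?_ ?_ ?_
  · -- finiteness of the orbit
    refine Set.Finite.subset
      (reps.image fun ρ => actPairH679 act ρ ((fun j => U * c j), f)).finite_toSet ?_
    rintro p ⟨σ, rfl⟩
    obtain ⟨ρ, hρ, hσρ⟩ := hreps σ
    rw [Finset.mem_coe, Finset.mem_image]
    exact ⟨ρ, hρ, (hagree σ ρ hσρ).symm⟩
  · intro δ hδ
    exact Hloc_stableH679 hact L hδ hf.2.2
  · intro δ _ j
    exact ⟨⟨δ (U * c j), (hc'good j).apply_mem_V L.V Λ.E δ⟩, rfl⟩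
  · -- the base term
    refine ⟨⟨U - 1, mem_of_mem_nonunitsH679 L.V hU1⟩,
      (ValuationSubring.coe_mem_nonunits_iff).1 hU1, ?_⟩
    have h1 := hw1 1 (L.V.decompositionSubgroup ℚ).one_mem
      ⟨1, (L.V.inertiaSubgroupIn ℚ).one_mem, fun _ _ => rfl⟩
    have h2 : ∑ j, algebraMap L.V Qb (w j) * (U * c j)
        = U * ∑ j, (w j : Qb) * (1 : GalQ) (c j) := by
      rw [Finset.mul_sum]
      refine Finset.sum_congr rfl fun j _ => ?_
      show (w j : Qb) * (U * c j) = U * ((w j : Qb) * c j)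
      ring
    rw [h2, h1, mul_one]
    show U = 1 + (U - 1)
    ring
  · -- decomposition elements moving the base point
    intro δ hδ hne
    have hδI : ¬ ∃ ι ∈ L.V.inertiaSubgroupIn ℚ, ∀ x ∈ Λ.E, δ x = ι x := by
      rintro ⟨ι, hι, hδι⟩
      apply hne
      rw [hagree δ ι hδι]
      exact hfix ι hι
    refine ⟨0, zero_mem _, ?_⟩
    have h1 := hw0 δ hδ hδI
    have h2 : ∑ j, algebraMap L.V Qb (w j) * δ • (U * c j)
        = δ U * ∑ j, (w j : Qb) * δ (c j) := by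
      rw [Finset.mul_sum]
      refine Finset.sum_congr rfl fun j _ => ?_
      show (w j : Qb) * δ (U * c j) = δ U * ((w j : Qb) * δ (c j))
      rw [map_mul]
      ring
    rw [h2, h1, mul_zero, map_zero]
  · -- bad automorphisms
    intro σ hσ j
    have hσD : ¬ ∃ δ ∈ L.V.decompositionSubgroup ℚ, ∀ x ∈ Λ.E, δ x = σ x := by
      rintro ⟨δ, hδ, hδσ⟩
      exact hσ δ hδ (hagree δ σ hδσ).symm
    obtain ⟨z, hz, hσU⟩ := hUbad σ hσD
    apply he
    intro m
    refine ⟨z * σ (c j) * ((ℓ : Qb) ^ a * σ (f (act σ⁻¹ m))),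
      L.V.mul_mem _ _ (L.V.mul_mem _ _ hz ((hcgood j).apply_mem_V L.V Λ.E σ)) (ha σ _), ?_⟩
    show σ (U * c j) * σ (f (act σ⁻¹ m)) = _
    rw [map_mul, hσU, pow_add, pow_add]
    ring

include hℓ hact in
/-- **Key descent**: `Hloc` is spanned over `V` by its Galois-invariant elements. -/
theorem Hloc_le_span_invH679 :
    Subalgebra.toSubmodule (HlocH679 L) ≤ Submodule.span L.V (invSetH679 L) := by
  obtain ⟨Λ⟩ := exists_levelDataH679 hact L
  obtain ⟨e, he⟩ := exists_conductorH679 hℓ hact L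
  refine Submodule.le_of_le_smul_of_le_jacobson_bot (Hloc_fgH679 hact L Λ)
    (le_of_eq (IsLocalRing.jacobson_eq_maximalIdeal ⊥ bot_ne_top).symm) ?_
  refine (Hloc_le_span_goodH679 hact L Λ).trans (Submodule.span_le.2 ?_)
  intro f hf
  exact good_mem_supH679 hℓ hact L Λ e he hf

end

end Fermat.Agent.S19.H679

end
-- ===== PACK-END S19/H679/Descent.lean

-- ===== PACK-BEGIN S19/H679/Delta.lean
section


/-!
# Cell A3 (S19), block UNR (helper679) — `Hloc` is closed under the comultiplication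

For `h ∈ Hloc` the function `(x, y) ↦ h (x + y)` lies in the image of `Hloc ⊗ Hloc`, i.e. in
`Submodule.map₂ T Hloc Hloc` with `T g g' = fun p => g p.1 * g' p.2`.
-/

set_option autoImplicit false

namespace Fermat.Agent.S19.H679

open Fermat.Agent.S54 Fermat.Agent.S55.Bridge

variable {ℓ : ℕ} {M : Type} [AddCommGroup M] {act : GalQ → M → M}

/-- The diagonal action on pairs. -/
def act2H679 (act : GalQ → M → M) (σ : GalQ) (p : M × M) : M × M := (act σ p.1, act σ p.2)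

/-- Pull-back of functions along the addition. -/
def addPullH679 (f : M → Qb) : M × M → Qb := fun p => f (p.1 + p.2)

/-- `T g g' = (x, y) ↦ g x * g' y`, as a bilinear map over `V`. -/
noncomputable def tensH679 (V : ValuationSubring Qb) (N : Type*) :
    (N → Qb) →ₗ[V] (N → Qb) →ₗ[V] (N × N → Qb) :=
  LinearMap.mk₂ V (fun g g' p => g p.1 * g' p.2)
    (fun g₁ g₂ g' => by funext p; simp [add_mul])
    (fun c g g' => by funext p; simp)
    (fun g g₁ g₂ => by funext p; simp [mul_add])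
    (fun c g g' => by funext p; simp)

@[simp] theorem tensH679_apply (V : ValuationSubring Qb) {N : Type*} (g g' : N → Qb)
    (p : N × N) : tensH679 V N g g' p = g p.1 * g' p.2 := rfl

theorem tensH679_mul (V : ValuationSubring Qb) {N : Type*} (g₁ g₁' g₂ g₂' : N → Qb) :
    tensH679 V N g₁ g₁' * tensH679 V N g₂ g₂' = tensH679 V N (g₁ * g₂) (g₁' * g₂') := by
  funext p
  simp only [Pi.mul_apply, tensH679_apply]
  ring

section

variable (hact : IsContAddAction act) (L : LocalCoordDatum ℓ M act)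

include hact in
/-- (Δ1) the generators. -/
theorem addPull_conjFamH679 {φ : M → Qb} (hφ : φ ∈ conjFamH679 L) :
    addPullH679 φ ∈ Algebra.adjoin L.V (coordFunctions (conjFamH679 L)) := by
  obtain ⟨δ, hδ, i, rfl⟩ := hφ
  have h1 := L.add_mem i
  have h2 := star_mem_adjoinH679 (act2H679 act) hδ _ (coordFunctions (conjFamH679 L)) ?_ h1
  · have h3 : starH679 (act2H679 act) δ (fun p : M × M => L.Ψ (p.1 + p.2) i)
        = addPullH679 (starH679 act δ (psiH679 L i)) := by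
      funext p
      show δ (L.Ψ (act δ⁻¹ p.1 + act δ⁻¹ p.2) i) = δ (L.Ψ (act δ⁻¹ (p.1 + p.2)) i)
      rw [hact.act_add]
    rw [h3] at h2
    exact h2
  · rintro g (⟨j, rfl⟩ | ⟨j, rfl⟩)
    · refine Algebra.subset_adjoin (Or.inl ⟨starH679 act δ (psiH679 L j), ⟨δ, hδ, j, rfl⟩, ?_⟩)
      funext p
      rfl
    · refine Algebra.subset_adjoin (Or.inr ⟨starH679 act δ (psiH679 L j), ⟨δ, hδ, j, rfl⟩, ?_⟩)
      funext p
      rfl

include hact in
/-- (Δ2) all of `Hloc`. -/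
theorem addPull_HlocH679 {h : M → Qb} (hh : h ∈ HlocH679 L) :
    addPullH679 h ∈ Algebra.adjoin L.V (coordFunctions (conjFamH679 L)) := by
  unfold HlocH679 at hh
  induction hh using Algebra.adjoin_induction with
  | mem x hx => exact addPull_conjFamH679 hact L hx
  | algebraMap r =>
    have : addPullH679 (algebraMap L.V (M → Qb) r) = algebraMap L.V (M × M → Qb) r := by
      funext p
      rfl
    rw [this]
    exact Subalgebra.algebraMap_mem _ _
  | add x y _ _ hx hy =>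
    have : addPullH679 (x + y) = addPullH679 x + addPullH679 y := by
      funext p
      rfl
    rw [this]
    exact add_mem hx hy
  | mul x y _ _ hx hy =>
    have : addPullH679 (x * y) = addPullH679 x * addPullH679 y := by
      funext p
      rfl
    rw [this]
    exact mul_mem hx hy

/-- The image of `Hloc ⊗ Hloc`. -/
noncomputable def tensImageH679 : Submodule L.V (M × M → Qb) :=
  Submodule.map₂ (tensH679 L.V M) (Subalgebra.toSubmodule (HlocH679 L))
    (Subalgebra.toSubmodule (HlocH679 L))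

theorem tens_mem_tensImageH679 {g g' : M → Qb} (hg : g ∈ HlocH679 L) (hg' : g' ∈ HlocH679 L) :
    tensH679 L.V M g g' ∈ tensImageH679 L :=
  Submodule.apply_mem_map₂ _ hg hg'

theorem tensImage_eq_spanH679 :
    tensImageH679 L = Submodule.span L.V
      (Set.image2 (fun g g' => tensH679 L.V M g g')
        (Subalgebra.toSubmodule (HlocH679 L) : Set (M → Qb))
        (Subalgebra.toSubmodule (HlocH679 L) : Set (M → Qb))) :=
  Submodule.map₂_eq_span_image2 _ _ _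

theorem tensImage_mulH679 {x y : M × M → Qb} (hx : x ∈ tensImageH679 L)
    (hy : y ∈ tensImageH679 L) : x * y ∈ tensImageH679 L := by
  rw [tensImage_eq_spanH679] at hx hy ⊢
  have h1 := Submodule.mul_mem_mul hx hy
  rw [Submodule.span_mul_span] at h1
  refine Submodule.span_mono ?_ h1
  rintro z ⟨a, ⟨g₁, hg₁, g₁', hg₁', rfl⟩, b, ⟨g₂, hg₂, g₂', hg₂', rfl⟩, rfl⟩
  refine ⟨g₁ * g₂, ?_, g₁' * g₂', ?_, (tensH679_mul L.V g₁ g₁' g₂ g₂').symm⟩
  · exact (HlocH679 L).mul_mem hg₁ hg₂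
  · exact (HlocH679 L).mul_mem hg₁' hg₂'

/-- (Δ3) the adjoin of the coordinate functions lies in the image of `Hloc ⊗ Hloc`. -/
theorem adjoin_le_tensImageH679 {G : M × M → Qb}
    (hG : G ∈ Algebra.adjoin L.V (coordFunctions (conjFamH679 L))) : G ∈ tensImageH679 L := by
  induction hG using Algebra.adjoin_induction with
  | mem x hx =>
    rcases hx with ⟨h, hh, rfl⟩ | ⟨h, hh, rfl⟩
    · have : (fun p : M × M => h p.1) = tensH679 L.V M h 1 := by
        funext p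
        simp
      rw [this]
      exact tens_mem_tensImageH679 L (Algebra.subset_adjoin hh) (one_mem _)
    · have : (fun p : M × M => h p.2) = tensH679 L.V M 1 h := by
        funext p
        simp
      rw [this]
      exact tens_mem_tensImageH679 L (one_mem _) (Algebra.subset_adjoin hh)
  | algebraMap r =>
    have : algebraMap L.V (M × M → Qb) r = r • tensH679 L.V M 1 1 := by
      funext p
      simp [Algebra.algebraMap_eq_smul_one]
    rw [this]
    exact Submodule.smul_mem _ _ (tens_mem_tensImageH679 L (one_mem _) (one_mem _))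
  | add x y _ _ hx hy => exact add_mem hx hy
  | mul x y _ _ hx hy => exact tensImage_mulH679 L hx hy

include hact in
/-- (Δ) `Hloc` is closed under the comultiplication. -/
theorem addPull_mem_tensImageH679 {h : M → Qb} (hh : h ∈ HlocH679 L) :
    addPullH679 h ∈ tensImageH679 L :=
  adjoin_le_tensImageH679 L (addPull_HlocH679 hact L hh)

/-- (Δ4) in terms of a spanning set of `Hloc`. -/
theorem tensImage_eq_span_of_spanH679 (F : Set (M → Qb))
    (hF : Submodule.span L.V F = Subalgebra.toSubmodule (HlocH679 L)) :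
    tensImageH679 L = Submodule.span L.V
      (Set.image2 (fun g g' => tensH679 L.V M g g') F F) := by
  unfold tensImageH679
  rw [← hF, Submodule.map₂_span_span]

end

end Fermat.Agent.S19.H679

end
-- ===== PACK-END S19/H679/Delta.lean

-- ===== PACK-BEGIN S59/H59/TWGalCyc.lean
section



/-!
# Row S59, leaf TW-GAL (helper59): factorisation through the action on `μ_q`

`twGalCyc : TWGalCycStatement` : in the situation of `TWDiag`, an element of the inertia group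
at `P | q` which fixes the `q`-th roots of unity acts trivially, i.e. the characters `ξ i`
restricted to inertia factor through the mod `q` cyclotomic character (hence through the
`p`-Sylow quotient `Δ_q` of `(ℤ/q)^×`).

Proof: at every finite level the image of inertia under `(r mod 𝔪ⁿ, cyc_q ^ c)`
(`q - 1 = p^v c`) is a cyclic `p`-group of exponent `p^v` (tame inertia, `S56.H794`), which
surjects onto the `p`-Sylow subgroup of `(ℤ/q)^×` (total ramification of `ℚ(ζ_q)` at `q`,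
`S55.G.Rec.exists_inertia_cycloChar_eq63`); so the projection is injective.
-/

set_option autoImplicit false
set_option linter.unusedSectionVars false
set_option linter.style.haveILetI false
set_option linter.unusedSimpArgs false

open IsLocalRing Polynomial ExtCitation
open scoped Pointwise

namespace Fermat.Agent.S59.H59

open Fermat.Agent.S53 Fermat.Agent.S56.H794 Fermat.Agent.Lib.Cheb.H476 Fermat.Agent.S55.G.Rec

section matrix

variable {A : Type} [CommRing A] [IsLocalRing A] [IsNoetherianRing A]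
  {p q : ℕ} {P : ValuationSubring (AlgebraicClosure ℚ)}

attribute [local instance] isAlgebraic_Qbar_h794 isGalois_Qbar_h794

/-- The mod `q` cyclotomic character has finite level. -/
theorem cycloChar_finiteLevel_h59 (q : ℕ) [Fact q.Prime] : FiniteLevel (cycloChar q) := by
  obtain ⟨ζ, hζ⟩ := exists_primitiveRoot63 q
  refine ⟨IntermediateField.adjoin ℚ {ζ}, finiteDimensional_adjoin_root63 ζ, fun τ hτ => ?_⟩
  have h1 : τ ∈ (IntermediateField.adjoin ℚ {ζ}).fixingSubgroup := by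
    rw [IntermediateField.mem_fixingSubgroup_iff]
    exact hτ
  rw [← ker_cycloChar_eq63 q hζ] at h1
  exact MonoidHom.mem_ker.mp h1

theorem finiteLevel_prod_h59 {G₁ G₂ : Type*} [Group G₁] [Group G₂] {f₁ : GQ →* G₁}
    {f₂ : GQ →* G₂} (h₁ : FiniteLevel f₁) (h₂ : FiniteLevel f₂) :
    FiniteLevel (f₁.prod f₂) := by
  obtain ⟨E₁, hE₁, h₁⟩ := h₁
  obtain ⟨E₂, hE₂, h₂⟩ := h₂
  haveI := hE₁
  haveI := hE₂
  refine ⟨E₁ ⊔ E₂, IntermediateField.finiteDimensional_sup E₁ E₂, fun τ hτ => ?_⟩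
  rw [MonoidHom.prod_apply]
  refine Prod.ext ?_ ?_
  · exact h₁ τ fun x hx => hτ x ((le_sup_left : E₁ ≤ E₁ ⊔ E₂) hx)
  · exact h₂ τ fun x hx => hτ x ((le_sup_right : E₂ ≤ E₁ ⊔ E₂) hx)

/-- **Factorisation through `μ_q`, matrix form.** -/
theorem eq_one_of_cycloChar_eq_one_h59 [Fact q.Prime] {r : GQ →* M2 A} (hr : MatCont r)
    (hp : p.Prime) (hqp : q ≠ p) (hP : P.LiesOverPrime q)
    (hpow : ∀ τ ∈ P.inertiaSubgroupIn ℚ, r τ ^ p ^ padicValNat p (q - 1) = 1)
    {σ : GQ} (hσ : σ ∈ P.inertiaSubgroupIn ℚ) (hσc : cycloChar q σ = 1) : r σ = 1 := by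
  have hq : q.Prime := Fact.out
  set v := padicValNat p (q - 1) with hv
  obtain ⟨c, hc⟩ := (pow_padicValNat_dvd : p ^ padicValNat p (q - 1) ∣ q - 1)
  rw [← hv] at hc
  have hq1 : q - 1 ≠ 0 := by have := hq.two_le; omega
  have hc0 : c ≠ 0 := by
    rintro rfl
    rw [mul_zero] at hc
    exact hq1 hc
  have hcard : Nat.card (ZMod q)ˣ = q - 1 := by
    rw [Nat.card_eq_fintype_card, ZMod.card_units]
  have hpowC : ∀ u : (ZMod q)ˣ, u ^ (q - 1) = 1 := by
    intro u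
    rw [← hcard]
    exact pow_card_eq_one'
  refine mat_eq_of_forall_entIn_h59 fun n => ?_
  rw [← lvlH59_eq_one_iff]
  -- the product homomorphism
  let f₂ : GQ →* (ZMod q)ˣ := (powMonoidHom c).comp (cycloChar q)
  have hf₂ : ∀ τ, f₂ τ = cycloChar q τ ^ c := fun τ => rfl
  have hf₂fl : FiniteLevel f₂ := by
    obtain ⟨E, hE, h⟩ := cycloChar_finiteLevel_h59 q
    exact ⟨E, hE, fun τ hτ => by rw [hf₂, h τ hτ, one_pow]⟩
  let f : GQ →* (M2 (A ⧸ maximalIdeal A ^ n))ˣ × (ZMod q)ˣ := (lvlH59 r n).prod f₂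
  have hf : ∀ τ, f τ = (lvlH59 r n τ, cycloChar q τ ^ c) := fun τ => rfl
  have hffl : FiniteLevel f := finiteLevel_prod_h59 (lvlH59_finiteLevel hr n) hf₂fl
  have hpv : P.valuation ((p : ℕ) : AlgebraicClosure ℚ) = 1 :=
    valuation_prime_eq_one hq hP hp (Ne.symm hqp)
  have hexpI : ∀ τ ∈ P.inertiaSubgroupIn ℚ, f τ ^ p ^ v = 1 := by
    intro τ hτ
    rw [hf, Prod.pow_mk]
    refine Prod.ext ?_ ?_
    · show lvlH59 r n τ ^ p ^ v = 1
      rw [← map_pow, lvlH59_eq_one_iff, map_pow, hpow τ hτ, sub_self]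
      exact EntIn.zero _
    · show (cycloChar q τ ^ c) ^ p ^ v = 1
      rw [← pow_mul, mul_comm, ← hc]
      exact hpowC _
  have hptr : PrimeToResChar P f := fun τ hτ =>
    ⟨p ^ v, by rw [Nat.cast_pow, map_pow, hpv, one_pow], hexpI τ hτ⟩
  set H : Subgroup ((M2 (A ⧸ maximalIdeal A ^ n))ˣ × (ZMod q)ˣ) :=
    (P.inertiaSubgroupIn ℚ).map f with hH
  have hcomm : ∀ x ∈ H, ∀ y ∈ H, x * y = y * x := by
    rintro _ ⟨σ₁, hσ₁, rfl⟩ _ ⟨σ₂, hσ₂, rfl⟩
    exact map_mul_comm_of_mem_inertiaIn hffl hptr hσ₁ hσ₂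
  have hexp : ∀ x ∈ H, x ^ p ^ v = 1 := by
    rintro _ ⟨τ, hτ, rfl⟩
    exact hexpI τ hτ
  have huniq : ∀ x ∈ H, ∀ y ∈ H, x ^ p = 1 → y ^ p = 1 → y ≠ 1 → ∃ j : ℕ, x = y ^ j := by
    rintro _ ⟨σ₁, hσ₁, rfl⟩ _ ⟨σ₂, hσ₂, rfl⟩ h1 h2 hne
    obtain ⟨j, -, hj⟩ := exists_pow_eq_of_pow_prime_lvl_h59 hffl hptr (rankOneOver_rat P hq hP)
      hp hpv hσ₁ hσ₂ h1 h2 hne
    exact ⟨j, hj⟩
  obtain ⟨y, ⟨τ₀, hτ₀, rfl⟩, hy⟩ := exists_generator_h59 H hcomm hexp huniq
  -- a generator of `(ℤ/q)^×` is hit by inertia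
  obtain ⟨g, hg⟩ := IsCyclic.exists_generator (α := (ZMod q)ˣ)
  have hordg : orderOf g = q - 1 := by
    rw [orderOf_eq_card_of_forall_mem_zpowers hg, hcard]
  have hordu : orderOf (g ^ c) = p ^ v := by
    rw [orderOf_pow_of_dvd hc0 (by rw [hordg, hc]; exact dvd_mul_left c _), hordg, hc,
      Nat.mul_div_cancel _ (Nat.pos_of_ne_zero hc0)]
  obtain ⟨g₁, hg₁⟩ := cycloChar_surjective63 q g
  obtain ⟨τ₁, hτ₁, hτ₁c⟩ := exists_inertia_cycloChar_eq63 q P hP g₁
  rw [hg₁] at hτ₁c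
  obtain ⟨k, hk⟩ := hy (f τ₁) ⟨τ₁, hτ₁, rfl⟩
  have hk2 : g ^ c = (cycloChar q τ₀ ^ c) ^ k := by
    have := congrArg Prod.snd hk
    rw [hf, hf, Prod.pow_mk, hτ₁c] at this
    exact this
  have hordy : orderOf (cycloChar q τ₀ ^ c) = p ^ v := by
    refine Nat.dvd_antisymm ?_ ?_
    · apply orderOf_dvd_of_pow_eq_one
      rw [← pow_mul, mul_comm, ← hc]
      exact hpowC _
    · rw [← hordu]
      apply orderOf_dvd_of_mem_zpowers
      rw [Subgroup.mem_zpowers_iff]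
      exact ⟨k, by rw [zpow_natCast]; exact hk2.symm⟩
  -- the element `σ`
  obtain ⟨m, hm⟩ := hy (f σ) ⟨σ, hσ, rfl⟩
  have hm2 : (cycloChar q τ₀ ^ c) ^ m = 1 := by
    have := congrArg Prod.snd hm
    rw [hf, hf, Prod.pow_mk, hσc, one_pow] at this
    exact this.symm
  have hdvd : p ^ v ∣ m := by
    rw [← hordy]
    exact orderOf_dvd_of_pow_eq_one hm2
  obtain ⟨m', hm'⟩ := hdvd
  have hfσ : f σ = 1 := by
    rw [hm, hm', pow_mul, hexpI τ₀ hτ₀, one_pow]
  have := congrArg Prod.fst hfσ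
  rw [hf] at this
  exact this

end matrix

section final

variable {A : Type} [CommRing A] [IsLocalRing A]

/-- the matrix representation of `ρ` in a basis -/
noncomputable def matOfBasis (ρ : GaloisRepAdic A) (b : Module.Basis (Fin 2) A ρ.V) :
    GQ →* M2 A :=
  (LinearMap.toMatrixAlgEquiv b).toAlgHom.toRingHom.toMonoidHom.comp ρ.ρ

theorem matOfBasis_apply (ρ : GaloisRepAdic A) (b : Module.Basis (Fin 2) A ρ.V) (σ : GQ)
    (i j : Fin 2) : matOfBasis ρ b σ i j = b.repr (ρ.ρ σ (b j)) i := by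
  show LinearMap.toMatrix b b (ρ.ρ σ) i j = _
  rw [LinearMap.toMatrix_apply]

theorem matOfBasis_matCont (ρ : GaloisRepAdic A) (b : Module.Basis (Fin 2) A ρ.V) :
    MatCont (matOfBasis ρ b) := by
  intro n
  obtain ⟨L, hL, h⟩ := ρ.isAdicContinuous n
  refine ⟨L, hL, fun σ hσ i j => ?_⟩
  have h1 : (matOfBasis ρ b σ - 1) i j = b.repr (ρ.ρ σ (b j) - b j) i := by
    rw [Matrix.sub_apply, matOfBasis_apply, map_sub, Finsupp.sub_apply, Module.Basis.repr_self,
      Matrix.one_apply, Finsupp.single_apply]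
    congr 1
    by_cases hij : i = j
    · subst hij; simp
    · rw [if_neg hij, if_neg (Ne.symm hij)]
  rw [h1]
  exact repr_mem_of_mem_smul_top b _ (h σ hσ (b j)) i

/-- **Cyclotomic factorisation.** -/
theorem twGalCyc : TWGalCycStatement := by
  intro p q _ hq hqp A _ _ _ _ hpA ρ P hP α β hαβ b ξ h σ hσ hfix i
  have hp : p.Prime := Fact.out
  haveI : Fact q.Prime := ⟨hq⟩
  have hqne : q ≠ p := by
    rintro rfl
    have := Nat.le_of_dvd (by have := hq.two_le; omega) hqp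
    have := hq.two_le
    omega
  set r := matOfBasis ρ b with hr
  have hent : ∀ τ ∈ P.decompositionSubgroup ℚ, ∀ i j, r τ i j = if i = j then ξ j τ else 0 := by
    intro τ hτ i j
    rw [hr, matOfBasis_apply, h.diag τ hτ j, map_smul, Finsupp.smul_apply,
      Module.Basis.repr_self, Finsupp.single_apply, smul_eq_mul]
    by_cases hij : i = j
    · subst hij; simp
    · rw [if_neg hij, if_neg (Ne.symm hij), mul_zero]
  have hpow : ∀ τ ∈ P.inertiaSubgroupIn ℚ, r τ ^ p ^ padicValNat p (q - 1) = 1 := by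
    intro τ hτ
    have hτD := inertia_le_decomposition_h59 hτ
    refine pow_eq_one_of_diag_h59 ?_ ?_ fun i => ?_
    · rw [hent τ hτD]; simp
    · rw [hent τ hτD]; simp
    · rw [hent τ hτD, if_pos rfl]
      exact h.inertia_pow τ hτ i
  have hσc : ExtCitation.cycloChar q σ = 1 := by
    apply Fermat.Agent.S55.Bridge.cycloChar_eq_one_of_fixes
    intro t ht
    apply hfix
    have := (mem_rootsOfUnity q t).1 ht
    rw [← Units.val_pow_eq_pow_val, this, Units.val_one]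
  have h1 : r σ = 1 :=
    eq_one_of_cycloChar_eq_one_h59 (matOfBasis_matCont ρ b) hp hqne hP hpow hσ hσc
  have h2 := hent σ (inertia_le_decomposition_h59 hσ) i i
  rw [if_pos rfl] at h2
  rw [← h2, h1, Matrix.one_apply_eq]

end final

end Fermat.Agent.S59.H59

end
-- ===== PACK-END S59/H59/TWGalCyc.lean

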