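import Mathlib
import Fermat.Prelude.Def_EllipticCurve_FrobeniusTrace
import Fermat.Prelude.Def_FLTPrelim_ModularRep
import Fermat.Agent.Pack.S43MC.G0E18L3
import Fermat.Agent.Pack.S43MC.G0E19L1
import Fermat.Agent.Pack.S43MC.G0E15L0
import Fermat.Agent.Pack.S43MC.G0E9L0
import Fermat.Agent.Pack.S44C.G0E22L2
import Fermat.Agent.Pack.S43MC.G0E19L0
import Fermat.Agent.Pack.S44C.G0E7L1
import Fermat.Agent.Pack.S43MC.G0E18L2
import Fermat.Agent.Pack.S43MC.G0E12L0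
import Fermat.Agent.Pack.S44C.G0E12L3
import Fermat.Agent.Pack.S43MC.G0E18L1
import Fermat.Agent.Pack.S44C.G0E18L2
import Fermat.Agent.Pack.S44C.G0E4L3
import Fermat.Agent.Pack.S43MC.G0E17L1
import Fermat.Agent.Pack.S44C.G0E21L3
import Fermat.Agent.Pack.S43MC.G0E7L3
import Fermat.Agent.Pack.S43MC.G0E5L2
import Fermat.Agent.Pack.S43GC.G0E4L1
import Fermat.Agent.Pack.S43MC.G0E19L2
import Fermat.Agent.Pack.S43MC.G0E4L3
import Fermat.Agent.Pack.S44C.G0E11L0
import Fermat.Agent.Pack.Fast891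

-- ===== PACK-BEGIN S26/C4/Reduce.lean
section





/-!
# Row S26, leaf C4: `Stmt.CurvesGenerate` reduced to `C4b` (assembler helper478)

All the other inputs of the assembly are on main:
`H687.integral` (SOFT:INT), `H730.c4a` (C4a), `C4.H841.c4cSum`, `C4.H841.c4cChain` (C4c).
-/

set_option autoImplicit false
universe u

namespace Fermat.Agent.S26.C4

/-- **C4**, modulo the normalisation of curves `C4b`. -/
theorem curvesGenerate_of_c4b (K : Type u) [Field K] [IsAlgClosed K] (hb : Stmt.C4b K) :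
    Fermat.Agent.S26.Stmt.CurvesGenerate K :=
  curvesGenerate_of K (H687.integral K) (H730.c4a K) hb (H841.c4cSum K) (H841.c4cChain K)

end Fermat.Agent.S26.C4

end
-- ===== PACK-END S26/C4/Reduce.lean

-- ===== PACK-BEGIN S37/H278/NormalChart.lean
section




/-!
# S37 / D2 (helper278): normality of the special fibre of a chart (typed form)

`normal_chart` : `H273.b2Normal` instantiated on the chart `H138.chart R {x}` of helper138, with
the instance plumbing of `B12.H33.regularAlong_chart`.  `normal_chart_field` : the same with `hsep`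
and `hNC` stated by elements of `F` (shape of `H438.GoodModelFront.hsep_chart`).
-/

set_option autoImplicit false
set_option linter.style.haveILetI false
set_option linter.unusedSectionVars false

noncomputable section

namespace Fermat.Agent.S37.H278.NA

open Polynomial Fermat.Agent.S18 Fermat.Agent.S18.B12 Fermat.Agent.S18.B12.H33

universe u v

variable {R : Type u} [CommRing R] [IsDomain R] [IsDiscreteValuationRing R]
  {F : Type v} [Field F] [CharZero F] [Algebra R F]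

/-- **NORMAL-CHART.**  `b2Normal` on the chart `H138.chart R {x}`. -/
theorem normal_chart
    {x : F} (hx : Transcendental R x) [FiniteDimensional (H138.baseField R x) F]
    (w : R) (hw : Irreducible w)
    (hdom : Prime (algebraMap R (H138.chart R ({x} : Set F)) w))
    (hsep : ∀ b : H138.chart R ({x} : Set F), ∃ P : R[X][X],
        algebraMap R (H138.chart R ({x} : Set F)) w ∣
          P.eval₂ (chartPolyHom R x : R[X] →+* H138.chart R ({x} : Set F)) b ∧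
        ¬ algebraMap R (H138.chart R ({x} : Set F)) w ∣
          (derivative P).eval₂ (chartPolyHom R x : R[X] →+* H138.chart R ({x} : Set F)) b)
    (S : Finset R) (hS : ∀ c ∈ S, ∀ c' ∈ S, c ≠ c' → IsUnit (c - c'))
    (hNC : ∀ π : R[X], Prime π → ¬ Associated π (C w) → (∀ c ∈ S, ¬ Associated π (X - C c)) →
        (Ideal.span {chartPolyHom R x π}).IsRadical)
    (b : H138.chart R ({x} : Set F)) (g : R[X]) (hg : ¬ C w ∣ g)
    (d : ℕ) (a : Fin d → H138.chart R ({x} : Set F))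
    (h : algebraMap R (H138.chart R ({x} : Set F)) w ∣
      b ^ d + ∑ i : Fin d, a i * b ^ (i : ℕ) * chartPolyHom R x g ^ (d - (i : ℕ))) :
    ∃ b₀ : H138.chart R ({x} : Set F),
      algebraMap R (H138.chart R ({x} : Set F)) w ∣ b - chartPolyHom R x g * b₀ := by
  classical
  haveI : CharZero R := (algebraMap R F).charZero
  obtain ⟨hic, hfin⟩ := chart_package (R := R) hx
  letI := chartAlgebra R x
  haveI := hic
  haveI := hfin
  haveI : Module.IsTorsionFree R[X] (H138.chart R ({x} : Set F)) :=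
    Module.isTorsionFree_iff_algebraMap_injective.2 (chartPolyHom_injective hx)
  have hCw : algebraMap R[X] (H138.chart R ({x} : Set F)) (C w)
      = algebraMap R (H138.chart R ({x} : Set F)) w := chartPolyHom_C x w
  have hdom' : Prime (algebraMap R[X] (H138.chart R ({x} : Set F)) (C w)) := by
    rw [hCw]; exact hdom
  have hsep' := H425.hsep_poly R w hw (H138.chart R ({x} : Set F)) hdom' (by
    intro b
    obtain ⟨P, h1, h2⟩ := hsep b
    refine ⟨P, ?_, ?_⟩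
    · rw [hCw]; exact h1
    · rw [hCw]; exact h2)
  obtain ⟨b₀, hb₀⟩ := H273.b2Normal_unfolded R w hw (H138.chart R ({x} : Set F)) hsep' S hS hNC
    b g hg ⟨d, a, by
      rw [Ideal.mem_span_singleton, hCw]
      exact h⟩
  refine ⟨b₀, ?_⟩
  rw [Ideal.mem_span_singleton, hCw] at hb₀
  exact hb₀

/-- **NORMAL-CHART, field form.**  Same as `normal_chart`, with `hsep` and `hNC` stated by
elements of `F`. -/
theorem normal_chart_field
    {x : F} (hx : Transcendental R x) [FiniteDimensional (H138.baseField R x) F]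
    (w : R) (hw : Irreducible w)
    (hdom : Prime (algebraMap R (H138.chart R ({x} : Set F)) w))
    (hsep : ∀ b ∈ H138.chart R ({x} : Set F), ∃ P : F[X],
        (∀ i, P.coeff i ∈ Algebra.adjoin R ({x} : Set F)) ∧
        (∃ t ∈ H138.chart R ({x} : Set F), P.eval b = algebraMap R F w * t) ∧
        ¬ ∃ t ∈ H138.chart R ({x} : Set F), (derivative P).eval b = algebraMap R F w * t)
    (S : Finset R) (hS : ∀ c ∈ S, ∀ c' ∈ S, c ≠ c' → IsUnit (c - c'))
    (hNC : ∀ π : R[X], Prime π → ¬ Associated π (C w) → (∀ c ∈ S, ¬ Associated π (X - C c)) →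
        (Ideal.span {chartPolyHom R x π}).IsRadical)
    (b : H138.chart R ({x} : Set F)) (g : R[X]) (hg : ¬ C w ∣ g)
    (d : ℕ) (a : Fin d → H138.chart R ({x} : Set F))
    (h : algebraMap R (H138.chart R ({x} : Set F)) w ∣
      b ^ d + ∑ i : Fin d, a i * b ^ (i : ℕ) * chartPolyHom R x g ^ (d - (i : ℕ))) :
    ∃ b₀ : H138.chart R ({x} : Set F),
      algebraMap R (H138.chart R ({x} : Set F)) w ∣ b - chartPolyHom R x g * b₀ := by
  refine normal_chart hx w hw hdom ?_ S hS hNC b g hg d a h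
  intro b
  obtain ⟨P, hP, h1, h2⟩ := hsep b b.2
  have hlift : P ∈ Polynomial.lifts (aeval x : R[X] →ₐ[R] F).toRingHom := by
    rw [Polynomial.lifts_iff_coeff_lifts]
    intro n
    have := hP n
    rw [Algebra.adjoin_singleton_eq_range_aeval] at this
    obtain ⟨q, hq⟩ := this
    exact ⟨q, hq⟩
  obtain ⟨Q, hQ⟩ := (Polynomial.mem_lifts P).1 hlift
  refine ⟨Q, ?_, ?_⟩
  · rw [algebraMap_dvd_chart_iff, coe_eval₂_chartPolyHom, hQ]
    exact h1
  · rw [algebraMap_dvd_chart_iff, coe_eval₂_chartPolyHom, ← derivative_map, hQ]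
    exact h2

end Fermat.Agent.S37.H278.NA

end
end
-- ===== PACK-END S37/H278/NormalChart.lean

-- ===== PACK-BEGIN S18/H634/Coord.lean
section



/-!
# S18 / node_coord (c3) — existence of admissible coordinates (helper634)

`node_coord` has EXACTLY the type of the `sorry` node `Integ.node_coord` of the row skeleton
(`origin/helper18:Fermat/Agent/S18/Integ/Skeleton.lean`, v4):

    theorem node_coord (M : ℕ) [NeZero M] {ℓ : ℕ} [Fact ℓ.Prime] (hℓM : ¬ ℓ ∣ M)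
        (h3 : ℓ = 3 → 2 ∣ M) (h2 : ℓ = 2 → 3 ∣ M) : Mod.CoordinateStatement M ℓ

* `ℓ ≥ 5`: `x = j`, `S = {0, 1728}`;
* `ℓ = 3`: `x = t2 = Δ(q)/Δ(q²)` (helper637's `Lib.Haupt.t2`), `S = {0, -64}`;
* `ℓ = 2`: `x = t3 = (η(q)/η(q³))¹²` (`Lib.Haupt.t3`), `S = {0, -27}`.
-/

set_option autoImplicit false

noncomputable section

namespace Fermat.Agent.S18.H634

open ModularCurve AlgebraicCurve HahnSeries Fermat.Agent.Lib.Haupt Fermat.Agent.S18

/-- `t2` as an element of `Ω = F_M`, `2 ∣ M`. -/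
def t2Om (M : ℕ) [NeZero M] (hM : 2 ∣ M) : Mod.Om M :=
  ⟨t2 Qb, t2_mem_baseChange Qb M hM⟩

/-- `t3` as an element of `Ω = F_M`, `3 ∣ M`. -/
def t3Om (M : ℕ) [NeZero M] (hM : 3 ∣ M) : Mod.Om M :=
  ⟨t3 Qb, t3_mem_baseChange Qb M hM⟩

theorem coe_jOm (M : ℕ) [NeZero M] : ((Mod.jOm M : Mod.Om M) : LaurentSeries Qb) = jqModC Qb := by
  show coeffEmb Qb (qExpand ℚ 1 jq) = jqModC Qb
  rw [qExpand_one_apply, ← jqModC_rat, coeffEmb, coeffMap_jqModC]

theorem jOm_mul_t2Om_sq (M : ℕ) [NeZero M] (hM : 2 ∣ M) :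
    Mod.jOm M * t2Om M hM ^ 2 = (t2Om M hM + 256) ^ 3 := by
  apply Subtype.ext
  have h := jq_mul_t2_sq Qb
  have e1 : ((Mod.jOm M * t2Om M hM ^ 2 : Mod.Om M) : LaurentSeries Qb)
      = jqModC Qb * t2 Qb ^ 2 := by
    rw [← coe_jOm M]; rfl
  have e2 : (((t2Om M hM + 256) ^ 3 : Mod.Om M) : LaurentSeries Qb) = (t2 Qb + 256) ^ 3 := rfl
  rw [e1, e2, h]

theorem jOm_mul_t3Om_cube (M : ℕ) [NeZero M] (hM : 3 ∣ M) :
    Mod.jOm M * t3Om M hM ^ 3 = (t3Om M hM + 27) * (t3Om M hM + 243) ^ 3 := by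
  apply Subtype.ext
  have h := jq_mul_t3_cube Qb
  have e1 : ((Mod.jOm M * t3Om M hM ^ 3 : Mod.Om M) : LaurentSeries Qb)
      = jqModC Qb * t3 Qb ^ 3 := by
    rw [← coe_jOm M]; rfl
  have e2 : (((t3Om M hM + 27) * (t3Om M hM + 243) ^ 3 : Mod.Om M) : LaurentSeries Qb)
      = (t3 Qb + 27) * (t3 Qb + 243) ^ 3 := rfl
  rw [e1, e2, h]

/-- the integral model of `t2`: the series `t2 ℤ`. -/
theorem t2_intModel (M : ℕ) [NeZero M] (hM : 2 ∣ M) :
    ∃ X : LaurentSeries ℤ, X.coeff (-1) = 1 ∧ (∀ k : ℤ, k < -1 → X.coeff k = 0) ∧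
      ((t2Om M hM : Mod.Om M) : LaurentSeries Qb) = coeffMap (Int.castRingHom Qb) X ∧
      coeffMap (Int.castRingHom ℚ) X ∈ modularFunctionFieldFull M := by
  refine ⟨t2 ℤ, coeff_t2_neg_one ℤ, fun k hk => coeff_t2_of_lt ℤ hk, ?_, ?_⟩
  · rw [coeffMap_t2]; rfl
  · rw [coeffMap_t2, ← modularFunctionFieldFullC_rat]
    exact _root_.Fermat.Agent.S18.H634.t2_mem_fullC ℚ (by norm_num) M hM

/-- the integral model of `t3`: the series `t3 ℤ`. -/
theorem t3_intModel (M : ℕ) [NeZero M] (hM : 3 ∣ M) :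
    ∃ X : LaurentSeries ℤ, X.coeff (-1) = 1 ∧ (∀ k : ℤ, k < -1 → X.coeff k = 0) ∧
      ((t3Om M hM : Mod.Om M) : LaurentSeries Qb) = coeffMap (Int.castRingHom Qb) X ∧
      coeffMap (Int.castRingHom ℚ) X ∈ modularFunctionFieldFull M := by
  refine ⟨t3 ℤ, coeff_t3_neg_one ℤ, fun k hk => coeff_t3_of_lt ℤ hk, ?_, ?_⟩
  · rw [coeffMap_t3]; rfl
  · rw [coeffMap_t3, ← modularFunctionFieldFullC_rat]
    exact _root_.Fermat.Agent.S18.H634.t3_mem_fullC ℚ (by norm_num) M hM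

/-- `t2` is an admissible coordinate for `ℓ = 3`. -/
theorem isCoordinate_t2 (M : ℕ) [NeZero M] (hM : 2 ∣ M) (S : Finset (Mod.Om M))
    (hS : ∀ s, s ∈ S ↔ s = 0 ∨ s = -64) : Mod.IsCoordinate M 3 (t2Om M hM) S :=
  Or.inr ⟨Or.inl ⟨rfl, jOm_mul_t2Om_sq M hM, hS⟩, t2_intModel M hM⟩

/-- `t3` is an admissible coordinate for `ℓ = 2`. -/
theorem isCoordinate_t3 (M : ℕ) [NeZero M] (hM : 3 ∣ M) (S : Finset (Mod.Om M))
    (hS : ∀ s, s ∈ S ↔ s = 0 ∨ s = -27) : Mod.IsCoordinate M 2 (t3Om M hM) S :=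
  Or.inr ⟨Or.inr ⟨rfl, jOm_mul_t3Om_cube M hM, hS⟩, t3_intModel M hM⟩

/-- `j` is an admissible coordinate for `ℓ ≥ 5`. -/
theorem isCoordinate_j (M ℓ : ℕ) (hℓ : 5 ≤ ℓ) (S : Finset (Mod.Om M))
    (hS : ∀ s, s ∈ S ↔ s = 0 ∨ s = 1728) : Mod.IsCoordinate M ℓ (Mod.jOm M) S :=
  Or.inl ⟨hℓ, rfl, hS⟩

/-- **NODE COORD** (c3), exact type of `Integ.node_coord` (skeleton v4). -/
theorem node_coord (M : ℕ) [NeZero M] {ℓ : ℕ} [Fact ℓ.Prime] (hℓM : ¬ ℓ ∣ M)
    (h3 : ℓ = 3 → 2 ∣ M) (h2 : ℓ = 2 → 3 ∣ M) : Mod.CoordinateStatement M ℓ := by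
  classical
  have hp : ℓ.Prime := Fact.out
  by_cases e3 : ℓ = 3
  · subst e3
    exact ⟨t2Om M (h3 rfl), {0, -64}, isCoordinate_t2 M (h3 rfl) _ (by simp)⟩
  by_cases e2 : ℓ = 2
  · subst e2
    exact ⟨t3Om M (h2 rfl), {0, -27}, isCoordinate_t3 M (h2 rfl) _ (by simp)⟩
  have h5 : 5 ≤ ℓ := by
    have h2' := hp.two_le
    by_contra hlt
    have h4 : ℓ = 4 := by omega
    rw [h4] at hp
    exact absurd hp (by norm_num)
  exact ⟨Mod.jOm M, {0, 1728}, isCoordinate_j M ℓ h5 _ (by simp)⟩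

end Fermat.Agent.S18.H634

end
end
-- ===== PACK-END S18/H634/Coord.lean

-- ===== PACK-BEGIN S34/K789/TowerU.lean
section
/-
Row S34 / cell A2 (helper789): the `p`-adic mid layer keeps unipotency.

The abstract Tate eigenmodule constructions of row S30 (`H649.exists_adicFrobModule_of_lattice`,
`H349.exists_adic_eigenmodule`) transfer every relation `σ² - T_i σ + c = 0` from `J[p^∞]` to the
eigenmodule `M` (with `T_i` replaced by its eigenvalue `a_i`).  Adding the operator `2 • id`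
(eigenvalue `2`) to the family `T` gives the transfer of the relation `σ² - 2 σ + 1 = 0`,
i.e. of unipotency `(σ - 1)² = 0`.

Main results
* `exists_adicFrobModule_of_lattice_unip` : the statement of PIECE `Tate` of the S30 skeleton with
  the additional conclusion `(σ - 1)² = 0 on J[p^∞] ⟹ (ρ σ - 1)² = 0`.
* `exists_adicEigenModuleU_of_lattice` : adapter to `H990.AdicEigenModule` + `EigenUnipAt`.
* `jZero_unip_of_a2Kummer` : the hypothesis on `J = JZero N` from the Kummer form of wall A2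
  (`Fermat.Agent.A2.H129.A2Kummer N (p ^ n) σ` for all `n`).
-/




set_option autoImplicit false

namespace Fermat.Agent.S34.K789

open TensorProduct IsLocalRing

/-- The absolute Galois group of `ℚ`. -/
abbrev GQ' : Type := AlgebraicClosure ℚ ≃ₐ[ℚ] AlgebraicClosure ℚ

section Abstract

/-- `(f - 1)² = 0` from the quadratic relation with `a = 2`, `c = 1`. -/
theorem sub_one_mul_self_eq_zero {𝒪 M : Type*} [CommRing 𝒪] [AddCommGroup M] [Module 𝒪 M]
    (f : Module.End 𝒪 M)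
    (h : f * f - (2 : 𝒪) • f + (((1 : ℤ) : 𝒪)) • (1 : Module.End 𝒪 M) = 0) :
    (f - 1) * (f - 1) = 0 := by
  rw [Int.cast_one, one_smul, two_smul] at h
  rw [← h]
  simp only [mul_sub, sub_mul, mul_one, one_mul]
  abel

/-- **PIECE `Tate` of the S30 skeleton, with unipotency transfer.**  Same hypotheses as
`Fermat.Agent.S30.H649.exists_adicFrobModule_of_lattice`; the additional last conclusion says that
`(ρ σ - 1)² = 0` as soon as `(σ - 1)² = 0` on the `p`-power torsion of `J`. -/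
theorem exists_adicFrobModule_of_lattice_unip
    {𝒪 : Type} [CommRing 𝒪] [IsDomain 𝒪] [IsDiscreteValuationRing 𝒪]
    [IsAdicComplete (IsLocalRing.maximalIdeal 𝒪) 𝒪] [Finite (IsLocalRing.ResidueField 𝒪)]
    [CharZero 𝒪] {p : ℕ} (hp : p.Prime) (hp𝒪 : (p : 𝒪) ∈ IsLocalRing.maximalIdeal 𝒪)
    {J : Type} [AddCommGroup J] [DistribMulAction GQ' J]
    {ι : Type} (T : ι → J →ₗ[ℤ] J)
    (hTG : ∀ (i : ι) (σ : GQ') (x : J), T i (σ • x) = σ • T i x)
    (hfin : Finite {x : J // (p : ℤ) • x = 0})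
    (hsmooth : ∀ x : J, (∃ n : ℕ, ((p : ℤ) ^ n) • x = 0) →
      ∃ L : IntermediateField ℚ (AlgebraicClosure ℚ), FiniteDimensional ℚ L ∧
        ∀ σ : GQ', (∀ y ∈ L, σ y = y) → σ • x = x)
    {Λ : Type} [AddCommGroup Λ] [Module.Free ℤ Λ] [Module.Finite ℤ Λ]
    (TΛ : ι → Λ →ₗ[ℤ] Λ) (κ : ℕ → Λ →ₗ[ℤ] J)
    (hκ0 : ∀ (n : ℕ) (x : Λ), κ n x = 0 ↔ ∃ y : Λ, x = ((p : ℤ) ^ n) • y)
    (hκs : ∀ (n : ℕ) (x : Λ), (p : ℤ) • κ (n + 1) x = κ n x)
    (hκT : ∀ (i : ι) (n : ℕ) (x : Λ), κ n (TΛ i x) = T i (κ n x))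
    (a : ι → 𝒪) (v : 𝒪 ⊗[ℤ] Λ) (hv : v ≠ 0)
    (hva : ∀ i : ι, (TΛ i).baseChange 𝒪 v = a i • v) :
    ∃ (M : Type) (_ : AddCommGroup M) (_ : Module 𝒪 M) (_ : Module.Free 𝒪 M)
      (_ : Module.Finite 𝒪 M) (ρ : GQ' →* Module.End 𝒪 M),
      Nontrivial M ∧ GaloisActionIsAdicContinuous 𝒪 ρ ∧
      (∀ σ : GQ', (∀ x : J, (∃ n : ℕ, ((p : ℤ) ^ n) • x = 0) → σ • x = x) → ρ σ = 1) ∧
      (∀ (σ : GQ') (i : ι) (c : ℤ),
        (∀ x : J, (∃ n : ℕ, ((p : ℤ) ^ n) • x = 0) →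
          σ • σ • x - T i (σ • x) + c • x = 0) →
        ρ σ * ρ σ - a i • ρ σ + (c : 𝒪) • (1 : Module.End 𝒪 M) = 0) ∧
      (∀ σ : GQ', (∀ x : J, (∃ n : ℕ, ((p : ℤ) ^ n) • x = 0) →
          σ • (σ • x - x) = σ • x - x) → (ρ σ - 1) * (ρ σ - 1) = 0) := by
  classical
  -- the extended families, indexed by `Option ι`
  let T' : Option ι → J →ₗ[ℤ] J := fun o => o.elim ((2 : ℤ) • LinearMap.id) T
  let TΛ' : Option ι → Λ →ₗ[ℤ] Λ := fun o => o.elim ((2 : ℤ) • LinearMap.id) TΛ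
  let a' : Option ι → 𝒪 := fun o => o.elim (2 : 𝒪) a
  have hTG' : ∀ (i : Option ι) (σ : GQ') (x : J), T' i (σ • x) = σ • T' i x := by
    intro i σ x
    cases i with
    | none =>
      show (2 : ℤ) • (σ • x) = σ • ((2 : ℤ) • x)
      rw [two_smul, two_smul, smul_add]
    | some i => exact hTG i σ x
  have hκT' : ∀ (i : Option ι) (n : ℕ) (x : Λ), κ n (TΛ' i x) = T' i (κ n x) := by
    intro i n x
    cases i with
    | none =>
      show κ n ((2 : ℤ) • x) = (2 : ℤ) • κ n x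
      rw [map_smul]
    | some i => exact hκT i n x
  have hva' : ∀ i : Option ι, (TΛ' i).baseChange 𝒪 v = a' i • v := by
    intro i
    cases i with
    | none =>
      show ((2 : ℤ) • (LinearMap.id : Λ →ₗ[ℤ] Λ)).baseChange 𝒪 v = (2 : 𝒪) • v
      rw [LinearMap.baseChange_smul, LinearMap.baseChange_id, LinearMap.smul_apply,
        LinearMap.id_apply, ← Fermat.Agent.S30.H649.intCast_smul_tensor]
      norm_num
    | some i => exact hva i
  obtain ⟨M, i1, i2, i3, i4, ρ, hnt, hcont, hone, hquad⟩ :=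
    Fermat.Agent.S30.H649.exists_adicFrobModule_of_lattice (𝒪 := 𝒪) hp hp𝒪 (J := J)
      (ι := Option ι) T' hTG' hfin hsmooth TΛ' κ hκ0 hκs hκT' a' v hv hva'
  refine ⟨M, i1, i2, i3, i4, ρ, hnt, hcont, hone, ?_, ?_⟩
  · intro σ i c h
    exact hquad σ (some i) c h
  · intro σ h
    have h1 := hquad σ none 1 (fun x hx => by
      have h2 := h x hx
      show σ • σ • x - (2 : ℤ) • (σ • x) + (1 : ℤ) • x = 0
      rw [smul_sub] at h2
      rw [two_smul, one_smul]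
      have h3 : σ • σ • x = σ • x - x + σ • x := by
        rw [← h2]; abel
      rw [h3]; abel)
    exact sub_one_mul_self_eq_zero (ρ σ) h1

end Abstract

section Adapter

open Fermat.Agent.S30.H990

/-- **Adapter**: from the lattice data of the S30 skeleton for a Galois module `J` with operators
`T_ℓ` at the good primes, the raw Eichler–Shimura statements on `J[p^∞]` (unramified outside `Np`,
Frobenius relation) and unipotency of inertia at the primes `q ≠ p`, `q ∥ N` on `J[p^∞]`, to an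
`AdicEigenModule` which is unipotent at these primes (the input `HasAdicEigenModulesU` of
`result_of_U_SS`). -/
theorem exists_adicEigenModuleU_of_lattice
    {𝒪 : Type} [CommRing 𝒪] [IsDomain 𝒪] [IsDiscreteValuationRing 𝒪]
    [IsAdicComplete (IsLocalRing.maximalIdeal 𝒪) 𝒪] [Finite (IsLocalRing.ResidueField 𝒪)]
    [CharZero 𝒪] {p : ℕ} (hp : p.Prime) (hp𝒪 : (p : 𝒪) ∈ IsLocalRing.maximalIdeal 𝒪)
    {N : ℕ} [NeZero N] {S : Finset ℕ}
    (χ : CuspForm.heckeAlgebra N 2 (↑S : Set ℕ) →+* 𝒪)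
    {J : Type} [AddCommGroup J] [DistribMulAction GQ' J]
    (T : {ℓ : Nat.Primes // ¬ (ℓ : ℕ) ∣ N ∧ (ℓ : ℕ) ∉ (↑S : Set ℕ)} → J →ₗ[ℤ] J)
    (hTG : ∀ i (σ : GQ') (x : J), T i (σ • x) = σ • T i x)
    (hfin : Finite {x : J // (p : ℤ) • x = 0})
    (hsmooth : ∀ x : J, (∃ n : ℕ, ((p : ℤ) ^ n) • x = 0) →
      ∃ L : IntermediateField ℚ (AlgebraicClosure ℚ), FiniteDimensional ℚ L ∧
        ∀ σ : GQ', (∀ y ∈ L, σ y = y) → σ • x = x)
    {Λ : Type} [AddCommGroup Λ] [Module.Free ℤ Λ] [Module.Finite ℤ Λ]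
    (TΛ : {ℓ : Nat.Primes // ¬ (ℓ : ℕ) ∣ N ∧ (ℓ : ℕ) ∉ (↑S : Set ℕ)} → Λ →ₗ[ℤ] Λ)
    (κ : ℕ → Λ →ₗ[ℤ] J)
    (hκ0 : ∀ (n : ℕ) (x : Λ), κ n x = 0 ↔ ∃ y : Λ, x = ((p : ℤ) ^ n) • y)
    (hκs : ∀ (n : ℕ) (x : Λ), (p : ℤ) • κ (n + 1) x = κ n x)
    (hκT : ∀ i (n : ℕ) (x : Λ), κ n (TΛ i x) = T i (κ n x))
    (v : 𝒪 ⊗[ℤ] Λ) (hv : v ≠ 0)
    (hva : ∀ i, (TΛ i).baseChange 𝒪 v = χ (CuspForm.heckeAlgebra.T i.1.2 i.2.1 i.2.2) • v)
    (hunr : ∀ q : ℕ, q.Prime → ¬ q ∣ N → q ≠ p →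
      ∀ P : ValuationSubring (AlgebraicClosure ℚ), P.LiesOverPrime q →
        ∀ σ ∈ P.inertiaSubgroupIn ℚ, ∀ x : J, (∃ n : ℕ, ((p : ℤ) ^ n) • x = 0) → σ • x = x)
    (hfrob : ∀ i : {ℓ : Nat.Primes // ¬ (ℓ : ℕ) ∣ N ∧ (ℓ : ℕ) ∉ (↑S : Set ℕ)},
      ∀ A : ValuationSubring (AlgebraicClosure ℚ), A.LiesOverPrime (i.1 : ℕ) →
        ∀ σ : GQ', A.IsFrobeniusAt σ (i.1 : ℕ) →
          ∀ x : J, (∃ n : ℕ, ((p : ℤ) ^ n) • x = 0) →
            σ • σ • x - T i (σ • x) + (((i.1 : ℕ) : ℤ)) • x = 0)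
    (hunip : ∀ q : ℕ, q.Prime → q ≠ p → q ∣ N → ¬ q ^ 2 ∣ N →
      ∀ P : ValuationSubring (AlgebraicClosure ℚ), P.LiesOverPrime q →
        ∀ σ ∈ P.inertiaSubgroupIn ℚ, ∀ x : J, (∃ n : ℕ, ((p : ℤ) ^ n) • x = 0) →
          σ • (σ • x - x) = σ • x - x) :
    ∃ E : AdicEigenModule p N S 𝒪 χ,
      ∀ q : ℕ, q.Prime → q ≠ p → q ∣ N → ¬ q ^ 2 ∣ N → EigenUnipAt E q := by
  obtain ⟨M, i1, i2, i3, i4, ρ, hnt, hcont, hone, hquad, huni⟩ :=
    exists_adicFrobModule_of_lattice_unip (𝒪 := 𝒪) hp hp𝒪 (J := J) T hTG hfin hsmooth TΛ κ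
      hκ0 hκs hκT (fun i => χ (CuspForm.heckeAlgebra.T i.1.2 i.2.1 i.2.2)) v hv hva
  refine ⟨{ M := M
            ρ := ρ
            cont := hcont
            unram := fun q hq hqN hqp P hP σ hσ =>
              hone σ fun x hx => hunr q hq hqN hqp P hP σ hσ x hx
            frob := fun ℓ hℓ hℓN hℓS A hA σ hσ => by
              have h := hquad σ ⟨⟨ℓ, hℓ⟩, hℓN, hℓS⟩ ((ℓ : ℕ) : ℤ)
                (fun x hx => hfrob ⟨⟨ℓ, hℓ⟩, hℓN, hℓS⟩ A hA σ hσ x hx)
              simpa using h }, ?_⟩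
  intro q hq hqp hqN hq2 P hP σ hσ
  exact huni σ fun x hx => hunip q hq hqp hqN hq2 P hP σ hσ x hx

end Adapter

section JZero

open ModularCurve

/-- **Wall A2 in Kummer form gives the unipotency hypothesis on `J₀(N)[p^∞]`.** -/
theorem jZero_unip_of_a2Kummer (N p : ℕ) (hp : p ≠ 0) (σ : GQ')
    (h : ∀ n : ℕ, Fermat.Agent.A2.H129.A2Kummer N (p ^ n) σ)
    (x : JZero N) (hx : ∃ n : ℕ, ((p : ℤ) ^ n) • x = 0) :
    σ • (σ • x - x) = σ • x - x := by
  obtain ⟨n, hn⟩ := hx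
  refine Fermat.Agent.A2.H129.unipotent_JZero_of_kummer N (p ^ n) (pow_ne_zero n hp) σ (h n) x ?_
  rw [← natCast_zsmul, Nat.cast_pow]
  exact hn

end JZero

end Fermat.Agent.S34.K789

end
-- ===== PACK-END S34/K789/TowerU.lean

-- ===== PACK-BEGIN S34/K789/Final.lean
section
/-
Row S34 (helper789): the frozen statement S34 from the two remaining inputs

* `hU  : HasAdicEigenModulesU` — adic eigenmodules (row S30 mid layer) on which the inertia groups
  at the primes `q ≠ p`, `q ∥ N` act unipotently (cell A2);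
* `hSS : SSStatement`          — the anemic Hecke algebra is reduced (row S31, piece SS).

Everything else is on main: CHEB Tier 1, S22, piece D of row S31 (`H262.pts_of_reduced`), the
extraction of helper990 and the top glue of helper733.
-/



set_option autoImplicit false

namespace Fermat.Agent.S34.K789

open Fermat.Agent.S31

/-- **The frozen statement S34** (binders exactly as in the template) from the unipotent adic
eigenmodules and the reducedness of the anemic Hecke algebra. -/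
theorem result_of_U_SS (hU : HasAdicEigenModulesU) (hSS : Fermat.Agent.S31.H22.SSStatement)
    {𝒪 : Type} [CommRing 𝒪] [IsDomain 𝒪] [IsDiscreteValuationRing 𝒪]
    [IsAdicComplete (IsLocalRing.maximalIdeal 𝒪) 𝒪] [Finite (IsLocalRing.ResidueField 𝒪)]
    [CharZero 𝒪]
    {p : ℕ} (hp : p.Prime) (hp𝒪 : (p : 𝒪) ∈ IsLocalRing.maximalIdeal 𝒪)
    {N : ℕ} [NeZero N] {S : Finset ℕ} (hpS : p ∈ S) (hNS : ∀ q : ℕ, q.Prime → q ∣ N → q ∈ S)
    {θ : CuspForm.heckeAlgebra N 2 (↑S : Set ℕ) →+* IsLocalRing.ResidueField 𝒪}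
    {T : Type} [CommRing T] [IsLocalRing T] [IsNoetherianRing T]
    [IsAdicComplete (IsLocalRing.maximalIdeal T) T] [Algebra 𝒪 T] [IsLocalHom (algebraMap 𝒪 T)]
    [Module.Finite 𝒪 T] [Module.Free 𝒪 T]
    (H : CuspForm.HeckeGaloisRepDatum N (↑S : Set ℕ) 𝒪 θ T)
    (q : ℕ) (hq : q.Prime) (hqp : q ≠ p) (hqN : q ∣ N) (hq2 : ¬ q ^ 2 ∣ N) :
    H.ρ.IsUnipotentOnInertiaAt q := by
  have hfin : Module.Finite ℤ (CuspForm.heckeAlgebra N 2 (↑S : Set ℕ)) :=
    Fermat.Agent.S22.result N 2 (↑S : Set ℕ)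
  have hred : IsReduced (CuspForm.heckeAlgebra N 2 (↑S : Set ℕ)) :=
    hSS N (↑S : Set ℕ) (fun q hq hqN => by simpa using hNS q hq hqN)
  have hPTS : PTS p (CuspForm.heckeAlgebra N 2 (↑S : Set ℕ)) :=
    H262.pts_of_reduced p hp _
  exact Fermat.Agent.S34.H733.unipotent_of_parts (s30U_of_hasAdicEigenModulesU hU)
    Fermat.Agent.Lib.Cheb.H943.frobeniusDivisionStatement hp hp𝒪 hpS hNS hPTS H q hq hqp hqN hq2

/-- The same with SS replaced by its analytic core `PeterssonData`. -/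
theorem result_of_U_petersson (hU : HasAdicEigenModulesU)
    (hPet : ∀ (N : ℕ) [NeZero N], Nonempty (Fermat.Agent.S31.H22.PeterssonData N))
    {𝒪 : Type} [CommRing 𝒪] [IsDomain 𝒪] [IsDiscreteValuationRing 𝒪]
    [IsAdicComplete (IsLocalRing.maximalIdeal 𝒪) 𝒪] [Finite (IsLocalRing.ResidueField 𝒪)]
    [CharZero 𝒪]
    {p : ℕ} (hp : p.Prime) (hp𝒪 : (p : 𝒪) ∈ IsLocalRing.maximalIdeal 𝒪)
    {N : ℕ} [NeZero N] {S : Finset ℕ} (hpS : p ∈ S) (hNS : ∀ q : ℕ, q.Prime → q ∣ N → q ∈ S)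
    {θ : CuspForm.heckeAlgebra N 2 (↑S : Set ℕ) →+* IsLocalRing.ResidueField 𝒪}
    {T : Type} [CommRing T] [IsLocalRing T] [IsNoetherianRing T]
    [IsAdicComplete (IsLocalRing.maximalIdeal T) T] [Algebra 𝒪 T] [IsLocalHom (algebraMap 𝒪 T)]
    [Module.Finite 𝒪 T] [Module.Free 𝒪 T]
    (H : CuspForm.HeckeGaloisRepDatum N (↑S : Set ℕ) 𝒪 θ T)
    (q : ℕ) (hq : q.Prime) (hqp : q ≠ p) (hqN : q ∣ N) (hq2 : ¬ q ^ 2 ∣ N) :
    H.ρ.IsUnipotentOnInertiaAt q :=
  result_of_U_SS hU (Fermat.Agent.S31.H22.ssStatement_of_petersson hPet) hp hp𝒪 hpS hNS H q hq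
    hqp hqN hq2

end Fermat.Agent.S34.K789

end
-- ===== PACK-END S34/K789/Final.lean

-- ===== PACK-BEGIN S35/H891/Spec.lean
section





/-!
# S35, cell FROB — interfaces (helper891).  Definitions only, no `sorry`.

Plan: `coord/S35-FROB-helper891.md` (origin/helper891).  Notation: `N = M' * q`, `q ∤ M'`, `q ∤ m`,
`s` a Frobenius lift at a place `P ∣ q`, `φ = s²`, `Q = q²`.

* `FrobCtx`, `AlgFrobStatement`   : **FS**, the abstract theorem (language of `A2/Spec.lean` and of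
  route G, `A2/H12/GSpec.lean`): for a semilinear automorphism `φ` of the function field which
  induces `r ↦ r ^ Q` on the residue field of `R`, preserves the two sheets and fixes the crossing
  points of the two charts, every Kummer class `u` with `m ∣ div u` whose residues at the sheets are
  `m`-th powers satisfies `φ u = z ^ m * u ^ Q`.
* `SurjLeaf`, `CoverFLeaf`        : the two leaves which FS needs besides the route-G leaves
  `BaseLeaf`, `RootLeaf`, `SheetsLeaf`, `RedLeaf`, `ConstLeaf`, `CountLeaf` of `A2/H12/AlgLeaves.lean`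
  (`FrobLeaves.lean` : `algFrob_of_leaves`).
* `KummerQNewFrobStatement`       : **QNF**, Kummer form, in the modular function field `F̄_N`.
* `QNewFrobStatement`             : **QNF** on `JZero (M' * q)`:
  `(φ - Q)(φ - 1)² x = 0` for every `q`-new `x` of order prime to `q`.
  (The quartic relation `(φ - Q)(φ - 1) x = 0` of helper991 / helper433 implies it; the top glue
  `Top.lean` only needs the cubic one.)
-/

set_option autoImplicit false

noncomputable section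

namespace Fermat.Agent.S35.H891

open Fermat.Agent.A2 Fermat.Agent.A2.H12 ModularCurve AlgebraicCurve

/-! ## FS: the abstract Frobenius theorem -/

/-- The data and hypotheses of `AlgFrobStatement`: those of `A2.AlgSSStatement`, with the
inertia automorphism replaced by a Frobenius-type automorphism `φ`. -/
structure FrobCtx {R E F : Type} [CommRing R] [IsDomain R] [IsDiscreteValuationRing R]
    [HenselianLocalRing R] [IsAlgClosed (IsLocalRing.ResidueField R)]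
    [Field E] [CharZero E] [Algebra R E] [IsFractionRing R E]
    [Field F] [Algebra E F] [Algebra R F] [IsScalarTower R E F]
    (w : R) (q m Q : ℕ) (x : F) (Bf Bi : Subalgebra R F)
    (φ : F ≃+* F) (φE : E ≃+* E) (φR : R ≃+* R) : Prop where
  irr : Irreducible w
  qprime : q.Prime
  qmem : (q : R) ∈ IsLocalRing.maximalIdeal R
  mpos : 0 < m
  qm : ¬ q ∣ m
  transc : Transcendental E x
  fin : FiniteDimensional (IntermediateField.adjoin E ({x} : Set F)) F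
  const : ∀ f : F, IsAlgebraic E f → f ∈ (algebraMap E F).range
  hBf : ∀ f : F, f ∈ Bf ↔ IsIntegral (Algebra.adjoin R ({x} : Set F)) f
  hBi : ∀ f : F, f ∈ Bi ↔ IsIntegral (Algebra.adjoin R ({x⁻¹} : Set F)) f
  cf : Nonempty (SSChart w Bf)
  ci : Nonempty (SSChart w Bi)
  sf : SepCoord R E x Bf
  si : SepCoord R E x⁻¹ Bi
  hφE : ∀ e : E, φ (algebraMap E F e) = algebraMap E F (φE e)
  hφR : ∀ r : R, φE (algebraMap R E r) = algebraMap R E (φR r)
  hφx : φ x = x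
  /-- `φ` induces `r ↦ r ^ Q` on the residue field of `R` -/
  hfrob : ∀ r : R, w ∣ φR r - r ^ Q
  /-- `φ` preserves every sheet (= every component of the special fibre) -/
  hsheet : ∀ V : ValuationSubring F, IsSheet w x V → ∀ c : F, c ∈ V ↔ φ c ∈ V
  /-- `φ` fixes the crossing points of both charts -/
  hnodes : NodesFixed w x φ

/-- **FS (interface statement).** -/
def AlgFrobStatement : Prop :=
  ∀ {R E F : Type} [CommRing R] [IsDomain R] [IsDiscreteValuationRing R]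
    [HenselianLocalRing R] [IsAlgClosed (IsLocalRing.ResidueField R)]
    [Field E] [CharZero E] [Algebra R E] [IsFractionRing R E]
    [Field F] [Algebra E F] [Algebra R F] [IsScalarTower R E F]
    (w : R) (q m Q : ℕ) (x : F) (Bf Bi : Subalgebra R F)
    (φ : F ≃+* F) (φE : E ≃+* E) (φR : R ≃+* R),
    FrobCtx w q m Q x Bf Bi φ φE φR →
    ∀ u : F, u ≠ 0 → DivisibleDiv E m u →
      (∀ V : ValuationSubring F, IsSheet w x V → SplitAt m V u) →
      (∃ r : ℕ, 0 < r ∧ (φ ^ r) u = u) →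
      ∃ z : F, z ≠ 0 ∧ φ u = z ^ m * u ^ Q

/-- Leaf **SURJ**: for every Kummer-split cover, the charts of the cover are generated by the
charts of the base modulo every sheet. -/
def SurjLeaf : Prop :=
  ∀ {R E F : Type} [CommRing R] [IsDomain R] [IsDiscreteValuationRing R]
    [HenselianLocalRing R] [IsAlgClosed (IsLocalRing.ResidueField R)]
    [Field E] [CharZero E] [Algebra R E] [IsFractionRing R E]
    [Field F] [Algebra E F] [Algebra R F] [IsScalarTower R E F]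
    (w : R) (q m : ℕ) (x : F) (Bf Bi : Subalgebra R F)
    (τ : F ≃+* F) (τE : E ≃+* E) (τR : R ≃+* R),
    SSCtx w q m x Bf Bi τ τE τR →
    ∀ (L : Type) [Field L] [Algebra F L] [Algebra R L] [IsScalarTower R F L],
      IsKummerSplit L w x m → SurjConclusion L w x

/-- Leaf **COVER-F**: a Kummer-split cover containing an `m`-th root of `g` to which `φ` lifts,
for `g` with a finite `φ`-orbit (`φ` itself has infinite order). -/
def CoverFLeaf : Prop :=
  ∀ {R F : Type} [CommRing R] [Field F] [CharZero F] [Algebra R F]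
    (w : R) (x : F) (m : ℕ) (φ : F ≃+* F) (φR : R ≃+* R),
    Function.Injective (algebraMap R F) → 0 < m → (∃ ζ : R, IsPrimitiveRoot ζ m) →
    φ x = x → (∀ r, φ (algebraMap R F r) = algebraMap R F (φR r)) → (∀ r, w ∣ r ↔ w ∣ φR r) →
    ∀ (r : ℕ), 0 < r → ∀ g : F, (φ ^ r) g = g → g ≠ 0 → HorDiv R m g →
      (∀ V : ValuationSubring F, IsSheet w x V → SplitAt m V g) →
      CoverConclusion w x m φ g

/-! ## QNF: the theorem on the modular curve -/

/-- `φ = s²` on the modular function field `F̄_N`. -/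
abbrev actSq (N : ℕ) (s : Qb ≃ₐ[ℚ] Qb) (f : modularFunctionFieldBar N) :
    modularFunctionFieldBar N :=
  act N s (act N s f)

/-- **QNF, Kummer form.**  `N = M' * q`.  If `m ∣ div f` and both norms `N_α f`, `N_β f` are
`m`-th powers in `F̄_{M'}` (the class of `f` is `q`-new), then
`φ³ f · (φ f) ^ (1 + 2Q) = h ^ m · (φ² f) ^ (2 + Q) · f ^ Q`, `φ = s²`, `Q = q²`. -/
def KummerQNewFrobStatement : Prop :=
  ∀ (M' q m : ℕ) [NeZero M'] [NeZero q], q.Prime → ¬ q ∣ M' → 0 < m → ¬ q ∣ m →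
    ∀ P : ValuationSubring Qb, P.LiesOverPrime q →
    ∀ s : Qb ≃ₐ[ℚ] Qb, P.IsFrobeniusAt s q →
    ∀ f : modularFunctionFieldBar (M' * q), f ≠ 0 →
      (∀ v : Place Qb (modularFunctionFieldBar (M' * q)), (m : ℤ) ∣ v.ord f) →
      (∃ h : modularFunctionFieldBar M', h ≠ 0 ∧
        Fermat.Agent.S29.H395.normAlong (heckeAlphaBar Qb M' q) f = h ^ m) →
      (∃ h : modularFunctionFieldBar M', h ≠ 0 ∧
        Fermat.Agent.S29.H395.normAlong (heckeBetaBar Qb M' q) f = h ^ m) →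
      ∃ h : modularFunctionFieldBar (M' * q), h ≠ 0 ∧
        actSq (M' * q) s (actSq (M' * q) s (actSq (M' * q) s f)) *
            actSq (M' * q) s f ^ (1 + 2 * q ^ 2) =
          h ^ m * actSq (M' * q) s (actSq (M' * q) s f) ^ (2 + q ^ 2) * f ^ (q ^ 2)

/-- `x ∈ J₀(M' q)` is `q`-new: it is the class of a divisor of degree `0` both of whose
pushforwards to level `M'` are principal. -/
def IsQNew (M' q : ℕ) [NeZero M'] [NeZero q] (x : JZero (M' * q)) : Prop :=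
  ∃ (hα : HeckeAlphaBarIntegral Qb M' q) (hβ : HeckeBetaBarIntegral Qb M' q)
    (D : Divisor.degZero (K := Qb) (F := modularFunctionFieldBar (M' * q))),
    Pic0.mk D = x ∧
      (Divisor.pushforwardAlong (heckeAlphaBar Qb M' q) hα (D : Divisor Qb _)).IsPrincipal ∧
      (Divisor.pushforwardAlong (heckeBetaBar Qb M' q) hβ (D : Divisor Qb _)).IsPrincipal

/-- **QNF.**  `(φ - Q)(φ - 1)² x = 0` for every `q`-new `x ∈ J₀(M' q)[m]`, `φ = s²`, `Q = q²`:
`φ³ x + (1 + 2Q) φ x = (2 + Q) φ² x + Q x`. -/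
def QNewFrobStatement : Prop :=
  ∀ (M' q m : ℕ) [NeZero M'] [NeZero q], q.Prime → ¬ q ∣ M' → 0 < m → ¬ q ∣ m →
    ∀ P : ValuationSubring Qb, P.LiesOverPrime q →
    ∀ s : Qb ≃ₐ[ℚ] Qb, P.IsFrobeniusAt s q →
    ∀ x : JZero (M' * q), m • x = 0 → IsQNew M' q x →
      s • s • s • s • s • s • x + (1 + 2 * q ^ 2) • (s • s • x) =
        (2 + q ^ 2) • (s • s • s • s • x) + q ^ 2 • x

end Fermat.Agent.S35.H891

end
end
-- ===== PACK-END S35/H891/Spec.lean

-- ===== PACK-BEGIN S36/H630/LabAlg.lean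
section


/-!
# S36 engine, LABEL core (helper630), part 6: label algebra and `LabelAt`

* `label_algebra` : the two label equations at a triple point (via `α` and via `β`,
  `LabEq.label_eq_of_norm`)

      `ζ ^ i₁ · η_FF · η_mid ^ (q-1) ≡ ζ ^ i₂ · η_VV ^ q`,
      `ζ ^ j₂ · η_VV · η_mid ^ (q-1) ≡ ζ ^ j₁ · η_FF ^ q`          (mod `𝔪`)

  imply, with `c = (q - 1) (q + 1)`,

      `η_FF ^ c ≡ ζ ^ X · η_VV ^ c`,   `η_mid ^ c ≡ ζ ^ Y · η_VV ^ c`,

  where `X = (q-1) (i₂ + j₂ + (m-1) (i₁ + j₁))`, `Y = q i₂ + j₁ + (m-1) (q i₁ + j₂)` depend only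
  on the labels of the norms, NOT on the point.

* `labelAt_of_three` : hence the label datum `LabelAt` for `u ^ c` at the triple point, for the
  colouring `κ FF = (m-1) X`, `κ mid = (m-1) Y`, `κ VV = 0`.
* `labelAt_of_one` : the label datum at a point lying on exactly one sheet (any colouring).
-/

set_option autoImplicit false
set_option linter.unusedSectionVars false

namespace Fermat.Agent.S36.H630

section Algebra

variable {K : Type*} [CommRing K] [IsDomain K]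

/-- the inverse of a power of a root of unity -/
theorem zeta_pow_mul_inv {ζ : K} {m : ℕ} (hm : 0 < m) (hζ : ζ ^ m = 1) (i : ℕ) :
    ζ ^ i * ζ ^ ((m - 1) * i) = 1 := by
  rw [← pow_add]
  have : i + (m - 1) * i = m * i := by
    have hm1 : m - 1 + 1 = m := Nat.sub_add_cancel hm
    calc i + (m - 1) * i = (m - 1 + 1) * i := by ring
      _ = m * i := by rw [hm1]
  rw [this, pow_mul, hζ, one_pow]

/-- **Label algebra** in a domain, with `q = r + 1`. -/
theorem label_algebra_succ {ζ : K} {m : ℕ} (hm : 0 < m) (hζ : ζ ^ m = 1)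
    {a b c : K} (hb : b ≠ 0) (hc : c ≠ 0) {r : ℕ} {i₁ i₂ j₁ j₂ : ℕ}
    (hα : ζ ^ i₁ * (a * b ^ r) = ζ ^ i₂ * c ^ (r + 1))
    (hβ : ζ ^ j₂ * (c * b ^ r) = ζ ^ j₁ * a ^ (r + 1)) :
    a ^ (r * (r + 1 + 1)) = ζ ^ (r * (i₂ + j₂ + (m - 1) * (i₁ + j₁))) * c ^ (r * (r + 1 + 1)) ∧
    b ^ (r * (r + 1 + 1))
      = ζ ^ ((r + 1) * i₂ + j₁ + (m - 1) * ((r + 1) * i₁ + j₂)) * c ^ (r * (r + 1 + 1)) := by
  have hbq : b ^ r ≠ 0 := pow_ne_zero _ hb
  -- (*) `ζ^(i₁+j₁) a^(q+1) = ζ^(i₂+j₂) c^(q+1)`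
  have h1 : ζ ^ (i₁ + j₁) * a ^ (r + 1 + 1) = ζ ^ (i₂ + j₂) * c ^ (r + 1 + 1) := by
    apply mul_right_cancel₀ hbq
    calc ζ ^ (i₁ + j₁) * a ^ (r + 1 + 1) * b ^ r
        = (ζ ^ i₁ * (a * b ^ r)) * (ζ ^ j₁ * a ^ (r + 1)) := by
          rw [pow_add, pow_succ a (r + 1)]; ring
      _ = (ζ ^ i₂ * c ^ (r + 1)) * (ζ ^ j₂ * (c * b ^ r)) := by rw [hα, hβ]
      _ = ζ ^ (i₂ + j₂) * c ^ (r + 1 + 1) * b ^ r := by
          rw [pow_add, pow_succ c (r + 1)]; ring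
  have h2 : a ^ (r + 1 + 1) = ζ ^ (i₂ + j₂ + (m - 1) * (i₁ + j₁)) * c ^ (r + 1 + 1) := by
    have h3 := zeta_pow_mul_inv hm hζ (i₁ + j₁)
    calc a ^ (r + 1 + 1) = (ζ ^ (i₁ + j₁) * ζ ^ ((m - 1) * (i₁ + j₁))) * a ^ (r + 1 + 1) := by
          rw [h3, one_mul]
      _ = ζ ^ ((m - 1) * (i₁ + j₁)) * (ζ ^ (i₁ + j₁) * a ^ (r + 1 + 1)) := by ring
      _ = ζ ^ ((m - 1) * (i₁ + j₁)) * (ζ ^ (i₂ + j₂) * c ^ (r + 1 + 1)) := by rw [h1]
      _ = ζ ^ (i₂ + j₂ + (m - 1) * (i₁ + j₁)) * c ^ (r + 1 + 1) := by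
          rw [pow_add ζ (i₂ + j₂)]; ring
  constructor
  · calc a ^ (r * (r + 1 + 1)) = (a ^ (r + 1 + 1)) ^ r := by rw [← pow_mul, mul_comm]
      _ = (ζ ^ (i₂ + j₂ + (m - 1) * (i₁ + j₁)) * c ^ (r + 1 + 1)) ^ r := by rw [h2]
      _ = ζ ^ (r * (i₂ + j₂ + (m - 1) * (i₁ + j₁))) * c ^ (r * (r + 1 + 1)) := by
          rw [mul_pow, ← pow_mul, ← pow_mul, mul_comm (r + 1 + 1) r,
            mul_comm (i₂ + j₂ + (m - 1) * (i₁ + j₁)) r]
  · -- `ζ^(q i₁ + j₂) b^c = ζ^(q i₂ + j₁) c^c`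
    have hcc : c ^ (r * (r + 1 + 1)) * c = (c ^ (r + 1)) ^ (r + 1) := by
      rw [← pow_succ, ← pow_mul]
      congr 1
      ring
    have hbb : b ^ (r * (r + 1 + 1)) = (b ^ r) ^ (r + 1) * b ^ r := by
      rw [← pow_succ, ← pow_mul]
    have hz₁ : ζ ^ ((r + 1) * i₁) = (ζ ^ i₁) ^ (r + 1) := by rw [← pow_mul, mul_comm]
    have hz₂ : ζ ^ ((r + 1) * i₂) = (ζ ^ i₂) ^ (r + 1) := by rw [← pow_mul, mul_comm]
    have h4 : ζ ^ ((r + 1) * i₁ + j₂) * b ^ (r * (r + 1 + 1))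
        = ζ ^ ((r + 1) * i₂ + j₁) * c ^ (r * (r + 1 + 1)) := by
      apply mul_right_cancel₀ hc
      calc ζ ^ ((r + 1) * i₁ + j₂) * b ^ (r * (r + 1 + 1)) * c
          = (ζ ^ i₁) ^ (r + 1) * (b ^ r) ^ (r + 1) * (ζ ^ j₂ * (c * b ^ r)) := by
            rw [hbb, pow_add ζ ((r + 1) * i₁) j₂, hz₁]; ring
        _ = (ζ ^ i₁) ^ (r + 1) * (b ^ r) ^ (r + 1) * (ζ ^ j₁ * a ^ (r + 1)) := by rw [hβ]
        _ = ζ ^ j₁ * (ζ ^ i₁ * (a * b ^ r)) ^ (r + 1) := by ring
        _ = ζ ^ j₁ * (ζ ^ i₂ * c ^ (r + 1)) ^ (r + 1) := by rw [hα]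
        _ = ζ ^ ((r + 1) * i₂ + j₁) * (c ^ (r * (r + 1 + 1)) * c) := by
            rw [hcc, pow_add ζ ((r + 1) * i₂) j₁, hz₂, mul_pow]; ring
        _ = ζ ^ ((r + 1) * i₂ + j₁) * c ^ (r * (r + 1 + 1)) * c := by ring
    have h3 := zeta_pow_mul_inv hm hζ ((r + 1) * i₁ + j₂)
    calc b ^ (r * (r + 1 + 1))
        = (ζ ^ ((r + 1) * i₁ + j₂) * ζ ^ ((m - 1) * ((r + 1) * i₁ + j₂)))
            * b ^ (r * (r + 1 + 1)) := by
          rw [h3, one_mul]
      _ = ζ ^ ((m - 1) * ((r + 1) * i₁ + j₂))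
            * (ζ ^ ((r + 1) * i₁ + j₂) * b ^ (r * (r + 1 + 1))) := by ring
      _ = ζ ^ ((m - 1) * ((r + 1) * i₁ + j₂))
            * (ζ ^ ((r + 1) * i₂ + j₁) * c ^ (r * (r + 1 + 1))) := by
          rw [h4]
      _ = ζ ^ ((r + 1) * i₂ + j₁ + (m - 1) * ((r + 1) * i₁ + j₂)) * c ^ (r * (r + 1 + 1)) := by
          rw [pow_add ζ ((r + 1) * i₂ + j₁)]; ring

/-- **Label algebra** in a domain. -/
theorem label_algebra_domain {ζ : K} {m : ℕ} (hm : 0 < m) (hζ : ζ ^ m = 1)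
    {a b c : K} (hb : b ≠ 0) (hc : c ≠ 0) {q : ℕ} (hq : 0 < q) {i₁ i₂ j₁ j₂ : ℕ}
    (hα : ζ ^ i₁ * (a * b ^ (q - 1)) = ζ ^ i₂ * c ^ q)
    (hβ : ζ ^ j₂ * (c * b ^ (q - 1)) = ζ ^ j₁ * a ^ q) :
    a ^ ((q - 1) * (q + 1)) = ζ ^ ((q - 1) * (i₂ + j₂ + (m - 1) * (i₁ + j₁))) * c ^ ((q - 1) * (q + 1)) ∧
    b ^ ((q - 1) * (q + 1)) = ζ ^ (q * i₂ + j₁ + (m - 1) * (q * i₁ + j₂)) * c ^ ((q - 1) * (q + 1)) := by
  obtain ⟨r, rfl⟩ : ∃ r, q = r + 1 := ⟨q - 1, (Nat.sub_add_cancel hq).symm⟩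
  rw [Nat.add_sub_cancel] at hα hβ ⊢
  exact label_algebra_succ hm hζ hb hc hα hβ

end Algebra

section ModPrime

variable {R : Type*} [CommRing R]

/-- **Label algebra** modulo a prime ideal of `R`. -/
theorem label_algebra (𝔪 : Ideal R) [𝔪.IsPrime] {ζ : R} {m : ℕ} (hm : 0 < m) (hζ : ζ ^ m = 1)
    {a b c : R} (hb : b ∉ 𝔪) (hc : c ∉ 𝔪) {q : ℕ} (hq : 0 < q) {i₁ i₂ j₁ j₂ : ℕ}
    (hα : ζ ^ i₁ * (a * b ^ (q - 1)) - ζ ^ i₂ * c ^ q ∈ 𝔪)
    (hβ : ζ ^ j₂ * (c * b ^ (q - 1)) - ζ ^ j₁ * a ^ q ∈ 𝔪) :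
    a ^ ((q - 1) * (q + 1))
        - ζ ^ ((q - 1) * (i₂ + j₂ + (m - 1) * (i₁ + j₁))) * c ^ ((q - 1) * (q + 1)) ∈ 𝔪 ∧
    b ^ ((q - 1) * (q + 1))
        - ζ ^ (q * i₂ + j₁ + (m - 1) * (q * i₁ + j₂)) * c ^ ((q - 1) * (q + 1)) ∈ 𝔪 := by
  have key := label_algebra_domain (K := R ⧸ 𝔪) (ζ := Ideal.Quotient.mk 𝔪 ζ) hm
    (by rw [← map_pow, hζ, map_one])
    (a := Ideal.Quotient.mk 𝔪 a) (b := Ideal.Quotient.mk 𝔪 b) (c := Ideal.Quotient.mk 𝔪 c)
    (fun h => hb (Ideal.Quotient.eq_zero_iff_mem.1 h))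
    (fun h => hc (Ideal.Quotient.eq_zero_iff_mem.1 h)) hq (i₁ := i₁) (i₂ := i₂) (j₁ := j₁)
    (j₂ := j₂)
    (by
      have := (Ideal.Quotient.eq (I := 𝔪)).2 hα
      simpa only [map_mul, map_pow] using this)
    (by
      have := (Ideal.Quotient.eq (I := 𝔪)).2 hβ
      simpa only [map_mul, map_pow] using this)
  constructor
  · apply (Ideal.Quotient.eq (I := 𝔪)).1
    simpa only [map_mul, map_pow] using key.1
  · apply (Ideal.Quotient.eq (I := 𝔪)).1
    simpa only [map_mul, map_pow] using key.2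

end ModPrime

section LabelAt

variable {R : Type*} [CommRing R] {F : Type*} [Field F] [Algebra R F]

/-- a purity datum of `u` gives a purity datum of `u ^ c` -/
theorem pure_pow {B : Subalgebra R F} {u d : F} {m : ℕ} {a₀ s₀ : B}
    (hpure : u * d ^ m * (s₀ : F) = a₀) (c : ℕ) :
    u ^ c * (d ^ c) ^ m * ((s₀ ^ c : B) : F) = ((a₀ ^ c : B) : F) := by
  push_cast
  rw [← hpure]
  ring

/-- **The label datum at a point on exactly one sheet.** -/
theorem labelAt_of_one {B : Subalgebra R F} {n : Ideal B} [n.IsPrime]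
    {𝒱 : Set (ValuationSubring F)} {m : ℕ} (hm : 0 < m) {ζ : R} (hζ : ζ ^ m = 1)
    (κ : ValuationSubring F → ℕ) {V₀ : ValuationSubring F}
    (hone : ∀ V ∈ 𝒱, PassThrough B n V → V = V₀)
    (hBV₀ : ChartLe B V₀) (hthV₀ : PassThrough B n V₀)
    {u d : F} {a₀ s₀ : B} (hs₀ : s₀ ∉ n) (hpure : u * d ^ m * (s₀ : F) = a₀)
    {η : R} (hη : algebraMap R B η ∉ n) (hval : ValAt B n V₀ d η) :
    LabelAt B n 𝒱 m u ζ κ := by
  have hd0 : d ≠ 0 := by
    rintro rfl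
    exact hval.not_nonunits hBV₀ hthV₀ hη (vnu_zero V₀)
  refine ⟨d, a₀, s₀, η * ζ ^ κ V₀, hd0, hs₀, hpure, ?_, ?_⟩
  · intro h
    apply hη
    have h1 : algebraMap R B η = algebraMap R B (η * ζ ^ κ V₀) * algebraMap R B (ζ ^ ((m - 1) * κ V₀)) := by
      rw [← map_mul, mul_assoc, ← pow_add]
      have : κ V₀ + (m - 1) * κ V₀ = m * κ V₀ := by
        have hm1 : m - 1 + 1 = m := Nat.sub_add_cancel hm
        calc κ V₀ + (m - 1) * κ V₀ = (m - 1 + 1) * κ V₀ := by ring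
          _ = m * κ V₀ := by rw [hm1]
      rw [this, pow_mul, hζ, one_pow, mul_one]
    rw [h1]
    exact n.mul_mem_right _ h
  · intro V hV hth
    rw [hone V hV hth]
    have h1 : η * ζ ^ κ V₀ * ζ ^ ((m - 1) * κ V₀) = η := by
      rw [mul_assoc, ← pow_add]
      have : κ V₀ + (m - 1) * κ V₀ = m * κ V₀ := by
        have hm1 : m - 1 + 1 = m := Nat.sub_add_cancel hm
        calc κ V₀ + (m - 1) * κ V₀ = (m - 1 + 1) * κ V₀ := by ring
          _ = m * κ V₀ := by rw [hm1]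
      rw [this, pow_mul, hζ, one_pow, mul_one]
    rw [h1]
    exact hval

/-- **The label datum at a triple point**, for `u ^ c`, `c = (q - 1) (q + 1)`:
from the values of a purity datum of `u` along the three sheets and the two label equations. -/
theorem labelAt_of_three {B : Subalgebra R F} {n : Ideal B} [n.IsPrime]
    (𝔪 : Ideal R) [𝔪.IsPrime] (h𝔪n : ∀ r ∈ 𝔪, algebraMap R B r ∈ n)
    {𝒱 : Set (ValuationSubring F)} {VFF Vmid VVV : ValuationSubring F}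
    (h𝒱 : ∀ V ∈ 𝒱, V = VFF ∨ V = Vmid ∨ V = VVV)
    (hBFF : ChartLe B VFF) (hthFF : PassThrough B n VFF)
    (hBmid : ChartLe B Vmid) (hthmid : PassThrough B n Vmid)
    (hBVV : ChartLe B VVV) (hthVV : PassThrough B n VVV)
    {m : ℕ} (hm : 0 < m) {ζ : R} (hζ : ζ ^ m = 1) {q : ℕ} (hq : 0 < q) {i₁ i₂ j₁ j₂ : ℕ}
    (κ : ValuationSubring F → ℕ)
    (hκFF : ζ ^ ((m - 1) * κ VFF) = ζ ^ ((q - 1) * (i₂ + j₂ + (m - 1) * (i₁ + j₁))))
    (hκmid : ζ ^ ((m - 1) * κ Vmid) = ζ ^ (q * i₂ + j₁ + (m - 1) * (q * i₁ + j₂)))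
    (hκVV : ζ ^ ((m - 1) * κ VVV) = 1)
    {u d : F} {a₀ s₀ : B} (hs₀ : s₀ ∉ n) (hpure : u * d ^ m * (s₀ : F) = a₀)
    {ηFF ηmid ηVV : R} (hηmid : ηmid ∉ 𝔪) (hηVV : ηVV ∉ 𝔪) (hηVVn : algebraMap R B ηVV ∉ n)
    (hFF : ValAt B n VFF d ηFF) (hmid : ValAt B n Vmid d ηmid) (hVV : ValAt B n VVV d ηVV)
    (hα : ζ ^ i₁ * (ηFF * ηmid ^ (q - 1)) - ζ ^ i₂ * ηVV ^ q ∈ 𝔪)
    (hβ : ζ ^ j₂ * (ηVV * ηmid ^ (q - 1)) - ζ ^ j₁ * ηFF ^ q ∈ 𝔪) :
    LabelAt B n 𝒱 m (u ^ ((q - 1) * (q + 1))) ζ κ := by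
  obtain ⟨hA, hB⟩ := label_algebra 𝔪 hm hζ hηmid hηVV hq hα hβ
  set c := (q - 1) * (q + 1) with hc
  have hd0 : d ≠ 0 := by
    rintro rfl
    exact hVV.not_nonunits hBVV hthVV hηVVn (vnu_zero VVV)
  refine ⟨d ^ c, a₀ ^ c, s₀ ^ c, ηVV ^ c, pow_ne_zero _ hd0, ?_, pure_pow hpure c, ?_, ?_⟩
  · exact fun h => hs₀ (Ideal.IsPrime.mem_of_pow_mem ‹n.IsPrime› c h)
  · intro h
    rw [map_pow] at h
    exact hηVVn (Ideal.IsPrime.mem_of_pow_mem ‹n.IsPrime› c h)
  · intro V hV _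
    rcases h𝒱 V hV with rfl | rfl | rfl
    · refine (hFF.pow hBFF hthFF c).congr_const ?_
      rw [hκFF]
      have : ηFF ^ c - ηVV ^ c * ζ ^ ((q - 1) * (i₂ + j₂ + (m - 1) * (i₁ + j₁)))
          = ηFF ^ c - ζ ^ ((q - 1) * (i₂ + j₂ + (m - 1) * (i₁ + j₁))) * ηVV ^ c := by ring
      rw [this]
      exact h𝔪n _ hA
    · refine (hmid.pow hBmid hthmid c).congr_const ?_
      rw [hκmid]
      have : ηmid ^ c - ηVV ^ c * ζ ^ (q * i₂ + j₁ + (m - 1) * (q * i₁ + j₂))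
          = ηmid ^ c - ζ ^ (q * i₂ + j₁ + (m - 1) * (q * i₁ + j₂)) * ηVV ^ c := by ring
      rw [this]
      exact h𝔪n _ hB
    · refine (hVV.pow hBVV hthVV c).congr_const ?_
      rw [hκVV, mul_one, sub_self, map_zero]
      exact n.zero_mem

end LabelAt

end Fermat.Agent.S36.H630

end
-- ===== PACK-END S36/H630/LabAlg.lean

-- ===== PACK-BEGIN S36/Mod3/Skel.lean
section


/-!
# S36 / MOD3 — skeleton (sub-architect helper928): the leaves give `Eng.Model3Statement`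

* `tripleCtx_of_parts` : the thirteen generic parts reassemble `Eng.TripleCtx` (Eng/Spec v1.3);
* `partReg_of_split`   : `PartInc + PartRegT + PartRegM ⟹ PartReg`;
* `model3_of_leaves`   : `LeafObj` + the thirteen leaves ⟹ `Eng.Model3Statement`;
* `model3_of_leaves'`  : the same with `LeafReg` replaced by `LeafRegT`, `LeafRegM`.

Sorry-free; the leaves are hypotheses.
-/

set_option autoImplicit false
set_option linter.style.haveILetI false
set_option linter.unusedSectionVars false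
set_option synthInstance.maxHeartbeats 400000
set_option maxHeartbeats 1600000

noncomputable section

namespace Fermat.Agent.S36.Mod3

open ModularCurve AlgebraicCurve
open Fermat.Agent.S18.H138 (chart)
open Fermat.Agent.S36.Eng

section Parts

variable {R E F F' : Type*} [CommRing R] [Field E] [Algebra R E]
  [Field F] [Algebra E F] [Algebra R F] [Field F'] [Algebra E F'] [Algebra R F']

/-- REG from its two halves and INCIDENCE. -/
theorem partReg_of_split {w : R} {x : F} {V₁ V₂ V₃ : ValuationSubring F}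
    (hInc : PartInc w x V₁ V₂ V₃) (hT : PartRegT R x V₁ V₂ V₃) (hM : PartRegM R x V₁ V₂ V₃) :
    PartReg R x V₁ V₂ V₃ where
  regular_f := by
    intro 𝔪 hmax h2
    by_cases h1 : Through (chart R ({x} : Set F)) 𝔪 V₁
    · have ht := hInc.incidence 𝔪 hmax (Or.inl ⟨h1, h2⟩)
      rcases hT.regular_t 𝔪 hmax ht with h | h
      · exact Or.inl ⟨h1, h⟩
      · exact Or.inr (Or.inr ⟨ht.2.2, h⟩)
    · by_cases h3 : Through (chart R ({x} : Set F)) 𝔪 V₃
      · have ht := hInc.incidence 𝔪 hmax (Or.inr (Or.inr ⟨h2, h3⟩))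
        exact absurd ht.1 h1
      · exact Or.inr (Or.inl (hM.regular_m 𝔪 hmax h2 h1 h3))
  regular_i := hM.regular_i

/-- The thirteen parts reassemble the three-component context. -/
theorem tripleCtx_of_parts {w : R} {q : ℕ} {α β : F' →ₐ[E] F} {x : F} {x' : F'}
    {V₁ V₂ V₃ : ValuationSubring F} {V₁' V₂' : ValuationSubring F'}
    (hFF : PartFF E x) (hVal : PartVal w q x V₁ V₂ V₃) (hSh : PartSheet w x V₁ V₂ V₃)
    (hQep : PartQep w x V₁ V₂ V₃)
    (hNor : PartNormal R x V₁ V₂ V₃) (hInc : PartInc w x V₁ V₂ V₃)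
    (hReg : PartReg R x V₁ V₂ V₃) (hFin : PartFin E α β)
    (hTab : PartTable α β V₁ V₂ V₃ V₁' V₂')
    (hNV : PartNV w q α β V₁ V₂ V₃ V₁' V₂') (hNR : PartNR q α β V₁ V₂ V₃ V₁' V₂')
    (hCh : PartChart R α β x x' V₁ V₂ V₃) (hUn : PartUniq R α β x x' V₁ V₂ V₃) :
    TripleCtx w q α β x x' V₁ V₂ V₃ V₁' V₂' where
  hx := hFF.hx
  hfin := hFF.hfin
  hconst := hFF.hconst
  dvr₁ := hVal.dvr₁
  dvr₂ := hVal.dvr₂
  dvr₃ := hVal.dvr₃
  ne₁₂ := hVal.ne₁₂
  ne₁₃ := hVal.ne₁₃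
  ne₂₃ := hVal.ne₂₃
  unif₁ := hVal.unif₁
  unif₃ := hVal.unif₃
  ram₂ := hVal.ram₂
  base₁ := hSh.base₁
  base₂ := hSh.base₂
  base₃ := hSh.base₃
  x_unit₁ := hVal.x_unit₁
  x_unit₂ := hVal.x_unit₂
  x_unit₃ := hVal.x_unit₃
  gauss₁ := hSh.gauss₁
  gauss₂ := hSh.gauss₂
  gauss₃ := hSh.gauss₃
  qep_f := hQep.qep_f
  qep_i := hQep.qep_i
  normal_f₁ := hNor.normal_f₁
  normal_f₂ := hNor.normal_f₂
  normal_f₃ := hNor.normal_f₃
  normal_i₁ := hNor.normal_i₁
  normal_i₂ := hNor.normal_i₂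
  normal_i₃ := hNor.normal_i₃
  incidence := hInc.incidence
  regular_f := hReg.regular_f
  cusp_single := hInc.cusp_single
  regular_i := hReg.regular_i
  fin_α := hFin.fin_α
  fin_β := hFin.fin_β
  comap_α₁ := hTab.comap_α₁
  comap_α₂ := hTab.comap_α₂
  comap_α₃ := hTab.comap_α₃
  comap_β₁ := hTab.comap_β₁
  comap_β₂ := hTab.comap_β₂
  comap_β₃ := hTab.comap_β₃
  nv_α := hNV.nv_α
  nv_β := hNV.nv_β
  nr_α₁ := hNR.nr_α₁
  nr_α₂ := hNR.nr_α₂
  nr_β₁ := hNR.nr_β₁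
  nr_β₂ := hNR.nr_β₂
  chart_α := hCh.chart_α
  chart_β := hCh.chart_β
  int_α := hCh.int_α
  int_β := hCh.int_β
  res_α₁ := hCh.res_α₁
  res_α₂ := hCh.res_α₂
  res_β₃ := hCh.res_β₃
  res_β₂ := hCh.res_β₂
  unique_α := hUn.unique_α hCh.chart_α
  unique_β := hUn.unique_β hCh.chart_β

end Parts

/-- **MOD3 skeleton.**  The fourteen leaves give `Eng.Model3Statement`. -/
theorem model3_of_leaves (hObj : LeafObj) (hFF : LeafFF) (hVal : LeafVal) (hSh : LeafSheet)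
    (hQep : LeafQep) (hNor : LeafNormal) (hInc : LeafInc) (hReg : LeafReg) (hFin : LeafFin)
    (hTab : LeafTable) (hNV : LeafNV) (hNR : LeafNR) (hCh : LeafChart) (hUn : LeafUniq) :
    Model3Statement := by
  intro P E M q _ _ _ hq hqM hP hE hneat w hw
  have hS : Std P E M q w :=
    { q_prime := hq, q_not_dvd := hqM, lies_over := hP, unram := hE, neat := hneat, unif := hw }
  obtain ⟨V₁', V₂', V₁, V₂, V₃, W', W, hO⟩ := hObj P E M q w hS
  exact ⟨x3E E M q, A2.Mod.xE E M q, V₁, V₂, V₃, V₁', V₂',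
    tripleCtx_of_parts (hFF E M q hq hqM)
      (hVal P E M q w hS V₁' V₂' V₁ V₂ V₃ W' W hO)
      (hSh P E M q w hS V₁' V₂' V₁ V₂ V₃ W' W hO)
      (hQep P E M q w hS V₁' V₂' V₁ V₂ V₃ W' W hO)
      (hNor P E M q w hS V₁' V₂' V₁ V₂ V₃ W' W hO)
      (hInc P E M q w hS V₁' V₂' V₁ V₂ V₃ W' W hO)
      (hReg P E M q w hS V₁' V₂' V₁ V₂ V₃ W' W hO)
      (hFin E M q hq hqM)
      (hTab P E M q w hS V₁' V₂' V₁ V₂ V₃ W' W hO)
      (hNV P E M q w hS V₁' V₂' V₁ V₂ V₃ W' W hO)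
      (hNR P E M q w hS V₁' V₂' V₁ V₂ V₃ W' W hO)
      (hCh P E M q w hS V₁' V₂' V₁ V₂ V₃ W' W hO)
      (hUn P E M q w hS V₁' V₂' V₁ V₂ V₃ W' W hO)⟩

/-- `LeafReg` from its two halves and `LeafInc`. -/
theorem leafReg_of_split (hInc : LeafInc) (hT : LeafRegT) (hM : LeafRegM) : LeafReg :=
  fun P E M q _ _ _ w hS V₁' V₂' V₁ V₂ V₃ W' W hO =>
    partReg_of_split (hInc P E M q w hS V₁' V₂' V₁ V₂ V₃ W' W hO)
      (hT P E M q w hS V₁' V₂' V₁ V₂ V₃ W' W hO) (hM P E M q w hS V₁' V₂' V₁ V₂ V₃ W' W hO)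

/-- **MOD3 skeleton**, with REG split into REG-T and REG-M. -/
theorem model3_of_leaves' (hObj : LeafObj) (hFF : LeafFF) (hVal : LeafVal) (hSh : LeafSheet)
    (hQep : LeafQep) (hNor : LeafNormal) (hInc : LeafInc) (hRT : LeafRegT) (hRM : LeafRegM)
    (hFin : LeafFin) (hTab : LeafTable) (hNV : LeafNV) (hNR : LeafNR) (hCh : LeafChart)
    (hUn : LeafUniq) : Model3Statement :=
  model3_of_leaves hObj hFF hVal hSh hQep hNor hInc (leafReg_of_split hInc hRT hRM) hFin hTab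
    hNV hNR hCh hUn

end Fermat.Agent.S36.Mod3

end

end
-- ===== PACK-END S36/Mod3/Skel.lean

-- ===== PACK-BEGIN S36/Mod3/H928/RegSkel.lean
section


/-!
# S36 / MOD3 — the last leaf REG: final targets and glue (helper928, integrator)

`Mod3.LeafReg` is cut into the three end products of the REG swarm (LEAFREG PLAN v2, route R4:
the MIDDLE disjunct of `regular_f` at every closed point of the middle component):

* `LeafRegF4` : `4 ∣ M`, `q ≠ 2`  ⟹ `PrincipalAt (chart R {x}) 𝔪 V₂` for all maximal `𝔪` with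
                `Through 𝔪 V₂`   (Hauptmodul `t₄`);
* `LeafRegF9` : `9 ∣ M`, `q = 2`  ⟹ the same   (Hauptmodul `t₉`);
* `LeafRegI928` : the field `regular_i` VERBATIM (cusps of the middle component).

`leafReg_of_f4_f9_i : LeafRegF4 → LeafRegF9 → LeafRegI928 → Mod3.LeafReg`
(`Std.neat : NeatFor M q` gives `q ≠ 2 → 4 ∣ M` and `q = 2 → 9 ∣ M`).
-/

set_option autoImplicit false

noncomputable section

namespace Fermat.Agent.S36.Mod3.H928

open Fermat.Agent.S18.H138 (chart)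
open Fermat.Agent.S36.Eng Fermat.Agent.S36.Mod3

/-- The middle disjunct of `regular_f` at every closed point of the middle component. -/
def LeafRegF : Prop :=
  Leaf fun P E M q _ _ _ _ _ _ _ V₂ _ =>
    ∀ 𝔪 : Ideal (chart (A2.RE P E) ({x3E E M q} : Set (A2.Mod.FE E (M * q * q)))),
      𝔪.IsMaximal → Through _ 𝔪 V₂ → PrincipalAt _ 𝔪 V₂

/-- `LeafRegF` for `q` odd (`4 ∣ M`). -/
def LeafRegF4 : Prop :=
  Leaf fun P E M q _ _ _ _ _ _ _ V₂ _ => 4 ∣ M → q ≠ 2 →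
    ∀ 𝔪 : Ideal (chart (A2.RE P E) ({x3E E M q} : Set (A2.Mod.FE E (M * q * q)))),
      𝔪.IsMaximal → Through _ 𝔪 V₂ → PrincipalAt _ 𝔪 V₂

/-- `LeafRegF` for `q = 2` (`9 ∣ M`). -/
def LeafRegF9 : Prop :=
  Leaf fun P E M q _ _ _ _ _ _ _ V₂ _ => 9 ∣ M → q = 2 →
    ∀ 𝔪 : Ideal (chart (A2.RE P E) ({x3E E M q} : Set (A2.Mod.FE E (M * q * q)))),
      𝔪.IsMaximal → Through _ 𝔪 V₂ → PrincipalAt _ 𝔪 V₂

/-- The field `regular_i` of `PartReg` at the concrete objects, VERBATIM. -/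
def LeafRegI928 : Prop :=
  Leaf fun P E M q _ _ _ _ _ _ _ V₂ _ =>
    ∀ 𝔪 : Ideal (chart (A2.RE P E) ({(x3E E M q)⁻¹} : Set (A2.Mod.FE E (M * q * q)))),
      𝔪.IsMaximal →
      (⟨(x3E E M q)⁻¹, Fermat.Agent.S18.H138.mem_chart_of_mem rfl⟩ :
        chart (A2.RE P E) ({(x3E E M q)⁻¹} : Set (A2.Mod.FE E (M * q * q)))) ∈ 𝔪 →
      Through _ 𝔪 V₂ → PrincipalAt _ 𝔪 V₂

theorem leafRegF_of_f4_f9 (h4 : LeafRegF4) (h9 : LeafRegF9) : LeafRegF := by
  intro P E M q _ _ _ w hStd V₁' V₂' V₁ V₂ V₃ W' W hO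
  by_cases hq : q = 2
  · exact h9 P E M q w hStd V₁' V₂' V₁ V₂ V₃ W' W hO (hStd.neat.2.2 hq) hq
  · exact h4 P E M q w hStd V₁' V₂' V₁ V₂ V₃ W' W hO (hStd.neat.2.1 hq) hq

/-- **REG** from its middle disjunct and `regular_i`. -/
theorem leafReg_of_mid_i (hF : LeafRegF) (hI : LeafRegI928) : LeafReg := by
  intro P E M q _ _ _ w hStd V₁' V₂' V₁ V₂ V₃ W' W hO
  exact
    { regular_f := fun 𝔪 h𝔪 ht =>
        Or.inr (Or.inl (hF P E M q w hStd V₁' V₂' V₁ V₂ V₃ W' W hO 𝔪 h𝔪 ht))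
      regular_i := hI P E M q w hStd V₁' V₂' V₁ V₂ V₃ W' W hO }

/-- **REG** from the three end products of the REG swarm. -/
theorem leafReg_of_f4_f9_i (h4 : LeafRegF4) (h9 : LeafRegF9) (hI : LeafRegI928) : LeafReg :=
  leafReg_of_mid_i (leafRegF_of_f4_f9 h4 h9) hI

end Fermat.Agent.S36.Mod3.H928

end

end
-- ===== PACK-END S36/Mod3/H928/RegSkel.lean

-- ===== PACK-BEGIN S59/H96/EigenChar.lean
section






/-!
# Row S59, piece T1/E1 (helper96): integral characters of the anemic Hecke algebra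

An integral character `χ : heckeAlgebra N 2 S →+* ℤ` of the weight-2 Hecke algebra of level `N`
away from `S` is the eigencharacter of a normalised eigenform of level `N`
(`exists_eigenform_of_char`), and after `p`-stabilisation of a normalised eigenform of level
`N * p`, `p ∤ N` (`exists_stabilized`).

`eigenformOfChar` is verbatim the body of `Fermat.Agent.S59.H239.EigenformOfCharStatement`
(architecture `coord/S59-arch-helper239.md`, piece T1/E1).

Ingredients (all on main): S22 (the Hecke algebra is a finite `ℤ`-module), the eigenvector lemma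
of S49, `Lib/Newform/H863` (normalised eigenform from an eigenvector; degeneracy maps),
`Lib/Newform/H683` (Hecke relations of a normalised eigenform).
-/

set_option autoImplicit false

open CuspForm CongruenceSubgroup ModularFormClass Polynomial

namespace Fermat.Agent.S59.H96

/-! ### Commutative algebra: the eigencharacter is `χ` -/

/-- If `B` is integral over `ℤ`, `χ : B → ℤ` and `χ' : B → ℂ` are characters with
`ker χ' ≤ ker χ`, then `χ'` vanishes on `ker χ`. -/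
theorem eq_zero_of_ker_le {B : Type*} [CommRing B] [Algebra.IsIntegral ℤ B]
    (χ : B →+* ℤ) (χ' : B →+* ℂ) (hker : RingHom.ker χ' ≤ RingHom.ker χ)
    {c : B} (hc : χ c = 0) : χ' c = 0 := by
  by_contra hx
  obtain ⟨P, hPmonic, hP⟩ := Algebra.IsIntegral.isIntegral (R := ℤ) c
  have hP0 : P ≠ 0 := hPmonic.ne_zero
  obtain ⟨Q, hPQ, hQ⟩ := Polynomial.exists_eq_pow_rootMultiplicity_mul_and_not_dvd P hP0 0
  rw [map_zero, sub_zero] at hPQ hQ
  have hQ0 : Q.eval 0 ≠ 0 := by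
    intro h0
    apply hQ
    have : (X - C (0 : ℤ)) ∣ Q := Polynomial.dvd_iff_isRoot.mpr h0
    simpa using this
  -- apply `χ'`
  have e1 : ∀ R : ℤ[X], χ' (eval₂ (algebraMap ℤ B) c R) = eval₂ (Int.castRingHom ℂ) (χ' c) R := by
    intro R
    rw [Polynomial.hom_eval₂]
    congr 1
    exact RingHom.ext_int _ _
  have e2 : ∀ R : ℤ[X], χ (eval₂ (algebraMap ℤ B) c R) = eval₂ (RingHom.id ℤ) (χ c) R := by
    intro R
    rw [Polynomial.hom_eval₂]
    congr 1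
    exact RingHom.ext_int _ _
  have h1 := e1 P
  rw [hP, map_zero, hPQ, eval₂_mul, eval₂_pow, eval₂_X] at h1
  have h2 : eval₂ (Int.castRingHom ℂ) (χ' c) Q = 0 := by
    rcases mul_eq_zero.mp h1.symm with h | h
    · exact absurd h (pow_ne_zero _ hx)
    · exact h
  have h3 : eval₂ (algebraMap ℤ B) c Q ∈ RingHom.ker χ := by
    apply hker
    rw [RingHom.mem_ker, e1 Q, h2]
  rw [RingHom.mem_ker, e2 Q, hc, Polynomial.eval₂_id] at h3
  exact hQ0 h3

/-- If `B` is integral over `ℤ`, a character `χ' : B → ℂ` with `ker χ' ≤ ker χ` for an integral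
character `χ : B → ℤ` is equal to `χ`. -/
theorem char_eq_of_ker_le {B : Type*} [CommRing B] [Algebra.IsIntegral ℤ B]
    (χ : B →+* ℤ) (χ' : B →+* ℂ) (hker : RingHom.ker χ' ≤ RingHom.ker χ) (b : B) :
    χ' b = ((χ b : ℤ) : ℂ) := by
  have h := eq_zero_of_ker_le χ χ' hker (c := b - ((χ b : ℤ) : B)) (by simp)
  rw [map_sub, map_intCast, sub_eq_zero] at h
  exact h

/-! ### The eigenvector and the eigenform of level `N` -/

/-- An integral character of the Hecke algebra away from `S` has a nonzero eigenvector. -/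
theorem exists_eigenvector_of_char (N : ℕ) [NeZero N] (S : Set ℕ)
    (χ : heckeAlgebra N 2 S →+* ℤ) :
    ∃ h : CuspForm (Gamma0 N) 2, h ≠ 0 ∧
      ∀ t : heckeAlgebra N 2 S,
        (t : Module.End ℂ (CuspForm (Gamma0 N) 2)) h = ((χ t : ℤ) : ℂ) • h := by
  have := Fermat.Agent.Lib.Newform.H863.finiteDimensional_cuspForm N
  have : Module.Finite ℤ (heckeAlgebra N 2 S) := Fermat.Agent.S22.result N 2 S
  have : Algebra.IsIntegral ℤ (heckeAlgebra N 2 S) := inferInstance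
  have : (RingHom.ker χ).IsPrime := RingHom.ker_isPrime χ
  obtain ⟨g, χ', hg, hχ', hker⟩ := Fermat.Agent.S49.exists_eigenvector_ker_le
    (K := ℂ) (V := CuspForm (Gamma0 N) 2)
    ((heckeAlgebra N 2 S).val.toRingHom) Subtype.val_injective (RingHom.ker χ)
  refine ⟨g, hg, fun t => ?_⟩
  rw [← char_eq_of_ker_le χ χ' hker t]
  exact hχ' t

/-- An integral character of the Hecke algebra away from `S` is the eigencharacter of a
normalised eigenform of the same level. -/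
theorem exists_eigenform_of_char (N : ℕ) [NeZero N] (S : Set ℕ)
    (χ : heckeAlgebra N 2 S →+* ℤ) :
    ∃ f : CuspForm (Gamma0 N) 2, f.IsNormalizedEigenform ∧
      ∀ (ℓ : ℕ) (hℓ : ℓ.Prime) (hℓN : ¬ ℓ ∣ N) (hℓS : ℓ ∉ S),
        qCoeff f ℓ = ((χ (heckeAlgebra.T hℓ hℓN hℓS) : ℤ) : ℂ) := by
  classical
  obtain ⟨h, hh, heig⟩ := exists_eigenvector_of_char N S χ
  let lam : ℕ → ℂ := fun ℓ =>
    if hc : ℓ.Prime ∧ ¬ ℓ ∣ N ∧ ℓ ∉ S then
      ((χ (heckeAlgebra.T hc.1 hc.2.1 hc.2.2) : ℤ) : ℂ) else 0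
  have hlam : ∀ (ℓ : ℕ) (hℓ : ℓ.Prime) (hℓN : ¬ ℓ ∣ N) (hℓS : ℓ ∉ S),
      lam ℓ = ((χ (heckeAlgebra.T hℓ hℓN hℓS) : ℤ) : ℂ) := by
    intro ℓ hℓ hℓN hℓS
    simp only [lam, dif_pos (⟨hℓ, hℓN, hℓS⟩ : ℓ.Prime ∧ ¬ ℓ ∣ N ∧ ℓ ∉ S)]
  obtain ⟨f, hf, hfl⟩ := Fermat.Agent.Lib.Newform.H863.exists_normalizedEigenform_of_eigenvector
    S lam h hh (fun ℓ hℓ hℓN hℓS => by
      have h1 := heig (heckeAlgebra.T hℓ hℓN hℓS)
      rw [heckeAlgebra.coe_T] at h1
      rw [h1, hlam ℓ hℓ hℓN hℓS])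
  refine ⟨f, hf, fun ℓ hℓ hℓN hℓS => ?_⟩
  rw [hfl ℓ hℓ hℓN hℓS, hlam ℓ hℓ hℓN hℓS]

/-! ### Formal `p`-stabilisation -/

/-- `IsEigensystem e a` only depends on the values of `e` at the primes. -/
theorem isEigensystem_congr {R : Type*} [CommRing R] {e e' a : ℕ → R}
    (h : FormalHecke.IsEigensystem e a) (he : ∀ ℓ : ℕ, ℓ.Prime → e ℓ = e' ℓ) :
    FormalHecke.IsEigensystem e' a :=
  ⟨h.1, fun ℓ hℓ n => by rw [← he ℓ hℓ]; exact h.2 ℓ hℓ n⟩

/-- Formal `p`-stabilisation: if `a` is a Hecke eigensystem and `β` is a root of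
`X² - a_p X + e_p`, then `c_n = a_n - β a_{n/p}` is a Hecke eigensystem with `e_p` replaced
by `0`. -/
theorem formal_stabilize {R : Type*} [CommRing R] {e a : ℕ → R}
    (h : FormalHecke.IsEigensystem e a) {p : ℕ} (hp : p.Prime) (β : R)
    (hβ : β ^ 2 - a p * β + e p = 0) :
    FormalHecke.IsEigensystem (fun ℓ => if ℓ = p then 0 else e ℓ)
      (fun n => a n - β * (if p ∣ n then a (n / p) else 0)) := by
  obtain ⟨h1, hrel⟩ := h
  have hp1 : ¬ p ∣ 1 := fun hd => hp.one_lt.ne' (Nat.dvd_one.mp hd)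
  refine ⟨?_, ?_⟩
  · simp only [if_neg hp1, mul_zero, sub_zero]
    exact h1
  · intro ℓ hℓ n
    by_cases hℓp : ℓ = p
    · subst hℓp
      have r := hrel ℓ hℓ n
      simp only [if_true, zero_mul, add_zero, if_pos (dvd_mul_right ℓ n), if_pos (dvd_refl ℓ),
        Nat.mul_div_cancel_left n hℓ.pos, Nat.div_self hℓ.pos, h1]
      by_cases hpn : ℓ ∣ n
      · rw [if_pos hpn] at r ⊢
        linear_combination r - a (n / ℓ) * hβ
      · rw [if_neg hpn] at r ⊢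
        linear_combination r
    · have hpl : ¬ p ∣ ℓ := fun hd => hℓp ((Nat.prime_dvd_prime_iff_eq hp hℓ).mp hd).symm
      have hlp : ¬ ℓ ∣ p := fun hd => hℓp ((Nat.prime_dvd_prime_iff_eq hℓ hp).mp hd)
      simp only [if_neg hℓp, if_neg hpl, mul_zero, sub_zero]
      by_cases hpn : p ∣ n
      · obtain ⟨m, rfl⟩ := hpn
        have hd1 : p ∣ ℓ * (p * m) := Dvd.dvd.mul_left (dvd_mul_right p m) ℓ
        have e1 : ℓ * (p * m) / p = ℓ * m := by
          rw [show ℓ * (p * m) = p * (ℓ * m) by ring, Nat.mul_div_cancel_left _ hp.pos]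
        rw [if_pos hd1, e1, if_pos (dvd_mul_right p m), Nat.mul_div_cancel_left _ hp.pos]
        have rn := hrel ℓ hℓ (p * m)
        have rm := hrel ℓ hℓ m
        by_cases hℓm : ℓ ∣ m
        · obtain ⟨j, rfl⟩ := hℓm
          have hd2 : ℓ ∣ p * (ℓ * j) := Dvd.dvd.mul_left (dvd_mul_right ℓ j) p
          have e2 : p * (ℓ * j) / ℓ = p * j := by
            rw [show p * (ℓ * j) = ℓ * (p * j) by ring, Nat.mul_div_cancel_left _ hℓ.pos]
          rw [if_pos hd2, e2] at rn ⊢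
          rw [if_pos (dvd_mul_right ℓ j), Nat.mul_div_cancel_left _ hℓ.pos] at rm
          rw [if_pos (dvd_mul_right p j), Nat.mul_div_cancel_left _ hp.pos]
          linear_combination rn - β * rm
        · have hd2 : ¬ ℓ ∣ p * m := fun hd =>
            (hℓ.dvd_mul.mp hd).elim hlp hℓm
          rw [if_neg hd2] at rn ⊢
          rw [if_neg hℓm] at rm
          linear_combination rn - β * rm
      · have hd1 : ¬ p ∣ ℓ * n := fun hd => (hp.dvd_mul.mp hd).elim hpl hpn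
        simp only [if_neg hd1, if_neg hpn, mul_zero, sub_zero]
        have r := hrel ℓ hℓ n
        by_cases hℓn : ℓ ∣ n
        · have hd2 : ¬ p ∣ n / ℓ := fun hd => hpn (hd.trans (Nat.div_dvd_of_dvd hℓn))
          rw [if_pos hℓn] at r ⊢
          rw [if_neg hd2, mul_zero, sub_zero]
          exact r
        · rw [if_neg hℓn] at r ⊢
          exact r

/-- The Hecke relations of a normalised eigenform, in the form of `FormalHecke.IsEigensystem`. -/
theorem isEigensystem_of_isNormalizedEigenform {N : ℕ} {f : CuspForm (Gamma0 N) 2}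
    (hf : f.IsNormalizedEigenform) :
    FormalHecke.IsEigensystem (fun ℓ : ℕ => if ℓ ∣ N then (0 : ℂ) else (ℓ : ℂ))
      (fun n => qCoeff f n) := by
  refine ⟨hf.qCoeff_one, fun ℓ hℓ n => ?_⟩
  by_cases hℓN : ℓ ∣ N
  · have h := Fermat.Agent.Lib.Newform.H683.coeff_mul_prime_of_dvd hf hℓ hℓN n
    simp only [if_pos hℓN, zero_mul, add_zero]
    rw [mul_comm ℓ n]
    exact h
  · have h := Fermat.Agent.Lib.Newform.H683.coeff_mul_prime_of_not_dvd hf hℓ hℓN n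
    simp only [if_neg hℓN]
    rw [mul_comm ℓ n, ← h]
    split_ifs <;> simp

/-- **`p`-stabilisation.** A normalised eigenform `f` of level `N` and a prime `p ∤ N` give a
normalised eigenform of level `N * p` with the same coefficients at all primes `ℓ ≠ p`. -/
theorem exists_stabilized {N : ℕ} {f : CuspForm (Gamma0 N) 2} (hf : f.IsNormalizedEigenform)
    {p : ℕ} (hp : p.Prime) (hpN : ¬ p ∣ N) :
    ∃ g : CuspForm (Gamma0 (N * p)) 2, g.IsNormalizedEigenform ∧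
      ∀ ℓ : ℕ, ℓ.Prime → ℓ ≠ p → qCoeff g ℓ = qCoeff f ℓ := by
  classical
  have : NeZero p := ⟨hp.ne_zero⟩
  -- a root `β` of `X² - a_p X + p`
  obtain ⟨β, hβ⟩ : ∃ β : ℂ, β ^ 2 - qCoeff f p * β + (p : ℂ) = 0 := by
    obtain ⟨x, hx⟩ := exists_quadratic_eq_zero (a := (1 : ℂ)) (b := - qCoeff f p) (c := (p : ℂ))
      one_ne_zero (IsAlgClosed.exists_eq_mul_self _)
    exact ⟨x, by linear_combination hx⟩
  let g : CuspForm (Gamma0 (N * p)) 2 :=
    Fermat.Agent.Lib.Newform.H863.levelIncl (Dvd.intro p rfl) f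
      - β • Fermat.Agent.Lib.Newform.H863.degen p f
  have hgn : ∀ n, qCoeff g n = qCoeff f n - β * (if p ∣ n then qCoeff f (n / p) else 0) := by
    intro n
    simp only [g]
    rw [Fermat.Agent.S49.glue_qCoeff_sub, Fermat.Agent.S49.glue_qCoeff_smul,
      Fermat.Agent.Lib.Newform.H863.qCoeff_levelIncl, Fermat.Agent.Lib.Newform.H863.qCoeff_degen]
  have hst := formal_stabilize (isEigensystem_of_isNormalizedEigenform hf) hp β
    (by simp only [if_neg hpN]; exact hβ)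
  refine ⟨g, ?_, ?_⟩
  · apply Fermat.Agent.S49.isNormalizedEigenform_of_isEigensystem
    have hfun : (fun n => qCoeff g n) =
        (fun n => qCoeff f n - β * (if p ∣ n then qCoeff f (n / p) else 0)) := funext hgn
    rw [hfun]
    refine isEigensystem_congr hst (fun ℓ hℓ => ?_)
    by_cases hℓp : ℓ = p
    · subst hℓp
      simp only [if_true, if_pos (dvd_mul_left ℓ N)]
    · simp only [if_neg hℓp]
      by_cases hℓN : ℓ ∣ N
      · rw [if_pos hℓN, if_pos (hℓN.mul_right p)]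
      · have hd : ¬ ℓ ∣ N * p := fun hd =>
          (hℓ.dvd_mul.mp hd).elim hℓN (fun h => hℓp ((Nat.prime_dvd_prime_iff_eq hℓ hp).mp h))
        rw [if_neg hℓN, if_neg hd]
  · intro ℓ hℓ hℓp
    have hpl : ¬ p ∣ ℓ := fun hd => hℓp ((Nat.prime_dvd_prime_iff_eq hp hℓ).mp hd).symm
    rw [hgn, if_neg hpl, mul_zero, sub_zero]

/-! ### The statement E1 -/

/-- **T1/E1** (verbatim the body of `Fermat.Agent.S59.H239.EigenformOfCharStatement`): an
integral character of the anemic Hecke algebra of level `N` away from `S ⊆ {p} ∪ primes(N)` with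
values `a_ℓ(W)` shows that `W` is modular of level `N` (if `p ∣ N`) or `N * p`. -/
theorem eigenformOfChar :
    ∀ (W : WeierstrassCurve ℤ) (N : ℕ) [NeZero N] (S : Finset ℕ) (p : ℕ), p.Prime →
      (∀ ℓ ∈ S, ℓ.Prime) → (∀ ℓ ∈ S, ℓ = p ∨ ℓ ∣ N) →
      (χ : CuspForm.heckeAlgebra N 2 (↑S : Set ℕ) →+* ℤ) →
      (∀ (ℓ : ℕ) (hℓ : ℓ.Prime) (hℓN : ¬ ℓ ∣ N) (hℓS : ℓ ∉ (↑S : Set ℕ)),
        χ (CuspForm.heckeAlgebra.T hℓ hℓN hℓS) = W.apOfModel ℓ) →
      W.IsModularModelOfLevel (if p ∣ N then N else N * p) := by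
  intro W N _ S p hp _ hSN χ hχ
  obtain ⟨f, hf, hfl⟩ := exists_eigenform_of_char N (↑S : Set ℕ) χ
  have hnotS : ∀ ℓ : ℕ, ℓ ≠ p → ¬ ℓ ∣ N → ℓ ∉ (↑S : Set ℕ) := by
    intro ℓ hℓp hℓN hℓS
    rcases hSN ℓ (Finset.mem_coe.mp hℓS) with h | h
    · exact hℓp h
    · exact hℓN h
  by_cases hpN : p ∣ N
  · rw [if_pos hpN]
    refine ⟨f, hf, fun ℓ hℓ _ hℓN => ?_⟩
    have hℓp : ℓ ≠ p := fun h => hℓN (h ▸ hpN)
    rw [hfl ℓ hℓ hℓN (hnotS ℓ hℓp hℓN), hχ ℓ hℓ hℓN (hnotS ℓ hℓp hℓN)]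
  · rw [if_neg hpN]
    obtain ⟨g, hg, hgl⟩ := exists_stabilized hf hp hpN
    refine ⟨g, hg, fun ℓ hℓ _ hℓNp => ?_⟩
    have hℓp : ℓ ≠ p := fun h => hℓNp (h ▸ dvd_mul_left ℓ N)
    have hℓN : ¬ ℓ ∣ N := fun h => hℓNp (h.mul_right p)
    rw [hgl ℓ hℓ hℓp, hfl ℓ hℓ hℓN (hnotS ℓ hℓp hℓN), hχ ℓ hℓ hℓN (hnotS ℓ hℓp hℓN)]

end Fermat.Agent.S59.H96

end
-- ===== PACK-END S59/H96/EigenChar.lean

-- ===== PACK-BEGIN S59/H424/NEPrimeK.lean
section




/-!
# S59 / cell NM / leaf IHARA2 — NE' for `(k, ρ̄)` (helper424)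

`nePrimeK_h424` : the statement `Fermat.Agent.S59.H62.NEPrimeKStatement` of helper62's plan
(`coord/S59-IHARA2-helper62.md`), stated UNFOLDED (same binders), unconditional:

`ρ̄ : G_ℚ → GL₂(k)` absolutely irreducible, `k` a field of odd characteristic `p`, `a l` the
Frobenius traces of `ρ̄` off `S`, `q` a prime.  Then for every `m ≥ 1` and every finite set `S'`
there is a prime `l ∉ S ∪ S'`, `l ≡ 1 mod m`, `l ≡ 1 mod p`, with `a l ≠ l + 1` in `k` and
`q ^ ((l - 1) / p) ≢ 1 mod l`.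

Proof: the S41 block NE' of helper701 (`S41/H701/NonEisensteinKummer.lean`) with `E[p]` replaced
by `ρ̄`: Frobenius division (`Lib.Cheb.frobeniusDivision`) on `ℚ(L_ρ̄, ζ_{mp}, β)`, `β^p = q`,
Cayley–Hamilton for the Frobenius relation, the `2 × 2` trace trick and the abstract stable line
lemma.
-/

set_option autoImplicit false

open Polynomial Module
open scoped TensorProduct

namespace Fermat.Agent.S59.H424

open Fermat.Agent.Lib.Frob (Qb)
open Fermat.Agent.S41.H701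
open Fermat.Agent.S55.H414 (cycloPow zetaBar zetaBar_spec)

section Field

/-- the field `L(ζ_M, β)` -/
noncomputable def neField_h424 (L : IntermediateField ℚ Qb) (M : ℕ) [NeZero M] (β : Qb) :
    IntermediateField ℚ Qb :=
  L ⊔ IntermediateField.adjoin ℚ ({zetaBar M, β} : Set Qb)

lemma le_neField_h424 (L : IntermediateField ℚ Qb) (M : ℕ) [NeZero M] (β : Qb) :
    L ≤ neField_h424 L M β := le_sup_left

lemma zeta_mem_neField_h424 (L : IntermediateField ℚ Qb) (M : ℕ) [NeZero M] (β : Qb) :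
    zetaBar M ∈ neField_h424 L M β :=
  (le_sup_right : _ ≤ neField_h424 L M β)
    (IntermediateField.subset_adjoin _ _ (Set.mem_insert _ _))

lemma beta_mem_neField_h424 (L : IntermediateField ℚ Qb) (M : ℕ) [NeZero M] (β : Qb) :
    β ∈ neField_h424 L M β :=
  (le_sup_right : _ ≤ neField_h424 L M β)
    (IntermediateField.subset_adjoin _ _ (Set.mem_insert_of_mem _ rfl))

lemma finiteDimensional_neField_h424 (L : IntermediateField ℚ Qb) (hL : FiniteDimensional ℚ L)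
    (M : ℕ) [NeZero M] (β : Qb) : FiniteDimensional ℚ (neField_h424 L M β) := by
  have hS : ({zetaBar M, β} : Set Qb).Finite := Set.toFinite _
  have : Finite ({zetaBar M, β} : Set Qb) := hS.to_subtype
  have : Algebra.IsAlgebraic ℚ Qb := AlgebraicClosure.isAlgebraic ℚ
  have h2 : FiniteDimensional ℚ (IntermediateField.adjoin ℚ ({zetaBar M, β} : Set Qb)) :=
    IntermediateField.finiteDimensional_adjoin
      (fun x _ => (Algebra.IsAlgebraic.isAlgebraic x).isIntegral)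
  unfold neField_h424
  exact IntermediateField.finiteDimensional_sup L _

end Field

section Package

variable {k : Type} [Field k] (ρbar : ResidualGaloisRep k)

/-- two automorphisms agreeing on a field of definition of `ρ̄` have the same image -/
lemma rho_eq_of_eqOn_h424 (L : IntermediateField ℚ Qb)
    (hL : ∀ σ : GQ701, (∀ x ∈ L, σ x = x) → ρbar.ρ σ = 1) (σ τ : GQ701)
    (h : ∀ x ∈ L, σ x = τ x) : ρbar.ρ σ = ρbar.ρ τ := by
  have h1 : ρbar.ρ (τ⁻¹ * σ) = 1 := by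
    apply hL
    intro x hx
    show (τ⁻¹ : GQ701) (σ x) = x
    rw [h x hx]
    show (τ⁻¹ * τ) x = x
    rw [inv_mul_cancel]
    rfl
  have h2 : σ = τ * (τ⁻¹ * σ) := by group
  rw [h2, map_mul, h1, mul_one]

/-- agreeing at `ζ_M` ⇒ same cyclotomic character -/
lemma cycloPow_eq_of_apply_zeta_h424 (M : ℕ) [NeZero M] (σ τ : GQ701)
    (h : σ (zetaBar M) = τ (zetaBar M)) : cycloPow M σ = cycloPow M τ := by
  rw [Fermat.Agent.S55.H414.cycloPow_eq_iff, h]
  exact Fermat.Agent.S55.H414.cycloPow_spec M τ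

/-- **Frobenius package** for `ρ̄`: every `σ` is, on `L_ρ̄(ζ_M, β)`, a power of a Frobenius
element `τ` at a prime `ℓ ∉ S ∪ S'`, `ℓ ∤ M`, which is itself a power of `σ` there. -/
theorem exists_frob_package_h424 (S : Finset ℕ) (a : ℕ → k)
    (ha : ∀ (l : ℕ), l.Prime → l ∉ S →
      ∀ B : ValuationSubring Qb, B.LiesOverPrime l →
        ∀ σ : GQ701, B.IsFrobeniusAt σ l →
          LinearMap.charpoly (ρbar.ρ σ) = X ^ 2 - C (a l) * X + C ((l : k)))
    (M : ℕ) [NeZero M] (β : Qb) (S' : Finset ℕ) (σ : GQ701) :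
    ∃ (ℓ : ℕ) (A : ValuationSubring Qb) (τ : GQ701) (e j : ℕ),
      ℓ.Prime ∧ ℓ ∉ S ∧ ℓ ∉ S' ∧ A.LiesOverPrime ℓ ∧ A.IsFrobeniusAt τ ℓ ∧
      ρbar.ρ σ = ρbar.ρ τ ^ j ∧
      cycloPow M σ = cycloPow M τ ^ j ∧ cycloPow M τ = cycloPow M σ ^ e ∧
      (τ ^ j) β = σ β ∧
      ((cycloPow M τ : (ZMod M)ˣ) : ZMod M) = (ℓ : ZMod M) ∧
      ρbar.ρ τ * ρbar.ρ τ - a ℓ • ρbar.ρ τ + (ℓ : k) • (1 : Module.End k ρbar.V) = 0 := by
  classical
  have hMpos : 0 < M := Nat.pos_of_ne_zero (NeZero.ne M)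
  obtain ⟨L, hLfd, hL⟩ := ρbar.factorsThroughFiniteLevel
  have hfd := finiteDimensional_neField_h424 L hLfd M β
  obtain ⟨ℓ, A, τ, e, j, hℓ, hℓS, hA, hτ, -, hτσ, hστ⟩ :=
    Fermat.Agent.Lib.Cheb.frobeniusDivision (neField_h424 L M β) hfd σ
      (S ∪ S' ∪ M.primeFactors)
  simp only [Finset.mem_union, not_or] at hℓS
  obtain ⟨⟨hℓS, hℓS'⟩, hℓM⟩ := hℓS
  have hcop : Nat.Coprime ℓ M := by
    rw [Nat.Prime.coprime_iff_not_dvd hℓ]
    intro h
    exact hℓM (Nat.mem_primeFactors.mpr ⟨hℓ, h, hMpos.ne'⟩)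
  have hχτ : ((cycloPow M τ : (ZMod M)ˣ) : ZMod M) = (ℓ : ZMod M) :=
    coe_cycloPow_frob_h701 hA hτ hcop
  refine ⟨ℓ, A, τ, e, j, hℓ, hℓS, hℓS', hA, hτ, ?_, ?_, ?_, ?_, hχτ, ?_⟩
  · rw [← map_pow]
    exact (rho_eq_of_eqOn_h424 ρbar L hL (τ ^ j) σ
      (fun x hx => hστ x (le_neField_h424 L M β hx))).symm
  · rw [← map_pow]
    exact (cycloPow_eq_of_apply_zeta_h424 M (τ ^ j) σ
      (hστ _ (zeta_mem_neField_h424 L M β))).symm
  · rw [← map_pow]
    exact cycloPow_eq_of_apply_zeta_h424 M τ (σ ^ e) (hτσ _ (zeta_mem_neField_h424 L M β))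
  · exact hστ β (beta_mem_neField_h424 L M β)
  · have hch := ha ℓ hℓ hℓS A hA τ hτ
    have hCH := LinearMap.aeval_self_charpoly (ρbar.ρ τ)
    rw [hch] at hCH
    simp only [map_sub, map_add, map_mul, map_pow, aeval_X, aeval_C,
      Algebra.algebraMap_eq_smul_one] at hCH
    rw [← hCH]
    rw [pow_two, smul_mul_assoc, one_mul]

end Package

section Irr

variable {k : Type} [Field k] (ρbar : ResidualGaloisRep k)

/-- An absolutely irreducible `ρ̄` has no proper nonzero stable subspace over `k`. -/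
theorem not_exists_stable_h424 (habs : ρbar.IsAbsolutelyIrreducible)
    (L : Submodule k ρbar.V) (hL0 : L ≠ ⊥) (hL1 : L ≠ ⊤)
    (hstab : ∀ σ : GQ701, ∀ v ∈ L, ρbar.ρ σ v ∈ L) : False := by
  classical
  -- `L` is a line
  have hle : finrank k L ≤ 2 := by
    have := Submodule.finrank_le L
    rwa [ρbar.finrank_eq] at this
  have hne0 : finrank k L ≠ 0 := by
    intro h
    exact hL0 (Submodule.finrank_eq_zero.mp h)
  have hne2 : finrank k L ≠ 2 := by
    intro h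
    apply hL1
    apply Submodule.eq_top_of_finrank_eq
    rw [h, ρbar.finrank_eq]
  have h1 : finrank k L = 1 := by omega
  obtain ⟨⟨w, hwL⟩, hw0, hwspan⟩ := finrank_eq_one_iff'.mp h1
  have hw : w ≠ 0 := by
    intro h
    apply hw0
    exact Subtype.ext h
  have hline : ∀ σ : GQ701, ∃ c : k, ρbar.ρ σ w = c • w := by
    intro σ
    obtain ⟨c, hc⟩ := hwspan ⟨ρbar.ρ σ w, hstab σ w hwL⟩
    refine ⟨c, ?_⟩
    have := congrArg (fun x : L => (x : ρbar.V)) hc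
    exact this.symm
  -- base change
  let x : AlgebraicClosure k ⊗[k] ρbar.V := (1 : AlgebraicClosure k) ⊗ₜ[k] w
  have hx : x ≠ 0 := by
    intro h
    apply hw
    have hinj := Module.Flat.tensorProduct_mk_injective k ρbar.V (AlgebraicClosure k)
    apply hinj
    rw [map_zero]
    exact h
  let W : Submodule (AlgebraicClosure k) (AlgebraicClosure k ⊗[k] ρbar.V) :=
    Submodule.span (AlgebraicClosure k) {x}
  have hWstab : ∀ σ : GQ701, ∀ y ∈ W, (ρbar.baseChange (AlgebraicClosure k)).ρ σ y ∈ W := by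
    intro σ y hy
    obtain ⟨b, rfl⟩ := Submodule.mem_span_singleton.1 hy
    obtain ⟨c, hc⟩ := hline σ
    have e : (ρbar.baseChange (AlgebraicClosure k)).ρ σ x =
        (algebraMap k (AlgebraicClosure k) c) • x := by
      show (ρbar.ρ σ).baseChange (AlgebraicClosure k) ((1 : AlgebraicClosure k) ⊗ₜ[k] w) = _
      rw [LinearMap.baseChange_tmul, hc, TensorProduct.tmul_smul, algebraMap_smul]
    rw [map_smul, e]
    exact Submodule.smul_mem _ _ (Submodule.smul_mem _ _ (Submodule.mem_span_singleton_self x))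
  rcases habs W hWstab with h | h
  · exact hx (Submodule.span_singleton_eq_bot.1 h)
  · have h1 : Module.finrank (AlgebraicClosure k) W = 2 := by
      rw [h, finrank_top, Module.finrank_baseChange, ρbar.finrank_eq]
    have h2 : Module.finrank (AlgebraicClosure k) W = 1 := finrank_span_singleton hx
    omega

end Irr

section Main

/-- **NE' for `(k, ρ̄)`** (non-Eisenstein primes with a Kummer condition): the statement
`Fermat.Agent.S59.H62.NEPrimeKStatement`, unfolded. -/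
theorem nePrimeK_h424 (p : ℕ) [Fact p.Prime] (hp2 : p ≠ 2) (k : Type) [Field k] [Finite k]
    [CharP k p]
    (ρbar : ResidualGaloisRep k) (habs : ρbar.IsAbsolutelyIrreducible)
    (_hsplit : ∀ σ : AlgebraicClosure ℚ ≃ₐ[ℚ] AlgebraicClosure ℚ,
      ∃ α β : k, LinearMap.charpoly (ρbar.ρ σ) = (X - C α) * (X - C β))
    (S : Finset ℕ) (_hpS : p ∈ S) (a : ℕ → k)
    (ha : ∀ (l : ℕ), l.Prime → l ∉ S →
      ∀ B : ValuationSubring Fermat.Agent.S31.Qb, B.LiesOverPrime l →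
        ∀ σ : Fermat.Agent.S31.GQ, B.IsFrobeniusAt σ l →
          LinearMap.charpoly (ρbar.ρ σ) = X ^ 2 - C (a l) * X + C ((l : k)))
    (q : ℕ) (hq : q.Prime) (_hqp : q ≠ p) (m : ℕ) (hm : 0 < m) (S' : Finset ℕ) :
    ∃ l : ℕ, l.Prime ∧ l ∉ S ∧ l ∉ S' ∧ l ≡ 1 [MOD m] ∧ l ≡ 1 [MOD p] ∧
      a l ≠ (l : k) + 1 ∧ ¬ (q ^ ((l - 1) / p) ≡ 1 [MOD l]) := by
  classical
  have hp : p.Prime := Fact.out
  by_contra hcon0
  have hcon : ∀ ℓ : ℕ, ℓ.Prime → ℓ ∉ S → ℓ ∉ S' → ℓ ≡ 1 [MOD m] → ℓ ≡ 1 [MOD p] →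
      ¬ (q ^ ((ℓ - 1) / p) ≡ 1 [MOD ℓ]) → a ℓ = (ℓ : k) + 1 := by
    intro ℓ h1 h2 h3 h4 h5 h6
    by_contra h7
    exact hcon0 ⟨ℓ, h1, h2, h3, h4, h5, h7, h6⟩
  obtain ⟨M, hMdef⟩ : ∃ M : ℕ, M = m * p := ⟨_, rfl⟩
  have hMpos : 0 < M := by rw [hMdef]; exact Nat.mul_pos hm hp.pos
  have : NeZero M := ⟨hMpos.ne'⟩
  have hpM : p ∣ M := by rw [hMdef]; exact Dvd.intro_left _ rfl
  have hmM : m ∣ M := by rw [hMdef]; exact Dvd.intro _ rfl
  have hdim : Module.finrank k ρbar.V = 2 := ρbar.finrank_eq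
  have h2 : (2 : k) ≠ 0 := by
    intro h
    have h' : ((2 : ℕ) : k) = 0 := by exact_mod_cast h
    rw [CharP.cast_eq_zero_iff k p] at h'
    exact hp2 ((Nat.prime_dvd_prime_iff_eq hp Nat.prime_two).mp h')
  -- the real `p`-th root of `q`
  obtain ⟨β, hβ, hcβ⟩ := exists_real_root_h701 p q hp.ne_zero
  have hq0 : (q : Qb) ≠ 0 := Nat.cast_ne_zero.mpr hq.ne_zero
  have hβ0 : β ≠ 0 := by
    rintro rfl
    rw [zero_pow hp.ne_zero] at hβ
    exact hq0 hβ.symm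
  -- (Eis') elements of the kernel moving `β` are unipotent
  have hmove : ∀ s : GQ701, cycloPow M s = 1 → s β ≠ β →
      (ρbar.ρ s - 1) * (ρbar.ρ s - 1) = 0 := by
    intro s hs hsβ
    obtain ⟨ℓ, A, τ, e, j, hℓ, hℓS, hℓS', hA, hτ, hρ, -, hχk, hβj, hχτ, hrel⟩ :=
      exists_frob_package_h424 ρbar S a ha M β (insert q (insert p S')) s
    simp only [Finset.mem_insert, not_or] at hℓS'
    obtain ⟨hℓq, hℓp, hℓS'⟩ := hℓS'
    have hτ1 : cycloPow M τ = 1 := by rw [hχk, hs, one_pow]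
    rw [hτ1, Units.val_one] at hχτ
    have hℓ1 : ℓ ≡ 1 [MOD M] := by
      rw [← ZMod.natCast_eq_natCast_iff, ← hχτ, Nat.cast_one]
    have hℓ1p : ℓ ≡ 1 [MOD p] := hℓ1.of_dvd hpM
    have hpℓ : p ∣ ℓ - 1 := (Nat.modEq_iff_dvd' hℓ.one_le).mp hℓ1p.symm
    have hτβ : τ β ≠ β := by
      intro h
      apply hsβ
      rw [← hβj]
      exact pow_apply_of_apply_h701 τ h j
    have hℓq' : ¬ ℓ ∣ q := by
      intro h
      exact hℓq ((Nat.prime_dvd_prime_iff_eq hℓ hq).mp h)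
    have hkum : (q : ZMod ℓ) ^ ((ℓ - 1) / p) ≠ 1 := by
      intro h
      exact hτβ (frob_fix_root_h701 hℓ hp hℓp hℓq' hA hτ hpℓ hβ h)
    have hkum' : ¬ (q ^ ((ℓ - 1) / p) ≡ 1 [MOD ℓ]) := by
      intro h
      apply hkum
      have := (ZMod.natCast_eq_natCast_iff _ _ _).mpr h
      push_cast at this
      exact this
    have hal := hcon ℓ hℓ hℓS hℓS' (hℓ1.of_dvd hmM) hℓ1p hkum'
    have hℓ1k : (ℓ : k) = 1 := by
      have h1 : ((ℓ - 1 : ℕ) : k) = 0 := (CharP.cast_eq_zero_iff k p _).mpr hpℓ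
      rw [Nat.cast_sub hℓ.one_le, Nat.cast_one, sub_eq_zero] at h1
      exact h1
    rw [hal, hℓ1k, one_smul] at hrel
    have h1 : (ρbar.ρ τ - 1) * (ρbar.ρ τ - 1) = 0 := by
      rw [← hrel]
      rw [show ((1 : k) + 1) • ρbar.ρ τ = ρbar.ρ τ + ρbar.ρ τ by rw [add_smul, one_smul]]
      noncomm_ring
    rw [hρ]
    exact sq_zero_pow_sub_one_h701 _ h1 j
  -- (K1) an element of the kernel moving `β`
  obtain ⟨s₁, hs₁, hs₁β⟩ := exists_moving_h701 hp hp2 hq hβ hcβ M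
  -- (K3) the whole kernel is unipotent
  have hunip : ∀ s : GQ701, cycloPow M s = 1 → (ρbar.ρ s - 1) * (ρbar.ρ s - 1) = 0 := by
    intro s hs
    by_cases hsβ : s β = β
    · -- trace trick with `s₁`
      have e1 : (s₁ * s) β = s₁ β := by
        show s₁ (s β) = s₁ β
        rw [hsβ]
      have hz : (s₁ β / β) ^ p = 1 := by
        rw [div_pow, ← map_pow, hβ, map_natCast, div_self hq0]
      have hzM : (s₁ β / β) ^ M = 1 := by
        obtain ⟨d, hd⟩ := hpM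
        rw [hd, pow_mul, hz, one_pow]
      have hfixz : s₁ (s₁ β / β) = s₁ β / β :=
        apply_root_of_cycloPow_eq_one_h701 M s₁ hs₁ hzM
      have e2 : (s₁ * s₁ * s) β = β * (s₁ β / β) ^ 2 := by
        show s₁ (s₁ (s β)) = _
        rw [hsβ]
        have : s₁ β = β * (s₁ β / β) := by field_simp
        conv_lhs => rw [this, map_mul, hfixz]
        rw [this]
        field_simp
      have hne2 : (s₁ * s₁ * s) β ≠ β := by
        rw [e2]
        intro h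
        have hz2 : (s₁ β / β) ^ 2 = 1 := by
          have := mul_left_cancel₀ hβ0 (h.trans (mul_one β).symm)
          exact this
        obtain ⟨t, ht⟩ := hp.odd_of_ne_two hp2
        have hz1 : s₁ β / β = 1 := by
          have : (s₁ β / β) ^ p = s₁ β / β := by
            rw [ht, pow_succ, pow_mul, hz2, one_pow, one_mul]
          rw [← this, hz]
        exact hs₁β ((div_eq_one_iff_eq hβ0).1 hz1)
      have u0 := hmove s₁ hs₁ hs₁β
      have u1 := hmove (s₁ * s) (by rw [map_mul, hs₁, hs, one_mul]) (by rw [e1]; exact hs₁β)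
      have u2 := hmove (s₁ * s₁ * s) (by rw [map_mul, map_mul, hs₁, hs, one_mul, one_mul]) hne2
      rw [map_mul] at u1
      rw [map_mul, map_mul] at u2
      exact unipotent_of_pair_h701 hdim _ _ u0 u1 u2
    · exact hmove s hs hsβ
  -- the reduction of the cyclotomic character
  let ε : (ZMod M)ˣ →* kˣ := Units.map ((ZMod.castHom hpM k : ZMod M →+* k) : ZMod M →* k)
  have hεcoe : ∀ u : (ZMod M)ˣ, ((ε u : kˣ) : k) = ZMod.castHom hpM k (u : ZMod M) :=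
    fun u => rfl
  -- the Frobenius relation for determinants
  have hF : ∀ σ : GQ701, ∃ (τ : GQ701) (j : ℕ) (b : k),
      ρbar.ρ σ = ρbar.ρ τ ^ j ∧ cycloPow M σ = cycloPow M τ ^ j ∧
        ρbar.ρ τ * ρbar.ρ τ - b • ρbar.ρ τ
          + ((ε (cycloPow M τ) : kˣ) : k) • (1 : Module.End k ρbar.V) = 0 := by
    intro σ
    obtain ⟨ℓ, A, τ, e, j, -, -, -, -, -, hρ, hχ, -, -, hχτ, hrel⟩ :=
      exists_frob_package_h424 ρbar S a ha M β S' σ
    refine ⟨τ, j, a ℓ, hρ, hχ, ?_⟩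
    rw [hεcoe, hχτ, map_natCast]
    exact hrel
  obtain ⟨c, hc⟩ := exists_cycloPow_eq_neg_one_h701 M
  have hc2 : cycloPow M c * cycloPow M c = 1 := by rw [hc]; simp
  have hcε : ((ε (cycloPow M c) : kˣ) : k) = -1 := by
    rw [hεcoe, hc, Units.val_neg, Units.val_one, map_neg, map_one]
  obtain ⟨L, hL0, hL1, hLstab⟩ := exists_stable_line_of_unipotent_h701 h2 hdim
    ρbar.ρ (cycloPow M) ε hunip hF c hc2 hcε
  exact not_exists_stable_h424 ρbar habs L hL0 hL1 (fun σ x hx => hLstab σ x hx)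

end Main

end Fermat.Agent.S59.H424

end
-- ===== PACK-END S59/H424/NEPrimeK.lean

-- ===== PACK-BEGIN S59/TW/H324/CuspLoc.lean
section



/-!
# S59 / cell TW, leaf CUSP (helper324): a non-Eisenstein localisation of `Hom(K, 𝒪)` is cuspidal

* `isCuspidalK_of_parabolic` : for torsion-free `A`, a class vanishing on the `γ` with
  `(tr γ)² = 4` is cuspidal (`H653.IsCuspidalK`);
* `TK_cuspidal`, `UK_cuspidal`, `diamond_cuspidal`, `diamondU_cuspidal` : the operators preserve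
  the cuspidal classes;
* `finite_hom` : `Hom(K, 𝒪)` is a finite `𝒪`-module;
* `cuspidal_of_nilp` : **CUSP-LOC.**  If `V ⊆ Hom(K, 𝒪)` is the image of a projector commuting
  with `T_ℓ`, `(T_ℓ - c)^m V ⊆ 𝔪 Hom(K, 𝒪)`, `ℓ ≡ 1` mod `M` and `c - (ℓ + 1)` is a unit, then
  every element of `V` is cuspidal.
-/

set_option autoImplicit false

namespace Fermat.Agent.S59.TW.H324

open CongruenceSubgroup Matrix.SpecialLinearGroup ModularCurve.Period ModularForm IsLocalRing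
open Fermat.Agent.S29.H642 Fermat.Agent.S41.H761 Fermat.Agent.S59.TW.H653
open scoped MatrixGroups

variable {M : ℕ} {K : Subgroup SL(2, ℤ)} {A : Type*} [AddCommGroup A]

/-! ## Cuspidal classes -/

theorem isCuspidalK_of_parabolic [IsAddTorsionFree A] {φ : Additive K →+ A}
    (h : IsParabolicHom K φ) : IsCuspidalK φ := by
  refine ⟨h, fun γ hγ => ?_⟩
  obtain ⟨n, hn, e⟩ := hγ.exists_pow_eq_one
  have h1 : n • φ (Additive.ofMul γ) = n • (0 : A) := by
    rw [← map_nsmul, ← ofMul_pow, e, ofMul_one, map_zero, nsmul_zero]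
  exact nsmul_right_injective hn.ne' h1

theorem TK_cuspidal [NeZero M] [IsAddTorsionFree A] (hK : IsMid M K) {ℓ : ℕ} [Fact ℓ.Prime]
    (hℓ : ¬ ℓ ∣ M) {φ : Additive K →+ A} (hφ : IsCuspidalK φ) : IsCuspidalK (TK M K ℓ φ) :=
  isCuspidalK_of_parabolic (TK_parabolic hK hℓ φ hφ.1)

theorem UK_cuspidal [NeZero M] [IsAddTorsionFree A] (hK : IsMid M K) {q : ℕ} [Fact q.Prime]
    (hq : q ∣ M) {φ : Additive K →+ A} (hφ : IsCuspidalK φ) : IsCuspidalK (UK K q φ) :=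
  isCuspidalK_of_parabolic (UK_parabolic hK hq φ hφ.1)

theorem trace_conj (g k : SL(2, ℤ)) :
    ((g * k * g⁻¹ : SL(2, ℤ)) : Matrix (Fin 2) (Fin 2) ℤ).trace =
      ((k : SL(2, ℤ)) : Matrix (Fin 2) (Fin 2) ℤ).trace := by
  rw [Matrix.SpecialLinearGroup.coe_mul, Matrix.trace_mul_comm, ← Matrix.SpecialLinearGroup.coe_mul,
    inv_mul_cancel_left]

/-- The diamond operators preserve the cuspidal classes (any `A`). -/
theorem diamond_cuspidal (hK : IsMid M K) (g : Gamma0 M) {φ : Additive K →+ A}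
    (hφ : IsCuspidalK φ) : IsCuspidalK (diamond hK g φ) := by
  refine ⟨fun γ hγ => ?_, fun γ hγ => ?_⟩
  · rw [diamond_apply]
    apply hφ.1
    rw [conjK_coe, trace_conj]
    exact hγ
  · rw [diamond_apply]
    apply hφ.2
    have hinj : Function.Injective ((conjK hK g).toMonoidHom : K →* K) := (conjK hK g).injective
    exact hinj.isOfFinOrder_iff.mpr hγ

theorem diamondU_cuspidal (hK : IsMid M K) (u : (ZMod M)ˣ) {φ : Additive K →+ A}
    (hφ : IsCuspidalK φ) : IsCuspidalK (diamondU hK u φ) :=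
  diamond_cuspidal hK _ hφ

/-! ## Finiteness of `Hom(K, 𝒪)` -/

theorem fg_of_isMid [NeZero M] (hK : IsMid M K) : Group.FG K := by
  have hG : Group.FG SL(2, ℤ) :=
    Group.fg_iff.mpr ⟨{ModularGroup.S, ModularGroup.T}, SpecialLinearGroup.SL2Z_generators,
      Set.toFinite _⟩
  have : K.FiniteIndex := Subgroup.finiteIndex_of_le hK.ge
  exact Subgroup.fg_of_index_ne_zero K

theorem finite_hom [NeZero M] (hK : IsMid M K) (𝒪 : Type*) [CommRing 𝒪] [IsNoetherianRing 𝒪] :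
    Module.Finite 𝒪 (Additive K →+ 𝒪) := by
  obtain ⟨s, hs, hfin⟩ := Group.fg_iff.mp (fg_of_isMid hK)
  have : Finite s := hfin
  let E : (Additive K →+ 𝒪) →ₗ[𝒪] (s → 𝒪) :=
    { toFun := fun φ γ => φ (Additive.ofMul γ.1)
      map_add' := fun _ _ => rfl
      map_smul' := fun _ _ => rfl }
  refine Module.Finite.of_injective E ?_
  rw [← LinearMap.ker_eq_bot, LinearMap.ker_eq_bot']
  intro φ hφ
  have key : ∀ γ : K, φ (Additive.ofMul γ) = 0 := by
    intro γ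
    have hγ : γ ∈ Subgroup.closure s := by rw [hs]; trivial
    induction hγ using Subgroup.closure_induction with
    | mem x hx => exact congrFun hφ ⟨x, hx⟩
    | one => exact map_zero φ
    | mul x y _ _ hx hy =>
      rw [ofMul_mul, map_add, hx, hy, add_zero]
    | inv x _ hx =>
      rw [ofMul_inv, map_neg, hx, neg_zero]
  ext γ
  exact key (Additive.toMul γ)

/-! ## `T_ℓ` as an `𝒪`-linear map -/

section Lin

variable {𝒪 : Type*} [CommRing 𝒪]

theorem TK_smul (hK : IsMid M K) {ℓ : ℕ} [Fact ℓ.Prime] (hℓ : ¬ ℓ ∣ M) (c : 𝒪)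
    (φ : Additive K →+ 𝒪) : TK M K ℓ (c • φ) = c • TK M K ℓ φ := by
  have e : ∀ ψ : Additive K →+ 𝒪, c • ψ = (AddMonoidHom.mulLeft c).comp ψ := fun ψ => rfl
  rw [e, e, TK_comp hK hℓ]

/-- `T_ℓ` as an `𝒪`-linear endomorphism of `Hom(K, 𝒪)`. -/
noncomputable def TKLin (hK : IsMid M K) (𝒪 : Type*) [CommRing 𝒪] {ℓ : ℕ} [Fact ℓ.Prime]
    (hℓ : ¬ ℓ ∣ M) : Module.End 𝒪 (Additive K →+ 𝒪) where
  toFun := TK M K ℓ
  map_add' := TK_add hK hℓ
  map_smul' := TK_smul hK hℓ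

@[simp] theorem TKLin_apply (hK : IsMid M K) {ℓ : ℕ} [Fact ℓ.Prime] (hℓ : ¬ ℓ ∣ M)
    (φ : Additive K →+ 𝒪) : TKLin hK 𝒪 hℓ φ = TK M K ℓ φ := rfl

end Lin

/-! ## CUSP-LOC -/

section Loc

variable {𝒪 : Type*} [CommRing 𝒪] [IsDomain 𝒪] [CharZero 𝒪] [IsLocalRing 𝒪] [IsNoetherianRing 𝒪]

/-- **CUSP-LOC.**  Let `V ⊆ Hom(K, 𝒪)` be the image of a projector `e` commuting with `T_ℓ`,
for a prime `ℓ ≡ 1` mod `M`, such that `(T_ℓ - c)^m V ⊆ 𝔪 Hom(K, 𝒪)` with `c - (ℓ + 1) ∈ 𝒪ˣ`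
(a non-Eisenstein prime).  Then every element of `V` is cuspidal. -/
theorem cuspidal_of_nilp [NeZero M] (hK : IsMid M K) {ℓ : ℕ} [Fact ℓ.Prime] (hℓ : ¬ ℓ ∣ M)
    (h1 : (M : ℤ) ∣ (ℓ : ℤ) - 1) (c : 𝒪) (hc : IsUnit (c - ((ℓ : 𝒪) + 1)))
    (V : Submodule 𝒪 (Additive K →+ 𝒪))
    (e : (Additive K →+ 𝒪) →ₗ[𝒪] (Additive K →+ 𝒪))
    (he1 : ∀ x, e x ∈ V) (he2 : ∀ x ∈ V, e x = x)
    (hecomm : ∀ x, e (TK M K ℓ x) = TK M K ℓ (e x))
    (m : ℕ) (hnil : ∀ x ∈ V, (fun y => TK M K ℓ y - c • y)^[m] x ∈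
        maximalIdeal 𝒪 • (⊤ : Submodule 𝒪 (Additive K →+ 𝒪))) :
    ∀ v ∈ V, IsCuspidalK v := by
  classical
  have hfin : Module.Finite 𝒪 (Additive K →+ 𝒪) := finite_hom hK 𝒪
  have hnoeth : IsNoetherian 𝒪 (Additive K →+ 𝒪) := isNoetherian_of_isNoetherianRing_of_finite _ _
  set T : Module.End 𝒪 (Additive K →+ 𝒪) := TKLin hK 𝒪 hℓ with hT
  set D : Module.End 𝒪 (Additive K →+ 𝒪) := T - c • 1 with hD
  set S : Module.End 𝒪 (Additive K →+ 𝒪) := T - ((ℓ : 𝒪) + 1) • 1 with hS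
  have hDfun : (⇑D : (Additive K →+ 𝒪) → (Additive K →+ 𝒪)) = fun y => TK M K ℓ y - c • y := by
    funext y
    rfl
  have hVT : ∀ x ∈ V, T x ∈ V := by
    intro x hx
    have : T x = e (TK M K ℓ x) := by
      rw [hecomm, he2 x hx]
      rfl
    rw [this]
    exact he1 _
  have hVD : ∀ x ∈ V, D x ∈ V := fun x hx => V.sub_mem (hVT x hx) (V.smul_mem c hx)
  have hVpow : ∀ (k : ℕ), ∀ x ∈ V, (D ^ k) x ∈ V := by
    intro k
    induction k with
    | zero => intro x hx; simpa using hx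
    | succ k ih =>
      intro x hx
      rw [pow_succ', Module.End.mul_apply]
      exact hVD _ (ih x hx)
  have hVm : ∀ y ∈ V, y ∈ maximalIdeal 𝒪 • (⊤ : Submodule 𝒪 (Additive K →+ 𝒪)) →
      y ∈ maximalIdeal 𝒪 • V := by
    intro y hy hym
    have h2 : e y ∈ Submodule.map e (maximalIdeal 𝒪 • (⊤ : Submodule 𝒪 (Additive K →+ 𝒪))) :=
      Submodule.mem_map_of_mem hym
    rw [Submodule.map_smul'', he2 y hy] at h2
    refine Submodule.smul_mono (le_refl _) ?_ h2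
    rintro _ ⟨x, -, rfl⟩
    exact he1 x
  obtain ⟨u, hu⟩ := hc
  -- `S = D + u`
  have hSD : S = D + (u : 𝒪) • 1 := by
    rw [hS, hD, hu]
    module
  set z : Module.End 𝒪 (Additive K →+ 𝒪) := (-((u⁻¹ : 𝒪ˣ) : 𝒪)) • D with hz
  have hgeom := mul_neg_geom_sum z m
  have h1z : 1 - z = ((u⁻¹ : 𝒪ˣ) : 𝒪) • S := by
    rw [hz, hSD, smul_add, smul_smul, Units.inv_mul, one_smul]
    module
  have hzpow : ∀ k : ℕ, z ^ k = ((-((u⁻¹ : 𝒪ˣ) : 𝒪)) ^ k) • D ^ k := fun k => by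
    rw [hz, smul_pow]
  have hQV : ∀ x ∈ V, (∑ i ∈ Finset.range m, z ^ i) x ∈ V := by
    intro x hx
    rw [LinearMap.sum_apply]
    refine Submodule.sum_mem _ fun i _ => ?_
    rw [hzpow, LinearMap.smul_apply]
    exact V.smul_mem _ (hVpow i x hx)
  -- Nakayama
  have hle : V ≤ Submodule.map S V ⊔ maximalIdeal 𝒪 • V := by
    intro x hx
    have e1 : x = ((1 - z) * ∑ i ∈ Finset.range m, z ^ i) x + (z ^ m) x := by
      rw [hgeom, LinearMap.sub_apply, Module.End.one_apply, sub_add_cancel]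
    rw [e1]
    refine Submodule.add_mem_sup ?_ ?_
    · rw [h1z, Module.End.mul_apply, LinearMap.smul_apply, ← map_smul]
      exact Submodule.mem_map_of_mem (V.smul_mem _ (hQV x hx))
    · rw [hzpow, LinearMap.smul_apply]
      refine Submodule.smul_mem _ _ (hVm _ (hVpow m x hx) ?_)
      rw [Module.End.pow_apply, hDfun]
      exact hnil x hx
  have hjac : maximalIdeal 𝒪 ≤ (⊥ : Ideal 𝒪).jacobson := by
    rw [IsLocalRing.jacobson_eq_maximalIdeal ⊥ bot_ne_top]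
  have hVS : V ≤ Submodule.map S V :=
    Submodule.le_of_le_smul_of_le_jacobson_bot (IsNoetherian.noetherian V) hjac hle
  intro v hv
  obtain ⟨w, -, rfl⟩ := hVS hv
  apply isCuspidalK_of_parabolic
  intro γ hγ
  have e2 : S w = TK M K ℓ w - ((ℓ : 𝒪) + 1) • w := rfl
  rw [e2, AddMonoidHom.sub_apply, TK_apply_parabolic hK hℓ h1 w γ hγ, AddMonoidHom.smul_apply,
    zsmul_eq_mul, smul_eq_mul]
  push_cast
  ring

end Loc

end Fermat.Agent.S59.TW.H324

end
-- ===== PACK-END S59/TW/H324/CuspLoc.lean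

-- ===== PACK-BEGIN S59/TW/H658/MSAssembly.lean
section




/-!
# S21 — assembly of MS (the minimizing sequence) from MS-A/B/C/E and INT-A..D
-/

set_option autoImplicit false

open ModularCurve ModularCurve.Period UpperHalfPlane CongruenceSubgroup Filter Topology
open MeasureTheory
open scoped MatrixGroups ComplexConjugate ContDiff

namespace Fermat.Agent.S59.TW.H658

open Fermat.Agent.S21

section Measure

variable (L : Lev) {χ₁ : ℂ → ℝ}

/-- the density of the energy measure as an `ℝ≥0`-valued function -/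
noncomputable def chiNN (L : Lev) (χ₁ : ℂ → ℝ) : ℂ → NNReal := fun z => (_root_.Fermat.Agent.S59.TW.H658.chi L χ₁ z).toNNReal

/-- the energy measure `χ dA` -/
noncomputable def nu (L : Lev) (χ₁ : ℂ → ℝ) : Measure ℂ :=
  (volume : Measure ℂ).withDensity (fun z => (_root_.Fermat.Agent.S59.TW.H658.chiNN L χ₁ z : ENNReal))

theorem measurable_chiNN (hχ : IsSL2ZPartition χ₁) : Measurable (_root_.Fermat.Agent.S59.TW.H658.chiNN L χ₁) :=
  (_root_.Fermat.Agent.S59.TW.H658.measurable_chi L hχ).real_toNNReal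
theorem chi_eq_zero_of_notMem {z : ℂ} (hz : z ∉ Uhp) : _root_.Fermat.Agent.S59.TW.H658.chi L χ₁ z = 0 :=
  Set.indicator_of_notMem hz _

theorem integral_nu (hχ : IsSL2ZPartition χ₁) (g : ℂ → ℝ) :
    ∫ z, g z ∂(_root_.Fermat.Agent.S59.TW.H658.nu L χ₁) = ∫ z, g z * _root_.Fermat.Agent.S59.TW.H658.chi L χ₁ z := by
  rw [_root_.Fermat.Agent.S59.TW.H658.nu, integral_withDensity_eq_integral_smul (_root_.Fermat.Agent.S59.TW.H658.measurable_chiNN L hχ)]
  refine integral_congr_ae (ae_of_all _ fun z => ?_)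
  simp only [NNReal.smul_def, _root_.Fermat.Agent.S59.TW.H658.chiNN, Real.coe_toNNReal _ (_root_.Fermat.Agent.S59.TW.H658.chi_nonneg L hχ z), smul_eq_mul]
  ring

theorem integrable_nu_iff (hχ : IsSL2ZPartition χ₁) {g : ℂ → ℝ} :
    Integrable g (_root_.Fermat.Agent.S59.TW.H658.nu L χ₁) ↔ Integrable (fun z => g z * _root_.Fermat.Agent.S59.TW.H658.chi L χ₁ z) := by
  rw [_root_.Fermat.Agent.S59.TW.H658.nu, integrable_withDensity_iff_integrable_smul (_root_.Fermat.Agent.S59.TW.H658.measurable_chiNN L hχ)]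
  refine integrable_congr (ae_of_all _ fun z => ?_)
  simp only [NNReal.smul_def, _root_.Fermat.Agent.S59.TW.H658.chiNN, Real.coe_toNNReal _ (_root_.Fermat.Agent.S59.TW.H658.chi_nonneg L hχ z), smul_eq_mul]
  ring

theorem aesm_indicator {G : ℂ → ℂ} (hG : ContinuousOn G Uhp) (μ : Measure ℂ) :
    AEStronglyMeasurable (Set.indicator Uhp G) μ := by
  rw [aestronglyMeasurable_indicator_iff isOpen_Uhp.measurableSet]
  exact hG.aestronglyMeasurable isOpen_Uhp.measurableSet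

theorem memLp_indicator (hχ : IsSL2ZPartition χ₁) {G : ℂ → ℂ} (hG : ContinuousOn G Uhp)
    (hfin : Integrable (fun z => ‖G z‖ ^ 2 * _root_.Fermat.Agent.S59.TW.H658.chi L χ₁ z)) :
    MemLp (Set.indicator Uhp G) 2 (_root_.Fermat.Agent.S59.TW.H658.nu L χ₁) := by
  rw [memLp_two_iff_integrable_sq_norm (_root_.Fermat.Agent.S59.TW.H658.aesm_indicator hG _), _root_.Fermat.Agent.S59.TW.H658.integrable_nu_iff L hχ]
  refine hfin.congr (ae_of_all _ fun z => ?_)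
  by_cases hz : z ∈ Uhp
  · simp [Set.indicator_of_mem hz]
  · simp [Set.indicator_of_notMem hz, _root_.Fermat.Agent.S59.TW.H658.chi_eq_zero_of_notMem L hz]

theorem integrable_of_memLp_indicator (hχ : IsSL2ZPartition χ₁) {G : ℂ → ℂ}
    (hG : ContinuousOn G Uhp) (h : MemLp (Set.indicator Uhp G) 2 (_root_.Fermat.Agent.S59.TW.H658.nu L χ₁)) :
    Integrable (fun z => ‖G z‖ ^ 2 * _root_.Fermat.Agent.S59.TW.H658.chi L χ₁ z) := by
  rw [memLp_two_iff_integrable_sq_norm (_root_.Fermat.Agent.S59.TW.H658.aesm_indicator hG _), _root_.Fermat.Agent.S59.TW.H658.integrable_nu_iff L hχ] at h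
  refine h.congr (ae_of_all _ fun z => ?_)
  by_cases hz : z ∈ Uhp
  · simp [Set.indicator_of_mem hz]
  · simp [Set.indicator_of_notMem hz, _root_.Fermat.Agent.S59.TW.H658.chi_eq_zero_of_notMem L hz]

theorem inner_toLp_indicator (hχ : IsSL2ZPartition χ₁) {G₁ G₂ : ℂ → ℂ}
    (h₁ : MemLp (Set.indicator Uhp G₁) 2 (_root_.Fermat.Agent.S59.TW.H658.nu L χ₁))
    (h₂ : MemLp (Set.indicator Uhp G₂) 2 (_root_.Fermat.Agent.S59.TW.H658.nu L χ₁)) :
    inner ℝ (h₁.toLp _) (h₂.toLp _) = ∫ z, (inner ℝ (G₁ z) (G₂ z) : ℝ) * _root_.Fermat.Agent.S59.TW.H658.chi L χ₁ z := by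
  rw [L2.inner_def]
  have e : ∫ z, (inner ℝ ((h₁.toLp _ : Lp ℂ 2 (_root_.Fermat.Agent.S59.TW.H658.nu L χ₁)) z) ((h₂.toLp _ : Lp ℂ 2 (_root_.Fermat.Agent.S59.TW.H658.nu L χ₁)) z) : ℝ)
        ∂(_root_.Fermat.Agent.S59.TW.H658.nu L χ₁)
      = ∫ z, (inner ℝ (Set.indicator Uhp G₁ z) (Set.indicator Uhp G₂ z) : ℝ) ∂(_root_.Fermat.Agent.S59.TW.H658.nu L χ₁) := by
    refine integral_congr_ae ?_
    filter_upwards [h₁.coeFn_toLp, h₂.coeFn_toLp] with z e1 e2
    rw [e1, e2]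
  rw [e, _root_.Fermat.Agent.S59.TW.H658.integral_nu L hχ]
  refine integral_congr_ae (ae_of_all _ fun z => ?_)
  by_cases hz : z ∈ Uhp
  · simp [Set.indicator_of_mem hz]
  · simp [Set.indicator_of_notMem hz, _root_.Fermat.Agent.S59.TW.H658.chi_eq_zero_of_notMem L hz]

theorem norm_sq_toLp_indicator (hχ : IsSL2ZPartition χ₁) {G : ℂ → ℂ}
    (h : MemLp (Set.indicator Uhp G) 2 (_root_.Fermat.Agent.S59.TW.H658.nu L χ₁)) :
    ‖h.toLp _‖ ^ 2 = ∫ z, ‖G z‖ ^ 2 * _root_.Fermat.Agent.S59.TW.H658.chi L χ₁ z := by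
  rw [← real_inner_self_eq_norm_sq, _root_.Fermat.Agent.S59.TW.H658.inner_toLp_indicator L hχ h h]
  refine integral_congr_ae (ae_of_all _ fun z => ?_)
  simp only [real_inner_self_eq_norm_sq]

end Measure

theorem inner_dz (u w : ℂ → ℝ) (z : ℂ) :
    (inner ℝ (dz u z) (dz w z) : ℝ)
      = fderiv ℝ u z 1 * fderiv ℝ w z 1 + fderiv ℝ u z Complex.I * fderiv ℝ w z Complex.I := by
  rw [Complex.inner]
  simp [dz]
  ring

theorem dz_const_mul {u : ℂ → ℝ} {z : ℂ} (hu : DifferentiableAt ℝ u z) (c : ℝ) :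
    dz (fun w => c * u w) z = c * dz u z := by
  unfold dz
  have : fderiv ℝ (fun w => c * u w) z = c • fderiv ℝ u z := fderiv_const_mul hu c
  rw [this]
  simp only [smul_apply, smul_eq_mul]
  push_cast
  ring

theorem dz_zero (z : ℂ) : dz (fun _ => (0 : ℝ)) z = 0 := by
  unfold dz
  simp

theorem isTest_add {η₁ η₂ : ℂ → ℝ} (h₁ : IsTest η₁) (h₂ : IsTest η₂) :
    IsTest (fun w => η₁ w + η₂ w) := by
  refine ⟨h₁.1.add h₂.1, h₁.2.1.add h₂.2.1, ?_⟩
  have : tsupport (fun w => η₁ w + η₂ w) ⊆ tsupport η₁ ∪ tsupport η₂ := by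
    refine closure_minimal ?_ ((isClosed_tsupport _).union (isClosed_tsupport _))
    intro z hz
    by_contra hcon
    simp only [Set.mem_union, not_or] at hcon
    apply hz
    show η₁ z + η₂ z = 0
    rw [image_eq_zero_of_notMem_tsupport hcon.1, image_eq_zero_of_notMem_tsupport hcon.2, add_zero]
  exact this.trans (Set.union_subset h₁.2.2 h₂.2.2)

theorem isTest_smul {η : ℂ → ℝ} (h : IsTest η) (c : ℝ) : IsTest (fun w => c * η w) := by
  refine ⟨contDiff_const.mul h.1, h.2.1.mul_left, ?_⟩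
  have : tsupport (fun w => c * η w) ⊆ tsupport η := by
    refine closure_minimal ?_ (isClosed_tsupport _)
    intro z hz
    by_contra hcon
    apply hz
    show c * η z = 0
    rw [image_eq_zero_of_notMem_tsupport hcon, mul_zero]
  exact this.trans h.2.2

theorem isTest_zero : IsTest (fun _ => (0 : ℝ)) := by
  refine ⟨contDiff_const, HasCompactSupport.zero, ?_⟩
  have : tsupport (fun _ : ℂ => (0 : ℝ)) = ∅ := by
    rw [tsupport_eq_empty_iff]; rfl
  rw [this]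
  exact Set.empty_subset _

end Fermat.Agent.S59.TW.H658

namespace Fermat.Agent.S59.TW.H658

open Fermat.Agent.S21

section Sub

variable (L : Lev) {χ₁ : ℂ → ℝ}

theorem differentiableAt_sym {η : ℂ → ℝ} (hη : IsTest η) {z : ℂ} (hz : z ∈ Uhp) :
    DifferentiableAt ℝ (_root_.Fermat.Agent.S59.TW.H658.sym L η) z :=
  ((_root_.Fermat.Agent.S59.TW.H658.contDiffOn_sym L hη).differentiableOn (by norm_cast)).differentiableAt
    (isOpen_Uhp.mem_nhds hz)

theorem continuousOn_dz_sym {η : ℂ → ℝ} (hη : IsTest η) : ContinuousOn (dz (_root_.Fermat.Agent.S59.TW.H658.sym L η)) Uhp :=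
  continuousOn_dz ((_root_.Fermat.Agent.S59.TW.H658.contDiffOn_sym L hη).of_le (by norm_cast))

theorem memLp_sym (hχ : IsSL2ZPartition χ₁) {η : ℂ → ℝ} (hη : IsTest η) :
    MemLp (Set.indicator Uhp (dz (_root_.Fermat.Agent.S59.TW.H658.sym L η))) 2 (_root_.Fermat.Agent.S59.TW.H658.nu L χ₁) :=
  _root_.Fermat.Agent.S59.TW.H658.memLp_indicator L hχ (_root_.Fermat.Agent.S59.TW.H658.continuousOn_dz_sym L hη) (_root_.Fermat.Agent.S59.TW.H658.integrable_energy_sym L hχ hη)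

theorem dz_sym_add {η₁ η₂ : ℂ → ℝ} (h₁ : IsTest η₁) (h₂ : IsTest η₂) {z : ℂ} (hz : z ∈ Uhp) :
    dz (_root_.Fermat.Agent.S59.TW.H658.sym L (fun w => η₁ w + η₂ w)) z = dz (_root_.Fermat.Agent.S59.TW.H658.sym L η₁) z + dz (_root_.Fermat.Agent.S59.TW.H658.sym L η₂) z := by
  have h : _root_.Fermat.Agent.S59.TW.H658.sym L (fun w => η₁ w + η₂ w) =ᶠ[𝓝 z] fun w => _root_.Fermat.Agent.S59.TW.H658.sym L η₁ w + _root_.Fermat.Agent.S59.TW.H658.sym L η₂ w := by
    filter_upwards [isOpen_Uhp.mem_nhds hz] with w hw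
    exact _root_.Fermat.Agent.S59.TW.H658.sym_add L h₁ h₂ w hw
  rw [dz_congr h, dz_add (_root_.Fermat.Agent.S59.TW.H658.differentiableAt_sym L h₁ hz) (_root_.Fermat.Agent.S59.TW.H658.differentiableAt_sym L h₂ hz)]

theorem dz_sym_smul {η : ℂ → ℝ} (hη : IsTest η) (c : ℝ) {z : ℂ} (hz : z ∈ Uhp) :
    dz (_root_.Fermat.Agent.S59.TW.H658.sym L (fun w => c * η w)) z = c * dz (_root_.Fermat.Agent.S59.TW.H658.sym L η) z := by
  have h : _root_.Fermat.Agent.S59.TW.H658.sym L (fun w => c * η w) =ᶠ[𝓝 z] fun w => c * _root_.Fermat.Agent.S59.TW.H658.sym L η w := by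
    filter_upwards [isOpen_Uhp.mem_nhds hz] with w hw
    exact _root_.Fermat.Agent.S59.TW.H658.sym_smul L hη c w hw
  rw [dz_congr h, _root_.Fermat.Agent.S59.TW.H658.dz_const_mul (_root_.Fermat.Agent.S59.TW.H658.differentiableAt_sym L hη hz)]

/-- The space of (classes of) `dz` of symmetrized test functions. -/
noncomputable def Vsub (hχ : IsSL2ZPartition χ₁) : Submodule ℝ (Lp ℂ 2 (_root_.Fermat.Agent.S59.TW.H658.nu L χ₁)) where
  carrier := {x | ∃ η : ℂ → ℝ, ∃ hη : IsTest η, x = (_root_.Fermat.Agent.S59.TW.H658.memLp_sym L hχ hη).toLp _}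
  zero_mem' := by
    refine ⟨fun _ => 0, _root_.Fermat.Agent.S59.TW.H658.isTest_zero, ?_⟩
    have h0 : MemLp (0 : ℂ → ℂ) 2 (_root_.Fermat.Agent.S59.TW.H658.nu L χ₁) := MemLp.zero
    rw [← MemLp.toLp_zero h0]
    refine MemLp.toLp_congr _ _ (ae_of_all _ fun z => ?_)
    by_cases hz : z ∈ Uhp
    · rw [Set.indicator_of_mem hz]
      have h : _root_.Fermat.Agent.S59.TW.H658.sym L (fun _ => (0 : ℝ)) =ᶠ[𝓝 z] fun _ => (0 : ℝ) := by
        refine Filter.Eventually.of_forall fun w => ?_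
        simp [_root_.Fermat.Agent.S59.TW.H658.sym]
      rw [dz_congr h, _root_.Fermat.Agent.S59.TW.H658.dz_zero]
      rfl
    · rw [Set.indicator_of_notMem hz]
      rfl
  add_mem' := by
    rintro x y ⟨η₁, h₁, rfl⟩ ⟨η₂, h₂, rfl⟩
    refine ⟨fun w => η₁ w + η₂ w, _root_.Fermat.Agent.S59.TW.H658.isTest_add h₁ h₂, ?_⟩
    rw [← MemLp.toLp_add]
    refine MemLp.toLp_congr _ _ (ae_of_all _ fun z => ?_)
    by_cases hz : z ∈ Uhp
    · simp only [Pi.add_apply, Set.indicator_of_mem hz]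
      rw [_root_.Fermat.Agent.S59.TW.H658.dz_sym_add L h₁ h₂ hz]
    · simp only [Pi.add_apply, Set.indicator_of_notMem hz, add_zero]
  smul_mem' := by
    rintro c x ⟨η, hη, rfl⟩
    refine ⟨fun w => c * η w, _root_.Fermat.Agent.S59.TW.H658.isTest_smul hη c, ?_⟩
    rw [← MemLp.toLp_const_smul]
    refine MemLp.toLp_congr _ _ (ae_of_all _ fun z => ?_)
    by_cases hz : z ∈ Uhp
    · simp only [Pi.smul_apply, Set.indicator_of_mem hz]
      rw [_root_.Fermat.Agent.S59.TW.H658.dz_sym_smul L hη c hz]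
      simp
    · simp only [Pi.smul_apply, Set.indicator_of_notMem hz, smul_zero]

end Sub

end Fermat.Agent.S59.TW.H658

namespace Fermat.Agent.S59.TW.H658

open Fermat.Agent.S21

section Main

variable (L : Lev) {χ₁ : ℂ → ℝ}

/-- invariance of `dz (sym η)` -/
theorem dz_sym_inv {η : ℂ → ℝ} (hη : IsTest η) (γ : L.Γ) {z : ℂ} (hz : z ∈ Uhp) :
    dz (_root_.Fermat.Agent.S59.TW.H658.sym L η) (mob (γ : SL(2, ℤ)) z) = (cd (γ : SL(2, ℤ)) z) ^ 2 * dz (_root_.Fermat.Agent.S59.TW.H658.sym L η) z := by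
  refine asm_dz_inv ((_root_.Fermat.Agent.S59.TW.H658.contDiffOn_sym L hη).of_le (by norm_cast)) 0 (γ : SL(2, ℤ)) (fun w => ?_) hz
  rw [← mob_coe, _root_.Fermat.Agent.S59.TW.H658.sym_mob L hη γ _ (coe_mem_Uhp w), add_zero]

/-- The local `L²` estimate for differences of symmetrized test functions. -/
theorem ms_local (hχ : IsSL2ZPartition χ₁) {η₁ η₂ : ℂ → ℝ} (h₁ : IsTest η₁) (h₂ : IsTest η₂)
    (K : Set ℂ) (hK : IsCompact K) (hKU : K ⊆ Uhp) (M : ℕ)
    (hM : ∀ w ∈ Uhp, {g : SL(2, ℤ) | mob g w ∈ K}.encard ≤ M) :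
    ∫ z in K, ‖dz (_root_.Fermat.Agent.S59.TW.H658.sym L η₁) z - dz (_root_.Fermat.Agent.S59.TW.H658.sym L η₂) z‖ ^ 2
      ≤ M * ‖(_root_.Fermat.Agent.S59.TW.H658.memLp_sym L hχ h₁).toLp _ - (_root_.Fermat.Agent.S59.TW.H658.memLp_sym L hχ h₂).toLp _‖ ^ 2 := by
  set G : ℂ → ℂ := fun z => dz (_root_.Fermat.Agent.S59.TW.H658.sym L η₁) z - dz (_root_.Fermat.Agent.S59.TW.H658.sym L η₂) z with hG
  have hGc : ContinuousOn G Uhp := (_root_.Fermat.Agent.S59.TW.H658.continuousOn_dz_sym L h₁).sub (_root_.Fermat.Agent.S59.TW.H658.continuousOn_dz_sym L h₂)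
  have hmem : MemLp (Set.indicator Uhp G) 2 (_root_.Fermat.Agent.S59.TW.H658.nu L χ₁) := by
    have := (_root_.Fermat.Agent.S59.TW.H658.memLp_sym L hχ h₁).sub (_root_.Fermat.Agent.S59.TW.H658.memLp_sym L hχ h₂)
    refine this.ae_eq (ae_of_all _ fun z => ?_)
    by_cases hz : z ∈ Uhp
    · simp [Set.indicator_of_mem hz, hG]
    · simp [Set.indicator_of_notMem hz]
  have hfin := _root_.Fermat.Agent.S59.TW.H658.integrable_of_memLp_indicator L hχ hGc hmem
  have hinv : ∀ γ : L.Γ, ∀ z ∈ Uhp,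
      G (mob (γ : SL(2, ℤ)) z) = (cd (γ : SL(2, ℤ)) z) ^ 2 * G z := by
    intro γ z hz
    simp only [hG]
    rw [_root_.Fermat.Agent.S59.TW.H658.dz_sym_inv L h₁ γ hz, _root_.Fermat.Agent.S59.TW.H658.dz_sym_inv L h₂ γ hz]
    ring
  have hfold := _root_.Fermat.Agent.S59.TW.H658.folding L hχ G hGc hinv hfin K hK.measurableSet hKU M hM
  have heq : (_root_.Fermat.Agent.S59.TW.H658.memLp_sym L hχ h₁).toLp _ - (_root_.Fermat.Agent.S59.TW.H658.memLp_sym L hχ h₂).toLp _ = hmem.toLp _ := by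
    rw [← MemLp.toLp_sub]
    refine MemLp.toLp_congr _ _ (ae_of_all _ fun z => ?_)
    by_cases hz : z ∈ Uhp
    · simp [Set.indicator_of_mem hz, hG]
    · simp [Set.indicator_of_notMem hz]
  rw [heq, _root_.Fermat.Agent.S59.TW.H658.norm_sq_toLp_indicator L hχ hmem]
  exact hfold

end Main

end Fermat.Agent.S59.TW.H658

namespace Fermat.Agent.S59.TW.H658

open Fermat.Agent.S21

/-- **MS** (Dirichlet principle): an energy-minimizing sequence with periods `φ`. -/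
theorem exists_minimizing_sequence (L : Lev) (φ : Additive (L.Γ) →+ ℝ)
    (hφ : IsParabolicHom (L.Γ) φ) :
    ∃ u : ℕ → ℂ → ℝ,
      (∀ n, ContDiffOn ℝ ∞ (u n) Uhp) ∧
      (∀ n (γ : L.Γ) (z : ℍ),
          u n ↑((γ : SL(2, ℤ)) • z) = u n ↑z + φ (Additive.ofMul γ)) ∧
      (∀ K : Set ℂ, IsCompact K → K ⊆ Uhp → ∀ ε > 0, ∃ M, ∀ m ≥ M, ∀ n ≥ M,
          ∫ z in K, ‖dz (u n) z - dz (u m) z‖ ^ 2 < ε) ∧
      (∀ η : ℂ → ℝ, ContDiff ℝ ∞ η → HasCompactSupport η → tsupport η ⊆ Uhp →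
          Tendsto (fun n => ∫ z, (fderiv ℝ (u n) z 1 * fderiv ℝ η z 1
              + fderiv ℝ (u n) z Complex.I * fderiv ℝ η z Complex.I)) atTop (𝓝 0)) ∧
      (∀ δ : SL(2, ℤ), ∃ C : ℝ, ∀ n, ∀ Y : ℝ,
          ∫ z in strip Y, ‖dz (u n) (mob δ z)‖ ^ 2 / ‖cd δ z‖ ^ 4 ≤ C) := by
  obtain ⟨χ₁, hχ⟩ := _root_.Fermat.Agent.S59.TW.H658.exists_isSL2ZPartition
  obtain ⟨u₀, hu₀, hper₀, hcusp₀⟩ := _root_.Fermat.Agent.S59.TW.H658.exists_u0 L φ hφ
  have hu₀1 : ContDiffOn ℝ 1 u₀ Uhp := hu₀.of_le (by norm_cast)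
  have hE₀ := _root_.Fermat.Agent.S59.TW.H658.integrable_energy_u0 L hχ u₀ hu₀ hcusp₀
  have ha := _root_.Fermat.Agent.S59.TW.H658.memLp_indicator L hχ (continuousOn_dz hu₀1) hE₀
  obtain ⟨v, hvV, hvC, hvO, hvB⟩ := abstract_dirichlet (ha.toLp _) (_root_.Fermat.Agent.S59.TW.H658.Vsub L hχ)
  choose η hη hv using hvV
  -- the functions
  set u : ℕ → ℂ → ℝ := fun n z => u₀ z + _root_.Fermat.Agent.S59.TW.H658.sym L (η n) z with hu
  have hu_smooth : ∀ n, ContDiffOn ℝ ∞ (u n) Uhp := fun n =>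
    hu₀.add (_root_.Fermat.Agent.S59.TW.H658.contDiffOn_sym L (hη n))
  have hu1 : ∀ n, ContDiffOn ℝ 1 (u n) Uhp := fun n => (hu_smooth n).of_le (by norm_cast)
  have hu_per : ∀ n (γ : L.Γ) (z : ℍ),
      u n ↑((γ : SL(2, ℤ)) • z) = u n ↑z + φ (Additive.ofMul γ) := by
    intro n γ z
    simp only [hu]
    rw [hper₀ γ z, ← mob_coe, _root_.Fermat.Agent.S59.TW.H658.sym_mob L (hη n) γ _ (coe_mem_Uhp z)]
    ring
  have hdz : ∀ n, ∀ z ∈ Uhp, dz (u n) z = dz u₀ z + dz (_root_.Fermat.Agent.S59.TW.H658.sym L (η n)) z := by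
    intro n z hz
    exact dz_add ((hu₀1.differentiableOn one_ne_zero).differentiableAt
      (isOpen_Uhp.mem_nhds hz)) (_root_.Fermat.Agent.S59.TW.H658.differentiableAt_sym L (hη n) hz)
  -- the class of `dz (u n)`
  have hmem : ∀ n, MemLp (Set.indicator Uhp (dz (u n))) 2 (_root_.Fermat.Agent.S59.TW.H658.nu L χ₁) := by
    intro n
    refine (ha.add (_root_.Fermat.Agent.S59.TW.H658.memLp_sym L hχ (hη n))).ae_eq (ae_of_all _ fun z => ?_)
    by_cases hz : z ∈ Uhp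
    · simp [Set.indicator_of_mem hz, hdz n z hz]
    · simp [Set.indicator_of_notMem hz]
  have hclass : ∀ n, ha.toLp _ + v n = (hmem n).toLp _ := by
    intro n
    rw [hv n, ← MemLp.toLp_add]
    refine MemLp.toLp_congr _ _ (ae_of_all _ fun z => ?_)
    by_cases hz : z ∈ Uhp
    · simp [Set.indicator_of_mem hz, hdz n z hz]
    · simp [Set.indicator_of_notMem hz]
  have hinv : ∀ n (γ : L.Γ), ∀ z ∈ Uhp,
      dz (u n) (mob (γ : SL(2, ℤ)) z) = (cd (γ : SL(2, ℤ)) z) ^ 2 * dz (u n) z :=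
    fun n γ z hz => asm_dz_inv (hu1 n) _ (γ : SL(2, ℤ)) (hu_per n γ) hz
  have hfin : ∀ n, Integrable (fun z => ‖dz (u n) z‖ ^ 2 * _root_.Fermat.Agent.S59.TW.H658.chi L χ₁ z) := fun n =>
    _root_.Fermat.Agent.S59.TW.H658.integrable_of_memLp_indicator L hχ (continuousOn_dz (hu1 n)) (hmem n)
  refine ⟨u, hu_smooth, hu_per, ?_, ?_, ?_⟩
  · -- local Cauchy
    intro K hK hKU ε hε
    obtain ⟨M, hM⟩ := _root_.Fermat.Agent.S59.TW.H658.mult_compact K hK hKU
    obtain ⟨M₀, hM₀⟩ := hvC (ε / (M + 1)) (by positivity)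
    refine ⟨M₀, fun m hm n hn => ?_⟩
    have h1 := _root_.Fermat.Agent.S59.TW.H658.ms_local L hχ (hη n) (hη m) K hK hKU M hM
    rw [← hv n, ← hv m] at h1
    have h2 := hM₀ m hm n hn
    have h3 : ∫ z in K, ‖dz (u n) z - dz (u m) z‖ ^ 2
        = ∫ z in K, ‖dz (_root_.Fermat.Agent.S59.TW.H658.sym L (η n)) z - dz (_root_.Fermat.Agent.S59.TW.H658.sym L (η m)) z‖ ^ 2 := by
      refine setIntegral_congr_fun hK.measurableSet fun z hz => ?_
      show ‖dz (u n) z - dz (u m) z‖ ^ 2 = ‖dz (_root_.Fermat.Agent.S59.TW.H658.sym L (η n)) z - dz (_root_.Fermat.Agent.S59.TW.H658.sym L (η m)) z‖ ^ 2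
      rw [hdz n z (hKU hz), hdz m z (hKU hz)]
      congr 2
      ring
    rw [h3]
    have hMpos : (0 : ℝ) ≤ M := Nat.cast_nonneg M
    calc ∫ z in K, ‖dz (_root_.Fermat.Agent.S59.TW.H658.sym L (η n)) z - dz (_root_.Fermat.Agent.S59.TW.H658.sym L (η m)) z‖ ^ 2
        ≤ M * ‖v n - v m‖ ^ 2 := h1
      _ ≤ M * (ε / (M + 1)) := by gcongr
      _ < ε := by
        rw [← mul_div_assoc, div_lt_iff₀ (by positivity)]
        nlinarith
  · -- weak harmonicity
    intro η' h1 h2 h3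
    have hη' : IsTest η' := ⟨h1, h2, h3⟩
    have hw : (_root_.Fermat.Agent.S59.TW.H658.memLp_sym L hχ hη').toLp _ ∈ _root_.Fermat.Agent.S59.TW.H658.Vsub L hχ := ⟨η', hη', rfl⟩
    have := hvO _ hw
    refine this.congr fun n => ?_
    rw [hclass n, _root_.Fermat.Agent.S59.TW.H658.inner_toLp_indicator L hχ (hmem n) (_root_.Fermat.Agent.S59.TW.H658.memLp_sym L hχ hη')]
    simp_rw [_root_.Fermat.Agent.S59.TW.H658.inner_dz]
    exact _root_.Fermat.Agent.S59.TW.H658.unfolding L hχ (u n) (hu1 n) (hinv n) hη'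
  · -- cusp bound
    intro δ
    refine ⟨10 * (‖ha.toLp _‖ ^ 2 + 1), fun n Y => ?_⟩
    have hcv := setIntegral_mob δ (strip Y) (isCompact_strip Y).measurableSet
      (strip_subset_Uhp Y) (fun w => ‖dz (u n) w‖ ^ 2)
    rw [hcv]
    have hAc : IsCompact (mob δ '' strip Y) :=
      (isCompact_strip Y).image_of_continuousOn
        ((continuousOn_mob δ).mono (strip_subset_Uhp Y))
    have hAU : mob δ '' strip Y ⊆ Uhp := by
      rintro _ ⟨z, -, rfl⟩
      exact mob_mem_Uhp δ z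
    have hfold := _root_.Fermat.Agent.S59.TW.H658.folding L hχ (dz (u n)) (continuousOn_dz (hu1 n)) (hinv n) (hfin n) _
      hAc.measurableSet hAU 10 (fun w hw => by exact_mod_cast _root_.Fermat.Agent.S59.TW.H658.mult_strip δ Y w hw)
    have hnorm := _root_.Fermat.Agent.S59.TW.H658.norm_sq_toLp_indicator L hχ (hmem n)
    rw [← hclass n] at hnorm
    have hB := hvB n
    calc ∫ w in mob δ '' strip Y, ‖dz (u n) w‖ ^ 2
        ≤ ((10 : ℕ) : ℝ) * ∫ z, ‖dz (u n) z‖ ^ 2 * _root_.Fermat.Agent.S59.TW.H658.chi L χ₁ z := hfold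
      _ = 10 * ‖ha.toLp _ + v n‖ ^ 2 := by rw [hnorm]; norm_num
      _ ≤ 10 * (‖ha.toLp _‖ ^ 2 + 1) := by gcongr

end Fermat.Agent.S59.TW.H658

end
-- ===== PACK-END S59/TW/H658/MSAssembly.lean

-- ===== PACK-BEGIN S58/H94/EigChar.lean
section


/-!
# Row S58 (helper94): the eigencharacter of a normalized eigenform on the Hecke algebra away
from `S`, and the control of its range

* `chigOf hh S : heckeAlgebra M 2 S →+* ℂ`, `chigOf_T`;
* `chigOf_range_le` : if `S` contains the primes of `M` and `a_ℓ ∈ R` for all `ℓ ∉ S`, `ℓ ∤ M`,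
  then the range of `chigOf hh S` is contained in the subring `R`;
* `isIntegral_qCoeff_h94` : `a_ℓ` is an algebraic integer (`ℓ ∤ M`).
-/

set_option autoImplicit false

namespace Fermat.Agent.S58.H94

open CuspForm CongruenceSubgroup ModularFormClass

variable {M : ℕ} [NeZero M]

/-- The eigencharacter on the Hecke algebra away from `S`. -/
noncomputable def chigOf {h : CuspForm (Gamma0 M) 2} (hh : h.IsNormalizedEigenform) (S : Set ℕ) :
    heckeAlgebra M 2 S →+* ℂ :=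
  (Fermat.Agent.Lib.Ribet.H404.eigenChar hh).comp
    (Subalgebra.inclusion (heckeAlgebra_mono (N := M) (k := 2) (Set.empty_subset S))).toRingHom

theorem chigOf_T {h : CuspForm (Gamma0 M) 2} (hh : h.IsNormalizedEigenform) (S : Set ℕ)
    {ℓ : ℕ} (hℓ : ℓ.Prime) (hℓM : ¬ ℓ ∣ M) (hℓS : ℓ ∉ S) :
    chigOf hh S (heckeAlgebra.T hℓ hℓM hℓS) = qCoeff ⇑h ℓ := by
  have : (Subalgebra.inclusion (heckeAlgebra_mono (N := M) (k := 2) (Set.empty_subset S)))
      (heckeAlgebra.T hℓ hℓM hℓS) = heckeAlgebra.T hℓ hℓM (Set.notMem_empty _) :=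
    Subtype.ext rfl
  show Fermat.Agent.Lib.Ribet.H404.eigenChar hh
    ((Subalgebra.inclusion (heckeAlgebra_mono (N := M) (k := 2) (Set.empty_subset S)))
      (heckeAlgebra.T hℓ hℓM hℓS)) = _
  rw [this, Fermat.Agent.Lib.Ribet.H404.eigenChar_T]

theorem chigOf_mem {h : CuspForm (Gamma0 M) 2} (hh : h.IsNormalizedEigenform) (S : Set ℕ)
    (R : Subring ℂ)
    (hR : ∀ ℓ : ℕ, ℓ.Prime → ¬ ℓ ∣ M → ℓ ∉ S → qCoeff ⇑h ℓ ∈ R)
    (hS : ∀ q : ℕ, q.Prime → q ∣ M → q ∈ S) (t : heckeAlgebra M 2 S) :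
    chigOf hh S t ∈ R := by
  obtain ⟨t, ht⟩ := t
  induction ht using Algebra.adjoin_induction with
  | mem x hx =>
    rcases hx with ⟨ℓ, hℓ, hℓN, hℓS, rfl⟩ | ⟨q, hqN, hq, hqS, rfl⟩
    · have := chigOf_T hh S hℓ hℓN hℓS
      have e : (⟨heckeTLin 2 hℓ hℓN, Algebra.subset_adjoin
          (heckeTLin_mem_heckeGenerators hℓ hℓN hℓS)⟩ : heckeAlgebra M 2 S)
          = heckeAlgebra.T hℓ hℓN hℓS := rfl
      rw [e, this]
      exact hR ℓ hℓ hℓN hℓS
    · exact absurd (hS q hq hqN) hqS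
  | algebraMap r =>
    have e : (⟨algebraMap ℤ _ r, Subalgebra.algebraMap_mem _ r⟩ : heckeAlgebra M 2 S)
        = ((r : ℤ) : heckeAlgebra M 2 S) := by
      apply Subtype.ext
      simp
    rw [e, map_intCast]
    exact intCast_mem R r
  | add x y hx hy ihx ihy =>
    have e : (⟨x + y, Subalgebra.add_mem _ hx hy⟩ : heckeAlgebra M 2 S)
        = (⟨x, hx⟩ : heckeAlgebra M 2 S) + ⟨y, hy⟩ := rfl
    rw [e, map_add]
    exact R.add_mem ihx ihy
  | mul x y hx hy ihx ihy =>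
    have e : (⟨x * y, Subalgebra.mul_mem _ hx hy⟩ : heckeAlgebra M 2 S)
        = (⟨x, hx⟩ : heckeAlgebra M 2 S) * ⟨y, hy⟩ := rfl
    rw [e, map_mul]
    exact R.mul_mem ihx ihy

theorem chigOf_range_le {h : CuspForm (Gamma0 M) 2} (hh : h.IsNormalizedEigenform) (S : Set ℕ)
    (R : Subring ℂ)
    (hR : ∀ ℓ : ℕ, ℓ.Prime → ¬ ℓ ∣ M → ℓ ∉ S → qCoeff ⇑h ℓ ∈ R)
    (hS : ∀ q : ℕ, q.Prime → q ∣ M → q ∈ S) : (chigOf hh S).range ≤ R := by
  rintro x ⟨t, rfl⟩
  exact chigOf_mem hh S R hR hS t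

/-- The eigenvalue `a_ℓ` of a normalized eigenform is an algebraic integer (`ℓ ∤ M`). -/
theorem isIntegral_qCoeff_h94 {h : CuspForm (Gamma0 M) 2} (hh : h.IsNormalizedEigenform)
    {ℓ : ℕ} (hℓ : ℓ.Prime) (hℓM : ¬ ℓ ∣ M) : IsIntegral ℤ (qCoeff ⇑h ℓ) := by
  have := Fermat.Agent.Lib.Ribet.H404.ringHom_mem_integralClosure
    (Fermat.Agent.Lib.Ribet.H404.eigenChar hh) (heckeAlgebra.T hℓ hℓM (Set.notMem_empty _))
  rw [Fermat.Agent.Lib.Ribet.H404.eigenChar_T] at this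
  exact this

end Fermat.Agent.S58.H94

end
-- ===== PACK-END S58/H94/EigChar.lean

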