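import Mathlib
import Fermat.Prelude.Def_ModularCurve_HeckeModule
import Fermat.Prelude.Thm_CuspForm_heckeTLin_comm
import Fermat.Agent.Pack.S43MC.G0E20L2
import Fermat.Agent.Pack.S43MC.G0E17L3
import Fermat.Agent.Pack.S43MC.G0E16L2
import Fermat.Agent.Pack.S43MC.G0E18L2
import Fermat.Agent.Pack.S43MC.G0E10L2
import Fermat.Agent.Pack.S43MC.G0E13L2
import Fermat.Agent.Pack.S43MC.G0E10L3
import Fermat.Agent.Pack.S43MC.G0E13L0
import Fermat.Agent.Pack.S43MC.G0E16L1
import Fermat.Agent.Pack.S43MC.G0E13L1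
import Fermat.Agent.Pack.S43MC.G0E15L0
import Fermat.Agent.Pack.S43MC.G0E15L2
import Fermat.Agent.Pack.S43MC.G0E16L3
import Fermat.Agent.Pack.S43MC.G0E18L0
import Fermat.Agent.Pack.S43MC.G0E19L1
import Fermat.Agent.Pack.S43MC.G0E9L3
import Fermat.Agent.Pack.S43MC.G0E5L2
import Fermat.Agent.Pack.S44C.G0E23L1
import Fermat.Agent.Pack.S43MC.G0E20L3
import Fermat.Agent.Pack.S43MC.G0E11L2
import Fermat.Agent.Pack.S44C.G0E3L1
import Fermat.Agent.Pack.S44C.G0E22L2
import Fermat.Agent.Pack.S44C.G0E6L3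
import Fermat.Agent.Pack.S44C.G0E22L1
import Fermat.Agent.Pack.S44C.G0E12L2
import Fermat.Agent.Pack.S44C.G0E9L2
import Fermat.Agent.Pack.S43MC.G0E2L0
import Fermat.Agent.Pack.S44C.G0E2L0
import Fermat.Agent.Pack.S43MC.G0E12L3
import Fermat.Agent.Pack.S43MC.G0E3L1
import Fermat.Agent.Pack.S43MC.G0E20L0
import Fermat.Agent.Pack.S43GC.G0E9L3
import Fermat.Agent.Pack.S43GC.G0E15L3
import Fermat.Agent.Pack.Fast891

-- ===== PACK-BEGIN S25/H507/Chart.lean
section


set_option autoImplicit false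

universe u

open AlgebraicGeometry CategoryTheory TopologicalSpace Opposite NeronModelInfra

namespace Fermat.Agent.S25.H507

section Chart

variable (k : Type u) [Field k] [IsAlgClosed k] {C : Scheme.{u}}
  (c : C ⟶ Spec (CommRingCat.of k)) [IsProper c] [SmoothOfRelativeDimension 1 c] [IsIntegral C]
  (ε : SchemeHomOver (𝟙 (Spec (CommRingCat.of k))) c)

omit [IsAlgClosed k] [IsProper c] [IsIntegral C] in
lemma smooth_sections {U : C.Opens} (hU : IsAffineOpen U) :
    letI := (sectionsStr c U).toAlgebra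
    Algebra.Smooth k Γ(C, U) := by
  have : Smooth c := SmoothOfRelativeDimension.smooth 1 c
  have h := Fermat.Agent.S25.H747.sectionMap_smooth c hU
  rw [sectionMap_eq_sectionsStr] at h
  exact h

omit [IsProper c] in
lemma omega_invertible_sections {U : C.Opens} (hU : IsAffineOpen U) (hne : Nonempty U) :
    letI := (sectionsStr c U).toAlgebra
    Module.Invertible Γ(C, U) Ω[Γ(C, U)⁄k] := by
  let _ := (sectionsStr c U).toAlgebra
  have : Smooth c := SmoothOfRelativeDimension.smooth 1 c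
  have hft : Algebra.FiniteType k Γ(C, U) := by
    have h := Fermat.Agent.S25.H747.sectionMap_finiteType c hU
    rw [sectionMap_eq_sectionsStr] at h
    exact h
  have hloc : RingHom.Locally (RingHom.IsStandardSmoothOfRelativeDimension 1)
      (algebraMap k Γ(C, U)) := by
    have h := Fermat.Agent.S25.H747.sectionMap_locally_isStandardSmoothOfRelativeDimension c hU
    rw [sectionMap_eq_sectionsStr] at h
    exact h
  exact Fermat.Agent.S25.H207.invertible_kaehlerDifferential hloc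

omit [IsAlgClosed k] [IsProper c] [SmoothOfRelativeDimension 1 c] [IsIntegral C] in
lemma resRing_sectionsStr {U V : C.Opens} (h : V ≤ U) (a : k) :
    resRing h (sectionsStr c U a) = sectionsStr c V a := by
  simp only [resRing, sectionsStr, CommRingCat.hom_comp, RingHom.comp_apply]
  rw [← CommRingCat.comp_apply, ← Functor.map_comp]
  rfl

omit [IsAlgClosed k] [IsProper c] [SmoothOfRelativeDimension 1 c] [IsIntegral C] in
lemma aeval_finite_of_secLineHom_finite (U : C.Opens) (x : Γ(C, U))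
    (h : (secLineHom c U x).Finite) :
    letI := (sectionsStr c U).toAlgebra
    (Polynomial.aeval x : Polynomial k →ₐ[k] Γ(C, U)).Finite := by
  let _ := (sectionsStr c U).toAlgebra
  have e : secLineHom c U x = (Polynomial.aeval (R := k) x).toRingHom := by
    apply Polynomial.ringHom_ext
    · intro a
      simp [secLineHom, kSec_eq_sectionsStr, RingHom.algebraMap_toAlgebra]
    · simp [secLineHom]
  rw [e] at h
  exact h

/-- The two-chart presentation attached to a nonconstant function with a pole at `ε`. -/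
noncomputable def chartOfPole (t : C.functionField) (ht : t ∉ Set.range (kToK c))
    (hmem : epsPoint k c ε ∈ regOpen C t⁻¹)
    (hvan : epsPoint k c ε ∉ C.basicOpen (regSection C t⁻¹)) : ChartOf c ε :=
  have h := curve_two_charts_of_not_mem_range k c ht
  letI a₀ : Algebra k Γ(C, regOpen C t) := (sectionsStr c (regOpen C t)).toAlgebra
  letI a₁ : Algebra k Γ(C, regOpen C t⁻¹) := (sectionsStr c (regOpen C t⁻¹)).toAlgebra
  letI a₀₁ : Algebra k Γ(C, regOpen C t ⊓ regOpen C t⁻¹) :=
    (sectionsStr c (regOpen C t ⊓ regOpen C t⁻¹)).toAlgebra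
  letI aL : Algebra Γ(C, regOpen C t) Γ(C, regOpen C t ⊓ regOpen C t⁻¹) :=
    (resRing (inf_le_left : regOpen C t ⊓ regOpen C t⁻¹ ≤ regOpen C t)).toAlgebra
  letI aR : Algebra Γ(C, regOpen C t⁻¹) Γ(C, regOpen C t ⊓ regOpen C t⁻¹) :=
    (resRing (inf_le_right : regOpen C t ⊓ regOpen C t⁻¹ ≤ regOpen C t⁻¹)).toAlgebra
  have hmemtop : ε.1 ⁻¹ᵁ (regOpen C t⁻¹) = ⊤ := eps_preimage_eq_top k c ε _ hmem
  { B₀ := Γ(C, regOpen C t)
    B₁ := Γ(C, regOpen C t⁻¹)
    B₀₁ := Γ(C, regOpen C t ⊓ regOpen C t⁻¹)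
    commRing₀ := inferInstance
    commRing₁ := inferInstance
    commRing₀₁ := inferInstance
    algebra₀ := a₀
    algebra₁ := a₁
    algebra₀₁ := a₀₁
    algebraL := aL
    algebraR := aR
    towerL := IsScalarTower.of_algebraMap_eq fun a => (resRing_sectionsStr k c _ a).symm
    towerR := IsScalarTower.of_algebraMap_eq fun a => (resRing_sectionsStr k c _ a).symm
    x := regSection C t
    y := regSection C t⁻¹
    e :=
      { toRingHom := evalAt c ε (regOpen C t⁻¹) hmemtop
        commutes' := fun a => evalAt_sectionsStr k c ε _ hmemtop a }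
    isCurveChart :=
      { isDomain₀ := inferInstance
        isDomain₁ := inferInstance
        away₀ := away_of_eq_basicOpen h.1 (regSection C t) _ inf_le_left h.2.2.2.1.symm
        away₁ := away_of_eq_basicOpen h.2.1 (regSection C t⁻¹) _ inf_le_right h.2.2.2.2.1.symm
        mul_eq_one := h.2.2.2.2.2.1
        finite₀ := aeval_finite_of_secLineHom_finite k c _ _ h.2.2.2.2.2.2.1
        finite₁ := aeval_finite_of_secLineHom_finite k c _ _ h.2.2.2.2.2.2.2.1
        smooth₀ := smooth_sections k c h.1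
        smooth₁ := smooth_sections k c h.2.1
        omega₀ := omega_invertible_sections k c h.1 inferInstance
        omega₁ := omega_invertible_sections k c h.2.1 inferInstance
        e_y := evalAt_eq_zero k c ε _ hmemtop _ hvan }
    U₀ := regOpen C t
    U₁ := regOpen C t⁻¹
    isAffine₀ := h.1
    isAffine₁ := h.2.1
    cover := h.2.2.1
    i₀ := RingEquiv.refl _
    i₁ := RingEquiv.refl _
    i₀₁ := RingEquiv.refl _
    i₀_str := fun _ => rfl
    i₁_str := fun _ => rfl
    i₀₁_res₀ := fun _ => rfl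
    i₀₁_res₁ := fun _ => rfl
    inf_eq₀ := h.2.2.2.1.symm
    inf_eq₁ := h.2.2.2.2.1.symm
    eps_mem := hmemtop
    e_eq := fun _ => rfl }

/-- **CHART (BR1)**: the curve of S25 has a two-chart presentation. -/
theorem stmt_chart : Stmt.Chart c ε := by
  obtain ⟨t, ht, hmem, hvan⟩ := exists_pole_at_eps k c ε
  exact ⟨chartOfPole k c ε t ht hmem hvan⟩

end Chart

end Fermat.Agent.S25.H507

end
-- ===== PACK-END S25/H507/Chart.lean

-- ===== PACK-BEGIN S27/H386/DictAll.lean
section
/-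
Row S27, block GRP (helper386): the S25 dictionary, unconditionally, for a chart of a proper
smooth integral curve over an algebraically closed field (all six clauses are theorems of
row S25 on main; `DictDeg` is re-derived as in `S25/Assembly/Final.lean`).
-/



















set_option autoImplicit false

open CategoryTheory CategoryTheory.Limits AlgebraicGeometry AlgebraicGeometry.RelPicard
  NeronModelInfra GoodReductionJacobian
open scoped TensorProduct

universe u

namespace Fermat.Agent.S27.H386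

open Fermat.Agent.S25

/-- **The S25 dictionary**, unconditionally. -/
theorem dict_all (k : Type u) [Field k] [IsAlgClosed k] {C : Scheme.{u}}
    (c : C ⟶ Spec (CommRingCat.of k)) [IsProper c] [SmoothOfRelativeDimension 1 c]
    [IsIntegral C] (ε : SchemeHomOver (𝟙 (Spec (CommRingCat.of k))) c) (Ch : ChartOf c ε) :
    Dict Ch := by
  have hSheafGlue : Stmt.SheafGlue c ε := H146.sheafGlue k c ε
  have hAA2 : H747.StmtAA2 k Ch.B₀ Ch.B₁ Ch.B₀₁ := H927.stmtAA2
  have hAA6 : H747.StmtAA6 k Ch.B₀ Ch.B₁ Ch.B₀₁ := H206.stmtAA6 k Ch.B₀ Ch.B₁ Ch.B₀₁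
  have hGlue : Stmt.DictGlue Ch := H505.dictGlue Ch
  have hSec : Stmt.DictSections Ch := H505.dictSections Ch
  have hUnit : H687.DictUnit Ch := fun A _ _ => H566.dictUnit Ch A
  have hIso : Stmt.DictIso Ch := H986.dictIso Ch
  have hBC : Stmt.DictBC Ch := H505.dictBC Ch
  have hEx : Stmt.AlgBCExists Ch := H265.algBCExists Ch
  have hId : H687.BCId k Ch.B₀ Ch.B₁ Ch.B₀₁ := fun A _ _ G => H265.curveGD_isBC_id G
  have hComp : H687.BCComp k Ch.B₀ Ch.B₁ Ch.B₀₁ :=
    fun A A' A'' _ _ _ _ _ _ φ ψ G G' G'' h h' => H265.curveGD_isBC_comp h h'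
  have hDegIso : H687.DegIso k Ch.B₀ Ch.B₁ Ch.B₀₁ :=
    fun K _ _ G G' h => H265.degree_eq_of_isIso h
  have hDegConst : H687.DegConst k Ch.B₀ Ch.B₁ Ch.B₀₁ := H550.degConst
  have hAA4 : H747.StmtAA4 k Ch.B₀ Ch.B₁ Ch.B₀₁ := fun x y e hC g A _ _ P 𝔭 h𝔭 =>
    H266.abelDatum_locRig_of_isBC e g A P (fun A' _ _ ψ => hAA2 x y e hC g A A' ψ P) 𝔭 h𝔭
  obtain ⟨𝔉⟩ := H747.algAbel_of_leaves hAA2 hAA4 hAA6 Ch.x Ch.y Ch.e Ch.isCurveChart
  have hAbelAlg : H687.AbelAlg Ch :=
    H567.abelAlg Ch 𝔉 hSheafGlue (H146.sheafSep k c ε) hGlue hIso hBC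
      (fun A _ _ => H566.dictUnit Ch A)
  have hDeg : Stmt.DictDeg Ch :=
    H687.dictDeg_final Ch hSec hIso hBC hEx hUnit hId hComp hDegIso hDegConst hAbelAlg
  exact ⟨hSec, hGlue, hIso, hBC, hDeg, hUnit⟩

end Fermat.Agent.S27.H386

end
-- ===== PACK-END S27/H386/DictAll.lean

-- ===== PACK-BEGIN S27/H506/PtsDict.lean
section




















/-!
# Row S27, leaf PTS-DICT (helper506)

`ptsDict : Stmt.PtsDict k` : over the (algebraically closed) base field `k`, the `k`-points of
the Jacobian `D` of a curve with a two-chart presentation `Ch` are the gluing data of degree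
zero up to isomorphism, under the S25 dictionary `Corr`.

Formal from the S25 blocks on main: `DictSections`, `DictGlue`, `DictIso`, `DictDeg`
(assembled here exactly as in `S25.Assembly.result_final`), `DegConst` + `BCId`
(`Deg0 ↔ degree = 0` over the base field), local rigidifiability (over a field: global), and the
universal property of the representing object.
-/

set_option autoImplicit false
set_option linter.unusedSectionVars false
universe u
open CategoryTheory CategoryTheory.Limits AlgebraicGeometry AlgebraicGeometry.RelPicard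
  NeronModelInfra GoodReductionJacobian
open scoped TensorProduct

namespace Fermat.Agent.S27.H506

open Fermat.Agent.S25

variable {k : Type u} [Field k] {C : Scheme.{u}} {c : C ⟶ Spec (CommRingCat.of k)}
  {ε : SchemeHomOver (𝟙 (Spec (CommRingCat.of k))) c}

/-- `Corr` is invariant under isomorphism of the gluing datum. -/
theorem corr_of_isIso (Ch : ChartOf c ε) {A : Type u} [CommRing A] [Algebra k A]
    {L : (pullback c (specStr k A)).Modules} {G G' : CurveGD k Ch.B₀ Ch.B₁ Ch.B₀₁ A}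
    (h : Corr Ch A L G) (i : G.IsIso G') : Corr Ch A L G' := by
  obtain ⟨e₀, e₁, e₀₁, h₀, h₁, h₀₁, hr₀, hr₁⟩ := h
  obtain ⟨i⟩ := i
  refine ⟨e₀.trans i.e₀.toAddEquiv, e₁.trans i.e₁.toAddEquiv, e₀₁.trans i.e₀₁.toAddEquiv,
    ⟨fun a s => ?_, fun f s => ?_⟩, ⟨fun a s => ?_, fun f s => ?_⟩,
    ⟨fun a s => ?_, fun f s => ?_⟩, fun s => ?_, fun s => ?_⟩
  · show i.e₀ (e₀ _) = _ • i.e₀ (e₀ s)
    rw [h₀.1 a s, map_smul]
  · show i.e₀ (e₀ _) = _ • i.e₀ (e₀ s)
    rw [h₀.2 f s, map_smul]
  · show i.e₁ (e₁ _) = _ • i.e₁ (e₁ s)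
    rw [h₁.1 a s, map_smul]
  · show i.e₁ (e₁ _) = _ • i.e₁ (e₁ s)
    rw [h₁.2 f s, map_smul]
  · show i.e₀₁ (e₀₁ _) = _ • i.e₀₁ (e₀₁ s)
    rw [h₀₁.1 a s, map_smul]
  · show i.e₀₁ (e₀₁ _) = _ • i.e₀₁ (e₀₁ s)
    rw [h₀₁.2 f s, map_smul]
  · show i.e₀₁ (e₀₁ _) = G'.r₀ (i.e₀ (e₀ s))
    rw [hr₀ s, i.comm₀]
  · show i.e₀₁ (e₀₁ _) = G'.r₁ (i.e₁ (e₁ s))
    rw [hr₁ s, i.comm₁]

section Alg

variable {B₀ B₁ B₀₁ : Type u} [CommRing B₀] [CommRing B₁] [CommRing B₀₁]
  [Algebra k B₀] [Algebra k B₁] [Algebra k B₀₁] [Algebra B₀ B₀₁] [Algebra B₁ B₀₁]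
  [IsScalarTower k B₀ B₀₁] [IsScalarTower k B₁ B₀₁]

/-- Over a field every gluing datum is rigidifiable. -/
theorem rigidifiable_of_field (e : B₁ →ₐ[k] k) (K : Type u) [Field K] [Algebra k K]
    (G : CurveGD k B₀ B₁ B₀₁ K) : G.Rigidifiable e := by
  obtain ⟨f, hf, h⟩ := H266.exists_rigidifiable_of_isBC e G (⊥ : Ideal K) Ideal.isPrime_bot
  have hf0 : f ≠ 0 := fun h0 => hf (by rw [h0]; exact Ideal.zero_mem _)
  exact h K (AlgHom.id k K) (by simpa using hf0) G (H265.curveGD_isBC_id G)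

/-- Over the base field, `Deg0` means `degree = 0`. -/
theorem deg0_iff_degree_eq_zero {x : B₀} {y : B₁} {e : B₁ →ₐ[k] k}
    (hC : IsCurveChart k B₀ B₁ B₀₁ x y e) (G : CurveGD k B₀ B₁ B₀₁ k) :
    G.Deg0 ↔ G.degree = 0 := by
  constructor
  · intro h
    exact h k (AlgHom.id k k) G (H265.curveGD_isBC_id G)
  · intro h K _ _ φ G' hBC
    rw [← h]
    exact (H550.degConst x y e hC k G k K (AlgHom.id k k) φ G G'
      (H265.curveGD_isBC_id G) hBC).symm

end Alg

/-- `Stmt.DictDeg`, assembled as in `S25.Assembly.result_final`. -/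
theorem dictDeg [IsAlgClosed k] [IsProper c] [SmoothOfRelativeDimension 1 c] [IsIntegral C]
    (Ch : ChartOf c ε) : Stmt.DictDeg Ch := by
  have hSheafGlue : Stmt.SheafGlue c ε := H146.sheafGlue k c ε
  have hAA2 : H747.StmtAA2 k Ch.B₀ Ch.B₁ Ch.B₀₁ := H927.stmtAA2
  have hAA6 : H747.StmtAA6 k Ch.B₀ Ch.B₁ Ch.B₀₁ := H206.stmtAA6 k Ch.B₀ Ch.B₁ Ch.B₀₁
  have hGlue : Stmt.DictGlue Ch := H505.dictGlue Ch
  have hSec : Stmt.DictSections Ch := H505.dictSections Ch
  have hUnit : H687.DictUnit Ch := fun A _ _ => H566.dictUnit Ch A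
  have hIso : Stmt.DictIso Ch := H986.dictIso Ch
  have hBC : Stmt.DictBC Ch := H505.dictBC Ch
  have hEx : Stmt.AlgBCExists Ch := H265.algBCExists Ch
  have hId : H687.BCId k Ch.B₀ Ch.B₁ Ch.B₀₁ := fun A _ _ G => H265.curveGD_isBC_id G
  have hComp : H687.BCComp k Ch.B₀ Ch.B₁ Ch.B₀₁ :=
    fun A A' A'' _ _ _ _ _ _ φ ψ G G' G'' h h' => H265.curveGD_isBC_comp h h'
  have hDegIso : H687.DegIso k Ch.B₀ Ch.B₁ Ch.B₀₁ :=
    fun K _ _ G G' h => H265.degree_eq_of_isIso h
  have hDegConst : H687.DegConst k Ch.B₀ Ch.B₁ Ch.B₀₁ := H550.degConst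
  have hAA4 : H747.StmtAA4 k Ch.B₀ Ch.B₁ Ch.B₀₁ := fun x y e hC g A _ _ P 𝔭 h𝔭 =>
    H266.abelDatum_locRig_of_isBC e g A P (fun A' _ _ ψ => hAA2 x y e hC g A A' ψ P) 𝔭 h𝔭
  obtain ⟨𝔉⟩ := H747.algAbel_of_leaves hAA2 hAA4 hAA6 Ch.x Ch.y Ch.e Ch.isCurveChart
  have hAbelAlg : H687.AbelAlg Ch :=
    H567.abelAlg Ch 𝔉 hSheafGlue (H146.sheafSep k c ε) hGlue hIso hBC
      (fun A _ _ => H566.dictUnit Ch A)
  exact H687.dictDeg_final Ch hSec hIso hBC hEx hUnit hId hComp hDegIso hDegConst hAbelAlg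

/-- **PTS-DICT.** -/
theorem ptsDict (k : Type u) [Field k] : Fermat.Agent.S27.Stmt.PtsDict k := by
  intro _ C c _ _ _ ε Ch D hrep
  have hGlue : Stmt.DictGlue Ch := H505.dictGlue Ch
  have hSec : Stmt.DictSections Ch := H505.dictSections Ch
  have hIso : Stmt.DictIso Ch := H986.dictIso Ch
  have hDeg : Stmt.DictDeg Ch := dictDeg Ch
  have hmem : ∀ g : SchemeHomOver (specStr k k) D.toBase,
      FibrewiseAlgEquivZero (hrep.poincare.pullbackAlong g) := fun g =>
    (algEquivZeroCut c ε).pullback_mem _ _ g _ hrep.poincare_mem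
  refine ⟨fun g => ?_, fun G hG => ?_, fun g g' G G' hg hg' => ⟨?_, fun h => ?_⟩⟩
  · obtain ⟨G, hG, -⟩ := hSec k (hrep.poincare.pullbackAlong g)
    exact ⟨G, (deg0_iff_degree_eq_zero Ch.isCurveChart G).mp
      ((hDeg k _ G hG).mp (hmem g)), hG⟩
  · obtain ⟨M, hM⟩ := hGlue k G (rigidifiable_of_field Ch.e k G)
    have hM0 : FibrewiseAlgEquivZero M :=
      (hDeg k M G hM).mpr ((deg0_iff_degree_eq_zero Ch.isCurveChart G).mpr hG)
    refine ⟨hrep.classify (specStr k k) M hM0, ?_⟩
    obtain ⟨G', hG', -⟩ := hSec k (hrep.poincare.pullbackAlong (hrep.classify (specStr k k) M hM0))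
    exact corr_of_isIso Ch hG'
      ((hIso k _ M G' G hG' hM).mp (hrep.classify_spec (specStr k k) M hM0))
  · rintro rfl
    exact (hIso k _ _ G G' hg hg').mp ⟨Iso.refl _⟩
  · exact hrep.ext_of_iso (specStr k k) g g' ((hIso k _ _ G G' hg hg').mpr h)

end Fermat.Agent.S27.H506

end
-- ===== PACK-END S27/H506/PtsDict.lean

-- ===== PACK-BEGIN S37/H278/NormalAbs.lean
section



/-!
# S37 / D2 (helper278): `NormalAbsStatement` — normality of the special fibre of a good model

For `G : Alg.GoodModel Lc Ec Fc R V w x S`: if `f ∈ V` is a root mod `w` of a monic polynomial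
with coefficients in `R[x]`, then `f` is congruent mod `w` to an element of the chart
`B = {b ∈ Fc integral over R[x]}`.

Proof: `f = b / g(x)` with `b ∈ B`, `g ∈ R[X]` primitive (`exists_primitive_mul_mem_chart`); the
equation gives `b ^ d + ∑ aᵢ bⁱ g ^ (d - i) ∈ w V ∩ B = w B` (QEP); `NA.normal_chart_field`
(= `H273.b2Normal` on the chart, inputs `H438.GoodModelFront.hsep_chart`, `hNC_chart`,
`prime_chart`) gives `b₀ ∈ B` with `b - g b₀ ∈ w B`; `g(x)` is a unit of `V` (`G.gauss`).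
-/

set_option autoImplicit false
set_option linter.style.haveILetI false
set_option linter.unusedSectionVars false

noncomputable section

namespace Fermat.Agent.S37.H278.NA

open Polynomial Fermat.Agent.S18 Fermat.Agent.S18.Alg Fermat.Agent.S18.H438
  Fermat.Agent.S18.H438.GoodModelFront

variable {Ω : Type*} [Field Ω] {Lc Ec Fc : Subfield Ω} {R V : Subring Ω} {w x : Ω}
  {S : Finset Ω}

variable (G : GoodModel Lc Ec Fc R V w x S)

/-- the value in `Ω` of `g(x)`, `g ∈ R[X]` -/
theorem coe_aeval_xf (g : Polynomial (Rf Fc R)) :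
    ((aeval (xf G) g : Fc) : Ω) =
      (g.map (Fc.subtype.comp (Rf Fc R).subtype)).eval x := by
  rw [Polynomial.eval_map, Polynomial.aeval_def]
  exact Polynomial.hom_eval₂ g (algebraMap (Rf Fc R) Fc) Fc.subtype (xf G)

include G in
/-- `g(x) ∈ V` for `g ∈ R[X]`. -/
theorem aeval_xf_mem_V (g : Polynomial (Rf Fc R)) : ((aeval (xf G) g : Fc) : Ω) ∈ V := by
  rw [coe_aeval_xf G, Polynomial.eval_eq_sum_range]
  refine V.sum_mem fun i _ => V.mul_mem ?_ (V.pow_mem G.x_mem_V i)
  rw [Polynomial.coeff_map]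
  exact G.R_le_V (g.coeff i).2

include G in
/-- **Gauss**: a polynomial `g ∈ R[X]` not divisible by `w` takes a unit value `g(x)` in `V`. -/
theorem aeval_xf_inv_mem_V (g : Polynomial (Rf Fc R)) (hg : ¬ C (wR G) ∣ g) :
    (((aeval (xf G) g : Fc) : Ω))⁻¹ ∈ V := by
  haveI := isDiscreteValuationRing_Rf G
  rw [coe_aeval_xf G]
  refine G.gauss _ (fun i => ?_) ?_
  · rw [Polynomial.coeff_map]
    exact (g.coeff i).2
  · rw [Polynomial.C_dvd_iff_dvd_coeff] at hg
    push Not at hg
    obtain ⟨i, hi⟩ := hg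
    have hu : IsUnit (g.coeff i) := by
      by_contra hnu
      have hmem : g.coeff i ∈ IsLocalRing.maximalIdeal (Rf Fc R) :=
        (IsLocalRing.mem_maximalIdeal _).2 hnu
      rw [(irreducible_wf G).maximalIdeal_eq, Ideal.mem_span_singleton] at hmem
      exact hi hmem
    obtain ⟨h0, hinv⟩ := (isUnit_subring_iff (Rf Fc R)).1 hu
    refine ⟨i, ?_, ?_⟩
    · rw [Polynomial.coeff_map]
      intro h
      exact h0 (Subtype.ext h)
    · rw [Polynomial.coeff_map]
      exact hinv

include G in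
/-- `g(x) ≠ 0` for `g ≠ 0`. -/
theorem aeval_xf_ne_zero (g : Polynomial (Rf Fc R)) (hg : g ≠ 0) : aeval (xf G) g ≠ 0 :=
  fun h => hg (transcendental_iff.1 (transcendental_xf G) g h)

include G in
/-- every `f ∈ V` is `b / g(x)` with `b` in the chart and `g ∈ R[X]` not divisible by `w`. -/
theorem exists_primitive_mul_mem_chart (f : Fc) (hf : f ∈ Vf G) :
    ∃ g : Polynomial (Rf Fc R), ¬ C (wR G) ∣ g ∧
      aeval (xf G) g * f ∈ H138.chart (Rf Fc R) ({xf G} : Set Fc) := by
  classical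
  haveI := charZero_Fc G
  haveI := isDiscreteValuationRing_Rf G
  haveI := finiteDimensional_baseField G
  have hx := transcendental_xf G
  obtain ⟨hic, hfin⟩ := B12.H33.chart_package (R := Rf Fc R) hx
  obtain ⟨i1, i2, i3⟩ := chart_instances138 G
  letI := B12.H33.chartAlgebra (Rf Fc R) (xf G)
  haveI := hfin
  haveI : Algebra.IsIntegral (Polynomial (Rf Fc R)) (H138.chart (Rf Fc R) ({xf G} : Set Fc)) :=
    Algebra.IsIntegral.of_finite _ _
  -- `f = b₀ / t₀`
  obtain ⟨b₀, t₀, ht₀, hbt⟩ :=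
    IsFractionRing.div_surjective (A := H138.chart (Rf Fc R) ({xf G} : Set Fc)) f
  have ht₀0 : t₀ ≠ 0 := nonZeroDivisors.ne_zero ht₀
  -- a nonzero `h ∈ R[X]` in `t₀ B`
  have hne : (Ideal.span {t₀}).comap
      (algebraMap (Polynomial (Rf Fc R)) (H138.chart (Rf Fc R) ({xf G} : Set Fc))) ≠ ⊥ :=
    Ideal.comap_ne_bot_of_integral_mem ht₀0 (Ideal.mem_span_singleton_self t₀)
      (Algebra.IsIntegral.isIntegral t₀)
  obtain ⟨h, hh, hh0⟩ := Submodule.exists_mem_ne_zero_of_ne_bot hne
  rw [Ideal.mem_comap, Ideal.mem_span_singleton] at hh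
  obtain ⟨t', ht'⟩ := hh
  have hCw : Prime (C (wR G) : Polynomial (Rf Fc R)) :=
    Polynomial.prime_C_iff.2 (irreducible_wf G).prime
  obtain ⟨n, g, hng, rfl⟩ := WfDvdMonoid.max_power_factor hh0 hCw.irreducible
  refine ⟨g, hng, ?_⟩
  have hw0 : wf G ≠ 0 := wf_ne_zero G
  have ht₀F : (t₀ : Fc) ≠ 0 := fun h0 => ht₀0 (Subtype.ext h0)
  -- `w ^ n * g(x) * f = b₀ * t'`
  have hcoe : ((B12.H33.chartPolyHom (Rf Fc R) (xf G) (C (wR G) ^ n * g) :
      H138.chart (Rf Fc R) ({xf G} : Set Fc)) : Fc) = (t₀ : Fc) * (t' : Fc) :=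
    congrArg Subtype.val ht'
  rw [B12.H33.coe_chartPolyHom, map_mul, map_pow, Polynomial.aeval_C] at hcoe
  have hwn : (wf G) ^ n * (aeval (xf G) g * f) = (b₀ : Fc) * (t' : Fc) := by
    have hf' : f = (b₀ : Fc) / (t₀ : Fc) := hbt.symm
    have hcoe' : (wf G) ^ n * aeval (xf G) g = (t₀ : Fc) * (t' : Fc) := hcoe
    rw [hf', ← mul_assoc, hcoe']
    field_simp
  -- strip the powers of `w`
  have key : ∀ (n : ℕ) (b : Fc), b ∈ H138.chart (Rf Fc R) ({xf G} : Set Fc) →
      (wf G) ^ n * (aeval (xf G) g * f) = b →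
      aeval (xf G) g * f ∈ H138.chart (Rf Fc R) ({xf G} : Set Fc) := by
    intro n
    induction n with
    | zero =>
      intro b hb h
      rw [pow_zero, one_mul] at h
      rw [h]; exact hb
    | succ n ih =>
      intro b hb h
      have hbw : b * (wf G)⁻¹ = (wf G) ^ n * (aeval (xf G) g * f) := by
        rw [← h, pow_succ]
        field_simp
      have hV : b * (wf G)⁻¹ ∈ Vf G := by
        rw [hbw]
        refine mul_mem (pow_mem (Rf_le_Vf G _ (wf_mem_Rf G)) n) (mul_mem ?_ hf)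
        exact aeval_xf_mem_V G g
      exact ih _ (qep_fin' G b hb hV) hbw.symm
  exact key n _ (Subalgebra.mul_mem _ b₀.2 t'.2) hwn

include G in
/-- **D2 for a good model.** -/
theorem normalAbs_of_goodModel (f : Ω) (hf : f ∈ V) (P : Polynomial Ω) (hP : P.Monic)
    (hc : ∀ i, P.coeff i ∈ polyRing R x) (hPf : P.eval f * w⁻¹ ∈ V) :
    ∃ b ∈ chart Fc R x, (f - b) * w⁻¹ ∈ V := by
  classical
  haveI := charZero_Fc G
  haveI := isDiscreteValuationRing_Rf G
  haveI := finiteDimensional_baseField G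
  have hx := transcendental_xf G
  have hRF : ∀ r ∈ R, r ∈ Fc := fun r hr => R_le_Fc G hr
  have hw0 : w ≠ 0 := G.w_ne_zero
  have hwf0 : wf G ≠ 0 := wf_ne_zero G
  -- `f` as an element of `Fc`
  obtain ⟨f', hf'⟩ : ∃ f' : Fc, (f' : Ω) = f := ⟨⟨f, G.V_le hf⟩, rfl⟩
  have hfV : f' ∈ Vf G := by
    rw [mem_Vf, hf']; exact hf
  obtain ⟨g, hg, hbmem⟩ := exists_primitive_mul_mem_chart G f' hfV
  have hg0 : g ≠ 0 := fun h => hg (h ▸ dvd_zero _)
  have hγ0 : aeval (xf G) g ≠ 0 := aeval_xf_ne_zero G g hg0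
  have hγΩ0 : ((aeval (xf G) g : Fc) : Ω) ≠ 0 := fun h => hγ0 (Subtype.ext h)
  have hγV : ((aeval (xf G) g : Fc) : Ω) ∈ V := aeval_xf_mem_V G g
  have hγinv : (((aeval (xf G) g : Fc) : Ω))⁻¹ ∈ V := aeval_xf_inv_mem_V G g hg
  -- the coefficients of `P`, in the chart
  have hcoef : ∀ i, ∃ a ∈ baseRing (Rf Fc R) (xf G), (a : Ω) = P.coeff i := fun i =>
    exists_mem_baseRing_of_mem_polyRing Fc R (xf G) hRF (hc i)
  choose a ha hacoe using hcoef
  have hachart : ∀ i, a i ∈ H138.chart (Rf Fc R) ({xf G} : Set Fc) := fun i =>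
    H138.adjoin_le_chart _ (ha i)
  -- the ring homomorphism `B → Ω`
  let φ : H138.chart (Rf Fc R) ({xf G} : Set Fc) →+* Ω :=
    Fc.subtype.comp (H138.chart (Rf Fc R) ({xf G} : Set Fc)).val.toRingHom
  have hφ : ∀ z : H138.chart (Rf Fc R) ({xf G} : Set Fc), φ z = ((z : Fc) : Ω) := fun _ => rfl
  let b : H138.chart (Rf Fc R) ({xf G} : Set Fc) := ⟨aeval (xf G) g * f', hbmem⟩
  let A : Fin P.natDegree → H138.chart (Rf Fc R) ({xf G} : Set Fc) :=
    fun i => ⟨a i, hachart i⟩
  have hφb : φ b = ((aeval (xf G) g : Fc) : Ω) * f := by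
    rw [← hf']; rfl
  have hφA : ∀ i, φ (A i) = P.coeff i := fun i => hacoe i
  have hφg : φ (B12.H33.chartPolyHom (Rf Fc R) (xf G) g) = ((aeval (xf G) g : Fc) : Ω) := by
    rw [hφ, B12.H33.coe_chartPolyHom]
  -- the integral equation mod `w`
  have hz : φ (b ^ P.natDegree + ∑ i : Fin P.natDegree, A i * b ^ (i : ℕ) *
        B12.H33.chartPolyHom (Rf Fc R) (xf G) g ^ (P.natDegree - (i : ℕ))) =
      ((aeval (xf G) g : Fc) : Ω) ^ P.natDegree * P.eval f := by
    rw [map_add, map_pow, map_sum, hφb]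
    have h1 : ∀ i : Fin P.natDegree,
        φ (A i * b ^ (i : ℕ) *
          B12.H33.chartPolyHom (Rf Fc R) (xf G) g ^ (P.natDegree - (i : ℕ))) =
        ((aeval (xf G) g : Fc) : Ω) ^ P.natDegree * (P.coeff (i : ℕ) * f ^ (i : ℕ)) := by
      intro i
      rw [map_mul, map_mul, map_pow, map_pow, hφb, hφA, hφg, mul_pow]
      have hi : (i : ℕ) + (P.natDegree - (i : ℕ)) = P.natDegree :=
        Nat.add_sub_cancel' i.2.le
      calc P.coeff (i : ℕ) * (((aeval (xf G) g : Fc) : Ω) ^ (i : ℕ) * f ^ (i : ℕ)) *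
            ((aeval (xf G) g : Fc) : Ω) ^ (P.natDegree - (i : ℕ))
          = ((aeval (xf G) g : Fc) : Ω) ^ ((i : ℕ) + (P.natDegree - (i : ℕ))) *
              (P.coeff (i : ℕ) * f ^ (i : ℕ)) := by rw [pow_add]; ring
        _ = _ := by rw [hi]
    rw [Finset.sum_congr rfl (fun i _ => h1 i), ← Finset.mul_sum,
      Fin.sum_univ_eq_sum_range (fun i => P.coeff i * f ^ i) P.natDegree,
      Polynomial.eval_eq_sum_range, Finset.sum_range_succ, hP.coeff_natDegree, one_mul, mul_pow]
    ring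
  have h : algebraMap (Rf Fc R) (H138.chart (Rf Fc R) ({xf G} : Set Fc)) (wR G) ∣
      b ^ P.natDegree + ∑ i : Fin P.natDegree, A i * b ^ (i : ℕ) *
        B12.H33.chartPolyHom (Rf Fc R) (xf G) g ^ (P.natDegree - (i : ℕ)) := by
    rw [B12.H33.algebraMap_dvd_chart_iff]
    set z := b ^ P.natDegree + ∑ i : Fin P.natDegree, A i * b ^ (i : ℕ) *
        B12.H33.chartPolyHom (Rf Fc R) (xf G) g ^ (P.natDegree - (i : ℕ)) with hzdef
    have hV : (z : Fc) * (wf G)⁻¹ ∈ Vf G := by
      show ((z : Fc) : Ω) * w⁻¹ ∈ V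
      rw [← hφ, hz, mul_assoc]
      exact V.mul_mem (V.pow_mem hγV _) hPf
    refine ⟨(z : Fc) * (wf G)⁻¹, qep_fin' G _ z.2 hV, ?_⟩
    show (z : Fc) = wf G * ((z : Fc) * (wf G)⁻¹)
    field_simp
  obtain ⟨b₀, hb₀⟩ := normal_chart_field hx (wR G) (irreducible_wf G) (prime_chart G)
    (hsep_chart G) (SR Fc R S) (SR_isUnit_sub G) (hNC_chart G) b g hg P.natDegree A h
  rw [B12.H33.algebraMap_dvd_chart_iff] at hb₀
  obtain ⟨t, ht, hbt⟩ := hb₀
  have htV : (t : Ω) ∈ V :=
    chartRing_le_valuationSubring (Rf Fc R) (xf G) (Vf G) (Rf_le_Vf G) (xf_mem_Vf G) ht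
  refine ⟨((b₀ : Fc) : Ω), (mem_chartRing_iff Fc R (xf G) hRF).1 b₀.2, ?_⟩
  have hbt' : ((aeval (xf G) g : Fc) : Ω) * f - ((aeval (xf G) g : Fc) : Ω) * ((b₀ : Fc) : Ω) =
      w * (t : Ω) := by
    have h1 : φ (b - B12.H33.chartPolyHom (Rf Fc R) (xf G) g * b₀) = w * (t : Ω) := by
      rw [hφ, hbt]; rfl
    rw [map_sub, map_mul, hφb, hφg] at h1
    exact h1
  have : (f - ((b₀ : Fc) : Ω)) * w⁻¹ = (t : Ω) * (((aeval (xf G) g : Fc) : Ω))⁻¹ := by
    field_simp
    linear_combination hbt'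
  rw [this]
  exact V.mul_mem htV hγinv

end Fermat.Agent.S37.H278.NA

namespace Fermat.Agent.S37.H278

open Fermat.Agent.S18

/-- **LEAF D2 of board v3 (row S37)**: `Board3.NormalAbsStatement`, unfolded
(`origin/helper37:Fermat/Agent/S37/Core/Skeleton4.lean`). -/
theorem leaf_normalAbs :
    ∀ (Ω : Type) [Field Ω] (Lc Ec Fc : Subfield Ω) (R V : Subring Ω) (w x : Ω) (S : Finset Ω),
      Alg.GoodModel Lc Ec Fc R V w x S →
      ∀ f ∈ V, ∀ P : Polynomial Ω, P.Monic → (∀ i, P.coeff i ∈ Alg.polyRing R x) →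
        P.eval f * w⁻¹ ∈ V →
        ∃ b ∈ Alg.chart Fc R x, (f - b) * w⁻¹ ∈ V :=
  fun _ _ _ _ _ _ _ _ _ _ G f hf P hP hc hPf => NA.normalAbs_of_goodModel G f hf P hP hc hPf

/-- the same, universe polymorphic and with named hypotheses (for the chart at infinity apply it
to the good model with coordinate `x⁻¹` of `S18.H425.goodModel_inv`). -/
theorem leaf_normalAbs_univ {Ω : Type*} [Field Ω] {Lc Ec Fc : Subfield Ω} {R V : Subring Ω}
    {w x : Ω} {S : Finset Ω} (G : Alg.GoodModel Lc Ec Fc R V w x S)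
    (f : Ω) (hf : f ∈ V) (P : Polynomial Ω) (hP : P.Monic)
    (hc : ∀ i, P.coeff i ∈ Alg.polyRing R x) (hPf : P.eval f * w⁻¹ ∈ V) :
    ∃ b ∈ Alg.chart Fc R x, (f - b) * w⁻¹ ∈ V :=
  NA.normalAbs_of_goodModel G f hf P hP hc hPf

end Fermat.Agent.S37.H278

end
end
-- ===== PACK-END S37/H278/NormalAbs.lean

-- ===== PACK-BEGIN S18/H144/ConstFk.lean
section




/-!
# S18 / node_constFk (T3, CONST_Fk): functions without zeros and poles on the special fibre

* `finiteDimensional_adjoin_subtype` : generic transfer of finiteness `E / k(x)` from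
  intermediate fields of `L` to the type `↥E`.
* `jFk k N` : `j` as an element of `F_{N,k} = modularFunctionFieldFullC k N`.
* `transcendental_jFk` (`k` algebraically closed), `finiteDimensional_jFk`
  (primes dividing `N` invertible in `k`): `F_{N,k}` is finite over `k(j)`  (= Sq05 MOD.1).
* `constOfOrdZero_fullC` : `k` algebraically closed, primes dividing `N` invertible in `k`:
  `∀ u : F_{N,k}, u ≠ 0 → (∀ v, v.ord u = 0) → ∃ c, u = algebraMap _ _ c`  (= Sq05 T3Generic).
* `node_constFk` : EXACTLY the type of `Integ.node_constFk` (= `H665.ConstLemma N A`, unfolded;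
  also Sq05 `T3Statement`).
-/

set_option autoImplicit false

noncomputable section

open AlgebraicCurve IntermediateField ModularCurve

namespace Fermat.Agent.S18.H144

/-- Transfer of finiteness from the ambient field to the subtype: if `E` is finite over `k(x)`
inside `L`, then the field `↥E` is finite over its subfield `k(x)`. -/
theorem finiteDimensional_adjoin_subtype {k L : Type*} [Field k] [Field L] [Algebra k L]
    (E : IntermediateField k L) (x : E) (h : k⟮(x : L)⟯ ≤ E)
    [hfin : FiniteDimensional k⟮(x : L)⟯ (IntermediateField.extendScalars h)] :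
    FiniteDimensional k⟮x⟯ E := by
  have hmap : (k⟮x⟯).map E.val = k⟮(x : L)⟯ := by
    rw [IntermediateField.adjoin_map, Set.image_singleton]
    rfl
  let e₁ : ↥(k⟮(x : L)⟯) ≃+* ↥(k⟮x⟯) :=
    ((IntermediateField.equivMap (k⟮x⟯) E.val).trans
      (IntermediateField.equivOfEq hmap)).symm.toRingEquiv
  let e₂ : ↥(IntermediateField.extendScalars h) ≃+* ↥E := RingEquiv.refl _
  refine Module.Finite.of_equiv_equiv e₁ e₂ ?_
  ext c
  obtain ⟨d, hd⟩ : ∃ d : ↥(k⟮x⟯), ((IntermediateField.equivMap (k⟮x⟯) E.val).trans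
      (IntermediateField.equivOfEq hmap)) d = c :=
    ((IntermediateField.equivMap (k⟮x⟯) E.val).trans
      (IntermediateField.equivOfEq hmap)).surjective c
  have hc : e₁ c = d := by
    rw [← hd]
    exact AlgEquiv.symm_apply_apply _ d
  simp only [RingHom.comp_apply, RingHom.coe_coe]
  rw [hc, ← hd]
  rfl

section AnyField

variable (k : Type*) [Field k] (N : ℕ)

/-- `j` as an element of the function field `k(j(q^d) : d ∣ N)`. -/
def jFk : modularFunctionFieldFullC k N := ⟨jqModC k, jqModC_mem_full k N⟩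

theorem jFk_not_mem_range : jFk k N ∉ (algebraMap k (modularFunctionFieldFullC k N)).range := by
  rintro ⟨c, hc⟩
  have h1 : ((algebraMap k (modularFunctionFieldFullC k N) c :
      modularFunctionFieldFullC k N) : LaurentSeries k).coeff (-1)
      = ((jFk k N : modularFunctionFieldFullC k N) : LaurentSeries k).coeff (-1) := by rw [hc]
  have h2 : ((algebraMap k (modularFunctionFieldFullC k N) c :
      modularFunctionFieldFullC k N) : LaurentSeries k)
      = algebraMap k (LaurentSeries k) c := rfl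
  rw [h2, algebraMap_laurentSeries_eq_single] at h1
  have h3 : ((jFk k N : modularFunctionFieldFullC k N) : LaurentSeries k) = jqModC k := rfl
  rw [h3, coeff_jqModC_neg_one, HahnSeries.coeff_single_of_ne (by norm_num)] at h1
  exact zero_ne_one h1

theorem transcendental_jFk [IsAlgClosed k] : Transcendental k (jFk k N) :=
  S24.FF.transcendental_of_not_mem_range (jFk_not_mem_range k N)

variable [NeZero N]

/-- `F_{N,k}` is finite over `k(j)` (from the landed S28 degree theory). -/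
theorem finiteDimensional_jFk (hchar : ∀ p : ℕ, p.Prime → p ∣ N → (p : k) ≠ 0) :
    FiniteDimensional k⟮jFk k N⟯ (modularFunctionFieldFullC k N) := by
  have H : S28.H626.HasModPolys k N :=
    S28.H867.hasModPolys k N (fun p hp _ _ => S28.H807.nonempty_modPolyData p hp) hchar
  have hfin := S28.H626.finiteDimensional_extendScalars N H
  exact @finiteDimensional_adjoin_subtype k (LaurentSeries k) _ _ _
    (modularFunctionFieldFullC k N) (jFk k N) (S28.H626.adjoin_j_le_full (k := k) N) hfin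

/-- **T3, generic field**: `k` algebraically closed, all primes dividing `N` invertible in `k`.
A nonzero function in `k(j(q^d) : d ∣ N)` without zeros and poles is constant. -/
theorem constOfOrdZero_fullC [IsAlgClosed k]
    (hchar : ∀ p : ℕ, p.Prime → p ∣ N → (p : k) ≠ 0) :
    ∀ u : modularFunctionFieldFullC k N, u ≠ 0 →
      (∀ v : Place k (modularFunctionFieldFullC k N), v.ord u = 0) →
      ∃ c : k, u = algebraMap k (modularFunctionFieldFullC k N) c := by
  have := finiteDimensional_jFk k N hchar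
  exact H504.constOfOrdZero_of_finite (transcendental_jFk k N)

end AnyField

set_option synthInstance.maxHeartbeats 400000 in
/-- **node_constFk** (T3, CONST_Fk): exactly the type of `Integ.node_constFk`
(`H665.ConstLemma N A` unfolded). -/
theorem node_constFk (N : ℕ) [NeZero N] {ℓ : ℕ} [Fact ℓ.Prime] (hℓN : ¬ ℓ ∣ N)
    (A : ValuationSubring (AlgebraicClosure ℚ)) (hA : A.LiesOverPrime ℓ) :
    ∀ f : ↥(modularFunctionFieldFullC (IsLocalRing.ResidueField A) N), f ≠ 0 →
      (∀ Q : Place (IsLocalRing.ResidueField A)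
        ↥(modularFunctionFieldFullC (IsLocalRing.ResidueField A) N), Q.ord f = 0) →
      ∃ c : IsLocalRing.ResidueField A,
        f = algebraMap (IsLocalRing.ResidueField A)
          ↥(modularFunctionFieldFullC (IsLocalRing.ResidueField A) N) c := by
  have : IsAlgClosed (IsLocalRing.ResidueField A) := H9.resAlgClosed (AlgebraicClosure ℚ) A
  refine constOfOrdZero_fullC (IsLocalRing.ResidueField A) N fun p hp hpN => ?_
  refine H9.resChar (AlgebraicClosure ℚ) A ℓ p Fact.out hp hA ?_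
  rintro rfl
  exact hℓN hpN

end Fermat.Agent.S18.H144

end
end
-- ===== PACK-END S18/H144/ConstFk.lean

-- ===== PACK-BEGIN S35/H155/B2.lean
section
/-
S35 / cell FROB, leaf B2 (helper155): the two degeneracy push-forwards
`α_*, β_* : J₀(N q) → J₀(N)`.

* `pushforwardPic0Along`       : push-forward on `Pic0` along a finite homomorphism of function
                                 fields with norm formula (abstract; Prelude language);
* `pushforwardPic0Along_smul`  : equivariance for intertwined semilinear automorphisms;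
* `pushA`, `pushB`             : `α_*`, `β_*` on `JZero (N * q) →+ JZero N`;
* `pushA_galois`, `pushB_galois`: Galois equivariance;
* `hecke_eq_frob`              : on `p`-power torsion `T_ℓ y = σ y + ℓ σ⁻¹ y` for every Frobenius
                                 lift `σ` at `ℓ ∤ N p` (from the torsion relations (T));
* `map_hecke_of_galois`        : ANY Galois-equivariant additive map `J₀(M) → J₀(N)` commutes with
                                 `T_ℓ` (`ℓ ∤ M N p`) on `p`-power torsion, given (T) at both levels;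
* `pushA_hecke`, `pushB_hecke` : the instances for `α_*`, `β_*`;
* `IsQNew`                     : `x` is `q`-new (`α_* x = 0 = β_* x`), stability lemmas.

The torsion relations are taken in UNFOLDED form (`TorsRel`, definitionally equal to
`Fermat.Agent.S30.H330.TorsionRelations`), so this file does not import the S30 tower.
-/






set_option autoImplicit false
set_option linter.style.haveILetI false

noncomputable section

namespace Fermat.Agent.S35.H155

open AlgebraicCurve ModularCurve Fermat.Agent.Lib.FF398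

/-! ### Abstract push-forward on `Pic0` -/

section Abstract

variable {K F F' : Type*} [Field K] [Field F] [Field F'] [Algebra K F] [Algebra K F']
variable (φ : F →ₐ[K] F') (hφ : φ.toRingHom.IsIntegral)
variable (hfin : FiniteAlong K φ) (hN : NormFormulaAlong K φ hfin)

/-- Push-forward of degree-zero divisors along `φ`. -/
def pushforwardDegZeroAlong :
    Divisor.degZero (K := K) (F := F') →+ Divisor.degZero (K := K) (F := F) :=
  ((Divisor.pushforwardAlong φ hφ).domRestrict (Divisor.degZero (K := K) (F := F'))).codRestrict _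
    fun D => Divisor.pushforwardAlong_mem_degZero φ hφ D.2

@[simp]
theorem coe_pushforwardDegZeroAlong (D : Divisor.degZero (K := K) (F := F')) :
    (pushforwardDegZeroAlong φ hφ D : Divisor K F) =
      Divisor.pushforwardAlong φ hφ (D : Divisor K F') := rfl

/-- Push-forward on `Pic0` along `φ` (the degeneracy map `π_*`). -/
def pushforwardPic0Along : Pic0 K F' →+ Pic0 K F :=
  QuotientAddGroup.map _ _ (pushforwardDegZeroAlong φ hφ) (by
    rintro ⟨D, hD0⟩ hD
    simp only [AddSubgroup.mem_addSubgroupOf] at hD ⊢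
    exact Divisor.isPrincipal_pushforwardAlong φ hφ hfin hN hD)

theorem pushforwardPic0Along_mk (D : Divisor.degZero (K := K) (F := F')) :
    pushforwardPic0Along φ hφ hfin hN (Pic0.mk D) = Pic0.mk (pushforwardDegZeroAlong φ hφ D) :=
  rfl

/-- `π_*` on `Pic0` is equivariant for intertwined semilinear automorphisms. -/
theorem pushforwardPic0Along_smul {g : SemilinearAut K F} {g' : SemilinearAut K F'}
    (h : SemilinearAut.IntertwinesAlong (φ : F →+* F') g g') (x : Pic0 K F') :
    pushforwardPic0Along φ hφ hfin hN (g' • x) = g • pushforwardPic0Along φ hφ hfin hN x := by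
  obtain ⟨D, rfl⟩ := Pic0.mk_surjective x
  rw [SemilinearAut.pic0_smul_mk, pushforwardPic0Along_mk, pushforwardPic0Along_mk,
    SemilinearAut.pic0_smul_mk]
  refine congrArg Pic0.mk (Subtype.ext ?_)
  rw [coe_pushforwardDegZeroAlong, SemilinearAut.coe_degZeroSMulHom,
    SemilinearAut.coe_degZeroSMulHom, coe_pushforwardDegZeroAlong]
  exact Fermat.Agent.S29.H571.pushforwardAlong_smul φ hφ h (D : Divisor K F')

/-- The class of `D` is killed by `π_*` iff `π_* D` is principal. -/
theorem pushforwardPic0Along_mk_eq_zero_iff (D : Divisor.degZero (K := K) (F := F')) :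
    pushforwardPic0Along φ hφ hfin hN (Pic0.mk D) = 0 ↔
      (Divisor.pushforwardAlong φ hφ (D : Divisor K F')).IsPrincipal := by
  rw [pushforwardPic0Along_mk]
  change ((QuotientAddGroup.mk (pushforwardDegZeroAlong φ hφ D) :
    Divisor.degZero (K := K) (F := F) ⧸ _) = 0) ↔ _
  rw [QuotientAddGroup.eq_zero_iff]
  simp only [AddSubgroup.mem_addSubgroupOf, coe_pushforwardDegZeroAlong]
  rfl

end Abstract

/-! ### The degeneracy push-forwards on `J₀` -/

abbrev Kbar : Type := AlgebraicClosure ℚ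

abbrev GQ : Type := Kbar ≃ₐ[ℚ] Kbar

section Degeneracy

variable (N q : ℕ) [NeZero N] [NeZero q]

/-- `α_* : J₀(N q) → J₀(N)`, push-forward along the inclusion `heckeAlphaBar`. -/
def pushA : JZero (N * q) →+ JZero N :=
  pushforwardPic0Along (heckeAlphaBar Kbar N q) (heckeAlphaBarIntegral N q)
    (finiteAlong_alpha N q) (normFormulaAlong_alpha N q)

/-- `β_* : J₀(N q) → J₀(N)`, push-forward along `heckeBetaBar` (`f(τ) ↦ f(qτ)`). -/
def pushB : JZero (N * q) →+ JZero N :=
  pushforwardPic0Along (heckeBetaBar Kbar N q) (heckeBetaBarIntegral N q)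
    (finiteAlong_beta N q) (normFormulaAlong_beta N q)

theorem pushA_galois (σ : GQ) (x : JZero (N * q)) : pushA N q (σ • x) = σ • pushA N q x := by
  rw [galois_smul_pic0_def, galois_smul_pic0_def]
  exact pushforwardPic0Along_smul _ _ _ _
    (Fermat.Agent.S29.H571.intertwines_heckeAlphaBar N q σ) x

theorem pushB_galois (σ : GQ) (x : JZero (N * q)) : pushB N q (σ • x) = σ • pushB N q x := by
  rw [galois_smul_pic0_def, galois_smul_pic0_def]
  exact pushforwardPic0Along_smul _ _ _ _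
    (Fermat.Agent.S29.H571.intertwines_heckeBetaBar N q σ) x

theorem pushA_mk_eq_zero_iff
    (D : Divisor.degZero (K := Kbar) (F := modularFunctionFieldBar (N * q))) :
    pushA N q (Pic0.mk D) = 0 ↔
      (Divisor.pushforwardAlong (heckeAlphaBar Kbar N q) (heckeAlphaBarIntegral N q)
        (D : Divisor Kbar (modularFunctionFieldBar (N * q)))).IsPrincipal :=
  pushforwardPic0Along_mk_eq_zero_iff _ _ _ _ D

theorem pushB_mk_eq_zero_iff
    (D : Divisor.degZero (K := Kbar) (F := modularFunctionFieldBar (N * q))) :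
    pushB N q (Pic0.mk D) = 0 ↔
      (Divisor.pushforwardAlong (heckeBetaBar Kbar N q) (heckeBetaBarIntegral N q)
        (D : Divisor Kbar (modularFunctionFieldBar (N * q)))).IsPrincipal :=
  pushforwardPic0Along_mk_eq_zero_iff _ _ _ _ D

end Degeneracy

/-! ### Hecke operators on torsion through Frobenius -/

/-- The torsion relations (T) at level `N` for the prime `p`, in unfolded form
(definitionally `Fermat.Agent.S30.H330.TorsionRelations N p`). -/
def TorsRel (N : ℕ) [NeZero N] (p : ℕ) : Prop :=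
  ∀ (ℓ : ℕ) (hℓ : ℓ.Prime), ¬ ℓ ∣ N * p → ∀ A : ValuationSubring Kbar, A.LiesOverPrime ℓ →
    (∀ σ ∈ A.inertiaSubgroupIn ℚ, ∀ x : JZero N, (∃ n : ℕ, (p ^ n) • x = 0) → σ • x = x) ∧
    (∀ σ : GQ, A.IsFrobeniusAt σ ℓ → ∀ x : JZero N, (∃ n : ℕ, (p ^ n) • x = 0) →
      σ • σ • x - heckeOperatorBar N ⟨ℓ, hℓ⟩ (σ • x) + ℓ • x = 0)

section Torsion

variable {N : ℕ} [NeZero N] {p : ℕ}

omit [NeZero N] in
theorem galois_torsion (σ : GQ) {x : JZero N} (hx : ∃ n : ℕ, (p ^ n) • x = 0) :
    ∃ n : ℕ, (p ^ n) • (σ • x) = 0 := by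
  obtain ⟨n, hn⟩ := hx
  refine ⟨n, ?_⟩
  have h : (p ^ n) • (σ • x) = σ • ((p ^ n) • x) :=
    (map_nsmul (DistribSMul.toAddMonoidHom (JZero N) σ) (p ^ n) x).symm
  rw [h, hn]
  exact map_zero (DistribSMul.toAddMonoidHom (JZero N) σ)

/-- On `p`-power torsion, `T_ℓ = σ + ℓ σ⁻¹` for every Frobenius lift `σ` at a prime
`ℓ ∤ N p`. -/
theorem hecke_eq_frob (hT : TorsRel N p) {ℓ : ℕ} (hℓ : ℓ.Prime) (hℓN : ¬ ℓ ∣ N * p)
    (A : ValuationSubring Kbar) (hA : A.LiesOverPrime ℓ) (σ : GQ) (hσ : A.IsFrobeniusAt σ ℓ)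
    (y : JZero N) (hy : ∃ n : ℕ, (p ^ n) • y = 0) :
    heckeOperatorBar N ⟨ℓ, hℓ⟩ y = σ • y + ℓ • (σ⁻¹ • y) := by
  have h := (hT ℓ hℓ hℓN A hA).2 σ hσ (σ⁻¹ • y) (galois_torsion σ⁻¹ hy)
  rw [smul_inv_smul] at h
  have h2 : σ • y + ℓ • (σ⁻¹ • y) - heckeOperatorBar N ⟨ℓ, hℓ⟩ y = 0 := by
    rw [← h]; abel
  exact (sub_eq_zero.mp h2).symm

end Torsion

section MapHecke

variable {M N : ℕ} [NeZero M] [NeZero N] {p : ℕ}

/-- **Hecke equivariance for free.**  Any Galois-equivariant additive map `J₀(M) → J₀(N)`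
commutes with `T_ℓ` on `p`-power torsion, for every prime `ℓ ∤ M p`, `ℓ ∤ N p`, as soon as the
torsion relations (T) hold at both levels. -/
theorem map_hecke_of_galois (f : JZero M →+ JZero N) (hf : ∀ (σ : GQ) (x : JZero M),
    f (σ • x) = σ • f x) (hTM : TorsRel M p) (hTN : TorsRel N p) {ℓ : ℕ} (hℓ : ℓ.Prime)
    (hℓM : ¬ ℓ ∣ M * p) (hℓN : ¬ ℓ ∣ N * p) (y : JZero M) (hy : ∃ n : ℕ, (p ^ n) • y = 0) :
    f (heckeOperatorBar M ⟨ℓ, hℓ⟩ y) = heckeOperatorBar N ⟨ℓ, hℓ⟩ (f y) := by
  obtain ⟨A, hA⟩ := Fermat.Agent.S54.exists_valuationSubring_liesOver ℓ hℓ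
  obtain ⟨σ, hσ⟩ := Fermat.Agent.S37.H99.exists_isFrobeniusAt ℓ hℓ A hA
  have hfy : ∃ n : ℕ, (p ^ n) • f y = 0 := by
    obtain ⟨n, hn⟩ := hy
    exact ⟨n, by rw [← map_nsmul, hn, map_zero]⟩
  rw [hecke_eq_frob hTM hℓ hℓM A hA σ hσ y hy, hecke_eq_frob hTN hℓ hℓN A hA σ hσ (f y) hfy,
    map_add, map_nsmul, hf, hf]

/-- Additive maps preserve `p`-power torsion. -/
theorem map_torsion {A B : Type*} [AddCommGroup A] [AddCommGroup B] (f : A →+ B) {y : A}
    (hy : ∃ n : ℕ, (p ^ n) • y = 0) : ∃ n : ℕ, (p ^ n) • f y = 0 := by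
  obtain ⟨n, hn⟩ := hy
  exact ⟨n, by rw [← map_nsmul, hn, map_zero]⟩

/-- **Hecke equivariance for free, polynomial form.**  A Galois-equivariant additive map
`J₀(M) → J₀(N)` commutes, on `p`-power torsion, with every element of the abstract Hecke algebra
supported on the variables `ℓ ∤ M N p`. -/
theorem map_heckeEval_of_galois (f : JZero M →+ JZero N) (hf : ∀ (σ : GQ) (x : JZero M),
    f (σ • x) = σ • f x) (hTM : TorsRel M p) (hTN : TorsRel N p)
    (hcM : HeckeOperatorsCommuteBar M) (hcN : HeckeOperatorsCommuteBar N)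
    (t : HeckeAlg)
    (ht : t ∈ MvPolynomial.supported ℤ {ℓ : Nat.Primes | ¬ (ℓ : ℕ) ∣ M * p ∧ ¬ (ℓ : ℕ) ∣ N * p})
    (y : JZero M) (hy : ∃ n : ℕ, (p ^ n) • y = 0) :
    f (heckeEvalBar hcM t y) = heckeEvalBar hcN t (f y) := by
  rw [MvPolynomial.supported_eq_adjoin_X] at ht
  induction ht using Algebra.adjoin_induction generalizing y with
  | mem t ht =>
    obtain ⟨ℓ, hℓ, rfl⟩ := ht
    rw [show (MvPolynomial.X ℓ : HeckeAlg) = heckeGen ℓ from rfl, heckeEvalBar_heckeGen,
      heckeEvalBar_heckeGen]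
    exact map_hecke_of_galois f hf hTM hTN ℓ.2 hℓ.1 hℓ.2 y hy
  | algebraMap r =>
    rw [MvPolynomial.algebraMap_eq, heckeEvalBar_C, heckeEvalBar_C, Module.End.intCast_apply,
      Module.End.intCast_apply, map_zsmul]
  | add a b _ _ ha hb =>
    rw [map_add, map_add, LinearMap.add_apply, LinearMap.add_apply, map_add, ha y hy, hb y hy]
  | mul a b _ _ ha hb =>
    have hby : ∃ n : ℕ, (p ^ n) • (heckeEvalBar hcM b y) = 0 :=
      map_torsion (heckeEvalBar hcM b).toAddMonoidHom hy
    rw [map_mul, map_mul, Module.End.mul_apply, Module.End.mul_apply, ha _ hby, hb y hy]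

end MapHecke

section DegeneracyHecke

variable (N q : ℕ) [NeZero N] [NeZero q] {p : ℕ}

omit [NeZero N] [NeZero q] in
theorem not_dvd_of_not_dvd_mul {ℓ : ℕ} (h : ¬ ℓ ∣ N * q * p) : ¬ ℓ ∣ N * p := fun h' =>
  h (by
    obtain ⟨c, hc⟩ := h'
    exact ⟨c * q, by rw [← mul_assoc, ← hc]; ring⟩)

/-- `α_*` commutes with `T_ℓ` (`ℓ ∤ N q p`) on `p`-power torsion. -/
theorem pushA_hecke (hT' : TorsRel (N * q) p) (hT : TorsRel N p) {ℓ : ℕ} (hℓ : ℓ.Prime)
    (hℓN : ¬ ℓ ∣ N * q * p) (y : JZero (N * q)) (hy : ∃ n : ℕ, (p ^ n) • y = 0) :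
    pushA N q (heckeOperatorBar (N * q) ⟨ℓ, hℓ⟩ y) = heckeOperatorBar N ⟨ℓ, hℓ⟩ (pushA N q y) :=
  map_hecke_of_galois (pushA N q) (pushA_galois N q) hT' hT hℓ hℓN
    (not_dvd_of_not_dvd_mul N q hℓN) y hy

/-- `β_*` commutes with `T_ℓ` (`ℓ ∤ N q p`) on `p`-power torsion. -/
theorem pushB_hecke (hT' : TorsRel (N * q) p) (hT : TorsRel N p) {ℓ : ℕ} (hℓ : ℓ.Prime)
    (hℓN : ¬ ℓ ∣ N * q * p) (y : JZero (N * q)) (hy : ∃ n : ℕ, (p ^ n) • y = 0) :
    pushB N q (heckeOperatorBar (N * q) ⟨ℓ, hℓ⟩ y) = heckeOperatorBar N ⟨ℓ, hℓ⟩ (pushB N q y) :=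
  map_hecke_of_galois (pushB N q) (pushB_galois N q) hT' hT hℓ hℓN
    (not_dvd_of_not_dvd_mul N q hℓN) y hy

end DegeneracyHecke

/-! ### `q`-new classes -/

section QNew

variable (N q : ℕ) [NeZero N] [NeZero q]

/-- `x ∈ J₀(N q)` is `q`-new: it is killed by both degeneracy push-forwards to level `N`. -/
def IsQNew (x : JZero (N * q)) : Prop := pushA N q x = 0 ∧ pushB N q x = 0

variable {N q}

theorem isQNew_zero : IsQNew N q 0 := ⟨map_zero _, map_zero _⟩

theorem IsQNew.add {x y : JZero (N * q)} (hx : IsQNew N q x) (hy : IsQNew N q y) :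
    IsQNew N q (x + y) :=
  ⟨by rw [map_add, hx.1, hy.1, add_zero], by rw [map_add, hx.2, hy.2, add_zero]⟩

theorem IsQNew.neg {x : JZero (N * q)} (hx : IsQNew N q x) : IsQNew N q (-x) :=
  ⟨by rw [map_neg, hx.1, neg_zero], by rw [map_neg, hx.2, neg_zero]⟩

theorem IsQNew.nsmul {x : JZero (N * q)} (hx : IsQNew N q x) (n : ℕ) : IsQNew N q (n • x) :=
  ⟨by rw [map_nsmul, hx.1, smul_zero], by rw [map_nsmul, hx.2, smul_zero]⟩

theorem IsQNew.zsmul {x : JZero (N * q)} (hx : IsQNew N q x) (n : ℤ) : IsQNew N q (n • x) :=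
  ⟨by rw [map_zsmul, hx.1, smul_zero], by rw [map_zsmul, hx.2, smul_zero]⟩

theorem IsQNew.galois {x : JZero (N * q)} (hx : IsQNew N q x) (σ : GQ) : IsQNew N q (σ • x) :=
  ⟨by rw [pushA_galois, hx.1]; exact map_zero (DistribSMul.toAddMonoidHom (JZero N) σ),
   by rw [pushB_galois, hx.2]; exact map_zero (DistribSMul.toAddMonoidHom (JZero N) σ)⟩

/-- `q`-newness in terms of divisors: `x = [D]` with `α_* D` and `β_* D` principal. -/
theorem isQNew_mk_iff (D : Divisor.degZero (K := Kbar) (F := modularFunctionFieldBar (N * q))) :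
    IsQNew N q (Pic0.mk D) ↔
      (Divisor.pushforwardAlong (heckeAlphaBar Kbar N q) (heckeAlphaBarIntegral N q)
        (D : Divisor Kbar (modularFunctionFieldBar (N * q)))).IsPrincipal ∧
      (Divisor.pushforwardAlong (heckeBetaBar Kbar N q) (heckeBetaBarIntegral N q)
        (D : Divisor Kbar (modularFunctionFieldBar (N * q)))).IsPrincipal := by
  rw [IsQNew, pushA_mk_eq_zero_iff, pushB_mk_eq_zero_iff]

/-- `T_ℓ` (`ℓ ∤ N q p`) preserves `q`-new `p`-power torsion classes. -/
theorem IsQNew.hecke {p : ℕ} (hT' : TorsRel (N * q) p) (hT : TorsRel N p) {ℓ : ℕ} (hℓ : ℓ.Prime)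
    (hℓN : ¬ ℓ ∣ N * q * p) {y : JZero (N * q)} (hy : ∃ n : ℕ, (p ^ n) • y = 0)
    (hq : IsQNew N q y) : IsQNew N q (heckeOperatorBar (N * q) ⟨ℓ, hℓ⟩ y) :=
  ⟨by rw [pushA_hecke N q hT' hT hℓ hℓN y hy, hq.1, map_zero],
   by rw [pushB_hecke N q hT' hT hℓ hℓN y hy, hq.2, map_zero]⟩

/-- **KILLER ⇒ `q`-new.**  If `t` (supported on the variables `ℓ ∤ N q p`) kills the `p`-power
torsion of `J₀(N)`, then `t • y` is `q`-new for every `p`-power torsion `y ∈ J₀(N q)`. -/
theorem isQNew_heckeEval {p : ℕ} (hT' : TorsRel (N * q) p) (hT : TorsRel N p)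
    (hc' : HeckeOperatorsCommuteBar (N * q)) (hc : HeckeOperatorsCommuteBar N)
    (t : HeckeAlg)
    (ht : t ∈ MvPolynomial.supported ℤ {ℓ : Nat.Primes | ¬ (ℓ : ℕ) ∣ N * q * p})
    (hkill : ∀ z : JZero N, (∃ n : ℕ, (p ^ n) • z = 0) → heckeEvalBar hc t z = 0)
    (y : JZero (N * q)) (hy : ∃ n : ℕ, (p ^ n) • y = 0) :
    IsQNew N q (heckeEvalBar hc' t y) := by
  have ht' : t ∈ MvPolynomial.supported ℤ
      {ℓ : Nat.Primes | ¬ (ℓ : ℕ) ∣ N * q * p ∧ ¬ (ℓ : ℕ) ∣ N * p} := by
    refine MvPolynomial.supported_mono ?_ ht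
    intro ℓ hℓ
    exact ⟨hℓ, not_dvd_of_not_dvd_mul N q hℓ⟩
  constructor
  · rw [map_heckeEval_of_galois (pushA N q) (pushA_galois N q) hT' hT hc' hc t ht' y hy]
    exact hkill _ (map_torsion (pushA N q) hy)
  · rw [map_heckeEval_of_galois (pushB N q) (pushB_galois N q) hT' hT hc' hc t ht' y hy]
    exact hkill _ (map_torsion (pushB N q) hy)

end QNew

end Fermat.Agent.S35.H155

end

end
-- ===== PACK-END S35/H155/B2.lean

-- ===== PACK-BEGIN S18/H208/Gauss.lean
section
/-
S18 / M1 (helper208): the Gauss valuation layer of the modular function field over a general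
discrete valuation ring `O ⊆ E` (in the `UnifData` form of helper86's `GaussGen`).

Setting: `E` a field, `O : Subring E`, `res : O →+* κ` with kernel `(π)`.
`F_E = modularFunctionFieldFullC E N ⊆ E((q))`, `F_κ = modularFunctionFieldFullC κ N ⊆ κ((q))`.
-/







set_option autoImplicit false
set_option linter.unusedSectionVars false
set_option linter.style.haveILetI false

noncomputable section

namespace Fermat.Agent.S18.H208

open ModularCurve HahnSeries Polynomial Fermat.Agent.S28 Fermat.Agent.S28.H86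

section IntSeries

variable {E : Type} [Field E] (O : Subring E) {κ : Type} [Field κ] (res : O →+* κ)

/-- An integer series viewed in `O((q))`. -/
def intO (w : LaurentSeries ℤ) : LaurentSeries O := coeffMap (Int.castRingHom O) w

theorem inclL_intO (w : LaurentSeries ℤ) :
    inclL O (intO O w) = coeffMap (Int.castRingHom E) w := by
  rw [intO, inclL, coeffMap_coeffMap]
  exact coeffMap_congr (RingHom.ext_int _ _) w

theorem redL_intO (w : LaurentSeries ℤ) :
    redL res (intO O w) = coeffMap (Int.castRingHom κ) w := by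
  rw [intO, redL, coeffMap_coeffMap]
  exact coeffMap_congr (RingHom.ext_int _ _) w

theorem intCast_mem_gaussRing (w : LaurentSeries ℤ) :
    coeffMap (Int.castRingHom E) w ∈ gaussRing O res := by
  rw [← inclL_intO O]
  exact inclL_mem_gaussRing res _

theorem gaussRed_intCast (w : LaurentSeries ℤ) :
    gaussRed O res ⟨coeffMap (Int.castRingHom E) w, intCast_mem_gaussRing O res w⟩ =
      coeffMap (Int.castRingHom κ) w := by
  have : (⟨coeffMap (Int.castRingHom E) w, intCast_mem_gaussRing O res w⟩ : gaussRing O res) =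
      ⟨inclL O (intO O w), inclL_mem_gaussRing res _⟩ := Subtype.ext (inclL_intO O w).symm
  rw [this, gaussRed_inclL, redL_intO]

/-- `j(q^d)` over any ring comes from `ℤ((q))`. -/
theorem jd_eq_intCast (R : Type*) [CommRing R] (d : ℕ) [NeZero d] :
    qExpand R d (jqModC R) = coeffMap (Int.castRingHom R) (qExpand ℤ d (jqModC ℤ)) := by
  rw [coeffMap_qExpand, coeffMap_jqModC]

theorem j_eq_intCast (R : Type*) [CommRing R] :
    jqModC R = coeffMap (Int.castRingHom R) (jqModC ℤ) := (coeffMap_jqModC _).symm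

theorem j_mem_gaussRing : jqModC E ∈ gaussRing O res := by
  rw [j_eq_intCast E]; exact intCast_mem_gaussRing O res _

theorem gaussRed_j : gaussRed O res ⟨jqModC E, j_mem_gaussRing O res⟩ = jqModC κ := by
  have : (⟨jqModC E, j_mem_gaussRing O res⟩ : gaussRing O res) =
      ⟨coeffMap (Int.castRingHom E) (jqModC ℤ), intCast_mem_gaussRing O res _⟩ :=
    Subtype.ext (j_eq_intCast E)
  rw [this, gaussRed_intCast, coeffMap_jqModC]

end IntSeries

section Frac

variable {E : Type} [Field E] (O : Subring E)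

/-- `E` is the fraction field of `O`, elementwise. -/
def IsFrac : Prop := ∀ e : E, ∃ a b : O, b ≠ 0 ∧ e * (b : E) = (a : E)

variable {O}

theorem C_mem_gaussFrac (hfrac : IsFrac O) (e : E) :
    (HahnSeries.C e : LaurentSeries E) ∈ gaussFrac O := by
  obtain ⟨a, b, hb, hab⟩ := hfrac e
  refine ⟨HahnSeries.C a, HahnSeries.C b, ?_, ?_⟩
  · intro h0
    apply hb
    have := congrArg (fun x : LaurentSeries O => x.coeff 0) h0
    simpa using this
  · rw [inclL_C, inclL_C, ← map_mul, hab]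

theorem algebraMap_mem_gaussFrac (hfrac : IsFrac O) (e : E) :
    algebraMap E (LaurentSeries E) e ∈ gaussFrac O := by
  have : algebraMap E (LaurentSeries E) e = HahnSeries.C e := by
    rw [algebraMap_laurentSeries_eq_single]; rfl
  rw [this]
  exact C_mem_gaussFrac hfrac e

/-- **(T1)** The modular function field lies in the fraction field of the Gauss ring. -/
theorem full_le_gaussFrac (hfrac : IsFrac O) (N : ℕ) {x : LaurentSeries E}
    (hx : x ∈ modularFunctionFieldFullC E N) : x ∈ gaussFrac O := by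
  let G : IntermediateField E (LaurentSeries E) :=
    (gaussFrac O).toIntermediateField (algebraMap_mem_gaussFrac hfrac)
  have hle : modularFunctionFieldFullC E N ≤ G := by
    rw [modularFunctionFieldFullC, IntermediateField.adjoin_le_iff]
    rintro _ ⟨d, hd, -, rfl⟩
    show qExpand E d (jqModC E) ∈ gaussFrac O
    rw [jd_eq_intCast E d, ← inclL_intO O]
    exact inclL_mem_gaussFrac _
  exact hle hx

end Frac

section Eval

variable {E : Type} [Field E] (O : Subring E) {κ : Type} [Field κ] (res : O →+* κ) {π : O}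

/-- Constants `O → V`. -/
def constV : O →+* gaussRing O res where
  toFun c := ⟨HahnSeries.C (c : E), by rw [← inclL_C]; exact inclL_mem_gaussRing res _⟩
  map_one' := Subtype.ext (by simp)
  map_mul' a b := Subtype.ext (by simp)
  map_zero' := Subtype.ext (by simp)
  map_add' a b := Subtype.ext (by simp)

@[simp] theorem coe_constV (c : O) :
    ((constV O res c : gaussRing O res) : LaurentSeries E) = HahnSeries.C (c : E) := rfl

theorem gaussRed_constV (c : O) : gaussRed O res (constV O res c) = HahnSeries.C (res c) := by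
  have : constV O res c = ⟨inclL O (HahnSeries.C c), inclL_mem_gaussRing res _⟩ :=
    Subtype.ext (inclL_C c).symm
  rw [this, gaussRed_inclL, redL_C]

/-- Evaluation `O[X] → V`, `P ↦ P(t)`. -/
def evV (t : gaussRing O res) : Polynomial O →+* gaussRing O res :=
  Polynomial.eval₂RingHom (constV O res) t

/-- Evaluation `O[X] → E((q))`, `P ↦ P(t)`. -/
def evE (t : LaurentSeries E) : Polynomial O →+* LaurentSeries E :=
  Polynomial.eval₂RingHom ((HahnSeries.C : E →+* LaurentSeries E).comp O.subtype) t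

variable {O res}

theorem coe_evV (t : gaussRing O res) (P : Polynomial O) :
    ((evV O res t P : gaussRing O res) : LaurentSeries E) = evE O (t : LaurentSeries E) P := by
  show (gaussRing O res).subtype (Polynomial.eval₂ (constV O res) t P) = _
  rw [Polynomial.hom_eval₂]
  rfl

theorem evE_mem_gaussRing {t : LaurentSeries E} (ht : t ∈ gaussRing O res) (P : Polynomial O) :
    evE O t P ∈ gaussRing O res := by
  rw [← coe_evV ⟨t, ht⟩ P]
  exact (evV O res ⟨t, ht⟩ P).2

theorem gaussRed_evV (t : gaussRing O res) (P : Polynomial O) :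
    gaussRed O res (evV O res t P) = Polynomial.aeval (gaussRed O res t) (P.map res) := by
  show gaussRed O res (Polynomial.eval₂ (constV O res) t P) = _
  rw [Polynomial.hom_eval₂, Polynomial.aeval_def, Polynomial.eval₂_map]
  congr 1
  ext c : 1
  rw [RingHom.comp_apply, RingHom.comp_apply, gaussRed_constV, algebraMap_laurentSeries_eq_single]
  rfl

theorem evE_C (t : LaurentSeries E) (c : O) :
    evE O t (Polynomial.C c) = HahnSeries.C (c : E) := by
  simp [evE]

theorem evE_C_pi (t : LaurentSeries E) : evE O t (Polynomial.C π) = piL O π := evE_C t π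

/-- Injectivity of the evaluation at a series of nonzero order. -/
theorem evE_injective {t : LaurentSeries E} (ht0 : t ≠ 0) (hto : t.order ≠ 0) :
    Function.Injective (evE O t) := by
  rw [injective_iff_map_eq_zero]
  intro P hP
  have h1 : Polynomial.aeval t (P.map O.subtype) = 0 := by
    rw [Polynomial.aeval_def, Polynomial.eval₂_map]
    have : (algebraMap E (LaurentSeries E)).comp O.subtype =
        (HahnSeries.C : E →+* LaurentSeries E).comp O.subtype := by
      ext c : 1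
      rw [RingHom.comp_apply, RingHom.comp_apply, algebraMap_laurentSeries_eq_single]
      rfl
    rw [this]
    exact hP
  have h2 : P.map O.subtype = 0 := by
    by_contra hne
    exact aeval_ne_zero_of_order_ne_zero ht0 hto hne h1
  exact (Polynomial.map_eq_zero_iff (Subtype.val_injective)).mp h2

end Eval

section Clear

variable {E : Type} [Field E] {O : Subring E}

/-- Every element of `E(j)` is a quotient of two polynomials in `j` with coefficients in `O`. -/
theorem exists_O_fraction (hfrac : IsFrac O) {c : LaurentSeries E} (hc : c ∈ jField E) :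
    ∃ f g : Polynomial O, evE O (jqModC E) g ≠ 0 ∧
      evE O (jqModC E) g * c = evE O (jqModC E) f := by
  unfold jField at hc
  induction hc using IntermediateField.adjoin_induction with
  | mem x hx =>
    rw [Set.mem_singleton_iff] at hx
    subst hx
    refine ⟨Polynomial.X, 1, ?_, ?_⟩
    · rw [map_one]; exact one_ne_zero
    · rw [map_one, one_mul]
      simp [evE]
  | algebraMap r =>
    obtain ⟨a, b, hb, hab⟩ := hfrac r
    refine ⟨Polynomial.C a, Polynomial.C b, ?_, ?_⟩
    · rw [evE_C]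
      exact (map_ne_zero_iff _ HahnSeries.C_injective).mpr
        (fun h0 => hb (Subtype.ext h0))
    · rw [evE_C, evE_C, algebraMap_laurentSeries_eq_single]
      show HahnSeries.C (b : E) * HahnSeries.C r = HahnSeries.C (a : E)
      rw [← map_mul, mul_comm, hab]
  | add x y _ _ hx hy =>
    obtain ⟨f₁, g₁, hg₁, h₁⟩ := hx
    obtain ⟨f₂, g₂, hg₂, h₂⟩ := hy
    refine ⟨f₁ * g₂ + f₂ * g₁, g₁ * g₂, ?_, ?_⟩
    · rw [map_mul]; exact mul_ne_zero hg₁ hg₂
    · rw [map_mul, map_add, map_mul, map_mul, ← h₁, ← h₂]; ring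
  | inv x _ hx =>
    obtain ⟨f, g, hg, h⟩ := hx
    by_cases hf : evE O (jqModC E) f = 0
    · have hx0 : x = 0 := by
        rw [hf] at h
        exact (mul_eq_zero.mp h).resolve_left hg
      refine ⟨0, 1, ?_, ?_⟩
      · rw [map_one]; exact one_ne_zero
      · rw [hx0, inv_zero, mul_zero, map_zero]
    · refine ⟨g, f, hf, ?_⟩
      have hx0 : x ≠ 0 := by
        rintro rfl
        rw [mul_zero] at h
        exact hf h.symm
      rw [← h]
      field_simp
  | mul x y _ _ hx hy =>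
    obtain ⟨f₁, g₁, hg₁, h₁⟩ := hx
    obtain ⟨f₂, g₂, hg₂, h₂⟩ := hy
    refine ⟨f₁ * f₂, g₁ * g₂, ?_, ?_⟩
    · rw [map_mul]; exact mul_ne_zero hg₁ hg₂
    · rw [map_mul, map_mul, ← h₁, ← h₂]; ring

/-- Clearing denominators in an `E(j)`-linear combination. -/
theorem exists_cleared_of_mem_span (hfrac : IsFrac O) {n : ℕ} (v : Fin n → LaurentSeries E)
    {x : LaurentSeries E} (hx : x ∈ Submodule.span (jField E) (Set.range v)) :
    ∃ (g : Polynomial O) (f : Fin n → Polynomial O), g ≠ 0 ∧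
      evE O (jqModC E) g * x = ∑ i, evE O (jqModC E) (f i) * v i := by
  obtain ⟨c, rfl⟩ := (Submodule.mem_span_range_iff_exists_fun (jField E)).mp hx
  have hc : ∀ i, ∃ f g : Polynomial O, evE O (jqModC E) g ≠ 0 ∧
      evE O (jqModC E) g * (c i : LaurentSeries E) = evE O (jqModC E) f :=
    fun i => exists_O_fraction hfrac (c i).2
  choose f g hg hfg using hc
  refine ⟨∏ i, g i, fun i => f i * ∏ k ∈ Finset.univ.erase i, g k, ?_, ?_⟩
  · intro h0
    have : evE O (jqModC E) (∏ i, g i) = 0 := by rw [h0, map_zero]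
    rw [map_prod] at this
    obtain ⟨i, -, hi⟩ := Finset.prod_eq_zero_iff.mp this
    exact hg i hi
  · rw [Finset.mul_sum]
    refine Finset.sum_congr rfl fun i _ => ?_
    rw [← Finset.mul_prod_erase Finset.univ g (Finset.mem_univ i), map_mul, map_mul,
      IntermediateField.smul_def, smul_eq_mul, ← hfg i]
    ring

end Clear

section Indep

variable {κ : Type} [Field κ]

/-- Linear independence over `κ(j)` in polynomial form. -/
theorem poly_indep {n : ℕ} {v : Fin n → LaurentSeries κ}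
    (hli : LinearIndependent (jField κ) v) (f : Fin n → Polynomial κ)
    (hf : ∑ i, Polynomial.aeval (jqModC κ) (f i) * v i = 0) : ∀ i, f i = 0 := by
  have hmem : ∀ i, Polynomial.aeval (jqModC κ) (f i) ∈ jField κ := fun i =>
    IntermediateField.algebra_adjoin_le_adjoin _ _ (Polynomial.aeval_mem_adjoin_singleton _ _)
  have h0 := Fintype.linearIndependent_iff.mp hli
    (fun i => ⟨Polynomial.aeval (jqModC κ) (f i), hmem i⟩) (by
      simpa [IntermediateField.smul_def] using hf)
  intro i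
  have hi := congrArg Subtype.val (h0 i)
  simp only [ZeroMemClass.coe_zero] at hi
  by_contra hne
  exact aeval_ne_zero_of_order_ne_zero (S28.H145.jqModC_ne_zero' κ)
    (by rw [S28.H145.order_jqModC]; decide) hne hi

end Indep

section Denominator

variable {E : Type} [Field E] {O : Subring E} {κ : Type} [Field κ] {res : O →+* κ} {π : O}

theorem exists_eq_C_mul_of_map_eq_zero (h : UnifData O res π) {P : Polynomial O}
    (hP : P.map res = 0) : ∃ P' : Polynomial O, P = Polynomial.C π * P' := by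
  have hmem : P ∈ Ideal.map (Polynomial.C : O →+* Polynomial O) (Ideal.span {π}) := by
    rw [Ideal.mem_map_C_iff]
    intro n
    have hn : res (P.coeff n) = 0 := by
      have := congrArg (fun Q => Q.coeff n) hP
      simpa using this
    obtain ⟨y, hy⟩ := (h.ker _).mp hn
    exact Ideal.mem_span_singleton'.mpr ⟨y, by rw [hy, mul_comm]⟩
  rw [Ideal.map_span, Set.image_singleton, Ideal.mem_span_singleton'] at hmem
  obtain ⟨P', hP'⟩ := hmem
  exact ⟨P', by rw [← hP', mul_comm]⟩

theorem map_res_C_pi_mul (h : UnifData O res π) (P : Polynomial O) :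
    (Polynomial.C π * P).map res = 0 := by
  rw [Polynomial.map_mul, Polynomial.map_C, res_pi h, Polynomial.C_0, zero_mul]

/-- The reduction of a relation `g(j) x = Σ f_i(j) v_i` in the Gauss ring. -/
theorem gaussRed_relation {n : ℕ} (y : Fin n → LaurentSeries ℤ)
    {x : LaurentSeries E} (hx : x ∈ gaussRing O res)
    (g : Polynomial O) (f : Fin n → Polynomial O)
    (hrel : evE O (jqModC E) g * x =
      ∑ i, evE O (jqModC E) (f i) * coeffMap (Int.castRingHom E) (y i)) :
    Polynomial.aeval (jqModC κ) (g.map res) * gaussRed O res ⟨x, hx⟩ =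
      ∑ i, Polynomial.aeval (jqModC κ) ((f i).map res) * coeffMap (Int.castRingHom κ) (y i) := by
  set J : gaussRing O res := ⟨jqModC E, j_mem_gaussRing O res⟩ with hJ
  have hrelV : evV O res J g * ⟨x, hx⟩ =
      ∑ i, evV O res J (f i) *
        ⟨coeffMap (Int.castRingHom E) (y i), intCast_mem_gaussRing O res (y i)⟩ := by
    apply Subtype.ext
    have h1 : (((∑ i, evV O res J (f i) *
        ⟨coeffMap (Int.castRingHom E) (y i), intCast_mem_gaussRing O res (y i)⟩ :
          gaussRing O res)) : LaurentSeries E) =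
        ∑ i, evE O (jqModC E) (f i) * coeffMap (Int.castRingHom E) (y i) := by
      rw [← Subring.subtype_apply, map_sum]
      refine Finset.sum_congr rfl fun i _ => ?_
      rw [Subring.subtype_apply, Subring.coe_mul, coe_evV]
    rw [h1, Subring.coe_mul, coe_evV]
    exact hrel
  have h2 := congrArg (gaussRed O res) hrelV
  rw [map_mul, map_sum, gaussRed_evV, hJ, gaussRed_j] at h2
  rw [h2]
  refine Finset.sum_congr rfl fun i _ => ?_
  rw [map_mul, gaussRed_evV, gaussRed_j, gaussRed_intCast]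

theorem exists_denominator_aux (h : UnifData O res π) {n : ℕ} (y : Fin n → LaurentSeries ℤ)
    (hli : LinearIndependent (jField κ) (fun i => coeffMap (Int.castRingHom κ) (y i)))
    {x : LaurentSeries E} (hx : x ∈ gaussRing O res) :
    ∀ (m : ℕ) (g : Polynomial O) (f : Fin n → Polynomial O) (k : ℕ) (u : O),
      g.coeff k = π ^ m * u → res u ≠ 0 →
      evE O (jqModC E) g * x =
        ∑ i, evE O (jqModC E) (f i) * coeffMap (Int.castRingHom E) (y i) →
      ∃ (g' : Polynomial O) (f' : Fin n → Polynomial O), g'.map res ≠ 0 ∧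
        evE O (jqModC E) g' * x =
          ∑ i, evE O (jqModC E) (f' i) * coeffMap (Int.castRingHom E) (y i) := by
  intro m
  induction m with
  | zero =>
    intro g f k u hgk hu hrel
    refine ⟨g, f, ?_, hrel⟩
    intro h0
    apply hu
    have := congrArg (fun Q => Q.coeff k) h0
    simpa [hgk] using this
  | succ m ih =>
    intro g f k u hgk hu hrel
    by_cases hg : g.map res = 0
    · obtain ⟨g1, rfl⟩ := exists_eq_C_mul_of_map_eq_zero h hg
      have hred := gaussRed_relation (res := res) y hx _ f hrel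
      rw [hg, map_zero, zero_mul] at hred
      have hf0 := poly_indep hli (fun i => (f i).map res) hred.symm
      have hf1 : ∀ i, ∃ P' : Polynomial O, f i = Polynomial.C π * P' :=
        fun i => exists_eq_C_mul_of_map_eq_zero h (hf0 i)
      choose f1 hf1 using hf1
      have hπ := piL_ne_zero h
      have hrel1 : evE O (jqModC E) g1 * x =
          ∑ i, evE O (jqModC E) (f1 i) * coeffMap (Int.castRingHom E) (y i) := by
        apply mul_left_cancel₀ hπ
        rw [Finset.mul_sum, ← mul_assoc, ← evE_C_pi (O := O) (jqModC E), ← map_mul, hrel]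
        refine Finset.sum_congr rfl fun i _ => ?_
        rw [hf1 i, map_mul, mul_assoc]
      have hgk1 : g1.coeff k = π ^ m * u := by
        rw [Polynomial.coeff_C_mul, pow_succ, mul_comm (π ^ m) π, mul_assoc] at hgk
        exact mul_left_cancel₀ h.ne_zero hgk
      exact ih g1 f1 k u hgk1 hu hrel1
    · exact ⟨g, f, hg, hrel⟩

/-- **Denominator lemma.** Every `x ∈ F_E ∩ V` satisfies a relation `g(j) x = Σ f_i(j) y_i`
with `O`-coefficients and `g ≢ 0 mod π`. -/
theorem exists_denominator (h : UnifData O res π) (hfrac : IsFrac O) {n : ℕ}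
    (y : Fin n → LaurentSeries ℤ)
    (hli : LinearIndependent (jField κ) (fun i => coeffMap (Int.castRingHom κ) (y i)))
    {x : LaurentSeries E}
    (hspan : x ∈ Submodule.span (jField E)
      (Set.range fun i => coeffMap (Int.castRingHom E) (y i)))
    (hx : x ∈ gaussRing O res) :
    ∃ (g : Polynomial O) (f : Fin n → Polynomial O), g.map res ≠ 0 ∧
      evE O (jqModC E) g * x =
        ∑ i, evE O (jqModC E) (f i) * coeffMap (Int.castRingHom E) (y i) := by
  obtain ⟨g, f, hg, hrel⟩ := exists_cleared_of_mem_span hfrac _ hspan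
  obtain ⟨k, hk⟩ : ∃ k, g.coeff k ≠ 0 := by
    by_contra hne
    simp only [not_exists, not_not] at hne
    exact hg (Polynomial.ext fun k => by rw [hne k, Polynomial.coeff_zero])
  obtain ⟨m, u, hu, hres⟩ := h.prim _ hk
  exact exists_denominator_aux h y hli hx m g f k u hu hres hrel

end Denominator

section Reduction

variable {E : Type} [Field E] {O : Subring E} {κ : Type} [Field κ] {res : O →+* κ} {π : O}

theorem coeffMap_intCast_mem_full (k : Type*) [Field k] (N : ℕ) {w : LaurentSeries ℤ}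
    (hw : w ∈ Subring.closure (intDivisorExpansions N)) :
    coeffMap (Int.castRingHom k) w ∈ modularFunctionFieldFullC k N := by
  induction hw using Subring.closure_induction with
  | mem x hx =>
    obtain ⟨d, hd, hdN, rfl⟩ := hx
    rw [← jd_eq_intCast]
    exact jqModCd_mem_full k N hdN
  | zero => rw [map_zero]; exact zero_mem _
  | one => rw [map_one]; exact one_mem _
  | add x y _ _ hx hy => rw [map_add]; exact add_mem hx hy
  | neg x _ hx => rw [map_neg]; exact neg_mem hx
  | mul x y _ _ hx hy => rw [map_mul]; exact mul_mem hx hy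

theorem aeval_j_mem_full (k : Type*) [Field k] (N : ℕ) (P : Polynomial k) :
    Polynomial.aeval (jqModC k) P ∈ modularFunctionFieldFullC k N := by
  have h1 : Polynomial.aeval (jqModC k) P ∈ Algebra.adjoin k {jqModC k} :=
    Polynomial.aeval_mem_adjoin_singleton _ _
  have h2 : Algebra.adjoin k {jqModC k} ≤ (modularFunctionFieldFullC k N).toSubalgebra :=
    Algebra.adjoin_le (Set.singleton_subset_iff.mpr (jqModC_mem_full k N))
  exact h2 h1

theorem aeval_j_ne_zero {k : Type*} [Field k] {P : Polynomial k} (hP : P ≠ 0) :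
    Polynomial.aeval (jqModC k) P ≠ 0 :=
  aeval_ne_zero_of_order_ne_zero (S28.H145.jqModC_ne_zero' k)
    (by rw [S28.H145.order_jqModC]; decide) hP

theorem natCast_ne_zero_of_res (res : O →+* κ) {N : ℕ} (hN : (N : κ) ≠ 0) : (N : E) ≠ 0 := by
  intro h0
  apply hN
  have h1 : (N : O) = 0 := Subtype.ext (by simpa using h0)
  rw [← map_natCast res, h1, map_zero]

/-- **(T2)** The reduction of an element of `F_E ∩ V` lies in `F_κ`. -/
theorem gaussRed_mem_full (A : AnalyticInputs) (h : UnifData O res π) (hfrac : IsFrac O)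
    (N : ℕ) [NeZero N] (hN : (N : κ) ≠ 0) {x : LaurentSeries E}
    (hxF : x ∈ modularFunctionFieldFullC E N) (hx : x ∈ gaussRing O res) :
    gaussRed O res ⟨x, hx⟩ ∈ modularFunctionFieldFullC κ N := by
  obtain ⟨y, hy, hbasis⟩ := exists_uniform_basis A N
  obtain ⟨hspanE, -⟩ := hbasis E (natCast_ne_zero_of_res res hN)
  obtain ⟨-, hliκ⟩ := hbasis κ hN
  obtain ⟨g, f, hg, hrel⟩ := exists_denominator h hfrac y hliκ (hspanE x hxF) hx
  have hred := gaussRed_relation (res := res) y hx g f hrel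
  have hg0 := aeval_j_ne_zero hg
  have hx' : gaussRed O res ⟨x, hx⟩ = (Polynomial.aeval (jqModC κ) (g.map res))⁻¹ *
      ∑ i, Polynomial.aeval (jqModC κ) ((f i).map res) * coeffMap (Int.castRingHom κ) (y i) := by
    rw [← hred, ← mul_assoc, inv_mul_cancel₀ hg0, one_mul]
  rw [hx']
  refine mul_mem (inv_mem (aeval_j_mem_full κ N _)) (sum_mem fun i _ => ?_)
  exact mul_mem (aeval_j_mem_full κ N _) (coeffMap_intCast_mem_full κ N (hy i))

end Reduction

section Integral

variable {E : Type} [Field E] {O : Subring E}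

theorem coeffMap_comp_evalAt :
    (coeffMap (Int.castRingHom E)).comp (evalAt (jqModC ℤ)) =
      (evE O (jqModC E)).comp (Polynomial.mapRingHom (Int.castRingHom O)) := by
  apply Polynomial.ringHom_ext
  · intro a
    simp [evalAt, evE]
  · simp [evalAt, evE, coeffMap_jqModC]

/-- Integer series integral over `ℤ[j]` are integral over `O[j]` in `E((q))`. -/
theorem isIntegralElem_intCast {w : LaurentSeries ℤ}
    (hw : (evalAt (jqModC ℤ)).IsIntegralElem w) :
    (evE O (jqModC E)).IsIntegralElem (coeffMap (Int.castRingHom E) w) := by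
  obtain ⟨P, hP, hPw⟩ := hw
  refine ⟨P.map (Polynomial.mapRingHom (Int.castRingHom O)), hP.map _, ?_⟩
  rw [Polynomial.eval₂_map, ← coeffMap_comp_evalAt, ← Polynomial.hom_eval₂, hPw, map_zero]

theorem isIntegralElem_basis (A : AnalyticInputs) (N : ℕ) [NeZero N] {w : LaurentSeries ℤ}
    (hw : w ∈ Subring.closure (intDivisorExpansions N)) :
    (evE O (jqModC E)).IsIntegralElem (coeffMap (Int.castRingHom E) w) :=
  isIntegralElem_intCast (S28.H508.isIntegralElem_of_mem_closure N
    (S28.H867.coreData_integral N (fun p hp _ _ => A.modPoly p hp)) hw)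

end Integral

section Kernel

variable {E : Type} [Field E] {O : Subring E} {κ : Type} [Field κ] {res : O →+* κ} {π : O}

theorem prime_pi (h : UnifData O res π) : Prime π := by
  rw [← Ideal.span_singleton_prime h.ne_zero]
  have : Ideal.span {π} = RingHom.ker res := by
    ext x
    rw [RingHom.mem_ker, h.ker, Ideal.mem_span_singleton']
    constructor
    · rintro ⟨a, rfl⟩; exact ⟨a, mul_comm _ _⟩
    · rintro ⟨y, rfl⟩; exact ⟨y, mul_comm _ _⟩
  rw [this]
  exact RingHom.ker_isPrime _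

theorem not_C_pi_dvd (h : UnifData O res π) {g : Polynomial O} (hg : g.map res ≠ 0) :
    ¬ Polynomial.C π ∣ g := by
  rintro ⟨g', rfl⟩
  exact hg (map_res_C_pi_mul h g')

theorem piL_mem_full (N : ℕ) (π : O) : piL O π ∈ modularFunctionFieldFullC E N := by
  have : piL O π = algebraMap E (LaurentSeries E) (π : E) := by
    rw [algebraMap_laurentSeries_eq_single]; rfl
  rw [this]
  exact (modularFunctionFieldFullC E N).algebraMap_mem _

theorem evE_mem_full (N : ℕ) {t : LaurentSeries E} (ht : t ∈ modularFunctionFieldFullC E N)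
    (P : Polynomial O) : evE O t P ∈ modularFunctionFieldFullC E N := by
  induction P using Polynomial.induction_on' with
  | add p q hp hq => rw [map_add]; exact add_mem hp hq
  | monomial n a =>
    rw [← Polynomial.C_mul_X_pow_eq_monomial, map_mul, map_pow, evE_C]
    have h1 : (HahnSeries.C (a : E) : LaurentSeries E) = algebraMap E (LaurentSeries E) (a : E) := by
      rw [algebraMap_laurentSeries_eq_single]; rfl
    rw [h1]
    refine mul_mem ((modularFunctionFieldFullC E N).algebraMap_mem _) (pow_mem ?_ n)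
    simpa [evE] using ht

/-- Elements of the fraction field which are integral over `O[t]`, `t ∈ V`, lie in `V`. -/
theorem mem_gaussRing_of_isIntegralElem (h : UnifData O res π) {t : LaurentSeries E}
    (ht : t ∈ gaussRing O res) {x : LaurentSeries E} (hxF : x ∈ gaussFrac O)
    (hx : (evE O t).IsIntegralElem x) : x ∈ gaussRing O res := by
  letI : Algebra (Polynomial O) (LaurentSeries E) := (evE O t).toAlgebra
  exact mem_gaussRing_of_isIntegral' h (A := Polynomial O)
    (fun a => evE_mem_gaussRing ht a) hxF hx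

variable [IsDiscreteValuationRing O]

/-- **Abstract kernel step** on the chart `O[t]`. -/
theorem isIntegralElem_of_pi_mul (h : UnifData O res π) {t : LaurentSeries E} (ht0 : t ≠ 0)
    (hto : t.order ≠ 0) {a : LaurentSeries E}
    (h1 : (evE O t).IsIntegralElem (piL O π * a))
    {s : Polynomial O} (hs : s.map res ≠ 0)
    (h2 : (evE O t).IsIntegralElem (evE O t s * a)) :
    (evE O t).IsIntegralElem a := by
  letI : Algebra (Polynomial O) (LaurentSeries E) := (evE O t).toAlgebra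
  haveI : FaithfulSMul (Polynomial O) (LaurentSeries E) :=
    (faithfulSMul_iff_algebraMap_injective _ _).mpr (evE_injective ht0 hto)
  have hp : Prime (Polynomial.C π : Polynomial O) := Polynomial.prime_C_iff.mpr (prime_pi h)
  have h1' : IsIntegral (Polynomial O) ((Polynomial.C π : Polynomial O) • a) := by
    rw [Algebra.smul_def]
    show (evE O t).IsIntegralElem (evE O t (Polynomial.C π) * a)
    rw [evE_C_pi]
    exact h1
  have h2' : IsIntegral (Polynomial O) (s • a) := by
    rw [Algebra.smul_def]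
    exact h2
  exact S28.H865.isIntegral_of_smul_of_smul hp (not_C_pi_dvd h hs) h1' h2'

/-- The denominator property of a chart `O[t]`. -/
def HasDenominators (res : O →+* κ) (N : ℕ) (t : LaurentSeries E) : Prop :=
  ∀ x : LaurentSeries E, x ∈ modularFunctionFieldFullC E N → x ∈ gaussRing O res →
    ∃ s : Polynomial O, s.map res ≠ 0 ∧ (evE O t).IsIntegralElem (evE O t s * x)

/-- **Kernel theorem** on a chart with denominators. -/
theorem kernel_chart (h : UnifData O res π) (N : ℕ) {t : LaurentSeries E} (ht0 : t ≠ 0)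
    (hto : t.order ≠ 0) (hD : HasDenominators res N t)
    {x : LaurentSeries E} (hxF : x ∈ modularFunctionFieldFullC E N)
    (hint : (evE O t).IsIntegralElem x)
    (hx : x ∈ gaussRing O res) (hred : gaussRed O res ⟨x, hx⟩ = 0) :
    ∃ x' : LaurentSeries E, x' ∈ modularFunctionFieldFullC E N ∧
      (evE O t).IsIntegralElem x' ∧ x = piL O π * x' := by
  obtain ⟨yV, hyV⟩ := (gaussRed_eq_zero_iff h ⟨x, hx⟩).mp hred
  have hyV' : x = piL O π * (yV : LaurentSeries E) := hyV
  have hπ := piL_ne_zero h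
  have hyF : (yV : LaurentSeries E) ∈ modularFunctionFieldFullC E N := by
    have : (yV : LaurentSeries E) = (piL O π)⁻¹ * x := by
      rw [hyV', ← mul_assoc, inv_mul_cancel₀ hπ, one_mul]
    rw [this]
    exact mul_mem (inv_mem (piL_mem_full N π)) hxF
  obtain ⟨s, hs, hsint⟩ := hD _ hyF yV.2
  refine ⟨yV, hyF, ?_, hyV'⟩
  exact isIntegralElem_of_pi_mul h ht0 hto (by rw [← hyV']; exact hint) hs hsint

/-- The chart `O[j]` has denominators. -/
theorem hasDenominators_j (A : AnalyticInputs) (h : UnifData O res π) (hfrac : IsFrac O)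
    (N : ℕ) [NeZero N] (hN : (N : κ) ≠ 0) : HasDenominators res N (jqModC E) := by
  intro x hxF hx
  obtain ⟨y, hy, hbasis⟩ := exists_uniform_basis A N
  obtain ⟨hspanE, -⟩ := hbasis E (natCast_ne_zero_of_res res hN)
  obtain ⟨-, hliκ⟩ := hbasis κ hN
  obtain ⟨g, f, hg, hrel⟩ := exists_denominator h hfrac y hliκ (hspanE x hxF) hx
  refine ⟨g, hg, ?_⟩
  rw [hrel]
  letI : Algebra (Polynomial O) (LaurentSeries E) := (evE O (jqModC E)).toAlgebra
  show IsIntegral (Polynomial O) _
  refine IsIntegral.sum _ fun i _ => ?_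
  exact IsIntegral.mul (isIntegral_algebraMap (x := f i)) (isIntegralElem_basis A N (hy i))

/-- **(T4), finite chart.**  `x ∈ F_E` integral over `O[j]` with vanishing reduction is
`π · x'` with `x' ∈ F_E` integral over `O[j]`. -/
theorem kernel_fin (A : AnalyticInputs) (h : UnifData O res π) (hfrac : IsFrac O)
    (N : ℕ) [NeZero N] (hN : (N : κ) ≠ 0)
    {x : LaurentSeries E} (hxF : x ∈ modularFunctionFieldFullC E N)
    (hint : (evE O (jqModC E)).IsIntegralElem x)
    (hx : x ∈ gaussRing O res) (hred : gaussRed O res ⟨x, hx⟩ = 0) :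
    ∃ x' : LaurentSeries E, x' ∈ modularFunctionFieldFullC E N ∧
      (evE O (jqModC E)).IsIntegralElem x' ∧ x = piL O π * x' :=
  kernel_chart h N (S28.H145.jqModC_ne_zero' E) (by rw [S28.H145.order_jqModC]; decide)
    (hasDenominators_j A h hfrac N hN) hxF hint hx hred

end Kernel

section Infinity

variable {E : Type} [Field E] {O : Subring E} {κ : Type} [Field κ] {res : O →+* κ} {π : O}

theorem evE_X (t : LaurentSeries E) : evE O t Polynomial.X = t := by simp [evE]

/-- `(reflect m P)(t⁻¹) = P(t) · t⁻ᵐ` for `deg P ≤ m`. -/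
theorem evE_reflect {t : LaurentSeries E} (ht0 : t ≠ 0) (m : ℕ) (P : Polynomial O)
    (hP : P.natDegree ≤ m) : evE O t⁻¹ (P.reflect m) = evE O t P * t⁻¹ ^ m := by
  letI : Invertible t := invertibleOfNonzero ht0
  have h := Polynomial.eval₂_reflect_mul_pow
    ((HahnSeries.C : E →+* LaurentSeries E).comp O.subtype) t m P hP
  rw [invOf_eq_inv] at h
  show Polynomial.eval₂ _ t⁻¹ (P.reflect m) = Polynomial.eval₂ _ t P * _
  rw [← h, mul_assoc, ← mul_pow, mul_inv_cancel₀ ht0, one_pow, mul_one]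

/-- **Pole clearing**: if `w` is integral over `O[t]`, then `t⁻ⁿ w` is integral over `O[t⁻¹]`
for some `n`. -/
theorem exists_pow_mul_isIntegralElem {t : LaurentSeries E} (ht0 : t ≠ 0) {w : LaurentSeries E}
    (hw : (evE O t).IsIntegralElem w) :
    ∃ n : ℕ, (evE O t⁻¹).IsIntegralElem (t⁻¹ ^ n * w) := by
  classical
  obtain ⟨p, hmonic, hroot⟩ := hw
  set M : ℕ := ∑ i ∈ Finset.range (p.natDegree + 1), (p.coeff i).natDegree with hM
  have hnM : ∀ i ≤ p.natDegree, (p.coeff i).natDegree ≤ M := fun i hi =>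
    Finset.single_le_sum (f := fun i => (p.coeff i).natDegree) (fun _ _ => Nat.zero_le _)
      (Finset.mem_range.mpr (Nat.lt_succ_of_le hi))
  set q : Polynomial (LaurentSeries E) := (p.map (evE O t)).scaleRoots (t⁻¹ ^ M) with hq
  have hqmonic : q.Monic := (Polynomial.monic_scaleRoots_iff _).mpr (hmonic.map _)
  have hqroot : q.eval (t⁻¹ ^ M * w) = 0 := by
    rw [hq, Polynomial.scaleRoots_eval_mul, Polynomial.eval_map, hroot, mul_zero]
  have hqcoeff : ∀ i, q.coeff i ∈ (evE O t⁻¹).rangeS := by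
    intro i
    rw [hq, Polynomial.coeff_scaleRoots, Polynomial.coeff_map, hmonic.natDegree_map]
    by_cases hi : i < p.natDegree
    · have hle : (p.coeff i).natDegree ≤ M * (p.natDegree - i) := by
        calc (p.coeff i).natDegree ≤ M := hnM i hi.le
          _ = M * 1 := (mul_one M).symm
          _ ≤ M * (p.natDegree - i) :=
            Nat.mul_le_mul_left M (Nat.one_le_iff_ne_zero.mpr (by omega))
      refine ⟨(p.coeff i).reflect (M * (p.natDegree - i)), ?_⟩
      rw [evE_reflect ht0 _ _ hle, ← pow_mul]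
    · rcases (not_lt.mp hi).lt_or_eq with hlt | heq
      · rw [Polynomial.coeff_eq_zero_of_natDegree_lt hlt, map_zero, zero_mul]
        exact zero_mem _
      · rw [← heq, hmonic.coeff_natDegree, map_one, one_mul, Nat.sub_self, pow_zero]
        exact one_mem _
  have hlifts : q ∈ Polynomial.lifts (evE O t⁻¹) :=
    (Polynomial.lifts_iff_coeff_lifts q).mpr fun i => hqcoeff i
  obtain ⟨q', hq'q, -, hq'monic⟩ := Polynomial.lifts_and_natDegree_eq_and_monic hlifts hqmonic
  refine ⟨M, q', hq'monic, ?_⟩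
  rw [Polynomial.eval₂_eq_eval_map, hq'q, hqroot]

/-- Denominators pass from the chart `O[t]` to the chart `O[t⁻¹]`. -/
theorem HasDenominators.inv {N : ℕ} {t : LaurentSeries E} (ht0 : t ≠ 0)
    (hD : HasDenominators res N t) : HasDenominators res N t⁻¹ := by
  intro x hxF hx
  obtain ⟨s, hs, hint⟩ := hD x hxF hx
  obtain ⟨n, hn⟩ := exists_pow_mul_isIntegralElem ht0 hint
  refine ⟨Polynomial.X ^ s.natDegree * (Polynomial.X ^ n * s.reflect s.natDegree), ?_, ?_⟩
  · rw [Polynomial.map_mul, Polynomial.map_mul, Polynomial.map_pow, Polynomial.map_pow,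
      Polynomial.map_X, ← Polynomial.reflect_map]
    exact mul_ne_zero (pow_ne_zero _ Polynomial.X_ne_zero)
      (mul_ne_zero (pow_ne_zero _ Polynomial.X_ne_zero)
        (Polynomial.reflect_eq_zero_iff.not.mpr hs))
  · have hre : evE O t⁻¹ (Polynomial.X ^ s.natDegree * (Polynomial.X ^ n * s.reflect s.natDegree)) * x
        = evE O t⁻¹ (Polynomial.X ^ s.natDegree * Polynomial.X ^ s.natDegree) *
          (t⁻¹ ^ n * (evE O t s * x)) := by
      rw [map_mul, map_mul, map_mul, map_pow, map_pow, evE_X, evE_reflect ht0 _ _ le_rfl]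
      ring
    rw [hre]
    exact RingHom.IsIntegralElem.mul _ ((evE O t⁻¹).isIntegralElem_map) hn

end Infinity

section KernelInf

variable {E : Type} [Field E] {O : Subring E} [IsDiscreteValuationRing O]
  {κ : Type} [Field κ] {res : O →+* κ} {π : O}

theorem j_inv_mem_gaussRing : (jqModC E)⁻¹ ∈ gaussRing O res := by
  have h := inv_mem_gaussRing_of_gaussRed_ne_zero
    (⟨jqModC E, j_mem_gaussRing O res⟩ : gaussRing O res)
    (by rw [gaussRed_j]; exact S28.H145.jqModC_ne_zero' κ)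
  exact h

/-- **(T4), chart at infinity.** -/
theorem kernel_inf (A : AnalyticInputs) (h : UnifData O res π) (hfrac : IsFrac O)
    (N : ℕ) [NeZero N] (hN : (N : κ) ≠ 0)
    {x : LaurentSeries E} (hxF : x ∈ modularFunctionFieldFullC E N)
    (hint : (evE O (jqModC E)⁻¹).IsIntegralElem x)
    (hx : x ∈ gaussRing O res) (hred : gaussRed O res ⟨x, hx⟩ = 0) :
    ∃ x' : LaurentSeries E, x' ∈ modularFunctionFieldFullC E N ∧
      (evE O (jqModC E)⁻¹).IsIntegralElem x' ∧ x = piL O π * x' :=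
  kernel_chart h N (inv_ne_zero (S28.H145.jqModC_ne_zero' E))
    (S28.H806.jqModC_inv_order_ne_zero E)
    ((hasDenominators_j A h hfrac N hN).inv (S28.H145.jqModC_ne_zero' E)) hxF hint hx hred

end KernelInf

end Fermat.Agent.S18.H208

end

end
-- ===== PACK-END S18/H208/Gauss.lean

-- ===== PACK-BEGIN Lib/Newform/H443/SMOCore.lean
section
/-
NEWFORM library (helper443) — STRONG MULTIPLICITY ONE from the MAIN LEMMA.

Prelude language: `CuspForm (Gamma0 N) 2`, `CuspForm.heckeTLin`, `ModularFormClass.qCoeff`,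
`CuspForm.IsNewform` (= normalised eigenform whose good eigensystem does not occur at a proper
divisor level).

* `qCoeff_eq_of_prime_eq` : two normalised eigenforms (levels dividing `D`) with the same `a_ℓ`
  at all primes `ℓ ∤ D` have the same `a_n` for all `n` coprime to `D`.
* `IsNewform.eq_zero_of_mem_old` : let `Φ j : S₂(Γ₀(M j)) → S₂(Γ₀(N))` (`j` in a finite type,
  `M j ∣ N`, `M j ≠ N`) be linear maps commuting with `T_ℓ`, `ℓ ∤ N`.  A common eigenvector of the
  `T_ℓ`, `ℓ ∤ N`, with the eigenvalues of a NEWFORM `f` of level `N`, which lies in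
  `⨆ j, range (Φ j)` ("old space"), is zero.
* `IsNewform.eq_of_mainLemma` : **strong multiplicity one at level `N`**, given the main lemma
  in the form "`a_n(h) = 0` for all `n` coprime to `N` ⟹ `h ∈ ⨆ j, range (Φ j)`":
  a normalised eigenform `g` of level `N` with `a_ℓ(g) = a_ℓ(f)` for all primes `ℓ ∤ N`
  equals the newform `f`.
* `IsNewform.eq_smul_of_mainLemma` : the good eigenspace of a newform is the line `ℂ f`.
-/





set_option autoImplicit false

open CuspForm CongruenceSubgroup ModularFormClass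

namespace Fermat.Agent.Lib.Newform.H443

/-- The coefficients `a_{p^r}`, `p ∤ N, N'`, of normalised eigenforms are determined by `a_p`. -/
theorem qCoeff_prime_pow_eq {N N' : ℕ} {f : CuspForm (Gamma0 N) 2} {g : CuspForm (Gamma0 N') 2}
    (hf : f.IsNormalizedEigenform) (hg : g.IsNormalizedEigenform) {p : ℕ} (hp : p.Prime)
    (hpN : ¬ p ∣ N) (hpN' : ¬ p ∣ N') (h : qCoeff g p = qCoeff f p) :
    ∀ r : ℕ, qCoeff g (p ^ r) = qCoeff f (p ^ r) := by
  have key : ∀ r : ℕ, qCoeff g (p ^ r) = qCoeff f (p ^ r) ∧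
      qCoeff g (p ^ (r + 1)) = qCoeff f (p ^ (r + 1)) := by
    intro r
    induction r with
    | zero =>
      refine ⟨?_, ?_⟩
      · rw [pow_zero, hf.qCoeff_one, hg.qCoeff_one]
      · simpa using h
    | succ r ih =>
      refine ⟨ih.2, ?_⟩
      rw [hf.qCoeff_prime_pow_of_not_dvd p r hp hpN, hg.qCoeff_prime_pow_of_not_dvd p r hp hpN',
        h, ih.1, ih.2]
  exact fun r => (key r).1

/-- Two normalised eigenforms of levels dividing `D` with the same `a_ℓ` at all primes `ℓ ∤ D`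
have the same `a_n` for all `n` coprime to `D`. -/
theorem qCoeff_eq_of_prime_eq {N N' D : ℕ} (hND : N ∣ D) (hN'D : N' ∣ D)
    {f : CuspForm (Gamma0 N) 2} {g : CuspForm (Gamma0 N') 2}
    (hf : f.IsNormalizedEigenform) (hg : g.IsNormalizedEigenform)
    (h : ∀ ℓ : ℕ, ℓ.Prime → ¬ ℓ ∣ D → qCoeff g ℓ = qCoeff f ℓ) :
    ∀ n : ℕ, n.Coprime D → qCoeff g n = qCoeff f n := by
  intro n
  induction n using Nat.strong_induction_on with
  | _ n ih =>
    intro hn
    rcases Nat.eq_zero_or_pos n with rfl | hpos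
    · rw [Fermat.Agent.Lib.Newform.H683.qCoeff_zero_cusp, Fermat.Agent.Lib.Newform.H683.qCoeff_zero_cusp]
    rcases Nat.eq_or_lt_of_le (Nat.succ_le_of_lt hpos) with h1 | h1
    · have : n = 1 := h1.symm
      subst this
      rw [hf.qCoeff_one, hg.qCoeff_one]
    · -- `n ≥ 2`: split off a prime power
      obtain ⟨p, hp, hpn⟩ := Nat.exists_prime_and_dvd (show n ≠ 1 by omega)
      obtain ⟨r, m, hm, rfl⟩ := Nat.exists_eq_pow_mul_and_not_dvd hpos.ne' p hp.ne_one
      have hr : r ≠ 0 := by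
        rintro rfl
        rw [pow_zero, one_mul] at hpn
        exact hm hpn
      have hcop : (p ^ r).Coprime m :=
        Nat.Coprime.pow_left r ((Nat.Prime.coprime_iff_not_dvd hp).mpr hm)
      have hpD : ¬ p ∣ D := by
        intro hpD
        have h2 : p ∣ Nat.gcd (p ^ r * m) D :=
          Nat.dvd_gcd (Dvd.dvd.mul_right (dvd_pow_self p hr) m) hpD
        rw [Nat.Coprime] at hn
        rw [hn] at h2
        exact hp.one_lt.ne' (Nat.dvd_one.mp h2)
      have hmD : m.Coprime D := Nat.Coprime.coprime_dvd_left (Dvd.intro_left _ rfl) hn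
      have hmlt : m < p ^ r * m := by
        have hmpos : 0 < m := Nat.pos_of_ne_zero (by rintro rfl; simp at hpos)
        have : 1 < p ^ r := Nat.one_lt_pow hr hp.one_lt
        nlinarith
      rw [hf.qCoeff_mul_of_coprime _ _ hcop, hg.qCoeff_mul_of_coprime _ _ hcop,
        ih m hmlt hmD,
        qCoeff_prime_pow_eq hf hg hp (fun hd => hpD (hd.trans hND))
          (fun hd => hpD (hd.trans hN'D)) (h p hp hpD) r]

section Old

variable {N : ℕ} [NeZero N] {J : Type*} [Finite J] (M : J → ℕ) (hMN : ∀ j, M j ∣ N)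
  (Φ : ∀ j, CuspForm (Gamma0 (M j)) 2 →ₗ[ℂ] CuspForm (Gamma0 N) 2)

/-- **No newform eigensystem in the old space.**  Let `Φ j : S₂(Γ₀(M j)) → S₂(Γ₀(N))` be finitely
many linear maps from proper divisor levels commuting with the `T_ℓ`, `ℓ ∤ N`.  If `f` is a
newform of level `N` and `h ∈ ⨆ j, range (Φ j)` satisfies `T_ℓ h = a_ℓ(f) h` for all primes
`ℓ ∤ N`, then `h = 0`. -/
theorem IsNewform.eq_zero_of_mem_old {f : CuspForm (Gamma0 N) 2} (hf : f.IsNewform)
    (hne : ∀ j, M j ≠ N)
    (hΦ : ∀ j (ℓ : ℕ) (hℓ : ℓ.Prime) (hℓN : ¬ ℓ ∣ N) (v : CuspForm (Gamma0 (M j)) 2),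
      Φ j (heckeTLin 2 hℓ (fun hd => hℓN (hd.trans (hMN j))) v) = heckeTLin 2 hℓ hℓN (Φ j v))
    (h : CuspForm (Gamma0 N) 2) (hmem : h ∈ ⨆ j, LinearMap.range (Φ j))
    (heig : ∀ (ℓ : ℕ) (hℓ : ℓ.Prime) (hℓN : ¬ ℓ ∣ N), heckeTLin 2 hℓ hℓN h = qCoeff f ℓ • h) :
    h = 0 := by
  by_contra hh
  have hM0 : ∀ j, NeZero (M j) := fun j =>
    ⟨fun h0 => NeZero.ne N (Nat.eq_zero_of_zero_dvd (h0 ▸ hMN j))⟩
  have : ∀ j, FiniteDimensional ℂ (CuspForm (Gamma0 (M j)) 2) := fun j =>
    have := hM0 j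
    Fermat.Agent.Lib.Newform.H863.finiteDimensional_cuspForm (M j)
  -- the operators, indexed by the good primes
  let ι : Type := {ℓ : ℕ // ℓ.Prime ∧ ¬ ℓ ∣ N}
  let S : ∀ j, ι → Module.End ℂ (CuspForm (Gamma0 (M j)) 2) := fun j ℓ =>
    heckeTLin 2 ℓ.2.1 (fun hd => ℓ.2.2 (hd.trans (hMN j)))
  let T : ι → Module.End ℂ (CuspForm (Gamma0 N) 2) := fun ℓ => heckeTLin 2 ℓ.2.1 ℓ.2.2
  obtain ⟨j, v, hv0, hv⟩ := exists_eigenvector_of_equivariant_family S T
    (fun j ℓ ℓ' => CuspForm.heckeTLin_comm 2 _ _ _ _) Φ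
    (fun j ℓ v => hΦ j ℓ.1 ℓ.2.1 ℓ.2.2 v) (fun ℓ => qCoeff f ℓ.1) hh hmem
    (fun ℓ => heig ℓ.1 ℓ.2.1 ℓ.2.2)
  exact hv0 (Fermat.Agent.Lib.Newform.H863.IsNewform.eq_zero_of_eigenvector (hMN j) (hne j) hf v
    (fun ℓ hℓ hℓN => hv ⟨ℓ, hℓ, hℓN⟩))

/-- **Strong multiplicity one at level `N`, from the main lemma.**  Assume the main lemma in
the form: every `h ∈ S₂(Γ₀(N))` with `a_n(h) = 0` for all `n` coprime to `N` lies in the old
space `⨆ j, range (Φ j)`.  Then a `T_ℓ`-eigenvector (`ℓ ∤ N`) with the eigenvalues of a newform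
`f` of level `N` is a multiple of `f`. -/
theorem IsNewform.eq_smul_of_mainLemma {f : CuspForm (Gamma0 N) 2} (hf : f.IsNewform)
    (hne : ∀ j, M j ≠ N)
    (hΦ : ∀ j (ℓ : ℕ) (hℓ : ℓ.Prime) (hℓN : ¬ ℓ ∣ N) (v : CuspForm (Gamma0 (M j)) 2),
      Φ j (heckeTLin 2 hℓ (fun hd => hℓN (hd.trans (hMN j))) v) = heckeTLin 2 hℓ hℓN (Φ j v))
    (hmain : ∀ h : CuspForm (Gamma0 N) 2, (∀ n : ℕ, n.Coprime N → qCoeff h n = 0) →
      h ∈ ⨆ j, LinearMap.range (Φ j))
    (g : CuspForm (Gamma0 N) 2)
    (heig : ∀ (ℓ : ℕ) (hℓ : ℓ.Prime) (hℓN : ¬ ℓ ∣ N), heckeTLin 2 hℓ hℓN g = qCoeff f ℓ • g) :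
    g = qCoeff g 1 • f := by
  have hfeig : ∀ (ℓ : ℕ) (hℓ : ℓ.Prime) (hℓN : ¬ ℓ ∣ N),
      heckeTLin 2 hℓ hℓN f = qCoeff f ℓ • f := fun ℓ hℓ hℓN =>
    Fermat.Agent.Lib.Newform.H683.heckeTLin_eq_of_eigenform hf.1 hℓ hℓN
  set h : CuspForm (Gamma0 N) 2 := g - qCoeff g 1 • f with hh
  have hheig : ∀ (ℓ : ℕ) (hℓ : ℓ.Prime) (hℓN : ¬ ℓ ∣ N),
      heckeTLin 2 hℓ hℓN h = qCoeff f ℓ • h := by
    intro ℓ hℓ hℓN
    rw [hh, map_sub, map_smul, heig ℓ hℓ hℓN, hfeig ℓ hℓ hℓN, smul_sub, smul_comm]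
  -- the coefficients of `h` prime to `N` vanish
  have hcoeff1 : qCoeff h 1 = 0 := by
    rw [hh, Fermat.Agent.Lib.Newform.H683.qCoeff_sub_cusp,
      Fermat.Agent.Lib.Newform.H683.qCoeff_smul_cusp, hf.1.qCoeff_one, mul_one, sub_self]
  have hstep : ∀ (ℓ : ℕ) (hℓ : ℓ.Prime) (hℓN : ¬ ℓ ∣ N) (n : ℕ), ¬ ℓ ∣ n →
      qCoeff h (n * ℓ) = qCoeff f ℓ * qCoeff h n := by
    intro ℓ hℓ hℓN n hn
    have h1 := congrArg (fun F : CuspForm (Gamma0 N) 2 => qCoeff (⇑F) n) (hheig ℓ hℓ hℓN)
    beta_reduce at h1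
    rw [Fermat.Agent.Lib.Newform.H683.qCoeff_smul_cusp, CuspForm.coe_heckeTLin_apply,
      Fermat.Agent.Lib.Newform.H683.qCoeff_heckeT_cusp 2 h hℓ.ne_zero,
      ModularForm.coeffHeckeT_apply, if_neg hn, add_zero] at h1
    exact h1
  have hstep2 : ∀ (ℓ : ℕ) (hℓ : ℓ.Prime) (hℓN : ¬ ℓ ∣ N) (n : ℕ), ℓ ∣ n →
      qCoeff h (n * ℓ) = qCoeff f ℓ * qCoeff h n - (ℓ : ℂ) * qCoeff h (n / ℓ) := by
    intro ℓ hℓ hℓN n hn
    have h1 := congrArg (fun F : CuspForm (Gamma0 N) 2 => qCoeff (⇑F) n) (hheig ℓ hℓ hℓN)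
    beta_reduce at h1
    rw [Fermat.Agent.Lib.Newform.H683.qCoeff_smul_cusp, CuspForm.coe_heckeTLin_apply,
      Fermat.Agent.Lib.Newform.H683.qCoeff_heckeT_cusp 2 h hℓ.ne_zero,
      ModularForm.coeffHeckeT_apply, if_pos hn] at h1
    rw [← h1]
    norm_num
  have hzero : ∀ n : ℕ, n.Coprime N → qCoeff h n = 0 := by
    intro n
    induction n using Nat.strong_induction_on with
    | _ n ih =>
      intro hn
      rcases Nat.eq_zero_or_pos n with rfl | hpos
      · exact Fermat.Agent.Lib.Newform.H683.qCoeff_zero_cusp 2 h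
      rcases Nat.eq_or_lt_of_le (Nat.succ_le_of_lt hpos) with h1 | h1
      · have : n = 1 := h1.symm
        subst this
        exact hcoeff1
      · obtain ⟨p, hp, hpn⟩ := Nat.exists_prime_and_dvd (show n ≠ 1 by omega)
        obtain ⟨m, rfl⟩ := hpn
        have hmpos : 0 < m := Nat.pos_of_ne_zero (by rintro rfl; simp at hpos)
        have hpN : ¬ p ∣ N := by
          intro hpN
          have h2 : p ∣ Nat.gcd (p * m) N := Nat.dvd_gcd (Dvd.intro _ rfl) hpN
          rw [Nat.Coprime] at hn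
          rw [hn] at h2
          exact hp.one_lt.ne' (Nat.dvd_one.mp h2)
        have hmN : m.Coprime N := Nat.Coprime.coprime_dvd_left (Dvd.intro_left _ rfl) hn
        have hmlt : m < p * m := by
          have := hp.one_lt
          nlinarith
        rw [mul_comm p m]
        by_cases hpm : p ∣ m
        · rw [hstep2 p hp hpN m hpm, ih m hmlt hmN, mul_zero, zero_sub, neg_eq_zero]
          have hdlt : m / p < p * m :=
            lt_of_le_of_lt (Nat.div_le_self m p) hmlt
          have hdN : (m / p).Coprime N :=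
            Nat.Coprime.coprime_dvd_left (Nat.div_dvd_of_dvd hpm) hmN
          rw [ih (m / p) hdlt hdN, mul_zero]
        · rw [hstep p hp hpN m hpm, ih m hmlt hmN, mul_zero]
  have h0 : h = 0 := IsNewform.eq_zero_of_mem_old M hMN Φ hf hne hΦ h (hmain h hzero) hheig
  exact sub_eq_zero.mp h0

/-- **Strong multiplicity one at level `N`, from the main lemma** (normalised form): a normalised
eigenform `g` of level `N` with the good eigenvalues of a newform `f` of level `N` equals `f`. -/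
theorem IsNewform.eq_of_mainLemma {f : CuspForm (Gamma0 N) 2} (hf : f.IsNewform)
    (hne : ∀ j, M j ≠ N)
    (hΦ : ∀ j (ℓ : ℕ) (hℓ : ℓ.Prime) (hℓN : ¬ ℓ ∣ N) (v : CuspForm (Gamma0 (M j)) 2),
      Φ j (heckeTLin 2 hℓ (fun hd => hℓN (hd.trans (hMN j))) v) = heckeTLin 2 hℓ hℓN (Φ j v))
    (hmain : ∀ h : CuspForm (Gamma0 N) 2, (∀ n : ℕ, n.Coprime N → qCoeff h n = 0) →
      h ∈ ⨆ j, LinearMap.range (Φ j))
    {g : CuspForm (Gamma0 N) 2} (hg : g.IsNormalizedEigenform)
    (hgf : ∀ ℓ : ℕ, ℓ.Prime → ¬ ℓ ∣ N → qCoeff g ℓ = qCoeff f ℓ) :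
    g = f := by
  have := IsNewform.eq_smul_of_mainLemma M hMN Φ hf hne hΦ hmain g (fun ℓ hℓ hℓN => by
    rw [Fermat.Agent.Lib.Newform.H683.heckeTLin_eq_of_eigenform hg hℓ hℓN, hgf ℓ hℓ hℓN])
  rw [hg.qCoeff_one, one_smul] at this
  exact this

end Old

end Fermat.Agent.Lib.Newform.H443

end
-- ===== PACK-END Lib/Newform/H443/SMOCore.lean

-- ===== PACK-BEGIN S36/H630/Side.lean
section


/-!
# S36 engine, LABEL core (helper630), part 13: the label equation along ONE degeneracy map,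
hypotheses in the shape of the fields of `Eng.TripleCtx`

`F'` (level `qM'`) inside `F` (level `q²M'`) via `algebraMap F' F` (`= α` or `β`, instance
`algebraAlong`); charts `A = chart R {x'}`, `B = chart R {x}`; `n` a closed point of `B`, alone in
its fibre over `A`; sheets `Va` (`e = f = 1`), `Vb` (`e = q - 1`, `f = 1`) over `V'` and `Vc`
(purely inseparable of degree `q`) over `V''`, all three through `n`.

`label_eq_side` :  `ξ₁ η_a η_b ^ (q - 1) ≡ ξ₂ η_c ^ q`  modulo the maximal ideal of `R`.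
-/

set_option autoImplicit false
set_option linter.unusedSectionVars false
set_option linter.style.haveILetI false

namespace Fermat.Agent.S36.H630

open Polynomial
open Fermat.Agent.S18.H138 (chart mem_chart)

section Side

variable {R : Type*} [CommRing R] [IsLocalRing R]
variable {F' : Type*} [Field F'] [Algebra R F']
variable {F : Type*} [Field F] [Algebra R F] [Algebra F' F] [IsScalarTower R F' F]

/-- The inclusion of the chart below into the chart above. -/
def chartIncl {x : F} {x' : F'}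
    (hchart : ∀ b ∈ chart R ({x'} : Set F'), algebraMap F' F b ∈ chart R ({x} : Set F)) :
    chart R ({x'} : Set F') →+* chart R ({x} : Set F) where
  toFun a := ⟨algebraMap F' F (a : F'), hchart a a.2⟩
  map_one' := Subtype.ext (by simp)
  map_mul' _ _ := Subtype.ext (by simp)
  map_zero' := Subtype.ext (by simp)
  map_add' _ _ := Subtype.ext (by simp)

theorem chartIncl_isIntegral {x : F} {x' : F'}
    (hchart : ∀ b ∈ chart R ({x'} : Set F'), algebraMap F' F b ∈ chart R ({x} : Set F))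
    (hint : ∀ b ∈ chart R ({x} : Set F), ∃ p : Polynomial F', p.Monic ∧
      (∀ i, p.coeff i ∈ chart R ({x'} : Set F')) ∧ (p.map (algebraMap F' F)).eval b = 0) :
    (chartIncl hchart).IsIntegral := by
  intro b
  obtain ⟨p, hp, hc, hroot⟩ := hint b b.2
  have hl : p ∈ Polynomial.lifts (algebraMap (chart R ({x'} : Set F')) F') :=
    (Polynomial.lifts_iff_coeff_lifts p).2 (fun i => ⟨⟨p.coeff i, hc i⟩, rfl⟩)
  obtain ⟨q, hq, -, hqm⟩ := Polynomial.lifts_and_degree_eq_and_monic hl hp
  refine ⟨q, hqm, ?_⟩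
  apply Subtype.ext
  have h1 : ((Polynomial.eval₂ (chartIncl hchart) b q : chart R ({x} : Set F)) : F)
      = Polynomial.eval₂ ((algebraMap F' F).comp (algebraMap (chart R ({x'} : Set F')) F'))
          (b : F) q := by
    have := Polynomial.hom_eval₂ q (chartIncl hchart) (chart R ({x} : Set F)).val.toRingHom b
    exact this
  rw [h1, ← Polynomial.eval₂_map, hq, Polynomial.eval₂_eq_eval_map]
  exact hroot

/-- **The label equation along one degeneracy map.** -/
theorem label_eq_side {x : F} {x' : F'}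
    (n : Ideal (chart R ({x} : Set F))) [hn : n.IsMaximal]
    (hchart : ∀ b ∈ chart R ({x'} : Set F'), algebraMap F' F b ∈ chart R ({x} : Set F))
    (hint : ∀ b ∈ chart R ({x} : Set F), ∃ p : Polynomial F', p.Monic ∧
      (∀ i, p.coeff i ∈ chart R ({x'} : Set F')) ∧ (p.map (algebraMap F' F)).eval b = 0)
    (huniq : ∀ Q : Ideal (chart R ({x} : Set F)), Q.IsMaximal →
      (∀ (b' : F') (h : b' ∈ chart R ({x'} : Set F')),
        (⟨algebraMap F' F b', hchart b' h⟩ : chart R ({x} : Set F)) ∈ n →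
        (⟨algebraMap F' F b', hchart b' h⟩ : chart R ({x} : Set F)) ∈ Q) → Q = n)
    {Va Vb Vc : ValuationSubring F} {V' V'' : ValuationSubring F'}
    (hBa : ChartLe (chart R ({x} : Set F)) Va) (htha : PassThrough (chart R ({x} : Set F)) n Va)
    (hBb : ChartLe (chart R ({x} : Set F)) Vb) (hthb : PassThrough (chart R ({x} : Set F)) n Vb)
    (hBc : ChartLe (chart R ({x} : Set F)) Vc) (hthc : PassThrough (chart R ({x} : Set F)) n Vc)
    (hcomap_a : Va.comap (algebraMap F' F) = V') (hcomap_c : Vc.comap (algebraMap F' F) = V'')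
    (hres_a : ∀ b ∈ chart R ({x} : Set F), ∃ b' ∈ chart R ({x'} : Set F'),
      b - algebraMap F' F b' ∈ Va.nonunits)
    (hres_b : ∀ b ∈ chart R ({x} : Set F), ∃ b' ∈ chart R ({x'} : Set F'),
      b - algebraMap F' F b' ∈ Vb.nonunits)
    {q : ℕ} (hq : q ≠ 0)
    (hnr_s : NormResSplitU V' Va Vb (q - 1)) (hnr_i : NormResInsepU (F' := F') Vc q)
    {m : ℕ} (hm : 0 < m) {u d : F} {a₀ s₀ : chart R ({x} : Set F)} (hs₀ : s₀ ∉ n)
    (hpure : u * d ^ m * (s₀ : F) = a₀)
    {k : F'} (hk : Algebra.norm F' u = k ^ m) {ξ₁ ξ₂ : R}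
    (hξ₁ : k - algebraMap R F' ξ₁ ∈ V'.nonunits) (hξ₂ : k - algebraMap R F' ξ₂ ∈ V''.nonunits)
    {ηa ηb ηc : R}
    (hηa : algebraMap R (chart R ({x} : Set F)) ηa ∉ n)
    (hηb : algebraMap R (chart R ({x} : Set F)) ηb ∉ n)
    (hηc : algebraMap R (chart R ({x} : Set F)) ηc ∉ n)
    (hva : ValAt (chart R ({x} : Set F)) n Va d ηa)
    (hvb : ValAt (chart R ({x} : Set F)) n Vb d ηb)
    (hvc : ValAt (chart R ({x} : Set F)) n Vc d ηc) :
    ξ₁ * (ηa * ηb ^ (q - 1)) - ξ₂ * ηc ^ q ∈ IsLocalRing.maximalIdeal R := by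
  have hnp : n.IsPrime := hn.isPrime
  set ι := chartIncl hchart with hι
  have hιint : ι.IsIntegral := chartIncl_isIntegral hchart hint
  -- the point below
  set N₁ : Ideal (chart R ({x'} : Set F')) := n.comap ι with hN₁
  haveI hN₁p : N₁.IsPrime := Ideal.comap_isPrime ι n
  haveI hN₁m : N₁.IsMaximal := Ideal.isMaximal_comap_of_isIntegral_of_isMaximal' ι hιint n
  have hAB : ∀ a : chart R ({x'} : Set F'), algebraMap F' F (a : F') ∈ chart R ({x} : Set F) :=
    fun a => hchart a a.2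
  have hNn : ∀ a : chart R ({x'} : Set F'),
      a ∈ N₁ ↔ (⟨algebraMap F' F (a : F'), hAB a⟩ : chart R ({x} : Set F)) ∈ n :=
    fun a => Iff.rfl
  -- norms and roots
  have hnormA : ∀ b : chart R ({x} : Set F), Algebra.norm F' (b : F) ∈ chart R ({x'} : Set F') :=
    fun b => norm_mem_chart (hint b b.2)
  have hrootA : ∀ z : F', z ^ m ∈ chart R ({x'} : Set F') → z ∈ chart R ({x'} : Set F') := by
    intro z hz
    rw [mem_chart] at hz ⊢
    exact IsIntegral.of_pow hm hz
  -- the sheets below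
  have hAV' : ChartLe (chart R ({x'} : Set F')) V' := by
    intro a
    rw [← hcomap_a, ValuationSubring.mem_comap]
    exact hBa ⟨_, hAB a⟩
  have hAV'' : ChartLe (chart R ({x'} : Set F')) V'' := by
    intro a
    rw [← hcomap_c, ValuationSubring.mem_comap]
    exact hBc ⟨_, hAB a⟩
  have hth' : PassThrough (chart R ({x'} : Set F')) N₁ V' := by
    intro c hc
    rw [← hcomap_a, mem_nonunits_comap_iff] at hc
    exact htha ⟨_, hAB c⟩ hc
  have hth'' : PassThrough (chart R ({x'} : Set F')) N₁ V'' := by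
    intro c hc
    rw [← hcomap_c, mem_nonunits_comap_iff] at hc
    exact hthc ⟨_, hAB c⟩ hc
  have hliftFF : ResLift (chart R ({x'} : Set F')) (chart R ({x} : Set F)) Va := by
    intro b
    obtain ⟨b', hb', h⟩ := hres_a b b.2
    exact ⟨⟨b', hb'⟩, h⟩
  have hliftmid : ResLift (chart R ({x'} : Set F')) (chart R ({x} : Set F)) Vb := by
    intro b
    obtain ⟨b', hb', h⟩ := hres_b b b.2
    exact ⟨⟨b', hb'⟩, h⟩
  have hcomap : ∀ y' : F', algebraMap F' F y' ∈ Vc.nonunits → y' ∈ V''.nonunits := by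
    intro y' hy'
    rw [← hcomap_c, mem_nonunits_comap_iff]
    exact hy'
  -- local denominators
  have huniq' : ∀ Q : Ideal (chart R ({x} : Set F)), Q.IsPrime →
      Q.comap ι = n.comap ι → Q = n := by
    intro Q hQ hQc
    haveI := hQ
    have hQm : Q.IsMaximal := by
      refine Ideal.isMaximal_of_isIntegral_of_isMaximal_comap' ι hιint Q ?_
      rw [hQc]
      exact hN₁m
    refine huniq Q hQm (fun b' h hb => ?_)
    have h1 : (⟨b', h⟩ : chart R ({x'} : Set F')) ∈ n.comap ι := hb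
    rw [← hQc] at h1
    exact h1
  obtain ⟨s', t, ht, hst⟩ := exists_local_denominator ι hιint n huniq' s₀ hs₀
  have hst' : (s₀ : F) * (s' : F) = algebraMap F' F (t : F') := by
    have := congrArg (fun z : chart R ({x} : Set F) => (z : F)) hst
    exact this
  have hp : u * d ^ m * algebraMap F' F (t : F') = ((a₀ * s' : chart R ({x} : Set F)) : F) := by
    rw [← hst', Subalgebra.coe_mul, ← hpure]
    ring
  have key := label_eq_of_normU (A := chart R ({x'} : Set F')) (B := chart R ({x} : Set F))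
    (N₁ := N₁) (n := n) hAB hNn hnormA hrootA hAV' hth' hAV'' hth'' hBa htha hBb hthb hBc hthc
    hliftFF hliftmid hcomap hq hnr_s hnr_i ht hp hk hξ₁ hξ₂ hηa hηb hηc hva hvb hvc
  -- back to `R`
  by_contra hcon
  have hu : IsUnit (ξ₁ * (ηa * ηb ^ (q - 1)) - ξ₂ * ηc ^ q) := by
    by_contra hnu
    exact hcon ((IsLocalRing.mem_maximalIdeal _).2 hnu)
  have hu' : IsUnit (algebraMap R (chart R ({x'} : Set F'))
      (ξ₁ * (ηa * ηb ^ (q - 1)) - ξ₂ * ηc ^ q)) := hu.map _
  exact hN₁p.ne_top (Ideal.eq_top_of_isUnit_mem _ key hu')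

end Side

end Fermat.Agent.S36.H630

end
-- ===== PACK-END S36/H630/Side.lean

-- ===== PACK-BEGIN S59/H127/AsmZp.lean
section




/-!
# Row S59, layer E — the fields of `CurveRep` over `ℤ_p` from the finite-level inputs

For `ρ = tateGaloisRep (WQ W) cb`:

* `detIsCyclotomic_of_input`      : `DetInput ⟹ ρ.DetIsCyclotomic p`;
* `det_frob_of_detIsCyclotomic`   : `det ρ(Frob_ℓ) = ℓ`;
* `charpoly_frob_of_inputs`       : `FrobRelInput + DetInput ⟹ charpoly ρ(Frob_ℓ) = X² - a_ℓ X + ℓ`;
* `isUnramifiedAt_of_input`       : `UnramInput ⟹ ρ.IsUnramifiedAt ℓ`;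
* `isUnipotentOnInertiaAt_of_input` : `UnipInput ⟹ ρ.IsUnipotentOnInertiaAt ℓ`.
-/

set_option autoImplicit false

open PadicInt Polynomial WeierstrassCurve WeierstrassCurve.Affine
open scoped WeierstrassCurve.Affine

namespace Fermat.Agent.S59.H127

variable {p : ℕ} [hp : Fact p.Prime] (W : WeierstrassCurve ℤ)
  [hE : ((WQ W)⁄(AlgebraicClosure ℚ)).IsElliptic]
  (cb : CompatBasis (Pts W) p 2)

/-- an element of `ℤ_p` divisible by all powers of `p` is zero -/
lemma eq_zero_of_forall_mem_span {z : ℤ_[p]}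
    (h : ∀ n : ℕ, z ∈ Ideal.span {((p ^ n : ℕ) : ℤ_[p])}) : z = 0 := by
  apply ext_of_toZModPow.mp
  intro n
  have := h n
  rw [Nat.cast_pow, ← ker_toZModPow, RingHom.mem_ker] at this
  rw [this, map_zero]

theorem detIsCyclotomic_of_input (hdet : DetInput p W) :
    (tateGaloisRep (WQ W) cb).DetIsCyclotomic p :=
  detIsCyclotomic_of_level (WQ W) cb hdet

/-- the determinant of a Frobenius element at `ℓ ≠ p` is `ℓ` -/
theorem det_frob_of_detIsCyclotomic {ρ : GaloisRepAdic ℤ_[p]} (hdet : ρ.DetIsCyclotomic p)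
    {ℓ : ℕ} (hℓ : ℓ.Prime) (hℓp : ℓ ≠ p) (A : ValuationSubring Qb) (hA : A.LiesOverPrime ℓ)
    (σ : GQ) (hσ : A.IsFrobeniusAt σ ℓ) :
    LinearMap.det (ρ.ρ σ) = (ℓ : ℤ_[p]) := by
  rw [← sub_eq_zero]
  apply eq_zero_of_forall_mem_span
  intro n
  exact hdet.2 n σ ℓ fun μ hμ =>
    Fermat.Agent.S30.H870.frob_root_pow_eq p hℓ hℓp A hA σ hσ hμ

/-- **`CurveRep.charpoly_frob` over `ℤ_p`** -/
theorem charpoly_frob_of_inputs (hfrob : FrobRelInput p W) (hdet : DetInput p W)
    (ℓ : ℕ) (hℓ : ℓ.Prime) (hgood : W.IsGoodPrimeFor ℓ) (hℓp : ℓ ≠ p)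
    (A : ValuationSubring Qb) (hA : A.LiesOverPrime ℓ) (σ : GQ) (hσ : A.IsFrobeniusAt σ ℓ) :
    LinearMap.charpoly ((tateGaloisRep (WQ W) cb).ρ σ)
      = X ^ 2 - C ((W.apOfModel ℓ : ℤ) : ℤ_[p]) * X + C ((ℓ : ℤ_[p])) := by
  have hrel := tateGaloisRep_quadratic (WQ W) cb σ (W.apOfModel ℓ) (ℓ : ℤ)
    (hfrob ℓ hℓ hgood hℓp A hA σ hσ)
  have hd := det_frob_of_detIsCyclotomic (detIsCyclotomic_of_input W cb hdet) hℓ hℓp A hA σ hσ
  have hℓ0 : ((ℓ : ℤ) : ℤ_[p]) ≠ 0 := by
    rw [Int.cast_natCast]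
    exact Nat.cast_ne_zero.mpr hℓ.ne_zero
  have := charpoly_eq_of_quadratic_of_det (tateGaloisRep (WQ W) cb).finrank_eq
    ((tateGaloisRep (WQ W) cb).ρ σ) ((W.apOfModel ℓ : ℤ) : ℤ_[p]) ((ℓ : ℤ) : ℤ_[p]) hℓ0 hrel
    (by rw [hd, Int.cast_natCast])
  rw [this, Int.cast_natCast]

/-- **`CurveRep.unram` over `ℤ_p`** -/
theorem isUnramifiedAt_of_input (hunr : UnramInput p W)
    (ℓ : ℕ) (hℓ : ℓ.Prime) (hgood : W.IsGoodPrimeFor ℓ) (hℓp : ℓ ≠ p) :
    (tateGaloisRep (WQ W) cb).IsUnramifiedAt ℓ :=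
  tateGaloisRep_isUnramifiedAt (WQ W) cb ℓ (hunr ℓ hℓ hgood hℓp)

/-- **`CurveRep.unip` over `ℤ_p`** -/
theorem isUnipotentOnInertiaAt_of_input (hunip : UnipInput p W)
    (ℓ : ℕ) (hℓ : ℓ.Prime) (hbad : ¬ W.IsGoodPrimeFor ℓ) (hℓp : ℓ ≠ p) :
    (tateGaloisRep (WQ W) cb).IsUnipotentOnInertiaAt ℓ := by
  intro P hP σ hσ
  have hrel := tateGaloisRep_quadratic (WQ W) cb σ 2 1 (hunip ℓ hℓ hbad hℓp P hP σ hσ)
  apply charpoly_eq_of_sub_one_sq (tateGaloisRep (WQ W) cb).finrank_eq
  rw [Int.cast_one, one_smul, Int.cast_ofNat] at hrel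
  exact hrel

end Fermat.Agent.S59.H127

end
-- ===== PACK-END S59/H127/AsmZp.lean

-- ===== PACK-BEGIN S59/TW/Aut/H31/LocBij.lean
section



/-!
# S59 / cell TW / AUT Layer 3: operators outside the maximal ideal are bijective on `V` (helper31)

Shared glue for the leaves MOD0, MODQ, FREE, CTRL of `TW/Aut/Spec.lean`.

* `bijective_add_smul_one_h31` (Mathlib only): `V` a finite module over a local ring `R`,
  `g ∈ End_R V` with `g^m V ⊆ 𝔪 V`, `w ∈ Rˣ`  ⟹  `g + w` is bijective.
* `mem_smul_top_of_proj_h31` (Mathlib only): `V = e X` for a projector `e`  ⟹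
  `V ∩ 𝔪 X = 𝔪 V`.
* `IsLocPart.TK_sub_bij`, `IsLocPart.UK_sub_bij`: if `V` is the localisation (`IsLocPart`),
  `(ℓ, c) ∈ Tset` and `c - u ∈ 𝒪ˣ`, then `T_ℓ - u` is bijective on `V`
  (in the shape of the hypotheses of `MFree.FreeStatement`); same for `U_q`.
* `IsLocPart.TK_mem`, `IsLocPart.UK_mem`, `IsLocPart.diamondU_mem`: `V` is stable.
-/

set_option autoImplicit false

open Polynomial IsLocalRing CongruenceSubgroup
open scoped MatrixGroups

namespace Fermat.Agent.S59.TW.Aut.H31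

open Fermat.Agent.S59.TW.H653 Fermat.Agent.S59.TW.Aut

section Abstract

variable {R : Type*} [CommRing R] [IsLocalRing R] {V : Type*} [AddCommGroup V] [Module R V]

/-- An endomorphism congruent to `1` modulo `𝔪` of a finite module over a local ring is
surjective (Nakayama). -/
theorem surjective_one_sub_h31 [Module.Finite R V] (n : Module.End R V)
    (hn : ∀ x, n x ∈ maximalIdeal R • (⊤ : Submodule R V)) :
    Function.Surjective (1 - n : Module.End R V) := by
  rw [← LinearMap.range_eq_top]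
  refine top_le_iff.mp ?_
  refine Submodule.le_of_le_smul_of_le_jacobson_bot (Module.Finite.fg_top)
    (IsLocalRing.maximalIdeal_le_jacobson ⊥) ?_
  intro x _
  have h1 : x = (1 - n : Module.End R V) x + n x := by
    simp
  rw [h1]
  exact Submodule.add_mem_sup ⟨x, rfl⟩ (hn x)

/-- `g^m V ⊆ 𝔪 V`, `w` a unit  ⟹  `g + w` is bijective on the finite module `V`. -/
theorem bijective_add_smul_one_h31 [Module.Finite R V] (g : Module.End R V) {w : R}
    (hw : IsUnit w) (m : ℕ)
    (h : ∀ x, (g ^ m) x ∈ maximalIdeal R • (⊤ : Submodule R V)) :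
    Function.Bijective (g + w • (1 : Module.End R V)) := by
  obtain ⟨w', hw'⟩ := hw.exists_right_inv
  set hh : Module.End R V := -(w' • g) with hhdef
  set S : Module.End R V := ∑ i ∈ Finset.range m, hh ^ i with hS
  have h1 : (1 - hh) * S = 1 - hh ^ m := mul_neg_geom_sum hh m
  have h2 : g + w • (1 : Module.End R V) = w • (1 - hh) := by
    rw [hhdef, sub_neg_eq_add, smul_add, smul_smul, hw', one_smul, add_comm]
  have h3 : ∀ x, (hh ^ m) x ∈ maximalIdeal R • (⊤ : Submodule R V) := by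
    intro x
    have h4 : hh ^ m = ((-w') ^ m) • g ^ m := by
      rw [hhdef, ← neg_smul, _root_.smul_pow]
    rw [h4]
    exact Submodule.smul_mem _ _ (h x)
  have h5 : Function.Surjective (((1 - hh) * S : Module.End R V) : V → V) := by
    rw [h1]
    exact surjective_one_sub_h31 (hh ^ m) h3
  have h6 : Function.Surjective ((1 - hh : Module.End R V) : V → V) := by
    intro y
    obtain ⟨x, hx⟩ := h5 y
    exact ⟨S x, hx⟩
  have h7 : Function.Surjective (g + w • (1 : Module.End R V)) := by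
    intro y
    obtain ⟨x, hx⟩ := h6 (w' • y)
    refine ⟨x, ?_⟩
    rw [h2, LinearMap.smul_apply, hx, smul_smul, hw', one_smul]
  exact ⟨OrzechProperty.injective_of_surjective_endomorphism _ h7, h7⟩

variable {X : Type*} [AddCommGroup X] [Module R X]

/-- If `V = e X` for a projector `e`, then `V ∩ 𝔪 X = 𝔪 V`. -/
theorem mem_smul_top_of_proj_h31 (W : Submodule R X) (e : X →ₗ[R] X) (he : ∀ x, e x ∈ W)
    (heW : ∀ x ∈ W, e x = x) (v : W)
    (hv : (v : X) ∈ maximalIdeal R • (⊤ : Submodule R X)) :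
    v ∈ maximalIdeal R • (⊤ : Submodule R W) := by
  set e' : X →ₗ[R] W := e.codRestrict W he with he'
  have h1 : e' (v : X) = v := Subtype.ext (heW _ v.2)
  have h2 : e' (v : X) ∈ Submodule.map e' (maximalIdeal R • (⊤ : Submodule R X)) :=
    Submodule.mem_map_of_mem hv
  rw [Submodule.map_smul''] at h2
  rw [h1] at h2
  exact Submodule.smul_mono le_rfl le_top h2

/-- Abstract form of the bijectivity: `W = e X` for a projector `e`, `f ∈ End_R X` stabilising
`W`, `(f - c)^m W ⊆ 𝔪 X`, `c - u` a unit  ⟹  `f - u` is bijective on `W`. -/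
theorem sub_bij_of_proj_h31 (W : Submodule R X) (hfin : Module.Finite R W) (e : X →ₗ[R] X)
    (he : ∀ x, e x ∈ W) (heW : ∀ x ∈ W, e x = x)
    (f : Module.End R X) (hfW : ∀ x ∈ W, f x ∈ W) {c u : R}
    (hu : IsUnit (c - u)) (m : ℕ)
    (hnil : ∀ x ∈ W, (fun y : X => f y - c • y)^[m] x ∈
      maximalIdeal R • (⊤ : Submodule R X)) :
    (∀ y ∈ W, ∃ x ∈ W, f x - u • x = y) ∧ (∀ x ∈ W, f x - u • x = 0 → x = 0) := by
  -- the restriction of `f - c` to `W`
  set fW : Module.End R W := f.restrict hfW with hfWdef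
  set g : Module.End R W := fW - c • (1 : Module.End R W) with hg
  have hgapp : ∀ w : W, ((g w : W) : X) = f (w : X) - c • (w : X) := by
    intro w
    rw [hg, LinearMap.sub_apply, LinearMap.smul_apply, Module.End.one_apply,
      Submodule.coe_sub, Submodule.coe_smul, hfWdef, LinearMap.coe_restrict_apply]
  have hgpow : ∀ (n : ℕ) (v : W), (((g ^ n) v : W) : X) =
      (fun y : X => f y - c • y)^[n] (v : X) := by
    intro n
    induction n with
    | zero =>
      intro v
      rw [pow_zero, Module.End.one_apply, Function.iterate_zero, id_eq]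
    | succ n ih =>
      intro v
      rw [pow_succ', Module.End.mul_apply, Function.iterate_succ', Function.comp_apply, ← ih v,
        hgapp]
  have hgm : ∀ v : W, (g ^ m) v ∈ maximalIdeal R • (⊤ : Submodule R W) := by
    intro v
    refine mem_smul_top_of_proj_h31 W e he heW _ ?_
    rw [hgpow m v]
    exact hnil _ v.2
  have hbij := bijective_add_smul_one_h31 g hu m hgm
  have hform : ∀ v : W, (((g + (c - u) • (1 : Module.End R W)) v : W) : X) =
      f (v : X) - u • (v : X) := by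
    intro v
    rw [LinearMap.add_apply, LinearMap.smul_apply, Module.End.one_apply, Submodule.coe_add,
      Submodule.coe_smul, hgapp, sub_smul]
    abel
  refine ⟨fun y hy => ?_, fun x hx h0 => ?_⟩
  · obtain ⟨v, hv⟩ := hbij.2 ⟨y, hy⟩
    refine ⟨v, v.2, ?_⟩
    rw [← hform v, hv]
  · have h1 : (g + (c - u) • (1 : Module.End R W)) ⟨x, hx⟩ = 0 := by
      apply Subtype.ext
      rw [hform]
      exact h0
    have h2 := hbij.1 (h1.trans (map_zero _).symm)
    exact congrArg Subtype.val h2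

end Abstract

section Concrete

variable {M : ℕ} {K : Subgroup SL(2, ℤ)} {hK : IsMid M K}
  {𝒪 : Type} [CommRing 𝒪] [IsDomain 𝒪] [IsDiscreteValuationRing 𝒪]
  {Tset Uset : Set (ℕ × 𝒪)} {V : Submodule 𝒪 (Additive K →+ 𝒪)}

/-- `V` is stable under `T_ℓ`. -/
theorem locPart_TK_mem_h31 (hV : IsLocPart hK Tset Uset V) {ℓ : ℕ} [Fact ℓ.Prime]
    (hℓ : ¬ ℓ ∣ M) {x : Additive K →+ 𝒪} (hx : x ∈ V) : TK M K ℓ x ∈ V := by
  obtain ⟨e, -, heV, hVe, hT, -, -, -⟩ := hV.exists_proj
  rw [← hVe x hx, ← hT ℓ hℓ x]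
  exact heV _

/-- `V` is stable under `U_q`. -/
theorem locPart_UK_mem_h31 (hV : IsLocPart hK Tset Uset V) {q : ℕ} [Fact q.Prime]
    (hq : q ∣ M) {x : Additive K →+ 𝒪} (hx : x ∈ V) : UK K q x ∈ V := by
  obtain ⟨e, -, heV, hVe, -, hU, -, -⟩ := hV.exists_proj
  rw [← hVe x hx, ← hU q hq x]
  exact heV _

/-- `V` is stable under the diamond operators. -/
theorem locPart_diamondU_mem_h31 (hV : IsLocPart hK Tset Uset V) (u : (ZMod M)ˣ)
    {x : Additive K →+ 𝒪} (hx : x ∈ V) : diamondU hK u x ∈ V := by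
  obtain ⟨e, -, heV, hVe, -, -, hD, -⟩ := hV.exists_proj
  rw [← hVe x hx, ← hD u x]
  exact heV _

/-- Abstract form of the bijectivity: `f` an `𝒪`-linear endomorphism of `X_K(𝒪)` commuting with
the projector of `V`, `(f - c)^m V ⊆ 𝔪 X`, `c - u` a unit  ⟹  `f - u` is bijective on `V`. -/
theorem locPart_sub_bij_h31 [NeZero M] (hV : IsLocPart hK Tset Uset V)
    (f : Module.End 𝒪 (Additive K →+ 𝒪)) (hfV : ∀ x ∈ V, f x ∈ V) {c u : 𝒪}
    (hu : IsUnit (c - u)) (m : ℕ)
    (hnil : ∀ x ∈ V, (fun y => f y - c • y)^[m] x ∈ mX K 𝒪) :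
    (∀ y ∈ V, ∃ x ∈ V, f x - u • x = y) ∧ (∀ x ∈ V, f x - u • x = 0 → x = 0) := by
  have : K.FiniteIndex := Subgroup.finiteIndex_of_le hK.ge
  obtain ⟨hfin, -⟩ := Fermat.Agent.S59.MFree.H761.finite_free_submodule (O := 𝒪) K V
  obtain ⟨e, -, heV, hVe, -, -, -, -⟩ := hV.exists_proj
  exact sub_bij_of_proj_h31 V hfin e heV hVe f hfV hu m hnil

/-- **`T_ℓ - u` is bijective on `V`** if `(ℓ, c) ∈ Tset` and `c - u` is a unit (in the shape of
the hypotheses of `MFree.FreeStatement`). -/
theorem locPart_TK_sub_bij_h31 [NeZero M] (hV : IsLocPart hK Tset Uset V) {ℓ : ℕ}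
    [Fact ℓ.Prime] (hℓ : ¬ ℓ ∣ M) {c u : 𝒪} (hmem : (ℓ, c) ∈ Tset) (hu : IsUnit (c - u)) :
    (∀ y ∈ V, ∃ x ∈ V, TK M K ℓ x - u • x = y) ∧
      (∀ x ∈ V, TK M K ℓ x - u • x = 0 → x = 0) := by
  obtain ⟨m, hm⟩ := hV.nilp_T ℓ c hmem
  exact locPart_sub_bij_h31 hV (Fermat.Agent.S59.TW.Aut.H511.TKl hK 𝒪 ℓ hℓ)
    (fun x hx => locPart_TK_mem_h31 hV hℓ hx) hu m hm

/-- **`U_q - u` is bijective on `V`** if `(q, α) ∈ Uset` and `α - u` is a unit. -/
theorem locPart_UK_sub_bij_h31 [NeZero M] (hV : IsLocPart hK Tset Uset V) {q : ℕ}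
    [Fact q.Prime] (hq : q ∣ M) {α u : 𝒪} (hmem : (q, α) ∈ Uset) (hu : IsUnit (α - u)) :
    (∀ y ∈ V, ∃ x ∈ V, UK K q x - u • x = y) ∧
      (∀ x ∈ V, UK K q x - u • x = 0 → x = 0) := by
  obtain ⟨m, hm⟩ := hV.nilp_U q α hmem
  exact locPart_sub_bij_h31 hV (Fermat.Agent.S59.TW.Aut.H511.UKl hK 𝒪 q hq)
    (fun x hx => locPart_UK_mem_h31 hV hq hx) hu m hm

end Concrete

end Fermat.Agent.S59.TW.Aut.H31

end
-- ===== PACK-END S59/TW/Aut/H31/LocBij.lean

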