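import Mathlib
import Fermat.Prelude.Def_ModularForm_HeckeOperator
import Fermat.Prelude.Def_FLTPrelim_Modularity
import Fermat.Agent.Pack.S43MC.G0E19L1
import Fermat.Agent.Pack.S43MC.G0E19L2
import Fermat.Agent.Pack.S43MC.G0E19L3
import Fermat.Agent.Pack.S43MC.G0E19L0
import Fermat.Agent.Pack.S44C.G0E19L0
import Fermat.Agent.Pack.S44C.G0E15L3
import Fermat.Agent.Pack.S44C.G0E15L0
import Fermat.Agent.Pack.S44C.G0E20L1
import Fermat.Agent.Pack.S43MC.G0E18L1
import Fermat.Agent.Pack.S43GC.G0E15L3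
import Fermat.Agent.Pack.S43MC.G0E3L3
import Fermat.Agent.Pack.S43MC.G0E7L1
import Fermat.Agent.Pack.S43MC.G0E4L3
import Fermat.Agent.Pack.S43MC.G0E7L2
import Fermat.Agent.Pack.S44C.G0E21L2
import Fermat.Agent.Pack.S43MC.G0E16L2
import Fermat.Agent.Pack.S43GC.G0E7L1
import Fermat.Agent.Pack.S43MC.G0E18L3
import Fermat.Agent.Pack.S43MC.G0E2L1
import Fermat.Agent.Pack.S44C.G0E19L1
import Fermat.Agent.Pack.S43GC.G0E13L2
import Fermat.Agent.Pack.Fast891

-- ===== PACK-BEGIN Lib/Newform/H743/MainD.lean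
section





/-!
# NEWFORM library (helper743), part 7: the Atkin–Lehner main lemma, `D`-form

`mainLemmaD`: if `f ∈ S_k(Γ₀(N))` has `a_n(f) = 0` for all `n` prime to `D` (`D > 0` ANY integer,
its primes need not divide `N`), then `f = ∑_{p ∣ gcd(N, D)} B_p g_p` with `g_p ∈ S_k(Γ₀(N / p))`.
Consequently (`coeff_eq_zero_of_coprime_level`) `a_n(f) = 0` for all `n` prime to `N`:
"almost all primes" upgrades to "all primes not dividing the level".  Petersson-free.

* base case (all primes divide `N`): helper803's `main_hat`;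
* a prime `q ∤ N` is dropped by `dropQ_coeff` after passing to level `q N`.
-/

set_option autoImplicit false

open UpperHalfPlane ModularForm Function Complex CongruenceSubgroup Matrix.SpecialLinearGroup
open scoped MatrixGroups ModularForm Manifold Topology Real

namespace Fermat.Agent.Lib.Newform.H743

open Fermat.Agent.Lib.Newform.H803

noncomputable section

/-- **Base case**: the main lemma for a set `s` of primes dividing `N`, at function level. -/
theorem mainL_base {k : ℤ} (N : ℕ) [NeZero N] (s : Finset ℕ) (hs : ∀ p ∈ s, p.Prime ∧ p ∣ N)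
    {F : ℍ → ℂ} (hF : IsCuspidal k F) (hFinv : SlInv k (Gamma0 N) F)
    (hvan : ∀ n : ℕ, (∀ p ∈ s, ¬ p ∣ n) → (qExpansion 1 F).coeff n = 0) :
    ∃ G : ℕ → ℍ → ℂ, (∀ p ∈ s, IsCuspidal k (G p) ∧ SlInv k (Gamma0 (N / p)) (G p)) ∧
      F = ∑ p ∈ s, Bd p (G p) := by
  classical
  have hN : N ≠ 0 := NeZero.ne N
  set Fh : ℍ → ℂ := F ∣[k] heckeMatrix N 0 with hFh
  have hFhinv : SlInv k (GammaU N) Fh := slInv_hat hN hFinv
  have hFhcusp : IsCuspidal k Fh := hF.slash_heckeMatrix hN 0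
  have hLnd : (s.toList).Nodup := Finset.nodup_toList _
  have hLmem : ∀ p ∈ s.toList, p.Prime ∧ p ∣ N := fun p hp => hs p (Finset.mem_toList.mp hp)
  have hQF := hasQ_of_isCuspidal hF (periodic_of_slInv_Gamma0 hFinv)
  have hQ : HasQN N (fun n => (N : ℂ)⁻¹ * (qExpansion 1 F).coeff n) Fh :=
    hasQN_hat hN (fun τ => hQF τ)
  have hK : killL k N s.toList Fh = 0 := by
    refine (hasQN_killL hN hQ _ fun p hp => ⟨(hLmem p hp).1.ne_zero, (hLmem p hp).2⟩).eq_zero ?_
    intro n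
    split_ifs with hn
    · rfl
    · rw [hvan n, mul_zero]
      intro p hp hpn
      exact hn ⟨p, Finset.mem_toList.mpr hp, hpn⟩
  obtain ⟨G, hG, hGsum⟩ := main_hat (k := k) N cuspSub_slash_stable _ hLnd hLmem Fh
    (mem_cuspSub.mpr hFhcusp) hFhinv hK
  have hd0 : ∀ p ∈ s, N / p ≠ 0 := fun p hp =>
    (Nat.div_pos (Nat.le_of_dvd (Nat.pos_of_ne_zero hN) (hs p hp).2) (hs p hp).1.pos).ne'
  have hGc : ∀ p ∈ s, IsCuspidal k (G p) := fun p hp =>
    mem_cuspSub.mp (hG p (Finset.mem_toList.mpr hp)).1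
  have hGi : ∀ p ∈ s, SlInv k (GammaU (N / p)) (G p) := fun p hp =>
    (hG p (Finset.mem_toList.mpr hp)).2
  refine ⟨fun p => ((N : ℂ) * ((((N / p : ℕ) : ℂ)) ^ (k - 1))⁻¹) •
    (G p ∣[k] heckeDiagMatrix (N / p)), fun p hp => ⟨?_, ?_⟩, ?_⟩
  · exact ((hGc p hp).slash_heckeDiagMatrix (hd0 p hp)).smul _
  · exact (slInv_unhat (hd0 p hp) (hGi p hp)).smul _
  · funext τ
    have h1 : F τ = (N : ℂ) * Fh (heckeDiagMatrix N • τ) := by
      rw [hFh, slash_heckeMatrix_apply k hN 0, heckeMatrix_smul_heckeDiagMatrix_smul hN]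
      have : (N : ℂ) ≠ 0 := by exact_mod_cast hN
      field_simp
    rw [h1, hGsum, Finset.sum_map_toList, Finset.sum_apply, Finset.mul_sum, Finset.sum_apply]
    refine Finset.sum_congr rfl fun p hp => ?_
    have hpN : p * (N / p) = N := Nat.mul_div_cancel' (hs p hp).2
    have hp0 : p ≠ 0 := (hs p hp).1.ne_zero
    rw [Bd_apply]
    beta_reduce
    rw [Pi.smul_apply, smul_eq_mul, slash_heckeDiagMatrix_apply k (hd0 p hp),
      heckeDiagMatrix_smul_smul (hd0 p hp) hp0 hN hpN]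
    have hd' : (((N / p : ℕ) : ℂ)) ^ (k - 1) ≠ 0 :=
      zpow_ne_zero _ (by exact_mod_cast hd0 p hp)
    field_simp

/-- **Vanishing of the coefficients prime to the level**, by induction on the number of primes
of `s` not dividing `N`. -/
theorem coeff_eq_zero_of_forall_not_dvd {k : ℤ} : ∀ (m : ℕ) (N : ℕ) [NeZero N] (s : Finset ℕ),
    (∀ p ∈ s, p.Prime) → (s.filter (fun p => ¬ p ∣ N)).card ≤ m →
    ∀ F : ℍ → ℂ, IsCuspidal k F → SlInv k (Gamma0 N) F →
      (∀ n : ℕ, (∀ p ∈ s, ¬ p ∣ n) → (qExpansion 1 F).coeff n = 0) →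
      ∀ n : ℕ, (∀ p ∈ s.filter (fun p => p ∣ N), ¬ p ∣ n) → (qExpansion 1 F).coeff n = 0 := by
  classical
  intro m
  induction m with
  | zero =>
    intro N _ s _ hcard F _ _ hvan n hn
    have hall : ∀ p ∈ s, p ∣ N := by
      intro p hp
      by_contra hpN
      have : p ∈ s.filter (fun p => ¬ p ∣ N) := Finset.mem_filter.mpr ⟨hp, hpN⟩
      have h0 : s.filter (fun p => ¬ p ∣ N) = ∅ := Finset.card_eq_zero.mp (Nat.le_zero.mp hcard)
      rw [h0] at this
      exact absurd this (Finset.notMem_empty _)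
    exact hvan n fun p hp => hn p (Finset.mem_filter.mpr ⟨hp, hall p hp⟩)
  | succ m ih =>
    intro N hNZ s hs hcard F hF hFinv hvan n hn
    by_cases hex : ∃ q ∈ s, ¬ q ∣ N
    · obtain ⟨q, hqs, hqN⟩ := hex
      have hq : q.Prime := hs q hqs
      have hN : N ≠ 0 := NeZero.ne N
      have : NeZero (q * N) := ⟨mul_ne_zero hq.ne_zero hN⟩
      -- the count of outside primes drops at level `q * N`
      have hsub : s.filter (fun p => ¬ p ∣ q * N) ⊆ (s.filter (fun p => ¬ p ∣ N)).erase q := by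
        intro p hp
        rw [Finset.mem_filter] at hp
        rw [Finset.mem_erase, Finset.mem_filter]
        refine ⟨?_, hp.1, fun h => hp.2 (h.mul_left q)⟩
        rintro rfl
        exact hp.2 (dvd_mul_right _ _)
      have hcard' : (s.filter (fun p => ¬ p ∣ q * N)).card ≤ m := by
        have h1 := Finset.card_le_card hsub
        have h2 : q ∈ s.filter (fun p => ¬ p ∣ N) := Finset.mem_filter.mpr ⟨hqs, hqN⟩
        rw [Finset.card_erase_of_mem h2] at h1
        omega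
      have hFinv' : SlInv k (Gamma0 (q * N)) F := hFinv.mono (Gamma0_mul_le q N)
      -- induction hypothesis at level `q * N`, then the base case there
      have hvan' := ih (q * N) s hs hcard' F hF hFinv' hvan
      have hs' : ∀ p ∈ s.filter (fun p => p ∣ q * N), p.Prime ∧ p ∣ q * N := fun p hp =>
        ⟨hs p (Finset.mem_filter.mp hp).1, (Finset.mem_filter.mp hp).2⟩
      obtain ⟨G, hG, hsum⟩ := mainL_base (q * N) (s.filter (fun p => p ∣ q * N)) hs' hF hFinv' hvan'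
      -- split off `q`
      set t : Finset ℕ := s.filter (fun p => p ∣ N) with ht
      have hqt : q ∉ t := fun h => hqN (Finset.mem_filter.mp h).2
      have hfilt : s.filter (fun p => p ∣ q * N) = insert q t := by
        ext p
        rw [Finset.mem_filter, Finset.mem_insert, Finset.mem_filter]
        constructor
        · rintro ⟨hp, hpd⟩
          by_cases hpq : p = q
          · exact Or.inl hpq
          · right
            refine ⟨hp, ?_⟩
            have hcop : Nat.Coprime p q := (Nat.coprime_primes (hs p hp) hq).mpr hpq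
            exact hcop.dvd_of_dvd_mul_left hpd
        · rintro (rfl | ⟨hp, hpd⟩)
          · exact ⟨hqs, dvd_mul_right _ _⟩
          · exact ⟨hp, hpd.mul_left q⟩
      rw [hfilt, Finset.sum_insert hqt] at hsum
      have hGq := hG q (by rw [hfilt]; exact Finset.mem_insert_self q t)
      rw [Nat.mul_div_cancel_left N hq.pos] at hGq
      have hGt : ∀ p ∈ t, IsCuspidal k (G p) ∧ SlInv k (Gamma0 (N / p * q)) (G p) := by
        intro p hp
        have h1 := hG p (by rw [hfilt]; exact Finset.mem_insert_of_mem hp)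
        have hpN : p ∣ N := (Finset.mem_filter.mp hp).2
        rw [Nat.mul_div_assoc q hpN, mul_comm q (N / p)] at h1
        exact h1
      have hst : ∀ p ∈ t, p ≠ 0 ∧ N = p * (N / p) := fun p hp =>
        ⟨(hs p (Finset.mem_filter.mp hp).1).ne_zero,
          (Nat.mul_div_cancel' (Finset.mem_filter.mp hp).2).symm⟩
      exact dropQ_coeff hq hqN t (fun p => N / p) hst hF hFinv hGq.1 hGq.2 hGt hsum n hn
    · -- no outside prime at all
      have hex' : ∀ p ∈ s, p ∣ N := fun p hp => by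
        by_contra h
        exact hex ⟨p, hp, h⟩
      exact hvan n fun p hp => hn p (Finset.mem_filter.mpr ⟨hp, hex' p hp⟩)

/-- **Main lemma, `D`-form, at function level.** -/
theorem mainL_general {k : ℤ} (N : ℕ) [NeZero N] (s : Finset ℕ) (hs : ∀ p ∈ s, p.Prime)
    {F : ℍ → ℂ} (hF : IsCuspidal k F) (hFinv : SlInv k (Gamma0 N) F)
    (hvan : ∀ n : ℕ, (∀ p ∈ s, ¬ p ∣ n) → (qExpansion 1 F).coeff n = 0) :
    ∃ G : ℕ → ℍ → ℂ,
      (∀ p ∈ s, p ∣ N → IsCuspidal k (G p) ∧ SlInv k (Gamma0 (N / p)) (G p)) ∧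
      F = ∑ p ∈ s.filter (fun p => p ∣ N), Bd p (G p) := by
  classical
  have h1 := coeff_eq_zero_of_forall_not_dvd (k := k) (s.filter (fun p => ¬ p ∣ N)).card N s hs
    le_rfl F hF hFinv hvan
  have hs' : ∀ p ∈ s.filter (fun p => p ∣ N), p.Prime ∧ p ∣ N := fun p hp =>
    ⟨hs p (Finset.mem_filter.mp hp).1, (Finset.mem_filter.mp hp).2⟩
  obtain ⟨G, hG, hsum⟩ := mainL_base N (s.filter (fun p => p ∣ N)) hs' hF hFinv h1
  exact ⟨G, fun p hp hpN => hG p (Finset.mem_filter.mpr ⟨hp, hpN⟩), hsum⟩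

end

end Fermat.Agent.Lib.Newform.H743

end
-- ===== PACK-END Lib/Newform/H743/MainD.lean

-- ===== PACK-BEGIN S25/H11/ACStage4.lean
section


/-!
# Row S25, block ALGCHARTS: STAGE 4 is formal (helper11)

`Leaf.Stage4` follows from `Leaf.PointBC` and `Leaf.PointUnique`: the locus ideal is generated by
the value `φ₀ f` of `f` at the Hilbert coordinates `φ₀` of `G`.  (The two point leaves are used
for the chart index with `f` replaced by `1`.)
-/

set_option autoImplicit false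

universe u

open scoped TensorProduct

namespace Fermat.Agent.S25.H11

open Fermat.Agent.S25

variable {k : Type u} [Field k] {B₀ B₁ B₀₁ : Type u} [CommRing B₀] [CommRing B₁] [CommRing B₀₁]
  [Algebra k B₀] [Algebra k B₁] [Algebra k B₀₁] [Algebra B₀ B₀₁] [Algebra B₁ B₀₁]
  [IsScalarTower k B₀ B₀₁] [IsScalarTower k B₁ B₀₁]

/-- The chart index with `f` replaced by `1`. -/
noncomputable def ChartIndex.one (i : ChartIndex k B₀) : ChartIndex k B₀ :=
  { n := i.n, m := i.m, g := i.g, q := i.q, β := i.β, f := 1 }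

theorem ChartIndex.one_numeric {y : B₁} {i : ChartIndex k B₀} (h : i.Numeric B₀₁ y) :
    i.one.Numeric B₀₁ y := h

/-- The point conditions without the condition on `f`. -/
theorem pointCond_one_iff {x : B₀} {y : B₁} {i : ChartIndex k B₀} {A : Type u} [CommRing A]
    [Algebra k A] {G : CurveGD k B₀ B₁ B₀₁ A} {φ₀ : H491.Rβ k i.β →ₐ[k] A} :
    PointCond x y i.one G φ₀ ↔ P1 x i.n i.q G ∧ ∃ s, IsGen x y i.n i.q G s ∧
      Submodule.span (A ⊗[k] B₀) {s.1} =
        ((H491.univIdeal (k := k) i.β).map (H491.bc B₀ φ₀) * ptIdeal i.q A) •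
          (⊤ : Submodule (A ⊗[k] B₀) G.N₀) :=
  ⟨fun h => ⟨h.p1, h.sect⟩, fun h => ⟨h.1, h.2, by
    change IsUnit (φ₀ 1)
    rw [map_one]
    exact isUnit_one⟩⟩

theorem pointCond_iff_one {x : B₀} {y : B₁} {i : ChartIndex k B₀} {A : Type u} [CommRing A]
    [Algebra k A] {G : CurveGD k B₀ B₁ B₀₁ A} {φ₀ : H491.Rβ k i.β →ₐ[k] A} :
    PointCond x y i G φ₀ ↔ PointCond x y i.one G φ₀ ∧ IsUnit (φ₀ i.f) :=
  ⟨fun h => ⟨pointCond_one_iff.2 ⟨h.p1, h.sect⟩, h.unit⟩,
    fun h => ⟨h.1.p1, h.1.sect, h.2⟩⟩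

/-- **STAGE 4 from the point leaves.** -/
theorem stage4_of_point (hBC : Leaf.PointBC k B₀ B₁ B₀₁) (hU : Leaf.PointUnique k B₀ B₁ B₀₁) :
    Leaf.Stage4 k B₀ B₁ B₀₁ := by
  intro x y e hC i hnum A _ _ G hrig hdeg h3
  obtain ⟨h1, s, hs, I', hI', hspan⟩ := h3
  obtain ⟨φ₀, hφ₀, -⟩ := H491.existsUnique_algHom_of_isChart hI'
  have hφ₀' : (H491.univIdeal (k := k) i.β).map (H491.bc B₀ φ₀) = I' := hφ₀
  have hpc : PointCond x y i.one G φ₀ :=
    pointCond_one_iff.2 ⟨h1, s, hs, by rw [hφ₀']; exact hspan⟩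
  refine ⟨Ideal.span {φ₀ i.f}, fun A' _ _ ψ G' hG' => ?_⟩
  have h' : PointCond x y i.one G' (ψ.comp φ₀) :=
    hBC x y e hC i.one (ChartIndex.one_numeric hnum) A A' G G' ψ hG' hrig hdeg φ₀ hpc
  have hmap : (Ideal.span {φ₀ i.f}).map ψ.toRingHom = ⊤ ↔ IsUnit (ψ (φ₀ i.f)) := by
    rw [Ideal.map_span, Set.image_singleton, Ideal.span_singleton_eq_top]
    rfl
  rw [hmap]
  constructor
  · rintro ⟨φ₀', hp⟩
    have hp' := pointCond_iff_one.1 hp
    have heq : ψ.comp φ₀ = φ₀' := hU x y e hC i.one A' G' _ _ h' hp'.1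
    have := hp'.2
    rw [← heq] at this
    exact this
  · intro hu
    exact ⟨ψ.comp φ₀, pointCond_iff_one.2 ⟨h', hu⟩⟩

/-- **ALGCHARTS from eight leaves** (`Stage4` is formal). -/
theorem algCharts_of_leaves₈ [IsAlgClosed k]
    (h0 : Leaf.Stage0 k B₀ B₁ B₀₁) (h1 : Leaf.Stage1 k B₀ B₁ B₀₁)
    (h2 : Leaf.Stage2 k B₀ B₁ B₀₁) (h3 : Leaf.Stage3 k B₀ B₁ B₀₁)
    (hBC : Leaf.PointBC k B₀ B₁ B₀₁) (hU : Leaf.PointUnique k B₀ B₁ B₀₁)
    (hI : Leaf.PointIso k B₀ B₁ B₀₁) (hCov : Leaf.Cover k B₀ B₁ B₀₁) :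
    Stmt.AlgCharts k B₀ B₁ B₀₁ :=
  algCharts_of_leaves k B₀ B₁ B₀₁ h0 h1 h2 h3 (stage4_of_point hBC hU) hBC hU hI hCov

end Fermat.Agent.S25.H11

end
-- ===== PACK-END S25/H11/ACStage4.lean

-- ===== PACK-BEGIN S26/H70/CubeGeneric.lean
section


/-!
# Row S26, block CUBE, leaf C5 (`cube_of`), part (b'): the generic fibre (helper70)

For a geometric point `ξ : Spec K' ⟶ A` the universal cube class vanishes on
`Spec K' × (A × A)`: it is the cube class of the base change `X'` of the abelian variety at the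
tautological `K'`-point, and `H_{M'} = X'(K')`.
-/

set_option autoImplicit false
universe u

open CategoryTheory CategoryTheory.Limits AlgebraicGeometry NeronModelInfra GoodReductionJacobian

namespace Fermat.Agent.S26.H70

noncomputable section

variable {K : Type u} [Field K] {X : AbVar K} {T : PicTheory.{u}}

/-- The generic-fibre computation, for an abstract base change `X'` of `X` along `ρ`. -/
theorem map_generic_aux {K' : Type u} [Field K'] (X' : AbVar K')
    (ρ : Spec (CommRingCat.of K') ⟶ Spec (CommRingCat.of K)) (π : X'.A ⟶ X.A)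
    (hπ : π ≫ X.str = X'.str ≫ ρ) (hpb : IsPullback π X'.str X.str ρ)
    (hmul : ∀ {S : Scheme.{u}} (s : S ⟶ Spec (CommRingCat.of K')) (a b : X'.SPt s),
      (X'.law.mul s a b).1 ≫ π =
        (X.law.mul (s ≫ ρ) (pushPt π hπ s a) (pushPt π hπ s b)).1)
    (hH' : ∀ (M' : T.Pic X'.A) (x : X'.Pt), X'.InH T M' x)
    (ξ : Spec (CommRingCat.of K') ⟶ X.A) (hξ : ξ ≫ X.str = ρ) (M : T.Pic X.A) :
    T.map (prodMapLeft X.str (ξ ≫ X.str) (prodStr X.str X.str) ξ rfl) (N₀ X T M) = 0 := by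
  subst hξ
  -- the tautological point
  let ξ' : X'.Pt := ⟨hpb.lift ξ (𝟙 _) (by rw [Category.id_comp]), hpb.lift_snd _ _ _⟩
  have hξ' : ξ'.1 ≫ π = ξ := hpb.lift_fst _ _ _
  set s' : pullback (ξ ≫ X.str) (prodStr X.str X.str) ⟶ Spec (CommRingCat.of K') :=
    pullback.fst _ _ with hs'
  have hb : (pullback.snd (ξ ≫ X.str) (prodStr X.str X.str) ≫ pullback.fst X.str X.str) ≫ X.str
      = s' ≫ ξ ≫ X.str := by
    rw [Category.assoc]
    exact (pullback.condition (f := ξ ≫ X.str) (g := prodStr X.str X.str)).symm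
  have hc : (pullback.snd (ξ ≫ X.str) (prodStr X.str X.str) ≫ pullback.snd X.str X.str) ≫ X.str
      = s' ≫ ξ ≫ X.str := by
    rw [Category.assoc, ← pullback.condition (f := X.str) (g := X.str)]
    exact (pullback.condition (f := ξ ≫ X.str) (g := prodStr X.str X.str)).symm
  let b' : X'.SPt s' := ⟨hpb.lift _ s' hb, hpb.lift_snd _ _ _⟩
  let c' : X'.SPt s' := ⟨hpb.lift _ s' hc, hpb.lift_snd _ _ _⟩
  have e := theta_pushPt (T := T) π hπ hmul s' (X'.const s' ξ') b' c' M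
  rw [hH' (T.map π M) ξ' _ s' b' c'] at e
  rw [← e]
  refine map_prodMapLeft_N₀ ξ M _ _ _ ?_ ?_ ?_
  · show (s' ≫ ξ'.1) ≫ π = pullback.fst _ _ ≫ ξ
    rw [Category.assoc, hξ']
  · exact hpb.lift_fst _ _ _
  · exact hpb.lift_fst _ _ _

/-- The universal cube class vanishes on the geometric fibre `Spec K' × (A × A)`. -/
theorem map_generic_N₀ (hBC : Stmt.BaseChange K)
    (hH : ∀ (K' : Type u) [Field K'] [IsAlgClosed K'] (X' : AbVar K') (M' : T.Pic X'.A)
      (x : X'.Pt), X'.InH T M' x)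
    (X : AbVar K) (M : T.Pic X.A) (K' : Type u) [Field K'] [IsAlgClosed K']
    (ξ : Spec (CommRingCat.of K') ⟶ X.A) :
    T.map (prodMapLeft X.str (ξ ≫ X.str) (prodStr X.str X.str) ξ rfl) (N₀ X T M) = 0 := by
  obtain ⟨X', π, hπ, hpb, -, hmul⟩ := hBC X K' (Spec.preimage (ξ ≫ X.str)).hom
  have hρ : ξ ≫ X.str = Spec.map (CommRingCat.ofHom (Spec.preimage (ξ ≫ X.str)).hom) := by
    rw [CommRingCat.ofHom_hom, Spec.map_preimage]
  exact map_generic_aux X' _ π hπ hpb hmul (hH K' X') ξ hρ M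

end

end Fermat.Agent.S26.H70

end
-- ===== PACK-END S26/H70/CubeGeneric.lean

-- ===== PACK-BEGIN S27/H970/OfDivisor.lean
section


/-!
# S27 / the gluing datum `O(D)` of a divisor on a function-field cospan (helper970)
-/

set_option autoImplicit false
set_option linter.unusedSectionVars false
set_option linter.style.haveILetI false
universe u

noncomputable section

open AlgebraicCurve

namespace Fermat.Agent.S27.H970

open Fermat.Agent.S25 Fermat.Agent.Lib.RR Fermat.Agent.Lib.RR.H638 Fermat.Agent.Lib.RR.H623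

section NR

variable {K F : Type u} [Field K] [Field F] [Algebra K F]

/-- `LOff T D` as a module over a ring `R` of functions regular off `T`. -/
def NR (R : Type u) [CommRing R] [Algebra R F] (T : Set (Place K F))
    (hT : ∀ (r : R) (v : Place K F), v ∉ T → 0 ≤ v.ord (algebraMap R F r))
    (D : Divisor K F) : Submodule R F where
  carrier := {f | ∀ v : Place K F, v ∉ T → Big v (-D v) f}
  zero_mem' := fun v _ => Big.zero v _
  add_mem' := fun hf hg v hv => (hf v hv).add (hg v hv)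
  smul_mem' := by
    intro c f hf v hv
    rw [Algebra.smul_def]
    have h1 : Big v 0 (algebraMap R F c) := Or.inr (hT c v hv)
    have := h1.mul (hf v hv)
    rwa [zero_add] at this

variable {R : Type u} [CommRing R] [Algebra R F] {T : Set (Place K F)}
    {hT : ∀ (r : R) (v : Place K F), v ∉ T → 0 ≤ v.ord (algebraMap R F r)}
    {D : Divisor K F}

theorem mem_NR {f : F} : f ∈ NR R T hT D ↔ ∀ v : Place K F, v ∉ T → Big v (-D v) f := Iff.rfl

theorem mem_NR_iff_mem_LOff {f : F} : f ∈ NR R T hT D ↔ f ∈ LOff T D := Iff.rfl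

/-- `LOff T D` is nonzero for a nonempty finite set `T`. -/
theorem exists_ne_zero_mem_LOff [FF1 K F] (T : Finset (Place K F)) (hT : T.Nonempty)
    (D : Divisor K F) : ∃ f : F, f ≠ 0 ∧ f ∈ LOff (T : Set (Place K F)) D := by
  have h1 : 1 ≤ T.card := Finset.card_pos.mpr hT
  set n : ℕ := ((genusFF K F : ℤ) - Divisor.degree D).toNat with hn
  have hdeg : Divisor.degree (D + n • divT T) = Divisor.degree D + n * T.card := by
    rw [map_add, degree_nsmul_divT]
  have h2 := riemann_inequality_genusFF (D + n • divT T)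
  rw [hdeg] at h2
  have h3 : (genusFF K F : ℤ) - Divisor.degree D ≤ n := Int.self_le_toNat _
  have h4 : (n : ℤ) ≤ n * T.card := by
    have : (1 : ℤ) ≤ T.card := by exact_mod_cast h1
    have : (0 : ℤ) ≤ n := Int.natCast_nonneg n
    nlinarith
  have hpos : 0 < Module.finrank K (riemannRochSpace (D + n • divT T)) := by
    have : (0 : ℤ) < (ell (D + n • divT T) : ℤ) := by omega
    exact_mod_cast this
  obtain ⟨f, hf⟩ := Module.finrank_pos_iff_exists_ne_zero.mp hpos
  exact ⟨f, fun h => hf (Subtype.ext h), L_add_le_LOff D T n f.2⟩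


/-- `0 ≤ ord_v f` from `Big v 0 f`. -/
theorem ord_nonneg_of_big {v : Place K F} {f : F} (hf : Big v 0 f) : 0 ≤ v.ord f := by
  rcases hf with h | h
  · rw [h, v.ord_zero]
  · exact h

/-- The `R`-module `LOff T D` is finitely generated when `R` is noetherian and equal to the
ring of functions regular off the nonempty finite set `T`. -/
theorem finite_NR [FF1 K F] [IsNoetherianRing R] (hinj : Function.Injective (algebraMap R F))
    (T : Finset (Place K F)) (hTne : T.Nonempty)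
    (hT : ∀ (r : R) (v : Place K F), v ∉ (T : Set (Place K F)) → 0 ≤ v.ord (algebraMap R F r))
    (hrange : ∀ f : F, (∀ v : Place K F, v ∉ (T : Set (Place K F)) → 0 ≤ v.ord f) →
      f ∈ Set.range (algebraMap R F))
    (D : Divisor K F) : Module.Finite R ↥(NR R (T : Set (Place K F)) hT D) := by
  obtain ⟨g, hg0, hg⟩ := exists_ne_zero_mem_LOff T hTne (-D)
  let ψ : ↥(NR R (T : Set (Place K F)) hT D) →ₗ[R] F :=
    (LinearMap.mulLeft R g).comp (NR R (T : Set (Place K F)) hT D).subtype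
  have hψ : ∀ f, ψ f ∈ LinearMap.range (Algebra.linearMap R F) := by
    intro f
    refine hrange _ fun v hv => ?_
    have h1 := (hg v hv).mul (f.2 v hv)
    simp only [Finsupp.coe_neg, Pi.neg_apply, neg_neg] at h1
    rw [add_neg_cancel] at h1
    exact ord_nonneg_of_big h1
  let φ : ↥(NR R (T : Set (Place K F)) hT D) →ₗ[R] R :=
    (LinearEquiv.ofInjective (Algebra.linearMap R F) hinj).symm.toLinearMap.comp
      (LinearMap.codRestrict _ ψ hψ)
  have hφ : Function.Injective φ := by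
    intro a b hab
    have hab' : LinearMap.codRestrict _ ψ hψ a = LinearMap.codRestrict _ ψ hψ b :=
      (LinearEquiv.ofInjective (Algebra.linearMap R F) hinj).symm.injective hab
    have h1 : ψ a = ψ b := congrArg Subtype.val hab'
    have h2 : g * (a : F) = g * (b : F) := h1
    exact Subtype.ext (mul_left_cancel₀ hg0 h2)
  exact Module.Finite.of_injective φ hφ

theorem nontrivial_NR [FF1 K F] (T : Finset (Place K F)) (hTne : T.Nonempty)
    (hT : ∀ (r : R) (v : Place K F), v ∉ (T : Set (Place K F)) → 0 ≤ v.ord (algebraMap R F r))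
    (D : Divisor K F) : Nontrivial ↥(NR R (T : Set (Place K F)) hT D) := by
  obtain ⟨g, hg0, hg⟩ := exists_ne_zero_mem_LOff T hTne D
  exact ⟨⟨⟨g, hg⟩, 0, fun h => hg0 (congrArg Subtype.val h)⟩⟩

theorem invertible_NR [FF1 K F] [IsDedekindDomain R] [IsFractionRing R F]
    (T : Finset (Place K F)) (hTne : T.Nonempty)
    (hT : ∀ (r : R) (v : Place K F), v ∉ (T : Set (Place K F)) → 0 ≤ v.ord (algebraMap R F r))
    (hrange : ∀ f : F, (∀ v : Place K F, v ∉ (T : Set (Place K F)) → 0 ≤ v.ord f) →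
      f ∈ Set.range (algebraMap R F))
    (D : Divisor K F) : Module.Invertible R ↥(NR R (T : Set (Place K F)) hT D) := by
  haveI := finite_NR (IsFractionRing.injective R F) T hTne hT hrange D
  haveI := nontrivial_NR T hTne hT D
  exact H207.invertible_of_injective_to_fractionField
    (NR R (T : Set (Place K F)) hT D).subtype Subtype.val_injective

section Res

variable {R' : Type u} [CommRing R'] [Algebra R' F] [Algebra R R'] [IsScalarTower R R' F]

/-- The restriction `LOff T D → LOff T' D` for `T ⊆ T'`, as an `R`-linear map. -/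
def resNR {T T' : Set (Place K F)} (hTT' : T ⊆ T')
    (hT : ∀ (r : R) (v : Place K F), v ∉ T → 0 ≤ v.ord (algebraMap R F r))
    (hT' : ∀ (r : R') (v : Place K F), v ∉ T' → 0 ≤ v.ord (algebraMap R' F r))
    (D : Divisor K F) : ↥(NR R T hT D) →ₗ[R] ↥(NR R' T' hT' D) where
  toFun f := ⟨f.1, fun v hv => f.2 v (fun hv' => hv (hTT' hv'))⟩
  map_add' _ _ := rfl
  map_smul' _ _ := rfl

@[simp] theorem resNR_coe {T T' : Set (Place K F)} (hTT' : T ⊆ T')
    (hT : ∀ (r : R) (v : Place K F), v ∉ T → 0 ≤ v.ord (algebraMap R F r))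
    (hT' : ∀ (r : R') (v : Place K F), v ∉ T' → 0 ≤ v.ord (algebraMap R' F r))
    (D : Divisor K F) (f : ↥(NR R T hT D)) : ((resNR hTT' hT hT' D f : ↥(NR R' T' hT' D)) : F) = f :=
  rfl

theorem resNR_injective {T T' : Set (Place K F)} (hTT' : T ⊆ T')
    (hT : ∀ (r : R) (v : Place K F), v ∉ T → 0 ≤ v.ord (algebraMap R F r))
    (hT' : ∀ (r : R') (v : Place K F), v ∉ T' → 0 ≤ v.ord (algebraMap R' F r))
    (D : Divisor K F) : Function.Injective (resNR (R := R) (R' := R') hTT' hT hT' D) :=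
  fun a b hab => Subtype.ext
    (show ((resNR hTT' hT hT' D a : ↥(NR R' T' hT' D)) : F) = (resNR hTT' hT hT' D b : _) from
      congrArg Subtype.val hab)


theorem coe_smul_NR' {T' : Set (Place K F)}
    (hT' : ∀ (r : R') (v : Place K F), v ∉ T' → 0 ≤ v.ord (algebraMap R' F r))
    (D : Divisor K F) (r : R) (f : ↥(NR R' T' hT' D)) :
    ((r • f : ↥(NR R' T' hT' D)) : F) = algebraMap R F r * (f : F) := by
  rw [← Algebra.smul_def]; rfl

/-- The restriction `LOff T D → LOff T' D` is a localization at the powers of `t` if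
`t` is a unit off `T'` and vanishes on `T' \ T`. -/
theorem isLocalizedModule_resNR (T T' : Set (Place K F)) (hfin : T'.Finite)
    (hTT' : T ⊆ T')
    (hT : ∀ (r : R) (v : Place K F), v ∉ T → 0 ≤ v.ord (algebraMap R F r))
    (hT' : ∀ (r : R') (v : Place K F), v ∉ T' → 0 ≤ v.ord (algebraMap R' F r))
    (t : R) (ht : algebraMap R F t ≠ 0)
    (ht0 : ∀ v : Place K F, v ∉ T' → v.ord (algebraMap R F t) = 0)
    (htpos : ∀ v : Place K F, v ∈ T' → v ∉ T → 0 < v.ord (algebraMap R F t))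
    (D : Divisor K F) :
    IsLocalizedModule (Submonoid.powers t) (resNR (R := R) (R' := R') hTT' hT hT' D) := by
  classical
  refine ⟨?_, ?_, ?_⟩
  · rintro ⟨s, n, rfl⟩
    have hs : algebraMap R F (t ^ n) ≠ 0 := by rw [map_pow]; exact pow_ne_zero _ ht
    have hs0 : ∀ v : Place K F, v ∉ T' → v.ord (algebraMap R F (t ^ n)) = 0 := by
      intro v hv
      rw [map_pow, ord_pow, ht0 v hv, mul_zero]
    rw [Module.End.isUnit_iff]
    constructor
    · intro a b hab
      have h1 : ((t ^ n • a : ↥(NR R' T' hT' D)) : F) =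
          ((t ^ n • b : ↥(NR R' T' hT' D)) : F) := congrArg Subtype.val hab
      rw [coe_smul_NR', coe_smul_NR'] at h1
      exact Subtype.ext (mul_left_cancel₀ hs h1)
    · intro b
      have hmem : (algebraMap R F (t ^ n))⁻¹ * (b : F) ∈ NR R' T' hT' D := by
        intro v hv
        have h1 : Big v 0 ((algebraMap R F (t ^ n))⁻¹) := by
          right
          rw [v.ord_inv, hs0 v hv, neg_zero]
        have := h1.mul (b.2 v hv)
        rwa [zero_add] at this
      refine ⟨⟨_, hmem⟩, Subtype.ext ?_⟩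
      show ((t ^ n • (⟨_, hmem⟩ : ↥(NR R' T' hT' D)) :
        ↥(NR R' T' hT' D)) : F) = b
      rw [coe_smul_NR']
      exact mul_inv_cancel_left₀ hs _
  · intro g
    by_cases hg0 : (g : F) = 0
    · refine ⟨⟨0, 1⟩, Subtype.ext ?_⟩
      show (((1 : Submonoid.powers t) • g : ↥(NR R' T' hT' D)) : F) = _
      rw [one_smul, map_zero, hg0]; rfl
    set n : ℕ := ∑ v ∈ hfin.toFinset, (v.ord (g : F) + D v).natAbs with hn
    have hmem : algebraMap R F (t ^ n) * (g : F) ∈ NR R T hT D := by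
      intro v hv
      right
      have hs : algebraMap R F (t ^ n) ≠ 0 := by rw [map_pow]; exact pow_ne_zero _ ht
      rw [v.ord_mul hs hg0, map_pow, ord_pow]
      by_cases hv' : v ∈ T'
      · have h1 : (v.ord (g : F) + D v).natAbs ≤ n :=
          Finset.single_le_sum (f := fun w => (w.ord (g : F) + D w).natAbs)
            (fun _ _ => Nat.zero_le _) (hfin.mem_toFinset.mpr hv')
        have h2 := htpos v hv' hv
        have h3 : ((v.ord (g : F) + D v).natAbs : ℤ) ≤ (n : ℤ) := by exact_mod_cast h1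
        have h5 : -(v.ord (g : F) + D v) ≤ ((v.ord (g : F) + D v).natAbs : ℤ) := by
          rw [Int.natCast_natAbs]; exact neg_le_abs _
        have h6 : (n : ℤ) ≤ n * v.ord (algebraMap R F t) := by
          have : (0 : ℤ) ≤ n := Int.natCast_nonneg n
          nlinarith
        omega
      · rw [ht0 v hv', mul_zero, zero_add]
        exact (g.2 v hv').le_ord hg0
    refine ⟨⟨⟨_, hmem⟩, ⟨t ^ n, n, rfl⟩⟩, Subtype.ext ?_⟩
    show (((t ^ n) • g : ↥(NR R' T' hT' D)) : F) = _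
    rw [coe_smul_NR']
    rfl
  · intro a b hab
    exact ⟨1, by rw [one_smul, one_smul]; exact resNR_injective hTT' hT hT' D hab⟩

end Res

end NR

section Cospan

variable {K F R₀ R₁ R₀₁ : Type u} [Field K] [Field F] [Algebra K F]
  [CommRing R₀] [CommRing R₁] [CommRing R₀₁] [Algebra K R₀] [Algebra K R₁] [Algebra K R₀₁]
  [Algebra R₀ R₀₁] [Algebra R₁ R₀₁] [IsScalarTower K R₀ R₀₁] [IsScalarTower K R₁ R₀₁]
  [Algebra R₀ F] [Algebra R₁ F] [Algebra R₀₁ F]
  [IsScalarTower R₀ R₀₁ F] [IsScalarTower R₁ R₀₁ F]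
  [IsScalarTower K R₀ F] [IsScalarTower K R₁ F] [IsScalarTower K R₀₁ F]
  {x₀ : R₀} {y₁ : R₁} (h : IsFFCospan K F R₀₁ x₀ y₁)

namespace IsFFCospan

include h

theorem subset₀ : (h.Ti : Set (Place K F)) ⊆ (h.Tz : Set (Place K F)) ∪ h.Ti :=
  Set.subset_union_right

theorem subset₁ : (h.Tz : Set (Place K F)) ⊆ (h.Tz : Set (Place K F)) ∪ h.Ti :=
  Set.subset_union_left

theorem finite₀₁ : ((h.Tz : Set (Place K F)) ∪ h.Ti).Finite :=
  (Finset.finite_toSet _).union (Finset.finite_toSet _)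

theorem isLocalizedModule₀ (D : Divisor K F) :
    IsLocalizedModule (Submonoid.powers x₀)
      (resNR (R := R₀) (R' := R₀₁) h.subset₀ h.reg₀ h.reg₀₁ D) := by
  refine isLocalizedModule_resNR _ _ h.finite₀₁ h.subset₀ h.reg₀ h.reg₀₁ x₀ h.x_ne_zero
    (fun v hv => h.ord_x_eq_zero hv) (fun v hv hv' => ?_) D
  rw [← h.mem_Tz]
  exact Finset.mem_coe.mp (hv.resolve_right hv')

theorem y_ne_zero : algebraMap R₁ F y₁ ≠ 0 := by
  rw [h.y_eq]; exact inv_ne_zero h.x_ne_zero

theorem ord_y (v : Place K F) : v.ord (algebraMap R₁ F y₁) = -v.ord (algebraMap R₀ F x₀) := by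
  rw [h.y_eq, v.ord_inv]

theorem isLocalizedModule₁ (D : Divisor K F) :
    IsLocalizedModule (Submonoid.powers y₁)
      (resNR (R := R₁) (R' := R₀₁) h.subset₁ h.reg₁ h.reg₀₁ D) := by
  refine isLocalizedModule_resNR _ _ h.finite₀₁ h.subset₁ h.reg₁ h.reg₀₁ y₁ h.y_ne_zero
    (fun v hv => ?_) (fun v hv hv' => ?_) D
  · rw [h.ord_y, h.ord_x_eq_zero hv, neg_zero]
  · have := h.mem_Ti.mp (Finset.mem_coe.mp (hv.resolve_left hv'))
    rw [h.ord_y]
    omega

/-- **The gluing datum `O(D)`** of a divisor `D`. -/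
def ofDivisor (D : Divisor K F) : GlueDatum K R₀ R₁ R₀₁ where
  N₀ := ↥(NR R₀ (h.Ti : Set (Place K F)) h.reg₀ D)
  N₁ := ↥(NR R₁ (h.Tz : Set (Place K F)) h.reg₁ D)
  N₀₁ := ↥(NR R₀₁ ((h.Tz : Set (Place K F)) ∪ h.Ti) h.reg₀₁ D)
  r₀ := resNR h.subset₀ h.reg₀ h.reg₀₁ D
  r₁ := resNR h.subset₁ h.reg₁ h.reg₀₁ D
  isBaseChange₀ :=
    haveI := h.away₀
    haveI := h.isLocalizedModule₀ D
    IsLocalizedModule.isBaseChange (Submonoid.powers x₀) R₀₁ _
  isBaseChange₁ :=
    haveI := h.away₁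
    haveI := h.isLocalizedModule₁ D
    IsLocalizedModule.isBaseChange (Submonoid.powers y₁) R₀₁ _
  invertible₀ :=
    haveI := h.ff1
    haveI := h.dedekind₀
    haveI := h.frac₀
    invertible_NR h.Ti h.Ti_nonempty h.reg₀ h.range₀' D
  invertible₁ :=
    haveI := h.ff1
    haveI := h.dedekind₁
    haveI := h.frac₁
    invertible_NR h.Tz h.Tz_nonempty h.reg₁ h.range₁' D

end IsFFCospan

end Cospan

end Fermat.Agent.S27.H970

end
end
-- ===== PACK-END S27/H970/OfDivisor.lean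

-- ===== PACK-BEGIN S35/G/H858/T1F.lean
section





/-!
# S35, piece (G'), leaf T1F (helper858): descent `ℚ̄ → E`

`t1f : T1FStatement` (helper450's `SpecLevel.lean`, VERBATIM).

Proof (pattern of `A2/T1/H669`): the function `f` and the data `c, g`, `c', g'` of the two norm
hypotheses descend to every level containing a finite set `S`; IFs gives a good `s`-stable level
`E ⊇ S`; `m ∣ div f` becomes `DivisibleDiv` (helper669 T2); the norms along `α`, `β` commute with
the constant field extension `E ⊆ ℚ̄` (`S35/H858/NormBC.lean`: the constants `ε_j`, `ε` an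
`E`-basis of `ℚ̄`, form a basis of `F̄` over `F_E` at both levels, so an `F_{M,E}`-basis of
`F_{Mq,E}` is an `F̄_M`-basis of `F̄_{Mq}`; no degree computation is needed); the conclusion is
pushed back by `iota`.
-/

set_option autoImplicit false
set_option linter.style.haveILetI false
set_option synthInstance.maxHeartbeats 400000
set_option maxHeartbeats 1600000

noncomputable section

namespace Fermat.Agent.S35.G.H858

open ModularCurve AlgebraicCurve Fermat.Agent.S35.G Fermat.Agent.S29.H395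

/-- `iota` commutes with `frobSub`. -/
theorem iota_frobSub (E : IntermediateField ℚ Qb) (N : ℕ)
    (φE : A2.Mod.FE E N ≃+* A2.Mod.FE E N)
    (φ : modularFunctionFieldBar N ≃+* modularFunctionFieldBar N)
    (hφ : ∀ y, A2.T1.H669.iota E (modularFunctionFieldFull N) (φE y) =
      φ (A2.T1.H669.iota E (modularFunctionFieldFull N) y))
    (Q : ℕ) (y : A2.Mod.FE E N) :
    A2.T1.H669.iota E (modularFunctionFieldFull N) (frobSub φE Q y) =
      frobSub φ Q (A2.T1.H669.iota E (modularFunctionFieldFull N) y) := by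
  unfold frobSub
  rw [map_mul, map_inv₀, map_pow, hφ]

/-- `iota` commutes with `frobPoly`. -/
theorem iota_frobPoly (E : IntermediateField ℚ Qb) (N : ℕ)
    (φE : A2.Mod.FE E N ≃+* A2.Mod.FE E N)
    (φ : modularFunctionFieldBar N ≃+* modularFunctionFieldBar N)
    (hφ : ∀ y, A2.T1.H669.iota E (modularFunctionFieldFull N) (φE y) =
      φ (A2.T1.H669.iota E (modularFunctionFieldFull N) y))
    (Q : ℕ) (y : A2.Mod.FE E N) :
    A2.T1.H669.iota E (modularFunctionFieldFull N) (frobPoly φE Q y) =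
      frobPoly φ Q (A2.T1.H669.iota E (modularFunctionFieldFull N) y) := by
  unfold frobPoly
  rw [iota_frobSub E N φE φ hφ, iota_frobSub E N φE φ hφ, iota_frobSub E N φE φ hφ]

/-- Descent of a norm hypothesis. -/
theorem normPow_descent (E : IntermediateField ℚ Qb) (M q m : ℕ) [NeZero M] [NeZero q]
    (ψE : A2.Mod.FE E M →ₐ[E] A2.Mod.FE E (M * q))
    (ψ : modularFunctionFieldBar M →ₐ[Qb] modularFunctionFieldBar (M * q))
    (hN : ∀ y, A2.T1.H669.iota E (modularFunctionFieldFull M) (normAlong ψE y) =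
      normAlong ψ (A2.T1.H669.iota E (modularFunctionFieldFull (M * q)) y))
    (y : A2.Mod.FE E (M * q)) (c : Qb) (hc : c ∈ E) (g : A2.Mod.FE E M)
    (h : normAlong ψ (A2.T1.H669.iota E (modularFunctionFieldFull (M * q)) y) =
      algebraMap Qb (modularFunctionFieldBar M) c *
        (A2.T1.H669.iota E (modularFunctionFieldFull M) g) ^ m) :
    NormPow ψE m y := by
  refine ⟨⟨c, hc⟩, g, ?_⟩
  apply A2.T1.H669.iota_injective E (modularFunctionFieldFull M)
  rw [hN, h, map_mul, map_pow, A2.T1.H669.iota_algebraMap]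
  rfl

/-- **T1F.** -/
theorem t1f : T1FStatement := by
  intro M q m _ _ hq hqM hm hqm hIF hLEV A hA s hs f hf hdiv hNα hNβ
  classical
  obtain ⟨c₁, g₁, h₁⟩ := hNα
  obtain ⟨c₂, g₂, h₂⟩ := hNβ
  obtain ⟨S₁, hS₁⟩ :=
    A2.T1.H669.exists_finset_descent (modularFunctionFieldFull (M * q)) f
  obtain ⟨S₂, hS₂⟩ := A2.T1.H669.exists_finset_descent (modularFunctionFieldFull M) g₁
  obtain ⟨S₃, hS₃⟩ := A2.T1.H669.exists_finset_descent (modularFunctionFieldFull M) g₂
  obtain ⟨E, hSE, hE, hst⟩ :=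
    hIF q hq A hA s hs.mem_decompositionSubgroup (S₁ ∪ S₂ ∪ S₃ ∪ {c₁, c₂})
  obtain ⟨y, hy⟩ := hS₁ E (fun x hx => hSE x (by simp [hx]))
  obtain ⟨a, ha⟩ := hS₂ E (fun x hx => hSE x (by simp [hx]))
  obtain ⟨b, hb⟩ := hS₃ E (fun x hx => hSE x (by simp [hx]))
  have hc₁ : c₁ ∈ E := hSE c₁ (by simp)
  have hc₂ : c₂ ∈ E := hSE c₂ (by simp)
  have hy0 : y ≠ 0 := by
    rintro rfl
    exact hf (by rw [← hy, map_zero])
  have hNy : NormPow (A2.Mod.αE E M q) m y :=
    normPow_descent E M q m _ _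
      (Fermat.Agent.S35.H858.iota_normAlong_alpha E M q
        (Fermat.Agent.Lib.HI.H864.finiteAlong_alpha M q))
      y c₁ hc₁ a (by rw [hy, ha]; exact h₁)
  have hNy' : NormPow (A2.Mod.βE E M q) m y :=
    normPow_descent E M q m _ _
      (Fermat.Agent.S35.H858.iota_normAlong_beta E M q
        (Fermat.Agent.Lib.HI.H864.finiteAlong_beta M q))
      y c₂ hc₂ b (by rw [hy, hb]; exact h₂)
  obtain ⟨h, hh0, hh⟩ := hLEV A E hA hE s hst hs y hy0
    (A2.T1.H669.divisibleDiv_of_ord E (modularFunctionFieldFull (M * q)) m y hy0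
      (fun v => by rw [hy]; exact hdiv v))
    hNy hNy'
  refine ⟨1, A2.T1.H669.iota E _ h, one_ne_zero, ?_⟩
  have h3 := congrArg (A2.T1.H669.iota E (modularFunctionFieldFull (M * q))) hh
  rw [iota_frobPoly E (M * q) (psiE E (M * q) s hst) (actBar (M * q) (s * s))
    (fun z => A2.T1.H669.iota_arithmeticRingAut E _ (s * s)
      (A2.Mod.resE E s hst * A2.Mod.resE E s hst) (fun e => rfl) z), hy, map_pow] at h3
  rw [h3, map_one, one_mul]

end Fermat.Agent.S35.G.H858

end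
end
-- ===== PACK-END S35/G/H858/T1F.lean

-- ===== PACK-BEGIN S29/H871/PlaceBC.lean
section


/-!
# S29 / E3 (descent `ℂ → ℚ̄`), part 2: base change of a rational place

Setting (`IsConstExt K F K' F'`): `F' ⊇ F`, `K' ⊇ K`, the multiplication map
`F ⊗[K] K' → F'` is injective and `F'` is its field of fractions.

For a rational place `v` of `F/K` we construct the place `placeBC v` of `F'/K'` whose valuation
ring is the localisation of `O_v ⊗[K] K'` at the prime `(π ⊗ 1)`.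

(helper871)
-/

set_option autoImplicit false
set_option linter.unusedSectionVars false

noncomputable section

namespace Fermat.Agent.S29.H871

open AlgebraicCurve TensorProduct

variable (K F K' F' : Type*) [Field K] [Field F] [Field K'] [Field F']
  [Algebra K F] [Algebra K' F'] [Algebra K K'] [Algebra F F'] [Algebra K F']
  [IsScalarTower K F F'] [IsScalarTower K K' F']

/-- The multiplication map `F ⊗[K] K' → F'`. -/
def mulMapF : F ⊗[K] K' →ₐ[K] F' :=
  Algebra.TensorProduct.productMap (IsScalarTower.toAlgHom K F F')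
    (IsScalarTower.toAlgHom K K' F')

/-- `F'` is the constant field extension of `F` from `K` to `K'`: `F` and `K'` are linearly
disjoint over `K` inside `F'`, and they generate `F'` as a field. -/
class IsConstExt : Prop where
  inj : Function.Injective (mulMapF K F K' F')
  gen : ∀ z : F', ∃ x y : F ⊗[K] K', mulMapF K F K' F' y ≠ 0 ∧
    z * mulMapF K F K' F' y = mulMapF K F K' F' x

variable {K F K' F'}

@[simp]
theorem mulMapF_tmul (f : F) (c : K') :
    mulMapF K F K' F' (f ⊗ₜ[K] c) = algebraMap F F' f * algebraMap K' F' c := by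
  simp [mulMapF]

section MuA

variable (K' F') (v : Place K F)

/-- The multiplication map `O_v ⊗[K] K' → F'`. -/
def muA : v.toValuationSubring ⊗[K] K' →ₐ[K] F' :=
  Algebra.TensorProduct.productMap
    ((IsScalarTower.toAlgHom K F F').comp (IsScalarTower.toAlgHom K v.toValuationSubring F))
    (IsScalarTower.toAlgHom K K' F')

variable {K' F' v}

@[simp]
theorem muA_tmul (a : v.toValuationSubring) (c : K') :
    muA K' F' v (a ⊗ₜ[K] c) = algebraMap F F' (a : F) * algebraMap K' F' c := by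
  simp [muA]

theorem muA_piT (π : v.toValuationSubring) :
    muA K' F' v (piT π) = algebraMap F F' (π : F) := by
  rw [piT, muA_tmul, map_one, mul_one]

theorem muA_eq_mulMapF_comp (x : v.toValuationSubring ⊗[K] K') :
    muA K' F' v x = mulMapF K F K' F'
      (LinearMap.rTensor K' (IsScalarTower.toAlgHom K v.toValuationSubring F).toLinearMap x) := by
  induction x using TensorProduct.induction_on with
  | zero => simp
  | tmul a c =>
    rw [muA_tmul, LinearMap.rTensor_tmul, mulMapF_tmul]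
    rfl
  | add x y hx hy => rw [map_add, map_add, map_add, hx, hy]

/-- Clearing denominators in `F`. -/
theorem exists_mul_pow_mem {π : v.toValuationSubring} (hπ : Irreducible π) (f : F) :
    ∃ (n : ℕ) (a : v.toValuationSubring), f * (π : F) ^ n = (a : F) := by
  by_cases hf : f ∈ v.toValuationSubring
  · exact ⟨0, ⟨f, hf⟩, by simp⟩
  · have hf0 : f ≠ 0 := fun h => hf (h ▸ zero_mem _)
    have hinv : f⁻¹ ∈ v.toValuationSubring :=
      (v.toValuationSubring.mem_or_inv_mem f).resolve_left hf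
    have hinv0 : (⟨f⁻¹, hinv⟩ : v.toValuationSubring) ≠ 0 := by
      intro h
      exact inv_ne_zero hf0 (congrArg Subtype.val h)
    obtain ⟨n, u, hu⟩ := IsDiscreteValuationRing.eq_unit_mul_pow_irreducible hinv0 hπ
    refine ⟨n, ((u⁻¹ : (v.toValuationSubring)ˣ) : v.toValuationSubring), ?_⟩
    have h1 : f⁻¹ = ((u : v.toValuationSubring) : F) * (π : F) ^ n := by
      have := congrArg Subtype.val hu
      simpa using this
    have h2 : ((u : v.toValuationSubring) : F) * (((u⁻¹ : (v.toValuationSubring)ˣ) :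
        v.toValuationSubring) : F) = 1 := by
      have h := congrArg (fun t : v.toValuationSubring => (t : F)) (Units.mul_inv u)
      exact h
    have hπ0 : (π : F) ≠ 0 := by
      intro h
      exact hπ.ne_zero (Subtype.ext h)
    have hu0 : ((u : v.toValuationSubring) : F) ≠ 0 := by
      intro h
      rw [h, zero_mul] at h2
      exact zero_ne_one h2
    have h3 : f = (((u : v.toValuationSubring) : F) * (π : F) ^ n)⁻¹ := by
      rw [← h1, inv_inv]
    rw [h3]
    field_simp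
    exact h2.symm

/-- Clearing denominators in `F ⊗[K] K'`. -/
theorem exists_mulMapF_mul_pow_eq {π : v.toValuationSubring} (hπ : Irreducible π)
    (x : F ⊗[K] K') :
    ∃ (n : ℕ) (x' : v.toValuationSubring ⊗[K] K'),
      mulMapF K F K' F' x * (algebraMap F F' (π : F)) ^ n = muA K' F' v x' := by
  induction x using TensorProduct.induction_on with
  | zero => exact ⟨0, 0, by simp⟩
  | tmul f c =>
    obtain ⟨n, a, ha⟩ := exists_mul_pow_mem hπ f
    refine ⟨n, a ⊗ₜ[K] c, ?_⟩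
    rw [mulMapF_tmul, muA_tmul, ← ha, map_mul, map_pow]
    ring
  | add x y hx hy =>
    obtain ⟨n, x', hx'⟩ := hx
    obtain ⟨m, y', hy'⟩ := hy
    refine ⟨n + m, x' * piT π ^ m + y' * piT π ^ n, ?_⟩
    rw [map_add, map_add, map_mul, map_mul, map_pow, map_pow, muA_piT, ← hx', ← hy']
    ring

variable [IsConstExt K F K' F']

theorem muA_injective : Function.Injective (muA K' F' v) := by
  have h1 : Function.Injective
      (LinearMap.rTensor K' (IsScalarTower.toAlgHom K v.toValuationSubring F).toLinearMap) := by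
    apply Module.Flat.rTensor_preserves_injective_linearMap
    intro a b hab
    exact Subtype.ext hab
  intro x y hxy
  rw [muA_eq_mulMapF_comp, muA_eq_mulMapF_comp] at hxy
  exact h1 (IsConstExt.inj hxy)

theorem muA_ne_zero {x : v.toValuationSubring ⊗[K] K'} (hx : x ≠ 0) : muA K' F' v x ≠ 0 := by
  intro h
  exact hx (muA_injective (by rw [h, map_zero]))

theorem algebraMap_pi_ne_zero {π : v.toValuationSubring} (hπ : Irreducible π) :
    algebraMap F F' (π : F) ≠ 0 := by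
  intro h
  have : (π : F) = 0 := (algebraMap F F').injective (by rw [h, map_zero])
  exact hπ.ne_zero (Subtype.ext this)

/-- Every nonzero element of `F'` is a quotient of two nonzero elements of `O_v ⊗[K] K'`. -/
theorem exists_muA_quotient {π : v.toValuationSubring} (hπ : Irreducible π) {z : F'}
    (hz : z ≠ 0) :
    ∃ x y : v.toValuationSubring ⊗[K] K', x ≠ 0 ∧ y ≠ 0 ∧
      z * muA K' F' v y = muA K' F' v x := by
  obtain ⟨x, y, hy, hxy⟩ := IsConstExt.gen (K := K) (F := F) (K' := K') z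
  obtain ⟨n, x', hx'⟩ := exists_mulMapF_mul_pow_eq (K' := K') (F' := F') hπ x
  obtain ⟨m, y', hy'⟩ := exists_mulMapF_mul_pow_eq (K' := K') (F' := F') hπ y
  have hπ0 := algebraMap_pi_ne_zero (F' := F') hπ
  have hy'0 : muA K' F' v y' ≠ 0 := by
    rw [← hy']
    exact mul_ne_zero hy (pow_ne_zero _ hπ0)
  have key : z * muA K' F' v (y' * piT π ^ n) = muA K' F' v (x' * piT π ^ m) := by
    rw [map_mul, map_mul, map_pow, map_pow, muA_piT, ← hx', ← hy', ← hxy]
    ring
  have hyn : muA K' F' v (y' * piT π ^ n) ≠ 0 := by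
    rw [map_mul, map_pow, muA_piT]
    exact mul_ne_zero hy'0 (pow_ne_zero _ hπ0)
  refine ⟨x' * piT π ^ m, y' * piT π ^ n, ?_, ?_, key⟩
  · intro h
    rw [h, map_zero] at key
    exact mul_ne_zero hz hyn key
  · intro h
    rw [h, map_zero] at hyn
    exact hyn rfl

end MuA

section VS

variable (K' F') {v : Place K F} (hv : IsRationalPlace v) [IsConstExt K F K' F']

/-- Membership predicate of the extended valuation ring: `z = μ(x)/μ(s)` with `ε(s) ≠ 0`. -/
def IsIntegralBC (z : F') : Prop :=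
  ∃ x s : v.toValuationSubring ⊗[K] K', epsHom hv s ≠ 0 ∧ z * muA K' F' v s = muA K' F' v x

variable {K' F'}

theorem eps_ne_zero_ne_zero {s : v.toValuationSubring ⊗[K] K'} (hs : epsHom hv s ≠ 0) :
    s ≠ 0 := by
  intro h
  rw [h, map_zero] at hs
  exact hs rfl

theorem IsIntegralBC.mul {z w : F'} (hz : IsIntegralBC K' F' hv z) (hw : IsIntegralBC K' F' hv w) :
    IsIntegralBC K' F' hv (z * w) := by
  obtain ⟨x, s, hs, hx⟩ := hz
  obtain ⟨y, t, ht, hy⟩ := hw
  refine ⟨x * y, s * t, ?_, ?_⟩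
  · rw [map_mul]
    exact mul_ne_zero hs ht
  · rw [map_mul, map_mul, ← hx, ← hy]
    ring

theorem IsIntegralBC.add {z w : F'} (hz : IsIntegralBC K' F' hv z) (hw : IsIntegralBC K' F' hv w) :
    IsIntegralBC K' F' hv (z + w) := by
  obtain ⟨x, s, hs, hx⟩ := hz
  obtain ⟨y, t, ht, hy⟩ := hw
  refine ⟨x * t + y * s, s * t, ?_, ?_⟩
  · rw [map_mul]
    exact mul_ne_zero hs ht
  · rw [map_add, map_mul, map_mul, map_mul, ← hx, ← hy]
    ring

theorem IsIntegralBC.neg {z : F'} (hz : IsIntegralBC K' F' hv z) :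
    IsIntegralBC K' F' hv (-z) := by
  obtain ⟨x, s, hs, hx⟩ := hz
  refine ⟨-x, s, hs, ?_⟩
  rw [map_neg, ← hx]
  ring

theorem isIntegralBC_muA (x : v.toValuationSubring ⊗[K] K') :
    IsIntegralBC K' F' hv (muA K' F' v x) :=
  ⟨x, 1, by rw [map_one]; exact one_ne_zero, by rw [map_one, mul_one]⟩

theorem isIntegralBC_zero : IsIntegralBC K' F' hv (0 : F') := by
  have := isIntegralBC_muA (K' := K') (F' := F') hv 0
  rwa [map_zero] at this

theorem isIntegralBC_one : IsIntegralBC K' F' hv (1 : F') := by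
  have := isIntegralBC_muA (K' := K') (F' := F') hv 1
  rwa [map_one] at this

theorem isIntegralBC_algebraMap (c : K') : IsIntegralBC K' F' hv (algebraMap K' F' c) := by
  have := isIntegralBC_muA (K' := K') (F' := F') hv ((1 : v.toValuationSubring) ⊗ₜ[K] c)
  rw [muA_tmul] at this
  simpa using this

theorem isIntegralBC_algebraMap_of_mem {f : F} (hf : f ∈ v.toValuationSubring) :
    IsIntegralBC K' F' hv (algebraMap F F' f) := by
  have := isIntegralBC_muA (K' := K') (F' := F') hv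
    ((⟨f, hf⟩ : v.toValuationSubring) ⊗ₜ[K] (1 : K'))
  rw [muA_tmul] at this
  simpa using this

/-- Elements `μ(x)/μ(s)` with `ε x ≠ 0`, `ε s ≠ 0` are units of the extended valuation ring. -/
theorem isIntegralBC_inv_of_eps_ne_zero {z : F'} {x s : v.toValuationSubring ⊗[K] K'}
    (hx : epsHom hv x ≠ 0) (hs : epsHom hv s ≠ 0)
    (h : z * muA K' F' v s = muA K' F' v x) : IsIntegralBC K' F' hv z⁻¹ := by
  refine ⟨s, x, hx, ?_⟩
  have hx0 := muA_ne_zero (K' := K') (F' := F') (eps_ne_zero_ne_zero hv hx)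
  have hs0 := muA_ne_zero (K' := K') (F' := F') (eps_ne_zero_ne_zero hv hs)
  have hz0 : z ≠ 0 := by
    intro hz
    rw [hz, zero_mul] at h
    exact hx0 h.symm
  rw [← h]
  field_simp

/-- **Decomposition**: every nonzero `z : F'` is `u * π^n` (`n : ℤ`) with `u` and `u⁻¹`
integral. -/
theorem exists_unit_mul_zpow_BC {π : v.toValuationSubring} (hπ : Irreducible π) {z : F'}
    (hz : z ≠ 0) :
    ∃ (u : F') (n : ℤ), IsIntegralBC K' F' hv u ∧ IsIntegralBC K' F' hv u⁻¹ ∧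
      z = u * (algebraMap F F' (π : F)) ^ n := by
  obtain ⟨x, y, hx0, hy0, hxy⟩ := exists_muA_quotient (K' := K') (F' := F') hπ hz
  obtain ⟨m, x', hx', hex⟩ := exists_pow_mul_eps_ne_zero hv hπ hx0
  obtain ⟨n, y', hy', hey⟩ := exists_pow_mul_eps_ne_zero hv hπ hy0
  have hπ0 := algebraMap_pi_ne_zero (F' := F') hπ
  have hx'0 := muA_ne_zero (K' := K') (F' := F') (eps_ne_zero_ne_zero hv hex)
  have hy'0 := muA_ne_zero (K' := K') (F' := F') (eps_ne_zero_ne_zero hv hey)
  set u : F' := muA K' F' v x' / muA K' F' v y' with hu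
  have hu1 : u * muA K' F' v y' = muA K' F' v x' := by
    rw [hu]
    field_simp
  have hu2 : u⁻¹ * muA K' F' v x' = muA K' F' v y' := by
    rw [hu]
    field_simp
  refine ⟨u, (m : ℤ) - n, ⟨x', y', hey, hu1⟩, ⟨y', x', hex, hu2⟩, ?_⟩
  rw [hx', hy', map_mul, map_mul, map_pow, map_pow, muA_piT] at hxy
  rw [zpow_sub₀ hπ0, zpow_natCast, zpow_natCast, hu]
  field_simp
  field_simp at hxy
  linear_combination hxy

theorem not_isIntegralBC_inv_pi {π : v.toValuationSubring} (hπ : Irreducible π) (n : ℕ) :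
    ¬ IsIntegralBC K' F' hv ((algebraMap F F' (π : F)) ^ (n + 1))⁻¹ := by
  rintro ⟨x, s, hs, h⟩
  have hπ0 := algebraMap_pi_ne_zero (F' := F') hπ
  have h1 : muA K' F' v s = muA K' F' v (piT π * (piT π ^ n * x)) := by
    rw [map_mul, map_mul, map_pow, muA_piT, ← h]
    field_simp
    ring
  have h2 := muA_injective (K' := K') (F' := F') h1
  apply hs
  rw [h2, map_mul, epsHom_piT hv hπ, zero_mul]

theorem isIntegralBC_pi_pow (π : v.toValuationSubring) (n : ℕ) :
    IsIntegralBC K' F' hv ((algebraMap F F' (π : F)) ^ n) := by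
  have := isIntegralBC_muA (K' := K') (F' := F') hv (piT π ^ n)
  rwa [map_pow, muA_piT] at this

/-- Decomposition of integral elements with a natural exponent. -/
theorem exists_unit_mul_pow_BC {π : v.toValuationSubring} (hπ : Irreducible π) {z : F'}
    (hz : IsIntegralBC K' F' hv z) (hz0 : z ≠ 0) :
    ∃ (u : F') (n : ℕ), IsIntegralBC K' F' hv u ∧ IsIntegralBC K' F' hv u⁻¹ ∧
      z = u * (algebraMap F F' (π : F)) ^ n := by
  obtain ⟨u, k, hu, hu', hzk⟩ := exists_unit_mul_zpow_BC (K' := K') (F' := F') hv hπ hz0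
  have hπ0 := algebraMap_pi_ne_zero (F' := F') hπ
  have hu0 : u ≠ 0 := by
    intro h
    rw [h, zero_mul] at hzk
    exact hz0 hzk
  rcases le_or_gt 0 k with hk | hk
  · obtain ⟨n, rfl⟩ := Int.eq_ofNat_of_zero_le hk
    exact ⟨u, n, hu, hu', by rw [hzk, zpow_natCast]⟩
  · exfalso
    obtain ⟨j, hj⟩ : ∃ j : ℕ, k = -((j : ℤ) + 1) := ⟨(-k - 1).toNat, by omega⟩
    apply not_isIntegralBC_inv_pi (K' := K') (F' := F') hv hπ j
    have : ((algebraMap F F' (π : F)) ^ (j + 1))⁻¹ = u⁻¹ * z := by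
      rw [hzk, hj, zpow_neg, ← Nat.cast_succ, zpow_natCast]
      field_simp
    rw [this]
    exact hu'.mul hv hz

variable (K' F')

/-- The valuation ring of the base change of a rational place. -/
def valuationSubringBC : ValuationSubring F' where
  carrier := {z | IsIntegralBC K' F' hv z}
  mul_mem' := fun hz hw => IsIntegralBC.mul hv hz hw
  one_mem' := isIntegralBC_one hv
  add_mem' := fun hz hw => IsIntegralBC.add hv hz hw
  zero_mem' := isIntegralBC_zero hv
  neg_mem' := fun hz => IsIntegralBC.neg hv hz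
  mem_or_inv_mem' := by
    intro z
    by_cases hz : z = 0
    · left
      rw [hz]
      exact isIntegralBC_zero hv
    obtain ⟨π, hπ⟩ := IsDiscreteValuationRing.exists_irreducible v.toValuationSubring
    obtain ⟨u, k, hu, hu', hzk⟩ := exists_unit_mul_zpow_BC (K' := K') (F' := F') hv hπ hz
    rcases le_total 0 k with hk | hk
    · left
      obtain ⟨n, rfl⟩ := Int.eq_ofNat_of_zero_le hk
      show IsIntegralBC K' F' hv z
      rw [hzk, zpow_natCast]
      exact hu.mul hv (isIntegralBC_pi_pow hv π n)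
    · right
      obtain ⟨n, hn⟩ : ∃ n : ℕ, k = -(n : ℤ) := ⟨(-k).toNat, by omega⟩
      show IsIntegralBC K' F' hv z⁻¹
      have : z⁻¹ = u⁻¹ * (algebraMap F F' (π : F)) ^ n := by
        rw [hzk, hn, zpow_neg, zpow_natCast, mul_inv, inv_inv]
      rw [this]
      exact hu'.mul hv (isIntegralBC_pi_pow hv π n)

variable {K' F'}

theorem mem_valuationSubringBC_iff {z : F'} :
    z ∈ valuationSubringBC K' F' hv ↔ IsIntegralBC K' F' hv z := Iff.rfl

theorem isUnit_of_isIntegralBC_inv {z : valuationSubringBC K' F' hv} (hz0 : (z : F') ≠ 0)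
    (hz : IsIntegralBC K' F' hv (z : F')⁻¹) : IsUnit z := by
  rw [isUnit_iff_exists_inv]
  exact ⟨⟨(z : F')⁻¹, hz⟩, Subtype.ext (mul_inv_cancel₀ hz0)⟩

theorem isIntegralBC_inv_of_isUnit {z : valuationSubringBC K' F' hv} (hz : IsUnit z) :
    IsIntegralBC K' F' hv (z : F')⁻¹ := by
  obtain ⟨w, hw⟩ := isUnit_iff_exists_inv.mp hz
  have h1 : (z : F') * (w : F') = 1 := congrArg Subtype.val hw
  have h2 : (z : F')⁻¹ = (w : F') := inv_eq_of_mul_eq_one_right h1
  rw [h2]
  exact w.2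

/-- The uniformizer `π` as an element of the extended valuation ring. -/
def piBC (π : v.toValuationSubring) : valuationSubringBC K' F' hv :=
  ⟨algebraMap F F' (π : F), isIntegralBC_algebraMap_of_mem hv π.2⟩

theorem not_isUnit_piBC {π : v.toValuationSubring} (hπ : Irreducible π) :
    ¬ IsUnit (piBC (K' := K') (F' := F') hv π) := by
  intro h
  have h1 := isIntegralBC_inv_of_isUnit hv h
  apply not_isIntegralBC_inv_pi (K' := K') (F' := F') hv hπ 0
  simpa [piBC] using h1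

theorem associated_piBC_pow {π : v.toValuationSubring} (hπ : Irreducible π)
    {z : valuationSubringBC K' F' hv} (hz : z ≠ 0) :
    ∃ n : ℕ, Associated (piBC (K' := K') (F' := F') hv π ^ n) z := by
  have hz0 : (z : F') ≠ 0 := fun h => hz (Subtype.ext h)
  obtain ⟨u, n, hu, hu', hzn⟩ := exists_unit_mul_pow_BC (K' := K') (F' := F') hv hπ z.2 hz0
  have hu0 : u ≠ 0 := by
    intro h
    rw [h, zero_mul] at hzn
    exact hz0 hzn
  have hunit : IsUnit (⟨u, hu⟩ : valuationSubringBC K' F' hv) :=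
    isUnit_of_isIntegralBC_inv hv hu0 hu'
  refine ⟨n, ?_⟩
  obtain ⟨w, hw⟩ := hunit
  refine ⟨w, Subtype.ext ?_⟩
  show ((piBC (K' := K') (F' := F') hv π ^ n * (w : valuationSubringBC K' F' hv) :
    valuationSubringBC K' F' hv) : F') = z
  rw [hw]
  push_cast
  rw [hzn]
  simp [piBC, mul_comm]

theorem irreducible_piBC {π : v.toValuationSubring} (hπ : Irreducible π) :
    Irreducible (piBC (K' := K') (F' := F') hv π) := by
  have hπ0 := algebraMap_pi_ne_zero (F' := F') hπ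
  rw [irreducible_iff]
  refine ⟨not_isUnit_piBC hv hπ, ?_⟩
  intro a b hab
  have hab' : algebraMap F F' (π : F) = (a : F') * (b : F') := congrArg Subtype.val hab
  have ha0 : (a : F') ≠ 0 := by
    intro h
    rw [h, zero_mul] at hab'
    exact hπ0 hab'
  have hb0 : (b : F') ≠ 0 := by
    intro h
    rw [h, mul_zero] at hab'
    exact hπ0 hab'
  obtain ⟨u, m, hu, hu', ham⟩ := exists_unit_mul_pow_BC (K' := K') (F' := F') hv hπ a.2 ha0
  obtain ⟨w, n, hw, hw', hbn⟩ := exists_unit_mul_pow_BC (K' := K') (F' := F') hv hπ b.2 hb0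
  have hu0 : u ≠ 0 := by
    intro h
    rw [h, zero_mul] at ham
    exact ha0 ham
  have hw0 : w ≠ 0 := by
    intro h
    rw [h, zero_mul] at hbn
    exact hb0 hbn
  rcases Nat.eq_zero_or_pos m with hm | hm
  · left
    apply isUnit_of_isIntegralBC_inv hv ha0
    rw [ham, hm, pow_zero, mul_one]
    exact hu'
  rcases Nat.eq_zero_or_pos n with hn | hn
  · right
    apply isUnit_of_isIntegralBC_inv hv hb0
    rw [hbn, hn, pow_zero, mul_one]
    exact hw'
  exfalso
  obtain ⟨j, hj⟩ : ∃ j : ℕ, m + n = j + 2 := ⟨m + n - 2, by omega⟩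
  apply not_isIntegralBC_inv_pi (K' := K') (F' := F') hv hπ j
  have : ((algebraMap F F' (π : F)) ^ (j + 1))⁻¹ = u * w := by
    rw [ham, hbn] at hab'
    have h3 : (algebraMap F F' (π : F)) ^ (j + 1) * (u * w) = 1 := by
      have h4 : algebraMap F F' (π : F) * ((algebraMap F F' (π : F)) ^ (j + 1) * (u * w))
          = algebraMap F F' (π : F) * 1 := by
        rw [mul_one]
        conv_rhs => rw [hab']
        rw [show u * (algebraMap F F') ↑π ^ m * (w * (algebraMap F F') ↑π ^ n)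
          = u * w * (algebraMap F F') ↑π ^ (m + n) by rw [pow_add]; ring, hj]
        ring
      exact mul_left_cancel₀ hπ0 h4
    exact inv_eq_of_mul_eq_one_right h3
  rw [this]
  exact hu.mul hv hw

variable (K' F')

/-- **Base change of a rational place** along a constant field extension. -/
def placeBC : Place K' F' where
  toValuationSubring := valuationSubringBC K' F' hv
  algebraMap_mem' := fun c => isIntegralBC_algebraMap hv c
  ne_top' := by
    intro h
    obtain ⟨π, hπ⟩ := IsDiscreteValuationRing.exists_irreducible v.toValuationSubring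
    apply not_isIntegralBC_inv_pi (K' := K') (F' := F') hv hπ 0
    have : ((algebraMap F F' (π : F)) ^ (0 + 1))⁻¹ ∈ valuationSubringBC K' F' hv := by
      rw [h]
      exact ValuationSubring.mem_top _
    exact this
  isPrincipalIdealRing' := by
    obtain ⟨π, hπ⟩ := IsDiscreteValuationRing.exists_irreducible v.toValuationSubring
    have hfact : IsDiscreteValuationRing.HasUnitMulPowIrreducibleFactorization
        (valuationSubringBC K' F' hv) :=
      ⟨piBC hv π, irreducible_piBC hv hπ, fun hx => associated_piBC_pow hv hπ hx⟩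
    have := IsDiscreteValuationRing.ofHasUnitMulPowIrreducibleFactorization hfact
    infer_instance

variable {K' F'}

@[simp]
theorem placeBC_toValuationSubring :
    (placeBC K' F' hv).toValuationSubring = valuationSubringBC K' F' hv := rfl

end VS

end Fermat.Agent.S29.H871

end
end
-- ===== PACK-END S29/H871/PlaceBC.lean

-- ===== PACK-BEGIN S38/H719/UqCrossR.lean
section



/-!
# HARD / HECKE + S59 AUT leaf CTRL: cross-level commutation of `U_{q'}` with `r₁`, `r₂` (helper719)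

Levels `N` and `N q`, `q' ∣ N` a prime, `r₁, r₂ : Hom(Γ₀(N), A) → Hom(Γ₀(N q), A)` the degeneracy
maps of row S41.

* `Uq_r₁` : `U_{q'} (r₁ φ) = r₁ (U_{q'} φ)` (any `q`);
* `Uq_r₂` : `U_{q'} (r₂ φ) = r₂ (U_{q'} φ)` (`q` prime to `q'`).

Together with `Uq_t₁`, `Uq_t₂` (`UqCross.lean`): `U_{q'}` commutes with all four degeneracy maps at `q`.
-/

set_option autoImplicit false

namespace Fermat.Agent.S38.H719

open CongruenceSubgroup Matrix.SpecialLinearGroup ModularForm
open Fermat.Agent.S29.H642 Fermat.Agent.S41.Spec Fermat.Agent.S41.H761 Fermat.Agent.S59.H105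
open P2MW.S_ModularForm_heckeT_slash_eq_self_of_mem_Gamma0.ModularForm.HeckeSlashInvariance
open scoped MatrixGroups

variable {N q q' : ℕ} [Fact q'.Prime] {A : Type*} [AddCommGroup A]

/-- `U_{q'} r₁ = r₁ U_{q'}` for `q' ∣ N`. -/
theorem Uq_r₁ (hq' : q' ∣ N) (hq'' : q' ∣ N * q) (φ : Additive (Gamma0 N) →+ A) :
    Uq hq'' (r₁ N q φ) = r₁ N q (Uq hq' φ) := by
  have hd : ∀ g' : Gamma0 (N * q), (1 : GL (Fin 2) ℝ) * ιN (N * q) g' =
      ιN N (incl N q g') * 1 := fun g' => by rw [one_mul, mul_one]; rfl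
  have s1 := IsCosetSystem.single (ι' := ιN (N * q)) (ιN_injective N) (incl N q) 1 hd
  have hr : ∀ ψ : Additive (Gamma0 N) →+ A, r₁ N q ψ = s1.transfer ψ := fun ψ =>
    (IsCosetSystem.single_transfer (ι' := ιN (N * q)) (ιN_injective N) (incl N q) 1 hd ψ).symm
  have famL := s1.prod (uqSystem (M := N * q) hq'') (by
    intro i i' j j' g e
    refine ⟨rfl, ?_⟩
    rw [one_mul, one_mul] at e
    exact (uqSystem hq').eq_of_mul j j' g e)
  have famR := (uqSystem (M := N) hq').prod s1 (by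
    intro j j' i i' g e
    refine ⟨?_, rfl⟩
    rw [mul_one, mul_one] at e
    exact (uqSystem hq').eq_of_mul j j' g e)
  show (uqSystem hq'').transfer (r₁ N q φ) = r₁ N q ((uqSystem hq').transfer φ)
  rw [hr, hr, IsCosetSystem.transfer_comp s1 (uqSystem hq'') famL,
    IsCosetSystem.transfer_comp (uqSystem hq') s1 famR]
  refine IsCosetSystem.transfer_eq_of_le_of_card famL famR ?_ ?_ φ
  · rw [Fintype.card_prod, Fintype.card_prod, mul_comm]
  · rintro ⟨i, j⟩
    exact ⟨(j, i), 1, by simp⟩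

/-- `U_{q'} r₂ = r₂ U_{q'}` for `q' ∣ N`, `q` prime to `q'`. -/
theorem Uq_r₂ (hq0 : q ≠ 0) (hcop : Nat.Coprime q q') (hq' : q' ∣ N) (hq'' : q' ∣ N * q)
    (φ : Additive (Gamma0 N) →+ A) :
    Uq hq'' (r₂ N q φ) = r₂ N q (Uq hq' φ) := by
  have hq'0 : q' ≠ 0 := (Fact.out : q'.Prime).ne_zero
  have s2 := IsCosetSystem.single (ι' := ιN (N * q)) (ιN_injective N) (conjDelta N q)
    (heckeDiagMatrix q) (diag_rel hq0)
  have hr : ∀ ψ : Additive (Gamma0 N) →+ A, r₂ N q ψ = s2.transfer ψ := fun ψ =>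
    (IsCosetSystem.single_transfer (ι' := ιN (N * q)) (ιN_injective N) (conjDelta N q)
      (heckeDiagMatrix q) (diag_rel hq0) ψ).symm
  have famL := s2.prod (uqSystem (M := N * q) hq'') (by
    intro i i' j j' g e
    refine ⟨rfl, ?_⟩
    -- `d ρ_j = g d ρ_j'` forces `q (j - j') = g₀₁ q'`
    have e00 := congrArg (fun M : GL (Fin 2) ℝ => (M : Matrix (Fin 2) (Fin 2) ℝ) 0 0) e
    have e01 := congrArg (fun M : GL (Fin 2) ℝ => (M : Matrix (Fin 2) (Fin 2) ℝ) 0 1) e
    simp only [coe_mul_apply, coe_ιN_apply, coe_uqRep, val_heckeDiagMatrix hq0, Matrix.of_apply,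
      Matrix.cons_val', Matrix.cons_val_zero, Matrix.cons_val_one, Matrix.cons_val_fin_one,
      mul_zero, add_zero, mul_one, zero_mul, zero_add] at e00 e01
    have hq0' : (q : ℝ) ≠ 0 := by exact_mod_cast hq0
    have h00 : (((g : SL(2, ℤ)) 0 0 : ℤ) : ℝ) = 1 := by
      have : (((g : SL(2, ℤ)) 0 0 : ℤ) : ℝ) * q = 1 * q := by rw [one_mul]; linarith
      exact mul_right_cancel₀ hq0' this
    rw [h00] at e01
    have key : (q : ℤ) * ((j.val : ℤ) - (j'.val : ℤ)) = (g : SL(2, ℤ)) 0 1 * (q' : ℤ) := by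
      have : ((q : ℝ) * ((j.val : ℝ) - (j'.val : ℝ))) =
          (((g : SL(2, ℤ)) 0 1 : ℤ) : ℝ) * (q' : ℝ) := by linarith
      exact_mod_cast this
    have hcop' : IsCoprime (q' : ℤ) (q : ℤ) := by
      rw [Int.isCoprime_iff_gcd_eq_one, Int.gcd_natCast_natCast]
      exact hcop.symm
    have hdvd : (q' : ℤ) ∣ (j.val : ℤ) - (j'.val : ℤ) :=
      hcop'.dvd_of_dvd_mul_left ⟨_, by rw [key]; ring⟩
    have hz : ((j.val : ℤ) : ZMod q') = ((j'.val : ℤ) : ZMod q') := by
      rw [← sub_eq_zero, ← Int.cast_sub]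
      exact (ZMod.intCast_zmod_eq_zero_iff_dvd _ _).mpr hdvd
    simpa using hz)
  have famR := (uqSystem (M := N) hq').prod s2 (by
    intro j j' i i' g e
    refine ⟨?_, rfl⟩
    have e2 : uqRep q' j = ιN N g * uqRep q' j' := by
      have := mul_right_cancel (e.trans (mul_assoc _ _ _).symm)
      exact this
    exact (uqSystem hq').eq_of_mul j j' g e2)
  show (uqSystem hq'').transfer (r₂ N q φ) = r₂ N q ((uqSystem hq').transfer φ)
  rw [hr, hr, IsCosetSystem.transfer_comp s2 (uqSystem hq'') famL,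
    IsCosetSystem.transfer_comp (uqSystem hq') s2 famR]
  refine IsCosetSystem.transfer_eq_of_le_of_card famL famR ?_ ?_ φ
  · rw [Fintype.card_prod, Fintype.card_prod, mul_comm]
  · rintro ⟨i, j⟩
    obtain ⟨u, j₁, hu⟩ := diag_conj_uqRep (N := N) hq0 j
    refine ⟨(j₁, i), u, ?_⟩
    show heckeDiagMatrix q * uqRep q' j = ιN N u * (uqRep q' j₁ * heckeDiagMatrix q)
    rw [← mul_assoc, ← hu, inv_mul_cancel_right]

end Fermat.Agent.S38.H719

end
-- ===== PACK-END S38/H719/UqCrossR.lean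

-- ===== PACK-BEGIN S59/H105/LocBridge.lean
section






/-!
# Row S59, cell TW, leaf CTRL (helper105): from `Aut.IsLocPart` to the abstract lemmas

* `TKL`, `UKL` : `T_ℓ`, `U_q` of helper653 as `𝒪`-linear maps of `X_K(𝒪) = Hom(K, 𝒪)`;
* `xk_torsionFree`, `xk_sep`, `xk_isNoetherian_end` : `X_K(𝒪)` is torsion-free, separated, and
  its endomorphisms form a noetherian module;
* `exists_uniformizer` ; `isLocPart_data`, `isLocPart_nilpT`, `isLocPart_nilpU` : the content of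
  `Aut.IsLocPart` in the form used by `nat_loc` / `ctrl_loc`.
-/

set_option autoImplicit false

namespace Fermat.Agent.S59.H105

open IsLocalRing CongruenceSubgroup
open Fermat.Agent.S59.TW.H653 Fermat.Agent.S59.TW.Aut
open scoped MatrixGroups

section Lin

variable {M : ℕ} {K : Subgroup SL(2, ℤ)} (hK : IsMid M K) (𝒪 : Type) [CommRing 𝒪]

theorem smul_eq_mulLeft_comp {G : Type*} [AddMonoid G] (a : 𝒪) (φ : G →+ 𝒪) :
    a • φ = (AddMonoidHom.mulLeft a).comp φ := by
  ext h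
  rfl

/-- `T_ℓ` on `X_K(𝒪)`, linear. -/
noncomputable def TKL {ℓ : ℕ} [Fact ℓ.Prime] (hℓ : ¬ ℓ ∣ M) :
    (Additive K →+ 𝒪) →ₗ[𝒪] (Additive K →+ 𝒪) where
  toFun φ := TK M K ℓ φ
  map_add' := TK_add hK hℓ
  map_smul' a φ := by
    rw [RingHom.id_apply, smul_eq_mulLeft_comp, smul_eq_mulLeft_comp]
    exact TK_comp hK hℓ _ φ

/-- `U_q` on `X_K(𝒪)`, linear. -/
noncomputable def UKL {q : ℕ} [Fact q.Prime] (hq : q ∣ M) :
    (Additive K →+ 𝒪) →ₗ[𝒪] (Additive K →+ 𝒪) where
  toFun φ := UK K q φ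
  map_add' := UK_add hK hq
  map_smul' a φ := by
    rw [RingHom.id_apply, smul_eq_mulLeft_comp, smul_eq_mulLeft_comp]
    exact UK_comp hK hq _ φ

@[simp] theorem TKL_apply {ℓ : ℕ} [Fact ℓ.Prime] (hℓ : ¬ ℓ ∣ M) (φ : Additive K →+ 𝒪) :
    TKL hK 𝒪 hℓ φ = TK M K ℓ φ := rfl

@[simp] theorem UKL_apply {q : ℕ} [Fact q.Prime] (hq : q ∣ M) (φ : Additive K →+ 𝒪) :
    UKL hK 𝒪 hq φ = UK K q φ := rfl

/-- `f - c`. -/
def shiftE {X : Type*} [AddCommGroup X] [Module 𝒪 X] (f : X →ₗ[𝒪] X) (c : 𝒪) : X →ₗ[𝒪] X :=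
  f - c • (1 : X →ₗ[𝒪] X)

variable {𝒪}

@[simp] theorem shiftE_apply {X : Type*} [AddCommGroup X] [Module 𝒪 X] (f : X →ₗ[𝒪] X) (c : 𝒪)
    (x : X) : shiftE 𝒪 f c x = f x - c • x := rfl

theorem shiftE_comm {X : Type*} [AddCommGroup X] [Module 𝒪 X] (f g : X →ₗ[𝒪] X) (c d : 𝒪)
    (h : ∀ x, f (g x) = g (f x)) (x : X) :
    shiftE 𝒪 f c (shiftE 𝒪 g d x) = shiftE 𝒪 g d (shiftE 𝒪 f c x) := by
  simp only [shiftE_apply, map_sub, map_smul, h, smul_sub]
  rw [smul_comm d c x]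
  abel

theorem shiftE_pow_apply {X : Type*} [AddCommGroup X] [Module 𝒪 X] (f : X →ₗ[𝒪] X) (c : 𝒪)
    (m : ℕ) (x : X) : (shiftE 𝒪 f c ^ m) x = (fun y => f y - c • y)^[m] x := by
  rw [Module.End.pow_apply]
  rfl

end Lin

section Facts

variable {𝒪 : Type} [CommRing 𝒪] [IsDomain 𝒪] [IsDiscreteValuationRing 𝒪]

theorem exists_uniformizer (𝒪 : Type) [CommRing 𝒪] [IsDomain 𝒪] [IsDiscreteValuationRing 𝒪] :
    ∃ ϖ : 𝒪, ϖ ≠ 0 ∧ maximalIdeal 𝒪 = Ideal.span {ϖ} := by
  obtain ⟨ϖ, hϖ⟩ := IsDiscreteValuationRing.exists_irreducible 𝒪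
  exact ⟨ϖ, hϖ.ne_zero, hϖ.maximalIdeal_eq⟩

theorem xk_torsionFree {G : Type*} [AddMonoid G] {ϖ : 𝒪} (hϖ0 : ϖ ≠ 0) (φ : G →+ 𝒪)
    (h : ϖ • φ = 0) : φ = 0 := by
  refine AddMonoidHom.ext fun g => ?_
  have h1 : ϖ * φ g = 0 := by
    have := congrArg (fun ψ : G →+ 𝒪 => ψ g) h
    simpa using this
  rcases mul_eq_zero.mp h1 with h2 | h2
  · exact absurd h2 hϖ0
  · exact h2

theorem o_sep [IsAdicComplete (maximalIdeal 𝒪) 𝒪] {ϖ : 𝒪}
    (hϖ : maximalIdeal 𝒪 = Ideal.span {ϖ}) (x : 𝒪) (h : ∀ n : ℕ, ∃ z : 𝒪, x = ϖ ^ n • z) :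
    x = 0 := by
  apply IsHausdorff.haus (‹IsAdicComplete (maximalIdeal 𝒪) 𝒪›).toIsHausdorff x
  intro n
  rw [SModEq.sub_mem, sub_zero, hϖ, Ideal.span_singleton_pow, smul_eq_mul, Ideal.mul_top,
    Ideal.mem_span_singleton]
  obtain ⟨z, rfl⟩ := h n
  exact Dvd.intro _ rfl

theorem xk_sep [IsAdicComplete (maximalIdeal 𝒪) 𝒪] {G : Type*} [AddMonoid G] {ϖ : 𝒪}
    (hϖ : maximalIdeal 𝒪 = Ideal.span {ϖ}) (φ : G →+ 𝒪)
    (h : ∀ n : ℕ, ∃ ψ : G →+ 𝒪, φ = ϖ ^ n • ψ) : φ = 0 := by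
  refine AddMonoidHom.ext fun g => o_sep hϖ _ fun n => ?_
  obtain ⟨ψ, rfl⟩ := h n
  exact ⟨ψ g, rfl⟩

theorem finiteIndex_of_isMid {M : ℕ} (hM : M ≠ 0) {K : Subgroup SL(2, ℤ)} (hK : IsMid M K) :
    K.FiniteIndex := by
  haveI : NeZero M := ⟨hM⟩
  exact Subgroup.finiteIndex_of_le hK.ge

theorem xk_finite_free {M : ℕ} (hM : M ≠ 0) {K : Subgroup SL(2, ℤ)} (hK : IsMid M K)
    (V : Submodule 𝒪 (Additive K →+ 𝒪)) : Module.Finite 𝒪 V ∧ Module.Free 𝒪 V := by
  haveI := finiteIndex_of_isMid hM hK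
  exact MFree.H761.finite_free_submodule K V

theorem xk_finite_free_top {M : ℕ} (hM : M ≠ 0) {K : Subgroup SL(2, ℤ)} (hK : IsMid M K) :
    Module.Finite 𝒪 (Additive K →+ 𝒪) ∧ Module.Free 𝒪 (Additive K →+ 𝒪) := by
  obtain ⟨h1, h2⟩ := xk_finite_free (𝒪 := 𝒪) hM hK ⊤
  exact ⟨Module.Finite.equiv (Submodule.topEquiv (R := 𝒪) (M := Additive K →+ 𝒪)),
    Module.Free.of_equiv (Submodule.topEquiv (R := 𝒪) (M := Additive K →+ 𝒪))⟩

theorem xk_isNoetherian_end {M : ℕ} (hM : M ≠ 0) {K : Subgroup SL(2, ℤ)} (hK : IsMid M K) :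
    IsNoetherian 𝒪 ((Additive K →+ 𝒪) →ₗ[𝒪] (Additive K →+ 𝒪)) := by
  obtain ⟨h1, h2⟩ := xk_finite_free_top (𝒪 := 𝒪) hM hK
  exact isNoetherian_of_isNoetherianRing_of_finite 𝒪
    ((Additive K →+ 𝒪) →ₗ[𝒪] (Additive K →+ 𝒪))

end Facts

section Data

variable {M : ℕ} {K : Subgroup SL(2, ℤ)} (hK : IsMid M K)
  {𝒪 : Type} [CommRing 𝒪] [IsLocalRing 𝒪]

theorem mem_mX_iff {ϖ : 𝒪} (hϖ : maximalIdeal 𝒪 = Ideal.span {ϖ}) (x : Additive K →+ 𝒪) :
    x ∈ mX K 𝒪 ↔ ∃ z : Additive K →+ 𝒪, x = ϖ • z := by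
  unfold mX
  rw [← divSub_eq_smul_top ϖ hϖ, mem_divSub]

/-- The projector of a localisation, with its properties in linear form. -/
theorem isLocPart_data {Tset Uset : Set (ℕ × 𝒪)} {V : Submodule 𝒪 (Additive K →+ 𝒪)}
    (h : IsLocPart hK Tset Uset V) {ϖ : 𝒪} (hϖ : maximalIdeal 𝒪 = Ideal.span {ϖ}) :
    ∃ e : (Additive K →+ 𝒪) →ₗ[𝒪] (Additive K →+ 𝒪),
      (∀ x, e (e x) = e x) ∧ (∀ x, e x ∈ V) ∧ (∀ x ∈ V, e x = x) ∧
      (∀ (ℓ : ℕ) [Fact ℓ.Prime] (hℓ : ¬ ℓ ∣ M) (x : Additive K →+ 𝒪),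
        e (TKL hK 𝒪 hℓ x) = TKL hK 𝒪 hℓ (e x)) ∧
      (∀ (q : ℕ) [Fact q.Prime] (hq : q ∣ M) (x : Additive K →+ 𝒪),
        e (UKL hK 𝒪 hq x) = UKL hK 𝒪 hq (e x)) ∧
      ∀ x, e x = 0 →
        (∀ (ℓ : ℕ) [Fact ℓ.Prime] (c : 𝒪), (ℓ, c) ∈ Tset →
          ∃ z : Additive K →+ 𝒪, TK M K ℓ x - c • x = ϖ • z) →
        (∀ (q : ℕ) [Fact q.Prime] (α : 𝒪), (q, α) ∈ Uset →
          ∃ z : Additive K →+ 𝒪, UK K q x - α • x = ϖ • z) →
        ∃ z : Additive K →+ 𝒪, x = ϖ • z := by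
  obtain ⟨e, h1, h2, h3, h4, h5, _, h7⟩ := h.exists_proj
  refine ⟨e, h1, h2, h3, fun ℓ _ hℓ x => h4 ℓ hℓ x, fun q _ hq x => h5 q hq x, ?_⟩
  intro x hx hT hU
  rw [← mem_mX_iff hϖ]
  refine h7 x hx ?_ ?_
  · intro ℓ _ c hc
    rw [mem_mX_iff hϖ]
    exact hT ℓ c hc
  · intro q _ α hα
    rw [mem_mX_iff hϖ]
    exact hU q α hα

/-- Saturation of the image of a projector. -/
theorem exists_mem_of_eq_smul {X : Type*} [AddCommGroup X] [Module 𝒪 X] {V : Submodule 𝒪 X}
    (e : X →ₗ[𝒪] X) (h2 : ∀ x, e x ∈ V) (h3 : ∀ x ∈ V, e x = x) {ϖ : 𝒪} {x z : X}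
    (hx : x ∈ V) (hz : x = ϖ • z) : ∃ z' ∈ V, x = ϖ • z' :=
  ⟨e z, h2 z, by rw [← map_smul, ← hz, h3 x hx]⟩

theorem isLocPart_nilpT {Tset Uset : Set (ℕ × 𝒪)} {V : Submodule 𝒪 (Additive K →+ 𝒪)}
    (h : IsLocPart hK Tset Uset V) {ϖ : 𝒪} (hϖ : maximalIdeal 𝒪 = Ideal.span {ϖ})
    {ℓ : ℕ} [Fact ℓ.Prime] (hℓ : ¬ ℓ ∣ M) {c : 𝒪} (hc : (ℓ, c) ∈ Tset) :
    ∃ m : ℕ, ∀ x ∈ V, ∃ z ∈ V, (shiftE 𝒪 (TKL hK 𝒪 hℓ) c ^ m) x = ϖ • z := by
  obtain ⟨e, h1, h2, h3, h4, h5, _⟩ := isLocPart_data hK h hϖ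
  obtain ⟨m, hm⟩ := h.nilp_T ℓ c hc
  refine ⟨m, fun x hx => ?_⟩
  have hmem : (shiftE 𝒪 (TKL hK 𝒪 hℓ) c ^ m) x ∈ V := by
    apply pow_mem_of_mem _ V _ m x hx
    intro y hy
    rw [shiftE_apply]
    refine V.sub_mem ?_ (V.smul_mem c hy)
    rw [← h3 y hy, ← h4 ℓ hℓ]
    exact h2 _
  obtain ⟨z, hz⟩ := (mem_mX_iff hϖ _).mp (hm x hx)
  exact exists_mem_of_eq_smul e h2 h3 hmem (by rw [shiftE_pow_apply]; exact hz)

theorem isLocPart_nilpU {Tset Uset : Set (ℕ × 𝒪)} {V : Submodule 𝒪 (Additive K →+ 𝒪)}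
    (h : IsLocPart hK Tset Uset V) {ϖ : 𝒪} (hϖ : maximalIdeal 𝒪 = Ideal.span {ϖ})
    {q : ℕ} [Fact q.Prime] (hq : q ∣ M) {α : 𝒪} (hα : (q, α) ∈ Uset) :
    ∃ m : ℕ, ∀ x ∈ V, ∃ z ∈ V, (shiftE 𝒪 (UKL hK 𝒪 hq) α ^ m) x = ϖ • z := by
  obtain ⟨e, h1, h2, h3, h4, h5, _⟩ := isLocPart_data hK h hϖ
  obtain ⟨m, hm⟩ := h.nilp_U q α hα
  refine ⟨m, fun x hx => ?_⟩
  have hmem : (shiftE 𝒪 (UKL hK 𝒪 hq) α ^ m) x ∈ V := by
    apply pow_mem_of_mem _ V _ m x hx
    intro y hy
    rw [shiftE_apply]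
    refine V.sub_mem ?_ (V.smul_mem α hy)
    rw [← h3 y hy, ← h5 q hq]
    exact h2 _
  obtain ⟨z, hz⟩ := (mem_mX_iff hϖ _).mp (hm x hx)
  exact exists_mem_of_eq_smul e h2 h3 hmem (by rw [shiftE_pow_apply]; exact hz)

end Data

end Fermat.Agent.S59.H105

end
-- ===== PACK-END S59/H105/LocBridge.lean

-- ===== PACK-BEGIN S59/TW/H653/Bdry/Core.lean
section





/-!
# S59 / TW-HECKE (helper653), block BDRY: the representatives of `T_l` and a unipotent element

`l` prime, `M ∣ l - 1`, `K` between `Γ₁(M)` and `Γ₀(M)`, `γ = uni τ h = τ * tz h * τ⁻¹`.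
`zP τ l = τ * [[l,0],[0,1]] * τ⁻¹` and `zM τ l α = τ * [[1,α],[0,l]] * τ⁻¹` (`M ∣ α`) are integral,
`≡ 1 mod M`, and `zP * γ = γ ^ l * zP`, `zM * γ ^ l = γ * zM`.

* `rep_dichotomy` : every integral normalised matrix `X` of determinant `l` is `k * zP` or
  `k * zM α` with `k ∈ K`;
* `act_coc_of_zP`, `act_coc_of_zM`, `act_ne_of_zM` : the consequences for a coset system.
-/

set_option autoImplicit false

namespace Fermat.Agent.S59.TW.H653.Bdry

open CongruenceSubgroup Matrix.SpecialLinearGroup ModularCurve.Period ModularForm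
open Fermat.Agent.S29.H642 Fermat.Agent.S41.H761 Fermat.Agent.S59.TW.H653
open P2MW.S_ModularForm_heckeT_slash_eq_self_of_mem_Gamma0.ModularForm.HeckeSlashInvariance
open scoped MatrixGroups

/-! ## Elements of `GL(2, ℝ)` with integral entries -/

/-- `X ∈ GL(2, ℝ)` has the integral entries `x`. -/
def IsInt (X : GL (Fin 2) ℝ) (x : Matrix (Fin 2) (Fin 2) ℤ) : Prop :=
  ∀ i j, (X : Matrix (Fin 2) (Fin 2) ℝ) i j = ((x i j : ℤ) : ℝ)

theorem isInt_mapGL (g : SL(2, ℤ)) : IsInt (mapGL ℝ g) (g : Matrix (Fin 2) (Fin 2) ℤ) :=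
  fun i j => coe_mapGL_apply g i j

theorem IsInt.mul {X Y : GL (Fin 2) ℝ} {x y : Matrix (Fin 2) (Fin 2) ℤ} (hX : IsInt X x)
    (hY : IsInt Y y) : IsInt (X * Y) (x * y) :=
  fun i j => coe_mul_int hX hY i j

theorem IsInt.eq {X Y : GL (Fin 2) ℝ} {x y : Matrix (Fin 2) (Fin 2) ℤ} (hX : IsInt X x)
    (hY : IsInt Y y) (e : x = y) : X = Y := by
  subst e
  exact gl_ext ((hX 0 0).trans (hY 0 0).symm) ((hX 0 1).trans (hY 0 1).symm)
    ((hX 1 0).trans (hY 1 0).symm) ((hX 1 1).trans (hY 1 1).symm)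

theorem IsInt.inj {X Y : GL (Fin 2) ℝ} {x y : Matrix (Fin 2) (Fin 2) ℤ} (hX : IsInt X x)
    (hY : IsInt Y y) (e : X = Y) : x = y := by
  subst e
  ext i j
  have := (hX i j).symm.trans (hY i j)
  exact_mod_cast this

theorem isInt_heckeDiag {l : ℕ} (hl : l ≠ 0) :
    IsInt (heckeDiagMatrix l) !![(l : ℤ), 0; 0, 1] := by
  intro i j
  rw [val_heckeDiagMatrix hl]
  fin_cases i <;> fin_cases j <;> simp

theorem isInt_heckeMatrix {l : ℕ} (hl : l ≠ 0) (α : ℕ) :
    IsInt (heckeMatrix l α) !![1, (α : ℤ); 0, (l : ℤ)] := by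
  intro i j
  rw [val_heckeMatrix hl]
  fin_cases i <;> fin_cases j <;> simp

/-! ## The matrices `zP`, `zM` -/

/-- `τ * [[l,0],[0,1]] * τ⁻¹`. -/
noncomputable def zP (τ : SL(2, ℤ)) (l : ℕ) : GL (Fin 2) ℝ :=
  mapGL ℝ τ * heckeDiagMatrix l * mapGL ℝ τ⁻¹

/-- `τ * [[1,α],[0,l]] * τ⁻¹`. -/
noncomputable def zM (τ : SL(2, ℤ)) (l α : ℕ) : GL (Fin 2) ℝ :=
  mapGL ℝ τ * heckeMatrix l α * mapGL ℝ τ⁻¹

variable {M : ℕ} {l : ℕ}

theorem isInt_zP (τ : SL(2, ℤ)) (hl : l ≠ 0) :
    IsInt (zP τ l) ((τ : Matrix (Fin 2) (Fin 2) ℤ) * !![(l : ℤ), 0; 0, 1] *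
      ((τ⁻¹ : SL(2, ℤ)) : Matrix (Fin 2) (Fin 2) ℤ)) :=
  ((isInt_mapGL τ).mul (isInt_heckeDiag hl)).mul (isInt_mapGL τ⁻¹)

theorem isInt_zM (τ : SL(2, ℤ)) (hl : l ≠ 0) (α : ℕ) :
    IsInt (zM τ l α) ((τ : Matrix (Fin 2) (Fin 2) ℤ) * !![1, (α : ℤ); 0, (l : ℤ)] *
      ((τ⁻¹ : SL(2, ℤ)) : Matrix (Fin 2) (Fin 2) ℤ)) :=
  ((isInt_mapGL τ).mul (isInt_heckeMatrix hl α)).mul (isInt_mapGL τ⁻¹)

theorem isNormRep_of_isInt {X : GL (Fin 2) ℝ} {x : Matrix (Fin 2) (Fin 2) ℤ} (hX : IsInt X x)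
    (h1 : (M : ℤ) ∣ x 1 0) (h2 : (M : ℤ) ∣ x 0 0 - 1) : IsNormRep M X := by
  refine ⟨x 0 0, x 0 1, x 1 0, x 1 1, h1, h2, ?_⟩
  ext i j
  fin_cases i <;> fin_cases j <;> simp [hX _ _]

theorem isNormRep_zP (τ : SL(2, ℤ)) (hl : l ≠ 0) (hM : (M : ℤ) ∣ (l : ℤ) - 1) :
    IsNormRep M (zP τ l) := by
  refine isNormRep_of_isInt (isInt_zP τ hl) ?_ ?_
  · rw [conj_diag]
    simp only [Matrix.of_apply, Matrix.cons_val', Matrix.cons_val_zero, Matrix.cons_val_one,
      Matrix.cons_val_fin_one]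
    exact Dvd.dvd.mul_right hM _
  · rw [conj_diag]
    simp only [Matrix.of_apply, Matrix.cons_val', Matrix.cons_val_zero, Matrix.cons_val_one,
      Matrix.cons_val_fin_one]
    rw [add_sub_cancel_left]
    exact Dvd.dvd.mul_right hM _

theorem isNormRep_zM (τ : SL(2, ℤ)) (hl : l ≠ 0) (hM : (M : ℤ) ∣ (l : ℤ) - 1) {α : ℕ}
    (hα : M ∣ α) : IsNormRep M (zM τ l α) := by
  have hα' : (M : ℤ) ∣ (α : ℤ) := by exact_mod_cast hα
  refine isNormRep_of_isInt (isInt_zM τ hl α) ?_ ?_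
  · rw [conj_upper]
    simp only [Matrix.of_apply, Matrix.cons_val', Matrix.cons_val_zero, Matrix.cons_val_one,
      Matrix.cons_val_fin_one]
    exact dvd_sub (Dvd.dvd.neg_right (Dvd.dvd.mul_right hα' _)) (Dvd.dvd.mul_right hM _)
  · rw [conj_upper]
    simp only [Matrix.of_apply, Matrix.cons_val', Matrix.cons_val_zero, Matrix.cons_val_one,
      Matrix.cons_val_fin_one]
    have : (1 : ℤ) - (α : ℤ) * (τ 0 0 * τ 1 0) - ((l : ℤ) - 1) * (τ 0 1 * τ 1 0) - 1 =
        -((α : ℤ) * (τ 0 0 * τ 1 0)) - ((l : ℤ) - 1) * (τ 0 1 * τ 1 0) := by ring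
    rw [this]
    exact dvd_sub (Dvd.dvd.neg_right (Dvd.dvd.mul_right hα' _)) (Dvd.dvd.mul_right hM _)

theorem mapGL_uni (τ : SL(2, ℤ)) (h : ℤ) :
    mapGL ℝ (uni τ h) = mapGL ℝ τ * mapGL ℝ (tz h) * mapGL ℝ τ⁻¹ := by
  unfold uni
  rw [map_mul, map_mul]

theorem mapGL_inv_mul (τ : SL(2, ℤ)) : mapGL ℝ τ⁻¹ * mapGL ℝ τ = 1 := by
  rw [← map_mul, inv_mul_cancel, map_one]

theorem heckeDiag_mul_tz (hl : l ≠ 0) (h : ℤ) :
    heckeDiagMatrix l * mapGL ℝ (tz h) = mapGL ℝ (tz ((l : ℤ) * h)) * heckeDiagMatrix l :=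
  ((isInt_heckeDiag hl).mul (isInt_mapGL _)).eq ((isInt_mapGL _).mul (isInt_heckeDiag hl))
    (diag_mul_tz _ _)

theorem heckeMatrix_mul_tz (hl : l ≠ 0) (α : ℕ) (h : ℤ) :
    heckeMatrix l α * mapGL ℝ (tz ((l : ℤ) * h)) = mapGL ℝ (tz h) * heckeMatrix l α :=
  ((isInt_heckeMatrix hl α).mul (isInt_mapGL _)).eq ((isInt_mapGL _).mul (isInt_heckeMatrix hl α))
    (upper_mul_tz _ _ _)

/-- `zP * γ = γ ^ l * zP`. -/
theorem zP_mul_uni (τ : SL(2, ℤ)) (hl : l ≠ 0) (h : ℤ) :
    zP τ l * mapGL ℝ (uni τ h) = mapGL ℝ (uni τ ((l : ℤ) * h)) * zP τ l := by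
  unfold zP
  rw [mapGL_uni, mapGL_uni]
  calc mapGL ℝ τ * heckeDiagMatrix l * mapGL ℝ τ⁻¹ * (mapGL ℝ τ * mapGL ℝ (tz h) * mapGL ℝ τ⁻¹)
      = mapGL ℝ τ * (heckeDiagMatrix l * ((mapGL ℝ τ⁻¹ * mapGL ℝ τ) * mapGL ℝ (tz h))) *
          mapGL ℝ τ⁻¹ := by simp only [mul_assoc]
    _ = mapGL ℝ τ * (heckeDiagMatrix l * mapGL ℝ (tz h)) * mapGL ℝ τ⁻¹ := by
        rw [mapGL_inv_mul, one_mul]
    _ = mapGL ℝ τ * (mapGL ℝ (tz ((l : ℤ) * h)) * heckeDiagMatrix l) * mapGL ℝ τ⁻¹ := by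
        rw [heckeDiag_mul_tz hl]
    _ = mapGL ℝ τ * (mapGL ℝ (tz ((l : ℤ) * h)) * ((mapGL ℝ τ⁻¹ * mapGL ℝ τ) *
          heckeDiagMatrix l)) * mapGL ℝ τ⁻¹ := by rw [mapGL_inv_mul, one_mul]
    _ = mapGL ℝ τ * mapGL ℝ (tz ((l : ℤ) * h)) * mapGL ℝ τ⁻¹ *
          (mapGL ℝ τ * heckeDiagMatrix l * mapGL ℝ τ⁻¹) := by simp only [mul_assoc]

/-- `zM * γ ^ l = γ * zM`. -/
theorem zM_mul_uni (τ : SL(2, ℤ)) (hl : l ≠ 0) (α : ℕ) (h : ℤ) :
    zM τ l α * mapGL ℝ (uni τ ((l : ℤ) * h)) = mapGL ℝ (uni τ h) * zM τ l α := by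
  unfold zM
  rw [mapGL_uni, mapGL_uni]
  calc mapGL ℝ τ * heckeMatrix l α * mapGL ℝ τ⁻¹ *
        (mapGL ℝ τ * mapGL ℝ (tz ((l : ℤ) * h)) * mapGL ℝ τ⁻¹)
      = mapGL ℝ τ * (heckeMatrix l α * ((mapGL ℝ τ⁻¹ * mapGL ℝ τ) *
          mapGL ℝ (tz ((l : ℤ) * h)))) * mapGL ℝ τ⁻¹ := by simp only [mul_assoc]
    _ = mapGL ℝ τ * (heckeMatrix l α * mapGL ℝ (tz ((l : ℤ) * h))) * mapGL ℝ τ⁻¹ := by
        rw [mapGL_inv_mul, one_mul]
    _ = mapGL ℝ τ * (mapGL ℝ (tz h) * heckeMatrix l α) * mapGL ℝ τ⁻¹ := by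
        rw [heckeMatrix_mul_tz hl]
    _ = mapGL ℝ τ * (mapGL ℝ (tz h) * ((mapGL ℝ τ⁻¹ * mapGL ℝ τ) *
          heckeMatrix l α)) * mapGL ℝ τ⁻¹ := by rw [mapGL_inv_mul, one_mul]
    _ = mapGL ℝ τ * mapGL ℝ (tz h) * mapGL ℝ τ⁻¹ *
          (mapGL ℝ τ * heckeMatrix l α * mapGL ℝ τ⁻¹) := by simp only [mul_assoc]

/-- If `zM * γ = c * zM` with `c ∈ SL(2, ℤ)`, then `l ∣ h`. -/
theorem dvd_of_zM_mul_uni (τ : SL(2, ℤ)) (hl : l ≠ 0) (α : ℕ) (h : ℤ) (c : SL(2, ℤ))
    (e : zM τ l α * mapGL ℝ (uni τ h) = mapGL ℝ c * zM τ l α) : (l : ℤ) ∣ h := by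
  -- `heckeMatrix * tz h = (τ⁻¹ c τ) * heckeMatrix`
  have e2 : heckeMatrix l α * mapGL ℝ (tz h) = mapGL ℝ (τ⁻¹ * c * τ) * heckeMatrix l α := by
    unfold zM at e
    rw [mapGL_uni] at e
    have h1 : mapGL ℝ τ * heckeMatrix l α * mapGL ℝ τ⁻¹ *
        (mapGL ℝ τ * mapGL ℝ (tz h) * mapGL ℝ τ⁻¹) =
        mapGL ℝ τ * (heckeMatrix l α * mapGL ℝ (tz h)) * mapGL ℝ τ⁻¹ := by
      calc mapGL ℝ τ * heckeMatrix l α * mapGL ℝ τ⁻¹ *
            (mapGL ℝ τ * mapGL ℝ (tz h) * mapGL ℝ τ⁻¹)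
          = mapGL ℝ τ * (heckeMatrix l α * ((mapGL ℝ τ⁻¹ * mapGL ℝ τ) * mapGL ℝ (tz h))) *
              mapGL ℝ τ⁻¹ := by simp only [mul_assoc]
        _ = _ := by rw [mapGL_inv_mul, one_mul]
    rw [h1] at e
    have h2 : mapGL ℝ τ⁻¹ * (mapGL ℝ τ * (heckeMatrix l α * mapGL ℝ (tz h)) * mapGL ℝ τ⁻¹) *
        mapGL ℝ τ = mapGL ℝ τ⁻¹ * (mapGL ℝ c * (mapGL ℝ τ * heckeMatrix l α * mapGL ℝ τ⁻¹)) *
        mapGL ℝ τ := by rw [e]
    have h3 : mapGL ℝ τ⁻¹ * (mapGL ℝ τ * (heckeMatrix l α * mapGL ℝ (tz h)) * mapGL ℝ τ⁻¹) *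
        mapGL ℝ τ = heckeMatrix l α * mapGL ℝ (tz h) := by
      calc mapGL ℝ τ⁻¹ * (mapGL ℝ τ * (heckeMatrix l α * mapGL ℝ (tz h)) * mapGL ℝ τ⁻¹) *
            mapGL ℝ τ
          = (mapGL ℝ τ⁻¹ * mapGL ℝ τ) * (heckeMatrix l α * mapGL ℝ (tz h)) *
              (mapGL ℝ τ⁻¹ * mapGL ℝ τ) := by simp only [mul_assoc]
        _ = _ := by rw [mapGL_inv_mul, one_mul, mul_one]
    have h4 : mapGL ℝ τ⁻¹ * (mapGL ℝ c * (mapGL ℝ τ * heckeMatrix l α * mapGL ℝ τ⁻¹)) *
        mapGL ℝ τ = mapGL ℝ (τ⁻¹ * c * τ) * heckeMatrix l α := by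
      rw [map_mul, map_mul]
      calc mapGL ℝ τ⁻¹ * (mapGL ℝ c * (mapGL ℝ τ * heckeMatrix l α * mapGL ℝ τ⁻¹)) * mapGL ℝ τ
          = mapGL ℝ τ⁻¹ * mapGL ℝ c * mapGL ℝ τ * heckeMatrix l α *
              (mapGL ℝ τ⁻¹ * mapGL ℝ τ) := by simp only [mul_assoc]
        _ = _ := by rw [mapGL_inv_mul, mul_one]
    rw [h3, h4] at h2
    exact h2
  have e3 := ((isInt_heckeMatrix hl α).mul (isInt_mapGL (tz h))).inj
    ((isInt_mapGL (τ⁻¹ * c * τ)).mul (isInt_heckeMatrix hl α)) e2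
  exact dvd_of_upper_mul_tz e3

/-! ## The dichotomy -/

variable {K : Subgroup SL(2, ℤ)}

theorem coprime_of_dvd_sub_one (hl : l.Prime) (hM : (M : ℤ) ∣ (l : ℤ) - 1) : Nat.Coprime l M := by
  rw [Nat.coprime_comm, Nat.Coprime, ← Nat.dvd_one]
  have h1 : ((Nat.gcd M l : ℕ) : ℤ) ∣ (l : ℤ) - 1 :=
    dvd_trans (by exact_mod_cast Nat.gcd_dvd_left M l) hM
  have h2 : ((Nat.gcd M l : ℕ) : ℤ) ∣ (l : ℤ) := by exact_mod_cast Nat.gcd_dvd_right M l
  have h3 : ((Nat.gcd M l : ℕ) : ℤ) ∣ 1 := by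
    have := dvd_sub h2 h1
    rwa [sub_sub_cancel] at this
  exact_mod_cast h3

theorem not_dvd_of_dvd_sub_one (hl : l.Prime) (hM : (M : ℤ) ∣ (l : ℤ) - 1) : ¬ l ∣ M :=
  (Nat.Prime.coprime_iff_not_dvd hl).mp (coprime_of_dvd_sub_one hl hM)

/-- From `X * τ = g₀ * B` to `X = (g₀ τ⁻¹) * (τ B τ⁻¹)` with `g₀ τ⁻¹ ∈ K`. -/
theorem exists_factor (hK : IsMid M K) (τ g₀ : SL(2, ℤ)) {X B : GL (Fin 2) ℝ}
    (hX : IsNormRep M X) (hZ : IsNormRep M (mapGL ℝ τ * B * mapGL ℝ τ⁻¹))
    (e : X * mapGL ℝ τ = mapGL ℝ g₀ * B) :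
    ∃ k : K, X = ιK K k * (mapGL ℝ τ * B * mapGL ℝ τ⁻¹) := by
  have hτ : mapGL ℝ τ * mapGL ℝ τ⁻¹ = 1 := by rw [← map_mul, mul_inv_cancel, map_one]
  have e1 : X = mapGL ℝ (g₀ * τ⁻¹) * (mapGL ℝ τ * B * mapGL ℝ τ⁻¹) := by
    rw [map_mul]
    calc X = X * (mapGL ℝ τ * mapGL ℝ τ⁻¹) := by rw [hτ, mul_one]
      _ = (X * mapGL ℝ τ) * mapGL ℝ τ⁻¹ := by rw [mul_assoc]
      _ = mapGL ℝ g₀ * B * mapGL ℝ τ⁻¹ := by rw [e]
      _ = mapGL ℝ g₀ * ((mapGL ℝ τ⁻¹ * mapGL ℝ τ) * B) * mapGL ℝ τ⁻¹ := by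
          rw [mapGL_inv_mul, one_mul]
      _ = mapGL ℝ g₀ * mapGL ℝ τ⁻¹ * (mapGL ℝ τ * B * mapGL ℝ τ⁻¹) := by simp only [mul_assoc]
  have e2 : X * ιN M 1 = mapGL ℝ (g₀ * τ⁻¹) * (mapGL ℝ τ * B * mapGL ℝ τ⁻¹) := by
    rw [map_one, mul_one]
    exact e1
  obtain ⟨hk, hd⟩ := normRep_coc hX hZ e2
  rw [map_one] at hd
  exact ⟨⟨g₀ * τ⁻¹, hK.mem_of_dUnit_eq_one hd⟩, e1⟩

/-- **Dichotomy.**  Every integral normalised matrix of determinant `l` is `k * zP` or
`k * zM α`, `k ∈ K`, `M ∣ α`. -/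
theorem rep_dichotomy (hl : l.Prime) (hM : (M : ℤ) ∣ (l : ℤ) - 1) (hK : IsMid M K)
    (τ : SL(2, ℤ)) {X : GL (Fin 2) ℝ} (hX : IsIntRep M l X) :
    (∃ k : K, X = ιK K k * zP τ l) ∨
      ∃ (α : ℕ) (k : K), M ∣ α ∧ X = ιK K k * zM τ l α := by
  have hl0 : l ≠ 0 := hl.ne_zero
  have hXn : IsNormRep M X := hX.isNormRep
  obtain ⟨x, -, -, hdet, hval⟩ := hX
  have hXi : IsInt X x := hval
  have hY : (x * (τ : Matrix (Fin 2) (Fin 2) ℤ)).det = (l : ℤ) := by
    rw [Matrix.det_mul, hdet, τ.det_coe, mul_one]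
  by_cases hF : (l : ℤ) ∣ (x * (τ : Matrix (Fin 2) (Fin 2) ℤ)) 0 0 ∧
      (l : ℤ) ∣ (x * (τ : Matrix (Fin 2) (Fin 2) ℤ)) 1 0
  · left
    obtain ⟨g₀, hg₀⟩ := hnf_diag (by exact_mod_cast hl0) _ hY hF.1 hF.2
    have e : X * mapGL ℝ τ = mapGL ℝ g₀ * heckeDiagMatrix l :=
      (hXi.mul (isInt_mapGL τ)).eq ((isInt_mapGL g₀).mul (isInt_heckeDiag hl0)) hg₀
    exact exists_factor hK τ g₀ hXn (isNormRep_zP τ hl0 hM) e
  · right
    obtain ⟨α, g₀, hα, hg₀⟩ := hnf_upper hl (coprime_of_dvd_sub_one hl hM) _ hY hF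
    have e : X * mapGL ℝ τ = mapGL ℝ g₀ * heckeMatrix l α :=
      (hXi.mul (isInt_mapGL τ)).eq ((isInt_mapGL g₀).mul (isInt_heckeMatrix hl0 α)) hg₀
    obtain ⟨k, hk⟩ := exists_factor hK τ g₀ hXn (isNormRep_zM τ hl0 hM hα) e
    exact ⟨α, k, hα, hk⟩

end Fermat.Agent.S59.TW.H653.Bdry

end
-- ===== PACK-END S59/TW/H653/Bdry/Core.lean

-- ===== PACK-BEGIN A3/H619/Points.lean
section
/-
A3 / piece ORD (helper619): the `ℚ̄`-points of an order `H` satisfying `OrderHyp` are the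
evaluations at the points of `T`.
-/


set_option autoImplicit false
set_option linter.unusedSectionVars false

noncomputable section

namespace Fermat.Agent.A3.H619

open GaloisRep TensorProduct Module

variable {p : ℕ} {T : Type} [AddCommGroup T] [Finite T]
variable {H : Subalgebra (ratLocalizedAt p) (T → Qb)} {act : GQ → T → T}

/-- Evaluation at a point of `T`. -/
def evPt (H : Subalgebra (ratLocalizedAt p) (T → Qb)) (t : T) : ↥H →ₐ[ratLocalizedAt p] Qb :=
  (Pi.evalAlgHom (ratLocalizedAt p) (fun _ : T => Qb) t).comp H.val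

omit [AddCommGroup T] [Finite T] in
@[simp]
theorem evPt_apply (t : T) (f : ↥H) : evPt H t f = (f : T → Qb) t := rfl

namespace OrderHyp

variable (h : OrderHyp p T act H)
include h

theorem evPt_injective : Function.Injective (evPt H) := by
  intro s t hst
  by_contra hne
  obtain ⟨f, hf, hfne⟩ := h.sep s t hne
  exact hfne (by simpa using congrArg (fun φ : ↥H →ₐ[ratLocalizedAt p] Qb => φ ⟨f, hf⟩) hst)

/-- A `ℚ̄`-linear, unital, multiplicative functional on `T → ℚ̄` is an evaluation. -/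
theorem exists_eval_of_mul (Φ : (T → Qb) →ₗ[Qb] Qb) (h1 : Φ 1 = 1)
    (hmul : ∀ x y, Φ (x * y) = Φ x * Φ y) : ∃ t : T, ∀ f, Φ f = f t := by
  classical
  cases nonempty_fintype T
  have hsum : ∑ t, Φ (Pi.single t (1 : Qb)) = 1 := by
    have h2 : ∑ t, (Pi.single t (1 : Qb) : T → Qb) = 1 := by
      funext u
      simp [Finset.sum_apply, Pi.single_apply]
    rw [← map_sum, h2, h1]
  obtain ⟨t, ht⟩ : ∃ t, Φ (Pi.single t (1 : Qb)) ≠ 0 := by
    by_contra hcon
    push Not at hcon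
    rw [Finset.sum_eq_zero (fun t _ => hcon t)] at hsum
    exact zero_ne_one hsum
  refine ⟨t, fun f => ?_⟩
  have hf : f * Pi.single t (1 : Qb) = f t • Pi.single t (1 : Qb) := by
    funext u
    by_cases hu : u = t
    · subst hu; simp
    · simp [Pi.single_eq_of_ne hu]
  have := hmul f (Pi.single t (1 : Qb))
  rw [hf, map_smul, smul_eq_mul] at this
  exact (mul_right_cancel₀ ht this).symm

theorem evPt_surjective : Function.Surjective (evPt H) := by
  classical
  intro φ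
  obtain ⟨ι, _, b, hb⟩ := h.isGood_val
  have key : ∀ f : ↥H, (f : T → Qb) = ∑ i, (algebraMap (ratLocalizedAt p) Qb (b.repr f i)) •
      H.val.toLinearMap (b i) := by
    intro f
    have hrepr : f = ∑ i, b.repr f i • b i := (b.sum_repr _).symm
    have := congrArg (fun g : ↥H => H.val.toLinearMap g) hrepr
    simp only [map_sum, map_smul] at this
    refine this.trans ?_
    refine Finset.sum_congr rfl fun i _ => ?_
    rw [algebraMap_smul]
  -- the `ℚ̄`-basis
  have hspan : ⊤ ≤ Submodule.span Qb (Set.range fun i => H.val.toLinearMap (b i)) := by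
    rw [← span_eq_top_of_separates H h.sep]
    apply Submodule.span_le.mpr
    intro f hf
    change ((⟨f, hf⟩ : ↥H) : T → Qb) ∈ _
    rw [key]
    exact Submodule.sum_mem _ fun i _ =>
      Submodule.smul_mem _ _ (Submodule.subset_span ⟨i, rfl⟩)
  let 𝔅 : Basis ι Qb (T → Qb) := Basis.mk hb hspan
  have h𝔅 : ∀ i, 𝔅 i = H.val.toLinearMap (b i) := fun i => Basis.mk_apply hb hspan i
  let Φ : (T → Qb) →ₗ[Qb] Qb := 𝔅.constr Qb (fun i => φ (b i))
  have hΦb : ∀ i, Φ (H.val.toLinearMap (b i)) = φ (b i) := by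
    intro i
    rw [← h𝔅 i]
    exact 𝔅.constr_basis Qb _ i
  -- `Φ` extends `φ`
  have hΦ : ∀ f : ↥H, Φ (f : T → Qb) = φ f := by
    intro f
    have hrepr : f = ∑ i, b.repr f i • b i := (b.sum_repr _).symm
    rw [key f, map_sum]
    conv_rhs => rw [hrepr, map_sum]
    refine Finset.sum_congr rfl fun i _ => ?_
    rw [map_smul, hΦb, map_smul, smul_eq_mul, Algebra.smul_def]
  have hone : Φ 1 = 1 := by
    have := hΦ 1
    rw [map_one] at this
    exact this
  have hmul : ∀ x y, Φ (x * y) = Φ x * Φ y := by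
    intro x y
    -- bilinearity: reduce to basis vectors
    have hxy : ∀ i j, Φ (𝔅 i * 𝔅 j) = Φ (𝔅 i) * Φ (𝔅 j) := by
      intro i j
      rw [h𝔅, h𝔅]
      have := hΦ (b i * b j)
      rw [map_mul] at this
      rw [hΦb, hΦb, ← this]
      rfl
    have hy : ∀ i, Φ (𝔅 i * y) = Φ (𝔅 i) * Φ y := by
      intro i
      have : (Φ ∘ₗ LinearMap.mulLeft Qb (𝔅 i)) = (Φ (𝔅 i)) • Φ := by
        apply 𝔅.ext
        intro j
        simp only [LinearMap.comp_apply, LinearMap.mulLeft_apply, LinearMap.smul_apply,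
          smul_eq_mul]
        exact hxy i j
      have := congrArg (fun L : (T → Qb) →ₗ[Qb] Qb => L y) this
      simpa using this
    have : (Φ ∘ₗ LinearMap.mulRight Qb y) = (Φ y) • Φ := by
      apply 𝔅.ext
      intro i
      simp only [LinearMap.comp_apply, LinearMap.mulRight_apply, LinearMap.smul_apply,
        smul_eq_mul]
      rw [hy i, mul_comm]
    have := congrArg (fun L : (T → Qb) →ₗ[Qb] Qb => L x) this
    simp only [LinearMap.comp_apply, LinearMap.mulRight_apply, LinearMap.smul_apply,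
      smul_eq_mul] at this
    rw [this, mul_comm]
  obtain ⟨t, ht⟩ := h.exists_eval_of_mul Φ hone hmul
  refine ⟨t, ?_⟩
  apply AlgHom.ext
  intro f
  rw [evPt_apply, ← hΦ f, ht]

end OrderHyp

end Fermat.Agent.A3.H619

end
end
-- ===== PACK-END A3/H619/Points.lean

-- ===== PACK-BEGIN Lib/RR/H439/Pencil.lean
section



/-!
# Riemann–Roch corollaries: base points, generic members, the base-point-free pencil trick

(helper439, cell A3 / piece D5 of `coord/A3-helper979.md`; route independent.)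

Setting: `[FF1 K F]` (function field of one variable, all places of degree one), `g = genusFF K F`.

* `ell_sub_prim_add_one`       : `deg E ≥ 2g` ⟹ `ℓ(E - P) + 1 = ℓ(E)`.
* `exists_mem_L_ord_eq`        : `deg E ≥ 2g` ⟹ `P` is not a base point of `|E|`.
* `exists_mem_L_forall_ord_eq` : (`K` infinite) a member of `|E|` avoiding a finite set of places.
* `exists_two_members`         : (`K` infinite) two members of `|E|` without common zero, both
                                 avoiding a given finite set.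
* `pencil_trick`               : `β₁ α₂ = β₂ α₁`, `α₁, α₂` without common zero ⟹
                                 `(β₁, β₂) = γ (α₁, α₂)` with `γ ∈ L(B - E)`.
* `exists_eq_mul_add_mul`      : `L(B) α₁ + L(B) α₂ = L(B + E)` if `deg (B - E) > 2g - 2`.
* `exists_effective`           : `deg D ≥ g` ⟹ the class of `D` is effective.
* `eq_of_effective_of_ell_eq_one` : uniqueness of the effective representative when `ℓ = 1`.
* `ell_eq_ell_sub_add_degree`  : `ℓ(B) = ℓ(B - D) + deg D` if `deg (B - D) > 2g - 2`.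
-/

set_option autoImplicit false

noncomputable section

open AlgebraicCurve

namespace Fermat.Agent.Lib.RR.H439

open Fermat.Agent.Lib.RR

variable {K F : Type*} [Field K] [Field F] [Algebra K F]

section Basic

/-- An element of `L(E) ∖ L(E - P)` has order exactly `-E(P)` at `P`. -/
theorem ord_eq_of_mem_of_not_mem_sub (E : Divisor K F) (v : Place K F) {f : F}
    (hf : f ∈ riemannRochSpace E) (hf' : f ∉ riemannRochSpace (E - prim v)) :
    v.ord f = -E v := by
  have h1 : f ∈ riemannRochSpace ((E - prim v) + prim v) := by rwa [sub_add_cancel]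
  have := H638.ord_eq_of_mem_of_not_mem (E - prim v) v h1 hf'
  rw [this]
  simp only [Finsupp.coe_sub, Pi.sub_apply, prim_apply_self]
  ring

/-- Conversely, an element of order `-E(P)` at `P` is not in `L(E - P)`. -/
theorem not_mem_sub_of_ord_eq (E : Divisor K F) (v : Place K F) {f : F} (hf0 : f ≠ 0)
    (h : v.ord f = -E v) : f ∉ riemannRochSpace (E - prim v) := by
  intro hmem
  have := (mem_L_iff.mp hmem v).resolve_left hf0
  simp only [Finsupp.coe_sub, Pi.sub_apply, prim_apply_self] at this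
  omega

theorem sub_prim_le (E : Divisor K F) (v : Place K F) : E - prim v ≤ E := by
  rw [Finsupp.le_def]
  intro w
  simp only [Finsupp.coe_sub, Pi.sub_apply]
  by_cases hw : w = v
  · subst hw; rw [prim_apply_self]; omega
  · rw [prim_apply_of_ne hw]; omega

end Basic

section RR

variable [FF1 K F]

/-- `deg E ≥ 2g` ⟹ `ℓ(E - P) + 1 = ℓ(E)`. -/
theorem ell_sub_prim_add_one {E : Divisor K F}
    (hE : 2 * (genusFF K F : ℤ) ≤ Divisor.degree E) (v : Place K F) :
    ell (E - prim v) + 1 = ell E := by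
  have h1 : (ell E : ℤ) = Divisor.degree E + 1 - (genusFF K F : ℤ) :=
    ell_eq_of_degree_gt (by omega)
  have h2 : (ell (E - prim v) : ℤ) = Divisor.degree (E - prim v) + 1 - (genusFF K F : ℤ) :=
    ell_eq_of_degree_gt (by rw [map_sub, degree_prim']; omega)
  rw [map_sub, degree_prim'] at h2
  omega

/-- `deg E ≥ 2g` ⟹ `L(E - P)` is a proper subspace of `L(E)`. -/
theorem exists_mem_not_mem_sub {E : Divisor K F}
    (hE : 2 * (genusFF K F : ℤ) ≤ Divisor.degree E) (v : Place K F) :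
    ∃ f ∈ riemannRochSpace E, f ∉ riemannRochSpace (E - prim v) := by
  by_contra hcon
  push Not at hcon
  have hle : riemannRochSpace E ≤ riemannRochSpace (E - prim v) := fun f hf => hcon f hf
  have := Submodule.finrank_mono hle
  have h2 := ell_sub_prim_add_one hE v
  unfold ell at h2
  omega

/-- **No base points**: if `deg E ≥ 2g` then for every place `P` some member of `L(E)` has order
exactly `-E(P)` at `P`. -/
theorem exists_mem_L_ord_eq {E : Divisor K F}
    (hE : 2 * (genusFF K F : ℤ) ≤ Divisor.degree E) (v : Place K F) :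
    ∃ f ∈ riemannRochSpace E, f ≠ 0 ∧ v.ord f = -E v := by
  obtain ⟨f, hf, hf'⟩ := exists_mem_not_mem_sub hE v
  refine ⟨f, hf, ?_, ord_eq_of_mem_of_not_mem_sub E v hf hf'⟩
  rintro rfl
  exact hf' (Submodule.zero_mem _)

/-- **Generic members**: over an infinite constant field, if `deg E ≥ 2g` then for every finite
set `S` of places some member of `L(E)` has order exactly `-E(P)` at all `P ∈ S`. -/
theorem exists_mem_L_forall_ord_eq [Infinite K] {E : Divisor K F}
    (hE : 2 * (genusFF K F : ℤ) ≤ Divisor.degree E) (S : Finset (Place K F)) :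
    ∃ f ∈ riemannRochSpace E, f ≠ 0 ∧ ∀ v ∈ S, v.ord f = -E v := by
  classical
  -- the proper subspaces `L(E - P) ∩ L(E)` of `L(E)`, together with `⊥`
  let p : Place K F → Subspace K (riemannRochSpace E) := fun v =>
    Submodule.comap (riemannRochSpace E).subtype (riemannRochSpace (E - prim v))
  let s : Finset (Subspace K (riemannRochSpace E)) := insert ⊥ (S.image p)
  have hne : ∀ v, p v ≠ ⊤ := by
    intro v htop
    obtain ⟨f, hf, hf'⟩ := exists_mem_not_mem_sub hE v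
    have : (⟨f, hf⟩ : riemannRochSpace E) ∈ p v := by rw [htop]; trivial
    exact hf' this
  have hbot : (⊥ : Subspace K (riemannRochSpace E)) ≠ ⊤ := by
    intro h
    obtain ⟨v⟩ := (inferInstance : FF1 K F).nonempty_place
    obtain ⟨f, hf, hf0, -⟩ := exists_mem_L_ord_eq hE v
    have : (⟨f, hf⟩ : riemannRochSpace E) ∈ (⊥ : Subspace K (riemannRochSpace E)) := by
      rw [h]; trivial
    rw [Submodule.mem_bot] at this
    exact hf0 (congrArg Subtype.val this)
  have hs : (⊤ : Subspace K (riemannRochSpace E)) ∉ s := by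
    intro h
    rcases Finset.mem_insert.mp h with h | h
    · exact hbot h.symm
    · obtain ⟨v, -, hv⟩ := Finset.mem_image.mp h
      exact hne v hv
  have hcov := Subspace.biUnion_ne_univ_of_top_notMem hs
  obtain ⟨x, hx⟩ := (Set.ne_univ_iff_exists_notMem _).mp hcov
  simp only [Set.mem_iUnion, not_exists] at hx
  have hx0 : x ≠ 0 := by
    intro h0
    refine hx ⊥ (Finset.mem_insert_self _ _) ?_
    rw [h0]; exact Submodule.zero_mem _
  refine ⟨x, x.2, fun h => hx0 (Subtype.ext h), fun v hv => ?_⟩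
  apply ord_eq_of_mem_of_not_mem_sub E v x.2
  intro hmem
  exact hx (p v) (Finset.mem_insert_of_mem (Finset.mem_image_of_mem p hv)) hmem

/-- The zeros of a member `f` of `|E|` (the support of the residual divisor `E + div f`) form a
finite set. -/
theorem finite_setOf_ord_ne {E : Divisor K F} {f : F} (hf0 : f ≠ 0) :
    {v : Place K F | v.ord f ≠ -E v}.Finite := by
  classical
  refine (Finset.finite_toSet (E + divOf f hf0).support).subset ?_
  intro v hv
  rw [Finset.mem_coe, Finsupp.mem_support_iff]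
  simp only [Finsupp.coe_add, Pi.add_apply, divOf_apply]
  intro h
  exact hv (by omega)

/-- **Two members without common zero**: over an infinite constant field, if `deg E ≥ 2g` then
there are `f₁, f₂ ∈ L(E)` such that at every place one of them has order exactly `-E(P)`, and
both have order exactly `-E(P)` at every place of a given finite set `S`. -/
theorem exists_two_members [Infinite K] {E : Divisor K F}
    (hE : 2 * (genusFF K F : ℤ) ≤ Divisor.degree E) (S : Finset (Place K F)) :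
    ∃ f₁ ∈ riemannRochSpace E, ∃ f₂ ∈ riemannRochSpace E, f₁ ≠ 0 ∧ f₂ ≠ 0 ∧
      (∀ v ∈ S, v.ord f₁ = -E v ∧ v.ord f₂ = -E v) ∧
      ∀ v : Place K F, v.ord f₁ = -E v ∨ v.ord f₂ = -E v := by
  classical
  obtain ⟨f₁, hf₁, hf₁0, h₁⟩ := exists_mem_L_forall_ord_eq hE S
  have hfin := finite_setOf_ord_ne (E := E) hf₁0
  obtain ⟨f₂, hf₂, hf₂0, h₂⟩ := exists_mem_L_forall_ord_eq hE (S ∪ hfin.toFinset)
  refine ⟨f₁, hf₁, f₂, hf₂, hf₁0, hf₂0, fun v hv => ⟨h₁ v hv, h₂ v (Finset.mem_union_left _ hv)⟩,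
    fun v => ?_⟩
  by_cases hv : v.ord f₁ = -E v
  · exact Or.inl hv
  · right
    apply h₂ v
    apply Finset.mem_union_right
    rw [Set.Finite.mem_toFinset]
    exact hv

end RR

section Pencil

/-- **Base-point-free pencil trick** (pointwise form).  If `α₁, α₂` have no common zero as
sections of `O(E)` and `β₁ α₂ = β₂ α₁` with `β₁, β₂ ∈ L(B)`, then `(β₁, β₂) = γ (α₁, α₂)` with
`γ ∈ L(B - E)`. -/
theorem pencil_trick {E B : Divisor K F} {α₁ α₂ β₁ β₂ : F} (hα₁ : α₁ ≠ 0) (hα₂ : α₂ ≠ 0)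
    (hα : ∀ v : Place K F, v.ord α₁ = -E v ∨ v.ord α₂ = -E v)
    (hβ₁ : β₁ ∈ riemannRochSpace B) (hβ₂ : β₂ ∈ riemannRochSpace B)
    (h : β₁ * α₂ = β₂ * α₁) :
    ∃ γ ∈ riemannRochSpace (B - E), β₁ = γ * α₁ ∧ β₂ = γ * α₂ := by
  have e1 : β₁ = β₁ / α₁ * α₁ := by field_simp
  have e2 : β₂ = β₁ / α₁ * α₂ := by
    field_simp
    rw [h]
  refine ⟨β₁ / α₁, ?_, e1, e2⟩
  rw [mem_L_iff]
  intro v
  by_cases hγ : β₁ / α₁ = 0
  · exact Or.inl hγ
  right
  have hβ₁0 : β₁ ≠ 0 := by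
    rintro rfl
    exact hγ (by simp)
  have hβ₂0 : β₂ ≠ 0 := by
    rw [e2]
    exact mul_ne_zero hγ hα₂
  simp only [Finsupp.coe_sub, Pi.sub_apply]
  rcases hα v with hv | hv
  · have h1 := (mem_L_iff.mp hβ₁ v).resolve_left hβ₁0
    have h2 : v.ord β₁ = v.ord (β₁ / α₁) + v.ord α₁ := by
      conv_lhs => rw [e1]
      exact v.ord_mul hγ hα₁
    omega
  · have h1 := (mem_L_iff.mp hβ₂ v).resolve_left hβ₂0
    have h2 : v.ord β₂ = v.ord (β₁ / α₁) + v.ord α₂ := by
      conv_lhs => rw [e2]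
      exact v.ord_mul hγ hα₂
    omega

/-- Multiplication `L(B - E) × L(E) → L(B)`. -/
theorem mul_mem_L {B E : Divisor K F} {γ α : F} (hγ : γ ∈ riemannRochSpace (B - E))
    (hα : α ∈ riemannRochSpace E) : γ * α ∈ riemannRochSpace B := by
  rw [mem_L_iff]
  intro v
  by_cases h0 : γ * α = 0
  · exact Or.inl h0
  right
  have hγ0 : γ ≠ 0 := left_ne_zero_of_mul h0
  have hα0 : α ≠ 0 := right_ne_zero_of_mul h0
  have h1 := (mem_L_iff.mp hγ v).resolve_left hγ0
  have h2 := (mem_L_iff.mp hα v).resolve_left hα0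
  simp only [Finsupp.coe_sub, Pi.sub_apply] at h1
  rw [v.ord_mul hγ0 hα0]
  omega

end Pencil

end Fermat.Agent.Lib.RR.H439

end
end
-- ===== PACK-END Lib/RR/H439/Pencil.lean

-- ===== PACK-BEGIN S59/G4/H547/Red.lean
section





/-!
# Row S59, layer G4, piece RED (helper547)

`red : Fermat.Agent.S59.G4.RedStatement` — the Prelude ring `CuspForm.heckeLocal N S 𝒪 θ`
is reduced whenever `S` contains the primes dividing `N`.

Route: the anemic Hecke algebra `𝕋 = heckeAlgebra N 2 S` is reduced (`S31.H862`, Petersson);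
`heckeLatticeAlgebra N S ≅ 𝕋` (Prelude `latticeRestrictHom_bijective` + landed S23);
`𝒪 ⊗[ℤ] B ↪ Frac 𝒪 ⊗[ℤ] B` for the flat `ℤ`-module `B`, and the target is reduced
(`S31.H262.isReduced_field_tensor`); localisations of reduced rings are reduced.

Reusable general lemmas: `isReduced_tensor_of_injective`, `isReduced_tensor_of_finite_free`.
-/

set_option autoImplicit false
set_option linter.style.haveILetI false

open scoped TensorProduct

namespace Fermat.Agent.S59.G4.H547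

/-- If a ring `𝒪` embeds into a field `K` of characteristic zero and `B` is a reduced ring,
finite and free over `ℤ`, then `𝒪 ⊗[ℤ] B` is reduced. -/
theorem isReduced_tensor_of_injective (𝒪 : Type) [CommRing 𝒪]
    (K : Type) [Field K] [CharZero K] (φ : 𝒪 →+* K) (hφ : Function.Injective φ)
    (B : Type) [CommRing B] [Module.Finite ℤ B] [Module.Free ℤ B] [IsReduced B] :
    IsReduced (𝒪 ⊗[ℤ] B) := by
  haveI : IsReduced (K ⊗[ℤ] B) := Fermat.Agent.S31.H262.isReduced_field_tensor B K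
  let f : (𝒪 ⊗[ℤ] B) →ₐ[ℤ] (K ⊗[ℤ] B) :=
    Algebra.TensorProduct.map φ.toIntAlgHom (AlgHom.id ℤ B)
  have hf : Function.Injective f := by
    have h1 : Function.Injective (LinearMap.rTensor B φ.toIntAlgHom.toLinearMap) :=
      Module.Flat.rTensor_preserves_injective_linearMap _ hφ
    intro x y hxy
    apply h1
    exact hxy
  exact isReduced_of_injective f hf

/-- For a domain `𝒪` of characteristic zero and a reduced ring `B`, finite and free over `ℤ`,
the base change `𝒪 ⊗[ℤ] B` is reduced. -/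
theorem isReduced_tensor_of_finite_free (𝒪 : Type) [CommRing 𝒪] [IsDomain 𝒪] [CharZero 𝒪]
    (B : Type) [CommRing B] [Module.Finite ℤ B] [Module.Free ℤ B] [IsReduced B] :
    IsReduced (𝒪 ⊗[ℤ] B) := by
  haveI : CharZero (FractionRing 𝒪) :=
    charZero_of_injective_algebraMap (IsFractionRing.injective 𝒪 (FractionRing 𝒪))
  exact isReduced_tensor_of_injective 𝒪 (FractionRing 𝒪) (algebraMap 𝒪 (FractionRing 𝒪))
    (IsFractionRing.injective 𝒪 (FractionRing 𝒪)) B

/-- **RED.** The local Hecke algebra of the Prelude is reduced. -/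
theorem red : RedStatement := by
  intro N _ S hNS 𝒪 _ _ _ _ _ θ
  have hint : CuspForm.HasIntegralStructure N 2 := Fermat.Agent.S23.result N
  haveI : IsReduced (CuspForm.heckeAlgebra N 2 S) :=
    Fermat.Agent.S31.H862.heckeAlgebra_isReduced N S hNS
  let e : CuspForm.heckeAlgebra N 2 S ≃ₐ[ℤ] CuspForm.heckeLatticeAlgebra N S :=
    AlgEquiv.ofBijective (CuspForm.latticeRestrictHom N S)
      (CuspForm.latticeRestrictHom_bijective N S hint)
  haveI : IsReduced (CuspForm.heckeLatticeAlgebra N S) :=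
    isReduced_of_injective e.symm e.symm.injective
  haveI : IsReduced (CuspForm.heckeBaseAlgebra N S 𝒪) :=
    isReduced_tensor_of_finite_free 𝒪 (CuspForm.heckeLatticeAlgebra N S)
  exact isReduced_localizationPreserves (CuspForm.heckeLocalSubmonoid N S 𝒪 θ)
    (CuspForm.heckeLocal N S 𝒪 θ) inferInstance

end Fermat.Agent.S59.G4.H547

end
-- ===== PACK-END S59/G4/H547/Red.lean

-- ===== PACK-BEGIN S59/TW/H123/InertiaOrder.lean
section



/-!
# Row S59, cell TW, layer 2: leaf INO = `InertiaOrderStatement` (helper123)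

At a Taylor–Wiles prime `q` an inertia value `w` at `(φ, σ)`, `σ ∈ I_P`, is a root of
`charpoly ρ(σ) = (X - w)(X - w')` with `w w' = 1` and `w ^ (p-part of q - 1) = 1`.

Route: `H59.twGal1` (TW-GAL1, on main) gives a basis in which the decomposition group acts
diagonally through `ξ 0`, `ξ 1`.  From `(X - ξ 0 φ)(X - ξ 1 φ) = (X - a)(X - b)`,
`ξ 0 φ ≡ a` and `a - b` a unit we get `ξ 0 φ = a`, `ξ 1 φ = b`; then
`tr ρ(φσ) - b tr ρ(σ) = (a - b) ξ 0 σ`, so `w = ξ 0 σ`, and `w' := ξ 1 σ`.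
-/

set_option autoImplicit false
set_option linter.unusedSectionVars false
set_option linter.unusedVariables false
set_option linter.style.haveILetI false

noncomputable section

namespace Fermat.Agent.S59.TW.H123

open Polynomial IsLocalRing
open Fermat.Agent.S59.Arch Fermat.Agent.S59.TW Fermat.Agent.S59.TW.H959

/-- The inertia group is contained in the decomposition group. -/
theorem mem_decomposition_of_mem_inertia123 {P : ValuationSubring (AlgebraicClosure ℚ)}
    {σ : AlgebraicClosure ℚ ≃ₐ[ℚ] AlgebraicClosure ℚ} (h : σ ∈ P.inertiaSubgroupIn ℚ) :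
    σ ∈ P.decompositionSubgroup ℚ := by
  obtain ⟨τ, -, rfl⟩ := h
  exact τ.2

section Diag

variable {A : Type} [CommRing A] {V : Type} [AddCommGroup V] [Module A V]

/-- The matrix of an endomorphism which is diagonal in a basis. -/
theorem toMatrix_eq_diagonal123 (bs : Module.Basis (Fin 2) A V) (f : Module.End A V)
    (d : Fin 2 → A) (hf : ∀ i, f (bs i) = d i • bs i) :
    LinearMap.toMatrix bs bs f = Matrix.diagonal d := by
  ext i j
  rw [LinearMap.toMatrix_apply, hf, map_smul, Module.Basis.repr_self, Finsupp.smul_apply,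
    Finsupp.single_apply, Matrix.diagonal_apply, smul_eq_mul]
  by_cases hij : i = j
  · subst hij; simp
  · have hji : ¬ j = i := fun h => hij h.symm
    simp [hij, hji]

theorem charpoly_of_diag123 (bs : Module.Basis (Fin 2) A V) (f : Module.End A V)
    (d : Fin 2 → A) (hf : ∀ i, f (bs i) = d i • bs i) :
    haveI : Module.Free A V := Module.Free.of_basis bs
    haveI : Module.Finite A V := Module.Finite.of_basis bs
    LinearMap.charpoly f = (X - C (d 0)) * (X - C (d 1)) := by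
  haveI : Module.Free A V := Module.Free.of_basis bs
  haveI : Module.Finite A V := Module.Finite.of_basis bs
  rw [← LinearMap.charpoly_toMatrix f bs, toMatrix_eq_diagonal123 bs f d hf,
    Matrix.charpoly_diagonal, Fin.prod_univ_two]

theorem trace_of_diag123 (bs : Module.Basis (Fin 2) A V) (f : Module.End A V)
    (d : Fin 2 → A) (hf : ∀ i, f (bs i) = d i • bs i) :
    LinearMap.trace A V f = d 0 + d 1 := by
  rw [LinearMap.trace_eq_matrix_trace A bs f, toMatrix_eq_diagonal123 bs f d hf,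
    Matrix.trace_diagonal, Fin.sum_univ_two]

end Diag

/-- Two factorisations of a monic quadratic with congruent first roots and unit discriminant
coincide. -/
theorem roots_eq_of_factor123 {A : Type} [CommRing A] [IsLocalRing A] {x₀ x₁ a b : A}
    (h : (X - C x₀) * (X - C x₁) = (X - C a) * (X - C b))
    (h0 : x₀ - a ∈ maximalIdeal A) (hab : IsUnit (a - b)) : x₀ = a ∧ x₁ = b := by
  have hsum : x₀ + x₁ = a + b := by
    have h1 := congrArg (fun f : A[X] => f.coeff 1) h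
    simp only [mul_sub, sub_mul, coeff_sub, coeff_X_mul, coeff_C_mul, coeff_mul_C,
      coeff_X_zero, coeff_X_one, coeff_C] at h1
    simp at h1
    linear_combination -h1
  have hprod : x₀ * x₁ = a * b := by
    have h1 := congrArg (fun f : A[X] => f.coeff 0) h
    simp only [mul_sub, sub_mul, coeff_sub, coeff_X_zero, coeff_C_zero, mul_coeff_zero] at h1
    simp at h1
    linear_combination h1
  -- `(a - x₀) (a - x₁) = 0`
  have hzero : (a - x₀) * (a - x₁) = 0 := by
    linear_combination (-a) * hsum + hprod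
  have hunit : IsUnit (a - x₁) := by
    -- `a - x₁ = (a - b) + (x₀ - a)`
    have h2 : a - x₁ = (a - b) + (x₀ - a) := by linear_combination -hsum
    rw [h2]
    by_contra hn
    have hm : (a - b) + (x₀ - a) ∈ maximalIdeal A := hn
    have : a - b ∈ maximalIdeal A := by
      have := (maximalIdeal A).sub_mem hm h0
      simpa using this
    exact this hab
  have hx0 : x₀ = a := by
    have := hunit.mul_left_eq_zero.mp hzero
    exact (sub_eq_zero.mp this).symm
  refine ⟨hx0, ?_⟩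
  rw [hx0] at hsum
  exact add_left_cancel hsum

/-- **LEAF INO** (`InertiaOrderStatement` of `S59/TW/Spec.lean`, verbatim). -/
theorem inertiaOrder : InertiaOrderStatement := by
  intro p _ A _ _ _ _ _ hpA ρ hdet q hq hqp hpq hunr P hP φ hφ σ hσ a₀ w hw
  obtain ⟨a, b, ha₀, hab, hchar, hwab⟩ := hw
  -- the residual characteristic polynomial
  have hcharres : LinearMap.charpoly (ρ.residual.ρ φ) =
      (X - C (residue A a)) * (X - C (residue A b)) := by
    have h1 : LinearMap.charpoly (ρ.residual.ρ φ) =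
        LinearMap.charpoly ((ρ.ρ φ).baseChange (ResidueField A)) := rfl
    rw [h1, LinearMap.charpoly_baseChange, hchar, Polynomial.map_mul, Polynomial.map_sub,
      Polynomial.map_sub, Polynomial.map_X, Polynomial.map_C, Polynomial.map_C]
    rfl
  have hαβ : residue A a ≠ residue A b := by
    intro h
    have h0 : residue A (a - b) = 0 := by rw [map_sub, h, sub_self]
    exact (residue_eq_zero_iff _).mp h0 hab
  obtain ⟨bs, ξ, hD⟩ := Fermat.Agent.S59.H59.twGal1 p q hq hpq A hpA ρ hdet hunr P hP φ hφ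
    _ _ hαβ hcharres
  have hφD : φ ∈ P.decompositionSubgroup ℚ := hφ.mem_decompositionSubgroup
  have hσD : σ ∈ P.decompositionSubgroup ℚ := mem_decomposition_of_mem_inertia123 hσ
  have hφb : ∀ i, ρ.ρ φ (bs i) = ξ i φ • bs i := hD.diag φ hφD
  have hσb : ∀ i, ρ.ρ σ (bs i) = ξ i σ • bs i := hD.diag σ hσD
  have hφσb : ∀ i, ρ.ρ (φ * σ) (bs i) = (ξ i φ * ξ i σ) • bs i := by
    intro i
    rw [map_mul, Module.End.mul_apply, hσb, map_smul, hφb, smul_smul, mul_comm]
  -- the eigenvalues of `ρ(φ)` are `a`, `b`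
  have hcφ := charpoly_of_diag123 bs (ρ.ρ φ) (fun i => ξ i φ) hφb
  have hfac : (X - C (ξ 0 φ)) * (X - C (ξ 1 φ)) = (X - C a) * (X - C b) := by
    rw [← hchar]
    exact hcφ.symm
  have hx0 : ξ 0 φ - a ∈ maximalIdeal A := by
    rw [← residue_eq_zero_iff, map_sub, (hD.frob φ hφ).1, sub_self]
  obtain ⟨hξ0, hξ1⟩ := roots_eq_of_factor123 hfac hx0 hab
  -- the inertia value
  have htφσ : ρ.trace (φ * σ) = a * ξ 0 σ + b * ξ 1 σ := by
    have h1 := trace_of_diag123 bs (ρ.ρ (φ * σ)) (fun i => ξ i φ * ξ i σ) hφσb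
    simp only [hξ0, hξ1] at h1
    exact h1
  have htσ : ρ.trace σ = ξ 0 σ + ξ 1 σ :=
    trace_of_diag123 bs (ρ.ρ σ) (fun i => ξ i σ) hσb
  have hw : w = ξ 0 σ := by
    have h1 : (a - b) * w = (a - b) * ξ 0 σ := by
      rw [hwab, htφσ, htσ]
      ring
    exact hab.mul_left_cancel h1
  refine ⟨ξ 1 σ, ?_, ?_, ?_⟩
  · rw [hw]
    exact hD.inertia_mul σ hσ
  · rw [hw]
    exact hD.inertia_pow σ hσ 0
  · rw [hw]
    exact charpoly_of_diag123 bs (ρ.ρ σ) (fun i => ξ i σ) hσb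

end Fermat.Agent.S59.TW.H123

end

end
-- ===== PACK-END S59/TW/H123/InertiaOrder.lean

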